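import Fermat.Agent.H19W4
import Fermat.Agent.H59Def

/-!
# The Whittaker function on the model `X(K)` (helper19)

* `trr m.e x = Tr_{K/ℚ} x`;
* `nP b`, `dP a`: the classes of `(1 b; 0 1)` and `(a 0; 0 1)` in `PGL₂(K)`, their action on `J → ℍ³`.
* dual lattices.
-/

set_option autoImplicit false
set_option linter.unusedSectionVars false

noncomputable section

open Fermat.Agent (H3)
open NumberField Matrix
open scoped MatrixGroups

namespace Fermat.Agent.H19W

open Fermat.Agent.H59D

variable {K : Type*} [Field K] [NumberField K] {J : Type*} [Fintype J] (m : Model K J)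

/-- the embeddings -/
def emb (p : J × Bool) : K →+* ℂ := if p.2 then m.e p.1 else ComplexEmbedding.conjugate (m.e p.1)

theorem emb_bijective : Function.Bijective (emb m) := by
  constructor
  · rintro ⟨i, a⟩ ⟨j, b⟩ h
    have h1 : InfinitePlace.mk (emb m (i, a)) = InfinitePlace.mk (emb m (j, b)) := by rw [h]
    have h2 : ∀ (i : J) (a : Bool), InfinitePlace.mk (emb m (i, a)) = InfinitePlace.mk (m.e i) := by
      intro i a
      cases a
      · simp [emb]
      · simp [emb]
    rw [h2, h2] at h1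
    obtain rfl := m.e_bij.1 h1
    have h3 : ComplexEmbedding.conjugate (m.e i) ≠ m.e i := fun h =>
      m.e_cx i (ComplexEmbedding.isReal_iff.mpr h)
    cases a <;> cases b
    · rfl
    · simp only [emb, Bool.false_eq_true, if_false, if_true] at h
      exact absurd h h3
    · simp only [emb, Bool.false_eq_true, if_false, if_true] at h
      exact absurd h.symm h3
    · rfl
  · intro φ
    obtain ⟨j, hj⟩ := m.e_bij.2 (InfinitePlace.mk φ)
    rcases InfinitePlace.mk_eq_iff.mp hj with h | h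
    · exact ⟨(j, true), by simpa [emb] using h⟩
    · exact ⟨(j, false), by simpa [emb] using h⟩

theorem trr_eq_trace (x : K) : ((trr m.e x : ℝ) : ℂ) = ((Algebra.trace ℚ K x : ℚ) : ℂ) := by
  have h1 : algebraMap ℚ ℂ (Algebra.trace ℚ K x) = ∑ σ : K →ₐ[ℚ] ℂ, σ x :=
    trace_eq_sum_embeddings ℂ
  have h2 : (∑ σ : K →ₐ[ℚ] ℂ, σ x) = ∑ φ : K →+* ℂ, φ x :=
    Fintype.sum_equiv (RingHom.equivRatAlgHom K ℂ).symm _ _ fun σ => rfl
  rw [h2, ← (Equiv.ofBijective _ (emb_bijective m)).sum_comp, Fintype.sum_prod_type] at h1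
  rw [show ((Algebra.trace ℚ K x : ℚ) : ℂ) = algebraMap ℚ ℂ (Algebra.trace ℚ K x) from rfl, h1, trr]
  push_cast
  refine Finset.sum_congr rfl fun j _ => ?_
  rw [Fintype.sum_bool]
  change _ = emb m (j, true) x + emb m (j, false) x
  simp only [emb, if_true, Bool.false_eq_true, if_false]
  rw [ComplexEmbedding.conjugate_coe_eq, Complex.add_conj]
  push_cast
  ring

theorem trr_eq_trace' (x : K) : trr m.e x = ((Algebra.trace ℚ K x : ℚ) : ℝ) := by
  have := trr_eq_trace m x
  exact_mod_cast this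

include m in
theorem two_mul_card : 2 * Fintype.card J = Module.finrank ℚ K := by
  rw [← NumberField.Embeddings.card K ℂ, ← Fintype.card_congr (Equiv.ofBijective _ (emb_bijective m)),
    Fintype.card_prod, Fintype.card_bool, mul_comm]

/-! ### The Borel subgroup -/

/-- `(a b; 0 1)` -/
def bG {K : Type*} [Field K] (a : Kˣ) (b : K) : GL (Fin 2) K :=
  GeneralLinearGroup.mkOfDetNeZero !![(a : K), b; 0, 1] (by simp)

/-- the class of `(1 b; 0 1)` -/
def nP {K : Type*} [Field K] (b : K) : PGL(2, K) := ProjGenLinGroup.mk (bG 1 b)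

/-- the class of `(a 0; 0 1)` -/
def dP {K : Type*} [Field K] (a : Kˣ) : PGL(2, K) := ProjGenLinGroup.mk (bG a 0)

theorem bG_mul {K : Type*} [Field K] (a a' : Kˣ) (b b' : K) :
    bG a b * bG a' b' = bG (a * a') (a * b' + b) := by
  apply Units.ext
  rw [Units.val_mul]
  show (!![(a : K), b; 0, 1] : Matrix (Fin 2) (Fin 2) K) * !![(a' : K), b'; 0, 1] =
    !![((a * a' : Kˣ) : K), a * b' + b; 0, 1]
  rw [Matrix.mul_fin_two]
  simp

theorem bG_one {K : Type*} [Field K] : bG (1 : Kˣ) (0 : K) = 1 := by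
  apply Units.ext
  show (!![((1 : Kˣ) : K), 0; 0, 1] : Matrix (Fin 2) (Fin 2) K) = 1
  rw [Units.val_one, ← Matrix.one_fin_two]

theorem nP_add {K : Type*} [Field K] (b b' : K) : nP (b + b') = nP b * nP b' := by
  rw [nP, nP, nP, ← map_mul, bG_mul]; simp [add_comm]

theorem nP_zero {K : Type*} [Field K] : nP (0 : K) = 1 := by rw [nP, bG_one, map_one]

theorem nP_neg {K : Type*} [Field K] (b : K) : nP (-b) = (nP b)⁻¹ := by
  rw [eq_inv_iff_mul_eq_one, ← nP_add, neg_add_cancel, nP_zero]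

theorem dP_mul {K : Type*} [Field K] (a a' : Kˣ) : dP (a * a') = dP a * dP a' := by
  rw [dP, dP, dP, ← map_mul, bG_mul]; simp

theorem dP_one {K : Type*} [Field K] : dP (1 : Kˣ) = 1 := by rw [dP, bG_one, map_one]

theorem dP_mul_nP {K : Type*} [Field K] (a : Kˣ) (b : K) : dP a * nP b = nP (a * b) * dP a := by
  rw [dP, nP, nP, ← map_mul, ← map_mul, bG_mul, bG_mul]; simp

theorem actInf_mk (g : GL (Fin 2) K) (x : J → H3) (j : J) :
    m.actInf (ProjGenLinGroup.mk g) x j = (GeneralLinearGroup.map (m.e j) g) • x j := rfl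

theorem bG_smul (b : K) (a : Kˣ) (φ : K →+* ℂ) (w : H3) :
    ((GeneralLinearGroup.map φ (bG a b)) • w).z = φ a * w.z + φ b ∧
      ((GeneralLinearGroup.map φ (bG a b)) • w).y = ‖φ a‖ * w.y := by
  have h00 : (GeneralLinearGroup.map φ (bG a b)) 0 0 = φ a := rfl
  have h01 : (GeneralLinearGroup.map φ (bG a b)) 0 1 = φ b := rfl
  have h10 : (GeneralLinearGroup.map φ (bG a b)) 1 0 = 0 := map_zero φ
  have h11 : (GeneralLinearGroup.map φ (bG a b)) 1 1 = 1 := map_one φ
  have hden : H3.den (GeneralLinearGroup.map φ (bG a b) : Matrix (Fin 2) (Fin 2) ℂ) w = 1 := by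
    rw [H3.den, h10, h11]
    simp
  have hdet : (GeneralLinearGroup.map φ (bG a b) : Matrix (Fin 2) (Fin 2) ℂ).det = φ a := by
    rw [Matrix.det_fin_two, h00, h01, h10, h11]
    ring
  constructor
  · rw [H3.smul_z, hden, h00, h01, h10, h11]
    simp
  · rw [H3.smul_y, hden, hdet, div_one]

theorem actInf_nP (b : K) (x : J → H3) : m.actInf (nP b) x = trans m.e b x := by
  funext j
  rw [nP, actInf_mk]
  obtain ⟨h1, h2⟩ := bG_smul b 1 (m.e j) (x j)
  apply H3.ext
  · rw [h1]
    simp [trans]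
  · rw [h2]
    simp [trans]

theorem actInf_dP (a : Kˣ) (x : J → H3) : m.actInf (dP a) x = dil m.e a x := by
  funext j
  rw [dP, actInf_mk]
  obtain ⟨h1, h2⟩ := bG_smul 0 a (m.e j) (x j)
  apply H3.ext
  · rw [h1]
    simp [dil]
  · rw [h2]
    rfl

end Fermat.Agent.H19W
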