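import Fermat.Agent.H18DSpan
import Fermat.Agent.H71UDefs
import Fermat.Agent.H53Z6
import Fermat.Agent.H58RLines
import Fermat.Agent.H19W5

/-!
# S47, block (D), finite part: the function `FF` on the outer space (helper18)

`FF d y z = ∑_{α ∈ US} ∏ ‖e_j α‖ kap (d(α) y) kterm (e α) z`; `FF_eq_ser : FF d y z = d.ser a u z` if
`y` has the coordinates `(e, u)`, `a = idl e`.
-/

set_option autoImplicit false
set_option linter.unusedSectionVars false

open IsDedekindDomain HeightOneSpectrum WithZero NumberField FractionalIdeal Matrix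
open scoped nonZeroDivisors MatrixGroups

noncomputable section

namespace Fermat.Agent.H18D

open Fermat.Agent Fermat.Agent.H59XF Fermat.Agent.H59D Fermat.Agent.H7.Z Fermat.Agent.H53Z
open Fermat.Agent.H71D

variable {E B : Type*} [Field E] [NumberField E] [Field B] [NumberField B] [Algebra E B]
  {J : Type*} [Fintype J] (d : DD E B J)

theorem psS_eq (S : Finset (HeightOneSpectrum (𝓞 E))) (b : E) :
    H18D.psS S b = H71D.psS S b := rfl

/-- `|N x| = (∏ |e_j x|)²` -/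
theorem sqrt_norm [IsTotallyComplex E] {e : J → (E →+* ℂ)}
    (he : Function.Bijective fun j => InfinitePlace.mk (e j)) (x : E) :
    Real.sqrt |(Algebra.norm ℚ x : ℝ)| = ∏ j, ‖e j x‖ := by
  have h1 : |(Algebra.norm ℚ x : ℝ)| = ∏ j, ‖e j x‖ ^ 2 := by
    have := H58R.abs_norm_eq_prod_sq E e he x
    exact_mod_cast this
  rw [h1, Finset.prod_pow, Real.sqrt_sq (Finset.prod_nonneg fun _ _ => norm_nonneg _)]

/-- the fractional ideal as a unit -/
def idU (e : HeightOneSpectrum (𝓞 E) → ℤ) : FI E := Units.mk0 (idl e) (idl_ne_zero e)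

theorem aN_idU (e : HeightOneSpectrum (𝓞 E) → ℤ) : aN (idU e) = nrm (idl e) := rfl

variable {L : LevelFam PGL(2, E) {w : HeightOneSpectrum (𝓞 E) // w ∉ d.S}}

open Classical in
/-- the coefficient of the series -/
def fco (y : XF L) (α : Eˣ) : ℂ :=
  if α ∈ d.US then ((∏ j, ‖d.e j α‖ : ℝ) : ℂ) * kap (kcf d.chi) ((borP E).d α • y) else 0

/-- The function on the outer space. -/
def FF (y : XF L) (z : J → H3) : ℂ :=
  ∑' α : Eˣ, fco d y α * kterm (fun j => d.e j α) z

theorem kcf_neg' (χ : Ideal (𝓞 B) →*₀ ℂ) (S : Finset (HeightOneSpectrum (𝓞 E))) :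
    ∀ e : HeightOneSpectrum (𝓞 E) → ℤ, (∃ w ∉ S, e w < 0) → kcf χ e = 0 :=
  fun _ ⟨_, _, h⟩ => kcf_neg χ h

variable {d}

/-- The coefficients in terms of the coordinates. -/
theorem fco_eq (hd : d.Good) (hL : ∀ w, L.U w = H59D.U0 w.1) {y : XF L}
    {e : HeightOneSpectrum (𝓞 E) → ℤ} {u : E} (h : IsCo y e u) (α : Eˣ) :
    fco d y α = (((aN (idU e)) ^ (-(1 / 2) : ℝ) : ℝ) : ℂ) * d.sco (idU e) u α := by
  haveI := hd.tcE
  rw [fco, DD.sco]
  split_ifs with hα
  · have hfin := isCo_fin hL h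
    have hunit : ∀ w ∈ d.S, w.valuation E (α : E) = 1 := fun w hw => hd.US_unit α hα w hw
    have h1 : idl (e + ordS d.S α) = spanSingleton (𝓞 E)⁰ (α : E) * idl e := by
      rw [idl_add hfin (finite_ordS d.S α), ← span_eq_idl hunit, mul_comm]
    rw [kap_eq hL (kcf_neg' d.chi d.S) (h.d hL α), kcf_eq d.chi (finite_add hfin
      (finite_ordS d.S α)), h1, nrm_mul, nrm_span, Real.sqrt_mul (abs_nonneg _), sqrt_norm hd.he,
      psS_eq, aN_idU, mul_comm (α : E) u]
    have hpos : (0 : ℝ) < ∏ j, ‖d.e j (α : E)‖ := Finset.prod_pos fun j _ => by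
      rw [norm_pos_iff, Ne, map_eq_zero]; exact α.ne_zero
    have hposC : ((∏ j, ‖d.e j (α : E)‖ : ℝ) : ℂ) ≠ 0 := by exact_mod_cast hpos.ne'
    have hn : 0 < nrm (idl e) := nrm_pos (idl_ne_zero e)
    have hs : Real.sqrt (nrm (idl e)) ≠ 0 := (Real.sqrt_pos.2 hn).ne'
    have h2 : (nrm (idl e)) ^ (-(1 / 2) : ℝ) = (Real.sqrt (nrm (idl e)))⁻¹ := by
      rw [Real.rpow_neg hn.le, Real.sqrt_eq_rpow]
    rw [h2, mul_inv, show ((idU e : FI E) : FractionalIdeal (𝓞 E)⁰ E) = idl e from rfl]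
    rw [Complex.ofReal_mul, Complex.ofReal_inv, Complex.ofReal_inv]
    field_simp
  · rw [mul_zero]

theorem FF_eq_ser (hd : d.Good) (hL : ∀ w, L.U w = H59D.U0 w.1) {y : XF L}
    {e : HeightOneSpectrum (𝓞 E) → ℤ} {u : E} (h : IsCo y e u) (z : J → H3) :
    FF d y z = d.ser (idU e) u z := by
  rw [FF, DD.ser, ← tsum_mul_left]
  refine tsum_congr fun α => ?_
  rw [fco_eq hd hL h]
  ring

end Fermat.Agent.H18D
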