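import Fermat.Agent.H18DKap

/-!
# S47, block (D), finite part: the Hecke operator on `kap` (helper18)
-/

set_option autoImplicit false
set_option linter.unusedSectionVars false

open IsDedekindDomain HeightOneSpectrum WithZero NumberField Matrix
open scoped MatrixGroups

noncomputable section

namespace Fermat.Agent.H18D

open Fermat.Agent.H59XF Fermat.Agent.H59D Fermat.Agent.H7.Z
open Fermat.Agent.H51Z (bm dm IsReps repsT isCosetReps_repsT card_repsT ls lind cellT sum_ls_lind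
  dc_cellT mk_dm)

variable {K : Type*} [Field K]

/-- The sum over the neighbours depends only on the coset. -/
theorem nb_sum_congr {v : Valuation K ℤᵐ⁰} {U : Subgroup PGL(2, K)} (hU : U = H51Z.U0 v)
    {ϖ : Kˣ} (hϖ : v (ϖ : K) = exp (-1 : ℤ)) {R : Finset K} (hR : IsReps v 1 R)
    (F : PGL(2, K) ⧸ U → ℂ) {g g' : PGL(2, K)}
    (h : ((g : PGL(2, K)) : PGL(2, K) ⧸ U) = ((g' : PGL(2, K)) : PGL(2, K) ⧸ U)) :
    ∑ b ∈ R, F ((g * (borP K).n b * (borP K).d ϖ : PGL(2, K)) : PGL(2, K) ⧸ U) +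
      F ((g * ((borP K).d ϖ)⁻¹ : PGL(2, K)) : PGL(2, K) ⧸ U) =
    ∑ b ∈ R, F ((g' * (borP K).n b * (borP K).d ϖ : PGL(2, K)) : PGL(2, K) ⧸ U) +
      F ((g' * ((borP K).d ϖ)⁻¹ : PGL(2, K)) : PGL(2, K) ⧸ U) := by
  classical
  subst hU
  have hdc := dc_cellT (v := v) ⟨ϖ, R, hϖ, hR⟩
  have key : ∀ g : PGL(2, K),
      ∑ b ∈ R, F ((g * (borP K).n b * (borP K).d ϖ : PGL(2, K)) : PGL(2, K) ⧸ H51Z.U0 v) +
        F ((g * ((borP K).d ϖ)⁻¹ : PGL(2, K)) : PGL(2, K) ⧸ H51Z.U0 v) =
      ∑ y ∈ ls (lind (cellT v) hdc) ((g : PGL(2, K)) : PGL(2, K) ⧸ H51Z.U0 v), F y := by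
    intro g
    rw [sum_ls_lind hdc (isCosetReps_repsT hϖ hR) g F]
    have hcard := card_repsT hϖ hR
    have himg : (R.image fun b => (ProjGenLinGroup.mk (bm ϖ b) : PGL(2, K))).card ≤ R.card :=
      Finset.card_image_le
    have hnot : (ProjGenLinGroup.mk (dm ϖ) : PGL(2, K)) ∉
        R.image fun b => (ProjGenLinGroup.mk (bm ϖ b) : PGL(2, K)) := by
      intro hmem
      rw [repsT, Finset.insert_eq_of_mem hmem] at hcard
      omega
    have hinj : Set.InjOn (fun b => (ProjGenLinGroup.mk (bm ϖ b) : PGL(2, K))) R := by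
      rw [← Finset.card_image_iff]
      rw [repsT, Finset.card_insert_of_notMem hnot] at hcard
      omega
    rw [repsT, Finset.sum_insert hnot, Finset.sum_image hinj, add_comm]
    congr 1
    · rw [mk_dm]
      congr 2
      rw [borP_d', bP_inv]
      simp [bP]
    · refine Finset.sum_congr rfl fun b _ => ?_
      rw [mul_assoc, ← bP_eq]
      rfl
  rw [key g, key g', h]

variable [NumberField K] {S : Finset (HeightOneSpectrum (𝓞 K))}
  {L : LevelFam PGL(2, K) {w : HeightOneSpectrum (𝓞 K) // w ∉ S}}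

/-- Orthogonality at an unramified place. -/
theorem sum_psi_eq_zero {w : HeightOneSpectrum (𝓞 K)} (hu : Unram w) {R : Finset K}
    (hR : IsReps (w.valuation K) 1 R) {a : K} (ha : w.valuation K a = exp (1 : ℤ)) :
    ∑ b ∈ R, psi w (a * b) = 0 := by
  obtain ⟨r, hr, hr1⟩ : ∃ r : K, w.valuation K r ≤ 1 ∧ psi w (a * r) ≠ 1 := by
    by_contra hcon
    push Not at hcon
    have := hu a hcon
    rw [ha, ← exp_zero, exp_le_exp] at this
    norm_num at this
  have hex : ∀ x : K, ∃ b : K, w.valuation K x ≤ 1 → b ∈ R ∧ w.valuation K (x - b) ≤ exp (-1 : ℤ) := by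
    intro x
    by_cases hx : w.valuation K x ≤ 1
    · obtain ⟨b, hb, hb'⟩ := hR.exists_mem x hx
      exact ⟨b, fun _ => ⟨hb, hb'⟩⟩
    · exact ⟨0, fun h => absurd h hx⟩
  choose f hf using hex
  have hadd : ∀ b ∈ R, ∀ s : K, w.valuation K s ≤ 1 → w.valuation K (b + s) ≤ 1 := fun b hb s hs =>
    (Valuation.map_add _ _ _).trans (max_le (hR.le_one b hb) hs)
  have hr' : w.valuation K (-r) ≤ 1 := by rwa [Valuation.map_neg]
  have h1 : ∑ b ∈ R, psi w (a * b) = ∑ b ∈ R, psi w (a * (b + r)) := by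
    symm
    refine Finset.sum_nbij' (fun b => f (b + r)) (fun b => f (b + -r)) ?_ ?_ ?_ ?_ ?_
    · intro b hb; exact (hf _ (hadd b hb r hr)).1
    · intro b hb; exact (hf _ (hadd b hb _ hr')).1
    · intro b hb
      have h2 := hf _ (hadd b hb r hr)
      have h3 := hf _ (hadd _ h2.1 _ hr')
      refine hR.inj _ h3.1 _ hb ?_
      have e : f (f (b + r) + -r) - b = -(f (b + r) + -r - f (f (b + r) + -r)) +
          -(b + r - f (b + r)) := by ring
      rw [e]
      refine (Valuation.map_add _ _ _).trans (max_le ?_ ?_)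
      · rw [Valuation.map_neg]; exact h3.2
      · rw [Valuation.map_neg]; exact h2.2
    · intro b hb
      have h2 := hf _ (hadd b hb _ hr')
      have h3 := hf _ (hadd _ h2.1 r hr)
      refine hR.inj _ h3.1 _ hb ?_
      have e : f (f (b + -r) + r) - b = -(f (b + -r) + r - f (f (b + -r) + r)) +
          -(b + -r - f (b + -r)) := by ring
      rw [e]
      refine (Valuation.map_add _ _ _).trans (max_le ?_ ?_)
      · rw [Valuation.map_neg]; exact h3.2
      · rw [Valuation.map_neg]; exact h2.2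
    · intro b hb
      have h2 := hf _ (hadd b hb r hr)
      refine psi_congr w ?_
      rw [← mul_sub, map_mul, ha]
      calc exp (1 : ℤ) * w.valuation K (b + r - f (b + r))
          ≤ exp (1 : ℤ) * exp (-1 : ℤ) := by gcongr; exact h2.2
        _ = 1 := by rw [← exp_add]; simp
  have h2 : ∑ b ∈ R, psi w (a * (b + r)) = psi w (a * r) * ∑ b ∈ R, psi w (a * b) := by
    rw [Finset.mul_sum]
    refine Finset.sum_congr rfl fun b _ => ?_
    rw [mul_add, AddChar.map_add_eq_mul, mul_comm]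
  rw [h2] at h1
  have h3 : (1 - psi w (a * r)) * ∑ b ∈ R, psi w (a * b) = 0 := by
    linear_combination h1
  rcases mul_eq_zero.1 h3 with h | h
  · exact absurd (sub_eq_zero.1 h).symm hr1
  · exact h

open Classical in
/-- The coordinates of a neighbour (down). -/
theorem IsCo.upd_up (hL : ∀ w, L.U w = H59D.U0 w.1) {y : XF L}
    {e : HeightOneSpectrum (𝓞 K) → ℤ} {u : K} (h : IsCo y e u) {w : HeightOneSpectrum (𝓞 K)}
    (hw : w ∉ S) {t ϖ : Kˣ} (ht : w.valuation K (t : K) = exp (-e w))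
    (hϖ : w.valuation K (ϖ : K) = exp (-1 : ℤ)) {b β : K}
    (hβw : w.valuation K (β - t * b) ≤ exp (-(e w + 1)))
    (hβ : ∀ v ∉ S, v ≠ w → v.valuation K β ≤ exp (-e v)) :
    IsCo (XF.upd y ⟨w, hw⟩ ((bP (t * ϖ) (t * b + u) : PGL(2, K)) : PGL(2, K) ⧸ L.U ⟨w, hw⟩))
      (e + Pi.single w 1) (u + β) := by
  have hval : w.valuation K ((t * ϖ : Kˣ) : K) = exp (-(e w + 1)) := by
    rw [Units.val_mul, map_mul, ht, hϖ, ← exp_add, exp_inj]; ring
  refine isCo_of hL (fun v hv => ?_) fun v hv => ?_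
  · have : v ≠ w := fun hh => hw (hh ▸ hv)
    rw [Pi.add_apply, h.zero v hv, Pi.single_eq_of_ne this, add_zero]
  · by_cases hvw : v = w
    · subst hvw
      refine ⟨bP (t * ϖ) (t * b + u), t * ϖ, XF.upd_same _ _ _, ?_, ?_⟩
      · rw [hval, Pi.add_apply, Pi.single_eq_same]
      · refine (co_self v (t * ϖ) (t * b + u)).change ?_
        have e1 : u + β - (t * b + u) = β - t * b := by ring
        rw [e1, hval]
        exact hβw
    · obtain ⟨g, hg⟩ := QuotientGroup.mk_surjective (y ⟨v, hv⟩)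
      obtain ⟨s, hs⟩ := exists_val v (-e v)
      have hne : (⟨v, hv⟩ : {w : HeightOneSpectrum (𝓞 K) // w ∉ S}) ≠ ⟨w, hw⟩ :=
        fun hh => hvw (Subtype.mk.inj hh)
      refine ⟨g, s, ?_, ?_, ?_⟩
      · rw [XF.upd_ne _ hne]; exact hg.symm
      · rw [hs, Pi.add_apply, Pi.single_eq_of_ne hvw, add_zero]
      · refine (h.co hL hv hg.symm hs).change ?_
        rw [add_sub_cancel_left, hs]
        exact hβ v hv hvw

open Classical in
/-- The coordinates of a neighbour (up). -/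
theorem IsCo.upd_down (hL : ∀ w, L.U w = H59D.U0 w.1) {y : XF L}
    {e : HeightOneSpectrum (𝓞 K) → ℤ} {u : K} (h : IsCo y e u) {w : HeightOneSpectrum (𝓞 K)}
    (hw : w ∉ S) {t ϖ : Kˣ} (ht : w.valuation K (t : K) = exp (-e w))
    (hϖ : w.valuation K (ϖ : K) = exp (-1 : ℤ)) :
    IsCo (XF.upd y ⟨w, hw⟩ ((bP (t * ϖ⁻¹) u : PGL(2, K)) : PGL(2, K) ⧸ L.U ⟨w, hw⟩))
      (e - Pi.single w 1) u := by
  have hval : w.valuation K ((t * ϖ⁻¹ : Kˣ) : K) = exp (-(e w - 1)) := by
    rw [Units.val_mul, map_mul, Units.val_inv_eq_inv_val, map_inv₀, ht, hϖ, ← WithZero.exp_neg, ← exp_add,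
      exp_inj]
    ring
  refine isCo_of hL (fun v hv => ?_) fun v hv => ?_
  · have : v ≠ w := fun hh => hw (hh ▸ hv)
    rw [Pi.sub_apply, h.zero v hv, Pi.single_eq_of_ne this, sub_zero]
  · by_cases hvw : v = w
    · subst hvw
      refine ⟨bP (t * ϖ⁻¹) u, t * ϖ⁻¹, XF.upd_same _ _ _, ?_, co_self _ _ _⟩
      rw [hval, Pi.sub_apply, Pi.single_eq_same]
    · obtain ⟨g, hg⟩ := QuotientGroup.mk_surjective (y ⟨v, hv⟩)
      obtain ⟨s, hs⟩ := exists_val v (-e v)
      have hne : (⟨v, hv⟩ : {w : HeightOneSpectrum (𝓞 K) // w ∉ S}) ≠ ⟨w, hw⟩ :=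
        fun hh => hvw (Subtype.mk.inj hh)
      refine ⟨g, s, ?_, ?_, h.co hL hv hg.symm hs⟩
      · rw [XF.upd_ne _ hne]; exact hg.symm
      · rw [hs, Pi.sub_apply, Pi.single_eq_of_ne hvw, sub_zero]

open Classical in
/-- **The Hecke operator on `kap`.** -/
theorem kap_hecke (hL : ∀ w, L.U w = H59D.U0 w.1) {kc : (HeightOneSpectrum (𝓞 K) → ℤ) → ℂ}
    (hneg : ∀ e, (∃ w ∉ S, e w < 0) → kc e = 0) {w : HeightOneSpectrum (𝓞 K)} (hw : w ∉ S)
    (hu : Unram w) {ϖ : Kˣ} (hϖ : w.valuation K (ϖ : K) = exp (-1 : ℤ)) {R : Finset K}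
    (hR : IsReps (w.valuation K) 1 R) {lam : ℂ}
    (hrec : ∀ e : HeightOneSpectrum (𝓞 K) → ℤ, (∀ v ∈ S, e v = 0) → (∀ v ∉ S, 0 ≤ e v) →
      {v | e v ≠ 0}.Finite →
      (R.card : ℂ) * kc (e + Pi.single w 1) + kc (e - Pi.single w 1) = lam * kc e)
    (y : XF L) (g : PGL(2, K))
    (hg : y ⟨w, hw⟩ = ((g : PGL(2, K)) : PGL(2, K) ⧸ L.U ⟨w, hw⟩)) :
    lam * kap kc y = ∑ b ∈ R, kap kc (XF.upd y ⟨w, hw⟩
        ((g * (borP K).n b * (borP K).d ϖ : PGL(2, K)) : PGL(2, K) ⧸ L.U ⟨w, hw⟩)) +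
      kap kc (XF.upd y ⟨w, hw⟩
        ((g * ((borP K).d ϖ)⁻¹ : PGL(2, K)) : PGL(2, K) ⧸ L.U ⟨w, hw⟩)) := by
  obtain ⟨e, u, h⟩ := exists_isCo hL y
  obtain ⟨t, ht⟩ := exists_val w (-e w)
  have hU : L.U ⟨w, hw⟩ = H51Z.U0 (w.valuation K) := (hL ⟨w, hw⟩).trans (U0_eq w)
  have hgt : ((g : PGL(2, K)) : PGL(2, K) ⧸ L.U ⟨w, hw⟩) =
      ((bP t u : PGL(2, K)) : PGL(2, K) ⧸ L.U ⟨w, hw⟩) := by
    rw [← hg]; exact h.eq w hw t ht
  rw [nb_sum_congr hU hϖ hR (fun x => kap kc (XF.upd y ⟨w, hw⟩ x)) hgt]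
  have e1 : ∀ b : K, bP t u * (borP K).n b * (borP K).d ϖ = bP (t * ϖ) (t * b + u) := by
    intro b
    rw [mul_assoc, ← bP_eq, bP_mul]
  have e2 : bP t u * ((borP K).d ϖ)⁻¹ = bP (t * ϖ⁻¹) u := by
    rw [borP_d', bP_inv, bP_mul]; simp
  rw [e2, Finset.sum_congr rfl (fun b _ => by rw [e1 b])]
  -- the approximations
  have hfin := isCo_fin hL h
  let T : Finset (HeightOneSpectrum (𝓞 K)) := insert w hfin.toFinset
  have hβ0 : ∀ b : K, ∃ β : K, w.valuation K (β - t * b) ≤ exp (-(e w + 1)) ∧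
      (∀ v, v ≠ w → v.valuation K β ≤ exp (-e v)) := by
    intro b
    obtain ⟨β, h1, h2⟩ := exists_approx T (fun v => if v = w then t * b else 0)
      (fun v => (e v).toNat + 1)
    refine ⟨β, ?_, ?_⟩
    · have h3 := h1 w (Finset.mem_insert_self _ _)
      simp only [if_true] at h3
      refine h3.trans ?_
      rw [exp_le_exp]
      have := Int.self_le_toNat (e w)
      push_cast
      linarith
    · intro v hv
      by_cases hvT : v ∈ T
      · have h3 := h1 v hvT
        simp only [hv, if_false, sub_zero] at h3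
        refine h3.trans ?_
        rw [exp_le_exp]
        have := Int.self_le_toNat (e v)
        push_cast
        linarith
      · have h3 : e v = 0 := by
          by_contra h4
          exact hvT (Finset.mem_insert_of_mem (hfin.mem_toFinset.2 h4))
        rw [h3, neg_zero, exp_zero]
        exact h2 v hvT
  choose β hβw hβ using hβ0
  have t1 : ∀ b, kap kc (XF.upd y ⟨w, hw⟩
      ((bP (t * ϖ) (t * b + u) : PGL(2, K)) : PGL(2, K) ⧸ L.U ⟨w, hw⟩)) =
      psS S u * psS S (β b) * kc (e + Pi.single w 1) := by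
    intro b
    rw [kap_eq hL hneg (h.upd_up hL hw ht hϖ (hβw b) (fun v _ hv => hβ b v hv)),
      AddChar.map_add_eq_mul]
  rw [Finset.sum_congr rfl (fun b _ => t1 b), kap_eq hL hneg (h.upd_down hL hw ht hϖ),
    kap_eq hL hneg h, ← Finset.sum_mul, ← Finset.mul_sum]
  by_cases hpos : ∀ v ∉ S, 0 ≤ e v
  · have h1 : ∀ b ∈ R, psS S (β b) = 1 := by
      intro b hb
      refine psS_of_out fun v hv => ?_
      by_cases hvw : v = w
      · subst hvw
        have e3 : β b = (β b - t * b) + t * b := by ring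
        rw [e3]
        refine (Valuation.map_add _ _ _).trans (max_le ((hβw b).trans ?_) ?_)
        · rw [← exp_zero, exp_le_exp]
          have := hpos v hv
          linarith
        · rw [map_mul, ht]
          refine mul_le_one' ?_ (hR.le_one b hb)
          rw [← exp_zero, exp_le_exp]
          have := hpos v hv
          linarith
      · refine (hβ b v hvw).trans ?_
        rw [← exp_zero, exp_le_exp]
        have := hpos v hv
        linarith
    rw [Finset.sum_congr rfl h1, Finset.sum_const, nsmul_eq_mul, mul_one]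
    linear_combination (-psS S u) * hrec e h.zero hpos hfin
  · push Not at hpos
    obtain ⟨v0, hv0, hv0'⟩ := hpos
    have hz : kc e = 0 := hneg e ⟨v0, hv0, hv0'⟩
    have hz1 : kc (e - Pi.single w 1) = 0 := by
      refine hneg _ ⟨v0, hv0, ?_⟩
      rw [Pi.sub_apply]
      by_cases hvw : v0 = w
      · subst hvw; rw [Pi.single_eq_same]; linarith
      · rw [Pi.single_eq_of_ne hvw]; linarith
    rw [hz, hz1]
    by_cases hz2 : kc (e + Pi.single w 1) = 0
    · rw [hz2]; ring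
    · -- then `e w = -1` and all other exponents are nonnegative
      have h2 : ∀ v ∉ S, 0 ≤ (e + Pi.single w 1 : HeightOneSpectrum (𝓞 K) → ℤ) v := by
        by_contra hcon
        push Not at hcon
        exact hz2 (hneg _ hcon)
      have hother : ∀ v ∉ S, v ≠ w → 0 ≤ e v := by
        intro v hv hvw
        have := h2 v hv
        rwa [Pi.add_apply, Pi.single_eq_of_ne hvw, add_zero] at this
      have hv0w : v0 = w := by
        by_contra hcon
        exact absurd (hother v0 hv0 hcon) (not_le.2 hv0')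
      have hew : e w = -1 := by
        have h3 := h2 w hw
        rw [Pi.add_apply, Pi.single_eq_same] at h3
        rw [hv0w] at hv0'
        omega
      have h1 : ∀ b ∈ R, psS S (β b) = psi w (t * b) := by
        intro b hb
        rw [psS_eq_psi hw (fun v hvw => (hβ b v hvw).trans ?_)]
        · refine psi_congr w ((hβw b).trans ?_)
          rw [hew]; simp
        · rw [← exp_zero, exp_le_exp]
          by_cases hv : v ∈ S
          · rw [h.zero v hv]; simp
          · have := hother v hv hvw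
            linarith
      rw [Finset.sum_congr rfl h1, sum_psi_eq_zero hu hR (by rw [ht, hew]; simp)]
      ring

end Fermat.Agent.H18D
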