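import Fermat.Agent.H18DHec
import Fermat.Agent.H33DCoef

/-!
# S47, block (D), finite part: the coefficient function (helper18)

* `idl e` : the fractional ideal with the exponents `e`;
* `kcf χ e = N(idl e)^(-1/2) cf χ (idl e)`, vanishing and recursion.
-/

set_option autoImplicit false
set_option linter.unusedSectionVars false

open IsDedekindDomain HeightOneSpectrum WithZero NumberField FractionalIdeal
open scoped nonZeroDivisors

noncomputable section

namespace Fermat.Agent.H18D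

open Fermat.Agent.H33D

variable {K : Type*} [Field K] [NumberField K]

/-- The fractional ideal with the exponents `e`. -/
def idl (e : HeightOneSpectrum (𝓞 K) → ℤ) : FractionalIdeal (𝓞 K)⁰ K :=
  ∏ᶠ w : HeightOneSpectrum (𝓞 K), (w.asIdeal : FractionalIdeal (𝓞 K)⁰ K) ^ (e w)

theorem coe_ne_zero' (w : HeightOneSpectrum (𝓞 K)) :
    (w.asIdeal : FractionalIdeal (𝓞 K)⁰ K) ≠ 0 := coeIdeal_ne_zero.mpr w.ne_bot

theorem mulSupport_idl {e : HeightOneSpectrum (𝓞 K) → ℤ} (he : {w | e w ≠ 0}.Finite) :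
    (Function.mulSupport fun w : HeightOneSpectrum (𝓞 K) =>
      (w.asIdeal : FractionalIdeal (𝓞 K)⁰ K) ^ (e w)).Finite :=
  he.subset fun w hw h => hw (by
    have : e w = 0 := by simpa using h
    simp [this])

theorem idl_zero : idl (0 : HeightOneSpectrum (𝓞 K) → ℤ) = 1 := by
  rw [idl]
  simp

theorem idl_add {e e' : HeightOneSpectrum (𝓞 K) → ℤ} (he : {w | e w ≠ 0}.Finite)
    (he' : {w | e' w ≠ 0}.Finite) : idl (e + e') = idl e * idl e' := by
  rw [idl, idl, idl, ← finprod_mul_distrib (mulSupport_idl he) (mulSupport_idl he')]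
  refine finprod_congr fun w => ?_
  rw [Pi.add_apply, zpow_add₀ (coe_ne_zero' w)]

open Classical in
theorem idl_single (w : HeightOneSpectrum (𝓞 K)) (n : ℤ) :
    idl (Pi.single w n) = (w.asIdeal : FractionalIdeal (𝓞 K)⁰ K) ^ n := by
  rw [idl, finprod_eq_single _ w]
  · rw [Pi.single_eq_same]
  · intro v hv
    rw [Pi.single_eq_of_ne hv, zpow_zero]

theorem idl_ne_zero (e : HeightOneSpectrum (𝓞 K) → ℤ) : idl e ≠ 0 := by
  rw [idl]
  refine finprod_induction (p := fun x : FractionalIdeal (𝓞 K)⁰ K => x ≠ 0) one_ne_zero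
    (fun x y hx hy => mul_ne_zero hx hy) fun w => zpow_ne_zero _ (coe_ne_zero' w)

theorem count_idl {e : HeightOneSpectrum (𝓞 K) → ℤ} (he : {w | e w ≠ 0}.Finite)
    (w : HeightOneSpectrum (𝓞 K)) : count K w (idl e) = e w := by
  rw [idl]
  exact count_finprod K w e (by
    rw [Filter.eventually_cofinite]
    exact he)

open Classical in
theorem single_finite (w : HeightOneSpectrum (𝓞 K)) (n : ℤ) :
    {v : HeightOneSpectrum (𝓞 K) |
      (Pi.single w n : HeightOneSpectrum (𝓞 K) → ℤ) v ≠ 0}.Finite := by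
  refine (Set.finite_singleton w).subset fun v hv => ?_
  by_contra h
  have h' : v ≠ w := fun hh => h (Set.mem_singleton_iff.2 hh)
  exact hv (by rw [Pi.single_eq_of_ne h'])

/-- the real norm of a fractional ideal -/
def nrm (I : FractionalIdeal (𝓞 K)⁰ K) : ℝ := ((absNorm I : ℚ) : ℝ)

theorem nrm_mul (I J : FractionalIdeal (𝓞 K)⁰ K) : nrm (I * J) = nrm I * nrm J := by
  rw [nrm, map_mul, Rat.cast_mul]; rfl

theorem nrm_one : nrm (1 : FractionalIdeal (𝓞 K)⁰ K) = 1 := by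
  rw [nrm, map_one, Rat.cast_one]

theorem nrm_inv (I : FractionalIdeal (𝓞 K)⁰ K) : nrm I⁻¹ = (nrm I)⁻¹ := by
  rw [nrm, map_inv₀, Rat.cast_inv]; rfl

theorem nrm_nonneg (I : FractionalIdeal (𝓞 K)⁰ K) : 0 ≤ nrm I := by
  rw [nrm]
  exact_mod_cast absNorm_nonneg I

theorem nrm_pos {I : FractionalIdeal (𝓞 K)⁰ K} (hI : I ≠ 0) : 0 < nrm I := by
  refine lt_of_le_of_ne (nrm_nonneg I) fun h => hI ?_
  rw [nrm, eq_comm, Rat.cast_eq_zero, absNorm_eq_zero_iff] at h
  exact h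

theorem nrm_coe (w : HeightOneSpectrum (𝓞 K)) :
    nrm (w.asIdeal : FractionalIdeal (𝓞 K)⁰ K) = (Ideal.absNorm w.asIdeal : ℝ) := by
  rw [nrm, coeIdeal_absNorm, Rat.cast_natCast]

theorem nrm_span (x : K) : nrm (spanSingleton (𝓞 K)⁰ x) = |(Algebra.norm ℚ x : ℝ)| := by
  rw [nrm, absNorm_span_singleton]
  push_cast
  rfl

variable {B : Type*} [Field B] [NumberField B] [Algebra K B]

open Classical in
/-- The normalised coefficient. -/
def kcf (χ : Ideal (𝓞 B) →*₀ ℂ) (e : HeightOneSpectrum (𝓞 K) → ℤ) : ℂ :=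
  if {w | e w ≠ 0}.Finite then ((Real.sqrt (nrm (idl e)))⁻¹ : ℝ) * cf χ (idl e) else 0

theorem kcf_eq (χ : Ideal (𝓞 B) →*₀ ℂ) {e : HeightOneSpectrum (𝓞 K) → ℤ}
    (hfin : {w | e w ≠ 0}.Finite) :
    kcf χ e = ((Real.sqrt (nrm (idl e)))⁻¹ : ℝ) * cf χ (idl e) := if_pos hfin

theorem kcf_zero (χ : Ideal (𝓞 B) →*₀ ℂ) :
    kcf χ (0 : HeightOneSpectrum (𝓞 K) → ℤ) = 1 := by
  rw [kcf_eq χ (by simp), idl_zero, nrm_one, Real.sqrt_one, inv_one, cf_one]
  simp

theorem kcf_neg (χ : Ideal (𝓞 B) →*₀ ℂ) {e : HeightOneSpectrum (𝓞 K) → ℤ}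
    {w : HeightOneSpectrum (𝓞 K)} (hw : e w < 0) : kcf χ e = 0 := by
  rw [kcf]
  split_ifs with hfin
  · rw [cf_of_not_le, mul_zero]
    exact not_le_one_of_count_neg (v := w) (by rwa [count_idl hfin])
  · rfl

theorem finite_add {e e' : HeightOneSpectrum (𝓞 K) → ℤ} (he : {w | e w ≠ 0}.Finite)
    (he' : {w | e' w ≠ 0}.Finite) : {w | (e + e') w ≠ 0}.Finite := by
  refine (he.union he').subset fun w hw => ?_
  by_contra hcon
  simp only [Set.mem_union, Set.mem_ofPred_eq, not_or, not_not] at hcon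
  exact hw (by rw [Pi.add_apply, hcon.1, hcon.2, add_zero])

open Classical in
theorem kcf_rec {χ : Ideal (𝓞 B) →*₀ ℂ} {w : HeightOneSpectrum (𝓞 K)} {a : ℂ}
    (h : IsGoodFor χ w.asIdeal a) {e : HeightOneSpectrum (𝓞 K) → ℤ}
    (hfin : {w | e w ≠ 0}.Finite) (hw : 0 ≤ e w) :
    (Ideal.absNorm w.asIdeal : ℂ) * kcf χ (e + Pi.single w 1) + kcf χ (e - Pi.single w 1) =
      ((Real.sqrt (Ideal.absNorm w.asIdeal) : ℝ) : ℂ) * a * kcf χ e := by
  have h1 : idl (e + Pi.single w 1) = (w.asIdeal : FractionalIdeal (𝓞 K)⁰ K) * idl e := by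
    rw [idl_add hfin (single_finite w 1), idl_single, zpow_one, mul_comm]
  have f1 : {v | (e + Pi.single w 1 : HeightOneSpectrum (𝓞 K) → ℤ) v ≠ 0}.Finite :=
    finite_add hfin (single_finite w 1)
  have e1 : e - Pi.single w 1 = e + Pi.single w (-1) := by
    rw [sub_eq_add_neg, ← Pi.single_neg]
  have f2 : {v | (e - Pi.single w 1 : HeightOneSpectrum (𝓞 K) → ℤ) v ≠ 0}.Finite := by
    rw [e1]; exact finite_add hfin (single_finite w (-1))
  have h2 : idl (e - Pi.single w 1) = (w.asIdeal : FractionalIdeal (𝓞 K)⁰ K)⁻¹ * idl e := by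
    rw [e1, idl_add hfin (single_finite w (-1)), idl_single, zpow_neg_one, mul_comm]
  have hrec := cf_mul h (idl_ne_zero e) (by rwa [count_idl hfin])
  have hq : (0 : ℝ) < Ideal.absNorm w.asIdeal := by
    rw [← nrm_coe]; exact nrm_pos (coe_ne_zero' w)
  have hn : 0 < nrm (idl e) := nrm_pos (idl_ne_zero e)
  rw [kcf_eq χ f1, kcf_eq χ f2, kcf_eq χ hfin, h1, h2, hrec, nrm_mul, nrm_mul, nrm_inv, nrm_coe,
    Real.sqrt_mul hq.le, Real.sqrt_mul (inv_nonneg.2 hq.le), Real.sqrt_inv]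
  set q := (Ideal.absNorm w.asIdeal : ℝ) with hqdef
  have hqC : (Ideal.absNorm w.asIdeal : ℂ) = ((Real.sqrt q : ℝ) : ℂ) * ((Real.sqrt q : ℝ) : ℂ) := by
    rw [← Complex.ofReal_mul, Real.mul_self_sqrt hq.le, hqdef]
    simp
  have hs : ((Real.sqrt q : ℝ) : ℂ) ≠ 0 := by
    exact_mod_cast (Real.sqrt_pos.2 hq).ne'
  have hs2 : ((Real.sqrt (nrm (idl e)) : ℝ) : ℂ) ≠ 0 := by
    exact_mod_cast (Real.sqrt_pos.2 hn).ne'
  rw [hqC]
  push_cast
  field_simp
  ring

end Fermat.Agent.H18D
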