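import Fermat.Agent.H59XF

/-!
# S47: the semilocal machine (helper76)

`L` a level family, `S` a finite set of bad places.  A `G`-invariant function on `Z × XF L` which is
typed at the places of `S` is the same as a function on `Z × XF (restr L S)` (coordinates outside
`S` only) with `Φ (γ z) (γ y) = χ_S(γ)⁻¹ Φ z y` for `γ` in `Γ_S = ⋂_{i ∈ S} H_i`.
-/

set_option autoImplicit false

namespace Fermat.Agent.H76U

open Fermat.Agent.H59XF

variable {G : Type*} [Group G] {ι : Type*}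

/-! ### The level family outside `S` -/

/-- The levels outside `S`. -/
@[reducible] def restr (L : LevelFam G ι) (S : Finset ι) : LevelFam G {i // i ∉ S} where
  U i := L.U i
  adm g := ((L.adm g).preimage (Subtype.val_injective.injOn (s := _))).subset (fun _ h => h)

@[simp] theorem restr_U (L : LevelFam G ι) (S : Finset ι) (i : {i // i ∉ S}) :
    (restr L S).U i = L.U i := rfl

/-- Forget the coordinates in `S`. -/
def proj (L : LevelFam G ι) (S : Finset ι) (x : XF L) : XF (restr L S) :=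
  ⟨fun i => x i.1, ((x.fin).preimage (Subtype.val_injective.injOn (s := _))).subset (fun _ h => h)⟩

variable {L : LevelFam G ι} {S : Finset ι}

@[simp] theorem proj_apply (x : XF L) (i : {i // i ∉ S}) : proj L S x i = x i.1 := rfl

theorem proj_smul (g : G) (x : XF L) : proj L S (g • x) = g • proj L S x := rfl

theorem proj_upd_mem [DecidableEq ι] (x : XF L) {i : ι} (hi : i ∈ S) (a : G ⧸ L.U i) :
    proj L S (XF.upd x i a) = proj L S x := by
  apply XF.ext; intro j
  have : j.1 ≠ i := fun h => j.2 (h ▸ hi)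
  rw [proj_apply, proj_apply, XF.upd_ne _ this]

theorem proj_upd_notMem [DecidableEq ι] (x : XF L) (i : {i // i ∉ S}) (a : G ⧸ L.U i.1) :
    proj L S (XF.upd x i.1 a) = XF.upd (proj L S x) i a := by
  apply XF.ext; intro j
  by_cases h : j = i
  · subst h
    rw [proj_apply, XF.upd_same, XF.upd_same]
  · have : j.1 ≠ i.1 := fun h' => h (Subtype.ext h')
    rw [proj_apply, XF.upd_ne _ this, XF.upd_ne _ h, proj_apply]

open Classical in
/-- Extend by the base point at the places of `S`. -/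
noncomputable def inj (L : LevelFam G ι) (S : Finset ι) (y : XF (restr L S)) : XF L :=
  ⟨fun i => if h : i ∈ S then ((1 : G) : G ⧸ L.U i) else y ⟨i, h⟩, by
    refine (y.fin.image Subtype.val).subset ?_
    intro i hi
    by_cases h : i ∈ S
    · exact absurd (dif_pos h) hi
    · refine ⟨⟨i, h⟩, ?_, rfl⟩
      intro h0
      apply hi
      rw [dif_neg h]
      exact h0⟩

theorem inj_apply_mem (y : XF (restr L S)) {i : ι} (hi : i ∈ S) :
    inj L S y i = ((1 : G) : G ⧸ L.U i) := dif_pos hi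

theorem inj_apply_notMem (y : XF (restr L S)) {i : ι} (hi : i ∉ S) :
    inj L S y i = y ⟨i, hi⟩ := dif_neg hi

@[simp] theorem proj_inj (y : XF (restr L S)) : proj L S (inj L S y) = y := by
  apply XF.ext; intro i
  rw [proj_apply, inj_apply_notMem y i.2]

theorem inj_smul_of_mem {g : G} (hg : ∀ i ∈ S, g ∈ L.U i) (y : XF (restr L S)) :
    inj L S (g • y) = g • inj L S y := by
  apply XF.ext; intro i
  by_cases h : i ∈ S
  · rw [inj_apply_mem _ h, XF.smul_apply, inj_apply_mem _ h]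
    show _ = (((g * 1 : G)) : G ⧸ L.U i)
    rw [eq_comm, QuotientGroup.eq]
    simpa using hg i h
  · rw [inj_apply_notMem _ h]
    show g • y ⟨i, h⟩ = g • inj L S y i
    rw [inj_apply_notMem _ h]

/-- A point with base coordinates in `S` comes from outside. -/
theorem inj_proj {x : XF L} (hx : ∀ i ∈ S, x i = ((1 : G) : G ⧸ L.U i)) :
    inj L S (proj L S x) = x := by
  apply XF.ext; intro i
  by_cases h : i ∈ S
  · rw [inj_apply_mem _ h, hx i h]
  · rw [inj_apply_notMem _ h, proj_apply]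

/-! ### Weak approximation -/

/-- Weak approximation at the places of `S`. -/
def WA (L : LevelFam G ι) (S : Finset ι) : Prop :=
  ∀ g : ι → G, ∃ γ : G, ∀ i ∈ S, (g i)⁻¹ * γ ∈ L.U i

/-- Every point has a representative at `S` in `G`. -/
theorem WA.exists_rep (h : WA L S) (x : XF L) :
    ∃ γ : G, ∀ i ∈ S, x i = ((γ : G) : G ⧸ L.U i) := by
  choose g hg using fun i => QuotientGroup.mk_surjective (x i)
  obtain ⟨γ, hγ⟩ := h g
  refine ⟨γ, fun i hi => ?_⟩
  rw [← hg i, QuotientGroup.eq]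
  exact hγ i hi

/-- Every point is in the orbit of one which is the base point at `S`. -/
theorem WA.exists_smul_inj (h : WA L S) (x : XF L) :
    ∃ (γ : G) (y : XF (restr L S)), x = γ • inj L S y := by
  obtain ⟨γ, hγ⟩ := h.exists_rep x
  refine ⟨γ, γ⁻¹ • proj L S x, ?_⟩
  rw [← inv_smul_eq_iff, ← proj_smul, inj_proj]
  intro i hi
  rw [XF.smul_apply, hγ i hi]
  show (((γ⁻¹ * γ : G)) : G ⧸ L.U i) = _
  rw [inv_mul_cancel]

/-! ### Types -/

/-- A type at one place: a group `H` containing `U`, a character of `H` trivial on `U`, and `U` is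
normalised by `H`. -/
structure Typ (U : Subgroup G) where
  H : Subgroup G
  chi : G → ℂ
  le : U ≤ H
  mul : ∀ g ∈ H, ∀ h ∈ H, chi (g * h) = chi g * chi h
  one : ∀ u ∈ U, chi u = 1
  norm : ∀ h ∈ H, ∀ u ∈ U, h⁻¹ * u * h ∈ U

namespace Typ

variable {U : Subgroup G} (t : Typ U)

theorem chi_one : t.chi 1 = 1 := t.one 1 U.one_mem

theorem chi_ne_zero {h : G} (hh : h ∈ t.H) : t.chi h ≠ 0 := by
  intro h0
  have h1 := t.mul h hh h⁻¹ (t.H.inv_mem hh)
  rw [mul_inv_cancel, t.chi_one, h0, zero_mul] at h1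
  exact one_ne_zero h1

theorem chi_inv {h : G} (hh : h ∈ t.H) : t.chi h⁻¹ = (t.chi h)⁻¹ := by
  have h1 := t.mul h hh h⁻¹ (t.H.inv_mem hh)
  rw [mul_inv_cancel, t.chi_one] at h1
  exact (eq_inv_of_mul_eq_one_right h1.symm)

/-- Right translation by an element of `H` on the coset space. -/
def rt (h : t.H) : G ⧸ U → G ⧸ U :=
  Quotient.map' (fun g => g * h.1) (by
    intro a b hab
    rw [QuotientGroup.leftRel_apply] at hab ⊢
    have : (a * h.1)⁻¹ * (b * h.1) = (h.1)⁻¹ * (a⁻¹ * b) * h.1 := by group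
    rw [this]
    exact t.norm _ h.2 _ hab)

@[simp] theorem rt_mk (h : t.H) (g : G) : t.rt h ((g : G) : G ⧸ U) = ((g * h.1 : G) : G ⧸ U) := rfl

theorem rt_smul (h : t.H) (g : G) (x : G ⧸ U) : t.rt h (g • x) = g • t.rt h x := by
  induction x using QuotientGroup.induction_on with
  | H x =>
    show t.rt h (((g * x : G)) : G ⧸ U) = _
    rw [rt_mk, rt_mk, mul_assoc]
    rfl

end Typ

variable {Z : Type*} [MulAction G Z]

/-- A function on `Z × XF L` is typed at the places of `S`. -/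
def Typed [DecidableEq ι] (T : ∀ i : ι, Typ (L.U i)) (S : Finset ι) (F : Z → XF L → ℂ) : Prop :=
  ∀ i ∈ S, ∀ (h : (T i).H) (z : Z) (x : XF L),
    F z (XF.upd x i ((T i).rt h (x i))) = (T i).chi h * F z x

/-- `Γ_S` and its character: the transformation law of functions on the outer space. -/
def OutTyped (T : ∀ i : ι, Typ (L.U i)) (S : Finset ι) (F : Z → XF (restr L S) → ℂ) : Prop :=
  ∀ g : G, (∀ i ∈ S, g ∈ (T i).H) → ∀ (z : Z) (y : XF (restr L S)),
    (∏ i ∈ S, (T i).chi g) * F (g • z) (g • y) = F z y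

/-- Invariance under `G`. -/
def Inv (F : Z → XF L → ℂ) : Prop := ∀ (g : G) (z : Z) (x : XF L), F (g • z) (g • x) = F z x

/-! ### Restriction -/

/-- Restriction of a function on the full space to the outer space. -/
noncomputable def res (S : Finset ι) (F : Z → XF L → ℂ) : Z → XF (restr L S) → ℂ :=
  fun z y => F z (inj L S y)

omit [MulAction G Z] in
/-- A typed function can be translated at all places of `S` at once. -/
theorem Typed.all [DecidableEq ι] {T : ∀ i : ι, Typ (L.U i)} {F : Z → XF L → ℂ}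
    (hF : Typed T S F) {g : G} (hg : ∀ i ∈ S, g ∈ (T i).H) (z : Z) (S' : Finset ι) (hS' : S' ⊆ S)
    (x x' : XF L) (h1 : ∀ i ∈ S', ∃ c : G, x i = ((c : G) : G ⧸ L.U i) ∧
      x' i = ((c * g : G) : G ⧸ L.U i)) (h2 : ∀ i ∉ S', x' i = x i) :
    F z x' = (∏ i ∈ S', (T i).chi g) * F z x := by
  classical
  induction S' using Finset.induction_on generalizing x' with
  | empty =>
    have : x' = x := XF.ext fun i => h2 i (by simp)
    rw [this]; simp
  | insert a s ha ih =>
    obtain ⟨c, hc1, hc2⟩ := h1 a (Finset.mem_insert_self a s)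
    have hcomp : x' = XF.upd (XF.upd x' a (x a)) a
        ((T a).rt ⟨g, hg a (hS' (Finset.mem_insert_self a s))⟩ (XF.upd x' a (x a) a)) := by
      rw [XF.upd_same, XF.upd_upd]
      apply XF.ext; intro i
      by_cases h : i = a
      · subst h
        rw [XF.upd_same, hc1, hc2]
        rfl
      · rw [XF.upd_ne _ h]
    have h3 := hF a (hS' (Finset.mem_insert_self a s))
      ⟨g, hg a (hS' (Finset.mem_insert_self a s))⟩ z (XF.upd x' a (x a))
    rw [← hcomp] at h3
    rw [h3, Finset.prod_insert ha, ih (fun i hi => hS' (Finset.mem_insert_of_mem hi))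
      (XF.upd x' a (x a)) ?_ ?_, mul_assoc]
    · intro i hi
      have hne : i ≠ a := fun h => ha (h ▸ hi)
      obtain ⟨c', h4, h5⟩ := h1 i (Finset.mem_insert_of_mem hi)
      exact ⟨c', h4, by rw [XF.upd_ne _ hne, h5]⟩
    · intro i hi
      by_cases h : i = a
      · subst h
        rw [XF.upd_same]
      · rw [XF.upd_ne _ h]
        exact h2 i (by simp [h, hi])

/-- The restriction of a `G`-invariant typed function. -/
theorem outTyped_res [DecidableEq ι] {T : ∀ i : ι, Typ (L.U i)} {F : Z → XF L → ℂ}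
    (hinv : Inv F) (hF : Typed T S F) : OutTyped T S (res S F) := by
  intro g hg z y
  unfold res
  have h1 : F z (inj L S y) = F (g • z) (g • inj L S y) := (hinv g z _).symm
  rw [h1]
  symm
  refine Typed.all hF hg (g • z) S subset_rfl (inj L S (g • y)) (g • inj L S y) ?_ ?_
  · intro i hi
    refine ⟨1, inj_apply_mem _ hi, ?_⟩
    rw [XF.smul_apply, inj_apply_mem _ hi]
    show (((g * 1 : G)) : G ⧸ L.U i) = _
    rw [mul_one, one_mul]
  · intro i hi
    rw [XF.smul_apply, inj_apply_notMem _ hi, inj_apply_notMem _ hi]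
    rfl

/-! ### The lift -/

/-- The `G`-invariant function attached to a function on the outer space. -/
noncomputable def lift (hWA : WA L S) (F : Z → XF (restr L S) → ℂ) : Z → XF L → ℂ :=
  fun z x => F ((hWA.exists_rep x).choose⁻¹ • z) ((hWA.exists_rep x).choose⁻¹ • proj L S x)

theorem lift_eq (hWA : WA L S) {T : ∀ i : ι, Typ (L.U i)} {F : Z → XF (restr L S) → ℂ}
    (hF : OutTyped T S F) (z : Z) (x : XF L) {γ : G}
    (hγ : ∀ i ∈ S, x i = ((γ : G) : G ⧸ L.U i)) :
    lift hWA F z x = F (γ⁻¹ • z) (γ⁻¹ • proj L S x) := by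
  have h0 := (hWA.exists_rep x).choose_spec
  set δ := (hWA.exists_rep x).choose with hδ
  have hu : ∀ i ∈ S, δ⁻¹ * γ ∈ L.U i := by
    intro i hi
    rw [← QuotientGroup.eq, ← h0 i hi, hγ i hi]
  have h1 := hF (δ⁻¹ * γ) (fun i hi => (T i).le (hu i hi)) (γ⁻¹ • z) (γ⁻¹ • proj L S x)
  rw [Finset.prod_eq_one (fun i hi => (T i).one _ (hu i hi)), one_mul, smul_smul, smul_smul,
    mul_assoc, mul_inv_cancel, mul_one] at h1
  exact h1

/-- The lift is `G`-invariant. -/
theorem lift_smul (hWA : WA L S) {T : ∀ i : ι, Typ (L.U i)} {F : Z → XF (restr L S) → ℂ}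
    (hF : OutTyped T S F) : Inv (lift hWA F) := by
  intro g z x
  obtain ⟨γ, hγ⟩ := hWA.exists_rep x
  rw [lift_eq hWA hF z x hγ, lift_eq (γ := g * γ) hWA hF (g • z) (g • x), proj_smul, mul_inv_rev,
    smul_smul, smul_smul, mul_assoc, inv_mul_cancel, mul_one]
  intro i hi
  rw [XF.smul_apply, hγ i hi]
  rfl

/-- The lift extends the given function. -/
theorem res_lift (hWA : WA L S) {T : ∀ i : ι, Typ (L.U i)} {F : Z → XF (restr L S) → ℂ}
    (hF : OutTyped T S F) : res S (lift hWA F) = F := by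
  funext z y
  unfold res
  rw [lift_eq (γ := 1) hWA hF z _ (fun i hi => inj_apply_mem _ hi), inv_one, one_smul, one_smul,
    proj_inj]

/-- A `G`-invariant function is the lift of its restriction. -/
theorem lift_res [DecidableEq ι] (hWA : WA L S) {T : ∀ i : ι, Typ (L.U i)} {F : Z → XF L → ℂ}
    (hinv : Inv F) (hF : Typed T S F) : lift hWA (res S F) = F := by
  funext z x
  obtain ⟨γ, hγ⟩ := hWA.exists_rep x
  rw [lift_eq hWA (outTyped_res hinv hF) z x hγ]
  unfold res
  rw [← hinv γ⁻¹ z x, ← proj_smul, inj_proj]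
  intro i hi
  rw [XF.smul_apply, hγ i hi]
  show (((γ⁻¹ * γ : G)) : G ⧸ L.U i) = _
  rw [inv_mul_cancel]

/-- The lift is typed at the places of `S`. -/
theorem lift_typed [DecidableEq ι] (hWA : WA L S) {T : ∀ i : ι, Typ (L.U i)}
    {F : Z → XF (restr L S) → ℂ} (hF : OutTyped T S F) : Typed T S (lift hWA F) := by
  intro a ha h z x
  obtain ⟨γ, hγ⟩ := hWA.exists_rep x
  obtain ⟨γ', hγ'⟩ := hWA.exists_rep (XF.upd x a ((T a).rt h (x a)))
  have h1 : γ⁻¹ * γ' ∈ (T a).H ∧ (T a).chi (γ⁻¹ * γ') = (T a).chi h := by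
    have h2 := hγ' a ha
    rw [XF.upd_same, hγ a ha, Typ.rt_mk, QuotientGroup.eq] at h2
    have h3 : γ⁻¹ * γ' = h.1 * ((γ * h.1)⁻¹ * γ') := by group
    rw [h3]
    refine ⟨(T a).H.mul_mem h.2 ((T a).le h2), ?_⟩
    rw [(T a).mul _ h.2 _ ((T a).le h2), (T a).one _ h2, mul_one]
  have h2 : ∀ i ∈ S, i ≠ a → γ⁻¹ * γ' ∈ L.U i := by
    intro i hi hne
    have h4 := hγ' i hi
    rw [XF.upd_ne _ hne, hγ i hi, QuotientGroup.eq] at h4
    exact h4
  have hmem : ∀ i ∈ S, γ⁻¹ * γ' ∈ (T i).H := by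
    intro i hi
    by_cases hne : i = a
    · subst hne; exact h1.1
    · exact (T i).le (h2 i hi hne)
  have hprod : ∏ i ∈ S, (T i).chi (γ⁻¹ * γ') = (T a).chi h := by
    rw [Finset.prod_eq_single_of_mem a ha, h1.2]
    intro i hi hne
    exact (T i).one _ (h2 i hi hne)
  rw [lift_eq hWA hF z x hγ, lift_eq hWA hF z _ hγ', proj_upd_mem _ ha]
  have h5 := hF (γ⁻¹ * γ') hmem (γ'⁻¹ • z) (γ'⁻¹ • proj L S x)
  rw [hprod, smul_smul, smul_smul, mul_assoc, mul_inv_cancel, mul_one] at h5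
  rw [← h5]

/-! ### Operators -/

/-- Bounds pass to the lift. -/
theorem lift_mem_range (hWA : WA L S) (F : Z → XF (restr L S) → ℂ) (z : Z) (x : XF L) :
    ∃ (γ : G), (∀ i ∈ S, x i = ((γ : G) : G ⧸ L.U i)) ∧
      lift hWA F z x = F (γ⁻¹ • z) (γ⁻¹ • proj L S x) :=
  ⟨_, (hWA.exists_rep x).choose_spec, rfl⟩

theorem norm_lift_le (hWA : WA L S) {F : Z → XF (restr L S) → ℂ} {C : ℝ}
    (hF : ∀ z y, ‖F z y‖ ≤ C) (z : Z) (x : XF L) : ‖lift hWA F z x‖ ≤ C := hF _ _

theorem measurable_lift [MeasurableSpace Z] [MeasurableConstSMul G Z] (hWA : WA L S)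
    {F : Z → XF (restr L S) → ℂ} (hF : ∀ y, Measurable fun z => F z y) (x : XF L) :
    Measurable fun z => lift hWA F z x :=
  (hF _).comp (measurable_const_smul _)

theorem continuous_lift [TopologicalSpace Z] [ContinuousConstSMul G Z] (hWA : WA L S)
    {F : Z → XF (restr L S) → ℂ} (hF : ∀ y, Continuous fun z => F z y) (x : XF L) :
    Continuous fun z => lift hWA F z x :=
  (hF _).comp (continuous_const_smul _)

theorem lift_ne_zero (hWA : WA L S) {T : ∀ i : ι, Typ (L.U i)} {F : Z → XF (restr L S) → ℂ}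
    (hF : OutTyped T S F) (h : F ≠ 0) : lift hWA F ≠ 0 := by
  intro h0
  apply h
  rw [← res_lift hWA hF, h0]
  rfl

/-- Changing a coordinate outside `S`. -/
theorem lift_upd [DecidableEq ι] (hWA : WA L S) {T : ∀ i : ι, Typ (L.U i)}
    {F : Z → XF (restr L S) → ℂ} (hF : OutTyped T S F) (z : Z) (x : XF L)
    (i : {i // i ∉ S}) (a : G ⧸ L.U i.1) {γ : G} (hγ : ∀ i ∈ S, x i = ((γ : G) : G ⧸ L.U i)) :
    lift hWA F z (XF.upd x i.1 a)
      = F (γ⁻¹ • z) (XF.upd (γ⁻¹ • proj L S x) i (γ⁻¹ • a)) := by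
  rw [lift_eq hWA hF z _ (γ := γ), proj_upd_notMem, XF.smul_upd]
  intro j hj
  have : j ≠ i.1 := fun h => i.2 (h ▸ hj)
  rw [XF.upd_ne _ this, hγ j hj]

/-- A local kernel at a place outside `S`, as an operator. -/
noncomputable def opLoc [DecidableEq ι] (i : ι) (k : LocKer (L.U i)) (F : Z → XF L → ℂ) :
    Z → XF L → ℂ :=
  fun z x => ∑ᶠ a, k.k (x i) a * F z (XF.upd x i a)

/-- Local operators outside `S` commute with the lift. -/
theorem opLoc_lift [DecidableEq ι] (hWA : WA L S) {T : ∀ i : ι, Typ (L.U i)}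
    {F : Z → XF (restr L S) → ℂ} (hF : OutTyped T S F) (i : {i // i ∉ S})
    (k : LocKer (L.U i.1)) (z : Z) (x : XF L) {γ : G}
    (hγ : ∀ i ∈ S, x i = ((γ : G) : G ⧸ L.U i)) :
    opLoc i.1 k (lift hWA F) z x
      = opLoc (L := restr L S) i k F (γ⁻¹ • z) (γ⁻¹ • proj L S x) := by
  unfold opLoc
  rw [← finsum_comp_equiv (MulAction.toPerm (α := G) (β := G ⧸ L.U i.1) γ⁻¹)
    (f := fun a => k.k ((γ⁻¹ • proj L S x) i) a *
      F (γ⁻¹ • z) (XF.upd (γ⁻¹ • proj L S x) i a))]
  apply finsum_congr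
  intro a
  rw [lift_upd hWA hF z x i a hγ]
  congr 1
  show k.k (x i.1) a = k.k (γ⁻¹ • x i.1) (γ⁻¹ • a)
  rw [k.inv]

/-- If `F` is an eigenfunction of a local operator outside `S`, so is the lift. -/
theorem opLoc_lift_eig [DecidableEq ι] (hWA : WA L S) {T : ∀ i : ι, Typ (L.U i)}
    {F : Z → XF (restr L S) → ℂ} (hF : OutTyped T S F) (i : {i // i ∉ S})
    (k : LocKer (L.U i.1)) {c : ℂ}
    (hc : ∀ z y, opLoc (L := restr L S) i k F z y = c * F z y) (z : Z) (x : XF L) :
    opLoc i.1 k (lift hWA F) z x = c * lift hWA F z x := by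
  obtain ⟨γ, hγ⟩ := hWA.exists_rep x
  rw [opLoc_lift hWA hF i k z x hγ, hc, lift_eq hWA hF z x hγ]

/-- `G`-equivariant operators on functions of `z` alone commute with the lift: eigenfunctions. -/
theorem arch_lift_eig (hWA : WA L S) {T : ∀ i : ι, Typ (L.U i)}
    {F : Z → XF (restr L S) → ℂ} (hF : OutTyped T S F) (R : (Z → ℂ) → (Z → ℂ))
    (hR : ∀ (g : G) (f : Z → ℂ) (z : Z), R (fun z' => f (g • z')) z = R f (g • z)) {c : ℂ}
    (hc : ∀ y z, R (fun z' => F z' y) z = c * F z y) (z : Z) (x : XF L) :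
    R (fun z' => lift hWA F z' x) z = c * lift hWA F z x := by
  obtain ⟨γ, hγ⟩ := hWA.exists_rep x
  have h1 : (fun z' => lift hWA F z' x)
      = fun z' => (fun w => F w (γ⁻¹ • proj L S x)) (γ⁻¹ • z') := by
    funext z'
    rw [lift_eq hWA hF z' x hγ]
  have h2 := hR γ⁻¹ (fun w => F w (γ⁻¹ • proj L S x)) z
  rw [h1, h2, hc, lift_eq hWA hF z x hγ]

/-- Invariance outside `S` under a general group element is reduced to generators. -/
theorem outTyped_of_gen {T : ∀ i : ι, Typ (L.U i)} {F : Z → XF (restr L S) → ℂ} (Gen : Set G)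
    (hGen : ∀ g ∈ Gen, ∀ i ∈ S, g ∈ (T i).H)
    (hspan : ∀ g : G, (∀ i ∈ S, g ∈ (T i).H) → g ∈ Subgroup.closure Gen)
    (h : ∀ g ∈ Gen, ∀ (z : Z) (y : XF (restr L S)),
      (∏ i ∈ S, (T i).chi g) * F (g • z) (g • y) = F z y) : OutTyped T S F := by
  intro g hg
  have hmem := hspan g hg
  clear hg
  suffices h' : (∀ i ∈ S, g ∈ (T i).H) ∧ ∀ (z : Z) (y : XF (restr L S)),
      (∏ i ∈ S, (T i).chi g) * F (g • z) (g • y) = F z y from h'.2
  induction hmem using Subgroup.closure_induction with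
  | mem x hx => exact ⟨hGen x hx, h x hx⟩
  | one =>
    refine ⟨fun i _ => (T i).H.one_mem, fun z y => ?_⟩
    rw [Finset.prod_eq_one (fun i _ => (T i).chi_one), one_smul, one_smul, one_mul]
  | mul a b _ _ iha ihb =>
    refine ⟨fun i hi => (T i).H.mul_mem (iha.1 i hi) (ihb.1 i hi), fun z y => ?_⟩
    rw [Finset.prod_congr rfl (fun i hi => (T i).mul a (iha.1 i hi) b (ihb.1 i hi)),
      Finset.prod_mul_distrib, mul_smul, mul_smul, mul_comm (∏ i ∈ S, (T i).chi a), mul_assoc,
      iha.2, ihb.2]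
  | inv a _ iha =>
    refine ⟨fun i hi => (T i).H.inv_mem (iha.1 i hi), fun z y => ?_⟩
    have h1 := iha.2 (a⁻¹ • z) (a⁻¹ • y)
    rw [smul_inv_smul, smul_inv_smul] at h1
    rw [← h1, ← mul_assoc, ← Finset.prod_mul_distrib, Finset.prod_eq_one, one_mul]
    intro i hi
    rw [(T i).chi_inv (iha.1 i hi), inv_mul_cancel₀ ((T i).chi_ne_zero (iha.1 i hi))]

end Fermat.Agent.H76U
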