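import Fermat.Agent.H18DLoc
import Fermat.Agent.H76U1
import Fermat.Agent.H51ZKer

/-!
# S47, block (D), finite part: coordinates on `XF` outside `S` and the function `kap` (helper18)

`L` is a level family over the places outside `S`, all levels maximal.

* `psS S : AddChar K ℂ` : the component outside `S` of the standard additive character;
* `IsCo y e u` : `y w = n(u) d(t) U0 w`, `v_w(t) = exp (-e w)`, for all `w ∉ S`;
* `kap kc y = psS S u * kc e` for a function `kc` of the exponents which vanishes if some exponent is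
  negative; `kap_n`, `kap_bP`;
* `kap_hecke` : the Hecke operator.
-/

set_option autoImplicit false
set_option linter.unusedSectionVars false

open IsDedekindDomain HeightOneSpectrum WithZero NumberField Matrix
open scoped MatrixGroups

noncomputable section

namespace Fermat.Agent.H18D

open Fermat.Agent.H59XF Fermat.Agent.H59D Fermat.Agent.H7.Z
open Fermat.Agent.H51Z (bm)

variable {K : Type*} [Field K] [NumberField K]

/-! ### The character -/

/-- The component outside `S` of the additive character. -/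
def psS (S : Finset (HeightOneSpectrum (𝓞 K))) : AddChar K ℂ where
  toFun b := ee (-Algebra.trace ℚ K b) * (∏ w ∈ S, psi w b)⁻¹
  map_zero_eq_one' := by
    rw [map_zero, neg_zero, ee_zero, Finset.prod_congr rfl (fun w _ => AddChar.map_zero_eq_one _)]
    simp
  map_add_eq_mul' a b := by
    rw [map_add, neg_add, ee_add, Finset.prod_congr rfl
      (fun w _ => AddChar.map_add_eq_mul (psi w) a b), Finset.prod_mul_distrib, mul_inv]
    ring

theorem psS_apply (S : Finset (HeightOneSpectrum (𝓞 K))) (b : K) :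
    psS S b = ee (-Algebra.trace ℚ K b) * (∏ w ∈ S, psi w b)⁻¹ := rfl

theorem prod_psi_ne_zero (S : Finset (HeightOneSpectrum (𝓞 K))) (b : K) :
    ∏ w ∈ S, psi w b ≠ 0 := Finset.prod_ne_zero_iff.2 fun w _ => psi_ne_zero w b

theorem psS_mul_prod (S : Finset (HeightOneSpectrum (𝓞 K))) (b : K) :
    psS S b * ∏ w ∈ S, psi w b = ee (-Algebra.trace ℚ K b) := by
  rw [psS_apply, mul_assoc, inv_mul_cancel₀ (prod_psi_ne_zero S b), mul_one]

theorem norm_psS (S : Finset (HeightOneSpectrum (𝓞 K))) (b : K) : ‖psS S b‖ = 1 := by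
  rw [psS_apply, norm_mul, norm_ee, norm_inv, norm_prod,
    Finset.prod_congr rfl (fun w _ => norm_psi w b)]
  simp

theorem psS_ne_zero (S : Finset (HeightOneSpectrum (𝓞 K))) (b : K) : psS S b ≠ 0 := by
  intro h
  have := norm_psS S b
  rw [h, norm_zero] at this
  exact zero_ne_one this

variable {S : Finset (HeightOneSpectrum (𝓞 K))}

/-- `psS` is trivial on the elements integral outside `S`. -/
theorem psS_of_out {b : K} (h : ∀ w ∉ S, w.valuation K b ≤ 1) : psS S b = 1 := by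
  rw [psS_apply, prod_psi S b h, mul_inv_cancel₀ (ee_ne_zero _)]

theorem psS_congr {b b' : K} (h : ∀ w ∉ S, w.valuation K (b - b') ≤ 1) : psS S b = psS S b' := by
  have h1 : b = b' + (b - b') := by ring
  rw [h1, AddChar.map_add_eq_mul, psS_of_out h, mul_one]

/-- `psS b = e(-Tr b)` if `b` is integral at `S`. -/
theorem psS_of_in {b : K} (h : ∀ w ∈ S, w.valuation K b ≤ 1) :
    psS S b = ee (-Algebra.trace ℚ K b) := by
  rw [psS_apply, Finset.prod_congr rfl (fun w hw => psi_of_integral w (h w hw))]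
  simp

/-- `psS b = psi w b` if `b` is integral at all places different from `w ∉ S`. -/
theorem psS_eq_psi {w : HeightOneSpectrum (𝓞 K)} (hw : w ∉ S) {b : K}
    (h : ∀ v : HeightOneSpectrum (𝓞 K), v ≠ w → v.valuation K b ≤ 1) : psS S b = psi w b := by
  rw [psS_of_in (fun v hv => h v (fun hh => hw (hh ▸ hv))), psi_eq w (β := b) (β' := b) (by simp) h]

/-! ### Coordinates -/

variable {L : LevelFam PGL(2, K) {w : HeightOneSpectrum (𝓞 K) // w ∉ S}}

/-- `y` has the coordinates `(e, u)` outside `S`. -/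
structure IsCo (y : XF L) (e : HeightOneSpectrum (𝓞 K) → ℤ) (u : K) : Prop where
  zero : ∀ w ∈ S, e w = 0
  eq : ∀ (w : HeightOneSpectrum (𝓞 K)) (hw : w ∉ S) (t : Kˣ),
    w.valuation K (t : K) = exp (-e w) → y ⟨w, hw⟩ = ((bP t u : PGL(2, K)) : PGL(2, K) ⧸ L.U ⟨w, hw⟩)

theorem exists_val (w : HeightOneSpectrum (𝓞 K)) (n : ℤ) :
    ∃ t : Kˣ, w.valuation K (t : K) = exp n := by
  obtain ⟨π, hπ⟩ := w.valuation_exists_uniformizer K
  have hπ0 : π ≠ 0 := by
    intro h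
    rw [h, map_zero] at hπ
    exact exp_ne_zero hπ.symm
  refine ⟨(Units.mk0 π hπ0) ^ (-n), ?_⟩
  rw [Units.val_zpow_eq_zpow_val, map_zpow₀, Units.val_mk0, hπ, ← WithZero.exp_zsmul]
  simp

theorem coset_eq_iff {w : HeightOneSpectrum (𝓞 K)} {U : Subgroup PGL(2, K)} (hU : U = H59D.U0 w)
    (g : PGL(2, K)) (t : Kˣ) (u : K) :
    ((g : PGL(2, K)) : PGL(2, K) ⧸ U) = ((bP t u : PGL(2, K)) : PGL(2, K) ⧸ U) ↔ Co w g u t := by
  rw [eq_comm, QuotientGroup.eq, hU]
  rfl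

theorem Co.change_t {R : Type*} [CommRing R] [IsDedekindDomain R] {K : Type*} [Field K]
    [Algebra R K] [IsFractionRing R K] {w : HeightOneSpectrum R} {g : PGL(2, K)} {u : K}
    {t t' : Kˣ} (h : Co w g u t) (ht : w.valuation K (t' : K) = w.valuation K (t : K)) :
    Co w g u t' := by
  have h1 : (bP t' u)⁻¹ * bP t u ∈ H59D.U0 w := by
    rw [bP_inv_mul, bP_mem_U0, sub_self, mul_zero, map_zero, Units.val_mul,
      Units.val_inv_eq_inv_val, map_mul, map_inv₀, ht]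
    exact ⟨inv_mul_cancel₀ ((Valuation.ne_zero_iff _).2 t.ne_zero), zero_le_one⟩
  have h2 := mul_mem h1 h
  rwa [mul_assoc, mul_inv_cancel_left] at h2

/-- Criterion in terms of representatives. -/
theorem isCo_of (hL : ∀ w, L.U w = H59D.U0 w.1) {y : XF L} {e : HeightOneSpectrum (𝓞 K) → ℤ}
    {u : K} (h0 : ∀ w ∈ S, e w = 0)
    (h : ∀ (w : HeightOneSpectrum (𝓞 K)) (hw : w ∉ S), ∃ (g : PGL(2, K)) (t : Kˣ),
      y ⟨w, hw⟩ = ((g : PGL(2, K)) : PGL(2, K) ⧸ L.U ⟨w, hw⟩) ∧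
      w.valuation K (t : K) = exp (-e w) ∧ Co w g u t) : IsCo y e u := by
  refine ⟨h0, fun w hw t ht => ?_⟩
  obtain ⟨g, t', h1, h2, h3⟩ := h w hw
  rw [h1, coset_eq_iff (hL ⟨w, hw⟩)]
  exact h3.change_t (ht.trans h2.symm)

theorem IsCo.co (hL : ∀ w, L.U w = H59D.U0 w.1) {y : XF L} {e : HeightOneSpectrum (𝓞 K) → ℤ}
    {u : K} (h : IsCo y e u) {w : HeightOneSpectrum (𝓞 K)} (hw : w ∉ S) {g : PGL(2, K)}
    (hg : y ⟨w, hw⟩ = ((g : PGL(2, K)) : PGL(2, K) ⧸ L.U ⟨w, hw⟩)) {t : Kˣ}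
    (ht : w.valuation K (t : K) = exp (-e w)) : Co w g u t := by
  rw [← coset_eq_iff (hL ⟨w, hw⟩), ← hg]
  exact h.eq w hw t ht

theorem isCo_fin (hL : ∀ w, L.U w = H59D.U0 w.1) {y : XF L} {e : HeightOneSpectrum (𝓞 K) → ℤ}
    {u : K} (h : IsCo y e u) : {w | e w ≠ 0}.Finite := by
  refine (y.fin.image Subtype.val).subset fun w hw => ?_
  have hwS : w ∉ S := fun hh => hw (h.zero w hh)
  refine ⟨⟨w, hwS⟩, fun h1 => hw ?_, rfl⟩
  obtain ⟨t, ht⟩ := exists_val w (-e w)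
  have h2 := h.co hL hwS h1 ht
  have h3 := h2.val_eq
  rw [exG_one, ht, exp_inj] at h3
  linarith

theorem IsCo.unique (hL : ∀ w, L.U w = H59D.U0 w.1) {y : XF L}
    {e e' : HeightOneSpectrum (𝓞 K) → ℤ} {u u' : K} (h : IsCo y e u) (h' : IsCo y e' u') :
    e = e' ∧ ∀ w ∉ S, w.valuation K (u' - u) ≤ exp (-e w) := by
  have key : ∀ w (hw : w ∉ S), e w = e' w ∧ w.valuation K (u' - u) ≤ exp (-e w) := by
    intro w hw
    obtain ⟨g, hg⟩ := QuotientGroup.mk_surjective (y ⟨w, hw⟩)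
    obtain ⟨t, ht⟩ := exists_val w (-e w)
    obtain ⟨t', ht'⟩ := exists_val w (-e' w)
    obtain ⟨h1, h2⟩ := (h.co hL hw hg.symm ht).unique (h'.co hL hw hg.symm ht')
    rw [ht, ht', exp_inj] at h1
    exact ⟨by linarith, ht ▸ h2⟩
  refine ⟨funext fun w => ?_, fun w hw => (key w hw).2⟩
  by_cases hw : w ∈ S
  · rw [h.zero w hw, h'.zero w hw]
  · exact (key w hw).1

theorem exists_isCo (hL : ∀ w, L.U w = H59D.U0 w.1) (y : XF L) :
    ∃ (e : HeightOneSpectrum (𝓞 K) → ℤ) (u : K), IsCo y e u := by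
  classical
  choose g hg using fun w : {w : HeightOneSpectrum (𝓞 K) // w ∉ S} =>
    QuotientGroup.mk_surjective (y w)
  choose c t hc using fun w : {w : HeightOneSpectrum (𝓞 K) // w ∉ S} => exists_co w.1 (g w)
  let e : HeightOneSpectrum (𝓞 K) → ℤ := fun w => if h : w ∈ S then 0 else exG w (g ⟨w, h⟩)
  have he : ∀ w (hw : w ∉ S), e w = exG w (g ⟨w, hw⟩) := fun w hw => dif_neg hw
  have hfin : {w : {w : HeightOneSpectrum (𝓞 K) // w ∉ S} |
      y w ≠ ((1 : PGL(2, K)) : PGL(2, K) ⧸ L.U w)}.Finite := y.fin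
  let T : Finset (HeightOneSpectrum (𝓞 K)) := hfin.toFinset.image Subtype.val
  obtain ⟨u, hu1, hu2⟩ := exists_approx T
    (fun w => if h : w ∈ S then 0 else c ⟨w, h⟩) (fun w => (e w).toNat)
  refine ⟨e, u, isCo_of hL (fun w hw => dif_pos hw) fun w hw => ⟨g ⟨w, hw⟩, ?_⟩⟩
  by_cases hwT : w ∈ T
  · refine ⟨t ⟨w, hw⟩, (hg _).symm, ?_, ?_⟩
    · rw [he w hw]; exact (hc ⟨w, hw⟩).val_eq
    · refine (hc ⟨w, hw⟩).change ?_
      have h1 := hu1 w hwT
      simp only [hw, dite_false] at h1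
      refine h1.trans ?_
      rw [(hc ⟨w, hw⟩).val_eq, exp_le_exp, he w hw]
      exact neg_le_neg (Int.self_le_toNat _)
  · have h1 : y ⟨w, hw⟩ = ((1 : PGL(2, K)) : PGL(2, K) ⧸ L.U ⟨w, hw⟩) := by
      by_contra h2
      exact hwT (Finset.mem_image.2 ⟨⟨w, hw⟩, hfin.mem_toFinset.2 h2, rfl⟩)
    have h2 : (1 : PGL(2, K))⁻¹ * g ⟨w, hw⟩ ∈ H59D.U0 w := by
      have h3 := (hg ⟨w, hw⟩).trans h1
      rw [eq_comm, QuotientGroup.eq, hL] at h3
      exact h3
    have h3 : Co w (g ⟨w, hw⟩) 0 1 := by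
      have := co_self w (1 : Kˣ) (0 : K)
      rw [bP_one_zero] at this
      exact this.of_mk_eq h2
    refine ⟨1, (hg _).symm, ?_, ?_⟩
    · rw [he w hw]; exact h3.val_eq
    · refine h3.change ?_
      rw [sub_zero]
      simpa using hu2 w hwT

/-- the exponents of `c` outside `S` -/
def ordS (S : Finset (HeightOneSpectrum (𝓞 K))) (c : Kˣ) (w : HeightOneSpectrum (𝓞 K)) : ℤ :=
  open Classical in if w ∈ S then 0 else -log (w.valuation K (c : K))

theorem ordS_mem (c : Kˣ) {w : HeightOneSpectrum (𝓞 K)} (hw : w ∈ S) : ordS S c w = 0 :=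
  if_pos hw

theorem val_ordS (c : Kˣ) {w : HeightOneSpectrum (𝓞 K)} (hw : w ∉ S) :
    w.valuation K (c : K) = exp (-ordS S c w) := by
  rw [ordS, if_neg hw, neg_neg, exp_log ((Valuation.ne_zero_iff _).2 c.ne_zero)]

theorem ordS_mul (c d : Kˣ) : ordS S (c * d) = ordS S c + ordS S d := by
  funext w
  rw [Pi.add_apply]
  by_cases hw : w ∈ S
  · rw [ordS_mem _ hw, ordS_mem _ hw, ordS_mem _ hw, add_zero]
  · have h := val_ordS (S := S) (c * d) hw
    rw [Units.val_mul, map_mul, val_ordS (S := S) c hw, val_ordS (S := S) d hw, ← exp_add,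
      exp_inj] at h
    linarith

theorem ordS_one : ordS S (1 : Kˣ) = 0 := by
  funext w
  have := congrFun (ordS_mul (S := S) (1 : Kˣ) 1) w
  rw [mul_one, Pi.add_apply] at this
  rw [Pi.zero_apply]
  linarith

theorem IsCo.smul (hL : ∀ w, L.U w = H59D.U0 w.1) {y : XF L} {e : HeightOneSpectrum (𝓞 K) → ℤ}
    {u : K} (h : IsCo y e u) (c : Kˣ) (b : K) :
    IsCo (bP c b • y) (e + ordS S c) (c * u + b) := by
  refine isCo_of hL (fun w hw => ?_) fun w hw => ?_
  · rw [Pi.add_apply, h.zero w hw, ordS_mem _ hw, add_zero]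
  · obtain ⟨g, hg⟩ := QuotientGroup.mk_surjective (y ⟨w, hw⟩)
    obtain ⟨t, ht⟩ := exists_val w (-e w)
    refine ⟨bP c b * g, c * t, ?_, ?_, (h.co hL hw hg.symm ht).smul c b⟩
    · rw [XF.smul_apply, ← hg]; rfl
    · rw [Units.val_mul, map_mul, val_ordS (S := S) c hw, ht, ← exp_add, exp_inj, Pi.add_apply]
      ring

theorem IsCo.n (hL : ∀ w, L.U w = H59D.U0 w.1) {y : XF L} {e : HeightOneSpectrum (𝓞 K) → ℤ}
    {u : K} (h : IsCo y e u) (b : K) : IsCo ((borP K).n b • y) e (u + b) := by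
  have := h.smul hL 1 b
  rwa [ordS_one, add_zero, Units.val_one, one_mul] at this

theorem IsCo.d (hL : ∀ w, L.U w = H59D.U0 w.1) {y : XF L} {e : HeightOneSpectrum (𝓞 K) → ℤ}
    {u : K} (h : IsCo y e u) (c : Kˣ) : IsCo ((borP K).d c • y) (e + ordS S c) (c * u) := by
  have := h.smul hL c 0
  rwa [add_zero] at this

theorem isCo_base (hL : ∀ w, L.U w = H59D.U0 w.1) :
    IsCo (XF.base L) (0 : HeightOneSpectrum (𝓞 K) → ℤ) (0 : K) := by
  refine isCo_of hL (fun w hw => rfl) fun w hw => ⟨1, 1, rfl, by simp, ?_⟩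
  have := co_self w (1 : Kˣ) (0 : K)
  rwa [bP_one_zero] at this

/-! ### The function `kap` -/

/-- The function `psS u * kc e` of the coordinates. -/
def kap (kc : (HeightOneSpectrum (𝓞 K) → ℤ) → ℂ) (y : XF L) : ℂ :=
  open Classical in
  if h : ∃ p : (HeightOneSpectrum (𝓞 K) → ℤ) × K, IsCo y p.1 p.2 then
    psS S h.choose.2 * kc h.choose.1 else 0

theorem kap_eq (hL : ∀ w, L.U w = H59D.U0 w.1) {kc : (HeightOneSpectrum (𝓞 K) → ℤ) → ℂ}
    (hneg : ∀ e, (∃ w ∉ S, e w < 0) → kc e = 0) {y : XF L} {e : HeightOneSpectrum (𝓞 K) → ℤ}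
    {u : K} (h : IsCo y e u) : kap kc y = psS S u * kc e := by
  have hex : ∃ p : (HeightOneSpectrum (𝓞 K) → ℤ) × K, IsCo y p.1 p.2 := ⟨(e, u), h⟩
  rw [kap, dif_pos hex]
  obtain ⟨h1, h2⟩ := hex.choose_spec.unique hL h
  by_cases h0 : kc e = 0
  · rw [h1, h0, mul_zero, mul_zero]
  · rw [h1] at h2 ⊢
    congr 1
    refine (psS_congr fun w hw => (h2 w hw).trans ?_).symm
    have h3 : 0 ≤ e w := by
      by_contra h4
      exact h0 (hneg e ⟨w, hw, not_le.1 h4⟩)
    rw [← exp_zero, exp_le_exp]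
    linarith

theorem kap_n (hL : ∀ w, L.U w = H59D.U0 w.1) {kc : (HeightOneSpectrum (𝓞 K) → ℤ) → ℂ}
    (hneg : ∀ e, (∃ w ∉ S, e w < 0) → kc e = 0) (b : K) (y : XF L) :
    kap kc ((borP K).n b • y) = psS S b * kap kc y := by
  obtain ⟨e, u, h⟩ := exists_isCo hL y
  rw [kap_eq hL hneg h, kap_eq hL hneg (h.n hL b), AddChar.map_add_eq_mul]
  ring

theorem kap_base (hL : ∀ w, L.U w = H59D.U0 w.1) {kc : (HeightOneSpectrum (𝓞 K) → ℤ) → ℂ}
    (hneg : ∀ e, (∃ w ∉ S, e w < 0) → kc e = 0) : kap kc (XF.base L) = kc 0 := by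
  rw [kap_eq hL hneg (isCo_base hL), AddChar.map_zero_eq_one, one_mul]

end Fermat.Agent.H18D
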