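import Fermat.Agent.H7ZMod

/-!
# S47, block (D), finite part: coordinates on `PGL₂(K) / PGL₂(O_(w))` (helper18)

* `Co w g u a` : `g ∈ n(u) d(a) PGL₂(O_(w))`; existence, uniqueness (`exG w g` = the exponent),
  behaviour under translations.
-/

set_option autoImplicit false
set_option linter.unusedSectionVars false

open IsDedekindDomain HeightOneSpectrum WithZero NumberField Matrix
open scoped MatrixGroups

noncomputable section

namespace Fermat.Agent.H18D

open Fermat.Agent.H59XF Fermat.Agent.H59D Fermat.Agent.H7.Z Fermat.Agent.H51Z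

section Gen

variable {R : Type*} [CommRing R] [IsDedekindDomain R] {K : Type*} [Field K] [Algebra R K]
  [IsFractionRing R K]

theorem GLw_eq (w : HeightOneSpectrum R) : GLw (K := K) w = GU (w.valuation K) := by
  ext g
  rw [mem_GLw, mem_GU]
  rfl

theorem U0_eq (w : HeightOneSpectrum R) : H59D.U0 (K := K) w = H51Z.U0 (w.valuation K) := by
  rw [H59D.U0, H51Z.U0, GLw_eq]

theorem mk_mem_U0' {w : HeightOneSpectrum R} {g : GL (Fin 2) K} :
    ProjGenLinGroup.mk g ∈ H59D.U0 w ↔
      ∃ c : Kˣ, g * GeneralLinearGroup.scalar (Fin 2) c ∈ GU (w.valuation K) := by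
  rw [U0_eq]; exact mk_mem_U0 _

/-- the image of `(a u; 0 1)` in `PGL₂(K)` -/
def bP (a : Kˣ) (u : K) : PGL(2, K) := ProjGenLinGroup.mk (bm a u)

theorem bP_mul (a a' : Kˣ) (b b' : K) : bP a b * bP a' b' = bP (a * a') (a * b' + b) := by
  rw [bP, bP, bP, ← map_mul, bm_mul]

theorem bP_one_zero : bP (1 : Kˣ) (0 : K) = 1 := by rw [bP, bm_one_zero, map_one]

theorem bP_inv (a : Kˣ) (b : K) : (bP a b)⁻¹ = bP a⁻¹ (-(a : K)⁻¹ * b) := by
  rw [bP, bP, ← map_inv, bm_inv]

theorem bP_inv_mul (a a' : Kˣ) (b b' : K) :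
    (bP a b)⁻¹ * bP a' b' = bP (a⁻¹ * a') ((a : K)⁻¹ * (b' - b)) := by
  rw [bP_inv, bP_mul, Units.val_inv_eq_inv_val]; congr 1; ring

theorem borP_n' (b : K) : (borP K).n b = bP 1 b := rfl

theorem borP_d' (a : Kˣ) : (borP K).d a = bP a 0 := rfl

theorem bP_eq (a : Kˣ) (u : K) : bP a u = (borP K).n u * (borP K).d a := by
  rw [borP_n', borP_d', bP_mul]; simp

theorem bP_mem_U0 {w : HeightOneSpectrum R} {a : Kˣ} {b : K} :
    bP a b ∈ H59D.U0 w ↔ w.valuation K (a : K) = 1 ∧ w.valuation K b ≤ 1 := by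
  rw [bP, mk_mem_U0']
  constructor
  · rintro ⟨c, hc1, hc2⟩
    rw [det_mul_scalar, det_bm, map_mul, map_pow] at hc2
    have h00 := hc1 0 0
    have h01 := hc1 0 1
    have h11 := hc1 1 1
    rw [scalar_mul_apply] at h00 h01 h11
    simp only [bm_00, bm_01, bm_11, one_mul] at h00 h01 h11
    rw [map_mul] at h00 h01
    have hc : w.valuation K (c : K) = 1 := by
      refine le_antisymm h11 ?_
      by_contra hlt
      rw [not_le] at hlt
      have h2 : w.valuation K (a : K) * w.valuation K (c : K) ^ 2 < 1 := by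
        rw [pow_two, ← mul_assoc]
        exact mul_lt_one_of_nonneg_of_lt_one_right h00 zero_le hlt
      exact absurd hc2 h2.ne
    rw [hc, one_pow, mul_one] at hc2
    rw [hc, mul_one] at h01
    exact ⟨hc2, h01⟩
  · rintro ⟨ha, hb⟩
    refine ⟨1, ?_⟩
    rw [map_one, mul_one]
    refine ⟨fun i j => ?_, by rw [det_bm]; exact ha⟩
    fin_cases i <;> fin_cases j
    · change w.valuation K (bm a b 0 0) ≤ 1
      rw [bm_00, ha]
    · exact hb
    · change w.valuation K (bm a b 1 0) ≤ 1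
      simp
    · change w.valuation K (bm a b 1 1) ≤ 1
      simp

/-- `g ∈ n(u) d(a) PGL₂(O_(w))` -/
def Co (w : HeightOneSpectrum R) (g : PGL(2, K)) (u : K) (a : Kˣ) : Prop :=
  (bP a u)⁻¹ * g ∈ H59D.U0 w

theorem exists_co (w : HeightOneSpectrum R) (g : PGL(2, K)) : ∃ (u : K) (a : Kˣ), Co w g u a := by
  induction g using ProjGenLinGroup.induction_on with
  | mk g =>
    obtain ⟨b, k, hbk, hb10, hk, hkd⟩ := iwasawa w g
    have hb11 : b 1 1 ≠ 0 := by
      intro h
      have := b.det_ne_zero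
      rw [Matrix.det_fin_two, hb10] at this
      apply this
      change b 0 0 * b 1 1 - b 0 1 * 0 = 0
      rw [h]; ring
    have hb00 : b 0 0 ≠ 0 := by
      intro h
      have := b.det_ne_zero
      rw [Matrix.det_fin_two, hb10] at this
      apply this
      change b 0 0 * b 1 1 - b 0 1 * 0 = 0
      rw [h]; ring
    let r : Kˣ := Units.mk0 _ hb11
    let p : Kˣ := Units.mk0 _ hb00
    refine ⟨b 0 1 / b 1 1, p * r⁻¹, ?_⟩
    have h1 : b = bm (p * r⁻¹) (b 0 1 / b 1 1) * GeneralLinearGroup.scalar (Fin 2) r := by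
      apply gl_ext <;> rw [scalar_mul_apply]
      · simp [p, r, hb11]
      · rw [bm_01]; change _ = b 0 1 / b 1 1 * b 1 1
        field_simp
      · rw [bm_10, zero_mul]; exact hb10
      · rw [bm_11, one_mul]; rfl
    have h2 : (ProjGenLinGroup.mk g : PGL(2, K)) =
        bP (p * r⁻¹) (b 0 1 / b 1 1) * ProjGenLinGroup.mk k := by
      rw [hbk, map_mul]
      congr 1
      rw [bP, eq_comm, ProjGenLinGroup.mk_eq_mk_iff]
      exact ⟨r, h1.symm⟩
    rw [Co, h2, inv_mul_cancel_left]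
    exact ⟨k, ⟨hk, hkd⟩, rfl⟩

theorem Co.mul_right {w : HeightOneSpectrum R} {g : PGL(2, K)} {u : K} {a : Kˣ} (h : Co w g u a)
    {k : PGL(2, K)} (hk : k ∈ H59D.U0 w) : Co w (g * k) u a := by
  rw [Co, ← mul_assoc]; exact mul_mem h hk

theorem Co.of_mk_eq {w : HeightOneSpectrum R} {g g' : PGL(2, K)} {u : K} {a : Kˣ} (h : Co w g u a)
    (hg : g⁻¹ * g' ∈ H59D.U0 w) : Co w g' u a := by
  have := h.mul_right hg
  rwa [mul_inv_cancel_left] at this

theorem co_self (w : HeightOneSpectrum R) (a : Kˣ) (u : K) : Co w (bP a u) u a := by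
  rw [Co, inv_mul_cancel]; exact one_mem _

theorem Co.unique {w : HeightOneSpectrum R} {g : PGL(2, K)} {u u' : K} {a a' : Kˣ}
    (h : Co w g u a) (h' : Co w g u' a') :
    w.valuation K (a : K) = w.valuation K (a' : K) ∧
      w.valuation K (u' - u) ≤ w.valuation K (a : K) := by
  have h1 : (bP a u)⁻¹ * bP a' u' ∈ H59D.U0 w := by
    have := mul_mem h (inv_mem h')
    rwa [_root_.mul_inv_rev, inv_inv, ← mul_assoc, mul_assoc _ g, mul_inv_cancel, mul_one] at this
  rw [bP_inv_mul, bP_mem_U0] at h1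
  have ha : w.valuation K (a : K) ≠ 0 := (Valuation.ne_zero_iff _).2 a.ne_zero
  constructor
  · have := h1.1
    rw [Units.val_mul, Units.val_inv_eq_inv_val, map_mul, map_inv₀] at this
    rw [inv_mul_eq_one₀ ha] at this
    exact this
  · have := h1.2
    rw [map_mul, map_inv₀, inv_mul_le_one₀ (zero_lt_iff.2 ha)] at this
    exact this

theorem Co.change {w : HeightOneSpectrum R} {g : PGL(2, K)} {u u' : K} {a : Kˣ} (h : Co w g u a)
    (hu : w.valuation K (u' - u) ≤ w.valuation K (a : K)) : Co w g u' a := by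
  have h1 : (bP a u')⁻¹ * bP a u ∈ H59D.U0 w := by
    rw [bP_inv_mul, bP_mem_U0, inv_mul_cancel]
    refine ⟨by simp, ?_⟩
    have ha : w.valuation K (a : K) ≠ 0 := (Valuation.ne_zero_iff _).2 a.ne_zero
    rw [map_mul, map_inv₀, inv_mul_le_one₀ (zero_lt_iff.2 ha), ← neg_sub, Valuation.map_neg]
    exact hu
  have := mul_mem h1 h
  rwa [mul_assoc, mul_inv_cancel_left] at this

theorem Co.smul {w : HeightOneSpectrum R} {g : PGL(2, K)} {u : K} {a : Kˣ} (h : Co w g u a)
    (c : Kˣ) (b : K) : Co w (bP c b * g) (c * u + b) (c * a) := by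
  rw [Co, ← bP_mul, _root_.mul_inv_rev, mul_assoc, inv_mul_cancel_left]; exact h

/-- the exponent: `g ∈ n(u) d(a) PGL₂(O_(w))` with `v_w(a) = exp (-exG w g)` -/
def exG (w : HeightOneSpectrum R) (g : PGL(2, K)) : ℤ :=
  -log (w.valuation K ((exists_co w g).choose_spec.choose : K))

theorem exp_neg_neg_log {w : HeightOneSpectrum R} (a : Kˣ) :
    exp (-(-log (w.valuation K (a : K)))) = w.valuation K (a : K) := by
  rw [neg_neg, exp_log ((Valuation.ne_zero_iff _).2 a.ne_zero)]

theorem Co.val_eq {w : HeightOneSpectrum R} {g : PGL(2, K)} {u : K} {a : Kˣ} (h : Co w g u a) :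
    w.valuation K (a : K) = exp (-exG w g) := by
  have h1 := (exists_co w g).choose_spec.choose_spec
  rw [exG, exp_neg_neg_log]
  exact (h1.unique h).1.symm

theorem exG_eq {w : HeightOneSpectrum R} {g : PGL(2, K)} {u : K} {a : Kˣ} (h : Co w g u a) :
    exG w g = -log (w.valuation K (a : K)) := by
  rw [h.val_eq, log_exp, neg_neg]

theorem exG_of_mk_eq {w : HeightOneSpectrum R} {g g' : PGL(2, K)} (hg : g⁻¹ * g' ∈ H59D.U0 w) :
    exG w g' = exG w g := by
  obtain ⟨u, a, h⟩ := exists_co w g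
  rw [exG_eq h, exG_eq (h.of_mk_eq hg)]

theorem exG_smul (w : HeightOneSpectrum R) (c : Kˣ) (b : K) (g : PGL(2, K)) :
    exG w (bP c b * g) = exG w g - log (w.valuation K (c : K)) := by
  obtain ⟨u, a, h⟩ := exists_co w g
  rw [exG_eq h, exG_eq (h.smul c b), Units.val_mul, map_mul, log_mul
    ((Valuation.ne_zero_iff _).2 c.ne_zero) ((Valuation.ne_zero_iff _).2 a.ne_zero)]
  ring

theorem exG_bP (w : HeightOneSpectrum R) (a : Kˣ) (u : K) :
    exG w (bP a u) = -log (w.valuation K (a : K)) := exG_eq (co_self w a u)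

theorem exG_one (w : HeightOneSpectrum R) : exG (K := K) w 1 = 0 := by
  rw [← bP_one_zero, exG_bP]; simp

end Gen

end Fermat.Agent.H18D
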