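import Fermat.Agent.H18DF
import Fermat.Agent.H16D2

/-!
# S47, block (D), finite part: the transformation of `FF` under the Borel subgroup (helper18)
-/

set_option autoImplicit false
set_option linter.unusedSectionVars false

open IsDedekindDomain HeightOneSpectrum WithZero NumberField FractionalIdeal Matrix
open scoped nonZeroDivisors MatrixGroups

noncomputable section

namespace Fermat.Agent.H18D

open Fermat.Agent Fermat.Agent.H59XF Fermat.Agent.H59D Fermat.Agent.H7.Z Fermat.Agent.H53Z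
open Fermat.Agent.H71D Fermat.Agent.H76U

section Arch

variable {E : Type*} [Field E] [NumberField E] {J : Type*} [Fintype J] (m : Model E J)

theorem nM_eq (b : E) : H19W.bG 1 b = nM b := by
  apply Units.ext
  show (!![((1 : Eˣ) : E), b; 0, 1] : Matrix (Fin 2) (Fin 2) E) = !![1, b; 0, 1]
  rw [Units.val_one]

theorem dM_eq (t : Eˣ) : H19W.bG t 0 = dM t := rfl

theorem kterm_n (α b : E) (z : J → H3) :
    kterm (fun j => m.e j α) (m.actInf (ProjGenLinGroup.mk (nM b)) z) =
      ee (Algebra.trace ℚ E (α * b)) * kterm (fun j => m.e j α) z := by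
  have h0 : m.actInf (ProjGenLinGroup.mk (nM b)) z = H19W.trans m.e b z := by
    rw [← nM_eq]; exact H19W.actInf_nP m b z
  have h1 : ((Algebra.trace ℚ E (α * b) : ℚ) : ℂ) = ((H19W.trr m.e (α * b) : ℝ) : ℂ) :=
    (H19W.trr_eq_trace m (α * b)).symm
  rw [h0, kterm_eq, kterm_eq, ee, h1]
  have h2 : ∀ j, (H19W.trans m.e b z j).y = (z j).y := fun j => rfl
  have h3 : ∀ j, (H19W.trans m.e b z j).z = (z j).z + m.e j b := fun j => rfl
  simp only [h2, h3]
  rw [mul_left_comm, ← Complex.exp_add]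
  congr 2
  rw [← mul_add, ← Complex.ofReal_add]
  congr 2
  rw [H19W.trr, ← Finset.sum_add_distrib]
  refine Finset.sum_congr rfl fun j _ => ?_
  rw [mul_add, Complex.add_re, map_mul]
  ring

theorem kterm_d (α t : Eˣ) (z : J → H3) :
    kterm (fun j => m.e j α) (m.actInf (ProjGenLinGroup.mk (dM t)) z) =
      ((∏ j, ‖m.e j t‖ : ℝ) : ℂ) * kterm (fun j => m.e j (α * t : Eˣ)) z := by
  have h0 : m.actInf (ProjGenLinGroup.mk (dM t)) z = H19W.dil m.e t z := by
    rw [← dM_eq]; exact H19W.actInf_dP m t z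
  rw [h0, kterm, kterm, Complex.ofReal_prod, ← Finset.prod_mul_distrib]
  refine Finset.prod_congr rfl fun j _ => ?_
  have h2 : (H19W.dil m.e t z j).y = ‖m.e j t‖ * (z j).y := rfl
  have h3 : (H19W.dil m.e t z j).z = m.e j t * (z j).z := rfl
  rw [kt1, kt1, h2, h3, Units.val_mul, map_mul, norm_mul]
  have e1 : 4 * Real.pi * ‖m.e j (α : E)‖ * (‖m.e j (t : E)‖ * (z j).y) =
      4 * Real.pi * (‖m.e j (α : E)‖ * ‖m.e j (t : E)‖) * (z j).y := by ring
  have e2 : m.e j (α : E) * (m.e j (t : E) * (z j).z) =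
      m.e j (α : E) * m.e j (t : E) * (z j).z := by ring
  rw [e1, e2]
  push_cast
  ring

end Arch

variable {E B : Type*} [Field E] [NumberField E] [Field B] [NumberField B] [Algebra E B]
  {J : Type*} [Fintype J] {d : DD E B J} {m : Model E J}
  {L : LevelFam PGL(2, E) {w : HeightOneSpectrum (𝓞 E) // w ∉ d.S}}

theorem mk_nM (b : E) : (ProjGenLinGroup.mk (nM b) : PGL(2, E)) = (borP E).n b := by
  rw [← nM_eq]; rfl

theorem mk_dM (t : Eˣ) : (ProjGenLinGroup.mk (dM t) : PGL(2, E)) = (borP E).d t := rfl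

/-- diagonal elements -/
theorem FF_d (hme : m.e = d.e) {t : Eˣ} (ht : t ∈ d.US) (y : XF L) (z : J → H3) :
    FF d ((ProjGenLinGroup.mk (dM t) : PGL(2, E)) • y)
      (m.actInf (ProjGenLinGroup.mk (dM t)) z) = FF d y z := by
  rw [FF, FF, ← (Equiv.mulRight t).tsum_eq (fun α : Eˣ => fco d y α * kterm (fun j => d.e j α) z)]
  refine tsum_congr fun α => ?_
  rw [Equiv.coe_mulRight, ← hme, kterm_d, hme, mk_dM, fco, fco, ← mul_smul, ← (borP E).d_mul]
  by_cases hα : α ∈ d.US
  · rw [if_pos hα, if_pos (d.US.mul_mem hα ht)]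
    have e1 : (∏ j, ‖d.e j ((α * t : Eˣ) : E)‖ : ℝ) =
        (∏ j, ‖d.e j (α : E)‖) * ∏ j, ‖d.e j (t : E)‖ := by
      rw [← Finset.prod_mul_distrib]
      exact Finset.prod_congr rfl fun j _ => by rw [Units.val_mul, map_mul, norm_mul]
    rw [e1, Complex.ofReal_mul]
    ring
  · rw [if_neg hα, if_neg (fun h => hα ((d.US.mul_mem_cancel_right ht).1 h))]
    simp

/-- upper unipotent elements -/
theorem FF_n (hL : ∀ w, L.U w = H59D.U0 w.1) (hme : m.e = d.e) {b : E}
    (hb : ∀ α ∈ d.US, ∀ w ∈ d.S, psi w (((α : E) - 1) * b) = 1) (y : XF L) (z : J → H3) :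
    (∏ w ∈ d.S, psi w b) * FF d ((ProjGenLinGroup.mk (nM b) : PGL(2, E)) • y)
      (m.actInf (ProjGenLinGroup.mk (nM b)) z) = FF d y z := by
  rw [FF, FF, ← tsum_mul_left]
  refine tsum_congr fun α => ?_
  rw [← hme, kterm_n, hme, mk_nM, fco, fco]
  by_cases hα : α ∈ d.US
  · rw [if_pos hα, if_pos hα, ← mul_smul, (borP E).conj, mul_smul,
      kap_n hL (kcf_neg' d.chi d.S)]
    have h1 : psS d.S ((α : E) * b) * ee (Algebra.trace ℚ E ((α : E) * b)) =
        (∏ w ∈ d.S, psi w b)⁻¹ := by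
      have h2 : ∏ w ∈ d.S, psi w ((α : E) * b) = ∏ w ∈ d.S, psi w b := by
        refine Finset.prod_congr rfl fun w hw => ?_
        have e1 : (α : E) * b = ((α : E) - 1) * b + b := by ring
        rw [e1, AddChar.map_add_eq_mul, hb α hα w hw, one_mul]
      rw [psS_apply, ee_neg, h2]
      field_simp [ee_ne_zero]
    have h3 : (∏ w ∈ d.S, psi w b) ≠ 0 := prod_psi_ne_zero d.S b
    calc (∏ w ∈ d.S, psi w b) * (((∏ j, ‖d.e j α‖ : ℝ) : ℂ) * (psS d.S ((α : E) * b) *
          kap (kcf d.chi) ((borP E).d α • y)) * (ee (Algebra.trace ℚ E ((α : E) * b)) *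
          kterm (fun j => d.e j α) z))
        = (∏ w ∈ d.S, psi w b) * (psS d.S ((α : E) * b) *
            ee (Algebra.trace ℚ E ((α : E) * b))) * (((∏ j, ‖d.e j α‖ : ℝ) : ℂ) *
          kap (kcf d.chi) ((borP E).d α • y) * kterm (fun j => d.e j α) z) := by ring
      _ = _ := by rw [h1, mul_inv_cancel₀ h3, one_mul]
  · rw [if_neg hα, if_neg hα]
    simp

end Fermat.Agent.H18D
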