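import Fermat.Agent.H18DP1

/-!
# S47, block (D), finite part: continuity, radial kernels and growth of `FF` (helper18)
-/

set_option autoImplicit false
set_option linter.unusedSectionVars false

open IsDedekindDomain HeightOneSpectrum WithZero NumberField FractionalIdeal Matrix
open scoped nonZeroDivisors MatrixGroups

noncomputable section

namespace Fermat.Agent.H18D

open Fermat.Agent Fermat.Agent.H59XF Fermat.Agent.H59D Fermat.Agent.H7.Z Fermat.Agent.H53Z
open Fermat.Agent.H71D Fermat.Agent.H76U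

variable {E B : Type*} [Field E] [NumberField E] [Field B] [NumberField B] [Algebra E B]
  {J : Type*} [Fintype J] {d : DD E B J} {m : Model E J}
  {L : LevelFam PGL(2, E) {w : HeightOneSpectrum (𝓞 E) // w ∉ d.S}}

/-- the character takes values in the unit disc -/
theorem norm_chi_le (hd : d.Good) (I : Ideal (𝓞 B)) : ‖d.chi I‖ ≤ 1 := by
  have hP : ∀ P : HeightOneSpectrum (𝓞 B), ‖d.chi P.asIdeal‖ ≤ 1 := by
    intro P
    by_cases h : P ∈ H82.aboveSet B (d.S : Set (HeightOneSpectrum (𝓞 E)))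
    · rw [(hd.chi_S P).2 h, norm_zero]; exact zero_le_one
    · exact (hd.chi_norm P h).le
  induction I using UniqueFactorizationMonoid.induction_on_prime with
  | h₁ => rw [map_zero, norm_zero]; exact zero_le_one
  | h₂ I hI => rw [isUnit_iff_eq_one.1 hI, map_one, norm_one]
  | h₃ I p hI hp ih =>
    rw [map_mul, norm_mul]
    have h1 : ‖d.chi p‖ ≤ 1 :=
      hP ⟨p, Ideal.isPrime_of_prime hp, hp.ne_zero⟩
    exact mul_le_one₀ h1 (norm_nonneg _) ih

open Classical in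
/-- the bounded factor of the coefficients -/
def ff (d : DD E B J) (e : HeightOneSpectrum (𝓞 E) → ℤ) (u : E) (x : E) : ℂ :=
  if h : x ≠ 0 then
    if Units.mk0 x h ∈ d.US then (((aN (idU e)) ^ (-(1 / 2) : ℝ) : ℝ) : ℂ) * H71D.psS d.S (u * x)
    else 0
  else 0

theorem norm_ff_le (e : HeightOneSpectrum (𝓞 E) → ℤ) (u x : E) :
    ‖ff d e u x‖ ≤ ‖(((aN (idU e)) ^ (-(1 / 2) : ℝ) : ℝ) : ℂ)‖ := by
  rw [ff]
  split_ifs with h1 h2
  · rw [norm_mul, H71D.norm_psS, mul_one]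
  · rw [norm_zero]; exact norm_nonneg _
  · rw [norm_zero]; exact norm_nonneg _

/-- the coefficients on `E` -/
def ffc (d : DD E B J) (e : HeightOneSpectrum (𝓞 E) → ℤ) (u : E) (x : E) : ℂ :=
  ff d e u x * H33D.cf d.chi (spanSingleton (𝓞 E)⁰ x * idl e)

theorem ksum_ffc (hd : d.Good) (e : HeightOneSpectrum (𝓞 E) → ℤ) (u : E) :
    KSum (ffc d e u) (fun x j => d.e j x) ∧
      ∃ A D : ℝ, KGrow (ffc d e u) (fun x j => d.e j x) A D := by
  haveI := hd.tcE
  exact ksum_cf d.e hd.he (norm_chi_le hd) (idl_ne_zero e) (norm_ff_le e u)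

theorem ffc_zero (e : HeightOneSpectrum (𝓞 E) → ℤ) (u : E) : ffc d e u 0 = 0 := by
  rw [ffc, ff, dif_neg (by simp), zero_mul]

theorem FF_eq (hd : d.Good) (hL : ∀ w, L.U w = H59D.U0 w.1) {y : XF L}
    {e : HeightOneSpectrum (𝓞 E) → ℤ} {u : E} (h : IsCo y e u) (z : J → H3) :
    FF d y z = H53Z.ser (ffc d e u) (fun x j => d.e j x) z := by
  rw [FF, H53Z.ser, H87U.tsum_units (F := fun x => ffc d e u x * kterm (fun j => d.e j x) z)
    (by simp only [ffc_zero, zero_mul])]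
  refine tsum_congr fun α => ?_
  rw [fco_eq hd hL h, DD.sco, ffc, ff, dif_pos α.ne_zero, Units.mk0_val]
  congr 1
  split_ifs
  · show _ * (H33D.cf d.chi (spanSingleton (𝓞 E)⁰ (α : E) * idl e) * _) = _
    ring
  · rw [mul_zero, zero_mul]

theorem FF_cont (hd : d.Good) (hL : ∀ w, L.U w = H59D.U0 w.1) (y : XF L) :
    Continuous fun z : J → H3 => FF d y z := by
  obtain ⟨e, u, h⟩ := exists_isCo hL y
  simp only [FF_eq hd hL h]
  exact continuous_ser (ksum_ffc hd e u).1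

theorem FF_rad (hd : d.Good) (hL : ∀ w, L.U w = H59D.U0 w.1) {κ : (J → ℝ) → ℂ} (hκ : H9Z.Ker κ)
    (y : XF L) (z : J → H3) :
    H5Z.Rk κ (fun v => FF d y v) z = H9Z.hat κ * FF d y z := by
  haveI : Countable E := (Module.finBasis ℚ E).equivFun.injective.countable
  obtain ⟨e, u, h⟩ := exists_isCo hL y
  have h1 : (fun v => FF d y v) = H53Z.ser (ffc d e u) (fun x j => d.e j x) :=
    funext fun v => FF_eq hd hL h v
  rw [h1, FF_eq hd hL h]
  exact Rk_ser (ksum_ffc hd e u).1 hκ z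

theorem FF_grow (hd : d.Good) (hL : ∀ w, L.U w = H59D.U0 w.1) (y : XF L) :
    ∃ (A : ℕ) (C : ℝ), ∀ z : J → H3, ‖FF d y z‖ ≤ C * ∏ j, ((z j).y + ((z j).y)⁻¹) ^ A := by
  obtain ⟨e, u, h⟩ := exists_isCo hL y
  obtain ⟨h1, A, D, h2⟩ := ksum_ffc hd e u
  obtain ⟨n, C, -, h3⟩ := exists_norm_ser_le_pow h1 h2
  refine ⟨n, C, fun z => ?_⟩
  rw [FF_eq hd hL h, Finset.prod_pow]
  exact h3 z

end Fermat.Agent.H18D
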