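import Fermat.Agent.H51ZDisc
import Fermat.Agent.H33DCoef

/-!
# Bounds for the coefficients of dihedral forms (helper64, S47, block (D))
-/

set_option autoImplicit false
set_option linter.unusedSectionVars false

namespace Fermat.Agent.H64D

open NumberField IsDedekindDomain Ideal Filter
open scoped nonZeroDivisors Topology

theorem card_isReps {K : Type*} [Field K] [NumberField K] (w : HeightOneSpectrum (𝓞 K))
    {R : Finset K} (h : H51Z.IsReps (w.valuation K) 1 R) : R.card = Ideal.absNorm w.asIdeal := by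
  have : Finite (𝓞 K ⧸ w.asIdeal ^ 1) :=
    Ideal.finiteQuotientOfFreeOfNeBot _ (pow_ne_zero 1 w.ne_bot)
  rw [H51Z.card_reps w 1 h, pow_one, Ideal.absNorm_apply, Submodule.cardQuot_apply]

/-- the number of ideals of norm `≤ n` is `O(n)` -/
theorem exists_card_le (B : Type*) [Field B] [NumberField B] :
    ∃ C : ℝ, 0 ≤ C ∧ ∀ n : ℕ, 1 ≤ n →
      ({I : Ideal (𝓞 B) | absNorm I ≤ n}.ncard : ℝ) ≤ C * n := by
  have h1 := (NumberField.Ideal.tendsto_norm_le_div_atTop B).comp tendsto_natCast_atTop_atTop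
  obtain ⟨C, hC⟩ := h1.bddAbove_range
  refine ⟨max C 0, le_max_right _ _, fun n hn => ?_⟩
  have h2 := hC ⟨n, rfl⟩
  simp only [Function.comp_apply] at h2
  have hn' : (0 : ℝ) < n := by exact_mod_cast hn
  rw [div_le_iff₀ hn'] at h2
  have h3 : ({I : Ideal (𝓞 B) | absNorm I ≤ n}.ncard : ℝ) =
      (Nat.card {I : Ideal (𝓞 B) // (absNorm I : ℝ) ≤ (n : ℝ)} : ℝ) := by
    congr 1
    rw [← Nat.card_coe_set_eq]
    refine Nat.card_congr (Equiv.subtypeEquivRight fun I => ?_)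
    show absNorm I ≤ n ↔ _
    exact Nat.cast_le.symm
  rw [h3]
  exact h2.trans (mul_le_mul_of_nonneg_right (le_max_left _ _) hn'.le)

variable {E B : Type*} [Field E] [NumberField E] [Field B] [NumberField B] [Algebra E B]

theorem exists_coef_bound (χ : Ideal (𝓞 B) →*₀ ℂ) (hχ : ∀ I, ‖χ I‖ ≤ 1) :
    ∃ C : ℝ, 0 ≤ C ∧ ∀ n : Ideal (𝓞 E), n ≠ 0 → ‖H33D.coef χ n‖ ≤ C * Ideal.absNorm n := by
  obtain ⟨C, hC0, hC⟩ := exists_card_le B
  refine ⟨C, hC0, fun n hn => (H33D.norm_coef_le χ hχ hn).trans ?_⟩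
  have hn1 : 1 ≤ Ideal.absNorm n := Nat.one_le_iff_ne_zero.2 (by
    rw [Ne, Ideal.absNorm_eq_zero_iff]; exact hn)
  refine le_trans ?_ (hC _ hn1)
  have hfin : {I : Ideal (𝓞 B) | absNorm I ≤ absNorm n}.Finite :=
    Ideal.finite_setOfPred_absNorm_le _
  have hsub : H33D.normSet (S := 𝓞 B) (𝓞 E) n ⊆ {I : Ideal (𝓞 B) | absNorm I ≤ absNorm n} := by
    intro I hI
    show absNorm I ≤ absNorm n
    rw [← H33D.mem_normSet.1 hI, Ideal.absNorm_relNorm]
  exact_mod_cast Set.ncard_le_ncard hsub hfin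

theorem exists_cf_bound (χ : Ideal (𝓞 B) →*₀ ℂ) (hχ : ∀ I, ‖χ I‖ ≤ 1)
    (a : FractionalIdeal (𝓞 E)⁰ E) (ha : a ≠ 0) :
    ∃ (C : ℝ) (m : ℤ), 0 ≤ C ∧ m ≠ 0 ∧ ∀ x : E,
      (H33D.cf χ (FractionalIdeal.spanSingleton _ x * a) ≠ 0 → IsIntegral ℤ ((m : E) * x)) ∧
      ‖H33D.cf χ (FractionalIdeal.spanSingleton _ x * a)‖ ≤ C * (|Algebra.norm ℚ x| : ℝ) := by
  obtain ⟨C0, hC0, hC⟩ := exists_coef_bound (E := E) χ hχ
  obtain ⟨y, hy0, hy⟩ := FractionalIdeal.exists_ne_zero_mem_isInteger ha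
  -- an integer in `a`
  have hm : ∃ m : ℤ, m ≠ 0 ∧ (m : E) ∈ a := by
    refine ⟨(absNorm (span {y}) : ℤ), ?_, ?_⟩
    · rw [Nat.cast_ne_zero, Ne, Ideal.absNorm_eq_zero_iff, Ideal.span_singleton_eq_bot]
      exact hy0
    · obtain ⟨z, hz⟩ := Ideal.mem_span_singleton'.1 (Ideal.absNorm_mem (span {y}))
      have h1 : (((absNorm (span {y}) : ℕ) : ℤ) : E) = z • algebraMap (𝓞 E) E y := by
        rw [← algebraMap_smul E z, smul_eq_mul, ← map_mul, hz]
        simp
      rw [h1]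
      exact a.1.smul_mem z hy
  obtain ⟨m, hm0, hma⟩ := hm
  refine ⟨C0 * (FractionalIdeal.absNorm a : ℚ), m, ?_, hm0, fun x => ⟨fun h => ?_, ?_⟩⟩
  · exact mul_nonneg hC0 (by exact_mod_cast FractionalIdeal.absNorm_nonneg a)
  · have hle : FractionalIdeal.spanSingleton (𝓞 E)⁰ x * a ≤ 1 := by
      by_contra h1
      exact h (H33D.cf_of_not_le χ h1)
    have h1 : x * (m : E) ∈ FractionalIdeal.spanSingleton (𝓞 E)⁰ x * a :=
      FractionalIdeal.mul_mem_mul (FractionalIdeal.mem_spanSingleton_self _ x) hma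
    obtain ⟨r, hr⟩ := (FractionalIdeal.mem_one_iff _).1 (hle h1)
    rw [mul_comm, ← hr]
    exact r.2
  · by_cases hle : FractionalIdeal.spanSingleton (𝓞 E)⁰ x * a ≤ 1
    · obtain ⟨n, hn⟩ := FractionalIdeal.le_one_iff_exists_coeIdeal.1 hle
      have h2 : (Ideal.absNorm n : ℝ) =
          (|Algebra.norm ℚ x| : ℝ) * ((FractionalIdeal.absNorm a : ℚ) : ℝ) := by
        have h3 : FractionalIdeal.absNorm (n : FractionalIdeal (𝓞 E)⁰ E) =
            |Algebra.norm ℚ x| * FractionalIdeal.absNorm a := by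
          rw [hn, map_mul, FractionalIdeal.absNorm_span_singleton]
        rw [FractionalIdeal.coeIdeal_absNorm] at h3
        have h4 := congrArg (fun q : ℚ => (q : ℝ)) h3
        simpa using h4
      rw [← hn, H33D.cf_coe]
      by_cases hn0 : n = 0
      · rw [hn0, H33D.coef_zero, norm_zero]
        have : (0 : ℝ) ≤ ((FractionalIdeal.absNorm a : ℚ) : ℝ) := by
          exact_mod_cast FractionalIdeal.absNorm_nonneg a
        positivity
      · refine (hC n hn0).trans (le_of_eq ?_)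
        rw [h2]
        ring
    · rw [H33D.cf_of_not_le χ hle, norm_zero]
      have : (0 : ℝ) ≤ ((FractionalIdeal.absNorm a : ℚ) : ℝ) := by
        exact_mod_cast FractionalIdeal.absNorm_nonneg a
      positivity

end Fermat.Agent.H64D
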