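import Fermat.Agent.H18DP2
import Fermat.Agent.H64D1

/-!
# S47, block (D), finite part: the Hecke operators on `FF` (helper18)
-/

set_option autoImplicit false
set_option linter.unusedSectionVars false

open IsDedekindDomain HeightOneSpectrum WithZero NumberField FractionalIdeal Matrix
open scoped nonZeroDivisors MatrixGroups

noncomputable section

namespace Fermat.Agent.H18D

open Fermat.Agent Fermat.Agent.H59XF Fermat.Agent.H59D Fermat.Agent.H7.Z Fermat.Agent.H53Z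
open Fermat.Agent.H71D Fermat.Agent.H76U

variable {E B : Type*} [Field E] [NumberField E] [Field B] [NumberField B] [Algebra E B]
  {J : Type*} [Fintype J] {d : DD E B J} {m : Model E J}
  {L : LevelFam PGL(2, E) {w : HeightOneSpectrum (𝓞 E) // w ∉ d.S}}

theorem fco_eq_ffc (hd : d.Good) (hL : ∀ w, L.U w = H59D.U0 w.1) {y : XF L}
    {e : HeightOneSpectrum (𝓞 E) → ℤ} {u : E} (h : IsCo y e u) (α : Eˣ) :
    fco d y α = ffc d e u α := by
  rw [fco_eq hd hL h, DD.sco, ffc, ff, dif_pos α.ne_zero, Units.mk0_val]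
  split_ifs
  · show _ * (H33D.cf d.chi (spanSingleton (𝓞 E)⁰ (α : E) * idl e) * _) = _
    ring
  · rw [mul_zero, zero_mul]

theorem summable_FF (hd : d.Good) (hL : ∀ w, L.U w = H59D.U0 w.1) (y : XF L) (z : J → H3) :
    Summable fun α : Eˣ => fco d y α * kterm (fun j => d.e j α) z := by
  obtain ⟨e, u, h⟩ := exists_isCo hL y
  have h1 := (summable_ser (ksum_ffc hd e u).1 z).comp_injective (Units.val_injective (α := E))
  refine h1.congr fun α => ?_
  rw [fco_eq_ffc hd hL h]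
  rfl

open Classical in
theorem FF_hecke (hd : d.Good) (hL : ∀ w, L.U w = H59D.U0 w.1) {w : HeightOneSpectrum (𝓞 E)}
    (hw : w ∉ d.S) (hu : Unram w) {ϖ : Eˣ} (hϖ : w.valuation E (ϖ : E) = exp (-1 : ℤ))
    {R : Finset E} (hR : H51Z.IsReps (w.valuation E) 1 R) {a : ℂ}
    (hgood : H33D.IsGoodFor d.chi w.asIdeal a) (z : J → H3) (y : XF L) (g : PGL(2, E))
    (hg : y ⟨w, hw⟩ = ((g : PGL(2, E)) : PGL(2, E) ⧸ L.U ⟨w, hw⟩)) :
    (((Real.sqrt (Ideal.absNorm w.asIdeal) : ℝ) : ℂ) * a) * FF d y z =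
      ∑ b ∈ R, FF d (XF.upd y ⟨w, hw⟩
        ((g * (borP E).n b * (borP E).d ϖ : PGL(2, E)) : PGL(2, E) ⧸ L.U ⟨w, hw⟩)) z +
      FF d (XF.upd y ⟨w, hw⟩
        ((g * ((borP E).d ϖ)⁻¹ : PGL(2, E)) : PGL(2, E) ⧸ L.U ⟨w, hw⟩)) z := by
  rw [FF, ← tsum_mul_left]
  have h1 : ∑ b ∈ R, FF d (XF.upd y ⟨w, hw⟩
        ((g * (borP E).n b * (borP E).d ϖ : PGL(2, E)) : PGL(2, E) ⧸ L.U ⟨w, hw⟩)) z =
      ∑' α : Eˣ, ∑ b ∈ R, fco d (XF.upd y ⟨w, hw⟩
        ((g * (borP E).n b * (borP E).d ϖ : PGL(2, E)) : PGL(2, E) ⧸ L.U ⟨w, hw⟩)) α *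
        kterm (fun j => d.e j α) z :=
    (Summable.tsum_finsetSum fun b _ => summable_FF hd hL _ z).symm
  rw [h1, FF, ← Summable.tsum_add (summable_sum fun b _ => summable_FF hd hL _ z)
    (summable_FF hd hL _ z)]
  refine tsum_congr fun α => ?_
  rw [← Finset.sum_mul, ← add_mul, ← mul_assoc]
  congr 1
  simp only [fco]
  by_cases hα : α ∈ d.US
  · simp only [if_pos hα]
    rw [← Finset.mul_sum, ← mul_add, mul_left_comm]
    congr 1
    have hg' : ((borP E).d α • y) ⟨w, hw⟩ =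
        (((borP E).d α * g : PGL(2, E)) : PGL(2, E) ⧸ L.U ⟨w, hw⟩) := by
      rw [XF.smul_apply, hg]; rfl
    have hrec : ∀ e : HeightOneSpectrum (𝓞 E) → ℤ, (∀ v ∈ d.S, e v = 0) → (∀ v ∉ d.S, 0 ≤ e v) →
        {v | e v ≠ 0}.Finite →
        (R.card : ℂ) * kcf d.chi (e + Pi.single w 1) + kcf d.chi (e - Pi.single w 1) =
          (((Real.sqrt (Ideal.absNorm w.asIdeal) : ℝ) : ℂ) * a) * kcf d.chi e := by
      intro e _ h2 h3
      rw [H64D.card_isReps w hR]
      have := kcf_rec hgood h3 (h2 w hw)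
      exact this
    rw [kap_hecke hL (kcf_neg' d.chi d.S) hw hu hϖ hR hrec _ _ hg', XF.smul_upd]
    congr 1
    · refine Finset.sum_congr rfl fun b _ => ?_
      rw [XF.smul_upd, mul_assoc ((borP E).d α) g, mul_assoc ((borP E).d α)]
      rfl
    · rw [mul_assoc ((borP E).d α)]
      rfl
  · simp only [if_neg hα, mul_zero, Finset.sum_const_zero, add_zero]

end Fermat.Agent.H18D
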