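import Fermat.Agent.H18DP3
import Fermat.Agent.H19W4

/-!
# S47, block (D), finite part: `FF` is not zero (helper18)
-/

set_option autoImplicit false
set_option linter.unusedSectionVars false

open IsDedekindDomain HeightOneSpectrum WithZero NumberField FractionalIdeal Matrix
open scoped nonZeroDivisors MatrixGroups

noncomputable section

namespace Fermat.Agent.H18D

open Fermat.Agent Fermat.Agent.H59XF Fermat.Agent.H59D Fermat.Agent.H7.Z Fermat.Agent.H53Z
open Fermat.Agent.H71D Fermat.Agent.H76U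

section Lat

variable {E : Type*} [Field E] [NumberField E] {J : Type*} [Fintype J] (m : Model E J)

theorem latSupp_of_int {c : E → ℂ} {k : ℤ} (hk : k ≠ 0)
    (hc : ∀ x, c x ≠ 0 → IsIntegral ℤ ((k : E) * x)) : H19W.LatSupp m.e c := by
  classical
  let b := NumberField.integralBasis E
  refine ⟨Finset.univ.image fun i => (k : E) * b i, ?_, ?_⟩
  · rw [eq_top_iff, ← b.span_eq, Submodule.span_le]
    rintro _ ⟨i, rfl⟩
    have h1 : b i = (k : ℚ)⁻¹ • ((k : E) * b i) := by
      rw [Algebra.smul_def, map_inv₀, map_intCast, inv_mul_cancel_left₀]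
      exact_mod_cast hk
    rw [SetLike.mem_coe, h1]
    refine Submodule.smul_mem _ _ (Submodule.subset_span ?_)
    exact Finset.mem_coe.2 (Finset.mem_image.2 ⟨i, Finset.mem_univ i, rfl⟩)
  · intro α hα x hx
    rw [Finset.mem_image] at hx
    obtain ⟨i, -, rfl⟩ := hx
    have h1 : IsIntegral ℤ (α * ((k : E) * b i)) := by
      have e1 : α * ((k : E) * b i) = ((k : E) * α) * b i := by ring
      rw [e1]
      refine (hc α hα).mul ?_
      have : b i = algebraMap (𝓞 E) E (RingOfIntegers.basis E i) :=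
        NumberField.integralBasis_apply E i
      rw [this]
      exact RingOfIntegers.isIntegral_coe _
    have h2 : IsIntegral ℤ (Algebra.trace ℚ E (α * ((k : E) * b i))) :=
      Algebra.isIntegral_trace h1
    obtain ⟨n, hn⟩ := IsIntegrallyClosed.isIntegral_iff.1 h2
    refine ⟨n, ?_⟩
    rw [H19W.trr_eq_trace' m, ← hn]
    simp

/-- the weight of the Whittaker function -/
def om0 (u : ℝ) : ℝ := u * H22Z.K0 (4 * Real.pi * u)

theorem om0_ne {u : ℝ} (hu : 0 < u) : om0 u ≠ 0 := by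
  have hpi := Real.pi_pos
  exact (mul_pos hu (H22Z.K0_pos (by positivity))).ne'

theorem kterm_eq_wt (e : J → (E →+* ℂ)) {α : E} (hα : α ≠ 0) (x : J → H3) :
    kterm (fun j => e j α) x = ((∏ j, ‖e j α‖ : ℝ) : ℂ)⁻¹ * (H19W.wt e om0 α x : ℝ) *
      H19W.chi e α (fun j => (x j).z) := by
  have hpos : (0 : ℝ) < ∏ j, ‖e j α‖ := Finset.prod_pos fun j _ => by
    rw [norm_pos_iff, Ne, map_eq_zero]; exact hα
  have h1 : H19W.wt e om0 α x = (∏ j, ‖e j α‖) *
      ∏ j, ((x j).y * H22Z.K0 (4 * Real.pi * ‖e j α‖ * (x j).y)) := by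
    rw [H19W.wt, ← Finset.prod_mul_distrib]
    refine Finset.prod_congr rfl fun j _ => ?_
    rw [om0, show 4 * Real.pi * ‖e j α‖ * (x j).y = 4 * Real.pi * (‖e j α‖ * (x j).y) by ring]
    ring
  rw [kterm_eq, h1, Complex.ofReal_mul, ← mul_assoc, inv_mul_cancel₀ (by exact_mod_cast hpos.ne'),
    one_mul, H19W.chi, H19W.pair, ← Complex.ofReal_prod]

end Lat

variable {E B : Type*} [Field E] [NumberField E] [Field B] [NumberField B] [Algebra E B]
  {J : Type*} [Fintype J] {d : DD E B J} {m : Model E J}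
  {L : LevelFam PGL(2, E) {w : HeightOneSpectrum (𝓞 E) // w ∉ d.S}}

theorem nonempty_J (hd : d.Good) : Nonempty J := by
  obtain ⟨j, -⟩ := hd.he.2 (Classical.arbitrary (InfinitePlace E))
  exact ⟨j⟩

theorem ffc_int (hd : d.Good) (e : HeightOneSpectrum (𝓞 E) → ℤ) (u : E) :
    ∃ k : ℤ, k ≠ 0 ∧ ∀ x, ffc d e u x ≠ 0 → IsIntegral ℤ ((k : E) * x) := by
  obtain ⟨k, hk, h⟩ := exists_int_of_mul_le_one (E := E) (idl_ne_zero e)
  refine ⟨k, hk, fun x hx => h x ?_⟩
  by_contra hcon
  exact hx (by rw [ffc, H33D.cf_of_not_le d.chi hcon, mul_zero])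

/-- the Fourier expansion -/
theorem FF_expands (hd : d.Good) (hL : ∀ w, L.U w = H59D.U0 w.1) (hme : m.e = d.e) {y : XF L}
    {e : HeightOneSpectrum (𝓞 E) → ℤ} {u : E} (h : IsCo y e u) :
    H19W.Expands m.e om0 (fun z => FF d y z)
      (fun α => ffc d e u α * ((∏ j, ‖d.e j α‖ : ℝ) : ℂ)⁻¹) := by
  obtain ⟨k, hk, hint⟩ := ffc_int hd e u
  refine ⟨by rw [ffc_zero, zero_mul], latSupp_of_int m hk fun x hx => hint x
    (left_ne_zero_of_mul hx), fun z => ?_⟩
  have h1 := hasSum_ser (ksum_ffc hd e u).1 z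
  rw [← FF_eq hd hL h] at h1
  refine h1.congr_fun fun α => ?_
  by_cases hα : α = 0
  · rw [hα, ffc_zero, zero_mul, zero_mul, zero_mul, zero_mul]
  · rw [kterm_eq_wt d.e hα, hme]
    ring

theorem FF_base_ne (hd : d.Good) (hL : ∀ w, L.U w = H59D.U0 w.1) (hme : m.e = d.e) :
    ∃ z, FF d (XF.base L) z ≠ 0 := by
  haveI := nonempty_J hd
  by_contra hcon
  push Not at hcon
  have h1 := FF_expands hd hL hme (isCo_base hL)
  have h2 : H19W.Expands m.e om0 (fun z => FF d (XF.base L) z) (0 : E → ℂ) := by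
    have h3 := H19W.Expands.zero_fun (ω := om0) h1.latSupp_zero
    exact h3.congr fun z => hcon z
  have h3 := h1.unique m.e (fun u hu => om0_ne hu) h2
  have h4 := congrFun h3 1
  rw [Pi.zero_apply] at h4
  have h5 := fco_eq_ffc hd hL (isCo_base (L := L) hL) 1
  rw [Units.val_one] at h5
  rw [← h5, fco, if_pos d.US.one_mem, (borP E).d_one, one_smul, kap_base hL (kcf_neg' d.chi d.S),
    kcf_zero] at h4
  simp at h4

end Fermat.Agent.H18D
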