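import Fermat.Agent.H18DKap
import Fermat.Agent.H76U2

/-!
# S47, block (D), finite part: the coordinates of a translate by a lower unipotent (helper99)

`rel_of_isCo` : the relation `REL` between the coordinates of `y` and of `(1 0; c 1) • y`.
-/

set_option autoImplicit false
set_option linter.unusedSectionVars false

open IsDedekindDomain HeightOneSpectrum WithZero NumberField Matrix
open scoped MatrixGroups

noncomputable section

namespace Fermat.Agent.H99D

open Fermat.Agent.H59XF Fermat.Agent.H59D Fermat.Agent.H7.Z Fermat.Agent.H18D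
open Fermat.Agent.H51Z (bm GU mem_GU gl_ext scalar_mul_apply det_mul_scalar det_two)

/-- Integral matrices with unit determinant preserve integral vectors, both directions. -/
theorem int_iff {K Γ : Type*} [Field K] [LinearOrderedCommGroupWithZero Γ] (v : Valuation K Γ)
    {a b c d α β α' β' : K} (ha : v a ≤ 1) (hb : v b ≤ 1) (hc : v c ≤ 1) (hd : v d ≤ 1)
    (hdet : v (a * d - b * c) = 1) (hα : α' = a * α + b * β) (hβ : β' = c * α + d * β) :
    (v β ≤ 1 ∧ v α ≤ 1) ↔ (v β' ≤ 1 ∧ v α' ≤ 1) := by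
  have key : ∀ {p q x y : K}, v p ≤ 1 → v q ≤ 1 → v x ≤ 1 → v y ≤ 1 → v (p * x + q * y) ≤ 1 := by
    intro p q x y hp hq hx hy
    refine (v.map_add _ _).trans (max_le ?_ ?_)
    · rw [map_mul]; exact mul_le_one' hp hx
    · rw [map_mul]; exact mul_le_one' hq hy
  constructor
  · rintro ⟨h1, h2⟩
    rw [hα, hβ]
    exact ⟨key hc hd h2 h1, key ha hb h2 h1⟩
  · rintro ⟨h1, h2⟩
    have hb' : v (-b) ≤ 1 := by rwa [Valuation.map_neg]
    have hc' : v (-c) ≤ 1 := by rwa [Valuation.map_neg]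
    have e1 : (a * d - b * c) * α = d * α' + -b * β' := by rw [hα, hβ]; ring
    have e2 : (a * d - b * c) * β = -c * α' + a * β' := by rw [hα, hβ]; ring
    constructor
    · have := key hc' ha h2 h1
      rwa [← e2, map_mul, hdet, one_mul] at this
    · have := key hd hb' h2 h1
      rwa [← e1, map_mul, hdet, one_mul] at this

section Loc

variable {R : Type*} [CommRing R] [IsDedekindDomain R] {K : Type*} [Field K] [Algebra R K]
  [IsFractionRing R K]

/-- The local relation. -/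
theorem loc_rel {w : HeightOneSpectrum R} {g : PGL(2, K)} {t t1 : Kˣ} {u u1 c : K}
    (h : Co w g u t) (h1 : Co w (ProjGenLinGroup.mk (H76U.lM c) * g) u1 t1) :
    ∃ s : Kˣ, w.valuation K (t : K) = w.valuation K (s : K) ^ 2 * w.valuation K (t1 : K) ∧
      ∀ x z : K, (w.valuation K z ≤ 1 ∧ w.valuation K (x - u * z) ≤ w.valuation K (t : K)) ↔
        (w.valuation K (c * x + z) ≤ w.valuation K (s : K) ∧
          w.valuation K (x - u1 * (c * x + z)) ≤
            w.valuation K (s : K) * w.valuation K (t1 : K)) := by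
  have h2 : (bP t1 u1)⁻¹ * (ProjGenLinGroup.mk (H76U.lM c) * bP t u) ∈ H59D.U0 w := by
    have := mul_mem h1 (inv_mem h)
    have e : (bP t1 u1)⁻¹ * (ProjGenLinGroup.mk (H76U.lM c) * g) * ((bP t u)⁻¹ * g)⁻¹ =
        (bP t1 u1)⁻¹ * (ProjGenLinGroup.mk (H76U.lM c) * bP t u) := by group
    rwa [e] at this
  rw [bP_inv, bP, bP, ← map_mul, ← map_mul, mk_mem_U0'] at h2
  obtain ⟨r, hr1, hr2⟩ := h2
  set v := w.valuation K with hv
  have ht0 : (t : K) ≠ 0 := t.ne_zero
  have ht10 : (t1 : K) ≠ 0 := t1.ne_zero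
  have hr0 : (r : K) ≠ 0 := r.ne_zero
  have hvt1 : v (t1 : K) ≠ 0 := (Valuation.ne_zero_iff _).2 ht10
  have hvt : v (t : K) ≠ 0 := (Valuation.ne_zero_iff _).2 ht0
  have hvr : v (r : K) ≠ 0 := (Valuation.ne_zero_iff _).2 hr0
  have h00 := hr1 0 0
  have h01 := hr1 0 1
  have h10 := hr1 1 0
  have h11 := hr1 1 1
  rw [det_two] at hr2
  rw [scalar_mul_apply] at h00 h01 h10 h11
  simp only [scalar_mul_apply] at hr2
  have e00 : ((bm t1⁻¹ (-(t1 : K)⁻¹ * u1) * (H76U.lM c * bm t u) : GL (Fin 2) K)) 0 0 =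
      (t1 : K)⁻¹ * (t - u1 * (c * t)) := by
    simp [H51Z.mul_00, H51Z.mul_10, H76U.coe_lM]
    ring
  have e01 : ((bm t1⁻¹ (-(t1 : K)⁻¹ * u1) * (H76U.lM c * bm t u) : GL (Fin 2) K)) 0 1 =
      (t1 : K)⁻¹ * (u - u1 * (c * u + 1)) := by
    simp [H51Z.mul_01, H51Z.mul_11, H76U.coe_lM]
    ring
  have e10 : ((bm t1⁻¹ (-(t1 : K)⁻¹ * u1) * (H76U.lM c * bm t u) : GL (Fin 2) K)) 1 0 =
      c * t := by
    simp [H51Z.mul_00, H51Z.mul_10, H76U.coe_lM]
  have e11 : ((bm t1⁻¹ (-(t1 : K)⁻¹ * u1) * (H76U.lM c * bm t u) : GL (Fin 2) K)) 1 1 =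
      c * u + 1 := by
    simp [H51Z.mul_01, H51Z.mul_11, H76U.coe_lM]
  rw [e00] at h00
  rw [e01] at h01
  rw [e10] at h10
  rw [e11] at h11
  rw [e00, e01, e10, e11] at hr2
  refine ⟨r⁻¹, ?_, fun x z => ?_⟩
  · have e : (t1 : K)⁻¹ * (t - u1 * (c * t)) * r * ((c * u + 1) * r) -
        (t1 : K)⁻¹ * (u - u1 * (c * u + 1)) * r * (c * t * r) = r ^ 2 * ((t1 : K)⁻¹ * t) := by
      ring
    rw [e, map_mul, map_pow, map_mul, map_inv₀] at hr2
    rw [Units.val_inv_eq_inv_val, map_inv₀, inv_pow]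
    field_simp
    field_simp at hr2
    rw [mul_comm]
    exact hr2
  · have key := int_iff v (α := (x - u * z) / t) (β := z)
      (α' := (x - u1 * (c * x + z)) * r / t1) (β' := (c * x + z) * r) h00 h01 h10 h11 hr2
      (by field_simp; ring) (by field_simp; ring)
    have k1 : v ((x - u * z) / t) ≤ 1 ↔ v (x - u * z) ≤ v (t : K) := by
      rw [map_div₀, div_le_one₀ (zero_lt_iff.2 hvt)]
    have k2 : v ((c * x + z) * r) ≤ 1 ↔ v (c * x + z) ≤ v ((r⁻¹ : Kˣ) : K) := by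
      rw [map_mul, Units.val_inv_eq_inv_val, map_inv₀, ← le_mul_inv_iff₀ (zero_lt_iff.2 hvr),
        one_mul]
    have k3 : v ((x - u1 * (c * x + z)) * r / t1) ≤ 1 ↔
        v (x - u1 * (c * x + z)) ≤ v ((r⁻¹ : Kˣ) : K) * v (t1 : K) := by
      rw [map_div₀, map_mul, div_le_one₀ (zero_lt_iff.2 hvt1), Units.val_inv_eq_inv_val, map_inv₀,
        inv_mul_eq_div, le_div_iff₀ (zero_lt_iff.2 hvr)]
    rw [← k1, ← k2, ← k3]
    exact key

end Loc

section Glob

variable {K : Type*} [Field K] [NumberField K] {S : Finset (HeightOneSpectrum (𝓞 K))}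
  {L : LevelFam PGL(2, K) {w : HeightOneSpectrum (𝓞 K) // w ∉ S}}

/-- **(R)** The coordinates of a translate by a lower unipotent. -/
theorem rel_of_isCo (hL : ∀ w, L.U w = H59D.U0 w.1) {y : XF L}
    {e e1 : HeightOneSpectrum (𝓞 K) → ℤ} {u u1 c : K} (h : IsCo y e u)
    (h1 : IsCo ((ProjGenLinGroup.mk (H76U.lM c) : PGL(2, K)) • y) e1 u1) :
    ∃ d : HeightOneSpectrum (𝓞 K) → ℤ, {w | d w ≠ 0}.Finite ∧ (∀ w ∈ S, d w = 0) ∧
      e1 = e - 2 • d ∧
      ∀ x z : K,
        ((∀ w ∉ S, w.valuation K z ≤ 1) ∧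
          (∀ w ∉ S, w.valuation K (x - u * z) ≤ exp (-e w))) ↔
        ((∀ w ∉ S, w.valuation K (c * x + z) ≤ exp (-d w)) ∧
          (∀ w ∉ S, w.valuation K (x - u1 * (c * x + z)) ≤ exp (-(e1 w + d w)))) := by
  classical
  have key : ∀ w (_ : w ∉ S), ∃ d : ℤ, e1 w = e w - 2 * d ∧
      ∀ x z : K, (w.valuation K z ≤ 1 ∧ w.valuation K (x - u * z) ≤ exp (-e w)) ↔
        (w.valuation K (c * x + z) ≤ exp (-d) ∧
          w.valuation K (x - u1 * (c * x + z)) ≤ exp (-(e1 w + d))) := by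
    intro w hw
    obtain ⟨g, hg⟩ := QuotientGroup.mk_surjective (y ⟨w, hw⟩)
    obtain ⟨t, ht⟩ := exists_val w (-e w)
    obtain ⟨t1, ht1⟩ := exists_val w (-e1 w)
    have hg1 : ((ProjGenLinGroup.mk (H76U.lM c) : PGL(2, K)) • y) ⟨w, hw⟩ =
        (((ProjGenLinGroup.mk (H76U.lM c) : PGL(2, K)) * g : PGL(2, K)) :
          PGL(2, K) ⧸ L.U ⟨w, hw⟩) := by
      rw [XF.smul_apply, ← hg]; rfl
    obtain ⟨s, hs1, hs2⟩ := loc_rel (h.co hL hw hg.symm ht) (h1.co hL hw hg1 ht1)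
    have hs0 : w.valuation K (s : K) ≠ 0 := (Valuation.ne_zero_iff _).2 s.ne_zero
    refine ⟨-log (w.valuation K (s : K)), ?_, fun x z => ?_⟩
    · have hs : w.valuation K (s : K) = exp (log (w.valuation K (s : K))) := (exp_log hs0).symm
      rw [ht, ht1, hs, ← WithZero.exp_nsmul, ← WithZero.exp_add, exp_inj] at hs1
      simp only [nsmul_eq_mul, Nat.cast_ofNat] at hs1
      linarith
    · have e2 : exp (-(e1 w + -log (w.valuation K (s : K)))) =
          w.valuation K (s : K) * w.valuation K (t1 : K) := by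
        rw [ht1, neg_add, neg_neg, exp_add, exp_log hs0, mul_comm]
      rw [← ht, e2, neg_neg, exp_log hs0]
      exact hs2 x z
  choose d hd1 hd2 using key
  obtain ⟨D, hD0, hD⟩ : ∃ D : HeightOneSpectrum (𝓞 K) → ℤ, (∀ w ∈ S, D w = 0) ∧
      ∀ w (hw : w ∉ S), D w = d w hw :=
    ⟨fun w => if hw : w ∈ S then 0 else d w hw, fun w hw => dif_pos hw, fun w hw => dif_neg hw⟩
  refine ⟨D, ?_, hD0, ?_, ?_⟩
  · refine ((isCo_fin hL h).union (isCo_fin hL h1)).subset fun w hw => ?_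
    have hwS : w ∉ S := fun hh => hw (hD0 w hh)
    have hw' : d w hwS ≠ 0 := by rw [← hD w hwS]; exact hw
    by_contra hcon
    rw [Set.mem_union, not_or] at hcon
    have h2 : e w = 0 := not_not.mp hcon.1
    have h3 : e1 w = 0 := not_not.mp hcon.2
    have := hd1 w hwS
    omega
  · funext w
    rw [Pi.sub_apply, Pi.smul_apply]
    by_cases hw : w ∈ S
    · rw [hD0 w hw, h.zero w hw, h1.zero w hw]; simp
    · rw [hD w hw, hd1 w hw]; simp
  · intro x z
    constructor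
    · rintro ⟨ha, hb⟩
      refine ⟨fun w hw => ?_, fun w hw => ?_⟩
      · rw [hD w hw]; exact ((hd2 w hw x z).1 ⟨ha w hw, hb w hw⟩).1
      · rw [hD w hw]; exact ((hd2 w hw x z).1 ⟨ha w hw, hb w hw⟩).2
    · rintro ⟨ha, hb⟩
      have : ∀ w (hw : w ∉ S), w.valuation K z ≤ 1 ∧ w.valuation K (x - u * z) ≤ exp (-e w) := by
        intro w hw
        have ha' := ha w hw
        have hb' := hb w hw
        rw [hD w hw] at ha' hb'
        exact (hd2 w hw x z).2 ⟨ha', hb'⟩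
      exact ⟨fun w hw => (this w hw).1, fun w hw => (this w hw).2⟩

end Glob

end Fermat.Agent.H99D
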