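import Fermat.Agent.H18DP4
import Fermat.Agent.H99D1
import Fermat.Agent.H16D4

/-!
# S47, block (D), finite part: `OuterEx` (helper18)

`isOuter`: the function `FF` satisfies `IsOuter`.
-/

set_option autoImplicit false
set_option linter.unusedSectionVars false

open IsDedekindDomain HeightOneSpectrum WithZero NumberField FractionalIdeal Matrix
open scoped nonZeroDivisors MatrixGroups

noncomputable section

namespace Fermat.Agent.H18D

open Fermat.Agent Fermat.Agent.H59XF Fermat.Agent.H59D Fermat.Agent.H7.Z Fermat.Agent.H53Z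
open Fermat.Agent.H71D Fermat.Agent.H76U

section L

variable {E B : Type*} [Field E] [NumberField E] [Field B] [NumberField B] [Algebra E B]
  {J : Type*} [Fintype J] {d : DD E B J} {m : Model E J}
  {L : LevelFam PGL(2, E) {w : HeightOneSpectrum (𝓞 E) // w ∉ d.S}}

theorem cE_idU {e : HeightOneSpectrum (𝓞 E) → ℤ} (he : {w | e w ≠ 0}.Finite)
    (w : HeightOneSpectrum (𝓞 E)) : cE (idU e) w = e w := count_idl he w

theorem idU_add {e e' : HeightOneSpectrum (𝓞 E) → ℤ} (he : {w | e w ≠ 0}.Finite)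
    (he' : {w | e' w ≠ 0}.Finite) : idU (e + e') = idU e * idU e' :=
  Units.ext (idl_add he he')

/-- lower unipotent elements -/
theorem FF_l (hd : d.Good) (hL : ∀ w, L.U w = H59D.U0 w.1) (hme : m.e = d.e) {CS : Set E}
    (hN : NbarSer d CS) {c : E} (hc : c ∈ CS) (y : XF L) (z : J → H3) :
    FF d ((ProjGenLinGroup.mk (lM c) : PGL(2, E)) • y)
      (m.actInf (ProjGenLinGroup.mk (lM c)) z) = FF d y z := by
  obtain ⟨e, u, h⟩ := exists_isCo hL y
  obtain ⟨e1, u1, h1⟩ := exists_isCo hL ((ProjGenLinGroup.mk (lM c) : PGL(2, E)) • y)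
  obtain ⟨f, hf, hfS, he1, hrel⟩ := H99D.rel_of_isCo hL h h1
  have he := isCo_fin hL h
  have he1f := isCo_fin hL h1
  have hef : {w | (e1 + f) w ≠ 0}.Finite := finite_add he1f hf
  rw [FF_eq_ser hd hL h, FF_eq_ser hd hL h1]
  have hact : m.actInf (ProjGenLinGroup.mk (lM c)) z = d.nbAct c z := by
    funext j
    rw [DD.nbAct, ← hme]
    rfl
  rw [hact]
  have hREL : REL d.S c (idU e) 1 u (idU (e1 + f)) (idU f) u1 := by
    intro x y
    have h2 := hrel x y
    simp only [mem_RE, cE_idU he, cE_idU hf, cE_idU hef, cE_one, neg_zero, exp_zero,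
      Pi.add_apply]
    exact h2
  have h3 := hN c hc (idU e) 1 u (idU (e1 + f)) (idU f) u1 (fun w hw => ?_) hREL z
  · rw [inv_one, mul_one, idU_add he1f hf, mul_inv_cancel_right] at h3
    exact h3
  · rw [cE_idU he, cE_one, cE_idU hef, cE_idU hf, h.zero w hw, hfS w hw, Pi.add_apply,
      h1.zero w hw, hfS w hw]
    simp

end L

variable {E B : Type} [Field E] [NumberField E] [Field B] [NumberField B] [Algebra E B]
  {J : Type} [Fintype J]

/-- **OuterEx.** -/
theorem isOuter {S : Finset (HeightOneSpectrum (𝓞 E))} {chi : Ideal (𝓞 B) →*₀ ℂ}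
    {a : HeightOneSpectrum (𝓞 E) → ℤ} (hC : H16D.ChiHyp E B S chi a) (m : Model E J)
    (hL : ∀ w ∉ S, m.L.U w = U0 w) (T : HeightOneSpectrum (𝓞 E) → TD E)
    (hpsi : ∀ w ∈ S, ∀ x, (T w).psi x = psi w x) (d : DD E B J) (hd : d.Good)
    (hde : d.e = m.e) (hdS : d.S = S) (hdchi : d.chi = chi)
    (hUS : ∀ t : Eˣ, t ∈ d.US ↔ ∀ w ∈ S, (t : E) - 1 ∈ (T w).A) {CS : Set E}
    (hCS : ∀ c : E, (∀ w ∈ S, c ∈ (T w).C) → c ∈ CS) (hN : NbarSer d CS) :
    ∃ F, H16D.IsOuter m S T (fun w => ((a w : ℤ) : ℝ)) F := by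
  subst hdS
  have hL' : ∀ w : {w : HeightOneSpectrum (𝓞 E) // w ∉ d.S}, (restr m.L.fam d.S).U w = U0 w.1 :=
    fun w => hL w.1 w.2
  refine ⟨fun z y => FF d y z, ?_, ?_, ?_, ?_, ?_, ?_, ?_, ?_⟩
  · intro b hb z y
    have h1 : ∏ w ∈ d.S, (T w).psi b = ∏ w ∈ d.S, psi w b :=
      Finset.prod_congr rfl fun w hw => hpsi w hw b
    rw [h1]
    refine FF_n hL' hde.symm (fun α hα w hw => ?_) y z
    rw [← hpsi w hw]
    exact (T w).psi_AB _ ((hUS α).1 hα w hw) _ (hb w hw)
  · intro t ht z y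
    exact FF_d hde.symm ((hUS t).2 ht) y z
  · intro c hc z y
    exact FF_l hd hL' hde.symm hN (hCS c hc) y z
  · intro y
    exact FF_cont hd hL' y
  · intro κ hκ y z
    exact FF_rad hd hL' hκ y z
  · intro w ϖ hϖ R hR z y g hg
    have h1 := FF_hecke hd hL' w.2 (hC.unram w.1 w.2) hϖ hR (a := ((a w.1 : ℤ) : ℂ))
      (by rw [hdchi]; exact hC.good w.1 w.2) z y g hg
    push_cast
    push_cast at h1
    exact h1
  · intro y
    exact FF_grow hd hL' y
  · obtain ⟨z, hz⟩ := FF_base_ne (m := m) hd hL' hde.symm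
    exact ⟨z, _, hz⟩

end Fermat.Agent.H18D
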