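import Fermat.Agent.H18DIdl

/-!
# S47, block (D), finite part: principal fractional ideals and exponents (helper18)
-/

set_option autoImplicit false
set_option linter.unusedSectionVars false

open IsDedekindDomain HeightOneSpectrum WithZero NumberField FractionalIdeal
open scoped nonZeroDivisors

noncomputable section

namespace Fermat.Agent.H18D

variable {K : Type*} [Field K] [NumberField K]

theorem count_span_int (v : HeightOneSpectrum (𝓞 K)) {a : 𝓞 K} (ha : a ≠ 0) :
    count K v (spanSingleton (𝓞 K)⁰ (algebraMap (𝓞 K) K a)) =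
      -log (v.valuation K (algebraMap (𝓞 K) K a)) := by
  have hI : Ideal.span {a} ≠ 0 := by
    rw [Ne, Ideal.zero_eq_bot, Ideal.span_singleton_eq_bot]; exact ha
  rw [← coeIdeal_span_singleton, count_coe K v hI, valuation_of_algebraMap,
    v.intValuation_if_neg ha, log_exp, neg_neg]

theorem count_span (v : HeightOneSpectrum (𝓞 K)) {x : K} (hx : x ≠ 0) :
    count K v (spanSingleton (𝓞 K)⁰ x) = -log (v.valuation K x) := by
  obtain ⟨a, b, hb, rfl⟩ := IsFractionRing.div_surjective (A := 𝓞 K) x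
  have hb0 : b ≠ 0 := nonZeroDivisors.ne_zero hb
  have ha0 : a ≠ 0 := by
    rintro rfl
    simp at hx
  have hbK : algebraMap (𝓞 K) K b ≠ 0 := (IsFractionRing.to_map_eq_zero_iff (K := K)).not.mpr hb0
  have haK : algebraMap (𝓞 K) K a ≠ 0 := (IsFractionRing.to_map_eq_zero_iff (K := K)).not.mpr ha0
  have h1 : spanSingleton (𝓞 K)⁰ (algebraMap (𝓞 K) K a / algebraMap (𝓞 K) K b) *
      spanSingleton (𝓞 K)⁰ (algebraMap (𝓞 K) K b) =
      spanSingleton (𝓞 K)⁰ (algebraMap (𝓞 K) K a) := by
    rw [spanSingleton_mul_spanSingleton, div_mul_cancel₀ _ hbK]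
  have h2 := congrArg (count K v) h1
  have hne : spanSingleton (𝓞 K)⁰ (algebraMap (𝓞 K) K a / algebraMap (𝓞 K) K b) ≠ 0 :=
    spanSingleton_ne_zero_iff.mpr hx
  have hne2 : spanSingleton (𝓞 K)⁰ (algebraMap (𝓞 K) K b) ≠ 0 :=
    spanSingleton_ne_zero_iff.mpr hbK
  rw [count_mul K v hne hne2, count_span_int v hb0, count_span_int v ha0] at h2
  have h3 : log (v.valuation K (algebraMap (𝓞 K) K a / algebraMap (𝓞 K) K b)) =
      log (v.valuation K (algebraMap (𝓞 K) K a)) - log (v.valuation K (algebraMap (𝓞 K) K b)) := by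
    rw [map_div₀, log_div ((Valuation.ne_zero_iff _).2 haK) ((Valuation.ne_zero_iff _).2 hbK)]
  rw [h3]
  linarith

/-- The fractional ideal is determined by its exponents. -/
theorem eq_idl {I : FractionalIdeal (𝓞 K)⁰ K} (hI : I ≠ 0)
    {e : HeightOneSpectrum (𝓞 K) → ℤ} (h : ∀ w, count K w I = e w) : I = idl e := by
  rw [idl, ← finprod_heightOneSpectrum_factorization' K hI]
  exact finprod_congr fun w => by rw [h w]

variable {S : Finset (HeightOneSpectrum (𝓞 K))}

theorem span_eq_idl {x : Kˣ} (hx : ∀ w ∈ S, w.valuation K (x : K) = 1) :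
    spanSingleton (𝓞 K)⁰ (x : K) = idl (ordS S x) := by
  refine eq_idl (spanSingleton_ne_zero_iff.mpr x.ne_zero) fun w => ?_
  rw [count_span w x.ne_zero]
  by_cases hw : w ∈ S
  · rw [ordS_mem _ hw, hx w hw, log_one, neg_zero]
  · rw [val_ordS (S := S) x hw, log_exp, neg_neg]

theorem finite_ordS (S : Finset (HeightOneSpectrum (𝓞 K))) (x : Kˣ) :
    {w | ordS S x w ≠ 0}.Finite := by
  have h1 := Fermat.Agent.H7.Z.finite_not_integral (K := K) (x : K)
  have h2 := Fermat.Agent.H7.Z.finite_not_integral (K := K) ((x⁻¹ : Kˣ) : K)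
  refine (h1.union h2).subset fun w hw => ?_
  by_contra hcon
  simp only [Set.mem_union, Set.mem_ofPred_eq, not_or, not_not] at hcon
  apply hw
  by_cases hwS : w ∈ S
  · exact ordS_mem _ hwS
  · have h3 := hcon.1
    have h4 := hcon.2
    rw [Units.val_inv_eq_inv_val, map_inv₀] at h4
    rw [val_ordS (S := S) x hwS] at h3 h4
    rw [← WithZero.exp_neg, neg_neg, ← exp_zero, exp_le_exp] at h4
    rw [← exp_zero, exp_le_exp] at h3
    linarith

end Fermat.Agent.H18D
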