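import Mathlib
import Fermat.Agent.H19Add

/-!
# S19: the normalised function attached to a relation between points of discs (helper19)
-/

set_option autoImplicit false

noncomputable section

open AlgebraicCurve WithZero

namespace Fermat.Agent.H19

open Fermat.Agent.H40 Fermat.Agent.H94 GoodRed

section DivOf

variable {K F : Type*} [Field K] [Field F] [Algebra K F] {ι : Type*} [Fintype ι]

/-- the divisor of a finite family of places -/
def divOf (P : ι → Place K F) : Divisor K F := ∑ i, Finsupp.single (P i) (1 : ℤ)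

theorem divOf_apply [DecidableEq (Place K F)] (P : ι → Place K F) (v : Place K F) :
    divOf P v = ∑ i, if P i = v then (1 : ℤ) else 0 := by
  classical
  rw [divOf, Finsupp.finsetSum_apply]
  exact Finset.sum_congr rfl fun i _ => by rw [Finsupp.single_apply]

theorem divOf_eq_zero {P : ι → Place K F} {v : Place K F} (h : ∀ i, P i ≠ v) : divOf P v = 0 := by
  classical
  rw [divOf_apply]
  exact Finset.sum_eq_zero fun i _ => if_neg (h i)

theorem divOf_apply_self {P : ι → Place K F} (hP : Function.Injective P) (i : ι) :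
    divOf P (P i) = 1 := by
  classical
  rw [divOf_apply, Finset.sum_eq_single i, if_pos rfl]
  · intro j _ hj
    exact if_neg fun h => hj (hP h)
  · intro h
    exact absurd (Finset.mem_univ i) h

theorem divOf_nonneg (P : ι → Place K F) (v : Place K F) : 0 ≤ divOf P v := by
  classical
  rw [divOf_apply]
  exact Finset.sum_nonneg fun i _ => by split_ifs <;> omega

theorem smul_divOf (γ : SemilinearAut K F) (P : ι → Place K F) :
    γ • divOf P = divOf (fun i => γ • P i) := by
  rw [divOf, divOf, Finset.smul_sum]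
  exact Finset.sum_congr rfl fun i _ => by rw [SemilinearAut.smul_single]

theorem mapDomain_divOf {k E : Type*} [Field k] [Field E] [Algebra k E]
    (r : Place K F → Place k E) (P : ι → Place K F) :
    Finsupp.mapDomain r (divOf P) = divOf (fun i => r (P i)) := by
  rw [divOf, divOf, ← Finsupp.mapDomain.addMonoidHom_apply, map_sum]
  exact Finset.sum_congr rfl fun i _ => Finsupp.mapDomain_single

theorem divOf_smul_apply (γ : SemilinearAut K F) (P : ι → Place K F) (v : Place K F) :
    divOf (fun i => γ • P i) v = divOf P (γ⁻¹ • v) := by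
  rw [← smul_divOf, SemilinearAut.divisor_smul_apply]

theorem ord_inv_smul (γ : SemilinearAut K F) (v : Place K F) (f : F) :
    (γ⁻¹ • v).ord f = v.ord (γ • f) := by
  have := SemilinearAut.ord_smul γ (γ⁻¹ • v) f
  rw [smul_inv_smul] at this
  exact this.symm

end DivOf

variable {K F k E : Type*} [Field K] [Field F] [Algebra K F] [Field k] [Field E] [Algebra k E]
variable {S : GoodRed K F k E} {Γ : Subgroup (SemilinearAut K F)} {I : InertiaAction S Γ}

namespace DSys

variable {ι : Type*} [Fintype ι] (Y : DSys S I ι)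

/-- the centres -/
def R (i : ι) : Place K F := (Y.C i).P0

omit [Fintype ι] in
theorem r_R (i : ι) : S.r (Y.R i) = Y.Q i := (Y.C i).r_P0

omit [Fintype ι] in
theorem injective_of_r {P : ι → Place K F} (hP : ∀ i, S.r (P i) = Y.Q i) :
    Function.Injective P := by
  intro i j hij
  exact Y.Q_inj (by rw [← hP, ← hP, hij])

theorem divOf_at {P : ι → Place K F} (hP : ∀ i, S.r (P i) = Y.Q i) {v : Place K F} {i : ι}
    (hv : S.r v = Y.Q i) [Decidable (P i = v)] : divOf P v = if P i = v then 1 else 0 := by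
  split_ifs with h
  · subst h
    exact divOf_apply_self (Y.injective_of_r hP) i
  · refine divOf_eq_zero fun j hj => ?_
    have : j = i := Y.Q_inj (by rw [← hP, hj, hv])
    subst this
    exact h hj

theorem divOf_ne {P : ι → Place K F} (hP : ∀ i, S.r (P i) = Y.Q i) {v : Place K F}
    (hv : ∀ i, S.r v ≠ Y.Q i) : divOf P v = 0 :=
  divOf_eq_zero fun i hi => hv i (by rw [← hP, hi])

/-- normalised function with divisor `ΣP - ΣR` -/
structure NF (P : ι → Place K F) (f : F) : Prop where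
  mem : f ∈ S.B
  ρ_eq : S.ρ ⟨f, mem⟩ = 1
  val : HasVal I.Pinf f 1
  ord : ∀ v, v.ord f = divOf P v - divOf Y.R v

theorem NF.ne_zero {P : ι → Place K F} {f : F} (h : Y.NF P f) : f ≠ 0 :=
  ne_zero_of_ρ (x := ⟨f, h.mem⟩) (by rw [h.ρ_eq]; exact one_ne_zero)

theorem exists_NF [IsAlgClosed K] [FunField K F] [IsAlgClosed k] [FunField k E]
    {P : ι → Place K F} (hP : ∀ i, S.r (P i) = Y.Q i)
    (h : ∃ f : F, f ≠ 0 ∧ ∀ v : Place K F, v.ord f = divOf P v - divOf Y.R v) :
    ∃ f, Y.NF P f := by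
  classical
  have := S.pdE
  have := S.pdF
  obtain ⟨f, hf0, hf⟩ := h
  have hinf : ∀ v : Place K F, S.r v = S.r I.Pinf → v.ord f = 0 := by
    intro v hv
    rw [hf, Y.divOf_ne hP (fun i => by rw [hv]; exact (Y.ne_inf i).symm),
      Y.divOf_ne Y.r_R (fun i => by rw [hv]; exact (Y.ne_inf i).symm), sub_self]
  obtain ⟨c, hc⟩ := exists_hasVal (mem_iff_ord.mpr (hinf I.Pinf rfl).ge)
  have hc0 : c ≠ 0 := by
    rintro rfl
    rw [hasVal_zero_iff] at hc
    rcases hc with h | h
    · exact hf0 h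
    · rw [hinf _ rfl] at h
      omega
  -- normalise
  set f1 : F := c⁻¹ • f with hf1
  have hf10 : f1 ≠ 0 := smul_ne_zero (inv_ne_zero hc0) hf0
  have hord1 : ∀ v : Place K F, v.ord f1 = v.ord f := by
    intro v
    rw [hf1, Algebra.smul_def, v.ord_mul (by simpa using hc0) hf0, H94.ord_algebraMap, zero_add]
  have hval1 : HasVal I.Pinf f1 1 := by
    have := hc.smul c⁻¹
    rwa [inv_mul_cancel₀ hc0] at this
  -- scale
  obtain ⟨a, b, ha0, hb, hfab⟩ := S.exists_scale hf10
  have hb0 : (b : F) ≠ 0 := ne_zero_of_ρ hb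
  have hordb : ∀ v : Place K F, v.ord (b : F) = v.ord f := by
    intro v
    rw [← hord1, hfab, v.ord_mul (by simpa using ha0) hb0, H94.ord_algebraMap, zero_add]
  have hordρ : ∀ w : Place k E, w.ord (S.ρ b) = 0 := by
    intro w
    rw [← S.div_red b hb (divOf P - divOf Y.R) (fun v => by rw [Finsupp.sub_apply, hordb, hf]) w]
    rw [Finsupp.mapDomain_sub, mapDomain_divOf, mapDomain_divOf]
    have h1 : (fun i => S.r (P i)) = fun i => S.r (Y.R i) := by
      funext i; rw [hP, Y.r_R]
    rw [h1, sub_self]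
    rfl
  have hbval : HasVal I.Pinf (b : F) a⁻¹ := by
    have h1 : (b : F) = a⁻¹ • f1 := by
      rw [hfab, Algebra.smul_def, ← mul_assoc, ← map_mul, inv_mul_cancel₀ ha0, map_one, one_mul]
    have := hval1.smul a⁻¹
    rwa [mul_one, ← h1] at this
  have hbdisc : (b : F) ∈ S.discRing (S.r I.Pinf) :=
    ⟨b.2, fun v hv => mem_iff_ord.mpr (by rw [hordb, hinf v hv])⟩
  obtain ⟨hainv, hπ⟩ := hasVal_red hbdisc rfl hbval
  have hρb : S.ρ b = algebraMap k E (S.π ⟨a⁻¹, hainv⟩) :=
    eq_const_of_regular (fun w => (hordρ w).ge) hπ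
  have hπ0 : S.π ⟨a⁻¹, hainv⟩ ≠ 0 := by
    intro h
    rw [h, map_zero] at hρb
    exact hb hρb
  have haA : a ∈ S.A := by
    have := S.inv_mem_of_π_ne_zero hainv hπ0
    rwa [inv_inv] at this
  have hmem : f1 ∈ S.B := by
    rw [hfab]
    exact S.B.mul_mem (S.const_mem haA) b.2
  refine ⟨f1, hmem, ?_, hval1, fun v => by rw [hord1, hf]⟩
  have h2 : (⟨f1, hmem⟩ : S.B) = ⟨algebraMap K F a, S.const_mem haA⟩ * b := Subtype.ext hfab
  rw [h2, map_mul, S.ρ_const haA, hρb, ← map_mul, ← map_mul]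
  have h3 : (⟨a, haA⟩ * ⟨a⁻¹, hainv⟩ : S.A) = 1 := Subtype.ext (mul_inv_cancel₀ ha0)
  rw [h3, map_one, map_one]

/-- equivariance of normalised functions -/
theorem NF.smul [IsAlgClosed K] [FunField K F] {P P' : ι → Place K F} {f f' : F}
    (h : Y.NF P f) (h' : Y.NF P' f') {γ : SemilinearAut K F} (hγ : γ ∈ Γ)
    (hPP' : ∀ i, P' i = γ • P i) : γ • f = f' := by
  have := S.pdF
  have hP' : P' = fun i => γ • P i := funext hPP'
  subst hP'
  have hR : (fun i => γ • Y.R i) = Y.R := funext fun i => Y.smul_P0 γ hγ i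
  refine eq_of_ord_eq (P := I.Pinf) (c := 1) ?_ (h'.ne_zero Y) (fun v => ?_) one_ne_zero ?_ h'.val
  · rw [Ne, smul_eq_zero_iff_eq]
    exact h.ne_zero Y
  · rw [h'.ord, ← ord_inv_smul, h.ord, ← divOf_smul_apply, ← divOf_smul_apply, hR]
  · have := h.val.smul_aut γ
    rwa [I.smul_Pinf γ hγ, map_one] at this

/-! ### The space of functions vanishing at infinity -/

/-- `L(ΣR - Pinf)` -/
def V : Submodule K F := riemannRochSpace (divOf Y.R - Finsupp.single I.Pinf 1)

theorem mem_V_iff {f : F} (hf : f ≠ 0) : f ∈ Y.V ↔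
    (∀ v, v ≠ I.Pinf → -divOf Y.R v ≤ v.ord f) ∧ 0 < I.Pinf.ord f := by
  classical
  have h0 : divOf Y.R I.Pinf = 0 :=
    Y.divOf_ne Y.r_R fun i => (Y.ne_inf i).symm
  rw [V, mem_L hf]
  constructor
  · intro h
    refine ⟨fun v hv => ?_, ?_⟩
    · have := h v
      rwa [Finsupp.sub_apply, Finsupp.single_eq_of_ne hv, sub_zero] at this
    · have := h I.Pinf
      rw [Finsupp.sub_apply, Finsupp.single_eq_same, h0] at this
      omega
  · rintro ⟨h1, h2⟩ v
    rw [Finsupp.sub_apply]
    by_cases hv : v = I.Pinf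
    · subst hv
      rw [Finsupp.single_eq_same, h0]
      omega
    · rw [Finsupp.single_eq_of_ne hv, sub_zero]
      exact h1 v hv

theorem ord_ge_of_mem_V {f : F} (hf : f ∈ Y.V) (v : Place K F) : f = 0 ∨
    -divOf Y.R v ≤ v.ord f := by
  by_cases hf0 : f = 0
  · exact Or.inl hf0
  right
  rw [Y.mem_V_iff hf0] at hf
  by_cases hv : v = I.Pinf
  · subst hv
    have := divOf_nonneg Y.R I.Pinf
    omega
  · exact hf.1 v hv

theorem smul_mem_V {f : F} (hf : f ∈ Y.V) {γ : SemilinearAut K F} (hγ : γ ∈ Γ) :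
    γ • f ∈ Y.V := by
  by_cases hf0 : f = 0
  · rw [hf0, smul_zero]
    exact Submodule.zero_mem _
  have hf1 : γ • f ≠ 0 := by rwa [Ne, smul_eq_zero_iff_eq]
  have hR : (fun i => γ • Y.R i) = Y.R := funext fun i => Y.smul_P0 γ hγ i
  have hinf : γ⁻¹ • I.Pinf = I.Pinf := I.smul_Pinf γ⁻¹ (Γ.inv_mem hγ)
  rw [Y.mem_V_iff hf0] at hf
  rw [Y.mem_V_iff hf1]
  refine ⟨fun v hv => ?_, ?_⟩
  · rw [← ord_inv_smul]
    have h1 : divOf Y.R v = divOf Y.R (γ⁻¹ • v) := by
      rw [← divOf_smul_apply, hR]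
    rw [h1]
    refine hf.1 _ fun h => hv ?_
    rw [← smul_inv_smul γ v, h, I.smul_Pinf γ hγ]
  · rw [← ord_inv_smul, hinf]
    exact hf.2

theorem NF.sub_one_mem_V {P : ι → Place K F} {f : F} (h : Y.NF P f) : f - 1 ∈ Y.V := by
  by_cases hf0 : f - 1 = 0
  · rw [hf0]
    exact Submodule.zero_mem _
  rw [Y.mem_V_iff hf0]
  constructor
  · intro v _
    rw [sub_eq_add_neg] at hf0 ⊢
    refine H40.ord_add_ge v hf0 (Or.inr ?_) (Or.inr ?_)
    · rw [h.ord]
      have := divOf_nonneg P v
      omega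
    · have h1 : v.ord (-1 : F) = 0 := by
        rw [← map_one (algebraMap K F), ← map_neg, H94.ord_algebraMap]
      rw [h1]
      have := divOf_nonneg Y.R v
      omega
  · rcases h.val with h1 | h1
    · rw [map_one] at h1
      exact absurd h1 hf0
    · rwa [map_one] at h1

end DSys

end Fermat.Agent.H19
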