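import Mathlib
import Fermat.Agent.H19Norm

/-!
# S19: the addition lemma (helper19)
-/

set_option autoImplicit false

noncomputable section

open AlgebraicCurve WithZero

namespace Fermat.Agent.H19

open Fermat.Agent.H40 Fermat.Agent.H94 GoodRed

variable {K F k E : Type*} [Field K] [Field F] [Algebra K F] [Field k] [Field E] [Algebra k E]
variable {S : GoodRed K F k E} {Γ : Subgroup (SemilinearAut K F)} {I : InertiaAction S Γ}

namespace IsAnAlg

variable {K : Type*} [Field K] {A : ValuationSubring K} {ι S : Type*} [Finite S]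
  {σ : ι → K ≃+* K} {τ : ι → S → S} {H : Subring (S → K)}

/-- evaluation at a point -/
def ev (h : IsAnAlg A σ τ H) (s : S) : H →+* A where
  toFun f := ⟨(f : S → K) s, h.int f f.2 s⟩
  map_one' := rfl
  map_mul' _ _ := rfl
  map_zero' := rfl
  map_add' _ _ := rfl

/-- elements with nonvanishing reduction are units -/
theorem isUnit_of_red {k : Type*} [Field k] (h : IsAnAlg A σ τ H) (π : A →+* k)
    (hπ : ∀ a : A, π a ≠ 0 → (a : K)⁻¹ ∈ A) (f : H) (hf : ∀ s, π (h.ev s f) ≠ 0) : IsUnit f := by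
  have h0 : ∀ s, (f : S → K) s ≠ 0 := by
    intro s hs
    apply hf s
    have : h.ev s f = 0 := Subtype.ext hs
    rw [this, map_zero]
  have h1 := h.inv_mem f.2 (fun s => hπ _ (hf s)) h0
  refine IsUnit.of_mul_eq_one ⟨_, h1⟩ (Subtype.ext (funext fun s => ?_))
  exact mul_inv_cancel₀ (h0 s)

end IsAnAlg

theorem exists_leftInverse_matrix {k : Type*} [Field k] {m n : Type*} [Fintype m] [Fintype n]
    [DecidableEq n] [DecidableEq m] (M : Matrix m n k)
    (hM : ∀ c : n → k, M.mulVec c = 0 → c = 0) : ∃ N : Matrix n m k, N * M = 1 := by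
  have hinj : LinearMap.ker (Matrix.toLin' M) = ⊥ := by
    rw [LinearMap.ker_eq_bot']
    intro c hc
    exact hM c (by simpa using hc)
  obtain ⟨g, hg⟩ := LinearMap.exists_leftInverse_of_injective (Matrix.toLin' M) hinj
  refine ⟨LinearMap.toMatrix' g, ?_⟩
  have h1 := congrArg LinearMap.toMatrix' hg
  rw [LinearMap.toMatrix'_comp, LinearMap.toMatrix'_toLin', LinearMap.toMatrix'_id] at h1
  exact h1

namespace DSys

variable {ι : Type*} [Fintype ι] (Y : DSys S I ι)

theorem z_mul_mem {f : F} (hf : f ∈ Y.V) (hfB : f ∈ S.B) (i : ι) :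
    (Y.C i).z * f ∈ S.discRing (Y.Q i) := by
  classical
  refine ⟨S.B.mul_mem (Y.C i).hz.1 hfB, fun v hv => ?_⟩
  rw [mem_iff_ord]
  by_cases hf0 : f = 0
  · rw [hf0, mul_zero, v.ord_zero]
  have h1 := (Y.ord_ge_of_mem_V hf v).resolve_left hf0
  rw [v.ord_mul (Y.C i).z_ne_zero hf0]
  rw [Y.divOf_at Y.r_R hv] at h1
  by_cases h : Y.R i = v
  · rw [if_pos h] at h1
    subst h
    have : (Y.R i).ord (Y.C i).z = 1 := (Y.C i).ord_z_P0
    omega
  · rw [if_neg h] at h1
    have := (Y.C i).ord_z_of_ne hv (Ne.symm h)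
    omega

theorem NF.hasVal_mul {P : ι → Place K F} (hP : ∀ i, S.r (P i) = Y.Q i) {f : F}
    (h : Y.NF P f) (i : ι) : HasVal (P i) ((Y.C i).z * f) 0 := by
  classical
  rw [hasVal_zero_iff]
  right
  rw [(P i).ord_mul (Y.C i).z_ne_zero (h.ne_zero Y), h.ord,
    divOf_apply_self (Y.injective_of_r hP), Y.divOf_at Y.r_R (hP i)]
  by_cases hR : Y.R i = P i
  · rw [if_pos hR, ← hR]
    have : (Y.R i).ord (Y.C i).z = 1 := (Y.C i).ord_z_P0
    omega
  · rw [if_neg hR]
    have := (Y.C i).ord_z_of_ne (hP i) (Ne.symm hR)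
    omega

/-- the reduction of functions in `V` -/
theorem ord_ρ_ge {f : S.B} (hf : (f : F) ∈ Y.V) (hρ : S.ρ f ≠ 0) (w : Place k E) :
    -divOf Y.Q w ≤ w.ord (S.ρ f) ∧ 0 < (S.r I.Pinf).ord (S.ρ f) := by
  classical
  have := S.pdF
  have hf0 : (f : F) ≠ 0 := ne_zero_of_ρ hρ
  obtain ⟨D, hD, -⟩ := exists_div (K := K) hf0
  have h1 := S.div_red f hρ D hD
  rw [Y.mem_V_iff hf0] at hf
  -- the effective divisor
  set G : Divisor K F := D + divOf Y.R - Finsupp.single I.Pinf 1 with hG
  have hG0 : 0 ≤ G := by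
    rw [Finsupp.le_def]
    intro v
    rw [hG, Finsupp.sub_apply, Finsupp.add_apply, hD v]
    by_cases hv : v = I.Pinf
    · subst hv
      have := divOf_nonneg Y.R I.Pinf
      rw [Finsupp.single_eq_same]
      simp only [Finsupp.coe_zero, Pi.zero_apply]
      omega
    · rw [Finsupp.single_eq_of_ne hv]
      have := hf.1 v hv
      simp only [Finsupp.coe_zero, Pi.zero_apply]
      omega
  have hG1 : ∀ w, 0 ≤ Finsupp.mapDomain S.r G w := by
    intro w
    rw [S.mapDomain_apply_eq_sum]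
    exact Finset.sum_nonneg fun v _ => Finsupp.le_def.mp hG0 v
  have hG2 : Finsupp.mapDomain S.r G = Finsupp.mapDomain S.r D + divOf Y.Q -
      Finsupp.single (S.r I.Pinf) 1 := by
    rw [hG, Finsupp.mapDomain_sub, Finsupp.mapDomain_add, mapDomain_divOf,
      Finsupp.mapDomain_single]
    congr 3
    funext i
    exact Y.r_R i
  rw [hG2] at hG1
  have h2 : ∀ w : Place k E, 0 ≤ w.ord (S.ρ f) + divOf Y.Q w -
      (Finsupp.single (S.r I.Pinf) (1 : ℤ)) w := by
    intro w
    have := hG1 w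
    rwa [Finsupp.sub_apply, Finsupp.add_apply, h1 w] at this
  constructor
  · have h3 := h2 w
    have h4 : 0 ≤ (Finsupp.single (S.r I.Pinf) (1 : ℤ)) w := by
      rw [Finsupp.single_apply]; split_ifs <;> omega
    omega
  · have h3 := h2 (S.r I.Pinf)
    rw [Finsupp.single_eq_same, divOf_eq_zero (fun i => Y.ne_inf i)] at h3
    omega

/-- a good invariant basis of `V` -/
structure Bas where
  n : ℕ
  e : Fin n → S.B
  fixed : ∀ j, ∀ γ ∈ Γ, γ • (e j : F) = e j
  span : Submodule.span K (Set.range fun j => (e j : F)) = Y.V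
  li : LinearIndependent k fun j => S.ρ (e j)

theorem exists_bas [IsAlgClosed K] [FunField K F] : Nonempty Y.Bas := by
  have hfd : FiniteDimensional K Y.V :=
    finiteDimensional_L S.riemF (fun v => deg_eq_one v) I.Pinf _
  obtain ⟨n, b, h1, h2, h3⟩ := I.exists_basis_fixed Y.V hfd
    (fun γ hγ f hf => Y.smul_mem_V hf hγ)
  exact ⟨⟨n, b, h1, h2, h3⟩⟩

namespace Bas

variable {Y} (b : Y.Bas)

theorem mem (j : Fin b.n) : (b.e j : F) ∈ Y.V := by
  rw [← b.span]
  exact Submodule.subset_span ⟨j, rfl⟩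

/-- the functions `z_i e_j` -/
def h (i : ι) (j : Fin b.n) : F := (Y.C i).z * (b.e j : F)

theorem h_mem (i : ι) (j : Fin b.n) : b.h i j ∈ S.discRing (Y.Q i) :=
  Y.z_mul_mem (b.mem j) (b.e j).2 i

theorem smul_h (i : ι) (j : Fin b.n) {γ : SemilinearAut K F} (hγ : γ ∈ Γ) :
    γ • b.h i j = b.h i j := by
  rw [h, smul_mul', Y.smul_z γ hγ, b.fixed j γ hγ]

/-- residual matrix -/
def Mbar (i : ι) (j : Fin b.n) : k := pval (Y.Q i) (S.ρ ⟨b.h i j, (b.h_mem i j).1⟩)

theorem hasVal_Mbar [IsAlgClosed K] [FunField K F] (i : ι) (j : Fin b.n) :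
    HasVal (Y.Q i) (S.ρ ⟨b.h i j, (b.h_mem i j).1⟩) (b.Mbar i j) := by
  obtain ⟨h1, h2⟩ := hasVal_red (b.h_mem i j) (Y.r_R i)
    (hasVal_pval ((b.h_mem i j).2 _ (Y.r_R i)))
  rw [Mbar, h2.pval_eq]
  exact h2

theorem π_pval [IsAlgClosed K] [FunField K F] {P : Place K F} {i : ι} (hP : S.r P = Y.Q i)
    (j : Fin b.n) : S.π ⟨pval P (b.h i j), Coord.pval_mem (b.h_mem i j) hP⟩ = b.Mbar i j := by
  obtain ⟨h1, h2⟩ := hasVal_red (b.h_mem i j) hP (hasVal_pval ((b.h_mem i j).2 _ hP))
  exact h2.eq (b.hasVal_Mbar i j)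

/-- the residual matrix is injective if the other places are non special -/
theorem eq_zero_of_Mbar [IsAlgClosed K] [FunField K F] (p q : Finset ι)
    (hpq : ∀ i, i ∈ p ∨ i ∈ q)
    (hns : ∀ f ∈ riemannRochSpace (∑ i ∈ q, Finsupp.single (Y.Q i) (1 : ℤ)),
      ∃ c : k, f = algebraMap k E c)
    (c : Fin b.n → k) (hc : ∀ i ∈ p, ∑ j, b.Mbar i j * c j = 0) : c = 0 := by
  classical
  -- lift
  choose a ha using fun j => S.π_surj (c j)
  set e' : S.B := ∑ j, S.const (a j) * b.e j with he'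
  have he'F : (e' : F) = ∑ j, (a j : K) • (b.e j : F) := by
    rw [he', show ((∑ j, S.const (a j) * b.e j : S.B) : F) =
      ∑ j, ((S.const (a j) * b.e j : S.B) : F) from map_sum S.B.subtype _ _]
    exact Finset.sum_congr rfl fun j _ => by rw [Subring.coe_mul, ReductionData.coe_const,
      Algebra.smul_def]
  have he'V : (e' : F) ∈ Y.V := by
    rw [he'F]
    exact Submodule.sum_mem _ fun j _ => Submodule.smul_mem _ _ (b.mem j)
  have hρe' : S.ρ e' = ∑ j, c j • S.ρ (b.e j) := by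
    rw [he', map_sum]
    exact Finset.sum_congr rfl fun j _ => by
      rw [map_mul, ReductionData.ρ_const, ha, Algebra.smul_def]
  by_cases hne : S.ρ e' = 0
  · rw [hρe'] at hne
    exact funext (Fintype.linearIndependent_iff.mp b.li c hne)
  exfalso
  have h1 := Y.ord_ρ_ge he'V hne
  -- regularity at places of `p`
  have h2 : ∀ i ∈ p, 0 ≤ (Y.Q i).ord (S.ρ e') := by
    intro i hi
    have hz := (Y.C i).ρ_ne_zero
    have h3 : HasVal (Y.Q i) (S.ρ ⟨(Y.C i).z, (Y.C i).hz.1⟩ * S.ρ e') 0 := by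
      have h4 : S.ρ ⟨(Y.C i).z, (Y.C i).hz.1⟩ * S.ρ e' =
          ∑ j, c j • S.ρ ⟨b.h i j, (b.h_mem i j).1⟩ := by
        rw [hρe', Finset.mul_sum]
        refine Finset.sum_congr rfl fun j _ => ?_
        rw [mul_smul_comm, ← map_mul]
        rfl
      rw [h4]
      have h5 := HasVal.sum Finset.univ fun j _ => (b.hasVal_Mbar i j).smul (c j)
      have h6 : ∑ j, c j * b.Mbar i j = 0 := by
        rw [← hc i hi]
        exact Finset.sum_congr rfl fun j _ => mul_comm _ _
      rwa [h6] at h5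
    rw [hasVal_zero_iff] at h3
    have h4 := h3.resolve_left (mul_ne_zero hz hne)
    rw [(Y.Q i).ord_mul hz hne, (Y.C i).ord_ρ] at h4
    omega
  have h3 : S.ρ e' ∈ riemannRochSpace (∑ i ∈ q, Finsupp.single (Y.Q i) (1 : ℤ)) := by
    rw [mem_L hne]
    intro w
    have h6 : (∑ i ∈ q, Finsupp.single (Y.Q i) (1 : ℤ)) w =
        ∑ i ∈ q, if Y.Q i = w then (1 : ℤ) else 0 := by
      rw [Finsupp.finsetSum_apply]
      exact Finset.sum_congr rfl fun i _ => by rw [Finsupp.single_apply]
    rw [h6]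
    by_cases hw : ∃ i ∈ p, Y.Q i = w
    · obtain ⟨i, hi, rfl⟩ := hw
      have h7 := h2 i hi
      have h8 : 0 ≤ ∑ i' ∈ q, if Y.Q i' = Y.Q i then (1 : ℤ) else 0 :=
        Finset.sum_nonneg fun i _ => by split_ifs <;> omega
      omega
    · push Not at hw
      have h4 := (h1 w).1
      have h5 : divOf Y.Q w = ∑ i ∈ q, if Y.Q i = w then (1 : ℤ) else 0 := by
        rw [divOf_apply]
        refine (Finset.sum_subset (Finset.subset_univ q) fun i _ hi => ?_).symm
        exact if_neg (hw i ((hpq i).resolve_right hi))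
      rw [← h5]
      exact h4
  obtain ⟨d, hd⟩ := hns _ h3
  have h4 := (h1 (S.r I.Pinf)).2
  rw [hd, H94.ord_algebraMap] at h4
  exact absurd h4 (lt_irrefl _)

/-- coefficients of the normalised function -/
theorem exists_coeff {P : ι → Place K F} {f : F} (hf : Y.NF P f) :
    ∃ s : Fin b.n → K, f = 1 + ∑ j, s j • (b.e j : F) ∧ ∀ j, S.IsSmall (s j) := by
  have h1 := hf.sub_one_mem_V Y
  rw [← b.span] at h1
  obtain ⟨s, hs⟩ := (Submodule.mem_span_range_iff_exists_fun K).mp h1
  have hB : (∑ j, s j • (b.e j : F)) ∈ S.B := by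
    rw [hs]
    exact S.B.sub_mem hf.mem S.B.one_mem
  have hsA : ∀ j, s j ∈ S.A := S.coeff_mem b.li hB
  refine ⟨s, by rw [hs]; ring, fun j => ⟨hsA j, ?_⟩⟩
  have h2 : (⟨f, hf.mem⟩ : S.B) - 1 = ∑ j, S.const ⟨s j, hsA j⟩ * b.e j := by
    apply Subtype.ext
    rw [show ((∑ j, S.const ⟨s j, hsA j⟩ * b.e j : S.B) : F) =
      ∑ j, ((S.const ⟨s j, hsA j⟩ * b.e j : S.B) : F) from map_sum S.B.subtype _ _]
    change f - 1 = _
    rw [← hs]
    exact Finset.sum_congr rfl fun j _ => by rw [Subring.coe_mul, ReductionData.coe_const,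
      Algebra.smul_def]
  have h3 := congrArg S.ρ h2
  rw [map_sub, hf.ρ_eq, map_one, sub_self, map_sum] at h3
  have h4 := Fintype.linearIndependent_iff.mp b.li (fun j => S.π ⟨s j, hsA j⟩) (by
    rw [h3]
    exact Finset.sum_congr rfl fun j _ => by
      rw [map_mul, ReductionData.ρ_const, Algebra.smul_def]) j
  exact h4

end Bas

/-- **Lemma ADD.** -/
theorem coord_mem_of_known [IsAlgClosed K] [FunField K F] [IsAlgClosed k] [FunField k E]
    {X : Type*} [Finite X] {act : Γ → X → X} {H : Subring (X → K)} (R1 : RankOne S Γ)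
    (hH : IsAnAlg S.A (fun γ : Γ => SemilinearAut.baseAut (γ : SemilinearAut K F)) act H)
    (p q : Finset ι) (hpq : ∀ i, i ∈ p ∨ i ∈ q)
    (hns : ∀ f ∈ riemannRochSpace (∑ i ∈ q, Finsupp.single (Y.Q i) (1 : ℤ)),
      ∃ c : k, f = algebraMap k E c)
    (P : X → ι → Place K F) (hP : ∀ x i, S.r (P x i) = Y.Q i)
    (hPe : ∀ (γ : Γ) x i, P (act γ x) i = (γ : SemilinearAut K F) • P x i)
    (hprinc : ∀ x, ∃ f : F, f ≠ 0 ∧ ∀ v : Place K F, v.ord f = divOf (P x) v - divOf Y.R v)
    (hknown : ∀ i ∈ p, (fun x => pval (P x i) (Y.C i).z) ∈ H) (i : ι) :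
    (fun x => pval (P x i) (Y.C i).z) ∈ H := by
  classical
  obtain ⟨b⟩ := Y.exists_bas
  choose f hf using fun x => Y.exists_NF (hP x) (hprinc x)
  choose s hs hssmall using fun x => b.exists_coeff (hf x)
  -- the values of the functions `z_i e_j`
  have hval : ∀ x i j, HasVal (P x i) (b.h i j) (pval (P x i) (b.h i j)) := fun x i j =>
    hasVal_pval ((b.h_mem i j).2 _ (hP x i))
  -- the equations
  have heq : ∀ i x, pval (P x i) (Y.C i).z + ∑ j, s x j * pval (P x i) (b.h i j) = 0 := by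
    intro i x
    have h1 := (hf x).hasVal_mul Y (hP x) i
    have h2 : (Y.C i).z * f x = (Y.C i).z + ∑ j, s x j • b.h i j := by
      conv_lhs => rw [hs x]
      rw [mul_add, mul_one, Finset.mul_sum]
      congr 1
      exact Finset.sum_congr rfl fun j _ => by rw [Bas.h, mul_smul_comm]
    rw [h2] at h1
    exact ((Coord.hasVal_of_disc (Y.C i).hz (hP x i)).add
      (HasVal.sum Finset.univ fun j _ => (hval x i j).smul (s x j))).eq h1
  -- the matrix of values
  have hM : ∀ i ∈ p, ∀ j, (fun x => pval (P x i) (b.h i j)) ∈ H := fun i hi j =>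
    pval_mem_of_coord R1 hH (Y.C i) (fun γ hγ => Y.smul_P0 γ hγ i) (fun γ hγ => Y.smul_z γ hγ i)
      (fun x => hP x i) (fun γ x => hPe γ x i) (hknown i hi) (b.h_mem i j)
      (fun γ hγ => b.smul_h i j hγ)
  let M : Matrix p (Fin b.n) H := fun i j => ⟨_, hM i i.2 j⟩
  let Mb : Matrix p (Fin b.n) k := fun i j => b.Mbar i j
  obtain ⟨Nb, hNb⟩ := exists_leftInverse_matrix Mb (fun c hc => by
    refine b.eq_zero_of_Mbar p q hpq hns c fun i hi => ?_
    exact congrFun hc ⟨i, hi⟩)
  choose a haΓ ha using fun i j => I.exists_const (Nb i j)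
  let N : Matrix (Fin b.n) p H := fun i j => ⟨_, hH.const (a i j : K) (a i j).2 fun γ =>
    haΓ i j γ γ.2⟩
  let red : X → H →+* k := fun x => S.π.comp (hH.ev x)
  have hredM : ∀ x, M.map (red x) = Mb := by
    intro x
    ext i j
    exact b.π_pval (hP x i) j
  have hredN : ∀ x, N.map (red x) = Nb := by
    intro x
    ext i j
    exact ha i j
  have hdet : IsUnit (N * M).det := by
    refine hH.isUnit_of_red S.π (fun a ha => ?_) _ fun x => ?_
    · exact S.inv_mem_of_π_ne_zero a.2 ha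
    · change red x _ ≠ 0
      rw [RingHom.map_det, RingHom.mapMatrix_apply, Matrix.map_mul, hredM, hredN, hNb,
        Matrix.det_one]
      exact one_ne_zero
  -- solve
  let G : Matrix (Fin b.n) (Fin b.n) H := (N * M)⁻¹
  have hG : G * (N * M) = 1 := Matrix.nonsing_inv_mul _ hdet
  have hsol : ∀ j, (fun x => s x j) =
      fun x => -∑ l, (G j l : X → K) x * ∑ i : p, (N l i : X → K) x *
        pval (P x i) (Y.C (i : ι)).z := by
    intro j
    funext x
    have h1 : ∀ l m, ∑ i : p, (N l i : X → K) x * (M i m : X → K) x =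
        (((N * M) l m : H) : X → K) x := by
      intro l m
      rw [Matrix.mul_apply, show ((∑ i, N l i * M i m : H) : X → K) =
        ∑ i, ((N l i * M i m : H) : X → K) from map_sum H.subtype _ _, Finset.sum_apply]
      rfl
    have h2 : ∀ l, ∑ i : p, (N l i : X → K) x * pval (P x i) (Y.C (i : ι)).z =
        -∑ m, (((N * M) l m : H) : X → K) x * s x m := by
      intro l
      simp only [← h1, Finset.sum_mul]
      rw [Finset.sum_comm, ← Finset.sum_neg_distrib]
      refine Finset.sum_congr rfl fun i _ => ?_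
      rw [eq_neg_of_add_eq_zero_left (heq i x), mul_neg, Finset.mul_sum]
      congr 1
      refine Finset.sum_congr rfl fun m _ => ?_
      change _ = (N l i : X → K) x * pval (P x i) (b.h i m) * s x m
      ring
    simp only [h2, mul_neg, Finset.sum_neg_distrib, neg_neg, Finset.mul_sum]
    rw [Finset.sum_comm]
    have h3 : ∀ m, ∑ l, (G j l : X → K) x * ((((N * M) l m : H) : X → K) x * s x m) =
        (if j = m then 1 else 0) * s x m := by
      intro m
      have h4 : ∑ l, G j l * (N * M) l m = if j = m then 1 else 0 := by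
        rw [← Matrix.mul_apply, hG, Matrix.one_apply]
      have h5 : ((∑ l, G j l * (N * M) l m : H) : X → K) x =
        ((if j = m then 1 else 0 : H) : X → K) x := by rw [h4]
      rw [show ((∑ l, G j l * (N * M) l m : H) : X → K) =
        ∑ l, ((G j l * (N * M) l m : H) : X → K) from map_sum H.subtype _ _,
        Finset.sum_apply] at h5
      have h6 : ((if j = m then 1 else 0 : H) : X → K) x = if j = m then 1 else 0 := by
        split_ifs <;> rfl
      rw [h6] at h5
      rw [← h5, Finset.sum_mul]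
      refine Finset.sum_congr rfl fun l _ => ?_
      rw [Subring.coe_mul, Pi.mul_apply, mul_assoc]
    simp only [h3, ite_mul, one_mul, zero_mul, Finset.sum_ite_eq, Finset.mem_univ, if_true]
  have hσ : ∀ j, (fun x => s x j) ∈ H := by
    intro j
    rw [hsol j]
    have : (fun x => -∑ l, (G j l : X → K) x * ∑ i : p, (N l i : X → K) x *
        pval (P x i) (Y.C (i : ι)).z) =
        -∑ l, (G j l : X → K) * ∑ i : p, (N l i : X → K) *
          (fun x => pval (P x i) (Y.C (i : ι)).z) := by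
      funext x
      rw [Pi.neg_apply, Finset.sum_apply]
      congr 1
      refine Finset.sum_congr rfl fun l _ => ?_
      rw [Pi.mul_apply, Finset.sum_apply]
      rfl
    rw [this]
    exact neg_mem (sum_mem fun l _ => mul_mem (G j l).2 (sum_mem fun i _ =>
      mul_mem (N l i).2 (hknown i i.2)))
  exact coord_mem_of_eq R1 hH (Y.C i) (fun γ hγ => Y.smul_P0 γ hγ i)
    (fun γ hγ => Y.smul_z γ hγ i) (fun x => hP x i) (fun γ x => hPe γ x i)
    (fun j => b.h_mem i j) (fun j γ hγ => b.smul_h i j hγ) (σ := fun j x => s x j) hσ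
    (fun j x => hssmall x j) (heq i)

end DSys

end Fermat.Agent.H19
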