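import Mathlib
import Fermat.Agent.H19AddMain
import Fermat.Agent.H19Bar

/-!
# S19: analytic maps into the kernel of reduction (helper19)
-/

set_option autoImplicit false
set_option linter.unusedSectionVars false

noncomputable section

open AlgebraicCurve WithZero

namespace Fermat.Agent.H19

open Fermat.Agent.H40 Fermat.Agent.H94 Fermat.Agent.H23 GoodRed

variable {K F k E : Type*} [Field K] [Field F] [Algebra K F] [Field k] [Field E] [Algebra k E]
variable {S : GoodRed K F k E} {Γ : Subgroup (SemilinearAut K F)} {I : InertiaAction S Γ}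

theorem pic_smul_zero (γ : SemilinearAut K F) : γ • (0 : Pic0 K F) = 0 :=
  smul_zero (A := Pic0 K F) γ

theorem pic_smul_add (γ : SemilinearAut K F) (x y : Pic0 K F) : γ • (x + y) = γ • x + γ • y :=
  smul_add (A := Pic0 K F) γ x y

theorem pic_smul_neg (γ : SemilinearAut K F) (x : Pic0 K F) : γ • (-x) = -(γ • x) :=
  smul_neg (A := Pic0 K F) γ x

/-- the union of two disjoint disc systems -/
def DSys.sum {ι ι' : Type*} (Y : DSys S I ι) (Y' : DSys S I ι') (h : ∀ i j, Y.Q i ≠ Y'.Q j) :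
    DSys S I (ι ⊕ ι') where
  Q := Sum.elim Y.Q Y'.Q
  Q_inj := Y.Q_inj.sumElim Y'.Q_inj h
  ne_inf := by
    rintro (i | i)
    · exact Y.ne_inf i
    · exact Y'.ne_inf i
  C := fun i => match i with
    | Sum.inl i => Y.C i
    | Sum.inr i => Y'.C i
  smul_P0 := by
    rintro γ hγ (i | i)
    · exact Y.smul_P0 γ hγ i
    · exact Y'.smul_P0 γ hγ i
  smul_z := by
    rintro γ hγ (i | i)
    · exact Y.smul_z γ hγ i
    · exact Y'.smul_z γ hγ i

variable (S I) in
/-- nonspecial disc systems with `g` discs -/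
structure Sys extends DSys S I (Fin S.g) where
  ns : ∀ f ∈ riemannRochSpace (∑ i, Finsupp.single (Q i) (1 : ℤ)), ∃ c : k, f = algebraMap k E c

namespace Sys

variable (Y : Sys S I)

/-- the centres -/
abbrev R' : Fin S.g → Place K F := Y.toDSys.R

theorem isNonspecial : IsNonspecial S Y.toDSys.R where
  inj := by
    have : (fun i => S.r (Y.toDSys.R i)) = Y.Q := funext Y.toDSys.r_R
    rw [this]
    exact Y.Q_inj
  const := by
    intro f hf
    refine Y.ns f ?_
    convert hf using 4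
    exact (Y.toDSys.r_R _).symm

variable [IsAlgClosed K] [IsAlgClosed k] [H94.FunField K F] [H94.FunField k E]

open Classical in
/-- the points representing a class in the kernel of reduction -/
def pts (x : Pic0 K F) : Fin S.g → Place K F :=
  if h : redPic0 S x = 0 then (Y.isNonspecial.exists_repr h).choose else Y.toDSys.R

theorem r_pts (x : Pic0 K F) (i : Fin S.g) : S.r (Y.pts x i) = Y.Q i := by
  rw [pts]
  split_ifs with h
  · rw [(Y.isNonspecial.exists_repr h).choose_spec.1 i]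
    exact Y.toDSys.r_R i
  · exact Y.toDSys.r_R i

theorem classOf_pts {x : Pic0 K F} (h : redPic0 S x = 0) :
    classOf (Y.pts x) Y.toDSys.R = x := by
  rw [pts, dif_pos h]
  exact (Y.isNonspecial.exists_repr h).choose_spec.2.symm

theorem pts_eq {x : Pic0 K F} {P : Fin S.g → Place K F} (hP : ∀ i, S.r (P i) = Y.Q i)
    (hx : classOf P Y.toDSys.R = x) : Y.pts x = P := by
  have hP' : ∀ i, S.r (P i) = S.r (Y.toDSys.R i) := fun i => by rw [hP, Y.toDSys.r_R]
  have h0 : redPic0 S x = 0 := by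
    rw [← hx]
    exact redPic0_classOf hP'
  refine Y.isNonspecial.classOf_injective (fun i => ?_) hP' ?_
  · rw [Y.r_pts, Y.toDSys.r_R]
  · rw [Y.classOf_pts h0, hx]

theorem pts_smul {x : Pic0 K F} (h : redPic0 S x = 0) {γ : SemilinearAut K F} (hγ : γ ∈ Γ)
    (i : Fin S.g) : Y.pts (γ • x) i = γ • Y.pts x i := by
  refine congrFun (Y.pts_eq (P := fun i => γ • Y.pts x i) (fun i => ?_) ?_) i
  · rw [r_smul I hγ, Y.r_pts]
  · conv_rhs => rw [← Y.classOf_pts h]
    rw [smul_classOf]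
    congr 1
    funext i
    exact (Y.smul_P0 γ hγ i).symm

/-- the coordinates of a class in the kernel of reduction -/
def t (i : Fin S.g) (x : Pic0 K F) : K := pval (Y.pts x i) (Y.C i).z

theorem t_mem (i : Fin S.g) (x : Pic0 K F) : Y.t i x ∈ S.A :=
  Coord.pval_mem (Y.C i).hz (Y.r_pts x i)

theorem t_smul {x : Pic0 K F} (h : redPic0 S x = 0) {γ : SemilinearAut K F} (hγ : γ ∈ Γ)
    (i : Fin S.g) : Y.t i (γ • x) = SemilinearAut.baseAut γ (Y.t i x) := by
  rw [t, t, Y.pts_smul h hγ i]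
  conv_lhs => rw [← Y.smul_z γ hγ i]
  exact pval_smul_aut ((Y.C i).hz.2 _ (Y.r_pts x i)) γ

theorem t_injective {x x' : Pic0 K F} (h : redPic0 S x = 0) (h' : redPic0 S x' = 0)
    (ht : ∀ i, Y.t i x = Y.t i x') : x = x' := by
  rw [← Y.classOf_pts h, ← Y.classOf_pts h']
  congr 1
  funext i
  refine (Y.C i).eq_of_hasVal (Y.r_pts x i) (Y.r_pts x' i)
    (Coord.hasVal_of_disc (Y.C i).hz (Y.r_pts x i)) ?_
  have := Coord.hasVal_of_disc (Y.C i).hz (Y.r_pts x' i)
  have h1 : pval (Y.pts x i) (Y.C i).z = pval (Y.pts x' i) (Y.C i).z := ht i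
  rwa [← h1] at this

theorem pts_zero : Y.pts 0 = Y.toDSys.R := by
  refine Y.pts_eq Y.toDSys.r_R ?_
  rw [classOf, ← Pic0.mk_zero]
  congr 1
  exact Subtype.ext (sub_self _)

theorem t_zero (i : Fin S.g) : Y.t i 0 = 0 := by
  rw [t, pts_zero]
  exact (Y.C i).hasVal_P0.pval_eq

variable (S I) in
/-- existence of nonspecial systems avoiding a finite set -/
theorem exists_sys (T : Finset (Place k E)) : ∃ Y : Sys S I, ∀ i, Y.Q i ∉ T := by
  classical
  obtain ⟨Q, hQ, hQT, hns⟩ := exists_nonspecial S (insert (S.r I.Pinf) T)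
  have hinf : ∀ i, Q i ≠ S.r I.Pinf := fun i h => hQT i (by rw [h]; exact Finset.mem_insert_self _ _)
  choose P z hrP hPΓ hzΓ hreg hord hord1 _ _ _ using fun i => exists_fixed_place I (hinf i)
  have hz : ∀ i, (z i : F) ∈ S.discRing (Q i) := fun i =>
    ⟨(z i).2, fun P' hP' => by
      rcases hreg i P' hP' with h | h
      · exact mem_iff_ord.mpr h
      · rw [h]; exact zero_mem _⟩
  refine ⟨⟨⟨Q, hQ, hinf, fun i => ⟨P i, z i, hz i, hrP i, hord i, hord1 i⟩,
    fun γ hγ i => hPΓ i γ hγ, fun γ hγ i => hzΓ i γ hγ⟩, hns⟩, fun i h => ?_⟩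
  exact hQT i (Finset.mem_insert_of_mem h)

end Sys

section An

variable [IsAlgClosed K] [IsAlgClosed k] [H94.FunField K F] [H94.FunField k E]
variable {X : Type*} [Finite X] {act : Γ → X → X} {H : Subring (X → K)}

theorem divOf_elim {ι ι' : Type*} [Fintype ι] [Fintype ι'] (P : ι → Place K F)
    (P' : ι' → Place K F) : divOf (Sum.elim P P') = divOf P + divOf P' := by
  rw [divOf, divOf, divOf, Fintype.sum_sum_type]
  rfl

/-- **the key lemma** -/
theorem key_an (R1 : RankOne S Γ)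
    (hH : IsAnAlg S.A (fun γ : Γ => SemilinearAut.baseAut (γ : SemilinearAut K F)) act H)
    {Y Y' Y'' : Sys S I} (h1 : ∀ i j, Y.Q i ≠ Y'.Q j) (h2 : ∀ i j, Y.Q i ≠ Y''.Q j)
    (h3 : ∀ i j, Y'.Q i ≠ Y''.Q j) {u u' : X → Pic0 K F} (hu : ∀ x, redPic0 S (u x) = 0)
    (hu' : ∀ x, redPic0 S (u' x) = 0)
    (hue : ∀ (γ : Γ) x, u (act γ x) = (γ : SemilinearAut K F) • u x)
    (hue' : ∀ (γ : Γ) x, u' (act γ x) = (γ : SemilinearAut K F) • u' x)
    (ht : ∀ i, (fun x => Y.t i (u x)) ∈ H) (ht' : ∀ i, (fun x => Y'.t i (u' x)) ∈ H)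
    (i : Fin S.g) : (fun x => Y''.t i (-(u x + u' x))) ∈ H := by
  classical
  let Z : DSys S I ((Fin S.g ⊕ Fin S.g) ⊕ Fin S.g) :=
    (Y.toDSys.sum Y'.toDSys h1).sum Y''.toDSys (by
      rintro (i | i) j
      · exact h2 i j
      · exact h3 i j)
  let P : X → (Fin S.g ⊕ Fin S.g) ⊕ Fin S.g → Place K F := fun x =>
    Sum.elim (Sum.elim (Y.pts (u x)) (Y'.pts (u' x))) (Y''.pts (-(u x + u' x)))
  have hu'' : ∀ x, redPic0 S (-(u x + u' x)) = 0 := fun x => by
    rw [map_neg, map_add, hu, hu', add_zero, neg_zero]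
  have hR : Z.R = Sum.elim (Sum.elim Y.toDSys.R Y'.toDSys.R) Y''.toDSys.R := by
    funext i
    rcases i with (i | i) | i <;> rfl
  have key := Z.coord_mem_of_known R1 hH
    (Finset.univ.filter fun i => i.isLeft) (Finset.univ.filter fun i => i.isRight)
    (fun i => by rcases i with i | i <;> simp)
    (fun f hf => ?_) P (fun x i => ?_) (fun γ x i => ?_) (fun x => ?_) (fun i hi => ?_) (Sum.inr i)
  · exact key
  · -- nonspecial
    refine Y''.ns f ?_
    convert hf using 2
    rw [Finset.sum_filter, Fintype.sum_sum_type]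
    simp only [Sum.isRight_inl, Bool.false_eq_true, if_false, Finset.sum_const_zero, zero_add,
      Sum.isRight_inr, if_true]
    rfl
  · rcases i with (i | i) | i
    · exact Y.r_pts _ i
    · exact Y'.r_pts _ i
    · exact Y''.r_pts _ i
  · rcases i with (i | i) | i
    · change Y.pts (u (act γ x)) i = _
      rw [hue, Y.pts_smul (hu x) γ.2]
      rfl
    · change Y'.pts (u' (act γ x)) i = _
      rw [hue', Y'.pts_smul (hu' x) γ.2]
      rfl
    · change Y''.pts (-(u (act γ x) + u' (act γ x))) i = _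
      rw [hue, hue', ← pic_smul_add, ← pic_smul_neg, Y''.pts_smul (hu'' x) γ.2]
      rfl
  · -- principal
    have e1 : classOf (Y.pts (u x)) Y.toDSys.R + classOf (Y'.pts (u' x)) Y'.toDSys.R +
        classOf (Y''.pts (-(u x + u' x))) Y''.toDSys.R = 0 := by
      rw [Y.classOf_pts (hu x), Y'.classOf_pts (hu' x), Y''.classOf_pts (hu'' x), add_neg_cancel]
    rw [classOf, classOf, classOf, ← Pic0.mk_add, ← Pic0.mk_add, ← Pic0.mk_zero, eq_comm,
      Pic0_mk_eq_mk_iff, AddSubgroup.coe_zero, sub_zero] at e1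
    obtain ⟨f, hf0, hf⟩ := e1
    refine ⟨f, hf0, fun v => ?_⟩
    rw [← hf v, hR, divOf_elim, divOf_elim, divOf_elim, divOf_elim]
    simp only [AddSubgroup.coe_add, Finsupp.add_apply, Finsupp.sub_apply]
    rw [divOf, divOf, divOf, divOf, divOf, divOf]
    ring
  · rcases i with (i | i) | i
    · exact ht i
    · exact ht' i
    · simp at hi

/-- analytic maps into the kernel of reduction -/
structure IsAn (I : InertiaAction S Γ) (act : Γ → X → X) (H : Subring (X → K))
    (u : X → Pic0 K F) : Prop where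
  red : ∀ x, redPic0 S (u x) = 0
  equiv : ∀ (γ : Γ) x, u (act γ x) = (γ : SemilinearAut K F) • u x
  t_mem : ∀ (Y : Sys S I) i, (fun x => Y.t i (u x)) ∈ H

theorem exists_disjoint (Ys : List (Sys S I)) : ∃ Z : Sys S I, ∀ Y ∈ Ys, ∀ i j, Y.Q i ≠ Z.Q j := by
  classical
  obtain ⟨Z, hZ⟩ := Sys.exists_sys S I (Ys.toFinset.biUnion fun Y => Finset.univ.image Y.Q)
  refine ⟨Z, fun Y hY i j h => hZ j ?_⟩
  rw [Finset.mem_biUnion]
  exact ⟨Y, by simpa using hY, Finset.mem_image.mpr ⟨i, Finset.mem_univ _, h⟩⟩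

theorem IsAn.of_sys (R1 : RankOne S Γ)
    (hH : IsAnAlg S.A (fun γ : Γ => SemilinearAut.baseAut (γ : SemilinearAut K F)) act H)
    {u : X → Pic0 K F} (hu : ∀ x, redPic0 S (u x) = 0)
    (hue : ∀ (γ : Γ) x, u (act γ x) = (γ : SemilinearAut K F) • u x)
    {Y : Sys S I} (ht : ∀ i, (fun x => Y.t i (u x)) ∈ H) : IsAn I act H u := by
  refine ⟨hu, hue, fun Z i => ?_⟩
  obtain ⟨Y1, hY1⟩ := exists_disjoint [Y, Z]
  obtain ⟨Y2, hY2⟩ := exists_disjoint [Y, Z, Y1]
  have h0 : ∀ (Y : Sys S I) i, (fun _ : X => Y.t i 0) ∈ H := fun Y i => by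
    have : (fun _ : X => Y.t i 0) = 0 := by funext x; exact Y.t_zero i
    rw [this]; exact H.zero_mem
  have h1 : ∀ i, (fun x => Y1.t i (-(u x + 0))) ∈ H :=
    key_an R1 hH (Y := Y) (Y' := Y2) (Y'' := Y1) (u := u) (u' := fun _ => 0)
      (fun i j => hY2 Y (by simp) i j) (fun i j => hY1 Y (by simp) i j)
      (fun i j => (hY2 Y1 (by simp) j i).symm) hu (fun _ => map_zero _) hue
      (fun _ _ => (pic_smul_zero _).symm) ht (h0 Y2)
  have h2 := key_an R1 hH (Y := Y1) (Y' := Y2) (Y'' := Z) (u := fun x => -(u x + 0))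
      (u' := fun _ => 0)
      (fun i j => hY2 Y1 (by simp) i j) (fun i j => (hY1 Z (by simp) j i).symm)
      (fun i j => (hY2 Z (by simp) j i).symm)
      (fun x => by rw [map_neg, map_add, hu, map_zero, add_zero, neg_zero])
      (fun _ => map_zero _) (fun γ x => by rw [hue, add_zero, add_zero, pic_smul_neg])
      (fun _ _ => (pic_smul_zero _).symm) h1 (h0 Y2) i
  simpa using h2

theorem IsAn.zero : IsAn I act H (fun _ => (0 : Pic0 K F)) := by
  refine ⟨fun _ => map_zero _, fun _ _ => (pic_smul_zero _).symm, fun Y i => ?_⟩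
  have : (fun _ : X => Y.t i 0) = 0 := by funext x; exact Y.t_zero i
  rw [this]; exact H.zero_mem

theorem IsAn.neg_add (R1 : RankOne S Γ)
    (hH : IsAnAlg S.A (fun γ : Γ => SemilinearAut.baseAut (γ : SemilinearAut K F)) act H)
    {u u' : X → Pic0 K F} (h : IsAn I act H u) (h' : IsAn I act H u') :
    IsAn I act H (fun x => -(u x + u' x)) := by
  obtain ⟨Y, -⟩ := exists_disjoint (I := I) []
  obtain ⟨Y', hY'⟩ := exists_disjoint [Y]
  obtain ⟨Y'', hY''⟩ := exists_disjoint [Y, Y']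
  refine IsAn.of_sys (Y := Y'') R1 hH
    (fun x => by rw [map_neg, map_add, h.red, h'.red, add_zero, neg_zero])
    (fun γ x => by rw [h.equiv, h'.equiv, pic_smul_neg, pic_smul_add]) ?_
  exact key_an R1 hH (fun i j => hY' Y (by simp) i j) (fun i j => hY'' Y (by simp) i j)
    (fun i j => hY'' Y' (by simp) i j) h.red h'.red h.equiv h'.equiv (h.t_mem Y) (h'.t_mem Y')

theorem IsAn.neg (R1 : RankOne S Γ)
    (hH : IsAnAlg S.A (fun γ : Γ => SemilinearAut.baseAut (γ : SemilinearAut K F)) act H)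
    {u : X → Pic0 K F} (h : IsAn I act H u) : IsAn I act H (fun x => -(u x)) := by
  have := IsAn.neg_add R1 hH h IsAn.zero
  simpa using this

theorem IsAn.add (R1 : RankOne S Γ)
    (hH : IsAnAlg S.A (fun γ : Γ => SemilinearAut.baseAut (γ : SemilinearAut K F)) act H)
    {u u' : X → Pic0 K F} (h : IsAn I act H u) (h' : IsAn I act H u') :
    IsAn I act H (fun x => u x + u' x) := by
  have := IsAn.neg R1 hH (IsAn.neg_add R1 hH h h')
  simpa using this

open Classical in
/-- indicator function of a fibre -/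
def fib (K : Type*) [Field K] {X Z : Type*} (π : X → Z) (z : Z) : X → K :=
  fun x => if π x = z then 1 else 0

theorem fib_pos {K : Type*} [Field K] {X Z : Type*} {π : X → Z} {z : Z} {x : X} (h : π x = z) :
    fib K π z x = 1 := if_pos h

theorem fib_neg {K : Type*} [Field K] {X Z : Type*} {π : X → Z} {z : Z} {x : X} (h : π x ≠ z) :
    fib K π z x = 0 := if_neg h

/-- functions of a locally constant map -/
theorem mem_of_locConst
    (hH : IsAnAlg S.A (fun γ : Γ => SemilinearAut.baseAut (γ : SemilinearAut K F)) act H)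
    {Z : Type*} {π : X → Z} (hπ : ∀ z, fib K π z ∈ H)
    {φ : Z → K} (hF : ∀ x, φ (π x) ∈ S.A)
    (hFΓ : ∀ γ ∈ Γ, ∀ x, SemilinearAut.baseAut γ (φ (π x)) = φ (π x)) :
    (fun x => φ (π x)) ∈ H := by
  classical
  have := Fintype.ofFinite X
  have h1 : (fun x => φ (π x)) = ∑ z ∈ Finset.univ.image π,
      (fun _ => φ z) * fib K π z := by
    funext x
    rw [Finset.sum_apply, Finset.sum_eq_single (π x)]
    · rw [Pi.mul_apply, fib_pos rfl, mul_one]
    · intro z _ hz
      rw [Pi.mul_apply, fib_neg (Ne.symm hz), mul_zero]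
    · intro h
      exact absurd (Finset.mem_image_of_mem π (Finset.mem_univ x)) h
  rw [h1]
  refine sum_mem fun z hz => ?_
  obtain ⟨x, -, rfl⟩ := Finset.mem_image.mp hz
  exact mul_mem (hH.const _ (hF x) fun γ => hFΓ γ γ.2 x) (hπ (π x))

/-- locally constant maps with invariant values are analytic -/
theorem IsAn.locConst
    (hH : IsAnAlg S.A (fun γ : Γ => SemilinearAut.baseAut (γ : SemilinearAut K F)) act H)
    {Z : Type*} {π : X → Z} (hπ : ∀ z, fib K π z ∈ H)
    (hπe : ∀ (γ : Γ) x, π (act γ x) = π x)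
    {c : Z → Pic0 K F} (hc : ∀ x, redPic0 S (c (π x)) = 0)
    (hcΓ : ∀ γ ∈ Γ, ∀ x, γ • c (π x) = c (π x)) : IsAn I act H (fun x => c (π x)) := by
  refine ⟨hc, fun γ x => by rw [hπe, hcΓ γ γ.2], fun Y i => ?_⟩
  refine mem_of_locConst hH hπ (φ := fun z => Y.t i (c z)) (fun x => Y.t_mem i _)
    (fun γ hγ x => ?_)
  rw [← Y.t_smul (hc x) hγ, hcΓ γ hγ]

end An

end Fermat.Agent.H19
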