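import Mathlib
import Fermat.Agent.H19Sys

/-!
# S19: the analytic order on a finite group of divisor classes (helper19)
-/

set_option autoImplicit false
set_option linter.unusedSectionVars false

noncomputable section

open AlgebraicCurve WithZero

namespace Fermat.Agent.H19

open Fermat.Agent.H40 Fermat.Agent.H94 Fermat.Agent.H23 GoodRed

/-! ### Generated algebras -/

section Closure

variable {K : Type*} [Field K] {A : ValuationSubring K} {ι X X' : Type*}
  {σ : ι → K ≃+* K} {τ : ι → X → X} {τ' : ι → X' → X'}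

theorem isAnAlg_closure {G : Set (X → K)} (hint : ∀ f ∈ G, ∀ x, f x ∈ A)
    (heq : ∀ f ∈ G, ∀ i x, f (τ i x) = σ i (f x))
    (hconst : ∀ c ∈ A, (∀ i, σ i c = c) → (fun _ => c) ∈ G)
    (hsep : ∀ x x', (∀ f ∈ G, f x = f x') → x = x') : IsAnAlg A σ τ (Subring.closure G) where
  int := by
    intro f hf
    induction hf using Subring.closure_induction with
    | mem f hf => exact hint f hf
    | zero => exact fun _ => A.zero_mem
    | one => exact fun _ => A.one_mem
    | add f g _ _ hf hg => exact fun x => add_mem (hf x) (hg x)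
    | neg f _ hf => exact fun x => neg_mem (hf x)
    | mul f g _ _ hf hg => exact fun x => mul_mem (hf x) (hg x)
  equiv := by
    intro f hf
    induction hf using Subring.closure_induction with
    | mem f hf => exact heq f hf
    | zero => exact fun i x => (map_zero _).symm
    | one => exact fun i x => (map_one _).symm
    | add f g _ _ hf hg =>
      intro i x
      rw [Pi.add_apply, Pi.add_apply, hf, hg, map_add]
    | neg f _ hf =>
      intro i x
      rw [Pi.neg_apply, Pi.neg_apply, hf, map_neg]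
    | mul f g _ _ hf hg =>
      intro i x
      rw [Pi.mul_apply, Pi.mul_apply, hf, hg, map_mul]
  const := fun c hc hcσ => Subring.subset_closure (hconst c hc hcσ)
  sep := fun x x' h => hsep x x' fun f hf => h f (Subring.subset_closure hf)

/-- the product algebra: sums of products `a(x) b(x')` -/
def prodAlg (H : Subring (X → K)) (H' : Subring (X' → K)) : Subring (X × X' → K) where
  carrier := {f | ∃ (n : ℕ) (a : Fin n → X → K) (b : Fin n → X' → K), (∀ i, a i ∈ H) ∧
    (∀ i, b i ∈ H') ∧ ∀ x x', f (x, x') = ∑ i, a i x * b i x'}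
  zero_mem' := ⟨0, Fin.elim0, Fin.elim0, fun i => i.elim0, fun i => i.elim0, fun x x' => by simp⟩
  one_mem' := ⟨1, fun _ => 1, fun _ => 1, fun _ => H.one_mem, fun _ => H'.one_mem,
    fun x x' => by simp⟩
  add_mem' := by
    rintro f g ⟨n, a, b, ha, hb, hf⟩ ⟨m, a', b', ha', hb', hg⟩
    refine ⟨n + m, Fin.append a a', Fin.append b b', fun i => ?_, fun i => ?_, fun x x' => ?_⟩
    · refine Fin.addCases (fun i => ?_) (fun i => ?_) i
      · rw [Fin.append_left]; exact ha i
      · rw [Fin.append_right]; exact ha' i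
    · refine Fin.addCases (fun i => ?_) (fun i => ?_) i
      · rw [Fin.append_left]; exact hb i
      · rw [Fin.append_right]; exact hb' i
    · rw [Pi.add_apply, hf, hg, Fin.sum_univ_add]
      simp only [Fin.append_left, Fin.append_right]
  neg_mem' := by
    rintro f ⟨n, a, b, ha, hb, hf⟩
    refine ⟨n, fun i => -a i, b, fun i => neg_mem (ha i), hb, fun x x' => ?_⟩
    rw [Pi.neg_apply, hf, ← Finset.sum_neg_distrib]
    exact Finset.sum_congr rfl fun i _ => (neg_mul _ _).symm
  mul_mem' := by
    rintro f g ⟨n, a, b, ha, hb, hf⟩ ⟨m, a', b', ha', hb', hg⟩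
    refine ⟨n * m, fun i => a (finProdFinEquiv.symm i).1 * a' (finProdFinEquiv.symm i).2,
      fun i => b (finProdFinEquiv.symm i).1 * b' (finProdFinEquiv.symm i).2,
      fun i => mul_mem (ha _) (ha' _), fun i => mul_mem (hb _) (hb' _), fun x x' => ?_⟩
    rw [Pi.mul_apply, hf, hg, Finset.sum_mul_sum, ← Finset.sum_product',
      Finset.univ_product_univ, ← Equiv.sum_comp finProdFinEquiv.symm]
    exact Finset.sum_congr rfl fun i _ => mul_mul_mul_comm _ _ _ _

variable {H : Subring (X → K)} {H' : Subring (X' → K)}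

theorem fst_mem_prodAlg {f : X → K} (hf : f ∈ H) : (fun p : X × X' => f p.1) ∈ prodAlg H H' :=
  ⟨1, fun _ => f, fun _ => 1, fun _ => hf, fun _ => H'.one_mem, fun x x' => by simp⟩

theorem snd_mem_prodAlg {f : X' → K} (hf : f ∈ H') : (fun p : X × X' => f p.2) ∈ prodAlg H H' :=
  ⟨1, fun _ => 1, fun _ => f, fun _ => H.one_mem, fun _ => hf, fun x x' => by simp⟩

theorem IsAnAlg.prod (h : IsAnAlg A σ τ H) (h' : IsAnAlg A σ τ' H') :
    IsAnAlg A σ (fun i (p : X × X') => (τ i p.1, τ' i p.2)) (prodAlg H H') where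
  int := by
    rintro f ⟨n, a, b, ha, hb, hf⟩ ⟨x, x'⟩
    rw [hf]
    exact sum_mem fun i _ => mul_mem (h.int _ (ha i) x) (h'.int _ (hb i) x')
  equiv := by
    rintro f ⟨n, a, b, ha, hb, hf⟩ i ⟨x, x'⟩
    rw [hf, hf, map_sum]
    exact Finset.sum_congr rfl fun j _ => by
      rw [map_mul, h.equiv _ (ha j), h'.equiv _ (hb j)]
  const := fun c hc hcσ => fst_mem_prodAlg (h.const c hc hcσ)
  sep := by
    rintro ⟨x, x'⟩ ⟨y, y'⟩ hxy
    exact Prod.ext (h.sep _ _ fun f hf => hxy _ (fst_mem_prodAlg hf))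
      (h'.sep _ _ fun f hf => hxy _ (snd_mem_prodAlg hf))

end Closure

variable {K F k E : Type*} [Field K] [Field F] [Algebra K F] [Field k] [Field E] [Algebra k E]
variable {S : GoodRed K F k E} {Γ : Subgroup (SemilinearAut K F)} (I : InertiaAction S Γ)
variable [IsAlgClosed K] [IsAlgClosed k] [H94.FunField K F] [H94.FunField k E]

/-- invariant lifts of classes -/
def lift (y : Pic0 k E) : Pic0 K F := (exists_fixed_class I y).choose

theorem red_lift (y : Pic0 k E) : redPic0 S (lift I y) = y := (exists_fixed_class I y).choose_spec.1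

theorem smul_lift (y : Pic0 k E) {γ : SemilinearAut K F} (hγ : γ ∈ Γ) :
    γ • lift I y = lift I y := (exists_fixed_class I y).choose_spec.2 γ hγ

/-- the component in the kernel of reduction -/
def vv (x : Pic0 K F) : Pic0 K F := x - lift I (redPic0 S x)

theorem red_vv (x : Pic0 K F) : redPic0 S (vv I x) = 0 := by
  rw [vv, map_sub, red_lift, sub_self]

theorem vv_smul {γ : SemilinearAut K F} (hγ : γ ∈ Γ) (x : Pic0 K F) :
    vv I (γ • x) = γ • vv I x := by
  rw [vv, vv, redPic0_smul I hγ, sub_eq_add_neg, sub_eq_add_neg, pic_smul_add, pic_smul_neg,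
    smul_lift I _ hγ]

variable (M : AddSubgroup (Pic0 K F)) (hM : ∀ γ ∈ Γ, ∀ m ∈ M, γ • m ∈ M)

/-- the action on `M` -/
def actM (γ : Γ) (m : M) : M := ⟨(γ : SemilinearAut K F) • (m : Pic0 K F), hM γ γ.2 m m.2⟩

variable (S) in
/-- indicator functions of the reduction -/
def ind (z : Pic0 k E) : M → K := fib K (fun m : M => redPic0 S (m : Pic0 K F)) z

theorem ind_pos {z : Pic0 k E} {m : M} (h : redPic0 S (m : Pic0 K F) = z) : ind S M z m = 1 :=
  fib_pos (π := fun m : M => redPic0 S (m : Pic0 K F)) h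

theorem ind_neg {z : Pic0 k E} {m : M} (h : redPic0 S (m : Pic0 K F) ≠ z) : ind S M z m = 0 :=
  fib_neg (π := fun m : M => redPic0 S (m : Pic0 K F)) h

/-- the generators of the analytic algebra -/
def gens (Y : Sys S I) : Set (M → K) :=
  {f | ∃ c ∈ S.A, (∀ γ : Γ, SemilinearAut.baseAut (γ : SemilinearAut K F) c = c) ∧ f = fun _ => c} ∪
    ({f | ∃ z : Pic0 k E, f = ind S M z} ∪ {f | ∃ i, f = fun m : M => Y.t i (vv I m)})

/-- the analytic algebra -/
def anAlg (Y : Sys S I) : Subring (M → K) := Subring.closure (gens I M Y)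

theorem ind_mem (Y : Sys S I) (z : Pic0 k E) : ind S M z ∈ anAlg I M Y :=
  Subring.subset_closure (Or.inr (Or.inl ⟨z, rfl⟩))

theorem t_vv_mem (Y : Sys S I) (i : Fin S.g) : (fun m : M => Y.t i (vv I m)) ∈ anAlg I M Y :=
  Subring.subset_closure (Or.inr (Or.inr ⟨i, rfl⟩))

theorem isAnAlg (Y : Sys S I) : IsAnAlg S.A
    (fun γ : Γ => SemilinearAut.baseAut (γ : SemilinearAut K F)) (actM M hM) (anAlg I M Y) := by
  classical
  refine isAnAlg_closure ?_ ?_ ?_ ?_
  · rintro f (⟨c, hc, -, rfl⟩ | ⟨z, rfl⟩ | ⟨i, rfl⟩) m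
    · exact hc
    · rw [ind, fib]
      split_ifs
      · exact S.A.one_mem
      · exact S.A.zero_mem
    · exact Y.t_mem i _
  · rintro f (⟨c, -, hc, rfl⟩ | ⟨z, rfl⟩ | ⟨i, rfl⟩) γ m
    · exact (hc γ).symm
    · have h1 : redPic0 S ((actM M hM γ m : M) : Pic0 K F) = redPic0 S (m : Pic0 K F) :=
        redPic0_smul I γ.2 _
      rw [ind, fib, fib, h1]
      split_ifs
      · rw [map_one]
      · rw [map_zero]
    · change Y.t i (vv I ((γ : SemilinearAut K F) • (m : Pic0 K F))) = _
      rw [vv_smul I γ.2, Y.t_smul (red_vv I _) γ.2]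
  · exact fun c hc hcΓ => Or.inl ⟨c, hc, hcΓ, rfl⟩
  · intro m m' h
    have h1 : redPic0 S (m : Pic0 K F) = redPic0 S (m' : Pic0 K F) := by
      have := h (ind S M (redPic0 S (m' : Pic0 K F))) (Or.inr (Or.inl ⟨_, rfl⟩))
      by_contra hne
      rw [ind_pos M rfl, ind_neg M hne] at this
      exact zero_ne_one this
    have h2 : vv I m = vv I m' := Y.t_injective (red_vv I _) (red_vv I _) fun i =>
      h _ (Or.inr (Or.inr ⟨i, rfl⟩))
    rw [vv, vv, h1] at h2
    exact Subtype.ext (sub_left_injective h2)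

variable [Finite M]

theorem isAn_vv (R1 : RankOne S Γ) (Y : Sys S I) :
    IsAn I (actM M hM) (anAlg I M Y) (fun m : M => vv I m) :=
  IsAn.of_sys R1 (isAnAlg I M hM Y) (fun _ => red_vv I _) (fun γ _ => vv_smul I γ.2 _)
    (t_vv_mem I M Y)

omit M hM in
theorem IsAn.comp {X X' : Type*} {act : Γ → X → X} {act' : Γ → X' → X'} {H : Subring (X → K)}
    {H' : Subring (X' → K)} {I : InertiaAction S Γ} {u : X → Pic0 K F} (h : IsAn I act H u)
    (φ : X' → X) (hφ : ∀ γ x, φ (act' γ x) = act γ (φ x)) (hH : ∀ f ∈ H, (fun x => f (φ x)) ∈ H') :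
    IsAn I act' H' (fun x => u (φ x)) :=
  ⟨fun x => h.red _, fun γ x => by rw [hφ, h.equiv], fun Y i => hH _ (h.t_mem Y i)⟩

include hM in
/-- compatibility with addition -/
theorem comul_mem (R1 : RankOne S Γ) (Y : Sys S I) {f : M → K} (hf : f ∈ anAlg I M Y) :
    (fun p : M × M => f (p.1 + p.2)) ∈ prodAlg (anAlg I M Y) (anAlg I M Y) := by
  classical
  set H := anAlg I M Y with hHdef
  have hH := isAnAlg I M hM Y
  have hH2 := hH.prod hH
  -- indicators on `M × M`
  let π : M × M → Pic0 k E × Pic0 k E := fun p =>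
    (redPic0 S (p.1 : Pic0 K F), redPic0 S (p.2 : Pic0 K F))
  have hπ : ∀ z, fib K π z ∈ prodAlg H H := by
    rintro ⟨z1, z2⟩
    have h1 : fib K π (z1, z2) =
        (fun p : M × M => ind S M z1 p.1) * (fun p : M × M => ind S M z2 p.2) := by
      funext p
      rw [Pi.mul_apply]
      by_cases ha : redPic0 S (p.1 : Pic0 K F) = z1
      · by_cases hb : redPic0 S (p.2 : Pic0 K F) = z2
        · rw [ind_pos M ha, ind_pos M hb, fib_pos (Prod.ext ha hb), one_mul]
        · rw [ind_neg M hb, mul_zero, fib_neg (fun h => hb (congrArg Prod.snd h))]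
      · rw [ind_neg M ha, zero_mul, fib_neg (fun h => ha (congrArg Prod.fst h))]
    rw [h1]
    exact mul_mem (fst_mem_prodAlg (ind_mem I M Y z1)) (snd_mem_prodAlg (ind_mem I M Y z2))
  have hadd : ∀ p : M × M, redPic0 S (((p.1 + p.2 : M) : Pic0 K F)) = (π p).1 + (π p).2 := by
    intro p
    rw [AddSubgroup.coe_add, map_add]
  induction hf using Subring.closure_induction with
  | mem f hf =>
    rcases hf with ⟨c, hc, hcΓ, rfl⟩ | ⟨z, rfl⟩ | ⟨i, rfl⟩
    · exact hH2.const c hc hcΓ
    · have h : (fun p : M × M => (fun w : Pic0 k E × Pic0 k E =>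
          if w.1 + w.2 = z then (1 : K) else 0) (π p)) ∈ prodAlg H H := by
        refine mem_of_locConst (φ := fun w : Pic0 k E × Pic0 k E =>
          if w.1 + w.2 = z then (1 : K) else 0) hH2 hπ (fun p => ?_) (fun γ _ p => ?_)
        · split_ifs
          · exact S.A.one_mem
          · exact S.A.zero_mem
        · split_ifs
          · rw [map_one]
          · rw [map_zero]
      convert h using 1
      funext p
      simp only
      rw [← hadd]
      split_ifs with h1
      · exact ind_pos M h1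
      · exact ind_neg M h1
    · -- `v(m + m') = v(m) + v(m') + c(red m, red m')`
      have h1 : IsAn I _ (prodAlg H H) (fun p : M × M => vv I (p.1 : Pic0 K F)) :=
        IsAn.comp (act' := fun i (p : M × M) => (actM M hM i p.1, actM M hM i p.2))
          (isAn_vv I M hM R1 Y) (fun p : M × M => p.1) (fun _ _ => rfl)
          fun f hf => fst_mem_prodAlg hf
      have h2 : IsAn I _ (prodAlg H H) (fun p : M × M => vv I (p.2 : Pic0 K F)) :=
        IsAn.comp (act' := fun i (p : M × M) => (actM M hM i p.1, actM M hM i p.2))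
          (isAn_vv I M hM R1 Y) (fun p : M × M => p.2) (fun _ _ => rfl)
          fun f hf => snd_mem_prodAlg hf
      have h3 : IsAn I (fun i (p : M × M) => (actM M hM i p.1, actM M hM i p.2)) (prodAlg H H)
          (fun p : M × M => (fun w : Pic0 k E × Pic0 k E =>
            lift I w.1 + lift I w.2 - lift I (w.1 + w.2)) (π p)) := by
        refine IsAn.locConst hH2 hπ (c := fun w : Pic0 k E × Pic0 k E =>
            lift I w.1 + lift I w.2 - lift I (w.1 + w.2)) (fun γ p => ?_) (fun p => ?_)
            (fun γ hγ p => ?_)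
        · exact Prod.ext (redPic0_smul I γ.2 _) (redPic0_smul I γ.2 _)
        · simp only [map_sub, map_add, red_lift, sub_self]
        · simp only [sub_eq_add_neg, pic_smul_add, pic_smul_neg, smul_lift I _ hγ]
      have h4 := IsAn.add R1 hH2 (IsAn.add R1 hH2 h1 h2) h3
      convert h4.t_mem Y i using 3 with p
      rw [vv, hadd, AddSubgroup.coe_add, vv, vv]
      simp only [π]
      abel
  | zero => exact (prodAlg H H).zero_mem
  | one => exact (prodAlg H H).one_mem
  | add f g _ _ hf hg => exact (prodAlg H H).add_mem hf hg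
  | neg f _ hf => exact (prodAlg H H).neg_mem hf
  | mul f g _ _ hf hg => exact (prodAlg H H).mul_mem hf hg

/-! ### Stability under compatible automorphisms -/

/-- the image of a place system under a compatible automorphism -/
theorem exists_sys_smul (Y : Sys S I) {δ : SemilinearAut K F} (hδ : Compat S δ)
    (hinf : δ • I.Pinf = I.Pinf) (hΓ : ∀ γ ∈ Γ, δ⁻¹ * γ * δ ∈ Γ) :
    ∃ Z : Sys S I, ∀ (x : Pic0 K F), redPic0 S x = 0 → ∀ i,
      Z.t i (δ • x) = SemilinearAut.baseAut δ (Y.t i x) := by
  classical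
  obtain ⟨β, hβ, -⟩ := compat_exists_bar hδ
  have hr : ∀ P, S.r (δ • P) = β • S.r P := fun P => compat_r_bar hδ hβ P
  have hconj : ∀ γ ∈ Γ, ∀ f : F, (∀ γ ∈ Γ, γ • f = f) → γ • (δ • f) = δ • f := by
    intro γ hγ f hf
    rw [← mul_smul, show γ * δ = δ * (δ⁻¹ * γ * δ) by group, mul_smul, hf _ (hΓ γ hγ)]
  have hconjP : ∀ γ ∈ Γ, ∀ P : Place K F, (∀ γ ∈ Γ, γ • P = P) → γ • (δ • P) = δ • P := by
    intro γ hγ f hf
    rw [← mul_smul, show γ * δ = δ * (δ⁻¹ * γ * δ) by group, mul_smul, hf _ (hΓ γ hγ)]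
  have hzmem : ∀ i, δ • (Y.C i).z ∈ S.discRing (β • Y.Q i) := by
    intro i
    refine ⟨(hδ.mem_iff _).mpr (Y.C i).hz.1, fun P hP => ?_⟩
    have h1 : S.r (δ⁻¹ • P) = Y.Q i := by
      have h2 := hr (δ⁻¹ • P)
      rw [smul_inv_smul, hP] at h2
      exact (smul_left_cancel _ h2).symm
    have h2 := ord_nonneg_of_discRing (Y.C i).hz h1
    rw [mem_iff_ord, ← ord_inv_smul]
    exact h2
  let Z : Sys S I :=
    { Q := fun i => β • Y.Q i
      Q_inj := fun i j h => Y.Q_inj (smul_left_cancel _ h)
      ne_inf := fun i h => Y.ne_inf i (by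
        rw [← hinf, hr] at h
        exact smul_left_cancel _ h)
      C := fun i =>
        { P0 := δ • (Y.C i).P0
          z := δ • (Y.C i).z
          hz := hzmem i
          r_P0 := by rw [hr, (Y.C i).r_P0]
          ord_P0 := by rw [SemilinearAut.ord_smul]; exact (Y.C i).ord_P0
          ord_ρ := by
            have h1 : S.ρ ⟨δ • (Y.C i).z, (hzmem i).1⟩ = β • S.ρ ⟨(Y.C i).z, (Y.C i).hz.1⟩ := by
              rw [hβ]; rfl
            rw [h1, SemilinearAut.ord_smul]
            exact (Y.C i).ord_ρ }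
      smul_P0 := fun γ hγ i => hconjP γ hγ _ fun γ hγ => Y.smul_P0 γ hγ i
      smul_z := fun γ hγ i => hconj γ hγ _ fun γ hγ => Y.smul_z γ hγ i
      ns := fun f hf => by
        have h1 : β⁻¹ • f ∈ riemannRochSpace (∑ i, Finsupp.single (Y.Q i) (1 : ℤ)) := by
          rw [← smul_mem_L_iff β, smul_inv_smul, Finset.smul_sum]
          simpa only [SemilinearAut.smul_single] using hf
        obtain ⟨c, hc⟩ := Y.ns _ h1
        refine ⟨SemilinearAut.baseAut β c, ?_⟩
        rw [← SemilinearAut.smul_algebraMap, ← hc, smul_inv_smul] }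
  refine ⟨Z, fun x hx i => ?_⟩
  have h1 : Z.pts (δ • x) = fun i => δ • Y.pts x i := by
    refine Z.pts_eq (fun i => ?_) ?_
    · rw [hr, Y.r_pts]
    · conv_rhs => rw [← Y.classOf_pts hx]
      rw [smul_classOf]
      rfl
  change pval (Z.pts (δ • x) i) (δ • (Y.C i).z) = _
  rw [h1]
  exact pval_smul_aut ((Y.C i).hz.2 _ (Y.r_pts x i)) δ

include hM in
/-- stability of the analytic algebra under compatible automorphisms normalising `Γ` -/
theorem dec_mem (R1 : RankOne S Γ) (Y : Sys S I) {δ : SemilinearAut K F} (hδ : Compat S δ)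
    (hinf : δ • I.Pinf = I.Pinf) (hΓ : ∀ γ ∈ Γ, δ⁻¹ * γ * δ ∈ Γ)
    {ψ : M → M} (hψ : ∀ m : M, δ • ((ψ m : M) : Pic0 K F) = m)
    {f : M → K} (hf : f ∈ anAlg I M Y) :
    (fun m => SemilinearAut.baseAut δ (f (ψ m))) ∈ anAlg I M Y := by
  classical
  have hH := isAnAlg I M hM Y
  -- reduction of `ψ m` and of `m`
  have hred : ∀ m m' : M, redPic0 S (m : Pic0 K F) = redPic0 S (m' : Pic0 K F) →
      redPic0 S (ψ m : Pic0 K F) = redPic0 S (ψ m' : Pic0 K F) := by
    intro m m' h
    have h1 : ∀ m : M, ((ψ m : M) : Pic0 K F) = δ⁻¹ • (m : Pic0 K F) := fun m => by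
      rw [eq_inv_smul_iff, hψ]
    rw [h1, h1]
    exact hδ.inv.redPic0_smul_congr h
  -- functions of the reduction
  let τ : Pic0 k E → Pic0 k E := fun z =>
    if h : ∃ m : M, redPic0 S (m : Pic0 K F) = z then redPic0 S (ψ h.choose : Pic0 K F) else 0
  have hτ : ∀ m : M, τ (redPic0 S (m : Pic0 K F)) = redPic0 S (ψ m : Pic0 K F) := by
    intro m
    have h : ∃ m' : M, redPic0 S (m' : Pic0 K F) = redPic0 S (m : Pic0 K F) := ⟨m, rfl⟩
    simp only [τ]
    rw [dif_pos h]
    exact hred _ _ h.choose_spec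
  induction hf using Subring.closure_induction with
  | mem f hf =>
    rcases hf with ⟨c, hc, hcΓ, rfl⟩ | ⟨z, rfl⟩ | ⟨i, rfl⟩
    · refine hH.const _ ((hδ.mem_A_iff _).mpr hc) fun γ => ?_
      have h1 := hcΓ ⟨_, hΓ γ γ.2⟩
      have h2 : SemilinearAut.baseAut (γ : SemilinearAut K F) (SemilinearAut.baseAut δ c) =
          SemilinearAut.baseAut δ (SemilinearAut.baseAut (δ⁻¹ * (γ : SemilinearAut K F) * δ) c) := by
        change SemilinearAut.baseAut ((γ : SemilinearAut K F) * δ) c =
          SemilinearAut.baseAut (δ * (δ⁻¹ * (γ : SemilinearAut K F) * δ)) c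
        congr 2
        group
      rw [h2]
      exact congrArg _ h1
    · have h : (fun m : M => (fun w : Pic0 k E => if τ w = z then (1 : K) else 0)
          (redPic0 S (m : Pic0 K F))) ∈ anAlg I M Y := by
        refine mem_of_locConst (π := fun m : M => redPic0 S (m : Pic0 K F))
          (φ := fun w : Pic0 k E => if τ w = z then (1 : K) else 0) hH
          (fun z => ind_mem I M Y z) (fun m => ?_) (fun γ _ m => ?_)
        · split_ifs
          · exact S.A.one_mem
          · exact S.A.zero_mem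
        · split_ifs
          · rw [map_one]
          · rw [map_zero]
      convert h using 1
      funext m
      simp only
      rw [hτ]
      split_ifs with h1
      · rw [ind_pos M h1, map_one]
      · rw [ind_neg M h1, map_zero]
    · -- coordinates
      obtain ⟨Z, hZ⟩ := exists_sys_smul I Y hδ hinf hΓ
      have h1 : IsAn I (actM M hM) (anAlg I M Y) (fun m : M => (fun w : Pic0 k E =>
          if redPic0 S (lift I w - δ • lift I (τ w)) = 0 then lift I w - δ • lift I (τ w) else 0)
            (redPic0 S (m : Pic0 K F))) := by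
        refine IsAn.locConst (π := fun m : M => redPic0 S (m : Pic0 K F)) hH
          (fun z => ind_mem I M Y z) (c := fun w : Pic0 k E =>
          if redPic0 S (lift I w - δ • lift I (τ w)) = 0 then lift I w - δ • lift I (τ w) else 0)
          (fun γ m => redPic0_smul I γ.2 _) (fun m => ?_) (fun γ hγ m => ?_)
        · split_ifs with h
          · exact h
          · exact map_zero _
        · split_ifs with h
          · rw [sub_eq_add_neg, pic_smul_add, pic_smul_neg, smul_lift I _ hγ]
            congr 2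
            rw [← mul_smul, show γ * δ = δ * (δ⁻¹ * γ * δ) by group, mul_smul,
              smul_lift I _ (hΓ γ hγ)]
          · exact pic_smul_zero _
      have h2 := IsAn.add R1 hH (isAn_vv I M hM R1 Y) h1
      convert h2.t_mem Z i using 3 with m
      rw [← hZ _ (red_vv I _) i]
      congr 1
      simp only
      have h3 : redPic0 S (lift I (redPic0 S (m : Pic0 K F)) -
          δ • lift I (τ (redPic0 S (m : Pic0 K F)))) = 0 := by
        rw [map_sub, red_lift, hτ]
        have h4 : redPic0 S (δ • lift I (redPic0 S (ψ m : Pic0 K F))) =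
            redPic0 S (δ • (ψ m : Pic0 K F)) := hδ.redPic0_smul_congr (red_lift I _)
        rw [h4, hψ, sub_self]
      rw [if_pos h3, hτ, vv, vv, sub_eq_add_neg, pic_smul_add, pic_smul_neg, hψ]
      abel
  | zero =>
    convert (anAlg I M Y).zero_mem using 1
    funext m
    exact map_zero _
  | one =>
    convert (anAlg I M Y).one_mem using 1
    funext m
    exact map_one _
  | add f g _ _ hf hg =>
    convert (anAlg I M Y).add_mem hf hg using 1
    funext m
    exact map_add _ _ _
  | neg f _ hf =>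
    convert (anAlg I M Y).neg_mem hf using 1
    funext m
    exact map_neg _ _
  | mul f g _ _ hf hg =>
    convert (anAlg I M Y).mul_mem hf hg using 1
    funext m
    exact map_mul _ _ _

end Fermat.Agent.H19
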