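import Fermat.Agent.H19Zl
import Fermat.Agent.H19Setting
import Fermat.Agent.H43Place

/-!
# Descent of inertia-invariant orders to flat models over `ℤ_(ℓ)` (helper43, job S19-A)
-/

set_option autoImplicit false
set_option linter.unusedSectionVars false

open scoped Pointwise
open Polynomial

namespace Fermat.Agent.H43

local notation "Qb" => AlgebraicClosure ℚ
local notation "Zb" => integralClosure ℤ (AlgebraicClosure ℚ)
local notation "Gq" => (AlgebraicClosure ℚ ≃ₐ[ℚ] AlgebraicClosure ℚ)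

local instance isAlgebraicQb' : Algebra.IsAlgebraic ℚ Qb := AlgebraicClosure.isAlgebraic ℚ
local instance isAlgClosureQb' : IsAlgClosure ℚ Qb := ⟨inferInstance, inferInstance⟩
local instance normalQb' : Normal ℚ Qb := IsAlgClosure.normal ℚ Qb
local instance isGaloisQb' : IsGalois ℚ Qb := ⟨⟩

section Algebra

/-- separation of ring homomorphisms -/
theorem exists_sep {ι R₀ R : Type*} [CommRing R₀] [CommRing R] (W : Subring R)
    (χ : ι → R₀ →+* R) (i₀ : ι) (t : Finset ι) (hW : ∀ c ∈ t, ∀ u, χ c u ∈ W)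
    (h : ∀ c ∈ t, ∃ u, ∃ w ∈ W, w * (χ i₀ u - χ c u) = 1) :
    ∃ (s : Finset R₀) (w : R₀ → R), (∀ u, w u ∈ W) ∧ ∑ u ∈ s, w u * χ i₀ u = 1 ∧
      ∀ c ∈ t, ∑ u ∈ s, w u * χ c u = 0 := by
  classical
  let ev : R₀ →* (ι → R) :=
    { toFun := fun u c => χ c u
      map_one' := by funext c; simp
      map_mul' := by intro a b; funext c; simp }
  choose! u w hw h1 using h
  let Φ : ι → R := fun c' => ∏ c ∈ t, w c * (χ c' (u c) - χ c (u c))
  have hΦ : Φ ∈ Algebra.adjoin W (Set.range ev) := by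
    have e1 : Φ = ∏ c ∈ t, (fun c' => w c * (χ c' (u c) - χ c (u c))) := by
      funext c'
      rw [Finset.prod_apply]
    rw [e1]
    refine Subalgebra.prod_mem _ fun c hc => ?_
    have e2 : (fun c' => w c * (χ c' (u c) - χ c (u c))) =
        (⟨w c, hw c hc⟩ : W) • (ev (u c) - algebraMap W (ι → R) ⟨χ c (u c), hW c hc _⟩) := rfl
    rw [e2]
    refine Subalgebra.smul_mem _ (Subalgebra.sub_mem _ ?_ (Subalgebra.algebraMap_mem _ _)) _
    exact Algebra.subset_adjoin ⟨_, rfl⟩
  rw [← Subalgebra.mem_toSubmodule, Algebra.adjoin_eq_span, ← MonoidHom.coe_mrange,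
    Submonoid.closure_eq, MonoidHom.coe_mrange, Finsupp.mem_span_range_iff_exists_finsupp] at hΦ
  obtain ⟨c, hc⟩ := hΦ
  have hc' : ∀ i, ∑ u ∈ c.support, (c u : R) * χ i u = Φ i := by
    intro i
    rw [← hc, Finsupp.sum, Finset.sum_apply]
    rfl
  refine ⟨c.support, fun u => (c u : R), fun u => (c u).2, ?_, ?_⟩
  · rw [hc']
    exact Finset.prod_eq_one fun c hc => h1 c hc
  · intro i hi
    rw [hc']
    exact Finset.prod_eq_zero hi (by rw [sub_self, mul_zero])

variable {L : Type*} [Field L] {M : Type*} [Finite M]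

theorem span_eq_top_of_separates (S : Subring (M → L))
    (hS : ∀ m m', (∀ f ∈ S, f m = f m') → m = m') :
    Submodule.span L (S : Set (M → L)) = ⊤ := by
  classical
  have := Fintype.ofFinite M
  have h0 : Submodule.span L (S : Set (M → L)) =
      (Algebra.adjoin L (S : Set (M → L))).toSubmodule := by
    rw [Algebra.adjoin_eq_span]
    congr 1
    exact (congrArg (fun T : Submonoid (M → L) => (T : Set (M → L)))
      (Submonoid.closure_eq S.toSubmonoid)).symm
  rw [h0]
  have h1 : ∀ m m', m' ≠ m → ∃ f ∈ S, f m ≠ f m' := by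
    intro m m' hne
    by_contra hcon
    push Not at hcon
    exact hne (hS m m' hcon).symm
  choose! F hF hF' using h1
  have h2 : ∀ m : M, Pi.single m (1 : L) ∈ Algebra.adjoin L (S : Set (M → L)) := by
    intro m
    have e1 : (Pi.single m (1 : L) : M → L) = ∏ m' ∈ Finset.univ.erase m,
        ((F m m' m - F m m' m')⁻¹ • (F m m' - algebraMap L (M → L) (F m m' m'))) := by
      funext x
      rw [Finset.prod_apply]
      by_cases hx : x = m
      · subst hx
        rw [Pi.single_eq_same]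
        refine (Finset.prod_eq_one fun m' hm' => ?_).symm
        rw [Pi.smul_apply, Pi.sub_apply, Pi.algebraMap_apply, smul_eq_mul]
        exact inv_mul_cancel₀ (sub_ne_zero.mpr (hF' x m' (Finset.ne_of_mem_erase hm')))
      · rw [Pi.single_eq_of_ne hx]
        refine (Finset.prod_eq_zero (Finset.mem_erase.mpr ⟨hx, Finset.mem_univ x⟩) ?_).symm
        rw [Pi.smul_apply, Pi.sub_apply, Pi.algebraMap_apply]
        simp
    rw [e1]
    refine Subalgebra.prod_mem _ fun m' hm' => ?_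
    refine Subalgebra.smul_mem _ (Subalgebra.sub_mem _ ?_ (Subalgebra.algebraMap_mem _ _)) _
    exact Algebra.subset_adjoin (hF m m' (Finset.ne_of_mem_erase hm'))
  rw [eq_top_iff]
  rintro f -
  rw [Subalgebra.mem_toSubmodule]
  have e2 : f = ∑ m, f m • (Pi.single m (1 : L) : M → L) := by
    funext x
    rw [Finset.sum_apply]
    simp [Pi.single_apply]
  rw [e2]
  exact Subalgebra.sum_mem _ fun m _ => Subalgebra.smul_mem _ (h2 m) _

theorem exists_basis_of_span {S : Set (M → L)} (hS : Submodule.span L S = ⊤) :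
    ∃ b : M → (M → L), LinearIndependent L b ∧ ∀ m, b m ∈ S := by
  have := Fintype.ofFinite M
  let b := Module.Basis.ofSpan (K := L) hS.ge
  have hb : Set.range b ⊆ S := Module.Basis.ofSpan_subset hS.ge
  let e := b.indexEquiv (Pi.basisFun L M)
  exact ⟨fun m => b (e.symm m), b.linearIndependent.comp _ e.symm.injective,
    fun m => hb ⟨_, rfl⟩⟩

theorem exists_coords [Fintype M] {b : M → (M → L)} (hb : LinearIndependent L b) (f : M → L) :
    ∃ c : M → L, f = ∑ i, c i • b i := by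
  have hcard : Fintype.card M = Module.finrank L (M → L) := by simp
  rcases isEmpty_or_nonempty M with hM | hM
  · exact ⟨fun _ => 0, funext fun m => isEmptyElim m⟩
  let B := basisOfLinearIndependentOfCardEqFinrank hb hcard
  refine ⟨fun i => B.repr f i, ?_⟩
  conv_lhs => rw [← B.sum_repr f]
  simp [B]

theorem exists_cramer [Fintype M] (A : ValuationSubring L) {b : M → (M → L)}
    (hb : LinearIndependent L b) (hbA : ∀ i m, b i m ∈ A) :
    ∃ δ : L, δ ≠ 0 ∧ ∀ c : M → L, (∀ m, (∑ i, c i • b i) m ∈ A) → ∀ i, δ * c i ∈ A := by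
  classical
  let B : Matrix M M L := Matrix.of b
  have hB : IsUnit B := Matrix.linearIndependent_rows_iff_isUnit.mp hb
  have hdet : IsUnit B.det := (Matrix.isUnit_iff_isUnit_det _).mp hB
  refine ⟨B.det, hdet.ne_zero, fun c hc i => ?_⟩
  let B' : Matrix M M A := Matrix.of fun i m => ⟨b i m, hbA i m⟩
  have hBB : B'.map A.subtype = B := rfl
  have hadj : ∀ m i, B.adjugate m i ∈ A := by
    intro m i
    have h1 := A.subtype.map_adjugate B'
    have h2 : B.adjugate = (B'.adjugate).map A.subtype := by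
      rw [← hBB]
      exact h1.symm
    rw [h2]
    exact Subtype.coe_prop _
  have h3 : Matrix.vecMul (∑ i, c i • b i) B.adjugate = B.det • c := by
    have h4 : (∑ i, c i • b i) = Matrix.vecMul c B := by
      funext m
      rw [Finset.sum_apply]
      simp only [Matrix.vecMul, dotProduct, Pi.smul_apply, smul_eq_mul]
      rfl
    rw [h4, Matrix.vecMul_vecMul, Matrix.mul_adjugate, Matrix.vecMul_smul, Matrix.vecMul_one]
  have h5 : B.det * c i = ∑ m, (∑ i, c i • b i) m * B.adjugate m i := by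
    have := congrFun h3 i
    rw [Pi.smul_apply, smul_eq_mul] at this
    rw [← this]
    rfl
  rw [h5]
  exact sum_mem fun m _ => mul_mem (hc m) (hadj m i)

theorem coeff_fixed {ι : Type*} [Fintype ι] (σ : L ≃+* L) {τ : M → M}
    (hτ : Function.Surjective τ)
    {b : ι → (M → L)} (hb : LinearIndependent L b) (hbσ : ∀ i m, b i (τ m) = σ (b i m))
    {f : M → L} (hf : ∀ m, f (τ m) = σ (f m)) {c : ι → L} (hc : f = ∑ i, c i • b i) (i : ι) :
    σ (c i) = c i := by
  have h1 : ∑ i, (c i - σ (c i)) • b i = 0 := by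
    funext m
    obtain ⟨m, rfl⟩ := hτ m
    have h2 := hf m
    rw [hc] at h2
    simp only [Finset.sum_apply, Pi.smul_apply, smul_eq_mul, map_sum, map_mul, ← hbσ] at h2
    simp only [Finset.sum_apply, Pi.smul_apply, smul_eq_mul, sub_mul, Finset.sum_sub_distrib, h2,
      sub_self, Pi.zero_apply]
  have h3 := Fintype.linearIndependent_iff.mp hb _ h1 i
  exact (sub_eq_zero.mp h3).symm

end Algebra

section Star

variable {M : Type} (act : Gq → M → M)

/-- the Galois action on functions on a Galois set -/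
noncomputable def star (g : Gq) (f : M → Qb) : M → Qb := fun m => g (f (act g⁻¹ m))

theorem star_apply (g : Gq) (f : M → Qb) (m : M) : star act g f m = g (f (act g⁻¹ m)) := rfl

theorem star_smul (g : Gq) (c : Qb) (f : M → Qb) : star act g (c • f) = g c • star act g f := by
  funext m
  simp [star]

theorem star_sum {ι : Type*} (g : Gq) (s : Finset ι) (f : ι → M → Qb) :
    star act g (∑ i ∈ s, f i) = ∑ i ∈ s, star act g (f i) := by
  funext m
  simp [star, Finset.sum_apply]

variable {act} (hone : ∀ m, act 1 m = m) (hmul : ∀ σ τ m, act (σ * τ) m = act σ (act τ m))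

include hone in
theorem star_one (f : M → Qb) : star act 1 f = f := by
  funext m
  simp [star, hone]

include hmul in
theorem star_mul (g h : Gq) (f : M → Qb) : star act g (star act h f) = star act (g * h) f := by
  funext m
  simp [star, ← hmul]

include hone hmul in
theorem act_surjective (σ : Gq) : Function.Surjective (act σ) := fun m =>
  ⟨act σ⁻¹ m, by rw [← hmul, mul_inv_cancel, hone]⟩

include hone hmul in
theorem equivariant_iff (σ : Gq) (f : M → Qb) :
    (∀ m, f (act σ m) = σ (f m)) ↔ star act σ f = f := by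
  constructor
  · intro h
    funext m
    rw [star_apply, ← h, ← hmul, mul_inv_cancel, hone]
  · intro h m
    have h1 := congrFun h (act σ m)
    rw [star_apply, ← hmul, inv_mul_cancel, hone] at h1
    exact h1.symm

/-- sum over cosets -/
noncomputable def trc (act : Gq → M → M) (U : Subgroup Gq) [Fintype (Gq ⧸ U)] (F : M → Qb) :
    M → Qb := ∑ c : Gq ⧸ U, star act c.out F

include hmul in
theorem star_out {U : Subgroup Gq} {F : M → Qb} (hF : ∀ s ∈ U, star act s F = F) (g : Gq) :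
    star act (QuotientGroup.mk g : Gq ⧸ U).out F = star act g F := by
  obtain ⟨n, hn⟩ := QuotientGroup.mk_out_eq_mul U g
  rw [hn, ← star_mul hmul, hF n n.2]

include hmul in
theorem star_trc {U : Subgroup Gq} [Fintype (Gq ⧸ U)] {F : M → Qb}
    (hF : ∀ s ∈ U, star act s F = F) (σ : Gq) : star act σ (trc act U F) = trc act U F := by
  rw [trc, star_sum]
  have h1 : ∀ c : Gq ⧸ U, star act σ (star act c.out F) = star act (σ • c : Gq ⧸ U).out F := by
    intro c
    rw [star_mul hmul]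
    have h2 : (σ • c : Gq ⧸ U) = QuotientGroup.mk (σ * c.out) := by
      conv_lhs => rw [← QuotientGroup.out_eq' c]
      rfl
    rw [h2, star_out hmul hF]
  simp_rw [h1]
  exact Equiv.sum_comp (MulAction.toPerm σ : Equiv.Perm (Gq ⧸ U)) fun c => star act c.out F

include hmul in
theorem sum_trc {U : Subgroup Gq} [Fintype (Gq ⧸ U)] {F : M → Qb} {R₀ : Type*}
    (s : Finset R₀) (w x : R₀ → Qb) :
    ∑ u ∈ s, w u • trc act U (x u • F) =
      ∑ c : Gq ⧸ U, (∑ u ∈ s, w u * c.out (x u)) • star act c.out F := by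
  simp only [trc, star_smul, Finset.smul_sum, Finset.sum_smul, smul_smul]
  exact Finset.sum_comm

end Star

section Level

variable {M : Type} [Finite M] {act : Gq → M → M}

/-- a finite normal level containing given numbers and acting trivially -/
theorem exists_level
    (hopen : ∃ E : IntermediateField ℚ Qb, FiniteDimensional ℚ E ∧
      ∀ σ : Gq, (∀ x ∈ E, σ x = x) → ∀ m, act σ m = m) (f : M → Qb) :
    ∃ E : IntermediateField ℚ Qb, Normal ℚ E ∧ FiniteDimensional ℚ E ∧ (∀ m, f m ∈ E) ∧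
      ∀ σ ∈ E.fixingSubgroup, ∀ m, act σ m = m := by
  obtain ⟨E₀, hE₀, h0⟩ := hopen
  let E₁ : IntermediateField ℚ Qb := IntermediateField.adjoin ℚ (Set.range f)
  have hE₁ : FiniteDimensional ℚ E₁ :=
    IntermediateField.finiteDimensional_adjoin fun x _ =>
      ((AlgebraicClosure.isAlgebraic ℚ).isAlgebraic x).isIntegral
  let E₂ : IntermediateField ℚ Qb := E₀ ⊔ E₁
  have hE₂ : FiniteDimensional ℚ E₂ := IntermediateField.finiteDimensional_sup E₀ E₁
  let E : IntermediateField ℚ Qb := IntermediateField.normalClosure ℚ E₂ Qb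
  have hle : E₂ ≤ E := IntermediateField.le_normalClosure E₂
  refine ⟨E, normalClosure.normal ℚ E₂ Qb, normalClosure.is_finiteDimensional ℚ E₂ Qb, ?_, ?_⟩
  · intro m
    exact hle ((le_sup_right : E₁ ≤ E₀ ⊔ E₁) (IntermediateField.subset_adjoin ℚ _ ⟨m, rfl⟩))
  · intro σ hσ m
    refine h0 σ (fun x hx => ?_) m
    exact fixed_of_mem E (hle ((le_sup_left : E₀ ≤ E₀ ⊔ E₁) hx)) hσ

end Level

section Main

variable {M : Type} [Finite M] {act : Gq → M → M}
  (hone : ∀ m, act 1 m = m) (hmul : ∀ σ τ m, act (σ * τ) m = act σ (act τ m))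
  (hopen : ∃ E : IntermediateField ℚ Qb, FiniteDimensional ℚ E ∧
      ∀ σ : Gq, (∀ x ∈ E, σ x = x) → ∀ m, act σ m = m)

include hone hmul hopen in
/-- equivariant functions span all functions -/
theorem span_equivariant :
    Submodule.span Qb {f : M → Qb | ∀ σ m, f (act σ m) = σ (f m)} = ⊤ := by
  classical
  rw [eq_top_iff]
  rintro φ -
  obtain ⟨E, hEn, hEf, hφ, hE⟩ := exists_level hopen φ
  have hfin := finite_quotient_fixingSubgroup E
  let _ := Fintype.ofFinite (Gq ⧸ E.fixingSubgroup)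
  have hφ' : ∀ s ∈ E.fixingSubgroup, star act s φ = φ := by
    intro s hs
    funext m
    rw [star_apply, hE _ (inv_mem hs), fixed_of_mem E (hφ m) hs]
  let χ : (Gq ⧸ E.fixingSubgroup) → E →+* Qb := fun c =>
    ((c.out : Gq) : Qb →+* Qb).comp (algebraMap E Qb)
  have h1 : ∀ u : E, χ (QuotientGroup.mk 1) u = u := by
    intro u
    obtain ⟨n, hn⟩ := QuotientGroup.mk_out_eq_mul E.fixingSubgroup (1 : Gq)
    change (QuotientGroup.mk 1 : Gq ⧸ E.fixingSubgroup).out (u : Qb) = u
    rw [hn, one_mul]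
    exact fixed_of_mem E u.2 n.2
  obtain ⟨s, w, -, hw1, hw0⟩ := exists_sep (⊤ : Subring Qb) χ (QuotientGroup.mk 1)
    (Finset.univ.erase (QuotientGroup.mk 1)) (fun c _ u => Subring.mem_top _) (by
      intro c hc
      have hc' : c ≠ QuotientGroup.mk 1 := Finset.ne_of_mem_erase hc
      have hex : ∃ u : E, χ c u ≠ u := by
        by_contra hcon
        push Not at hcon
        apply hc'
        rw [← QuotientGroup.out_eq' c, eq_comm, QuotientGroup.eq, inv_one, one_mul,
          IntermediateField.mem_fixingSubgroup_iff]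
        exact fun x hx => hcon ⟨x, hx⟩
      obtain ⟨u, hu⟩ := hex
      refine ⟨u, (χ (QuotientGroup.mk 1) u - χ c u)⁻¹, Subring.mem_top _, ?_⟩
      refine inv_mul_cancel₀ (sub_ne_zero.mpr ?_)
      rw [h1]
      exact hu.symm)
  have h2 := sum_trc hmul (U := E.fixingSubgroup) (F := φ) s w (fun u => (u : Qb))
  have h3 : ∑ c : Gq ⧸ E.fixingSubgroup, (∑ u ∈ s, w u * c.out (u : Qb)) • star act c.out φ = φ := by
    rw [Finset.sum_eq_single (QuotientGroup.mk 1 : Gq ⧸ E.fixingSubgroup)]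
    · have e1 : (∑ u ∈ s, w u * (QuotientGroup.mk 1 : Gq ⧸ E.fixingSubgroup).out (u : Qb)) = 1 := hw1
      rw [e1, one_smul, star_out hmul hφ', star_one hone]
    · intro c _ hc
      have e1 : (∑ u ∈ s, w u * c.out (u : Qb)) = 0 :=
        hw0 c (Finset.mem_erase.mpr ⟨hc, Finset.mem_univ _⟩)
      rw [e1, zero_smul]
    · intro h
      exact absurd (Finset.mem_univ _) h
  rw [← h3, ← h2]
  refine Submodule.sum_mem _ fun u _ => Submodule.smul_mem _ _ (Submodule.subset_span ?_)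
  intro σ
  rw [equivariant_iff hone hmul]
  refine star_trc hmul (fun ς hς => ?_) σ
  rw [star_smul, hφ' ς hς, fixed_of_mem E u.2 hς]

variable {ℓ : ℕ} (hℓ : ℓ.Prime) {A : ValuationSubring Qb} (hA : A.LiesOverPrime ℓ)

/-- integral constants fixed by inertia -/
def inertiaRing (A : ValuationSubring Qb) : Subring Qb where
  carrier := {x | x ∈ A ∧ ∀ ι ∈ A.inertiaSubgroupIn ℚ, ι x = x}
  mul_mem' := fun ha hb => ⟨mul_mem ha.1 hb.1, fun ι hι => by rw [map_mul, ha.2 ι hι, hb.2 ι hι]⟩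
  one_mem' := ⟨one_mem A, fun ι _ => map_one ι⟩
  add_mem' := fun ha hb => ⟨add_mem ha.1 hb.1, fun ι hι => by rw [map_add, ha.2 ι hι, hb.2 ι hι]⟩
  zero_mem' := ⟨zero_mem A, fun ι _ => map_zero ι⟩
  neg_mem' := fun ha => ⟨neg_mem ha.1, fun ι hι => by rw [map_neg, ha.2 ι hι]⟩

theorem mem_inertiaRing {x : Qb} :
    x ∈ inertiaRing A ↔ x ∈ A ∧ ∀ ι ∈ A.inertiaSubgroupIn ℚ, ι x = x := Iff.rfl

theorem apply_mem_inertiaRing {d : Gq} (hd : d • A = A) {x : Qb} (hx : x ∈ inertiaRing A) :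
    d x ∈ inertiaRing A := by
  refine ⟨(apply_mem_iff hd x).mpr hx.1, fun ι hι => ?_⟩
  have h1 := hx.2 _ (conj_mem_inertia hι hd)
  have h2 := congrArg d h1
  exact (d.apply_symm_apply _).symm.trans h2

theorem inv_mem_inertiaRing {x : Qb} (hx : x ∈ inertiaRing A) (hx' : x ∉ A.nonunits) :
    x⁻¹ ∈ inertiaRing A :=
  ⟨inv_mem_of_not_mem_nonunits hx', fun ι hι => by rw [map_inv₀, hx.2 ι hι]⟩

variable {H : Subring (M → Qb)}
  (hH : H19.IsAnAlg A (fun σ : A.inertiaSubgroupIn ℚ => ((σ : Gq) : Qb ≃+* Qb))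
    (fun σ => act σ) H)

include hℓ hA hone hmul hH in
/-- the closure lemma -/
theorem exists_closure : ∃ n₀ : ℕ, ∀ f : M → Qb, (∀ m, f m ∈ A) →
    (∀ ι ∈ A.inertiaSubgroupIn ℚ, ∀ m, f (act ι m) = ι (f m)) → ((ℓ : Qb) ^ n₀ • f) ∈ H := by
  classical
  have := Fintype.ofFinite M
  obtain ⟨b, hb, hbH⟩ := exists_basis_of_span (span_eq_top_of_separates H hH.sep)
  obtain ⟨δ, hδ, hδA⟩ := exists_cramer A hb (fun i m => hH.int _ (hbH i) m)
  obtain ⟨n₀, a, ha, hna⟩ := exists_pow_eq_mul hℓ hA hδ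
  refine ⟨n₀, fun f hf hfι => ?_⟩
  obtain ⟨c, hc⟩ := exists_coords hb f
  have h1 : ∀ i, (ℓ : Qb) ^ n₀ * c i ∈ inertiaRing A := by
    intro i
    refine ⟨?_, fun ι hι => ?_⟩
    · rw [hna, mul_comm δ a, mul_assoc]
      exact mul_mem ha (hδA c (by rw [← hc]; exact hf) i)
    · rw [map_mul, map_pow, map_natCast]
      congr 1
      exact coeff_fixed ((ι : Qb ≃+* Qb)) (act_surjective hone hmul ι) hb
        (fun i m => hH.equiv _ (hbH i) ⟨ι, hι⟩ m) (fun m => hfι ι hι m) hc i
  have h2 : (ℓ : Qb) ^ n₀ • f = ∑ i, (fun _ => (ℓ : Qb) ^ n₀ * c i) * b i := by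
    rw [hc, Finset.smul_sum]
    refine Finset.sum_congr rfl fun i _ => ?_
    funext m
    simp [mul_assoc]
  rw [h2]
  refine sum_mem fun i _ => mul_mem ?_ (hbH i)
  exact hH.const _ (h1 i).1 fun ι => (h1 i).2 ι ι.2

variable (hdec : ∀ σ : Gq, σ • A = A → ∀ f ∈ H, star act σ f ∈ H)

include hℓ hA hone hmul hopen hH hdec in
/-- every function of `H` is a combination of globally equivariant ones -/
theorem mem_span {n₀ k : ℕ}
    (hclo : ∀ f : M → Qb, (∀ m, f m ∈ A) →
      (∀ ι ∈ A.inertiaSubgroupIn ℚ, ∀ m, f (act ι m) = ι (f m)) → ((ℓ : Qb) ^ n₀ • f) ∈ H)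
    [Fintype M] {e : M → (M → Qb)} (he : LinearIndependent Qb e) (heH : ∀ i, e i ∈ H)
    (heG : ∀ i σ m, e i (act σ m) = σ (e i m))
    (hek : ∀ c : M → Qb, (∀ m, (∑ i, c i • e i) m ∈ A) → ∀ i, (ℓ : Qb) ^ k * c i ∈ A)
    {h : M → Qb} (hh : h ∈ H) :
    h ∈ Submodule.span (inertiaRing A) {f : M → Qb | f ∈ H ∧ ∀ σ m, f (act σ m) = σ (f m)} := by
  classical
  obtain ⟨E, hEn, hEf, hhE, hE⟩ := exists_level hopen h
  have hℓ0 : (ℓ : Qb) ≠ 0 := Nat.cast_ne_zero.mpr hℓ.ne_zero
  have hnor := normal_fixingSubgroup E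
  set N : Subgroup Gq := E.fixingSubgroup with hN
  set I : Subgroup Gq := A.inertiaSubgroupIn ℚ with hI
  let U : Subgroup Gq := I ⊔ N
  have hUmem : ∀ s ∈ U, ∃ ι ∈ I, ∃ n ∈ N, s = ι * n := by
    intro s hs
    obtain ⟨y, hy, z, hz, hyz⟩ := Subgroup.mem_sup_of_normal_right.mp hs
    exact ⟨y, hy, z, hz, hyz.symm⟩
  have hfin : Finite (Gq ⧸ U) := by
    have := finite_quotient_fixingSubgroup E
    refine Finite.of_surjective (Subgroup.quotientMapOfLE (le_sup_right : N ≤ U)) ?_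
    intro c
    obtain ⟨g, rfl⟩ := QuotientGroup.mk_surjective c
    exact ⟨QuotientGroup.mk g, rfl⟩
  let _ := Fintype.ofFinite (Gq ⧸ U)
  -- invariance of `h`
  have hhU : ∀ s ∈ U, star act s h = h := by
    intro s hs
    obtain ⟨ι, hι, n, hn, rfl⟩ := hUmem s hs
    have e1 : star act n h = h := by
      funext m
      rw [star_apply, hE _ (inv_mem hn), fixed_of_mem E (hhE m) hn]
    rw [← star_mul hmul, e1]
    exact (equivariant_iff hone hmul ι h).mp fun m => hH.equiv _ hh ⟨ι, hι⟩ m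
  -- the ring of coefficients
  let R₀ : Subring Qb := inertiaRing A ⊓ E.toSubalgebra.toSubring
  have hR₀ : ∀ x : Qb, x ∈ R₀ ↔ x ∈ inertiaRing A ∧ x ∈ E := fun x => Iff.rfl
  have hfix : ∀ x ∈ R₀, ∀ s ∈ U, s x = x := by
    intro x hx s hs
    obtain ⟨ι, hι, n, hn, rfl⟩ := hUmem s hs
    change ι (n x) = x
    rw [fixed_of_mem E hx.2 hn, hx.1.2 ι hι]
  have hout : ∀ (g : Gq), ∀ x ∈ R₀, (QuotientGroup.mk g : Gq ⧸ U).out x = g x := by
    intro g x hx
    obtain ⟨n, hn⟩ := QuotientGroup.mk_out_eq_mul U g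
    rw [hn]
    change g ((n : Gq) x) = g x
    rw [hfix x hx n n.2]
  let χ : (Gq ⧸ U) → R₀ →+* Qb := fun c => ((c.out : Gq) : Qb →+* Qb).comp R₀.subtype
  have hχ : ∀ g (x : R₀), χ (QuotientGroup.mk g) x = g x := fun g x => hout g x x.2
  -- cosets in the decomposition group
  let good : (Gq ⧸ U) → Prop := fun c => ∃ d : Gq, d • A = A ∧ c = QuotientGroup.mk d
  obtain ⟨s, w, hw, hw1, hw0⟩ := exists_sep (inertiaRing A) χ (QuotientGroup.mk 1)
    (Finset.univ.filter fun c => c ≠ QuotientGroup.mk 1 ∧ good c) (by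
      intro c hc u
      obtain ⟨-, d, hd, rfl⟩ := (Finset.mem_filter.mp hc).2
      rw [hχ]
      exact apply_mem_inertiaRing hd u.2.1) (by
      intro c hc
      obtain ⟨hc1, d, hd, rfl⟩ := (Finset.mem_filter.mp hc).2
      have hex : ∃ x ∈ R₀, d x - x ∉ A.nonunits := by
        by_contra hcon
        push Not at hcon
        apply hc1
        obtain ⟨ι, hι, n, hn, hd'⟩ := exists_mem_inertia_mul E hℓ hA hd
          fun x hxA hxE hxI => hcon x ⟨⟨hxA, hxI⟩, hxE⟩
        rw [eq_comm, QuotientGroup.eq, inv_one, one_mul, hd']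
        exact mul_mem ((le_sup_left : I ≤ U) hι) ((le_sup_right : N ≤ U) hn)
      obtain ⟨x, hx, hdx⟩ := hex
      have hne : x - d x ∉ A.nonunits := by
        intro h'
        apply hdx
        have := neg_mem_nonunits h'
        rwa [neg_sub] at this
      have hmem : x - d x ∈ inertiaRing A := sub_mem hx.1 (apply_mem_inertiaRing hd hx.1)
      refine ⟨⟨x, hx⟩, (x - d x)⁻¹, inv_mem_inertiaRing hmem hne, ?_⟩
      rw [hχ, hχ]
      refine inv_mul_cancel₀ fun h0 => hne ?_
      change x - d x = 0 at h0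
      rw [h0, ValuationSubring.mem_nonunits_iff, map_zero]
      exact zero_lt_one)
  obtain ⟨v, hvE, hvint, hvI, hvu, hvbad⟩ := exists_inertia_fixed E hℓ hA
  have hvA : v ∈ A := int_mem_place hvint
  have hvR : v ∈ R₀ := ⟨⟨hvA, hvI⟩, hvE⟩
  have hv0 : v ≠ 0 := by
    intro h0
    apply hvu
    rw [h0, ValuationSubring.mem_nonunits_iff, map_zero]
    exact zero_lt_one
  have hvinv : v⁻¹ ∈ inertiaRing A := inv_mem_inertiaRing hvR.1 hvu
  have hbad : ∀ c : Gq ⧸ U, ¬ good c → c.out v ∈ A.nonunits := by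
    intro c hc
    refine hvbad _ fun d hd n hn hcn => hc ⟨d, hd, ?_⟩
    rw [← QuotientGroup.out_eq' c, hcn, QuotientGroup.eq]
    have : (d * n)⁻¹ * d = n⁻¹ := by group
    rw [this]
    exact inv_mem ((le_sup_right : N ≤ U) hn)
  -- choice of the exponent
  have hev : ∀ (y : Qb), y ∈ A.nonunits → ∀ (z : Qb) (j : ℕ),
      ∀ᶠ n in Filter.atTop, ∃ a ∈ A, y ^ n * z = (ℓ : Qb) ^ j * a := by
    intro y hy z j
    obtain ⟨n₁, hn₁⟩ := exists_forall_pow_mul_mem hℓ hA hy z j
    exact Filter.eventually_atTop.mpr ⟨n₁, hn₁⟩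
  have hev1 : ∀ᶠ n in Filter.atTop, ∀ u ∈ s, ∀ c : Gq ⧸ U, ∀ m, ¬ good c →
      ∃ a ∈ A, (c.out v) ^ n * (c.out (u : Qb) * c.out (h (act (c.out)⁻¹ m))) =
        (ℓ : Qb) ^ n₀ * a := by
    rw [Filter.eventually_all_finset]
    intro u _
    rw [Filter.eventually_all]
    intro c
    rw [Filter.eventually_all]
    intro m
    by_cases hc : good c
    · exact Filter.Eventually.of_forall fun n h' => absurd hc h'
    · filter_upwards [hev _ (hbad c hc) (c.out (u : Qb) * c.out (h (act (c.out)⁻¹ m))) n₀] with n hn _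
      exact hn
  have hev2 : ∀ᶠ n in Filter.atTop, ∀ c : Gq ⧸ U, ∀ m, ¬ good c →
      ∃ a ∈ A, (c.out v) ^ n * ((∑ u ∈ s, w u * c.out (u : Qb)) * c.out (h (act (c.out)⁻¹ m))) =
        (ℓ : Qb) ^ k * a := by
    rw [Filter.eventually_all]
    intro c
    rw [Filter.eventually_all]
    intro m
    by_cases hc : good c
    · exact Filter.Eventually.of_forall fun n h' => absurd hc h'
    · filter_upwards [hev _ (hbad c hc)
        ((∑ u ∈ s, w u * c.out (u : Qb)) * c.out (h (act (c.out)⁻¹ m))) k] with n hn _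
      exact hn
  obtain ⟨n, hn1, hn2⟩ := (hev1.and hev2).exists
  -- the traces are in `H`
  have hxR : ∀ u : R₀, (u : Qb) * v ^ n ∈ R₀ := fun u => mul_mem u.2 (pow_mem hvR n)
  have hTG : ∀ (u : R₀) (σ : Gq), star act σ (trc act U (((u : Qb) * v ^ n) • h)) =
      trc act U (((u : Qb) * v ^ n) • h) := by
    intro u σ
    refine star_trc hmul (fun ς hς => ?_) σ
    rw [star_smul, hhU ς hς, hfix _ (hxR u) ς hς]
  have hTH : ∀ u ∈ s, trc act U (((u : Qb) * v ^ n) • h) ∈ H := by
    intro u hu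
    set F : M → Qb := ((u : Qb) * v ^ n) • h with hF
    have hFU : ∀ ς ∈ U, star act ς F = F := by
      intro ς hς
      rw [hF, star_smul, hhU ς hς, hfix _ (hxR u) ς hς]
    have hsplit : trc act U F = ∑ c ∈ Finset.univ.filter good, star act c.out F +
        ∑ c ∈ Finset.univ.filter (fun c => ¬ good c), star act c.out F := by
      rw [trc, Finset.sum_filter_add_sum_filter_not]
    have hP : ∑ c ∈ Finset.univ.filter good, star act c.out F ∈ H := by
      refine sum_mem fun c hc => ?_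
      obtain ⟨d, hd, rfl⟩ := (Finset.mem_filter.mp hc).2
      rw [star_out hmul hFU, hF, star_smul]
      have h1 := apply_mem_inertiaRing hd (hxR u).1
      have h2 : d ((u : Qb) * v ^ n) • star act d h =
          (fun _ => d ((u : Qb) * v ^ n)) * star act d h := rfl
      rw [h2]
      exact mul_mem (hH.const _ h1.1 fun ι => h1.2 ι ι.2) (hdec d hd h hh)
    rw [hsplit]
    refine add_mem hP ?_
    have hQ : ∑ c ∈ Finset.univ.filter (fun c => ¬ good c), star act c.out F =
        trc act U F - ∑ c ∈ Finset.univ.filter good, star act c.out F := by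
      rw [hsplit]; abel
    set Q : M → Qb := ∑ c ∈ Finset.univ.filter (fun c => ¬ good c), star act c.out F with hQdef
    have hQι : ∀ ι ∈ I, ∀ m, Q (act ι m) = ι (Q m) := by
      intro ι hι m
      rw [hQ]
      have e1 : trc act U F (act ι m) = ι (trc act U F m) :=
        (equivariant_iff hone hmul ι _).mpr (hTG u ι) m
      have e2 : (∑ c ∈ Finset.univ.filter good, star act c.out F) (act ι m) =
          ι ((∑ c ∈ Finset.univ.filter good, star act c.out F) m) := hH.equiv _ hP ⟨ι, hι⟩ m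
      rw [Pi.sub_apply, Pi.sub_apply, e1, e2, map_sub]
    have hQA : ∀ m, ∃ a ∈ A, Q m = (ℓ : Qb) ^ n₀ * a := by
      intro m
      have h1 : ∀ c ∈ Finset.univ.filter (fun c : Gq ⧸ U => ¬ good c), ∃ a ∈ A,
          star act c.out F m = (ℓ : Qb) ^ n₀ * a := by
        intro c hc
        obtain ⟨a, ha, hca⟩ := hn1 u hu c m (Finset.mem_filter.mp hc).2
        refine ⟨a, ha, ?_⟩
        rw [← hca, hF, star_smul, Pi.smul_apply, smul_eq_mul, star_apply, map_mul, map_pow]
        ring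
      choose! a ha ha' using h1
      refine ⟨∑ c ∈ Finset.univ.filter (fun c : Gq ⧸ U => ¬ good c), a c, sum_mem ha, ?_⟩
      rw [hQdef, Finset.sum_apply, Finset.mul_sum]
      exact Finset.sum_congr rfl ha'
    have h3 := hclo (((ℓ : Qb) ^ n₀)⁻¹ • Q) (by
      intro m
      obtain ⟨a, ha, hQa⟩ := hQA m
      rw [Pi.smul_apply, smul_eq_mul, hQa, inv_mul_cancel_left₀ (pow_ne_zero _ hℓ0)]
      exact ha) (by
      intro ι hι m
      rw [Pi.smul_apply, Pi.smul_apply, smul_eq_mul, smul_eq_mul, map_mul, hQι ι hι m, map_inv₀,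
        map_pow, map_natCast])
    rw [smul_smul, mul_inv_cancel₀ (pow_ne_zero _ hℓ0), one_smul] at h3
    exact h3
  -- the error term
  have hsum := sum_trc hmul (U := U) (F := h) s (fun u => w u * (v ^ n)⁻¹)
    (fun u => (u : Qb) * v ^ n)
  have hcoef : ∀ c : Gq ⧸ U, (∑ u ∈ s, w u * (v ^ n)⁻¹ * c.out ((u : Qb) * v ^ n)) =
      (v ^ n)⁻¹ * (c.out v ^ n * ∑ u ∈ s, w u * c.out (u : Qb)) := by
    intro c
    rw [Finset.mul_sum, Finset.mul_sum]
    refine Finset.sum_congr rfl fun u _ => ?_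
    rw [map_mul, map_pow]
    ring
  have hone' : (QuotientGroup.mk 1 : Gq ⧸ U).out v = v := hout 1 v hvR
  have hsum2 : ∑ u ∈ s, (w u * (v ^ n)⁻¹) • trc act U (((u : Qb) * v ^ n) • h) = h +
      ∑ c ∈ Finset.univ.filter (fun c : Gq ⧸ U => ¬ good c),
        ((v ^ n)⁻¹ * (c.out v ^ n * ∑ u ∈ s, w u * c.out (u : Qb))) • star act c.out h := by
    rw [hsum, ← Finset.sum_filter_add_sum_filter_not Finset.univ good]
    congr 1
    · have hg1 : good (QuotientGroup.mk 1) := ⟨1, one_smul _ _, rfl⟩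
      rw [Finset.sum_eq_single (QuotientGroup.mk 1 : Gq ⧸ U)]
      · rw [hcoef, star_out hmul hhU, star_one hone, hone']
        have e1 : (∑ u ∈ s, w u * (QuotientGroup.mk 1 : Gq ⧸ U).out (u : Qb)) = 1 := hw1
        rw [e1, mul_one, inv_mul_cancel₀ (pow_ne_zero _ hv0), one_smul]
      · intro c hc hc1
        rw [hcoef]
        have e1 : (∑ u ∈ s, w u * c.out (u : Qb)) = 0 :=
          hw0 c (Finset.mem_filter.mpr ⟨Finset.mem_univ _, hc1, (Finset.mem_filter.mp hc).2⟩)
        rw [e1, mul_zero, mul_zero, zero_smul]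
      · intro h'
        exact absurd (Finset.mem_filter.mpr ⟨Finset.mem_univ _, hg1⟩) h'
    · exact Finset.sum_congr rfl fun c _ => by rw [hcoef]
  set Err : M → Qb := ∑ c ∈ Finset.univ.filter (fun c : Gq ⧸ U => ¬ good c),
        ((v ^ n)⁻¹ * (c.out v ^ n * ∑ u ∈ s, w u * c.out (u : Qb))) • star act c.out h with hErr
  have hwv : ∀ u, w u * (v ^ n)⁻¹ ∈ inertiaRing A := by
    intro u
    rw [← inv_pow]
    exact mul_mem (hw u) (pow_mem hvinv n)
  have hErrι : ∀ ι ∈ I, ∀ m, Err (act ι m) = ι (Err m) := by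
    intro ι hι m
    have e0 : Err = ∑ u ∈ s, (w u * (v ^ n)⁻¹) • trc act U (((u : Qb) * v ^ n) • h) - h := by
      rw [hsum2]; abel
    rw [e0, Pi.sub_apply, Pi.sub_apply, map_sub]
    congr 1
    · rw [Finset.sum_apply, Finset.sum_apply, map_sum]
      refine Finset.sum_congr rfl fun u _ => ?_
      rw [Pi.smul_apply, Pi.smul_apply, smul_eq_mul, smul_eq_mul, map_mul, (hwv u).2 ι hι,
        (equivariant_iff hone hmul ι _).mpr (hTG u ι) m]
    · exact hH.equiv _ hh ⟨ι, hι⟩ m
  have hErrA : ∀ m, ∃ a ∈ A, Err m = (ℓ : Qb) ^ k * a := by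
    intro m
    have h1 : ∀ c ∈ Finset.univ.filter (fun c : Gq ⧸ U => ¬ good c), ∃ a ∈ A,
        (((v ^ n)⁻¹ * (c.out v ^ n * ∑ u ∈ s, w u * c.out (u : Qb))) • star act c.out h) m =
          (ℓ : Qb) ^ k * a := by
      intro c hc
      obtain ⟨a, ha, hca⟩ := hn2 c m (Finset.mem_filter.mp hc).2
      refine ⟨(v ^ n)⁻¹ * a, mul_mem ?_ ha, ?_⟩
      · rw [← inv_pow]
        exact pow_mem hvinv.1 n
      · rw [Pi.smul_apply, smul_eq_mul, star_apply, mul_assoc, mul_assoc, mul_left_comm _ _ a, ← hca]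
    choose! a ha ha' using h1
    refine ⟨∑ c ∈ Finset.univ.filter (fun c : Gq ⧸ U => ¬ good c), a c, sum_mem ha, ?_⟩
    rw [hErr, Finset.sum_apply, Finset.mul_sum]
    exact Finset.sum_congr rfl ha'
  obtain ⟨c, hc⟩ := exists_coords he Err
  have hcW : ∀ i, c i ∈ inertiaRing A := by
    intro i
    refine ⟨?_, fun ι hι => ?_⟩
    · have h1 := hek (fun i => ((ℓ : Qb) ^ k)⁻¹ * c i) (by
        intro m
        obtain ⟨a, ha, hEa⟩ := hErrA m
        have e1 : (∑ i, (((ℓ : Qb) ^ k)⁻¹ * c i) • e i) m = ((ℓ : Qb) ^ k)⁻¹ * Err m := by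
          rw [hc, Finset.sum_apply, Finset.sum_apply, Finset.mul_sum]
          refine Finset.sum_congr rfl fun i _ => ?_
          rw [Pi.smul_apply, Pi.smul_apply, smul_eq_mul, smul_eq_mul, mul_assoc]
        rw [e1, hEa, inv_mul_cancel_left₀ (pow_ne_zero _ hℓ0)]
        exact ha) i
      rwa [mul_inv_cancel_left₀ (pow_ne_zero _ hℓ0)] at h1
    · exact coeff_fixed ((ι : Qb ≃+* Qb)) (act_surjective hone hmul ι) he
        (fun i m => heG i ι m) (fun m => hErrι ι hι m) hc i
  have hfinal : h = ∑ u ∈ s, (⟨w u * (v ^ n)⁻¹, hwv u⟩ : inertiaRing A) •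
      trc act U (((u : Qb) * v ^ n) • h) - ∑ i, (⟨c i, hcW i⟩ : inertiaRing A) • e i := by
    have e1 : ∑ i, (⟨c i, hcW i⟩ : inertiaRing A) • e i = Err := hc.symm
    have e2 : ∑ u ∈ s, (⟨w u * (v ^ n)⁻¹, hwv u⟩ : inertiaRing A) •
      trc act U (((u : Qb) * v ^ n) • h) = h + Err := hsum2
    rw [e1, e2]; abel
  rw [hfinal]
  refine sub_mem (sum_mem fun u hu => ?_) (sum_mem fun i _ => ?_)
  · refine Submodule.smul_mem _ _ (Submodule.subset_span ⟨hTH u hu, fun σ => ?_⟩)
    exact (equivariant_iff hone hmul σ _).mpr (hTG u σ)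
  · exact Submodule.smul_mem _ _ (Submodule.subset_span ⟨heH i, heG i⟩)

end Main

section Final

open H19

theorem coe_mem_of_mem_Zl {ℓ : ℕ} (hℓ : ℓ.Prime) {A : ValuationSubring Qb}
    (hA : A.LiesOverPrime ℓ) {x : ℚ} (hx : x ∈ Zl ℓ) : (x : Qb) ∈ A := by
  have h1 : ((x.den : ℤ) : Qb) ∉ A.nonunits := by
    intro h
    rw [H54.intCast_mem_nonunits_iff hℓ hA, Int.natCast_dvd_natCast] at h
    have := Nat.Coprime.eq_one_of_dvd (Nat.Coprime.symm (mem_Zl_iff.mp hx)) h
    exact hℓ.one_lt.ne' this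
  have h2 := inv_mem_of_not_mem_nonunits h1
  have h3 : (x : Qb) = ((x.num : ℤ) : Qb) * ((x.den : ℤ) : Qb)⁻¹ := by
    conv_lhs => rw [← Rat.num_div_den x]
    push_cast
    rw [div_eq_mul_inv]
  rw [h3]
  exact mul_mem (intCast_mem A _) h2

theorem Zl_smul_def {ℓ : ℕ} (q : Zl ℓ) (x : Qb) : q • x = ((q : ℚ) : Qb) * x := by
  rw [Algebra.smul_def]
  rfl

theorem hasFlatModel_of_local {ℓ : ℕ} [hℓ : Fact ℓ.Prime]
    (A : ValuationSubring (AlgebraicClosure ℚ)) (hA : A.LiesOverPrime ℓ)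
    {M : Type} [AddCommGroup M] [Finite M]
    (act : (AlgebraicClosure ℚ ≃ₐ[ℚ] AlgebraicClosure ℚ) → M → M)
    (hone : ∀ m, act 1 m = m) (hmul : ∀ σ τ m, act (σ * τ) m = act σ (act τ m))
    (hadd : ∀ σ m m', act σ (m + m') = act σ m + act σ m')
    (hopen : ∃ E : IntermediateField ℚ (AlgebraicClosure ℚ), FiniteDimensional ℚ E ∧
      ∀ σ : AlgebraicClosure ℚ ≃ₐ[ℚ] AlgebraicClosure ℚ, (∀ x ∈ E, σ x = x) → ∀ m, act σ m = m)
    (H : Subring (M → AlgebraicClosure ℚ))
    (hH : IsAnAlg A (fun σ : A.inertiaSubgroupIn ℚ =>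
        ((σ : AlgebraicClosure ℚ ≃ₐ[ℚ] AlgebraicClosure ℚ) :
          AlgebraicClosure ℚ ≃+* AlgebraicClosure ℚ)) (fun σ => act σ) H)
    (hcomul : ∀ f ∈ H, ∃ (n : ℕ) (a b : Fin n → M → AlgebraicClosure ℚ),
      (∀ i, a i ∈ H) ∧ (∀ i, b i ∈ H) ∧ ∀ m m', f (m + m') = ∑ i, a i m * b i m')
    (hdec : ∀ σ ∈ A.decompositionSubgroup ℚ, ∀ f ∈ H, (fun m => σ (f (act σ⁻¹ m))) ∈ H) :
    HasFlatModel (Zl ℓ) ℚ (AlgebraicClosure ℚ) M act := by
  classical
  have := Fintype.ofFinite M
  have hℓ0 : (ℓ : Qb) ≠ 0 := Nat.cast_ne_zero.mpr hℓ.out.ne_zero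
  have hact := act_surjective hone hmul
  obtain ⟨n₀, hclo⟩ := exists_closure hone hmul hℓ.out hA hH
  -- a basis of equivariant functions in `H`
  obtain ⟨e₀, he₀, he₀G⟩ := exists_basis_of_span (span_equivariant hone hmul hopen)
  have hscale : ∃ r : ℕ, ∀ i m, (ℓ : Qb) ^ r * e₀ i m ∈ A := by
    have h1 : ∀ x : Qb, ∃ r : ℕ, (ℓ : Qb) ^ r * x ∈ A := by
      intro x
      by_cases hx : x = 0
      · exact ⟨0, by rw [hx, mul_zero]; exact zero_mem A⟩
      · obtain ⟨r, a, ha, hra⟩ := exists_pow_eq_mul hℓ.out hA (inv_ne_zero hx)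
        refine ⟨r, ?_⟩
        rw [hra]
        have : x⁻¹ * a * x = a := by field_simp
        rw [this]
        exact ha
    choose r hr using h1
    refine ⟨∑ i, ∑ m, r (e₀ i m), fun i m => ?_⟩
    have h2 : r (e₀ i m) ≤ ∑ i, ∑ m, r (e₀ i m) :=
      (Finset.single_le_sum (f := fun m => r (e₀ i m)) (fun _ _ => Nat.zero_le _)
        (Finset.mem_univ m)).trans
      (Finset.single_le_sum (f := fun i => ∑ m, r (e₀ i m)) (fun _ _ => Nat.zero_le _)
        (Finset.mem_univ i))
    rw [← Nat.sub_add_cancel h2, pow_add, mul_assoc]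
    exact mul_mem (pow_mem (natCast_mem A ℓ) _) (hr _)
  obtain ⟨r, hr⟩ := hscale
  let e : M → (M → Qb) := fun i => ((ℓ : Qb) ^ n₀ * (ℓ : Qb) ^ r) • e₀ i
  have hc0 : (ℓ : Qb) ^ n₀ * (ℓ : Qb) ^ r ≠ 0 := mul_ne_zero (pow_ne_zero _ hℓ0) (pow_ne_zero _ hℓ0)
  have he : LinearIndependent Qb e := by
    have := he₀.units_smul fun _ => Units.mk0 _ hc0
    exact this
  have heG : ∀ i σ m, e i (act σ m) = σ (e i m) := by
    intro i σ m
    simp only [e, Pi.smul_apply, smul_eq_mul, map_mul, map_pow, map_natCast]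
    rw [he₀G i σ m]
  have heH : ∀ i, e i ∈ H := by
    intro i
    have h1 := hclo ((ℓ : Qb) ^ r • e₀ i) (fun m => hr i m) (by
      intro ι _ m
      simp only [Pi.smul_apply, smul_eq_mul, map_mul, map_pow, map_natCast]
      rw [he₀G i ι m])
    rw [smul_smul] at h1
    exact h1
  obtain ⟨δ, hδ, hδA⟩ := exists_cramer A he (fun i m => hH.int _ (heH i) m)
  obtain ⟨k, a, ha, hka⟩ := exists_pow_eq_mul hℓ.out hA hδ
  have hek : ∀ c : M → Qb, (∀ m, (∑ i, c i • e i) m ∈ A) → ∀ i, (ℓ : Qb) ^ k * c i ∈ A := by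
    intro c hc i
    rw [hka, mul_comm δ a, mul_assoc]
    exact mul_mem ha (hδA c hc i)
  have hkey : ∀ h ∈ H, h ∈ Submodule.span (inertiaRing A)
      {f : M → Qb | f ∈ H ∧ ∀ σ m, f (act σ m) = σ (f m)} := fun h hh =>
    mem_span hone hmul hopen hℓ.out hA hH hdec hclo he heH heG hek hh
  -- the order
  let H₀ : Subalgebra (Zl ℓ) (M → Qb) :=
    { carrier := {f : M → Qb | f ∈ H ∧ ∀ σ m, f (act σ m) = σ (f m)}
      mul_mem' := fun ha hb => ⟨mul_mem ha.1 hb.1, fun σ m => by
        rw [Pi.mul_apply, Pi.mul_apply, map_mul, ha.2, hb.2]⟩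
      add_mem' := fun ha hb => ⟨add_mem ha.1 hb.1, fun σ m => by
        rw [Pi.add_apply, Pi.add_apply, map_add, ha.2, hb.2]⟩
      algebraMap_mem' := fun x => by
        have h1 : algebraMap (Zl ℓ) (M → Qb) x = fun _ => ((x : ℚ) : Qb) := rfl
        rw [h1]
        exact ⟨hH.const _ (coe_mem_of_mem_Zl hℓ.out hA x.2) fun ι => map_ratCast _ _,
          fun σ m => (map_ratCast σ _).symm⟩ }
  have hH₀ : ∀ f, f ∈ H₀ ↔ f ∈ H ∧ ∀ σ m, f (act σ m) = σ (f m) := fun f => Iff.rfl
  -- finite generation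
  have hfg : (Subalgebra.toSubmodule H₀).FG := by
    let T : Submodule (Zl ℓ) (M → Qb) :=
      Submodule.span (Zl ℓ) (Set.range fun i => ((ℓ : Qb) ^ k)⁻¹ • e i)
    have hT : T.FG := Submodule.fg_span (Set.finite_range _)
    refine Submodule.FG.of_le hT ?_
    intro f hf
    obtain ⟨c, hc⟩ := exists_coords he f
    have hq : ∀ i, ∃ q : Zl ℓ, ((q : ℚ) : Qb) = (ℓ : Qb) ^ k * c i := by
      intro i
      have h1 : ∀ σ : Gq, σ ((ℓ : Qb) ^ k * c i) = (ℓ : Qb) ^ k * c i := by
        intro σ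
        rw [map_mul, map_pow, map_natCast]
        congr 1
        exact coeff_fixed ((σ : Qb ≃+* Qb)) (hact σ) he (fun i m => heG i σ m)
          (fun m => hf.2 σ m) hc i
      obtain ⟨q, hq⟩ := (InfiniteGalois.mem_range_algebraMap_iff_fixed _).mpr h1
      have hq' : (q : Qb) = (ℓ : Qb) ^ k * c i := by
        rw [← hq]; rfl
      refine ⟨⟨q, mem_Zl_of_mem hA ?_⟩, hq'⟩
      rw [hq']
      exact hek c (by rw [← hc]; exact hH.int _ hf.1) i
    choose q hq using hq
    have h2 : f = ∑ i, q i • (((ℓ : Qb) ^ k)⁻¹ • e i) := by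
      rw [hc]
      refine Finset.sum_congr rfl fun i _ => ?_
      funext m
      rw [Pi.smul_apply, Pi.smul_apply, Pi.smul_apply, Zl_smul_def, smul_eq_mul, smul_eq_mul, hq]
      field_simp
    rw [h2]
    exact Submodule.sum_mem _ fun i _ =>
      Submodule.smul_mem _ _ (Submodule.subset_span ⟨i, rfl⟩)
  have hfinite : Module.Finite (Zl ℓ) H₀ := Module.Finite.iff_fg.mpr hfg
  have := faithfulSMul_of_fractionRing (Zl ℓ) ℚ Qb
  have := isTorsionFree_subalgebra H₀
  have hfree : Module.Free (Zl ℓ) H₀ := inferInstance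
  let B := Module.finBasis (Zl ℓ) H₀
  set N := Module.finrank (Zl ℓ) H₀ with hN
  have hBlin : LinearIndependent Qb (fun i => (B i : M → Qb)) := by
    refine linearIndependent_of_equivariant act hact _ (fun i σ m => (B i).2.2 σ m) ?_
    rw [← LinearIndependent.iff_fractionRing (Zl ℓ) ℚ]
    exact B.linearIndependent.map' (H₀.toSubmodule.subtype) (Submodule.ker_subtype _)
  have hcoords : ∀ h ∈ H, ∃ c : Fin N → Qb, (∀ i, c i ∈ inertiaRing A) ∧
      h = ∑ i, c i • (B i : M → Qb) := by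
    intro h hh
    have h1 : Submodule.span (inertiaRing A)
        {f : M → Qb | f ∈ H ∧ ∀ σ m, f (act σ m) = σ (f m)} ≤
        Submodule.span (inertiaRing A) (Set.range fun i => (B i : M → Qb)) := by
      rw [Submodule.span_le]
      intro f hf
      have h2 := B.sum_repr ⟨f, hf⟩
      have h3 : f = ∑ i, (B.repr ⟨f, hf⟩ i) • (B i : M → Qb) := by
        have h5 := congrArg Subtype.val h2
        refine h5.symm.trans ?_
        exact (map_sum H₀.val _ _).trans (Finset.sum_congr rfl fun i _ => map_smul H₀.val _ _)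
      rw [SetLike.mem_coe, h3]
      refine Submodule.sum_mem _ fun i _ => ?_
      have h4 : (B.repr ⟨f, hf⟩ i) • (B i : M → Qb) =
          (⟨(((B.repr ⟨f, hf⟩ i) : ℚ) : Qb),
            coe_mem_of_mem_Zl hℓ.out hA (B.repr ⟨f, hf⟩ i).2,
            fun ι _ => map_ratCast ι _⟩ : inertiaRing A) • (B i : M → Qb) := by
        funext m
        rw [Pi.smul_apply, Zl_smul_def]
        rfl
      rw [h4]
      exact Submodule.smul_mem _ _ (Submodule.subset_span ⟨i, rfl⟩)
    obtain ⟨c, hc⟩ := (Submodule.mem_span_range_iff_exists_fun _).mp (h1 (hkey h hh))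
    exact ⟨fun i => (c i : Qb), fun i => (c i).2, hc.symm⟩
  have hflat : IsFlatOrder (Zl ℓ) ℚ Qb act H₀ := by
    refine ⟨hfg, fun f hf => hf.2, ?_, ?_⟩
    · intro m m' hmm
      refine hH.sep m m' fun f hf => ?_
      obtain ⟨c, -, hc⟩ := hcoords f hf
      rw [hc, Finset.sum_apply, Finset.sum_apply]
      refine Finset.sum_congr rfl fun i _ => ?_
      rw [Pi.smul_apply, Pi.smul_apply, hmm _ (B i).2]
    · intro f hf
      obtain ⟨n, a, b, ha, hb, hab⟩ := hcomul f hf.1
      choose α hαW hα using fun i => hcoords (a i) (ha i)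
      choose β hβW hβ using fun i => hcoords (b i) (hb i)
      let w : Fin N × Fin N → Qb := fun p => ∑ i, α i p.1 * β i p.2
      have hwW : ∀ p, w p ∈ inertiaRing A := fun p =>
        sum_mem fun i _ => mul_mem (hαW i _) (hβW i _)
      have hprod := linearIndependent_prod hBlin hBlin
      have hw : (fun p : M × M => f (p.1 + p.2)) =
          ∑ p : Fin N × Fin N, w p • (fun q : M × M => (B p.1 : M → Qb) q.1 * (B p.2 : M → Qb) q.2) := by
        funext q
        rw [hab, Finset.sum_apply]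
        simp only [Pi.smul_apply, smul_eq_mul, w, Finset.sum_mul]
        rw [Finset.sum_comm]
        refine Finset.sum_congr rfl fun i _ => ?_
        rw [hα i, hβ i, Finset.sum_apply, Finset.sum_apply, Finset.sum_mul_sum,
          Fintype.sum_prod_type]
        refine Finset.sum_congr rfl fun j _ => Finset.sum_congr rfl fun j' _ => ?_
        simp only [Pi.smul_apply, smul_eq_mul]
        ring
      have hwfix : ∀ p (σ : Gq), σ (w p) = w p := by
        intro p σ
        refine coeff_fixed (M := M × M) (σ : Qb ≃+* Qb) (τ := Prod.map (act σ) (act σ))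
          ((hact σ).prodMap (hact σ)) hprod ?_ ?_ hw p
        · intro p q
          change (B p.1 : M → Qb) (act σ q.1) * (B p.2 : M → Qb) (act σ q.2) =
            σ ((B p.1 : M → Qb) q.1 * (B p.2 : M → Qb) q.2)
          rw [(B p.1).2.2, (B p.2).2.2, map_mul]
        · intro q
          change f (act σ q.1 + act σ q.2) = σ (f (q.1 + q.2))
          rw [← hadd, hf.2]
      have hwq : ∀ p, ∃ q : Zl ℓ, ((q : ℚ) : Qb) = w p := by
        intro p
        obtain ⟨q, hq⟩ := (InfiniteGalois.mem_range_algebraMap_iff_fixed _).mpr (hwfix p)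
        have hq' : (q : Qb) = w p := by rw [← hq]; rfl
        refine ⟨⟨q, mem_Zl_of_mem hA ?_⟩, hq'⟩
        rw [hq']
        exact (hwW p).1
      choose q hq using hwq
      refine ⟨N, fun j => (B j : M → Qb), fun j => ∑ j', q (j, j') • (B j' : M → Qb),
        fun j => (B j).2, fun j => ?_, fun m m' => ?_⟩
      · exact Subalgebra.sum_mem _ fun j' _ => Subalgebra.smul_mem _ (B j').2 _
      · have h1 := congrFun hw (m, m')
        simp only at h1
        rw [h1, Finset.sum_apply, Fintype.sum_prod_type]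
        refine Finset.sum_congr rfl fun j _ => ?_
        change _ = (B j : M → Qb) m * (∑ j', q (j, j') • (B j' : M → Qb)) m'
        rw [Finset.sum_apply, Finset.mul_sum]
        refine Finset.sum_congr rfl fun j' _ => ?_
        rw [Pi.smul_apply, Pi.smul_apply, Zl_smul_def, smul_eq_mul, hq]
        ring
  exact hflat.hasFlatModel

end Final

end Fermat.Agent.H43
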