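import Fermat.Agent.H94Divisors
import Fermat.Prelude.Def_AlgebraicCurve_CanonicalDivisor
set_option autoImplicit false

/-!
# Differentials of function fields (helper94)
-/

noncomputable section

open AlgebraicCurve IsDedekindDomain WithZero IntermediateField KaehlerDifferential
open scoped IntermediateField.algebraAdjoinAdjoin

namespace Fermat.Agent.H94
variable {K F : Type*} [Field K] [Field F] [Algebra K F]

/-- A `K`-derivation of `F` killing `x` vanishes, if `F/K(x)` is separable algebraic. -/
theorem derivation_eq_zero {x : F} [Algebra.IsSeparable K⟮x⟯ F] {M : Type*} [AddCommGroup M]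
    [Module F M] [Module K M] [IsScalarTower K F M] (d : Derivation K F M) (hd : d x = 0) :
    d = 0 := by
  have hvan : ∀ z ∈ K⟮x⟯, d z = 0 := by
    intro z hz
    induction hz using IntermediateField.adjoin_induction with
    | mem y hy =>
      rw [Set.mem_singleton_iff] at hy
      rw [hy, hd]
    | algebraMap a => exact d.map_algebraMap a
    | add a b _ _ ha hb => rw [map_add, ha, hb, add_zero]
    | inv a _ ha => rw [Derivation.leibniz_inv, ha, smul_zero]
    | mul a b _ _ ha hb => rw [Derivation.leibniz, ha, hb, smul_zero, smul_zero, add_zero]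
  have : IsScalarTower K⟮x⟯ F M := IsScalarTower.of_algebraMap_smul fun _ _ => rfl
  let d' : Derivation K⟮x⟯ F M :=
    { toFun := d
      map_add' := map_add d
      map_smul' := fun z f => by
        show d (z • f) = (z : F) • d f
        rw [Algebra.smul_def, Derivation.leibniz]
        show (z : F) • d f + f • d (z : F) = (z : F) • d f
        rw [hvan z z.2, smul_zero, add_zero]
      map_one_eq_zero' := d.map_one_eq_zero
      leibniz' := d.leibniz }
  have hfu : Algebra.FormallyUnramified K⟮x⟯ F := Algebra.FormallyUnramified.of_isSeparable _ _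
  have hd' : d' = 0 := by
    have h1 : d' = (d'.liftKaehlerDifferential).compDer (D K⟮x⟯ F) :=
      (d'.liftKaehlerDifferential_comp).symm
    have h2 : d'.liftKaehlerDifferential = 0 := LinearMap.ext fun ω => by
      rw [Subsingleton.elim ω 0, map_zero, LinearMap.zero_apply]
    rw [h1, h2]
    exact Derivation.ext fun f => rfl
  exact Derivation.ext fun f => DFunLike.congr_fun hd' f

theorem span_D_eq_top [CharZero K] [FunField K F] {x : F} (hx : Transcendental K x) :
    Submodule.span F {D K F x} = ⊤ := by
  have := FunField.finiteDimensional (F := F) hx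
  have hsep := isSeparable_adjoin (K := K) (x := x)
  have h := derivation_eq_zero (x := x)
    ((Submodule.mkQ (Submodule.span F {D K F x})).compDer (D K F)) (by
      show Submodule.mkQ _ (D K F x) = 0
      rw [Submodule.mkQ_apply, Submodule.Quotient.mk_eq_zero]
      exact Submodule.mem_span_singleton_self _)
  rw [eq_top_iff, ← KaehlerDifferential.span_range_derivation, Submodule.span_le]
  rintro _ ⟨f, rfl⟩
  have := DFunLike.congr_fun h f
  have h2 : Submodule.mkQ (Submodule.span F {D K F x}) (D K F f) = 0 := this
  rwa [Submodule.mkQ_apply, Submodule.Quotient.mk_eq_zero] at h2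

theorem essFiniteType [FunField K F] : Algebra.EssFiniteType K F := by
  obtain ⟨x, hx, hfin⟩ := FunField.out (K := K) (F := F)
  have h1 : Algebra.EssFiniteType K K⟮x⟯ := by
    rw [IntermediateField.essFiniteType_iff]
    exact ⟨{x}, by simp⟩
  exact Algebra.EssFiniteType.comp K K⟮x⟯ F

theorem D_ne_zero [CharZero K] [FunField K F] {x : F} (hx : Transcendental K x) :
    D K F x ≠ 0 := by
  intro h0
  have h1 := span_D_eq_top (F := F) hx
  rw [h0, Submodule.span_zero_singleton] at h1
  have h2 : Subsingleton Ω[F⁄K] := by
    rw [← Submodule.subsingleton_iff F]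
    exact subsingleton_of_bot_eq_top h1
  have h3 : Algebra.FormallyUnramified K F := ⟨h2⟩
  have := essFiniteType (K := K) (F := F)
  have h4 : Algebra.IsSeparable K F := Algebra.FormallyUnramified.isSeparable K F
  exact hx (Algebra.IsAlgebraic.isAlgebraic x)

theorem nontrivial_kaehler [CharZero K] [FunField K F] : Nontrivial Ω[F⁄K] := by
  obtain ⟨x, hx, -⟩ := FunField.out (K := K) (F := F)
  exact ⟨⟨_, _, D_ne_zero hx⟩⟩

theorem finrank_kaehler [CharZero K] [FunField K F] : Module.finrank F Ω[F⁄K] = 1 := by
  obtain ⟨x, hx, -⟩ := FunField.out (K := K) (F := F)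
  exact finrank_eq_one (D K F x) (D_ne_zero hx) fun w => by
    have : w ∈ Submodule.span F {D K F x} := span_D_eq_top hx ▸ Submodule.mem_top
    exact Submodule.mem_span_singleton.mp this

variable (K F) in
theorem isCurveOver [CharZero K] [IsAlgClosed K] [FunField K F] : IsCurveOver K F where
  toHasPrincipalDivisors := hasPrincipalDivisors K F
  finiteResidue v := finite_residueField v
  kaehler_free_rank_one := ⟨Module.Free.of_divisionRing F _, finrank_kaehler⟩

end Fermat.Agent.H94
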