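import Mathlib
import Fermat.Agent.H95Defs
import Fermat.Agent.H95W1

/-!
# S27, module M4 : Frobenius on a model (helper1)
-/

set_option autoImplicit false

namespace Fermat.Agent.H1

open Fermat.Agent.H95
open scoped nonZeroDivisors
open Polynomial

section weights

variable {K : Type*} {B : Type*} [Field K] [CommRing B] [Algebra K B] {wt : B → WithBot ℕ}

theorem wt_pow' (hw : IsWeight K wt) {f : B} {a : ℕ} (hf : wt f = (a : WithBot ℕ)) (n : ℕ) :
    wt (f ^ n) = ((a * n : ℕ) : WithBot ℕ) := by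
  induction n with
  | zero => simpa using hw.wt_one
  | succ n ih =>
    rw [pow_succ, hw.mul, ih, hf, mul_add, mul_one]
    push_cast
    rfl

theorem wt_aeval' (hw : IsWeight K wt) {x : B} {a : ℕ} (ha : 0 < a)
    (hx : wt x = (a : WithBot ℕ)) {u : K[X]} (hu : u ≠ 0) :
    wt (aeval x u) = ((a * u.natDegree : ℕ) : WithBot ℕ) := by
  rw [aeval_eq_sum_range, Finset.sum_range_succ, add_comm]
  have h1 : wt (u.coeff u.natDegree • x ^ u.natDegree) = ((a * u.natDegree : ℕ) : WithBot ℕ) := by
    rw [hw.wt_smul (by simpa using hu), wt_pow' hw hx]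
  rw [hw.wt_add_eq_of_lt, h1]
  rw [h1]
  apply hw.wt_sum_lt
  intro i hi
  refine (hw.wt_smul_le _ _).trans_lt ?_
  rw [wt_pow' hw hx]
  have : a * i < a * u.natDegree := Nat.mul_lt_mul_of_pos_left (Finset.mem_range.1 hi) ha
  exact_mod_cast this

end weights

section model

variable {s : Shape} {K B : Type*} [Field K] [CommRing B] [Algebra K B]
  {wt : B → WithBot ℕ} {c : s.Idx → K} {x : B} {y : Fin s.a → B}

theorem a_pos (s : Shape) : 0 < s.a := Nat.pos_of_ne_zero (NeZero.ne s.a)

theorem wt_term (h : s.IsModel c wt x y) {k : Fin s.a} {u : K[X]} (hu : u ≠ 0) :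
    wt (aeval x u * y k) = ((s.a * u.natDegree + s.w k : ℕ) : WithBot ℕ) := by
  rw [h.isWeight.mul, wt_aeval' h.isWeight (a_pos s) h.wt_x hu, h.wt_y]
  push_cast
  rfl

theorem wt_sum_cases (h : s.IsModel c wt x y) (S : Finset (Fin s.a)) (u : Fin s.a → K[X]) :
    (∑ k ∈ S, aeval x (u k) * y k) = 0 ∨
      ∃ k ∈ S, ∃ j : ℕ, wt (∑ k ∈ S, aeval x (u k) * y k) =
        ((s.a * j + s.w k : ℕ) : WithBot ℕ) := by
  classical
  induction S using Finset.induction_on with
  | empty => left; simp
  | insert a S ha ih =>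
    rw [Finset.sum_insert ha]
    by_cases hu : u a = 0
    · rw [hu, map_zero, zero_mul, zero_add]
      rcases ih with ih | ⟨k, hk, j, ih⟩
      · exact Or.inl ih
      · exact Or.inr ⟨k, Finset.mem_insert_of_mem hk, j, ih⟩
    · have h1 := wt_term h (k := a) hu
      rcases ih with ih | ⟨k, hk, j, ih⟩
      · right
        refine ⟨a, Finset.mem_insert_self _ _, (u a).natDegree, ?_⟩
        rw [ih, add_zero, h1]
      · right
        have hne : s.a * (u a).natDegree + s.w a ≠ s.a * j + s.w k := by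
          intro heq
          have hmod : s.w a ≡ s.w k [MOD s.a] := by
            have h3 : s.a * (u a).natDegree + s.w a ≡ s.a * j + s.w k [MOD s.a] := by rw [heq]
            unfold Nat.ModEq at h3 ⊢
            rwa [Nat.mul_add_mod, Nat.mul_add_mod] at h3
          have := s.w_inj _ _ hmod
          rw [this] at ha
          exact ha hk
        rcases lt_or_gt_of_ne hne with hlt | hlt
        · refine ⟨k, Finset.mem_insert_of_mem hk, j, ?_⟩
          rw [add_comm, h.isWeight.wt_add_eq_of_lt, ih]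
          rw [h1, ih]
          exact_mod_cast hlt
        · refine ⟨a, Finset.mem_insert_self _ _, (u a).natDegree, ?_⟩
          rw [h.isWeight.wt_add_eq_of_lt, h1]
          rw [h1, ih]
          exact_mod_cast hlt

theorem exists_of_mem_wts (h : s.IsModel c wt x y) {n : ℕ} (hn : n ∈ wts wt Set.univ) :
    ∃ (k : Fin s.a) (j : ℕ), n = s.a * j + s.w k := by
  obtain ⟨f, -, hf⟩ := hn
  obtain ⟨u, rfl⟩ := h.bijective.2 f
  rcases wt_sum_cases h Finset.univ u with h0 | ⟨k, -, j, hk⟩
  · exact absurd h0 (h.isWeight.ne_zero_of_wt hf)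
  · refine ⟨k, j, ?_⟩
    have hf' := hf
    simp only at hf'
    rw [hk] at hf'
    exact_mod_cast hf'.symm

/-- `Φ` as an additive equivalence. -/
noncomputable def modelEquiv (h : s.IsModel c wt x y) : (Fin s.a → K[X]) ≃+ B where
  toEquiv := Equiv.ofBijective _ h.bijective
  map_add' u v := by
    show (∑ k, aeval x ((u + v) k) * y k) = (∑ k, aeval x (u k) * y k) + ∑ k, aeval x (v k) * y k
    rw [← Finset.sum_add_distrib]
    exact Finset.sum_congr rfl fun k _ => by rw [Pi.add_apply, map_add, add_mul]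

theorem modelEquiv_apply (h : s.IsModel c wt x y) (u : Fin s.a → K[X]) :
    modelEquiv h u = ∑ k, aeval x (u k) * y k := rfl

theorem modelEquiv_mul (h : s.IsModel c wt x y) (u v : Fin s.a → K[X]) :
    modelEquiv h u * modelEquiv h v = modelEquiv h (s.tmul c u v) := by
  simp only [modelEquiv_apply]
  rw [Finset.sum_mul_sum]
  have : ∀ i j : Fin s.a, aeval x (u i) * y i * (aeval x (v j) * y j) =
      ∑ k, aeval x (u i * v j * s.C c i j k) * y k := by
    intro i j
    calc aeval x (u i) * y i * (aeval x (v j) * y j)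
        = aeval x (u i) * aeval x (v j) * (y i * y j) := by ring
      _ = _ := by
        rw [h.mul, Finset.mul_sum]
        exact Finset.sum_congr rfl fun k _ => by rw [map_mul, map_mul]; ring
  simp only [this]
  rw [show (∑ k, aeval x (s.tmul c u v k) * y k) =
    ∑ k, ∑ i, ∑ j, aeval x (u i * v j * s.C c i j k) * y k from
      Finset.sum_congr rfl fun k _ => by
        rw [Shape.tmul, map_sum, Finset.sum_mul]
        exact Finset.sum_congr rfl fun i _ => by rw [map_sum, Finset.sum_mul]]
  rw [Finset.sum_comm]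
  rw [Finset.sum_comm (s := (Finset.univ : Finset (Fin s.a)))
    (f := fun k i => ∑ j, aeval x (u i * v j * s.C c i j k) * y k)]
  rw [Finset.sum_comm]
  refine Finset.sum_congr rfl fun i _ => ?_
  rw [Finset.sum_comm]

theorem modelEquiv_smul (h : s.IsModel c wt x y) (t : K) (u : Fin s.a → K[X]) :
    modelEquiv h (fun k => Polynomial.C t * u k) = t • modelEquiv h u := by
  simp only [modelEquiv_apply]
  rw [Finset.smul_sum]
  exact Finset.sum_congr rfl fun k _ => by
    rw [map_mul, aeval_C, Algebra.smul_def, mul_assoc]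

end model

section frob

variable {s : Shape} {K B : Type*} [Field K] [IsAlgClosed K] [CommRing B] [Algebra K B]
  {wt : B → WithBot ℕ} {c : s.Idx → K} {x : B} {y : Fin s.a → B}

theorem frob_of_fixed (h : s.IsModel c wt x y) (p : ℕ) [Fact p.Prime] [CharP K p] (e : ℕ)
    (hc : ∀ i, c i ^ p ^ e = c i) : ∃ φ : B ≃+* B, IsFrob K (p ^ e) wt φ := by
  classical
  have : ExpChar K p := ExpChar.prime (Fact.out)
  let τ : K ≃+* K := iterateFrobeniusEquiv K p e
  have hτ : ∀ t, τ t = t ^ p ^ e := fun t => rfl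
  let σ : K[X] ≃+* K[X] := Polynomial.mapEquiv τ
  have hσ : ∀ u : K[X], σ u = u.map (τ : K →+* K) := fun u => rfl
  have hσC : ∀ i j k, σ (s.C c i j k) = s.C c i j k := by
    intro i j k
    rw [hσ, Shape.C, Polynomial.map_sum]
    refine Finset.sum_congr rfl fun e' _ => ?_
    rw [Polynomial.map_mul, Polynomial.map_pow, Polynomial.map_X, Polynomial.map_C]
    congr 2
    exact hc _
  let σ' : (Fin s.a → K[X]) ≃+ (Fin s.a → K[X]) := AddEquiv.piCongrRight fun _ => σ.toAddEquiv
  have hσ' : ∀ u k, σ' u k = σ (u k) := fun u k => rfl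
  let E := modelEquiv h
  let φ0 : B ≃+ B := (E.symm.trans σ').trans E
  have hφ0 : ∀ u, φ0 (E u) = E (σ' u) := by
    intro u
    show E (σ' (E.symm (E u))) = _
    rw [E.symm_apply_apply]
  have hmul : ∀ f g, φ0 (f * g) = φ0 f * φ0 g := by
    intro f g
    obtain ⟨u, rfl⟩ := E.surjective f
    obtain ⟨v, rfl⟩ := E.surjective g
    rw [hφ0, hφ0]
    show φ0 (modelEquiv h u * modelEquiv h v) = modelEquiv h (σ' u) * modelEquiv h (σ' v)
    rw [modelEquiv_mul, modelEquiv_mul]
    rw [show φ0 (modelEquiv h (s.tmul c u v)) = E (σ' (s.tmul c u v)) from hφ0 _]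
    congr 1
    funext k
    rw [hσ', Shape.tmul, Shape.tmul, map_sum]
    refine Finset.sum_congr rfl fun i _ => ?_
    rw [map_sum]
    refine Finset.sum_congr rfl fun j _ => ?_
    rw [map_mul, map_mul, hσC, hσ', hσ']
  let φ : B ≃+* B := { φ0 with map_mul' := hmul }
  have hφ : ∀ f, φ f = φ0 f := fun f => rfl
  refine ⟨φ, ?_, ?_⟩
  · intro t f
    obtain ⟨u, rfl⟩ := E.surjective f
    rw [hφ, hφ]
    rw [show t • E u = E (fun k => Polynomial.C t * u k) from (modelEquiv_smul h t u).symm]
    rw [hφ0, hφ0]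
    rw [show t ^ p ^ e • E (σ' u) = E (fun k => Polynomial.C (t ^ p ^ e) * (σ' u) k) from
      (modelEquiv_smul h _ _).symm]
    congr 1
    funext k
    rw [hσ', hσ', map_mul]
    congr 1
    rw [hσ, Polynomial.map_C]
    rfl
  · intro n hn
    obtain ⟨k, j, rfl⟩ := exists_of_mem_wts h hn
    have hE : E (Pi.single k (X ^ j)) = x ^ j * y k := by
      show (∑ l, aeval x ((Pi.single k (X ^ j) : Fin s.a → K[X]) l) * y l) = _
      rw [Finset.sum_eq_single k]
      · rw [Pi.single_eq_same, map_pow, aeval_X]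
      · intro l _ hl
        rw [Pi.single_eq_of_ne hl, map_zero, zero_mul]
      · intro hk
        exact absurd (Finset.mem_univ k) hk
    refine ⟨E (Pi.single k (X ^ j)), ?_, ?_⟩
    · rw [hE, h.isWeight.mul, wt_pow' h.isWeight h.wt_x, h.wt_y]
      push_cast
      rfl
    · rw [hφ, hφ0]
      congr 1
      funext l
      rw [hσ']
      by_cases hl : l = k
      · subst hl
        rw [Pi.single_eq_same, hσ, Polynomial.map_pow, Polynomial.map_X]
      · rw [Pi.single_eq_of_ne hl, map_zero]

theorem exists_frob (h : s.IsModel c wt x y) (p : ℕ) [Fact p.Prime] [CharP K p]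
    (hK : ∀ c : K, ∃ m, 0 < m ∧ c ^ p ^ m = c) :
    ∃ e, 0 < e ∧ ∃ φ : B ≃+* B, IsFrob K (p ^ e) wt φ := by
  classical
  choose m hm0 hm using fun i => hK (c i)
  have key : ∀ (t : K) (m : ℕ), t ^ p ^ m = t → ∀ n, t ^ p ^ (m * n) = t := by
    intro t m ht n
    induction n with
    | zero => simp
    | succ n ih => rw [mul_add, mul_one, pow_add, pow_mul, ih, ht]
  refine ⟨∏ i, m i, Finset.prod_pos fun i _ => hm0 i, frob_of_fixed h p _ fun i => ?_⟩
  rw [← Finset.mul_prod_erase _ _ (Finset.mem_univ i)]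
  exact key _ _ (hm i) _

end frob

end Fermat.Agent.H1
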