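import Fermat.Agent.H95Defs
import Fermat.Agent.H95W1

/-!
# Smooth tables and Dedekind domains (helper3, S27-M3)
-/

set_option autoImplicit false
set_option linter.unusedSectionVars false

open Polynomial IsDedekindDomain
open scoped nonZeroDivisors
open Fermat.Agent.H95

namespace Fermat.Agent.H3S27

section Model

variable {s : Shape} {K B : Type*} [Field K] [CommRing B] [Algebra K B]
    {wt : B → WithBot ℕ} {c : s.Idx → K} {x : B} {y : Fin s.a → B}

/-- the coordinate isomorphism -/
noncomputable def coordL (x : B) (y : Fin s.a → B) : (Fin s.a → K[X]) →ₗ[K] B where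
  toFun u := ∑ k, aeval x (u k) * y k
  map_add' u v := by
    rw [← Finset.sum_add_distrib]
    exact Finset.sum_congr rfl fun k _ => by rw [Pi.add_apply, map_add, add_mul]
  map_smul' r u := by
    rw [RingHom.id_apply, Finset.smul_sum]
    exact Finset.sum_congr rfl fun k _ => by rw [Pi.smul_apply, map_smul, smul_mul_assoc]

noncomputable def coordE (h : s.IsModel c wt x y) : (Fin s.a → K[X]) ≃ₗ[K] B :=
  LinearEquiv.ofBijective (coordL x y) h.bijective

theorem coordE_apply (h : s.IsModel c wt x y) (u : Fin s.a → K[X]) :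
    coordE h u = ∑ k, aeval x (u k) * y k := rfl

/-- Induction principle: linear statements can be checked on `p(x) y_k`. -/
theorem model_induction (h : s.IsModel c wt x y) {P : B → Prop}
    (hadd : ∀ f g, P f → P g → P (f + g)) (hzero : P 0)
    (hbase : ∀ (p : K[X]) k, P (aeval x p * y k)) (f : B) : P f := by
  classical
  obtain ⟨u, rfl⟩ := (coordE h).surjective f
  rw [coordE_apply]
  exact Finset.sum_induction _ P hadd hzero fun k _ => hbase _ k

theorem mul_base (h : s.IsModel c wt x y) (p q : K[X]) (i j : Fin s.a) :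
    (aeval x p * y i) * (aeval x q * y j) =
      coordE h (fun k => p * q * s.C c i j k) := by
  rw [coordE_apply]
  calc _ = aeval x p * aeval x q * (y i * y j) := by ring
    _ = _ := by
      rw [h.mul, Finset.mul_sum]
      refine Finset.sum_congr rfl fun k _ => ?_
      rw [map_mul, map_mul]
      ring

/-- derivations at a point -/
structure IsDer (P : B →ₐ[K] K) (D : B →ₗ[K] K) : Prop where
  leibniz : ∀ f g, D (f * g) = P f * D g + P g * D f

theorem IsDer.map_one {P : B →ₐ[K] K} {D : B →ₗ[K] K} (hD : IsDer P D) : D 1 = 0 := by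
  have := hD.leibniz 1 1
  rw [mul_one, _root_.map_one P, one_mul] at this
  linear_combination -this

theorem IsDer.map_aeval {P : B →ₐ[K] K} {D : B →ₗ[K] K} (hD : IsDer P D) (p : K[X]) :
    D (aeval x p) = (derivative p).eval (P x) * D x := by
  induction p using Polynomial.induction_on with
  | C a =>
    rw [aeval_C, Algebra.algebraMap_eq_smul_one, map_smul, hD.map_one]
    simp
  | add p q hp hq =>
    rw [map_add, map_add, hp, hq, derivative_add, eval_add, add_mul]
  | monomial n a hn =>
    have h1 : (C a * X ^ (n + 1) : K[X]) = (C a * X ^ n) * X := by ring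
    have hP : P (aeval x (C a * X ^ n)) = (C a * X ^ n : K[X]).eval (P x) := by
      rw [← Polynomial.aeval_algHom_apply, Polynomial.coe_aeval_eq_eval]
    have h2 : derivative (C a * X ^ n * X : K[X]) =
        derivative (C a * X ^ n : K[X]) * X + C a * X ^ n := by
      rw [derivative_mul, derivative_X, mul_one]
    rw [h1, map_mul, aeval_X, hD.leibniz, hn, hP, h2, eval_add,
      eval_mul_X]
    ring

theorem algHom_aeval (P : B →ₐ[K] K) (p : K[X]) : P (aeval x p) = p.eval (P x) := by
  rw [← Polynomial.aeval_algHom_apply, Polynomial.coe_aeval_eq_eval]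

theorem IsDer.map_base {P : B →ₐ[K] K} {D : B →ₗ[K] K} (hD : IsDer P D) (p : K[X]) (f : B) :
    D (aeval x p * f) = (derivative p).eval (P x) * D x * P f + p.eval (P x) * D f := by
  rw [hD.leibniz, hD.map_aeval, algHom_aeval]
  ring

theorem isPoint_of_algHom (h : s.IsModel c wt x y) (P : B →ₐ[K] K) :
    s.IsPoint c (P x) (fun i => P (y i)) := by
  refine ⟨?_, fun i j => ?_⟩
  · show P (y 0) = 1
    rw [h.y_zero, map_one]
  · rw [← map_mul, h.mul, map_sum]
    refine Finset.sum_congr rfl fun k _ => ?_
    rw [map_mul, algHom_aeval]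

theorem isTangent_of_isDer (h : s.IsModel c wt x y) {P : B →ₐ[K] K} {D : B →ₗ[K] K}
    (hD : IsDer P D) : s.IsTangent c (P x) (fun i => P (y i)) (D x) (fun i => D (y i)) := by
  refine ⟨?_, fun i j => ?_⟩
  · show D (y 0) = 0
    rw [h.y_zero, hD.map_one]
  · have h1 : D (y i * y j) = D (y i) * P (y j) + P (y i) * D (y j) := by
      rw [hD.leibniz]; ring
    rw [← h1, h.mul, map_sum]
    refine Finset.sum_congr rfl fun k _ => ?_
    rw [hD.map_base]

/-- the functional attached to values -/
noncomputable def evalL (x₀ : K) (η : Fin s.a → K) : (Fin s.a → K[X]) →ₗ[K] K where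
  toFun u := ∑ k, (u k).eval x₀ * η k
  map_add' u v := by
    rw [← Finset.sum_add_distrib]
    exact Finset.sum_congr rfl fun k _ => by rw [Pi.add_apply, eval_add, add_mul]
  map_smul' r u := by
    rw [RingHom.id_apply, smul_eq_mul, Finset.mul_sum]
    exact Finset.sum_congr rfl fun k _ => by rw [Pi.smul_apply, eval_smul, smul_eq_mul]; ring

theorem base_eq (h : s.IsModel c wt x y) (p : K[X]) (i : Fin s.a) :
    aeval x p * y i = coordE h (Pi.single i p) := by
  classical
  rw [coordE_apply, Finset.sum_eq_single i]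
  · rw [Pi.single_eq_same]
  · intro j _ hj
    rw [Pi.single_eq_of_ne hj, map_zero, zero_mul]
  · intro hi
    exact absurd (Finset.mem_univ i) hi

theorem exists_algHom (h : s.IsModel c wt x y) {x₀ : K} {η : Fin s.a → K}
    (hp : s.IsPoint c x₀ η) : ∃ P : B →ₐ[K] K, P x = x₀ ∧ ∀ i, P (y i) = η i := by
  classical
  let φ : B →ₗ[K] K := (evalL x₀ η).comp (coordE h).symm.toLinearMap
  have hφ : ∀ u, φ (coordE h u) = ∑ k, (u k).eval x₀ * η k := fun u => by
    show (evalL x₀ η) ((coordE h).symm (coordE h u)) = _
    rw [LinearEquiv.symm_apply_apply]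
    rfl
  have hbase : ∀ (p : K[X]) i, φ (aeval x p * y i) = p.eval x₀ * η i := by
    intro p i
    rw [base_eq h, hφ, Finset.sum_eq_single i]
    · rw [Pi.single_eq_same]
    · intro j _ hj
      rw [Pi.single_eq_of_ne hj, eval_zero, zero_mul]
    · intro hi
      exact absurd (Finset.mem_univ i) hi
  have hone : φ 1 = 1 := by
    have := hbase 1 0
    rwa [_root_.map_one, one_mul, h.y_zero, eval_one, one_mul, hp.1] at this
  have hmul : ∀ f g, φ (f * g) = φ f * φ g := by
    intro f
    refine model_induction h ?_ ?_ ?_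
    · intro g g' hg hg'
      rw [mul_add, map_add, map_add, hg, hg', mul_add]
    · rw [mul_zero, map_zero, mul_zero]
    · intro q j
      revert f
      refine model_induction h ?_ ?_ ?_
      · intro g g' hg hg'
        rw [add_mul, map_add, map_add, hg, hg', add_mul]
      · rw [zero_mul, map_zero, zero_mul]
      · intro p i
        rw [mul_base h, hφ, hbase, hbase]
        have h1 : p.eval x₀ * η i * (q.eval x₀ * η j) = p.eval x₀ * q.eval x₀ * (η i * η j) := by
          ring
        rw [h1, hp.2, Finset.mul_sum]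
        refine Finset.sum_congr rfl fun k _ => ?_
        rw [eval_mul, eval_mul]
        ring
  refine ⟨AlgHom.ofLinearMap φ hone hmul, ?_, fun i => ?_⟩
  · show φ x = x₀
    have := hbase X 0
    rwa [aeval_X, h.y_zero, mul_one, eval_X, hp.1, mul_one] at this
  · show φ (y i) = η i
    have := hbase 1 i
    rwa [_root_.map_one, one_mul, eval_one, one_mul] at this

theorem exists_der (h : s.IsModel c wt x y) {P : B →ₐ[K] K} {ξ : K} {τ : Fin s.a → K}
    (ht : s.IsTangent c (P x) (fun i => P (y i)) ξ τ) :
    ∃ D : B →ₗ[K] K, IsDer P D ∧ D x = ξ ∧ ∀ i, D (y i) = τ i := by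
  classical
  let ψ : (Fin s.a → K[X]) →ₗ[K] K := (evalL (P x) (fun i => P (y i)) ∘ₗ
    (LinearMap.pi fun k => (derivative : K[X] →ₗ[K] K[X]).comp (LinearMap.proj k)))
  let D : B →ₗ[K] K := (ξ • ψ + evalL (P x) τ).comp (coordE h).symm.toLinearMap
  have hD : ∀ u, D (coordE h u) = ∑ k, ((derivative (u k)).eval (P x) * ξ * P (y k) +
      (u k).eval (P x) * τ k) := fun u => by
    show (ξ • ψ + evalL (P x) τ) ((coordE h).symm (coordE h u)) = _
    rw [LinearEquiv.symm_apply_apply]
    show ξ * (∑ k, (derivative (u k)).eval (P x) * P (y k)) + ∑ k, (u k).eval (P x) * τ k = _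
    rw [Finset.mul_sum, ← Finset.sum_add_distrib]
    exact Finset.sum_congr rfl fun k _ => by ring
  have hbase : ∀ (p : K[X]) i, D (aeval x p * y i) =
      (derivative p).eval (P x) * ξ * P (y i) + p.eval (P x) * τ i := by
    intro p i
    rw [base_eq h, hD, Finset.sum_eq_single i]
    · rw [Pi.single_eq_same]
    · intro j _ hj
      rw [Pi.single_eq_of_ne hj, eval_zero, zero_mul, derivative_zero, eval_zero, zero_mul,
        zero_mul, add_zero]
    · intro hi
      exact absurd (Finset.mem_univ i) hi
  have hpt := isPoint_of_algHom h P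
  refine ⟨D, ⟨?_⟩, ?_, fun i => ?_⟩
  · intro f
    refine model_induction h ?_ ?_ ?_
    · intro g g' hg hg'
      rw [mul_add, map_add, map_add, map_add, hg, hg']
      ring
    · rw [mul_zero, map_zero, map_zero]
      ring
    · intro q j
      revert f
      refine model_induction h ?_ ?_ ?_
      · intro g g' hg hg'
        rw [add_mul, map_add, map_add, map_add, hg, hg']
        ring
      · rw [zero_mul, map_zero, map_zero]
        ring
      · intro p i
        rw [mul_base h, hD, hbase, hbase, map_mul, map_mul, algHom_aeval, algHom_aeval]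
        have e1 := hpt.2 i j
        have e2 := ht.2 i j
        have h1 : ∑ k, ((derivative (p * q * s.C c i j k)).eval (P x) * ξ * P (y k) +
            (p * q * s.C c i j k).eval (P x) * τ k) =
            (derivative (p * q)).eval (P x) * ξ * (∑ k, (s.C c i j k).eval (P x) * P (y k)) +
            (p * q).eval (P x) * (∑ k, ((s.C c i j k).derivative.eval (P x) * ξ * P (y k) +
              (s.C c i j k).eval (P x) * τ k)) := by
          rw [Finset.mul_sum, Finset.mul_sum, ← Finset.sum_add_distrib]
          refine Finset.sum_congr rfl fun k _ => ?_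
          simp only [derivative_mul, eval_add, eval_mul]
          ring
        rw [h1, ← e1, ← e2]
        simp only [derivative_mul, eval_add, eval_mul]
        ring
  · have := hbase X 0
    rw [aeval_X, h.y_zero, mul_one, derivative_X, eval_one, _root_.map_one, eval_X, ht.1] at this
    rw [this]; ring
  · have := hbase 1 i
    rw [_root_.map_one, one_mul, derivative_one, eval_zero, eval_one] at this
    rw [this]; ring

/-- smoothness in terms of derivations -/
theorem isSmooth_iff_der (h : s.IsModel c wt x y) : s.IsSmooth c ↔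
    ∀ (P : B →ₐ[K] K) (D D' : B →ₗ[K] K), IsDer P D → IsDer P D' →
      ∀ f g, D f * D' g = D' f * D g := by
  constructor
  · intro hs P D D' hD hD'
    obtain ⟨h1, h2⟩ := hs (P x) _ (isPoint_of_algHom h P) _ _ _ _ (isTangent_of_isDer h hD)
      (isTangent_of_isDer h hD')
    intro f
    refine model_induction h ?_ ?_ ?_
    · intro g g' hg hg'
      rw [map_add, map_add, mul_add, mul_add, hg, hg']
    · rw [map_zero, map_zero, mul_zero, mul_zero]
    · intro q j
      revert f
      refine model_induction h ?_ ?_ ?_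
      · intro g g' hg hg'
        rw [map_add, map_add, add_mul, add_mul, hg, hg']
      · rw [map_zero, map_zero, zero_mul, zero_mul]
      · intro p i
        rw [hD.map_base, hD.map_base, hD'.map_base, hD'.map_base]
        have e1 : D x * D' (y j) = D' x * D (y j) := h1 j
        have e2 : D x * D' (y i) = D' x * D (y i) := h1 i
        have e3 : D (y i) * D' (y j) = D' (y i) * D (y j) := h2 i j
        linear_combination (eval (P x) (derivative p) * P (y i) * eval (P x) q) * e1 -
          (eval (P x) (derivative q) * P (y j) * eval (P x) p) * e2 +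
          (eval (P x) p * eval (P x) q) * e3
  · intro hder x₀ η hp ξ τ ξ' τ' ht ht'
    obtain ⟨P, rfl, hP⟩ := exists_algHom h hp
    obtain rfl : η = fun i => P (y i) := funext fun i => (hP i).symm
    obtain ⟨D, hD, rfl, hDy⟩ := exists_der h ht
    obtain ⟨D', hD', rfl, hDy'⟩ := exists_der h ht'
    have h1 := hder P D D' hD hD'
    refine ⟨fun i => ?_, fun i j => ?_⟩
    · rw [← hDy, ← hDy']
      exact h1 _ _
    · rw [← hDy, ← hDy, ← hDy', ← hDy']
      exact h1 _ _

end Model

section General

variable {K B : Type*} [Field K] [CommRing B] [Algebra K B]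

/-- In a Dedekind domain the tangent spaces are at most one-dimensional. -/
theorem der_of_isDedekindDomain [IsDedekindDomain B] (P : B →ₐ[K] K) (D D' : B →ₗ[K] K)
    (hD : IsDer P D) (hD' : IsDer P D') (f g : B) : D f * D' g = D' f * D g := by
  set m : Ideal B := RingHom.ker P with hm
  have hmax : m.IsMaximal := RingHom.ker_isMaximal_of_surjective P fun c =>
    ⟨algebraMap K B c, P.commutes c⟩
  have hsq : ∀ (E : B →ₗ[K] K), IsDer P E → ∀ e ∈ m ^ 2, E e = 0 := by
    intro E hE e he
    rw [pow_two] at he
    refine Submodule.mul_induction_on he ?_ ?_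
    · intro a ha b hb
      rw [hE.leibniz, (RingHom.mem_ker).mp ha, (RingHom.mem_ker).mp hb]
      ring
    · intro a b ha hb
      rw [map_add, ha, hb, add_zero]
  have hconst : ∀ (E : B →ₗ[K] K), IsDer P E → ∀ f, E f = E (f - algebraMap K B (P f)) := by
    intro E hE f
    rw [map_sub, Algebra.algebraMap_eq_smul_one, map_smul, hE.map_one, smul_zero, sub_zero]
  have hmem : ∀ f, f - algebraMap K B (P f) ∈ m := by
    intro f
    rw [hm, RingHom.mem_ker, map_sub, P.commutes]
    show P f - P f = 0
    rw [sub_self]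
  by_cases hbot : m = ⊥
  · have h0 : ∀ (E : B →ₗ[K] K), IsDer P E → ∀ f, E f = 0 := by
      intro E hE f
      have := hmem f
      rw [hbot, Ideal.mem_bot] at this
      rw [hconst E hE, this, map_zero]
    rw [h0 D hD f, h0 D' hD' f, zero_mul, zero_mul]
  · -- a uniformizer
    have hlt : m ^ 2 < m := by
      have := Ideal.pow_right_strictAnti m hbot hmax.ne_top (show 1 < 2 by norm_num)
      simpa using this
    obtain ⟨u, hu, hu2⟩ := SetLike.exists_of_lt hlt
    have key : ∀ f, ∃ d : B, ∀ (E : B →ₗ[K] K), IsDer P E → E f = P d * E u := by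
      intro f
      have := hmax.isPrime
      obtain ⟨d, e, he, hde⟩ := Ideal.exists_mul_add_mem_pow_succ (P := m) (i := 1) hbot u
        (f - algebraMap K B (P f)) (by rwa [pow_one]) hu2 (by rw [pow_one]; exact hmem f)
      refine ⟨d, fun E hE => ?_⟩
      rw [hconst E hE, ← hde, map_add, hsq E hE e he, hE.leibniz, (RingHom.mem_ker).mp hu]
      ring
    obtain ⟨d, hd⟩ := key f
    obtain ⟨d', hd'⟩ := key g
    rw [hd D hD, hd D' hD', hd' D hD, hd' D' hD']
    ring

/-- If the tangent space at `P` is at most one-dimensional, the maximal ideal is generated by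
one element modulo its square. -/
theorem exists_gen_of_der (P : B →ₐ[K] K)
    (hder : ∀ D D' : B →ₗ[K] K, IsDer P D → IsDer P D' → ∀ f g, D f * D' g = D' f * D g) :
    ∃ u ∈ RingHom.ker P, RingHom.ker P ≤ Ideal.span {u} ⊔ (RingHom.ker P) ^ 2 := by
  classical
  set m : Ideal B := RingHom.ker P with hm
  by_contra hcon
  push Not at hcon
  obtain ⟨u, hu, hu2⟩ : ∃ u ∈ m, u ∉ m ^ 2 := by
    have := hcon 0 (zero_mem _)
    rw [SetLike.not_le_iff_exists] at this
    obtain ⟨u, hu, hu'⟩ := this
    exact ⟨u, hu, fun h => hu' (Ideal.mem_sup_right h)⟩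
  obtain ⟨v, hv, hv2⟩ := SetLike.not_le_iff_exists.mp (hcon u hu)
  have hmem : ∀ f, f - algebraMap K B (P f) ∈ m := by
    intro f
    rw [hm, RingHom.mem_ker, map_sub, P.commutes]
    show P f - P f = 0
    rw [sub_self]
  -- functionals vanishing on `1` and `m²` are derivations
  have hisder : ∀ E : B →ₗ[K] K, E 1 = 0 → (∀ e ∈ m ^ 2, E e = 0) → IsDer P E := by
    intro E h1 h2
    have hc : ∀ a : K, E (algebraMap K B a) = 0 := fun a => by
      rw [Algebra.algebraMap_eq_smul_one, map_smul, h1, smul_zero]
    constructor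
    intro f g
    have h3 : (f - algebraMap K B (P f)) * (g - algebraMap K B (P g)) ∈ m ^ 2 := by
      rw [pow_two]
      exact Ideal.mul_mem_mul (hmem f) (hmem g)
    have h4 := h2 _ h3
    have h5 : (f - algebraMap K B (P f)) * (g - algebraMap K B (P g)) =
        f * g - P f • g - P g • f + algebraMap K B (P f * P g) := by
      rw [Algebra.smul_def, Algebra.smul_def, map_mul]
      ring
    rw [h5, map_add, map_sub, map_sub, map_smul, map_smul, hc, add_zero, smul_eq_mul,
      smul_eq_mul] at h4
    linear_combination h4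
  -- the two functionals
  let W (w : B) : Submodule K B :=
    Submodule.span K {(1 : B)} ⊔ (m ^ 2).restrictScalars K ⊔ Submodule.span K {w}
  have hmemW : ∀ w z : B, z ∈ W w → ∃ (a b : K) (e : B), e ∈ m ^ 2 ∧
      z = algebraMap K B a + e + b • w := by
    intro w z hz
    obtain ⟨z1, hz1, z2, hz2, rfl⟩ := Submodule.mem_sup.mp hz
    obtain ⟨z3, hz3, z4, hz4, rfl⟩ := Submodule.mem_sup.mp hz1
    obtain ⟨a, rfl⟩ := Submodule.mem_span_singleton.mp hz3
    obtain ⟨b, rfl⟩ := Submodule.mem_span_singleton.mp hz2
    exact ⟨a, b, z4, hz4, by rw [Algebra.algebraMap_eq_smul_one]⟩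
  have hPsq : ∀ e ∈ m ^ 2, P e = 0 := fun e he =>
    RingHom.mem_ker.mp (Ideal.pow_le_self two_ne_zero he)
  have huW : u ∉ W v := by
    intro h
    obtain ⟨a, b, e, he, hz⟩ := hmemW v u h
    have h1 := congrArg P hz
    rw [RingHom.mem_ker.mp hu, map_add, map_add, P.commutes, hPsq e he, map_smul,
      RingHom.mem_ker.mp hv, smul_zero, add_zero, add_zero] at h1
    have ha : a = 0 := h1.symm
    rw [ha, map_zero, zero_add] at hz
    by_cases hb : b = 0
    · rw [hb, zero_smul, add_zero] at hz
      exact hu2 (hz ▸ he)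
    · apply hv2
      have h2 : v = b⁻¹ • u + (-b⁻¹) • e := by
        rw [hz, smul_add, smul_smul, inv_mul_cancel₀ hb, one_smul, neg_smul]
        abel
      rw [h2]
      apply Submodule.add_mem_sup
      · rw [Algebra.smul_def]
        exact Ideal.mul_mem_left _ _ (Ideal.mem_span_singleton_self u)
      · rw [Algebra.smul_def]
        exact Ideal.mul_mem_left _ _ he
  have hvW : v ∉ W u := by
    intro h
    obtain ⟨a, b, e, he, hz⟩ := hmemW u v h
    have h1 := congrArg P hz
    rw [RingHom.mem_ker.mp hv, map_add, map_add, P.commutes, hPsq e he, map_smul,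
      RingHom.mem_ker.mp hu, smul_zero, add_zero, add_zero] at h1
    have ha : a = 0 := h1.symm
    rw [ha, map_zero, zero_add] at hz
    apply hv2
    rw [hz, add_comm]
    apply Submodule.add_mem_sup
    · rw [Algebra.smul_def]
      exact Ideal.mul_mem_left _ _ (Ideal.mem_span_singleton_self u)
    · exact he
  obtain ⟨D, hDu, hDW⟩ := Submodule.exists_le_ker_of_notMem huW
  obtain ⟨D', hDv, hDW'⟩ := Submodule.exists_le_ker_of_notMem hvW
  have h1W : ∀ w : B, (1 : B) ∈ W w := fun w =>
    Submodule.mem_sup_left (Submodule.mem_sup_left (Submodule.mem_span_singleton_self _))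
  have h2W : ∀ w : B, ∀ e ∈ m ^ 2, e ∈ W w := fun w e he =>
    Submodule.mem_sup_left (Submodule.mem_sup_right he)
  have h3W : ∀ w : B, w ∈ W w := fun w =>
    Submodule.mem_sup_right (Submodule.mem_span_singleton_self _)
  have hD : IsDer P D := hisder D (LinearMap.mem_ker.mp (hDW (h1W v)))
    (fun e he => LinearMap.mem_ker.mp (hDW (h2W v e he)))
  have hD' : IsDer P D' := hisder D' (LinearMap.mem_ker.mp (hDW' (h1W u)))
    (fun e he => LinearMap.mem_ker.mp (hDW' (h2W u e he)))
  have h4 := hder D D' hD hD' u v
  rw [LinearMap.mem_ker.mp (hDW (h3W v)), mul_zero] at h4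
  exact (mul_ne_zero hDu hDv) h4

end General

section Final

variable {s : Shape} {K B : Type*} [Field K] [CommRing B] [Algebra K B]
    {wt : B → WithBot ℕ} {c : s.Idx → K} {x : B} {y : Fin s.a → B}

theorem isNoetherianRing_of_isModel (h : s.IsModel c wt x y) : IsNoetherianRing B := by
  classical
  let _ : Algebra K[X] B := (aeval x : K[X] →ₐ[K] B).toRingHom.toAlgebra
  have hsmul : ∀ (p : K[X]) (b : B), p • b = aeval x p * b := fun p b => rfl
  have hfin : Module.Finite K[X] B := by
    refine ⟨⟨Finset.univ.image y, ?_⟩⟩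
    rw [eq_top_iff]
    intro b _
    obtain ⟨u, rfl⟩ := (coordE h).surjective b
    rw [coordE_apply]
    refine Submodule.sum_mem _ fun k _ => ?_
    rw [← hsmul]
    refine Submodule.smul_mem _ _ (Submodule.subset_span ?_)
    simp
  exact IsNoetherianRing.of_finite K[X] B

theorem exists_algHom_ker [IsAlgClosed K] (h : IsWeight K wt) {m : Ideal B} [hm : m.IsMaximal]
    (hbot : m ≠ ⊥) : ∃ P : B →ₐ[K] K, RingHom.ker P = m := by
  have hfin : Module.Finite K (B ⧸ m) := h.finite_quot hbot
  let _ : Field (B ⧸ m) := Ideal.Quotient.field m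
  have : Algebra.IsIntegral K (B ⧸ m) := Algebra.IsIntegral.of_finite K _
  have hbij : Function.Bijective (algebraMap K (B ⧸ m)) :=
    IsAlgClosed.algebraMap_bijective_of_isIntegral
  let e : K ≃ₐ[K] (B ⧸ m) := AlgEquiv.ofBijective (Algebra.ofId K (B ⧸ m)) hbij
  refine ⟨(e.symm : (B ⧸ m) →ₐ[K] K).comp (Ideal.Quotient.mkₐ K m), ?_⟩
  ext b
  rw [RingHom.mem_ker]
  show e.symm (Ideal.Quotient.mk m b) = 0 ↔ b ∈ m
  rw [EmbeddingLike.map_eq_zero_iff, Ideal.Quotient.eq_zero_iff_mem]

theorem isDVR_of_gen [IsDomain B] [IsNoetherianRing B] {m : Ideal B} [hm : m.IsPrime]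
    (hbot : m ≠ ⊥) {u : B} (hu : m ≤ Ideal.span {u} ⊔ m ^ 2) (hum : u ∈ m) :
    IsDiscreteValuationRing (Localization.AtPrime m) := by
  set R := Localization.AtPrime m with hR
  have : IsNoetherianRing R := IsLocalization.isNoetherianRing m.primeCompl R inferInstance
  have : IsDomain R := IsLocalization.isDomain_localization m.primeCompl_le_nonZeroDivisors
  have hnf : ¬ IsField R := IsLocalization.AtPrime.not_isField B hbot R
  refine ((IsDiscreteValuationRing.TFAE R hnf).out 0 4).mpr ?_
  have hmap : IsLocalRing.maximalIdeal R = m.map (algebraMap B R) :=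
    (IsLocalization.AtPrime.map_eq_maximalIdeal m R).symm
  refine ⟨⟨algebraMap B R u, ?_⟩⟩
  have hle : IsLocalRing.maximalIdeal R ≤ Ideal.span {algebraMap B R u} ⊔
      IsLocalRing.maximalIdeal R • IsLocalRing.maximalIdeal R := by
    rw [smul_eq_mul, ← pow_two, hmap, ← Ideal.map_pow]
    have h1 := Ideal.map_mono (f := algebraMap B R) hu
    rwa [Ideal.map_sup, Ideal.map_span, Set.image_singleton] at h1
  apply le_antisymm
  · exact Submodule.le_of_le_smul_of_le_jacobson_bot
      (IsNoetherian.noetherian (IsLocalRing.maximalIdeal R))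
      (IsLocalRing.maximalIdeal_le_jacobson _) hle
  · rw [Submodule.span_le, Set.singleton_subset_iff, hmap]
    exact Ideal.mem_map_of_mem _ hum

theorem isSmooth_iff {s : Shape} {K B : Type*} [Field K] [IsAlgClosed K] [CommRing B]
    [Algebra K B] {wt : B → WithBot ℕ} {c : s.Idx → K} {x : B} {y : Fin s.a → B}
    (h : s.IsModel c wt x y) : s.IsSmooth c ↔ IsDedekindDomain B := by
  have hdom : IsDomain B := h.isWeight.isDomain
  have hnoe : IsNoetherianRing B := isNoetherianRing_of_isModel h
  rw [isSmooth_iff_der h]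
  constructor
  · intro hder
    have hdvr : IsDedekindDomainDvr B := by
      constructor
      intro m hbot hprime
      have hfin : Module.Finite K (B ⧸ m) := h.isWeight.finite_quot hbot
      have hmax : m.IsMaximal := by
        have : IsDomain (B ⧸ m) := Ideal.Quotient.isDomain m
        have hint : Algebra.IsIntegral K (B ⧸ m) := Algebra.IsIntegral.of_finite K _
        have hf : IsField (B ⧸ m) :=
          isField_of_isIntegral_of_isField' (R := K) (Field.toIsField K)
        exact Ideal.Quotient.maximal_of_isField m hf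
      obtain ⟨P, hP⟩ := exists_algHom_ker h.isWeight (m := m) hbot
      obtain ⟨u, hum, hu⟩ := exists_gen_of_der P (hder P)
      rw [hP] at hu hum
      exact isDVR_of_gen hbot hu hum
    exact inferInstance
  · intro hded P D D' hD hD' f g
    exact der_of_isDedekindDomain P D D' hD hD' f g

end Final

end Fermat.Agent.H3S27
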