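import Fermat.Agent.H94Divisors
import Fermat.Prelude.Def_AlgebraicCurve_CanonicalDivisor

/-!
# From the Prelude class `IsCurveOver` to function fields (helper3)

`funField_of_isCurveOver`: in characteristic zero, `IsCurveOver K F` and
`Algebra.EssFiniteType K F` imply that `F` is a finite extension of a rational function field
`K(x)`.
-/

set_option autoImplicit false

open AlgebraicCurve Polynomial IntermediateField KaehlerDifferential

namespace Fermat.Agent.H3S27

section FunField

variable (K F : Type*) [Field K] [Field F] [Algebra K F]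

theorem D_eq_zero_of_isAlgebraic [CharZero K] {x : F} (hx : IsAlgebraic K x) :
    KaehlerDifferential.D K F x = 0 := by
  have hint := hx.isIntegral
  have hsep : (minpoly K x).Separable := (minpoly.irreducible hint).separable
  have h1 : aeval x (derivative (minpoly K x)) ≠ 0 :=
    hsep.aeval_derivative_ne_zero (minpoly.aeval K x)
  have h2 := Derivation.map_aeval (KaehlerDifferential.D K F) (minpoly K x) x
  rw [minpoly.aeval, map_zero] at h2
  exact (smul_eq_zero.mp h2.symm).resolve_left h1

theorem funField_of_isCurveOver [CharZero K] [IsCurveOver K F] [Algebra.EssFiniteType K F] :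
    H94.FunField K F := by
  have hnt : Nontrivial (Ω[F⁄K]) := IsCurveOver.instNontrivialKaehler
  obtain ⟨x, hx⟩ : ∃ x : F, KaehlerDifferential.D K F x ≠ 0 := by
    by_contra hcon
    push Not at hcon
    have h1 : (⊤ : Submodule F (Ω[F⁄K])) = ⊥ := by
      rw [← KaehlerDifferential.span_range_derivation, Submodule.span_eq_bot]
      rintro _ ⟨f, rfl⟩
      exact hcon f
    exact (bot_ne_top (α := Submodule F (Ω[F⁄K]))) h1.symm
  have htr : Transcendental K x := fun h => hx (D_eq_zero_of_isAlgebraic K F h)
  refine ⟨x, htr, ?_⟩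
  have hspan : ∀ ω : Ω[F⁄K], ∃ c : F, c • KaehlerDifferential.D K F x = ω :=
    exists_smul_eq_of_finrank_eq_one IsCurveOver.finrank_kaehler hx
  have hsub : Subsingleton (Ω[F⁄K⟮x⟯]) := by
    have h1 : ∀ f : F, KaehlerDifferential.D K⟮x⟯ F f = 0 := by
      intro f
      obtain ⟨c, hc⟩ := hspan (KaehlerDifferential.D K F f)
      have h2 := congrArg (KaehlerDifferential.map K K⟮x⟯ F F) hc
      rw [map_smul, KaehlerDifferential.map_D, KaehlerDifferential.map_D] at h2
      have h3 : KaehlerDifferential.D K⟮x⟯ F (algebraMap F F x) = 0 := by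
        have := (KaehlerDifferential.D K⟮x⟯ F).map_algebraMap (AdjoinSimple.gen K x)
        rwa [AdjoinSimple.algebraMap_gen] at this
      rw [h3, smul_zero] at h2
      exact h2.symm
    have h4 : (⊤ : Submodule F (Ω[F⁄K⟮x⟯])) = ⊥ := by
      rw [← KaehlerDifferential.span_range_derivation, Submodule.span_eq_bot]
      rintro _ ⟨f, rfl⟩
      exact h1 f
    rw [← Submodule.subsingleton_iff F]
    exact subsingleton_of_bot_eq_top h4.symm
  have hfu : Algebra.FormallyUnramified K⟮x⟯ F := ⟨hsub⟩
  have hess : Algebra.EssFiniteType K⟮x⟯ F := Algebra.EssFiniteType.of_comp K K⟮x⟯ F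
  exact Algebra.FormallyUnramified.finite_of_free K⟮x⟯ F

end FunField

end Fermat.Agent.H3S27
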