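import Fermat.Agent.H3S27Gaps
import Fermat.Agent.H3S27FF
import Fermat.Agent.H3RR_Bridge
import Fermat.Agent.H94Divisors

/-!
# Function field -> weighted Dedekind algebra (helper3, S27-F)
-/

set_option autoImplicit false
set_option linter.unusedSectionVars false

open AlgebraicCurve WithZero Polynomial IntermediateField IsDedekindDomain
open scoped nonZeroDivisors
open Fermat.Agent.H3RR Fermat.Agent.H95

namespace Fermat.Agent.H3S27

section Existence

variable {K F : Type*} [Field K] [Field F] [Algebra K F] [IsAlgClosed K] [IsFF K F]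

/-- A nonconstant function whose only pole is `P`. -/
theorem exists_only_pole (P : Place K F) : ∃ x : F, Transcendental K x ∧
    1 < P.adicValuation x ∧ ∀ v : Place K F, v ≠ P → v.adicValuation x ≤ 1 := by
  classical
  set n : ℕ := 2 * genusFF K F + 1 with hn
  have h2 := ell_of_degree_gt (D := (Finsupp.single P (n : ℤ) : Divisor K F)) (by
    rw [Divisor.degree_single, deg_eq_one]; push_cast; omega)
  rw [Divisor.degree_single, deg_eq_one] at h2
  have hle : (0 : Divisor K F) ≤ Finsupp.single P (n : ℤ) := by
    rw [← Finsupp.single_zero P, Finsupp.single_le_single]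
    positivity
  have hlt : ¬ riemannRochSpace (Finsupp.single P (n : ℤ) : Divisor K F) ≤
      riemannRochSpace (0 : Divisor K F) := by
    intro h
    have h3 : ell (Finsupp.single P (n : ℤ) : Divisor K F) ≤ ell (0 : Divisor K F) :=
      LinearMap.finrank_le_finrank_of_injective (f := Submodule.inclusion h)
        (Submodule.inclusion_injective _)
    rw [finite_and_ell_zero.2] at h3
    omega
  obtain ⟨x, hx, hx0⟩ := SetLike.not_le_iff_exists.mp hlt
  have hx' : ∀ v : Place K F, v.adicValuation x ≤
    exp ((Finsupp.single P (n : ℤ) : Divisor K F) v) := hx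
  have hne : ∀ v : Place K F, v ≠ P → v.adicValuation x ≤ 1 := by
    intro v hv
    have := hx' v
    rwa [Finsupp.single_eq_of_ne hv, exp_zero] at this
  have hP : 1 < P.adicValuation x := by
    by_contra hcon
    push Not at hcon
    apply hx0
    show ∀ v : Place K F, v.adicValuation x ≤ exp ((0 : Divisor K F) v)
    intro v
    rw [Finsupp.coe_zero, Pi.zero_apply, exp_zero]
    by_cases hv : v = P
    · exact hv ▸ hcon
    · exact hne v hv
  refine ⟨x, ?_, hP, hne⟩
  intro halg
  obtain ⟨c, rfl⟩ := exists_const_of_isAlgebraic halg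
  exact absurd (P.adicValuation_algebraMap_le_one c) (not_le.mpr hP)

theorem isAffineRing_intRing [CharZero K] (P : Place K F) {x : F} (hx : Transcendental K x)
    (hP : 1 < P.adicValuation x) (hne : ∀ v : Place K F, v ≠ P → v.adicValuation x ≤ 1) :
    IsAffineRing P (H94.IntRing K x) where
  inj := Subtype.coe_injective
  mem_iff f := by
    have hfd := IsFF.finiteDimensional (F := F) hx
    have hded := H94.isDedekindDomain_intRing (F := F) hx
    have hfrac := H94.isFractionRing_intRing (K := K) (F := F) (x := x)
    constructor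
    · rintro ⟨b, rfl⟩ v hv
      apply v.adicValuation_le_one_of_mem
      exact H94.mem_of_intRing (mem_of_adicValuation_le_one v (hne v hv)) b
    · intro h
      refine HeightOneSpectrum.mem_integers_of_valuation_le_one (R := H94.IntRing K x) F f ?_
      intro w
      set v : Place K F := Place.ofHeightOneSpectrum w with hv
      have hvP : v ≠ P := by
        intro h0
        have hmem : algebraMap (H94.IntRing K x) F
            (algebraMap (Algebra.adjoin K {x}) (H94.IntRing K x)
              ⟨x, Algebra.self_mem_adjoin_singleton K x⟩) ∈ v.toValuationSubring :=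
          H94.algebraMap_mem_ofHeightOneSpectrum w _
        have h1 : P.adicValuation x ≤ 1 := by
          rw [← h0]
          exact v.adicValuation_le_one_of_mem hmem
        exact absurd h1 (not_le.mpr hP)
      have h2 := mem_of_adicValuation_le_one v (h v hvP)
      rw [hv, Place.ofHeightOneSpectrum_toValuationSubring,
        Valuation.mem_valuationSubring_iff] at h2
      exact h2

end Existence

section ClassGroup

variable {K F : Type*} [Field K] [Field F] [Algebra K F] [IsAlgClosed K] [IsFF K F]
  {P : Place K F} {B : Type*} [CommRing B] [Algebra B F] [Algebra K B]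
    [IsScalarTower K B F] (hB : IsAffineRing P B) [IsDedekindDomain B] [IsFractionRing B F]

/-- valuation and count -/
theorem valuation_eq_exp_neg_count (w : HeightOneSpectrum B) {f : F} (hf : f ≠ 0) :
    w.valuation F f = exp (-(FractionalIdeal.count F w (FractionalIdeal.spanSingleton B⁰ f))) := by
  classical
  have hR : ∀ r : B, r ≠ 0 → w.intValuation r =
      exp (-(FractionalIdeal.count F w (FractionalIdeal.spanSingleton B⁰ (algebraMap B F r)))) := by
    intro r hr
    rw [← FractionalIdeal.coeIdeal_span_singleton, FractionalIdeal.count_coe,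
      w.intValuation_if_neg hr]
    rw [ne_eq, Submodule.zero_eq_bot, Ideal.span_singleton_eq_bot]
    exact hr
  obtain ⟨a, b, hb, rfl⟩ := IsFractionRing.div_surjective (A := B) f
  have hb0 : b ≠ 0 := nonZeroDivisors.ne_zero hb
  have ha0 : a ≠ 0 := by
    rintro rfl
    simp at hf
  have hbF : algebraMap B F b ≠ 0 := map_ne_zero' (IsFractionRing.injective B F) hb0
  have h1 := FractionalIdeal.count_mul F w
    (I := FractionalIdeal.spanSingleton B⁰ (algebraMap B F a / algebraMap B F b))
    (I' := FractionalIdeal.spanSingleton B⁰ (algebraMap B F b))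
    (by rwa [ne_eq, FractionalIdeal.spanSingleton_eq_zero_iff])
    (by rwa [ne_eq, FractionalIdeal.spanSingleton_eq_zero_iff])
  rw [FractionalIdeal.spanSingleton_mul_spanSingleton, div_mul_cancel₀ _ hbF] at h1
  rw [map_div₀, w.valuation_of_algebraMap, w.valuation_of_algebraMap, hR a ha0, hR b hb0, h1,
    div_eq_mul_inv, ← exp_neg, ← exp_add]
  congr 1
  ring

/-- the place attached to a prime of `B` -/
noncomputable def pl (w : HeightOneSpectrum B) : Place K F := Place.ofHeightOneSpectrum w

theorem ord_pl (w : HeightOneSpectrum B) {f : F} (hf : f ≠ 0) :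
    (pl w : Place K F).ord f =
      FractionalIdeal.count F w (FractionalIdeal.spanSingleton B⁰ f) := by
  rw [pl, H94.ord_ofHeightOneSpectrum, valuation_eq_exp_neg_count w hf, log_exp, neg_neg]

theorem pl_injective : Function.Injective (pl : HeightOneSpectrum B → Place K F) := by
  intro w w' h
  have h1 := H94.primeBelow_ofHeightOneSpectrum (K := K) (F := F) w
    (H94.algebraMap_mem_ofHeightOneSpectrum w)
  have h2 := H94.primeBelow_ofHeightOneSpectrum (K := K) (F := F) w'
    (H94.algebraMap_mem_ofHeightOneSpectrum w')
  rw [← h1, ← h2]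
  apply HeightOneSpectrum.ext
  ext r
  rw [H94.mem_primeBelow_iff, H94.mem_primeBelow_iff]
  have h3 : (Place.ofHeightOneSpectrum w : Place K F) = Place.ofHeightOneSpectrum w' := h
  rw [h3]

include hB in
theorem pl_ne (w : HeightOneSpectrum B) : (pl w : Place K F) ≠ P := by
  intro h
  -- every element of `B` would be regular everywhere, hence constant
  have hconst : ∀ b : B, ∃ c : K, algebraMap K F c = algebraMap B F b := by
    intro b
    apply exists_const_of_forall_le_one
    intro v
    by_cases hv : v = P
    · rw [hv, ← h]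
      exact (pl w : Place K F).adicValuation_le_one_of_mem
        (H94.algebraMap_mem_ofHeightOneSpectrum w b)
    · exact le_one_of_ne hB b hv
  obtain ⟨x, hx, -⟩ := exists_only_pole P
  obtain ⟨a, b, hb, rfl⟩ := IsFractionRing.div_surjective (A := B) x
  obtain ⟨c, hc⟩ := hconst a
  obtain ⟨d, hd⟩ := hconst b
  apply hx
  rw [← hc, ← hd, ← map_div₀]
  exact isAlgebraic_algebraMap _

include hB in
theorem exists_pl_eq {v : Place K F} (hv : v ≠ P) : ∃ w : HeightOneSpectrum B, pl w = v :=
  ⟨H94.primeBelow v (fun r => mem_of_adicValuation_le_one v (le_one_of_ne hB r hv)),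
    H94.ofHeightOneSpectrum_primeBelow v _⟩

/-- the invertible fractional ideal attached to a prime -/
noncomputable def primeUnit (w : HeightOneSpectrum B) : (FractionalIdeal B⁰ F)ˣ :=
  Units.mk0 (w.asIdeal : FractionalIdeal B⁰ F) (FractionalIdeal.coeIdeal_ne_zero.mpr w.ne_bot)

/-- the fractional ideal attached to a divisor on `Spec B` -/
noncomputable def toFrac : (HeightOneSpectrum B →₀ ℤ) →+ Additive (FractionalIdeal B⁰ F)ˣ :=
  Finsupp.liftAddHom fun w => zmultiplesHom _ (Additive.ofMul (primeUnit w))

theorem coe_toFrac (E : HeightOneSpectrum B →₀ ℤ) :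
    (((toFrac E : Additive (FractionalIdeal B⁰ F)ˣ).toMul : (FractionalIdeal B⁰ F)ˣ) :
      FractionalIdeal B⁰ F) = E.prod (fun w n => (w.asIdeal : FractionalIdeal B⁰ F) ^ n) := by
  rw [toFrac, Finsupp.liftAddHom_apply, Finsupp.sum, toMul_sum, Units.coe_prod, Finsupp.prod]
  refine Finset.prod_congr rfl fun w _ => ?_
  rw [zmultiplesHom_apply, toMul_zsmul, toMul_ofMul, Units.val_zpow_eq_zpow_val]
  rfl

theorem count_toFrac (E : HeightOneSpectrum B →₀ ℤ) (w : HeightOneSpectrum B) :
    FractionalIdeal.count F w (((toFrac E : Additive (FractionalIdeal B⁰ F)ˣ).toMul :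
      (FractionalIdeal B⁰ F)ˣ) : FractionalIdeal B⁰ F) = E w := by
  rw [coe_toFrac]
  exact FractionalIdeal.count_finsuppProd F w E

theorem eq_of_count_eq {I J : FractionalIdeal B⁰ F} (hI : I ≠ 0) (hJ : J ≠ 0)
    (h : ∀ w, FractionalIdeal.count F w I = FractionalIdeal.count F w J) : I = J := by
  rw [← FractionalIdeal.finprod_heightOneSpectrum_factorization' F hI,
    ← FractionalIdeal.finprod_heightOneSpectrum_factorization' F hJ]
  exact finprod_congr fun w => by rw [h w]

theorem toFrac_surjective : Function.Surjective
    (toFrac : (HeightOneSpectrum B →₀ ℤ) →+ Additive (FractionalIdeal B⁰ F)ˣ) := by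
  intro I
  have hfin : {w : HeightOneSpectrum B | FractionalIdeal.count F w
      ((I.toMul : (FractionalIdeal B⁰ F)ˣ) : FractionalIdeal B⁰ F) ≠ 0}.Finite :=
    FractionalIdeal.finite_factors _
  refine ⟨Finsupp.ofSupportFinite (fun w => FractionalIdeal.count F w
      ((I.toMul : (FractionalIdeal B⁰ F)ˣ) : FractionalIdeal B⁰ F)) hfin, ?_⟩
  apply Additive.toMul.injective
  apply Units.ext
  apply eq_of_count_eq (Units.ne_zero _) (Units.ne_zero _)
  intro w
  rw [count_toFrac]
  rfl

/-- restriction of divisors to `Spec B` -/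
noncomputable def res : Divisor K F →+ (HeightOneSpectrum B →₀ ℤ) :=
  Finsupp.comapDomain.addMonoidHom (pl_injective (K := K) (F := F) (B := B))

theorem res_apply (D : Divisor K F) (w : HeightOneSpectrum B) : res D w = D (pl w) := rfl

variable (K F B) in
/-- the homomorphism from divisors of degree zero to the class group -/
noncomputable def theta : Divisor.degZero (K := K) (F := F) →+ Additive (ClassGroup B) :=
  (MonoidHom.toAdditive (ClassGroup.mk F : (FractionalIdeal B⁰ F)ˣ →* ClassGroup B)).comp
    (toFrac.comp (res.comp (Divisor.degZero (K := K) (F := F)).subtype))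

theorem theta_apply (D : Divisor.degZero (K := K) (F := F)) :
    theta K F B D = Additive.ofMul (ClassGroup.mk F
      (toFrac (res (D : Divisor K F)) : Additive (FractionalIdeal B⁰ F)ˣ).toMul) := rfl

include hB in
theorem theta_surjective : Function.Surjective (theta K F B) := by
  classical
  intro c
  obtain ⟨I, hI⟩ : ∃ I : (FractionalIdeal B⁰ F)ˣ, ClassGroup.mk F I = c.toMul :=
    ClassGroup.induction F (fun I => ⟨I, rfl⟩) c.toMul
  obtain ⟨E, hE⟩ := toFrac_surjective (Additive.ofMul I)
  set D₀ : Divisor K F := Finsupp.embDomain ⟨pl, pl_injective⟩ E with hD₀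
  set D : Divisor K F := D₀ - Finsupp.single P (Divisor.degree D₀) with hD
  have hdeg : D ∈ Divisor.degZero (K := K) (F := F) := by
    rw [Divisor.mem_degZero, hD, map_sub, Divisor.degree_single, deg_eq_one]
    simp
  refine ⟨⟨D, hdeg⟩, ?_⟩
  rw [theta_apply]
  have h1 : res D = E := by
    ext w
    rw [res_apply, hD, Finsupp.sub_apply, Finsupp.single_eq_of_ne (pl_ne hB w), sub_zero, hD₀]
    exact Finsupp.embDomain_apply_self ⟨pl, pl_injective⟩ E w
  rw [h1, hE, toMul_ofMul, hI]
  rfl

include hB in
theorem ker_theta : (theta K F B).ker =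
    (Divisor.principal (K := K) (F := F)).addSubgroupOf (Divisor.degZero (K := K) (F := F)) := by
  classical
  ext D
  obtain ⟨D, hD⟩ := D
  rw [AddMonoidHom.mem_ker, AddSubgroup.mem_addSubgroupOf, theta_apply]
  show Additive.ofMul _ = Additive.ofMul 1 ↔ D ∈ Divisor.principal (K := K) (F := F)
  rw [Additive.ofMul.injective.eq_iff, ClassGroup.mk_eq_one_iff, Divisor.mem_principal]
  rw [Divisor.mem_degZero] at hD
  constructor
  · rintro ⟨f, hf⟩
    have h1 : (((toFrac (res D) : Additive (FractionalIdeal B⁰ F)ˣ).toMul :
        (FractionalIdeal B⁰ F)ˣ) : FractionalIdeal B⁰ F) = FractionalIdeal.spanSingleton B⁰ f := by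
      apply FractionalIdeal.coeToSubmodule_injective
      show ((_ : FractionalIdeal B⁰ F) : Submodule B F) =
        ((FractionalIdeal.spanSingleton B⁰ f : FractionalIdeal B⁰ F) : Submodule B F)
      rw [FractionalIdeal.coe_spanSingleton]
      exact hf
    have hf0 : f ≠ 0 := by
      rintro rfl
      rw [FractionalIdeal.spanSingleton_zero] at h1
      exact Units.ne_zero _ h1
    refine ⟨f, hf0, ?_⟩
    have h2 : ∀ v : Place K F, v ≠ P → D v = v.ord f := by
      intro v hv
      obtain ⟨w, rfl⟩ := exists_pl_eq hB hv
      rw [ord_pl w hf0, ← h1, count_toFrac, res_apply]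
    -- compare degrees
    have h3 : D - divOf f = Finsupp.single P ((D - divOf f : Divisor K F) P) := by
      ext v
      by_cases hv : v = P
      · rw [hv, Finsupp.single_eq_same]
      · rw [Finsupp.single_eq_of_ne hv, Finsupp.sub_apply, divOf_apply hf0, h2 v hv, sub_self]
    have h4 : Divisor.degree (D - divOf f : Divisor K F) = 0 := by
      rw [map_sub, hD, degree_divOf hf0, sub_zero]
    rw [h3, Divisor.degree_single, deg_eq_one, Nat.cast_one, mul_one, Finsupp.sub_apply,
      divOf_apply hf0] at h4
    intro v
    by_cases hv : v = P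
    · rw [hv]; omega
    · exact h2 v hv
  · rintro ⟨f, hf0, hf⟩
    refine ⟨f, ?_⟩
    have h1 : (((toFrac (res D) : Additive (FractionalIdeal B⁰ F)ˣ).toMul :
        (FractionalIdeal B⁰ F)ˣ) : FractionalIdeal B⁰ F) = FractionalIdeal.spanSingleton B⁰ f := by
      apply eq_of_count_eq (Units.ne_zero _)
        (by rwa [ne_eq, FractionalIdeal.spanSingleton_eq_zero_iff])
      intro w
      rw [count_toFrac, res_apply, hf, ord_pl w hf0]
    rw [h1, FractionalIdeal.coe_spanSingleton]

include hB in
theorem nonempty_equiv : Nonempty (Multiplicative (Pic0 K F) ≃* ClassGroup B) := by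
  let e1 : Pic0 K F ≃+ Divisor.degZero (K := K) (F := F) ⧸ (theta K F B).ker :=
    QuotientAddGroup.quotientAddEquivOfEq (ker_theta hB).symm
  let e2 := QuotientAddGroup.quotientKerEquivOfSurjective (theta K F B) (theta_surjective hB)
  exact ⟨AddEquiv.toMultiplicativeLeft (e1.trans e2)⟩

end ClassGroup

open AlgebraicCurve in
theorem exists_weightAlg.{u, v} (K : Type u) (F : Type v) [Field K] [Field F] [Algebra K F]
    [IsAlgClosed K] [CharZero K] [IsCurveOver K F] [Algebra.EssFiniteType K F] :
    ∃ (B : Type v) (_ : CommRing B) (_ : Algebra K B) (_ : IsDedekindDomain B)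
      (wt : B → WithBot ℕ), IsWeight K wt ∧ genus wt = genusFF K F ∧
        Nonempty (Multiplicative (Pic0 K F) ≃* ClassGroup B) := by
  have hff : H94.FunField K F := funField_of_isCurveOver K F
  obtain ⟨P⟩ := exists_place K F
  obtain ⟨x, hx, hP, hne⟩ := exists_only_pole P
  have hB := isAffineRing_intRing P hx hP hne
  have hfd := IsFF.finiteDimensional (F := F) hx
  have hded := H94.isDedekindDomain_intRing (F := F) hx
  have hfrac := H94.isFractionRing_intRing (K := K) (F := F) (x := x)
  exact ⟨H94.IntRing K x, inferInstance, inferInstance, hded, wt P, isWeight hB, genus_eq hB,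
    nonempty_equiv hB⟩

end Fermat.Agent.H3S27
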