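import Mathlib
import Fermat.Agent.H95W1

/-!
# S27-W3: duality for weighted Dedekind algebras (helper68)

Let `B` be a Dedekind domain over `K` with a weight `wt` (pole order at the unique place at
infinity).  Exactly one ideal class has a gap at `2g - 1`.  The proof uses Weil differentials:
`K`-linear functionals on `F = Frac B` killing an ideal and all elements of small weight.
-/

set_option autoImplicit false

open scoped nonZeroDivisors WithZero

namespace Fermat.Agent.H68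

open Fermat.Agent.H95

/-! ### Values in `ℤᵐ⁰` -/

/-- The map `WithBot ℕ → ℤᵐ⁰`, `⊥ ↦ 0`, `n ↦ exp n`. -/
def toZ0 (w : WithBot ℕ) : ℤᵐ⁰ := WithBot.recBotCoe 0 (fun n : ℕ => WithZero.exp (n : ℤ)) w

@[simp] lemma toZ0_bot : toZ0 ⊥ = 0 := rfl

@[simp] lemma toZ0_coe (n : ℕ) : toZ0 (n : WithBot ℕ) = WithZero.exp (n : ℤ) := rfl

lemma toZ0_add (a b : WithBot ℕ) : toZ0 (a + b) = toZ0 a * toZ0 b := by
  induction a with
  | bot => simp
  | coe a =>
    induction b with
    | bot => simp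
    | coe b =>
      simp only [← Nat.cast_withBot, ← Nat.cast_add, toZ0_coe]
      rw [Nat.cast_add, WithZero.exp_add]

lemma toZ0_strictMono : StrictMono toZ0 := by
  intro a b h
  induction b with
  | bot => exact absurd h not_lt_bot
  | coe b =>
    induction a with
    | bot => simp only [← Nat.cast_withBot, toZ0_coe, toZ0_bot, WithZero.exp_pos]
    | coe a =>
      have := WithBot.coe_lt_coe.1 h
      simp only [← Nat.cast_withBot, toZ0_coe, WithZero.exp_lt_exp]
      exact_mod_cast this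

lemma toZ0_le_iff {a b : WithBot ℕ} : toZ0 a ≤ toZ0 b ↔ a ≤ b := toZ0_strictMono.le_iff_le

lemma toZ0_lt_iff {a b : WithBot ℕ} : toZ0 a < toZ0 b ↔ a < b := toZ0_strictMono.lt_iff_lt

lemma toZ0_inj {a b : WithBot ℕ} : toZ0 a = toZ0 b ↔ a = b := toZ0_strictMono.injective.eq_iff

section

variable {K : Type*} {B : Type*} [Field K] [CommRing B] [Algebra K B] {wt : B → WithBot ℕ}

/-- The valuation attached to a weight. -/
noncomputable def wval (hw : IsWeight K wt) : Valuation B ℤᵐ⁰ where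
  toFun b := toZ0 (wt b)
  map_zero' := by rw [(hw.eq_bot_iff 0).2 rfl, toZ0_bot]
  map_one' := by
    have := hw.algebraMap 1 one_ne_zero
    rw [map_one] at this
    rw [this]
    exact toZ0_coe 0
  map_mul' a b := by rw [hw.mul, toZ0_add]
  map_add_le_max' a b := by
    have h := hw.add_le a b
    rcases le_max_iff.1 h with h | h
    · exact le_max_of_le_left (toZ0_le_iff.2 h)
    · exact le_max_of_le_right (toZ0_le_iff.2 h)

@[simp] lemma wval_apply (hw : IsWeight K wt) (b : B) : wval hw b = toZ0 (wt b) := rfl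

variable [IsDomain B] (F : Type*) [Field F] [Algebra B F] [IsFractionRing B F]

lemma le_supp_wval (hw : IsWeight K wt) : B⁰ ≤ (wval hw).supp.primeCompl := by
  intro b hb h
  have h' : wval hw b = 0 := h
  rw [wval_apply] at h'
  have : wt b = ⊥ := by
    rw [← toZ0_bot] at h'
    exact toZ0_inj.1 h'
  exact nonZeroDivisors.ne_zero hb ((hw.eq_bot_iff b).1 this)

/-- The extension of the weight to the fraction field. -/
noncomputable def fval (hw : IsWeight K wt) : Valuation F ℤᵐ⁰ :=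
  (wval hw).extendToLocalization (le_supp_wval hw) F

@[simp] lemma fval_algebraMap (hw : IsWeight K wt) (b : B) :
    fval F hw (algebraMap B F b) = toZ0 (wt b) := by
  rw [fval, Valuation.extendToLocalization_apply_map_apply, wval_apply]

variable [Algebra K F] [IsScalarTower K B F]

lemma fval_smul (hw : IsWeight K wt) {c : K} (hc : c ≠ 0) (f : F) :
    fval F hw (c • f) = fval F hw f := by
  rw [Algebra.smul_def, IsScalarTower.algebraMap_apply K B F, map_mul, fval_algebraMap,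
    hw.algebraMap c hc]
  have : toZ0 (0 : WithBot ℕ) = 1 := toZ0_coe 0
  rw [this, one_mul]

lemma fval_smul_le (hw : IsWeight K wt) (c : K) (f : F) :
    fval F hw (c • f) ≤ fval F hw f := by
  rcases eq_or_ne c 0 with rfl | hc
  · simp
  · exact (fval_smul F hw hc f).le

lemma exists_fval_sub_lt (hw : IsWeight K wt) {f g : F} (hf : f ≠ 0)
    (h : fval F hw f = fval F hw g) : ∃ c : K, fval F hw (f - c • g) < fval F hw f := by
  obtain ⟨a, b, hb, rfl⟩ := IsFractionRing.div_surjective (A := B) f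
  obtain ⟨a', b', hb', rfl⟩ := IsFractionRing.div_surjective (A := B) g
  have hb0 : algebraMap B F b ≠ 0 := by
    simpa using nonZeroDivisors.ne_zero hb
  have hb0' : algebraMap B F b' ≠ 0 := by
    simpa using nonZeroDivisors.ne_zero hb'
  have hvb : fval F hw (algebraMap B F b) ≠ 0 := (Valuation.ne_zero_iff _).2 hb0
  have hvb' : fval F hw (algebraMap B F b') ≠ 0 := (Valuation.ne_zero_iff _).2 hb0'
  have h1 : wt (a * b') = wt (a' * b) := by
    rw [← toZ0_inj, ← fval_algebraMap F hw, ← fval_algebraMap F hw, map_mul, map_mul, map_mul,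
      map_mul]
    rw [map_div₀, map_div₀, div_eq_div_iff hvb hvb'] at h
    exact h
  have ha : a * b' ≠ 0 := by
    refine mul_ne_zero ?_ (nonZeroDivisors.ne_zero hb')
    rintro rfl
    simp at hf
  obtain ⟨c, hc⟩ := hw.exists_sub_lt _ _ ha h1
  refine ⟨c, ?_⟩
  have h2 : algebraMap B F a / algebraMap B F b - c • (algebraMap B F a' / algebraMap B F b')
      = algebraMap B F (a * b' - c • (a' * b)) / (algebraMap B F b * algebraMap B F b') := by
    rw [map_sub, Algebra.smul_def, Algebra.smul_def, map_mul, map_mul, map_mul,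
      ← IsScalarTower.algebraMap_apply]
    field_simp
  have h3 : algebraMap B F a / algebraMap B F b
      = algebraMap B F (a * b') / (algebraMap B F b * algebraMap B F b') := by
    rw [map_mul]
    field_simp
  rw [h2, h3, map_div₀, map_div₀]
  refine div_lt_div_of_pos_right ?_ ?_
  · rw [fval_algebraMap, fval_algebraMap]
    exact toZ0_lt_iff.2 hc
  · rw [map_mul]
    exact zero_lt_iff.2 (mul_ne_zero hvb hvb')

omit [IsDomain B] in
lemma exists_wt_eq (hw : IsWeight K wt) : ∃ N : ℕ, ∀ n : ℕ, N ≤ n → ∃ b : B, wt b = n := by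
  obtain ⟨N, hN⟩ := hw.finite_gaps.bddAbove
  refine ⟨N + 1, fun n hn => ?_⟩
  by_contra hcon
  push Not at hcon
  have := hN (a := n) hcon
  omega

omit [Algebra K F] [IsScalarTower K B F] in
lemma exists_fval_eq (hw : IsWeight K wt) (n : ℤ) : ∃ f : F, fval F hw f = WithZero.exp n := by
  obtain ⟨N, hN⟩ := exists_wt_eq hw
  obtain ⟨a, ha⟩ := hN (N + n.toNat) (by omega)
  obtain ⟨b, hb⟩ := hN (N + (-n).toNat) (by omega)
  refine ⟨algebraMap B F a / algebraMap B F b, ?_⟩
  rw [map_div₀, fval_algebraMap, fval_algebraMap, ha, hb, toZ0_coe, toZ0_coe, ← WithZero.exp_sub]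
  congr 1
  push_cast
  omega

omit [Algebra K F] [IsScalarTower K B F] in
lemma fval_algebraMap_eq_iff (hw : IsWeight K wt) (b : B) (n : ℕ) :
    fval F hw (algebraMap B F b) = WithZero.exp (n : ℤ) ↔ wt b = n := by
  rw [fval_algebraMap, ← toZ0_coe, toZ0_inj]

omit [IsDomain B] in
lemma exists_mem_wt_eq (hw : IsWeight K wt) {J : Ideal B} (hJ : J ≠ ⊥) :
    ∃ N : ℕ, ∀ n : ℕ, N ≤ n → ∃ b ∈ J, wt b = n := by
  obtain ⟨N, hN⟩ := exists_wt_eq hw
  obtain ⟨d, hd, hd0⟩ := Submodule.exists_mem_ne_zero_of_ne_bot hJ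
  obtain ⟨δ, hδ⟩ : ∃ δ : ℕ, wt d = δ := by
    cases h : wt d with
    | bot => exact absurd ((hw.eq_bot_iff d).1 h) hd0
    | coe δ => exact ⟨δ, rfl⟩
  refine ⟨N + δ, fun n hn => ?_⟩
  obtain ⟨b, hb⟩ := hN (n - δ) (by omega)
  refine ⟨d * b, J.mul_mem_right _ hd, ?_⟩
  rw [hw.mul, hδ, hb, ← Nat.cast_add]
  congr 1
  omega

/-- A functional killing `F_{≤ s}` and one element of each value `> s` is zero. -/
lemma eq_zero_of_exists (hw : IsWeight K wt) (μ : F →ₗ[K] K) (s : ℤ)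
    (h : ∀ f, fval F hw f ≤ WithZero.exp s → μ f = 0)
    (h' : ∀ k : ℤ, s < k → ∃ e, fval F hw e = WithZero.exp k ∧ μ e = 0) : μ = 0 := by
  have key : ∀ n : ℕ, ∀ f, fval F hw f ≤ WithZero.exp (s + n) → μ f = 0 := by
    intro n
    induction n with
    | zero => intro f hf; exact h f (by simpa using hf)
    | succ n ih =>
      intro f hf
      rcases hf.lt_or_eq with hlt | heq
      · refine ih f ?_
        rcases eq_or_ne f 0 with rfl | hf0
        · simp
        · have hv : fval F hw f ≠ 0 := (Valuation.ne_zero_iff _).2 hf0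
          rw [← WithZero.log_lt_iff_lt_exp hv] at hlt
          rw [← WithZero.log_le_iff_le_exp hv]
          push_cast at hlt
          omega
      · obtain ⟨e, he, he'⟩ := h' (s + (n + 1 : ℕ)) (by push_cast; omega)
        have hf0 : f ≠ 0 := by
          rintro rfl
          rw [map_zero] at heq
          exact WithZero.exp_ne_zero heq.symm
        obtain ⟨c, hc⟩ := exists_fval_sub_lt F hw hf0 (heq.trans he.symm)
        have h1 : μ (f - c • e) = 0 := by
          refine ih _ ?_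
          rcases eq_or_ne (f - c • e) 0 with h0 | h0
          · rw [h0]; simp
          · have hv : fval F hw (f - c • e) ≠ 0 := (Valuation.ne_zero_iff _).2 h0
            rw [heq, ← WithZero.log_lt_iff_lt_exp hv] at hc
            rw [← WithZero.log_le_iff_le_exp hv]
            push_cast at hc
            omega
        rw [map_sub, map_smul, he', smul_zero, sub_zero] at h1
        exact h1
  ext f
  rcases eq_or_ne f 0 with rfl | hf0
  · simp
  · have hv : fval F hw f ≠ 0 := (Valuation.ne_zero_iff _).2 hf0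
    refine key (WithZero.log (fval F hw f) - s).toNat f ?_
    rw [← WithZero.log_le_iff_le_exp hv]
    omega

/-- Linear combinations of elements of consecutive weights. -/
lemma linComb_ne_zero (hw : IsWeight K wt) (N m : ℕ) (b : ℕ → B)
    (hb : ∀ i, wt (b i) = ((N + i : ℕ) : WithBot ℕ)) (c : Fin m → K) (hc : c ≠ 0) :
    ∑ i, c i • algebraMap B F (b i) ≠ 0 := by
  classical
  obtain ⟨i0, hi0⟩ := Function.ne_iff.1 hc
  have hne : (Finset.univ.filter fun i => c i ≠ 0).Nonempty := ⟨i0, by simpa using hi0⟩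
  set j := (Finset.univ.filter fun i => c i ≠ 0).max' hne with hj
  have hjc : c j ≠ 0 := by
    have := Finset.max'_mem _ hne
    rw [← hj] at this
    exact (Finset.mem_filter.1 this).2
  have hvj : fval F hw (c j • algebraMap B F (b j)) = WithZero.exp ((N + (j : ℕ) : ℕ) : ℤ) := by
    rw [fval_smul F hw hjc, fval_algebraMap, hb, toZ0_coe]
  have := Valuation.map_sum_eq_of_lt (fval F hw) (s := Finset.univ)
    (f := fun i : Fin m => c i • algebraMap B F (b i)) (j := j) (Finset.mem_univ _) (by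
      intro i hi
      have hij : i ≠ j := by simpa using hi
      rw [hvj]
      rcases eq_or_ne (c i) 0 with h0 | h0
      · simp [h0]
      · rw [fval_smul F hw h0, fval_algebraMap, hb, toZ0_coe, WithZero.exp_lt_exp]
        have : i ≤ j := by
          rw [hj]
          exact Finset.le_max' _ _ (by simpa using h0)
        have : i < j := lt_of_le_of_ne this hij
        have : (i : ℕ) < j := this
        push_cast
        omega)
  intro h0
  rw [h0, map_zero, hvj] at this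
  exact WithZero.exp_ne_zero this.symm

omit [IsDomain B] [IsFractionRing B F] in
lemma linComb_mem {m : ℕ} (b : ℕ → B) (c : Fin m → K) :
    ∃ b' : B, algebraMap B F b' = ∑ i, c i • algebraMap B F (b i) := by
  refine ⟨∑ i, c i • b i, ?_⟩
  rw [map_sum]
  refine Finset.sum_congr rfl fun i _ => ?_
  rw [Algebra.smul_def, map_mul, ← IsScalarTower.algebraMap_apply, ← Algebra.smul_def]

lemma linComb_le (hw : IsWeight K wt) (N m : ℕ) (b : ℕ → B)
    (hb : ∀ i, wt (b i) = ((N + i : ℕ) : WithBot ℕ)) (c : Fin m → K) (n : ℤ)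
    (hn : ∀ i : Fin m, (N : ℤ) + (i : ℕ) ≤ n) :
    fval F hw (∑ i, c i • algebraMap B F (b i)) ≤ WithZero.exp n := by
  refine Valuation.map_sum_le (fval F hw) fun i _ => ?_
  refine (fval_smul_le F hw _ _).trans ?_
  rw [fval_algebraMap, hb, toZ0_coe, WithZero.exp_le_exp]
  have := hn i
  push_cast
  omega

omit [CommRing B] [Algebra K B] [IsDomain B] [Field F] [Algebra B F] [IsFractionRing B F]
  [Algebra K F] [IsScalarTower K B F] in
lemma exists_nontrivial_relation (m1 m2 t : ℕ) (h : t < m1 + m2) (A1 : Fin m1 → Fin t → K)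
    (A2 : Fin m2 → Fin t → K) : ∃ (c1 : Fin m1 → K) (c2 : Fin m2 → K), (c1 ≠ 0 ∨ c2 ≠ 0) ∧
      ∀ j, ∑ i, c1 i * A1 i j = ∑ i, c2 i * A2 i j := by
  let Φ : ((Fin m1 → K) × (Fin m2 → K)) →ₗ[K] (Fin t → K) :=
    (Fintype.linearCombination K A1).coprod (-(Fintype.linearCombination K A2))
  have hker : LinearMap.ker Φ ≠ ⊥ := by
    apply LinearMap.ker_ne_bot_of_finrank_lt
    rw [Module.finrank_prod, Module.finrank_fin_fun, Module.finrank_fin_fun,
      Module.finrank_fin_fun]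
    exact h
  obtain ⟨⟨c1, c2⟩, hc, hc0⟩ := Submodule.exists_mem_ne_zero_of_ne_bot hker
  refine ⟨c1, c2, ?_, fun j => ?_⟩
  · by_contra hcon
    push Not at hcon
    exact hc0 (by rw [hcon.1, hcon.2]; rfl)
  · have h3 := congrFun (LinearMap.mem_ker.1 hc) j
    simp only [Φ, LinearMap.coprod_apply, LinearMap.neg_apply, Fintype.linearCombination_apply,
      Pi.add_apply, Pi.neg_apply, Pi.zero_apply, Finset.sum_apply, Pi.smul_apply,
      smul_eq_mul] at h3
    rwa [← sub_eq_add_neg, sub_eq_zero] at h3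

omit [Algebra K F] [IsScalarTower K B F] in
lemma fval_mul_le (hw : IsWeight K wt) {f g : F} {m n k : ℤ}
    (hf : fval F hw f ≤ WithZero.exp m) (hg : fval F hw g ≤ WithZero.exp n) (h : m + n ≤ k) :
    fval F hw (f * g) ≤ WithZero.exp k := by
  rw [map_mul]
  refine (mul_le_mul' hf hg).trans ?_
  rw [← WithZero.exp_add, WithZero.exp_le_exp]
  exact h

/-- Criterion for the equality of two twisted functionals. -/
lemma twist_eq_of_relation (hw : IsWeight K wt) {l1 l2 : F →ₗ[K] K}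
    {J1 J2 : Ideal B}
    (hk1 : ∀ z ∈ J1, l1 (algebraMap B F z) = 0) (hk2 : ∀ z ∈ J2, l2 (algebraMap B F z) = 0)
    {s1 s2 : ℤ} (hs1 : ∀ f, fval F hw f ≤ WithZero.exp s1 → l1 f = 0)
    (hs2 : ∀ f, fval F hw f ≤ WithZero.exp s2 → l2 f = 0)
    (b1 b2 : B) (N M : ℕ)
    (hv1 : fval F hw (algebraMap B F b1) ≤ WithZero.exp (N + s1))
    (hv2 : fval F hw (algebraMap B F b2) ≤ WithZero.exp (N + s2))
    (hM : ∀ n : ℕ, M ≤ n → ∃ b ∈ J1 * J2, wt b = n)
    (e : ℤ → F) (he : ∀ k, fval F hw (e k) = WithZero.exp k)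
    (hrel : ∀ j : Fin (M + N), l1 (algebraMap B F b1 * e (-N + 1 + (j : ℕ))) =
      l2 (algebraMap B F b2 * e (-N + 1 + (j : ℕ)))) (z : F) :
    l1 (algebraMap B F b1 * z) = l2 (algebraMap B F b2 * z) := by
  have happ : ∀ z, (l1 ∘ₗ LinearMap.mulLeft K (algebraMap B F b1) -
      l2 ∘ₗ LinearMap.mulLeft K (algebraMap B F b2)) z =
      l1 (algebraMap B F b1 * z) - l2 (algebraMap B F b2 * z) := fun z => rfl
  have hμ : l1 ∘ₗ LinearMap.mulLeft K (algebraMap B F b1) -
      l2 ∘ₗ LinearMap.mulLeft K (algebraMap B F b2) = 0 := by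
    refine eq_zero_of_exists F hw _ (-N) ?_ ?_
    · intro f hf
      rw [happ, hs1 _ (fval_mul_le F hw hv1 hf (by omega)),
        hs2 _ (fval_mul_le F hw hv2 hf (by omega)), sub_zero]
    · intro k hk
      rcases le_or_gt k (M : ℤ) with hkM | hkM
      · refine ⟨e k, he k, ?_⟩
        have hj : (k + N - 1).toNat < M + N := by omega
        have h3 := hrel ⟨(k + N - 1).toNat, hj⟩
        have h4 : -(N : ℤ) + 1 + (((k + N - 1).toNat : ℕ) : ℤ) = k := by omega
        simp only [h4] at h3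
        rw [happ, h3, sub_self]
      · obtain ⟨z, hz, hzk⟩ := hM k.toNat (by omega)
        have hz1 : z ∈ J1 := Ideal.mul_le_left hz
        have hz2 : z ∈ J2 := Ideal.mul_le_right hz
        have hkk : ((k.toNat : ℕ) : ℤ) = k := by omega
        refine ⟨algebraMap B F z, ?_, ?_⟩
        · rw [fval_algebraMap, hzk, toZ0_coe, hkk]
        · rw [happ, ← map_mul, ← map_mul, hk1 _ (J1.mul_mem_left _ hz1),
            hk2 _ (J2.mul_mem_left _ hz2), sub_zero]
  have := LinearMap.congr_fun hμ z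
  rwa [happ, LinearMap.zero_apply, sub_eq_zero] at this

/-- Weil differentials are proportional over `F`. -/
theorem exists_twist_eq (hw : IsWeight K wt) {l1 l2 : F →ₗ[K] K} (h1 : l1 ≠ 0) (h2 : l2 ≠ 0)
    {J1 J2 : Ideal B} (hJ1 : J1 ≠ ⊥) (hJ2 : J2 ≠ ⊥)
    (hk1 : ∀ z ∈ J1, l1 (algebraMap B F z) = 0) (hk2 : ∀ z ∈ J2, l2 (algebraMap B F z) = 0)
    {s1 s2 : ℤ} (hs1 : ∀ f, fval F hw f ≤ WithZero.exp s1 → l1 f = 0)
    (hs2 : ∀ f, fval F hw f ≤ WithZero.exp s2 → l2 f = 0) :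
    ∃ f : F, f ≠ 0 ∧ ∀ z, l2 z = l1 (f * z) := by
  obtain ⟨N0, hN0⟩ := exists_wt_eq hw
  choose b hb using fun i : ℕ => hN0 (N0 + i) (by omega)
  choose e he using exists_fval_eq F hw
  obtain ⟨M, hM⟩ := exists_mem_wt_eq hw (J := J1 * J2) (mul_ne_zero hJ1 hJ2)
  set N : ℕ := M + 2 * N0 + s1.natAbs + s2.natAbs + 5 with hN
  set m1 : ℕ := (N + s1 + 1 - N0).toNat with hm1
  set m2 : ℕ := (N + s2 + 1 - N0).toNat with hm2
  obtain ⟨c1, c2, hc0, hc⟩ := exists_nontrivial_relation (K := K) m1 m2 (M + N) (by omega)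
    (fun i j => l1 (algebraMap B F (b i) * e (-N + 1 + (j : ℕ))))
    (fun i j => l2 (algebraMap B F (b i) * e (-N + 1 + (j : ℕ))))
  obtain ⟨b1, hb1⟩ := linComb_mem F b c1
  obtain ⟨b2, hb2⟩ := linComb_mem F b c2
  have hv1 := linComb_le F hw N0 m1 b hb c1 (N + s1) (fun i => by have := i.2; omega)
  have hv2 := linComb_le F hw N0 m2 b hb c2 (N + s2) (fun i => by have := i.2; omega)
  have hne1 : c1 ≠ 0 → algebraMap B F b1 ≠ 0 := fun h => by
    rw [hb1]; exact linComb_ne_zero F hw N0 m1 b hb c1 h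
  have hne2 : c2 ≠ 0 → algebraMap B F b2 ≠ 0 := fun h => by
    rw [hb2]; exact linComb_ne_zero F hw N0 m2 b hb c2 h
  have hrel : ∀ j : Fin (M + N), l1 (algebraMap B F b1 * e (-N + 1 + (j : ℕ))) =
      l2 (algebraMap B F b2 * e (-N + 1 + (j : ℕ))) := by
    intro j
    rw [hb1, hb2, Finset.sum_mul, Finset.sum_mul, map_sum, map_sum]
    simp only [smul_mul_assoc, map_smul, smul_eq_mul]
    exact hc j
  rw [← hb1] at hv1
  rw [← hb2] at hv2
  have hμ' := twist_eq_of_relation F hw hk1 hk2 hs1 hs2 b1 b2 N M hv1 hv2 hM e he hrel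
  have h10 : algebraMap B F b1 ≠ 0 := by
    intro h0
    have hc2 : c2 ≠ 0 := by
      rcases hc0 with h | h
      · exact absurd h0 (hne1 h)
      · exact h
    apply h2
    ext z
    have := hμ' ((algebraMap B F b2)⁻¹ * z)
    rw [h0, zero_mul, map_zero, mul_inv_cancel_left₀ (hne2 hc2)] at this
    rw [← this, LinearMap.zero_apply]
  have h20 : algebraMap B F b2 ≠ 0 := by
    intro h0
    apply h1
    ext z
    have := hμ' ((algebraMap B F b1)⁻¹ * z)
    rw [h0, zero_mul, map_zero, mul_inv_cancel_left₀ h10] at this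
    rw [this, LinearMap.zero_apply]
  refine ⟨algebraMap B F b1 * (algebraMap B F b2)⁻¹, mul_ne_zero h10 (inv_ne_zero h20),
    fun z => ?_⟩
  rw [mul_assoc, hμ', mul_inv_cancel_left₀ h20]

/-- The submodule of elements of value `< exp m`. -/
noncomputable def below (hw : IsWeight K wt) (m : ℤ) : Submodule K F where
  carrier := {f | fval F hw f < WithZero.exp m}
  add_mem' := fun ha hb => Valuation.map_add_lt (fval F hw) ha hb
  zero_mem' := by simp
  smul_mem' := fun c f hf => (fval_smul_le F hw c f).trans_lt hf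

lemma mem_below (hw : IsWeight K wt) (m : ℤ) (f : F) :
    f ∈ below F hw m ↔ fval F hw f < WithZero.exp m := Iff.rfl

/-- Existence of differentials with prescribed gap. -/
theorem exists_diff (hw : IsWeight K wt) (J : Ideal B) (m : ℕ) (hm : ∀ z ∈ J, wt z ≠ m) :
    ∃ l : F →ₗ[K] K, (∀ z ∈ J, l (algebraMap B F z) = 0) ∧
      (∀ f, fval F hw f < WithZero.exp (m : ℤ) → l f = 0) ∧
      (∀ f, fval F hw f = WithZero.exp (m : ℤ) → l f ≠ 0) := by
  obtain ⟨e, he⟩ := exists_fval_eq F hw m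
  let p : Submodule K F :=
    Submodule.map (IsScalarTower.toAlgHom K B F).toLinearMap (J.restrictScalars K) ⊔
      below F hw m
  have hep : e ∉ p := by
    intro hep
    obtain ⟨_, ⟨z, hz, rfl⟩, f, hf, hef⟩ := Submodule.mem_sup.1 hep
    rw [mem_below] at hf
    have h1 : algebraMap B F z = e - f := by
      rw [← hef]
      simp
    have h2 : fval F hw (e - f) = fval F hw e :=
      Valuation.map_sub_eq_of_lt_left _ (by rw [he]; exact hf)
    rw [← h1, he, fval_algebraMap_eq_iff] at h2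
    exact hm z hz h2
  obtain ⟨l, hl, hlp⟩ := Submodule.exists_le_ker_of_notMem hep
  refine ⟨l, fun z hz => ?_, fun f hf => ?_, fun f hf => ?_⟩
  · exact LinearMap.mem_ker.1 (hlp (Submodule.mem_sup_left ⟨z, hz, rfl⟩))
  · exact LinearMap.mem_ker.1 (hlp (Submodule.mem_sup_right ((mem_below F hw _ _).2 hf)))
  · have hf0 : f ≠ 0 := by
      rintro rfl
      rw [map_zero] at hf
      exact WithZero.exp_ne_zero hf.symm
    obtain ⟨c, hc⟩ := exists_fval_sub_lt F hw hf0 (hf.trans he.symm)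
    have h1 : l (f - c • e) = 0 :=
      LinearMap.mem_ker.1 (hlp (Submodule.mem_sup_right
        ((mem_below F hw _ _).2 (by rw [← hf]; exact hc))))
    rw [map_sub, map_smul, sub_eq_zero] at h1
    rw [h1]
    refine smul_ne_zero ?_ hl
    rintro rfl
    rw [zero_smul, sub_zero] at hc
    exact lt_irrefl _ hc

omit [IsScalarTower K B F] in
/-- The set of `f` with `l (f B) = 0` is the given ideal if its gap `m` is maximal. -/
theorem mem_of_forall_eq_zero (hw : IsWeight K wt) {J : Ideal B} (hJ : J ≠ ⊥) {m : ℕ}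
    (hmax : ∀ J' : Ideal B, J' ≠ ⊥ → ∀ n : ℕ, (∀ z ∈ J', wt z ≠ n) →
      (n : ℤ) - cdeg K J' ≤ m - cdeg K J)
    {l : F →ₗ[K] K} (hl : ∀ z ∈ J, l (algebraMap B F z) = 0)
    (hlm : ∀ f, fval F hw f = WithZero.exp (m : ℤ) → l f ≠ 0) (f : F)
    (hf : ∀ b : B, l (f * algebraMap B F b) = 0) : ∃ z ∈ J, algebraMap B F z = f := by
  obtain ⟨a, d, hd, rfl⟩ := IsFractionRing.div_surjective (A := B) f
  have hd0 : d ≠ 0 := nonZeroDivisors.ne_zero hd
  have hdF : algebraMap B F d ≠ 0 := by simpa using hd0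
  obtain ⟨δ, hδ⟩ := hw.exists_nat hd0
  have hdJ : Ideal.span {d} * J ≠ ⊥ := by
    refine mul_ne_zero ?_ hJ
    rw [Ne, Ideal.zero_eq_bot, Ideal.span_singleton_eq_bot]
    exact hd0
  set J' : Ideal B := Ideal.span {d} * J ⊔ Ideal.span {a} with hJ'
  have hle : Ideal.span {d} * J ≤ J' := le_sup_left
  have hJ'0 : J' ≠ ⊥ := fun h => hdJ (le_bot_iff.1 (h ▸ hle))
  have hgap : ∀ z ∈ J', wt z ≠ ((m + δ : ℕ) : WithBot ℕ) := by
    intro z hz hzw
    obtain ⟨y, hy, x, hx, rfl⟩ := Submodule.mem_sup.1 hz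
    obtain ⟨j, hj, rfl⟩ := Ideal.mem_span_singleton_mul.1 hy
    obtain ⟨b, rfl⟩ := Ideal.mem_span_singleton'.1 hx
    have h1 : algebraMap B F j + algebraMap B F a / algebraMap B F d * algebraMap B F b =
        algebraMap B F (d * j + b * a) / algebraMap B F d := by
      rw [map_add, map_mul, map_mul]
      field_simp
    have h2 : l (algebraMap B F j + algebraMap B F a / algebraMap B F d * algebraMap B F b)
        = 0 := by
      rw [map_add, hl j hj, hf b, add_zero]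
    refine hlm _ ?_ h2
    rw [h1, map_div₀, fval_algebraMap, fval_algebraMap, hzw, hδ, toZ0_coe, toZ0_coe,
      ← WithZero.exp_sub]
    congr 1
    push_cast
    ring
  have h1 := hmax J' hJ'0 (m + δ) hgap
  have h2 := hw.cdeg_span_mul' hδ hJ
  have h3 : Ideal.span {d} * J = J' := hw.eq_of_le_of_cdeg_le hle hdJ (by
    push_cast at h1
    omega)
  have ha : a ∈ Ideal.span {d} * J := by
    rw [h3, hJ']
    exact Submodule.mem_sup_right (Ideal.mem_span_singleton_self a)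
  obtain ⟨j, hj, rfl⟩ := Ideal.mem_span_singleton_mul.1 ha
  refine ⟨j, hj, ?_⟩
  rw [map_mul]
  field_simp

end

section

variable {K : Type*} {B : Type*} [Field K] [CommRing B] [Algebra K B] {wt : B → WithBot ℕ}

lemma field_aux1 {F : Type*} [Field F] {a d z : F} (ha : a ≠ 0) (hd : d ≠ 0) :
    a * ((a / d)⁻¹ * z) = d * z := by
  field_simp

lemma field_aux2 {F : Type*} [Field F] {a d z : F} (hd : d ≠ 0) :
    d * (a / d * z) = a * z := by
  field_simp

/-- If `m` is a maximal gap of `J`, all gaps of `J` are of the form `m - (weight of B)`. -/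
theorem exists_wt_add_eq [IsDomain B] [IsNoetherianRing B] [IsIntegrallyClosed B]
    (hw : IsWeight K wt) {J : Ideal B} (hJ : J ≠ ⊥) {m : ℕ}
    (hmax : ∀ J' : Ideal B, J' ≠ ⊥ → ∀ n : ℕ, (∀ z ∈ J', wt z ≠ n) →
      (n : ℤ) - cdeg K J' ≤ m - cdeg K J)
    (hm : ∀ z ∈ J, wt z ≠ m) (n : ℕ) (hn : ∀ z ∈ J, wt z ≠ n) :
    ∃ (b : B) (k : ℕ), wt b = k ∧ k + n = m := by
  let F := FractionRing B
  obtain ⟨l, hl, hl1, hl2⟩ := exists_diff F hw J m hm
  obtain ⟨μ, hμ, hμ1, hμ2⟩ := exists_diff F hw J n hn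
  obtain ⟨em, hem⟩ := exists_fval_eq F hw m
  obtain ⟨en, hen⟩ := exists_fval_eq F hw n
  have hl0 : l ≠ 0 := fun h => hl2 em hem (by rw [h]; rfl)
  have hμ0 : μ ≠ 0 := fun h => hμ2 en hen (by rw [h]; rfl)
  obtain ⟨f, hf0, hf⟩ := exists_twist_eq F hw hl0 hμ0 hJ hJ hl hμ
    (s1 := (m : ℤ) - 1) (s2 := (n : ℤ) - 1)
    (fun f hf => hl1 f (hf.trans_lt (by rw [WithZero.exp_lt_exp]; omega)))
    (fun f hf => hμ1 f (hf.trans_lt (by rw [WithZero.exp_lt_exp]; omega)))
  -- `f J ⊆ J`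
  have hfJ : ∀ z ∈ J, ∃ z' ∈ J, algebraMap B F z' = f * algebraMap B F z := by
    intro z hz
    refine mem_of_forall_eq_zero F hw hJ hmax hl hl2 _ fun b => ?_
    rw [mul_assoc, ← hf, ← map_mul]
    exact hμ _ (J.mul_mem_right _ hz)
  have hint : IsIntegral B f := by
    refine isIntegral_of_smul_mem_submodule (M := F)
      (Submodule.map (Algebra.linearMap B F) J) ?_ ?_ f ?_
    · intro h
      obtain ⟨d, hd, hd0⟩ := Submodule.exists_mem_ne_zero_of_ne_bot hJ
      have h1 : algebraMap B F d ∈ Submodule.map (Algebra.linearMap B F) J := ⟨d, hd, rfl⟩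
      rw [h, Submodule.mem_bot] at h1
      exact hd0 (IsFractionRing.injective B F (by rw [h1, map_zero]))
    · exact Submodule.FG.map _ (IsNoetherian.noetherian J)
    · rintro _ ⟨z, hz, rfl⟩
      obtain ⟨z', hz', h⟩ := hfJ z hz
      exact ⟨z', hz', h⟩
  obtain ⟨b, hb⟩ := IsIntegrallyClosed.isIntegral_iff.1 hint
  have hb0 : b ≠ 0 := by
    rintro rfl
    exact hf0 (by rw [← hb, map_zero])
  obtain ⟨k, hk⟩ := hw.exists_nat hb0
  have hvf : fval F hw f = WithZero.exp (k : ℤ) := by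
    rw [← hb, fval_algebraMap, hk, toZ0_coe]
  refine ⟨b, k, hk, ?_⟩
  -- compare values
  rcases lt_trichotomy ((k : ℤ) + n) m with h | h | h
  · exfalso
    refine hμ2 en hen ?_
    rw [hf]
    refine hl1 _ ?_
    rw [map_mul, hvf, hen, ← WithZero.exp_add, WithZero.exp_lt_exp]
    exact h
  · omega
  · exfalso
    obtain ⟨e, he⟩ := exists_fval_eq F hw ((m : ℤ) - k)
    refine hl2 (f * e) ?_ ?_
    · rw [map_mul, hvf, he, ← WithZero.exp_add]
      congr 1
      omega
    · rw [← hf]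
      refine hμ1 _ ?_
      rw [he, WithZero.exp_lt_exp]
      omega

/-- Two ideals with maximal gaps are in the same class. -/
theorem exists_mul_eq_mul [IsDomain B] (hw : IsWeight K wt) {J1 J2 : Ideal B} (hJ1 : J1 ≠ ⊥)
    (hJ2 : J2 ≠ ⊥) {m1 m2 : ℕ}
    (hmax1 : ∀ J' : Ideal B, J' ≠ ⊥ → ∀ n : ℕ, (∀ z ∈ J', wt z ≠ n) →
      (n : ℤ) - cdeg K J' ≤ m1 - cdeg K J1)
    (hmax2 : ∀ J' : Ideal B, J' ≠ ⊥ → ∀ n : ℕ, (∀ z ∈ J', wt z ≠ n) →
      (n : ℤ) - cdeg K J' ≤ m2 - cdeg K J2)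
    (hm1 : ∀ z ∈ J1, wt z ≠ m1) (hm2 : ∀ z ∈ J2, wt z ≠ m2) :
    ∃ (x y : B) (_ : x ≠ 0) (_ : y ≠ 0), Ideal.span {x} * J1 = Ideal.span {y} * J2 := by
  let F := FractionRing B
  obtain ⟨l1, hl1, hl1', hl1''⟩ := exists_diff F hw J1 m1 hm1
  obtain ⟨l2, hl2, hl2', hl2''⟩ := exists_diff F hw J2 m2 hm2
  obtain ⟨e1, he1⟩ := exists_fval_eq F hw m1
  obtain ⟨e2, he2⟩ := exists_fval_eq F hw m2
  have hl10 : l1 ≠ 0 := fun h => hl1'' e1 he1 (by rw [h]; rfl)
  have hl20 : l2 ≠ 0 := fun h => hl2'' e2 he2 (by rw [h]; rfl)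
  obtain ⟨f, hf0, hf⟩ := exists_twist_eq F hw hl10 hl20 hJ1 hJ2 hl1 hl2
    (s1 := (m1 : ℤ) - 1) (s2 := (m2 : ℤ) - 1)
    (fun f hf => hl1' f (hf.trans_lt (by rw [WithZero.exp_lt_exp]; omega)))
    (fun f hf => hl2' f (hf.trans_lt (by rw [WithZero.exp_lt_exp]; omega)))
  have h12 : ∀ z ∈ J2, ∃ z' ∈ J1, algebraMap B F z' = f * algebraMap B F z := by
    intro z hz
    refine mem_of_forall_eq_zero F hw hJ1 hmax1 hl1 hl1'' _ fun b => ?_
    rw [mul_assoc, ← hf, ← map_mul]
    exact hl2 _ (J2.mul_mem_right _ hz)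
  have h21 : ∀ z ∈ J1, ∃ z' ∈ J2, algebraMap B F z' = f⁻¹ * algebraMap B F z := by
    intro z hz
    refine mem_of_forall_eq_zero F hw hJ2 hmax2 hl2 hl2'' _ fun b => ?_
    rw [hf, mul_assoc, mul_inv_cancel_left₀ hf0, ← map_mul]
    exact hl1 _ (J1.mul_mem_right _ hz)
  obtain ⟨a, d, hd, had⟩ := IsFractionRing.div_surjective (A := B) f
  have hd0 : d ≠ 0 := nonZeroDivisors.ne_zero hd
  have hdF : algebraMap B F d ≠ 0 := by simpa using hd0
  have ha0 : a ≠ 0 := by
    rintro rfl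
    exact hf0 (by rw [← had, map_zero, zero_div])
  have haF : algebraMap B F a ≠ 0 := by simpa using ha0
  have hinj : Function.Injective (algebraMap B F) := IsFractionRing.injective B F
  refine ⟨d, a, hd0, ha0, le_antisymm ?_ ?_⟩
  · intro x hx
    obtain ⟨z, hz, rfl⟩ := Ideal.mem_span_singleton_mul.1 hx
    obtain ⟨z', hz', h⟩ := h21 z hz
    refine Ideal.mem_span_singleton_mul.2 ⟨z', hz', hinj ?_⟩
    rw [map_mul, map_mul, h, ← had]
    exact field_aux1 haF hdF
  · intro x hx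
    obtain ⟨z, hz, rfl⟩ := Ideal.mem_span_singleton_mul.1 hx
    obtain ⟨z', hz', h⟩ := h12 z hz
    refine Ideal.mem_span_singleton_mul.2 ⟨z', hz', hinj ?_⟩
    rw [map_mul, map_mul, h, ← had]
    exact field_aux2 hdF

lemma not_mem_wts_iff (J : Ideal B) (n : ℕ) :
    n ∉ wts wt (J : Set B) ↔ ∀ z ∈ J, wt z ≠ n := by
  simp [wts]

lemma gap_le (hw : IsWeight K wt) {J : Ideal B} (hJ : J ≠ ⊥) {n : ℕ}
    (hn : ∀ z ∈ J, wt z ≠ n) : n + 1 ≤ 2 * genus wt + cdeg K J := by
  by_contra hcon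
  push Not at hcon
  have h1 : n - cdeg K J ∈ nset K wt J := hw.mem_nset hJ (by omega)
  obtain ⟨z, hz, hzn⟩ : n - cdeg K J + cdeg K J ∈ wts wt (J : Set B) := h1
  refine hn z hz ?_
  rw [hzn]
  congr 1
  omega

lemma exists_max_gap (hw : IsWeight K wt) (hg : genus wt ≠ 0) :
    ∃ J : Ideal B, J ≠ ⊥ ∧ ∃ m : ℕ, (∀ z ∈ J, wt z ≠ m) ∧
      ∀ J' : Ideal B, J' ≠ ⊥ → ∀ n : ℕ, (∀ z ∈ J', wt z ≠ n) →
      (n : ℤ) - cdeg K J' ≤ m - cdeg K J := by
  have := hw.isDomain
  have hbdd : ∃ b : ℤ, ∀ k : ℤ, (∃ J : Ideal B, J ≠ ⊥ ∧ ∃ m : ℕ, (∀ z ∈ J, wt z ≠ m) ∧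
      k = (m : ℤ) - cdeg K J) → k ≤ b := by
    refine ⟨2 * genus wt, ?_⟩
    rintro k ⟨J, hJ, m, hm, rfl⟩
    have := gap_le hw hJ hm
    omega
  have hex : ∃ k : ℤ, ∃ J : Ideal B, J ≠ ⊥ ∧ ∃ m : ℕ, (∀ z ∈ J, wt z ≠ m) ∧
      k = (m : ℤ) - cdeg K J := by
    have hne : (wts wt (Set.univ : Set B))ᶜ.Nonempty := by
      rw [Set.nonempty_iff_ne_empty]
      intro h
      apply hg
      rw [genus, h, Set.ncard_empty]
    obtain ⟨n, hn⟩ := hne
    refine ⟨(n : ℤ) - cdeg K (⊤ : Ideal B), ⊤, top_ne_bot, n, ?_, rfl⟩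
    intro z _ hz
    exact hn ⟨z, trivial, hz⟩
  obtain ⟨k, ⟨J, hJ, m, hm, rfl⟩, hk⟩ := Int.exists_greatest_of_bdd hbdd hex
  exact ⟨J, hJ, m, hm, fun J' hJ' n hn => hk _ ⟨J', hJ', n, hn, rfl⟩⟩

/-- The maximal gap over all ideals is `2g - 1 + cdeg J`. -/
theorem max_gap_eq [IsDomain B] [IsNoetherianRing B] [IsIntegrallyClosed B]
    (hw : IsWeight K wt) {J : Ideal B} (hJ : J ≠ ⊥) {m : ℕ}
    (hmax : ∀ J' : Ideal B, J' ≠ ⊥ → ∀ n : ℕ, (∀ z ∈ J', wt z ≠ n) →
      (n : ℤ) - cdeg K J' ≤ m - cdeg K J)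
    (hm : ∀ z ∈ J, wt z ≠ m) : m + 1 = 2 * genus wt + cdeg K J := by
  -- scale `J` so that `m` becomes large
  obtain ⟨N, hN⟩ := exists_wt_eq hw
  obtain ⟨d, hd⟩ := hN (N + 2 * genus wt) (by omega)
  set δ := N + 2 * genus wt with hδ
  have hd0 : d ≠ 0 := hw.ne_zero_of_wt hd
  have hJ' : Ideal.span {d} * J ≠ ⊥ := by
    refine mul_ne_zero ?_ hJ
    rw [Ne, Ideal.zero_eq_bot, Ideal.span_singleton_eq_bot]
    exact hd0
  have hc : cdeg K (Ideal.span {d} * J) = δ + cdeg K J := hw.cdeg_span_mul' hd hJ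
  have hwts := hw.wts_span_mul hd J
  have hm' : ∀ z ∈ Ideal.span {d} * J, wt z ≠ ((m + δ : ℕ) : WithBot ℕ) := by
    rw [← not_mem_wts_iff, hwts]
    rintro ⟨k, hk, hkm⟩
    have hkm' : k + δ = m + δ := hkm
    have : k = m := by omega
    subst this
    exact (not_mem_wts_iff J k).2 hm hk
  have hmax' : ∀ J' : Ideal B, J' ≠ ⊥ → ∀ n : ℕ, (∀ z ∈ J', wt z ≠ n) →
      (n : ℤ) - cdeg K J' ≤ (m + δ : ℕ) - cdeg K (Ideal.span {d} * J) := by
    intro J' h1 n hn
    have := hmax J' h1 n hn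
    rw [hc]
    push_cast
    omega
  -- gaps of the scaled ideal inject into the weights `≤ m + δ` of `B`
  have hcard : (wts wt ((Ideal.span {d} * J : Ideal B) : Set B))ᶜ.ncard ≤
      (wts wt (Set.univ : Set B) ∩ Set.Iio (m + δ + 1)).ncard := by
    refine Set.ncard_le_ncard_of_injOn (fun n => m + δ - n) ?_ ?_
      ((Set.finite_Iio _).subset Set.inter_subset_right)
    · intro n hn
      obtain ⟨b, k, hb, hk⟩ := exists_wt_add_eq hw hJ' hmax' hm' n
        ((not_mem_wts_iff _ _).1 hn)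
      have hk' : m + δ - n = k := by omega
      refine ⟨⟨b, trivial, ?_⟩, ?_⟩
      · show wt b = ((m + δ - n : ℕ) : WithBot ℕ)
        rw [hk', hb]
      · show m + δ - n < m + δ + 1
        omega
    · intro n hn n' hn' h
      obtain ⟨b, k, hb, hk⟩ := exists_wt_add_eq hw hJ' hmax' hm' n
        ((not_mem_wts_iff _ _).1 hn)
      obtain ⟨b', k', hb', hk'⟩ := exists_wt_add_eq hw hJ' hmax' hm' n'
        ((not_mem_wts_iff _ _).1 hn')
      have h' : m + δ - n = m + δ - n' := h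
      omega
  have h1 := IsWeight.ncard_inter_Iio (wts wt (Set.univ : Set B)) hw.finite_compl_univ
    (n := m + δ + 1) (by
      intro k hk
      by_contra hcon
      have := gap_le (J := (⊤ : Ideal B)) hw top_ne_bot (n := k) (by
        intro z _ hz
        exact hcon ⟨z, trivial, hz⟩)
      rw [hw.cdeg_top_wts] at this
      omega)
  have h2 := hw.ncard_compl_wts hJ'
  have h3 := gap_le hw hJ hm
  rw [hc] at h2
  have h4 : (wts wt (Set.univ : Set B))ᶜ.ncard = genus wt := rfl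
  omega

/-- `nset` is invariant under multiplication by a principal ideal. -/
lemma nset_span_mul (hw : IsWeight K wt) {d : B} (hd : d ≠ 0) {J : Ideal B} (hJ : J ≠ ⊥) :
    nset K wt (Ideal.span {d} * J) = nset K wt J := by
  obtain ⟨δ, hδ⟩ := hw.exists_nat hd
  ext n
  show n + cdeg K (Ideal.span {d} * J) ∈ wts wt ((Ideal.span {d} * J : Ideal B) : Set B) ↔
    n + cdeg K J ∈ wts wt (J : Set B)
  rw [hw.cdeg_span_mul' hδ hJ, hw.wts_span_mul hδ]
  constructor
  · rintro ⟨k, hk, hkn⟩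
    have : k + δ = n + (δ + cdeg K J) := hkn
    have h : k = n + cdeg K J := by omega
    exact h ▸ hk
  · intro h
    exact ⟨_, h, by show n + cdeg K J + δ = n + (δ + cdeg K J); omega⟩

lemma nset_eq_of_mk0_eq [IsDedekindDomain B] (hw : IsWeight K wt) {I J : (Ideal B)⁰}
    (h : ClassGroup.mk0 I = ClassGroup.mk0 J) : nset K wt (I : Ideal B) = nset K wt (J : Ideal B) := by
  obtain ⟨x, y, hx, hy, hxy⟩ := ClassGroup.mk0_eq_mk0_iff.1 h
  have hI : (I : Ideal B) ≠ ⊥ := nonZeroDivisors.ne_zero I.2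
  have hJ : (J : Ideal B) ≠ ⊥ := nonZeroDivisors.ne_zero J.2
  rw [← nset_span_mul hw hx hI, hxy, nset_span_mul hw hy hJ]

/-- **Duality**: exactly one class has a gap at `2g - 1`. -/
theorem duality [IsDedekindDomain B] (hw : IsWeight K wt) :
    ∃! κ : ClassGroup B, ∀ J : (Ideal B)⁰, ClassGroup.mk0 J = κ →
      ∀ n ∈ nset K wt (J : Ideal B), n + 1 ≠ 2 * genus wt := by
  rcases Nat.eq_zero_or_pos (genus wt) with hg | hg
  · -- genus `0`: every class is trivial
    refine ⟨1, fun J _ n _ => by omega, fun κ _ => ?_⟩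
    obtain ⟨J, rfl⟩ := ClassGroup.mk0_surjective κ
    have hJ : (J : Ideal B) ≠ ⊥ := nonZeroDivisors.ne_zero J.2
    obtain ⟨f, hf, hfn⟩ : 0 + cdeg K (J : Ideal B) ∈ wts wt ((J : Ideal B) : Set B) :=
      hw.mem_nset hJ (by omega)
    have hf0 := hw.ne_zero_of_wt hfn
    have h1 : Ideal.span {f} = (J : Ideal B) := by
      refine hw.eq_of_le_of_cdeg_le ((Ideal.span_singleton_le_iff_mem _).2 hf) ?_ ?_
      · rwa [Ne, Ideal.span_singleton_eq_bot]
      · rw [hw.cdeg_span' hfn]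
        omega
    have h2 : (J : Ideal B).IsPrincipal := ⟨⟨f, h1.symm⟩⟩
    exact (ClassGroup.mk0_eq_one_iff J.2).2 h2
  · obtain ⟨J, hJ, m, hm, hmax⟩ := exists_max_gap hw hg.ne'
    have hmg := max_gap_eq hw hJ hmax hm
    refine ⟨ClassGroup.mk0 ⟨J, mem_nonZeroDivisors_of_ne_zero hJ⟩, ?_, ?_⟩
    · intro J' hJ' n hn hng
      rw [nset_eq_of_mk0_eq hw hJ'] at hn
      obtain ⟨z, hz, hzn⟩ : n + cdeg K J ∈ wts wt (J : Set B) := hn
      refine hm z hz ?_
      rw [hzn]
      congr 1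
      omega
    · intro κ hκ
      obtain ⟨I, rfl⟩ := ClassGroup.mk0_surjective κ
      have hI : (I : Ideal B) ≠ ⊥ := nonZeroDivisors.ne_zero I.2
      have hgapI : ∀ z ∈ (I : Ideal B), wt z ≠ ((2 * genus wt - 1 + cdeg K (I : Ideal B) : ℕ) :
          WithBot ℕ) := by
        intro z hz hzn
        exact hκ I rfl (2 * genus wt - 1) ⟨z, hz, hzn⟩ (by omega)
      have hmaxI : ∀ J' : Ideal B, J' ≠ ⊥ → ∀ n : ℕ, (∀ z ∈ J', wt z ≠ n) →
          (n : ℤ) - cdeg K J' ≤ (2 * genus wt - 1 + cdeg K (I : Ideal B) : ℕ) -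
            cdeg K (I : Ideal B) := by
        intro J' hJ' n hn
        have := gap_le hw hJ' hn
        omega
      obtain ⟨x, y, hx, hy, hxy⟩ := exists_mul_eq_mul hw hI hJ hmaxI hmax hgapI hm
      exact ClassGroup.mk0_eq_mk0_iff.2 ⟨x, y, hx, hy, hxy⟩

end

end Fermat.Agent.H68
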