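import Fermat.Agent.H63S27W4
import Fermat.Agent.H68Duality

set_option autoImplicit false

namespace Fermat.Agent.H63

open Fermat.Agent.H95 IsDedekindDomain
open scoped nonZeroDivisors

/-- The zeta data attached to a weighted Dedekind algebra with a Frobenius. -/
theorem exists_zetaData {K B : Type*} [Field K] [CommRing B] [Algebra K B] {wt : B → WithBot ℕ}
    [IsAlgClosed K] [IsDedekindDomain B] (p : ℕ) [Fact p.Prime] [CharP K p] (e : ℕ) (he : 0 < e)
    (hK : ∀ c : K, ∃ m, 0 < m ∧ c ^ p ^ m = c) (hw : IsWeight K wt) (φ : B ≃+* B)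
    (hφ : IsFrob K (p ^ e) wt φ) :
    ∃ Z : ZetaData (ClassGroup B) (HeightOneSpectrum B), Z.q = p ^ e ∧ Z.g = genus wt :=
  exists_zetaData_of p e he hK hw φ hφ (Fermat.Agent.H68.duality hw)

end Fermat.Agent.H63
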