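import Fermat.Agent.H77FOTheta

/-!
# Lefschetz transfer for first order predicates (S27, job FO1, part D)
-/

set_option autoImplicit false

open FirstOrder FirstOrder.Language Polynomial
open Fermat.Agent.H95

namespace Fermat.Agent.H77.FOL

universe u v

/-- Lefschetz principle for a uniformly first order predicate. -/
theorem lefschetz {α : Type} [Finite α] {P : Pred.{u} α} (hP : FO P)
    (hp : {p : Nat.Primes | ∃ (K : Type u) (_ : Field K) (_ : IsAlgClosed K) (_ : CharP K p),
      ∀ c : α → K, P K c}.Infinite)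
    (K : Type u) [Field K] [IsAlgClosed K] [CharZero K] (c : α → K) : P K c := by
  obtain ⟨φ, hφ⟩ := hP
  let ψ : Language.ring.Sentence := Formula.iAlls α (φ.relabel Sum.inr : Language.ring.Formula (Empty ⊕ α))
  have hψ : ∀ (L : Type u) [Field L] [IsAlgClosed L] [FirstOrder.Ring.CompatibleRing L],
      (L ⊨ ψ ↔ ∀ c : α → L, P L c) := by
    intro L _ _ _
    show Formula.Realize ψ _ ↔ _
    rw [Formula.realize_iAlls]
    refine forall_congr' fun c => ?_
    rw [Formula.realize_relabel, Sum.elim_comp_inr]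
    exact hφ L c
  have h0 : Theory.ACF 0 ⊨ᵇ ψ := by
    rw [FirstOrder.Field.ACF_zero_realize_iff_infinite_ACF_prime_realize]
    refine hp.mono ?_
    rintro p ⟨L, _, _, _, hL⟩
    let _ := FirstOrder.Ring.compatibleRingOfRing L
    show Theory.ACF p ⊨ᵇ ψ
    rw [← (FirstOrder.Field.ACF_isComplete (Or.inl p.2)).realize_sentence_iff ψ L, hψ]
    exact hL
  let _ := FirstOrder.Ring.compatibleRingOfRing K
  have hK : CharP K 0 := inferInstance
  have h1 := ((FirstOrder.Field.ACF_isComplete (Or.inr rfl)).realize_sentence_iff ψ K).mpr h0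
  rw [hψ] at h1
  exact h1 c

theorem isAlgClosed_of_ringEquiv {k : Type v} {L : Type u} [Field k] [Field L] [IsAlgClosed k]
    (e : k ≃+* L) : IsAlgClosed L := by
  apply IsAlgClosed.of_exists_root
  intro p hmp hp
  have hpe : degree (p.map e.symm.toRingHom) ≠ 0 := by
    rw [degree_map]
    exact ne_of_gt (degree_pos_of_irreducible hp)
  obtain ⟨x, hx⟩ := IsAlgClosed.exists_root (k := k) (p.map e.symm.toRingHom) hpe
  refine ⟨e x, ?_⟩
  rw [IsRoot] at hx
  apply e.symm.injective
  rw [map_zero, ← hx]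
  clear hx hpe hp hmp
  induction p using Polynomial.induction_on <;> simp_all

/-- Locally finite model of `ACF_p` in any universe. -/
theorem exists_locallyFinite (p : ℕ) [Fact p.Prime] :
    ∃ (K : Type u) (_ : Field K) (_ : IsAlgClosed K) (_ : CharP K p),
      ∀ c : K, ∃ m, 0 < m ∧ c ^ p ^ m = c := by
  have e : ULift.{u} (AlgebraicClosure (ZMod p)) ≃+* AlgebraicClosure (ZMod p) := ULift.ringEquiv
  refine ⟨ULift.{u} (AlgebraicClosure (ZMod p)), inferInstance,
    isAlgClosed_of_ringEquiv e.symm, charP_of_injective_ringHom (f := (e.symm : AlgebraicClosure (ZMod p) →+* ULift.{u} (AlgebraicClosure (ZMod p)))) e.symm.injective p, ?_⟩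
  intro c
  have key : ∀ d : AlgebraicClosure (ZMod p), ∃ m, 0 < m ∧ d ^ p ^ m = d := by
    intro d
    have hint : IsIntegral (ZMod p) d := Algebra.IsIntegral.isIntegral d
    have hfin : FiniteDimensional (ZMod p) (IntermediateField.adjoin (ZMod p) {d}) :=
      IntermediateField.adjoin.finiteDimensional hint
    have hF : Finite (IntermediateField.adjoin (ZMod p) {d}) := Module.finite_of_finite (ZMod p)
    have : Fintype (IntermediateField.adjoin (ZMod p) {d}) := Fintype.ofFinite _
    obtain ⟨n, hn, hcard⟩ := FiniteField.card (IntermediateField.adjoin (ZMod p) {d}) p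
    refine ⟨n, n.pos, ?_⟩
    have h1 := FiniteField.pow_card (⟨d, IntermediateField.mem_adjoin_simple_self (ZMod p) d⟩ :
      IntermediateField.adjoin (ZMod p) {d})
    rw [hcard] at h1
    exact congrArg Subtype.val h1
  obtain ⟨m, hm, h⟩ := key (e c)
  refine ⟨m, hm, e.injective ?_⟩
  rw [map_pow, h]

theorem natCard_eq_of {G : Type*} [CommMonoid G] (n M : ℕ) (hM : 0 < M)
    (h1 : ∃ S : Finset G, S.card = M ∧ ∀ κ ∈ S, κ ^ n = 1)
    (h2 : ¬ ∃ S : Finset G, S.card = M + 1 ∧ ∀ κ ∈ S, κ ^ n = 1) :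
    Nat.card {κ : G // κ ^ n = 1} = M := by
  classical
  obtain ⟨S, hS, hS'⟩ := h1
  have hall : ∀ κ : G, κ ^ n = 1 → κ ∈ S := by
    intro κ hκ
    by_contra hn
    refine h2 ⟨insert κ S, by rw [Finset.card_insert_of_notMem hn, hS], ?_⟩
    intro κ' hκ'
    rcases Finset.mem_insert.mp hκ' with h | h
    · rw [h]; exact hκ
    · exact hS' κ' h
  have : {κ : G // κ ^ n = 1} ≃ S :=
    Equiv.subtypeEquivRight fun κ => ⟨hall κ, hS' κ⟩
  rw [Nat.card_congr this, Nat.card_eq_fintype_card, Fintype.card_coe, hS]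

theorem exists_of_natCard {G : Type*} [CommMonoid G] (n M : ℕ) (hM : 0 < M)
    (h : Nat.card {κ : G // κ ^ n = 1} = M) :
    (∃ S : Finset G, S.card = M ∧ ∀ κ ∈ S, κ ^ n = 1) ∧
    ¬ ∃ S : Finset G, S.card = M + 1 ∧ ∀ κ ∈ S, κ ^ n = 1 := by
  classical
  have hfin : Finite {κ : G // κ ^ n = 1} := Nat.finite_of_card_ne_zero (by omega)
  have hfin' : {κ : G | κ ^ n = 1}.Finite := hfin
  have hcard : hfin'.toFinset.card = M := by
    rw [← h, ← Set.ncard_eq_toFinset_card _ hfin']
    rfl
  refine ⟨⟨hfin'.toFinset, hcard, fun κ hκ => by simpa using hκ⟩, ?_⟩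
  rintro ⟨S, hS, hS'⟩
  have : S ⊆ hfin'.toFinset := fun κ hκ => by simpa using hS' κ hκ
  have := Finset.card_le_card this
  omega

/-- `transfer`, with the remaining parts of the dictionary as hypotheses. -/
theorem transfer_of (s : Shape) (n M : ℕ) (hn : 0 < n) (hM : 0 < M)
    (hM2 : ∀ (K : Type u) [Field K] (c : s.Idx → K), s.IsTable c →
      ∃ (B : Type u) (_ : CommRing B) (_ : Algebra K B) (wt : B → WithBot ℕ) (x : B)
        (y : Fin s.a → B), s.IsModel c wt x y)
    (hM3 : ∀ (K : Type u) [Field K] [IsAlgClosed K] (B : Type u) [CommRing B] [Algebra K B]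
      (wt : B → WithBot ℕ) (c : s.Idx → K) (x : B) (y : Fin s.a → B), s.IsModel c wt x y →
      s.IsSmooth c → IsDedekindDomain B)
    (hT : ∀ (K : Type u) [Field K] [IsAlgClosed K] (B : Type u) [CommRing B] [Algebra K B]
      [IsDedekindDomain B] (wt : B → WithBot ℕ) (c : s.Idx → K) (x : B) (y : Fin s.a → B),
      s.IsModel c wt x y → ∀ M, Theta s n (n * (3 * s.g + s.a) + 2) M c ↔
        ∃ S : Finset (ClassGroup B), S.card = M ∧ ∀ κ ∈ S, κ ^ n = 1)
    (hp : {p : Nat.Primes | ∀ (K : Type u) [Field K] [IsAlgClosed K] [CharP K p],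
      (∀ c : K, ∃ m, 0 < m ∧ c ^ (p : ℕ) ^ m = c) →
      ∀ (B : Type u) [CommRing B] [Algebra K B] [IsDedekindDomain B] (wt : B → WithBot ℕ)
        (x : B) (y : Fin s.a → B) (c : s.Idx → K), s.IsModel c wt x y →
        Nat.card {κ : ClassGroup B // κ ^ n = 1} = M}.Infinite)
    (K : Type u) [Field K] [IsAlgClosed K] [CharZero K] (B : Type v) [CommRing B] [Algebra K B]
    [IsDedekindDomain B] (wt : B → WithBot ℕ) (x : B) (y : Fin s.a → B) (c : s.Idx → K)
    (h : s.IsModel c wt x y) (hM1' : s.IsTable c) (hM3' : s.IsSmooth c)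
    (hT' : ∀ M, Theta s n (n * (3 * s.g + s.a) + 2) M c ↔
        ∃ S : Finset (ClassGroup B), S.card = M ∧ ∀ κ ∈ S, κ ^ n = 1) :
    Nat.card {κ : ClassGroup B // κ ^ n = 1} = M := by
  have key : ∀ P : ∀ (K : Type u) [Field K], (s.Idx → K) → Prop, FO P →
      (∀ (K : Type u) [Field K] [IsAlgClosed K] (B : Type u) [CommRing B] [Algebra K B]
        [IsDedekindDomain B] (wt : B → WithBot ℕ) (c : s.Idx → K) (x : B) (y : Fin s.a → B),
        s.IsModel c wt x y → Nat.card {κ : ClassGroup B // κ ^ n = 1} = M → P K c) → P K c := by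
    intro P hP hPM
    refine lefschetz (P := fun K _ c => s.IsTable c → s.IsSmooth c → P K c) ?_ ?_ K c hM1' hM3'
    · exact fo_imp (fo_isTable s) (fo_imp (fo_isSmooth s) hP)
    · refine hp.mono ?_
      intro p hp'
      have : Fact (p : ℕ).Prime := ⟨p.2⟩
      obtain ⟨L, _, _, _, hL⟩ := exists_locallyFinite.{u} (p : ℕ)
      refine ⟨L, inferInstance, inferInstance, inferInstance, ?_⟩
      intro c hc1 hc2
      obtain ⟨B', _, _, wt', x', y', hB'⟩ := hM2 L c hc1
      have : IsDedekindDomain B' := hM3 L B' wt' c x' y' hB' hc2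
      exact hPM L B' wt' c x' y' hB' (hp' L hL B' wt' x' y' c hB')
  refine natCard_eq_of n M hM ?_ ?_
  · rw [← hT' M]
    refine key (fun K _ c => Theta s n (n * (3 * s.g + s.a) + 2) M c) (fo_theta s _ _ _) ?_
    intro K _ _ B _ _ _ wt c x y h hcard
    rw [hT K B wt c x y h M]
    exact (exists_of_natCard n M hM hcard).1
  · rw [← hT' (M + 1)]
    refine key (fun K _ c => ¬ Theta s n (n * (3 * s.g + s.a) + 2) (M + 1) c)
      (fo_not (fo_theta s _ _ _)) ?_
    intro K _ _ B _ _ _ wt c x y h hcard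
    rw [hT K B wt c x y h (M + 1)]
    exact (exists_of_natCard n M hM hcard).2

end Fermat.Agent.H77.FOL
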