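import Fermat.Agent.H68ThetaIff
import Fermat.Agent.H77Transfer

/-!
# S27: transfer of torsion counts from positive characteristic to characteristic zero (helper68)

`H77.FOL.transfer_of` for `ThetaB`, with `thetaB_iff` plugged in. Only M2 (existence of a model of a
table) and M3 (smooth = Dedekind) remain as hypotheses.
-/

set_option autoImplicit false

open Fermat.Agent.H95 Fermat.Agent.H77.FOL

namespace Fermat.Agent.H68

universe u v

theorem transferB_of (s : Shape) (n M : ℕ) (hn : 0 < n) (hM : 0 < M)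
    (hM2 : ∀ (K : Type u) [Field K] (c : s.Idx → K), s.IsTable c →
      ∃ (B : Type u) (_ : CommRing B) (_ : Algebra K B) (wt : B → WithBot ℕ) (x : B)
        (y : Fin s.a → B), s.IsModel c wt x y)
    (hM3 : ∀ (K : Type u) [Field K] [IsAlgClosed K] (B : Type u) [CommRing B] [Algebra K B]
      (wt : B → WithBot ℕ) (c : s.Idx → K) (x : B) (y : Fin s.a → B), s.IsModel c wt x y →
      s.IsSmooth c → IsDedekindDomain B)
    (hp : {p : Nat.Primes | ∀ (K : Type u) [Field K] [IsAlgClosed K] [CharP K p],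
      (∀ c : K, ∃ m, 0 < m ∧ c ^ (p : ℕ) ^ m = c) →
      ∀ (B : Type u) [CommRing B] [Algebra K B] [IsDedekindDomain B] (wt : B → WithBot ℕ)
        (x : B) (y : Fin s.a → B) (c : s.Idx → K), s.IsModel c wt x y →
        Nat.card {κ : ClassGroup B // κ ^ n = 1} = M}.Infinite)
    (K : Type u) [Field K] [IsAlgClosed K] [CharZero K] (B : Type v) [CommRing B] [Algebra K B]
    [IsDedekindDomain B] (wt : B → WithBot ℕ) (x : B) (y : Fin s.a → B) (c : s.Idx → K)
    (h : s.IsModel c wt x y) (hM3' : s.IsSmooth c) :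
    Nat.card {κ : ClassGroup B // κ ^ n = 1} = M := by
  have key : ∀ P : ∀ (K : Type u) [Field K], (s.Idx → K) → Prop, FO P →
      (∀ (K : Type u) [Field K] [IsAlgClosed K] (B : Type u) [CommRing B] [Algebra K B]
        [IsDedekindDomain B] (wt : B → WithBot ℕ) (c : s.Idx → K) (x : B) (y : Fin s.a → B),
        s.IsModel c wt x y → Nat.card {κ : ClassGroup B // κ ^ n = 1} = M → P K c) → P K c := by
    intro P hP hPM
    refine lefschetz (P := fun K _ c => s.IsTable c → s.IsSmooth c → P K c) ?_ ?_ K c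
      (H77.M.isTable h) hM3'
    · exact fo_imp (fo_isTable s) (fo_imp (fo_isSmooth s) hP)
    · refine hp.mono ?_
      intro p hp'
      have : Fact (p : ℕ).Prime := ⟨p.2⟩
      obtain ⟨L, _, _, _, hL⟩ := exists_locallyFinite.{u} (p : ℕ)
      refine ⟨L, inferInstance, inferInstance, inferInstance, ?_⟩
      intro c hc1 hc2
      obtain ⟨B', _, _, wt', x', y', hB'⟩ := hM2 L c hc1
      have : IsDedekindDomain B' := hM3 L B' wt' c x' y' hB' hc2
      exact hPM L B' wt' c x' y' hB' (hp' L hL B' wt' x' y' c hB')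
  refine natCard_eq_of n M hM ?_ ?_
  · rw [← thetaB_iff h n hn M]
    refine key (fun K _ c => ThetaB s n (n * (3 * s.g + s.a) + 2) M c) (fo_thetaB s _ _ _) ?_
    intro K _ _ B _ _ _ wt c x y h hcard
    rw [thetaB_iff h n hn M]
    exact (exists_of_natCard n M hM hcard).1
  · rw [← thetaB_iff h n hn (M + 1)]
    refine key (fun K _ c => ¬ ThetaB s n (n * (3 * s.g + s.a) + 2) (M + 1) c)
      (fo_not (fo_thetaB s _ _ _)) ?_
    intro K _ _ B _ _ _ wt c x y h hcard
    rw [thetaB_iff h n hn (M + 1)]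
    exact (exists_of_natCard n M hM hcard).2

end Fermat.Agent.H68
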