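import Fermat.Agent.H77Table

/-!
# S27 (M2): the algebra of a valid table
-/

set_option autoImplicit false

open Polynomial Fermat.Agent.H95

namespace Fermat.Agent.H77.M

universe u

section Tmul

variable {s : Shape} {K : Type u} [Field K] {c : s.Idx → K}

theorem tmul_apply (c : s.Idx → K) (u v : Fin s.a → K[X]) (k : Fin s.a) :
    s.tmul c u v k = ∑ i, ∑ j, u i * v j * s.C c i j k := rfl

theorem tmul_add (u v w : Fin s.a → K[X]) : s.tmul c u (v + w) = s.tmul c u v + s.tmul c u w := by
  funext k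
  simp only [tmul_apply, Pi.add_apply, mul_add, add_mul, Finset.sum_add_distrib]

theorem add_tmul (u v w : Fin s.a → K[X]) : s.tmul c (u + v) w = s.tmul c u w + s.tmul c v w := by
  funext k
  simp only [tmul_apply, Pi.add_apply, add_mul, Finset.sum_add_distrib]

theorem tmul_smul (p : K[X]) (u v : Fin s.a → K[X]) : s.tmul c u (p • v) = p • s.tmul c u v := by
  funext k
  simp only [tmul_apply, Pi.smul_apply, smul_eq_mul, Finset.mul_sum]
  exact Finset.sum_congr rfl fun i _ => Finset.sum_congr rfl fun j _ => by ring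

theorem smul_tmul (p : K[X]) (u v : Fin s.a → K[X]) : s.tmul c (p • u) v = p • s.tmul c u v := by
  funext k
  simp only [tmul_apply, Pi.smul_apply, smul_eq_mul, Finset.mul_sum]
  exact Finset.sum_congr rfl fun i _ => Finset.sum_congr rfl fun j _ => by ring

theorem tmul_comm (h : s.IsTable c) (u v : Fin s.a → K[X]) : s.tmul c u v = s.tmul c v u := by
  funext k
  simp only [tmul_apply]
  rw [Finset.sum_comm]
  refine Finset.sum_congr rfl fun i _ => Finset.sum_congr rfl fun j _ => ?_
  rw [h.comm]
  ring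

theorem single_tmul_single (i j : Fin s.a) (p q : K[X]) :
    s.tmul c (Pi.single i p) (Pi.single j q) = (p * q) • s.C c i j := by
  funext k
  rw [tmul_apply, Finset.sum_eq_single i, Finset.sum_eq_single j]
  · simp
  · intro b _ hb
    rw [Pi.single_eq_of_ne hb]
    simp
  · intro h; exact absurd (Finset.mem_univ _) h
  · intro b _ hb
    apply Finset.sum_eq_zero
    intro l _
    rw [Pi.single_eq_of_ne hb]
    simp
  · intro h; exact absurd (Finset.mem_univ _) h

theorem one_tmul (h : s.IsTable c) (u : Fin s.a → K[X]) : s.tmul c (Pi.single 0 1) u = u := by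
  funext k
  rw [tmul_apply, Finset.sum_eq_single 0]
  · simp only [Pi.single_eq_same, one_mul]
    rw [Finset.sum_eq_single k]
    · rw [h.one, if_pos rfl, mul_one]
    · intro b _ hb
      rw [h.one, if_neg hb, mul_zero]
    · intro h; exact absurd (Finset.mem_univ _) h
  · intro b _ hb
    apply Finset.sum_eq_zero
    intro l _
    rw [Pi.single_eq_of_ne hb]
    simp
  · intro h; exact absurd (Finset.mem_univ _) h

theorem tmul_assoc (h : s.IsTable c) (u v w : Fin s.a → K[X]) :
    s.tmul c (s.tmul c u v) w = s.tmul c u (s.tmul c v w) := by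
  funext m
  have e1 : s.tmul c (s.tmul c u v) w m =
      ∑ i, ∑ j, ∑ k, u i * v j * w k * ∑ l, s.C c i j l * s.C c l k m := by
    simp only [tmul_apply, Finset.sum_mul, Finset.mul_sum]
    -- LHS: ∑ l, ∑ k, ∑ i, ∑ j
    rw [Finset.sum_congr rfl fun l _ => Finset.sum_comm]
    rw [Finset.sum_comm]
    refine Finset.sum_congr rfl fun i _ => ?_
    rw [Finset.sum_congr rfl fun l _ => Finset.sum_comm]
    rw [Finset.sum_comm]
    refine Finset.sum_congr rfl fun j _ => ?_
    rw [Finset.sum_comm]
    refine Finset.sum_congr rfl fun k _ => Finset.sum_congr rfl fun l _ => ?_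
    ring
  have e2 : s.tmul c u (s.tmul c v w) m =
      ∑ i, ∑ j, ∑ k, u i * v j * w k * ∑ l, s.C c j k l * s.C c i l m := by
    simp only [tmul_apply, Finset.sum_mul, Finset.mul_sum]
    -- LHS: ∑ i, ∑ l, ∑ j, ∑ k
    refine Finset.sum_congr rfl fun i _ => ?_
    rw [Finset.sum_comm]
    refine Finset.sum_congr rfl fun j _ => ?_
    rw [Finset.sum_comm]
    refine Finset.sum_congr rfl fun k _ => Finset.sum_congr rfl fun l _ => ?_
    ring
  rw [e1, e2]
  refine Finset.sum_congr rfl fun i _ => Finset.sum_congr rfl fun j _ =>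
    Finset.sum_congr rfl fun k _ => ?_
  rw [h.assoc]

theorem zero_tmul (u : Fin s.a → K[X]) : s.tmul c 0 u = 0 := by
  have := smul_tmul (c := c) 0 0 u
  simpa using this

theorem tmul_zero (u : Fin s.a → K[X]) : s.tmul c u 0 = 0 := by
  have := tmul_smul (c := c) 0 u 0
  simpa using this

end Tmul

section Weight

variable {s : Shape} {K : Type u} [Field K] {c : s.Idx → K}

theorem vwt_tmul_le (h : s.IsTable c) (u v : Fin s.a → K[X]) :
    vwt s (s.tmul c u v) ≤ vwt s u + vwt s v := by
  rw [vwt_le_iff]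
  intro k t hne
  rw [tmul_apply, finsetSum_coeff] at hne
  obtain ⟨i, _, hne⟩ := Finset.exists_ne_zero_of_sum_ne_zero hne
  rw [finsetSum_coeff] at hne
  obtain ⟨j, _, hne⟩ := Finset.exists_ne_zero_of_sum_ne_zero hne
  rw [coeff_mul] at hne
  obtain ⟨⟨ef, g⟩, hefg, hne⟩ := Finset.exists_ne_zero_of_sum_ne_zero hne
  rw [Finset.HasAntidiagonal.mem_antidiagonal] at hefg
  have hC : (s.C c i j k).coeff g ≠ 0 := right_ne_zero_of_mul hne
  have huv := left_ne_zero_of_mul hne
  rw [coeff_mul] at huv
  obtain ⟨⟨e, f⟩, hef, huv⟩ := Finset.exists_ne_zero_of_sum_ne_zero huv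
  rw [Finset.HasAntidiagonal.mem_antidiagonal] at hef
  have hu := le_vwt s (left_ne_zero_of_mul huv)
  have hv := le_vwt s (right_ne_zero_of_mul huv)
  refine le_trans ?_ (add_le_add hu hv)
  have hC' : s.a * g + s.w k ≤ s.w i + s.w j := by
    rw [coeff_C] at hC
    split_ifs at hC with hg
    · by_contra hcon
      rw [not_le] at hcon
      exact hC (h.bound i j k ⟨g, hg⟩ hcon)
    · exact absurd rfl hC
  have hfin : pos s k t ≤ pos s i e + pos s j f := by
    unfold pos
    simp only at hefg hef
    rw [← hefg, ← hef]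
    have e1 : s.a * (e + f + g) = s.a * e + s.a * f + s.a * g := by ring
    rw [e1]
    omega
  exact_mod_cast hfin

theorem vwt_psmul_X_pow (n : ℕ) (u : Fin s.a → K[X]) (m : ℕ) (hu : vwt s u = (m : WithBot ℕ)) :
    vwt s ((X ^ n : K[X]) • u) = ((s.a * n + m : ℕ) : WithBot ℕ) := by
  rw [vwt_eq_iff] at hu ⊢
  constructor
  · intro k e he
    rw [Pi.smul_apply, smul_eq_mul, coeff_X_pow_mul']
    split_ifs with hn
    · apply hu.1
      unfold pos at he ⊢
      obtain ⟨d, rfl⟩ := Nat.exists_eq_add_of_le hn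
      rw [Nat.mul_add] at he
      rw [Nat.add_sub_cancel_left]
      omega
    · rfl
  · obtain ⟨k, e, hke, he⟩ := hu.2
    refine ⟨k, n + e, ?_, ?_⟩
    · unfold pos at hke ⊢
      rw [Nat.mul_add]
      omega
    · rw [Pi.smul_apply, smul_eq_mul, coeff_X_pow_mul', if_pos (Nat.le_add_right _ _),
        Nat.add_sub_cancel_left]
      exact he

theorem vwt_C (h : s.IsTable c) (i j : Fin s.a) :
    vwt s (s.C c i j) = ((s.w i + s.w j : ℕ) : WithBot ℕ) := by
  rw [vwt_eq_iff]
  constructor
  · intro k e he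
    rw [coeff_C]
    split_ifs with hlt
    · exact h.bound i j k ⟨e, hlt⟩ he
    · rfl
  · obtain ⟨k, e, he, hne⟩ := h.lead i j
    refine ⟨k, e, he.symm, ?_⟩
    rw [coeff_C_fin]
    exact hne

theorem vwt_mono_tmul_mono (h : s.IsTable c) (i j : Fin s.a) (e f : ℕ) :
    vwt s (s.tmul c (mono s i e) (mono s j f)) =
      ((pos s i e + pos s j f : ℕ) : WithBot ℕ) := by
  unfold mono
  rw [single_tmul_single, ← pow_add, vwt_psmul_X_pow _ _ _ (vwt_C h i j)]
  congr 1
  unfold pos
  ring

theorem vwt_tmul (h : s.IsTable c) (u v : Fin s.a → K[X]) :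
    vwt s (s.tmul c u v) = vwt s u + vwt s v := by
  by_cases hu : u = 0
  · rw [hu, zero_tmul, vwt_zero, WithBot.bot_add]
  by_cases hv : v = 0
  · rw [hv, tmul_zero, vwt_zero, WithBot.add_bot]
  obtain ⟨k, e, r, u', hr, hu', hltu, hmu⟩ := exists_split s hu
  obtain ⟨k', e', r', v', hr', hv', hltv, hmv⟩ := exists_split s hv
  have hC : ∀ (r : K) (w : Fin s.a → K[X]), r • w = (Polynomial.C r) • w := by
    intro r w
    funext k
    rw [Pi.smul_apply, Pi.smul_apply, smul_eq_mul, smul_eq_C_mul]
  have h1 : s.tmul c u v = (r * r') • s.tmul c (mono s k e) (mono s k' e') +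
      (s.tmul c (r • mono s k e) v' + s.tmul c u' v) := by
    conv_lhs => rw [hu', add_tmul]
    conv_lhs =>
      enter [1]
      rw [hv', tmul_add]
    rw [add_assoc]
    congr 1
    rw [hC r, hC r', hC (r * r'), smul_tmul, tmul_smul, smul_smul, Polynomial.C_mul]
  have h2 : vwt s ((r * r') • s.tmul c (mono s k e) (mono s k' e')) = vwt s u + vwt s v := by
    rw [vwt_smul s (mul_ne_zero hr hr'), vwt_mono_tmul_mono h, hmu, hmv]
    rfl
  rw [h1, vwt_add_eq_of_lt, h2]
  rw [h2]
  refine (vwt_add_le s _ _).trans_lt (max_lt ?_ ?_)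
  · refine (vwt_tmul_le h _ _).trans_lt ?_
    rw [vwt_smul s hr, vwt_mono, ← hmu]
    refine WithBot.add_lt_add_left ?_ hltv
    rw [hmu]
    exact WithBot.coe_ne_bot
  · refine (vwt_tmul_le h _ _).trans_lt ?_
    refine WithBot.add_lt_add_right ?_ hltu
    rw [hmv]
    exact WithBot.coe_ne_bot

theorem vwt_exists_sub_lt (f g : Fin s.a → K[X]) (hf : f ≠ 0) (hfg : vwt s f = vwt s g) :
    ∃ r : K, vwt s (f - r • g) < vwt s f := by
  obtain ⟨k, e, r, f', hr, hf', hlt, hm⟩ := exists_split s (u := f) hf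
  have hg : g ≠ 0 := by
    intro h0
    rw [h0, vwt_zero, hm] at hfg
    exact absurd hfg (by simp)
  obtain ⟨k', e', r', g', hr', hg', hlt', hm'⟩ := exists_split s (u := g) hg
  have hkk : pos s k e = pos s k' e' := by
    rw [hm, hm'] at hfg
    exact_mod_cast hfg
  obtain ⟨rfl, rfl⟩ := pos_inj s hkk
  refine ⟨r / r', ?_⟩
  have h1 : f - (r / r') • g = f' - (r / r') • g' := by
    conv_lhs => rw [hf', hg']
    rw [smul_add, smul_smul, div_mul_cancel₀ _ hr']
    abel
  rw [h1, sub_eq_add_neg]
  refine (vwt_add_le s _ _).trans_lt (max_lt hlt ?_)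
  rw [vwt_neg]
  refine (vwt_smul_le s _ _).trans_lt ?_
  rw [← hfg] at hlt'
  exact hlt'

theorem vwt_smul_one (r : K) (hr : r ≠ 0) :
    vwt s (r • (Pi.single (0 : Fin s.a) (1 : K[X]) : Fin s.a → K[X])) = 0 := by
  rw [vwt_smul s hr]
  have : (Pi.single (0 : Fin s.a) (1 : K[X]) : Fin s.a → K[X]) = mono s 0 0 := by
    rw [mono, pow_zero]
  rw [this, vwt_mono]
  unfold pos
  rw [s.w_zero, mul_zero, add_zero]
  rfl

end Weight

/-! ### The algebra -/

/-- type synonym for the algebra of a table -/
def TB {s : Shape} {K : Type u} [Field K] {c : s.Idx → K} (_h : s.IsTable c) : Type u :=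
  Fin s.a → K[X]

namespace TB

variable {s : Shape} {K : Type u} [Field K] {c : s.Idx → K} (h : s.IsTable c)

noncomputable instance : AddCommGroup (TB h) := inferInstanceAs (AddCommGroup (Fin s.a → K[X]))

noncomputable instance : Module K[X] (TB h) := inferInstanceAs (Module K[X] (Fin s.a → K[X]))

noncomputable instance : CommRing (TB h) :=
  { (inferInstance : AddCommGroup (TB h)) with
    mul := s.tmul c
    one := Pi.single (0 : Fin s.a) (1 : K[X])
    left_distrib := fun u v w => tmul_add (c := c) u v w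
    right_distrib := fun u v w => add_tmul (c := c) u v w
    zero_mul := fun u => zero_tmul (c := c) u
    mul_zero := fun u => tmul_zero (c := c) u
    mul_assoc := fun u v w => tmul_assoc h u v w
    one_mul := fun u => one_tmul h u
    mul_one := fun u => (tmul_comm h u _).trans (one_tmul h u)
    mul_comm := fun u v => tmul_comm h u v }

theorem mul_def (u v : TB h) : u * v = s.tmul c u v := rfl

noncomputable instance : Algebra K[X] (TB h) :=
  Algebra.ofModule (fun p u v => smul_tmul (c := c) p u v) (fun p u v => tmul_smul (c := c) p u v)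

noncomputable instance : Algebra K (TB h) :=
  ((algebraMap K[X] (TB h)).comp (Polynomial.C)).toAlgebra

instance : IsScalarTower K K[X] (TB h) := IsScalarTower.of_algebraMap_eq fun _ => rfl

end TB

theorem exists_model {s : Shape} {K : Type u} [Field K] {c : s.Idx → K} (h : s.IsTable c) :
    ∃ (B : Type u) (_ : CommRing B) (_ : Algebra K B) (wt : B → WithBot ℕ) (x : B)
      (y : Fin s.a → B), s.IsModel c wt x y := by
  have hone : (1 : TB h) = (Pi.single (0 : Fin s.a) (1 : K[X]) : Fin s.a → K[X]) := rfl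
  have hpol : ∀ (p : K[X]) (u : TB h), algebraMap K[X] (TB h) p * u = p • u :=
    fun p u => (Algebra.smul_def p u).symm
  let x : TB h := algebraMap K[X] (TB h) X
  have haev : ∀ p : K[X], aeval x p = algebraMap K[X] (TB h) p := by
    intro p
    show aeval (algebraMap K[X] (TB h) X) p = _
    rw [aeval_algebraMap_apply, aeval_X_left_apply]
  let y : Fin s.a → TB h := fun k => (Pi.single k (1 : K[X]) : Fin s.a → K[X])
  have hsum : ∀ u : Fin s.a → K[X], ∑ k, aeval x (u k) * y k = (u : TB h) := by
    intro u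
    have h1 : ∀ k, aeval x (u k) * y k = (Pi.single k (u k) : Fin s.a → K[X]) := by
      intro k
      rw [haev, hpol]
      show u k • (Pi.single k (1 : K[X]) : Fin s.a → K[X]) = _
      rw [← Pi.single_smul, smul_eq_mul, mul_one]
    rw [Finset.sum_congr rfl fun k _ => h1 k]
    exact Finset.univ_sum_single u
  have hKsmul : ∀ (r : K) (u : TB h),
      r • u = @HSMul.hSMul K (Fin s.a → K[X]) (Fin s.a → K[X]) instHSMul r u := by
    intro r u
    rw [← algebraMap_smul K[X] r u]
    funext k
    exact (smul_eq_C_mul r).symm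
  have hx : vwt s (x : Fin s.a → K[X]) = (s.a : WithBot ℕ) := by
    have : (x : Fin s.a → K[X]) = mono s 0 1 := by
      have h1 : x = (X : K[X]) • (1 : TB h) := by
        rw [← hpol, mul_one]
      rw [h1, hone]
      show (X : K[X]) • (Pi.single (0 : Fin s.a) (1 : K[X]) : Fin s.a → K[X]) = _
      rw [← Pi.single_smul, smul_eq_mul, mul_one, mono, pow_one]
    rw [this, vwt_mono]
    unfold pos
    rw [s.w_zero, mul_one, add_zero]
  have hy : ∀ i, vwt s (y i : Fin s.a → K[X]) = (s.w i : WithBot ℕ) := by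
    intro i
    have : (y i : Fin s.a → K[X]) = mono s i 0 := by
      show Pi.single i 1 = _
      rw [mono, pow_zero]
    rw [this, vwt_mono]
    unfold pos
    rw [mul_zero, zero_add]
  refine ⟨TB h, inferInstance, inferInstance, fun u => vwt s (u : Fin s.a → K[X]), x, y, ?_⟩
  refine ⟨?_, hx, hy, rfl, fun i j => ?_, ?_⟩
  · refine ⟨fun f => vwt_eq_bot_iff s, fun f g => vwt_tmul h f g, fun f g => vwt_add_le s f g,
      fun r hr => ?_, fun f g hf hfg => ?_, ?_⟩
    · rw [Algebra.algebraMap_eq_smul_one, hKsmul]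
      exact vwt_smul_one r hr
    · obtain ⟨r, hr⟩ := vwt_exists_sub_lt (s := s) (K := K) f g hf hfg
      refine ⟨r, ?_⟩
      rw [hKsmul]
      exact hr
    · refine (finite_compl_posSet s).subset ?_
      intro n hn hn'
      obtain ⟨k, e, rfl⟩ := hn'
      exact hn (mono s k e : Fin s.a → K[X]) (vwt_mono s k e)
  · rw [hsum]
    show s.tmul c (Pi.single i 1) (Pi.single j 1) = _
    rw [single_tmul_single, one_mul, one_smul]
  · constructor
    · intro u v huv
      simp only [hsum] at huv
      exact huv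
    · intro v
      exact ⟨v, hsum v⟩

end Fermat.Agent.H77.M
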