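import Fermat.Agent.H77Table

/-!
# S27 (M1): every weighted algebra has a table
-/

set_option autoImplicit false

open Polynomial Fermat.Agent.H95

namespace Fermat.Agent.H77.M

variable {K B : Type*} [Field K] [CommRing B] [Algebra K B] {wt : B → WithBot ℕ}

theorem ev_bijective_of {s : Shape} (hw : IsWeight K wt) {x : B} {y : Fin s.a → B}
    (hx : wt x = (s.a : WithBot ℕ)) (hy : ∀ i, wt (y i) = (s.w i : WithBot ℕ))
    (hmin : wts wt (Set.univ : Set B) ⊆ posSet s) :
    Function.Bijective (ev x y : (Fin s.a → K[X]) →ₗ[K] B) := by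
  constructor
  · rw [← LinearMap.ker_eq_bot, LinearMap.ker_eq_bot']
    intro u hu
    rw [← vwt_eq_bot_iff s, ← wt_ev_of hw hx hy, hu, hw.wt_zero]
  · rw [← LinearMap.range_eq_top]
    apply hw.eq_of_wts_subset le_top
    rw [Submodule.top_coe]
    intro n hn
    obtain ⟨k, e, rfl⟩ := hmin hn
    exact ⟨ev (K := K) x y (mono s k e), ⟨_, rfl⟩, by rw [wt_ev_of hw hx hy, vwt_mono]⟩

theorem exists_model_of {s : Shape} (hw : IsWeight K wt) {x : B} {y : Fin s.a → B}
    (hx : wt x = (s.a : WithBot ℕ)) (hy : ∀ i, wt (y i) = (s.w i : WithBot ℕ)) (hy0 : y 0 = 1)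
    (hmin : wts wt (Set.univ : Set B) ⊆ posSet s) :
    ∃ c : s.Idx → K, s.IsModel c wt x y := by
  have hbij := ev_bijective_of hw hx hy hmin
  choose U hU using fun i j => hbij.2 (y i * y j)
  have hUw : ∀ i j, vwt s (U i j) = ((s.w i + s.w j : ℕ) : WithBot ℕ) := by
    intro i j
    rw [← wt_ev_of hw hx hy, hU, hw.mul, hy, hy]
    rfl
  let c : s.Idx → K := fun p => (U p.1 p.2.1 p.2.2.1).coeff p.2.2.2
  have hC : ∀ i j, s.C c i j = U i j := by
    intro i j
    funext k
    ext e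
    rw [coeff_C]
    split_ifs with he
    · rfl
    · symm
      apply ((vwt_eq_iff s).1 (hUw i j)).1 k e
      have ha := a_pos s
      have h1 : s.w i ≤ ∑ l, s.w l := Finset.single_le_sum (fun l _ => Nat.zero_le _) (Finset.mem_univ i)
      have h2 : s.w j ≤ ∑ l, s.w l := Finset.single_le_sum (fun l _ => Nat.zero_le _) (Finset.mem_univ j)
      unfold Shape.N at he
      unfold pos
      have : 1 * e ≤ s.a * e := Nat.mul_le_mul_right e ha
      omega
  refine ⟨c, hw, hx, hy, hy0, fun i j => ?_, hbij⟩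
  rw [hC, ← ev_apply, hU]

theorem exists_table (hw : IsWeight K wt) :
    ∃ (s : Shape) (c : s.Idx → K) (x : B) (y : Fin s.a → B), s.IsModel c wt x y := by
  classical
  -- all large numbers are weights
  obtain ⟨N, hN⟩ : ∃ N : ℕ, ∀ n, N ≤ n → ∃ f : B, wt f = (n : WithBot ℕ) := by
    obtain ⟨N, hN⟩ := hw.finite_gaps.bddAbove
    refine ⟨N + 1, fun n hn => ?_⟩
    by_contra hcon
    push Not at hcon
    have := hN (show n ∈ {n : ℕ | ∀ f, wt f ≠ (n : WithBot ℕ)} from hcon)
    omega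
  let a := N + 1
  have ha : 0 < a := Nat.succ_pos N
  obtain ⟨x, hx⟩ := hN a (Nat.le_succ N)
  -- minimal weights
  have hex : ∀ i : Fin a, ∃ n : ℕ, (∃ f : B, wt f = (n : WithBot ℕ)) ∧ n % a = i := by
    intro i
    refine ⟨a * N + i, hN _ ?_, ?_⟩
    · have : 1 * N ≤ a * N := Nat.mul_le_mul_right N ha
      omega
    · rw [Nat.mul_add_mod]
      exact Nat.mod_eq_of_lt i.2
  let w : Fin a → ℕ := fun i => Nat.find (hex i)
  have hw1 : ∀ i, ∃ f : B, wt f = (w i : WithBot ℕ) := fun i => (Nat.find_spec (hex i)).1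
  have hw2 : ∀ i, w i % a = i := fun i => (Nat.find_spec (hex i)).2
  have hw0 : w (0 : Fin (N + 1)) = 0 := by
    have : (Nat.find (hex (0 : Fin (N + 1)))) = 0 := by
      rw [Nat.find_eq_zero]
      exact ⟨⟨1, hw.wt_one⟩, by simp⟩
    exact this
  let s : Shape :=
    { a := a
      ne := ⟨ha.ne'⟩
      w := w
      w_zero := hw0
      w_inj := fun i j hij => by
        have : w i % a = w j % a := hij
        rw [hw2, hw2] at this
        exact Fin.ext this }
  choose y' hy' using hw1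
  let y : Fin s.a → B := fun i => if i = 0 then 1 else y' i
  have hy : ∀ i, wt (y i) = (s.w i : WithBot ℕ) := by
    intro i
    show wt (if i = 0 then 1 else y' i) = _
    split_ifs with h
    · rw [h, hw.wt_one, s.w_zero]
      rfl
    · exact hy' i
  have hy0 : y 0 = 1 := if_pos rfl
  have hmin : wts wt (Set.univ : Set B) ⊆ posSet s := by
    rintro n ⟨f, -, hf⟩
    let i : Fin s.a := ⟨n % a, Nat.mod_lt _ ha⟩
    have hi : s.w i ≡ n [MOD s.a] := hw2 i
    rw [mem_posSet_iff s hi]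
    exact Nat.find_min' (hex i) ⟨⟨f, hf⟩, rfl⟩
  obtain ⟨c, hc⟩ := exists_model_of (s := s) hw hx hy hy0 hmin
  exact ⟨s, c, x, y, hc⟩

end Fermat.Agent.H77.M
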