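import Fermat.Agent.H95Zeta
import Fermat.Agent.H3S27Weight
import Fermat.Agent.H3S27Smooth
import Fermat.Agent.H77ExTable
import Fermat.Agent.H77ExModel
import Fermat.Agent.H1Frob
import Fermat.Agent.H63S27Zeta
import Fermat.Agent.H68Transfer

/-!
# S27: the number of `ℓ^k`-torsion divisor classes of a curve in characteristic zero

Assembly (helper95) of the zeta function / Lefschetz principle route.
-/

set_option autoImplicit false
open scoped nonZeroDivisors
open Polynomial IsDedekindDomain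

namespace Fermat.Agent.H95

/-- the torsion count for the class group of a model over (a field algebraic over) `𝔽_p` -/
theorem card_torsion_classGroup {K : Type*} {B : Type*} [Field K] [CommRing B] [Algebra K B]
    {wt : B → WithBot ℕ} [IsAlgClosed K] [IsDedekindDomain B] (p : ℕ) [Fact p.Prime] [CharP K p]
    (hK : ∀ c : K, ∃ m, 0 < m ∧ c ^ p ^ m = c) {s : Shape} {c : s.Idx → K} {x : B}
    {y : Fin s.a → B} (h : s.IsModel c wt x y) (ℓ : ℕ) [Fact ℓ.Prime] (hℓ : ℓ ≠ p) (k : ℕ) :
    Nat.card {κ : ClassGroup B // κ ^ (ℓ ^ k) = 1} = ℓ ^ (2 * s.g * k) := by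
  obtain ⟨e, he, φ, hφ⟩ := H1.exists_frob h p hK
  obtain ⟨Z, hq, hg⟩ := H63.exists_zetaData p e he hK h.isWeight φ hφ
  have := Z.card_torsion ℓ (by
    rw [hq]; intro hd
    exact hℓ ((Nat.prime_dvd_prime_iff_eq Fact.out Fact.out).mp
      ((Fact.out : ℓ.Prime).dvd_of_dvd_pow hd))) k
  rw [this, hg, H77.M.genus_eq h]

lemma infinite_primes_ne (ℓ : ℕ) : {p : Nat.Primes | (p : ℕ) ≠ ℓ}.Infinite := by
  have h1 : ({p : Nat.Primes | (p : ℕ) = ℓ}).Subsingleton := fun p hp q hq =>
    Nat.Primes.coe_nat_injective (hp.trans hq.symm)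
  exact h1.finite.infinite_compl.mono fun p hp => hp

/-- the torsion count for the class group of a weighted Dedekind algebra in characteristic `0` -/
theorem card_torsion_of_charZero {K B : Type*} [Field K] [IsAlgClosed K] [CharZero K]
    [CommRing B] [Algebra K B] [IsDedekindDomain B] {wt : B → WithBot ℕ} (hw : IsWeight K wt)
    (ℓ : ℕ) [Fact ℓ.Prime] (k : ℕ) :
    Nat.card {κ : ClassGroup B // κ ^ (ℓ ^ k) = 1} = ℓ ^ (2 * genus wt * k) := by
  obtain ⟨s, c, x, y, hm⟩ := H77.M.exists_table hw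
  have hlp : 0 < ℓ := (Fact.out : ℓ.Prime).pos
  have key := H68.transferB_of s (ℓ ^ k) (ℓ ^ (2 * s.g * k)) (pow_pos hlp _) (pow_pos hlp _)
    (fun K _ c h => H77.M.exists_model h)
    (fun K _ _ B _ _ wt c x y h hs => (H3S27.isSmooth_iff h).mp hs)
    (by
      refine (infinite_primes_ne ℓ).mono fun p hp => ?_
      intro K _ _ _ hK B _ _ _ wt x y c hm
      have : Fact (p : ℕ).Prime := ⟨p.2⟩
      exact card_torsion_classGroup (p : ℕ) hK hm ℓ (Ne.symm hp) k)
    K B wt x y c hm ((H3S27.isSmooth_iff hm).mpr inferInstance)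
  rw [H77.M.genus_eq hm]
  exact key

open AlgebraicCurve in
theorem S27_main (K F : Type*) [Field K] [Field F] [Algebra K F] [IsAlgClosed K] [CharZero K]
    [IsCurveOver K F] [Algebra.EssFiniteType K F]
    (ℓ : ℕ) [Fact ℓ.Prime] (k : ℕ) :
    Nat.card (Pic0.torsion K F (ℓ ^ k)) = ℓ ^ (2 * genusFF K F * k) := by
  obtain ⟨B, _, _, _, wt, hw, hg, ⟨E⟩⟩ := H3S27.exists_weightAlg K F
  have key := card_torsion_of_charZero hw ℓ k
  rw [hg] at key
  rw [← key]
  refine Nat.card_congr (Equiv.subtypeEquiv (Multiplicative.ofAdd.trans E.toEquiv) ?_)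
  intro z
  rw [Pic0.mem_torsion]
  simp only [Equiv.trans_apply, MulEquiv.toEquiv_eq_coe, EquivLike.coe_coe]
  rw [← map_pow, ← ofAdd_nsmul, natCast_zsmul]
  constructor
  · intro h
    rw [h, ofAdd_zero, map_one]
  · intro h
    rw [map_eq_one_iff _ E.injective] at h
    exact h

end Fermat.Agent.H95
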