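import Fermat.Agent.H19Compat
import Fermat.Agent.H19Order
import Fermat.Agent.H19Reduce
import Fermat.Agent.H43Descent
import Fermat.Agent.H31Level
import Fermat.Agent.H94Kaehler
import Fermat.Agent.H95S27

/-!
# S19: final assembly (helper19)
-/

set_option autoImplicit false
set_option linter.unusedSectionVars false
set_option linter.unusedVariables false

noncomputable section

open AlgebraicCurve ModularCurve WithZero
open scoped Pointwise

namespace Fermat.Agent.H19

open Fermat.Agent.H40 Fermat.Agent.H94 Fermat.Agent.H23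

local notation "Qb" => AlgebraicClosure ℚ
local notation "Gq" => AlgebraicClosure ℚ ≃ₐ[ℚ] AlgebraicClosure ℚ

theorem HasFlatModel.congr {R K L : Type} [CommRing R] [Field K] [Field L] [Algebra K L]
    [Algebra R L] {M M' : Type} [AddCommGroup M] [AddCommGroup M']
    {act : (L ≃ₐ[K] L) → M → M} {act' : (L ≃ₐ[K] L) → M' → M'}
    (h : HasFlatModel R K L M act) (e : M ≃+ M') (he : ∀ σ m, e (act σ m) = act' σ (e m)) :
    HasFlatModel R K L M' act' := by
  obtain ⟨H, _, _, h1, h2, h3, e', he', hσ⟩ := h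
  refine ⟨H, inferInstance, inferInstance, h1, h2, h3, e'.trans e.toEquiv, fun f g => ?_,
    fun σ f g hfg => ?_⟩
  · change e (e' (f * g)) = e (e' f) + e (e' g)
    rw [he', map_add]
  · change e (e' g) = act' σ (e (e' f))
    rw [hσ σ f g hfg, he]

theorem mem_dec_of_mem_inertia {A : ValuationSubring Qb} {σ : Gq}
    (hσ : σ ∈ A.inertiaSubgroupIn ℚ) : σ • A = A := by
  obtain ⟨τ, -, rfl⟩ := hσ
  exact τ.2

theorem inertia_conj {A : ValuationSubring Qb} {σ ι : Gq} (hσ : σ • A = A)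
    (hι : ι ∈ A.inertiaSubgroupIn ℚ) : σ⁻¹ * ι * σ ∈ A.inertiaSubgroupIn ℚ := by
  obtain ⟨τ, hτ, rfl⟩ := hι
  refine ⟨(⟨σ, hσ⟩ : A.decompositionSubgroup ℚ)⁻¹ * τ * ⟨σ, hσ⟩, ?_, rfl⟩
  have hn : (A.inertiaSubgroup ℚ).Normal := MonoidHom.normal_ker _
  have h1 := hn.conj_mem τ hτ
    (⟨σ, hσ⟩ : A.decompositionSubgroup ℚ)⁻¹
  rw [inv_inv] at h1
  exact h1

theorem finite_torsionBy (N : ℕ) [NeZero N] (ℓ : ℕ) [Fact ℓ.Prime] (n : ℕ) :
    Finite ↥(Submodule.torsionBy ℤ (JZero N) ((ℓ : ℤ) ^ n)) := by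
  have h1 : IsCurveOver Qb (modularFunctionFieldBar N) := H94.isCurveOver _ _
  have h2 : Algebra.EssFiniteType Qb (modularFunctionFieldBar N) := H94.essFiniteType
  have h3 := Fermat.Agent.H95.S27_main Qb (modularFunctionFieldBar N) ℓ n
  have h4 : Finite (Pic0.torsion Qb (modularFunctionFieldBar N) (ℓ ^ n)) := by
    apply Nat.finite_of_card_ne_zero
    rw [h3]
    exact (pow_pos (Fact.out : ℓ.Prime).pos _).ne'
  refine Finite.of_injective
    (fun x : ↥(Submodule.torsionBy ℤ (JZero N) ((ℓ : ℤ) ^ n)) =>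
      (⟨(x : JZero N), ?_⟩ : Pic0.torsion Qb (modularFunctionFieldBar N) (ℓ ^ n))) ?_
  · rw [Pic0.mem_torsion]
    have := (Submodule.mem_torsionBy_iff _ _).mp x.2
    push_cast
    exact this
  · intro x y h
    exact Subtype.ext (congrArg (fun z : Pic0.torsion Qb (modularFunctionFieldBar N) (ℓ ^ n) =>
      (z : JZero N)) h)

/-- the torsion as a subgroup of `Pic0` -/
def torM (N : ℕ) (n : ℤ) : AddSubgroup (Pic0 Qb (modularFunctionFieldBar N)) :=
  (Submodule.torsionBy ℤ (JZero N) n).toAddSubgroup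

theorem mem_torM {N : ℕ} {n : ℤ} {x : JZero N} : x ∈ torM N n ↔ n • x = 0 :=
  (Submodule.mem_torsionBy_iff _ _)

theorem smul_mem_torM {N : ℕ} {n : ℤ} {x : JZero N} (hx : x ∈ torM N n)
    (δ : SemilinearAut Qb (modularFunctionFieldBar N)) : δ • x ∈ torM N n := by
  rw [mem_torM] at hx ⊢
  rw [← SemilinearAut.smul_zsmul, hx]
  exact pic_smul_zero δ

section Main

variable {N : ℕ} [NeZero N] {A : ValuationSubring Qb}

/-- **The flat model of the torsion**, given the inertia action. -/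
theorem hasFlatModel_of_inertiaAction {ℓ : ℕ} [Fact ℓ.Prime] (hA : A.LiesOverPrime ℓ) (n : ℕ)
    (hdeg : H42.DegLE Qb (IsLocalRing.ResidueField A) N)
    {S : GoodRed Qb (modularFunctionFieldBar N) (IsLocalRing.ResidueField A)
      (modularFunctionFieldFullC (IsLocalRing.ResidueField A) N)}
    (hS : S.toReductionData = H42.modRed hdeg)
    (I : InertiaAction S (inertiaSL A N))
    (hPinf : ∀ σ : Gq, σ • A = A →
      arithmeticGalois (modularFunctionFieldFull N) σ • I.Pinf = I.Pinf) :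
    HasFlatModel (Zl ℓ) ℚ Qb ↥(Submodule.torsionBy ℤ (JZero N) ((ℓ : ℤ) ^ n))
      (torsionAct N ((ℓ : ℤ) ^ n)) := by
  have hℓ : ℓ.Prime := Fact.out
  have := H42.funField_left (k := IsLocalRing.ResidueField A) N hdeg
  have := H42.funField_right (L := Qb) N hdeg
  set F₀ := modularFunctionFieldFull N with hF₀
  set M := torM N ((ℓ : ℤ) ^ n) with hMdef
  have hfin : Finite M := finite_torsionBy N ℓ n
  let R1 := rankOne hdeg hS hℓ hA
  have hM : ∀ γ ∈ inertiaSL A N, ∀ m ∈ M, γ • m ∈ M := fun γ _ m hm => smul_mem_torM hm γ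
  obtain ⟨Y, -⟩ := Sys.exists_sys S I ∅
  have hSA : S.A = A := S_A_eq hdeg hS
  have hAn := isAnAlg I M hM Y
  -- the action
  let act : Gq → M → M := fun σ m =>
    ⟨arithmeticGalois F₀ σ • (m : JZero N), smul_mem_torM m.2 _⟩
  have hH : IsAnAlg A (fun σ : A.inertiaSubgroupIn ℚ => ((σ : Gq) : Qb ≃+* Qb))
      (fun σ => act σ) (anAlg I M Y) := by
    constructor
    · intro f hf m
      rw [← hSA]
      exact hAn.int f hf m
    · intro f hf σ m
      exact hAn.equiv f hf ⟨arithmeticGalois F₀ (σ : Gq), ⟨σ, σ.2, rfl⟩⟩ m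
    · intro c hc hcσ
      refine hAn.const c (by rw [hSA]; exact hc) ?_
      rintro ⟨_, σ, hσ, rfl⟩
      exact hcσ ⟨σ, hσ⟩
    · exact hAn.sep
  have key := H43.hasFlatModel_of_local A hA (M := M) act ?_ ?_ ?_ ?_ (anAlg I M Y) hH ?_ ?_
  · -- transport
    refine HasFlatModel.congr key (M' := ↥(Submodule.torsionBy ℤ (JZero N) ((ℓ : ℤ) ^ n)))
      (act' := torsionAct N ((ℓ : ℤ) ^ n))
      { toFun := fun m => ⟨(m : JZero N), m.2⟩
        invFun := fun m => ⟨(m : JZero N), m.2⟩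
        left_inv := fun _ => rfl
        right_inv := fun _ => rfl
        map_add' := fun _ _ => rfl } (fun σ m => rfl)
  · intro m
    apply Subtype.ext
    change arithmeticGalois F₀ 1 • (m : JZero N) = m
    rw [map_one, one_smul]
  · intro σ τ m
    apply Subtype.ext
    change arithmeticGalois F₀ (σ * τ) • (m : JZero N) =
      arithmeticGalois F₀ σ • (arithmeticGalois F₀ τ • (m : JZero N))
    rw [map_mul, mul_smul]
  · intro σ m m'
    apply Subtype.ext
    exact pic_smul_add _ _ _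
  · obtain ⟨E, hE, hE'⟩ := H31.exists_level_JZero_of_finite N (M : Set (JZero N))
      (Set.toFinite _)
    exact ⟨E, hE, fun σ hσ m => Subtype.ext (hE' σ hσ m m.2)⟩
  · intro f hf
    obtain ⟨r, a, b, ha, hb, hab⟩ := comul_mem I M hM R1 Y hf
    exact ⟨r, a, b, ha, hb, hab⟩
  · intro σ hσ f hf
    have hσ' : σ • A = A := hσ
    have h1 := dec_mem I M hM R1 Y (compat_dec hdeg hS hσ') (hPinf σ hσ') ?_
      (ψ := act σ⁻¹) ?_ hf
    · exact h1
    · rintro _ ⟨ι, hι, rfl⟩
      refine ⟨σ⁻¹ * ι * σ, inertia_conj hσ' hι, ?_⟩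
      rw [map_mul, map_mul, map_inv]
    · intro m
      change arithmeticGalois F₀ σ • (arithmeticGalois F₀ σ⁻¹ • (m : JZero N)) = m
      rw [← mul_smul, ← map_mul, mul_inv_cancel, map_one, one_smul]

end Main

end Fermat.Agent.H19
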