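import Fermat.Agent.H18J6c
import Fermat.Agent.H18J4
import Fermat.Agent.H31Level
import Fermat.Agent.H19Final
import Fermat.Agent.H60S37

/-!
# MZ-J6: elements of the kernel of reduction of `J₀(N)` are norms from unramified extensions
(helper18)
-/

set_option autoImplicit false
set_option linter.unusedSectionVars false
set_option synthInstance.maxHeartbeats 400000
set_option maxHeartbeats 4000000

noncomputable section

open AlgebraicCurve ModularCurve WithZero IntermediateField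
open scoped Pointwise

namespace Fermat.Agent.H18

open Fermat.Agent.H40 Fermat.Agent.H19 Fermat.Agent.H23

section Abstract

variable {K F k E : Type*} [Field K] [Field F] [Algebra K F] [Field k] [Field E] [Algebra k E]
variable {S : GoodRed K F k E} {Γ : Subgroup (SemilinearAut K F)} {I : InertiaAction S Γ} {q : ℕ}
variable [IsAlgClosed K] [IsAlgClosed k] [H94.FunField K F] [H94.FunField k E]

/-- **Classes in the kernel of reduction are norms.** -/
theorem FrobAction.exists_norm (Φ : FrobAction I q) (hq : 1 < q) (hqk : (q : k) = 0)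
    {x : Pic0 K F} (hx : redPic0 S x = 0) (hxΓ : ∀ γ ∈ Γ, γ • x = x)
    (hxfin : ∃ n, 0 < n ∧ Φ.g ^ n • x = x) {m s₀ : ℕ} (hm : 0 < m) (hs₀ : 0 < s₀) :
    ∃ s : ℕ, 0 < s ∧ s₀ ∣ s ∧ ∃ y : Pic0 K F, redPic0 S y = 0 ∧ (∀ γ ∈ Γ, γ • y = y) ∧
      x = ∑ j ∈ Finset.range m, Φ.g ^ (s * j) • y := by
  set t : ℤ := max S.c 0 + 1 with ht
  have ht1 : S.c < t := by have := le_max_left S.c 0; omega
  have ht0 : 0 < t := by have := le_max_right S.c 0; omega
  have hd : Divisor.degree (Finsupp.single (S.r I.Pinf) t : Divisor k E) = t := by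
    rw [Divisor.degree_single, H94.deg_eq_one]; simp
  obtain ⟨zb, hzb, hzb0, hord⟩ := H40.exists_ord_eq S.riemE H94.deg_eq_one
    (D := Finsupp.single (S.r I.Pinf) t) (by rw [hd]; exact ht1) (S.r I.Pinf)
  rw [Finsupp.single_eq_same] at hord
  obtain ⟨z, hzL, hzΓ, hzρ⟩ := H23.exists_lift I ht1 hzb
  obtain ⟨n₁, hn₁, hz⟩ := Φ.fin (z : F)
  obtain ⟨n₂, hn₂, hxn⟩ := hxfin
  have hmulF : ∀ (f : F) (n c : ℕ), Φ.g ^ n • f = f → Φ.g ^ (n * c) • f = f := by
    intro f n c hf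
    rw [pow_mul]
    induction c with
    | zero => rw [pow_zero, one_smul]
    | succ c ih => rw [pow_succ, mul_smul, hf, ih]
  have hmulP : ∀ (f : Pic0 K F) (n c : ℕ), Φ.g ^ n • f = f → Φ.g ^ (n * c) • f = f := by
    intro f n c hf
    rw [pow_mul]
    induction c with
    | zero => rw [pow_zero, one_smul]
    | succ c ih => rw [pow_succ, mul_smul, hf, ih]
  have hs : 0 < s₀ * n₁ * n₂ := by positivity
  have hqk' : ((q ^ (s₀ * n₁ * n₂) : ℕ) : k) = 0 := by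
    rw [Nat.cast_pow, hqk, zero_pow hs.ne']
  obtain ⟨y, hy, hyΓ, hxy⟩ := (Φ.pow (s₀ * n₁ * n₂)).norm_kernel
    (Nat.one_lt_pow hs.ne' hq) hqk' hx hxΓ
    (by
      show Φ.g ^ (s₀ * n₁ * n₂) • x = x
      rw [mul_comm (s₀ * n₁)]
      exact hmulP x n₂ _ hxn)
    ht0 ht1 hzL hzΓ
    (by
      show Φ.g ^ (s₀ * n₁ * n₂) • (z : F) = z
      rw [mul_comm s₀, mul_assoc]
      exact hmulF z n₁ _ hz)
    (by rw [hzρ, hord]) hm
  refine ⟨s₀ * n₁ * n₂, hs, ⟨n₁ * n₂, by ring⟩, y, hy, hyΓ, ?_⟩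
  rw [hxy]
  refine Finset.sum_congr rfl fun j _ => ?_
  show (Φ.g ^ (s₀ * n₁ * n₂)) ^ j • y = _
  rw [← pow_mul]

open Fermat.Agent.H42 in
theorem redRing_smul_mem_loc' {L F k Fk : Type*} [Field L] [Field F] [Algebra L F] [Field k]
    [Field Fk] [Algebra k Fk] {A : ValuationSubring L} {π : A →+* k} (R : RedRing F Fk A π)
    (γ : SemilinearAut L F) (τ : SemilinearAut k Fk)
    (hγ : ∀ b : R.B, ∃ h : γ • (b : F) ∈ R.B, R.ρ ⟨_, h⟩ = τ • R.ρ b) (b : R.loc) :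
    ∃ h : γ • (b : F) ∈ R.loc, R.res ⟨_, h⟩ = τ • R.res b := by
  obtain ⟨f, y, z, hz, h⟩ := b
  obtain ⟨hy', hρy⟩ := hγ y
  obtain ⟨hz', hρz⟩ := hγ z
  have h1 : (γ • f) * ((⟨γ • (z : F), hz'⟩ : R.B) : F) = ((⟨γ • (y : F), hy'⟩ : R.B) : F) := by
    show (γ • f) * (γ • (z : F)) = γ • (y : F)
    rw [← smul_mul', h]
  have hz0 : R.ρ ⟨_, hz'⟩ ≠ 0 := by rw [hρz]; exact (smul_ne_zero_iff_ne τ).mpr hz
  have hm : γ • f ∈ R.loc := ⟨_, _, hz0, h1⟩
  refine ⟨hm, ?_⟩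
  have e1 := R.res_eq_div ⟨γ • f, hm⟩ hz0 h1
  have e2 := R.res_eq_div ⟨f, y, z, hz, h⟩ hz h
  rw [hρy, hρz] at e1
  rw [e2, div_eq_mul_inv, smul_mul', smul_inv'', ← div_eq_mul_inv]
  exact e1

end Abstract

section Openly

theorem exists_pow_fix {k₀ L : Type*} [Field k₀] [Field L] [Algebra k₀ L]
    (K' : IntermediateField k₀ L) [FiniteDimensional k₀ K'] (φ : L ≃ₐ[k₀] L) :
    ∃ n : ℕ, 0 < n ∧ ∀ a ∈ K', (φ ^ n) a = a := by
  have hfin : Finite (K' →ₐ[k₀] L) := inferInstance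
  obtain ⟨i, j, hij, heq⟩ := Finite.exists_ne_map_eq_of_infinite
    (fun n : ℕ => ((φ ^ n : L ≃ₐ[k₀] L) : L →ₐ[k₀] L).comp K'.val)
  have key : ∀ i j : ℕ, i < j → ((φ ^ i : L ≃ₐ[k₀] L) : L →ₐ[k₀] L).comp K'.val =
      ((φ ^ j : L ≃ₐ[k₀] L) : L →ₐ[k₀] L).comp K'.val →
      ∃ n : ℕ, 0 < n ∧ ∀ a ∈ K', (φ ^ n) a = a := by
    intro i j hlt he
    refine ⟨j - i, by omega, fun a ha => ?_⟩
    have h1 : (φ ^ i) a = (φ ^ j) a := DFunLike.congr_fun he ⟨a, ha⟩
    have h2 : φ ^ j = φ ^ i * φ ^ (j - i) := by rw [← pow_add]; congr 1; omega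
    rw [h2, AlgEquiv.mul_apply] at h1
    exact ((φ ^ i).injective h1).symm
  rcases lt_or_gt_of_ne hij with hlt | hlt
  · exact key i j hlt heq
  · exact key j i hlt heq.symm

/-- open conditions hold for a power of any automorphism -/
theorem exists_pow_of_openly {L : Type*} [Field L] [Algebra ℚ L] {P : (L ≃ₐ[ℚ] L) → Prop}
    (h : H31.Openly P) (φ : L ≃ₐ[ℚ] L) : ∃ n : ℕ, 0 < n ∧ P (φ ^ n) := by
  obtain ⟨K', hK', h⟩ := h
  obtain ⟨n, hn, h1⟩ := @exists_pow_fix ℚ L _ _ _ K' hK' φ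
  exact ⟨n, hn, h _ h1⟩

end Openly

section Concrete

local notation "Qb" => AlgebraicClosure ℚ
local notation "Gq" => AlgebraicClosure ℚ ≃ₐ[ℚ] AlgebraicClosure ℚ

variable {A : ValuationSubring Qb} {N : ℕ} [NeZero N]

/-- the reduction intertwines `σ` with the coefficient automorphism of the residue field -/
theorem modRed_ρ_smul (hdeg : H42.DegLE Qb (IsLocalRing.ResidueField A) N) {σ : Gq}
    {s : A →+* A} {τ : IsLocalRing.ResidueField A ≃+* IsLocalRing.ResidueField A}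
    (hc : H60.Compat (IsLocalRing.residue A) σ s τ) (b : (H42.modRed hdeg).B) :
    ∃ h : arithmeticGalois (modularFunctionFieldFull N) σ • (b : modularFunctionFieldBar N) ∈
        (H42.modRed hdeg).B,
      (H42.modRed hdeg).ρ ⟨_, h⟩ = H60.coeffAut N τ • (H42.modRed hdeg).ρ b := by
  refine redRing_smul_mem_loc' (H42.modGauss A (IsLocalRing.residue A) N
    IsLocalRing.residue_surjective hdeg).toRedRing
    (arithmeticGalois (modularFunctionFieldFull N) σ) (H60.coeffAut N τ) ?_ b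
  rintro ⟨⟨f, hf⟩, y, hyf⟩
  obtain rfl : coeffMap A.subtype y = f := hyf
  have h1 : ((arithmeticGalois (modularFunctionFieldFull N) σ •
      (⟨coeffMap A.subtype y, hf⟩ : modularFunctionFieldBar N) :
        modularFunctionFieldBar N) : LaurentSeries Qb) = coeffMap A.subtype (coeffMap s y) :=
    (hc.coeffMap_subtype y).symm
  have hmem : coeffMap A.subtype (coeffMap s y) ∈ modularFunctionFieldBar N := by
    rw [← h1]
    exact Subtype.mem _
  have h2 : (arithmeticGalois (modularFunctionFieldFull N) σ •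
      (⟨coeffMap A.subtype y, hf⟩ : modularFunctionFieldBar N)) =
      ⟨coeffMap A.subtype (coeffMap s y), hmem⟩ := Subtype.ext h1
  have h3 : (arithmeticGalois (modularFunctionFieldFull N) σ •
      (⟨coeffMap A.subtype y, hf⟩ : modularFunctionFieldBar N)) ∈
      (H42.modGauss A (IsLocalRing.residue A) N IsLocalRing.residue_surjective hdeg).B := by
    rw [h2]
    exact ⟨_, rfl⟩
  refine ⟨h3, ?_⟩
  apply Subtype.ext
  have h4 : (⟨_, h3⟩ : (H42.modGauss A (IsLocalRing.residue A) N IsLocalRing.residue_surjective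
      hdeg).B) = ⟨⟨coeffMap A.subtype (coeffMap s y), hmem⟩, ⟨_, rfl⟩⟩ := Subtype.ext h2
  rw [h4, H60.coe_coeffAut_smul]
  have h5 := H42.coe_modGauss_ρ A (IsLocalRing.residue A) N IsLocalRing.residue_surjective
    hdeg (coeffMap s y) hmem
  have h6 := H42.coe_modGauss_ρ A (IsLocalRing.residue A) N IsLocalRing.residue_surjective
    hdeg y hf
  exact h5.trans ((hc.coeffMap_red y).trans (congrArg _ h6.symm))

/-- Teichmüller representatives -/
theorem exists_teich {ℓ : ℕ} (hℓ : ℓ.Prime) (hA : A.LiesOverPrime ℓ) {φ : Gq}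
    (hφ : A.IsFrobeniusAt φ ℓ) (x : IsLocalRing.ResidueField A) :
    ∃ a : A, (∀ σ ∈ A.inertiaSubgroupIn ℚ, σ (a : Qb) = a) ∧ IsLocalRing.residue A a = x ∧
      ∀ n : ℕ, x ^ (ℓ ^ n) = x → (φ ^ n) (a : Qb) = a := by
  have : Fact ℓ.Prime := ⟨hℓ⟩
  by_cases hx : x = 0
  · exact ⟨0, fun σ _ => by simp, by rw [map_zero, hx], fun n _ => by simp⟩
  have halg : @Algebra.IsAlgebraic ℚ Qb _ _ DivisionRing.toRatAlgebra := by
    have h1 : @Algebra.IsAlgebraic ℚ Qb _ _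
      (AlgebraicClosure.instAlgebra (k := ℚ)) := AlgebraicClosure.isAlgebraic ℚ
    convert h1
    exact Subsingleton.elim _ _
  obtain ⟨N, hN, hcop, hxN⟩ := H1.exists_pow_eq_one_residue A hA (IsLocalRing.residue A)
    IsLocalRing.residue_surjective x hx
  obtain ⟨ζ, hζ, hζx⟩ := H1.exists_lift_rootOfUnity A (IsLocalRing.residue A) hN x hxN
  have hζN : (ζ : Qb) ^ N = 1 := congrArg Subtype.val hζ
  have hpow : ∀ n : ℕ, (φ ^ n) (ζ : Qb) = (ζ : Qb) ^ (ℓ ^ n) := by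
    intro n
    induction n with
    | zero => simp
    | succ n ih =>
      rw [pow_succ', AlgEquiv.mul_apply, ih, map_pow,
        H31.frobenius_apply_rootOfUnity A hA hcop hN hφ hζN, ← pow_mul, pow_succ, mul_comm ℓ]
  refine ⟨ζ, fun σ hσ => H31.inertia_apply_rootOfUnity A hA hcop hN hσ hζN, hζx,
    fun n hn => ?_⟩
  rw [hpow]
  -- `ζ ^ (ℓ ^ n) = ζ`
  have h1 : ζ ^ (ℓ ^ n - 1) = 1 := by
    apply H31.eq_one_of_pow_eq_one_of_residue_eq_one A hA hcop
    · rw [← pow_mul, mul_comm, pow_mul, hζ, one_pow]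
    · rw [map_pow, hζx]
      have h2 : ℓ ^ n = (ℓ ^ n - 1) + 1 := by
        have := Nat.one_le_pow n ℓ hℓ.pos
        omega
      rw [h2, pow_succ] at hn
      exact mul_right_cancel₀ hx (by rw [hn, one_mul])
  have h2 : ℓ ^ n = (ℓ ^ n - 1) + 1 := by
    have := Nat.one_le_pow n ℓ hℓ.pos
    omega
  have h3 : ζ ^ (ℓ ^ n) = ζ := by
    rw [h2, pow_succ, h1, one_mul]
  exact congrArg Subtype.val h3

/-- the Frobenius action on the modular function field -/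
theorem exists_frobAction {ℓ : ℕ} (hℓ : ℓ.Prime) (hA : A.LiesOverPrime ℓ) {φ : Gq}
    (hφ : A.IsFrobeniusAt φ ℓ) (hdeg : H42.DegLE Qb (IsLocalRing.ResidueField A) N)
    {S : GoodRed Qb (modularFunctionFieldBar N) (IsLocalRing.ResidueField A)
      (modularFunctionFieldFullC (IsLocalRing.ResidueField A) N)}
    (hS : S.toReductionData = H42.modRed hdeg)
    (I : InertiaAction S (inertiaSL A N))
    (hI : arithmeticGalois (modularFunctionFieldFull N) φ • I.Pinf = I.Pinf) :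
    ∃ Φ : FrobAction I ℓ, Φ.g = arithmeticGalois (modularFunctionFieldFull N) φ := by
  have hdec : φ • A = A := hφ.choose
  obtain ⟨R, g, c, r, pdF, pdE, riemF, riemE, isRed, div_red⟩ := S
  simp only at hS
  subst hS
  set τ₀ : IsLocalRing.ResidueField A ≃+* IsLocalRing.ResidueField A :=
    MulSemiringAction.toRingEquiv (A.decompositionSubgroup ℚ)
      (IsLocalRing.ResidueField A) ⟨φ, hφ.choose⟩ with hτ₀
  have hτ₀x : ∀ x, τ₀ x = x ^ ℓ := hφ.choose_spec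
  have hc : H60.Compat (IsLocalRing.residue A) φ
      (MulSemiringAction.toRingHom (A.decompositionSubgroup ℚ) A ⟨φ, hφ.choose⟩) τ₀ :=
    H60.compat_of_mem hφ.choose τ₀ fun x => rfl
  refine ⟨{
    g := arithmeticGalois (modularFunctionFieldFull N) φ
    τ := H60.coeffAut N τ₀
    compat := compat_dec hdeg rfl hdec
    ρ_act := fun b => (modRed_ρ_smul hdeg hc b).2
    baseAut_τ := hτ₀x
    smul_Pinf := hI
    conj := ?_
    fin := ?_
    teich := ?_ }, rfl⟩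
  · rintro _ ⟨σ, hσ, rfl⟩
    refine ⟨φ⁻¹ * σ * φ, inertia_conj hdec hσ, ?_⟩
    rw [map_mul, map_mul, map_inv]
  · intro f
    have : Algebra.IsAlgebraic ℚ Qb := AlgebraicClosure.isAlgebraic ℚ
    obtain ⟨n, hn, h⟩ := exists_pow_of_openly (H31.openly_smul_fun f) φ
    refine ⟨n, hn, ?_⟩
    rw [← map_pow]
    exact h
  · intro x
    obtain ⟨a, h1, h2, h3⟩ := exists_teich hℓ hA hφ x
    refine ⟨a, ?_, h2, fun n hn => ?_⟩
    · rintro _ ⟨σ, hσ, rfl⟩
      exact h1 σ hσ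
    · rw [← map_pow]
      exact h3 n hn

/-- **MZ-J6**: elements of the kernel of reduction are norms from unramified extensions. -/
theorem exists_norm_jzero (N : ℕ) [NeZero N] {ℓ : ℕ} (hℓ : ℓ.Prime) (hℓN : ¬ ℓ ∣ N)
    (A : ValuationSubring Qb) (hA : A.LiesOverPrime ℓ) (φ : Gq) (hφ : A.IsFrobeniusAt φ ℓ)
    (x : JZero N) (hx : x ∈ H15.KJ N A) (hxI : ∀ σ ∈ A.inertiaSubgroupIn ℚ, σ • x = x)
    (m s₀ : ℕ) (hm : 0 < m) (hs₀ : 0 < s₀) :
    ∃ s : ℕ, 0 < s ∧ s₀ ∣ s ∧ ∃ y ∈ H15.KJ N A,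
      (∀ σ ∈ A.inertiaSubgroupIn ℚ, σ • y = y) ∧
      x = ∑ j ∈ Finset.range m, (φ ^ (s * j)) • y := by
  have : Fact ℓ.Prime := ⟨hℓ⟩
  have hg : H42.GenusEq N A := S19.genusEqAt N (NeZero.ne N) hℓ hℓN A hA
  have hdeg := H42.degLE_place hℓ hA hℓN
  have h := H42.reductionInputsModL_of_genusEq hℓ hA hℓN hg
  have := H42.funField_left (k := IsLocalRing.ResidueField A) N hdeg
  have := H42.funField_right (L := Qb) N hdeg
  obtain ⟨S, hS, hr⟩ := exists_goodRedModL hdeg hg h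
  obtain ⟨I, hI⟩ := modInertiaAction_Pinf hA hdeg S hS
  obtain ⟨Φ, hΦ⟩ := exists_frobAction hℓ hA hφ hdeg hS I (hI φ)
  have halg : Algebra.IsAlgebraic ℚ Qb := AlgebraicClosure.isAlgebraic ℚ
  have hx0 : redPic0 S x = 0 := by
    rw [redPic0_eq h S hr]
    exact hx
  have hxΓ : ∀ γ ∈ inertiaSL A N, γ • x = x := by
    rintro _ ⟨σ, hσ, rfl⟩
    exact hxI σ hσ
  have hxfin : ∃ n, 0 < n ∧ Φ.g ^ n • x = x := by
    obtain ⟨n, hn, h1⟩ := exists_pow_of_openly (H31.openly_smul_pic0 x) φ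
    refine ⟨n, hn, ?_⟩
    rw [hΦ, ← map_pow]
    exact h1
  obtain ⟨s, hs, hs₀s, y, hy, hyΓ, hxy⟩ := Φ.exists_norm hℓ.one_lt
    (H60.natCast_residue_eq_zero hA) hx0 hxΓ hxfin hm hs₀
  refine ⟨s, hs, hs₀s, y, ?_, fun σ hσ => hyΓ _ ⟨σ, hσ, rfl⟩, ?_⟩
  · show reductionModL A N y = 0
    rw [← redPic0_eq h S hr]
    exact hy
  · rw [hxy]
    refine Finset.sum_congr rfl fun j _ => ?_
    rw [hΦ, ← map_pow]
    rfl

end Concrete

end Fermat.Agent.H18
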