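import Fermat.Agent.H23RedPic
import Fermat.Agent.H18Torsion
import Fermat.Agent.H3RR_Special

/-!
# MZ-J6, abstract part 1: invariant divisors in invariant classes (helper18)
-/

set_option autoImplicit false

noncomputable section

open AlgebraicCurve WithZero

namespace Fermat.Agent.H18

open Fermat.Agent.H40 Fermat.Agent.H19 Fermat.Agent.H23

section FixedDiv

variable {K F : Type*} [Field K] [Field F] [Algebra K F] [IsAlgClosed K] [H94.FunField K F]

theorem divOf_smul (δ : SemilinearAut K F) {f : F} (hf : f ≠ 0) :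
    (H3RR.divOf (δ • f) : Divisor K F) = δ • (H3RR.divOf f : Divisor K F) := by
  ext v
  have h0 : δ • f ≠ 0 := (smul_ne_zero_iff_ne δ).mpr hf
  rw [H3RR.divOf_apply h0, SemilinearAut.divisor_smul_apply, H3RR.divOf_apply hf]
  have := SemilinearAut.ord_smul δ (δ⁻¹ • v) f
  rwa [smul_inv_smul] at this

/-- Every class of degree zero contains a divisor which is fixed by all automorphisms fixing the
class and a given place. -/
theorem exists_repr_fixed (x : Pic0 K F) (P : Place K F) :
    ∃ D : Divisor.degZero (K := K) (F := F), Pic0.mk D = x ∧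
      ∀ δ : SemilinearAut K F, δ • x = x → δ • P = P →
        δ • (D : Divisor K F) = (D : Divisor K F) := by
  classical
  obtain ⟨D₀, rfl⟩ := Pic0.mk_surjective x
  have hD₀ : Divisor.degree (D₀ : Divisor K F) = 0 := D₀.2
  have hdegP : ∀ a : ℤ, Divisor.degree ((D₀ : Divisor K F) + Finsupp.single P a) = a := by
    intro a
    rw [map_add, hD₀, Divisor.degree_single, H94.deg_eq_one, zero_add, Nat.cast_one, mul_one]
  have hex : ∃ n : ℕ, 0 < H3RR.ell ((D₀ : Divisor K F) + Finsupp.single P (n : ℤ)) := by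
    refine ⟨genusFF K F, ?_⟩
    have h := H3RR.riemann_inequality
      ((D₀ : Divisor K F) + Finsupp.single P ((genusFF K F : ℕ) : ℤ))
    rw [hdegP] at h
    omega
  set n := Nat.find hex with hn
  have h1 : 0 < H3RR.ell ((D₀ : Divisor K F) + Finsupp.single P (n : ℤ)) := Nat.find_spec hex
  have h0 : H3RR.ell ((D₀ : Divisor K F) + Finsupp.single P ((n : ℤ) - 1)) = 0 := by
    rcases Nat.eq_zero_or_pos n with hn0 | hn0
    · apply H3RR.ell_eq_zero_of_degree_neg
      rw [hdegP, hn0]
      norm_num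
    · have h2 := Nat.find_min hex (m := n - 1) (by omega)
      have h3 : ((n - 1 : ℕ) : ℤ) = (n : ℤ) - 1 := by omega
      rw [h3] at h2
      omega
  have h2 : H3RR.ell ((D₀ : Divisor K F) + Finsupp.single P (n : ℤ)) = 1 := by
    have h3 := H3RR.ell_le_sub_add_one ((D₀ : Divisor K F) + Finsupp.single P (n : ℤ)) P
    have h4 : (D₀ : Divisor K F) + Finsupp.single P (n : ℤ) - Finsupp.single P 1 =
        (D₀ : Divisor K F) + Finsupp.single P ((n : ℤ) - 1) := by
      rw [Finsupp.single_sub]
      abel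
    rw [h4, h0] at h3
    omega
  obtain ⟨f, hf, hfL⟩ := H3RR.exists_mem_L_of_ell_pos h1
  have hprop : ∀ f' ∈ riemannRochSpace ((D₀ : Divisor K F) + Finsupp.single P (n : ℤ)),
      ∃ c : K, c • f = f' := by
    intro f' hf'
    have h3 := (finrank_eq_one_iff_of_nonzero' (K := K)
      (⟨f, hfL⟩ : riemannRochSpace ((D₀ : Divisor K F) + Finsupp.single P (n : ℤ)))
      (fun h => hf (congrArg Subtype.val h))).mp h2
    obtain ⟨c, hc⟩ := h3 ⟨f', hf'⟩
    exact ⟨c, congrArg Subtype.val hc⟩
  have hdeg : (D₀ : Divisor K F) + H3RR.divOf f ∈ Divisor.degZero (K := K) (F := F) := by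
    rw [Divisor.mem_degZero, map_add, hD₀, H3RR.degree_divOf hf, add_zero]
  refine ⟨⟨_, hdeg⟩, ?_, ?_⟩
  · rw [eq_comm, Pic0_mk_eq_mk_iff]
    refine ⟨f, hf, fun v => ?_⟩
    show ((D₀ : Divisor K F) + H3RR.divOf f - (D₀ : Divisor K F) : Divisor K F) v = _
    rw [add_sub_cancel_left, H3RR.divOf_apply hf]
  · intro δ hδ hP
    show δ • ((D₀ : Divisor K F) + H3RR.divOf f) = (D₀ : Divisor K F) + H3RR.divOf f
    rw [SemilinearAut.pic0_smul_mk, eq_comm, Pic0_mk_eq_mk_iff,
      SemilinearAut.coe_degZeroSMulHom] at hδ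
    obtain ⟨u, hu, hdiv⟩ := hδ
    have hδf : δ • f ≠ 0 := (smul_ne_zero_iff_ne δ).mpr hf
    have hmem : u * (δ • f) ∈
        riemannRochSpace ((D₀ : Divisor K F) + Finsupp.single P (n : ℤ)) := by
      have h3 := (smul_mem_L_iff δ ((D₀ : Divisor K F) + Finsupp.single P (n : ℤ)) f).mpr hfL
      rw [smul_add, SemilinearAut.smul_single, hP, H40.mem_L hδf] at h3
      rw [H40.mem_L (mul_ne_zero hu hδf)]
      intro v
      have h4 := h3 v
      have h5 := hdiv v
      rw [Finsupp.sub_apply] at h5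
      rw [Finsupp.add_apply] at h4 ⊢
      rw [v.ord_mul hu hδf]
      omega
    obtain ⟨c, hc⟩ := hprop _ hmem
    have hc0 : c ≠ 0 := by
      rintro rfl
      rw [zero_smul] at hc
      exact mul_ne_zero hu hδf hc.symm
    ext v
    have h6 := congrArg v.ord hc
    rw [Algebra.smul_def, v.ord_mul (by simpa using hc0) hf, H40.ord_algebraMap,
      v.ord_mul hu hδf] at h6
    have h5 := hdiv v
    rw [Finsupp.sub_apply] at h5
    rw [smul_add, ← divOf_smul δ hf, Finsupp.add_apply, Finsupp.add_apply,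
      H3RR.divOf_apply hδf, H3RR.divOf_apply hf]
    omega

end FixedDiv

end Fermat.Agent.H18
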