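import Fermat.Agent.H18J6a
import Fermat.Agent.H18Div

/-!
# MZ-J6, abstract part 2: Frobenius actions on a situation of good reduction (helper18)
-/

set_option autoImplicit false
set_option linter.unusedSectionVars false

noncomputable section

open AlgebraicCurve WithZero Polynomial

namespace Fermat.Agent.H18

open Fermat.Agent.H40 Fermat.Agent.H19 Fermat.Agent.H23

section FieldFacts

variable {k : Type*} [Field k] [IsAlgClosed k] {q : ℕ}

/-- elements of trace one -/
theorem exists_trace_one (hq : 1 < q) (hadd : ∀ (ι : Type) (T : Finset ι) (f : ι → k),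
    (∑ i ∈ T, f i) ^ q = ∑ i ∈ T, f i ^ q) {n : ℕ} (hn : 0 < n) :
    ∃ c : k, ∑ i ∈ Finset.range n, c ^ (q ^ i) = 1 ∧ c ^ (q ^ n) = c := by
  set P : k[X] := ∑ i ∈ Finset.range n, X ^ (q ^ i) - 1 with hP
  have hdeg : P.degree ≠ 0 := by
    have h1 : P.coeff (q ^ (n - 1)) = 1 := by
      rw [hP, coeff_sub, finsetSum_coeff, coeff_one, if_neg (by positivity), sub_zero,
        Finset.sum_eq_single (n - 1)]
      · rw [coeff_X_pow, if_pos rfl]
      · intro i hi hne
        rw [coeff_X_pow, if_neg]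
        intro h
        exact hne (Nat.pow_right_injective hq h).symm
      · intro h
        exact absurd (Finset.mem_range.mpr (by omega)) h
    intro h0
    have h2 : P.coeff (q ^ (n - 1)) = 0 := by
      apply coeff_eq_zero_of_degree_lt
      rw [h0]
      exact_mod_cast (by positivity : 0 < q ^ (n - 1))
    rw [h1] at h2
    exact one_ne_zero h2
  obtain ⟨c, hc⟩ := IsAlgClosed.exists_root P hdeg
  have h1 : ∑ i ∈ Finset.range n, c ^ (q ^ i) = 1 := by
    rw [IsRoot.def, hP, eval_sub, eval_one, eval_finsetSum] at hc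
    simp only [eval_pow, eval_X] at hc
    exact sub_eq_zero.mp hc
  refine ⟨c, h1, ?_⟩
  have h2 : ∑ i ∈ Finset.range n, c ^ (q ^ (i + 1)) = 1 := by
    have h3 := congrArg (fun x => x ^ q) h1
    simp only [one_pow] at h3
    rw [hadd] at h3
    rw [← h3]
    exact Finset.sum_congr rfl fun i _ => by rw [← pow_mul, pow_succ]
  have h4 := Finset.sum_range_succ (fun i => c ^ (q ^ i)) n
  have h5 := Finset.sum_range_succ' (fun i => c ^ (q ^ i)) n
  rw [h4, h1, h2, pow_zero, pow_one] at h5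
  linear_combination h5

/-- elements of exact degree `m` -/
theorem exists_exact_period (hq : 1 < q) (hqk : (q : k) = 0) {m : ℕ} (hm : 0 < m) :
    ∃ a : k, a ^ (q ^ m) = a ∧ ∀ i, 0 < i → i < m → a ^ (q ^ i) ≠ a := by
  have hqm : 1 < q ^ m := Nat.one_lt_pow hm.ne' hq
  have hN : ((q ^ m - 1 : ℕ) : k) ≠ 0 := by
    rw [Nat.cast_sub hqm.le, Nat.cast_pow, hqk, zero_pow hm.ne', Nat.cast_one, zero_sub]
    exact neg_ne_zero.mpr one_ne_zero
  have : NeZero ((q ^ m - 1 : ℕ) : k) := ⟨hN⟩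
  have : NeZero (q ^ m - 1) := ⟨by omega⟩
  obtain ⟨a, ha⟩ := HasEnoughRootsOfUnity.exists_primitiveRoot k (q ^ m - 1)
  have ha0 : a ≠ 0 := ha.ne_zero (by omega)
  refine ⟨a, ?_, ?_⟩
  · have h1 : q ^ m = (q ^ m - 1) + 1 := by omega
    rw [h1, pow_succ, ha.pow_eq_one, one_mul]
  · intro i hi him h
    have hqi : 1 < q ^ i := Nat.one_lt_pow hi.ne' hq
    have h1 : q ^ i = (q ^ i - 1) + 1 := by omega
    rw [h1, pow_succ] at h
    have h2 : a ^ (q ^ i - 1) = 1 := mul_right_cancel₀ ha0 (by rw [h, one_mul])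
    have h3 := Nat.le_of_dvd (by omega) (ha.dvd_of_pow_eq_one _ h2)
    have h4 : q ^ i < q ^ m := Nat.pow_lt_pow_right hq him
    omega

end FieldFacts

variable {K F k E : Type*} [Field K] [Field F] [Algebra K F] [Field k] [Field E] [Algebra k E]

/-- A Frobenius element acting on a situation of good reduction with inertia action. -/
structure FrobAction {S : GoodRed K F k E} {Γ : Subgroup (SemilinearAut K F)}
    (I : InertiaAction S Γ) (q : ℕ) where
  g : SemilinearAut K F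
  τ : SemilinearAut k E
  compat : Compat S g
  ρ_act : ∀ b : S.B, S.ρ (compat.act b) = τ • S.ρ b
  baseAut_τ : ∀ x, SemilinearAut.baseAut τ x = x ^ q
  smul_Pinf : g • I.Pinf = I.Pinf
  conj : ∀ γ ∈ Γ, g⁻¹ * γ * g ∈ Γ
  fin : ∀ f : F, ∃ n, 0 < n ∧ g ^ n • f = f
  teich : ∀ x : k, ∃ a : S.A, (∀ γ ∈ Γ, SemilinearAut.baseAut γ (a : K) = a) ∧ S.π a = x ∧
    ∀ n, x ^ (q ^ n) = x → SemilinearAut.baseAut (g ^ n) (a : K) = a

theorem Compat.pow {S : GoodRed K F k E} {δ : SemilinearAut K F} (hδ : Compat S δ) (n : ℕ) :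
    Compat S (δ ^ n) := by
  induction n with
  | zero => rw [pow_zero]; exact Compat.one
  | succ n ih => rw [pow_succ]; exact Compat.mul ih hδ

namespace FrobAction

variable {S : GoodRed K F k E} {Γ : Subgroup (SemilinearAut K F)} {I : InertiaAction S Γ} {q : ℕ}

theorem baseAut_τ_pow (Φ : FrobAction I q) (n : ℕ) (x : k) :
    SemilinearAut.baseAut (Φ.τ ^ n) x = x ^ (q ^ n) := by
  induction n generalizing x with
  | zero => rw [pow_zero, pow_zero, pow_one]; rfl
  | succ n ih =>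
    rw [pow_succ, SemilinearAut.baseAut_mul]
    show SemilinearAut.baseAut (Φ.τ ^ n) (SemilinearAut.baseAut Φ.τ x) = _
    rw [ih, Φ.baseAut_τ, ← pow_mul, pow_succ, mul_comm q]

theorem ρ_act_pow (Φ : FrobAction I q) (n : ℕ) (hn : Compat S (Φ.g ^ n)) (b : S.B) :
    S.ρ (hn.act b) = Φ.τ ^ n • S.ρ b := by
  induction n generalizing b with
  | zero =>
    have h1 : hn.act b = b := Subtype.ext (by rw [Compat.coe_act, pow_zero, one_smul])
    rw [h1, pow_zero, one_smul]
  | succ n ih =>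
    have hn' := Compat.pow Φ.compat n
    have h1 : hn.act b = hn'.act (Φ.compat.act b) := Subtype.ext (by
      rw [Compat.coe_act, Compat.coe_act, Compat.coe_act, pow_succ, mul_smul])
    rw [h1, ih hn', Φ.ρ_act, pow_succ, mul_smul]

theorem smul_Pinf_pow (Φ : FrobAction I q) (n : ℕ) : Φ.g ^ n • I.Pinf = I.Pinf := by
  induction n with
  | zero => rw [pow_zero, one_smul]
  | succ n ih => rw [pow_succ, mul_smul, Φ.smul_Pinf, ih]

theorem conj_pow (Φ : FrobAction I q) (n : ℕ) {γ : SemilinearAut K F} (hγ : γ ∈ Γ) :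
    (Φ.g ^ n)⁻¹ * γ * Φ.g ^ n ∈ Γ := by
  induction n with
  | zero => simpa using hγ
  | succ n ih =>
    have h1 := Φ.conj _ ih
    have h2 : (Φ.g ^ (n + 1))⁻¹ * γ * Φ.g ^ (n + 1) =
        Φ.g⁻¹ * ((Φ.g ^ n)⁻¹ * γ * Φ.g ^ n) * Φ.g := by
      rw [pow_succ]
      group
    rw [h2]
    exact h1

/-- powers of a Frobenius action -/
def pow (Φ : FrobAction I q) (s : ℕ) : FrobAction I (q ^ s) where
  g := Φ.g ^ s
  τ := Φ.τ ^ s
  compat := Compat.pow Φ.compat s
  ρ_act := Φ.ρ_act_pow s _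
  baseAut_τ := Φ.baseAut_τ_pow s
  smul_Pinf := Φ.smul_Pinf_pow s
  conj γ hγ := Φ.conj_pow s hγ
  fin f := by
    obtain ⟨n, hn, h⟩ := Φ.fin f
    refine ⟨n, hn, ?_⟩
    rw [← pow_mul, mul_comm, pow_mul]
    have h2 : ∀ i : ℕ, (Φ.g ^ n) ^ i • f = f := by
      intro i
      induction i with
      | zero => rw [pow_zero, one_smul]
      | succ i ih => rw [pow_succ, mul_smul, h, ih]
    exact h2 s
  teich x := by
    obtain ⟨a, h1, h2, h3⟩ := Φ.teich x
    refine ⟨a, h1, h2, fun n hn => ?_⟩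
    rw [← pow_mul]
    apply h3
    rw [pow_mul]
    exact hn

theorem add_pow (Φ : FrobAction I q) (ι : Type) (T : Finset ι) (f : ι → k) :
    (∑ i ∈ T, f i) ^ q = ∑ i ∈ T, f i ^ q := by
  rw [← Φ.baseAut_τ, map_sum]
  exact Finset.sum_congr rfl fun i _ => Φ.baseAut_τ _

variable [IsAlgClosed K] [IsAlgClosed k] [H94.FunField K F] [H94.FunField k E]

/-- Frobenius and the reduction of places -/
theorem r_smul (Φ : FrobAction I q) (P : Place K F) : S.r (Φ.g • P) = Φ.τ • S.r P := by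
  set n : ℤ := max S.c 0 + 1 with hn
  have hn1 : S.c < n := by have := le_max_left S.c 0; omega
  have hn0 : 0 < n := by have := le_max_right S.c 0; omega
  have hd : ∀ P : Place K F, Divisor.degree (Finsupp.single P n) = n := fun P => by
    rw [Divisor.degree_single, H94.deg_eq_one]; simp
  have hd' : ∀ P : Place k E, Divisor.degree (Finsupp.single P n) = n := fun P => by
    rw [Divisor.degree_single, H94.deg_eq_one]; simp
  have h1 := (S.isRed (Finsupp.single P n) (by rw [hd]; exact hn1)).2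
  have h2 := (S.isRed (Finsupp.single (Φ.g • P) n) (by rw [hd]; exact hn1)).2
  rw [Finsupp.mapDomain_single] at h1 h2
  have hle : riemannRochSpace (Finsupp.single (Φ.τ • S.r P) n) ≤
      riemannRochSpace (Finsupp.single (S.r (Φ.g • P)) n) := by
    intro f hf
    have h3 : Φ.τ⁻¹ • f ∈ riemannRochSpace (Finsupp.single (S.r P) n) := by
      rw [← smul_mem_L_iff Φ.τ, SemilinearAut.smul_single, smul_inv_smul]
      exact hf
    rw [← h1] at h3
    obtain ⟨b, hb, hbf⟩ := h3
    rw [← h2]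
    refine ⟨Φ.compat.act b, ?_, ?_⟩
    · rw [Compat.coe_act, ← SemilinearAut.smul_single, smul_mem_L_iff]
      exact hb
    · rw [Φ.ρ_act, hbf, smul_inv_smul]
  have h3 := H40.le_of_L_le S.riemE H94.deg_eq_one (by rw [hd']; exact hn1) hle
  have h4 := H40.eq_of_le_of_degree_le H94.deg_eq_one h3 (by rw [hd', hd'])
  exact ((Finsupp.single_left_inj (by omega)).mp h4).symm

theorem mapDomain_r_smul (Φ : FrobAction I q) (D : Divisor K F) :
    Finsupp.mapDomain S.r (Φ.g • D) = Φ.τ • Finsupp.mapDomain S.r D := by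
  rw [SemilinearAut.divisor_smul_def, SemilinearAut.divisor_smul_def, ← Finsupp.mapDomain_comp,
    ← Finsupp.mapDomain_comp]
  congr 1
  funext P
  exact Φ.r_smul P

/-- invariant lifts of elements of the reduction of a Riemann-Roch space of an invariant
divisor -/
theorem _root_.Fermat.Agent.H18.exists_lift_inertia (I : InertiaAction S Γ) {D : Divisor K F}
    (hD : S.c < Divisor.degree D) (hDΓ : ∀ γ ∈ Γ, γ • D = D) {zb : E}
    (hzb : zb ∈ riemannRochSpace (Finsupp.mapDomain S.r D)) :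
    ∃ z : S.B, (z : F) ∈ riemannRochSpace D ∧
      (∀ γ ∈ Γ, γ • (z : F) = z) ∧ S.ρ z = zb := by
  classical
  have h1 := (S.isRed D hD).2
  obtain ⟨m, b, hbΓ, hbV, hbli⟩ := I.exists_basis_fixed (riemannRochSpace D)
    (S.riemF _ hD.le).1 (fun γ hγ f hf => by
      rw [← smul_mem_L_iff γ, hDΓ γ hγ] at hf
      exact hf)
  rw [← h1, S.red_eq_span hbli hbV] at hzb
  obtain ⟨c, hc⟩ := (Submodule.mem_span_range_iff_exists_fun k).mp hzb
  choose a haΓ haπ using fun i => I.exists_const (c i)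
  refine ⟨∑ i, S.const (a i) * b i, ?_, ?_, ?_⟩
  · rw [show ((∑ i, S.const (a i) * b i : S.B) : F) =
      ∑ i, ((S.const (a i) * b i : S.B) : F) from map_sum S.B.subtype _ _]
    refine Submodule.sum_mem _ fun i _ => ?_
    rw [Subring.coe_mul, ReductionData.coe_const, ← Algebra.smul_def]
    apply Submodule.smul_mem
    rw [← hbV]
    exact Submodule.subset_span ⟨i, rfl⟩
  · intro γ hγ
    rw [show ((∑ i, S.const (a i) * b i : S.B) : F) =
      ∑ i, ((S.const (a i) * b i : S.B) : F) from map_sum S.B.subtype _ _, Finset.smul_sum]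
    refine Finset.sum_congr rfl fun i _ => ?_
    rw [Subring.coe_mul, ReductionData.coe_const, smul_mul', hbΓ i γ hγ,
      SemilinearAut.smul_algebraMap, haΓ i γ hγ]
  · rw [map_sum, ← hc]
    refine Finset.sum_congr rfl fun i _ => ?_
    rw [map_mul, ReductionData.ρ_const, haπ, Algebra.smul_def]

/-- Frobenius invariant lifts -/
theorem exists_lift (Φ : FrobAction I q) (hq : 1 < q) {D : Divisor K F}
    (hD : S.c < Divisor.degree D) (hDΓ : ∀ γ ∈ Γ, γ • D = D) (hDg : Φ.g • D = D) {vb : E}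
    (hvb : vb ∈ riemannRochSpace (Finsupp.mapDomain S.r D)) (hvbτ : Φ.τ • vb = vb) :
    ∃ e : S.B, (e : F) ∈ riemannRochSpace D ∧ (∀ γ ∈ Γ, γ • (e : F) = e) ∧
      Φ.g • (e : F) = e ∧ S.ρ e = vb := by
  obtain ⟨v, hvD, hvΓ, hvρ⟩ := exists_lift_inertia I hD hDΓ hvb
  obtain ⟨n, hn, hgn⟩ := Φ.fin (v : F)
  obtain ⟨cb, hcb1, hcb2⟩ := exists_trace_one hq Φ.add_pow hn
  obtain ⟨c, hcΓ, hcπ, hcn⟩ := Φ.teich cb
  have hcn' := hcn n hcb2
  set w : S.B := S.const c * v with hw
  have hwcoe : (w : F) = algebraMap K F c * v := by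
    rw [hw, Subring.coe_mul, ReductionData.coe_const]
  have hwΓ : ∀ γ ∈ Γ, γ • (w : F) = w := by
    intro γ hγ
    rw [hwcoe, smul_mul', hvΓ γ hγ, SemilinearAut.smul_algebraMap, hcΓ γ hγ]
  have hwn : Φ.g ^ n • (w : F) = w := by
    rw [hwcoe, smul_mul', hgn, SemilinearAut.smul_algebraMap, hcn']
  have hwD : (w : F) ∈ riemannRochSpace D := by
    rw [hwcoe, ← Algebra.smul_def]
    exact Submodule.smul_mem _ _ hvD
  have hcomp : ∀ i, Compat S (Φ.g ^ i) := Compat.pow Φ.compat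
  have hDi : ∀ i : ℕ, Φ.g ^ i • D = D := by
    intro i
    induction i with
    | zero => rw [pow_zero, one_smul]
    | succ i ih => rw [pow_succ, mul_smul, hDg, ih]
  have hvbi : ∀ i : ℕ, Φ.τ ^ i • vb = vb := by
    intro i
    induction i with
    | zero => rw [pow_zero, one_smul]
    | succ i ih => rw [pow_succ, mul_smul, hvbτ, ih]
  have hcoe : ((∑ i ∈ Finset.range n, (hcomp i).act w : S.B) : F) =
      ∑ i ∈ Finset.range n, Φ.g ^ i • (w : F) := by
    rw [show ((∑ i ∈ Finset.range n, (hcomp i).act w : S.B) : F) =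
      ∑ i ∈ Finset.range n, (((hcomp i).act w : S.B) : F) from map_sum S.B.subtype _ _]
    exact Finset.sum_congr rfl fun i _ => Compat.coe_act _ _
  refine ⟨∑ i ∈ Finset.range n, (hcomp i).act w, ?_, ?_, ?_, ?_⟩
  · rw [hcoe]
    refine Submodule.sum_mem _ fun i _ => ?_
    rw [← hDi i, smul_mem_L_iff]
    exact hwD
  · intro γ hγ
    rw [hcoe, Finset.smul_sum]
    refine Finset.sum_congr rfl fun i _ => ?_
    have h1 := hwΓ _ (Φ.conj_pow i hγ)
    have h2 : γ • Φ.g ^ i • (w : F) =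
        Φ.g ^ i • (((Φ.g ^ i)⁻¹ * γ * Φ.g ^ i) • (w : F)) := by
      rw [← mul_smul, ← mul_smul]
      congr 1
      group
    rw [h2, h1]
  · rw [hcoe, Finset.smul_sum]
    have h1 : ∀ i, Φ.g • Φ.g ^ i • (w : F) = Φ.g ^ (i + 1) • (w : F) := by
      intro i
      rw [← mul_smul, ← pow_succ']
    simp only [h1]
    have h4 := Finset.sum_range_succ (fun i => Φ.g ^ i • (w : F)) n
    have h5 := Finset.sum_range_succ' (fun i => Φ.g ^ i • (w : F)) n
    rw [h4] at h5
    simp only [hwn, pow_zero, one_smul] at h5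
    exact (add_right_cancel h5).symm
  · rw [map_sum]
    have h1 : ∀ i, S.ρ ((hcomp i).act w) = algebraMap k E (cb ^ (q ^ i)) * vb := by
      intro i
      rw [Φ.ρ_act_pow i (hcomp i), hw, map_mul, ReductionData.ρ_const, hcπ, hvρ, smul_mul',
        hvbi, SemilinearAut.smul_algebraMap, Φ.baseAut_τ_pow]
    simp only [h1]
    rw [← Finset.sum_mul, ← map_sum, hcb1, map_one, one_mul]

/-- Hilbert 90 -/
theorem exists_smul_fixed (Φ : FrobAction I q) (hq : 1 < q) {h : E} (hh : h ≠ 0)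
    (hdiv : ∀ Q : Place k E, Q.ord (Φ.τ • h) = Q.ord h) :
    ∃ u : k, u ≠ 0 ∧ Φ.τ • (algebraMap k E u * h) = algebraMap k E u * h := by
  have hτh : Φ.τ • h ≠ 0 := (smul_ne_zero_iff_ne _).mpr hh
  obtain ⟨c, hc⟩ := exists_eq_algebraMap_of_forall_ord_eq_zero (K := k) (f := Φ.τ • h * h⁻¹)
    (fun Q => by rw [Q.ord_mul hτh (inv_ne_zero hh), Q.ord_inv, hdiv]; ring)
  have hc' : Φ.τ • h = algebraMap k E c * h := by
    rw [← hc, mul_assoc, inv_mul_cancel₀ hh, mul_one]
  have hc0 : c ≠ 0 := by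
    rintro rfl
    rw [map_zero, zero_mul] at hc'
    exact hτh hc'
  obtain ⟨u, hu⟩ := IsAlgClosed.exists_pow_nat_eq c⁻¹ (n := q - 1) (by omega)
  have hu0 : u ≠ 0 := by
    rintro rfl
    rw [zero_pow (by omega)] at hu
    exact inv_ne_zero hc0 hu.symm
  refine ⟨u, hu0, ?_⟩
  have h1 : u ^ q * c = u := by
    have h2 : q = (q - 1) + 1 := by omega
    rw [h2, pow_succ, hu]
    field_simp
  rw [smul_mul', SemilinearAut.smul_algebraMap, Φ.baseAut_τ, hc', ← mul_assoc, ← map_mul, h1]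

end FrobAction

end Fermat.Agent.H18
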