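import Fermat.Agent.H18J6b

/-!
# MZ-J6, abstract part 3: classes in the kernel of reduction are norms (helper18)
-/

set_option autoImplicit false
set_option linter.unusedSectionVars false

noncomputable section

open AlgebraicCurve WithZero Polynomial

namespace Fermat.Agent.H18

open Fermat.Agent.H40 Fermat.Agent.H19 Fermat.Agent.H23

section Ord

variable {K F : Type*} [Field K] [Field F] [Algebra K F]

theorem ord_prod (v : Place K F) {ι : Type*} (T : Finset ι) {f : ι → F}
    (hf : ∀ i ∈ T, f i ≠ 0) : v.ord (∏ i ∈ T, f i) = ∑ i ∈ T, v.ord (f i) := by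
  classical
  induction T using Finset.induction_on with
  | empty => simp
  | insert a T ha ih =>
    rw [Finset.prod_insert ha, Finset.sum_insert ha,
      v.ord_mul (hf a (Finset.mem_insert_self _ _)) (Finset.prod_ne_zero_iff.mpr fun i hi =>
        hf i (Finset.mem_insert_of_mem hi)), ih fun i hi => hf i (Finset.mem_insert_of_mem hi)]

/-- subtracting a constant does not change a pole -/
theorem ord_sub_algebraMap {v : Place K F} {f : F} (hf : v.ord f < 0) (c : K) :
    f - algebraMap K F c ≠ 0 ∧ v.ord (f - algebraMap K F c) = v.ord f := by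
  have hf0 : f ≠ 0 := by
    rintro rfl
    rw [v.ord_zero] at hf
    exact lt_irrefl _ hf
  have hne : f - algebraMap K F c ≠ 0 := by
    intro h0
    rw [sub_eq_zero.mp h0, H40.ord_algebraMap] at hf
    exact lt_irrefl _ hf
  refine ⟨hne, le_antisymm ?_ ?_⟩
  · by_contra hlt
    push Not at hlt
    have h1 : f = (f - algebraMap K F c) + algebraMap K F c := by ring
    have h2 := H40.ord_add_ge v (f := f - algebraMap K F c) (h := algebraMap K F c)
      (by rw [← h1]; exact hf0) (n := min (v.ord (f - algebraMap K F c)) 0)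
      (Or.inr (min_le_left _ _)) (Or.inr (by rw [H40.ord_algebraMap]; exact min_le_right _ _))
    rw [← h1] at h2
    rcases min_cases (v.ord (f - algebraMap K F c)) 0 with ⟨h3, h4⟩ | ⟨h3, h4⟩ <;> omega
  · rw [sub_eq_add_neg, ← map_neg]
    apply H40.ord_add_ge v (by rwa [map_neg, ← sub_eq_add_neg]) (Or.inr le_rfl)
    right
    rw [H40.ord_algebraMap]
    exact hf.le

/-- two different constants are not both values of a function -/
theorem not_ord_sub_pos {v : Place K F} {f : F} {c c' : K} (hc : c ≠ c')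
    (h : 0 < v.ord (f - algebraMap K F c)) (h' : 0 < v.ord (f - algebraMap K F c')) : False := by
  have h1 : algebraMap K F (c' - c) = (f - algebraMap K F c) + -(f - algebraMap K F c') := by
    rw [map_sub]; ring
  have hne : algebraMap K F (c' - c) ≠ 0 := by
    rw [Ne, map_eq_zero]
    exact sub_ne_zero.mpr hc.symm
  have h2 := H40.ord_add_ge v (f := f - algebraMap K F c) (h := -(f - algebraMap K F c'))
    (by rw [← h1]; exact hne) (n := 1) (Or.inr h) (Or.inr (by
      have : v.ord (-(f - algebraMap K F c')) = v.ord (f - algebraMap K F c') := by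
        have hm : -(f - algebraMap K F c') = algebraMap K F (-1) * (f - algebraMap K F c') := by
          rw [map_neg, map_one]; ring
        have hne' : f - algebraMap K F c' ≠ 0 := by
          intro h0
          rw [h0, v.ord_zero] at h'
          exact lt_irrefl _ h'
        rw [hm, v.ord_mul (by simp) hne', H40.ord_algebraMap, zero_add]
      rw [this]
      exact h'))
  rw [← h1, H40.ord_algebraMap] at h2
  omega

end Ord

variable {K F k E : Type*} [Field K] [Field F] [Algebra K F] [Field k] [Field E] [Algebra k E]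

theorem sum_mk' {ι : Type*} (T : Finset ι) (D : ι → Divisor.degZero (K := K) (F := F)) :
    Pic0.mk (∑ i ∈ T, D i) = ∑ i ∈ T, Pic0.mk (D i) :=
  map_sum (QuotientAddGroup.mk' ((Divisor.principal (K := K) (F := F)).addSubgroupOf
    (Divisor.degZero (K := K) (F := F)))) D T

theorem mapDomain_filter {α β : Type*} (r : α → β) (p : β → Prop) [DecidablePred p]
    (D : α →₀ ℤ) (h : Finsupp.mapDomain r D = 0) :
    Finsupp.mapDomain r (D.filter fun a => p (r a)) = 0 := by
  classical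
  ext b
  have h1 := DFunLike.congr_fun h b
  rw [mapDomain_apply_eq r D D.support (Finset.Subset.refl _)] at h1
  rw [mapDomain_apply_eq r _ D.support (by
    rw [Finsupp.support_filter]
    exact Finset.filter_subset _ _)]
  by_cases hb : p b
  · rw [← h1]
    refine Finset.sum_congr rfl fun a _ => ?_
    split_ifs with hab
    · rw [Finsupp.filter_apply, if_pos (by rw [hab]; exact hb)]
    · rfl
  · rw [Finsupp.zero_apply]
    refine Finset.sum_eq_zero fun a _ => ?_
    split_ifs with hab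
    · rw [Finsupp.filter_apply, if_neg (by rw [hab]; exact hb)]
    · rfl

namespace FrobAction

variable {S : GoodRed K F k E} {Γ : Subgroup (SemilinearAut K F)} {I : InertiaAction S Γ} {q : ℕ}
variable [IsAlgClosed K] [IsAlgClosed k] [H94.FunField K F] [H94.FunField k E]

theorem ord_τ_pow_smul (τ : SemilinearAut k E) {e : E} (he : τ • e = e) (Q : Place k E) :
    (τ • Q).ord e = Q.ord e := by
  have := SemilinearAut.ord_smul τ Q e
  rwa [he] at this

/-- **Classes in the kernel of reduction are norms** (one level) -/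
theorem norm_kernel (Φ : FrobAction I q) (hq : 1 < q) (hqk : (q : k) = 0)
    {x : Pic0 K F} (hx : redPic0 S x = 0) (hxΓ : ∀ γ ∈ Γ, γ • x = x) (hxg : Φ.g • x = x)
    {t : ℤ} (ht : 0 < t) (htc : S.c < t)
    {z : S.B} (hzL : (z : F) ∈ riemannRochSpace (Finsupp.single I.Pinf t))
    (hzΓ : ∀ γ ∈ Γ, γ • (z : F) = z) (hzg : Φ.g • (z : F) = z)
    (hzord : (S.r I.Pinf).ord (S.ρ z) = -t) {m : ℕ} (hm : 0 < m) :
    ∃ y : Pic0 K F, redPic0 S y = 0 ∧ (∀ γ ∈ Γ, γ • y = y) ∧
      x = ∑ j ∈ Finset.range m, Φ.g ^ j • y := by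
  classical
  have := S.pdF
  have := S.pdE
  -- an invariant divisor
  obtain ⟨Dx, rfl, hDxfix⟩ := exists_repr_fixed x I.Pinf
  have hDxΓ : ∀ γ ∈ Γ, γ • (Dx : Divisor K F) = Dx := fun γ hγ =>
    hDxfix γ (hxΓ γ hγ) (I.smul_Pinf γ hγ)
  have hDxg : Φ.g • (Dx : Divisor K F) = Dx := hDxfix Φ.g hxg Φ.smul_Pinf
  have hDx0 : Divisor.degree (Dx : Divisor K F) = 0 := Dx.2
  -- the function on the reduction
  have hx' := hx
  rw [redPic0_mk, ← Pic0.mk_zero, eq_comm, Pic0_mk_eq_mk_iff, coe_redDegZero,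
    AddSubgroup.coe_zero, sub_zero] at hx'
  obtain ⟨h₀, hh₀0, hh₀⟩ := hx'
  obtain ⟨u, hu0, hu⟩ := Φ.exists_smul_fixed hq hh₀0 (fun Q => by
    have h1 := SemilinearAut.ord_smul Φ.τ (Φ.τ⁻¹ • Q) h₀
    rw [smul_inv_smul] at h1
    rw [h1, ← hh₀, ← hh₀, ← SemilinearAut.divisor_smul_apply, ← Φ.mapDomain_r_smul, hDxg])
  set h : E := algebraMap k E u * h₀ with hh
  have hu0' : algebraMap k E u ≠ 0 := by simpa using hu0
  have hh0 : h ≠ 0 := mul_ne_zero hu0' hh₀0
  have hhdiv : ∀ Q, Finsupp.mapDomain S.r (Dx : Divisor K F) Q = Q.ord h := fun Q => by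
    rw [hh, Q.ord_mul hu0' hh₀0, H40.ord_algebraMap, zero_add, hh₀]
  -- the constants
  obtain ⟨ab, hab1, hab2⟩ := exists_exact_period hq hqk hm
  obtain ⟨a, haΓ, haπ, han⟩ := Φ.teich ab
  have ham := han m hab1
  have hcomp : ∀ i, Compat S (Φ.g ^ i) := Compat.pow Φ.compat
  have hzi : ∀ i : ℕ, Φ.g ^ i • (z : F) = z := by
    intro i
    induction i with
    | zero => rw [pow_zero, one_smul]
    | succ i ih => rw [pow_succ, mul_smul, hzg, ih]
  set zb : E := S.ρ z with hzb
  have hzbτ : Φ.τ • zb = zb := by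
    rw [hzb, ← Φ.ρ_act]
    congr 1
    exact Subtype.ext hzg
  have hzbi : ∀ i : ℕ, Φ.τ ^ i • zb = zb := by
    intro i
    induction i with
    | zero => rw [pow_zero, one_smul]
    | succ i ih => rw [pow_succ, mul_smul, hzbτ, ih]
  have hzbneg : (S.r I.Pinf).ord zb < 0 := by rw [hzord]; omega
  have hzbL : zb ∈ riemannRochSpace (Finsupp.single (S.r I.Pinf) t) := by
    have h1 := red_L_le' S (Finsupp.single I.Pinf t) ⟨z, hzL, rfl⟩
    rwa [Finsupp.mapDomain_single] at h1
  have hzbcL : ∀ c : k, zb - algebraMap k E c ∈ riemannRochSpace (Finsupp.single (S.r I.Pinf) t) := by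
    intro c
    refine Submodule.sub_mem _ hzbL ?_
    rw [Algebra.algebraMap_eq_smul_one]
    exact Submodule.smul_mem _ _ (H40.one_mem_L.mpr (by
      rw [Finsupp.single_nonneg]; exact ht.le))
  -- the functions `z - a_i`
  set W : ℕ → S.B := fun i => (hcomp i).act (z - S.const a) with hW
  have hWcoe : ∀ i, (W i : F) = Φ.g ^ i • ((z : F) - algebraMap K F a) := by
    intro i
    rw [hW]
    show Φ.g ^ i • (((z - S.const a : S.B)) : F) = _
    rw [AddSubgroupClass.coe_sub, ReductionData.coe_const]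
  have hWcoe' : ∀ i, (W i : F) = (z : F) - algebraMap K F
      (SemilinearAut.baseAut (Φ.g ^ i) (a : K)) := by
    intro i
    rw [hWcoe, smul_sub, hzi, SemilinearAut.smul_algebraMap]
  have hWρ : ∀ i, S.ρ (W i) = zb - algebraMap k E (ab ^ (q ^ i)) := by
    intro i
    rw [hW]
    show S.ρ ((hcomp i).act (z - S.const a)) = _
    rw [Φ.ρ_act_pow i (hcomp i), map_sub, ReductionData.ρ_const, haπ, smul_sub, hzbi,
      SemilinearAut.smul_algebraMap, Φ.baseAut_τ_pow]
  have hWρ0 : ∀ i, S.ρ (W i) ≠ 0 := fun i => by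
    rw [hWρ]; exact (ord_sub_algebraMap hzbneg _).1
  have hW0 : ∀ i, (W i : F) ≠ 0 := fun i => S.ne_zero_of_ρ_ne_zero (hWρ0 i)
  have hWinf : ∀ i, (S.r I.Pinf).ord (S.ρ (W i)) = -t := fun i => by
    rw [hWρ, (ord_sub_algebraMap hzbneg _).2, hzord]
  have hWge : ∀ i (Q : Place k E), -(Finsupp.single (S.r I.Pinf) t : Divisor k E) Q ≤
      Q.ord (S.ρ (W i)) := by
    intro i Q
    apply (H40.mem_L (hWρ0 i)).mp
    rw [hWρ]
    exact hzbcL _
  have hWge' : ∀ i (P : Place K F), -(Finsupp.single I.Pinf t : Divisor K F) P ≤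
      P.ord (W i : F) := by
    intro i P
    apply (H40.mem_L (hW0 i)).mp
    rw [hWcoe']
    refine Submodule.sub_mem _ hzL ?_
    rw [Algebra.algebraMap_eq_smul_one]
    exact Submodule.smul_mem _ _ (H40.one_mem_L.mpr (by
      rw [Finsupp.single_nonneg]; exact ht.le))
  have hWm : (W m : F) = W 0 := by
    rw [hWcoe', hWcoe', ham, pow_zero]
    rfl
  have hWg : ∀ i, Φ.g • (W i : F) = W (i + 1) := by
    intro i
    rw [hWcoe, hWcoe, ← mul_smul, ← pow_succ']
  have hWΓ : ∀ i, ∀ γ ∈ Γ, γ • (W i : F) = W i := by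
    intro i γ hγ
    have h2 : γ • Φ.g ^ i • ((z : F) - algebraMap K F a) =
        Φ.g ^ i • (((Φ.g ^ i)⁻¹ * γ * Φ.g ^ i) • ((z : F) - algebraMap K F a)) := by
      rw [← mul_smul, ← mul_smul]
      congr 1
      group
    rw [hWcoe, h2, smul_sub, hzΓ _ (Φ.conj_pow i hγ), SemilinearAut.smul_algebraMap,
      haΓ _ (Φ.conj_pow i hγ)]
  -- the product
  set w : S.B := ∏ i ∈ Finset.range m, W i with hw
  have hwcoe : (w : F) = ∏ i ∈ Finset.range m, (W i : F) := by
    rw [hw]
    exact map_prod S.B.subtype _ _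
  have hw0 : (w : F) ≠ 0 := by
    rw [hwcoe]; exact Finset.prod_ne_zero_iff.mpr fun i _ => hW0 i
  have hwρ : S.ρ w = ∏ i ∈ Finset.range m, S.ρ (W i) := by rw [hw, map_prod]
  have hwρ0 : S.ρ w ≠ 0 := by
    rw [hwρ]; exact Finset.prod_ne_zero_iff.mpr fun i _ => hWρ0 i
  have hword : ∀ Q : Place k E, Q.ord (S.ρ w) = ∑ i ∈ Finset.range m, Q.ord (S.ρ (W i)) :=
    fun Q => by rw [hwρ, ord_prod Q _ fun i _ => hWρ0 i]
  have hword' : ∀ P : Place K F, P.ord (w : F) = ∑ i ∈ Finset.range m, P.ord (W i : F) :=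
    fun P => by rw [hwcoe, ord_prod P _ fun i _ => hW0 i]
  have hwΓ : ∀ γ ∈ Γ, γ • (w : F) = w := by
    intro γ hγ
    rw [hwcoe, Finset.smul_prod']
    exact Finset.prod_congr rfl fun i _ => hWΓ i γ hγ
  have hwg : Φ.g • (w : F) = w := by
    rw [hwcoe, Finset.smul_prod']
    simp only [hWg]
    have h4 := Finset.prod_range_succ (fun i => (W i : F)) m
    have h5 := Finset.prod_range_succ' (fun i => (W i : F)) m
    rw [h4, hWm] at h5
    exact (mul_right_cancel₀ (hW0 0) h5).symm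
  have hwτ : Φ.τ • S.ρ w = S.ρ w := by
    rw [← Φ.ρ_act]
    congr 1
    exact Subtype.ext hwg
  -- the divisor `V`
  have hmt : t ≤ m * t := by
    have : (1 : ℤ) ≤ m := by exact_mod_cast hm
    nlinarith
  set V : Divisor K F := (Dx : Divisor K F) + Finsupp.single I.Pinf ((m : ℤ) * t) with hV
  have hVdeg : Divisor.degree V = m * t := by
    rw [hV, map_add, hDx0, Divisor.degree_single, H94.deg_eq_one, zero_add, Nat.cast_one, mul_one]
  have hVΓ : ∀ γ ∈ Γ, γ • V = V := fun γ hγ => by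
    rw [hV, smul_add, hDxΓ γ hγ, SemilinearAut.smul_single, I.smul_Pinf γ hγ]
  have hVg : Φ.g • V = V := by
    rw [hV, smul_add, hDxg, SemilinearAut.smul_single, Φ.smul_Pinf]
  have hVr : ∀ Q, Finsupp.mapDomain S.r V Q =
      Q.ord h + (Finsupp.single (S.r I.Pinf) ((m : ℤ) * t) : Divisor k E) Q := by
    intro Q
    rw [hV, Finsupp.mapDomain_add, Finsupp.mapDomain_single, Finsupp.add_apply, hhdiv]
  have hsingle : ∀ Q : Place k E, (Finsupp.single (S.r I.Pinf) ((m : ℤ) * t) : Divisor k E) Q =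
      ∑ _i ∈ Finset.range m, (Finsupp.single (S.r I.Pinf) t : Divisor k E) Q := by
    intro Q
    rw [Finset.sum_const, Finset.card_range, Finsupp.single_apply, Finsupp.single_apply]
    split_ifs <;> simp
  have hsingle' : ∀ P : Place K F, (Finsupp.single I.Pinf ((m : ℤ) * t) : Divisor K F) P =
      ∑ _i ∈ Finset.range m, (Finsupp.single I.Pinf t : Divisor K F) P := by
    intro P
    rw [Finset.sum_const, Finset.card_range, Finsupp.single_apply, Finsupp.single_apply]
    split_ifs <;> simp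
  -- the divisor `Gb`
  have hGb : ∀ Q : Place k E, Q.ord (S.ρ w) +
      (Finsupp.single (S.r I.Pinf) ((m : ℤ) * t) : Divisor k E) Q =
      ∑ i ∈ Finset.range m, (Q.ord (S.ρ (W i)) +
        (Finsupp.single (S.r I.Pinf) t : Divisor k E) Q) := by
    intro Q
    rw [hword, hsingle, Finset.sum_add_distrib]
  have hGb0 : ∀ Q : Place k E, Q.ord (S.ρ w) +
      (Finsupp.single (S.r I.Pinf) ((m : ℤ) * t) : Divisor k E) Q ≠ 0 →
      ∃ i ∈ Finset.range m, 0 < Q.ord (S.ρ (W i)) := by
    intro Q hQ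
    rw [hGb] at hQ
    obtain ⟨i, hi, hne⟩ := Finset.exists_ne_zero_of_sum_ne_zero hQ
    refine ⟨i, hi, ?_⟩
    have h1 := hWge i Q
    by_cases hQinf : Q = S.r I.Pinf
    · subst hQinf
      rw [hWinf, Finsupp.single_eq_same] at hne
      omega
    · rw [Finsupp.single_eq_of_ne hQinf] at h1 hne
      omega
  -- the section
  have hvb0 : h⁻¹ * S.ρ w ≠ 0 := mul_ne_zero (inv_ne_zero hh0) hwρ0
  have hvbL : h⁻¹ * S.ρ w ∈ riemannRochSpace (Finsupp.mapDomain S.r V) := by
    rw [H40.mem_L hvb0]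
    intro Q
    have h1 : 0 ≤ Q.ord (S.ρ w) + (Finsupp.single (S.r I.Pinf) ((m : ℤ) * t) : Divisor k E) Q := by
      rw [hGb]
      refine Finset.sum_nonneg fun i _ => ?_
      have := hWge i Q
      omega
    rw [hVr, Q.ord_mul (inv_ne_zero hh0) hwρ0, Q.ord_inv]
    omega
  have hvbτ : Φ.τ • (h⁻¹ * S.ρ w) = h⁻¹ * S.ρ w := by
    rw [smul_mul', smul_inv'', hu, hwτ]
  obtain ⟨e, heV, heΓ, heg, heρ⟩ := Φ.exists_lift hq (D := V) (by rw [hVdeg]; omega) hVΓ hVg
    hvbL hvbτ
  have heρ0 : S.ρ e ≠ 0 := by rw [heρ]; exact hvb0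
  have he0 := S.ne_zero_of_ρ_ne_zero heρ0
  -- the effective divisors
  set G : Divisor K F := H3RR.divOf (e : F) + V with hG
  set G' : Divisor K F := H3RR.divOf (w : F) + Finsupp.single I.Pinf ((m : ℤ) * t) with hG'
  have hGnn : ∀ P, 0 ≤ G P := by
    intro P
    have h1 := (H40.mem_L he0).mp heV P
    rw [hG, Finsupp.add_apply, H3RR.divOf_apply he0]
    omega
  have hG'nn : ∀ P, 0 ≤ G' P := by
    intro P
    rw [hG', Finsupp.add_apply, H3RR.divOf_apply hw0, hword', hsingle', ← Finset.sum_add_distrib]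
    refine Finset.sum_nonneg fun i _ => ?_
    have := hWge' i P
    omega
  have hGr : ∀ Q, Finsupp.mapDomain S.r G Q = Q.ord (S.ρ w) +
      (Finsupp.single (S.r I.Pinf) ((m : ℤ) * t) : Divisor k E) Q := by
    intro Q
    rw [hG, Finsupp.mapDomain_add, Finsupp.add_apply, hVr,
      S.div_red e heρ0 _ (fun v => H3RR.divOf_apply he0 v), heρ,
      Q.ord_mul (inv_ne_zero hh0) hwρ0, Q.ord_inv]
    ring
  have hG'r : ∀ Q, Finsupp.mapDomain S.r G' Q = Q.ord (S.ρ w) +
      (Finsupp.single (S.r I.Pinf) ((m : ℤ) * t) : Divisor k E) Q := by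
    intro Q
    rw [hG', Finsupp.mapDomain_add, Finsupp.add_apply, Finsupp.mapDomain_single,
      S.div_red w hwρ0 _ (fun v => H3RR.divOf_apply hw0 v)]
  set D : Divisor K F := G - G' with hD
  have hDeq : D = H3RR.divOf (e : F) - H3RR.divOf (w : F) + (Dx : Divisor K F) := by
    rw [hD, hG, hG', hV]; abel
  have hDr : Finsupp.mapDomain S.r D = 0 := by
    ext Q
    rw [hD, mapDomain_sub_apply, hGr, hG'r, sub_self, Finsupp.zero_apply]
  have hDsupp : ∀ P, D P ≠ 0 → ∃ i ∈ Finset.range m, 0 < (S.r P).ord (S.ρ (W i)) := by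
    intro P hP
    apply hGb0
    intro h0
    apply hP
    rw [hD, Finsupp.sub_apply,
      eq_zero_of_mapDomain_apply_eq_zero G (S.r P) (fun P _ => hGnn P) (by rw [hGr, h0]) P rfl,
      eq_zero_of_mapDomain_apply_eq_zero G' (S.r P) (fun P _ => hG'nn P) (by rw [hG'r, h0]) P rfl,
      sub_zero]
  have hDΓ : ∀ γ ∈ Γ, γ • D = D := by
    intro γ hγ
    rw [hDeq, smul_add, smul_sub, ← divOf_smul γ he0, ← divOf_smul γ hw0, heΓ γ hγ, hwΓ γ hγ,
      hDxΓ γ hγ]
  have hDg : Φ.g • D = D := by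
    rw [hDeq, smul_add, smul_sub, ← divOf_smul _ he0, ← divOf_smul _ hw0, heg, hwg, hDxg]
  have hDgi : ∀ i : ℕ, Φ.g ^ i • D = D := by
    intro i
    induction i with
    | zero => rw [pow_zero, one_smul]
    | succ i ih => rw [pow_succ, mul_smul, hDg, ih]
  -- the zero layer
  set D₀ : Divisor K F := D.filter fun P => 0 < (S.r P).ord (S.ρ (W 0)) with hD₀
  have hD₀r : Finsupp.mapDomain S.r D₀ = 0 :=
    mapDomain_filter S.r (fun Q => 0 < Q.ord (S.ρ (W 0))) D hDr
  have hD₀deg : D₀ ∈ Divisor.degZero (K := K) (F := F) := by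
    rw [Divisor.mem_degZero, ← H23.degree_mapDomain S, hD₀r, map_zero]
  have hD₀Γ : ∀ γ ∈ Γ, γ • D₀ = D₀ := by
    intro γ hγ
    ext P
    have h1 : D (γ⁻¹ • P) = D P := by
      rw [← SemilinearAut.divisor_smul_apply, hDΓ γ hγ]
    have h2 : S.r (γ⁻¹ • P) = S.r P := H23.r_smul I (Γ.inv_mem hγ) P
    rw [SemilinearAut.divisor_smul_apply, hD₀, Finsupp.filter_apply, Finsupp.filter_apply, h1, h2]
  have hD₀g : ∀ (i : ℕ) (P : Place K F), (Φ.g ^ i • D₀) P =
      if 0 < (S.r P).ord (S.ρ (W i)) then D P else 0 := by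
    intro i P
    have h1 : D ((Φ.g ^ i)⁻¹ • P) = D P := by
      rw [← SemilinearAut.divisor_smul_apply, hDgi]
    have h2 : S.r P = Φ.τ ^ i • S.r ((Φ.g ^ i)⁻¹ • P) := by
      have h5 := (Φ.pow i).r_smul ((Φ.g ^ i)⁻¹ • P)
      have h6 : (Φ.pow i).g • (Φ.g ^ i)⁻¹ • P = P := smul_inv_smul _ _
      rw [h6] at h5
      exact h5
    have h3 : S.ρ (W i) = Φ.τ ^ i • S.ρ (W 0) := by
      rw [hWρ, hWρ, smul_sub, hzbi, SemilinearAut.smul_algebraMap, Φ.baseAut_τ_pow, pow_zero,
        pow_one]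
    have h4 : (S.r P).ord (S.ρ (W i)) = (S.r ((Φ.g ^ i)⁻¹ • P)).ord (S.ρ (W 0)) := by
      rw [h2, h3, SemilinearAut.ord_smul]
    rw [SemilinearAut.divisor_smul_apply, hD₀, Finsupp.filter_apply, h1, h4]
  have hinjpow : ∀ (i : ℕ) (b c : k), b ^ (q ^ i) = c ^ (q ^ i) → b = c := by
    intro i b c hbc
    rw [← Φ.baseAut_τ_pow, ← Φ.baseAut_τ_pow] at hbc
    exact (SemilinearAut.baseAut (Φ.τ ^ i)).injective hbc
  have hdist : ∀ i j : ℕ, i < j → j < m → ab ^ (q ^ i) ≠ ab ^ (q ^ j) := by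
    intro i j hij hjm heq
    apply hab2 (j - i) (by omega) (by omega)
    apply hinjpow i
    rw [heq, ← pow_mul, ← pow_add]
    congr 2
    omega
  have hDsum : D = ∑ i ∈ Finset.range m, Φ.g ^ i • D₀ := by
    ext P
    rw [Finsupp.finsetSum_apply]
    simp only [hD₀g]
    by_cases hP : D P = 0
    · rw [hP]
      simp
    · obtain ⟨i, hi, hpos⟩ := hDsupp P hP
      rw [Finset.sum_eq_single i]
      · rw [if_pos hpos]
      · intro j hj hji
        rw [if_neg]
        intro hpos'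
        rw [Finset.mem_range] at hi hj
        rw [hWρ] at hpos hpos'
        rcases lt_or_gt_of_ne hji with hlt | hlt
        · exact not_ord_sub_pos (hdist j i hlt hi) hpos' hpos
        · exact not_ord_sub_pos (hdist i j hlt hj) hpos hpos'
      · intro hni
        exact absurd hi hni
  -- the class
  refine ⟨Pic0.mk ⟨D₀, hD₀deg⟩, ?_, ?_, ?_⟩
  · rw [redPic0_mk, ← Pic0.mk_zero]
    congr 1
    apply Subtype.ext
    rw [coe_redDegZero]
    exact hD₀r
  · intro γ hγ
    rw [SemilinearAut.pic0_smul_mk]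
    congr 1
    apply Subtype.ext
    rw [SemilinearAut.coe_degZeroSMulHom]
    exact hD₀Γ γ hγ
  · simp only [SemilinearAut.pic0_smul_mk]
    rw [← sum_mk', eq_comm, Pic0_mk_eq_mk_iff]
    have h1 : ((∑ i ∈ Finset.range m, SemilinearAut.degZeroSMulHom (Φ.g ^ i) ⟨D₀, hD₀deg⟩ :
        Divisor.degZero (K := K) (F := F)) : Divisor K F) = D := by
      rw [hDsum, AddSubmonoidClass.coe_finsetSum]
      rfl
    rw [h1, hDeq]
    refine ⟨(w : F) * (e : F)⁻¹, mul_ne_zero hw0 (inv_ne_zero he0), fun P => ?_⟩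
    rw [P.ord_mul hw0 (inv_ne_zero he0), P.ord_inv, Finsupp.sub_apply, Finsupp.add_apply,
      Finsupp.sub_apply, H3RR.divOf_apply he0, H3RR.divOf_apply hw0]
    ring

end FrobAction

end Fermat.Agent.H18
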