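import Fermat.Agent.H18J6
import Fermat.Agent.H47UnitR

/-!
# MZ-J6: `T_norm` (helper18)
-/

set_option autoImplicit false

noncomputable section

namespace Fermat.Agent.H18

/-- **MZ-J6** -/
theorem norm : H47.T_norm := by
  intro N _ ℓ hℓ hℓN A hA φ hφ x hx hxI m s₀ hm hs₀
  exact exists_norm_jzero N hℓ hℓN A hA φ hφ x hx hxI m s₀ hm hs₀

end Fermat.Agent.H18
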