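import Fermat.Agent.H42Inputs
import Fermat.Agent.H19Setting

/-!
# S19: the concrete good reduction data of the modular function field (helper19)
-/

set_option autoImplicit false

noncomputable section

open AlgebraicCurve ModularCurve WithZero

namespace Fermat.Agent.H19

open Fermat.Agent.H40 Fermat.Agent.H94

local notation "Qb" => AlgebraicClosure ℚ

theorem exists_goodRed {A : ValuationSubring Qb} {N : ℕ} [NeZero N]
    (hdeg : H42.DegLE Qb (IsLocalRing.ResidueField A) N) (hg : H42.GenusEq N A) :
    ∃ S : GoodRed Qb (modularFunctionFieldBar N) (IsLocalRing.ResidueField A)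
      (modularFunctionFieldFullC (IsLocalRing.ResidueField A) N),
      S.toReductionData = H42.modRed hdeg := by
  have := H42.funField_left (k := IsLocalRing.ResidueField A) N hdeg
  have := H42.funField_right (L := Qb) N hdeg
  set g := genusFF Qb (modularFunctionFieldBar N) with hgdef
  have hF : H40.RiemannFor Qb (modularFunctionFieldBar N) g (2 * g) :=
    H42.riemannFor _ _ (by omega)
  have hE : H40.RiemannFor (IsLocalRing.ResidueField A)
      (modularFunctionFieldFullC (IsLocalRing.ResidueField A) N) g (2 * g) := by
    have hg' : g = genusFF (IsLocalRing.ResidueField A)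
      (modularFunctionFieldFullC (IsLocalRing.ResidueField A) N) := hg
    have h1 := H42.riemannFor (IsLocalRing.ResidueField A)
      (modularFunctionFieldFullC (IsLocalRing.ResidueField A) N) (c := 2 * g) (by omega)
    rwa [← hg'] at h1
  have : HasPrincipalDivisors Qb (modularFunctionFieldBar N) := H18.hasPrincipalDivisors _ _
  have : HasPrincipalDivisors (IsLocalRing.ResidueField A)
    (modularFunctionFieldFullC (IsLocalRing.ResidueField A) N) := H18.hasPrincipalDivisors _ _
  have : Infinite (IsLocalRing.ResidueField A) := IsAlgClosed.instInfinite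
  have hx := H42.transcendental_jFull (IsLocalRing.ResidueField A) N
  obtain ⟨v, -⟩ := H18.exists_ord_pos hx
  have : Nonempty (Place (IsLocalRing.ResidueField A)
    (modularFunctionFieldFullC (IsLocalRing.ResidueField A) N)) := ⟨v⟩
  have : Nonempty (Place Qb (modularFunctionFieldBar N)) := by
    obtain ⟨x, hx, -⟩ := (H42.funField_left (k := IsLocalRing.ResidueField A) N hdeg).out
    obtain ⟨v, -⟩ := H18.exists_ord_pos hx
    exact ⟨v⟩
  obtain ⟨r, hr1, hr2⟩ := (H42.modRed hdeg).exists_placeReduction hF hE (H94.deg_eq_one)
    (H94.deg_eq_one) (H42.poleIneq_modRed hdeg) (by omega) (by omega)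
  exact ⟨{ toReductionData := H42.modRed hdeg
           g := g
           c := 2 * g
           r := r
           pdF := inferInstance
           pdE := inferInstance
           riemF := hF
           riemE := hE
           isRed := hr1
           div_red := hr2 }, rfl⟩

/-- the good reduction data of `X₀(N)` at a place of good reduction -/
def modGoodRed {A : ValuationSubring Qb} {N : ℕ} [NeZero N]
    (hdeg : H42.DegLE Qb (IsLocalRing.ResidueField A) N) (hg : H42.GenusEq N A) :
    GoodRed Qb (modularFunctionFieldBar N) (IsLocalRing.ResidueField A)
      (modularFunctionFieldFullC (IsLocalRing.ResidueField A) N) :=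
  (exists_goodRed hdeg hg).choose

theorem modGoodRed_toReductionData {A : ValuationSubring Qb} {N : ℕ} [NeZero N]
    (hdeg : H42.DegLE Qb (IsLocalRing.ResidueField A) N) (hg : H42.GenusEq N A) :
    (modGoodRed hdeg hg).toReductionData = H42.modRed hdeg :=
  (exists_goodRed hdeg hg).choose_spec

/-- the inertia group acting on the modular function field -/
def inertiaSL (A : ValuationSubring Qb) (N : ℕ) :
    Subgroup (SemilinearAut Qb (modularFunctionFieldBar N)) :=
  (A.inertiaSubgroupIn ℚ).map (arithmeticGalois (modularFunctionFieldFull N))

end Fermat.Agent.H19
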