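import Mathlib

/-!
# Uniqueness of Fourier coefficients (helper19)
-/

set_option autoImplicit false

noncomputable section

open Set Filter Topology MeasureTheory

namespace Fermat.Agent.H19W

local instance : MeasureSpace UnitAddCircle := ⟨AddCircle.haarAddCircle⟩

local instance : Measure.IsAddHaarMeasure (volume : Measure UnitAddCircle) :=
  inferInstanceAs (Measure.IsAddHaarMeasure AddCircle.haarAddCircle)

local instance : IsProbabilityMeasure (volume : Measure UnitAddCircle) :=
  inferInstanceAs (IsProbabilityMeasure AddCircle.haarAddCircle)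

open UnitAddTorus in
/-- An absolutely convergent multiple Fourier series which vanishes identically has vanishing
coefficients. -/
theorem torus_coeff_eq_zero {d : Type*} [Fintype d] {a : (d → ℤ) → ℂ} (ha : Summable a)
    (h : ∀ x : UnitAddTorus d, ∑' n, a n * mFourier n x = 0) (m : d → ℤ) : a m = 0 := by
  have hn : ∀ n : d → ℤ, ‖a n • mFourier n‖ = ‖a n‖ := fun n => by
    rw [norm_smul, mFourier_norm, mul_one]
  have hs : Summable (fun n : d → ℤ => a n • (mFourier n : C(UnitAddTorus d, ℂ))) := by
    apply Summable.of_norm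
    simp_rw [hn]
    exact ha.norm
  have h0 : ∑' n, a n • (mFourier n : C(UnitAddTorus d, ℂ)) = 0 := by
    ext x
    have h1 := ContinuousMap.tsum_apply hs x
    rw [← h1]
    simpa using h x
  have h2 : HasSum (fun n : d → ℤ => a n • (mFourier n : C(UnitAddTorus d, ℂ))) 0 := by
    rw [← h0]; exact hs.hasSum
  have h3 := h2.mapL ((innerSL ℂ (mFourierLp (d := d) 2 m)).comp
    (ContinuousMap.toLp (E := ℂ) 2 (volume : Measure (UnitAddTorus d)) ℂ))
  rw [map_zero] at h3
  have ho := orthonormal_iff_ite.mp (orthonormal_mFourier (d := d)) m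
  have h4 : (fun n : d → ℤ => ((innerSL ℂ (mFourierLp (d := d) 2 m)).comp
      (ContinuousMap.toLp (E := ℂ) 2 (volume : Measure (UnitAddTorus d)) ℂ))
        (a n • (mFourier n : C(UnitAddTorus d, ℂ)))) = fun n => if n = m then a m else 0 := by
    funext n
    rw [map_smul]
    have := ho n
    rw [ContinuousLinearMap.comp_apply, innerSL_apply_apply]
    change a n • (inner ℂ (mFourierLp 2 m) (mFourierLp 2 n)) = _
    rw [this]
    by_cases hmn : n = m
    · subst hmn; simp
    · rw [if_neg hmn, if_neg (fun h => hmn h.symm), smul_zero]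
  rw [h4] at h3
  have h5 := hasSum_ite_eq m (a m)
  exact h5.unique h3

/-- The same for a family of distinct frequencies, in real coordinates. -/
theorem family_coeff_eq_zero {d : Type*} [Fintype d] {J : Type*} {m : J → d → ℤ}
    (hm : Function.Injective m) {a : J → ℂ} (ha : Summable a)
    (h : ∀ x : d → ℝ, ∑' j, a j * Complex.exp (2 * Real.pi * Complex.I * ∑ i, (m j i : ℂ) * x i) = 0)
    (j : J) : a j = 0 := by
  classical
  let b : (d → ℤ) → ℂ := Function.extend m a 0
  have hbm : ∀ j, b (m j) = a j := fun j => hm.extend_apply a 0 j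
  have hb0 : ∀ n, n ∉ Set.range m → b n = 0 := fun n hn => by
    show Function.extend m a 0 n = 0
    rw [Function.extend_apply' _ _ _ (by simpa using hn)]
    rfl
  have hb : Summable b := by
    rw [← hm.summable_iff hb0]
    have : b ∘ m = a := funext hbm
    rw [this]; exact ha
  rw [← hbm j]
  refine torus_coeff_eq_zero hb (fun x => ?_) (m j)
  obtain ⟨y, hy⟩ : ∃ y : d → ℝ, (fun i => (y i : UnitAddCircle)) = x := by
    choose y hy using fun i => QuotientAddGroup.mk_surjective (x i)
    exact ⟨y, funext hy⟩
  have e1 : ∀ n : d → ℤ, UnitAddTorus.mFourier n x =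
      Complex.exp (2 * Real.pi * Complex.I * ∑ i, (n i : ℂ) * y i) := by
    intro n
    rw [← hy]
    change (∏ i, fourier (n i) (y i : UnitAddCircle)) = _
    rw [Finset.mul_sum, Complex.exp_sum]
    refine Finset.prod_congr rfl fun i _ => ?_
    rw [fourier_coe_apply]
    congr 1
    push_cast
    ring
  have h0 : ∀ n ∉ Set.range m, b n * UnitAddTorus.mFourier n x = 0 := fun n hn => by
    rw [hb0 n hn, zero_mul]
  rw [← hm.tsum_eq (fun n hn => by
    by_contra hn'
    exact hn (h0 n hn'))]
  rw [← h y]
  refine tsum_congr fun i => ?_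
  rw [hbm, e1]

end Fermat.Agent.H19W
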