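import Fermat.Agent.H19W2
import Fermat.Agent.H31Hyp1

/-!
# Fourier expansions with coefficients indexed by a number field (helper19)

`K` is a field, `e : ι → K →+* ℂ` the embeddings (one for each complex place), `ω : ℝ → ℝ` the
Whittaker function at infinity (`ω u = u K₀(4πu)`).
`Expands e ω Φ c`: `Φ x = ∑_α c α ∏_j ω(|α_j| y_j) exp(2πi Tr(α z))`, the support of `c` being
contained in a lattice.
-/

set_option autoImplicit false
set_option linter.unusedSectionVars false

noncomputable section

open Fermat.Agent (H3)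

namespace Fermat.Agent.H19W

variable {K : Type*} [Field K] [CharZero K] {ι : Type*} [Fintype ι] (e : ι → K →+* ℂ)

/-- the trace of `α z` -/
def pair (α : K) (z : ι → ℂ) : ℝ := ∑ j, 2 * (e j α * z j).re

/-- the trace of an element of `K` -/
def trr (α : K) : ℝ := ∑ j, 2 * (e j α).re

/-- the additive character -/
def chi (α : K) (z : ι → ℂ) : ℂ := Complex.exp (2 * Real.pi * Complex.I * (pair e α z : ℂ))

/-- the additive character on `K` -/
def psi (α : K) : ℂ := Complex.exp (2 * Real.pi * Complex.I * (trr e α : ℂ))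

/-- the weight -/
def wt (ω : ℝ → ℝ) (α : K) (x : ι → H3) : ℝ := ∏ j, ω (‖e j α‖ * (x j).y)

theorem pair_zero (z : ι → ℂ) : pair e 0 z = 0 := by simp [pair]

theorem pair_add (α β : K) (z : ι → ℂ) : pair e (α + β) z = pair e α z + pair e β z := by
  rw [pair, pair, pair, ← Finset.sum_add_distrib]
  refine Finset.sum_congr rfl fun j _ => ?_
  rw [map_add, add_mul, Complex.add_re]; ring

theorem pair_add_right (α : K) (z z' : ι → ℂ) :
    pair e α (z + z') = pair e α z + pair e α z' := by
  rw [pair, pair, pair, ← Finset.sum_add_distrib]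
  refine Finset.sum_congr rfl fun j _ => ?_
  rw [Pi.add_apply, mul_add, Complex.add_re]; ring

theorem pair_embed (α b : K) : pair e α (fun j => e j b) = trr e (α * b) := by
  rw [pair, trr]
  refine Finset.sum_congr rfl fun j _ => ?_
  rw [map_mul]

theorem trr_add (α β : K) : trr e (α + β) = trr e α + trr e β := by
  rw [trr, trr, trr, ← Finset.sum_add_distrib]
  refine Finset.sum_congr rfl fun j _ => ?_
  rw [map_add, Complex.add_re]; ring

theorem trr_zero : trr e (0 : K) = 0 := by simp [trr]

theorem trr_one : trr e (1 : K) = 2 * Fintype.card ι := by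
  simp [trr, mul_comm]

theorem trr_neg (α : K) : trr e (-α) = -trr e α := by
  have h := trr_add e α (-α)
  rw [add_neg_cancel, trr_zero] at h
  linarith

theorem psi_add (α β : K) : psi e (α + β) = psi e α * psi e β := by
  rw [psi, psi, psi, ← Complex.exp_add, trr_add]
  congr 1; push_cast; ring

theorem psi_zero : psi e (0 : K) = 1 := by simp [psi, trr_zero]

theorem psi_eq_one_of_int {α : K} {m : ℤ} (h : trr e α = m) : psi e α = 1 := by
  rw [psi, h]
  rw [show (2 * Real.pi * Complex.I * (((m : ℝ) : ℂ))) = m * (2 * Real.pi * Complex.I) by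
    push_cast; ring]
  exact Complex.exp_int_mul_two_pi_mul_I m

theorem trr_zsmul_mul (n : ℤ) (α b : K) : trr e (α * (n • b)) = n * trr e (α * b) := by
  rw [trr, trr, Finset.mul_sum]
  refine Finset.sum_congr rfl fun j _ => ?_
  have h1 : e j (α * (n • b)) = ((n : ℝ) : ℂ) * e j (α * b) := by
    rw [zsmul_eq_mul, mul_left_comm, map_mul, map_intCast]
    simp
  rw [h1, Complex.re_ofReal_mul]
  ring

/-- translation by an element of `K` -/
def trans (b : K) (x : ι → H3) : ι → H3 := fun j => ⟨(x j).z + e j b, (x j).y, (x j).pos⟩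

/-- dilation by an element of `Kˣ` -/
def dil (a : Kˣ) (x : ι → H3) : ι → H3 := fun j =>
  ⟨e j a * (x j).z, ‖e j a‖ * (x j).y, mul_pos (norm_pos_iff.mpr (by
    rw [Ne, map_eq_zero]; exact a.ne_zero)) (x j).pos⟩

/-- the support of a family of coefficients lies in a lattice -/
def LatSupp (c : K → ℂ) : Prop :=
  ∃ B : Finset K, Submodule.span ℚ (B : Set K) = ⊤ ∧
    ∀ α, c α ≠ 0 → ∀ b ∈ B, ∃ m : ℤ, trr e (α * b) = m

/-- multiples of the elements of a lattice basis -/
theorem exists_common {B B' : Finset K} (hB' : Submodule.span ℚ (B' : Set K) = ⊤) :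
    ∃ N : ℤ, N ≠ 0 ∧ ∀ b ∈ B, N • b ∈ AddSubgroup.closure (B' : Set K) := by
  classical
  have key : ∀ x : K, ∃ N : ℤ, N ≠ 0 ∧ N • x ∈ AddSubgroup.closure (B' : Set K) := by
    intro x
    have hx : x ∈ Submodule.span ℚ (B' : Set K) := by rw [hB']; trivial
    induction hx using Submodule.span_induction with
    | mem x hx => exact ⟨1, one_ne_zero, by rw [one_smul]; exact AddSubgroup.subset_closure hx⟩
    | zero => exact ⟨1, one_ne_zero, by rw [smul_zero]; exact AddSubgroup.zero_mem _⟩
    | add x y _ _ hx hy =>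
      obtain ⟨N, hN, h1⟩ := hx
      obtain ⟨M, hM, h2⟩ := hy
      refine ⟨N * M, mul_ne_zero hN hM, ?_⟩
      rw [smul_add]
      refine AddSubgroup.add_mem _ ?_ ?_
      · rw [mul_comm, mul_smul]; exact AddSubgroup.zsmul_mem _ h1 _
      · rw [mul_smul]; exact AddSubgroup.zsmul_mem _ h2 _
    | smul a x _ hx =>
      obtain ⟨N, hN, h1⟩ := hx
      refine ⟨a.den * N, mul_ne_zero (by exact_mod_cast a.den_nz) hN, ?_⟩
      have h2 : ((a.den * N : ℤ)) • (a • x) = a.num • (N • x) := by
        rw [Rat.smul_def, zsmul_eq_mul, zsmul_eq_mul, zsmul_eq_mul]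
        have h3 : (a.den : K) * (a : K) = (a.num : K) := by
          have h4 : (a.den : ℚ) * a = a.num := by
            rw [mul_comm]; exact_mod_cast Rat.mul_den_eq_num a
          have h5 := congrArg (Rat.cast : ℚ → K) h4
          rw [Rat.cast_mul, Rat.cast_natCast, Rat.cast_intCast] at h5
          exact h5
        push_cast
        linear_combination (N : K) * x * h3
      rw [h2]
      exact AddSubgroup.zsmul_mem _ h1 _
  choose N hN h using key
  refine ⟨∏ b ∈ B, N b, Finset.prod_ne_zero_iff.mpr fun b _ => hN b, fun b hb => ?_⟩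
  rw [← Finset.prod_erase_mul B N hb, mul_smul]
  exact AddSubgroup.zsmul_mem _ (h b) _

theorem exists_common_lattice {c c' : K → ℂ} (h : LatSupp e c) (h' : LatSupp e c') :
    ∃ B : Finset K, Submodule.span ℚ (B : Set K) = ⊤ ∧
      ∀ α, (c α ≠ 0 ∨ c' α ≠ 0) → ∀ b ∈ B, ∃ m : ℤ, trr e (α * b) = m := by
  classical
  obtain ⟨B, hB, h1⟩ := h
  obtain ⟨B', hB', h2⟩ := h'
  obtain ⟨N, hN, h3⟩ := exists_common (B := B) hB'
  refine ⟨B.image fun b => N • b, ?_, ?_⟩
  · rw [eq_top_iff, ← hB, Submodule.span_le]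
    intro b hb
    have h4 : b = ((N : ℚ)⁻¹) • (N • b) := by
      rw [← Int.cast_smul_eq_zsmul ℚ, smul_smul, inv_mul_cancel₀ (by exact_mod_cast hN), one_smul]
    rw [h4]
    refine Submodule.smul_mem _ _ (Submodule.subset_span ?_)
    exact Finset.mem_coe.mpr (Finset.mem_image_of_mem _ hb)
  · intro α hα b' hb'
    obtain ⟨b, hb, rfl⟩ := Finset.mem_image.mp hb'
    clear hb'
    rcases hα with hα | hα
    · obtain ⟨m, hm⟩ := h1 α hα b hb
      exact ⟨N * m, by rw [trr_zsmul_mul, hm]; push_cast; ring⟩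
    · have h5 : ∀ x ∈ AddSubgroup.closure (B' : Set K), ∃ m : ℤ, trr e (α * x) = m := by
        intro x hx
        induction hx using AddSubgroup.closure_induction with
        | mem x hx => exact h2 α hα x hx
        | zero => exact ⟨0, by rw [mul_zero, trr_zero]; simp⟩
        | add x y _ _ hx hy =>
          obtain ⟨m, hm⟩ := hx
          obtain ⟨n, hn⟩ := hy
          exact ⟨m + n, by rw [mul_add, trr_add, hm, hn]; push_cast; ring⟩
        | neg x _ hx =>
          obtain ⟨m, hm⟩ := hx
          exact ⟨-m, by rw [mul_neg, trr_neg, hm]; push_cast; ring⟩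
      exact h5 _ (h3 b hb)

/-- the trace form is non degenerate -/
theorem eq_of_trr_eq [Nonempty ι] {B : Finset K} (hB : Submodule.span ℚ (B : Set K) = ⊤) {α β : K}
    (h : ∀ b ∈ B, trr e (α * b) = trr e (β * b)) : α = β := by
  by_contra hne
  have h0 : ∀ x : K, trr e ((α - β) * x) = 0 := by
    intro x
    have hx : x ∈ Submodule.span ℚ (B : Set K) := by rw [hB]; trivial
    induction hx using Submodule.span_induction with
    | mem x hx =>
      have h1 := trr_add e ((α - β) * x) (β * x)
      rw [← add_mul, sub_add_cancel, h x hx] at h1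
      linarith
    | zero => rw [mul_zero, trr_zero]
    | add x y _ _ hx hy => rw [mul_add, trr_add, hx, hy, add_zero]
    | smul a x _ hx =>
      have h1 : trr e ((α - β) * (a • x)) = a * trr e ((α - β) * x) := by
        rw [trr, trr, Finset.mul_sum]
        refine Finset.sum_congr rfl fun j _ => ?_
        rw [mul_smul_comm, Algebra.smul_def, map_mul]
        have : e j (algebraMap ℚ K a) = ((a : ℝ) : ℂ) := by simp
        rw [this, Complex.re_ofReal_mul]; ring
      rw [h1, hx, mul_zero]
  have h1 := h0 (α - β)⁻¹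
  rw [mul_inv_cancel₀ (sub_ne_zero.mpr hne), trr_one] at h1
  have : (0 : ℝ) < Fintype.card ι := by exact_mod_cast Fintype.card_pos
  linarith

/-- **Fourier expansions.** -/
structure Expands (ω : ℝ → ℝ) (Φ : (ι → H3) → ℂ) (c : K → ℂ) : Prop where
  zero : c 0 = 0
  supp : LatSupp e c
  sum : ∀ x : ι → H3, HasSum (fun α => c α * wt e ω α x * chi e α (fun j => (x j).z)) (Φ x)

theorem wt_ne_zero {ω : ℝ → ℝ} (hω : ∀ u, 0 < u → ω u ≠ 0) {α : K} (hα : α ≠ 0) (x : ι → H3) :
    wt e ω α x ≠ 0 := by
  rw [wt, Finset.prod_ne_zero_iff]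
  intro j _
  refine hω _ (mul_pos (norm_pos_iff.mpr ?_) (x j).pos)
  rwa [Ne, map_eq_zero]

theorem norm_chi (α : K) (z : ι → ℂ) : ‖chi e α z‖ = 1 := by
  rw [chi, show (2 * Real.pi * Complex.I * (pair e α z : ℂ)) =
    ((2 * Real.pi * pair e α z : ℝ) : ℂ) * Complex.I by push_cast; ring]
  exact Complex.norm_exp_ofReal_mul_I _

theorem pair_sum (α : K) {B : Finset K} (u : B → ℝ) :
    pair e α (fun j => ∑ b : B, (u b : ℂ) * e j b) = ∑ b : B, u b * trr e (α * b) := by
  rw [pair]
  simp only [trr, Finset.mul_sum, Complex.re_sum]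
  rw [Finset.sum_comm]
  refine Finset.sum_congr rfl fun b _ => Finset.sum_congr rfl fun j _ => ?_
  rw [mul_left_comm, Complex.re_ofReal_mul, map_mul]
  ring

/-- A linear combination of two expansions of the same function. -/
theorem Expands.unique [Nonempty ι] {ω : ℝ → ℝ} (hω : ∀ u, 0 < u → ω u ≠ 0)
    {Φ : (ι → H3) → ℂ} {c c' : K → ℂ} (h : Expands e ω Φ c) (h' : Expands e ω Φ c') : c = c' := by
  classical
  obtain ⟨B, hB, hBint⟩ := exists_common_lattice e h.supp h'.supp
  let J := {α : K // c α ≠ 0 ∨ c' α ≠ 0}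
  choose m hm using fun (α : J) (b : B) => hBint α.1 α.2 b.1 b.2
  have hmi : Function.Injective m := by
    intro α β hab
    apply Subtype.ext
    refine eq_of_trr_eq e hB fun b hb => ?_
    rw [hm α ⟨b, hb⟩, hm β ⟨b, hb⟩, hab]
  let x0 : ι → H3 := fun _ => ⟨0, 1, one_pos⟩
  have hx : ∀ z : ι → ℂ, HasSum (fun α : K => ((c α - c' α) * wt e ω α x0) * chi e α z) 0 := by
    intro z
    have h1 := (h.sum (fun j => ⟨z j, 1, one_pos⟩)).sub (h'.sum (fun j => ⟨z j, 1, one_pos⟩))
    rw [sub_self] at h1
    refine h1.congr_fun fun α => ?_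
    have e1 : wt e ω α (fun j => ⟨z j, 1, one_pos⟩) = wt e ω α x0 := rfl
    rw [e1]
    ring
  have hs : Summable (fun α : K => (c α - c' α) * wt e ω α x0) := by
    have h1 := (hx 0).summable.norm
    apply Summable.of_norm
    refine h1.congr fun α => ?_
    rw [norm_mul, norm_chi, mul_one]
  have key := family_coeff_eq_zero hmi (a := fun α : J => (c α - c' α) * wt e ω α x0)
    (hs.comp_injective Subtype.val_injective) (fun u => by
      have h1 := hx (fun j => ∑ b : B, (u b : ℂ) * e j b)
      have h2 : ∀ α : J, chi e (α : K) (fun j => ∑ b : B, (u b : ℂ) * e j b) =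
          Complex.exp (2 * Real.pi * Complex.I * ∑ b, (m α b : ℂ) * u b) := by
        intro α
        rw [chi, pair_sum]
        congr 2
        push_cast
        refine Finset.sum_congr rfl fun b _ => ?_
        rw [hm α b]; push_cast; ring
      refine Eq.trans ?_ h1.tsum_eq
      refine Eq.trans ?_ ((Subtype.val_injective (p := fun α : K => c α ≠ 0 ∨ c' α ≠ 0)).tsum_eq
        (f := fun α : K => (c α - c' α) * wt e ω α x0 *
          chi e α (fun j => ∑ b : B, (u b : ℂ) * e j b)) (fun α hα => by
          refine ⟨⟨α, ?_⟩, rfl⟩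
          by_contra hcon
          simp only [not_or, not_not] at hcon
          apply hα
          show (c α - c' α) * wt e ω α x0 * _ = 0
          rw [hcon.1, hcon.2, sub_self, zero_mul, zero_mul]))
      refine tsum_congr fun α => ?_
      rw [h2])
  funext α
  by_cases hα : c α ≠ 0 ∨ c' α ≠ 0
  · have h1 := key ⟨α, hα⟩
    have hα0 : α ≠ 0 := by
      rintro rfl
      rw [h.zero, h'.zero] at hα
      simp at hα
    have h2 : (wt e ω α x0 : ℂ) ≠ 0 := by exact_mod_cast wt_ne_zero e hω hα0 x0
    exact sub_eq_zero.mp ((mul_eq_zero.mp h1).resolve_right h2)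
  · push Not at hα
    rw [hα.1, hα.2]

end Fermat.Agent.H19W
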