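import Fermat.Agent.H19W5

/-!
# From the expansion over the dual lattice to the expansion over `K` (helper19)

* `embBasis`: the image of a `ℚ`-basis of `K` is an `ℝ`-basis of `J → ℂ`;
* `exists_dual`: the dual lattice is contained in `K`;
* `expands_of_fe`: conversion.
-/

set_option autoImplicit false
set_option linter.unusedSectionVars false

noncomputable section

open Fermat.Agent (H3)
open NumberField Matrix Module
open scoped MatrixGroups

namespace Fermat.Agent.H19W

open Fermat.Agent.H59D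

/-- the real pairing on `J → ℂ` -/
def rp {J : Type*} [Fintype J] (ν z : J → ℂ) : ℝ := ∑ j, 2 * (ν j * z j).re

section RP

variable {J : Type*} [Fintype J]

theorem rp_add_left (ν ν' z : J → ℂ) : rp (ν + ν') z = rp ν z + rp ν' z := by
  rw [rp, rp, rp, ← Finset.sum_add_distrib]
  refine Finset.sum_congr rfl fun j _ => ?_
  rw [Pi.add_apply, add_mul, Complex.add_re]; ring

theorem rp_add_right (ν z z' : J → ℂ) : rp ν (z + z') = rp ν z + rp ν z' := by
  rw [rp, rp, rp, ← Finset.sum_add_distrib]
  refine Finset.sum_congr rfl fun j _ => ?_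
  rw [Pi.add_apply, mul_add, Complex.add_re]; ring

theorem rp_smul_right (ν : J → ℂ) (t : ℝ) (z : J → ℂ) : rp ν (t • z) = t * rp ν z := by
  rw [rp, rp, Finset.mul_sum]
  refine Finset.sum_congr rfl fun j _ => ?_
  rw [Pi.smul_apply, Complex.real_smul, mul_left_comm, Complex.re_ofReal_mul]; ring

theorem rp_neg_left (ν z : J → ℂ) : rp (-ν) z = -rp ν z := by
  rw [rp, rp, ← Finset.sum_neg_distrib]
  refine Finset.sum_congr rfl fun j _ => ?_
  rw [Pi.neg_apply, neg_mul, Complex.neg_re]; ring

theorem rp_sub_left (ν ν' z : J → ℂ) : rp (ν - ν') z = rp ν z - rp ν' z := by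
  rw [sub_eq_add_neg, rp_add_left, rp_neg_left]; rfl

/-- `rp ν` as a linear form -/
def rpL (ν : J → ℂ) : (J → ℂ) →ₗ[ℝ] ℝ where
  toFun := rp ν
  map_add' := rp_add_right ν
  map_smul' := rp_smul_right ν

@[simp] theorem rpL_apply (ν z : J → ℂ) : rpL ν z = rp ν z := rfl

/-- the pairing is non degenerate -/
theorem eq_zero_of_rp {ν : J → ℂ} (h : ∀ z, rp ν z = 0) : ν = 0 := by
  have h1 := h (fun j => star (ν j))
  have h2 : ∀ j, 2 * (ν j * star (ν j)).re = 2 * ‖ν j‖ ^ 2 := by
    intro j
    rw [Complex.star_def, Complex.mul_conj, Complex.ofReal_re, Complex.normSq_eq_norm_sq]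
  rw [rp] at h1
  simp only [h2] at h1
  have h3 := (Finset.sum_eq_zero_iff_of_nonneg (fun j _ => by positivity)).mp h1
  funext j
  have h4 := h3 j (Finset.mem_univ j)
  have h5 : ‖ν j‖ = 0 := by nlinarith [norm_nonneg (ν j)]
  exact norm_eq_zero.mp h5

theorem eq_of_rp_basis {κ : Type*} (b : Basis κ ℝ (J → ℂ)) {ν ν' : J → ℂ}
    (h : ∀ i, rp ν (b i) = rp ν' (b i)) : ν = ν' := by
  rw [← sub_eq_zero]
  apply eq_zero_of_rp
  intro z
  have h1 : rpL (ν - ν') = 0 := by
    apply b.ext
    intro i
    rw [rpL_apply, rp_sub_left, h i, sub_self, LinearMap.zero_apply]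
  have h2 := congrArg (fun f => f z) h1
  exact h2

end RP

variable {K : Type*} [Field K] [NumberField K] {J : Type*} [Fintype J] (m : Model K J)

/-- the embedding of `K` in `J → ℂ` -/
def eV (α : K) : J → ℂ := fun j => m.e j α

theorem eV_add (α β : K) : eV m (α + β) = eV m α + eV m β := funext fun _ => map_add _ _ _

theorem pair_eq_rp (α : K) (z : J → ℂ) : pair m.e α z = rp (eV m α) z := rfl

theorem rp_eV (α β : K) : rp (eV m α) (eV m β) = ((Algebra.trace ℚ K (α * β) : ℚ) : ℝ) := by
  rw [← trr_eq_trace' m, ← pair_embed]; rfl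

variable {κ : Type*} [Fintype κ] (bs : Basis κ ℚ K)

/-- the dual basis for the trace form -/
def dualB [DecidableEq κ] : Basis κ ℚ K := (Algebra.traceForm ℚ K).dualBasis (traceForm_nondegenerate ℚ K) bs

theorem trace_dualB [DecidableEq κ] (i k : κ) :
    Algebra.trace ℚ K (dualB bs i * bs k) = if k = i then 1 else 0 := by
  have := LinearMap.BilinForm.apply_dualBasis_left (B := Algebra.traceForm ℚ K)
    (traceForm_nondegenerate ℚ K) bs i k
  rw [Algebra.traceForm_apply] at this
  exact this

theorem linInd_eV : LinearIndependent ℝ fun i => eV m (bs i) := by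
  classical
  rw [Fintype.linearIndependent_iff]
  intro u hu k
  have h1 : rp (eV m (dualB bs k)) (∑ i, u i • eV m (bs i)) = u k := by
    rw [← rpL_apply, map_sum]
    have h2 : ∀ i, rpL (eV m (dualB bs k)) (u i • eV m (bs i)) = if i = k then u i else 0 := by
      intro i
      rw [map_smul, rpL_apply, rp_eV, trace_dualB, smul_eq_mul]
      split_ifs <;> simp
    simp only [h2]
    simp
  rw [hu] at h1
  rw [← h1, ← rpL_apply, map_zero]

include m bs in
theorem card_eq_finrank : Fintype.card κ = finrank ℝ (J → ℂ) := by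
  rw [← finrank_eq_card_basis bs, ← two_mul_card m, finrank_pi_fintype]
  simp [mul_comm]

variable [Nonempty J]

include bs in
omit [Nonempty J] in
theorem nonempty_basis : Nonempty κ := by
  rw [← Fintype.card_pos_iff, ← finrank_eq_card_basis bs]; exact finrank_pos

/-- the image of a basis of `K` -/
def embBasis : Basis κ ℝ (J → ℂ) :=
  haveI := nonempty_basis bs
  basisOfLinearIndependentOfCardEqFinrank (linInd_eV m bs) (card_eq_finrank m bs)

@[simp] theorem embBasis_apply (i : κ) : embBasis m bs i = eV m (bs i) := by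
  have := nonempty_basis bs
  exact congrFun (coe_basisOfLinearIndependentOfCardEqFinrank (linInd_eV m bs)
    (card_eq_finrank m bs)) i

/-- **The dual lattice is contained in `K`.** -/
theorem exists_dual {ν : J → ℂ} (h : ∀ i, ∃ n : ℤ, rp ν (eV m (bs i)) = n) : ∃ β : K, ν = eV m β := by
  classical
  choose n hn using h
  refine ⟨∑ k, (n k : ℚ) • dualB bs k, ?_⟩
  refine eq_of_rp_basis (embBasis m bs) fun i => ?_
  rw [embBasis_apply, hn, rp_eV, Finset.sum_mul, map_sum]
  have h1 : ∀ k, Algebra.trace ℚ K (((n k : ℚ) • dualB bs k) * bs i) = if i = k then (n k : ℚ) else 0 := by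
    intro k
    rw [smul_mul_assoc, map_smul, trace_dualB, smul_eq_mul]
    split_ifs <;> simp
  simp only [h1]
  simp

theorem eV_injective : Function.Injective (eV m) := by
  intro α β h
  obtain ⟨j⟩ := (inferInstance : Nonempty J)
  exact (m.e j).injective (congrFun h j)

omit [Nonempty J] in
theorem wt_eq (k0 : ℝ → ℝ) (α : K) (x : J → H3) : wt m.e (fun u => u * k0 u) α x =
    (∏ j, ‖m.e j α‖) * ∏ j, ((x j).y * k0 (‖m.e j α‖ * (x j).y)) := by
  rw [wt, ← Finset.prod_mul_distrib]
  refine Finset.prod_congr rfl fun j _ => ?_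
  ring

/-- **Conversion.** -/
theorem expands_of_fe (k0 : ℝ → ℝ) {F : (J → H3) → ℂ} (c : (J → ℂ) → ℂ) (h0 : c 0 = 0)
    (hsupp : ∀ ν, c ν ≠ 0 → ∀ i, ∃ n : ℤ, rp ν (eV m (bs i)) = n)
    (hsum : ∀ x : J → H3, HasSum (fun ν => c ν *
      ((∏ j, ((x j).y * k0 (‖ν j‖ * (x j).y)) : ℝ) : ℂ) *
        Complex.exp (2 * Real.pi * Complex.I * (rp ν (fun j => (x j).z) : ℂ))) (F x)) :
    Expands m.e (fun u => u * k0 u) F
      (fun α => c (eV m α) / ((∏ j, ‖m.e j α‖ : ℝ) : ℂ)) := by
  classical
  have hz : eV m (0 : K) = 0 := funext fun _ => map_zero _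
  refine ⟨by rw [hz, h0, zero_div], ⟨Finset.univ.image bs, ?_, ?_⟩, fun x => ?_⟩
  · rw [Finset.coe_image, Finset.coe_univ, Set.image_univ]
    exact bs.span_eq
  · intro α hα b hb
    obtain ⟨i, -, rfl⟩ := Finset.mem_image.mp hb
    have h1 : c (eV m α) ≠ 0 := by
      intro h
      exact hα (by simp only [h, zero_div])
    obtain ⟨n, hn⟩ := hsupp _ h1 i
    refine ⟨n, ?_⟩
    rw [← hn, ← pair_embed]
    rfl
  · have h1 := hsum x
    rw [← (eV_injective m).hasSum_iff] at h1
    · convert h1 using 2 with α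
      simp only [Function.comp_apply]
      rw [wt_eq]
      by_cases hα : α = 0
      · subst hα
        rw [hz, h0]; simp
      have h2 : (((∏ j, ‖m.e j α‖ : ℝ) : ℂ)) ≠ 0 := by
        rw [Complex.ofReal_ne_zero, Finset.prod_ne_zero_iff]
        intro j _
        rw [norm_ne_zero_iff, Ne, map_eq_zero]
        exact hα
      have h3 : chi m.e α (fun j => (x j).z) =
        Complex.exp (2 * Real.pi * Complex.I * (rp (eV m α) (fun j => (x j).z) : ℂ)) := rfl
      rw [h3]
      have h4 : (∏ j, (x j).y * k0 (‖m.e j α‖ * (x j).y)) =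
        (∏ j, (x j).y * k0 (‖eV m α j‖ * (x j).y)) := rfl
      rw [← h4, Complex.ofReal_mul]
      field_simp
    · intro ν hν
      by_cases hc : c ν = 0
      · rw [hc]; simp
      · obtain ⟨β, hβ⟩ := exists_dual m bs (hsupp ν hc)
        exact absurd ⟨β, hβ.symm⟩ hν

end Fermat.Agent.H19W
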