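import Fermat.Agent.H19W8
import Fermat.Agent.H22ZFEf

/-!
# Closed theorem: Whittaker functions of bounded eigenfunctions on `X(K)` (helper19)
-/

set_option autoImplicit false
set_option linter.unusedSectionVars false

noncomputable section

open Fermat.Agent (H3)
open NumberField Matrix Module IsDedekindDomain HeightOneSpectrum WithZero
open scoped MatrixGroups

namespace Fermat.Agent.H19W

open Fermat.Agent.H59D Fermat.Agent.H59XF Fermat.Agent.H22Z

variable {K : Type*} [Field K] [NumberField K] {J : Type*} [Fintype J] [DecidableEq J] [Nonempty J]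
  {m : Model K J}

/-- the Whittaker function at infinity is `u ↦ u * kf u` -/
def kf (u : ℝ) : ℝ := K0 (4 * Real.pi * u)

theorem kf_pos {u : ℝ} (hu : 0 < u) : 0 < kf u := K0_pos (by positivity)

theorem kf_ne (u : ℝ) (hu : 0 < u) : kf u ≠ 0 := (kf_pos hu).ne'

/-- **Existence and uniqueness of the Whittaker function.** -/
theorem existsUnique_kappa (Φ : m.X → ℂ) (hG : ∀ (g : PGL(2, K)) (x : m.X), Φ (g • x) = Φ x)
    (hP : ∀ y : XF m.L.fam, ∃ M, IsEigH (fun x => Φ (x, y)) M) :
    ∃! κ : XF m.L.fam → ℂ, IsWM m kf Φ κ := by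
  obtain ⟨κ, hκ⟩ := exists_kappa m kf_ne (feThm J) Φ hG hP
  exact ⟨κ, hκ, fun κ' h' => IsWM.unique kf_ne h' hκ⟩

/-- **The Whittaker function is bounded.** -/
theorem IsWM.bound {Φ : m.X → ℂ} {κ : XF m.L.fam → ℂ} (h : IsWM m kf Φ κ)
    (hG : ∀ (g : PGL(2, K)) (x : m.X), Φ (g • x) = Φ x) {y : XF m.L.fam} {M : ℝ}
    (hP : IsEigH (fun x => Φ (x, y)) M) : ‖κ y‖ ≤ M / kf 1 ^ Fintype.card J := by
  obtain ⟨bs, hbs⟩ := exists_stab (bLevel m.L) y
  obtain ⟨c, h0, h1, -, hb, h2⟩ := hP.exists_hasSum (embBasis m bs) (fun i x => by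
    have h3 := inv_nP m hG (bs i) x y
    have h5 : nP (bs i) • y = y := hbs i
    rw [h5] at h3
    rw [embBasis_apply]
    exact h3)
  simp only [embBasis_apply] at h1
  have h3 := expands_of_fe m bs kf c h0 h1 h2
  have h4 := (h y).unique m.e (omega_ne kf_ne) h3
  have h5 := congrFun h4 1
  rw [IsW.apply_eq h dP_one_smul] at h5
  rw [h5, norm_div]
  have h6 : ∀ j, ‖m.e j (1 : K)‖ = 1 := fun j => by rw [map_one, norm_one]
  simp only [h6, Finset.prod_const_one, Complex.ofReal_one, norm_one, div_one]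
  refine (hb _).trans (le_of_eq ?_)
  have h7 : ∀ j, ‖eV m (1 : K) j‖ = 1 := h6
  simp only [h7, Finset.prod_const, Finset.card_univ]
  rw [kf, mul_one, one_div, inv_pow, div_eq_mul_inv]

end Fermat.Agent.H19W
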