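import Fermat.Agent.H23HauptL
import Fermat.Agent.H1Theta

/-!
# Hauptmoduln of levels 4 and 9 (helper1)

`X4 = (η(z)/η(4z))^8 = q⁻¹ - 8 + ...`, `X9 = (η(z)/η(9z))^3 = q⁻¹ - 3 + ...`, over any ring.

* `t2 (X4 + 16) = X4²`, `t2(q²) = X4 (X4 + 16)`,
  `(X4² + 256 X4 + 4096)³ = j X4⁴ (X4 + 16)`
* `t3 (X9² + 9 X9 + 27) = X9³`, `t3(q³) = X9 (X9² + 9 X9 + 27)`,
  `(X9 + 9)³ (X9³ + 243 X9² + 2187 X9 + 6561)³ = j X9⁹ (X9² + 9 X9 + 27)`
-/

set_option autoImplicit false

noncomputable section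

open ModularCurve

namespace Fermat.Agent.H1

open Fermat.Agent.H23.Haupt Fermat.Agent.H28 Fermat.Agent.H61 Fermat.Agent.H66

/-- the inverse of `∏ (1 - q^n)` -/
def etaInv : PowerSeries ℤ := etaProd.invOfUnit 1

theorem etaProd_mul_etaInv : etaProd * etaInv = 1 :=
  PowerSeries.mul_invOfUnit _ _ (by rw [constantCoeff_etaProd]; rfl)

theorem constantCoeff_etaInv : PowerSeries.constantCoeff etaInv = 1 := by
  have h := congrArg (PowerSeries.constantCoeff (R := ℤ)) etaProd_mul_etaInv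
  rwa [map_mul, constantCoeff_etaProd, one_mul, map_one] at h

section

variable (K : Type*) [CommRing K]

theorem toL_mul' (f g : PowerSeries ℤ) : toL K (f * g) = toL K f * toL K g := by
  rw [toL, toL, toL, map_mul, map_mul]

theorem toL_pow' (f : PowerSeries ℤ) (n : ℕ) : toL K (f ^ n) = toL K f ^ n := by
  rw [toL, toL, map_pow, map_pow]

theorem toL_one' : toL K 1 = 1 := by
  rw [toL, map_one, map_one]

/-- `∏ (1 - q^n)` -/
def eP : LaurentSeries K := toL K etaProd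

/-- `∏ (1 - q^n)⁻¹` -/
def eI : LaurentSeries K := toL K etaInv

theorem eP_mul_eI : eP K * eI K = 1 := by
  rw [eP, eI, ← toL_mul', etaProd_mul_etaInv, toL_one']

theorem hasLead_eP : HasLead (eP K) 0 1 := hasLead_toL K _ constantCoeff_etaProd

theorem hasLead_eI : HasLead (eI K) 0 1 := hasLead_toL K _ constantCoeff_etaInv

theorem deltaL_eq : deltaL K = HahnSeries.single 1 1 * eP K ^ 24 := by
  have h : deltaL K = HahnSeries.single 1 1 * toL K dedekindEtaUnit := rfl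
  rw [h, dedekindEtaUnit, toL_pow', eP]

theorem deltaInvL_eq : deltaInvL K = HahnSeries.single (-1) 1 * eI K ^ 24 := by
  have h1 := deltaL_mul_deltaInvL K
  have h2 : deltaL K * (HahnSeries.single (-1) 1 * eI K ^ 24) = 1 := by
    rw [deltaL_eq]
    have h3 : (HahnSeries.single (1 : ℤ) (1 : K) : LaurentSeries K) * HahnSeries.single (-1) 1
        = 1 := by
      rw [HahnSeries.single_mul_single, mul_one]
      rfl
    calc (HahnSeries.single (1 : ℤ) (1 : K) : LaurentSeries K) * eP K ^ 24 *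
          (HahnSeries.single (-1) 1 * eI K ^ 24)
        = ((HahnSeries.single (1 : ℤ) (1 : K) : LaurentSeries K) * HahnSeries.single (-1) 1) *
          (eP K * eI K) ^ 24 := by ring
      _ = 1 := by rw [h3, eP_mul_eI, one_pow, mul_one]
  calc deltaInvL K = (deltaL K * (HahnSeries.single (-1) 1 * eI K ^ 24)) * deltaInvL K := by
        rw [h2, one_mul]
    _ = (deltaL K * deltaInvL K) * (HahnSeries.single (-1) 1 * eI K ^ 24) := by ring
    _ = _ := by rw [h1, one_mul]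

theorem t3_eq : t3 K = HahnSeries.single (-1 : ℤ) 1 * eP K ^ 12 * qExpand K 3 (eI K) ^ 12 := by
  have h : eta12Inv = etaInv ^ 12 := by
    have h1 := etaProd_mul_eta12Inv
    have h2 : etaProd ^ 12 * etaInv ^ 12 = 1 := by rw [← mul_pow, etaProd_mul_etaInv, one_pow]
    calc eta12Inv = (etaProd ^ 12 * etaInv ^ 12) * eta12Inv := by rw [h2, one_mul]
      _ = (etaProd ^ 12 * eta12Inv) * etaInv ^ 12 := by ring
      _ = _ := by rw [h1, one_mul]
  rw [t3, h, toL_pow', toL_pow', map_pow]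
  rfl

theorem single_pow_neg_one (n : ℕ) :
    (HahnSeries.single (-1 : ℤ) (1 : K) : LaurentSeries K) ^ n = HahnSeries.single (-n : ℤ) 1 := by
  rw [HahnSeries.single_pow, one_pow]
  congr 1
  simp

/-- `(η(z)/η(4z))^8` -/
def X4 : LaurentSeries K := HahnSeries.single (-1 : ℤ) 1 * eP K ^ 8 * qExpand K 4 (eI K) ^ 8

/-- `(η(z)/η(9z))^3` -/
def X9 : LaurentSeries K := HahnSeries.single (-1 : ℤ) 1 * eP K ^ 3 * qExpand K 9 (eI K) ^ 3

theorem hasLead_X4 : HasLead (X4 K) (-1) 1 := by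
  have h := ((HasLead.single (A := K) (-1) 1).mul ((hasLead_eP K).pow 8)).mul
    (((hasLead_eI K).qExpand 4).pow 8)
  norm_num at h
  exact h

theorem hasLead_X9 : HasLead (X9 K) (-1) 1 := by
  have h := ((HasLead.single (A := K) (-1) 1).mul ((hasLead_eP K).pow 3)).mul
    (((hasLead_eI K).qExpand 9).pow 3)
  norm_num at h
  exact h

variable {K} in
theorem coeffMap_eP {L : Type*} [CommRing L] (φ : K →+* L) : coeffMap φ (eP K) = eP L :=
  coeffMap_toL φ _

variable {K} in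
theorem coeffMap_eI {L : Type*} [CommRing L] (φ : K →+* L) : coeffMap φ (eI K) = eI L :=
  coeffMap_toL φ _

variable {K} in
theorem coeffMap_X4 {L : Type*} [CommRing L] (φ : K →+* L) : coeffMap φ (X4 K) = X4 L := by
  rw [X4, X4, map_mul, map_mul, map_pow, map_pow, coeffMap_qExpand, coeffMap_eP, coeffMap_eI,
    coeffMap_single, map_one]

variable {K} in
theorem coeffMap_X9 {L : Type*} [CommRing L] (φ : K →+* L) : coeffMap φ (X9 K) = X9 L := by
  rw [X9, X9, map_mul, map_mul, map_pow, map_pow, coeffMap_qExpand, coeffMap_eP, coeffMap_eI,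
    coeffMap_single, map_one]

/-- iterated expansions -/
theorem qExpand_qExpand' (m n k : ℕ) [NeZero m] [NeZero n] [NeZero k] (h : m * n = k)
    (f : LaurentSeries K) : qExpand K m (qExpand K n f) = qExpand K k f := by
  have hm : (0 : ℤ) < m := by exact_mod_cast Nat.pos_of_ne_zero (NeZero.ne m)
  ext i
  by_cases hi : (k : ℤ) ∣ i
  · obtain ⟨a, rfl⟩ := hi
    rw [qExpand_coeff_mul, ← h]
    push_cast
    rw [mul_assoc, qExpand_coeff_mul, qExpand_coeff_mul]
  · rw [qExpand_coeff_of_not_dvd _ _ hi]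
    by_cases hi2 : (m : ℤ) ∣ i
    · obtain ⟨a, rfl⟩ := hi2
      rw [qExpand_coeff_mul, qExpand_coeff_of_not_dvd]
      rintro ⟨b, rfl⟩
      apply hi
      rw [← h]
      exact ⟨b, by push_cast; ring⟩
    · exact qExpand_coeff_of_not_dvd _ _ hi2

theorem X4_cube : X4 K ^ 3 = t2 K * qExpand K 2 (t2 K) := by
  have h2 : qExpand K 2 (eP K) * qExpand K 2 (eI K) = 1 := by
    rw [← map_mul, eP_mul_eI, map_one]
  have h4 : qExpand K 2 (qExpand K 2 (eI K)) = qExpand K 4 (eI K) :=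
    qExpand_qExpand' K 2 2 4 (by norm_num) _
  have hs1 : qExpand K 2 (HahnSeries.single (1 : ℤ) (1 : K)) = HahnSeries.single (2 : ℤ) 1 := by
    rw [qExpand_single]; norm_num
  have hs2 : qExpand K 2 (HahnSeries.single (-1 : ℤ) (1 : K)) = HahnSeries.single (-2 : ℤ) 1 := by
    rw [qExpand_single]; norm_num
  have hs4 : qExpand K 2 (HahnSeries.single (-2 : ℤ) (1 : K)) = HahnSeries.single (-4 : ℤ) 1 := by
    rw [qExpand_single]; norm_num
  have e1 : (HahnSeries.single (1 : ℤ) (1 : K) : LaurentSeries K) * HahnSeries.single (-2 : ℤ) 1 *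
      (HahnSeries.single (2 : ℤ) 1 * HahnSeries.single (-4 : ℤ) 1) =
      HahnSeries.single (-1 : ℤ) 1 ^ 3 := by
    rw [single_pow_neg_one, HahnSeries.single_mul_single, HahnSeries.single_mul_single,
      HahnSeries.single_mul_single]
    norm_num
  rw [t2, deltaL_eq, deltaInvL_eq]
  simp only [map_mul, map_pow, hs1, hs2, hs4, h4]
  rw [X4]
  set a := (HahnSeries.single (1 : ℤ) (1 : K) : LaurentSeries K)
  set b := (HahnSeries.single (-2 : ℤ) (1 : K) : LaurentSeries K)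
  set c := (HahnSeries.single (2 : ℤ) (1 : K) : LaurentSeries K)
  set d := (HahnSeries.single (-4 : ℤ) (1 : K) : LaurentSeries K)
  set e := (HahnSeries.single (-1 : ℤ) (1 : K) : LaurentSeries K)
  set P := eP K
  set P2 := qExpand K 2 (eP K)
  set I2 := qExpand K 2 (eI K)
  set I4 := qExpand K 4 (eI K)
  calc (e * P ^ 8 * I4 ^ 8) ^ 3 = e ^ 3 * P ^ 24 * I4 ^ 24 * 1 ^ 24 := by ring
    _ = a * b * (c * d) * P ^ 24 * I4 ^ 24 * (P2 * I2) ^ 24 := by rw [e1, h2]
    _ = a * P ^ 24 * (b * I2 ^ 24) * (c * P2 ^ 24 * (d * I4 ^ 24)) := by ring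

theorem X9_pow_four : X9 K ^ 4 = t3 K * qExpand K 3 (t3 K) := by
  have h2 : qExpand K 3 (eP K) * qExpand K 3 (eI K) = 1 := by
    rw [← map_mul, eP_mul_eI, map_one]
  have h4 : qExpand K 3 (qExpand K 3 (eI K)) = qExpand K 9 (eI K) :=
    qExpand_qExpand' K 3 3 9 (by norm_num) _
  have hs2 : qExpand K 3 (HahnSeries.single (-1 : ℤ) (1 : K)) = HahnSeries.single (-3 : ℤ) 1 := by
    rw [qExpand_single]; norm_num
  have e1 : (HahnSeries.single (-1 : ℤ) (1 : K) : LaurentSeries K) * HahnSeries.single (-3 : ℤ) 1 =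
      HahnSeries.single (-1 : ℤ) 1 ^ 4 := by
    rw [single_pow_neg_one, HahnSeries.single_mul_single]
    norm_num
  rw [t3_eq]
  simp only [map_mul, map_pow, hs2, h4]
  rw [X9]
  set a := (HahnSeries.single (-1 : ℤ) (1 : K) : LaurentSeries K)
  set b := (HahnSeries.single (-3 : ℤ) (1 : K) : LaurentSeries K)
  set P := eP K
  set P2 := qExpand K 3 (eP K)
  set I2 := qExpand K 3 (eI K)
  set I4 := qExpand K 9 (eI K)
  calc (a * P ^ 3 * I4 ^ 3) ^ 4 = a ^ 4 * P ^ 12 * I4 ^ 12 * 1 ^ 12 := by ring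
    _ = a * b * P ^ 12 * I4 ^ 12 * (P2 * I2) ^ 12 := by rw [e1, h2]
    _ = a * P ^ 12 * I2 ^ 12 * (b * P2 ^ 12 * I4 ^ 12) := by ring

end

section Int

theorem lead_weaken {A : Type*} [CommRing A] {x : LaurentSeries A} {n m : ℤ} {c : A}
    (hx : HasLead x n c) (h : m < n) : HasLead x m 0 :=
  ⟨hx.2 m h, fun k hk => hx.2 k (hk.trans h)⟩

theorem lead_natMul {A : Type*} [CommRing A] {x : LaurentSeries A} {n : ℤ} {c : A} (a : ℕ)
    (hx : HasLead x n c) : HasLead ((a : LaurentSeries A) * x) n (a * c) := by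
  have h := (HasLead.C (a : A)).mul hx
  rwa [zero_add, map_natCast] at h

theorem lead_add {A : Type*} [CommRing A] {x y : LaurentSeries A} {n : ℤ} {c d : A}
    (hx : HasLead x n c) (hy : HasLead y n d) : HasLead (x + y) n (c + d) :=
  HasLead.add_same hx hy

theorem X4_rel_int : t2 ℤ * (X4 ℤ + 16) = X4 ℤ ^ 2 := by
  have h1 := t2_E2_int
  have h2 := congrArg (qExpand ℤ 2) t2_E1_int
  have h3 := X4_cube ℤ
  have l1 := hasLead_t2 ℤ
  have l2 := (hasLead_t2 ℤ).qExpand 2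
  have lX := hasLead_X4 ℤ
  simp only [map_mul, map_add, map_pow, map_ofNat] at h2
  set t := t2 ℤ
  set s := qExpand ℤ 2 t
  set X := X4 ℤ
  set j := qExpand ℤ 2 (jqModC ℤ)
  have e1 : (t * s - 4096) * (t ^ 2 * s + 48 * t * s - s ^ 2 + 4096 * t) = 0 := by
    linear_combination s ^ 2 * h1 - t * h2
  have hts : t * s - 4096 ≠ 0 := by
    have l3 := l1.mul l2
    norm_num at l3
    have l := HasLead.add_of_lt l3 (HasLead.C (-4096 : ℤ)) (by norm_num)
    have h := HasLead.ne_zero l (by norm_num)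
    intro h0
    apply h
    rw [← h0, map_neg, map_ofNat]
    ring
  have e2 := (mul_eq_zero.mp e1).resolve_left hts
  have e3 : (t * (X + 16) - X ^ 2) *
      (t ^ 2 * (X ^ 2 - 16 * X + 256) + t * X ^ 2 * (X + 16) + X ^ 4) = 0 := by
    linear_combination t ^ 2 * e2 + (t ^ 3 + 48 * t ^ 2 - X ^ 3 - t * s) * h3
  rcases mul_eq_zero.mp e3 with h | h
  · exact sub_eq_zero.mp h
  · exfalso
    have m1 := (l1.pow 2).mul (lX.pow 2)
    have m2 := HasLead.neg (lead_natMul 16 (lead_weaken (m := -4) ((l1.pow 2).mul lX) (by norm_num)))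
    have m3 := lead_natMul 256 (lead_weaken (m := -4) (l1.pow 2) (by norm_num))
    have m4 := (l1.mul (lX.pow 2)).mul lX
    have m5 := lead_natMul 16 (lead_weaken (m := -4) (l1.mul (lX.pow 2)) (by norm_num))
    have m6 := lX.pow 4
    norm_num at m1 m2 m3 m4 m5 m6
    have m7 := lead_add (lead_add (lead_add (lead_add (lead_add m1 m2) m3) m4) m5) m6
    norm_num at m7
    apply HasLead.ne_zero m7 (by norm_num)
    rw [← h]
    ring

theorem X9_rel_int : t3 ℤ * (X9 ℤ ^ 2 + 9 * X9 ℤ + 27) = X9 ℤ ^ 3 := by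
  have h1 := t3_E4_int
  have h2 := congrArg (qExpand ℤ 3) t3_E3_int
  have h3 := X9_pow_four ℤ
  have l1 := hasLead_t3 ℤ
  have l2 := (hasLead_t3 ℤ).qExpand 3
  have lX := hasLead_X9 ℤ
  simp only [map_mul, map_add, map_pow, map_ofNat] at h2
  set u := t3 ℤ
  set v := qExpand ℤ 3 u
  set X := X9 ℤ
  set j := qExpand ℤ 3 (jqModC ℤ)
  have e1 : (u * v - 729) * (u ^ 3 * v ^ 2 + 36 * u ^ 2 * v ^ 2 + 270 * u * v ^ 2 - v ^ 3 +
      729 * u ^ 2 * v + 26244 * u * v + 531441 * u) = 0 := by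
    linear_combination v ^ 3 * h1 - u * h2
  have huv : u * v - 729 ≠ 0 := by
    have l3 := l1.mul l2
    norm_num at l3
    have l := HasLead.add_of_lt l3 (HasLead.C (-729 : ℤ)) (by norm_num)
    have h := HasLead.ne_zero l (by norm_num)
    intro h0
    apply h
    rw [← h0, map_neg, map_ofNat]
    ring
  have e2 := (mul_eq_zero.mp e1).resolve_left huv
  have e3 : (u * (X ^ 2 + 9 * X + 27) - X ^ 3) * ((u * (X ^ 2 - 9 * X + 27) + X ^ 3) *
      (u ^ 2 * (X ^ 4 + 27 * X ^ 2 + 729) + 18 * u * X ^ 4 + X ^ 6)) = 0 := by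
    linear_combination u ^ 3 * e2 + (u ^ 4 * (X ^ 4 + u * v) + 729 * u ^ 4 +
      36 * u ^ 3 * (X ^ 4 + u * v) + 26244 * u ^ 3 + 270 * u ^ 2 * (X ^ 4 + u * v) -
      (X ^ 8 + X ^ 4 * (u * v) + (u * v) ^ 2)) * h3
  rcases mul_eq_zero.mp e3 with h | h
  · exact sub_eq_zero.mp h
  · exfalso
    rcases mul_eq_zero.mp h with h | h
    · have m1 := l1.mul (lX.pow 2)
      have m2 := HasLead.neg (lead_natMul 9 (lead_weaken (m := -3) (l1.mul lX) (by norm_num)))
      have m3 := lead_natMul 27 (lead_weaken (m := -3) l1 (by norm_num))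
      have m4 := lX.pow 3
      norm_num at m1 m2 m3 m4
      have m7 := lead_add (lead_add (lead_add m1 m2) m3) m4
      norm_num at m7
      apply HasLead.ne_zero m7 (by norm_num)
      rw [← h]
      ring
    · have m1 := (l1.pow 2).mul (lX.pow 4)
      have m2 := lead_natMul 27 (lead_weaken (m := -6) ((l1.pow 2).mul (lX.pow 2)) (by norm_num))
      have m3 := lead_natMul 729 (lead_weaken (m := -6) (l1.pow 2) (by norm_num))
      have m4 := lead_natMul 18 (lead_weaken (m := -6) (l1.mul (lX.pow 4)) (by norm_num))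
      have m5 := lX.pow 6
      norm_num at m1 m2 m3 m4 m5
      have m7 := lead_add (lead_add (lead_add (lead_add m1 m2) m3) m4) m5
      norm_num at m7
      apply HasLead.ne_zero m7 (by norm_num)
      rw [← h]
      ring

end Int

/-! ### The relations over any commutative ring -/

section Final

variable (K : Type*) [CommRing K]

/-- `t₂ (X₄ + 16) = X₄²` -/
theorem X4_rel : t2 K * (X4 K + 16) = X4 K ^ 2 := by
  have h := congrArg (coeffMap (Int.castRingHom K)) X4_rel_int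
  simpa only [map_mul, map_add, map_pow, coeffMap_t2, coeffMap_X4, map_ofNat] using h

/-- `t₃ (X₉² + 9 X₉ + 27) = X₉³` -/
theorem X9_rel : t3 K * (X9 K ^ 2 + 9 * X9 K + 27) = X9 K ^ 3 := by
  have h := congrArg (coeffMap (Int.castRingHom K)) X9_rel_int
  simpa only [map_mul, map_add, map_pow, coeffMap_t3, coeffMap_X9, map_ofNat] using h

theorem isUnit_X4 : IsUnit (X4 K) := by
  have h1 : IsUnit (X4 K ^ 3) := by
    rw [X4_cube]
    exact (isUnit_t2 K).mul ((isUnit_t2 K).map (qExpand K 2))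
  exact (isUnit_pow_iff (by norm_num)).mp h1

theorem isUnit_X9 : IsUnit (X9 K) := by
  have h1 : IsUnit (X9 K ^ 4) := by
    rw [X9_pow_four]
    exact (isUnit_t3 K).mul ((isUnit_t3 K).map (qExpand K 3))
  exact (isUnit_pow_iff (by norm_num)).mp h1

/-- `t₂(q²) = X₄ (X₄ + 16)` -/
theorem qExpand_t2 : qExpand K 2 (t2 K) = X4 K * (X4 K + 16) := by
  apply (isUnit_t2 K).mul_left_cancel
  rw [← X4_cube]
  linear_combination (-X4 K) * X4_rel K

/-- `t₃(q³) = X₉ (X₉² + 9 X₉ + 27)` -/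
theorem qExpand_t3 : qExpand K 3 (t3 K) = X9 K * (X9 K ^ 2 + 9 * X9 K + 27) := by
  apply (isUnit_t3 K).mul_left_cancel
  rw [← X9_pow_four]
  linear_combination (-X9 K) * X9_rel K

theorem isUnit_X4_add : IsUnit (X4 K + 16) := by
  have h := (isUnit_t2 K).map (qExpand K 2)
  rw [qExpand_t2] at h
  exact isUnit_of_mul_isUnit_right h

theorem isUnit_W9 : IsUnit (X9 K ^ 2 + 9 * X9 K + 27) := by
  have h := (isUnit_t3 K).map (qExpand K 3)
  rw [qExpand_t3] at h
  exact isUnit_of_mul_isUnit_right h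

/-- **(H4)** -/
theorem X4_j : (X4 K ^ 2 + 256 * X4 K + 4096) ^ 3 = jqModC K * (X4 K ^ 4 * (X4 K + 16)) := by
  have h1 := t2_E1 K
  have h2 := X4_rel K
  have e : (t2 K + 256) * (X4 K + 16) = X4 K ^ 2 + 256 * X4 K + 4096 := by
    linear_combination h2
  rw [← e, mul_pow, h1]
  linear_combination (jqModC K * (X4 K + 16) * (t2 K * (X4 K + 16) + X4 K ^ 2)) * h2

/-- **(H9)** -/
theorem X9_j : (X9 K + 9) ^ 3 * (X9 K ^ 3 + 243 * X9 K ^ 2 + 2187 * X9 K + 6561) ^ 3 =
    jqModC K * (X9 K ^ 9 * (X9 K ^ 2 + 9 * X9 K + 27)) := by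
  have h1 := t3_E3 K
  have h2 := X9_rel K
  set X := X9 K
  set t := t3 K
  set W := X ^ 2 + 9 * X + 27 with hW
  have e1 : (t + 27) * W = (X + 9) ^ 3 := by
    rw [hW] at h2 ⊢
    linear_combination h2
  have e2 : (t + 243) * W = X ^ 3 + 243 * X ^ 2 + 2187 * X + 6561 := by
    rw [hW] at h2 ⊢
    linear_combination h2
  rw [← e1, ← e2]
  calc (t + 27) * W * ((t + 243) * W) ^ 3 = ((t + 27) * (t + 243) ^ 3) * W ^ 4 := by ring
    _ = jqModC K * (t * W) ^ 3 * W := by rw [h1]; ring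
    _ = _ := by rw [h2]; ring

/-- `j(q²)` -/
theorem X4_j2 : (X4 K ^ 2 + 16 * X4 K + 256) ^ 3 =
    qExpand K 2 (jqModC K) * (X4 K ^ 2 * (X4 K + 16) ^ 2) := by
  have h1 := t2_E2 K
  have h2 := X4_rel K
  have e : (t2 K + 16) * (X4 K + 16) = X4 K ^ 2 + 16 * X4 K + 256 := by
    linear_combination h2
  rw [← e, mul_pow, h1]
  linear_combination (qExpand K 2 (jqModC K) * (X4 K + 16) ^ 2) * h2

/-- `j(q⁴)` -/
theorem X4_j4 : (X4 K ^ 2 + 16 * X4 K + 16) ^ 3 =
    qExpand K 4 (jqModC K) * (X4 K * (X4 K + 16)) := by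
  have h1 := congrArg (qExpand K 2) (t2_E2 K)
  simp only [map_mul, map_add, map_pow, map_ofNat] at h1
  rw [qExpand_qExpand' K 2 2 4 (by norm_num), qExpand_t2] at h1
  linear_combination h1

/-- `j(q³)` -/
theorem X9_j3 : (X9 K + 9) ^ 3 * (X9 K + 3) ^ 3 * (X9 K ^ 2 + 27) ^ 3 =
    qExpand K 3 (jqModC K) * (X9 K ^ 3 * (X9 K ^ 2 + 9 * X9 K + 27) ^ 3) := by
  have h1 := t3_E4 K
  have h2 := X9_rel K
  set X := X9 K
  set t := t3 K
  set W := X ^ 2 + 9 * X + 27 with hW
  have e1 : (t + 27) * W = (X + 9) ^ 3 := by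
    rw [hW] at h2 ⊢
    linear_combination h2
  have e2 : (t + 3) * W = (X + 3) * (X ^ 2 + 27) := by
    rw [hW] at h2 ⊢
    linear_combination h2
  rw [← e1]
  calc (t + 27) * W * (X + 3) ^ 3 * (X ^ 2 + 27) ^ 3
      = (t + 27) * W * ((X + 3) * (X ^ 2 + 27)) ^ 3 := by ring
    _ = ((t + 27) * (t + 3) ^ 3) * W ^ 4 := by rw [← e2]; ring
    _ = qExpand K 3 (jqModC K) * (t * W) * W ^ 3 := by rw [h1]; ring
    _ = _ := by rw [h2]; ring

/-- `j(q⁹)` -/
theorem X9_j9 : (X9 K + 3) ^ 3 * (X9 K ^ 3 + 9 * X9 K ^ 2 + 27 * X9 K + 3) ^ 3 =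
    qExpand K 9 (jqModC K) * (X9 K * (X9 K ^ 2 + 9 * X9 K + 27)) := by
  have h1 := congrArg (qExpand K 3) (t3_E4 K)
  simp only [map_mul, map_add, map_pow, map_ofNat] at h1
  rw [qExpand_qExpand' K 3 3 9 (by norm_num), qExpand_t3] at h1
  linear_combination h1

end Final

end Fermat.Agent.H1
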