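import Fermat.Agent.H1HauptRing
import Fermat.Agent.H94Export

/-!
# `d/dX` preserves functions regular outside the cusps (helper1)
-/

set_option autoImplicit false
set_option linter.unusedSectionVars false

noncomputable section

open ModularCurve Polynomial IntermediateField AlgebraicCurve

namespace Fermat.Agent.H1

open Fermat.Agent.H94

section Abstract

variable {K F : Type*} [Field K] [Field F] [Algebra K F] [CharZero K] [IsAlgClosed K]
  [FunField K F]

/-- integrality over `K[j]` is regularity at the places where `j` is regular -/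
theorem isIntegral_iff_places {j f : F} : IsIntegral (Algebra.adjoin K {j}) f ↔
    ∀ v : Place K F, j ∈ v.toValuationSubring → f ∈ v.toValuationSubring := by
  constructor
  · intro hf v hv
    exact mem_valuationSubring_of_intRing v.toValuationSubring v.algebraMap_mem' hv ⟨f, hf⟩
  · intro h
    by_contra hf
    let R : Subring F := (integralClosure (Algebra.adjoin K {j}) F).toSubring
    have hR : IsIntegrallyClosedIn R F :=
      inferInstanceAs (IsIntegrallyClosedIn (integralClosure (Algebra.adjoin K {j}) F) F)
    have hfR : f ∉ R := hf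
    obtain ⟨V, hRV, hV⟩ := Subring.exists_le_valuationSubring_of_isIntegrallyClosedIn hfR
    have hj : j ∈ V := hRV (show j ∈ integralClosure (Algebra.adjoin K {j}) F from
      (integralClosure (Algebra.adjoin K {j}) F).algebraMap_mem
        (⟨j, Algebra.subset_adjoin rfl⟩ : Algebra.adjoin K {j}))
    have hK : ∀ a : K, algebraMap K F a ∈ V := fun a => hRV
      (show algebraMap K F a ∈ integralClosure (Algebra.adjoin K {j}) F from
      (integralClosure (Algebra.adjoin K {j}) F).algebraMap_mem
        (algebraMap K (Algebra.adjoin K {j}) a))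
    obtain ⟨v, hv⟩ := exists_place_of_valuationSubring V hK (by
      rintro rfl
      exact hV (ValuationSubring.mem_top f))
    apply hV
    rw [← hv]
    exact h v (by rw [hv]; exact hj)

/-- a coordinate `X` on a curve over the `j`-line, étale outside the cusps -/
structure Coord (K F : Type*) [Field K] [Field F] [Algebra K F] (j X : F) where
  P : K[X]
  S : K[X]
  T : K[X]
  P3 : aeval X P ^ 3 = j * aeval X T
  S2 : aeval X S ^ 2 = (j - algebraMap K F 1728) * aeval X T
  monic : P.Monic
  deg : T.natDegree < 3 * P.natDegree
  coprime : ∀ a : K, T.eval a = 0 → P.eval a ≠ 0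

variable {j X : F} {N : ℕ}

omit [CharZero K] [IsAlgClosed K] [FunField K F] in
theorem Coord.isIntegral (C : Coord K F j X) : IsIntegral (Algebra.adjoin K {j}) X := by
  let j' : Algebra.adjoin K {j} := ⟨j, Algebra.subset_adjoin rfl⟩
  refine ⟨(C.P.map (algebraMap K (Algebra.adjoin K {j}))) ^ 3 -
    Polynomial.C j' * (C.T.map (algebraMap K (Algebra.adjoin K {j}))), ?_, ?_⟩
  · apply Monic.sub_of_left ((C.monic.map _).pow 3)
    have h1 : ((C.P.map (algebraMap K (Algebra.adjoin K {j}))) ^ 3).natDegree =
        3 * C.P.natDegree := by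
      rw [(C.monic.map _).natDegree_pow, C.monic.natDegree_map]
    have h2 : (Polynomial.C j' * (C.T.map (algebraMap K (Algebra.adjoin K {j})))).natDegree ≤
        C.T.natDegree := (natDegree_C_mul_le _ _).trans natDegree_map_le
    apply degree_lt_degree
    rw [h1]
    exact h2.trans_lt C.deg
  · have h := C.P3
    rw [eval₂_sub, eval₂_mul, eval₂_pow, eval₂_map, eval₂_map, eval₂_C]
    have e : (algebraMap (Algebra.adjoin K {j}) F).comp (algebraMap K (Algebra.adjoin K {j})) =
        algebraMap K F := rfl
    rw [e, ← aeval_def, ← aeval_def, h]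
    exact sub_self _

theorem exists_factor (p : K[X]) (a : K) (x : F) : ∃ r : K[X],
    aeval x p = algebraMap K F (p.eval a) + (x - algebraMap K F a) * aeval x r := by
  obtain ⟨r, hr⟩ := Polynomial.dvd_iff_isRoot.mpr (show (p - C (p.eval a)).IsRoot a by simp)
  refine ⟨r, ?_⟩
  have h := congrArg (aeval x) hr
  rw [map_sub, aeval_C, map_mul, map_sub, aeval_X, aeval_C] at h
  linear_combination h

/-- a function with nonzero value has order zero -/
theorem ord_eq_zero_of_value (v : Place K F) {f : F} {c : K} (hc : c ≠ 0)
    (h : f - algebraMap K F c = 0 ∨ 0 < v.ord (f - algebraMap K F c)) : v.ord f = 0 := by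
  have hcF : algebraMap K F c ≠ 0 := (_root_.map_ne_zero _).mpr hc
  rcases h with h | h
  · rw [sub_eq_zero.mp h]
    exact ord_algebraMap v c
  · have h1 := ord_add_ge v (n := 0) (f := f - algebraMap K F c) (g := algebraMap K F c)
      (Or.inr h.le) (Or.inr (ord_algebraMap v c).ge)
    rw [sub_add_cancel] at h1
    rcases h1 with h1 | h1
    · rw [h1, zero_sub, ← map_neg, ord_algebraMap] at h
      exact absurd h (lt_irrefl _)
    · by_contra hne
      have h2 : 1 ≤ v.ord f := by omega
      have h3 := ord_add_ge v (n := 1) (f := f) (g := -(f - algebraMap K F c)) (Or.inr h2)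
        (Or.inr (by
          have : v.ord (-(f - algebraMap K F c)) = v.ord (f - algebraMap K F c) := by
            have h4 : -(f - algebraMap K F c) = algebraMap K F (-1) * (f - algebraMap K F c) := by
              rw [map_neg, map_one]; ring
            rw [h4, v.ord_mul (by rw [map_neg, map_one]; simp) (by
              intro h5; rw [h5, v.ord_zero] at h; exact lt_irrefl _ h), ord_algebraMap, zero_add]
          rw [this]
          omega))
      have h5 : f + -(f - algebraMap K F c) = algebraMap K F c := by ring
      rw [h5, ord_algebraMap] at h3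
      rcases h3 with h3 | h3
      · exact hcF h3
      · omega

theorem Coord.sub_ne_zero' (C : Coord K F j X) (D : X0PlaceData K F N j) (a : K) :
    X - algebraMap K F a ≠ 0 := by
  have htr := D.transcendental
  intro h0
  have hXa : X = algebraMap K F a := sub_eq_zero.mp h0
  have hv : ∀ p : K[X], aeval X p = algebraMap K F (aeval a p) := fun p =>
    (congrArg (fun y => aeval y p) hXa).trans (aeval_algebraMap_apply F a p)
  have h1 := C.P3
  rw [hv, hv, ← map_pow] at h1
  have hT : (aeval a C.T : K) ≠ 0 := by
    intro hT
    rw [hT, map_zero, mul_zero, _root_.map_eq_zero] at h1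
    have h2 := C.coprime a (by rw [← hT]; rfl)
    exact h2 (by
      have := (pow_eq_zero_iff (by norm_num : (3 : ℕ) ≠ 0)).mp h1
      rw [← this]; rfl)
  have h3 : j = algebraMap K F (aeval a C.P ^ 3 / aeval a C.T) := by
    rw [map_div₀, h1, mul_div_cancel_right₀ _ ((_root_.map_ne_zero _).mpr hT)]
  exact not_mem_range_of_transcendental htr ⟨_, h3.symm⟩

theorem Coord.exists_uniformizer (C : Coord K F j X) (D : X0PlaceData K F N j) (v : Place K F)
    (hv : j ∈ v.toValuationSubring) : ∃ a : K, v.ord (X - algebraMap K F a) = 1 := by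
  have htr := D.transcendental
  have hX : X ∈ v.toValuationSubring := isIntegral_iff_places.mp C.isIntegral v hv
  have hXtr := C.sub_ne_zero' D
  obtain ⟨a, ha⟩ := exists_sub_algebraMap_ord_pos v hX
  have hpos : 0 < v.ord (X - algebraMap K F a) := ha.resolve_left (hXtr a)
  refine ⟨a, le_antisymm ?_ hpos⟩
  have hmemr : ∀ r : K[X], aeval X r ∈ v.toValuationSubring := aeval_mem v hX
  -- values
  have hval : ∀ p : K[X], aeval X p - algebraMap K F (p.eval a) = 0 ∨
      0 < v.ord (aeval X p - algebraMap K F (p.eval a)) := by
    intro p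
    obtain ⟨r, hr⟩ := exists_factor p a X
    rw [hr, add_sub_cancel_left]
    rcases eq_or_ne (aeval X r) 0 with h0 | h0
    · left; rw [h0, mul_zero]
    · right
      rw [v.ord_mul (hXtr a) h0]
      have := ord_nonneg_of_mem v (hmemr r)
      omega
  have hroot : ∀ p : K[X], p.eval a = 0 → aeval X p ≠ 0 →
      v.ord (X - algebraMap K F a) ≤ v.ord (aeval X p) := by
    intro p hp hp0
    obtain ⟨r, hr⟩ := exists_factor p a X
    rw [hp, map_zero, zero_add] at hr
    have hr0 : aeval X r ≠ 0 := by
      intro h; rw [h, mul_zero] at hr; exact hp0 hr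
    rw [hr, v.ord_mul (hXtr a) hr0]
    have := ord_nonneg_of_mem v (hmemr r)
    omega
  -- `T` does not vanish
  have hj0 : j ≠ 0 := by
    rintro rfl
    exact htr isAlgebraic_zero
  have hTX : aeval X C.T ≠ 0 := by
    intro h0
    have h1 := C.P3
    rw [h0, mul_zero] at h1
    have h2 : aeval X C.P = 0 := (pow_eq_zero_iff (by norm_num)).mp h1
    rcases hval C.T with h3 | h3
    · rw [h0, zero_sub, neg_eq_zero, _root_.map_eq_zero] at h3
      rcases hval C.P with h4 | h4
      · rw [h2, zero_sub, neg_eq_zero, _root_.map_eq_zero] at h4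
        exact C.coprime a h3 h4
      · rw [h2, zero_sub, ← map_neg, ord_algebraMap] at h4
        exact lt_irrefl _ h4
    · rw [h0, zero_sub, ← map_neg, ord_algebraMap] at h3
      exact lt_irrefl _ h3
  have hTa : C.T.eval a ≠ 0 := by
    intro hT
    have hP := C.coprime a hT
    have h1 : v.ord (aeval X C.P) = 0 := ord_eq_zero_of_value v hP (hval _)
    have h2 := hroot C.T hT hTX
    have hPX : aeval X C.P ≠ 0 := by
      intro h0
      have h3 := C.P3
      rw [h0, zero_pow (by norm_num)] at h3
      exact mul_ne_zero hj0 hTX h3.symm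
    have h3 := congrArg v.ord C.P3
    rw [v.ord_mul hj0 hTX, pow_succ, pow_two, v.ord_mul (mul_ne_zero hPX hPX) hPX,
      v.ord_mul hPX hPX] at h3
    have h4 := ord_nonneg_of_mem v hv
    omega
  have hordT : v.ord (aeval X C.T) = 0 := ord_eq_zero_of_value v hTa (hval _)
  by_cases hPa : C.P.eval a = 0
  · have hPX : aeval X C.P ≠ 0 := by
      intro h0
      have h3 := C.P3
      rw [h0, zero_pow (by norm_num)] at h3
      exact mul_ne_zero hj0 hTX h3.symm
    have h1 := hroot C.P hPa hPX
    have h3 := congrArg v.ord C.P3
    rw [v.ord_mul hj0 hTX, pow_succ, pow_two, v.ord_mul (mul_ne_zero hPX hPX) hPX,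
      v.ord_mul hPX hPX] at h3
    have h4 := D.ord_le_three v
    omega
  · by_cases hSa : C.S.eval a = 0
    · have hj1 : j - algebraMap K F 1728 ≠ 0 := by
        intro h0
        exact not_mem_range_of_transcendental htr ⟨_, (sub_eq_zero.mp h0).symm⟩
      have hSX : aeval X C.S ≠ 0 := by
        intro h0
        have h3 := C.S2
        rw [h0, zero_pow (by norm_num)] at h3
        exact mul_ne_zero hj1 hTX h3.symm
      have h1 := hroot C.S hSa hSX
      have h3 := congrArg v.ord C.S2
      rw [v.ord_mul hj1 hTX, pow_two, v.ord_mul hSX hSX] at h3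
      have h4 := D.ord_le_two v
      omega
    · set b : K := C.P.eval a ^ 3 / C.T.eval a with hb
      have hb0 : b ≠ 0 := div_ne_zero (pow_ne_zero 3 hPa) hTa
      have hjb : j - algebraMap K F b ≠ 0 := by
        intro h0
        exact not_mem_range_of_transcendental htr ⟨_, (sub_eq_zero.mp h0).symm⟩
      -- the polynomial `P^3 - b T`
      have hR : aeval X (C.P ^ 3 - Polynomial.C b * C.T) =
          (j - algebraMap K F b) * aeval X C.T := by
        rw [map_sub, map_pow, map_mul, aeval_C, C.P3]; ring
      have hR0 : (C.P ^ 3 - Polynomial.C b * C.T).eval a = 0 := by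
        rw [eval_sub, eval_pow, eval_mul, eval_C, hb, div_mul_cancel₀ _ hTa, sub_self]
      have h1 := hroot _ hR0 (by rw [hR]; exact mul_ne_zero hjb hTX)
      rw [hR, v.ord_mul hjb hTX, hordT, add_zero] at h1
      have hb1 : b ≠ 1728 := by
        intro hb1
        apply hSa
        have h2 := C.S2
        -- `S(a)^2 = (b - 1728) T(a) = 0`
        rw [← hb1] at h2
        rcases hval C.S with h3 | h3
        · exfalso
          rw [sub_eq_zero] at h3
          rw [h3, ← map_pow] at h2
          have h5 := congrArg v.ord h2
          rw [ord_algebraMap, v.ord_mul hjb hTX, hordT] at h5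
          omega
        · by_contra hSa'
          have h4 := ord_eq_zero_of_value v hSa' (Or.inr h3)
          have hSX : aeval X C.S ≠ 0 := by
            intro h0
            rw [h0, zero_pow (by norm_num)] at h2
            exact mul_ne_zero hjb hTX h2.symm
          have h5 := congrArg v.ord h2
          rw [pow_two, v.ord_mul hSX hSX, v.ord_mul hjb hTX, hordT, h4] at h5
          omega
      have h6 := D.ord_eq_one b hb0 hb1 v (lt_of_lt_of_le hpos h1)
      omega

theorem Coord.transcendental (C : Coord K F j X) (D : X0PlaceData K F N j) :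
    Transcendental K X := by
  apply transcendental_of_notMem_range
  rintro ⟨a, rfl⟩
  exact C.sub_ne_zero' D a (sub_self _)

/-- `d/dX` preserves functions which are regular where `j` is regular. -/
theorem Coord.dd_isIntegral (C : Coord K F j X) (D : X0PlaceData K F N j)
    (hX : Transcendental K X) {f : F} (hf : IsIntegral (Algebra.adjoin K {j}) f) :
    IsIntegral (Algebra.adjoin K {j}) (dd hX f) := by
  rw [isIntegral_iff_places] at hf ⊢
  intro v hv
  obtain ⟨a, ha⟩ := C.exists_uniformizer D v hv
  have ht := transcendental_of_ord_eq_one ha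
  have h1 : dd hX (X - algebraMap K F a) = 1 := by
    rw [map_sub, dd_self, Derivation.map_algebraMap, sub_zero]
  have h2 := dd_mul_dd hX ht f
  rw [h1, mul_one] at h2
  rw [← h2]
  exact dd_mem v ha (hf v hv)

end Abstract

end Fermat.Agent.H1
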