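import Fermat.Agent.H1Haupt
import Fermat.Agent.H66Degree
import Fermat.Agent.H90Descent
import Fermat.Agent.H42GaussMod

/-!
# The hauptmoduln of level 4 and 9 are modular functions (helper1)
-/

set_option autoImplicit false

noncomputable section

open ModularCurve Polynomial IntermediateField

namespace Fermat.Agent.H1

open Fermat.Agent.H23.Haupt Fermat.Agent.H28 Fermat.Agent.H61 Fermat.Agent.H66

/-- the coordinate of level `c = 4` or `c = 9` -/
def Xc (c : ℕ) (K : Type*) [CommRing K] : LaurentSeries K := if c = 9 then X9 K else X4 K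

theorem Xc_four (K : Type*) [CommRing K] : Xc 4 K = X4 K := if_neg (by norm_num)

theorem Xc_nine (K : Type*) [CommRing K] : Xc 9 K = X9 K := if_pos rfl

theorem coeffMap_Xc (c : ℕ) {K L : Type*} [CommRing K] [CommRing L] (φ : K →+* L) :
    coeffMap φ (Xc c K) = Xc c L := by
  unfold Xc
  split_ifs
  · exact coeffMap_X9 φ
  · exact coeffMap_X4 φ

theorem hasLead_Xc (c : ℕ) (K : Type*) [CommRing K] : HasLead (Xc c K) (-1) 1 := by
  unfold Xc
  split_ifs
  · exact hasLead_X9 K
  · exact hasLead_X4 K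

theorem isUnit_Xc (c : ℕ) (K : Type*) [CommRing K] : IsUnit (Xc c K) := by
  unfold Xc
  split_ifs
  · exact isUnit_X9 K
  · exact isUnit_X4 K

section General

variable {K L : Type*} [Field K] [Field L] [Algebra K L]

/-- a criterion for `X ∈ B` -/
theorem mem_of_relfinrank {A B : IntermediateField K L} {X : L} (hAB : A ≤ B) (hBX : B ≤ K⟮X⟯)
    {P : Polynomial A} (hP : P.Monic) (hPX : aeval X P = 0)
    (hdeg : P.natDegree ≤ relfinrank A B) : X ∈ B := by
  have hint : IsIntegral A X := ⟨P, hP, hPX⟩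
  have h1 : relfinrank A K⟮X⟯ = (minpoly A X).natDegree :=
    relfinrank_eq_natDegree (hAB.trans hBX) (mem_adjoin_simple_self K X)
      (fun F _ hF => adjoin_simple_le_iff.mpr hF) hint
  have h2 : (minpoly A X).natDegree ≤ P.natDegree :=
    natDegree_le_natDegree (minpoly.min A X hP hPX)
  have h3 : relfinrank A B * relfinrank B K⟮X⟯ = relfinrank A K⟮X⟯ :=
    relfinrank_mul_relfinrank hAB hBX
  have h4 : 0 < (minpoly A X).natDegree := minpoly.natDegree_pos hint
  have h5 : relfinrank B K⟮X⟯ = 1 := by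
    have h6 : relfinrank B K⟮X⟯ ≠ 0 := by
      intro h0
      rw [h0, mul_zero, h1] at h3
      omega
    have h7 : relfinrank A B * relfinrank B K⟮X⟯ ≤ relfinrank A B * 1 := by
      rw [h3, h1, mul_one]
      exact h2.trans hdeg
    have h8 : 0 < relfinrank A B := by
      apply Nat.pos_of_ne_zero
      intro h0
      rw [h0, zero_mul, h1] at h3
      omega
    have h9 := Nat.le_of_mul_le_mul_left h7 h8
    omega
  have h6 : K⟮X⟯ ≤ B := relfinrank_eq_one_iff.mp h5
  exact h6 (mem_adjoin_simple_self K X)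

end General

theorem psi_four : dedekindPsi 4 = 6 := by decide +kernel

theorem psi_nine : dedekindPsi 9 = 12 := by decide +kernel

section Mem

variable (K : Type*) [Field K]

theorem mem_of_mul_eq {L : Type*} [Field L] [Algebra K L] {F : IntermediateField K L} {x y z : L}
    (h : z = x * y) (hy : y ≠ 0) (hyF : y ∈ F) (hz : z ∈ F) : x ∈ F := by
  have h1 : x = z / y := by rw [h, mul_div_cancel_right₀ _ hy]
  rw [h1]
  exact div_mem hz hyF

theorem full_le_X4 : modularFunctionFieldFullC K 4 ≤ K⟮X4 K⟯ := by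
  have hX : X4 K ∈ K⟮X4 K⟯ := mem_adjoin_simple_self K _
  have hnum : ∀ n : ℕ, (n : LaurentSeries K) ∈ K⟮X4 K⟯ := fun n =>
    _root_.natCast_mem _ n
  have h16 := hnum 16
  have h256 := hnum 256
  have h4096 := hnum 4096
  push_cast at h16 h256 h4096
  have hu := (isUnit_X4 K).ne_zero
  have hu2 := (isUnit_X4_add K).ne_zero
  rw [full_le_iff (by norm_num)]
  intro d hd
  have hd' : d = 1 ∨ d = 2 ∨ d = 4 := by
    have : d ∈ Nat.divisors 4 := Nat.mem_divisors.mpr ⟨hd, by norm_num⟩
    rw [show Nat.divisors 4 = {1, 2, 4} by decide +kernel] at this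
    simpa using this
  rcases hd' with rfl | rfl | rfl
  · rw [J_one]
    exact mem_of_mul_eq K (X4_j K) (mul_ne_zero (pow_ne_zero _ hu) hu2)
      (mul_mem (pow_mem hX _) (add_mem hX h16))
      (pow_mem (add_mem (add_mem (pow_mem hX _) (mul_mem h256 hX)) h4096) _)
  · rw [J_eq]
    exact mem_of_mul_eq K (X4_j2 K) (mul_ne_zero (pow_ne_zero _ hu) (pow_ne_zero _ hu2))
      (mul_mem (pow_mem hX _) (pow_mem (add_mem hX h16) _))
      (pow_mem (add_mem (add_mem (pow_mem hX _) (mul_mem h16 hX)) h256) _)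
  · rw [J_eq]
    exact mem_of_mul_eq K (X4_j4 K) (mul_ne_zero hu hu2)
      (mul_mem hX (add_mem hX h16))
      (pow_mem (add_mem (add_mem (pow_mem hX _) (mul_mem h16 hX)) h16) _)

theorem full_le_X9 : modularFunctionFieldFullC K 9 ≤ K⟮X9 K⟯ := by
  have hX : X9 K ∈ K⟮X9 K⟯ := mem_adjoin_simple_self K _
  have hnum : ∀ n : ℕ, (n : LaurentSeries K) ∈ K⟮X9 K⟯ := fun n =>
    _root_.natCast_mem _ n
  have h3 := hnum 3
  have h9 := hnum 9
  have h27 := hnum 27
  have h243 := hnum 243
  have h2187 := hnum 2187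
  have h6561 := hnum 6561
  push_cast at h3 h9 h27 h243 h2187 h6561
  have hu := (isUnit_X9 K).ne_zero
  have hu2 := (isUnit_W9 K).ne_zero
  have hW : X9 K ^ 2 + 9 * X9 K + 27 ∈ K⟮X9 K⟯ :=
    add_mem (add_mem (pow_mem hX _) (mul_mem h9 hX)) h27
  rw [full_le_iff (by norm_num)]
  intro d hd
  have hd' : d = 1 ∨ d = 3 ∨ d = 9 := by
    have : d ∈ Nat.divisors 9 := Nat.mem_divisors.mpr ⟨hd, by norm_num⟩
    rw [show Nat.divisors 9 = {1, 3, 9} by decide +kernel] at this
    simpa using this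
  rcases hd' with rfl | rfl | rfl
  · rw [J_one]
    exact mem_of_mul_eq K (X9_j K) (mul_ne_zero (pow_ne_zero _ hu) hu2)
      (mul_mem (pow_mem hX _) hW)
      (mul_mem (pow_mem (add_mem hX h9) _) (pow_mem (add_mem (add_mem (add_mem (pow_mem hX _)
        (mul_mem h243 (pow_mem hX _))) (mul_mem h2187 hX)) h6561) _))
  · rw [J_eq]
    exact mem_of_mul_eq K (X9_j3 K) (mul_ne_zero (pow_ne_zero _ hu) (pow_ne_zero _ hu2))
      (mul_mem (pow_mem hX _) (pow_mem hW _))
      (mul_mem (mul_mem (pow_mem (add_mem hX h9) _) (pow_mem (add_mem hX h3) _))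
        (pow_mem (add_mem (pow_mem hX _) h27) _))
  · rw [J_eq]
    exact mem_of_mul_eq K (X9_j9 K) (mul_ne_zero hu hu2)
      (mul_mem hX hW)
      (mul_mem (pow_mem (add_mem hX h3) _) (pow_mem (add_mem (add_mem (add_mem (pow_mem hX _)
        (mul_mem h9 (pow_mem hX _))) (mul_mem h27 hX)) h3) _))

variable [IsAlgClosed K]

theorem X4_mem (h : (4 : K) ≠ 0) : X4 K ∈ modularFunctionFieldFullC K 4 := by
  have hrel : relfinrank K⟮jqModC K⟯ (modularFunctionFieldFullC K 4) = 6 := by
    rw [relfinrank_full K 4 (by exact_mod_cast h), psi_four]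
  let j : K⟮jqModC K⟯ := ⟨jqModC K, mem_adjoin_simple_self K _⟩
  have hP : ((X ^ 2 + 256 * X + 4096) ^ 3 - C j * (X ^ 4 * (X + 16)) :
      Polynomial K⟮jqModC K⟯).Monic := by
    monicity!
  refine mem_of_relfinrank (adjoin_j_le_full K 4) (full_le_X4 K) hP ?_ ?_
  · simp only [map_sub, map_mul, map_pow, map_add, aeval_X, map_ofNat, aeval_C]
    rw [X4_j]
    exact sub_self _
  · rw [hrel]
    compute_degree!

theorem X9_mem (h : (9 : K) ≠ 0) : X9 K ∈ modularFunctionFieldFullC K 9 := by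
  have hrel : relfinrank K⟮jqModC K⟯ (modularFunctionFieldFullC K 9) = 12 := by
    rw [relfinrank_full K 9 (by exact_mod_cast h), psi_nine]
  let j : K⟮jqModC K⟯ := ⟨jqModC K, mem_adjoin_simple_self K _⟩
  have hP : ((X + 9) ^ 3 * (X ^ 3 + 243 * X ^ 2 + 2187 * X + 6561) ^ 3 -
      C j * (X ^ 9 * (X ^ 2 + 9 * X + 27)) : Polynomial K⟮jqModC K⟯).Monic := by
    monicity!
  refine mem_of_relfinrank (adjoin_j_le_full K 9) (full_le_X9 K) hP ?_ ?_
  · simp only [map_sub, map_mul, map_pow, map_add, aeval_X, map_ofNat, aeval_C]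
    rw [X9_j]
    exact sub_self _
  · rw [hrel]
    compute_degree!

/-- the coordinate is a modular function of level `c` -/
theorem Xc_mem {c : ℕ} (hc : c = 4 ∨ c = 9) (h : (c : K) ≠ 0) :
    Xc c K ∈ modularFunctionFieldFullC K c := by
  rcases hc with rfl | rfl
  · rw [Xc_four]
    exact X4_mem K (by exact_mod_cast h)
  · rw [Xc_nine]
    exact X9_mem K (by exact_mod_cast h)

/-- the coordinate is a modular function of level `N` for `c ∣ N` -/
theorem Xc_mem_full {c N : ℕ} (hc : c = 4 ∨ c = 9) (hN : N ≠ 0) (hcN : c ∣ N) (h : (c : K) ≠ 0) :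
    Xc c K ∈ modularFunctionFieldFullC K N :=
  full_mono K (by rcases hc with rfl | rfl <;> norm_num) hN hcN (Xc_mem K hc h)

end Mem

section Rat

theorem Xc_mem_rat {c N : ℕ} (hc : c = 4 ∨ c = 9) (hN : N ≠ 0) (hcN : c ∣ N) :
    Xc c ℚ ∈ modularFunctionFieldFull N := by
  have h1 : coeffMap (algebraMap ℚ (AlgebraicClosure ℚ)) (Xc c ℚ) ∈
      laurentBaseChange (AlgebraicClosure ℚ) (modularFunctionFieldFull N) := by
    rw [coeffMap_Xc, H42.laurentBaseChange_full]
    refine Xc_mem_full _ hc hN hcN ?_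
    rcases hc with rfl | rfl <;> norm_num
  have h2 := H90.exists_of_coeff_mem _ h1
  rwa [H42.laurentBaseChange_full, modularFunctionFieldFullC_rat] at h2

/-- the coordinate over any field of characteristic zero -/
theorem Xc_mem_baseChange (L : Type*) [Field L] [Algebra ℚ L] {c N : ℕ} (hc : c = 4 ∨ c = 9)
    (hN : N ≠ 0) (hcN : c ∣ N) :
    Xc c L ∈ laurentBaseChange L (modularFunctionFieldFull N) := by
  have h := coeffEmb_mem_laurentBaseChange L (Xc_mem_rat hc hN hcN)
  rwa [coeffEmb, coeffMap_Xc] at h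

end Rat

end Fermat.Agent.H1
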