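import Fermat.Agent.H42GaussField
import Fermat.Prelude.Def_AlgebraicCurve_BaseChangeGalois

/-!
# S19-E: invariant good bases, abstract part (helper1)

`GaussData` with invariant `x` and `b i` : every stable finite dimensional subspace has an
invariant basis with independent reductions.
-/

set_option autoImplicit false

open Polynomial Module AlgebraicCurve

namespace Fermat.Agent.H1

open Fermat.Agent.H42

section Lattice

variable {L : Type*} [Field L]

/-- A basis in echelon form of a stable subspace is invariant. -/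
theorem echelon_fixed {ι : Type*} {W : Submodule L (ι → L)} {d : ℕ} {w : Fin d → ι → L}
    {p : Fin d → ι} (hspan : Submodule.span L (Set.range w) = W)
    (hp : ∀ i j, w i (p j) = if i = j then 1 else 0) (σ : L →+* L)
    (hσ : ∀ f ∈ W, (fun j => σ (f j)) ∈ W) (i : Fin d) (j : ι) : σ (w i j) = w i j := by
  classical
  have h1 : w i ∈ W := by rw [← hspan]; exact Submodule.subset_span ⟨i, rfl⟩
  have h2 := hσ _ h1
  rw [← hspan, Submodule.mem_span_range_iff_exists_fun] at h2
  obtain ⟨c, hc⟩ := h2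
  have h3 : ∀ m, c m = if i = m then 1 else 0 := by
    intro m
    have h4 := congrFun hc (p m)
    simp only [Finset.sum_apply, Pi.smul_apply, smul_eq_mul, hp] at h4
    rw [Finset.sum_eq_single m] at h4
    · rw [if_pos rfl, mul_one] at h4
      rw [h4]
      split_ifs <;> simp
    · intro b _ hb
      rw [if_neg hb, mul_zero]
    · intro h
      exact absurd (Finset.mem_univ _) h
  have h5 := congrFun hc j
  simp only [Finset.sum_apply, Pi.smul_apply, smul_eq_mul] at h5
  rw [← h5, Finset.sum_eq_single i]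
  · rw [h3, if_pos rfl, one_mul]
  · intro b _ hb
    rw [h3, if_neg (Ne.symm hb), zero_mul]
  · intro h
    exact absurd (Finset.mem_univ _) h

end Lattice

section Data

variable {L F k Fk : Type*} [Field L] [Field F] [Algebra L F] [Field k] [Field Fk] [Algebra k Fk]
  {A : ValuationSubring L} {π : A →+* k}

theorem semilinear_smul (γ : SemilinearAut L F) (c : L) (f : F) :
    γ • (c • f) = SemilinearAut.baseAut γ c • (γ • f) := by
  rw [Algebra.smul_def, smul_mul', SemilinearAut.smul_algebraMap, Algebra.smul_def]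

theorem smul_aeval (γ : SemilinearAut L F) {x : F} (hx : γ • x = x) (q : L[X]) :
    γ • aeval x q = aeval x (q.map (SemilinearAut.baseAut γ : L →+* L)) := by
  rw [aeval_eq_sum_range, aeval_eq_sum_range' (n := q.natDegree + 1)
    (Nat.lt_succ_of_le (natDegree_map_le)), Finset.smul_sum]
  refine Finset.sum_congr rfl fun i _ => ?_
  rw [semilinear_smul, smul_pow', hx, coeff_map]
  rfl

theorem exists_basis_of_le_fixed (R : RedRing F Fk A π) {ι : Type*} [Fintype ι] (u : ι → R.B)
    (hu : LinearIndependent k (fun i => R.ρ (u i))) (W : Submodule L F)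
    (hW : W ≤ Submodule.span L (Set.range fun i => (u i : F)))
    (Γ : Subgroup (SemilinearAut L F)) (huΓ : ∀ i, ∀ γ ∈ Γ, γ • (u i : F) = u i)
    (hWΓ : ∀ γ ∈ Γ, ∀ f ∈ W, γ • f ∈ W) :
    ∃ (d : ℕ) (w : Fin d → R.B), (∀ i, ∀ γ ∈ Γ, γ • (w i : F) = w i) ∧
      Submodule.span L (Set.range fun i => (w i : F)) = W ∧
      LinearIndependent k (fun i => R.ρ (w i)) := by
  classical
  let Φ : (ι → L) →ₗ[L] F := Fintype.linearCombination L (fun i => (u i : F))
  have hΦ : LinearMap.range Φ = Submodule.span L (Set.range fun i => (u i : F)) :=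
    Fintype.range_linearCombination L _
  obtain ⟨d, w, p, hspan, hp⟩ := exists_lattice_basis A (W.comap Φ)
  have hΦγ : ∀ γ ∈ Γ, ∀ f : ι → L, γ • Φ f = Φ (fun j => SemilinearAut.baseAut γ (f j)) := by
    intro γ hγ f
    simp only [Φ, Fintype.linearCombination_apply, Finset.smul_sum]
    exact Finset.sum_congr rfl fun i _ => by rw [semilinear_smul, huΓ i γ hγ]
  refine ⟨d, fun i => ∑ j, R.const (w i j) * u j, ?_, ?_, ?_⟩
  · intro i γ hγ
    have h1 : ((∑ j, R.const (w i j) * u j : R.B) : F) = Φ (fun j => (w i j : L)) := by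
      simp only [Φ, Fintype.linearCombination_apply, AddSubmonoidClass.coe_finsetSum,
        Subring.coe_mul, RedRing.coe_const, Algebra.smul_def]
    rw [h1, hΦγ γ hγ]
    congr 1
    funext j
    refine echelon_fixed (w := fun i j => (w i j : L)) hspan (p := p) ?_
      (SemilinearAut.baseAut γ : L →+* L) ?_ i j
    · intro i j
      rw [hp]
      split_ifs <;> rfl
    · intro f hf
      rw [Submodule.mem_comap] at hf ⊢
      have h2 := hWΓ γ hγ _ hf
      rw [hΦγ γ hγ] at h2
      exact h2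
  · have h1 : (fun i => ((∑ j, R.const (w i j) * u j : R.B) : F)) =
        fun i => Φ (fun j => (w i j : L)) := by
      funext i
      simp only [Φ, Fintype.linearCombination_apply, AddSubmonoidClass.coe_finsetSum,
        Subring.coe_mul, RedRing.coe_const, Algebra.smul_def]
    rw [h1]
    have h2 : Set.range (fun i => Φ (fun j => (w i j : L))) =
        Φ '' (Set.range fun (i : Fin d) (j : ι) => (w i j : L)) := by
      rw [← Set.range_comp]
      rfl
    rw [h2, ← Submodule.map_span, hspan, Submodule.map_comap_eq, hΦ, inf_eq_right]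
    exact hW
  · rw [Fintype.linearIndependent_iff]
    intro g hg i
    have h3 : ∑ j, (∑ i, g i * π (w i j)) • R.ρ (u j) = 0 := by
      rw [← hg]
      simp only [map_sum, map_mul, RedRing.ρ_const, Finset.smul_sum, Finset.sum_smul]
      rw [Finset.sum_comm]
      refine Finset.sum_congr rfl fun i _ => Finset.sum_congr rfl fun j _ => ?_
      rw [Algebra.smul_def, Algebra.smul_def, map_mul]
      ring
    have h4 := Fintype.linearIndependent_iff.mp hu _ h3 (p i)
    simpa [hp, apply_ite π] using h4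

/-- A stable family of polynomial relations has an invariant primitive common denominator. -/
theorem exists_fixed_denom (G : GaussData F Fk A π) (Γ : Subgroup (SemilinearAut L F))
    (hx : ∀ γ ∈ Γ, γ • (G.x : F) = G.x) (hb : ∀ i, ∀ γ ∈ Γ, γ • (G.b i : F) = G.b i)
    (V : Submodule L F) [FiniteDimensional L V] (hV : ∀ γ ∈ Γ, ∀ f ∈ V, γ • f ∈ V) :
    ∃ Q : A[X], Q.map π ≠ 0 ∧ (∀ γ ∈ Γ, γ • (G.ev G.x Q : F) = G.ev G.x Q) ∧
      ∀ f ∈ V, ∃ q : G.ι → L[X], (G.ev G.x Q : F) * f = ∑ i, aeval (G.x : F) (q i) * G.b i := by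
  classical
  -- the ideal of denominators
  let I : Ideal L[X] :=
    { carrier := {Q | ∀ f ∈ V, ∃ q : G.ι → L[X],
        aeval (G.x : F) Q * f = ∑ i, aeval (G.x : F) (q i) * G.b i}
      add_mem' := by
        intro P Q hP hQ f hf
        obtain ⟨p, hp⟩ := hP f hf
        obtain ⟨q, hq⟩ := hQ f hf
        refine ⟨p + q, ?_⟩
        rw [map_add, add_mul, hp, hq, ← Finset.sum_add_distrib]
        exact Finset.sum_congr rfl fun i _ => by rw [Pi.add_apply, map_add, add_mul]
      zero_mem' := by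
        intro f _
        exact ⟨0, by simp⟩
      smul_mem' := by
        intro P Q hQ f hf
        obtain ⟨q, hq⟩ := hQ f hf
        refine ⟨fun i => P * q i, ?_⟩
        rw [smul_eq_mul, map_mul, mul_assoc, hq, Finset.mul_sum]
        exact Finset.sum_congr rfl fun i _ => by rw [map_mul, mul_assoc] }
  have hImem : ∀ Q : L[X], Q ∈ I ↔ ∀ f ∈ V, ∃ q : G.ι → L[X],
        aeval (G.x : F) Q * f = ∑ i, aeval (G.x : F) (q i) * G.b i := fun Q => Iff.rfl
  -- nonzero
  have hI0 : ∃ P ∈ I, P ≠ 0 := by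
    let c := Module.finBasis L V
    choose Q q hQ hq using G.span
    refine ⟨∏ j, Q (c j), ?_, Finset.prod_ne_zero_iff.mpr fun j _ => hQ _⟩
    intro f hf
    have h7 : f = ∑ b, c.repr ⟨f, hf⟩ b • (c b : F) := by
      have h8 := congrArg V.subtype (c.sum_repr ⟨f, hf⟩)
      rw [map_sum] at h8
      exact h8.symm
    have h9 : ∀ b, ∃ r : G.ι → L[X], aeval (G.x : F) (∏ j, Q (c j)) * (c b : F) =
        ∑ i, aeval (G.x : F) (r i) * G.b i := by
      intro b
      refine ⟨fun i => (∏ j' ∈ Finset.univ.erase b, Q (c j')) * q (c b) i, ?_⟩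
      have h2 : ∏ j, Q (c j) = (∏ j' ∈ Finset.univ.erase b, Q (c j')) * Q (c b) := by
        rw [Finset.prod_erase_mul _ _ (Finset.mem_univ b)]
      rw [h2, map_mul, mul_assoc, hq, Finset.mul_sum]
      refine Finset.sum_congr rfl fun i _ => ?_
      rw [map_mul, mul_assoc]
    choose r hr using h9
    refine ⟨fun i => ∑ b, C (c.repr ⟨f, hf⟩ b) * r b i, ?_⟩
    conv_lhs => rw [h7]
    rw [Finset.mul_sum]
    have h10 : ∀ i, aeval (G.x : F) (∑ b, C (c.repr ⟨f, hf⟩ b) * r b i) * (G.b i : F) =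
        ∑ b, algebraMap L F (c.repr ⟨f, hf⟩ b) * (aeval (G.x : F) (r b i) * G.b i) := by
      intro i
      rw [map_sum, Finset.sum_mul]
      exact Finset.sum_congr rfl fun b _ => by rw [map_mul, aeval_C, mul_assoc]
    rw [Finset.sum_congr rfl fun i _ => h10 i, Finset.sum_comm]
    refine Finset.sum_congr rfl fun b _ => ?_
    rw [← Finset.mul_sum, ← hr b, Algebra.smul_def]
    ring
  -- stability
  have hstab : ∀ γ ∈ Γ, ∀ Q ∈ I, Q.map (SemilinearAut.baseAut γ : L →+* L) ∈ I := by
    intro γ hγ Q hQ f hf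
    obtain ⟨q, hq⟩ := hQ (γ⁻¹ • f) (hV γ⁻¹ (inv_mem hγ) f hf)
    refine ⟨fun i => (q i).map (SemilinearAut.baseAut γ : L →+* L), ?_⟩
    have h1 := congrArg (fun z => γ • z) hq
    simp only [smul_mul', Finset.smul_sum] at h1
    rw [smul_inv_smul, smul_aeval γ (hx γ hγ)] at h1
    rw [h1]
    exact Finset.sum_congr rfl fun i _ => by rw [smul_aeval γ (hx γ hγ), hb i γ hγ]
  -- monic generator
  obtain ⟨P₀, hP₀, hP₀0⟩ := hI0
  have hgen0 : Submodule.IsPrincipal.generator I ≠ 0 := by
    intro h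
    have h1 := (Submodule.IsPrincipal.mem_iff_generator_dvd I).mp hP₀
    rw [h, zero_dvd_iff] at h1
    exact hP₀0 h1
  set P : L[X] := normalize (Submodule.IsPrincipal.generator I) with hP
  have hPmonic : P.Monic := by
    rw [hP]; exact monic_normalize hgen0
  have hPI : P ∈ I := by
    rw [Submodule.IsPrincipal.mem_iff_generator_dvd I, hP]
    exact (normalize_associated _).symm.dvd
  have hPdvd : ∀ Q ∈ I, P ∣ Q := by
    intro Q hQ
    rw [hP, normalize_dvd_iff]
    exact (Submodule.IsPrincipal.mem_iff_generator_dvd I).mp hQ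
  have hPfix : ∀ γ ∈ Γ, P.map (SemilinearAut.baseAut γ : L →+* L) = P := by
    intro γ hγ
    have h1 : P ∣ P.map (SemilinearAut.baseAut γ : L →+* L) := hPdvd _ (hstab γ hγ P hPI)
    have h2 : (P.map (SemilinearAut.baseAut γ : L →+* L)).Monic := hPmonic.map _
    exact (eq_of_monic_of_dvd_of_natDegree_le hPmonic h2 h1 (natDegree_map_le)).symm ▸ rfl
  -- primitive version
  obtain ⟨e, P', he, h1, ⟨⟩, a, h2⟩ := exists_scale_poly A (fun _ : Unit => P)
    (fun h => hPmonic.ne_zero (congrFun h ()))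
  have hPP' : P = C e * (P' ()).map A.subtype := h1 ()
  have hee : P.coeff a = e := by
    rw [hPP', coeff_C_mul, coeff_map, h2, map_one, mul_one]
  have hP'coeff : ∀ n, ((P' ()).coeff n : L) = e⁻¹ * P.coeff n := by
    intro n
    rw [hPP', coeff_C_mul, coeff_map, ← mul_assoc, inv_mul_cancel₀ he, one_mul]
    rfl
  have hPc : ∀ γ ∈ Γ, ∀ n, SemilinearAut.baseAut γ (P.coeff n) = P.coeff n := by
    intro γ hγ n
    have h3 := congrArg (fun p => p.coeff n) (hPfix γ hγ)
    simp only [coeff_map] at h3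
    exact h3
  have hP'c : ∀ γ ∈ Γ, ∀ n, SemilinearAut.baseAut γ ((P' ()).coeff n : L) =
      (P' ()).coeff n := by
    intro γ hγ n
    rw [hP'coeff, map_mul, map_inv₀, hPc γ hγ, ← hee, hPc γ hγ]
  refine ⟨P' (), fun h => ?_, ?_, ?_⟩
  · have h3 := congrArg (fun p => p.coeff a) h
    simp only [coeff_map, coeff_zero] at h3
    rw [h2, map_one] at h3
    exact one_ne_zero h3
  · intro γ hγ
    rw [RedRing.coe_ev, smul_aeval γ (hx γ hγ)]
    congr 1
    ext n
    rw [coeff_map, coeff_map]
    exact hP'c γ hγ n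
  · intro f hf
    obtain ⟨q, hq⟩ := hPI f hf
    refine ⟨fun i => C e⁻¹ * q i, ?_⟩
    have h3 : (G.ev G.x (P' ()) : F) = algebraMap L F e⁻¹ * aeval (G.x : F) P := by
      rw [hPP', map_mul, aeval_C, ← mul_assoc, ← map_mul, inv_mul_cancel₀ he, map_one, one_mul,
        RedRing.coe_ev]
    rw [h3, mul_assoc, hq, Finset.mul_sum]
    exact Finset.sum_congr rfl fun i _ => by rw [map_mul, aeval_C, mul_assoc]

/-- **Invariant good bases.** -/
theorem exists_basis_fixed (G : GaussData F Fk A π) (Γ : Subgroup (SemilinearAut L F))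
    (hx : ∀ γ ∈ Γ, γ • (G.x : F) = G.x) (hb : ∀ i, ∀ γ ∈ Γ, γ • (G.b i : F) = G.b i)
    (V : Submodule L F) [FiniteDimensional L V] (hV : ∀ γ ∈ Γ, ∀ f ∈ V, γ • f ∈ V) :
    ∃ (n : ℕ) (w : Fin n → G.loc), (∀ i, ∀ γ ∈ Γ, γ • (w i : F) = w i) ∧
      Submodule.span L (Set.range fun i => (w i : F)) = V ∧
      LinearIndependent k (fun i => G.res (w i)) := by
  classical
  obtain ⟨Q, hQ, hQΓ, hQV⟩ := exists_fixed_denom G Γ hx hb V hV
  have hρ := G.ρ_ev_ne_zero hQ
  have hne := G.coe_ne_zero hρ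
  let c := Module.finBasis L V
  choose r hr using fun j => hQV (c j) (c j).2
  set M := Finset.univ.sup (fun y : Fin (finrank L V) × G.ι => (r y.1 y.2).natDegree) + 1 with hM
  have hdeg : ∀ j i, (r j i).natDegree < M := fun j i => Nat.lt_succ_of_le
    (Finset.le_sup (f := fun y : Fin (finrank L V) × G.ι => (r y.1 y.2).natDegree)
      (Finset.mem_univ (j, i)))
  let u : Fin M × G.ι → G.B := fun y => G.x ^ (y.1 : ℕ) * G.b y.2
  let mulP : F →ₗ[L] F := LinearMap.mulLeft L (G.ev G.x Q : F)
  have hWle : V.map mulP ≤ Submodule.span L (Set.range fun y => (u y : F)) := by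
    rintro _ ⟨f, hf, rfl⟩
    have h7 : f = ∑ b, c.repr ⟨f, hf⟩ b • (c b : F) := by
      have h8 := congrArg V.subtype (c.sum_repr ⟨f, hf⟩)
      rw [map_sum] at h8
      exact h8.symm
    rw [h7, map_sum]
    refine Submodule.sum_mem _ fun j _ => ?_
    rw [map_smul]
    refine Submodule.smul_mem _ _ ?_
    rw [LinearMap.mulLeft_apply, hr j]
    refine Submodule.sum_mem _ fun i _ => ?_
    rw [aeval_eq_sum_range' (hdeg j i), Finset.sum_mul]
    refine Submodule.sum_mem _ fun a ha => ?_
    rw [smul_mul_assoc]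
    refine Submodule.smul_mem _ _ (Submodule.subset_span ⟨(⟨a, Finset.mem_range.mp ha⟩, i), ?_⟩)
    simp [u]
  obtain ⟨d, w', hfix, hspan, hli⟩ := exists_basis_of_le_fixed G.toRedRing u
    (G.linearIndependent_monomials M) (V.map mulP) hWle Γ
    (by
      intro y γ hγ
      simp only [u, Subring.coe_mul, Subring.coe_pow, smul_mul', smul_pow']
      rw [hx γ hγ, hb _ γ hγ])
    (by
      rintro γ hγ _ ⟨f, hf, rfl⟩
      refine ⟨γ • f, hV γ hγ f hf, ?_⟩
      simp only [mulP, LinearMap.mulLeft_apply, smul_mul']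
      rw [hQΓ γ hγ])
  have hmem : ∀ i, (G.ev G.x Q : F)⁻¹ * w' i * (G.ev G.x Q : F) = w' i := fun i => by
    rw [mul_comm, ← mul_assoc, mul_inv_cancel₀ hne, one_mul]
  refine ⟨d, fun i => ⟨(G.ev G.x Q : F)⁻¹ * w' i, w' i, _, hρ, hmem i⟩, ?_, ?_, ?_⟩
  · intro i γ hγ
    show γ • ((G.ev G.x Q : F)⁻¹ * w' i) = _
    rw [smul_mul', hfix i γ hγ, smul_inv'', hQΓ γ hγ]
  · have hinj : Function.Injective mulP := by
      intro a b hab
      exact mul_left_cancel₀ hne hab
    apply Submodule.map_injective_of_injective hinj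
    rw [← hspan, Submodule.map_span, ← Set.range_comp]
    congr 2
    funext i
    simp only [Function.comp_apply, mulP, LinearMap.mulLeft_apply]
    rw [← mul_assoc, mul_inv_cancel₀ hne, one_mul]
  · have h1 : (fun i => G.ρ (w' i)) = fun i =>
        (LinearMap.mulRight k (G.ρ (G.ev G.x Q)))
          (G.res ⟨(G.ev G.x Q : F)⁻¹ * w' i, w' i, _, hρ, hmem i⟩) := by
      funext i
      rw [LinearMap.mulRight_apply,
        G.res_mul_eq ⟨(G.ev G.x Q : F)⁻¹ * w' i, w' i, _, hρ, hmem i⟩ hρ (hmem i)]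
    rw [h1] at hli
    exact LinearIndependent.of_comp _ hli

end Data

end Fermat.Agent.H1
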