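import Fermat.Agent.H42RedInputs
import Fermat.Agent.H19Setting
import Fermat.Agent.H1InvGauss
import Fermat.Agent.H1Inertia

/-!
# S19-E: invariant good bases for modular function fields (helper1)
-/

set_option autoImplicit false

open Polynomial Module IntermediateField AlgebraicCurve

namespace Fermat.Agent.H1

open Fermat.Agent.H42

section Construct

variable {L E₁ k E₂ : Type*} [Field L] [Field E₁] [Algebra L E₁] [Field k] [Field E₂] [Algebra k E₂]
  {A : ValuationSubring L} {π : A →+* k} (R : RedRing E₁ E₂ A π)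
  (F : IntermediateField L E₁) (S : Set R.B) (hS : ∀ s ∈ S, (s : E₁) ∈ F)
  (Fk : IntermediateField k E₂) (hFk : adjoin k (R.ρ '' S) = Fk)
  (x : R.B) (hx : (x : E₁) ∈ F) (hxk : R.ρ x ∈ Fk)
  (htr : ∀ q : k[X], aeval (R.ρ x) q = 0 → q = 0)
  (hne : relfinrank L⟮(x : E₁)⟯ F ≠ 0)
  (hdeg : relfinrank L⟮(x : E₁)⟯ F ≤ relfinrank k⟮R.ρ x⟯ Fk)
  (Γ : Subgroup (SemilinearAut L F))
  (hSΓ : ∀ (s : R.B) (hs : s ∈ S), ∀ γ ∈ Γ, γ • (⟨s, hS s hs⟩ : F) = ⟨s, hS s hs⟩)
  (hconst : ∀ x : k, ∃ a : A, (∀ γ ∈ Γ, SemilinearAut.baseAut γ (a : L) = a) ∧ π a = x)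

include hSΓ hconst in
theorem exists_lift_fixed {t : E₂} (ht : t ∈ Algebra.adjoin k (R.ρ '' S)) :
    ∃ y : (R.restrict F).B, (∀ γ ∈ Γ, γ • (y : F) = y) ∧ (R.restrict F).ρ y = t := by
  induction ht using Algebra.adjoin_induction with
  | mem t ht =>
    obtain ⟨s, hs, rfl⟩ := ht
    exact ⟨⟨⟨s, hS s hs⟩, s.2⟩, hSΓ s hs, rfl⟩
  | algebraMap a =>
    obtain ⟨a, ha, rfl⟩ := hconst a
    refine ⟨(R.restrict F).const a, fun γ hγ => ?_, (R.restrict F).ρ_const a⟩
    rw [RedRing.coe_const, SemilinearAut.smul_algebraMap, ha γ hγ]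
  | add a b _ _ ha hb =>
    obtain ⟨y, hy, rfl⟩ := ha
    obtain ⟨z, hz, rfl⟩ := hb
    refine ⟨y + z, fun γ hγ => ?_, map_add _ _ _⟩
    rw [Subring.coe_add, smul_add, hy γ hγ, hz γ hγ]
  | mul a b _ _ ha hb =>
    obtain ⟨y, hy, rfl⟩ := ha
    obtain ⟨z, hz, rfl⟩ := hb
    refine ⟨y * z, fun γ hγ => ?_, map_mul _ _ _⟩
    rw [Subring.coe_mul, smul_mul', hy γ hγ, hz γ hγ]

include hSΓ hconst hFk hxk htr hne hdeg in
/-- existence of invariant elements `b i`. -/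
theorem exists_b_fixed : ∃ b : Fin (relfinrank k⟮R.ρ x⟯ Fk) → (R.restrict F).B,
    (∀ i, ∀ γ ∈ Γ, γ • (b i : F) = b i) ∧
    (∀ i, (R.restrict F).ρ (b i) ∈ Fk) ∧
    ∀ q : Fin (relfinrank k⟮R.ρ x⟯ Fk) → k[X],
      ∑ i, aeval (R.ρ x) (q i) * (R.restrict F).ρ (b i) = 0 → q = 0 := by
  classical
  subst hFk
  have hn0 : relfinrank k⟮R.ρ x⟯ (adjoin k (R.ρ '' S)) ≠ 0 :=
    fun h => hne (Nat.le_zero.mp (h ▸ hdeg))
  obtain ⟨u, hu, hind⟩ := exists_independent (R.ρ x) (adjoin k (R.ρ '' S)) hxk hn0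
  have h1 : ∀ i, ∃ y z : (R.restrict F).B, (∀ γ ∈ Γ, γ • (y : F) = y) ∧
      (∀ γ ∈ Γ, γ • (z : F) = z) ∧ (R.restrict F).ρ z ≠ 0 ∧
      u i * (R.restrict F).ρ z = (R.restrict F).ρ y ∧ (R.restrict F).ρ z ∈ adjoin k (R.ρ '' S) := by
    intro i
    obtain ⟨r, hr, s, hs, h⟩ := mem_adjoin_iff_div.mp (hu i)
    by_cases hs0 : s = 0
    · refine ⟨0, 1, fun γ _ => by simp, fun γ _ => by simp, by simp, ?_, ?_⟩
      · rw [h, hs0, div_zero, map_zero, zero_mul]
      · rw [map_one]; exact one_mem _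
    · obtain ⟨y, hy, rfl⟩ := exists_lift_fixed R F S hS Γ hSΓ hconst hr
      obtain ⟨z, hz, rfl⟩ := exists_lift_fixed R F S hS Γ hSΓ hconst hs
      refine ⟨y, z, hy, hz, hs0, ?_, algebra_adjoin_le_adjoin k _ hs⟩
      rw [h, div_mul_cancel₀ _ hs0]
  choose y z hyΓ hzΓ hz hyz hzm using h1
  let Z : (R.restrict F).B := ∏ i, z i
  have hZ : (R.restrict F).ρ Z ≠ 0 := by
    rw [map_prod]
    exact Finset.prod_ne_zero_iff.mpr fun i _ => hz i
  have hb : ∀ i, (R.restrict F).ρ ((∏ j ∈ Finset.univ.erase i, z j) * y i) =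
      (R.restrict F).ρ Z * u i := by
    intro i
    simp only [Z]
    rw [← Finset.prod_erase_mul _ _ (Finset.mem_univ i), map_mul, map_mul, ← hyz]
    ring
  have hZm : (R.restrict F).ρ Z ∈ adjoin k (R.ρ '' S) := by
    rw [map_prod]
    exact prod_mem fun i _ => hzm i
  refine ⟨fun i => (∏ j ∈ Finset.univ.erase i, z j) * y i, fun i γ hγ => ?_, fun i => ?_,
    fun q hq => ?_⟩
  · have hprod : ((∏ j ∈ Finset.univ.erase i, z j : (R.restrict F).B) : F) =
        ∏ j ∈ Finset.univ.erase i, (z j : F) := map_prod (R.restrict F).B.subtype _ _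
    rw [Subring.coe_mul, hprod, smul_mul', Finset.smul_prod', hyΓ i γ hγ]
    congr 1
    exact Finset.prod_congr rfl fun j _ => hzΓ j γ hγ
  · rw [hb]
    exact mul_mem hZm (hu i)
  · funext i
    apply htr
    apply hind q
    simp only [hb] at hq
    apply mul_left_cancel₀ hZ
    rw [mul_zero, ← hq, Finset.mul_sum]
    exact Finset.sum_congr rfl fun i _ => by ring

variable (b : Fin (relfinrank k⟮R.ρ x⟯ Fk) → (R.restrict F).B)
  (hb1 : ∀ i, (R.restrict F).ρ (b i) ∈ Fk)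
  (hb2 : ∀ q : Fin (relfinrank k⟮R.ρ x⟯ Fk) → k[X],
      ∑ i, aeval (R.ρ x) (q i) * (R.restrict F).ρ (b i) = 0 → q = 0)

/-- Gauss data with given elements `b i`. -/
noncomputable def gaussDataOf₀ (htr : ∀ q : k[X], aeval (R.ρ x) q = 0 → q = 0)
    (hne : relfinrank L⟮(x : E₁)⟯ F ≠ 0)
    (hdeg : relfinrank L⟮(x : E₁)⟯ F ≤ relfinrank k⟮R.ρ x⟯ Fk)
    (b : Fin (relfinrank k⟮R.ρ x⟯ Fk) → (R.restrict F).B)
    (hb2 : ∀ q : Fin (relfinrank k⟮R.ρ x⟯ Fk) → k[X],
      ∑ i, aeval (R.ρ x) (q i) * (R.restrict F).ρ (b i) = 0 → q = 0) :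
    GaussData F E₂ A π where
  toRedRing := R.restrict F
  x := ⟨⟨x, hx⟩, x.2⟩
  transc := htr
  ι := Fin (relfinrank k⟮R.ρ x⟯ Fk)
  fin := inferInstance
  b := b
  ind := hb2
  span f := by
    classical
    obtain ⟨p, ⟨o, ho⟩, hp⟩ := exists_relation (x : E₁) F hx hne
      (κ := Option (Fin (relfinrank k⟮R.ρ x⟯ Fk)))
      (fun o => o.elim (f : E₁) (fun i => ((b i : F) : E₁)))
      (by rintro (_ | i); exacts [f.2, (b i : F).2])
      (by rw [Fintype.card_option, Fintype.card_fin]; exact Nat.lt_succ_of_le hdeg)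
    have hcoe : ∀ q : L[X], ((aeval (⟨x, hx⟩ : F) q : F) : E₁) = aeval (x : E₁) q := fun q =>
      (aeval_algHom_apply F.val (⟨x, hx⟩ : F) q).symm
    rw [Fintype.sum_option] at hp
    refine ⟨p none, fun i => - p (some i), fun h0 => ?_, ?_⟩
    · have h1 : (fun i => p (some i)) = 0 := by
        apply (R.restrict F).poly_independent ⟨⟨x, hx⟩, x.2⟩ b hb2
        apply Subtype.ext
        have h2 : ((∑ i, aeval (⟨x, hx⟩ : F) (p (some i)) * (b i : F) : F) : E₁) =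
            ∑ i, aeval (x : E₁) (p (some i)) * ((b i : F) : E₁) := by
          rw [← F.coe_val, map_sum]
          refine Finset.sum_congr rfl fun i _ => ?_
          rw [map_mul, F.coe_val, hcoe]
        rw [h2]
        rw [h0, map_zero, zero_mul, zero_add] at hp
        exact hp
      apply ho
      rcases o with _ | i
      · rw [h0, map_zero]
      · rw [show p (some i) = 0 from congrFun h1 i, map_zero]
    · apply Subtype.ext
      have h2 : ((∑ i, aeval (⟨x, hx⟩ : F) (- p (some i)) * (b i : F) : F) : E₁) =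
          - ∑ i, aeval (x : E₁) (p (some i)) * ((b i : F) : E₁) := by
        rw [← F.coe_val, map_sum, ← Finset.sum_neg_distrib]
        refine Finset.sum_congr rfl fun i _ => ?_
        rw [map_mul, F.coe_val, hcoe, map_neg, neg_mul]
      rw [h2]
      have h3 : ((aeval (⟨x, hx⟩ : F) (p none) * f : F) : E₁) =
          aeval (x : E₁) (p none) * f := by
        rw [← hcoe]; rfl
      rw [h3]
      exact eq_neg_of_add_eq_zero_left hp

/-- Gauss data with given elements `b i`. -/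
noncomputable def gaussDataOf : GaussData F Fk A π :=
  (gaussDataOf₀ R F Fk x hx htr hne hdeg b hb2).codRestrict _ hxk hb1

include hSΓ hconst in
/-- **Invariant good bases** for the concrete reduction data of `H42.gaussData`. -/
theorem exists_basis_fixed_gaussData (hπ : Function.Surjective π) (hxΓ : ∀ γ ∈ Γ, γ • (⟨x, hx⟩ : F) = ⟨x, hx⟩)
    (V : Submodule L F) [FiniteDimensional L V] (hV : ∀ γ ∈ Γ, ∀ f ∈ V, γ • f ∈ V) :
    ∃ (n : ℕ) (w : Fin n → (gaussData R hπ F S hS Fk hFk x hx hxk htr hne hdeg).loc),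
      (∀ i, ∀ γ ∈ Γ, γ • (w i : F) = w i) ∧
      Submodule.span L (Set.range fun i => (w i : F)) = V ∧
      LinearIndependent k
        (fun i => (gaussData R hπ F S hS Fk hFk x hx hxk htr hne hdeg).res (w i)) := by
  obtain ⟨b, hbΓ, hb1, hb2⟩ := exists_b_fixed R F S hS Fk hFk x hxk htr hne hdeg Γ hSΓ hconst
  exact exists_basis_fixed (gaussDataOf R F Fk x hx hxk htr hne hdeg b hb1 hb2) Γ hxΓ hbΓ V hV

end Construct

end Fermat.Agent.H1
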