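import Mathlib

/-! The rings of integers of `ℚ(ζ_p)` for `p = 7, 11, 13` are principal ideal domains. -/

set_option autoImplicit false

namespace Fermat.Agent.H1

open NumberField Polynomial InfinitePlace Nat Real cyclotomic IsCyclotomicExtension Ideal
  NumberField.Ideal RingOfIntegers UniqueFactorizationMonoid

section General

variable {p q : ℕ} [hp : Fact p.Prime] [hq : Fact q.Prime]
variable (K : Type*) [Field K] [NumberField K] [IsCyclotomicExtension {p} ℚ K]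

lemma zeta_geom (p : ℕ) [hp : Fact p.Prime] (K : Type*) [Field K] [NumberField K]
    [IsCyclotomicExtension {p} ℚ K] :
    ∑ i ∈ Finset.range p, ((zeta_spec p ℚ K).toInteger : 𝓞 K) ^ i = 0 :=
  (zeta_spec p ℚ K).toInteger_isPrimitiveRoot.geom_sum_eq_zero hp.out.one_lt

/-- A criterion for the existence of a principal prime above `q`. -/
lemma exists_principal (p q : ℕ) [hp : Fact p.Prime] [hq : Fact q.Prime]
    (K : Type*) [Field K] [NumberField K] [IsCyclotomicExtension {p} ℚ K]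
    (Q : ℤ[X]) (hirr : Irreducible (Q.map (Int.castRingHom (ZMod q)))) (hmonic : Q.Monic)
    (hdvd : Q.map (Int.castRingHom (ZMod q)) ∣ cyclotomic p (ZMod q))
    (α : 𝓞 K) (h1 : α ∣ (q : 𝓞 K)) (h2 : α ∣ aeval ((zeta_spec p ℚ K).toInteger) Q)
    (s t : 𝓞 K) (h3 : α = q * s + aeval ((zeta_spec p ℚ K).toInteger) Q * t) :
    ∃ P ∈ primesOver (span {(q : ℤ)}) (𝓞 K), Submodule.IsPrincipal P := by
  have hexp : ¬ q ∣ exponent ((zeta_spec p ℚ K).toInteger) := by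
    rw [exponent_eq_one_iff.mpr <|
      IsCyclotomicExtension.Rat.adjoin_singleton_eq_top (zeta_spec p ℚ K)]
    exact hq.out.not_dvd_one
  have hmin : minpoly ℤ ((zeta_spec p ℚ K).toInteger) = cyclotomic p ℤ := by
    have h := cyclotomic_eq_minpoly (zeta_spec p ℚ K) hp.out.pos
    rw [h, ← minpoly.algebraMap_eq (B := 𝓞 K) (B' := K) RingOfIntegers.coe_injective]
    rfl
  have hQ : Q.map (Int.castRingHom (ZMod q)) ∈
      monicFactorsMod ((zeta_spec p ℚ K).toInteger) q := by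
    rw [Multiset.mem_toFinset, hmin, map_cyclotomic]
    rw [Polynomial.mem_normalizedFactors_iff (cyclotomic_ne_zero p _)]
    exact ⟨hirr, hmonic.map _, hdvd⟩
  refine ⟨_, ((primesOverSpanEquivMonicFactorsMod hexp).symm ⟨_, hQ⟩).2, ?_⟩
  rw [primesOverSpanEquivMonicFactorsMod_symm_apply_eq_span hexp hQ]
  refine ⟨⟨α, ?_⟩⟩
  rw [submodule_span_eq]
  apply le_antisymm
  · rw [span_le]
    intro x hx
    rw [SetLike.mem_coe, mem_span_singleton]
    rcases hx with rfl | hx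
    · exact h1
    · rw [Set.mem_singleton_iff] at hx
      subst hx
      exact h2
  · rw [span_singleton_le_iff_mem, mem_span_pair]
    exact ⟨s, t, by rw [h3]; ring⟩

/-- The degree one version. -/
lemma exists_principal_one (p q : ℕ) [hp : Fact p.Prime] [hq : Fact q.Prime]
    (K : Type*) [Field K] [NumberField K] [IsCyclotomicExtension {p} ℚ K]
    (r : ℤ) (hr : ∑ i ∈ Finset.range p, (r : ZMod q) ^ i = 0)
    (α : 𝓞 K) (h1 : α ∣ (q : 𝓞 K)) (h2 : α ∣ (zeta_spec p ℚ K).toInteger - (r : 𝓞 K))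
    (s t : 𝓞 K) (h3 : α = q * s + ((zeta_spec p ℚ K).toInteger - (r : 𝓞 K)) * t) :
    ∃ P ∈ primesOver (span {(q : ℤ)}) (𝓞 K), Submodule.IsPrincipal P := by
  have hmap : (X - C r : ℤ[X]).map (Int.castRingHom (ZMod q)) = X - C (r : ZMod q) := by simp
  have hev : aeval ((zeta_spec p ℚ K).toInteger) (X - C r : ℤ[X]) =
      (zeta_spec p ℚ K).toInteger - (r : 𝓞 K) := by simp
  refine exists_principal p q K (X - C r) ?_ (monic_X_sub_C r) ?_ α h1 ?_ s t ?_
  · rw [hmap]; exact irreducible_X_sub_C _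
  · rw [hmap, dvd_iff_isRoot, IsRoot.def, cyclotomic_prime, eval_finsetSum]
    simpa using hr
  · rw [hev]; exact h2
  · rw [hev]; exact h3

end General

section Identities

variable {R : Type*} [CommRing R]

lemma id_11_23_a (x : R) (h : ∑ i ∈ Finset.range 11, x ^ i = 0) : (1 + x + x ^ 3) ∣ (23 : R) := by
  simp only [Finset.sum_range_succ, Finset.sum_range_zero] at h
  refine ⟨(-2) + (-14)*x + (-17)*x^2 + (-12)*x^3 + (-5)*x^4 + (-9)*x^5 + (-10)*x^6 + (-16)*x^7 + (-6)*x^8 + (-15)*x^9, ?_⟩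
  linear_combination (-((-25) + (9)*x + (-15)*x^2)) * h

lemma id_11_23_b (x : R) (h : ∑ i ∈ Finset.range 11, x ^ i = 0) : (1 + x + x ^ 3) ∣ (x - 4) := by
  simp only [Finset.sum_range_succ, Finset.sum_range_zero] at h
  refine ⟨(1) + (3)*x + (3)*x^2 + (2)*x^3 + (1)*x^4 + (2)*x^5 + (2)*x^6 + (3)*x^7 + (1)*x^8 + (3)*x^9, ?_⟩
  linear_combination (-((5) + (-2)*x + (3)*x^2)) * h

lemma id_13_53_a (x : R) (h : ∑ i ∈ Finset.range 13, x ^ i = 0) : (1 + x + x ^ 3) ∣ (53 : R) := by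
  simp only [Finset.sum_range_succ, Finset.sum_range_zero] at h
  refine ⟨(1) + (-24)*x + (-35)*x^2 + (-25)*x^3 + (-10)*x^4 + (-14)*x^5 + (-20)*x^6 + (-29)*x^7 + (-16)*x^8 + (-23)*x^9 + (-7)*x^10 + (-36)*x^11, ?_⟩
  linear_combination (-((-52) + (29)*x + (-36)*x^2)) * h

lemma id_13_53_b (x : R) (h : ∑ i ∈ Finset.range 13, x ^ i = 0) : (1 + x + x ^ 3) ∣ (x - (-17)) := by
  simp only [Finset.sum_range_succ, Finset.sum_range_zero] at h
  refine ⟨(1) + (-7)*x + (-11)*x^2 + (-8)*x^3 + (-3)*x^4 + (-4)*x^5 + (-6)*x^6 + (-9)*x^7 + (-5)*x^8 + (-7)*x^9 + (-2)*x^10 + (-11)*x^11, ?_⟩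
  linear_combination (-((-16) + (9)*x + (-11)*x^2)) * h

lemma id_13_131_a (x : R) (h : ∑ i ∈ Finset.range 13, x ^ i = 0) :
    (1 - x - x ^ 3) ∣ (131 : R) := by
  simp only [Finset.sum_range_succ, Finset.sum_range_zero] at h
  refine ⟨(111) + (78)*x + (17)*x^2 + (67)*x^3 + (84)*x^4 + (40)*x^5 + (46)*x^6 + (69)*x^7 + (48)*x^8 + (33)*x^9 + (41)*x^10 + (28)*x^11, ?_⟩
  linear_combination (-((-20) + (-13)*x + (-28)*x^2)) * h

lemma id_13_131_b (x : R) (h : ∑ i ∈ Finset.range 13, x ^ i = 0) :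
    (1 - x - x ^ 3) ∣ (x - (-51)) := by
  simp only [Finset.sum_range_succ, Finset.sum_range_zero] at h
  refine ⟨(43) + (31)*x + (7)*x^2 + (26)*x^3 + (33)*x^4 + (16)*x^5 + (18)*x^6 + (27)*x^7 + (19)*x^8 + (13)*x^9 + (16)*x^10 + (11)*x^11, ?_⟩
  linear_combination (-((-8) + (-5)*x + (-11)*x^2)) * h

lemma id_13_79_a (x : R) (h : ∑ i ∈ Finset.range 13, x ^ i = 0) :
    (1 + x - x ^ 4) ∣ (79 : R) := by
  simp only [Finset.sum_range_succ, Finset.sum_range_zero] at h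
  refine ⟨(24) + (-25)*x + (-27)*x^2 + (10)*x^3 + (-3)*x^4 + (-39)*x^5 + (-5)*x^6 + (-2)*x^7 + (-18)*x^8 + (-38)*x^9 + (16)*x^10 + (-35)*x^11, ?_⟩
  linear_combination (-((-55) + (54)*x + (-51)*x^2 + (35)*x^3)) * h

lemma id_13_79_b (x : R) (h : ∑ i ∈ Finset.range 13, x ^ i = 0) :
    (1 + x - x ^ 4) ∣ (x - (-15)) := by
  simp only [Finset.sum_range_succ, Finset.sum_range_zero] at h
  refine ⟨(5) + (-4)*x + (-5)*x^2 + (2)*x^3 + (-7)*x^5 + (-1)*x^6 + (-3)*x^8 + (-7)*x^9 + (3)*x^10 + (-6)*x^11, ?_⟩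
  linear_combination (-((-10) + (10)*x + (-9)*x^2 + (6)*x^3)) * h

lemma id_13_157_a (x : R) (h : ∑ i ∈ Finset.range 13, x ^ i = 0) :
    (1 - x + x ^ 2 + x ^ 4) ∣ (157 : R) := by
  simp only [Finset.sum_range_succ, Finset.sum_range_zero] at h
  refine ⟨(89) + (86)*x + (42)*x^2 + (77)*x^3 + (67)*x^4 + (25)*x^5 + (37)*x^6 + (56)*x^7 + (73)*x^8 + (113)*x^9 + (124)*x^10 + (76)*x^11, ?_⟩
  linear_combination (-((-68) + (65)*x + (48)*x^2 + (76)*x^3)) * h

lemma id_13_157_b (x : R) (h : ∑ i ∈ Finset.range 13, x ^ i = 0) :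
    (1 - x + x ^ 2 + x ^ 4) ∣ (x - 75) := by
  simp only [Finset.sum_range_succ, Finset.sum_range_zero] at h
  refine ⟨(-43) + (-41)*x + (-20)*x^2 + (-37)*x^3 + (-32)*x^4 + (-12)*x^5 + (-18)*x^6 + (-27)*x^7 + (-35)*x^8 + (-54)*x^9 + (-59)*x^10 + (-36)*x^11, ?_⟩
  linear_combination (-((32) + (-31)*x + (-23)*x^2 + (-36)*x^3)) * h

lemma id_13_3_a (x : R) (h : ∑ i ∈ Finset.range 13, x ^ i = 0) :
    (1 + x - x ^ 3) ∣ (3 : R) := by
  simp only [Finset.sum_range_succ, Finset.sum_range_zero] at h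
  refine ⟨(-1) + (-1)*x^2 + (-1)*x^3 + (-2)*x^5 + (-1)*x^7 + (-2)*x^8 + (1)*x^9 + (-3)*x^10, ?_⟩
  linear_combination (-((-4) + (3)*x)) * h

end Identities

section Primes

lemma r_11_23 : ∑ i ∈ Finset.range 11, (((4 : ℤ)) : ZMod 23) ^ i = 0 := by decide
lemma r_13_53 : ∑ i ∈ Finset.range 13, (((-17 : ℤ)) : ZMod 53) ^ i = 0 := by decide
lemma r_13_131 : ∑ i ∈ Finset.range 13, (((-51 : ℤ)) : ZMod 131) ^ i = 0 := by decide
lemma r_13_79 : ∑ i ∈ Finset.range 13, (((-15 : ℤ)) : ZMod 79) ^ i = 0 := by decide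
lemma r_13_157 : ∑ i ∈ Finset.range 13, (((75 : ℤ)) : ZMod 157) ^ i = 0 := by decide

lemma prime_11_23 (K : Type*) [Field K] [NumberField K] [IsCyclotomicExtension {11} ℚ K] :
    ∃ P ∈ primesOver (span {((23 : ℕ) : ℤ)}) (𝓞 K), Submodule.IsPrincipal P := by
  have : Fact (Nat.Prime 11) := ⟨by norm_num⟩
  have : Fact (Nat.Prime 23) := ⟨by norm_num⟩
  have h := zeta_geom 11 K
  set x := (zeta_spec 11 ℚ K).toInteger with hx
  refine exists_principal_one 11 23 K 4 r_11_23 (1 + x + x ^ 3) ?_ ?_ 3 (17 + 4 * x + x ^ 2) ?_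
  · push_cast; exact id_11_23_a x h
  · push_cast; exact id_11_23_b x h
  · push_cast; ring

lemma prime_13_53 (K : Type*) [Field K] [NumberField K] [IsCyclotomicExtension {13} ℚ K] :
    ∃ P ∈ primesOver (span {((53 : ℕ) : ℤ)}) (𝓞 K), Submodule.IsPrincipal P := by
  have : Fact (Nat.Prime 13) := ⟨by norm_num⟩
  have : Fact (Nat.Prime 53) := ⟨by norm_num⟩
  have h := zeta_geom 13 K
  set x := (zeta_spec 13 ℚ K).toInteger with hx
  refine exists_principal_one 13 53 K (-17) r_13_53 (1 + x + x ^ 3) ?_ ?_ (-93)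
    (290 + (-17) * x + x ^ 2) ?_
  · push_cast; exact id_13_53_a x h
  · push_cast; exact id_13_53_b x h
  · push_cast; ring

lemma prime_13_131 (K : Type*) [Field K] [NumberField K] [IsCyclotomicExtension {13} ℚ K] :
    ∃ P ∈ primesOver (span {((131 : ℕ) : ℤ)}) (𝓞 K), Submodule.IsPrincipal P := by
  have : Fact (Nat.Prime 13) := ⟨by norm_num⟩
  have : Fact (Nat.Prime 131) := ⟨by norm_num⟩
  have h := zeta_geom 13 K
  set x := (zeta_spec 13 ℚ K).toInteger with hx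
  refine exists_principal_one 13 131 K (-51) r_13_131 (1 - x - x ^ 3) ?_ ?_ 1013
    ((-2602) + 51 * x + (-1) * x ^ 2) ?_
  · push_cast; exact id_13_131_a x h
  · push_cast; exact id_13_131_b x h
  · push_cast; ring

lemma prime_13_79 (K : Type*) [Field K] [NumberField K] [IsCyclotomicExtension {13} ℚ K] :
    ∃ P ∈ primesOver (span {((79 : ℕ) : ℤ)}) (𝓞 K), Submodule.IsPrincipal P := by
  have : Fact (Nat.Prime 13) := ⟨by norm_num⟩
  have : Fact (Nat.Prime 79) := ⟨by norm_num⟩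
  have h := zeta_geom 13 K
  set x := (zeta_spec 13 ℚ K).toInteger with hx
  refine exists_principal_one 13 79 K (-15) r_13_79 (1 + x - x ^ 4) ?_ ?_ (-641)
    (3376 + (-225) * x + 15 * x ^ 2 + (-1) * x ^ 3) ?_
  · push_cast; exact id_13_79_a x h
  · push_cast; exact id_13_79_b x h
  · push_cast; ring

lemma prime_13_157 (K : Type*) [Field K] [NumberField K] [IsCyclotomicExtension {13} ℚ K] :
    ∃ P ∈ primesOver (span {((157 : ℕ) : ℤ)}) (𝓞 K), Submodule.IsPrincipal P := by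
  have : Fact (Nat.Prime 13) := ⟨by norm_num⟩
  have : Fact (Nat.Prime 157) := ⟨by norm_num⟩
  have h := zeta_geom 13 K
  set x := (zeta_spec 13 ℚ K).toInteger with hx
  refine exists_principal_one 13 157 K 75 r_13_157 (1 - x + x ^ 2 + x ^ 4) ?_ ?_ 201568
    (421949 + 5626 * x + 75 * x ^ 2 + x ^ 3) ?_
  · push_cast; exact id_13_157_a x h
  · push_cast; exact id_13_157_b x h
  · push_cast; ring

end Primes

end Fermat.Agent.H1
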