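import Mathlib
import Fermat.Agent.H1Pid

/-! The rings of integers of `ℚ(ζ_p)` for `p = 7, 11, 13` are principal ideal domains. -/

set_option autoImplicit false

namespace Fermat.Agent.H1

open NumberField Polynomial InfinitePlace Nat Real cyclotomic IsCyclotomicExtension Ideal
  NumberField.Ideal RingOfIntegers UniqueFactorizationMonoid

lemma cubic_no_root : ∀ x : ZMod 3, ¬ (x ^ 3 - x - 1 = 0) := by decide

lemma cubic_irr : Irreducible ((X ^ 3 - X - 1 : ℤ[X]).map (Int.castRingHom (ZMod 3))) := by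
  have : Fact (Nat.Prime 3) := ⟨by norm_num⟩
  have hmap : (X ^ 3 - X - 1 : ℤ[X]).map (Int.castRingHom (ZMod 3)) =
      (X ^ 3 - X - 1 : (ZMod 3)[X]) := by simp
  rw [hmap]
  have hdeg : (X ^ 3 - X - 1 : (ZMod 3)[X]).natDegree = 3 := by compute_degree!
  refine irreducible_of_degree_le_three_of_not_isRoot ?_ ?_
  · rw [hdeg]; decide
  · intro x hx
    rw [IsRoot.def] at hx
    simp only [eval_sub, eval_pow, eval_X, eval_one] at hx
    exact cubic_no_root x hx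

lemma cubic_dvd : (X ^ 3 - X - 1 : ℤ[X]).map (Int.castRingHom (ZMod 3)) ∣
    cyclotomic 13 (ZMod 3) := by
  have : Fact (Nat.Prime 13) := ⟨by norm_num⟩
  have hmap : (X ^ 3 - X - 1 : ℤ[X]).map (Int.castRingHom (ZMod 3)) =
      (X ^ 3 - X - 1 : (ZMod 3)[X]) := by simp
  rw [hmap, cyclotomic_prime]
  have h3 : (3 : (ZMod 3)[X]) = 0 := by
    have : ((3 : ℕ) : (ZMod 3)[X]) = 0 := CharP.cast_eq_zero _ 3
    exact_mod_cast this
  simp only [Finset.sum_range_succ, Finset.sum_range_zero]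
  refine ⟨(-1) + (-1)*X^2 + (-1)*X^3 + (-2)*X^5 + (-1)*X^7 + (-2)*X^8 + (1)*X^9 + (-3)*X^10, ?_⟩
  linear_combination X ^ 13 * h3

lemma prime_13_3 (K : Type*) [Field K] [NumberField K] [IsCyclotomicExtension {13} ℚ K] :
    ∃ P ∈ primesOver (span {((3 : ℕ) : ℤ)}) (𝓞 K), Submodule.IsPrincipal P := by
  have : Fact (Nat.Prime 13) := ⟨by norm_num⟩
  have : Fact (Nat.Prime 3) := ⟨by norm_num⟩
  have h := zeta_geom 13 K
  set x := (zeta_spec 13 ℚ K).toInteger with hx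
  have hev : aeval ((zeta_spec 13 ℚ K).toInteger) (X ^ 3 - X - 1 : ℤ[X]) = x ^ 3 - x - 1 := by
    simp [hx]
  refine exists_principal 13 3 K (X ^ 3 - X - 1) cubic_irr ?_ cubic_dvd (1 + x - x ^ 3) ?_ ?_ 0 (-1) ?_
  · monicity!
  · push_cast; exact id_13_3_a x h
  · rw [hev]; exact ⟨-1, by ring⟩
  · rw [hev]; ring

local notation "M " K:70 => (4 / π) ^ nrComplexPlaces K *
  ((Module.finrank ℚ K)! / (Module.finrank ℚ K) ^ (Module.finrank ℚ K) * √|discr K|)

/-- the Minkowski bound -/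
lemma minkowski_eq (p : ℕ) [hp : Fact p.Prime] (K : Type*) [Field K] [NumberField K]
    [IsCyclotomicExtension {p} ℚ K] :
    M K =
    (4 / π) ^ ((p - 1) / 2) * ((p - 1)! / ((p - 1 : ℕ) : ℝ) ^ (p - 1) * √((p : ℝ) ^ (p - 2))) := by
  rw [IsCyclotomicExtension.Rat.discr_prime p K, IsCyclotomicExtension.finrank (n := p) K
    (irreducible_rat hp.out.pos), IsCyclotomicExtension.Rat.nrComplexPlaces_eq_totient_div_two p,
    totient_prime hp.out]
  congr 4
  push_cast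
  rw [abs_mul, abs_pow, abs_neg, abs_one, one_pow, one_mul, abs_of_nonneg (by positivity)]

lemma pid_of (p : ℕ) [hp : Fact p.Prime] (K : Type*) [Field K] [NumberField K]
    [IsCyclotomicExtension {p} ℚ K] (B : ℕ)
    (hB : (4 / π) ^ ((p - 1) / 2) *
      ((p - 1)! / ((p - 1 : ℕ) : ℝ) ^ (p - 1) * √((p : ℝ) ^ (p - 2))) < (B : ℝ) + 1)
    (h : ∀ q : ℕ, q.Prime → q ≠ p → q ^ orderOf (q : ZMod p) ≤ B →
      ∃ P ∈ primesOver (span {(q : ℤ)}) (𝓞 K), Submodule.IsPrincipal P) :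
    IsPrincipalIdealRing (𝓞 K) := by
  have hgal : IsGalois ℚ K := IsCyclotomicExtension.isGalois {p} ℚ K
  have hfl : ⌊(M K)⌋₊ ≤ B := by
    rw [← Nat.lt_add_one_iff]
    rw [Nat.floor_lt' (by positivity)]
    rw [minkowski_eq p K]
    exact_mod_cast hB
  refine isPrincipalIdealRing_of_isPrincipal_of_lt_or_isPrincipal_of_mem_primesOver_of_mem_Icc
    (fun q _ hq ↦ ?_)
  by_cases hqp : q = p
  · subst hqp
    have hz := zeta_spec q ℚ K
    refine ⟨span {hz.toInteger - 1}, ⟨?_, ?_⟩, Or.inr ⟨⟨_, rfl⟩⟩⟩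
    · exact (Ideal.span_singleton_prime hz.zeta_sub_one_prime'.ne_zero).mpr hz.zeta_sub_one_prime'
    · have : IsCyclotomicExtension {q ^ (0 + 1)} ℚ K := by simpa using ‹IsCyclotomicExtension {q} ℚ K›
      have hz' : IsPrimitiveRoot (zeta q ℚ K) (q ^ (0 + 1)) := by simpa using hz
      exact IsCyclotomicExtension.Rat.liesOver_span_zeta_sub_one q 0 hz'
  · by_cases hle : q ^ orderOf (q : ZMod p) ≤ B
    · obtain ⟨P, hP, hP2⟩ := h q hq hqp hle
      exact ⟨P, hP, Or.inr hP2⟩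
    · push_neg at hle
      have : Fact q.Prime := ⟨hq⟩
      obtain ⟨⟨P, hP1, hP2⟩⟩ := (span {(q : ℤ)}).nonempty_primesOver (S := 𝓞 K)
      refine ⟨P, ⟨hP1, hP2⟩, Or.inl ?_⟩
      rw [IsCyclotomicExtension.Rat.inertiaDeg_eq_of_not_dvd q K P (m := p)]
      · exact lt_of_le_of_lt hfl hle
      · intro hd
        exact hqp ((Nat.prime_dvd_prime_iff_eq hq hp.out).mp hd)

end Fermat.Agent.H1
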