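import Mathlib
import Fermat.Agent.H1PidMain

/-! The rings of integers of `ℚ(ζ_p)` for `p = 7, 11, 13` are principal ideal domains. -/

set_option autoImplicit false

namespace Fermat.Agent.H1

lemma dec7 : ∀ q : ℕ, q < 5 → ∀ f : ℕ, f < 3 → 0 < f → q ^ f % 7 = 1 → q ^ f ≤ 4 → q = 1 := by
  decide

lemma dec11 : ∀ q : ℕ, q < 60 → ∀ f : ℕ, f < 6 → 0 < f → q ^ f % 11 = 1 → q ^ f ≤ 59 →
    ([1, 12, 23, 34, 45, 56] : List ℕ).contains q = true := by decide +kernel

lemma dec13 : ∀ q : ℕ, q < 308 → ∀ f : ℕ, f < 9 → 0 < f → q ^ f % 13 = 1 → q ^ f ≤ 307 →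
    ([1, 3, 12, 14, 27, 40, 53, 66, 79, 92, 105, 118, 131, 144, 157, 170, 183, 196, 209, 222,
      235, 248, 261, 274, 287, 300] : List ℕ).contains q = true := by decide +kernel

open NumberField Polynomial InfinitePlace Nat Real cyclotomic IsCyclotomicExtension Ideal
  NumberField.Ideal RingOfIntegers UniqueFactorizationMonoid

lemma order_facts {p q : ℕ} [hp : Fact p.Prime] (hq : q.Prime) (hqp : q ≠ p) {B F : ℕ}
    (hBF : B < 2 ^ F) (h : q ^ orderOf (q : ZMod p) ≤ B) :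
    q < B + 1 ∧ orderOf (q : ZMod p) < F ∧ 0 < orderOf (q : ZMod p) ∧
      q ^ orderOf (q : ZMod p) % p = 1 := by
  have hu : IsUnit (q : ZMod p) := by
    rw [ZMod.isUnit_iff_coprime]
    exact (Nat.coprime_primes hq hp.out).mpr hqp
  obtain ⟨u, hu⟩ := hu
  have hpos : 0 < orderOf (q : ZMod p) := by
    rw [← hu, orderOf_units]
    exact orderOf_pos u
  refine ⟨?_, ?_, hpos, ?_⟩
  · exact Nat.lt_succ_of_le ((Nat.le_self_pow hpos.ne' q).trans h)
  · by_contra hc
    push Not at hc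
    have h1 : 2 ^ F ≤ 2 ^ orderOf (q : ZMod p) := Nat.pow_le_pow_right (by norm_num) hc
    have h2 : 2 ^ orderOf (q : ZMod p) ≤ q ^ orderOf (q : ZMod p) :=
      Nat.pow_le_pow_left hq.two_le _
    omega
  · have := pow_orderOf_eq_one (q : ZMod p)
    have h2 : ((q ^ orderOf (q : ZMod p) : ℕ) : ZMod p) = ((1 : ℕ) : ZMod p) := by
      push_cast; exact this
    rw [ZMod.natCast_eq_natCast_iff'] at h2
    rw [h2]
    exact Nat.mod_eq_of_lt hp.out.one_lt

theorem seven_pid (K : Type*) [Field K] [NumberField K] [IsCyclotomicExtension {7} ℚ K] :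
    IsPrincipalIdealRing (𝓞 K) := by
  have : Fact (Nat.Prime 7) := ⟨by norm_num⟩
  refine pid_of 7 K 4 ?_ ?_
  · have h1 : √(((7 : ℕ) : ℝ) ^ (7 - 2)) ≤ 130 :=
      Real.sqrt_le_iff.mpr ⟨by norm_num, by norm_num⟩
    have h2 : (4 / π) ^ ((7 - 1) / 2) ≤ (4 / 3.14 : ℝ) ^ 3 := by
      rw [show (7 - 1) / 2 = 3 from rfl]
      gcongr
      exact pi_gt_d2.le
    calc _ ≤ (4 / 3.14 : ℝ) ^ 3 * ((7 - 1)! / ((7 - 1 : ℕ) : ℝ) ^ (7 - 1) * 130) := by
            gcongr
      _ < _ := by norm_num [Nat.factorial]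
  · intro q hq hqp hle
    obtain ⟨h1, h2, h3, h4⟩ := order_facts (B := 4) (F := 3) hq hqp (by norm_num) hle
    have := dec7 q h1 _ h2 h3 h4 hle
    exact absurd this hq.one_lt.ne'

theorem eleven_pid (K : Type*) [Field K] [NumberField K] [IsCyclotomicExtension {11} ℚ K] :
    IsPrincipalIdealRing (𝓞 K) := by
  have : Fact (Nat.Prime 11) := ⟨by norm_num⟩
  refine pid_of 11 K 59 ?_ ?_
  · have h1 : √(((11 : ℕ) : ℝ) ^ (11 - 2)) ≤ 48560 :=
      Real.sqrt_le_iff.mpr ⟨by norm_num, by norm_num⟩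
    have h2 : (4 / π) ^ ((11 - 1) / 2) ≤ (4 / 3.14 : ℝ) ^ 5 := by
      rw [show (11 - 1) / 2 = 5 from rfl]
      gcongr
      exact pi_gt_d2.le
    calc _ ≤ (4 / 3.14 : ℝ) ^ 5 * ((11 - 1)! / ((11 - 1 : ℕ) : ℝ) ^ (11 - 1) * 48560) := by
            gcongr
      _ < _ := by norm_num [Nat.factorial]
  · intro q hq hqp hle
    obtain ⟨h1, h2, h3, h4⟩ := order_facts (B := 59) (F := 6) hq hqp (by norm_num) hle
    have hmem := dec11 q h1 _ h2 h3 h4 hle
    simp only [List.contains_iff_mem, List.mem_cons, List.not_mem_nil, or_false] at hmem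
    rcases hmem with rfl | rfl | rfl | rfl | rfl | rfl
    · exact absurd hq (by norm_num)
    · exact absurd hq (by norm_num)
    · exact prime_11_23 K
    · exact absurd hq (by norm_num)
    · exact absurd hq (by norm_num)
    · exact absurd hq (by norm_num)

theorem thirteen_pid (K : Type*) [Field K] [NumberField K] [IsCyclotomicExtension {13} ℚ K] :
    IsPrincipalIdealRing (𝓞 K) := by
  have : Fact (Nat.Prime 13) := ⟨by norm_num⟩
  refine pid_of 13 K 307 ?_ ?_
  · have h1 : √(((13 : ℕ) : ℝ) ^ (13 - 2)) ≤ 1338720 :=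
      Real.sqrt_le_iff.mpr ⟨by norm_num, by norm_num⟩
    have h2 : (4 / π) ^ ((13 - 1) / 2) ≤ (4 / 3.14 : ℝ) ^ 6 := by
      rw [show (13 - 1) / 2 = 6 from rfl]
      gcongr
      exact pi_gt_d2.le
    calc _ ≤ (4 / 3.14 : ℝ) ^ 6 * ((13 - 1)! / ((13 - 1 : ℕ) : ℝ) ^ (13 - 1) * 1338720) := by
            gcongr
      _ < _ := by norm_num [Nat.factorial]
  · intro q hq hqp hle
    obtain ⟨h1, h2, h3, h4⟩ := order_facts (B := 307) (F := 9) hq hqp (by norm_num) hle
    have hmem := dec13 q h1 _ h2 h3 h4 hle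
    simp only [List.contains_iff_mem, List.mem_cons, List.not_mem_nil, or_false] at hmem
    rcases hmem with rfl | rfl | rfl | rfl | rfl | rfl | rfl | rfl | rfl | rfl | rfl | rfl | rfl |
      rfl | rfl | rfl | rfl | rfl | rfl | rfl | rfl | rfl | rfl | rfl | rfl | rfl
    all_goals first
      | exact prime_13_3 K
      | exact prime_13_53 K
      | exact prime_13_79 K
      | exact prime_13_131 K
      | exact prime_13_157 K
      | exact absurd hq (by norm_num)

/-- The ring of integers of `ℚ(ζ_p)` is a PID for `p ∈ {5, 7, 11, 13}`. -/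
theorem cyclotomic_pid {p : ℕ} (hp : p = 5 ∨ p = 7 ∨ p = 11 ∨ p = 13) (K : Type*) [Field K]
    [NumberField K] [IsCyclotomicExtension {p} ℚ K] : IsPrincipalIdealRing (𝓞 K) := by
  rcases hp with rfl | rfl | rfl | rfl
  · exact IsCyclotomicExtension.Rat.five_pid K
  · exact seven_pid K
  · exact eleven_pid K
  · exact thirteen_pid K

end Fermat.Agent.H1
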