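/-
Letter `O` of the level lowering at primes different from `p`: strictly ordinary type at `p`,
level divisible by `p`, non-trivial at `σ₀`.
-/
import Fermat.Agent.H20InO
import Fermat.Agent.H30CaseP
import Fermat.Agent.H57S59Fin
import Fermat.Agent.S33

set_option autoImplicit false
set_option linter.style.haveILetI false
set_option linter.unusedSectionVars false

noncomputable section

open IsLocalRing CuspForm GaloisRep
open Fermat.Agent.H53 (GQ M2 toMat mapMat PData)
open Fermat.Agent.H87.Glue (resZ)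
open Fermat.Agent.H75P (MarkElts)

namespace Fermat.Agent.H20.C

/-- **Strict ordinarity of a residual representation** which is ordinary and non-trivial at
`σ₀`. -/
theorem isStrictOrdinaryAt_residual {p : ℕ} [Fact p.Prime] {k : Type} [Field k] [Finite k]
    (ρbar : ResidualGaloisRep k) (b : Module.Basis (Fin 2) k ρbar.V)
    (hdet : (GaloisRepAdic.ofResidualGaloisRep ρbar).DetIsCyclotomic p)
    (hord : (GaloisRepAdic.ofResidualGaloisRep ρbar).IsOrdinaryAt p)
    {φ σ₀ : GQ} (hm : MarkElts p φ σ₀) (hne : toMat ρbar.ρ b σ₀ ≠ 1) :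
    (GaloisRepAdic.ofResidualGaloisRep ρbar).IsStrictOrdinaryAt p := by
  haveI : Finite (ResidueField k) := Finite.of_surjective (residue k) residue_surjective
  haveI : IsHausdorff (maximalIdeal k) k := by
    rw [maximalIdeal_eq_bot]
    infer_instance
  refine H30.isStrictOrdinaryAt_of_sigma hdet hord
    (show Module.Basis (Fin 2) k (GaloisRepAdic.ofResidualGaloisRep ρbar).V from b) hm ?_
  intro h
  apply hne
  ext i j
  have h1 := congrFun (congrFun h i) j
  rw [H53.mapMat_apply] at h1
  have hinj : Function.Injective (residue k) := (residue k).injective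
  apply hinj
  refine h1.trans ?_
  rcases eq_or_ne i j with h2 | h2
  · rw [h2, Matrix.one_apply_eq, Matrix.one_apply_eq, map_one]
  · rw [Matrix.one_apply_ne h2, Matrix.one_apply_ne h2, map_zero]

/-- the residual representation of a flat representation is flat -/
theorem ofResidual_isFlatAt {A : Type} [CommRing A] [IsLocalRing A] [Finite (ResidueField A)]
    {ρ : GaloisRepAdic A} {ρbar : ResidualGaloisRep (ResidueField A)}
    (h : ρ.residual.IsEquiv ρbar) {p : ℕ} [Fact p.Prime] (hs : ρ.IsFlatAt p) :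
    (GaloisRepAdic.ofResidualGaloisRep ρbar).IsFlatAt p := by
  haveI hloc : IsLocalHom (residue A) := inferInstance
  haveI hfin : Finite (ResidueField (ResidueField A)) :=
    Finite.of_surjective (residue (ResidueField A)) residue_surjective
  obtain ⟨b₀⟩ := H53.exists_basis ρ
  let bb : Module.Basis (Fin 2) (ResidueField A) ρbar.V :=
    Module.finBasisOfFinrankEq _ ρbar.V ρbar.finrank_eq
  rw [H53.residual_isEquiv_iff_conj _ _ (H53.resBasis ρ b₀) bb] at h
  obtain ⟨u, hu, huc⟩ := h
  have h0 := H87.BC.isFlatAt_baseChangeAlong (residue A) hloc hfin hs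
  rw [H53.isFlatAt_iff_flatM_of_finite p _ (H53.bcBasis (residue A) hloc ρ b₀),
    H53.toMat_bcBasis] at h0
  rw [H53.isFlatAt_iff_flatM_of_finite p _
    (show Module.Basis (Fin 2) (ResidueField A) (GaloisRepAdic.ofResidualGaloisRep ρbar).V
      from bb)]
  refine h0.conj hu fun σ => ?_
  have h2 := huc σ
  rw [H53.toMat_resBasis] at h2
  exact h2

variable {W : WeierstrassCurve ℤ} (hΔ : W.Δ ≠ 0) {p : ℕ} [hp : Fact p.Prime]
  {O : Type} [CommRing O] [IsDomain O] [IsDiscreteValuationRing O]
  [IsAdicComplete (maximalIdeal O) O] [CharZero O] [Finite (ResidueField O)]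
  [Algebra (ZMod p) (ResidueField O)]
  (b : Module.Basis (Fin 2) (ResidueField O) ((resZ W hΔ p).baseChange (ResidueField O)).V)

/-- **Letter `O`** for an arbitrary curve: the residual representation is ordinary at `p` and
non-trivial at `σ₀`. The strictly ordinary type has no marks and contains the representations over
the Hecke rings of all levels exactly divisible by `p`. -/
theorem letterO_of_ordinary (hpO : (p : O) ∈ maximalIdeal O) (hp2 : p ≠ 2)
    (hord : (GaloisRepAdic.ofResidualGaloisRep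
      ((resZ W hΔ p).baseChange (ResidueField O))).IsOrdinaryAt p)
    {φ σ₀ : GQ} (hm : MarkElts p φ σ₀) (hne : (resZ W hΔ p).ρ σ₀ ≠ 1) {inc : Prop} (hinc : inc) :
    ∃ pd : PData p ((resZ W hΔ p).baseChange (ResidueField O)) b, IsEmpty pd.ε ∧
      ∀ {L : ℕ} [NeZero L] {S : Finset ℕ}, p ∈ S → (∀ q : ℕ, q.Prime → q ∣ L → q ∈ S) →
        ¬ p ^ 2 ∣ L → (p ∣ L ↔ inc) →
        ∀ {θ : heckeAlgebra L 2 (↑S : Set ℕ) →+* ResidueField O}
          (H : HeckeGaloisRepDatum L (↑S : Set ℕ) O θ (heckeLocal L (↑S : Set ℕ) O θ)),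
          H.ρ.residual.IsEquiv (((resZ W hΔ p).baseChange (ResidueField O)).baseChangeAlong
            (ResidueField.map (algebraMap O (heckeLocal L (↑S : Set ℕ) O θ)))) →
            pd.𝒟p H.ρ := by
  have hne' := InO.toMat_ne_one _ b hne
  refine ⟨PData.strict hp2 _ b (fun {_} => H81.statementO p hp2)
    (H45.detIsCyclotomic_resZ_baseChange W hΔ p (ResidueField O))
    (isStrictOrdinaryAt_residual _ b
      (H45.detIsCyclotomic_resZ_baseChange W hΔ p (ResidueField O)) hord hm hne'),
    inferInstanceAs (IsEmpty Empty), ?_⟩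
  intro L _ S hpS hLS hpL2 hi θ H hres
  haveI : Finite (ResidueField (heckeLocal L (↑S : Set ℕ) O θ)) :=
    Finite.of_surjective (ResidueField.map (algebraMap O (heckeLocal L (↑S : Set ℕ) O θ)))
      (fun x => by
        obtain ⟨y, hy⟩ := H.residue_surjective x
        exact ⟨residue O y, by rw [ResidueField.map_residue]; exact hy⟩)
  exact H30.strictOrdinary_datum Fermat.Agent.S33.result hp2 hpO (hi.mpr hinc) hpL2 hLS H _ hres
    hord b hm hne'

/-- **Letter `O`**: multiplicative reduction at `p`, non-trivial at `σ₀`. -/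
theorem letterO (hpO : (p : O) ∈ maximalIdeal O) (hp2 : p ≠ 2) (hss : W.IsSemistableModel)
    (hbad : (p : ℤ) ∣ W.Δ)
    {φ σ₀ : GQ} (hm : MarkElts p φ σ₀) (hne : (resZ W hΔ p).ρ σ₀ ≠ 1) {inc : Prop} (hinc : inc) :
    ∃ pd : PData p ((resZ W hΔ p).baseChange (ResidueField O)) b, IsEmpty pd.ε ∧
      ∀ {L : ℕ} [NeZero L] {S : Finset ℕ}, p ∈ S → (∀ q : ℕ, q.Prime → q ∣ L → q ∈ S) →
        ¬ p ^ 2 ∣ L → (p ∣ L ↔ inc) →
        ∀ {θ : heckeAlgebra L 2 (↑S : Set ℕ) →+* ResidueField O}
          (H : HeckeGaloisRepDatum L (↑S : Set ℕ) O θ (heckeLocal L (↑S : Set ℕ) O θ)),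
          H.ρ.residual.IsEquiv (((resZ W hΔ p).baseChange (ResidueField O)).baseChangeAlong
            (ResidueField.map (algebraMap O (heckeLocal L (↑S : Set ℕ) O θ)))) →
            pd.𝒟p H.ρ :=
  letterO_of_ordinary hΔ b hpO hp2
    (H85.InA.residual_isStrictOrdinaryAt hΔ hpO hss hbad).isOrdinaryAt hm hne hinc

/-- **Flatness**: if the residual representation is ordinary at `p` and non-trivial at `σ₀`, the
reduction at `p` is bad. -/
theorem dvd_disc_of_sigma (hpO : (p : O) ∈ maximalIdeal O) (hp2 : p ≠ 2)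
    (b : Module.Basis (Fin 2) (ResidueField O) ((resZ W hΔ p).baseChange (ResidueField O)).V)
    (hord : (GaloisRepAdic.ofResidualGaloisRep
      ((resZ W hΔ p).baseChange (ResidueField O))).IsOrdinaryAt p)
    {φ σ₀ : GQ} (hm : MarkElts p φ σ₀) (hne : (resZ W hΔ p).ρ σ₀ ≠ 1) :
    (p : ℤ) ∣ W.Δ := by
  by_contra hgood
  have hflat : (GaloisRepAdic.ofResidualGaloisRep
      ((resZ W hΔ p).baseChange (ResidueField O))).IsFlatAt p :=
    ofResidual_isFlatAt (H85.InA.residual_tO_baseChange hΔ hpO)
      (H69.Pt.isFlatAt_tO W hΔ hpO hp2 hgood)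
  exact InO.toMat_ne_one _ b hne (H30.CaseP.sigma_eq_one_of_flat _ b
    (H45.detIsCyclotomic_resZ_baseChange W hΔ p (ResidueField O)) hord hflat hm)

end Fermat.Agent.H20.C

end
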