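import Mathlib
/-!
# Index of linear maps with finite kernel and cokernel (pure linear algebra)
-/
set_option autoImplicit false
open Module

namespace Fermat.Agent.H20T

variable {K A B C A' B' : Type*} [Field K] [AddCommGroup A] [Module K A] [AddCommGroup B]
  [Module K B] [AddCommGroup C] [Module K C] [AddCommGroup A'] [Module K A'] [AddCommGroup B']
  [Module K B']

/-- finite kernel and cokernel -/
structure Fred (f : A →ₗ[K] B) : Prop where
  ker : Module.Finite K (LinearMap.ker f)
  coker : Module.Finite K (B ⧸ LinearMap.range f)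

/-- the index -/
noncomputable def ind (f : A →ₗ[K] B) : ℤ :=
  (finrank K (LinearMap.ker f) : ℤ) - finrank K (B ⧸ LinearMap.range f)

/-- dimension of quotients in a chain `S ≤ T ≤ B` -/
theorem finrank_quot_chain {S T : Submodule K B} (h : S ≤ T) [Module.Finite K (B ⧸ S)] :
    finrank K (B ⧸ S) = finrank K (B ⧸ T) + finrank K (T.map S.mkQ) := by
  have h1 := LinearMap.finrank_range_add_finrank_ker (Submodule.factor h)
  have h2 : LinearMap.range (Submodule.factor h) = ⊤ :=
    LinearMap.range_eq_top.mpr (Submodule.factor_surjective h)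
  have h3 : LinearMap.ker (Submodule.factor h) = T.map S.mkQ := by
    rw [Submodule.factor, Submodule.ker_mapQ, Submodule.comap_id]
  rw [h2, h3, finrank_top] at h1
  exact h1.symm

theorem finite_quot_of_le {S T : Submodule K B} (h : S ≤ T) [Module.Finite K (B ⧸ S)] :
    Module.Finite K (B ⧸ T) :=
  Module.Finite.of_surjective (Submodule.factor h) (Submodule.factor_surjective h)

/-- kernel of a composite -/
theorem ker_comp_dim {f : A →ₗ[K] B} {g : B →ₗ[K] C} (hf : Module.Finite K (LinearMap.ker f))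
    (hg : Module.Finite K (LinearMap.ker g)) :
    Module.Finite K (LinearMap.ker (g ∘ₗ f)) ∧
      finrank K (LinearMap.ker (g ∘ₗ f)) = finrank K (LinearMap.ker f) +
        finrank K (LinearMap.ker g ⊓ LinearMap.range f : Submodule K B) := by
  let r : LinearMap.ker (g ∘ₗ f) →ₗ[K] B := f ∘ₗ (LinearMap.ker (g ∘ₗ f)).subtype
  have hr : LinearMap.range r = LinearMap.ker g ⊓ LinearMap.range f := by
    ext b
    constructor
    · rintro ⟨⟨a, ha⟩, rfl⟩
      exact ⟨ha, ⟨a, rfl⟩⟩
    · rintro ⟨h1, ⟨a, rfl⟩⟩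
      exact ⟨⟨a, h1⟩, rfl⟩
  have hk : (LinearMap.ker r).map (LinearMap.ker (g ∘ₗ f)).subtype = LinearMap.ker f := by
    ext a
    constructor
    · rintro ⟨⟨a, ha⟩, h1, rfl⟩
      exact h1
    · intro ha
      have ha' : f a = 0 := ha
      exact ⟨⟨a, by
        rw [LinearMap.mem_ker, LinearMap.comp_apply, ha', map_zero]⟩, ha, rfl⟩
  let e : LinearMap.ker r ≃ₗ[K] LinearMap.ker f :=
    (Submodule.equivMapOfInjective _ (Submodule.subtype_injective _) _).trans
      (LinearEquiv.ofEq _ _ hk)
  have h1 : Module.Finite K (LinearMap.ker r) := Module.Finite.equiv e.symm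
  have h2 : Module.Finite K (LinearMap.range r) := by
    rw [hr]
    exact Submodule.finiteDimensional_of_le (S₂ := LinearMap.ker g) inf_le_left
  have h5 : Module.Finite K (LinearMap.ker (g ∘ₗ f) ⧸ LinearMap.ker r) :=
    Module.Finite.equiv r.quotKerEquivRange.symm
  have h3 : Module.Finite K (LinearMap.ker (g ∘ₗ f)) :=
    Module.Finite.of_submodule_quotient (N := LinearMap.ker r)
  refine ⟨h3, ?_⟩
  have h4 := LinearMap.finrank_range_add_finrank_ker r
  rw [hr, e.finrank_eq] at h4
  omega

/-- cokernel of a composite -/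
theorem coker_comp_dim {f : A →ₗ[K] B} {g : B →ₗ[K] C}
    (hf : Module.Finite K (B ⧸ LinearMap.range f))
    (hg : Module.Finite K (C ⧸ LinearMap.range g)) :
    Module.Finite K (C ⧸ LinearMap.range (g ∘ₗ f)) ∧
      finrank K (C ⧸ LinearMap.range (g ∘ₗ f)) = finrank K (C ⧸ LinearMap.range g) +
        finrank K (B ⧸ (LinearMap.range f ⊔ LinearMap.ker g)) := by
  let r : B →ₗ[K] C ⧸ LinearMap.range (g ∘ₗ f) := (LinearMap.range (g ∘ₗ f)).mkQ ∘ₗ g
  have hk : LinearMap.ker r = LinearMap.range f ⊔ LinearMap.ker g := by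
    ext b
    rw [LinearMap.mem_ker, LinearMap.comp_apply, Submodule.mkQ_apply,
      Submodule.Quotient.mk_eq_zero, Submodule.mem_sup]
    constructor
    · rintro ⟨a, ha⟩
      refine ⟨f a, ⟨a, rfl⟩, b - f a, ?_, by abel⟩
      rw [LinearMap.mem_ker, map_sub, ← ha]
      simp
    · rintro ⟨_, ⟨a, rfl⟩, c, hc, rfl⟩
      refine ⟨a, ?_⟩
      rw [LinearMap.comp_apply, map_add, LinearMap.mem_ker.mp hc, add_zero]
  have hle : LinearMap.range (g ∘ₗ f) ≤ LinearMap.range g := LinearMap.range_comp_le_range f g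
  have hr : LinearMap.range r = (LinearMap.range g).map (LinearMap.range (g ∘ₗ f)).mkQ :=
    LinearMap.range_comp g _
  have h0 : Module.Finite K (B ⧸ (LinearMap.range f ⊔ LinearMap.ker g)) :=
    finite_quot_of_le (S := LinearMap.range f) le_sup_left
  let e : (B ⧸ (LinearMap.range f ⊔ LinearMap.ker g)) ≃ₗ[K] LinearMap.range r :=
    (Submodule.quotEquivOfEq _ _ hk.symm).trans r.quotKerEquivRange
  have h1 : Module.Finite K (LinearMap.range r) := Module.Finite.equiv e
  have h2 : Module.Finite K (C ⧸ LinearMap.range (g ∘ₗ f)) := by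
    have h3 : Module.Finite K ((C ⧸ LinearMap.range (g ∘ₗ f)) ⧸
        (LinearMap.range g).map (LinearMap.range (g ∘ₗ f)).mkQ) :=
      Module.Finite.equiv (Submodule.quotientQuotientEquivQuotient _ _ hle).symm
    rw [← hr] at h3
    exact Module.Finite.of_submodule_quotient (N := LinearMap.range r)
  refine ⟨h2, ?_⟩
  rw [finrank_quot_chain hle, ← hr, e.finrank_eq]

theorem Fred.comp {f : A →ₗ[K] B} {g : B →ₗ[K] C} (hf : Fred f) (hg : Fred g) :
    Fred (g ∘ₗ f) :=
  ⟨(ker_comp_dim hf.ker hg.ker).1, (coker_comp_dim hf.coker hg.coker).1⟩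

/-- additivity of the index -/
theorem ind_comp {f : A →ₗ[K] B} {g : B →ₗ[K] C} (hf : Fred f) (hg : Fred g) :
    ind (g ∘ₗ f) = ind f + ind g := by
  have h1 := (ker_comp_dim hf.ker hg.ker).2
  have h2 := (coker_comp_dim hf.coker hg.coker).2
  have := hf.coker
  have := hg.ker
  have h3 := finrank_quot_chain (S := LinearMap.range f)
    (T := LinearMap.range f ⊔ LinearMap.ker g) le_sup_left
  -- `(range f ⊔ ker g) / range f ≃ ker g / (ker g ⊓ range f)`
  let r : LinearMap.ker g →ₗ[K] B ⧸ LinearMap.range f :=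
    (LinearMap.range f).mkQ ∘ₗ (LinearMap.ker g).subtype
  have h4 := LinearMap.finrank_range_add_finrank_ker r
  have hr : LinearMap.range r = (LinearMap.range f ⊔ LinearMap.ker g).map
      (LinearMap.range f).mkQ := by
    rw [LinearMap.range_comp, Submodule.range_subtype, Submodule.map_sup,
      Submodule.mkQ_map_self, bot_sup_eq]
  have hk : (LinearMap.ker r).map (LinearMap.ker g).subtype =
      LinearMap.ker g ⊓ LinearMap.range f := by
    ext b
    constructor
    · rintro ⟨⟨b, hb⟩, h5, rfl⟩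
      refine ⟨hb, ?_⟩
      exact (Submodule.Quotient.mk_eq_zero _).mp h5
    · rintro ⟨h5, h6⟩
      exact ⟨⟨b, h5⟩, (Submodule.Quotient.mk_eq_zero _).mpr h6, rfl⟩
  let e : LinearMap.ker r ≃ₗ[K] (LinearMap.ker g ⊓ LinearMap.range f : Submodule K B) :=
    (Submodule.equivMapOfInjective _ (Submodule.subtype_injective _) _).trans
      (LinearEquiv.ofEq _ _ hk)
  rw [hr, e.finrank_eq] at h4
  unfold ind
  omega

theorem fred_of_injective {f : A →ₗ[K] B} (hf : Function.Injective f)
    (h : Module.Finite K (B ⧸ LinearMap.range f)) : Fred f :=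
  ⟨by rw [LinearMap.ker_eq_bot.mpr hf]; infer_instance, h⟩

theorem ind_of_injective {f : A →ₗ[K] B} (hf : Function.Injective f) :
    ind f = - (finrank K (B ⧸ LinearMap.range f) : ℤ) := by
  have : finrank K (LinearMap.ker f) = 0 := by
    rw [LinearMap.ker_eq_bot.mpr hf, finrank_bot]
  rw [ind, this]; simp

/-- cokernel of a product map -/
noncomputable def cokerProdEquiv (f : A →ₗ[K] B) (g : A' →ₗ[K] B') :
    ((B × B') ⧸ LinearMap.range (f.prodMap g)) ≃ₗ[K]
      (B ⧸ LinearMap.range f) × (B' ⧸ LinearMap.range g) := by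
  let r : B × B' →ₗ[K] (B ⧸ LinearMap.range f) × (B' ⧸ LinearMap.range g) :=
    (LinearMap.range f).mkQ.prodMap (LinearMap.range g).mkQ
  have hk : LinearMap.ker r = LinearMap.range (f.prodMap g) := by
    rw [LinearMap.ker_prodMap, Submodule.ker_mkQ, Submodule.ker_mkQ, LinearMap.range_prodMap]
  have hs : Function.Surjective r :=
    Function.Surjective.prodMap (Submodule.mkQ_surjective _) (Submodule.mkQ_surjective _)
  exact (Submodule.quotEquivOfEq _ _ hk.symm).trans (r.quotKerEquivOfSurjective hs)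

/-- The index of `P × Q → N`. -/
theorem ind_coprod {P Q N : Type*} [AddCommGroup P] [Module K P] [AddCommGroup Q] [Module K Q]
    [AddCommGroup N] [Module K N] {a : P →ₗ[K] N} {b : Q →ₗ[K] N} (ha : Function.Injective a)
    (hb : Function.Injective b)
    (h1 : Module.Finite K (LinearMap.range a ⊓ LinearMap.range b : Submodule K N))
    (h2 : Module.Finite K (N ⧸ (LinearMap.range a ⊔ LinearMap.range b))) :
    Fred (a.coprod b) ∧ ind (a.coprod b) =
      (finrank K (LinearMap.range a ⊓ LinearMap.range b : Submodule K N) : ℤ) -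
        finrank K (N ⧸ (LinearMap.range a ⊔ LinearMap.range b)) := by
  have hrange : LinearMap.range (a.coprod b) = LinearMap.range a ⊔ LinearMap.range b :=
    LinearMap.range_coprod a b
  let r : LinearMap.ker (a.coprod b) →ₗ[K] N :=
    a ∘ₗ (LinearMap.fst K P Q) ∘ₗ (LinearMap.ker (a.coprod b)).subtype
  have hrinj : Function.Injective r := by
    rintro ⟨⟨p, q⟩, hx⟩ ⟨⟨p', q'⟩, hx'⟩ h
    have h3 : p = p' := ha h
    subst h3
    rw [LinearMap.mem_ker, LinearMap.coprod_apply] at hx hx'
    have h4 : b q = b q' := by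
      have := hx.trans hx'.symm
      simpa using this
    have h5 : q = q' := hb h4
    subst h5
    rfl
  have hr : LinearMap.range r = LinearMap.range a ⊓ LinearMap.range b := by
    ext n
    constructor
    · rintro ⟨⟨⟨p, q⟩, hx⟩, rfl⟩
      rw [LinearMap.mem_ker, LinearMap.coprod_apply] at hx
      refine ⟨⟨p, rfl⟩, ⟨-q, ?_⟩⟩
      rw [map_neg]
      exact (eq_neg_of_add_eq_zero_left hx).symm
    · rintro ⟨⟨p, rfl⟩, ⟨q, hq⟩⟩
      refine ⟨⟨⟨p, -q⟩, ?_⟩, rfl⟩
      rw [LinearMap.mem_ker, LinearMap.coprod_apply, map_neg, hq]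
      simp
  let e : LinearMap.ker (a.coprod b) ≃ₗ[K]
      (LinearMap.range a ⊓ LinearMap.range b : Submodule K N) :=
    (LinearEquiv.ofInjective r hrinj).trans (LinearEquiv.ofEq _ _ hr)
  refine ⟨⟨Module.Finite.equiv e.symm, by rw [hrange]; exact h2⟩, ?_⟩
  rw [ind, e.finrank_eq, hrange]

end Fermat.Agent.H20T
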