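import Mathlib

/-!
# S25-F1: geometric facts over a field

* `isProper_of_surjective`
* `geometricallyConnected_of_surjective`
* `smooth_of_cover`
* `isSeparated_of_cover`, `isSeparated_of_kPoints`
* `surjective_of_closedPoints`, `surjective_of_kPoints`
-/

set_option autoImplicit false
universe u
open CategoryTheory Limits AlgebraicGeometry MorphismProperty

namespace Fermat.Agent.H74.F1

section General

/-- If `f : Y ⟶ P` is surjective and `Y` is universally closed over `S`, with `P` separated and
locally of finite type, then `P` is proper over `S`. -/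
theorem isProper_of_surjective {Y P S : Scheme.{u}} (f : Y ⟶ P) (p : P ⟶ S) [Surjective f]
    [UniversallyClosed (f ≫ p)] [IsSeparated p] [LocallyOfFiniteType p] : IsProper p := by
  have : UniversallyClosed p := UniversallyClosed.of_comp_surjective f p
  exact {}

theorem quasiCompact_of_surjective {Y P S : Scheme.{u}} (f : Y ⟶ P) (p : P ⟶ S) [Surjective f]
    [UniversallyClosed (f ≫ p)] : QuasiCompact p := by
  have : UniversallyClosed p := UniversallyClosed.of_comp_surjective f p
  infer_instance

theorem geometricallyConnected_of_surjective {Y P S : Scheme.{u}} (f : Y ⟶ P) (p : P ⟶ S)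
    [Surjective f] [GeometricallyConnected (f ≫ p)] : GeometricallyConnected p := by
  refine ⟨fun K _ y Z fst snd h => ?_⟩
  have h' := (IsPullback.of_hasPullback fst f).flip.paste_vert h
  have h1 : ConnectedSpace (pullback fst f :) :=
    GeometricallyConnected.geometrically_connectedSpace (f := f ≫ p) y _ _ h'
  exact (pullback.fst fst f).surjective.connectedSpace (pullback.fst fst f).continuous

/-- the open cover determined by a jointly surjective family of open immersions -/
noncomputable def mkCover {P : Scheme.{u}} {ι : Type*} (X : ι → Scheme.{u})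
    (j : ∀ i, X i ⟶ P) [∀ i, IsOpenImmersion (j i)] (hj : ∀ y : P, ∃ i, y ∈ Set.range (j i).base) :
    P.OpenCover :=
    { I₀ := P
      X := fun y => X (hj y).choose
      f := fun y => j (hj y).choose
      mem₀ := by
        rw [Scheme.presieve₀_mem_precoverage_iff]
        exact ⟨fun y => ⟨y, (hj y).choose_spec⟩, inferInstance⟩ }

set_option backward.isDefEq.respectTransparency.types false in
theorem smooth_of_cover {P S : Scheme.{u}} (p : P ⟶ S) {ι : Type*} (X : ι → Scheme.{u})
    (j : ∀ i, X i ⟶ P) [∀ i, IsOpenImmersion (j i)] (hj : ∀ y : P, ∃ i, y ∈ Set.range (j i).base)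
    (h : ∀ i, Smooth (j i ≫ p)) : Smooth p :=
  (IsZariskiLocalAtSource.iff_of_openCover (P := @Smooth.{u}) (mkCover X j hj)).mpr fun _ => h _

set_option backward.isDefEq.respectTransparency.types false in
theorem locallyOfFiniteType_of_cover {P S : Scheme.{u}} (p : P ⟶ S) {ι : Type*} (X : ι → Scheme.{u})
    (j : ∀ i, X i ⟶ P) [∀ i, IsOpenImmersion (j i)] (hj : ∀ y : P, ∃ i, y ∈ Set.range (j i).base)
    (h : ∀ i, LocallyOfFiniteType (j i ≫ p)) : LocallyOfFiniteType p :=
  (IsZariskiLocalAtSource.iff_of_openCover (P := @LocallyOfFiniteType.{u})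
    (mkCover X j hj)).mpr fun _ => h _

set_option backward.isDefEq.respectTransparency.types false in
theorem locallyOfFinitePresentation_of_cover {P S : Scheme.{u}} (p : P ⟶ S) {ι : Type*}
    (X : ι → Scheme.{u})
    (j : ∀ i, X i ⟶ P) [∀ i, IsOpenImmersion (j i)] (hj : ∀ y : P, ∃ i, y ∈ Set.range (j i).base)
    (h : ∀ i, LocallyOfFinitePresentation (j i ≫ p)) : LocallyOfFinitePresentation p :=
  (IsZariskiLocalAtSource.iff_of_openCover (P := @LocallyOfFinitePresentation.{u})
    (mkCover X j hj)).mpr fun _ => h _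

theorem isPullback_diagonal {X P S : Scheme.{u}} (j : X ⟶ P) [Mono j] (p : P ⟶ S) :
    IsPullback j (pullback.diagonal (j ≫ p)) (pullback.diagonal p)
      (pullback.map (j ≫ p) (j ≫ p) p p j j (𝟙 S) (by simp) (by simp)) := by
  refine ⟨⟨?_⟩, ⟨PullbackCone.IsLimit.mk _ (fun s => s.snd ≫ pullback.fst _ _) ?_ ?_ ?_⟩⟩
  · apply pullback.hom_ext
    · rw [Category.assoc, Category.assoc, pullback.lift_fst, pullback.diagonal_fst_assoc,
        pullback.diagonal_fst, Category.comp_id]
    · rw [Category.assoc, Category.assoc, pullback.lift_snd, pullback.diagonal_snd_assoc,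
        pullback.diagonal_snd, Category.comp_id]
  · intro s
    have h1 := congr($(s.condition) ≫ pullback.fst _ _)
    simp only [Category.assoc, pullback.diagonal_fst, pullback.lift_fst] at h1
    simpa using h1.symm
  · intro s
    have h1 := congr($(s.condition) ≫ pullback.fst _ _)
    have h2 := congr($(s.condition) ≫ pullback.snd _ _)
    simp only [Category.assoc, pullback.diagonal_fst, pullback.lift_fst, pullback.diagonal_snd,
      pullback.lift_snd] at h1 h2
    apply pullback.hom_ext
    · simp
    · rw [← cancel_mono j]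
      simp only [Category.assoc, pullback.diagonal_snd, Category.comp_id]
      simp [← h1, ← h2]
  · intro s m h1 h2
    rw [← h2]
    simp

set_option backward.isDefEq.respectTransparency.types false in
/-- Separatedness from a cover: every point of `P ×_S P` lies in some `X_i ×_S X_i`. -/
theorem isSeparated_of_cover {P S : Scheme.{u}} (p : P ⟶ S) {ι : Type*} (X : ι → Scheme.{u})
    (j : ∀ i, X i ⟶ P) [∀ i, IsOpenImmersion (j i)] (hs : ∀ i, IsSeparated (j i ≫ p))
    (hj : ∀ z : (pullback p p :), ∃ i, pullback.fst p p z ∈ Set.range (j i).base ∧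
      pullback.snd p p z ∈ Set.range (j i).base) : IsSeparated p := by
  rw [isSeparated_iff]
  let m : ∀ i, pullback (j i ≫ p) (j i ≫ p) ⟶ pullback p p := fun i =>
    pullback.map (j i ≫ p) (j i ≫ p) p p (j i) (j i) (𝟙 S) (by simp) (by simp)
  have hm : ∀ z : (pullback p p :), ∃ i, z ∈ Set.range (m i).base := by
    intro z
    obtain ⟨i, h1, h2⟩ := hj z
    refine ⟨i, ?_⟩
    rw [Scheme.Pullback.range_map]
    exact ⟨h1, h2⟩
  refine (IsZariskiLocalAtTarget.iff_of_openCover (P := @IsClosedImmersion.{u})
    (mkCover _ m hm)).mpr fun z => ?_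
  have := hs (hm z).choose
  have h1 := isPullback_diagonal (j (hm z).choose) p
  have h2 : pullback.snd (pullback.diagonal p) (m (hm z).choose) =
      h1.isoPullback.inv ≫ pullback.diagonal (j (hm z).choose ≫ p) := by
    simp [m]
  show IsClosedImmersion (pullback.snd (pullback.diagonal p) (m (hm z).choose))
  rw [h2]
  infer_instance

end General

section AlgClosed

variable {k : Type u} [Field k] [IsAlgClosed k]

/-- A scheme locally of finite type over an algebraically closed field is covered by any family of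
opens containing all rational points. -/
theorem eq_top_of_kPoints {P : Scheme.{u}} (p : P ⟶ Spec (.of k)) [LocallyOfFiniteType p]
    (U : P.Opens) (h : ∀ x : Spec (.of k) ⟶ P, x ≫ p = 𝟙 _ → Set.range x.base ⊆ U) : U = ⊤ := by
  have : JacobsonSpace P := LocallyOfFiniteType.jacobsonSpace p
  by_contra hU
  have h1 : (U : Set P)ᶜ.Nonempty := by
    rw [Set.nonempty_compl]
    intro h2
    exact hU (by ext1; exact h2)
  obtain ⟨x, hx, hx'⟩ := nonempty_inter_closedPoints h1 U.isOpen.isClosed_compl.isLocallyClosed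
  obtain ⟨⟨c, hc⟩, e⟩ := (pointEquivClosedPoint p).surjective ⟨x, hx'⟩
  have e' : c (IsLocalRing.closedPoint k) = x := congr(($e).1)
  exact hx (e' ▸ h c hc ⟨_, rfl⟩)

theorem isSeparated_of_kPoints {P : Scheme.{u}} (p : P ⟶ Spec (.of k)) [LocallyOfFiniteType p]
    {ι : Type*} (X : ι → Scheme.{u}) (j : ∀ i, X i ⟶ P) [∀ i, IsOpenImmersion (j i)]
    (hs : ∀ i, IsSeparated (j i ≫ p))
    (hj : ∀ x y : Spec (.of k) ⟶ P, x ≫ p = 𝟙 _ → y ≫ p = 𝟙 _ →
      ∃ i, Set.range x.base ⊆ Set.range (j i).base ∧ Set.range y.base ⊆ Set.range (j i).base) :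
    IsSeparated p := by
  refine isSeparated_of_cover p X j hs ?_
  let U : (pullback p p).Opens :=
    ⨆ i, (pullback.fst p p ⁻¹ᵁ (j i).opensRange) ⊓ (pullback.snd p p ⁻¹ᵁ (j i).opensRange)
  have hU : U = ⊤ := by
    refine eq_top_of_kPoints (pullback.fst p p ≫ p) U ?_
    intro x hx
    obtain ⟨i, h1, h2⟩ := hj (x ≫ pullback.fst p p) (x ≫ pullback.snd p p) (by simpa using hx)
      (by rw [Category.assoc, ← pullback.condition]; exact hx)
    rintro _ ⟨z, rfl⟩
    refine TopologicalSpace.Opens.mem_iSup.mpr ⟨i, ?_, ?_⟩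
    · exact h1 ⟨z, by simp⟩
    · exact h2 ⟨z, by simp⟩
  intro z
  have hz : z ∈ U := by rw [hU]; trivial
  obtain ⟨i, h1, h2⟩ := TopologicalSpace.Opens.mem_iSup.mp hz
  exact ⟨i, h1, h2⟩

theorem surjective_of_kPoints {Y P : Scheme.{u}} (f : Y ⟶ P) (p : P ⟶ Spec (.of k))
    [LocallyOfFiniteType p] [IsSeparated p] [IsProper (f ≫ p)]
    (h : ∀ x : Spec (.of k) ⟶ P, x ≫ p = 𝟙 _ → ∃ y : Spec (.of k) ⟶ Y, y ≫ f = x) :
    Surjective f := by
  have : IsProper f := .of_comp f p
  let U : P.Opens := ⟨(Set.range f.base)ᶜ, f.isClosedMap.isClosed_range.isOpen_compl⟩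
  constructor
  intro z
  by_contra hz
  have : JacobsonSpace P := LocallyOfFiniteType.jacobsonSpace p
  obtain ⟨x, hx, hx'⟩ := nonempty_inter_closedPoints (Z := (U : Set P)) ⟨z, hz⟩
    U.isOpen.isLocallyClosed
  obtain ⟨⟨c, hc⟩, e⟩ := (pointEquivClosedPoint p).surjective ⟨x, hx'⟩
  have e' : c (IsLocalRing.closedPoint k) = x := congr(($e).1)
  obtain ⟨y, rfl⟩ := h c hc
  exact hx ⟨y (IsLocalRing.closedPoint k), by rw [← e']; rfl⟩

/-- version with closed points -/
theorem surjective_of_closedPoints {Y P S : Scheme.{u}} (f : Y ⟶ P) (p : P ⟶ S)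
    [JacobsonSpace P] [IsSeparated p] [IsProper (f ≫ p)]
    (h : ∀ x : P, IsClosed {x} → x ∈ Set.range f.base) : Surjective f := by
  have : IsProper f := .of_comp f p
  constructor
  intro z
  by_contra hz
  obtain ⟨x, hx, hx'⟩ := nonempty_inter_closedPoints (Z := (Set.range f.base)ᶜ) ⟨z, hz⟩
    f.isClosedMap.isClosed_range.isOpen_compl.isLocallyClosed
  exact hx (h x hx')

end AlgClosed

end Fermat.Agent.H74.F1
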