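import Mathlib

/-!
# Commutative algebra for smooth curves over an algebraically closed field (S25-C1)
-/

set_option autoImplicit false
set_option linter.style.haveILetI false

open IsLocalRing

namespace Fermat.Agent.H51Curve

universe u

section Nullstellensatz

variable (k : Type*) [Field k] [IsAlgClosed k] {S : Type*} [CommRing S] [Algebra k S]
  [Algebra.FiniteType k S] (m : Ideal S) [hm : m.IsMaximal]

theorem algebraMap_quotient_bijective :
    Function.Bijective (algebraMap k (S ⧸ m)) := by
  letI : Field (S ⧸ m) := Ideal.Quotient.field m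
  haveI : Module.Finite k (S ⧸ m) := finite_of_finite_type_of_isJacobsonRing k (S ⧸ m)
  exact IsAlgClosed.algebraMap_bijective_of_isIntegral

/-- evaluation at a maximal ideal -/
noncomputable def ev : S →ₐ[k] k :=
  (AlgEquiv.ofBijective (Algebra.ofId k (S ⧸ m)) (algebraMap_quotient_bijective k m)).symm.toAlgHom.comp
    (Ideal.Quotient.mkₐ k m)

theorem ev_eq_zero_iff (s : S) : ev k m s = 0 ↔ s ∈ m := by
  simp [ev, Ideal.Quotient.eq_zero_iff_mem]

theorem sub_ev_mem (s : S) : s - algebraMap k S (ev k m s) ∈ m := by
  rw [← ev_eq_zero_iff k m, map_sub, AlgHom.commutes]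
  simp

/-- The derivation `s ↦ [s - s(m)]` into the cotangent space at `m`. -/
noncomputable def cotDer : Derivation k S m.Cotangent :=
  Derivation.mk'
    { toFun := fun s => m.toCotangent ⟨s - algebraMap k S (ev k m s), sub_ev_mem k m s⟩
      map_add' := fun a b => by
        rw [← map_add]
        congr 1
        apply Subtype.ext
        simp only [map_add, Submodule.coe_add]
        ring
      map_smul' := fun c a => by
        rw [RingHom.id_apply, ← algebraMap_smul S c (m.toCotangent _), ← map_smul]
        congr 1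
        apply Subtype.ext
        simp only [SetLike.val_smul, smul_eq_mul, Algebra.smul_def, map_mul, AlgHom.commutes,
          Algebra.algebraMap_self, RingHom.id_apply]
        ring }
    (fun a b => by
      simp only [LinearMap.coe_mk, AddHom.coe_mk]
      rw [← map_smul, ← map_smul, ← map_add, Ideal.toCotangent_eq]
      simp only [map_mul, Submodule.coe_add, SetLike.val_smul, smul_eq_mul]
      have : a * b - algebraMap k S (ev k m a) * algebraMap k S (ev k m b) -
          (a * (b - algebraMap k S (ev k m b)) + b * (a - algebraMap k S (ev k m a))) =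
          - ((a - algebraMap k S (ev k m a)) * (b - algebraMap k S (ev k m b))) := by ring
      rw [this, pow_two]
      exact neg_mem (Ideal.mul_mem_mul (sub_ev_mem k m a) (sub_ev_mem k m b)))

theorem cotDer_apply_of_mem {s : S} (hs : s ∈ m) : cotDer k m s = m.toCotangent ⟨s, hs⟩ := by
  have h : ev k m s = 0 := (ev_eq_zero_iff k m s).mpr hs
  show m.toCotangent ⟨s - algebraMap k S (ev k m s), sub_ev_mem k m s⟩ = _
  congr 1
  apply Subtype.ext
  simp [h]

/-- `M` is generated by one element at the prime `p`. -/
def CycAt {R : Type*} [CommRing R] (M : Type*) [AddCommGroup M] [Module R M] (p : Ideal R) : Prop :=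
  ∃ ω : M, ∀ η : M, ∃ s ∉ p, ∃ a : R, s • η = a • ω

/-- If `Ω` is generated by one element at `m` then `m = (x) + m²`. -/
theorem exists_le_span_sup (hΩ : CycAt Ω[S⁄k] m) :
    ∃ x ∈ m, m ≤ Ideal.span {x} ⊔ m ^ 2 := by
  obtain ⟨ω, hω⟩ := hΩ
  set f : Ω[S⁄k] →ₗ[S] m.Cotangent := (cotDer k m).liftKaehlerDifferential with hf
  obtain ⟨⟨x, hx⟩, hxω⟩ := m.toCotangent_surjective (f ω)
  refine ⟨x, hx, fun y hy => ?_⟩
  have h1 : m.toCotangent ⟨y, hy⟩ = f (KaehlerDifferential.D k S y) := by
    rw [hf, Derivation.liftKaehlerDifferential_comp_D, cotDer_apply_of_mem k m hy]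
  obtain ⟨s, hs, a, ha⟩ := hω (KaehlerDifferential.D k S y)
  have h2 := congrArg f ha
  rw [map_smul, map_smul, ← h1, ← hxω, ← map_smul, ← map_smul, Ideal.toCotangent_eq] at h2
  simp only [SetLike.val_smul, smul_eq_mul] at h2
  have h3 : s * y ∈ Ideal.span {x} ⊔ m ^ 2 := by
    have : s * y = a * x + (s * y - a * x) := by ring
    rw [this]
    exact Submodule.add_mem_sup (Ideal.mem_span_singleton.mpr ⟨a, mul_comm _ _⟩) h2
  obtain ⟨t, ht⟩ : ∃ t, t * s - 1 ∈ m := by
    obtain ⟨t, z, hz, ht⟩ := (Ideal.IsMaximal.exists_inv hm hs)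
    refine ⟨t, ?_⟩
    have : t * s - 1 = - z := by rw [← ht]; ring
    rw [this]
    exact neg_mem hz
  have : y = t * (s * y) - (t * s - 1) * y := by ring
  rw [this]
  exact sub_mem (Ideal.mul_mem_left _ _ h3)
    (Ideal.mem_sup_right (by rw [pow_two]; exact Ideal.mul_mem_mul ht hy))

end Nullstellensatz

section Local

variable {S : Type*} [CommRing S] [IsNoetherianRing S] (m : Ideal S) [hm : m.IsMaximal]

theorem isPrincipal_of_le {x : S} (hxm : x ∈ m) (hx : m ≤ Ideal.span {x} ⊔ m ^ 2)
    (R : Type*) [CommRing R] [Algebra S R] [IsLocalization.AtPrime R m] [IsLocalRing R] :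
    maximalIdeal R = Ideal.span {algebraMap S R x} := by
  haveI : IsNoetherianRing R := IsLocalization.isNoetherianRing m.primeCompl R inferInstance
  have h1 : m.map (algebraMap S R) = maximalIdeal R := IsLocalization.AtPrime.map_eq_maximalIdeal m R
  have h2 : maximalIdeal R ≤ Ideal.span {algebraMap S R x} ⊔ maximalIdeal R • maximalIdeal R := by
    have h3 := Ideal.map_mono (f := algebraMap S R) hx
    rw [Ideal.map_sup, Ideal.map_pow, h1, Ideal.map_span, Set.image_singleton] at h3
    rwa [smul_eq_mul, ← pow_two]
  refine le_antisymm (Submodule.le_of_le_smul_of_le_jacobson_bot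
    (IsNoetherian.noetherian (maximalIdeal R)) (maximalIdeal_le_jacobson _) h2) ?_
  rw [Ideal.span_singleton_le_iff_mem, ← h1]
  exact Ideal.mem_map_of_mem _ hxm

end Local

section Main

variable (k : Type*) [Field k] [IsAlgClosed k] {S : Type*} [CommRing S] [IsDomain S] [Algebra k S]
  [Algebra.FiniteType k S]

theorem isDiscreteValuationRing_localization (hS : ¬ IsField S) (m : Ideal S) [hm : m.IsMaximal]
    (hΩ : CycAt Ω[S⁄k] m) :
    IsDiscreteValuationRing (Localization.AtPrime m) := by
  haveI : IsNoetherianRing S := Algebra.FiniteType.isNoetherianRing k S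
  haveI : IsNoetherianRing (Localization.AtPrime m) :=
    IsLocalization.isNoetherianRing m.primeCompl _ inferInstance
  obtain ⟨x, hxm, hx⟩ := exists_le_span_sup k m hΩ
  have h1 := isPrincipal_of_le m hxm hx (Localization.AtPrime m)
  have hf : ¬ IsField (Localization.AtPrime m) := by
    intro hf
    have h2 : maximalIdeal (Localization.AtPrime m) = ⊥ := isField_iff_maximalIdeal_eq.mp hf
    rw [← Localization.AtPrime.map_eq_maximalIdeal, Ideal.map_eq_bot_iff_of_injective
      (IsLocalization.injective _ m.primeCompl_le_nonZeroDivisors)] at h2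
    subst h2
    exact hS (Ring.isField_iff_maximal_bot.mpr hm)
  have h3 : (maximalIdeal (Localization.AtPrime m)).IsPrincipal := ⟨⟨_, h1⟩⟩
  exact ((IsDiscreteValuationRing.TFAE _ hf).out 4 0).mp h3

omit [IsAlgClosed k] [Algebra k S] [Algebra.FiniteType k S] in
theorem isDedekindDomain_of_localization_maximal [IsNoetherianRing S]
    (h : ∀ m : Ideal S, m.IsMaximal → ∀ _ : m.IsPrime,
      IsDiscreteValuationRing (Localization.AtPrime m)) : IsDedekindDomain S := by
  haveI : IsIntegrallyClosed S := IsIntegrallyClosed.of_localization_maximal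
    (fun P _ hP => by
      haveI := h P hP inferInstance
      infer_instance)
  haveI : Ring.DimensionLEOne S := ⟨fun {P} hP0 hP => by
    obtain ⟨m, hm, hPm⟩ := P.exists_le_maximal hP.ne_top
    haveI := h m hm inferInstance
    have hdisj : Disjoint (m.primeCompl : Set S) (P : Set S) := by
      rw [Set.disjoint_left]
      exact fun x hx hxP => hx (hPm hxP)
    have h1 : (P.map (algebraMap S (Localization.AtPrime m))).IsPrime :=
      IsLocalization.isPrime_of_isPrime_disjoint m.primeCompl _ P hP hdisj
    have h2 : P.map (algebraMap S (Localization.AtPrime m)) ≠ ⊥ := by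
      rw [ne_eq, Ideal.map_eq_bot_iff_of_injective
        (IsLocalization.injective _ m.primeCompl_le_nonZeroDivisors)]
      exact hP0
    have h3 : P.map (algebraMap S (Localization.AtPrime m)) =
        maximalIdeal (Localization.AtPrime m) :=
      IsLocalRing.eq_maximalIdeal (h1.isMaximal h2)
    have h4 := IsLocalization.under_map_of_isPrime_disjoint m.primeCompl
      (Localization.AtPrime m) hP hdisj
    rw [h3] at h4
    have h5 := Localization.AtPrime.under_maximalIdeal (I := m)
    rw [h5] at h4
    rwa [← h4]⟩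
  exact { }

end Main

end Fermat.Agent.H51Curve
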