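import Mathlib
import Fermat.Agent.H51CurveAlg

/-!
# Commutative algebra for smooth curves, II: smooth algebras of relative dimension one (S25-C1)
-/

set_option autoImplicit false
set_option linter.style.haveILetI false

open IsLocalRing TensorProduct

namespace Fermat.Agent.H51Curve

universe u

section Smooth

variable (k : Type u) [CommRing k] {S : Type u} [CommRing S] [Algebra k S]

theorem nontrivial_away {t : S} {p : Ideal S} (hp : p.IsPrime) (ht : t ∉ p) :
    Nontrivial (Localization.Away t) := by
  rw [← not_subsingleton_iff_nontrivial, IsLocalization.subsingleton_iff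
    (M := Submonoid.powers t)]
  rintro ⟨n, hn⟩
  exact ht (hp.mem_of_pow_mem n (by simp only at hn; rw [hn]; exact zero_mem _))

theorem exists_generator_of_isStandardSmooth (T : Type u) [CommRing T] [Algebra k T]
    [Nontrivial T] (h : Algebra.IsStandardSmoothOfRelativeDimension 1 k T) :
    ∃ ω : Ω[T⁄k], ∀ η : Ω[T⁄k], ∃ c : T, η = c • ω := by
  haveI : Algebra.IsStandardSmooth k T := h.isStandardSmooth
  have h1 := Algebra.IsStandardSmoothOfRelativeDimension.rank_kaehlerDifferential (R := k)
    (S := T) 1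
  have h2 : Module.finrank T Ω[T⁄k] = 1 := by
    rw [Module.finrank, h1]; simp
  haveI : Module.Finite T Ω[T⁄k] := inferInstance
  let b := Module.finBasisOfFinrankEq T Ω[T⁄k] h2
  refine ⟨b 0, fun η => ⟨b.repr η 0, ?_⟩⟩
  conv_lhs => rw [← b.sum_repr η]
  simp

theorem cycAt_of_isStandardSmooth (t : S)
    (h : Algebra.IsStandardSmoothOfRelativeDimension 1 k (Localization.Away t))
    (p : Ideal S) [hp : p.IsPrime] (ht : t ∉ p) : CycAt Ω[S⁄k] p := by
  haveI := nontrivial_away hp ht
  obtain ⟨ω', hω'⟩ := exists_generator_of_isStandardSmooth k (Localization.Away t) h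
  set f : Ω[S⁄k] →ₗ[S] Ω[Localization.Away t⁄k] :=
    KaehlerDifferential.map k k S (Localization.Away t) with hf
  haveI : IsLocalizedModule (Submonoid.powers t) f := inferInstance
  have hpow : ∀ u : Submonoid.powers t, (u : S) ∉ p := by
    rintro ⟨_, n, rfl⟩ hn
    exact ht (hp.mem_of_pow_mem n hn)
  obtain ⟨⟨ω, u⟩, hω⟩ := IsLocalizedModule.surj (Submonoid.powers t) f ω'
  refine ⟨ω, fun η => ?_⟩
  obtain ⟨c, hc⟩ := hω' (f η)
  obtain ⟨⟨a, v⟩, hv⟩ := IsLocalization.surj (Submonoid.powers t) c
  have h1 : f ((v * u : Submonoid.powers t) • η) = f (a • ω) := by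
    simp only [Submonoid.smul_def] at hω ⊢
    rw [map_smul, map_smul, hc, ← hω, Submonoid.coe_mul, mul_smul, ← algebraMap_smul
      (Localization.Away t) a, ← hv, mul_smul, algebraMap_smul, smul_comm c, smul_comm (u : S) c]
  obtain ⟨w, hw⟩ := (IsLocalizedModule.eq_iff_exists (Submonoid.powers t) f).mp h1
  refine ⟨(w * (v * u) : Submonoid.powers t), hpow _, w * a, ?_⟩
  simp only [Submonoid.smul_def] at hw
  rw [Submonoid.coe_mul, mul_smul, hw, mul_smul]

theorem not_isField_of_isStandardSmooth (k : Type u) [Field k] [IsAlgClosed k] {S : Type u}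
    [CommRing S] [Algebra k S] [Algebra.FiniteType k S] (t : S)
    (h : Algebra.IsStandardSmoothOfRelativeDimension 1 k (Localization.Away t))
    [Nontrivial (Localization.Away t)] : ¬ IsField S := by
  intro hS
  letI : Field S := hS.toField
  haveI : Module.Finite k S := finite_of_finite_type_of_isJacobsonRing k S
  have h1 : Function.Bijective (algebraMap k S) := IsAlgClosed.algebraMap_bijective_of_isIntegral
  have ht : t ≠ 0 := by
    rintro rfl
    exact not_subsingleton (Localization.Away (0 : S))
      ((IsLocalization.subsingleton_iff (M := Submonoid.powers (0 : S))).mpr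
        (Submonoid.mem_powers 0))
  have h2 : Function.Surjective (algebraMap S (Localization.Away t)) := by
    intro x
    obtain ⟨⟨a, v⟩, hv⟩ := IsLocalization.surj (Submonoid.powers t) x
    obtain ⟨_, n, rfl⟩ := v
    refine ⟨a / t ^ n, ?_⟩
    have h3 : algebraMap S (Localization.Away t) t ≠ 0 := by
      intro h0
      exact ht ((algebraMap S (Localization.Away t)).injective (by rw [h0, map_zero]))
    have h4 : IsUnit (algebraMap S (Localization.Away t) (t ^ n)) :=
      IsLocalization.map_units (Localization.Away t) (⟨t ^ n, n, rfl⟩ : Submonoid.powers t)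
    rw [← h4.mul_left_inj]
    simp only at hv
    rw [hv, ← map_mul, div_mul_cancel₀ _ (pow_ne_zero n ht)]
  have h3 : Function.Surjective (algebraMap k (Localization.Away t)) := by
    rw [IsScalarTower.algebraMap_eq k S (Localization.Away t)]
    exact h2.comp h1.2
  have h4 : Subsingleton Ω[Localization.Away t⁄k] := KaehlerDifferential.subsingleton_of_surjective _ _ h3
  haveI : Algebra.IsStandardSmooth k (Localization.Away t) := h.isStandardSmooth
  have h5 := Algebra.IsStandardSmoothOfRelativeDimension.rank_kaehlerDifferential (R := k)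
    (S := Localization.Away t) 1
  rw [rank_subsingleton'] at h5
  simp at h5

end Smooth

section Domain

variable (k : Type*) [Field k] [IsAlgClosed k] {A B : Type*} [CommRing A] [IsDomain A]
  [Algebra k A] [Algebra.FiniteType k A] [CommRing B] [IsDomain B] [Algebra k B]

/-- evaluation in the first variable -/
noncomputable def evL (m : Ideal A) [m.IsMaximal] : A ⊗[k] B →ₐ[k] B :=
  (Algebra.TensorProduct.lid k B).toAlgHom.comp (Algebra.TensorProduct.map (ev k m) (AlgHom.id k B))

omit [IsDomain A] [IsDomain B] in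
theorem evL_eq_zero_iff (m : Ideal A) [m.IsMaximal] {ι : Type*} (b : Module.Basis ι k B)
    (x : A ⊗[k] B) :
    evL k m x = 0 ↔ ∀ i, (Algebra.TensorProduct.basis A b).repr x i ∈ m := by
  have h : ∀ (x : A ⊗[k] B) (i), b.repr (evL k m x) i =
      ev k m ((Algebra.TensorProduct.basis A b).repr x i) := by
    intro x i
    induction x with
    | zero => simp
    | add x y hx hy => simp only [map_add, Finsupp.add_apply, hx, hy]
    | tmul a c =>
      simp [evL, Algebra.TensorProduct.basis_repr_tmul]
  constructor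
  · intro hx i
    rw [← ev_eq_zero_iff k m, ← h, hx]
    simp
  · intro hx
    apply b.repr.injective
    ext i
    rw [h, (ev_eq_zero_iff k m _).mpr (hx i)]
    simp

theorem noZeroDivisors_tensorProduct : NoZeroDivisors (A ⊗[k] B) := by
  haveI : IsJacobsonRing A := isJacobsonRing_of_finiteType (A := k)
  refine ⟨fun {x y} hxy => ?_⟩
  let b := Module.Basis.ofVectorSpace k B
  by_contra hcon
  push Not at hcon
  obtain ⟨hx, hy⟩ := hcon
  obtain ⟨i, hi⟩ : ∃ i, (Algebra.TensorProduct.basis A b).repr x i ≠ 0 := by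
    by_contra h
    push Not at h
    exact hx ((Algebra.TensorProduct.basis A b).repr.injective (by ext i; simp [h i]))
  obtain ⟨j, hj⟩ : ∃ i, (Algebra.TensorProduct.basis A b).repr y i ≠ 0 := by
    by_contra h
    push Not at h
    exact hy ((Algebra.TensorProduct.basis A b).repr.injective (by ext i; simp [h i]))
  have h1 : (Algebra.TensorProduct.basis A b).repr x i *
      (Algebra.TensorProduct.basis A b).repr y j ∈ (⊥ : Ideal A).jacobson := by
    rw [Ideal.jacobson, Submodule.mem_sInf]
    rintro (m : Ideal A) ⟨-, hm⟩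
    haveI : m.IsMaximal := hm
    have h2 : evL k m x * evL k m y = 0 := by rw [← map_mul, hxy, map_zero]
    rcases mul_eq_zero.mp h2 with h2 | h2
    · exact Ideal.mul_mem_right _ _ ((evL_eq_zero_iff k m b x).mp h2 i)
    · exact Ideal.mul_mem_left _ _ ((evL_eq_zero_iff k m b y).mp h2 j)
  rw [IsJacobsonRing.out inferInstance (Ideal.isPrime_bot (α := A)).isRadical, Ideal.mem_bot] at h1
  rcases mul_eq_zero.mp h1 with h | h
  · exact hi h
  · exact hj h

theorem isDomain_tensorProduct : IsDomain (A ⊗[k] B) := by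
  haveI := noZeroDivisors_tensorProduct k (A := A) (B := B)
  haveI : Nontrivial (A ⊗[k] B) := inferInstance
  exact NoZeroDivisors.to_isDomain _

end Domain

section Invertible

variable {R : Type*} [CommRing R] [IsDomain R]

omit [IsDomain R] in
theorem exists_common (J P : Ideal R) [hP : P.IsPrime] (hfg : J.FG) (a : R)
    (h : ∀ b ∈ J, ∃ s ∉ P, a ∣ s * b) : ∃ s ∉ P, ∀ b ∈ J, a ∣ s * b := by
  classical
  obtain ⟨T, rfl⟩ := hfg
  have key : ∀ T' : Finset R, (T' : Set R) ⊆ Ideal.span (T : Set R) →
      ∃ s ∉ P, ∀ b ∈ T', a ∣ s * b := by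
    intro T'
    induction T' using Finset.induction_on with
    | empty => exact fun _ => ⟨1, fun h1 => hP.ne_top ((Ideal.eq_top_iff_one _).mpr h1), by simp⟩
    | insert c T' hc ih =>
      intro hsub
      rw [Finset.coe_insert, Set.insert_subset_iff] at hsub
      obtain ⟨s, hs, hs'⟩ := ih hsub.2
      obtain ⟨s1, hs1, hs1'⟩ := h c hsub.1
      refine ⟨s * s1, fun h1 => (hP.mem_or_mem h1).elim hs hs1, fun b hb => ?_⟩
      rcases Finset.mem_insert.mp hb with rfl | hb
      · rw [mul_assoc]; exact Dvd.dvd.mul_left hs1' _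
      · rw [mul_comm s, mul_assoc]; exact Dvd.dvd.mul_left (hs' b hb) _
  obtain ⟨s, hs, hs'⟩ := key T Ideal.subset_span
  refine ⟨s, hs, fun b hb => ?_⟩
  induction hb using Submodule.span_induction with
  | mem x hx => exact hs' x hx
  | zero => simp
  | add x y _ _ hx hy => rw [mul_add]; exact dvd_add hx hy
  | smul c x _ hx => rw [smul_eq_mul, mul_left_comm]; exact Dvd.dvd.mul_left hx _

/-- A finitely generated nonzero locally principal ideal of a domain is invertible. -/
theorem invertible_of_locally (J : Ideal R) (hfg : J.FG) (hJ : J ≠ ⊥)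
    (h : ∀ P : Ideal R, P.IsMaximal → ∃ a ∈ J, ∀ b ∈ J, ∃ s ∉ P, a ∣ s * b) :
    Module.Invertible R J := by
  let K := FractionRing R
  have hinj : Function.Injective (Algebra.linearMap R K) := IsFractionRing.injective R K
  let I : Submodule R K := Submodule.map (Algebra.linearMap R K) J
  have h1 : I * (1 / I) = 1 := by
    refine le_antisymm Submodule.mul_one_div_le_one ?_
    rw [Submodule.one_le]
    by_contra hcon
    let 𝔞 : Ideal R := Submodule.comap (Algebra.linearMap R K) (I * (1 / I))
    have h𝔞 : 𝔞 ≠ ⊤ := by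
      intro htop
      apply hcon
      have : (1 : R) ∈ 𝔞 := by rw [htop]; trivial
      simpa [𝔞] using this
    obtain ⟨P, hP, hle⟩ := 𝔞.exists_le_maximal h𝔞
    obtain ⟨a, haJ, ha⟩ := h P hP
    haveI := hP.isPrime
    obtain ⟨s, hs, hs'⟩ := exists_common J P hfg a ha
    have ha0 : a ≠ 0 := by
      rintro rfl
      apply hJ
      rw [eq_bot_iff]
      intro b hb
      have h2 := hs' b hb
      rw [zero_dvd_iff, mul_eq_zero] at h2
      rcases h2 with h2 | h2
      · exact absurd (by rw [h2]; exact zero_mem _) hs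
      · exact h2
    have ha0' : algebraMap R K a ≠ 0 := by
      intro h0
      exact ha0 (hinj (by simpa using h0))
    apply hs
    apply hle
    show Algebra.linearMap R K s ∈ I * (1 / I)
    have h3 : Algebra.linearMap R K s =
        (algebraMap R K a) * (algebraMap R K s / algebraMap R K a) := by
      rw [Algebra.linearMap_apply, mul_div_cancel₀ _ ha0']
    rw [h3]
    refine Submodule.mul_mem_mul ⟨a, haJ, rfl⟩ ?_
    rw [Submodule.mem_div_iff_forall_mul_mem]
    rintro _ ⟨b, hb, rfl⟩
    obtain ⟨c, hc⟩ := hs' b hb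
    rw [Submodule.mem_one]
    refine ⟨c, ?_⟩
    rw [Algebra.linearMap_apply, div_mul_eq_mul_div, ← map_mul, hc, map_mul,
      mul_div_cancel_left₀ _ ha0']
  let Iu : (Submodule R K)ˣ := ⟨I, 1 / I, h1, by rw [mul_comm]; exact h1⟩
  haveI : Module.Invertible R I := .left (Submodule.tensorInvEquiv Iu)
  exact Module.Invertible.congr (Submodule.equivMapOfInjective _ hinj J).symm

omit [IsDomain R] in
/-- Nakayama -/
theorem locally_of_locally_sq (J P : Ideal R) [hP : P.IsMaximal] (hfg : J.FG) (hJP : J ≤ P)
    (h : ∃ a ∈ J, ∀ b ∈ J, ∃ s ∉ P, s * b ∈ Ideal.span {a} ⊔ J ^ 2) :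
    ∃ a ∈ J, ∀ b ∈ J, ∃ s ∉ P, a ∣ s * b := by
  obtain ⟨a, haJ, ha⟩ := h
  refine ⟨a, haJ, ?_⟩
  let N : Submodule R (R ⧸ Ideal.span {a}) := Submodule.map (Submodule.mkQ (Ideal.span {a})) J
  have hN : N.FG := Submodule.FG.map _ hfg
  have h1 : N ≤ P • N := by
    rintro _ ⟨b, hb, rfl⟩
    obtain ⟨s, hs, hsb⟩ := ha b hb
    obtain ⟨t, z, hz, ht⟩ := (Ideal.IsMaximal.exists_inv hP hs)
    have h2 : b = t * (s * b) + z * b := by
      have : t * (s * b) + z * b = (t * s + z) * b := by ring
      rw [this, ht, one_mul]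
    have h3 : Submodule.mkQ (Ideal.span {a}) (s * b) ∈ P • N := by
      obtain ⟨u, hu, v, hv, huv⟩ := Submodule.mem_sup.mp hsb
      rw [← huv, map_add, show Submodule.mkQ (Ideal.span {a}) u = 0 from
        (Submodule.Quotient.mk_eq_zero _).mpr hu, zero_add]
      have h4 : v ∈ P • J := by
        rw [pow_two] at hv
        exact Submodule.smul_mono_left hJP hv
      have h5 : Submodule.map (Submodule.mkQ (Ideal.span {a})) (P • J) = P • N :=
        Submodule.map_smul'' _ _ _
      rw [← h5]
      exact ⟨v, h4, rfl⟩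
    have h6 : Submodule.mkQ (Ideal.span {a}) b = t • Submodule.mkQ (Ideal.span {a}) (s * b) +
        z • Submodule.mkQ (Ideal.span {a}) b := by
      rw [← map_smul, ← map_smul, ← map_add, smul_eq_mul, smul_eq_mul, ← h2]
    rw [h6]
    exact add_mem (Submodule.smul_mem _ _ h3) (Submodule.smul_mem_smul hz ⟨b, hb, rfl⟩)
  obtain ⟨r, hr, hr'⟩ := Submodule.exists_sub_one_mem_and_smul_eq_zero_of_fg_of_le_smul P N hN h1
  intro b hb
  refine ⟨r, fun hrP => hP.ne_top ((Ideal.eq_top_iff_one _).mpr ?_), ?_⟩
  · have : (1 : R) = r - (r - 1) := by ring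
    rw [this]
    exact sub_mem hrP hr
  · have h2 := hr' _ ⟨b, hb, rfl⟩
    rw [← map_smul] at h2
    exact Ideal.mem_span_singleton.mp ((Submodule.Quotient.mk_eq_zero _).mp h2)

end Invertible

end Fermat.Agent.H51Curve
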