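import Mathlib
import Fermat.Agent.H51CurveSm
import Fermat.Agent.H74F1

/-!
# S25-F1: geometric integrality over an algebraically closed field
-/

set_option autoImplicit false
universe u
open CategoryTheory Limits AlgebraicGeometry MorphismProperty TopologicalSpace TensorProduct

namespace Fermat.Agent.H74.F1

theorem isIntegral_of_cover {Z : Scheme.{u}} {ι : Type*} [Nonempty ι] (W : ι → Z.Opens)
    (hW : ⨆ i, W i = ⊤) (h : ∀ i, IsIntegral (W i))
    (h2 : ∀ i j, ((W i : Set Z) ∩ W j).Nonempty) : IsIntegral Z := by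
  have h3 : ∀ i, IrreducibleSpace (W i).toScheme := fun i => inferInstance
  have h4 : PreirreducibleSpace Z := by
    refine PreirreducibleSpace.of_isOpenCover (U := W) ?_ hW
      (fun i => (h3 i).toPreirreducibleSpace)
    intro i j _ hd
    obtain ⟨x, hx⟩ := h2 i j
    have := hd (x := W i ⊓ W j) inf_le_left inf_le_right
    exact this hx
  have h5 : Nonempty Z := by
    obtain ⟨x, _⟩ := h2 (Classical.arbitrary ι) (Classical.arbitrary ι)
    exact ⟨x⟩
  have h6 : IrreducibleSpace Z := ⟨h5⟩
  have h7 : AlgebraicGeometry.IsReduced Z := by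
    have : ∀ i, AlgebraicGeometry.IsReduced ((Z.openCoverOfIsOpenCover W hW).X i) := fun i =>
      by
        have := h i
        exact inferInstanceAs (AlgebraicGeometry.IsReduced (W i).toScheme)
    exact IsReduced.of_openCover Z (Z.openCoverOfIsOpenCover W hW)
  exact isIntegral_of_irreducibleSpace_of_isReduced Z

variable {k : Type u} [Field k] [IsAlgClosed k]

/-- the structure map -/
noncomputable def sHom {X : Scheme.{u}} (x : X ⟶ Spec (.of k)) (U : X.Opens) : k →+* Γ(X, U) :=
  ((Scheme.ΓSpecIso (CommRingCat.of k)).inv ≫ x.appLE ⊤ U le_top).hom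

omit [IsAlgClosed k] in
theorem sHom_finiteType {X : Scheme.{u}} (x : X ⟶ Spec (.of k)) [LocallyOfFiniteType x]
    {U : X.Opens} (hU : IsAffineOpen U) : (sHom x U).FiniteType := by
  rw [sHom, CommRingCat.hom_comp, RingHom.finiteType_respectsIso.cancel_left_isIso]
  exact HasRingHomProperty.appLE @LocallyOfFiniteType x inferInstance
    ⟨⊤, isAffineOpen_top _⟩ ⟨U, hU⟩ le_top

omit [IsAlgClosed k] in
theorem ι_comp {X : Scheme.{u}} (x : X ⟶ Spec (.of k)) {U : X.Opens} (hU : IsAffineOpen U) :
    U.ι ≫ x = hU.isoSpec.hom ≫ Spec.map (CommRingCat.ofHom (sHom x U)) := by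
  rw [← Iso.inv_comp_eq, ← Category.assoc, hU.isoSpec_inv_ι, sHom, CommRingCat.ofHom_hom,
    Spec.map_comp, ← Scheme.isoSpec_Spec_inv, ← IsAffineOpen.fromSpec_top]
  exact (IsAffineOpen.SpecMap_appLE_fromSpec x (isAffineOpen_top _) hU le_top).symm

theorem isIntegral_pullback_affine {X : Scheme.{u}} (x : X ⟶ Spec (.of k)) [LocallyOfFiniteType x]
    [IsIntegral X] {K : Type u} [Field K] (y : Spec (.of K) ⟶ Spec (.of k)) {U : X.Opens}
    (hU : IsAffineOpen U) [Nonempty U] : IsIntegral (pullback.fst x y ⁻¹ᵁ U) := by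
  obtain ⟨φ, rfl⟩ := Spec.map_surjective y
  have h1 := (isPullback_morphismRestrict (pullback.fst x (Spec.map φ)) U).paste_vert
    (IsPullback.of_hasPullback x (Spec.map φ))
  rw [ι_comp x hU] at h1
  have h2 : IsPullback (pullback.fst x (Spec.map φ) ∣_ U ≫ hU.isoSpec.hom)
      ((pullback.fst x (Spec.map φ) ⁻¹ᵁ U).ι ≫ pullback.snd x (Spec.map φ))
      (Spec.map (CommRingCat.ofHom (sHom x U))) (Spec.map φ) := by
    refine IsPullback.of_iso h1 (Iso.refl _) hU.isoSpec (Iso.refl _) (Iso.refl _) ?_ ?_ ?_ ?_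
    all_goals simp
  let _ : Algebra k Γ(X, U) := (sHom x U).toAlgebra
  let _ : Algebra k K := φ.hom.toAlgebra
  have h3 := isPullback_SpecMap_of_isPushout _ _ _ _
    (CommRingCat.isPushout_tensorProduct k Γ(X, U) K)
  have h4 : Algebra.FiniteType k Γ(X, U) := sHom_finiteType x hU
  have h5 : IsDomain (Γ(X, U) ⊗[k] K) := H51Curve.isDomain_tensorProduct k
  let e := h2.isoIsPullback _ _ h3
  have h6 : IsIntegral (Spec (.of (Γ(X, U) ⊗[k] K))) := inferInstance
  have h7 : Nonempty (pullback.fst x (Spec.map φ) ⁻¹ᵁ U) := ⟨e.inv (Classical.arbitrary _)⟩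
  exact isIntegral_of_isOpenImmersion e.hom

/-- An integral scheme locally of finite type over an algebraically closed field is geometrically
integral. -/
theorem geometricallyIntegral {X : Scheme.{u}} (x : X ⟶ Spec (.of k)) [LocallyOfFiniteType x]
    [IsIntegral X] : GeometricallyIntegral x := by
  refine ⟨fun K _ y Z fst snd h => ?_⟩
  have hcl : IsIntegral (pullback x y) := ?_
  · have : Nonempty Z := ⟨h.isoPullback.inv (Classical.arbitrary _)⟩
    exact isIntegral_of_isOpenImmersion h.isoPullback.hom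
  let ι := {U : X.Opens // IsAffineOpen U ∧ Nonempty U}
  have hx0 : ∀ z : X, ∃ i : ι, z ∈ i.1 := by
    intro z
    obtain ⟨U, hU, hz, -⟩ := exists_isAffineOpen_mem_and_subset (x := z) (U := ⊤) trivial
    exact ⟨⟨U, hU, ⟨z, hz⟩⟩, hz⟩
  have : Nonempty ι := ⟨(hx0 (Classical.arbitrary X)).choose⟩
  refine isIntegral_of_cover (fun i : ι => pullback.fst x y ⁻¹ᵁ i.1) ?_ ?_ ?_
  · rw [eq_top_iff]
    intro z _
    obtain ⟨i, hi⟩ := hx0 (pullback.fst x y z)
    exact Opens.mem_iSup.mpr ⟨i, hi⟩
  · intro i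
    have := i.2.2
    exact isIntegral_pullback_affine x y i.2.1
  · intro i j
    obtain ⟨z, hz⟩ := nonempty_preirreducible_inter (X := X) i.1.isOpen j.1.isOpen
      (by obtain ⟨a⟩ := i.2.2; exact ⟨a.1, a.2⟩) (by obtain ⟨a⟩ := j.2.2; exact ⟨a.1, a.2⟩)
    have : Surjective y := ⟨Function.surjective_to_subsingleton (α := Spec (.of K)) _⟩
    obtain ⟨w, rfl⟩ := (pullback.fst x y).surjective z
    exact ⟨w, hz⟩

theorem geometricallyConnected_of_geometricallyIrreducible {X S : Scheme.{u}} (x : X ⟶ S)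
    [h : GeometricallyIrreducible x] : GeometricallyConnected x := by
  refine ⟨fun K _ y Z fst snd hp => ?_⟩
  have : IrreducibleSpace Z := h.geometrically_irreducibleSpace y fst snd hp
  have h1 : ConnectedSpace Z := inferInstance
  exact h1

theorem geometricallyConnected {X : Scheme.{u}} (x : X ⟶ Spec (.of k)) [LocallyOfFiniteType x]
    [IsIntegral X] : GeometricallyConnected x := by
  have := geometricallyIntegral x
  exact geometricallyConnected_of_geometricallyIrreducible x

theorem isIntegral_pullback {X Y : Scheme.{u}} (x : X ⟶ Spec (.of k)) (y : Y ⟶ Spec (.of k))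
    [LocallyOfFiniteType x] [LocallyOfFiniteType y] [IsIntegral X] [IsIntegral Y] :
    IsIntegral (pullback x y) := by
  have := geometricallyIntegral x
  have : IsLocallyNoetherian Y := LocallyOfFiniteType.isLocallyNoetherian y
  infer_instance

theorem geometricallyIntegral_pullback {X Y : Scheme.{u}} (x : X ⟶ Spec (.of k))
    (y : Y ⟶ Spec (.of k)) [LocallyOfFiniteType x] [LocallyOfFiniteType y] [IsIntegral X]
    [IsIntegral Y] : GeometricallyIntegral (pullback.fst x y ≫ x) := by
  have := isIntegral_pullback x y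
  exact geometricallyIntegral (pullback.fst x y ≫ x)

end Fermat.Agent.H74.F1
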