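import Fermat.Agent.H20TwCurve
import Fermat.Agent.H74F1
import Fermat.Agent.H74F1Int
/-!
# S25, job E4, part 5: the family `M₀(-x₁-…-x_d)` over `C^d`
-/
set_option autoImplicit false
universe u v
open CategoryTheory AlgebraicGeometry CategoryTheory.Limits TopologicalSpace Opposite
open AlgebraicGeometry.RelPicard NeronModelInfra

noncomputable section

namespace Fermat.Agent.H20T

open Fermat.Agent.H25

variable {k : Type u} [Field k] {C T T' : Scheme.{u}}
  {c : C ⟶ Spec (CommRingCat.of k)} {t : T ⟶ Spec (CommRingCat.of k)}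
  {t' : T' ⟶ Spec (CommRingCat.of k)}

/-- `L ≅ M(-y₁-…-y_d)` -/
def TwL : List (SchemeHomOver t c) → (pullback c t).Modules → (pullback c t).Modules → Prop
  | [], L, M => Nonempty (L ≅ M)
  | (y :: ys), L, M => ∃ L', Scheme.Modules.IsInvertible L' ∧ TwL ys L' M ∧ IsTw (graph y) L L'

@[simp] lemma twL_nil {L M : (pullback c t).Modules} :
    TwL ([] : List (SchemeHomOver t c)) L M ↔ Nonempty (L ≅ M) := Iff.rfl

@[simp] lemma twL_cons {y : SchemeHomOver t c} {ys : List (SchemeHomOver t c)}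
    {L M : (pullback c t).Modules} : TwL (y :: ys) L M ↔
      ∃ L', Scheme.Modules.IsInvertible L' ∧ TwL ys L' M ∧ IsTw (graph y) L L' := Iff.rfl

theorem TwL.of_iso {ys : List (SchemeHomOver t c)} {L L' M M' : (pullback c t).Modules}
    (h : TwL ys L M) (e : L ≅ L') (e' : M ≅ M') : TwL ys L' M' := by
  induction ys generalizing L L' M M' with
  | nil =>
    obtain ⟨i⟩ := h
    exact ⟨e.symm ≪≫ i ≪≫ e'⟩
  | cons y ys ih =>
    obtain ⟨L₁, h1, h2, h3⟩ := h
    exact ⟨L₁, h1, ih h2 (Iso.refl _) e', h3.of_iso e (Iso.refl _)⟩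

theorem TwL.uniq {ys : List (SchemeHomOver t c)} {L L' M M' : (pullback c t).Modules}
    (h : TwL ys L M) (h' : TwL ys L' M') (e : M ≅ M') : Nonempty (L ≅ L') := by
  induction ys generalizing L L' with
  | nil =>
    obtain ⟨i⟩ := h
    obtain ⟨i'⟩ := h'
    exact ⟨i ≪≫ e ≪≫ i'.symm⟩
  | cons y ys ih =>
    obtain ⟨L₁, h1, h2, h3⟩ := h
    obtain ⟨L₁', h1', h2', h3'⟩ := h'
    obtain ⟨i⟩ := ih h2 h2'
    exact (h3.of_iso (Iso.refl _) i).uniq h3'

section Smooth

variable [IsAlgClosed k] [IsSeparated c] [SmoothOfRelativeDimension 1 c] [IsIntegral C]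

theorem exists_twL (ys : List (SchemeHomOver t c)) {M : (pullback c t).Modules}
    (hM : Scheme.Modules.IsInvertible M) :
    ∃ L, Scheme.Modules.IsInvertible L ∧ TwL ys L M := by
  induction ys with
  | nil => exact ⟨M, hM, ⟨Iso.refl _⟩⟩
  | cons y ys ih =>
    obtain ⟨L', hL', h⟩ := ih
    obtain ⟨L, hL, hL2⟩ := exists_isTw (isCart_graph y) hL'
    exact ⟨L, hL, L', hL', h, hL2⟩

theorem TwL.isInvertible {ys : List (SchemeHomOver t c)} {L M : (pullback c t).Modules}
    (hM : Scheme.Modules.IsInvertible M) (h : TwL ys L M) : Scheme.Modules.IsInvertible L := by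
  cases ys with
  | nil =>
    obtain ⟨i⟩ := h
    exact IsInvertible.of_iso hM i.symm
  | cons y ys =>
    obtain ⟨L', hL', -, φ, hφ⟩ := h
    exact hφ.isInvertible (isCart_graph y) hL'

/-- the inverse twist -/
theorem exists_twL_inv (ys : List (SchemeHomOver t c)) {L : (pullback c t).Modules}
    (hL : Scheme.Modules.IsInvertible L) :
    ∃ M, Scheme.Modules.IsInvertible M ∧ TwL ys L M := by
  induction ys generalizing L with
  | nil => exact ⟨L, hL, ⟨Iso.refl _⟩⟩
  | cons y ys ih =>
    obtain ⟨L', hL', h⟩ := exists_isTw_inv (isCart_graph y) hL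
    obtain ⟨M, hM, h2⟩ := ih hL'
    exact ⟨M, hM, L', hL', h2, h⟩

theorem TwL.baseChange {ys : List (SchemeHomOver t c)} {L M : (pullback c t).Modules}
    (h : TwL ys L M) (ψ : SchemeHomOver t' t) :
    TwL (ys.map fun y ↦ postComp y ψ) ((Scheme.Modules.pullback (baseChangeSnd c ψ)).obj L)
      ((Scheme.Modules.pullback (baseChangeSnd c ψ)).obj M) := by
  induction ys generalizing L with
  | nil =>
    obtain ⟨i⟩ := h
    exact ⟨(Scheme.Modules.pullback _).mapIso i⟩
  | cons y ys ih =>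
    obtain ⟨L', hL', h1, h2⟩ := h
    exact ⟨_, hL'.pullback _, ih h1, h2.graph_baseChange hL' ψ⟩

end Smooth

lemma postComp_id (y : SchemeHomOver t c) :
    postComp y (⟨𝟙 T, Category.id_comp t⟩ : SchemeHomOver t t) = y :=
  Subtype.ext (Category.id_comp _)

/-- `C^d` -/
theorem exists_pow [IsAlgClosed k] (c : C ⟶ Spec (CommRingCat.of k)) [IsProper c] [IsIntegral C]
    (d : ℕ) :
    ∃ (Y : Scheme.{u}) (y : Y ⟶ Spec (CommRingCat.of k)) (pts : List (SchemeHomOver y c)),
      IsProper y ∧ IsIntegral Y ∧ pts.length = d ∧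
      ∀ {T : Scheme.{u}} (t : T ⟶ Spec (CommRingCat.of k)) (xs : List (SchemeHomOver t c)),
        xs.length = d → ∃ ψ : SchemeHomOver t y, pts.map (fun p ↦ postComp p ψ) = xs := by
  induction d with
  | zero =>
    refine ⟨Spec (CommRingCat.of k), 𝟙 _, [], inferInstance, inferInstance, rfl, ?_⟩
    intro T t xs hxs
    rw [List.length_eq_zero_iff] at hxs
    subst hxs
    exact ⟨⟨t, Category.comp_id _⟩, rfl⟩
  | succ d ih =>
    obtain ⟨Y, y, pts, h1, h2, h3, h4⟩ := ih
    have hint : IsIntegral (pullback c y) := H74.F1.isIntegral_pullback c y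
    let p₀ : SchemeHomOver (pullback.snd c y ≫ y) c :=
      ⟨pullback.fst c y, pullback.condition⟩
    let q₀ : SchemeHomOver (pullback.snd c y ≫ y) y := ⟨pullback.snd c y, rfl⟩
    refine ⟨pullback c y, pullback.snd c y ≫ y, p₀ :: pts.map (fun p ↦ postComp p q₀),
      inferInstance, hint, ?_, ?_⟩
    · rw [List.length_cons, List.length_map, h3]
    · intro T t xs hxs
      cases xs with
      | nil => simp at hxs
      | cons x xs =>
        rw [List.length_cons, Nat.add_right_cancel_iff] at hxs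
        obtain ⟨ψ, hψ⟩ := h4 t xs hxs
        refine ⟨⟨pullback.lift x.1 ψ.1 (by rw [x.2, ψ.2]), by
          rw [pullback.lift_snd_assoc, ψ.2]⟩, ?_⟩
        rw [List.map_cons, List.map_map]
        congr 1
        · apply Subtype.ext
          exact pullback.lift_fst _ _ _
        · rw [← hψ]
          refine List.map_congr_left fun p _ ↦ ?_
          apply Subtype.ext
          exact (pullback.lift_snd_assoc _ _ _ _)

/-- **The family over `C^d`.** -/
theorem exists_family [IsAlgClosed k] (c : C ⟶ Spec (CommRingCat.of k)) [IsProper c]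
    [SmoothOfRelativeDimension 1 c] [IsIntegral C] {M₀ : C.Modules}
    (hM₀ : Scheme.Modules.IsInvertible M₀) (d : ℕ) :
    ∃ (Y : Scheme.{u}) (y : Y ⟶ Spec (CommRingCat.of k)) (N : (pullback c y).Modules),
      IsProper y ∧ IsIntegral Y ∧ GeometricallyIntegral y ∧ Scheme.Modules.IsInvertible N ∧
      (∀ {T : Scheme.{u}} (t : T ⟶ Spec (CommRingCat.of k)) (ψ : SchemeHomOver t y),
        ∃ xs : List (SchemeHomOver t c), xs.length = d ∧
          TwL xs ((Scheme.Modules.pullback (baseChangeSnd c ψ)).obj N)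
            ((Scheme.Modules.pullback (pullback.fst c t)).obj M₀)) ∧
      (∀ {T : Scheme.{u}} (t : T ⟶ Spec (CommRingCat.of k)) (xs : List (SchemeHomOver t c)),
        xs.length = d → ∃ ψ : SchemeHomOver t y,
          TwL xs ((Scheme.Modules.pullback (baseChangeSnd c ψ)).obj N)
            ((Scheme.Modules.pullback (pullback.fst c t)).obj M₀)) := by
  obtain ⟨Y, y, pts, h1, h2, h3, h4⟩ := exists_pow c d
  obtain ⟨N, hN, hN'⟩ := exists_twL pts (hM₀.pullback (pullback.fst c y))
  have hkey : ∀ {T : Scheme.{u}} (t : T ⟶ Spec (CommRingCat.of k)) (ψ : SchemeHomOver t y),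
      TwL (pts.map fun p ↦ postComp p ψ)
        ((Scheme.Modules.pullback (baseChangeSnd c ψ)).obj N)
        ((Scheme.Modules.pullback (pullback.fst c t)).obj M₀) := by
    intro T t ψ
    refine (hN'.baseChange ψ).of_iso (Iso.refl _) ?_
    exact (Scheme.Modules.pullbackComp _ _).app M₀ ≪≫
      (Scheme.Modules.pullbackCongr (baseChangeSnd_fst ψ)).app M₀
  refine ⟨Y, y, N, h1, h2, H74.F1.geometricallyIntegral y, hN, ?_, ?_⟩
  · intro T t ψ
    exact ⟨_, by rw [List.length_map, h3], hkey t ψ⟩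
  · intro T t xs hxs
    obtain ⟨ψ, hψ⟩ := h4 t xs hxs
    refine ⟨ψ, ?_⟩
    rw [← hψ]
    exact hkey t ψ

end Fermat.Agent.H20T
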