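import Fermat.Agent.H25Lat
import Fermat.Agent.H20Idx
import Fermat.Agent.H20TwFam
/-!
# S25, block F, part 1: Euler characteristics of twists
-/
set_option autoImplicit false
universe u v
open CategoryTheory AlgebraicGeometry CategoryTheory.Limits TopologicalSpace Opposite Module
open AlgebraicGeometry.RelPicard NeronModelInfra

noncomputable section

namespace Fermat.Agent.H20T

open Fermat.Agent.H25

variable {K : Type u} [Field K] {Z : Scheme.{u}} {z : Z ⟶ Spec (CommRingCat.of K)}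

lemma app_strHom₁ {R : Type u} [CommRing R] {X Y : Scheme.{u}} (f : X ⟶ Y)
    (y : Y ⟶ Spec (CommRingCat.of R)) (U : Y.Opens) (r : R) :
    f.app U (strHom y U r) = strHom (f ≫ y) (f ⁻¹ᵁ U) r := by
  simp only [strHom]
  rw [CommRingCat.hom_comp, CommRingCat.hom_comp, RingHom.comp_apply, RingHom.comp_apply,
    ← Scheme.Hom.appLE_comp_appLE f y ⊤ U (f ⁻¹ᵁ U) le_top le_rfl, Scheme.Hom.app_eq_appLE]
  rfl

/-- a morphism on sections, as a linear map -/
def Sec.mapL (z : Z ⟶ Spec (CommRingCat.of K)) {L M : Z.Modules} (φ : L ⟶ M) (W : Z.Opens) :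
    Sec z L W →ₗ[K] Sec z M W where
  toFun x := toSec (φ.app W x.s)
  map_add' x x' := by
    apply Sec.ext
    simp only [Sec.s_toSec, Sec.s_add, map_add]
  map_smul' a x := by
    apply Sec.ext
    simp only [Sec.s_toSec, Sec.s_smul, RingHom.id_apply, app_smul']

lemma Sec.mapL_s {L M : Z.Modules} (φ : L ⟶ M) (W : Z.Opens) (x : Sec z L W) :
    (Sec.mapL z φ W x).s = φ.app W x.s := rfl

lemma Sec.mapL_injective {L M : Z.Modules} {φ : L ⟶ M} {W : Z.Opens}
    (h : Function.Injective (φ.app W)) : Function.Injective (Sec.mapL z φ W) := h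

/-- dimension of the cokernel on sections -/
def cok (z : Z ⟶ Spec (CommRingCat.of K)) {L M : Z.Modules} (φ : L ⟶ M) (W : Z.Opens) : ℕ :=
  finrank K (Sec z M W ⧸ LinearMap.range (Sec.mapL z φ W))

/-- the Čech differential -/
def DL (τ : TwoChart z) (L : Z.Modules) :
    (Sec z L τ.U × Sec z L τ.V) →ₗ[K] Sec z L (τ.U ⊓ τ.V) :=
  (Sec.resL z L inf_le_left).coprod (Sec.resL z L inf_le_right)

lemma chiL_eq_ind (τ : TwoChart z) {L : Z.Modules} (hL : Scheme.Modules.IsInvertible L) :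
    Fred (DL τ L) ∧ chiL τ L hL = ind (DL τ L) := by
  obtain ⟨h1, h2⟩ := chiL_finite τ hL
  obtain ⟨h3, h4⟩ := ind_coprod (a := Sec.resL z L (inf_le_left : τ.U ⊓ τ.V ≤ τ.U))
    (b := Sec.resL z L (inf_le_right : τ.U ⊓ τ.V ≤ τ.V)) (resU_injective τ hL)
    (resV_injective τ hL) h1 h2
  exact ⟨h3, h4.symm⟩

/-- **change of Euler characteristic under an injective morphism with finite cokernel** -/
theorem chiL_diff (τ : TwoChart z) {L M : Z.Modules} (hL : Scheme.Modules.IsInvertible L)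
    (hM : Scheme.Modules.IsInvertible M) (φ : L ⟶ M)
    (hU : Function.Injective (φ.app τ.U)) (hV : Function.Injective (φ.app τ.V))
    (hUV : Function.Injective (φ.app (τ.U ⊓ τ.V)))
    (fU : Module.Finite K (Sec z M τ.U ⧸ LinearMap.range (Sec.mapL z φ τ.U)))
    (fV : Module.Finite K (Sec z M τ.V ⧸ LinearMap.range (Sec.mapL z φ τ.V)))
    (fUV : Module.Finite K (Sec z M (τ.U ⊓ τ.V) ⧸
      LinearMap.range (Sec.mapL z φ (τ.U ⊓ τ.V)))) :
    chiL τ M hM = chiL τ L hL + cok z φ τ.U + cok z φ τ.V - cok z φ (τ.U ⊓ τ.V) := by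
  obtain ⟨f1, e1⟩ := chiL_eq_ind τ hL
  obtain ⟨f2, e2⟩ := chiL_eq_ind τ hM
  let Φ := (Sec.mapL z φ τ.U).prodMap (Sec.mapL z φ τ.V)
  have hΦinj : Function.Injective Φ :=
    Function.Injective.prodMap (Sec.mapL_injective hU) (Sec.mapL_injective hV)
  have hΦfin : Module.Finite K ((Sec z M τ.U × Sec z M τ.V) ⧸ LinearMap.range Φ) :=
    Module.Finite.equiv (cokerProdEquiv _ _).symm
  have hΦ : Fred Φ := fred_of_injective hΦinj hΦfin
  have hΦind : ind Φ = -((cok z φ τ.U : ℤ) + cok z φ τ.V) := by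
    rw [ind_of_injective hΦinj, (cokerProdEquiv (Sec.mapL z φ τ.U)
      (Sec.mapL z φ τ.V)).finrank_eq, Module.finrank_prod]
    simp only [cok, Nat.cast_add]
  have hΨ : Fred (Sec.mapL z φ (τ.U ⊓ τ.V)) :=
    fred_of_injective (Sec.mapL_injective hUV) fUV
  have hΨind : ind (Sec.mapL z φ (τ.U ⊓ τ.V)) = -(cok z φ (τ.U ⊓ τ.V) : ℤ) :=
    ind_of_injective (Sec.mapL_injective hUV)
  have hsq : (DL τ M) ∘ₗ Φ = (Sec.mapL z φ (τ.U ⊓ τ.V)) ∘ₗ (DL τ L) := by
    refine LinearMap.ext fun x => ?_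
    apply Sec.ext
    change res M _ (φ.app _ x.1.s) + res M _ (φ.app _ x.2.s) =
      φ.app _ (res L _ x.1.s + res L _ x.2.s)
    rw [map_add, app_res, app_res]
  have h1 := ind_comp hΦ f2
  have h2 := ind_comp f1 hΨ
  rw [hsq, h2] at h1
  rw [e1, e2]
  rw [hΦind, hΨind] at h1
  omega

/-! ### the case of a twist by a rational point -/

lemma opens_spec_field (W : (Spec (CommRingCat.of K)).Opens) : W = ⊥ ∨ W = ⊤ := by
  by_cases h : (IsLocalRing.closedPoint K : ↥(Spec (CommRingCat.of K))) ∈ W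
  · right
    rw [eq_top_iff]
    intro x _
    have hx : x = IsLocalRing.closedPoint K := Subsingleton.elim _ _
    rw [hx]; exact h
  · left
    rw [eq_bot_iff]
    intro x hx
    have hx' : x = IsLocalRing.closedPoint K := Subsingleton.elim _ _
    rw [hx'] at hx
    exact absurd hx h

lemma strHom_bijective_of_id {w : Spec (CommRingCat.of K) ⟶ Spec (CommRingCat.of K)} (hw : w = 𝟙 _)
    {W : (Spec (CommRingCat.of K)).Opens} (hW : W = ⊤) : Function.Bijective (strHom w W) := by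
  subst hw hW
  have h1 : strHom (𝟙 (Spec (CommRingCat.of K))) ⊤ =
      (Scheme.ΓSpecIso (CommRingCat.of K)).inv.hom := by
    have h2 : Scheme.Hom.appLE (𝟙 (Spec (CommRingCat.of K))) ⊤ ⊤ le_top = 𝟙 _ := by
      have h3 := Scheme.Hom.appLE_eq_app (𝟙 (Spec (CommRingCat.of K))) (U := ⊤)
      rw [Scheme.Hom.id_app] at h3
      exact h3
    rw [strHom, h2, Category.comp_id]
  rw [h1]
  exact (Scheme.ΓSpecIso (CommRingCat.of K)).symm.commRingCatIsoToRingEquiv.bijective

/-- pullback of sections to a point, as a linear map -/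
def pbK (z : Z ⟶ Spec (CommRingCat.of K)) (x : Spec (CommRingCat.of K) ⟶ Z) (M : Z.Modules)
    (W : Z.Opens) :
    Sec z M W →ₗ[K] Sec (x ≫ z) ((Scheme.Modules.pullback x).obj M) (x ⁻¹ᵁ W) where
  toFun m := toSec (pb x M m.s)
  map_add' m m' := by
    apply Sec.ext
    simp only [Sec.s_toSec, Sec.s_add, pb_add]
  map_smul' a m := by
    apply Sec.ext
    simp only [Sec.s_toSec, Sec.s_smul, RingHom.id_apply, pb_smul]
    rw [app_strHom₁]

lemma pbK_s (x : Spec (CommRingCat.of K) ⟶ Z) (M : Z.Modules) (W : Z.Opens) (m : Sec z M W) :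
    (pbK z x M W m).s = pb x M m.s := rfl

lemma ker_pbK {x : Spec (CommRingCat.of K) ⟶ Z} {L M : Z.Modules} {φ : L ⟶ M} (h : TwHom x φ)
    (W : Z.Opens) : LinearMap.ker (pbK z x M W) = LinearMap.range (Sec.mapL z φ W) := by
  ext m
  rw [LinearMap.mem_ker]
  constructor
  · intro hm
    obtain ⟨l, hl⟩ := ((h W).2 m.s).2 hm
    exact ⟨toSec l, hl⟩
  · rintro ⟨l, rfl⟩
    exact h.pb_eq_zero l.s

/-- an invertible module has a section which generates at a given point of an affine open -/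
theorem exists_section_gen {M : Z.Modules} (hM : Scheme.Modules.IsInvertible M) {W : Z.Opens}
    (hW : IsAffineOpen W) {p : Z} (hp : p ∈ W) :
    ∃ (m : Γ(M, W)) (V : Z.Opens) (hV : V ≤ W), p ∈ V ∧ IsGen M (res M hV m) := by
  obtain ⟨V, hV, hpV, s, hs⟩ := exists_isGen_of_mem hM hp
  obtain ⟨f, hf, hpf⟩ := hW.exists_basicOpen_le ⟨p, hpV⟩ hp
  obtain ⟨n, m, hm⟩ := H51Aff.res_surj hW hM f rfl (Z.basicOpen_le f) (res M hf s)
  refine ⟨m, Z.basicOpen f, Z.basicOpen_le f, hpf, ?_⟩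
  rw [hm]
  exact (hs.res hf).unit_smul ((H51Aff.isUnit_resO f le_rfl _).pow n)

theorem exists_isGen_field (N : (Spec (CommRingCat.of K)).Modules)
    (hN : Scheme.Modules.IsInvertible N) {W : (Spec (CommRingCat.of K)).Opens} (hW : W = ⊤) :
    ∃ s : Γ(N, W), IsGen N s := by
  subst hW
  obtain ⟨V, hV, hp, s, hs⟩ := exists_isGen_of_mem hN
    (show (IsLocalRing.closedPoint K : ↥(Spec (CommRingCat.of K))) ∈ (⊤ :
      (Spec (CommRingCat.of K)).Opens) from trivial)
  have hV' : V = ⊤ := by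
    rcases opens_spec_field V with h | h
    · rw [h] at hp; exact absurd hp (by simp)
    · exact h
  subst hV'
  exact ⟨s, hs⟩

/-- the fibre of an invertible module at a rational point is one-dimensional -/
theorem finrank_fibre {w : Spec (CommRingCat.of K) ⟶ Spec (CommRingCat.of K)} (hw : w = 𝟙 _)
    (N : (Spec (CommRingCat.of K)).Modules) (hN : Scheme.Modules.IsInvertible N)
    {W : (Spec (CommRingCat.of K)).Opens} (hW : W = ⊤) :
    finrank K (Sec w N W) = 1 ∧ Module.Finite K (Sec w N W) := by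
  obtain ⟨s, hs⟩ := exists_isGen_field N hN hW
  let f : K →ₗ[K] Sec w N W := LinearMap.toSpanSingleton K _ (toSec s)
  have hf : ∀ a, (f a).s = strHom w W a • s := fun a => rfl
  have hbij : Function.Bijective f := by
    have h1 := strHom_bijective_of_id hw hW
    constructor
    · intro a b hab
      have h2 : strHom w W a • s = strHom w W b • s := hab
      exact h1.1 (hs.inj h2)
    · intro m
      obtain ⟨a, ha⟩ := hs.surj m.s
      obtain ⟨b, rfl⟩ := h1.2 a
      exact ⟨b, ha.symm⟩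
  let e := LinearEquiv.ofBijective f hbij
  exact ⟨by rw [← e.finrank_eq, finrank_self], Module.Finite.equiv e⟩

theorem cok_tw {x : Spec (CommRingCat.of K) ⟶ Z} (hx : x ≫ z = 𝟙 _) {L M : Z.Modules}
    (hM : Scheme.Modules.IsInvertible M) {φ : L ⟶ M} (h : TwHom x φ) {W : Z.Opens}
    (hW : IsAffineOpen W) :
    Module.Finite K (Sec z M W ⧸ LinearMap.range (Sec.mapL z φ W)) ∧
      (x ⁻¹ᵁ W = ⊤ → cok z φ W = 1) ∧ (x ⁻¹ᵁ W = ⊥ → cok z φ W = 0) := by
  have h0 : x ⁻¹ᵁ W = ⊥ →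
      Subsingleton (Sec z M W ⧸ LinearMap.range (Sec.mapL z φ W)) := by
    intro h1
    rw [Submodule.Quotient.subsingleton_iff, ← ker_pbK h, eq_top_iff]
    intro m _
    rw [LinearMap.mem_ker]
    have h2 : Subsingleton Γ((Scheme.Modules.pullback x).obj M, x ⁻¹ᵁ W) := by
      rw [h1]
      refine ⟨fun a b => ?_⟩
      exact sec_ext (fun i : PEmpty.{1} => i.elim) (fun i => i.elim) (by simp) (fun i => i.elim)
    exact h2.elim _ _
  have h1 : x ⁻¹ᵁ W = ⊤ → Module.Finite K (Sec z M W ⧸ LinearMap.range (Sec.mapL z φ W)) ∧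
      cok z φ W = 1 := by
    intro h1
    obtain ⟨h2, h3⟩ := finrank_fibre hx _ (hM.pullback x) h1
    have hp : x (IsLocalRing.closedPoint K) ∈ W := by
      have : (IsLocalRing.closedPoint K : ↥(Spec (CommRingCat.of K))) ∈ x ⁻¹ᵁ W := by
        rw [h1]; trivial
      exact this
    obtain ⟨m, V, hV, hpV, hm⟩ := exists_section_gen hM hW hp
    have hV1 : x ⁻¹ᵁ V = ⊤ := by
      rcases opens_spec_field (x ⁻¹ᵁ V) with h4 | h4
      · have : (IsLocalRing.closedPoint K : ↥(Spec (CommRingCat.of K))) ∈ x ⁻¹ᵁ V := hpV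
        rw [h4] at this
        exact absurd this (fun h => h)
      · exact h4
    have hgen : IsGen _ (pb x M m) := by
      have h5 := hm.pb x M
      rw [pb_res] at h5
      have h6 : x ⁻¹ᵁ W ≤ x ⁻¹ᵁ V := by rw [hV1]; exact le_top
      have h7 := h5.res h6
      rwa [res_res, res_self] at h7
    have hsurj : Function.Surjective (pbK z x M W) := by
      intro n
      obtain ⟨a, ha⟩ := hgen.surj n.s
      obtain ⟨b, rfl⟩ := (strHom_bijective_of_id hx h1).2 a
      refine ⟨b • toSec m, ?_⟩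
      rw [map_smul]
      exact ha.symm
    let e := (Submodule.quotEquivOfEq _ _ (ker_pbK h W).symm).trans
      ((pbK z x M W).quotKerEquivOfSurjective hsurj)
    refine ⟨Module.Finite.equiv e.symm, ?_⟩
    rw [cok, e.finrank_eq, h2]
  refine ⟨?_, fun h2 => (h1 h2).2, fun h2 => ?_⟩
  · rcases opens_spec_field (x ⁻¹ᵁ W) with h2 | h2
    · have := h0 h2; infer_instance
    · exact (h1 h2).1
  · have := h0 h2
    rw [cok, finrank_zero_of_subsingleton]

/-- **(F1)** -/
theorem chiL_tw (τ : TwoChart z) {x : Spec (CommRingCat.of K) ⟶ Z} (hx : x ≫ z = 𝟙 _)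
    {L M : Z.Modules} (hL : Scheme.Modules.IsInvertible L)
    (hM : Scheme.Modules.IsInvertible M) {φ : L ⟶ M} (h : TwHom x φ) :
    chiL τ M hM = chiL τ L hL + 1 := by
  obtain ⟨fU, u1, u0⟩ := cok_tw hx hM h τ.affU
  obtain ⟨fV, v1, v0⟩ := cok_tw hx hM h τ.affV
  obtain ⟨fUV, w1, w0⟩ := cok_tw hx hM h (isAffineOpen_inter τ)
  rw [chiL_diff τ hL hM φ (h _).1 (h _).1 (h _).1 fU fV fUV]
  have hcov : x ⁻¹ᵁ τ.U ⊔ x ⁻¹ᵁ τ.V = ⊤ := by
    rw [← Scheme.Hom.preimage_sup, τ.cover]; rfl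
  have hinf : x ⁻¹ᵁ (τ.U ⊓ τ.V) = x ⁻¹ᵁ τ.U ⊓ x ⁻¹ᵁ τ.V := rfl
  rcases opens_spec_field (x ⁻¹ᵁ τ.U) with hU | hU <;>
    rcases opens_spec_field (x ⁻¹ᵁ τ.V) with hV | hV
  · rw [hU, hV, sup_bot_eq] at hcov
    have : (IsLocalRing.closedPoint K : ↥(Spec (CommRingCat.of K))) ∈
      (⊥ : (Spec (CommRingCat.of K)).Opens) := by rw [hcov]; trivial
    exact absurd this (fun h => h)
  · rw [u0 hU, v1 hV, w0 (by rw [hinf, hU, bot_inf_eq])]; simp
  · rw [u1 hU, v0 hV, w0 (by rw [hinf, hV, inf_bot_eq])]; simp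
  · rw [u1 hU, v1 hV, w1 (by rw [hinf, hU, hV, top_inf_eq])]; simp

end Fermat.Agent.H20T
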