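import Mathlib
/-!
# Finiteness of quotients over an algebra finite over `K[t]` (pure algebra)
-/
set_option autoImplicit false
open Polynomial

namespace Fermat.Agent.H20T

theorem exists_poly_mem {K B : Type*} [Field K] [CommRing B] [IsDomain B] (i : K →+* B) (t : B)
    {n : ℕ} (b : Fin n → B)
    (hb : Function.Surjective (fun f : Fin n → K[X] => ∑ j, (f j).eval₂ i t * b j))
    {b₀ : B} (hb₀ : b₀ ≠ 0) : ∃ (p : K[X]) (c : B), p ≠ 0 ∧ p.eval₂ i t = c * b₀ := by
  classical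
  let _ : Algebra K[X] B := (eval₂RingHom i t).toAlgebra
  have hfin : Module.Finite K[X] B := by
    refine ⟨⟨Finset.univ.image b, ?_⟩⟩
    rw [eq_top_iff]
    intro x _
    obtain ⟨f, rfl⟩ := hb x
    refine Submodule.sum_mem _ fun j _ => ?_
    have h1 : (f j).eval₂ i t * b j = f j • b j := by rw [Algebra.smul_def]; rfl
    rw [h1]
    exact Submodule.smul_mem _ _ (Submodule.subset_span (by simp))
  have hint : IsIntegral K[X] b₀ := IsIntegral.of_finite K[X] b₀
  have h1 := Ideal.comap_ne_bot_of_integral_mem (R := K[X]) (I := Ideal.span {b₀}) hb₀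
    (Ideal.subset_span rfl) hint
  obtain ⟨p, hp, hp0⟩ := Submodule.exists_mem_ne_zero_of_ne_bot h1
  obtain ⟨c, hc⟩ := Ideal.mem_span_singleton'.mp (Ideal.mem_comap.mp hp)
  exact ⟨p, c, hp0, hc.symm⟩

theorem finite_quot_of_smul_mem {K B F : Type*} [Field K] [CommRing B] [IsDomain B] (i : K →+* B)
    (t : B) {n : ℕ} (b : Fin n → B)
    (hb : Function.Surjective (fun f : Fin n → K[X] => ∑ j, (f j).eval₂ i t * b j))
    [AddCommGroup F] [Module B F] [Module.Finite B F] [Module K F]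
    (hKF : ∀ (a : K) (m : F), a • m = i a • m) (N : Submodule K F)
    (hN : ∀ (c : B), ∀ m ∈ N, c • m ∈ N) {b₀ : B} (hb₀ : b₀ ≠ 0) (h0 : ∀ m : F, b₀ • m ∈ N) :
    Module.Finite K (F ⧸ N) := by
  obtain ⟨p, c, hp, hpc⟩ := exists_poly_mem i t b hb hb₀
  -- a monic one
  set p₁ : K[X] := p * C p.leadingCoeff⁻¹ with hp₁
  have hmon : p₁.Monic := monic_mul_leadingCoeff_inv hp
  have hp₁N : ∀ m : F, p₁.eval₂ i t • m ∈ N := by
    intro m
    rw [hp₁, eval₂_mul, hpc, mul_assoc, mul_comm b₀, ← mul_assoc, mul_smul]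
    exact hN _ _ (h0 m)
  obtain ⟨r, f, hf⟩ := Module.Finite.exists_fin' B F
  let T : Fin r × Fin n → (degreeLT K p₁.natDegree →ₗ[K] F ⧸ N) := fun s =>
    N.mkQ ∘ₗ
    { toFun := fun q => (q : K[X]).eval₂ i t • (b s.2 • f (Pi.single s.1 1))
      map_add' := fun q q' => by
        rw [Submodule.coe_add, eval₂_add, add_smul]
      map_smul' := fun a q => by
        rw [Submodule.coe_smul, smul_eq_C_mul, eval₂_mul, eval₂_C, mul_smul, RingHom.id_apply,
          hKF] }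
  refine Module.Finite.of_surjective (LinearMap.lsum K (fun _ => degreeLT K p₁.natDegree) K T) ?_
  intro x
  obtain ⟨m, rfl⟩ := N.mkQ_surjective x
  obtain ⟨v, rfl⟩ := hf m
  choose q hq using fun s => hb (v s)
  have hdeg : ∀ g : K[X], g %ₘ p₁ ∈ degreeLT K p₁.natDegree := fun g => by
    rw [mem_degreeLT, ← degree_eq_natDegree hmon.ne_zero]
    exact degree_modByMonic_lt g hmon
  refine ⟨fun s => ⟨q s.1 s.2 %ₘ p₁, hdeg _⟩, ?_⟩
  rw [LinearMap.lsum_apply, LinearMap.sum_apply]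
  have h1 : f v = ∑ s : Fin r × Fin n, (q s.1 s.2).eval₂ i t • (b s.2 • f (Pi.single s.1 1)) := by
    rw [Fintype.sum_prod_type]
    have h2 : v = ∑ s, v s • (Pi.single s 1 : Fin r → B) := by
      ext s
      simp [Finset.sum_apply, Pi.single_apply]
    conv_lhs => rw [h2, map_sum]
    refine Finset.sum_congr rfl fun s _ => ?_
    rw [map_smul, ← hq s]
    simp only [Finset.sum_smul, mul_smul]
  rw [h1, map_sum]
  refine Finset.sum_congr rfl fun s _ => ?_
  rw [← sub_eq_zero]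
  change N.mkQ _ - N.mkQ _ = 0
  rw [← map_sub, Submodule.mkQ_apply, Submodule.Quotient.mk_eq_zero]
  have h3 : ((q s.1 s.2 %ₘ p₁).eval₂ i t) • (b s.2 • f (Pi.single s.1 1)) -
      ((q s.1 s.2).eval₂ i t) • (b s.2 • f (Pi.single s.1 1)) =
      -(((q s.1 s.2 /ₘ p₁).eval₂ i t) • (p₁.eval₂ i t • (b s.2 • f (Pi.single s.1 1)))) := by
    have h4 := modByMonic_add_div (q s.1 s.2) p₁
    conv_lhs => rw [← h4]
    rw [smul_smul (eval₂ i t (q s.1 s.2 /ₘ p₁)), ← eval₂_mul, h4, ← sub_smul, ← neg_smul]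
    congr 1
    conv_lhs => rw [← h4]
    rw [eval₂_add, h4, mul_comm (q s.1 s.2 /ₘ p₁)]
    ring
  erw [h3]
  exact N.neg_mem (hN _ _ (hp₁N _))

end Fermat.Agent.H20T
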