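import Fermat.Agent.H20TwSurj
/-!
# S25, block F: uniqueness of inverse twists, commutation of twists, the inverse family
-/
set_option autoImplicit false
universe u v
open CategoryTheory AlgebraicGeometry CategoryTheory.Limits TopologicalSpace Opposite
open AlgebraicGeometry.RelPicard NeronModelInfra

noncomputable section

namespace Fermat.Agent.H20T

open Fermat.Agent.H25

section General

variable {X T T' : Scheme.{u}} {γ : T ⟶ X} {γ' : T' ⟶ X} {L M M' : X.Modules}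

/-- uniqueness of inverse twists -/
theorem TwHom.uniq_inv (hγ : IsCart γ) (hM : Scheme.Modules.IsInvertible M)
    (hM' : Scheme.Modules.IsInvertible M') {φ : L ⟶ M} {φ' : L ⟶ M'} (h : TwHom γ φ)
    (h' : TwHom γ φ') : ∃ e : M ≅ M', φ ≫ e.hom = φ' := by
  have h1 : ∀ p : X, ∃ (W : X.Opens) (_ : p ∈ W) (e : Γ(X, W)) (s : Γ(M, W)) (n : Γ(M', W))
      (l : Γ(L, W)), IsLocEq γ e ∧ IsGen M s ∧ IsGen M' n ∧ IsGen L l ∧
        φ.app W l = e • s ∧ φ'.app W l = e • n := by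
    intro p
    obtain ⟨W₀, hp₀, e₀, he₀⟩ := hγ p
    obtain ⟨W₁, hW₁, hp₁, s₁, hs₁⟩ := exists_isGen_of_mem hM hp₀
    obtain ⟨W, hW, hp, s', hs'⟩ := exists_isGen_of_mem hM' hp₁
    have hs := hs₁.res hW
    have he := he₀.res (hW.trans hW₁)
    obtain ⟨l, hl, hls⟩ := h.exists_gen he hs
    obtain ⟨l', hl', hls'⟩ := h'.exists_gen he hs'
    obtain ⟨v, hv'⟩ := hl'.exists_unit hl
    refine ⟨W, hp, _, _, (v : Γ(X, W)) • s', l, he, hs, hs'.unit_smul v.isUnit, hl, hls, ?_⟩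
    rw [hv', app_smul', hls', smul_smul, smul_smul, mul_comm]
  choose W hpW e s n l he hs hn hl h2 h3 using h1
  obtain ⟨f, hf, -⟩ := exists_glueHom (M := M) (N := M') W
    (iSup_eq_top_of_pt (fun p => ⟨p, hpW p⟩)) s hs n (by
      intro p q V hp hq g hg
      obtain ⟨w, hw⟩ := (hl q).surj' hq (res L hp (l p))
      have e1 := congrArg (φ.app V) hw
      rw [app_res, app_smul', app_res, h2, h2, res_smul, res_smul, hg, smul_smul, smul_smul] at e1
      have e2 := ((hs q).res hq).inj e1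
      have e3 := congrArg (φ'.app V) hw
      rw [app_res, app_smul', app_res, h3, h3, res_smul, res_smul, smul_smul, ← e2] at e3
      obtain ⟨a, ha⟩ := (hn q).surj' hq (res M' hp (n p))
      rw [ha, smul_smul] at e3
      have e4 := ((hn q).res hq).inj e3
      have e5 : (a - g) * resO hp (e p) = 0 := by
        rw [sub_mul, mul_comm a, mul_comm g, e4, sub_self]
      have e6 := ((he p) V hp).2 _ e5
      rw [ha, sub_eq_zero.mp e6])
  have hiso : IsIso f := by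
    refine isIso_of_isGen_cover f W (pt_cover (fun p => ⟨p, hpW p⟩) ⊤) s hs fun p => ?_
    rw [hf]; exact hn p
  refine ⟨asIso f, ?_⟩
  refine hom_ext_gen W (pt_cover (fun p => ⟨p, hpW p⟩) ⊤) l hl fun p => ?_
  have : (φ ≫ (asIso f).hom).app (W p) (l p) = f.app (W p) (φ.app (W p) (l p)) := rfl
  rw [this, h2, app_smul', hf, h3]

theorem IsTw.uniq_inv (hγ : IsCart γ) (hM : Scheme.Modules.IsInvertible M)
    (hM' : Scheme.Modules.IsInvertible M') (h : IsTw γ L M) (h' : IsTw γ L M') :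
    Nonempty (M ≅ M') := by
  obtain ⟨φ, hφ⟩ := h
  obtain ⟨φ', hφ'⟩ := h'
  exact ⟨(hφ.uniq_inv hγ hM hM' hφ').choose⟩

/-- commutation of twists -/
theorem IsTw.comm (hγ : IsCart γ) (hγ' : IsCart γ') {L₁ : X.Modules}
    (hM : Scheme.Modules.IsInvertible M) (h1 : IsTw γ' L₁ L) (h2 : IsTw γ L M) :
    ∃ L', Scheme.Modules.IsInvertible L' ∧ IsTw γ L₁ L' ∧ IsTw γ' L' M := by
  obtain ⟨φ₁, hφ₁⟩ := h1
  obtain ⟨φ, hφ⟩ := h2
  have htw := twι_twHom γ' M
  obtain ⟨χ, hχ⟩ := htw.exists_lift (φ₁ ≫ φ) (by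
    intro U n
    have e1 : (φ₁ ≫ φ).app U n = φ.app U (φ₁.app U n) := rfl
    rw [e1, ← pb_app, hφ₁.pb_eq_zero, map_zero])
  refine ⟨tw γ' M, htw.isInvertible hγ' hM, ⟨χ, ?_⟩, ⟨_, htw⟩⟩
  refine TwHom.of_local fun p => ?_
  obtain ⟨W₀, hp₀, e₀, he₀⟩ := hγ p
  obtain ⟨W₁, hp₁, e₁, he₁⟩ := hγ' p
  obtain ⟨W, hW, hp, s, hs⟩ := exists_isGen_of_mem hM (show p ∈ W₀ ⊓ W₁ from ⟨hp₀, hp₁⟩)
  have he := he₀.res (hW.trans inf_le_left)
  have he' := he₁.res (hW.trans inf_le_right)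
  obtain ⟨l, hl, hls⟩ := hφ.exists_gen he hs
  obtain ⟨l₁, hl₁, hls₁⟩ := hφ₁.exists_gen he' hl
  obtain ⟨l', hl', hls'⟩ := htw.exists_gen he' hs
  refine ⟨W, hp, fun V hV => twHom_local_of_gen he hl₁ hl' ?_ V hV⟩
  refine (htw W).1 ?_
  have e1 : (twι γ' M).app W (χ.app W l₁) = φ.app W (φ₁.app W l₁) := by
    have := congr(Scheme.Modules.Hom.app $hχ W l₁)
    exact this
  rw [e1, hls₁, app_smul', hls, app_smul', hls', smul_smul, smul_smul, mul_comm]

end General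

variable {k : Type u} [Field k] {C T T' : Scheme.{u}}
  {c : C ⟶ Spec (CommRingCat.of k)} {t : T ⟶ Spec (CommRingCat.of k)}
  {t' : T' ⟶ Spec (CommRingCat.of k)}

theorem TwL.append {xs ys : List (SchemeHomOver t c)} {L M N : (pullback c t).Modules}
    (h1 : TwL xs L M) (h2 : TwL ys M N) : TwL (xs ++ ys) L N := by
  induction xs generalizing L with
  | nil =>
    obtain ⟨e⟩ := h1
    exact h2.of_iso e.symm (Iso.refl _)
  | cons x xs ih =>
    obtain ⟨L', hL', h3, h4⟩ := h1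
    exact ⟨L', hL', ih h3, h4⟩

theorem TwL.split {xs ys : List (SchemeHomOver t c)} {L N : (pullback c t).Modules}
    (h : TwL (xs ++ ys) L N) (hL : Scheme.Modules.IsInvertible L) :
    ∃ M, Scheme.Modules.IsInvertible M ∧ TwL xs L M ∧ TwL ys M N := by
  induction xs generalizing L with
  | nil => exact ⟨L, hL, ⟨Iso.refl _⟩, h⟩
  | cons x xs ih =>
    obtain ⟨L', hL', h3, h4⟩ := h
    obtain ⟨M, hM, h5, h6⟩ := ih h3 hL'
    exact ⟨M, hM, ⟨L', hL', h5, h4⟩, h6⟩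

theorem TwL.single {x : SchemeHomOver t c} {L M : (pullback c t).Modules}
    (hM : Scheme.Modules.IsInvertible M) (h : IsTw (graph x) L M) : TwL [x] L M :=
  ⟨M, hM, ⟨Iso.refl _⟩, h⟩

section Smooth

variable [IsAlgClosed k] [IsSeparated c] [SmoothOfRelativeDimension 1 c] [IsIntegral C]

theorem TwL.perm {xs ys : List (SchemeHomOver t c)} (hp : xs.Perm ys)
    {L M : (pullback c t).Modules} (h : TwL xs L M) : TwL ys L M := by
  induction hp generalizing L with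
  | nil => exact h
  | cons x _ ih =>
    obtain ⟨L', hL', h3, h4⟩ := h
    exact ⟨L', hL', ih h3, h4⟩
  | swap x y l =>
    obtain ⟨L', hL', ⟨L'', hL'', h1, h2⟩, h3⟩ := h
    obtain ⟨L₂, hL₂, h4, h5⟩ := IsTw.comm (isCart_graph x) (isCart_graph y) hL'' h3 h2
    exact ⟨L₂, hL₂, ⟨L'', hL'', h1, h5⟩, h4⟩
  | trans _ _ ih1 ih2 => exact ih2 (ih1 h)

theorem TwL.uniq_inv {xs : List (SchemeHomOver t c)} {L L' M M' : (pullback c t).Modules}
    (h : TwL xs L M) (h' : TwL xs L' M') (e : L ≅ L') : Nonempty (M ≅ M') := by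
  induction xs generalizing L L' with
  | nil =>
    obtain ⟨i⟩ := h
    obtain ⟨i'⟩ := h'
    exact ⟨i.symm ≪≫ e ≪≫ i'⟩
  | cons x xs ih =>
    obtain ⟨L₁, h1, h2, h3⟩ := h
    obtain ⟨L₁', h1', h2', h3'⟩ := h'
    obtain ⟨i⟩ := (h3.of_iso e (Iso.refl _)).uniq_inv (isCart_graph x) h1 h1' h3'
    exact ih h2 h2' i

end Smooth

/-- **The inverse family over `C^d`**: `M₀(x₁+…+x_d)`. -/
theorem exists_family_inv [IsAlgClosed k] (c : C ⟶ Spec (CommRingCat.of k)) [IsProper c]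
    [SmoothOfRelativeDimension 1 c] [IsIntegral C] {M₀ : C.Modules}
    (hM₀ : Scheme.Modules.IsInvertible M₀) (d : ℕ) :
    ∃ (Y : Scheme.{u}) (y : Y ⟶ Spec (CommRingCat.of k)) (N : (pullback c y).Modules),
      IsProper y ∧ IsIntegral Y ∧ GeometricallyIntegral y ∧ Scheme.Modules.IsInvertible N ∧
      (∀ {T : Scheme.{u}} (t : T ⟶ Spec (CommRingCat.of k)) (ψ : SchemeHomOver t y),
        ∃ xs : List (SchemeHomOver t c), xs.length = d ∧
          TwL xs ((Scheme.Modules.pullback (pullback.fst c t)).obj M₀)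
            ((Scheme.Modules.pullback (baseChangeSnd c ψ)).obj N)) ∧
      (∀ {T : Scheme.{u}} (t : T ⟶ Spec (CommRingCat.of k)) (xs : List (SchemeHomOver t c)),
        xs.length = d → ∃ ψ : SchemeHomOver t y,
          TwL xs ((Scheme.Modules.pullback (pullback.fst c t)).obj M₀)
            ((Scheme.Modules.pullback (baseChangeSnd c ψ)).obj N)) := by
  obtain ⟨Y, y, pts, h1, h2, h3, h4⟩ := exists_pow c d
  obtain ⟨N, hN, hN'⟩ := exists_twL_inv pts (hM₀.pullback (pullback.fst c y))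
  have hkey : ∀ {T : Scheme.{u}} (t : T ⟶ Spec (CommRingCat.of k)) (ψ : SchemeHomOver t y),
      TwL (pts.map fun p ↦ postComp p ψ)
        ((Scheme.Modules.pullback (pullback.fst c t)).obj M₀)
        ((Scheme.Modules.pullback (baseChangeSnd c ψ)).obj N) := by
    intro T t ψ
    refine (hN'.baseChange ψ).of_iso ?_ (Iso.refl _)
    exact (Scheme.Modules.pullbackComp _ _).app M₀ ≪≫
      (Scheme.Modules.pullbackCongr (baseChangeSnd_fst ψ)).app M₀
  refine ⟨Y, y, N, h1, h2, H74.F1.geometricallyIntegral y, hN, ?_, ?_⟩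
  · intro T t ψ
    exact ⟨_, by rw [List.length_map, h3], hkey t ψ⟩
  · intro T t xs hxs
    obtain ⟨ψ, hψ⟩ := h4 t xs hxs
    refine ⟨ψ, ?_⟩
    rw [← hψ]
    exact hkey t ψ

end Fermat.Agent.H20T
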