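import Fermat.Agent.H20Deg
import Fermat.Agent.H20FinQ
import Fermat.Agent.H10_RRInv
import Fermat.Agent.H20Tw2
/-!
# S25, block F, part 2: nonzero morphisms of line bundles on a curve are twists
-/
set_option autoImplicit false
universe u v
open CategoryTheory AlgebraicGeometry CategoryTheory.Limits TopologicalSpace Opposite Module
open AlgebraicGeometry.RelPicard NeronModelInfra

noncomputable section

namespace Fermat.Agent.H20T

open Fermat.Agent.H25

section Integral

variable {Z : Scheme.{u}} [IsIntegral Z] {L M : Z.Modules}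

lemma resO_injective {U V : Z.Opens} (hV : Nonempty V) (h : V ≤ U) :
    Function.Injective (resO (X := Z) h) := by
  have := map_injective_of_isIntegral Z (homOfLE h)
  exact this

lemma nonempty_inter {U V : Z.Opens} (hU : Nonempty U) (hV : Nonempty V) :
    Nonempty (U ⊓ V : Z.Opens) := by
  obtain ⟨x, hx⟩ := hU
  obtain ⟨y, hy⟩ := hV
  obtain ⟨w, hw⟩ := nonempty_preirreducible_inter U.isOpen V.isOpen ⟨x, hx⟩ ⟨y, hy⟩
  exact ⟨⟨w, hw⟩⟩

theorem eq_zero_of_gen (hL : Scheme.Modules.IsInvertible L) (hM : Scheme.Modules.IsInvertible M)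
    (φ : L ⟶ M) {W : Z.Opens} (hW : Nonempty W) {l : Γ(L, W)} (hl : IsGen L l)
    (h0 : φ.app W l = 0) : φ = 0 := by
  have h1 : ∀ p : Z, ∃ (V : Z.Opens) (_ : p ∈ V) (l' : Γ(L, V)), IsGen L l' ∧ φ.app V l' = 0 := by
    intro p
    obtain ⟨V₀, -, hp₀, s, hs⟩ := exists_isGen_of_mem hM (show p ∈ (⊤ : Z.Opens) from trivial)
    obtain ⟨V, hV, hp, l', hl'⟩ := exists_isGen_of_mem hL hp₀
    refine ⟨V, hp, l', hl', ?_⟩
    obtain ⟨b, hb⟩ := (hs.res hV).surj (φ.app V l')
    have hne : Nonempty (V ⊓ W : Z.Opens) := nonempty_inter ⟨⟨p, hp⟩⟩ hW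
    obtain ⟨a, ha⟩ := hl.surj' (inf_le_right : V ⊓ W ≤ W) (res L inf_le_left l')
    have h2 := congrArg (φ.app (V ⊓ W)) ha
    rw [app_res, app_smul', app_res, h0, res_zero, smul_zero, hb, res_smul] at h2
    have h3 : resO (inf_le_left : V ⊓ W ≤ V) b = 0 :=
      ((hs.res hV).res _).inj (by rw [h2, zero_smul])
    have h4 : b = 0 := resO_injective hne inf_le_left (by rw [h3, resO_zero])
    rw [hb, h4, zero_smul]
  choose V hV l' hl' h2 using h1
  refine hom_ext_gen V (pt_cover (fun p => ⟨p, hV p⟩) ⊤) l' hl' fun p => ?_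
  rw [h2]
  rfl

/-- nonzero morphisms of invertible modules on integral schemes are injective -/
theorem app_injective_of_ne_zero (hL : Scheme.Modules.IsInvertible L)
    (hM : Scheme.Modules.IsInvertible M) {φ : L ⟶ M} (hφ : φ ≠ 0) (U : Z.Opens) :
    Function.Injective (φ.app U) := by
  have key : ∀ (x : Γ(L, U)), φ.app U x = 0 → x = 0 := by
    intro x hx
    have h1 : ∀ p : U, ∃ (V : Z.Opens) (_ : V ≤ U) (_ : p.1 ∈ V) (l : Γ(L, V)) (s : Γ(M, V)),
        IsGen L l ∧ IsGen M s := by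
      intro p
      obtain ⟨V₀, hV₀, hp₀, s, hs⟩ := exists_isGen_of_mem hM p.2
      obtain ⟨V, hV, hp, l, hl⟩ := exists_isGen_of_mem hL hp₀
      exact ⟨V, hV.trans hV₀, hp, l, _, hl, hs.res hV⟩
    choose V hVU hpV l s hl hs using h1
    refine sec_ext V hVU (fun p hp => Opens.mem_iSup.mpr ⟨⟨p, hp⟩, hpV ⟨p, hp⟩⟩) fun p => ?_
    rw [res_zero]
    obtain ⟨a, ha⟩ := (hl p).surj (res L (hVU p) x)
    obtain ⟨b, hb⟩ := (hs p).surj (φ.app (V p) (l p))
    have hne : Nonempty (V p) := ⟨⟨p.1, hpV p⟩⟩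
    have hb0 : b ≠ 0 := by
      rintro rfl
      rw [zero_smul] at hb
      exact hφ (eq_zero_of_gen hL hM φ hne (hl p) hb)
    have h2 : (a * b) • s p = (0 : Γ(Z, V p)) • s p := by
      rw [mul_smul, ← hb, ← app_smul', ← ha, app_res, hx, res_zero, zero_smul]
    have h3 := (hs p).inj h2
    have h4 : a = 0 := (mul_eq_zero.mp h3).resolve_right hb0
    rw [ha, h4, zero_smul]
  intro x y hxy
  rw [← sub_eq_zero]
  refine key _ ?_
  rw [map_sub, hxy, sub_self]

end Integral

section Finite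

variable {K : Type u} [Field K] {Z : Scheme.{u}} {z : Z ⟶ Spec (CommRingCat.of K)}
  [IsIntegral Z] {L M : Z.Modules}

theorem finite_cok_of_basis {W : Z.Opens} (hW : IsAffineOpen W) (t : Γ(Z, W)) {n : ℕ}
    (b : Fin n → Γ(Z, W)) (hb : Function.Surjective (fun f : Fin n → Polynomial K =>
      ∑ i, (f i).eval₂ (strHom z W) t * b i))
    (hL : Scheme.Modules.IsInvertible L) (hM : Scheme.Modules.IsInvertible M) {φ : L ⟶ M}
    (hφ : φ ≠ 0) : Module.Finite K (Sec z M W ⧸ LinearMap.range (Sec.mapL z φ W)) := by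
  rcases isEmpty_or_nonempty W with hem | hne
  · have h1 : W = ⊥ := by
      rw [eq_bot_iff]; intro x hx; exact (hem.false ⟨x, hx⟩).elim
    have h2 : Subsingleton Γ(M, W) := by
      subst h1
      refine ⟨fun a b => ?_⟩
      exact sec_ext (fun i : PEmpty.{1} => i.elim) (fun i => i.elim) (by simp)
        (fun i => i.elim)
    have h3 : Subsingleton (Sec z M W) := h2
    have h4 : Subsingleton (Sec z M W ⧸ LinearMap.range (Sec.mapL z φ W)) :=
      (Submodule.mkQ_surjective _).subsingleton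
    infer_instance
  have hinvL : Module.Invertible Γ(Z, W) Γ(L, W) := H51Aff.invertible hW hL
  have hinvM : Module.Invertible Γ(Z, W) Γ(M, W) := H51Aff.invertible hW hM
  have hinj := app_injective_of_ne_zero hL hM hφ W
  -- a nonzero section
  obtain ⟨l₀, hl₀⟩ : ∃ l₀ : Γ(L, W), l₀ ≠ 0 := by
    by_contra hcon
    push Not at hcon
    obtain ⟨r, ψ, m, h⟩ := H10.Inv.exists_sum_eq_one (R := Γ(Z, W)) (P := Γ(L, W))
    have : (1 : Γ(Z, W)) = 0 := by
      rw [← h]
      refine Finset.sum_eq_zero fun i _ => ?_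
      rw [hcon (m i), map_zero]
    exact one_ne_zero this
  have hφl₀ : φ.app W l₀ ≠ 0 := by
    intro h
    exact hl₀ (hinj (by rw [h, map_zero]))
  obtain ⟨ψ, hψ⟩ := H10.Inv.exists_dual_apply_ne_zero (R := Γ(Z, W)) hφl₀
  let _ : Module Γ(Z, W) (Sec z M W) := inferInstanceAs (Module Γ(Z, W) Γ(M, W))
  have : Module.Finite Γ(Z, W) (Sec z M W) :=
    inferInstanceAs (Module.Finite Γ(Z, W) Γ(M, W))
  refine finite_quot_of_smul_mem (F := Sec z M W) (strHom z W) t b hb (fun a m => rfl)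
    (LinearMap.range (Sec.mapL z φ W)) ?_ hψ ?_
  · rintro c m ⟨l, rfl⟩
    exact ⟨toSec (c • l.s), app_smul' φ c l.s⟩
  · intro m
    refine ⟨toSec (ψ m.s • l₀), ?_⟩
    have h1 : φ.app W (ψ m.s • l₀) = ψ (φ.app W l₀) • m.s := by
      rw [app_smul', H10.Inv.dual_smul_comm]
    exact h1

theorem finite_cokU (τ : TwoChart z) (hL : Scheme.Modules.IsInvertible L)
    (hM : Scheme.Modules.IsInvertible M) {φ : L ⟶ M} (hφ : φ ≠ 0) :
    Module.Finite K (Sec z M τ.U ⧸ LinearMap.range (Sec.mapL z φ τ.U)) :=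
  finite_cok_of_basis τ.affU τ.t τ.bU τ.basisU.2 hL hM hφ

theorem finite_cokV (τ : TwoChart z) (hL : Scheme.Modules.IsInvertible L)
    (hM : Scheme.Modules.IsInvertible M) {φ : L ⟶ M} (hφ : φ ≠ 0) :
    Module.Finite K (Sec z M τ.V ⧸ LinearMap.range (Sec.mapL z φ τ.V)) :=
  finite_cok_of_basis τ.affV τ.s τ.bV τ.basisV.2 hL hM hφ

omit [IsIntegral Z] in
/-- additivity of `cok` -/
theorem cok_comp {N : Z.Modules} {χ : L ⟶ N} {ψ : N ⟶ M} {W : Z.Opens}
    (h1 : Function.Injective (χ.app W)) (h2 : Function.Injective (ψ.app W))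
    (f1 : Module.Finite K (Sec z N W ⧸ LinearMap.range (Sec.mapL z χ W)))
    (f2 : Module.Finite K (Sec z M W ⧸ LinearMap.range (Sec.mapL z ψ W))) :
    cok z (χ ≫ ψ) W = cok z χ W + cok z ψ W := by
  have e : Sec.mapL z (χ ≫ ψ) W = (Sec.mapL z ψ W) ∘ₗ (Sec.mapL z χ W) := rfl
  have h3 := ind_comp (fred_of_injective (f := Sec.mapL z χ W) h1 f1)
    (fred_of_injective (f := Sec.mapL z ψ W) h2 f2)
  rw [ind_of_injective (f := Sec.mapL z χ W) h1, ind_of_injective (f := Sec.mapL z ψ W) h2,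
    ind_of_injective (f := (Sec.mapL z ψ W) ∘ₗ (Sec.mapL z χ W)) (h2.comp h1)] at h3
  unfold cok
  rw [e]
  omega

end Finite

section Factor

variable {K : Type u} [Field K] [IsAlgClosed K] {Z : Scheme.{u}} {z : Z ⟶ Spec (CommRingCat.of K)}
  [LocallyOfFiniteType z] {L M : Z.Modules}

omit [IsAlgClosed K] in
lemma subsingleton_of_eq_bot {N : Z.Modules} {W : Z.Opens} (h : W = ⊥) : Subsingleton Γ(N, W) := by
  subst h
  refine ⟨fun a b => ?_⟩
  exact sec_ext (fun i : PEmpty.{1} => i.elim) (fun i => i.elim) (by simp) (fun i => i.elim)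

/-- a morphism of invertible modules which is not an isomorphism vanishes at a rational point -/
theorem exists_vanish (hL : Scheme.Modules.IsInvertible L) (hM : Scheme.Modules.IsInvertible M)
    (z : Z ⟶ Spec (CommRingCat.of K)) [LocallyOfFiniteType z]
    {φ : L ⟶ M} (hφ : ¬ IsIso φ) : ∃ x : Spec (CommRingCat.of K) ⟶ Z, x ≫ z = 𝟙 _ ∧
      ∀ (U : Z.Opens) (n : Γ(L, U)), pb x M (φ.app U n) = 0 := by
  let O : Z.Opens := ⨆ w : {W : Z.Opens // ∃ l : Γ(L, W), IsGen L l ∧ IsGen M (φ.app W l)}, w.1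
  have hO : O ≠ ⊤ := by
    intro hO
    refine hφ (isIso_of_isGen φ fun p => ?_)
    have hp : p ∈ O := by rw [hO]; trivial
    obtain ⟨⟨W, l, hl, hl'⟩, hpW⟩ := Opens.mem_iSup.mp hp
    exact ⟨W, hpW, l, hl, hl'⟩
  obtain ⟨x, hx, hxO⟩ : ∃ x : Spec (CommRingCat.of K) ⟶ Z, x ≫ z = 𝟙 _ ∧
      ¬ Set.range x.base ⊆ O := by
    by_contra hcon
    push Not at hcon
    exact hO (H74.F1.eq_top_of_kPoints z O hcon)
  refine ⟨x, hx, ?_⟩
  set q : Z := x (IsLocalRing.closedPoint K) with hq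
  have hqO : q ∉ O := by
    intro h
    apply hxO
    rintro _ ⟨w, rfl⟩
    have hw : w = IsLocalRing.closedPoint K := Subsingleton.elim _ _
    rw [hw]; exact h
  have htop : ∀ V : Z.Opens, q ∈ V → x ⁻¹ᵁ V = ⊤ := by
    intro V hV
    rcases opens_spec_field (x ⁻¹ᵁ V) with h4 | h4
    · have : (IsLocalRing.closedPoint K : ↥(Spec (CommRingCat.of K))) ∈ x ⁻¹ᵁ V := hV
      rw [h4] at this
      exact absurd this (fun h => h)
    · exact h4
  obtain ⟨W₀, -, hp₀, s₀, hs₀⟩ := exists_isGen_of_mem hM (show q ∈ (⊤ : Z.Opens) from trivial)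
  obtain ⟨W, hW, hqW, l, hl⟩ := exists_isGen_of_mem hL hp₀
  have hs := hs₀.res hW
  obtain ⟨b, hb⟩ := hs.surj (φ.app W l)
  have hb0 : x.app W b = 0 := by
    by_contra hne
    obtain ⟨a, ha⟩ := (strHom_bijective_of_id hx (htop W hqW)).2 (x.app W b)
    have ha0 : a ≠ 0 := by
      rintro rfl
      rw [map_zero] at ha
      exact hne ha.symm
    have hu : IsUnit (x.app W b) := by
      rw [← ha]
      exact (isUnit_iff_ne_zero.mpr ha0).map _
    have hqb : q ∈ Z.basicOpen b := by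
      have h1 : x ⁻¹ᵁ (Z.basicOpen b) = (Spec (CommRingCat.of K)).basicOpen (x.app W b) :=
        Scheme.preimage_basicOpen x b
      have h2 : (Spec (CommRingCat.of K)).basicOpen (x.app W b) = x ⁻¹ᵁ W :=
        Scheme.basicOpen_of_isUnit _ hu
      have h3 : (IsLocalRing.closedPoint K : ↥(Spec (CommRingCat.of K))) ∈
          x ⁻¹ᵁ (Z.basicOpen b) := by
        rw [h1, h2, htop W hqW]; trivial
      exact h3
    apply hqO
    refine Opens.mem_iSup.mpr ⟨⟨Z.basicOpen b, res L (Z.basicOpen_le b) l, hl.res _, ?_⟩, hqb⟩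
    rw [app_res, hb, res_smul]
    exact (hs.res _).unit_smul (H51Aff.isUnit_resO b le_rfl _)
  intro U n
  by_cases hqU : q ∈ U
  · obtain ⟨a, ha⟩ := hl.surj' (inf_le_right : U ⊓ W ≤ W) (res L inf_le_left n)
    have h1 : pb x M (φ.app (U ⊓ W) (res L inf_le_left n)) = 0 := by
      rw [ha, app_smul', app_res, hb, res_smul, pb_smul, pb_smul, app_resO, hb0, resO_zero,
        zero_smul, smul_zero]
    rw [app_res, pb_res] at h1
    have h2 : x ⁻¹ᵁ U ≤ x ⁻¹ᵁ (U ⊓ W) := by
      rw [htop (U ⊓ W) ⟨hqU, hqW⟩]; exact le_top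
    have h3 := congrArg (res _ h2) h1
    rwa [res_res, res_self, res_zero] at h3
  · have h1 : x ⁻¹ᵁ U = ⊥ := by
      rcases opens_spec_field (x ⁻¹ᵁ U) with h4 | h4
      · exact h4
      · have : (IsLocalRing.closedPoint K : ↥(Spec (CommRingCat.of K))) ∈ x ⁻¹ᵁ U := by
          rw [h4]; trivial
        exact absurd this hqU
    have := subsingleton_of_eq_bot (N := (Scheme.Modules.pullback x).obj M) h1
    exact Subsingleton.elim _ _

end Factor

/-! ### chains of twists -/

section Chain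

variable {K : Type u} [Field K] {C T : Scheme.{u}} {c : C ⟶ Spec (CommRingCat.of K)}
  {t : T ⟶ Spec (CommRingCat.of K)}

/-- the Euler characteristic along a chain of twists -/
theorem TwL.chiL {xs : List (SchemeHomOver (𝟙 (Spec (CommRingCat.of K))) c)}
    {L M : (pullback c (𝟙 (Spec (CommRingCat.of K)))).Modules}
    (τ : TwoChart (pullback.snd c (𝟙 (Spec (CommRingCat.of K)))))
    (hL : Scheme.Modules.IsInvertible L) (hM : Scheme.Modules.IsInvertible M)
    (h : TwL xs L M) : H25.chiL τ M hM = H25.chiL τ L hL + xs.length := by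
  induction xs generalizing L with
  | nil =>
    obtain ⟨e⟩ := h
    rw [List.length_nil, Nat.cast_zero, add_zero]
    exact chiL_congr hL hM rfl rfl (resO_self _ _).symm e
  | cons x xs ih =>
    obtain ⟨L', hL', h1, φ, hφ⟩ := h
    rw [ih hL' h1, chiL_tw τ (graph_snd x) hL hL' hφ, List.length_cons]
    push_cast
    ring

variable [IsAlgClosed K] [IsProper c] [SmoothOfRelativeDimension 1 c] [IsIntegral C]

/-- **(F2)** A nonzero morphism of invertible modules on a curve is a twist. -/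
theorem exists_twL_of_ne_zero (τ : TwoChart (pullback.snd c (𝟙 (Spec (CommRingCat.of K)))))
    {L M : (pullback c (𝟙 (Spec (CommRingCat.of K)))).Modules}
    (hL : Scheme.Modules.IsInvertible L) (hM : Scheme.Modules.IsInvertible M) {φ : L ⟶ M}
    (hφ : φ ≠ 0) : ∃ xs : List (SchemeHomOver (𝟙 (Spec (CommRingCat.of K))) c), TwL xs L M := by
  have hint : IsIntegral (pullback c (𝟙 (Spec (CommRingCat.of K)))) :=
    IsIntegral.of_isIso (inv (pullback.fst c (𝟙 (Spec (CommRingCat.of K)))))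
  induction hn : cok (pullback.snd c (𝟙 _)) φ τ.U + cok (pullback.snd c (𝟙 _)) φ τ.V using
    Nat.strong_induction_on generalizing M with
  | _ n ih =>
    by_cases hiso : IsIso φ
    · exact ⟨[], ⟨asIso φ⟩⟩
    · obtain ⟨x, hx, hvan⟩ := exists_vanish hL hM (pullback.snd c (𝟙 _)) hiso
      -- `x` is a graph
      let x' : SchemeHomOver (𝟙 (Spec (CommRingCat.of K))) c :=
        ⟨x ≫ pullback.fst c (𝟙 _), by
          rw [Category.assoc, pullback.condition, Category.comp_id, hx]⟩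
      have hgx : graph x' = x := by
        apply pullback.hom_ext
        · simp [x']
        · rw [graph_snd, hx]
      have hcart : IsCart x := by
        rw [← hgx]; exact isCart_graph x'
      have htw := twι_twHom x M
      obtain ⟨χ, hχ⟩ := htw.exists_lift φ hvan
      have hN : Scheme.Modules.IsInvertible (tw x M) := htw.isInvertible hcart hM
      have hχ0 : χ ≠ 0 := by
        rintro rfl
        rw [zero_comp] at hχ
        exact hφ hχ.symm
      obtain ⟨gU, u1, u0⟩ := cok_tw hx hM htw τ.affU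
      obtain ⟨gV, v1, v0⟩ := cok_tw hx hM htw τ.affV
      have eU := cok_comp (z := pullback.snd c (𝟙 _)) (app_injective_of_ne_zero hL hN hχ0 τ.U)
        (htw τ.U).1 (finite_cokU τ hL hN hχ0) gU
      have eV := cok_comp (z := pullback.snd c (𝟙 _)) (app_injective_of_ne_zero hL hN hχ0 τ.V)
        (htw τ.V).1 (finite_cokV τ hL hN hχ0) gV
      rw [hχ] at eU eV
      have hpos : 0 < cok (pullback.snd c (𝟙 _)) (twι x M) τ.U +
          cok (pullback.snd c (𝟙 _)) (twι x M) τ.V := by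
        have hcov : x ⁻¹ᵁ τ.U ⊔ x ⁻¹ᵁ τ.V = ⊤ := by
          rw [← Scheme.Hom.preimage_sup, τ.cover]; rfl
        rcases opens_spec_field (x ⁻¹ᵁ τ.U) with h4 | h4
        · rw [h4, bot_sup_eq] at hcov
          rw [v1 hcov]; omega
        · rw [u1 h4]; omega
      obtain ⟨xs, hxs⟩ := ih _ (by omega) hN hχ0 rfl
      refine ⟨xs ++ [x'], hxs.append (TwL.single hM ?_)⟩
      rw [hgx]
      exact ⟨_, htw⟩

end Chain

end Fermat.Agent.H20T
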