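import Fermat.Agent.H25Chi
/-!
# S25: local constancy of the Euler characteristic in families over arbitrary bases
-/
set_option autoImplicit false
universe u v
open CategoryTheory AlgebraicGeometry CategoryTheory.Limits TopologicalSpace Opposite Polynomial
open NeronModelInfra AlgebraicGeometry.RelPicard

noncomputable section

namespace Fermat.Agent.H25

open H21T

variable {k : Type u} [Field k] {C : Scheme.{u}} {c : C ⟶ Spec (CommRingCat.of k)}
  {ε : SchemeHomOver (𝟙 (Spec (CommRingCat.of k))) c} (τ : TwoChart c)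
  {W W' : Scheme.{u}} {w : W ⟶ Spec (CommRingCat.of k)} {w' : W' ⟶ Spec (CommRingCat.of k)}

/-- the Euler characteristic of the fibre at a field-valued point -/
def chiAt (F : SPic (pullback c w)) {K : Type u} [Field K] (s : Spec (CommRingCat.of K) ⟶ W) : ℤ :=
  chiP τ (s ≫ w) (SPic.map (baseChangeSnd c (⟨s, rfl⟩ : SchemeHomOver (s ≫ w) w)) F)

lemma chiAt_eq (F : SPic (pullback c w)) {K : Type u} [Field K]
    {z : Spec (CommRingCat.of K) ⟶ Spec (CommRingCat.of k)} (s : SchemeHomOver z w) :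
    chiAt τ F s.1 = chiP τ z (SPic.map (baseChangeSnd c s) F) := by
  obtain ⟨s, rfl⟩ := s
  rfl

lemma chiAt_map (F : SPic (pullback c w)) (v : SchemeHomOver w' w) {K : Type u} [Field K]
    (s : Spec (CommRingCat.of K) ⟶ W') :
    chiAt τ (SPic.map (baseChangeSnd c v) F) s = chiAt τ F (s ≫ v.1) := by
  have h := chiAt_eq τ F (shComp (⟨s, rfl⟩ : SchemeHomOver (s ≫ w') w') v)
  refine Eq.trans ?_ h.symm
  rw [chiAt, ← SPic.map_comp_apply, baseChangeSnd_shComp]

lemma chiAt_comp (F : SPic (pullback c w)) {K K' : Type u} [Field K] [Field K']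
    (s : Spec (CommRingCat.of K) ⟶ W) (r : Spec (CommRingCat.of K') ⟶ Spec (CommRingCat.of K)) :
    chiAt τ F (r ≫ s) = chiAt τ F s := by
  have h := chiAt_eq τ F (shComp (⟨r, rfl⟩ : SchemeHomOver (r ≫ s ≫ w) (s ≫ w))
    (⟨s, rfl⟩ : SchemeHomOver (s ≫ w) w))
  refine h.trans ?_
  rw [← baseChangeSnd_shComp, SPic.map_comp_apply, chiP_map]
  rfl

/-- local constancy over an affine base -/
lemma exists_chiAt {A : Type u} [CommRing A]
    {z : Spec (CommRingCat.of A) ⟶ Spec (CommRingCat.of k)} (F : SPic (pullback c z)) :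
    ∃ χ : PrimeSpectrum A → ℤ, IsLocallyConstant χ ∧ ∀ (K : Type u) [Field K]
      (s : Spec (CommRingCat.of K) ⟶ Spec (CommRingCat.of A)),
        chiAt τ F s = χ (s.base (IsLocalRing.closedPoint K)) := by
  induction F using SPic.ind with | _ L hL
  obtain ⟨χ, h1, h2⟩ := exists_chiL (H51Pb.baseChange τ z) hL
  refine ⟨χ, h1, fun K _ s => ?_⟩
  obtain ⟨-, -, h3⟩ := h2 K (isPullback_baseChangeSnd c (⟨s, rfl⟩ : SchemeHomOver (s ≫ z) z))
    (H51Pb.baseChange τ (s ≫ z)) (bcs_U τ _) (bcs_V τ _) (bcs_t τ _)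
    (isInvertible_pullback _ hL) (Iso.refl _)
  refine h3.trans ?_
  congr 1
  obtain ⟨φ, rfl⟩ := Spec.map_surjective s
  rw [Spec.preimage_map]
  change _ = PrimeSpectrum.comap φ.hom _
  congr 1
  exact Subsingleton.elim _ _

/-- the Euler characteristic of the fibre at a point -/
def chiPt (F : SPic (pullback c w)) (x : W) : ℤ :=
  chiAt τ F (K := W.residueField x) (W.fromSpecResidueField x)

lemma chiAt_eq_chiPt (F : SPic (pullback c w)) {K : Type u} [Field K]
    (s : Spec (CommRingCat.of K) ⟶ W) :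
    chiAt τ F s = chiPt τ F (s.base (IsLocalRing.closedPoint K)) := by
  have h := Scheme.descResidueField_stalkClosedPointTo_fromSpecResidueField K W s
  conv_lhs => rw [← h]
  exact chiAt_comp τ F (K := W.residueField (s.base (IsLocalRing.closedPoint K))) _ _

/-- **local constancy of the Euler characteristic** -/
theorem isLocallyConstant_chiPt (F : SPic (pullback c w)) : IsLocallyConstant (chiPt τ F) := by
  rw [IsLocallyConstant.iff_exists_open]
  intro x
  obtain ⟨U, hU, hxU, -⟩ := exists_isAffineOpen_mem_and_subset (x := x) (U := ⊤) trivial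
  let f : Spec (CommRingCat.of Γ(W, U)) ⟶ W := hU.fromSpec
  have hf : IsOpenImmersion f := inferInstanceAs (IsOpenImmersion hU.fromSpec)
  have hfr : Set.range f.base = U := hU.range_fromSpec
  obtain ⟨χ, h1, h2⟩ := exists_chiAt τ (SPic.map (baseChangeSnd c
    (⟨f, rfl⟩ : SchemeHomOver (f ≫ w) w)) F)
  have h3 : ∀ y : Spec (CommRingCat.of Γ(W, U)), chiPt τ F (f.base y) = χ y := by
    intro y
    have h4 := h2 ((Spec (CommRingCat.of Γ(W, U))).residueField y)
      ((Spec (CommRingCat.of Γ(W, U))).fromSpecResidueField y)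
    rw [Scheme.fromSpecResidueField_apply] at h4
    rw [← h4, chiAt_map, chiAt_eq_chiPt]
    congr 1
    change _ = f.base (((Spec (CommRingCat.of Γ(W, U))).fromSpecResidueField y).base _)
    congr 1
    exact (Scheme.fromSpecResidueField_apply _ _).symm
  obtain ⟨y, rfl⟩ : x ∈ Set.range f.base := by rw [hfr]; exact hxU
  obtain ⟨O, hO, hyO, hO'⟩ := (IsLocallyConstant.iff_exists_open _).mp h1 y
  refine ⟨f.base '' O, f.isOpenEmbedding.isOpenMap O hO, ⟨y, hyO, rfl⟩, ?_⟩
  rintro _ ⟨y', hy', rfl⟩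
  rw [h3, h3]
  exact hO' y' hy'

theorem chiPt_const [PreconnectedSpace W] (F : SPic (pullback c w)) (x y : W) :
    chiPt τ F x = chiPt τ F y :=
  (isLocallyConstant_chiPt τ F).apply_eq_of_preconnectedSpace x y

theorem chiAt_const [PreconnectedSpace W] (F : SPic (pullback c w)) {K K' : Type u} [Field K]
    [Field K'] (s : Spec (CommRingCat.of K) ⟶ W) (s' : Spec (CommRingCat.of K') ⟶ W) :
    chiAt τ F s = chiAt τ F s' := by
  rw [chiAt_eq_chiPt, chiAt_eq_chiPt]
  exact chiPt_const τ F _ _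

end Fermat.Agent.H25
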