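import Fermat.Agent.H20Deg2
import Fermat.Agent.H25ChiLC
/-!
# S25, block F, part 3: algebraic equivalence and Euler characteristics
-/
set_option autoImplicit false
universe u v
open CategoryTheory AlgebraicGeometry CategoryTheory.Limits TopologicalSpace Opposite Module
open AlgebraicGeometry.RelPicard NeronModelInfra

noncomputable section

namespace Fermat.Agent.H20T

open Fermat.Agent.H25 Fermat.Agent.H21T

section Sections

variable {K : Type u} [Field K] {Z : Scheme.{u}} {z : Z ⟶ Spec (CommRingCat.of K)}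

/-- **(F3)** a line bundle with positive Euler characteristic has a nonzero section -/
theorem exists_hom_of_chiL_pos (τ : TwoChart z) {L : Z.Modules}
    (hL : Scheme.Modules.IsInvertible L) (h : 0 < chiL τ L hL) :
    ∃ φ : uMod Z ⟶ L, φ ≠ 0 := by
  obtain ⟨x, hx, hx0⟩ : ∃ x ∈ ((latOf τ L hL).P ⊓ (latOf τ L hL).Q :
      Submodule K (Sec z L (τ.U ⊓ τ.V))), x ≠ 0 := by
    rw [← Submodule.ne_bot_iff]
    intro hbot
    rw [chiL, hbot] at h
    have h1 : Module.finrank K (⊥ : Submodule K (Sec z L (τ.U ⊓ τ.V))) = 0 := finrank_bot _ _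
    rw [h1] at h
    omega
  obtain ⟨⟨a, ha⟩, ⟨b, hb⟩⟩ := hx
  have hab : res L (inf_le_left : τ.U ⊓ τ.V ≤ τ.U) a.s = res L inf_le_right b.s :=
    (congrArg Sec.s ha).trans (congrArg Sec.s hb).symm
  obtain ⟨s, hs⟩ := sec_glue (M := L) (U := ⊤) (fun i : Bool => cond i τ.U τ.V)
    (fun i => le_top) (by
      rw [← τ.cover]
      exact sup_le (le_iSup (fun i : Bool => cond i τ.U τ.V) true)
        (le_iSup (fun i : Bool => cond i τ.U τ.V) false))
    (fun i => match i with
      | true => a.s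
      | false => b.s) (by
      rintro (_ | _) (_ | _) V hi hj
      · rfl
      · have := congrArg (res L (le_inf hj hi : V ≤ τ.U ⊓ τ.V)) hab
        rw [res_res, res_res] at this
        exact this.symm
      · have := congrArg (res L (le_inf hi hj : V ≤ τ.U ⊓ τ.V)) hab
        rw [res_res, res_res] at this
        exact this
      · rfl)
  have hsa : res L le_top s = a.s := hs true
  refine ⟨unitHom s, fun h0 => hx0 ?_⟩
  have h1 : (unitHom s).app ⊤ (uSec 1) = s := by
    rw [unitHom_app, uFun_uSec, one_smul, res_self]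
  have h2 : s = 0 := by
    rw [← h1, h0]; rfl
  rw [← ha]
  apply Sec.ext
  rw [Sec.resL_s, ← hsa, h2, res_zero, res_zero]
  rfl

end Sections

section Curve

variable {K : Type u} [Field K] {C : Scheme.{u}} {c : C ⟶ Spec (CommRingCat.of K)}

/-- the Euler characteristic on `C ×_K K` -/
theorem chiP_id (τ : TwoChart c) {L : C.Modules} (hL : Scheme.Modules.IsInvertible L) :
    chiP τ (𝟙 _) (SPic.mk ((Scheme.Modules.pullback (pullback.fst c
      (𝟙 (Spec (CommRingCat.of K))))).obj L) (hL.pullback _)) = chiL τ L hL :=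
  chiL_baseChange τ hL (IsPullback.of_hasPullback c (𝟙 _)) (H51Pb.baseChange τ (𝟙 _)) rfl rfl
    (resO_self _ _).symm _ (Iso.refl _)

variable [IsAlgClosed K] [IsProper c] [SmoothOfRelativeDimension 1 c] [IsIntegral C]

omit [IsProper c] [SmoothOfRelativeDimension 1 c] [IsIntegral C] in
theorem exists_kPoint (c : C ⟶ Spec (CommRingCat.of K)) [LocallyOfFiniteType c] [Nonempty C] :
    Nonempty (SchemeHomOver (𝟙 (Spec (CommRingCat.of K))) c) := by
  by_contra hcon
  have h : (⊥ : C.Opens) = ⊤ := H74.F1.eq_top_of_kPoints c ⊥ fun x hx =>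
    absurd ⟨⟨x, hx⟩⟩ hcon
  obtain ⟨q⟩ := (inferInstance : Nonempty C)
  have : q ∈ (⊥ : C.Opens) := by rw [h]; trivial
  exact this

/-- Two line bundles with the same Euler characteristic have a common twist by effective divisors
of the same degree. -/
theorem exists_common_twist (τ : TwoChart c)
    {L : (pullback c (𝟙 (Spec (CommRingCat.of K)))).Modules}
    (hL : Scheme.Modules.IsInvertible L) {n : ℕ}
    (hχ : chiP τ (𝟙 _) (SPic.mk L hL) = chiP τ (𝟙 _) 1)
    (hn : 0 < chiP τ (𝟙 (Spec (CommRingCat.of K))) 1 + n)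
    (x₀ : SchemeHomOver (𝟙 (Spec (CommRingCat.of K))) c) :
    ∃ (M : (pullback c (𝟙 (Spec (CommRingCat.of K)))).Modules)
      (ys : List (SchemeHomOver (𝟙 (Spec (CommRingCat.of K))) c)),
      Scheme.Modules.IsInvertible M ∧ ys.length = n ∧ TwL (List.replicate n x₀) L M ∧
        TwL ys (uMod (pullback c (𝟙 _))) M := by
  obtain ⟨M, hM, hM'⟩ := exists_twL_inv (List.replicate n x₀) hL
  have h1 := TwL.chiL (H51Pb.baseChange τ (𝟙 _)) hL hM hM'
  rw [List.length_replicate] at h1
  have h2 : H25.chiL (H51Pb.baseChange τ (𝟙 _)) L hL = chiP τ (𝟙 _) 1 := hχ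
  obtain ⟨φ, hφ⟩ := exists_hom_of_chiL_pos (H51Pb.baseChange τ (𝟙 _)) hM (by
    rw [h1, h2]; exact hn)
  obtain ⟨ys, hys⟩ := exists_twL_of_ne_zero (H51Pb.baseChange τ (𝟙 _)) (isInvertible_uMod _) hM hφ
  refine ⟨M, ys, hM, ?_, hM', hys⟩
  have h3 := TwL.chiL (H51Pb.baseChange τ (𝟙 _)) (isInvertible_uMod _) hM hys
  have h4 : H25.chiL (H51Pb.baseChange τ (𝟙 _)) (uMod (pullback c (𝟙 _))) (isInvertible_uMod _) =
    chiP τ (𝟙 _) 1 := rfl
  rw [h4, h1, h2] at h3
  omega

/-- `n` with `χ(O) + n > 0` -/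
theorem exists_nat_pos (a : ℤ) : ∃ n : ℕ, 0 < a + n := ⟨a.natAbs + 1, by omega⟩

/-- **(F4)** algebraic equivalence to zero is detected by the Euler characteristic -/
theorem isAlgEquivZero_iff (τ : TwoChart c) {L : C.Modules}
    (hL : Scheme.Modules.IsInvertible L) :
    IsAlgEquivZero c L ↔ chiL τ L hL = chiL τ (uMod C) (isInvertible_uMod C) := by
  have hO : chiL τ (uMod C) (isInvertible_uMod C) = chiP τ (𝟙 _) 1 := by
    rw [← chiP_id, SPic.one_def]
    congr 1
    rw [SPic.mk_eq_mk]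
    exact ⟨Scheme.Modules.pullbackUnitIso _⟩
  rw [hO, ← chiP_id]
  constructor
  · rintro ⟨T', h, _, hgi, M, hM, t₀, t₁, ⟨e₀⟩, ⟨e₁⟩⟩
    have hint : IsIntegral T' := by
      have := hgi.geometrically_isIntegral (𝟙 _) (𝟙 T') h (IsPullback.of_horiz_isIso ⟨by simp⟩)
      exact this
    have h1 := chiAt_const τ (w := h) (SPic.mk M hM) t₀.1 t₁.1
    rw [chiAt_eq, chiAt_eq, SPic.map_mk, SPic.map_mk] at h1
    have h2 : SPic.mk _ (isInvertible_pullback (baseChangeSnd c t₀) hM) = 1 := by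
      rw [SPic.mk_eq_one_iff]
      exact ⟨e₀⟩
    rw [h2] at h1
    rw [h1]
    congr 1
    rw [SPic.mk_eq_mk]
    exact ⟨e₁.symm⟩
  · intro hχ
    obtain ⟨x₀⟩ := exists_kPoint c
    obtain ⟨n, hn⟩ := exists_nat_pos (chiP τ (𝟙 (Spec (CommRingCat.of K))) 1)
    obtain ⟨M, ys, hM, hlen, h1, h2⟩ := exists_common_twist τ (hL.pullback _) hχ hn x₀
    exact isAlgEquivZero_of_twL c hM (by rw [hlen, List.length_replicate]) h2 h1

end Curve

section Families

variable {k : Type u} [Field k] {C T : Scheme.{u}} {c : C ⟶ Spec (CommRingCat.of k)}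
  {ε : SchemeHomOver (𝟙 (Spec (CommRingCat.of k))) c} {t : T ⟶ Spec (CommRingCat.of k)}
  [IsAlgClosed k] [IsProper c] [SmoothOfRelativeDimension 1 c] [IsIntegral C]

omit [IsAlgClosed k] [IsProper c] [SmoothOfRelativeDimension 1 c] [IsIntegral C] in
theorem isPullback_fibre (c : C ⟶ Spec (CommRingCat.of k)) (t : T ⟶ Spec (CommRingCat.of k))
    {K : Type u} [Field K] (s : Spec (CommRingCat.of K) ⟶ T) :
    IsPullback (pullback.fst (pullback.snd c t) s ≫ pullback.fst c t)
      (pullback.snd (pullback.snd c t) s) c (s ≫ t) :=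
  (IsPullback.of_hasPullback (pullback.snd c t) s).paste_horiz (IsPullback.of_hasPullback c t)

/-- the two-chart presentation of the fibre over a field-valued point -/
def fibreChart (τ : TwoChart c) (t : T ⟶ Spec (CommRingCat.of k)) {K : Type u} [Field K]
    (s : Spec (CommRingCat.of K) ⟶ T) : TwoChart (fibreAt c t s) :=
  H51Pb.twoChartOfIsPullback (isPullback_fibre c t s) τ

omit [IsAlgClosed k] [IsProper c] [SmoothOfRelativeDimension 1 c] [IsIntegral C] in
theorem chiL_fibre (τ : TwoChart c) {K : Type u} [Field K] (s : Spec (CommRingCat.of K) ⟶ T)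
    {M : (pullback c t).Modules} (hM : Scheme.Modules.IsInvertible M) :
    chiL (fibreChart τ t s)
      ((Scheme.Modules.pullback (pullback.fst (pullback.snd c t) s)).obj M) (hM.pullback _) =
      chiAt τ (SPic.mk M hM) s := by
  have H := isPullback_fibre c t s
  let e := H.isoPullback.hom
  have he1 : e ≫ pullback.fst c (s ≫ t) =
    pullback.fst (pullback.snd c t) s ≫ pullback.fst c t := H.isoPullback_hom_fst
  have he2 : e ≫ pullback.snd c (s ≫ t) = pullback.snd (pullback.snd c t) s :=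
    H.isoPullback_hom_snd
  let ψ : SchemeHomOver (s ≫ t) t := ⟨s, rfl⟩
  have he : e ≫ baseChangeSnd c ψ = pullback.fst (pullback.snd c t) s := by
    apply pullback.hom_ext
    · rw [Category.assoc, baseChangeSnd_fst, he1]
    · rw [Category.assoc, baseChangeSnd_snd, ← Category.assoc, he2, pullback.condition]
  have hsq : IsPullback e (fibreAt c t s) (pullback.snd c (s ≫ t)) (𝟙 _) :=
    IsPullback.of_horiz_isIso ⟨by rw [he2, Category.comp_id]; rfl⟩
  exact chiL_baseChange (H51Pb.baseChange τ (s ≫ t)) (hM.pullback (baseChangeSnd c ψ)) hsq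
    (fibreChart τ t s)
    (by
      change (pullback.fst (pullback.snd c t) s ≫ pullback.fst c t) ⁻¹ᵁ τ.U =
        e ⁻¹ᵁ (pullback.fst c (s ≫ t) ⁻¹ᵁ τ.U)
      rw [← he1]; rfl)
    (by
      change (pullback.fst (pullback.snd c t) s ≫ pullback.fst c t) ⁻¹ᵁ τ.V =
        e ⁻¹ᵁ (pullback.fst c (s ≫ t) ⁻¹ᵁ τ.V)
      rw [← he1]; rfl)
    (app_of_eq he1 _ _) _
    ((Scheme.Modules.pullbackComp _ _).app M ≪≫ (Scheme.Modules.pullbackCongr he).app M)

omit [IsAlgClosed k] [IsProper c] [SmoothOfRelativeDimension 1 c] [IsIntegral C] in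
theorem chiL_fibre_unit (τ : TwoChart c) {K : Type u} [Field K]
    (s : Spec (CommRingCat.of K) ⟶ T) :
    chiL (fibreChart τ t s) (uMod _) (isInvertible_uMod _) = chiP τ (𝟙 _) 1 := by
  have h1 := chiL_fibre (t := t) τ s (isInvertible_uMod (pullback c t))
  have h2 : chiL (fibreChart τ t s) (uMod _) (isInvertible_uMod _) =
      chiL (fibreChart τ t s)
      ((Scheme.Modules.pullback (pullback.fst (pullback.snd c t) s)).obj (uMod _))
        ((isInvertible_uMod _).pullback _) :=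
    chiL_congr _ _ rfl rfl (resO_self _ _).symm (Scheme.Modules.pullbackUnitIso _)
  rw [h2, h1, ← SPic.one_def, chiAt, map_one]
  have h3 := chiP_map τ (⟨s ≫ t, Category.comp_id _⟩ :
    SchemeHomOver (s ≫ t) (𝟙 (Spec (CommRingCat.of k)))) 1
  rw [map_one] at h3
  exact h3

/-- **(F4')** fibrewise algebraic equivalence to zero -/
theorem fibrewiseAlgEquivZero_iff (τ : TwoChart c) (M : RigidifiedLineBundle c ε t) :
    FibrewiseAlgEquivZero M ↔ ∀ (K : Type u) [Field K] [IsAlgClosed K]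
      (s : Spec (CommRingCat.of K) ⟶ T), chiAt τ (cl M) s = chiP τ (𝟙 _) 1 := by
  have key : ∀ (K : Type u) [Field K] [IsAlgClosed K] (s : Spec (CommRingCat.of K) ⟶ T),
      IsAlgEquivZero (fibreAt c t s)
        ((Scheme.Modules.pullback (pullback.fst (pullback.snd c t) s)).obj M.L) ↔
      chiAt τ (cl M) s = chiP τ (𝟙 _) 1 := by
    intro K _ _ s
    have h1 : IsProper (fibreAt c t s) :=
      inferInstanceAs (IsProper (pullback.snd (pullback.snd c t) s))
    have h2 : SmoothOfRelativeDimension 1 (fibreAt c t s) :=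
      have := smoothOfRelativeDimension_isStableUnderBaseChange 1
      MorphismProperty.of_isPullback (P := @SmoothOfRelativeDimension 1)
        (isPullback_fibre c t s) ‹_›
    have h3 : IsIntegral (pullback (pullback.snd c t) s) :=
      (H74.F1.geometricallyIntegral c).geometrically_isIntegral (s ≫ t) _ _
        (isPullback_fibre c t s)
    rw [isAlgEquivZero_iff (fibreChart τ t s) (M.isInvertible.pullback _), chiL_fibre,
      chiL_fibre_unit]
    rfl
  exact forall_congr' fun K => forall_congr' fun _ => forall_congr' fun _ =>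
    forall_congr' fun s => key K s

end Families

section Proper

variable {k : Type u} [Field k] {C : Scheme.{u}} {c : C ⟶ Spec (CommRingCat.of k)}
  {ε : SchemeHomOver (𝟙 (Spec (CommRingCat.of k))) c}
  [IsAlgClosed k] [IsProper c] [SmoothOfRelativeDimension 1 c] [IsIntegral C]

/-- **(F5)** the component of Euler characteristic `χ(O)` is proper and geometrically connected. -/
theorem isProper_and_geometricallyConnected_of_chi (τ : TwoChart c) {P : Scheme.{u}}
    {p : P ⟶ Spec (CommRingCat.of k)} [LocallyOfFiniteType p] [IsSeparated p]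
    (Poin : RigidifiedLineBundle c ε p)
    (hmono : ∀ {T : Scheme.{u}} (t : T ⟶ Spec (CommRingCat.of k)) (g g' : SchemeHomOver t p),
      Nonempty ((Poin.pullbackAlong g).L ≅ (Poin.pullbackAlong g').L) → g = g')
    {ι : Type u} (𝒞 : ι → PicChart c ε)
    (hE : ∀ {T : Scheme.{u}} (t : T ⟶ Spec (CommRingCat.of k)) (M : RigidifiedLineBundle c ε t),
      (⨆ i, (𝒞 i).locus t M = ⊤) ↔
        ∃ g : SchemeHomOver t p, Nonempty ((Poin.pullbackAlong g).L ≅ M.L))
    (h1 : ∀ M : RigidifiedLineBundle c ε (𝟙 (Spec (CommRingCat.of k))),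
      chiP τ (𝟙 _) (cl M) = chiP τ (𝟙 _) 1 →
        ∃ g : SchemeHomOver (𝟙 (Spec (CommRingCat.of k))) p,
          Nonempty ((Poin.pullbackAlong g).L ≅ M.L))
    (h2 : ∀ g : SchemeHomOver (𝟙 (Spec (CommRingCat.of k))) p,
      chiP τ (𝟙 _) (cl (Poin.pullbackAlong g)) = chiP τ (𝟙 _) 1) :
    IsProper p ∧ GeometricallyConnected p := by
  obtain ⟨x₀⟩ := exists_kPoint c
  obtain ⟨n, hn⟩ := exists_nat_pos (chiP τ (𝟙 (Spec (CommRingCat.of k))) 1)
  have hOinv := isInvertible_uMod (pullback c (𝟙 (Spec (CommRingCat.of k))))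
  obtain ⟨M₁, hM₁, hM₁'⟩ := exists_twL (List.replicate n x₀) hOinv
  obtain ⟨M₀, hM₀, ⟨e₀⟩⟩ := exists_descend c hM₁
  have hχ₁ : H25.chiL (H51Pb.baseChange τ (𝟙 _)) M₁ hM₁ + n = chiP τ (𝟙 _) 1 := by
    have := TwL.chiL (H51Pb.baseChange τ (𝟙 _)) hM₁ hOinv hM₁'
    rw [List.length_replicate] at this
    exact this.symm
  obtain ⟨Y, y, N, hy1, hy2, -, hN, hfib, hex⟩ := exists_family_inv c hM₀ n
  obtain ⟨g, hg⟩ := exists_classify Poin hmono (t := y) 𝒞 hE hN (by
    intro x
    obtain ⟨xs, hxs, hx⟩ := hfib _ x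
    have hNx : Scheme.Modules.IsInvertible
        ((Scheme.Modules.pullback (baseChangeSnd c x)).obj N) := hN.pullback _
    have h3 := TwL.chiL (H51Pb.baseChange τ (𝟙 _)) hM₁ hNx (hx.of_iso e₀ (Iso.refl _))
    obtain ⟨M, hM⟩ := exists_cl (ε := ε) (SPic.mk _ hNx) (spic_spec_field k _)
    have h4 : chiP τ (𝟙 _) (cl M) = chiP τ (𝟙 _) 1 := by
      rw [hM, ← hχ₁, ← hxs]
      exact h3
    obtain ⟨g, ⟨e⟩⟩ := h1 M h4
    rw [cl, SPic.mk_eq_mk] at hM
    exact ⟨g, ⟨e ≪≫ hM.some⟩⟩)
  have hprop : IsProper (g.1 ≫ p) := by rw [g.2]; exact hy1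
  have hconn : GeometricallyConnected (g.1 ≫ p) := by
    rw [g.2]; exact H74.F1.geometricallyConnected y
  have hsurj : Surjective g.1 := by
    refine H74.F1.surjective_of_kPoints g.1 p fun x hx ↦ ?_
    have hinv := (Poin.pullbackAlong (⟨x, hx⟩ :
      SchemeHomOver (𝟙 (Spec (CommRingCat.of k))) p)).isInvertible
    obtain ⟨M, ys, hM, hlen, h3, h4⟩ := exists_common_twist τ hinv (h2 ⟨x, hx⟩) hn x₀
    obtain ⟨N', hN', h5, h6⟩ := TwL.split (((hM₁'.append h4)).perm
      (List.perm_append_comm)) hM₁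
    obtain ⟨e6⟩ := h6.uniq h3 (Iso.refl _)
    obtain ⟨ψ, hψ⟩ := hex _ ys hlen
    refine ⟨ψ.1, ?_⟩
    have h3 : postComp g ψ = (⟨x, hx⟩ : SchemeHomOver (𝟙 (Spec (CommRingCat.of k))) p) := by
      refine hmono _ _ _ ?_
      obtain ⟨e1⟩ := classify_fibre Poin hg ψ
      obtain ⟨e2⟩ := TwL.uniq_inv hψ (h5.of_iso (Iso.refl _) e6) e₀
      exact ⟨e1 ≪≫ e2⟩
    exact congrArg Subtype.val h3
  exact ⟨H74.F1.isProper_of_surjective g.1 p, H74.F1.geometricallyConnected_of_surjective g.1 p⟩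

end Proper

end Fermat.Agent.H20T
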