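import Fermat.Agent.H20Deg3
/-!
# S25: a proper integral family containing all classes with the Euler characteristic of `O`
-/
set_option autoImplicit false
universe u v
open CategoryTheory AlgebraicGeometry CategoryTheory.Limits TopologicalSpace Opposite Module
open AlgebraicGeometry.RelPicard NeronModelInfra

noncomputable section

namespace Fermat.Agent.H20T

open Fermat.Agent.H25 Fermat.Agent.H21T

variable {k : Type u} [Field k] {C : Scheme.{u}} {c : C ⟶ Spec (CommRingCat.of k)}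
  [IsAlgClosed k] [IsProper c] [SmoothOfRelativeDimension 1 c] [IsIntegral C]

/-- **a proper integral family containing exactly the classes with `χ = χ(O)`** -/
theorem exists_surj_family (τ : TwoChart c) :
    ∃ (Y : Scheme.{u}) (y : Y ⟶ Spec (CommRingCat.of k)) (_ : IsProper y) (_ : IsIntegral Y)
      (F : SPic (pullback c y)),
      (∀ s : SchemeHomOver (𝟙 (Spec (CommRingCat.of k))) y,
        chiP τ (𝟙 _) (SPic.map (baseChangeSnd c s) F) = chiP τ (𝟙 _) 1) ∧
      ∀ α : SPic (pullback c (𝟙 (Spec (CommRingCat.of k)))), chiP τ (𝟙 _) α = chiP τ (𝟙 _) 1 →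
        ∃ s : SchemeHomOver (𝟙 (Spec (CommRingCat.of k))) y,
          SPic.map (baseChangeSnd c s) F = α := by
  obtain ⟨x₀⟩ := exists_kPoint c
  obtain ⟨n, hn⟩ := exists_nat_pos (chiP τ (𝟙 (Spec (CommRingCat.of k))) 1)
  have hOinv := isInvertible_uMod (pullback c (𝟙 (Spec (CommRingCat.of k))))
  obtain ⟨M₁, hM₁, hM₁'⟩ := exists_twL (List.replicate n x₀) hOinv
  obtain ⟨M₀, hM₀, ⟨e₀⟩⟩ := exists_descend c hM₁
  have hχ₁ : H25.chiL (H51Pb.baseChange τ (𝟙 _)) M₁ hM₁ + n = chiP τ (𝟙 _) 1 := by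
    have := TwL.chiL (H51Pb.baseChange τ (𝟙 _)) hM₁ hOinv hM₁'
    rw [List.length_replicate] at this
    exact this.symm
  obtain ⟨Y, y, N, hy1, hy2, -, hN, hfib, hex⟩ := exists_family_inv c hM₀ n
  refine ⟨Y, y, hy1, hy2, SPic.mk N hN, ?_, ?_⟩
  · intro x
    obtain ⟨xs, hxs, hx⟩ := hfib _ x
    have hNx : Scheme.Modules.IsInvertible
        ((Scheme.Modules.pullback (baseChangeSnd c x)).obj N) := hN.pullback _
    have h3 := TwL.chiL (H51Pb.baseChange τ (𝟙 _)) hM₁ hNx (hx.of_iso e₀ (Iso.refl _))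
    rw [SPic.map_mk, ← hχ₁, ← hxs]
    exact h3
  · intro α
    induction α using SPic.ind with | _ L hL
    intro hχ
    obtain ⟨M, ys, hM, hlen, h3, h4⟩ := exists_common_twist τ hL hχ hn x₀
    obtain ⟨N', hN', h5, h6⟩ := TwL.split (((hM₁'.append h4)).perm
      (List.perm_append_comm)) hM₁
    obtain ⟨e6⟩ := h6.uniq h3 (Iso.refl _)
    obtain ⟨ψ, hψ⟩ := hex _ ys hlen
    refine ⟨ψ, ?_⟩
    rw [SPic.map_mk, SPic.mk_eq_mk]
    exact TwL.uniq_inv hψ (h5.of_iso (Iso.refl _) e6) e₀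

end Fermat.Agent.H20T
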