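import Mathlib

/-!
Matrix algebra of the cyclic group `ZMod n` acting on a finite set `X`: spectral projectors,
and the determinant of `∑ a, w^{-a} P_a`.
-/

open Matrix Finset

noncomputable section

namespace Fermat.Agent.H20

variable {X : Type*} [Fintype X] [DecidableEq X] (n : ℕ) [NeZero n] [AddAction (ZMod n) X]

/-- permutation matrices. -/
def Rm (j : ZMod n) : Matrix X X ℂ := Matrix.of fun x y => if j +ᵥ x = y then 1 else 0

omit [NeZero n] [Fintype X] in
theorem Rm_apply (j : ZMod n) (x y : X) : Rm n j x y = if j +ᵥ x = y then 1 else 0 := rfl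

omit [NeZero n] in
theorem Rm_mul (j k : ZMod n) : (Rm n j : Matrix X X ℂ) * Rm n k = Rm n (j + k) := by
  ext x y
  simp only [Matrix.mul_apply, Rm_apply, ite_mul, one_mul, zero_mul]
  rw [Finset.sum_ite_eq]
  simp only [mem_univ, if_true]
  rw [← add_vadd, add_comm]

omit [NeZero n] [Fintype X] in
theorem Rm_zero : (Rm n 0 : Matrix X X ℂ) = 1 := by
  ext x y
  simp [Rm_apply, Matrix.one_apply]

omit [NeZero n] [Fintype X] in
theorem Rm_transpose (j : ZMod n) : (Rm n j : Matrix X X ℂ)ᵀ = Rm n (-j) := by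
  ext x y
  simp only [Matrix.transpose_apply, Rm_apply]
  congr 1
  rw [eq_iff_iff]
  constructor
  · rintro rfl; simp
  · rintro rfl; simp

/-- spectral projectors. -/
def Pm (a : ZMod n) : Matrix X X ℂ := (n : ℂ)⁻¹ • ∑ j, ZMod.stdAddChar (-(a * j)) • Rm n j

theorem n_ne : (n : ℂ) ≠ 0 := Nat.cast_ne_zero.mpr (NeZero.ne n)

theorem char_sum (b : ZMod n) : ∑ j : ZMod n, ZMod.stdAddChar (j * b) = if b = 0 then (n : ℂ) else 0 := by
  rw [AddChar.sum_mulShift b (ZMod.isPrimitive_stdAddChar n)]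
  split_ifs <;> simp [ZMod.card]

theorem Pm_mul (a b : ZMod n) : (Pm n a : Matrix X X ℂ) * Pm n b = if a = b then Pm n a else 0 := by
  have key : (Pm n a : Matrix X X ℂ) * Pm n b
      = ((n : ℂ)⁻¹ * (n : ℂ)⁻¹) • ∑ m : ZMod n, (ZMod.stdAddChar (-(b * m)) *
          ∑ j : ZMod n, ZMod.stdAddChar (j * (b - a))) • Rm n m := by
    unfold Pm
    rw [Matrix.smul_mul, Matrix.mul_smul, smul_smul]
    congr 1
    rw [Matrix.sum_mul]
    simp only [Matrix.mul_sum, Matrix.smul_mul, Matrix.mul_smul, smul_smul, Rm_mul]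
    calc ∑ j : ZMod n, ∑ k : ZMod n, (ZMod.stdAddChar (-(b * k)) * ZMod.stdAddChar (-(a * j))) •
          (Rm n (j + k) : Matrix X X ℂ)
        = ∑ j : ZMod n, ∑ m : ZMod n, (ZMod.stdAddChar (-(b * (m - j))) *
            ZMod.stdAddChar (-(a * j))) • (Rm n m : Matrix X X ℂ) := by
          refine Finset.sum_congr rfl fun j _ => ?_
          refine Fintype.sum_equiv (Equiv.addLeft j) _ _ fun k => ?_
          simp [Equiv.coe_addLeft]
      _ = _ := by
          rw [Finset.sum_comm]
          refine Finset.sum_congr rfl fun m _ => ?_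
          rw [← Finset.sum_smul, Finset.mul_sum]
          congr 1
          refine Finset.sum_congr rfl fun j _ => ?_
          rw [← AddChar.map_add_eq_mul, ← AddChar.map_add_eq_mul]
          congr 1
          ring
  rw [key]
  simp only [char_sum, sub_eq_zero]
  by_cases h : b = a
  · subst h
    simp only [if_true]
    unfold Pm
    rw [← smul_smul]
    congr 1
    rw [Finset.smul_sum]
    refine Finset.sum_congr rfl fun m _ => ?_
    rw [smul_smul]
    congr 1
    field_simp [n_ne n]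
  · simp [h, Ne.symm h]

theorem sum_Pm : ∑ a, (Pm n a : Matrix X X ℂ) = 1 := by
  unfold Pm
  rw [← Finset.smul_sum, Finset.sum_comm]
  have : ∀ j : ZMod n, ∑ a : ZMod n, ZMod.stdAddChar (-(a * j)) • (Rm n j : Matrix X X ℂ)
      = if j = 0 then (n : ℂ) • 1 else 0 := by
    intro j
    rw [← Finset.sum_smul]
    have h1 : ∑ a : ZMod n, ZMod.stdAddChar (-(a * j)) = if j = 0 then (n : ℂ) else 0 := by
      simp only [← mul_neg, char_sum, neg_eq_zero]
    rw [h1]
    split_ifs with h
    · subst h; rw [Rm_zero]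
    · simp
  simp only [this, Finset.sum_ite_eq', mem_univ, if_true]
  rw [smul_smul, inv_mul_cancel₀ (n_ne n), one_smul]

theorem Pm_transpose (a : ZMod n) : (Pm n a : Matrix X X ℂ)ᵀ = Pm n (-a) := by
  unfold Pm
  rw [Matrix.transpose_smul, Matrix.transpose_sum]
  congr 1
  simp only [Matrix.transpose_smul, Rm_transpose]
  refine Fintype.sum_equiv (Equiv.neg _) _ _ fun j => ?_
  simp

/-- The matrix `∑ a, w^{-a} P_a`. -/
def Qm (w : ℂ) : Matrix X X ℂ := ∑ a : ZMod n, (w ^ a.val)⁻¹ • Pm n a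

theorem Qm_mul_transpose (w : ℂ) :
    (Qm n w : Matrix X X ℂ) * (Qm n w)ᵀ = Pm n 0 + (w ^ n)⁻¹ • (1 - Pm n 0) := by
  have h1 : (Qm n w : Matrix X X ℂ) * (Qm n w)ᵀ
      = ∑ a : ZMod n, ((w ^ a.val)⁻¹ * (w ^ (-a).val)⁻¹) • (Pm n a : Matrix X X ℂ) := by
    unfold Qm
    rw [Matrix.transpose_sum, Matrix.sum_mul]
    refine Finset.sum_congr rfl fun a _ => ?_
    simp only [Matrix.mul_sum, Matrix.transpose_smul, Pm_transpose, Matrix.smul_mul,
      Matrix.mul_smul, Pm_mul, smul_smul]
    rw [Finset.sum_eq_single (-a)]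
    · simp [mul_comm]
    · intro b _ hb
      have : ¬ a = -b := fun h => hb (by rw [h, neg_neg])
      simp [this]
    · simp
  rw [h1]
  have h2 : (1 : Matrix X X ℂ) - Pm n 0 = ∑ a ∈ Finset.univ.erase (0 : ZMod n), Pm n a := by
    rw [← sum_Pm n, ← Finset.add_sum_erase _ _ (mem_univ (0 : ZMod n))]
    simp
  rw [h2, Finset.smul_sum, ← Finset.add_sum_erase _ _ (mem_univ (0 : ZMod n))]
  congr 1
  · simp
  · refine Finset.sum_congr rfl fun a ha => ?_
    have ha0 : a ≠ 0 := (Finset.mem_erase.mp ha).1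
    rw [← mul_inv, ← pow_add, ZMod.neg_val, if_neg ha0]
    congr 3
    have := a.val_lt
    omega

variable (X) in
/-- number of orbits -/
abbrev Orb := AddAction.orbitRel.Quotient (ZMod n) X

theorem Pm_zero_apply (x y : X) : (Pm n 0 : Matrix X X ℂ) x y
    = (n : ℂ)⁻¹ * ∑ j : ZMod n, if j +ᵥ x = y then 1 else 0 := by
  simp [Pm, Matrix.sum_apply, Rm_apply]

theorem Pm_zero_vadd (k : ZMod n) (x y : X) :
    (Pm n 0 : Matrix X X ℂ) (k +ᵥ x) y = Pm n 0 x y := by
  rw [Pm_zero_apply, Pm_zero_apply]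
  congr 1
  refine Fintype.sum_equiv (Equiv.addRight k) _ _ fun j => ?_
  simp [← add_vadd]

open Classical in
theorem det_P0 (z : ℂ) (hz : z ≠ 0) :
    ((Pm n 0 : Matrix X X ℂ) + z • (1 - Pm n 0)).det
      = z ^ (Fintype.card X) * (z⁻¹) ^ (Nat.card (Orb X n)) := by
  have : Fintype (Orb X n) := Fintype.ofFinite _
  rw [Nat.card_eq_fintype_card]
  let A : Matrix X (Orb X n) ℂ := Matrix.of fun x o => if (Quotient.mk'' x : Orb X n) = o then 1 else 0
  let B : Matrix (Orb X n) X ℂ := Matrix.of fun o y => Pm n 0 o.out y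
  have hAB : A * B = Pm n 0 := by
    ext x y
    simp only [A, B, Matrix.mul_apply, Matrix.of_apply, ite_mul, one_mul, zero_mul,
      Finset.sum_ite_eq, mem_univ, if_true]
    have h : (AddAction.orbitRel (ZMod n) X).r (Quotient.out (Quotient.mk'' x : Orb X n)) x :=
      Quotient.exact (Quotient.out_eq _)
    obtain ⟨k, hk⟩ : ∃ k : ZMod n, k +ᵥ x = Quotient.out (Quotient.mk'' x : Orb X n) := h
    rw [← hk, Pm_zero_vadd]
  have hBA : B * A = 1 := by
    ext o o'
    simp only [A, B, Matrix.mul_apply, Matrix.of_apply, mul_ite, mul_one, mul_zero, Pm_zero_apply]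
    rw [Matrix.one_apply]
    calc ∑ y : X, (if (Quotient.mk'' y : Orb X n) = o' then
            (n : ℂ)⁻¹ * ∑ j : ZMod n, (if j +ᵥ o.out = y then (1 : ℂ) else 0) else 0)
        = (n : ℂ)⁻¹ * ∑ j : ZMod n, ∑ y : X,
            (if j +ᵥ o.out = y then (if (Quotient.mk'' y : Orb X n) = o' then (1 : ℂ) else 0)
              else 0) := by
          rw [Finset.sum_comm, Finset.mul_sum]
          refine Finset.sum_congr rfl fun y _ => ?_
          split_ifs with h
          · simp
          · simp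
      _ = (n : ℂ)⁻¹ * ∑ j : ZMod n, (if o = o' then (1 : ℂ) else 0) := by
          congr 1
          refine Finset.sum_congr rfl fun j _ => ?_
          rw [Finset.sum_ite_eq, if_pos (mem_univ _)]
          have : (Quotient.mk'' (j +ᵥ o.out) : Orb X n) = o := by
            conv_rhs => rw [← Quotient.out_eq o]
            apply Quotient.sound
            exact ⟨j, rfl⟩
          rw [this]
      _ = _ := by
          rw [Finset.sum_const, Finset.card_univ, ZMod.card, nsmul_eq_mul, ← mul_assoc,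
            inv_mul_cancel₀ (n_ne n), one_mul]
  have h1 : (Pm n 0 : Matrix X X ℂ) + z • (1 - Pm n 0) = z • (1 + A * ((z⁻¹ - 1) • B)) := by
    rw [Matrix.mul_smul, hAB, smul_add, smul_smul, smul_sub, mul_sub, mul_inv_cancel₀ hz, mul_one,
      sub_smul, one_smul]
    abel
  rw [h1, Matrix.det_smul, Matrix.det_one_add_mul_comm, Matrix.smul_mul, hBA]
  congr 1
  have : (1 : Matrix (Orb X n) (Orb X n) ℂ) + (z⁻¹ - 1) • 1 = z⁻¹ • 1 := by
    rw [sub_smul, one_smul]; abel
  rw [this, Matrix.det_smul, Matrix.det_one, mul_one]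

theorem det_Qm_sq (w : ℂ) (hw : w ≠ 0) :
    (Qm n w : Matrix X X ℂ).det ^ 2
      = ((w ^ n)⁻¹) ^ (Fintype.card X) * (w ^ n) ^ (Nat.card (Orb X n)) := by
  have h := det_P0 (X := X) n (w ^ n)⁻¹ (inv_ne_zero (pow_ne_zero n hw))
  rw [← Qm_mul_transpose, Matrix.det_mul, Matrix.det_transpose, inv_inv] at h
  rw [pow_two, h]

end Fermat.Agent.H20
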