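import Fermat.Agent.H20VMF
import Fermat.Agent.H20Mat

open UpperHalfPlane ModularForm MatrixGroups CongruenceSubgroup Filter Asymptotics
open scoped Manifold Topology

noncomputable section

namespace Fermat.Agent.H20

local notation "𝕢" => Function.Periodic.qParam

theorem periodic_ofComplex {φ : ℍ → ℂ} {h : ℝ} (hper : ∀ τ : ℍ, φ (h +ᵥ τ) = φ τ) :
    Function.Periodic (φ ∘ ofComplex) h := by
  intro w
  by_cases! hw : 0 < w.im
  · have : 0 < (w + h).im := by simp [hw]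
    simp only [Function.comp_apply, ofComplex_apply_of_im_pos this, ofComplex_apply_of_im_pos hw]
    rw [← hper ⟨w, hw⟩]
    congr 1
    ext
    simp [add_comm]
  · have : (w + h).im ≤ 0 := by simpa using hw
    simp [ofComplex_apply_of_im_nonpos this, ofComplex_apply_of_im_nonpos hw]

theorem expansion {φ : ℍ → ℂ} {h : ℝ} (hh : 0 < h) (hper : ∀ τ : ℍ, φ (h +ᵥ τ) = φ τ)
    (hol : MDiff φ) (bdd : IsBoundedAtImInfty φ) (M : ℕ) :
    ∃ c : ℕ → ℂ, (fun τ : ℍ => φ τ - ∑ m ∈ Finset.range M, c m * (𝕢 h τ) ^ m)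
      =O[atImInfty] (fun τ : ℍ => ‖𝕢 h τ‖ ^ M) := by
  obtain ⟨p, hp⟩ := analyticAt_cuspFunction_zero hh (periodic_ofComplex hper) hol bdd
  refine ⟨fun m => p.coeff m, ?_⟩
  have h1 := hp.isBigO_sub_partialSum_pow M
  have h2 := h1.comp_tendsto (qParam_tendsto_atImInfty hh)
  refine (h2.congr' ?_ ?_)
  · refine Eventually.of_forall fun τ => ?_
    simp only [Function.comp_apply, zero_add]
    rw [eq_cuspFunction τ hh.ne' (periodic_ofComplex hper)]
    congr 1
    simp only [FormalMultilinearSeries.partialSum]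
    refine Finset.sum_congr rfl fun m _ => ?_
    rw [FormalMultilinearSeries.apply_eq_pow_smul_coeff]
    simp [mul_comm]
  · exact Eventually.of_forall fun τ => rfl

variable {X : Type*} [MulAction SL(2, ℤ) X] {k l : ℤ}

theorem slash_T_apply (f : ℍ → ℂ) (τ : ℍ) : (f ∣[k] ModularGroup.T) τ = f ((1 : ℝ) +ᵥ τ) := by
  rw [SL_slash_apply, modular_T_smul]
  simp [denom, ModularGroup.T]

theorem T_shift {F : X → ℍ → ℂ} (hF : ∀ (g : SL(2, ℤ)) (x : X), F x ∣[k] g = F (g⁻¹ • x))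
    (x : X) (τ : ℍ) : F x ((1 : ℝ) +ᵥ τ) = F (ModularGroup.T⁻¹ • x) τ := by
  have := slash_T_apply (k := k) (F x) τ
  rw [← this, hF]

theorem T_shift_nat {F : X → ℍ → ℂ} (hF : ∀ (g : SL(2, ℤ)) (x : X), F x ∣[k] g = F (g⁻¹ • x))
    (m : ℕ) (x : X) (τ : ℍ) : F x ((m : ℝ) +ᵥ τ) = F ((ModularGroup.T ^ m)⁻¹ • x) τ := by
  induction m generalizing x τ with
  | zero => simp
  | succ m ih =>
    have : ((m + 1 : ℕ) : ℝ) +ᵥ τ = (1 : ℝ) +ᵥ ((m : ℝ) +ᵥ τ) := by
      rw [← add_vadd]; push_cast; rw [add_comm]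
    rw [this, T_shift hF, ih]
    rw [← mul_smul]
    congr 2
    rw [pow_succ]
    group

theorem qParam_shift {n : ℕ} (hn : n ≠ 0) (τ : ℍ) :
    𝕢 n ((((1 : ℝ) +ᵥ τ : ℍ)) : ℂ) = Complex.exp (2 * Real.pi * Complex.I / n) * 𝕢 n τ := by
  unfold Function.Periodic.qParam
  rw [← Complex.exp_add]
  congr 1
  have : (n : ℂ) ≠ 0 := by exact_mod_cast hn
  push_cast [UpperHalfPlane.coe_vadd]
  field_simp

theorem norm_qParam_shift {n : ℕ} (r : ℝ) (τ : ℍ) :
    ‖𝕢 n (((r +ᵥ τ : ℍ)) : ℂ)‖ = ‖𝕢 n τ‖ := by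
  rw [Function.Periodic.norm_qParam, Function.Periodic.norm_qParam]
  simp

theorem tendsto_shift_atImInfty (r : ℝ) : Tendsto (fun τ : ℍ => r +ᵥ τ) atImInfty atImInfty := by
  rw [atImInfty, tendsto_comap_iff]
  have : (UpperHalfPlane.im ∘ fun τ : ℍ => r +ᵥ τ) = UpperHalfPlane.im := by
    ext τ; simp
  rw [this]
  exact tendsto_comap

/-- uniqueness of small coefficients. -/
theorem coeff_unique {n : ℕ} (hn : 0 < n) {M : ℕ} (d : ℕ → ℂ)
    (h : (fun τ : ℍ => ∑ m ∈ Finset.range M, d m * (𝕢 n τ) ^ m)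
      =O[atImInfty] (fun τ : ℍ => ‖𝕢 n τ‖ ^ M)) : ∀ m < M, d m = 0 := by
  intro m
  induction m using Nat.strong_induction_on with
  | _ m ih =>
    intro hm
    have h0 : Tendsto (fun τ : ℍ => 𝕢 n (τ : ℂ)) atImInfty (𝓝 0) :=
      qParam_tendsto_atImInfty (by exact_mod_cast hn)
    have hne : ∀ τ : ℍ, 𝕢 n (τ : ℂ) ≠ 0 := fun τ => Function.Periodic.qParam_ne_zero _
    -- the sum divided by q^m
    have e1 : ∀ τ : ℍ, ∑ j ∈ Finset.range M, d j * (𝕢 n τ) ^ j
        = (𝕢 n τ) ^ m * ∑ j ∈ Finset.range (M - m), d (m + j) * (𝕢 n τ) ^ j := by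
      intro τ
      obtain ⟨r, rfl⟩ : ∃ r, M = m + r := ⟨M - m, by omega⟩
      rw [Finset.sum_range_add, Nat.add_sub_cancel_left, Finset.mul_sum]
      rw [Finset.sum_eq_zero, zero_add]
      · refine Finset.sum_congr rfl fun j _ => ?_
        rw [pow_add]; ring
      · intro j hj
        rw [ih j (Finset.mem_range.mp hj) (by have := Finset.mem_range.mp hj; omega), zero_mul]
    have e2 : (fun τ : ℍ => ∑ j ∈ Finset.range (M - m), d (m + j) * (𝕢 n τ) ^ j)
        =O[atImInfty] (fun τ : ℍ => ‖𝕢 n τ‖ ^ (M - m)) := by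
      have h2 := (isBigO_refl (fun τ : ℍ => ((𝕢 n τ) ^ m)⁻¹) atImInfty).norm_right.mul h
      refine (h2.congr_left fun τ => ?_).trans ?_
      · rw [e1, ← mul_assoc, inv_mul_cancel₀ (pow_ne_zero _ (hne τ)), one_mul]
      · refine IsBigO.of_bound 1 (Eventually.of_forall fun τ => ?_)
        rw [one_mul]
        have : M = m + (M - m) := by omega
        conv_lhs => rw [this]
        rw [norm_mul, norm_norm, norm_inv, norm_pow, norm_pow, norm_norm, norm_pow, norm_norm,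
          pow_add, ← mul_assoc, inv_mul_cancel₀ (pow_ne_zero _ (norm_ne_zero_iff.mpr (hne τ))),
          one_mul]
    have t1 : Tendsto (fun τ : ℍ => ∑ j ∈ Finset.range (M - m), d (m + j) * (𝕢 n τ) ^ j)
        atImInfty (𝓝 (∑ j ∈ Finset.range (M - m), d (m + j) * 0 ^ j)) :=
      tendsto_finsetSum _ fun j _ => (h0.pow j).const_mul _
    have t2 : Tendsto (fun τ : ℍ => ∑ j ∈ Finset.range (M - m), d (m + j) * (𝕢 n τ) ^ j)
        atImInfty (𝓝 0) := by
      refine e2.trans_tendsto ?_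
      have := (h0.norm).pow (M - m)
      rw [norm_zero, zero_pow (by omega)] at this
      exact this
    have := tendsto_nhds_unique t1 t2
    rw [Finset.sum_eq_single 0] at this
    · simpa using this
    · intro j _ hj
      simp [hj]
    · intro h'
      exact absurd (Finset.mem_range.mpr (by omega)) h'


theorem T_pow_mod {n : ℕ} (hT : ∀ x : X, (ModularGroup.T ^ n) • x = x) (m : ℕ) (x : X) :
    (ModularGroup.T ^ (m % n)) • x = (ModularGroup.T ^ m) • x := by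
  have h : ∀ j : ℕ, ∀ y : X, (ModularGroup.T ^ (n * j)) • y = y := by
    intro j
    induction j with
    | zero => intro y; simp
    | succ j ih =>
      intro y
      rw [Nat.mul_succ, pow_add, mul_smul, hT, ih]
  conv_rhs => rw [← Nat.mod_add_div m n, pow_add, mul_smul, h]

variable (X) in
/-- The action of `ZMod n` on `X` through `j ↦ T^{-j}`. -/
abbrev tAct (n : ℕ) [NeZero n] (hT : ∀ x : X, (ModularGroup.T ^ n) • x = x) :
    AddAction (ZMod n) X where
  vadd j x := (ModularGroup.T ^ j.val)⁻¹ • x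
  zero_vadd x := by
    show (ModularGroup.T ^ (0 : ZMod n).val)⁻¹ • x = x
    simp
  add_vadd i j x := by
    show (ModularGroup.T ^ (i + j).val)⁻¹ • x
      = (ModularGroup.T ^ i.val)⁻¹ • (ModularGroup.T ^ j.val)⁻¹ • x
    rw [inv_smul_eq_iff, ZMod.val_add, T_pow_mod hT, pow_add, mul_smul]
    rw [← mul_smul, ← mul_smul, ← mul_smul]
    have : ModularGroup.T ^ i.val * ModularGroup.T ^ j.val * ((ModularGroup.T ^ i.val)⁻¹ *
      (ModularGroup.T ^ j.val)⁻¹) = 1 := by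
      rw [← pow_add, add_comm, pow_add]; group
    rw [← mul_assoc] at this
    simpa [mul_assoc] using congrArg (fun g => g • x) this.symm

/-- `exp (2 π i / n)` -/
def zt (n : ℕ) : ℂ := Complex.exp (2 * Real.pi * Complex.I / n)

theorem exists_coeffs {n : ℕ} [NeZero n] (hT : ∀ x : X, (ModularGroup.T ^ n) • x = x)
    {F : X → ℍ → ℂ} (hF : IsVMF X k F) :
    ∃ c : X → ℕ → ℂ, (∀ x, (fun τ : ℍ => F x τ - ∑ m ∈ Finset.range n, c x m * (𝕢 n τ) ^ m)
      =O[atImInfty] (fun τ : ℍ => ‖𝕢 n τ‖ ^ n)) ∧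
      ∀ x, ∀ m < n, c (ModularGroup.T⁻¹ • x) m = zt n ^ m * c x m := by
  have hn : 0 < n := Nat.pos_of_ne_zero (NeZero.ne n)
  have hn' : (0 : ℝ) < n := by exact_mod_cast hn
  have hper : ∀ x, ∀ τ : ℍ, F x ((n : ℝ) +ᵥ τ) = F x τ := by
    intro x τ
    rw [T_shift_nat hF.slash]
    congr 1
    rw [inv_smul_eq_iff, hT]
  choose c hc using fun x => expansion hn' (hper x) (hF.holo x) (hF.bdd x) n
  refine ⟨c, hc, fun x m hm => ?_⟩
  have h1 := (hc x).comp_tendsto (tendsto_shift_atImInfty 1)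
  have h2 := hc (ModularGroup.T⁻¹ • x)
  have h3 : (fun τ : ℍ => ∑ m ∈ Finset.range n,
      (c (ModularGroup.T⁻¹ • x) m - zt n ^ m * c x m) * (𝕢 n τ) ^ m)
      =O[atImInfty] (fun τ : ℍ => ‖𝕢 n τ‖ ^ n) := by
    have h1' : (fun τ : ℍ => F (ModularGroup.T⁻¹ • x) τ -
        ∑ m ∈ Finset.range n, (zt n ^ m * c x m) * (𝕢 n τ) ^ m)
        =O[atImInfty] (fun τ : ℍ => ‖𝕢 n τ‖ ^ n) := by
      refine (h1.congr' (Eventually.of_forall fun τ => ?_) (Eventually.of_forall fun τ => ?_))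
      · simp only [Function.comp_apply]
        rw [T_shift hF.slash]
        congr 1
        refine Finset.sum_congr rfl fun m _ => ?_
        rw [qParam_shift hn.ne', mul_pow]
        unfold zt
        ring
      · simp only [Function.comp_apply]
        rw [norm_qParam_shift]
    refine (h1'.sub h2).congr_left fun τ => ?_
    rw [sub_sub_sub_cancel_left, ← Finset.sum_sub_distrib]
    refine Finset.sum_congr rfl fun m _ => ?_
    ring
  have := coeff_unique hn _ h3 m hm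
  exact sub_eq_zero.mp this

theorem coeffs_pow {n : ℕ} {c : X → ℕ → ℂ}
    (hc : ∀ x, ∀ m < n, c (ModularGroup.T⁻¹ • x) m = zt n ^ m * c x m) (j : ℕ) (x : X) {m : ℕ}
    (hm : m < n) : c ((ModularGroup.T ^ j)⁻¹ • x) m = zt n ^ (m * j) * c x m := by
  induction j generalizing x with
  | zero => simp
  | succ j ih =>
    have : (ModularGroup.T ^ (j + 1))⁻¹ • x = ModularGroup.T⁻¹ • ((ModularGroup.T ^ j)⁻¹ • x) := by
      rw [← mul_smul]; congr 1; rw [pow_succ]; group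
    rw [this, hc _ m hm, ih, ← mul_assoc, ← pow_add]
    congr 2
    ring


theorem zt_pow_eq {n : ℕ} [NeZero n] (m : ℕ) (j : ZMod n) :
    zt n ^ (m * j.val) = ZMod.stdAddChar ((m : ZMod n) * j) := by
  have : ((m : ZMod n) * j) = (((m * j.val : ℕ) : ℤ) : ZMod n) := by
    push_cast
    rw [ZMod.natCast_zmod_val]
  rw [this, ZMod.stdAddChar_coe, zt, ← Complex.exp_nat_mul]
  congr 1
  push_cast
  ring

theorem norm_qParam_pow (n : ℕ) [NeZero n] (τ : ℍ) :
    ‖𝕢 n (τ : ℂ)‖ ^ n = Real.exp (-2 * Real.pi * τ.im) := by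
  rw [Function.Periodic.norm_qParam, ← Real.exp_nat_mul]
  congr 1
  have : (n : ℝ) ≠ 0 := by exact_mod_cast NeZero.ne n
  field_simp
  simp

variable [Fintype X] [DecidableEq X]

/-- matrix `Q(τ)` -/
def Qt (n : ℕ) [NeZero n] (hT : ∀ x : X, (ModularGroup.T ^ n) • x = x) (τ : ℍ) : Matrix X X ℂ :=
  letI := tAct X n hT
  Qm n (𝕢 n (τ : ℂ))

theorem Qt_mulVec (n : ℕ) [NeZero n] (hT : ∀ x : X, (ModularGroup.T ^ n) • x = x) (τ : ℍ)
    (F : X → ℍ → ℂ) (x : X) :
    ∑ y, Qt n hT τ x y * F y τ = ∑ a : ZMod n, ((𝕢 n (τ : ℂ)) ^ a.val)⁻¹ *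
      ((n : ℂ)⁻¹ * ∑ j : ZMod n, ZMod.stdAddChar (-(a * j)) *
        F ((ModularGroup.T ^ j.val)⁻¹ • x) τ) := by
  let := tAct X n hT
  have h : ∀ y, Qt n hT τ x y = ∑ a : ZMod n, ((𝕢 n (τ : ℂ)) ^ a.val)⁻¹ *
      ((n : ℂ)⁻¹ * ∑ j : ZMod n, ZMod.stdAddChar (-(a * j)) *
        (if (ModularGroup.T ^ j.val)⁻¹ • x = y then 1 else 0)) := by
    intro y
    simp only [Qt, Qm, Pm, Matrix.sum_apply, Matrix.smul_apply, smul_eq_mul]
    rfl
  simp only [h, Finset.sum_mul]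
  rw [Finset.sum_comm]
  refine Finset.sum_congr rfl fun a _ => ?_
  simp only [mul_assoc]
  rw [← Finset.mul_sum, ← Finset.mul_sum]
  congr 2
  simp only [Finset.sum_mul]
  rw [Finset.sum_comm]
  refine Finset.sum_congr rfl fun j _ => ?_
  simp only [mul_assoc]
  rw [← Finset.mul_sum]
  simp

/-- leading coefficient vector at `i∞`. -/
def HasLead (n : ℕ) [NeZero n] (hT : ∀ x : X, (ModularGroup.T ^ n) • x = x)
    (F : X → ℍ → ℂ) (v : X → ℂ) : Prop :=
  ∀ x, Tendsto (fun τ : ℍ => ∑ y, Qt n hT τ x y * F y τ) atImInfty (𝓝 (v x))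

omit [Fintype X] [DecidableEq X] in
theorem proj_isBigO {n : ℕ} [NeZero n] {F : X → ℍ → ℂ} {c : X → ℕ → ℂ}
    (h1 : ∀ x, (fun τ : ℍ => F x τ - ∑ m ∈ Finset.range n, c x m * (𝕢 n τ) ^ m)
      =O[atImInfty] (fun τ : ℍ => ‖𝕢 n τ‖ ^ n))
    (h2 : ∀ x, ∀ m < n, c (ModularGroup.T⁻¹ • x) m = zt n ^ m * c x m) (x : X) (a : ZMod n) :
    (fun τ : ℍ => ((n : ℂ)⁻¹ * ∑ j : ZMod n, ZMod.stdAddChar (-(a * j)) *
        F ((ModularGroup.T ^ j.val)⁻¹ • x) τ) - c x a.val * (𝕢 n τ) ^ a.val)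
      =O[atImInfty] (fun τ : ℍ => ‖𝕢 n τ‖ ^ n) := by
  have h3 : (fun τ : ℍ => (n : ℂ)⁻¹ * ∑ j : ZMod n, ZMod.stdAddChar (-(a * j)) *
      (F ((ModularGroup.T ^ j.val)⁻¹ • x) τ -
        ∑ m ∈ Finset.range n, c ((ModularGroup.T ^ j.val)⁻¹ • x) m * (𝕢 n τ) ^ m))
      =O[atImInfty] (fun τ : ℍ => ‖𝕢 n τ‖ ^ n) := by
    refine IsBigO.const_mul_left (IsBigO.fun_sum fun j _ => IsBigO.const_mul_left ?_ _) _
    exact h1 _
  refine h3.congr_left fun τ => ?_
  simp only [mul_sub, Finset.sum_sub_distrib]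
  congr 1
  have h4 : ∀ j : ZMod n, ZMod.stdAddChar (-(a * j)) * ∑ m ∈ Finset.range n,
      c ((ModularGroup.T ^ j.val)⁻¹ • x) m * (𝕢 n (τ : ℂ)) ^ m
      = ∑ m ∈ Finset.range n, (c x m * (𝕢 n (τ : ℂ)) ^ m) *
          ZMod.stdAddChar (j * ((m : ZMod n) - a)) := by
    intro j
    rw [Finset.mul_sum]
    refine Finset.sum_congr rfl fun m hm => ?_
    rw [coeffs_pow h2 _ _ (Finset.mem_range.mp hm), zt_pow_eq]
    have : ZMod.stdAddChar (j * ((m : ZMod n) - a))
        = ZMod.stdAddChar (-(a * j)) * ZMod.stdAddChar ((m : ZMod n) * j) := by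
      rw [← AddChar.map_add_eq_mul]
      congr 1
      ring
    rw [this]
    ring
  simp only [h4]
  rw [Finset.sum_comm]
  simp only [← Finset.mul_sum, char_sum]
  rw [Finset.sum_eq_single a.val]
  · simp only [ZMod.natCast_zmod_val, sub_self, if_true]
    have := n_ne n
    field_simp
  · intro m hm hne
    have : ((m : ZMod n) - a) ≠ 0 := by
      intro h
      apply hne
      rw [← sub_eq_zero.mp h, ZMod.val_natCast, Nat.mod_eq_of_lt (Finset.mem_range.mp hm)]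
    simp [this]
  · intro h
    exact absurd (Finset.mem_range.mpr a.val_lt) h

theorem exists_lead {n : ℕ} [NeZero n] (hT : ∀ x : X, (ModularGroup.T ^ n) • x = x)
    {F : X → ℍ → ℂ} (hF : IsVMF X k F) :
    ∃ v : X → ℂ, HasLead n hT F v ∧
      ((∀ x, v x = 0) → ∀ x, F x =O[atImInfty] (fun τ : ℍ => Real.exp (-2 * Real.pi * τ.im))) := by
  obtain ⟨c, h1, h2⟩ := exists_coeffs hT hF
  have hn : 0 < n := Nat.pos_of_ne_zero (NeZero.ne n)
  have hn' : (0 : ℝ) < n := by exact_mod_cast hn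
  have h0 : Tendsto (fun τ : ℍ => 𝕢 n (τ : ℂ)) atImInfty (𝓝 0) := qParam_tendsto_atImInfty hn'
  have hne : ∀ τ : ℍ, 𝕢 n (τ : ℂ) ≠ 0 := fun τ => Function.Periodic.qParam_ne_zero _
  refine ⟨fun x => ∑ a : ZMod n, c x a.val, fun x => ?_, fun hv x => ?_⟩
  · simp only [Qt_mulVec]
    refine tendsto_finsetSum _ fun a _ => ?_
    have h3 := (isBigO_refl (fun τ : ℍ => ((𝕢 n τ) ^ a.val)⁻¹) atImInfty).norm_right.mul
      (proj_isBigO h1 h2 x a)
    have h4 : Tendsto (fun τ : ℍ => ‖((𝕢 n (τ : ℂ)) ^ a.val)⁻¹‖ * ‖𝕢 n (τ : ℂ)‖ ^ n)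
        atImInfty (𝓝 0) := by
      have h5 := (h0.norm).pow (n - a.val)
      have ha := a.val_lt
      rw [norm_zero, zero_pow (by omega)] at h5
      refine h5.congr fun τ => ?_
      rw [norm_inv, norm_pow]
      have : ‖𝕢 n (τ : ℂ)‖ ^ n = ‖𝕢 n (τ : ℂ)‖ ^ a.val * ‖𝕢 n (τ : ℂ)‖ ^ (n - a.val) := by
        rw [← pow_add]; congr 1; omega
      rw [this, ← mul_assoc, inv_mul_cancel₀ (pow_ne_zero _ (norm_ne_zero_iff.mpr (hne τ))),
        one_mul]
    have h6 := h3.trans_tendsto h4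
    have h7 := h6.add (tendsto_const_nhds (x := c x a.val))
    rw [zero_add] at h7
    refine h7.congr fun τ => ?_
    have := pow_ne_zero a.val (hne τ)
    field_simp
    ring
  · -- all coefficients vanish
    have hc0 : ∀ x, ∀ b : ZMod n, c x b.val = 0 := by
      intro x b
      have h5 : ∀ j : ZMod n, ∑ a : ZMod n, ZMod.stdAddChar (a * j) * c x a.val = 0 := by
        intro j
        rw [← hv ((ModularGroup.T ^ j.val)⁻¹ • x)]
        refine Finset.sum_congr rfl fun a _ => ?_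
        rw [coeffs_pow h2 _ _ a.val_lt, zt_pow_eq, ZMod.natCast_zmod_val]
      have h6 : ∑ j : ZMod n, ZMod.stdAddChar (-(b * j)) *
          ∑ a : ZMod n, ZMod.stdAddChar (a * j) * c x a.val = 0 := by
        simp [h5]
      have h7 : ∑ j : ZMod n, ZMod.stdAddChar (-(b * j)) *
          ∑ a : ZMod n, ZMod.stdAddChar (a * j) * c x a.val
          = ∑ a : ZMod n, c x a.val * ∑ j : ZMod n, ZMod.stdAddChar (j * (a - b)) := by
        simp only [Finset.mul_sum]
        rw [Finset.sum_comm]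
        refine Finset.sum_congr rfl fun a _ => Finset.sum_congr rfl fun j _ => ?_
        have : ZMod.stdAddChar (j * (a - b))
            = ZMod.stdAddChar (-(b * j)) * ZMod.stdAddChar (a * j) := by
          rw [← AddChar.map_add_eq_mul]
          congr 1
          ring
        rw [this]; ring
      rw [h7] at h6
      simp only [char_sum, sub_eq_zero, mul_ite, mul_zero, Finset.sum_ite_eq', Finset.mem_univ,
        if_true] at h6
      exact (mul_eq_zero.mp h6).resolve_right (n_ne n)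
    have hc1 : ∀ m ∈ Finset.range n, c x m = 0 := by
      intro m hm
      have := hc0 x (m : ZMod n)
      rwa [ZMod.val_natCast, Nat.mod_eq_of_lt (Finset.mem_range.mp hm)] at this
    refine (h1 x).congr (fun τ => ?_) fun τ => norm_qParam_pow n τ
    rw [Finset.sum_eq_zero, sub_zero]
    intro m hm
    rw [hc1 m hm, zero_mul]

end Fermat.Agent.H20
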