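import Fermat.Agent.H20Inf

open UpperHalfPlane ModularForm MatrixGroups CongruenceSubgroup Filter Asymptotics
open scoped Manifold Topology Matrix

noncomputable section

namespace Fermat.Agent.H20

local notation "𝕢" => Function.Periodic.qParam

variable {X : Type*} [MulAction SL(2, ℤ) X] {k l : ℤ}

theorem tendsto_coeff_zero (f : ModularForm 𝒮ℒ k) :
    Tendsto (f : ℍ → ℂ) atImInfty (𝓝 ((qExpansion 1 f).coeff 0)) := by
  rw [UpperHalfPlane.qExpansion_coeff_zero one_pos
    (ModularFormClass.analyticAt_cuspFunction_zero f one_pos one_mem_strictPeriods_SL)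
    (SlashInvariantFormClass.periodic_comp_ofComplex f one_mem_strictPeriods_SL)]
  obtain ⟨c, hc, h⟩ := ModularFormClass.exp_decay_sub_atImInfty' f
  have h2 : Tendsto (fun τ : ℍ => Real.exp (-c * τ.im)) atImInfty (𝓝 0) := by
    refine Real.tendsto_exp_atBot.comp ?_
    exact (tendsto_comap (f := UpperHalfPlane.im)).const_mul_atTop_of_neg (neg_lt_zero.mpr hc)
  have h3 := h.trans_tendsto h2
  have h4 := h3.add (tendsto_const_nhds (x := valueAtInfty (f : ℍ → ℂ)))
  simpa using h4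

theorem exists_l1_one (m : ℕ) (hm : 4 ≤ m) (he : Even m) :
    ∃ G : ℍ → ℂ, IsL1 m G ∧ Tendsto G atImInfty (𝓝 1) := by
  refine ⟨ModularForm.E (show 3 ≤ m by omega), isL1_of_class _, ?_⟩
  have := tendsto_coeff_zero (ModularForm.E (show 3 ≤ m by omega))
  rwa [EisensteinSeries.E_qExpansion_coeff_zero (by omega) he] at this

theorem denom_neg_one (τ : ℍ) : denom ((-1 : SL(2, ℤ)) : GL (Fin 2) ℝ) τ = -1 := by
  simp [denom]

theorem IsVMF.eq_zero_of_odd {F : X → ℍ → ℂ} (hF : IsVMF X k F)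
    (hneg : ∀ x : X, (-1 : SL(2, ℤ)) • x = x) (hk : Odd k) (x : X) : F x = 0 := by
  have h := hF.slash (-1) x
  have h1 : ((-1 : SL(2, ℤ))⁻¹) • x = x := by
    rw [inv_smul_eq_iff, hneg]
  rw [h1] at h
  ext τ
  have h2 := congrFun h τ
  rw [SL_slash_apply] at h2
  have h3 : (-1 : SL(2, ℤ)) • τ = τ := by
    rw [ModularGroup.SL_neg_smul, one_smul]
  rw [h3, denom_neg_one, Odd.neg_zpow (Odd.neg hk)] at h2
  simp only [one_zpow, mul_neg, mul_one] at h2
  simp only [Pi.zero_apply]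
  linear_combination (-1/2 : ℂ) * h2

variable (X) in
/-- The number of `T`-orbits on `X`. -/
def cuspNum : ℕ := Nat.card (MulAction.orbitRel.Quotient (Subgroup.zpowers ModularGroup.T) X)

theorem card_orb (n : ℕ) [NeZero n] (hT : ∀ x : X, (ModularGroup.T ^ n) • x = x) :
    letI := tAct X n hT
    Nat.card (Orb X n) = cuspNum X := by
  let inst := tAct X n hT
  have hvadd : ∀ (j : ZMod n) (x : X), j +ᵥ x = (ModularGroup.T ^ j.val)⁻¹ • x := fun _ _ => rfl
  have hrel : ∀ x y : X, (AddAction.orbitRel (ZMod n) X) x y ↔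
      (MulAction.orbitRel (Subgroup.zpowers ModularGroup.T) X) x y := by
    intro x y
    rw [AddAction.orbitRel_apply, MulAction.orbitRel_apply]
    constructor
    · rintro ⟨j, hj⟩
      refine ⟨⟨(ModularGroup.T ^ j.val)⁻¹, ?_⟩, ?_⟩
      · exact inv_mem (Subgroup.npow_mem_zpowers _ _)
      · exact hj
    · rintro ⟨⟨g, hg⟩, hj⟩
      obtain ⟨m, rfl⟩ := Subgroup.mem_zpowers_iff.mp hg
      refine ⟨(((-m : ℤ)) : ZMod n), ?_⟩
      show (ModularGroup.T ^ (((-m : ℤ)) : ZMod n).val)⁻¹ • y = x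
      have hj' : (ModularGroup.T ^ m) • y = x := hj
      rw [← hj', inv_smul_eq_iff, ← mul_smul, ← zpow_natCast, ← zpow_add]
      -- exponent is a multiple of n
      have hmod : ∃ r : ℤ, ((((-m : ℤ)) : ZMod n).val : ℤ) + m = n * r := by
        have h1 : (((((-m : ℤ)) : ZMod n).val : ℤ) + m : ℤ) ≡ 0 [ZMOD n] := by
          rw [← ZMod.intCast_eq_intCast_iff]
          push_cast
          simp
        exact (Int.modEq_zero_iff_dvd.mp h1)
      obtain ⟨r, hr⟩ := hmod
      rw [hr, zpow_mul, zpow_natCast]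
      have hst : ∀ r : ℤ, ((ModularGroup.T ^ n) ^ r) • y = y := by
        intro r
        have : (ModularGroup.T ^ n) ∈ MulAction.stabilizer SL(2, ℤ) y := hT y
        exact (zpow_mem this r : _)
      exact (hst r).symm
  unfold cuspNum
  apply Nat.card_congr
  exact Quotient.congr (Equiv.refl X) (fun x y => hrel x y)

variable [Fintype X] [DecidableEq X]

theorem qParam_pow (n : ℕ) [NeZero n] (τ : ℍ) : (𝕢 n (τ : ℂ)) ^ n = 𝕢 1 τ := by
  unfold Function.Periodic.qParam
  rw [← Complex.exp_nat_mul]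
  congr 1
  have : (n : ℂ) ≠ 0 := by exact_mod_cast NeZero.ne n
  push_cast
  field_simp

theorem det_Qt_sq (n : ℕ) [NeZero n] (hT : ∀ x : X, (ModularGroup.T ^ n) • x = x) (τ : ℍ) :
    (Qt n hT τ).det ^ 2 = ((𝕢 1 (τ : ℂ))⁻¹) ^ (Fintype.card X) * (𝕢 1 (τ : ℂ)) ^ (cuspNum X) := by
  let inst := tAct X n hT
  have h := det_Qm_sq (X := X) n (𝕢 n (τ : ℂ)) (Function.Periodic.qParam_ne_zero _)
  rw [qParam_pow] at h
  have h2 := card_orb n hT
  rw [← h2]
  exact h

theorem HasLead.sum {ι : Type*} (s : Finset ι) {n : ℕ} [NeZero n]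
    {hT : ∀ x : X, (ModularGroup.T ^ n) • x = x} {F : ι → X → ℍ → ℂ} {v : ι → X → ℂ}
    {G : ι → ℍ → ℂ} {g : ι → ℂ} (hF : ∀ i, HasLead n hT (F i) (v i))
    (hG : ∀ i, Tendsto (G i) atImInfty (𝓝 (g i))) :
    HasLead n hT (fun x => ∑ i ∈ s, G i * F i x) (fun x => ∑ i ∈ s, g i * v i x) := by
  intro x
  have h := tendsto_finsetSum s fun i (_ : i ∈ s) => (hG i).mul (hF i x)
  refine h.congr fun τ => ?_
  simp only [Finset.mul_sum, Finset.sum_apply, Pi.mul_apply]
  rw [Finset.sum_comm]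
  refine Finset.sum_congr rfl fun y _ => Finset.sum_congr rfl fun i _ => ?_
  ring

theorem HasLead.unique {n : ℕ} [NeZero n]
    {hT : ∀ x : X, (ModularGroup.T ^ n) • x = x} {F : X → ℍ → ℂ} {v w : X → ℂ}
    (hv : HasLead n hT F v) (hw : HasLead n hT F w) : v = w := by
  ext x
  exact tendsto_nhds_unique (hv x) (hw x)

omit [Fintype X] [DecidableEq X] in
theorem div_Δ {F : X → ℍ → ℂ} (hF : IsVMF X k F)
    (h : ∀ x, F x =O[atImInfty] (fun τ : ℍ => Real.exp (-2 * Real.pi * τ.im))) :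
    IsVMF X (k - 12) (fun x => F x / discriminant) where
  slash g x := by
    rw [div_slash_SL2, hF.slash, isL1_Δ.slash]
  holo x := (hF.holo x).div isL1_Δ.holo discriminant_ne_zero
  bdd x := by
    have h1 := (h x).trans exp_isBigO_discriminant
    exact (div_isBoundedUnder_of_isBigO h1).isBigO_one ℝ


/-- permutation matrix of `g⁻¹`. -/
def Rg (g : SL(2, ℤ)) : Matrix X X ℂ := Matrix.of fun x y => if g⁻¹ • x = y then 1 else 0

theorem Rg_mul_transpose (g : SL(2, ℤ)) : (Rg g : Matrix X X ℂ) * (Rg g).transpose = 1 := by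
  ext x y
  simp only [Rg, Matrix.mul_apply, Matrix.transpose_apply, Matrix.of_apply, ite_mul, one_mul,
    zero_mul, Finset.sum_ite_eq, Finset.mem_univ, if_true, Matrix.one_apply]
  simp [eq_comm]

theorem Rg_det_sq (g : SL(2, ℤ)) : (Rg g : Matrix X X ℂ).det ^ 2 = 1 := by
  have := congrArg Matrix.det (Rg_mul_transpose (X := X) g)
  rwa [Matrix.det_mul, Matrix.det_transpose, Matrix.det_one, ← pow_two] at this

omit [Fintype X] [DecidableEq X] in
theorem slash_apply' {F : X → ℍ → ℂ} (hF : ∀ (g : SL(2, ℤ)) (x : X), F x ∣[k] g = F (g⁻¹ • x))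
    (g : SL(2, ℤ)) (x : X) (τ : ℍ) :
    F x (g • τ) = denom (g : GL (Fin 2) ℝ) τ ^ k * F (g⁻¹ • x) τ := by
  have h := congrFun (hF g x) τ
  rw [SL_slash_apply] at h
  rw [← h, mul_comm, mul_assoc, ← zpow_add₀ (denom_ne_zero _ τ)]
  simp

theorem fmat_smul {k : X → ℤ} {F : X → X → ℍ → ℂ} (hF : ∀ i, ∀ (g : SL(2, ℤ)) (x : X),
    F i x ∣[k i] g = F i (g⁻¹ • x)) (g : SL(2, ℤ)) (τ : ℍ) :
    fmat F (g • τ) = Rg g * fmat F τ *
      Matrix.diagonal (fun i => denom (g : GL (Fin 2) ℝ) τ ^ (k i)) := by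
  ext x i
  rw [Matrix.mul_diagonal, fmat_apply, slash_apply' (hF i)]
  simp only [Rg, Matrix.mul_apply, Matrix.of_apply, ite_mul, one_mul, zero_mul,
    Finset.sum_ite_eq, Finset.mem_univ, if_true, fmat_apply]
  ring

theorem det_fmat_smul {k : X → ℤ} {F : X → X → ℍ → ℂ} (hF : ∀ i, ∀ (g : SL(2, ℤ)) (x : X),
    F i x ∣[k i] g = F i (g⁻¹ • x)) (g : SL(2, ℤ)) (τ : ℍ) :
    (fmat F (g • τ)).det = (Rg g : Matrix X X ℂ).det * (fmat F τ).det *
      denom (g : GL (Fin 2) ℝ) τ ^ (∑ i, k i) := by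
  rw [fmat_smul hF, Matrix.det_mul, Matrix.det_mul, Matrix.det_diagonal]
  congr 1
  have : ∀ (s : Finset X), ∏ i ∈ s, denom (g : GL (Fin 2) ℝ) τ ^ (k i)
      = denom (g : GL (Fin 2) ℝ) τ ^ (∑ i ∈ s, k i) := by
    intro s
    induction s using Finset.induction_on with
    | empty => simp
    | insert i t hi ih =>
      rw [Finset.prod_insert hi, Finset.sum_insert hi, ih, zpow_add₀ (denom_ne_zero _ τ)]
  exact this _

omit [MulAction SL(2, ℤ) X] in
theorem det_fmat_holo {F : X → X → ℍ → ℂ} (hF : ∀ i x, MDiff (F i x)) :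
    MDiff (fun τ => (fmat F τ).det) := by
  have : (fun τ => (fmat F τ).det) = ∑ σ : Equiv.Perm X,
      (fun _ => ((Equiv.Perm.sign σ : ℤ) : ℂ)) * ∏ i, F i (σ i) := by
    ext τ
    rw [Matrix.det_apply']
    simp [Finset.sum_apply, Finset.prod_apply]
  rw [this]
  exact mdiff_sum _ fun σ _ => mdifferentiable_const.mul (mdiff_prod _ fun i _ => hF _ _)

omit [MulAction SL(2, ℤ) X] in
theorem det_fmat_bdd {F : X → X → ℍ → ℂ} (hF : ∀ i x, IsBoundedAtImInfty (F i x)) :
    IsBoundedAtImInfty (fun τ => (fmat F τ).det) := by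
  have : (fun τ => (fmat F τ).det) = ∑ σ : Equiv.Perm X,
      (fun _ => ((Equiv.Perm.sign σ : ℤ) : ℂ)) * ∏ i, F i (σ i) := by
    ext τ
    rw [Matrix.det_apply']
    simp [Finset.sum_apply, Finset.prod_apply]
  rw [this]
  exact bdd_sum _ fun σ _ => (Filter.const_boundedAtFilter _ _).mul (bdd_prod _ fun i _ => hF _ _)

theorem det_sq_isL1 {k : X → ℤ} {F : X → X → ℍ → ℂ} (hF : ∀ i, IsVMF X (k i) (F i)) :
    IsL1 (2 * ∑ i, k i) (fun τ => (fmat F τ).det ^ 2) where
  slash g := by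
    ext τ
    rw [SL_slash_apply, det_fmat_smul (fun i => (hF i).slash), mul_pow, mul_pow, Rg_det_sq, one_mul,
      mul_assoc]
    conv_rhs => rw [← mul_one ((fmat F τ).det ^ 2)]
    congr 1
    rw [← zpow_natCast, ← zpow_mul, ← zpow_add₀ (denom_ne_zero _ τ)]
    have : ((∑ i, k i) * ((2 : ℕ) : ℤ) + -(2 * ∑ i, k i)) = 0 := by push_cast; ring
    rw [this, zpow_zero]
  holo := by
    simp only [pow_two]
    exact (det_fmat_holo fun i x => (hF i).holo x).mul (det_fmat_holo fun i x => (hF i).holo x)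
  bdd := by
    simp only [pow_two]
    exact (det_fmat_bdd fun i x => (hF i).bdd x).mul (det_fmat_bdd fun i x => (hF i).bdd x)


variable {kk : X → ℤ} {F : X → X → ℍ → ℂ}

theorem IsFreeBasis.even (hB : IsFreeBasis X kk F)
    (hneg : ∀ x : X, (-1 : SL(2, ℤ)) • x = x) (i : X) : Even (kk i) := by
  by_contra h
  rw [Int.not_even_iff_odd] at h
  obtain ⟨τ, hτ⟩ := hB.det_ne
  apply hτ
  apply Matrix.det_eq_zero_of_column_eq_zero i
  intro x
  rw [fmat_apply, (hB.vmf i).eq_zero_of_odd hneg h]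
  rfl

theorem lead_det_ne {n : ℕ} [NeZero n] {hT : ∀ x : X, (ModularGroup.T ^ n) • x = x}
    (hB : IsFreeBasis X kk F) (hdet : ∀ τ, (fmat F τ).det ≠ 0)
    (hneg : ∀ x : X, (-1 : SL(2, ℤ)) • x = x) {v : X → X → ℂ}
    (hv : ∀ i, HasLead n hT (F i) (v i)) : (Matrix.of fun x i => v i x).det ≠ 0 := by
  intro h0
  obtain ⟨c, hc, hVc⟩ := Matrix.exists_mulVec_eq_zero_iff.mpr h0
  set w : ℤ := 2 * (∑ i, |kk i|) + 4 with hw
  have hG : ∀ i, ∃ G : ℍ → ℂ, IsL1 (w - kk i) G ∧ Tendsto G atImInfty (𝓝 1) := by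
    intro i
    have h1 : kk i ≤ ∑ i, |kk i| :=
      (le_abs_self _).trans (Finset.single_le_sum (f := fun i => |kk i|)
        (fun j _ => abs_nonneg _) (Finset.mem_univ i))
    have h2 : 0 ≤ ∑ i, |kk i| := Finset.sum_nonneg fun j _ => abs_nonneg _
    have h3 : 4 ≤ w - kk i := by rw [hw]; linarith
    have h4 : Even (w - kk i) := by
      rw [hw]
      exact Even.sub (by
        refine ⟨(∑ i, |kk i|) + 2, by ring⟩) (hB.even hneg i)
    obtain ⟨m, hm⟩ := Int.eq_ofNat_of_zero_le (show 0 ≤ w - kk i by linarith)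
    rw [hm] at h3 h4 ⊢
    have h5 : 4 ≤ m := by exact_mod_cast h3
    have h6 : Even m := by exact_mod_cast h4
    exact exists_l1_one m h5 h6
  choose G hG1 hG2 using hG
  let H : X → ℍ → ℂ := fun x => ∑ i, (fun z => c i * G i z) * F i x
  have hH : IsVMF X w H := by
    refine IsVMF.sum _ fun i _ => ?_
    exact (IsVMF.l1_mul ((hG1 i).smul (c i)) (hB.vmf i)).cast (by ring)
  have hlead : HasLead n hT H (fun x => ∑ i, c i * v i x) := by
    refine HasLead.sum _ hv fun i => ?_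
    have := (hG2 i).const_mul (c i)
    rwa [mul_one] at this
  obtain ⟨v', hv', hdec⟩ := exists_lead hT hH
  have hv0 : ∀ x, v' x = 0 := by
    intro x
    rw [hv'.unique hlead]
    have := congrFun hVc x
    simp only [Matrix.mulVec, dotProduct, Matrix.of_apply, Pi.zero_apply] at this
    rw [← this]
    exact Finset.sum_congr rfl fun i _ => mul_comm _ _
  obtain ⟨G', hG'1, hG'2⟩ := hB.span _ _ (div_Δ hH (hdec hv0))
  have key : ∀ τ i, c i * G i τ = discriminant τ * G' i τ := by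
    intro τ
    have h1 : fmat F τ *ᵥ (fun i => c i * G i τ - discriminant τ * G' i τ) = 0 := by
      ext x
      have h2 := congrFun (hG'2 x) τ
      simp only [Pi.div_apply, Finset.sum_apply, Pi.mul_apply] at h2
      rw [div_eq_iff (discriminant_ne_zero τ)] at h2
      simp only [Matrix.mulVec, dotProduct, fmat_apply, Pi.zero_apply, mul_sub]
      rw [Finset.sum_sub_distrib, sub_eq_zero]
      have h3 : H x τ = ∑ i, F i x τ * (c i * G i τ) := by
        simp only [H, Finset.sum_apply, Pi.mul_apply]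
        exact Finset.sum_congr rfl fun i _ => mul_comm _ _
      rw [← h3, h2, Finset.sum_mul]
      exact Finset.sum_congr rfl fun i _ => by ring
    have h4 := Matrix.eq_zero_of_mulVec_eq_zero (hdet τ) h1
    intro i
    exact sub_eq_zero.mp (congrFun h4 i)
  apply hc
  ext i
  have t1 : Tendsto (fun τ : ℍ => c i * G i τ) atImInfty (𝓝 (c i)) := by
    have := (hG2 i).const_mul (c i)
    rwa [mul_one] at this
  have t2 : Tendsto (fun τ : ℍ => discriminant τ * G' i τ) atImInfty (𝓝 0) := by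
    have h1 : Tendsto discriminant atImInfty (𝓝 0) := discriminant_isZeroAtImInfty
    have h2 : IsBoundedAtImInfty (G' i) := (hG'1 i).bdd
    exact h1.zero_mul_isBoundedUnder_le h2.isBoundedUnder_le
  exact tendsto_nhds_unique t1 (t2.congr fun τ => (key τ i).symm)


theorem tendsto_Δ_div_q : Tendsto (fun τ : ℍ => discriminant τ / 𝕢 1 τ) atImInfty (𝓝 1) := by
  refine tendsto_atImInfty_tprod_one_sub_eta_q_pow.congr fun τ => ?_
  rw [discriminant_eq_q_prod, mul_div_cancel_left₀ _ (Function.Periodic.qParam_ne_zero _)]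

variable (X) in
omit [DecidableEq X] in
theorem cuspNum_le : cuspNum X ≤ Fintype.card X := by
  unfold cuspNum
  rw [← Nat.card_eq_fintype_card]
  exact Nat.card_le_card_of_surjective _ Quotient.mk''_surjective

omit [DecidableEq X] in
theorem exists_T_period : ∃ n : ℕ, n ≠ 0 ∧ ∀ x : X, (ModularGroup.T ^ n) • x = x := by
  let f : SL(2, ℤ) →* Equiv.Perm X := MulAction.toPermHom SL(2, ℤ) X
  refine ⟨orderOf (f ModularGroup.T), (orderOf_pos _).ne', fun x => ?_⟩
  have h : f (ModularGroup.T ^ orderOf (f ModularGroup.T)) = 1 := by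
    rw [map_pow, pow_orderOf_eq_one]
  exact congrFun (congrArg (fun e : Equiv.Perm X => (e : X → X)) h) x

theorem weight_sum (hB : IsFreeBasis X kk F) (hdet : ∀ τ, (fmat F τ).det ≠ 0)
    (hneg : ∀ x : X, (-1 : SL(2, ℤ)) • x = x) :
    ∑ i, kk i = 6 * ((Fintype.card X : ℤ) - cuspNum X) := by
  obtain ⟨n, hn0, hT⟩ := exists_T_period (X := X)
  have : NeZero n := ⟨hn0⟩
  choose v hv _ using fun i => exists_lead hT (hB.vmf i)
  have hV := lead_det_ne hB hdet hneg hv
  set V : Matrix X X ℂ := Matrix.of fun x i => v i x with hVdef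
  -- Q(τ) F(τ) → V
  have h1 : Tendsto (fun τ => Qt n hT τ * fmat F τ) atImInfty (𝓝 V) :=
    tendsto_pi_nhds.mpr fun x => tendsto_pi_nhds.mpr fun i => hv i x
  have h2 : Tendsto (fun τ => (Qt n hT τ * fmat F τ).det) atImInfty (𝓝 V.det) :=
    (continuous_id.matrix_det.tendsto V).comp h1
  obtain ⟨m, hm⟩ : ∃ m, Fintype.card X = cuspNum X + m :=
    ⟨_, (Nat.add_sub_cancel' (cuspNum_le X)).symm⟩
  have hq : ∀ τ : ℍ, 𝕢 1 (τ : ℂ) ≠ 0 := fun τ => Function.Periodic.qParam_ne_zero _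
  -- R = D^2 / Δ^m
  let R : ℍ → ℂ := fun τ => (fmat F τ).det ^ 2 / discriminant τ ^ m
  have h3 : Tendsto R atImInfty (𝓝 (V.det ^ 2)) := by
    have h4 := (h2.pow 2).div ((tendsto_Δ_div_q).pow m) (by simp)
    rw [one_pow, div_one] at h4
    refine h4.congr fun τ => ?_
    have h5 := det_Qt_sq n hT τ
    simp only [R, Pi.div_apply]
    rw [Matrix.det_mul, mul_pow, h5, hm]
    have h6 := hq τ
    have h7 := discriminant_ne_zero τ
    rw [pow_add, div_pow, inv_pow, inv_pow]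
    field_simp
  have hR0 : ∀ τ, R τ ≠ 0 := fun τ =>
    div_ne_zero (pow_ne_zero 2 (hdet τ)) (pow_ne_zero m (discriminant_ne_zero τ))
  have hDm : IsL1 (m * 12) (discriminant ^ m) := isL1_Δ.pow m
  have hD2 := det_sq_isL1 hB.vmf
  have hR : IsL1 (2 * ∑ i, kk i - m * 12) R := by
    have e : R = (fun τ => (fmat F τ).det ^ 2) / (discriminant ^ m) := by
      ext τ; simp [R]
    refine ⟨fun g => ?_, ?_, ?_⟩
    · rw [e, div_slash_SL2, hD2.slash, hDm.slash]
    · rw [e]
      exact hD2.holo.div hDm.holo fun τ => by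
        simpa using pow_ne_zero m (discriminant_ne_zero τ)
    · exact h3.isBigO_one ℝ
  have hRi : IsL1 (-(2 * ∑ i, kk i - m * 12)) (R⁻¹) := by
    have e1 : R⁻¹ = (fun _ => (1 : ℂ)) / R := by ext τ; simp
    refine ⟨fun g => ?_, ?_, ?_⟩
    · have := div_slash_SL2 (f := fun _ => (1 : ℂ)) (g := R) 0 (2 * ∑ i, kk i - m * 12) g
      rw [← e1, zero_sub, hR.slash, (IsL1.const 1).slash, ← e1] at this
      exact this
    · rw [e1]
      exact mdifferentiable_const.div hR.holo hR0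
    · have := h3.inv₀ (pow_ne_zero 2 hV)
      exact this.isBigO_one ℝ
  have hz : 2 * ∑ i, kk i - m * 12 = 0 := by
    rcases lt_trichotomy (2 * ∑ i, kk i - m * 12 : ℤ) 0 with h | h | h
    · exact absurd (congrFun (hR.eq_zero_of_neg h) UpperHalfPlane.I) (hR0 _)
    · exact h
    · have := congrFun (hRi.eq_zero_of_neg (by linarith)) UpperHalfPlane.I
      simp only [Pi.inv_apply, Pi.zero_apply, inv_eq_zero] at this
      exact absurd this (hR0 _)
  rw [hm]
  push_cast
  linarith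

end Fermat.Agent.H20
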