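import Fermat.Agent.H20Deg4
/-!
# S25, job K3, part 1: twists and the Picard group
-/
set_option autoImplicit false
universe u v
open CategoryTheory AlgebraicGeometry CategoryTheory.Limits TopologicalSpace Opposite Module
open AlgebraicGeometry.RelPicard NeronModelInfra

noncomputable section

namespace Fermat.Agent.H20T

open Fermat.Agent.H25 Fermat.Agent.H21T

section General

variable {X T : Scheme.{u}} {γ : T ⟶ X} {L M N : X.Modules}

/-- `L(γ) = L ⊗ O(γ)` -/
theorem exists_tens_of_isTw (hγ : IsCart γ) (hM : Scheme.Modules.IsInvertible M)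
    (hN : Scheme.Modules.IsInvertible N) (h1 : IsTw γ L M) (h2 : IsTw γ (uMod X) N) :
    Nonempty (Tens L N M) := by
  obtain ⟨φ, hφ⟩ := h1
  obtain ⟨ν, hν⟩ := h2
  have h3 : ∀ p : X, ∃ (W : X.Opens) (_ : p ∈ W) (e : Γ(X, W)) (s : Γ(M, W)) (n : Γ(N, W))
      (l : Γ(L, W)) (a : Γ(X, W)), IsLocEq γ e ∧ IsGen M s ∧ IsGen N n ∧ IsGen L l ∧ IsUnit a ∧
        φ.app W l = e • s ∧ ν.app W (uSec a) = e • n := by
    intro p
    obtain ⟨W₀, hp₀, e₀, he₀⟩ := hγ p
    obtain ⟨W₁, hW₁, hp₁, s₁, hs₁⟩ := exists_isGen_of_mem hM hp₀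
    obtain ⟨W, hW, hp, n, hn⟩ := exists_isGen_of_mem hN hp₁
    have hs := hs₁.res hW
    have he := he₀.res (hW.trans hW₁)
    obtain ⟨l, hl, hls⟩ := hφ.exists_gen he hs
    obtain ⟨a, ha, han⟩ := hν.exists_gen he hn
    refine ⟨W, hp, _, _, n, l, uFun a, he, hs, hn, hl, ?_, hls, han⟩
    rw [← isGen_uSec_iff]
    exact ha
  choose W hpW e s n l a he hs hn hl ha h4 h5 using h3
  have hcov : ⨆ p, W p = ⊤ := iSup_eq_top_of_pt (fun p => ⟨p, hpW p⟩)
  obtain ⟨b, hb⟩ := exists_biHom (L := L) (N := N) (T := M) W hcov l hl n hn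
    (fun p => a p • s p) (by
      intro p q V hp hq f f' hf hf'
      have e1 : φ.app V (res L hp (l p)) = resO hp (e p) • res M hp (s p) := by
        rw [app_res, h4, res_smul]
      have e2 : φ.app V (res L hq (l q)) = resO hq (e q) • res M hq (s q) := by
        rw [app_res, h4, res_smul]
      rw [hf, app_smul', e2] at e1
      have e3 : resO hq (a q) • ν.app V (res _ hp (uSec (a p))) =
          resO hp (a p) • ν.app V (res _ hq (uSec (a q))) := by
        rw [← app_smul', ← app_smul']
        congr 1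
        change resO hq (a q) * resO hp (a p) = resO hp (a p) * resO hq (a q)
        exact mul_comm _ _
      rw [app_res, app_res, h5, h5, res_smul, res_smul, hf', smul_smul, smul_smul, smul_smul] at e3
      have e4 := ((hn q).res hq).inj e3
      obtain ⟨w, hw⟩ := (hs q).surj' hq (res M hp (a p • s p))
      have e5 : (resO hp (e p) * w) • res M hq (s q) =
          (resO hp (a p) * (f * resO hq (e q))) • res M hq (s q) := by
        rw [mul_smul, ← hw, res_smul, mul_smul, mul_smul, e1, smul_comm]
      have e6 := ((hs q).res hq).inj e5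
      have e7 : (w - f * f' * resO hq (a q)) * resO hp (e p) = 0 := by
        linear_combination e6 - f * e4
      have e8 := sub_eq_zero.mp (((he p) V hp).2 _ e7)
      rw [hw, e8, res_smul, mul_smul, mul_smul])
  exact ⟨Tens.ofCover b W hcov l hl n hn fun p => by
    rw [hb]; exact (hs p).unit_smul (ha p)⟩

end General

section Points

variable {k : Type u} [Field k] {C T T' : Scheme.{u}} {c : C ⟶ Spec (CommRingCat.of k)}
  {t : T ⟶ Spec (CommRingCat.of k)} {t' : T' ⟶ Spec (CommRingCat.of k)}
  [IsAlgClosed k] [IsSeparated c] [SmoothOfRelativeDimension 1 c] [IsIntegral C]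

/-- the class of the divisor of a point -/
def ptCl (x : SchemeHomOver t c) : SPic (pullback c t) :=
  SPic.mk _ (exists_isTw_inv (isCart_graph x) (isInvertible_uMod (pullback c t))).choose_spec.1

theorem mk_of_isTw {x : SchemeHomOver t c} {L M : (pullback c t).Modules}
    (hL : Scheme.Modules.IsInvertible L) (hM : Scheme.Modules.IsInvertible M)
    (h : IsTw (graph x) L M) : SPic.mk M hM = SPic.mk L hL * ptCl x := by
  obtain ⟨τ⟩ := exists_tens_of_isTw (isCart_graph x) hM
    (exists_isTw_inv (isCart_graph x) (isInvertible_uMod (pullback c t))).choose_spec.1 h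
    (exists_isTw_inv (isCart_graph x) (isInvertible_uMod (pullback c t))).choose_spec.2
  exact (SPic.mk_mul_mk τ).symm

theorem mk_of_twL {xs : List (SchemeHomOver t c)} {L M : (pullback c t).Modules}
    (hL : Scheme.Modules.IsInvertible L) (hM : Scheme.Modules.IsInvertible M)
    (h : TwL xs L M) : SPic.mk M hM = SPic.mk L hL * (xs.map ptCl).prod := by
  induction xs generalizing L with
  | nil =>
    obtain ⟨e⟩ := h
    rw [List.map_nil, List.prod_nil, mul_one, SPic.mk_eq_mk]
    exact ⟨e.symm⟩
  | cons x xs ih =>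
    obtain ⟨L', hL', h1, h2⟩ := h
    rw [ih hL' h1, mk_of_isTw hL hL' h2, List.map_cons, List.prod_cons, mul_assoc]

theorem map_ptCl (x : SchemeHomOver t c) (ψ : SchemeHomOver t' t) :
    SPic.map (baseChangeSnd c ψ) (ptCl x) = ptCl (postComp x ψ) := by
  have h := (exists_isTw_inv (isCart_graph x) (isInvertible_uMod (pullback c t))).choose_spec
  have h1 := IsTw.graph_baseChange h.2 h.1 ψ
  have h2 := h1.of_iso (Scheme.Modules.pullbackUnitIso _) (Iso.refl _)
  have h3 := mk_of_isTw (isInvertible_uMod _) (h.1.pullback _) h2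
  rw [← SPic.one_def, one_mul] at h3
  exact h3

end Points

section Chi

variable {k : Type u} [Field k] {C : Scheme.{u}} {c : C ⟶ Spec (CommRingCat.of k)}
  [IsAlgClosed k] [IsSeparated c] [SmoothOfRelativeDimension 1 c] [IsIntegral C]

theorem chiP_mul_ptCl (τ : TwoChart c) {K : Type u} [Field K]
    {z : Spec (CommRingCat.of K) ⟶ Spec (CommRingCat.of k)} (x : SchemeHomOver z c)
    (α : SPic (pullback c z)) : chiP τ z (α * ptCl x) = chiP τ z α + 1 := by
  induction α using SPic.ind with | _ L hL
  obtain ⟨M, hM, h⟩ := exists_isTw_inv (isCart_graph x) hL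
  rw [← mk_of_isTw hL hM h]
  obtain ⟨φ, hφ⟩ := h
  exact chiL_tw (H51Pb.baseChange τ z) (graph_snd x) hL hM hφ

theorem chiP_mul_prod (τ : TwoChart c) {K : Type u} [Field K]
    {z : Spec (CommRingCat.of K) ⟶ Spec (CommRingCat.of k)} (xs : List (SchemeHomOver z c))
    (α : SPic (pullback c z)) :
    chiP τ z (α * (xs.map ptCl).prod) = chiP τ z α + xs.length := by
  induction xs generalizing α with
  | nil => simp
  | cons x xs ih =>
    rw [List.map_cons, List.prod_cons, ← mul_assoc, ih, chiP_mul_ptCl, List.length_cons]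
    push_cast
    ring

end Chi

end Fermat.Agent.H20T
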