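import Fermat.Agent.H20K3a
/-!
# S25, job K3, part 2: subtracting general rational points
-/
set_option autoImplicit false
universe u v
open CategoryTheory AlgebraicGeometry CategoryTheory.Limits TopologicalSpace Opposite Module
open AlgebraicGeometry.RelPicard NeronModelInfra

noncomputable section

namespace Fermat.Agent.H20T

open Fermat.Agent.H25 Fermat.Agent.H21T

section H0

variable {K : Type u} [Field K] {Z : Scheme.{u}} {z : Z ⟶ Spec (CommRingCat.of K)}

/-- gluing over the two charts -/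
theorem exists_glue_two (τ : TwoChart z) {L : Z.Modules} (a : Γ(L, τ.U)) (b : Γ(L, τ.V))
    (hab : res L (inf_le_left : τ.U ⊓ τ.V ≤ τ.U) a = res L inf_le_right b) :
    ∃ s : Γ(L, ⊤), res L le_top s = a ∧ res L le_top s = b := by
  obtain ⟨s, hs⟩ := sec_glue (M := L) (U := ⊤) (fun i : Bool => cond i τ.U τ.V)
    (fun i => le_top) (by
      rw [← τ.cover]
      exact sup_le (le_iSup (fun i : Bool => cond i τ.U τ.V) true)
        (le_iSup (fun i : Bool => cond i τ.U τ.V) false))
    (fun i => match i with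
      | true => a
      | false => b) (by
      rintro (_ | _) (_ | _) V hi hj
      · rfl
      · have := congrArg (res L (le_inf hj hi : V ≤ τ.U ⊓ τ.V)) hab
        rw [res_res, res_res] at this
        exact this.symm
      · have := congrArg (res L (le_inf hi hj : V ≤ τ.U ⊓ τ.V)) hab
        rw [res_res, res_res] at this
        exact this
      · rfl)
  exact ⟨s, hs true, hs false⟩

theorem ext_two (τ : TwoChart z) {L : Z.Modules} {s s' : Γ(L, ⊤)}
    (h1 : res L (le_top : τ.U ≤ ⊤) s = res L le_top s')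
    (h2 : res L (le_top : τ.V ≤ ⊤) s = res L le_top s') : s = s' := by
  refine sec_ext (fun i : Bool => cond i τ.U τ.V) (fun i => le_top) (by
      rw [← τ.cover]
      exact sup_le (le_iSup (fun i : Bool => cond i τ.U τ.V) true)
        (le_iSup (fun i : Bool => cond i τ.U τ.V) false)) ?_
  rintro (_ | _)
  · exact h2
  · exact h1

theorem resTop_injective (τ : TwoChart z) {L : Z.Modules}
    (hL : Scheme.Modules.IsInvertible L) :
    Function.Injective (Sec.resL z L (le_top : τ.U ⊓ τ.V ≤ ⊤)) := by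
  intro s s' h
  have h0 : res L (le_top : τ.U ⊓ τ.V ≤ ⊤) s.s = res L le_top s'.s := congrArg Sec.s h
  apply Sec.ext
  refine ext_two τ (resU_injective τ hL ?_) (resV_injective τ hL ?_)
  · rw [res_res, res_res]; exact h0
  · rw [res_res, res_res]; exact h0

theorem range_resTop (τ : TwoChart z) {L : Z.Modules} (hL : Scheme.Modules.IsInvertible L) :
    LinearMap.range (Sec.resL z L (le_top : τ.U ⊓ τ.V ≤ ⊤)) =
      (latOf τ L hL).P ⊓ (latOf τ L hL).Q := by
  ext x
  constructor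
  · rintro ⟨s, rfl⟩
    refine ⟨⟨toSec (res L le_top s.s), ?_⟩, ⟨toSec (res L le_top s.s), ?_⟩⟩ <;>
    · apply Sec.ext
      rw [Sec.resL_s, Sec.resL_s, Sec.s_toSec, res_res]
  · rintro ⟨⟨a, ha⟩, ⟨b, hb⟩⟩
    obtain ⟨s, hs, -⟩ := exists_glue_two τ a.s b.s
      ((congrArg Sec.s ha).trans (congrArg Sec.s hb).symm)
    refine ⟨toSec s, ?_⟩
    rw [← ha]
    apply Sec.ext
    rw [Sec.resL_s, Sec.resL_s, Sec.s_toSec, ← hs, res_res]

theorem finrank_top (τ : TwoChart z) {L : Z.Modules} (hL : Scheme.Modules.IsInvertible L) :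
    Module.Finite K (Sec z L ⊤) ∧ finrank K (Sec z L ⊤) =
      finrank K ((latOf τ L hL).P ⊓ (latOf τ L hL).Q : Submodule K (Sec z L (τ.U ⊓ τ.V))) := by
  obtain ⟨h1, -⟩ := chiL_finite τ hL
  let e := (LinearEquiv.ofInjective _ (resTop_injective τ hL)).trans
    (LinearEquiv.ofEq _ _ (range_resTop τ hL))
  exact ⟨Module.Finite.equiv e.symm, e.finrank_eq⟩

theorem chiL_eq (τ : TwoChart z) {L : Z.Modules} (hL : Scheme.Modules.IsInvertible L) :
    chiL τ L hL = finrank K (Sec z L ⊤) -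
      finrank K (Sec z L (τ.U ⊓ τ.V) ⧸ ((latOf τ L hL).P ⊔ (latOf τ L hL).Q)) := by
  rw [chiL, (finrank_top τ hL).2]

theorem chiL_le (τ : TwoChart z) {L : Z.Modules} (hL : Scheme.Modules.IsInvertible L) :
    chiL τ L hL ≤ finrank K (Sec z L ⊤) := by
  rw [chiL_eq]; omega

theorem sup_eq_top_iff (τ : TwoChart z) {L : Z.Modules} (hL : Scheme.Modules.IsInvertible L) :
    (latOf τ L hL).P ⊔ (latOf τ L hL).Q = ⊤ ↔ chiL τ L hL = finrank K (Sec z L ⊤) := by
  obtain ⟨-, h2⟩ := chiL_finite τ hL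
  rw [chiL_eq, ← Submodule.Quotient.subsingleton_iff, ← Module.finrank_zero_iff (R := K)]
  omega

theorem isCompl_of (τ : TwoChart z) {L : Z.Modules} (hL : Scheme.Modules.IsInvertible L)
    (h0 : finrank K (Sec z L ⊤) = 0) (hχ : chiL τ L hL = 0) :
    IsCompl (latOf τ L hL).P (latOf τ L hL).Q := by
  obtain ⟨h1, h2⟩ := finrank_top τ hL
  have h3 : (latOf τ L hL).P ⊔ (latOf τ L hL).Q = ⊤ := by
    rw [sup_eq_top_iff, hχ, h0]; rfl
  refine ⟨?_, codisjoint_iff.mpr h3⟩
  rw [disjoint_iff, ← range_resTop τ hL]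
  have h4 : Subsingleton (Sec z L ⊤) := Module.finrank_zero_iff.mp h0
  rw [eq_bot_iff]
  rintro _ ⟨s, rfl⟩
  rw [Subsingleton.elim s 0, map_zero]
  exact Submodule.zero_mem _

/-- subtracting a point which is not a base point -/
theorem finrank_tw_lt (τ : TwoChart z) {x : Spec (CommRingCat.of K) ⟶ Z} {L M : Z.Modules}
    (hM : Scheme.Modules.IsInvertible M) {φ : L ⟶ M} (h : TwHom x φ) {s : Γ(M, ⊤)}
    (hs : pb x M s ≠ 0) : finrank K (Sec z L ⊤) < finrank K (Sec z M ⊤) := by
  obtain ⟨h1, -⟩ := finrank_top τ hM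
  have hinj : Function.Injective (Sec.mapL z φ ⊤) := (h ⊤).1
  have hr : finrank K (Sec z L ⊤) = finrank K (LinearMap.range (Sec.mapL z φ ⊤)) :=
    (LinearEquiv.ofInjective _ hinj).finrank_eq
  rw [hr]
  refine Submodule.finrank_lt ?_
  intro htop
  have : toSec s ∈ LinearMap.range (Sec.mapL z φ ⊤) := by rw [htop]; trivial
  obtain ⟨l, hl⟩ := this
  apply hs
  exact ((h ⊤).2 s).1 ⟨l.s, congrArg Sec.s hl⟩

end H0

section Density

variable {k : Type u} [Field k] [IsAlgClosed k] {C : Scheme.{u}}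
  {c : C ⟶ Spec (CommRingCat.of k)} [LocallyOfFiniteType c]
  {K : Type u} [Field K] {z : Spec (CommRingCat.of K) ⟶ Spec (CommRingCat.of k)}

/-- a `k`-point of `C`, seen as a `K`-point -/
def liftPt (z : Spec (CommRingCat.of K) ⟶ Spec (CommRingCat.of k))
    (x : SchemeHomOver (𝟙 (Spec (CommRingCat.of k))) c) : SchemeHomOver z c :=
  ⟨z ≫ x.1, by rw [Category.assoc, x.2, Category.comp_id]⟩

/-- `k`-points are dense in `C_K` -/
theorem exists_kPoint_mem (W : (pullback c z).Opens) (hW : (W : Set ↥(pullback c z)).Nonempty) :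
    ∃ x : SchemeHomOver (𝟙 (Spec (CommRingCat.of k))) c,
      graph (liftPt z x) (IsLocalRing.closedPoint K) ∈ W := by
  have hopen : IsOpenMap (pullback.fst c z).base := (pullback.fst c z).isOpenMap
  let W' : C.Opens := ⟨(pullback.fst c z).base '' W, hopen _ W.isOpen⟩
  obtain ⟨w₀, hw₀⟩ := hW
  have hne : Nonempty W' := ⟨⟨(pullback.fst c z).base w₀, ⟨w₀, hw₀, rfl⟩⟩⟩
  obtain ⟨x', hx'⟩ := exists_kPoint (W'.ι ≫ c)
  let x : SchemeHomOver (𝟙 (Spec (CommRingCat.of k))) c := ⟨x' ≫ W'.ι, by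
    rw [Category.assoc, hx']⟩
  refine ⟨x, ?_⟩
  have hxW : x.1.base (IsLocalRing.closedPoint k) ∈ W' := by
    change W'.ι.base (x'.base (IsLocalRing.closedPoint k)) ∈ W'
    exact (x'.base (IsLocalRing.closedPoint k)).2
  obtain ⟨w, hw, hwx⟩ := hxW
  have hpb : IsPullback (graph (liftPt z x)) z (pullback.fst c z) x.1 := by
    refine IsPullback.of_right (h₁₂ := pullback.snd c z) (v₁₃ := z) (h₂₂ := c) ?_
      (graph_fst _) (IsPullback.of_hasPullback c z).flip
    rw [graph_snd, x.2]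
    exact IsPullback.of_horiz_isIso ⟨by simp⟩
  obtain ⟨v, hv, -⟩ := Scheme.Pullback.exists_preimage_pullback (f := pullback.fst c z)
    (g := x.1) w (IsLocalRing.closedPoint k) hwx
  have h1 : graph (liftPt z x) (hpb.isoPullback.inv v) = w := by
    rw [← Scheme.Hom.comp_apply, hpb.isoPullback_inv_fst, hv]
  have h2 : hpb.isoPullback.inv v = IsLocalRing.closedPoint K := Subsingleton.elim _ _
  rw [h2] at h1
  rw [h1]
  exact hw

end Density

section Nonvanishing

/-- a nonzero section of an invertible module on an integral scheme generates on a nonempty open -/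
theorem exists_isGen_of_ne_zero {Z : Scheme.{u}} [IsIntegral Z] {L : Z.Modules}
    (hL : Scheme.Modules.IsInvertible L) {s : Γ(L, ⊤)} (hs : s ≠ 0) :
    ∃ W : Z.Opens, Nonempty W ∧ IsGen L (res L (le_top : W ≤ ⊤) s) := by
  by_contra hcon
  push Not at hcon
  apply hs
  have h1 : ∀ p : Z, ∃ (V : Z.Opens) (_ : p ∈ V), res L (le_top : V ≤ ⊤) s = 0 := by
    intro p
    obtain ⟨V, -, hp, l, hl⟩ := exists_isGen_of_mem hL (show p ∈ (⊤ : Z.Opens) from trivial)
    refine ⟨V, hp, ?_⟩
    obtain ⟨f, hf⟩ := hl.surj (res L le_top s)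
    by_cases h0 : f = 0
    · rw [hf, h0, zero_smul]
    · exfalso
      have hne : Nonempty (Z.basicOpen f) := by
        rw [← not_isEmpty_iff]
        intro hem
        apply h0
        rw [← basicOpen_eq_bot_iff, eq_bot_iff]
        intro q hq
        exact (hem.false ⟨q, hq⟩).elim
      refine hcon (Z.basicOpen f) hne ?_
      have h2 := congrArg (res L (Z.basicOpen_le f)) hf
      rw [res_res, res_smul] at h2
      rw [h2]
      exact (hl.res _).unit_smul (H51Aff.isUnit_resO f le_rfl _)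
  choose V hV h2 using h1
  refine sec_ext V (fun p => le_top) (pt_cover (fun p => ⟨p, hV p⟩) ⊤) fun p => ?_
  rw [h2, res_zero]

theorem pb_ne_zero {K : Type u} [Field K] {Z : Scheme.{u}} (x : Spec (CommRingCat.of K) ⟶ Z)
    {L : Z.Modules} {s : Γ(L, ⊤)} {W : Z.Opens} (hW : x (IsLocalRing.closedPoint K) ∈ W)
    (hs : IsGen L (res L (le_top : W ≤ ⊤) s)) : pb x L s ≠ 0 := by
  intro h0
  have h1 := hs.pb x L
  rw [pb_res, h0, res_zero] at h1
  have h2 : (1 : Γ(Spec (CommRingCat.of K), x ⁻¹ᵁ W)) = 0 := h1.inj (by simp)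
  have h3 : Nonempty (x ⁻¹ᵁ W) := ⟨⟨_, hW⟩⟩
  exact one_ne_zero h2

end Nonvanishing

section Subtract

variable {k : Type u} [Field k] [IsAlgClosed k] {C : Scheme.{u}}
  {c : C ⟶ Spec (CommRingCat.of k)} [IsSeparated c] [SmoothOfRelativeDimension 1 c]
  [LocallyOfFiniteType c] [IsIntegral C]
  {K : Type u} [Field K] {z : Spec (CommRingCat.of K) ⟶ Spec (CommRingCat.of k)}

omit [IsSeparated c] [SmoothOfRelativeDimension 1 c] in
theorem exists_pt_ne_zero {L M : (pullback c z).Modules}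
    (hL : Scheme.Modules.IsInvertible L) (hM : Scheme.Modules.IsInvertible M)
    {s : Γ(L, ⊤)} {s' : Γ(M, ⊤)} (hs : s ≠ 0) (hs' : s' ≠ 0) :
    ∃ x : SchemeHomOver (𝟙 (Spec (CommRingCat.of k))) c,
      pb (graph (liftPt z x)) L s ≠ 0 ∧ pb (graph (liftPt z x)) M s' ≠ 0 := by
  have hint : IsIntegral (pullback c z) :=
    (H74.F1.geometricallyIntegral c).geometrically_isIntegral z _ _ (IsPullback.of_hasPullback c z)
  obtain ⟨W, hW, h1⟩ := exists_isGen_of_ne_zero hL hs
  obtain ⟨W', hW', h2⟩ := exists_isGen_of_ne_zero hM hs'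
  obtain ⟨w⟩ := nonempty_inter hW hW'
  obtain ⟨x, hx⟩ := exists_kPoint_mem (z := z) (W ⊓ W') ⟨w.1, w.2⟩
  exact ⟨x, pb_ne_zero _ hx.1 h1, pb_ne_zero _ hx.2 h2⟩

theorem exists_subtract (τ : TwoChart c) (n : ℕ) {L M : (pullback c z).Modules}
    (hL : Scheme.Modules.IsInvertible L) (hM : Scheme.Modules.IsInvertible M)
    (h1 : finrank K (Sec (pullback.snd c z) L ⊤) = n)
    (h2 : chiL (H51Pb.baseChange τ z) L hL = n)
    (h3 : finrank K (Sec (pullback.snd c z) M ⊤) = n)
    (h4 : chiL (H51Pb.baseChange τ z) M hM = n) :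
    ∃ (xs : List (SchemeHomOver (𝟙 (Spec (CommRingCat.of k))) c))
      (L' M' : (pullback c z).Modules) (hL' : Scheme.Modules.IsInvertible L')
      (hM' : Scheme.Modules.IsInvertible M'), TwL (xs.map (liftPt z)) L' L ∧
      TwL (xs.map (liftPt z)) M' M ∧
      IsCompl (latOf (H51Pb.baseChange τ z) L' hL').P (latOf (H51Pb.baseChange τ z) L' hL').Q ∧
      IsCompl (latOf (H51Pb.baseChange τ z) M' hM').P (latOf (H51Pb.baseChange τ z) M' hM').Q := by
  induction n generalizing L M with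
  | zero =>
    exact ⟨[], L, M, hL, hM, ⟨Iso.refl _⟩, ⟨Iso.refl _⟩, isCompl_of _ hL h1 (by simpa using h2),
      isCompl_of _ hM h3 (by simpa using h4)⟩
  | succ n ih =>
    have hnz : ∀ {N : (pullback c z).Modules}, finrank K (Sec (pullback.snd c z) N ⊤) = n + 1 →
        ∃ s : Γ(N, ⊤), s ≠ 0 := by
      intro N hN
      have : Nontrivial (Sec (pullback.snd c z) N ⊤) :=
        Module.nontrivial_of_finrank_pos (R := K) (by omega)
      obtain ⟨s, hs⟩ := exists_ne (0 : Sec (pullback.snd c z) N ⊤)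
      exact ⟨s.s, hs⟩
    obtain ⟨s, hs⟩ := hnz h1
    obtain ⟨s', hs'⟩ := hnz h3
    obtain ⟨x, hx, hx'⟩ := exists_pt_ne_zero hL hM hs hs'
    have key : ∀ {N : (pullback c z).Modules} (hN : Scheme.Modules.IsInvertible N)
        (_ : finrank K (Sec (pullback.snd c z) N ⊤) = n + 1)
        (_ : chiL (H51Pb.baseChange τ z) N hN = n + 1) {s : Γ(N, ⊤)}
        (_ : pb (graph (liftPt z x)) N s ≠ 0), ∃ (N' : (pullback c z).Modules)
        (hN' : Scheme.Modules.IsInvertible N'), IsTw (graph (liftPt z x)) N' N ∧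
        finrank K (Sec (pullback.snd c z) N' ⊤) = n ∧ chiL (H51Pb.baseChange τ z) N' hN' = n := by
      intro N hN e1 e2 s hs
      have htw := twι_twHom (graph (liftPt z x)) N
      have hN' : Scheme.Modules.IsInvertible (tw (graph (liftPt z x)) N) :=
        htw.isInvertible (isCart_graph _) hN
      have e3 := chiL_tw (H51Pb.baseChange τ z) (graph_snd (liftPt z x)) hN' hN htw
      have e4 := finrank_tw_lt (H51Pb.baseChange τ z) hN htw hs
      have e5 := chiL_le (H51Pb.baseChange τ z) hN'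
      refine ⟨_, hN', ⟨_, htw⟩, ?_, ?_⟩
      · omega
      · omega
    obtain ⟨L₁, hL₁, t1, a1, b1⟩ := key hL h1 (by simpa using h2) hx
    obtain ⟨M₁, hM₁, t2, a2, b2⟩ := key hM h3 (by simpa using h4) hx'
    obtain ⟨xs, L', M', hL', hM', g1, g2, g3, g4⟩ := ih hL₁ hM₁ a1 b1 a2 b2
    refine ⟨xs ++ [x], L', M', hL', hM', ?_, ?_, g3, g4⟩
    · rw [List.map_append]
      exact g1.append (TwL.single hL t1)
    · rw [List.map_append]
      exact g2.append (TwL.single hM t2)

end Subtract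

end Fermat.Agent.H20T
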