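import Fermat.Agent.H20K3b
/-!
# S25, job K3, part 3: `exists_twists`
-/
set_option autoImplicit false
universe u v
open CategoryTheory AlgebraicGeometry CategoryTheory.Limits TopologicalSpace Opposite Module
open AlgebraicGeometry.RelPicard NeronModelInfra

noncomputable section

namespace Fermat.Agent.H20T

open Fermat.Agent.H25 Fermat.Agent.H21T

variable {k : Type u} [Field k] [IsAlgClosed k] {C : Scheme.{u}}
  {c : C ⟶ Spec (CommRingCat.of k)} [IsProper c] [SmoothOfRelativeDimension 1 c]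
  [IsIntegral C]

/-- the interface for twists at infinity -/
def HasInfTwists (τ : TwoChart c) : Prop :=
  ∃ ν : ℕ → SPic C,
    (∀ m, ∃ (N : C.Modules) (hN : Scheme.Modules.IsInvertible N), ν m = SPic.mk N hN ∧
      ∃ φ : uMod C ⟶ N, φ ≠ 0) ∧
    ∀ (K : Type u) [Field K] (z : Spec (CommRingCat.of K) ⟶ Spec (CommRingCat.of k))
      (α : SPic (pullback c z)), ∃ m₀ : ℕ, ∀ m ≥ m₀, ∀ (L' : (pullback c z).Modules)
      (hL' : Scheme.Modules.IsInvertible L'), α * bcl z (ν m) = SPic.mk L' hL' →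
        (latOf (H51Pb.baseChange τ z) L' hL').P ⊔ (latOf (H51Pb.baseChange τ z) L' hL').Q = ⊤

/-- the class on `C` of a point -/
def ptCl₀ (x : SchemeHomOver (𝟙 (Spec (CommRingCat.of k))) c) : SPic C :=
  SPic.map (inv (pullback.fst c (𝟙 (Spec (CommRingCat.of k))))) (ptCl x)

theorem bcl_ptCl₀ (x : SchemeHomOver (𝟙 (Spec (CommRingCat.of k))) c) {K : Type u} [Field K]
    (z : Spec (CommRingCat.of K) ⟶ Spec (CommRingCat.of k)) :
    bcl z (ptCl₀ x) = ptCl (liftPt z x) := by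
  let ψ : SchemeHomOver z (𝟙 (Spec (CommRingCat.of k))) := ⟨z, Category.comp_id z⟩
  have h1 : pullback.fst c z ≫ inv (pullback.fst c (𝟙 (Spec (CommRingCat.of k)))) =
      baseChangeSnd c ψ := by
    rw [IsIso.comp_inv_eq, H25.baseChangeSnd_fst]
  rw [bcl, ptCl₀, ← SPic.map_comp_apply, h1, map_ptCl]
  rfl

theorem bcl_prod (xs : List (SchemeHomOver (𝟙 (Spec (CommRingCat.of k))) c)) {K : Type u}
    [Field K] (z : Spec (CommRingCat.of K) ⟶ Spec (CommRingCat.of k)) :
    bcl z (xs.map ptCl₀).prod = ((xs.map (liftPt z)).map ptCl).prod := by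
  rw [map_list_prod, List.map_map, List.map_map]
  congr 1
  refine List.map_congr_left fun x _ => ?_
  exact bcl_ptCl₀ x z

theorem exists_shift (τ : TwoChart c) {N : C.Modules} (hN : Scheme.Modules.IsInvertible N)
    {φ : uMod C ⟶ N} (hφ : φ ≠ 0) : ∃ e : ℤ, ∀ (K : Type u) [Field K]
      (z : Spec (CommRingCat.of K) ⟶ Spec (CommRingCat.of k)) (α : SPic (pullback c z)),
        chiP τ z (α * bcl z (SPic.mk N hN)) = chiP τ z α + e := by
  have hint : IsIntegral (pullback c (𝟙 (Spec (CommRingCat.of k)))) :=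
    IsIntegral.of_isIso (inv (pullback.fst c (𝟙 (Spec (CommRingCat.of k)))))
  let f := pullback.fst c (𝟙 (Spec (CommRingCat.of k)))
  let s : Γ(N, ⊤) := φ.app ⊤ (uSec 1)
  have hs : s ≠ 0 := fun h => hφ (eq_zero_of_gen (isInvertible_uMod _) hN φ
    (W := ⊤) ⟨⟨(inferInstance : Nonempty C).some, trivial⟩⟩ (isGen_one ⊤) h)
  obtain ⟨W, ⟨w⟩, hgen⟩ := exists_isGen_of_ne_zero hN hs
  obtain ⟨ys, hys⟩ : ∃ ys : List (SchemeHomOver (𝟙 (Spec (CommRingCat.of k))) c),
      TwL ys (uMod _) ((Scheme.Modules.pullback f).obj N) := by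
    refine exists_twL_of_ne_zero (H51Pb.baseChange τ (𝟙 _)) (isInvertible_uMod _)
      (hN.pullback _) (φ := unitHom (pb f N s)) ?_
    intro h0
    have h1 : pb f N s = 0 := by
      have h2 : (unitHom (pb f N s)).app ⊤ (uSec 1) = pb f N s := by
        rw [unitHom_app, uFun_uSec, one_smul, res_self]
      rw [← h2, h0]
      rfl
    have h3 := hgen.pb f N
    rw [pb_res, h1, res_zero] at h3
    have h2 : (1 : Γ(pullback c (𝟙 (Spec (CommRingCat.of k))), f ⁻¹ᵁ W)) = 0 := h3.inj (by simp)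
    have h4 : Nonempty (f ⁻¹ᵁ W) := by
      refine ⟨⟨(inv f) w.1, ?_⟩⟩
      change f ((inv f) w.1) ∈ W
      rw [← Scheme.Hom.comp_apply, IsIso.inv_hom_id]
      exact w.2
    exact one_ne_zero h2
  refine ⟨ys.length, fun K _ z α => ?_⟩
  let ψ : SchemeHomOver z (𝟙 (Spec (CommRingCat.of k))) := ⟨z, Category.comp_id z⟩
  have h5 : bcl (𝟙 _) (SPic.mk N hN) = (ys.map ptCl).prod := by
    have h6 := mk_of_twL (isInvertible_uMod _) (hN.pullback _) hys
    rw [← SPic.one_def, one_mul] at h6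
    exact h6
  have h7 : bcl z (SPic.mk N hN) = ((ys.map (liftPt z)).map ptCl).prod := by
    rw [← map_bcl ψ, h5, map_list_prod, List.map_map, List.map_map]
    congr 1
    refine List.map_congr_left fun x _ => ?_
    exact map_ptCl x ψ
  rw [h7, chiP_mul_prod, List.length_map]

/-- **K3** -/
theorem exists_twists_of (τ : TwoChart c) (hτ : HasInfTwists τ) :
    ∃ (J : Type u) (ν : J → SPic C),
    (∀ j, ∃ e : ℤ, ∀ (K : Type u) [Field K]
      (z : Spec (CommRingCat.of K) ⟶ Spec (CommRingCat.of k)) (α : SPic (pullback c z)),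
        chiP τ z (α * bcl z (ν j)) = chiP τ z α + e) ∧
    ∀ (K : Type u) [Field K] (z : Spec (CommRingCat.of K) ⟶ Spec (CommRingCat.of k))
      (α β : SPic (pullback c z)), chiP τ z α = chiP τ z β →
      ∃ j, AcycP τ z (α * bcl z (ν j)) ∧ AcycP τ z (β * bcl z (ν j)) := by
  obtain ⟨ν, hν, hvan⟩ := hτ
  have hsh : ∀ m, ∃ e : ℤ, ∀ (K : Type u) [Field K]
      (z : Spec (CommRingCat.of K) ⟶ Spec (CommRingCat.of k)) (α : SPic (pullback c z)),
        chiP τ z (α * bcl z (ν m)) = chiP τ z α + e := by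
    intro m
    obtain ⟨N, hN, h1, φ, hφ⟩ := hν m
    rw [h1]
    exact exists_shift τ hN hφ
  refine ⟨ULift.{u} ℕ × List (SchemeHomOver (𝟙 (Spec (CommRingCat.of k))) c),
    fun j => ν j.1.down * (j.2.map ptCl₀).prod⁻¹, ?_, ?_⟩
  · rintro ⟨⟨m⟩, xs⟩
    obtain ⟨e, he⟩ := hsh m
    refine ⟨e - xs.length, fun K _ z α => ?_⟩
    change chiP τ z (α * bcl z (ν m * (xs.map ptCl₀).prod⁻¹)) = _
    have h1 := chiP_mul_prod τ (xs.map (liftPt z))
      (α * bcl z (ν m * (xs.map ptCl₀).prod⁻¹))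
    rw [← bcl_prod, mul_assoc, ← map_mul, inv_mul_cancel_right, he, List.length_map] at h1
    omega
  · intro K _ z α β hαβ
    obtain ⟨m₁, h1⟩ := hvan K z α
    obtain ⟨m₂, h2⟩ := hvan K z β
    let m := max m₁ m₂
    obtain ⟨e, he⟩ := hsh m
    obtain ⟨L, hL, hL'⟩ : ∃ (L : (pullback c z).Modules) (hL : Scheme.Modules.IsInvertible L),
        α * bcl z (ν m) = SPic.mk L hL := by
      generalize α * bcl z (ν m) = γ
      induction γ using SPic.ind with | _ L hL
      exact ⟨L, hL, rfl⟩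
    obtain ⟨M, hM, hM'⟩ : ∃ (M : (pullback c z).Modules) (hM : Scheme.Modules.IsInvertible M),
        β * bcl z (ν m) = SPic.mk M hM := by
      generalize β * bcl z (ν m) = γ
      induction γ using SPic.ind with | _ L hL
      exact ⟨L, hL, rfl⟩
    have g1 := (sup_eq_top_iff (H51Pb.baseChange τ z) hL).mp (h1 m (le_max_left _ _) L hL hL')
    have g2 := (sup_eq_top_iff (H51Pb.baseChange τ z) hM).mp (h2 m (le_max_right _ _) M hM hM')
    have g3 : chiL (H51Pb.baseChange τ z) L hL = chiL (H51Pb.baseChange τ z) M hM := by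
      rw [← chiP_mk, ← chiP_mk, ← hL', ← hM', he, he, hαβ]
    obtain ⟨xs, L', M', hL1, hM1, t1, t2, a1, a2⟩ := exists_subtract τ
      (finrank K (Sec (pullback.snd c z) L ⊤)) hL hM rfl g1 (by omega) (by omega)
    refine ⟨⟨⟨m⟩, xs⟩, ?_, ?_⟩
    · rw [map_mul, map_inv, bcl_prod, ← mul_assoc, hL', mk_of_twL hL1 hL t1,
        mul_inv_cancel_right]
      exact ⟨L', hL1, rfl, a1⟩
    · rw [map_mul, map_inv, bcl_prod, ← mul_assoc, hM', mk_of_twL hM1 hM t2,
        mul_inv_cancel_right]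
      exact ⟨M', hM1, rfl, a2⟩

end Fermat.Agent.H20T
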