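import Fermat.Agent.H20K3c
/-!
# S25, job K3, part 4: twists at infinity
-/
set_option autoImplicit false
universe u v
open CategoryTheory AlgebraicGeometry CategoryTheory.Limits TopologicalSpace Opposite Module
open AlgebraicGeometry.RelPicard NeronModelInfra

noncomputable section

namespace Fermat.Agent.H20T

open Fermat.Agent.H25 Fermat.Agent.H21T

section TwoCocycle

variable {X : Scheme.{u}} {U V : X.Opens}

/-- the two opens -/
def twoOp (U V : X.Opens) : ULift.{u} Bool → X.Opens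
  | ⟨true⟩ => U
  | ⟨false⟩ => V

/-- the inverse unit on `V ⊓ U` -/
def gInv (g : (Γ(X, U ⊓ V))ˣ) : (Γ(X, V ⊓ U))ˣ :=
  Units.map (resOHom (X := X) (le_inf inf_le_right inf_le_left :
      V ⊓ U ≤ U ⊓ V)).toMonoidHom g⁻¹

/-- the two-chart cocycle -/
def twoG (g : (Γ(X, U ⊓ V))ˣ) : ∀ i j : ULift.{u} Bool, (Γ(X, twoOp U V i ⊓ twoOp U V j))ˣ
  | ⟨true⟩, ⟨true⟩ => 1
  | ⟨false⟩, ⟨false⟩ => 1
  | ⟨true⟩, ⟨false⟩ => g
  | ⟨false⟩, ⟨true⟩ => gInv g

/-- a line bundle from two charts -/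
theorem exists_two_cocycle (hc : U ⊔ V = ⊤) (g : (Γ(X, U ⊓ V))ˣ) :
    ∃ (N : X.Modules) (_ : Scheme.Modules.IsInvertible N) (a : Γ(N, U)) (b : Γ(N, V)),
      IsGen N a ∧ IsGen N b ∧
        res N inf_le_left a = (g : Γ(X, U ⊓ V)) • res N inf_le_right b := by
  have hmul : ∀ (W : X.Opens) (h : W ≤ U ⊓ V), resO h (g : Γ(X, U ⊓ V)) *
      resO h ((g⁻¹ : (Γ(X, U ⊓ V))ˣ) : Γ(X, U ⊓ V)) = 1 := by
    intro W h
    rw [← resO_mul, Units.mul_inv, resO_one]
  have hmul' : ∀ (W : X.Opens) (h : W ≤ U ⊓ V),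
      resO h ((g⁻¹ : (Γ(X, U ⊓ V))ˣ) : Γ(X, U ⊓ V)) * resO h (g : Γ(X, U ⊓ V)) = 1 := by
    intro W h
    rw [mul_comm]; exact hmul W h
  have e1 : ∀ (W : X.Opens) (h : W ≤ V ⊓ U), resO h (gInv g : Γ(X, V ⊓ U)) =
      resO (h.trans (le_inf inf_le_right inf_le_left))
        ((g⁻¹ : (Γ(X, U ⊓ V))ˣ) : Γ(X, U ⊓ V)) := by
    intro W h
    exact resO_resO _ _ _
  obtain ⟨N, s, hs, hg⟩ := exists_cocycle_module (twoOp U V) (twoG g) (by
    rintro ⟨_ | _⟩ ⟨_ | _⟩ ⟨_ | _⟩ W hi hj hk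
    · change resO _ 1 * resO _ 1 = resO _ 1
      rw [resO_one, mul_one]
    · change resO _ 1 * _ = _
      rw [resO_one, one_mul]
    · change resO _ (gInv g : Γ(X, V ⊓ U)) * resO _ (g : Γ(X, U ⊓ V)) = resO _ 1
      rw [e1 W (le_inf hi hj), resO_one]
      exact hmul' W _
    · change _ * resO _ 1 = _
      rw [resO_one, mul_one]
    · change _ * resO _ 1 = _
      rw [resO_one, mul_one]
    · change resO _ (g : Γ(X, U ⊓ V)) * resO _ (gInv g : Γ(X, V ⊓ U)) = resO _ 1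
      rw [e1 W (le_inf hj hk), resO_one]
      exact hmul W _
    · change resO _ 1 * _ = _
      rw [resO_one, one_mul]
    · change resO _ 1 * resO _ 1 = resO _ 1
      rw [resO_one, mul_one])
  refine ⟨N, ?_, s ⟨true⟩, s ⟨false⟩, hs ⟨true⟩, hs ⟨false⟩, hg ⟨true⟩ ⟨false⟩⟩
  rw [isInvertible_iff]
  intro x
  have hx : x ∈ U ⊔ V := by rw [hc]; trivial
  rcases hx with hx | hx
  · exact ⟨U, hx, s ⟨true⟩, hs ⟨true⟩⟩
  · exact ⟨V, hx, s ⟨false⟩, hs ⟨false⟩⟩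

end TwoCocycle

section Vanish

variable {K : Type u} [Field K] {Z : Scheme.{u}} {z : Z ⟶ Spec (CommRingCat.of K)}

theorem tens_surj {L N T : Z.Modules} (hL : Scheme.Modules.IsInvertible L)
    (hN : Scheme.Modules.IsInvertible N) (β : Tens L N T) {W : Z.Opens} (hW : IsAffineOpen W)
    {a : Γ(N, W)} (ha : IsGen N a) (y : Γ(T, W)) : ∃ l : Γ(L, W), β.m W l a = y := by
  obtain ⟨x, rfl⟩ := (Tens.bijective_affine hW β hL hN).2 y
  induction x using TensorProduct.induction_on with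
  | zero => exact ⟨0, by rw [map_zero, map_zero]; rfl⟩
  | tmul l n =>
    obtain ⟨f, rfl⟩ := ha.surj n
    refine ⟨f • l, ?_⟩
    rw [BiHom.lin_tmul, β.smul_left, β.smul_right]
  | add x y hx hy =>
    obtain ⟨l, hl⟩ := hx
    obtain ⟨l', hl'⟩ := hy
    refine ⟨l + l', ?_⟩
    rw [map_add, map_add, ← hl, ← hl']
    rfl

/-- Serre vanishing for twists at infinity -/
theorem exists_vanishing (τ : TwoChart z) {L : Z.Modules}
    (hL : Scheme.Modules.IsInvertible L) : ∃ m₀ : ℕ, ∀ m ≥ m₀, ∀ (N T : Z.Modules)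
      (_ : Scheme.Modules.IsInvertible N) (hT : Scheme.Modules.IsInvertible T)
      (_ : Tens L N T) (a : Γ(N, τ.U)) (b : Γ(N, τ.V)), IsGen N a →
      res N inf_le_left a = τ.sr ^ m • res N inf_le_right b →
        (latOf τ T hT).P ⊔ (latOf τ T hT).Q = ⊤ := by
  obtain ⟨m₀, hm₀⟩ := H10.Lat.exists_forall_finite_K (latOf τ L hL) (finProjP τ hL)
    (finProjQ τ hL)
  refine ⟨m₀, fun m hm N T hN hT β a b ha hab => ?_⟩
  obtain ⟨h1, -, -⟩ := hm₀ m hm
  rw [eq_top_iff]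
  intro y _
  obtain ⟨l, hl⟩ := tens_surj hL hN β (isAffineOpen_inter τ)
    (ha.res (inf_le_left : τ.U ⊓ τ.V ≤ τ.U)) y.s
  have h2 : toSec l ∈ (latOf τ L hL).P ⊔ (latOf τ L hL).Qm m := by rw [h1]; trivial
  obtain ⟨_, ⟨p, rfl⟩, _, ⟨_, ⟨q, rfl⟩, rfl⟩, hpq⟩ := Submodule.mem_sup.mp h2
  have h3 : l = res L inf_le_left p.s + τ.tr ^ m • res L inf_le_right q.s := by
    have h4 := congrArg Sec.s hpq
    rw [Sec.s_add, Sec.s_toSec] at h4
    rw [← h4]
    congr 1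
    exact mulT_pow_s τ L m _
  have h5 : y = Sec.resL z T inf_le_left (toSec (β.m τ.U p.s a)) +
      Sec.resL z T inf_le_right (toSec (β.m τ.V q.s b)) := by
    apply Sec.ext
    rw [Sec.s_add, Sec.resL_s, Sec.resL_s, Sec.s_toSec, Sec.s_toSec, ← hl, h3, map_add,
      AddMonoidHom.add_apply, β.res, β.smul_left, hab, β.smul_right, β.res, smul_smul,
      ← mul_pow, τ.tr_mul_sr, one_pow, one_smul]
  rw [h5]
  exact Submodule.add_mem_sup ⟨_, rfl⟩ ⟨_, rfl⟩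

end Vanish

section Final

variable {k : Type u} [Field k] [IsAlgClosed k] {C : Scheme.{u}}
  {c : C ⟶ Spec (CommRingCat.of k)} [IsProper c] [SmoothOfRelativeDimension 1 c]
  [IsIntegral C]

/-- the unit `s^m` on `U ⊓ V` -/
def sUnit {Z : Scheme.{u}} {R : Type u} [CommRing R] {z : Z ⟶ Spec (CommRingCat.of R)}
    (τ : TwoChart z) (m : ℕ) : (Γ(Z, τ.U ⊓ τ.V))ˣ :=
  ⟨τ.sr ^ m, τ.tr ^ m, by rw [← mul_pow, τ.sr_mul_tr, one_pow],
    by rw [← mul_pow, τ.tr_mul_sr, one_pow]⟩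

omit [IsAlgClosed k] [IsProper c] [SmoothOfRelativeDimension 1 c] [IsIntegral C] in
/-- `O(m∞)` -/
theorem exists_infMod (τ : TwoChart c) (m : ℕ) :
    ∃ (N : C.Modules) (_ : Scheme.Modules.IsInvertible N) (a : Γ(N, τ.U)) (b : Γ(N, τ.V)),
      IsGen N a ∧ IsGen N b ∧ res N inf_le_left a = τ.sr ^ m • res N inf_le_right b :=
  exists_two_cocycle τ.cover (sUnit τ m)

omit [IsAlgClosed k] [IsProper c] [SmoothOfRelativeDimension 1 c] in
theorem nonempty_U (τ : TwoChart c) : Nonempty τ.U := by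
  by_contra hem
  rw [not_nonempty_iff] at hem
  have h1 : τ.U = ⊥ := by
    rw [eq_bot_iff]; intro x hx; exact (hem.false ⟨x, hx⟩).elim
  have h2 : Subsingleton Γ(C, τ.U) := by
    rw [h1]; infer_instance
  have h3 : Subsingleton (Fin τ.n → Polynomial k) := τ.basisU.1.subsingleton
  have h4 : IsEmpty (Fin τ.n) := by
    by_contra h
    rw [not_isEmpty_iff] at h
    exact not_subsingleton (Fin τ.n → Polynomial k) h3
  have h5 : Subsingleton Γ(C, τ.V) := τ.basisV.2.subsingleton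
  obtain ⟨x⟩ := (inferInstance : Nonempty C)
  have hx : x ∈ τ.U ⊔ τ.V := by rw [τ.cover]; trivial
  rcases hx with hx | hx
  · exact hem.false ⟨x, hx⟩
  · have h6 : Nonempty τ.V := ⟨⟨x, hx⟩⟩
    exact not_subsingleton Γ(C, τ.V) h5

omit [IsAlgClosed k] [IsProper c] [SmoothOfRelativeDimension 1 c] in
theorem exists_infMod_hom (τ : TwoChart c) (m : ℕ) {N : C.Modules} {a : Γ(N, τ.U)}
    {b : Γ(N, τ.V)} (ha : IsGen N a)
    (hab : res N inf_le_left a = τ.sr ^ m • res N inf_le_right b) :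
    ∃ φ : uMod C ⟶ N, φ ≠ 0 := by
  obtain ⟨s, hs1, hs2⟩ := exists_glue_two τ a (τ.s ^ m • b) (by
    rw [hab, res_smul, resO_pow])
  refine ⟨unitHom s, fun h0 => ?_⟩
  have h1 : s = 0 := by
    have h2 : (unitHom s).app ⊤ (uSec 1) = s := by
      rw [unitHom_app, uFun_uSec, one_smul, res_self]
    rw [← h2, h0]
    rfl
  rw [h1, res_zero] at hs1 hs2
  have h3 : (1 : Γ(C, τ.U)) = 0 := ha.inj (by rw [← hs1]; simp)
  have h4 : Nonempty τ.U := nonempty_U τ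
  exact one_ne_zero h3

omit [IsAlgClosed k] [IsProper c] [SmoothOfRelativeDimension 1 c] in
/-- **(B)** -/
theorem hasInfTwists (τ : TwoChart c) : HasInfTwists τ := by
  choose N hN a b ha hb hab using exists_infMod τ
  refine ⟨fun m => SPic.mk (N m) (hN m), fun m => ⟨N m, hN m, rfl,
    exists_infMod_hom τ m (ha m) (hab m)⟩, ?_⟩
  intro K _ z α
  induction α using SPic.ind with | _ L hL
  obtain ⟨m₀, hm₀⟩ := exists_vanishing (H51Pb.baseChange τ z) hL
  refine ⟨m₀, fun m hm L' hL' h => ?_⟩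
  obtain ⟨T, hT, ⟨β⟩⟩ := exists_tens hL ((hN m).pullback (pullback.fst c z))
  have h1 : Nonempty (T ≅ L') := by
    rw [bcl, SPic.map_mk, SPic.mk_mul_mk β (hT := hT), SPic.mk_eq_mk] at h
    exact h
  obtain ⟨e⟩ := h1
  refine hm₀ m hm _ L' ((hN m).pullback _) hL' (β.congr (Iso.refl _) (Iso.refl _) e)
    (pb _ _ (a m)) (pb _ _ (b m)) ((ha m).pb _ _) ?_
  have h2 := congrArg (pb (pullback.fst c z) (N m)) (hab m)
  rw [pb_smul, pb_res, pb_res, map_pow] at h2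
  have h3 : (pullback.fst c z).app (τ.U ⊓ τ.V) τ.sr = (H51Pb.baseChange τ z).sr :=
    app_resO _ _ _
  rw [h3] at h2
  exact h2

/-- **K3: `exists_twists`** -/
theorem exists_twists (τ : TwoChart c) :
    ∃ (J : Type u) (ν : J → SPic C),
    (∀ j, ∃ e : ℤ, ∀ (K : Type u) [Field K]
      (z : Spec (CommRingCat.of K) ⟶ Spec (CommRingCat.of k)) (α : SPic (pullback c z)),
        chiP τ z (α * bcl z (ν j)) = chiP τ z α + e) ∧
    ∀ (K : Type u) [Field K] (z : Spec (CommRingCat.of K) ⟶ Spec (CommRingCat.of k))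
      (α β : SPic (pullback c z)), chiP τ z α = chiP τ z β →
      ∃ j, AcycP τ z (α * bcl z (ν j)) ∧ AcycP τ z (β * bcl z (ν j)) :=
  exists_twists_of τ (hasInfTwists τ)

end Final

end Fermat.Agent.H20T
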