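import Fermat.Agent.H25Glue2
/-!
# S25, job C4: `H⁰(C, O) = k` universally, `RigInj`
-/
set_option autoImplicit false
universe u
open CategoryTheory AlgebraicGeometry CategoryTheory.Limits TopologicalSpace Opposite
open AlgebraicGeometry.RelPicard NeronModelInfra

namespace Fermat.Agent.H20R

open Fermat.Agent.H25

variable {k : Type u} [Field k]

/-- `H⁰(C, O_C) = k`. -/
theorem appTop_bijective [IsAlgClosed k] {C : Scheme.{u}} (c : C ⟶ Spec (CommRingCat.of k))
    [UniversallyClosed c] [IsIntegral C] : Function.Bijective c.appTop.hom := by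
  set F : CommRingCat.of k ⟶ Γ(C, ⊤) := (Scheme.ΓSpecIso (CommRingCat.of k)).inv ≫ c.appTop with hF
  have hint : F.hom.IsIntegral := by
    apply RingHom.isIntegral_respectsIso.2
      (e := (Scheme.ΓSpecIso (CommRingCat.of k)).symm.commRingCatIsoToRingEquiv)
    exact isIntegral_appTop_of_universallyClosed c
  have hbij : Function.Bijective F.hom := by
    algebraize [F.hom]
    have : Algebra.IsIntegral k Γ(C, ⊤) := ⟨hint⟩
    exact IsAlgClosed.algebraMap_bijective_of_isIntegral (k := k) (K := Γ(C, ⊤))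
  have h2 : c.appTop = (Scheme.ΓSpecIso (CommRingCat.of k)).hom ≫ F := by
    rw [hF, Iso.hom_inv_id_assoc]
  rw [h2, CommRingCat.hom_comp]
  exact hbij.comp (Scheme.ΓSpecIso (CommRingCat.of k)).commRingCatIsoToRingEquiv.bijective

/-- universally: `Γ(C_T, snd⁻¹ V) = Γ(T, V)` for affine `V` -/
theorem snd_app_bijective_of_affine [IsAlgClosed k] {C : Scheme.{u}}
    (c : C ⟶ Spec (CommRingCat.of k)) [UniversallyClosed c] [QuasiSeparated c] [IsIntegral C]
    {T : Scheme.{u}} (t : T ⟶ Spec (CommRingCat.of k)) {V : T.Opens} (hV : IsAffineOpen V) :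
    Function.Bijective ((pullback.snd c t).app V).hom := by
  have : Flat t := inferInstance
  have : CompactSpace C := (quasiCompact_iff_compactSpace c).mp inferInstance
  have : QuasiSeparatedSpace C := quasiSeparatedSpace_of_quasiSeparated c
  have H := IsPullback.of_hasPullback c t
  have h1 := isIso_pushoutSection_of_isQuasiSeparated_of_flat_right H (US := ⊤) (UT := V) (UX := ⊤)
    (UY := (pullback.snd c t) ⁻¹ᵁ V) le_top le_top (by simp) (isAffineOpen_top _) hV
    isCompact_univ isQuasiSeparated_univ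
  rw [isIso_pushoutSection_iff] at h1
  have h2 : IsIso (c.appLE ⊤ ⊤ le_top) := by
    have h3 : c.appLE ⊤ ⊤ le_top = c.appTop := by simp [Scheme.Hom.appLE, Scheme.Hom.appTop]
    rw [h3]
    exact (ConcreteCategory.isIso_iff_bijective _).mpr (appTop_bijective c)
  have h4 := h1.isIso_inr_of_isIso
  have h5 : (pullback.snd c t).appLE V ((pullback.snd c t) ⁻¹ᵁ V) le_rfl
      = (pullback.snd c t).app V := by simp [Scheme.Hom.appLE]
  have h6 : IsIso ((pullback.snd c t).app V) := by
    rw [← h5]; exact h4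
  exact (ConcreteCategory.isIso_iff_bijective _).mp h6

theorem le_iSup_affine {T : Scheme.{u}} (V : T.Opens) :
    V ≤ ⨆ A : {A : T.Opens // IsAffineOpen A ∧ A ≤ V}, A.1 := by
  intro x hx
  obtain ⟨_, ⟨U, hU, rfl⟩, hxU, h⟩ := T.isBasis_affineOpens.exists_subset_of_mem_open hx V.isOpen
  exact Opens.mem_iSup.mpr ⟨⟨U, hU, h⟩, hxU⟩

/-- universally: `Γ(C_T, snd⁻¹ V) = Γ(T, V)` -/
theorem snd_app_bijective [IsAlgClosed k] {C : Scheme.{u}}
    (c : C ⟶ Spec (CommRingCat.of k)) [UniversallyClosed c] [QuasiSeparated c] [IsIntegral C]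
    {T : Scheme.{u}} (t : T ⟶ Spec (CommRingCat.of k)) (V : T.Opens) :
    Function.Bijective ((pullback.snd c t).app V).hom := by
  have inj : ∀ V : T.Opens, Function.Injective ((pullback.snd c t).app V).hom := by
    intro V
    rw [injective_iff_map_eq_zero]
    intro f hf
    refine secO_ext (fun A : {A : T.Opens // IsAffineOpen A ∧ A ≤ V} ↦ A.1) (fun A ↦ A.2.2)
      (le_iSup_affine V) fun A ↦ ?_
    refine (snd_app_bijective_of_affine c t A.2.1).1 ?_
    have h1 := app_resO (pullback.snd c t) A.2.2 f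
    have h2 : (pullback.snd c t).app V f = 0 := hf
    rw [h2, resO_zero] at h1
    rw [resO_zero, map_zero]
    exact h1
  refine ⟨inj V, fun g ↦ ?_⟩
  have h1 : ∀ A : {A : T.Opens // IsAffineOpen A ∧ A ≤ V}, ∃ f : Γ(T, A.1),
      (pullback.snd c t).app A.1 f = resO ((pullback.snd c t).preimage_mono A.2.2) g :=
    fun A ↦ (snd_app_bijective_of_affine c t A.2.1).2 _
  choose f hf using h1
  obtain ⟨x, hx⟩ := secO_glue (fun A : {A : T.Opens // IsAffineOpen A ∧ A ≤ V} ↦ A.1)
    (fun A ↦ A.2.2) (le_iSup_affine V) f (fun A B W hA hB ↦ by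
      refine inj W ?_
      have e1 := app_resO (pullback.snd c t) hA (f A)
      have e2 := app_resO (pullback.snd c t) hB (f B)
      rw [hf, resO_resO] at e1 e2
      exact e1.trans e2.symm)
  refine ⟨x, ?_⟩
  refine secO_ext (fun A : {A : T.Opens // IsAffineOpen A ∧ A ≤ V} ↦ (pullback.snd c t) ⁻¹ᵁ A.1)
    (fun A ↦ (pullback.snd c t).preimage_mono A.2.2) ?_ fun A ↦ ?_
  · rw [← Scheme.Hom.preimage_iSup]
    exact (pullback.snd c t).preimage_mono (le_iSup_affine V)
  · have e1 := app_resO (pullback.snd c t) A.2.2 x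
    rw [hx, hf] at e1
    exact e1.symm

/-- S25-C4, bijective version -/
theorem rigSection_appTop_bijective [IsAlgClosed k] {C : Scheme.{u}}
    (c : C ⟶ Spec (CommRingCat.of k)) [UniversallyClosed c] [QuasiSeparated c] [IsIntegral C]
    (ε : SchemeHomOver (𝟙 (Spec (CommRingCat.of k))) c)
    {T : Scheme.{u}} (t : T ⟶ Spec (CommRingCat.of k)) :
    Function.Bijective (rigSection c t ε).appTop := by
  have h1 : rigSection c t ε ≫ pullback.snd c t = 𝟙 T := pullback.lift_snd _ _ _
  have h2 : (pullback.snd c t).appTop ≫ (rigSection c t ε).appTop = 𝟙 _ := by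
    rw [← Scheme.Hom.comp_appTop, h1, Scheme.Hom.id_appTop]
  have h3 : IsIso (pullback.snd c t).appTop :=
    (ConcreteCategory.isIso_iff_bijective _).mpr (snd_app_bijective c t ⊤)
  have h4 : (rigSection c t ε).appTop = inv (pullback.snd c t).appTop := by
    rw [← cancel_epi (pullback.snd c t).appTop, h2, IsIso.hom_inv_id]
  rw [h4]
  exact (ConcreteCategory.isIso_iff_bijective _).mp inferInstance

/-- S25-C4 -/
theorem rigInj [IsAlgClosed k] {C : Scheme.{u}}
    (c : C ⟶ Spec (CommRingCat.of k)) [UniversallyClosed c] [QuasiSeparated c] [IsIntegral C]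
    (ε : SchemeHomOver (𝟙 (Spec (CommRingCat.of k))) c) : RigInj c ε :=
  fun t ↦ (rigSection_appTop_bijective c ε t).1

end Fermat.Agent.H20R
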