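/-
S47, cubic descent: algebra of twisted conjugacy classes of `GL₂` for a cyclic cubic extension.
-/
import Mathlib

set_option autoImplicit false
set_option linter.style.haveILetI false
set_option linter.unusedSectionVars false

noncomputable section

open Matrix

namespace Fermat.Agent.H20.S47

section Basic

variable {F E : Type*} [Field F] [Field E] [Algebra F E] (s : E ≃ₐ[F] E)

/-- the action of `s` on matrices -/
def sM : Matrix (Fin 2) (Fin 2) E ≃+* Matrix (Fin 2) (Fin 2) E := s.toRingEquiv.mapMatrix

/-- extension of scalars -/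
def inc : Matrix (Fin 2) (Fin 2) F →+* Matrix (Fin 2) (Fin 2) E := (algebraMap F E).mapMatrix

/-- the norm -/
def nm (d : Matrix (Fin 2) (Fin 2) E) : Matrix (Fin 2) (Fin 2) E := d * sM s d * sM s (sM s d)

theorem sM_apply (d : Matrix (Fin 2) (Fin 2) E) (i j : Fin 2) : sM s d i j = s (d i j) := rfl

theorem inc_apply (d : Matrix (Fin 2) (Fin 2) F) (i j : Fin 2) :
    (inc d : Matrix (Fin 2) (Fin 2) E) i j = algebraMap F E (d i j) := rfl

theorem sM_inc (c : Matrix (Fin 2) (Fin 2) F) : sM s (inc c) = inc c := by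
  ext i j
  rw [sM_apply, inc_apply, s.commutes]

theorem sM_smul (x : E) (d : Matrix (Fin 2) (Fin 2) E) : sM s (x • d) = s x • sM s d := by
  ext i j
  rw [sM_apply, Matrix.smul_apply, Matrix.smul_apply, smul_eq_mul, map_mul, sM_apply, smul_eq_mul]

theorem det_sM (d : Matrix (Fin 2) (Fin 2) E) : (sM s d).det = s d.det := by
  rw [Matrix.det_fin_two, Matrix.det_fin_two, map_sub, map_mul, map_mul]
  rfl

theorem trace_sM (d : Matrix (Fin 2) (Fin 2) E) : (sM s d).trace = s d.trace := by
  rw [Matrix.trace_fin_two, Matrix.trace_fin_two, map_add]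
  rfl

theorem sM3 (h3 : ∀ x, s (s (s x)) = x) (d : Matrix (Fin 2) (Fin 2) E) :
    sM s (sM s (sM s d)) = d := by
  ext i j
  exact h3 _

/-- `s(N d) d⁻¹ = d⁻¹ N d` without inverses -/
theorem mul_sM_nm (h3 : ∀ x, s (s (s x)) = x) (d : Matrix (Fin 2) (Fin 2) E) :
    d * sM s (nm s d) = nm s d * d := by
  rw [nm, map_mul, map_mul, sM3 s h3]
  simp only [mul_assoc]

variable {s}

/-- trace and determinant of a norm are rational -/
theorem trace_nm_fixed (h3 : ∀ x, s (s (s x)) = x) {d : Matrix (Fin 2) (Fin 2) E}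
    (hd : d.det ≠ 0) : s (nm s d).trace = (nm s d).trace := by
  have hu : IsUnit d.det := isUnit_iff_ne_zero.mpr hd
  have h1 : sM s (nm s d) = d⁻¹ * (nm s d * d) := by
    rw [← mul_sM_nm s h3, ← mul_assoc, Matrix.nonsing_inv_mul _ hu, one_mul]
  rw [← trace_sM, h1, ← mul_assoc, Matrix.trace_mul_comm, ← mul_assoc,
    Matrix.mul_nonsing_inv _ hu, one_mul]

theorem det_nm_fixed (h3 : ∀ x, s (s (s x)) = x) (d : Matrix (Fin 2) (Fin 2) E) :
    s (nm s d).det = (nm s d).det := by
  rw [nm, Matrix.det_mul, Matrix.det_mul, det_sM, det_sM, det_sM, map_mul, map_mul, h3]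
  ring

/-- the norm under twisted conjugation -/
theorem nm_conj (d g g' : Matrix (Fin 2) (Fin 2) E) (h : g' * g = 1) (h3 : ∀ x, s (s (s x)) = x) :
    nm s (g * d * sM s g') = g * nm s d * g' := by
  have h1 : ∀ k, sM s g' * sM s g * k = k := fun k => by rw [← map_mul, h, map_one, one_mul]
  have h2 : ∀ k, sM s (sM s g') * (sM s (sM s g) * k) = k := fun k => by
    rw [← mul_assoc, ← map_mul, ← map_mul, h, map_one, map_one, one_mul]
  have h1' : ∀ k, sM s g' * (sM s g * k) = k := fun k => by rw [← mul_assoc]; exact h1 k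
  rw [nm, nm]
  simp only [map_mul, sM3 s h3, mul_assoc, h1', h2]

end Basic

section Comm

variable {K : Type*} [Field K]

/-- elements of the algebra generated by a matrix -/
def lin (c : Matrix (Fin 2) (Fin 2) K) (x y : K) : Matrix (Fin 2) (Fin 2) K :=
  x • (1 : Matrix (Fin 2) (Fin 2) K) + y • c

/-- a non-scalar matrix has a cyclic vector -/
theorem exists_cyclic {c : Matrix (Fin 2) (Fin 2) K} (hc : ∀ x : K, c ≠ x • 1) :
    ∃ v : Fin 2 → K, v 0 * (c *ᵥ v) 1 - v 1 * (c *ᵥ v) 0 ≠ 0 := by
  by_contra hcon
  push Not at hcon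
  have h0 := hcon ![1, 0]
  have h1 := hcon ![0, 1]
  have h2 := hcon ![1, 1]
  simp [Matrix.mulVec, dotProduct, Fin.sum_univ_two] at h0 h1 h2
  apply hc (c 0 0)
  ext i j
  fin_cases i <;> fin_cases j
  · simp
  · simp [h1]
  · simp [h0]
  · simp
    rw [h0, h1] at h2
    linear_combination h2

/-- **The centraliser of a non-scalar matrix.** -/
theorem exists_lin_of_comm {c g : Matrix (Fin 2) (Fin 2) K} (hc : ∀ x : K, c ≠ x • 1)
    (h : g * c = c * g) : ∃ x y : K, g = lin c x y := by
  have e00 := congrFun (congrFun h 0) 0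
  have e01 := congrFun (congrFun h 0) 1
  have e10 := congrFun (congrFun h 1) 0
  simp [Matrix.mul_apply, Fin.sum_univ_two] at e00 e01 e10
  by_cases hb : c 0 1 = 0
  · by_cases hb' : c 1 0 = 0
    · have hd : c 0 0 - c 1 1 ≠ 0 := by
        intro h0
        apply hc (c 0 0)
        ext i j
        fin_cases i <;> fin_cases j
        · simp
        · simp [hb]
        · simp [hb']
        · simp
          linear_combination -h0
      have g01 : g 0 1 = 0 := by
        have : g 0 1 * (c 0 0 - c 1 1) = 0 := by
          linear_combination -e01 + hb * (g 0 0 - g 1 1)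
        exact (mul_eq_zero.mp this).resolve_right hd
      have g10 : g 1 0 = 0 := by
        have : g 1 0 * (c 0 0 - c 1 1) = 0 := by
          linear_combination e10 + hb' * (g 0 0 - g 1 1)
        exact (mul_eq_zero.mp this).resolve_right hd
      refine ⟨(g 1 1 * c 0 0 - g 0 0 * c 1 1) / (c 0 0 - c 1 1),
        (g 0 0 - g 1 1) / (c 0 0 - c 1 1), ?_⟩
      ext i j
      fin_cases i <;> fin_cases j
      · simp [lin]
        field_simp
        ring
      · simp [lin, g01, hb]
      · simp [lin, g10, hb']
      · simp [lin]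
        field_simp
        ring
    · refine ⟨g 0 0 - g 1 0 / c 1 0 * c 0 0, g 1 0 / c 1 0, ?_⟩
      ext i j
      fin_cases i <;> fin_cases j
      · simp [lin]
      · simp [lin, hb]
        rw [hb] at e00
        have : g 0 1 * c 1 0 = 0 := by linear_combination e00
        exact (mul_eq_zero.mp this).resolve_right hb'
      · simp [lin]
        field_simp
      · simp [lin]
        field_simp
        linear_combination e10
  · refine ⟨g 0 0 - g 0 1 / c 0 1 * c 0 0, g 0 1 / c 0 1, ?_⟩
    ext i j
    fin_cases i <;> fin_cases j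
    · simp [lin]
    · simp [lin]
      field_simp
    · simp [lin]
      field_simp
      linear_combination -e00
    · simp [lin]
      field_simp
      linear_combination -e01

end Comm

end Fermat.Agent.H20.S47

end
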