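/-
S47, cubic descent: conjugation of a norm to a rational matrix, Hilbert 90 for the algebra generated
by an elliptic matrix.
-/
import Fermat.Agent.H20S1

set_option autoImplicit false
set_option linter.style.haveILetI false
set_option linter.unusedSectionVars false

noncomputable section

open Matrix

namespace Fermat.Agent.H20.S47

section Companion

variable {K : Type*} [Field K]

/-- the companion matrix -/
def comp (τ Δ : K) : Matrix (Fin 2) (Fin 2) K := !![0, -Δ; 1, τ]

theorem comp_det (τ Δ : K) : (comp τ Δ).det = Δ := by simp [comp, Matrix.det_fin_two]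

theorem comp_trace (τ Δ : K) : (comp τ Δ).trace = τ := by simp [comp, Matrix.trace_fin_two]

theorem comp_nonscalar (τ Δ x : K) : comp τ Δ ≠ x • 1 := by
  intro h
  have := congrFun (congrFun h 1) 0
  simp [comp] at this

/-- Cayley-Hamilton in degree two -/
theorem sq_eq (c : Matrix (Fin 2) (Fin 2) K) : c * c = c.trace • c - c.det • 1 := by
  ext i j
  fin_cases i <;> fin_cases j <;>
    simp [Matrix.mul_apply, Fin.sum_univ_two, Matrix.trace_fin_two, Matrix.det_fin_two] <;> ring

/-- a non-scalar matrix is conjugate to its companion matrix -/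
theorem exists_comp {c : Matrix (Fin 2) (Fin 2) K} (hc : ∀ x : K, c ≠ x • 1) :
    ∃ P : Matrix (Fin 2) (Fin 2) K, P.det ≠ 0 ∧ c * P = P * comp c.trace c.det := by
  obtain ⟨v, hv⟩ := exists_cyclic hc
  refine ⟨!![v 0, (c *ᵥ v) 0; v 1, (c *ᵥ v) 1], ?_, ?_⟩
  · rw [Matrix.det_fin_two]
    simp only [Matrix.of_apply, Matrix.cons_val', Matrix.cons_val_zero, Matrix.cons_val_one,
      Matrix.cons_val_fin_one]
    intro h
    apply hv
    linear_combination h
  · have h2 := sq_eq c
    have e00 := congrFun (congrFun h2 0) 0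
    have e01 := congrFun (congrFun h2 0) 1
    have e10 := congrFun (congrFun h2 1) 0
    have e11 := congrFun (congrFun h2 1) 1
    simp [Matrix.mul_apply, Fin.sum_univ_two] at e00 e01 e10 e11
    ext i j
    fin_cases i <;> fin_cases j <;>
      simp [Matrix.mul_apply, Fin.sum_univ_two, comp, Matrix.mulVec, dotProduct]
    · linear_combination v 0 * e00 + v 1 * e01
    · linear_combination v 0 * e10 + v 1 * e11

end Companion

section Elliptic

variable {K : Type*} [Field K]

/-- elliptic matrices: no eigenvalue in the base field -/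
def Ell (c : Matrix (Fin 2) (Fin 2) K) : Prop := ∀ x : K, x ^ 2 - c.trace * x + c.det ≠ 0

theorem Ell.nonscalar {c : Matrix (Fin 2) (Fin 2) K} (h : Ell c) (x : K) : c ≠ x • 1 := by
  intro h1
  apply h x
  rw [h1, Matrix.trace_fin_two, Matrix.det_fin_two]
  simp
  ring

theorem det_lin (c : Matrix (Fin 2) (Fin 2) K) (x y : K) :
    (lin c x y).det = x ^ 2 + c.trace * x * y + c.det * y ^ 2 := by
  simp [lin, Matrix.det_fin_two, Matrix.trace_fin_two]
  ring

theorem Ell.det_lin_ne_zero {c : Matrix (Fin 2) (Fin 2) K} (h : Ell c) {x y : K}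
    (hxy : x ≠ 0 ∨ y ≠ 0) : (lin c x y).det ≠ 0 := by
  rw [det_lin]
  by_cases hy : y = 0
  · rw [hy]
    have hx := hxy.resolve_right (fun h => h hy)
    simpa using hx
  · intro h0
    apply h (-(x / y))
    field_simp
    linear_combination h0

theorem Ell.lin_inj {c : Matrix (Fin 2) (Fin 2) K} (h : Ell c) {x y x' y' : K}
    (he : lin c x y = lin c x' y') : x = x' ∧ y = y' := by
  by_contra hcon
  have h1 : lin c (x - x') (y - y') = 0 := by
    have : lin c (x - x') (y - y') = lin c x y - lin c x' y' := by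
      simp only [lin, sub_smul]
      abel
    rw [this, he, sub_self]
  have h2 : x - x' ≠ 0 ∨ y - y' ≠ 0 := by
    by_contra h3
    push Not at h3
    exact hcon ⟨sub_eq_zero.mp h3.1, sub_eq_zero.mp h3.2⟩
  apply h.det_lin_ne_zero h2
  rw [h1]
  simp

theorem lin_mul (c : Matrix (Fin 2) (Fin 2) K) (x y x' y' : K) :
    lin c x y * lin c x' y' =
      lin c (x * x' - c.det * (y * y')) (x * y' + y * x' + c.trace * (y * y')) := by
  have h : lin c x y * lin c x' y' = (x * x') • 1 + (x * y' + y * x') • c + (y * y') • (c * c) := by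
    simp only [lin, add_mul, mul_add, smul_mul_assoc, mul_smul_comm, one_mul, mul_one]
    module
  rw [h, sq_eq]
  simp only [lin]
  module

theorem lin_comm (c : Matrix (Fin 2) (Fin 2) K) (x y x' y' : K) :
    lin c x y * lin c x' y' = lin c x' y' * lin c x y := by
  rw [lin_mul, lin_mul]
  congr 1 <;> ring

theorem lin_zero_iff {c : Matrix (Fin 2) (Fin 2) K} (h : Ell c) {x y : K} :
    (lin c x y).det = 0 ↔ x = 0 ∧ y = 0 := by
  constructor
  · intro h0
    by_contra hcon
    exact h.det_lin_ne_zero (by by_contra h1; push Not at h1; exact hcon h1) h0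
  · rintro ⟨rfl, rfl⟩
    simp [det_lin]

theorem smul_lin (c : Matrix (Fin 2) (Fin 2) K) (z x y : K) :
    z • lin c x y = lin c (z * x) (z * y) := by
  simp only [lin, smul_add, smul_smul]

end Elliptic

section Descent

variable {F E : Type*} [Field F] [Field E] [Algebra F E] {s : E ≃ₐ[F] E}

theorem trace_inc (c : Matrix (Fin 2) (Fin 2) F) :
    (inc c : Matrix (Fin 2) (Fin 2) E).trace = algebraMap F E c.trace := by
  rw [Matrix.trace_fin_two, Matrix.trace_fin_two, map_add]
  rfl

theorem det_inc (c : Matrix (Fin 2) (Fin 2) F) :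
    (inc c : Matrix (Fin 2) (Fin 2) E).det = algebraMap F E c.det := by
  rw [Matrix.det_fin_two, Matrix.det_fin_two, map_sub, map_mul, map_mul]
  rfl

theorem inc_comp (τ Δ : F) : (inc (comp τ Δ) : Matrix (Fin 2) (Fin 2) E) =
    comp (algebraMap F E τ) (algebraMap F E Δ) := by
  ext i j
  rw [inc_apply]
  fin_cases i <;> fin_cases j <;> simp [comp]

/-- ellipticity is preserved by a cyclic extension of degree three -/
theorem Ell.inc (h3 : ∀ x, s (s (s x)) = x) (hfix : ∀ x, s x = x → x ∈ Set.range (algebraMap F E))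
    {c : Matrix (Fin 2) (Fin 2) F} (h : Ell c) : Ell (inc c : Matrix (Fin 2) (Fin 2) E) := by
  intro x hx
  rw [trace_inc, det_inc] at hx
  have hrat : ∀ y : E, s y = y → y ^ 2 - algebraMap F E c.trace * y + algebraMap F E c.det ≠ 0 := by
    intro y hy h0
    obtain ⟨z, rfl⟩ := hfix y hy
    apply h z
    apply (algebraMap F E).injective
    rw [map_add, map_sub, map_mul, map_pow, map_zero]
    exact h0
  have hx' : (s x) ^ 2 - algebraMap F E c.trace * s x + algebraMap F E c.det = 0 := by
    have := congrArg s hx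
    rwa [map_add, map_sub, map_mul, map_pow, map_zero, s.commutes, s.commutes] at this
  have hprod : (s x - x) * (s x - (algebraMap F E c.trace - x)) = 0 := by
    linear_combination hx' - hx
  rcases mul_eq_zero.mp hprod with h1 | h1
  · exact hrat x (sub_eq_zero.mp h1) hx
  · have h2 : s x = algebraMap F E c.trace - x := sub_eq_zero.mp h1
    have h4 : s (s x) = x := by rw [h2, map_sub, s.commutes, h2]; ring
    have h5 : s x = x := by
      conv_lhs => rw [← h4]
      exact h3 x
    exact hrat x h5 hx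

/-- **Conjugation of a norm to a rational matrix.** -/
theorem exists_rational (h3 : ∀ x, s (s (s x)) = x)
    (hfix : ∀ x, s x = x → x ∈ Set.range (algebraMap F E)) {d : Matrix (Fin 2) (Fin 2) E}
    (hd : d.det ≠ 0) (hns : ∀ x : E, nm s d ≠ x • 1) :
    ∃ (c : Matrix (Fin 2) (Fin 2) F) (g g' : Matrix (Fin 2) (Fin 2) E), g * g' = 1 ∧ g' * g = 1 ∧
      nm s (g * d * sM s g') = inc c ∧
      algebraMap F E c.trace = (nm s d).trace ∧ algebraMap F E c.det = (nm s d).det := by
  obtain ⟨τ, hτ⟩ := hfix _ (trace_nm_fixed h3 hd)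
  obtain ⟨Δ, hΔ⟩ := hfix _ (det_nm_fixed h3 d)
  obtain ⟨P, hP, hcP⟩ := exists_comp hns
  have hu : IsUnit P.det := isUnit_iff_ne_zero.mpr hP
  refine ⟨comp τ Δ, P⁻¹, P, Matrix.nonsing_inv_mul _ hu, Matrix.mul_nonsing_inv _ hu, ?_, ?_, ?_⟩
  · rw [nm_conj _ _ _ (Matrix.mul_nonsing_inv _ hu) h3, mul_assoc, hcP, ← mul_assoc,
      Matrix.nonsing_inv_mul _ hu, one_mul, inc_comp, hτ, hΔ]
  · rw [comp_trace, hτ]
  · rw [comp_det, hΔ]

/-- a matrix with rational norm commutes with its norm -/
theorem comm_of_nm_rational (h3 : ∀ x, s (s (s x)) = x) {d : Matrix (Fin 2) (Fin 2) E}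
    {c : Matrix (Fin 2) (Fin 2) F} (h : nm s d = inc c) : d * inc c = inc c * d := by
  have h1 := mul_sM_nm s h3 d
  rwa [h, sM_inc] at h1

theorem sM_lin (c : Matrix (Fin 2) (Fin 2) F) (x y : E) :
    sM s (lin (inc c) x y) = lin (inc c) (s x) (s y) := by
  rw [lin, map_add, sM_smul, sM_smul, map_one, sM_inc, lin]

/-- **Hilbert 90** in the algebra generated by an elliptic rational matrix -/
theorem hilbert90 (h3 : ∀ x, s (s (s x)) = x) (hs : s ≠ AlgEquiv.refl)
    {c : Matrix (Fin 2) (Fin 2) F} (hc : Ell (inc c : Matrix (Fin 2) (Fin 2) E)) {t0 t1 : E}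
    (ht : nm s (lin (inc c) t0 t1) = 1) :
    ∃ x y : E, (lin (inc c) x y).det ≠ 0 ∧
      lin (inc c) t0 t1 * sM s (lin (inc c) x y) = lin (inc c) x y := by
  obtain ⟨t, htdef⟩ : ∃ t, t = lin (inc c : Matrix (Fin 2) (Fin 2) E) t0 t1 := ⟨_, rfl⟩
  rw [← htdef] at ht ⊢
  obtain ⟨w0, w1, hw⟩ : ∃ w0 w1 : E, t * sM s t = lin (inc c) w0 w1 := by
    rw [htdef, sM_lin, lin_mul]
    exact ⟨_, _, rfl⟩
  obtain ⟨x, hx⟩ : ∃ x : E, x + s x * t0 + s (s x) * w0 ≠ 0 := by
    by_contra hcon
    push Not at hcon
    apply hs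
    ext z
    rw [AlgEquiv.coe_refl, id]
    by_contra hz
    have hd : z - s z ≠ 0 := fun h => hz (sub_eq_zero.mp h).symm
    have key : ∀ x : E, x * (z - s z) + w0 * (s (s x)) * (s (s z) - s z) = 0 := by
      intro x
      have h1 := hcon (x * z)
      have h2 := hcon x
      rw [map_mul, map_mul] at h1
      linear_combination h1 - s z * h2
    have k1 := key 1
    rw [map_one, map_one, one_mul, mul_one] at k1
    have hss : ∀ x : E, s (s x) = x := by
      intro x
      have k2 := key x
      have : (x - s (s x)) * (z - s z) = 0 := by linear_combination k2 - s (s x) * k1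
      exact (sub_eq_zero.mp ((mul_eq_zero.mp this).resolve_right hd)).symm
    apply hz
    have h4 := h3 z
    rwa [hss] at h4
  refine ⟨x + s x * t0 + s (s x) * w0, s x * t1 + s (s x) * w1,
    hc.det_lin_ne_zero (Or.inl hx), ?_⟩
  have hb : lin (inc c) (x + s x * t0 + s (s x) * w0) (s x * t1 + s (s x) * w1) =
      x • (1 : Matrix (Fin 2) (Fin 2) E) + s x • t + s (s x) • (t * sM s t) := by
    rw [hw, htdef]
    simp only [lin]
    module
  rw [hb, map_add, map_add, sM_smul, sM_smul, sM_smul, map_one, map_mul, h3, mul_add, mul_add,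
    mul_smul_comm, mul_smul_comm, mul_smul_comm, mul_one]
  have h5 : t * (sM s t * sM s (sM s t)) = 1 := by
    rw [← mul_assoc]
    exact ht
  rw [h5]
  module

end Descent

end Fermat.Agent.H20.S47

end
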