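/-
S47, cubic descent: the cohomology of the torus of an elliptic matrix modulo scalars.
-/
import Fermat.Agent.H20S2

set_option autoImplicit false
set_option linter.style.haveILetI false
set_option linter.unusedSectionVars false

noncomputable section

open Matrix

namespace Fermat.Agent.H20.S47

section

variable {F E : Type*} [Field F] [Field E] [Algebra F E] {s : E ≃ₐ[F] E}

theorem det_nm (d : Matrix (Fin 2) (Fin 2) E) :
    (nm s d).det = d.det * s d.det * s (s d.det) := by
  rw [nm, Matrix.det_mul, Matrix.det_mul, det_sM, det_sM, det_sM]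

theorem nm_smul (z : E) (d : Matrix (Fin 2) (Fin 2) E) :
    nm s (z • d) = (z * s z * s (s z)) • nm s d := by
  rw [nm, nm, sM_smul, sM_smul, smul_mul_smul_comm, smul_mul_smul_comm]

theorem smul_one_ne_zero' {K : Type*} [Field K] {d : Matrix (Fin 2) (Fin 2) K} (hd : d.det ≠ 0)
    {x : K} (h : x • d = 0) : x = 0 := by
  rcases smul_eq_zero.mp h with h | h
  · exact h
  · rw [h] at hd
    simp at hd

/-- a scalar norm is a rational scalar -/
theorem scalar_fixed (h3 : ∀ x, s (s (s x)) = x) {t : Matrix (Fin 2) (Fin 2) E} (ht0 : t.det ≠ 0)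
    {e : E} (he : nm s t = e • 1) : s e = e := by
  have h1 := mul_sM_nm s h3 t
  rw [he, sM_smul, map_one, mul_smul_comm, mul_one, smul_mul_assoc, one_mul] at h1
  have h2 : (s e - e) • t = 0 := by rw [sub_smul, h1, sub_self]
  exact sub_eq_zero.mp (smul_one_ne_zero' ht0 h2)

/-- **`H¹` of the torus modulo scalars vanishes.** -/
theorem h1_torus (h3 : ∀ x, s (s (s x)) = x) (hs : s ≠ AlgEquiv.refl)
    {c : Matrix (Fin 2) (Fin 2) F} (hc : Ell (inc c : Matrix (Fin 2) (Fin 2) E)) {t0 t1 e : E}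
    (ht0 : (lin (inc c) t0 t1).det ≠ 0) (he : nm s (lin (inc c) t0 t1) = e • 1) :
    ∃ z : E, z ≠ 0 ∧ ∃ x y : E, (lin (inc c) x y).det ≠ 0 ∧
      lin (inc c) t0 t1 * sM s (lin (inc c) x y) = z • lin (inc c) x y := by
  have hse := scalar_fixed h3 ht0 he
  obtain ⟨D, hD⟩ : ∃ D, D = (lin (inc c) t0 t1).det := ⟨_, rfl⟩
  have hdet : D * s D * s (s D) = e ^ 2 := by
    rw [hD, ← det_nm, he]
    simp
  rw [← hD] at ht0
  have hsD : s D ≠ 0 := fun h => ht0 (by simpa using h)
  have hssD : s (s D) ≠ 0 := fun h => ht0 (by simpa using h)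
  have he0 : e ≠ 0 := by
    intro h
    rw [h] at hdet
    have : D * s D * s (s D) ≠ 0 := mul_ne_zero (mul_ne_zero ht0 hsD) hssD
    apply this
    rw [hdet]
    ring
  have hz : (D / e) * s (D / e) * s (s (D / e)) = e⁻¹ := by
    rw [map_div₀, map_div₀, hse, hse]
    field_simp
    linear_combination hdet
  have hnm : nm s (lin (inc c) ((D / e) * t0) ((D / e) * t1)) = 1 := by
    rw [← smul_lin, nm_smul, hz, he, smul_smul, inv_mul_cancel₀ he0, one_smul]
  obtain ⟨x, y, hxy, h⟩ := hilbert90 h3 hs hc hnm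
  refine ⟨e / D, div_ne_zero he0 ht0, x, y, hxy, ?_⟩
  rw [← smul_lin, smul_mul_assoc] at h
  have h2 := congrArg (fun M => (e / D) • M) h
  simp only [smul_smul] at h2
  rwa [div_mul_div_comm, mul_comm e D, div_self (mul_ne_zero ht0 he0), one_smul] at h2

/-- **The fixed points of the torus modulo scalars are rational.** -/
theorem fixed_torus (hfix : ∀ x, s x = x → x ∈ Set.range (algebraMap F E))
    {c : Matrix (Fin 2) (Fin 2) F} (hc : Ell (inc c : Matrix (Fin 2) (Fin 2) E)) {t0 t1 z : E}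
    (ht0 : (lin (inc c) t0 t1).det ≠ 0)
    (h : sM s (lin (inc c) t0 t1) = z • lin (inc c) t0 t1) :
    ∃ y : E, y ≠ 0 ∧ ∃ a b : F, lin (inc c) t0 t1 = y • inc (lin c a b) := by
  rw [sM_lin, smul_lin] at h
  obtain ⟨h0, h1⟩ := hc.lin_inj h
  have hz : z ≠ 0 := by
    rintro rfl
    rw [zero_mul] at h0 h1
    have e0 : t0 = 0 := by simpa using h0
    have e1 : t1 = 0 := by simpa using h1
    rw [e0, e1] at ht0
    simp [det_lin] at ht0
  have hrat : ∀ a b : F, (inc (lin c a b) : Matrix (Fin 2) (Fin 2) E) =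
      lin (inc c) (algebraMap F E a) (algebraMap F E b) := by
    intro a b
    ext i j
    simp only [inc_apply, lin, Matrix.add_apply, Matrix.smul_apply, smul_eq_mul, map_add, map_mul]
    congr 2
    rcases eq_or_ne i j with h | h
    · rw [h, Matrix.one_apply_eq, Matrix.one_apply_eq, map_one]
    · rw [Matrix.one_apply_ne h, Matrix.one_apply_ne h, map_zero]
  by_cases ht1 : t1 = 0
  · have ht00 : t0 ≠ 0 := by
      rintro rfl
      rw [ht1] at ht0
      simp [det_lin] at ht0
    refine ⟨t0, ht00, 1, 0, ?_⟩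
    rw [hrat, smul_lin, map_one, map_zero, mul_one, mul_zero, ht1]
  · obtain ⟨a, ha⟩ := hfix (t0 / t1) (by rw [map_div₀, h0, h1, mul_div_mul_left _ _ hz])
    refine ⟨t1, ht1, a, 1, ?_⟩
    rw [hrat, smul_lin, ha, map_one, mul_one, mul_div_cancel₀ _ ht1]

end

end Fermat.Agent.H20.S47

end
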