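/-
S47, cubic descent: twisted conjugacy classes in `PGL₂`.
-/
import Fermat.Agent.H20S3

set_option autoImplicit false
set_option linter.style.haveILetI false
set_option linter.unusedSectionVars false

noncomputable section

open Matrix
open scoped MatrixGroups
open Matrix.ProjGenLinGroup (mk mk_surjective)

namespace Fermat.Agent.H20.S47

section Lifts

variable {K : Type*} [Field K]

theorem mk_eq_iff {g₁ g₂ : GL (Fin 2) K} :
    mk g₁ = mk g₂ ↔ ∃ z : K, z ≠ 0 ∧ (g₂ : Matrix (Fin 2) (Fin 2) K) = z • (g₁ : Matrix _ _ K) := by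
  rw [ProjGenLinGroup.mk_eq_mk_iff]
  constructor
  · rintro ⟨u, rfl⟩
    refine ⟨u, u.ne_zero, ?_⟩
    rw [Units.val_mul]
    ext i j
    simp [Matrix.mul_apply, Fin.sum_univ_two, Matrix.GeneralLinearGroup.scalar]
    fin_cases j <;> simp <;> ring
  · rintro ⟨z, hz, h⟩
    refine ⟨Units.mk0 z hz, ?_⟩
    ext i j
    rw [Units.val_mul, h]
    simp [Matrix.mul_apply, Fin.sum_univ_two, Matrix.GeneralLinearGroup.scalar]
    fin_cases j <;> simp <;> ring

/-- the lift of an invertible matrix -/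
def toGL (d : Matrix (Fin 2) (Fin 2) K) (h : d.det ≠ 0) : GL (Fin 2) K :=
  Matrix.GeneralLinearGroup.mkOfDetNeZero d h

theorem toGL_val (d : Matrix (Fin 2) (Fin 2) K) (h : d.det ≠ 0) :
    ((toGL d h : GL (Fin 2) K) : Matrix (Fin 2) (Fin 2) K) = d := rfl

theorem det_ne_zero (g : GL (Fin 2) K) : (g : Matrix (Fin 2) (Fin 2) K).det ≠ 0 :=
  (Matrix.isUnits_det_units g).ne_zero

/-- **Elliptic regular elements** of `PGL₂` -/
def EllReg (γ : PGL(2, K)) : Prop :=
  ∃ g : GL (Fin 2) K, mk g = γ ∧ Ell (g : Matrix (Fin 2) (Fin 2) K) ∧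
    (g : Matrix (Fin 2) (Fin 2) K).trace ≠ 0

theorem Ell.smul {c : Matrix (Fin 2) (Fin 2) K} (h : Ell c) {z : K} (hz : z ≠ 0) :
    Ell (z • c) := by
  intro x hx
  apply h (x / z)
  rw [Matrix.trace_smul, Matrix.det_smul, Fintype.card_fin, smul_eq_mul] at hx
  field_simp
  linear_combination hx

theorem EllReg.lift {γ : PGL(2, K)} (h : EllReg γ) {g : GL (Fin 2) K} (hg : mk g = γ) :
    Ell (g : Matrix (Fin 2) (Fin 2) K) ∧ (g : Matrix (Fin 2) (Fin 2) K).trace ≠ 0 := by
  obtain ⟨g', hg', h1, h2⟩ := h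
  obtain ⟨z, hz, hzz⟩ := mk_eq_iff.mp (hg'.trans hg.symm)
  rw [hzz]
  refine ⟨h1.smul hz, ?_⟩
  rw [Matrix.trace_smul, smul_eq_mul]
  exact mul_ne_zero hz h2

/-- elements commuting with an elliptic regular element lie in the torus -/
theorem exists_lin_of_commute {γ x : PGL(2, K)} (h : EllReg γ) (hx : x * γ = γ * x)
    {g k : GL (Fin 2) K} (hg : mk g = γ) (hk : mk k = x) :
    ∃ a b : K, (k : Matrix (Fin 2) (Fin 2) K) = lin (g : Matrix (Fin 2) (Fin 2) K) a b := by
  obtain ⟨h1, h2⟩ := h.lift hg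
  rw [← hg, ← hk, ← map_mul, ← map_mul] at hx
  obtain ⟨z, hz, hzz⟩ := mk_eq_iff.mp hx
  rw [Units.val_mul, Units.val_mul] at hzz
  -- `g k = z k g`
  have hd := congrArg Matrix.trace hzz
  have hk0 := det_ne_zero k
  have hu : IsUnit (k : Matrix (Fin 2) (Fin 2) K).det := isUnit_iff_ne_zero.mpr hk0
  have e1 : (g : Matrix (Fin 2) (Fin 2) K) = z • (k * g * (k : Matrix (Fin 2) (Fin 2) K)⁻¹) := by
    rw [← smul_mul_assoc, ← hzz, mul_assoc, Matrix.mul_nonsing_inv _ hu, mul_one]
  have e2 : (g : Matrix (Fin 2) (Fin 2) K).trace = z * (g : Matrix (Fin 2) (Fin 2) K).trace := by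
    conv_lhs => rw [e1]
    rw [Matrix.trace_smul, Matrix.trace_mul_comm, ← mul_assoc, Matrix.nonsing_inv_mul _ hu, one_mul,
      smul_eq_mul]
  have hz1 : z = 1 := by
    have : (1 - z) * (g : Matrix (Fin 2) (Fin 2) K).trace = 0 := by linear_combination e2
    rcases mul_eq_zero.mp this with h3 | h3
    · linear_combination -h3
    · exact absurd h3 h2
  rw [hz1, one_smul] at hzz
  exact exists_lin_of_comm (fun x => h1.nonscalar x) hzz.symm

end Lifts

section Twisted

variable {F E : Type*} [Field F] [Field E] [Algebra F E] (s : E ≃ₐ[F] E)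

/-- the action of `s` on `PGL₂(E)` -/
def sP : PGL(2, E) →* PGL(2, E) := ProjGenLinGroup.map (s : E →+* E)

variable (E) in
/-- the inclusion of `PGL₂(F)` in `PGL₂(E)` -/
def incP : PGL(2, F) →* PGL(2, E) := ProjGenLinGroup.map (algebraMap F E)

/-- the norm on `PGL₂(E)` -/
def nP (δ : PGL(2, E)) : PGL(2, E) := δ * sP s δ * sP s (sP s δ)

theorem sP_incP (γ : PGL(2, F)) : sP s (incP E γ) = incP E γ := by
  obtain ⟨g, rfl⟩ := mk_surjective γ
  show mk _ = mk _
  congr 1
  ext i j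
  exact s.commutes _

theorem sP3 (h3 : ∀ x, s (s (s x)) = x) (δ : PGL(2, E)) : sP s (sP s (sP s δ)) = δ := by
  obtain ⟨g, rfl⟩ := mk_surjective δ
  show mk _ = mk _
  congr 1
  ext i j
  exact h3 _

/-- the norm under twisted conjugation -/
theorem nP_conj (h3 : ∀ x, s (s (s x)) = x) (δ x : PGL(2, E)) :
    nP s (x * δ * (sP s x)⁻¹) = x * nP s δ * x⁻¹ := by
  simp only [nP, map_mul, map_inv, sP3 s h3]
  group

theorem mul_sP_nP (h3 : ∀ x, s (s (s x)) = x) (δ : PGL(2, E)) :
    δ * sP s (nP s δ) = nP s δ * δ := by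
  simp only [nP, map_mul, sP3 s h3]
  group

theorem sP_mk (g : GL (Fin 2) E) : sP s (mk g) = mk (GeneralLinearGroup.map (s : E →+* E) g) := rfl

theorem val_map_s (g : GL (Fin 2) E) :
    ((GeneralLinearGroup.map (s : E →+* E) g : GL (Fin 2) E) : Matrix (Fin 2) (Fin 2) E) =
      sM s (g : Matrix (Fin 2) (Fin 2) E) := rfl

theorem val_map_inc (g : GL (Fin 2) F) :
    ((GeneralLinearGroup.map (algebraMap F E) g : GL (Fin 2) E) : Matrix (Fin 2) (Fin 2) E) =
      inc (g : Matrix (Fin 2) (Fin 2) F) := rfl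

theorem incP_mk (g : GL (Fin 2) F) : incP E (mk g) = mk (GeneralLinearGroup.map (algebraMap F E) g) :=
  rfl

/-- the lift of a norm -/
def nG (d : GL (Fin 2) E) : GL (Fin 2) E :=
  d * GeneralLinearGroup.map (s : E →+* E) d *
    GeneralLinearGroup.map (s : E →+* E) (GeneralLinearGroup.map (s : E →+* E) d)

theorem nP_mk (d : GL (Fin 2) E) : nP s (mk d) = mk (nG s d) := rfl

theorem val_nG (d : GL (Fin 2) E) :
    ((nG s d : GL (Fin 2) E) : Matrix (Fin 2) (Fin 2) E) = nm s (d : Matrix (Fin 2) (Fin 2) E) := rfl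

variable {s}

theorem EllReg.of_incP {γ : PGL(2, F)} (h : EllReg (incP E γ)) : EllReg γ := by
  obtain ⟨g, rfl⟩ := mk_surjective γ
  obtain ⟨h1, h2⟩ := h.lift (incP_mk (E := E) g).symm
  refine ⟨g, rfl, fun x hx => ?_, fun h0 => ?_⟩
  · apply h1 (algebraMap F E x)
    rw [val_map_inc, trace_inc, det_inc, ← map_pow, ← map_mul, ← map_sub, ← map_add, hx, map_zero]
  · apply h2
    rw [val_map_inc, trace_inc, h0, map_zero]

theorem EllReg.incP (h3 : ∀ x, s (s (s x)) = x)
    (hfix : ∀ x, s x = x → x ∈ Set.range (algebraMap F E)) {γ : PGL(2, F)} (h : EllReg γ) :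
    EllReg (incP E γ) := by
  obtain ⟨g, rfl, h1, h2⟩ := h
  refine ⟨GeneralLinearGroup.map (algebraMap F E) g, rfl, ?_, ?_⟩
  · rw [val_map_inc]
    exact h1.inc h3 hfix
  · rw [val_map_inc, trace_inc]
    exact fun h0 => h2 (by simpa using h0)

/-- **(6a)** an element with elliptic regular norm is twisted conjugate to one with rational
norm. -/
theorem exists_rational_norm (h3 : ∀ x, s (s (s x)) = x)
    (hfix : ∀ x, s x = x → x ∈ Set.range (algebraMap F E)) {δ : PGL(2, E)}
    (h : EllReg (nP s δ)) :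
    ∃ (x : PGL(2, E)) (γ : PGL(2, F)), EllReg γ ∧ nP s (x * δ * (sP s x)⁻¹) = incP E γ := by
  obtain ⟨d, rfl⟩ := mk_surjective δ
  obtain ⟨h1, h2⟩ := h.lift (nP_mk s d).symm
  obtain ⟨c, g, g', hgg', hg'g, hc, hct, hcd⟩ := exists_rational (s := s) h3 hfix
    (det_ne_zero d) (fun x => h1.nonscalar x)
  let G : GL (Fin 2) E := ⟨g, g', hgg', hg'g⟩
  have hcdet : c.det ≠ 0 := by
    intro h0
    have := det_ne_zero (nG s d)
    rw [val_nG, ← hcd, h0, map_zero] at this
    exact this rfl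
  have hval : nP s (mk G * mk d * (sP s (mk G))⁻¹) = incP E (mk (toGL c hcdet)) := by
    rw [incP_mk, sP_mk, ← map_inv, ← map_mul, ← map_mul, nP_mk]
    congr 1
    apply Units.ext
    exact hc
  refine ⟨mk G, mk (toGL c hcdet), ?_, hval⟩
  apply EllReg.of_incP (E := E)
  rw [← hval, nP_conj s h3, nP_mk]
  refine ⟨G * nG s d * G⁻¹, by rw [map_mul, map_mul, map_inv], ?_, ?_⟩
  · intro x hx
    apply h1 x
    have e1 : ((G * nG s d * G⁻¹ : GL (Fin 2) E) : Matrix (Fin 2) (Fin 2) E) =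
        g * (nG s d : Matrix (Fin 2) (Fin 2) E) * g' := rfl
    rw [e1, Matrix.trace_mul_comm, ← mul_assoc, hg'g, one_mul, Matrix.det_mul, Matrix.det_mul] at hx
    have e2 : g.det * g'.det = 1 := by rw [← Matrix.det_mul, hgg', Matrix.det_one]
    rw [← hx]
    linear_combination (-(nG s d : Matrix (Fin 2) (Fin 2) E).det) * e2
  · have e1 : ((G * nG s d * G⁻¹ : GL (Fin 2) E) : Matrix (Fin 2) (Fin 2) E) =
        g * (nG s d : Matrix (Fin 2) (Fin 2) E) * g' := rfl
    rw [e1, Matrix.trace_mul_comm, ← mul_assoc, hg'g, one_mul]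
    exact h2

/-- an element with rational elliptic regular norm lies in the torus -/
theorem lin_of_rational (h3 : ∀ x, s (s (s x)) = x)
    (hfix : ∀ x, s x = x → x ∈ Set.range (algebraMap F E)) {δ : PGL(2, E)} {γ : PGL(2, F)}
    (h : nP s δ = incP E γ) (hγ : EllReg γ) {d : GL (Fin 2) E} {g : GL (Fin 2) F} (hd : mk d = δ)
    (hg : mk g = γ) :
    ∃ a b : E, (d : Matrix (Fin 2) (Fin 2) E) = lin (inc (g : Matrix (Fin 2) (Fin 2) F)) a b := by
  have h1 := mul_sP_nP s h3 δ
  rw [h, sP_incP] at h1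
  exact exists_lin_of_commute (hγ.incP h3 hfix) h1
    (g := GeneralLinearGroup.map (algebraMap F E) g) (by rw [← hg]; rfl) hd

/-- **(6c)** elements with the same rational elliptic regular norm are twisted conjugate. -/
theorem twisted_conj (h3 : ∀ x, s (s (s x)) = x) (hs : s ≠ AlgEquiv.refl)
    (hfix : ∀ x, s x = x → x ∈ Set.range (algebraMap F E)) {δ₁ δ₂ : PGL(2, E)} {γ : PGL(2, F)}
    (hγ : EllReg γ) (h1 : nP s δ₁ = incP E γ) (h2 : nP s δ₂ = incP E γ) :
    ∃ x : PGL(2, E), x * incP E γ = incP E γ * x ∧ δ₂ = x * δ₁ * (sP s x)⁻¹ := by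
  obtain ⟨g, rfl⟩ := mk_surjective γ
  obtain ⟨d₁, rfl⟩ := mk_surjective δ₁
  obtain ⟨d₂, rfl⟩ := mk_surjective δ₂
  obtain ⟨a₁, b₁, e₁⟩ := lin_of_rational h3 hfix h1 hγ rfl rfl
  obtain ⟨a₂, b₂, e₂⟩ := lin_of_rational h3 hfix h2 hγ rfl rfl
  have hEll : Ell (inc (g : Matrix (Fin 2) (Fin 2) F) : Matrix (Fin 2) (Fin 2) E) :=
    (hγ.lift rfl).1.inc h3 hfix
  have hcomm : d₁ * d₂ = d₂ * d₁ := by
    apply Units.ext
    rw [Units.val_mul, Units.val_mul, e₁, e₂, lin_comm]
  -- the quotient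
  obtain ⟨t, ht⟩ : ∃ t : GL (Fin 2) E, t = d₂ * d₁⁻¹ := ⟨_, rfl⟩
  have htd : t * d₁ = d₂ := by rw [ht]; group
  have htc : (t : Matrix (Fin 2) (Fin 2) E) * inc (g : Matrix (Fin 2) (Fin 2) F) =
      inc (g : Matrix (Fin 2) (Fin 2) F) * (t : Matrix (Fin 2) (Fin 2) E) := by
    have k1 : ∀ a b : E, lin (inc (g : Matrix (Fin 2) (Fin 2) F)) a b * inc (g : Matrix _ _ F) =
        inc (g : Matrix (Fin 2) (Fin 2) F) * lin (inc (g : Matrix (Fin 2) (Fin 2) F)) a b := by
      intro a b
      simp only [lin, add_mul, mul_add, smul_mul_assoc, mul_smul_comm, one_mul, mul_one]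
    have k2 : d₁ * GeneralLinearGroup.map (algebraMap F E) g =
        GeneralLinearGroup.map (algebraMap F E) g * d₁ := by
      apply Units.ext
      rw [Units.val_mul, Units.val_mul, e₁, val_map_inc, k1]
    have k3 : d₂ * GeneralLinearGroup.map (algebraMap F E) g =
        GeneralLinearGroup.map (algebraMap F E) g * d₂ := by
      apply Units.ext
      rw [Units.val_mul, Units.val_mul, e₂, val_map_inc, k1]
    have k4 : t * GeneralLinearGroup.map (algebraMap F E) g =
        GeneralLinearGroup.map (algebraMap F E) g * t := by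
      have c1 : Commute d₁ (GeneralLinearGroup.map (algebraMap F E) g) := k2
      have c2 : Commute d₂ (GeneralLinearGroup.map (algebraMap F E) g) := k3
      rw [ht]
      exact c2.mul_left c1.inv_left
    exact congrArg Units.val k4
  obtain ⟨t0, t1, et⟩ := exists_lin_of_comm (fun x => hEll.nonscalar x) htc
  have hnt : nP s (mk t) = 1 := by
    have c : ∀ x y : GL (Fin 2) E, (∃ a b : E, (x : Matrix (Fin 2) (Fin 2) E) =
        lin (inc (g : Matrix (Fin 2) (Fin 2) F)) a b) → (∃ a b : E,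
        (y : Matrix (Fin 2) (Fin 2) E) = lin (inc (g : Matrix (Fin 2) (Fin 2) F)) a b) →
        x * y = y * x := by
      rintro x y ⟨a, b, hx⟩ ⟨a', b', hy⟩
      apply Units.ext
      rw [Units.val_mul, Units.val_mul, hx, hy, lin_comm]
    have hsl : ∀ x : GL (Fin 2) E, (∃ a b : E, (x : Matrix (Fin 2) (Fin 2) E) =
        lin (inc (g : Matrix (Fin 2) (Fin 2) F)) a b) → ∃ a b : E,
        ((GeneralLinearGroup.map (s : E →+* E) x : GL (Fin 2) E) : Matrix (Fin 2) (Fin 2) E) =
          lin (inc (g : Matrix (Fin 2) (Fin 2) F)) a b := by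
      rintro x ⟨a, b, hx⟩
      exact ⟨s a, s b, by rw [val_map_s, hx, sM_lin]⟩
    have T : ∃ a b : E, (t : Matrix (Fin 2) (Fin 2) E) =
        lin (inc (g : Matrix (Fin 2) (Fin 2) F)) a b := ⟨t0, t1, et⟩
    have D : ∃ a b : E, (d₁ : Matrix (Fin 2) (Fin 2) E) =
        lin (inc (g : Matrix (Fin 2) (Fin 2) F)) a b := ⟨a₁, b₁, e₁⟩
    have hmul : nG s (t * d₁) = nG s t * nG s d₁ := by
      rw [nG, nG, nG, map_mul, map_mul]
      have k1 := c _ _ D (hsl _ T)
      have k2 := c _ _ D (hsl _ (hsl _ T))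
      have k3 := c _ _ (hsl _ D) (hsl _ (hsl _ T))
      calc t * d₁ * (GeneralLinearGroup.map (s : E →+* E) t * GeneralLinearGroup.map (s : E →+* E) d₁) *
            (GeneralLinearGroup.map (s : E →+* E) (GeneralLinearGroup.map (s : E →+* E) t) *
              GeneralLinearGroup.map (s : E →+* E) (GeneralLinearGroup.map (s : E →+* E) d₁))
          = t * (d₁ * GeneralLinearGroup.map (s : E →+* E) t) *
            (GeneralLinearGroup.map (s : E →+* E) d₁ *
              GeneralLinearGroup.map (s : E →+* E) (GeneralLinearGroup.map (s : E →+* E) t)) *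
              GeneralLinearGroup.map (s : E →+* E) (GeneralLinearGroup.map (s : E →+* E) d₁) := by
            group
        _ = t * GeneralLinearGroup.map (s : E →+* E) t * (d₁ *
              GeneralLinearGroup.map (s : E →+* E) (GeneralLinearGroup.map (s : E →+* E) t)) *
              GeneralLinearGroup.map (s : E →+* E) d₁ *
              GeneralLinearGroup.map (s : E →+* E) (GeneralLinearGroup.map (s : E →+* E) d₁) := by
            rw [k1, k3]
            group
        _ = _ := by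
            rw [k2]
            group
    have h5 : nP s (mk t) * nP s (mk d₁) = nP s (mk d₂) := by
      rw [nP_mk, nP_mk, nP_mk, ← map_mul, ← hmul, htd]
    rw [h1, h2] at h5
    exact mul_eq_right.mp h5
  rw [nP_mk, ← map_one mk, eq_comm, mk_eq_iff] at hnt
  obtain ⟨e, he0, he⟩ := hnt
  rw [val_nG, Units.val_one, et] at he
  have hdt : (lin (inc (g : Matrix (Fin 2) (Fin 2) F)) t0 t1).det ≠ 0 := by
    rw [← et]
    exact det_ne_zero t
  obtain ⟨z, hz, x, y, hxy, hH⟩ := h1_torus h3 hs hEll hdt he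
  let X : GL (Fin 2) E := toGL _ hxy
  refine ⟨mk X, ?_, ?_⟩
  · rw [incP_mk, ← map_mul, ← map_mul]
    congr 1
    apply Units.ext
    rw [Units.val_mul, Units.val_mul, val_map_inc]
    show lin _ x y * _ = _ * lin _ x y
    simp only [lin, add_mul, mul_add, smul_mul_assoc, mul_smul_comm, one_mul, mul_one]
  · have h6 : mk t * sP s (mk X) = mk X := by
      rw [sP_mk, ← map_mul, eq_comm, mk_eq_iff]
      refine ⟨z, hz, ?_⟩
      rw [Units.val_mul, val_map_s, et]
      exact hH
    have h7 : mk X * mk d₁ = mk d₁ * mk X := by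
      rw [← map_mul, ← map_mul]
      congr 1
      apply Units.ext
      rw [Units.val_mul, Units.val_mul, e₁]
      exact lin_comm _ _ _ _ _
    have h8 : mk t = mk X * (sP s (mk X))⁻¹ := by
      rw [eq_mul_inv_iff_mul_eq]
      exact h6
    rw [← htd, map_mul, h8]
    -- `X s(X)⁻¹ d₁ = X d₁ s(X)⁻¹`
    have h9 : sP s (mk X) * mk d₁ = mk d₁ * sP s (mk X) := by
      rw [sP_mk, ← map_mul, ← map_mul]
      congr 1
      apply Units.ext
      rw [Units.val_mul, Units.val_mul, e₁, val_map_s]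
      show sM s (lin _ x y) * _ = _ * sM s (lin _ x y)
      rw [sM_lin]
      exact lin_comm _ _ _ _ _
    have c9 : Commute (sP s (mk X)) (mk d₁) := h9
    rw [mul_assoc, mul_assoc, c9.inv_left.eq]

/-- **(6c)** the twisted centraliser of an element with rational elliptic regular norm. -/
theorem twisted_stabilizer (h3 : ∀ x, s (s (s x)) = x)
    (hfix : ∀ x, s x = x → x ∈ Set.range (algebraMap F E)) {δ : PGL(2, E)} {γ : PGL(2, F)}
    (hγ : EllReg γ) (h : nP s δ = incP E γ) (x : PGL(2, E)) :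
    x * δ * (sP s x)⁻¹ = δ ↔ ∃ y : PGL(2, F), y * γ = γ * y ∧ x = incP E y := by
  obtain ⟨g, rfl⟩ := mk_surjective γ
  obtain ⟨d, rfl⟩ := mk_surjective δ
  obtain ⟨a₁, b₁, e₁⟩ := lin_of_rational h3 hfix h hγ rfl rfl
  have hEll : Ell (inc (g : Matrix (Fin 2) (Fin 2) F) : Matrix (Fin 2) (Fin 2) E) :=
    (hγ.lift rfl).1.inc h3 hfix
  constructor
  · intro hx
    have h1 : x * incP E (mk g) * x⁻¹ = incP E (mk g) := by
      rw [← h, ← nP_conj s h3, hx]
    have h2 : x * incP E (mk g) = incP E (mk g) * x := mul_inv_eq_iff_eq_mul.mp h1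
    obtain ⟨X, rfl⟩ := mk_surjective x
    obtain ⟨t0, t1, et⟩ := exists_lin_of_commute (hγ.incP h3 hfix) h2
      (g := GeneralLinearGroup.map (algebraMap F E) g) rfl rfl
    rw [val_map_inc] at et
    have h4 : mk X * mk d = mk d * mk X := by
      rw [← map_mul, ← map_mul]
      congr 1
      apply Units.ext
      rw [Units.val_mul, Units.val_mul, e₁, et]
      exact lin_comm _ _ _ _ _
    have h5 : mk X = sP s (mk X) := by
      have h6 := mul_inv_eq_iff_eq_mul.mp hx
      rw [h4] at h6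
      exact mul_left_cancel h6
    rw [sP_mk, mk_eq_iff] at h5
    obtain ⟨z, hz, hzz⟩ := h5
    rw [val_map_s, et] at hzz
    have hdt : (lin (inc (g : Matrix (Fin 2) (Fin 2) F)) t0 t1).det ≠ 0 := by
      rw [← et]
      exact det_ne_zero X
    obtain ⟨y, hy, a, b, hab⟩ := fixed_torus hfix hEll hdt hzz
    have hdab : (lin (g : Matrix (Fin 2) (Fin 2) F) a b).det ≠ 0 := by
      intro h0
      apply hdt
      rw [hab, Matrix.det_smul, det_inc, h0, map_zero, mul_zero]
    refine ⟨mk (toGL _ hdab), ?_, ?_⟩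
    · rw [← map_mul, ← map_mul]
      congr 1
      apply Units.ext
      rw [Units.val_mul, Units.val_mul]
      show lin _ a b * _ = _ * lin _ a b
      simp only [lin, add_mul, mul_add, smul_mul_assoc, mul_smul_comm, one_mul, mul_one]
    · rw [incP_mk, eq_comm, mk_eq_iff]
      refine ⟨y, hy, ?_⟩
      rw [et, hab, val_map_inc]
      rfl
  · rintro ⟨y, hy, rfl⟩
    obtain ⟨Y, rfl⟩ := mk_surjective y
    obtain ⟨a, b, hab⟩ := exists_lin_of_commute hγ hy (g := g) rfl rfl
    rw [sP_incP, mul_inv_eq_iff_eq_mul, incP_mk, ← map_mul, ← map_mul]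
    congr 1
    apply Units.ext
    rw [Units.val_mul, Units.val_mul, e₁, val_map_inc, hab]
    have : (inc (lin (g : Matrix (Fin 2) (Fin 2) F) a b) : Matrix (Fin 2) (Fin 2) E) =
        lin (inc (g : Matrix (Fin 2) (Fin 2) F)) (algebraMap F E a) (algebraMap F E b) := by
      ext i j
      simp only [inc_apply, lin, Matrix.add_apply, Matrix.smul_apply, smul_eq_mul, map_add, map_mul]
      congr 2
      rcases eq_or_ne i j with h | h
      · rw [h, Matrix.one_apply_eq, Matrix.one_apply_eq, map_one]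
      · rw [Matrix.one_apply_ne h, Matrix.one_apply_ne h, map_zero]
    rw [this]
    exact lin_comm _ _ _ _ _

end Twisted

end Fermat.Agent.H20.S47

end
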