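/-
S47, cubic descent: twisted conjugacy classes with elliptic regular norm = conjugacy classes of
norms.
-/
import Fermat.Agent.H20S4

set_option autoImplicit false
set_option linter.style.haveILetI false
set_option linter.unusedSectionVars false

noncomputable section

open Matrix
open scoped MatrixGroups
open Matrix.ProjGenLinGroup (mk mk_surjective)

namespace Fermat.Agent.H20.S47

/-- non-scalar matrices with the same trace and determinant are conjugate -/
theorem exists_conj_of_eq {K : Type*} [Field K] {c c' : Matrix (Fin 2) (Fin 2) K}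
    (hc : ∀ x : K, c ≠ x • 1) (hc' : ∀ x : K, c' ≠ x • 1) (ht : c.trace = c'.trace)
    (hd : c.det = c'.det) :
    ∃ Y : Matrix (Fin 2) (Fin 2) K, Y.det ≠ 0 ∧ Y * c = c' * Y := by
  obtain ⟨P, hP, h1⟩ := exists_comp hc
  obtain ⟨P', hP', h2⟩ := exists_comp hc'
  have hu : IsUnit P.det := isUnit_iff_ne_zero.mpr hP
  refine ⟨P' * P⁻¹, ?_, ?_⟩
  · rw [Matrix.det_mul, Matrix.det_nonsing_inv]
    exact mul_ne_zero hP' (by simpa using hP)
  · have h3 : P⁻¹ * c = comp c.trace c.det * P⁻¹ := by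
      have h4 : P⁻¹ * (c * P) * P⁻¹ = P⁻¹ * (P * comp c.trace c.det) * P⁻¹ := by rw [h1]
      rw [← mul_assoc, mul_assoc, Matrix.mul_nonsing_inv _ hu, mul_one, ← mul_assoc,
        Matrix.nonsing_inv_mul _ hu, one_mul] at h4
      exact h4
    rw [mul_assoc, h3, ht, hd, ← mul_assoc, ← h2, mul_assoc]

section

variable {F E : Type*} [Field F] [Field E] [Algebra F E] {s : E ≃ₐ[F] E}

/-- **rational elements which are conjugate over `E` are conjugate over `F`** -/
theorem conj_rational {γ₁ γ₂ : PGL(2, F)} (h₁ : EllReg γ₁) (h₂ : EllReg γ₂) {x : PGL(2, E)}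
    (hx : x * incP E γ₁ = incP E γ₂ * x) : ∃ y : PGL(2, F), y * γ₁ = γ₂ * y := by
  obtain ⟨g₁, rfl⟩ := mk_surjective γ₁
  obtain ⟨g₂, rfl⟩ := mk_surjective γ₂
  obtain ⟨X, rfl⟩ := mk_surjective x
  obtain ⟨e1, t1⟩ := h₁.lift rfl
  obtain ⟨e2, t2⟩ := h₂.lift rfl
  rw [incP_mk, incP_mk, ← map_mul, ← map_mul, mk_eq_iff] at hx
  obtain ⟨z, hz, hzz⟩ := hx
  rw [Units.val_mul, Units.val_mul, val_map_inc, val_map_inc] at hzz
  have hu : IsUnit (X : Matrix (Fin 2) (Fin 2) E).det := isUnit_iff_ne_zero.mpr (det_ne_zero X)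
  have k1 : (inc (g₂ : Matrix (Fin 2) (Fin 2) F) : Matrix (Fin 2) (Fin 2) E) =
      z • ((X : Matrix (Fin 2) (Fin 2) E) * inc (g₁ : Matrix (Fin 2) (Fin 2) F) *
        (X : Matrix (Fin 2) (Fin 2) E)⁻¹) := by
    rw [← smul_mul_assoc, ← hzz, mul_assoc, Matrix.mul_nonsing_inv _ hu, mul_one]
  have kt : algebraMap F E (g₂ : Matrix (Fin 2) (Fin 2) F).trace =
      z * algebraMap F E (g₁ : Matrix (Fin 2) (Fin 2) F).trace := by
    rw [← trace_inc, ← trace_inc, k1, Matrix.trace_smul, Matrix.trace_mul_comm, ← mul_assoc,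
      Matrix.nonsing_inv_mul _ hu, one_mul, smul_eq_mul]
  have kd : algebraMap F E (g₂ : Matrix (Fin 2) (Fin 2) F).det =
      z ^ 2 * algebraMap F E (g₁ : Matrix (Fin 2) (Fin 2) F).det := by
    rw [← det_inc, ← det_inc, k1, Matrix.det_smul, Fintype.card_fin, Matrix.det_mul,
      Matrix.det_mul, Matrix.det_nonsing_inv, Ring.inverse_eq_inv']
    field_simp [det_ne_zero X]
  obtain ⟨l, hl⟩ : ∃ l : F, l = (g₂ : Matrix (Fin 2) (Fin 2) F).trace /
      (g₁ : Matrix (Fin 2) (Fin 2) F).trace := ⟨_, rfl⟩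
  have hzl : z = algebraMap F E l := by
    rw [hl, map_div₀, kt, mul_div_cancel_right₀]
    exact fun h0 => t1 (by simpa using h0)
  have hl0 : l ≠ 0 := by
    rintro rfl
    rw [map_zero] at hzl
    exact hz hzl
  have ht : (l • (g₁ : Matrix (Fin 2) (Fin 2) F)).trace =
      (g₂ : Matrix (Fin 2) (Fin 2) F).trace := by
    rw [Matrix.trace_smul, hl, smul_eq_mul, div_mul_cancel₀ _ t1]
  have hd : (l • (g₁ : Matrix (Fin 2) (Fin 2) F)).det = (g₂ : Matrix (Fin 2) (Fin 2) F).det := by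
    rw [Matrix.det_smul, Fintype.card_fin]
    apply (algebraMap F E).injective
    rw [kd, hzl, map_mul, map_pow]
  obtain ⟨Y, hY, hYY⟩ := exists_conj_of_eq (fun x => (e1.smul hl0).nonscalar x)
    (fun x => e2.nonscalar x) ht hd
  refine ⟨mk (toGL Y hY), ?_⟩
  rw [← map_mul, ← map_mul, mk_eq_iff]
  refine ⟨l, hl0, ?_⟩
  rw [Units.val_mul, Units.val_mul, toGL_val, ← hYY, mul_smul_comm]

/-- **(6c), final form**: two elements with elliptic regular norms are twisted conjugate if and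
only if their norms are conjugate. -/
theorem twisted_conj_iff (h3 : ∀ x, s (s (s x)) = x) (hs : s ≠ AlgEquiv.refl)
    (hfix : ∀ x, s x = x → x ∈ Set.range (algebraMap F E)) {δ₁ δ₂ : PGL(2, E)}
    (h₁ : EllReg (nP s δ₁)) :
    (∃ x : PGL(2, E), δ₂ = x * δ₁ * (sP s x)⁻¹) ↔
      ∃ x : PGL(2, E), nP s δ₂ = x * nP s δ₁ * x⁻¹ := by
  constructor
  · rintro ⟨x, rfl⟩
    exact ⟨x, nP_conj s h3 δ₁ x⟩
  · rintro ⟨x, hx⟩
    have h₂ : EllReg (nP s δ₂) := by
      obtain ⟨g, hg, e, t⟩ := h₁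
      obtain ⟨X, rfl⟩ := mk_surjective x
      have hu : IsUnit (X : Matrix (Fin 2) (Fin 2) E).det :=
        isUnit_iff_ne_zero.mpr (det_ne_zero X)
      have ev : ((X * g * X⁻¹ : GL (Fin 2) E) : Matrix (Fin 2) (Fin 2) E) =
          (X : Matrix (Fin 2) (Fin 2) E) * g * (X : Matrix (Fin 2) (Fin 2) E)⁻¹ := by
        rw [Units.val_mul, Units.val_mul, Matrix.coe_units_inv]
      have et : ((X * g * X⁻¹ : GL (Fin 2) E) : Matrix (Fin 2) (Fin 2) E).trace =
          (g : Matrix (Fin 2) (Fin 2) E).trace := by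
        rw [ev, Matrix.trace_mul_comm, ← mul_assoc, Matrix.nonsing_inv_mul _ hu, one_mul]
      have ed : ((X * g * X⁻¹ : GL (Fin 2) E) : Matrix (Fin 2) (Fin 2) E).det =
          (g : Matrix (Fin 2) (Fin 2) E).det := by
        rw [ev, Matrix.det_mul, Matrix.det_mul, Matrix.det_nonsing_inv, Ring.inverse_eq_inv']
        field_simp [det_ne_zero X]
      refine ⟨X * g * X⁻¹, ?_, ?_, ?_⟩
      · rw [hx, ← hg, map_mul, map_mul, map_inv]
      · intro y hy
        rw [et, ed] at hy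
        exact e y hy
      · rw [et]
        exact t
    obtain ⟨x₁, γ₁, g₁, k₁⟩ := exists_rational_norm h3 hfix h₁
    obtain ⟨x₂, γ₂, g₂, k₂⟩ := exists_rational_norm h3 hfix h₂
    have hconj : x₂ * x * x₁⁻¹ * incP E γ₁ = incP E γ₂ * (x₂ * x * x₁⁻¹) := by
      rw [← k₁, ← k₂, nP_conj s h3, nP_conj s h3, hx]
      group
    obtain ⟨y, hy⟩ := conj_rational g₁ g₂ hconj
    have k₃ : nP s (incP E y * (x₁ * δ₁ * (sP s x₁)⁻¹) * (sP s (incP E y))⁻¹) = incP E γ₂ := by
      rw [nP_conj s h3, k₁, ← map_mul, hy, map_mul, mul_inv_cancel_right]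
    obtain ⟨u, -, hu⟩ := twisted_conj h3 hs hfix g₂ k₃ k₂
    refine ⟨x₂⁻¹ * u * incP E y * x₁, ?_⟩
    have h5 : δ₂ = x₂⁻¹ * (x₂ * δ₂ * (sP s x₂)⁻¹) * sP s x₂ := by group
    rw [h5, hu]
    simp only [map_mul, map_inv]
    group

/-- the twisted centraliser of an element with elliptic regular norm, at a rational
representative -/
theorem twisted_centralizer_iff (h3 : ∀ x, s (s (s x)) = x)
    (hfix : ∀ x, s x = x → x ∈ Set.range (algebraMap F E)) {δ : PGL(2, E)} {γ : PGL(2, F)}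
    (hγ : EllReg γ) (h : nP s δ = incP E γ) (x : PGL(2, E)) :
    x * δ = δ * sP s x ↔ ∃ y : PGL(2, F), y * γ = γ * y ∧ x = incP E y := by
  rw [← twisted_stabilizer h3 hfix hγ h x, mul_inv_eq_iff_eq_mul]

/-- the centraliser of an elliptic regular element is commutative -/
theorem centralizer_comm {K : Type*} [Field K] {γ x y : PGL(2, K)} (h : EllReg γ)
    (hx : x * γ = γ * x) (hy : y * γ = γ * y) : x * y = y * x := by
  obtain ⟨g, rfl⟩ := mk_surjective γ
  obtain ⟨X, rfl⟩ := mk_surjective x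
  obtain ⟨Y, rfl⟩ := mk_surjective y
  obtain ⟨a, b, e1⟩ := exists_lin_of_commute h hx (g := g) rfl rfl
  obtain ⟨a', b', e2⟩ := exists_lin_of_commute h hy (g := g) rfl rfl
  rw [← map_mul, ← map_mul]
  congr 1
  apply Units.ext
  rw [Units.val_mul, Units.val_mul, e1, e2, lin_comm]

/-- injectivity of the inclusion of `PGL₂(F)` -/
theorem incP_injective : Function.Injective (incP E : PGL(2, F) →* PGL(2, E)) := by
  rw [injective_iff_map_eq_one]
  intro γ h
  obtain ⟨g, rfl⟩ := mk_surjective γ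
  rw [incP_mk, ← map_one mk, eq_comm] at h
  obtain ⟨z, hz, hzz⟩ := mk_eq_iff.mp h.symm
  rw [val_map_inc, Units.val_one] at hzz
  have e01 := congrFun (congrFun hzz 0) 1
  have e10 := congrFun (congrFun hzz 1) 0
  have e00 := congrFun (congrFun hzz 0) 0
  have e11 := congrFun (congrFun hzz 1) 1
  simp only [Matrix.smul_apply, smul_eq_mul, inc_apply] at e01 e10 e00 e11
  rw [Matrix.one_apply_ne (by decide)] at e01 e10
  rw [Matrix.one_apply_eq] at e00 e11
  have i01 : (g : Matrix (Fin 2) (Fin 2) F) 0 1 = 0 := by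
    rcases mul_eq_zero.mp e01.symm with h | h
    · exact absurd h hz
    · simpa using h
  have i10 : (g : Matrix (Fin 2) (Fin 2) F) 1 0 = 0 := by
    rcases mul_eq_zero.mp e10.symm with h | h
    · exact absurd h hz
    · simpa using h
  have i11 : (g : Matrix (Fin 2) (Fin 2) F) 0 0 = (g : Matrix (Fin 2) (Fin 2) F) 1 1 := by
    apply (algebraMap F E).injective
    apply mul_left_cancel₀ hz
    rw [← e00, ← e11]
  have hne : (g : Matrix (Fin 2) (Fin 2) F) 0 0 ≠ 0 := by
    intro h0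
    rw [h0, map_zero, mul_zero] at e00
    exact one_ne_zero e00
  rw [← map_one mk, eq_comm, mk_eq_iff]
  refine ⟨(g : Matrix (Fin 2) (Fin 2) F) 0 0, hne, ?_⟩
  ext i j
  rw [Units.val_one, Matrix.smul_apply, smul_eq_mul]
  fin_cases i <;> fin_cases j
  · simp
  · simpa using i01
  · simpa using i10
  · simpa using i11.symm

end

end Fermat.Agent.H20.S47

end
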