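/-
S47, cubic descent: cyclic cubic extensions given by an automorphism; quadratic extensions
`F(g)`, `E(g)` attached to an elliptic matrix.
-/
import Fermat.Agent.H20S5

set_option autoImplicit false
set_option linter.style.haveILetI false
set_option linter.unusedSectionVars false

noncomputable section

open Matrix Polynomial

namespace Fermat.Agent.H20.S47

section Cyc

variable {K L : Type*} [Field K] [Field L] [Algebra K L] [FiniteDimensional K L]

/-- A field with an automorphism of order three is a cyclic cubic extension of its fixed field. -/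
theorem cyc_of_aut (σ : L ≃ₐ[K] L) (h3 : ∀ x, σ (σ (σ x)) = x) (hne : σ ≠ AlgEquiv.refl)
    (hfix : ∀ x, σ x = x → x ∈ Set.range (algebraMap K L)) :
    IsGalois K L ∧ Module.finrank K L = 3 ∧
      ∀ z : L, algebraMap K L (Algebra.norm K z) = z * σ z * σ (σ z) := by
  classical
  have hp3 : σ ^ 3 = 1 := by
    ext x
    exact h3 x
  have hne' : σ ≠ 1 := hne
  have hord : orderOf σ = 3 := by
    haveI : Fact (Nat.Prime 3) := ⟨Nat.prime_three⟩
    exact orderOf_eq_prime hp3 hne'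
  have hcard : Nat.card (Subgroup.zpowers σ) = 3 := by rw [Nat.card_zpowers, hord]
  have hff : IntermediateField.fixedField (Subgroup.zpowers σ) = (⊥ : IntermediateField K L) := by
    rw [eq_bot_iff]
    intro x hx
    rw [IntermediateField.mem_fixedField_iff] at hx
    rw [IntermediateField.mem_bot]
    exact hfix x (hx σ (Subgroup.mem_zpowers σ))
  have hfr := IntermediateField.finrank_fixedField_eq_card (Subgroup.zpowers σ)
  rw [hff, hcard, IntermediateField.finrank_bot'] at hfr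
  have hgal : IsGalois K L := by
    apply IsGalois.of_fixedField_eq_bot
    rw [eq_bot_iff, ← hff]
    intro x hx
    rw [IntermediateField.mem_fixedField_iff] at hx ⊢
    exact fun f _ => hx f (Subgroup.mem_top f)
  refine ⟨hgal, hfr, fun z => ?_⟩
  rw [Algebra.norm_eq_prod_automorphisms]
  have hcardG : Fintype.card (L ≃ₐ[K] L) = 3 := by
    rw [← Nat.card_eq_fintype_card, IsGalois.card_aut_eq_finrank, hfr]
  have h12 : σ ≠ σ ^ 2 := by
    intro h
    apply hne'
    have : σ * 1 = σ * σ := by rw [mul_one, ← pow_two]; exact h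
    exact (mul_left_cancel this).symm
  have h02 : (1 : L ≃ₐ[K] L) ≠ σ ^ 2 := by
    intro h
    have h4 : σ ^ 3 = σ := by rw [pow_succ, ← h, one_mul]
    rw [hp3] at h4
    exact hne' h4.symm
  have huniv : (Finset.univ : Finset (L ≃ₐ[K] L)) = {1, σ, σ ^ 2} := by
    symm
    apply Finset.eq_univ_of_card
    rw [hcardG, Finset.card_eq_three]
    exact ⟨1, σ, σ ^ 2, hne'.symm, h02, h12, rfl⟩
  rw [huniv, Finset.prod_insert, Finset.prod_insert, Finset.prod_singleton]
  · rw [AlgEquiv.one_apply, mul_assoc]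
    rfl
  · rw [Finset.mem_singleton]
    exact h12
  · rw [Finset.mem_insert, Finset.mem_singleton]
    push Not
    exact ⟨hne'.symm, h02⟩

end Cyc

section Quad

variable {K : Type*} [Field K]

/-- the polynomial `X² - τ X + Δ` -/
def qpol (τ Δ : K) : K[X] := X ^ 2 - C τ * X + C Δ

theorem qpol_eq (τ Δ : K) : qpol τ Δ = X ^ 2 + (-(C τ * X) + C Δ) := by rw [qpol]; ring

theorem qpol_aux (τ Δ : K) : (-(C τ * X) + C Δ : K[X]).degree < (2 : ℕ) := by
  refine lt_of_le_of_lt (degree_add_le _ _) (max_lt ?_ ?_)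
  · rw [degree_neg]
    exact lt_of_le_of_lt (degree_C_mul_X_le τ) (by norm_num)
  · exact lt_of_le_of_lt degree_C_le (by norm_num)

theorem qpol_monic (τ Δ : K) : (qpol τ Δ).Monic := by
  rw [qpol_eq]
  exact monic_X_pow_add (qpol_aux τ Δ)

theorem qpol_natDegree (τ Δ : K) : (qpol τ Δ).natDegree = 2 := by
  rw [qpol_eq]
  apply natDegree_eq_of_degree_eq_some
  rw [degree_add_eq_left_of_degree_lt]
  · simp
  · rw [degree_X_pow]
    exact qpol_aux τ Δ

theorem qpol_eval (τ Δ x : K) : (qpol τ Δ).eval x = x ^ 2 - τ * x + Δ := by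
  simp [qpol]

theorem qpol_map {K' : Type*} [Field K'] (f : K →+* K') (τ Δ : K) :
    (qpol τ Δ).map f = qpol (f τ) (f Δ) := by
  simp [qpol]

theorem qpol_eval₂ {K' : Type*} [CommRing K'] (f : K →+* K') (τ Δ : K) (x : K') :
    (qpol τ Δ).eval₂ f x = x ^ 2 - f τ * x + f Δ := by
  simp [qpol]

theorem qpol_irreducible {τ Δ : K} (h : ∀ x : K, x ^ 2 - τ * x + Δ ≠ 0) :
    Irreducible (qpol τ Δ) := by
  apply Polynomial.irreducible_of_degree_le_three_of_not_isRoot
  · rw [qpol_natDegree]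
    simp
  · intro x hx
    rw [IsRoot, qpol_eval] at hx
    exact h x hx

/-- the quadratic extension -/
abbrev QF (τ Δ : K) : Type _ := AdjoinRoot (qpol τ Δ)

/-- the root -/
def rt (τ Δ : K) : QF τ Δ := AdjoinRoot.root (qpol τ Δ)

theorem rt_sq (τ Δ : K) : rt τ Δ ^ 2 =
    algebraMap K (QF τ Δ) τ * rt τ Δ - algebraMap K (QF τ Δ) Δ := by
  have h := AdjoinRoot.eval₂_root (qpol τ Δ)
  rw [qpol_eval₂] at h
  rw [AdjoinRoot.algebraMap_eq, rt]
  linear_combination h

/-- every element is `x + y a` -/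
theorem exists_lin_qf {τ Δ : K} (z : QF τ Δ) :
    ∃ x y : K, z = algebraMap K (QF τ Δ) x + algebraMap K (QF τ Δ) y * rt τ Δ := by
  obtain ⟨f, rfl⟩ := AdjoinRoot.mk_surjective z
  have hm := qpol_monic τ Δ
  have h1 : AdjoinRoot.mk (qpol τ Δ) f = AdjoinRoot.mk (qpol τ Δ) (f %ₘ qpol τ Δ) := by
    rw [AdjoinRoot.mk_eq_mk]
    refine ⟨f /ₘ qpol τ Δ, ?_⟩
    have := Polynomial.modByMonic_add_div f (qpol τ Δ)
    linear_combination -this
  have h2 : (f %ₘ qpol τ Δ).natDegree ≤ 1 := by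
    have := Polynomial.natDegree_modByMonic_lt f hm (by
      intro h
      have := qpol_natDegree τ Δ
      rw [h] at this
      simp at this)
    rw [qpol_natDegree] at this
    omega
  obtain ⟨y, x, hyx⟩ := Polynomial.exists_eq_X_add_C_of_natDegree_le_one h2
  refine ⟨x, y, ?_⟩
  rw [h1, hyx, map_add, map_mul, AdjoinRoot.mk_C, AdjoinRoot.mk_C, AdjoinRoot.mk_X,
    AdjoinRoot.algebraMap_eq, rt, add_comm]

theorem finrank_qf (τ Δ : K) : Module.finrank K (QF τ Δ) = 2 := by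
  rw [(AdjoinRoot.powerBasis' (qpol_monic τ Δ)).finrank]
  show (qpol τ Δ).natDegree = 2
  exact qpol_natDegree τ Δ

instance finite_qf (τ Δ : K) : Module.Finite K (QF τ Δ) :=
  (AdjoinRoot.powerBasis' (qpol_monic τ Δ)).finite

/-- the embedding in the matrix algebra -/
def toM {τ Δ : K} (c : Matrix (Fin 2) (Fin 2) K) (hτ : c.trace = τ) (hΔ : c.det = Δ) :
    QF τ Δ →+* Matrix (Fin 2) (Fin 2) K :=
  Ideal.Quotient.lift (Ideal.span {qpol τ Δ}) (Polynomial.aeval c).toRingHom (by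
    intro f hf
    rw [Ideal.mem_span_singleton] at hf
    obtain ⟨k, rfl⟩ := hf
    have h0 : Polynomial.aeval c (qpol τ Δ) = 0 := by
      rw [qpol, map_add, map_sub, map_pow, map_mul, Polynomial.aeval_X, Polynomial.aeval_C,
        Polynomial.aeval_C, Algebra.algebraMap_eq_smul_one, Algebra.algebraMap_eq_smul_one,
        smul_mul_assoc, one_mul, pow_two, sq_eq c, hτ, hΔ]
      abel
    rw [map_mul]
    show Polynomial.aeval c (qpol τ Δ) * _ = 0
    rw [h0, zero_mul])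

theorem toM_of {τ Δ : K} (c : Matrix (Fin 2) (Fin 2) K) (hτ : c.trace = τ) (hΔ : c.det = Δ)
    (x : K) : toM c hτ hΔ (algebraMap K (QF τ Δ) x) = x • 1 := by
  show Polynomial.aeval c (C x) = _
  rw [Polynomial.aeval_C, Algebra.algebraMap_eq_smul_one]

theorem toM_rt {τ Δ : K} (c : Matrix (Fin 2) (Fin 2) K) (hτ : c.trace = τ) (hΔ : c.det = Δ) :
    toM c hτ hΔ (rt τ Δ) = c := by
  show Polynomial.aeval c X = _
  rw [Polynomial.aeval_X]

theorem toM_lin {τ Δ : K} (c : Matrix (Fin 2) (Fin 2) K) (hτ : c.trace = τ) (hΔ : c.det = Δ)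
    (x y : K) : toM c hτ hΔ (algebraMap K (QF τ Δ) x + algebraMap K (QF τ Δ) y * rt τ Δ) =
      lin c x y := by
  rw [map_add, map_mul, toM_of, toM_of, toM_rt, lin, smul_mul_assoc, one_mul]

end Quad

section Tower

variable {F E : Type*} [Field F] [Field E] [Algebra F E]

variable (E) in
/-- the quadratic extension of `E` -/
abbrev QE (τ Δ : F) : Type _ := QF (algebraMap F E τ) (algebraMap F E Δ)

variable (E) in
/-- the map of quadratic extensions -/
def mapFE (τ Δ : F) : QF τ Δ →+* QE E τ Δ :=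
  AdjoinRoot.map (algebraMap F E) (qpol τ Δ) (qpol (algebraMap F E τ) (algebraMap F E Δ))
    (dvd_of_eq (qpol_map _ _ _).symm)

theorem mapFE_algebraMap (τ Δ x : F) : mapFE E τ Δ (algebraMap F (QF τ Δ) x) =
    algebraMap E (QE E τ Δ) (algebraMap F E x) := by
  rw [mapFE, AdjoinRoot.algebraMap_eq, AdjoinRoot.map_of, AdjoinRoot.algebraMap_eq]

theorem mapFE_rt (τ Δ : F) : mapFE E τ Δ (rt τ Δ) = rt _ _ := by
  rw [mapFE, rt, AdjoinRoot.map_root, rt]

/-- `E(g)` is an algebra over `F(g)` -/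
instance algQ (τ Δ : F) : Algebra (QF τ Δ) (QE E τ Δ) := (mapFE E τ Δ).toAlgebra

theorem algQ_eq (τ Δ : F) : algebraMap (QF τ Δ) (QE E τ Δ) = mapFE E τ Δ := rfl

instance towerQ (τ Δ : F) : IsScalarTower F (QF τ Δ) (QE E τ Δ) :=
  IsScalarTower.of_algebraMap_eq fun x => by
    rw [algQ_eq, mapFE_algebraMap]
    exact IsScalarTower.algebraMap_apply F E (QE E τ Δ) x

variable (s : E ≃ₐ[F] E)

/-- the action of `s` on `E(g)` -/
def sQ (τ Δ : F) : QE E τ Δ →+* QE E τ Δ :=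
  AdjoinRoot.map (s : E →+* E) _ _ (dvd_of_eq (by
    rw [qpol_map]
    show qpol _ _ = qpol (s _) (s _)
    rw [s.commutes, s.commutes]))

theorem sQ_algebraMap (τ Δ : F) (x : E) : sQ s τ Δ (algebraMap E (QE E τ Δ) x) =
    algebraMap E (QE E τ Δ) (s x) := by
  rw [sQ, AdjoinRoot.algebraMap_eq, AdjoinRoot.map_of]
  rfl

theorem sQ_rt (τ Δ : F) : sQ s τ Δ (rt _ _) = rt _ _ := by
  rw [sQ, rt, AdjoinRoot.map_root]

theorem sQ_lin (τ Δ : F) (x y : E) :
    sQ s τ Δ (algebraMap E (QE E τ Δ) x + algebraMap E (QE E τ Δ) y * rt _ _) =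
      algebraMap E (QE E τ Δ) (s x) + algebraMap E (QE E τ Δ) (s y) * rt _ _ := by
  rw [map_add, map_mul, sQ_rt, sQ_algebraMap, sQ_algebraMap]

theorem sQ_mapFE (τ Δ : F) (z : QF τ Δ) : sQ s τ Δ (mapFE E τ Δ z) = mapFE E τ Δ z := by
  obtain ⟨x, y, rfl⟩ := exists_lin_qf z
  rw [map_add, map_mul, mapFE_algebraMap, mapFE_algebraMap, mapFE_rt, sQ_lin, s.commutes,
    s.commutes]

theorem sQ3 (h3 : ∀ x, s (s (s x)) = x) (τ Δ : F) (z : QE E τ Δ) :
    sQ s τ Δ (sQ s τ Δ (sQ s τ Δ z)) = z := by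
  obtain ⟨x, y, rfl⟩ := exists_lin_qf z
  rw [sQ_lin, sQ_lin, sQ_lin, h3, h3]

/-- the action of `s` on `E(g)` as an automorphism over `F(g)` -/
def sQE (h3 : ∀ x, s (s (s x)) = x) (τ Δ : F) : QE E τ Δ ≃ₐ[QF τ Δ] QE E τ Δ :=
  AlgEquiv.ofBijective { sQ s τ Δ with commutes' := sQ_mapFE s τ Δ }
    ⟨fun x y h => by
      have h' : sQ s τ Δ x = sQ s τ Δ y := h
      rw [← sQ3 s h3 τ Δ x, h', sQ3 s h3],
    fun z => ⟨sQ s τ Δ (sQ s τ Δ z), sQ3 s h3 τ Δ z⟩⟩

theorem sQE_apply (h3 : ∀ x, s (s (s x)) = x) (τ Δ : F) (z : QE E τ Δ) :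
    sQE s h3 τ Δ z = sQ s τ Δ z := rfl

variable {s}
variable {τ Δ : F} [Fact (Irreducible (qpol τ Δ))]
  [Fact (Irreducible (qpol (algebraMap F E τ) (algebraMap F E Δ)))]

theorem sQE_ne (h3 : ∀ x, s (s (s x)) = x) (hs : s ≠ AlgEquiv.refl) :
    sQE s h3 τ Δ ≠ AlgEquiv.refl := by
  intro h
  apply hs
  ext x
  have h1 := congrArg (fun f => f (algebraMap E (QE E τ Δ) x)) h
  simp only [sQE_apply, sQ_algebraMap] at h1
  exact (algebraMap E (QE E τ Δ)).injective h1

/-- coordinates are unique -/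
theorem lin_unique {x y x' y' : E} (h : algebraMap E (QE E τ Δ) x +
    algebraMap E (QE E τ Δ) y * rt _ _ = algebraMap E (QE E τ Δ) x' +
    algebraMap E (QE E τ Δ) y' * rt _ _) : x = x' ∧ y = y' := by
  have hE : ∀ z : E, z ^ 2 - (algebraMap F E τ) * z + (algebraMap F E Δ) ≠ 0 := by
    intro z hz
    have hirr := (Fact.out : Irreducible (qpol (algebraMap F E τ) (algebraMap F E Δ)))
    have h1 : (qpol (algebraMap F E τ) (algebraMap F E Δ)).IsRoot z := by
      rw [IsRoot, qpol_eval, hz]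
    have h2 := Polynomial.degree_eq_one_of_irreducible_of_root hirr h1
    rw [Polynomial.degree_eq_natDegree hirr.ne_zero, qpol_natDegree] at h2
    norm_num at h2
  have hEll : Ell (comp (algebraMap F E τ) (algebraMap F E Δ)) := by
    intro z
    rw [comp_trace, comp_det]
    exact hE z
  have h2 := congrArg (toM (comp (algebraMap F E τ) (algebraMap F E Δ)) (comp_trace _ _)
    (comp_det _ _)) h
  rw [toM_lin, toM_lin] at h2
  exact hEll.lin_inj h2

theorem sQE_fix (h3 : ∀ x, s (s (s x)) = x)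
    (hfix : ∀ x, s x = x → x ∈ Set.range (algebraMap F E)) (z : QE E τ Δ)
    (hz : sQE s h3 τ Δ z = z) : z ∈ Set.range (algebraMap (QF τ Δ) (QE E τ Δ)) := by
  obtain ⟨x, y, rfl⟩ := exists_lin_qf z
  rw [sQE_apply, sQ_lin] at hz
  obtain ⟨hx, hy⟩ := lin_unique hz
  obtain ⟨x', rfl⟩ := hfix x hx
  obtain ⟨y', rfl⟩ := hfix y hy
  refine ⟨algebraMap F (QF τ Δ) x' + algebraMap F (QF τ Δ) y' * rt _ _, ?_⟩
  rw [algQ_eq, map_add, map_mul, mapFE_algebraMap, mapFE_algebraMap, mapFE_rt]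

instance finiteQE [FiniteDimensional F E] : FiniteDimensional (QF τ Δ) (QE E τ Δ) := by
  haveI : Module.Finite F (QE E τ Δ) := Module.Finite.trans E (QE E τ Δ)
  exact Module.Finite.of_restrictScalars_finite F (QF τ Δ) (QE E τ Δ)

/-- **`E(g)/F(g)` is cyclic cubic** -/
theorem cycQ [FiniteDimensional F E] (h3 : ∀ x, s (s (s x)) = x) (hs : s ≠ AlgEquiv.refl)
    (hfix : ∀ x, s x = x → x ∈ Set.range (algebraMap F E)) :
    IsGalois (QF τ Δ) (QE E τ Δ) ∧ Module.finrank (QF τ Δ) (QE E τ Δ) = 3 ∧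
      ∀ z : QE E τ Δ, mapFE E τ Δ (Algebra.norm (QF τ Δ) z) =
        z * sQ s τ Δ z * sQ s τ Δ (sQ s τ Δ z) :=
  cyc_of_aut (sQE s h3 τ Δ) (fun x => sQ3 s h3 τ Δ x) (sQE_ne h3 hs) (fun z hz => sQE_fix h3 hfix z hz)

end Tower

end Fermat.Agent.H20.S47
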