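/-
S47, cubic descent: places in the tower `F ⊂ F(g) ⊂ E(g)`, local norm conditions.
-/
import Fermat.Agent.H20S6
import Fermat.Agent.H54THasse
import Fermat.Agent.H82Stable
import Fermat.Agent.H65FirstB

set_option autoImplicit false
set_option linter.style.haveILetI false
set_option linter.unusedSectionVars false

noncomputable section

open IsDedekindDomain NumberField WithZero Fermat.Agent.H82 Fermat.Agent.H47
open scoped Pointwise

namespace Fermat.Agent.H20.S47

section Places

variable {F K' E L : Type*} [Field F] [NumberField F] [Field K'] [NumberField K']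
  [Field E] [NumberField E] [Field L] [NumberField L]
  [Algebra F K'] [Algebra K' L] [Algebra F E] [Algebra E L] [Algebra F L]
  [IsScalarTower F K' L] [IsScalarTower F E L]

theorem below_below (W : HeightOneSpectrum (𝓞 L)) : below F (below K' W) = below F W := by
  apply HeightOneSpectrum.ext
  show (W.asIdeal.under (𝓞 K')).under (𝓞 F) = W.asIdeal.under (𝓞 F)
  exact Ideal.under_under _

theorem below_smulPlace (s : E ≃ₐ[F] E) (σ : L ≃ₐ[K'] L)
    (hσ : ∀ x : E, σ (algebraMap E L x) = algebraMap E L (s x)) (W : HeightOneSpectrum (𝓞 L)) :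
    below E (smulPlace σ W) = smulPlace s (below E W) := by
  apply HeightOneSpectrum.ext
  show (σ • W.asIdeal).under (𝓞 E) = s • (W.asIdeal.under (𝓞 E))
  ext a
  rw [Ideal.mem_comap, ← Ideal.smul_mem_pointwise_smul_iff (a := σ⁻¹), inv_smul_smul,
    ← Ideal.smul_mem_pointwise_smul_iff (a := s⁻¹) (S := s • (W.asIdeal.under (𝓞 E))),
    inv_smul_smul, Ideal.mem_comap]
  have : σ⁻¹ • (algebraMap (𝓞 E) (𝓞 L) a) = algebraMap (𝓞 E) (𝓞 L) (s⁻¹ • a) := by
    apply RingOfIntegers.coe_injective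
    show (σ⁻¹ : L ≃ₐ[K'] L) (algebraMap E L a) = algebraMap E L ((s⁻¹ : E ≃ₐ[F] E) (a : E))
    apply σ.injective
    rw [hσ]
    show (σ * σ⁻¹) _ = algebraMap E L ((s * s⁻¹) _)
    rw [mul_inv_cancel, mul_inv_cancel]
    rfl
  rw [this]

theorem smulPlace_mul (s t : E ≃ₐ[F] E) (w : HeightOneSpectrum (𝓞 E)) :
    smulPlace (s * t) w = smulPlace s (smulPlace t w) := by
  apply HeightOneSpectrum.ext
  show (s * t) • w.asIdeal = s • t • w.asIdeal
  rw [mul_smul]

theorem smulPlace_one (w : HeightOneSpectrum (𝓞 E)) :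
    smulPlace (1 : E ≃ₐ[F] E) w = w := by
  apply HeightOneSpectrum.ext
  show (1 : E ≃ₐ[F] E) • w.asIdeal = w.asIdeal
  rw [one_smul]

/-- a place of `F(g)` which does not split in `E(g)` lies over one which does not split in `E` -/
theorem nonSplit_below [IsGalois F E] (s : E ≃ₐ[F] E) (hgen : ∀ τ : E ≃ₐ[F] E, ∃ n : ℕ, τ = s ^ n)
    (σ : L ≃ₐ[K'] L) (hσ : ∀ x : E, σ (algebraMap E L x) = algebraMap E L (s x))
    (v' : HeightOneSpectrum (𝓞 K')) (h : NonSplit L v') : NonSplit E (below F v') := by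
  obtain ⟨W, hW⟩ := Set.ncard_eq_one.1 h
  have hW1 : W ∈ above L v' := by rw [hW]; rfl
  have hv' : v' = below K' W := eq_below_of_mem_above hW1
  have hfix : smulPlace s (below E W) = below E W := by
    rw [← below_smulPlace s σ hσ]
    have := smulPlace_mem_above σ hW1
    rw [hW] at this
    rw [Set.mem_singleton_iff.mp this]
  have hw : below E W ∈ above E (below F v') := by
    rw [hv', below_below, ← below_below (K' := E)]
    exact mem_above_below _
  have hall : ∀ n : ℕ, smulPlace (s ^ n) (below E W) = below E W := by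
    intro n
    induction n with
    | zero => rw [pow_zero, smulPlace_one]
    | succ n ih => rw [pow_succ, smulPlace_mul, hfix, ih]
  rw [NonSplit, Set.ncard_eq_one]
  refine ⟨below E W, Set.eq_singleton_iff_unique_mem.mpr ⟨hw, fun w' hw' => ?_⟩⟩
  obtain ⟨τ, hτ⟩ := exists_smulPlace_eq hw hw'
  obtain ⟨n, rfl⟩ := hgen τ
  rw [← hτ, hall n]

/-- multiplicativity of ramification indices -/
theorem ram_mul {v : HeightOneSpectrum (𝓞 F)} {v' : HeightOneSpectrum (𝓞 K')}
    {W : HeightOneSpectrum (𝓞 L)} (h1 : v' ∈ above K' v) (h2 : W ∈ above L v') :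
    v.asIdeal.ramificationIdx' W.asIdeal =
      v.asIdeal.ramificationIdx' v'.asIdeal * v'.asIdeal.ramificationIdx' W.asIdeal := by
  have h3 : W ∈ above L v := by
    rw [eq_below_of_mem_above h1, eq_below_of_mem_above h2, below_below]
    exact mem_above_below _
  obtain ⟨π, hπ⟩ := v.valuation_exists_uniformizer F
  have e1 := valuation_above (M := L) h3 π
  have e2 := valuation_above (M := L) h2 (algebraMap F K' π)
  rw [← IsScalarTower.algebraMap_apply, e1, valuation_above h1, hπ, ← pow_mul] at e2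
  have e3 : (exp ((-1 : ℤ)) : ℤᵐ⁰) ^ (v.asIdeal.ramificationIdx' W.asIdeal) =
      exp ((-1 : ℤ)) ^ (v.asIdeal.ramificationIdx' v'.asIdeal *
        v'.asIdeal.ramificationIdx' W.asIdeal) := e2
  rw [← exp_nsmul, ← exp_nsmul, exp_inj] at e3
  have e4 : (v.asIdeal.ramificationIdx' W.asIdeal : ℤ) =
      ((v.asIdeal.ramificationIdx' v'.asIdeal * v'.asIdeal.ramificationIdx' W.asIdeal : ℕ) : ℤ) := by
    push_cast
    simpa using e3
  exact_mod_cast e4

/-- in a Galois extension the ramification index divides the degree -/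
theorem ram_dvd [IsGalois K' L] {v' : HeightOneSpectrum (𝓞 K')}
    {W : HeightOneSpectrum (𝓞 L)} (h2 : W ∈ above L v') :
    v'.asIdeal.ramificationIdx' W.asIdeal ∣ Module.finrank K' L := by
  have hlies : W.asIdeal.LiesOver v'.asIdeal := ⟨h2.symm⟩
  have hcount := Ideal.ncard_primesOver_mul_ramificationIdxIn_mul_inertiaDegIn v'.asIdeal (𝓞 L)
    Gal(L/K')
  rw [Ideal.ramificationIdxIn_eq_ramificationIdx v'.asIdeal W.asIdeal Gal(L/K'),
    IsGalois.card_aut_eq_finrank] at hcount
  rw [Ideal.ramificationIdx'_eq_ramificationIdx v'.asIdeal W.asIdeal v'.ne_bot, ← hcount]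
  exact Dvd.intro ((v'.asIdeal.primesOver (𝓞 L)).ncard * v'.asIdeal.inertiaDegIn (𝓞 L)) (by ring)

/-- base change of unramified nonsplit places to a quadratic extension -/
theorem unram_base_change [IsGalois K' L] [IsGalois E L] (hE : Module.finrank E L = 2)
    (hK : Module.finrank K' L = 3) {v' : HeightOneSpectrum (𝓞 K')}
    (hunr : ∀ w ∈ above E (below F v'), (below F v').asIdeal.ramificationIdx' w.asIdeal = 1) :
    ∀ W ∈ above L v', v'.asIdeal.ramificationIdx' W.asIdeal = 1 := by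
  intro W hW
  have hv' : v' = below K' W := eq_below_of_mem_above hW
  have hw : below E W ∈ above E (below F v') := by
    rw [hv', below_below, ← below_below (K' := E)]
    exact mem_above_below _
  have e1 := ram_mul (mem_above_below (K := F) v') hW
  have e2 := ram_mul hw (mem_above_below (K := E) W)
  rw [hunr _ hw, one_mul, e1] at e2
  have d1 := ram_dvd (mem_above_below (K := E) W)
  have d2 := ram_dvd hW
  rw [hE, ← e2] at d1
  rw [hK] at d2
  have d3 : v'.asIdeal.ramificationIdx' W.asIdeal ∣ 2 := (Dvd.intro_left _ rfl).trans d1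
  have : v'.asIdeal.ramificationIdx' W.asIdeal ∣ Nat.gcd 2 3 := Nat.dvd_gcd d3 d2
  simpa using this

end Places

section LocCond

variable {F K' L : Type} [Field F] [NumberField F] [Field K'] [NumberField K']
  [Field L] [NumberField L] [Algebra F K'] [Algebra K' L]

/-- roots of `ξ² - T ξ + D` with small coefficients are small -/
theorem root_small {K : Type*} [Field K] {w : Valuation K ℤᵐ⁰} {ξ T D : K} {r : ℤᵐ⁰}
    (h : ξ ^ 2 = T * ξ - D) (hT : w T ≤ r) (hD : w D ≤ r ^ 2) : w ξ ≤ r := by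
  by_contra hcon
  push Not at hcon
  have h0 : 0 < w ξ := lt_of_le_of_lt zero_le hcon
  have h1 : w (T * ξ) < w ξ ^ 2 := by
    rw [map_mul, pow_two]
    exact mul_lt_mul_of_pos_right (lt_of_le_of_lt hT hcon) h0
  have h2 : w D < w ξ ^ 2 := by
    refine lt_of_le_of_lt hD ?_
    exact pow_lt_pow_left₀ hcon zero_le (by norm_num)
  have h3 : w (ξ ^ 2) < w ξ ^ 2 := by
    rw [h]
    exact lt_of_le_of_lt (Valuation.map_sub _ _ _) (max_lt h1 h2)
  rw [map_pow] at h3
  exact lt_irrefl _ h3

/-- the deep condition passes to places above -/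
theorem deep_above {ζ : F} {v : HeightOneSpectrum (𝓞 F)} {v' : HeightOneSpectrum (𝓞 K')}
    (hv : v' ∈ above K' v) {M : ℕ} (hM : Deep ζ 3 v M) :
    Deep (algebraMap F K' ζ) 3 v' (v.asIdeal.ramificationIdx' v'.asIdeal * M) := by
  have hne := ramificationIdx'_ne_zero hv
  rw [Deep] at hM ⊢
  have h1 : algebraMap F K' ζ - 1 = algebraMap F K' (ζ - 1) := by rw [map_sub, map_one]
  rw [h1, valuation_above hv, ← pow_mul, mul_comm (v.asIdeal.ramificationIdx' v'.asIdeal) 3,
    pow_mul]
  have h2 := pow_lt_pow_left₀ hM zero_le hne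
  have h3 : (exp (-((v.asIdeal.ramificationIdx' v'.asIdeal * M : ℕ) : ℤ)) : ℤᵐ⁰) =
      exp (-(M : ℤ)) ^ (v.asIdeal.ramificationIdx' v'.asIdeal) := by
    rw [← exp_nsmul]
    congr 1
    push_cast
    rw [nsmul_eq_mul]
    ring
  rw [h3]
  exact h2

variable {ζ : F} (hζ : IsPrimitiveRoot ζ 3)

include hζ

/-- **(LN-deep)** -/
theorem locNorm_of_deep (hdeg : Module.finrank K' L = 3)
    {v : HeightOneSpectrum (𝓞 F)} {v' : HeightOneSpectrum (𝓞 K')} (hv : v' ∈ above K' v)
    {M : ℕ} (hM : Deep ζ 3 v M) {τ Δ z : F} (hz : z ≠ 0) {a : K'}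
    (ha : a ^ 2 = algebraMap F K' τ * a - algebraMap F K' Δ)
    (h1 : v.valuation F (τ / z - 2) ≤ exp (-(M : ℤ)))
    (h2 : v.valuation F (Δ / z ^ 2 - τ / z + 1) ≤ exp (-(M : ℤ)) ^ 2) {x : K'ˣ}
    (hx : (x : K') * (algebraMap F K' τ - a) = a) (m : ℕ) : x ∈ locNorm L v' m := by
  haveI : Fact (Nat.Prime 3) := ⟨Nat.prime_three⟩
  have hζ' : IsPrimitiveRoot (algebraMap F K' ζ) 3 :=
    hζ.map_of_injective (algebraMap F K').injective
  have hM' := deep_above hv hM
  refine (forall_mem_locNorm_iff hζ' hdeg hM').mpr ?_ m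
  apply Subgroup.mem_sup_right
  set e := v.asIdeal.ramificationIdx' v'.asIdeal with he
  have he0 : e ≠ 0 := ramificationIdx'_ne_zero hv
  have hMpos : 0 < M := hM.pos (by norm_num) hζ
  set w := v'.valuation K' with hw
  set r : ℤᵐ⁰ := exp (-(M : ℤ)) ^ e with hr
  have hr1 : r < 1 := by
    apply pow_lt_one₀ zero_le _ he0
    rw [← exp_zero, exp_lt_exp]
    omega
  have hz' : algebraMap F K' z ≠ 0 := by
    rw [Ne, map_eq_zero]
    exact hz
  set ξ : K' := a / algebraMap F K' z - 1 with hξ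
  have hξ2 : ξ ^ 2 = algebraMap F K' (τ / z - 2) * ξ - algebraMap F K' (Δ / z ^ 2 - τ / z + 1) := by
    rw [hξ]
    simp only [map_sub, map_add, map_div₀, map_pow, map_one, map_ofNat]
    field_simp
    linear_combination ha
  have hT : w (algebraMap F K' (τ / z - 2)) ≤ r := by
    rw [hw, valuation_above hv]
    exact pow_le_pow_left₀ zero_le h1 _
  have hD : w (algebraMap F K' (Δ / z ^ 2 - τ / z + 1)) ≤ r ^ 2 := by
    rw [hw, valuation_above hv, hr, ← pow_mul, mul_comm _ 2, pow_mul]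
    exact pow_le_pow_left₀ zero_le h2 _
  have hξr : w ξ ≤ r := root_small hξ2 hT hD
  -- the conjugate
  set η : K' := algebraMap F K' (τ / z - 2) - ξ with hη
  have hηr : w η ≤ r := (Valuation.map_sub _ _ _).trans (max_le hT hξr)
  have hη1 : w (1 + η) = 1 := by
    apply valuation_eq_one_of_sub_one_lt
    have : (1 + η) - 1 = η := by ring
    rw [this]
    exact lt_of_le_of_lt hηr hr1
  have hη0 : 1 + η ≠ 0 := fun h0 => by
    rw [h0, map_zero] at hη1
    exact zero_ne_one hη1
  have e1 : a = algebraMap F K' z * (1 + ξ) := by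
    rw [hξ]
    field_simp
    ring
  have e2 : algebraMap F K' τ - a = algebraMap F K' z * (1 + η) := by
    rw [hη, hξ]
    simp only [map_sub, map_div₀, map_ofNat]
    field_simp
    ring
  have e3 : (x : K') * (1 + η) = 1 + ξ := by
    rw [e2, e1] at hx
    apply mul_left_cancel₀ hz'
    linear_combination hx
  have e4 : ((x : K') - 1) * (1 + η) = ξ - η := by linear_combination e3
  have e5 : w ((x : K') - 1) ≤ r := by
    have := congrArg w e4
    rw [map_mul, hη1, mul_one] at this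
    rw [this]
    exact (Valuation.map_sub _ _ _).trans (max_le hξr hηr)
  rw [mem_congr_of_pos (Nat.mul_pos (Nat.pos_of_ne_zero he0) hMpos)]
  refine e5.trans (le_of_eq ?_)
  rw [hr, ← exp_nsmul]
  congr 1
  push_cast
  rw [nsmul_eq_mul]
  ring

/-- **(LN-unr)** -/
theorem locNorm_of_unram [IsGalois K' L] (hdeg : Module.finrank K' L = 3)
    {v : HeightOneSpectrum (𝓞 F)} {v' : HeightOneSpectrum (𝓞 K')} (hv : v' ∈ above K' v)
    (h3 : v.valuation F (3 : F) = 1) (hns : NonSplit L v')
    (hunr : ∀ W ∈ above L v', v'.asIdeal.ramificationIdx' W.asIdeal = 1)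
    {τ Δ : F} (hΔ : Δ ≠ 0) {a : K'}
    (ha : a ^ 2 = algebraMap F K' τ * a - algebraMap F K' Δ)
    (h : v.valuation F τ ^ 2 ≤ v.valuation F Δ ∨
      ∃ k : ℤ, v.valuation F Δ = exp (3 * k) * v.valuation F τ ^ 2) {x : K'ˣ}
    (hx : (x : K') * (algebraMap F K' τ - a) = a) (m : ℕ) : x ∈ locNorm L v' m := by
  haveI : Fact (Nat.Prime 3) := ⟨Nat.prime_three⟩
  have hζ' : IsPrimitiveRoot (algebraMap F K' ζ) 3 :=
    hζ.map_of_injective (algebraMap F K').injective
  have h3' : v'.valuation K' ((3 : ℕ) : K') = 1 := by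
    have : ((3 : ℕ) : K') = algebraMap F K' 3 := by rw [map_ofNat]; norm_num
    rw [this, valuation_above hv, h3, one_pow]
  refine (forall_mem_locNorm_iff hζ' hdeg (deep_of_not_dvd hζ' h3' one_pos)).mpr ?_ m
  rw [locNorm_eq_of_unramified hζ' hdeg h3' hns hunr]
  set e := v.asIdeal.ramificationIdx' v'.asIdeal with he
  set w := v'.valuation K' with hw
  set b : K' := algebraMap F K' τ - a with hb
  have hab : a * b = algebraMap F K' Δ := by rw [hb]; linear_combination -ha
  have hΔ' : algebraMap F K' Δ ≠ 0 := by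
    rw [Ne, map_eq_zero]
    exact hΔ
  have ha0 : a ≠ 0 := left_ne_zero_of_mul (hab ▸ hΔ')
  have hb0 : b ≠ 0 := right_ne_zero_of_mul (hab ▸ hΔ')
  have hwa : w a ≠ 0 := (Valuation.ne_zero_iff _).mpr ha0
  have hwb : w b ≠ 0 := (Valuation.ne_zero_iff _).mpr hb0
  have hsum : a + b = algebraMap F K' τ := by rw [hb]; ring
  have hwx : w x * w b = w a := by rw [← map_mul, hx]
  have hwΔ : w a * w b = v.valuation F Δ ^ e := by rw [← map_mul, hab, hw, valuation_above hv]
  have hwτ : w (a + b) = v.valuation F τ ^ e := by rw [hsum, hw, valuation_above hv]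
  -- it suffices that the valuation of `x` is a cube
  suffices hk : ∃ n : ℤ, w x = exp (3 * n) by
    obtain ⟨n, hn⟩ := hk
    obtain ⟨π, hπ⟩ := v'.valuation_exists_uniformizer K'
    have hπ0 : π ≠ 0 := by
      rintro rfl
      rw [map_zero] at hπ
      exact (exp_ne_zero hπ.symm)
    rw [Subgroup.mem_sup]
    refine ⟨(Units.mk0 π hπ0 ^ (-n)) ^ 3, ⟨_, rfl⟩, x / (Units.mk0 π hπ0 ^ (-n)) ^ 3, ?_, by simp⟩
    rw [mem_congr_zero]
    push_cast
    rw [map_div₀, map_pow, map_zpow₀]
    have : v'.valuation K' (x : K') = exp (3 * n) := hn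
    rw [this, Units.val_mk0, hπ, ← exp_zsmul, ← exp_nsmul]
    rw [div_eq_one_iff_eq exp_ne_zero]
    congr 1
    simp
  have he3 : ∀ k : ℤ, (exp (3 * k) : ℤᵐ⁰) ^ e = exp (3 * (e * k)) := fun k => by
    rw [← exp_nsmul]
    congr 1
    rw [nsmul_eq_mul]
    ring
  rcases lt_trichotomy (w a) (w b) with hlt | heq | hlt
  · have hs : w (a + b) = w b := Valuation.map_add_eq_of_lt_right _ hlt
    rw [hs] at hwτ
    rcases h with h | ⟨k, h⟩
    · exfalso
      have h4 := pow_le_pow_left₀ zero_le h e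
      rw [← pow_mul, mul_comm 2 e, pow_mul, ← hwτ, ← hwΔ, pow_two] at h4
      exact absurd hlt (not_lt.mpr (le_of_mul_le_mul_right h4 (zero_lt_iff.mpr hwb)))
    · refine ⟨e * k, ?_⟩
      rw [h, mul_pow, he3, ← pow_mul, mul_comm 2 e, pow_mul, ← hwτ, pow_two, ← mul_assoc] at hwΔ
      have h5 := mul_right_cancel₀ hwb hwΔ
      rw [← hwx] at h5
      exact mul_right_cancel₀ hwb h5
  · refine ⟨0, ?_⟩
    rw [heq] at hwx
    have : w x * w b = 1 * w b := by rw [hwx, one_mul]
    rw [mul_right_cancel₀ hwb this, mul_zero, exp_zero]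
  · have hs : w (a + b) = w a := Valuation.map_add_eq_of_lt_left _ hlt
    rw [hs] at hwτ
    rcases h with h | ⟨k, h⟩
    · exfalso
      have h4 := pow_le_pow_left₀ zero_le h e
      rw [← pow_mul, mul_comm 2 e, pow_mul, ← hwτ, ← hwΔ, pow_two] at h4
      exact absurd hlt (not_lt.mpr (le_of_mul_le_mul_left h4 (zero_lt_iff.mpr hwa)))
    · refine ⟨-(e * k), ?_⟩
      rw [h, mul_pow, he3, ← pow_mul, mul_comm 2 e, pow_mul, ← hwτ, pow_two, mul_comm (w a) (w b),
        ← mul_assoc] at hwΔ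
      have h5 := mul_right_cancel₀ hwa hwΔ
      rw [h5, ← mul_assoc] at hwx
      have h6 : w x * exp (3 * (e * k)) * w a = 1 * w a := by rw [hwx, one_mul]
      have h7 := mul_right_cancel₀ hwa h6
      rw [mul_neg, exp_neg]
      exact eq_inv_of_mul_eq_one_left h7

end LocCond

end Fermat.Agent.H20.S47
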