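/-
S47, cubic descent: the norm theorem for elliptic tori of `PGL₂` (Hasse norm theorem).
-/
import Fermat.Agent.H20S7

set_option autoImplicit false
set_option linter.style.haveILetI false
set_option linter.unusedSectionVars false

noncomputable section

open IsDedekindDomain NumberField WithZero Fermat.Agent.H82 Fermat.Agent.H47
open Matrix Polynomial
open scoped MatrixGroups
open Matrix.ProjGenLinGroup (mk mk_surjective)

namespace Fermat.Agent.H20.S47

/-- the Galois group is generated by `σ` -/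
theorem gen_of_aut {K L : Type*} [Field K] [Field L] [Algebra K L] [FiniteDimensional K L]
    (σ : L ≃ₐ[K] L) (h3 : ∀ x, σ (σ (σ x)) = x) (hne : σ ≠ AlgEquiv.refl)
    (hfix : ∀ x, σ x = x → x ∈ Set.range (algebraMap K L)) (τ : L ≃ₐ[K] L) :
    ∃ n : ℕ, τ = σ ^ n := by
  obtain ⟨hgal, hfr, -⟩ := cyc_of_aut σ h3 hne hfix
  have hp3 : σ ^ 3 = 1 := by
    ext x
    exact h3 x
  have hne' : σ ≠ 1 := hne
  have hord : orderOf σ = 3 := by
    haveI : Fact (Nat.Prime 3) := ⟨Nat.prime_three⟩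
    exact orderOf_eq_prime hp3 hne'
  have hcard : Nat.card (Subgroup.zpowers σ) = Nat.card (L ≃ₐ[K] L) := by
    rw [Nat.card_zpowers, hord, IsGalois.card_aut_eq_finrank, hfr]
  have htop : Subgroup.zpowers σ = ⊤ := Subgroup.eq_top_of_card_eq _ hcard
  have hτ : τ ∈ Subgroup.zpowers σ := by rw [htop]; exact Subgroup.mem_top _
  rw [← mem_powers_iff_mem_zpowers] at hτ
  obtain ⟨n, hn⟩ := hτ
  exact ⟨n, hn.symm⟩

section Algebraic

variable {F E : Type*} [Field F] [Field E] [Algebra F E] [FiniteDimensional F E] {s : E ≃ₐ[F] E}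

theorem sM_toM {τ Δ : F} (c : Matrix (Fin 2) (Fin 2) F) (hτ : (inc c : Matrix _ _ E).trace =
    algebraMap F E τ) (hΔ : (inc c : Matrix _ _ E).det = algebraMap F E Δ) (z : QE E τ Δ) :
    sM s (toM (inc c) hτ hΔ z) = toM (inc c) hτ hΔ (sQ s τ Δ z) := by
  obtain ⟨x, y, rfl⟩ := exists_lin_qf z
  rw [sQ_lin, toM_lin, toM_lin, sM_lin]

theorem inc_lin (c : Matrix (Fin 2) (Fin 2) F) (a b : F) :
    (inc (lin c a b) : Matrix (Fin 2) (Fin 2) E) =
      lin (inc c) (algebraMap F E a) (algebraMap F E b) := by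
  ext i j
  rw [inc_apply, lin, lin]
  simp only [Matrix.add_apply, Matrix.smul_apply, smul_eq_mul, map_add, map_mul, inc_apply]
  congr 2
  rw [Matrix.one_apply, Matrix.one_apply]
  split_ifs <;> simp

/-- from the ratio to the element -/
theorem ratio_norm {K' L : Type*} [Field K'] [Field L] [Algebra K' L] [FiniteDimensional K' L]
    (hfr : Module.finrank K' L = 3) {a b D : K'} (hD : D ≠ 0) (hab : a * b = D) {u : L}
    (hu : Algebra.norm K' u * b = a) : ∃ t : L, t ≠ 0 ∧ Algebra.norm K' t = a * D⁻¹ ^ 2 := by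
  have ha0 : a ≠ 0 := left_ne_zero_of_mul (hab ▸ hD)
  have hb0 : b ≠ 0 := right_ne_zero_of_mul (hab ▸ hD)
  have hu0 : u ≠ 0 := by
    rintro rfl
    rw [Algebra.norm_zero, zero_mul] at hu
    exact ha0 hu.symm
  have haL0 : algebraMap K' L a ≠ 0 := by
    rw [Ne, map_eq_zero]
    exact ha0
  refine ⟨u ^ 2 * (algebraMap K' L a)⁻¹, mul_ne_zero (pow_ne_zero _ hu0) (inv_ne_zero haL0), ?_⟩
  have h1 : Algebra.norm K' (algebraMap K' L a) = a ^ 3 := by
    rw [Algebra.norm_algebraMap, hfr]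
  have h2 : Algebra.norm K' (u ^ 2 * (algebraMap K' L a)⁻¹) * a ^ 3 = Algebra.norm K' u ^ 2 := by
    rw [← h1, ← map_mul, mul_assoc, inv_mul_cancel₀ haL0, mul_one, map_pow]
  have h3' : Algebra.norm K' u ^ 2 * b ^ 2 = a ^ 2 := by
    rw [← mul_pow, hu]
  have h5 : Algebra.norm K' (u ^ 2 * (algebraMap K' L a)⁻¹) * D ^ 2 * a = a * a := by
    rw [← hab]
    linear_combination b ^ 2 * h2 + h3'
  have h6 := mul_right_cancel₀ ha0 h5
  rw [inv_pow]
  exact (eq_mul_inv_iff_mul_eq₀ (pow_ne_zero _ hD)).mpr h6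

/-- if the ratio of the eigenvalues is a norm then the matrix is a norm up to scalars -/
theorem exists_nm_of_ratio (h3 : ∀ x, s (s (s x)) = x) (hs : s ≠ AlgEquiv.refl)
    (hfix : ∀ x, s x = x → x ∈ Set.range (algebraMap F E))
    {c : Matrix (Fin 2) (Fin 2) F} (hc : c.det ≠ 0)
    [Fact (Irreducible (qpol c.trace c.det))]
    [Fact (Irreducible (qpol (algebraMap F E c.trace) (algebraMap F E c.det)))]
    {u : QE E c.trace c.det} (hu : Algebra.norm (QF c.trace c.det) u *
      (algebraMap F (QF c.trace c.det) c.trace - rt _ _) = rt _ _) :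
    ∃ x y : E, (lin (inc c) x y).det ≠ 0 ∧
      nm s (lin (inc c) x y) = algebraMap F E (c.det⁻¹ ^ 2) • inc c := by
  obtain ⟨hgal, hfr, hnorm⟩ := cycQ (τ := c.trace) (Δ := c.det) h3 hs hfix
  have ha2 := rt_sq c.trace c.det
  have hdet : algebraMap F (QF c.trace c.det) c.det ≠ 0 := by
    rw [Ne, map_eq_zero]
    exact hc
  obtain ⟨t, ht0, hnt⟩ := ratio_norm hfr hdet (by linear_combination -ha2) hu
  have hτ : (inc c : Matrix _ _ E).trace = algebraMap F E c.trace := trace_inc c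
  have hΔ : (inc c : Matrix _ _ E).det = algebraMap F E c.det := det_inc c
  obtain ⟨x, y, hxy⟩ := exists_lin_qf t
  refine ⟨x, y, ?_, ?_⟩
  · -- determinant
    have h1 : toM (inc c) hτ hΔ t * toM (inc c) hτ hΔ t⁻¹ = 1 := by
      rw [← map_mul, mul_inv_cancel₀ ht0, map_one]
    have h2 := congrArg Matrix.det h1
    rw [Matrix.det_mul, Matrix.det_one] at h2
    have h3' := left_ne_zero_of_mul (h2 ▸ one_ne_zero)
    rw [hxy, toM_lin] at h3'
    exact h3'
  · have h1 := hnorm t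
    have h2 := congrArg (toM (inc c) hτ hΔ) h1
    rw [map_mul, map_mul, ← sM_toM, ← sM_toM, ← sM_toM] at h2
    have h3' : toM (inc c) hτ hΔ t = lin (inc c) x y := by rw [hxy, toM_lin]
    rw [h3'] at h2
    rw [nm, ← h2, hnt, ← map_inv₀, ← map_pow, map_mul, map_mul, mapFE_algebraMap, mapFE_rt, toM_rt,
      toM_of, mul_smul_comm, mul_one]

end Algebraic

section Final

variable {F E : Type} [Field F] [NumberField F] [Field E] [NumberField E] [Algebra F E]
  {s : E ≃ₐ[F] E}

variable (E) in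
/-- **The local norm condition at `v`** for elements of trace `τ` and determinant `Δ` -/
def LocOK (ζ : F) (v : HeightOneSpectrum (𝓞 F)) (τ Δ : F) : Prop :=
  (v.valuation F (3 : F) = 1 ∧ (∀ w ∈ above E v, v.asIdeal.ramificationIdx' w.asIdeal = 1) ∧
    (v.valuation F τ ^ 2 ≤ v.valuation F Δ ∨
      ∃ k : ℤ, v.valuation F Δ = exp (3 * k) * v.valuation F τ ^ 2)) ∨
  ∃ M : ℕ, Deep ζ 3 v M ∧ ∃ z : F, z ≠ 0 ∧ v.valuation F (τ / z - 2) ≤ exp (-(M : ℤ)) ∧
    v.valuation F (Δ / z ^ 2 - τ / z + 1) ≤ exp (-(M : ℤ)) ^ 2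

/-- **The norm theorem for elliptic tori** (matrix form) -/
theorem exists_nm {ζ : F} (hζ : IsPrimitiveRoot ζ 3) [IsTotallyComplex F]
    (h3 : ∀ x, s (s (s x)) = x) (hs : s ≠ AlgEquiv.refl)
    (hfix : ∀ x, s x = x → x ∈ Set.range (algebraMap F E))
    {c : Matrix (Fin 2) (Fin 2) F} (hc : c.det ≠ 0) (hell : Ell c)
    (hloc : ∀ v, NonSplit E v → LocOK E ζ v c.trace c.det) :
    ∃ x y : E, (lin (inc c) x y).det ≠ 0 ∧
      nm s (lin (inc c) x y) = algebraMap F E (c.det⁻¹ ^ 2) • inc c := by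
  haveI : Fact (Nat.Prime 3) := ⟨Nat.prime_three⟩
  haveI i1 : Fact (Irreducible (qpol c.trace c.det)) := ⟨qpol_irreducible hell⟩
  have hellE : Ell (inc c : Matrix _ _ E) := hell.inc h3 hfix
  haveI i2 : Fact (Irreducible (qpol (algebraMap F E c.trace) (algebraMap F E c.det))) := by
    refine ⟨qpol_irreducible fun x => ?_⟩
    rw [← trace_inc, ← det_inc]
    exact hellE x
  haveI : FiniteDimensional F E := Module.Finite.of_restrictScalars_finite ℚ F E
  obtain ⟨hgalE, hfrE, -⟩ := cyc_of_aut s h3 hs hfix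
  obtain ⟨hgal, hfr, hnorm⟩ := cycQ (τ := c.trace) (Δ := c.det) h3 hs hfix
  haveI n1 : NumberField (QF c.trace c.det) := NumberField.of_module_finite F _
  haveI n2 : NumberField (QE E c.trace c.det) := NumberField.of_module_finite E _
  haveI : IsTotallyComplex (QF c.trace c.det) := isTotallyComplex_of_algebra F _
  haveI : Algebra.IsQuadraticExtension E (QE E c.trace c.det) := ⟨finrank_qf _ _⟩
  have hζ' : IsPrimitiveRoot (algebraMap F (QF c.trace c.det) ζ) 3 :=
    hζ.map_of_injective (algebraMap F (QF c.trace c.det)).injective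
  -- the ratio
  have ha2 := rt_sq c.trace c.det
  have hdet : algebraMap F (QF c.trace c.det) c.det ≠ 0 := by
    rw [Ne, map_eq_zero]
    exact hc
  have hab : rt c.trace c.det * (algebraMap F (QF c.trace c.det) c.trace - rt c.trace c.det) =
      algebraMap F (QF c.trace c.det) c.det := by linear_combination -ha2
  have ha0 := left_ne_zero_of_mul (hab ▸ hdet)
  have hb0 := right_ne_zero_of_mul (hab ▸ hdet)
  have hx : ∀ m v', NonSplit (QE E c.trace c.det) v' →
      (Units.mk0 _ ha0 / Units.mk0 _ hb0 : (QF c.trace c.det)ˣ) ∈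
        locNorm (QE E c.trace c.det) v' m := by
    intro m v' hv'
    have hns := nonSplit_below (F := F) (E := E) s (gen_of_aut s h3 hs hfix)
      (sQE s h3 c.trace c.det) (fun x => sQ_algebraMap s c.trace c.det x) v' hv'
    have hxx : ((Units.mk0 _ ha0 / Units.mk0 _ hb0 : (QF c.trace c.det)ˣ) : QF c.trace c.det) *
        (algebraMap F (QF c.trace c.det) c.trace - rt c.trace c.det) = rt c.trace c.det := by
      rw [Units.val_div_eq_div_val, Units.val_mk0, Units.val_mk0, div_mul_cancel₀ _ hb0]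
    rcases hloc _ hns with ⟨h1, h2, h4⟩ | ⟨M, hM, z, hz, h1, h2⟩
    · exact locNorm_of_unram hζ hfr (mem_above_below (K := F) v') h1 hv'
        (unram_base_change (F := F) (E := E) (finrank_qf _ _) hfr h2) hc ha2 h4 hxx m
    · exact locNorm_of_deep hζ hfr (mem_above_below (K := F) v') hM hz ha2 h1 h2 hxx m
  obtain ⟨u, hu⟩ := H54T.hasse_norm hζ' hfr (Units.mk0 _ ha0 / Units.mk0 _ hb0)
    (fun v' hv' m => hx m v' hv')
  refine exists_nm_of_ratio h3 hs hfix hc (u := u) ?_
  have hu' := congrArg (fun z : (QF c.trace c.det)ˣ => (z : QF c.trace c.det)) hu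
  simp only [Units.coe_map, Units.val_div_eq_div_val, Units.val_mk0] at hu'
  have hu2 : Algebra.norm (QF c.trace c.det) (u : QE E c.trace c.det) = rt c.trace c.det /
    (algebraMap F (QF c.trace c.det) c.trace - rt c.trace c.det) := hu'
  rw [hu2, div_mul_cancel₀ _ hb0]

/-- the local condition is invariant under scalars -/
theorem LocOK.smul {ζ : F} {v : HeightOneSpectrum (𝓞 F)} {τ Δ : F} (h : LocOK E ζ v τ Δ) {z : F}
    (hz : z ≠ 0) : LocOK E ζ v (z * τ) (z ^ 2 * Δ) := by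
  have hvz : v.valuation F z ≠ 0 := (Valuation.ne_zero_iff _).mpr hz
  rcases h with ⟨h1, h2, h3⟩ | ⟨M, hM, y, hy, h1, h2⟩
  · refine Or.inl ⟨h1, h2, ?_⟩
    rw [map_mul, map_mul, map_pow, mul_pow]
    rcases h3 with h3 | ⟨k, hk⟩
    · exact Or.inl (mul_le_mul_right h3 _)
    · refine Or.inr ⟨k, ?_⟩
      rw [hk, mul_left_comm]
  · refine Or.inr ⟨M, hM, z * y, mul_ne_zero hz hy, ?_, ?_⟩
    · rw [mul_div_mul_left _ _ hz]
      exact h1
    · rw [mul_div_mul_left _ _ hz, mul_pow, mul_div_mul_left _ _ (pow_ne_zero 2 hz)]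
      exact h2

variable (E) in
/-- **The local norm condition at `v`** for elements of `PGL₂(F)`: some conjugate has a lift
whose trace and determinant satisfy `LocOK`. -/
def LocOKP (ζ : F) (v : HeightOneSpectrum (𝓞 F)) (γ : PGL(2, F)) : Prop :=
  ∃ (y : PGL(2, F)) (g : GL (Fin 2) F), mk g = y⁻¹ * γ * y ∧
    LocOK E ζ v (g : Matrix (Fin 2) (Fin 2) F).trace (g : Matrix (Fin 2) (Fin 2) F).det

/-- the condition for one lift of one conjugate gives it for all -/
theorem LocOKP.lift {ζ : F} {v : HeightOneSpectrum (𝓞 F)} {γ : PGL(2, F)} (h : LocOKP E ζ v γ)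
    {g : GL (Fin 2) F} (hg : mk g = γ) :
    LocOK E ζ v (g : Matrix (Fin 2) (Fin 2) F).trace (g : Matrix (Fin 2) (Fin 2) F).det := by
  obtain ⟨y, g', hg', hloc⟩ := h
  obtain ⟨k, rfl⟩ := mk_surjective y
  rw [← hg, ← map_inv, ← map_mul, ← map_mul] at hg'
  obtain ⟨z, hz, hzz⟩ := mk_eq_iff.mp hg'
  have hk := det_ne_zero k
  have h1 : (k⁻¹ * g * k : GL (Fin 2) F) = (k⁻¹ * g * k) := rfl
  have htr : ((k⁻¹ * g * k : GL (Fin 2) F) : Matrix (Fin 2) (Fin 2) F).trace =
      (g : Matrix (Fin 2) (Fin 2) F).trace := by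
    rw [Units.val_mul, Matrix.trace_mul_comm, ← Units.val_mul, ← mul_assoc, mul_inv_cancel,
      one_mul]
  have hdt : ((k⁻¹ * g * k : GL (Fin 2) F) : Matrix (Fin 2) (Fin 2) F).det =
      (g : Matrix (Fin 2) (Fin 2) F).det := by
    rw [Units.val_mul, Matrix.det_mul, mul_comm, ← Matrix.det_mul, ← Units.val_mul, ← mul_assoc,
      mul_inv_cancel, one_mul]
  have h2 := congrArg Matrix.trace hzz
  have h3 := congrArg Matrix.det hzz
  rw [htr, Matrix.trace_smul, smul_eq_mul] at h2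
  rw [hdt, Matrix.det_smul, Fintype.card_fin] at h3
  rw [h2, h3]
  exact hloc.smul hz

/-- **The norm theorem for elliptic elements of `PGL₂`** -/
theorem exists_norm {ζ : F} (hζ : IsPrimitiveRoot ζ 3) [IsTotallyComplex F]
    (h3 : ∀ x, s (s (s x)) = x) (hs : s ≠ AlgEquiv.refl)
    (hfix : ∀ x, s x = x → x ∈ Set.range (algebraMap F E))
    {γ : PGL(2, F)} (hγ : EllReg γ) (hloc : ∀ v, NonSplit E v → LocOKP E ζ v γ) :
    ∃ δ : PGL(2, E), nP s δ = incP E γ ∧
      ∀ t : PGL(2, F), t * γ = γ * t → δ * incP E t = incP E t * δ := by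
  obtain ⟨g, hg⟩ := mk_surjective γ
  obtain ⟨hell, htr⟩ := hγ.lift hg
  have hdet := det_ne_zero g
  obtain ⟨x, y, hxy, hn⟩ := exists_nm hζ h3 hs hfix hdet hell (fun v hv => (hloc v hv).lift hg)
  refine ⟨mk (toGL _ hxy), ?_, ?_⟩
  · rw [nP_mk, ← hg, incP_mk]
    rw [mk_eq_iff]
    have hd : algebraMap F E ((g : Matrix (Fin 2) (Fin 2) F).det ^ 2) ≠ 0 := by
      rw [Ne, map_eq_zero]
      exact pow_ne_zero _ hdet
    refine ⟨algebraMap F E ((g : Matrix (Fin 2) (Fin 2) F).det ^ 2), hd, ?_⟩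
    rw [val_nG, val_map_inc, toGL_val, hn, smul_smul, ← map_mul, ← mul_pow,
      mul_inv_cancel₀ hdet, one_pow, map_one, one_smul]
  · intro t ht
    obtain ⟨k, hk⟩ := mk_surjective t
    obtain ⟨a, b, hab⟩ := exists_lin_of_commute hγ ht hg hk
    rw [← hk, incP_mk, ← map_mul, ← map_mul]
    congr 1
    apply Units.ext
    rw [Units.val_mul, Units.val_mul, toGL_val, val_map_inc, hab, inc_lin]
    exact lin_comm _ _ _ _ _

/-! ### Convenient sufficient conditions -/

/-- integral matrices with unit determinant at an unramified place -/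
theorem locOK_of_integral {ζ : F} {v : HeightOneSpectrum (𝓞 F)} (h3 : v.valuation F (3 : F) = 1)
    (hunr : ∀ w ∈ above E v, v.asIdeal.ramificationIdx' w.asIdeal = 1)
    {g : Matrix (Fin 2) (Fin 2) F} (hg : ∀ i j, v.valuation F (g i j) ≤ 1)
    (hdet : v.valuation F g.det = 1) : LocOK E ζ v g.trace g.det := by
  refine Or.inl ⟨h3, hunr, Or.inl ?_⟩
  rw [hdet]
  apply pow_le_one₀ zero_le
  rw [Matrix.trace_fin_two]
  exact (Valuation.map_add _ _ _).trans (max_le (hg 0 0) (hg 1 1))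

/-- the double cosets `I diag(π^{3k}, 1) I` modulo scalars, at an unramified place -/
theorem locOK_of_cell {ζ : F} {v : HeightOneSpectrum (𝓞 F)} (h3 : v.valuation F (3 : F) = 1)
    (hunr : ∀ w ∈ above E v, v.asIdeal.ramificationIdx' w.asIdeal = 1)
    {g : Matrix (Fin 2) (Fin 2) F} {k : ℤ}
    (h01 : v.valuation F (g 0 1) ≤ v.valuation F (g 1 1))
    (h10 : v.valuation F (g 1 0) < v.valuation F (g 1 1))
    (hdet : v.valuation F g.det = exp (3 * k) * v.valuation F (g 1 1) ^ 2) (hk : k < 0) :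
    LocOK E ζ v g.trace g.det := by
  refine Or.inl ⟨h3, hunr, Or.inr ⟨k, ?_⟩⟩
  rw [hdet]
  congr 2
  -- `v (g 0 0) < v (g 1 1)`
  have h11 : 0 < v.valuation F (g 1 1) := lt_of_le_of_lt zero_le h10
  have hprod : v.valuation F (g 0 1 * g 1 0) < v.valuation F (g 1 1) ^ 2 := by
    rw [map_mul, pow_two]
    exact lt_of_le_of_lt (mul_le_mul_left h01 _)
      (mul_lt_mul_of_pos_left h10 h11)
  have hd : v.valuation F g.det < v.valuation F (g 1 1) ^ 2 := by
    rw [hdet]
    have h1 : (exp (3 * k) : ℤᵐ⁰) < 1 := by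
      rw [← exp_zero, exp_lt_exp]
      omega
    calc (exp (3 * k) : ℤᵐ⁰) * v.valuation F (g 1 1) ^ 2 < 1 * v.valuation F (g 1 1) ^ 2 :=
          mul_lt_mul_of_pos_right h1 (pow_pos h11 2)
      _ = _ := one_mul _
  have h00 : v.valuation F (g 0 0) < v.valuation F (g 1 1) := by
    have h1 : v.valuation F (g 0 0 * g 1 1) < v.valuation F (g 1 1) ^ 2 := by
      have : g 0 0 * g 1 1 = g.det + g 0 1 * g 1 0 := by rw [Matrix.det_fin_two]; ring
      rw [this]
      exact lt_of_le_of_lt (Valuation.map_add _ _ _) (max_lt hd hprod)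
    rw [map_mul, pow_two] at h1
    exact lt_of_mul_lt_mul_right h1 zero_le
  rw [Matrix.trace_fin_two]
  exact (Valuation.map_add_eq_of_lt_right _ h00).symm

/-- scalar multiples of matrices deep in the congruence filtration, at any place -/
theorem locOK_of_deep {ζ : F} {v : HeightOneSpectrum (𝓞 F)} {M : ℕ} (hM : Deep ζ 3 v M)
    {z : F} (hz : z ≠ 0) {x : Matrix (Fin 2) (Fin 2) F}
    (hx : ∀ i j, v.valuation F (x i j) ≤ exp (-(M : ℤ))) :
    LocOK E ζ v (z • (1 + x)).trace (z • (1 + x)).det := by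
  refine Or.inr ⟨M, hM, z, hz, ?_, ?_⟩
  · have : (z • (1 + x)).trace / z - 2 = x 0 0 + x 1 1 := by
      rw [Matrix.trace_fin_two]
      simp only [Matrix.smul_apply, Matrix.add_apply, Matrix.one_apply_eq, smul_eq_mul]
      field_simp
      ring
    rw [this]
    exact (Valuation.map_add _ _ _).trans (max_le (hx 0 0) (hx 1 1))
  · have : (z • (1 + x)).det / z ^ 2 - (z • (1 + x)).trace / z + 1 =
        x 0 0 * x 1 1 - x 0 1 * x 1 0 := by
      rw [Matrix.trace_fin_two, Matrix.det_fin_two]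
      simp only [Matrix.smul_apply, Matrix.add_apply, Matrix.one_apply_eq, smul_eq_mul, ne_eq,
        Fin.isValue, zero_ne_one, not_false_eq_true, one_ne_zero, Matrix.one_apply_ne, zero_add]
      field_simp
      ring
    rw [this, pow_two]
    refine (Valuation.map_sub _ _ _).trans (max_le ?_ ?_)
    · rw [map_mul]
      exact mul_le_mul' (hx 0 0) (hx 1 1)
    · rw [map_mul]
      exact mul_le_mul' (hx 0 1) (hx 1 0)

/-- away from `3` every positive level is deep -/
theorem deep_away {ζ : F} (hζ : IsPrimitiveRoot ζ 3) {v : HeightOneSpectrum (𝓞 F)}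
    (h3 : v.valuation F (3 : F) = 1) {M : ℕ} (hM : 0 < M) : Deep ζ 3 v M := by
  haveI : Fact (Nat.Prime 3) := ⟨Nat.prime_three⟩
  exact deep_of_not_dvd hζ (by exact_mod_cast h3) hM

end Final

end Fermat.Agent.H20.S47
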