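import Fermat.Agent.H6ZExcl

/-!
# S47, C17-EXCL: no contributing class fixes a line (global statement)
-/

set_option autoImplicit false

namespace Fermat.Agent.H6.Z

open Matrix NumberField IsDedekindDomain WithZero
open Fermat.Agent.H59XF Fermat.Agent.H59D
open scoped MatrixGroups NNReal

variable {K : Type*} [Field K] [NumberField K] {J : Type*} [Fintype J] {m : Model K J}
  (a : AutData m)

/-! ## The archimedean part -/

theorem y_upper (g : GL (Fin 2) ℂ) (hg : g 1 0 = 0) (w : H3) :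
    (g • w).y = ‖g 0 0 / g 1 1‖ * w.y := by
  have hg' : g.val 1 0 = 0 := hg
  have hdet : g.val.det ≠ 0 := g.det.ne_zero
  have hd : g.val.det = g.val 0 0 * g.val 1 1 := by
    rw [Matrix.det_fin_two, hg']; ring
  have h1 : g.val 1 1 ≠ 0 := by
    rw [hd] at hdet
    exact right_ne_zero_of_mul hdet
  rw [H3.smul_y, H3.den, hd, hg', zero_mul, zero_add, map_zero, zero_mul, add_zero,
    Complex.normSq_eq_norm_sq, norm_mul, norm_div]
  have h2 : ‖g.val 1 1‖ ≠ 0 := norm_ne_zero_iff.2 h1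
  field_simp

theorem y_le_ch (w w' : H3) : w.y ≤ 2 * H3.ch w w' * w'.y := by
  have h1 := w.pos
  have h2 := w'.pos
  have h3 : 2 * H3.ch w w' * w'.y = (Complex.normSq (w.z - w'.z) + w.y ^ 2 + w'.y ^ 2) / w.y := by
    rw [H3.ch]; field_simp
  rw [h3, le_div_iff₀ h1]
  nlinarith [Complex.normSq_nonneg (w.z - w'.z), sq_nonneg w'.y]

theorem arch_bound (R : ℝ) (x : m.X) (b : GL (Fin 2) K) (hb : b 1 0 = 0)
    (hx : ∀ j, H3.ch (x.1 j) (((ProjGenLinGroup.mk b : PGL(2, K)) • a.act x).1 j) ≤ R) :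
    1 ≤ (2 * R.toNNReal) ^ Fintype.card J * (∏ j, ‖m.e j (b 1 1 / b 0 0)‖₊)⁻¹ ∧
      1 ≤ (2 * R.toNNReal) ^ Fintype.card J * ∏ j, ‖m.e j (b 1 1 / b 0 0)‖₊ := by
  classical
  set t : K := b 1 1 / b 0 0 with ht
  have hdet : b.val.det = b 0 0 * b 1 1 := by
    rw [Matrix.det_fin_two]
    have : b.val 1 0 = 0 := hb
    rw [this]; ring
  have hdet0 : b 0 0 * b 1 1 ≠ 0 := by
    rw [← hdet]
    exact b.det.ne_zero
  have ht0 : t ≠ 0 := div_ne_zero (right_ne_zero_of_mul hdet0) (left_ne_zero_of_mul hdet0)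
  have hq0 : ∀ j, ‖m.e j t‖₊ ≠ 0 := fun j => by
    rw [Ne, nnnorm_eq_zero]
    exact (map_ne_zero _).2 ht0
  set f₁ : J → ℝ≥0 := fun j => ⟨(x.1 j).y, (x.1 j).pos.le⟩ with hf₁
  set f₂ : J → ℝ≥0 := fun j => ⟨((a.act x).1 j).y, ((a.act x).1 j).pos.le⟩ with hf₂
  have hy : ∀ j, (((ProjGenLinGroup.mk b : PGL(2, K)) • a.act x).1 j).y =
      ‖m.e j t‖⁻¹ * ((a.act x).1 j).y := by
    intro j
    have e1 : ((ProjGenLinGroup.mk b : PGL(2, K)) • a.act x).1 j =
        GeneralLinearGroup.map (m.e j) b • ((a.act x).1 j) := rfl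
    rw [e1, y_upper]
    · have e2 : (GeneralLinearGroup.map (m.e j) b : GL (Fin 2) ℂ) 0 0 /
          (GeneralLinearGroup.map (m.e j) b : GL (Fin 2) ℂ) 1 1 = (m.e j t)⁻¹ := by
        show m.e j (b 0 0) / m.e j (b 1 1) = _
        rw [ht, map_div₀, inv_div]
      rw [e2, norm_inv]
    · show m.e j (b 1 0) = 0
      rw [hb, map_zero]
  have hR : R ≤ (R.toNNReal : ℝ) := Real.le_coe_toNNReal R
  have h1 : ∀ j, f₁ j ≤ (2 * R.toNNReal) * ‖m.e j t‖₊⁻¹ * f₂ j := by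
    intro j
    rw [← NNReal.coe_le_coe]
    push_cast
    show (x.1 j).y ≤ 2 * (R.toNNReal : ℝ) * ‖m.e j t‖⁻¹ * ((a.act x).1 j).y
    rw [mul_assoc, ← hy j]
    have h2 := (hx j).trans hR
    have h3 := (((ProjGenLinGroup.mk b : PGL(2, K)) • a.act x).1 j).pos
    exact (y_le_ch (x.1 j) (((ProjGenLinGroup.mk b : PGL(2, K)) • a.act x).1 j)).trans
      (mul_le_mul_of_nonneg_right (by linarith) h3.le)
  have h2 : ∀ j, ‖m.e j t‖₊⁻¹ * f₂ j ≤ (2 * R.toNNReal) * f₁ j := by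
    intro j
    rw [← NNReal.coe_le_coe]
    push_cast
    show ‖m.e j t‖⁻¹ * ((a.act x).1 j).y ≤ 2 * (R.toNNReal : ℝ) * (x.1 j).y
    rw [← hy j]
    have h2 := (hx j).trans hR
    rw [H3.ch_comm] at h2
    exact (y_le_ch (((ProjGenLinGroup.mk b : PGL(2, K)) • a.act x).1 j) (x.1 j)).trans
      (mul_le_mul_of_nonneg_right (by linarith) (x.1 j).pos.le)
  have h3 : ∀ j, f₂ (a.c j) = f₁ j := by
    intro j
    rw [hf₁, hf₂]
    dsimp only
    congr 1
    rw [AutData.act_fst, AutData.actInf_apply_c]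
  have hf₁0 : ∀ j, f₁ j ≠ 0 := by
    intro j h
    have := congrArg NNReal.toReal h
    exact (x.1 j).pos.ne' this
  have hf₂0 : ∀ j, f₂ j ≠ 0 := by
    intro j h
    have := congrArg NNReal.toReal h
    exact ((a.act x).1 j).pos.ne' this
  have fin : ∀ f : J → ℝ≥0, {j | f j ≠ 1}.Finite := fun f => Set.toFinite _
  have g1 := finprod_ineq (D := fun _ => 2 * R.toNNReal) (E := fun _ => 1) a.c (fin f₁) (fin f₂)
    (fin fun j => ‖m.e j t‖₊⁻¹) (fin _) (fin _) hf₁0 h1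
    (fun j => by rw [h3, one_mul])
  have g2 := finprod_ineq (D := fun _ => 2 * R.toNNReal) (E := fun _ => 1) a.c
    (f₁ := fun j => (f₁ j)⁻¹) (f₂ := fun j => (f₂ j)⁻¹) (fin _) (fin _)
    (fin fun j => ‖m.e j t‖₊) (fin _) (fin _) (fun j => inv_ne_zero (hf₁0 j))
    (fun j => by
      have := inv_le_aux (mul_ne_zero (inv_ne_zero (hq0 j)) (hf₂0 j)) (hf₁0 j) (h2 j)
      rwa [mul_inv, inv_inv, ← mul_assoc] at this)
    (fun j => by rw [h3, one_mul])
  simp only [finprod_eq_prod_of_fintype, Finset.prod_const, Finset.card_univ, one_pow, mul_one]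
    at g1 g2
  rw [Finset.prod_inv_distrib] at g1
  exact ⟨g1, g2⟩

theorem prod_infinite (m : Model K J) (t : K) :
    ∏ w : InfinitePlace K, w t ^ w.mult = (((∏ j, ‖m.e j t‖₊) ^ 2 : ℝ≥0) : ℝ) := by
  rw [← m.e_bij.prod_comp (fun w : InfinitePlace K => w t ^ w.mult), ← Finset.prod_pow]
  push_cast
  refine Finset.prod_congr rfl fun j _ => ?_
  have h1 : (InfinitePlace.mk (m.e j)).IsComplex := InfinitePlace.isComplex_mk_iff.2 (m.e_cx j)
  have h2 : (InfinitePlace.mk (m.e j)).mult = 2 := by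
    rw [InfinitePlace.mult, if_neg (InfinitePlace.not_isReal_iff_isComplex.2 h1)]
  rw [h2, InfinitePlace.apply]

/-- **Bounded displacement**, upper triangular case. -/
theorem upper_bound {w₀ : HeightOneSpectrum (𝓞 K)} (h₀ : a.σ w₀ = w₀) (A : GlobKer m.L.fam)
    (R : ℝ) : ∃ C : ℝ≥0, ∀ (x : m.X) (b : GL (Fin 2) K), b 1 0 = 0 →
      (∀ j, H3.ch (x.1 j) (((ProjGenLinGroup.mk b : PGL(2, K)) • a.act x).1 j) ≤ R) →
      (∀ w ≠ w₀, (A.loc w).k (x.2 w)
        (((ProjGenLinGroup.mk b : PGL(2, K)) • a.act x).2 w) ≠ 0) →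
      nv w₀ (b 1 1 / b 0 0) ≤ C ∧ 1 ≤ C * nv w₀ (b 1 1 / b 0 0) := by
  obtain ⟨C, hC, h⟩ := fin_bound a h₀ A
  set M : ℝ≥0 := (2 * R.toNNReal) ^ Fintype.card J with hM
  refine ⟨C * M ^ 2, ?_⟩
  intro x b hb hxi hxf
  obtain ⟨h1, h2⟩ := h x b hb hxf _ rfl
  obtain ⟨h3, h4⟩ := arch_bound a R x b hb hxi
  set t : K := b 1 1 / b 0 0 with ht
  have hdet : b.val.det = b 0 0 * b 1 1 := by
    rw [Matrix.det_fin_two]
    have : b.val 1 0 = 0 := hb
    rw [this]; ring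
  have hdet0 : b 0 0 * b 1 1 ≠ 0 := by
    rw [← hdet]
    exact b.det.ne_zero
  have ht0 : t ≠ 0 := div_ne_zero (right_ne_zero_of_mul hdet0) (left_ne_zero_of_mul hdet0)
  set Q : ℝ≥0 := ∏ j, ‖m.e j t‖₊ with hQ
  set P : ℝ≥0 := ∏ᶠ w, nv w t with hP
  rw [← hM] at h3 h4
  have hQ0 : Q ≠ 0 := by
    rw [hQ]
    refine Finset.prod_ne_zero_iff.2 fun j _ => ?_
    rw [Ne, nnnorm_eq_zero]
    exact (map_ne_zero _).2 ht0
  have hprod : Q ^ 2 * P = 1 := by
    have := prod_nv ht0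
    rw [prod_infinite m t, ← hQ, ← hP] at this
    exact_mod_cast this
  have h5 : P ≤ M ^ 2 := by
    calc P = 1 ^ 2 * P := by ring
      _ ≤ (M * Q) ^ 2 * P := mul_le_mul' (pow_le_pow_left' h4 2) le_rfl
      _ = M ^ 2 * (Q ^ 2 * P) := by ring
      _ = M ^ 2 := by rw [hprod, mul_one]
  have h6 : 1 ≤ M ^ 2 * P := by
    have h7 : Q ≤ M := by
      rw [← div_eq_mul_inv, le_div_iff₀ (pos_iff_ne_zero.2 hQ0), one_mul] at h3
      exact h3
    calc (1 : ℝ≥0) = Q ^ 2 * P := hprod.symm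
      _ ≤ M ^ 2 * P := mul_le_mul' (pow_le_pow_left' h7 2) le_rfl
  constructor
  · exact h1.trans (mul_le_mul' le_rfl h5)
  · calc (1 : ℝ≥0) ≤ M ^ 2 * P := h6
      _ ≤ M ^ 2 * (C * nv w₀ t) := mul_le_mul' le_rfl h2
      _ = _ := by ring

omit [NumberField K] in
theorem exists_first_col {u : Fin 2 → K} (hu : u ≠ 0) :
    ∃ h : GL (Fin 2) K, ∀ i, h i 0 = u i := by
  by_cases h0 : u 0 = 0
  · have h1 : u 1 ≠ 0 := by
      intro h1
      apply hu
      funext i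
      fin_cases i
      · exact h0
      · exact h1
    refine ⟨GeneralLinearGroup.mkOfDetNeZero !![u 0, 1; u 1, 0] ?_, fun i => ?_⟩
    · rw [Matrix.det_fin_two_of]
      simpa using h1
    · fin_cases i <;> simp [GeneralLinearGroup.mkOfDetNeZero]
  · refine ⟨GeneralLinearGroup.mkOfDetNeZero !![u 0, 0; u 1, 1] ?_, fun i => ?_⟩
    · rw [Matrix.det_fin_two_of]
      simpa using h0
    · fin_cases i <;> simp [GeneralLinearGroup.mkOfDetNeZero]

/-- translation of `(x, δ)` by `g`: `δ` is replaced by `g δ s(g)⁻¹` -/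
theorem translate (g δ : PGL(2, K)) (x : m.X) :
    (g * δ * (ProjGenLinGroup.map (a.s : K →+* K) g)⁻¹) • a.act (g • x) = g • δ • a.act x := by
  rw [a.act_smul, smul_smul, inv_mul_cancel_right, mul_smul]

/-- **Bounded displacement**, general case: `D (s u) = c u` and `D` contributes (outside `w₀`)
implies that `c ^ 2 / det D` is bounded at `w₀`. -/
theorem line_bound {w₀ : HeightOneSpectrum (𝓞 K)} (h₀ : a.σ w₀ = w₀) (A : GlobKer m.L.fam)
    (R : ℝ) : ∃ C : ℝ≥0, ∀ (x : m.X) (δ : PGL(2, K)),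
      (∀ j, H3.ch (x.1 j) ((δ • a.act x).1 j) ≤ R) →
      (∀ w ≠ w₀, (A.loc w).k (x.2 w) ((δ • a.act x).2 w) ≠ 0) →
      ∀ (D : GL (Fin 2) K), ProjGenLinGroup.mk D = δ → ∀ (u : Fin 2 → K), u ≠ 0 → ∀ c : K,
        D.val.mulVec (fun i => a.s (u i)) = c • u →
        nv w₀ (c ^ 2 / D.val.det) ≤ C ∧ 1 ≤ C * nv w₀ (c ^ 2 / D.val.det) := by
  obtain ⟨C, hC⟩ := upper_bound a h₀ A R
  refine ⟨C, ?_⟩
  intro x δ hxi hxf D hD u hu c hc
  obtain ⟨h, hh⟩ := exists_first_col hu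
  set sh : GL (Fin 2) K := GeneralLinearGroup.map (a.s : K →+* K) h with hsh
  set b : GL (Fin 2) K := h⁻¹ * D * sh with hb
  -- the first column of `b`
  have hcol : ∀ i, b i 0 = if i = 0 then c else 0 := by
    have h1 : (D * sh).val.mulVec (Pi.single 0 1) = c • h.val.mulVec (Pi.single 0 1) := by
      rw [Units.val_mul, ← Matrix.mulVec_mulVec]
      have e1 : sh.val.mulVec (Pi.single 0 1) = fun i => a.s (u i) := by
        rw [Matrix.mulVec_single_one]
        funext i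
        show sh.val i 0 = _
        show a.s (h i 0) = _
        rw [hh]
      have e2 : h.val.mulVec (Pi.single 0 1) = u := by
        rw [Matrix.mulVec_single_one]
        funext i
        exact hh i
      rw [e1, e2, hc]
    have h2 : b.val.mulVec (Pi.single 0 1) = c • (Pi.single 0 1 : Fin 2 → K) := by
      rw [hb, mul_assoc, Units.val_mul, ← Matrix.mulVec_mulVec, h1, Matrix.mulVec_smul,
        Matrix.mulVec_mulVec, ← Units.val_mul, inv_mul_cancel, Units.val_one, Matrix.one_mulVec]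
    intro i
    have h3 := congrFun h2 i
    rw [Matrix.mulVec_single_one] at h3
    have h4 : b i 0 = (c • (Pi.single 0 1 : Fin 2 → K)) i := h3
    rw [h4, Pi.smul_apply, smul_eq_mul]
    fin_cases i <;> simp
  have hb10 : b 1 0 = 0 := by rw [hcol]; simp
  have hb00 : b 0 0 = c := by rw [hcol]; simp
  have hdetb : b.val.det = c * b 1 1 := by
    rw [Matrix.det_fin_two]
    have h1 : b.val 1 0 = 0 := hb10
    have h2 : b.val 0 0 = c := hb00
    rw [h1, h2]; ring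
  have hdetb0 : b.val.det ≠ 0 := b.det.ne_zero
  have hc0 : c ≠ 0 := by
    intro h
    apply hdetb0
    rw [hdetb, h, zero_mul]
  -- translate by `h⁻¹`
  set g : PGL(2, K) := ProjGenLinGroup.mk h⁻¹ with hg
  have hδ : (ProjGenLinGroup.mk b : PGL(2, K)) =
      g * δ * (ProjGenLinGroup.map (a.s : K →+* K) g)⁻¹ := by
    rw [hb, map_mul, map_mul, hD, hg, hsh, ProjGenLinGroup.map_mk, map_inv, map_inv, map_inv,
      inv_inv]
  have ht : (ProjGenLinGroup.mk b : PGL(2, K)) • a.act (g • x) = g • δ • a.act x := by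
    rw [hδ]
    exact translate a g δ x
  have key := hC (g • x) b hb10 (by
    intro j
    rw [ht]
    have e := ch_smul (ProjGenLinGroup.map (m.e j) g) (x.1 j) ((δ • a.act x).1 j)
    exact e.le.trans (hxi j)) (by
    intro w hw
    rw [ht]
    have e := (A.loc w).inv g (x.2 w) ((δ • a.act x).2 w)
    show (A.loc w).k (g • (x.2 w)) (g • ((δ • a.act x).2 w)) ≠ 0
    rw [e]
    exact hxf w hw)
  -- the valuation of `b 1 1 / b 0 0`
  have hval : nv w₀ (b 1 1 / b 0 0) = (nv w₀ (c ^ 2 / D.val.det))⁻¹ := by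
    have hnv : ∀ y, nv w₀ (a.s y) = nv w₀ y := by
      intro y
      have := nv_map_of_val (w := w₀) (w' := w₀) (s := a.s)
        (fun x => by have := a.val w₀ x; rwa [h₀] at this) y
      exact this
    have h1 : nv w₀ b.val.det = nv w₀ D.val.det := by
      have e1 : sh.val.det = a.s h.val.det := by
        rw [Matrix.det_fin_two, Matrix.det_fin_two, map_sub, map_mul, map_mul]
        rfl
      rw [hb, det_mul, det_mul, det_inv, e1, hnv]
      have := det_ne (nv w₀) h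
      field_simp
    have h2 : b 1 1 / b 0 0 = b.val.det / c ^ 2 := by
      rw [hdetb, hb00]
      field_simp
    rw [h2, map_div₀, h1, map_div₀, inv_div]
  have h0 : nv w₀ (c ^ 2 / D.val.det) ≠ 0 :=
    (map_ne_zero _).2 (div_ne_zero (pow_ne_zero 2 hc0) D.det.ne_zero)
  rw [hval] at key
  obtain ⟨k1, k2⟩ := key
  constructor
  · rw [← div_eq_mul_inv, le_div_iff₀ (pos_iff_ne_zero.2 h0), one_mul] at k2
    exact k2
  · rw [inv_le_iff_one_le_mul₀ (pos_iff_ne_zero.2 h0)] at k1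
    exact k1

/-! ## The local condition at `w₀` -/

open Fermat.Agent.H80T

section Cell

variable {F : Type*} [Field F] {Γ₀ : Type*} [LinearOrderedCommGroupWithZero Γ₀]
  (v : Valuation F Γ₀)

/-- elements of `I diag(ϖ^n, 1) I` in `PGL₂`, `d = v (ϖ ^ n)` -/
def PCell (d : Γ₀) (g : PGL(2, F)) : Prop :=
  ∃ A : GL (Fin 2) F, ProjGenLinGroup.mk A = g ∧ UMat v A.val ∧ v A.val.det = d

/-- the corresponding relation on cosets -/
def CellRel (d : Γ₀) {U : Subgroup PGL(2, F)} (y y' : PGL(2, F) ⧸ U) : Prop :=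
  ∃ g g' : PGL(2, F), ((g : PGL(2, F)) : PGL(2, F) ⧸ U) = y ∧
    ((g' : PGL(2, F)) : PGL(2, F) ⧸ U) = y' ∧ PCell v d (g⁻¹ * g')

theorem PCell.mul_right {d : Γ₀} {g k : PGL(2, F)} (hg : PCell v d g)
    (hk : ∃ B : GL (Fin 2) F, ProjGenLinGroup.mk B = k ∧ IMat v B.val) : PCell v d (g * k) := by
  obtain ⟨A, rfl, hA, hd⟩ := hg
  obtain ⟨B, rfl, hB⟩ := hk
  refine ⟨A * B, map_mul _ _ _, hA.mul_IMat hB, ?_⟩
  rw [Units.val_mul, Matrix.det_mul, map_mul, hd, hB.det, mul_one]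

end Cell

/-- **C17-EXCL.**  For `n` large no contributing `δ` fixes a line (`D (s u) = c u`). -/
theorem excl {w₀ : HeightOneSpectrum (𝓞 K)} (h₀ : a.σ w₀ = w₀)
    (hI : ∀ g ∈ m.L.U w₀, ∃ B : GL (Fin 2) K, ProjGenLinGroup.mk B = g ∧
      IMat (w₀.valuation K) B.val)
    (A : GlobKer m.L.fam) (R : ℝ) : ∃ M₀ : ℕ, ∀ n : ℕ, M₀ ≤ n → ∀ (x : m.X) (δ : PGL(2, K)),
      (∀ j, H3.ch (x.1 j) ((δ • a.act x).1 j) ≤ R) →
      (∀ w ≠ w₀, (A.loc w).k (x.2 w) ((δ • a.act x).2 w) ≠ 0) →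
      CellRel (w₀.valuation K) (exp (-(n : ℤ))) (x.2 w₀) ((δ • a.act x).2 w₀) →
      ∀ (D : GL (Fin 2) K), ProjGenLinGroup.mk D = δ → ∀ (u : Fin 2 → K), u ≠ 0 → ∀ c : K,
        D.val.mulVec (fun i => a.s (u i)) ≠ c • u := by
  obtain ⟨C, hC⟩ := line_bound a h₀ A R
  set q : ℝ≥0 := (Ideal.absNorm w₀.asIdeal : ℝ≥0) with hq
  have hq1 : 1 < q := NumberField.HeightOneSpectrum.one_lt_absNorm_nnreal w₀
  obtain ⟨M₀, hM₀⟩ := pow_unbounded_of_one_lt C hq1
  refine ⟨M₀, ?_⟩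
  intro n hn x δ hxi hxf hcell D hD u hu c hc
  obtain ⟨h1, h2⟩ := hC x δ hxi hxf D hD u hu c hc
  have hqn : C < q ^ n := hM₀.trans_le (pow_le_pow_right₀ hq1.le hn)
  have hvs : ∀ y, w₀.valuation K (a.s y) = w₀.valuation K y := fun y => by
    have := a.val w₀ y
    rwa [h₀] at this
  -- representatives
  obtain ⟨g, g', hg, hg', hP⟩ := hcell
  have hact : (δ • a.act x).2 w₀ =
      ((δ * ProjGenLinGroup.map (a.s : K →+* K) g : PGL(2, K)) : PGL(2, K) ⧸ m.L.fam.U w₀) := by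
    have e1 : a.twist.act x.2 w₀ = ((ProjGenLinGroup.map (a.s : K →+* K) g : PGL(2, K)) :
        PGL(2, K) ⧸ m.L.fam.U w₀) := act_apply_of_eq a.twist h₀ x.2 hg.symm
    show δ • (a.twist.act x.2 w₀) = _
    rw [e1]
    rfl
  rw [hact, QuotientGroup.eq] at hg'
  have hP2 : PCell (w₀.valuation K) (exp (-(n : ℤ)))
      (g⁻¹ * δ * ProjGenLinGroup.map (a.s : K →+* K) g) := by
    have e : g⁻¹ * δ * ProjGenLinGroup.map (a.s : K →+* K) g =
        g⁻¹ * g' * (g'⁻¹ * (δ * ProjGenLinGroup.map (a.s : K →+* K) g)) := by group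
    rw [e]
    exact hP.mul_right _ (hI _ hg')
  obtain ⟨G, rfl⟩ := ProjGenLinGroup.mk_surjective g
  obtain ⟨B, hB, hU, hdetB⟩ := hP2
  rw [← hD, ← map_inv, ProjGenLinGroup.map_mk, ← map_mul, ← map_mul] at hB
  obtain ⟨z, hz, hz2⟩ := exists_of_mk_eq hB.symm
  -- `B = z • G⁻¹ D s(G)` has the eigenvector `G⁻¹ u`
  set sG : GL (Fin 2) K := GeneralLinearGroup.map (a.s : K →+* K) G with hsG
  have hBz : B.val = z • (G⁻¹ * D * sG).val := by
    ext i j
    rw [Matrix.smul_apply, smul_eq_mul]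
    exact hz2 i j
  set u' : Fin 2 → K := (G⁻¹).val.mulVec u with hu'
  have hu'0 : u' ≠ 0 := by
    intro h
    apply hu
    have : G.val.mulVec u' = u := by
      rw [hu', Matrix.mulVec_mulVec, ← Units.val_mul, mul_inv_cancel, Units.val_one,
        Matrix.one_mulVec]
    rw [← this, h, Matrix.mulVec_zero]
  have hsu : sG.val.mulVec (fun i => a.s (u' i)) = fun i => a.s (u i) := by
    have e1 : G.val.mulVec u' = u := by
      rw [hu', Matrix.mulVec_mulVec, ← Units.val_mul, mul_inv_cancel, Units.val_one,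
        Matrix.one_mulVec]
    funext i
    rw [← congrFun e1 i]
    simp only [Matrix.mulVec, dotProduct, map_sum, map_mul]
    rfl
  have heig : B.val.mulVec (fun i => (a.s : K →+* K) (u' i)) = (z * c) • u' := by
    show B.val.mulVec (fun i => a.s (u' i)) = (z * c) • u'
    rw [hBz, Matrix.smul_mulVec, Units.val_mul, ← Matrix.mulVec_mulVec, hsu, Units.val_mul,
      ← Matrix.mulVec_mulVec, hc, Matrix.mulVec_smul, smul_smul]
  have hv := hU.eig (s := (a.s : K →+* K)) hvs hu'0 heig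
  -- conclusion
  have hdet : nv w₀ B.val.det = nv w₀ z ^ 2 * nv w₀ D.val.det := by
    have e1 : B.val.det = z ^ 2 * (G⁻¹ * D * sG).val.det := by
      rw [hBz, Matrix.det_smul, Fintype.card_fin]
    have e2 : sG.val.det = a.s G.val.det := by
      rw [Matrix.det_fin_two, Matrix.det_fin_two, map_sub, map_mul, map_mul]
      rfl
    have hnv : ∀ y, nv w₀ (a.s y) = nv w₀ y := fun y => by
      rw [nv_eq_iff]; exact hvs y
    rw [e1, map_mul, map_pow, det_mul, det_mul, det_inv, e2, hnv]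
    have := det_ne (nv w₀) G
    field_simp
  have hdetn : nv w₀ B.val.det = (q ^ n)⁻¹ := by
    rw [nv_of_exp hdetB, _root_.zpow_neg, zpow_natCast]
  have hz' : nv w₀ z ≠ 0 := (map_ne_zero _).2 hz
  have hD' : nv w₀ D.val.det ≠ 0 := det_ne _ D
  have hq0 : q ^ n ≠ 0 := pow_ne_zero _ (by positivity)
  have hratio : nv w₀ (c ^ 2 / D.val.det) = nv w₀ (z * c) ^ 2 * q ^ n := by
    have e3 : nv w₀ D.val.det = (nv w₀ z ^ 2)⁻¹ * (q ^ n)⁻¹ := by
      rw [← hdetn, hdet]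
      field_simp
    rw [map_div₀, map_pow, e3, map_mul]
    field_simp
  rcases hv with hv | hv
  · -- `v (z c) = 1`
    have hv1 : nv w₀ (z * c) = 1 := nv_eq_one_iff.2 hv
    rw [hratio, hv1, one_pow, one_mul] at h1
    exact absurd h1 hqn.not_ge
  · have hv1 : nv w₀ (z * c) = (q ^ n)⁻¹ := by
      rw [← hdetn]
      exact nv_eq_iff.2 hv
    rw [hratio, hv1] at h2
    have e4 : ((q ^ n)⁻¹) ^ 2 * q ^ n = (q ^ n)⁻¹ := by
      field_simp
    rw [e4, ← div_eq_mul_inv, le_div_iff₀ (pos_iff_ne_zero.2 hq0), one_mul] at h2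
    exact absurd h2 hqn.not_ge

end Fermat.Agent.H6.Z
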