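/-
S47, cubic descent: the local norm conditions on the model (support of the test kernels).
-/
import Fermat.Agent.H20S8
import Fermat.Agent.H6ZExcl2

set_option autoImplicit false
set_option linter.style.haveILetI false
set_option linter.unusedSectionVars false

noncomputable section

open IsDedekindDomain NumberField WithZero Fermat.Agent.H82 Fermat.Agent.H59D Fermat.Agent.H59XF
open Matrix
open scoped MatrixGroups
open Matrix.ProjGenLinGroup (mk mk_surjective)

namespace Fermat.Agent.H20.S47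

variable {F E : Type} [Field F] [NumberField F] [Field E] [NumberField E] [Algebra F E]
  {s : E ≃ₐ[F] E} {ζ : F} {v : HeightOneSpectrum (𝓞 F)}

/-- integral elements at an unramified place -/
theorem locOKP_of_mem_U0 (h3 : v.valuation F (3 : F) = 1)
    (hunr : ∀ w ∈ above E v, v.asIdeal.ramificationIdx' w.asIdeal = 1) {γ y : PGL(2, F)}
    (h : y⁻¹ * γ * y ∈ U0 v) : LocOKP E ζ v γ := by
  obtain ⟨g, hg, hgy⟩ := h
  exact ⟨y, g, hgy, locOK_of_integral h3 hunr hg.1 hg.2⟩

/-- deep elements -/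
theorem locOKP_of_mem_Gam {M : ℕ} (hM : Deep ζ 3 v M) {γ y : PGL(2, F)}
    (h : y⁻¹ * γ * y ∈ Gam v M) : LocOKP E ζ v γ := by
  obtain ⟨g, hg, hgy⟩ := h
  refine ⟨y, g, hgy, ?_⟩
  have h1 : (g : Matrix (Fin 2) (Fin 2) F) =
      (1 : F) • (1 + ((g : Matrix (Fin 2) (Fin 2) F) - 1)) := by
    rw [one_smul, add_sub_cancel]
  rw [h1]
  exact locOK_of_deep hM one_ne_zero fun i j => by
    rw [Matrix.sub_apply]
    exact hg.2 i j

/-- elements of the double cosets `I diag(π^{3k}, 1) I` at an unramified place -/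
theorem locOKP_of_PCell (h3 : v.valuation F (3 : F) = 1)
    (hunr : ∀ w ∈ above E v, v.asIdeal.ramificationIdx' w.asIdeal = 1) {γ y : PGL(2, F)} {k : ℤ}
    (hk : k < 0) (h : H6.Z.PCell (v.valuation F) (exp (3 * k)) (y⁻¹ * γ * y)) :
    LocOKP E ζ v γ := by
  obtain ⟨A, hA, hU, hd⟩ := h
  refine ⟨y, A, hA, ?_⟩
  have h11 : v.valuation F ((A : Matrix (Fin 2) (Fin 2) F) 1 1) = 1 := hU.4
  refine locOK_of_cell h3 hunr (k := k) ?_ ?_ ?_ hk
  · rw [h11]; exact hU.2
  · rw [h11]; exact hU.3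
  · rw [h11, one_pow, mul_one]; exact hd

variable (E) in
/-- a local kernel which is supported on local norms -/
def KerOK (ζ : F) (v : HeightOneSpectrum (𝓞 F)) {U : Subgroup PGL(2, F)} (k : LocKer U) : Prop :=
  ∀ (x : PGL(2, F) ⧸ U) (γ : PGL(2, F)), k.k x (γ • x) ≠ 0 → LocOKP E ζ v γ

/-- the unit kernel at a good place -/
theorem KerOK.one {U : Subgroup PGL(2, F)} (hU : U ≤ U0 v) (h3 : v.valuation F (3 : F) = 1)
    (hunr : ∀ w ∈ above E v, v.asIdeal.ramificationIdx' w.asIdeal = 1) :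
    KerOK E ζ v (LocKer.one : LocKer U) := by
  classical
  intro x γ h
  induction x using QuotientGroup.induction_on with
  | H y =>
    rw [LocKer.one_k] at h
    have h1 : ((y : PGL(2, F)) : PGL(2, F) ⧸ U) = ((γ * y : PGL(2, F)) : PGL(2, F) ⧸ U) := by
      by_contra hne
      exact h (if_neg hne)
    rw [QuotientGroup.eq, ← mul_assoc] at h1
    exact locOKP_of_mem_U0 h3 hunr (hU h1)

/-- the unit kernel of a deep level, at any place -/
theorem KerOK.of_deep {U : Subgroup PGL(2, F)} {k : LocKer U} {M : ℕ} (hM : Deep ζ 3 v M)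
    (q : PGL(2, F)) (h : ∀ g g' : PGL(2, F), k.k (g : PGL(2, F) ⧸ U) (g' : PGL(2, F) ⧸ U) ≠ 0 →
      q⁻¹ * (g⁻¹ * g') * q ∈ Gam v M) : KerOK E ζ v k := by
  intro x γ hx
  induction x using QuotientGroup.induction_on with
  | H y =>
    have h1 := h y (γ * y) hx
    refine locOKP_of_mem_Gam (y := y * q) hM ?_
    convert h1 using 1
    group

/-- the kernels `U^{m}` at the auxiliary unramified place -/
theorem KerOK.of_cell {U : Subgroup PGL(2, F)} {k : LocKer U} (h3 : v.valuation F (3 : F) = 1)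
    (hunr : ∀ w ∈ above E v, v.asIdeal.ramificationIdx' w.asIdeal = 1)
    (hI : ∀ g ∈ U, ∃ B : GL (Fin 2) F, mk B = g ∧ H80T.IMat (v.valuation F) B.val) {j : ℤ}
    (hj : j < 0) (h : ∀ x y, k.k x y ≠ 0 → H6.Z.CellRel (v.valuation F) (exp (3 * j)) x y) :
    KerOK E ζ v k := by
  intro x γ hx
  obtain ⟨g, g', hg, hg', hP⟩ := h _ _ hx
  rw [← hg] at hg'
  have h1 : ((γ * g : PGL(2, F)) : PGL(2, F) ⧸ U) = (g' : PGL(2, F) ⧸ U) := hg'.symm
  rw [QuotientGroup.eq] at h1
  have h2 := hP.mul_right (v.valuation F) (hI _ (inv_mem h1))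
  refine locOKP_of_PCell (y := g) h3 hunr hj ?_
  convert h2 using 1
  group

/-- **The norm half of the comparison**: an elliptic element contributing to the geometric side over
`F` is a norm. -/
theorem exists_norm_of_ker (hζ : IsPrimitiveRoot ζ 3) [IsTotallyComplex F]
    (h3 : ∀ x, s (s (s x)) = x) (hs : s ≠ AlgEquiv.refl)
    (hfix : ∀ x, s x = x → x ∈ Set.range (algebraMap F E)) {J : Type*} [Fintype J]
    {m : Model F J} (A : GlobKer m.L.fam)
    (hA : ∀ v, NonSplit E v → KerOK E ζ v (A.loc v)) (x : XF m.L.fam) {γ : PGL(2, F)}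
    (hγ : EllReg γ) (hx : A.k x (γ • x) ≠ 0) :
    ∃ δ : PGL(2, E), nP s δ = incP E γ ∧
      ∀ t : PGL(2, F), t * γ = γ * t → δ * incP E t = incP E t * δ :=
  exists_norm hζ h3 hs hfix hγ fun v hv =>
    hA v hv (x v) γ ((GlobKer.k_ne_zero_iff A x (γ • x)).mp hx v)

end Fermat.Agent.H20.S47
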