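import Fermat.Agent.H25Gen2
/-!
# S25, job A2, part 1: constructing sheaves of modules from elementary data
-/
set_option autoImplicit false
universe u v
open CategoryTheory AlgebraicGeometry CategoryTheory.Limits TopologicalSpace Opposite

namespace Fermat.Agent.H20S

open Fermat.Agent.H25

/-- Elementary description of an `O_X`-module: groups of sections, restriction maps, unique
glueing. -/
structure SData (X : Scheme.{u}) where
  A : X.Opens → Type u
  [grp : ∀ W, AddCommGroup (A W)]
  [mod : ∀ W : X.Opens, Module Γ(X, W) (A W)]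
  r : ∀ {V W : X.Opens}, W ≤ V → (A V →+ A W)
  r_self : ∀ {V : X.Opens} (x : A V), r le_rfl x = x
  r_comp : ∀ {V W Z : X.Opens} (h : W ≤ V) (h' : Z ≤ W) (x : A V),
    r h' (r h x) = r (h'.trans h) x
  r_smul : ∀ {V W : X.Opens} (h : W ≤ V) (f : Γ(X, V)) (x : A V),
    r h (f • x) = resO h f • r h x
  uglue : ∀ {ι : Type u} (W : ι → X.Opens) (s : ∀ i, A (W i)),
    (∀ i j, r (inf_le_left : W i ⊓ W j ≤ W i) (s i) = r (inf_le_right : W i ⊓ W j ≤ W j) (s j)) →
    ∃! x : A (⨆ i, W i), ∀ i, r (le_iSup W i) x = s i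

attribute [instance] SData.grp SData.mod

namespace SData

variable {X : Scheme.{u}} (D : SData X)

/-- underlying abelian presheaf -/
noncomputable def psh : TopCat.Presheaf Ab.{u} X where
  obj W := AddCommGrpCat.of (D.A W.unop)
  map {V W} i := AddCommGrpCat.ofHom (D.r (leOfHom i.unop))
  map_id V := by
    ext x
    exact D.r_self x
  map_comp {U V W} i j := by
    ext x
    exact (D.r_comp _ _ x).symm

/-- underlying presheaf of modules -/
noncomputable def pmod : X.PresheafOfModules :=
  letI : ∀ W : (TopologicalSpace.Opens X)ᵒᵖ, Module (X.ringCatSheaf.obj.obj W) (D.psh.obj W) :=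
    fun W => D.mod W.unop
  PresheafOfModules.ofPresheaf D.psh fun V W i f x => D.r_smul (leOfHom i.unop) f x

theorem psh_isSheaf : D.psh.IsSheaf := by
  rw [TopCat.Presheaf.isSheaf_iff_isSheafUniqueGluing]
  intro ι W s hs
  exact D.uglue W s hs

/-- the sheaf of modules -/
noncomputable def toMod : X.Modules := ⟨D.pmod, D.psh_isSheaf⟩

/-- an element of `D.A W` as a section of the sheaf -/
def toSec {W : X.Opens} (a : D.A W) : Γ(D.toMod, W) := a

/-- a section of the sheaf as an element of `D.A W` -/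
def un {W : X.Opens} (a : Γ(D.toMod, W)) : D.A W := a

@[simp] theorem toSec_un {W : X.Opens} (a : Γ(D.toMod, W)) : D.toSec (D.un a) = a := rfl
@[simp] theorem un_toSec {W : X.Opens} (a : D.A W) : D.un (D.toSec a) = a := rfl
theorem un_add {W : X.Opens} (a b : Γ(D.toMod, W)) : D.un (a + b) = D.un a + D.un b := rfl
theorem un_smul {W : X.Opens} (f : Γ(X, W)) (a : Γ(D.toMod, W)) : D.un (f • a) = f • D.un a := rfl
theorem un_res {V W : X.Opens} (h : W ≤ V) (a : Γ(D.toMod, V)) :
    D.un (res D.toMod h a) = D.r h (D.un a) := rfl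
theorem toSec_add {W : X.Opens} (a b : D.A W) : D.toSec (a + b) = D.toSec a + D.toSec b := rfl
theorem toSec_smul {W : X.Opens} (f : Γ(X, W)) (a : D.A W) :
    D.toSec (f • a) = f • D.toSec a := rfl
theorem res_toSec {V W : X.Opens} (h : W ≤ V) (a : D.A V) :
    res D.toMod h (D.toSec a) = D.toSec (D.r h a) := rfl
theorem toSec_bijective (W : X.Opens) : Function.Bijective (D.toSec (W := W)) :=
  ⟨fun _ _ h => h, fun a => ⟨a, rfl⟩⟩

end SData

/-! ## The line bundle attached to a cocycle of units -/

section Cocycle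

variable {X : Scheme.{u}} {ι : Type u} (U : ι → X.Opens)

/-- a cocycle of units -/
structure Cocycle where
  g : ∀ i j, Γ(X, U i ⊓ U j)
  unit : ∀ i j, IsUnit (g i j)
  mul : ∀ i j k (W : X.Opens) (hi : W ≤ U i) (hj : W ≤ U j) (hk : W ≤ U k),
    resO (le_inf hi hj) (g i j) * resO (le_inf hj hk) (g j k) = resO (le_inf hi hk) (g i k)

variable {U} (c : Cocycle U)

namespace Cocycle

/-- `g_{ij}` on a smaller open -/
noncomputable def gg (i j : ι) (W : X.Opens) (hi : W ≤ U i) (hj : W ≤ U j) : Γ(X, W) :=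
  resO (le_inf hi hj) (c.g i j)

theorem gg_mul {i j k : ι} {W : X.Opens} (hi : W ≤ U i) (hj : W ≤ U j) (hk : W ≤ U k) :
    c.gg i j W hi hj * c.gg j k W hj hk = c.gg i k W hi hk := c.mul i j k W hi hj hk

theorem gg_unit {i j : ι} {W : X.Opens} (hi : W ≤ U i) (hj : W ≤ U j) :
    IsUnit (c.gg i j W hi hj) := (c.unit i j).map (resOHom _)

theorem gg_self {i : ι} {W : X.Opens} (hi : W ≤ U i) : c.gg i i W hi hi = 1 := by
  have h := c.gg_mul hi hi hi
  have h2 := c.gg_unit hi hi
  exact h2.mul_left_cancel (by rw [h, mul_one])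

theorem resO_gg {i j : ι} {W V : X.Opens} (h : V ≤ W) (hi : W ≤ U i) (hj : W ≤ U j) :
    resO h (c.gg i j W hi hj) = c.gg i j V (h.trans hi) (h.trans hj) := by
  simp only [gg, resO_resO]

/-- sections: compatible families. -/
def grpA (W : X.Opens) : AddSubgroup (∀ i, Γ(X, W ⊓ U i)) where
  carrier := {a | ∀ i j (V : X.Opens) (h : V ≤ W) (hi : V ≤ U i) (hj : V ≤ U j),
    resO (le_inf h hj) (a j) = resO (le_inf h hi) (a i) * c.gg i j V hi hj}
  zero_mem' := by
    intro i j V h hi hj
    simp
  add_mem' := by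
    intro a b ha hb i j V h hi hj
    simp only [Pi.add_apply, resO_add, ha i j V h hi hj, hb i j V h hi hj, add_mul]
  neg_mem' := by
    intro a ha i j V h hi hj
    simp only [Pi.neg_apply, resO_neg, ha i j V h hi hj, neg_mul]

theorem grpA_prop {W : X.Opens} (a : c.grpA W) {i j : ι} {V : X.Opens} (h : V ≤ W)
    (hi : V ≤ U i) (hj : V ≤ U j) :
    resO (le_inf h hj) (a.1 j) = resO (le_inf h hi) (a.1 i) * c.gg i j V hi hj :=
  a.2 i j V h hi hj

noncomputable instance modA (W : X.Opens) : Module Γ(X, W) (c.grpA W) where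
  smul f a := ⟨fun i => resO inf_le_left f * a.1 i, by
    intro i j V h hi hj
    simp only [resO_mul, resO_resO, c.grpA_prop a h hi hj, mul_assoc]⟩
  one_smul a := by
    apply Subtype.ext; funext i
    show resO inf_le_left (1 : Γ(X, W)) * a.1 i = a.1 i
    rw [resO_one, one_mul]
  mul_smul f g a := by
    apply Subtype.ext; funext i
    show resO inf_le_left (f * g) * a.1 i = resO inf_le_left f * (resO inf_le_left g * a.1 i)
    rw [resO_mul, mul_assoc]
  smul_zero f := by
    apply Subtype.ext; funext i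
    show resO inf_le_left f * (0 : Γ(X, W ⊓ U i)) = 0
    rw [mul_zero]
  smul_add f a b := by
    apply Subtype.ext; funext i
    show resO inf_le_left f * (a.1 i + b.1 i) = resO inf_le_left f * a.1 i + resO inf_le_left f * b.1 i
    rw [mul_add]
  add_smul f g a := by
    apply Subtype.ext; funext i
    show resO inf_le_left (f + g) * a.1 i = resO inf_le_left f * a.1 i + resO inf_le_left g * a.1 i
    rw [resO_add, add_mul]
  zero_smul a := by
    apply Subtype.ext; funext i
    show resO inf_le_left (0 : Γ(X, W)) * a.1 i = 0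
    rw [resO_zero, zero_mul]

theorem smul_val {W : X.Opens} (f : Γ(X, W)) (a : c.grpA W) (i : ι) :
    (f • a).1 i = resO inf_le_left f * a.1 i := rfl

/-- restriction -/
noncomputable def rA {V W : X.Opens} (h : W ≤ V) : c.grpA V →+ c.grpA W where
  toFun a := ⟨fun i => resO (inf_le_inf_right _ h) (a.1 i), by
    intro i j Z hZ hi hj
    simp only [resO_resO]
    exact c.grpA_prop a (hZ.trans h) hi hj⟩
  map_zero' := by
    apply Subtype.ext; funext i
    exact resO_zero _
  map_add' a b := by
    apply Subtype.ext; funext i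
    exact resO_add _ _ _

theorem rA_val {V W : X.Opens} (h : W ≤ V) (a : c.grpA V) (i : ι) :
    (c.rA h a).1 i = resO (inf_le_inf_right _ h) (a.1 i) := rfl

/-- the sheaf data -/
noncomputable def sdata : SData X where
  A W := c.grpA W
  grp W := inferInstance
  mod W := c.modA W
  r h := c.rA h
  r_self x := by
    apply Subtype.ext; funext i
    rw [rA_val, resO_self]
  r_comp h h' x := by
    apply Subtype.ext; funext i
    simp only [rA_val, resO_resO]
  r_smul h f x := by
    apply Subtype.ext; funext i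
    simp only [rA_val, smul_val, resO_mul, resO_resO]
  uglue {κ} W s hs := by
    have hcov : ∀ i, (⨆ α, W α) ⊓ U i ≤ ⨆ α, W α ⊓ U i := fun i => by rw [iSup_inf_eq]
    have hle : ∀ i α, W α ⊓ U i ≤ (⨆ α, W α) ⊓ U i := fun i α =>
      inf_le_inf_right _ (le_iSup W α)
    have h1 : ∀ i, ∃ x : Γ(X, (⨆ α, W α) ⊓ U i), ∀ α, resO (hle i α) x = (s α).1 i := by
      intro i
      refine secO_glue (fun α => W α ⊓ U i) (hle i) (hcov i) (fun α => (s α).1 i) ?_
      intro α β V hα hβ
      have h2 := congrArg (fun a : c.grpA (W α ⊓ W β) => a.1 i) (hs α β)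
      simp only [rA_val] at h2
      have hV : V ≤ (W α ⊓ W β) ⊓ U i :=
        le_inf (le_inf (hα.trans inf_le_left) (hβ.trans inf_le_left)) (hα.trans inf_le_right)
      have h3 := congrArg (resO hV) h2
      simpa only [resO_resO] using h3
    choose x hx using h1
    refine ⟨⟨x, ?_⟩, ?_, ?_⟩
    · intro i j V h hi hj
      refine secO_ext (fun α => V ⊓ W α) (fun α => inf_le_left) (inf_cover h) ?_
      intro α
      have e1 := congrArg (resO (le_inf inf_le_right (inf_le_left.trans hj) :
        V ⊓ W α ≤ W α ⊓ U j)) (hx j α)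
      have e2 := congrArg (resO (le_inf inf_le_right (inf_le_left.trans hi) :
        V ⊓ W α ≤ W α ⊓ U i)) (hx i α)
      have e3 := c.grpA_prop (s α) (inf_le_right : V ⊓ W α ≤ W α) (inf_le_left.trans hi)
        (inf_le_left.trans hj)
      simp only [resO_resO] at e1 e2
      simp only [resO_mul, resO_resO, resO_gg]
      rw [e1, e2, e3]
    · intro α
      apply Subtype.ext; funext i
      exact hx i α
    · intro y hy
      apply Subtype.ext; funext i
      refine secO_ext (fun α => W α ⊓ U i) (hle i) (hcov i) fun α => ?_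
      have := congrArg (fun a : c.grpA (W α) => a.1 i) (hy α)
      rw [hx i α]
      exact this

/-- the line bundle -/
noncomputable def mod : X.Modules := c.sdata.toMod

/-- the generator on `U i` -/
noncomputable def gen (i : ι) : Γ(c.mod, U i) := c.sdata.toSec
  (⟨fun j => c.g i j, by
    intro j k V h hj hk
    exact (c.gg_mul (i := i) (j := j) (k := k) h hj hk).symm⟩ : c.grpA (U i))

theorem isGen_gen (i : ι) : IsGen c.mod (c.gen i) := by
  intro V hV
  constructor
  · intro f f' hff
    have h1 := congrArg (fun a : c.grpA V => resO (le_inf le_rfl hV : V ≤ V ⊓ U i) (a.1 i)) hff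
    have key : ∀ f : Γ(X, V), resO (le_inf le_rfl hV : V ≤ V ⊓ U i)
        ((c.sdata.un (f • res c.mod hV (c.gen i)) : c.grpA V).1 i) = f := by
      intro f
      show resO _ (resO inf_le_left f * resO (inf_le_inf_right _ hV) (c.g i i)) = f
      rw [resO_mul, resO_resO, resO_self, resO_resO]
      have := c.gg_self hV
      simp only [gg] at this
      rw [this, mul_one]
    have := (key f).symm.trans (h1.trans (key f'))
    exact this
  · intro x
    let a : c.grpA V := c.sdata.un x
    refine ⟨resO (le_inf le_rfl hV : V ≤ V ⊓ U i) (a.1 i), ?_⟩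
    apply Subtype.ext (a1 := (c.sdata.un ((resO (le_inf le_rfl hV : V ≤ V ⊓ U i) (a.1 i)) •
      res c.mod hV (c.gen i)) : c.grpA V)) (a2 := a)
    funext j
    show resO inf_le_left (resO _ (a.1 i)) * resO (inf_le_inf_right _ hV) (c.g i j) = a.1 j
    have h := c.grpA_prop a (i := i) (j := j) (V := V ⊓ U j) inf_le_left (inf_le_left.trans hV)
      inf_le_right
    rw [resO_self] at h
    rw [h, resO_resO]
    rfl

theorem res_gen (i j : ι) : res c.mod inf_le_left (c.gen i)
    = c.g i j • res c.mod (inf_le_right : U i ⊓ U j ≤ U j) (c.gen j) := by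
  apply Subtype.ext (a1 := (c.sdata.un (res c.mod (inf_le_left : U i ⊓ U j ≤ U i) (c.gen i)) :
    c.grpA (U i ⊓ U j))) (a2 := (c.sdata.un (c.g i j • res c.mod
      (inf_le_right : U i ⊓ U j ≤ U j) (c.gen j)) : c.grpA (U i ⊓ U j)))
  funext k
  show resO _ (c.g i k) = resO inf_le_left (c.g i j) * resO _ (c.g j k)
  exact (c.mul i j k _ (inf_le_left.trans inf_le_left) (inf_le_left.trans inf_le_right)
    inf_le_right).symm

end Cocycle

end Cocycle

theorem exists_cocycle_module {X : Scheme.{u}} {ι : Type u} (U : ι → X.Opens)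
    (_hU : ⨆ i, U i = ⊤) (g : ∀ i j, (Γ(X, U i ⊓ U j))ˣ)
    (hg : ∀ i j k (W : X.Opens) (hi : W ≤ U i) (hj : W ≤ U j) (hk : W ≤ U k),
      resO (le_inf hi hj) (g i j).1 * resO (le_inf hj hk) (g j k).1
        = resO (le_inf hi hk) (g i k).1) :
    ∃ (M : X.Modules) (s : ∀ i, Γ(M, U i)), (∀ i, IsGen M (s i)) ∧
      ∀ i j, res M inf_le_left (s i) = (g i j).1 • res M inf_le_right (s j) := by
  let c : Cocycle U := ⟨fun i j => (g i j).1, fun i j => (g i j).isUnit, hg⟩
  exact ⟨c.mod, c.gen, c.isGen_gen, c.res_gen⟩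

end Fermat.Agent.H20S
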