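import Mathlib
/-!
# Counting semilinear maps (S56, StatementF case II)
-/
set_option autoImplicit false

namespace Fermat.Agent.H20SC

open Polynomial

theorem card_roots_le (p : ℕ) [Fact p.Prime] {κ : Type*} [Field κ] (u : κ) :
    {y : κ | y ^ (p ^ 2) = u * y}.Finite ∧ {y : κ | y ^ (p ^ 2) = u * y}.ncard ≤ p ^ 2 := by
  classical
  have hp := (Fact.out : p.Prime).two_le
  have h1 : 1 < p ^ 2 := by nlinarith
  let P : κ[X] := X ^ (p ^ 2) - C u * X
  have hdeg : P.natDegree = p ^ 2 := by
    have h2 : (C u * X : κ[X]).natDegree < (X ^ (p ^ 2) : κ[X]).natDegree := by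
      rw [natDegree_X_pow]
      exact ((natDegree_C_mul_le u X).trans natDegree_X_le).trans_lt h1
    rw [natDegree_sub_eq_left_of_natDegree_lt h2, natDegree_X_pow]
  have hP : P ≠ 0 := by
    intro h
    rw [h, natDegree_zero] at hdeg
    omega
  have hset : {y : κ | y ^ (p ^ 2) = u * y} = (P.roots.toFinset : Set κ) := by
    ext y
    rw [Set.mem_ofPred_eq, Finset.mem_coe, Multiset.mem_toFinset, mem_roots hP, IsRoot.def]
    simp [P, sub_eq_zero]
  rw [hset]
  refine ⟨Finset.finite_toSet _, ?_⟩
  rw [Set.ncard_coe_finset]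
  exact (Multiset.toFinset_card_le _).trans ((card_roots' P).trans hdeg.le)

theorem card_semilinear_le (p : ℕ) [Fact p.Prime] {k κ : Type*} [Field k] [Finite k] [CharP k p]
    [Field κ] [CharP κ p] (Γ : k) (z u : κ) (hz : z ^ p ≠ z) (S : Set (k → κ))
    (hadd : ∀ ρ ∈ S, ∀ a b, ρ (a + b) = ρ a + ρ b) (hΓ : ∀ ρ ∈ S, ∀ a, ρ (Γ * a) = z * ρ a)
    (hφ : ∀ ρ ∈ S, ∀ a, ρ a ^ (p ^ 2) = u * ρ a) : S.Finite ∧ S.ncard ≤ Nat.card k := by
  classical
  have hp := (Fact.out : p.Prime)
  have hpow : ∀ ρ ∈ S, ∀ (n : ℕ) a, ρ (Γ ^ n * a) = z ^ n * ρ a := by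
    intro ρ hρ n
    induction n with
    | zero => intro a; simp
    | succ n ih =>
      intro a
      rw [pow_succ', mul_assoc, hΓ ρ hρ, ih, pow_succ', mul_assoc]
  have hk : 0 < Nat.card k := Nat.card_pos
  by_cases hΓp : Γ ^ p = Γ
  · have hS : S ⊆ {fun _ => 0} := by
      intro ρ hρ
      rw [Set.mem_singleton_iff]
      funext a
      have h1 := hpow ρ hρ p a
      rw [hΓp, hΓ ρ hρ] at h1
      have h2 : (z ^ p - z) * ρ a = 0 := by rw [sub_mul, ← h1, sub_self]
      exact (mul_eq_zero.mp h2).resolve_left (sub_ne_zero.mpr hz)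
    refine ⟨(Set.finite_singleton _).subset hS, ?_⟩
    exact (Set.ncard_le_ncard hS (Set.finite_singleton _)).trans
      (by rw [Set.ncard_singleton]; exact hk)
  · let _ : Algebra (ZMod p) k := ZMod.algebra k p
    let L := IntermediateField.adjoin (ZMod p) {Γ}
    have hΓL : Γ ∈ L := IntermediateField.mem_adjoin_simple_self _ _
    have hfin : Finite L := Finite.of_injective (fun x : L => (x : k)) Subtype.val_injective
    let _ : Fintype L := Fintype.ofFinite L
    have hmod : Module.Finite L k := Module.Finite.of_finite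
    -- the cardinality of `L`
    have hcardL : p ^ 2 ≤ Nat.card L := by
      have h1 : Nat.card L = p ^ Module.finrank (ZMod p) L := by
        rw [Module.natCard_eq_pow_finrank (K := ZMod p), Nat.card_zmod]
      have h2 : Module.finrank (ZMod p) L ≠ 0 := by
        have : 0 < Module.finrank (ZMod p) L := Module.finrank_pos
        omega
      have h3 : Module.finrank (ZMod p) L ≠ 1 := by
        intro h3
        rw [h3, pow_one] at h1
        apply hΓp
        have h4 := FiniteField.pow_card (⟨Γ, hΓL⟩ : L)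
        rw [← Nat.card_eq_fintype_card, h1] at h4
        exact congrArg Subtype.val h4
      rw [h1]
      exact Nat.pow_le_pow_right hp.pos (by omega)
    -- uniqueness
    let b := Module.finBasis L k
    have huniq : ∀ ρ ∈ S, ∀ ρ' ∈ S, (∀ i, ρ (b i) = ρ' (b i)) → ρ = ρ' := by
      intro ρ hρ ρ' hρ' hb
      have hzero : ∀ ρ ∈ S, ρ 0 = 0 := by
        intro ρ hρ
        have := hadd ρ hρ 0 0
        rw [add_zero] at this
        exact left_eq_add.mp this
      have hadj : ∀ x ∈ Algebra.adjoin (ZMod p) {Γ}, ∀ a, ρ a = ρ' a →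
          ρ (x * a) = ρ' (x * a) := by
        intro x hx
        induction hx using Algebra.adjoin_induction with
        | mem y hy =>
          intro a ha
          rw [Set.mem_singleton_iff.mp hy, hΓ ρ hρ, hΓ ρ' hρ', ha]
        | algebraMap r =>
          intro a ha
          obtain ⟨n, rfl⟩ := ZMod.natCast_zmod_surjective r
          rw [map_natCast]
          induction n with
          | zero => rw [Nat.cast_zero, zero_mul, hzero ρ hρ, hzero ρ' hρ']
          | succ n ih => rw [Nat.cast_succ, add_mul, one_mul, hadd ρ hρ, hadd ρ' hρ', ih, ha]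
        | add x y _ _ ihx ihy =>
          intro a ha
          rw [add_mul, hadd ρ hρ, hadd ρ' hρ', ihx a ha, ihy a ha]
        | mul x y _ _ ihx ihy =>
          intro a ha
          rw [mul_assoc]
          exact ihx _ (ihy a ha)
      have hL : ∀ (x : L) (a : k), ρ a = ρ' a → ρ (x • a) = ρ' (x • a) := by
        intro x a ha
        have hint : IsIntegral (ZMod p) Γ := Algebra.IsIntegral.isIntegral Γ
        have hx' : (x : k) ∈ Algebra.adjoin (ZMod p) {Γ} := by
          rw [← IntermediateField.adjoin_simple_toSubalgebra_of_isAlgebraic hint.isAlgebraic]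
          exact x.2
        exact hadj _ hx' a ha
      funext a
      rw [← b.sum_repr a]
      have h5 : ∀ s : Finset (Fin (Module.finrank L k)),
          ρ (∑ i ∈ s, b.repr a i • b i) = ρ' (∑ i ∈ s, b.repr a i • b i) := by
        intro s
        induction s using Finset.induction_on with
        | empty => rw [Finset.sum_empty, hzero ρ hρ, hzero ρ' hρ']
        | insert i s hi ih =>
          rw [Finset.sum_insert hi, hadd ρ hρ, hadd ρ' hρ', ih, hL _ _ (hb i)]
      exact h5 _
    obtain ⟨hRfin, hRcard⟩ := card_roots_le p u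
    let R := {y : κ | y ^ (p ^ 2) = u * y}
    have hRf : Finite R := hRfin
    let Φ : S → (Fin (Module.finrank L k) → R) := fun ρ i => ⟨ρ.1 (b i), hφ ρ.1 ρ.2 (b i)⟩
    have hΦ : Function.Injective Φ := by
      intro ρ ρ' h
      apply Subtype.ext
      refine huniq ρ.1 ρ.2 ρ'.1 ρ'.2 fun i => ?_
      exact congrArg Subtype.val (congrFun h i)
    have hSfin : Finite S := Finite.of_injective Φ hΦ
    refine ⟨hSfin, ?_⟩
    calc S.ncard = Nat.card S := (Nat.card_coe_set_eq S).symm
      _ ≤ Nat.card (Fin (Module.finrank L k) → R) := Nat.card_le_card_of_injective Φ hΦ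
      _ = Nat.card R ^ Module.finrank L k := by
        rw [Nat.card_fun, Nat.card_eq_fintype_card (α := Fin _), Fintype.card_fin]
      _ ≤ (p ^ 2) ^ Module.finrank L k :=
        Nat.pow_le_pow_left (by rw [Nat.card_coe_set_eq]; exact hRcard) _
      _ ≤ Nat.card L ^ Module.finrank L k := Nat.pow_le_pow_left hcardL _
      _ = Nat.card k := (Module.natCard_eq_pow_finrank (K := L) (V := k)).symm

end Fermat.Agent.H20SC
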