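import Fermat.Agent.H25Glue2
/-!
# S25, job E4, part 1: twisting by a Cartier divisor `γ : T ⟶ X`
* `IsLocEq γ e`, `IsCart γ`, `TwHom γ φ`, `IsTw γ L M` ("`L = M(-γ)`").
* existence, uniqueness, base change, inverse.
-/
set_option autoImplicit false
universe u v
open CategoryTheory AlgebraicGeometry CategoryTheory.Limits TopologicalSpace Opposite

noncomputable section

namespace Fermat.Agent.H20T

open Fermat.Agent.H25

variable {X T X' T' : Scheme.{u}}

/-- `e` is a local equation of `γ` on `W` -/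
def IsLocEq (γ : T ⟶ X) {W : X.Opens} (e : Γ(X, W)) : Prop :=
  ∀ (V : X.Opens) (h : V ≤ W),
    (∀ f : Γ(X, V), γ.app V f = 0 ↔ ∃ g : Γ(X, V), f = g * resO h e) ∧
    (∀ g : Γ(X, V), g * resO h e = 0 → g = 0)

/-- `γ` is an effective Cartier divisor -/
def IsCart (γ : T ⟶ X) : Prop :=
  ∀ p : X, ∃ (W : X.Opens) (_ : p ∈ W) (e : Γ(X, W)), IsLocEq γ e

/-- `φ : L ⟶ M` identifies `L` with the sections of `M` vanishing on `γ` -/
def TwHom (γ : T ⟶ X) {L M : X.Modules} (φ : L ⟶ M) : Prop :=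
  ∀ U : X.Opens, Function.Injective (φ.app U) ∧
    ∀ s : Γ(M, U), (∃ l, φ.app U l = s) ↔ pb γ M s = 0

/-- `L = M(-γ)` -/
def IsTw (γ : T ⟶ X) (L M : X.Modules) : Prop := ∃ φ : L ⟶ M, TwHom γ φ

lemma IsLocEq.res {γ : T ⟶ X} {W : X.Opens} {e : Γ(X, W)} (he : IsLocEq γ e) {V : X.Opens}
    (h : V ≤ W) : IsLocEq γ (resO h e) := fun V' h' ↦ by
  have := he V' (h'.trans h)
  simpa only [resO_resO] using this

lemma IsLocEq.app_eq_zero {γ : T ⟶ X} {W : X.Opens} {e : Γ(X, W)} (he : IsLocEq γ e) :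
    γ.app W e = 0 := ((he W le_rfl).1 e).2 ⟨1, by rw [resO_self, one_mul]⟩

lemma pt_cover {ι : Type*} {W : ι → X.Opens} (hW : ∀ p : X, ∃ i, p ∈ W i) (U : X.Opens) :
    U ≤ ⨆ i, W i := fun p _ ↦ Opens.mem_iSup.mpr (hW p)

lemma iSup_eq_top_of_pt {ι : Type*} {W : ι → X.Opens} (hW : ∀ p : X, ∃ i, p ∈ W i) :
    ⨆ i, W i = ⊤ := top_le_iff.mp (pt_cover hW ⊤)

lemma app_zero {L M : X.Modules} (φ : L ⟶ M) (U : X.Opens) : φ.app U (0 : Γ(L, U)) = 0 :=
  map_zero (φ.app U).hom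

lemma app_sub {L M : X.Modules} (φ : L ⟶ M) (U : X.Opens) (a b : Γ(L, U)) :
    φ.app U (a - b) = φ.app U a - φ.app U b := map_sub (φ.app U).hom a b

/-- Local equations can be checked on a cover. -/
theorem IsLocEq.of_cover {γ : T ⟶ X} {W : X.Opens} {e : Γ(X, W)} {ι : Type*} (W' : ι → X.Opens)
    (hW' : ∀ i, W' i ≤ W) (hc : W ≤ ⨆ i, W' i) (h : ∀ i, IsLocEq γ (resO (hW' i) e)) :
    IsLocEq γ e := by
  intro V hV
  have inj : ∀ (V : X.Opens) (hV : V ≤ W) (g : Γ(X, V)), g * resO hV e = 0 → g = 0 := by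
    intro V hV g hg
    refine secO_ext (fun i ↦ V ⊓ W' i) (fun i ↦ inf_le_left) (inf_cover (hV.trans hc)) fun i ↦ ?_
    have h1 := (h i (V ⊓ W' i) inf_le_right).2 (resO inf_le_left g)
    rw [resO_zero]
    apply h1
    have h2 := congrArg (resO (inf_le_left : V ⊓ W' i ≤ V)) hg
    simpa only [resO_mul, resO_resO, resO_zero] using h2
  refine ⟨fun f ↦ ⟨fun hf ↦ ?_, ?_⟩, inj V hV⟩
  · have h1 : ∀ i, ∃ g : Γ(X, V ⊓ W' i),
        resO inf_le_left f = g * resO (inf_le_left.trans hV) e := by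
      intro i
      have h2 := (h i (V ⊓ W' i) inf_le_right).1 (resO inf_le_left f)
      rw [resO_resO] at h2
      refine h2.1 ?_
      rw [app_resO, hf, resO_zero]
    choose g hg using h1
    obtain ⟨x, hx⟩ := secO_glue (fun i ↦ V ⊓ W' i) (fun i ↦ (inf_le_left : V ⊓ W' i ≤ V))
      (inf_cover (hV.trans hc)) g (by
        intro i j U hi hj
        rw [← sub_eq_zero]
        refine inj U (hi.trans (inf_le_left.trans hV)) _ ?_
        have e1 := congrArg (resO hi) (hg i)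
        have e2 := congrArg (resO hj) (hg j)
        simp only [resO_mul, resO_resO] at e1 e2
        rw [sub_mul, ← e1, ← e2, sub_self])
    refine ⟨x, ?_⟩
    refine secO_ext (fun i ↦ V ⊓ W' i) (fun i ↦ inf_le_left) (inf_cover (hV.trans hc)) fun i ↦ ?_
    rw [resO_mul, hx, hg, resO_resO]
  · rintro ⟨g, rfl⟩
    refine secO_ext (fun i ↦ γ ⁻¹ᵁ (V ⊓ W' i)) (fun i ↦ γ.preimage_mono inf_le_left) ?_ fun i ↦ ?_
    · rw [← Scheme.Hom.preimage_iSup]
      exact γ.preimage_mono (inf_cover (hV.trans hc))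
    · have h3 := (h i).app_eq_zero
      have h4 := congrArg (resO (γ.preimage_mono (inf_le_right : V ⊓ W' i ≤ W' i))) h3
      rw [← app_resO γ (inf_le_right : V ⊓ W' i ≤ W' i), resO_resO, resO_zero] at h4
      rw [← app_resO γ (inf_le_left : V ⊓ W' i ≤ V), resO_mul, resO_zero, map_mul, resO_resO,
        h4, mul_zero]

namespace TwHom

variable {γ : T ⟶ X} {L M : X.Modules} {φ : L ⟶ M}

lemma pb_eq_zero (h : TwHom γ φ) {U : X.Opens} (l : Γ(L, U)) : pb γ M (φ.app U l) = 0 :=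
  ((h U).2 _).1 ⟨l, rfl⟩

/-- `TwHom` can be checked locally. -/
theorem of_local (h : ∀ p : X, ∃ W : X.Opens, p ∈ W ∧ ∀ V ≤ W, Function.Injective (φ.app V) ∧
    ∀ s : Γ(M, V), (∃ l, φ.app V l = s) ↔ pb γ M s = 0) : TwHom γ φ := by
  choose W hpW hW using h
  have hc : ∀ U : X.Opens, U ≤ ⨆ p, W p := fun U ↦ pt_cover (fun p ↦ ⟨p, hpW p⟩) U
  have inj : ∀ U : X.Opens, Function.Injective (φ.app U) := by
    intro U a b hab
    refine sec_ext (fun p ↦ U ⊓ W p) (fun p ↦ inf_le_left) (inf_cover (hc U)) fun p ↦ ?_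
    refine (hW p (U ⊓ W p) inf_le_right).1 ?_
    rw [app_res, app_res, hab]
  intro U
  refine ⟨inj U, fun s ↦ ⟨?_, fun hs ↦ ?_⟩⟩
  · rintro ⟨l, rfl⟩
    refine sec_ext (fun p ↦ γ ⁻¹ᵁ (U ⊓ W p)) (fun p ↦ γ.preimage_mono inf_le_left) ?_ fun p ↦ ?_
    · rw [← Scheme.Hom.preimage_iSup]
      exact γ.preimage_mono (inf_cover (hc U))
    · rw [← pb_res γ M (inf_le_left : U ⊓ W p ≤ U), ← app_res, res_zero]
      exact ((hW p (U ⊓ W p) inf_le_right).2 _).1 ⟨_, rfl⟩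
  · have h1 : ∀ p, ∃ l : Γ(L, U ⊓ W p), φ.app (U ⊓ W p) l = res M inf_le_left s := by
      intro p
      refine ((hW p (U ⊓ W p) inf_le_right).2 _).2 ?_
      rw [pb_res, hs, res_zero]
    choose l hl using h1
    obtain ⟨x, hx⟩ := sec_glue (fun p ↦ U ⊓ W p) (fun p ↦ (inf_le_left : U ⊓ W p ≤ U))
      (inf_cover (hc U)) l (by
        intro p q V hp hq
        refine inj V ?_
        rw [app_res, app_res, hl, hl, res_res, res_res])
    refine ⟨x, ?_⟩
    refine sec_ext (fun p ↦ U ⊓ W p) (fun p ↦ inf_le_left) (inf_cover (hc U)) fun p ↦ ?_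
    rw [← app_res, hx, hl]

end TwHom

lemma pb_smul_gen_eq_zero_iff (γ : T ⟶ X) {M : X.Modules} {V : X.Opens} {s : Γ(M, V)}
    (hs : IsGen M s) (f : Γ(X, V)) : pb γ M (f • s) = 0 ↔ γ.app V f = 0 := by
  rw [pb_smul]
  constructor
  · intro h
    refine (hs.pb γ M).inj ?_
    rw [h, zero_smul]
  · intro h
    rw [h, zero_smul]

/-- local form of a `TwHom`, from generators -/
theorem twHom_local_of_gen {γ : T ⟶ X} {L M : X.Modules} {φ : L ⟶ M} {W : X.Opens}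
    {e : Γ(X, W)} (he : IsLocEq γ e) {l : Γ(L, W)} (hl : IsGen L l) {s : Γ(M, W)}
    (hs : IsGen M s) (h : φ.app W l = e • s) (V : X.Opens) (hV : V ≤ W) :
    Function.Injective (φ.app V) ∧ ∀ s : Γ(M, V), (∃ l, φ.app V l = s) ↔ pb γ M s = 0 := by
  have h' : φ.app V (res L hV l) = resO hV e • res M hV s := by
    rw [app_res, h, res_smul]
  have hφ : ∀ a : Γ(X, V), φ.app V (a • res L hV l) = (a * resO hV e) • res M hV s := by
    intro a
    rw [app_smul', h', mul_smul]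
  have hsV := hs.res hV
  refine ⟨?_, fun s' ↦ ?_⟩
  · intro x y hxy
    obtain ⟨a, rfl⟩ := hl.surj' hV x
    obtain ⟨b, rfl⟩ := hl.surj' hV y
    rw [hφ, hφ] at hxy
    have h1 := (hs V hV).1 hxy
    have h2 : (a - b) * resO hV e = 0 := by
      rw [sub_mul, sub_eq_zero]; exact h1
    have h3 := (he V hV).2 _ h2
    rw [sub_eq_zero] at h3
    rw [h3]
  · obtain ⟨f, rfl⟩ := hs.surj' hV s'
    rw [pb_smul_gen_eq_zero_iff γ hsV, (he V hV).1 f]
    constructor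
    · rintro ⟨x, hx⟩
      obtain ⟨a, rfl⟩ := hl.surj' hV x
      rw [hφ] at hx
      exact ⟨a, ((hs V hV).1 hx).symm⟩
    · rintro ⟨g, rfl⟩
      exact ⟨g • res L hV l, hφ g⟩

/-- generators of a twist -/
theorem TwHom.isGen {γ : T ⟶ X} {L M : X.Modules} {φ : L ⟶ M} (hφ : TwHom γ φ) {W : X.Opens}
    {e : Γ(X, W)} (he : IsLocEq γ e) {s : Γ(M, W)} (hs : IsGen M s) {l : Γ(L, W)}
    (h : φ.app W l = e • s) : IsGen L l := by
  intro V hV
  have hφ' : ∀ a : Γ(X, V), φ.app V (a • res L hV l) = (a * resO hV e) • res M hV s := by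
    intro a
    rw [app_smul', app_res, h, res_smul, mul_smul]
  constructor
  · intro a b hab
    have h1 := congrArg (φ.app V) hab
    simp only [hφ'] at h1
    have h2 := (hs V hV).1 h1
    have h3 : (a - b) * resO hV e = 0 := by
      rw [sub_mul, sub_eq_zero]; exact h2
    exact sub_eq_zero.mp ((he V hV).2 _ h3)
  · intro x
    obtain ⟨f, hf⟩ := hs.surj' hV (φ.app V x)
    have h1 := hφ.pb_eq_zero x
    rw [hf, pb_smul_gen_eq_zero_iff γ (hs.res hV), (he V hV).1 f] at h1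
    obtain ⟨g, rfl⟩ := h1
    refine ⟨g, (hφ V).1 ?_⟩
    simp only [hφ']
    exact hf.symm

theorem TwHom.exists_gen {γ : T ⟶ X} {L M : X.Modules} {φ : L ⟶ M} (hφ : TwHom γ φ) {W : X.Opens}
    {e : Γ(X, W)} (he : IsLocEq γ e) {s : Γ(M, W)} (hs : IsGen M s) :
    ∃ l : Γ(L, W), IsGen L l ∧ φ.app W l = e • s := by
  obtain ⟨l, hl⟩ := ((hφ W).2 (e • s)).2 (by
    rw [pb_smul_gen_eq_zero_iff γ hs]; exact he.app_eq_zero)
  exact ⟨l, hφ.isGen he hs hl, hl⟩


/-! ### existence -/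
section Exists

variable (γ : T ⟶ X) (M : X.Modules)

/-- sections vanishing on `γ` -/
def TwSec (W : X.Opens) : AddSubgroup Γ(M, W) := (pbHom γ M W).ker

lemma mem_twSec {W : X.Opens} {s : Γ(M, W)} : s ∈ TwSec γ M W ↔ pb γ M s = 0 := Iff.rfl

instance twSecSMul (W : X.Opens) : SMul Γ(X, W) (TwSec γ M W) :=
  ⟨fun a x ↦ ⟨a • x.1, by rw [mem_twSec, pb_smul, (mem_twSec γ M).mp x.2, smul_zero]⟩⟩

lemma twSec_smul_val {W : X.Opens} (a : Γ(X, W)) (x : TwSec γ M W) : (a • x).1 = a • x.1 := rfl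

instance twSecModule (W : X.Opens) : Module Γ(X, W) (TwSec γ M W) where
  one_smul x := by apply Subtype.ext; simp [twSec_smul_val]
  mul_smul a b x := by apply Subtype.ext; simp [twSec_smul_val, mul_smul]
  smul_zero a := by apply Subtype.ext; simp [twSec_smul_val]
  smul_add a x y := by apply Subtype.ext; simp [twSec_smul_val]
  add_smul a b x := by apply Subtype.ext; simp [twSec_smul_val, add_smul]
  zero_smul x := by apply Subtype.ext; simp [twSec_smul_val]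

/-- the twist as section data -/
def twData : SecData X where
  S W := TwSec γ M W
  r {W V} h :=
    { toFun := fun x ↦ ⟨res M h x.1, by
        rw [mem_twSec, pb_res, (mem_twSec γ M).mp x.2, res_zero]⟩
      map_zero' := by apply Subtype.ext; simp
      map_add' := fun x y ↦ by apply Subtype.ext; simp }
  r_self h x := by apply Subtype.ext; simp
  r_r h h' x := by
    apply Subtype.ext
    simp only [AddMonoidHom.coe_mk, ZeroHom.coe_mk, res_res]
  r_smul h a x := by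
    apply Subtype.ext
    simp only [AddMonoidHom.coe_mk, ZeroHom.coe_mk, twSec_smul_val, res_smul]
  ext {κ} W x y h := by
    apply Subtype.ext
    exact sec_ext W (fun k ↦ le_iSup W k) le_rfl fun k ↦ congrArg Subtype.val (h k)
  glue {κ} W x h := by
    obtain ⟨y, hy⟩ := sec_glue W (fun k ↦ le_iSup W k) le_rfl (fun k ↦ (x k).1) (by
      intro k l V hk hl
      have h1 := congrArg Subtype.val (h k l)
      have h2 := congrArg (res M (le_inf hk hl)) h1
      simpa only [AddMonoidHom.coe_mk, ZeroHom.coe_mk, res_res] using h2)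
    refine ⟨⟨y, ?_⟩, fun k ↦ Subtype.ext (hy k)⟩
    rw [mem_twSec]
    refine sec_ext (fun k ↦ γ ⁻¹ᵁ W k) (fun k ↦ γ.preimage_mono (le_iSup W k)) ?_ fun k ↦ ?_
    · rw [← Scheme.Hom.preimage_iSup]
    · rw [← pb_res γ M (le_iSup W k), hy, res_zero]
      exact (x k).2

/-- `M(-γ)` -/
def tw : X.Modules := (twData γ M).mk'

/-- underlying section -/
def twVal {U : X.Opens} (x : Γ(tw γ M, U)) : Γ(M, U) :=
  Subtype.val (p := fun s ↦ s ∈ TwSec γ M U) ((twData γ M).ofSec x)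

/-- `M(-γ) ⟶ M` -/
def twι : tw γ M ⟶ M :=
  mkHom (fun U ↦ AddMonoidHom.mk' (fun x : Γ(tw γ M, U) ↦ twVal γ M x)
    (fun _ _ ↦ rfl)) (fun _ _ _ ↦ rfl) (fun _ _ _ _ ↦ rfl)

lemma twι_app {U : X.Opens} (x : Γ(tw γ M, U)) : (twι γ M).app U x = twVal γ M x := rfl

lemma twVal_mem {U : X.Opens} (x : Γ(tw γ M, U)) : pb γ M (twVal γ M x) = 0 :=
  Subtype.prop (p := fun s ↦ s ∈ TwSec γ M U) ((twData γ M).ofSec x)

lemma exists_twVal {U : X.Opens} (s : Γ(M, U)) (hs : pb γ M s = 0) :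
    ∃ x : Γ(tw γ M, U), twVal γ M x = s :=
  ⟨(twData γ M).toSec (U := U) (⟨s, hs⟩ : TwSec γ M U), rfl⟩

lemma twVal_inj {U : X.Opens} {x y : Γ(tw γ M, U)} (h : twVal γ M x = twVal γ M y) : x = y :=
  Subtype.ext (p := fun s ↦ s ∈ TwSec γ M U) h

theorem twι_twHom : TwHom γ (twι γ M) := by
  intro U
  refine ⟨fun x y h ↦ ?_, fun s ↦ ⟨?_, fun hs ↦ ?_⟩⟩
  · rw [twι_app, twι_app] at h
    exact twVal_inj γ M h
  · rintro ⟨l, rfl⟩
    rw [twι_app]
    exact twVal_mem γ M l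
  · obtain ⟨x, hx⟩ := exists_twVal γ M s hs
    exact ⟨x, hx⟩

end Exists

section Uniq

variable {γ : T ⟶ X} {L L' M M' : X.Modules}

/-- universal property of twists -/
theorem TwHom.exists_lift {φ : L ⟶ M} (h : TwHom γ φ) {N : X.Modules} (ψ : N ⟶ M)
    (hψ : ∀ (U : X.Opens) (n : Γ(N, U)), pb γ M (ψ.app U n) = 0) :
    ∃ χ : N ⟶ L, χ ≫ φ = ψ := by
  have h1 : ∀ (U : X.Opens) (n : Γ(N, U)), ∃ l, φ.app U l = ψ.app U n :=
    fun U n ↦ ((h U).2 _).2 (hψ U n)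
  choose F hF using h1
  refine ⟨mkHom (fun U ↦ AddMonoidHom.mk' (F U) fun a b ↦ ?_) (fun U a x ↦ ?_)
    (fun U V hV x ↦ ?_), ?_⟩
  · refine (h U).1 ?_
    rw [hF, map_add, map_add, hF, hF]
  · refine (h U).1 ?_
    change φ.app U (F U (a • x)) = φ.app U (a • F U x)
    rw [hF, app_smul', app_smul', hF]
  · refine (h V).1 ?_
    change φ.app V (F V (res N hV x)) = φ.app V (res L hV (F U x))
    rw [hF, app_res, app_res, hF]
  · exact hom_ext_app fun U x ↦ hF U x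

theorem TwHom.mono {φ : L ⟶ M} (h : TwHom γ φ) {N : X.Modules} {χ χ' : N ⟶ L}
    (hχ : χ ≫ φ = χ' ≫ φ) : χ = χ' := by
  refine hom_ext_app fun U x ↦ (h U).1 ?_
  have := congr(Scheme.Modules.Hom.app $hχ U x)
  exact this

/-- uniqueness of twists -/
theorem TwHom.uniq {φ : L ⟶ M} {φ' : L' ⟶ M} (h : TwHom γ φ) (h' : TwHom γ φ') :
    ∃ e : L ≅ L', e.hom ≫ φ' = φ := by
  obtain ⟨χ, hχ⟩ := h'.exists_lift φ (fun U n ↦ h.pb_eq_zero n)
  obtain ⟨χ', hχ'⟩ := h.exists_lift φ' (fun U n ↦ h'.pb_eq_zero n)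
  refine ⟨⟨χ, χ', h.mono ?_, h'.mono ?_⟩, hχ⟩
  · rw [Category.assoc, hχ', hχ, Category.id_comp]
  · rw [Category.assoc, hχ, hχ', Category.id_comp]

theorem IsTw.uniq (h : IsTw γ L M) (h' : IsTw γ L' M) : Nonempty (L ≅ L') := by
  obtain ⟨φ, hφ⟩ := h
  obtain ⟨φ', hφ'⟩ := h'
  exact ⟨(hφ.uniq hφ').choose⟩

theorem TwHom.comp_iso {φ : L ⟶ M} (h : TwHom γ φ) (e : L' ≅ L) (e' : M ≅ M') :
    TwHom γ (e.hom ≫ φ ≫ e'.hom) := by
  have he : ∀ U, Function.Bijective (e.hom.app U) := fun U ↦ ConcreteCategory.bijective_of_isIso _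
  have he' : ∀ U, Function.Bijective (e'.hom.app U) := fun U ↦ ConcreteCategory.bijective_of_isIso _
  have hc : ∀ U (x : Γ(L', U)), (e.hom ≫ φ ≫ e'.hom).app U x
      = e'.hom.app U (φ.app U (e.hom.app U x)) := fun U x ↦ rfl
  have hp : ∀ U : X.Opens, Function.Bijective
      (((Scheme.Modules.pullback γ).map e'.hom).app (γ ⁻¹ᵁ U)) := fun U ↦
    ConcreteCategory.bijective_of_isIso _
  intro U
  refine ⟨?_, fun s ↦ ?_⟩
  · intro x y hxy
    rw [hc, hc] at hxy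
    exact (he U).1 ((h U).1 ((he' U).1 hxy))
  · obtain ⟨m, rfl⟩ := (he' U).2 s
    have h1 : pb γ M' (e'.hom.app U m) = 0 ↔ pb γ M m = 0 := by
      rw [← pb_app]
      constructor
      · intro h2
        refine (hp U).1 ?_
        rw [h2, app_zero]
      · intro h2
        rw [h2, app_zero]
    rw [h1, ← (h U).2 m]
    constructor
    · rintro ⟨l, hl⟩
      rw [hc] at hl
      exact ⟨e.hom.app U l, (he' U).1 hl⟩
    · rintro ⟨l, rfl⟩
      obtain ⟨l', rfl⟩ := (he U).2 l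
      exact ⟨l', hc U l'⟩

theorem IsTw.of_iso (h : IsTw γ L M) (e : L ≅ L') (e' : M ≅ M') : IsTw γ L' M' := by
  obtain ⟨φ, hφ⟩ := h
  exact ⟨_, hφ.comp_iso e.symm e'⟩

theorem TwHom.isInvertible (hγ : IsCart γ) (hM : Scheme.Modules.IsInvertible M) {φ : L ⟶ M}
    (h : TwHom γ φ) : Scheme.Modules.IsInvertible L := by
  rw [isInvertible_iff]
  intro p
  obtain ⟨W, hp, e, he⟩ := hγ p
  obtain ⟨V, hVW, hpV, s, hs⟩ := exists_isGen_of_mem hM hp
  obtain ⟨l, hl, -⟩ := h.exists_gen (he.res hVW) hs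
  exact ⟨V, hpV, l, hl⟩

theorem exists_isTw (hγ : IsCart γ) (hM : Scheme.Modules.IsInvertible M) :
    ∃ L : X.Modules, Scheme.Modules.IsInvertible L ∧ IsTw γ L M :=
  ⟨tw γ M, (twι_twHom γ M).isInvertible hγ hM, _, twι_twHom γ M⟩

end Uniq

/-! ### base change -/

/-- base change of twists -/
theorem TwHom.baseChange {g : X' ⟶ X} {γ : T ⟶ X} {γ' : T' ⟶ X'}
    (hloc : ∀ p : X', ∃ (W : X.Opens) (_ : g p ∈ W) (e : Γ(X, W)),
      IsLocEq γ e ∧ IsLocEq γ' (g.app W e)) {L M : X.Modules}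
    (hM : Scheme.Modules.IsInvertible M) {φ : L ⟶ M} (hφ : TwHom γ φ) :
    TwHom γ' ((Scheme.Modules.pullback g).map φ) := by
  refine TwHom.of_local fun p ↦ ?_
  obtain ⟨W, hpW, e, he, he'⟩ := hloc p
  obtain ⟨V, hVW, hpV, s, hs⟩ := exists_isGen_of_mem hM hpW
  obtain ⟨l, hl, hls⟩ := hφ.exists_gen (he.res hVW) hs
  have he'' : IsLocEq γ' (g.app V (resO hVW e)) := by
    rw [app_resO]
    exact he'.res _
  refine ⟨g ⁻¹ᵁ V, hpV, fun V' hV' ↦ twHom_local_of_gen he'' (hl.pb g L) (hs.pb g M) ?_ V' hV'⟩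
  rw [pb_app, hls, pb_smul]

theorem IsTw.baseChange {g : X' ⟶ X} {γ : T ⟶ X} {γ' : T' ⟶ X'}
    (hloc : ∀ p : X', ∃ (W : X.Opens) (_ : g p ∈ W) (e : Γ(X, W)),
      IsLocEq γ e ∧ IsLocEq γ' (g.app W e)) {L M : X.Modules}
    (hM : Scheme.Modules.IsInvertible M) (h : IsTw γ L M) :
    IsTw γ' ((Scheme.Modules.pullback g).obj L) ((Scheme.Modules.pullback g).obj M) := by
  obtain ⟨φ, hφ⟩ := h
  exact ⟨_, hφ.baseChange hloc hM⟩

/-! ### the inverse twist -/

/-- multiplication by a function, as a local endomorphism -/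
def LHom.mulBy {U : X.Opens} (M : X.Modules) (a : Γ(X, U)) : LHom U M M where
  f W h := AddMonoidHom.mk' (fun x ↦ resO h a • x) (fun x y ↦ smul_add _ _ _)
  smul W h b x := by
    simp only [AddMonoidHom.mk'_apply]
    rw [smul_smul, smul_smul, mul_comm]
  res W V h h' x := by
    simp only [AddMonoidHom.mk'_apply, res_smul, resO_resO]

@[simp] lemma LHom.mulBy_f {U : X.Opens} (M : X.Modules) (a : Γ(X, U)) (W : X.Opens) (h : W ≤ U)
    (x : Γ(M, W)) : (LHom.mulBy M a).f W h x = resO h a • x := rfl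

/-- multiplication by a unit -/
def LIso.mulBy {U : X.Opens} (M : X.Modules) (a b : Γ(X, U)) (hab : a * b = 1) : LIso U M M where
  hom := LHom.mulBy M a
  inv := LHom.mulBy M b
  hom_inv W h x := by
    rw [LHom.mulBy_f, LHom.mulBy_f, smul_smul, ← resO_mul, mul_comm, hab, resO_one, one_smul]
  inv_hom W h x := by
    rw [LHom.mulBy_f, LHom.mulBy_f, smul_smul, ← resO_mul, hab, resO_one, one_smul]

@[simp] lemma LIso.mulBy_hom {U : X.Opens} (M : X.Modules) (a b : Γ(X, U)) (hab : a * b = 1) :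
    (LIso.mulBy M a b hab).hom = LHom.mulBy M a := rfl

lemma IsLocEq.exists_unit {γ : T ⟶ X} {W : X.Opens} {e e' : Γ(X, W)} (he : IsLocEq γ e)
    (he' : IsLocEq γ e') : ∃ a b : Γ(X, W), a * b = 1 ∧ e' = a * e := by
  have h1 := ((he W le_rfl).1 e').1 he'.app_eq_zero
  have h2 := ((he' W le_rfl).1 e).1 he.app_eq_zero
  simp only [resO_self] at h1 h2
  obtain ⟨a, ha⟩ := h1
  obtain ⟨b, hb⟩ := h2
  refine ⟨a, b, ?_, ha⟩
  have h3 : (a * b - 1) * resO le_rfl e' = 0 := by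
    rw [resO_self]
    have : (a * b - 1) * e' = a * (b * e') - e' := by ring
    rw [this, ← hb, ← ha, sub_self]
  exact sub_eq_zero.mp ((he' W le_rfl).2 _ h3)

/-- the inverse twist `L(γ)` -/
theorem exists_twHom_inv {γ : T ⟶ X} (hγ : IsCart γ) {L : X.Modules}
    (hL : Scheme.Modules.IsInvertible L) :
    ∃ (M : X.Modules) (φ : L ⟶ M), Scheme.Modules.IsInvertible M ∧ TwHom γ φ := by
  choose W hpW e he using hγ
  have hcov : ⨆ p, W p = ⊤ := iSup_eq_top_of_pt fun p ↦ ⟨p, hpW p⟩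
  have hu : ∀ p q : X, ∃ a b : Γ(X, W p ⊓ W q), a * b = 1 ∧
      resO inf_le_right (e q) = a * resO inf_le_left (e p) := fun p q ↦
    IsLocEq.exists_unit ((he p).res _) ((he q).res _)
  choose a b hab hae using hu
  obtain ⟨M, ψ, hψ⟩ := exists_glued_module W (fun _ ↦ L) (fun p q ↦ LIso.mulBy L (a p q) (b p q)
    (hab p q)) (by
      intro i j k V hi hj hk x
      simp only [LIso.mulBy_hom, LHom.mulBy_f, smul_smul]
      congr 1
      have h1 : (resO (le_inf hj hk) (a j k) * resO (le_inf hi hj) (a i j)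
          - resO (le_inf hi hk) (a i k)) * resO hi (e i) = 0 := by
        have e1 := congrArg (resO (le_inf hi hj)) (hae i j)
        have e2 := congrArg (resO (le_inf hj hk)) (hae j k)
        have e3 := congrArg (resO (le_inf hi hk)) (hae i k)
        simp only [resO_mul, resO_resO] at e1 e2 e3
        rw [sub_mul, mul_assoc, ← e1, ← e2, ← e3, sub_self]
      exact sub_eq_zero.mp ((he i V hi).2 _ h1))
  obtain ⟨φ, hφ, -⟩ := LHom.exists_hom (M := L) (N := M) W hcov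
    (fun p ↦ (LHom.mulBy L (e p)).comp (ψ p).inv) (by
      intro i j V hi hj x
      simp only [LHom.comp_f, LHom.mulBy_f]
      apply ((ψ j).bijective V hj).1
      rw [(ψ j).inv_hom, ← hψ i j V hi hj, (ψ i).inv_hom]
      simp only [LIso.mulBy_hom, LHom.mulBy_f, smul_smul]
      have e1 := congrArg (resO (le_inf hi hj)) (hae i j)
      simp only [resO_mul, resO_resO] at e1
      rw [← e1])
  have hgen : ∀ p : X, ∃ (V : X.Opens) (hV : V ≤ W p) (_ : p ∈ V) (l : Γ(L, V)), IsGen L l ∧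
      IsGen M ((ψ p).inv.f V hV l) ∧
        φ.app V l = resO hV (e p) • (ψ p).inv.f V hV l := by
    intro p
    obtain ⟨V, hV, hpV, l, hl⟩ := exists_isGen_of_mem hL (hpW p)
    refine ⟨V, hV, hpV, l, hl, (ψ p).symm.isGen hV hl, ?_⟩
    rw [hφ p V hV, LHom.comp_f, LHom.mulBy_f, (ψ p).inv.smul]
  refine ⟨M, φ, ?_, ?_⟩
  · rw [isInvertible_iff]
    intro p
    obtain ⟨V, hV, hpV, l, hl, hm, -⟩ := hgen p
    exact ⟨V, hpV, _, hm⟩
  · refine TwHom.of_local fun p ↦ ?_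
    obtain ⟨V, hV, hpV, l, hl, hm, h⟩ := hgen p
    exact ⟨V, hpV, fun V' hV' ↦ twHom_local_of_gen ((he p).res hV) hl hm h V' hV'⟩

theorem exists_isTw_inv {γ : T ⟶ X} (hγ : IsCart γ) {L : X.Modules}
    (hL : Scheme.Modules.IsInvertible L) :
    ∃ M : X.Modules, Scheme.Modules.IsInvertible M ∧ IsTw γ L M := by
  obtain ⟨M, φ, hM, hφ⟩ := exists_twHom_inv hγ hL
  exact ⟨M, hM, φ, hφ⟩

end Fermat.Agent.H20T
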