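import Mathlib
/-!
# S25, job E4, part 2: the ideal of a graph (pure algebra)
-/
set_option autoImplicit false
open scoped TensorProduct

namespace Fermat.Agent.H20T

section GraphIdeal

variable {k B A : Type*} [CommRing k] [CommRing B] [CommRing A] [Algebra k B] [Algebra k A]
  (y : B →ₐ[k] A)

/-- `B ⊗ B → B ⊗ A` -/
noncomputable def gφ : B ⊗[k] B →ₐ[k] B ⊗[k] A := Algebra.TensorProduct.map (AlgHom.id k B) y

/-- `B ⊗ A → A` -/
noncomputable def gρ : B ⊗[k] A →ₐ[k] A :=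
  Algebra.TensorProduct.lift y (AlgHom.id k A) (fun _ _ => Commute.all _ _)

@[simp] lemma gφ_tmul (b b' : B) : gφ y (b ⊗ₜ b') = b ⊗ₜ y b' := rfl

@[simp] lemma gρ_tmul (b : B) (a : A) : gρ y (b ⊗ₜ a) = y b * a := rfl

lemma mem_ideal_iff (j : B ⊗[k] B) : j ∈ KaehlerDifferential.ideal k B ↔
    Algebra.TensorProduct.lmul' k (S := B) j = 0 := Iff.rfl

lemma sub_mem_ideal (r : B ⊗[k] B) :
    r - 1 ⊗ₜ Algebra.TensorProduct.lmul' k (S := B) r ∈ KaehlerDifferential.ideal k B := by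
  rw [mem_ideal_iff, map_sub, Algebra.TensorProduct.lmul'_apply_tmul, one_mul, sub_self]

lemma sub_mem_ideal' (b : B) :
    b ⊗ₜ 1 - 1 ⊗ₜ b ∈ KaehlerDifferential.ideal k B := by
  have := sub_mem_ideal (k := k) (b ⊗ₜ[k] (1 : B))
  simpa using this

variable (ψ : KaehlerDifferential.ideal k B →ₗ[B ⊗[k] B] B ⊗[k] B)

/-- auxiliary -/
noncomputable def gD : B →ₗ[k] B ⊗[k] A where
  toFun b := gφ y (ψ ⟨b ⊗ₜ 1 - 1 ⊗ₜ b, sub_mem_ideal' b⟩)
  map_add' b b' := by
    rw [← map_add, ← map_add]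
    congr 2
    apply Subtype.ext
    simp only [Submodule.coe_add]
    rw [TensorProduct.add_tmul, TensorProduct.tmul_add]
    ring
  map_smul' c b := by
    rw [RingHom.id_apply, ← map_smul, ← LinearMap.map_smul_of_tower]
    congr 2
    apply Subtype.ext
    simp only [SetLike.val_smul_of_tower, smul_sub]
    rw [TensorProduct.smul_tmul', TensorProduct.tmul_smul]

/-- the base change of `ψ` -/
noncomputable def gΨ : B ⊗[k] A →ₗ[k] B ⊗[k] A :=
  TensorProduct.lift ((LinearMap.mul k (B ⊗[k] A)).compl₁₂ (gD y ψ)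
    (Algebra.TensorProduct.includeRight (R := k) (A := B) (B := A)).toLinearMap)

lemma gΨ_tmul (b : B) (a : A) : gΨ y ψ (b ⊗ₜ a) = gD y ψ b * 1 ⊗ₜ a := rfl

lemma gΨ_gφ (r : B ⊗[k] B) :
    gΨ y ψ (gφ y r) = gφ y (ψ ⟨r - 1 ⊗ₜ Algebra.TensorProduct.lmul' k (S := B) r,
      sub_mem_ideal r⟩) := by
  induction r with
  | zero =>
    have : (⟨0 - 1 ⊗ₜ Algebra.TensorProduct.lmul' k (S := B) 0, sub_mem_ideal 0⟩ :
      KaehlerDifferential.ideal k B) = 0 := by
      apply Subtype.ext; simp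
    rw [this]; simp
  | add x y' hx hy =>
    rw [map_add, map_add, hx, hy, ← map_add, ← map_add]
    congr 2
    apply Subtype.ext
    simp only [Submodule.coe_add, map_add, TensorProduct.tmul_add]
    ring
  | tmul b b' =>
    rw [gφ_tmul, gΨ_tmul]
    have h1 : (⟨b ⊗ₜ b' - 1 ⊗ₜ Algebra.TensorProduct.lmul' k (S := B) (b ⊗ₜ b'),
        sub_mem_ideal _⟩ : KaehlerDifferential.ideal k B) =
        ((1 : B) ⊗ₜ[k] b') • ⟨b ⊗ₜ 1 - 1 ⊗ₜ b, sub_mem_ideal' b⟩ := by
      apply Subtype.ext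
      simp only [Submodule.coe_smul, smul_eq_mul, mul_sub, Algebra.TensorProduct.tmul_mul_tmul,
        one_mul, mul_one, Algebra.TensorProduct.lmul'_apply_tmul]
      rw [mul_comm b b']
    rw [h1, map_smul, smul_eq_mul, map_mul, gφ_tmul, mul_comm]
    rfl

lemma gΨ_gφ_of_mem (j : KaehlerDifferential.ideal k B) :
    gΨ y ψ (gφ y j.1) = gφ y (ψ j) := by
  rw [gΨ_gφ]
  congr 2
  apply Subtype.ext
  have := (mem_ideal_iff j.1).mp j.2
  simp [this]

lemma gΨ_mul_right (x : B ⊗[k] A) (a : A) : gΨ y ψ (x * 1 ⊗ₜ a) = gΨ y ψ x * 1 ⊗ₜ a := by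
  induction x with
  | zero => simp
  | add x y' hx hy => rw [add_mul, map_add, hx, hy, map_add, add_mul]
  | tmul b a' =>
    rw [Algebra.TensorProduct.tmul_mul_tmul, mul_one, gΨ_tmul, gΨ_tmul, mul_assoc,
      Algebra.TensorProduct.tmul_mul_tmul, one_mul]

lemma gΨ_mul (r : B ⊗[k] A) (j : KaehlerDifferential.ideal k B) :
    gΨ y ψ (r * gφ y j.1) = r * gφ y (ψ j) := by
  induction r with
  | zero => simp
  | add x y' hx hy => rw [add_mul, map_add, hx, hy, add_mul]
  | tmul b a =>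
    have h1 : (b ⊗ₜ[k] a) = gφ y (b ⊗ₜ 1) * 1 ⊗ₜ a := by
      rw [gφ_tmul, Algebra.TensorProduct.tmul_mul_tmul, mul_one, map_one, one_mul]
    have h2 : b ⊗ₜ[k] a * gφ y j.1 = gφ y (((b ⊗ₜ[k] (1 : B)) • j).1) * 1 ⊗ₜ a := by
      rw [h1, Submodule.coe_smul, smul_eq_mul, map_mul]; ring
    rw [h2, gΨ_mul_right, gΨ_gφ_of_mem, map_smul, smul_eq_mul, map_mul]
    conv_rhs => rw [h1]
    ring

/-- the graph ideal is generated by the image of the ideal of the diagonal -/
lemma graph_induction {P : B ⊗[k] A → Prop} (h0 : P 0) (hadd : ∀ x y, P x → P y → P (x + y))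
    (hmul : ∀ (r : B ⊗[k] A) (j : KaehlerDifferential.ideal k B), P (r * gφ y j.1))
    (g : B ⊗[k] A) (hg : gρ y g = 0) : P g := by
  have h1 : ∀ x : B ⊗[k] A, P (x - 1 ⊗ₜ gρ y x) := by
    intro x
    induction x with
    | zero => simpa using h0
    | add x y' hx hy =>
      have : x + y' - 1 ⊗ₜ gρ y (x + y') = (x - 1 ⊗ₜ gρ y x) + (y' - 1 ⊗ₜ gρ y y') := by
        rw [map_add, TensorProduct.tmul_add]; ring
      rw [this]
      exact hadd _ _ hx hy
    | tmul b a =>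
      have : b ⊗ₜ[k] a - 1 ⊗ₜ gρ y (b ⊗ₜ a) =
          (1 ⊗ₜ a) * gφ y (⟨b ⊗ₜ 1 - 1 ⊗ₜ b, sub_mem_ideal' b⟩ :
            KaehlerDifferential.ideal k B).1 := by
        simp only [map_sub, gφ_tmul, map_one, gρ_tmul, mul_sub,
          Algebra.TensorProduct.tmul_mul_tmul, one_mul, mul_one]
        rw [mul_comm a]
      rw [this]
      exact hmul _ _
  have h2 := h1 g
  rwa [hg, TensorProduct.tmul_zero, sub_zero] at h2

variable {ψ} {f : B ⊗[k] B} {e : KaehlerDifferential.ideal k B} (he : ψ e = f)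
  (hψ : ∀ x : KaehlerDifferential.ideal k B, f • x = ψ x • e)

include he in
/-- the local equation stays a nonzerodivisor -/
theorem graph_inj (x : B ⊗[k] A) (hx : x * gφ y e.1 = 0) : gφ y f * x = 0 := by
  have := gΨ_mul y ψ x e
  rw [hx, map_zero, he] at this
  rw [mul_comm]; exact this.symm

include hψ in
/-- the local equation generates the graph ideal -/
theorem graph_surj (g : B ⊗[k] A) (hg : gρ y g = 0) :
    ∃ a : B ⊗[k] A, gφ y f * g = a * gφ y e.1 := by
  refine ⟨gΨ y ψ g, ?_⟩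
  refine graph_induction y (P := fun g => gφ y f * g = gΨ y ψ g * gφ y e.1) (by simp)
    (fun x y' hx hy => by rw [mul_add, hx, hy, map_add, add_mul]) (fun r j => ?_) g hg
  have h1 := congrArg Subtype.val (hψ j)
  simp only [Submodule.coe_smul, smul_eq_mul] at h1
  rw [gΨ_mul, mul_left_comm, ← map_mul, h1, map_mul, mul_assoc]

lemma gρ_gφ (j : KaehlerDifferential.ideal k B) : gρ y (gφ y j.1) = 0 := by
  have h1 : ∀ r : B ⊗[k] B, gρ y (gφ y r) = y (Algebra.TensorProduct.lmul' k (S := B) r) := by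
    intro r
    induction r with
    | zero => simp
    | add x y' hx hy => rw [map_add, map_add, hx, hy, map_add, map_add]
    | tmul b b' => simp
  rw [h1, (mem_ideal_iff j.1).mp j.2, map_zero]

end GraphIdeal

end Fermat.Agent.H20T
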