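import Mathlib
import Fermat.Agent.H51CurveSm

/-!
# Commutative algebra for smooth curves, III: coordinate rings of smooth affine curves (S25-C1)
-/

set_option autoImplicit false
set_option linter.style.haveILetI false

open IsLocalRing TensorProduct

namespace Fermat.Agent.H51Curve

universe u

/-- `S` is the coordinate ring of a smooth affine curve over `k`. -/
structure IsCurveAlg (k S : Type*) [CommRing k] [CommRing S] [Algebra k S] : Prop where
  dom : IsDomain S
  ft : Algebra.FiniteType k S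
  notField : ¬ IsField S
  cyc : ∀ p : Ideal S, p.IsPrime → CycAt Ω[S⁄k] p

theorem isCurveAlg_of_locally (k : Type u) [Field k] [IsAlgClosed k] (S : Type u) [CommRing S]
    [IsDomain S] [Algebra k S] [Algebra.FiniteType k S]
    (h : RingHom.Locally (RingHom.IsStandardSmoothOfRelativeDimension 1) (algebraMap k S)) :
    IsCurveAlg k S := by
  obtain ⟨s, hs, hs'⟩ := h
  have key : ∀ p : Ideal S, p.IsPrime → ∃ t, t ∉ p ∧
      Algebra.IsStandardSmoothOfRelativeDimension 1 k (Localization.Away t) := by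
    intro p hp
    obtain ⟨t, hts, htp⟩ : ∃ t ∈ s, t ∉ p := by
      by_contra hcon
      push Not at hcon
      exact hp.ne_top (top_le_iff.mp (hs ▸ Ideal.span_le.mpr hcon))
    refine ⟨t, htp, ?_⟩
    have h1 := hs' t hts
    rw [← IsScalarTower.algebraMap_eq, RingHom.isStandardSmoothOfRelativeDimension_algebraMap] at h1
    exact h1
  refine ⟨inferInstance, inferInstance, ?_, ?_⟩
  · obtain ⟨t, ht, h1⟩ := key ⊥ Ideal.isPrime_bot
    haveI := nontrivial_away Ideal.isPrime_bot ht
    exact not_isField_of_isStandardSmooth k t h1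
  · intro p hp
    obtain ⟨t, ht, h1⟩ := key p hp
    exact cycAt_of_isStandardSmooth k t h1 p ht

namespace IsCurveAlg

variable {k : Type*} [Field k] [IsAlgClosed k] {S : Type*} [CommRing S] [Algebra k S]
  (h : IsCurveAlg k S)

include h

omit [IsAlgClosed k] in
theorem isNoetherianRing : IsNoetherianRing S := by
  haveI := h.ft
  exact Algebra.FiniteType.isNoetherianRing k S

theorem isDiscreteValuationRing_localization [IsDomain S] (m : Ideal S) [hm : m.IsMaximal] :
    IsDiscreteValuationRing (Localization.AtPrime m) := by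
  haveI := h.ft
  exact H51Curve.isDiscreteValuationRing_localization k h.notField m (h.cyc m inferInstance)

theorem isDedekindDomain : IsDedekindDomain S := by
  haveI := h.dom
  haveI := h.ft
  haveI := h.isNoetherianRing
  exact isDedekindDomain_of_localization_maximal
    fun m hm _ => by
      haveI := hm
      exact h.isDiscreteValuationRing_localization m

omit [IsAlgClosed k] in
theorem exists_notMem_range : ∃ s : S, s ∉ Set.range (algebraMap k S) := by
  by_contra hcon
  push Not at hcon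
  haveI := h.dom
  apply h.notField
  have hb : Function.Bijective (algebraMap k S) := ⟨(algebraMap k S).injective, hcon⟩
  exact MulEquiv.isField (Field.toIsField k) (RingEquiv.ofBijective _ hb).symm.toMulEquiv

theorem transcendental_of_notMem_range {s : S} (hs : s ∉ Set.range (algebraMap k S)) :
    Transcendental k s := by
  haveI := h.dom
  intro halg
  apply hs
  have h1 : IsIntegral k s := halg.isIntegral
  haveI : Algebra.IsIntegral k (Algebra.adjoin k {s}) :=
    Algebra.IsIntegral.adjoin (by simpa using h1)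
  obtain ⟨c, hc⟩ := (IsAlgClosed.algebraMap_bijective_of_isIntegral (k := k)
    (K := Algebra.adjoin k {s})).2 ⟨s, Algebra.subset_adjoin rfl⟩
  exact ⟨c, congrArg Subtype.val hc⟩

theorem exists_transcendental : ∃ s : S, Transcendental k s := by
  obtain ⟨s, hs⟩ := h.exists_notMem_range
  exact ⟨s, h.transcendental_of_notMem_range hs⟩

omit [IsAlgClosed k] in
theorem not_isMaximal_bot : ¬ (⊥ : Ideal S).IsMaximal := fun hm =>
  haveI := h.dom
  h.notField (Ring.isField_iff_maximal_bot.mpr hm)

omit [IsAlgClosed k] in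
theorem isJacobsonRing : IsJacobsonRing S := by
  haveI := h.ft
  exact isJacobsonRing_of_finiteType (A := k)

omit [IsAlgClosed k] in
/-- closed points are dense -/
theorem exists_isMaximal_notMem {f : S} (hf : f ≠ 0) : ∃ m : Ideal S, m.IsMaximal ∧ f ∉ m := by
  haveI := h.dom
  haveI := h.isJacobsonRing
  by_contra hcon
  push Not at hcon
  apply hf
  have h1 : f ∈ (⊥ : Ideal S).jacobson := by
    rw [Ideal.jacobson, Submodule.mem_sInf]
    rintro (m : Ideal S) ⟨-, hm⟩
    exact hcon m hm
  rwa [IsJacobsonRing.out inferInstance (Ideal.isPrime_bot (α := S)).isRadical,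
    Ideal.mem_bot] at h1

omit [IsAlgClosed k] in
theorem infinite_isMaximal_notMem {f : S} (hf : f ≠ 0) :
    {m : Ideal S | m.IsMaximal ∧ f ∉ m}.Infinite := by
  haveI := h.dom
  intro hfin
  -- choose a nonzero element in each
  have h1 : ∀ m ∈ hfin.toFinset, ∃ a ∈ m, a ≠ 0 := by
    intro m hm
    rw [Set.Finite.mem_toFinset] at hm
    have hm0 : m ≠ ⊥ := fun h0 => h.not_isMaximal_bot (h0 ▸ hm.1)
    exact Submodule.exists_mem_ne_zero_of_ne_bot hm0
  choose! a ha ha0 using h1
  have h2 : f * ∏ m ∈ hfin.toFinset, a m ≠ 0 :=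
    mul_ne_zero hf (Finset.prod_ne_zero_iff.mpr ha0)
  obtain ⟨m, hm, hm'⟩ := h.exists_isMaximal_notMem h2
  have h3 : f ∉ m := fun hfm => hm' (Ideal.mul_mem_right _ _ hfm)
  have h4 : m ∈ hfin.toFinset := by
    rw [Set.Finite.mem_toFinset]; exact ⟨hm, h3⟩
  exact hm' (Ideal.mul_mem_left _ _ (Ideal.mem_of_dvd m (Finset.dvd_prod_of_mem a h4) (ha m h4)))

theorem finite_isPrime_le {I : Ideal S} (hI : I ≠ ⊥) : {p : Ideal S | p.IsPrime ∧ I ≤ p}.Finite := by
  haveI := h.isDedekindDomain
  haveI := h.isNoetherianRing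
  refine (Ideal.finite_minimalPrimes_of_isNoetherianRing S I).subset ?_
  rintro p ⟨hp, hIp⟩
  refine ⟨⟨hp, hIp⟩, ?_⟩
  rintro q ⟨hq, hIq⟩ hqp
  have hq0 : q ≠ ⊥ := fun h0 => hI (le_bot_iff.mp (h0 ▸ hIq))
  have hqm : q.IsMaximal := Ideal.IsPrime.isMaximal hq hq0
  exact (hqm.eq_of_le hp.ne_top hqp).ge

omit [IsAlgClosed k] in
theorem isNoetherianRing_tensor : IsNoetherianRing (S ⊗[k] S) := by
  haveI := h.ft
  haveI : Algebra.FiniteType k (S ⊗[k] S) :=
    Algebra.FiniteType.trans (S := S) inferInstance inferInstance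
  exact Algebra.FiniteType.isNoetherianRing k (S ⊗[k] S)

theorem isDomain_tensor : IsDomain (S ⊗[k] S) := by
  haveI := h.dom
  haveI := h.ft
  exact isDomain_tensorProduct k

theorem ideal_ne_bot : KaehlerDifferential.ideal k S ≠ ⊥ := by
  haveI := h.dom
  haveI := h.ft
  intro hbot
  obtain ⟨s, hs⟩ := h.exists_notMem_range
  obtain ⟨m, hm, -⟩ := h.exists_isMaximal_notMem (one_ne_zero (α := S))
  have h1 := KaehlerDifferential.one_smul_sub_smul_one_mem_ideal k s
  rw [hbot, Ideal.mem_bot] at h1
  have h2 := congrArg (evL (B := S) k m) h1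
  simp only [evL, map_sub, map_zero] at h2
  apply hs
  refine ⟨ev k m s, ?_⟩
  simp only [AlgHom.comp_apply, Algebra.TensorProduct.map_tmul, map_one, AlgHom.id_apply] at h2
  have h3 : (Algebra.TensorProduct.lid k S).toAlgHom ((1 : k) ⊗ₜ[k] s) = s := by
    simp
  have h4 : (Algebra.TensorProduct.lid k S).toAlgHom ((ev k m s) ⊗ₜ[k] (1 : S)) =
      algebraMap k S (ev k m s) := by
    simp [Algebra.smul_def]
  rw [h3, h4, sub_eq_zero] at h2
  exact h2.symm

omit [IsAlgClosed k] in
theorem locally_sq (P : Ideal (S ⊗[k] S)) [hP : P.IsPrime] :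
    ∃ a ∈ KaehlerDifferential.ideal k S, ∀ b ∈ KaehlerDifferential.ideal k S, ∃ s ∉ P,
      s * b ∈ Ideal.span {a} ⊔ KaehlerDifferential.ideal k S ^ 2 := by
  let p : Ideal S := P.comap (algebraMap S (S ⊗[k] S))
  obtain ⟨ω, hω⟩ := h.cyc p (Ideal.IsPrime.comap _)
  obtain ⟨⟨a, ha⟩, haω⟩ := (KaehlerDifferential.ideal k S).toCotangent_surjective ω
  refine ⟨a, ha, fun b hb => ?_⟩
  let η : Ω[S⁄k] := (KaehlerDifferential.ideal k S).toCotangent ⟨b, hb⟩
  obtain ⟨s, hs, r, hr⟩ := hω η
  refine ⟨algebraMap S (S ⊗[k] S) s, hs, ?_⟩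
  have hr1 : algebraMap S (S ⊗[k] S) s • η = algebraMap S (S ⊗[k] S) r • ω := by
    rw [algebraMap_smul, algebraMap_smul, hr]
  have hr2 : algebraMap S (S ⊗[k] S) s • (KaehlerDifferential.ideal k S).toCotangent ⟨b, hb⟩ =
      algebraMap S (S ⊗[k] S) r • (KaehlerDifferential.ideal k S).toCotangent ⟨a, ha⟩ := by
    rw [haω]; exact hr1
  rw [← map_smul, ← map_smul, Ideal.toCotangent_eq] at hr2
  simp only [SetLike.val_smul, smul_eq_mul] at hr2
  have h3 : algebraMap S (S ⊗[k] S) s * b = algebraMap S (S ⊗[k] S) r * a +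
      (algebraMap S (S ⊗[k] S) s * b - algebraMap S (S ⊗[k] S) r * a) := by ring
  rw [h3]
  exact Submodule.add_mem_sup (Ideal.mem_span_singleton.mpr ⟨_, mul_comm _ _⟩) hr2

/-- The ideal of the diagonal of a smooth affine curve is invertible. -/
theorem invertible_ideal : Module.Invertible (S ⊗[k] S) (KaehlerDifferential.ideal k S) := by
  haveI := h.isDomain_tensor
  haveI := h.isNoetherianRing_tensor
  refine invertible_of_locally _ (IsNoetherian.noetherian _) h.ideal_ne_bot fun P hP => ?_
  by_cases hJP : KaehlerDifferential.ideal k S ≤ P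
  · exact locally_of_locally_sq _ P (IsNoetherian.noetherian _) hJP (h.locally_sq P)
  · rw [SetLike.not_le_iff_exists] at hJP
    obtain ⟨a, ha, haP⟩ := hJP
    exact ⟨a, ha, fun b hb => ⟨a, haP, dvd_mul_right _ _⟩⟩

end IsCurveAlg

end Fermat.Agent.H51Curve
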