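import Mathlib
import Fermat.Agent.H25Defs
import Fermat.Agent.H51CurveRing

/-!
# Smooth curves over an algebraically closed field (S25-C1)
-/

set_option autoImplicit false
set_option linter.style.haveILetI false

open CategoryTheory AlgebraicGeometry CategoryTheory.Limits TopologicalSpace

namespace Fermat.Agent.H51Curve

open Fermat.Agent.H25 (strHom)

universe u

variable {k : Type u} [Field k] [IsAlgClosed k] {C : Scheme.{u}}
  (c : C ⟶ Spec (CommRingCat.of k)) [hc : SmoothOfRelativeDimension 1 c]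

omit [IsAlgClosed k] in
include hc in
theorem locallyOfFiniteType : LocallyOfFiniteType c := by
  haveI := SmoothOfRelativeDimension.smooth (n := 1) (f := c)
  infer_instance

include hc in
omit [IsAlgClosed k] in
theorem jacobsonSpace : JacobsonSpace C := by
  haveI := locallyOfFiniteType c
  exact LocallyOfFiniteType.jacobsonSpace c

omit [IsAlgClosed k] in
theorem strHom_locally {U : C.Opens} (hU : IsAffineOpen U) :
    RingHom.Locally (RingHom.IsStandardSmoothOfRelativeDimension 1) (strHom c U) := by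
  rw [strHom, CommRingCat.hom_comp, (RingHom.locally_respectsIso
    RingHom.isStandardSmoothOfRelativeDimension_respectsIso).cancel_left_isIso]
  exact HasRingHomProperty.appLE (@SmoothOfRelativeDimension 1) c hc
    ⟨⊤, isAffineOpen_top _⟩ ⟨U, hU⟩ le_top

omit [IsAlgClosed k] in
theorem strHom_finiteType {U : C.Opens} (hU : IsAffineOpen U) : (strHom c U).FiniteType := by
  haveI := locallyOfFiniteType c
  rw [strHom, CommRingCat.hom_comp, RingHom.finiteType_respectsIso.cancel_left_isIso]
  exact HasRingHomProperty.appLE @LocallyOfFiniteType c inferInstance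
    ⟨⊤, isAffineOpen_top _⟩ ⟨U, hU⟩ le_top

theorem isCurveAlg [IsIntegral C] {U : C.Opens} (hU : IsAffineOpen U) [Nonempty U] :
    letI := (strHom c U).toAlgebra
    IsCurveAlg k Γ(C, U) := by
  letI := (strHom c U).toAlgebra
  haveI : Algebra.FiniteType k Γ(C, U) := strHom_finiteType c hU
  exact isCurveAlg_of_locally k Γ(C, U) (strHom_locally c hU)

include c in
/-- coordinate rings of nonempty affine opens are Dedekind -/
theorem isDedekindDomain [IsIntegral C] {U : C.Opens} (hU : IsAffineOpen U) [Nonempty U] :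
    IsDedekindDomain Γ(C, U) := by
  letI := (strHom c U).toAlgebra
  exact (isCurveAlg c hU).isDedekindDomain

include c in
theorem not_isField [IsIntegral C] {U : C.Opens} (hU : IsAffineOpen U) [Nonempty U] :
    ¬ IsField Γ(C, U) := by
  letI := (strHom c U).toAlgebra
  exact (isCurveAlg c hU).notField

theorem exists_transcendental [IsIntegral C] {U : C.Opens} (hU : IsAffineOpen U) [Nonempty U] :
    ∃ t : Γ(C, U), ∀ p : Polynomial k, p.eval₂ (strHom c U) t = 0 → p = 0 := by
  letI := (strHom c U).toAlgebra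
  obtain ⟨t, ht⟩ := (isCurveAlg c hU).exists_transcendental
  refine ⟨t, fun p hp => ?_⟩
  exact (transcendental_iff.mp ht) p hp

theorem injective_eval₂_of_notMem_range [IsIntegral C] {U : C.Opens} (hU : IsAffineOpen U)
    [Nonempty U] {t : Γ(C, U)} (ht : t ∉ Set.range (strHom c U)) (p : Polynomial k)
    (hp : p.eval₂ (strHom c U) t = 0) : p = 0 := by
  letI := (strHom c U).toAlgebra
  exact (transcendental_iff.mp ((isCurveAlg c hU).transcendental_of_notMem_range ht)) p hp

omit [IsAlgClosed k] hc in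
theorem exists_affine {X : Scheme.{u}} {x : X} {W : X.Opens} (hx : x ∈ W) :
    ∃ U : X.Opens, IsAffineOpen U ∧ x ∈ U ∧ U ≤ W := by
  obtain ⟨_, ⟨U, hU, rfl⟩, hxU, h⟩ :=
    X.isBasis_affineOpens.exists_subset_of_mem_open hx W.isOpen
  exact ⟨U, hU, hxU, h⟩

include c in
/-- local rings at closed points are DVRs -/
theorem isDiscreteValuationRing_stalk [IsIntegral C] (x : C) (hx : IsClosed {x}) :
    IsDiscreteValuationRing (C.presheaf.stalk x) := by
  obtain ⟨U, hU, hxU, -⟩ := exists_affine (show x ∈ (⊤ : C.Opens) from trivial)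
  haveI : Nonempty U := ⟨⟨x, hxU⟩⟩
  letI := (strHom c U).toAlgebra
  letI := C.presheaf.algebra_section_stalk (⟨x, hxU⟩ : U)
  haveI := hU.isLocalization_stalk ⟨x, hxU⟩
  haveI := hU.primeIdealOf_isMaximal_of_isClosed ⟨x, hxU⟩ hx
  have h1 := (isCurveAlg c hU).isDiscreteValuationRing_localization
    (hU.primeIdealOf ⟨x, hxU⟩).asIdeal
  exact IsDiscreteValuationRing.RingEquivClass.isDiscreteValuationRing
    (IsLocalization.algEquiv (hU.primeIdealOf ⟨x, hxU⟩).asIdeal.primeCompl
      (Localization.AtPrime (hU.primeIdealOf ⟨x, hxU⟩).asIdeal) (C.presheaf.stalk x)).toRingEquiv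

include c in
theorem eq_genericPoint_or_isClosed [IsIntegral C] (x : C) : x = genericPoint C ∨ IsClosed {x} := by
  obtain ⟨U, hU, hxU, -⟩ := exists_affine (show x ∈ (⊤ : C.Opens) from trivial)
  haveI : Nonempty U := ⟨⟨x, hxU⟩⟩
  haveI := jacobsonSpace c
  haveI := isDedekindDomain c hU
  have hgen : genericPoint C ∈ U :=
    ((genericPoint_spec C).mem_open_set_iff U.isOpen).mpr ⟨x, trivial, hxU⟩
  by_cases hp : (hU.primeIdealOf ⟨x, hxU⟩).asIdeal = ⊥
  · left
    have h1 := hU.primeIdealOf_genericPoint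
    rw [genericPoint_eq_bot_of_affine] at h1
    have h2 : hU.primeIdealOf ⟨x, hxU⟩ = hU.primeIdealOf ⟨genericPoint C, hgen⟩ := by
      rw [h1]
      exact PrimeSpectrum.ext hp
    have h3 := hU.fromSpec_primeIdealOf ⟨x, hxU⟩
    rw [h2, hU.fromSpec_primeIdealOf] at h3
    exact h3.symm
  · right
    have h1 : (hU.primeIdealOf ⟨x, hxU⟩).asIdeal.IsMaximal :=
      Ideal.IsPrime.isMaximal inferInstance hp
    have h2 : hU.primeIdealOf ⟨x, hxU⟩ ∈ closedPoints (Spec Γ(C, U)) :=
      (PrimeSpectrum.isClosed_singleton_iff_isMaximal _).mpr h1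
    rw [← hU.fromSpec.isOpenEmbedding.preimage_closedPoints] at h2
    have h3 : hU.fromSpec (hU.primeIdealOf ⟨x, hxU⟩) ∈ closedPoints C := h2
    rw [hU.fromSpec_primeIdealOf ⟨x, hxU⟩] at h3
    exact h3

include c in
theorem valuationRing_stalk [IsIntegral C] (x : C) : ValuationRing (C.presheaf.stalk x) := by
  rcases eq_genericPoint_or_isClosed c x with rfl | hx
  · exact (inferInstance : ValuationRing C.functionField)
  · haveI := isDiscreteValuationRing_stalk c x hx
    infer_instance

include c in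
theorem isPrincipalIdealRing_stalk [IsIntegral C] (x : C) :
    IsPrincipalIdealRing (C.presheaf.stalk x) := by
  rcases eq_genericPoint_or_isClosed c x with rfl | hx
  · exact (inferInstance : IsPrincipalIdealRing C.functionField)
  · haveI := isDiscreteValuationRing_stalk c x hx
    infer_instance

include c in
theorem isClosed_singleton_iff [IsIntegral C] (x : C) : IsClosed {x} ↔ x ≠ genericPoint C := by
  refine ⟨?_, fun h => (eq_genericPoint_or_isClosed c x).resolve_left h⟩
  rintro hx rfl
  -- `C` would be a point and hence the spectrum of a field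
  obtain ⟨U, hU, hxU, -⟩ := exists_affine (show genericPoint C ∈ (⊤ : C.Opens) from trivial)
  haveI : Nonempty U := ⟨⟨genericPoint C, hxU⟩⟩
  have h1 := hU.primeIdealOf_isMaximal_of_isClosed ⟨_, hxU⟩ hx
  have h2 := hU.primeIdealOf_genericPoint
  rw [genericPoint_eq_bot_of_affine] at h2
  rw [h2] at h1
  exact not_isField c hU (Ring.isField_iff_maximal_bot.mpr h1)

include c in
theorem finite_inter_of_affine [IsIntegral C] {Z : Set C} (hZ : IsClosed Z)
    (hgen : genericPoint C ∉ Z) {U : C.Opens} (hU : IsAffineOpen U) : (Z ∩ U).Finite := by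
  rcases isEmpty_or_nonempty U with hemp | hne
  · have : Z ∩ U = ∅ := by
      ext x
      simp only [Set.mem_inter_iff, Set.mem_empty_iff_false, iff_false, not_and]
      exact fun _ hx => hemp.false ⟨x, hx⟩
    rw [this]
    exact Set.finite_empty
  letI := (strHom c U).toAlgebra
  have hcl : IsClosed (hU.fromSpec ⁻¹' Z) := hZ.preimage hU.fromSpec.continuous
  obtain ⟨I, hI⟩ := (PrimeSpectrum.isClosed_iff_zeroLocus_ideal
    (Z := (hU.fromSpec ⁻¹' Z : Set (PrimeSpectrum Γ(C, U))))).mp hcl
  have hI0 : I ≠ ⊥ := by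
    rintro rfl
    have h2 := hU.primeIdealOf_genericPoint
    have h3 : genericPoint (Spec Γ(C, U)) ∈ hU.fromSpec ⁻¹' Z := by
      change (genericPoint (Spec Γ(C, U)) : PrimeSpectrum Γ(C, U)) ∈
        (hU.fromSpec ⁻¹' Z : Set (PrimeSpectrum Γ(C, U)))
      rw [hI, Submodule.bot_coe, PrimeSpectrum.zeroLocus_singleton_zero]
      trivial
    rw [← h2] at h3
    have h4 : hU.fromSpec (hU.primeIdealOf ⟨genericPoint C, _⟩) ∈ Z := h3
    rw [hU.fromSpec_primeIdealOf] at h4
    exact hgen h4
  have hfin := (isCurveAlg c hU).finite_isPrime_le hI0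
  have hfin2 : (PrimeSpectrum.zeroLocus (I : Set Γ(C, U))).Finite := by
    refine (hfin.preimage (f := PrimeSpectrum.asIdeal)
      (fun a _ b _ hab => PrimeSpectrum.ext hab)).subset ?_
    intro p hp
    exact ⟨p.2, hp⟩
  have hfin3 : (hU.fromSpec '' (hU.fromSpec ⁻¹' Z)).Finite := by
    refine Set.Finite.image _ ?_
    change (hU.fromSpec ⁻¹' Z : Set (PrimeSpectrum Γ(C, U))).Finite
    rw [hI]
    exact hfin2
  refine hfin3.subset ?_
  rintro x ⟨hxZ, hxU⟩
  refine ⟨hU.primeIdealOf ⟨x, hxU⟩, ?_, hU.fromSpec_primeIdealOf ⟨x, hxU⟩⟩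
  change hU.fromSpec (hU.primeIdealOf ⟨x, hxU⟩) ∈ Z
  rw [hU.fromSpec_primeIdealOf ⟨x, hxU⟩]
  exact hxZ

include c in
/-- proper closed subsets are finite -/
theorem finite_of_isClosed [IsIntegral C] [CompactSpace C] {Z : Set C} (hZ : IsClosed Z)
    (hgen : genericPoint C ∉ Z) : Z.Finite := by
  have h := (isCompact_univ (X := C)).induction_on (p := fun s => (Z ∩ s).Finite)
    (by simp) (fun s t hst ht => ht.subset (Set.inter_subset_inter_right _ hst))
    (fun s t hs ht => by rw [Set.inter_union_distrib_left]; exact hs.union ht)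
    (fun x _ => by
      obtain ⟨U, hU, hxU, -⟩ := exists_affine (show x ∈ (⊤ : C.Opens) from trivial)
      exact ⟨U, mem_nhdsWithin_of_mem_nhds (U.isOpen.mem_nhds hxU),
        finite_inter_of_affine c hZ hgen hU⟩)
  simpa using h

include c in
/-- complements of nonempty opens are finite -/
theorem finite_compl [IsIntegral C] [CompactSpace C] (U : C.Opens) [hU : Nonempty U] :
    ((U : Set C)ᶜ).Finite := by
  refine finite_of_isClosed c U.isOpen.isClosed_compl ?_
  rw [Set.notMem_compl_iff]
  obtain ⟨⟨x, hx⟩⟩ := hU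
  exact ((genericPoint_spec C).mem_open_set_iff U.isOpen).mpr ⟨x, trivial, hx⟩

include c in
/-- a finite set of closed points is closed, and its complement is a nonempty open -/
theorem infinite_closedPoints [IsIntegral C] (U : C.Opens) [hU : Nonempty U] :
    {x : C | x ∈ U ∧ IsClosed {x}}.Infinite := by
  obtain ⟨⟨x, hx⟩⟩ := hU
  obtain ⟨V, hV, hxV, hVU⟩ := exists_affine hx
  haveI : Nonempty V := ⟨⟨x, hxV⟩⟩
  letI := (strHom c V).toAlgebra
  haveI := jacobsonSpace c
  have hinf := (isCurveAlg c hV).infinite_isMaximal_notMem (f := (1 : Γ(C, V)))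
    (by haveI := (isCurveAlg c hV).dom; exact one_ne_zero)
  intro hfin
  apply hinf
  have h1 : (hV.fromSpec ⁻¹' {x : C | x ∈ U ∧ IsClosed {x}} : Set (PrimeSpectrum Γ(C, V))).Finite :=
    hfin.preimage (hV.fromSpec.isOpenEmbedding.injective.injOn)
  refine (h1.image PrimeSpectrum.asIdeal).subset ?_
  rintro m ⟨hm, -⟩
  haveI := hm.isPrime
  refine ⟨⟨m, inferInstance⟩, ?_, rfl⟩
  have h2 : (⟨m, inferInstance⟩ : PrimeSpectrum Γ(C, V)) ∈ closedPoints (Spec Γ(C, V)) :=
    (PrimeSpectrum.isClosed_singleton_iff_isMaximal _).mpr hm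
  rw [← hV.fromSpec.isOpenEmbedding.preimage_closedPoints] at h2
  refine (⟨hVU ?_, h2⟩ : _ ∧ _)
  have h3 : hV.fromSpec ⟨m, inferInstance⟩ ∈ Set.range hV.fromSpec := ⟨_, rfl⟩
  rw [hV.range_fromSpec] at h3
  exact h3

include c in
theorem exists_closedPoint_notMem [IsIntegral C] (U : C.Opens) [hU : Nonempty U] (T : Set C)
    (hT : T.Finite) : ∃ x ∈ U, IsClosed {x} ∧ x ∉ T := by
  by_contra hcon
  push Not at hcon
  exact infinite_closedPoints c U (hT.subset fun x hx => hcon x hx.1 hx.2)

/-- The ideal of the diagonal is invertible on `U × U`. -/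
theorem invertible_ideal [IsIntegral C] {U : C.Opens} (hU : IsAffineOpen U) [Nonempty U] :
    letI := (strHom c U).toAlgebra
    Module.Invertible (TensorProduct k Γ(C, U) Γ(C, U)) (KaehlerDifferential.ideal k Γ(C, U)) := by
  letI := (strHom c U).toAlgebra
  exact (isCurveAlg c hU).invertible_ideal

end Fermat.Agent.H51Curve
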