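import Fermat.Agent.H20TwLoc
import Fermat.Agent.H20TwAlg
import Fermat.Agent.H51Curve
/-!
# S25, job E4, part 4: graphs of morphisms to a smooth curve are Cartier divisors
-/
set_option autoImplicit false
universe u v
open CategoryTheory AlgebraicGeometry CategoryTheory.Limits TopologicalSpace Opposite
open AlgebraicGeometry.RelPicard NeronModelInfra
open scoped TensorProduct

noncomputable section

namespace Fermat.Agent.H20T

open Fermat.Agent.H25 Fermat.Agent.H51Aff

/-- a pushout square of rings is a tensor product -/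
theorem exists_ringEquiv_of_isPushout {R A B P : CommRingCat.{u}} {f : R ⟶ A} {g : R ⟶ B}
    {inl : A ⟶ P} {inr : B ⟶ P} (h : IsPushout f g inl inr) :
    letI := f.hom.toAlgebra; letI := g.hom.toAlgebra
    ∃ Θ : A ⊗[R] B ≃+* P, (∀ a, Θ (a ⊗ₜ 1) = inl a) ∧ (∀ b, Θ (1 ⊗ₜ b) = inr b) := by
  let _ := f.hom.toAlgebra
  let _ := g.hom.toAlgebra
  have h2 := CommRingCat.isPushout_tensorProduct R A B
  have h2' : IsPushout f g
      (CommRingCat.ofHom (S := A ⊗[R] B) <| Algebra.TensorProduct.includeLeftRingHom)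
      (CommRingCat.ofHom (S := A ⊗[R] B) <| Algebra.TensorProduct.includeRight.toRingHom) := h2
  let e : CommRingCat.of (A ⊗[R] B) ≅ P := h2'.isoPushout ≪≫ h.isoPushout.symm
  have e1 : CommRingCat.ofHom (S := A ⊗[R] B) (Algebra.TensorProduct.includeLeftRingHom) ≫ e.hom
      = inl := by simp [e]
  have e2 : CommRingCat.ofHom (S := A ⊗[R] B) (Algebra.TensorProduct.includeRight.toRingHom)
      ≫ e.hom = inr := by simp [e]
  refine ⟨e.commRingCatIsoToRingEquiv, fun a ↦ ?_, fun b ↦ ?_⟩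
  · exact congr($e1 a)
  · exact congr($e2 b)

variable {k : Type u} [Field k] {C T T' : Scheme.{u}}

/-- the graph of `y : T ⟶ C` -/
def graph {c : C ⟶ Spec (CommRingCat.of k)} {t : T ⟶ Spec (CommRingCat.of k)}
    (y : SchemeHomOver t c) : T ⟶ pullback c t :=
  pullback.lift y.1 (𝟙 T) (by rw [y.2, Category.id_comp])

section

variable {c : C ⟶ Spec (CommRingCat.of k)} {t : T ⟶ Spec (CommRingCat.of k)}
  {t' : T' ⟶ Spec (CommRingCat.of k)} (y : SchemeHomOver t c)

@[reassoc (attr := simp)]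
lemma graph_fst : graph y ≫ pullback.fst c t = y.1 := pullback.lift_fst _ _ _
@[reassoc (attr := simp)]
lemma graph_snd : graph y ≫ pullback.snd c t = 𝟙 T := pullback.lift_snd _ _ _

@[reassoc (attr := simp)]
lemma baseChangeSnd_fst (ψ : SchemeHomOver t' t) :
    baseChangeSnd c ψ ≫ pullback.fst c t = pullback.fst c t' := by
  unfold baseChangeSnd
  rw [pullback.lift_fst, Category.comp_id]
@[reassoc (attr := simp)]
lemma baseChangeSnd_snd (ψ : SchemeHomOver t' t) :
    baseChangeSnd c ψ ≫ pullback.snd c t = pullback.snd c t' ≫ ψ.1 := by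
  unfold baseChangeSnd
  rw [pullback.lift_snd]

/-- `Γ(C_T, V × A) = Γ(C, V) ⊗ Γ(T, A)` -/
theorem exists_theta (c : C ⟶ Spec (CommRingCat.of k)) (t : T ⟶ Spec (CommRingCat.of k))
    {V : C.Opens} (hV : IsAffineOpen V) {A : T.Opens} (hA : IsAffineOpen A)
    {W : (pullback c t).Opens} (hW : W = (pullback.fst c t) ⁻¹ᵁ V ⊓ (pullback.snd c t) ⁻¹ᵁ A) :
    letI := (strHom c V).toAlgebra; letI := (strHom t A).toAlgebra
    ∃ Θ : Γ(C, V) ⊗[k] Γ(T, A) ≃+* Γ(pullback c t, W),
      (∀ b, Θ (b ⊗ₜ 1) = (pullback.fst c t).appLE V W (hW.le.trans inf_le_left) b) ∧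
      (∀ a, Θ (1 ⊗ₜ a) = (pullback.snd c t).appLE A W (hW.le.trans inf_le_right) a) := by
  have h1 := (isIso_pushoutSection_iff (IsPullback.of_hasPullback c t) (US := ⊤) (UT := A)
    (UX := V) (UY := W) le_top le_top hW).mp
    (isIso_pushoutSection_of_isAffineOpen _ _ _ _ (isAffineOpen_top _) hA hV)
  have h2 : IsPushout ((Scheme.ΓSpecIso (CommRingCat.of k)).inv ≫ c.appLE ⊤ V le_top)
      ((Scheme.ΓSpecIso (CommRingCat.of k)).inv ≫ t.appLE ⊤ A le_top)
      ((pullback.fst c t).appLE V W (hW.le.trans inf_le_left))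
      ((pullback.snd c t).appLE A W (hW.le.trans inf_le_right)) := by
    refine IsPushout.of_iso h1 (Scheme.ΓSpecIso (CommRingCat.of k)) (Iso.refl _) (Iso.refl _)
      (Iso.refl _) ?_ ?_ ?_ ?_ <;> simp
  exact exists_ringEquiv_of_isPushout h2

/-- the key local statement: equations on `V × V` give equations of all graphs -/
theorem exists_good (c : C ⟶ Spec (CommRingCat.of k)) {V : C.Opens} (hV : IsAffineOpen V)
    (hinv : letI := (strHom c V).toAlgebra;
      Module.Invertible (Γ(C, V) ⊗[k] Γ(C, V)) (KaehlerDifferential.ideal k Γ(C, V)))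
    {W₁ : (pullback c c).Opens}
    (hW₁ : W₁ = (pullback.fst c c) ⁻¹ᵁ V ⊓ (pullback.snd c c) ⁻¹ᵁ V) :
    ∃ (n : ℕ) (f e : Fin n → Γ(pullback c c, W₁)), ∑ i, f i = 1 ∧
      ∀ (i : Fin n) {T : Scheme.{u}} (t : T ⟶ Spec (CommRingCat.of k)) (y : SchemeHomOver t c)
        (A : T.Opens) (_ : IsAffineOpen A) (_ : A ≤ y.1 ⁻¹ᵁ V) (WA : (pullback c t).Opens)
        (_ : WA = (pullback.fst c t) ⁻¹ᵁ V ⊓ (pullback.snd c t) ⁻¹ᵁ A)
        (hle : WA ≤ (baseChangeSnd c y) ⁻¹ᵁ W₁),
        (graph y).app WA ((baseChangeSnd c y).appLE W₁ WA hle (e i)) = 0 ∧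
        (∀ g : Γ(pullback c t, WA), (graph y).app WA g = 0 →
          ∃ a : Γ(pullback c t, WA), (baseChangeSnd c y).appLE W₁ WA hle (f i) * g =
            a * (baseChangeSnd c y).appLE W₁ WA hle (e i)) ∧
        (∀ x : Γ(pullback c t, WA), x * (baseChangeSnd c y).appLE W₁ WA hle (e i) = 0 →
          (baseChangeSnd c y).appLE W₁ WA hle (f i) * x = 0) := by
  let algV := (strHom c V).toAlgebra
  have := hinv
  obtain ⟨n, f, e, ψ, hsum, he, hψ, -⟩ := H51Inv.exists_locGen_strong (Γ(C, V) ⊗[k] Γ(C, V))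
    (KaehlerDifferential.ideal k Γ(C, V))
  obtain ⟨Θ₁, hΘ₁l, hΘ₁r⟩ := exists_theta c c hV hV hW₁
  refine ⟨n, fun i ↦ Θ₁ (f i), fun i ↦ Θ₁ (e i).1, by rw [← map_sum, hsum, map_one], ?_⟩
  intro i T t y A hA hAV WA hWA hle
  let algA := (strHom t A).toAlgebra
  obtain ⟨Θ, hΘl, hΘr⟩ := exists_theta c t hV hA hWA
  -- the algebra map
  let ys : Γ(C, V) →ₐ[k] Γ(T, A) :=
    { toRingHom := (y.1.appLE V A hAV).hom
      commutes' := fun r ↦ by
        have h1 : c.appLE ⊤ V le_top ≫ y.1.appLE V A hAV = t.appLE ⊤ A le_top := by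
          rw [Scheme.Hom.appLE_comp_appLE]
          congr 1
          exact y.2
        have h2 := congr($h1 ((Scheme.ΓSpecIso (CommRingCat.of k)).inv r))
        exact h2 }
  -- compatibilities
  have hcomp : ∀ r, (baseChangeSnd c y).appLE W₁ WA hle (Θ₁ r) = Θ (gφ ys r) := by
    have hl : ∀ b, (baseChangeSnd c y).appLE W₁ WA hle (Θ₁ (b ⊗ₜ 1)) = Θ (b ⊗ₜ 1) := by
      intro b
      rw [hΘ₁l, hΘl]
      have h1 : (pullback.fst c c).appLE V W₁ (hW₁.le.trans inf_le_left) ≫
          (baseChangeSnd c y).appLE W₁ WA hle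
          = (pullback.fst c t).appLE V WA (hWA.le.trans inf_le_left) := by
        rw [Scheme.Hom.appLE_comp_appLE]
        congr 1
        exact baseChangeSnd_fst y
      exact congr($h1 b)
    have hr : ∀ b, (baseChangeSnd c y).appLE W₁ WA hle (Θ₁ (1 ⊗ₜ b)) = Θ (1 ⊗ₜ ys b) := by
      intro b
      rw [hΘ₁r, hΘr]
      have h1 : (pullback.snd c c).appLE V W₁ (hW₁.le.trans inf_le_right) ≫
          (baseChangeSnd c y).appLE W₁ WA hle
          = y.1.appLE V A hAV ≫ (pullback.snd c t).appLE A WA (hWA.le.trans inf_le_right) := by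
        rw [Scheme.Hom.appLE_comp_appLE, Scheme.Hom.appLE_comp_appLE]
        congr 1
        exact baseChangeSnd_snd y
      exact congr($h1 b)
    intro r
    induction r with
    | zero => simp only [map_zero]
    | add x x' hx hx' => simp only [map_add, hx, hx']
    | tmul b b' =>
      have h1 : b ⊗ₜ[k] b' = (b ⊗ₜ 1) * (1 ⊗ₜ b') := by
        rw [Algebra.TensorProduct.tmul_mul_tmul, one_mul, mul_one]
      rw [h1, map_mul, map_mul, hl, hr, map_mul, map_mul, gφ_tmul, gφ_tmul, map_one]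
  have hAWA : A ≤ (graph y) ⁻¹ᵁ WA := by
    rw [hWA, Scheme.Hom.preimage_inf, ← Scheme.Hom.comp_preimage, ← Scheme.Hom.comp_preimage,
      graph_fst, graph_snd]
    exact le_inf hAV le_rfl
  have hAWA' : (graph y) ⁻¹ᵁ WA ≤ A := by
    rw [hWA, Scheme.Hom.preimage_inf, ← Scheme.Hom.comp_preimage, ← Scheme.Hom.comp_preimage,
      graph_fst, graph_snd]
    exact inf_le_right
  have hρ : ∀ r, (graph y).appLE WA A hAWA (Θ r) = gρ ys r := by
    have hl : ∀ b, (graph y).appLE WA A hAWA (Θ (b ⊗ₜ 1)) = ys b := by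
      intro b
      rw [hΘl]
      have h1 : (pullback.fst c t).appLE V WA (hWA.le.trans inf_le_left) ≫
          (graph y).appLE WA A hAWA = y.1.appLE V A hAV := by
        rw [Scheme.Hom.appLE_comp_appLE]
        congr 1
        exact graph_fst y
      exact congr($h1 b)
    have hr : ∀ a, (graph y).appLE WA A hAWA (Θ (1 ⊗ₜ a)) = a := by
      intro a
      rw [hΘr]
      have h1 : (pullback.snd c t).appLE A WA (hWA.le.trans inf_le_right) ≫
          (graph y).appLE WA A hAWA = (𝟙 T : T ⟶ T).appLE A A le_rfl := by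
        rw [Scheme.Hom.appLE_comp_appLE]
        congr 1
        exact graph_snd y
      have h3 : (𝟙 T : T ⟶ T).appLE A A le_rfl = 𝟙 _ := by
        rw [← Scheme.Hom.id_app]; exact (Scheme.Hom.app_eq_appLE (𝟙 T)).symm
      rw [h3] at h1
      exact congr($h1 a)
    intro r
    induction r with
    | zero => simp only [map_zero]
    | add x x' hx hx' => simp only [map_add, hx, hx']
    | tmul b b' =>
      have h1 : b ⊗ₜ[k] b' = (b ⊗ₜ 1) * (1 ⊗ₜ b') := by
        rw [Algebra.TensorProduct.tmul_mul_tmul, one_mul, mul_one]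
      rw [gρ_tmul, h1, map_mul, map_mul, hl, hr]
  have hzero : ∀ g : Γ(pullback c t, WA), (graph y).app WA g = 0 ↔
      (graph y).appLE WA A hAWA g = 0 := by
    intro g
    have h1 : (graph y).appLE WA A hAWA g = resO hAWA ((graph y).app WA g) := rfl
    constructor
    · intro h
      rw [h1, h, resO_zero]
    · intro h
      have h2 := congrArg (resO hAWA') h
      rwa [h1, resO_resO, resO_self, resO_zero] at h2
  refine ⟨?_, fun g hg ↦ ?_, fun x hx ↦ ?_⟩
  · rw [hzero, hcomp, hρ, gρ_gφ]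
  · rw [hzero] at hg
    obtain ⟨g, rfl⟩ := Θ.surjective g
    rw [hρ] at hg
    obtain ⟨a, ha⟩ := graph_surj ys (hψ i) g hg
    refine ⟨Θ a, ?_⟩
    rw [hcomp, hcomp, ← map_mul, ← map_mul, ha]
  · obtain ⟨x, rfl⟩ := Θ.surjective x
    rw [hcomp, ← map_mul] at hx
    have hx' := Θ.injective (hx.trans (map_zero Θ).symm)
    have h1 := graph_inj ys (he i) x hx'
    rw [hcomp, ← map_mul, h1, map_zero]

/-- `e` is a universal local equation of graphs -/
def UnivLocEq (c : C ⟶ Spec (CommRingCat.of k)) {W : (pullback c c).Opens}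
    (e : Γ(pullback c c, W)) : Prop :=
  ∀ {T : Scheme.{u}} (t : T ⟶ Spec (CommRingCat.of k)) (y : SchemeHomOver t c),
    IsLocEq (graph y) ((baseChangeSnd c y).app W e)

/-- the diagonal point of view: `graph y ≫ (id × y) = y ≫ Δ` -/
lemma graph_baseChangeSnd (y : SchemeHomOver t c) (ψ : SchemeHomOver t' t) :
    graph (postComp y ψ) ≫ baseChangeSnd c ψ = ψ.1 ≫ graph y := by
  apply pullback.hom_ext
  · simp [postComp]
  · simp

theorem isAffineOpen_inf (c : C ⟶ Spec (CommRingCat.of k)) (t : T ⟶ Spec (CommRingCat.of k))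
    {V : C.Opens} (hV : IsAffineOpen V) {A : T.Opens} (hA : IsAffineOpen A)
    {W : (pullback c t).Opens} (hW : W = (pullback.fst c t) ⁻¹ᵁ V ⊓ (pullback.snd c t) ⁻¹ᵁ A) :
    IsAffineOpen W := by
  have : IsAffine (⊤ : (Spec (CommRingCat.of k)).Opens).toScheme := isAffineOpen_top _
  have : IsAffine _ := hV
  have : IsAffine _ := hA
  exact .of_isIso (Scheme.Hom.isPullback_resLE (IsPullback.of_hasPullback c t)
    (US := ⊤) le_top le_top hW).isoPullback.hom

lemma graph_preimage (V : C.Opens) (A : T.Opens) :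
    (graph y) ⁻¹ᵁ ((pullback.fst c t) ⁻¹ᵁ V ⊓ (pullback.snd c t) ⁻¹ᵁ A) = y.1 ⁻¹ᵁ V ⊓ A := by
  rw [Scheme.Hom.preimage_inf, ← Scheme.Hom.comp_preimage, ← Scheme.Hom.comp_preimage,
    graph_fst, graph_snd]
  rfl

theorem univLocEq_basicOpen (c : C ⟶ Spec (CommRingCat.of k)) {V : C.Opens} (hV : IsAffineOpen V)
    (hinv : letI := (strHom c V).toAlgebra;
      Module.Invertible (Γ(C, V) ⊗[k] Γ(C, V)) (KaehlerDifferential.ideal k Γ(C, V)))
    (P : ↥(pullback c c)) (hP : P ∈ (pullback.fst c c) ⁻¹ᵁ V ⊓ (pullback.snd c c) ⁻¹ᵁ V) :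
    ∃ (W : (pullback c c).Opens) (_ : P ∈ W) (e : Γ(pullback c c, W)), UnivLocEq c e := by
  obtain ⟨n, f, e, hsum, hgood⟩ := exists_good c hV hinv rfl
  -- choose an index
  have hi : ∃ i, P ∈ (pullback c c).basicOpen (f i) := by
    by_contra hcon
    push Not at hcon
    have h1 : ((pullback c c).presheaf.germ _ P hP).hom (∑ i, f i) ∈
        IsLocalRing.maximalIdeal ((pullback c c).presheaf.stalk P) := by
      rw [map_sum]
      refine Ideal.sum_mem _ fun i _ ↦ ?_
      rw [IsLocalRing.mem_maximalIdeal, mem_nonunits_iff]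
      intro hu
      exact hcon i (((pullback c c).mem_basicOpen (f i) P hP).mpr hu)
    rw [hsum, map_one] at h1
    exact (Ideal.ne_top_iff_one _).mp (IsLocalRing.maximalIdeal.isMaximal _).ne_top h1
  obtain ⟨i, hPi⟩ := hi
  refine ⟨(pullback c c).basicOpen (f i), hPi, resO ((pullback c c).basicOpen_le _) (e i), ?_⟩
  intro T t y
  -- cover of `y ⁻¹ V`
  refine IsLocEq.of_cover (ι := {A : T.Opens // IsAffineOpen A ∧ A ≤ y.1 ⁻¹ᵁ V})
    (fun A ↦ (baseChangeSnd c y) ⁻¹ᵁ (pullback c c).basicOpen (f i) ⊓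
      (pullback.snd c t) ⁻¹ᵁ A.1) (fun A ↦ inf_le_left) ?_ ?_
  · intro x hx
    have hx1 : x ∈ (baseChangeSnd c y) ⁻¹ᵁ ((pullback.fst c c) ⁻¹ᵁ V ⊓
      (pullback.snd c c) ⁻¹ᵁ V) := (baseChangeSnd c y).preimage_mono
        ((pullback c c).basicOpen_le _) hx
    have hx2 : (pullback.snd c t) x ∈ y.1 ⁻¹ᵁ V := by
      have h1 : x ∈ (baseChangeSnd c y) ⁻¹ᵁ ((pullback.snd c c) ⁻¹ᵁ V) := hx1.2
      rw [← Scheme.Hom.comp_preimage, baseChangeSnd_snd, Scheme.Hom.comp_preimage] at h1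
      exact h1
    obtain ⟨_, ⟨A, hA, rfl⟩, hxA, hAV⟩ :=
      T.isBasis_affineOpens.exists_subset_of_mem_open hx2 (y.1 ⁻¹ᵁ V).isOpen
    exact Opens.mem_iSup.mpr ⟨⟨A, hA, hAV⟩, hx, hxA⟩
  · rintro ⟨A, hA, hAV⟩
    set WA : (pullback c t).Opens := (pullback.fst c t) ⁻¹ᵁ V ⊓ (pullback.snd c t) ⁻¹ᵁ A with hWA
    have hle : WA ≤ (baseChangeSnd c y) ⁻¹ᵁ ((pullback.fst c c) ⁻¹ᵁ V ⊓
        (pullback.snd c c) ⁻¹ᵁ V) := by
      rw [Scheme.Hom.preimage_inf, ← Scheme.Hom.comp_preimage, ← Scheme.Hom.comp_preimage,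
        baseChangeSnd_fst, baseChangeSnd_snd, Scheme.Hom.comp_preimage]
      exact inf_le_inf le_rfl ((pullback.snd c t).preimage_mono hAV)
    obtain ⟨g1, g2, g3⟩ := hgood i t y A hA hAV WA hWA hle
    have hWAaff : IsAffineOpen WA := isAffineOpen_inf c t hV hA hWA
    have hγ : (graph y) ⁻¹ᵁ WA = A := by
      rw [hWA, graph_preimage]; exact inf_eq_right.mpr hAV
    have h1 := isLocEq_of_affine (γ := graph y) hWAaff (by rw [hγ]; exact hA) _ _ g1
      (fun g hg ↦ by
        obtain ⟨a, ha⟩ := g2 g hg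
        exact ⟨1, a, by rw [pow_one, ha]⟩)
      (fun x hx ↦ ⟨1, by rw [pow_one, g3 x hx]⟩)
    have hle' : (baseChangeSnd c y) ⁻¹ᵁ (pullback c c).basicOpen (f i) ⊓ (pullback.snd c t) ⁻¹ᵁ A ≤
        (pullback c t).basicOpen ((baseChangeSnd c y).appLE _ WA hle (f i)) := by
      have e1 : (baseChangeSnd c y).appLE _ WA hle (f i)
          = resO hle ((baseChangeSnd c y).app _ (f i)) := rfl
      rw [e1, basicOpen_resO, ← Scheme.preimage_basicOpen]
      refine le_inf (le_inf ?_ inf_le_right) inf_le_left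
      have e2 : (baseChangeSnd c y) ⁻¹ᵁ ((pullback.fst c c) ⁻¹ᵁ V) = (pullback.fst c t) ⁻¹ᵁ V := by
        rw [← Scheme.Hom.comp_preimage, baseChangeSnd_fst]
      rw [← e2]
      exact inf_le_left.trans ((baseChangeSnd c y).preimage_mono
        (((pullback c c).basicOpen_le _).trans inf_le_left))
    have h2 := h1.res hle'
    have h3 : resO hle' (resO ((pullback c t).basicOpen_le _)
        ((baseChangeSnd c y).appLE _ WA hle (e i))) = resO inf_le_left
          ((baseChangeSnd c y).app _ (resO ((pullback c c).basicOpen_le _) (e i))) := by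
      have e1 : (baseChangeSnd c y).appLE _ WA hle (e i)
          = resO hle ((baseChangeSnd c y).app _ (e i)) := rfl
      rw [e1, app_resO, resO_resO, resO_resO, resO_resO]
    rw [h3] at h2
    exact h2

/-- the diagonal -/
def diag (c : C ⟶ Spec (CommRingCat.of k)) : C ⟶ pullback c c :=
  graph (⟨𝟙 C, Category.id_comp c⟩ : SchemeHomOver c c)

lemma diag_eq (c : C ⟶ Spec (CommRingCat.of k)) : diag c = pullback.diagonal c := by
  apply pullback.hom_ext
  · simp [diag]
  · simp [diag]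

lemma graph_comp_baseChangeSnd : graph y ≫ baseChangeSnd c y = y.1 ≫ diag c := by
  apply pullback.hom_ext
  · simp [diag]
  · simp [diag]

/-- universal local equations exist near every point -/
theorem exists_univLocEq [IsAlgClosed k] (c : C ⟶ Spec (CommRingCat.of k)) [IsSeparated c]
    [SmoothOfRelativeDimension 1 c] [IsIntegral C] (P : ↥(pullback c c)) :
    ∃ (W : (pullback c c).Opens) (_ : P ∈ W) (e : Γ(pullback c c, W)), UnivLocEq c e := by
  have hcl : IsClosedImmersion (diag c) := by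
    rw [diag_eq]; infer_instance
  by_cases hP : P ∈ Set.range (diag c)
  · obtain ⟨q, rfl⟩ := hP
    obtain ⟨_, ⟨V, hV, rfl⟩, hqV, -⟩ :=
      C.isBasis_affineOpens.exists_subset_of_mem_open (Set.mem_univ q) isOpen_univ
    have : Nonempty V := ⟨⟨q, hqV⟩⟩
    refine univLocEq_basicOpen c hV (H51Curve.invertible_ideal c hV) _ ?_
    have h1 : q ∈ (diag c) ⁻¹ᵁ ((pullback.fst c c) ⁻¹ᵁ V ⊓ (pullback.snd c c) ⁻¹ᵁ V) := by
      unfold diag
      rw [graph_preimage]
      exact ⟨hqV, hqV⟩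
    exact h1
  · refine ⟨⟨(Set.range (diag c))ᶜ, (diag c).isClosedEmbedding.isClosed_range.isOpen_compl⟩, hP, 1, ?_⟩
    intro T t y
    rw [map_one]
    refine isLocEq_one ?_
    rw [← Scheme.Hom.comp_preimage, graph_comp_baseChangeSnd, Scheme.Hom.comp_preimage]
    have h1 : (diag c) ⁻¹ᵁ ⟨(Set.range (diag c))ᶜ,
        (diag c).isClosedEmbedding.isClosed_range.isOpen_compl⟩ = ⊥ := by
      ext x
      simp
    rw [h1]
    rfl

variable [IsAlgClosed k] [IsSeparated c] [SmoothOfRelativeDimension 1 c] [IsIntegral C]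

/-- graphs are Cartier divisors -/
theorem isCart_graph : IsCart (graph y) := by
  intro p
  obtain ⟨W, hW, e, he⟩ := exists_univLocEq c (baseChangeSnd c y p)
  exact ⟨(baseChangeSnd c y) ⁻¹ᵁ W, hW, _, he t y⟩

/-- compatibility of local equations of graphs with base change -/
theorem graph_hloc (ψ : SchemeHomOver t' t) (p : ↥(pullback c t')) :
    ∃ (W : (pullback c t).Opens) (_ : (baseChangeSnd c ψ) p ∈ W) (e : Γ(pullback c t, W)),
      IsLocEq (graph y) e ∧ IsLocEq (graph (postComp y ψ)) ((baseChangeSnd c ψ).app W e) := by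
  have hcomp : baseChangeSnd c ψ ≫ baseChangeSnd c y = baseChangeSnd c (postComp y ψ) :=
    baseChangeSnd_comp c y ψ
  obtain ⟨W, hW, e, he⟩ := exists_univLocEq c (baseChangeSnd c (postComp y ψ) p)
  refine ⟨(baseChangeSnd c y) ⁻¹ᵁ W, ?_, (baseChangeSnd c y).app W e, he t y, ?_⟩
  · rw [← hcomp] at hW
    exact hW
  · have h1 := he t' (postComp y ψ)
    have h2 : (baseChangeSnd c ψ).app ((baseChangeSnd c y) ⁻¹ᵁ W) ((baseChangeSnd c y).app W e)
        = resO (by rw [← hcomp]; rfl) ((baseChangeSnd c (postComp y ψ)).app W e) := by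
      have h3 := Scheme.Hom.congr_app hcomp W
      have h4 := congr($h3 e)
      exact h4
    rw [h2]
    exact h1.res _

theorem IsTw.graph_baseChange {L M : (pullback c t).Modules} {y : SchemeHomOver t c}
    (h : IsTw (graph y) L M) (hM : Scheme.Modules.IsInvertible M) (ψ : SchemeHomOver t' t) :
    IsTw (graph (postComp y ψ)) ((Scheme.Modules.pullback (baseChangeSnd c ψ)).obj L)
      ((Scheme.Modules.pullback (baseChangeSnd c ψ)).obj M) :=
  h.baseChange (graph_hloc y ψ) hM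

end

end Fermat.Agent.H20T
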