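import Fermat.Agent.H25Gen
/-!
# S25: generators of invertible modules (job A1), part 2
* `mkHom`, `isIso_of_isGen`, `exists_glueHom`, `hom_ext_gen`
* sections of the unit module: `uSec`, `uFun`, `isGen_one`, `isGen_uSec_iff`, `unitHom`
* open immersions: `isGen_restrictAppIso_inv`, `pb_eq_restrict`
* `isInvertible_iff`
-/
set_option autoImplicit false
universe u v
open CategoryTheory AlgebraicGeometry CategoryTheory.Limits TopologicalSpace

namespace Fermat.Agent.H25

variable {X Y : Scheme.{u}} {M N : X.Modules}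

/-- construct a morphism of `O_X`-modules from its action on sections. -/
noncomputable def mkHom (f : ∀ U : X.Opens, Γ(M, U) →+ Γ(N, U))
    (hsmul : ∀ (U : X.Opens) (a : Γ(X, U)) (x : Γ(M, U)), f U (a • x) = a • f U x)
    (hres : ∀ (U V : X.Opens) (h : V ≤ U) (x : Γ(M, U)), f V (res M h x) = res N h (f U x)) :
    M ⟶ N :=
  ⟨{ app := fun U => ModuleCat.ofHom
        (Y := N.val.obj U)
        { toFun := f U.unop
          map_add' := (f U.unop).map_add
          map_smul' := hsmul U.unop }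
     naturality := by
        intro U V i
        ext x
        exact hres U.unop V.unop (leOfHom i.unop) x }⟩

@[simp] lemma mkHom_app (f : ∀ U : X.Opens, Γ(M, U) →+ Γ(N, U)) (hsmul) (hres) (U : X.Opens)
    (x : Γ(M, U)) : (mkHom (M := M) (N := N) f hsmul hres).app U x = f U x := rfl

lemma hom_ext_app {φ ψ : M ⟶ N} (h : ∀ (U : X.Opens) (x : Γ(M, U)), φ.app U x = ψ.app U x) :
    φ = ψ := by
  refine Scheme.Modules.hom_ext _ _ fun U ↦ ?_
  ext x
  exact h U x

lemma isIso_of_bijective (φ : M ⟶ N) (h : ∀ U : X.Opens, Function.Bijective (φ.app U)) :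
    IsIso φ := by
  rw [Scheme.Modules.Hom.isIso_iff_isIso_app]
  intro U
  exact (ConcreteCategory.isIso_iff_bijective _).mpr (h U)

lemma inf_cover {X : Scheme.{u}} {U : X.Opens} {ι : Type*} {W : ι → X.Opens} (hc : U ≤ ⨆ i, W i) :
    U ≤ ⨆ i, U ⊓ W i := by
  rw [← inf_iSup_eq]; exact le_inf le_rfl hc

/-- A homomorphism that maps local generators to local generators is an isomorphism. -/
lemma isIso_of_isGen_cover (φ : M ⟶ N) {ι : Type*} (W : ι → X.Opens) (hc : ⊤ ≤ ⨆ i, W i)
    (s : ∀ i, Γ(M, W i)) (hs : ∀ i, IsGen M (s i)) (hs' : ∀ i, IsGen N (φ.app (W i) (s i))) :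
    IsIso φ := by
  refine isIso_of_bijective φ fun U ↦ ⟨?_, ?_⟩
  · rw [injective_iff_map_eq_zero]
    intro a ha
    refine sec_ext (fun i ↦ U ⊓ W i) (fun i ↦ inf_le_left) (inf_cover (le_top.trans hc)) ?_
    intro i
    obtain ⟨f, hf⟩ := (hs i).surj' (inf_le_right : U ⊓ W i ≤ W i) (res M inf_le_left a)
    have h1 := congrArg (res N (inf_le_left : U ⊓ W i ≤ U)) ha
    rw [← app_res, hf, app_smul', app_res, res_zero] at h1
    have : f = 0 := ((hs' i).res (inf_le_right : U ⊓ W i ≤ W i)).inj (by rw [h1, zero_smul])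
    rw [hf, this, zero_smul, res_zero]
  · intro b
    have h1 : ∀ i, ∃ f : Γ(X, U ⊓ W i), res N (inf_le_left : U ⊓ W i ≤ U) b =
        f • res N (inf_le_right : U ⊓ W i ≤ W i) (φ.app (W i) (s i)) := fun i ↦
      (hs' i).surj' _ _
    choose f hf using h1
    obtain ⟨x, hx⟩ := sec_glue (M := M) (U := U) (fun i ↦ U ⊓ W i) (fun i ↦ inf_le_left)
      (inf_cover (le_top.trans hc)) (fun i ↦ f i • res M (inf_le_right : U ⊓ W i ≤ W i) (s i)) (by
        intro i j V hi hj
        simp only [res_smul, res_res]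
        obtain ⟨g, hg⟩ := (hs j).surj' (hj.trans inf_le_right) (res M (hi.trans inf_le_right) (s i))
        rw [hg, ← mul_smul]
        congr 1
        refine ((hs' j).res (hj.trans inf_le_right : V ≤ W j)).inj ?_
        have e1 := congrArg (res N hi) (hf i)
        have e2 := congrArg (res N hj) (hf j)
        have e3 := congrArg (φ.app V) hg
        simp only [res_smul, res_res, app_res, app_smul'] at e1 e2 e3
        rw [mul_smul, ← e3, ← e1, ← e2])
    refine ⟨x, ?_⟩
    refine sec_ext (fun i ↦ U ⊓ W i) (fun i ↦ inf_le_left) (inf_cover (le_top.trans hc)) ?_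
    intro i
    rw [← app_res, hx, app_smul', app_res, hf]

theorem isIso_of_isGen (φ : M ⟶ N)
    (h : ∀ x : X, ∃ (U : X.Opens) (_ : x ∈ U) (s : Γ(M, U)), IsGen M s ∧ IsGen N (φ.app U s)) :
    IsIso φ := by
  choose U hx s hs hs' using h
  exact isIso_of_isGen_cover φ U (fun x _ ↦ Opens.mem_iSup.mpr ⟨x, hx x⟩) s hs hs'

lemma hom_ext_gen {φ ψ : M ⟶ N} {ι : Type*} (W : ι → X.Opens) (hc : ⊤ ≤ ⨆ i, W i)
    (s : ∀ i, Γ(M, W i)) (hs : ∀ i, IsGen M (s i))
    (h : ∀ i, φ.app (W i) (s i) = ψ.app (W i) (s i)) : φ = ψ := by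
  refine hom_ext_app fun U x ↦ ?_
  refine sec_ext (fun i ↦ U ⊓ W i) (fun i ↦ inf_le_left) (inf_cover (le_top.trans hc)) ?_
  intro i
  obtain ⟨f, hf⟩ := (hs i).surj' (inf_le_right : U ⊓ W i ≤ W i) (res M inf_le_left x)
  rw [← app_res, ← app_res, hf, app_smul', app_smul', app_res, app_res, h]

theorem exists_glueHom {ι : Type*} (U : ι → X.Opens) (hU : ⨆ i, U i = ⊤)
    (s : ∀ i, Γ(M, U i)) (hs : ∀ i, IsGen M (s i)) (n : ∀ i, Γ(N, U i))
    (h : ∀ i j (W : X.Opens) (hi : W ≤ U i) (hj : W ≤ U j) (f : Γ(X, W)),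
      res M hi (s i) = f • res M hj (s j) → res N hi (n i) = f • res N hj (n j)) :
    ∃! φ : M ⟶ N, ∀ i, φ.app (U i) (s i) = n i := by
  have hc : ∀ V : X.Opens, V ≤ ⨆ i, U i := fun V ↦ by rw [hU]; exact le_top
  have key : ∀ (V : X.Opens) (x : Γ(M, V)), ∃ y : Γ(N, V), ∀ i (W : X.Opens) (hV : W ≤ V)
      (hi : W ≤ U i) (f : Γ(X, W)), res M hV x = f • res M hi (s i) →
        res N hV y = f • res N hi (n i) := by
    intro V x
    have h1 : ∀ i, ∃ f : Γ(X, V ⊓ U i), res M (inf_le_left : V ⊓ U i ≤ V) x =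
        f • res M (inf_le_right : V ⊓ U i ≤ U i) (s i) := fun i ↦ (hs i).surj' _ _
    choose f hf using h1
    obtain ⟨y, hy⟩ := sec_glue (M := N) (U := V) (fun i ↦ V ⊓ U i) (fun i ↦ inf_le_left)
      (inf_cover (hc V)) (fun i ↦ f i • res N (inf_le_right : V ⊓ U i ≤ U i) (n i)) (by
        intro i j W hi hj
        simp only [res_smul, res_res]
        obtain ⟨g, hg⟩ := (hs j).surj' (hj.trans inf_le_right) (res M (hi.trans inf_le_right) (s i))
        rw [h i j W _ _ g hg, ← mul_smul]
        congr 1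
        refine ((hs j).res (hj.trans inf_le_right : W ≤ U j)).inj ?_
        have e1 := congrArg (res M hi) (hf i)
        have e2 := congrArg (res M hj) (hf j)
        simp only [res_smul, res_res] at e1 e2
        rw [mul_smul, ← hg, ← e1, ← e2])
    refine ⟨y, ?_⟩
    intro i W hV hi g hg
    have hW : W ≤ V ⊓ U i := le_inf hV hi
    have e1 := congrArg (res M hW) (hf i)
    have e2 := congrArg (res N hW) (hy i)
    simp only [res_smul, res_res] at e1 e2
    rw [e2]
    congr 1
    refine ((hs i).res hi).inj ?_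
    rw [← e1, hg]
  choose F hF using key
  have huniq : ∀ (V : X.Opens) (x : Γ(M, V)) (y : Γ(N, V)),
      (∀ i, ∃ f : Γ(X, V ⊓ U i), res M (inf_le_left : V ⊓ U i ≤ V) x =
        f • res M (inf_le_right : V ⊓ U i ≤ U i) (s i) ∧
        res N (inf_le_left : V ⊓ U i ≤ V) y = f • res N (inf_le_right : V ⊓ U i ≤ U i) (n i)) →
      F V x = y := by
    intro V x y hy
    refine sec_ext (fun i ↦ V ⊓ U i) (fun i ↦ inf_le_left) (inf_cover (hc V)) ?_
    intro i
    obtain ⟨f, hf, hf'⟩ := hy i
    rw [hF V x i _ _ _ f hf, hf']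
  have hadd : ∀ (V : X.Opens) (x x' : Γ(M, V)), F V (x + x') = F V x + F V x' := by
    intro V x x'
    refine huniq _ _ _ fun i ↦ ?_
    obtain ⟨f, hf⟩ := (hs i).surj' (inf_le_right : V ⊓ U i ≤ U i) (res M inf_le_left x)
    obtain ⟨f', hf'⟩ := (hs i).surj' (inf_le_right : V ⊓ U i ≤ U i) (res M inf_le_left x')
    refine ⟨f + f', ?_, ?_⟩
    · rw [res_add, hf, hf', add_smul]
    · rw [res_add, hF V x i _ _ _ f hf, hF V x' i _ _ _ f' hf', add_smul]
  refine ⟨mkHom (fun V ↦ AddMonoidHom.mk' (F V) (hadd V)) ?_ ?_, ?_, ?_⟩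
  · intro V a x
    refine huniq _ _ _ fun i ↦ ?_
    obtain ⟨f, hf⟩ := (hs i).surj' (inf_le_right : V ⊓ U i ≤ U i) (res M inf_le_left x)
    refine ⟨resO inf_le_left a * f, ?_, ?_⟩
    · rw [res_smul, hf, mul_smul]
    · rw [res_smul]
      change resO inf_le_left a • res N _ (F V x) = _
      rw [hF V x i _ _ _ f hf, mul_smul]
  · intro V W hWV x
    refine huniq _ _ _ fun i ↦ ?_
    obtain ⟨f, hf⟩ := (hs i).surj' (inf_le_right : V ⊓ U i ≤ U i) (res M inf_le_left x)
    refine ⟨resO (inf_le_inf_right _ hWV) f, ?_, ?_⟩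
    · have := congrArg (res M (inf_le_inf_right (U i) hWV)) hf
      simpa only [res_smul, res_res] using this
    · have := congrArg (res N (inf_le_inf_right (U i) hWV)) (hF V x i _ _ _ f hf)
      simp only [res_smul, res_res] at this
      change res N _ (res N hWV (F V x)) = _
      rw [res_res]
      exact this
  · intro i
    have := hF (U i) (s i) i (U i) le_rfl le_rfl 1 (by simp)
    simp only [res_self, one_smul] at this
    exact this
  · intro φ hφ
    refine hom_ext_gen U (hc ⊤) s hs fun i ↦ ?_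
    rw [hφ]
    have := hF (U i) (s i) i (U i) le_rfl le_rfl 1 (by simp)
    simp only [res_self, one_smul] at this
    exact this.symm


/-! ## the unit module -/

/-- the structure sheaf as a module over itself -/
noncomputable abbrev uMod (X : Scheme.{u}) : X.Modules := SheafOfModules.unit X.ringCatSheaf

/-- a function as a section of the unit module -/
noncomputable def uSec {U : X.Opens} (a : Γ(X, U)) :
    Γ((uMod X), U) := a

/-- a section of the unit module as a function -/
noncomputable def uFun {U : X.Opens} (a : Γ((uMod X), U)) :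
    Γ(X, U) := a

@[simp] lemma uFun_uSec {U : X.Opens} (a : Γ(X, U)) : uFun (uSec a) = a := rfl
@[simp] lemma uSec_uFun {U : X.Opens}
    (a : Γ((uMod X), U)) : uSec (uFun a) = a := rfl

lemma uSec_bijective (U : X.Opens) : Function.Bijective (uSec (X := X) (U := U)) :=
  ⟨fun _ _ h => h, fun a => ⟨a, rfl⟩⟩

@[simp] lemma uFun_smul {U : X.Opens} (a : Γ(X, U))
    (b : Γ((uMod X), U)) :
    uFun (a • b) = a * uFun b := rfl
@[simp] lemma uFun_add {U : X.Opens}
    (a b : Γ((uMod X), U)) :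
    uFun (a + b) = uFun a + uFun b := rfl
lemma uSec_mul {U : X.Opens} (a b : Γ(X, U)) :
    uSec (a * b) = a • uSec b := rfl
@[simp] lemma uSec_add {U : X.Opens} (a b : Γ(X, U)) :
    uSec (a + b) = uSec a + uSec b := rfl
@[simp] lemma res_uSec {U V : X.Opens} (h : V ≤ U) (a : Γ(X, U)) :
    res _ h (uSec a) = uSec (resO h a) := rfl
@[simp] lemma uFun_res {U V : X.Opens} (h : V ≤ U)
    (a : Γ((uMod X), U)) :
    uFun (res _ h a) = resO h (uFun a) := rfl

lemma uSec_eq_smul {U : X.Opens} (a : Γ(X, U)) : uSec a = a • uSec 1 := by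
  rw [← uSec_mul, mul_one]

lemma isGen_one (U : X.Opens) : IsGen (uMod X)
    (uSec (1 : Γ(X, U))) := by
  intro V h
  convert uSec_bijective V using 1
  funext f
  rw [res_uSec, resO_one, ← uSec_eq_smul]

lemma isGen_uSec_iff {U : X.Opens} (a : Γ(X, U)) :
    IsGen (uMod X) (uSec a) ↔ IsUnit a := by
  constructor
  · intro h
    obtain ⟨b, hb⟩ := h.surj (uSec 1)
    rw [← uSec_mul] at hb
    have : 1 = b * a := hb
    exact .of_mul_eq_one_right _ this.symm
  · intro h
    rw [uSec_eq_smul]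
    exact (isGen_one U).unit_smul h

/-! ## restriction along open immersions -/

section Restrict

variable (f : X ⟶ Y) [IsOpenImmersion f] (M : Y.Modules)

lemma isGen_restrictAppIso_inv {U : X.Opens} (s : Γ(M, f ''ᵁ U)) :
    IsGen (M.restrict f) ((M.restrictAppIso f U).inv s) ↔ IsGen M s := by
  have key : ∀ (V : X.Opens) (hV : V ≤ U) (a : Γ(X, V)),
      a • res (M.restrict f) hV ((M.restrictAppIso f U).inv s) =
      (M.restrictAppIso f V).inv (((f.appIso V).inv a) • res M (f.image_mono hV) s) := by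
    intro V hV a
    rfl
  constructor
  · intro h W hW
    obtain ⟨V, hV, rfl⟩ : ∃ V : X.Opens, V ≤ U ∧ W = f ''ᵁ V :=
      ⟨f ⁻¹ᵁ W, by
        intro x hx
        obtain ⟨y, hy, hxy⟩ := hW hx
        have := f.isOpenEmbedding.injective hxy
        exact this ▸ hy, by
        rw [Scheme.Hom.image_preimage_eq_opensRange_inf]
        exact (inf_eq_right.mpr (hW.trans (Scheme.Hom.image_le_opensRange f U))).symm⟩
    have h1 := h V hV
    have h2 : Function.Bijective (f.appIso V).hom := ConcreteCategory.bijective_of_isIso _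
    have h3 : Function.Bijective (M.restrictAppIso f V).hom :=
      ConcreteCategory.bijective_of_isIso _
    have := (h3.comp h1).comp h2
    convert this using 1
    funext a
    simp only [Function.comp_apply]
    rw [key]
    simp
  · intro h V hV
    have h1 := h _ (f.image_mono hV)
    have h2 : Function.Bijective (f.appIso V).inv := ConcreteCategory.bijective_of_isIso _
    have h3 : Function.Bijective (M.restrictAppIso f V).inv :=
      ConcreteCategory.bijective_of_isIso _
    have := (h3.comp h1).comp h2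
    convert this using 1
    funext a
    exact key V hV a

/-- The unit of the pullback-pushforward adjunction for an open immersion. -/
lemma restrictFunctorIsoPullback_hom_app (U : Y.Opens) (s : Γ(M, U)) :
    ((Scheme.Modules.restrictFunctorIsoPullback f).hom.app M).app (f ⁻¹ᵁ U)
      (((Scheme.Modules.restrictAdjunction f).unit.app M).app U s) = pb f M s := by
  have := Adjunction.unit_leftAdjointUniq_hom_app (Scheme.Modules.restrictAdjunction f)
    (Scheme.Modules.pullbackPushforwardAdjunction f) M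
  have := congr(Scheme.Modules.Hom.app $this U s)
  exact this

lemma pb_eq_restrict (U : Y.Opens) (s : Γ(M, U)) :
    pb f M s = ((Scheme.Modules.restrictFunctorIsoPullback f).hom.app M).app (f ⁻¹ᵁ U)
      ((M.restrictAppIso f (f ⁻¹ᵁ U)).inv (res M (f.image_preimage_le U) s)) := by
  rw [← restrictFunctorIsoPullback_hom_app]
  rfl

end Restrict

/-- The morphism `O_X ⟶ M` given by a global section -/
noncomputable def unitHom (s : Γ(M, ⊤)) : (uMod X) ⟶ M :=
  mkHom (M := (uMod X))
    (fun U ↦ AddMonoidHom.mk' (fun a : Γ((uMod X), U) ↦ uFun a • res M (le_top : U ≤ ⊤) s)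
      (fun a b ↦ by simp [add_smul]))
    (fun U a x ↦ by
      change uFun (a • x) • res M (le_top : U ≤ ⊤) s = a • (uFun x • res M (le_top : U ≤ ⊤) s)
      rw [uFun_smul, mul_smul])
    (fun U V h x ↦ by
      change uFun (res _ h x) • res M (le_top : V ≤ ⊤) s =
        res M h (uFun x • res M (le_top : U ≤ ⊤) s)
      rw [uFun_res, res_smul, res_res])

@[simp] lemma unitHom_app (s : Γ(M, ⊤)) (U : X.Opens)
    (x : Γ((uMod X), U)) :
    (unitHom s).app U x = uFun x • res M le_top s := rfl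

lemma isIso_unitHom {s : Γ(M, ⊤)} (hs : IsGen M s) : IsIso (unitHom s) :=
  isIso_of_isGen _ fun x ↦ ⟨⊤, trivial, uSec 1, isGen_one _, by
    rw [unitHom_app, uFun_uSec, one_smul, res_self]; exact hs⟩

lemma nonempty_iso_unit_iff :
    Nonempty (M ≅ (uMod X)) ↔ ∃ s : Γ(M, ⊤), IsGen M s := by
  constructor
  · rintro ⟨e⟩
    exact ⟨_, (isGen_one ⊤).map_iso e.inv⟩
  · rintro ⟨s, hs⟩
    have := isIso_unitHom hs
    exact ⟨(asIso (unitHom s)).symm⟩

/-- A trivialisation of `M|_U` is the same as a generator of `M` on `U`. -/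
lemma exists_isGen_iff_nonempty_iso (M : X.Modules) (U : X.Opens) :
    (∃ s : Γ(M, U), IsGen M s) ↔
      Nonempty ((Scheme.Modules.pullback U.ι).obj M ≅ SheafOfModules.unit U.toScheme.ringCatSheaf) := by
  have h0 : Nonempty ((Scheme.Modules.pullback U.ι).obj M ≅
      SheafOfModules.unit U.toScheme.ringCatSheaf) ↔
      Nonempty (M.restrict U.ι ≅ SheafOfModules.unit U.toScheme.ringCatSheaf) :=
    ⟨fun ⟨e⟩ ↦ ⟨(Scheme.Modules.restrictFunctorIsoPullback U.ι).app M ≪≫ e⟩,
      fun ⟨e⟩ ↦ ⟨((Scheme.Modules.restrictFunctorIsoPullback U.ι).app M).symm ≪≫ e⟩⟩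
  have hU : U.ι ''ᵁ ⊤ = U := Scheme.Opens.ι_image_top U
  rw [h0]
  erw [nonempty_iso_unit_iff]
  constructor
  · rintro ⟨s, hs⟩
    exact ⟨_, (isGen_restrictAppIso_inv U.ι M (res M hU.le s)).mpr (hs.res _)⟩
  · rintro ⟨s, hs⟩
    refine ⟨res M hU.ge ((M.restrictAppIso U.ι ⊤).hom s), ?_⟩
    refine IsGen.res ?_ _
    rw [← isGen_restrictAppIso_inv U.ι M]
    exact hs

theorem isInvertible_iff (M : X.Modules) :
    Scheme.Modules.IsInvertible M ↔ ∀ x : X, ∃ (U : X.Opens) (_ : x ∈ U) (s : Γ(M, U)), IsGen M s := by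
  constructor
  · intro h x
    obtain ⟨U, hx, e⟩ := h.exists_trivialization x
    obtain ⟨s, hs⟩ := (exists_isGen_iff_nonempty_iso M U).mpr e
    exact ⟨U, hx, s, hs⟩
  · intro h
    refine ⟨fun x ↦ ?_⟩
    obtain ⟨U, hx, s, hs⟩ := h x
    exact ⟨U, hx, (exists_isGen_iff_nonempty_iso M U).mp ⟨s, hs⟩⟩

lemma IsInvertible.of_iso (h : Scheme.Modules.IsInvertible M) (e : M ≅ N) :
    Scheme.Modules.IsInvertible N := by
  rw [isInvertible_iff] at h ⊢
  intro x
  obtain ⟨U, hx, s, hs⟩ := h x
  exact ⟨U, hx, _, hs.map_iso e.hom⟩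

lemma isInvertible_congr (e : M ≅ N) :
    Scheme.Modules.IsInvertible M ↔ Scheme.Modules.IsInvertible N :=
  ⟨fun h ↦ IsInvertible.of_iso h e, fun h ↦ IsInvertible.of_iso h e.symm⟩

/-- refinement: generators exist on arbitrarily small neighbourhoods -/
lemma exists_isGen_of_mem (hM : Scheme.Modules.IsInvertible M) {U : X.Opens} {x : X} (hx : x ∈ U) :
    ∃ (V : X.Opens) (_ : V ≤ U) (_ : x ∈ V) (s : Γ(M, V)), IsGen M s := by
  obtain ⟨V, hxV, s, hs⟩ := (isInvertible_iff M).mp hM x
  exact ⟨U ⊓ V, inf_le_left, ⟨hx, hxV⟩, res M inf_le_right s, hs.res _⟩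

end Fermat.Agent.H25
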