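import Mathlib

/-!
# Invertible modules: elementwise criteria (S25-B)

`LocGen f e` : the elements `f i` generate the unit ideal and `e i` is a basis of `E_{f i}`.
-/

set_option autoImplicit false

open TensorProduct

namespace Fermat.Agent.H51Inv

section Basic

variable {R : Type*} [CommRing R] {E : Type*} [AddCommGroup E] [Module R E]

theorem smul_comm_dual [Module.Invertible R E] (ψ : Module.Dual R E) (x y : E) :
    ψ x • y = ψ y • x := by
  have h := Module.Invertible.tmul_comm (R := R) (m₁ := x) (m₂ := y)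
  have h2 := congrArg (fun t => TensorProduct.lid R E (LinearMap.rTensor E ψ t)) h
  simpa using h2

theorem invertible_of_dual (hcomm : ∀ (ψ : Module.Dual R E) (x y : E), ψ x • y = ψ y • x)
    (h1 : ∀ P : Ideal R, P.IsMaximal → ∃ (ψ : Module.Dual R E) (x : E), ψ x ∉ P) :
    Module.Invertible R E := by
  have hsurj : Function.Surjective (contractLeft R E) := by
    rw [← LinearMap.range_eq_top]
    by_contra hne
    obtain ⟨P, hP, hle⟩ := Ideal.exists_le_maximal (LinearMap.range (contractLeft R E)) hne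
    obtain ⟨ψ, x, hx⟩ := h1 P hP
    exact hx (hle ⟨ψ ⊗ₜ x, by simp⟩)
  refine ⟨⟨?_, hsurj⟩⟩
  obtain ⟨u, hu⟩ := hsurj 1
  have key : ∀ z : Module.Dual R E ⊗[R] E, ∀ w : Module.Dual R E ⊗[R] E,
      contractLeft R E w • z = contractLeft R E z • w := by
    intro z w
    induction z with
    | zero => simp
    | add z₁ z₂ h₁ h₂ => rw [smul_add, h₁, h₂, map_add, add_smul]
    | tmul ψ x =>
      induction w with
      | zero => simp
      | add w₁ w₂ h₁ h₂ => rw [smul_add, ← h₁, ← h₂, map_add, add_smul]
      | tmul χ y =>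
        rw [contractLeft_apply, contractLeft_apply]
        calc χ y • (ψ ⊗ₜ[R] x) = ψ ⊗ₜ[R] (χ y • x) := by rw [TensorProduct.tmul_smul]
          _ = ψ ⊗ₜ[R] (χ x • y) := by rw [hcomm χ y x]
          _ = (χ x • ψ) ⊗ₜ[R] y := by rw [TensorProduct.tmul_smul, TensorProduct.smul_tmul']
          _ = (ψ x • χ) ⊗ₜ[R] y := by
            congr 1
            ext z
            have := congrArg ψ (hcomm χ x z)
            simp only [map_smul, smul_eq_mul] at this
            simp only [LinearMap.smul_apply, smul_eq_mul]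
            rw [this, mul_comm]
          _ = ψ x • (χ ⊗ₜ[R] y) := by rw [TensorProduct.smul_tmul']
  rw [injective_iff_map_eq_zero]
  intro z hz
  have := key z u
  rw [hu, one_smul, hz, zero_smul] at this
  exact this

/-- `f i` generate the unit ideal, and `e i` is a basis of `E` after inverting `f i`. -/
structure LocGen {ι : Type*} (f : ι → R) (e : ι → E) : Prop where
  span : Ideal.span (Set.range f) = ⊤
  surj : ∀ i x, ∃ (n : ℕ) (a : R), f i ^ n • x = a • e i
  inj : ∀ i a, a • e i = 0 → ∃ n : ℕ, f i ^ n * a = 0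

/-- if every `f i` has a power in the ideal then the ideal is everything -/
theorem ideal_eq_top_of_pow {ι : Type*} {f : ι → R} (hf : Ideal.span (Set.range f) = ⊤)
    {I : Ideal R} (h : ∀ i, ∃ n : ℕ, f i ^ n ∈ I) : I = ⊤ := by
  rw [← Ideal.radical_eq_top, eq_top_iff, ← hf, Ideal.span_le]
  rintro _ ⟨i, rfl⟩
  exact h i

theorem mem_of_forall_pow_smul {ι : Type*} {f : ι → R} (hf : Ideal.span (Set.range f) = ⊤)
    (N : Submodule R E) {x : E} (h : ∀ i, ∃ n : ℕ, f i ^ n • x ∈ N) : x ∈ N := by
  let I : Ideal R := Submodule.comap (LinearMap.toSpanSingleton R E x) N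
  have h1 : I = ⊤ := ideal_eq_top_of_pow hf (fun i => by
    obtain ⟨n, hn⟩ := h i
    exact ⟨n, by simpa [I] using hn⟩)
  have h2 : (1 : R) ∈ I := by rw [h1]; trivial
  simpa [I] using h2

theorem eq_zero_of_forall_pow_smul {ι : Type*} {f : ι → R} (hf : Ideal.span (Set.range f) = ⊤)
    {x : E} (h : ∀ i, ∃ n : ℕ, f i ^ n • x = 0) : x = 0 := by
  have := mem_of_forall_pow_smul hf (⊥ : Submodule R E) (x := x) (by simpa using h)
  simpa using this

namespace LocGen

variable {ι : Type*} {f : ι → R} {e : ι → E} (h : LocGen f e)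

include h

theorem span_eq_top : Submodule.span R (Set.range e) = ⊤ := by
  rw [eq_top_iff]
  rintro x -
  refine mem_of_forall_pow_smul h.span _ fun i => ?_
  obtain ⟨n, a, hna⟩ := h.surj i x
  exact ⟨n, by rw [hna]; exact Submodule.smul_mem _ _ (Submodule.subset_span ⟨i, rfl⟩)⟩

theorem smul_comm' (ψ : Module.Dual R E) (x y : E) : ψ x • y = ψ y • x := by
  rw [← sub_eq_zero]
  refine eq_zero_of_forall_pow_smul h.span fun i => ?_
  obtain ⟨n, a, hna⟩ := h.surj i x
  obtain ⟨m, b, hmb⟩ := h.surj i y
  refine ⟨n + m, ?_⟩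
  have h1 : f i ^ (n + m) • (ψ x • y) = ψ (f i ^ n • x) • (f i ^ m • y) := by
    rw [map_smul, smul_eq_mul]; module
  have h2 : f i ^ (n + m) • (ψ y • x) = ψ (f i ^ m • y) • (f i ^ n • x) := by
    rw [map_smul, smul_eq_mul]; module
  rw [smul_sub, h1, h2, hna, hmb, map_smul, map_smul]
  simp only [smul_eq_mul]
  module

/-- uniform exponents -/
theorem exists_uniform [Finite ι] : ∃ n : ℕ, ∀ i j, ∃ a : R, f i ^ n • e j = a • e i := by
  have := fun i j => h.surj i (e j)
  choose n a ha using this
  cases nonempty_fintype ι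
  classical
  refine ⟨Finset.univ.sup (fun p : ι × ι => n p.1 p.2), fun i j => ?_⟩
  have hle : n i j ≤ Finset.univ.sup (fun p : ι × ι => n p.1 p.2) :=
    Finset.le_sup (f := fun p : ι × ι => n p.1 p.2) (Finset.mem_univ (i, j))
  obtain ⟨k, hk⟩ := Nat.exists_eq_add_of_le hle
  refine ⟨f i ^ k * a i j, ?_⟩
  rw [hk, add_comm, pow_add, mul_smul, ha i j, mul_smul]

/-- existence of functionals nonvanishing at `e i` -/
theorem exists_dual [Finite ι] (i : ι) : ∃ (N : ℕ) (ψ : Module.Dual R E), ψ (e i) = f i ^ N := by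
  classical
  cases nonempty_fintype ι
  obtain ⟨n, hn⟩ := h.exists_uniform
  choose a ha using hn
  -- the presentation
  let π : (ι → R) →ₗ[R] E := Fintype.linearCombination R e
  have hπ : Function.Surjective π := by
    rw [← LinearMap.range_eq_top, Fintype.range_linearCombination, h.span_eq_top]
  -- relations
  let κ : ι × ι → (ι → R) := fun p => f p.1 ^ n • Pi.single p.2 1 - a p.1 p.2 • Pi.single p.1 1
  have hκ : ∀ p, π (κ p) = 0 := by
    intro p
    simp only [κ, π, map_sub, map_smul, Fintype.linearCombination_apply_single, one_smul]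
    rw [ha, sub_self]
  have hker : LinearMap.ker π ≤ Submodule.span R (Set.range κ) := by
    intro c hc
    rw [LinearMap.mem_ker] at hc
    refine mem_of_forall_pow_smul h.span _ fun k => ?_
    have hc1 : (∑ j, c j * a k j) • e k = 0 := by
      rw [Finset.sum_smul]
      have : ∀ j, (c j * a k j) • e k = f k ^ n • (c j • e j) := by
        intro j
        rw [mul_smul, ← ha k j]; module
      simp only [this]
      rw [← Finset.smul_sum]
      have h0 : ∑ j, c j • e j = 0 := by
        simpa [π, Fintype.linearCombination_apply] using hc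
      rw [h0, smul_zero]
    obtain ⟨m, hm⟩ := h.inj k _ hc1
    refine ⟨m + n, ?_⟩
    have h2 : f k ^ (m + n) • c = ∑ j, (f k ^ m * c j) • κ (k, j) := by
      have h3 : ∑ j, (f k ^ m * c j) • κ (k, j) =
          f k ^ (m + n) • ∑ j, c j • (Pi.single j 1 : ι → R) -
            (f k ^ m * ∑ j, c j * a k j) • Pi.single k 1 := by
        simp only [κ, smul_sub, Finset.sum_sub_distrib, Finset.smul_sum, Finset.mul_sum,
          Finset.sum_smul, smul_smul]
        congr 1
        · refine Finset.sum_congr rfl fun j _ => ?_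
          congr 1; ring
        · refine Finset.sum_congr rfl fun j _ => ?_
          congr 1; ring
      rw [h3, hm, zero_smul, sub_zero]
      congr 1
      ext j
      simp [Finset.sum_apply, Pi.single_apply]
    rw [h2]
    exact Submodule.sum_mem _ fun j _ => Submodule.smul_mem _ _ (Submodule.subset_span ⟨_, rfl⟩)
  -- a functional on `ι → R`
  have h4 : ∀ k j, ∃ N : ℕ, f i ^ N * (f k ^ n * a i j - a k j * a i k) = 0 := by
    intro k j
    apply h.inj i
    have : (f k ^ n * a i j - a k j * a i k) • e i = f i ^ n • (f k ^ n • e j - a k j • e k) := by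
      rw [sub_smul, mul_smul, mul_smul, ← ha, ← ha]; module
    rw [this, ha, sub_self, smul_zero]
  have h5 : ∃ N : ℕ, f i ^ N * (a i i - f i ^ n) = 0 := by
    apply h.inj i
    rw [sub_smul, ← ha, sub_self]
  choose N hN using h4
  obtain ⟨N', hN'⟩ := h5
  obtain ⟨L, hLdef⟩ : ∃ L : ℕ, L = N' + Finset.univ.sup (fun p : ι × ι => N p.1 p.2) := ⟨_, rfl⟩
  have hL : ∀ k j, f i ^ L * (f k ^ n * a i j - a k j * a i k) = 0 := by
    intro k j
    have hle : N k j ≤ L := (Finset.le_sup (f := fun p : ι × ι => N p.1 p.2)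
      (Finset.mem_univ (k, j))).trans (hLdef ▸ Nat.le_add_left _ _)
    obtain ⟨l, hl⟩ := Nat.exists_eq_add_of_le hle
    rw [hl, pow_add, mul_comm (f i ^ N k j), mul_assoc, hN, mul_zero]
  have hL' : f i ^ L * a i i = f i ^ (L + n) := by
    have : f i ^ L * (a i i - f i ^ n) = 0 := by
      rw [hLdef, pow_add, mul_comm (f i ^ N'), mul_assoc, hN', mul_zero]
    rw [mul_sub, sub_eq_zero] at this
    rw [this, pow_add]
  let ψ' : (ι → R) →ₗ[R] R := Fintype.linearCombination R (fun j => f i ^ L * a i j)
  have hψ' : LinearMap.ker π ≤ LinearMap.ker ψ' := by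
    refine hker.trans ?_
    rw [Submodule.span_le]
    rintro _ ⟨⟨k, j⟩, rfl⟩
    simp only [SetLike.mem_coe, LinearMap.mem_ker, κ, ψ', map_sub, map_smul,
      Fintype.linearCombination_apply_single, smul_eq_mul]
    rw [← hL k j]; ring
  let ψ : E →ₗ[R] R := (LinearMap.ker π).liftQ ψ' hψ' ∘ₗ
    (LinearMap.quotKerEquivOfSurjective π hπ).symm.toLinearMap
  have hψ : ∀ c, ψ (π c) = ψ' c := by
    intro c
    have : (LinearMap.quotKerEquivOfSurjective π hπ).symm (π c) = (LinearMap.ker π).mkQ c := by
      rw [LinearEquiv.symm_apply_eq]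
      rfl
    simp only [ψ, LinearMap.comp_apply, LinearEquiv.coe_coe, this]
    rfl
  refine ⟨L + n, ψ, ?_⟩
  have h6 : e i = π (Pi.single i 1) := by simp [π]
  rw [h6, hψ]
  simp only [ψ', Fintype.linearCombination_apply_single, one_smul]
  exact hL'

theorem invertible [Finite ι] : Module.Invertible R E := by
  refine invertible_of_dual h.smul_comm' fun P hP => ?_
  by_contra hcon
  push Not at hcon
  apply hP.ne_top
  refine ideal_eq_top_of_pow h.span fun i => ?_
  obtain ⟨N, ψ, hψ⟩ := h.exists_dual i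
  exact ⟨N, hψ ▸ hcon ψ (e i)⟩

end LocGen

/-- local generators of an invertible module, strong form -/
theorem exists_locGen_strong (R : Type*) [CommRing R] (E : Type*) [AddCommGroup E] [Module R E]
    [Module.Invertible R E] :
    ∃ (n : ℕ) (f : Fin n → R) (e : Fin n → E) (ψ : Fin n → Module.Dual R E),
      (∑ i, f i = 1) ∧ (∀ i, ψ i (e i) = f i) ∧ (∀ i x, f i • x = ψ i x • e i) ∧
      (∀ i a, a • e i = 0 → f i * a = 0) := by
  obtain ⟨u, hu⟩ := (Module.Invertible.bijective (R := R) (M := E)).2 1
  obtain ⟨s, hs⟩ := TensorProduct.exists_finset u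
  let eqv := s.equivFin.symm
  refine ⟨s.card, fun i => (eqv i).1.1 (eqv i).1.2, fun i => (eqv i).1.2, fun i => (eqv i).1.1,
    ?_, fun i => rfl, fun i x => smul_comm_dual _ _ _, fun i a ha => ?_⟩
  · rw [hs, map_sum] at hu
    simp only [contractLeft_apply] at hu
    rw [← hu, ← Finset.sum_coe_sort s (fun i => i.1 i.2)]
    exact Fintype.sum_equiv eqv _ _ (fun i => rfl)
  · have := congrArg (eqv i).1.1 ha
    rw [map_smul, map_zero, smul_eq_mul] at this
    rw [mul_comm]; exact this

theorem exists_locGen (R : Type*) [CommRing R] (E : Type*) [AddCommGroup E] [Module R E]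
    [Module.Invertible R E] :
    ∃ (n : ℕ) (f : Fin n → R) (e : Fin n → E), LocGen f e := by
  obtain ⟨n, f, e, ψ, h1, h2, h3, h4⟩ := exists_locGen_strong R E
  refine ⟨n, f, e, ?_, fun i x => ⟨1, ψ i x, by rw [pow_one]; exact h3 i x⟩,
    fun i a ha => ⟨1, by rw [pow_one]; exact h4 i a ha⟩⟩
  rw [Ideal.eq_top_iff_one, ← h1]
  exact Ideal.sum_mem _ fun i _ => Ideal.subset_span ⟨i, rfl⟩

theorem invertible_iff_locGen :
    Module.Invertible R E ↔ ∃ (n : ℕ) (f : Fin n → R) (e : Fin n → E), LocGen f e :=
  ⟨fun _ => exists_locGen R E, fun ⟨_, _, _, h⟩ => h.invertible⟩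

/-- A linear map sending local generators to local generators is bijective. -/
theorem LocGen.bijective {E' : Type*} [AddCommGroup E'] [Module R E'] {ι : Type*} {f : ι → R}
    {e : ι → E} (h : LocGen f e) (g : E →ₗ[R] E') (h' : LocGen f (fun i => g (e i))) :
    Function.Bijective g := by
  constructor
  · rw [injective_iff_map_eq_zero]
    intro x hx
    refine eq_zero_of_forall_pow_smul h.span fun i => ?_
    obtain ⟨n, a, hna⟩ := h.surj i x
    have h1 : a • g (e i) = 0 := by rw [← map_smul, ← hna, map_smul, hx, smul_zero]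
    obtain ⟨m, hm⟩ := h'.inj i a h1
    exact ⟨m + n, by rw [pow_add, mul_smul, hna, ← mul_smul, hm, zero_smul]⟩
  · intro y
    refine LinearMap.mem_range.mp (mem_of_forall_pow_smul h.span _ fun i => ?_)
    obtain ⟨n, a, hna⟩ := h'.surj i y
    exact ⟨n, by rw [hna, ← map_smul]; exact ⟨_, rfl⟩⟩

end Basic

section BaseChange

variable {R : Type*} [CommRing R] {E : Type*} [AddCommGroup E] [Module R E]
  (S : Type*) [CommRing S] [Algebra R S]

theorem LocGen.baseChange {ι : Type*} [Finite ι] {f : ι → R} {e : ι → E} (h : LocGen f e) :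
    LocGen (fun i => algebraMap R S (f i)) (fun i => (1 : S) ⊗ₜ[R] e i) := by
  refine ⟨?_, fun i x => ?_, fun i a ha => ?_⟩
  · have := congrArg (Ideal.map (algebraMap R S)) h.span
    rw [Ideal.map_span, Ideal.map_top, ← Set.range_comp] at this
    exact this
  · induction x with
    | zero => exact ⟨0, 0, by simp⟩
    | add x y hx hy =>
      obtain ⟨n, a, hna⟩ := hx
      obtain ⟨m, b, hmb⟩ := hy
      refine ⟨n + m, algebraMap R S (f i) ^ m * a + algebraMap R S (f i) ^ n * b, ?_⟩
      rw [smul_add, add_smul, mul_smul, mul_smul, ← hna, ← hmb, pow_add]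
      module
    | tmul s y =>
      obtain ⟨n, a, hna⟩ := h.surj i y
      refine ⟨n, s * algebraMap R S a, ?_⟩
      have h1 : s • ((1 : S) ⊗ₜ[R] e i) = s ⊗ₜ[R] e i := by
        rw [TensorProduct.smul_tmul', smul_eq_mul, mul_one]
      rw [← map_pow, algebraMap_smul, ← TensorProduct.tmul_smul, hna, TensorProduct.tmul_smul,
        mul_smul, algebraMap_smul, smul_comm s, h1]
  · obtain ⟨N, ψ, hψ⟩ := h.exists_dual i
    refine ⟨N, ?_⟩
    have h1 := congrArg (AlgebraTensorModule.lift
      ((LinearMap.toSpanSingleton S (E →ₗ[R] S) ((Algebra.linearMap R S) ∘ₗ ψ)))) ha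
    rw [map_smul, map_zero] at h1
    simp only [AlgebraTensorModule.lift_tmul, LinearMap.toSpanSingleton_apply, one_smul,
      LinearMap.comp_apply, hψ, Algebra.linearMap_apply, map_pow, smul_eq_mul] at h1
    rw [mul_comm]; exact h1

/-- a semilinear map sending local generators to local generators is a base change -/
theorem LocGen.isBaseChange {F : Type*} [AddCommGroup F] [Module R F] [Module S F]
    [IsScalarTower R S F] {ι : Type*} [Finite ι] {f : ι → R} {e : ι → E} (h : LocGen f e)
    (β : E →ₗ[R] F) (h' : LocGen (fun i => algebraMap R S (f i)) (fun i => β (e i))) :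
    IsBaseChange S β := by
  have := (h.baseChange S).bijective (AlgebraTensorModule.lift
    ((LinearMap.toSpanSingleton S (E →ₗ[R] F) β))) (by simpa using h')
  exact this

end BaseChange

end Fermat.Agent.H51Inv
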