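import Mathlib
import Fermat.Agent.H25Gen2
import Fermat.Agent.H51Inv

/-!
# Invertible `O_X`-modules on affine opens (S25-B1)
-/

set_option autoImplicit false
set_option linter.style.haveILetI false

open CategoryTheory AlgebraicGeometry CategoryTheory.Limits TopologicalSpace

namespace Fermat.Agent.H51Aff

open Fermat.Agent.H25 Fermat.Agent.H51Inv

universe u

variable {X : Scheme.{u}}

section Functions

variable {U : X.Opens} (hU : IsAffineOpen U)

include hU in
/-- functions on a basic open extend after multiplication by a power -/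
theorem resO_surj (f : Γ(X, U)) {W : X.Opens} (hW : W = X.basicOpen f) (h : W ≤ U) (y : Γ(X, W)) :
    ∃ (n : ℕ) (x : Γ(X, U)), resO h x = (resO h f) ^ n * y := by
  letI : Algebra Γ(X, U) Γ(X, W) := (X.presheaf.map (homOfLE h).op).hom.toAlgebra
  haveI := hU.isLocalization_of_eq_basicOpen f (homOfLE h) hW
  obtain ⟨⟨x, ⟨_, n, rfl⟩⟩, hx⟩ := IsLocalization.surj (Submonoid.powers f) y
  refine ⟨n, x, ?_⟩
  have hx' : y * resO h (f ^ n) = resO h x := hx
  rw [← hx', resO_pow, mul_comm]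

include hU in
theorem resO_inj (f : Γ(X, U)) {W : X.Opens} (hW : W = X.basicOpen f) (h : W ≤ U) (x : Γ(X, U))
    (hx : resO h x = 0) : ∃ n : ℕ, f ^ n * x = 0 := by
  letI : Algebra Γ(X, U) Γ(X, W) := (X.presheaf.map (homOfLE h).op).hom.toAlgebra
  haveI := hU.isLocalization_of_eq_basicOpen f (homOfLE h) hW
  have h1 : algebraMap Γ(X, U) Γ(X, W) x = 0 := hx
  rw [IsLocalization.map_eq_zero_iff (Submonoid.powers f)] at h1
  obtain ⟨⟨_, n, rfl⟩, hn⟩ := h1
  exact ⟨n, hn⟩

theorem isUnit_resO (f : Γ(X, U)) {W : X.Opens} (hW : W ≤ X.basicOpen f) (h : W ≤ U) :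
    IsUnit (resO h f) := by
  have h1 : IsUnit (resO (X.basicOpen_le f) f) := RingedSpace.isUnit_res_basicOpen _ f
  have h2 := h1.map (resOHom hW)
  rwa [resOHom_apply, resO_resO] at h2

theorem basicOpen_resO (f : Γ(X, U)) {V : X.Opens} (h : V ≤ U) :
    X.basicOpen (resO h f) = V ⊓ X.basicOpen f :=
  X.basicOpen_res f (homOfLE h).op

end Functions

section Modules

variable {M : X.Modules} {U : X.Opens} (hU : IsAffineOpen U)

include hU in
/-- a finite cover by basic opens on which `M` has generators -/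
theorem exists_cover (hM : Scheme.Modules.IsInvertible M) :
    ∃ (ι : Type u) (_ : Finite ι) (f : ι → Γ(X, U)) (s : ∀ i, Γ(M, X.basicOpen (f i))),
      Ideal.span (Set.range f) = ⊤ ∧ ∀ i, IsGen M (s i) := by
  let T : Set Γ(X, U) := {f | ∃ s : Γ(M, X.basicOpen f), IsGen M s}
  have hT : Ideal.span T = ⊤ := by
    rw [← hU.self_le_iSup_basicOpen_iff]
    intro x hx
    obtain ⟨V, hVU, hxV, s, hs⟩ := exists_isGen_of_mem hM hx
    obtain ⟨f, hf, hxf⟩ := hU.exists_basicOpen_le ⟨x, hxV⟩ hx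
    exact Opens.mem_iSup.mpr ⟨⟨f, res M hf s, hs.res hf⟩, hxf⟩
  obtain ⟨t, htT, ht⟩ := (Ideal.span_eq_top_iff_finite T).mp hT
  have : ∀ f : t, ∃ s : Γ(M, X.basicOpen f.1), IsGen M s := fun f => htT f.2
  choose s hs using this
  exact ⟨t, inferInstance, fun f => f.1, s, by simpa using ht, hs⟩

include hU in
theorem le_iSup_basicOpen {ι : Type*} {f : ι → Γ(X, U)} (hf : Ideal.span (Set.range f) = ⊤) :
    U ≤ ⨆ i, X.basicOpen (f i) := by
  have := hU.self_le_iSup_basicOpen_iff.mpr hf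
  refine this.trans (iSup_le ?_)
  rintro ⟨_, i, rfl⟩
  exact le_iSup (fun i => X.basicOpen (f i)) i

include hU in
/-- localization, for modules with a generator -/
theorem res_inj_of_isGen {s : Γ(M, U)} (hs : IsGen M s) (f : Γ(X, U)) {W : X.Opens}
    (hW : W = X.basicOpen f) (h : W ≤ U) (x : Γ(M, U)) (hx : res M h x = 0) :
    ∃ n : ℕ, f ^ n • x = 0 := by
  obtain ⟨a, rfl⟩ := hs.surj x
  rw [res_smul] at hx
  have h1 : resO h a = 0 := (hs.res h).inj (by rw [hx, zero_smul])
  obtain ⟨n, hn⟩ := resO_inj hU f hW h a h1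
  exact ⟨n, by rw [smul_smul, hn, zero_smul]⟩

include hU in
theorem res_surj_of_isGen {s : Γ(M, U)} (hs : IsGen M s) (f : Γ(X, U)) {W : X.Opens}
    (hW : W = X.basicOpen f) (h : W ≤ U) (y : Γ(M, W)) :
    ∃ (n : ℕ) (x : Γ(M, U)), res M h x = (resO h f) ^ n • y := by
  obtain ⟨a, rfl⟩ := hs.surj' h y
  obtain ⟨n, b, hb⟩ := resO_surj hU f hW h a
  exact ⟨n, b • s, by rw [res_smul, hb, smul_smul]⟩

/-- monotone exponents -/
theorem exists_nat_forall {ι : Type*} [Finite ι] {p : ι → ℕ → Prop}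
    (hp : ∀ i, ∃ n, p i n) (hmono : ∀ i m n, m ≤ n → p i m → p i n) : ∃ n, ∀ i, p i n := by
  cases nonempty_fintype ι
  choose n hn using hp
  exact ⟨Finset.univ.sup n, fun i => hmono i _ _ (Finset.le_sup (Finset.mem_univ i)) (hn i)⟩

include hU in
theorem res_inj (hM : Scheme.Modules.IsInvertible M) (f : Γ(X, U)) {W : X.Opens}
    (hW : W = X.basicOpen f) (h : W ≤ U) (x : Γ(M, U)) (hx : res M h x = 0) :
    ∃ n : ℕ, f ^ n • x = 0 := by
  obtain ⟨ι, _, g, s, hg, hs⟩ := exists_cover hU hM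
  have h1 : ∀ i, ∃ n : ℕ, (resO (X.basicOpen_le (g i)) f) ^ n •
      res M (X.basicOpen_le (g i)) x = 0 := by
    intro i
    refine res_inj_of_isGen (hU.basicOpen (g i)) (hs i) _ (W := X.basicOpen (g i) ⊓ W)
      (by rw [basicOpen_resO, hW]) inf_le_left _ ?_
    rw [res_res, ← res_res M h inf_le_right, hx, res_zero]
  obtain ⟨n, hn⟩ := exists_nat_forall h1 (fun i m n hmn hm => by
    obtain ⟨k, rfl⟩ := Nat.exists_eq_add_of_le hmn
    rw [add_comm, pow_add, mul_smul, hm, smul_zero])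
  refine ⟨n, sec_ext (fun i => X.basicOpen (g i)) (fun i => X.basicOpen_le (g i))
    (le_iSup_basicOpen hU hg) fun i => ?_⟩
  rw [res_smul, resO_pow, hn, res_zero]

include hU in
theorem res_surj (hM : Scheme.Modules.IsInvertible M) (f : Γ(X, U)) {W : X.Opens}
    (hW : W = X.basicOpen f) (h : W ≤ U) (y : Γ(M, W)) :
    ∃ (n : ℕ) (x : Γ(M, U)), res M h x = (resO h f) ^ n • y := by
  obtain ⟨ι, _, g, s, hg, hs⟩ := exists_cover hU hM
  have h1 : ∀ i, ∃ n : ℕ, ∃ x : Γ(M, X.basicOpen (g i)),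
      res M (inf_le_left : X.basicOpen (g i) ⊓ W ≤ _) x =
        (resO (inf_le_right.trans h : X.basicOpen (g i) ⊓ W ≤ U) f) ^ n •
          res M (inf_le_right : X.basicOpen (g i) ⊓ W ≤ W) y := by
    intro i
    obtain ⟨n, x, hx⟩ := res_surj_of_isGen (hU.basicOpen (g i)) (hs i)
      (resO (X.basicOpen_le (g i)) f) (W := X.basicOpen (g i) ⊓ W)
      (by rw [basicOpen_resO, hW]) inf_le_left (res M inf_le_right y)
    exact ⟨n, x, by rw [hx, resO_resO]⟩
  obtain ⟨n, hn⟩ := exists_nat_forall h1 (fun i m n hmn ⟨x, hx⟩ => by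
    obtain ⟨k, rfl⟩ := Nat.exists_eq_add_of_le hmn
    refine ⟨(resO (X.basicOpen_le (g i)) f) ^ k • x, ?_⟩
    rw [res_smul, hx, resO_pow, resO_resO, smul_smul, ← pow_add, add_comm])
  choose x hx using hn
  -- differences on overlaps
  have h2 : ∀ p : ι × ι, ∃ m : ℕ,
      (resO (inf_le_left.trans (X.basicOpen_le (g p.1)) :
        X.basicOpen (g p.1) ⊓ X.basicOpen (g p.2) ≤ U) f) ^ m •
      (res M (inf_le_left : X.basicOpen (g p.1) ⊓ X.basicOpen (g p.2) ≤ _) (x p.1) -
        res M (inf_le_right : X.basicOpen (g p.1) ⊓ X.basicOpen (g p.2) ≤ _) (x p.2)) = 0 := by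
    rintro ⟨i, j⟩
    have haff : IsAffineOpen (X.basicOpen (g i) ⊓ X.basicOpen (g j)) := by
      rw [← X.basicOpen_mul]; exact hU.basicOpen _
    refine res_inj_of_isGen haff ((hs i).res inf_le_left) _
      (W := (X.basicOpen (g i) ⊓ X.basicOpen (g j)) ⊓ W)
      (by rw [basicOpen_resO, hW]) inf_le_left _ ?_
    rw [res_sub, res_res, res_res]
    have h3 := congrArg (res M (le_inf (inf_le_left.trans inf_le_left) inf_le_right :
      (X.basicOpen (g i) ⊓ X.basicOpen (g j)) ⊓ W ≤ X.basicOpen (g i) ⊓ W)) (hx i)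
    have h4 := congrArg (res M (le_inf (inf_le_left.trans inf_le_right) inf_le_right :
      (X.basicOpen (g i) ⊓ X.basicOpen (g j)) ⊓ W ≤ X.basicOpen (g j) ⊓ W)) (hx j)
    rw [res_res, res_smul, res_res, resO_pow, resO_resO] at h3 h4
    rw [h3, h4, sub_self]
  obtain ⟨m, hm⟩ := exists_nat_forall h2 (fun p m n hmn hm => by
    obtain ⟨k, rfl⟩ := Nat.exists_eq_add_of_le hmn
    rw [add_comm, pow_add, mul_smul, hm, smul_zero])
  obtain ⟨z, hz⟩ := sec_glue (M := M) (fun i => X.basicOpen (g i)) (fun i => X.basicOpen_le (g i))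
    (le_iSup_basicOpen hU hg) (fun i => (resO (X.basicOpen_le (g i)) f) ^ m • x i)
    (fun i j V hi hj => by
      have h3 := congrArg (res M (le_inf hi hj)) (hm (i, j))
      rw [res_smul, res_sub, res_res, res_res, resO_pow, resO_resO, res_zero, smul_sub,
        sub_eq_zero] at h3
      rw [res_smul, res_smul, resO_pow, resO_pow, resO_resO, resO_resO]
      exact h3)
  refine ⟨m + n, z, ?_⟩
  refine sec_ext (fun i => X.basicOpen (g i) ⊓ W) (fun i => inf_le_right) ?_ fun i => ?_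
  · rw [← iSup_inf_eq]
    exact le_inf (h.trans (le_iSup_basicOpen hU hg)) le_rfl
  · rw [res_res, ← res_res M (X.basicOpen_le (g i)) inf_le_left, hz, res_smul, hx, res_smul,
      resO_pow, resO_resO, resO_pow, resO_resO, pow_add, mul_smul]

include hU in
theorem locGen_of_isGen (hM : Scheme.Modules.IsInvertible M) {ι : Type*} {f : ι → Γ(X, U)}
    (hf : Ideal.span (Set.range f) = ⊤) {e : ι → Γ(M, U)}
    (hgen : ∀ i, IsGen M (res M (X.basicOpen_le (f i)) (e i))) : LocGen f e := by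
  refine ⟨hf, ?_, ?_⟩
  · intro i x
    obtain ⟨a, ha⟩ := (hgen i).surj (res M (X.basicOpen_le (f i)) x)
    obtain ⟨m, b, hb⟩ := resO_surj hU (f i) rfl (X.basicOpen_le (f i)) a
    have h2 : res M (X.basicOpen_le (f i)) ((f i) ^ m • x - b • e i) = 0 := by
      rw [res_sub, res_smul, res_smul, ha, hb, resO_pow, smul_smul, sub_self]
    obtain ⟨l, hl⟩ := res_inj hU hM (f i) rfl _ _ h2
    refine ⟨l + m, (f i) ^ l * b, ?_⟩
    rw [smul_sub, sub_eq_zero] at hl
    rw [pow_add, mul_smul, hl, mul_smul]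
  · intro i a ha
    have h2 := congrArg (res M (X.basicOpen_le (f i))) ha
    rw [res_smul, res_zero] at h2
    exact resO_inj hU (f i) rfl (X.basicOpen_le (f i)) a ((hgen i).inj (by rw [h2, zero_smul]))

include hU in
/-- local generators -/
theorem exists_locGen_cover (hM : Scheme.Modules.IsInvertible M) :
    ∃ (ι : Type u) (_ : Finite ι) (f : ι → Γ(X, U)) (e : ι → Γ(M, U)),
      (∀ i, IsGen M (res M (X.basicOpen_le (f i)) (e i))) ∧
      LocGen f e := by
  obtain ⟨ι, hfin, f, s, hf, hs⟩ := exists_cover hU hM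
  have h1 : ∀ i, ∃ (n : ℕ) (x : Γ(M, U)), res M (X.basicOpen_le (f i)) x =
    (resO (X.basicOpen_le (f i)) (f i)) ^ n • s i := fun i => res_surj hU hM (f i) rfl _ _
  choose n e he using h1
  have hgen : ∀ i, IsGen M (res M (X.basicOpen_le (f i)) (e i)) := by
    intro i
    rw [he]
    exact (hs i).unit_smul ((isUnit_resO (f i) le_rfl _).pow _)
  exact ⟨ι, hfin, f, e, hgen, locGen_of_isGen hU hM hf hgen⟩

include hU in
/-- sections of an invertible sheaf over an affine open form an invertible module -/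
theorem invertible (hM : Scheme.Modules.IsInvertible M) : Module.Invertible Γ(X, U) Γ(M, U) := by
  obtain ⟨ι, hfin, f, e, -, h⟩ := exists_locGen_cover hU hM
  exact h.invertible

include hU in
/-- `LocGen` on sections over an affine open gives generators of the sheaf. -/
theorem isGen_of_locGen (hM : Scheme.Modules.IsInvertible M) {ι : Type*} {f : ι → Γ(X, U)}
    {e : ι → Γ(M, U)} (h : LocGen f e) (i : ι) {W : X.Opens} (hW : W ≤ X.basicOpen (f i))
    (hWU : W ≤ U) : IsGen M (res M hWU (e i)) := by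
  obtain ⟨κ, _, g, e', hg, h'⟩ := exists_locGen_cover hU hM
  refine IsGen.of_cover (fun j => X.basicOpen (g j) ⊓ W) (fun j => inf_le_right) ?_ fun j => ?_
  · rw [← iSup_inf_eq]
    exact le_inf (hWU.trans (le_iSup_basicOpen hU h'.span)) le_rfl
  · -- compare `e i` with the generator `e' j`
    have hV : X.basicOpen (g j) ⊓ W ≤ U := inf_le_right.trans hWU
    obtain ⟨n, a, hna⟩ := h.surj i (e' j)
    have hgen : IsGen M (res M hV (e' j)) := by
      have := (hg j).res (inf_le_left : X.basicOpen (g j) ⊓ W ≤ _)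
      rwa [res_res] at this
    obtain ⟨b, hb⟩ := hgen.surj (res M hV (e i))
    have h1 := congrArg (res M hV) hna
    rw [res_smul, res_smul, hb, smul_smul] at h1
    have h2 := hgen.inj h1
    have h3 : IsUnit (resO hV (f i ^ n)) := by
      rw [resO_pow]; exact (isUnit_resO (f i) (inf_le_right.trans hW) hV).pow n
    rw [h2] at h3
    rw [res_res, hb]
    exact hgen.unit_smul (isUnit_of_mul_isUnit_right h3)

include hU in
theorem isGen_of_bijective (hM : Scheme.Modules.IsInvertible M) (s : Γ(M, U))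
    (hs : Function.Bijective fun a : Γ(X, U) => a • s) : IsGen M s := by
  have h : LocGen (fun _ : Unit => (1 : Γ(X, U))) (fun _ => s) := by
    refine ⟨?_, fun _ x => ?_, fun _ a ha => ?_⟩
    · rw [Ideal.eq_top_iff_one]; exact Ideal.subset_span ⟨(), rfl⟩
    · obtain ⟨a, ha⟩ := hs.2 x
      exact ⟨0, a, by rw [pow_zero, one_smul]; exact ha.symm⟩
    · refine ⟨0, ?_⟩
      rw [pow_zero, one_mul]
      exact hs.1 (by simpa using ha)
  have h1 := isGen_of_locGen hU hM h () (W := U) (by rw [X.basicOpen_one]) le_rfl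
  rwa [res_self] at h1

include hU in
theorem isGen_iff_locGen (hM : Scheme.Modules.IsInvertible M) {ι : Type*} {f : ι → Γ(X, U)}
    (hf : Ideal.span (Set.range f) = ⊤) {e : ι → Γ(M, U)} :
    (∀ i, IsGen M (res M (X.basicOpen_le (f i)) (e i))) ↔ LocGen f e :=
  ⟨locGen_of_isGen hU hM hf, fun h i => isGen_of_locGen hU hM h i le_rfl _⟩

include hU in
/-- restriction to a smaller affine open preserves `LocGen` -/
theorem locGen_res (hM : Scheme.Modules.IsInvertible M) {ι : Type*} {f : ι → Γ(X, U)}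
    {e : ι → Γ(M, U)} (h : LocGen f e) {V : X.Opens} (hV : IsAffineOpen V) (hVU : V ≤ U) :
    LocGen (fun i => resO hVU (f i)) (fun i => res M hVU (e i)) := by
  refine locGen_of_isGen hV hM ?_ fun i => ?_
  · have := congrArg (Ideal.map (resOHom hVU)) h.span
    rw [Ideal.map_span, Ideal.map_top, ← Set.range_comp] at this
    exact this
  · rw [res_res]
    exact isGen_of_locGen hU hM h i (by rw [basicOpen_resO]; exact inf_le_right) _

include hU in
/-- sections over a smaller affine open are the base change -/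
theorem isBaseChange_res (hM : Scheme.Modules.IsInvertible M) {V : X.Opens} (hV : IsAffineOpen V)
    (hVU : V ≤ U) [Algebra Γ(X, U) Γ(X, V)] [Module Γ(X, U) Γ(M, V)]
    [IsScalarTower Γ(X, U) Γ(X, V) Γ(M, V)]
    (halg : ∀ a, algebraMap Γ(X, U) Γ(X, V) a = resO hVU a)
    (β : Γ(M, U) →ₗ[Γ(X, U)] Γ(M, V)) (hβ : ∀ x, β x = res M hVU x) :
    IsBaseChange Γ(X, V) β := by
  obtain ⟨ι, _, f, e, -, h⟩ := exists_locGen_cover hU hM
  refine h.isBaseChange Γ(X, V) β ?_
  simp only [halg, hβ]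
  exact locGen_res hU hM h hV hVU

include hU in
theorem isLocalizedModule_res (hM : Scheme.Modules.IsInvertible M) (f : Γ(X, U)) {V : X.Opens}
    (hV : V = X.basicOpen f) (hVU : V ≤ U) [Module Γ(X, U) Γ(M, V)]
    (hsmul : ∀ (a : Γ(X, U)) (x : Γ(M, V)), a • x = resO hVU a • x)
    (β : Γ(M, U) →ₗ[Γ(X, U)] Γ(M, V)) (hβ : ∀ x, β x = res M hVU x) :
    IsLocalizedModule (Submonoid.powers f) β := by
  letI : Algebra Γ(X, U) Γ(X, V) := (resOHom hVU).toAlgebra
  haveI : IsScalarTower Γ(X, U) Γ(X, V) Γ(M, V) :=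
    ⟨fun a b c => by
      rw [hsmul, Algebra.smul_def, mul_smul]; rfl⟩
  haveI : IsLocalization.Away f Γ(X, V) := hU.isLocalization_of_eq_basicOpen f (homOfLE hVU) hV
  have hVaff : IsAffineOpen V := hV ▸ hU.basicOpen f
  exact (isLocalizedModule_iff_isBaseChange (Submonoid.powers f) Γ(X, V) _).mpr
    (isBaseChange_res hU hM hVaff hVU (fun _ => rfl) β hβ)

end Modules

end Fermat.Agent.H51Aff
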