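import Fermat.Agent.H20Tw
import Fermat.Agent.H51Aff
/-!
# S25, job E4, part 3: criteria for local equations
-/
set_option autoImplicit false
universe u v
open CategoryTheory AlgebraicGeometry CategoryTheory.Limits TopologicalSpace Opposite

noncomputable section

namespace Fermat.Agent.H20T

open Fermat.Agent.H25 Fermat.Agent.H51Aff

variable {X T X' T' : Scheme.{u}}

/-- local equations away from `γ` -/
theorem isLocEq_one {γ : T ⟶ X} {W : X.Opens} (hW : γ ⁻¹ᵁ W = ⊥) : IsLocEq γ (1 : Γ(X, W)) := by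
  intro V hV
  have h0 : γ ⁻¹ᵁ V = ⊥ := le_bot_iff.mp ((γ.preimage_mono hV).trans hW.le)
  have hs : Subsingleton Γ(T, γ ⁻¹ᵁ V) := by
    rw [h0]; infer_instance
  refine ⟨fun f ↦ ⟨fun _ ↦ ⟨f, by rw [resO_one, mul_one]⟩, fun _ ↦ Subsingleton.elim _ _⟩,
    fun g hg ↦ by rwa [resO_one, mul_one] at hg⟩

/-- the equation `e` is a local equation on the basic open `D(f)` of an affine open -/
theorem isLocEq_of_affine {γ : T ⟶ X} {W : X.Opens} (hW : IsAffineOpen W)
    (hγW : IsAffineOpen (γ ⁻¹ᵁ W)) (f e : Γ(X, W)) (he : γ.app W e = 0)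
    (h1 : ∀ g : Γ(X, W), γ.app W g = 0 → ∃ (n : ℕ) (a : Γ(X, W)), f ^ n * g = a * e)
    (h2 : ∀ x : Γ(X, W), x * e = 0 → ∃ n : ℕ, f ^ n * x = 0) :
    IsLocEq γ (resO (X.basicOpen_le f) e) := by
  -- the statement on basic opens
  have inj0 : ∀ (h : Γ(X, W)) (hh : X.basicOpen h ≤ X.basicOpen f) (g : Γ(X, X.basicOpen h)),
      g * resO hh (resO (X.basicOpen_le f) e) = 0 → g = 0 := by
    intro h hh g hg
    rw [resO_resO] at hg
    obtain ⟨n, x, hx⟩ := resO_surj hW h rfl (X.basicOpen_le h) g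
    have h3 : resO (X.basicOpen_le h) (x * e) = 0 := by
      rw [resO_mul, hx, mul_assoc, hg, mul_zero]
    obtain ⟨m, hm⟩ := resO_inj hW h rfl _ _ h3
    obtain ⟨l, hl⟩ := h2 (h ^ m * x) (by rw [mul_assoc, hm])
    have hu1 : IsUnit (resO (X.basicOpen_le h) h) := isUnit_resO h le_rfl _
    have hu2 : IsUnit (resO (X.basicOpen_le h) f) := isUnit_resO f hh _
    have h4 := congrArg (resO (X.basicOpen_le h)) hl
    rw [resO_mul, resO_mul, resO_pow, resO_pow, resO_zero, hx] at h4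
    rw [(hu2.pow l).mul_right_eq_zero, (hu1.pow m).mul_right_eq_zero,
      (hu1.pow n).mul_right_eq_zero] at h4
    exact h4
  have surj0 : ∀ (h : Γ(X, W)) (hh : X.basicOpen h ≤ X.basicOpen f) (g : Γ(X, X.basicOpen h)),
      γ.app _ g = 0 → ∃ a, g = a * resO hh (resO (X.basicOpen_le f) e) := by
    intro h hh g hg
    rw [resO_resO]
    obtain ⟨n, x, hx⟩ := resO_surj hW h rfl (X.basicOpen_le h) g
    have h3 : resO (γ.preimage_mono (X.basicOpen_le h)) (γ.app W x) = 0 := by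
      rw [← app_resO γ (X.basicOpen_le h), hx, map_mul, hg, mul_zero]
    obtain ⟨m, hm⟩ := resO_inj hγW (γ.app W h) (W := γ ⁻¹ᵁ X.basicOpen h)
      (Scheme.preimage_basicOpen γ h) _ _ h3
    rw [← map_pow, ← map_mul] at hm
    obtain ⟨l, a, hl⟩ := h1 _ hm
    have hu1 : IsUnit (resO (X.basicOpen_le h) h) := isUnit_resO h le_rfl _
    have hu2 : IsUnit (resO (X.basicOpen_le h) f) := isUnit_resO f hh _
    have h4 := congrArg (resO (X.basicOpen_le h)) hl
    rw [resO_mul, resO_mul, resO_pow, resO_pow, resO_mul, hx] at h4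
    obtain ⟨v, hv⟩ := ((hu2.pow l).mul ((hu1.pow m).mul (hu1.pow n))).exists_left_inv
    refine ⟨v * resO (X.basicOpen_le h) a, ?_⟩
    calc g = (v * (resO (X.basicOpen_le h) f ^ l * (resO (X.basicOpen_le h) h ^ m *
          resO (X.basicOpen_le h) h ^ n))) * g := by rw [hv, one_mul]
      _ = v * (resO (X.basicOpen_le h) f ^ l * (resO (X.basicOpen_le h) h ^ m *
          (resO (X.basicOpen_le h) h ^ n * g))) := by ring
      _ = _ := by rw [h4]; ring
  -- cover
  have hcov : ∀ (V : X.Opens) (_ : V ≤ X.basicOpen f),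
      V ≤ ⨆ h : {h : Γ(X, W) // X.basicOpen h ≤ V}, X.basicOpen h.1 := by
    intro V hV x hx
    have hxW : x ∈ W := X.basicOpen_le f (hV hx)
    obtain ⟨h, hh, hxh⟩ := hW.exists_basicOpen_le ⟨x, hx⟩ hxW
    exact Opens.mem_iSup.mpr ⟨⟨h, hh⟩, hxh⟩
  have inj : ∀ (V : X.Opens) (hV : V ≤ X.basicOpen f) (g : Γ(X, V)),
      g * resO hV (resO (X.basicOpen_le f) e) = 0 → g = 0 := by
    intro V hV g hg
    refine secO_ext (fun h : {h : Γ(X, W) // X.basicOpen h ≤ V} ↦ X.basicOpen h.1)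
      (fun h ↦ h.2) (hcov V hV) fun h ↦ ?_
    rw [resO_zero]
    refine inj0 h.1 (h.2.trans hV) _ ?_
    have := congrArg (resO h.2) hg
    simpa only [resO_mul, resO_resO, resO_zero] using this
  intro V hV
  refine ⟨fun g ↦ ⟨fun hg ↦ ?_, ?_⟩, inj V hV⟩
  · have h3 : ∀ h : {h : Γ(X, W) // X.basicOpen h ≤ V},
        ∃ a, resO h.2 g = a * resO (h.2.trans hV) (resO (X.basicOpen_le f) e) := by
      intro h
      refine surj0 h.1 (h.2.trans hV) _ ?_
      rw [app_resO, hg, resO_zero]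
    choose a ha using h3
    obtain ⟨x, hx⟩ := secO_glue (fun h : {h : Γ(X, W) // X.basicOpen h ≤ V} ↦ X.basicOpen h.1)
      (fun h ↦ h.2) (hcov V hV) a (by
        intro i j U hi hj
        rw [← sub_eq_zero]
        refine inj U (hi.trans (i.2.trans hV)) _ ?_
        have e1 := congrArg (resO hi) (ha i)
        have e2 := congrArg (resO hj) (ha j)
        simp only [resO_mul, resO_resO] at e1 e2 ⊢
        rw [sub_mul, ← e1, ← e2, sub_self])
    refine ⟨x, ?_⟩
    refine secO_ext (fun h : {h : Γ(X, W) // X.basicOpen h ≤ V} ↦ X.basicOpen h.1)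
      (fun h ↦ h.2) (hcov V hV) fun h ↦ ?_
    rw [resO_mul, hx, ha, resO_resO, resO_resO, resO_resO]
  · rintro ⟨a, rfl⟩
    rw [map_mul, resO_resO, app_resO, he, resO_zero, mul_zero]

end Fermat.Agent.H20T
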