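import Fermat.Agent.H20TwFam
/-!
# S25, job E4, part 6: morphisms to the Picard scheme from non-rigidified families,
the proper surjection `C^d ⟶ P`, and algebraic equivalence.
-/
set_option autoImplicit false
universe u v
open CategoryTheory AlgebraicGeometry CategoryTheory.Limits TopologicalSpace Opposite
open AlgebraicGeometry.RelPicard NeronModelInfra

noncomputable section

namespace Fermat.Agent.H20T

open Fermat.Agent.H25

/-- glueing morphisms defined on opens -/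
theorem exists_glue_hom {Y P : Scheme.{u}} (U : Y → Y.Opens) (hU : ∀ q, q ∈ U q)
    (f : ∀ q, (U q).toScheme ⟶ P)
    (hf : ∀ q r {T : Scheme.{u}} (a : T ⟶ (U q).toScheme) (b : T ⟶ (U r).toScheme),
      a ≫ (U q).ι = b ≫ (U r).ι → a ≫ f q = b ≫ f r) :
    ∃ g : Y ⟶ P, ∀ q, (U q).ι ≫ g = f q := by
  have hcov : TopologicalSpace.IsOpenCover U :=
    .mk (top_le_iff.mp fun q _ ↦ Opens.mem_iSup.mpr ⟨q, hU q⟩)
  let 𝒰 := Y.openCoverOfIsOpenCover U hcov
  refine ⟨𝒰.glueMorphisms f (fun q r ↦ hf q r _ _ pullback.condition), fun q ↦ ?_⟩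
  exact 𝒰.ι_glueMorphisms f _ q

variable {k : Type u} [Field k] {C T T' T'' : Scheme.{u}}
  {c : C ⟶ Spec (CommRingCat.of k)} {ε : SchemeHomOver (𝟙 (Spec (CommRingCat.of k))) c}
  {t : T ⟶ Spec (CommRingCat.of k)}
  {t' : T' ⟶ Spec (CommRingCat.of k)} {t'' : T'' ⟶ Spec (CommRingCat.of k)}

/-- pullback along a composition -/
def pbComp (φ : SchemeHomOver t' t) (ψ : SchemeHomOver t'' t') (M : (pullback c t).Modules) :
    (Scheme.Modules.pullback (baseChangeSnd c ψ)).obj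
      ((Scheme.Modules.pullback (baseChangeSnd c φ)).obj M) ≅
    (Scheme.Modules.pullback (baseChangeSnd c (postComp φ ψ))).obj M :=
  (Scheme.Modules.pullbackComp _ _).app M ≪≫
    (Scheme.Modules.pullbackCongr (baseChangeSnd_comp c φ ψ)).app M

def pbId (M : (pullback c t).Modules) :
    (Scheme.Modules.pullback (baseChangeSnd c (⟨𝟙 T, Category.id_comp t⟩ : SchemeHomOver t t))).obj
      M ≅ M :=
  (Scheme.Modules.pullbackCongr (baseChangeSnd_id c t)).app M ≪≫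
    (Scheme.Modules.pullbackId (pullback c t)).app M

/-- A line bundle on `C_T` whose restriction to the section is trivial gives a rigidified line
bundle. -/
def rigMk {N : (pullback c t).Modules} (hN : Scheme.Modules.IsInvertible N)
    (h : Nonempty ((Scheme.Modules.pullback (rigSection c t ε)).obj N ≅
      SheafOfModules.unit T.ringCatSheaf)) : RigidifiedLineBundle c ε t := ⟨N, hN, h⟩

/-- every invertible module on `C_Y` is rigidifiable locally on `Y` -/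
theorem exists_local_rig (ε : SchemeHomOver (𝟙 (Spec (CommRingCat.of k))) c)
    {N : (pullback c t).Modules} (hN : Scheme.Modules.IsInvertible N) (q : T) :
    ∃ (U : T.Opens) (_ : q ∈ U) (M : RigidifiedLineBundle c ε (U.ι ≫ t)),
      M.L = (Scheme.Modules.pullback (baseChangeSnd c
        (⟨U.ι, rfl⟩ : SchemeHomOver (U.ι ≫ t) t))).obj N := by
  obtain ⟨U, hq, ⟨e⟩⟩ := (hN.pullback (rigSection c t ε)).exists_trivialization q
  refine ⟨U, hq, ⟨_, hN.pullback _, ⟨?_⟩⟩, rfl⟩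
  exact (Scheme.Modules.pullbackComp _ _).app N ≪≫
    (Scheme.Modules.pullbackCongr (rigSection_baseChangeSnd c ε
      (⟨U.ι, rfl⟩ : SchemeHomOver (U.ι ≫ t) t))).app N ≪≫
    ((Scheme.Modules.pullbackComp _ _).app N).symm ≪≫ e

section Classify

variable {P : Scheme.{u}} {p : P ⟶ Spec (CommRingCat.of k)} (Poin : RigidifiedLineBundle c ε p)
  (hmono : ∀ {T : Scheme.{u}} (t : T ⟶ Spec (CommRingCat.of k)) (g g' : SchemeHomOver t p),
    Nonempty ((Poin.pullbackAlong g).L ≅ (Poin.pullbackAlong g').L) → g = g')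

include hmono in
/-- glueing of classifying morphisms -/
theorem exists_classify_of_local (N : (pullback c t).Modules)
    (h : ∀ q : T, ∃ (U : T.Opens) (_ : q ∈ U) (g : SchemeHomOver (U.ι ≫ t) p),
      Nonempty ((Poin.pullbackAlong g).L ≅ (Scheme.Modules.pullback (baseChangeSnd c
        (⟨U.ι, rfl⟩ : SchemeHomOver (U.ι ≫ t) t))).obj N)) :
    ∃ g : SchemeHomOver t p, ∀ q : T, ∃ (U : T.Opens) (_ : q ∈ U),
      Nonempty ((Poin.pullbackAlong (postComp g (⟨U.ι, rfl⟩ : SchemeHomOver (U.ι ≫ t) t))).L ≅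
        (Scheme.Modules.pullback (baseChangeSnd c
          (⟨U.ι, rfl⟩ : SchemeHomOver (U.ι ≫ t) t))).obj N) := by
  choose U hU g hg using h
  obtain ⟨G, hG⟩ := exists_glue_hom U hU (fun q ↦ (g q).1) (by
    intro q r T' a b hab
    have hr : b ≫ ((U r).ι ≫ t) = a ≫ ((U q).ι ≫ t) := by
      rw [← Category.assoc, ← hab, Category.assoc]
    let a' : SchemeHomOver (a ≫ ((U q).ι ≫ t)) ((U q).ι ≫ t) := ⟨a, rfl⟩
    let b' : SchemeHomOver (a ≫ ((U q).ι ≫ t)) ((U r).ι ≫ t) := ⟨b, hr⟩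
    have h1 : postComp (g q) a' = postComp (g r) b' := by
      refine hmono _ _ _ ?_
      obtain ⟨e1⟩ := hg q
      obtain ⟨e2⟩ := hg r
      have h2 : postComp (⟨(U q).ι, rfl⟩ : SchemeHomOver ((U q).ι ≫ t) t) a' =
          postComp (⟨(U r).ι, rfl⟩ : SchemeHomOver ((U r).ι ≫ t) t) b' := Subtype.ext hab
      refine ⟨(pbComp (g q) a' Poin.L).symm ≪≫ (Scheme.Modules.pullback _).mapIso e1 ≪≫
        pbComp _ a' N ≪≫ eqToIso (by rw [h2]) ≪≫ (pbComp _ b' N).symm ≪≫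
        (Scheme.Modules.pullback _).mapIso e2.symm ≪≫ pbComp (g r) b' Poin.L⟩
    exact congrArg Subtype.val h1)
  have hGp : G ≫ p = t := by
    refine Scheme.hom_ext_of_forall _ _ fun q ↦ ⟨U q, hU q, ?_⟩
    rw [← Category.assoc, hG, (g q).2]
  refine ⟨⟨G, hGp⟩, fun q ↦ ⟨U q, hU q, ?_⟩⟩
  have h1 : postComp (⟨G, hGp⟩ : SchemeHomOver t p)
      (⟨(U q).ι, rfl⟩ : SchemeHomOver ((U q).ι ≫ t) t) = g q := Subtype.ext (hG q)
  rw [h1]
  exact hg q

include hmono in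
/-- A (not necessarily rigidified) invertible module `N` on `C_T` all of whose fibres over
`k`-points are classified by `P` defines a morphism `T ⟶ P`. -/
theorem exists_classify [IsAlgClosed k] [LocallyOfFiniteType t] {ι : Type u}
    (𝒞 : ι → PicChart c ε)
    (hE : ∀ {T : Scheme.{u}} (t : T ⟶ Spec (CommRingCat.of k)) (M : RigidifiedLineBundle c ε t),
      (⨆ i, (𝒞 i).locus t M = ⊤) ↔
        ∃ g : SchemeHomOver t p, Nonempty ((Poin.pullbackAlong g).L ≅ M.L))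
    {N : (pullback c t).Modules} (hN : Scheme.Modules.IsInvertible N)
    (h : ∀ x : SchemeHomOver (𝟙 (Spec (CommRingCat.of k))) t,
      ∃ g : SchemeHomOver (𝟙 (Spec (CommRingCat.of k))) p, Nonempty ((Poin.pullbackAlong g).L ≅
        (Scheme.Modules.pullback (baseChangeSnd c x)).obj N)) :
    ∃ g : SchemeHomOver t p, ∀ q : T, ∃ (U : T.Opens) (_ : q ∈ U),
      Nonempty ((Poin.pullbackAlong (postComp g (⟨U.ι, rfl⟩ : SchemeHomOver (U.ι ≫ t) t))).L ≅
        (Scheme.Modules.pullback (baseChangeSnd c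
          (⟨U.ι, rfl⟩ : SchemeHomOver (U.ι ≫ t) t))).obj N) := by
  refine exists_classify_of_local Poin hmono N fun q ↦ ?_
  obtain ⟨U, hq, M, hM⟩ := exists_local_rig ε hN q
  have h1 : ⨆ i, (𝒞 i).locus (U.ι ≫ t) M = ⊤ := by
    refine H74.F1.eq_top_of_kPoints (U.ι ≫ t) _ fun x hx ↦ ?_
    let x' : SchemeHomOver (𝟙 (Spec (CommRingCat.of k))) (U.ι ≫ t) := ⟨x, hx⟩
    let x'' : SchemeHomOver (𝟙 (Spec (CommRingCat.of k))) t :=
      postComp (⟨U.ι, rfl⟩ : SchemeHomOver (U.ι ≫ t) t) x'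
    obtain ⟨g, ⟨e⟩⟩ := h x''
    have e' : (M.pullbackAlong x').L ≅ (Scheme.Modules.pullback (baseChangeSnd c x'')).obj N :=
      (Scheme.Modules.pullback (baseChangeSnd c x')).mapIso (eqToIso hM) ≪≫ pbComp _ x' N
    have h2 := (hE (𝟙 (Spec (CommRingCat.of k))) (M.pullbackAlong x')).mpr ⟨g, ⟨e ≪≫ e'.symm⟩⟩
    have h3 : (IsLocalRing.closedPoint k : ↥(Spec (CommRingCat.of k))) ∈
        ⨆ i, (𝒞 i).locus (𝟙 (Spec (CommRingCat.of k))) (M.pullbackAlong x') := by
      rw [h2]; trivial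
    obtain ⟨i, hi⟩ := Opens.mem_iSup.mp h3
    have h4 := ((𝒞 i).locus_spec (𝟙 (Spec (CommRingCat.of k))) (M.pullbackAlong x')
      (𝟙 (Spec (CommRingCat.of k))) ⟨𝟙 _, Category.id_comp _⟩).mpr (by
        rintro _ ⟨z, rfl⟩
        have hz : z = IsLocalRing.closedPoint k := Subsingleton.elim _ _
        rw [hz]
        exact hi)
    obtain ⟨h5, ⟨e5⟩⟩ := h4
    have h6 := ((𝒞 i).locus_spec (U.ι ≫ t) M (𝟙 (Spec (CommRingCat.of k))) x').mp
      ⟨h5, ⟨e5 ≪≫ pbId _⟩⟩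
    exact h6.trans (le_iSup (fun i ↦ (𝒞 i).locus (U.ι ≫ t) M) i)
  obtain ⟨g, ⟨e⟩⟩ := (hE _ M).mp h1
  exact ⟨U, hq, g, ⟨e ≪≫ eqToIso hM⟩⟩

/-- the fibres of the classified family -/
theorem classify_fibre {g : SchemeHomOver t p} {N : (pullback c t).Modules}
    (hg : ∀ q : T, ∃ (U : T.Opens) (_ : q ∈ U),
      Nonempty ((Poin.pullbackAlong (postComp g (⟨U.ι, rfl⟩ : SchemeHomOver (U.ι ≫ t) t))).L ≅
        (Scheme.Modules.pullback (baseChangeSnd c
          (⟨U.ι, rfl⟩ : SchemeHomOver (U.ι ≫ t) t))).obj N)) {K : Type u} [Field K]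
    {s : Spec (CommRingCat.of K) ⟶ Spec (CommRingCat.of k)} (x : SchemeHomOver s t) :
    Nonempty ((Poin.pullbackAlong (postComp g x)).L ≅
      (Scheme.Modules.pullback (baseChangeSnd c x)).obj N) := by
  obtain ⟨U, hU, ⟨e⟩⟩ := hg (x.1 (IsLocalRing.closedPoint K))
  have hrange : Set.range x.1 ⊆ Set.range U.ι := by
    rintro _ ⟨z, rfl⟩
    have hz : z = IsLocalRing.closedPoint K := Subsingleton.elim _ _
    rw [hz, Scheme.Opens.range_ι]
    exact hU
  let x' : SchemeHomOver s (U.ι ≫ t) := ⟨IsOpenImmersion.lift U.ι x.1 hrange, by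
    rw [← Category.assoc, IsOpenImmersion.lift_fac, x.2]⟩
  have hx : postComp (⟨U.ι, rfl⟩ : SchemeHomOver (U.ι ≫ t) t) x' = x :=
    Subtype.ext (IsOpenImmersion.lift_fac _ _ _)
  have hx' : postComp (postComp g (⟨U.ι, rfl⟩ : SchemeHomOver (U.ι ≫ t) t)) x' = postComp g x := by
    apply Subtype.ext
    change x'.1 ≫ U.ι ≫ g.1 = x.1 ≫ g.1
    rw [← Category.assoc, IsOpenImmersion.lift_fac]
  refine ⟨eqToIso (by rw [← hx']; rfl) ≪≫ (pbComp _ x' Poin.L).symm ≪≫
    (Scheme.Modules.pullback _).mapIso e ≪≫ pbComp _ x' N ≪≫ eqToIso (by rw [hx])⟩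

include hmono in
/-- **`P` is proper and geometrically connected.** -/
theorem isProper_and_geometricallyConnected [IsAlgClosed k] [IsProper c]
    [SmoothOfRelativeDimension 1 c] [IsIntegral C] [LocallyOfFiniteType p] [IsSeparated p]
    {ι : Type u} (𝒞 : ι → PicChart c ε)
    (hE : ∀ {T : Scheme.{u}} (t : T ⟶ Spec (CommRingCat.of k)) (M : RigidifiedLineBundle c ε t),
      (⨆ i, (𝒞 i).locus t M = ⊤) ↔
        ∃ g : SchemeHomOver t p, Nonempty ((Poin.pullbackAlong g).L ≅ M.L))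
    {M₀ : C.Modules} (hM₀ : Scheme.Modules.IsInvertible M₀) (d : ℕ)
    (h1 : ∀ (L : (pullback c (𝟙 (Spec (CommRingCat.of k)))).Modules)
      (xs : List (SchemeHomOver (𝟙 (Spec (CommRingCat.of k))) c)), xs.length = d →
      TwL xs L ((Scheme.Modules.pullback (pullback.fst c (𝟙 _))).obj M₀) →
        ∃ g : SchemeHomOver (𝟙 (Spec (CommRingCat.of k))) p,
          Nonempty ((Poin.pullbackAlong g).L ≅ L))
    (h2 : ∀ g : SchemeHomOver (𝟙 (Spec (CommRingCat.of k))) p,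
      ∃ xs : List (SchemeHomOver (𝟙 (Spec (CommRingCat.of k))) c), xs.length = d ∧
        TwL xs (Poin.pullbackAlong g).L
          ((Scheme.Modules.pullback (pullback.fst c (𝟙 _))).obj M₀)) :
    IsProper p ∧ GeometricallyConnected p := by
  obtain ⟨Y, y, N, hy1, hy2, -, hN, hfib, hex⟩ := exists_family c hM₀ d
  obtain ⟨g, hg⟩ := exists_classify Poin hmono (t := y) 𝒞 hE hN (by
    intro x
    obtain ⟨xs, hxs, hx⟩ := hfib _ x
    exact h1 _ xs hxs hx)
  have hprop : IsProper (g.1 ≫ p) := by rw [g.2]; exact hy1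
  have hconn : GeometricallyConnected (g.1 ≫ p) := by
    rw [g.2]; exact H74.F1.geometricallyConnected y
  have hsurj : Surjective g.1 := by
    refine H74.F1.surjective_of_kPoints g.1 p fun x hx ↦ ?_
    obtain ⟨xs, hxs, hx'⟩ := h2 ⟨x, hx⟩
    obtain ⟨ψ, hψ⟩ := hex _ xs hxs
    refine ⟨ψ.1, ?_⟩
    have h3 : postComp g ψ = (⟨x, hx⟩ : SchemeHomOver (𝟙 (Spec (CommRingCat.of k))) p) := by
      refine hmono _ _ _ ?_
      obtain ⟨e1⟩ := classify_fibre Poin hg ψ
      obtain ⟨e2⟩ := hψ.uniq hx' (Iso.refl _)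
      exact ⟨e1 ≪≫ e2⟩
    exact congrArg Subtype.val h3
  exact ⟨H74.F1.isProper_of_surjective g.1 p, H74.F1.geometricallyConnected_of_surjective g.1 p⟩

end Classify

/-! ### algebraic equivalence -/

/-- `pullback c (𝟙) ≅ C` -/
theorem exists_descend (c : C ⟶ Spec (CommRingCat.of k))
    {M : (pullback c (𝟙 (Spec (CommRingCat.of k)))).Modules}
    (hM : Scheme.Modules.IsInvertible M) :
    ∃ M₀ : C.Modules, Scheme.Modules.IsInvertible M₀ ∧
      Nonempty ((Scheme.Modules.pullback (pullback.fst c (𝟙 _))).obj M₀ ≅ M) := by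
  refine ⟨(Scheme.Modules.pullback (inv (pullback.fst c (𝟙 _)))).obj M, hM.pullback _, ⟨?_⟩⟩
  exact (Scheme.Modules.pullbackComp _ _).app M ≪≫
    (Scheme.Modules.pullbackCongr (IsIso.hom_inv_id _)).app M ≪≫
    (Scheme.Modules.pullbackId _).app M

theorem isAlgEquivZero_of_twL [IsAlgClosed k] (c : C ⟶ Spec (CommRingCat.of k)) [IsProper c]
    [SmoothOfRelativeDimension 1 c] [IsIntegral C]
    {M : (pullback c (𝟙 (Spec (CommRingCat.of k)))).Modules}
    (hM : Scheme.Modules.IsInvertible M) {L : C.Modules}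
    {xs₀ xs₁ : List (SchemeHomOver (𝟙 (Spec (CommRingCat.of k))) c)}
    (hlen : xs₀.length = xs₁.length)
    (h₀ : TwL xs₀ (SheafOfModules.unit
      (pullback c (𝟙 (Spec (CommRingCat.of k)))).ringCatSheaf) M)
    (h₁ : TwL xs₁ ((Scheme.Modules.pullback (pullback.fst c (𝟙 _))).obj L) M) :
    IsAlgEquivZero c L := by
  obtain ⟨M₀, hM₀, ⟨e⟩⟩ := exists_descend c hM
  obtain ⟨Y, y, N, hy1, hy2, hy3, hN, -, hex⟩ := exists_family c hM₀ xs₀.length
  obtain ⟨ψ₀, hψ₀⟩ := hex _ xs₀ rfl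
  obtain ⟨ψ₁, hψ₁⟩ := hex _ xs₁ hlen.symm
  exact ⟨Y, y, inferInstance, hy3, N, hN, ψ₀, ψ₁, hψ₀.uniq h₀ e, hψ₁.uniq h₁ e⟩

end Fermat.Agent.H20T
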