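import Fermat.Agent.H21JW
/-!
# Atkin-Lehner families with flexible levels
-/
set_option autoImplicit false

open CongruenceSubgroup Matrix.SpecialLinearGroup
open scoped MatrixGroups
open Fermat.Agent.H70.Coh Fermat.Agent.H37.Tr

noncomputable section

namespace Fermat.Agent.H21J

/-- `h` is the Atkin-Lehner family `w_r` at level `L`. -/
structure IsAL {N L : ℕ} {hL : N ∣ L} (r : ℕ) (h : HFam (gam N L hL) (gam N L hL)) : Prop where
  uni : Nonempty (h.J ≃ Unit)
  mat : ∀ i, ∃ x y z t : ℤ, (h.α i).1 = !![r * x, y; L * z, r * t] ∧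
    (r : ℤ) * x * (r * t) - y * (L * z) = r

lemma isAL_wFam {N M r : ℕ} (hNM : N ∣ M) (hr : 0 < r) (w : AL M r) :
    IsAL r (wFam hNM hr w) where
  uni := ⟨Equiv.refl _⟩
  mat := fun _ => ⟨w.x, w.y, w.z, w.t, by
    change (w.mat hNM hr).1 = _
    rw [AL.mat_val]
    push_cast
    rfl, by
    have := w.eq
    push_cast
    linear_combination (r : ℤ) * this⟩

/-- two Atkin-Lehner matrices at the same level differ by an element of `Γ₀(L)` -/
lemma al_equiv {L r : ℕ} (hrL : r ∣ L) (hr : 0 < r) {x y z t x₂ y₂ z₂ t₂ : ℤ}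
    (h : (r : ℤ) * x * (r * t) - y * (L * z) = r)
    (h₂ : (r : ℤ) * x₂ * (r * t₂) - y₂ * (L * z₂) = r) :
    ∃ γ : Gamma0 L, (!![r * x, y; L * z, r * t] : Matrix (Fin 2) (Fin 2) ℤ) =
      ((γ : SL(2, ℤ)) : Matrix (Fin 2) (Fin 2) ℤ) * !![r * x₂, y₂; L * z₂, r * t₂] := by
  obtain ⟨M, hM⟩ := hrL
  have hM' : (L : ℤ) = r * M := by exact_mod_cast hM
  have hr0 : (r : ℤ) ≠ 0 := by exact_mod_cast hr.ne'
  rw [hM'] at h h₂ ⊢
  have e : (r : ℤ) * x * t - M * y * z = 1 := by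
    apply mul_left_cancel₀ hr0
    linear_combination h
  have e₂ : (r : ℤ) * x₂ * t₂ - M * y₂ * z₂ = 1 := by
    apply mul_left_cancel₀ hr0
    linear_combination h₂
  refine ⟨⟨⟨!![r * x * t₂ - M * y * z₂, y * x₂ - x * y₂;
    L * (z * t₂ - t * z₂), r * t * x₂ - M * z * y₂], ?_⟩, ?_⟩, ?_⟩
  · rw [Matrix.det_fin_two_of, hM']
    have e3 : (r * x * t₂ - M * y * z₂) * (r * t * x₂ - M * z * y₂) -
      (y * x₂ - x * y₂) * (r * M * (z * t₂ - t * z₂)) =
      (r * x * t - M * y * z) * (r * x₂ * t₂ - M * y₂ * z₂) := by ring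
    rw [e3, e, e₂, one_mul]
  · refine Gamma0_mem.mpr ((ZMod.intCast_zmod_eq_zero_iff_dvd _ _).mpr ?_)
    change (L : ℤ) ∣ (L : ℤ) * _
    exact dvd_mul_right _ _
  · change _ = !![r * x * t₂ - M * y * z₂, y * x₂ - x * y₂;
      L * (z * t₂ - t * z₂), r * t * x₂ - M * z * y₂] * _
    rw [hM']
    ext i j
    fin_cases i <;> fin_cases j <;> simp [Matrix.mul_apply, Fin.sum_univ_two]
    · linear_combination (-(r : ℤ) * x) * e₂
    · linear_combination (-y) * e₂
    · linear_combination (-(M : ℤ) * r * z) * e₂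
    · linear_combination (-(r : ℤ) * t) * e₂

/-- changing the matrix of an Atkin-Lehner family -/
lemma exists_leftMul {N L r : ℕ} {hL : N ∣ L} (hrL : r ∣ L) (hr : 0 < r)
    {h : HFam (gam N L hL) (gam N L hL)} (H : IsAL r h) {x y z t : ℤ}
    (hd : (r : ℤ) * x * (r * t) - y * (L * z) = r) :
    ∃ g : h.J → Gamma0 L, ∀ i, ((leftMul h g).α i).1 = !![r * x, y; L * z, r * t] := by
  have h1 : ∀ i, ∃ γ : Gamma0 L, ((γ : SL(2, ℤ)) : Matrix (Fin 2) (Fin 2) ℤ) * (h.α i).1 =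
      !![r * x, y; L * z, r * t] := by
    intro i
    obtain ⟨x₂, y₂, z₂, t₂, h2, h3⟩ := H.mat i
    obtain ⟨γ, hγ⟩ := al_equiv hrL hr hd h3
    exact ⟨γ, by rw [h2, hγ]⟩
  choose g hg using h1
  exact ⟨g, hg⟩

section Tw

variable {R : Type*} [CommRing R] {V : Type*} [AddCommGroup V] [Module R V]
  {N q : ℕ} (χ : (ZMod q)ˣ →* Rˣ) (ρ : DN N →* (Module.End R V)ᵐᵒᵖ)
  (hq : q.Prime) (hqN : ¬ q ∣ N) {L L' r : ℕ} (hL : N * q ∣ L) (hL' : N ∣ L')
  (hLL' : L * q ∣ L')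

/-- **The twist commutes with Atkin-Lehner operators** prime to `q`. -/
theorem tw_AL (hr : 0 < r) (hrL : r ∣ L) (hrq : r.Coprime q)
    {t : HFam (gam (N * q) L hL) (gam (N * q) L hL)} {s : HFam (gam N L' hL') (gam N L' hL')}
    (ht : IsAL r t) (hs : IsAL r s) (x : H1 (gam (N * q) L hL) (rTw χ ρ)) :
    tw hq hqN χ ρ hL hL' hLL' (t.opH (rTw χ ρ) x) =
      ((χ (ZMod.unitOfCoprime r hrq) : Rˣ) : R) •
        s.opH ρ (tw hq hqN χ ρ hL hL' hLL' x) := by
  have i1 : NeZero q := ⟨hq.ne_zero⟩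
  obtain ⟨M, hM⟩ := hrL
  obtain ⟨k, hk⟩ := hLL'
  have hq0 : (q : ℤ) ≠ 0 := by exact_mod_cast hq.ne_zero
  have hr0 : (r : ℤ) ≠ 0 := by exact_mod_cast hr.ne'
  have hMq : q ∣ M := by
    have h1 : q ∣ r * M := hM ▸ ((Dvd.intro_left N rfl).trans hL)
    exact hrq.symm.dvd_of_dvd_mul_left h1
  obtain ⟨es⟩ := hs.uni
  obtain ⟨et⟩ := ht.uni
  obtain ⟨a, b, c, d, hW, hdet⟩ := hs.mat (es.symm ())
  have hM' : (L : ℤ) = r * M := by exact_mod_cast hM
  have hk' : (L' : ℤ) = L * q * k := by exact_mod_cast hk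
  -- the same matrix at level `L`
  obtain ⟨g, hg⟩ := exists_leftMul (x := a) (y := b) (z := q * k * c) (t := d) ⟨M, hM⟩ hr ht (by
    rw [hk'] at hdet
    linear_combination hdet)
  rw [← leftMul_opH t g]
  have e0 : (r : ℤ) * a * d - ((M * q * k : ℕ) : ℤ) * b * c = 1 := by
    apply mul_left_cancel₀ hr0
    rw [hk', hM'] at hdet
    push_cast
    linear_combination hdet
  let w : AL (M * q * k) r := ⟨a, b, c, d, e0⟩
  have hmat : (w.mat (one_dvd _) hr).1 = !![r * a, b; L' * c, r * d] := by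
    rw [AL.mat_val]
    change !![(r : ℤ) * a, b; ((M * q * k : ℕ) : ℤ) * r * c, r * d] = _
    rw [hk', hM']
    push_cast
    congr 2
    ring_nf
  have hα : ∀ i, (s.α i).1 = !![r * a, b; L' * c, r * d] := by
    intro i
    rw [← hW]
    congr 2
    apply es.injective
    rfl
  have hβ : ∀ i, ((leftMul t g).α i).1 = !![r * a, b; L' * c, r * d] := by
    intro i
    rw [hg i, hk']
    congr 2
    ring_nf
  obtain ⟨v, hv⟩ : IsUnit ((a : ℤ) : ZMod q) := by
    have h1 := congrArg (Int.cast : ℤ → ZMod q) e0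
    push_cast at h1
    rw [ZMod.natCast_self] at h1
    exact IsUnit.of_mul_eq_one ((r : ZMod q) * d) (by linear_combination h1)
  set z : (ZMod q)ˣ := ZMod.unitOfCoprime r hrq with hz
  have hzv : (z : ZMod q) = (r : ZMod q) := rfl
  refine tw_comm hq hqN χ ρ (Dvd.intro k hk.symm) (Dvd.intro k hk.symm) _ _ _ ?_ x
  refine opH_eq_smul_of_card _ _ (χ z) ?_ ?_ ?_
  · change Fintype.card (t.J × (twFam hq hqN χ hL hL' (Dvd.intro k hk.symm)).J) =
      Fintype.card ((twFam hq hqN χ hL hL' (Dvd.intro k hk.symm)).J × s.J)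
    rw [Fintype.card_prod, Fintype.card_prod, mul_comm, Fintype.card_congr es,
      Fintype.card_congr et]
  · rintro ⟨i, (u : (ZMod q)ˣ)⟩
    obtain ⟨δ, hδ, hδ2⟩ := w_core (N := 1) (M := M) hq
      (fun h => hq.one_lt.ne' (Nat.dvd_one.mp h)) (by rwa [one_mul]) (Dvd.intro k rfl)
      (one_dvd _) hr w u (u * z * v ^ 2) (by
      rw [Units.val_mul, Units.val_mul, hzv, Units.val_pow_eq_pow_val, hv])
    have hδ3 : (δ : SL(2, ℤ)) ∈ Gamma0 L := by
      have h5 := dvd_c δ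
      have h6 : ((M * r : ℕ) : ℤ) = (L : ℤ) := by rw [hM, mul_comm]
      rw [h6] at h5
      exact mem_of_dvd h5
    refine ⟨(u * z * v ^ 2, es.symm ()), ⟨_, hδ3⟩, ?_⟩
    apply Prod.ext
    · apply Subtype.ext
      change ((leftMul t g).α i).1 * (twRep N hq hqN u).1 =
        _ * ((_ * (s.α (es.symm ())).1) * 1)
      rw [mul_one, hβ, hα, ← hmat]
      exact hδ
    · change (jTw N χ ((leftMul t g).α i)).2 * χ u =
        (iT hL χ ⟨(δ : SL(2, ℤ)), hδ3⟩).2 * ((χ (u * z * v ^ 2) * 1) * χ z)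
      rw [jTw_snd χ _ (z * v) (by
        rw [hβ, Units.val_mul, hzv, hv]
        change _ = (((r : ℤ) * a : ℤ) : ZMod q)
        push_cast
        rfl), iT_snd hL χ _ 1 (by
          change _ = (((δ : SL(2, ℤ)) 0 0 : ℤ) : ZMod q)
          rw [hδ2]; rfl), map_one, one_pow, one_mul,
        mul_one, map_mul, map_mul, map_mul, map_pow]
      generalize χ z = a
      generalize χ v = b
      generalize χ u = c
      rw [mul_pow, sq, sq]
      apply Units.ext
      push_cast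
      ring
  · rintro ⟨i, (u : (ZMod q)ˣ)⟩ ⟨i₂, (u₂ : (ZMod q)ˣ)⟩ γ h
    have h1 := congrArg Subtype.val h
    change ((leftMul t g).α i).1 * (twRep N hq hqN u).1 =
      ((γ : SL(2, ℤ)) : Matrix (Fin 2) (Fin 2) ℤ) * (((leftMul t g).α i₂).1 *
        (twRep N hq hqN u₂).1) at h1
    rw [hβ, hβ, twRep_val, twRep_val] at h1
    have e00 := congrFun (congrFun h1 0) 0
    have e01 := congrFun (congrFun h1 0) 1
    have hi : i = i₂ := et.injective rfl
    subst hi
    suffices hu : u = u₂ by rw [hu]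
    apply units_val_inj
    generalize ((u : ZMod q).val : ℤ) = v₁ at e01 e00 ⊢
    generalize ((u₂ : ZMod q).val : ℤ) = v₂ at e01 e00 ⊢
    simp [Matrix.mul_apply, Fin.sum_univ_two] at e00 e01
    generalize (γ : SL(2, ℤ)) 0 0 = g00 at e00 e01
    generalize (γ : SL(2, ℤ)) 0 1 = g01 at e00 e01
    have e00' : (r : ℤ) * a = g00 * (r * a) + g01 * (L' * c) := by
      apply mul_right_cancel₀ hq0
      linear_combination e00
    have hcop : IsCoprime (q : ℤ) ((r : ℤ) * a) := by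
      refine ⟨-(M * k * b * c), d, ?_⟩
      push_cast at e0
      linear_combination e0
    refine hcop.dvd_of_dvd_mul_left ?_
    exact ⟨g00 * b + g01 * (r * d) - b, by linear_combination e01 - v₂ * e00'⟩

end Tw

end Fermat.Agent.H21J
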