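import Fermat.Agent.H21JBase
/-!
# Comparison of weighted Hecke families
-/
set_option autoImplicit false

open Fermat.Agent.H70.Coh

namespace Fermat.Agent.H21J

/-- `S × Rˣ` acts on `S` through the first projection -/
@[reducible] def fstAction (S : Type*) [Monoid S] (R : Type*) [CommRing R] :
    MulAction (S × Rˣ) S := MulAction.compHom S (MonoidHom.fst S Rˣ)

attribute [local instance] fstAction

section Abs

variable {S : Type*} [Monoid S] {R : Type*} [CommRing R]
  {V : Type*} [AddCommGroup V] [Module R V]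
  {Γ Γ' Γ'' : Type*} [Group Γ] [Group Γ'] [Group Γ'']
  {ι : Γ →* S × Rˣ} {ι' : Γ' →* S × Rˣ} {ι'' : Γ'' →* S × Rˣ}
  {ρ : S →* (Module.End R V)ᵐᵒᵖ}

lemma fslash_wrho_mul_unit (s : S × Rˣ) (r : Rˣ) (F : S → V) :
    fslash (wrho ρ) (s * (1, r)) F = (r : R) • fslash (wrho ρ) s F := by
  funext x
  rw [Pi.smul_apply, fslash_apply, fslash_apply, slash_wrho, slash_wrho]
  change ((s.2 * r : Rˣ) : R) • slash ρ (s.1 * 1) (F ((s.1 * 1) * x)) =
    (r : R) • ((s.2 : R) • slash ρ s.1 (F (s.1 * x)))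
  rw [mul_one, smul_smul, Units.val_mul, mul_comm (r : R)]

variable [HFam.IsFreeOn ((MonoidHom.fst S Rˣ).comp ι)]

lemma exists_prim_fst {c : Γ → V} (hc : c ∈ Z1 ι (wrho ρ)) :
    ∃ F : S → V, IsPrim (wrho ρ) ι F c :=
  exists_isPrim (X := S) (fun γ x hx => HFam.IsFreeOn.free
    (ι := (MonoidHom.fst S Rˣ).comp ι) γ x hx) hc

omit [HFam.IsFreeOn ((MonoidHom.fst S Rˣ).comp ι)] in
/-- Grouping the terms of a family. -/
lemma fop_fiber (h : HFam ι ι') {K : Type*} [Fintype K] [DecidableEq K] (β : K → S × Rˣ)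
    (e : h.J → K) (r : h.J → Rˣ)
    (hα : ∀ i, ∃ γ : Γ, h.α i = ι γ * (β (e i) * (1, r i))) {F : S → V} {c : Γ → V}
    (hF : IsPrim (wrho ρ) ι F c) :
    ∃ v : V, h.fop (wrho ρ) F =
      (∑ k, (∑ i with e i = k, (r i : R)) • fslash (wrho ρ) (β k) F) + fun _ => v := by
  classical
  choose g hg using hα
  have h1 : ∀ i, fslash (wrho ρ) (h.α i) F = (r i : R) • fslash (wrho ρ) (β (e i)) F +
      fun _ => slash (wrho ρ) (β (e i) * (1, r i)) (c (g i)) := by
    intro i
    rw [hg i, HFam.fslash_mul_of_isPrim hF, fslash_wrho_mul_unit]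
  refine ⟨∑ i, slash (wrho ρ) (β (e i) * (1, r i)) (c (g i)), ?_⟩
  have h2 : h.fop (wrho ρ) F = ∑ i, fslash (wrho ρ) (h.α i) F := by
    unfold HFam.fop
    rw [LinearMap.sum_apply]
  rw [h2, Finset.sum_congr rfl fun i _ => h1 i, Finset.sum_add_distrib]
  congr 1
  · rw [← Finset.sum_fiberwise_of_maps_to (s := Finset.univ) (t := Finset.univ) (g := e)
      (fun i _ => Finset.mem_univ _)]
    refine Finset.sum_congr rfl fun k _ => ?_
    rw [Finset.sum_smul]
    refine Finset.sum_congr rfl fun i hi => ?_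
    rw [(Finset.mem_filter.mp hi).2]
  · funext x
    rw [Finset.sum_apply]

/-- **Comparison of weighted families**: the operator of `h` is `m` times the operator of `h'`. -/
theorem opH_eq_smul_of_fiber [HFam.IsFreeOn ι] (h h' : HFam ι ι') (m : R) {K : Type*} [Fintype K]
    [DecidableEq K] (β : K → S × Rˣ)
    (e : h.J → K) (r : h.J → Rˣ) (hα : ∀ i, ∃ γ : Γ, h.α i = ι γ * (β (e i) * (1, r i)))
    (e' : h'.J → K) (r' : h'.J → Rˣ)
    (hα' : ∀ i, ∃ γ : Γ, h'.α i = ι γ * (β (e' i) * (1, r' i)))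
    (hm : ∀ k, (∑ i with e i = k, (r i : R)) = m * ∑ i with e' i = k, (r' i : R)) :
    h.opH (wrho ρ) = m • h'.opH (wrho ρ) := by
  apply LinearMap.ext
  intro x
  obtain ⟨c, rfl⟩ := Submodule.mkQ_surjective _ x
  change H1.mk ι' (wrho ρ) (h.op (wrho ρ) c) = m • H1.mk ι' (wrho ρ) (h'.op (wrho ρ) c)
  obtain ⟨F, hF⟩ := exists_prim_fst (ρ := ρ) (ι := ι) c.2
  have h1 := h.isPrim_fop hF
  have h2 := h'.isPrim_fop hF
  obtain ⟨v, hv⟩ := fop_fiber h β e r hα hF
  obtain ⟨v', hv'⟩ := fop_fiber h' β e' r' hα' hF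
  have h3 : h.fop (wrho ρ) F = m • h'.fop (wrho ρ) F + fun _ => (v - m • v') := by
    rw [hv, hv', smul_add, Finset.smul_sum]
    funext x
    simp only [Pi.add_apply, Finset.sum_apply, Pi.smul_apply]
    rw [add_assoc, add_sub_cancel]
    congr 1
    refine Finset.sum_congr rfl fun k _ => ?_
    rw [smul_smul, hm]
  have h5 : IsPrim (wrho ρ) ι' (h.fop (wrho ρ) F) (m • h'.opFun (wrho ρ) c.1 +
      (cob ι' (wrho ρ) (v - m • v')).1) := by
    rw [h3]
    exact (h2.smul m).add (isPrim_const _)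
  have h6 := h1.unique h5
  have h7 : h.op (wrho ρ) c = m • h'.op (wrho ρ) c + cob ι' (wrho ρ) (v - m • v') :=
    Subtype.ext h6
  rw [h7, map_add, map_smul]
  have h8 : H1.mk ι' (wrho ρ) (cob ι' (wrho ρ) (v - m • v')) = 0 := by
    rw [Submodule.mkQ_apply, Submodule.Quotient.mk_eq_zero]
    exact ⟨_, rfl⟩
  rw [h8, add_zero]

/-- If all the grouped weights vanish then the operator vanishes. -/
theorem opH_eq_zero_of_fiber [HFam.IsFreeOn ι] (h : HFam ι ι') {K : Type*} [Fintype K]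
    [DecidableEq K] (β : K → S × Rˣ)
    (e : h.J → K) (r : h.J → Rˣ) (hα : ∀ i, ∃ γ : Γ, h.α i = ι γ * (β (e i) * (1, r i)))
    (hm : ∀ k, (∑ i with e i = k, (r i : R)) = 0) :
    h.opH (wrho ρ) = 0 := by
  have := opH_eq_smul_of_fiber (ρ := ρ) h h 0 β e r hα e r hα (fun k => by rw [hm, mul_zero])
  rw [this, zero_smul]

/-- Comparison of families up to a constant weight. -/
theorem opH_eq_smul_of_card [HFam.IsFreeOn ι] (h h' : HFam ι ι') (m : Rˣ)
    (hcard : Fintype.card h.J = Fintype.card h'.J)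
    (hex : ∀ i, ∃ (j : h'.J) (γ : Γ), h.α i = ι γ * (h'.α j * (1, m)))
    (hinj : ∀ (i i' : h.J) (γ : Γ) , (h.α i).1 = (ι γ).1 * (h.α i').1 → i = i') :
    h.opH (wrho ρ) = (m : R) • h'.opH (wrho ρ) := by
  classical
  choose e g he using hex
  have hinj' : Function.Injective e := by
    intro i i' hii'
    refine hinj i i' (g i * (g i')⁻¹) ?_
    have h1 : h.α i = ι (g i * (g i')⁻¹) * h.α i' := by
      rw [he i, hii', he i', map_mul]
      generalize (h'.α (e i') * (1, m)) = z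
      rw [mul_assoc (ι (g i)), ← mul_assoc (ι (g i')⁻¹), ← map_mul, inv_mul_cancel, map_one,
        one_mul]
    exact congrArg Prod.fst h1
  have hbij : Function.Bijective e :=
    (Fintype.bijective_iff_injective_and_card e).mpr ⟨hinj', hcard⟩
  refine opH_eq_smul_of_fiber h h' (m : R) h'.α e (fun _ => m) (fun i => ⟨g i, he i⟩) id
    (fun _ => 1) (fun i => ⟨1, by
      rw [map_one, one_mul]
      change h'.α i = h'.α i * 1
      rw [mul_one]⟩) ?_
  intro k
  obtain ⟨i, rfl⟩ := hbij.2 k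
  have h1 : (Finset.univ.filter fun j => e j = e i) = {i} := by
    ext j
    simp [hinj'.eq_iff]
  have h2 : (Finset.univ.filter fun j => id j = e i) = {e i} := by
    ext j
    simp
  rw [h1, h2, Finset.sum_singleton, Finset.sum_singleton, Units.val_one, mul_one]

end Abs

end Fermat.Agent.H21J
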