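import Fermat.Agent.H70HeckeRel
/-!
# Weighted Hecke families (twists by characters), abstract layer

`wrho ρ : S × Rˣ →* (End V)ᵐᵒᵖ`, `(s, r) ↦ r • ρ s`.
Families over the monoid `S × Rˣ` are weighted Hecke families.
-/
set_option autoImplicit false

open Fermat.Agent.H70.Coh

namespace Fermat.Agent.H21J

section Base

variable {S : Type*} [Monoid S] {S' : Type*} [Monoid S'] {R : Type*} [CommRing R]
  {V : Type*} [AddCommGroup V] [Module R V]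
  {Γ Γ' : Type*} [Group Γ] [Group Γ']

/-- change of monoid for cocycles -/
def Z1e {ι : Γ →* S} {ρ : S →* (Module.End R V)ᵐᵒᵖ} {ι' : Γ →* S'} {ρ' : S' →* (Module.End R V)ᵐᵒᵖ}
    (h : ∀ γ v, slash ρ (ι γ) v = slash ρ' (ι' γ) v) : Z1 ι ρ ≃ₗ[R] Z1 ι' ρ' :=
  LinearEquiv.ofEq _ _ (by
    ext c
    rw [mem_Z1, mem_Z1]
    simp only [h])

@[simp] lemma Z1e_val {ι : Γ →* S} {ρ : S →* (Module.End R V)ᵐᵒᵖ} {ι' : Γ →* S'}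
    {ρ' : S' →* (Module.End R V)ᵐᵒᵖ}
    (h : ∀ γ v, slash ρ (ι γ) v = slash ρ' (ι' γ) v) (c : Z1 ι ρ) : (Z1e h c).1 = c.1 := rfl

@[simp] lemma Z1e_symm_val {ι : Γ →* S} {ρ : S →* (Module.End R V)ᵐᵒᵖ} {ι' : Γ →* S'}
    {ρ' : S' →* (Module.End R V)ᵐᵒᵖ}
    (h : ∀ γ v, slash ρ (ι γ) v = slash ρ' (ι' γ) v) (c : Z1 ι' ρ') :
    ((Z1e h).symm c).1 = c.1 := rfl

lemma Z1e_cob {ι : Γ →* S} {ρ : S →* (Module.End R V)ᵐᵒᵖ} {ι' : Γ →* S'}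
    {ρ' : S' →* (Module.End R V)ᵐᵒᵖ}
    (h : ∀ γ v, slash ρ (ι γ) v = slash ρ' (ι' γ) v) (v : V) :
    Z1e h (cob ι ρ v) = cob ι' ρ' v := by
  apply Subtype.ext
  funext γ
  rw [Z1e_val, cob_apply, cob_apply, h]

lemma map_B1 {ι : Γ →* S} {ρ : S →* (Module.End R V)ᵐᵒᵖ} {ι' : Γ →* S'}
    {ρ' : S' →* (Module.End R V)ᵐᵒᵖ}
    (h : ∀ γ v, slash ρ (ι γ) v = slash ρ' (ι' γ) v) :
    (B1 ι ρ).map ((Z1e h : Z1 ι ρ ≃ₗ[R] Z1 ι' ρ') : Z1 ι ρ →ₗ[R] Z1 ι' ρ') = B1 ι' ρ' := by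
  ext c
  constructor
  · rintro ⟨_, ⟨v, rfl⟩, rfl⟩
    exact ⟨v, (Z1e_cob h v).symm⟩
  · rintro ⟨v, rfl⟩
    exact ⟨_, ⟨v, rfl⟩, Z1e_cob h v⟩

/-- change of monoid for `H¹` -/
noncomputable def H1e {ι : Γ →* S} {ρ : S →* (Module.End R V)ᵐᵒᵖ} {ι' : Γ →* S'}
    {ρ' : S' →* (Module.End R V)ᵐᵒᵖ}
    (h : ∀ γ v, slash ρ (ι γ) v = slash ρ' (ι' γ) v) : H1 ι ρ ≃ₗ[R] H1 ι' ρ' :=
  Submodule.Quotient.equiv _ _ (Z1e h) (map_B1 h)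

lemma H1e_mk {ι : Γ →* S} {ρ : S →* (Module.End R V)ᵐᵒᵖ} {ι' : Γ →* S'}
    {ρ' : S' →* (Module.End R V)ᵐᵒᵖ}
    (h : ∀ γ v, slash ρ (ι γ) v = slash ρ' (ι' γ) v) (c : Z1 ι ρ) :
    H1e h (H1.mk ι ρ c) = H1.mk ι' ρ' (Z1e h c) := rfl

lemma H1e_symm_mk {ι : Γ →* S} {ρ : S →* (Module.End R V)ᵐᵒᵖ} {ι' : Γ →* S'}
    {ρ' : S' →* (Module.End R V)ᵐᵒᵖ}
    (h : ∀ γ v, slash ρ (ι γ) v = slash ρ' (ι' γ) v) (c : Z1 ι' ρ') :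
    (H1e h).symm (H1.mk ι' ρ' c) = H1.mk ι ρ ((Z1e h).symm c) := rfl

/-- pushing a Hecke family along a homomorphism of monoids -/
noncomputable def mapFam (j : S →* S') {ι : Γ →* S} {ι' : Γ' →* S} (h : HFam ι ι') :
    HFam (j.comp ι) (j.comp ι') where
  J := h.J
  fin := h.fin
  α i := j (h.α i)
  inv γ' := ⟨h.σ γ', h.δ γ', fun i => by
    rw [MonoidHom.comp_apply, MonoidHom.comp_apply, ← map_mul, h.spec, map_mul]⟩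

lemma mapFam_op (j : S →* S') {ι : Γ →* S} {ι' : Γ' →* S} (h : HFam ι ι')
    [HFam.IsFreeOn ι] [HFam.IsFreeOn (j.comp ι)]
    {ρ : S →* (Module.End R V)ᵐᵒᵖ} {ρ' : S' →* (Module.End R V)ᵐᵒᵖ}
    (hρ : ∀ s v, slash ρ s v = slash ρ' (j s) v) (c : Z1 ι ρ) :
    (mapFam j h).op ρ' (Z1e (fun γ v => hρ (ι γ) v) c) =
      Z1e (fun γ v => hρ (ι' γ) v) (h.op ρ c) := by
  apply Subtype.ext
  funext γ'
  rw [Z1e_val, h.op_apply, (mapFam j h).op_apply_of_eq _ γ' (h.σ γ') (h.δ γ') (fun i => by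
    change j (h.α i) * j (ι' γ') = j (ι (h.δ γ' i)) * j (h.α (h.σ γ' i))
    rw [← map_mul, h.spec, map_mul])]
  refine Finset.sum_congr rfl fun i _ => ?_
  rw [hρ]
  rfl

lemma mapFam_opH (j : S →* S') {ι : Γ →* S} {ι' : Γ' →* S} (h : HFam ι ι')
    [HFam.IsFreeOn ι] [HFam.IsFreeOn (j.comp ι)]
    {ρ : S →* (Module.End R V)ᵐᵒᵖ} {ρ' : S' →* (Module.End R V)ᵐᵒᵖ}
    (hρ : ∀ s v, slash ρ s v = slash ρ' (j s) v) (x : H1 ι ρ) :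
    (mapFam j h).opH ρ' (H1e (fun γ v => hρ (ι γ) v) x) =
      H1e (fun γ v => hρ (ι' γ) v) (h.opH ρ x) := by
  obtain ⟨c, rfl⟩ := Submodule.mkQ_surjective _ x
  change H1.mk (j.comp ι') ρ' ((mapFam j h).op ρ' (Z1e (fun γ v => hρ (ι γ) v) c)) =
    H1.mk (j.comp ι') ρ' (Z1e (fun γ v => hρ (ι' γ) v) (h.op ρ c))
  rw [mapFam_op]

/-- the weighted representation -/
def wrho (ρ : S →* (Module.End R V)ᵐᵒᵖ) : S × Rˣ →* (Module.End R V)ᵐᵒᵖ where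
  toFun s := MulOpposite.op ((s.2 : R) • (ρ s.1).unop)
  map_one' := by simp
  map_mul' s t := by
    rw [← MulOpposite.op_mul]
    congr 1
    simp only [Prod.snd_mul, Prod.fst_mul, Units.val_mul, map_mul, MulOpposite.unop_mul]
    rw [smul_mul_smul_comm, mul_comm (t.2 : R)]

@[simp] lemma slash_wrho (ρ : S →* (Module.End R V)ᵐᵒᵖ) (s : S × Rˣ) (v : V) :
    slash (wrho ρ) s v = (s.2 : R) • slash ρ s.1 v := rfl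

lemma isFreeOn_prod (ι : Γ →* S × Rˣ) [HFam.IsFreeOn ((MonoidHom.fst S Rˣ).comp ι)] :
    HFam.IsFreeOn ι where
  free γ x hx := HFam.IsFreeOn.free (ι := (MonoidHom.fst S Rˣ).comp ι) γ x.1
    (congrArg Prod.fst hx)

end Base

end Fermat.Agent.H21J
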