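import Fermat.Agent.H21JRes
/-!
# Characters of `(ZMod (m * n))ˣ`, the combined step
-/
set_option autoImplicit false

open CongruenceSubgroup Matrix.SpecialLinearGroup
open scoped MatrixGroups
open Fermat.Agent.H70.Coh Fermat.Agent.H37.Tr

noncomputable section

namespace Fermat.Agent.H21J

section Crt

variable {m n : ℕ}

/-- the Chinese remainder isomorphism on units -/
def crtU (h : m.Coprime n) : (ZMod (m * n))ˣ ≃* (ZMod m)ˣ × (ZMod n)ˣ :=
  (Units.mapEquiv (ZMod.chineseRemainder h).toMulEquiv).trans MulEquiv.prodUnits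

lemma crtU_fst (h : m.Coprime n) (u : (ZMod (m * n))ˣ) :
    (crtU h u).1 = ZMod.unitsMap (Dvd.intro n rfl) u := by
  apply Units.ext
  rw [ZMod.unitsMap_val]
  change ((ZMod.chineseRemainder h) (u : ZMod (m * n))).1 = _
  have h1 : (RingHom.fst (ZMod m) (ZMod n)).comp (ZMod.chineseRemainder h).toRingHom =
    ZMod.castHom (Dvd.intro n rfl) (ZMod m) := RingHom.ext_zmod _ _
  exact congrArg (fun f : ZMod (m * n) →+* ZMod m => f (u : ZMod (m * n))) h1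

lemma crtU_snd (h : m.Coprime n) (u : (ZMod (m * n))ˣ) :
    (crtU h u).2 = ZMod.unitsMap (Dvd.intro_left m rfl) u := by
  apply Units.ext
  rw [ZMod.unitsMap_val]
  change ((ZMod.chineseRemainder h) (u : ZMod (m * n))).2 = _
  have h1 : (RingHom.snd (ZMod m) (ZMod n)).comp (ZMod.chineseRemainder h).toRingHom =
    ZMod.castHom (Dvd.intro_left m rfl) (ZMod n) := RingHom.ext_zmod _ _
  exact congrArg (fun f : ZMod (m * n) →+* ZMod n => f (u : ZMod (m * n))) h1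

/-- decomposition of characters -/
lemma exists_crt {G : Type*} [CommGroup G] (h : m.Coprime n) (χ : (ZMod (m * n))ˣ →* G) :
    ∃ (χ₁ : (ZMod m)ˣ →* G) (χ₂ : (ZMod n)ˣ →* G),
      χ₁.comp (ZMod.unitsMap (Dvd.intro n rfl)) * χ₂.comp (ZMod.unitsMap (Dvd.intro_left m rfl)) =
        χ ∧ ∀ k : ℕ, χ ^ k = 1 → χ₁ ^ k = 1 ∧ χ₂ ^ k = 1 := by
  refine ⟨χ.comp ((crtU h).symm.toMonoidHom.comp (MonoidHom.inl _ _)),
    χ.comp ((crtU h).symm.toMonoidHom.comp (MonoidHom.inr _ _)), ?_, ?_⟩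
  · ext1 u
    change χ ((crtU h).symm (ZMod.unitsMap (Dvd.intro n rfl) u, 1)) *
      χ ((crtU h).symm (1, ZMod.unitsMap (Dvd.intro_left m rfl) u)) = χ u
    rw [← crtU_fst h, ← crtU_snd h, ← map_mul]
    congr 1
    rw [← map_mul, Prod.mk_mul_mk, mul_one, one_mul]
    exact (crtU h).symm_apply_apply u
  · intro k hk
    constructor
    · ext1 u
      have := congrArg (fun f : (ZMod (m * n))ˣ →* G => f ((crtU h).symm (u, 1))) hk
      exact this
    · ext1 u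
      have := congrArg (fun f : (ZMod (m * n))ˣ →* G => f ((crtU h).symm (1, u))) hk
      exact this

end Crt

section Step

variable {K : Type*} [Field K] {W : Type*} [AddCommGroup W] [Module K W]

lemma unitsMap_aUnit' {N N' : ℕ} (h : N' ∣ N) (α : DN N) :
    ZMod.unitsMap h (aUnit N α) = aUnit N' (inc h α) := by
  apply Units.ext
  rw [aUnit_val, ZMod.unitsMap_val, aUnit_val]
  change ZMod.cast ((α.1 0 0 : ℤ) : ZMod N) = ((α.1 0 0 : ℤ) : ZMod N')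
  exact ZMod.cast_intCast h _

lemma psiRep_comp_inc {N N' : ℕ} (h : N' ∣ N) (ψ : (ZMod N')ˣ →* Kˣ) :
    psiRep (ψ.comp (ZMod.unitsMap h)) W = (psiRep ψ W).comp (inc h) := by
  ext1 α
  change MulOpposite.op ((((ψ.comp (ZMod.unitsMap h)) (aUnit N α) : Kˣ) : K) •
    (1 : Module.End K W)) = MulOpposite.op (((ψ (aUnit N' (inc h α)) : Kˣ) : K) •
    (1 : Module.End K W))
  rw [MonoidHom.comp_apply, unitsMap_aUnit']

lemma psiRep_rTw {N q : ℕ} (ψ : (ZMod N)ˣ →* Kˣ) (χ : (ZMod q)ˣ →* Kˣ) :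
    psiRep (ψ.comp (ZMod.unitsMap (Dvd.intro q rfl)) *
      (χ ^ 2).comp (ZMod.unitsMap (Dvd.intro_left N rfl))) W = rTw χ (psiRep ψ W) := by
  ext1 α
  change MulOpposite.op ((((ψ.comp (ZMod.unitsMap (Dvd.intro q rfl)) *
      (χ ^ 2).comp (ZMod.unitsMap (Dvd.intro_left N rfl))) (aUnit (N * q) α) : Kˣ) : K) •
    (1 : Module.End K W)) = MulOpposite.op ((((χ (aUnit q (inc (Dvd.intro_left N rfl) α))) ^ 2 :
      Kˣ) : K) • (((ψ (aUnit N (inc (Dvd.intro q rfl) α)) : Kˣ) : K) • (1 : Module.End K W)))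
  rw [MonoidHom.mul_apply, MonoidHom.comp_apply, MonoidHom.comp_apply, unitsMap_aUnit',
    unitsMap_aUnit', smul_smul, ← Units.val_mul, mul_comm]
  rfl

lemma sq_ne_one {G H : Type*} [Group G] [CommGroup H] {χ : G →* H} {m : ℕ} (hm : Odd m)
    (h : χ ^ m = 1) (h1 : χ ≠ 1) : χ ^ 2 ≠ 1 := by
  intro h2
  apply h1
  obtain ⟨k, rfl⟩ := hm
  rw [pow_succ, pow_mul, h2, one_pow, one_mul] at h
  exact h

lemma sum_sq_inv {q : ℕ} [NeZero q] {χ : (ZMod q)ˣ →* Kˣ} (h : χ ^ 2 ≠ 1) :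
    ∑ u, ((((χ u) ^ 2)⁻¹ : Kˣ) : K) = 0 := by
  have h1 : (Units.coeHom K).comp ((χ ^ 2)⁻¹) ≠ 1 := by
    intro h2
    apply h
    ext u
    have h3 := congrArg (fun f : (ZMod q)ˣ →* K => f u) h2
    change ((((χ u) ^ 2)⁻¹ : Kˣ) : K) = 1 at h3
    have h4 : ((χ u) ^ 2)⁻¹ = 1 := Units.ext h3
    change (((χ u) ^ 2 : Kˣ) : K) = 1
    rw [inv_eq_one.mp h4, Units.val_one]
  exact sum_hom_units_eq_zero _ h1

lemma sum_inv {q : ℕ} [NeZero q] {χ : (ZMod q)ˣ →* Kˣ} (h : χ ≠ 1) :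
    ∑ u, (((χ u)⁻¹ : Kˣ) : K) = 0 := by
  have h1 : (Units.coeHom K).comp (χ⁻¹) ≠ 1 := by
    intro h2
    apply h
    ext u
    have h3 := congrArg (fun f : (ZMod q)ˣ →* K => f u) h2
    change (((χ u)⁻¹ : Kˣ) : K) = 1 at h3
    have h4 : (χ u)⁻¹ = 1 := Units.ext h3
    rw [inv_eq_one.mp h4]
    rfl
  exact sum_hom_units_eq_zero _ h1

lemma sum_eq {q : ℕ} [NeZero q] {χ : (ZMod q)ˣ →* Kˣ} (h : χ ≠ 1) :
    ∑ u, ((χ u : Kˣ) : K) = 0 := by
  have h1 : (Units.coeHom K).comp χ ≠ 1 := by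
    intro h2
    apply h
    ext u
    exact congrArg (fun f : (ZMod q)ˣ →* K => f u) h2
  exact sum_hom_units_eq_zero _ h1

/-- Vectors killed by the `q`-degeneracy operators. -/
structure IsQNew {R : Type*} [CommRing R] {V : Type*} [AddCommGroup V] [Module R V] {N M : ℕ}
    (hM : N ∣ M) (ρ : DN N →* (Module.End R V)ᵐᵒᵖ) (q : ℕ) (hq : 0 < q)
    (y : H1 (gam N M hM) ρ) : Prop where
  /-- `U_q y = 0` -/
  U : ∀ hqM : q ∣ M, (uFam hM hq hqM).opH ρ y = 0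
  /-- `U_q (w y) = 0` -/
  UW : ∀ (hqM : q ∣ M) (w : HFam (gam N M hM) (gam N M hM)), IsAL (q * q) w →
    (uFam hM hq hqM).opH ρ (w.opH ρ y) = 0
  /-- pushforward by the second degeneracy map to level `M / q` -/
  beta : ∀ {L : ℕ} (hL : N ∣ L) (h : M = L * q) (hqL : q ∣ L),
    (betaFam hM hL h hq hqL).opH ρ y = 0
  /-- trace to level `M / q` -/
  tr : ∀ {L : ℕ} (hL : N ∣ L) (h : M = L * q) (hL0 : 0 < L) (hqL : q ∣ L),
    (ctrFam hM hL h hL0 hq hqL).opH ρ y = 0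

theorem isQNew_tw {R : Type*} [CommRing R] {V : Type*} [AddCommGroup V] [Module R V]
    {N M q : ℕ} (χ : (ZMod q)ˣ →* Rˣ) (ρ : DN N →* (Module.End R V)ᵐᵒᵖ)
    (hq : q.Prime) (hqN : ¬ q ∣ N) (hqM : ¬ q ∣ M) [NeZero q]
    (hχ : ∑ u, ((χ u : Rˣ) : R) = 0) (hχ' : ∑ u, (((χ u)⁻¹ : Rˣ) : R) = 0)
    (hL : N * q ∣ M * q) {L' : ℕ} (hNL' : N ∣ L') (hLL' : M * q * q ∣ L')
    (hLe : L' = M * q * q) (x : H1 (gam (N * q) (M * q) hL) (rTw χ ρ)) :
    IsQNew hNL' ρ q hq.pos (tw hq hqN χ ρ hL hNL' hLL' x) where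
  U := fun hqM => uFam_tw χ ρ hq hqN hNL' hLL' hχ hqM x
  UW := by
    intro hqL' w hw
    obtain ⟨e⟩ := hw.uni
    obtain ⟨a, b, c, d, h1, h2⟩ := hw.mat (e.symm ())
    have hq0 : (q : ℤ) ≠ 0 := by exact_mod_cast hq.ne_zero
    have hL2 : (L' : ℤ) = M * q * q := by exact_mod_cast hLe
    refine uFam_w_tw χ ρ hq hqN hqM hχ' hL hNL' hLL' hLe hqL' w e a b c d ?_ ?_ x
    · intro i
      have hi : i = e.symm () := e.injective rfl
      rw [hi, h1, hL2]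
      push_cast
      congr 2
      ring_nf
    · rw [hL2] at h2
      push_cast at h2
      apply mul_left_cancel₀ (mul_ne_zero hq0 hq0)
      linear_combination h2
  beta := by
    intro L hL h hqL
    exact u_tw χ ρ hq hqN hNL' hLL' hχ _ (Equiv.refl _) (fun _ => rfl) x
  tr := by
    intro L hNL h hL0 hqL
    have h1 : L = M * q := by
      apply Nat.eq_of_mul_eq_mul_right hq.pos
      rw [← h, hLe]
    subst h1
    exact tr_tw_aux χ ρ hq hqN hqM hχ' hL hNL hNL' hLL' _ 1 (Equiv.refl _)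
      (fun _ => (mul_one _).symm) x

end Step

end Fermat.Agent.H21J
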