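import Fermat.Agent.H21JAL
/-!
# Hecke-equivariant embeddings between `H¹`'s of different levels and characters
-/
set_option autoImplicit false

open CongruenceSubgroup Matrix.SpecialLinearGroup
open scoped MatrixGroups
open Fermat.Agent.H70.Coh Fermat.Agent.H37.Tr

noncomputable section

namespace Fermat.Agent.H21J

variable {R : Type*} [CommRing R] {V : Type*} [AddCommGroup V] [Module R V]

/-- `E` is an embedding of `H¹(Γ₀(M), ρ)` in `H¹(Γ₀(M'), ρ')`, equivariant up to the character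
`κ` for the operators `T_ℓ`, `U_n`, `w_r`, `ℓ`, `n`, `r` prime to `N`. -/
structure TwEmb {N M N' M' : ℕ} (hM : N ∣ M) (hM' : N' ∣ M')
    (ρ : DN N →* (Module.End R V)ᵐᵒᵖ) (ρ' : DN N' →* (Module.End R V)ᵐᵒᵖ)
    (κ : (ZMod N)ˣ →* Rˣ) (E : H1 (gam N M hM) ρ →ₗ[R] H1 (gam N' M' hM') ρ') : Prop where
  dvdM : M ∣ M'
  dvdN : N' ∣ N
  inj : Function.Injective E
  T : ∀ {ℓ : ℕ} (hℓ : ℓ.Prime) (hℓM : ¬ ℓ ∣ M) (hℓM' : ¬ ℓ ∣ M') (hc : ℓ.Coprime N)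
    (x : H1 (gam N M hM) ρ), E ((tFam hM hℓ hℓM).opH ρ x) =
      ((κ (ZMod.unitOfCoprime ℓ hc) : Rˣ) : R) • (tFam hM' hℓ hℓM').opH ρ' (E x)
  U : ∀ {n : ℕ} (hn : 0 < n) (hnM : n ∣ M) (hnM' : n ∣ M') (hc : n.Coprime N)
    (x : H1 (gam N M hM) ρ), E ((uFam hM hn hnM).opH ρ x) =
      ((κ (ZMod.unitOfCoprime n hc) : Rˣ) : R) • (uFam hM' hn hnM').opH ρ' (E x)
  AL : ∀ {r : ℕ} (_ : 0 < r) (_ : r ∣ M) (hc : r.Coprime N)
    {t : HFam (gam N M hM) (gam N M hM)} {s : HFam (gam N' M' hM') (gam N' M' hM')}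
    (_ : IsAL r t) (_ : IsAL r s) (x : H1 (gam N M hM) ρ), E (t.opH ρ x) =
      ((κ (ZMod.unitOfCoprime r hc) : Rˣ) : R) • s.opH ρ' (E x)

lemma unitsMap_coprime {N N' n : ℕ} (h : N' ∣ N) (hc : n.Coprime N) (hc' : n.Coprime N') :
    ZMod.unitsMap h (ZMod.unitOfCoprime n hc) = ZMod.unitOfCoprime n hc' := by
  apply Units.ext
  rw [ZMod.unitsMap_val, ZMod.coe_unitOfCoprime, ZMod.coe_unitOfCoprime]
  exact ZMod.cast_natCast h n

/-- **Composition of embeddings.** -/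
theorem TwEmb.comp {N M N' M' N'' M'' : ℕ} {hM : N ∣ M} {hM' : N' ∣ M'} {hM'' : N'' ∣ M''}
    {ρ : DN N →* (Module.End R V)ᵐᵒᵖ} {ρ' : DN N' →* (Module.End R V)ᵐᵒᵖ}
    {ρ'' : DN N'' →* (Module.End R V)ᵐᵒᵖ} {κ : (ZMod N)ˣ →* Rˣ} {κ' : (ZMod N')ˣ →* Rˣ}
    {E : H1 (gam N M hM) ρ →ₗ[R] H1 (gam N' M' hM') ρ'}
    {E' : H1 (gam N' M' hM') ρ' →ₗ[R] H1 (gam N'' M'' hM'') ρ''}
    (h : TwEmb hM hM' ρ ρ' κ E) (h' : TwEmb hM' hM'' ρ' ρ'' κ' E') :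
    TwEmb hM hM'' ρ ρ'' (κ * κ'.comp (ZMod.unitsMap h.dvdN)) (E' ∘ₗ E) where
  dvdM := h.dvdM.trans h'.dvdM
  dvdN := h'.dvdN.trans h.dvdN
  inj := h'.inj.comp h.inj
  T := by
    intro ℓ hℓ hℓM hℓM'' hc x
    have hℓM' : ¬ ℓ ∣ M' := fun h1 => hℓM'' (h1.trans h'.dvdM)
    have hc' : ℓ.Coprime N' := hc.coprime_dvd_right h.dvdN
    rw [LinearMap.comp_apply, h.T hℓ hℓM hℓM' hc, map_smul, h'.T hℓ hℓM' hℓM'' hc', smul_smul,
      ← Units.val_mul]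
    congr 2
    rw [MonoidHom.mul_apply, MonoidHom.comp_apply, unitsMap_coprime h.dvdN hc hc']
  U := by
    intro n hn hnM hnM'' hc x
    have hnM' : n ∣ M' := hnM.trans h.dvdM
    have hc' : n.Coprime N' := hc.coprime_dvd_right h.dvdN
    rw [LinearMap.comp_apply, h.U hn hnM hnM' hc, map_smul, h'.U hn hnM' hnM'' hc', smul_smul,
      ← Units.val_mul]
    congr 2
    rw [MonoidHom.mul_apply, MonoidHom.comp_apply, unitsMap_coprime h.dvdN hc hc']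
  AL := by
    intro r hr hrM hc t s ht hs x
    have hc' : r.Coprime N' := hc.coprime_dvd_right h.dvdN
    -- an intermediate family
    obtain ⟨s', hs'⟩ : ∃ s' : HFam (gam N' M' hM') (gam N' M' hM'), IsAL r s' := by
      obtain ⟨e⟩ := hs.uni
      obtain ⟨x, y, z, t, h1, h2⟩ := hs.mat (e.symm ())
      obtain ⟨k, hk⟩ := h'.dvdM
      obtain ⟨M₁, hM₁⟩ : ∃ M₁, M' = M₁ * r := by
        obtain ⟨m, hm⟩ := hrM.trans h.dvdM
        exact ⟨m, by rw [hm, mul_comm]⟩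
      subst hM₁
      have hr0 : (r : ℤ) ≠ 0 := by exact_mod_cast hr.ne'
      have hNM₁ : N' ∣ M₁ := hc'.symm.dvd_of_dvd_mul_right hM'
      refine ⟨wFam hNM₁ hr ⟨x, y, k * z, t, ?_⟩, isAL_wFam hNM₁ hr _⟩
      apply mul_left_cancel₀ hr0
      rw [hk] at h2
      push_cast at h2
      linear_combination h2
    rw [LinearMap.comp_apply, h.AL hr hrM hc ht hs', map_smul,
      h'.AL hr (hrM.trans h.dvdM) hc' hs' hs, smul_smul, ← Units.val_mul]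
    congr 2
    rw [MonoidHom.mul_apply, MonoidHom.comp_apply, unitsMap_coprime h.dvdN hc hc']

/-- The identity. -/
theorem TwEmb.id {N M : ℕ} (hM : N ∣ M) (ρ : DN N →* (Module.End R V)ᵐᵒᵖ) :
    TwEmb hM hM ρ ρ 1 LinearMap.id where
  dvdM := dvd_rfl
  dvdN := dvd_rfl
  inj := Function.injective_id
  T := by
    intro ℓ hℓ hℓM hℓM'' hc x
    rw [MonoidHom.one_apply, Units.val_one, one_smul]
    rfl
  U := by
    intro n hn hnM hnM'' hc x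
    rw [MonoidHom.one_apply, Units.val_one, one_smul]
    rfl
  AL := by
    intro r hr hrM hc t s ht hs x
    rw [MonoidHom.one_apply, Units.val_one, one_smul]
    change t.opH ρ x = s.opH ρ x
    apply LinearMap.congr_fun
    obtain ⟨e⟩ := ht.uni
    obtain ⟨e'⟩ := hs.uni
    refine HFam.opH_congr _ _ (e.trans e'.symm) fun i => ?_
    obtain ⟨x, y, z, t', h1, h2⟩ := ht.mat i
    obtain ⟨x₂, y₂, z₂, t₂, h3, h4⟩ := hs.mat ((e.trans e'.symm) i)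
    obtain ⟨γ, hγ⟩ := al_equiv hrM hr h2 h4
    refine ⟨γ, ?_⟩
    apply Subtype.ext
    rw [h1, hγ]
    change _ = _ * (s.α ((e.trans e'.symm) i)).1
    rw [h3]
    rfl

/-- **The twist step.** -/
theorem twEmb_tw {N M q : ℕ} (hq : q.Prime) (hqN : ¬ q ∣ N) (χ : (ZMod q)ˣ →* Rˣ)
    (ρ : DN N →* (Module.End R V)ᵐᵒᵖ) (hqM : ¬ q ∣ M) (hM : 0 < M) [NeZero q]
    (hχ2 : ∑ u, ((((χ u) ^ 2)⁻¹ : Rˣ) : R) = 0) (hu : IsUnit (((q - 1 : ℕ) : R) * q))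
    (hL : N * q ∣ M * q) {L' : ℕ} (hLe : L' = M * q * q) (hNL' : N ∣ L')
    (hLL' : M * q * q ∣ L') (κ : Rˣ) (hκ : ∀ v, slash ρ (scq hq hqN) v = (κ : R) • v) :
    TwEmb hL hNL' (rTw χ ρ) ρ (χ.comp (ZMod.unitsMap (dvd_mul_left q N)))
      (tw hq hqN χ ρ hL hNL' hLL') where
  dvdM := (Dvd.intro q rfl).trans hLL'
  dvdN := Dvd.intro q rfl
  inj := tw_injective χ ρ hq hqN hqM hM hχ2 hu hL hLe hNL' hLL' κ hκ
  T := by
    intro ℓ hℓ hℓM hℓM'' hc x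
    rw [tw_tFam χ ρ hq hqN hNL' hLL' hℓ hℓM hℓM'', MonoidHom.comp_apply,
      unitsMap_coprime (dvd_mul_left q N) hc (coprime_q_of hL hℓ hℓM)]
  U := by
    intro n hn hnM hnM'' hc x
    rw [tw_uFam χ ρ hq hqN hNL' hLL' hn hc.coprime_mul_left_right hnM hnM'', MonoidHom.comp_apply,
      unitsMap_coprime (dvd_mul_left q N) hc hc.coprime_mul_left_right]
  AL := by
    intro r hr hrM hc t s ht hs x
    rw [tw_AL χ ρ hq hqN hL hNL' hLL' hr hrM hc.coprime_mul_left_right ht hs,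
      MonoidHom.comp_apply,
      unitsMap_coprime (dvd_mul_left q N) hc hc.coprime_mul_left_right]

end Fermat.Agent.H21J
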