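import Fermat.Agent.H21JTw
/-!
# Equivariance of the twist for `T_ℓ`, `U_n`, `V_d`
-/
set_option autoImplicit false

open CongruenceSubgroup Matrix.SpecialLinearGroup
open scoped MatrixGroups
open Fermat.Agent.H70.Coh

noncomputable section

namespace Fermat.Agent.H21J

section Eq

variable {R : Type*} [CommRing R] {V : Type*} [AddCommGroup V] [Module R V]
  {N q : ℕ}

/-- unit rigidity of upper triangular matrices -/
lemma ut_rigid {g : SL(2, ℤ)} {a b d a' b' d' : ℤ} (ha : 0 < a) (ha' : 0 < a')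
    (h : !![a, b; 0, d] = (g : Matrix (Fin 2) (Fin 2) ℤ) * !![a', b'; 0, d']) :
    a = a' ∧ d = d' ∧ d' ∣ b - b' := by
  have hdet := det_eq g
  have e00 := congrFun (congrFun h 0) 0
  have e01 := congrFun (congrFun h 0) 1
  have e10 := congrFun (congrFun h 1) 0
  have e11 := congrFun (congrFun h 1) 1
  simp [Matrix.mul_apply, Fin.sum_univ_two] at e00 e01 e10 e11
  have hg10 : g 1 0 = 0 := by
    rcases e10 with h | h
    · exact h
    · omega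
  rw [hg10] at hdet e11
  have hg00 : 0 < g 0 0 := by
    by_contra hneg
    push Not at hneg
    nlinarith
  have hgg : g 0 0 = 1 ∧ g 1 1 = 1 := by
    have h2 : g 0 0 * g 1 1 = 1 := by linarith
    have h3 : 0 < g 1 1 := by
      by_contra hneg
      push Not at hneg
      nlinarith
    constructor <;> nlinarith
  rw [hgg.1, one_mul] at e00 e01
  rw [hgg.2, one_mul, zero_mul, zero_add] at e11
  exact ⟨e00, e11, g 0 1, by rw [e01]; ring⟩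

variable {L : ℕ} {hL : N * q ∣ L} {χ : (ZMod q)ˣ →* Rˣ}
  {ρ : DN N →* (Module.End R V)ᵐᵒᵖ}

/-- Criterion for weighted upper triangular families. -/
theorem opH_eq_smul_of_ut {Γ' : Type*} [Group Γ'] {ι' : Γ' →* DN N × Rˣ}
    {h h' : HFam (iT hL χ) ι'} {a b d : h.J → ℤ} {a' b' d' : h'.J → ℤ}
    (H : ∀ i, (h.α i).1.1 = !![a i, b i; 0, d i]) (ha : ∀ i, 0 < a i)
    (H' : ∀ i, (h'.α i).1.1 = !![a' i, b' i; 0, d' i]) (m : Rˣ)
    (hcard : Fintype.card h.J = Fintype.card h'.J)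
    (hex : ∀ i, ∃ j, a i = a' j ∧ d i = d' j ∧ d' j ∣ b i - b' j ∧ (h.α i).2 = (h'.α j).2 * m)
    (hinj : ∀ i i', a i = a i' → d i = d i' → d i' ∣ b i - b i' → i = i') :
    h.opH (wrho ρ) = (m : R) • h'.opH (wrho ρ) := by
  refine opH_eq_smul_of_card h h' m hcard ?_ ?_
  · intro i
    obtain ⟨j, h1, h2, ⟨k, hk⟩, h4⟩ := hex i
    refine ⟨j, tpow L k, ?_⟩
    apply Prod.ext
    · apply Subtype.ext
      change (h.α i).1.1 = (gam (N * q) L hL (tpow L k)).1 * ((h'.α j).1.1 * 1)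
      rw [H, H', gam_tpow, mul_one, h1, h2]
      ext x y
      fin_cases x <;> fin_cases y <;> simp [Matrix.mul_apply, Fin.sum_univ_two]
      linear_combination hk
    · change (h.α i).2 = (iT hL χ (tpow L k)).2 * ((h'.α j).2 * m)
      rw [iT_snd hL χ _ 1 (by
        have h5 := congrFun (congrFun (gam_tpow hL k) 0) 0
        change (tpow L k : SL(2, ℤ)) 0 0 = 1 at h5
        rw [h5]; simp), map_one, one_pow, one_mul, h4]
  · intro i i' γ hγ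
    have h1 := congrArg Subtype.val hγ
    change (h.α i).1.1 = ((γ : SL(2, ℤ)) : Matrix (Fin 2) (Fin 2) ℤ) * (h.α i').1.1 at h1
    rw [H, H] at h1
    obtain ⟨h2, h3, h4⟩ := ut_rigid (ha i) (ha i') h1
    exact hinj i i' h2 h3 h4

lemma unit_val_natCast {q : ℕ} [NeZero q] (u : ZMod q) : ((u.val : ℤ) : ZMod q) = u := by
  rw [Int.cast_natCast, ZMod.natCast_zmod_val]

/-- existence of the second digit -/
lemma digit_aux {q n : ℕ} (hq : 0 < q) (hn : 0 < n) (u : ZMod q) (j : ZMod n) (u' : ZMod q)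
    (hu : u = u' * n) : ∃ j' : ZMod n,
      (q : ℤ) * n ∣ ((u.val : ℤ) + (j.val : ℤ) * q) - (q * (j'.val : ℤ) + (u'.val : ℤ) * n) := by
  have i1 : NeZero q := ⟨hq.ne'⟩
  have i2 : NeZero n := ⟨hn.ne'⟩
  obtain ⟨t, ht⟩ : (q : ℤ) ∣ (u.val : ℤ) - (u'.val : ℤ) * n := by
    rw [← ZMod.intCast_zmod_eq_zero_iff_dvd]
    push_cast
    rw [ZMod.natCast_zmod_val, ZMod.natCast_zmod_val, hu, sub_self]
  refine ⟨j + (t : ZMod n), ?_⟩
  obtain ⟨s, hs⟩ : (n : ℤ) ∣ t + (j.val : ℤ) - ((j + (t : ZMod n)).val : ℤ) := by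
    rw [← ZMod.intCast_zmod_eq_zero_iff_dvd]
    push_cast
    rw [ZMod.natCast_zmod_val, ZMod.natCast_zmod_val]
    ring
  exact ⟨s, by linear_combination ht + (q : ℤ) * hs⟩

lemma units_val_inj {q : ℕ} [NeZero q] {u u' : (ZMod q)ˣ}
    (h : (q : ℤ) ∣ ((u : ZMod q).val : ℤ) - ((u' : ZMod q).val : ℤ)) : u = u' :=
  Units.ext (val_eq_of_dvd h)

variable (hq : q.Prime) (hqN : ¬ q ∣ N) {L' : ℕ} (hL' : N ∣ L') (hLL' : L * q ∣ L')

lemma coprime_q_of {N q L ℓ : ℕ} (hL : N * q ∣ L) (hℓ' : ℓ.Prime) (hℓ : ¬ ℓ ∣ L) :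
    ℓ.Coprime q :=
  (Nat.Prime.coprime_iff_not_dvd hℓ').mpr fun h => hℓ (h.trans ((Dvd.intro_left N rfl).trans hL))

variable (ρ χ) in
/-- **The twist is `T_ℓ`-equivariant** up to `χ(ℓ)`. -/
theorem tw_tFam {ℓ : ℕ} (hℓ : ℓ.Prime) (hℓL : ¬ ℓ ∣ L) (hℓL' : ¬ ℓ ∣ L')
    (x : H1 (gam (N * q) L hL) (rTw χ ρ)) :
    tw hq hqN χ ρ hL hL' hLL' ((tFam hL hℓ hℓL).opH (rTw χ ρ) x) =
      ((χ (ZMod.unitOfCoprime ℓ (coprime_q_of hL hℓ hℓL)) : Rˣ) : R) •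
        (tFam hL' hℓ hℓL').opH ρ (tw hq hqN χ ρ hL hL' hLL' x) := by
  have hcop := coprime_q_of hL hℓ hℓL
  have hcop' : ℓ.Coprime q := hcop
  have i1 : NeZero ℓ := ⟨hℓ.ne_zero⟩
  have i2 : NeZero q := ⟨hq.ne_zero⟩
  have hq0 : (0 : ℤ) < q := by exact_mod_cast hq.pos
  have hℓ1 : (1 : ℤ) < ℓ := by exact_mod_cast hℓ.one_lt
  set z : (ZMod q)ˣ := ZMod.unitOfCoprime ℓ (coprime_q_of hL hℓ hℓL) with hz
  have hzv : (z : ZMod q) = (ℓ : ZMod q) := rfl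
  refine tw_comm hq hqN χ ρ hLL' hLL' _ _ _ ?_ x
  refine opH_eq_smul_of_ut
    (a := fun p : OnePoint (ZMod ℓ) × (ZMod q)ˣ => tA ℓ p.1 * q)
    (b := fun p : OnePoint (ZMod ℓ) × (ZMod q)ˣ =>
      tA ℓ p.1 * ((p.2 : ZMod q).val : ℤ) + tB ℓ p.1 * q)
    (d := fun p : OnePoint (ZMod ℓ) × (ZMod q)ˣ => tD ℓ p.1 * q)
    (a' := fun p : (ZMod q)ˣ × OnePoint (ZMod ℓ) => q * tA ℓ p.2)
    (b' := fun p : (ZMod q)ˣ × OnePoint (ZMod ℓ) =>
      q * tB ℓ p.2 + ((p.1 : ZMod q).val : ℤ) * tD ℓ p.2)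
    (d' := fun p : (ZMod q)ˣ × OnePoint (ZMod ℓ) => q * tD ℓ p.2) ?_ ?_ ?_ (χ z) ?_ ?_ ?_
  · rintro ⟨i, (u : (ZMod q)ˣ)⟩
    change ((tFam hL hℓ hℓL).α i).1 * (twRep N hq hqN (u : ZMod q)).1 = _
    rw [(isUT_tFam (hM := hL) hℓ hℓL).eq i, twRep_val]
    ext x y
    fin_cases x <;> fin_cases y <;> simp [Matrix.mul_apply, Fin.sum_univ_two]
  · rintro ⟨i, (u : (ZMod q)ˣ)⟩
    exact mul_pos ((isUT_tFam (hM := hL) hℓ hℓL).pos i) hq0
  · rintro ⟨(u : (ZMod q)ˣ), i⟩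
    change (twRep N hq hqN (u : ZMod q)).1 * ((tFam hL' hℓ hℓL').α i).1 = _
    rw [(isUT_tFam (hM := hL') hℓ hℓL').eq i, twRep_val]
    ext x y
    fin_cases x <;> fin_cases y <;> simp [Matrix.mul_apply, Fin.sum_univ_two]
  · change Fintype.card ((tFam hL hℓ hℓL).J × (twFam hq hqN χ hL hL' hLL').J) =
      Fintype.card ((twFam hq hqN χ hL hL' hLL').J × (tFam hL' hℓ hℓL').J)
    rw [Fintype.card_prod, Fintype.card_prod, mul_comm]
    rfl
  · rintro ⟨_ | j, (u : (ZMod q)ˣ)⟩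
    · refine ⟨(u * z, none), mul_comm _ _, ?_, ?_, ?_⟩
      · change (1 : ℤ) * q = q * 1
        ring
      · change (q : ℤ) * 1 ∣ ((ℓ : ℤ) * ((u : ZMod q).val : ℤ) + 0 * q) -
          (q * 0 + (((u * z : (ZMod q)ˣ) : ZMod q).val : ℤ) * 1)
        rw [mul_one, ← ZMod.intCast_zmod_eq_zero_iff_dvd]
        push_cast
        rw [ZMod.natCast_zmod_val, ZMod.natCast_zmod_val, hzv, ZMod.natCast_self]
        ring
      · change (jTw N χ ((tFam hL hℓ hℓL).α none)).2 * χ u = (χ (u * z) * 1) * χ z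
        rw [jTw_snd χ _ z (by
          rw [hzv]
          change (ℓ : ZMod q) = (((ℓ : ℕ) : ℤ) : ZMod q)
          push_cast
          rfl), map_mul]
        rw [mul_one, sq, mul_comm (χ u), mul_assoc, mul_assoc, mul_comm (χ z) (χ u)]
    · obtain ⟨j', hj'⟩ := digit_aux hq.pos hℓ.pos (u : ZMod q) j ((u * z⁻¹ : (ZMod q)ˣ) : ZMod q)
        (by rw [← hzv, ← Units.val_mul, inv_mul_cancel_right])
      refine ⟨(u * z⁻¹, some j'), mul_comm _ _, mul_comm _ _, ?_, ?_⟩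
      · change (q : ℤ) * ℓ ∣ (1 * ((u : ZMod q).val : ℤ) + (j.val : ℤ) * q) -
          (q * (j'.val : ℤ) + (((u * z⁻¹ : (ZMod q)ˣ) : ZMod q).val : ℤ) * ℓ)
        rw [one_mul]
        exact hj'
      · change (jTw N χ ((tFam hL hℓ hℓL).α (some j))).2 * χ u = (χ (u * z⁻¹) * 1) * χ z
        rw [jTw_snd χ _ 1 (by
          change (1 : ZMod q) = (((1 : ℕ) : ℤ) : ZMod q)
          simp), map_one, one_pow, one_mul, mul_one, ← map_mul,
          inv_mul_cancel_right]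
  · rintro ⟨_ | j, (u : (ZMod q)ˣ)⟩ ⟨_ | j₂, (u₂ : (ZMod q)ˣ)⟩ ha hd hb
    · change (1 : ℤ) * q ∣ ((ℓ : ℤ) * ((u : ZMod q).val : ℤ) + 0 * q) -
        ((ℓ : ℤ) * ((u₂ : ZMod q).val : ℤ) + 0 * q) at hb
      rw [one_mul, zero_mul, add_zero, add_zero] at hb
      rw [Units.ext (dvd_sub_of_coprime hcop.symm hb)]
    · exfalso
      change (ℓ : ℤ) * q = 1 * q at ha
      nlinarith
    · exfalso
      change (1 : ℤ) * q = ℓ * q at ha
      nlinarith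
    · change (ℓ : ℤ) * q ∣ (1 * ((u : ZMod q).val : ℤ) + (j.val : ℤ) * q) -
        (1 * ((u₂ : ZMod q).val : ℤ) + (j₂.val : ℤ) * q) at hb
      rw [one_mul, one_mul] at hb
      obtain ⟨h5, h6⟩ := digits_unique hb
      rw [h5, Units.ext h6]

variable (ρ χ) in
/-- **The twist is `U_n`-equivariant** up to `χ(n)`, `n` prime to `q`. -/
theorem tw_uFam {n : ℕ} (hn : 0 < n) (hnq : n.Coprime q) (hnL : n ∣ L) (hnL' : n ∣ L')
    (x : H1 (gam (N * q) L hL) (rTw χ ρ)) :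
    tw hq hqN χ ρ hL hL' hLL' ((uFam hL hn hnL).opH (rTw χ ρ) x) =
      ((χ (ZMod.unitOfCoprime n hnq) : Rˣ) : R) •
        (uFam hL' hn hnL').opH ρ (tw hq hqN χ ρ hL hL' hLL' x) := by
  have i1 : NeZero n := ⟨hn.ne'⟩
  have i2 : NeZero q := ⟨hq.ne_zero⟩
  have hq0 : (0 : ℤ) < q := by exact_mod_cast hq.pos
  set z : (ZMod q)ˣ := ZMod.unitOfCoprime n hnq with hz
  have hzv : (z : ZMod q) = (n : ZMod q) := rfl
  refine tw_comm hq hqN χ ρ hLL' hLL' _ _ _ ?_ x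
  refine opH_eq_smul_of_ut
    (a := fun p : ZMod n × (ZMod q)ˣ => 1 * q)
    (b := fun p : ZMod n × (ZMod q)ˣ =>
      1 * ((p.2 : ZMod q).val : ℤ) + (p.1.val : ℤ) * q)
    (d := fun p : ZMod n × (ZMod q)ˣ => (n : ℤ) * q)
    (a' := fun p : (ZMod q)ˣ × ZMod n => (q : ℤ) * 1)
    (b' := fun p : (ZMod q)ˣ × ZMod n =>
      q * (p.2.val : ℤ) + ((p.1 : ZMod q).val : ℤ) * n)
    (d' := fun p : (ZMod q)ˣ × ZMod n => (q : ℤ) * n) ?_ ?_ ?_ (χ z) ?_ ?_ ?_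
  · rintro ⟨(i : ZMod n), (u : (ZMod q)ˣ)⟩
    change ((uFam hL hn hnL).α i).1 * (twRep N hq hqN (u : ZMod q)).1 = _
    rw [(isUT_uFam (hM := hL) hn hnL).eq i, twRep_val]
    ext x y
    fin_cases x <;> fin_cases y <;> simp [Matrix.mul_apply, Fin.sum_univ_two]
  · rintro ⟨(i : ZMod n), (u : (ZMod q)ˣ)⟩
    exact mul_pos one_pos hq0
  · rintro ⟨(u : (ZMod q)ˣ), (i : ZMod n)⟩
    change (twRep N hq hqN (u : ZMod q)).1 * ((uFam hL' hn hnL').α i).1 = _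
    rw [(isUT_uFam (hM := hL') hn hnL').eq i, twRep_val]
    ext x y
    fin_cases x <;> fin_cases y <;> simp [Matrix.mul_apply, Fin.sum_univ_two]
  · change Fintype.card ((uFam hL hn hnL).J × (twFam hq hqN χ hL hL' hLL').J) =
      Fintype.card ((twFam hq hqN χ hL hL' hLL').J × (uFam hL' hn hnL').J)
    rw [Fintype.card_prod, Fintype.card_prod, mul_comm]
    rfl
  · rintro ⟨(j : ZMod n), (u : (ZMod q)ˣ)⟩
    obtain ⟨j', hj'⟩ := digit_aux hq.pos hn (u : ZMod q) j ((u * z⁻¹ : (ZMod q)ˣ) : ZMod q)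
        (by rw [← hzv, ← Units.val_mul, inv_mul_cancel_right])
    refine ⟨(u * z⁻¹, j'), mul_comm _ _, mul_comm _ _, ?_, ?_⟩
    · change (q : ℤ) * n ∣ (1 * ((u : ZMod q).val : ℤ) + (j.val : ℤ) * q) -
          (q * (j'.val : ℤ) + (((u * z⁻¹ : (ZMod q)ˣ) : ZMod q).val : ℤ) * n)
      rw [one_mul]
      exact hj'
    · change (jTw N χ ((uFam hL hn hnL).α j)).2 * χ u = (χ (u * z⁻¹) * 1) * χ z
      rw [jTw_snd χ _ 1 (by
          change (1 : ZMod q) = (((1 : ℕ) : ℤ) : ZMod q)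
          simp), map_one, one_pow, one_mul, mul_one, ← map_mul,
          inv_mul_cancel_right]
  · rintro ⟨(j : ZMod n), (u : (ZMod q)ˣ)⟩ ⟨(j₂ : ZMod n), (u₂ : (ZMod q)ˣ)⟩ ha hd hb
    change (n : ℤ) * q ∣ (1 * ((u : ZMod q).val : ℤ) + (j.val : ℤ) * q) -
        (1 * ((u₂ : ZMod q).val : ℤ) + (j₂.val : ℤ) * q) at hb
    rw [one_mul, one_mul] at hb
    obtain ⟨h5, h6⟩ := digits_unique hb
    rw [h5, Units.ext h6]

variable (ρ χ) in
/-- **The twist commutes with `V_d`** up to `χ(d)`, `d` prime to `N * q`. -/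
theorem tw_vFam {L₂ L₂' d : ℕ} (hL₂ : N * q ∣ L₂) (hL₂' : N ∣ L₂') (hLL₂ : L₂ * q ∣ L₂')
    (hd : 0 < d) (hdN : d.Coprime (N * q)) (h : L * d ∣ L₂) (h' : L' * d ∣ L₂')
    (x : H1 (gam (N * q) L hL) (rTw χ ρ)) :
    tw hq hqN χ ρ hL₂ hL₂' hLL₂ ((vFam hL hd hdN h).opH (rTw χ ρ) x) =
      ((χ (ZMod.unitOfCoprime d hdN.coprime_mul_left_right) : Rˣ) : R) •
        (vFam hL' hd hdN.coprime_mul_right_right h').opH ρ (tw hq hqN χ ρ hL hL' hLL' x) := by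
  have i2 : NeZero q := ⟨hq.ne_zero⟩
  have hq0 : (0 : ℤ) < q := by exact_mod_cast hq.pos
  have hd0 : (0 : ℤ) < d := by exact_mod_cast hd
  have hcop : d.Coprime q := hdN.coprime_mul_left_right
  set z : (ZMod q)ˣ := ZMod.unitOfCoprime d hdN.coprime_mul_left_right with hz
  have hzv : (z : ZMod q) = (d : ZMod q) := rfl
  refine tw_comm hq hqN χ ρ hLL' hLL₂ _ _ _ ?_ x
  refine opH_eq_smul_of_ut
    (a := fun p : Unit × (ZMod q)ˣ => (d : ℤ) * q)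
    (b := fun p : Unit × (ZMod q)ˣ => (d : ℤ) * ((p.2 : ZMod q).val : ℤ))
    (d := fun p : Unit × (ZMod q)ˣ => (q : ℤ))
    (a' := fun p : (ZMod q)ˣ × Unit => (q : ℤ) * d)
    (b' := fun p : (ZMod q)ˣ × Unit => ((p.1 : ZMod q).val : ℤ))
    (d' := fun p : (ZMod q)ˣ × Unit => (q : ℤ)) ?_ ?_ ?_ (χ z) ?_ ?_ ?_
  · rintro ⟨⟨⟩, (u : (ZMod q)ˣ)⟩
    change ((vFam hL hd hdN h).α ()).1 * (twRep N hq hqN (u : ZMod q)).1 = _
    rw [(isUT_vFam (hM := hL) hd hdN h).eq (), twRep_val]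
    ext x y
    fin_cases x <;> fin_cases y <;> simp [Matrix.mul_apply, Fin.sum_univ_two]
  · rintro ⟨⟨⟩, (u : (ZMod q)ˣ)⟩
    exact mul_pos hd0 hq0
  · rintro ⟨(u : (ZMod q)ˣ), ⟨⟩⟩
    change (twRep N hq hqN (u : ZMod q)).1 *
      ((vFam hL' hd hdN.coprime_mul_right_right h').α ()).1 = _
    rw [(isUT_vFam (hM := hL') hd hdN.coprime_mul_right_right h').eq (), twRep_val]
    ext x y
    fin_cases x <;> fin_cases y <;> simp [Matrix.mul_apply, Fin.sum_univ_two]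
  · change Fintype.card ((vFam hL hd hdN h).J × (twFam hq hqN χ hL₂ hL₂' hLL₂).J) =
      Fintype.card ((twFam hq hqN χ hL hL' hLL').J × (vFam hL' hd
        hdN.coprime_mul_right_right h').J)
    rw [Fintype.card_prod, Fintype.card_prod, mul_comm]
    rfl
  · rintro ⟨⟨⟩, (u : (ZMod q)ˣ)⟩
    refine ⟨(u * z, ()), mul_comm _ _, rfl, ?_, ?_⟩
    · change (q : ℤ) ∣ ((d : ℤ) * ((u : ZMod q).val : ℤ)) -
          (((u * z : (ZMod q)ˣ) : ZMod q).val : ℤ)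
      rw [← ZMod.intCast_zmod_eq_zero_iff_dvd]
      push_cast
      rw [ZMod.natCast_zmod_val, ZMod.natCast_zmod_val, hzv]
      ring
    · change (jTw N χ ((vFam hL hd hdN h).α ())).2 * χ u = (χ (u * z) * 1) * χ z
      rw [jTw_snd χ _ z (by
          rw [hzv]
          change (d : ZMod q) = (((d : ℕ) : ℤ) : ZMod q)
          push_cast
          rfl), map_mul]
      rw [mul_one, sq, mul_comm (χ u), mul_assoc, mul_assoc, mul_comm (χ z) (χ u)]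
  · rintro ⟨⟨⟩, (u : (ZMod q)ˣ)⟩ ⟨⟨⟩, (u₂ : (ZMod q)ˣ)⟩ ha hd' hb
    change (q : ℤ) ∣ ((d : ℤ) * ((u : ZMod q).val : ℤ)) -
        ((d : ℤ) * ((u₂ : ZMod q).val : ℤ)) at hb
    rw [Units.ext (dvd_sub_of_coprime hcop.symm hb)]

end Eq

end Fermat.Agent.H21J
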