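import Fermat.Agent.H21JNew
/-!
# Injectivity of the twist
-/
set_option autoImplicit false

open CongruenceSubgroup Matrix.SpecialLinearGroup
open scoped MatrixGroups
open Fermat.Agent.H70.Coh Fermat.Agent.H37.Tr

noncomputable section

namespace Fermat.Agent.H21J

section Inj

variable {R : Type*} [CommRing R] {V : Type*} [AddCommGroup V] [Module R V]
  {N M q : ℕ} (χ : (ZMod q)ˣ →* Rˣ) (ρ : DN N →* (Module.End R V)ᵐᵒᵖ)
  (hq : q.Prime) (hqN : ¬ q ∣ N)

/-- the scalar family `q²` -/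
def scFam {L : ℕ} (hL : N * q ∣ L) (χ : (ZMod q)ˣ →* Rˣ) (s : DN N) (hs : ∀ t, s * t = t * s) :
    HFam (iT hL χ) (iT hL χ) where
  J := Unit
  fin := inferInstance
  α := fun _ => (s, 1)
  inv := fun γ => ⟨1, fun _ => γ, fun _ => by
    apply Prod.ext
    · exact hs _
    · change 1 * (iT hL χ γ).2 = (iT hL χ γ).2 * 1
      rw [one_mul, mul_one]⟩

lemma scFam_opH {L : ℕ} (hL : N * q ∣ L) (s : DN N) (hs : ∀ t, s * t = t * s) (κ : R)
    (hκ : ∀ v, slash ρ s v = κ • v) (x : H1 (iT hL χ) (wrho ρ)) :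
    (scFam hL χ s hs).opH (wrho ρ) x = κ • x := by
  obtain ⟨c, rfl⟩ := Submodule.mkQ_surjective _ x
  change H1.mk _ (wrho ρ) ((scFam hL χ s hs).op (wrho ρ) c) = κ • H1.mk _ (wrho ρ) c
  rw [← map_smul]
  congr 1
  apply Subtype.ext
  funext γ
  rw [HFam.op_apply_of_eq (scFam hL χ s hs) c γ 1 (fun _ => γ) (fun _ => by
    apply Prod.ext
    · exact hs _
    · change 1 * (iT hL χ γ).2 = (iT hL χ γ).2 * 1
      rw [one_mul, mul_one])]
  change ∑ i : Unit, slash (wrho ρ) (s, 1) (c.1 γ) = κ • c.1 γ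
  rw [slash_wrho, Finset.sum_const, Finset.card_univ, Fintype.card_unit, one_smul, Units.val_one,
    one_smul, hκ]

lemma sum_scaling [NeZero q] [Fact q.Prime]
    (hχ2 : ∑ u, ((((χ u) ^ 2)⁻¹ : Rˣ) : R) = 0) :
    ∑ a : (ZMod q)ˣ × (ZMod q)ˣ, (if h : (a.1 : ZMod q) + a.2 = 0 then (0 : R) else
      ((χ a.1 * (χ a.2)⁻¹ * ((χ (Units.mk0 _ h)) ^ 2)⁻¹ : Rˣ) : R)) = 0 := by
  let e0 : (ZMod q)ˣ × (ZMod q)ˣ ≃ (ZMod q)ˣ × (ZMod q)ˣ :=
    { toFun := fun p => (p.1 * p.2, p.2)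
      invFun := fun p => (p.1 * p.2⁻¹, p.2)
      left_inv := fun p => by simp
      right_inv := fun p => by simp }
  rw [← e0.sum_comp, Fintype.sum_prod_type]
  refine Finset.sum_eq_zero fun t _ => ?_
  by_cases h : (t : ZMod q) + 1 = 0
  · refine Finset.sum_eq_zero fun u _ => ?_
    rw [dif_pos]
    change ((t * u : (ZMod q)ˣ) : ZMod q) + u = 0
    rw [Units.val_mul]
    linear_combination (u : ZMod q) * h
  · have h1 : ∀ u : (ZMod q)ˣ, (if h : (((e0 (t, u)).1 : (ZMod q)ˣ) : ZMod q) + (e0 (t, u)).2 = 0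
        then (0 : R) else
        ((χ (e0 (t, u)).1 * (χ (e0 (t, u)).2)⁻¹ * ((χ (Units.mk0 _ h)) ^ 2)⁻¹ : Rˣ) : R)) =
        ((χ t * ((χ (Units.mk0 _ h)) ^ 2)⁻¹ : Rˣ) : R) * ((((χ u) ^ 2)⁻¹ : Rˣ) : R) := by
      intro u
      have h2 : (((e0 (t, u)).1 : (ZMod q)ˣ) : ZMod q) + (e0 (t, u)).2 = ((t : ZMod q) + 1) * u := by
        change ((t * u : (ZMod q)ˣ) : ZMod q) + u = _
        rw [Units.val_mul]
        ring
      have h3 : ¬ (((e0 (t, u)).1 : (ZMod q)ˣ) : ZMod q) + (e0 (t, u)).2 = 0 := by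
        rw [h2]
        exact mul_ne_zero h u.ne_zero
      rw [dif_neg h3, ← Units.val_mul]
      congr 1
      have h4 : Units.mk0 _ h3 = Units.mk0 _ h * u := by
        apply Units.ext
        rw [Units.val_mk0, Units.val_mul, Units.val_mk0]
        exact h2
      rw [h4]
      change χ (t * u) * (χ u)⁻¹ * _ = _
      rw [map_mul, map_mul, mul_inv_cancel_right, mul_pow, mul_inv, mul_assoc]
    rw [Finset.sum_congr rfl fun u _ => h1 u, ← Finset.mul_sum, hχ2, mul_zero]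

/-- the grouping map -/
def eMap (M : ℕ) [Fact q.Prime] (p : ((ZMod q)ˣ × (ZMod q)ˣ) × ZMod q) : Option (ZMod q) :=
  if ((p.1.1 : ZMod q) + p.1.2) = 0 then none
  else some (((((p.1.1 : ZMod q) + p.1.2))⁻¹ - 1) / M + p.2)

/-- the weights -/
def rMap [Fact q.Prime] (p : (ZMod q)ˣ × (ZMod q)ˣ) : Rˣ :=
  if h : ((p.1 : ZMod q) + p.2) = 0 then χ p.1 * (χ p.2)⁻¹
  else χ p.1 * (χ p.2)⁻¹ * ((χ (Units.mk0 _ h)) ^ 2)⁻¹

lemma sum_some [NeZero q] [Fact q.Prime]
    (hχ2 : ∑ u, ((((χ u) ^ 2)⁻¹ : Rˣ) : R) = 0) (k : ZMod q) :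
    ∑ p with eMap M p = some k, (rMap χ p.1 : R) = 0 := by
  rw [Finset.sum_filter, Fintype.sum_prod_type]
  refine Eq.trans ?_ (sum_scaling χ hχ2)
  refine Finset.sum_congr rfl fun a _ => ?_
  by_cases h : (a.1 : ZMod q) + a.2 = 0
  · rw [dif_pos h]
    refine Finset.sum_eq_zero fun b _ => ?_
    rw [if_neg]
    unfold eMap
    rw [if_pos h]
    exact fun h => by cases h
  · rw [dif_neg h]
    rw [Finset.sum_eq_single (k - (((((a.1 : ZMod q) + a.2))⁻¹ - 1) / M))]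
    · rw [if_pos]
      · unfold rMap
        rw [dif_neg h]
      · unfold eMap
        rw [if_neg h, add_sub_cancel]
    · intro b _ hb
      rw [if_neg]
      unfold eMap
      rw [if_neg h]
      intro h2
      apply hb
      rw [← Option.some_injective _ h2]
      ring
    · intro h2
      exact absurd (Finset.mem_univ _) h2

lemma sum_none [NeZero q] [Fact q.Prime] :
    ∑ p with eMap M p = none, (rMap χ p.1 : R) = ((q - 1 : ℕ) : R) * q * ((χ (-1) : Rˣ) : R) := by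
  rw [Finset.sum_filter, Fintype.sum_prod_type, Fintype.sum_prod_type]
  have h1 : ∀ u : (ZMod q)ˣ, ∑ u' : (ZMod q)ˣ, ∑ b : ZMod q,
      (if eMap M ((u, u'), b) = none then (rMap χ (u, u') : R) else 0) =
      q * ((χ (-1) : Rˣ) : R) := by
    intro u
    rw [Finset.sum_eq_single (-u)]
    · have h2 : (u : ZMod q) + ((-u : (ZMod q)ˣ) : ZMod q) = 0 := by
        rw [Units.val_neg, add_neg_cancel]
      have h3 : ∀ b : ZMod q, eMap M ((u, -u), b) = none := by
        intro b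
        unfold eMap
        rw [if_pos h2]
      have h4 : rMap χ (u, -u) = χ (-1) := by
        unfold rMap
        rw [dif_pos h2, ← map_inv, ← map_mul]
        congr 1
        apply Units.ext
        simp
      simp only [h3, if_true, h4]
      rw [Finset.sum_const, Finset.card_univ, ZMod.card, nsmul_eq_mul]
    · intro u' _ hu'
      refine Finset.sum_eq_zero fun b _ => ?_
      rw [if_neg]
      unfold eMap
      have h2 : ¬ ((u : ZMod q) + (u' : ZMod q)) = 0 := by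
        intro h
        apply hu'
        apply Units.ext
        rw [Units.val_neg]
        exact (neg_eq_of_add_eq_zero_right h).symm
      rw [if_neg h2]
      exact fun h => by cases h
    · intro h
      exact absurd (Finset.mem_univ _) h
  rw [Finset.sum_congr rfl fun u _ => h1 u, Finset.sum_const, Finset.card_univ, ZMod.card_units_eq_totient, Nat.totient_prime (Fact.out : q.Prime), nsmul_eq_mul]
  ring

/-- the representatives of the grouped classes -/
def bMap (hNL : N ∣ M * q) (sc : DN N) : Option (ZMod q) → DN N × Rˣ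
  | none => (sc, 1)
  | some k => (twRep N hq hqN 0 * twRep N hq hqN 1 *
      gam N (M * q) hNL (lo (M * q) (k.val : ℤ)), 1)

/-- the total family `F ↦ ∑ χ(u) χ(u')⁻¹ F | α_u α_{u'} (1, 0; L j, 1)` -/
theorem total_opH [NeZero q] [Fact q.Prime] (hqM : ¬ q ∣ M) (hM : 0 < M)
    (hχ2 : ∑ u, ((((χ u) ^ 2)⁻¹ : Rˣ) : R) = 0)
    (hL : N * q ∣ M * q) {L' : ℕ} (hLe : L' = M * q * q) (hNL' : N ∣ L') (hNL2 : N * q ∣ L')
    (hLL' : M * q * q ∣ L') (hqq : q * q ∣ L') (sc : DN N)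
    (hsc : sc.1 = !![(q : ℤ) * q, 0; 0, q * q]) (hs : ∀ t, sc * t = t * sc) :
    (((twFam hq hqN χ hL hNL' hLL').comp (tbFam hq hqN χ hNL' hNL2 hqq)).comp
      (famT χ (ctrFam hNL2 hL hLe (Nat.mul_pos hM hq.pos) hq.pos (dvd_mul_left q M)))).opH
        (wrho ρ) = (((q - 1 : ℕ) : R) * q * ((χ (-1) : Rˣ) : R)) •
          (scFam hL χ sc hs).opH (wrho ρ) := by
  have hM0 : (M : ZMod q) ≠ 0 := by
    rw [Ne, ZMod.natCast_eq_zero_iff]
    exact hqM
  have hNL : N ∣ M * q := (Dvd.intro q rfl).trans hL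
  refine opH_eq_smul_of_fiber (K := Option (ZMod q)) _ _ _
    (bMap hq hqN hNL sc)
    (fun p : ((ZMod q)ˣ × (ZMod q)ˣ) × ZMod q => eMap M p)
    (fun p : ((ZMod q)ˣ × (ZMod q)ˣ) × ZMod q => rMap χ p.1) ?_
    (fun _ : Unit => none) (fun _ : Unit => 1) ?_ ?_
  · rintro ⟨⟨(u : (ZMod q)ˣ), (u' : (ZMod q)ˣ)⟩, (j : ZMod q)⟩
    change ∃ γ : Gamma0 (M * q), _ = iT hL χ γ *
      (bMap hq hqN hNL sc (eMap M ((u, u'), j)) * (1, rMap χ (u, u')))
    have hα : ((((twFam hq hqN χ hL hNL' hLL').comp (tbFam hq hqN χ hNL' hNL2 hqq)).comp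
      (famT χ (ctrFam hNL2 hL hLe (Nat.mul_pos hM hq.pos) hq.pos (dvd_mul_left q M)))).α
        ((u, u'), j)).1.1 = (twRep N hq hqN u).1 * (twRep N hq hqN u').1 *
          ((lo (M * q) (j.val : ℤ) : SL(2, ℤ)) : Matrix (Fin 2) (Fin 2) ℤ) := rfl
    have hα2 : ((((twFam hq hqN χ hL hNL' hLL').comp (tbFam hq hqN χ hNL' hNL2 hqq)).comp
      (famT χ (ctrFam hNL2 hL hLe (Nat.mul_pos hM hq.pos) hq.pos (dvd_mul_left q M)))).α
        ((u, u'), j)).2 = χ u * (χ u')⁻¹ := by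
      change χ u * (χ u')⁻¹ * (jTw N χ (gam (N * q) (M * q) hL (lo (M * q) (j.val : ℤ)))).2 = _
      rw [jTw_snd χ _ 1 (by
        rw [gam_val, lo_val]
        simp), map_one, one_pow, mul_one]
    by_cases h : (u : ZMod q) + u' = 0
    · have h1 : eMap M ((u, u'), j) = none := by unfold eMap; rw [if_pos h]
      have h2 : rMap χ (u, u') = χ u * (χ u')⁻¹ := by unfold rMap; rw [dif_pos h]
      obtain ⟨t, ht⟩ : (q : ℤ) ∣ ((u : ZMod q).val : ℤ) + ((u' : ZMod q).val : ℤ) := by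
        rw [← ZMod.intCast_zmod_eq_zero_iff_dvd]
        push_cast
        rw [ZMod.natCast_zmod_val, ZMod.natCast_zmod_val, h]
      refine ⟨tpow (M * q) t * lo (M * q) (j.val : ℤ), ?_⟩
      rw [h1, h2]
      apply Prod.ext
      · apply Subtype.ext
        rw [hα]
        change _ = ((tpow (M * q) t : SL(2, ℤ)) : Matrix (Fin 2) (Fin 2) ℤ) *
          ((lo (M * q) (j.val : ℤ) : SL(2, ℤ)) : Matrix (Fin 2) (Fin 2) ℤ) * (sc.1 * 1)
        have h5 : ((tpow (M * q) t : SL(2, ℤ)) : Matrix (Fin 2) (Fin 2) ℤ) = !![1, t; 0, 1] :=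
          gam_tpow hL t
        rw [h5, hsc, lo_val, twRep_val, twRep_val]
        generalize (j.val : ℤ) = w
        generalize ((u : ZMod q).val : ℤ) = v at ht ⊢
        generalize ((u' : ZMod q).val : ℤ) = v' at ht ⊢
        ext a b
        fin_cases a <;> fin_cases b <;> simp [Matrix.mul_apply, Fin.sum_univ_two]
        · linear_combination ((q : ℤ) * M * q * w) * ht
        · linear_combination ((q : ℤ)) * ht
        · ring
      · rw [hα2]
        change _ = (iT hL χ (tpow (M * q) t * lo (M * q) (j.val : ℤ))).2 *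
          (1 * (χ u * (χ u')⁻¹))
        rw [iT_snd hL χ _ 1 (by
          change _ = (((((tpow (M * q) t : SL(2, ℤ)) : Matrix (Fin 2) (Fin 2) ℤ) *
            ((lo (M * q) (j.val : ℤ) : SL(2, ℤ)) : Matrix (Fin 2) (Fin 2) ℤ)) 0 0 : ℤ) : ZMod q)
          have h5 : ((tpow (M * q) t : SL(2, ℤ)) : Matrix (Fin 2) (Fin 2) ℤ) = !![1, t; 0, 1] :=
            gam_tpow hL t
          rw [h5, lo_val]
          simp [Matrix.mul_apply, Fin.sum_univ_two]), map_one, one_pow, one_mul, one_mul]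
    · set w : (ZMod q)ˣ := Units.mk0 _ h with hw
      have hwv : (w : ZMod q) = (u : ZMod q) + u' := rfl
      have h1 : eMap M ((u, u'), j) = some ((((w : ZMod q))⁻¹ - 1) / M + j) := by
        unfold eMap; rw [if_neg h]; rfl
      have h2 : rMap χ (u, u') = χ u * (χ u')⁻¹ * ((χ w) ^ 2)⁻¹ := by
        unfold rMap; rw [dif_neg h]
      obtain ⟨t, ht⟩ : (q : ℤ) ∣ ((u : ZMod q).val : ℤ) + ((u' : ZMod q).val : ℤ) -
          ((w : ZMod q).val : ℤ) := by
        rw [← ZMod.intCast_zmod_eq_zero_iff_dvd]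
        push_cast
        rw [ZMod.natCast_zmod_val, ZMod.natCast_zmod_val, ZMod.natCast_zmod_val, hwv, sub_self]
      obtain ⟨δ, hδ, hδ2⟩ := tr_core (N := N) hq hqN w j
        ((((w : ZMod q)⁻¹ - 1) / M) + j) (by
        have hu : (w : ZMod q) ≠ 0 := w.ne_zero
        field_simp
        ring)
      refine ⟨tpow (M * q) t * δ, ?_⟩
      rw [h1, h2]
      apply Prod.ext
      · apply Subtype.ext
        rw [hα]
        change _ = ((tpow (M * q) t : SL(2, ℤ)) : Matrix (Fin 2) (Fin 2) ℤ) *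
          ((δ : SL(2, ℤ)) : Matrix (Fin 2) (Fin 2) ℤ) * (((twRep N hq hqN 0).1 *
            (twRep N hq hqN 1).1 * ((lo (M * q) _ : SL(2, ℤ)) : Matrix (Fin 2) (Fin 2) ℤ)) * 1)
        have h5 : ((tpow (M * q) t : SL(2, ℤ)) : Matrix (Fin 2) (Fin 2) ℤ) = !![1, t; 0, 1] :=
          gam_tpow hL t
        have h0 : (twRep N hq hqN 0).1 = (q : ℤ) • (1 : Matrix (Fin 2) (Fin 2) ℤ) := by
          rw [twRep_val, ZMod.val_zero]
          ext i j
          fin_cases i <;> fin_cases j <;> simp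
        rw [mul_one, h5, h0, smul_mul_assoc, smul_mul_assoc, mul_smul_comm, one_mul,
          mul_assoc !![1, t; 0, 1]]
        refine Eq.trans ?_ (congrArg (fun z => (q : ℤ) • (!![1, t; 0, 1] * z)) hδ)
        rw [twRep_val, twRep_val, twRep_val, lo_val]
        generalize (j.val : ℤ) = x
        generalize ((u : ZMod q).val : ℤ) = v at ht ⊢
        generalize ((u' : ZMod q).val : ℤ) = v' at ht ⊢
        generalize ((w : ZMod q).val : ℤ) = v'' at ht ⊢
        ext a b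
        fin_cases a <;> fin_cases b <;> simp [Matrix.mul_apply, Fin.sum_univ_two]
        · linear_combination ((q : ℤ) * M * q * x) * ht
        · linear_combination ((q : ℤ)) * ht
        · ring
      · rw [hα2]
        change _ = (iT hL χ (tpow (M * q) t * δ)).2 * (1 * (χ u * (χ u')⁻¹ * ((χ w) ^ 2)⁻¹))
        rw [iT_snd hL χ _ w (by
          rw [← hδ2, aU_val]
          change _ = (((((tpow (M * q) t : SL(2, ℤ)) : Matrix (Fin 2) (Fin 2) ℤ) *
            ((δ : SL(2, ℤ)) : Matrix (Fin 2) (Fin 2) ℤ)) 0 0 : ℤ) : ZMod q)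
          have h5 : ((tpow (M * q) t : SL(2, ℤ)) : Matrix (Fin 2) (Fin 2) ℤ) = !![1, t; 0, 1] :=
            gam_tpow hL t
          have h6 : (((δ : SL(2, ℤ)) 1 0 : ℤ) : ZMod q) = 0 := by
            rw [ZMod.intCast_zmod_eq_zero_iff_dvd]
            exact (Int.natCast_dvd_natCast.mpr (dvd_mul_left q M)).trans (dvd_c δ)
          rw [h5, Matrix.mul_apply, Fin.sum_univ_two]
          simp [h6]), one_mul]
        rw [mul_comm ((χ w) ^ 2), inv_mul_cancel_right]
  · rintro ⟨⟩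
    refine ⟨1, ?_⟩
    rw [map_one, one_mul]
    change (sc, 1) = (sc * 1, 1 * 1)
    rw [mul_one, mul_one]
  · rintro (_ | k)
    · refine Eq.trans (sum_none (M := M) χ) ?_
      have h1 : Fintype.card (scFam hL χ sc hs).J = 1 := Fintype.card_unit
      simp [h1]
    · refine Eq.trans (sum_some (M := M) χ hχ2 k) ?_
      simp

/-- the scalar matrix `q²` in `DN N` -/
def scq (hq : q.Prime) (hqN : ¬ q ∣ N) : DN N :=
  ut N (q * q) 0 (q * q) (Nat.mul_pos hq.pos hq.pos) (Nat.mul_pos hq.pos hq.pos)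
    (((Nat.Prime.coprime_iff_not_dvd hq).mpr hqN).mul_left
      ((Nat.Prime.coprime_iff_not_dvd hq).mpr hqN))

lemma scq_val (hq : q.Prime) (hqN : ¬ q ∣ N) :
    (scq hq hqN).1 = !![(q : ℤ) * q, 0; 0, q * q] := by
  change !![(((q * q : ℕ)) : ℤ), 0; 0, (((q * q : ℕ)) : ℤ)] = _
  push_cast
  rfl

lemma scq_comm (hq : q.Prime) (hqN : ¬ q ∣ N) (t : DN N) : scq hq hqN * t = t * scq hq hqN := by
  apply Subtype.ext
  change (scq hq hqN).1 * t.1 = t.1 * (scq hq hqN).1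
  have h : (scq hq hqN).1 = ((q : ℤ) * q) • (1 : Matrix (Fin 2) (Fin 2) ℤ) := by
    rw [scq_val]
    ext i j
    fin_cases i <;> fin_cases j <;> simp
  rw [h, mul_smul_comm, smul_mul_assoc, mul_one, one_mul]

/-- **Injectivity of the twist**: `q (q - 1)` is a unit, `χ² ≠ 1` and the scalar matrix `q²`
acts by a unit. -/
theorem tw_injective (hqM : ¬ q ∣ M) (hM : 0 < M) [NeZero q]
    (hχ2 : ∑ u, ((((χ u) ^ 2)⁻¹ : Rˣ) : R) = 0) (hu : IsUnit (((q - 1 : ℕ) : R) * q))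
    (hL : N * q ∣ M * q) {L' : ℕ} (hLe : L' = M * q * q) (hNL' : N ∣ L')
    (hLL' : M * q * q ∣ L') (κ : Rˣ) (hκ : ∀ v, slash ρ (scq hq hqN) v = (κ : R) • v) :
    Function.Injective (tw hq hqN χ ρ hL hNL' hLL') := by
  have : Fact q.Prime := ⟨hq⟩
  rw [injective_iff_map_eq_zero]
  intro x hx
  have hNL2 : N * q ∣ L' := hLe ▸ (hL.mul_right q)
  have hqq : q * q ∣ L' := hLe ▸ (Nat.mul_dvd_mul_right (dvd_mul_left q M) q)
  have h1 : (twFam hq hqN χ hL hNL' hLL').opH (wrho ρ) (eT χ ρ hL x) = 0 := by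
    rw [← eF_tw, hx, map_zero]
  have h2 : (((twFam hq hqN χ hL hNL' hLL').comp (tbFam hq hqN χ hNL' hNL2 hqq)).comp
      (famT χ (ctrFam hNL2 hL hLe (Nat.mul_pos hM hq.pos) hq.pos (dvd_mul_left q M)))).opH
        (wrho ρ) (eT χ ρ hL x) = 0 := by
    rw [HFam.opH_comp, HFam.opH_comp, h1, map_zero, map_zero]
  rw [total_opH χ ρ hq hqN hqM hM hχ2 hL hLe hNL' hNL2 hLL' hqq (scq hq hqN) (scq_val hq hqN)
    (scq_comm hq hqN), LinearMap.smul_apply, scFam_opH χ ρ hL _ _ (κ : R) hκ, smul_smul] at h2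
  have h3 : IsUnit (((q - 1 : ℕ) : R) * q * ((χ (-1) : Rˣ) : R) * (κ : R)) :=
    (hu.mul (χ (-1)).isUnit).mul κ.isUnit
  have h4 : eT χ ρ hL x = 0 := by
    obtain ⟨v, hv⟩ := h3
    rw [← hv] at h2
    have h5 := congrArg (fun y => ((v⁻¹ : Rˣ) : R) • y) h2
    simp only [smul_smul, Units.inv_mul, one_smul, smul_zero] at h5
    exact h5
  exact (eT χ ρ hL).injective (h4.trans (map_zero _).symm)

end Inj

end Fermat.Agent.H21J
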