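import Fermat.Agent.H37TrFam

/-!
# Relations between restriction, trace, Atkin-Lehner and Hecke operators on `H¹(Γ₀(M), V)`
-/

set_option autoImplicit false

open CongruenceSubgroup Matrix.SpecialLinearGroup
open scoped MatrixGroups

namespace Fermat.Agent.H37.Tr

open Fermat.Agent.H70.Coh

variable {N M q : ℕ} {R : Type*} [CommRing R] {V : Type*} [AddCommGroup V] [Module R V]
  {ρ : DN N →* (Module.End R V)ᵐᵒᵖ}

/-- The scalar matrix `n` acts trivially on the coefficients. -/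
def ScalTriv (ρ : DN N →* (Module.End R V)ᵐᵒᵖ) {n : ℕ} (hn : 0 < n) (hnN : n.Coprime N) : Prop :=
  ∀ v, slash ρ (scal N hn hnN) v = v

theorem scalFam_opH {n : ℕ} (hNM : N ∣ M) (hn : 0 < n) (hnN : n.Coprime N)
    (hs : ScalTriv ρ hn hnN) (x : H1 (gam N M hNM) ρ) :
    (scalFam hNM hn hnN).opH ρ x = x := by
  obtain ⟨c, rfl⟩ := Submodule.mkQ_surjective _ x
  change H1.mk _ ρ ((scalFam hNM hn hnN).op ρ c) = H1.mk _ ρ c
  congr 1
  apply Subtype.ext
  funext γ
  rw [HFam.op_apply_of_eq (scalFam hNM hn hnN) c γ 1 (fun _ => γ) (fun _ => scal_comm hn hnN _)]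
  change ∑ i : Unit, slash ρ (scal N hn hnN) (c.1 γ) = c.1 γ
  rw [hs]
  simp

/-- if all members of a family lie in the class of `1`, the operator is multiplication by the
number of members -/
theorem opH_eq_card {S : Type*} [Monoid S] {Γ : Type*} [Group Γ] {ι : Γ →* S}
    {ρ : S →* (Module.End R V)ᵐᵒᵖ} [HFam.IsFreeOn ι] (h : HFam ι ι)
    (he : ∀ i, ∃ γ : Γ, h.α i = ι γ) (x : H1 ι ρ) :
    h.opH ρ x = (Fintype.card h.J) • x := by
  let h' : HFam ι ι :=
    { J := h.J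
      fin := h.fin
      α := fun _ => 1
      inv := fun γ => ⟨1, fun _ => γ, fun _ => by rw [one_mul, mul_one]⟩ }
  have h1 : h.opH ρ = h'.opH ρ := by
    refine HFam.opH_congr h h' (Equiv.refl _) fun i => ?_
    obtain ⟨γ, hγ⟩ := he i
    exact ⟨γ, by rw [hγ]; exact (mul_one _).symm⟩
  rw [h1]
  obtain ⟨c, rfl⟩ := Submodule.mkQ_surjective _ x
  change H1.mk _ ρ (h'.op ρ c) = (Fintype.card h.J) • H1.mk _ ρ c
  rw [← map_nsmul]
  congr 1
  apply Subtype.ext
  funext γ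
  rw [HFam.op_apply_of_eq h' c γ 1 (fun _ => γ) (fun _ => by
    change (1 : S) * ι γ = ι γ * 1
    rw [one_mul, mul_one])]
  change ∑ i : h.J, slash ρ (1 : S) (c.1 γ) = (Fintype.card h.J) • c.1 γ
  rw [slash_one, Finset.sum_const, Finset.card_univ]

/-- `w² = 1` -/
theorem wFam_wFam (hNM : N ∣ M) (hq : 0 < q) (hqN : q.Coprime N) (w : AL M q)
    (hs : ScalTriv ρ hq hqN) (x : H1 (gam N (M * q) (hNM.mul_right q)) ρ) :
    (wFam hNM hq w).opH ρ ((wFam hNM hq w).opH ρ x) = x := by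
  rw [← HFam.opH_comp]
  have h1 : ((wFam hNM hq w).comp (wFam hNM hq w)).opH ρ =
      (scalFam (hNM.mul_right q) hq hqN).opH ρ := by
    refine HFam.opH_congr _ _ ⟨fun _ => (), fun _ => ((), ()), fun _ => rfl, fun _ => rfl⟩
      fun _ => ?_
    refine ⟨⟨⟨!![q * w.x ^ 2 + M * w.y * w.z, w.y * (w.x + w.t);
      M * q * (w.z * (w.x + w.t)), M * w.y * w.z + q * w.t ^ 2], ?_⟩, ?_⟩, ?_⟩
    · rw [Matrix.det_fin_two_of]
      have := w.eq
      linear_combination (q * w.x * w.t - M * w.y * w.z + 1) * this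
    · refine Gamma0_mem.mpr ((ZMod.intCast_zmod_eq_zero_iff_dvd _ _).mpr ?_)
      change ((M * q : ℕ) : ℤ) ∣ (M : ℤ) * q * _
      push_cast
      exact dvd_mul_right _ _
    · apply dn_ext
      change (w.mat hNM hq).1 * (w.mat hNM hq).1 = _ * (scal N hq hqN).1
      rw [scal_val, AL.mat_val]
      change _ = !![q * w.x ^ 2 + M * w.y * w.z, w.y * (w.x + w.t);
        M * q * (w.z * (w.x + w.t)), M * w.y * w.z + q * w.t ^ 2] *
          ((q : ℤ) • (1 : Matrix (Fin 2) (Fin 2) ℤ))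
      rw [mul_smul_comm, mul_one]
      ext i j
      fin_cases i <;> fin_cases j <;> simp [Matrix.mul_apply, Fin.sum_univ_two] <;> ring
  rw [h1, scalFam_opH _ _ _ hs]

/-- the family `g₀ T^j` on `Γ₀(M q)` -/
def gFam (w : AL M q) (hNM : N ∣ M) (hq : q.Prime) (hqM : ¬ q ∣ M) :
    HFam (gam N (M * q) (hNM.mul_right q)) (gam N (M * q) (hNM.mul_right q)) :=
  haveI : NeZero q := ⟨hq.ne_zero⟩
  ofCover (ZMod q) (fun j => gam N M hNM (trRep w (some j)))
    (by
      intro j j' γ h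
      have h1 := trRep_irr w hq (some j) (some j') γ (by
        have h1 := congrArg Subtype.val h
        change (gam N M hNM (trRep w (some j))).1 =
          (gam N (M * q) (hNM.mul_right q) γ).1 * (gam N M hNM (trRep w (some j'))).1 at h1
        rw [gam_val, gam_val, gam_val] at h1
        apply Subtype.ext
        rw [h1]
        rfl)
      exact Option.some_injective _ h1)
    (by
      intro γ' j
      obtain ⟨k, hk⟩ := exists_rep w hq hqM
        (((trRep w (some j) : Gamma0 M) : SL(2, ℤ)) * (γ' : SL(2, ℤ)) :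
          Matrix (Fin 2) (Fin 2) ℤ)
        (by
          rw [Matrix.mul_apply, Fin.sum_univ_two]
          refine dvd_add ((gamma0_dvd _).mul_right _) (Dvd.dvd.mul_left ?_ _)
          exact (Int.natCast_dvd_natCast.mpr (dvd_mul_right M q)).trans (gamma0_dvd γ'))
      have hmem : ((trRep w (some j) : Gamma0 M) : SL(2, ℤ)) * (γ' : SL(2, ℤ)) *
          (((trRep w k)⁻¹ : Gamma0 M) : SL(2, ℤ)) ∈ Gamma0 (M * q) := by
        rw [Gamma0_mem, ZMod.intCast_zmod_eq_zero_iff_dvd]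
        exact hk
      rcases k with _ | k
      · exfalso
        have h1 : ((trRep w (some j) : Gamma0 M) : SL(2, ℤ)) ∈ Gamma0 (M * q) := by
          have h2 : (((trRep w none)⁻¹ : Gamma0 M) : SL(2, ℤ)) = 1 := by
            change (((1 : Gamma0 M)⁻¹ : Gamma0 M) : SL(2, ℤ)) = 1
            simp
          rw [h2, mul_one] at hmem
          exact ((Gamma0 (M * q)).mul_mem_cancel_right γ'.2).mp hmem
        have h3 := trRep_irr w hq (some j) none ⟨_, h1⟩ (by
          change _ = _ * (((1 : Gamma0 M)) : SL(2, ℤ))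
          simp)
        exact absurd h3 (by simp)
      · refine ⟨k, ⟨_, hmem⟩, ?_⟩
        apply dn_ext
        change (gam N M hNM (trRep w (some j))).1 * (gam N (M * q) (hNM.mul_right q) γ').1 =
          (gam N (M * q) (hNM.mul_right q) _).1 * (gam N M hNM (trRep w (some k))).1
        rw [gam_val, gam_val, gam_val, gam_val]
        have h4 : ((trRep w (some j) : Gamma0 M) : SL(2, ℤ)) * (γ' : SL(2, ℤ)) =
          (((trRep w (some j) : Gamma0 M) : SL(2, ℤ)) * (γ' : SL(2, ℤ)) *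
            (((trRep w (some k))⁻¹ : Gamma0 M) : SL(2, ℤ))) *
            ((trRep w (some k) : Gamma0 M) : SL(2, ℤ)) := by
          rw [InvMemClass.coe_inv, inv_mul_cancel_right]
        exact congrArg (fun g : SL(2, ℤ) => (g : Matrix (Fin 2) (Fin 2) ℤ)) h4)

/-- `w` followed by `U_q` is the family `g₀ T^j` (up to the scalar `q`). -/
theorem uFam_wFam (w : AL M q) (hNM : N ∣ M) (hq : q.Prime) (hqM : ¬ q ∣ M) (hqN : q.Coprime N)
    (hs : ScalTriv ρ hq.pos hqN) (x : H1 (gam N (M * q) (hNM.mul_right q)) ρ) :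
    (uFam (hNM.mul_right q) hq.pos (dvd_mul_left q M)).opH ρ ((wFam hNM hq.pos w).opH ρ x) =
      (gFam w hNM hq hqM).opH ρ x := by
  have i1 : NeZero q := ⟨hq.ne_zero⟩
  have h1 : ((wFam hNM hq.pos w).comp (uFam (hNM.mul_right q) hq.pos (dvd_mul_left q M))).opH ρ =
      ((scalFam (hNM.mul_right q) hq.pos hqN).comp (gFam w hNM hq hqM)).opH ρ := by
    have key : ∀ j : ZMod q, w.mat hNM hq.pos * uRep N hq.pos j =
        scal N hq.pos hqN * gam N M hNM (trRep w (some j)) := by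
      intro j
      apply dn_ext
      change (w.mat hNM hq.pos).1 * (uRep N hq.pos j).1 =
        (scal N hq.pos hqN).1 * (gam N M hNM (trRep w (some j))).1
      rw [gam_val, trRep_some_val, scal_val, smul_mul_assoc, one_mul, AL.mat_val]
      change _ * !![((1 : ℕ) : ℤ), (j.val : ℤ); 0, (q : ℤ)] = _
      generalize (j.val : ℤ) = v
      ext i k
      fin_cases i <;> fin_cases k <;> simp [Matrix.mul_apply, Fin.sum_univ_two] <;> ring
    refine HFam.opH_congr _ _ (Equiv.refl _) ?_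
    rintro ⟨-, j⟩
    refine ⟨1, ?_⟩
    rw [map_one, one_mul]
    exact key j
  rw [← HFam.opH_comp, h1, HFam.opH_comp, scalFam_opH _ _ _ hs]

/-- **`res ∘ tr = 1 + U_q w`.** -/
theorem resFam_trFam (w : AL M q) (hNM : N ∣ M) (hq : q.Prime) (hqM : ¬ q ∣ M)
    (hqN : q.Coprime N) (hs : ScalTriv ρ hq.pos hqN)
    (x : H1 (gam N (M * q) (hNM.mul_right q)) ρ) :
    (resFam hNM (dvd_mul_right M q)).opH ρ ((trFam w hNM hq hqM).opH ρ x) =
      x + (uFam (hNM.mul_right q) hq.pos (dvd_mul_left q M)).opH ρ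
        ((wFam hNM hq.pos w).opH ρ x) := by
  have i1 : NeZero q := ⟨hq.ne_zero⟩
  rw [uFam_wFam w hNM hq hqM hqN hs, ← HFam.opH_comp]
  have h1 : ((trFam w hNM hq hqM).comp (resFam hNM (dvd_mul_right M q))).opH ρ =
      (addFam (idFam _) (gFam w hNM hq hqM)).opH ρ := by
    let e : Option (ZMod q) × Unit ≃ Unit ⊕ ZMod q :=
      { toFun := fun p => match p.1 with
          | none => Sum.inl ()
          | some j => Sum.inr j
        invFun := fun s => match s with
          | Sum.inl _ => (none, ())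
          | Sum.inr j => (some j, ())
        left_inv := by
          rintro ⟨_ | j, ⟨⟩⟩ <;> rfl
        right_inv := by
          rintro (_ | j) <;> rfl }
    refine HFam.opH_congr _ _ e ?_
    rintro ⟨_ | j, ⟨⟩⟩
    · refine ⟨1, ?_⟩
      rw [map_one, one_mul]
      change gam N M hNM 1 * 1 = 1
      rw [map_one, mul_one]
    · refine ⟨1, ?_⟩
      rw [map_one, one_mul]
      change gam N M hNM (trRep w (some j)) * 1 = gam N M hNM (trRep w (some j))
      rw [mul_one]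
  rw [h1, addFam_opH, idFam_opH]

/-- **`tr ∘ res = q + 1`.** -/
theorem trFam_resFam (w : AL M q) (hNM : N ∣ M) (hq : q.Prime) (hqM : ¬ q ∣ M)
    (x : H1 (gam N M hNM) ρ) :
    (trFam w hNM hq hqM).opH ρ ((resFam hNM (dvd_mul_right M q)).opH ρ x) = (q + 1) • x := by
  have i1 : NeZero q := ⟨hq.ne_zero⟩
  rw [← HFam.opH_comp, opH_eq_card]
  · congr 1
    have : Fintype.card ((resFam hNM (dvd_mul_right M q)).comp (trFam w hNM hq hqM)).J =
      Fintype.card (Unit × Option (ZMod q)) := Fintype.card_congr (Equiv.refl _)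
    rw [this, Fintype.card_prod, Fintype.card_option, ZMod.card]
    simp
  · rintro ⟨⟨⟩, j⟩
    refine ⟨trRep w j, ?_⟩
    change 1 * gam N M hNM (trRep w j) = _
    rw [one_mul]

/-- `T_ℓ` commutes with the restriction. -/
theorem tFam_resFam {M' ℓ : ℕ} (hNM : N ∣ M) (hMM' : M ∣ M') (hℓ : ℓ.Prime) (hℓM' : ¬ ℓ ∣ M')
    (x : H1 (gam N M hNM) ρ) :
    (resFam hNM hMM').opH ρ ((tFam hNM hℓ (fun h => hℓM' (h.trans hMM'))).opH ρ x) =
      (tFam (hNM.trans hMM') hℓ hℓM').opH ρ ((resFam hNM hMM').opH ρ x) := by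
  rw [← HFam.opH_comp, ← HFam.opH_comp]
  apply LinearMap.congr_fun
  refine HFam.opH_congr _ _ (Equiv.prodComm _ _) ?_
  rintro ⟨j, ⟨⟩⟩
  refine ⟨1, ?_⟩
  rw [map_one, one_mul]
  change tRep hNM hℓ (fun h => hℓM' (h.trans hMM')) j * 1 = 1 * tRep (hNM.trans hMM') hℓ hℓM' j
  rw [mul_one, one_mul]
  rcases j with _ | j <;> rfl

/-- `T_ℓ` commutes with `w`. -/
theorem tFam_wFam {ℓ : ℕ} (w : AL M q) (hNM : N ∣ M) (hq : 0 < q) (hℓ : ℓ.Prime)
    (hℓM : ¬ ℓ ∣ M * q) (x : H1 (gam N (M * q) (hNM.mul_right q)) ρ) :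
    (wFam hNM hq w).opH ρ ((tFam (hNM.mul_right q) hℓ hℓM).opH ρ x) =
      (tFam (hNM.mul_right q) hℓ hℓM).opH ρ ((wFam hNM hq w).opH ρ x) := by
  rw [← HFam.opH_comp, ← HFam.opH_comp]
  apply LinearMap.congr_fun
  symm
  refine HFam.opH_congr_of_card _ _ ?_ ?_ ?_
  · exact Fintype.card_congr (Equiv.prodComm _ _)
  · rintro ⟨⟨⟩, j⟩
    -- `W t_j = A W` with `A` integral
    change ∃ (k : OnePoint (ZMod ℓ) × Unit) (γ : Gamma0 (M * q)),
      w.mat hNM hq * tRep (hNM.mul_right q) hℓ hℓM j =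
        gam N (M * q) (hNM.mul_right q) γ * (tRep (hNM.mul_right q) hℓ hℓM k.1 * w.mat hNM hq)
    obtain ⟨a, b, d, hB⟩ : ∃ a b d : ℤ, (tRep (hNM.mul_right q) hℓ hℓM j).1 = !![a, b; 0, d] := by
      rcases j with _ | j
      · exact ⟨_, _, _, rfl⟩
      · exact ⟨_, _, _, rfl⟩
    have hadℓ : a * d = ℓ := by
      have h1 : (tRep (hNM.mul_right q) hℓ hℓM j).1.det = ℓ := by
        rcases j with _ | j
        · change (!![(ℓ : ℤ), 0; 0, ((1 : ℕ) : ℤ)]).det = ℓ
          rw [Matrix.det_fin_two_of]; simp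
        · change (!![((1 : ℕ) : ℤ), (j.val : ℤ); 0, (ℓ : ℤ)]).det = ℓ
          rw [Matrix.det_fin_two_of]; simp
      rw [hB, Matrix.det_fin_two_of] at h1
      linarith
    set A : Matrix (Fin 2) (Fin 2) ℤ := !![q * (w.x * a) * w.t - (q * w.x * b + w.y * d) * M * w.z,
      q * w.x ^ 2 * b + w.x * w.y * (d - a);
      M * q * (w.z * w.t * (a - d) - M * w.z ^ 2 * b),
      -M * (w.z * a) * w.y + q * (M * w.z * b + w.t * d) * w.x] with hA
    have hAdet : A.det = ℓ := by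
      rw [hA, Matrix.det_fin_two_of]
      have e : (q * (w.x * a) * w.t - (q * w.x * b + w.y * d) * M * w.z) *
        (-M * (w.z * a) * w.y + q * (M * w.z * b + w.t * d) * w.x) -
        (q * w.x ^ 2 * b + w.x * w.y * (d - a)) *
        (M * q * (w.z * w.t * (a - d) - M * w.z ^ 2 * b)) =
        (q * w.x * w.t - M * w.y * w.z) ^ 2 * (a * d) := by ring
      rw [e, w.eq, hadℓ]
      ring
    obtain ⟨k, γ, hk⟩ := exists_decomp (hNM.mul_right q) hℓ hℓM A hAdet (by
      change ((M * q : ℕ) : ℤ) ∣ M * q * _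
      push_cast
      exact dvd_mul_right _ _)
    refine ⟨(k, ()), γ, ?_⟩
    rw [← mul_assoc]
    apply dn_ext
    change (w.mat hNM hq).1 * (tRep (hNM.mul_right q) hℓ hℓM j).1 =
      (gam N (M * q) (hNM.mul_right q) γ).1 * (tRep (hNM.mul_right q) hℓ hℓM k).1 *
        (w.mat hNM hq).1
    rw [gam_val, ← hk, hB, AL.mat_val, hA]
    have := w.eq
    ext i j
    fin_cases i <;> fin_cases j <;> simp [Matrix.mul_apply, Fin.sum_univ_two]
    · linear_combination (-(q : ℤ) * (w.x * a)) * this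
    · linear_combination (-(q * w.x * b + w.y * d)) * this
    · linear_combination (-(q : ℤ) * M * (w.z * a)) * this
    · linear_combination (-(q : ℤ) * (M * w.z * b + w.t * d)) * this
  · rintro ⟨⟨⟩, j⟩ ⟨⟨⟩, j'⟩ γ h
    change w.mat hNM hq * tRep (hNM.mul_right q) hℓ hℓM j =
      gam N (M * q) (hNM.mul_right q) γ * (w.mat hNM hq * tRep (hNM.mul_right q) hℓ hℓM j') at h
    obtain ⟨γ', hγ'⟩ := al_conj' hNM hq w γ
    rw [← mul_assoc, hγ', mul_assoc] at h
    have h1 := dn_mul_left_cancel h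
    rw [irr_tFam hℓ hℓM j j' γ' h1]

/-- `T_ℓ` commutes with the trace. -/
theorem tFam_trFam {ℓ : ℕ} (w : AL M q) (hNM : N ∣ M) (hq : q.Prime) (hqM : ¬ q ∣ M)
    (hℓ : ℓ.Prime) (hℓM : ¬ ℓ ∣ M * q) (x : H1 (gam N (M * q) (hNM.mul_right q)) ρ) :
    (trFam w hNM hq hqM).opH ρ ((tFam (hNM.mul_right q) hℓ hℓM).opH ρ x) =
      (tFam hNM hℓ (fun h => hℓM (h.mul_right q))).opH ρ ((trFam w hNM hq hqM).opH ρ x) := by
  have i1 : NeZero q := ⟨hq.ne_zero⟩
  rw [← HFam.opH_comp, ← HFam.opH_comp]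
  apply LinearMap.congr_fun
  symm
  refine HFam.opH_congr_of_card _ _ ?_ ?_ ?_
  · exact Fintype.card_congr (Equiv.prodComm _ _)
  · rintro ⟨i, j⟩
    change ∃ (k : OnePoint (ZMod ℓ) × Option (ZMod q)) (γ : Gamma0 (M * q)),
      gam N M hNM (trRep w i) * tRep hNM hℓ (fun h => hℓM (h.mul_right q)) j =
        gam N (M * q) (hNM.mul_right q) γ *
          (tRep (hNM.mul_right q) hℓ hℓM k.1 * gam N M hNM (trRep w k.2))
    set A : Matrix (Fin 2) (Fin 2) ℤ :=
      ((gam N M hNM (trRep w i) * tRep hNM hℓ (fun h => hℓM (h.mul_right q)) j : DN N)).1 with hA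
    have hjdet : (tRep hNM hℓ (fun h => hℓM (h.mul_right q)) j).1.det = ℓ := by
      rcases j with _ | j
      · change (!![(ℓ : ℤ), 0; 0, ((1 : ℕ) : ℤ)]).det = ℓ
        rw [Matrix.det_fin_two_of]; simp
      · change (!![((1 : ℕ) : ℤ), (j.val : ℤ); 0, (ℓ : ℤ)]).det = ℓ
        rw [Matrix.det_fin_two_of]; simp
    have hAdet : A.det = ℓ := by
      rw [hA]
      change ((gam N M hNM (trRep w i)).1 * (tRep hNM hℓ _ j).1).det = ℓ
      rw [Matrix.det_mul, hjdet, gam_val, Matrix.SpecialLinearGroup.det_coe, one_mul]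
    have hMA : (M : ℤ) ∣ A 1 0 := by
      rw [hA]
      change (M : ℤ) ∣ ((gam N M hNM (trRep w i)).1 * (tRep hNM hℓ _ j).1) 1 0
      rw [Matrix.mul_apply, Fin.sum_univ_two]
      have hj0 : (tRep hNM hℓ (fun h => hℓM (h.mul_right q)) j).1 1 0 = 0 := by
        rcases j with _ | j <;> rfl
      rw [hj0, mul_zero, add_zero, gam_val]
      exact (gamma0_dvd _).mul_right _
    obtain ⟨k, hk⟩ := exists_rep w hq hqM A hMA
    obtain ⟨j', γ, hγ⟩ := exists_decomp (hNM.mul_right q) hℓ hℓM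
      (A * (((trRep w k)⁻¹ : Gamma0 M) : SL(2, ℤ)) : Matrix (Fin 2) (Fin 2) ℤ) (by
        rw [Matrix.det_mul, hAdet, Matrix.SpecialLinearGroup.det_coe, mul_one]) hk
    refine ⟨(j', k), γ, ?_⟩
    apply dn_ext
    rw [← hA, ← mul_assoc]
    change A = (gam N (M * q) (hNM.mul_right q) γ).1 * (tRep (hNM.mul_right q) hℓ hℓM j').1 *
      (gam N M hNM (trRep w k)).1
    rw [gam_val, ← hγ, gam_val, mul_assoc, ← Matrix.SpecialLinearGroup.coe_mul,
      InvMemClass.coe_inv, inv_mul_cancel, Matrix.SpecialLinearGroup.coe_one, mul_one]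
  · rintro ⟨i, j⟩ ⟨i', j'⟩ γ h
    change gam N M hNM (trRep w i) * tRep hNM hℓ (fun h => hℓM (h.mul_right q)) j =
      gam N (M * q) (hNM.mul_right q) γ *
        (gam N M hNM (trRep w i') * tRep hNM hℓ (fun h => hℓM (h.mul_right q)) j') at h
    obtain ⟨γ', hγ'⟩ : ∃ γ' : Gamma0 M, gam N (M * q) (hNM.mul_right q) γ = gam N M hNM γ' :=
      ⟨⟨(γ : SL(2, ℤ)), by
        rw [Gamma0_mem, ZMod.intCast_zmod_eq_zero_iff_dvd]
        exact (Int.natCast_dvd_natCast.mpr (dvd_mul_right M q)).trans (gamma0_dvd γ)⟩,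
        gam_congr _ _ _ _ rfl⟩
    have hj : j = j' := by
      refine irr_tFam hℓ (fun h => hℓM (h.mul_right q)) j j' ((trRep w i)⁻¹ * γ' * trRep w i') ?_
      change tRep hNM hℓ (fun h => hℓM (h.mul_right q)) j = _
      have h2 : gam N M hNM (trRep w i) * tRep hNM hℓ (fun h => hℓM (h.mul_right q)) j =
        gam N M hNM (trRep w i) * (gam N M hNM ((trRep w i)⁻¹ * γ' * trRep w i') *
          tRep hNM hℓ (fun h => hℓM (h.mul_right q)) j') := by
        rw [h, hγ', ← mul_assoc, ← mul_assoc, ← map_mul, ← map_mul, mul_assoc ((trRep w i)⁻¹),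
          mul_inv_cancel_left]
      exact dn_mul_left_cancel h2
    subst hj
    rw [← mul_assoc] at h
    rw [trFam_irr w hNM hq hqM i i' γ (dn_mul_right_cancel h)]

end Fermat.Agent.H37.Tr
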