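import Fermat.Agent.H21JEq
import Fermat.Agent.H37TrRel
/-!
# The twist is `q`-new: `U_q (tw x) = 0`, `tr (tw x) = 0`, `U_q (w (tw x)) = 0`.
-/
set_option autoImplicit false

open CongruenceSubgroup Matrix.SpecialLinearGroup
open scoped MatrixGroups
open Fermat.Agent.H70.Coh Fermat.Agent.H37.Tr

noncomputable section

namespace Fermat.Agent.H21J

lemma sum_fiber_prod {A B K R : Type*} [Fintype A] [Fintype B] [DecidableEq K] [AddCommMonoid R]
    (e : A × B → K) (he : ∀ a, Function.Bijective fun b => e (a, b)) (r : A → R) (k : K) :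
    ∑ p with e p = k, r p.1 = ∑ a, r a := by
  classical
  rw [Finset.sum_filter, Fintype.sum_prod_type]
  refine Finset.sum_congr rfl fun a _ => ?_
  obtain ⟨b, hb⟩ := (he a).2 k
  rw [Finset.sum_eq_single b]
  · rw [if_pos hb]
  · intro b' _ hb'
    rw [if_neg]
    intro h
    exact hb' ((he a).1 (h.trans hb.symm))
  · intro h
    exact absurd (Finset.mem_univ _) h

section New

variable {R : Type*} [CommRing R] {V : Type*} [AddCommGroup V] [Module R V]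
  {N q : ℕ} {L : ℕ} {hL : N * q ∣ L} {χ : (ZMod q)ˣ →* Rˣ}
  {ρ : DN N →* (Module.End R V)ᵐᵒᵖ} (hq : q.Prime) (hqN : ¬ q ∣ N) {L' : ℕ} (hL' : N ∣ L')
  (hLL' : L * q ∣ L')

variable (χ ρ) in
/-- The twist is killed by any family of the form `(1, j; 0, q)`. -/
theorem u_tw [NeZero q] (hχ : ∑ u, ((χ u : Rˣ) : R) = 0) {L'' : ℕ} {hL'' : N ∣ L''}
    (s : HFam (gam N L' hL') (gam N L'' hL'')) (es : s.J ≃ ZMod q)
    (hs : ∀ i, s.α i = uRep N hq.pos (es i)) (x : H1 (gam (N * q) L hL) (rTw χ ρ)) :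
    s.opH ρ (tw hq hqN χ ρ hL hL' hLL' x) = 0 := by
  apply (eF ρ hL'').injective
  rw [eF_opH, eF_tw, map_zero, ← HFam.opH_comp]
  have key : ((twFam hq hqN χ hL hL' hLL').comp (famF R s)).opH (wrho ρ) = 0 := by
    have hqN' : q.Coprime N := (Nat.Prime.coprime_iff_not_dvd hq).mpr hqN
    refine opH_eq_zero_of_fiber (K := ZMod q) _
      (fun k => (ut N q ((q : ℤ) * (k.val : ℤ)) (q * q) hq.pos (Nat.mul_pos hq.pos hq.pos) hqN', 1))
      (fun p : (ZMod q)ˣ × s.J => (p.1 : ZMod q) + es p.2) (fun p : (ZMod q)ˣ × s.J => χ p.1)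
      ?_ ?_
    · rintro ⟨(u : (ZMod q)ˣ), i⟩
      obtain ⟨t, ht⟩ : (q : ℤ) ∣ ((u : ZMod q).val : ℤ) + ((es i).val : ℤ) -
          (((u : ZMod q) + es i).val : ℤ) := by
        rw [← ZMod.intCast_zmod_eq_zero_iff_dvd]
        push_cast
        rw [ZMod.natCast_zmod_val, ZMod.natCast_zmod_val, ZMod.natCast_zmod_val, sub_self]
      refine ⟨tpow L t, ?_⟩
      apply Prod.ext
      · apply Subtype.ext
        change (twRep N hq hqN (u : ZMod q)).1 * (s.α i).1 = (gam (N * q) L hL (tpow L t)).1 *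
          ((ut N q ((q : ℤ) * (((u : ZMod q) + es i).val : ℤ)) (q * q) hq.pos
            (Nat.mul_pos hq.pos hq.pos) hqN').1 * 1)
        rw [hs, gam_tpow, twRep_val, mul_one, ut_val]
        change _ * !![((1 : ℕ) : ℤ), ((es i).val : ℤ); 0, (q : ℤ)] = _
        generalize (((u : ZMod q) + es i).val : ℤ) = w at ht
        generalize ((u : ZMod q).val : ℤ) = v at ht
        generalize ((es i).val : ℤ) = v' at ht
        ext x y
        fin_cases x <;> fin_cases y <;> simp [Matrix.mul_apply, Fin.sum_univ_two]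
        linear_combination (q : ℤ) * ht
      · change χ u * 1 = (iT hL χ (tpow L t)).2 * (1 * χ u)
        rw [iT_snd hL χ _ 1 (by
          have h5 := congrFun (congrFun (gam_tpow hL t) 0) 0
          change (tpow L t : SL(2, ℤ)) 0 0 = 1 at h5
          rw [h5]; simp), map_one, one_pow, one_mul, one_mul, mul_one]
    · intro k
      have h1 := sum_fiber_prod (fun p : (ZMod q)ˣ × s.J => (p.1 : ZMod q) + es p.2)
        (fun a => (Equiv.bijective (Equiv.addLeft ((a : ZMod q)))).comp es.bijective)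
        (fun a => ((χ a : Rˣ) : R)) k
      rw [← hχ, ← h1]
      rfl
  rw [key]
  rfl

variable (χ ρ) in
/-- **`U_q (tw x) = 0`.** -/
theorem uFam_tw [NeZero q] (hχ : ∑ u, ((χ u : Rˣ) : R) = 0) (hqL' : q ∣ L')
    (x : H1 (gam (N * q) L hL) (rTw χ ρ)) :
    (uFam hL' hq.pos hqL').opH ρ (tw hq hqN χ ρ hL hL' hLL' x) = 0 :=
  u_tw χ ρ hq hqN hL' hLL' hχ _ (Equiv.refl _) (fun _ => rfl) x

end New

section Beta

variable {N q : ℕ}

open P2MW.S_ModularForm_heckeT_slash_eq_self_of_mem_Gamma0.ModularForm in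
/-- the family `(1, j; 0, q)` from `Γ₀(L q)` to `Γ₀(L)` for `q ∣ L` (pushforward along the second
degeneracy map) -/
def betaFam {L L' : ℕ} (hNL' : N ∣ L') (hNL : N ∣ L) (hLL' : L' = L * q) (hq : 0 < q)
    (hqL : q ∣ L) : HFam (gam N L' hNL') (gam N L hNL) where
  J := ZMod q
  fin := by
    have : NeZero q := ⟨hq.ne'⟩
    exact (inferInstance : Fintype (ZMod q))
  α := uRep N hq
  inv := by
    intro γ
    have : NeZero q := ⟨hq.ne'⟩
    have hc : (L : ℤ) ∣ (γ : SL(2, ℤ)) 1 0 :=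
      (ZMod.intCast_zmod_eq_zero_iff_dvd _ _).mp (Gamma0_mem.mp γ.2)
    have hcq : (q : ℤ) ∣ (γ : SL(2, ℤ)) 1 0 := (Int.natCast_dvd_natCast.mpr hqL).trans hc
    choose g hg1 hg2 using fun x => HeckeSlashInvariance.heckeMatrix_mul_of_dvd
      (γ : SL(2, ℤ)) hcq x
    refine ⟨HeckeSlashInvariance.affinePerm (γ : SL(2, ℤ))
        ((ZMod.intCast_zmod_eq_zero_iff_dvd _ _).mpr hcq),
      fun x => ⟨g x, Gamma0_mem.mpr ((ZMod.intCast_zmod_eq_zero_iff_dvd _ _).mpr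
        (by
          rw [hg1 x, hLL', mul_comm L q]
          push_cast
          exact mul_dvd_mul_left _ hc))⟩,
      fun x => ?_⟩
    apply Subtype.ext
    apply int_of_real
    have h1 := congrArg Units.val (hg2 x)
    rw [Units.val_mul, Units.val_mul, ModularForm.val_heckeMatrix hq.ne',
      ModularForm.val_heckeMatrix hq.ne'] at h1
    have e : ∀ y : ZMod q, (uRep N hq y).1.map (Int.cast : ℤ → ℝ) =
        !![(1 : ℝ), ((y.val : ℕ) : ℝ); 0, (q : ℝ)] := by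
      intro y
      change (!![((1 : ℕ) : ℤ), (y.val : ℤ); 0, (q : ℤ)]).map (Int.cast : ℤ → ℝ) = _
      ext i j
      fin_cases i <;> fin_cases j <;> simp
    rw [e, e]
    exact h1

/-- the matrix `(1, 0; L j, 1)` in `Γ₀(L)` -/
def lo (L : ℕ) (j : ℤ) : Gamma0 L :=
  ⟨⟨!![1, 0; L * j, 1], by rw [Matrix.det_fin_two_of]; ring⟩,
    mem_of_dvd (L := L) (by change (L : ℤ) ∣ L * j; exact dvd_mul_right _ _)⟩

lemma lo_val (L : ℕ) (j : ℤ) : ((lo L j : SL(2, ℤ)) : Matrix (Fin 2) (Fin 2) ℤ) =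
    !![1, 0; L * j, 1] := rfl

/-- decomposition of elements of `Γ₀(L)` -/
lemma exists_lo {L : ℕ} [NeZero q] (hqL : q ∣ L) (γ : Gamma0 L) :
    ∃ (k : ZMod q) (δ : Gamma0 (L * q)), ((γ : SL(2, ℤ)) : Matrix (Fin 2) (Fin 2) ℤ) =
      ((δ : SL(2, ℤ)) : Matrix (Fin 2) (Fin 2) ℤ) *
        ((lo L (k.val : ℤ) : SL(2, ℤ)) : Matrix (Fin 2) (Fin 2) ℤ) := by
  obtain ⟨c', hc'⟩ := dvd_c γ
  have hdet := det_eq (γ : SL(2, ℤ))
  set a := (γ : SL(2, ℤ)) 0 0 with ha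
  set b := (γ : SL(2, ℤ)) 0 1 with hb
  set c := (γ : SL(2, ℤ)) 1 0 with hc
  set d := (γ : SL(2, ℤ)) 1 1 with hd
  set k : ZMod q := (c' : ZMod q) * (a : ZMod q) with hk
  have hqc : (c : ZMod q) = 0 := by
    rw [ZMod.intCast_zmod_eq_zero_iff_dvd]
    exact (Int.natCast_dvd_natCast.mpr hqL).trans (dvd_c γ)
  obtain ⟨m, hm⟩ : (q : ℤ) ∣ c' - d * (k.val : ℤ) := by
    rw [← ZMod.intCast_zmod_eq_zero_iff_dvd]
    push_cast
    rw [ZMod.natCast_zmod_val, hk]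
    have h2 := congrArg (Int.cast : ℤ → ZMod q) hdet
    push_cast at h2
    rw [hqc, mul_zero, sub_zero] at h2
    linear_combination (-(c' : ZMod q)) * h2
  refine ⟨k, ⟨⟨!![a - b * (L * (k.val : ℤ)), b; L * (q * m), d], ?_⟩, ?_⟩, ?_⟩
  · rw [Matrix.det_fin_two_of]
    rw [hc'] at hdet
    linear_combination hdet - (b * L) * (-hm)
  · apply mem_of_dvd
    change ((L * q : ℕ) : ℤ) ∣ L * (q * m)
    push_cast
    exact ⟨m, by ring⟩
  · rw [lo_val]
    change _ = !![a - b * (L * (k.val : ℤ)), b; L * (q * m), d] * !![1, 0; L * (k.val : ℤ), 1]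
    rw [Matrix.eta_fin_two ((γ : SL(2, ℤ)) : Matrix (Fin 2) (Fin 2) ℤ)]
    change !![a, b; c, d] = _
    generalize (k.val : ℤ) = v at hm
    ext x y
    fin_cases x <;> fin_cases y <;> simp [Matrix.mul_apply, Fin.sum_univ_two]
    linear_combination hc' + (L : ℤ) * hm

lemma lo_irr {L : ℕ} [NeZero q] (hL : 0 < L) (k k' : ZMod q) (δ : Gamma0 (L * q))
    (h : ((lo L (k.val : ℤ) : SL(2, ℤ)) : Matrix (Fin 2) (Fin 2) ℤ) =
      ((δ : SL(2, ℤ)) : Matrix (Fin 2) (Fin 2) ℤ) *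
        ((lo L (k'.val : ℤ) : SL(2, ℤ)) : Matrix (Fin 2) (Fin 2) ℤ)) : k = k' := by
  obtain ⟨c', hc'⟩ := dvd_c δ
  have e10 := congrFun (congrFun h 1) 0
  have e11 := congrFun (congrFun h 1) 1
  rw [lo_val, lo_val] at e10 e11
  generalize hv : (k.val : ℤ) = v at e10 e11
  generalize hv' : (k'.val : ℤ) = v' at e10 e11
  simp [Matrix.mul_apply, Fin.sum_univ_two] at e10 e11
  rw [hc', ← e11, one_mul] at e10
  push_cast at e10
  have hL0 : (L : ℤ) ≠ 0 := by exact_mod_cast hL.ne'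
  have h1 : v = q * c' + v' := by
    apply mul_left_cancel₀ hL0
    linear_combination e10
  apply val_eq_of_dvd
  rw [hv, hv', h1]
  exact ⟨c', by ring⟩

/-- **The trace family** `Γ₀(L q) → Γ₀(L)` for `q ∣ L`. -/
def ctrFam {L L' : ℕ} (hNL' : N ∣ L') (hNL : N ∣ L) (hLL' : L' = L * q) (hL : 0 < L)
    (hq : 0 < q) (hqL : q ∣ L) : HFam (gam N L' hNL') (gam N L hNL) :=
  haveI : NeZero q := ⟨hq.ne'⟩
  ofCover (ZMod q) (fun k => gam N L hNL (lo L (k.val : ℤ)))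
    (by
      intro k k' δ h
      exact lo_irr hL k k' ⟨δ.1, hLL' ▸ δ.2⟩ (congrArg Subtype.val h))
    (by
      intro γ' k
      obtain ⟨k', δ, h⟩ := exists_lo hqL (lo L (k.val : ℤ) * γ')
      refine ⟨k', ⟨δ.1, hLL' ▸ δ.2⟩, ?_⟩
      apply Subtype.ext
      exact h)

lemma ctrFam_α {L L' : ℕ} (hNL' : N ∣ L') (hNL : N ∣ L) (hLL' : L' = L * q) (hL : 0 < L)
    (hq : 0 < q) (hqL : q ∣ L) (k : ZMod q) :
    (ctrFam hNL' hNL hLL' hL hq hqL).α k = gam N L hNL (lo L (k.val : ℤ)) := rfl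

lemma ctrFam_irr {L L' : ℕ} (hNL' : N ∣ L') (hNL : N ∣ L) (hLL' : L' = L * q) (hL : 0 < L)
    (hq : 0 < q) (hqL : q ∣ L) : Irr (ctrFam hNL' hNL hLL' hL hq hqL) := by
  have : NeZero q := ⟨hq.ne'⟩
  exact ofCover_irr _ _ _ _

end Beta

section Trace

variable {N M q : ℕ}

/-- The key computation: `α_u (1, 0; L j, 1) = δ α_1 (1, 0; L k, 1)`, `δ ∈ Γ₀(L)`, `a(δ) = u`. -/
lemma tr_core (hq : q.Prime) (hqN : ¬ q ∣ N) (u : (ZMod q)ˣ) (j k : ZMod q)
    (hk : (M : ZMod q) * k * u = (M : ZMod q) * j * u + 1 - u) :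
    ∃ δ : Gamma0 (M * q), (twRep N hq hqN u).1 *
        ((lo (M * q) (j.val : ℤ) : SL(2, ℤ)) : Matrix (Fin 2) (Fin 2) ℤ) =
      ((δ : SL(2, ℤ)) : Matrix (Fin 2) (Fin 2) ℤ) * ((twRep N hq hqN 1).1 *
        ((lo (M * q) (k.val : ℤ) : SL(2, ℤ)) : Matrix (Fin 2) (Fin 2) ℤ)) ∧
      aU q (dvd_mul_left q M) δ = u := by
  have : Fact q.Prime := ⟨hq⟩
  have i1 : Fact (1 < q) := ⟨hq.one_lt⟩
  obtain ⟨t, ht⟩ : (q : ℤ) ∣ ((u : ZMod q).val : ℤ) - 1 -
      ((u : ZMod q).val : ℤ) * (M * ((j.val : ℤ) - (k.val : ℤ))) := by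
    rw [← ZMod.intCast_zmod_eq_zero_iff_dvd]
    push_cast
    rw [ZMod.natCast_zmod_val, ZMod.natCast_zmod_val, ZMod.natCast_zmod_val]
    linear_combination hk
  have h1 : ((1 : ZMod q).val : ℤ) = 1 := by rw [ZMod.val_one]; rfl
  refine ⟨⟨⟨!![1 + ((u : ZMod q).val : ℤ) * (M * ((j.val : ℤ) - (k.val : ℤ))), t;
      (M : ℤ) * q * ((j.val : ℤ) - (k.val : ℤ)), 1 - M * ((j.val : ℤ) - (k.val : ℤ))], ?_⟩, ?_⟩,
      ?_, ?_⟩
  · rw [Matrix.det_fin_two_of]
    generalize ((u : ZMod q).val : ℤ) = v at ht ⊢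
    generalize (j.val : ℤ) = x at ht ⊢
    generalize (k.val : ℤ) = y at ht ⊢
    linear_combination ((M : ℤ) * (x - y)) * ht
  · apply mem_of_dvd
    change ((M * q : ℕ) : ℤ) ∣ (M : ℤ) * q * _
    push_cast
    exact dvd_mul_right _ _
  · rw [lo_val, lo_val, twRep_val, twRep_val, h1]
    change _ = !![1 + ((u : ZMod q).val : ℤ) * (M * ((j.val : ℤ) - (k.val : ℤ))), t;
      (M : ℤ) * q * ((j.val : ℤ) - (k.val : ℤ)), 1 - M * ((j.val : ℤ) - (k.val : ℤ))] * _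
    generalize ((u : ZMod q).val : ℤ) = v at ht ⊢
    generalize (j.val : ℤ) = x at ht ⊢
    generalize (k.val : ℤ) = y at ht ⊢
    ext a b
    fin_cases a <;> fin_cases b <;> simp [Matrix.mul_apply, Fin.sum_univ_two]
    · linear_combination ((M : ℤ) * q * y) * ht
    · linear_combination ht
    · ring
    · ring
  · apply Units.ext
    rw [aU_val]
    change (((1 + ((u : ZMod q).val : ℤ) * (M * ((j.val : ℤ) - (k.val : ℤ))) : ℤ)) : ZMod q) = _
    have h2 := congrArg (Int.cast : ℤ → ZMod q) ht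
    push_cast at h2 ⊢
    rw [ZMod.natCast_self, zero_mul] at h2
    rw [ZMod.natCast_zmod_val] at h2 ⊢
    linear_combination -h2

variable {R : Type*} [CommRing R] {V : Type*} [AddCommGroup V] [Module R V]

/-- changing the representatives of a family -/
def leftMul {S : Type*} [Monoid S] {Γ Γ' : Type*} [Group Γ] [Group Γ'] {ι : Γ →* S}
    {ι' : Γ' →* S} (h : HFam ι ι') (g : h.J → Γ) : HFam ι ι' where
  J := h.J
  fin := h.fin
  α i := ι (g i) * h.α i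
  inv := by
    intro γ'
    obtain ⟨σ, δ, hs⟩ := h.inv γ'
    refine ⟨σ, fun i => g i * δ i * (g (σ i))⁻¹, fun i => ?_⟩
    have h1 : ι (g (σ i))⁻¹ * ι (g (σ i)) = 1 := by rw [← map_mul, inv_mul_cancel, map_one]
    rw [mul_assoc, hs, map_mul, map_mul]
    simp only [mul_assoc]
    rw [← mul_assoc (ι (g (σ i))⁻¹), h1, one_mul]

lemma leftMul_opH {S : Type*} [Monoid S] {Γ Γ' : Type*} [Group Γ] [Group Γ'] {ι : Γ →* S}
    {ι' : Γ' →* S} [HFam.IsFreeOn ι] {ρ : S →* (Module.End R V)ᵐᵒᵖ} (h : HFam ι ι')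
    (g : h.J → Γ) : (leftMul h g).opH ρ = h.opH ρ :=
  HFam.opH_congr _ _ (Equiv.refl _) fun i => ⟨g i, rfl⟩

variable (χ : (ZMod q)ˣ →* Rˣ) (ρ : DN N →* (Module.End R V)ᵐᵒᵖ)
  (hq : q.Prime) (hqN : ¬ q ∣ N) (hqM : ¬ q ∣ M) [NeZero q]
  (hχ : ∑ u, (((χ u)⁻¹ : Rˣ) : R) = 0)
  (hL : N * q ∣ M * q) (hNL : N ∣ M * q) {L' : ℕ} (hNL' : N ∣ L') (hLL' : M * q * q ∣ L')

include hqM hχ in
/-- Vanishing of the composition of the twist with a family of the form `(1, 0; L k, 1) B`. -/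
theorem tr_tw_aux {L'' : ℕ} {hNL'' : N ∣ L''} (s : HFam (gam N L' hNL') (gam N L'' hNL''))
    (B : DN N) (es : s.J ≃ ZMod q)
    (hs : ∀ i, s.α i = gam N (M * q) hNL (lo (M * q) ((es i).val : ℤ)) * B)
    (x : H1 (gam (N * q) (M * q) hL) (rTw χ ρ)) :
    s.opH ρ (tw hq hqN χ ρ hL hNL' hLL' x) = 0 := by
  have : Fact q.Prime := ⟨hq⟩
  have hM0 : (M : ZMod q) ≠ 0 := by
    rw [Ne, ZMod.natCast_eq_zero_iff]
    exact hqM
  apply (eF ρ hNL'').injective
  rw [eF_opH, eF_tw, map_zero, ← HFam.opH_comp]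
  have key : ((twFam hq hqN χ hL hNL' hLL').comp (famF R s)).opH (wrho ρ) = 0 := by
    refine opH_eq_zero_of_fiber (K := ZMod q) _
      (fun k => (twRep N hq hqN 1 * gam N (M * q) hNL (lo (M * q) (k.val : ℤ)) * B, 1))
      (fun p : (ZMod q)ˣ × s.J => (((p.1 : ZMod q)⁻¹ - 1) / M) + es p.2)
      (fun p : (ZMod q)ˣ × s.J => (χ p.1)⁻¹) ?_ ?_
    · rintro ⟨(u : (ZMod q)ˣ), j⟩
      obtain ⟨δ, hδ, hδ2⟩ := tr_core (N := N) hq hqN u (es j)
        ((((u : ZMod q)⁻¹ - 1) / M) + es j) (by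
        have hu : (u : ZMod q) ≠ 0 := u.ne_zero
        field_simp
        ring)
      refine ⟨δ, ?_⟩
      apply Prod.ext
      · apply Subtype.ext
        change _ * (s.α j).1 = _ * ((_ * _ * B.1) * 1)
        rw [hs, mul_one]
        change _ * ((gam N (M * q) hNL (lo (M * q) ((es j).val : ℤ))).1 * B.1) = _
        rw [← mul_assoc, ← mul_assoc]
        congr 1
      · change χ u * 1 = (iT hL χ δ).2 * (1 * (χ u)⁻¹)
        rw [iT_snd hL χ δ u (by rw [← hδ2, aU_val]), sq, one_mul, mul_one,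
          mul_inv_cancel_right]
    · intro k
      have h1 := sum_fiber_prod (fun p : (ZMod q)ˣ × s.J => (((p.1 : ZMod q)⁻¹ - 1) / M) + es p.2)
        (fun a => (Equiv.bijective (Equiv.addLeft ((((a : ZMod q)⁻¹ - 1) / M : ZMod q)))).comp
          es.bijective)
        (fun a => (((χ a)⁻¹ : Rˣ) : R)) k
      rw [← hχ, ← h1]
      rfl
  rw [key]
  rfl

include hqM hχ in
/-- Vanishing of the composition of the twist with a family equivalent to `(1, 0; L k, 1) B`. -/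
theorem tr_tw_aux' {L'' : ℕ} {hNL'' : N ∣ L''} (s : HFam (gam N L' hNL') (gam N L'' hNL''))
    (B : DN N) (es : s.J ≃ ZMod q)
    (hs : ∀ i, ∃ δ : Gamma0 L', gam N L' hNL' δ * s.α i =
      gam N (M * q) hNL (lo (M * q) ((es i).val : ℤ)) * B)
    (x : H1 (gam (N * q) (M * q) hL) (rTw χ ρ)) :
    s.opH ρ (tw hq hqN χ ρ hL hNL' hLL' x) = 0 := by
  choose g hg using hs
  rw [← leftMul_opH s g]
  exact tr_tw_aux χ ρ hq hqN hqM hχ hL hNL hNL' hLL' (leftMul s g) B es hg x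

include hqM hχ in
/-- **The trace of the twist vanishes.** -/
theorem ctr_tw (hM : 0 < M) (hLe : L' = M * q * q)
    (x : H1 (gam (N * q) (M * q) hL) (rTw χ ρ)) :
    (ctrFam hNL' hNL hLe (Nat.mul_pos hM hq.pos) hq.pos (dvd_mul_left q M)).opH ρ
      (tw hq hqN χ ρ hL hNL' hLL' x) = 0 :=
  tr_tw_aux χ ρ hq hqN hqM hχ hL hNL hNL' hLL' _ 1 (Equiv.refl _)
    (fun _ => (mul_one _).symm) x

include hqM hχ in
/-- **`U_q (w (tw x)) = 0`**, general form. -/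
theorem uw_tw_aux (hLe : L' = M * q * q) {L'' : ℕ} {hNL'' : N ∣ L''}
    (s : HFam (gam N L' hNL') (gam N L'' hNL'')) (W : DN N) (a b c d : ℤ)
    (hW : W.1 = !![q * q * a, b; M * (q * q) * c, q * q * d])
    (hdet : q * q * a * d - M * b * c = 1) (es : s.J ≃ ZMod q)
    (hs : ∀ i, s.α i = W * uRep N hq.pos (es i)) (x : H1 (gam (N * q) (M * q) hL) (rTw χ ρ)) :
    s.opH ρ (tw hq hqN χ ρ hL hNL' hLL' x) = 0 := by
  have : Fact q.Prime := ⟨hq⟩
  have hu : (M : ZMod q) * (c : ZMod q) ^ 2 ≠ 0 := by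
    have h1 := congrArg (Int.cast : ℤ → ZMod q) hdet
    push_cast at h1
    rw [ZMod.natCast_self, zero_mul, zero_mul, zero_mul, zero_sub] at h1
    intro h2
    rcases mul_eq_zero.mp h2 with h3 | h3
    · rw [h3] at h1
      simp at h1
    · rw [pow_eq_zero_iff (by norm_num)] at h3
      rw [h3] at h1
      simp at h1
  have hNL : N ∣ M * q := (Dvd.intro q rfl).trans hL
  refine tr_tw_aux' χ ρ hq hqN hqM hχ hL hNL hNL' hLL' s (W * uRep N hq.pos 0)
    (es.trans ((Equiv.mulLeft₀ _ hu).trans (Equiv.neg _))) ?_ x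
  intro i
  have hk : ((es.trans ((Equiv.mulLeft₀ _ hu).trans (Equiv.neg _))) i) =
      -((M : ZMod q) * (c : ZMod q) ^ 2 * es i) := rfl
  rw [hk, hs]
  set j := es i with hj
  obtain ⟨m, hm⟩ : (q : ℤ) ∣ ((-((M : ZMod q) * (c : ZMod q) ^ 2 * j)).val : ℤ) +
      (j.val : ℤ) * (M * c ^ 2) := by
    rw [← ZMod.intCast_zmod_eq_zero_iff_dvd]
    push_cast
    rw [ZMod.natCast_zmod_val, ZMod.natCast_zmod_val]
    ring
  generalize ((-((M : ZMod q) * (c : ZMod q) ^ 2 * j)).val : ℤ) = k at hm ⊢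
  have hdet' : (!![1 + (j.val : ℤ) * (M * q * a * c), -((j.val : ℤ) * (q * a ^ 2));
      (j.val : ℤ) * (M ^ 2 * q * c ^ 2), 1 - (j.val : ℤ) * (M * q * a * c)] :
      Matrix (Fin 2) (Fin 2) ℤ).det = 1 := by
    rw [Matrix.det_fin_two_of]; ring
  refine ⟨⟨(lo (M * q) k : SL(2, ℤ)) * ⟨_, hdet'⟩, ?_⟩, ?_⟩
  · apply mem_of_dvd
    change (L' : ℤ) ∣ (((lo (M * q) k : SL(2, ℤ)) : Matrix (Fin 2) (Fin 2) ℤ) *
      !![1 + (j.val : ℤ) * (M * q * a * c), -((j.val : ℤ) * (q * a ^ 2));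
      (j.val : ℤ) * (M ^ 2 * q * c ^ 2), 1 - (j.val : ℤ) * (M * q * a * c)]) 1 0
    rw [lo_val, Matrix.mul_apply, Fin.sum_univ_two, hLe]
    simp only [Matrix.of_apply, Matrix.cons_val', Matrix.cons_val_zero, Matrix.cons_val_one,
      Matrix.cons_val_fin_one]
    push_cast
    refine ⟨m + k * (j.val : ℤ) * M * a * c, ?_⟩
    generalize (j.val : ℤ) = v at hm ⊢
    linear_combination ((M : ℤ) * q) * hm
  · apply Subtype.ext
    change (((lo (M * q) k : SL(2, ℤ)) : Matrix (Fin 2) (Fin 2) ℤ) *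
      !![1 + (j.val : ℤ) * (M * q * a * c), -((j.val : ℤ) * (q * a ^ 2));
      (j.val : ℤ) * (M ^ 2 * q * c ^ 2), 1 - (j.val : ℤ) * (M * q * a * c)]) *
      (W.1 * (uRep N hq.pos j).1) =
      ((lo (M * q) k : SL(2, ℤ)) : Matrix (Fin 2) (Fin 2) ℤ) * (W.1 * (uRep N hq.pos 0).1)
    rw [mul_assoc]
    congr 1
    rw [hW]
    change _ * (_ * !![((1 : ℕ) : ℤ), (j.val : ℤ); 0, (q : ℤ)]) =
      _ * !![((1 : ℕ) : ℤ), ((0 : ZMod q).val : ℤ); 0, (q : ℤ)]
    rw [ZMod.val_zero]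
    generalize (j.val : ℤ) = v
    ext x y
    fin_cases x <;> fin_cases y <;> simp [Matrix.mul_apply, Fin.sum_univ_two]
    · ring
    · linear_combination (-((q : ℤ) ^ 2 * a * v)) * hdet
    · ring
    · linear_combination (-((M : ℤ) * q ^ 2 * c * v)) * hdet

include hqM hχ in
/-- **`U_q (w (tw x)) = 0`** : `w` any operator given by one matrix
`(q² a, b; M q² c, q² d)` of determinant `q²`. -/
theorem uFam_w_tw (hLe : L' = M * q * q) (hqL' : q ∣ L')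
    (w : HFam (gam N L' hNL') (gam N L' hNL')) (ew : w.J ≃ Unit) (a b c d : ℤ)
    (hW : ∀ i, (w.α i).1 = !![q * q * a, b; M * (q * q) * c, q * q * d])
    (hdet : q * q * a * d - M * b * c = 1) (x : H1 (gam (N * q) (M * q) hL) (rTw χ ρ)) :
    (uFam hNL' hq.pos hqL').opH ρ (w.opH ρ (tw hq hqN χ ρ hL hNL' hLL' x)) = 0 := by
  rw [← HFam.opH_comp]
  refine uw_tw_aux χ ρ hq hqN hqM hχ hL hNL' hLL' hLe _ (w.α (ew.symm ())) a b c d (hW _) hdet
    ((Equiv.prodCongr ew (Equiv.refl (ZMod q))).trans (Equiv.punitProd _)) ?_ x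
  rintro ⟨i, j⟩
  change w.α i * uRep N hq.pos j = w.α (ew.symm ()) * uRep N hq.pos j
  congr 1
  apply Subtype.ext
  rw [hW, hW]

end Trace

end Fermat.Agent.H21J
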