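import Fermat.Agent.H21JEmb
/-!
# The restriction step: `χ` trivial at `q`
-/
set_option autoImplicit false

open CongruenceSubgroup Matrix.SpecialLinearGroup
open scoped MatrixGroups
open Fermat.Agent.H70.Coh Fermat.Agent.H37.Tr

noncomputable section

namespace Fermat.Agent.H21J

variable {R : Type*} [CommRing R] {V : Type*} [AddCommGroup V] [Module R V]
  {N N' M M' q : ℕ}

/-- inclusion of the Hecke semigroups -/
def inc (h : N' ∣ N) : DN N →* DN N' := Submonoid.inclusion (DN_mono h)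

lemma inc_val (h : N' ∣ N) (s : DN N) : (inc h s).1 = s.1 := rfl

instance (h : N' ∣ N) (hM : N ∣ M) : HFam.IsFreeOn ((inc h).comp (gam N M hM)) :=
  inferInstanceAs (HFam.IsFreeOn (gam N' M (h.trans hM)))

/-- the restriction family -/
def rsFam (h : N' ∣ N) (hM : N ∣ M) (hM' : N' ∣ M') (hMM' : M ∣ M') :
    HFam ((inc h).comp (gam N M hM)) (gam N' M' hM') where
  J := Unit
  fin := inferInstance
  α := fun _ => 1
  inv := by
    intro γ
    refine ⟨1, fun _ => ⟨(γ : SL(2, ℤ)), mem_of_dvd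
      ((Int.natCast_dvd_natCast.mpr hMM').trans (dvd_c γ))⟩, fun _ => ?_⟩
    apply Subtype.ext
    change 1 * _ = _ * 1
    rw [one_mul, mul_one]
    rfl

/-- the trace family back -/
def rtFam (h : N' ∣ N) (hM : N ∣ M) (hM' : N' ∣ M') (hMq : M' = M * q) (hM0 : 0 < M)
    (hq : 0 < q) (hqM : q ∣ M) : HFam (gam N' M' hM') ((inc h).comp (gam N M hM)) where
  J := (ctrFam hM' (h.trans hM) hMq hM0 hq hqM).J
  fin := (ctrFam hM' (h.trans hM) hMq hM0 hq hqM).fin
  α := (ctrFam hM' (h.trans hM) hMq hM0 hq hqM).α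
  inv := fun γ => (ctrFam hM' (h.trans hM) hMq hM0 hq hqM).inv γ

variable (ρ : DN N' →* (Module.End R V)ᵐᵒᵖ)

/-- The restriction step, as a map. -/
def rs (h : N' ∣ N) (hM : N ∣ M) (hM' : N' ∣ M') (hMM' : M ∣ M') :
    H1 (gam N M hM) (ρ.comp (inc h)) →ₗ[R] H1 (gam N' M' hM') ρ :=
  (rsFam h hM hM' hMM').opH ρ ∘ₗ
    (H1e (ι := gam N M hM) (ρ := ρ.comp (inc h)) (ι' := (inc h).comp (gam N M hM)) (ρ' := ρ)
      (fun _ _ => rfl)).toLinearMap

/-- Families with the same matrices commute with the restriction. -/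
theorem rs_opH (h : N' ∣ N) (hM : N ∣ M) (hM' : N' ∣ M') (hMM' : M ∣ M')
    (t : HFam (gam N M hM) (gam N M hM)) (s : HFam (gam N' M' hM') (gam N' M' hM'))
    (e : t.J ≃ s.J) (he : ∀ i, (t.α i).1 = (s.α (e i)).1)
    (x : H1 (gam N M hM) (ρ.comp (inc h))) :
    rs ρ h hM hM' hMM' (t.opH (ρ.comp (inc h)) x) = s.opH ρ (rs ρ h hM hM' hMM' x) := by
  have h1 := mapFam_opH (inc h) t (ρ := ρ.comp (inc h)) (ρ' := ρ) (fun _ _ => rfl) x
  have h2 : rs ρ h hM hM' hMM' (t.opH (ρ.comp (inc h)) x) =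
      (rsFam h hM hM' hMM').opH ρ ((mapFam (inc h) t).opH ρ
        (H1e (ι := gam N M hM) (ρ := ρ.comp (inc h)) (ι' := (inc h).comp (gam N M hM)) (ρ' := ρ)
      (fun _ _ => rfl) x)) := by
    rw [h1]
    rfl
  have h3 : s.opH ρ (rs ρ h hM hM' hMM' x) = s.opH ρ ((rsFam h hM hM' hMM').opH ρ
        (H1e (ι := gam N M hM) (ρ := ρ.comp (inc h)) (ι' := (inc h).comp (gam N M hM)) (ρ' := ρ)
      (fun _ _ => rfl) x)) := rfl
  rw [h2, h3, ← HFam.opH_comp, ← HFam.opH_comp]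
  apply LinearMap.congr_fun
  refine HFam.opH_congr _ _ ((Equiv.prodComm t.J Unit).trans
    (Equiv.prodCongr (Equiv.refl Unit) e)) ?_
  rintro ⟨i, ⟨⟩⟩
  refine ⟨1, ?_⟩
  rw [map_one, one_mul]
  change inc h (t.α i) * 1 = 1 * s.α (e i)
  rw [mul_one, one_mul]
  apply Subtype.ext
  rw [inc_val, he]

/-- Injectivity of the restriction. -/
theorem rs_injective (h : N' ∣ N) (hM : N ∣ M) (hM' : N' ∣ M') (hMM' : M ∣ M')
    (hMq : M' = M * q) (hM0 : 0 < M) (hq : 0 < q) (hqM : q ∣ M) (hu : IsUnit (q : R)) :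
    Function.Injective (rs ρ h hM hM' hMM') := by
  have i1 : NeZero q := ⟨hq.ne'⟩
  rw [injective_iff_map_eq_zero]
  intro x hx
  set y := H1e (ι := gam N M hM) (ρ := ρ.comp (inc h)) (ι' := (inc h).comp (gam N M hM)) (ρ' := ρ)
      (fun _ _ => rfl) x with hy
  have h1 : (rsFam h hM hM' hMM').opH ρ y = 0 := hx
  have h2 : ((rsFam h hM hM' hMM').comp (rtFam h hM hM' hMq hM0 hq hqM)).opH ρ y = 0 := by
    rw [HFam.opH_comp, h1, map_zero]
  have h3 := opH_eq_card ((rsFam h hM hM' hMM').comp (rtFam h hM hM' hMq hM0 hq hqM))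
    (ρ := ρ) (by
      rintro ⟨⟨⟩, k⟩
      refine ⟨lo M ((k : ZMod q).val : ℤ), ?_⟩
      change 1 * _ = _
      rw [one_mul]
      rfl) y
  have h4 : Fintype.card ((rsFam h hM hM' hMM').comp (rtFam h hM hM' hMq hM0 hq hqM)).J = q := by
    have : Fintype.card ((rsFam h hM hM' hMM').comp (rtFam h hM hM' hMq hM0 hq hqM)).J =
      Fintype.card (Unit × ZMod q) := Fintype.card_congr (Equiv.refl _)
    rw [this, Fintype.card_prod, Fintype.card_unit, one_mul, ZMod.card]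
  rw [h4, h2, ← Nat.cast_smul_eq_nsmul R] at h3
  have h5 : y = 0 := by
    obtain ⟨v, hv⟩ := hu
    rw [← hv] at h3
    have h5 := congrArg (fun y => ((v⁻¹ : Rˣ) : R) • y) h3
    simp only [smul_smul, Units.inv_mul, one_smul, smul_zero] at h5
    exact h5.symm
  rw [hy] at h5
  exact (LinearEquiv.map_eq_zero_iff _).mp h5

/-- **The restriction step.** -/
theorem twEmb_rs (h : N' ∣ N) (hM : N ∣ M) (hM' : N' ∣ M') (hMM' : M ∣ M')
    (hMq : M' = M * q) (hM0 : 0 < M) (hq : 0 < q) (hqM : q ∣ M) (hu : IsUnit (q : R)) :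
    TwEmb hM hM' (ρ.comp (inc h)) ρ 1 (rs ρ h hM hM' hMM') where
  dvdM := hMM'
  dvdN := h
  inj := rs_injective ρ h hM hM' hMM' hMq hM0 hq hqM hu
  T := by
    intro ℓ hℓ hℓM hℓM'' hc x
    rw [MonoidHom.one_apply, Units.val_one, one_smul]
    refine rs_opH ρ h hM hM' hMM' _ _ (Equiv.refl _) ?_ x
    rintro (_ | i) <;> rfl
  U := by
    intro n hn hnM hnM'' hc x
    rw [MonoidHom.one_apply, Units.val_one, one_smul]
    exact rs_opH ρ h hM hM' hMM' _ _ (Equiv.refl _) (fun _ => rfl) x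
  AL := by
    intro r hr hrM hc t s ht hs x
    rw [MonoidHom.one_apply, Units.val_one, one_smul]
    obtain ⟨e⟩ := ht.uni
    obtain ⟨e'⟩ := hs.uni
    obtain ⟨k, hk⟩ := hMM'
    obtain ⟨a, b, c, d, h1, h2⟩ := hs.mat (e'.symm ())
    have hk' : (M' : ℤ) = M * k := by exact_mod_cast hk
    obtain ⟨g, hg⟩ := exists_leftMul (x := a) (y := b) (z := k * c) (t := d) hrM hr ht (by
      rw [hk'] at h2
      linear_combination h2)
    rw [← leftMul_opH t g]
    refine rs_opH ρ h hM hM' (Dvd.intro k hk.symm) (leftMul t g) s (e.trans e'.symm) ?_ x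
    intro i
    rw [hg i]
    refine Eq.trans ?_ h1.symm
    rw [hk']
    congr 2
    ring_nf

end Fermat.Agent.H21J
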