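import Fermat.Agent.H21JIter
import Fermat.Agent.H37TrEq
/-!
# The twist embedding and the traces `trFam`, `nuFam`
-/
set_option autoImplicit false

open CongruenceSubgroup Matrix.SpecialLinearGroup
open scoped MatrixGroups
open Fermat.Agent.H70.Coh hiding scal scal_comm resFam trFam
open Fermat.Agent.H37.Tr

noncomputable section

namespace Fermat.Agent.H21J

section Rel

variable {R : Type*} [CommRing R] {V : Type*} [AddCommGroup V] [Module R V]
  {N M q : ℕ} {ρ : DN N →* (Module.End R V)ᵐᵒᵖ}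

/-- the scalar family acts by the scalar -/
theorem scalFam_opH' {n : ℕ} (hNM : N ∣ M) (hn : 0 < n) (hnN : n.Coprime N) (c : R)
    (hs : ∀ v, slash ρ (scal N hn hnN) v = c • v) (x : H1 (gam N M hNM) ρ) :
    (scalFam hNM hn hnN).opH ρ x = c • x := by
  obtain ⟨z, rfl⟩ := Submodule.mkQ_surjective _ x
  change H1.mk _ ρ ((scalFam hNM hn hnN).op ρ z) = c • H1.mk _ ρ z
  rw [← map_smul]
  congr 1
  apply Subtype.ext
  funext γ
  rw [HFam.op_apply_of_eq (scalFam hNM hn hnN) z γ 1 (fun _ => γ) (fun _ => scal_comm hn hnN _)]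
  change ∑ i : Unit, slash ρ (scal N hn hnN) (z.1 γ) = c • z.1 γ
  rw [hs, Finset.sum_const, Finset.card_univ, Fintype.card_unit, one_smul]

/-- `w` followed by `U_q` is the family `g₀ T^j` (up to the scalar `q`). -/
theorem uFam_wFam' (w : AL M q) (hNM : N ∣ M) (hq : q.Prime) (hqM : ¬ q ∣ M) (hqN : q.Coprime N)
    (c : R) (hs : ∀ v, slash ρ (scal N hq.pos hqN) v = c • v)
    (x : H1 (gam N (M * q) (hNM.mul_right q)) ρ) :
    (uFam (hNM.mul_right q) hq.pos (dvd_mul_left q M)).opH ρ ((wFam hNM hq.pos w).opH ρ x) =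
      c • (gFam w hNM hq hqM).opH ρ x := by
  have i1 : NeZero q := ⟨hq.ne_zero⟩
  have h1 : ((wFam hNM hq.pos w).comp (uFam (hNM.mul_right q) hq.pos (dvd_mul_left q M))).opH ρ =
      ((scalFam (hNM.mul_right q) hq.pos hqN).comp (gFam w hNM hq hqM)).opH ρ := by
    have key : ∀ j : ZMod q, w.mat hNM hq.pos * uRep N hq.pos j =
        scal N hq.pos hqN * gam N M hNM (trRep w (some j)) := by
      intro j
      apply dn_ext
      change (w.mat hNM hq.pos).1 * (uRep N hq.pos j).1 =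
        (scal N hq.pos hqN).1 * (gam N M hNM (trRep w (some j))).1
      rw [gam_val, trRep_some_val, scal_val, smul_mul_assoc, one_mul, AL.mat_val]
      change _ * !![((1 : ℕ) : ℤ), (j.val : ℤ); 0, (q : ℤ)] = _
      generalize (j.val : ℤ) = v
      ext i k
      fin_cases i <;> fin_cases k <;> simp [Matrix.mul_apply, Fin.sum_univ_two] <;> ring
    refine HFam.opH_congr _ _ (Equiv.refl _) ?_
    rintro ⟨-, j⟩
    refine ⟨1, ?_⟩
    rw [map_one, one_mul]
    exact key j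
  rw [← HFam.opH_comp, h1, HFam.opH_comp, scalFam_opH' _ _ _ c hs, map_smul]

/-- **`res ∘ tr = 1 + U_q w / q`.** -/
theorem resFam_trFam' (w : AL M q) (hNM : N ∣ M) (hq : q.Prime) (hqM : ¬ q ∣ M)
    (hqN : q.Coprime N) (c : R) (hs : ∀ v, slash ρ (scal N hq.pos hqN) v = c • v)
    (x : H1 (gam N (M * q) (hNM.mul_right q)) ρ) :
    c • (Fermat.Agent.H37.Tr.resFam hNM (dvd_mul_right M q)).opH ρ
      ((Fermat.Agent.H37.Tr.trFam w hNM hq hqM).opH ρ x) =
      c • x + (uFam (hNM.mul_right q) hq.pos (dvd_mul_left q M)).opH ρ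
        ((wFam hNM hq.pos w).opH ρ x) := by
  have i1 : NeZero q := ⟨hq.ne_zero⟩
  rw [uFam_wFam' w hNM hq hqM hqN c hs, ← HFam.opH_comp, ← smul_add]
  have h1 : ((Fermat.Agent.H37.Tr.trFam w hNM hq hqM).comp
      (Fermat.Agent.H37.Tr.resFam hNM (dvd_mul_right M q))).opH ρ =
      (addFam (idFam _) (gFam w hNM hq hqM)).opH ρ := by
    let e : Option (ZMod q) × Unit ≃ Unit ⊕ ZMod q :=
      { toFun := fun p => match p.1 with
          | none => Sum.inl ()
          | some j => Sum.inr j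
        invFun := fun s => match s with
          | Sum.inl _ => (none, ())
          | Sum.inr j => (some j, ())
        left_inv := by
          rintro ⟨_ | j, ⟨⟩⟩ <;> rfl
        right_inv := by
          rintro (_ | j) <;> rfl }
    refine HFam.opH_congr _ _ e ?_
    rintro ⟨_ | j, ⟨⟩⟩
    · refine ⟨1, ?_⟩
      rw [map_one, one_mul]
      change gam N M hNM 1 * 1 = 1
      rw [map_one, mul_one]
    · refine ⟨1, ?_⟩
      rw [map_one, one_mul]
      change gam N M hNM (trRep w (some j)) * 1 = gam N M hNM (trRep w (some j))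
      rw [mul_one]
  rw [h1, addFam_opH, idFam_opH]

/-- restriction is injective when `q + 1` is a unit -/
theorem resFam_injective (hNM : N ∣ M) (hq : q.Prime) (hqM : ¬ q ∣ M) (hu : IsUnit ((q + 1 : ℕ) : R)) :
    Function.Injective ((Fermat.Agent.H37.Tr.resFam hNM (dvd_mul_right M q)).opH ρ) := by
  rw [injective_iff_map_eq_zero]
  intro x hx
  obtain ⟨w⟩ := nonempty_AL' hq hqM
  have h1 := trFam_resFam w hNM hq hqM x
  rw [hx, map_zero] at h1
  have h2 : (q + 1) • x = ((q + 1 : ℕ) : R) • x := (Nat.cast_smul_eq_nsmul R (q + 1) x).symm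
  rw [h2] at h1
  obtain ⟨v, hv⟩ := hu
  rw [← hv] at h1
  have h5 := congrArg (fun y => ((v⁻¹ : Rˣ) : R) • y) h1
  simp only [smul_smul, Units.inv_mul, one_smul, smul_zero] at h5
  exact h5.symm

/-- `tr x = 0` in terms of `U_q`, `w`. -/
theorem tr_eq_zero_iff (w : AL M q) (hNM : N ∣ M) (hq : q.Prime) (hqM : ¬ q ∣ M)
    (hqN : q.Coprime N) (c : Rˣ) (hs : ∀ v, slash ρ (scal N hq.pos hqN) v = (c : R) • v)
    (hu : IsUnit ((q + 1 : ℕ) : R)) (x : H1 (gam N (M * q) (hNM.mul_right q)) ρ) :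
    (Fermat.Agent.H37.Tr.trFam w hNM hq hqM).opH ρ x = 0 ↔
      (uFam (hNM.mul_right q) hq.pos (dvd_mul_left q M)).opH ρ
        ((wFam hNM hq.pos w).opH ρ x) = - ((c : R) • x) := by
  have h1 := resFam_trFam' w hNM hq hqM hqN (c : R) hs x
  constructor
  · intro h
    rw [h, map_zero, smul_zero] at h1
    exact (neg_eq_of_add_eq_zero_right h1.symm).symm
  · intro h
    rw [h, add_neg_cancel] at h1
    have h5 := congrArg (fun y => ((c⁻¹ : Rˣ) : R) • y) h1
    simp only [smul_smul, Units.inv_mul, one_smul, smul_zero] at h5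
    exact (injective_iff_map_eq_zero _).mp (resFam_injective hNM hq hqM hu) _ h5

end Rel

section Q2

variable {R : Type*} [CommRing R] {V : Type*} [AddCommGroup V] [Module R V]
  {N L q : ℕ} {ρ : DN N →* (Module.End R V)ᵐᵒᵖ}

/-- **The trace of `H70Trace` for `q ∣ L`.** -/
theorem trFam_eq_ctrFam [NeZero L] [NeZero q] (hL : N ∣ L) (hq : 0 < q) (hqL : q ∣ L) :
    (Fermat.Agent.H70.Coh.trFam hL).opH ρ =
      (ctrFam (dvd_mul_q hL) hL rfl (NeZero.pos L) hq hqL).opH ρ := by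
  refine opH_congr_of_supp _ _ ?_ (ctrFam_irr _ _ _ _ _ _) ?_ ?_
  · intro i i' γ h
    change (1 : DN N) * gam N L hL (Quotient.out i) =
      gam N (L * q) (dvd_mul_q hL) γ * (1 * gam N L hL (Quotient.out i')) at h
    rw [one_mul, one_mul] at h
    have h1 : (i.out : SL(2, ℤ)) = (γ : SL(2, ℤ)) * (i'.out : SL(2, ℤ)) := by
      have h2 := congrArg Subtype.val h
      change (gam N L hL i.out).1 =
        (gam N (L * q) (dvd_mul_q hL) γ).1 * (gam N L hL i'.out).1 at h2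
      rw [gam_val, gam_val, gam_val] at h2
      apply Subtype.ext
      rw [h2]
      rfl
    rw [← Quotient.out_eq i, ← Quotient.out_eq i']
    refine ((HFam.mk_eq_mk (subQ L q)).mpr ?_).symm
    change (i.out : SL(2, ℤ)) * (i'.out : SL(2, ℤ))⁻¹ ∈ Gamma0 (L * q)
    rw [h1, mul_inv_cancel_right]
    exact γ.2
  · intro i
    obtain ⟨k, δ, h⟩ := exists_lo hqL (Quotient.out i : Gamma0 L)
    refine ⟨k, δ, ?_⟩
    change (1 : DN N) * gam N L hL (Quotient.out i) = _
    rw [one_mul, ctrFam_α]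
    apply Subtype.ext
    exact h
  · intro j
    have h1 := HFam.out_mul_inv_mem (subQ L q) (lo L ((j : ZMod q).val : ℤ))
    obtain ⟨γ, hγ⟩ := subQ_gam hL h1
    refine ⟨Quotient.mk _ (lo L ((j : ZMod q).val : ℤ)), γ, ?_⟩
    change (ctrFam (dvd_mul_q hL) hL rfl (NeZero.pos L) hq hqL).α j =
      _ * ((1 : DN N) * gam N L hL (Quotient.out _))
    rw [ctrFam_α, one_mul, ← hγ, ← map_mul, inv_mul_cancel_right]

/-- **The pushforward `ν` of `H70Trace` for `q ∣ L`.** -/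
theorem nuFam_eq_betaFam [NeZero q] (hL : N ∣ L) (hq : q.Prime) (hqL : q ∣ L) :
    (nuFam hL hq).opH ρ = (betaFam (dvd_mul_q hL) hL rfl hq.pos hqL).opH ρ := by
  have hq0 : (q : ℤ) ≠ 0 := by exact_mod_cast hq.ne_zero
  refine opH_congr_of_supp _ _ ?_ ?_ ?_ ?_
  · intro i i' γ h
    change u0 N hq * gam N L hL (Quotient.out i) =
      gam N (L * q) (hL.mul_right q) γ * (u0 N hq * gam N L hL (Quotient.out i')) at h
    rw [← Quotient.out_eq i, ← Quotient.out_eq i']
    refine ((HFam.mk_eq_mk (subQ' L q)).mpr ?_).symm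
    refine nu_aux' hL hq _ γ ?_
    have h2 := congrArg (fun s => s * gam N L hL (i'.out)⁻¹) h
    simp only [mul_assoc, ← map_mul, mul_inv_cancel, map_one, mul_one] at h2
    rw [h2]
  · intro (i : ZMod q) (i' : ZMod q) γ h
    change uRep N hq.pos i = gam N (L * q) (dvd_mul_q hL) γ * uRep N hq.pos i' at h
    have h1 := congrArg Subtype.val h
    change !![((1 : ℕ) : ℤ), (i.val : ℤ); 0, (q : ℤ)] =
      (gam N (L * q) (dvd_mul_q hL) γ).1 * !![((1 : ℕ) : ℤ), (i'.val : ℤ); 0, (q : ℤ)] at h1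
    rw [gam_val] at h1
    apply val_eq_of_dvd
    generalize (i.val : ℤ) = v at h1 ⊢
    generalize (i'.val : ℤ) = v' at h1 ⊢
    have h00 := congrFun (congrFun h1 0) 0
    have h01 := congrFun (congrFun h1 0) 1
    simp [Matrix.mul_apply, Fin.sum_univ_two] at h00 h01
    rw [← h00, one_mul] at h01
    exact ⟨((γ : SL(2, ℤ)) : Matrix (Fin 2) (Fin 2) ℤ) 0 1, by linear_combination h01⟩
  · intro i
    change Mem _ (u0 N hq * gam N L hL (Quotient.out i))
    generalize (Quotient.out i : Gamma0 L) = γ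
    obtain ⟨c', hc'⟩ := dvd_c γ
    have hdet := det_eq (γ : SL(2, ℤ))
    set a := (γ : SL(2, ℤ)) 0 0 with ha
    set b := (γ : SL(2, ℤ)) 0 1 with hb
    set c := (γ : SL(2, ℤ)) 1 0 with hc
    set d := (γ : SL(2, ℤ)) 1 1 with hd
    set k : ZMod q := (d : ZMod q) * (b : ZMod q) with hk
    have hqc : (c : ZMod q) = 0 := by
      rw [ZMod.intCast_zmod_eq_zero_iff_dvd]
      exact (Int.natCast_dvd_natCast.mpr hqL).trans (dvd_c γ)
    obtain ⟨m, hm⟩ : (q : ℤ) ∣ b - a * (k.val : ℤ) := by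
      rw [← ZMod.intCast_zmod_eq_zero_iff_dvd]
      push_cast
      rw [ZMod.natCast_zmod_val, hk]
      have h2 := congrArg (Int.cast : ℤ → ZMod q) hdet
      push_cast at h2
      rw [hqc, mul_zero, sub_zero] at h2
      linear_combination (-(b : ZMod q)) * h2
    refine ⟨k, ⟨⟨!![a, m; q * c, d - c * (k.val : ℤ)], ?_⟩, ?_⟩, ?_⟩
    · rw [Matrix.det_fin_two_of]
      linear_combination hdet + c * hm
    · apply mem_of_dvd
      change ((L * q : ℕ) : ℤ) ∣ q * c
      rw [hc']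
      push_cast
      exact ⟨c', by ring⟩
    · apply Subtype.ext
      change (!![((1 : ℕ) : ℤ), 0; 0, (q : ℤ)]) * ((γ : SL(2, ℤ)) : Matrix (Fin 2) (Fin 2) ℤ) =
        !![a, m; q * c, d - c * (k.val : ℤ)] * !![((1 : ℕ) : ℤ), (k.val : ℤ); 0, (q : ℤ)]
      rw [Matrix.eta_fin_two ((γ : SL(2, ℤ)) : Matrix (Fin 2) (Fin 2) ℤ)]
      change _ * !![a, b; c, d] = _
      generalize (k.val : ℤ) = v at hm
      ext x y
      fin_cases x <;> fin_cases y <;> simp [Matrix.mul_apply, Fin.sum_univ_two]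
      · linear_combination hm
      · ring
  · intro (j : ZMod q)
    obtain ⟨k, γ, hk⟩ := mem_nuFam hL hq (tpow L (j.val : ℤ))
    refine ⟨k, γ, ?_⟩
    change uRep N hq.pos j = _
    rw [← hk]
    apply Subtype.ext
    change !![((1 : ℕ) : ℤ), (j.val : ℤ); 0, (q : ℤ)] =
      (!![((1 : ℕ) : ℤ), 0; 0, (q : ℤ)]) * (gam N L hL (tpow L (j.val : ℤ))).1
    rw [gam_tpow hL]
    ext x y
    fin_cases x <;> fin_cases y <;> simp [Matrix.mul_apply, Fin.sum_univ_two]

/-- **A class that is new in the sense of `IsQNew` is killed by the two traces.** -/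
theorem IsQNew.traces [NeZero L] [NeZero q] (hL : N ∣ L) (hq : q.Prime) (hqL : q ∣ L)
    {y : H1 (gam N (L * q) (dvd_mul_q hL)) ρ} (h : IsQNew (dvd_mul_q hL) ρ q hq.pos y) :
    (Fermat.Agent.H70.Coh.trFam hL).opH ρ y = 0 ∧ (nuFam hL hq).opH ρ y = 0 := by
  constructor
  · rw [trFam_eq_ctrFam hL hq.pos hqL]
    exact h.tr hL rfl (NeZero.pos L) hqL
  · rw [nuFam_eq_betaFam hL hq hqL]
    exact h.beta hL rfl hqL

end Q2

section Old

variable {R : Type*} [CommRing R] {V : Type*} [AddCommGroup V] [Module R V]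

/-- **Equivariant embeddings preserve the kernel of the two traces** at a prime `q` dividing
both levels exactly. -/
theorem TwEmb.traces {N L N' L' q : ℕ} [NeZero L] [NeZero L'] [NeZero q]
    {hM : N ∣ L * q} {hM' : N' ∣ L' * q}
    {ρ : DN N →* (Module.End R V)ᵐᵒᵖ} {ρ' : DN N' →* (Module.End R V)ᵐᵒᵖ}
    {κ : (ZMod N)ˣ →* Rˣ} {E : H1 (gam N (L * q) hM) ρ →ₗ[R] H1 (gam N' (L' * q) hM') ρ'}
    (hE : TwEmb hM hM' ρ ρ' κ E) (hL : N ∣ L) (hL' : N' ∣ L') (hq : q.Prime) (hqL : ¬ q ∣ L)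
    (hqL' : ¬ q ∣ L') (hqN : q.Coprime N) (hqN' : q.Coprime N') (c c' : Rˣ)
    (hs : ∀ v, slash ρ (scal N hq.pos hqN) v = (c : R) • v)
    (hs' : ∀ v, slash ρ' (scal N' hq.pos hqN') v = (c' : R) • v)
    (hcc : c = κ (ZMod.unitOfCoprime q hqN) ^ 2 * c')
    (hu : IsUnit ((q + 1 : ℕ) : R)) (x : H1 (gam N (L * q) hM) ρ)
    (h1 : (Fermat.Agent.H70.Coh.trFam hL).opH ρ x = 0) (h2 : (nuFam hL hq).opH ρ x = 0) :
    (Fermat.Agent.H70.Coh.trFam hL').opH ρ' (E x) = 0 ∧ (nuFam hL' hq).opH ρ' (E x) = 0 := by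
  obtain ⟨w⟩ := nonempty_AL' hq hqL
  obtain ⟨w'⟩ := nonempty_AL' hq hqL'
  set κq : Rˣ := κ (ZMod.unitOfCoprime q hqN) with hκq
  rw [← trFam_eq w hL hq hqL, tr_eq_zero_iff w hL hq hqL hqN c hs hu] at h1
  rw [← trFam_wFam w hL hq hqL, tr_eq_zero_iff w hL hq hqL hqN c hs hu] at h2
  -- transport
  have hU := hE.U hq.pos (dvd_mul_left q L) (dvd_mul_left q L') hqN
  have hW := hE.AL hq.pos (dvd_mul_left q L) hqN (isAL_wFam hL hq.pos w)
    (isAL_wFam hL' hq.pos w')
  have key : ∀ y : H1 (gam N (L * q) hM) ρ, (uFam hM hq.pos (dvd_mul_left q L)).opH ρ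
        ((wFam hL hq.pos w).opH ρ y) = - ((c : R) • y) →
      (uFam hM' hq.pos (dvd_mul_left q L')).opH ρ' ((wFam hL' hq.pos w').opH ρ' (E y)) =
        - ((c' : R) • (E y)) := by
    intro y hy
    have h3 := congrArg E hy
    rw [hU, hW, map_smul, smul_smul, map_neg, map_smul] at h3
    have h4 := congrArg (fun z => (((κq ^ 2)⁻¹ : Rˣ) : R) • z) h3
    simp only [smul_smul, smul_neg] at h4
    rw [← hκq] at h4
    have e1 : (((κq ^ 2)⁻¹ : Rˣ) : R) * ((κq : R) * κq) = 1 := by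
      rw [← Units.val_mul, ← Units.val_mul, ← pow_two, inv_mul_cancel, Units.val_one]
    have e2 : (((κq ^ 2)⁻¹ : Rˣ) : R) * (c : R) = c' := by
      rw [hcc, ← Units.val_mul, inv_mul_cancel_left]
    rw [e1, e2, one_smul] at h4
    exact h4
  constructor
  · rw [← trFam_eq w' hL' hq hqL', tr_eq_zero_iff w' hL' hq hqL' hqN' c' hs' hu]
    exact key x h1
  · rw [← trFam_wFam w' hL' hq hqL', tr_eq_zero_iff w' hL' hq hqL' hqN' c' hs' hu]
    have h5 := key _ h2
    rw [hW] at h5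
    rw [map_smul, map_smul] at h5
    have h6 := congrArg (fun z => (((κq)⁻¹ : Rˣ) : R) • z) h5
    simp only [smul_smul, smul_neg] at h6
    rw [← hκq, Units.inv_mul, one_smul, mul_left_comm, Units.inv_mul, mul_one] at h6
    exact h6

variable {K : Type*} [Field K] {W : Type*} [AddCommGroup W] [Module K W]

lemma aUnit_scal {N n : ℕ} (hn : 0 < n) (hnN : n.Coprime N) :
    aUnit N (scal N hn hnN) = ZMod.unitOfCoprime n hnN := by
  apply Units.ext
  rw [aUnit_val, ZMod.coe_unitOfCoprime, scal_val]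
  simp

lemma slash_scal_psiRep {N n : ℕ} (hn : 0 < n) (hnN : n.Coprime N) (ψ : (ZMod N)ˣ →* Kˣ) (v : W) :
    slash (psiRep ψ W) (scal N hn hnN) v = ((ψ (ZMod.unitOfCoprime n hnN) : Kˣ) : K) • v := by
  rw [slash_psiRep, aUnit_scal]

/-- The version for the twist embedding. -/
theorem TwEmb.traces_psi {N L L' q : ℕ} [NeZero L] [NeZero L'] [NeZero q]
    {hM : N ∣ L * q} {χ : (ZMod N)ˣ →* Kˣ}
    {E : H1 (gam N (L * q) hM) (psiRep (χ ^ 2) W) →ₗ[K]
      H1 (gam 1 (L' * q) (one_dvd _)) (psiRep 1 W)}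
    (hE : TwEmb hM (one_dvd _) (psiRep (χ ^ 2) W) (psiRep 1 W) χ E) (hL : N ∣ L) (hq : q.Prime)
    (hqL : ¬ q ∣ L) (hqL' : ¬ q ∣ L') (hu : ((q + 1 : ℕ) : K) ≠ 0)
    (x : H1 (gam N (L * q) hM) (psiRep (χ ^ 2) W))
    (h1 : (Fermat.Agent.H70.Coh.trFam hL).opH (psiRep (χ ^ 2) W) x = 0)
    (h2 : (nuFam hL hq).opH (psiRep (χ ^ 2) W) x = 0) :
    (Fermat.Agent.H70.Coh.trFam (one_dvd L')).opH (psiRep 1 W) (E x) = 0 ∧
      (nuFam (one_dvd L') hq).opH (psiRep 1 W) (E x) = 0 := by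
  have hqN : q.Coprime N :=
    (Nat.Prime.coprime_iff_not_dvd hq).mpr fun h => hqL (h.trans hL)
  refine hE.traces hL (one_dvd L') hq hqL hqL' hqN (Nat.coprime_one_right q)
    ((χ ^ 2) (ZMod.unitOfCoprime q hqN)) 1 (fun v => slash_scal_psiRep _ _ _ v) (fun v => ?_)
    ?_ (isUnit_iff_ne_zero.mpr hu) x h1 h2
  · rw [slash_scal_psiRep, MonoidHom.one_apply]
  · rw [mul_one]
    rfl

end Old

end Fermat.Agent.H21J

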