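import Fermat.Agent.H70Pres

/-!
# Lifting of cocycles (`H² = 0`) for subgroups of `SL(2, ℤ)` containing `-1`

`Fermat.Agent.H70.exists_lift_cocycle` : if `Γ ≤ SL(2, ℤ)` contains `-1`, `π : V → V'` is a
surjection of `R[Γ]`-modules on which `-1` acts trivially, `2` and `3` are invertible in `R`,
then any cocycle `Γ → V'` lifts to a cocycle `Γ → V`.

`Fermat.Agent.H70.exists_lift_cocycle_of_noThree` : the same when only `2` is invertible and `Γ`
has no elements of order three modulo `± 1`.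
-/

set_option autoImplicit false

open ModularGroup
open scoped MatrixGroups

namespace Fermat.Agent.H70

variable {R : Type*} [CommRing R]

/-- **Existence of cocycles on `SL(2, ℤ)`**, for representations. -/
theorem exists_cocycle_of_rep {W : Type*} [AddCommGroup W] [Module R W]
    (ρ : Representation R SL(2, ℤ) W)
    (hneg : ∀ w : W, ρ (-1) w = w) (x y : W) (hx : x + ρ S x = 0)
    (hy : y + ρ (S * T) y + ρ (S * T * (S * T)) y = 0) :
    ∃ c : SL(2, ℤ) → W, (∀ g h, c (g * h) = c g + ρ g (c h)) ∧ c S = x ∧ c (S * T) = y := by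
  let inst : DistribMulAction SL(2, ℤ) W :=
    { smul := fun g w => ρ g w
      one_smul := fun w => by change ρ 1 w = w; rw [map_one]; rfl
      mul_smul := fun g h w => by change ρ (g * h) w = ρ g (ρ h w); rw [map_mul]; rfl
      smul_zero := fun g => by change ρ g 0 = 0; rw [map_zero]
      smul_add := fun g v w => by change ρ g (v + w) = ρ g v + ρ g w; rw [map_add] }
  exact exists_cocycle_of_relations hneg x y hx hy

section Coind

variable {G : Type*} [Group G] (Γ : Subgroup G) {V : Type*} [AddCommGroup V] [Module R V]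
  (ρ : Representation R Γ V)

/-- The coinduced module. -/
def coindS : Submodule R (G → V) where
  carrier := {f | ∀ (γ : Γ) (g : G), f (γ * g) = ρ γ (f g)}
  add_mem' := by
    intro a b ha hb γ g
    rw [Pi.add_apply, Pi.add_apply, ha, hb, map_add]
  zero_mem' := by intro γ g; simp
  smul_mem' := by
    intro c a ha γ g
    rw [Pi.smul_apply, Pi.smul_apply, ha, map_smul]

lemma mem_coindS {f : G → V} : f ∈ coindS Γ ρ ↔ ∀ (γ : Γ) (g : G), f (γ * g) = ρ γ (f g) :=
  Iff.rfl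

/-- The action of `G` on the coinduced module, by right translations. -/
def coindRep : Representation R G (coindS Γ ρ) where
  toFun h :=
    { toFun := fun f => ⟨fun g => f.1 (g * h), fun γ g => by
        change f.1 (γ * g * h) = ρ γ (f.1 (g * h))
        rw [mul_assoc]; exact f.2 γ (g * h)⟩
      map_add' := fun _ _ => rfl
      map_smul' := fun _ _ => rfl }
  map_one' := by
    ext f g
    simp
  map_mul' h k := by
    ext f g
    simp [mul_assoc]

lemma coindRep_apply (h : G) (f : coindS Γ ρ) (g : G) : (coindRep Γ ρ h f).1 g = f.1 (g * h) := rfl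

/-- Right coset representatives. -/
theorem exists_rightReps : ∃ (r : G → G) (t : G → Γ), (∀ g, g = t g * r g) ∧
    (∀ (γ : Γ) g, r (γ * g) = r g) ∧ ∀ (γ : Γ) g, t (γ * g) = γ * t g := by
  let r : G → G := fun g => (Quotient.mk (QuotientGroup.rightRel Γ) g).out
  have hr : ∀ g, g * (r g)⁻¹ ∈ Γ := by
    intro g
    have h := Quotient.mk_out (s := QuotientGroup.rightRel Γ) g
    exact (QuotientGroup.rightRel_apply.mp h)
  have hr2 : ∀ (γ : Γ) g, r (γ * g) = r g := by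
    intro γ g
    have : (Quotient.mk (QuotientGroup.rightRel Γ) (γ * g)) = Quotient.mk _ g := by
      apply Quotient.sound
      change QuotientGroup.rightRel Γ _ _
      rw [QuotientGroup.rightRel_apply, mul_inv_rev, mul_inv_cancel_left]
      exact Subgroup.inv_mem _ γ.2
    exact congrArg Quotient.out this
  refine ⟨r, fun g => ⟨g * (r g)⁻¹, hr g⟩, fun g => by simp, hr2, fun γ g => ?_⟩
  apply Subtype.ext
  change γ * g * (r (γ * g))⁻¹ = γ * (g * (r g)⁻¹)
  rw [hr2, mul_assoc]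

variable {V' : Type*} [AddCommGroup V'] [Module R V'] (ρ' : Representation R Γ V')

/-- The induced map on coinduced modules. -/
def coindMap (π : V →ₗ[R] V') (hπ : ∀ γ v, π (ρ γ v) = ρ' γ (π v)) :
    coindS Γ ρ →ₗ[R] coindS Γ ρ' where
  toFun f := ⟨fun g => π (f.1 g), fun γ g => by
    change π (f.1 (γ * g)) = ρ' γ (π (f.1 g))
    rw [f.2 γ g, hπ]⟩
  map_add' a b := by ext g; change π (a.1 g + b.1 g) = _; rw [map_add]; rfl
  map_smul' c a := by ext g; change π (c • a.1 g) = _; rw [map_smul]; rfl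

lemma coindMap_surjective {π : V →ₗ[R] V'} (hπ : ∀ γ v, π (ρ γ v) = ρ' γ (π v))
    (hs : Function.Surjective π) : Function.Surjective (coindMap Γ ρ ρ' π hπ) := by
  obtain ⟨r, t, h1, h2, h3⟩ := exists_rightReps Γ
  intro f'
  choose q hq using hs
  refine ⟨⟨fun g => ρ (t g) (q (f'.1 (r g))), fun γ g => ?_⟩, ?_⟩
  · change ρ (t (γ * g)) (q (f'.1 (r (γ * g)))) = ρ γ (ρ (t g) (q (f'.1 (r g))))
    rw [h2, h3, map_mul]
    rfl
  · apply Subtype.ext
    funext g
    change π (ρ (t g) (q (f'.1 (r g)))) = f'.1 g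
    rw [hπ, hq, ← f'.2 (t g) (r g), ← h1]

end Coind

/-- **Shapiro-type reduction.** If cocycles of `SL(2, ℤ)` in the coinduced module of `V'`
with values at `S` and `ST` can be lifted, then cocycles of `Γ` in `V'` can be lifted. -/
theorem exists_lift_of_coind {Γ : Subgroup SL(2, ℤ)} (hΓ : (-1 : SL(2, ℤ)) ∈ Γ)
    {V V' : Type*} [AddCommGroup V] [Module R V] [AddCommGroup V'] [Module R V']
    (ρ : Representation R Γ V) (ρ' : Representation R Γ V')
    (π : V →ₗ[R] V') (hπ : ∀ γ v, π (ρ γ v) = ρ' γ (π v)) (hs : Function.Surjective π)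
    (hneg : ∀ v, ρ ⟨-1, hΓ⟩ v = v)
    (hx : ∀ x' : coindS Γ ρ', x' + coindRep Γ ρ' S x' = 0 →
      ∃ x : coindS Γ ρ, coindMap Γ ρ ρ' π hπ x = x' ∧ x + coindRep Γ ρ S x = 0)
    (hy : ∀ y' : coindS Γ ρ', y' + coindRep Γ ρ' (S * T) y' +
        coindRep Γ ρ' (S * T * (S * T)) y' = 0 →
      ∃ y : coindS Γ ρ, coindMap Γ ρ ρ' π hπ y = y' ∧
        y + coindRep Γ ρ (S * T) y + coindRep Γ ρ (S * T * (S * T)) y = 0)
    (c' : Γ → V') (hc' : ∀ γ δ, c' (γ * δ) = c' γ + ρ' γ (c' δ)) (hc'1 : c' ⟨-1, hΓ⟩ = 0) :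
    ∃ c : Γ → V, (∀ γ δ, c (γ * δ) = c γ + ρ γ (c δ)) ∧ ∀ γ, π (c γ) = c' γ := by
  obtain ⟨r, t, h1, h2, h3⟩ := exists_rightReps Γ
  have hneg' : ∀ v, ρ' ⟨-1, hΓ⟩ v = v := by
    intro v
    obtain ⟨w, rfl⟩ := hs v
    rw [← hπ, hneg]
  -- the function `F'`
  let F' : SL(2, ℤ) → V' := fun g => c' (t g)
  have hF' : ∀ (γ : Γ) g, F' (γ * g) = ρ' γ (F' g) + c' γ := by
    intro γ g
    change c' (t (γ * g)) = ρ' γ (c' (t g)) + c' γ
    rw [h3, hc', add_comm]
  -- the cocycle `C'`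
  let C' : SL(2, ℤ) → coindS Γ ρ' := fun h => ⟨fun g => F' (g * h) - F' g, fun γ g => by
    change F' (γ * g * h) - F' (γ * g) = ρ' γ (F' (g * h) - F' g)
    rw [mul_assoc, hF', hF', map_sub]
    abel⟩
  have hC'val : ∀ h g, (C' h).1 g = F' (g * h) - F' g := fun _ _ => rfl
  have hC' : ∀ h k, C' (h * k) = C' h + coindRep Γ ρ' h (C' k) := by
    intro h k
    apply Subtype.ext
    funext g
    change F' (g * (h * k)) - F' g = (F' (g * h) - F' g) + (F' (g * h * k) - F' (g * h))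
    rw [mul_assoc]
    abel
  have hC'neg : C' (-1) = 0 := by
    apply Subtype.ext
    funext g
    change F' (g * (-1)) - F' g = 0
    have : g * (-1) = ((⟨-1, hΓ⟩ : Γ) : SL(2, ℤ)) * g := by
      change g * (-1) = -1 * g
      simp
    rw [this, hF', hneg', hc'1]
    simp
  obtain ⟨x, hx1, hx2⟩ := hx (C' S) (by
    rw [← hC', ← pow_two, S_sq, hC'neg])
  obtain ⟨y, hy1, hy2⟩ := hy (C' (S * T)) (by
    have h3 : S * T * (S * T) * (S * T) = (-1 : SL(2, ℤ)) := by decide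
    have h4 : C' (S * T * (S * T) * (S * T)) = 0 := by rw [h3, hC'neg]
    rw [hC', hC'] at h4
    exact h4)
  obtain ⟨C, hC, hCS, hCU⟩ := exists_cocycle_of_rep (coindRep Γ ρ) (by
    intro w
    apply Subtype.ext
    funext g
    change w.1 (g * (-1)) = w.1 g
    have : g * (-1) = ((⟨-1, hΓ⟩ : Γ) : SL(2, ℤ)) * g := by
      change g * (-1) = -1 * g
      simp
    rw [this, w.2, hneg]) x y hx2 hy2
  -- `C` lifts `C'`
  have hCC' : ∀ g, coindMap Γ ρ ρ' π hπ (C g) = C' g := by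
    have hequiv : ∀ g w, coindMap Γ ρ ρ' π hπ (coindRep Γ ρ g w) =
        coindRep Γ ρ' g (coindMap Γ ρ ρ' π hπ w) := fun g w => rfl
    intro g
    have hg : g ∈ Subgroup.closure ({S, S * T} : Set SL(2, ℤ)) := by
      have h1 : (⊤ : Subgroup SL(2, ℤ)) ≤ Subgroup.closure ({S, S * T} : Set SL(2, ℤ)) := by
        rw [← SpecialLinearGroup.SL2Z_generators, Subgroup.closure_le]
        have hS : (S : SL(2, ℤ)) ∈ Subgroup.closure ({S, S * T} : Set SL(2, ℤ)) :=
          Subgroup.subset_closure (by simp)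
        have hST : (S * T : SL(2, ℤ)) ∈ Subgroup.closure ({S, S * T} : Set SL(2, ℤ)) :=
          Subgroup.subset_closure (by simp)
        rintro z (rfl | rfl)
        · exact hS
        · have h2 := Subgroup.mul_mem _ (Subgroup.inv_mem _ hS) hST
          rwa [inv_mul_cancel_left] at h2
      exact h1 trivial
    have hC1 : C 1 = 0 := by
      have := hC 1 1
      rw [mul_one, map_one] at this
      have h5 : C 1 = C 1 + C 1 := this
      simpa using h5
    have hC'1 : C' 1 = 0 := by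
      have := hC' 1 1
      rw [mul_one, map_one] at this
      have h5 : C' 1 = C' 1 + C' 1 := this
      simpa using h5
    induction hg using Subgroup.closure_induction with
    | mem z hz =>
      rcases hz with rfl | rfl
      · rw [hCS, hx1]
      · rw [hCU, hy1]
    | one => rw [hC1, hC'1, map_zero]
    | mul a b _ _ ha hb => rw [hC, hC', map_add, hequiv, ha, hb]
    | inv a _ ha =>
      have e1 : C a⁻¹ = - coindRep Γ ρ a⁻¹ (C a) := by
        have := hC a⁻¹ a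
        rw [inv_mul_cancel, hC1] at this
        exact eq_neg_of_add_eq_zero_left this.symm
      have e2 : C' a⁻¹ = - coindRep Γ ρ' a⁻¹ (C' a) := by
        have := hC' a⁻¹ a
        rw [inv_mul_cancel, hC'1] at this
        exact eq_neg_of_add_eq_zero_left this.symm
      rw [e1, e2, map_neg, hequiv, ha]
  obtain ⟨v, hv⟩ := hs (F' 1)
  refine ⟨fun γ => (C (γ : SL(2, ℤ))).1 1 - ρ γ v + v, ?_, ?_⟩
  · intro γ δ
    have h5 : (C ((γ * δ : Γ) : SL(2, ℤ))).1 1 =
        (C (γ : SL(2, ℤ))).1 1 + ρ γ ((C (δ : SL(2, ℤ))).1 1) := by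
      rw [Subgroup.coe_mul, hC]
      change (C (γ : SL(2, ℤ))).1 1 + (C (δ : SL(2, ℤ))).1 (1 * γ) = _
      have h6 := (C (δ : SL(2, ℤ))).2 γ 1
      rw [one_mul, ← h6, mul_one]
    change (C ((γ * δ : Γ) : SL(2, ℤ))).1 1 - ρ (γ * δ) v + v =
      (C (γ : SL(2, ℤ))).1 1 - ρ γ v + v + ρ γ ((C (δ : SL(2, ℤ))).1 1 - ρ δ v + v)
    rw [h5, map_add, map_sub, map_mul]
    change _ - ρ γ (ρ δ v) + v = _
    abel
  · intro γ
    change π ((C (γ : SL(2, ℤ))).1 1 - ρ γ v + v) = c' γ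
    have h7 : π ((C (γ : SL(2, ℤ))).1 1) = (C' (γ : SL(2, ℤ))).1 1 := by
      rw [← hCC']; rfl
    rw [map_add, map_sub, h7, hC'val, hπ, hv, one_mul]
    have h8 := hF' γ 1
    rw [mul_one] at h8
    rw [h8]
    abel

/-- A weight function for the element `u`: `Γ`-invariant with
sum over `{g, gu, …, g u^(n-1)}` equal to one. -/
structure OrbitWeight (R : Type*) [CommRing R] (Γ : Subgroup SL(2, ℤ)) where
  /-- weight for `S` -/
  χ₂ : SL(2, ℤ) → R
  inv₂ : ∀ (γ : Γ) g, χ₂ (γ * g) = χ₂ g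
  sum₂ : ∀ g, χ₂ g + χ₂ (g * S) = 1
  /-- weight for `ST` -/
  χ₃ : SL(2, ℤ) → R
  inv₃ : ∀ (γ : Γ) g, χ₃ (γ * g) = χ₃ g
  sum₃ : ∀ g, χ₃ g + χ₃ (g * (S * T)) + χ₃ (g * (S * T * (S * T))) = 1

/-- **Lifting of cocycles**, assuming the existence of orbit weights. -/
theorem exists_lift_cocycle_of_weight {Γ : Subgroup SL(2, ℤ)} (hΓ : (-1 : SL(2, ℤ)) ∈ Γ)
    (χ : OrbitWeight R Γ)
    {V V' : Type*} [AddCommGroup V] [Module R V] [AddCommGroup V'] [Module R V']
    (ρ : Representation R Γ V) (ρ' : Representation R Γ V')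
    (π : V →ₗ[R] V') (hπ : ∀ γ v, π (ρ γ v) = ρ' γ (π v)) (hs : Function.Surjective π)
    (hneg : ∀ v, ρ ⟨-1, hΓ⟩ v = v)
    (c' : Γ → V') (hc' : ∀ γ δ, c' (γ * δ) = c' γ + ρ' γ (c' δ)) (hc'1 : c' ⟨-1, hΓ⟩ = 0) :
    ∃ c : Γ → V, (∀ γ δ, c (γ * δ) = c γ + ρ γ (c δ)) ∧ ∀ γ, π (c γ) = c' γ := by
  have hnegW : ∀ (w : coindS Γ ρ) (g : SL(2, ℤ)), w.1 (g * (-1)) = w.1 g := by
    intro w g
    have : g * (-1) = ((⟨-1, hΓ⟩ : Γ) : SL(2, ℤ)) * g := by
      change g * (-1) = -1 * g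
      simp
    rw [this, w.2, hneg]
  refine exists_lift_of_coind hΓ ρ ρ' π hπ hs hneg ?_ ?_ c' hc' hc'1
  · intro x' hx'
    obtain ⟨z, hz⟩ := coindMap_surjective Γ ρ ρ' hπ hs x'
    have he : ∀ (γ : Γ) g, z.1 (γ * g) + z.1 (γ * g * S) = ρ γ (z.1 g + z.1 (g * S)) := by
      intro γ g
      rw [mul_assoc, z.2, z.2, map_add]
    have hπe : ∀ g, π (z.1 g + z.1 (g * S)) = 0 := by
      intro g
      have h1 := congrFun (congrArg Subtype.val hx') g
      rw [← hz] at h1
      change π (z.1 g) + π (z.1 (g * S)) = 0 at h1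
      rw [map_add, h1]
    refine ⟨⟨fun g => z.1 g - χ.χ₂ g • (z.1 g + z.1 (g * S)), fun γ g => ?_⟩, ?_, ?_⟩
    · change z.1 (γ * g) - χ.χ₂ (γ * g) • (z.1 (γ * g) + z.1 (γ * g * S)) =
        ρ γ (z.1 g - χ.χ₂ g • (z.1 g + z.1 (g * S)))
      rw [he, χ.inv₂, z.2, map_sub, map_smul]
    · apply Subtype.ext
      funext g
      change π (z.1 g - χ.χ₂ g • (z.1 g + z.1 (g * S))) = x'.1 g
      rw [map_sub, map_smul, hπe, smul_zero, sub_zero, ← hz]
      rfl
    · apply Subtype.ext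
      funext g
      change z.1 g - χ.χ₂ g • (z.1 g + z.1 (g * S)) +
        (z.1 (g * S) - χ.χ₂ (g * S) • (z.1 (g * S) + z.1 (g * S * S))) = 0
      have h1 : z.1 (g * S * S) = z.1 g := by
        rw [mul_assoc, ← pow_two, S_sq, hnegW]
      rw [h1]
      have h2 := congrArg (fun r : R => r • (z.1 g + z.1 (g * S))) (χ.sum₂ g)
      simp only [add_smul, one_smul] at h2
      rw [add_comm (z.1 (g * S)) (z.1 g)]
      calc _ = (z.1 g + z.1 (g * S)) - (χ.χ₂ g • (z.1 g + z.1 (g * S)) +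
            χ.χ₂ (g * S) • (z.1 g + z.1 (g * S))) := by abel
        _ = 0 := by rw [h2, sub_self]
  · intro y' hy'
    obtain ⟨z, hz⟩ := coindMap_surjective Γ ρ ρ' hπ hs y'
    let e : SL(2, ℤ) → V := fun g => z.1 g + z.1 (g * (S * T)) + z.1 (g * (S * T * (S * T)))
    have he : ∀ (γ : Γ) g, e (γ * g) = ρ γ (e g) := by
      intro γ g
      change z.1 (γ * g) + z.1 (γ * g * (S * T)) + z.1 (γ * g * (S * T * (S * T))) =
        ρ γ (z.1 g + z.1 (g * (S * T)) + z.1 (g * (S * T * (S * T))))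
      rw [mul_assoc, mul_assoc, z.2, z.2, z.2, map_add, map_add]
    have h3 : S * T * (S * T) * (S * T) = (-1 : SL(2, ℤ)) := by decide
    have heU : ∀ g, e (g * (S * T)) = e g := by
      intro g
      change z.1 (g * (S * T)) + z.1 (g * (S * T) * (S * T)) +
        z.1 (g * (S * T) * (S * T * (S * T))) =
        z.1 g + z.1 (g * (S * T)) + z.1 (g * (S * T * (S * T)))
      have h4 : g * (S * T) * (S * T * (S * T)) = g * (-1) := by
        rw [mul_assoc, ← mul_assoc (S * T) (S * T) (S * T), h3]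
      have h5 : g * (S * T) * (S * T) = g * (S * T * (S * T)) := by rw [mul_assoc]
      rw [h4, h5, hnegW]
      abel
    have heUU : ∀ g, e (g * (S * T * (S * T))) = e g := by
      intro g
      rw [← mul_assoc g, heU, heU]
    have hπe : ∀ g, π (e g) = 0 := by
      intro g
      have h1 := congrFun (congrArg Subtype.val hy') g
      rw [← hz] at h1
      change π (z.1 g) + π (z.1 (g * (S * T))) + π (z.1 (g * (S * T * (S * T)))) = 0 at h1
      change π (z.1 g + z.1 (g * (S * T)) + z.1 (g * (S * T * (S * T)))) = 0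
      rw [map_add, map_add, h1]
    refine ⟨⟨fun g => z.1 g - χ.χ₃ g • e g, fun γ g => ?_⟩, ?_, ?_⟩
    · change z.1 (γ * g) - χ.χ₃ (γ * g) • e (γ * g) = ρ γ (z.1 g - χ.χ₃ g • e g)
      rw [he, χ.inv₃, z.2, map_sub, map_smul]
    · apply Subtype.ext
      funext g
      change π (z.1 g - χ.χ₃ g • e g) = y'.1 g
      rw [map_sub, map_smul, hπe, smul_zero, sub_zero, ← hz]
      rfl
    · apply Subtype.ext
      funext g
      change z.1 g - χ.χ₃ g • e g +
        (z.1 (g * (S * T)) - χ.χ₃ (g * (S * T)) • e (g * (S * T))) +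
        (z.1 (g * (S * T * (S * T))) - χ.χ₃ (g * (S * T * (S * T))) •
          e (g * (S * T * (S * T)))) = 0
      rw [heU, heUU]
      have h2 := congrArg (fun r : R => r • e g) (χ.sum₃ g)
      simp only [add_smul, one_smul] at h2
      calc _ = e g - (χ.χ₃ g • e g + χ.χ₃ (g * (S * T)) • e g +
            χ.χ₃ (g * (S * T * (S * T))) • e g) := by
              change _ = (z.1 g + z.1 (g * (S * T)) + z.1 (g * (S * T * (S * T)))) - _
              abel
        _ = 0 := by rw [h2, sub_self]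

/-- Orbit weights when `6` is invertible. -/
noncomputable def orbitWeightOfUnit (Γ : Subgroup SL(2, ℤ)) (h2 : IsUnit (2 : R))
    (h3 : IsUnit (3 : R)) : OrbitWeight R Γ where
  χ₂ := fun _ => ((h2.unit⁻¹ : Rˣ) : R)
  inv₂ := fun _ _ => rfl
  sum₂ := fun _ => by
    have := h2.mul_val_inv
    linear_combination this
  χ₃ := fun _ => ((h3.unit⁻¹ : Rˣ) : R)
  inv₃ := fun _ _ => rfl
  sum₃ := fun _ => by
    have := h3.mul_val_inv
    linear_combination this

/-- Orbit weights when `2` is invertible and `Γ` has no `3`-torsion modulo `± 1`. -/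
theorem nonempty_orbitWeight_of_noThree {Γ : Subgroup SL(2, ℤ)} (hΓ : (-1 : SL(2, ℤ)) ∈ Γ)
    (h2 : IsUnit (2 : R)) (h3 : ∀ g : SL(2, ℤ), g * (S * T) * g⁻¹ ∉ Γ) :
    Nonempty (OrbitWeight R Γ) := by
  classical
  -- representatives of double cosets
  let U : SL(2, ℤ) := S * T
  have hU3 : U ^ 3 = -1 := ST_cube
  have hneg : ∀ g : SL(2, ℤ), g * (-1) * g⁻¹ = -1 := by
    intro g
    have : g * (-1) = -1 * g := by simp
    rw [this, mul_inv_cancel_right]
  have hpow : ∀ (g : SL(2, ℤ)) (k : ℤ), g * U ^ k * g⁻¹ ∈ Γ ↔ (3 : ℤ) ∣ k := by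
    intro g k
    have hcube : ∀ m : ℤ, g * U ^ (3 * m) * g⁻¹ ∈ Γ := by
      intro m
      have : g * U ^ (3 * m) * g⁻¹ = (g * (-1) * g⁻¹) ^ m := by
        rw [zpow_mul, ← conj_zpow]
        congr 3
      rw [this, hneg]
      exact Subgroup.zpow_mem _ hΓ m
    constructor
    · intro hk
      by_contra hnd
      have hmod : k % 3 = 1 ∨ k % 3 = 2 := by omega
      have hk' : k = k % 3 + 3 * (k / 3) := by omega
      have h5 : g * U ^ (k % 3) * g⁻¹ ∈ Γ := by
        have h6 : g * U ^ (k % 3) * g⁻¹ = (g * U ^ k * g⁻¹) * (g * U ^ (3 * (k / 3)) * g⁻¹)⁻¹ := by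
          conv_rhs => rw [hk', zpow_add]
          have h7 : (k % 3 + 3 * (k / 3)) / 3 = k / 3 := by omega
          rw [h7]
          group
        rw [h6]
        exact Subgroup.mul_mem _ hk (Subgroup.inv_mem _ (hcube _))
      rcases hmod with h | h
      · rw [h, zpow_one] at h5
        exact h3 g h5
      · rw [h] at h5
        have h8 : g * U * g⁻¹ = (g * U ^ (2 : ℤ) * g⁻¹) * (g * U ^ (2 : ℤ) * g⁻¹) *
            (g * U ^ (3 * (1 : ℤ)) * g⁻¹)⁻¹ := by group
        exact h3 g (by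
          change g * U * g⁻¹ ∈ Γ
          rw [h8]
          exact Subgroup.mul_mem _ (Subgroup.mul_mem _ h5 h5) (Subgroup.inv_mem _ (hcube _)))
    · rintro ⟨m, rfl⟩
      exact hcube m
  -- double coset representatives
  let r : SL(2, ℤ) → SL(2, ℤ) := fun g => (DoubleCoset.mk Γ (Subgroup.zpowers U) g).out
  have hr : ∀ g, ∃ h ∈ Γ, ∃ k : ℤ, g = h * r g * U ^ k := by
    intro g
    obtain ⟨h, u, hh, ⟨k, rfl⟩, hk⟩ := DoubleCoset.mk_out_eq_mul Γ (Subgroup.zpowers U) g
    refine ⟨h⁻¹, Γ.inv_mem hh, -k, ?_⟩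
    change g = h⁻¹ * (DoubleCoset.mk Γ (Subgroup.zpowers U) g).out * U ^ (-k)
    rw [hk]
    group
  have hrinv : ∀ (γ : SL(2, ℤ)) (_ : γ ∈ Γ) g (k : ℤ), r (γ * g * U ^ k) = r g := by
    intro γ hγ g k
    have : DoubleCoset.mk Γ (Subgroup.zpowers U) (γ * g * U ^ k) =
        DoubleCoset.mk Γ (Subgroup.zpowers U) g :=
      ((DoubleCoset.eq Γ (Subgroup.zpowers U) _ _).mpr ⟨γ, hγ, U ^ k, ⟨k, rfl⟩, rfl⟩).symm
    exact congrArg Quotient.out this
  have hmem : ∀ (γ x : SL(2, ℤ)) (_ : γ ∈ Γ), γ * x ∈ Γ ↔ x ∈ Γ := fun γ x hγ =>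
    Subgroup.mul_mem_cancel_left Γ hγ
  refine ⟨⟨fun _ => ((h2.unit⁻¹ : Rˣ) : R), fun _ _ => rfl, fun _ => ?_,
    fun g => if g * (r g)⁻¹ ∈ Γ then 1 else 0, fun γ g => ?_, fun g => ?_⟩⟩
  · have := h2.mul_val_inv
    linear_combination this
  · have h5 : r (γ * g) = r g := by
      have := hrinv γ γ.2 g 0
      rwa [zpow_zero, mul_one] at this
    have h6 : ((γ : SL(2, ℤ)) * g * (r (γ * g))⁻¹ ∈ Γ) ↔ (g * (r g)⁻¹ ∈ Γ) := by
      rw [h5, mul_assoc]
      exact hmem _ _ γ.2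
    simp only [h6]
  · obtain ⟨h, hh, k, hk⟩ := hr g
    have key : ∀ j : ℤ, (g * U ^ j * (r (g * U ^ j))⁻¹ ∈ Γ) ↔ (3 : ℤ) ∣ k + j := by
      intro j
      have h5 : r (g * U ^ j) = r g := by
        have := hrinv 1 Γ.one_mem g j
        rwa [one_mul] at this
      have h6 : g * U ^ j * (r g)⁻¹ = h * (r g * U ^ (k + j) * (r g)⁻¹) := by
        conv_lhs => rw [hk]
        rw [zpow_add]
        have h7 : r (h * r g * U ^ k) = r g := by rw [← hk]
        rw [h7]
        group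
      rw [h5, h6, hmem _ _ hh, hpow]
    have k0 : (g * (r g)⁻¹ ∈ Γ) ↔ (3 : ℤ) ∣ k := by
      have := key 0
      rwa [zpow_zero, mul_one, add_zero] at this
    have k1 : (g * (S * T) * (r (g * (S * T)))⁻¹ ∈ Γ) ↔ (3 : ℤ) ∣ k + 1 := by
      have := key 1
      rwa [zpow_one] at this
    have k2 : (g * (S * T * (S * T)) * (r (g * (S * T * (S * T))))⁻¹ ∈ Γ) ↔ (3 : ℤ) ∣ k + 2 := by
      have := key 2
      have h8 : U ^ (2 : ℤ) = S * T * (S * T) := by rw [zpow_two]
      rwa [h8] at this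
    simp only [k0, k1, k2]
    rcases (by omega : k % 3 = 0 ∨ k % 3 = 1 ∨ k % 3 = 2) with h9 | h9 | h9
    · have a0 : (3 : ℤ) ∣ k := by omega
      have a1 : ¬ (3 : ℤ) ∣ k + 1 := by omega
      have a2 : ¬ (3 : ℤ) ∣ k + 2 := by omega
      simp [a0, a1, a2]
    · have a0 : ¬ (3 : ℤ) ∣ k := by omega
      have a1 : ¬ (3 : ℤ) ∣ k + 1 := by omega
      have a2 : (3 : ℤ) ∣ k + 2 := by omega
      simp [a0, a1, a2]
    · have a0 : ¬ (3 : ℤ) ∣ k := by omega
      have a1 : (3 : ℤ) ∣ k + 1 := by omega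
      have a2 : ¬ (3 : ℤ) ∣ k + 2 := by omega
      simp [a0, a1, a2]

end Fermat.Agent.H70
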