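import Fermat.Agent.H70HeckeRel
import Fermat.Agent.H70Lift

/-!
# The coefficient modules `W_ψ`, universal crossed homomorphisms, projectivity of `Z¹`

* `aUnit N : DN N →* (ZMod N)ˣ`, `α ↦ a`.
* `psiRep ψ W` : the right action of `DN N` on an `R`-module `W` through `ψ : (ZMod N)ˣ →* Rˣ`.
* `UD Γ χ` : the universal module with `(γδ) = χ(δ) (γ) + (δ)`.
-/

set_option autoImplicit false

open CongruenceSubgroup Matrix.SpecialLinearGroup
open scoped MatrixGroups

noncomputable section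

namespace Fermat.Agent.H70.Coh

/-- the upper left entry, as a homomorphism to `ZMod N` -/
def aHom (N : ℕ) : DN N →* ZMod N where
  toFun α := ((α.1 0 0 : ℤ) : ZMod N)
  map_one' := by simp
  map_mul' α β := by
    have h : (α * β).1 0 0 = α.1 0 0 * β.1 0 0 + α.1 0 1 * β.1 1 0 := by
      change (α.1 * β.1) 0 0 = _
      rw [Matrix.mul_apply, Fin.sum_univ_two]
    have h2 : ((β.1 1 0 : ℤ) : ZMod N) = 0 := (ZMod.intCast_zmod_eq_zero_iff_dvd _ _).mpr β.2.2.1
    rw [h]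
    push_cast
    rw [h2]
    ring

lemma aHom_isUnit {N : ℕ} (α : DN N) : IsUnit (aHom N α) := by
  obtain ⟨u, v, h⟩ := α.2.2.2
  have h2 := congrArg (Int.cast : ℤ → ZMod N) h
  push_cast at h2
  rw [ZMod.natCast_self, mul_zero, add_zero] at h2
  exact IsUnit.of_mul_eq_one _ (by rw [mul_comm]; exact h2)

/-- the upper left entry, as a homomorphism to `(ZMod N)ˣ` -/
def aUnit (N : ℕ) : DN N →* (ZMod N)ˣ where
  toFun α := (aHom_isUnit α).unit
  map_one' := Units.ext (by rw [IsUnit.unit_spec, map_one]; rfl)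
  map_mul' α β := Units.ext (by
    rw [IsUnit.unit_spec, map_mul, Units.val_mul, IsUnit.unit_spec, IsUnit.unit_spec])

lemma aUnit_val {N : ℕ} (α : DN N) : ((aUnit N α : (ZMod N)ˣ) : ZMod N) = ((α.1 0 0 : ℤ) : ZMod N) :=
  rfl

section Psi

variable {N : ℕ} {R : Type*} [CommRing R] (ψ : (ZMod N)ˣ →* Rˣ)
  (W : Type*) [AddCommGroup W] [Module R W]

/-- `W_ψ` -/
def psiRep : DN N →* (Module.End R W)ᵐᵒᵖ where
  toFun α := MulOpposite.op (((ψ (aUnit N α) : Rˣ) : R) • (1 : Module.End R W))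
  map_one' := by
    rw [map_one, map_one, Units.val_one, one_smul]
    rfl
  map_mul' α β := by
    rw [map_mul, map_mul, Units.val_mul, ← MulOpposite.op_mul]
    congr 1
    rw [smul_mul_smul_comm, one_mul, mul_comm]

variable {W}

lemma slash_psiRep (α : DN N) (w : W) :
    slash (psiRep ψ W) α w = ((ψ (aUnit N α) : Rˣ) : R) • w := rfl

end Psi

section Map

variable {S : Type*} [Monoid S] {R : Type*} [CommRing R]
  {V V' : Type*} [AddCommGroup V] [Module R V] [AddCommGroup V'] [Module R V']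
  {Γ Γ' : Type*} [Group Γ] [Group Γ'] {ι : Γ →* S} {ι' : Γ' →* S}
  {ρ : S →* (Module.End R V)ᵐᵒᵖ} {ρ' : S →* (Module.End R V')ᵐᵒᵖ}

/-- functoriality of cocycles in the coefficients -/
def Z1.map (f : V →ₗ[R] V') (hf : ∀ s v, f (slash ρ s v) = slash ρ' s (f v)) :
    Z1 ι ρ →ₗ[R] Z1 ι ρ' where
  toFun c := ⟨fun γ => f (c.1 γ), fun γ δ => by
    change f (c.1 (γ * δ)) = slash ρ' (ι δ) (f (c.1 γ)) + f (c.1 δ)
    rw [c.2, map_add, hf]⟩
  map_add' a b := by apply Subtype.ext; funext γ; exact map_add f _ _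
  map_smul' r a := by apply Subtype.ext; funext γ; exact map_smul f _ _

lemma Z1.map_apply (f : V →ₗ[R] V') (hf : ∀ s v, f (slash ρ s v) = slash ρ' s (f v))
    (c : Z1 ι ρ) (γ : Γ) : (Z1.map f hf c).1 γ = f (c.1 γ) := rfl

lemma Z1.map_cob (f : V →ₗ[R] V') (hf : ∀ s v, f (slash ρ s v) = slash ρ' s (f v)) (v : V) :
    Z1.map (ι := ι) f hf (cob ι ρ v) = cob ι ρ' (f v) := by
  apply Subtype.ext
  funext γ
  change f (slash ρ (ι γ) v - v) = slash ρ' (ι γ) (f v) - f v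
  rw [map_sub, hf]

/-- functoriality of `H¹` in the coefficients -/
def H1.map (f : V →ₗ[R] V') (hf : ∀ s v, f (slash ρ s v) = slash ρ' s (f v)) :
    H1 ι ρ →ₗ[R] H1 ι ρ' :=
  Submodule.mapQ _ _ (Z1.map f hf) (by
    rintro _ ⟨v, rfl⟩
    rw [Submodule.mem_comap, Z1.map_cob]
    exact ⟨_, rfl⟩)

lemma H1.map_mk (f : V →ₗ[R] V') (hf : ∀ s v, f (slash ρ s v) = slash ρ' s (f v)) (c : Z1 ι ρ) :
    H1.map (ι := ι) f hf (H1.mk ι ρ c) = H1.mk ι ρ' (Z1.map f hf c) := rfl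

lemma op_map [HFam.IsFreeOn ι] (h : HFam ι ι') (f : V →ₗ[R] V')
    (hf : ∀ s v, f (slash ρ s v) = slash ρ' s (f v)) (c : Z1 ι ρ) :
    h.op ρ' (Z1.map f hf c) = Z1.map f hf (h.op ρ c) := by
  apply Subtype.ext
  funext γ'
  rw [HFam.op_apply, Z1.map_apply, HFam.op_apply, map_sum]
  refine Finset.sum_congr rfl fun i _ => ?_
  rw [hf, Z1.map_apply]

lemma opH_map [HFam.IsFreeOn ι] (h : HFam ι ι') (f : V →ₗ[R] V')
    (hf : ∀ s v, f (slash ρ s v) = slash ρ' s (f v)) (x : H1 ι ρ) :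
    h.opH ρ' (H1.map f hf x) = H1.map f hf (h.opH ρ x) := by
  obtain ⟨c, rfl⟩ := Submodule.mkQ_surjective _ x
  change H1.mk ι' ρ' (h.op ρ' (Z1.map f hf c)) = H1.mk ι' ρ' (Z1.map f hf (h.op ρ c))
  rw [op_map]

end Map

/-! ### The universal module -/

section UD

variable {R : Type*} [CommRing R] {Γ : Type*} [Group Γ] (χ : Γ →* Rˣ)

/-- relations -/
def udRel : Submodule R (Γ →₀ R) :=
  Submodule.span R (Set.range fun p : Γ × Γ =>
    Finsupp.single (p.1 * p.2) (1 : R) - ((χ p.2 : Rˣ) : R) • Finsupp.single p.1 (1 : R) -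
      Finsupp.single p.2 (1 : R))

/-- the universal module for `χ`-crossed homomorphisms -/
abbrev UD := (Γ →₀ R) ⧸ udRel χ

/-- the universal crossed homomorphism -/
def ud (γ : Γ) : UD χ := (udRel χ).mkQ (Finsupp.single γ 1)

lemma ud_mul (γ δ : Γ) : ud χ (γ * δ) = ((χ δ : Rˣ) : R) • ud χ γ + ud χ δ := by
  have h : (udRel χ).mkQ (Finsupp.single (γ * δ) (1 : R) -
      ((χ δ : Rˣ) : R) • Finsupp.single γ (1 : R) - Finsupp.single δ (1 : R)) = 0 := by
    rw [Submodule.mkQ_apply, Submodule.Quotient.mk_eq_zero]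
    exact Submodule.subset_span ⟨(γ, δ), rfl⟩
  rw [map_sub, map_sub, map_smul, sub_sub, sub_eq_zero] at h
  exact h

lemma ud_span : Submodule.span R (Set.range (ud χ)) = ⊤ := by
  have h1 : Submodule.span R (Set.range fun γ : Γ => Finsupp.single γ (1 : R)) = ⊤ := by
    rw [eq_top_iff]
    rintro x -
    induction x using Finsupp.induction_linear with
    | zero => exact Submodule.zero_mem _
    | add f g hf hg => exact Submodule.add_mem _ hf hg
    | single a b =>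
      rw [← mul_one b, ← smul_eq_mul, ← Finsupp.smul_single]
      exact Submodule.smul_mem _ _ (Submodule.subset_span ⟨a, rfl⟩)
  have h2 := congrArg (Submodule.map (udRel χ).mkQ) h1
  rw [Submodule.map_span, ← Set.range_comp, Submodule.map_top, Submodule.range_mkQ] at h2
  exact h2

variable {W : Type*} [AddCommGroup W] [Module R W]

/-- the universal property -/
def udLift (c : Γ → W) (hc : ∀ γ δ, c (γ * δ) = ((χ δ : Rˣ) : R) • c γ + c δ) : UD χ →ₗ[R] W :=
  (udRel χ).liftQ (Finsupp.linearCombination R c) (by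
    unfold udRel
    rw [Submodule.span_le]
    rintro _ ⟨⟨γ, δ⟩, rfl⟩
    change Finsupp.linearCombination R c _ = 0
    rw [map_sub, map_sub, map_smul, Finsupp.linearCombination_single,
      Finsupp.linearCombination_single, Finsupp.linearCombination_single, one_smul, one_smul,
      one_smul, hc]
    abel)

lemma udLift_ud (c : Γ → W) (hc : ∀ γ δ, c (γ * δ) = ((χ δ : Rˣ) : R) • c γ + c δ) (γ : Γ) :
    udLift χ c hc (ud χ γ) = c γ := by
  change (udRel χ).liftQ _ _ ((udRel χ).mkQ _) = _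
  rw [Submodule.mkQ_apply, Submodule.liftQ_apply, Finsupp.linearCombination_single, one_smul]

lemma ud_hom_ext {f g : UD χ →ₗ[R] W} (h : ∀ γ, f (ud χ γ) = g (ud χ γ)) : f = g :=
  LinearMap.ext_on (ud_span χ) (by rintro _ ⟨γ, rfl⟩; exact h γ)

lemma ud_one : ud χ (1 : Γ) = 0 := by
  have := ud_mul χ (1 : Γ) 1
  rw [mul_one, map_one, Units.val_one, one_smul] at this
  simpa using this

lemma ud_inv (γ : Γ) : ud χ γ⁻¹ = -(((χ γ⁻¹ : Rˣ) : R) • ud χ γ) := by
  have := ud_mul χ γ γ⁻¹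
  rw [mul_inv_cancel, ud_one] at this
  exact eq_neg_of_add_eq_zero_right this.symm

lemma ud_finite [Group.FG Γ] : Module.Finite R (UD χ) := by
  classical
  obtain ⟨s, hs⟩ := (inferInstance : Group.FG Γ)
  refine ⟨⟨s.image (ud χ), ?_⟩⟩
  rw [eq_top_iff, ← ud_span χ, Submodule.span_le]
  rintro _ ⟨γ, rfl⟩
  have hγ : γ ∈ Subgroup.closure (s : Set Γ) := by rw [hs]; trivial
  rw [Finset.coe_image]
  induction hγ using Subgroup.closure_induction with
  | mem x hx => exact Submodule.subset_span ⟨x, hx, rfl⟩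
  | one => rw [ud_one]; exact Submodule.zero_mem _
  | mul x y _ _ hx hy =>
    rw [ud_mul]
    exact Submodule.add_mem _ (Submodule.smul_mem _ _ hx) hy
  | inv x _ hx =>
    rw [ud_inv]
    exact Submodule.neg_mem _ (Submodule.smul_mem _ _ hx)

end UD

section Proj

variable {R : Type*} [CommRing R] {Γ : Subgroup SL(2, ℤ)} (hΓ : (-1 : SL(2, ℤ)) ∈ Γ)
  (w : OrbitWeight R Γ) (h2 : IsUnit (2 : R)) (χ : Γ →* Rˣ) (hχ : χ ⟨-1, hΓ⟩ = 1)

include hΓ w h2 hχ in
/-- Lifting of `χ`-crossed homomorphisms along surjections of `R`-modules. -/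
theorem exists_lift_crossed {W W' : Type*} [AddCommGroup W] [Module R W] [AddCommGroup W']
    [Module R W'] (π : W →ₗ[R] W') (hπ : Function.Surjective π) (c' : Γ → W')
    (hc' : ∀ γ δ, c' (γ * δ) = ((χ δ : Rˣ) : R) • c' γ + c' δ) :
    ∃ c : Γ → W, (∀ γ δ, c (γ * δ) = ((χ δ : Rˣ) : R) • c γ + c δ) ∧ ∀ γ, π (c γ) = c' γ := by
  have hc'1 : c' 1 = 0 := by
    have := hc' 1 1
    rw [mul_one, map_one, Units.val_one, one_smul] at this
    simpa using this
  let ρ : Representation R Γ W :=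
    { toFun := fun γ => ((χ γ⁻¹ : Rˣ) : R) • 1
      map_one' := by rw [inv_one, map_one, Units.val_one, one_smul]
      map_mul' := fun γ δ => by
        rw [mul_inv_rev, map_mul, Units.val_mul, smul_mul_smul_comm, one_mul, mul_comm] }
  let ρ' : Representation R Γ W' :=
    { toFun := fun γ => ((χ γ⁻¹ : Rˣ) : R) • 1
      map_one' := by rw [inv_one, map_one, Units.val_one, one_smul]
      map_mul' := fun γ δ => by
        rw [mul_inv_rev, map_mul, Units.val_mul, smul_mul_smul_comm, one_mul, mul_comm] }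
  have hρ : ∀ γ v, ρ γ v = ((χ γ⁻¹ : Rˣ) : R) • v := fun _ _ => rfl
  have hρ' : ∀ γ v, ρ' γ v = ((χ γ⁻¹ : Rˣ) : R) • v := fun _ _ => rfl
  have hneginv : (⟨-1, hΓ⟩ : Γ)⁻¹ = ⟨-1, hΓ⟩ := by
    apply Subtype.ext
    change (-1 : SL(2, ℤ))⁻¹ = -1
    rw [inv_eq_iff_mul_eq_one]
    simp
  have hsq : (⟨-1, hΓ⟩ : Γ) * ⟨-1, hΓ⟩ = 1 := by
    apply Subtype.ext
    change (-1 : SL(2, ℤ)) * -1 = 1
    simp
  have h5 : c' ⟨-1, hΓ⟩ = 0 := by
    have h6 := hc' ⟨-1, hΓ⟩ ⟨-1, hΓ⟩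
    rw [hsq, hc'1, hχ, Units.val_one, one_smul] at h6
    have h7 : (2 : R) • c' ⟨-1, hΓ⟩ = 0 := by rw [two_smul]; exact h6.symm
    have h8 := congrArg (fun v => ((h2.unit⁻¹ : Rˣ) : R) • v) h7
    simpa [smul_smul] using h8
  obtain ⟨c, hc, hcπ⟩ := exists_lift_cocycle_of_weight hΓ w ρ ρ' π
    (fun γ v => by rw [hρ, hρ', map_smul]) hπ (fun v => by
      rw [hρ, hneginv, hχ, Units.val_one, one_smul])
    (fun γ => c' γ⁻¹) (fun γ δ => by
      rw [mul_inv_rev, hc', hρ', add_comm]) (by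
      rw [hneginv, h5])
  refine ⟨fun γ => c γ⁻¹, fun γ δ => ?_, fun γ => ?_⟩
  · change c (γ * δ)⁻¹ = _
    rw [mul_inv_rev, hc, hρ, inv_inv, add_comm]
  · change π (c γ⁻¹) = c' γ
    rw [hcπ, inv_inv]

include hΓ w h2 hχ in
/-- **The universal module of crossed homomorphisms is projective.** -/
theorem ud_projective : Module.Projective R (UD χ) := by
  apply Module.Projective.of_lifting_property''
  intro f hf
  obtain ⟨c, hc, hcf⟩ := exists_lift_crossed hΓ w h2 χ hχ f hf (ud χ) (ud_mul χ)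
  refine ⟨udLift χ c hc, ?_⟩
  apply ud_hom_ext
  intro γ
  rw [LinearMap.comp_apply, udLift_ud, hcf]
  rfl

end Proj

end Fermat.Agent.H70.Coh
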