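import Fermat.Agent.H21JAbs
import Fermat.Agent.H70Psi
/-!
# The twist families

For a prime `q ∤ N`, `χ : (ZMod q)ˣ →* Rˣ`, `ρ` a coefficient system on `DN N`:
* `jTw N χ : DN (N * q) →* DN N × Rˣ`, `α ↦ (α, χ(a)²)`; `rTw χ ρ` the coefficient system
  `ρ ⊗ χ(a)²` on `DN (N * q)`.
* `twFam` : the family `F ↦ ∑ u, χ u • F | (q, u; 0, q)` from `Γ₀(L)`, `rTw χ ρ` to
  `Γ₀(L')`, `ρ`.
* `tbFam` : the family `F ↦ ∑ u, χ u ⁻¹ • F | (q, u; 0, q)` from `Γ₀(L)`, `ρ` to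
  `Γ₀(L)`, `rTw χ ρ`.
-/
set_option autoImplicit false

open CongruenceSubgroup Matrix.SpecialLinearGroup
open scoped MatrixGroups
open Fermat.Agent.H70.Coh

noncomputable section

namespace Fermat.Agent.H21J

section Tw

variable {R : Type*} [CommRing R] {V : Type*} [AddCommGroup V] [Module R V]

/-- `α ↦ (α, χ(a)²)` -/
def jTw (N : ℕ) {q : ℕ} (χ : (ZMod q)ˣ →* Rˣ) : DN (N * q) →* DN N × Rˣ :=
  MonoidHom.prod (Submonoid.inclusion (DN_mono (Dvd.intro q rfl)))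
    ((χ ^ 2).comp ((aUnit q).comp (Submonoid.inclusion (DN_mono (Dvd.intro_left N rfl)))))

lemma jTw_fst {N q : ℕ} (χ : (ZMod q)ˣ →* Rˣ) (α : DN (N * q)) : (jTw N χ α).1.1 = α.1 := rfl

lemma jTw_snd {N q : ℕ} (χ : (ZMod q)ˣ →* Rˣ) (α : DN (N * q)) (v : (ZMod q)ˣ)
    (hv : (v : ZMod q) = ((α.1 0 0 : ℤ) : ZMod q)) : (jTw N χ α).2 = (χ v) ^ 2 := by
  change (χ (aUnit q _)) ^ 2 = _
  congr 2
  apply Units.ext
  rw [aUnit_val, hv]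
  rfl

/-- the coefficient system `ρ ⊗ χ(a)²` -/
def rTw {N q : ℕ} (χ : (ZMod q)ˣ →* Rˣ) (ρ : DN N →* (Module.End R V)ᵐᵒᵖ) :
    DN (N * q) →* (Module.End R V)ᵐᵒᵖ := (wrho ρ).comp (jTw N χ)

/-- `Γ₀(L) → DN N × Rˣ`, `γ ↦ (γ, χ(a)²)` -/
def iT {N q L : ℕ} (hL : N * q ∣ L) (χ : (ZMod q)ˣ →* Rˣ) : Gamma0 L →* DN N × Rˣ :=
  (jTw N χ).comp (gam (N * q) L hL)

/-- `Γ₀(L) → DN N × Rˣ`, `γ ↦ (γ, 1)` -/
def iF {N L : ℕ} (R : Type*) [CommRing R] (hL : N ∣ L) : Gamma0 L →* DN N × Rˣ :=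
  (MonoidHom.inl (DN N) Rˣ).comp (gam N L hL)

lemma fst_iT {N q L : ℕ} (hL : N * q ∣ L) (χ : (ZMod q)ˣ →* Rˣ) :
    (MonoidHom.fst (DN N) Rˣ).comp (iT hL χ) = gam N L ((Dvd.intro q rfl).trans hL) := rfl

lemma fst_iF {N L : ℕ} (hL : N ∣ L) :
    (MonoidHom.fst (DN N) Rˣ).comp (iF R hL) = gam N L hL := rfl

instance {N q L : ℕ} (hL : N * q ∣ L) (χ : (ZMod q)ˣ →* Rˣ) :
    HFam.IsFreeOn ((MonoidHom.fst (DN N) Rˣ).comp (iT hL χ)) := by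
  rw [fst_iT]; infer_instance

instance {N L : ℕ} (hL : N ∣ L) :
    HFam.IsFreeOn ((MonoidHom.fst (DN N) Rˣ).comp (iF R hL)) := by
  rw [fst_iF]; infer_instance

instance {N q L : ℕ} (hL : N * q ∣ L) (χ : (ZMod q)ˣ →* Rˣ) :
    HFam.IsFreeOn (iT hL χ) := isFreeOn_prod _

instance {N L : ℕ} (hL : N ∣ L) :
    HFam.IsFreeOn (iF R hL) := isFreeOn_prod _

instance {N q L : ℕ} (hL : N * q ∣ L) (χ : (ZMod q)ˣ →* Rˣ) :
    HFam.IsFreeOn ((jTw N χ).comp (gam (N * q) L hL)) :=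
  inferInstanceAs (HFam.IsFreeOn (iT hL χ))

instance {N L : ℕ} (hL : N ∣ L) :
    HFam.IsFreeOn ((MonoidHom.inl (DN N) Rˣ).comp (gam N L hL)) :=
  inferInstanceAs (HFam.IsFreeOn (iF R hL))

lemma iT_fst {N q L : ℕ} (hL : N * q ∣ L) (χ : (ZMod q)ˣ →* Rˣ) (γ : Gamma0 L) :
    (iT hL χ γ).1.1 = ((γ : SL(2, ℤ)) : Matrix (Fin 2) (Fin 2) ℤ) := rfl

lemma iT_snd {N q L : ℕ} (hL : N * q ∣ L) (χ : (ZMod q)ˣ →* Rˣ) (γ : Gamma0 L) (v : (ZMod q)ˣ)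
    (hv : (v : ZMod q) = (((γ : SL(2, ℤ)) 0 0 : ℤ) : ZMod q)) : (iT hL χ γ).2 = (χ v) ^ 2 :=
  jTw_snd χ _ v hv

lemma iF_fst {N L : ℕ} (hL : N ∣ L) (γ : Gamma0 L) :
    (iF R hL γ).1.1 = ((γ : SL(2, ℤ)) : Matrix (Fin 2) (Fin 2) ℤ) := rfl

lemma iF_snd {N L : ℕ} (hL : N ∣ L) (γ : Gamma0 L) : (iF R hL γ).2 = 1 := rfl

/-- the matrices `(q, u; 0, q)` -/
def twRep (N : ℕ) {q : ℕ} (hq : q.Prime) (hqN : ¬ q ∣ N) (u : ZMod q) : DN N :=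
  ut N q (u.val : ℤ) q hq.pos hq.pos ((Nat.Prime.coprime_iff_not_dvd hq).mpr hqN)

lemma twRep_val {N q : ℕ} (hq : q.Prime) (hqN : ¬ q ∣ N) (u : ZMod q) :
    (twRep N hq hqN u).1 = !![(q : ℤ), (u.val : ℤ); 0, (q : ℤ)] := rfl

/-- the upper left entry of an element of `Γ₀(L)` modulo a divisor `q` of `L`, as a unit -/
def aU {L : ℕ} (q : ℕ) (hqL : q ∣ L) (γ : Gamma0 L) : (ZMod q)ˣ := aUnit q (gam q L hqL γ)

lemma aU_val {L q : ℕ} (hqL : q ∣ L) (γ : Gamma0 L) :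
    ((aU q hqL γ : (ZMod q)ˣ) : ZMod q) = (((γ : SL(2, ℤ)) 0 0 : ℤ) : ZMod q) := rfl

lemma det_eq (γ : SL(2, ℤ)) : γ 0 0 * γ 1 1 - γ 0 1 * γ 1 0 = 1 := by
  have hdet : (γ : Matrix (Fin 2) (Fin 2) ℤ).det = 1 := γ.det_coe
  rw [Matrix.det_fin_two] at hdet
  exact hdet

lemma dvd_c {L : ℕ} (γ : Gamma0 L) : (L : ℤ) ∣ (γ : SL(2, ℤ)) 1 0 :=
  (ZMod.intCast_zmod_eq_zero_iff_dvd _ _).mp (Gamma0_mem.mp γ.2)

lemma mem_of_dvd {L : ℕ} {γ : SL(2, ℤ)} (h : (L : ℤ) ∣ γ 1 0) : γ ∈ Gamma0 L :=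
  Gamma0_mem.mpr ((ZMod.intCast_zmod_eq_zero_iff_dvd _ _).mpr h)

/-- The basic computation: `α_u γ = δ α_{u'}`, `u' = u / a²`. -/
lemma tw_core {N q : ℕ} (hq : q.Prime) (hqN : ¬ q ∣ N) {L : ℕ} (hqL : q ∣ L)
    (hqq : q * q ∣ L) (γ : Gamma0 L) (u : (ZMod q)ˣ) :
    ∃ δ : Gamma0 L, (twRep N hq hqN u).1 * ((γ : SL(2, ℤ)) : Matrix (Fin 2) (Fin 2) ℤ) =
      ((δ : SL(2, ℤ)) : Matrix (Fin 2) (Fin 2) ℤ) *
        (twRep N hq hqN (u * (aU q hqL γ ^ 2)⁻¹ : (ZMod q)ˣ)).1 ∧ aU q hqL δ = aU q hqL γ := by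
  have : Fact q.Prime := ⟨hq⟩
  have hq0 : (q : ℤ) ≠ 0 := by exact_mod_cast hq.ne_zero
  obtain ⟨k, hk⟩ := dvd_c γ
  obtain ⟨m, hm⟩ := hqq
  have hdet := det_eq (γ : SL(2, ℤ))
  set a := (γ : SL(2, ℤ)) 0 0 with ha
  set b := (γ : SL(2, ℤ)) 0 1 with hb
  set c := (γ : SL(2, ℤ)) 1 0 with hc
  set d := (γ : SL(2, ℤ)) 1 1 with hd
  set v := aU q hqL γ with hv
  have hva : (v : ZMod q) = (a : ZMod q) := rfl
  set u' : (ZMod q)ˣ := u * (v ^ 2)⁻¹ with hu'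
  obtain ⟨t, ht⟩ : (q : ℤ) ∣ ((u : ZMod q).val : ℤ) * d - ((u' : ZMod q).val : ℤ) * a := by
    rw [← ZMod.intCast_zmod_eq_zero_iff_dvd]
    push_cast
    rw [ZMod.natCast_zmod_val, ZMod.natCast_zmod_val]
    have h1 : (a : ZMod q) * (d : ZMod q) = 1 := by
      have h2 := congrArg (Int.cast : ℤ → ZMod q) hdet
      push_cast at h2
      have h3 : (c : ZMod q) = 0 := by
        rw [hk, hm]
        push_cast
        rw [ZMod.natCast_self]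
        ring
      rw [h3, mul_zero, sub_zero] at h2
      exact h2
    have h4 : (u' : ZMod q) * (v : ZMod q) ^ 2 = u := by
      rw [hu', ← Units.val_pow_eq_pow_val, ← Units.val_mul, inv_mul_cancel_right]
    have h5 : (v : ZMod q) * d = 1 := by rw [hva, h1]
    rw [← h4, ← hva]
    linear_combination ((u' : ZMod q) * (v : ZMod q)) * h5
  have hck : c = q * (q * (m * k)) := by
    rw [hk, hm]; push_cast; ring
  set x : ℤ := ((u : ZMod q).val : ℤ) with hx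
  set y : ℤ := ((u' : ZMod q).val : ℤ) with hy
  refine ⟨⟨⟨!![a + x * q * (m * k), b + t - x * y * (m * k); c, d - y * q * (m * k)], ?_⟩, ?_⟩,
    ?_, ?_⟩
  · rw [Matrix.det_fin_two_of, hck]
    rw [hck] at hdet
    linear_combination hdet + (q : ℤ) * (m * k) * ht
  · apply mem_of_dvd
    change (L : ℤ) ∣ c
    exact hk ▸ Dvd.intro _ rfl
  · change !![(q : ℤ), x; 0, (q : ℤ)] * ((γ : SL(2, ℤ)) : Matrix (Fin 2) (Fin 2) ℤ) =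
      !![a + x * q * (m * k), b + t - x * y * (m * k); c, d - y * q * (m * k)] *
        !![(q : ℤ), y; 0, (q : ℤ)]
    rw [Matrix.eta_fin_two ((γ : SL(2, ℤ)) : Matrix (Fin 2) (Fin 2) ℤ)]
    change !![(q : ℤ), x; 0, (q : ℤ)] * !![a, b; c, d] = _
    ext i j
    fin_cases i <;> fin_cases j <;> simp [Matrix.mul_apply, Fin.sum_univ_two]
    · rw [hck]; ring
    · linear_combination ht
    · ring
    · rw [hck]; ring
  · apply Units.ext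
    rw [aU_val, hva]
    change (((a + x * q * (m * k) : ℤ)) : ZMod q) = _
    push_cast
    rw [ZMod.natCast_self]
    ring

section Fam

variable {N q : ℕ} (hq : q.Prime) (hqN : ¬ q ∣ N) (χ : (ZMod q)ˣ →* Rˣ)

lemma dvd_sq_of {N q L L' : ℕ} (hL : N * q ∣ L) (hLL' : L * q ∣ L') : q * q ∣ L' := by
  refine (Nat.mul_dvd_mul_right ?_ q).trans hLL'
  exact (Dvd.intro_left N rfl).trans hL

/-- **The twist family** `F ↦ ∑ u, χ u • F | (q, u; 0, q)`. -/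
def twFam {L L' : ℕ} (hL : N * q ∣ L) (hL' : N ∣ L') (hLL' : L * q ∣ L') :
    HFam (iT hL χ) (iF R hL') where
  J := (ZMod q)ˣ
  fin := by
    have : NeZero q := ⟨hq.ne_zero⟩
    exact (inferInstance : Fintype (ZMod q)ˣ)
  α u := (twRep N hq hqN (u : ZMod q), χ u)
  inv := by
    intro γ
    have hqL' : q ∣ L' := (Dvd.intro_left L rfl).trans hLL'
    choose δ hδ hδ2 using tw_core hq hqN hqL' (dvd_sq_of hL hLL') γ
    have hLL : (L : ℤ) ∣ L' := Int.natCast_dvd_natCast.mpr ((Dvd.intro q rfl).trans hLL')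
    refine ⟨Equiv.mulRight (aU q hqL' γ ^ 2)⁻¹, fun u => ⟨δ u, mem_of_dvd (hLL.trans (dvd_c _))⟩,
      fun u => ?_⟩
    apply Prod.ext
    · apply Subtype.ext
      exact hδ u
    · change χ u * 1 = (iT hL χ _).2 * χ (u * (aU q hqL' γ ^ 2)⁻¹)
      rw [iT_snd hL χ _ (aU q hqL' γ) (by rw [← hδ2 u, aU_val]), ← map_pow, ← map_mul, mul_one,
        mul_comm u, mul_inv_cancel_left]

/-- **The twist back family** `F ↦ ∑ u, χ u⁻¹ • F | (q, u; 0, q)`. -/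
def tbFam {L : ℕ} (hL : N ∣ L) (hL' : N * q ∣ L) (hqq : q * q ∣ L) :
    HFam (iF R hL) (iT hL' χ) where
  J := (ZMod q)ˣ
  fin := by
    have : NeZero q := ⟨hq.ne_zero⟩
    exact (inferInstance : Fintype (ZMod q)ˣ)
  α u := (twRep N hq hqN (u : ZMod q), (χ u)⁻¹)
  inv := by
    intro γ
    have hqL' : q ∣ L := (Dvd.intro q rfl).trans hqq
    choose δ hδ hδ2 using tw_core hq hqN hqL' hqq γ
    refine ⟨Equiv.mulRight (aU q hqL' γ ^ 2)⁻¹, δ, fun u => ?_⟩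
    apply Prod.ext
    · apply Subtype.ext
      exact hδ u
    · change (χ u)⁻¹ * (iT hL' χ γ).2 = 1 * (χ (u * (aU q hqL' γ ^ 2)⁻¹))⁻¹
      rw [iT_snd hL' χ _ (aU q hqL' γ) rfl, one_mul, map_mul, map_inv, mul_inv, inv_inv, map_pow]

variable (ρ : DN N →* (Module.End R V)ᵐᵒᵖ)

/-- identification of the source of the twist -/
def eT {L : ℕ} (hL : N * q ∣ L) :
    H1 (gam (N * q) L hL) (rTw χ ρ) ≃ₗ[R] H1 (iT hL χ) (wrho ρ) :=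
  H1e fun _ _ => rfl

/-- identification of the target of the twist -/
def eF {L : ℕ} (hL : N ∣ L) : H1 (gam N L hL) ρ ≃ₗ[R] H1 (iF R hL) (wrho ρ) :=
  H1e fun γ v => by
    rw [slash_wrho]
    change _ = ((1 : Rˣ) : R) • slash ρ (gam N L hL γ) v
    rw [Units.val_one, one_smul]

/-- **The twist** on `H¹`. -/
def tw {L L' : ℕ} (hL : N * q ∣ L) (hL' : N ∣ L') (hLL' : L * q ∣ L') :
    H1 (gam (N * q) L hL) (rTw χ ρ) →ₗ[R] H1 (gam N L' hL') ρ :=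
  (eF ρ hL').symm.toLinearMap ∘ₗ (twFam hq hqN χ hL hL' hLL').opH (wrho ρ) ∘ₗ
    (eT χ ρ hL).toLinearMap

/-- **The twist back** on `H¹`. -/
def tb {L : ℕ} (hL : N ∣ L) (hL' : N * q ∣ L) (hqq : q * q ∣ L) :
    H1 (gam N L hL) ρ →ₗ[R] H1 (gam (N * q) L hL') (rTw χ ρ) :=
  (eT χ ρ hL').symm.toLinearMap ∘ₗ (tbFam hq hqN χ hL hL' hqq).opH (wrho ρ) ∘ₗ
    (eF ρ hL).toLinearMap

lemma eF_tw {L L' : ℕ} (hL : N * q ∣ L) (hL' : N ∣ L') (hLL' : L * q ∣ L')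
    (x : H1 (gam (N * q) L hL) (rTw χ ρ)) :
    eF ρ hL' (tw hq hqN χ ρ hL hL' hLL' x) =
      (twFam hq hqN χ hL hL' hLL').opH (wrho ρ) (eT χ ρ hL x) := by
  unfold tw
  simp

lemma eT_tb {L : ℕ} (hL : N ∣ L) (hL' : N * q ∣ L) (hqq : q * q ∣ L)
    (x : H1 (gam N L hL) ρ) :
    eT χ ρ hL' (tb hq hqN χ ρ hL hL' hqq x) =
      (tbFam hq hqN χ hL hL' hqq).opH (wrho ρ) (eF ρ hL x) := by
  unfold tb
  simp

/-- families on the source side -/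
def famT {L L' : ℕ} {hL : N * q ∣ L} {hL' : N * q ∣ L'}
    (t : HFam (gam (N * q) L hL) (gam (N * q) L' hL')) : HFam (iT hL χ) (iT hL' χ) :=
  mapFam (jTw N χ) t

/-- families on the target side -/
def famF (R : Type*) [CommRing R] {L L' : ℕ} {hL : N ∣ L} {hL' : N ∣ L'}
    (s : HFam (gam N L hL) (gam N L' hL')) : HFam (iF R hL) (iF R hL') :=
  mapFam (MonoidHom.inl (DN N) Rˣ) s

lemma eT_opH {L L' : ℕ} {hL : N * q ∣ L} {hL' : N * q ∣ L'}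
    (t : HFam (gam (N * q) L hL) (gam (N * q) L' hL')) (x : H1 (gam (N * q) L hL) (rTw χ ρ)) :
    eT χ ρ hL' (t.opH (rTw χ ρ) x) = (famT χ t).opH (wrho ρ) (eT χ ρ hL x) :=
  (mapFam_opH (jTw N χ) t (ρ := rTw χ ρ) (ρ' := wrho ρ) (fun _ _ => rfl) x).symm

lemma eF_opH {L L' : ℕ} {hL : N ∣ L} {hL' : N ∣ L'}
    (s : HFam (gam N L hL) (gam N L' hL')) (x : H1 (gam N L hL) ρ) :
    eF ρ hL' (s.opH ρ x) = (famF R s).opH (wrho ρ) (eF ρ hL x) :=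
  (mapFam_opH (MonoidHom.inl (DN N) Rˣ) s (ρ := ρ) (ρ' := wrho ρ) (fun s v => by
    rw [slash_wrho]
    change _ = ((1 : Rˣ) : R) • slash ρ s v
    rw [Units.val_one, one_smul]) x).symm

/-- **Equivariance of the twist**, abstract form. -/
theorem tw_comm {L₁ L₁' L₂ L₂' : ℕ} {hL₁ : N * q ∣ L₁} {hL₁' : N ∣ L₁'} (hLL₁ : L₁ * q ∣ L₁')
    {hL₂ : N * q ∣ L₂} {hL₂' : N ∣ L₂'} (hLL₂ : L₂ * q ∣ L₂')
    (t : HFam (gam (N * q) L₁ hL₁) (gam (N * q) L₂ hL₂))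
    (s : HFam (gam N L₁' hL₁') (gam N L₂' hL₂')) (m : R)
    (H : ((famT χ t).comp (twFam hq hqN χ hL₂ hL₂' hLL₂)).opH (wrho ρ) =
      m • ((twFam hq hqN χ hL₁ hL₁' hLL₁).comp (famF R s)).opH (wrho ρ))
    (x : H1 (gam (N * q) L₁ hL₁) (rTw χ ρ)) :
    tw hq hqN χ ρ hL₂ hL₂' hLL₂ (t.opH (rTw χ ρ) x) =
      m • s.opH ρ (tw hq hqN χ ρ hL₁ hL₁' hLL₁ x) := by
  apply (eF ρ hL₂').injective
  rw [eF_tw, eT_opH, map_smul, eF_opH, eF_tw, ← HFam.opH_comp, ← HFam.opH_comp, H]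
  rfl

end Fam

end Tw

end Fermat.Agent.H21J
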