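import Fermat.Agent.H21JInj
/-!
# The twist and Atkin-Lehner operators at other primes
-/
set_option autoImplicit false

open CongruenceSubgroup Matrix.SpecialLinearGroup
open scoped MatrixGroups
open Fermat.Agent.H70.Coh Fermat.Agent.H37.Tr

noncomputable section

namespace Fermat.Agent.H21J

section W

variable {R : Type*} [CommRing R] {V : Type*} [AddCommGroup V] [Module R V]
  {N M r : ℕ}

/-- The Atkin-Lehner operator does not depend on the Bezout data. -/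
theorem wFam_opH_eq (ρ : DN N →* (Module.End R V)ᵐᵒᵖ) (hNM : N ∣ M) (hr : 0 < r) (w w₂ : AL M r) :
    (wFam hNM hr w).opH ρ = (wFam hNM hr w₂).opH ρ := by
  refine HFam.opH_congr _ _ (Equiv.refl _) fun _ => ?_
  refine ⟨⟨⟨!![r * w.x * w₂.t - M * w.y * w₂.z, w.y * w₂.x - w.x * w₂.y;
    M * r * (w.z * w₂.t - w.t * w₂.z), r * w.t * w₂.x - M * w.z * w₂.y], ?_⟩, ?_⟩, ?_⟩
  · rw [Matrix.det_fin_two_of]
    have e : (r * w.x * w₂.t - M * w.y * w₂.z) * (r * w.t * w₂.x - M * w.z * w₂.y) -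
      (w.y * w₂.x - w.x * w₂.y) * (M * r * (w.z * w₂.t - w.t * w₂.z)) =
      (r * w.x * w.t - M * w.y * w.z) * (r * w₂.x * w₂.t - M * w₂.y * w₂.z) := by ring
    rw [e, w.eq, w₂.eq, one_mul]
  · refine Gamma0_mem.mpr ((ZMod.intCast_zmod_eq_zero_iff_dvd _ _).mpr ?_)
    change ((M * r : ℕ) : ℤ) ∣ (M : ℤ) * r * _
    push_cast
    exact dvd_mul_right _ _
  · apply dn_ext
    change (w.mat hNM hr).1 = !![r * w.x * w₂.t - M * w.y * w₂.z, w.y * w₂.x - w.x * w₂.y;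
      M * r * (w.z * w₂.t - w.t * w₂.z), r * w.t * w₂.x - M * w.z * w₂.y] * (w₂.mat hNM hr).1
    rw [AL.mat_val, AL.mat_val]
    have h2 := w₂.eq
    ext i j
    fin_cases i <;> fin_cases j <;> simp [Matrix.mul_apply, Fin.sum_univ_two]
    · linear_combination (-(r : ℤ) * w.x) * h2
    · linear_combination (-w.y) * h2
    · linear_combination (-(M : ℤ) * r * w.z) * h2
    · linear_combination (-(r : ℤ) * w.t) * h2

/-- Atkin-Lehner data at a divisor of the level -/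
def AL.ofDvd {M' : ℕ} (w : AL M' r) (h : M ∣ M') : AL M r :=
  ⟨w.x, w.y, (M' / M : ℕ) * w.z, w.t, by
    have h1 : (M' : ℤ) = M * (M' / M : ℕ) := by
      exact_mod_cast (Nat.mul_div_cancel' h).symm
    have h2 := w.eq
    rw [h1] at h2
    linear_combination h2⟩

variable {q : ℕ} (χ : (ZMod q)ˣ →* Rˣ) (ρ : DN N →* (Module.End R V)ᵐᵒᵖ)
  (hq : q.Prime) (hqN : ¬ q ∣ N)

lemma unit_x {M' : ℕ} (hqM' : q ∣ M') (w : AL M' r) : IsUnit ((w.x : ℤ) : ZMod q) := by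
  have h1 := congrArg (Int.cast : ℤ → ZMod q) w.eq
  push_cast at h1
  have h2 : ((M' : ℕ) : ZMod q) = 0 := (ZMod.natCast_eq_zero_iff _ _).mpr hqM'
  rw [h2, zero_mul, zero_mul, sub_zero] at h1
  exact IsUnit.of_mul_eq_one ((r : ZMod q) * w.t) (by linear_combination h1)

/-- `W α_u = δ α_{u'} W`, `u' = r x² u` -/
lemma w_core {M' : ℕ} (hNM : N * q ∣ M) (hMM' : M * q ∣ M') (hNM' : N ∣ M') (hr : 0 < r)
    (w : AL M' r) (u u' : (ZMod q)ˣ) (hu : (u' : ZMod q) = u * r * (w.x : ZMod q) ^ 2) :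
    ∃ δ : Gamma0 (M * r), (w.mat hNM' hr).1 * (twRep N hq hqN u).1 =
      ((δ : SL(2, ℤ)) : Matrix (Fin 2) (Fin 2) ℤ) * ((twRep N hq hqN u').1 *
        (w.mat hNM' hr).1) ∧ (((δ : SL(2, ℤ)) 0 0 : ℤ) : ZMod q) = 1 := by
  have i1 : NeZero q := ⟨hq.ne_zero⟩
  obtain ⟨m, hm⟩ : q ∣ M := (Dvd.intro_left N rfl).trans hNM
  obtain ⟨k, hk⟩ := hMM'
  obtain ⟨t, ht⟩ : (q : ℤ) ∣ ((u : ZMod q).val : ℤ) * r * w.x ^ 2 - ((u' : ZMod q).val : ℤ) := by
    rw [← ZMod.intCast_zmod_eq_zero_iff_dvd]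
    push_cast
    rw [ZMod.natCast_zmod_val, ZMod.natCast_zmod_val, hu, sub_self]
  have hm' : (M : ℤ) = q * m := by exact_mod_cast hm
  have hk' : (M' : ℤ) = M * q * k := by exact_mod_cast hk
  have hw := w.eq
  obtain ⟨x, y, z, t', hw0⟩ := w
  simp only at hw ht hu
  refine ⟨⟨⟨!![1 - ((u : ZMod q).val : ℤ) * x * M * k * r * z,
      t + ((u : ZMod q).val : ℤ) * ((u' : ZMod q).val : ℤ) * x * m * k * r * z;
      M * r * (-(((u : ZMod q).val : ℤ) * M * q * k ^ 2 * z ^ 2)),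
      1 + ((u : ZMod q).val : ℤ) * x * M * k * r * z +
        ((u : ZMod q).val : ℤ) * ((u' : ZMod q).val : ℤ) * M ^ 2 * k ^ 2 * r * z ^ 2], ?_⟩, ?_⟩,
      ?_, ?_⟩
  · rw [Matrix.det_fin_two_of]
    generalize ((u : ZMod q).val : ℤ) = v at ht ⊢
    generalize ((u' : ZMod q).val : ℤ) = v' at ht ⊢
    rw [hm']
    linear_combination (-(v * (q * m) ^ 2 * k ^ 2 * r * z ^ 2)) * ht
  · refine Gamma0_mem.mpr ((ZMod.intCast_zmod_eq_zero_iff_dvd _ _).mpr ?_)
    change ((M * r : ℕ) : ℤ) ∣ (M : ℤ) * r * _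
    push_cast
    exact dvd_mul_right _ _
  · rw [AL.mat_val, twRep_val, twRep_val]
    change _ = !![1 - ((u : ZMod q).val : ℤ) * x * M * k * r * z,
      t + ((u : ZMod q).val : ℤ) * ((u' : ZMod q).val : ℤ) * x * m * k * r * z;
      M * r * (-(((u : ZMod q).val : ℤ) * M * q * k ^ 2 * z ^ 2)),
      1 + ((u : ZMod q).val : ℤ) * x * M * k * r * z +
        ((u : ZMod q).val : ℤ) * ((u' : ZMod q).val : ℤ) * M ^ 2 * k ^ 2 * r * z ^ 2] * _
    generalize ((u : ZMod q).val : ℤ) = v at ht ⊢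
    generalize ((u' : ZMod q).val : ℤ) = v' at ht ⊢
    rw [hk'] at hw ⊢
    rw [hm'] at hw ⊢
    ext a b
    fin_cases a <;> fin_cases b <;> simp [Matrix.mul_apply, Fin.sum_univ_two]
    · linear_combination ((q : ℤ) * m * q * k * r * z) * ht
    · linear_combination ((r : ℤ) * t') * ht - (v * r * x) * hw
    · ring
    · linear_combination (-(v * (q * m * q * k) * r * z)) * hw
  · change ((1 - ((u : ZMod q).val : ℤ) * x * M * k * r * z : ℤ) : ZMod q) = 1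
    rw [hm']
    push_cast
    rw [ZMod.natCast_self]
    ring

/-- **The twist commutes with the Atkin-Lehner operator `w_r`**, `r` prime to `q`, up to
`χ(r)`. -/
theorem tw_wFam {M' : ℕ} (hNM : N * q ∣ M) (hMM' : M * q ∣ M') (hNM' : N ∣ M')
    (hLL' : M * r * q ∣ M' * r) (hr : 0 < r) (hrq : r.Coprime q) (w : AL M r) (w' : AL M' r)
    (x : H1 (gam (N * q) (M * r) (hNM.mul_right r)) (rTw χ ρ)) :
    tw hq hqN χ ρ (hNM.mul_right r) (hNM'.mul_right r) hLL' ((wFam hNM hr w).opH (rTw χ ρ) x) =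
      ((χ (ZMod.unitOfCoprime r hrq) : Rˣ) : R) •
        (wFam hNM' hr w').opH ρ (tw hq hqN χ ρ (hNM.mul_right r) (hNM'.mul_right r) hLL' x) := by
  have i1 : NeZero q := ⟨hq.ne_zero⟩
  have hqM' : q ∣ M' := (Dvd.intro_left M rfl).trans hMM'
  have hM : M ∣ M' := (Dvd.intro q rfl).trans hMM'
  obtain ⟨v, hv⟩ := unit_x hqM' w'
  set z : (ZMod q)ˣ := ZMod.unitOfCoprime r hrq with hz
  have hzv : (z : ZMod q) = (r : ZMod q) := rfl
  rw [wFam_opH_eq (rTw χ ρ) hNM hr w (AL.ofDvd w' hM)]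
  have hMM2 : (M : ℤ) * (M' / M : ℕ) = M' := by
    exact_mod_cast Nat.mul_div_cancel' hM
  have hmat : ((AL.ofDvd w' hM).mat hNM hr).1 = (w'.mat hNM' hr).1 := by
    rw [AL.mat_val, AL.mat_val]
    change !![(r : ℤ) * w'.x, w'.y; M * r * ((M' / M : ℕ) * w'.z), r * w'.t] = _
    generalize ((M' / M : ℕ) : ℤ) = k at hMM2 ⊢
    ext i j
    fin_cases i <;> fin_cases j <;> simp
    linear_combination ((r : ℤ) * w'.z) * hMM2
  have h00 : ((w'.mat hNM' hr).1 0 0 : ℤ) = r * w'.x := by rw [AL.mat_val]; rfl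
  refine tw_comm hq hqN χ ρ hLL' hLL' _ _ _ ?_ x
  refine opH_eq_smul_of_card _ _ (χ z) ?_ ?_ ?_
  · change Fintype.card ((wFam hNM hr (AL.ofDvd w' hM)).J ×
      (twFam hq hqN χ (hNM.mul_right r) (hNM'.mul_right r) hLL').J) =
      Fintype.card ((twFam hq hqN χ (hNM.mul_right r) (hNM'.mul_right r) hLL').J ×
        (wFam hNM' hr w').J)
    rw [Fintype.card_prod, Fintype.card_prod, mul_comm]
    rfl
  · rintro ⟨⟨⟩, (u : (ZMod q)ˣ)⟩
    obtain ⟨δ, hδ, hδ2⟩ := w_core (N := N) hq hqN hNM hMM' hNM' hr w' u (u * z * v ^ 2) (by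
      rw [Units.val_mul, Units.val_mul, hzv, Units.val_pow_eq_pow_val, hv])
    refine ⟨(u * z * v ^ 2, ()), δ, ?_⟩
    apply Prod.ext
    · apply Subtype.ext
      change ((AL.ofDvd w' hM).mat hNM hr).1 * (twRep N hq hqN u).1 = _ * ((_ * _) * 1)
      rw [mul_one, hmat]
      exact hδ
    · change (jTw N χ ((AL.ofDvd w' hM).mat hNM hr)).2 * χ u =
        (iT (hNM.mul_right r) χ δ).2 * ((χ (u * z * v ^ 2) * 1) * χ z)
      rw [jTw_snd χ _ (z * v) (by
        rw [hmat, h00, Units.val_mul, hzv, hv]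
        push_cast
        rfl), iT_snd (hNM.mul_right r) χ δ 1 (by rw [hδ2]; rfl), map_one, one_pow, one_mul,
        mul_one, map_mul, map_mul, map_mul, map_pow]
      generalize χ z = a
      generalize χ v = b
      generalize χ u = c
      rw [mul_pow, sq, sq]
      apply Units.ext
      push_cast
      ring
  · rintro ⟨⟨⟩, (u : (ZMod q)ˣ)⟩ ⟨⟨⟩, (u₂ : (ZMod q)ˣ)⟩ γ h
    have h1 := congrArg Subtype.val h
    change ((AL.ofDvd w' hM).mat hNM hr).1 * (twRep N hq hqN u).1 =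
      ((γ : SL(2, ℤ)) : Matrix (Fin 2) (Fin 2) ℤ) * (((AL.ofDvd w' hM).mat hNM hr).1 *
        (twRep N hq hqN u₂).1) at h1
    rw [hmat, AL.mat_val, twRep_val, twRep_val] at h1
    have e00 := congrFun (congrFun h1 0) 0
    have e01 := congrFun (congrFun h1 0) 1
    have hq0 : (q : ℤ) ≠ 0 := by exact_mod_cast hq.ne_zero
    suffices hu : u = u₂ by rw [hu]
    apply units_val_inj
    generalize ((u : ZMod q).val : ℤ) = a at e01 e00 ⊢
    generalize ((u₂ : ZMod q).val : ℤ) = b at e01 e00 ⊢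
    simp [Matrix.mul_apply, Fin.sum_univ_two] at e00 e01
    generalize (γ : SL(2, ℤ)) 0 0 = g00 at e00 e01
    generalize (γ : SL(2, ℤ)) 0 1 = g01 at e00 e01
    have e00' : (r : ℤ) * w'.x = g00 * (r * w'.x) + g01 * (M' * r * w'.z) := by
      apply mul_right_cancel₀ hq0
      linear_combination e00
    have hcop : IsCoprime (q : ℤ) ((r : ℤ) * w'.x) := by
      obtain ⟨m, hm⟩ := hqM'
      have hm' : (M' : ℤ) = q * m := by exact_mod_cast hm
      refine ⟨-(m * w'.y * w'.z), w'.t, ?_⟩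
      have := w'.eq
      rw [hm'] at this
      linear_combination this
    refine hcop.dvd_of_dvd_mul_left ?_
    exact ⟨g00 * w'.y + g01 * (r * w'.t) - w'.y, by linear_combination e01 - b * e00'⟩

end W

end Fermat.Agent.H21J
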