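import Fermat.Agent.H71RModK

/-!
# Degeneracy maps on the localised modules over local rings (helper71)

`N ∣ M`, `q` a prime not dividing `M` (`q = p` is allowed), `R` a local `O`-algebra with the same
residue field, `ψ, η` residually trivial.

* `resM, degM : MLoc_M → MLoc_{Mq}`, `trM, nuM : MLoc_{Mq} → MLoc_M`, `tqM : MLoc_M → MLoc_M`.
* `exists_retract_old` : `old : MLoc_M × MLoc_M → MLoc_{Mq}`, `(x, y) ↦ res x + V_q y`, has a
  retraction; `new_free` : the quotient is free.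
* `trNu_surjective` : `(tr, ν)` is surjective.
* `lM = (q + 1) ψ(q) tr - T_q ν` : `lM_res`, `lM_deg`, `exists_lM_eq`.
-/

set_option autoImplicit false
set_option linter.style.haveILetI false

open CongruenceSubgroup Matrix.SpecialLinearGroup IsLocalRing
open scoped MatrixGroups TensorProduct

namespace Fermat.Agent.H71.R

open Fermat.Agent.H70.Coh Fermat.Agent.H70.Mod Fermat.Agent.H59

section Abstract

variable {R M N : Type*} [CommRing R] [IsLocalRing R] [AddCommGroup M] [Module R M]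
  [AddCommGroup N] [Module R N]

lemma one_tmul_eq_zero_iff (w : N) :
    (1 : ResidueField R) ⊗ₜ[R] w = 0 ↔ w ∈ (maximalIdeal R • ⊤ : Submodule R N) := by
  have h1 := TensorProduct.quotTensorEquivQuotSMul_mk_tmul (M := N) (maximalIdeal R) 1 w
  rw [one_smul] at h1
  constructor
  · intro h
    have h2 : (Ideal.Quotient.mk (maximalIdeal R) 1 : R ⧸ maximalIdeal R) ⊗ₜ[R] w = 0 := h
    rw [h2, map_zero] at h1
    exact (Submodule.Quotient.mk_eq_zero _).mp h1.symm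
  · intro h
    have h2 : Submodule.Quotient.mk (p := (maximalIdeal R • ⊤ : Submodule R N)) w = 0 :=
      (Submodule.Quotient.mk_eq_zero _).mpr h
    rw [h2] at h1
    exact (LinearEquiv.map_eq_zero_iff _).mp h1

lemma exists_one_tmul (v : ResidueField R ⊗[R] M) :
    ∃ z : M, v = (1 : ResidueField R) ⊗ₜ[R] z := by
  induction v using TensorProduct.induction_on with
  | zero => exact ⟨0, by rw [TensorProduct.tmul_zero]⟩
  | add a b ha hb =>
    obtain ⟨x, rfl⟩ := ha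
    obtain ⟨y, rfl⟩ := hb
    exact ⟨x + y, by rw [TensorProduct.tmul_add]⟩
  | tmul r x =>
    obtain ⟨r, rfl⟩ := residue_surjective r
    refine ⟨r • x, ?_⟩
    rw [TensorProduct.tmul_smul, TensorProduct.smul_tmul']
    congr 1
    rw [← algebraMap_smul (ResidueField R) r, smul_eq_mul, mul_one]
    rfl

/-- a map which is injective modulo the maximal ideal splits -/
theorem exists_retract_of_residue [Module.Finite R M] [Module.Finite R N] [Module.Free R N]
    (l : M →ₗ[R] N) (h : ∀ z, l z ∈ (maximalIdeal R • ⊤ : Submodule R N) →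
      z ∈ (maximalIdeal R • ⊤ : Submodule R M)) : ∃ l' : N →ₗ[R] M, l' ∘ₗ l = LinearMap.id := by
  rw [IsLocalRing.split_injective_iff_lTensor_residueField_injective]
  rw [injective_iff_map_eq_zero]
  intro v hv
  obtain ⟨z, rfl⟩ := exists_one_tmul v
  rw [LinearMap.lTensor_tmul, one_tmul_eq_zero_iff] at hv
  rw [one_tmul_eq_zero_iff]
  exact h z hv

lemma smul_top_prod {x y : M} (hx : x ∈ (maximalIdeal R • ⊤ : Submodule R M))
    (hy : y ∈ (maximalIdeal R • ⊤ : Submodule R M)) :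
    (x, y) ∈ (maximalIdeal R • ⊤ : Submodule R (M × M)) := by
  have h1 : ∀ f : M →ₗ[R] M × M, ∀ z ∈ (maximalIdeal R • ⊤ : Submodule R M),
      f z ∈ (maximalIdeal R • ⊤ : Submodule R (M × M)) := by
    intro f z hz
    have h2 := Submodule.mem_map_of_mem (f := f) hz
    rw [Submodule.map_smul''] at h2
    exact (smul_mono_right _ le_top : maximalIdeal R • (⊤ : Submodule R M).map f ≤ _) h2
  have h3 := Submodule.add_mem _ (h1 (LinearMap.inl R M M) x hx) (h1 (LinearMap.inr R M M) y hy)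
  simpa using h3

/-- the cokernel of a split injection between free modules is free of the expected rank -/
theorem free_quotient_of_retract [Module.Finite R N] [Module.Free R N] [Module.Finite R M]
    [Module.Free R M] (l : M →ₗ[R] N) (r : N →ₗ[R] M) (h : r ∘ₗ l = LinearMap.id) :
    Module.Free R (N ⧸ LinearMap.range l) ∧ Module.Finite R (N ⧸ LinearMap.range l) ∧
      Module.finrank R (N ⧸ LinearMap.range l) + Module.finrank R M = Module.finrank R N := by
  have hinj : Function.Injective l := fun a b hab => by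
    have h1 := LinearMap.congr_fun h
    have h2 := h1 a
    have h3 := h1 b
    change r (l a) = a at h2
    change r (l b) = b at h3
    rw [← h2, ← h3, hab]
  -- `N ≃ M × N / range l`
  have hcomp : IsCompl (LinearMap.range l) (LinearMap.ker r) := by
    rw [isCompl_iff, Submodule.disjoint_def, codisjoint_iff, eq_top_iff]
    constructor
    · rintro _ ⟨x, rfl⟩ hx
      have h2 := LinearMap.congr_fun h x
      change r (l x) = x at h2
      rw [← h2, LinearMap.mem_ker.mp hx, map_zero]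
    · intro x _
      have h2 := LinearMap.congr_fun h (r x)
      change r (l (r x)) = r x at h2
      have : x = l (r x) + (x - l (r x)) := by abel
      rw [this]
      refine Submodule.add_mem_sup ⟨r x, rfl⟩ ?_
      rw [LinearMap.mem_ker, map_sub, h2, sub_self]
  let E : (N ⧸ LinearMap.range l) ≃ₗ[R] LinearMap.ker r :=
    Submodule.quotientEquivOfIsCompl _ _ hcomp
  let F : (LinearMap.range l × LinearMap.ker r) ≃ₗ[R] N :=
    Submodule.prodEquivOfIsCompl _ _ hcomp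
  let G : M ≃ₗ[R] LinearMap.range l := LinearEquiv.ofInjective l hinj
  haveI : Module.Finite R (N ⧸ LinearMap.range l) := inferInstance
  haveI : Module.Finite R (LinearMap.ker r) := Module.Finite.equiv E
  haveI : Module.Projective R (LinearMap.ker r) := by
    refine Module.Projective.of_split (LinearMap.ker r).subtype
      (LinearMap.snd R _ _ ∘ₗ F.symm.toLinearMap) ?_
    apply LinearMap.ext
    intro x
    change (F.symm x.1).2 = x
    have : F (0, x) = x.1 := by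
      rw [Submodule.coe_prodEquivOfIsCompl']
      simp
    rw [← this, LinearEquiv.symm_apply_apply]
  haveI : Module.Free R (LinearMap.ker r) := Module.free_of_flat_of_isLocalRing
  haveI : Module.Free R (N ⧸ LinearMap.range l) := Module.Free.of_equiv E.symm
  haveI : Module.Free R (LinearMap.range l) := Module.Free.of_equiv G
  haveI : Module.Finite R (LinearMap.range l) := Module.Finite.equiv G
  refine ⟨inferInstance, inferInstance, ?_⟩
  rw [← F.finrank_eq, Module.finrank_prod, ← G.finrank_eq, E.finrank_eq, add_comm]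

end Abstract

section Maps

variable {N M q : ℕ} (hM : N ∣ M) {S : Set ℕ} (hS : Away M S) (hS' : Away (M * q) S)
  {R : Type} [CommRing R] (ψ η : (ZMod N)ˣ →* Rˣ) {O : Type} [CommRing O] [Algebra O R]
  (e : MvPolynomial (Idx S) O)

lemma map_mem_mloc {A B : Type} [AddCommGroup A] [AddCommGroup B] [Module R A] [Module R B]
    [Module O A] [Module O B] [IsScalarTower O R A] [IsScalarTower O R B]
    (T : Idx S → Module.End R A) (hT : ∀ i j, T i * T j = T j * T i)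
    (T' : Idx S → Module.End R B) (hT' : ∀ i j, T' i * T' j = T' j * T' i)
    (f : A →ₗ[R] B) (hf : ∀ i x, f (T i x) = T' i (f x)) {x : A} (hx : x ∈ Loc T hT e) :
    f x ∈ Loc T' hT' e :=
  map_mem_loc (T := T) (hT := hT) (T' := T') (hT' := hT') f.toAddMonoidHom
    (fun a x => by
      rw [← algebraMap_smul R a x]
      exact (map_smul f _ _).trans (algebraMap_smul R a _)) hf hx

/-- restriction on localised modules -/
noncomputable def resM : MLoc hM hS ψ η e →ₗ[R] MLoc (dvd_mul_q (q := q) hM) hS' ψ η e :=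
  (resL hM ψ q).restrict fun _ hx => map_mem_mloc e _ (tw_comm hM hS ψ η) _
    (tw_comm (dvd_mul_q (q := q) hM) hS' ψ η) (resL hM ψ q) (resL_tw hM ψ η hS hS') hx

/-- `V_q` on localised modules -/
noncomputable def degM (hq : q.Prime) (hqN : q.Coprime N) :
    MLoc hM hS ψ η e →ₗ[R] MLoc (dvd_mul_q (q := q) hM) hS' ψ η e :=
  (degL hM ψ hq hqN).restrict fun _ hx => map_mem_mloc e _ (tw_comm hM hS ψ η) _
    (tw_comm (dvd_mul_q (q := q) hM) hS' ψ η) (degL hM ψ hq hqN)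
    (degL_tw hM ψ η hS hS' hq hqN) hx

/-- the trace on localised modules -/
noncomputable def trM [NeZero M] [NeZero q] (hq : q.Prime) (hqM : ¬ q ∣ M) :
    MLoc (dvd_mul_q (q := q) hM) hS' ψ η e →ₗ[R] MLoc hM hS ψ η e :=
  (trL hM ψ q).restrict fun _ hx => map_mem_mloc e _
    (tw_comm (dvd_mul_q (q := q) hM) hS' ψ η) _ (tw_comm hM hS ψ η) (trL hM ψ q)
    (trL_tw hM ψ η hS hS' hq hqM) hx

/-- `ν` on localised modules -/
noncomputable def nuM [NeZero q] (hq : q.Prime) (hqM : ¬ q ∣ M) :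
    MLoc (dvd_mul_q (q := q) hM) hS' ψ η e →ₗ[R] MLoc hM hS ψ η e :=
  (nuL hM ψ hq).restrict fun _ hx => map_mem_mloc e _
    (tw_comm (dvd_mul_q (q := q) hM) hS' ψ η) _ (tw_comm hM hS ψ η) (nuL hM ψ hq)
    (nuL_tw hM ψ η hS hS' hq hqM) hx

lemma tqL_tw (hq : q.Prime) (hqM : ¬ q ∣ M) (i : Idx S) (x : H1 (gam N M hM) (psiRep ψ R)) :
    tH hM ψ hq hqM R (tw hM hS ψ η i x) = tw hM hS ψ η i (tH hM ψ hq hqM R x) := by
  rw [tw_apply, tw_apply, map_smul]
  congr 1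
  have h := LinearMap.congr_fun (tFam_comm (hM := hM) (ρ := psiRep ψ R) i.2.1 (hS.not_dvd i)
    hq hqM) x
  rw [HFam.opH_comp, HFam.opH_comp] at h
  exact h

/-- `T_q` on localised modules, for `q ∤ M` -/
noncomputable def tqM (hq : q.Prime) (hqM : ¬ q ∣ M) :
    MLoc hM hS ψ η e →ₗ[R] MLoc hM hS ψ η e :=
  (tH hM ψ hq hqM R).restrict fun _ hx => map_mem_mloc e _ (tw_comm hM hS ψ η) _
    (tw_comm hM hS ψ η) (tH hM ψ hq hqM R) (tqL_tw hM hS ψ η hq hqM) hx

variable {e}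

@[simp] lemma resM_coe (x : MLoc hM hS ψ η e) :
    (resM hM hS hS' ψ η e x : H1 (gam N (M * q) (dvd_mul_q hM)) (psiRep ψ R)) =
      resL hM ψ q x.1 := rfl

@[simp] lemma degM_coe (hq : q.Prime) (hqN : q.Coprime N) (x : MLoc hM hS ψ η e) :
    (degM hM hS hS' ψ η e hq hqN x : H1 (gam N (M * q) (dvd_mul_q hM)) (psiRep ψ R)) =
      degL hM ψ hq hqN x.1 := rfl

@[simp] lemma trM_coe [NeZero M] [NeZero q] (hq : q.Prime) (hqM : ¬ q ∣ M)
    (x : MLoc (dvd_mul_q (q := q) hM) hS' ψ η e) :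
    (trM hM hS hS' ψ η e hq hqM x : H1 (gam N M hM) (psiRep ψ R)) = trL hM ψ q x.1 := rfl

@[simp] lemma nuM_coe [NeZero q] (hq : q.Prime) (hqM : ¬ q ∣ M)
    (x : MLoc (dvd_mul_q (q := q) hM) hS' ψ η e) :
    (nuM hM hS hS' ψ η e hq hqM x : H1 (gam N M hM) (psiRep ψ R)) = nuL hM ψ hq x.1 := rfl

@[simp] lemma tqM_coe (hq : q.Prime) (hqM : ¬ q ∣ M) (x : MLoc hM hS ψ η e) :
    (tqM hM hS ψ η e hq hqM x : H1 (gam N M hM) (psiRep ψ R)) = tH hM ψ hq hqM R x.1 := rfl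

lemma trM_resM [NeZero M] [NeZero q] (hq : q.Prime) (hqM : ¬ q ∣ M) (x : MLoc hM hS ψ η e) :
    trM hM hS hS' ψ η e hq hqM (resM hM hS hS' ψ η e x) = (q + 1) • x :=
  Subtype.ext (tr_res hM (psiRep ψ R) hq hqM x.1)

lemma trM_degM [NeZero M] [NeZero q] (hq : q.Prime) (hqM : ¬ q ∣ M) (hqN : q.Coprime N)
    (x : MLoc hM hS ψ η e) :
    trM hM hS hS' ψ η e hq hqM (degM hM hS hS' ψ η e hq hqN x) = tqM hM hS ψ η e hq hqM x :=
  Subtype.ext (tr_deg hM hq hqM (psiRep ψ R) hqN x.1)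

lemma nuM_resM [NeZero q] (hq : q.Prime) (hqM : ¬ q ∣ M) (x : MLoc hM hS ψ η e) :
    nuM hM hS hS' ψ η e hq hqM (resM hM hS hS' ψ η e x) = tqM hM hS ψ η e hq hqM x :=
  Subtype.ext (nu_res hM hq hqM (psiRep ψ R) x.1)

lemma aUnit_scal (hq : 0 < q) (hqN : q.Coprime N) :
    aUnit N (scal N q hq hqN) = ZMod.unitOfCoprime q hqN := by
  apply Units.ext
  rw [aUnit_val, ZMod.coe_unitOfCoprime]
  change (((q : ℤ) : ℤ) : ZMod N) = _
  push_cast
  rfl

lemma nuM_degM [NeZero q] (hq : q.Prime) (hqM : ¬ q ∣ M) (hqN : q.Coprime N)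
    (x : MLoc hM hS ψ η e) :
    nuM hM hS hS' ψ η e hq hqM (degM hM hS hS' ψ η e hq hqN x) =
      (q + 1) • ((ψ (ZMod.unitOfCoprime q hqN) : Rˣ) : R) • x := by
  apply Subtype.ext
  obtain ⟨c, hc⟩ := Submodule.mkQ_surjective _ x.1
  have h1 := nu_deg (ρ := psiRep ψ R) hM hq hqM hqN c
    (((ψ (ZMod.unitOfCoprime q hqN) : Rˣ) : R) • c) (fun γ => by
      rw [slash_psiRep, aUnit_scal]
      rfl)
  change nuL hM ψ hq (degL hM ψ hq hqN x.1) =
    (q + 1) • ((ψ (ZMod.unitOfCoprime q hqN) : Rˣ) : R) • x.1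
  rw [← hc]
  exact h1

/-- the old map -/
noncomputable def oldM (hq : q.Prime) (hqN : q.Coprime N) :
    MLoc hM hS ψ η e × MLoc hM hS ψ η e →ₗ[R] MLoc (dvd_mul_q (q := q) hM) hS' ψ η e :=
  (resM hM hS hS' ψ η e).coprod (degM hM hS hS' ψ η e hq hqN)

lemma oldM_apply (hq : q.Prime) (hqN : q.Coprime N) (z : MLoc hM hS ψ η e × MLoc hM hS ψ η e) :
    oldM hM hS hS' ψ η hq hqN z =
      resM hM hS hS' ψ η e z.1 + degM hM hS hS' ψ η e hq hqN z.2 := rfl

/-- the map `(tr, ν)` -/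
noncomputable def tnM [NeZero M] [NeZero q] (hq : q.Prime) (hqM : ¬ q ∣ M) :
    MLoc (dvd_mul_q (q := q) hM) hS' ψ η e →ₗ[R] MLoc hM hS ψ η e × MLoc hM hS ψ η e :=
  (trM hM hS hS' ψ η e hq hqM).prod (nuM hM hS hS' ψ η e hq hqM)

/-- `l = (q + 1) ψ(q) tr - T_q ν` -/
noncomputable def lM [NeZero M] [NeZero q] (hq : q.Prime) (hqM : ¬ q ∣ M) (hqN : q.Coprime N) :
    MLoc (dvd_mul_q (q := q) hM) hS' ψ η e →ₗ[R] MLoc hM hS ψ η e :=
  (((q : R) + 1) * ((ψ (ZMod.unitOfCoprime q hqN) : Rˣ) : R)) • trM hM hS hS' ψ η e hq hqM -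
    tqM hM hS ψ η e hq hqM ∘ₗ nuM hM hS hS' ψ η e hq hqM

lemma lM_apply [NeZero M] [NeZero q] (hq : q.Prime) (hqM : ¬ q ∣ M) (hqN : q.Coprime N)
    (x : MLoc (dvd_mul_q (q := q) hM) hS' ψ η e) :
    lM hM hS hS' ψ η hq hqM hqN x =
      (((q : R) + 1) * ((ψ (ZMod.unitOfCoprime q hqN) : Rˣ) : R)) •
        trM hM hS hS' ψ η e hq hqM x -
      tqM hM hS ψ η e hq hqM (nuM hM hS hS' ψ η e hq hqM x) := rfl

/-- `l (res u) = ((q + 1)² ψ(q) - T_q²) u` -/
theorem lM_res [NeZero M] [NeZero q] (hq : q.Prime) (hqM : ¬ q ∣ M) (hqN : q.Coprime N)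
    (u : MLoc hM hS ψ η e) :
    lM hM hS hS' ψ η hq hqM hqN (resM hM hS hS' ψ η e u) =
      (((q : R) + 1) ^ 2 * ((ψ (ZMod.unitOfCoprime q hqN) : Rˣ) : R)) • u -
        tqM hM hS ψ η e hq hqM (tqM hM hS ψ η e hq hqM u) := by
  rw [lM_apply, trM_resM, nuM_resM]
  congr 1
  rw [← Nat.cast_smul_eq_nsmul R, smul_smul]
  congr 1
  push_cast
  ring

/-- `l (V_q v) = 0` -/
theorem lM_deg [NeZero M] [NeZero q] (hq : q.Prime) (hqM : ¬ q ∣ M) (hqN : q.Coprime N)
    (v : MLoc hM hS ψ η e) :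
    lM hM hS hS' ψ η hq hqM hqN (degM hM hS hS' ψ η e hq hqN v) = 0 := by
  rw [lM_apply, trM_degM, nuM_degM, map_nsmul, map_smul, sub_eq_zero,
    ← Nat.cast_smul_eq_nsmul R, smul_smul]
  congr 1
  push_cast
  rfl

end Maps

section Field

variable {N M q : ℕ} (hM : N ∣ M) {S : Set ℕ} {k : Type} [Field k] {O : Type} [CommRing O]
  [Algebra O k]

theorem old_injective_field' [NeZero M] (hq : q.Prime) (hqM : ¬ q ∣ M) (hqN : q.Coprime N)
    (hS : Away M S) (hS' : Away (M * q) S) (h2 : (2 : k) ≠ 0)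
    (hOk : Function.Surjective (algebraMap O k)) (θ : MvPolynomial (Idx S) O →+* k)
    (hθ : ∀ a, θ (MvPolynomial.C a) = algebraMap O k a) {e : MvPolynomial (Idx S) O}
    (α β : (ZMod N)ˣ →* kˣ) (hα : α = 1) (hβ : β = 1)
    (he : IsLocIdem (tw hM hS α β) (tw_comm hM hS α β) θ e)
    (hfin : Module.Finite k (H1 (gam N M hM) (psiRep α k)))
    (hNE1 : ∃ i : Idx S, (θ (MvPolynomial.X i)) ^ 2 ≠ ((i.1 : k) + 1) ^ 2)
    (hNE2 : ∀ D : ℕ, D ≠ 0 → ∃ i : Idx S, (D : ℤ) ∣ (i.1 : ℤ) - 1 ∧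
      θ (MvPolynomial.X i) ≠ (i.1 : k) + 1)
    {x y : H1 (gam N M hM) (psiRep α k)}
    (hx : x ∈ MLoc hM hS α β e) (hy : y ∈ MLoc hM hS α β e)
    (hxy : resL hM α q x + degL hM α hq hqN y = 0) : x = 0 ∧ y = 0 := by
  subst hα hβ
  exact old_injective_field hM hq hqM hqN hS hS' h2 hOk θ hθ he hfin hNE1 hNE2 hx hy hxy

theorem tr_nu_surjective_field' [IsAddTorsionFree O] [IsDomain O] [IsPrincipalIdealRing O]
    [NeZero M] [NeZero q] (hq : q.Prime) (hqM : ¬ q ∣ M)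
    (hS : Away M S) (hS' : Away (M * q) S) (h2 : (2 : k) ≠ 0)
    (hOk : Function.Surjective (algebraMap O k))
    (hg : Good M O) (θ : MvPolynomial (Idx S) O →+* k)
    (hθ : ∀ a, θ (MvPolynomial.C a) = algebraMap O k a) {e : MvPolynomial (Idx S) O}
    (α β : (ZMod N)ˣ →* kˣ) (hα : α = 1) (hβ : β = 1)
    (he : IsLocIdem (tw hM hS α β) (tw_comm hM hS α β) θ e)
    (hNE1 : ∃ i : Idx S, (θ (MvPolynomial.X i)) ^ 2 ≠ ((i.1 : k) + 1) ^ 2)
    (hNE2 : ∀ D : ℕ, D ≠ 0 → ∃ i : Idx S, (D : ℤ) ∣ (i.1 : ℤ) - 1 ∧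
      θ (MvPolynomial.X i) ≠ (i.1 : k) + 1)
    {a b : H1 (gam N M hM) (psiRep α k)}
    (ha : a ∈ MLoc hM hS α β e) (hb : b ∈ MLoc hM hS α β e) :
    ∃ x ∈ MLoc (dvd_mul_q (q := q) hM) hS' α β e,
      trL hM α q x = a ∧ nuL hM α hq x = b := by
  subst hα hβ
  exact tr_nu_surjective_field hM hq hqM hS hS' h2 hOk hg θ hθ he hNE1 hNE2 ha hb

end Field

section Residual

variable {O R : Type} [CommRing O] [IsLocalRing O] [CommRing R] [IsLocalRing R] [Algebra O R]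

lemma isLocalHom_of_surj (h : Function.Surjective (algebraMap O (ResidueField R))) :
    IsLocalHom (algebraMap O R) := by
  refine ⟨fun a ha => ?_⟩
  by_contra hcon
  have h1 : (RingHom.ker (algebraMap O (ResidueField R))) = maximalIdeal O :=
    IsLocalRing.eq_maximalIdeal (RingHom.ker_isMaximal_of_surjective _ h)
  have h2 : a ∈ RingHom.ker (algebraMap O (ResidueField R)) := by
    rw [h1]
    exact (mem_maximalIdeal a).mpr hcon
  have h3 : residue R (algebraMap O R a) = 0 := RingHom.mem_ker.mp h2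
  rw [residue_eq_zero_iff] at h3
  exact (mem_maximalIdeal _).mp h3 ha

/-- the residual eigensystem with values in the residue field of `R` -/
noncomputable def thR [IsLocalHom (algebraMap O R)] {ι : Type}
    (θ : MvPolynomial ι O →+* ResidueField O) : MvPolynomial ι O →+* ResidueField R :=
  (ResidueField.map (algebraMap O R)).comp θ

variable {ι : Type} {θ : MvPolynomial ι O →+* ResidueField O} [IsLocalHom (algebraMap O R)]

lemma thR_C (hθ : ∀ a, θ (MvPolynomial.C a) = residue O a) (a : O) :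
    thR (R := R) θ (MvPolynomial.C a) = algebraMap O (ResidueField R) a := by
  rw [thR, RingHom.comp_apply, hθ, ResidueField.map_residue]
  rfl

lemma isLocIdem_thR {E : Type} [Ring E] [Algebra O E] {T : ι → E}
    {hT : ∀ i j, T i * T j = T j * T i} {e : MvPolynomial ι O} (h : IsLocIdem T hT θ e) :
    IsLocIdem T hT (thR (R := R) θ) e where
  residue := by rw [thR, RingHom.comp_apply, h.residue, map_one]
  idem := h.idem
  inv s hs := h.inv s fun h0 => hs (by rw [thR, RingHom.comp_apply, h0, map_zero])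

lemma thR_ne1 {i : ι} {n : ℕ} (h : (θ (MvPolynomial.X i)) ^ 2 ≠ ((n : ResidueField O) + 1) ^ 2) :
    (thR (R := R) θ (MvPolynomial.X i)) ^ 2 ≠ ((n : ResidueField R) + 1) ^ 2 := by
  intro h1
  apply h
  apply (ResidueField.map (algebraMap O R)).injective
  rw [map_pow, map_pow, map_add, map_one, map_natCast]
  exact h1

lemma thR_ne2 {i : ι} {n : ℕ} (h : θ (MvPolynomial.X i) ≠ (n : ResidueField O) + 1) :
    thR (R := R) θ (MvPolynomial.X i) ≠ (n : ResidueField R) + 1 := by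
  intro h1
  apply h
  apply (ResidueField.map (algebraMap O R)).injective
  rw [map_add, map_one, map_natCast]
  exact h1

end Residual

section Main

variable {N M q : ℕ} (hM : N ∣ M) {S : Set ℕ} (hS : Away M S) (hS' : Away (M * q) S)
  {O : Type} [CommRing O] [IsLocalRing O] {R : Type} [CommRing R] [IsLocalRing R] [Algebra O R]
  (ψ η : (ZMod N)ˣ →* Rˣ)
  {θ : MvPolynomial (Idx S) O →+* ResidueField O} {e : MvPolynomial (Idx S) O}

variable (hOR : Function.Surjective (algebraMap O (ResidueField R)))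
  (hθ : ∀ a, θ (MvPolynomial.C a) = residue O a)
  (hg : Good M R) (hg' : Good (M * q) R) (hψ : ψ (-1) = 1) (hψ1 : ResTriv ψ) (hη1 : ResTriv η)
  (he : IsLocIdem (tw hM hS ψ η) (tw_comm hM hS ψ η) θ e)
  (he' : IsLocIdem (tw (dvd_mul_q (q := q) hM) hS' ψ η)
    (tw_comm (dvd_mul_q (q := q) hM) hS' ψ η) θ e)
  (hNE1 : ∃ i : Idx S, (θ (MvPolynomial.X i)) ^ 2 ≠ ((i.1 : ResidueField O) + 1) ^ 2)
  (hNE2 : ∀ D : ℕ, D ≠ 0 → ∃ i : Idx S, (D : ℤ) ∣ (i.1 : ℤ) - 1 ∧
    θ (MvPolynomial.X i) ≠ (i.1 : ResidueField O) + 1)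

include hOR hθ hg hg' hψ hψ1 hη1 he he' hNE1 hNE2

theorem old_mod_injective [NeZero M] [NeZero q] (hq : q.Prime) (hqM : ¬ q ∣ M)
    (hqN : q.Coprime N) (z : MLoc hM hS ψ η e × MLoc hM hS ψ η e)
    (hz : oldM hM hS hS' ψ η hq hqN z ∈
      (maximalIdeal R • ⊤ : Submodule R (MLoc (dvd_mul_q (q := q) hM) hS' ψ η e))) :
    z ∈ (maximalIdeal R • ⊤ : Submodule R (MLoc hM hS ψ η e × MLoc hM hS ψ η e)) := by
  haveI := isLocalHom_of_surj hOR
  have hα := hψ1.psiMap_residue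
  have hβ := hη1.psiMap_residue
  have h2 : (2 : ResidueField R) ≠ 0 := by
    have h3 := hg.two.map (residue R)
    rw [map_ofNat] at h3
    exact h3.ne_zero
  have hf : ∀ a : O, residue R (algebraMap O R a) = algebraMap O (ResidueField R) a :=
    fun a => rfl
  have h0 := (mS_eq_zero_iff (dvd_mul_q (q := q) hM) hS' ψ η hg' hψ he' (residue R) hf
    residue_surjective (oldM hM hS hS' ψ η hq hqN z)).mpr (by rw [ker_residue]; exact hz)
  have h1 := congrArg Subtype.val h0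
  have h3 : resL hM (psiMap (residue R) ψ) q (h1S hM ψ (residue R) z.1.1) +
      degL hM (psiMap (residue R) ψ) hq hqN (h1S hM ψ (residue R) z.2.1) = 0 := by
    rw [resL, degL, opH_h1S, opH_h1S, ← map_add]
    exact h1
  have hfin : Module.Finite (ResidueField R)
      (H1 (gam N M hM) (psiRep (psiMap (residue R) ψ) (ResidueField R))) :=
    h1_finite hM _ (good_map (residue R) hg) (by rw [hα]; rfl)
  have h4 := old_injective_field' hM hq hqM hqN hS hS' h2 hOR (thR θ) (thR_C hθ)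
    (psiMap (residue R) ψ) (psiMap (residue R) η) hα hβ
    (isLocIdem_thR (isLocIdem_bc hM hS ψ η hg hψ (residue R) hf he)) hfin
    (by obtain ⟨i, hi⟩ := hNE1; exact ⟨i, thR_ne1 hi⟩)
    (fun D hD => by obtain ⟨i, hi, hi'⟩ := hNE2 D hD; exact ⟨i, hi, thR_ne2 hi'⟩)
    (mS hM hS ψ η e (residue R) hf z.1).2 (mS hM hS ψ η e (residue R) hf z.2).2 h3
  have h5 : ∀ y : MLoc hM hS ψ η e, h1S hM ψ (residue R) y.1 = 0 →
      y ∈ (maximalIdeal R • ⊤ : Submodule R (MLoc hM hS ψ η e)) := by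
    intro y hy
    have h6 := (mS_eq_zero_iff hM hS ψ η hg hψ he (residue R) hf residue_surjective y).mp
      (Subtype.ext hy)
    rwa [ker_residue] at h6
  exact smul_top_prod (h5 _ h4.1) (h5 _ h4.2)

/-- **(A)** The old map has a retraction. -/
theorem exists_retract_old [NeZero M] [NeZero q] (hq : q.Prime) (hqM : ¬ q ∣ M)
    (hqN : q.Coprime N) :
    ∃ r : MLoc (dvd_mul_q (q := q) hM) hS' ψ η e →ₗ[R] MLoc hM hS ψ η e × MLoc hM hS ψ η e,
      r ∘ₗ oldM hM hS hS' ψ η hq hqN = LinearMap.id := by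
  obtain ⟨i₀, -, hi₀⟩ := hNE2 1 one_ne_zero
  have hi₀' : θ (MvPolynomial.X i₀) ≠ 1 + (i₀.1 : ResidueField O) := by
    rw [add_comm]; exact hi₀
  haveI : NeZero (M * q) := ⟨mul_ne_zero (NeZero.ne M) (NeZero.ne q)⟩
  obtain ⟨f1, f2⟩ := loc_free hM hS ψ η hg hψ he hψ1 hη1 i₀ hi₀'
  obtain ⟨f3, f4⟩ := loc_free (dvd_mul_q (q := q) hM) hS' ψ η hg' hψ he' hψ1 hη1 i₀ hi₀'
  exact exists_retract_of_residue _ (old_mod_injective hM hS hS' ψ η hOR hθ hg hg' hψ hψ1 hη1
    he he' hNE1 hNE2 hq hqM hqN)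

/-- **(A)** The new quotient is free, of the expected rank. -/
theorem new_free [NeZero M] [NeZero q] (hq : q.Prime) (hqM : ¬ q ∣ M)
    (hqN : q.Coprime N) :
    Module.Free R (MLoc (dvd_mul_q (q := q) hM) hS' ψ η e ⧸
        LinearMap.range (oldM hM hS hS' ψ η hq hqN)) ∧
      Module.Finite R (MLoc (dvd_mul_q (q := q) hM) hS' ψ η e ⧸
        LinearMap.range (oldM hM hS hS' ψ η hq hqN)) ∧
      Module.finrank R (MLoc (dvd_mul_q (q := q) hM) hS' ψ η e ⧸
        LinearMap.range (oldM hM hS hS' ψ η hq hqN)) + 2 * Module.finrank R (MLoc hM hS ψ η e) =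
        Module.finrank R (MLoc (dvd_mul_q (q := q) hM) hS' ψ η e) := by
  obtain ⟨i₀, -, hi₀⟩ := hNE2 1 one_ne_zero
  have hi₀' : θ (MvPolynomial.X i₀) ≠ 1 + (i₀.1 : ResidueField O) := by
    rw [add_comm]; exact hi₀
  haveI : NeZero (M * q) := ⟨mul_ne_zero (NeZero.ne M) (NeZero.ne q)⟩
  obtain ⟨f1, f2⟩ := loc_free hM hS ψ η hg hψ he hψ1 hη1 i₀ hi₀'
  obtain ⟨f3, f4⟩ := loc_free (dvd_mul_q (q := q) hM) hS' ψ η hg' hψ he' hψ1 hη1 i₀ hi₀'
  obtain ⟨r, hr⟩ := exists_retract_old hM hS hS' ψ η hOR hθ hg hg' hψ hψ1 hη1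
    he he' hNE1 hNE2 hq hqM hqN
  have h1 := free_quotient_of_retract (oldM hM hS hS' ψ η hq hqN) r hr
  have h4 : Module.finrank R (MLoc hM hS ψ η e × MLoc hM hS ψ η e) =
      2 * Module.finrank R (MLoc hM hS ψ η e) := by
    rw [Module.finrank_prod, two_mul]
  exact ⟨h1.1, h1.2.1, by rw [← h4]; exact h1.2.2⟩

end Main

section MainB

variable {N M q : ℕ} (hM : N ∣ M) {S : Set ℕ} (hS : Away M S) (hS' : Away (M * q) S)
  {O : Type} [CommRing O] [IsLocalRing O] [IsAddTorsionFree O] [IsDomain O]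
  [IsPrincipalIdealRing O] {R : Type} [CommRing R] [IsLocalRing R] [Algebra O R]
  (ψ η : (ZMod N)ˣ →* Rˣ)
  {θ : MvPolynomial (Idx S) O →+* ResidueField O} {e : MvPolynomial (Idx S) O}

variable (hOR : Function.Surjective (algebraMap O (ResidueField R)))
  (hθ : ∀ a, θ (MvPolynomial.C a) = residue O a)
  (hg : Good M R) (hg' : Good (M * q) R) (hgO : Good M O) (hψ : ψ (-1) = 1)
  (hψ1 : ResTriv ψ) (hη1 : ResTriv η)
  (he : IsLocIdem (tw hM hS ψ η) (tw_comm hM hS ψ η) θ e)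
  (he' : IsLocIdem (tw (dvd_mul_q (q := q) hM) hS' ψ η)
    (tw_comm (dvd_mul_q (q := q) hM) hS' ψ η) θ e)
  (hNE1 : ∃ i : Idx S, (θ (MvPolynomial.X i)) ^ 2 ≠ ((i.1 : ResidueField O) + 1) ^ 2)
  (hNE2 : ∀ D : ℕ, D ≠ 0 → ∃ i : Idx S, (D : ℤ) ∣ (i.1 : ℤ) - 1 ∧
    θ (MvPolynomial.X i) ≠ (i.1 : ResidueField O) + 1)

include hOR hθ hg hg' hgO hψ hψ1 hη1 he he' hNE1 hNE2

theorem trNu_mod_surjective [NeZero M] [NeZero q] (hq : q.Prime) (hqM : ¬ q ∣ M)
    (z : MLoc hM hS ψ η e × MLoc hM hS ψ η e) :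
    ∃ x, z - tnM hM hS hS' ψ η hq hqM x ∈
      (maximalIdeal R • ⊤ : Submodule R (MLoc hM hS ψ η e × MLoc hM hS ψ η e)) := by
  haveI := isLocalHom_of_surj hOR
  haveI : NeZero (M * q) := ⟨mul_ne_zero (NeZero.ne M) (NeZero.ne q)⟩
  have hα := hψ1.psiMap_residue
  have hβ := hη1.psiMap_residue
  have h2 : (2 : ResidueField R) ≠ 0 := by
    have h3 := hg.two.map (residue R)
    rw [map_ofNat] at h3
    exact h3.ne_zero
  have hf : ∀ a : O, residue R (algebraMap O R a) = algebraMap O (ResidueField R) a :=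
    fun a => rfl
  obtain ⟨xb, hxb, h3, h4⟩ := tr_nu_surjective_field' hM hq hqM hS hS' h2 hOR hgO (thR θ)
    (thR_C hθ) (psiMap (residue R) ψ) (psiMap (residue R) η) hα hβ
    (isLocIdem_thR (isLocIdem_bc hM hS ψ η hg hψ (residue R) hf he))
    (by obtain ⟨i, hi⟩ := hNE1; exact ⟨i, thR_ne1 hi⟩)
    (fun D hD => by obtain ⟨i, hi, hi'⟩ := hNE2 D hD; exact ⟨i, hi, thR_ne2 hi'⟩)
    (mS hM hS ψ η e (residue R) hf z.1).2 (mS hM hS ψ η e (residue R) hf z.2).2
  obtain ⟨x, hx⟩ := mS_surjective (dvd_mul_q (q := q) hM) hS' ψ η hg' hψ he' (residue R) hf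
    residue_surjective ⟨xb, hxb⟩
  have hx1 : h1S (dvd_mul_q (q := q) hM) ψ (residue R) x.1 = xb := congrArg Subtype.val hx
  have h5 : ∀ y : MLoc hM hS ψ η e, h1S hM ψ (residue R) y.1 = 0 →
      y ∈ (maximalIdeal R • ⊤ : Submodule R (MLoc hM hS ψ η e)) := by
    intro y hy
    have h6 := (mS_eq_zero_iff hM hS ψ η hg hψ he (residue R) hf residue_surjective y).mp
      (Subtype.ext hy)
    rwa [ker_residue] at h6
  refine ⟨x, ?_⟩
  have h7 : h1S hM ψ (residue R) (z.1 - trM hM hS hS' ψ η e hq hqM x : MLoc hM hS ψ η e).1 = 0 := by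
    rw [Submodule.coe_sub, map_sub, sub_eq_zero, trM_coe, trL, ← opH_h1S, hx1]
    exact h3.symm
  have h8 : h1S hM ψ (residue R) (z.2 - nuM hM hS hS' ψ η e hq hqM x : MLoc hM hS ψ η e).1 = 0 := by
    rw [Submodule.coe_sub, map_sub, sub_eq_zero, nuM_coe, nuL, ← opH_h1S, hx1]
    exact h4.symm
  exact smul_top_prod (h5 _ h7) (h5 _ h8)

/-- **(B)** `(tr, ν)` is surjective. -/
theorem trNu_surjective [NeZero M] [NeZero q] (hq : q.Prime) (hqM : ¬ q ∣ M) :
    Function.Surjective (tnM (e := e) hM hS hS' ψ η hq hqM) := by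
  obtain ⟨i₀, -, hi₀⟩ := hNE2 1 one_ne_zero
  have hi₀' : θ (MvPolynomial.X i₀) ≠ 1 + (i₀.1 : ResidueField O) := by
    rw [add_comm]; exact hi₀
  obtain ⟨f1, f2⟩ := loc_free hM hS ψ η hg hψ he hψ1 hη1 i₀ hi₀'
  rw [← LinearMap.range_eq_top]
  apply le_antisymm le_top
  refine Submodule.le_of_le_smul_of_le_jacobson_bot (I := maximalIdeal R) Module.Finite.fg_top
    (IsLocalRing.maximalIdeal_le_jacobson _) ?_
  intro z _
  obtain ⟨x, hx⟩ := trNu_mod_surjective hM hS hS' ψ η hOR hθ hg hg' hgO hψ hψ1 hη1 he he'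
    hNE1 hNE2 hq hqM z
  have h1 : z = tnM hM hS hS' ψ η hq hqM x + (z - tnM hM hS hS' ψ η hq hqM x) := by abel
  rw [h1]
  exact Submodule.add_mem_sup ⟨x, rfl⟩ hx

/-- **(B)** in element form -/
theorem exists_tr_nu_eq [NeZero M] [NeZero q] (hq : q.Prime) (hqM : ¬ q ∣ M)
    (a b : MLoc hM hS ψ η e) :
    ∃ x, trM hM hS hS' ψ η e hq hqM x = a ∧ nuM hM hS hS' ψ η e hq hqM x = b := by
  obtain ⟨x, hx⟩ := trNu_surjective hM hS hS' ψ η hOR hθ hg hg' hgO hψ hψ1 hη1 he he'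
    hNE1 hNE2 hq hqM (a, b)
  exact ⟨x, congrArg Prod.fst hx, congrArg Prod.snd hx⟩

/-- **(C)** the image of `l` -/
theorem exists_lM_eq [NeZero M] [NeZero q] (hq : q.Prime) (hqM : ¬ q ∣ M) (hqN : q.Coprime N)
    (a b : MLoc hM hS ψ η e) :
    ∃ x, lM hM hS hS' ψ η hq hqM hqN x =
      (((q : R) + 1) * ((ψ (ZMod.unitOfCoprime q hqN) : Rˣ) : R)) • a -
        tqM hM hS ψ η e hq hqM b := by
  obtain ⟨x, h1, h2⟩ := exists_tr_nu_eq hM hS hS' ψ η hOR hθ hg hg' hgO hψ hψ1 hη1 he he'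
    hNE1 hNE2 hq hqM a b
  exact ⟨x, by rw [lM_apply, h1, h2]⟩

/-- **(C)** `(q + 1) a` is in the image of `l` -/
theorem exists_lM_eq_smul [NeZero M] [NeZero q] (hq : q.Prime) (hqM : ¬ q ∣ M)
    (hqN : q.Coprime N) (a : MLoc hM hS ψ η e) :
    ∃ x, lM hM hS hS' ψ η hq hqM hqN x = ((q : R) + 1) • a := by
  obtain ⟨x, hx⟩ := exists_lM_eq hM hS hS' ψ η hOR hθ hg hg' hgO hψ hψ1 hη1 he he'
    hNE1 hNE2 hq hqM hqN ((((ψ (ZMod.unitOfCoprime q hqN))⁻¹ : Rˣ) : R) • a) 0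
  refine ⟨x, ?_⟩
  rw [hx, map_zero, sub_zero, smul_smul, mul_assoc, Units.mul_inv, mul_one]

end MainB

end Fermat.Agent.H71.R
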