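import Mathlib
import Fermat.Agent.H69Full
import Fermat.Agent.H71RMod
import Fermat.Agent.H70Grp

/-!
# The new quotients in the chain of the full endgame (helper41)
-/

set_option autoImplicit false
set_option linter.style.haveILetI false
set_option linter.unusedSectionVars false

namespace Fermat.Agent.H41.FX

open IsLocalRing TensorProduct
open Fermat.Agent.H59 (ForallEigen)
open Fermat.Agent.H69.EG

section Quot

/-- Eigensystems of a quotient occur in the module (abstract form). -/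
theorem exists_eigen_of_surj {R A V X : Type*} [CommRing R] [IsDomain R] [IsNoetherianRing R]
    [CommRing A] [Algebra R A] [Module.Finite R A] [AddCommGroup V] [Module R V]
    [Module.Finite R V] [AddCommGroup X] [Module R X]
    (F : A →ₐ[R] Module.End R V) (G : A →ₐ[R] Module.End R X) (f : V →ₗ[R] X)
    (hf : Function.Surjective f) (hfe : ∀ a v, f (F a v) = G a (f v)) (μ : A →ₐ[R] R) (w : X)
    (hw : ∀ r : R, r • w = 0 → r = 0) (hμ : ∀ a, G a w = μ a • w) :
    ∃ v : V, v ≠ 0 ∧ ∀ a, F a v = μ a • v := by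
  letI : Module A V := Module.compHom V (F : A →+* Module.End R V)
  have hsm : ∀ (a : A) (v : V), a • v = F a v := fun _ _ => rfl
  haveI : IsScalarTower R A V := ⟨fun r a v => by
    rw [hsm, hsm, map_smul, LinearMap.smul_apply]⟩
  haveI : Module.Finite A V := Module.Finite.of_restrictScalars_finite R A V
  haveI : IsNoetherianRing A := IsNoetherianRing.of_finite R A
  let P : Ideal A := RingHom.ker μ
  haveI hP : P.IsPrime := RingHom.ker_isPrime μ
  have hcomap : P.comap (algebraMap R A) = ⊥ := by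
    rw [eq_bot_iff]
    intro r hr
    have h1 : μ (algebraMap R A r) = 0 := hr
    rwa [AlgHom.commutes, Algebra.algebraMap_self, RingHom.id_apply] at h1
  have hann : Module.annihilator A V ≤ P := by
    intro a ha
    obtain ⟨v, rfl⟩ := hf w
    have h1 : a • v = 0 := Module.mem_annihilator.mp ha v
    rw [hsm] at h1
    have h2 := hμ a
    rw [← hfe, h1, map_zero] at h2
    exact hw _ h2.symm
  have hmin : P ∈ (Module.annihilator A V).minimalPrimes := by
    refine ⟨⟨hP, hann⟩, ?_⟩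
    rintro Q ⟨hQ, hQ2⟩ hQP
    by_contra hcon
    obtain ⟨x, hxP, hxQ⟩ := SetLike.not_le_iff_exists.mp hcon
    haveI : Q.IsPrime := hQ
    have h1 := Ideal.comap_lt_comap_of_integral_mem_sdiff (R := R) hQP (x := x) ⟨hxP, hxQ⟩
      (Algebra.IsIntegral.isIntegral x)
    rw [hcomap] at h1
    exact not_lt_bot h1
  have hass := Module.associatedPrimes.minimalPrimes_annihilator_subset_associatedPrimes A V hmin
  obtain ⟨-, v, hv⟩ := isAssociatedPrime_iff.mp hass
  have hkill : ∀ a ∈ P, a • v = 0 := by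
    intro a ha
    rw [hv] at ha
    exact (Submodule.mem_colon_singleton.mp ha)
  refine ⟨v, ?_, fun a => ?_⟩
  · rintro rfl
    apply hP.ne_top
    rw [hv, Ideal.eq_top_iff_one]
    exact Submodule.mem_colon_singleton.mpr (by rw [smul_zero]; exact Submodule.zero_mem _)
  · have h1 : a - algebraMap R A (μ a) ∈ P := by
      change μ (a - algebraMap R A (μ a)) = 0
      rw [map_sub, AlgHom.commutes, Algebra.algebraMap_self, RingHom.id_apply, sub_self]
    have h2 := hkill _ h1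
    rw [sub_smul, sub_eq_zero, algebraMap_smul, hsm] at h2
    exact h2

variable {O : Type} [CommRing O] {M X : Type} [AddCommGroup M] [Module O M] [AddCommGroup X]
  [Module O X] {𝕋 : Type} [CommRing 𝕋] [Algebra O 𝕋]

/-- extension of an action to a base change -/
noncomputable def bcAct (O' : Type) [CommRing O'] [Algebra O O'] (Φ : 𝕋 →ₐ[O] Module.End O M) :
    (O' ⊗[O] 𝕋) →ₐ[O'] Module.End O' (O' ⊗[O] M) :=
  Algebra.TensorProduct.lift (Algebra.ofId O' _) ((Module.End.baseChangeHom O O' M).comp Φ)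
    (fun a _ => Algebra.commutes a _)

lemma bcAct_tmul (O' : Type) [CommRing O'] [Algebra O O'] (Φ : 𝕋 →ₐ[O] Module.End O M) (a : O')
    (t : 𝕋) (x : O' ⊗[O] M) : bcAct O' Φ (a ⊗ₜ t) x = a • (Φ t).baseChange O' x := by
  rw [bcAct, Algebra.TensorProduct.lift_tmul, Module.End.mul_apply]
  rfl

theorem exists_eigen_lift [Module.Finite O M] [Module.Finite O 𝕋] [Module.Free O X]
    (Φ : 𝕋 →ₐ[O] Module.End O M)
    (Φ' : 𝕋 →ₐ[O] Module.End O X) (quo : M →ₗ[O] X) (hq : Function.Surjective quo)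
    (hqe : ∀ t x, quo (Φ t x) = Φ' t (quo x)) (O' : Type) [CommRing O'] [IsDomain O']
    [IsNoetherianRing O'] [Algebra O O'] (lam : 𝕋 →ₐ[O] O') (x : O' ⊗[O] X) (hx : x ≠ 0)
    (hl : ∀ t, (Φ' t).baseChange O' x = lam t • x) :
    ∃ y : O' ⊗[O] M, y ≠ 0 ∧ ∀ t, (Φ t).baseChange O' y = lam t • y := by
  let μ : (O' ⊗[O] 𝕋) →ₐ[O'] O' :=
    Algebra.TensorProduct.lift (AlgHom.id O' O') lam (fun _ _ => Commute.all _ _)
  have hμt : ∀ a t, μ (a ⊗ₜ t) = a * lam t := fun a t => Algebra.TensorProduct.lift_tmul _ _ _ _ _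
  obtain ⟨y, hy0, hy⟩ := exists_eigen_of_surj (bcAct O' Φ) (bcAct O' Φ') (quo.baseChange O')
    (by
      have h := LinearMap.lTensor_surjective O' hq
      exact h)
    (by
      intro a v
      induction a using TensorProduct.induction_on with
      | zero => rw [map_zero, map_zero, LinearMap.zero_apply, LinearMap.zero_apply, map_zero]
      | add a b ha hb => rw [map_add, map_add, LinearMap.add_apply, LinearMap.add_apply, map_add,
          ha, hb]
      | tmul a t =>
        rw [bcAct_tmul, bcAct_tmul, map_smul]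
        congr 1
        rw [← LinearMap.comp_apply, ← LinearMap.comp_apply, ← LinearMap.baseChange_comp,
          ← LinearMap.baseChange_comp]
        congr 2
        exact LinearMap.ext fun x => hqe t x)
    μ x
    (by
      intro r hr
      by_contra hne
      exact hx ((smul_eq_zero.mp hr).resolve_left hne))
    (by
      intro a
      induction a using TensorProduct.induction_on with
      | zero => rw [map_zero, map_zero, LinearMap.zero_apply, zero_smul]
      | add a b ha hb => rw [map_add, map_add, LinearMap.add_apply, ha, hb, add_smul]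
      | tmul a t => rw [bcAct_tmul, hl, hμt, mul_smul])
  refine ⟨y, hy0, fun t => ?_⟩
  have h1 := hy (1 ⊗ₜ t)
  rwa [bcAct_tmul, one_smul, hμt, one_mul] at h1

end Quot

section Delta

variable {O : Type} [CommRing O] {M X : Type} [AddCommGroup M] [Module O M] [AddCommGroup X]
  [Module O X] {𝕋 : Type} [CommRing 𝕋] [Algebra O 𝕋] {Δ : Type} [CommGroup Δ]

/-- the algebra action of a group of operators -/
noncomputable def grpAct (Ψ : Δ →* Module.End O M) : MonoidAlgebra O Δ →ₐ[O] Module.End O M :=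
  MonoidAlgebra.lift O (Module.End O M) Δ Ψ

lemma grpAct_of (Ψ : Δ →* Module.End O M) (g : Δ) :
    grpAct Ψ (MonoidAlgebra.of O Δ g) = Ψ g := MonoidAlgebra.lift_of Ψ g

lemma grpAct_comm (Φ : 𝕋 →ₐ[O] Module.End O M) (Ψ : Δ →* Module.End O M)
    (hc : ∀ t g, Φ t * Ψ g = Ψ g * Φ t) (t : 𝕋) (z : MonoidAlgebra O Δ) :
    Commute (Φ t) (grpAct Ψ z) := by
  induction z using MonoidAlgebra.induction_on with
  | of g => rw [grpAct_of]; exact hc t g
  | add a b ha hb => rw [map_add]; exact ha.add_right hb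
  | smul r a ha => rw [map_smul]; exact ha.smul_right r

/-- joint action of the Hecke algebra and the diamond group -/
noncomputable def jointAct (Φ : 𝕋 →ₐ[O] Module.End O M) (Ψ : Δ →* Module.End O M)
    (hc : ∀ t g, Φ t * Ψ g = Ψ g * Φ t) : (𝕋 ⊗[O] MonoidAlgebra O Δ) →ₐ[O] Module.End O M :=
  Algebra.TensorProduct.lift Φ (grpAct Ψ) (grpAct_comm Φ Ψ hc)

lemma jointAct_tmul (Φ : 𝕋 →ₐ[O] Module.End O M) (Ψ : Δ →* Module.End O M)
    (hc : ∀ t g, Φ t * Ψ g = Ψ g * Φ t) (t : 𝕋) (z : MonoidAlgebra O Δ) :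
    jointAct Φ Ψ hc (t ⊗ₜ z) = Φ t * grpAct Ψ z := Algebra.TensorProduct.lift_tmul _ _ _ _ _

lemma grpAct_map (Ψ : Δ →* Module.End O M) (Ψ' : Δ →* Module.End O X) (f : M →ₗ[O] X)
    (hf : ∀ g x, f (Ψ g x) = Ψ' g (f x)) (z : MonoidAlgebra O Δ) (x : M) :
    f (grpAct Ψ z x) = grpAct Ψ' z (f x) := by
  induction z using MonoidAlgebra.induction_on with
  | of g => rw [grpAct_of, grpAct_of, hf]
  | add a b ha hb => rw [map_add, map_add, LinearMap.add_apply, LinearMap.add_apply, map_add,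
      ha, hb]
  | smul r a ha => rw [map_smul, map_smul, LinearMap.smul_apply, LinearMap.smul_apply, map_smul, ha]

lemma jointAct_map (Φ : 𝕋 →ₐ[O] Module.End O M) (Ψ : Δ →* Module.End O M)
    (hc : ∀ t g, Φ t * Ψ g = Ψ g * Φ t) (Φ' : 𝕋 →ₐ[O] Module.End O X) (Ψ' : Δ →* Module.End O X)
    (hc' : ∀ t g, Φ' t * Ψ' g = Ψ' g * Φ' t) (f : M →ₗ[O] X)
    (hΦ : ∀ t x, f (Φ t x) = Φ' t (f x)) (hΨ : ∀ g x, f (Ψ g x) = Ψ' g (f x))
    (z : 𝕋 ⊗[O] MonoidAlgebra O Δ) (x : M) :
    f (jointAct Φ Ψ hc z x) = jointAct Φ' Ψ' hc' z (f x) := by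
  induction z using TensorProduct.induction_on with
  | zero => rw [map_zero, map_zero, LinearMap.zero_apply, LinearMap.zero_apply, map_zero]
  | add a b ha hb => rw [map_add, map_add, LinearMap.add_apply, LinearMap.add_apply, map_add,
      ha, hb]
  | tmul t z => rw [jointAct_tmul, jointAct_tmul, Module.End.mul_apply, Module.End.mul_apply, hΦ,
      grpAct_map Ψ Ψ' f hΨ]

/-- **Eigensystems of an equivariant quotient occur in the module**, together with the
characters of the diamond group. -/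
theorem exists_eigen_lift_char [Finite Δ] [Module.Finite O M] [Module.Finite O 𝕋] [Module.Free O X]
    (Φ : 𝕋 →ₐ[O] Module.End O M) (Ψ : Δ →* Module.End O M)
    (hc : ∀ t g, Φ t * Ψ g = Ψ g * Φ t) (Φ' : 𝕋 →ₐ[O] Module.End O X) (Ψ' : Δ →* Module.End O X)
    (hc' : ∀ t g, Φ' t * Ψ' g = Ψ' g * Φ' t) (quo : M →ₗ[O] X) (hq : Function.Surjective quo)
    (hΦ : ∀ t x, quo (Φ t x) = Φ' t (quo x)) (hΨ : ∀ g x, quo (Ψ g x) = Ψ' g (quo x))
    (O' : Type) [CommRing O'] [IsDomain O'] [IsNoetherianRing O'] [Algebra O O']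
    (lam : 𝕋 →ₐ[O] O') (χ : Δ →* O') (x : O' ⊗[O] X) (hx : x ≠ 0)
    (hl : ∀ t, (Φ' t).baseChange O' x = lam t • x)
    (hχ : ∀ g, (Ψ' g).baseChange O' x = χ g • x) :
    ∃ y : O' ⊗[O] M, y ≠ 0 ∧ (∀ t, (Φ t).baseChange O' y = lam t • y) ∧
      ∀ g, (Ψ g).baseChange O' y = χ g • y := by
  let lam' : (𝕋 ⊗[O] MonoidAlgebra O Δ) →ₐ[O] O' :=
    Algebra.TensorProduct.lift lam (MonoidAlgebra.lift O O' Δ χ) (fun _ _ => Commute.all _ _)
  have hlam' : ∀ t z, lam' (t ⊗ₜ z) = lam t * MonoidAlgebra.lift O O' Δ χ z :=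
    fun t z => Algebra.TensorProduct.lift_tmul _ _ _ _ _
  obtain ⟨y, hy0, hy⟩ := exists_eigen_lift (jointAct Φ Ψ hc) (jointAct Φ' Ψ' hc') quo hq
    (fun z x => jointAct_map Φ Ψ hc Φ' Ψ' hc' quo hΦ hΨ z x) O' lam' x hx (by
      intro z
      induction z using TensorProduct.induction_on with
      | zero => rw [map_zero, map_zero, LinearMap.baseChange_zero, LinearMap.zero_apply, zero_smul]
      | add a b ha hb => rw [map_add, map_add, LinearMap.baseChange_add, LinearMap.add_apply, ha,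
          hb, add_smul]
      | tmul t z =>
        have hz : (grpAct Ψ' z).baseChange O' x = MonoidAlgebra.lift O O' Δ χ z • x := by
          induction z using MonoidAlgebra.induction_on with
          | of g => rw [grpAct_of, hχ, MonoidAlgebra.lift_of]
          | add a b ha hb => rw [map_add, map_add, LinearMap.baseChange_add, LinearMap.add_apply,
              ha, hb, add_smul]
          | smul r a ha => rw [map_smul, map_smul, LinearMap.baseChange_smul, LinearMap.smul_apply,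
              ha, smul_assoc]
        rw [jointAct_tmul, Module.End.mul_eq_comp, LinearMap.baseChange_comp, LinearMap.comp_apply,
          hz, map_smul, hl, hlam', smul_smul, mul_comm])
  refine ⟨y, hy0, fun t => ?_, fun g => ?_⟩
  · have h1 := hy (t ⊗ₜ 1)
    rwa [jointAct_tmul, map_one, mul_one, hlam', map_one, mul_one] at h1
  · have h1 := hy (1 ⊗ₜ MonoidAlgebra.of O Δ g)
    rwa [jointAct_tmul, map_one, one_mul, grpAct_of, hlam', map_one, one_mul,
      MonoidAlgebra.lift_of] at h1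

end Delta

section Compat

variable {O : Type} [CommRing O] {p : ℕ} [Fact p.Prime] {𝕋 : Type} [CommRing 𝕋] [Algebra O 𝕋]
  [Module.Finite O 𝕋] {r : ℕ} {e : Fin r → ℕ}

/-- eigensystems of an equivariant quotient occur in the module -/
theorem forallEigen_of_surj (B X : EMod O p e 𝕋) (quo : B.M →ₗ[O] X.M)
    (hq : Function.Surjective quo) (hΦ : ∀ t x, quo (B.Φ t x) = X.Φ t (quo x))
    {P : ∀ (O' : Type) [CommRing O'] [IsDomain O'] [IsDiscreteValuationRing O']
      [IsAdicComplete (maximalIdeal O') O'] [Finite (ResidueField O')] [CharZero O']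
      [Algebra O O'] [Module.Finite O O'] [IsLocalHom (algebraMap O O')],
      (𝕋 →ₐ[O] O') → Prop}
    (h : ForallEigen B.Φ fun O' _ _ _ _ _ _ _ _ _ lam _ => P O' lam) :
    ForallEigen X.Φ fun O' _ _ _ _ _ _ _ _ _ lam _ => P O' lam := by
  intro O' _ _ _ _ _ _ _ _ _ hO lam x hx hl
  obtain ⟨y, hy0, hy⟩ := exists_eigen_lift B.Φ X.Φ quo hq hΦ O' lam x hx hl
  exact h O' hO lam y hy0 hy

/-- compatibility passes to equivariant quotients -/
theorem compat_of_surj {R : Type} [CommRing R] [Algebra O R] (B X : EMod O p e 𝕋)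
    (quo : B.M →ₗ[O] X.M) (hq : Function.Surjective quo)
    (hΦ : ∀ t x, quo (B.Φ t x) = X.Φ t (quo x)) (hΨ : ∀ g x, quo (B.Ψ g x) = X.Ψ g (quo x))
    (π : R →ₐ[O] 𝕋) (c : Fin r → R) (h : B.Compat π c) : X.Compat π c := by
  intro O' _ _ _ _ _ _ _ _ _ hO lam x hx hl χ hχ
  obtain ⟨y, hy0, hy, hy2⟩ := exists_eigen_lift_char B.Φ B.Ψ B.comm X.Φ X.Ψ X.comm quo hq hΦ hΨ
    O' lam χ x hx hl hχ
  exact h O' hO lam y hy0 hy χ hy2

end Compat

section Free

variable {O : Type} [CommRing O] {p : ℕ} [Fact p.Prime] {𝕋 : Type} [CommRing 𝕋] [Algebra O 𝕋]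
  {r : ℕ} {e : Fin r → ℕ}

/-- the module structure over the group ring -/
noncomputable abbrev lamMod (E : EMod O p e 𝕋) : Module (MonoidAlgebra O (Dlt p e)) E.M :=
  Module.compHom E.M (grpAct E.Ψ : MonoidAlgebra O (Dlt p e) →+* Module.End O E.M)

lemma lamMod_smul (E : EMod O p e 𝕋) (z : MonoidAlgebra O (Dlt p e)) (x : E.M) :
    letI := lamMod E
    z • x = grpAct E.Ψ z x := rfl

lemma lamMod_tower (E : EMod O p e 𝕋) :
    letI := lamMod E
    IsScalarTower O (MonoidAlgebra O (Dlt p e)) E.M := by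
  letI := lamMod E
  refine ⟨fun a z x => ?_⟩
  rw [lamMod_smul, lamMod_smul, map_smul, LinearMap.smul_apply]

/-- the basis over the group ring -/
theorem exists_lamBasis (E : EMod O p e 𝕋) :
    letI := lamMod E
    Nonempty (Module.Basis (Fin E.d) (MonoidAlgebra O (Dlt p e)) E.M) := by
  letI := lamMod E
  haveI := lamMod_tower E
  let L : (Fin E.d → MonoidAlgebra O (Dlt p e)) →ₗ[MonoidAlgebra O (Dlt p e)] E.M :=
    Fintype.linearCombination (MonoidAlgebra O (Dlt p e)) fun i => E.b (i, 1)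
  let bΛ : Module.Basis ((_ : Fin E.d) × Dlt p e) O (Fin E.d → MonoidAlgebra O (Dlt p e)) :=
    Pi.basis fun _ => MonoidAlgebra.basis (Dlt p e) O
  let eqv : (Fin E.d → MonoidAlgebra O (Dlt p e)) ≃ₗ[O] E.M :=
    bΛ.equiv E.b (Equiv.sigmaEquivProd (Fin E.d) (Dlt p e))
  have hL : L.restrictScalars O = eqv.toLinearMap := by
    apply bΛ.ext
    rintro ⟨i, g⟩
    have h1 : bΛ ⟨i, g⟩ = Pi.single i (MonoidAlgebra.of O (Dlt p e) g) := by
      simp only [bΛ, Pi.basis_apply, MonoidAlgebra.basis_apply]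
      rfl
    have h2 : eqv (bΛ ⟨i, g⟩) = E.b (i, g) := by
      simp only [eqv, Module.Basis.equiv_apply]
      rfl
    change L (bΛ ⟨i, g⟩) = eqv (bΛ ⟨i, g⟩)
    rw [h2, h1]
    change Fintype.linearCombination (MonoidAlgebra O (Dlt p e)) (fun i => E.b (i, 1))
      (Pi.single i (MonoidAlgebra.of O (Dlt p e) g)) = _
    rw [Fintype.linearCombination_apply_single, lamMod_smul, grpAct_of, ← E.b_apply]
  have hbij : Function.Bijective L := by
    have h1 : (L : _ → _) = eqv := by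
      funext z
      exact LinearMap.congr_fun hL z
    rw [h1]
    exact eqv.bijective
  exact ⟨Module.Basis.ofEquivFun (LinearEquiv.ofBijective L hbij).symm⟩

/-- Construction of `EMod` from a module over the group ring. -/
theorem exists_eMod {X : Type} [AddCommGroup X] [Module O X]
    [Module (MonoidAlgebra O (Dlt p e)) X] [IsScalarTower O (MonoidAlgebra O (Dlt p e)) X]
    {d : ℕ} (c : Module.Basis (Fin d) (MonoidAlgebra O (Dlt p e)) X)
    (Φ : 𝕋 →ₐ[O] Module.End O X)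
    (hΦ : ∀ t (g : Dlt p e) (x : X), Φ t (MonoidAlgebra.of O (Dlt p e) g • x) =
      MonoidAlgebra.of O (Dlt p e) g • Φ t x) :
    ∃ (E : EMod O p e 𝕋) (f : X ≃ₗ[O] E.M), E.d = d ∧ (∀ t x, f (Φ t x) = E.Φ t (f x)) ∧
      ∀ g x, f (MonoidAlgebra.of O (Dlt p e) g • x) = E.Ψ g (f x) := by
  classical
  obtain ⟨b, hb⟩ := Fermat.Agent.H70.Grp.exists_basis (O := O) c
  haveI : Module.Finite O X := Module.Finite.of_basis b
  haveI : Module.Free O X := Module.Free.of_basis b
  let E : EMod O p e 𝕋 :=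
    { M := X
      Φ := Φ
      Ψ := Fermat.Agent.H70.Mod.diamEnd O (Dlt p e) X
      comm := fun t g => LinearMap.ext fun x => hΦ t g x
      d := d
      b := b
      b_apply := fun i g => hb i g }
  exact ⟨E, LinearEquiv.refl O X, rfl, fun _ _ => rfl, fun _ _ => rfl⟩

/-- **The quotient by the old part.** -/
theorem exists_quot [IsLocalRing O] (hpO : (p : O) ∈ maximalIdeal O) (A B : EMod O p e 𝕋)
    (res deg : A.M →ₗ[O] B.M)
    (hresΦ : ∀ t x, res (A.Φ t x) = B.Φ t (res x)) (hresΨ : ∀ g x, res (A.Ψ g x) = B.Ψ g (res x))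
    (hdegΦ : ∀ t x, deg (A.Φ t x) = B.Φ t (deg x)) (hdegΨ : ∀ g x, deg (A.Ψ g x) = B.Ψ g (deg x))
    (ret : B.M →ₗ[O] A.M × A.M)
    (hretΨ : ∀ g x, ret (B.Ψ g x) = (A.Ψ g (ret x).1, A.Ψ g (ret x).2))
    (hret : ∀ u v, ret (res u + deg v) = (u, v)) :
    ∃ (X : EMod O p e 𝕋) (quo : B.M →ₗ[O] X.M), Function.Surjective quo ∧
      (∀ x, quo x = 0 ↔ ∃ u v, x = res u + deg v) ∧
      (∀ t x, quo (B.Φ t x) = X.Φ t (quo x)) ∧ (∀ g x, quo (B.Ψ g x) = X.Ψ g (quo x)) ∧
      X.d + 2 * A.d = B.d := by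
  classical
  let Λ := MonoidAlgebra O (Dlt p e)
  haveI : IsLocalRing Λ := Fermat.Agent.H70.Grp.isLocalRing (Fact.out : p.Prime) hpO isPGroup_dlt
  letI iA := lamMod A
  letI iB := lamMod B
  haveI := lamMod_tower A
  haveI := lamMod_tower B
  obtain ⟨cA⟩ := exists_lamBasis A
  obtain ⟨cB⟩ := exists_lamBasis B
  haveI : Module.Finite Λ A.M := Module.Finite.of_basis cA
  haveI : Module.Free Λ A.M := Module.Free.of_basis cA
  haveI : Module.Finite Λ B.M := Module.Finite.of_basis cB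
  haveI : Module.Free Λ B.M := Module.Free.of_basis cB
  have hrA : Module.finrank Λ A.M = A.d := by
    rw [Module.finrank_eq_card_basis cA, Fintype.card_fin]
  have hrB : Module.finrank Λ B.M = B.d := by
    rw [Module.finrank_eq_card_basis cB, Fintype.card_fin]
  let old : (A.M × A.M) →ₗ[Λ] B.M :=
    { toFun := fun z => res z.1 + deg z.2
      map_add' := fun a b => by
        rw [Prod.fst_add, Prod.snd_add, map_add, map_add]; abel
      map_smul' := fun a z => by
        rw [RingHom.id_apply, smul_add, Prod.smul_fst, Prod.smul_snd, lamMod_smul, lamMod_smul,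
          lamMod_smul, lamMod_smul, grpAct_map A.Ψ B.Ψ res hresΨ, grpAct_map A.Ψ B.Ψ deg hdegΨ] }
  let retΛ : B.M →ₗ[Λ] (A.M × A.M) :=
    { toFun := ret
      map_add' := ret.map_add
      map_smul' := fun a x => by
        rw [RingHom.id_apply, lamMod_smul]
        apply Prod.ext
        · rw [Prod.smul_fst, lamMod_smul]
          exact grpAct_map B.Ψ A.Ψ (LinearMap.fst O A.M A.M ∘ₗ ret)
            (fun g x => congrArg Prod.fst (hretΨ g x)) a x
        · rw [Prod.smul_snd, lamMod_smul]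
          exact grpAct_map B.Ψ A.Ψ (LinearMap.snd O A.M A.M ∘ₗ ret)
            (fun g x => congrArg Prod.snd (hretΨ g x)) a x }
  have hro : retΛ ∘ₗ old = LinearMap.id := LinearMap.ext fun z => hret z.1 z.2
  obtain ⟨h1, h2, h3⟩ := Fermat.Agent.H71.R.free_quotient_of_retract old retΛ hro
  rw [Module.finrank_prod, hrA, hrB] at h3
  let N : Submodule Λ B.M := LinearMap.range old
  have hmem : ∀ x, x ∈ N ↔ ∃ u v, x = res u + deg v := by
    intro x
    constructor
    · rintro ⟨z, rfl⟩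
      exact ⟨z.1, z.2, rfl⟩
    · rintro ⟨u, v, rfl⟩
      exact ⟨(u, v), rfl⟩
  -- the Hecke action
  let ΦΛ : 𝕋 → (B.M →ₗ[Λ] B.M) := fun t =>
    { toFun := B.Φ t
      map_add' := (B.Φ t).map_add
      map_smul' := fun a x => by
        rw [RingHom.id_apply, lamMod_smul, lamMod_smul]
        exact LinearMap.congr_fun (grpAct_comm B.Φ B.Ψ B.comm t a) x }
  have hst : ∀ t, N ≤ N.comap (ΦΛ t) := by
    rintro t _ ⟨z, rfl⟩
    refine ⟨(A.Φ t z.1, A.Φ t z.2), ?_⟩
    change res (A.Φ t z.1) + deg (A.Φ t z.2) = B.Φ t (res z.1 + deg z.2)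
    rw [hresΦ, hdegΦ, map_add]
  let ΦX : 𝕋 →ₐ[O] Module.End O (B.M ⧸ N) :=
    { toFun := fun t => (N.mapQ N (ΦΛ t) (hst t)).restrictScalars O
      map_one' := LinearMap.ext fun x => by
        obtain ⟨x, rfl⟩ := N.mkQ_surjective x
        change N.mkQ (B.Φ 1 x) = N.mkQ x
        rw [map_one, Module.End.one_apply]
      map_mul' := fun s t => LinearMap.ext fun x => by
        obtain ⟨x, rfl⟩ := N.mkQ_surjective x
        change N.mkQ (B.Φ (s * t) x) = N.mkQ (B.Φ s (B.Φ t x))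
        rw [map_mul, Module.End.mul_apply]
      map_zero' := LinearMap.ext fun x => by
        obtain ⟨x, rfl⟩ := N.mkQ_surjective x
        change N.mkQ (B.Φ 0 x) = 0
        rw [map_zero, LinearMap.zero_apply, map_zero]
      map_add' := fun s t => LinearMap.ext fun x => by
        obtain ⟨x, rfl⟩ := N.mkQ_surjective x
        change N.mkQ (B.Φ (s + t) x) = N.mkQ (B.Φ s x) + N.mkQ (B.Φ t x)
        rw [map_add, LinearMap.add_apply, map_add]
      commutes' := fun a => LinearMap.ext fun x => by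
        obtain ⟨x, rfl⟩ := N.mkQ_surjective x
        change N.mkQ (B.Φ (algebraMap O 𝕋 a) x) = a • N.mkQ x
        rw [AlgHom.commutes, Module.algebraMap_end_apply]
        rfl }
  have hΦX : ∀ t x, ΦX t (N.mkQ x) = N.mkQ (B.Φ t x) := fun _ _ => rfl
  obtain ⟨X, f, hd, hfΦ, hfΨ⟩ := exists_eMod (O := O) (p := p) (e := e)
    (Module.finBasis Λ (B.M ⧸ N)) ΦX (by
      intro t g x
      obtain ⟨x, rfl⟩ := N.mkQ_surjective x
      rw [← map_smul, hΦX, hΦX, ← map_smul]
      congr 1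
      exact (ΦΛ t).map_smul _ x)
  refine ⟨X, f.toLinearMap ∘ₗ N.mkQ.restrictScalars O, ?_, ?_, ?_, ?_, ?_⟩
  · exact f.surjective.comp N.mkQ_surjective
  · intro x
    change f (N.mkQ x) = 0 ↔ _
    rw [LinearEquiv.map_eq_zero_iff, Submodule.mkQ_apply, Submodule.Quotient.mk_eq_zero, hmem]
  · intro t x
    change f (N.mkQ (B.Φ t x)) = X.Φ t (f (N.mkQ x))
    rw [← hfΦ, hΦX]
  · intro g x
    change f (N.mkQ (B.Ψ g x)) = X.Ψ g (f (N.mkQ x))
    rw [← hfΨ, ← map_smul, lamMod_smul, grpAct_of]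
  · rw [hd, two_mul]
    exact h3

end Free

section Step

variable {O : Type} [CommRing O] [IsDomain O] [IsDiscreteValuationRing O]
  [IsAdicComplete (maximalIdeal O) O] [Finite (ResidueField O)] [CharZero O]
  {p : ℕ} [Fact p.Prime] {𝕋 : Type} [CommRing 𝕋] [Algebra O 𝕋] [Module.Finite O 𝕋] [IsReduced 𝕋]
  {r : ℕ} {e : Fin r → ℕ}

/-- An element of the Hecke algebra which vanishes on all eigensystems of the joint kernel of two
equivariant maps kills this joint kernel. -/
theorem kills_of_eigen (A B : EMod O p e 𝕋) (tr nu : B.M →ₗ[O] A.M)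
    (htr : ∀ t x, tr (B.Φ t x) = A.Φ t (tr x)) (hnu : ∀ t x, nu (B.Φ t x) = A.Φ t (nu x))
    (h : 𝕋) (hker : ForallEigen B.Φ fun O' _ _ _ _ _ _ _ _ _ lam x =>
      tr.baseChange O' x = 0 → nu.baseChange O' x = 0 → lam h = 0)
    (x : B.M) (hx : tr x = 0) (hx' : nu x = 0) : B.Φ h x = 0 := by
  let K : Submodule O B.M := LinearMap.ker tr ⊓ LinearMap.ker nu
  have hst : ∀ t, ∀ x ∈ K, B.Φ t x ∈ K := by
    rintro t x ⟨h1, h2⟩
    refine ⟨?_, ?_⟩
    · change tr (B.Φ t x) = 0
      rw [htr, LinearMap.mem_ker.mp h1, map_zero]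
    · change nu (B.Φ t x) = 0
      rw [hnu, LinearMap.mem_ker.mp h2, map_zero]
  haveI : Module.Finite O K := inferInstance
  haveI : Module.Free O K := inferInstance
  let ΦK : 𝕋 →ₐ[O] Module.End O K :=
    { toFun := fun t => (B.Φ t).restrict (hst t)
      map_one' := LinearMap.ext fun x => Subtype.ext (by
        change B.Φ 1 x.1 = x.1
        rw [map_one]; rfl)
      map_mul' := fun s t => LinearMap.ext fun x => Subtype.ext (by
        change B.Φ (s * t) x.1 = B.Φ s (B.Φ t x.1)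
        rw [map_mul]; rfl)
      map_zero' := LinearMap.ext fun x => Subtype.ext (by
        change B.Φ 0 x.1 = 0
        rw [map_zero]; rfl)
      map_add' := fun s t => LinearMap.ext fun x => Subtype.ext (by
        change B.Φ (s + t) x.1 = B.Φ s x.1 + B.Φ t x.1
        rw [map_add]; rfl)
      commutes' := fun a => LinearMap.ext fun x => Subtype.ext (by
        change B.Φ (algebraMap O 𝕋 a) x.1 = a • x.1
        rw [AlgHom.commutes, Module.algebraMap_end_apply]) }
  have hsub : ∀ t, K.subtype ∘ₗ ΦK t = B.Φ t ∘ₗ K.subtype := fun t => LinearMap.ext fun x => rfl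
  have key : ΦK h = 0 := by
    apply Fermat.Agent.H59.map_eq_zero_of_eigen ΦK h
    intro O' _ _ _ _ _ _ _ _ _ hO lam z hz hl
    haveI : Module.IsTorsionFree O O' := Module.isTorsionFree_iff_algebraMap_injective.mpr hO
    haveI : Module.Flat O O' := inferInstance
    have hinj : Function.Injective (K.subtype.baseChange O') :=
      Module.Flat.lTensor_preserves_injective_linearMap (M := O') K.subtype K.subtype_injective
    refine hker O' hO lam (K.subtype.baseChange O' z) ?_ ?_ ?_ ?_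
    · intro h0
      exact hz (hinj (by rw [h0, map_zero]))
    · intro t
      rw [← map_smul, ← hl, ← LinearMap.comp_apply, ← LinearMap.comp_apply,
        ← LinearMap.baseChange_comp, ← LinearMap.baseChange_comp, hsub]
    · have h0 : tr ∘ₗ K.subtype = 0 := LinearMap.ext fun x => LinearMap.mem_ker.mp x.2.1
      rw [← LinearMap.comp_apply, ← LinearMap.baseChange_comp, h0, LinearMap.baseChange_zero,
        LinearMap.zero_apply]
    · have h0 : nu ∘ₗ K.subtype = 0 := LinearMap.ext fun x => LinearMap.mem_ker.mp x.2.2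
      rw [← LinearMap.comp_apply, ← LinearMap.baseChange_comp, h0, LinearMap.baseChange_zero,
        LinearMap.zero_apply]
  exact congrArg Subtype.val (LinearMap.congr_fun key ⟨x, hx, hx'⟩)

/-- **One step of the chain**, the kernel of `(tr, nu)` being killed by `t (t + c)`. -/
theorem exists_newStep_of_kills (hpO : (p : O) ∈ maximalIdeal O) {R : Type} [CommRing R] [Algebra O R]
    (π : R →ₐ[O] 𝕋) (A B : EMod O p e 𝕋) (q : ℕ)
    -- the maps
    (res deg : A.M →ₗ[O] B.M) (tr nu : B.M →ₗ[O] A.M) (tq dia dia1 : Module.End O A.M)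
    (hresΦ : ∀ t x, res (A.Φ t x) = B.Φ t (res x)) (hresΨ : ∀ g x, res (A.Ψ g x) = B.Ψ g (res x))
    (hdegΦ : ∀ t x, deg (A.Φ t x) = B.Φ t (deg x)) (hdegΨ : ∀ g x, deg (A.Ψ g x) = B.Ψ g (deg x))
    (htrΦ : ∀ t x, tr (B.Φ t x) = A.Φ t (tr x)) (hnuΦ : ∀ t x, nu (B.Φ t x) = A.Φ t (nu x))
    (htqΦ : ∀ t x, tq (A.Φ t x) = A.Φ t (tq x)) (hdiaΦ : ∀ t x, dia (A.Φ t x) = A.Φ t (dia x))
    (hdd : ∀ x, dia (dia1 x) = x) (hdd' : ∀ x, dia1 (dia x) = x)
    (htqd : ∀ x, tq (dia x) = dia (tq x))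
    -- the relations
    (htr_res : ∀ x, tr (res x) = ((q : O) + 1) • x) (htr_deg : ∀ x, tr (deg x) = tq x)
    (hnu_res : ∀ x, nu (res x) = tq x) (hnu_deg : ∀ x, nu (deg x) = ((q : O) + 1) • dia x)
    -- surjectivity and the retraction
    (hsurj : ∀ a b, ∃ x, tr x = a ∧ nu x = b)
    (ret : B.M →ₗ[O] A.M × A.M)
    (hretΨ : ∀ g x, ret (B.Ψ g x) = (A.Ψ g (ret x).1, A.Ψ g (ret x).2))
    (hret : ∀ u v, ret (res u + deg v) = (u, v))
    -- Galois side
    (t T2 w w1 : R) (c c' : O) (hw : w * w1 = 1)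
    (hstar : ∀ x, tq (tq x) = dia (A.Φ (π T2) x))
    (hT2 : ((q : R) + 1) ^ 2 - T2 = w * (t * (t + algebraMap O R c)))
    (hkill : ∀ x, tr x = 0 → nu x = 0 → B.Φ (π (t * (t + algebraMap O R c))) x = 0)
    (hc' : ((q : O) + 1) ∣ c') :
    ∃ (X : EMod O p e 𝕋) (quo : B.M →+ X.M) (low : B.M →+ A.M),
      X.d + 2 * A.d = B.d ∧
      (∀ {r' : Fin r → R}, B.Compat π r' → X.Compat π r') ∧
      (∀ s x, quo (B.Φ s x) = X.Φ s (quo x)) ∧ Function.Surjective quo ∧
      (∀ s x, low (B.Φ s x) = A.Φ s (low x)) ∧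
      (∀ a, ∃ x, low x = c' • a) ∧
      (∀ x, quo x = 0 → ∃ a, low x = A.Φ (π t) a) ∧
      (∀ x : X.M, X.Φ (π ((t * (t + algebraMap O R c)) ^ 2)) x = 0) := by
  classical
  obtain ⟨X, quo, hquo, hquo0, hquoΦ, hquoΨ, hd⟩ := exists_quot hpO A B res deg hresΦ hresΨ
    hdegΦ hdegΨ ret hretΨ hret
  set h0 : R := t * (t + algebraMap O R c) with hh0
  -- `dia1` commutes with everything
  have hdia1Φ : ∀ s x, dia1 (A.Φ s x) = A.Φ s (dia1 x) := by
    intro s x
    conv_lhs => rw [← hdd x]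
    rw [← hdiaΦ, hdd']
  have htqd1 : ∀ x, tq (dia1 x) = dia1 (tq x) := by
    intro x
    conv_rhs => rw [← hdd x]
    rw [htqd, hdd']
  -- the determinant
  have hdet : ∀ x, ((q : O) + 1) • ((q : O) + 1) • dia x - tq (tq x) =
      dia (A.Φ (π (w * h0)) x) := by
    intro x
    rw [hstar, ← hT2, map_sub, map_pow, map_add, map_one, map_natCast, map_sub,
      LinearMap.sub_apply, map_sub, map_pow]
    congr 1
    have h1 : (A.Φ ((q : 𝕋) + 1)) = algebraMap O (Module.End O A.M) ((q : O) + 1) := by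
      rw [← A.Φ.commutes]
      congr 1
      rw [map_add, map_natCast, map_one]
    rw [h1, sq, Module.End.mul_apply, Module.algebraMap_end_apply, Module.algebraMap_end_apply,
      map_smul, map_smul]
  have hdet1 : ∀ x, ((q : O) + 1) • ((q : O) + 1) • x - dia1 (tq (tq x)) =
      A.Φ (π (w * h0)) x := by
    intro x
    have h1 := congrArg dia1 (hdet x)
    rw [map_sub, map_smul, map_smul, hdd', hdd'] at h1
    exact h1
  let low : B.M →ₗ[O] A.M := ((q : O) + 1) • (dia ∘ₗ tr) - tq ∘ₗ nu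
  have hlow : ∀ x, low x = ((q : O) + 1) • dia (tr x) - tq (nu x) := fun x => rfl
  refine ⟨X, quo.toAddMonoidHom, low.toAddMonoidHom, hd, ?_, hquoΦ, hquo, ?_, ?_, ?_, ?_⟩
  · intro r' h
    exact compat_of_surj B X quo hquo hquoΦ hquoΨ π r' h
  · intro s x
    change low (B.Φ s x) = A.Φ s (low x)
    rw [hlow, hlow, htrΦ, hnuΦ, hdiaΦ, htqΦ, map_sub, map_smul]
  · intro a
    obtain ⟨k, hk⟩ := hc'
    obtain ⟨x, hx1, hx2⟩ := hsurj (dia1 a) 0
    refine ⟨k • x, ?_⟩
    change low (k • x) = c' • a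
    rw [map_smul, hlow, hx1, hx2, map_zero, sub_zero, hdd, smul_smul, hk, mul_comm]
  · intro x hx
    obtain ⟨u, v, rfl⟩ := (hquo0 x).mp hx
    refine ⟨dia (A.Φ (π (w * (t + algebraMap O R c))) u), ?_⟩
    change low (res u + deg v) = _
    have h1 : low (deg v) = 0 := by
      rw [hlow, htr_deg, hnu_deg, map_smul, htqd, sub_self]
    have h2 : low (res u) = dia (A.Φ (π (w * h0)) u) := by
      rw [hlow, htr_res, hnu_res, map_smul, ← hdet]
    have h3 : A.Φ (π (w * h0)) u = A.Φ (π t) (A.Φ (π (w * (t + algebraMap O R c))) u) := by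
      rw [← Module.End.mul_apply, ← map_mul, ← map_mul]
      congr 3
      rw [hh0]
      ring
    rw [map_add, h1, add_zero, h2, h3, hdiaΦ]
  · intro x
    obtain ⟨y, rfl⟩ := hquo x
    rw [← hquoΦ, hquo0]
    -- the old vector
    have key : ∃ u v, tr (B.Φ (π (w * h0)) y - (res u + deg v)) = 0 ∧
        nu (B.Φ (π (w * h0)) y - (res u + deg v)) = 0 := by
      refine ⟨((q : O) + 1) • tr y - dia1 (tq (nu y)),
        ((q : O) + 1) • dia1 (nu y) - dia1 (tq (tr y)), ?_, ?_⟩
      · rw [map_sub, map_add, htrΦ, htr_res, htr_deg, map_sub, map_smul,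
          ← hdet1, smul_sub, htqd1, htqd1]
        abel
      · rw [map_sub, map_add, hnuΦ, hnu_res, hnu_deg, map_sub, map_smul,
          ← hdet1, map_sub, map_smul, smul_sub, hdd, hdd, htqd1]
        abel
    obtain ⟨u, v, hk1, hk2⟩ := key
    have h3 := hkill _ hk1 hk2
    refine ⟨A.Φ (π (w1 * h0)) u, A.Φ (π (w1 * h0)) v, ?_⟩
    rw [hresΦ, hdegΦ, ← map_add]
    rw [map_sub, sub_eq_zero, ← Module.End.mul_apply, ← map_mul, ← map_mul] at h3
    have h4 := congrArg (B.Φ (π w1)) h3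
    rw [← Module.End.mul_apply, ← map_mul, ← map_mul, ← Module.End.mul_apply, ← map_mul,
      ← map_mul] at h4
    rw [← h4]
    congr 3
    linear_combination (-h0 ^ 2) * hw

/-- **One step of the chain.** -/
theorem exists_newStep (hpO : (p : O) ∈ maximalIdeal O) {R : Type} [CommRing R] [Algebra O R]
    (π : R →ₐ[O] 𝕋) (A B : EMod O p e 𝕋) (q : ℕ)
    -- the maps
    (res deg : A.M →ₗ[O] B.M) (tr nu : B.M →ₗ[O] A.M) (tq dia dia1 : Module.End O A.M)
    (hresΦ : ∀ t x, res (A.Φ t x) = B.Φ t (res x)) (hresΨ : ∀ g x, res (A.Ψ g x) = B.Ψ g (res x))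
    (hdegΦ : ∀ t x, deg (A.Φ t x) = B.Φ t (deg x)) (hdegΨ : ∀ g x, deg (A.Ψ g x) = B.Ψ g (deg x))
    (htrΦ : ∀ t x, tr (B.Φ t x) = A.Φ t (tr x)) (hnuΦ : ∀ t x, nu (B.Φ t x) = A.Φ t (nu x))
    (htqΦ : ∀ t x, tq (A.Φ t x) = A.Φ t (tq x)) (hdiaΦ : ∀ t x, dia (A.Φ t x) = A.Φ t (dia x))
    (hdd : ∀ x, dia (dia1 x) = x) (hdd' : ∀ x, dia1 (dia x) = x)
    (htqd : ∀ x, tq (dia x) = dia (tq x))
    -- the relations
    (htr_res : ∀ x, tr (res x) = ((q : O) + 1) • x) (htr_deg : ∀ x, tr (deg x) = tq x)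
    (hnu_res : ∀ x, nu (res x) = tq x) (hnu_deg : ∀ x, nu (deg x) = ((q : O) + 1) • dia x)
    -- surjectivity and the retraction
    (hsurj : ∀ a b, ∃ x, tr x = a ∧ nu x = b)
    (ret : B.M →ₗ[O] A.M × A.M)
    (hretΨ : ∀ g x, ret (B.Ψ g x) = (A.Ψ g (ret x).1, A.Ψ g (ret x).2))
    (hret : ∀ u v, ret (res u + deg v) = (u, v))
    -- Galois side
    (t T2 w w1 : R) (c c' : O) (hw : w * w1 = 1)
    (hstar : ∀ x, tq (tq x) = dia (A.Φ (π T2) x))
    (hT2 : ((q : R) + 1) ^ 2 - T2 = w * (t * (t + algebraMap O R c)))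
    (hker : ForallEigen B.Φ fun O' _ _ _ _ _ _ _ _ _ lam x =>
      tr.baseChange O' x = 0 → nu.baseChange O' x = 0 →
        lam (π (t * (t + algebraMap O R c))) = 0)
    (hc' : ((q : O) + 1) ∣ c') :
    ∃ (X : EMod O p e 𝕋) (quo : B.M →+ X.M) (low : B.M →+ A.M),
      X.d + 2 * A.d = B.d ∧
      (∀ {r' : Fin r → R}, B.Compat π r' → X.Compat π r') ∧
      (∀ s x, quo (B.Φ s x) = X.Φ s (quo x)) ∧ Function.Surjective quo ∧
      (∀ s x, low (B.Φ s x) = A.Φ s (low x)) ∧
      (∀ a, ∃ x, low x = c' • a) ∧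
      (∀ x, quo x = 0 → ∃ a, low x = A.Φ (π t) a) ∧
      (∀ x : X.M, X.Φ (π ((t * (t + algebraMap O R c)) ^ 2)) x = 0) :=
  exists_newStep_of_kills hpO π A B q res deg tr nu tq dia dia1 hresΦ hresΨ hdegΦ hdegΨ htrΦ hnuΦ
    htqΦ hdiaΦ hdd hdd' htqd htr_res htr_deg hnu_res hnu_deg hsurj ret hretΨ hret t T2 w w1 c c'
    hw hstar hT2 (kills_of_eigen A B tr nu htrΦ hnuΦ _ hker) hc'

end Step

end Fermat.Agent.H41.FX
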