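import Fermat.Agent.H65TQ2
import Fermat.Agent.H71RMod

/-!
# `T_q = η(q) Φ(t)` on the localised modules
-/

set_option autoImplicit false
set_option linter.style.haveILetI false

open Matrix CongruenceSubgroup IsLocalRing CuspForm Polynomial
open scoped MatrixGroups TensorProduct

namespace Fermat.Agent.H65.TQ

open Fermat.Agent.H70.Coh Fermat.Agent.H59 Fermat.Agent.H37.Rank Fermat.Agent.H70.Mod
  Fermat.Agent.H30

section Loc

variable {N M : ℕ} (hM : N ∣ M) {S : Set ℕ} (hS : Away M S) {O Δ : Type} [CommRing O]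
  [CommGroup Δ] (ψ η : (ZMod N)ˣ →* (MonoidAlgebra O Δ)ˣ) (e : MvPolynomial (Idx S) O)
  {q : ℕ} (hq : q.Prime) (hqM : ¬ q ∣ M)

/-- the normalised operator on the localised module -/
noncomputable def ntqM : Module.End (MonoidAlgebra O Δ) (MLoc hM hS ψ η e) :=
  (ntq hM ψ η hq hqM).restrict fun _ hx => ntq_mem hM hS hq hqM hx

lemma ntqM_coe (x : MLoc hM hS ψ η e) :
    (ntqM hM hS ψ η e hq hqM x : H1 (gam N M hM) (psiRep ψ (MonoidAlgebra O Δ))) =
      ntq hM ψ η hq hqM x := rfl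

lemma tqM_eq_smul_ntqM (x : MLoc hM hS ψ η e) :
    H71.R.tqM hM hS ψ η e hq hqM x =
      ((η (ZMod.unitOfCoprime q (coprime_of_not_dvd hq hqM hM)) : (MonoidAlgebra O Δ)ˣ) :
        MonoidAlgebra O Δ) • ntqM hM hS ψ η e hq hqM x :=
  Subtype.ext (tH_eq_smul_ntq hM ψ η hq hqM x.1)

lemma mact_ntqM (P : MvPolynomial (Idx S) O) (x : MLoc hM hS ψ η e) :
    ntqM hM hS ψ η e hq hqM (mact hM hS ψ η e P x) =
      mact hM hS ψ η e P (ntqM hM hS ψ η e hq hqM x) := by
  apply Subtype.ext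
  rw [mact_coe, ntqM_coe, ntqM_coe, mact_coe]
  exact map_act_apply (Λ := MonoidAlgebra O Δ) (Λ' := MonoidAlgebra O Δ)
    (hT := tw_comm hM hS ψ η) (hT' := tw_comm hM hS ψ η) (ntq hM ψ η hq hqM).toAddMonoidHom
    (fun a x => (ntq hM ψ η hq hqM).map_smul_of_tower a x)
    (fun i x => (tw_ntq hM ψ η hq hqM hS i x).symm) P x.1

variable {ψ η e}

variable {O' : Type} [CommRing O'] [Algebra O O']

lemma evS_ntq (χ : Δ →* O'ˣ)
    (w : O' ⊗[O] H1 (gam N M hM) (psiRep ψ (MonoidAlgebra O Δ))) :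
    evS hM ψ χ (((ntq hM ψ η hq hqM).restrictScalars O).baseChange O' w) =
      ntq hM (psiMap (evC (O := O) χ).toRingHom ψ) (psiMap (evC (O := O) χ).toRingHom η) hq hqM
        (evS hM ψ χ w) := by
  induction w using TensorProduct.induction_on with
  | zero => simp only [map_zero]
  | add a b ha hb => rw [map_add, map_add, ha, hb, map_add, map_add]
  | tmul r x =>
    have h1 := h1S_ntq hM ψ η hq hqM (evC (O := O) χ).toRingHom x
    have h2 : evS hM ψ χ (((ntq hM ψ η hq hqM).restrictScalars O).baseChange O' (r ⊗ₜ[O] x)) =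
        r • h1S hM ψ (evC (O := O) χ).toRingHom (ntq hM ψ η hq hqM x) :=
      evS_tmul hM ψ χ r _
    have h3 := (ntq hM (psiMap (evC (O := O) χ).toRingHom ψ)
      (psiMap (evC (O := O) χ).toRingHom η) hq hqM).map_smul r
      (h1S hM ψ (evC (O := O) χ).toRingHom x)
    have h4 := congrArg (ntq hM (psiMap (evC (O := O) χ).toRingHom ψ)
      (psiMap (evC (O := O) χ).toRingHom η) hq hqM) (evS_tmul hM ψ χ r x)
    have h5 := congrArg (fun z => r • z) h1
    exact h2.trans (h5.trans (h3.symm.trans h4.symm))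

variable {κ : Type} [Field κ] {θ : MvPolynomial (Idx S) O →+* κ}

set_option maxHeartbeats 1000000 in
/-- **Passage to points**, with the operator `T_q`. -/
theorem exists_point_ntq [NeZero M] [Finite Δ] [IsDomain O'] [CharZero O']
    (hg : Good M (MonoidAlgebra O Δ)) (hψ : ψ (-1) = 1)
    (he : IsLocIdem (tw hM hS ψ η) (tw_comm hM hS ψ η) θ e)
    [Module.Free O (MLoc hM hS ψ η e)]
    (v : O' ⊗[O] MLoc hM hS ψ η e) (hv : v ≠ 0) (χ : Δ →* O'ˣ)
    (hχ : ∀ g, (diam hM hS ψ η e g).baseChange O' v = ((χ g : O'ˣ) : O') • v)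
    (lam : MvPolynomial (Idx S) O → O')
    (hlam : ∀ P, (mactO hM hS ψ η e P).baseChange O' v = lam P • v) (μ : O')
    (hμ : ((ntqM hM hS ψ η e hq hqM).restrictScalars O).baseChange O' v = μ • v) :
    ∃ y : MLoc hM hS (psiMap (evC (O := O) χ).toRingHom ψ)
        (psiMap (evC (O := O) χ).toRingHom η) e, y ≠ 0 ∧
      (∀ P, mact hM hS (psiMap (evC (O := O) χ).toRingHom ψ)
        (psiMap (evC (O := O) χ).toRingHom η) e P y = lam P • y) ∧
      ntq hM (psiMap (evC (O := O) χ).toRingHom ψ) (psiMap (evC (O := O) χ).toRingHom η) hq hqM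
        (y : H1 (gam N M hM) (psiRep (psiMap (evC (O := O) χ).toRingHom ψ) O')) =
        μ • (y : H1 (gam N M hM) (psiRep (psiMap (evC (O := O) χ).toRingHom ψ) O')) := by
  haveI := Fintype.ofFinite Δ
  have hPv := fun P => aux_hecke (O' := O') (MLoc hM hS ψ η e).subtype (mactO hM hS ψ η e P)
    ((act (tw hM hS ψ η) (tw_comm hM hS ψ η) P).restrictScalars O)
    (fun x => (mact_coe hM hS ψ η e P x).symm) v (lam P) (hlam P)
  have hPμ := aux_hecke (O' := O') (MLoc hM hS ψ η e).subtype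
    ((ntqM hM hS ψ η e hq hqM).restrictScalars O)
    ((ntq hM ψ η hq hqM).restrictScalars O)
    (fun x => (ntqM_coe hM hS ψ η e hq hqM x).symm) v μ hμ
  generalize hv' : ((MLoc hM hS ψ η e).subtype.restrictScalars O).baseChange O' v = v' at hPv hPμ
  have hne : evS hM ψ χ v' ≠ 0 := by
    intro h0
    have h1 := projC_eq_zero_of_evS hM ψ hg hψ χ v' h0
    rw [← hv'] at h1
    exact aux_ne (MLoc hM hS ψ η e).subtype (locProj (tw hM hS ψ η) (tw_comm hM hS ψ η) e)
      (locProj_comp_subtype he.idem) v hv χ hχ h1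
  have hPy : ∀ P, act (tw hM hS (psiMap (evC (O := O) χ).toRingHom ψ)
      (psiMap (evC (O := O) χ).toRingHom η)) (tw_comm hM hS _ _) P (evS hM ψ χ v') =
      lam P • evS hM ψ χ v' := by
    intro P
    have h1 := evS_act hM hS ψ η χ P v'
    rw [hPv P] at h1
    exact h1.symm.trans ((evS hM ψ χ).map_smul _ _)
  have hlame : lam e • v = v := by
    rw [← hlam]
    have h1 : mactO hM hS ψ η e e = LinearMap.id := by
      apply LinearMap.ext
      intro x
      exact LinearMap.congr_fun (act_locT_e he.idem) x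
    rw [h1, LinearMap.baseChange_id]
    rfl
  have hmem : evS hM ψ χ v' ∈ MLoc hM hS (psiMap (evC (O := O) χ).toRingHom ψ)
      (psiMap (evC (O := O) χ).toRingHom η) e := by
    have h6 : lam e • v' = v' := by
      have h7 := (((MLoc hM hS ψ η e).subtype.restrictScalars O).baseChange O').map_smul (lam e) v
      rw [hlame, hv'] at h7
      exact h7.symm
    have h8 : lam e • evS hM ψ χ v' = evS hM ψ χ v' :=
      ((evS hM ψ χ).map_smul (lam e) v').symm.trans (congrArg (evS hM ψ χ) h6)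
    exact (mem_loc (isLocIdem_bc hM hS ψ η hg hψ (evC (O := O) χ).toRingHom
      (fun a => (evC (O := O) χ).commutes a) he).idem).mpr ((hPy e).trans h8)
  refine ⟨⟨evS hM ψ χ v', hmem⟩, fun h => hne (congrArg Subtype.val h), fun P => ?_, ?_⟩
  · apply Subtype.ext
    exact (mact_coe hM hS _ _ e P _).trans (hPy P)
  · have h1 := evS_ntq (η := η) hM hq hqM χ v'
    rw [hPμ] at h1
    exact h1.symm.trans ((evS hM ψ χ).map_smul _ _)

end Loc

section Pt

variable {N M : ℕ} [NeZero M] (hM : N ∣ M) {S : Set ℕ} (hS : Away M S)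
  {O : Type} [CommRing O]
  {κ : Type} [Field κ] {θ : MvPolynomial (Idx S) O →+* κ} {e : MvPolynomial (Idx S) O}
  {p : ℕ} (hp : p.Prime) {O' : Type} [CommRing O'] [IsDomain O'] [IsLocalRing O'] [Algebra O O']
  (hpO' : (p : O') ∈ maximalIdeal O') (hgO' : Good M O')
  (i₀ : Idx S) (hi₀ : θ (MvPolynomial.X i₀) ≠ 1 + (i₀.1 : κ))
  {q : ℕ} (hq : q.Prime) (hqM : ¬ q ∣ M)

include hp hpO' hgO' hi₀ in
lemma isPt_of_mact_ntq {ψ η : (ZMod N)ˣ →* O'ˣ} (hψ : ψ = η ^ 2) {s : ℕ} (hη : η ^ p ^ s = 1)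
    (hψ1 : ψ (-1) = 1)
    (he : IsLocIdem (tw hM hS ψ η) (tw_comm hM hS ψ η) θ e) (y : MLoc hM hS ψ η e) (hy : y ≠ 0)
    (lam : MvPolynomial (Idx S) O → O') (hlam : ∀ P, mact hM hS ψ η e P y = lam P • y) (μ : O')
    (hμ : ntq hM ψ η hq hqM (y : H1 (gam N M hM) (psiRep ψ O')) =
      μ • (y : H1 (gam N M hM) (psiRep ψ O'))) :
    ∃ z : H1 (gam N M hM) (psiRep (η ^ 2) O'),
      IsPt hM hS η (fun i => lam (MvPolynomial.X i)) z ∧
      (tFam hM hq hqM).opH (psiRep (η ^ 2) O') z =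
        (((η (ZMod.unitOfCoprime q (coprime_of_not_dvd hq hqM hM)) : O'ˣ) : O') * μ) • z := by
  subst hψ
  have hη2 : (η ^ 2) ^ p ^ s = 1 := sq_pow_eq_one hη
  obtain ⟨h1, -⟩ := loc_free hM hS (η ^ 2) η hgO' hψ1 he (resTriv_of_pow hp hpO' hη2)
    (resTriv_of_pow hp hpO' hη) i₀ hi₀
  refine ⟨y, ⟨fun c hc => smul_ne_zero_of_free _ y hy c hc, fun i => ?_⟩, ?_⟩
  · have h2 := congrArg Subtype.val (hlam (MvPolynomial.X i))
    have h3 := mact_coe hM hS (η ^ 2) η e (MvPolynomial.X i) y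
    have h4 : act (tw hM hS (η ^ 2) η) (tw_comm hM hS (η ^ 2) η) (MvPolynomial.X i : MvPolynomial
      (Idx S) O) = tw hM hS (η ^ 2) η i := act_X _ _ i
    rw [h4] at h3
    exact h3.symm.trans h2
  · have h5 := tH_eq_smul_ntq hM (η ^ 2) η hq hqM (y : H1 (gam N M hM) (psiRep (η ^ 2) O'))
    rw [hμ, smul_smul] at h5
    exact h5

end Pt

section Restrict

/-- annihilating polynomials pass to stable submodules and to restriction of scalars -/
lemma aeval_restrict_eq_zero {O Λ H : Type} [CommRing O] [CommRing Λ] [Algebra O Λ]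
    [AddCommGroup H] [Module Λ H] [Module O H] [IsScalarTower O Λ H] (X : Submodule Λ H)
    (f : Module.End Λ X) (g : Module.End Λ H) (hfg : ∀ x : X, (f x : H) = g x) (G : ℤ[X])
    (h : ∀ x ∈ X, aeval g G x = 0) :
    aeval ((f.restrictScalars O : X →ₗ[O] X) : Module.End O X) (G.map (Int.castRingHom O)) = 0 := by
  have h1 := Polynomial.aeval_map_algebraMap O
    ((f.restrictScalars O : X →ₗ[O] X) : Module.End O X) G
  rw [algebraMap_int_eq] at h1
  rw [h1]
  apply LinearMap.ext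
  intro x
  apply Subtype.ext
  exact (aeval_natural X.subtype.toAddMonoidHom (f.restrictScalars O : Module.End O X) g
    (fun y => hfg y) G x).trans (h x.1 x.2)

end Restrict

section Main

set_option synthInstance.maxHeartbeats 400000
set_option maxHeartbeats 8000000

variable {N M L : ℕ} [NeZero M] [NeZero L] [NeZero (M * N)] (hM : N ∣ M) {S : Set ℕ}
  (hS : Away M S) (hSL : ∀ q : ℕ, q.Prime → q ∣ L → q ∈ S) (hSMN : Adm S (M * N))
  {O : Type} [CommRing O] [IsDomain O] [IsDiscreteValuationRing O]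
  [IsAdicComplete (maximalIdeal O) O] [Finite (ResidueField O)] [CharZero O]
  {p : ℕ} (hp : p.Prime) (hpO : (p : O) ∈ maximalIdeal O)
  {Δ : Type} [CommGroup Δ] [Finite Δ] {η : (ZMod N)ˣ →* (MonoidAlgebra O Δ)ˣ}
  (θ : heckeAlgebra L 2 S →+* ResidueField O) [Module.Finite O (heckeLocal L S O θ)]
  [IsReduced (heckeLocal L S O θ)] {e : MvPolynomial (Idx S) O}

include hp hpO hSMN in
/-- **`T_q` acts as `η(q) Φ(t)`** if it does so on all points. -/
theorem tqM_eq (hp2 : p ≠ 2) (hsq : Squarefree N)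
    (hex : ∀ q : ℕ, q.Prime → q ∣ N → ¬ q * q ∣ M) {s : ℕ} (hη : η ^ p ^ s = 1)
    (hgΛ : Good M (MonoidAlgebra O Δ)) (hgL : Good (M * N) O)
    (heΛ : IsLocIdem (tw hM hS (η ^ 2) η) (tw_comm hM hS (η ^ 2) η) (thetaPoly L S hSL O θ) e)
    (he : IsLocIdem (TT O hSMN) (TT_comm hSMN) (thetaPoly L S hSL O θ) e)
    [Module.Free O (MLoc hM hS (η ^ 2) η e)] [Module.Finite O (MLoc hM hS (η ^ 2) η e)]
    (i₀ : Idx S) (hi₀1 : ((M * N : ℕ) : ℤ) ∣ (i₀.1 : ℤ) - 1)
    (hi₀ : θ (TIdx L S hSL i₀) ≠ 1 + (i₀.1 : ResidueField O))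
    (Φ : heckeLocal L S O θ →ₐ[O] Module.End O (MLoc hM hS (η ^ 2) η e))
    (hΦ : ∀ P, Φ (toLocal L S hSL O θ P) = mactO hM hS (η ^ 2) η e P)
    {q : ℕ} (hq : q.Prime) (hqM : ¬ q ∣ M) (t : heckeLocal L S O θ)
    (hpt : ∀ (O' : Type) [CommRing O'] [IsDomain O'] [IsDiscreteValuationRing O']
      [IsAdicComplete (maximalIdeal O') O'] [Finite (ResidueField O')] [CharZero O']
      [Algebra O O'] [Module.Finite O O'] [IsLocalHom (algebraMap O O')],
      Function.Injective (algebraMap O O') → ∀ (lam : heckeLocal L S O θ →ₐ[O] O')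
      (η' : (ZMod N)ˣ →* O'ˣ) (z : H1 (gam N M hM) (psiRep (η' ^ 2) O')),
      (∃ k, η' ^ p ^ k = 1) →
      IsPt hM hS η' (fun i => lam (heckeLocal.π L S O θ (TIdx L S hSL i))) z → ∀ μ : O',
      (tFam hM hq hqM).opH (psiRep (η' ^ 2) O') z =
        (((η' (ZMod.unitOfCoprime q (coprime_of_not_dvd hq hqM hM)) : O'ˣ) : O') * μ) • z →
      lam t = μ) (x : MLoc hM hS (η ^ 2) η e) :
    H71.R.tqM hM hS (η ^ 2) η e hq hqM x =
      ((η (ZMod.unitOfCoprime q (coprime_of_not_dvd hq hqM hM)) : (MonoidAlgebra O Δ)ˣ) :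
        MonoidAlgebra O Δ) • Φ t x := by
  have hodd : Odd (p ^ s) := (hp.odd_of_ne_two hp2).pow
  have hqMN : ¬ q ∣ M * N := fun h => (hq.dvd_mul.mp h).elim hqM fun h' => hqM (h'.trans hM)
  have hi₀' : thetaPoly L S hSL O θ (MvPolynomial.X i₀) ≠ 1 + (i₀.1 : ResidueField O) := by
    rw [thetaPoly_X]; exact hi₀
  obtain ⟨G, -, hGs, hG⟩ := exists_ann (M * N) q hq hqMN
  rw [tqM_eq_smul_ntqM]
  congr 1
  have key : Φ t = (ntqM hM hS (η ^ 2) η e hq hqM).restrictScalars O := by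
    refine eq_of_joint_eigen Φ (diam hM hS (η ^ 2) η e) ?_ _ ?_ ?_ (G.map (Int.castRingHom O)) ?_
      ?_ t ?_
    · intro t g
      obtain ⟨P, rfl⟩ := toLocal_surjective L S hSL O θ t
      rw [hΦ]
      exact mactO_diam hM hS (η ^ 2) η P g
    · intro t
      obtain ⟨P, rfl⟩ := toLocal_surjective L S hSL O θ t
      rw [hΦ]
      apply LinearMap.ext
      intro x
      exact (mact_ntqM hM hS (η ^ 2) η e hq hqM P x).symm
    · intro g
      apply LinearMap.ext
      intro x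
      exact ((ntqM hM hS (η ^ 2) η e hq hqM).map_smul (MonoidAlgebra.of O Δ g) x).symm
    · rw [Polynomial.map_map]
      have h1 : (algebraMap O (FractionRing O)).comp (Int.castRingHom O) =
          Int.castRingHom (FractionRing O) := RingHom.ext_int _ _
      rw [h1]
      haveI : CharZero (FractionRing O) :=
        charZero_of_injective_algebraMap (IsFractionRing.injective O (FractionRing O))
      exact separable_map hGs (FractionRing O)
    · exact aeval_restrict_eq_zero (MLoc hM hS (η ^ 2) η e) (ntqM hM hS (η ^ 2) η e hq hqM)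
        (ntq hM (η ^ 2) η hq hqM) (ntqM_coe hM hS (η ^ 2) η e hq hqM) G fun x hx =>
        aeval_ntq_eq_zero hM hS hSMN hq hqM hsq hex rfl rfl hodd hη hgΛ
        (sq_neg_one η) hgL heΛ he i₀ hi₀1 hi₀' hqMN hG hx
    · intro O' _ _ _ _ _ _ _ _ _ hO lam v hv hlam χ hχ μ hμ
      have hpO' : (p : O') ∈ maximalIdeal O' := natCast_mem_of_isLocalHom hpO
      obtain ⟨y, hy, hyl, hyμ⟩ := exists_point_ntq hM hS hq hqM hgΛ (sq_neg_one η) heΛ v hv χ hχ
        (fun P => lam (toLocal L S hSL O θ P)) (fun P => by rw [← hΦ]; exact hlam _) μ hμ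
      have h1 : psiMap (evC (O := O) χ).toRingHom (η ^ 2) =
          (psiMap (evC (O := O) χ).toRingHom η) ^ 2 := psiMap_pow _ _ _
      have h2 : (psiMap (evC (O := O) χ).toRingHom η) ^ p ^ s = 1 := by
        rw [← psiMap_pow, hη, psiMap_one]
      have h3 : psiMap (evC (O := O) χ).toRingHom (η ^ 2) (-1) = 1 := by
        rw [h1, sq_neg_one]
      obtain ⟨z, hz, hzμ⟩ := isPt_of_mact_ntq hM hS hp hpO' (good_map (evC (O := O) χ).toRingHom hgΛ)
        i₀ hi₀' hq hqM h1 h2 h3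
        (isLocIdem_bc hM hS (η ^ 2) η hgΛ (sq_neg_one η) (evC (O := O) χ).toRingHom
          (fun a => (evC (O := O) χ).commutes a) heΛ) y hy _ hyl μ hyμ
      simp only [toLocal_X] at hz
      exact hpt O' hO lam _ z ⟨s, h2⟩ hz μ hzμ
  exact (LinearMap.congr_fun key x).symm

end Main

end Fermat.Agent.H65.TQ
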