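import Fermat.Agent.H21MUni
import Fermat.Agent.H21MFull
import Fermat.Agent.H21MLvl
import Fermat.Agent.H41FullX
import Fermat.Agent.H65TQ3
import Fermat.Agent.H69Cong
import Fermat.Agent.H30Local
import Fermat.Agent.H70Reduced
import Fermat.Agent.H41Step

/-!
# The module part of a level of the full endgame: the chain (helper21)
-/

set_option autoImplicit false
set_option linter.style.haveILetI false
set_option linter.unusedSectionVars false

open Matrix CongruenceSubgroup IsLocalRing CuspForm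
open scoped MatrixGroups TensorProduct

namespace Fermat.Agent.H21M

open Fermat.Agent.H70.Coh Fermat.Agent.H70.Mod Fermat.Agent.H59 Fermat.Agent.H37.Rank
  Fermat.Agent.H30 Fermat.Agent.H69.EG Fermat.Agent.H57.Full

set_option synthInstance.maxHeartbeats 400000
set_option maxHeartbeats 4000000

/-- one step of the chain (helper41, H41Step) -/
theorem newStep {N M q L : ℕ} [NeZero N] [NeZero M] [NeZero q] [NeZero L] {hM : N ∣ M}
    {S : Set ℕ} {hS : Away M S} {hS' : Away (M * q) S}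
    {hSL : ∀ q : ℕ, q.Prime → q ∣ L → q ∈ S}
    {O : Type} [CommRing O] [IsDomain O] [IsDiscreteValuationRing O]
    [IsAdicComplete (maximalIdeal O) O] [Finite (ResidueField O)] [CharZero O]
    {p : ℕ} [Fact p.Prime] (hpO : (p : O) ∈ maximalIdeal O)
    {r : ℕ} {e : Fin r → ℕ} {η : (ZMod N)ˣ →* (MonoidAlgebra O (Dlt p e))ˣ}
    {θ : heckeAlgebra L 2 S →+* ResidueField O} {ee : MvPolynomial (Idx S) O}
    (hq : q.Prime) (hqM : ¬ q ∣ M) (hqN : q.Coprime N) {k : ℕ} (hη : η ^ p ^ k = 1)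
    (hg : Good M (MonoidAlgebra O (Dlt p e))) (hg' : Good (M * q) (MonoidAlgebra O (Dlt p e)))
    (hgO : Good M O)
    (heA : IsLocIdem (tw hM hS (η ^ 2) η) (tw_comm hM hS (η ^ 2) η) (thetaPoly L S hSL O θ) ee)
    (heB : IsLocIdem (tw (hM.mul_right q) hS' (η ^ 2) η) (tw_comm (hM.mul_right q) hS' (η ^ 2) η)
      (thetaPoly L S hSL O θ) ee)
    (hNE1 : ∃ i : Idx S, (θ (TIdx L S hSL i)) ^ 2 ≠ ((i.1 : ResidueField O) + 1) ^ 2)
    (hNE2 : ∀ D : ℕ, D ≠ 0 → ∃ i : Idx S, (D : ℤ) ∣ (i.1 : ℤ) - 1 ∧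
      θ (TIdx L S hSL i) ≠ (i.1 : ResidueField O) + 1)
    (A B : EMod O p e (heckeLocal L S O θ)) (ιA : A.M ≃ₗ[O] MLoc hM hS (η ^ 2) η ee)
    (hmA : IsModel hM hS hSL (η ^ 2) η θ ee A ιA)
    (ιB : B.M ≃ₗ[O] MLoc (hM.mul_right q) hS' (η ^ 2) η ee)
    (hmB : IsModel (hM.mul_right q) hS' hSL (η ^ 2) η θ ee B ιB)
    {R : Type} [CommRing R] [Algebra O R] (π : R →ₐ[O] heckeLocal L S O θ) (tb t : R) (c c' : O)
    (htq : ∀ x : MLoc hM hS (η ^ 2) η ee, Fermat.Agent.H71.R.tqM hM hS (η ^ 2) η ee hq hqM x =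
      ((η (ZMod.unitOfCoprime q hqN) : (MonoidAlgebra O (Dlt p e))ˣ) :
        MonoidAlgebra O (Dlt p e)) • ιA (A.Φ (π tb) (ιA.symm x)))
    (htb : ∃ v : R, IsUnit v ∧
      tb ^ 2 - ((q : R) + 1) ^ 2 = v * (t * (t + algebraMap O R c)))
    (hker : ∀ (O' : Type) [CommRing O'] [IsDomain O'] [IsDiscreteValuationRing O']
      [IsAdicComplete (maximalIdeal O') O'] [Finite (ResidueField O')] [CharZero O']
      [Algebra O O'] [Module.Finite O O'] [IsLocalHom (algebraMap O O')],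
      Function.Injective (algebraMap O O') → ∀
      (lam : heckeLocal L S O θ →ₐ[O] O') (η : (ZMod N)ˣ →* O'ˣ)
      (x : H1 (gam N (M * q) (hM.mul_right q)) (psiRep (η ^ 2) O')),
      (∃ k, η ^ p ^ k = 1) →
      IsPt (hM.mul_right q) hS' η
        (fun i => lam (heckeLocal.π L S O θ (TIdx L S hSL i))) x →
      (trFam hM).opH (psiRep (η ^ 2) O') x = 0 → (nuFam hM hq).opH (psiRep (η ^ 2) O') x = 0 →
      lam (π (t * (t + algebraMap O R c))) = 0)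
    (hc' : ((q : O) + 1) ∣ c') :
    ∃ (X : EMod O p e (heckeLocal L S O θ)) (quo : B.M →+ X.M) (low : B.M →+ A.M),
      X.d + 2 * A.d = B.d ∧
      (∀ {r' : Fin r → R}, B.Compat π r' → X.Compat π r') ∧
      (∀ s x, quo (B.Φ s x) = X.Φ s (quo x)) ∧ Function.Surjective quo ∧
      (∀ s x, low (B.Φ s x) = A.Φ s (low x)) ∧
      (∀ a, ∃ x, low x = c' • a) ∧
      (∀ x, quo x = 0 → ∃ a, low x = A.Φ (π t) a) ∧
      (∀ x : X.M, X.Φ (π ((t * (t + algebraMap O R c)) ^ 2)) x = 0) := by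
  haveI : IsReduced (heckeLocal L S O θ) :=
    H70.isReduced_of_adjoin_heckeAlgebra hSL (heckeLocal.π L S O θ) (adjoin_range_π L S O θ)
  exact Fermat.Agent.H41.Step.exists_newStep_model hM hS hS' hSL hpO hη hq hqM hqN hg hg' hgO heA
    heB hNE1 hNE2 hmA hmB π tb t c c' htq htb hker hc'


theorem exists_fullModPart_chain {O : Type} [CommRing O] [IsDomain O] [IsDiscreteValuationRing O]
    [IsAdicComplete (maximalIdeal O) O] [Finite (ResidueField O)] [CharZero O]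
    {p : ℕ} [Fact p.Prime] [CharP (ResidueField O) p] (hp2 : p ≠ 2)
    {R : Type} [CommRing R] [IsLocalRing R] [Algebra O R] [IsAdicComplete (maximalIdeal R) R]
    {L : ℕ} [NeZero L] {S : Set ℕ} (hSL : ∀ q : ℕ, q.Prime → q ∣ L → q ∈ S)
    {θ : heckeAlgebra L 2 S →+* ResidueField O} (π : R →ₐ[O] heckeLocal L S O θ)
    {ϖ c' : O} (hϖ : maximalIdeal O = Ideal.span {ϖ})
    {r n D m s : ℕ} {T : Type} [Finite T] {prodElt uniElt : T → R}
    {y : Fin s → Fin 3 → R} {cb : Fin s → O}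
    -- the diamond operators on the Galois side
    (e : Fin r → ℕ) (hne : ∀ j, n ≤ e j) (c : Fin r → R) (hcm : ∀ j, c j ∈ maximalIdeal R)
    (hc : ∀ j, (1 + c j) ^ (p ^ e j) = 1)
    -- the Taylor–Wiles primes
    (Q : Fin r → ℕ) (hQ : ∀ j, (Q j).Prime) (hQinj : Function.Injective Q)
    (hQe : ∀ j, p ^ e j ∣ Q j - 1)
    -- the primes of `T`
    (qT : T → ℕ) (hqT : ∀ t, (qT t).Prime) (hqTinj : Function.Injective qT)
    (hqTp : ∀ t, p ∣ qT t - 1) (hQT : ∀ j t, Q j ≠ qT t)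
    (ζ : Oˣ) (hζ : ζ ^ p = 1) (hζ1 : ζ ≠ 1)
    -- the levels
    {M₀ N1 N2 : ℕ} [NeZero M₀] (b : ℕ → ℕ) (hb0 : ∀ i, b i ≠ 0)
    (hb : ∀ i, i < s → (b i).Prime) (hbM₀ : ∀ i, i < s → ¬ b i ∣ M₀)
    (hbinj : ∀ i, i < s → ∀ j, j < i → b i ≠ b j) (hbc : ∀ i, i < s → ((b i : O) + 1) ∣ c')
    (hN1 : N1 ∣ M₀) (hN21 : N2 ∣ N1) (hQN2 : ∀ j, Q j ∣ N2) (hTN1 : ∀ t, qT t ∣ N1)
    (hsq : Squarefree N1) (hex : ∀ q : ℕ, q.Prime → q ∣ N1 → ¬ q * q ∣ M₀)
    (hL : lvl M₀ b s * N1 ∣ L) (hg : ∀ M' : ℕ, M₀ ∣ M' → Good M' O)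
    -- non-Eisenstein primes
    (hNE1 : ∃ i : Idx S, (θ (TIdx L S hSL i)) ^ 2 ≠ ((i.1 : ResidueField O) + 1) ^ 2)
    (hNE2 : ∀ D : ℕ, D ≠ 0 → ∃ i : Idx S, (D : ℤ) ∣ (i.1 : ℤ) - 1 ∧
      θ (TIdx L S hSL i) ≠ (i.1 : ResidueField O) + 1)
    -- ranks
    (hrk : ∀ e : MvPolynomial (Idx S) O,
      (∀ (L' : ℕ) (hL' : Adm S L'), L' ∣ L →
        IsLocIdem (TT O hL') (TT_comm hL') (thetaPoly L S hSL O θ) e) →
      (∀ h : Adm S M₀, 0 < Module.finrank O (Loc (TT O h) (TT_comm h) e)) ∧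
      ∀ i, i ≤ s → ∀ h : Adm S (lvl M₀ b i),
        Module.finrank O (Loc (TT O h) (TT_comm h) e) ≤ D)
    -- elements which kill all modules
    (U : Set R)
    -- eigenclasses: the module with characters
    (hA : ∀ (O' : Type) [CommRing O'] [IsDomain O'] [IsDiscreteValuationRing O']
      [IsAdicComplete (maximalIdeal O') O'] [Finite (ResidueField O')] [CharZero O']
      [Algebra O O'] [Module.Finite O O'] [IsLocalHom (algebraMap O O')],
      Function.Injective (algebraMap O O') → ∀ (hN : N1 ∣ M₀) (hS : Away M₀ S)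
      (lam : heckeLocal L S O θ →ₐ[O] O') (η : (ZMod N1)ˣ →* O'ˣ)
      (x : H1 (gam N1 M₀ hN) (psiRep (η ^ 2) O')),
      (∃ k, η ^ p ^ k = 1) → (∀ t, ¬ TrivAt N1 (qT t) η) →
      IsPt hN hS η (fun i => lam (heckeLocal.π L S O θ (TIdx L S hSL i))) x →
      (∀ t, lam (π (prodElt t)) = 0) ∧ (∀ j, (TrivAt N1 (Q j) η ↔ lam (π (1 + c j)) = 1)) ∧
      (∀ i, lam (π (y i 1)) = 0 ∧ lam (π (y i 2)) = 0) ∧ ∀ a ∈ U, lam (π a) = 0)
    -- eigenclasses: the unipotent modules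
    (hB : ∀ (i : ℕ), i ≤ s → ∀ (O' : Type) [CommRing O'] [IsDomain O']
      [IsDiscreteValuationRing O']
      [IsAdicComplete (maximalIdeal O') O'] [Finite (ResidueField O')] [CharZero O']
      [Algebra O O'] [Module.Finite O O'] [IsLocalHom (algebraMap O O')],
      Function.Injective (algebraMap O O') → ∀ (hN : N2 ∣ lvl M₀ b i) (hS : Away (lvl M₀ b i) S)
      (lam : heckeLocal L S O θ →ₐ[O] O') (η : (ZMod N2)ˣ →* O'ˣ)
      (x : H1 (gam N2 (lvl M₀ b i) hN) (psiRep (η ^ 2) O')),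
      (∃ k, η ^ p ^ k = 1) →
      IsPt hN hS η (fun i => lam (heckeLocal.π L S O θ (TIdx L S hSL i))) x →
      (∀ t, lam (π (uniElt t)) = 0) ∧ (∀ j, (TrivAt N2 (Q j) η ↔ lam (π (1 + c j)) = 1)) ∧
      (∀ j : Fin s, i ≤ j → lam (π (y j 1)) = 0 ∧ lam (π (y j 2)) = 0) ∧
      (∀ j : Fin s, (j : ℕ) < i → lam (π (y j 1)) * lam (π (y j 0)) = 0 ∧
        lam (π (y j 2)) * (lam (π (y j 0)) + algebraMap O O' (cb j)) = 0) ∧
      ∀ a ∈ U, lam (π a) = 0)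
    -- the trace of Frobenius at the raising primes
    (tb : Fin s → R) (htb : ∀ i : Fin s, ∃ v : R, IsUnit v ∧
      tb i ^ 2 - ((b i : R) + 1) ^ 2 = v * (y i 0 * (y i 0 + algebraMap O R (cb i))))
    (hC : ∀ (i : Fin s) (O' : Type) [CommRing O'] [IsDomain O'] [IsDiscreteValuationRing O']
      [IsAdicComplete (maximalIdeal O') O'] [Finite (ResidueField O')] [CharZero O']
      [Algebra O O'] [Module.Finite O O'] [IsLocalHom (algebraMap O O')],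
      Function.Injective (algebraMap O O') → ∀ (hN : N1 ∣ lvl M₀ b i) (hS : Away (lvl M₀ b i) S)
      (hbp : (b i).Prime) (hbM : ¬ b i ∣ lvl M₀ b i) (hbN : (b i).Coprime N1)
      (lam : heckeLocal L S O θ →ₐ[O] O') (η : (ZMod N1)ˣ →* O'ˣ)
      (x : H1 (gam N1 (lvl M₀ b i) hN) (psiRep (η ^ 2) O')),
      (∃ k, η ^ p ^ k = 1) →
      IsPt hN hS η (fun i => lam (heckeLocal.π L S O θ (TIdx L S hSL i))) x → ∀ μ : O',
      (tFam hN hbp hbM).opH (psiRep (η ^ 2) O') x =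
        (((η (ZMod.unitOfCoprime (b i) hbN) : O'ˣ) : O') * μ) • x → lam (π (tb i)) = μ)
    (hD : ∀ (i : Fin s) [NeZero (lvl M₀ b i)] [NeZero (b i)] (O' : Type) [CommRing O'] [IsDomain O'] [IsDiscreteValuationRing O']
      [IsAdicComplete (maximalIdeal O') O'] [Finite (ResidueField O')] [CharZero O']
      [Algebra O O'] [Module.Finite O O'] [IsLocalHom (algebraMap O O')],
      Function.Injective (algebraMap O O') → ∀ (hN : N1 ∣ lvl M₀ b i)
      (hS : Away (lvl M₀ b i * b i) S) (hbp : (b i).Prime) (hbM : ¬ b i ∣ lvl M₀ b i)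
      (lam : heckeLocal L S O θ →ₐ[O] O') (η : (ZMod N1)ˣ →* O'ˣ)
      (x : H1 (gam N1 (lvl M₀ b i * b i) (hN.mul_right (b i))) (psiRep (η ^ 2) O')),
      (∃ k, η ^ p ^ k = 1) →
      IsPt (hN.mul_right (b i)) hS η
        (fun i => lam (heckeLocal.π L S O θ (TIdx L S hSL i))) x →
      (trFam hN).opH (psiRep (η ^ 2) O') x = 0 → (nuFam hN hbp).opH (psiRep (η ^ 2) O') x = 0 →
      lam (π (y i 0 * (y i 0 + algebraMap O R (cb i)))) = 0)
    -- the point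
    (pt : R →ₐ[O] O) (hpt : ∀ j, pt (c j) = 0) (hptu : ∀ t, pt (uniElt t) = 0)
    (hptt : ∀ i, pt (y i 0) = 0) (hptz : ∀ i, pt (y i 2) = 0)
    (f : R) (hf : pt f ∉ Ideal.span {ϖ ^ m})
    (hE : ∀ (O' : Type) [CommRing O'] [IsDomain O'] [IsDiscreteValuationRing O']
      [IsAdicComplete (maximalIdeal O') O'] [Finite (ResidueField O')] [CharZero O']
      [Algebra O O'] [Module.Finite O O'] [IsLocalHom (algebraMap O O')],
      Function.Injective (algebraMap O O') → ∀ (hN : N1 ∣ lvl M₀ b s) (hS : Away (lvl M₀ b s) S)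
      (lam : heckeLocal L S O θ →ₐ[O] O') (η : (ZMod N1)ˣ →* O'ˣ)
      (x : H1 (gam N1 (lvl M₀ b s) hN) (psiRep (η ^ 2) O')), η = 1 →
      IsPt hN hS η (fun i => lam (heckeLocal.π L S O θ (TIdx L S hSL i))) x →
      lam (π f) = 0) :
    ∃ mp : FullModPart O ϖ c' p r n D m s R prodElt uniElt y cb,
      mp.pt = pt ∧ letI := mp.instAddCommGroup; letI := mp.instModule;
      ∀ a ∈ U, ∀ τ (x : mp.N τ), a • x = 0 := by
  classical
  have hp : p.Prime := Fact.out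
  have hpO : (p : O) ∈ maximalIdeal O := by
    rw [← residue_eq_zero_iff, map_natCast, CharP.cast_eq_zero]
  haveI : NeZero N1 := ⟨fun h => NeZero.ne M₀ (by rw [h] at hN1; exact zero_dvd_iff.mp hN1)⟩
  haveI : NeZero N2 := ⟨fun h => NeZero.ne N1 (by rw [h] at hN21; exact zero_dvd_iff.mp hN21)⟩
  haveI iL : ∀ i, NeZero (lvl M₀ b i) := fun i => ⟨lvl_ne_zero (NeZero.ne M₀) hb0 i⟩
  haveI ib : ∀ i, NeZero (b i) := fun i => ⟨hb0 i⟩
  haveI : IsReduced (heckeLocal L S O θ) :=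
    H70.isReduced_of_adjoin_heckeAlgebra hSL (heckeLocal.π L S O θ) (adjoin_range_π L S O θ)
  -- levels
  have hNi : ∀ i, N1 ∣ lvl M₀ b i := fun i => hN1.trans (dvd_lvl i)
  have hN2i : ∀ i, N2 ∣ lvl M₀ b i := fun i => hN21.trans (hNi i)
  have hLi : ∀ i, i ≤ s → lvl M₀ b i * N1 ∣ L := fun i hi =>
    (Nat.mul_dvd_mul_right (lvl_dvd_lvl hi) N1).trans hL
  have hSi : ∀ i, i ≤ s → Away (lvl M₀ b i) S := fun i hi q hq hd =>
    hSL q hq (hd.trans ((Dvd.intro _ rfl).trans (hLi i hi)))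
  have hgi : ∀ i, Good (lvl M₀ b i) O := fun i => hg _ (dvd_lvl i)
  have hgN : ∀ i, Good (lvl M₀ b i * N1) O := fun i => hg _ ((dvd_lvl i).mul_right _)
  have hgΛ : ∀ i, Good (lvl M₀ b i) (MonoidAlgebra O (Dlt p e)) := fun i =>
    good_map (algebraMap O _) (hgi i)
  have hexi : ∀ i, i ≤ s → ∀ q : ℕ, q.Prime → q ∣ N1 → ¬ q * q ∣ lvl M₀ b i :=
    fun i hi q hq hqN => not_sq_dvd_lvl hb hbM₀ hq (hqN.trans hN1) (hex q hq hqN) hi
  have hsq2 : Squarefree N2 := hsq.squarefree_of_dvd hN21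
  -- characters
  choose u hu using fun j => exists_pchar (hQ j) (hQe j)
  have hQN1 : ∀ j, Q j ∣ N1 := fun j => (hQN2 j).trans hN21
  obtain ⟨τ, hτp, hτT, hτQ⟩ := exists_tau hsq qT hqT hqTinj hTN1 hqTp ζ hζ hζ1
  have hτQ' : ∀ j, TrivAt N1 (Q j) τ := fun j => hτQ (Q j) (hQ j) (fun t => (hQT j t).symm)
  obtain ⟨k, hk, hk1⟩ : ∃ k, (∀ j, e j ≤ k) ∧ 1 ≤ k := by
    obtain ⟨k, hk⟩ := (Set.finite_range e).bddAbove
    exact ⟨k + 1, fun j => (hk ⟨j, rfl⟩).trans (Nat.le_succ k), Nat.succ_le_succ (Nat.zero_le k)⟩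
  have hτk : τ ^ p ^ k = 1 := by
    obtain ⟨k', rfl⟩ := Nat.exists_eq_add_of_le hk1
    ext1 a
    have h1 : (τ a) ^ p = 1 := congrArg (fun f : (ZMod N1)ˣ →* Oˣ => f a) hτp
    rw [MonoidHom.pow_apply, MonoidHom.one_apply, pow_add, pow_one, pow_mul, h1, one_pow]
  have h1k : (1 : (ZMod N1)ˣ →* Oˣ) ^ p ^ k = 1 := by
    ext1 a
    rw [MonoidHom.pow_apply, MonoidHom.one_apply, one_pow]
  have hηk : ∀ c : Bool, (etaL hQN1 u (bif c then τ else 1)) ^ p ^ k = 1 := fun c =>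
    etaL_pow hQN1 u hk (by cases c <;> assumption)
  -- one idempotent
  obtain ⟨ee, hee1, hee2⟩ := exists_chain_idem (J := Bool × Fin (s + 1)) (Nf := fun _ => N1)
    (Mf := fun j => lvl M₀ b j.2) (fun j => hNi j.2)
    (fun j => hSi j.2 (Nat.lt_succ_iff.mp j.2.2)) (Λ := MonoidAlgebra O (Dlt p e))
    (fun j => hgΛ j.2) (thetaPoly L S hSL O θ)
    (fun x => by
      obtain ⟨a, rfl⟩ := residue_surjective x
      exact ⟨a, thetaPoly_C L S hSL O θ a⟩)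
    (L := L) hSL
    (fun j => (etaL hQN1 u (bif j.1 then τ else 1)) ^ 2)
    (fun j => etaL hQN1 u (bif j.1 then τ else 1)) (fun j => sq_neg_one _)
  -- a non-Eisenstein prime
  obtain ⟨i₀, hi₀1, hi₀'⟩ := hNE2 L (NeZero.ne L)
  have hi₀ : θ (TIdx L S hSL i₀) ≠ 1 + (i₀.1 : ResidueField O) := by
    rw [add_comm]; exact hi₀'
  have hle : ∀ i : Fin (s + 1), (i : ℕ) ≤ s := fun i => Nat.lt_succ_iff.mp i.2
  have hητk : (etaL hQN1 u τ) ^ p ^ k = 1 := hηk true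
  have hη1k : (etaL hQN1 u (1 : (ZMod N1)ˣ →* Oˣ)) ^ p ^ k = 1 := hηk false
  have heeτ : IsLocIdem (tw (hNi 0) (hSi 0 (Nat.zero_le s)) ((etaL hQN1 u τ) ^ 2)
      (etaL hQN1 u τ)) (tw_comm (hNi 0) (hSi 0 (Nat.zero_le s)) ((etaL hQN1 u τ) ^ 2)
      (etaL hQN1 u τ)) (thetaPoly L S hSL O θ) ee := hee1 (true, 0)
  have heeU : ∀ i : Fin (s + 1), IsLocIdem
      (tw (hNi i) (hSi i (hle i)) ((etaL hQN1 u (1 : (ZMod N1)ˣ →* Oˣ)) ^ 2)
        (etaL hQN1 u (1 : (ZMod N1)ˣ →* Oˣ)))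
      (tw_comm (hNi i) (hSi i (hle i)) ((etaL hQN1 u (1 : (ZMod N1)ˣ →* Oˣ)) ^ 2)
        (etaL hQN1 u (1 : (ZMod N1)ˣ →* Oˣ)))
      (thetaPoly L S hSL O θ) ee := fun i => hee1 (false, i)
  -- the modules
  obtain ⟨Aχ, ιχ, hχm, hχd⟩ := exists_emod (hNi 0) (hSi 0 (Nat.zero_le s)) hSL hp2 hpO θ
    (η := etaL hQN1 u τ) hsq (hexi 0 (Nat.zero_le s)) (hLi 0 (Nat.zero_le s)) hητk (hgΛ 0)
    (hgi 0) (hgN 0) heeτ hee2 i₀ hi₀1 hi₀ (hSi 0 (Nat.zero_le s))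
  choose A ι hAm hAd using fun i : Fin (s + 1) => exists_emod (hNi i) (hSi i (hle i)) hSL hp2 hpO θ
    (η := etaL hQN1 u 1) hsq (hexi i (hle i)) (hLi i (hle i)) hη1k (hgΛ i) (hgi i) (hgN i)
    (heeU i) hee2 i₀ hi₀1 hi₀ (hSi i (hle i))
  -- the raising primes
  have hbp : ∀ i : Fin s, (b i).Prime := fun i => hb i i.2
  have hbM : ∀ i : Fin s, ¬ b i ∣ lvl M₀ b i := fun i => not_dvd_lvl hb hbM₀ hbinj i.2
  have hbN : ∀ i : Fin s, (b i).Coprime N1 := fun i => coprime_of_dvd_base hb hbM₀ hN1 i.2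
  have htq : ∀ (i : Fin s) (x : MLoc (hNi i) (hSi i i.2.le) ((etaL hQN1 u 1) ^ 2)
      (etaL hQN1 u 1) ee),
      Fermat.Agent.H71.R.tqM (hNi i) (hSi i i.2.le) ((etaL hQN1 u 1) ^ 2) (etaL hQN1 u 1) ee
        (hbp i) (hbM i) x =
      ((etaL hQN1 u 1 (ZMod.unitOfCoprime (b i) (hbN i)) : (MonoidAlgebra O (Dlt p e))ˣ) :
        MonoidAlgebra O (Dlt p e)) •
          (ι i.castSucc) ((A i.castSucc).Φ (π (tb i)) ((ι i.castSucc).symm x)) := by
    intro i x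
    haveI : Module.Free O (MLoc (hNi i) (hSi i i.2.le) ((etaL hQN1 u 1) ^ 2)
      (etaL hQN1 u 1) ee) := Module.Free.of_equiv (ι i.castSucc)
    haveI : Module.Finite O (MLoc (hNi i) (hSi i i.2.le) ((etaL hQN1 u 1) ^ 2)
      (etaL hQN1 u 1) ee) := Module.Finite.equiv (ι i.castSucc)
    haveI : NeZero (lvl M₀ b i * N1) := ⟨mul_ne_zero (NeZero.ne _) (NeZero.ne _)⟩
    have hSMN : Adm S (lvl M₀ b i * N1) := fun q hq hd => hSL q hq (hd.trans (hLi i i.2.le))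
    exact Fermat.Agent.H65.TQ.tqM_eq (hNi i) (hSi i i.2.le) hSL hSMN hp hpO θ hp2 hsq
      (hexi i i.2.le) hη1k (hgΛ i) (hgN i) (heeU i.castSucc)
      (hee2 _ hSMN (hLi i i.2.le)) i₀
      ((Int.natCast_dvd_natCast.mpr (hLi i i.2.le)).trans hi₀1) hi₀
      (((ι i.castSucc).conjAlgEquiv O).toAlgHom.comp (A i.castSucc).Φ)
      (fun P => LinearMap.ext fun z => by
        change (ι i.castSucc) ((A i.castSucc).Φ (toLocal L S hSL O θ P)
          ((ι i.castSucc).symm z)) = _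
        rw [(hAm i.castSucc).Φ, LinearEquiv.apply_symm_apply]) (hbp i) (hbM i) (π (tb i))
      (fun O' _ _ _ _ _ _ _ _ _ hOO' lam η z hη hz μ hμ =>
        hC i O' hOO' (hNi i) (hSi i i.2.le) (hbp i) (hbM i) (hbN i) lam η z hη hz μ hμ) x
  -- the new modules
  have hstep := fun i : Fin s => newStep (hM := hNi i) (hS := hSi i i.2.le)
    (hS' := hSi (i + 1) i.2) (hSL := hSL) hpO (hbp i) (hbM i) (hbN i) hη1k (hgΛ i) (hgΛ (i + 1))
    (hgi i) (heeU i.castSucc) (heeU i.succ) hNE1 hNE2 (A i.castSucc) (A i.succ) (ι i.castSucc)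
    (hAm i.castSucc) (ι i.succ) (hAm i.succ) π (tb i) (y i 0) (cb i) c' (htq i) (htb i)
    (fun O' _ _ _ _ _ _ _ _ _ hOO' lam η z hη hz h1 h2 =>
      hD i O' hOO' (hNi i) (hSi (i + 1) i.2) (hbp i) (hbM i) lam η z hη hz h1 h2) (hbc i i.2)
  choose X quo low hXd hXc hquo hquos hlow hlows hlowo hnew using hstep
  -- the congruence
  obtain ⟨Y, iY, g, g₁, ⟨hg1, hgk⟩, ⟨hg₁, hgk₁⟩, hgg, -⟩ :=
    Fermat.Agent.H69.Cong.exists_cong_etaL hχm (hAm 0) (hgΛ 0) heeτ (heeU 0) ϖ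
      (Fermat.Agent.H69.Cong.dvd_tau_sub_one hϖ hpO hτk)
  obtain ⟨hrk0, hrkD⟩ := hrk ee hee2
  -- facts on the module with characters
  have hAχ := fun (O' : Type) [CommRing O'] [IsDomain O'] [IsDiscreteValuationRing O']
      [IsAdicComplete (maximalIdeal O') O'] [Finite (ResidueField O')] [CharZero O']
      [Algebra O O'] [Module.Finite O O'] [IsLocalHom (algebraMap O O')]
      (hOO' : Function.Injective (algebraMap O O')) => hA O' hOO' (hNi 0) (hSi 0 (Nat.zero_le s))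
  have Fχ := fun (t₀ : heckeLocal L S O θ) => forallEigen_chi hpO hχm (hgΛ 0) heeτ i₀ hi₀ hητk
    hqT hQT hQ hτT t₀
  have FU := fun (i : Fin (s + 1)) (t₀ : heckeLocal L S O θ) => forallEigen_uni hN21 (hN2i i)
    hpO hQN2 (hAm i) (hgΛ i) (heeU i) i₀ hi₀ hη1k t₀
  have hcχ : Aχ.Compat π c := compat_chi hpO hχm (hgΛ 0) heeτ i₀ hi₀ hητk hqT hQT hQ hτT hsq
    hQinj hu hτQ' π c (fun O' _ _ _ _ _ _ _ _ _ hOO' lam η z hη hT hz =>
      (hAχ O' hOO' lam η z hη hT hz).2.1)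
  have hcU : ∀ i : Fin (s + 1), (A i).Compat π c := fun i => compat_uni hN21 (hN2i i) hpO hQN2
    (hAm i) (hgΛ i) (heeU i) i₀ hi₀ hη1k hsq2 hQ hQinj hu π c
    (fun O' _ _ _ _ _ _ _ _ _ hOO' lam η z hη hz =>
      (hB i (hle i) O' hOO' (hN2i i) (hSi i (hle i)) lam η z hη hz).2.1)
  have hprod : ∀ t, ForallEigen Aχ.Φ fun _ _ _ _ _ _ _ _ _ _ lam _ =>
      lam (π (prodElt t)) = 0 := fun t => Fχ _ (fun O' _ _ _ _ _ _ _ _ _ hOO' lam η z hη hT hz =>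
        (hAχ O' hOO' lam η z hη hT hz).1 t)
  have hchi : ∀ i, ForallEigen Aχ.Φ fun _ _ _ _ _ _ _ _ _ _ lam _ =>
      lam (π (y i 1)) = 0 ∧ lam (π (y i 2)) = 0 := fun i O' _ _ _ _ _ _ _ _ _ hO lam z hz hl =>
    ⟨Fχ (π (y i 1)) (fun O' _ _ _ _ _ _ _ _ _ hOO' lam η z hη hT hz =>
        ((hAχ O' hOO' lam η z hη hT hz).2.2.1 i).1) O' hO lam z hz hl,
      Fχ (π (y i 2)) (fun O' _ _ _ _ _ _ _ _ _ hOO' lam η z hη hT hz =>
        ((hAχ O' hOO' lam η z hη hT hz).2.2.1 i).2) O' hO lam z hz hl⟩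
  have hUc : ∀ a ∈ U, ForallEigen Aχ.Φ fun _ _ _ _ _ _ _ _ _ _ lam _ =>
      lam (π a) = 0 := fun a ha => Fχ _ (fun O' _ _ _ _ _ _ _ _ _ hOO' lam η z hη hT hz =>
        (hAχ O' hOO' lam η z hη hT hz).2.2.2 a ha)
  have huni : ∀ i t, ForallEigen (A i).Φ fun _ _ _ _ _ _ _ _ _ _ lam _ =>
      lam (π (uniElt t)) = 0 := fun i t => FU i _ (fun O' _ _ _ _ _ _ _ _ _ hOO' lam η z hη hz =>
        (hB i (hle i) O' hOO' (hN2i i) (hSi i (hle i)) lam η z hη hz).1 t)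
  have hnr : ∀ (i : Fin (s + 1)) (j : Fin s), (i : ℕ) ≤ j →
      ForallEigen (A i).Φ fun _ _ _ _ _ _ _ _ _ _ lam _ =>
        lam (π (y j 1)) = 0 ∧ lam (π (y j 2)) = 0 :=
    fun i j hij O' _ _ _ _ _ _ _ _ _ hO lam z hz hl =>
      ⟨FU i (π (y j 1)) (fun O' _ _ _ _ _ _ _ _ _ hOO' lam η z hη hz =>
          ((hB i (hle i) O' hOO' (hN2i i) (hSi i (hle i)) lam η z hη hz).2.2.1 j hij).1)
          O' hO lam z hz hl,
        FU i (π (y j 2)) (fun O' _ _ _ _ _ _ _ _ _ hOO' lam η z hη hz =>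
          ((hB i (hle i) O' hOO' (hN2i i) (hSi i (hle i)) lam η z hη hz).2.2.1 j hij).2)
          O' hO lam z hz hl⟩
  have hun : ∀ (i : Fin (s + 1)) (j : Fin s), (j : ℕ) < i →
      ForallEigen (A i).Φ fun O' _ _ _ _ _ _ _ _ _ lam _ =>
        lam (π (y j 1)) * lam (π (y j 0)) = 0 ∧
        lam (π (y j 2)) * (lam (π (y j 0)) + algebraMap O O' (cb j)) = 0 := by
    intro i j hij O' _ _ _ _ _ _ _ _ _ hO lam z hz hl
    have h1 := FU i (π (y j 1 * y j 0)) (fun O' _ _ _ _ _ _ _ _ _ hOO' lam η z hη hz => by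
      rw [map_mul, map_mul]
      exact ((hB i (hle i) O' hOO' (hN2i i) (hSi i (hle i)) lam η z hη hz).2.2.2.1 j hij).1)
      O' hO lam z hz hl
    have h2 := FU i (π (y j 2 * (y j 0 + algebraMap O R (cb j))))
      (fun O' _ _ _ _ _ _ _ _ _ hOO' lam η z hη hz => by
      rw [map_mul, map_add, AlgHom.commutes, map_mul, map_add, AlgHom.commutes]
      exact ((hB i (hle i) O' hOO' (hN2i i) (hSi i (hle i)) lam η z hη hz).2.2.2.1 j hij).2)
      O' hO lam z hz hl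
    rw [map_mul, map_mul] at h1
    rw [map_mul, map_add, AlgHom.commutes, map_mul, map_add, AlgHom.commutes] at h2
    exact ⟨h1, h2⟩
  have hUm : ∀ i, ∀ a ∈ U, ForallEigen (A i).Φ fun _ _ _ _ _ _ _ _ _ _ lam _ =>
      lam (π a) = 0 := fun i a ha => FU i _ (fun O' _ _ _ _ _ _ _ _ _ hOO' lam η z hη hz =>
        (hB i (hle i) O' hOO' (hN2i i) (hSi i (hle i)) lam η z hη hz).2.2.2.2 a ha)
  -- the elements killing the top module modulo the augmentation ideal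
  have hEA4 : ForallEigen (A (Fin.last s)).Φ fun O' _ _ _ _ _ _ _ _ _ lam x =>
      (∀ g, ((A (Fin.last s)).Ψ g).baseChange O' x = x) → lam (π f) = 0 :=
    Fermat.Agent.H69.Cong.eigen_trivial_of_pt hpO (hAm (Fin.last s)) (hgΛ _) (heeU _) i₀
      (by rw [thetaPoly_X]; exact hi₀) (π f)
      (fun O' _ _ _ _ _ _ _ _ _ hOO' lam η hη x hx hx' =>
        hE O' hOO' (hNi s) (hSi s le_rfl) lam η x hη ⟨hx, hx'⟩)
  let E : MIdx s → EMod O p e (heckeLocal L S O θ) := fun τ' => match τ' with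
    | .chi => Aχ
    | .mod i => A i
    | .new i => X i
  have hd0 : 0 < (E .chi).d := by
    change 0 < Aχ.d
    rw [hχd]
    exact hrk0 _
  have hdD : ∀ τ', (E τ').d ≤ D := by
    intro τ'
    match τ' with
    | .chi =>
      change Aχ.d ≤ D
      rw [hχd]
      exact hrkD 0 (Nat.zero_le s) _
    | .mod i =>
      change (A i).d ≤ D
      rw [hAd]
      exact hrkD i (hle i) _
    | .new i =>
      change (X i).d ≤ D
      have h1 : (A i.succ).d ≤ D := by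
        rw [hAd]
        exact hrkD _ (hle i.succ) _
      have h2 := hXd i
      omega
  have hcE : ∀ τ', (E τ').Compat π c := by
    intro τ'
    match τ' with
    | .chi => exact hcχ
    | .mod i => exact hcU i
    | .new i => exact hXc i (hcU i.succ)
  exact exists_fullModPart_U π e hne c hcm hc E hd0 hdD hcE hprod huni hchi hnr hun hnew g hg1 hgk
    g₁ hg₁ hgk₁ hgg quo hquo hquos low hlow hlows hlowo pt hpt hptu hptt hptz f hEA4 hf U hUc hUm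

end Fermat.Agent.H21M
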