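import Fermat.Agent.H70Lev6

/-!
# Change of the auxiliary level; vanishing of traces
-/

set_option autoImplicit false
set_option linter.style.haveILetI false

open Matrix CongruenceSubgroup IsLocalRing CuspForm
open scoped MatrixGroups TensorProduct

namespace Fermat.Agent.H70.Mod

open Fermat.Agent.H70.Coh Fermat.Agent.H59 Fermat.Agent.H37.Rank Fermat.Agent.H69.EG

section Idem3

/-- one polynomial is a local idempotent for two finite sets of families and one more family -/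
theorem exists_isLocIdem_pi₃ {O ι κ : Type} [CommRing O] [Field κ] [IsLocalRing O]
    [IsNoetherianRing O] [IsAdicComplete (maximalIdeal O) O] {J₁ J₂ : Type} [Finite J₁] [Finite J₂]
    (F₁ : J₁ → Type) (F₂ : J₂ → Type) (F₃ : Type) [∀ j, Ring (F₁ j)] [∀ j, Algebra O (F₁ j)]
    [∀ j, Module.Finite O (F₁ j)] [∀ j, Ring (F₂ j)] [∀ j, Algebra O (F₂ j)]
    [∀ j, Module.Finite O (F₂ j)] [Ring F₃] [Algebra O F₃] [Module.Finite O F₃]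
    (T₁ : ∀ j, ι → F₁ j) (T₂ : ∀ j, ι → F₂ j) (T₃ : ι → F₃)
    (h₁ : ∀ j i i', T₁ j i * T₁ j i' = T₁ j i' * T₁ j i)
    (h₂ : ∀ j i i', T₂ j i * T₂ j i' = T₂ j i' * T₂ j i)
    (h₃ : ∀ i i', T₃ i * T₃ i' = T₃ i' * T₃ i)
    (θ : MvPolynomial ι O →+* κ) (hθs : ∀ x : κ, ∃ a : O, θ (MvPolynomial.C a) = x) :
    ∃ e, (∀ j, IsLocIdem (T₁ j) (h₁ j) θ e) ∧ (∀ j, IsLocIdem (T₂ j) (h₂ j) θ e) ∧
      IsLocIdem T₃ h₃ θ e := by
  let T : ι → ((∀ j, F₁ j) × (∀ j, F₂ j)) × F₃ := fun i =>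
    ((fun j => T₁ j i, fun j => T₂ j i), T₃ i)
  have hT : ∀ i i', T i * T i' = T i' * T i := fun i i' =>
    Prod.ext (Prod.ext (funext fun b => h₁ b i i') (funext fun b => h₂ b i i')) (h₃ i i')
  obtain ⟨e, he⟩ := exists_isLocIdem (O := O) T hT θ hθs
  exact ⟨e, fun j => he.of_map (((Pi.evalAlgHom O _ j).comp (AlgHom.fst O _ _)).comp
    (AlgHom.fst O _ _)) (h₁ j) fun i => rfl,
    fun j => he.of_map (((Pi.evalAlgHom O _ j).comp (AlgHom.snd O _ _)).comp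
    (AlgHom.fst O _ _)) (h₂ j) fun i => rfl,
    he.of_map (AlgHom.snd O _ _) h₃ fun i => rfl⟩

variable {N M N' M' : ℕ} (hM : N ∣ M) (hM' : N' ∣ M') {S : Set ℕ} (hS : Away M S)
  (hS' : Away M' S) {O : Type} [CommRing O]
  [IsLocalRing O] [IsNoetherianRing O] [IsAdicComplete (maximalIdeal O) O]
  {Λ : Type} [CommRing Λ] [Algebra O Λ] [Module.Finite O Λ]
  (hg : Good M Λ) (hg' : Good M' Λ) {κ : Type} [Field κ] (θ : MvPolynomial (Idx S) O →+* κ)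
  (hθs : ∀ x : κ, ∃ a : O, θ (MvPolynomial.C a) = x)

include hg hg' hθs in
/-- **One idempotent** for two modules at level `M`, one at level `M'` and all levels over `O`. -/
theorem exists_common_idem₂ [NeZero M] [NeZero M'] {L : ℕ} [NeZero L] (hL : Away L S)
    (ψ η : Bool → ((ZMod N)ˣ →* Λˣ)) (hψ : ∀ b, ψ b (-1) = 1)
    (ψ' η' : (ZMod N')ˣ →* Λˣ) (hψ' : ψ' (-1) = 1) :
    ∃ e : MvPolynomial (Idx S) O,
      (∀ b, IsLocIdem (tw hM hS (ψ b) (η b)) (tw_comm hM hS (ψ b) (η b)) θ e) ∧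
      (∀ (L' : ℕ) (hL' : Adm S L'), L' ∣ L → IsLocIdem (TT O hL') (TT_comm hL') θ e) ∧
      IsLocIdem (tw hM' hS' ψ' η') (tw_comm hM' hS' ψ' η') θ e := by
  classical
  have hA : ∀ L' : {L' // L' ∈ Nat.divisors L}, Adm S L'.1 := fun L' ℓ hℓ h1 =>
    hL ℓ hℓ (h1.trans (Nat.dvd_of_mem_divisors L'.2))
  haveI i1 : ∀ b, Module.Finite O (Module.End Λ (H1 (gam N M hM) (psiRep (ψ b) Λ))) := fun b => by
    haveI := h1_finite hM (ψ b) hg (hψ b)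
    haveI : Module.Finite O (H1 (gam N M hM) (psiRep (ψ b) Λ)) := Module.Finite.trans Λ _
    exact finite_end (R := Λ)
  haveI i3 : Module.Finite O (Module.End Λ (H1 (gam N' M' hM') (psiRep ψ' Λ))) := by
    haveI := h1_finite hM' ψ' hg' hψ'
    haveI : Module.Finite O (H1 (gam N' M' hM') (psiRep ψ' Λ)) := Module.Finite.trans Λ _
    exact finite_end (R := Λ)
  haveI i2 : ∀ L' : {L' // L' ∈ Nat.divisors L}, Module.Finite O (Module.End O (HH O L'.1)) :=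
    fun L' => by
      haveI : NeZero L'.1 := ⟨(Nat.pos_of_mem_divisors L'.2).ne'⟩
      exact finite_end (R := O)
  letI r1 : ∀ b : Bool, Ring (Module.End Λ (H1 (gam N M hM) (psiRep (ψ b) Λ))) :=
    fun b => inferInstance
  letI r2 : ∀ L' : {L' // L' ∈ Nat.divisors L}, Ring (Module.End O (HH O L'.1)) :=
    fun L' => inferInstance
  obtain ⟨e, h1, h2, h3⟩ := exists_isLocIdem_pi₃ (O := O)
    (fun b => Module.End Λ (H1 (gam N M hM) (psiRep (ψ b) Λ)))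
    (fun L' : {L' // L' ∈ Nat.divisors L} => Module.End O (HH O L'.1))
    (Module.End Λ (H1 (gam N' M' hM') (psiRep ψ' Λ)))
    (fun b => tw hM hS (ψ b) (η b)) (fun L' => TT O (hA L')) (tw hM' hS' ψ' η')
    (fun b => tw_comm hM hS (ψ b) (η b)) (fun L' => TT_comm (hA L'))
    (tw_comm hM' hS' ψ' η') θ hθs
  exact ⟨e, h1, fun L' hL' hd => h2 ⟨L', Nat.mem_divisors.mpr ⟨hd, NeZero.ne L⟩⟩, h3⟩

end Idem3

section LevTw

variable {N₁ N₂ M : ℕ} (hN : N₂ ∣ N₁) (hM₁ : N₁ ∣ M) (hM₂ : N₂ ∣ M) {S : Set ℕ} (hS : Away M S)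
  {R : Type} [CommRing R] {ψ₁ η₁ : (ZMod N₁)ˣ →* Rˣ} {ψ₂ η₂ : (ZMod N₂)ˣ →* Rˣ}
  (hψ : ψ₁ = ψ₂.comp (ZMod.unitsMap hN)) (hη : η₁ = η₂.comp (ZMod.unitsMap hN))

include hη in
lemma atIdx_lev (i : Idx S) : atIdx hM₁ hS η₁ i = atIdx hM₂ hS η₂ i := by
  rw [hη]
  change η₂ (ZMod.unitsMap hN (ZMod.unitOfCoprime i.1 _)) = η₂ _
  rw [H21J.unitsMap_coprime hN _ (coprime_of_not_dvd i.2.1 (hS.not_dvd i) hM₂)]

include hη in
/-- the normalised operators and the change of the auxiliary level -/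
lemma tw_h1Lev (i : Idx S) (x : H1 (gam N₁ M hM₁) (psiRep ψ₁ R)) :
    h1Lev hN hM₁ hM₂ hψ R (tw hM₁ hS ψ₁ η₁ i x) =
      tw hM₂ hS ψ₂ η₂ i (h1Lev hN hM₁ hM₂ hψ R x) := by
  rw [tw_apply, tw_apply, map_smul, atIdx_lev hN hM₁ hM₂ hS hη]
  congr 1
  exact (tFam_h1Lev hN hM₁ hM₂ hψ R i.2.1 (hS.not_dvd i) x).symm

variable {O : Type} [CommRing O] [Algebra O R]

include hη in
lemma act_h1Lev (P : MvPolynomial (Idx S) O) (x : H1 (gam N₁ M hM₁) (psiRep ψ₁ R)) :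
    h1Lev hN hM₁ hM₂ hψ R (act (tw hM₁ hS ψ₁ η₁) (tw_comm hM₁ hS ψ₁ η₁) P x) =
      act (tw hM₂ hS ψ₂ η₂) (tw_comm hM₂ hS ψ₂ η₂) P (h1Lev hN hM₁ hM₂ hψ R x) :=
  map_act_apply (Λ := R) (Λ' := R) (hT' := tw_comm hM₂ hS ψ₂ η₂)
    (h1Lev hN hM₁ hM₂ hψ R).toLinearMap.toAddMonoidHom
    (fun a x => by
      change h1Lev hN hM₁ hM₂ hψ R (a • x) = a • h1Lev hN hM₁ hM₂ hψ R x
      rw [← algebraMap_smul R a x, map_smul, algebraMap_smul])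
    (fun i x => tw_h1Lev hN hM₁ hM₂ hS hψ hη i x) P x

end LevTw

section PtLev

variable {N₁ N₂ M : ℕ} (hN : N₂ ∣ N₁) (hM₁ : N₁ ∣ M) (hM₂ : N₂ ∣ M) {S : Set ℕ} (hS : Away M S)
  {R : Type} [CommRing R] {η₁ : (ZMod N₁)ˣ →* Rˣ} {η₂ : (ZMod N₂)ˣ →* Rˣ}
  {O : Type} [CommRing O] [Algebra O R] {e : MvPolynomial (Idx S) O}

lemma sq_comp {G : Type*} [CommGroup G] {η₁ : (ZMod N₁)ˣ →* G} {η₂ : (ZMod N₂)ˣ →* G}
    (hη : η₁ = η₂.comp (ZMod.unitsMap hN)) : η₁ ^ 2 = (η₂ ^ 2).comp (ZMod.unitsMap hN) := by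
  rw [hη]
  rfl

/-- points and the change of the auxiliary level -/
theorem exists_pt_lev (hη : η₁ = η₂.comp (ZMod.unitsMap hN)) (lam : Idx S → R)
    (z : H1 (gam N₁ M hM₁) (psiRep (η₁ ^ 2) R)) (hz : IsPt hM₁ hS η₁ lam z)
    (hez : act (tw hM₁ hS (η₁ ^ 2) η₁) (tw_comm hM₁ hS (η₁ ^ 2) η₁) e z = z) :
    ∃ y : H1 (gam N₂ M hM₂) (psiRep (η₂ ^ 2) R), IsPt hM₂ hS η₂ lam y ∧
      act (tw hM₂ hS (η₂ ^ 2) η₂) (tw_comm hM₂ hS (η₂ ^ 2) η₂) e y = y := by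
  refine ⟨h1Lev hN hM₁ hM₂ (sq_comp hN hη) R z, ⟨fun c hc h => ?_, fun i => ?_⟩, ?_⟩
  · rw [← map_smul, LinearEquiv.map_eq_zero_iff] at h
    exact hz.smul_ne c hc h
  · rw [← tw_h1Lev hN hM₁ hM₂ hS (sq_comp hN hη) hη, hz.eigen, map_smul]
  · rw [← act_h1Lev hN hM₁ hM₂ hS (sq_comp hN hη) hη, hez]

end PtLev

section TrVanish

variable {N M q : ℕ} (hM : N ∣ M) [NeZero M] [NeZero q] {S : Set ℕ} (hS : Away (M * q) S)
  (hq : q.Prime) (hqM : ¬ q ∣ M)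
  {R : Type} [CommRing R] (ψ η : (ZMod N)ˣ →* Rˣ) {O : Type} [CommRing O] [Algebra O R]
  {e : MvPolynomial (Idx S) O}

include hqM in
/-- the traces vanish if the localised module of lower level does -/
theorem traces_eq_zero (h0 : MLoc hM hS.left ψ η e = ⊥)
    (x : H1 (gam N (M * q) (hM.mul_right q)) (psiRep ψ R))
    (hx : act (tw (hM.mul_right q) hS ψ η) (tw_comm (hM.mul_right q) hS ψ η) e x = x) :
    (trFam hM).opH (psiRep ψ R) x = 0 ∧ (nuFam hM hq).opH (psiRep ψ R) x = 0 := by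
  have hmem : x ∈ MLoc (hM.mul_right q) hS ψ η e := ⟨x, hx⟩
  have h1 := tr_mem hM hS ψ η e hq hqM hmem
  have h2 := nu_mem hM hS ψ η e hq hqM hmem
  rw [h0, Submodule.mem_bot] at h1 h2
  exact ⟨h1, h2⟩

end TrVanish

section EtaComp

variable {O : Type} [CommRing O] {p r : ℕ} {e : Fin r → ℕ} {N₁ N₂ : ℕ} (hN : N₂ ∣ N₁)
  {Q : Fin r → ℕ} (hQN₁ : ∀ j, Q j ∣ N₁) (hQN₂ : ∀ j, Q j ∣ N₂)
  (u : ∀ j, (ZMod (Q j))ˣ →* Multiplicative (ZMod (p ^ e j)))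

lemma etaL_lev : (etaL hQN₁ u (1 : (ZMod N₁)ˣ →* Oˣ)) =
    (etaL hQN₂ u (1 : (ZMod N₂)ˣ →* Oˣ)).comp (ZMod.unitsMap hN) := by
  ext1 a
  apply Units.ext
  rw [MonoidHom.comp_apply, etaL_val, etaL_val]
  congr 1
  congr 1
  funext j
  rw [etaU_apply, etaU_apply]
  have := ZMod.unitsMap_comp (hQN₂ j) hN
  exact congrArg (u j) (congrArg (fun f : (ZMod N₁)ˣ →* (ZMod (Q j))ˣ => f a) this).symm

lemma psiMap_comp_unitsMap {R R' : Type} [CommRing R] [CommRing R'] (f : R →+* R')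
    (η : (ZMod N₂)ˣ →* Rˣ) :
    psiMap f (η.comp (ZMod.unitsMap hN)) = (psiMap f η).comp (ZMod.unitsMap hN) := rfl

end EtaComp

end Fermat.Agent.H70.Mod
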