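import Fermat.Agent.H21MLev
import Fermat.Agent.H70Lev7

/-!
# From eigenvectors in the Hecke modules to eigenclasses (helper21)
-/

set_option autoImplicit false
set_option linter.style.haveILetI false
set_option linter.unusedSectionVars false

open Matrix CongruenceSubgroup IsLocalRing CuspForm
open scoped MatrixGroups TensorProduct

namespace Fermat.Agent.H21M

open Fermat.Agent.H70.Coh Fermat.Agent.H70.Mod Fermat.Agent.H59 Fermat.Agent.H37.Rank
  Fermat.Agent.H30 Fermat.Agent.H69.EG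

set_option synthInstance.maxHeartbeats 400000
set_option maxHeartbeats 1000000

section Conj

variable {O O' A X : Type} [CommRing O] [CommRing O'] [Algebra O O'] [AddCommGroup A] [Module O A]
  [AddCommGroup X] [Module O X] (ι : A ≃ₗ[O] X)

lemma baseChange_conj {f : Module.End O A} {g : Module.End O X} (h : ∀ x, ι (f x) = g (ι x))
    (x : O' ⊗[O] A) : g.baseChange O' (ι.toLinearMap.baseChange O' x) =
      ι.toLinearMap.baseChange O' (f.baseChange O' x) := by
  have h1 : g ∘ₗ ι.toLinearMap = ι.toLinearMap ∘ₗ f := LinearMap.ext fun x => (h x).symm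
  have h2 := LinearMap.congr_fun (congrArg (fun F => LinearMap.baseChange O' F) h1) x
  rw [LinearMap.baseChange_comp, LinearMap.baseChange_comp] at h2
  exact h2

lemma baseChange_equiv_ne_zero {x : O' ⊗[O] A} (hx : x ≠ 0) :
    ι.toLinearMap.baseChange O' x ≠ 0 := by
  intro h
  apply hx
  have h1 : ι.symm.toLinearMap ∘ₗ ι.toLinearMap = LinearMap.id :=
    LinearMap.ext fun x => ι.symm_apply_apply x
  have h2 := LinearMap.congr_fun (congrArg (fun F => LinearMap.baseChange O' F) h1) x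
  rw [LinearMap.baseChange_comp, LinearMap.baseChange_id] at h2
  have h3 : ι.symm.toLinearMap.baseChange O' (ι.toLinearMap.baseChange O' x) = x := h2
  rw [h, map_zero] at h3
  exact h3.symm

end Conj

section Pt

variable {N M L : ℕ} [NeZero M] [NeZero L] {hM : N ∣ M} {S : Set ℕ} {hS : Away M S}
  {hSL : ∀ q : ℕ, q.Prime → q ∣ L → q ∈ S}
  {O : Type} [CommRing O] [IsDomain O] [IsDiscreteValuationRing O]
  [IsAdicComplete (maximalIdeal O) O]
  {p : ℕ} [Fact p.Prime] (hpO : (p : O) ∈ maximalIdeal O)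
  {r : ℕ} {e : Fin r → ℕ} {η : (ZMod N)ˣ →* (MonoidAlgebra O (Dlt p e))ˣ}
  {θ : heckeAlgebra L 2 S →+* ResidueField O} {ee : MvPolynomial (Idx S) O}
  {A : EMod O p e (heckeLocal L S O θ)} {ι : A.M ≃ₗ[O] MLoc hM hS (η ^ 2) η ee}
  (hA : IsModel hM hS hSL (η ^ 2) η θ ee A ι)
  (hg : Good M (MonoidAlgebra O (Dlt p e)))
  (heA : IsLocIdem (tw hM hS (η ^ 2) η) (tw_comm hM hS (η ^ 2) η) (thetaPoly L S hSL O θ) ee)
  (i₀ : Idx S) (hi₀ : θ (TIdx L S hSL i₀) ≠ 1 + (i₀.1 : ResidueField O))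
  {k : ℕ} (hη : η ^ p ^ k = 1)

include hpO hA hg heA hi₀ hη in
/-- **Eigenvectors give eigenclasses.** -/
theorem exists_pt_of_model {O' : Type} [CommRing O'] [IsDomain O'] [IsLocalRing O'] [CharZero O']
    [Algebra O O'] [IsLocalHom (algebraMap O O')] (lam : heckeLocal L S O θ →ₐ[O] O')
    (χ : Dlt p e →* O'ˣ) (x : O' ⊗[O] A.M) (hx : x ≠ 0)
    (hlam : ∀ t, (A.Φ t).baseChange O' x = lam t • x)
    (hχ : ∀ g, (A.Ψ g).baseChange O' x = ((χ g : O'ˣ) : O') • x) :
    ∃ z : H1 (gam N M hM) (psiRep ((psiMap (evC (O := O) χ).toRingHom η) ^ 2) O'),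
      IsPt hM hS (psiMap (evC (O := O) χ).toRingHom η)
        (fun i => lam (heckeLocal.π L S O θ (TIdx L S hSL i))) z ∧
      act (tw hM hS ((psiMap (evC (O := O) χ).toRingHom η) ^ 2)
        (psiMap (evC (O := O) χ).toRingHom η)) (tw_comm hM hS _ _) ee z = z := by
  haveI : Module.Free O (MLoc hM hS (η ^ 2) η ee) := Module.Free.of_equiv ι
  obtain ⟨z, hz, hz'⟩ := exists_pt (O' := O') hM hS (Fact.out : p.Prime) hg heA i₀
    (by rw [thetaPoly_X]; exact hi₀) (natCast_mem_of_isLocalHom hpO) hη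
    (ι.toLinearMap.baseChange O' x) (baseChange_equiv_ne_zero ι hx) χ (fun g => by
      rw [baseChange_conj ι (hA.Ψ g), hχ, map_smul])
    (fun P => lam (toLocal L S hSL O θ P)) (fun P => by
      rw [baseChange_conj ι (hA.Φ P), hlam, map_smul])
  refine ⟨z, ⟨hz.smul_ne, fun i => ?_⟩, hz'⟩
  have h1 := hz.eigen i
  rw [toLocal_X] at h1
  exact h1

end Pt

section Eigen

variable {N M L : ℕ} [NeZero M] [NeZero L] {hM : N ∣ M} {S : Set ℕ} {hS : Away M S}
  {hSL : ∀ q : ℕ, q.Prime → q ∣ L → q ∈ S}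
  {O : Type} [CommRing O] [IsDomain O] [IsDiscreteValuationRing O]
  [IsAdicComplete (maximalIdeal O) O] [Finite (ResidueField O)] [CharZero O]
  {p : ℕ} [Fact p.Prime] (hpO : (p : O) ∈ maximalIdeal O)
  {r : ℕ} {e : Fin r → ℕ} {η : (ZMod N)ˣ →* (MonoidAlgebra O (Dlt p e))ˣ}
  {θ : heckeAlgebra L 2 S →+* ResidueField O} {ee : MvPolynomial (Idx S) O}
  {A : EMod O p e (heckeLocal L S O θ)} {ι : A.M ≃ₗ[O] MLoc hM hS (η ^ 2) η ee}
  (hA : IsModel hM hS hSL (η ^ 2) η θ ee A ι)
  (hg : Good M (MonoidAlgebra O (Dlt p e)))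
  (heA : IsLocIdem (tw hM hS (η ^ 2) η) (tw_comm hM hS (η ^ 2) η) (thetaPoly L S hSL O θ) ee)
  (i₀ : Idx S) (hi₀ : θ (TIdx L S hSL i₀) ≠ 1 + (i₀.1 : ResidueField O))
  {k : ℕ} (hη : η ^ p ^ k = 1)

lemma psiMap_pow_eq_one {O' : Type} [CommRing O'] [Algebra O O'] (hη : η ^ p ^ k = 1)
    (χ : Dlt p e →* O'ˣ) : (psiMap (evC (O := O) χ).toRingHom η) ^ p ^ k = 1 := by
  rw [← psiMap_pow, hη, psiMap_one]

include hpO hA hg heA hi₀ hη in
/-- **Transfer**: an element of the Hecke algebra which vanishes on all eigenclasses vanishes on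
all eigenvectors. -/
theorem forallEigen_of_model (t₀ : heckeLocal L S O θ)
    (h : ∀ (O' : Type) [CommRing O'] [IsDomain O'] [IsDiscreteValuationRing O']
      [IsAdicComplete (maximalIdeal O') O'] [Finite (ResidueField O')] [CharZero O']
      [Algebra O O'] [Module.Finite O O'] [IsLocalHom (algebraMap O O')],
      Function.Injective (algebraMap O O') → ∀ (lam : heckeLocal L S O θ →ₐ[O] O')
      (χ : Dlt p e →* O'ˣ)
      (z : H1 (gam N M hM) (psiRep ((psiMap (evC (O := O) χ).toRingHom η) ^ 2) O')),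
      (psiMap (evC (O := O) χ).toRingHom η) ^ p ^ k = 1 →
      IsPt hM hS (psiMap (evC (O := O) χ).toRingHom η)
        (fun i => lam (heckeLocal.π L S O θ (TIdx L S hSL i))) z → lam t₀ = 0) :
    ForallEigen A.Φ fun _ _ _ _ _ _ _ _ _ _ lam _ => lam t₀ = 0 := by
  apply Fermat.Agent.H70.Eig.forallEigen_of_group A.Φ A.Ψ A.comm t₀
  intro O' _ _ _ _ _ _ _ _ _ hOO' lam χ x hx hlam hχ
  obtain ⟨z, hz, -⟩ := exists_pt_of_model hpO hA hg heA i₀ hi₀ hη lam χ x hx hlam hχ
  exact h O' hOO' lam χ z (psiMap_pow_eq_one hη χ) hz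

include hpO hA hg heA hi₀ hη in
/-- compatibility of the diamond operators with the Galois side -/
theorem compat_of_model {R : Type} [CommRing R] [Algebra O R] (π : R →ₐ[O] heckeLocal L S O θ)
    (c : Fin r → R)
    (h : ∀ (O' : Type) [CommRing O'] [IsDomain O'] [IsDiscreteValuationRing O']
      [IsAdicComplete (maximalIdeal O') O'] [Finite (ResidueField O')] [CharZero O']
      [Algebra O O'] [Module.Finite O O'] [IsLocalHom (algebraMap O O')],
      Function.Injective (algebraMap O O') → ∀ (lam : heckeLocal L S O θ →ₐ[O] O')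
      (χ : Dlt p e →* O'ˣ)
      (z : H1 (gam N M hM) (psiRep ((psiMap (evC (O := O) χ).toRingHom η) ^ 2) O')),
      (psiMap (evC (O := O) χ).toRingHom η) ^ p ^ k = 1 →
      IsPt hM hS (psiMap (evC (O := O) χ).toRingHom η)
        (fun i => lam (heckeLocal.π L S O θ (TIdx L S hSL i))) z →
      ((∀ g, χ g = 1) ↔ ∀ j, lam (π (1 + c j)) = 1)) :
    A.Compat π c := by
  intro O' _ _ _ _ _ _ _ _ _ hOO' lam x hx hlam χ hχ
  have hval : ∀ g, ((χ.toHomUnits g : O'ˣ) : O') = χ g := fun g => rfl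
  obtain ⟨z, hz, -⟩ := exists_pt_of_model hpO hA hg heA i₀ hi₀ hη lam χ.toHomUnits x hx hlam
    (fun g => by rw [hval]; exact hχ g)
  rw [← h O' hOO' lam χ.toHomUnits z (psiMap_pow_eq_one hη _) hz]
  constructor
  · intro h1 g
    exact Units.ext ((hval g).trans (h1 g))
  · intro h1 g
    rw [← hval, h1]
    rfl

include hpO hA hg heA hi₀ hη in
/-- the elements which kill the module modulo the augmentation ideal -/
theorem forallEigen_one_of_model (t₀ : heckeLocal L S O θ)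
    (h : ∀ (O' : Type) [CommRing O'] [IsDomain O'] [IsDiscreteValuationRing O']
      [IsAdicComplete (maximalIdeal O') O'] [Finite (ResidueField O')] [CharZero O']
      [Algebra O O'] [Module.Finite O O'] [IsLocalHom (algebraMap O O')],
      Function.Injective (algebraMap O O') → ∀ (lam : heckeLocal L S O θ →ₐ[O] O')
      (z : H1 (gam N M hM)
        (psiRep ((psiMap (evC (O := O) (1 : Dlt p e →* O'ˣ)).toRingHom η) ^ 2) O')),
      IsPt hM hS (psiMap (evC (O := O) (1 : Dlt p e →* O'ˣ)).toRingHom η)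
        (fun i => lam (heckeLocal.π L S O θ (TIdx L S hSL i))) z → lam t₀ = 0) :
    ForallEigen A.Φ fun O' _ _ _ _ _ _ _ _ _ lam x =>
      (∀ g, (A.Ψ g).baseChange O' x = x) → lam t₀ = 0 := by
  intro O' _ _ _ _ _ _ _ _ _ hOO' lam x hx hlam hΨ
  obtain ⟨z, hz, -⟩ := exists_pt_of_model hpO hA hg heA i₀ hi₀ hη lam 1 x hx hlam
    (fun g => by rw [hΨ, MonoidHom.one_apply, Units.val_one, one_smul])
  exact h O' hOO' lam z hz

end Eigen

end Fermat.Agent.H21M
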