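import Fermat.Agent.H21MPt

set_option autoImplicit false
set_option linter.style.haveILetI false
set_option linter.unusedSectionVars false

open Matrix CongruenceSubgroup IsLocalRing CuspForm
open scoped MatrixGroups TensorProduct

namespace Fermat.Agent.H21M

open Fermat.Agent.H70.Coh Fermat.Agent.H70.Mod Fermat.Agent.H59 Fermat.Agent.H37.Rank
  Fermat.Agent.H30 Fermat.Agent.H69.EG

set_option synthInstance.maxHeartbeats 400000
set_option maxHeartbeats 1000000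

section Lev

variable {N₁ N₂ M : ℕ} (hN : N₂ ∣ N₁) {hM₁ : N₁ ∣ M} (hM₂ : N₂ ∣ M) {S : Set ℕ} {hS : Away M S}
  {R : Type} [CommRing R] {η₁ : (ZMod N₁)ˣ →* Rˣ} {η₂ : (ZMod N₂)ˣ →* Rˣ}

/-- points and the change of the auxiliary level -/
theorem isPt_lev (hη : η₁ = η₂.comp (ZMod.unitsMap hN)) {lam : Idx S → R}
    {z : H1 (gam N₁ M hM₁) (psiRep (η₁ ^ 2) R)} (hz : IsPt hM₁ hS η₁ lam z) :
    IsPt hM₂ hS η₂ lam (h1Lev hN hM₁ hM₂ (sq_comp hN hη) R z) where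
  smul_ne c hc h := by
    rw [← map_smul, LinearEquiv.map_eq_zero_iff] at h
    exact hz.smul_ne c hc h
  eigen i := by
    rw [← tw_h1Lev hN hM₁ hM₂ hS (sq_comp hN hη) hη, hz.eigen, map_smul]

end Lev

section Uni

/-! ### The unipotent modules -/

variable {N₁ N₂ M L : ℕ} [NeZero N₁] [NeZero M] [NeZero L] (hN : N₂ ∣ N₁) {hM : N₁ ∣ M}
  (hM₂ : N₂ ∣ M) {S : Set ℕ}
  {hS : Away M S} {hSL : ∀ q : ℕ, q.Prime → q ∣ L → q ∈ S}
  {O : Type} [CommRing O] [IsDomain O] [IsDiscreteValuationRing O]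
  [IsAdicComplete (maximalIdeal O) O] [Finite (ResidueField O)] [CharZero O]
  {p : ℕ} [Fact p.Prime] (hpO : (p : O) ∈ maximalIdeal O)
  {r : ℕ} {e : Fin r → ℕ} {Q : Fin r → ℕ} {hQN₁ : ∀ j, Q j ∣ N₁} (hQN₂ : ∀ j, Q j ∣ N₂)
  {u : ∀ j, (ZMod (Q j))ˣ →* Multiplicative (ZMod (p ^ e j))}
  {θ : heckeAlgebra L 2 S →+* ResidueField O} {ee : MvPolynomial (Idx S) O}
  {A : EMod O p e (heckeLocal L S O θ)}
  {ι : A.M ≃ₗ[O] MLoc hM hS ((etaL hQN₁ u (1 : (ZMod N₁)ˣ →* Oˣ)) ^ 2)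
    (etaL hQN₁ u (1 : (ZMod N₁)ˣ →* Oˣ)) ee}
  (hA : IsModel hM hS hSL ((etaL hQN₁ u (1 : (ZMod N₁)ˣ →* Oˣ)) ^ 2)
    (etaL hQN₁ u (1 : (ZMod N₁)ˣ →* Oˣ)) θ ee A ι)
  (hg : Good M (MonoidAlgebra O (Dlt p e)))
  (heA : IsLocIdem (tw hM hS ((etaL hQN₁ u (1 : (ZMod N₁)ˣ →* Oˣ)) ^ 2)
      (etaL hQN₁ u (1 : (ZMod N₁)ˣ →* Oˣ)))
    (tw_comm hM hS ((etaL hQN₁ u (1 : (ZMod N₁)ˣ →* Oˣ)) ^ 2)
      (etaL hQN₁ u (1 : (ZMod N₁)ˣ →* Oˣ))) (thetaPoly L S hSL O θ) ee)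
  (i₀ : Idx S) (hi₀ : θ (TIdx L S hSL i₀) ≠ 1 + (i₀.1 : ResidueField O))
  {k : ℕ} (hη : (etaL hQN₁ u (1 : (ZMod N₁)ˣ →* Oˣ)) ^ p ^ k = 1)

lemma etaL_comp {O' : Type} [CommRing O'] [Algebra O O'] (χ : Dlt p e →* O'ˣ) :
    psiMap (evC (O := O) χ).toRingHom (etaL hQN₁ u (1 : (ZMod N₁)ˣ →* Oˣ)) =
      (psiMap (evC (O := O) χ).toRingHom (etaL hQN₂ u (1 : (ZMod N₂)ˣ →* Oˣ))).comp
        (ZMod.unitsMap hN) := by
  rw [etaL_lev hN hQN₁ hQN₂ u, psiMap_comp_unitsMap]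

lemma unitsMap_surj' {N₁ N₂ : ℕ} [NeZero N₁] (hN : N₂ ∣ N₁) :
    Function.Surjective (ZMod.unitsMap hN) := ZMod.unitsMap_surjective hN

lemma pow_eq_one_of_comp {G : Type*} [CommGroup G] {η₁ : (ZMod N₁)ˣ →* G}
    {η₂ : (ZMod N₂)ˣ →* G} (h : η₁ = η₂.comp (ZMod.unitsMap hN)) {n : ℕ} (h1 : η₁ ^ n = 1) :
    η₂ ^ n = 1 := by
  ext1 a
  obtain ⟨b, rfl⟩ := unitsMap_surj' hN a
  have h2 := congrArg (fun f : (ZMod N₁)ˣ →* G => f b) h1
  rw [h] at h2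
  exact h2

include hN hQN₂ hpO hA hg heA hi₀ hη in
/-- transfer for the unipotent modules -/
theorem forallEigen_uni (t₀ : heckeLocal L S O θ)
    (h : ∀ (O' : Type) [CommRing O'] [IsDomain O'] [IsDiscreteValuationRing O']
      [IsAdicComplete (maximalIdeal O') O'] [Finite (ResidueField O')] [CharZero O']
      [Algebra O O'] [Module.Finite O O'] [IsLocalHom (algebraMap O O')],
      Function.Injective (algebraMap O O') → ∀ (lam : heckeLocal L S O θ →ₐ[O] O')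
      (η : (ZMod N₂)ˣ →* O'ˣ) (z : H1 (gam N₂ M hM₂) (psiRep (η ^ 2) O')),
      (∃ k, η ^ p ^ k = 1) →
      IsPt hM₂ hS η (fun i => lam (heckeLocal.π L S O θ (TIdx L S hSL i))) z → lam t₀ = 0) :
    ForallEigen A.Φ fun _ _ _ _ _ _ _ _ _ _ lam _ => lam t₀ = 0 := by
  apply forallEigen_of_model hpO hA hg heA i₀ hi₀ hη
  intro O' _ _ _ _ _ _ _ _ _ hOO' lam χ z hχ hz
  exact h O' hOO' lam _ _ ⟨k, pow_eq_one_of_comp hN (etaL_comp hN hQN₂ χ) hχ⟩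
    (isPt_lev hN hM₂ (etaL_comp hN hQN₂ χ) hz)

include hN hQN₂ hpO hA hg heA hi₀ hη in
/-- compatibility for the unipotent modules -/
theorem compat_uni [NeZero N₂] (hsq : Squarefree N₂) (hQ : ∀ j, (Q j).Prime)
    (hinj : Function.Injective Q) (hu : ∀ j, Function.Surjective (u j))
    {R : Type} [CommRing R] [Algebra O R] (π : R →ₐ[O] heckeLocal L S O θ)
    (c : Fin r → R)
    (h : ∀ (O' : Type) [CommRing O'] [IsDomain O'] [IsDiscreteValuationRing O']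
      [IsAdicComplete (maximalIdeal O') O'] [Finite (ResidueField O')] [CharZero O']
      [Algebra O O'] [Module.Finite O O'] [IsLocalHom (algebraMap O O')],
      Function.Injective (algebraMap O O') → ∀ (lam : heckeLocal L S O θ →ₐ[O] O')
      (η : (ZMod N₂)ˣ →* O'ˣ) (z : H1 (gam N₂ M hM₂) (psiRep (η ^ 2) O')),
      (∃ k, η ^ p ^ k = 1) →
      IsPt hM₂ hS η (fun i => lam (heckeLocal.π L S O θ (TIdx L S hSL i))) z →
      ∀ j, (TrivAt N₂ (Q j) η ↔ lam (π (1 + c j)) = 1)) :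
    A.Compat π c := by
  apply compat_of_model hpO hA hg heA i₀ hi₀ hη
  intro O' _ _ _ _ _ _ _ _ _ hOO' lam χ z hχ hz
  rw [← trivAt_iff hsq hQ hinj hQN₂ hu (τ := (1 : (ZMod N₂)ˣ →* Oˣ)) (fun j N₃ _ a _ => rfl) χ]
  exact forall_congr' (h O' hOO' lam _ _ ⟨k, pow_eq_one_of_comp hN (etaL_comp hN hQN₂ χ) hχ⟩
    (isPt_lev hN hM₂ (etaL_comp hN hQN₂ χ) hz))

end Uni

section Chi

/-! ### The module with characters -/

variable {N M L : ℕ} [NeZero N] [NeZero M] [NeZero L] {hM : N ∣ M} {S : Set ℕ}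
  {hS : Away M S} {hSL : ∀ q : ℕ, q.Prime → q ∣ L → q ∈ S}
  {O : Type} [CommRing O] [IsDomain O] [IsDiscreteValuationRing O]
  [IsAdicComplete (maximalIdeal O) O] [Finite (ResidueField O)] [CharZero O]
  {p : ℕ} [Fact p.Prime] (hpO : (p : O) ∈ maximalIdeal O)
  {r : ℕ} {e : Fin r → ℕ} {Q : Fin r → ℕ} {hQN : ∀ j, Q j ∣ N}
  {u : ∀ j, (ZMod (Q j))ˣ →* Multiplicative (ZMod (p ^ e j))} {τ : (ZMod N)ˣ →* Oˣ}
  {θ : heckeAlgebra L 2 S →+* ResidueField O} {ee : MvPolynomial (Idx S) O}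
  {A : EMod O p e (heckeLocal L S O θ)}
  {ι : A.M ≃ₗ[O] MLoc hM hS ((etaL hQN u τ) ^ 2) (etaL hQN u τ) ee}
  (hA : IsModel hM hS hSL ((etaL hQN u τ) ^ 2) (etaL hQN u τ) θ ee A ι)
  (hg : Good M (MonoidAlgebra O (Dlt p e)))
  (heA : IsLocIdem (tw hM hS ((etaL hQN u τ) ^ 2) (etaL hQN u τ))
    (tw_comm hM hS ((etaL hQN u τ) ^ 2) (etaL hQN u τ)) (thetaPoly L S hSL O θ) ee)
  (i₀ : Idx S) (hi₀ : θ (TIdx L S hSL i₀) ≠ 1 + (i₀.1 : ResidueField O))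
  {k : ℕ} (hη : (etaL hQN u τ) ^ p ^ k = 1)
  {T : Type} {qT : T → ℕ} (hqT : ∀ t, (qT t).Prime) (hQT : ∀ j t, Q j ≠ qT t)
  (hQ : ∀ j, (Q j).Prime) (hτT : ∀ t, ¬ TrivAt N (qT t) τ)

include hpO hA hg heA hi₀ hη hqT hQT hQ hτT in
/-- transfer for the module with characters -/
theorem forallEigen_chi (t₀ : heckeLocal L S O θ)
    (h : ∀ (O' : Type) [CommRing O'] [IsDomain O'] [IsDiscreteValuationRing O']
      [IsAdicComplete (maximalIdeal O') O'] [Finite (ResidueField O')] [CharZero O']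
      [Algebra O O'] [Module.Finite O O'] [IsLocalHom (algebraMap O O')],
      Function.Injective (algebraMap O O') → ∀ (lam : heckeLocal L S O θ →ₐ[O] O')
      (η : (ZMod N)ˣ →* O'ˣ) (z : H1 (gam N M hM) (psiRep (η ^ 2) O')),
      (∃ k, η ^ p ^ k = 1) → (∀ t, ¬ TrivAt N (qT t) η) →
      IsPt hM hS η (fun i => lam (heckeLocal.π L S O θ (TIdx L S hSL i))) z → lam t₀ = 0) :
    ForallEigen A.Φ fun _ _ _ _ _ _ _ _ _ _ lam _ => lam t₀ = 0 := by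
  apply forallEigen_of_model hpO hA hg heA i₀ hi₀ hη
  intro O' _ _ _ _ _ _ _ _ _ hOO' lam χ z hχ hz
  exact h O' hOO' lam _ _ ⟨k, hχ⟩
    (fun t => not_trivAt hQ hQN hOO' (hqT t) (fun j => hQT j t) (hτT t) χ) hz

include hpO hA hg heA hi₀ hη hqT hQT hQ hτT in
/-- compatibility for the module with characters -/
theorem compat_chi (hsq : Squarefree N)
    (hinj : Function.Injective Q) (hu : ∀ j, Function.Surjective (u j))
    (hτQ : ∀ j, TrivAt N (Q j) τ)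
    {R : Type} [CommRing R] [Algebra O R] (π : R →ₐ[O] heckeLocal L S O θ)
    (c : Fin r → R)
    (h : ∀ (O' : Type) [CommRing O'] [IsDomain O'] [IsDiscreteValuationRing O']
      [IsAdicComplete (maximalIdeal O') O'] [Finite (ResidueField O')] [CharZero O']
      [Algebra O O'] [Module.Finite O O'] [IsLocalHom (algebraMap O O')],
      Function.Injective (algebraMap O O') → ∀ (lam : heckeLocal L S O θ →ₐ[O] O')
      (η : (ZMod N)ˣ →* O'ˣ) (z : H1 (gam N M hM) (psiRep (η ^ 2) O')),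
      (∃ k, η ^ p ^ k = 1) → (∀ t, ¬ TrivAt N (qT t) η) →
      IsPt hM hS η (fun i => lam (heckeLocal.π L S O θ (TIdx L S hSL i))) z →
      ∀ j, (TrivAt N (Q j) η ↔ lam (π (1 + c j)) = 1)) :
    A.Compat π c := by
  apply compat_of_model hpO hA hg heA i₀ hi₀ hη
  intro O' _ _ _ _ _ _ _ _ _ hOO' lam χ z hχ hz
  rw [← trivAt_iff hsq hQ hinj hQN hu hτQ χ]
  exact forall_congr' (h O' hOO' lam _ _ ⟨k, hχ⟩
    (fun t => not_trivAt hQ hQN hOO' (hqT t) (fun j => hQT j t) (hτT t) χ) hz)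

end Chi

end Fermat.Agent.H21M
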