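import Fermat.Agent.H21Tens2
/-!
# S25-A4: the Picard group of a scheme
`SPic X` : isomorphism classes of invertible modules, a commutative group;
`SPic.map f : SPic Y →* SPic X`.
-/
set_option autoImplicit false
universe u v
open CategoryTheory AlgebraicGeometry CategoryTheory.Limits TopologicalSpace Opposite
open Fermat.Agent.H25

noncomputable section

namespace Fermat.Agent.H21T

variable {X Y Z : Scheme.{u}}

lemma isInvertible_uMod (X : Scheme.{u}) : Scheme.Modules.IsInvertible (uMod X) := by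
  rw [isInvertible_iff]
  exact fun x ↦ ⟨⊤, trivial, uSec 1, isGen_one _⟩

/-- invertible modules -/
def InvMod (X : Scheme.{u}) := {M : X.Modules // Scheme.Modules.IsInvertible M}

instance invModSetoid (X : Scheme.{u}) : Setoid (InvMod X) where
  r M N := Nonempty (M.1 ≅ N.1)
  iseqv := ⟨fun _ ↦ ⟨Iso.refl _⟩, fun ⟨e⟩ ↦ ⟨e.symm⟩, fun ⟨e⟩ ⟨e'⟩ ↦ ⟨e.trans e'⟩⟩

/-- the Picard group of a scheme -/
def SPic (X : Scheme.{u}) := Quotient (invModSetoid X)

namespace SPic

/-- the class of an invertible module -/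
def mk (M : X.Modules) (hM : Scheme.Modules.IsInvertible M) : SPic X :=
  Quotient.mk (invModSetoid X) ⟨M, hM⟩

lemma mk_eq_mk {M N : X.Modules} {hM : Scheme.Modules.IsInvertible M}
    {hN : Scheme.Modules.IsInvertible N} : mk M hM = mk N hN ↔ Nonempty (M ≅ N) :=
  Quotient.eq (r := invModSetoid X)

lemma ind {P : SPic X → Prop} (h : ∀ M hM, P (mk M hM)) (a : SPic X) : P a :=
  Quotient.ind (motive := P) (fun M ↦ h M.1 M.2) a

instance : Mul (SPic X) where
  mul := Quotient.map₂ (fun L N ↦ ⟨(exists_tens L.2 N.2).choose, (exists_tens L.2 N.2).choose_spec.1⟩)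
    (by
      intro L L' h N N' h'
      exact Tens.nonempty_iso (exists_tens L.2 N.2).choose_spec.2.some L.2 N.2
        (exists_tens L'.2 N'.2).choose_spec.2.some h h')

instance : One (SPic X) := ⟨mk (uMod X) (isInvertible_uMod X)⟩

lemma one_def : (1 : SPic X) = mk (uMod X) (isInvertible_uMod X) := rfl

lemma mk_mul_mk {L N T : X.Modules} (t : Tens L N T) {hL : Scheme.Modules.IsInvertible L}
    {hN : Scheme.Modules.IsInvertible N} {hT : Scheme.Modules.IsInvertible T} :
    mk L hL * mk N hN = mk T hT := by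
  change mk (exists_tens hL hN).choose (exists_tens hL hN).choose_spec.1 = _
  rw [mk_eq_mk]
  exact Tens.nonempty_iso (exists_tens hL hN).choose_spec.2.some hL hN t ⟨Iso.refl _⟩ ⟨Iso.refl _⟩

/-- the inverse class -/
instance : Inv (SPic X) where
  inv := Quotient.map (fun L ↦ ⟨(exists_inverse L.2).choose, (exists_inverse L.2).choose_spec.1⟩)
    (by
      intro L L' h
      have key : ∀ (L L' : InvMod X) (N N' : X.Modules) (hN : Scheme.Modules.IsInvertible N)
        (hN' : Scheme.Modules.IsInvertible N') (t : Tens L.1 N (uMod X)) (t' : Tens L'.1 N' (uMod X))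
        (h : Nonempty (L.1 ≅ L'.1)), Nonempty (N ≅ N') := by
        intro L L' N N' hN hN' t t' ⟨e⟩
        -- `N ≅ O ⊗ N ≅ (N' ⊗ L') ⊗ N ≅ N' ⊗ (L' ⊗ N) ≅ N' ⊗ O = N'`
        obtain ⟨φ, -⟩ := Tens.exists_assoc hN' L'.2 hN t'.swap (Tens.unit N).swap
          (t.congr e.symm (Iso.refl N) (Iso.refl _)) (Tens.unit N')
        exact ⟨φ⟩
      exact key L L' _ _ (exists_inverse L.2).choose_spec.1 (exists_inverse L'.2).choose_spec.1
        (exists_inverse L.2).choose_spec.2.some (exists_inverse L'.2).choose_spec.2.some h)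

instance : CommGroup (SPic X) where
  mul_assoc a b c := by
    induction a using ind with | _ L hL
    induction b using ind with | _ N hN
    induction c using ind with | _ P hP
    obtain ⟨LN, hLN, ⟨t₁⟩⟩ := exists_tens hL hN
    obtain ⟨A, hA, ⟨t₂⟩⟩ := exists_tens hLN hP
    obtain ⟨NP, hNP, ⟨t₃⟩⟩ := exists_tens hN hP
    obtain ⟨B, hB, ⟨t₄⟩⟩ := exists_tens hL hNP
    rw [mk_mul_mk t₁ (hT := hLN), mk_mul_mk t₂ (hT := hA), mk_mul_mk t₃ (hT := hNP),
      mk_mul_mk t₄ (hT := hB), mk_eq_mk]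
    obtain ⟨φ, -⟩ := Tens.exists_assoc hL hN hP t₁ t₂ t₃ t₄
    exact ⟨φ⟩
  one_mul a := by
    induction a using ind with | _ L hL
    exact mk_mul_mk (Tens.unit L).swap
  mul_one a := by
    induction a using ind with | _ L hL
    exact mk_mul_mk (Tens.unit L)
  inv_mul_cancel a := by
    induction a using ind with | _ L hL
    exact mk_mul_mk (exists_inverse hL).choose_spec.2.some.swap
  mul_comm a b := by
    induction a using ind with | _ L hL
    induction b using ind with | _ N hN
    obtain ⟨T, hT, ⟨t⟩⟩ := exists_tens hL hN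
    rw [mk_mul_mk t (hT := hT), mk_mul_mk t.swap (hT := hT)]

lemma mk_eq_one_iff {M : X.Modules} {hM : Scheme.Modules.IsInvertible M} :
    mk M hM = 1 ↔ Nonempty (M ≅ uMod X) := mk_eq_mk

lemma mk_eq_one_iff_exists {M : X.Modules} {hM : Scheme.Modules.IsInvertible M} :
    mk M hM = 1 ↔ ∃ s : Γ(M, ⊤), IsGen M s := mk_eq_one_iff.trans nonempty_iso_unit_iff

lemma inv_mk_eq {L N : X.Modules} (t : Tens L N (uMod X)) {hL : Scheme.Modules.IsInvertible L}
    {hN : Scheme.Modules.IsInvertible N} : (mk L hL)⁻¹ = mk N hN :=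
  inv_eq_of_mul_eq_one_right (mk_mul_mk t)

/-- pullback of classes -/
def map (f : X ⟶ Y) : SPic Y →* SPic X where
  toFun := Quotient.map (fun L ↦ ⟨(Scheme.Modules.pullback f).obj L.1, isInvertible_pullback f L.2⟩)
    (fun _ _ ⟨e⟩ ↦ ⟨(Scheme.Modules.pullback f).mapIso e⟩)
  map_one' := by
    change mk ((Scheme.Modules.pullback f).obj (uMod Y)) _ = _
    rw [mk_eq_one_iff_exists]
    exact ⟨_, (isGen_one ⊤).pb f (uMod Y)⟩
  map_mul' a b := by
    induction a using ind with | _ L hL
    induction b using ind with | _ N hN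
    obtain ⟨T, hT, ⟨t⟩⟩ := exists_tens hL hN
    rw [mk_mul_mk t (hT := hT)]
    obtain ⟨t', -⟩ := t.exists_pullback f hL hN
    exact (mk_mul_mk t').symm

@[simp] lemma map_mk (f : X ⟶ Y) (M : Y.Modules) (hM : Scheme.Modules.IsInvertible M) :
    map f (mk M hM) = mk ((Scheme.Modules.pullback f).obj M) (isInvertible_pullback f hM) := rfl

lemma map_comp (f : X ⟶ Y) (g : Y ⟶ Z) : map (f ≫ g) = (map f).comp (map g) := by
  ext a
  induction a using ind with | _ L hL
  exact mk_eq_mk.mpr ⟨((Scheme.Modules.pullbackComp f g).app L).symm⟩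

lemma map_comp_apply (f : X ⟶ Y) (g : Y ⟶ Z) (a : SPic Z) : map (f ≫ g) a = map f (map g a) := by
  rw [map_comp]; rfl

lemma map_id : map (𝟙 X) = MonoidHom.id (SPic X) := by
  ext a
  induction a using ind with | _ L hL
  exact mk_eq_mk.mpr ⟨(Scheme.Modules.pullbackId X).app L⟩

end SPic

end Fermat.Agent.H21T
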