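import Fermat.Agent.H25Coc
/-!
# S25-A4: bilinear pairings and tensor products of invertible modules, part 1
* `BiHom L N T` : bilinear pairings of sheaves of modules
* `exists_biHom` : construction from local generators
* `BiHom.ext_gen`
* `Tens L N T` : `T` is the tensor product of the invertible modules `L` and `N`
* `exists_tens`, `Tens.lift`, `Tens.exists_iso`, `Tens.exists_assoc`, `Tens.swap`, `Tens.unit`,
  `exists_inverse`, `Tens.exists_pullback`
-/
set_option autoImplicit false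
universe u v
open CategoryTheory AlgebraicGeometry CategoryTheory.Limits TopologicalSpace Opposite
open Fermat.Agent.H25

noncomputable section

namespace Fermat.Agent.H21T

variable {X Y Z : Scheme.{u}}

/-- bilinear pairings of sheaves of modules -/
@[ext] structure BiHom (L N T : X.Modules) where
  m : ∀ W : X.Opens, Γ(L, W) →+ Γ(N, W) →+ Γ(T, W)
  smul_left : ∀ (W : X.Opens) (a : Γ(X, W)) (x : Γ(L, W)) (y : Γ(N, W)),
    m W (a • x) y = a • m W x y
  smul_right : ∀ (W : X.Opens) (a : Γ(X, W)) (x : Γ(L, W)) (y : Γ(N, W)),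
    m W x (a • y) = a • m W x y
  res : ∀ (U V : X.Opens) (h : V ≤ U) (x : Γ(L, U)) (y : Γ(N, U)),
    m V (res L h x) (res N h y) = res T h (m U x y)

namespace BiHom

variable {L N T P Q : X.Modules}

lemma ext' {b b' : BiHom L N T} (h : ∀ (U : X.Opens) (x : Γ(L, U)) (y : Γ(N, U)),
    b.m U x y = b'.m U x y) : b = b' := by
  ext U x y
  exact h U x y

/-- exchange the factors -/
def swap (b : BiHom L N T) : BiHom N L T where
  m W := (b.m W).flip
  smul_left W a x y := b.smul_right W a y x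
  smul_right W a x y := b.smul_left W a y x
  res U V h x y := b.res U V h y x

@[simp] lemma swap_m (b : BiHom L N T) (W : X.Opens) (x : Γ(L, W)) (y : Γ(N, W)) :
    b.swap.m W y x = b.m W x y := rfl

/-- postcomposition -/
def comp (b : BiHom L N T) (φ : T ⟶ P) : BiHom L N P where
  m W := AddMonoidHom.mk' (fun x ↦ (φ.app W).hom.comp (b.m W x)) (fun x y ↦ by
    ext z
    simp)
  smul_left W a x y := by
    change φ.app W (b.m W (a • x) y) = a • φ.app W (b.m W x y)
    rw [b.smul_left, app_smul']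
  smul_right W a x y := by
    change φ.app W (b.m W x (a • y)) = a • φ.app W (b.m W x y)
    rw [b.smul_right, app_smul']
  res U V h x y := by
    change φ.app V (b.m V (H25.res L h x) (H25.res N h y)) = H25.res P h (φ.app U (b.m U x y))
    rw [b.res, app_res]

@[simp] lemma comp_m (b : BiHom L N T) (φ : T ⟶ P) (W : X.Opens) (x : Γ(L, W)) (y : Γ(N, W)) :
    (b.comp φ).m W x y = φ.app W (b.m W x y) := rfl

/-- precomposition -/
def precomp (b : BiHom L N T) (φ : P ⟶ L) (ψ : Q ⟶ N) : BiHom P Q T where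
  m W := AddMonoidHom.mk' (fun x ↦ (b.m W (φ.app W x)).comp (ψ.app W).hom) (fun x y ↦ by
    ext z
    simp)
  smul_left W a x y := by
    change b.m W (φ.app W (a • x)) (ψ.app W y) = a • b.m W (φ.app W x) (ψ.app W y)
    rw [app_smul', b.smul_left]
  smul_right W a x y := by
    change b.m W (φ.app W x) (ψ.app W (a • y)) = a • b.m W (φ.app W x) (ψ.app W y)
    rw [app_smul', b.smul_right]
  res U V h x y := by
    change b.m V (φ.app V (H25.res P h x)) (ψ.app V (H25.res Q h y)) =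
      H25.res T h (b.m U (φ.app U x) (ψ.app U y))
    rw [app_res, app_res, b.res]

@[simp] lemma precomp_m (b : BiHom L N T) (φ : P ⟶ L) (ψ : Q ⟶ N) (W : X.Opens)
    (x : Γ(P, W)) (y : Γ(Q, W)) :
    (b.precomp φ ψ).m W x y = b.m W (φ.app W x) (ψ.app W y) := rfl

lemma smul_smul (b : BiHom L N T) (W : X.Opens) (a a' : Γ(X, W)) (x : Γ(L, W)) (y : Γ(N, W)) :
    b.m W (a • x) (a' • y) = (a * a') • b.m W x y := by
  rw [b.smul_left, b.smul_right, mul_smul]

/-- a pairing is determined by its values on generators -/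
lemma ext_gen {b b' : BiHom L N T} {ι : Type*} (W : ι → X.Opens) (hc : ⊤ ≤ ⨆ i, W i)
    (s : ∀ i, Γ(L, W i)) (hs : ∀ i, IsGen L (s i)) (s' : ∀ i, Γ(N, W i))
    (hs' : ∀ i, IsGen N (s' i)) (h : ∀ i, b.m (W i) (s i) (s' i) = b'.m (W i) (s i) (s' i)) :
    b = b' := by
  refine ext' fun U x y ↦ ?_
  refine sec_ext (fun i ↦ U ⊓ W i) (fun i ↦ inf_le_left) (inf_cover (le_top.trans hc)) ?_
  intro i
  obtain ⟨f, hf⟩ := (hs i).surj' (inf_le_right : U ⊓ W i ≤ W i) (H25.res L inf_le_left x)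
  obtain ⟨f', hf'⟩ := (hs' i).surj' (inf_le_right : U ⊓ W i ≤ W i) (H25.res N inf_le_left y)
  rw [← b.res, ← b'.res, hf, hf', b.smul_smul, b'.smul_smul, b.res, b'.res, h]

end BiHom

/-- construction of a pairing from local generators -/
theorem exists_biHom {L N T : X.Modules} {ι : Type*} (U : ι → X.Opens) (hU : ⨆ i, U i = ⊤)
    (s : ∀ i, Γ(L, U i)) (hs : ∀ i, IsGen L (s i))
    (s' : ∀ i, Γ(N, U i)) (hs' : ∀ i, IsGen N (s' i)) (t : ∀ i, Γ(T, U i))
    (h : ∀ i j (W : X.Opens) (hi : W ≤ U i) (hj : W ≤ U j) (f f' : Γ(X, W)),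
      res L hi (s i) = f • res L hj (s j) → res N hi (s' i) = f' • res N hj (s' j) →
        res T hi (t i) = (f * f') • res T hj (t j)) :
    ∃ b : BiHom L N T, ∀ i, b.m (U i) (s i) (s' i) = t i := by
  have hc : ∀ V : X.Opens, V ≤ ⨆ i, U i := fun V ↦ by rw [hU]; exact le_top
  have key : ∀ (V : X.Opens) (x : Γ(L, V)) (y : Γ(N, V)), ∃ z : Γ(T, V), ∀ i (W : X.Opens)
      (hV : W ≤ V) (hi : W ≤ U i) (f f' : Γ(X, W)), res L hV x = f • res L hi (s i) →
        res N hV y = f' • res N hi (s' i) → res T hV z = (f * f') • res T hi (t i) := by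
    intro V x y
    have h1 : ∀ i, ∃ f : Γ(X, V ⊓ U i), res L (inf_le_left : V ⊓ U i ≤ V) x =
        f • res L (inf_le_right : V ⊓ U i ≤ U i) (s i) := fun i ↦ (hs i).surj' _ _
    have h1' : ∀ i, ∃ f : Γ(X, V ⊓ U i), res N (inf_le_left : V ⊓ U i ≤ V) y =
        f • res N (inf_le_right : V ⊓ U i ≤ U i) (s' i) := fun i ↦ (hs' i).surj' _ _
    choose f hf using h1
    choose f' hf' using h1'
    obtain ⟨z, hz⟩ := sec_glue (M := T) (U := V) (fun i ↦ V ⊓ U i) (fun i ↦ inf_le_left)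
      (inf_cover (hc V)) (fun i ↦ (f i * f' i) • res T (inf_le_right : V ⊓ U i ≤ U i) (t i)) (by
        intro i j W hi hj
        simp only [res_smul, res_res, resO_mul]
        obtain ⟨g, hg⟩ := (hs j).surj' (hj.trans inf_le_right) (res L (hi.trans inf_le_right) (s i))
        obtain ⟨g', hg'⟩ := (hs' j).surj' (hj.trans inf_le_right)
          (res N (hi.trans inf_le_right) (s' i))
        rw [h i j W _ _ g g' hg hg', ← mul_smul]
        have e1 := congrArg (res L hi) (hf i)
        have e2 := congrArg (res L hj) (hf j)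
        have e1' := congrArg (res N hi) (hf' i)
        have e2' := congrArg (res N hj) (hf' j)
        simp only [res_smul, res_res] at e1 e2 e1' e2'
        have e3 : resO hi (f i) * g = resO hj (f j) := by
          refine ((hs j).res (hj.trans inf_le_right : W ≤ U j)).inj ?_
          rw [mul_smul, ← hg, ← e1, ← e2]
        have e3' : resO hi (f' i) * g' = resO hj (f' j) := by
          refine ((hs' j).res (hj.trans inf_le_right : W ≤ U j)).inj ?_
          rw [mul_smul, ← hg', ← e1', ← e2']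
        rw [← e3, ← e3']
        congr 1
        ring)
    refine ⟨z, ?_⟩
    intro i W hV hi g g' hg hg'
    have hW : W ≤ V ⊓ U i := le_inf hV hi
    have e1 := congrArg (res L hW) (hf i)
    have e1' := congrArg (res N hW) (hf' i)
    have e2 := congrArg (res T hW) (hz i)
    simp only [res_smul, res_res, resO_mul] at e1 e2 e1'
    rw [e2]
    have e3 : resO hW (f i) = g := ((hs i).res hi).inj (by rw [← e1, hg])
    have e3' : resO hW (f' i) = g' := ((hs' i).res hi).inj (by rw [← e1', hg'])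
    rw [e3, e3']
  choose F hF using key
  have huniq : ∀ (V : X.Opens) (x : Γ(L, V)) (y : Γ(N, V)) (z : Γ(T, V)),
      (∀ i (f f' : Γ(X, V ⊓ U i)), res L (inf_le_left : V ⊓ U i ≤ V) x =
        f • res L (inf_le_right : V ⊓ U i ≤ U i) (s i) →
        res N (inf_le_left : V ⊓ U i ≤ V) y =
          f' • res N (inf_le_right : V ⊓ U i ≤ U i) (s' i) →
        res T (inf_le_left : V ⊓ U i ≤ V) z =
          (f * f') • res T (inf_le_right : V ⊓ U i ≤ U i) (t i)) →
      F V x y = z := by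
    intro V x y z hy
    refine sec_ext (fun i ↦ V ⊓ U i) (fun i ↦ inf_le_left) (inf_cover (hc V)) ?_
    intro i
    obtain ⟨f, hf⟩ := (hs i).surj' (inf_le_right : V ⊓ U i ≤ U i) (res L inf_le_left x)
    obtain ⟨f', hf'⟩ := (hs' i).surj' (inf_le_right : V ⊓ U i ≤ U i) (res N inf_le_left y)
    rw [hF V x y i _ _ _ f f' hf hf', hy i f f' hf hf']
  have hadd : ∀ (V : X.Opens) (x x' : Γ(L, V)) (y : Γ(N, V)),
      F V (x + x') y = F V x y + F V x' y := by
    intro V x x' y
    refine huniq _ _ _ _ fun i f f' hf hf' ↦ ?_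
    obtain ⟨g, hg⟩ := (hs i).surj' (inf_le_right : V ⊓ U i ≤ U i) (res L inf_le_left x)
    obtain ⟨g', hg'⟩ := (hs i).surj' (inf_le_right : V ⊓ U i ≤ U i) (res L inf_le_left x')
    have e : f = g + g' := ((hs i).res inf_le_right).inj (by
      rw [← hf, res_add, hg, hg', add_smul])
    rw [res_add, hF V x y i _ _ _ g f' hg hf', hF V x' y i _ _ _ g' f' hg' hf', e, add_mul,
      add_smul]
  have hadd' : ∀ (V : X.Opens) (x : Γ(L, V)) (y y' : Γ(N, V)),
      F V x (y + y') = F V x y + F V x y' := by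
    intro V x y y'
    refine huniq _ _ _ _ fun i f f' hf hf' ↦ ?_
    obtain ⟨g, hg⟩ := (hs' i).surj' (inf_le_right : V ⊓ U i ≤ U i) (res N inf_le_left y)
    obtain ⟨g', hg'⟩ := (hs' i).surj' (inf_le_right : V ⊓ U i ≤ U i) (res N inf_le_left y')
    have e : f' = g + g' := ((hs' i).res inf_le_right).inj (by
      rw [← hf', res_add, hg, hg', add_smul])
    rw [res_add, hF V x y i _ _ _ f g hf hg, hF V x y' i _ _ _ f g' hf hg', e, mul_add,
      add_smul]
  refine ⟨⟨fun V ↦ AddMonoidHom.mk' (fun x ↦ AddMonoidHom.mk' (F V x) (hadd' V x)) ?_,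
    ?_, ?_, ?_⟩, ?_⟩
  · intro x x'
    ext y
    exact hadd V x x' y
  · intro V a x y
    refine huniq _ _ _ _ fun i f f' hf hf' ↦ ?_
    obtain ⟨g, hg⟩ := (hs i).surj' (inf_le_right : V ⊓ U i ≤ U i) (res L inf_le_left x)
    have e : f = resO inf_le_left a * g := ((hs i).res inf_le_right).inj (by
      rw [← hf, res_smul, hg, mul_smul])
    rw [res_smul]
    change resO _ a • res T _ (F V x y) = _
    rw [hF V x y i _ _ _ g f' hg hf', e]
    simp only [mul_smul]
  · intro V a x y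
    refine huniq _ _ _ _ fun i f f' hf hf' ↦ ?_
    obtain ⟨g, hg⟩ := (hs' i).surj' (inf_le_right : V ⊓ U i ≤ U i) (res N inf_le_left y)
    have e : f' = resO inf_le_left a * g := ((hs' i).res inf_le_right).inj (by
      rw [← hf', res_smul, hg, mul_smul])
    rw [res_smul]
    change resO _ a • res T _ (F V x y) = _
    rw [hF V x y i _ _ _ f g hf hg, e, mul_left_comm]
    simp only [mul_smul]
  · intro V W hWV x y
    refine huniq _ _ _ _ fun i f f' hf hf' ↦ ?_
    change res T _ (res T hWV (F V x y)) = _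
    rw [res_res]
    rw [res_res] at hf hf'
    exact hF V x y i _ _ _ f f' hf hf'
  · intro i
    have := hF (U i) (s i) (s' i) i (U i) le_rfl le_rfl 1 1 (by simp) (by simp)
    simp only [res_self, one_smul, mul_one] at this
    exact this

/-! ## common covers with generators -/

/-- two invertible modules have generators on a common open cover -/
lemma exists_cover_two {L N : X.Modules} (hL : Scheme.Modules.IsInvertible L)
    (hN : Scheme.Modules.IsInvertible N) :
    ∃ (U : X → X.Opens) (s : ∀ i, Γ(L, U i)) (s' : ∀ i, Γ(N, U i)), (⨆ i, U i = ⊤) ∧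
      (∀ i, IsGen L (s i)) ∧ ∀ i, IsGen N (s' i) := by
  have h1 : ∀ x : X, ∃ (V : X.Opens) (_ : x ∈ V) (s : Γ(L, V)) (s' : Γ(N, V)),
      IsGen L s ∧ IsGen N s' := by
    intro x
    obtain ⟨V, hxV, s, hs⟩ := (isInvertible_iff L).mp hL x
    obtain ⟨W, hWV, hxW, s', hs'⟩ := exists_isGen_of_mem hN hxV
    exact ⟨W, hxW, res L hWV s, s', hs.res _, hs'⟩
  choose V hx s s' hs hs' using h1
  exact ⟨V, s, s', eq_top_iff.mpr fun x _ ↦ Opens.mem_iSup.mpr ⟨x, hx x⟩, hs, hs'⟩

lemma exists_cover_three {L N P : X.Modules} (hL : Scheme.Modules.IsInvertible L)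
    (hN : Scheme.Modules.IsInvertible N) (hP : Scheme.Modules.IsInvertible P) :
    ∃ (U : X → X.Opens) (s : ∀ i, Γ(L, U i)) (s' : ∀ i, Γ(N, U i)) (s'' : ∀ i, Γ(P, U i)),
      (⨆ i, U i = ⊤) ∧ (∀ i, IsGen L (s i)) ∧ (∀ i, IsGen N (s' i)) ∧ ∀ i, IsGen P (s'' i) := by
  have h1 : ∀ x : X, ∃ (V : X.Opens) (_ : x ∈ V) (s : Γ(L, V)) (s' : Γ(N, V)) (s'' : Γ(P, V)),
      IsGen L s ∧ IsGen N s' ∧ IsGen P s'' := by
    intro x
    obtain ⟨V, hxV, s, hs⟩ := (isInvertible_iff L).mp hL x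
    obtain ⟨W, hWV, hxW, s', hs'⟩ := exists_isGen_of_mem hN hxV
    obtain ⟨W', hWW, hxW', s'', hs''⟩ := exists_isGen_of_mem hP hxW
    exact ⟨W', hxW', res L (hWW.trans hWV) s, res N hWW s', s'', hs.res _, hs'.res _, hs''⟩
  choose V hx s s' s'' hs hs' hs'' using h1
  exact ⟨V, s, s', s'', eq_top_iff.mpr fun x _ ↦ Opens.mem_iSup.mpr ⟨x, hx x⟩, hs, hs', hs''⟩

/-! ## tensor products -/

/-- `T` is the tensor product of `L` and `N` (for invertible modules) -/
structure Tens (L N T : X.Modules) extends BiHom L N T where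
  gen : ∀ (U : X.Opens) (s : Γ(L, U)) (s' : Γ(N, U)), IsGen L s → IsGen N s' →
    IsGen T (m U s s')

namespace Tens

variable {L N T P Q : X.Modules}

lemma of_cover (b : BiHom L N T) {ι : Type*} (U : ι → X.Opens) (hU : ⨆ i, U i = ⊤)
    (s : ∀ i, Γ(L, U i)) (hs : ∀ i, IsGen L (s i))
    (s' : ∀ i, Γ(N, U i)) (hs' : ∀ i, IsGen N (s' i))
    (h : ∀ i, IsGen T (b.m (U i) (s i) (s' i))) (V : X.Opens) (x : Γ(L, V)) (y : Γ(N, V))
    (hx : IsGen L x) (hy : IsGen N y) : IsGen T (b.m V x y) := by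
  have hc : ∀ V : X.Opens, V ≤ ⨆ i, U i := fun V ↦ by rw [hU]; exact le_top
  refine IsGen.of_cover (fun i ↦ V ⊓ U i) (fun i ↦ inf_le_left) (inf_cover (hc V)) fun i ↦ ?_
  obtain ⟨g, hg⟩ := ((hs i).res (inf_le_right : V ⊓ U i ≤ U i)).exists_unit
    (hx.res (inf_le_left : V ⊓ U i ≤ V))
  obtain ⟨g', hg'⟩ := ((hs' i).res (inf_le_right : V ⊓ U i ≤ U i)).exists_unit
    (hy.res (inf_le_left : V ⊓ U i ≤ V))
  rw [← b.res, hg, hg', b.smul_smul, b.res]
  exact ((h i).res _).unit_smul (g.isUnit.mul g'.isUnit)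

/-- a pairing which maps some generators to generators is a tensor product -/
def ofCover (b : BiHom L N T) {ι : Type*} (U : ι → X.Opens) (hU : ⨆ i, U i = ⊤)
    (s : ∀ i, Γ(L, U i)) (hs : ∀ i, IsGen L (s i))
    (s' : ∀ i, Γ(N, U i)) (hs' : ∀ i, IsGen N (s' i))
    (h : ∀ i, IsGen T (b.m (U i) (s i) (s' i))) : Tens L N T :=
  { b with gen := of_cover b U hU s hs s' hs' h }

lemma isInvertible (t : Tens L N T) (hL : Scheme.Modules.IsInvertible L)
    (hN : Scheme.Modules.IsInvertible N) : Scheme.Modules.IsInvertible T := by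
  rw [isInvertible_iff]
  intro x
  obtain ⟨V, hxV, s, hs⟩ := (isInvertible_iff L).mp hL x
  obtain ⟨W, hWV, hxW, s', hs'⟩ := exists_isGen_of_mem hN hxV
  exact ⟨W, hxW, t.m W (res L hWV s) s', t.gen _ _ _ (hs.res _) hs'⟩

/-- commutativity -/
def swap (t : Tens L N T) : Tens N L T where
  toBiHom := t.toBiHom.swap
  gen U s s' hs hs' := t.gen U s' s hs' hs

@[simp] lemma swap_m (t : Tens L N T) (W : X.Opens) (x : Γ(L, W)) (y : Γ(N, W)) :
    t.swap.m W y x = t.m W x y := rfl

/-- transport along isomorphisms -/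
def congr (t : Tens L N T) (e : P ≅ L) (e' : Q ≅ N) {R : X.Modules} (e'' : T ≅ R) :
    Tens P Q R where
  toBiHom := (t.toBiHom.precomp e.hom e'.hom).comp e''.hom
  gen U _ _ hs hs' := (t.gen U _ _ (hs.map_iso e.hom) (hs'.map_iso e'.hom)).map_iso e''.hom

@[simp] lemma congr_m (t : Tens L N T) (e : P ≅ L) (e' : Q ≅ N) {R : X.Modules} (e'' : T ≅ R)
    (W : X.Opens) (x : Γ(P, W)) (y : Γ(Q, W)) :
    (t.congr e e' e'').m W x y = e''.hom.app W (t.m W (e.hom.app W x) (e'.hom.app W y)) := rfl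

/-- universal property -/
theorem exists_lift (t : Tens L N T) (hL : Scheme.Modules.IsInvertible L)
    (hN : Scheme.Modules.IsInvertible N) (b : BiHom L N P) :
    ∃! φ : T ⟶ P, ∀ (W : X.Opens) (x : Γ(L, W)) (y : Γ(N, W)),
      φ.app W (t.m W x y) = b.m W x y := by
  obtain ⟨U, s, s', hU, hs, hs'⟩ := exists_cover_two hL hN
  obtain ⟨φ, hφ, hφ'⟩ := exists_glueHom (M := T) (N := P) U hU (fun i ↦ t.m (U i) (s i) (s' i))
    (fun i ↦ t.gen _ _ _ (hs i) (hs' i)) (fun i ↦ b.m (U i) (s i) (s' i)) (by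
      intro i j W hi hj f hf
      obtain ⟨g, hg⟩ := (hs j).surj' hj (res L hi (s i))
      obtain ⟨g', hg'⟩ := (hs' j).surj' hj (res N hi (s' i))
      have e : f = g * g' := ((t.gen _ _ _ (hs j) (hs' j)).res hj).inj (by
        rw [← hf, ← t.res, hg, hg', t.smul_smul, t.res])
      rw [← b.res, hg, hg', b.smul_smul, b.res, e])
  have key : (t.toBiHom.comp φ) = b := by
    refine BiHom.ext_gen U (by rw [hU]) s hs s' hs' fun i ↦ ?_
    rw [BiHom.comp_m]
    exact hφ i
  refine ⟨φ, fun W x y ↦ ?_, fun ψ hψ ↦ hφ' ψ fun i ↦ hψ _ _ _⟩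
  rw [← key]
  rfl

/-- uniqueness and functoriality in isomorphisms -/
theorem exists_iso (t : Tens L N T) (hL : Scheme.Modules.IsInvertible L)
    (hN : Scheme.Modules.IsInvertible N) {L' N' T' : X.Modules} (t' : Tens L' N' T')
    (e : L ≅ L') (e' : N ≅ N') :
    ∃ φ : T ≅ T', ∀ (W : X.Opens) (x : Γ(L, W)) (y : Γ(N, W)),
      φ.hom.app W (t.m W x y) = t'.m W (e.hom.app W x) (e'.hom.app W y) := by
  obtain ⟨φ, hφ, -⟩ := t.exists_lift hL hN (t'.toBiHom.precomp e.hom e'.hom)
  have : IsIso φ := by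
    refine isIso_of_isGen φ fun x ↦ ?_
    obtain ⟨V, hxV, s, hs⟩ := (isInvertible_iff L).mp hL x
    obtain ⟨W, hWV, hxW, s', hs'⟩ := exists_isGen_of_mem hN hxV
    refine ⟨W, hxW, t.m W (H25.res L hWV s) s', t.gen _ _ _ (hs.res _) hs', ?_⟩
    rw [hφ]
    exact t'.gen _ _ _ ((hs.res _).map_iso e.hom) (hs'.map_iso e'.hom)
  exact ⟨asIso φ, fun W x y ↦ hφ W x y⟩

theorem nonempty_iso (t : Tens L N T) (hL : Scheme.Modules.IsInvertible L)
    (hN : Scheme.Modules.IsInvertible N) {L' N' T' : X.Modules} (t' : Tens L' N' T')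
    (e : Nonempty (L ≅ L')) (e' : Nonempty (N ≅ N')) : Nonempty (T ≅ T') := by
  obtain ⟨e⟩ := e
  obtain ⟨e'⟩ := e'
  obtain ⟨φ, -⟩ := t.exists_iso hL hN t' e e'
  exact ⟨φ⟩

/-- `L ⊗ O = L` -/
def unit (L : X.Modules) : Tens L (uMod X) L where
  m W := AddMonoidHom.mk' (fun x ↦ AddMonoidHom.mk' (fun a ↦ uFun a • x) (fun a b ↦ by
    rw [uFun_add, add_smul])) (fun x y ↦ by ext a; exact smul_add _ _ _)
  smul_left W a x y := by
    change uFun y • a • x = a • uFun y • x
    rw [smul_comm]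
  smul_right W a x y := by
    change uFun (a • y) • x = a • uFun y • x
    rw [uFun_smul, mul_smul]
  res U V h x y := by
    change uFun (H25.res _ h y) • H25.res L h x = H25.res L h (uFun y • x)
    rw [res_smul, uFun_res]
  gen U s s' hs hs' := by
    change IsGen L (uFun s' • s)
    refine hs.unit_smul ?_
    rw [← isGen_uSec_iff]
    exact hs'

@[simp] lemma unit_m (L : X.Modules) (W : X.Opens) (x : Γ(L, W)) (a : Γ(uMod X, W)) :
    (unit L).m W x a = uFun a • x := rfl

/-- associativity -/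
theorem exists_assoc {L N P LN NP A B : X.Modules} (hL : Scheme.Modules.IsInvertible L)
    (hN : Scheme.Modules.IsInvertible N) (hP : Scheme.Modules.IsInvertible P)
    (t₁ : Tens L N LN) (t₂ : Tens LN P A) (t₃ : Tens N P NP) (t₄ : Tens L NP B) :
    ∃ φ : A ≅ B, ∀ (W : X.Opens) (x : Γ(L, W)) (y : Γ(N, W)) (z : Γ(P, W)),
      φ.hom.app W (t₂.m W (t₁.m W x y) z) = t₄.m W x (t₃.m W y z) := by
  obtain ⟨U, s, s', s'', hU, hs, hs', hs''⟩ := exists_cover_three hL hN hP
  obtain ⟨φ, hφ, -⟩ := exists_glueHom (M := A) (N := B) U hU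
    (fun i ↦ t₂.m (U i) (t₁.m (U i) (s i) (s' i)) (s'' i))
    (fun i ↦ t₂.gen _ _ _ (t₁.gen _ _ _ (hs i) (hs' i)) (hs'' i))
    (fun i ↦ t₄.m (U i) (s i) (t₃.m (U i) (s' i) (s'' i))) (by
      intro i j W hi hj f hf
      obtain ⟨g, hg⟩ := (hs j).surj' hj (res L hi (s i))
      obtain ⟨g', hg'⟩ := (hs' j).surj' hj (res N hi (s' i))
      obtain ⟨g'', hg''⟩ := (hs'' j).surj' hj (res P hi (s'' i))
      have e : f = g * g' * g'' :=
        ((t₂.gen _ _ _ (t₁.gen _ _ _ (hs j) (hs' j)) (hs'' j)).res hj).inj (by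
        rw [← hf, ← t₂.res, ← t₁.res, hg, hg', hg'', t₁.smul_smul, t₂.smul_smul, t₁.res, t₂.res])
      rw [← t₄.res, ← t₃.res, hg, hg', hg'', t₃.smul_smul, t₄.smul_smul, t₃.res, t₄.res, e,
        mul_assoc])
  have hc : ∀ V : X.Opens, V ≤ ⨆ i, U i := fun V ↦ by rw [hU]; exact le_top
  have : IsIso φ := isIso_of_isGen_cover φ U (hc _) _
    (fun i ↦ t₂.gen _ _ _ (t₁.gen _ _ _ (hs i) (hs' i)) (hs'' i)) (fun i ↦ by
      rw [hφ]; exact t₄.gen _ _ _ (hs i) (t₃.gen _ _ _ (hs' i) (hs'' i)))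
  refine ⟨asIso φ, fun V x y z ↦ ?_⟩
  rw [asIso_hom]
  refine sec_ext (fun i ↦ V ⊓ U i) (fun i ↦ inf_le_left) (inf_cover (hc V)) fun i ↦ ?_
  obtain ⟨f, hf⟩ := (hs i).surj' (inf_le_right : V ⊓ U i ≤ U i) (H25.res L inf_le_left x)
  obtain ⟨f', hf'⟩ := (hs' i).surj' (inf_le_right : V ⊓ U i ≤ U i) (H25.res N inf_le_left y)
  obtain ⟨f'', hf''⟩ := (hs'' i).surj' (inf_le_right : V ⊓ U i ≤ U i) (H25.res P inf_le_left z)
  rw [← app_res, ← t₂.res, ← t₁.res, ← t₄.res, ← t₃.res, hf, hf', hf'', t₁.smul_smul,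
    t₂.smul_smul, t₃.smul_smul, t₄.smul_smul, app_smul', t₁.res, t₂.res, t₃.res, t₄.res, app_res,
    hφ, mul_assoc]

end Tens

/-- existence of tensor products of invertible modules -/
theorem exists_tens {L N : X.Modules} (hL : Scheme.Modules.IsInvertible L)
    (hN : Scheme.Modules.IsInvertible N) :
    ∃ T : X.Modules, Scheme.Modules.IsInvertible T ∧ Nonempty (Tens L N T) := by
  obtain ⟨U, s, s', hU, hs, hs'⟩ := exists_cover_two hL hN
  have h1 : ∀ i j, ∃ g : (Γ(X, U i ⊓ U j))ˣ, res L inf_le_left (s i) =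
      (g : Γ(X, U i ⊓ U j)) • res L inf_le_right (s j) := fun i j ↦
    ((hs j).res inf_le_right).exists_unit ((hs i).res inf_le_left)
  have h1' : ∀ i j, ∃ g : (Γ(X, U i ⊓ U j))ˣ, res N inf_le_left (s' i) =
      (g : Γ(X, U i ⊓ U j)) • res N inf_le_right (s' j) := fun i j ↦
    ((hs' j).res inf_le_right).exists_unit ((hs' i).res inf_le_left)
  choose g hg using h1
  choose g' hg' using h1'
  have hgr : ∀ i j (W : X.Opens) (hi : W ≤ U i) (hj : W ≤ U j), res L hi (s i) =
      resO (le_inf hi hj) (g i j).1 • res L hj (s j) := by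
    intro i j W hi hj
    have := congrArg (res L (le_inf hi hj)) (hg i j)
    simpa only [res_res, res_smul] using this
  have hgr' : ∀ i j (W : X.Opens) (hi : W ≤ U i) (hj : W ≤ U j), res N hi (s' i) =
      resO (le_inf hi hj) (g' i j).1 • res N hj (s' j) := by
    intro i j W hi hj
    have := congrArg (res N (le_inf hi hj)) (hg' i j)
    simpa only [res_res, res_smul] using this
  obtain ⟨T, t, ht, ht'⟩ := exists_cocycle_module U (fun i j ↦ g i j * g' i j) (by
    intro i j k W hi hj hk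
    simp only [Units.val_mul, resO_mul]
    have e : resO (le_inf hi hj) (g i j).1 * resO (le_inf hj hk) (g j k).1 =
        resO (le_inf hi hk) (g i k).1 := ((hs k).res hk).inj (by
      rw [mul_smul, ← hgr j k W hj hk, ← hgr i j W hi hj, ← hgr i k W hi hk])
    have e' : resO (le_inf hi hj) (g' i j).1 * resO (le_inf hj hk) (g' j k).1 =
        resO (le_inf hi hk) (g' i k).1 := ((hs' k).res hk).inj (by
      rw [mul_smul, ← hgr' j k W hj hk, ← hgr' i j W hi hj, ← hgr' i k W hi hk])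
    rw [← e, ← e']
    ring)
  obtain ⟨b, hb⟩ := exists_biHom U hU s hs s' hs' t (by
    intro i j W hi hj f f' hf hf'
    have := congrArg (res T (le_inf hi hj)) (ht' i j)
    simp only [res_res, res_smul, Units.val_mul, resO_mul] at this
    have e : f = resO (le_inf hi hj) (g i j).1 := ((hs j).res hj).inj (by rw [← hf, hgr i j])
    have e' : f' = resO (le_inf hi hj) (g' i j).1 := ((hs' j).res hj).inj (by rw [← hf', hgr' i j])
    rw [this, e, e'])
  have t' : Tens L N T := Tens.ofCover b U hU s hs s' hs' fun i ↦ by rw [hb]; exact ht i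
  exact ⟨T, t'.isInvertible hL hN, ⟨t'⟩⟩

/-- existence of inverses -/
theorem exists_inverse {L : X.Modules} (hL : Scheme.Modules.IsInvertible L) :
    ∃ N : X.Modules, Scheme.Modules.IsInvertible N ∧ Nonempty (Tens L N (uMod X)) := by
  obtain ⟨U, s, -, hU, hs, -⟩ := exists_cover_two hL hL
  have h1 : ∀ i j, ∃ g : (Γ(X, U i ⊓ U j))ˣ, res L inf_le_left (s i) =
      (g : Γ(X, U i ⊓ U j)) • res L inf_le_right (s j) := fun i j ↦
    ((hs j).res inf_le_right).exists_unit ((hs i).res inf_le_left)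
  choose g hg using h1
  have hgr : ∀ i j (W : X.Opens) (hi : W ≤ U i) (hj : W ≤ U j), res L hi (s i) =
      resO (le_inf hi hj) (g i j).1 • res L hj (s j) := by
    intro i j W hi hj
    have := congrArg (res L (le_inf hi hj)) (hg i j)
    simpa only [res_res, res_smul] using this
  have hmul : ∀ i j (W : X.Opens) (h : W ≤ U i ⊓ U j), resO h (g i j).1 * resO h (g i j)⁻¹.1 = 1 := by
    intro i j W h
    rw [← resO_mul, Units.mul_inv, resO_one]
  obtain ⟨N, t, ht, ht'⟩ := exists_cocycle_module U (fun i j ↦ (g i j)⁻¹) (by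
    intro i j k W hi hj hk
    have e : resO (le_inf hi hj) (g i j).1 * resO (le_inf hj hk) (g j k).1 =
        resO (le_inf hi hk) (g i k).1 := ((hs k).res hk).inj (by
      rw [mul_smul, ← hgr j k W hj hk, ← hgr i j W hi hj, ← hgr i k W hi hk])
    have hu : IsUnit (resO (le_inf hi hk) (g i k).1) := (g i k).isUnit.map (resOHom _)
    refine hu.mul_left_cancel ?_
    rw [hmul, ← e]
    calc _ = (resO (le_inf hi hj) (g i j).1 * resO (le_inf hi hj) (g i j)⁻¹.1) *
        (resO (le_inf hj hk) (g j k).1 * resO (le_inf hj hk) (g j k)⁻¹.1) := by ring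
      _ = 1 := by rw [hmul, hmul, one_mul])
  obtain ⟨b, hb⟩ := exists_biHom (T := uMod X) U hU s hs t ht (fun i ↦ uSec 1) (by
    intro i j W hi hj f f' hf hf'
    have := congrArg (res N (le_inf hi hj)) (ht' i j)
    simp only [res_res, res_smul] at this
    have e : f = resO (le_inf hi hj) (g i j).1 := ((hs j).res hj).inj (by rw [← hf, hgr i j])
    have e' : f' = resO (le_inf hi hj) (g i j)⁻¹.1 := ((ht j).res hj).inj (by rw [← hf', this])
    rw [e, e', hmul, one_smul, res_uSec, res_uSec, resO_one, resO_one])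
  have hN : Scheme.Modules.IsInvertible N := by
    rw [isInvertible_iff]
    intro x
    have : x ∈ ⨆ i, U i := by rw [hU]; trivial
    obtain ⟨i, hi⟩ := Opens.mem_iSup.mp this
    exact ⟨U i, hi, t i, ht i⟩
  exact ⟨N, hN, ⟨Tens.ofCover b U hU s hs t ht fun i ↦ by rw [hb]; exact isGen_one _⟩⟩

end Fermat.Agent.H21T
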