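import Fermat.Agent.H21Tens
import Fermat.Agent.H51Aff
/-!
# S25-A4: tensor products of invertible modules, part 2
* `Tens.exists_pullback` : pullback of tensor products
* `Tens.bijective_affine` : `Γ(T, U) = Γ(L, U) ⊗ Γ(N, U)` for `U` affine
-/
set_option autoImplicit false
universe u v
open CategoryTheory AlgebraicGeometry CategoryTheory.Limits TopologicalSpace Opposite
open Fermat.Agent.H25 Fermat.Agent.H51Inv
open scoped TensorProduct

noncomputable section

namespace Fermat.Agent.H21T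

variable {X Y Z : Scheme.{u}}

lemma isInvertible_pullback (f : X ⟶ Y) {L : Y.Modules} (hL : Scheme.Modules.IsInvertible L) :
    Scheme.Modules.IsInvertible ((Scheme.Modules.pullback f).obj L) := by
  rw [isInvertible_iff] at hL ⊢
  intro x
  obtain ⟨U, hx, s, hs⟩ := hL (f.base x)
  exact ⟨f ⁻¹ᵁ U, hx, pb f L s, hs.pb f L⟩

namespace Tens

variable {L N T P Q : Y.Modules}

/-- pullback of tensor products -/
theorem exists_pullback (f : X ⟶ Y) (t : Tens L N T) (hL : Scheme.Modules.IsInvertible L)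
    (hN : Scheme.Modules.IsInvertible N) :
    ∃ t' : Tens ((Scheme.Modules.pullback f).obj L) ((Scheme.Modules.pullback f).obj N)
        ((Scheme.Modules.pullback f).obj T),
      ∀ (V : Y.Opens) (x : Γ(L, V)) (y : Γ(N, V)),
        t'.m (f ⁻¹ᵁ V) (pb f L x) (pb f N y) = pb f T (t.m V x y) := by
  obtain ⟨U, s, s', hU, hs, hs'⟩ := exists_cover_two hL hN
  have hU' : ⨆ i, f ⁻¹ᵁ U i = ⊤ := by
    rw [← Scheme.Hom.preimage_iSup, hU]; rfl
  have hcU : ∀ V : Y.Opens, V ≤ ⨆ i, U i := fun V ↦ by rw [hU]; exact le_top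
  have h1 : ∀ i j, ∃ g : (Γ(Y, U i ⊓ U j))ˣ, res L inf_le_left (s i) =
      (g : Γ(Y, U i ⊓ U j)) • res L inf_le_right (s j) := fun i j ↦
    ((hs j).res inf_le_right).exists_unit ((hs i).res inf_le_left)
  have h1' : ∀ i j, ∃ g : (Γ(Y, U i ⊓ U j))ˣ, res N inf_le_left (s' i) =
      (g : Γ(Y, U i ⊓ U j)) • res N inf_le_right (s' j) := fun i j ↦
    ((hs' j).res inf_le_right).exists_unit ((hs' i).res inf_le_left)
  choose g hg using h1
  choose g' hg' using h1'
  have hle : ∀ i j (W : X.Opens) (hi : W ≤ f ⁻¹ᵁ U i) (hj : W ≤ f ⁻¹ᵁ U j),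
      W ≤ f ⁻¹ᵁ (U i ⊓ U j) := fun i j W hi hj ↦ by
    rw [Scheme.Hom.preimage_inf]; exact le_inf hi hj
  obtain ⟨b, hb⟩ := exists_biHom (fun i ↦ f ⁻¹ᵁ U i) hU'
    (fun i ↦ pb f L (s i)) (fun i ↦ (hs i).pb f L) (fun i ↦ pb f N (s' i))
    (fun i ↦ (hs' i).pb f N) (fun i ↦ pb f T (t.m (U i) (s i) (s' i))) (by
      intro i j W hi hj a a' ha ha'
      have e1 := congrArg (fun z ↦ res _ (hle i j W hi hj) (pb f L z)) (hg i j)
      have e1' := congrArg (fun z ↦ res _ (hle i j W hi hj) (pb f N z)) (hg' i j)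
      simp only [pb_res, pb_smul, res_smul, res_res] at e1 e1'
      have e2 : a = resO (hle i j W hi hj) (f.app _ (g i j).1) :=
        (((hs j).pb f L).res hj).inj (by rw [← ha, e1])
      have e2' : a' = resO (hle i j W hi hj) (f.app _ (g' i j).1) :=
        (((hs' j).pb f N).res hj).inj (by rw [← ha', e1'])
      have e3 : res T (inf_le_left : U i ⊓ U j ≤ U i) (t.m (U i) (s i) (s' i)) =
          ((g i j).1 * (g' i j).1) • res T inf_le_right (t.m (U j) (s j) (s' j)) := by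
        rw [← t.res, hg, hg', t.smul_smul, t.res]
      have e4 := congrArg (fun z ↦ res _ (hle i j W hi hj) (pb f T z)) e3
      simp only [pb_res, pb_smul, res_smul, res_res, map_mul, resO_mul] at e4
      rw [e4, e2, e2'])
  let t' := Tens.ofCover b (fun i ↦ f ⁻¹ᵁ U i) hU'
    (fun i ↦ pb f L (s i)) (fun i ↦ (hs i).pb f L) (fun i ↦ pb f N (s' i))
    (fun i ↦ (hs' i).pb f N) (fun i ↦ by rw [hb]; exact (t.gen _ _ _ (hs i) (hs' i)).pb f T)
  refine ⟨t', fun V x y ↦ ?_⟩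
  change b.m _ _ _ = _
  refine sec_ext (fun i ↦ f ⁻¹ᵁ (V ⊓ U i)) (fun i ↦ f.preimage_mono inf_le_left) ?_ fun i ↦ ?_
  · rw [← Scheme.Hom.preimage_iSup]
    exact f.preimage_mono (inf_cover (hcU V))
  · obtain ⟨a, ha⟩ := (hs i).surj' (inf_le_right : V ⊓ U i ≤ U i) (res L inf_le_left x)
    obtain ⟨a', ha'⟩ := (hs' i).surj' (inf_le_right : V ⊓ U i ≤ U i) (res N inf_le_left y)
    have e3 : res T (inf_le_left : V ⊓ U i ≤ V) (t.m V x y) =
          (a * a') • res T inf_le_right (t.m (U i) (s i) (s' i)) := by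
      rw [← t.res, ha, ha', t.smul_smul, t.res]
    rw [← b.res, ← pb_res f L (inf_le_left : V ⊓ U i ≤ V), ← pb_res f N (inf_le_left : V ⊓ U i ≤ V),
      ← pb_res f T (inf_le_left : V ⊓ U i ≤ V), ha, ha', e3, pb_smul, pb_smul, pb_smul,
      b.smul_smul, map_mul, pb_res, pb_res, pb_res, b.res, hb]

end Tens

section Affine

variable {L N T : X.Modules} {U : X.Opens}

/-- the linear map `Γ(L, U) ⊗ Γ(N, U) → Γ(T, U)` -/
def BiHom.lin (b : BiHom L N T) (U : X.Opens) :
    Γ(L, U) ⊗[Γ(X, U)] Γ(N, U) →ₗ[Γ(X, U)] Γ(T, U) :=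
  TensorProduct.lift (LinearMap.mk₂ Γ(X, U) (fun x y ↦ b.m U x y)
    (fun x y z ↦ by rw [map_add]; rfl) (fun a x y ↦ b.smul_left U a x y)
    (fun x y z ↦ by rw [map_add]) (fun a x y ↦ b.smul_right U a x y))

@[simp] lemma BiHom.lin_tmul (b : BiHom L N T) (U : X.Opens) (x : Γ(L, U)) (y : Γ(N, U)) :
    b.lin U (x ⊗ₜ y) = b.m U x y := rfl

theorem Tens.bijective_affine (hU : IsAffineOpen U) (t : Tens L N T)
    (hL : Scheme.Modules.IsInvertible L) (hN : Scheme.Modules.IsInvertible N) :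
    Function.Bijective (t.toBiHom.lin U) := by
  have hT := t.isInvertible hL hN
  obtain ⟨ι, _, f, e, he, hfe⟩ := H51Aff.exists_locGen_cover hU hL
  obtain ⟨κ, _, g, e', he', hge⟩ := H51Aff.exists_locGen_cover hU hN
  have hspan : Ideal.span (Set.range fun p : ι × κ ↦ f p.1 * g p.2) = ⊤ := by
    have h1 := hfe.span
    have h2 := hge.span
    have h3 : Ideal.span (Set.range f) * Ideal.span (Set.range g) ≤
        Ideal.span (Set.range fun p : ι × κ ↦ f p.1 * g p.2) := by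
      rw [Ideal.span_mul_span']
      refine Ideal.span_mono ?_
      rintro x hx
      obtain ⟨_, ⟨i, rfl⟩, _, ⟨j, rfl⟩, rfl⟩ := Set.mem_mul.mp hx
      exact ⟨(i, j), rfl⟩
    rw [h1, h2, Ideal.top_mul, top_le_iff] at h3
    exact h3
  have hgenT : LocGen (fun p : ι × κ ↦ f p.1 * g p.2) (fun p ↦ t.m U (e p.1) (e' p.2)) := by
    refine H51Aff.locGen_of_isGen hU hT hspan fun p ↦ ?_
    rw [← t.res]
    have hb : X.basicOpen (f p.1 * g p.2) = X.basicOpen (f p.1) ⊓ X.basicOpen (g p.2) :=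
      X.basicOpen_mul _ _
    have h1 := (he p.1).res (V := X.basicOpen (f p.1 * g p.2)) (by rw [hb]; exact inf_le_left)
    have h2 := (he' p.2).res (V := X.basicOpen (f p.1 * g p.2)) (by rw [hb]; exact inf_le_right)
    rw [res_res] at h1 h2
    exact t.gen _ _ _ h1 h2
  have hgen : LocGen (fun p : ι × κ ↦ f p.1 * g p.2) (fun p ↦ (e p.1) ⊗ₜ[Γ(X, U)] (e' p.2)) := by
    refine ⟨hspan, ?_, ?_⟩
    · intro p x
      induction x with
      | zero => exact ⟨0, 0, by simp⟩
      | add x y hx hy =>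
        obtain ⟨n, a, hn⟩ := hx
        obtain ⟨m, b, hm⟩ := hy
        refine ⟨n + m, (f p.1 * g p.2) ^ m * a + (f p.1 * g p.2) ^ n * b, ?_⟩
        rw [smul_add, add_smul, mul_smul, mul_smul, ← hn, ← hm, ← mul_smul, ← mul_smul, ← pow_add,
          ← pow_add, add_comm m n]
      | tmul x y =>
        obtain ⟨n, a, hn⟩ := hfe.surj p.1 x
        obtain ⟨m, b, hm⟩ := hge.surj p.2 y
        refine ⟨n + m, (f p.1 ^ m * g p.2 ^ n) * (a * b), ?_⟩
        have e1 : (a * b) • (e p.1 ⊗ₜ[Γ(X, U)] e' p.2) = (f p.1 ^ n * g p.2 ^ m) • (x ⊗ₜ y) := by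
          rw [← TensorProduct.smul_tmul_smul, ← hn, ← hm, TensorProduct.smul_tmul_smul]
        rw [mul_smul, e1, ← mul_smul]
        congr 1
        ring
    · intro p a ha
      refine hgenT.inj p a ?_
      have := congrArg (t.toBiHom.lin U) ha
      rw [map_smul, map_zero] at this
      exact this
  exact hgen.bijective (t.toBiHom.lin U) hgenT

end Affine

end Fermat.Agent.H21T
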