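import Mathlib

set_option autoImplicit false
set_option linter.unusedSectionVars false

namespace Fermat.Agent.H21U

section linalg

open Polynomial TensorProduct

theorem geomSum_natDegree {n : ℕ} (hn : n ≠ 0) :
    (∑ i ∈ Finset.range n, (X : ℤ[X]) ^ i).natDegree = n - 1 := by
  have h1 := Polynomial.monic_geom_sum_X (R := ℤ) hn
  have h2 : (∑ i ∈ Finset.range n, (X : ℤ[X]) ^ i) * (X - 1) = X ^ n - 1 := geom_sum_mul _ _
  have h3 := congrArg natDegree h2
  have h4 : (X - 1 : ℤ[X]) = X - C 1 := by simp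
  have h5 : (X ^ n - 1 : ℤ[X]) = X ^ n - C 1 := by simp
  rw [h4, h1.natDegree_mul (monic_X_sub_C 1), natDegree_X_sub_C, h5, natDegree_X_pow_sub_C] at h3
  omega

theorem charpoly_eq {M : Type*} [AddCommGroup M] [Module.Free ℤ M] [Module.Finite ℤ M]
    (T : M →ₗ[ℤ] M) (n : ℕ) (hn : n = Module.finrank ℤ M + 1)
    (hf : ∑ i ∈ Finset.range n, T ^ i = 0) (e : M)
    (he : ∀ a : ℕ → ℤ, ∑ i ∈ Finset.range (n - 1), a i • (T ^ i) e = 0 → ∀ i < n - 1, a i = 0) :
    T.charpoly = ∑ i ∈ Finset.range n, (X : ℤ[X]) ^ i := by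
  set f : ℤ[X] := ∑ i ∈ Finset.range n, (X : ℤ[X]) ^ i with hfdef
  have hn0 : n ≠ 0 := by omega
  have hfm : f.Monic := Polynomial.monic_geom_sum_X hn0
  have hfd : f.natDegree = n - 1 := geomSum_natDegree hn0
  have hcm : T.charpoly.Monic := T.charpoly_monic
  have hcd : T.charpoly.natDegree = n - 1 := by
    rw [LinearMap.charpoly_natDegree]; omega
  set P := T.charpoly - f with hP
  have hPdeg : P.degree < (n - 1 : ℕ) := by
    have := degree_sub_lt_left (p := T.charpoly) (q := f) (by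
      rw [degree_eq_natDegree hcm.ne_zero, degree_eq_natDegree hfm.ne_zero, hcd, hfd]) hcm.ne_zero
      (by rw [hcm.leadingCoeff, hfm.leadingCoeff])
    rwa [degree_eq_natDegree hcm.ne_zero, hcd] at this
  have hPT : aeval T P = 0 := by
    rw [hP, map_sub, LinearMap.aeval_self_charpoly, zero_sub, neg_eq_zero, hfdef, map_sum]
    simpa using hf
  have hcoeff : ∀ i, n - 1 ≤ i → P.coeff i = 0 := fun i hi =>
    coeff_eq_zero_of_degree_lt (lt_of_lt_of_le hPdeg (by exact_mod_cast hi))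
  have h0 : P = 0 := by
    rcases Nat.eq_zero_or_pos (n - 1) with h1 | h1
    · ext i
      simp [hcoeff i (by omega)]
    · have h2 : P.natDegree < n - 1 := by
        by_cases hP0 : P = 0
        · rw [hP0]; simpa using h1
        · exact (natDegree_lt_iff_degree_lt hP0).mpr hPdeg
      have h3 := aeval_eq_sum_range' h2 T
      rw [hPT] at h3
      have h4 : ∑ i ∈ Finset.range (n - 1), P.coeff i • (T ^ i) e = 0 := by
        have := LinearMap.congr_fun h3 e
        simpa using this.symm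
      have h5 := he _ h4
      ext i
      by_cases hi : i < n - 1
      · simpa using h5 i hi
      · simpa using hcoeff i (by omega)
  exact sub_eq_zero.mp h0

theorem exists_smul_of_tmul_eq_zero {M : Type*} [AddCommGroup M] [Module.Free ℤ M] [Module.Finite ℤ M]
    (p : ℕ) (z : M) (hz : (1 : ZMod p) ⊗ₜ[ℤ] z = 0) : ∃ w : M, z = p • w := by
  let b := Module.Free.chooseBasis ℤ M
  have h1 : ∀ i, ((b.repr z i : ℤ) : ZMod p) = 0 := by
    intro i
    have := (b.baseChange (ZMod p)).repr.map_zero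
    rw [← hz] at this
    have h2 := DFunLike.congr_fun this i
    rw [Module.Basis.baseChange_repr_tmul] at h2
    simpa using h2
  have h2 : ∀ i, ∃ c : ℤ, b.repr z i = p * c := fun i => by
    have := (ZMod.intCast_zmod_eq_zero_iff_dvd (b.repr z i) p).mp (h1 i)
    exact this
  choose c hc using h2
  refine ⟨∑ i, c i • b i, ?_⟩
  conv_lhs => rw [← b.sum_repr z]
  rw [Finset.smul_sum]
  refine Finset.sum_congr rfl fun i _ => ?_
  rw [hc i, mul_smul]
  simp

theorem eigen_mod_p {M : Type*} [AddCommGroup M] [Module.Free ℤ M] [Module.Finite ℤ M]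
    (p : ℕ) [Fact p.Prime] (T : M →ₗ[ℤ] M) (n : ℕ) (hn : n = Module.finrank ℤ M + 1) (hpn : ¬ p ∣ n)
    (hf : ∑ i ∈ Finset.range n, T ^ i = 0) (e : M)
    (he : ∀ a : ℕ → ℤ, ∑ i ∈ Finset.range (n - 1), a i • (T ^ i) e = 0 → ∀ i < n - 1, a i = 0)
    (m : ℕ) (u v x y : M) (hu : T u = m • u + p • x) (hv : T v = m • v + p • y)
    (hv0 : ∀ w, v ≠ p • w) : ∃ k : ℕ, ∃ w, u = k • v + p • w := by
  have hchar := charpoly_eq T n hn hf e he
  set Tp := T.baseChange (ZMod p) with hTp
  have hchar2 : Tp.charpoly = ∑ i ∈ Finset.range n, (X : (ZMod p)[X]) ^ i := by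
    rw [hTp, LinearMap.charpoly_baseChange, hchar, Polynomial.map_sum]
    simp
  have hsep : (Tp.charpoly).Separable := by
    have h1 : (∑ i ∈ Finset.range n, (X : (ZMod p)[X]) ^ i) * (X - 1) = X ^ n - 1 := geom_sum_mul _ _
    have h2 : (X ^ n - 1 : (ZMod p)[X]).Separable := by
      have : ((n : ℕ) : ZMod p) ≠ 0 := by
        rwa [Ne, ZMod.natCast_eq_zero_iff]
      have h3 := separable_X_pow_sub_C (1 : ZMod p) this one_ne_zero
      simpa using h3
    rw [← h1] at h2
    rw [hchar2]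
    exact h2.of_mul_left
  have hfin : Module.finrank (ZMod p) (Module.End.eigenspace Tp (m : ZMod p)) ≤ 1 :=
    (LinearMap.finrank_eigenspace_le Tp (m : ZMod p)).trans (rootMultiplicity_le_one_of_separable hsep _)
  have key : ∀ u x : M, T u = m • u + p • x → (1 : ZMod p) ⊗ₜ[ℤ] u ∈ Module.End.eigenspace Tp (m : ZMod p) := by
    intro u x hu
    rw [Module.End.mem_eigenspace_iff, hTp, LinearMap.baseChange_tmul, hu, tmul_add, tmul_smul, tmul_smul]
    have : p • ((1 : ZMod p) ⊗ₜ[ℤ] x) = 0 := by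
      rw [smul_tmul']; simp
    rw [this, add_zero, smul_tmul', smul_tmul']
    simp
  have hU := key u x hu
  have hV := key v y hv
  have hV0 : (⟨_, hV⟩ : Module.End.eigenspace Tp (m : ZMod p)) ≠ 0 := by
    intro h
    have := congrArg Subtype.val h
    obtain ⟨w, hw⟩ := exists_smul_of_tmul_eq_zero p v this
    exact hv0 w hw
  have hfin1 : Module.finrank (ZMod p) (Module.End.eigenspace Tp (m : ZMod p)) = 1 := by
    have : 0 < Module.finrank (ZMod p) (Module.End.eigenspace Tp (m : ZMod p)) :=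
      Module.finrank_pos_iff_exists_ne_zero.mpr ⟨_, hV0⟩
    omega
  obtain ⟨c, hc⟩ := (finrank_eq_one_iff_of_nonzero' _ hV0).mp hfin1 ⟨_, hU⟩
  have hc' := congrArg Subtype.val hc
  simp only [Submodule.coe_smul] at hc'
  have h1 : (1 : ZMod p) ⊗ₜ[ℤ] (u - c.val • v) = 0 := by
    rw [tmul_sub, tmul_smul, ← hc', smul_tmul', smul_tmul']
    simp
  obtain ⟨w, hw⟩ := exists_smul_of_tmul_eq_zero p _ h1
  exact ⟨c.val, w, by rw [← hw]; abel⟩

end linalg

open NumberField NumberField.Units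

section act

variable (K : Type) [Field K] [NumberField K]

/-- units modulo torsion, additively -/
def UM : Type := Additive ((𝓞 K)ˣ ⧸ torsion K)

instance instUM : AddCommGroup (UM K) := inferInstanceAs (AddCommGroup (Additive ((𝓞 K)ˣ ⧸ torsion K)))

/-- the log embedding on units modulo torsion -/
noncomputable def umHom : UM K →+ dirichletUnitTheorem.logSpace K := logEmbeddingQuot K

theorem umHom_injective : Function.Injective (umHom K) := logEmbeddingQuot_injective K

theorem umHom_mem (x : UM K) : umHom K x ∈ unitLattice K := by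
  obtain ⟨y, rfl⟩ : ∃ y : (𝓞 K)ˣ, x = Additive.ofMul (QuotientGroup.mk y : (𝓞 K)ˣ ⧸ torsion K) := by
    obtain ⟨y, hy⟩ := QuotientGroup.mk_surjective (Additive.toMul (x : Additive ((𝓞 K)ˣ ⧸ torsion K)))
    exact ⟨y, congrArg Additive.ofMul hy.symm⟩
  exact ⟨Additive.ofMul y, trivial, rfl⟩

theorem umHom_surj {v : dirichletUnitTheorem.logSpace K} (hv : v ∈ unitLattice K) : ∃ x, umHom K x = v := by
  obtain ⟨y, -, hy⟩ := hv
  exact ⟨Additive.ofMul (QuotientGroup.mk (Additive.toMul y) : (𝓞 K)ˣ ⧸ torsion K), hy⟩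

noncomputable def umEquiv : UM K ≃+ unitLattice K :=
  AddEquiv.ofBijective ((umHom K).codRestrict (unitLattice K) (umHom_mem K))
    ⟨fun _ _ h => umHom_injective K (congrArg Subtype.val h),
     fun ⟨v, hv⟩ => by obtain ⟨x, hx⟩ := umHom_surj K hv; exact ⟨x, Subtype.ext hx⟩⟩

noncomputable def umLinEquiv : UM K ≃ₗ[ℤ] unitLattice K := (umEquiv K).toIntLinearEquiv

instance : Module.Free ℤ (UM K) := by
  classical
  have := ZLattice.module_free ℝ (unitLattice K)
  exact Module.Free.of_equiv (umLinEquiv K).symm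

instance : Module.Finite ℤ (UM K) := by
  classical
  have := ZLattice.module_finite ℝ (unitLattice K)
  exact Module.Finite.equiv (umLinEquiv K).symm

theorem finrank_UM : Module.finrank ℤ (UM K) = Units.rank K := by
  rw [(umLinEquiv K).finrank_eq, unitLattice_rank]

variable {K}

/-- action of a field automorphism on units -/
noncomputable def unitMap (σ : K ≃ₐ[ℚ] K) : (𝓞 K)ˣ →* (𝓞 K)ˣ :=
  Units.map (RingOfIntegers.mapRingHom (σ : K →+* K)).toMonoidHom

theorem coe_unitMap (σ : K ≃ₐ[ℚ] K) (x : (𝓞 K)ˣ) : ((unitMap σ x : 𝓞 K) : K) = σ (x : K) := rfl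

theorem unitMap_mul (σ τ : K ≃ₐ[ℚ] K) (x : (𝓞 K)ˣ) : unitMap (σ * τ) x = unitMap σ (unitMap τ x) := by
  apply Units.ext
  apply RingOfIntegers.ext
  rfl

theorem unitMap_one (x : (𝓞 K)ˣ) : unitMap (1 : K ≃ₐ[ℚ] K) x = x := by
  apply Units.ext
  apply RingOfIntegers.ext
  rfl

theorem unitMap_mem_torsion (σ : K ≃ₐ[ℚ] K) {x : (𝓞 K)ˣ} (hx : x ∈ torsion K) : unitMap σ x ∈ torsion K := by
  rw [torsion, CommGroup.mem_torsion] at hx ⊢
  exact (unitMap σ).isOfFinOrder hx

/-- the quotient map -/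
def proj (x : (𝓞 K)ˣ) : UM K := Additive.ofMul (QuotientGroup.mk x : (𝓞 K)ˣ ⧸ torsion K)

theorem proj_surjective : Function.Surjective (proj (K := K)) := by
  intro y
  obtain ⟨x, hx⟩ := QuotientGroup.mk_surjective (Additive.toMul (y : Additive ((𝓞 K)ˣ ⧸ torsion K)))
  exact ⟨x, congrArg Additive.ofMul hx⟩

theorem proj_mul (x y : (𝓞 K)ˣ) : proj (x * y) = proj x + proj y := rfl

theorem proj_one : proj (1 : (𝓞 K)ˣ) = 0 := rfl

/-- `proj` as a hom -/
def projHom : Additive (𝓞 K)ˣ →+ UM K where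
  toFun x := proj (Additive.toMul x)
  map_zero' := rfl
  map_add' _ _ := rfl

theorem proj_pow (x : (𝓞 K)ˣ) (k : ℕ) : proj (x ^ k) = k • proj x :=
  map_nsmul projHom k (Additive.ofMul x)

theorem proj_zpow (x : (𝓞 K)ˣ) (k : ℤ) : proj (x ^ k) = k • proj x :=
  map_zsmul projHom k (Additive.ofMul x)

theorem proj_inv (x : (𝓞 K)ˣ) : proj (x⁻¹) = - proj x := map_neg projHom (Additive.ofMul x)

theorem proj_eq_zero {x : (𝓞 K)ˣ} : proj x = 0 ↔ x ∈ torsion K := by
  constructor
  · intro h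
    have : (QuotientGroup.mk x : (𝓞 K)ˣ ⧸ torsion K) = 1 := congrArg Additive.toMul h
    rwa [QuotientGroup.eq_one_iff] at this
  · intro h
    exact congrArg Additive.ofMul ((QuotientGroup.eq_one_iff x).mpr h)

theorem proj_prod {ι : Type*} (s : Finset ι) (f : ι → (𝓞 K)ˣ) : proj (∏ i ∈ s, f i) = ∑ i ∈ s, proj (f i) := by
  classical
  induction s using Finset.induction_on with
  | empty => rfl
  | insert a s ha ih => rw [Finset.prod_insert ha, Finset.sum_insert ha, proj_mul, ih]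

/-- the action on units modulo torsion -/
noncomputable def act (σ : K ≃ₐ[ℚ] K) : UM K →ₗ[ℤ] UM K :=
  AddMonoidHom.toIntLinearMap (show UM K →+ UM K from
  (MonoidHom.toAdditive (QuotientGroup.map (torsion K) (torsion K) (unitMap σ)
    (fun _ hx => unitMap_mem_torsion σ hx))))

theorem act_proj (σ : K ≃ₐ[ℚ] K) (x : (𝓞 K)ˣ) : act σ (proj x) = proj (unitMap σ x) := rfl

theorem act_pow_proj (σ : K ≃ₐ[ℚ] K) (i : ℕ) (x : (𝓞 K)ˣ) :
    ((act σ) ^ i) (proj x) = proj (unitMap (σ ^ i) x) := by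
  induction i with
  | zero => simp [unitMap_one]
  | succ i ih => rw [pow_succ', Module.End.mul_apply, ih, act_proj, pow_succ', unitMap_mul]

end act

section cyclo

variable {p : ℕ} [Fact p.Prime] (K : Type) [Field K] [NumberField K] [IsCyclotomicExtension {p} ℚ K]

include p in
theorem card_gal : Nat.card (K ≃ₐ[ℚ] K) = p - 1 := by
  have : IsGalois ℚ K := IsCyclotomicExtension.isGalois {p} ℚ K
  rw [IsGalois.card_aut_eq_finrank, IsCyclotomicExtension.finrank (n := p) K
    (Polynomial.cyclotomic.irreducible_rat (Fact.out : p.Prime).pos), Nat.totient_prime Fact.out]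

theorem rank_eq (hp : 3 ≤ p) : (p - 1) / 2 = Module.finrank ℤ (UM K) + 1 := by
  have hp1 : p.Prime := Fact.out
  have hodd : Odd p := hp1.odd_of_ne_two (by omega)
  rw [finrank_UM, rank, InfinitePlace.card_eq_nrRealPlaces_add_nrComplexPlaces,
    IsCyclotomicExtension.Rat.nrRealPlaces_eq_zero (n := p) K (by omega),
    IsCyclotomicExtension.Rat.nrComplexPlaces_eq_totient_div_two p, Nat.totient_prime hp1]
  obtain ⟨k, hk⟩ := hodd
  omega

end cyclo

section conj

variable {p : ℕ} [Fact p.Prime] (K : Type) [Field K] [NumberField K] [IsCyclotomicExtension {p} ℚ K]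

include p in
theorem exists_conj (hp : 3 ≤ p) : ∃ c : K ≃ₐ[ℚ] K, c ≠ 1 ∧ c * c = 1 ∧
    (∀ (w : InfinitePlace K) (x : K), w (c x) = w x) ∧
    ∀ (τ : K ≃ₐ[ℚ] K) (w : InfinitePlace K), (∀ x, w (τ x) = w x) → τ = 1 ∨ τ = c := by
  have hCM : IsCMField K := IsCyclotomicExtension.Rat.isCMField K (S := {p}) ⟨p, rfl, by omega⟩
  refine ⟨(IsCMField.complexConj K).restrictScalars ℚ, ?_, ?_, ?_, ?_⟩
  · intro h
    apply IsCMField.complexConj_ne_one K
    ext x
    exact AlgEquiv.congr_fun h x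
  · ext x
    exact IsCMField.complexConj_apply_apply K x
  · intro w x
    exact IsCMField.infinitePlace_complexConj K w x
  · intro τ w hw
    have h1 : InfinitePlace.mk (w.embedding) = InfinitePlace.mk (w.embedding.comp (τ : K →+* K)) := by
      apply InfinitePlace.ext
      intro x
      rw [InfinitePlace.mk_embedding]
      have := hw x
      rw [← InfinitePlace.norm_embedding_eq w (τ x)] at this
      rw [InfinitePlace.apply]
      exact this.symm
    rw [InfinitePlace.mk_eq_iff] at h1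
    rcases h1 with h1 | h1
    · left
      ext x
      exact (w.embedding.injective (RingHom.congr_fun h1 x)).symm
    · right
      ext x
      apply w.embedding.injective
      have h2 := RingHom.congr_fun h1 x
      rw [ComplexEmbedding.conjugate_coe_eq] at h2
      have h3 := IsCMField.complexEmbedding_complexConj K w.embedding x
      exact h2.symm.trans h3.symm

theorem pow_half_eq {G : Type*} [Group G] {n : ℕ} (hn : n ≠ 0) {σ c : G} (hσ : orderOf σ = 2 * n)
    (hc : c ∈ Subgroup.zpowers σ) (h1 : c ≠ 1) (h2 : c * c = 1) : σ ^ n = c := by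
  have hfin : IsOfFinOrder σ := orderOf_pos_iff.mp (by omega)
  obtain ⟨j, hj⟩ := (hfin.mem_powers_iff_mem_zpowers (y := c)).mpr hc
  have h3 : σ ^ (j + j) = 1 := by
    rw [pow_add]; simp only at hj; rw [hj, h2]
  have h4 : 2 * n ∣ j + j := hσ ▸ orderOf_dvd_of_pow_eq_one h3
  have h5 : n ∣ j := by
    rw [← two_mul] at h4
    exact Nat.dvd_of_mul_dvd_mul_left two_pos h4
  obtain ⟨k, rfl⟩ := h5
  have h6 : ¬ 2 ∣ k := by
    rintro ⟨l, rfl⟩
    apply h1
    simp only at hj
    rw [← hj, show n * (2 * l) = (2 * n) * l by ring, pow_mul, ← hσ, pow_orderOf_eq_one, one_pow]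
  obtain ⟨l, rfl⟩ : Odd k := Nat.not_even_iff_odd.mp (fun h => h6 h.two_dvd)
  simp only at hj
  rw [← hj, show n * (2 * l + 1) = (2 * n) * l + n by ring, pow_add, pow_mul, ← hσ, pow_orderOf_eq_one,
    one_pow, one_mul]

end conj

section main

variable {p : ℕ} [Fact p.Prime] {K : Type} [Field K] [NumberField K] [IsCyclotomicExtension {p} ℚ K]

theorem norm_prod_eq_one {n : ℕ} (σ : K ≃ₐ[ℚ] K) (hσ : ∀ τ : K ≃ₐ[ℚ] K, τ ∈ Subgroup.zpowers σ)
    [IsGalois ℚ K] (hn : orderOf σ = n) (x : (𝓞 K)ˣ) (w : InfinitePlace K) :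
    w ((∏ i ∈ Finset.range n, unitMap (σ ^ i) x : (𝓞 K)ˣ) : K) = 1 := by
  classical
  have h1 : ((∏ i ∈ Finset.range n, unitMap (σ ^ i) x : (𝓞 K)ˣ) : K) = ∏ τ : K ≃ₐ[ℚ] K, τ (x : K) := by
    rw [← IsCyclic.image_range_orderOf hσ, Finset.prod_image (fun i hi j hj h => ?_), hn]
    · rw [Units.coe_prod, map_prod]
      rfl
    · exact pow_injOn_Iio_orderOf (by simpa using hi) (by simpa using hj) h
  rw [h1, ← Algebra.norm_eq_prod_automorphisms]
  have h2 := NumberField.isUnit_iff_norm.mp x.isUnit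
  have h3 : |(Algebra.norm ℚ (x : K))| = 1 := by
    have := h2
    rwa [RingOfIntegers.coe_norm] at this
  rw [← InfinitePlace.norm_embedding_eq w]
  simp only [eq_ratCast, map_ratCast]
  rw [Complex.norm_ratCast]
  exact_mod_cast h3

theorem prod_half_mem_torsion {n : ℕ} (σ : K ≃ₐ[ℚ] K) (hσ : ∀ τ : K ≃ₐ[ℚ] K, τ ∈ Subgroup.zpowers σ)
    [IsGalois ℚ K] (hn : orderOf σ = 2 * n) (hc : ∀ (w : InfinitePlace K) (x : K), w ((σ ^ n) x) = w x)
    (x : (𝓞 K)ˣ) : (∏ i ∈ Finset.range n, unitMap (σ ^ i) x) ∈ torsion K := by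
  rw [mem_torsion]
  intro w
  have h1 := norm_prod_eq_one σ hσ hn x w
  set P := ∏ i ∈ Finset.range n, unitMap (σ ^ i) x with hP
  have h2 : (∏ i ∈ Finset.range (2 * n), unitMap (σ ^ i) x) = P * unitMap (σ ^ n) P := by
    rw [two_mul, Finset.prod_range_add, hP, map_prod]
    congr 1
    refine Finset.prod_congr rfl fun i _ => ?_
    rw [pow_add, unitMap_mul]
  rw [h2] at h1
  have h3 : ((P * unitMap (σ ^ n) P : (𝓞 K)ˣ) : K) = (P : K) * (σ ^ n) (P : K) := rfl
  rw [h3, map_mul, hc] at h1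
  have h4 : 0 ≤ w (P : K) := apply_nonneg w _
  nlinarith

end main

section main2

open Finset in
/-- kernel of a circulant-type matrix with negative off-diagonal entries and zero row sums. -/
theorem const_of_circulant {n : ℕ} (hn : 0 < n) (ℓ : ℕ → ℝ) (hneg : ∀ i, ¬ n ∣ i → ℓ i < 0)
    (hsum : ∀ j, ∑ i ∈ range n, ℓ (i + j) = 0) (a : ℕ → ℤ)
    (ha : ∀ j, ∑ i ∈ range n, (a i : ℝ) * ℓ (i + j) = 0) :
    ∃ c, ∀ i < n, a i = c := by
  obtain ⟨k, hk, hmax⟩ := (range n).exists_max_image a ⟨0, by simpa using hn⟩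
  refine ⟨a k, fun i hi => ?_⟩
  have hkn : k < n := by simpa using hk
  have h1 : ∑ i ∈ range n, ((a k : ℝ) - a i) * ℓ (i + (n - k)) = 0 := by
    have e1 := ha (n - k)
    have e2 := hsum (n - k)
    calc _ = (a k : ℝ) * ∑ i ∈ range n, ℓ (i + (n - k)) - ∑ i ∈ range n, (a i : ℝ) * ℓ (i + (n - k)) := by
            rw [mul_sum, ← sum_sub_distrib]
            exact sum_congr rfl fun i _ => by ring
      _ = 0 := by rw [e1, e2]; ring
  have hterm : ∀ i ∈ range n, ((a k : ℝ) - a i) * ℓ (i + (n - k)) ≤ 0 := by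
    intro i hi
    have hle : (a i : ℝ) ≤ a k := by exact_mod_cast hmax i hi
    by_cases hik : i = k
    · subst hik; simp
    · have hin : i < n := by simpa using hi
      have : ¬ n ∣ (i + (n - k)) := by
        rintro ⟨c, hc⟩
        rcases Nat.lt_or_gt_of_ne hik with h | h
        · have : i + (n - k) < n := by omega
          rcases Nat.eq_zero_or_pos c with h0 | h0
          · subst h0; omega
          · nlinarith
        · have h2 : n < i + (n - k) := by omega
          have h3 : i + (n - k) < 2 * n := by omega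
          have : c = 1 := by
            have : 0 < c := by
              rcases Nat.eq_zero_or_pos c with h0 | h0
              · subst h0; omega
              · exact h0
            have : c < 2 := by nlinarith
            omega
          subst this; omega
      exact mul_nonpos_of_nonneg_of_nonpos (by linarith) (hneg _ this).le
  have h2 := (sum_eq_zero_iff_of_nonpos hterm).mp h1 i (by simpa using hi)
  by_cases hik : i = k
  · rw [hik]
  · have : ¬ n ∣ (i + (n - k)) := by
        rintro ⟨c, hc⟩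
        rcases Nat.lt_or_gt_of_ne hik with h | h
        · have : i + (n - k) < n := by omega
          rcases Nat.eq_zero_or_pos c with h0 | h0
          · subst h0; omega
          · nlinarith
        · have h2 : n < i + (n - k) := by omega
          have h3 : i + (n - k) < 2 * n := by omega
          have : c = 1 := by
            have : 0 < c := by
              rcases Nat.eq_zero_or_pos c with h0 | h0
              · subst h0; omega
              · exact h0
            have : c < 2 := by nlinarith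
            omega
          subst this; omega
    have h3 := (mul_eq_zero.mp h2).resolve_right (hneg _ this).ne
    have h4 : (a i : ℝ) = a k := by linarith
    exact_mod_cast h4

variable {p : ℕ} [Fact p.Prime] {K : Type} [Field K] [NumberField K] [IsCyclotomicExtension {p} ℚ K]

theorem exists_cyclic_unit {n : ℕ} (hn0 : 0 < n) (σ : K ≃ₐ[ℚ] K) (hσ : ∀ τ : K ≃ₐ[ℚ] K, τ ∈ Subgroup.zpowers σ)
    [IsGalois ℚ K] (hn : orderOf σ = 2 * n) (hc : ∀ (w : InfinitePlace K) (x : K), w ((σ ^ n) x) = w x)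
    (hstab : ∀ (τ : K ≃ₐ[ℚ] K) (w : InfinitePlace K), (∀ x, w (τ x) = w x) → τ = 1 ∨ τ = σ ^ n) :
    ∃ e : UM K, ∀ a : ℕ → ℤ, ∑ i ∈ Finset.range (n - 1), a i • ((act σ) ^ i) e = 0 →
      ∀ i < n - 1, a i = 0 := by
  classical
  obtain ⟨ε, hε⟩ := dirichletUnitTheorem.exists_unit K (dirichletUnitTheorem.w₀ (K := K))
  set w₁ : InfinitePlace K := dirichletUnitTheorem.w₀ with hw₁
  refine ⟨proj ε, fun a ha => ?_⟩
  set ℓ : ℕ → ℝ := fun i => Real.log (w₁ ((σ ^ i) (ε : K))) with hℓ
  have hne : ∀ i, w₁ ((σ ^ i) (ε : K)) ≠ 0 := fun i => by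
    rw [Ne, map_eq_zero, map_eq_zero]
    exact NumberField.Units.coe_ne_zero ε
  have hneg : ∀ i, ¬ n ∣ i → ℓ i < 0 := by
    intro i hi
    refine hε (w₁.comap ((σ ^ i : K ≃ₐ[ℚ] K) : K →+* K)) ?_
    intro h
    have h1 : ∀ x, w₁ ((σ ^ i) x) = w₁ x := fun x => by
      have := DFunLike.congr_fun h x
      exact this
    apply hi
    rcases hstab _ _ h1 with h2 | h2
    · have := orderOf_dvd_of_pow_eq_one h2
      rw [hn] at this
      exact (Dvd.intro_left 2 rfl).trans this
    · rcases le_total i n with h3 | h3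
      · have h4 : σ ^ (n - i) = 1 := by
          rw [pow_sub _ h3, ← h2, mul_inv_cancel]
        have := orderOf_dvd_of_pow_eq_one h4
        rw [hn] at this
        have h5 : n - i = 0 := by
          by_contra h6
          have := Nat.le_of_dvd (Nat.pos_of_ne_zero h6) this
          omega
        have : i = n := by omega
        rw [this]
      · have h4 : σ ^ (i - n) = 1 := by
          rw [pow_sub _ h3, ← h2, mul_inv_cancel]
        have := orderOf_dvd_of_pow_eq_one h4
        rw [hn] at this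
        have h5 : n ∣ i - n := (Dvd.intro_left 2 rfl).trans this
        have h6 : i = (i - n) + n := by omega
        rw [h6]
        exact Dvd.dvd.add h5 dvd_rfl
  have htor : ∀ (x : (𝓞 K)ˣ), x ∈ torsion K → ∀ j, w₁ ((σ ^ j) (x : K)) = 1 := by
    intro x hx j
    have := (mem_torsion K).mp (unitMap_mem_torsion (σ ^ j) hx) w₁
    exact this
  have hprod : ∀ (m : ℕ) (b : ℕ → ℤ) (j : ℕ),
      Real.log (w₁ ((σ ^ j) ((∏ i ∈ Finset.range m, (unitMap (σ ^ i) ε) ^ (b i) : (𝓞 K)ˣ) : K))) =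
        ∑ i ∈ Finset.range m, (b i : ℝ) * ℓ (i + j) := by
    intro m b j
    have e1 : (σ ^ j) ((∏ i ∈ Finset.range m, (unitMap (σ ^ i) ε) ^ (b i) : (𝓞 K)ˣ) : K) =
        ∏ i ∈ Finset.range m, ((σ ^ (i + j)) (ε : K)) ^ (b i) := by
      rw [Units.coe_prod, map_prod, map_prod]
      refine Finset.prod_congr rfl fun i _ => ?_
      rw [NumberField.Units.coe_zpow, map_zpow₀]
      congr 1
      rw [add_comm i j, pow_add]
      rfl
    rw [e1, map_prod, Real.log_prod (fun i _ => by rw [map_zpow₀]; exact zpow_ne_zero _ (hne _))]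
    refine Finset.sum_congr rfl fun i _ => ?_
    rw [map_zpow₀, Real.log_zpow]
  have hsum : ∀ j, ∑ i ∈ Finset.range n, ℓ (i + j) = 0 := by
    intro j
    have h1 := prod_half_mem_torsion σ hσ hn hc ε
    have h2 := htor _ h1 j
    have h3 := hprod n (fun _ => 1) j
    simp only [zpow_one, Int.cast_one, one_mul] at h3
    rw [← h3, h2, Real.log_one]
  have hrel : (∏ i ∈ Finset.range (n - 1), (unitMap (σ ^ i) ε) ^ (a i)) ∈ torsion K := by
    rw [← proj_eq_zero, proj_prod, ← ha]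
    refine Finset.sum_congr rfl fun i _ => ?_
    rw [proj_zpow, act_pow_proj]
  have hlin : ∀ j, ∑ i ∈ Finset.range (n - 1), (a i : ℝ) * ℓ (i + j) = 0 := by
    intro j
    rw [← hprod, htor _ hrel j, Real.log_one]
  set a' : ℕ → ℤ := fun i => if i < n - 1 then a i else 0 with ha'
  have hlin' : ∀ j, ∑ i ∈ Finset.range n, (a' i : ℝ) * ℓ (i + j) = 0 := by
    intro j
    have e0 : n = (n - 1) + 1 := by omega
    rw [e0, Finset.sum_range_succ, ← hlin j]
    have e1 : (a' (n - 1) : ℝ) * ℓ (n - 1 + j) = 0 := by simp [ha']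
    rw [e1, add_zero]
    refine Finset.sum_congr rfl fun i hi => ?_
    have : i < n - 1 := by simpa using hi
    simp [ha', this]
  obtain ⟨c, hc'⟩ := const_of_circulant hn0 ℓ hneg hsum a' hlin'
  intro i hi
  have h1 := hc' i (by omega)
  have h2 := hc' (n - 1) (by omega)
  have h3 : a' (n - 1) = 0 := by simp [ha']
  have h4 : a' i = a i := by simp [ha', hi]
  rw [← h4, h1, ← h2, h3]

end main2

section final

theorem add_aux {A : Type*} [AddCommGroup A] (φ : A →+ A) (m p k : ℕ) (u v x y w : A)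
    (hu : φ u = m • u + p • x) (hv : φ v = m • v + p • y) :
    φ (u - (k • v + p • w)) = m • (u - (k • v + p • w)) + p • (x - k • y + m • w - φ w) := by
  rw [map_sub, map_add, map_nsmul, map_nsmul, hu, hv]
  module

theorem mul_aux {A : Type*} [CommGroup A] (φ : A →* A) (m p k : ℕ) (u v x y w : A)
    (hu : φ u = u ^ m * x ^ p) (hv : φ v = v ^ m * y ^ p) :
    φ (u / (v ^ k * w ^ p)) = (u / (v ^ k * w ^ p)) ^ m * (x / y ^ k * w ^ m / φ w) ^ p :=
  add_aux (A := Additive A) (MonoidHom.toAdditive φ) m p k u v x y w hu hv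

variable {p : ℕ} [Fact p.Prime] {K : Type} [Field K] [NumberField K] [IsCyclotomicExtension {p} ℚ K]

theorem torsion_eq_pow (hp : 3 ≤ p) (ζ : (𝓞 K)ˣ) (hζ : IsPrimitiveRoot ζ p)
    (σ : K ≃ₐ[ℚ] K) (m : ℕ) (hm : ∀ x : K, σ (ζ : K) ≠ (ζ : K) ^ m * x ^ p)
    {t : (𝓞 K)ˣ} (ht : t ∈ torsion K) (z : (𝓞 K)ˣ) (h : unitMap σ t = t ^ m * z ^ p) :
    ∃ s : (𝓞 K)ˣ, t = s ^ p := by
  have hpp : p.Prime := Fact.out
  have hodd : Odd p := hpp.odd_of_ne_two (by omega)
  have hζ' : IsPrimitiveRoot (ζ : K) p := by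
    have := (IsPrimitiveRoot.coe_units_iff.mpr hζ)
    exact this.map_of_injective (f := algebraMap (𝓞 K) K) RingOfIntegers.coe_injective
  have htf : IsOfFinOrder (t : K) := by
    rw [torsion, CommGroup.mem_torsion] at ht
    have := ht
    rw [isOfFinOrder_iff_pow_eq_one] at this ⊢
    obtain ⟨n, hn, h1⟩ := this
    refine ⟨n, hn, ?_⟩
    have h2 := congrArg (fun s : (𝓞 K)ˣ => (s : K)) h1
    simpa using h2
  have hK : σ (t : K) = (t : K) ^ m * (z : K) ^ p := by
    have := congrArg (fun s : (𝓞 K)ˣ => (s : K)) h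
    simp only [Units.val_mul, Units.val_pow_eq_pow_val, map_mul, map_pow] at this
    exact this
  obtain ⟨r, hr, hr'⟩ := hζ'.exists_pow_or_neg_mul_pow_of_isOfFinOrder hodd htf
  -- reduce to the sign-free case
  have key : ∃ δ : K, δ ^ p = δ ∧ σ ((ζ : K) ^ r) = ((ζ : K) ^ r) ^ m * (δ * z) ^ p := by
    rcases hr' with h1 | h1
    · refine ⟨1, one_pow _, ?_⟩
      rw [← h1, hK, one_mul]
    · have h2 : (ζ : K) ^ r = - (t : K) := by rw [h1, neg_neg]
      refine ⟨-(-1) ^ m, ?_, ?_⟩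
      · rw [neg_pow, hodd.neg_one_pow, ← pow_mul, mul_comm m p, pow_mul, hodd.neg_one_pow]
        ring
      · have h3 : (-(-1 : K) ^ m) ^ p = -(-1) ^ m := by
          rw [neg_pow, hodd.neg_one_pow, ← pow_mul, mul_comm m p, pow_mul, hodd.neg_one_pow]
          ring
        rw [mul_pow, h3, h2, map_neg, hK, neg_pow (t : K) m]
        have h4 : ((-1 : K) ^ m) * ((-1) ^ m) = 1 := by
          rw [← mul_pow]; simp
        linear_combination ((t : K) ^ m * (z : K) ^ p) * h4
  rcases Nat.eq_zero_or_pos r with h0 | h0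
  · subst h0
    rcases hr' with h1 | h1
    · refine ⟨1, ?_⟩
      apply Units.ext
      apply RingOfIntegers.ext
      simpa using h1
    · refine ⟨-1, ?_⟩
      apply Units.ext
      apply RingOfIntegers.ext
      rw [hodd.neg_one_pow]
      simpa using h1
  · exfalso
    obtain ⟨δ, -, hδ⟩ := key
    have hcop : Nat.Coprime r p := ((Nat.Prime.coprime_iff_not_dvd hpp).mpr
      (fun h => by have := Nat.le_of_dvd h0 h; omega)).symm
    obtain ⟨r', -, hr1⟩ := Nat.exists_mul_mod_eq_one_of_coprime hcop hpp.one_lt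
    have h1 := congrArg (fun s => s ^ r') hδ
    beta_reduce at h1
    have e1 : ∀ s : K, s ^ p = 1 → (s ^ r) ^ r' = s := by
      intro s hs
      rw [← pow_mul, ← Nat.div_add_mod (r * r') p, hr1, pow_add, pow_mul, hs, one_pow, one_mul, pow_one]
    rw [map_pow, e1 _ (by rw [← map_pow, hζ'.pow_eq_one, map_one]), mul_pow, ← pow_mul, mul_comm m r',
      pow_mul, e1 _ hζ'.pow_eq_one, ← pow_mul, mul_comm p r', pow_mul] at h1
    exact hm _ h1

theorem exists_unit_of_pow (hp : 0 < p) (x : K) (X : (𝓞 K)ˣ) (h : x ^ p = (X : K)) :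
    ∃ x' : (𝓞 K)ˣ, (x' : K) = x := by
  have h1 : IsIntegral ℤ (x ^ p) := by rw [h]; exact RingOfIntegers.isIntegral_coe _
  have h2 : IsIntegral ℤ x := IsIntegral.of_pow hp h1
  set x₀ : 𝓞 K := ⟨x, h2⟩ with hx₀
  have h3 : x₀ ^ p = (X : 𝓞 K) := by
    apply RingOfIntegers.ext
    exact h
  have h4 : IsUnit (x₀ ^ p) := by rw [h3]; exact X.isUnit
  have h5 : IsUnit x₀ := (isUnit_pow_iff hp.ne').mp h4
  exact ⟨h5.unit, rfl⟩

theorem exists_unit_eigen (hp : 0 < p) (σ : K ≃ₐ[ℚ] K) (m : ℕ) (u : (𝓞 K)ˣ) (x : K)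
    (hu : σ (u : K) = (u : K) ^ m * x ^ p) : ∃ x' : (𝓞 K)ˣ, unitMap σ u = u ^ m * x' ^ p := by
  obtain ⟨x', hx'⟩ := exists_unit_of_pow hp x (unitMap σ u / u ^ m) (by
    have h0 : (u : K) ^ m ≠ 0 := pow_ne_zero _ (NumberField.Units.coe_ne_zero u)
    have h1 : ((unitMap σ u / u ^ m : (𝓞 K)ˣ) : K) * (u : K) ^ m = σ (u : K) := by
      have : (unitMap σ u / u ^ m) * u ^ m = unitMap σ u := div_mul_cancel _ _
      have := congrArg (fun s : (𝓞 K)ˣ => (s : K)) this
      simp only [Units.val_mul, Units.val_pow_eq_pow_val, map_mul, map_pow] at this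
      exact this
    rw [hu, mul_comm] at h1
    exact (mul_left_cancel₀ h0 h1).symm)
  refine ⟨x', ?_⟩
  apply Units.ext
  apply RingOfIntegers.ext
  have : ((u ^ m * x' ^ p : (𝓞 K)ˣ) : K) = (u : K) ^ m * x ^ p := by rw [← hx']; simp
  exact (coe_unitMap σ u).trans (hu.trans this.symm)

/-- eigenspaces of units mod `p`-th powers are at most one-dimensional. -/
theorem unit_eigenspace {p : ℕ} [Fact p.Prime] (hp : 3 ≤ p)
    (K : Type) [Field K] [NumberField K] [IsCyclotomicExtension {p} ℚ K]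
    (ζ : (𝓞 K)ˣ) (hζ : IsPrimitiveRoot ζ p)
    (σ : K ≃ₐ[ℚ] K) (hσ : ∀ τ : K ≃ₐ[ℚ] K, τ ∈ Subgroup.zpowers σ) (m : ℕ)
    (hm : ∀ x : K, σ (ζ : K) ≠ (ζ : K) ^ m * x ^ p)
    (u v : (𝓞 K)ˣ) (x y : K) (hu : σ (u : K) = (u : K) ^ m * x ^ p)
    (hv : σ (v : K) = (v : K) ^ m * y ^ p) (hv1 : ∀ w : (𝓞 K)ˣ, v ≠ w ^ p) :
    ∃ (k : ℕ) (w : (𝓞 K)ˣ), u = v ^ k * w ^ p := by
  have hpp : p.Prime := Fact.out
  have hp0 : 0 < p := by omega
  have hodd : Odd p := hpp.odd_of_ne_two (by omega)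
  have hgal : IsGalois ℚ K := IsCyclotomicExtension.isGalois {p} ℚ K
  obtain ⟨x', hu'⟩ := exists_unit_eigen hp0 σ m u x hu
  obtain ⟨y', hv'⟩ := exists_unit_eigen hp0 σ m v y hv
  have hcard : Nat.card (K ≃ₐ[ℚ] K) = p - 1 := card_gal (p := p) K
  have hord : orderOf σ = p - 1 := by
    rw [← hcard, ← Nat.card_zpowers σ]
    have : Subgroup.zpowers σ = ⊤ := (Subgroup.eq_top_iff' _).mpr hσ
    rw [this]
    exact Nat.card_congr Subgroup.topEquiv.toEquiv
  obtain ⟨n, hn⟩ := hodd
  have hn2 : p - 1 = 2 * n := by omega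
  have hn3 : (p - 1) / 2 = n := by omega
  have hn0 : 0 < n := by omega
  obtain ⟨c, hc1, hc2, hc3, hc4⟩ := exists_conj (p := p) K hp
  have hcσ : σ ^ n = c := pow_half_eq (by omega) (hord.trans hn2) (hσ c) hc1 hc2
  have hrank : n = Module.finrank ℤ (UM K) + 1 := by rw [← rank_eq (p := p) K hp, hn3]
  obtain ⟨e, he⟩ := exists_cyclic_unit hn0 σ hσ (hord.trans hn2)
    (by rw [hcσ]; exact hc3) (by rw [hcσ]; exact hc4)
  have hf : ∑ i ∈ Finset.range n, (act σ) ^ i = 0 := by
    ext z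
    obtain ⟨z, rfl⟩ := proj_surjective z
    have h1 := prod_half_mem_torsion σ hσ (hord.trans hn2) (by rw [hcσ]; exact hc3) z
    rw [← proj_eq_zero, proj_prod] at h1
    rw [LinearMap.sum_apply, LinearMap.zero_apply, ← h1]
    exact Finset.sum_congr rfl fun i _ => act_pow_proj σ i z
  have hpn : ¬ p ∣ n := fun h => by
    have := Nat.le_of_dvd hn0 h
    omega
  have hup : act σ (proj u) = m • proj u + p • proj x' := by
    rw [act_proj, hu', proj_mul, proj_pow, proj_pow]
  have hvp : act σ (proj v) = m • proj v + p • proj y' := by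
    rw [act_proj, hv', proj_mul, proj_pow, proj_pow]
  have hv0 : ∀ w, proj v ≠ p • w := by
    intro w hw
    obtain ⟨w, rfl⟩ := proj_surjective w
    have h1 : v / ((1 : (𝓞 K)ˣ) ^ 0 * w ^ p) ∈ torsion K := by
      rw [← proj_eq_zero, div_eq_mul_inv, proj_mul, proj_inv, proj_mul, proj_pow, proj_pow, hw]
      simp
    have h2 := mul_aux (unitMap σ) m p 0 v 1 y' 1 w hv' (by simp)
    obtain ⟨s, hs⟩ := torsion_eq_pow hp ζ hζ σ m hm h1 _ h2
    apply hv1 (w * s)
    rw [mul_pow, ← hs]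
    simp
  obtain ⟨k, w, hw⟩ := eigen_mod_p p (act σ) n hrank hpn hf e he m (proj u) (proj v) (proj x') (proj y')
    hup hvp hv0
  obtain ⟨w, rfl⟩ := proj_surjective w
  have h1 : u / (v ^ k * w ^ p) ∈ torsion K := by
    rw [← proj_eq_zero, div_eq_mul_inv, proj_mul, proj_inv, proj_mul, proj_pow, proj_pow, hw]
    simp
  have h2 := mul_aux (unitMap σ) m p k u v x' y' w hu' hv'
  obtain ⟨s, hs⟩ := torsion_eq_pow hp ζ hζ σ m hm h1 _ h2
  refine ⟨k, w * s, ?_⟩
  rw [mul_pow, ← hs, ← mul_assoc]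
  simp

end final

end Fermat.Agent.H21U
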