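import Fermat.Agent.H42S4

/-!
H42S5 (project S47, C20): small lemmas for the concrete instances: symmetric operators on a space
with an injective map to an inner product space; the target eigenvector of `U = W (P - 1)`.
-/

set_option autoImplicit false

open Module Module.End
open scoped InnerProductSpace ComplexConjugate

namespace Fermat.Agent.H42S

section Symm

variable {E H : Type*} [AddCommGroup E] [Module ℂ E] [NormedAddCommGroup H]
  [InnerProductSpace ℂ H]

/-- symmetric with respect to the pull-back of the inner product along `ι` -/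
def SymmOn (ι : E →ₗ[ℂ] H) (T : Module.End ℂ E) : Prop :=
  ∀ v w, ⟪ι (T v), ι w⟫_ℂ = ⟪ι v, ι (T w)⟫_ℂ

variable {ι : E →ₗ[ℂ] H} {T : Module.End ℂ E}

theorem SymmOn.eigenvalue_im (hι : Function.Injective ι) (hT : SymmOn ι T) {μ : ℂ} {v : E}
    (hv : v ≠ 0) (h : T v = μ • v) : μ.im = 0 := by
  have h1 := hT v v
  rw [h, map_smul, inner_smul_left, inner_smul_right] at h1
  have h2 : ⟪ι v, ι v⟫_ℂ ≠ 0 := by
    rw [Ne, inner_self_eq_zero]
    exact fun h0 => hv (hι (by rw [h0, map_zero]))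
  have h3 := mul_right_cancel₀ h2 h1
  exact Complex.conj_eq_iff_im.mp h3

theorem SymmOn.apply_eq_zero (hι : Function.Injective ι) (hT : SymmOn ι T) {μ : ℂ} {v : E}
    (h : (T - μ • (1 : Module.End ℂ E)) ((T - μ • (1 : Module.End ℂ E)) v) = 0) :
    (T - μ • (1 : Module.End ℂ E)) v = 0 := by
  by_contra hne
  have hreal : μ.im = 0 := by
    refine hT.eigenvalue_im hι hne ?_
    rw [LinearMap.sub_apply, LinearMap.smul_apply, Module.End.one_apply] at h
    exact sub_eq_zero.mp h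
  have hc : conj μ = μ := Complex.conj_eq_iff_im.mpr hreal
  have hgen : ∀ w, ⟪ι ((T - μ • (1 : Module.End ℂ E)) w), ι v⟫_ℂ =
      ⟪ι w, ι ((T - μ • (1 : Module.End ℂ E)) v)⟫_ℂ := by
    intro w
    simp only [LinearMap.sub_apply, LinearMap.smul_apply, Module.End.one_apply, map_sub, map_smul,
      inner_sub_left, inner_sub_right, inner_smul_left, inner_smul_right, hc]
    rw [hT]
  have h1 := (hgen ((T - μ • (1 : Module.End ℂ E)) v)).symm
  rw [h, map_zero, inner_zero_left, inner_self_eq_zero] at h1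
  exact hne (hι (by rw [h1, map_zero]))

theorem SymmOn.pow_apply_eq_zero (hι : Function.Injective ι) (hT : SymmOn ι T) {μ : ℂ} {v : E}
    (n : ℕ) (h : ((T - μ • (1 : Module.End ℂ E)) ^ n) v = 0) :
    (T - μ • (1 : Module.End ℂ E)) v = 0 := by
  induction n generalizing v with
  | zero =>
    rw [pow_zero, Module.End.one_apply] at h
    rw [h, map_zero]
  | succ n ih =>
    rw [pow_succ, Module.End.mul_apply] at h
    exact hT.apply_eq_zero hι (ih h)

/-- generalised eigenvectors are eigenvectors -/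
theorem SymmOn.maxGenEigenspace_eq (hι : Function.Injective ι) (hT : SymmOn ι T) (μ : ℂ) :
    T.maxGenEigenspace μ = T.eigenspace μ := by
  apply le_antisymm
  · intro v hv
    rw [Module.End.mem_maxGenEigenspace] at hv
    obtain ⟨n, hn⟩ := hv
    rw [Module.End.mem_eigenspace_iff]
    have h := hT.pow_apply_eq_zero hι n hn
    rw [LinearMap.sub_apply, LinearMap.smul_apply, Module.End.one_apply] at h
    exact sub_eq_zero.mp h
  · intro v hv
    rw [Module.End.mem_maxGenEigenspace]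
    refine ⟨1, ?_⟩
    rw [Module.End.mem_eigenspace_iff] at hv
    rw [pow_one, LinearMap.sub_apply, LinearMap.smul_apply, Module.End.one_apply, hv, sub_self]

/-- on a joint generalised eigenspace the symmetric members of the family act by scalars -/
theorem SymmOn.of_mem_blk {K : Type*} {Y : K → Module.End ℂ E} {χ : K → ℂ}
    (hι : Function.Injective ι) {k : K} (hk : SymmOn ι (Y k)) {v : E} (hv : v ∈ blk Y χ) :
    Y k v = χ k • v := by
  obtain ⟨n, hn⟩ := mem_blk.mp hv k
  have h := hk.pow_apply_eq_zero hι n hn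
  rw [LinearMap.sub_apply, LinearMap.smul_apply, Module.End.one_apply] at h
  exact sub_eq_zero.mp h

/-- the eigenvalues of the symmetric members of the family are real -/
theorem SymmOn.im_of_blk {K : Type*} {Y : K → Module.End ℂ E} {χ : K → ℂ}
    (hι : Function.Injective ι) {k : K} (hk : SymmOn ι (Y k)) (hb : blk Y χ ≠ ⊥) :
    (χ k).im = 0 := by
  obtain ⟨v, hv, hv0⟩ := Submodule.exists_mem_ne_zero_of_ne_bot hb
  exact hk.eigenvalue_im hι hv0 (hk.of_mem_blk hι hv)

/-- norm bound of the eigenvalues -/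
theorem norm_le_of_blk {K : Type*} [FiniteDimensional ℂ E] {Y : K → Module.End ℂ E} {χ : K → ℂ}
    (hY : ∀ i j, Commute (Y i) (Y j)) (N : E → ℝ) (hN : ∀ (c : ℂ) v, N (c • v) = ‖c‖ * N v)
    (hN0 : ∀ v, v ≠ 0 → 0 < N v) {k : K} {B : ℝ} (hB : ∀ v, N (Y k v) ≤ B * N v)
    (hb : blk Y χ ≠ ⊥) : ‖χ k‖ ≤ B := by
  obtain ⟨v, hv0, -, hv⟩ := exists_joint hY hb
  have h1 := hB v
  rw [hv, hN] at h1
  exact le_of_mul_le_mul_right h1 (hN0 v hv0)

end Symm

section Target

variable {E : Type*} [AddCommGroup E] [Module ℂ E]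

/-- The eigenvector of `U = W (P - 1)` attached to an old vector `Φ`. -/
theorem exists_target {W P U : Module.End ℂ E} {q : ℝ} (hq : 1 < q) (hW : ∀ v, W (W v) = v)
    (hU : ∀ v, U v = W (P v - v)) {Φ : E} (hΦ : Φ ≠ 0) {a : ℂ}
    (h1 : P Φ = ((q + 1 : ℝ) : ℂ) • Φ) (h2 : P (W Φ) = a • Φ) :
    ∃ z : ℂ, q ≤ ‖z‖ ^ 2 ∧ Φ - z • W Φ ≠ 0 ∧ U (Φ - z • W Φ) = z • (Φ - z • W Φ) := by
  -- the roots of `z² - a z + q`
  obtain ⟨z, z', hz1, hz2⟩ : ∃ z z' : ℂ, z + z' = a ∧ z * z' = q := by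
    obtain ⟨s, hs⟩ := IsAlgClosed.exists_eq_mul_self (a ^ 2 - 4 * (q : ℂ))
    refine ⟨(a + s) / 2, (a - s) / 2, by ring, ?_⟩
    have : s * s = a ^ 2 - 4 * (q : ℂ) := hs.symm
    linear_combination (-1 / 4 : ℂ) * this
  have hmain : ∃ z : ℂ, q ≤ ‖z‖ ^ 2 ∧ z ^ 2 - a * z + q = 0 := by
    by_cases h : ‖z'‖ ≤ ‖z‖
    · refine ⟨z, ?_, by linear_combination (z : ℂ) * hz1 - hz2⟩
      have h3 : ‖z‖ * ‖z'‖ = q := by
        rw [← norm_mul, hz2, Complex.norm_real, Real.norm_eq_abs, abs_of_pos (by linarith)]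
      nlinarith [norm_nonneg z, norm_nonneg z']
    · refine ⟨z', ?_, by linear_combination (z' : ℂ) * hz1 - hz2⟩
      have h3 : ‖z‖ * ‖z'‖ = q := by
        rw [← norm_mul, hz2, Complex.norm_real, Real.norm_eq_abs, abs_of_pos (by linarith)]
      nlinarith [norm_nonneg z, norm_nonneg z']
  obtain ⟨z, hzn, hz⟩ := hmain
  refine ⟨z, hzn, ?_, ?_⟩
  · intro h0
    have h3 : Φ = z • W Φ := sub_eq_zero.mp h0
    have h4 : W Φ = z • Φ := by
      conv_lhs => rw [h3]
      rw [map_smul, hW]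
    have h5 : Φ = (z * z) • Φ := by
      conv_lhs => rw [h3, h4]
      rw [smul_smul]
    have h6 : (1 - z * z) • Φ = 0 := by rw [sub_smul, one_smul, ← h5, sub_self]
    have h7 : 1 - z * z = 0 := (smul_eq_zero.mp h6).resolve_right hΦ
    have h8 : z * z = 1 := (sub_eq_zero.mp h7).symm
    have h9 : ‖z‖ ^ 2 = 1 := by rw [pow_two, ← norm_mul, h8, norm_one]
    linarith
  · have h3 : P (Φ - z • W Φ) = ((q + 1 : ℝ) : ℂ) • Φ - z • a • Φ := by
      rw [map_sub, map_smul, h1, h2]
    rw [hU, h3]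
    have e : ((q + 1 : ℝ) : ℂ) • Φ - z • a • Φ - (Φ - z • W Φ) =
        ((q : ℂ) - z * a) • Φ + z • W Φ := by
      push_cast
      module
    rw [e, map_add, map_smul, map_smul, hW]
    have e2 : (q : ℂ) - z * a = - (z * z) := by linear_combination hz
    rw [e2]
    module

/-- the eigenvalues of the operators commuting with `W` on the target vector -/
theorem target_eigen {W A : Module.End ℂ E} (hA : Commute A W) {Φ : E} {lam : ℂ}
    (h : A Φ = lam • Φ) (z : ℂ) : A (Φ - z • W Φ) = lam • (Φ - z • W Φ) := by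
  have h1 : A (W Φ) = W (A Φ) := congrArg (fun f : Module.End ℂ E => f Φ) hA.eq
  rw [map_sub, map_smul, h1, h, map_smul, smul_sub, smul_comm z lam]

/-- normalised form -/
theorem norm_target {q : ℝ} (hq : 1 < q) {z : ℂ} (hz : q ≤ ‖z‖ ^ 2) :
    1 ≤ ‖((Real.sqrt q : ℝ) : ℂ)⁻¹ * z‖ := by
  have h0 : 0 < Real.sqrt q := Real.sqrt_pos.mpr (by linarith)
  rw [norm_mul, norm_inv, Complex.norm_real, Real.norm_eq_abs, abs_of_pos h0,
    ← div_eq_inv_mul, le_div_iff₀ h0, one_mul]
  exact Real.sqrt_le_iff.mpr ⟨norm_nonneg _, hz⟩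

end Target

end Fermat.Agent.H42S
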