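import Fermat.Agent.H21Z1
import Fermat.Agent.H42S5

/-!
# From a kernel with commuting operators to one side of the comparison (helper21, S47, C-OPS)
-/

set_option autoImplicit false
set_option linter.unusedSectionVars false

noncomputable section

open MeasureTheory Complex Filter
open scoped ENNReal InnerProductSpace ComplexConjugate Topology
open Fermat.Agent.H32Z Fermat.Agent.H42S

namespace Fermat.Agent.H21Z

theorem hasEigenvalue_of_blk {N E : Type*} [AddCommGroup E] [Module ℂ E]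
    {Y : N → Module.End ℂ E} {χ : N → ℂ} (h : blk Y χ ≠ ⊥) (k : N) :
    Module.End.HasEigenvalue (Y k) (χ k) := by
  obtain ⟨v, hv, hv0⟩ := Submodule.exists_mem_ne_zero_of_ne_bot h
  rw [mem_blk] at hv
  have hex := hv k
  classical
  set n := Nat.find hex with hn
  have hn0 : n ≠ 0 := by
    intro h0
    have h1 := Nat.find_spec hex
    rw [← hn, h0, pow_zero, Module.End.one_apply] at h1
    exact hv0 h1
  obtain ⟨m, hm⟩ := Nat.exists_eq_succ_of_ne_zero hn0
  have h1 := Nat.find_spec hex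
  rw [← hn, hm, Nat.succ_eq_add_one, pow_succ', Module.End.mul_apply] at h1
  have h2 : ((Y k - χ k • (1 : Module.End ℂ E)) ^ m) v ≠ 0 := by
    have h3 := Nat.find_min hex (m := m) (by rw [← hn, hm]; exact Nat.lt_succ_self m)
    exact h3
  refine Module.End.hasEigenvalue_of_hasEigenvector
    (x := ((Y k - χ k • (1 : Module.End ℂ E)) ^ m) v) ⟨?_, h2⟩
  rw [Module.End.mem_eigenspace_iff]
  rw [LinearMap.sub_apply, LinearMap.smul_apply, Module.End.one_apply, sub_eq_zero] at h1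
  exact h1

variable {G X : Type} [Group G] [MulAction G X] [MeasurableSpace X]
  {ν : Measure X} [IsFiniteMeasure ν] {K : X → X → ℂ}

/-- eigenvalues of `U = W (P - 1)` on the eigenspaces of the kernel -/
theorem U_eigenvalue {hK : BK K} (hG : ∀ (g : G) x y, K (g • x) y = K x y) {q : ℝ} (hq : 1 ≤ q)
    {W P : Module.End ℂ (BInv G X)} (hW : W ∈ Cm hK ν hG) (hP : P ∈ Cm hK ν hG)
    (hWa : IsAdj ν W W) (hPa : IsAdj ν P P) (hW2 : W * W = 1)
    (hP2 : P * P = ((q + 1 : ℝ) : ℂ) • P) {c : ℝ} (hc : c ≠ 0) {f : Eig hK ν c} (hf : f ≠ 0)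
    {u : ℂ} (hu : W (P (toInv hG hc f) - toInv hG hc f) = u • toInv hG hc f) :
    (u.im = 0 ∧ ‖u‖ ≤ q) ∨ ‖u‖ ^ 2 = q := by
  have hWA := (mem_Cm hG).mp hW
  have hPA := (mem_Cm hG).mp hP
  have hv0 : eigEquiv hK ν hc f ≠ 0 := fun h0 => hf ((eigEquiv hK ν hc).injective
    (by rw [h0, map_zero]))
  have hWW : ∀ v, resL2 hG hWA hc (resL2 hG hWA hc v) = v := by
    intro v
    obtain ⟨g, rfl⟩ := (eigEquiv hK ν hc).surjective v
    rw [resL2_eigEquiv, resL2_eigEquiv]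
    congr 1
    apply toInv_injective hG hc
    rw [toInv_res, toInv_res]
    exact congrArg (fun F : Module.End ℂ (BInv G X) => F (toInv hG hc g)) hW2
  have hPP : ∀ v, resL2 hG hPA hc (resL2 hG hPA hc v) =
      ((q + 1 : ℝ) : ℂ) • resL2 hG hPA hc v := by
    intro v
    obtain ⟨g, rfl⟩ := (eigEquiv hK ν hc).surjective v
    rw [resL2_eigEquiv, resL2_eigEquiv, ← map_smul]
    congr 1
    apply toInv_injective hG hc
    rw [toInv_res, toInv_res, map_smul, toInv_res]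
    exact congrArg (fun F : Module.End ℂ (BInv G X) => F (toInv hG hc g)) hP2
  have hU : (resL2 hG hWA hc ∘ₗ (resL2 hG hPA hc - LinearMap.id)) (eigEquiv hK ν hc f) =
      u • eigEquiv hK ν hc f := by
    rw [LinearMap.comp_apply, LinearMap.sub_apply, LinearMap.id_apply, resL2_eigEquiv,
      ← map_sub, resL2_eigEquiv, ← map_smul]
    congr 1
    apply toInv_injective hG hc
    rw [toInv_res, map_sub, toInv_res, map_smul]
    exact hu
  have h1 := isSymmetric_resL2 hG hWa hWA hc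
  have h2 := isSymmetric_resL2 hG hPa hPA hc
  have h3 : ∀ v, (resL2 hG hWA hc ∘ₗ (resL2 hG hPA hc - LinearMap.id)) v =
      resL2 hG hWA hc (resL2 hG hPA hc v - v) := by
    intro v
    rw [LinearMap.comp_apply, LinearMap.sub_apply, LinearMap.id_apply]
  exact H8U.eigenvalue (U := resL2 hG hWA hc ∘ₗ (resL2 hG hPA hc - LinearMap.id)) hq h1 hWW h2
    hPP h3 hv0 hU

/-- The operators on bounded invariant functions used on one side of the comparison. `J` indexes
the operators whose eigenvalues are compared. -/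
structure OpData (J : Type) (hK : BK K) (ν : Measure X) [IsFiniteMeasure ν]
    (hG : ∀ (g : G) x y, K (g • x) y = K x y) where
  /-- index type of the commuting family -/
  N : Type
  Y : N → Module.End ℂ (BInv G X)
  Y_mem : ∀ k, Y k ∈ Cm hK ν hG
  Y_comm : ∀ k l, Commute (Y k) (Y l)
  σ : N ≃ N
  σ3 : ∀ k, σ (σ (σ k)) = k
  s : Module.End ℂ (BInv G X)
  s_mem : s ∈ Cm hK ν hG
  s3 : s ^ 3 = 1
  s_comm : ∀ k, s * Y k = Y (σ k) * s
  j : J → N
  B : J → ℝ
  adj : ∀ l, IsAdj ν (Y (j l)) (Y (j l))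
  bnd : ∀ l (f : BInv G X) (C : ℝ), (∀ x, ‖(f : X → ℂ) x‖ ≤ C) →
    ∀ x, ‖(Y (j l) f : X → ℂ) x‖ ≤ B l * C
  /-- the operator `U` at the special place -/
  u : N
  q : ℝ
  one_le_q : 1 ≤ q
  W : Module.End ℂ (BInv G X)
  P : Module.End ℂ (BInv G X)
  W_mem : W ∈ Cm hK ν hG
  P_mem : P ∈ Cm hK ν hG
  W_adj : IsAdj ν W W
  P_adj : IsAdj ν P P
  W_sq : W * W = 1
  P_sq : P * P = ((q + 1 : ℝ) : ℂ) • P
  /-- the exponent: one on the side of `E`, three on the side of `F` -/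
  e : ℕ
  e_pos : 0 < e
  Y_u : Y u = ((((Real.sqrt q)⁻¹ : ℝ) : ℂ) • (W * (P - 1))) ^ e

namespace OpData

variable {J : Type} {hK : BK K} {hG : ∀ (g : G) x y, K (g • x) y = K x y}
  (D : OpData J hK ν hG)

/-- the operators on an eigenspace -/
def YE {c : ℝ} (hc : c ≠ 0) (k : D.N) : Module.End ℂ (Eig hK ν c) :=
  resAlg hG hc ⟨D.Y k, D.Y_mem k⟩

/-- the twist on an eigenspace -/
def sE {c : ℝ} (hc : c ≠ 0) : Module.End ℂ (Eig hK ν c) := resAlg hG hc ⟨D.s, D.s_mem⟩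

theorem YE_comm {c : ℝ} (hc : c ≠ 0) (k l : D.N) : Commute (D.YE hc k) (D.YE hc l) := by
  have h1 : Commute (⟨D.Y k, D.Y_mem k⟩ : Cm hK ν hG) ⟨D.Y l, D.Y_mem l⟩ :=
    Subtype.ext (D.Y_comm k l)
  exact h1.map (resAlg hG hc)

theorem sE_comm {c : ℝ} (hc : c ≠ 0) (k : D.N) :
    D.sE hc * D.YE hc k = D.YE hc (D.σ k) * D.sE hc := by
  unfold sE YE
  rw [← map_mul, ← map_mul]
  congr 1
  exact Subtype.ext (D.s_comm k)

theorem sE_pow {c : ℝ} (hc : c ≠ 0) : D.sE hc ^ 3 = 1 := by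
  unfold sE
  rw [← map_pow, ← map_one (resAlg hG (hK := hK) (ν := ν) hc)]
  congr 1
  exact Subtype.ext D.s3

theorem toInv_pow {c : ℝ} (hc : c ≠ 0) (k : D.N) (a : ℂ) (n : ℕ) (f : Eig hK ν c) :
    toInv hG hc (((D.YE hc k - a • (1 : Module.End ℂ (Eig hK ν c))) ^ n) f) =
      ((D.Y k - a • (1 : Module.End ℂ (BInv G X))) ^ n) (toInv hG hc f) := by
  induction n with
  | zero => rfl
  | succ n ih =>
    rw [pow_succ', pow_succ', Module.End.mul_apply, Module.End.mul_apply, ← ih,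
      LinearMap.sub_apply, LinearMap.sub_apply, map_sub]
    rfl

/-- elements of a block, as bounded invariant functions -/
theorem toInv_of_blk {c : ℝ} (hc : c ≠ 0) {χ : D.N → ℂ} {v : Eig hK ν c}
    (hv : v ∈ blk (D.YE hc) χ) (k : D.N) :
    ∃ n : ℕ, ((D.Y k - χ k • (1 : Module.End ℂ (BInv G X))) ^ n) (toInv hG hc v) = 0 := by
  rw [mem_blk] at hv
  obtain ⟨n, hn⟩ := hv k
  exact ⟨n, by rw [← D.toInv_pow hc, hn, map_zero]⟩

/-- The positivity statement on the eigenspace from the one on bounded invariant functions. -/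
theorem sE_apply {c : ℝ} (hc : c ≠ 0) {v : Eig hK ν c}
    (h : D.s (toInv hG hc v) = toInv hG hc v) : D.sE hc v = v := by
  apply toInv_injective hG hc
  unfold sE
  rw [toInv_resAlg]
  exact h

theorem toL2_injective (hK : BK K) (ν : Measure X) [IsFiniteMeasure ν] {c : ℝ} (hc : c ≠ 0) :
    Function.Injective (Eig.toL2 hK ν c) := by
  intro f g h
  apply (eigEquiv hK ν hc).injective
  apply Subtype.ext
  rw [coe_eigEquiv, coe_eigEquiv, h]

theorem symmOn_YE {c : ℝ} (hc : c ≠ 0) {k : D.N} (hk : IsAdj ν (D.Y k) (D.Y k)) :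
    SymmOn (Eig.toL2 hK ν c) (D.YE hc k) := by
  intro v w
  rw [pair_toL2, pair_toL2]
  exact hk (toInv hG hc v) (toInv hG hc w)

/-- On a block, symmetric members of the family act by scalars. -/
theorem apply_of_blk {c : ℝ} (hc : c ≠ 0) {χ : D.N → ℂ} {v : Eig hK ν c}
    (hv : v ∈ blk (D.YE hc) χ) {k : D.N} (hk : IsAdj ν (D.Y k) (D.Y k)) :
    D.Y k (toInv hG hc v) = χ k • toInv hG hc v := by
  have h := SymmOn.of_mem_blk (toL2_injective hK ν hc) (D.symmOn_YE hc hk) hv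
  have h2 := congrArg (toInv hG hc) h
  rwa [map_smul] at h2

theorem real_of_blk {c : ℝ} (hc : c ≠ 0) {χ : D.N → ℂ} (h : blk (D.YE hc) χ ≠ ⊥) (l : J) :
    (χ (D.j l)).im = 0 ∧ |(χ (D.j l)).re| ≤ D.B l := by
  have hev := hasEigenvalue_of_blk h (D.j l)
  have h1 : (χ (D.j l)).im = 0 :=
    im_eq_zero_of_isAdj hG (D.adj l) ((mem_Cm hG).mp (D.Y_mem (D.j l))) hc hev
  have h2 : ‖χ (D.j l)‖ ≤ D.B l :=
    norm_eigenvalue_le hG (D.bnd l) ((mem_Cm hG).mp (D.Y_mem (D.j l))) hc hev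
  exact ⟨h1, (Complex.abs_re_le_norm _).trans h2⟩

/-- the normalised operator `U` -/
def T : Module.End ℂ (BInv G X) := (((Real.sqrt D.q)⁻¹ : ℝ) : ℂ) • (D.W * (D.P - 1))

theorem T_apply (f : BInv G X) :
    D.T f = (((Real.sqrt D.q)⁻¹ : ℝ) : ℂ) • D.W (D.P f - f) := by
  rw [T, LinearMap.smul_apply, Module.End.mul_apply, LinearMap.sub_apply, Module.End.one_apply]

theorem T_mem : D.T ∈ Cm hK ν hG := by
  rw [mem_Cm]
  intro f
  rw [T_apply, T_apply, map_smul, (mem_Cm hG).mp D.W_mem, map_sub, (mem_Cm hG).mp D.P_mem]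

theorem T_eigenvalue {c : ℝ} (hc : c ≠ 0) {mu : ℂ}
    (h : Module.End.HasEigenvalue (resAlg hG hc ⟨D.T, D.T_mem⟩) mu) :
    ‖mu‖ ≤ Real.sqrt D.q ∧ (‖mu‖ = 1 ∨ mu.im = 0) := by
  have hq0 : 0 < D.q := lt_of_lt_of_le one_pos D.one_le_q
  have hsq : 0 < Real.sqrt D.q := Real.sqrt_pos.mpr hq0
  obtain ⟨f, hf, hf0⟩ := h.exists_hasEigenvector
  rw [Module.End.mem_eigenspace_iff] at hf
  have hU : D.W (D.P (toInv hG hc f) - toInv hG hc f) =
      (((Real.sqrt D.q : ℝ) : ℂ) * mu) • toInv hG hc f := by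
    have h1 : toInv hG hc (resAlg hG hc ⟨D.T, D.T_mem⟩ f) = mu • toInv hG hc f := by
      rw [hf, map_smul]
    have h2 : toInv hG hc (resAlg hG hc ⟨D.T, D.T_mem⟩ f) =
        (((Real.sqrt D.q)⁻¹ : ℝ) : ℂ) • (D.W (D.P (toInv hG hc f) - toInv hG hc f)) := by
      rw [toInv_resAlg]
      exact D.T_apply _
    rw [h1] at h2
    rw [mul_smul, h2, smul_smul, ← Complex.ofReal_mul, mul_inv_cancel₀ hsq.ne',
      Complex.ofReal_one, one_smul]
  have key := U_eigenvalue hG D.one_le_q D.W_mem D.P_mem D.W_adj D.P_adj D.W_sq D.P_sq hc hf0 hU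
  rw [norm_mul, Complex.norm_real, Real.norm_of_nonneg hsq.le] at key
  rcases key with ⟨h1, h2⟩ | h1
  · rw [Complex.im_ofReal_mul] at h1
    have h3 : mu.im = 0 := (mul_eq_zero.mp h1).resolve_left hsq.ne'
    refine ⟨?_, Or.inr h3⟩
    have h4 : Real.sqrt D.q * ‖mu‖ ≤ Real.sqrt D.q * Real.sqrt D.q := by
      rw [Real.mul_self_sqrt hq0.le]; exact h2
    exact le_of_mul_le_mul_left h4 hsq
  · have h2 : ‖mu‖ = 1 := by
      rw [mul_pow, Real.sq_sqrt hq0.le] at h1
      have h3 : ‖mu‖ ^ 2 = 1 := mul_left_cancel₀ hq0.ne' (h1.trans (mul_one D.q).symm)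
      nlinarith [norm_nonneg mu]
    exact ⟨by rw [h2]; exact Real.one_le_sqrt.mpr D.one_le_q, Or.inl h2⟩

variable [MeasurableSpace.CountablyGenerated X]

theorem bound_of_blk {c : ℝ} (hc : c ≠ 0) {χ : D.N → ℂ} (h : blk (D.YE hc) χ ≠ ⊥) :
    ‖χ D.u‖ ≤ Real.sqrt D.q ^ D.e ∧ (‖χ D.u‖ = 1 ∨ (χ D.u).im = 0) := by
  have := finite_Eig (ν := ν) hK hc
  have hev := hasEigenvalue_of_blk h D.u
  have h1 : D.YE hc D.u = (resAlg hG hc ⟨D.T, D.T_mem⟩) ^ D.e := by
    unfold YE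
    rw [← map_pow]
    congr 1
    exact Subtype.ext D.Y_u
  rw [h1, Module.End.hasEigenvalue_iff_mem_spectrum, spectrum.map_pow_of_pos _ D.e_pos] at hev
  obtain ⟨mu, hmu, hmu2⟩ := hev
  rw [← Module.End.hasEigenvalue_iff_mem_spectrum] at hmu
  obtain ⟨h2, h3⟩ := D.T_eigenvalue hc hmu
  have h4 : χ D.u = mu ^ D.e := hmu2.symm
  rw [h4, norm_pow]
  refine ⟨pow_le_pow_left₀ (norm_nonneg _) h2 _, ?_⟩
  rcases h3 with h3 | h3
  · left; rw [h3, one_pow]
  · right
    obtain ⟨r, rfl⟩ : ∃ r : ℝ, (r : ℂ) = mu := ⟨mu.re, Complex.ext rfl (by simp [h3])⟩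
    rw [← Complex.ofReal_pow, Complex.ofReal_im]

theorem summable_finrank (hK : BK K) (ν : Measure X) [IsFiniteMeasure ν]
    (hsym : ∀ x y, K y x = conj (K x y)) :
    Summable fun c : {c : ℝ // c ≠ 0} => (c : ℝ) ^ 2 * Module.finrank ℂ (Eig hK ν (c : ℝ)) := by
  have h1 := hasSum_trace_Eig (ν := ν) hK hsym hK (fun c => LinearMap.id)
    (fun c _ f x => by rw [← Eig.eq f x]; rfl)
  have h2 := h1.summable
  have h3 : Summable fun c : ℝ => c ^ 2 * (Module.finrank ℂ (Eig hK ν c) : ℝ) := by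
    rw [← Complex.summable_ofReal]
    refine h2.congr fun c => ?_
    by_cases hc : c = 0
    · subst hc; simp
    · have := finite_Eig (ν := ν) hK hc
      have h4 : LinearMap.trace ℂ (Eig hK ν c) LinearMap.id = Module.finrank ℂ (Eig hK ν c) :=
        LinearMap.trace_id ℂ _
      rw [h4]
      push_cast
      ring
  exact h3.subtype _

/-- **One side of the comparison** from the kernel package. -/
def side (hsym : ∀ x y, K y x = conj (K x y)) : SideC J where
  ι := {c : ℝ // c ≠ 0}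
  a c := (c : ℝ) ^ 2
  a_nonneg _ := sq_nonneg _
  E c := Eig hK ν (c : ℝ)
  instF c := finite_Eig hK c.2
  K := D.N
  Y c := D.YE c.2
  comm c k l := D.YE_comm c.2 k l
  σ := D.σ
  σ3 := D.σ3
  s c := D.sE c.2
  s3 c := D.sE_pow c.2
  s_comm c k := D.sE_comm c.2 k
  summable := summable_finrank hK ν hsym
  j := D.j
  u := D.u
  B := D.B
  R := Real.sqrt D.q ^ D.e
  real c _ _ h l := D.real_of_blk c.2 h l
  bound c _ _ h := D.bound_of_blk c.2 h

theorem lprod_mem (L : List D.N) : lprod D.Y L ∈ Cm hK ν hG := by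
  unfold lprod
  refine Subalgebra.list_prod_mem _ fun A hA => ?_
  obtain ⟨k, -, rfl⟩ := List.mem_map.mp hA
  exact D.Y_mem k

theorem lprod_YE {c : ℝ} (hc : c ≠ 0) (L : List D.N) :
    lprod (D.YE hc) L = resAlg hG hc ⟨lprod D.Y L, D.lprod_mem L⟩ := by
  induction L with
  | nil =>
    change (1 : Module.End ℂ (Eig hK ν c)) = resAlg hG hc 1
    rw [map_one]
  | cons k L ih =>
    have h1 : lprod (D.YE hc) (k :: L) = D.YE hc k * lprod (D.YE hc) L := by
      unfold lprod; rw [List.map_cons, List.prod_cons]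
    rw [h1, ih]
    unfold YE
    rw [← map_mul]
    congr 1

/-- **The trace on one side is an integral of kernels.** -/
theorem side_tr (hsym : ∀ x y, K y x = conj (K x y)) (L : List J) (m : ℕ) {M : X → X → ℂ}
    (hM : BK M)
    (hMf : ∀ (f : BInv G X) (x : X), ∫ y, M x y * (f : X → ℂ) y ∂ν =
      (kop hK ν hG ((lprod D.Y (L.map D.j ++ List.replicate m D.u) * D.s) f) : X → ℂ) x) :
    (D.side hsym).tr L m = ∫ x, ∫ y, K x y * M y x ∂ν ∂ν := by
  classical
  have hmem : lprod D.Y (L.map D.j ++ List.replicate m D.u) * D.s ∈ Cm hK ν hG :=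
    (Cm hK ν hG).mul_mem (D.lprod_mem _) D.s_mem
  set A : Cm hK ν hG := ⟨_, hmem⟩ with hA
  have h1 := hasSum_trace_Eig (ν := ν) hK hsym hM
    (fun c => if hc : c ≠ 0 then resAlg hG hc A else 0)
    (fun c hc f x => by
      rw [dif_pos hc]
      have h2 := hMf (toInv hG hc f) x
      rw [toInv_coe] at h2
      rw [h2]
      have h3 : kop hK ν hG ((A : Module.End ℂ (BInv G X)) (toInv hG hc f)) =
          (c : ℂ) • toInv hG hc (resAlg hG hc A f) := by
        rw [← toInv_resAlg, kop_toInv]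
      exact congrArg (fun F : BInv G X => (F : X → ℂ) x) h3)
  have hinj : Function.Injective (Subtype.val : {c : ℝ // c ≠ 0} → ℝ) := Subtype.val_injective
  have h2 := (hinj.hasSum_iff (f := fun c : ℝ => (c : ℂ) ^ 2 * LinearMap.trace ℂ _
    (if hc : c ≠ 0 then resAlg hG hc A else 0 : Module.End ℂ (Eig hK ν c))) (by
      intro x hx
      have : x = 0 := by
        by_contra h
        exact hx ⟨⟨x, h⟩, rfl⟩
      subst this
      simp)).mpr h1
  rw [← h2.tsum_eq]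
  unfold SideC.tr
  refine tsum_congr fun c => ?_
  change ((c.1 ^ 2 : ℝ) : ℂ) * LinearMap.trace ℂ (Eig hK ν c.1)
    (lprod (D.YE c.2) (L.map D.j ++ List.replicate m D.u) * D.sE c.2) = _
  rw [D.lprod_YE c.2]
  unfold sE
  rw [← map_mul, Complex.ofReal_pow]
  change _ = ((c.1 : ℝ) : ℂ) ^ 2 * LinearMap.trace ℂ (Eig hK ν c.1)
    (if hc : c.1 ≠ 0 then resAlg hG hc A else 0)
  rw [dif_pos c.2]
  rfl

end OpData

end Fermat.Agent.H21Z
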