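import Fermat.Agent.H32ZCut

/-!
# S47, block (C): cut-offs and automorphisms

* `CutOff.integrable_indep`, `CutOff.integral_indep`: the Bochner integral of a `G`-invariant
  function does not depend on the cut-off;
* `CutOff.pull`: pull back of a cut-off under a map `s` with `s (g • x) = σ g • s x`;
* `CutOff.lintegral_twist`, `CutOff.integral_twist`: invariance of the integral over `G \ X` under
  measure preserving `s`;
* `autK_twist`, `CutOff.integral_autK_twist`: automorphic kernels and `s`.
-/

set_option autoImplicit false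
set_option linter.unusedSectionVars false

noncomputable section

open MeasureTheory Filter
open scoped ENNReal

namespace Fermat.Agent.H32Z

namespace CutOff

section indep2

variable {G X : Type*} [Group G] [MulAction G X] [MeasurableSpace X] [Countable G]
  [MeasurableConstSMul G X] {μ : Measure X} [SMulInvariantMeasure G X μ] (c c' : CutOff G X)
  {E : Type*} [NormedAddCommGroup E] [NormedSpace ℝ E]

theorem aestronglyMeasurable_ν_iff {F : X → E} (hm : AEStronglyMeasurable F μ) :
    AEStronglyMeasurable F (c.ν μ) := hm.mono_ac (c.ν_ac μ)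

include c c' in
/-- integrability of an invariant function does not depend on the cut-off -/
theorem integrable_indep {F : X → E} (hm : AEStronglyMeasurable F μ)
    (hinv : ∀ (g : G) x, F (g • x) = F x) :
    Integrable F (c.ν μ) ↔ Integrable F (c'.ν μ) := by
  have h := c.lintegral_indep c' (F := fun x => ‖F x‖ₑ) hm.enorm (fun g x => by rw [hinv])
  constructor
  · intro hi
    refine ⟨hm.mono_ac (c'.ν_ac μ), ?_⟩
    unfold HasFiniteIntegral
    rw [← h]
    exact hi.hasFiniteIntegral
  · intro hi
    refine ⟨hm.mono_ac (c.ν_ac μ), ?_⟩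
    unfold HasFiniteIntegral
    rw [h]
    exact hi.hasFiniteIntegral

include c c' in
/-- the Bochner integral of an invariant function does not depend on the cut-off -/
theorem integral_indep {F : X → E} (hm : AEStronglyMeasurable F μ)
    (hinv : ∀ (g : G) x, F (g • x) = F x) :
    ∫ x, F x ∂(c.ν μ) = ∫ x, F x ∂(c'.ν μ) := by
  by_cases hi : Integrable F (c.ν μ)
  · have h1 : Integrable (fun x => (c.χ x).toReal • F x) μ := c.integrable_ν_iff.mp hi
    rw [c.integral_ν, c'.integral_unfold h1]
    refine integral_congr_ae (Eventually.of_forall fun x => ?_)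
    have h2 := (c.hasSum_smul x (F x))
    have h3 := ((Equiv.inv G).hasSum_iff
      (f := fun g : G => (c.χ (g • x)).toReal • F x) (a := F x)).mp h2
    simp only [hinv]
    exact h3.tsum_eq
  · have hi' : ¬ Integrable F (c'.ν μ) := fun h => hi ((c.integrable_indep c' hm hinv).mpr h)
    rw [integral_undef hi, integral_undef hi']

end indep2

section pull

variable {G X : Type*} [Group G] [MulAction G X] [MeasurableSpace X] (c : CutOff G X)

/-- the pull back of a cut-off -/
def pull {s : X → X} (hs : Measurable s) {σ : G ≃* G} (hσ : ∀ (g : G) x, s (g • x) = σ g • s x) :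
    CutOff G X where
  χ x := c.χ (s x)
  meas := c.meas.comp hs
  sum_eq x := by
    have h := σ.toEquiv.tsum_eq (fun g : G => c.χ (g • s x))
    rw [c.sum_eq] at h
    rw [← h]
    exact tsum_congr fun g => by rw [hσ]; rfl

variable [Countable G] [MeasurableConstSMul G X] {μ : Measure X} [SMulInvariantMeasure G X μ]

/-- the integral over `G \ X` is invariant under `s` -/
theorem lintegral_twist {s : X → X} (hs : MeasurePreserving s μ μ) {σ : G ≃* G}
    (hσ : ∀ (g : G) x, s (g • x) = σ g • s x) {F : X → ℝ≥0∞} (hF : AEMeasurable F μ)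
    (hinv : ∀ (g : G) x, F (g • x) = F x) :
    ∫⁻ x, F (s x) ∂(c.ν μ) = ∫⁻ x, F x ∂(c.ν μ) := by
  have hFs : AEMeasurable (fun x => F (s x)) μ := hF.comp_quasiMeasurePreserving
    hs.quasiMeasurePreserving
  rw [c.lintegral_indep (c.pull hs.measurable hσ) (F := fun x => F (s x)) hFs
    (fun g x => by rw [hσ, hinv]), (c.pull hs.measurable hσ).lintegral_ν μ hFs, c.lintegral_ν μ hF]
  have hmul : AEMeasurable (fun x => c.χ x * F x) μ := c.meas.aemeasurable.mul hF
  have h1 := lintegral_map' (f := fun x => c.χ x * F x) (g := s) (μ := μ)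
    (by rw [hs.map_eq]; exact hmul) hs.measurable.aemeasurable
  rw [hs.map_eq] at h1
  exact h1.symm

variable {E : Type*} [NormedAddCommGroup E] [NormedSpace ℝ E]

/-- the Bochner integral over `G \ X` is invariant under `s` -/
theorem integral_twist {s : X → X} (hs : MeasurePreserving s μ μ) {σ : G ≃* G}
    (hσ : ∀ (g : G) x, s (g • x) = σ g • s x) {F : X → E} (hF : AEStronglyMeasurable F μ)
    (hinv : ∀ (g : G) x, F (g • x) = F x) :
    ∫ x, F (s x) ∂(c.ν μ) = ∫ x, F x ∂(c.ν μ) := by
  have hFs : AEStronglyMeasurable (fun x => F (s x)) μ := hF.comp_quasiMeasurePreserving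
    hs.quasiMeasurePreserving
  rw [c.integral_indep (c.pull hs.measurable hσ) (F := fun x => F (s x)) hFs
    (fun g x => by rw [hσ, hinv]), (c.pull hs.measurable hσ).integral_ν, c.integral_ν]
  have hmul : AEStronglyMeasurable (fun x => (c.χ x).toReal • F x) μ :=
    c.meas.ennreal_toReal.aestronglyMeasurable.smul hF
  have h1 := integral_map (f := fun x => (c.χ x).toReal • F x) (φ := s) (μ := μ)
    hs.measurable.aemeasurable (by rw [hs.map_eq]; exact hmul)
  rw [hs.map_eq] at h1
  exact h1.symm

theorem integrable_twist {s : X → X} (hs : MeasurePreserving s μ μ) {σ : G ≃* G}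
    (hσ : ∀ (g : G) x, s (g • x) = σ g • s x) {F : X → E} (hF : AEStronglyMeasurable F μ)
    (hinv : ∀ (g : G) x, F (g • x) = F x) :
    Integrable (fun x => F (s x)) (c.ν μ) ↔ Integrable F (c.ν μ) := by
  have hFs : AEStronglyMeasurable (fun x => F (s x)) μ := hF.comp_quasiMeasurePreserving
    hs.quasiMeasurePreserving
  have h := c.lintegral_twist hs hσ (F := fun x => ‖F x‖ₑ) hF.enorm (fun g x => by rw [hinv])
  constructor
  · intro hi
    refine ⟨hF.mono_ac (c.ν_ac μ), ?_⟩
    unfold HasFiniteIntegral
    rw [← h]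
    exact hi.hasFiniteIntegral
  · intro hi
    refine ⟨hFs.mono_ac (c.ν_ac μ), ?_⟩
    unfold HasFiniteIntegral
    rw [h]
    exact hi.hasFiniteIntegral

end pull

section autK

variable {G X : Type*} [Group G] [MulAction G X]

/-- automorphic kernels and automorphisms -/
theorem autK_twist {s : X → X} {σ : G ≃* G} (hσ : ∀ (g : G) x, s (g • x) = σ g • s x)
    (k : X → X → ℂ) (x y : X) :
    autK G k (s x) (s y) = autK G (fun x y => k (s x) (s y)) x y := by
  unfold autK
  rw [← σ.toEquiv.tsum_eq (fun g : G => k (s x) (g • s y))]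
  refine tsum_congr fun g => ?_
  show k (s x) (σ g • s y) = k (s x) (s (g • y))
  rw [hσ]

theorem autK_twist_eq {s : X → X} {σ : G ≃* G} (hσ : ∀ (g : G) x, s (g • x) = σ g • s x)
    {k : X → X → ℂ} (hk : ∀ x y, k (s x) (s y) = k x y) (x y : X) :
    autK G k (s x) (s y) = autK G k x y := by
  rw [autK_twist hσ]
  simp only [hk]

variable [MeasurableSpace X] [Countable G] [MeasurableConstSMul G X] {μ : Measure X}
  [SMulInvariantMeasure G X μ] (c : CutOff G X)

/-- the kernel `autK G k x (s y)` against an invariant function -/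
theorem integral_autK_twist {s : X → X} (hs : MeasurePreserving s μ μ) {σ : G ≃* G}
    (hσ : ∀ (g : G) x, s (g • x) = σ g • s x) {k : X → X → ℂ} {x : X} {f : X → ℂ}
    (hf : ∀ (g : G) y, f (g • y) = f y) (hm : AEStronglyMeasurable (fun y => autK G k x y * f y) μ)
    (hi : Integrable (fun y => k x y * f y) μ) :
    ∫ y, autK G k x (s y) * f (s y) ∂(c.ν μ) = ∫ y, k x y * f y ∂μ := by
  rw [c.integral_autK hf hi]
  exact c.integral_twist hs hσ (F := fun y => autK G k x y * f y) hm
    (fun g y => by rw [autK_smul_right, hf])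

/-- version for a function precomposed with the inverse `t` of `s` -/
theorem integral_autK_twist' {s t : X → X} (hts : ∀ y, t (s y) = y)
    (hs : MeasurePreserving s μ μ) {σ : G ≃* G}
    (hσ : ∀ (g : G) x, s (g • x) = σ g • s x) {k : X → X → ℂ} {x : X} {f : X → ℂ}
    (hf : ∀ (g : G) y, f (t (g • y)) = f (t y))
    (hm : AEStronglyMeasurable (fun y => autK G k x y * f (t y)) μ)
    (hi : Integrable (fun y => k x y * f (t y)) μ) :
    ∫ y, autK G k x (s y) * f y ∂(c.ν μ) = ∫ y, k x y * f (t y) ∂μ := by
  rw [← c.integral_autK_twist hs hσ (f := fun y => f (t y)) hf hm hi]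
  simp only [hts]

end autK

end CutOff

end Fermat.Agent.H32Z
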