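import Fermat.Agent.H21Z1
import Fermat.Agent.H32ZTw
import Fermat.Agent.H51ZOp
import Fermat.Agent.H56ZRad4
import Fermat.Agent.H59Def2

/-!
# Operators on the bounded invariant functions of a model (helper21, S47, C-OPS)

* `gopB m a` : the operator of a global kernel `a : GlobKer m.L.fam`;
* `rkB m hκ` : the operator `R(κ)` of a radial kernel;
* `sB a` : the operator of an automorphism of the model;
* adjoints with respect to `c.ν m.μ` for every cut-off `c`.
-/

set_option autoImplicit false
set_option linter.unusedSectionVars false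

noncomputable section

open MeasureTheory Complex Filter
open scoped ENNReal ComplexConjugate Topology MatrixGroups
open Fermat.Agent.H32Z Fermat.Agent.H59XF Fermat.Agent.H51Z Fermat.Agent.H59D

namespace Fermat.Agent.H21Z

/-! ### Unfolding along a second variable -/

section swap

variable {G X D : Type*} [Group G] [MulAction G X] [MeasurableSpace X] [Countable G]
  [MeasurableConstSMul G X] {μ : Measure X} [SMulInvariantMeasure G X μ] [SFinite μ]
  [MulAction G D] [MeasurableSpace D] [MeasurableConstSMul G D] {δ : Measure D}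
  [SMulInvariantMeasure G D δ] [SFinite δ]

/-- a cut-off on a product -/
def cprod (c : CutOff G X) (D : Type*) [MulAction G D] [MeasurableSpace D] :
    CutOff G (X × D) where
  χ z := c.χ z.1
  meas := c.meas.comp measurable_fst
  sum_eq z := c.sum_eq z.1

theorem measurableConstSMul_prod : MeasurableConstSMul G (X × D) :=
  ⟨fun g => by
    have h1 : Measurable fun z : X × D => (g • z.1, g • z.2) :=
      ((measurable_const_smul g).comp measurable_fst).prodMk
        ((measurable_const_smul g).comp measurable_snd)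
    exact h1⟩

theorem smulInvariantMeasure_prod (μ : Measure X) [SMulInvariantMeasure G X μ] [SFinite μ]
    (δ : Measure D) [SMulInvariantMeasure G D δ] [SFinite δ] :
    SMulInvariantMeasure G (X × D) (μ.prod δ) :=
  ⟨fun g s hs => by
    have h1 : MeasurePreserving (fun z : X × D => (g • z.1, g • z.2)) (μ.prod δ) (μ.prod δ) :=
      (measurePreserving_smul g μ).prod (measurePreserving_smul g δ)
    exact h1.measure_preimage hs.nullMeasurableSet⟩

theorem cprod_ν (c : CutOff G X) : (cprod c D).ν (μ.prod δ) = (c.ν μ).prod δ :=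
  (prod_withDensity_left c.meas).symm

/-- **Unfolding and swapping.** -/
theorem integral_swap (c : CutOff G X) [SFinite (c.ν μ)] {sw : X × D → X × D}
    (hsw : MeasurePreserving sw (μ.prod δ) (μ.prod δ))
    (hG : ∀ (g : G) (z : X × D), sw (g • z) = g • sw z) {F : X × D → ℂ}
    (hF : AEStronglyMeasurable F (μ.prod δ)) (hinv : ∀ (g : G) (z : X × D), F (g • z) = F z)
    (hi : Integrable F ((c.ν μ).prod δ)) :
    ∫ x, ∫ d, F (x, d) ∂δ ∂(c.ν μ) = ∫ x, ∫ d, F (sw (x, d)) ∂δ ∂(c.ν μ) := by
  have i1 : MeasurableConstSMul G (X × D) := measurableConstSMul_prod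
  have i2 : SMulInvariantMeasure G (X × D) (μ.prod δ) := smulInvariantMeasure_prod μ δ
  have h1 := (cprod c D).integral_twist hsw (σ := MulEquiv.refl G) hG hF hinv
  have h2 := ((cprod c D).integrable_twist hsw (σ := MulEquiv.refl G) hG hF hinv).mpr
    (by rw [cprod_ν]; exact hi)
  rw [cprod_ν] at h1 h2
  rw [integral_prod F hi, integral_prod (fun z => F (sw z)) h2] at h1
  exact h1.symm

end swap

/-! ### Measure preserving swaps -/

section mp

variable {T Y : Type*} [MeasurableSpace T] [MeasurableSpace Y] (τ : Measure T) [SFinite τ]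
  (γ : Measure Y) [SFinite γ]

theorem mp_swap_right : MeasurePreserving (fun z : (T × Y) × Y => ((z.1.1, z.2), z.1.2))
    ((τ.prod γ).prod γ) ((τ.prod γ).prod γ) := by
  have h1 : MeasurePreserving (MeasurableEquiv.prodAssoc : (T × Y) × Y ≃ᵐ T × Y × Y)
      ((τ.prod γ).prod γ) (τ.prod (γ.prod γ)) := ⟨MeasurableEquiv.prodAssoc.measurable,
    Measure.prodAssoc_prod⟩
  have h2 : MeasurePreserving (Prod.map id Prod.swap : T × Y × Y → T × Y × Y)
      (τ.prod (γ.prod γ)) (τ.prod (γ.prod γ)) :=
    (MeasurePreserving.id τ).prod Measure.measurePreserving_swap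
  have h3 : MeasurePreserving (MeasurableEquiv.prodAssoc : (T × Y) × Y ≃ᵐ T × Y × Y).symm
      (τ.prod (γ.prod γ)) ((τ.prod γ).prod γ) := h1.symm _
  exact h3.comp (h2.comp h1)

theorem mp_swap_left : MeasurePreserving (fun z : (T × Y) × T => ((z.2, z.1.2), z.1.1))
    ((τ.prod γ).prod τ) ((τ.prod γ).prod τ) := by
  have h1 : MeasurePreserving (Prod.map Prod.swap id : (T × Y) × T → (Y × T) × T)
      ((τ.prod γ).prod τ) ((γ.prod τ).prod τ) :=
    Measure.measurePreserving_swap.prod (MeasurePreserving.id τ)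
  have h2 := mp_swap_right γ τ
  have h3 : MeasurePreserving (Prod.map Prod.swap id : (Y × T) × T → (T × Y) × T)
      ((γ.prod τ).prod τ) ((τ.prod γ).prod τ) :=
    Measure.measurePreserving_swap.prod (MeasurePreserving.id τ)
  exact h3.comp (h2.comp h1)

end mp

/-! ### Bounds for global kernels -/

section bounds

variable {G : Type*} [Group G] {ι : Type*} {L : LevelFam G ι}

theorem exists_lop_bound (i : ι) (κ : LocKer (L.U i)) : ∃ B : ℝ, 0 ≤ B ∧
    ∀ (f : XF L → ℂ) (C : ℝ), (∀ y, ‖f y‖ ≤ C) → ∀ x, ‖lop i κ f x‖ ≤ B * C := by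
  classical
  refine ⟨∑ y ∈ ls κ ((1 : G) : G ⧸ L.U i), ‖κ.k ((1 : G) : G ⧸ L.U i) y‖,
    Finset.sum_nonneg fun _ _ => norm_nonneg _, fun f C hC x => ?_⟩
  obtain ⟨g, hg⟩ : ∃ g : G, g • ((1 : G) : G ⧸ L.U i) = x i := by
    obtain ⟨g, hg⟩ := QuotientGroup.mk_surjective (x i)
    exact ⟨g, by rw [← hg]; show (((g * 1 : G)) : G ⧸ L.U i) = _; rw [mul_one]⟩
  rw [lop_def, ← hg, ls_smul, Finset.sum_image (fun y _ y' _ h => MulAction.injective g h),
    Finset.sum_mul]
  refine (norm_sum_le _ _).trans (Finset.sum_le_sum fun y _ => ?_)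
  rw [κ.inv, norm_smul]
  exact mul_le_mul_of_nonneg_left (hC _) (norm_nonneg _)

theorem exists_gop_bound (a : GlobKer L) : ∃ B : ℝ, 0 ≤ B ∧
    ∀ (f : XF L → ℂ) (C : ℝ), (∀ y, ‖f y‖ ≤ C) → ∀ x, ‖gop a f x‖ ≤ B * C := by
  classical
  have main : ∀ (T : Finset ι) (a : GlobKer L), (∀ i ∉ T, a.loc i = LocKer.one) →
      ∃ B : ℝ, 0 ≤ B ∧ ∀ (f : XF L → ℂ) (C : ℝ), (∀ y, ‖f y‖ ≤ C) → ∀ x, ‖gop a f x‖ ≤ B * C := by
    intro T
    induction T using Finset.induction_on with
    | empty =>
      intro a ha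
      have ha' : a = gone := gext (fun i => ha i (by simp))
      subst ha'
      exact ⟨1, zero_le_one, fun f C hC x => by rw [gop_gone, one_mul]; exact hC x⟩
    | insert i T hiT ih =>
      intro a ha
      obtain ⟨B, hB, h⟩ := ih (gset a i LocKer.one) (fun j hj => by
        by_cases hji : j = i
        · subst hji; simp
        · rw [gset_ne _ hji]
          exact ha j (by simp [hji, hj]))
      obtain ⟨B', hB', h'⟩ := exists_lop_bound i (a.loc i)
      refine ⟨B' * B, mul_nonneg hB' hB, fun f C hC x => ?_⟩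
      rw [gop_split a i, mul_assoc]
      exact h' _ _ (h f C hC) x
  exact main a.fin.toFinset a (fun i hi => by
    by_contra h
    exact hi (by simp [h]))

/-- the sup-norm bound of a global kernel -/
def gbd (a : GlobKer L) : ℝ := (exists_gop_bound a).choose

theorem gbd_nonneg (a : GlobKer L) : 0 ≤ gbd a := (exists_gop_bound a).choose_spec.1

theorem norm_gop_le (a : GlobKer L) {f : XF L → ℂ} {C : ℝ} (hC : ∀ y, ‖f y‖ ≤ C) (x : XF L) :
    ‖gop a f x‖ ≤ gbd a * C := (exists_gop_bound a).choose_spec.2 f C hC x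

theorem sum_norm_le (a : GlobKer L) (x : XF L) : ∑ y ∈ gs a x, ‖a.k x y‖ ≤ gbd a := by
  classical
  have h := norm_gop_le a (f := fun y => conj (a.k x y) / ‖a.k x y‖) (C := 1) (fun y => by
    rw [norm_div, Complex.norm_real, norm_norm, RCLike.norm_conj]
    exact div_self_le_one _) x
  rw [mul_one, gop_def] at h
  have h1 : ∑ y ∈ gs a x, a.k x y • (conj (a.k x y) / (‖a.k x y‖ : ℂ)) =
      ((∑ y ∈ gs a x, ‖a.k x y‖ : ℝ) : ℂ) := by
    rw [Complex.ofReal_sum]
    refine Finset.sum_congr rfl fun y hy => ?_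
    have hy' : (‖a.k x y‖ : ℂ) ≠ 0 := by
      rw [mem_gs] at hy
      exact_mod_cast (norm_pos_iff.mpr hy).ne'
    rw [smul_eq_mul, mul_div_assoc', Complex.mul_conj, Complex.normSq_eq_norm_sq]
    push_cast
    field_simp
  rw [h1, Complex.norm_real, Real.norm_of_nonneg (Finset.sum_nonneg fun _ _ => norm_nonneg _)] at h
  exact h

theorem tsum_enorm_le (a : GlobKer L) (x : XF L) :
    ∑' y, ‖a.k x y‖ₑ ≤ ENNReal.ofReal (gbd a) := by
  classical
  rw [tsum_eq_sum (s := gs a x) (fun y hy => by
    rw [mem_gs, not_not] at hy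
    rw [hy, enorm_zero])]
  have h1 : ∑ y ∈ gs a x, ‖a.k x y‖ₑ = ENNReal.ofReal (∑ y ∈ gs a x, ‖a.k x y‖) := by
    rw [ENNReal.ofReal_sum_of_nonneg fun _ _ => norm_nonneg _]
    exact Finset.sum_congr rfl fun y _ => by rw [ofReal_norm]
  rw [h1]
  exact ENNReal.ofReal_le_ofReal (sum_norm_le a x)

/-- the complex conjugate of a local kernel -/
def lconj {H : Subgroup G} (κ : LocKer H) : LocKer H where
  k x y := conj (κ.k x y)
  inv g x y := by rw [κ.inv]
  fin_right x := (κ.fin_right x).subset (by
    intro y hy h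
    exact hy (by show conj (κ.k x y) = 0; rw [h, map_zero]))
  fin_left y := (κ.fin_left y).subset (by
    intro x hx h
    exact hx (by show conj (κ.k x y) = 0; rw [h, map_zero]))

@[simp] theorem lconj_k {H : Subgroup G} (κ : LocKer H) (x y : G ⧸ H) :
    (lconj κ).k x y = conj (κ.k x y) := rfl

theorem lconj_one {H : Subgroup G} : lconj (LocKer.one : LocKer H) = LocKer.one := by
  classical
  ext x y
  rw [lconj_k, LocKer.one_k]
  split_ifs <;> simp

/-- the complex conjugate of a global kernel -/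
def gconj (a : GlobKer L) : GlobKer L :=
  ⟨fun i => lconj (a.loc i), a.fin.subset (by
    intro i hi h
    exact hi (by rw [h, lconj_one]))⟩

@[simp] theorem gconj_loc (a : GlobKer L) (i : ι) : (gconj a).loc i = lconj (a.loc i) := rfl

theorem gconj_k (a : GlobKer L) (x y : XF L) : (gconj a).k x y = conj (a.k x y) := by
  unfold GlobKer.k
  rw [finprod_eq_prod _ ((gconj a).mulSupport_finite x y),
    finprod_eq_prod_of_mulSupport_subset (s := ((gconj a).mulSupport_finite x y).toFinset), map_prod]
  · rfl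
  · intro i hi
    simp only [Set.Finite.coe_toFinset, Function.mem_mulSupport, gconj_loc, lconj_k] at hi ⊢
    intro h
    apply hi
    have := congrArg conj h
    simpa using this

/-- the adjoint of a global kernel -/
def gadj (a : GlobKer L) : GlobKer L := gtr (gconj a)

theorem gadj_k (a : GlobKer L) (x y : XF L) : (gadj a).k x y = conj (a.k y x) := by
  unfold gadj
  rw [gtr_k, gconj_k]

theorem gadj_loc_k (a : GlobKer L) (i : ι) (x y : G ⧸ L.U i) :
    ((gadj a).loc i).k x y = conj ((a.loc i).k y x) := rfl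

theorem gadj_eq_self {a : GlobKer L} (h : ∀ i x y, (a.loc i).k y x = conj ((a.loc i).k x y)) :
    gadj a = a := by
  apply gext
  intro i
  ext x y
  rw [gadj_loc_k, h i x y, Complex.conj_conj]

end bounds

end Fermat.Agent.H21Z
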