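import Fermat.Agent.H21Z3

/-!
# Operators on the bounded invariant functions of a model, part 2 (helper21, S47, C-OPS)

* `gopB m a` : the operator of a global kernel `a : GlobKer m.L.fam`;
* `rkB m hκ` : the operator `R(κ)` of a radial kernel;
* `sB a` : the operator of an automorphism of the model.
-/

set_option autoImplicit false
set_option linter.unusedSectionVars false

noncomputable section

open MeasureTheory Complex Filter
open scoped ENNReal ComplexConjugate Topology MatrixGroups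
open Fermat.Agent.H32Z Fermat.Agent.H59XF Fermat.Agent.H51Z Fermat.Agent.H59D Fermat.Agent.H5Z
open Fermat.Agent.H56Z (IsRC IsLB)

namespace Fermat.Agent.H21Z

variable {K : Type*} [Field K] [NumberField K] {J : Type*} [Fintype J] (m : Model K J)

instance instMeasConstSMul : MeasurableConstSMul PGL(2, K) m.X := ⟨fun g => m.measurable_smul g⟩

instance instSMulInvMeas : SMulInvariantMeasure PGL(2, K) m.X m.μ :=
  ⟨fun g s hs => (m.measurePreserving_smul' g).measure_preimage hs.nullMeasurableSet⟩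

/-! ### Discrete operators -/

section discrete

/-- the operator of a global kernel on functions on `m.X` -/
def gopX (a : GlobKer m.L.fam) (f : m.X → ℂ) (x : m.X) : ℂ := gop a (fun y => f (x.1, y)) x.2

theorem gopX_apply (a : GlobKer m.L.fam) (f : m.X → ℂ) (x : m.X) :
    gopX m a f x = ∑ y ∈ gs a x.2, a.k x.2 y * f (x.1, y) := rfl

theorem measurable_gopX (a : GlobKer m.L.fam) {f : m.X → ℂ} (hf : Measurable f) :
    Measurable (gopX m a f) := by
  rw [m.measurable_iff]
  intro y0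
  have h1 : (fun x : J → H3 => gopX m a f (x, y0)) =
      fun x => ∑ y ∈ gs a y0, a.k y0 y * f (x, y) := rfl
  rw [h1]
  exact Finset.measurable_sum _ fun y _ => (((m.measurable_iff f).mp hf) y).const_mul _

theorem gopX_smul (a : GlobKer m.L.fam) {f : m.X → ℂ} (hf : ∀ (g : PGL(2, K)) x, f (g • x) = f x)
    (g : PGL(2, K)) (x : m.X) : gopX m a f (g • x) = gopX m a f x := by
  show gop a (fun y => f ((g • x).1, y)) (g • x.2) = gop a (fun y => f (x.1, y)) x.2
  rw [gop_smul]
  congr 1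
  funext y
  exact hf g (x.1, y)

theorem norm_gopX_le (a : GlobKer m.L.fam) {f : m.X → ℂ} {C : ℝ} (hC : ∀ x, ‖f x‖ ≤ C) (x : m.X) :
    ‖gopX m a f x‖ ≤ gbd a * C := norm_gop_le a (fun _ => hC _) _

/-- **The operator of a global kernel** on bounded invariant functions. -/
def gopB (a : GlobKer m.L.fam) : Module.End ℂ (BInv PGL(2, K) m.X) where
  toFun f := ⟨gopX m a (f : m.X → ℂ), measurable_gopX m a (BInv.measurable f), by
    obtain ⟨C, hC⟩ := BInv.bounded f
    exact ⟨gbd a * C, norm_gopX_le m a hC⟩, gopX_smul m a (BInv.inv f)⟩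
  map_add' f g := by
    apply Subtype.ext
    funext x
    exact congrFun (gop_add a (fun y => (f : m.X → ℂ) (x.1, y)) (fun y => (g : m.X → ℂ) (x.1, y)))
      x.2
  map_smul' c f := by
    apply Subtype.ext
    funext x
    exact congrFun (gop_smul_const a c (fun y => (f : m.X → ℂ) (x.1, y))) x.2

@[simp] theorem gopB_coe (a : GlobKer m.L.fam) (f : BInv PGL(2, K) m.X) :
    (gopB m a f : m.X → ℂ) = gopX m a (f : m.X → ℂ) := rfl

theorem gopB_apply (a : GlobKer m.L.fam) (f : BInv PGL(2, K) m.X) (x : m.X) :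
    (gopB m a f : m.X → ℂ) x = gop a (fun y => (f : m.X → ℂ) (x.1, y)) x.2 := rfl

theorem gopX_gmul (a b : GlobKer m.L.fam) (f : m.X → ℂ) :
    gopX m (gmul a b) f = gopX m a (gopX m b f) := by
  funext x
  exact congrFun (gop_gmul a b (fun y => f (x.1, y))) x.2

theorem gopB_gmul (a b : GlobKer m.L.fam) : gopB m (gmul a b) = gopB m a * gopB m b := by
  apply LinearMap.ext
  intro f
  apply Subtype.ext
  exact gopX_gmul m a b _

theorem gopB_gone : gopB m gone = 1 := by
  apply LinearMap.ext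
  intro f
  apply Subtype.ext
  funext x
  exact congrFun (gop_gone (fun y => (f : m.X → ℂ) (x.1, y))) x.2

theorem gopB_commute {a b : GlobKer m.L.fam} (h : gmul a b = gmul b a) :
    Commute (gopB m a) (gopB m b) := by
  show gopB m a * gopB m b = gopB m b * gopB m a
  rw [← gopB_gmul, ← gopB_gmul, h]

theorem gopB_bound (a : GlobKer m.L.fam) (f : BInv PGL(2, K) m.X) (C : ℝ)
    (hC : ∀ x, ‖(f : m.X → ℂ) x‖ ≤ C) (x : m.X) : ‖(gopB m a f : m.X → ℂ) x‖ ≤ gbd a * C :=
  norm_gopX_le m a hC x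

instance instMeasConstSMulXF : MeasurableConstSMul PGL(2, K) (XF m.L.fam) :=
  ⟨fun _ => measurable_of_countable _⟩

instance instSMulInvMeasXF :
    SMulInvariantMeasure PGL(2, K) (XF m.L.fam) (Measure.count : Measure (XF m.L.fam)) :=
  ⟨fun g s hs => (m.measurePreserving_count_smul g).measure_preimage hs.nullMeasurableSet⟩

theorem integral_count_gop (a : GlobKer m.L.fam) (x : XF m.L.fam) (φ : XF m.L.fam → ℂ) :
    ∫ y, a.k x y * φ y ∂(Measure.count : Measure (XF m.L.fam)) = gop a φ x := by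
  have hi : Integrable (fun y => a.k x y * φ y) (Measure.count : Measure (XF m.L.fam)) := by
    rw [integrable_count_iff]
    refine (summable_of_ne_finset_zero (s := gs a x) fun y hy => ?_)
    rw [mem_gs, not_not] at hy
    rw [hy, zero_mul, norm_zero]
  rw [integral_countable hi]
  simp only [measureReal_def, Measure.count_singleton, ENNReal.toReal_one, one_smul]
  rw [tsum_eq_sum (s := gs a x)]
  · rfl
  · intro y hy
    rw [mem_gs, not_not] at hy
    rw [hy, zero_mul]

/-- **Adjoints of discrete operators.** -/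
theorem isAdj_gopB (c : CutOff PGL(2, K) m.X) [IsFiniteMeasure (c.ν m.μ)] (a : GlobKer m.L.fam) :
    IsAdj (c.ν m.μ) (gopB m a) (gopB m (gadj a)) := by
  intro f g
  obtain ⟨Cf, hCf⟩ := BInv.bounded f
  obtain ⟨Cg, hCg⟩ := BInv.bounded g
  set F : m.X × XF m.L.fam → ℂ := fun z =>
    conj (a.k z.1.2 z.2 * (f : m.X → ℂ) (z.1.1, z.2)) * (g : m.X → ℂ) z.1 with hF
  have hFm : Measurable F := by
    have h1 : Measurable fun z : m.X × XF m.L.fam => a.k z.1.2 z.2 := by
      have h2 : Measurable fun p : XF m.L.fam × XF m.L.fam => a.k p.1 p.2 :=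
        measurable_of_countable _
      exact h2.comp ((measurable_snd.comp measurable_fst).prodMk measurable_snd)
    have h3 : Measurable fun z : m.X × XF m.L.fam => (f : m.X → ℂ) (z.1.1, z.2) :=
      (BInv.measurable f).comp ((measurable_fst.comp measurable_fst).prodMk measurable_snd)
    have h4 : Measurable fun z : m.X × XF m.L.fam => (g : m.X → ℂ) z.1 :=
      (BInv.measurable g).comp measurable_fst
    exact (Complex.continuous_conj.measurable.comp (h1.mul h3)).mul h4
  have hFi : Integrable F ((c.ν m.μ).prod Measure.count) := by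
    refine ⟨hFm.aestronglyMeasurable, ?_⟩
    unfold HasFiniteIntegral
    rw [lintegral_prod _ hFm.enorm.aemeasurable]
    have hle : ∀ x : m.X, ∫⁻ y, ‖F (x, y)‖ₑ ∂(Measure.count : Measure (XF m.L.fam)) ≤
        ENNReal.ofReal (gbd a) * (ENNReal.ofReal Cf * ENNReal.ofReal Cg) := by
      intro x
      rw [lintegral_count]
      refine le_trans (ENNReal.tsum_le_tsum (g := fun y =>
        ‖a.k x.2 y‖ₑ * (ENNReal.ofReal Cf * ENNReal.ofReal Cg)) fun y => ?_) ?_
      · simp only [hF, enorm_mul, RCLike.enorm_conj]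
        rw [mul_assoc]
        refine mul_le_mul_right (mul_le_mul' ?_ ?_) _
        · rw [← ofReal_norm]; exact ENNReal.ofReal_le_ofReal (hCf _)
        · rw [← ofReal_norm]; exact ENNReal.ofReal_le_ofReal (hCg _)
      · rw [ENNReal.tsum_mul_right]
        exact mul_le_mul_left (tsum_enorm_le a x.2) _
    refine (lintegral_mono hle).trans_lt ?_
    rw [lintegral_const]
    exact ENNReal.mul_lt_top (ENNReal.mul_lt_top ENNReal.ofReal_lt_top
      (ENNReal.mul_lt_top ENNReal.ofReal_lt_top ENNReal.ofReal_lt_top)) (measure_lt_top _ _)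
  have key := integral_swap (μ := m.μ) (δ := (Measure.count : Measure (XF m.L.fam))) c
    (sw := fun z => ((z.1.1, z.2), z.1.2))
    (mp_swap_right (volume : Measure (J → H3)) (Measure.count : Measure (XF m.L.fam)))
    (fun g z => rfl) (F := F) hFm.aestronglyMeasurable (fun γ z => by
      have h1 : (f : m.X → ℂ) ((γ • z.1).1, γ • z.2) = (f : m.X → ℂ) (z.1.1, z.2) :=
        BInv.inv f γ (z.1.1, z.2)
      show conj (a.k (γ • z.1.2) (γ • z.2) * (f : m.X → ℂ) ((γ • z.1).1, γ • z.2)) *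
        (g : m.X → ℂ) (γ • z.1) = _
      rw [a.k_smul, h1, BInv.inv]) hFi
  unfold pair
  have h1 : ∀ x : m.X, ∫ y, F (x, y) ∂(Measure.count : Measure (XF m.L.fam)) =
      conj ((gopB m a f : m.X → ℂ) x) * (g : m.X → ℂ) x := by
    intro x
    simp only [hF]
    rw [integral_mul_const, integral_conj, integral_count_gop]
    rfl
  have h2 : ∀ x : m.X, ∫ y, F ((x.1, y), x.2) ∂(Measure.count : Measure (XF m.L.fam)) =
      conj ((f : m.X → ℂ) x) * (gopB m (gadj a) g : m.X → ℂ) x := by
    intro x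
    rw [gopB_apply, ← integral_count_gop, ← integral_const_mul]
    refine integral_congr_ae (Eventually.of_forall fun y => ?_)
    have h3 : (f : m.X → ℂ) (x.1, x.2) = (f : m.X → ℂ) x := rfl
    simp only [hF, gadj_k, map_mul, h3]
    ring
  simp only [h1] at key
  rw [key]
  refine integral_congr_ae (Eventually.of_forall fun x => ?_)
  exact h2 x

theorem isAdj_gopB_self (c : CutOff PGL(2, K) m.X) [IsFiniteMeasure (c.ν m.μ)]
    {a : GlobKer m.L.fam} (h : gadj a = a) : IsAdj (c.ν m.μ) (gopB m a) (gopB m a) := by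
  have := isAdj_gopB m c a
  rwa [h] at this

end discrete

/-! ### Radial operators -/

section radial

variable {κ κ' : (J → ℝ) → ℂ}

theorem exists_lintegral_le (hκ : IsRC κ) : ∃ B : ℝ, 0 ≤ B ∧
    ∀ x : J → H3, ∫⁻ w, ‖κ (chv x w)‖ₑ ≤ ENNReal.ofReal B := by
  obtain ⟨R, M, -, hM0, hM, hR⟩ := hκ.exists_bounds
  obtain ⟨V, hV0, hV⟩ := exists_volume_Bl_le J R
  refine ⟨M * V, mul_nonneg hM0 hV0, fun x => ?_⟩
  have hle : ∀ w : J → H3, ‖κ (chv x w)‖ₑ ≤ (Bl R x).indicator (fun _ => ENNReal.ofReal M) w := by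
    intro w
    by_cases hw : w ∈ Bl R x
    · rw [Set.indicator_of_mem hw, ← ofReal_norm]
      exact ENNReal.ofReal_le_ofReal (hM _)
    · rw [IsRC.eq_zero_of_notMem hR hw, enorm_zero]
      exact zero_le
  refine (lintegral_mono hle).trans ?_
  rw [lintegral_indicator (measurableSet_Bl R x), lintegral_const, Measure.restrict_apply_univ,
    ENNReal.ofReal_mul hM0]
  exact mul_le_mul_right (hV x) _

/-- the sup-norm bound of a radial kernel -/
def rbd (hκ : IsRC κ) : ℝ := (exists_lintegral_le hκ).choose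

theorem rbd_nonneg (hκ : IsRC κ) : 0 ≤ rbd hκ := (exists_lintegral_le hκ).choose_spec.1

theorem lintegral_le_rbd (hκ : IsRC κ) (x : J → H3) :
    ∫⁻ w, ‖κ (chv x w)‖ₑ ≤ ENNReal.ofReal (rbd hκ) := (exists_lintegral_le hκ).choose_spec.2 x

theorem norm_Rk_le (hκ : IsRC κ) {g : (J → H3) → ℂ} {C : ℝ} (hC : ∀ w, ‖g w‖ ≤ C)
    (x : J → H3) : ‖Rk κ g x‖ ≤ rbd hκ * C := by
  have hC0 : 0 ≤ C := (norm_nonneg _).trans (hC x)
  have h1 : ‖Rk κ g x‖ₑ ≤ ENNReal.ofReal (rbd hκ * C) := by
    unfold Rk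
    refine (enorm_integral_le_lintegral_enorm _).trans ?_
    have hle : ∀ w : J → H3, ‖κ (chv x w) * g w‖ₑ ≤ ‖κ (chv x w)‖ₑ * ENNReal.ofReal C := by
      intro w
      rw [enorm_mul]
      refine mul_le_mul_right ?_ _
      rw [← ofReal_norm]
      exact ENNReal.ofReal_le_ofReal (hC w)
    refine (lintegral_mono hle).trans ?_
    rw [lintegral_mul_const' _ _ ENNReal.ofReal_ne_top, ENNReal.ofReal_mul (rbd_nonneg hκ)]
    exact mul_le_mul_left (lintegral_le_rbd hκ x) _
  rw [← ofReal_norm, ENNReal.ofReal_le_ofReal_iff (mul_nonneg (rbd_nonneg hκ) hC0)] at h1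
  exact h1

/-- the operator of a radial kernel on functions on `m.X` -/
def rkX (κ : (J → ℝ) → ℂ) (f : m.X → ℂ) (x : m.X) : ℂ := Rk κ (fun w => f (w, x.2)) x.1

theorem rkX_apply (κ : (J → ℝ) → ℂ) (f : m.X → ℂ) (x : m.X) :
    rkX m κ f x = ∫ w, κ (chv x.1 w) * f (w, x.2) := rfl

theorem isLB_slice {f : m.X → ℂ} (hf : Measurable f) {C : ℝ} (hC : ∀ x, ‖f x‖ ≤ C)
    (y : XF m.L.fam) : IsLB fun w => f (w, y) :=
  IsLB.of_bounded ((m.measurable_iff f).mp hf y).aestronglyMeasurable fun _ => hC _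

theorem measurable_rkX (hκ : IsRC κ) {f : m.X → ℂ} (hf : Measurable f) {C : ℝ}
    (hC : ∀ x, ‖f x‖ ≤ C) : Measurable (rkX m κ f) := by
  rw [m.measurable_iff]
  intro y
  exact (H56Z.continuous_Rk hκ (isLB_slice m hf hC y)).measurable

theorem rkX_smul (κ : (J → ℝ) → ℂ) {f : m.X → ℂ} (hf : ∀ (g : PGL(2, K)) x, f (g • x) = f x)
    (g : PGL(2, K)) (x : m.X) : rkX m κ f (g • x) = rkX m κ f x := by
  induction g using Matrix.ProjGenLinGroup.induction_on with
  | mk g =>
    have h1 := H56Z.Rk_smul κ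
      (fun w => f (w, (Matrix.ProjGenLinGroup.mk g : PGL(2, K)) • x.2))
      (fun j => Matrix.GeneralLinearGroup.map (m.e j) g) x.1
    refine (Eq.trans ?_ h1.symm).trans ?_
    · rfl
    · unfold rkX
      congr 1
      funext w
      exact hf (Matrix.ProjGenLinGroup.mk g) (w, x.2)

/-- **The operator of a radial kernel** on bounded invariant functions. -/
def rkB (hκ : IsRC κ) : Module.End ℂ (BInv PGL(2, K) m.X) where
  toFun f := ⟨rkX m κ (f : m.X → ℂ),
    measurable_rkX m hκ (BInv.measurable f) (BInv.bounded f).choose_spec, by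
    obtain ⟨C, hC⟩ := BInv.bounded f
    exact ⟨rbd hκ * C, fun x => norm_Rk_le hκ (fun _ => hC _) _⟩, rkX_smul m κ (BInv.inv f)⟩
  map_add' f g := by
    apply Subtype.ext
    funext x
    show ∫ w, κ (chv x.1 w) * ((f : m.X → ℂ) (w, x.2) + (g : m.X → ℂ) (w, x.2)) =
      (∫ w, κ (chv x.1 w) * (f : m.X → ℂ) (w, x.2)) + ∫ w, κ (chv x.1 w) * (g : m.X → ℂ) (w, x.2)
    rw [← integral_add
      ((isLB_slice m (BInv.measurable f) (BInv.bounded f).choose_spec x.2).integrable_Rk hκ x.1)
      ((isLB_slice m (BInv.measurable g) (BInv.bounded g).choose_spec x.2).integrable_Rk hκ x.1)]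
    refine integral_congr_ae (Eventually.of_forall fun w => ?_)
    simp only; ring
  map_smul' c f := by
    apply Subtype.ext
    funext x
    show ∫ w, κ (chv x.1 w) * (c * (f : m.X → ℂ) (w, x.2)) =
      c * ∫ w, κ (chv x.1 w) * (f : m.X → ℂ) (w, x.2)
    rw [← integral_const_mul]
    refine integral_congr_ae (Eventually.of_forall fun w => ?_)
    simp only; ring

@[simp] theorem rkB_coe (hκ : IsRC κ) (f : BInv PGL(2, K) m.X) :
    (rkB m hκ f : m.X → ℂ) = rkX m κ (f : m.X → ℂ) := rfl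

theorem rkB_apply (hκ : IsRC κ) (f : BInv PGL(2, K) m.X) (x : m.X) :
    (rkB m hκ f : m.X → ℂ) x = Rk κ (fun w => (f : m.X → ℂ) (w, x.2)) x.1 := rfl

theorem isLB_coe (f : BInv PGL(2, K) m.X) (y : XF m.L.fam) :
    IsLB fun w => (f : m.X → ℂ) (w, y) :=
  isLB_slice m (BInv.measurable f) (BInv.bounded f).choose_spec y

theorem rkB_conv (hκ : IsRC κ) (hκ' : IsRC κ') :
    rkB m (hκ.conv hκ') = rkB m hκ * rkB m hκ' := by
  apply LinearMap.ext
  intro f
  apply Subtype.ext
  funext x
  exact congrFun (H56Z.Rk_conv hκ hκ' (isLB_coe m f x.2)) x.1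

theorem rkB_congr {κ κ' : (J → ℝ) → ℂ} (h : κ = κ') (hκ : IsRC κ) (hκ' : IsRC κ') :
    rkB m hκ = rkB m hκ' := by
  subst h; rfl

theorem rkB_add (hκ : IsRC κ) (hκ' : IsRC κ') :
    rkB m (hκ.add hκ') = rkB m hκ + rkB m hκ' := by
  apply LinearMap.ext
  intro f
  apply Subtype.ext
  funext x
  exact congrFun (H56Z.Rk_add hκ hκ' (isLB_coe m f x.2)) x.1

theorem rkB_const_mul (hκ : IsRC κ) (c : ℂ) : rkB m (hκ.const_mul c) = c • rkB m hκ := by
  apply LinearMap.ext
  intro f
  apply Subtype.ext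
  funext x
  exact congrFun (H56Z.Rk_const_mul κ c _) x.1

theorem rkB_commute (hκ : IsRC κ) (hκ' : IsRC κ') : Commute (rkB m hκ) (rkB m hκ') := by
  show rkB m hκ * rkB m hκ' = rkB m hκ' * rkB m hκ
  rw [← rkB_conv, ← rkB_conv]
  exact rkB_congr m (H56Z.conv_comm κ κ') _ _

theorem rkB_bound (hκ : IsRC κ) (f : BInv PGL(2, K) m.X) (C : ℝ)
    (hC : ∀ x, ‖(f : m.X → ℂ) x‖ ≤ C) (x : m.X) : ‖(rkB m hκ f : m.X → ℂ) x‖ ≤ rbd hκ * C :=
  norm_Rk_le hκ (fun _ => hC _) _

theorem rkX_gopX (hκ : IsRC κ) (a : GlobKer m.L.fam) {f : m.X → ℂ} (hf : Measurable f) {C : ℝ}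
    (hC : ∀ x, ‖f x‖ ≤ C) : rkX m κ (gopX m a f) = gopX m a (rkX m κ f) := by
  funext x
  show ∫ w, κ (chv x.1 w) * ∑ y ∈ gs a x.2, a.k x.2 y * f (w, y) =
    ∑ y ∈ gs a x.2, a.k x.2 y * ∫ w, κ (chv x.1 w) * f (w, y)
  have h0 : ∀ w : J → H3, κ (chv x.1 w) * ∑ y ∈ gs a x.2, a.k x.2 y * f (w, y) =
      ∑ y ∈ gs a x.2, κ (chv x.1 w) * (a.k x.2 y * f (w, y)) := fun w => Finset.mul_sum _ _ _
  simp only [h0]
  rw [integral_finset_sum]
  · refine Finset.sum_congr rfl fun y _ => ?_
    rw [← integral_const_mul]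
    refine integral_congr_ae (Eventually.of_forall fun w => ?_)
    simp only; ring
  · intro y _
    have h1 := ((isLB_slice m hf hC y).integrable_Rk hκ x.1).const_mul (a.k x.2 y)
    refine h1.congr (Eventually.of_forall fun w => ?_)
    simp only; ring

theorem rkB_gopB_commute (hκ : IsRC κ) (a : GlobKer m.L.fam) :
    Commute (rkB m hκ) (gopB m a) := by
  apply LinearMap.ext
  intro f
  apply Subtype.ext
  exact rkX_gopX m hκ a (BInv.measurable f) (BInv.bounded f).choose_spec

theorem isRC_conj (hκ : IsRC κ) : IsRC (fun t => conj (κ t)) where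
  cont := Complex.continuous_conj.comp hκ.cont
  bdd := by
    obtain ⟨M, hM⟩ := hκ.bdd
    exact ⟨M, fun u => by rw [RCLike.norm_conj]; exact hM u⟩
  supp := by
    obtain ⟨R, hR⟩ := hκ.supp
    exact ⟨R, fun u hu => by rw [hR u hu, map_zero]⟩

theorem actInf_one (x : J → H3) : m.actInf 1 x = x :=
  congrArg Prod.fst (one_smul PGL(2, K) (show m.X from (x, XF.base m.L.fam)))

theorem actInf_mul (g h : PGL(2, K)) (x : J → H3) :
    m.actInf (g * h) x = m.actInf g (m.actInf h x) :=
  congrArg Prod.fst (mul_smul g h (show m.X from (x, XF.base m.L.fam)))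

/-- `J → H3` with the action of `PGL(2, K)`. -/
def TI (_m : Model K J) : Type _ := J → H3

instance : MeasurableSpace (TI m) := inferInstanceAs (MeasurableSpace (J → H3))

instance : MulAction PGL(2, K) (TI m) where
  smul g x := m.actInf g x
  one_smul x := actInf_one m x
  mul_smul g h x := actInf_mul m g h x

/-- the volume on `TI m` -/
def volT : Measure (TI m) := (volume : Measure (J → H3))

instance : SFinite (volT m) := inferInstanceAs (SFinite (volume : Measure (J → H3)))

instance : MeasurableConstSMul PGL(2, K) (TI m) := ⟨fun g => m.measurable_actInf g⟩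

instance : SMulInvariantMeasure PGL(2, K) (TI m) (volT m) :=
  ⟨fun g _ hs => (m.measurePreserving_actInf g).measure_preimage hs.nullMeasurableSet⟩

theorem measurable_chvT (hκ : IsRC κ) : Measurable fun z : m.X × TI m => κ (chv z.1.1 z.2) := by
  have h1 : Measurable fun p : (J → H3) × (J → H3) => κ (chv p.1 p.2) :=
    (hκ.cont.comp continuous_chv).measurable
  have h2 : Measurable fun z : ((J → H3) × XF m.L.fam) × (J → H3) => (z.1.1, z.2) :=
    (measurable_fst.comp measurable_fst).prodMk measurable_snd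
  have h3 := h1.comp h2
  exact h3

/-- **Adjoints of radial operators.** -/
theorem isAdj_rkB (c : CutOff PGL(2, K) m.X) [IsFiniteMeasure (c.ν m.μ)] (hκ : IsRC κ) :
    IsAdj (c.ν m.μ) (rkB m hκ) (rkB m (isRC_conj hκ)) := by
  intro f g
  obtain ⟨Cf, hCf⟩ := BInv.bounded f
  obtain ⟨Cg, hCg⟩ := BInv.bounded g
  set F : m.X × TI m → ℂ := fun z =>
    conj (κ (chv z.1.1 z.2) * (f : m.X → ℂ) (z.2, z.1.2)) * (g : m.X → ℂ) z.1 with hF
  have hFm : Measurable F := by
    have h1 : Measurable fun z : m.X × TI m => κ (chv z.1.1 z.2) := measurable_chvT m hκ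
    have h3 : Measurable fun z : m.X × TI m => (f : m.X → ℂ) (z.2, z.1.2) :=
      (BInv.measurable f).comp (measurable_snd.prodMk (measurable_snd.comp measurable_fst))
    have h4 : Measurable fun z : m.X × TI m => (g : m.X → ℂ) z.1 :=
      (BInv.measurable g).comp measurable_fst
    exact (Complex.continuous_conj.measurable.comp (h1.mul h3)).mul h4
  have hFi : Integrable F ((c.ν m.μ).prod (volT m)) := by
    refine ⟨hFm.aestronglyMeasurable, ?_⟩
    unfold HasFiniteIntegral
    rw [lintegral_prod _ hFm.enorm.aemeasurable]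
    have hle : ∀ x : m.X, ∫⁻ y, ‖F (x, y)‖ₑ ∂(volT m) ≤
        ENNReal.ofReal (rbd hκ) * (ENNReal.ofReal Cf * ENNReal.ofReal Cg) := by
      intro x
      refine le_trans (lintegral_mono (g := fun y : TI m =>
        ‖κ (chv x.1 y)‖ₑ * (ENNReal.ofReal Cf * ENNReal.ofReal Cg)) fun y => ?_) ?_
      · simp only [hF, enorm_mul, RCLike.enorm_conj]
        rw [mul_assoc]
        refine mul_le_mul_right (mul_le_mul' ?_ ?_) _
        · rw [← ofReal_norm]; exact ENNReal.ofReal_le_ofReal (hCf _)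
        · rw [← ofReal_norm]; exact ENNReal.ofReal_le_ofReal (hCg _)
      · rw [lintegral_mul_const' _ _ (ENNReal.mul_lt_top ENNReal.ofReal_lt_top
          ENNReal.ofReal_lt_top).ne]
        exact mul_le_mul_left (lintegral_le_rbd hκ x.1) _
    refine (lintegral_mono hle).trans_lt ?_
    rw [lintegral_const]
    exact ENNReal.mul_lt_top (ENNReal.mul_lt_top ENNReal.ofReal_lt_top
      (ENNReal.mul_lt_top ENNReal.ofReal_lt_top ENNReal.ofReal_lt_top)) (measure_lt_top _ _)
  have key := integral_swap (μ := m.μ) (δ := volT m) c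
    (sw := fun z => ((z.2, z.1.2), z.1.1))
    (mp_swap_left (volume : Measure (J → H3)) (Measure.count : Measure (XF m.L.fam)))
    (fun g z => rfl) (F := F) hFm.aestronglyMeasurable (fun γ z => by
      have h2 : (f : m.X → ℂ) (m.actInf γ z.2, (γ • z.1).2) = (f : m.X → ℂ) (z.2, z.1.2) :=
        BInv.inv f γ (z.2, z.1.2)
      show conj (κ (chv (m.actInf γ z.1.1) (m.actInf γ z.2)) *
        (f : m.X → ℂ) (m.actInf γ z.2, (γ • z.1).2)) * (g : m.X → ℂ) (γ • z.1) = _
      have h1 : chv (m.actInf γ z.1.1) (m.actInf γ z.2) = chv z.1.1 z.2 := m.chJ_actInf γ _ _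
      rw [h1, h2, BInv.inv]) hFi
  unfold pair
  have h1 : ∀ x : m.X, ∫ y, F (x, y) ∂(volT m) =
      conj ((rkB m hκ f : m.X → ℂ) x) * (g : m.X → ℂ) x := by
    intro x
    simp only [hF]
    rw [integral_mul_const, integral_conj]
    rfl
  have h2 : ∀ x : m.X, ∫ y, F ((y, x.2), x.1) ∂(volT m) =
      conj ((f : m.X → ℂ) x) * (rkB m (isRC_conj hκ) g : m.X → ℂ) x := by
    intro x
    rw [rkB_apply]
    unfold Rk
    rw [← integral_const_mul]
    refine integral_congr_ae (Eventually.of_forall fun y => ?_)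
    have h3 : (f : m.X → ℂ) (x.1, x.2) = (f : m.X → ℂ) x := rfl
    simp only [hF, map_mul, h3]
    rw [H56Z.chv_comm y x.1]
    ring
  simp only [h1] at key
  rw [key]
  refine integral_congr_ae (Eventually.of_forall fun x => ?_)
  exact h2 x

theorem isAdj_rkB_self (c : CutOff PGL(2, K) m.X) [IsFiniteMeasure (c.ν m.μ)] (hκ : IsRC κ)
    (hr : ∀ t, conj (κ t) = κ t) : IsAdj (c.ν m.μ) (rkB m hκ) (rkB m hκ) := by
  have := isAdj_rkB m c hκ
  rwa [rkB_congr m (funext hr : (fun t => conj (κ t)) = κ) (isRC_conj hκ) hκ] at this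

end radial

end Fermat.Agent.H21Z
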