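import Fermat.Agent.H21Z6
import Fermat.Agent.H17S4
import Fermat.Agent.H89D1
import Fermat.Agent.H79SFam

/-!
# The operator data on both sides of block (C) (helper21, S47)

For `f : CFam C a`: `opE f c`, `opF f c` : `OpData (JL C)` for the automorphic kernels `kerE f`,
`kerF f` of the operator `C`; `TI_fam` : the trace identity of the two sides from `C.Geom`.
-/

set_option autoImplicit false
set_option linter.unusedSectionVars false

noncomputable section

open MeasureTheory Complex Filter IsDedekindDomain HeightOneSpectrum NumberField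
open scoped ENNReal ComplexConjugate Topology MatrixGroups
open Fermat.Agent.H32Z Fermat.Agent.H59XF Fermat.Agent.H51Z Fermat.Agent.H59D Fermat.Agent.H5Z
open Fermat.Agent.H79S Fermat.Agent.H76U Fermat.Agent.H59K
open Fermat.Agent.H17S (CK coarse ck_ker Bd twOf Tw)
open Fermat.Agent.H56Z (IsRC IsLB)
open Fermat.Agent.H67M (bF isRC_bF)
open Fermat.Agent.H42T (BOps Lab kSys JL labE labF)

namespace Fermat.Agent.H21Z

/-! ### Twisted one-place kernels -/

section tw

variable {G : Type*} [Group G] {ι : Type*} {L : LevelFam G ι} {t : Twist L} {i : ι}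

theorem isTw_single {κ : LocKer (L.U i)} {κ' : LocKer (L.U (t.σ i))} (h : TwL t i κ κ') :
    IsTw t (single i κ) (single (t.σ i) κ') := by
  classical
  intro j x y
  by_cases hj : j = i
  · subst hj
    rw [single_same, single_same]
    exact h x y
  · rw [single_ne hj, single_ne (t.σ.injective.ne hj)]
    exact TwL.one x y

theorem isTw_single_fix {κ : ∀ i, LocKer (L.U i)} (h : TwL t i (κ i) (κ (t.σ i)))
    (hi : t.σ i = i) : IsTw t (single i (κ i)) (single i (κ i)) := by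
  have h1 := isTw_single h
  have h2 : (single (t.σ i) (κ (t.σ i)) : GlobKer L) = single i (κ i) :=
    congrArg (fun j => (single j (κ j) : GlobKer L)) hi
  rwa [h2] at h1

end tw

section setup

variable {F E : Type} [Field F] [NumberField F] [Field E] [NumberField E] [Algebra F E]
  (C : CSetup F E)

/-! ### The inert place -/

theorem absNorm_w0 : Ideal.absNorm C.w0.asIdeal = Ideal.absNorm C.v0.asIdeal ^ 3 := by
  have := C.gal
  have hQ : C.w0 ∈ H82.above E C.v0 := by rw [C.above_v0]; exact Set.mem_singleton _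
  have he := C.unr C.v0 C.v0S C.w0 hQ
  obtain ⟨φ, -, h2, h3⟩ := H89D.exists_frob hQ he
  have h4 := H89D.ncard_above_mul_card_dec hQ
  rw [C.above_v0, Set.ncard_singleton, one_mul, C.h3, h2, Nat.card_zpowers, h3] at h4
  haveI : C.w0.asIdeal.LiesOver C.v0.asIdeal := ⟨hQ.symm⟩
  rw [← h4]
  exact Ideal.absNorm_eq_pow_inertiaDeg'_of_liesOver C.w0.asIdeal C.v0.asIdeal C.v0.isPrime
    C.v0.ne_bot

theorem rhoU_eq : rhoU C.w0 1 = rhoU C.v0 3 := by
  unfold rhoU
  rw [absNorm_w0, pow_one, ← Complex.ofReal_pow]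
  congr 1
  rw [inv_pow]
  congr 1
  push_cast
  have h0 : (0 : ℝ) ≤ ((Ideal.absNorm C.v0.asIdeal : ℕ) : ℝ) := Nat.cast_nonneg _
  have h1 := Real.sq_sqrt h0
  have h2 : (((Ideal.absNorm C.v0.asIdeal : ℕ) : ℝ)) ^ 3 =
      ((√((Ideal.absNorm C.v0.asIdeal : ℕ) : ℝ)) ^ 3) ^ 2 := by
    calc (((Ideal.absNorm C.v0.asIdeal : ℕ) : ℝ)) ^ 3 =
        ((√((Ideal.absNorm C.v0.asIdeal : ℕ) : ℝ)) ^ 2) ^ 3 := by rw [h1]
      _ = _ := by ring
  rw [h2]
  exact Real.sqrt_sq (by positivity)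

/-! ### The labels on `E` and the automorphism -/

theorem cc_three (j : Fin 3) : C.aE.c (C.aE.c (C.aE.c j)) = j := by
  rw [C.c_eq]
  revert j
  decide

theorem cs_act_three (x : C.mE.X) : C.aE.act (C.aE.act (C.aE.act x)) = x := by
  have := C.gal
  refine act_three C.aE (fun x => ?_) (fun w => ?_) (cc_three C) x
  · rw [C.s_eq, C.s_eq, C.s_eq, H25V.cs_three]
  · rw [H25V.cs_sigma, H25V.cs_sigma, H25V.cs_sigma]
    exact H83Z.placePerm_three C.h3 C.s w

/-- the permutation of the places -/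
def sgW : {w // w ∉ C.kE.D.S ∧ w ≠ C.kE.D.w0} ≃ {w // w ∉ C.kE.D.S ∧ w ≠ C.kE.D.w0} :=
  C.aE.σ.subtypeEquiv fun w => by
    rw [C.kE.D_S, C.kE.D_w0]
    exact and_congr (not_congr (cs_sigma_mem C w)).symm (not_congr (cs_sigma_eq_w0 C)).symm

@[simp] theorem sgW_coe (w : {w // w ∉ C.kE.D.S ∧ w ≠ C.kE.D.w0}) :
    (sgW C w : HeightOneSpectrum (𝓞 E)) = C.aE.σ w := rfl

/-- the permutation of the radial kernels -/
def sgR : {κ : (Fin 3 → ℝ) → ℂ // IsRC κ} ≃ {κ : (Fin 3 → ℝ) → ℂ // IsRC κ} where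
  toFun κ := ⟨fun t => κ.1 fun j => t (C.aE.c j), isRC_perm κ.2 C.aE.c⟩
  invFun κ := ⟨fun t => κ.1 fun j => t (C.aE.c.symm j), isRC_perm κ.2 C.aE.c.symm⟩
  left_inv κ := by
    apply Subtype.ext
    funext t
    simp
  right_inv κ := by
    apply Subtype.ext
    funext t
    simp

/-- the permutation of the labels -/
def sgE : Lab C.kE.D ≃ Lab C.kE.D :=
  Equiv.sumCongr (Equiv.sumCongr (sgW C) (sgR C)) (Equiv.refl Unit)

theorem sgE_three (l : Lab C.kE.D) : sgE C (sgE C (sgE C l)) = l := by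
  have := C.gal
  rcases l with (w | κ) | u
  · show Sum.inl (Sum.inl (sgW C (sgW C (sgW C w)))) = _
    congr 2
    apply Subtype.ext
    rw [sgW_coe, sgW_coe, sgW_coe, H25V.cs_sigma, H25V.cs_sigma, H25V.cs_sigma]
    exact H83Z.placePerm_three C.h3 C.s w
  · show Sum.inl (Sum.inr (sgR C (sgR C (sgR C κ)))) = _
    congr 2
    apply Subtype.ext
    funext t
    show κ.1 (fun j => t (C.aE.c (C.aE.c (C.aE.c j)))) = κ.1 t
    have h : (fun j => t (C.aE.c (C.aE.c (C.aE.c j)))) = t := funext fun j => by rw [cc_three]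
    rw [h]
  · rfl

theorem twL_T {w : HeightOneSpectrum (𝓞 E)} (hw : w ∉ C.SE) (h0 : w ≠ C.w0) :
    TwL C.aE.twist w (C.kE.D.T w) (C.kE.D.T (C.aE.σ w)) :=
  twL_of_isInd (t := C.aE.twist) (C.kE.T_ind w hw h0)
    (C.kE.T_ind _ (fun h => hw ((cs_sigma_mem C w).1 h)) fun h => h0 ((cs_sigma_eq_w0 C).1 h))
    fun g => cellT_map (C.aE.val w) g

theorem twL_U (e : ℕ) : TwL C.aE.twist C.w0 (lpow (C.kE.D.U C.w0) e)
    (lpow (C.kE.D.U (C.aE.σ C.w0)) e) := by
  refine TwL.lpow (t := C.aE.twist) ?_ e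
  have hi' : IsInd (C.kE.D.U (C.aE.σ C.w0))
      (cellU ((C.aE.σ C.w0).valuation E) (WithZero.exp (-(1 : ℤ)))) := by
    rw [cs_sigma_w0]; exact C.kE.U_ind
  exact twL_of_isInd (t := C.aE.twist) C.kE.U_ind hi' fun g => cellU_map (C.aE.val C.w0) g

/-- **The automorphism and the labels.** -/
theorem sB_labY (e : ℕ) (ρ : ℂ) (l : Lab C.kE.D) :
    sB C.aE * labY C.kE.D e ρ l = labY C.kE.D e ρ (sgE C l) * sB C.aE := by
  rcases l with (w | κ) | u
  · have hw := good_of_lab C.kE w.2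
    exact sB_gopB C.aE (isTw_single (twL_T C hw.1 hw.2))
  · exact sB_rkB C.aE κ.2
  · show sB C.aE * (ρ • gopB C.mE (single C.kE.D.w0 (lpow (C.kE.D.U C.kE.D.w0) e))) =
      (ρ • gopB C.mE (single C.kE.D.w0 (lpow (C.kE.D.U C.kE.D.w0) e))) * sB C.aE
    rw [mul_smul_comm, smul_mul_assoc, gopB_single_w0 C.kE.D C.kE.D_w0]
    congr 1
    exact sB_gopB C.aE (isTw_single_fix (t := C.aE.twist) (i := C.w0)
      (κ := fun w => lpow (C.kE.D.U w) e) (twL_U C e) (cs_sigma_w0 C))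

/-- the common labels on the side of `E` -/
def jE : JL C → {w // w ∉ C.kE.D.S ∧ w ≠ C.kE.D.w0} ⊕ {κ : (Fin 3 → ℝ) → ℂ // IsRC κ}
  | Sum.inl w => Sum.inl ⟨w.1, H42T.Ok_E C w.2⟩
  | Sum.inr κ => Sum.inr ⟨κ.1, κ.2.1⟩

/-- the common labels on the side of `F` -/
def jF : JL C → {w // w ∉ C.kF.D.S ∧ w ≠ C.kF.D.w0} ⊕ {κ : (Fin 1 → ℝ) → ℂ // IsRC κ}
  | Sum.inl w => Sum.inl ⟨H47.below F w.1, H42T.Ok_F C w.2⟩
  | Sum.inr κ => Sum.inr ⟨bF κ.1, isRC_bF κ.2.1⟩

theorem labE_eq (l : JL C) : labE C l = Sum.inl (jE C l) := by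
  rcases l with w | κ <;> rfl

theorem labF_eq (l : JL C) : labF C l = Sum.inl (jF C l) := by
  rcases l with w | κ <;> rfl

theorem jE_real (l : JL C) : labReal C.kE.D (jE C l) := by
  rcases l with w | κ
  · trivial
  · exact κ.2.2

theorem jF_real (l : JL C) : labReal C.kF.D (jF C l) := by
  rcases l with w | κ
  · trivial
  · exact IsReal.bF κ.2.2

end setup

/-! ### The operator `C` -/

section fam

variable {F E : Type} [Field F] [NumberField F] [Field E] [NumberField E] [Algebra F E]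
  {C : CSetup F E} {a : HeightOneSpectrum (𝓞 E) → ℝ} (f : CFam C a)

/-- the kernel of the operator `C` on the side of `E` -/
def kerE : C.mE.X → C.mE.X → ℂ :=
  letI := f.fin
  fun x y => ∑ i, C.tkE (f.κ i) (f.n i) 0 x y

/-- the kernel of the operator `C` on the side of `F` -/
def kerF : C.mF.X → C.mF.X → ℂ :=
  letI := f.fin
  fun x y => ∑ i, C.tkB (f.κ i) (f.n i) 0 x y

theorem ck_kerE : CK (coarse C.mE) (kerE f) := by
  letI := f.fin
  exact CK.sum Finset.univ fun i _ => ck_ker (f.rc i) _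

theorem ck_kerF : CK (coarse C.mF) (kerF f) := by
  letI := f.fin
  exact CK.sum Finset.univ fun i _ => ck_ker (isRC_bF (f.rc i)) _

theorem bkE : BK (CutOff.autK PGL(2, E) (kerE f)) := Bd.BK (ck_kerE f) f.bdE

theorem bkF : BK (CutOff.autK PGL(2, F) (kerF f)) := Bd.BK (ck_kerF f) f.bdF

theorem invE (g : PGL(2, E)) (x y : C.mE.X) :
    CutOff.autK PGL(2, E) (kerE f) (g • x) y = CutOff.autK PGL(2, E) (kerE f) x y :=
  CutOff.autK_smul_left (ck_kerE f).inv x y g

theorem invF (g : PGL(2, F)) (x y : C.mF.X) :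
    CutOff.autK PGL(2, F) (kerF f) (g • x) y = CutOff.autK PGL(2, F) (kerF f) x y :=
  CutOff.autK_smul_left (ck_kerF f).inv x y g

theorem kerE_symm (x y : C.mE.X) : kerE f y x = (starRingEnd ℂ) (kerE f x y) := by
  letI := f.fin
  have h := fk_herm (m := C.mE) (s := Finset.univ) (κ := f.κ)
    (f := fun i => C.kE.D.mono (f.n i) 0) (fun i _ => f.real i)
    (fun i _ x y => mono_herm C.kE (fun w hw x => by
      rw [C.psiE w hw]; exact H7.Z.norm_psi _ _) x y) x y
  exact h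

theorem kerF_symm (x y : C.mF.X) : kerF f y x = (starRingEnd ℂ) (kerF f x y) := by
  letI := f.fin
  have h := fk_herm (m := C.mF) (s := Finset.univ) (κ := fun i => bF (f.κ i))
    (f := fun i => C.kF.D.mono ((f.n i).mapDomain (H47.below F)) 0)
    (fun i _ => IsReal.bF (f.real i))
    (fun i _ x y => mono_herm C.kF (fun w hw x => by
      rw [C.psiF w hw]; exact H7.Z.norm_psi _ _) x y) x y
  exact h

theorem symE (x y : C.mE.X) : CutOff.autK PGL(2, E) (kerE f) y x =
    (starRingEnd ℂ) (CutOff.autK PGL(2, E) (kerE f) x y) :=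
  CutOff.autK_symm (ck_kerE f).inv (kerE_symm f) x y

theorem symF (x y : C.mF.X) : CutOff.autK PGL(2, F) (kerF f) y x =
    (starRingEnd ℂ) (CutOff.autK PGL(2, F) (kerF f) x y) :=
  CutOff.autK_symm (ck_kerF f).inv (kerF_symm f) x y

/-- **The operator data on the side of `E`.** -/
def opE (c : CutOff PGL(2, E) C.mE.X) [IsFiniteMeasure (c.ν C.mE.μ)] :
    OpData (JL C) (bkE f) (c.ν C.mE.μ) (invE f) :=
  letI := f.fin
  opd C.kE c Finset.univ (κ := f.κ) f.rc f.n (hK := bkE f) (hG := invE f) 1 one_pos (jE C)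
    (jE_real C) (sgE C) (sgE_three C) (sB C.aE)
    (sB_mem_Cm Finset.univ f.rc (fun i => C.kE.D.mono (f.n i) 0) c C.aE f.s_inv)
    (sB_pow_three C.aE (cs_act_three C)) (sB_labY C 1 _)

/-- **The operator data on the side of `F`.** -/
def opF (c : CutOff PGL(2, F) C.mF.X) [IsFiniteMeasure (c.ν C.mF.μ)] :
    OpData (JL C) (bkF f) (c.ν C.mF.μ) (invF f) :=
  letI := f.fin
  opd C.kF c Finset.univ (κ := fun i => bF (f.κ i)) (fun i => isRC_bF (f.rc i))
    (fun i => (f.n i).mapDomain (H47.below F)) (hK := bkF f) (hG := invF f) 3 (by norm_num) (jF C)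
    (jF_real C) (Equiv.refl _) (fun _ => rfl) 1 (one_mem _) (one_pow 3)
    (fun l => by rw [one_mul, mul_one]; rfl)

end fam

end Fermat.Agent.H21Z
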