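import Fermat.Agent.H21Z7
import Fermat.Agent.H42T7

/-!
# S47, block (C): the two sides of the comparison (helper21)

* `opER`, `opFR` : the operator data of the two sides with helper42's common labels `JR C`;
* `TI_fam`, `TI_famR` : the trace identity for the two sides.
-/

set_option autoImplicit false
set_option linter.unusedSectionVars false

noncomputable section

open MeasureTheory Complex Filter IsDedekindDomain HeightOneSpectrum NumberField
open scoped ENNReal ComplexConjugate Topology MatrixGroups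
open Fermat.Agent.H32Z Fermat.Agent.H59XF Fermat.Agent.H51Z Fermat.Agent.H59D Fermat.Agent.H5Z
open Fermat.Agent.H79S Fermat.Agent.H76U Fermat.Agent.H59K
open Fermat.Agent.H17S (CK coarse ck_ker Bd twOf Tw)
open Fermat.Agent.H56Z (IsRC IsLB)
open Fermat.Agent.H67M (bF isRC_bF)
open Fermat.Agent.H42T (BOps Lab kSys JL labE labF JR jr Ok_E Ok_F TI_R TI_C bOps sB_eq)

namespace Fermat.Agent.H21Z

variable {F E : Type} [Field F] [NumberField F] [Field E] [NumberField E] [Algebra F E]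
  {C : CSetup F E} {a : HeightOneSpectrum (𝓞 E) → ℝ} (f : CFam C a)

/-- **The operator data on the side of `E`**, common labels `JR C`. -/
def opER (c : CutOff PGL(2, E) C.mE.X) [IsFiniteMeasure (c.ν C.mE.μ)] :
    OpData (JR C) (bkE f) (c.ν C.mE.μ) (invE f) :=
  letI := f.fin
  opd C.kE c Finset.univ (κ := f.κ) f.rc f.n (hK := bkE f) (hG := invE f) 1 one_pos
    (fun l => jE C (jr C l))
    (fun l => jE_real C (jr C l)) (sgE C) (sgE_three C) (sB C.aE)
    (sB_mem_Cm Finset.univ f.rc (fun i => C.kE.D.mono (f.n i) 0) c C.aE f.s_inv)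
    (sB_pow_three C.aE (cs_act_three C)) (sB_labY C 1 _)

/-- **The operator data on the side of `F`**, common labels `JR C`. -/
def opFR (c : CutOff PGL(2, F) C.mF.X) [IsFiniteMeasure (c.ν C.mF.μ)] :
    OpData (JR C) (bkF f) (c.ν C.mF.μ) (invF f) :=
  letI := f.fin
  opd C.kF c Finset.univ (κ := fun i => bF (f.κ i)) (fun i => isRC_bF (f.rc i))
    (fun i => (f.n i).mapDomain (H47.below F)) (hK := bkF f) (hG := invF f) 3 (by norm_num)
    (fun l => jF C (jr C l))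
    (fun l => jF_real C (jr C l)) (Equiv.refl _) (fun _ => rfl) 1 (one_mem _) (one_pow 3)
    (fun l => by rw [one_mul, mul_one]; rfl)

section lemmas

variable (cE : CutOff PGL(2, E) C.mE.X) [IsFiniteMeasure (cE.ν C.mE.μ)]
  (cF : CutOff PGL(2, F) C.mF.X) [IsFiniteMeasure (cF.ν C.mF.μ)]

theorem opER_s : (opER f cE).s = sB C.aE := rfl

theorem opFR_s : (opFR f cF).s = 1 := rfl

theorem opER_u : (opER f cE).u = Sum.inr () := rfl

theorem opFR_u : (opFR f cF).u = Sum.inr () := rfl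

theorem opER_W : (opER f cE).W = WB C.kE := rfl

theorem opFR_W : (opFR f cF).W = WB C.kF := rfl

theorem opER_P : (opER f cE).P = PB' C.kE := rfl

theorem opFR_P : (opFR f cF).P = PB' C.kF := rfl

theorem opER_q : (opER f cE).q = ((Ideal.absNorm C.w0.asIdeal : ℕ) : ℝ) := rfl

theorem opFR_q : (opFR f cF).q = ((Ideal.absNorm C.v0.asIdeal : ℕ) : ℝ) := rfl

theorem opER_e : (opER f cE).e = 1 := rfl

theorem opFR_e : (opFR f cF).e = 3 := rfl

theorem opER_YT (w : {w // w ∉ C.kE.D.S ∧ w ≠ C.kE.D.w0}) :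
    (opER f cE).Y (Sum.inl (Sum.inl w)) = gopB C.mE (single w.1 (C.kE.D.T w.1)) := rfl

theorem opFR_YT (w : {w // w ∉ C.kF.D.S ∧ w ≠ C.kF.D.w0}) :
    (opFR f cF).Y (Sum.inl (Sum.inl w)) = gopB C.mF (single w.1 (C.kF.D.T w.1)) := rfl

theorem opER_Yk (κ : {κ : (Fin 3 → ℝ) → ℂ // IsRC κ}) :
    (opER f cE).Y (Sum.inl (Sum.inr κ)) = rkB C.mE κ.2 := rfl

theorem opFR_Yk (κ : {κ : (Fin 1 → ℝ) → ℂ // IsRC κ}) :
    (opFR f cF).Y (Sum.inl (Sum.inr κ)) = rkB C.mF κ.2 := rfl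

theorem opER_Yu : (opER f cE).Y (Sum.inr ()) =
    rhoU C.w0 1 • gopB C.mE (single C.kE.D.w0 (lpow (C.kE.D.U C.kE.D.w0) 1)) := rfl

theorem opFR_Yu : (opFR f cF).Y (Sum.inr ()) =
    rhoU C.v0 3 • gopB C.mF (single C.kF.D.w0 (lpow (C.kF.D.U C.kF.D.w0) 3)) := rfl

theorem opER_j_T (w : {w : HeightOneSpectrum (𝓞 E) // C.Ok w}) :
    (opER f cE).j (Sum.inl w) = Sum.inl (Sum.inl ⟨w.1, Ok_E C w.2⟩) := rfl

theorem opER_j_k (κ : {κ : (Fin 3 → ℝ) → ℝ // IsRC fun t => (κ t : ℂ)}) :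
    (opER f cE).j (Sum.inr κ) = Sum.inl (Sum.inr ⟨fun t => (κ.1 t : ℂ), κ.2⟩) := rfl

theorem opFR_j_T (w : {w : HeightOneSpectrum (𝓞 E) // C.Ok w}) :
    (opFR f cF).j (Sum.inl w) = Sum.inl (Sum.inl ⟨H47.below F w.1, Ok_F C w.2⟩) := rfl

theorem opFR_j_k (κ : {κ : (Fin 3 → ℝ) → ℝ // IsRC fun t => (κ t : ℂ)}) :
    (opFR f cF).j (Sum.inr κ) =
      Sum.inl (Sum.inr ⟨bF fun t => (κ.1 t : ℂ), isRC_bF κ.2⟩) := rfl

theorem opER_σ_u : (opER f cE).σ (opER f cE).u = (opER f cE).u := rfl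

theorem opFR_σ : (opFR f cF).σ = Equiv.refl _ := rfl

theorem opER_σ_T (w w' : {w // w ∉ C.kE.D.S ∧ w ≠ C.kE.D.w0}) (h : w'.1 = C.aE.σ w.1) :
    (opER f cE).σ (Sum.inl (Sum.inl w)) = Sum.inl (Sum.inl w') := by
  show Sum.inl (Sum.inl (sgW C w)) = _
  congr 2
  exact Subtype.ext h.symm

theorem opER_σ_k (κ : {κ : (Fin 3 → ℝ) → ℂ // IsRC κ}) :
    (opER f cE).σ (Sum.inl (Sum.inr κ)) =
      Sum.inl (Sum.inr ⟨fun t => κ.1 fun j => t (C.aE.c j), isRC_perm κ.2 C.aE.c⟩) := rfl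

/-- the operators of the labels other than `u` commute with the operators at the special place -/
theorem labY_commute_lopB {K : Type} [Field K] [NumberField K] {J : Type} [Fintype J]
    {m : Model K J} {S : Finset (HeightOneSpectrum (𝓞 K))} {w0 : HeightOneSpectrum (𝓞 K)}
    {T : HeightOneSpectrum (𝓞 K) → TD K} (k : KerData m S w0 T) (e : ℕ) (ρ : ℂ)
    (l : {w // w ∉ k.D.S ∧ w ≠ k.D.w0} ⊕ {κ : (J → ℝ) → ℂ // IsRC κ})
    (κ0 : LocKer (m.L.fam.U w0)) : Commute (labY k.D e ρ (Sum.inl l)) (lopB m w0 κ0) := by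
  rcases l with w | κ
  · exact gopB_commute m (gmul_single_comm (good_of_lab k w.2).2 _ _)
  · exact rkB_gopB_commute m κ.2 _

theorem opER_commute_W (l : {w // w ∉ C.kE.D.S ∧ w ≠ C.kE.D.w0} ⊕
    {κ : (Fin 3 → ℝ) → ℂ // IsRC κ}) :
    Commute ((opER f cE).Y (Sum.inl l)) (opER f cE).W :=
  labY_commute_lopB C.kE 1 _ l _

theorem opFR_commute_W (l : {w // w ∉ C.kF.D.S ∧ w ≠ C.kF.D.w0} ⊕
    {κ : (Fin 1 → ℝ) → ℂ // IsRC κ}) :
    Commute ((opFR f cF).Y (Sum.inl l)) (opFR f cF).W :=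
  labY_commute_lopB C.kF 3 _ l _

theorem PB'_eq_lopB {K : Type} [Field K] [NumberField K] {J : Type} [Fintype J]
    {m : Model K J} {S : Finset (HeightOneSpectrum (𝓞 K))} {w0 : HeightOneSpectrum (𝓞 K)}
    {T : HeightOneSpectrum (𝓞 K) → TD K} (k : KerData m S w0 T) :
    PB' k = lopB m w0 (LocKer.mul (LocKer.mul (KD.Wk k) (KD.Pk k)) (KD.Wk k)) := by
  unfold PB' WB PB
  rw [lopB_mul, lopB_mul]

theorem opER_commute_P (l : {w // w ∉ C.kE.D.S ∧ w ≠ C.kE.D.w0} ⊕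
    {κ : (Fin 3 → ℝ) → ℂ // IsRC κ}) :
    Commute ((opER f cE).Y (Sum.inl l)) (opER f cE).P := by
  rw [opER_P, PB'_eq_lopB]
  exact labY_commute_lopB C.kE 1 _ l _

theorem opFR_commute_P (l : {w // w ∉ C.kF.D.S ∧ w ≠ C.kF.D.w0} ⊕
    {κ : (Fin 1 → ℝ) → ℂ // IsRC κ}) :
    Commute ((opFR f cF).Y (Sum.inl l)) (opFR f cF).P := by
  rw [opFR_P, PB'_eq_lopB]
  exact labY_commute_lopB C.kF 3 _ l _

/-- a label other than `u` -/
theorem exists_inl_of_ne_u {K : Type} [Field K] [NumberField K] {J : Type} [Fintype J]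
    {m : Model K J} {D : HData m.L.fam} (l : Lab D) (h : l ≠ Sum.inr ()) :
    ∃ l', l = Sum.inl l' := by
  rcases l with l | u
  · exact ⟨l, rfl⟩
  · exact absurd rfl h

theorem opER_commute_W' (k : (opER f cE).N) (h : k ≠ (opER f cE).u) :
    Commute ((opER f cE).Y k) (opER f cE).W := by
  obtain ⟨l, rfl⟩ := exists_inl_of_ne_u (D := C.kE.D) k h
  exact opER_commute_W f cE l

theorem opFR_commute_W' (k : (opFR f cF).N) (h : k ≠ (opFR f cF).u) :
    Commute ((opFR f cF).Y k) (opFR f cF).W := by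
  obtain ⟨l, rfl⟩ := exists_inl_of_ne_u (D := C.kF.D) k h
  exact opFR_commute_W f cF l

theorem opER_commute_P' (k : (opER f cE).N) (h : k ≠ (opER f cE).u) :
    Commute ((opER f cE).Y k) (opER f cE).P := by
  obtain ⟨l, rfl⟩ := exists_inl_of_ne_u (D := C.kE.D) k h
  exact opER_commute_P f cE l

theorem opFR_commute_P' (k : (opFR f cF).N) (h : k ≠ (opFR f cF).u) :
    Commute ((opFR f cF).Y k) (opFR f cF).P := by
  obtain ⟨l, rfl⟩ := exists_inl_of_ne_u (D := C.kF.D) k h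
  exact opFR_commute_P f cF l

end lemmas

/-! ### The trace identity -/

/-- **The trace identity** for `opER`, `opFR`. -/
theorem TI_famR (hgeom : C.Geom) (cE : CutOff PGL(2, E) C.mE.X) (cF : CutOff PGL(2, F) C.mF.X)
    [IsFiniteMeasure (cE.ν C.mE.μ)] [IsFiniteMeasure (cF.ν C.mF.μ)] :
    ∀ L : List (JR C), ∃ m₀ : ℕ, ∀ m ≥ m₀,
      ((opER f cE).side (symE f)).tr L m = 1 * ((opFR f cF).side (symF f)).tr L m := by
  letI := f.fin
  refine TI_R C hgeom cE cF f.κ f.rc f.n f.ok f.bdE f.bdF (symE f) (symF f) (opER f cE)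
    (opFR f cF) (fun l => ?_) (fun l => ?_) (rhoU C.w0 1) rfl ?_ rfl rfl
  · rcases l with w | κ <;> rfl
  · rcases l with w | κ <;> rfl
  · rw [rhoU_eq]; rfl

/-- **The trace identity** for `opE`, `opF`. -/
theorem TI_fam (hgeom : C.Geom) (cE : CutOff PGL(2, E) C.mE.X) (cF : CutOff PGL(2, F) C.mF.X)
    [IsFiniteMeasure (cE.ν C.mE.μ)] [IsFiniteMeasure (cF.ν C.mF.μ)] :
    ∀ L : List (JL C), ∃ m₀ : ℕ, ∀ m ≥ m₀,
      ((opE f cE).side (symE f)).tr L m = 1 * ((opF f cF).side (symF f)).tr L m := by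
  letI := f.fin
  refine TI_C C (bOps C.mE) (bOps C.mF) hgeom cE cF f.κ f.rc f.n f.ok f.bdE f.bdF (twOf C.aE)
    (fun x => rfl) (Tw.refl PGL(2, F) C.mF.μ) (fun x => rfl) (symE f) (symF f) (opE f cE)
    (opF f cF) (fun l => ?_) (fun l => ?_) (rhoU C.w0 1) rfl ?_ (fun g x => sB_eq C.aE g x)
    (fun g x => rfl)
  · rcases l with w | κ <;> rfl
  · rcases l with w | κ <;> rfl
  · rw [rhoU_eq]; rfl

end Fermat.Agent.H21Z
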