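import Fermat.Agent.H44ZOut2
import Fermat.Agent.H21Z6
import Fermat.Agent.H42T7

/-!
# S47, block (C): the output of the comparison, part 3 (helper44)

* `opd_T`, `opd_T_comm` : the normalised `U` of helper21's operator data;
* `out_of_extract` : extraction together with `out_of_kop`, for any operator data on the side of `F`
  whose family contains the Hecke operators and the radial operators.
-/

set_option autoImplicit false
set_option linter.unusedSectionVars false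
set_option linter.unusedVariables false

noncomputable section

open IsDedekindDomain HeightOneSpectrum WithZero NumberField Matrix MeasureTheory
open scoped MatrixGroups Classical ComplexConjugate

namespace Fermat.Agent.H44Z

open Fermat.Agent.H59XF Fermat.Agent.H51Z Fermat.Agent.H59D Fermat.Agent.H76U Fermat.Agent.H79S
open Fermat.Agent.H21Z Fermat.Agent.H42S
open Fermat.Agent.H32Z (CutOff BK)
open Fermat.Agent.H56Z (IsRC)
open Fermat.Agent.H67M (bkr bF isRC_bF)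

section opdT

open Fermat.Agent.H42T (Lab)

variable {K : Type} [Field K] [NumberField K] {J : Type} [Fintype J] {m : Model K J}
  {S : Finset (HeightOneSpectrum (𝓞 K))} {w0 : HeightOneSpectrum (𝓞 K)}
  {T : HeightOneSpectrum (𝓞 K) → TD K}

/-- `U` commutes with the family. -/
theorem commute_UB_labY (k : KerData m S w0 T) (e : ℕ) (ρ : ℂ) (l : Lab k.D) :
    Commute (UB k) (labY k.D e ρ l) := by
  match l with
  | Sum.inl (Sum.inl w) =>
    exact gopB_commute m (gmul_single_comm (fun h => w.2.2 (h.symm.trans k.D_w0.symm)) _ _)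
  | Sum.inl (Sum.inr κ) => exact (rkB_gopB_commute m κ.2 _).symm
  | Sum.inr _ =>
    show Commute (UB k) (ρ • gopB m (single k.D.w0 (lpow (k.D.U k.D.w0) e)))
    rw [gopB_single_w0 k.D k.D_w0, lopB_lpow]
    exact ((Commute.refl (UB k)).pow_right e).smul_right ρ

variable (k : KerData m S w0 T) (c : CutOff PGL(2, K) m.X) [IsFiniteMeasure (c.ν m.μ)]
    {I : Type} (si : Finset I) {κ : I → (J → ℝ) → ℂ} (hκ : ∀ i, IsRC (κ i))
    (n : I → HeightOneSpectrum (𝓞 K) →₀ ℕ)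
    {hK : BK (CutOff.autK PGL(2, K) (fks m si κ fun i => k.D.mono (n i) 0))}
    {hG : ∀ (g : PGL(2, K)) x y,
      CutOff.autK PGL(2, K) (fks m si κ fun i => k.D.mono (n i) 0) (g • x) y =
      CutOff.autK PGL(2, K) (fks m si κ fun i => k.D.mono (n i) 0) x y}
    (e : ℕ) (he : 0 < e) {Jl : Type}
    (j : Jl → {w // w ∉ k.D.S ∧ w ≠ k.D.w0} ⊕ {κ : (J → ℝ) → ℂ // IsRC κ})
    (hj : ∀ l, labReal k.D (j l))
    (σ : Lab k.D ≃ Lab k.D) (σ3 : ∀ l, σ (σ (σ l)) = l)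
    (s : Module.End ℂ (BInv PGL(2, K) m.X)) (s_mem : s ∈ Cm hK (c.ν m.μ) hG) (s3 : s ^ 3 = 1)
    (s_comm : ∀ l, s * labY k.D e (rhoU w0 e) l = labY k.D e (rhoU w0 e) (σ l) * s)

theorem opd_T : (opd k c si hκ n (hK := hK) (hG := hG) e he j hj σ σ3 s s_mem s3 s_comm).T =
    (((Real.sqrt ((Ideal.absNorm w0.asIdeal : ℕ) : ℝ))⁻¹ : ℝ) : ℂ) • UB k := by
  rw [UB_eq']
  rfl

theorem opd_T_comm (l : Lab k.D) :
    Commute (opd k c si hκ n (hK := hK) (hG := hG) e he j hj σ σ3 s s_mem s3 s_comm).T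
      ((opd k c si hκ n (hK := hK) (hG := hG) e he j hj σ σ3 s s_mem s3 s_comm).Y l) := by
  rw [opd_T]
  exact (commute_UB_labY k e _ l).smul_left _

end opdT

variable {F E : Type} [Field F] [NumberField F] [Field E] [NumberField E] [Algebra F E]
  (C : CSetup F E) {ι : Type} [Fintype ι] (κ : ι → (Fin 3 → ℝ) → ℂ)
  (n : ι → HeightOneSpectrum (𝓞 E) →₀ ℕ) (cF : CutOff PGL(2, F) C.mF.X)
  [IsFiniteMeasure (cF.ν C.mF.μ)]
  {hK : BK (CutOff.autK PGL(2, F) fun x y : C.mF.X => ∑ i, C.tkB (κ i) (n i) 0 x y)}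
  {hG : ∀ (g : PGL(2, F)) x y,
      CutOff.autK PGL(2, F) (fun x y : C.mF.X => ∑ i, C.tkB (κ i) (n i) 0 x y) (g • x) y =
      CutOff.autK PGL(2, F) (fun x y : C.mF.X => ∑ i, C.tkB (κ i) (n i) 0 x y) x y}

/-- **The end of the comparison**: from a joint eigenvalue `p₀` of the side of `E` and the trace
identity to the output of block (C). -/
theorem out_of_extract (a : HeightOneSpectrum (𝓞 E) → ℝ) (hκ : ∀ i, IsRC (κ i))
    {J : Type} (S : SideC J) (D : OpData J hK (cF.ν C.mF.μ) hG)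
    (hsym : ∀ x y,
      CutOff.autK PGL(2, F) (fun x y : C.mF.X => ∑ i, C.tkB (κ i) (n i) 0 x y) y x =
      conj (CutOff.autK PGL(2, F) (fun x y : C.mF.X => ∑ i, C.tkB (κ i) (n i) 0 x y) x y))
    (YT : ∀ v ∉ C.SF, v ≠ C.v0 → ∃ k : D.N, D.Y k = gopB C.mF (single v (C.kF.D.T v)))
    (YR : ∀ (k : (Fin 1 → ℝ) → ℝ) (hk : IsRC (fun t => (k t : ℂ))), ∃ l : D.N,
      D.Y l = rkB C.mF hk)
    (hTc : ∀ k, Commute D.T (D.Y k)) {ρ : ℂ} (hρ : ρ ≠ 0)
    (hDT : D.T = ρ • gopB C.mF (single C.v0 (C.kF.D.U C.v0)))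
    (κ' : ℂ) (TI : ∀ L : List J, ∃ m₀ : ℕ, ∀ m ≥ m₀, S.tr L m = κ' * (D.side hsym).tr L m)
    (p₀ : S.I) (ha : 0 < S.a p₀.1)
    (hpos : ∀ p : S.I, S.x p = S.x p₀ → S.z p = S.z p₀ →
      ∀ v ∈ blk (S.Y p.1) p.2.1, S.s p.1 v = v)
    (hz : 1 ≤ ‖S.z p₀‖)
    (jw : ∀ w : HeightOneSpectrum (𝓞 E), C.Ok w → ∃ l : J,
      D.Y (D.j l) = gopB C.mF (single (H47.below F w) (C.kF.D.T (H47.below F w))) ∧
        S.x p₀ l = evT a w)
    (jk : ∀ (k : (Fin 3 → ℝ) → ℝ) (hk : IsRC (fun t => (k t : ℂ))), ∃ l : J,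
      D.Y (D.j l) = rkB C.mF (isRC_bF hk) ∧
        (S.x p₀ l : ℂ) = H9Z.hat (fun t : Fin 3 → ℝ => (k t : ℂ))) :
    ∃ mu : HeightOneSpectrum (𝓞 F) → ℝ,
      (∀ v ∉ C.SF, ¬ H82.NonSplit E v → ∀ w ∈ H82.above E v, mu v = a w) ∧
        COutE F (C.mF.e 0) C.SF C.v0 mu := by
  obtain ⟨c, μ, χ, Ψ, hc, hΨ, hk, hTΨ, -, hμ, hY, hl⟩ :=
    extract S D hsym hTc κ' TI p₀ ha hpos hz
  refine out_of_kop C κ n cF a hκ hc hΨ hk ?_ ?_ (u := ρ⁻¹ * μ) (mul_ne_zero (inv_ne_zero hρ) hμ)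
    ?_ ?_ ?_
  · intro v hv h0
    obtain ⟨k, hk'⟩ := YT v hv h0
    exact ⟨χ k, by rw [← hk', hY]⟩
  · intro w hw
    obtain ⟨l, h1, h2⟩ := jw w hw
    rw [← h1, hl, h2]
  · rw [hDT, LinearMap.smul_apply] at hTΨ
    have h1 := congrArg (fun f => ρ⁻¹ • f) hTΨ
    simp only [smul_smul, inv_mul_cancel₀ hρ, one_smul] at h1
    exact h1
  · intro k hk'
    obtain ⟨l, h1⟩ := YR k hk'
    exact ⟨χ l, by rw [← h1, hY]⟩
  · intro k hk'
    obtain ⟨l, h1, h2⟩ := jk k hk'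
    rw [← h1, hl, h2]

end Fermat.Agent.H44Z
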