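import Fermat.Agent.H50ZPos
import Fermat.Agent.H21Z7
import Fermat.Agent.H42T7
import Fermat.Agent.H56ZTgt3

/-!
# The side of `E` of the comparison (helper50, S47 block (C))

`exists_target` : for the operator data `opd` of helper21 on `X(E)`, a family of pure kernels with
nonzero value on the form `Φ`: the target index `p₀` with all the hypotheses of `H44Z.extract`
(`ha`, `hz`, `hpos`) and its coordinates.
-/

set_option autoImplicit false
set_option linter.unusedSectionVars false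

noncomputable section

open IsDedekindDomain HeightOneSpectrum WithZero NumberField Matrix MeasureTheory
open scoped MatrixGroups Classical ComplexConjugate Pointwise

namespace Fermat.Agent.H50Z

open Fermat.Agent.H59XF Fermat.Agent.H59D Fermat.Agent.H51Z Fermat.Agent.H79S
open Fermat.Agent.H32Z Fermat.Agent.H32Z.CutOff Fermat.Agent.H42S Fermat.Agent.H21Z
open Fermat.Agent.H56Z Fermat.Agent.H42T

variable {F E : Type} [Field F] [NumberField F] [Field E] [NumberField E] [Algebra F E]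
  {C : CSetup F E}

/-- Automorphisms preserve the norms of places. -/
theorem absNorm_smulPlace (s : E ≃ₐ[F] E) (w : HeightOneSpectrum (𝓞 E)) :
    Ideal.absNorm (H47.smulPlace s w).asIdeal = Ideal.absNorm w.asIdeal := by
  rw [H47.smulPlace_asIdeal, Ideal.absNorm_apply, Ideal.absNorm_apply, Submodule.cardQuot_apply,
    Submodule.cardQuot_apply]
  exact (Nat.card_congr (Ideal.quotientEquiv w.asIdeal (s • w.asIdeal)
    (MulSemiringAction.toRingEquiv _ (𝓞 E) s) rfl).toEquiv).symm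

/-- The eigenvalue of a label on the form. -/
def labVal (C : CSetup F E) (a : HeightOneSpectrum (𝓞 E) → ℝ) :
    {w // w ∉ C.kE.D.S ∧ w ≠ C.kE.D.w0} ⊕ {κ : (Fin 3 → ℝ) → ℂ // IsRC κ} → ℂ
  | Sum.inl w => (evT a w.1 : ℂ)
  | Sum.inr κ => H9Z.hat κ.1

variable {a : HeightOneSpectrum (𝓞 E) → ℝ} {Φ : C.mE.X → ℂ} (h : IsEForm C a Φ)
  (hb : ∃ M : ℝ, ∀ x, ‖Φ x‖ ≤ M)
  {ι : Type} [Fintype ι] {κ : ι → (Fin 3 → ℝ) → ℂ} (hκ : ∀ i, IsRC (κ i))
  (n : ι → HeightOneSpectrum (𝓞 E) →₀ ℕ) (hn : ∀ i, C.OkN (n i))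
  (cE : CutOff PGL(2, E) C.mE.X) [IsFiniteMeasure (cE.ν C.mE.μ)]
  {hK : BK (CutOff.autK PGL(2, E) (fks C.mE Finset.univ κ fun i => C.kE.D.mono (n i) 0))}
  {hG : ∀ (g : PGL(2, E)) x y,
    CutOff.autK PGL(2, E) (fks C.mE Finset.univ κ fun i => C.kE.D.mono (n i) 0) (g • x) y =
    CutOff.autK PGL(2, E) (fks C.mE Finset.univ κ fun i => C.kE.D.mono (n i) 0) x y}
  (hsym : ∀ x y, CutOff.autK PGL(2, E) (fks C.mE Finset.univ κ fun i => C.kE.D.mono (n i) 0) y x =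
    conj (CutOff.autK PGL(2, E) (fks C.mE Finset.univ κ fun i => C.kE.D.mono (n i) 0) x y))
  {J : Type} (j : J → {w // w ∉ C.kE.D.S ∧ w ≠ C.kE.D.w0} ⊕ {κ : (Fin 3 → ℝ) → ℂ // IsRC κ})
  (hj : ∀ l, labReal C.kE.D (j l))
  (σ : Lab C.kE.D ≃ Lab C.kE.D) (σ3 : ∀ l, σ (σ (σ l)) = l)
  (s : Module.End ℂ (BInv PGL(2, E) C.mE.X)) (s_mem : s ∈ Cm hK (cE.ν C.mE.μ) hG)
  (s3 : s ^ 3 = 1)
  (s_comm : ∀ l, s * labY C.kE.D 1 (rhoU C.w0 1) l = labY C.kE.D 1 (rhoU C.w0 1) (σ l) * s)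

include h hb hn in
/-- **The side of `E`**: the target index of the comparison. -/
theorem exists_target_opd (hs : s = sB C.aE) (ha : |a C.w0| ≤ 2)
    (haσ : ∀ w, a (C.aE.σ w) = a w) (hreal : ∀ i t, conj (κ i t) = κ i t)
    (hval : ∑ i, evP a (κ i) (n i) ≠ 0)
    (hσu : σ (Sum.inr ()) = Sum.inr ())
    (hσT : ∀ w w' : {w // w ∉ C.kE.D.S ∧ w ≠ C.kE.D.w0}, w'.1 = C.aE.σ w.1 →
      σ (Sum.inl (Sum.inl w)) = Sum.inl (Sum.inl w'))
    (hσκ : ∀ κ : {κ : (Fin 3 → ℝ) → ℂ // IsRC κ}, ∃ κ' : {κ : (Fin 3 → ℝ) → ℂ // IsRC κ},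
      σ (Sum.inl (Sum.inr κ)) = Sum.inl (Sum.inr κ') ∧ H9Z.hat κ'.1 = H9Z.hat κ.1)
    (lk : {κ : (Fin 3 → ℝ) → ℝ // IsRC fun t => (κ t : ℂ)} → J)
    (hlk : ∀ κ, j (lk κ) = Sum.inr ⟨fun t => (κ.1 t : ℂ), κ.2⟩) :
    ∃ p₀ : ((opd C.kE cE Finset.univ hκ n (hK := hK) (hG := hG) 1 one_pos j hj σ σ3 s s_mem s3
        s_comm).side hsym).I,
      0 < ((opd C.kE cE Finset.univ hκ n (hK := hK) (hG := hG) 1 one_pos j hj σ σ3 s s_mem s3
        s_comm).side hsym).a p₀.1 ∧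
      1 ≤ ‖((opd C.kE cE Finset.univ hκ n (hK := hK) (hG := hG) 1 one_pos j hj σ σ3 s s_mem s3
        s_comm).side hsym).z p₀‖ ∧
      (∀ l, (((opd C.kE cE Finset.univ hκ n (hK := hK) (hG := hG) 1 one_pos j hj σ σ3 s s_mem s3
        s_comm).side hsym).x p₀ l : ℂ) = labVal C a (j l)) ∧
      ∀ p, ((opd C.kE cE Finset.univ hκ n (hK := hK) (hG := hG) 1 one_pos j hj σ σ3 s s_mem s3
        s_comm).side hsym).x p = ((opd C.kE cE Finset.univ hκ n (hK := hK) (hG := hG) 1 one_pos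
          j hj σ σ3 s s_mem s3 s_comm).side hsym).x p₀ →
        ((opd C.kE cE Finset.univ hκ n (hK := hK) (hG := hG) 1 one_pos j hj σ σ3 s s_mem s3
        s_comm).side hsym).z p = ((opd C.kE cE Finset.univ hκ n (hK := hK) (hG := hG) 1 one_pos
          j hj σ σ3 s s_mem s3 s_comm).side hsym).z p₀ →
        ∀ v ∈ blk (((opd C.kE cE Finset.univ hκ n (hK := hK) (hG := hG) 1 one_pos j hj σ σ3 s
          s_mem s3 s_comm).side hsym).Y p.1) p.2.1,
          ((opd C.kE cE Finset.univ hκ n (hK := hK) (hG := hG) 1 one_pos j hj σ σ3 s s_mem s3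
            s_comm).side hsym).s p.1 v = v := by
  set D : OpData J hK (cE.ν C.mE.μ) hG :=
    opd C.kE cE Finset.univ hκ n (hK := hK) (hG := hG) 1 one_pos j hj σ σ3 s s_mem s3 s_comm
    with hD
  set Φb : BInv PGL(2, E) C.mE.X := h.toB hb with hΦb
  have hE : IsEForm C a (Φb : C.mE.X → ℂ) := h
  obtain ⟨c, hc⟩ := exists_real_val a Finset.univ (fun i _ => hreal i) n
  have hc0 : c ≠ 0 := by
    rintro rfl
    apply hval
    rw [← hc, Complex.ofReal_zero]
  have hker : kop hK (cE.ν C.mE.μ) hG Φb = (c : ℂ) • Φb := by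
    rw [hc]
    exact h.kop_toB hb Finset.univ hκ (fun i _ => hn i) cE hK hG
  let χ : Lab C.kE.D → ℂ := Sum.elim (labVal C a) fun _ => 0
  have hχ : ∀ k, k ≠ D.u → D.Y k Φb = χ k • Φb := by
    intro k hk
    match k, hk with
    | Sum.inl (Sum.inl w), _ =>
      have hw := good_of_lab C.kE w.2
      exact h.gopB_T hb hw.1 hw.2
    | Sum.inl (Sum.inr κ'), _ => exact h.rkB_toB hb κ'.2
    | Sum.inr (), hk => exact absurd rfl hk
  have hcomm : ∀ k, k ≠ D.u → Commute (D.Y k) D.W := by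
    intro k hk
    match k, hk with
    | Sum.inl (Sum.inl w), _ =>
      have hw := good_of_lab C.kE w.2
      exact gopB_commute C.mE (gmul_single_comm hw.2 _ _)
    | Sum.inl (Sum.inr κ'), _ => exact rkB_gopB_commute C.mE κ'.2 _
    | Sum.inr (), hk => exact absurd rfl hk
  have hσ : ∀ k, k ≠ D.u → χ (D.σ k) = χ k := by
    intro k hk
    match k, hk with
    | Sum.inl (Sum.inl w), _ =>
      have e1 : D.σ (Sum.inl (Sum.inl w)) = Sum.inl (Sum.inl (sgW C w)) :=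
        hσT w (sgW C w) rfl
      rw [e1]
      show (evT a (C.aE.σ w.1) : ℂ) = (evT a w.1 : ℂ)
      have hN : Ideal.absNorm (C.aE.σ w.1).asIdeal = Ideal.absNorm w.1.asIdeal := by
        rw [H7.Z.aut_σ_eq]
        exact absNorm_smulPlace C.s w.1
      rw [evT, evT, haσ, hN]
    | Sum.inl (Sum.inr κ'), _ =>
      obtain ⟨κ'', e1, e2⟩ := hσκ κ'
      have e1' : D.σ (Sum.inl (Sum.inr κ')) = Sum.inl (Sum.inr κ'') := e1
      rw [e1']
      exact e2
    | Sum.inr (), hk => exact absurd rfl hk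
  obtain ⟨y, p₀, -, -, -, h1, -, h2, -, h3⟩ := hE.exists_p0 D hsym ha rfl rfl rfl hc0 hker hχ
    hcomm hσu hσ
  have hx : ∀ l, ((D.side hsym).x p₀ l : ℂ) = labVal C a (j l) := fun l => h3 l (by
    show (Sum.inl (j l) : Lab C.kE.D) ≠ Sum.inr ()
    exact Sum.inl_ne_inr)
  refine ⟨p₀, h1, h2, hx, ?_⟩
  refine hpos_E hκ n cE hsym D
    (fun w => Sum.inl (Sum.inl ⟨w.1, by rw [C.kE.D_S, C.kE.D_w0]; exact w.2⟩))
    (fun w => rfl) (fun w w' hw => hσT _ _ hw) lk (fun κ' => ?_) hs p₀ (fun κ' => ?_)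
  · show labY C.kE.D 1 (rhoU C.w0 1) (Sum.inl (j (lk κ'))) = _
    rw [hlk]
    rfl
  · refine (hx (lk κ')).trans ?_
    rw [hlk]
    rfl

/-- Permutations of the coordinates do not change the value. -/
theorem hat_perm {κ : (Fin 3 → ℝ) → ℂ} (c : Equiv.Perm (Fin 3)) :
    (H9Z.hat fun t => κ fun j => t (c j)) = H9Z.hat κ := by
  have h1 := volume_measurePreserving_piCongrLeft (fun _ : Fin 3 => H3) c
  have h2 := h1.integral_comp (MeasurableEquiv.piCongrLeft (fun _ : Fin 3 => H3) c).measurableEmbedding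
    (fun w : Fin 3 → H3 => (κ fun j => H5Z.chv (fun _ => H3.base) w (c j)) * ∏ j, ((w j).y : ℂ))
  have h3 : ∀ (w : Fin 3 → H3) (j : Fin 3),
      (MeasurableEquiv.piCongrLeft (fun _ : Fin 3 => H3) c) w (c j) = w j := fun w j =>
    MeasurableEquiv.piCongrLeft_apply_apply ..
  unfold H9Z.hat H5Z.Rk
  refine h2.symm.trans ?_
  refine integral_congr_ae (Filter.Eventually.of_forall fun w => ?_)
  simp only
  congr 1
  · congr 1
    funext j
    show H3.ch H3.base ((MeasurableEquiv.piCongrLeft (fun _ : Fin 3 => H3) c) w (c j)) = _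
    rw [h3]
    rfl
  · rw [← Equiv.prod_comp c]
    exact Finset.prod_congr rfl fun j _ => by rw [h3]

/-- **The side of `E`, for the operator data `opE` of a `CFam`.** -/
theorem exists_target (f : CFam C a) (h : IsEForm C a Φ) (cE : CutOff PGL(2, E) C.mE.X)
    [IsFiniteMeasure (cE.ν C.mE.μ)] (ha : |a C.w0| ≤ 2) (haσ : ∀ w, a (C.aE.σ w) = a w) :
    ∃ p₀ : ((opE f cE).side (symE f)).I,
      0 < ((opE f cE).side (symE f)).a p₀.1 ∧ 1 ≤ ‖((opE f cE).side (symE f)).z p₀‖ ∧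
      (∀ l, (((opE f cE).side (symE f)).x p₀ l : ℂ) = labVal C a (jE C l)) ∧
      ∀ p : ((opE f cE).side (symE f)).I,
        ((opE f cE).side (symE f)).x p = ((opE f cE).side (symE f)).x p₀ →
        ((opE f cE).side (symE f)).z p = ((opE f cE).side (symE f)).z p₀ →
        ∀ v ∈ blk (((opE f cE).side (symE f)).Y p.1) p.2.1,
          ((opE f cE).side (symE f)).s p.1 v = v := by
  letI := f.fin
  exact exists_target_opd h (f.bddE Φ h) f.rc f.n f.ok cE (hK := bkE f) (hG := invE f) (symE f)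
    (jE C) (jE_real C) (sgE C) (sgE_three C) (sB C.aE)
    (sB_mem_Cm Finset.univ f.rc (fun i => C.kE.D.mono (f.n i) 0) cE C.aE f.s_inv)
    (sB_pow_three C.aE (cs_act_three C)) (sB_labY C 1 _) rfl ha haσ f.real f.val_ne rfl
    (fun w w' hw => by
      show Sum.inl (Sum.inl (sgW C w)) = _
      congr 2
      exact Subtype.ext hw.symm)
    (fun κ => ⟨sgR C κ, rfl, hat_perm C.aE.c⟩)
    (fun κ => Sum.inr ⟨fun t => (κ.1 t : ℂ), κ.2, fun _ => Complex.conj_ofReal _⟩)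
    (fun κ => rfl)

end Fermat.Agent.H50Z

end
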