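import Fermat.Agent.H21Z8
import Fermat.Agent.H50ZP0
import Fermat.Agent.H44ZOut3
import Fermat.Agent.H79SBlk

/-!
# S47, block (C): the comparison (helper21, second source)
-/

set_option autoImplicit false
set_option linter.unusedSectionVars false

noncomputable section

open MeasureTheory Complex Filter IsDedekindDomain HeightOneSpectrum NumberField
open scoped ENNReal ComplexConjugate Topology MatrixGroups
open Fermat.Agent.H32Z Fermat.Agent.H59XF Fermat.Agent.H51Z Fermat.Agent.H59D Fermat.Agent.H5Z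
open Fermat.Agent.H79S Fermat.Agent.H76U Fermat.Agent.H59K
open Fermat.Agent.H17S (CK coarse ck_ker Bd twOf Tw)
open Fermat.Agent.H56Z (IsRC IsLB)
open Fermat.Agent.H67M (bF isRC_bF)
open Fermat.Agent.H42T (BOps Lab kSys JL labE labF JR jr Ok_E Ok_F)

namespace Fermat.Agent.H21Z

/-- **The comparison.** -/
theorem compar : H79S.Compar := by
  intro F E _ _ _ _ _ C a hσ ha hgeom f hΦ
  obtain ⟨Φ, hΦ⟩ := hΦ
  obtain ⟨cE, hcE⟩ := H26Z.exists_cutOff C.mE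
  obtain ⟨cF, hcF⟩ := H26Z.exists_cutOff C.mF
  letI := f.fin
  have haσ : ∀ w, a (C.aE.σ w) = a w := by
    intro w
    rw [H7.Z.aut_σ_eq]
    exact hσ C.s w
  obtain ⟨p₀, ha0, hz, hx, hpos⟩ := H50Z.exists_target f hΦ cE ha haσ
  have hN : (0 : ℝ) < ((Ideal.absNorm C.v0.asIdeal : ℕ) : ℝ) := by
    have h0 : Ideal.absNorm C.v0.asIdeal ≠ 0 := by
      rw [Ne, Ideal.absNorm_eq_zero_iff]; exact C.v0.ne_bot
    exact_mod_cast Nat.pos_of_ne_zero h0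
  refine H44Z.out_of_extract C f.κ f.n cF a f.rc ((opE f cE).side (symE f)) (opF f cF) (symF f)
    ?_ ?_ ?_ (ρ := (((Real.sqrt ((Ideal.absNorm C.v0.asIdeal : ℕ) : ℝ))⁻¹ : ℝ) : ℂ)) ?_ ?_ 1
    (TI_fam f hgeom cE cF) p₀ ha0 hpos hz ?_ ?_
  · intro v hv h0
    exact ⟨Sum.inl (Sum.inl ⟨v, by rw [C.kF.D_S, C.kF.D_w0]; exact ⟨hv, h0⟩⟩), rfl⟩
  · intro k hk
    exact ⟨Sum.inl (Sum.inr ⟨fun t => (k t : ℂ), hk⟩), rfl⟩
  · exact H44Z.opd_T_comm C.kF cF Finset.univ _ _ _ _ _ _ _ _ _ _ _ _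
  · exact Complex.ofReal_ne_zero.mpr (inv_ne_zero (Real.sqrt_pos.mpr hN).ne')
  · exact H44Z.opd_T C.kF cF Finset.univ _ _ _ _ _ _ _ _ _ _ _ _
  · intro w hw
    refine ⟨Sum.inl ⟨w, hw⟩, rfl, ?_⟩
    have h1 := hx (Sum.inl ⟨w, hw⟩)
    exact Complex.ofReal_injective h1
  · intro k hk
    exact ⟨Sum.inr ⟨fun t => (k t : ℂ), hk, fun _ => Complex.conj_ofReal _⟩, rfl, hx _⟩

end Fermat.Agent.H21Z
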