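import Fermat.Agent.H43Z8

/-!
# C13, part 9: the nonsplit bad places on the setup of block (C)
-/

set_option autoImplicit false

namespace Fermat.Agent.H43Z

open Fermat.Agent.H76U Fermat.Agent.H57C Fermat.Agent.H79S Fermat.Agent.H59XF IsDedekindDomain
  NumberField WithZero

variable {F E : Type} [Field F] [NumberField F] [Field E] [NumberField E] [Algebra F E]
  (C : CSetup F E)

/-- **C13**: local matching at the nonsplit bad places, on helper79's setup. -/
theorem pmat {v : HeightOneSpectrum (𝓞 F)} (hv : v ∈ C.SF) (hns : H82.NonSplit E v)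
    {w : HeightOneSpectrum (𝓞 E)} (hw : H47.below F w = v) {D : SD E} {κ : ℤᵐ⁰}
    {π al be ga : F} (h : NS C.s w v (C.TE w) (C.TF v) D κ π al be ga) : PMat C 0 0 v := by
  have := C.gal
  have hwS : w ∈ C.SE := by rw [C.mem_SE, hw]; exact hv
  have hσ : C.aE.σ w = w := (nonSplit_iff C hw).1 hns
  have hwv : w ∈ H82.above E v := (mem_above_iff v w).2 hw
  have hsw : ∀ x, w.valuation E (C.s x) = w.valuation E x := by
    intro x
    have h1 := C.aE.val w x
    rw [C.s_eq, hσ] at h1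
    exact h1
  have hlE : (C.kE.D.mono 0 0).loc w = C.kE.D.e w := by
    have hS : w ∈ C.kE.D.S := by rw [C.kE.D_S]; exact hwS
    rw [HData.mono_loc, HData.loc_S _ hS]
  have hlF : ∀ n k, (C.kF.D.mono n k).loc v = C.kF.D.e v := by
    intro n k
    have hS : v ∈ C.kF.D.S := by rw [C.kF.D_S]; exact hv
    rw [HData.mono_loc, HData.loc_S _ hS]
  unfold PMat
  rw [HT_bad C hv hns]
  refine H43Z8.pm_ns C.h3 C.hs C.aE.twist (twist_s C) (H47.below F) (below_σ C)
    (below_iff_of_nonSplit hw hns) hσ hwv hsw _ _ (C.kE.lev_S w hwS) (C.kF.lev_S v hv) h ?_ ?_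
    (C.kE.e_index w hwS) ?_ (C.kF.e_index v hv)
  · intro x
    rw [C.psiE w hwS, C.psiF v hv]
    exact H92P.psi_nonsplit (fun u => by
      rw [mem_above_iff]; exact below_iff_of_nonSplit hw hns u) x
  · rw [hlE]; exact C.kE.e_typ w hwS
  · rw [hlF]; exact C.kF.e_typ v hv

/-- The bad places: nonsplit by `NS`, split by hypothesis. -/
theorem hbad (hns : ∀ v ∈ C.SF, H82.NonSplit E v → ∃ (w : HeightOneSpectrum (𝓞 E)) (D : SD E)
      (κ : ℤᵐ⁰) (π al be ga : F), H47.below F w = v ∧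
      NS C.s w v (C.TE w) (C.TF v) D κ π al be ga)
    (hsp : ∀ v ∈ C.SF, ¬ H82.NonSplit E v → PMat C 0 0 v) : ∀ v ∈ C.SF, PMat C 0 0 v := by
  intro v hv
  by_cases h : H82.NonSplit E v
  · obtain ⟨w, D, κ, π, al, be, ga, hw, hN⟩ := hns v hv h
    exact pmat C hv h hw hN
  · exact hsp v hv h

end Fermat.Agent.H43Z
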