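import Fermat.Agent.H22CFin
import Fermat.Agent.H76V3
import Fermat.Agent.H43Z9

/-!
# S47, block (C): the setup exists (helper22)
-/

set_option autoImplicit false

noncomputable section

open IsDedekindDomain HeightOneSpectrum WithZero NumberField Matrix
open scoped MatrixGroups

namespace Fermat.Agent.H22C

theorem tinstEx : TInstEx := by
  intro F E _ _ _ _ _ _ h3 s hs om hom th hth hsth k c₀
  exact H76V.exists_tinst h3 s hs hom hth hsth k c₀

theorem nspm : NSPM := by
  intro F E _ _ _ _ _ C v hv hns w hw h
  obtain ⟨D, κ, π, al, be, ga, h⟩ := h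
  exact H43Z.pmat C hv hns (H47.eq_below_of_mem_above hw).symm h

/-- **The setup of block (C) exists.** -/
theorem setupEx : H79S.SetupEx := setupEx_of tinstEx nspm

end Fermat.Agent.H22C
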