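import Fermat.Agent.H22Pol

/-!
The lattice of period functionals on cusp forms and its finite generation.
-/

set_option autoImplicit false

open UpperHalfPlane Filter Topology MeasureTheory Set CongruenceSubgroup
open scoped MatrixGroups ModularForm Manifold

noncomputable section

namespace Fermat.Agent.H22

variable {N : ℕ} [NeZero N]

open ConjAct Pointwise in
lemma isArithmetic_translate (g : SL(2, ℤ)) :
    Subgroup.IsArithmetic (toConjAct (Matrix.SpecialLinearGroup.mapGL ℝ g)⁻¹ •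
      ((Gamma0 N : Subgroup (GL (Fin 2) ℝ)))) := by
  simpa [(show Rat.castHom ℝ = algebraMap ℚ ℝ by rfl), map_inv,
      Matrix.SpecialLinearGroup.map_mapGL]
      using! Subgroup.IsArithmetic.conj ((Gamma0 N : Subgroup (GL (Fin 2) ℝ)))
        (Matrix.SpecialLinearGroup.mapGL ℚ g)⁻¹

lemma cuspLike_of_cuspForm {k : ℤ} (f : CuspForm (Gamma0 N) k) : CuspLike k f := by
  refine ⟨f.holo', fun g => ?_⟩
  have := isArithmetic_translate (N := N) g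
  have h1 := CuspFormClass.exp_decay_atImInfty'
    (CuspForm.translate f (Matrix.SpecialLinearGroup.mapGL ℝ g))
  obtain ⟨c, hc, hO⟩ := h1
  obtain ⟨C, hC⟩ := hO.bound
  rw [UpperHalfPlane.atImInfty, eventually_comap] at hC
  obtain ⟨A, hA⟩ := eventually_atTop.mp hC
  refine ⟨c, hc, C, A, fun τ hτ => ?_⟩
  have := hA τ.im hτ τ rfl
  rwa [Real.norm_of_nonneg (Real.exp_pos _).le] at this

omit [NeZero N] in
lemma slash_of_mem_Gamma0 {k : ℤ} (f : CuspForm (Gamma0 N) k) {γ : SL(2, ℤ)} (hγ : γ ∈ Gamma0 N) :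
    (f : ℍ → ℂ) ∣[k] γ = f :=
  SlashInvariantFormClass.slash_action_eq f (Matrix.SpecialLinearGroup.mapGL ℝ γ)
    (Subgroup.mem_map_of_mem _ hγ)

variable (N) in
/-- The period functional `f ↦ ∫_∞^{g ∞} (f ∣ γ) P`. -/
def Lam {w : ℕ} (γ : SL(2, ℤ)) {P : ℍ → ℂ} (hP : P ∈ Pol ℤ w) (g : SL(2, ℤ)) :
    CuspForm (Gamma0 N) ((w : ℤ) + 2) →ₗ[ℂ] ℂ where
  toFun f := Phi (((f : ℍ → ℂ) ∣[(w : ℤ) + 2] γ) * P) g
  map_add' f f' := by
    have h1 := ((cuspLike_of_cuspForm f).slash γ).good_mul hP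
    have h2 := ((cuspLike_of_cuspForm f').slash γ).good_mul hP
    rw [FunLike.coe_add, SlashAction.add_slash, add_mul, Phi_add h1 h2]
  map_smul' c f := by
    have h1 := ((cuspLike_of_cuspForm f).slash γ).good_mul hP
    have h2 : (((c • f : CuspForm (Gamma0 N) ((w : ℤ) + 2)) : ℍ → ℂ) ∣[(w : ℤ) + 2] γ) * P =
        c • ((((f : ℍ → ℂ) ∣[(w : ℤ) + 2] γ)) * P) := by
      rw [FunLike.coe_smul, ModularForm.SL_smul_slash, smul_mul_assoc]
    rw [h2, Phi_smul h1]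
    rfl

lemma Lam_apply {w : ℕ} (γ : SL(2, ℤ)) {P : ℍ → ℂ} (hP : P ∈ Pol ℤ w) (g : SL(2, ℤ))
    (f : CuspForm (Gamma0 N) ((w : ℤ) + 2)) :
    Lam N γ hP g f = Phi (((f : ℍ → ℂ) ∣[(w : ℤ) + 2] γ) * P) g := rfl

lemma Lam_mul {w : ℕ} (γ : SL(2, ℤ)) {P : ℍ → ℂ} (hP : P ∈ Pol ℤ w) (g g' : SL(2, ℤ)) :
    Lam N γ hP (g * g') = Lam N γ hP g + Lam N (γ * g) (Pol_slash hP g) g' := by
  ext f
  have h1 := ((cuspLike_of_cuspForm f).slash γ).good_mul hP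
  simp only [LinearMap.add_apply, Lam_apply]
  rw [Phi_mul h1, mul_slash_two (w := w), SlashAction.slash_mul]

lemma Lam_one {w : ℕ} (γ : SL(2, ℤ)) {P : ℍ → ℂ} (hP : P ∈ Pol ℤ w) :
    Lam N γ hP 1 = 0 := by
  ext f
  simp only [Lam_apply, Phi_one, LinearMap.zero_apply]

lemma Lam_T {w : ℕ} (γ : SL(2, ℤ)) {P : ℍ → ℂ} (hP : P ∈ Pol ℤ w) :
    Lam N γ hP ModularGroup.T = 0 := by
  ext f
  have h1 := ((cuspLike_of_cuspForm f).slash γ).good_mul hP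
  simp only [Lam_apply, Phi_T h1, LinearMap.zero_apply]

/-- The finite generating set. -/
lemma finite_gens (N w : ℕ) [NeZero N] :
    {L : CuspForm (Gamma0 N) ((w : ℤ) + 2) →ₗ[ℂ] ℂ |
      ∃ (γ : SL(2, ℤ)) (i : ℕ) (hi : i ≤ w),
        L = Lam N γ (Submodule.subset_span ⟨i, hi, rfl⟩ :
          (fun τ : ℍ => (τ : ℂ) ^ i) ∈ Pol ℤ w) ModularGroup.S}.Finite := by
  have key : ∀ (γ γ' : SL(2, ℤ)) (i : ℕ) (hi : i ≤ w), γ' * γ⁻¹ ∈ Gamma0 N →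
      Lam N γ (Submodule.subset_span ⟨i, hi, rfl⟩ :
          (fun τ : ℍ => (τ : ℂ) ^ i) ∈ Pol ℤ w) ModularGroup.S =
      Lam N γ' (Submodule.subset_span ⟨i, hi, rfl⟩ :
          (fun τ : ℍ => (τ : ℂ) ^ i) ∈ Pol ℤ w) ModularGroup.S := by
    intro γ γ' i hi h
    ext f
    simp only [Lam_apply]
    have h2 : (f : ℍ → ℂ) ∣[(w : ℤ) + 2] γ' = (f : ℍ → ℂ) ∣[(w : ℤ) + 2] γ := by
      have : γ' = (γ' * γ⁻¹) * γ := by group
      rw [this, SlashAction.slash_mul, slash_of_mem_Gamma0 f h]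
    rw [h2]
  have hfin : Finite (SL(2, ℤ) ⧸ (Gamma0 N)) := inferInstance
  refine Set.Finite.subset (Set.finite_range
    (fun x : (SL(2, ℤ) ⧸ (Gamma0 N)) × Fin (w + 1) =>
      Lam N (x.1.out)⁻¹ (Submodule.subset_span ⟨x.2.1, Nat.lt_succ_iff.mp x.2.2, rfl⟩ :
          (fun τ : ℍ => (τ : ℂ) ^ x.2.1) ∈ Pol ℤ w) ModularGroup.S)) ?_
  rintro L ⟨γ, i, hi, rfl⟩
  refine ⟨((γ⁻¹ : SL(2, ℤ)), ⟨i, Nat.lt_succ_of_le hi⟩), ?_⟩
  apply key (i := i) (hi := hi)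
  have h1 : ((((γ⁻¹ : SL(2, ℤ)) : SL(2, ℤ) ⧸ (Gamma0 N)).out : SL(2, ℤ)) :
      SL(2, ℤ) ⧸ (Gamma0 N)) = ((γ⁻¹ : SL(2, ℤ)) : SL(2, ℤ) ⧸ (Gamma0 N)) := Quotient.out_eq' _
  rw [QuotientGroup.eq] at h1
  have h2 := (Gamma0 N).inv_mem h1
  simpa using h2

/-- The span of the finite generating set. -/
def M0 (N w : ℕ) [NeZero N] : Submodule ℤ (CuspForm (Gamma0 N) ((w : ℤ) + 2) →ₗ[ℂ] ℂ) :=
  Submodule.span ℤ {L : CuspForm (Gamma0 N) ((w : ℤ) + 2) →ₗ[ℂ] ℂ |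
      ∃ (γ : SL(2, ℤ)) (i : ℕ) (hi : i ≤ w),
        L = Lam N γ (Submodule.subset_span ⟨i, hi, rfl⟩ :
          (fun τ : ℍ => (τ : ℂ) ^ i) ∈ Pol ℤ w) ModularGroup.S}

lemma M0_fg (N w : ℕ) [NeZero N] : (M0 N w).FG :=
  Submodule.fg_span (finite_gens N w)

lemma Lam_S_mem {w : ℕ} (γ : SL(2, ℤ)) {P : ℍ → ℂ} (hP : P ∈ Pol ℤ w) :
    Lam N γ hP ModularGroup.S ∈ M0 N w := by
  induction hP using Submodule.span_induction with
  | mem x hx =>
    obtain ⟨i, hi, rfl⟩ := hx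
    exact Submodule.subset_span ⟨γ, i, hi, rfl⟩
  | zero =>
    convert (M0 N w).zero_mem
    ext f
    simp [Lam_apply, Phi_zero]
  | add x y hx' hy' hx hy =>
    convert (M0 N w).add_mem hx hy
    ext f
    have h1 := ((cuspLike_of_cuspForm f).slash γ).good_mul hx'
    have h2 := ((cuspLike_of_cuspForm f).slash γ).good_mul hy'
    simp only [Lam_apply, mul_add, LinearMap.add_apply, Phi_add h1 h2]
  | smul a x hx' hx =>
    convert (M0 N w).smul_mem a hx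
    ext f
    have h1 := ((cuspLike_of_cuspForm f).slash γ).good_mul hx'
    simp only [Lam_apply, LinearMap.smul_apply]
    have : ((f : ℍ → ℂ) ∣[(w : ℤ) + 2] γ) * (a • x) = (a : ℂ) • (((f : ℍ → ℂ) ∣[(w : ℤ) + 2] γ) * x) := by
      ext τ; simp; ring
    rw [this, Phi_smul h1]
    simp

lemma Lam_mem {w : ℕ} (g : SL(2, ℤ)) :
    ∀ (γ : SL(2, ℤ)) {P : ℍ → ℂ} (hP : P ∈ Pol ℤ w), Lam N γ hP g ∈ M0 N w := by
  have hg : g ∈ Subgroup.closure {ModularGroup.S, ModularGroup.T} := by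
    rw [SpecialLinearGroup.SL2Z_generators]; trivial
  induction hg using Subgroup.closure_induction with
  | mem x hx =>
    intro γ P hP
    rcases hx with rfl | rfl
    · exact Lam_S_mem γ hP
    · rw [Lam_T]; exact zero_mem _
  | one => intro γ P hP; rw [Lam_one]; exact zero_mem _
  | mul x y _ _ hx hy =>
    intro γ P hP
    rw [Lam_mul]
    exact add_mem (hx γ hP) (hy _ _)
  | inv x _ hx =>
    intro γ P hP
    have h1 := Lam_mul (N := N) γ hP x⁻¹ x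
    rw [inv_mul_cancel, Lam_one] at h1
    have h2 : Lam N γ hP x⁻¹ = - Lam N (γ * x⁻¹) (Pol_slash hP x⁻¹) x := by
      rw [eq_neg_iff_add_eq_zero, ← h1]
    rw [h2]
    exact neg_mem (hx _ _)

/-- The lattice of periods. -/
def M (N w : ℕ) [NeZero N] : Submodule ℤ (CuspForm (Gamma0 N) ((w : ℤ) + 2) →ₗ[ℂ] ℂ) :=
  Submodule.span ℤ {L : CuspForm (Gamma0 N) ((w : ℤ) + 2) →ₗ[ℂ] ℂ |
      ∃ (P : ℍ → ℂ) (hP : P ∈ Pol ℤ w) (g : SL(2, ℤ)), L = Lam N 1 hP g}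

lemma M_le (N w : ℕ) [NeZero N] : M N w ≤ M0 N w := by
  refine Submodule.span_le.mpr ?_
  rintro L ⟨P, hP, g, rfl⟩
  exact Lam_mem g 1 hP

lemma M_fg (N w : ℕ) [NeZero N] : (M N w).FG := by
  have h1 : IsNoetherian ℤ (M0 N w) := isNoetherian_of_fg_of_noetherian _ (M0_fg N w)
  rw [isNoetherian_submodule] at h1
  exact h1 _ (M_le N w)

end Fermat.Agent.H22
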