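import Fermat.Agent.H22Prim

/-!
Polynomials of degree at most `w` as functions on the upper half plane, with the weight `-w` slash
action; products with cusp-like functions of weight `w + 2`.
-/

set_option autoImplicit false

open UpperHalfPlane Filter Topology MeasureTheory Set
open scoped MatrixGroups ModularForm Manifold

noncomputable section

namespace Fermat.Agent.H22

/-- `R`-polynomials of degree `≤ w` in `τ`. -/
def Pol (R : Type) [CommRing R] [Algebra R ℂ] (w : ℕ) : Submodule R (ℍ → ℂ) :=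
  Submodule.span R {P | ∃ i ≤ w, P = fun τ : ℍ => (τ : ℂ) ^ i}

section Pol

variable {R : Type} [CommRing R] [Algebra R ℂ] {w : ℕ}

lemma aeval_mem_Pol {p : Polynomial ℤ} (hp : p.natDegree ≤ w) :
    (fun τ : ℍ => Polynomial.aeval (τ : ℂ) p) ∈ Pol R w := by
  have h1 : (fun τ : ℍ => Polynomial.aeval (τ : ℂ) p) =
      ∑ i ∈ Finset.range (w + 1), (algebraMap ℤ R (p.coeff i)) • (fun τ : ℍ => (τ : ℂ) ^ i) := by
    funext τ
    rw [Polynomial.aeval_eq_sum_range' (Nat.lt_succ_of_le hp)]
    simp only [Finset.sum_apply, Pi.smul_apply]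
    refine Finset.sum_congr rfl fun i _ => ?_
    rw [Algebra.smul_def (algebraMap ℤ R (p.coeff i)), Algebra.smul_def (p.coeff i)]
    simp
  rw [h1]
  refine Submodule.sum_mem _ fun i hi => Submodule.smul_mem _ _ (Submodule.subset_span ?_)
  exact ⟨i, by simpa [Nat.lt_succ_iff] using hi, rfl⟩

lemma lin_mem_Pol (a b c d : ℤ) {i : ℕ} (hi : i ≤ w) :
    (fun τ : ℍ => ((a : ℂ) * τ + b) ^ i * ((c : ℂ) * τ + d) ^ (w - i)) ∈ Pol R w := by
  have hdeg : ((Polynomial.C a * Polynomial.X + Polynomial.C b) ^ i *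
      (Polynomial.C c * Polynomial.X + Polynomial.C d) ^ (w - i) : Polynomial ℤ).natDegree ≤ w := by
    refine Polynomial.natDegree_mul_le.trans ?_
    have h1 : ((Polynomial.C a * Polynomial.X + Polynomial.C b) ^ i : Polynomial ℤ).natDegree ≤ i := by
      refine Polynomial.natDegree_pow_le.trans ?_
      have : (Polynomial.C a * Polynomial.X + Polynomial.C b : Polynomial ℤ).natDegree ≤ 1 :=
        Polynomial.natDegree_linear_le
      nlinarith
    have h2 : ((Polynomial.C c * Polynomial.X + Polynomial.C d) ^ (w - i) : Polynomial ℤ).natDegree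
        ≤ w - i := by
      refine Polynomial.natDegree_pow_le.trans ?_
      have : (Polynomial.C c * Polynomial.X + Polynomial.C d : Polynomial ℤ).natDegree ≤ 1 :=
        Polynomial.natDegree_linear_le
      nlinarith
    omega
  have := aeval_mem_Pol (R := R) hdeg
  convert this using 2
  simp

lemma Pol_slash {P : ℍ → ℂ} (hP : P ∈ Pol R w) (g : SL(2, ℤ)) : P ∣[-(w : ℤ)] g ∈ Pol R w := by
  induction hP using Submodule.span_induction with
  | mem x hx =>
    obtain ⟨i, hi, rfl⟩ := hx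
    have := lin_mem_Pol (R := R) (w := w) (g 0 0) (g 0 1) (g 1 0) (g 1 1) hi
    convert this using 1
    funext τ
    rw [ModularForm.SL_slash_apply, neg_neg, coe_specialLinearGroup_apply]
    have hd := denom_ne_zero (Matrix.SpecialLinearGroup.mapGL ℝ g) τ
    have e : denom (Matrix.SpecialLinearGroup.mapGL ℝ g) τ = (g 1 0 : ℂ) * τ + g 1 1 := by
      simp [denom]
    rw [e] at hd
    have e' : denom (g : GL (Fin 2) ℝ) τ = (g 1 0 : ℂ) * τ + g 1 1 := by
      simp [denom]
    rw [e', zpow_natCast]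
    simp only [algebraMap_int_eq, eq_intCast, Complex.ofReal_intCast]
    rw [div_pow]
    obtain ⟨m, rfl⟩ := Nat.exists_eq_add_of_le hi
    rw [Nat.add_sub_cancel_left, pow_add, div_mul_eq_mul_div, div_eq_iff (pow_ne_zero _ hd)]
    ring
  | zero => simp
  | add x y _ _ hx hy => rw [SlashAction.add_slash]; exact add_mem hx hy
  | smul a x _ hx =>
    have : (a • x) ∣[-(w:ℤ)] g = a • (x ∣[-(w:ℤ)] g) := ModularForm.SL_smul_slash _ _ _ _
    rw [this]; exact Submodule.smul_mem _ _ hx

lemma Pol_mdifferentiable {P : ℍ → ℂ} (hP : P ∈ Pol R w) : MDifferentiable 𝓘(ℂ) 𝓘(ℂ) P := by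
  induction hP using Submodule.span_induction with
  | mem x hx =>
    obtain ⟨i, hi, rfl⟩ := hx
    exact mdifferentiable_coe.pow i
  | zero => exact mdifferentiable_const
  | add x y _ _ hx hy => exact hx.add hy
  | smul a x _ hx =>
    have : a • x = (algebraMap R ℂ a) • x := by
      ext τ; simp [Algebra.smul_def]
    rw [this]; exact hx.const_smul _

lemma SDecay.mul_Pol {f P : ℍ → ℂ} (hf : SDecay f) (hP : P ∈ Pol R w) : SDecay (f * P) := by
  induction hP using Submodule.span_induction with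
  | mem x hx =>
    obtain ⟨i, hi, rfl⟩ := hx
    clear hi
    induction i with
    | zero =>
      have : f * (fun τ : ℍ => (τ : ℂ) ^ 0) = f := by ext τ; simp
      rwa [this]
    | succ n ih =>
      have := ih.coe_mul
      convert this using 1
      ext τ
      simp only [Pi.mul_apply, pow_succ]
      ring
  | zero => simpa using SDecay.zero
  | add x y _ _ hx hy => rw [mul_add]; exact hx.add hy
  | smul a x _ hx =>
    have : f * (a • x) = (algebraMap R ℂ a) • (f * x) := by
      ext τ; simp [Algebra.smul_def]; ring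
    rw [this]; exact hx.smul _

end Pol

/-- Holomorphic functions all of whose weight `k` translates decay exponentially at `i∞`. -/
structure CuspLike (k : ℤ) (f : ℍ → ℂ) : Prop where
  hol : MDifferentiable 𝓘(ℂ) 𝓘(ℂ) f
  dec : ∀ g : SL(2, ℤ), ∃ c > 0, ∃ C A : ℝ, ∀ τ : ℍ, A ≤ τ.im →
    ‖(f ∣[k] g) τ‖ ≤ C * Real.exp (-c * τ.im)

lemma CuspLike.slash {k : ℤ} {f : ℍ → ℂ} (hf : CuspLike k f) (g : SL(2, ℤ)) :
    CuspLike k (f ∣[k] g) :=
  ⟨hf.hol.slash k _, fun g' => by
    rw [← SlashAction.slash_mul]; exact hf.dec _⟩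

lemma CuspLike.sdecay {k : ℤ} {f : ℍ → ℂ} (hf : CuspLike k f) : SDecay f := by
  obtain ⟨c, hc, C, A, H⟩ := hf.dec 1
  exact fun R => ⟨c, hc, C, A, fun τ _ hA => by simpa using H τ hA⟩

lemma mul_slash_two {w : ℕ} (f P : ℍ → ℂ) (g : SL(2, ℤ)) :
    (f * P) ∣[(2 : ℤ)] g = (f ∣[(w : ℤ) + 2] g) * (P ∣[-(w : ℤ)] g) := by
  have := ModularForm.mul_slash_SL2 ((w : ℤ) + 2) (-(w : ℤ)) g f P
  rwa [show (w : ℤ) + 2 + -(w : ℤ) = 2 by ring] at this

lemma CuspLike.good_mul {R : Type} [CommRing R] [Algebra R ℂ] {w : ℕ} {f P : ℍ → ℂ}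
    (hf : CuspLike ((w : ℤ) + 2) f) (hP : P ∈ Pol R w) : Good (f * P) :=
  ⟨hf.hol.mul (Pol_mdifferentiable hP), fun g => by
    rw [mul_slash_two (w := w)]
    exact (hf.slash g).sdecay.mul_Pol (Pol_slash hP g)⟩

end Fermat.Agent.H22
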