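import Fermat.Agent.H80Free
import Fermat.Agent.H80Stab

/-! The separating vector valued form on `SL(2,ℤ) ⧸ Γ₀(N)`. -/

open UpperHalfPlane ModularForm MatrixGroups CongruenceSubgroup Filter Topology
open scoped Manifold

noncomputable section

namespace Fermat.Agent.H80

open Fermat.Agent.H20

/-- the vector valued form attached to `Δ(Nτ)` -/
def sepForm (N : ℕ) [NeZero N] (x : SL(2, ℤ) ⧸ Gamma0 N) : ℍ → ℂ :=
  Quotient.liftOn' x (fun g => dN N ∣[(12 : ℤ)] g⁻¹) (fun a b hab => by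
    have h1 : a⁻¹ * b ∈ Gamma0 N := QuotientGroup.leftRel_apply.mp hab
    have h2 : dN N ∣[(12 : ℤ)] (a⁻¹ * b) = dN N := dN_slash N h1
    show dN N ∣[(12 : ℤ)] a⁻¹ = dN N ∣[(12 : ℤ)] b⁻¹
    conv_rhs => rw [← h2]
    rw [← SlashAction.slash_mul]
    congr 1
    group)

theorem sepForm_mk (N : ℕ) [NeZero N] (g : SL(2, ℤ)) :
    sepForm N (g : SL(2, ℤ) ⧸ Gamma0 N) = dN N ∣[(12 : ℤ)] g⁻¹ := rfl

theorem sepForm_isVMF (N : ℕ) [NeZero N] : IsVMF (SL(2, ℤ) ⧸ Gamma0 N) 12 (sepForm N) where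
  slash g x := by
    induction x using QuotientGroup.induction_on with
    | H a =>
      rw [sepForm_mk, show g⁻¹ • (a : SL(2, ℤ) ⧸ Gamma0 N) =
        ((g⁻¹ * a : SL(2, ℤ)) : SL(2, ℤ) ⧸ Gamma0 N) from rfl, sepForm_mk,
        ← SlashAction.slash_mul]
      congr 1
      group
  holo x := by
    induction x using QuotientGroup.induction_on with
    | H a =>
      rw [sepForm_mk]
      exact (ModularFormClass.holo (dNForm N)).slash 12 _
  bdd x := by
    induction x using QuotientGroup.induction_on with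
    | H a =>
      rw [sepForm_mk]
      exact ModularFormClass.bdd_at_infty_slash (dNForm N) _ 

theorem sepForm_injective (N : ℕ) [NeZero N] (x y : SL(2, ℤ) ⧸ Gamma0 N)
    (h : sepForm N x = sepForm N y) : x = y := by
  induction x using QuotientGroup.induction_on with
  | H a =>
  induction y using QuotientGroup.induction_on with
  | H b =>
    rw [sepForm_mk, sepForm_mk] at h
    rw [QuotientGroup.eq]
    apply mem_Gamma0_of_dN_slash
    rw [SlashAction.slash_mul, h, ← SlashAction.slash_mul, inv_mul_cancel,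
      SlashAction.slash_one]

/-- The separating hypothesis of `exists_freeBasis` for `X = SL(2,ℤ) ⧸ Γ₀(N)`. -/
theorem gamma0_sep (N : ℕ) [NeZero N] : ∃ (w : ℤ) (H : SL(2, ℤ) ⧸ Gamma0 N → ℍ → ℂ),
    IsVMF (SL(2, ℤ) ⧸ Gamma0 N) w H ∧ ∀ x y, H x = H y → x = y :=
  ⟨12, sepForm N, sepForm_isVMF N, sepForm_injective N⟩

end Fermat.Agent.H80
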