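import Fermat.Agent.H80Count
import Fermat.Agent.H80Gamma0X

/-! (P4a): the dual basis of cusp forms, and the dimension of `S_2(Γ₀(N))`. -/

open UpperHalfPlane ModularForm MatrixGroups CongruenceSubgroup Filter Topology
open scoped Manifold Matrix

noncomputable section

namespace Fermat.Agent.H80

open Fermat.Agent.H20

local notation "𝕢" => Function.Periodic.qParam

variable {X : Type*} [MulAction SL(2, ℤ) X] [Fintype X] [DecidableEq X]
  {k : X → ℤ} {F : X → X → ℍ → ℂ}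

/-- the dual basis -/
def dualF (F : X → X → ℍ → ℂ) (i x : X) (τ : ℍ) : ℂ := discriminant τ * (fmat F τ)⁻¹ i x

theorem fmat_inv_smul (h : IsFreeBasis X k F) (g : SL(2, ℤ)) (τ : ℍ) :
    (fmat F (g • τ))⁻¹ = Matrix.diagonal (fun i => denom (g : GL (Fin 2) ℝ) τ ^ (-(k i))) *
      (fmat F τ)⁻¹ * (Rg g)ᵀ := by
  have hu := denom_ne_zero (g : GL (Fin 2) ℝ) τ
  have hdet : IsUnit (fmat F τ).det := isUnit_iff_ne_zero.2 (h.det_ne_zero τ)
  refine Matrix.inv_eq_left_inv ?_
  rw [fmat_smul (fun i => (h.vmf i).slash) g τ]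
  have hRR : (Rg g : Matrix X X ℂ)ᵀ * Rg g = 1 := mul_eq_one_comm.1 (Rg_mul_transpose g)
  rw [Matrix.mul_assoc, Matrix.mul_assoc, Matrix.mul_assoc (Rg g), ← Matrix.mul_assoc (Rg g)ᵀ,
    hRR, Matrix.one_mul, ← Matrix.mul_assoc (fmat F τ)⁻¹, Matrix.nonsing_inv_mul _ hdet,
    Matrix.one_mul, Matrix.diagonal_mul_diagonal]
  have : (fun i => denom (g : GL (Fin 2) ℝ) τ ^ (-(k i)) * denom (g : GL (Fin 2) ℝ) τ ^ (k i)) =
      fun _ => (1 : ℂ) := by
    ext i
    rw [← zpow_add₀ hu, neg_add_cancel, zpow_zero]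
  rw [this, Matrix.diagonal_one]

theorem fmat_inv_smul_apply (h : IsFreeBasis X k F) (g : SL(2, ℤ)) (τ : ℍ) (i x : X) :
    (fmat F (g • τ))⁻¹ i x = denom (g : GL (Fin 2) ℝ) τ ^ (-(k i)) * (fmat F τ)⁻¹ i (g⁻¹ • x) := by
  rw [fmat_inv_smul h, Matrix.mul_apply]
  simp only [Matrix.diagonal_mul, Matrix.transpose_apply, Rg, Matrix.of_apply, mul_ite, mul_one,
    mul_zero, Finset.sum_ite_eq, Finset.mem_univ, if_true]

theorem dual_slash (h : IsFreeBasis X k F) (i : X) (g : SL(2, ℤ)) (x : X) :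
    (dualF F i x) ∣[12 - k i] g = dualF F i (g⁻¹ • x) := by
  ext τ
  have hu := denom_ne_zero (g : GL (Fin 2) ℝ) τ
  rw [SL_slash_apply, dualF, dualF, fmat_inv_smul_apply h, Fermat.Agent.H61.disc_smul]
  have : denom (g : GL (Fin 2) ℝ) τ ^ 12 * denom (g : GL (Fin 2) ℝ) τ ^ (-(k i)) *
      denom (g : GL (Fin 2) ℝ) τ ^ (-(12 - k i)) = 1 := by
    rw [show denom (g : GL (Fin 2) ℝ) τ ^ 12 = denom (g : GL (Fin 2) ℝ) τ ^ (12 : ℤ) by norm_cast,
      ← zpow_add₀ hu, ← zpow_add₀ hu]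
    ring_nf
    simp
  linear_combination (discriminant τ * (fmat F τ)⁻¹ i (g⁻¹ • x)) * this

omit [MulAction SL(2, ℤ) X] in
theorem mdiff_det {M : X → X → ℍ → ℂ} (hM : ∀ i j, MDiff (M i j)) :
    MDiff (fun τ => (Matrix.of fun i j => M i j τ).det) := by
  have h1 : (fun τ => (Matrix.of fun i j => M i j τ).det) = ∑ σ : Equiv.Perm X,
      (fun _ : ℍ => ((Equiv.Perm.sign σ : ℤ) : ℂ)) * ∏ i, M (σ i) i := by
    ext τ
    rw [Matrix.det_apply']
    simp [Finset.sum_apply, Finset.prod_apply]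
  rw [h1]
  exact mdiff_sum _ fun σ _ => mdifferentiable_const.mul (mdiff_prod _ fun i _ => hM _ _)

theorem dual_holo (h : IsFreeBasis X k F) (i x : X) : MDiff (dualF F i x) := by
  have h1 : dualF F i x = discriminant * ((fun τ => (Matrix.of fun a b =>
      (if a = x then (fun _ : ℍ => if b = i then (1 : ℂ) else 0) else F b a) τ).det) /
        fun τ => (fmat F τ).det) := by
    ext τ
    simp only [dualF, Pi.mul_apply, Pi.div_apply]
    congr 1
    rw [Matrix.inv_def, Ring.inverse_eq_inv', Matrix.smul_apply, Matrix.adjugate_apply,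
      smul_eq_mul, div_eq_inv_mul]
    congr 2
    ext a b
    rw [Matrix.updateRow_apply]
    simp only [Matrix.of_apply, fmat_apply]
    split_ifs with h1 h2
    · subst h2; simp
    · rw [Pi.single_eq_of_ne h2]
    · rfl
  rw [h1]
  refine isL1_Δ.holo.mul ((mdiff_det fun a b => ?_).div (det_mdiff h.vmf) h.det_ne_zero)
  split_ifs
  · exact mdifferentiable_const
  · exact mdifferentiable_const
  · exact (h.vmf b).holo a

theorem tendsto_disc_mul_qParam (n : ℕ) [NeZero n] (a : ZMod n) :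
    Tendsto (fun τ : ℍ => discriminant τ * ((𝕢 n (τ : ℂ)) ^ a.val)⁻¹) atImInfty (𝓝 0) := by
  have hn' : (0 : ℝ) < n := by exact_mod_cast Nat.pos_of_ne_zero (NeZero.ne n)
  have h0 : Tendsto (fun τ : ℍ => 𝕢 n (τ : ℂ)) atImInfty (𝓝 0) := qParam_tendsto_atImInfty hn'
  have hne : ∀ τ : ℍ, 𝕢 n (τ : ℂ) ≠ 0 := fun τ => Function.Periodic.qParam_ne_zero _
  have ha := a.val_lt
  have h1 := tendsto_Δ_div_q.mul (h0.pow (n - a.val))
  rw [zero_pow (by omega), mul_zero] at h1
  refine h1.congr fun τ => ?_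
  rw [← qParam_pow n τ]
  have h2 : (𝕢 n (τ : ℂ)) ^ n = (𝕢 n (τ : ℂ)) ^ (n - a.val) * (𝕢 n (τ : ℂ)) ^ a.val := by
    rw [← pow_add]; congr 1; omega
  rw [h2]
  have h3 := pow_ne_zero (n - a.val) (hne τ)
  have h4 := pow_ne_zero a.val (hne τ)
  field_simp

omit [Fintype X] in
theorem tendsto_disc_mul_Qt (n : ℕ) [NeZero n] (hT : ∀ x : X, (ModularGroup.T ^ n) • x = x)
    (x y : X) : Tendsto (fun τ : ℍ => discriminant τ * Qt n hT τ x y) atImInfty (𝓝 0) := by
  let inst := tAct X n hT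
  have h1 : ∀ τ : ℍ, discriminant τ * Qt n hT τ x y =
      ∑ a : ZMod n, discriminant τ * ((𝕢 n (τ : ℂ)) ^ a.val)⁻¹ * (Pm n a : Matrix X X ℂ) x y := by
    intro τ
    have : Qt n hT τ x y = ∑ a : ZMod n, ((𝕢 n (τ : ℂ)) ^ a.val)⁻¹ *
        (Pm n a : Matrix X X ℂ) x y := by
      simp only [Qt, Qm, Matrix.sum_apply, Matrix.smul_apply, smul_eq_mul]
    rw [this, Finset.mul_sum]
    exact Finset.sum_congr rfl fun a _ => by ring
  simp only [h1]
  have h2 : ∀ a : ZMod n, Tendsto (fun τ : ℍ => discriminant τ * ((𝕢 n (τ : ℂ)) ^ a.val)⁻¹ *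
      (Pm n a : Matrix X X ℂ) x y) atImInfty (𝓝 0) := by
    intro a
    simpa using (tendsto_disc_mul_qParam n a).mul_const ((Pm n a : Matrix X X ℂ) x y)
  have h3 := tendsto_finsetSum (Finset.univ : Finset (ZMod n)) fun a _ => h2 a
  simpa using h3

theorem dual_zero (h : IsFreeBasis X k F) (hneg : ∀ x : X, (-1 : SL(2, ℤ)) • x = x) (i x : X) :
    IsZeroAtImInfty (dualF F i x) := by
  obtain ⟨n, hn0, hT⟩ := exists_T_period (X := X)
  have : NeZero n := ⟨hn0⟩
  choose v hv _ using fun i => exists_lead hT (h.vmf i)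
  have hV := lead_det_ne h h.det_ne_zero hneg hv
  set V : Matrix X X ℂ := Matrix.of fun x i => v i x with hVdef
  have h1 : Tendsto (fun τ => Qt n hT τ * fmat F τ) atImInfty (𝓝 V) :=
    tendsto_pi_nhds.mpr fun x => tendsto_pi_nhds.mpr fun i => hv i x
  have h2 : Tendsto (fun τ => (Qt n hT τ * fmat F τ).det) atImInfty (𝓝 V.det) :=
    (continuous_id.matrix_det.tendsto V).comp h1
  have h3 : Tendsto (fun τ => (Qt n hT τ * fmat F τ).adjugate) atImInfty (𝓝 V.adjugate) :=
    (continuous_id.matrix_adjugate.tendsto V).comp h1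
  have h4 : Tendsto (fun τ => (Qt n hT τ * fmat F τ).det⁻¹) atImInfty (𝓝 V.det⁻¹) :=
    h2.inv₀ hV
  have h5 : ∀ y, Tendsto (fun τ => (Qt n hT τ * fmat F τ).adjugate i y) atImInfty
      (𝓝 (V.adjugate i y)) := fun y =>
    (tendsto_pi_nhds.1 ((tendsto_pi_nhds.1 h3) i)) y
  have h6 : Tendsto (fun τ : ℍ => (Qt n hT τ * fmat F τ).det⁻¹ *
      ∑ y, (Qt n hT τ * fmat F τ).adjugate i y * (discriminant τ * Qt n hT τ y x))
      atImInfty (𝓝 (V.det⁻¹ * ∑ y, V.adjugate i y * 0)) :=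
    h4.mul (tendsto_finsetSum _ fun y _ => (h5 y).mul (tendsto_disc_mul_Qt n hT y x))
  rw [show V.det⁻¹ * ∑ y, V.adjugate i y * 0 = 0 by simp] at h6
  have h7 : ∀ᶠ τ in atImInfty, (Qt n hT τ * fmat F τ).det ≠ 0 := h2.eventually_ne hV
  refine h6.congr' ?_
  filter_upwards [h7] with τ hτ
  have hΦ : IsUnit (fmat F τ).det := isUnit_iff_ne_zero.2 (h.det_ne_zero τ)
  have hQ : IsUnit (Qt n hT τ).det := by
    rw [Matrix.det_mul] at hτ
    exact isUnit_iff_ne_zero.2 (left_ne_zero_of_mul hτ)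
  have h8 : (fmat F τ)⁻¹ = (Qt n hT τ * fmat F τ)⁻¹ * Qt n hT τ := by
    rw [Matrix.mul_inv_rev, Matrix.mul_assoc, Matrix.nonsing_inv_mul _ hQ, Matrix.mul_one]
  rw [dualF, h8, Matrix.mul_apply, Matrix.inv_def, Ring.inverse_eq_inv']
  simp only [Matrix.smul_apply, smul_eq_mul, Finset.mul_sum]
  exact Finset.sum_congr rfl fun y _ => by ring

theorem dual_isVCF (h : IsFreeBasis X k F) (hneg : ∀ x : X, (-1 : SL(2, ℤ)) • x = x) (i : X) :
    IsVCF X (12 - k i) (dualF F i) where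
  slash g x := dual_slash h i g x
  holo x := dual_holo h i x
  zero x := dual_zero h hneg i x

/-! ### weights of a homogeneous basis -/

theorem fmat_mul_dual (h : IsFreeBasis X k F) (τ : ℍ) (x y : X) :
    ∑ i, F i x τ * dualF F i y τ = if x = y then discriminant τ else 0 := by
  have hdet : IsUnit (fmat F τ).det := isUnit_iff_ne_zero.2 (h.det_ne_zero τ)
  have h1 := congrFun (congrFun (Matrix.mul_nonsing_inv _ hdet) x) y
  rw [Matrix.mul_apply, Matrix.one_apply] at h1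
  simp only [fmat_apply] at h1
  have h2 : ∑ i, F i x τ * dualF F i y τ = discriminant τ * ∑ i, F i x τ * (fmat F τ)⁻¹ i y := by
    rw [Finset.mul_sum]
    exact Finset.sum_congr rfl fun i _ => by rw [dualF]; ring
  rw [h2, h1]
  split_ifs <;> simp

theorem dual_pairing (h : IsFreeBasis X k F) (τ : ℍ) (i j : X) :
    ∑ x, dualF F i x τ * F j x τ = if i = j then discriminant τ else 0 := by
  have hdet : IsUnit (fmat F τ).det := isUnit_iff_ne_zero.2 (h.det_ne_zero τ)
  have h1 := congrFun (congrFun (Matrix.nonsing_inv_mul _ hdet) i) j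
  rw [Matrix.mul_apply, Matrix.one_apply] at h1
  simp only [fmat_apply] at h1
  have h2 : ∑ x, dualF F i x τ * F j x τ = discriminant τ * ∑ x, (fmat F τ)⁻¹ i x * F j x τ := by
    rw [Finset.mul_sum]
    exact Finset.sum_congr rfl fun i _ => by rw [dualF]; ring
  rw [h2, h1]
  split_ifs <;> simp

theorem weight_nonneg (h : IsFreeBasis X k F) (i : X) : 0 ≤ k i := by
  by_contra hi
  push Not at hi
  refine h.det_ne_zero UpperHalfPlane.I (Matrix.det_eq_zero_of_column_eq_zero i fun x => ?_)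
  rw [fmat_apply, (h.vmf i).eq_zero_of_neg hi]
  rfl

theorem weight_lt (h : IsFreeBasis X k F) (hneg : ∀ x : X, (-1 : SL(2, ℤ)) • x = x) (i : X) :
    k i < 12 := by
  by_contra hi
  push Not at hi
  have h1 := dual_pairing h UpperHalfPlane.I i i
  have h2 : ∀ x, dualF F i x = 0 :=
    (dual_isVCF h hneg i).eq_zero_of_nonpos (by omega)
  simp only [h2, Pi.zero_apply, zero_mul, Finset.sum_const_zero, if_true] at h1
  exact discriminant_ne_zero _ h1.symm

theorem weight_le (h : IsFreeBasis X k F) (hneg : ∀ x : X, (-1 : SL(2, ℤ)) • x = x) (i : X) :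
    k i ≤ 10 := by
  have h1 := weight_lt h hneg i
  obtain ⟨c, hc⟩ := h.even hneg i
  omega

theorem wt_zero (h : IsFreeBasis X k F) [MulAction.IsPretransitive SL(2, ℤ) X] (x₀ : X) :
    wt k 0 = 1 := by
  rw [wt, Finset.card_eq_one]
  -- existence
  have hex : ∃ i, k i = 0 := by
    by_contra hcon
    push Not at hcon
    obtain ⟨G, hG, hs⟩ := h.span 0 _ (vmf_one (X := X))
    have h1 : ∀ i, G i = 0 := fun i =>
      (hG i).eq_zero_of_neg (by
        have := weight_nonneg h i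
        have := hcon i
        omega)
    have h2 := congrFun (hs x₀) UpperHalfPlane.I
    simp [h1] at h2
  obtain ⟨i₀, hi₀⟩ := hex
  refine ⟨i₀, ?_⟩
  ext i
  simp only [Finset.mem_filter, Finset.mem_univ, true_and, Finset.mem_singleton]
  refine ⟨fun hi => ?_, fun hi => by rw [hi, hi₀]⟩
  by_contra hne
  -- two constant columns are proportional
  obtain ⟨c, hc⟩ := ((h.vmf i).cast hi).weight_zero_const x₀
  obtain ⟨d, hd⟩ := ((h.vmf i₀).cast hi₀).weight_zero_const x₀
  have h1 := dual_pairing h UpperHalfPlane.I i i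
  have h2 := dual_pairing h UpperHalfPlane.I i i₀
  simp only [hc, hd, Function.const_apply, if_true, if_neg hne, ← Finset.sum_mul] at h1 h2
  rcases mul_eq_zero.1 h2 with h3 | h3
  · rw [h3, zero_mul] at h1
    exact discriminant_ne_zero _ h1.symm
  · have h4 := dual_pairing h UpperHalfPlane.I i₀ i₀
    simp only [hd, Function.const_apply, if_true, h3, mul_zero, Finset.sum_const_zero] at h4
    exact discriminant_ne_zero _ h4.symm

end Fermat.Agent.H80
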