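import Fermat.Agent.H22TwEis
import Fermat.Agent.H80Dual

/-!
# Twisted forms generate: `Δ = ∑ fᵢ ψᵢ`
-/

set_option autoImplicit false

open Filter Topology Complex UpperHalfPlane Function Matrix
open scoped Manifold MatrixGroups ModularForm

noncomputable section

namespace Fermat.Agent.H22.Tw

open Fermat.Agent.H20 Fermat.Agent.H80

variable {Γ : Subgroup SL(2, ℤ)} {χ ψ : Γ →* ℂˣ} {k l : ℤ} {f g : ℍ → ℂ}

/-- the kernel of `χ` as a subgroup of `SL(2,ℤ)` -/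
def kerG (χ : Γ →* ℂˣ) : Subgroup SL(2, ℤ) := χ.ker.map Γ.subtype

theorem mem_kerG {x : SL(2, ℤ)} : x ∈ kerG χ ↔ ∃ h : x ∈ Γ, χ ⟨x, h⟩ = 1 := by
  rw [kerG, Subgroup.mem_map]
  constructor
  · rintro ⟨y, hy, rfl⟩
    exact ⟨y.2, hy⟩
  · rintro ⟨h, hx⟩
    exact ⟨⟨x, h⟩, hx, rfl⟩

theorem kerG_le : kerG χ ≤ Γ := fun _ hx => (mem_kerG.1 hx).1

theorem finiteIndex_kerG [Γ.FiniteIndex] {n : ℕ} (hn : n ≠ 0) (hχ : χ ^ n = 1) :
    (kerG χ).FiniteIndex := by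
  have : NeZero n := ⟨hn⟩
  have hfin : Finite χ.range := by
    have h1 : χ.range ≤ rootsOfUnity n ℂ := by
      rintro _ ⟨x, rfl⟩
      rw [_root_.mem_rootsOfUnity, ← MonoidHom.pow_apply, hχ]
      rfl
    exact Finite.of_injective _ (Subgroup.inclusion_injective h1)
  have h2 : χ.ker.FiniteIndex := by infer_instance
  refine ⟨?_⟩
  rw [kerG, Subgroup.index_map_subtype]
  exact mul_ne_zero h2.index_ne_zero Subgroup.FiniteIndex.index_ne_zero

theorem IsTw.isM_kerG (hf : IsTw Γ χ k f) : IsM (kerG χ) k f where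
  slash γ hγ := by
    obtain ⟨h, h1⟩ := mem_kerG.1 hγ
    have := hf.slash ⟨γ, h⟩
    rw [h1] at this
    simpa using this
  holo := hf.holo
  bdd := hf.bdd

/-- the vector valued form attached to a scalar form -/
def vecForm (K : Subgroup SL(2, ℤ)) (k : ℤ) (f : ℍ → ℂ) (hf : ∀ γ ∈ K, f ∣[k] γ = f)
    (x : SL(2, ℤ) ⧸ K) : ℍ → ℂ :=
  Quotient.liftOn' x (fun g => f ∣[k] g⁻¹) (fun a b hab => by
    have h1 : a⁻¹ * b ∈ K := QuotientGroup.leftRel_apply.mp hab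
    have h2 : f ∣[k] (a⁻¹ * b) = f := hf _ h1
    change f ∣[k] a⁻¹ = f ∣[k] b⁻¹
    conv_rhs => rw [← h2]
    rw [← SlashAction.slash_mul]
    congr 1
    group)

theorem vecForm_mk {K : Subgroup SL(2, ℤ)} (hf : ∀ γ ∈ K, f ∣[k] γ = f) (g : SL(2, ℤ)) :
    vecForm K k f hf (g : SL(2, ℤ) ⧸ K) = f ∣[k] g⁻¹ := rfl

theorem vecForm_isVMF {K : Subgroup SL(2, ℤ)} (hf : IsM K k f) :
    IsVMF (SL(2, ℤ) ⧸ K) k (vecForm K k f hf.slash) where
  slash g x := by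
    induction x using QuotientGroup.induction_on with
    | H a =>
      rw [vecForm_mk, show g⁻¹ • (a : SL(2, ℤ) ⧸ K) =
        ((g⁻¹ * a : SL(2, ℤ)) : SL(2, ℤ) ⧸ K) from rfl, vecForm_mk,
        ← SlashAction.slash_mul]
      congr 1
      group
  holo x := by
    induction x using QuotientGroup.induction_on with
    | H a =>
      rw [vecForm_mk]
      exact hf.holo.slash k _
  bdd x := by
    induction x using QuotientGroup.induction_on with
    | H a =>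
      rw [vecForm_mk]
      exact hf.bdd _

/-- The group `Γ` is the exact stabiliser of some modular form. -/
def HasSep (Γ : Subgroup SL(2, ℤ)) : Prop :=
  ∃ (w : ℕ) (G : ℍ → ℂ), 2 ≤ w ∧ IsM Γ (2 * w) G ∧ G ≠ 0 ∧
    ∀ γ : SL(2, ℤ), G ∣[(2 * w : ℤ)] γ = G → γ ∈ Γ

theorem IsL1.isM {G : ℍ → ℂ} (hG : IsL1 k G) (Γ : Subgroup SL(2, ℤ)) : IsM Γ k G where
  slash γ _ := hG.slash γ
  holo := hG.holo
  bdd g := by rw [hG.slash]; exact hG.bdd

theorem ne_zero_of_tendsto {G : ℍ → ℂ} {c : ℂ} (hc : c ≠ 0) (h : Tendsto G atImInfty (𝓝 c)) :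
    G ≠ 0 := by
  rintro rfl
  exact hc (tendsto_nhds_unique h tendsto_const_nhds)

theorem mul_cancel_mdiff {A B C : ℍ → ℂ} (hA : MDiff A) (hA0 : A ≠ 0) (hB : MDiff B)
    (hC : MDiff C) (h : A * B = A * C) : B = C := by
  have h1 : A * (B - C) = 0 := by rw [mul_sub, h, sub_self]
  rcases (mul_eq_zero_iff hA (hB.sub hC)).1 h1 with h2 | h2
  · exact absurd h2 hA0
  · exact sub_eq_zero.1 h2

/-- the kernel of a character of `Γ` is also an exact stabiliser -/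
theorem HasSep.kerG [Γ.FiniteIndex] (hsep : HasSep Γ) {n : ℕ} (hn : n ≠ 0)
    (hχ : χ ^ n = 1) {l : ℕ} (hl : 2 ≤ l) {E : ℍ → ℂ} (hE : IsTw Γ χ (2 * l) E) (hE0 : E ≠ 0) :
    HasSep (kerG χ) := by
  classical
  obtain ⟨w, G, hw, hG, hG0, hst⟩ := hsep
  obtain ⟨C, hC, hC1⟩ := exists_l1_tendsto_one l (by omega)
  obtain ⟨B, hB, hB1⟩ := exists_l1_tendsto_one w (by omega)
  have hC0 := ne_zero_of_tendsto one_ne_zero hC1
  have hB0 := ne_zero_of_tendsto one_ne_zero hB1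
  have := finiteIndex_kerG hn hχ
  have hM1 : IsM (Tw.kerG χ) (2 * ((w + l : ℕ) : ℤ)) (G * C) :=
    ((hG.mono kerG_le).mul (IsL1.isM hC _)).weight_eq (by push_cast; ring)
  have hM2 : IsM (Tw.kerG χ) (2 * ((w + l : ℕ) : ℤ)) (E * B) :=
    (hE.isM_kerG.mul (IsL1.isM hB _)).weight_eq (by push_cast; ring)
  -- avoid finitely many bad `t`
  have hfin : Finite (Quotient (QuotientGroup.rightRel (Tw.kerG χ))) :=
    (QuotientGroup.quotientRightRelEquivQuotientLeftRel (Tw.kerG χ)).finite_iff.2 inferInstance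
  have := Fintype.ofFinite (Quotient (QuotientGroup.rightRel (Tw.kerG χ)))
  set kk : ℤ := 2 * ((w + l : ℕ) : ℤ) with hkk
  -- bad values of t for a given g
  have hbad : ∀ γ : SL(2, ℤ), γ ∉ Tw.kerG χ → ∃ b : ℂ, ∀ t : ℂ, t ≠ b →
      (G * C + t • (E * B)) ∣[kk] γ ≠ G * C + t • (E * B) := by
    intro γ hγ
    by_contra hcon
    push Not at hcon
    obtain ⟨t₁, ht₁, h₁⟩ := hcon 0
    obtain ⟨t₂, ht₂, h₂⟩ := hcon t₁
    rw [SlashAction.add_slash, smul_slash] at h₁ h₂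
    have h3 : (E * B) ∣[kk] γ = E * B := by
      have h4 : (t₂ - t₁) • ((E * B) ∣[kk] γ) = (t₂ - t₁) • (E * B) := by
        funext τ
        have a1 := congrFun h₁ τ
        have a2 := congrFun h₂ τ
        simp only [Pi.add_apply, Pi.smul_apply, smul_eq_mul] at a1 a2 ⊢
        linear_combination a2 - a1
      have h5 : t₂ - t₁ ≠ 0 := sub_ne_zero.2 ht₂
      exact smul_right_injective _ h5 h4
    have h4 : (G * C) ∣[kk] γ = G * C := by
      rw [h3] at h₁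
      exact add_right_cancel h₁
    have e1 : kk = 2 * w + 2 * l := by rw [hkk]; push_cast; ring
    have e2 : kk = 2 * l + 2 * w := by rw [hkk]; push_cast; ring
    rw [e1, ModularForm.mul_slash_SL2, hC.slash] at h4
    have h5 : G ∣[(2 * w : ℤ)] γ = G :=
      mul_cancel_mdiff hC.holo hC0 (hG.holo.slash _ _) hG.holo (by
        rw [mul_comm C, mul_comm C]; exact h4)
    have hγΓ := hst γ h5
    rw [e2, ModularForm.mul_slash_SL2, hB.slash] at h3
    have h6 : E ∣[(2 * l : ℤ)] γ = E :=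
      mul_cancel_mdiff hB.holo hB0 (hE.holo.slash _ _) hE.holo (by
        rw [mul_comm B, mul_comm B]; exact h3)
    have h7 := hE.slash ⟨γ, hγΓ⟩
    simp only at h7
    rw [h6] at h7
    apply hγ
    rw [mem_kerG]
    refine ⟨hγΓ, ?_⟩
    obtain ⟨τ, hτ⟩ : ∃ τ, E τ ≠ 0 := by
      by_contra hcon
      push Not at hcon
      exact hE0 (funext hcon)
    have h8 := congrFun h7 τ
    simp only [Pi.smul_apply, smul_eq_mul] at h8
    ext
    have h9 : (1 : ℂ) * E τ = (χ ⟨γ, hγΓ⟩ : ℂ) * E τ := by rw [one_mul]; exact h8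
    exact (mul_right_cancel₀ hτ h9).symm
  choose! b hb using hbad
  have hGC0 : G * C ≠ 0 := fun h => by
    rcases (mul_eq_zero_iff hG.holo hC.holo).1 h with h | h
    · exact hG0 h
    · exact hC0 h
  obtain ⟨τ, hτ⟩ : ∃ τ, (G * C) τ ≠ 0 := by
    by_contra hcon
    push Not at hcon
    exact hGC0 (funext hcon)
  obtain ⟨t, ht⟩ := Infinite.exists_notMem_finset
    (insert (-(G * C) τ / (E * B) τ) (Finset.univ.image
      (fun q : Quotient (QuotientGroup.rightRel (Tw.kerG χ)) => b q.out)))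
  rw [Finset.mem_insert, not_or] at ht
  have hF : IsM (Tw.kerG χ) kk (G * C + t • (E * B)) := hM1.add (hM2.smul t)
  refine ⟨w + l, G * C + t • (E * B), by omega, hF, ?_, ?_⟩
  · intro h
    have h1 := congrFun h τ
    simp only [Pi.add_apply, Pi.smul_apply, smul_eq_mul, Pi.zero_apply] at h1
    by_cases h2 : (E * B) τ = 0
    · rw [h2, mul_zero, add_zero] at h1
      exact hτ h1
    · apply ht.1
      rw [eq_div_iff h2]
      linear_combination h1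
  · intro γ hγ
    by_contra hcon
    set q : Quotient (QuotientGroup.rightRel (Tw.kerG χ)) := Quotient.mk _ γ with hq
    have hrel : (QuotientGroup.rightRel (Tw.kerG χ)) q.out γ := Quotient.mk_out γ
    rw [QuotientGroup.rightRel_apply] at hrel
    have hq2 : q.out ∉ Tw.kerG χ := by
      intro h
      exact hcon (by simpa using (Tw.kerG χ).mul_mem hrel h)
    have h1 := hb q.out hq2 t (fun h => ht.2 (Finset.mem_image.2 ⟨q, Finset.mem_univ q, h.symm⟩))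
    apply h1
    have h2 : q.out = (γ * q.out⁻¹)⁻¹ * γ := by group
    rw [h2, SlashAction.slash_mul, hF.slash _ ((Tw.kerG χ).inv_mem hrel)]
    exact hγ

open Classical in
/-- the function `χ` on the cosets of `kerG χ` contained in `Γ` -/
def cosetC (χ : Γ →* ℂˣ) (x : SL(2, ℤ) ⧸ kerG χ) : ℂ :=
  if h : ∃ γ : Γ, ((γ : SL(2, ℤ)) : SL(2, ℤ) ⧸ kerG χ) = x then (χ h.choose : ℂ) else 0

theorem cosetC_mk (χ : Γ →* ℂˣ) (γ : Γ) :
    cosetC χ ((γ : SL(2, ℤ)) : SL(2, ℤ) ⧸ kerG χ) = χ γ := by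
  have h : ∃ γ' : Γ, ((γ' : SL(2, ℤ)) : SL(2, ℤ) ⧸ kerG χ) =
      ((γ : SL(2, ℤ)) : SL(2, ℤ) ⧸ kerG χ) := ⟨γ, rfl⟩
  rw [cosetC, dif_pos h]
  have h1 := h.choose_spec
  rw [QuotientGroup.eq, mem_kerG] at h1
  obtain ⟨h2, h3⟩ := h1
  have h4 : χ (h.choose⁻¹ * γ) = 1 := h3
  rw [map_mul, map_inv, inv_mul_eq_one] at h4
  rw [h4]

theorem cosetC_smul (χ : Γ →* ℂˣ) (γ : Γ) (x : SL(2, ℤ) ⧸ kerG χ) :
    cosetC χ ((γ : SL(2, ℤ)) • x) = χ γ * cosetC χ x := by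
  by_cases h : ∃ γ' : Γ, ((γ' : SL(2, ℤ)) : SL(2, ℤ) ⧸ kerG χ) = x
  · obtain ⟨γ', rfl⟩ := h
    rw [show (γ : SL(2, ℤ)) • ((γ' : SL(2, ℤ)) : SL(2, ℤ) ⧸ kerG χ) =
      (((γ * γ' : Γ) : SL(2, ℤ)) : SL(2, ℤ) ⧸ kerG χ) from rfl, cosetC_mk, cosetC_mk, map_mul]
    rfl
  · have h' : ¬ ∃ γ' : Γ, ((γ' : SL(2, ℤ)) : SL(2, ℤ) ⧸ kerG χ) = (γ : SL(2, ℤ)) • x := by
      rintro ⟨γ', hγ'⟩
      refine h ⟨γ⁻¹ * γ', ?_⟩
      have h1 : (((γ⁻¹ * γ' : Γ) : SL(2, ℤ)) : SL(2, ℤ) ⧸ kerG χ) =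
        ((γ : SL(2, ℤ))⁻¹) • ((γ' : SL(2, ℤ)) : SL(2, ℤ) ⧸ kerG χ) := rfl
      rw [h1, hγ', inv_smul_smul]
    rw [cosetC, cosetC, dif_neg h, dif_neg h', mul_zero]

theorem cosetC_ne_zero_iff (χ : Γ →* ℂˣ) (x : SL(2, ℤ) ⧸ kerG χ) :
    cosetC χ x ≠ 0 ↔ ∃ γ' : Γ, ((γ' : SL(2, ℤ)) : SL(2, ℤ) ⧸ kerG χ) = x := by
  constructor
  · intro h
    by_contra h'
    exact h (by rw [cosetC, dif_neg h'])
  · rintro ⟨γ, rfl⟩
    rw [cosetC_mk]
    exact Units.ne_zero _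

/-- projection of a vector valued form to the `χ`-part -/
theorem isTw_of_vmf {X : Type*} [MulAction SL(2, ℤ) X] [Fintype X] {F : X → ℍ → ℂ}
    (hF : IsVMF X k F) (c : X → ℂ) (hc : ∀ (γ : Γ) (x : X), c ((γ : SL(2, ℤ)) • x) = χ γ * c x) :
    IsTw Γ χ k (∑ x, c x • F x) where
  slash γ := by
    rw [SlashAction.sum_slash, Finset.smul_sum,
      ← Equiv.sum_comp (MulAction.toPerm (γ : SL(2, ℤ)))]
    refine Finset.sum_congr rfl fun x _ => ?_
    rw [smul_slash, hF.slash, MulAction.toPerm_apply, inv_smul_smul, hc, smul_smul]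
  holo := mdiff_sum _ fun x _ => (hF.holo x).const_smul _
  bdd A := by
    rw [SlashAction.sum_slash]
    refine bdd_sum _ fun x _ => ?_
    rw [smul_slash, hF.slash]
    exact (hF.bdd _).smul _

theorem disc_decomp_aux {X : Type*} [MulAction SL(2, ℤ) X] [Fintype X] [DecidableEq X]
    {kk : X → ℤ} {F : X → X → ℍ → ℂ} (hB : IsFreeBasis X kk F)
    (hnegX : ∀ x : X, (-1 : SL(2, ℤ)) • x = x) (c : X → ℂ)
    (hc : ∀ (γ : Γ) (x : X), c ((γ : SL(2, ℤ)) • x) = χ γ * c x) (hc0 : ∃ x, c x ≠ 0) :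
    ∃ (m : ℕ) (kk : Fin m → ℤ) (F G : Fin m → ℍ → ℂ),
      (∀ i, Even (kk i)) ∧ (∀ i, IsTw Γ χ (kk i) (F i)) ∧ (∀ i, IsTw Γ χ⁻¹ (12 - kk i) (G i)) ∧
      ∀ τ, ∑ i, F i τ * G i τ = ModularForm.discriminant τ := by
  obtain ⟨r, hr⟩ : ∃ r : ℂ, r = ∑ x : X, c x * (c x)⁻¹ := ⟨_, rfl⟩
  have hr0 : r ≠ 0 := by
    have h4 : ∀ x : X, c x * (c x)⁻¹ = ((if c x = 0 then 0 else 1 : ℕ) : ℂ) := by
      intro x
      split_ifs with h5
      · rw [h5]; simp
      · rw [mul_inv_cancel₀ h5]; simp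
    rw [hr, Finset.sum_congr rfl fun x _ => h4 x, ← Nat.cast_sum, Nat.cast_ne_zero]
    intro h6
    rw [Finset.sum_eq_zero_iff] at h6
    obtain ⟨x, hx⟩ := hc0
    have h7 := h6 x (Finset.mem_univ _)
    simp [hx] at h7
  let e : Fin (Fintype.card X) ≃ X := (Fintype.equivFin X).symm
  refine ⟨Fintype.card X, fun i => kk (e i),
    fun i => ∑ x, c x • F (e i) x,
    fun i => r⁻¹ • ∑ x, (c x)⁻¹ • dualF F (e i) x, fun i => hB.even hnegX _,
    fun i => isTw_of_vmf (hB.vmf _) _ hc,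
    fun i => (isTw_of_vmf (dual_isVCF hB hnegX _).isVMF _ fun γ x => ?_).smul _, fun τ => ?_⟩
  · rw [hc, mul_inv]
    simp
  · have h5 : ∀ i, (∑ x, c x • F (e i) x) τ *
        (r⁻¹ • ∑ x, (c x)⁻¹ • dualF F (e i) x) τ =
        r⁻¹ * ∑ x, ∑ y, c x * (c y)⁻¹ * (F (e i) x τ * dualF F (e i) y τ) := by
      intro i
      simp only [Finset.sum_apply, Pi.smul_apply, smul_eq_mul]
      rw [← mul_assoc, mul_comm _ r⁻¹, mul_assoc, Finset.sum_mul_sum]
      congr 1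
      refine Finset.sum_congr rfl fun x _ => Finset.sum_congr rfl fun y _ => ?_
      ring
    simp only [h5]
    rw [← Finset.mul_sum, Finset.sum_comm]
    have h6 : ∀ x : X, ∑ i, ∑ y, c x * (c y)⁻¹ *
        (F (e i) x τ * dualF F (e i) y τ) =
        c x * (c x)⁻¹ * ModularForm.discriminant τ := by
      intro x
      rw [Finset.sum_comm]
      have h7 : ∀ y : X, ∑ i, c x * (c y)⁻¹ * (F (e i) x τ * dualF F (e i) y τ) =
          if x = y then c x * (c y)⁻¹ * ModularForm.discriminant τ else 0 := by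
        intro y
        have h8 : ∑ i, F (e i) x τ * dualF F (e i) y τ =
            if x = y then ModularForm.discriminant τ else 0 := by
          rw [← fmat_mul_dual hB τ x y]
          exact e.sum_comp (fun j => F j x τ * dualF F j y τ)
        rw [← Finset.mul_sum, h8, mul_ite, mul_zero]
      rw [Finset.sum_congr rfl fun y _ => h7 y, Finset.sum_ite_eq, if_pos (Finset.mem_univ _)]
    rw [Finset.sum_congr rfl fun x _ => h6 x, ← Finset.sum_mul, ← hr, ← mul_assoc,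
      inv_mul_cancel₀ hr0, one_mul]

/-- **Decomposition of `Δ`.** -/
theorem exists_disc_decomp [Γ.FiniteIndex] (hsep : HasSep Γ) (hneg : (-1 : SL(2, ℤ)) ∈ Γ)
    {n : ℕ} (hn : n ≠ 0) (hχ : χ ^ n = 1) (hpar : IsPar χ) (hχneg : χ ⟨-1, hneg⟩ = 1) :
    ∃ (m : ℕ) (kk : Fin m → ℤ) (F G : Fin m → ℍ → ℂ),
      (∀ i, Even (kk i)) ∧ (∀ i, IsTw Γ χ (kk i) (F i)) ∧ (∀ i, IsTw Γ χ⁻¹ (12 - kk i) (G i)) ∧
      ∀ τ, ∑ i, F i τ * G i τ = ModularForm.discriminant τ := by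
  classical
  have h1 : ∀ γ, ‖(χ γ : ℂ)‖ = 1 := by
    intro γ
    have h2 : (χ γ : ℂ) ^ n = 1 := by
      rw [← Units.val_pow_eq_pow_val, ← MonoidHom.pow_apply, hχ]
      rfl
    exact Complex.norm_eq_one_of_pow_eq_one h2 hn
  obtain ⟨E, hE, hEN⟩ := exists_tw_NV (k := (2 * (2 : ℕ) : ℤ)) hneg h1 hpar hχneg
    (by norm_num) (by norm_num)
  have hE0 : E ≠ 0 := by
    obtain ⟨c, hc, hlim⟩ := hEN 1
    rw [SlashAction.slash_one] at hlim
    exact ne_zero_of_tendsto hc hlim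
  have hsepK := hsep.kerG (l := 2) hn hχ le_rfl hE hE0
  have := finiteIndex_kerG hn hχ
  obtain ⟨w, P, hw, hP, hP0, hst⟩ := hsepK
  have := Fintype.ofFinite (SL(2, ℤ) ⧸ kerG χ)
  obtain ⟨kk, F, hB⟩ := exists_freeBasis (SL(2, ℤ) ⧸ kerG χ)
    ⟨2 * w, vecForm _ _ P hP.slash, vecForm_isVMF hP, fun x y hxy => by
      induction x using QuotientGroup.induction_on with
      | H a =>
      induction y using QuotientGroup.induction_on with
      | H b =>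
        rw [vecForm_mk, vecForm_mk] at hxy
        rw [QuotientGroup.eq]
        apply hst
        rw [SlashAction.slash_mul, hxy, ← SlashAction.slash_mul, inv_mul_cancel,
          SlashAction.slash_one]⟩
  have hnegX : ∀ x : SL(2, ℤ) ⧸ kerG χ, (-1 : SL(2, ℤ)) • x = x := by
    intro x
    induction x using QuotientGroup.induction_on with
    | H a =>
      rw [show (-1 : SL(2, ℤ)) • (a : SL(2, ℤ) ⧸ kerG χ) =
        ((-1 * a : SL(2, ℤ)) : SL(2, ℤ) ⧸ kerG χ) from rfl, QuotientGroup.eq, mem_kerG]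
      have h3 : (-1 * a)⁻¹ * a = -1 := by simp
      rw [h3]
      exact ⟨hneg, hχneg⟩
  refine disc_decomp_aux hB hnegX (cosetC χ) (cosetC_smul χ) ⟨((1 : SL(2, ℤ)) : _ ⧸ kerG χ), ?_⟩
  have h8 : cosetC χ ((1 : SL(2, ℤ)) : _ ⧸ kerG χ) = χ 1 := cosetC_mk χ 1
  rw [h8, map_one]
  simp

end Fermat.Agent.H22.Tw
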