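import Fermat.Agent.H22TwRoot
import Fermat.Agent.H22TwDual
import Fermat.Agent.H78Ring

/-!
# Galois conjugation of twisted modular forms
-/

set_option autoImplicit false

open Filter Topology Complex UpperHalfPlane Function
open scoped Manifold MatrixGroups ModularForm

noncomputable section

namespace Fermat.Agent.H22.Tw

variable {Γ : Subgroup SL(2, ℤ)} {χ ψ : Γ →* ℂˣ} {k l : ℤ} {f g f' g' : ℍ → ℂ}

/-- `f'` is the conjugate of `f` by `σ`, in terms of `q`-expansions -/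
def IsConj (σ : ℂ →+* ℂ) (f f' : ℍ → ℂ) : Prop :=
  ∃ P : PowerSeries ℂ, IsQ 1 f P ∧ IsQ 1 f' (P.map σ)

variable {σ : ℂ →+* ℂ}

theorem IsConj.mul (hf : IsConj σ f f') (hg : IsConj σ g g') : IsConj σ (f * g) (f' * g') := by
  obtain ⟨P, h1, h2⟩ := hf
  obtain ⟨Q, h3, h4⟩ := hg
  exact ⟨P * Q, h1.mul h3, by rw [map_mul]; exact h2.mul h4⟩

theorem IsConj.add (hf : IsConj σ f f') (hg : IsConj σ g g') : IsConj σ (f + g) (f' + g') := by
  obtain ⟨P, h1, h2⟩ := hf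
  obtain ⟨Q, h3, h4⟩ := hg
  exact ⟨P + Q, h1.add h3, by rw [map_add]; exact h2.add h4⟩

theorem IsConj.pow (hf : IsConj σ f f') (n : ℕ) : IsConj σ (f ^ n) (f' ^ n) := by
  obtain ⟨P, h1, h2⟩ := hf
  exact ⟨P ^ n, h1.pow n, by rw [map_pow]; exact h2.pow n⟩

theorem IsConj.sum {ι : Type*} (s : Finset ι) {F F' : ι → ℍ → ℂ}
    (h : ∀ i ∈ s, IsConj σ (F i) (F' i)) : IsConj σ (∑ i ∈ s, F i) (∑ i ∈ s, F' i) := by
  classical
  choose! P h1 h2 using h
  exact ⟨∑ i ∈ s, P i, IsQ.sum s one_pos h1, by rw [map_sum]; exact IsQ.sum s one_pos h2⟩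

theorem IsConj.unique (h : IsConj σ f f') (h' : IsConj σ f g') : f' = g' := by
  obtain ⟨P, h1, h2⟩ := h
  obtain ⟨Q, h3, h4⟩ := h'
  rw [h1.unique h3] at h2
  exact h2.ext h4

theorem map_injective (σ : ℂ →+* ℂ) : Function.Injective (PowerSeries.map σ) := by
  intro P Q hPQ
  ext i
  have := congrArg (PowerSeries.coeff i) hPQ
  rw [PowerSeries.coeff_map, PowerSeries.coeff_map] at this
  exact σ.injective this

theorem IsConj.injective (h : IsConj σ f f') (h' : IsConj σ g f') : f = g := by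
  obtain ⟨P, h1, h2⟩ := h
  obtain ⟨Q, h3, h4⟩ := h'
  have := map_injective σ (h2.unique h4)
  rw [this] at h1
  exact h1.ext h3

theorem isConj_zero : IsConj σ 0 0 := ⟨0, isQ_zero one_pos, by rw [map_zero]; exact isQ_zero one_pos⟩

theorem isConj_one : IsConj σ 1 1 := ⟨1, isQ_one one_pos, by rw [map_one]; exact isQ_one one_pos⟩

theorem IsConj.ne_zero (h : IsConj σ f f') (h0 : f ≠ 0) : f' ≠ 0 := by
  rintro rfl
  exact h0 (h.injective isConj_zero)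

theorem IsConj.tendsto (h : IsConj σ f f') {c : ℂ} (hc : Tendsto f atImInfty (𝓝 c)) :
    Tendsto f' atImInfty (𝓝 (σ c)) := by
  obtain ⟨P, h1, h2⟩ := h
  have h3 := h2.tendsto
  rw [PowerSeries.coeff_map, tendsto_nhds_unique h1.tendsto hc] at h3
  exact h3

/-- `M_k(Γ)` is stable under `σ` for all even `k` -/
def ConjStable (Γ : Subgroup SL(2, ℤ)) (σ : ℂ →+* ℂ) : Prop :=
  ∀ (k : ℤ) (f : ℍ → ℂ), Even k → IsM Γ k f → ∃ f', IsM Γ k f' ∧ IsConj σ f f'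

theorem isM_top_iff : IsM ⊤ k f ↔ H20.IsL1 k f := by
  constructor
  · intro h
    refine ⟨fun g => h.slash g (Subgroup.mem_top g), h.holo, ?_⟩
    have := h.bdd 1
    rwa [SlashAction.slash_one] at this
  · intro h
    exact IsL1.isM h ⊤

/-- norm to level one -/
theorem exists_norm [Γ.FiniteIndex] {w : ℤ} {G : ℍ → ℂ} (hG : IsM Γ w G)
    (hNV : NV w G) (hw : Even w) :
    ∃ (v : ℤ) (B N : ℍ → ℂ), Even v ∧ IsM Γ v B ∧ IsM ⊤ (w + v) N ∧ G * B = N ∧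
      ∃ c : ℂ, c ≠ 0 ∧ Tendsto N atImInfty (𝓝 c) := by
  classical
  have := Fintype.ofFinite (SL(2, ℤ) ⧸ Γ)
  have hV := vecForm_isVMF hG
  set F := vecForm Γ w G hG.slash with hF
  set s : Finset (SL(2, ℤ) ⧸ Γ) := Finset.univ.erase ((1 : SL(2, ℤ)) : SL(2, ℤ) ⧸ Γ) with hs
  have hF1 : F ((1 : SL(2, ℤ)) : SL(2, ℤ) ⧸ Γ) = G := by
    rw [hF, vecForm_mk, inv_one, SlashAction.slash_one]
  have hGB : G * ∏ x ∈ s, F x = ∏ x, F x := by
    rw [← hF1]
    exact Finset.mul_prod_erase Finset.univ F (Finset.mem_univ _)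
  have hcard : (s.card : ℤ) + 1 = (Finset.univ : Finset (SL(2, ℤ) ⧸ Γ)).card := by
    have := Finset.card_erase_add_one (Finset.mem_univ ((1 : SL(2, ℤ)) : SL(2, ℤ) ⧸ Γ))
    rw [← hs] at this
    exact_mod_cast this
  refine ⟨s.card * w, ∏ x ∈ s, F x, ∏ x, F x, hw.mul_left _, ⟨?_, ?_, ?_⟩, ?_, hGB, ?_⟩
  · intro γ hγ
    rw [slash_prod_const]
    refine Finset.prod_equiv (MulAction.toPerm γ⁻¹) ?_ ?_
    · intro x
      have h1 : (γ⁻¹ • x = ((1 : SL(2, ℤ)) : SL(2, ℤ) ⧸ Γ)) ↔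
          x = ((1 : SL(2, ℤ)) : SL(2, ℤ) ⧸ Γ) := by
        rw [inv_smul_eq_iff]
        have h2 : γ • ((1 : SL(2, ℤ)) : SL(2, ℤ) ⧸ Γ) = ((1 : SL(2, ℤ)) : SL(2, ℤ) ⧸ Γ) := by
          rw [show γ • ((1 : SL(2, ℤ)) : SL(2, ℤ) ⧸ Γ) = ((γ * 1 : SL(2, ℤ)) : SL(2, ℤ) ⧸ Γ) from rfl,
            QuotientGroup.eq]
          simpa using hγ
        rw [h2]
      simp [hs, h1]
    · intro x _
      rw [hV.slash]
      rfl
  · exact H20.mdiff_prod _ fun x _ => hV.holo x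
  · intro g
    rw [slash_prod_const]
    refine H20.bdd_prod _ fun x _ => ?_
    rw [hV.slash]
    exact hV.bdd _
  · rw [isM_top_iff]
    refine ⟨fun g => ?_, H20.mdiff_prod _ fun x _ => hV.holo x,
      H20.bdd_prod _ fun x _ => hV.bdd x⟩
    have h2 : w + s.card * w = ((Finset.univ : Finset (SL(2, ℤ) ⧸ Γ)).card : ℤ) * w := by
      rw [← hcard]; ring
    rw [h2, slash_prod_const]
    refine Finset.prod_equiv (MulAction.toPerm g⁻¹) (by simp) ?_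
    intro x _
    rw [hV.slash]
    rfl
  · have h1 : ∀ x : SL(2, ℤ) ⧸ Γ, ∃ c : ℂ, c ≠ 0 ∧ Tendsto (F x) atImInfty (𝓝 c) := by
      intro x
      induction x using QuotientGroup.induction_on with
      | H a =>
        rw [hF, vecForm_mk]
        exact hNV a⁻¹
    choose c hc0 hc using h1
    refine ⟨∏ x, c x, Finset.prod_ne_zero_iff.2 fun x _ => hc0 x, ?_⟩
    have h2 := tendsto_finsetProd (Finset.univ : Finset (SL(2, ℤ) ⧸ Γ)) fun x _ => hc x
    convert h2 using 1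
    funext τ
    simp

/-- if `G * B` is of level one and non-zero at `∞` then `G` does not vanish at the cusps. -/
theorem NV_of_mul [Γ.FiniteIndex] {w v : ℤ} {G B N : ℍ → ℂ} (hG : IsM Γ w G) (hB : IsM Γ v B)
    (hN : IsM ⊤ (w + v) N) (h : G * B = N) {c : ℂ} (hc : c ≠ 0) (hlim : Tendsto N atImInfty (𝓝 c)) :
    NV w G := by
  intro g
  obtain ⟨a, ha⟩ := hG.isTw.exists_tendsto isPar_one g
  obtain ⟨b, hb⟩ := hB.isTw.exists_tendsto isPar_one g
  refine ⟨a, ?_, ha⟩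
  rintro rfl
  have h1 := ha.mul hb
  have h2 : (fun τ => (G ∣[w] g) τ * (B ∣[v] g) τ) = N := by
    rw [← hN.slash g (Subgroup.mem_top g), ← h, ModularForm.mul_slash_SL2]
    rfl
  rw [h2, zero_mul] at h1
  exact hc (tendsto_nhds_unique hlim h1)

/-- a root of a form not vanishing at the cusps has a parabolic character -/
theorem isPar_of_NV [Γ.FiniteIndex] {n : ℕ} (hn : n ≠ 0) {g : ℍ → ℂ} (hg : IsTw Γ χ k g)
    (hχ : χ ^ n = 1) (hNV : NV ((n : ℤ) * k) (g ^ n)) : IsPar χ := by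
  -- first positive powers
  have key : ∀ (γ : Γ) (A : SL(2, ℤ)) (m : ℕ), (γ : SL(2, ℤ)) = A * ModularGroup.T ^ m * A⁻¹ →
      χ γ = 1 := by
    intro γ A m hγ
    rcases eq_or_ne m 0 with rfl | hm
    · have : γ = 1 := Subtype.ext (by rw [hγ]; simp)
      rw [this, map_one]
    set u := g ∣[k] A with hu
    have hper : ∀ τ : ℍ, u ((m : ℝ) +ᵥ τ) = χ γ * u τ := by
      intro τ
      rw [← slash_T_pow_apply k u m τ, hu, ← SlashAction.slash_mul]
      have h1 : A * ModularGroup.T ^ m = (γ : SL(2, ℤ)) * A := by rw [hγ]; group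
      rw [h1, SlashAction.slash_mul, hg.slash, smul_slash]
      rfl
    have hper2 : ∀ (j : ℕ) (τ : ℍ), u (((j * m : ℕ) : ℝ) +ᵥ τ) = (χ γ : ℂ) ^ j * u τ := by
      intro j
      induction j with
      | zero => intro τ; simp
      | succ j ih =>
        intro τ
        have h1 : (((j + 1) * m : ℕ) : ℝ) +ᵥ τ = (m : ℝ) +ᵥ (((j * m : ℕ) : ℝ) +ᵥ τ) := by
          rw [vadd_vadd]
          congr 1
          push_cast
          ring
        rw [h1, hper, ih, pow_succ]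
        ring
    have hnm : (0 : ℝ) < ((n * m : ℕ) : ℝ) := by
      exact_mod_cast Nat.mul_pos (Nat.pos_of_ne_zero hn) (Nat.pos_of_ne_zero hm)
    have hroot : (χ γ : ℂ) ^ n = 1 := by
      rw [← Units.val_pow_eq_pow_val, ← MonoidHom.pow_apply, hχ]
      rfl
    have hQ : IsQ ((n * m : ℕ) : ℝ) u (qExpansion ((n * m : ℕ) : ℝ) u) := by
      refine IsQ.of_periodic hnm (periodic_of_forall fun τ => ?_) (hg.holo.slash k _) (hg.bdd A)
      rw [hper2, hroot, one_mul]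
    have hlim := hQ.tendsto
    set a := (qExpansion ((n * m : ℕ) : ℝ) u).coeff 0
    have ha : a ≠ 0 := by
      obtain ⟨c, hc, hclim⟩ := hNV A
      rw [slash_pow] at hclim
      intro h0
      have h1 := hlim.pow n
      rw [h0, zero_pow hn] at h1
      exact hc (tendsto_nhds_unique hclim h1)
    have hshift : Tendsto (fun τ : ℍ => u ((m : ℝ) +ᵥ τ)) atImInfty (𝓝 a) := by
      refine hlim.comp ?_
      rw [atImInfty, tendsto_comap_iff]
      refine tendsto_comap.congr fun τ => ?_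
      simp
    simp only [hper] at hshift
    have h2 := tendsto_nhds_unique hshift (hlim.const_mul (χ γ : ℂ))
    have h3 : (1 : ℂ) * a = (χ γ : ℂ) * a := by rw [one_mul]; exact h2
    have h4 := mul_right_cancel₀ ha h3
    ext
    rw [← h4]
    rfl
  intro γ A m hγ
  rcases le_total 0 m with hm | hm
  · obtain ⟨j, rfl⟩ := Int.eq_ofNat_of_zero_le hm
    exact key γ A j (by simpa using hγ)
  · obtain ⟨j, hj⟩ := Int.eq_ofNat_of_zero_le (neg_nonneg.2 hm)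
    have h1 := key γ⁻¹ A j (by
      have : (γ⁻¹ : Γ) = (γ : SL(2, ℤ))⁻¹ := rfl
      rw [this, hγ, mul_inv_rev, mul_inv_rev, inv_inv, ← zpow_neg, hj]
      simp [mul_assoc])
    rw [map_inv, inv_eq_one] at h1
    exact h1

theorem isConj_disc : IsConj σ ModularForm.discriminant ModularForm.discriminant := by
  have h1 : IsM ⊤ 12 (ModularForm.discriminant : ℍ → ℂ) := isM_top_iff.2 H20.isL1_Δ
  have h2 := h1.isQ (Subgroup.mem_top _)
  have h3 := H78.map_qExpansion_discriminant σ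
  refine ⟨_, h2, h2.congr ?_⟩
  exact h3.symm

theorem conjStable_top (σ : ℂ →+* ℂ) : ConjStable ⊤ σ := by
  intro k f hk hf
  have h1 := isM_top_iff.1 hf
  obtain ⟨G, hG⟩ := H78.levelOne_conj σ k h1.toMF
  have h2 : IsM ⊤ k (G : ℍ → ℂ) := by
    refine ⟨fun γ _ => SlashInvariantFormClass.slash_action_eq G _ ⟨γ, rfl⟩,
      ModularFormClass.holo G, fun g => ?_⟩
    have h3 : (G : ℍ → ℂ) ∣[k] g = G := SlashInvariantFormClass.slash_action_eq G _ ⟨g, rfl⟩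
    rw [h3]
    exact ModularFormClass.bdd_at_infty G
  refine ⟨G, h2, _, hf.isQ (Subgroup.mem_top _), ?_⟩
  exact (h2.isQ (Subgroup.mem_top _)).congr hG

theorem char_neg_one {n : ℕ} (hodd : Odd n) (hneg : (-1 : SL(2, ℤ)) ∈ Γ) (hχ : χ ^ n = 1) :
    χ ⟨-1, hneg⟩ = 1 := by
  have h1 : χ ⟨-1, hneg⟩ ^ n = 1 := by rw [← MonoidHom.pow_apply, hχ]; rfl
  have h2 : χ ⟨-1, hneg⟩ ^ 2 = 1 := by
    rw [← map_pow]
    have : (⟨-1, hneg⟩ : Γ) ^ 2 = 1 := Subtype.ext (by simp)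
    rw [this, map_one]
  obtain ⟨c, hc⟩ := hodd
  rw [hc, pow_succ, pow_mul, h2, one_pow, one_mul] at h1
  exact h1

theorem apply_pow_char {n : ℕ} (hχ : χ ^ n = 1) (γ : Γ) : (χ γ) ^ n = 1 := by
  rw [← MonoidHom.pow_apply, hχ]
  rfl

theorem pow_char_of_forall {n : ℕ} (h : ∀ γ, (χ γ) ^ n = 1) : χ ^ n = 1 := by
  ext γ
  rw [MonoidHom.pow_apply, h]
  rfl

theorem inv_pow_char {n : ℕ} (hχ : χ ^ n = 1) : (χ⁻¹) ^ n = 1 :=
  pow_char_of_forall fun γ => by rw [MonoidHom.inv_apply, inv_pow, apply_pow_char hχ, inv_one]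

theorem norm_char {n : ℕ} (hn : n ≠ 0) (hχ : χ ^ n = 1) (γ : Γ) : ‖(χ γ : ℂ)‖ = 1 := by
  have h2 : (χ γ : ℂ) ^ n = 1 := by
    rw [← Units.val_pow_eq_pow_val, ← MonoidHom.pow_apply, hχ]
    rfl
  exact Complex.norm_eq_one_of_pow_eq_one h2 hn

theorem one_ne_zero' : (1 : ℍ → ℂ) ≠ 0 := fun h => by
  have := congrFun h UpperHalfPlane.I
  simp at this

theorem mul_ne_zero_mdiff (hf : MDiff f) (hg : MDiff g) (hf0 : f ≠ 0) (hg0 : g ≠ 0) :
    f * g ≠ 0 := fun h => by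
  rcases (mul_eq_zero_iff hf hg).1 h with h | h
  · exact hf0 h
  · exact hg0 h

/-- the `n`-th power of a twisted form has a conjugate which is an `n`-th power -/
theorem exists_conj_root [Γ.FiniteIndex] (hneg : (-1 : SL(2, ℤ)) ∈ Γ)
    (hsep : HasSep Γ) (hσ : ConjStable Γ σ) {n : ℕ} (hodd : Odd n) (hχ : χ ^ n = 1)
    (hpar : IsPar χ) (hk : Even k) (hf : IsTw Γ χ k f) (hf0 : f ≠ 0) :
    ∃ (χ' : Γ →* ℂˣ) (g G' : ℍ → ℂ), IsM Γ ((n : ℤ) * k) G' ∧ IsConj σ (f ^ n) G' ∧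
      χ' ^ n = 1 ∧ IsTw Γ χ' k g ∧ g ^ n = G' := by
  have hn : n ≠ 0 := by rintro rfl; simp at hodd
  obtain ⟨G', hG', hGc⟩ := hσ _ _ (hk.mul_left n) (hf.isM_of_pow hχ)
  have hG0 : G' ≠ 0 := hGc.ne_zero (pow_ne_zero' hf0 n)
  obtain ⟨m, kk, F, ψ, hev, hF, hψ, hsum⟩ := exists_disc_decomp hsep hneg hn hχ hpar
    (char_neg_one hodd hneg hχ)
  have hord : ∀ τ : ℍ, n ∣ analyticOrderNatAt (G' ∘ ofComplex) (τ : ℂ) := by
    -- conjugates of the products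
    have hχψ : χ * χ⁻¹ = 1 := mul_inv_cancel χ
    have hψn : (χ⁻¹) ^ n = 1 := inv_pow_char hχ
    have hM1 : ∀ i, IsM Γ 12 (F i * ψ i) := fun i =>
      ((hF i).isM_of_mul (hψ i) (by rw [hχψ])).weight_eq (by ring)
    have hM2 : ∀ i, IsM Γ (k + (12 - kk i)) (f * ψ i) := fun i =>
      hf.isM_of_mul (hψ i) (by rw [hχψ])
    have hM3 : ∀ i, IsM Γ ((n : ℤ) * (12 - kk i)) (ψ i ^ n) := fun i =>
      (hψ i).isM_of_pow hψn
    have hM4 : ∀ i, IsM Γ ((n : ℤ) * kk i) (F i ^ n) := fun i => (hF i).isM_of_pow hχ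
    have ev12 : ∀ i, Even (12 - kk i) := fun i => (by decide : Even (12 : ℤ)).sub (hev i)
    choose D hD hDc using fun i => hσ _ _ (by decide) (hM1 i)
    choose Q hQ hQc using fun i => hσ _ _ (hk.add (ev12 i)) (hM2 i)
    choose H hH hHc using fun i => hσ _ _ ((ev12 i).mul_left n) (hM3 i)
    choose K hK hKc using fun i => hσ _ _ ((hev i).mul_left n) (hM4 i)
    -- identities
    have e1 : ∀ i, G' * H i = Q i ^ n := fun i => by
      have h1 := hGc.mul (hHc i)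
      rw [← mul_pow] at h1
      exact h1.unique ((hQc i).pow n)
    have e2 : ∀ i, K i * H i = D i ^ n := fun i => by
      have h1 := (hKc i).mul (hHc i)
      rw [← mul_pow] at h1
      exact h1.unique ((hDc i).pow n)
    have e3 : ∑ i, D i = ModularForm.discriminant := by
      have h1 := IsConj.sum Finset.univ fun i _ => hDc i
      have h2 : ∑ i, F i * ψ i = ModularForm.discriminant := by
        funext τ
        rw [← hsum τ]
        simp
      rw [h2] at h1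
      exact h1.unique isConj_disc
    intro τ
    obtain ⟨i, hi⟩ : ∃ i, D i τ ≠ 0 := by
      by_contra hcon
      push Not at hcon
      have h1 := congrFun e3 τ
      simp only [Finset.sum_apply, hcon, Finset.sum_const_zero] at h1
      exact ModularForm.discriminant_ne_zero τ h1.symm
    have hi2 : H i τ ≠ 0 := by
      intro h0
      have h1 := congrFun (e2 i) τ
      simp only [Pi.mul_apply, Pi.pow_apply, h0, mul_zero] at h1
      exact hi (eq_zero_of_pow_eq_zero h1.symm)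
    exact dvd_order (hQ i).holo hG'.holo (hH i).holo (e1 i) hi2
  obtain ⟨χ', g, h1, h2, h3⟩ := exists_tw_root hn hG' hG0 hord
  exact ⟨χ', g, G', hG', hGc, h1, h2, h3⟩

/-- if the `n`-th powers of two forms with the same character have conjugates which are `n`-th
powers, the characters of the roots agree -/
theorem char_root_unique (hσ : ConjStable Γ σ) {n : ℕ} (hn : n ≠ 0)
    (hχ : χ ^ n = 1) {f₁ f₂ g₁ g₂ : ℍ → ℂ} (hk : Even k) (hl : Even l)
    (hf₁ : IsTw Γ χ k f₁) (hf₂ : IsTw Γ χ l f₂) (h₁0 : f₁ ≠ 0) (h₂0 : f₂ ≠ 0)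
    {χ₁ χ₂ : Γ →* ℂˣ} (hχ₂ : χ₂ ^ n = 1)
    (hg₁ : IsTw Γ χ₁ k g₁) (hg₂ : IsTw Γ χ₂ l g₂)
    (hc₁ : IsConj σ (f₁ ^ n) (g₁ ^ n)) (hc₂ : IsConj σ (f₂ ^ n) (g₂ ^ n)) : χ₁ = χ₂ := by
  obtain ⟨m, rfl⟩ : ∃ m, n = m + 1 := ⟨n - 1, by omega⟩
  -- the untwisted product
  have hM : IsM Γ (k + (m : ℤ) * l) (f₁ * f₂ ^ m) :=
    hf₁.isM_of_mul (hf₂.pow m) (by
      have : χ * χ ^ m = χ ^ (m + 1) := by
        ext γ
        simp [pow_succ, mul_comm]
      rw [this, hχ])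
  obtain ⟨F, hF, hFc⟩ := hσ _ _ (hk.add (hl.mul_left _)) hM
  have h1 : (g₁ * g₂ ^ m) ^ (m + 1) = F ^ (m + 1) := by
    have h2 := hc₁.mul (hc₂.pow m)
    have h3 := hFc.pow (m + 1)
    have h4 : (f₁ * f₂ ^ m) ^ (m + 1) = f₁ ^ (m + 1) * (f₂ ^ (m + 1)) ^ m := by
      rw [mul_pow, ← pow_mul, ← pow_mul, Nat.mul_comm]
    rw [h4] at h3
    rw [← h2.unique h3, mul_pow, ← pow_mul, ← pow_mul, Nat.mul_comm]
  have hgg := hg₁.mul (hg₂.pow m)
  obtain ⟨ζ, hζ, h5⟩ := exists_root_of_pow_eq hn hgg.holo hF.holo h1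
  have h6 : IsTw Γ 1 (k + (m : ℤ) * l) (g₁ * g₂ ^ m) := by
    rw [h5]
    exact (hF.smul ζ).isTw
  have g₁0 : g₁ ≠ 0 := by
    rintro rfl
    have := hc₁.ne_zero (pow_ne_zero' h₁0 _)
    exact this (by rw [zero_pow hn])
  have g₂0 : g₂ ≠ 0 := by
    rintro rfl
    have := hc₂.ne_zero (pow_ne_zero' h₂0 _)
    exact this (by rw [zero_pow hn])
  have h7 : χ₁ * χ₂ ^ m = 1 := hgg.char_unique h6
    (mul_ne_zero_mdiff hg₁.holo (hg₂.pow m).holo g₁0 (pow_ne_zero' g₂0 m))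
  ext γ
  have h8 := DFunLike.congr_fun h7 γ
  rw [MonoidHom.mul_apply, MonoidHom.pow_apply] at h8
  have h9 := apply_pow_char hχ₂ γ
  rw [pow_succ'] at h9
  have h10 : χ₁ γ * χ₂ γ ^ m = χ₂ γ * χ₂ γ ^ m := by rw [h8, h9]; rfl
  rw [mul_right_cancel h10]

/-- **Conjugation of twisted forms.** -/
theorem exists_conj_char [Γ.FiniteIndex] (hT : ModularGroup.T ∈ Γ) (hneg : (-1 : SL(2, ℤ)) ∈ Γ)
    (hsep : HasSep Γ) (hσ : ConjStable Γ σ) {n : ℕ} (hodd : Odd n)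
    (hχ : χ ∈ parChar Γ n) :
    ∃ χ' ∈ parChar Γ n, ∀ (k : ℤ) (f : ℍ → ℂ), Even k → IsTw Γ χ k f →
      ∃ f', IsTw Γ χ' k f' ∧ IsConj σ f f' := by
  obtain ⟨hχn, hpar⟩ := hχ
  have hn : n ≠ 0 := by rintro rfl; simp at hodd
  -- the form not vanishing at the cusps
  obtain ⟨E, hE, hEN⟩ := exists_tw_NV (k := 4) hneg (norm_char hn hχn) hpar
    (char_neg_one hodd hneg hχn) (by decide) (by norm_num)
  have hE0 : E ≠ 0 := by
    obtain ⟨c, hc, hlim⟩ := hEN 1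
    rw [SlashAction.slash_one] at hlim
    exact ne_zero_of_tendsto hc hlim
  obtain ⟨χ', g, G', hG', hGc, hχ'n, hg, rfl⟩ :=
    exists_conj_root hneg hsep hσ hodd hχn hpar (by decide) hE hE0
  have hEnM := hE.isM_of_pow hχn
  have hNV : NV ((n : ℤ) * 4) (E ^ n) := by
    intro A
    obtain ⟨c, hc, hlim⟩ := hEN A
    refine ⟨c ^ n, pow_ne_zero n hc, ?_⟩
    rw [slash_pow]
    exact hlim.pow n
  have hev : Even ((n : ℤ) * 4) := (by decide : Even (4 : ℤ)).mul_left _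
  obtain ⟨v, B, N, hv, hB, hN, hGB, c, hc, hlim⟩ := exists_norm hEnM hNV hev
  obtain ⟨B', hB', hBc⟩ := hσ _ _ hv hB
  obtain ⟨N', hN', hNc⟩ := conjStable_top σ _ _ (hev.add hv) hN
  have hGB' : g ^ n * B' = N' := by
    have h1 := hGc.mul hBc
    rw [hGB] at h1
    exact h1.unique hNc
  have hNV' : NV ((n : ℤ) * 4) (g ^ n) :=
    NV_of_mul hG' hB' hN' hGB' ((map_ne_zero σ).2 hc) (hNc.tendsto hlim)
  have hpar' : IsPar χ' := isPar_of_NV hn hg hχ'n hNV'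
  refine ⟨χ', ⟨hχ'n, hpar'⟩, ?_⟩
  intro k f hk hf
  by_cases hf0 : f = 0
  · exact ⟨0, isTw_zero _ _ _, by rw [hf0]; exact isConj_zero⟩
  obtain ⟨χ₂, g₂, G₂, hG₂, hGc₂, hχ₂n, hg₂, rfl⟩ :=
    exists_conj_root hneg hsep hσ hodd hχn hpar hk hf hf0
  have hχ₂ : χ₂ = χ' := char_root_unique hσ hn hχn hk (by decide : Even (4 : ℤ)) hf hE hf0 hE0
    hχ'n hg₂ hg hGc₂ hGc
  rw [hχ₂] at hg₂
  have hq := hg₂.isQ hT hpar'
  obtain ⟨P, hP1, hP2⟩ : ∃ P, IsQ 1 f P ∧ IsQ 1 f P := ⟨_, hf.isQ hT hpar, hf.isQ hT hpar⟩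
  have h1 : (qExpansion 1 g₂) ^ n = (P.map σ) ^ n := by
    obtain ⟨R, hR1, hR2⟩ := hGc₂
    rw [(hq.pow n).unique hR2, hR1.unique (hP1.pow n), map_pow]
  obtain ⟨ζ, hζ, h2⟩ := exists_root_of_pow_eq_ps hn h1
  have hζ0 : ζ ≠ 0 := by
    rintro rfl
    rw [zero_pow hn] at hζ
    exact zero_ne_one hζ
  refine ⟨ζ⁻¹ • g₂, hg₂.smul _, P, hP1, ?_⟩
  have h3 := hq.smul ζ⁻¹
  rw [h2, smul_smul, inv_mul_cancel₀ hζ0, one_smul] at h3
  exact h3

end Fermat.Agent.H22.Tw
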