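import Fermat.Agent.H22TwEqv

/-!
# The Eichler–Shimura relation on the characters of `Γ₁(M)`
-/

set_option autoImplicit false

open Filter Topology Complex UpperHalfPlane Function CongruenceSubgroup ModularForm
open scoped Manifold MatrixGroups ModularForm Pointwise
open Fermat.Agent.H48 Fermat.Agent.H58
open IsLocalRing (residue ResidueField)

noncomputable section

namespace Fermat.Agent.H22.Tw

local notation "Qb" => AlgebraicClosure ℚ
local notation "Gq" => (AlgebraicClosure ℚ ≃ₐ[ℚ] AlgebraicClosure ℚ)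

/-! ### Valuation rings of `ℚ̄` -/

section places

variable {A : ValuationSubring Qb} {p : ℕ}

theorem charP_res (hp : p.Prime) (hA : A.LiesOverPrime p) : CharP (ResidueField A) p := by
  have h0 : ((p : ℕ) : ResidueField A) = 0 := by
    have h1 : residue A (p : A) = 0 := by
      rw [IsLocalRing.residue_eq_zero_iff, ← A.coe_mem_nonunits_iff]
      exact_mod_cast hA
    rwa [map_natCast] at h1
  have h1 := CharP.ringChar_of_prime_eq_zero hp h0
  rw [← h1]
  exact ringChar.charP _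

theorem decomp_mem_iff {s : Gq} (hs : s ∈ A.decompositionSubgroup ℚ) (x : Qb) :
    s x ∈ A ↔ x ∈ A := by
  have h : s • A = A := hs
  have h1 : s • x ∈ s • A ↔ x ∈ A := ValuationSubring.smul_mem_pointwise_smul_iff
  rw [h] at h1
  exact h1

theorem inertia_mem_iff {s : Gq} (hs : s ∈ A.inertiaSubgroupIn ℚ) (x : Qb) :
    s x ∈ A ↔ x ∈ A := by
  obtain ⟨τ, hτ, rfl⟩ := hs
  exact decomp_mem_iff τ.2 x

/-- restriction of an automorphism to a stable valuation ring -/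
def rA (A : ValuationSubring Qb) (s : Gq) (hs : ∀ x, s x ∈ A ↔ x ∈ A) : A →+* A :=
  ((s : Qb →+* Qb).comp A.subtype).codRestrict A fun a => (hs a).2 a.2

@[simp] theorem coe_rA (s : Gq) (hs : ∀ x, s x ∈ A ↔ x ∈ A) (a : A) :
    ((rA A s hs a : A) : Qb) = s a := rfl

theorem inertia_residue {s : Gq} (hs : s ∈ A.inertiaSubgroupIn ℚ) (a : A) :
    residue A (rA A s (inertia_mem_iff hs) a) = residue A a := by
  obtain ⟨τ, hτ, rfl⟩ := hs
  have h1 : τ • (residue A a) = residue A a :=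
    congrArg (fun f : RingAut (ResidueField A) => f (residue A a)) (MonoidHom.mem_ker.mp hτ)
  rw [← IsLocalRing.ResidueField.residue_smul] at h1
  exact h1

theorem frob_residue {s : Gq} (hs : A.IsFrobeniusAt s p) (a : A) :
    residue A (rA A s (decomp_mem_iff hs.mem_decompositionSubgroup) a) = residue A a ^ p := by
  obtain ⟨hd, hfr⟩ := hs
  have h1 := hfr (residue A a)
  rw [← IsLocalRing.ResidueField.residue_smul] at h1
  exact h1

theorem mem_of_pow_eq_one {ζ : Qb} (hp : p ≠ 0) (h : ζ ^ p = 1) : ζ ∈ A := by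
  rcases A.mem_or_inv_mem ζ with h1 | h1
  · exact h1
  · obtain ⟨m, rfl⟩ : ∃ m, p = m + 1 := ⟨p - 1, by omega⟩
    have h2 : ζ = ζ⁻¹ ^ m := by
      rw [inv_pow]
      rw [pow_succ] at h
      exact eq_inv_of_mul_eq_one_right h
    rw [h2]
    exact pow_mem h1 m

theorem hasRoots_val (A : ValuationSubring Qb) (hp : p ≠ 0) : HasRoots A p := by
  have : NeZero p := ⟨hp⟩
  obtain ⟨ζ, hζ⟩ := HasEnoughRootsOfUnity.exists_primitiveRoot Qb p
  have h1 : IsPrimitiveRoot (⟨ζ, mem_of_pow_eq_one hp hζ.pow_eq_one⟩ : A) p :=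
    IsPrimitiveRoot.of_map_of_injective (f := A.subtype) hζ A.subtype_injective
  exact h1.card_nthRootsFinset

end places

variable {M n p : ℕ} {k : ℤ} {f g f' g' : ℍ → ℂ} {A : ValuationSubring Qb} {ι : Qb →+* ℂ}

/-- the embedding of `A` into `ℂ` -/
def φA (A : ValuationSubring Qb) (ι : Qb →+* ℂ) : A →+* ℂ := ι.comp A.subtype

theorem φA_injective (A : ValuationSubring Qb) (ι : Qb →+* ℂ) : Injective (φA A ι) :=
  ι.injective.comp A.subtype_injective

/-! ### Normalised forms -/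

theorem exists_normalised [NeZero M] (hM : 3 ≤ M) (hodd : Odd n) (A : ValuationSubring Qb)
    (ι : Qb →+* ℂ) (ψ : parChar (pmG M) n) :
    ∃ (f : ℍ → ℂ) (a : PowerSeries A), IsTw (pmG M) ψ 4 f ∧ f ≠ 0 ∧
      IsQ 1 (f ^ n) (a.map (φA A ι)) ∧ a.map (residue A) ≠ 0 := by
  have hn : n ≠ 0 := by rintro rfl; simp at hodd
  obtain ⟨m, f, P, hP⟩ := exists_can (hyp_pmG hM) hodd ψ.2
  choose c hc using hP.algebraic (hyp_pmG hM) hodd ι
  have hPc : P = (PowerSeries.mk c).map ι := by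
    ext i
    rw [PowerSeries.coeff_map, PowerSeries.coeff_mk, hc]
  have hF : IsM (Gamma1 M) ((n : ℤ) * 4) (f ^ n) :=
    (hP.tw.isM_of_pow ψ.2.1).mono (Gamma1_le_pmG M)
  have hFQ : IsQ 1 (f ^ n) (((PowerSeries.mk c) ^ n).map ι) := by
    rw [map_pow, ← hPc]
    exact hP.q.pow n
  have hF0 : f ^ n ≠ 0 := pow_ne_zero' hP.ne_zero n
  have hF0' : hF.toMF ≠ 0 := by
    intro h
    apply hF0
    rw [← hF.coe_toMF, h]
    rfl
  set d := (PowerSeries.mk c) ^ n with hd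
  obtain ⟨n0, hn0, hmax⟩ := H50.exists_max_coeff H50.one_mem_strictPeriods_Gamma1
    (H50.hasPrim_Gamma1 M) ι A hF.toMF hF0' (fun i => d.coeff i) (fun i => by
      rw [IsM.coe_toMF, hFQ.eq, PowerSeries.coeff_map])
  obtain ⟨u, hu⟩ := IsAlgClosed.exists_pow_nat_eq (ι (d.coeff n0))⁻¹ (Nat.pos_of_ne_zero hn)
  have hι0 : ι (d.coeff n0) ≠ 0 := (map_ne_zero ι).2 hn0
  have hu0 : u ≠ 0 := by
    rintro rfl
    rw [zero_pow hn] at hu
    exact inv_ne_zero hι0 hu.symm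
  refine ⟨u • f, PowerSeries.mk fun i => ⟨d.coeff i / d.coeff n0, hmax i⟩, hP.tw.smul u, ?_, ?_, ?_⟩
  · exact smul_ne_zero hu0 hP.ne_zero
  · have h1 : (u • f) ^ n = (ι (d.coeff n0))⁻¹ • f ^ n := by
      rw [smul_pow, hu]
    rw [h1]
    refine (hFQ.smul _).congr ?_
    ext i
    rw [PowerSeries.coeff_smul, PowerSeries.coeff_map, PowerSeries.coeff_map,
      PowerSeries.coeff_mk]
    show _ = ι (d.coeff i / d.coeff n0)
    rw [map_div₀, smul_eq_mul, div_eq_mul_inv, mul_comm]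
  · intro h0
    have h1 := congrArg (PowerSeries.coeff n0) h0
    rw [PowerSeries.coeff_map, PowerSeries.coeff_mk, map_zero] at h1
    have h2 : (⟨d.coeff n0 / d.coeff n0, hmax n0⟩ : A) = 1 :=
      Subtype.ext (div_self hn0)
    rw [h2, map_one] at h1
    exact one_ne_zero h1

theorem IsM.slash_Gamma0 (hf : IsM (Gamma1 M) k f) {δ : SL(2, ℤ)} (hδ : δ ∈ Gamma0 M) :
    IsM (Gamma1 M) k (f ∣[k] δ) where
  slash γ hγ := by
    have h1 : δ * γ = (δ * γ * δ⁻¹) * δ := by group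
    rw [← SlashAction.slash_mul, h1, SlashAction.slash_mul, hf.slash _ (conj_mem_Gamma1 hδ hγ)]
  holo := hf.holo.slash k _
  bdd g := by
    rw [← SlashAction.slash_mul]
    exact hf.bdd _

theorem exists_dia_normalised (hQE : QEIn M) (hp : p.Prime) (hpM : ¬ p ∣ M)
    (hA : A.LiesOverPrime p) (ι : Qb →+* ℂ) [NeZero M] (hk : Even k) {G : ℍ → ℂ}
    (hG : IsM (Gamma1 M) k G) {a : PowerSeries A} (ha : IsQ 1 G (a.map (φA A ι)))
    (ha0 : a.map (residue A) ≠ 0) {δ : SL(2, ℤ)} (hδ : δ ∈ Gamma0 M) :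
    ∃ b : PowerSeries A, IsQ 1 (G ∣[k] δ) (b.map (φA A ι)) ∧ b.map (residue A) ≠ 0 := by
  have hQ := (hG.slash_Gamma0 hδ).isQ T_mem_Gamma1
  have h1 := hQE p hp hpM A hA ι k hk G hG (fun i => ⟨a.coeff i, (a.coeff i).2, by
    rw [ha.eq, PowerSeries.coeff_map]
    rfl⟩) δ hδ
  choose b hbA hb using h1
  have hbQ : IsQ 1 (G ∣[k] δ) ((PowerSeries.mk fun i => (⟨b i, hbA i⟩ : A)).map (φA A ι)) := by
    refine hQ.congr ?_
    ext i
    rw [hb, PowerSeries.coeff_map, PowerSeries.coeff_mk]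
    rfl
  refine ⟨_, hbQ, fun h0 => ?_⟩
  -- `G ≠ 0`
  obtain ⟨i0, hi0⟩ : ∃ i0, residue A (a.coeff i0) ≠ 0 := by
    by_contra hcon
    push Not at hcon
    apply ha0
    ext i
    rw [PowerSeries.coeff_map, hcon, map_zero]
  have hai0 : a.coeff i0 ≠ 0 := by
    intro h
    rw [h, map_zero] at hi0
    exact hi0 rfl
  have hG0 : G ≠ 0 := by
    intro h
    have h2 := ha.eq_zero_iff.1 h
    have h3 := congrArg (PowerSeries.coeff i0) h2
    rw [PowerSeries.coeff_map, map_zero] at h3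
    exact hai0 (φA_injective A ι (by rw [h3, map_zero]))
  have hGδ0 : G ∣[k] δ ≠ 0 := by
    intro h
    apply hG0
    have := congrArg (fun h : ℍ → ℂ => h ∣[k] δ⁻¹) h
    simp only [← SlashAction.slash_mul, mul_inv_cancel, SlashAction.slash_one,
      SlashAction.zero_slash] at this
    exact this
  have hmf0 : (hG.slash_Gamma0 hδ).toMF ≠ 0 := by
    intro h
    apply hGδ0
    rw [← (hG.slash_Gamma0 hδ).coe_toMF, h]
    rfl
  obtain ⟨n1, hn1, hmax⟩ := H50.exists_max_coeff H50.one_mem_strictPeriods_Gamma1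
    (H50.hasPrim_Gamma1 M) ι A (hG.slash_Gamma0 hδ).toMF hmf0 b (fun i => by
      rw [IsM.coe_toMF, hb])
  have hb1 : (⟨b n1, hbA n1⟩ : A) ∈ IsLocalRing.maximalIdeal A := by
    rw [← IsLocalRing.residue_eq_zero_iff]
    have h2 := congrArg (PowerSeries.coeff n1) h0
    rwa [PowerSeries.coeff_map, PowerSeries.coeff_mk, map_zero] at h2
  -- apply (QE) to `(b n1)⁻¹ • G ∣ δ`
  have hG3 : IsM (Gamma1 M) k ((ι (b n1))⁻¹ • (G ∣[k] δ)) := (hG.slash_Gamma0 hδ).smul _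
  have h4 := hQE p hp hpM A hA ι k hk _ hG3 (fun i => ⟨b i / b n1, hmax i, by
    rw [(hQ.smul _).eq, PowerSeries.coeff_smul, hb, map_div₀, smul_eq_mul, div_eq_mul_inv,
      mul_comm]⟩) δ⁻¹ (inv_mem hδ) i0
  obtain ⟨x, hxA, hx⟩ := h4
  have h5 : ((ι (b n1))⁻¹ • (G ∣[k] δ)) ∣[k] δ⁻¹ = (ι (b n1))⁻¹ • G := by
    rw [smul_slash, ← SlashAction.slash_mul, mul_inv_cancel, SlashAction.slash_one]
  rw [h5, (ha.smul _).eq, PowerSeries.coeff_smul, PowerSeries.coeff_map, smul_eq_mul] at hx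
  change (ι (b n1))⁻¹ * ι (a.coeff i0 : Qb) = ι x at hx
  rw [← map_inv₀, ← map_mul] at hx
  have h6 : (a.coeff i0 : Qb) = b n1 * x := by
    have := ι.injective hx
    rw [← this, ← mul_assoc, mul_inv_cancel₀ hn1, one_mul]
  have h7 : a.coeff i0 = ⟨b n1, hbA n1⟩ * ⟨x, hxA⟩ := Subtype.ext h6
  apply hi0
  rw [h7, map_mul, (IsLocalRing.residue_eq_zero_iff _).2 hb1, zero_mul]

/-! ### The relations -/

theorem apply_KI (hKI : KIIn M n) (hp : p.Prime) (hpM : ¬ p ∣ M) (hpn : ¬ p ∣ n)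
    (hA : A.LiesOverPrime p) (ι : Qb →+* ℂ) (hk : Even k) {ψ₁ ψ₂ : parChar (pmG M) n}
    {x y : ℍ → ℂ} (hx : IsTw (pmG M) ψ₁ k x) (hy : IsTw (pmG M) ψ₂ k y) {a b : PowerSeries A}
    (ha : IsQ 1 (x ^ n) (a.map (φA A ι))) (hb : IsQ 1 (y ^ n) (b.map (φA A ι)))
    (hab : a.map (residue A) = b.map (residue A)) (h0 : a.map (residue A) ≠ 0) : ψ₁ = ψ₂ := by
  refine Subtype.ext (hKI p hp hpM hpn A hA ι k hk ψ₁ ψ₁.2 ψ₂ ψ₂.2 x y hx hy
    (fun i => a.coeff i) (fun i => b.coeff i) (fun i => (a.coeff i).2) (fun i => (b.coeff i).2)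
    ?_ ?_ ?_ ?_)
  · intro i
    rw [ha.eq, PowerSeries.coeff_map]
    rfl
  · intro i
    rw [hb.eq, PowerSeries.coeff_map]
    rfl
  · intro i
    have h1 := congrArg (PowerSeries.coeff i) hab
    rw [PowerSeries.coeff_map, PowerSeries.coeff_map, ← sub_eq_zero, ← map_sub,
      IsLocalRing.residue_eq_zero_iff, ← A.coe_mem_nonunits_iff] at h1
    exact h1
  · by_contra hcon
    push Not at hcon
    apply h0
    ext i
    rw [PowerSeries.coeff_map, map_zero, IsLocalRing.residue_eq_zero_iff,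
      ← A.coe_mem_nonunits_iff]
    exact hcon i

theorem map_lift (s : Gq) (hs : ∀ x, s x ∈ A ↔ x ∈ A) (a : PowerSeries A) :
    (a.map (φA A ι)).map (liftC ι s : ℂ →+* ℂ) = (a.map (rA A s hs)).map (φA A ι) := by
  ext i
  simp only [PowerSeries.coeff_map]
  exact liftC_apply ι s _

/-- conjugation of a normalised form -/
theorem exists_conj_normalised [NeZero M] (hM : 3 ≤ M) (hodd : Odd n) (hk : Even k)
    {ψ : parChar (pmG M) n} (hf : IsTw (pmG M) ψ k f) {a : PowerSeries A}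
    (ha : IsQ 1 (f ^ n) (a.map (φA A ι))) (s : Gq) (hs : ∀ x, s x ∈ A ↔ x ∈ A) :
    ∃ f', IsTw (pmG M) (gal (hyp_pmG hM) hodd ι s ψ) k f' ∧
      IsQ 1 (f' ^ n) ((a.map (rA A s hs)).map (φA A ι)) := by
  obtain ⟨f', hf', hc⟩ := cj_spec (hyp_pmG hM) hodd (liftC ι s : ℂ →+* ℂ) ψ hk hf
  refine ⟨f', hf', ?_⟩
  obtain ⟨P, hP, hP'⟩ := hc.pow n
  rw [hP.unique ha, map_lift s hs] at hP'
  exact hP'

section

variable [NeZero M] (hM : 3 ≤ M) (hn : n.Prime) (hn5 : 5 ≤ n)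

/-- **Unramifiedness.** -/
theorem gal_inertia (hKI : KIIn M n) (hp : p.Prime) (hpM : ¬ p ∣ M) (hpn : ¬ p ∣ n)
    (hA : A.LiesOverPrime p) (ι : Qb →+* ℂ) {s : Gq} (hs : s ∈ A.inertiaSubgroupIn ℚ)
    (ψ : parChar (pmG M) n) :
    gal (hyp_pmG hM) (odd_of_prime hn hn5) ι s ψ = ψ := by
  have hodd := odd_of_prime hn hn5
  obtain ⟨f, a, hf, hf0, hfQ, ha0⟩ := exists_normalised hM hodd A ι ψ
  obtain ⟨f', hf', hf'Q⟩ := exists_conj_normalised hM hodd (by decide) hf hfQ s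
    (inertia_mem_iff hs)
  refine (apply_KI hKI hp hpM hpn hA ι (by decide) hf hf' hfQ hf'Q ?_ ha0).symm
  ext i
  simp only [PowerSeries.coeff_map]
  exact (inertia_residue hs _).symm

/-- **The Eichler–Shimura relation.** -/
theorem gal_frob (hQE : QEIn M) (hKI : KIIn M n) (hp : p.Prime) (hpM : ¬ p ∣ M) (hpn : ¬ p ∣ n)
    (hA : A.LiesOverPrime p) (ι : Qb →+* ℂ) {s : Gq} (hs : A.IsFrobeniusAt s p)
    (ψ : parChar (pmG M) n) :
    hV hM hn hn5 (sysT M p hp hpM) ψ = gal (hyp_pmG hM) (odd_of_prime hn hn5) ι s ψ *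
      (gal (hyp_pmG hM) (odd_of_prime hn hn5) ι s⁻¹ (hV hM hn hn5 (sysDia M p) ψ)) ^ p := by
  have hodd := odd_of_prime hn hn5
  have hp0 := hp.ne_zero
  have : Fact p.Prime := ⟨hp⟩
  have : CharP (ResidueField A) p := charP_res hp hA
  have e4 : Even (4 : ℤ) := by decide
  have hsA := decomp_mem_iff hs.mem_decompositionSubgroup
  have hsA' : ∀ x, s⁻¹ x ∈ A ↔ x ∈ A := fun x => by
    rw [← hsA (s⁻¹ x)]
    have : s (s⁻¹ x) = x := s.apply_symm_apply x
    rw [this]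
  -- the forms
  obtain ⟨f, a, hf, hf0, hfQ, ha0⟩ := exists_normalised hM hodd A ι ψ
  have hG : IsM (Gamma1 M) ((n : ℤ) * 4) (f ^ n) :=
    (hf.isM_of_pow ψ.2.1).mono (Gamma1_le_pmG M)
  set g : ℍ → ℂ := f ∣[(4 : ℤ)] sig M p with hgdef
  have hg : IsTw (pmG M) (hV hM hn hn5 (sysDia M p) ψ) 4 g := isTw_hV_dia hM hn hn5 e4 hf p
  obtain ⟨b, hbQ, hb0⟩ := exists_dia_normalised hQE hp hpM hA ι (e4.mul_left _) hG hfQ ha0
    (sig_mem M p)
  rw [slash_pow, ← hgdef] at hbQ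
  obtain ⟨f', hf', hf'Q⟩ := exists_conj_normalised hM hodd e4 hf hfQ s hsA
  obtain ⟨g', hg', hg'Q⟩ := exists_conj_normalised hM hodd e4 hg hbQ s⁻¹ hsA'
  -- the form `x`
  have hx := isTw_hV_T hM hn hn5 e4 hp hpM hf
  rw [← hgdef] at hx
  have hxper := ((hx.isM_of_pow (hV hM hn hn5 (sysT M p hp hpM) ψ).2.1).isQ T_mem_pmG).per
  rw [NP_pow] at hxper
  obtain ⟨R, hR, hRN⟩ := IsQ.exists_NP hp0 hfQ hbQ hxper
  rw [← NP_pow] at hR
  obtain ⟨r, rfl, hrN⟩ := IsNP.descend (φA A ι) (φA_injective A ι) hp0 (hasRoots_val A hp0) hRN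
  have hred := hrN.reduce (residue A) hp0 (hasRoots_val A hp0)
  -- the form `y`
  have hy := hf'.mul (hg'.pow p)
  have hyQ : IsQ 1 ((f' * g' ^ p) ^ n)
      ((a.map (rA A s hsA) * (b.map (rA A s⁻¹ hsA')) ^ p).map (φA A ι)) := by
    have h1 := hf'Q.mul (hg'Q.pow p)
    have h2 : (f' * g' ^ p) ^ n = f' ^ n * (g' ^ n) ^ p := by
      rw [mul_pow, ← pow_mul, ← pow_mul, Nat.mul_comm]
    rw [h2, map_mul, map_pow]
    exact h1
  -- reductions
  have hfrob : ∀ c : PowerSeries A, (c.map (rA A s hsA)).map (residue A) =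
      (c.map (residue A)).map (frobenius (ResidueField A) p) := by
    intro c
    ext i
    simp only [PowerSeries.coeff_map]
    exact frob_residue hs _
  have hpow : ∀ c : PowerSeries (ResidueField A), c ^ p =
      (c.map (frobenius (ResidueField A) p)).expand p hp0 := by
    intro c
    have h6 := MvPowerSeries.map_frobenius_expand (σ := Unit) (R := ResidueField A) (p := p) hp0
      (f := c)
    rw [← PowerSeries.map_expand]
    exact h6.symm
  have hback : (b.map (rA A s⁻¹ hsA')).map (rA A s hsA) = b := by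
    ext i
    simp only [PowerSeries.coeff_map, coe_rA]
    exact s.apply_symm_apply _
  have hredy : (a.map (rA A s hsA) * (b.map (rA A s⁻¹ hsA')) ^ p).map (residue A) =
      r.map (residue A) := by
    rw [hred, map_mul, map_pow, hfrob a, hpow, ← hfrob (b.map (rA A s⁻¹ hsA')), hback, mul_comm]
  have hr0 : r.map (residue A) ≠ 0 := by
    rw [hred]
    refine mul_ne_zero ?_ ?_
    · intro h
      apply hb0
      apply expand_injective p hp0
      rw [h, map_zero]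
    · intro h
      apply ha0
      apply map_injective' (frobenius (ResidueField A) p) (frobenius_inj _ p)
      rw [h, map_zero]
  exact apply_KI hKI hp hpM hpn hA ι (e4.mul_left _) hx
    (ψ₂ := gal (hyp_pmG hM) hodd ι s ψ *
      (gal (hyp_pmG hM) hodd ι s⁻¹ (hV hM hn hn5 (sysDia M p) ψ)) ^ p)
    (hy.weight_eq (by push_cast; ring)) hR hyQ hredy.symm hr0

end

end Fermat.Agent.H22.Tw
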