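import Fermat.Agent.H22TwForms
import Fermat.Agent.H90TwistedEis

/-!
# Existence of twisted modular forms not vanishing at the cusps
-/

set_option autoImplicit false

open Filter Topology Complex UpperHalfPlane Function Matrix
open scoped Manifold MatrixGroups ModularForm

noncomputable section

namespace Fermat.Agent.H22.Tw

open Fermat.Agent.H90

variable {Γ : Subgroup SL(2, ℤ)} {χ ψ : Γ →* ℂˣ} {k l : ℤ} {f g : ℍ → ℂ}

open Classical in
/-- The coefficients of the twisted Eisenstein series. -/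
def cCoeff (χ : Γ →* ℂˣ) (v : Fin 2 → ℤ) : ℂ :=
  if h : ∃ γ : Γ, bottom (γ : SL(2, ℤ)) = v then (((χ h.choose)⁻¹ : ℂˣ) : ℂ) else 0

section

variable (hpar : ∀ γ : Γ, (γ : SL(2, ℤ)) 1 0 = 0 → χ γ = 1)

include hpar

lemma chi_eq_of_bottom_eq' {α β : Γ}
    (h : bottom (α : SL(2, ℤ)) = bottom (β : SL(2, ℤ))) : χ α = χ β := by
  have h1 : ((α * β⁻¹ : Γ) : SL(2, ℤ)) 1 0 = 0 := by
    have h2 : bottom ((α : SL(2, ℤ)) * (β : SL(2, ℤ))⁻¹) = ![0, 1] := by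
      rw [bottom_mul, h, bottom_mul_inv_self]
    have h3 := congrFun h2 0
    simpa [bottom] using h3
  have h4 := hpar _ h1
  rw [map_mul, map_inv] at h4
  exact mul_inv_eq_one.mp h4

lemma cCoeff_bottom (α : Γ) :
    cCoeff χ (bottom (α : SL(2, ℤ))) = (((χ α)⁻¹ : ℂˣ) : ℂ) := by
  have h : ∃ γ : Γ, bottom (γ : SL(2, ℤ)) = bottom (α : SL(2, ℤ)) := ⟨α, rfl⟩
  rw [cCoeff, dif_pos h, chi_eq_of_bottom_eq' hpar h.choose_spec]

lemma cCoeff_mul (γ : Γ) (v : Fin 2 → ℤ) :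
    cCoeff χ (v ᵥ* ((γ : SL(2, ℤ)) : Matrix (Fin 2) (Fin 2) ℤ)) =
      (((χ γ)⁻¹ : ℂˣ) : ℂ) * cCoeff χ v := by
  by_cases h : ∃ α : Γ, bottom (α : SL(2, ℤ)) = v
  · obtain ⟨α, rfl⟩ := h
    have h1 : bottom (α : SL(2, ℤ)) ᵥ* ((γ : SL(2, ℤ)) : Matrix (Fin 2) (Fin 2) ℤ) =
        bottom ((α * γ : Γ) : SL(2, ℤ)) := (bottom_mul _ _).symm
    rw [h1, cCoeff_bottom hpar, cCoeff_bottom hpar, map_mul]
    simp [mul_comm]
  · have h' : ¬ ∃ α : Γ, bottom (α : SL(2, ℤ)) =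
        v ᵥ* ((γ : SL(2, ℤ)) : Matrix (Fin 2) (Fin 2) ℤ) := by
      rintro ⟨β, hβ⟩
      refine h ⟨β * γ⁻¹, ?_⟩
      have h1 : bottom ((β * γ⁻¹ : Γ) : SL(2, ℤ)) =
          bottom (β : SL(2, ℤ)) ᵥ* (((γ : SL(2, ℤ))⁻¹ : SL(2, ℤ)) : Matrix (Fin 2) (Fin 2) ℤ) :=
        bottom_mul _ _
      rw [h1, hβ, row_mul_inv]
    rw [cCoeff, cCoeff, dif_neg h, dif_neg h', mul_zero]

lemma cCoeff_mul_inv (γ : Γ) (v : Fin 2 → ℤ) :
    cCoeff χ (v ᵥ* (((γ : SL(2, ℤ))⁻¹ : SL(2, ℤ)) : Matrix (Fin 2) (Fin 2) ℤ)) =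
      (χ γ : ℂ) * cCoeff χ v := by
  have h := cCoeff_mul hpar γ⁻¹ v
  simpa using h

omit hpar in
lemma norm_cCoeff_le (h1 : ∀ γ, ‖(χ γ : ℂ)‖ = 1) (v : Fin 2 → ℤ) : ‖cCoeff χ v‖ ≤ 1 := by
  rw [cCoeff]
  split_ifs with h
  · rw [Units.val_inv_eq_inv_val, norm_inv, h1]; simp
  · simp

lemma cCoeff_const_term (hneg : (-1 : SL(2, ℤ)) ∈ Γ) {k : ℤ} (hk : Even k) :
    ∑' v : Fin 2 → ℤ, (if v 0 = 0 then cCoeff χ v * (v 1 : ℂ) ^ (-k) else 0) = 2 := by
  classical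
  have hb1 : bottom ((1 : Γ) : SL(2, ℤ)) = ![0, 1] := by
    ext j; fin_cases j <;> simp [bottom]
  have hb2 : bottom (((⟨-1, hneg⟩ : Γ)) : SL(2, ℤ)) = ![0, -1] := by
    ext j; fin_cases j <;> simp [bottom]
  have hc1 : cCoeff χ ![0, 1] = 1 := by
    rw [← hb1, cCoeff_bottom hpar]; simp
  have hc2 : cCoeff χ ![0, -1] = 1 := by
    rw [← hb2, cCoeff_bottom hpar, hpar]
    · simp
    · simp
  rw [tsum_eq_sum (s := {![0, 1], ![0, -1]})]
  · rw [Finset.sum_pair]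
    · simp only [cons_val_zero, if_true, cons_val_one, hc1, hc2]
      have : ((-1 : ℤ) : ℂ) ^ (-k) = 1 := by
        push_cast
        exact (Even.neg hk).neg_one_zpow
      rw [this]; norm_num
    · intro h
      have := congrFun h 1
      simp at this
  · intro v hv
    split_ifs with h0
    · have hz : cCoeff χ v = 0 := by
        rw [cCoeff, dif_neg]
        rintro ⟨γ, hγ⟩
        have hdet := (γ : SL(2, ℤ)).det_coe
        rw [Matrix.det_fin_two] at hdet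
        have h10 : (γ : SL(2, ℤ)) 1 0 = 0 := by
          have := congrFun hγ 0
          rw [h0] at this
          exact this
        have h11 : (γ : SL(2, ℤ)) 1 1 = v 1 := congrFun hγ 1
        rw [h10, h11, mul_zero, sub_zero] at hdet
        have hu : IsUnit (v 1) := IsUnit.of_mul_eq_one_right _ hdet
        rcases Int.isUnit_iff.mp hu with h | h
        · apply hv
          have : v = ![0, 1] := by
            ext j; fin_cases j
            · exact h0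
            · exact h
          rw [this]; simp
        · apply hv
          have : v = ![0, -1] := by
            ext j; fin_cases j
            · exact h0
            · exact h
          rw [this]; simp
      rw [hz, zero_mul]
    · rfl

end

/-- **Twisted Eisenstein series**, for any subgroup `Γ` of `SL(2,ℤ)` containing `-1`. -/
theorem exists_tw_infty (hneg : (-1 : SL(2, ℤ)) ∈ Γ) (h1 : ∀ γ, ‖(χ γ : ℂ)‖ = 1)
    (hpar : ∀ γ : Γ, (γ : SL(2, ℤ)) 1 0 = 0 → χ γ = 1)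
    (hk : Even k) (hk4 : 4 ≤ k) :
    ∃ E : ℍ → ℂ, IsTw Γ χ k E ∧ Tendsto E atImInfty (𝓝 1) := by
  have hk3 : 3 ≤ k := by omega
  have hc : ∀ v, ‖((1 : ℂ) / 2) * cCoeff χ v‖ ≤ 1 := by
    intro v
    rw [norm_mul]
    have := norm_cCoeff_le h1 v
    have h2 : ‖(1 : ℂ) / 2‖ = 1 / 2 := by simp
    rw [h2]
    nlinarith [norm_nonneg (cCoeff χ v)]
  have hE : genEis k (fun v => ((1 : ℂ) / 2) * cCoeff χ v) =
      ((1 : ℂ) / 2) • genEis k (cCoeff χ) := by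
    funext z
    simp only [genEis, Pi.smul_apply, smul_eq_mul]
    rw [← tsum_mul_left]
    exact tsum_congr fun v => by ring
  refine ⟨genEis k (fun v => ((1 : ℂ) / 2) * cCoeff χ v), ⟨?_, genEis_mdifferentiable hk3 hc, ?_⟩,
    ?_⟩
  · intro γ
    rw [genEis_slash]
    funext z
    simp only [genEis, Pi.smul_apply, smul_eq_mul]
    rw [← tsum_mul_left]
    refine tsum_congr fun v => ?_
    rw [cCoeff_mul_inv hpar]
    ring
  · intro δ
    rw [genEis_slash]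
    exact genEis_bounded hk3 (C := 1) fun v => hc _
  · have h := genEis_tendsto hk3 (c := cCoeff χ) (norm_cCoeff_le h1)
    rw [cCoeff_const_term hpar hneg hk] at h
    rw [hE]
    have h2 := h.const_smul ((1 : ℂ) / 2)
    have h3 : ((1 : ℂ) / 2) • (2 : ℂ) = 1 := by simp
    rw [h3] at h2
    exact h2

/-- elements with lower left entry `0` -/
theorem eq_T_zpow_of_c_eq_zero (γ : SL(2, ℤ)) (h : γ 1 0 = 0) :
    ∃ m : ℤ, γ = ModularGroup.T ^ m ∨ γ = -ModularGroup.T ^ m := by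
  have hdet := γ.det_coe
  rw [Matrix.det_fin_two, h, mul_zero, sub_zero] at hdet
  rcases Int.eq_one_or_neg_one_of_mul_eq_one' hdet with ⟨ha, hd⟩ | ⟨ha, hd⟩
  · refine ⟨γ 0 1, Or.inl ?_⟩
    ext i j
    fin_cases i <;> fin_cases j <;> simp [ModularGroup.coe_T_zpow, ha, hd, h]
  · refine ⟨-γ 0 1, Or.inr ?_⟩
    ext i j
    fin_cases i <;> fin_cases j <;> simp [ModularGroup.coe_T_zpow, ha, hd, h]

/-- a parabolic character trivial on `-1` is trivial on elements fixing `∞` -/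
theorem IsPar.of_c_eq_zero (hχ : IsPar χ) (hneg : (-1 : SL(2, ℤ)) ∈ Γ)
    (hχneg : χ ⟨-1, hneg⟩ = 1) (γ : Γ) (h : (γ : SL(2, ℤ)) 1 0 = 0) : χ γ = 1 := by
  obtain ⟨m, hm | hm⟩ := eq_T_zpow_of_c_eq_zero (γ : SL(2, ℤ)) h
  · exact hχ γ 1 m (by simpa using hm)
  · have h1 : (γ : SL(2, ℤ)) = ((⟨-1, hneg⟩ * (⟨-1, hneg⟩ * γ) : Γ) : SL(2, ℤ)) := by simp
    have h2 : χ (⟨-1, hneg⟩ * γ) = 1 := hχ _ 1 m (by simp [hm])
    have h3 : γ = ⟨-1, hneg⟩ * (⟨-1, hneg⟩ * γ) := Subtype.ext h1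
    rw [h3, map_mul, h2, hχneg, mul_one]

/-- the conjugated group `g⁻¹ Γ g` -/
def conjG (Γ : Subgroup SL(2, ℤ)) (g : SL(2, ℤ)) : Subgroup SL(2, ℤ) :=
  Γ.comap (MulAut.conj g).toMonoidHom

theorem mem_conjG {g x : SL(2, ℤ)} : x ∈ conjG Γ g ↔ g * x * g⁻¹ ∈ Γ := Iff.rfl

/-- the conjugated character -/
def conjC (χ : Γ →* ℂˣ) (g : SL(2, ℤ)) : conjG Γ g →* ℂˣ where
  toFun x := χ ⟨g * x * g⁻¹, x.2⟩
  map_one' := by
    have : (⟨g * ((1 : conjG Γ g) : SL(2, ℤ)) * g⁻¹, (1 : conjG Γ g).2⟩ : Γ) = 1 := by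
      ext1; simp
    rw [this, map_one]
  map_mul' x y := by
    rw [← map_mul]
    congr 1
    ext1
    simp [mul_assoc]

theorem IsPar.conjC (hχ : IsPar χ) (g : SL(2, ℤ)) : IsPar (conjC χ g) := by
  intro γ h m hm
  refine hχ _ (g * h) m ?_
  simp only [hm]
  group

/-- Twisted Eisenstein series at the cusp `g ∞`. -/
theorem exists_tw_cusp (hneg : (-1 : SL(2, ℤ)) ∈ Γ) (h1 : ∀ γ, ‖(χ γ : ℂ)‖ = 1)
    (hpar : IsPar χ) (hχneg : χ ⟨-1, hneg⟩ = 1)
    (hk : Even k) (hk4 : 4 ≤ k) (g : SL(2, ℤ)) :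
    ∃ E : ℍ → ℂ, IsTw Γ χ k E ∧ Tendsto (E ∣[k] g) atImInfty (𝓝 1) := by
  have hneg' : (-1 : SL(2, ℤ)) ∈ conjG Γ g := by
    rw [mem_conjG]
    simpa using hneg
  have hχneg' : conjC χ g ⟨-1, hneg'⟩ = 1 := by
    rw [← hχneg]
    change χ _ = χ _
    congr 1
    ext1
    simp
  obtain ⟨E, hE, hlim⟩ := exists_tw_infty (χ := conjC χ g) hneg' (fun γ => h1 _)
    ((hpar.conjC g).of_c_eq_zero hneg' hχneg') hk hk4
  refine ⟨E ∣[k] g⁻¹, ⟨fun γ => ?_, hE.holo.slash k _, fun A => ?_⟩, ?_⟩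
  · have hmem : g⁻¹ * γ * g ∈ conjG Γ g := by
      rw [mem_conjG]
      have : g * (g⁻¹ * (γ : SL(2, ℤ)) * g) * g⁻¹ = γ := by group
      rw [this]
      exact γ.2
    have h2 := hE.slash ⟨g⁻¹ * γ * g, hmem⟩
    have h3 : conjC χ g ⟨g⁻¹ * γ * g, hmem⟩ = χ γ := by
      change χ _ = χ _
      congr 1
      ext1
      simp only
      group
    rw [h3] at h2
    simp only at h2
    rw [← SlashAction.slash_mul]
    have h4 : g⁻¹ * (γ : SL(2, ℤ)) = (g⁻¹ * γ * g) * g⁻¹ := by group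
    rw [h4, SlashAction.slash_mul, h2, smul_slash]
  · rw [← SlashAction.slash_mul]
    exact hE.bdd _
  · rw [← SlashAction.slash_mul, inv_mul_cancel, SlashAction.slash_one]
    exact hlim

/-- all conjugates of a power of `T` lie in a finite index subgroup -/
theorem exists_T_pow (Γ : Subgroup SL(2, ℤ)) [Γ.FiniteIndex] :
    ∃ n : ℕ, n ≠ 0 ∧ ∀ g : SL(2, ℤ), g * ModularGroup.T ^ n * g⁻¹ ∈ Γ := by
  refine ⟨Γ.normalCore.index, Subgroup.FiniteIndex.index_ne_zero, fun g => ?_⟩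
  refine Γ.normalCore_le ?_
  exact (Subgroup.Normal.conj_mem inferInstance _ (Subgroup.pow_index_mem _ _) g)

theorem T_pow_smul_coe (n : ℕ) (τ : ℍ) :
    ((ModularGroup.T ^ n • τ : ℍ) : ℂ) = τ + n := by
  have := ModularGroup.coe_T_zpow_smul_eq (z := τ) (n := (n : ℤ))
  simpa using this

theorem slash_T_pow_apply (k : ℤ) (f : ℍ → ℂ) (n : ℕ) (τ : ℍ) :
    (f ∣[k] (ModularGroup.T ^ n)) τ = f ((n : ℝ) +ᵥ τ) := by
  rw [ModularForm.SL_slash_apply]
  have h1 : denom ((ModularGroup.T ^ n : SL(2, ℤ)) : GL (Fin 2) ℝ) τ = 1 := by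
    have h2 : ((ModularGroup.T ^ n : SL(2, ℤ)) : Matrix (Fin 2) (Fin 2) ℤ) =
        !![1, (n : ℤ); 0, 1] := by
      have := ModularGroup.coe_T_zpow (n : ℤ)
      simpa using this
    have h3 : (ModularGroup.T ^ n : SL(2, ℤ)) 1 0 = 0 := by rw [h2]; simp
    have h4 : (ModularGroup.T ^ n : SL(2, ℤ)) 1 1 = 1 := by rw [h2]; simp
    simp only [denom]
    simp only [Matrix.SpecialLinearGroup.coe_GL_coe_matrix,
      Matrix.SpecialLinearGroup.map_apply_coe, RingHom.mapMatrix_apply, Matrix.map_apply]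
    rw [h3, h4]
    simp
  rw [h1, _root_.one_zpow, mul_one]
  congr 1
  ext
  rw [T_pow_smul_coe]
  simp [add_comm]

theorem IsTw.isQ_slash (hf : IsTw Γ χ k f) (hχ : IsPar χ) {n : ℕ} (hn : n ≠ 0) (g : SL(2, ℤ))
    (hg : g * ModularGroup.T ^ n * g⁻¹ ∈ Γ) :
    IsQ n (f ∣[k] g) (qExpansion n (f ∣[k] g)) := by
  have hn' : (0 : ℝ) < n := by exact_mod_cast Nat.pos_of_ne_zero hn
  refine IsQ.of_periodic hn' (periodic_of_forall fun τ => ?_) (hf.holo.slash k _) (hf.bdd g)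
  rw [← slash_T_pow_apply k (f ∣[k] g) n τ, ← SlashAction.slash_mul]
  have h1 : g * ModularGroup.T ^ n = (g * ModularGroup.T ^ n * g⁻¹) * g := by group
  rw [h1, SlashAction.slash_mul]
  have h2 := hf.slash ⟨_, hg⟩
  simp only at h2
  rw [h2, hχ ⟨_, hg⟩ g n (by simp)]
  simp

/-- non-vanishing at all cusps -/
def NV (k : ℤ) (f : ℍ → ℂ) : Prop :=
  ∀ g : SL(2, ℤ), ∃ c : ℂ, c ≠ 0 ∧ Tendsto (f ∣[k] g) atImInfty (𝓝 c)

theorem IsTw.exists_tendsto [Γ.FiniteIndex] (hf : IsTw Γ χ k f) (hχ : IsPar χ) (g : SL(2, ℤ)) :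
    ∃ c : ℂ, Tendsto (f ∣[k] g) atImInfty (𝓝 c) := by
  obtain ⟨n, hn, h⟩ := exists_T_pow Γ
  exact ⟨_, (hf.isQ_slash hχ hn g (h g)).tendsto⟩

/-- **Twisted forms which do not vanish at any cusp.** -/
theorem exists_tw_NV [Γ.FiniteIndex] (hneg : (-1 : SL(2, ℤ)) ∈ Γ) (h1 : ∀ γ, ‖(χ γ : ℂ)‖ = 1)
    (hpar : IsPar χ) (hχneg : χ ⟨-1, hneg⟩ = 1) (hk : Even k) (hk4 : 4 ≤ k) :
    ∃ E : ℍ → ℂ, IsTw Γ χ k E ∧ NV k E := by
  classical
  -- finitely many cusps at a time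
  have key : ∀ s : Finset SL(2, ℤ), ∃ E : ℍ → ℂ, IsTw Γ χ k E ∧
      ∀ g ∈ s, ∃ c : ℂ, c ≠ 0 ∧ Tendsto (E ∣[k] g) atImInfty (𝓝 c) := by
    intro s
    induction s using Finset.induction_on with
    | empty => exact ⟨0, isTw_zero Γ χ k, by simp⟩
    | insert g₀ s hg₀ ih =>
      obtain ⟨E, hE, hs⟩ := ih
      obtain ⟨E', hE', h0⟩ := exists_tw_cusp hneg h1 hpar hχneg hk hk4 g₀
      choose c hc0 hc using hs
      choose d hd using fun g => hE'.exists_tendsto hpar g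
      choose e he using fun g => hE.exists_tendsto hpar g
      have hdg₀ : d g₀ = 1 := tendsto_nhds_unique (hd g₀) h0
      have hec : ∀ g (hg : g ∈ s), e g = c g hg := fun g hg =>
        tendsto_nhds_unique (he g) (hc g hg)
      obtain ⟨t, ht⟩ := Infinite.exists_notMem_finset
        ((insert g₀ s).image (fun g => - e g / d g))
      refine ⟨E + t • E', hE.add (hE'.smul t), fun g hg => ⟨e g + t * d g, ?_, ?_⟩⟩
      · intro h2
        by_cases hdg : d g = 0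
        · rw [hdg, mul_zero, add_zero] at h2
          rcases Finset.mem_insert.1 hg with rfl | hg'
          · rw [hdg₀] at hdg
            exact one_ne_zero hdg
          · rw [hec g hg'] at h2
            exact hc0 g hg' h2
        · apply ht
          refine Finset.mem_image.2 ⟨g, hg, ?_⟩
          rw [div_eq_iff hdg]
          linear_combination -h2
      · rw [SlashAction.add_slash, smul_slash]
        exact (he g).add ((hd g).const_smul t)
  -- all cusps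
  have hfin : Finite (Quotient (QuotientGroup.rightRel Γ)) := by
    exact (QuotientGroup.quotientRightRelEquivQuotientLeftRel Γ).finite_iff.2 inferInstance
  have := Fintype.ofFinite (Quotient (QuotientGroup.rightRel Γ))
  obtain ⟨E, hE, hs⟩ := key (Finset.univ.image
    (fun q : Quotient (QuotientGroup.rightRel Γ) => q.out))
  refine ⟨E, hE, fun g => ?_⟩
  set q : Quotient (QuotientGroup.rightRel Γ) := Quotient.mk _ g with hq
  obtain ⟨c, hc, hlim⟩ := hs q.out (Finset.mem_image_of_mem _ (Finset.mem_univ q))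
  have hrel : (QuotientGroup.rightRel Γ) q.out g := Quotient.mk_out g
  rw [QuotientGroup.rightRel_apply] at hrel
  -- `g * q.out⁻¹ ∈ Γ`
  have h2 : E ∣[k] g = (χ ⟨g * q.out⁻¹, hrel⟩ : ℂ) • (E ∣[k] q.out) := by
    have h3 := hE.slash ⟨g * q.out⁻¹, hrel⟩
    simp only at h3
    rw [← smul_slash, ← h3, ← SlashAction.slash_mul, inv_mul_cancel_right]
  refine ⟨(χ ⟨g * q.out⁻¹, hrel⟩ : ℂ) * c, mul_ne_zero (Units.ne_zero _) hc, ?_⟩
  rw [h2]
  have h4 := hlim.const_smul (χ ⟨g * q.out⁻¹, hrel⟩ : ℂ)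
  exact h4

end Fermat.Agent.H22.Tw
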