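import Fermat.Agent.H22TwNP
import Fermat.Agent.H50Inputs

/-!
# Galois conjugation commutes with Hecke operators
-/

set_option autoImplicit false

open Filter Topology Complex UpperHalfPlane Function CongruenceSubgroup ModularForm
open scoped Manifold MatrixGroups ModularForm
open Fermat.Agent.H48 Fermat.Agent.H58

noncomputable section

namespace Fermat.Agent.H22.Tw

variable {M n p : ℕ} {k : ℤ} {f g f' g' : ℍ → ℂ} {σ : ℂ →+* ℂ}

section

variable (hM : 3 ≤ M) (hn : n.Prime) (hn5 : 5 ≤ n)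

/-- A Hecke correspondence on the parabolic characters of `±Γ₁(M)`. -/
def hV (H : HeckeSys (Gamma1 M)) (ψ : parChar (pmG M) n) : parChar (pmG M) n :=
  ((vnEquiv hM hn hn5).symm (H.homV n (vnEquiv hM hn hn5 (Additive.ofMul ψ)))).toMul

theorem vnEquiv_hV (H : HeckeSys (Gamma1 M)) (ψ : parChar (pmG M) n) :
    vnEquiv hM hn hn5 (Additive.ofMul (hV hM hn hn5 H ψ)) =
      H.homV n (vnEquiv hM hn hn5 (Additive.ofMul ψ)) :=
  (vnEquiv hM hn hn5).apply_symm_apply _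

theorem resC_hV (H : HeckeSys (Gamma1 M)) (ψ : parChar (pmG M) n) :
    resC (hV hM hn hn5 H ψ).1 = hChar H (resC ψ.1) := by
  have h1 := congrArg Subtype.val (vnEquiv_hV hM hn hn5 H ψ)
  rw [vnEquiv_apply, HeckeSys.coe_homV, vnEquiv_apply] at h1
  exact congrArg MonoidHom.toAdditive.symm h1

end

theorem odd_of_prime (hn : n.Prime) (hn5 : 5 ≤ n) : Odd n := hn.odd_of_ne_two (by omega)

/-- a twisted form for `Γ₁(M)` of even weight is a twisted form for `±Γ₁(M)` -/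
theorem isTw_parChar (hodd : Odd n) (hk : Even k) (ψ : parChar (pmG M) n) :
    IsTw (pmG M) ψ k f ↔ IsTw (Gamma1 M) (resC ψ.1) k f :=
  isTw_pmG_iff hk (char_neg_one hodd neg_mem_pmG ψ.2.1)

section

variable (hM : 3 ≤ M) (hn : n.Prime) (hn5 : 5 ≤ n)

theorem isTw_hV_dia (hk : Even k) {ψ : parChar (pmG M) n} (hf : IsTw (pmG M) ψ k f) (d : ℤ) :
    IsTw (pmG M) (hV hM hn hn5 (sysDia M d) ψ) k (f ∣[k] sig M d) := by
  have hodd := odd_of_prime hn hn5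
  rw [isTw_parChar hodd hk, resC_hV]
  exact isTw_dia ((isTw_parChar hodd hk ψ).1 hf) d

theorem isTw_hV_T (hk : Even k) (hp : p.Prime) (hpM : ¬ p ∣ M) {ψ : parChar (pmG M) n}
    (hf : IsTw (pmG M) ψ k f) :
    IsTw (pmG M) (hV hM hn hn5 (sysT M p hp hpM) ψ) (((p + 1 : ℕ) : ℤ) * k)
      (NP p hp.ne_zero f (f ∣[k] sig M p)) := by
  have hodd := odd_of_prime hn hn5
  rw [isTw_parChar hodd (hk.mul_left _), resC_hV]
  exact isTw_NP hp hpM ((isTw_parChar hodd hk ψ).1 hf)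

variable [NeZero M]

/-- conjugation and the diamond operators -/
theorem exists_conj_dia (hk : Even k) {ψ : parChar (pmG M) n} (hf : IsTw (pmG M) ψ k f)
    (hf' : IsTw (pmG M) (cj (hyp_pmG hM) (odd_of_prime hn hn5) σ ψ) k f')
    (hc : IsConj σ f f') (d : ℤ) :
    ∃ c : ℂ, c ≠ 0 ∧ IsConj σ (f ∣[k] sig M d) (c • (f' ∣[k] sig M d)) := by
  have hodd := odd_of_prime hn hn5
  have hn0 : n ≠ 0 := hn.ne_zero
  have h1 := isTw_hV_dia hM hn hn5 hk hf d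
  obtain ⟨g, hg, hgc⟩ := cj_spec (hyp_pmG hM) hodd σ _ hk h1
  -- the `n`-th powers
  have hF : IsM (Gamma1 M) ((n : ℤ) * k) (f ^ n) :=
    (hf.isM_of_pow ψ.2.1).mono (Gamma1_le_pmG M)
  have hF' : IsM (Gamma1 M) ((n : ℤ) * k) (f' ^ n) :=
    (hf'.isM_of_pow (cj (hyp_pmG hM) hodd σ ψ).2.1).mono (Gamma1_le_pmG M)
  obtain ⟨P, hP, hP'⟩ := hc.pow n
  have h2 : qExpansion 1 (hF'.toMF) = (qExpansion 1 (hF.toMF)).map σ := by
    rw [IsM.coe_toMF, IsM.coe_toMF, hP.eq, hP'.eq]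
  have h3 := H50.conj_slashM M σ hF.toMF hF'.toMF h2 ⟨sig M d, sig_mem M d⟩
  rw [H50.coe_slashM, H50.coe_slashM, IsM.coe_toMF, IsM.coe_toMF] at h3
  change qExpansion 1 ((f' ^ n) ∣[(n : ℤ) * k] sig M d) =
    (qExpansion 1 ((f ^ n) ∣[(n : ℤ) * k] sig M d)).map σ at h3
  rw [slash_pow, slash_pow] at h3
  -- compare
  have h4 : IsQ 1 ((f ∣[k] sig M d) ^ n) (qExpansion 1 ((f ∣[k] sig M d) ^ n)) :=
    (h1.isM_of_pow (hV hM hn hn5 (sysDia M d) ψ).2.1).isQ T_mem_pmG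
  have h1' := isTw_hV_dia hM hn hn5 hk hf' d
  have h5 : IsQ 1 ((f' ∣[k] sig M d) ^ n) (qExpansion 1 ((f' ∣[k] sig M d) ^ n)) :=
    (h1'.isM_of_pow (hV hM hn hn5 (sysDia M d) _).2.1).isQ T_mem_pmG
  rw [h3] at h5
  have h6 : IsConj σ ((f ∣[k] sig M d) ^ n) ((f' ∣[k] sig M d) ^ n) := ⟨_, h4, h5⟩
  have h7 : g ^ n = (f' ∣[k] sig M d) ^ n := (hgc.pow n).unique h6
  obtain ⟨ζ, hζ, h8⟩ := exists_root_of_pow_eq hn0 hg.holo h1'.holo h7
  refine ⟨ζ, ?_, ?_⟩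
  · rintro rfl
    rw [zero_pow hn0] at hζ
    exact zero_ne_one hζ
  · rw [← h8]
    exact hgc

/-- **Conjugation commutes with the diamond operators.** -/
theorem cj_dia (σ : ℂ →+* ℂ) (ψ : parChar (pmG M) n) (d : ℤ) :
    cj (hyp_pmG hM) (odd_of_prime hn hn5) σ (hV hM hn hn5 (sysDia M d) ψ) =
      hV hM hn hn5 (sysDia M d) (cj (hyp_pmG hM) (odd_of_prime hn hn5) σ ψ) := by
  have hodd := odd_of_prime hn hn5
  obtain ⟨E, hE, hE0⟩ := exists_nonzero (hyp_pmG hM) hodd ψ.2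
  obtain ⟨E', hE', hc⟩ := cj_spec (hyp_pmG hM) hodd σ ψ (by decide) hE
  obtain ⟨c, hc0, h1⟩ := exists_conj_dia hM hn hn5 (by decide) hE hE' hc d
  have hE2 := isTw_hV_dia hM hn hn5 (by decide) hE d
  have hne : E ∣[(4 : ℤ)] sig M d ≠ 0 := by
    intro h0
    apply hE0
    have := congrArg (fun h : ℍ → ℂ => h ∣[(4 : ℤ)] (sig M d)⁻¹) h0
    simp only [← SlashAction.slash_mul, mul_inv_cancel, SlashAction.slash_one,
      SlashAction.zero_slash] at this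
    exact this
  exact (Subtype.ext (cj_unique (hyp_pmG hM) hodd σ _ (by decide) hE2 hne
    ((isTw_hV_dia hM hn hn5 (by decide) hE' d).smul c) h1)).symm

theorem NP_ne_zero (hp : p ≠ 0) (hf : MDiff f) (hg : MDiff g) (hf0 : f ≠ 0) (hg0 : g ≠ 0) :
    NP p hp f g ≠ 0 := by
  have h1 : ∀ {u : ℍ → ℂ}, u ≠ 0 → u ∘ mulArg p hp ≠ 0 := by
    intro u hu h0
    apply hu
    funext τ
    have h2 := congrFun h0 (divArg p hp 0 τ)
    have h3 : mulArg p hp (divArg p hp 0 τ) = τ := by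
      ext
      rw [coe_mulArg, coe_divArg]
      have : (p : ℂ) ≠ 0 := by exact_mod_cast hp
      push_cast
      field_simp
      ring
    rw [comp_apply, h3] at h2
    exact h2
  have h4 : ∀ {u : ℍ → ℂ} (j : ℤ), u ≠ 0 → u ∘ divArg p hp j ≠ 0 := by
    intro u j hu h0
    apply hu
    funext τ
    have h2 := congrFun h0 (((-j : ℤ) : ℝ) +ᵥ mulArg p hp τ)
    have h3 : divArg p hp j (((-j : ℤ) : ℝ) +ᵥ mulArg p hp τ) = τ := by
      ext
      rw [coe_divArg, coe_vadd, coe_mulArg]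
      have : (p : ℂ) ≠ 0 := by exact_mod_cast hp
      push_cast
      field_simp
      ring
    rw [comp_apply, h3] at h2
    exact h2
  intro h0
  rw [NP] at h0
  rcases (mul_eq_zero_iff (mdiff_comp_mulArg hp hg) (mdiff_prod' _ fun (j : ℕ) _ =>
    mdiff_comp_divArg hp (j : ℤ) hf)).1 h0 with h | h
  · exact h1 hg0 h
  · obtain ⟨j, _, hj⟩ := prod_eq_zero_mdiff _ (fun (j : ℕ) _ => mdiff_comp_divArg hp (j : ℤ) hf) h
    exact h4 _ hf0 hj

/-- **Conjugation commutes with `T_p`.** -/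
theorem cj_T (σ : ℂ →+* ℂ) (ψ : parChar (pmG M) n) (hp : p.Prime) (hpM : ¬ p ∣ M) :
    cj (hyp_pmG hM) (odd_of_prime hn hn5) σ (hV hM hn hn5 (sysT M p hp hpM) ψ) =
      hV hM hn hn5 (sysT M p hp hpM) (cj (hyp_pmG hM) (odd_of_prime hn hn5) σ ψ) := by
  have hodd := odd_of_prime hn hn5
  obtain ⟨E, hE, hE0⟩ := exists_nonzero (hyp_pmG hM) hodd ψ.2
  obtain ⟨E', hE', hc⟩ := cj_spec (hyp_pmG hM) hodd σ ψ (by decide) hE
  obtain ⟨c, hc0, h1⟩ := exists_conj_dia hM hn hn5 (by decide) hE hE' hc p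
  have hne : E ∣[(4 : ℤ)] sig M p ≠ 0 := by
    intro h0
    apply hE0
    have := congrArg (fun h : ℍ → ℂ => h ∣[(4 : ℤ)] (sig M p)⁻¹) h0
    simp only [← SlashAction.slash_mul, mul_inv_cancel, SlashAction.slash_one,
      SlashAction.zero_slash] at this
    exact this
  have hE2 := isTw_hV_dia hM hn hn5 (by decide) hE p
  have hT1 := isTw_hV_T hM hn hn5 (by decide) hp hpM hE
  have hT2 := isTw_hV_T hM hn hn5 (by decide) hp hpM hE'
  have h2 := hc.NP hp.ne_zero h1 (hT1.isQ T_mem_pmG (hV hM hn hn5 (sysT M p hp hpM) ψ).2.2).per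
  rw [NP_smul] at h2
  exact (Subtype.ext (cj_unique (hyp_pmG hM) hodd σ _ ((by decide : Even (4 : ℤ)).mul_left _) hT1
    (NP_ne_zero hp.ne_zero hE.holo hE2.holo hE0 hne) (hT2.smul c) h2)).symm

end

end Fermat.Agent.H22.Tw
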