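import Fermat.Agent.H22TwCanon
import Fermat.Agent.H90DescentLin

/-!
# The Galois action on parabolic characters of order dividing `n`
-/

set_option autoImplicit false

open Filter Topology Complex UpperHalfPlane Function
open scoped Manifold MatrixGroups ModularForm

noncomputable section

namespace Fermat.Agent.H22.Tw

local notation "Qb" => AlgebraicClosure ℚ

/-- Automorphisms of `ℚ̄` extend to `ℂ`. -/
theorem exists_lift (ι : Qb →+* ℂ) (s : Qb ≃ₐ[ℚ] Qb) :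
    ∃ σ : ℂ ≃+* ℂ, ∀ x, σ (ι x) = ι (s x) := by
  classical
  let _ := ι.toAlgebra
  obtain ⟨B, hB⟩ := exists_isTranscendenceBasis Qb ℂ
  let _ := IsAlgClosed.isAlgClosure_of_transcendence_basis _ hB
  set S := Algebra.adjoin Qb (Set.range ((↑) : B → ℂ)) with hS
  let e0 : MvPolynomial B Qb ≃ₐ[Qb] S := hB.1.aevalEquiv
  let e : S ≃+* S := (e0.symm : S ≃+* MvPolynomial B Qb).trans
    ((MvPolynomial.mapEquiv B (s : Qb ≃+* Qb)).trans (e0 : MvPolynomial B Qb ≃+* S))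
  let σ : ℂ ≃+* ℂ := IsAlgClosure.equivOfEquiv ℂ ℂ e
  refine ⟨σ, fun x => ?_⟩
  have h1 : σ (algebraMap S ℂ (algebraMap Qb S x)) = algebraMap S ℂ (e (algebraMap Qb S x)) :=
    IsAlgClosure.equivOfEquiv_algebraMap ℂ ℂ e _
  have h2 : e (algebraMap Qb S x) = algebraMap Qb S (s x) := by
    show e0 (MvPolynomial.map (s : Qb →+* Qb) (e0.symm (algebraMap Qb S x))) = _
    rw [AlgEquiv.commutes, MvPolynomial.algebraMap_eq, MvPolynomial.map_C,
      ← MvPolynomial.algebraMap_eq, AlgEquiv.commutes]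
    rfl
  rw [h2] at h1
  exact h1

variable {Γ : Subgroup SL(2, ℤ)} {n : ℕ}

theorem finite_parChar [Γ.FiniteIndex] (hn : n ≠ 0) : Finite (parChar Γ n) := by
  classical
  have h1 : Group.FG SL(2, ℤ) := by
    rw [Group.fg_iff]
    exact ⟨_, SpecialLinearGroup.SL2Z_generators, Set.toFinite _⟩
  have h2 : Group.FG Γ := Subgroup.fg_of_index_ne_zero _
  obtain ⟨S, hS⟩ := h2.out
  have : NeZero n := ⟨hn⟩
  let F : parChar Γ n → (S → rootsOfUnity n ℂ) := fun χ s =>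
    ⟨χ.1 s, by
      exact apply_pow_char χ.2.1 _⟩
  have hF : Function.Injective F := by
    intro χ ψ h
    apply Subtype.ext
    apply MonoidHom.eq_of_eqOn_dense hS
    intro s hs
    have h3 := congrFun h ⟨s, hs⟩
    exact congrArg Subtype.val h3
  exact Finite.of_injective F hF

/-- The action of the automorphisms of `ℂ`. -/
@[reducible] def actC (hΓ : Hyp Γ) (hodd : Odd n) : MulAction (ℂ ≃ₐ[ℚ] ℂ) (parChar Γ n) where
  smul σ χ := cj hΓ hodd (σ : ℂ →+* ℂ) χ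
  one_smul χ := by
    have : ((1 : ℂ ≃ₐ[ℚ] ℂ) : ℂ →+* ℂ) = RingHom.id ℂ := by ext; simp
    show cj hΓ hodd ((1 : ℂ ≃ₐ[ℚ] ℂ) : ℂ →+* ℂ) χ = χ
    rw [this, cj_id]
  mul_smul σ τ χ := by
    have : ((σ * τ : ℂ ≃ₐ[ℚ] ℂ) : ℂ →+* ℂ) = (σ : ℂ →+* ℂ).comp (τ : ℂ →+* ℂ) := by
      ext; simp
    show cj hΓ hodd ((σ * τ : ℂ ≃ₐ[ℚ] ℂ) : ℂ →+* ℂ) χ = cj hΓ hodd _ (cj hΓ hodd _ χ)
    rw [this, cj_comp]

/-- The coefficients of the canonical forms are algebraic. -/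
theorem IsCan.algebraic (hΓ : Hyp Γ) (hodd : Odd n) (ι : Qb →+* ℂ) {χ : parChar Γ n} {m : ℕ}
    {f : ℍ → ℂ} {P : PowerSeries ℂ} (h : IsCan Γ χ m f P) (i : ℕ) : ∃ b, P.coeff i = ι b := by
  have := hΓ.fin
  have hn : n ≠ 0 := by rintro rfl; simp at hodd
  have := finite_parChar (Γ := Γ) hn
  let _ := actC hΓ hodd
  let H := MulAction.stabilizer (ℂ ≃ₐ[ℚ] ℂ) χ
  have hH : H.FiniteIndex := ⟨by
    rw [MulAction.index_stabilizer]
    have : (MulAction.orbit (ℂ ≃ₐ[ℚ] ℂ) χ).Nonempty := ⟨χ, MulAction.mem_orbit_self χ⟩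
    exact (Set.ncard_pos (Set.toFinite _)).2 this |>.ne'⟩
  have h1 : IsAlgebraic ℚ (P.coeff i) := by
    apply H90.isAlgebraic_of_finiteIndex H
    intro σ hσ
    have h2 : cj hΓ hodd ((σ : ℂ ≃+* ℂ) : ℂ →+* ℂ) χ = χ := hσ
    obtain ⟨f', hf'⟩ := h.conj hΓ hodd (σ : ℂ ≃+* ℂ)
    rw [h2] at hf'
    have h3 := (h.unique hf').2.2
    have h4 := congrArg (PowerSeries.coeff i) h3
    rw [PowerSeries.coeff_map] at h4
    exact h4.symm
  have h5 : IsIntegral ℚ (P.coeff i) := h1.isIntegral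
  -- the algebraic numbers are in the image of `ι`
  let _ := ι.toAlgebra
  have : IsScalarTower ℚ Qb ℂ := IsScalarTower.of_algebraMap_eq fun x => by
    rw [eq_ratCast, eq_ratCast]
    exact (map_ratCast ι x).symm
  have h6 : IsIntegral Qb (P.coeff i) := h5.tower_top
  obtain ⟨b, hb⟩ := minpoly.mem_range_of_degree_eq_one Qb (P.coeff i)
    (IsAlgClosed.degree_eq_one_of_irreducible Qb (minpoly.irreducible h6))
  exact ⟨b, hb.symm⟩

theorem cj_congr (hΓ : Hyp Γ) (hodd : Odd n) (ι : Qb →+* ℂ) {σ τ : ℂ →+* ℂ}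
    (h : ∀ x, σ (ι x) = τ (ι x)) (χ : parChar Γ n) : cj hΓ hodd σ χ = cj hΓ hodd τ χ := by
  obtain ⟨m, f, P, hP⟩ := exists_can hΓ hodd χ.2
  obtain ⟨f', hf', Q, hQ, hQ'⟩ := cj_spec hΓ hodd σ χ (by decide) hP.tw
  obtain rfl : Q = P := hQ.unique hP.q
  have h1 : Q.map σ = Q.map τ := by
    ext i
    rw [PowerSeries.coeff_map, PowerSeries.coeff_map]
    obtain ⟨b, hb⟩ := hP.algebraic hΓ hodd ι i
    rw [hb, h]
  exact Subtype.ext (cj_unique hΓ hodd τ χ (by decide) hP.tw hP.ne_zero hf'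
    ⟨Q, hQ, by rw [← h1]; exact hQ'⟩)

/-- A lift of an automorphism of `ℚ̄` to `ℂ`. -/
def liftC (ι : Qb →+* ℂ) (s : Qb ≃ₐ[ℚ] Qb) : ℂ ≃+* ℂ := (exists_lift ι s).choose

@[simp] theorem liftC_apply (ι : Qb →+* ℂ) (s : Qb ≃ₐ[ℚ] Qb) (x : Qb) :
    liftC ι s (ι x) = ι (s x) := (exists_lift ι s).choose_spec x

/-- The Galois action. -/
def gal (hΓ : Hyp Γ) (hodd : Odd n) (ι : Qb →+* ℂ) :
    (Qb ≃ₐ[ℚ] Qb) →* Monoid.End (parChar Γ n) where
  toFun s := cjHom hΓ hodd (liftC ι s : ℂ →+* ℂ)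
  map_one' := by
    refine MonoidHom.ext fun χ => ?_
    show cj hΓ hodd (liftC ι 1 : ℂ →+* ℂ) χ = χ
    rw [cj_congr hΓ hodd ι (τ := RingHom.id ℂ) (fun x => by simp), cj_id]
  map_mul' s t := by
    refine MonoidHom.ext fun χ => ?_
    show cj hΓ hodd (liftC ι (s * t) : ℂ →+* ℂ) χ =
      cj hΓ hodd (liftC ι s : ℂ →+* ℂ) (cj hΓ hodd (liftC ι t : ℂ →+* ℂ) χ)
    rw [← cj_comp]
    exact cj_congr hΓ hodd ι (fun x => by simp) χ

theorem gal_apply (hΓ : Hyp Γ) (hodd : Odd n) (ι : Qb →+* ℂ) (s : Qb ≃ₐ[ℚ] Qb)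
    (χ : parChar Γ n) : gal hΓ hodd ι s χ = cj hΓ hodd (liftC ι s : ℂ →+* ℂ) χ := rfl

/-- The Galois action factors through a finite extension. -/
theorem gal_finite_level (hΓ : Hyp Γ) (hodd : Odd n) (ι : Qb →+* ℂ) :
    ∃ L : IntermediateField ℚ Qb, FiniteDimensional ℚ L ∧
      ∀ s : Qb ≃ₐ[ℚ] Qb, (∀ x ∈ L, s x = x) → gal hΓ hodd ι s = 1 := by
  classical
  have := hΓ.fin
  have hn : n ≠ 0 := by rintro rfl; simp at hodd
  have := finite_parChar (Γ := Γ) hn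
  choose m f P hP using fun χ : parChar Γ n => exists_can hΓ hodd χ.2
  -- separating coefficients
  have h1 : ∀ χ ψ : parChar Γ n, ∃ i : ℕ, χ ≠ ψ → (P χ).coeff i ≠ (P ψ).coeff i := by
    intro χ ψ
    by_contra hcon
    push Not at hcon
    have h2 := (hcon 0).1
    apply h2
    have h3 : P χ = P ψ := PowerSeries.ext fun i => (hcon i).2
    have h4 : f χ = f ψ := (hP χ).q.ext (by rw [h3]; exact (hP ψ).q)
    have h5 := (hP ψ).tw
    rw [← h4] at h5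
    exact Subtype.ext ((hP χ).tw.char_unique h5 (hP χ).ne_zero)
  choose i hi using h1
  choose a ha using fun x : parChar Γ n × parChar Γ n =>
    (hP x.1).algebraic hΓ hodd ι (i x.1 x.2)
  refine ⟨IntermediateField.adjoin ℚ (Set.range a), ?_, ?_⟩
  · have : Finite (Set.range a) := Set.finite_range a
    exact IntermediateField.finiteDimensional_adjoin fun x _ =>
      ((AlgebraicClosure.isAlgebraic ℚ).isAlgebraic x).isIntegral
  · intro s hs
    refine MonoidHom.ext fun χ => ?_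
    show cj hΓ hodd (liftC ι s : ℂ →+* ℂ) χ = χ
    set ψ := cj hΓ hodd (liftC ι s : ℂ →+* ℂ) χ with hψ
    by_contra hne
    apply hi χ ψ (Ne.symm hne)
    obtain ⟨f', hf'⟩ := (hP χ).conj hΓ hodd (liftC ι s)
    have h6 := ((hP ψ).unique hf').2.2
    rw [h6, PowerSeries.coeff_map, ha (χ, ψ)]
    show ι _ = liftC ι s (ι _)
    rw [liftC_apply, hs _ (IntermediateField.subset_adjoin ℚ _ ⟨(χ, ψ), rfl⟩)]

end Fermat.Agent.H22.Tw
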