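import Fermat.Agent.H22TwPm

/-!
# Hecke operators on twisted forms
-/

set_option autoImplicit false

open Filter Topology Complex UpperHalfPlane Function CongruenceSubgroup ModularForm
open scoped Manifold MatrixGroups ModularForm
open Matrix.SpecialLinearGroup (mapGL)
open P2MW.S_ModularForm_heckeT_slash_eq_self_of_mem_Gamma0.ModularForm.HeckeSlashInvariance
open Fermat.Agent.H48 Fermat.Agent.H58

noncomputable section

namespace Fermat.Agent.H22.Tw

section general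

variable {Γ : Subgroup SL(2, ℤ)} {χ : Γ →* ℂˣ} {k : ℤ} {f : ℍ → ℂ}

/-- the transferred character -/
def hChar (H : HeckeSys Γ) (χ : Γ →* ℂˣ) : Γ →* ℂˣ :=
  MonoidHom.toAdditive.symm (H.hom (MonoidHom.toAdditive χ))

theorem hChar_apply (H : HeckeSys Γ) (χ : Γ →* ℂˣ) (γ : Γ) :
    hChar H χ γ = ∏ i, χ (H.coc γ i) := by
  show (H.hom (MonoidHom.toAdditive χ) (Additive.ofMul γ)).toMul = _
  rw [HeckeSys.hom_apply, toMul_sum]
  rfl

/-- the norm along a Hecke correspondence -/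
def nrm (H : HeckeSys Γ) (k : ℤ) (f : ℍ → ℂ) : ℍ → ℂ := ∏ i : H.ι, f ∣[k] H.α i

theorem slash_smul_pos (k : ℤ) {g : GL (Fin 2) ℝ} (hg : 0 < g.det.val) (f : ℍ → ℂ) (c : ℂ) :
    (c • f) ∣[k] g = c • (f ∣[k] g) := by
  rw [ModularForm.smul_slash]
  congr 1
  rw [UpperHalfPlane.σ, if_pos hg]
  rfl

theorem isTw_nrm (H : HeckeSys Γ) (hf : IsTw Γ χ k f)
    (hb : ∀ (i : H.ι) (g : SL(2, ℤ)), IsBoundedAtImInfty ((f ∣[k] H.α i) ∣[k] g)) :
    IsTw Γ (hChar H χ) ((Fintype.card H.ι : ℤ) * k) (nrm H k f) where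
  slash γ := by
    rw [nrm, Fintype.card, slash_prod_const, hChar_apply]
    have h1 : ∀ i : H.ι, (f ∣[k] H.α i) ∣[k] (γ : SL(2, ℤ)) =
        (χ (H.coc γ i) : ℂ) • (f ∣[k] H.α (H.act γ i)) := by
      intro i
      show (f ∣[k] H.α i) ∣[k] (mapGL ℝ (γ : SL(2, ℤ))) = _
      rw [← SlashAction.slash_mul, H.spec, SlashAction.slash_mul]
      have h2 : f ∣[k] (mapGL ℝ (H.coc γ i : SL(2, ℤ)) : GL (Fin 2) ℝ) =
          (χ (H.coc γ i) : ℂ) • f := hf.slash (H.coc γ i)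
      rw [h2, slash_smul_pos k (H.det_pos _)]
    rw [Finset.prod_congr rfl fun i _ => h1 i, Units.coe_prod]
    funext τ
    simp only [Finset.prod_apply, Pi.smul_apply, smul_eq_mul, Finset.prod_mul_distrib]
    congr 1
    exact Equiv.prod_comp (H.act γ) (fun i => (f ∣[k] H.α i) τ)
  holo := mdiff_prod' _ fun i _ => hf.holo.slash k _
  bdd g := by
    rw [nrm, Fintype.card, slash_prod_const]
    exact H20.bdd_prod _ fun i _ => hb i g

end general

variable {M n p : ℕ} {k : ℤ} {f g : ℍ → ℂ}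

/-! ### Diamond operators -/

theorem nrm_sysDia (d : ℤ) : nrm (sysDia M d) k f = f ∣[k] sig M d := by
  rw [nrm]
  show ∏ _i : Unit, _ = _
  rw [Fintype.prod_unique]
  rfl

theorem isTw_dia {χ : Gamma1 M →* ℂˣ} (hf : IsTw (Gamma1 M) χ k f) (d : ℤ) :
    IsTw (Gamma1 M) (hChar (sysDia M d) χ) k (f ∣[k] sig M d) := by
  have h1 := isTw_nrm (sysDia M d) hf (fun i g => by
    have : (f ∣[k] (sysDia M d).α i) ∣[k] g = f ∣[k] (sig M d * g) := by
      rw [SlashAction.slash_mul]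
      rfl
    rw [this]
    exact hf.bdd _)
  rw [nrm_sysDia] at h1
  refine h1.weight_eq ?_
  show ((Fintype.card Unit : ℕ) : ℤ) * k = k
  simp

/-! ### `T_p` -/

theorem slash_heckeDiag (k : ℤ) (hp : p ≠ 0) (f : ℍ → ℂ) :
    f ∣[k] heckeDiagMatrix p = ((p : ℂ) ^ (k - 1)) • (f ∘ mulArg p hp) := by
  funext τ
  rw [slash_heckeDiagMatrix_apply k hp, Pi.smul_apply, smul_eq_mul, comp_apply]
  congr 2
  ext
  rw [coe_heckeDiagMatrix_smul hp]
  rfl

theorem slash_heckeMat (k : ℤ) (hp : p ≠ 0) (j : ℕ) (f : ℍ → ℂ) :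
    f ∣[k] heckeMatrix p j = ((p : ℂ)⁻¹) • (f ∘ divArg p hp j) := by
  funext τ
  rw [slash_heckeMatrix_apply k hp, Pi.smul_apply, smul_eq_mul, comp_apply]
  congr 2
  ext
  rw [coe_heckeMatrix_smul hp, coe_divArg]
  push_cast
  rfl

theorem tendsto_mulArg (hp : p ≠ 0) : Tendsto (mulArg p hp) atImInfty atImInfty := by
  rw [atImInfty, tendsto_comap_iff]
  have h1 : (0 : ℝ) < p := by exact_mod_cast Nat.pos_of_ne_zero hp
  have h2 : Tendsto (fun τ : ℍ => (p : ℝ) * τ.im) (comap im atTop) atTop :=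
    (tendsto_comap).const_mul_atTop h1
  refine h2.congr fun τ => ?_
  rw [comp_apply, ← coe_im, ← coe_im, coe_mulArg]
  simp

theorem tendsto_divArg (hp : p ≠ 0) (j : ℤ) : Tendsto (divArg p hp j) atImInfty atImInfty := by
  rw [atImInfty, tendsto_comap_iff]
  have h1 : (0 : ℝ) < (p : ℝ)⁻¹ := by
    have : (0 : ℝ) < p := by exact_mod_cast Nat.pos_of_ne_zero hp
    positivity
  have h2 : Tendsto (fun τ : ℍ => (p : ℝ)⁻¹ * τ.im) (comap im atTop) atTop :=
    (tendsto_comap).const_mul_atTop h1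
  refine h2.congr fun τ => ?_
  rw [comp_apply, ← coe_im, ← coe_im, coe_divArg, div_natCast_im, add_im, intCast_im, add_zero]
  ring

theorem bdd_heckeRep [NeZero p] (hf : IsBoundedAtImInfty f) (x : OnePoint (ZMod p)) :
    IsBoundedAtImInfty (f ∣[k] heckeRep p x) := by
  have hp : p ≠ 0 := NeZero.ne p
  induction x using OnePoint.rec with
  | infty =>
    rw [heckeRep_infty, slash_heckeDiag k hp]
    exact Filter.BoundedAtFilter.smul _
      (Asymptotics.IsBigO.comp_tendsto hf (tendsto_mulArg hp))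
  | coe j =>
    rw [heckeRep_coe, slash_heckeMat k hp]
    exact Filter.BoundedAtFilter.smul _
      (Asymptotics.IsBigO.comp_tendsto hf (tendsto_divArg hp _))

theorem bdd_repT (hp : p.Prime) (hf : ∀ g : SL(2, ℤ), IsBoundedAtImInfty (f ∣[k] g))
    (x : OnePoint (ZMod p)) (g : SL(2, ℤ)) :
    IsBoundedAtImInfty ((f ∣[k] repT M p x) ∣[k] g) := by
  have : Fact p.Prime := ⟨hp⟩
  have : NeZero p := ⟨hp.ne_zero⟩
  obtain ⟨g', -, hmul⟩ := heckeRep_mul (N := 1) (p := p) hp.not_dvd_one g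
    (by simp) x
  have h1 : (f ∣[k] repT M p x) ∣[k] g =
      (f ∣[k] (twS M p x * g')) ∣[k] heckeRep p (redMatrix p g • x) := by
    show (f ∣[k] repT M p x) ∣[k] (mapGL ℝ g) = _
    rw [repT, ← SlashAction.slash_mul, mul_assoc, hmul, SlashAction.slash_mul,
      SlashAction.slash_mul, SlashAction.slash_mul]
    rfl
  rw [h1]
  exact bdd_heckeRep (hf _) _

/-- the multiplicative `T_p`: `g (p τ) ∏ f ((τ + j) / p)` -/
def NP (p : ℕ) (hp : p ≠ 0) (f g : ℍ → ℂ) : ℍ → ℂ :=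
  (g ∘ mulArg p hp) * ∏ j ∈ Finset.range p, (f ∘ divArg p hp j)

theorem NP_pow (hp : p ≠ 0) (f g : ℍ → ℂ) (n : ℕ) : NP p hp f g ^ n = NP p hp (f ^ n) (g ^ n) := by
  rw [NP, NP, mul_pow, ← Finset.prod_pow]
  rfl

theorem NP_smul (hp : p ≠ 0) (f g : ℍ → ℂ) (c : ℂ) :
    NP p hp f (c • g) = c • NP p hp f g := by
  rw [NP, NP, ← smul_mul_assoc]
  rfl

theorem prod_zmod {α : Type*} [CommMonoid α] [NeZero p] (F : ℕ → α) :
    ∏ x : ZMod p, F x.val = ∏ j ∈ Finset.range p, F j := by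
  refine Finset.prod_nbij (fun x => x.val) ?_ ?_ ?_ ?_
  · intro x _
    exact Finset.mem_range.2 (ZMod.val_lt x)
  · intro x _ y _ h
    exact ZMod.val_injective p h
  · intro j hj
    have hj' : j < p := by simpa using hj
    exact ⟨(j : ZMod p), by simp, ZMod.val_cast_of_lt hj'⟩
  · intro x _
    rfl

theorem nrm_sysT (hp : p.Prime) (hpM : ¬ p ∣ M) (k : ℤ) (f : ℍ → ℂ) :
    ∃ c : ℂ, c ≠ 0 ∧ nrm (sysT M p hp hpM) k f = c • NP p hp.ne_zero f (f ∣[k] sig M p) := by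
  have : Fact p.Prime := ⟨hp⟩
  have : NeZero p := ⟨hp.ne_zero⟩
  have hp' : (p : ℂ) ≠ 0 := by exact_mod_cast hp.ne_zero
  refine ⟨(p : ℂ) ^ (k - 1) * ((p : ℂ)⁻¹) ^ p, ?_, ?_⟩
  · exact mul_ne_zero (zpow_ne_zero _ hp') (pow_ne_zero _ (inv_ne_zero hp'))
  have h1 : nrm (sysT M p hp hpM) k f = (f ∣[k] repT M p OnePoint.infty) *
      ∏ x : ZMod p, f ∣[k] repT M p (x : OnePoint (ZMod p)) :=
    Fintype.prod_option (fun x : OnePoint (ZMod p) => f ∣[k] repT M p x)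
  have h2 : f ∣[k] repT M p OnePoint.infty =
      ((p : ℂ) ^ (k - 1)) • ((f ∣[k] sig M p) ∘ mulArg p hp.ne_zero) := by
    rw [repT_infty, SlashAction.slash_mul, slash_heckeDiag k hp.ne_zero]
    rfl
  have h3 : ∏ x : ZMod p, f ∣[k] repT M p (x : OnePoint (ZMod p)) =
      ∏ j ∈ Finset.range p, ((p : ℂ)⁻¹) • (f ∘ divArg p hp.ne_zero j) := by
    rw [← prod_zmod (fun j => ((p : ℂ)⁻¹) • (f ∘ divArg p hp.ne_zero j))]
    refine Finset.prod_congr rfl fun x _ => ?_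
    rw [repT_coe, slash_heckeMat k hp.ne_zero]
  rw [h1, h2, h3, NP]
  funext τ
  simp only [Pi.mul_apply, Pi.smul_apply, Finset.prod_apply, smul_eq_mul,
    Finset.prod_mul_distrib, Finset.prod_const, Finset.card_range]
  ring

theorem isTw_NP (hp : p.Prime) (hpM : ¬ p ∣ M) {χ : Gamma1 M →* ℂˣ} (hf : IsTw (Gamma1 M) χ k f) :
    IsTw (Gamma1 M) (hChar (sysT M p hp hpM) χ) (((p + 1 : ℕ) : ℤ) * k)
      (NP p hp.ne_zero f (f ∣[k] sig M p)) := by
  have : Fact p.Prime := ⟨hp⟩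
  have : NeZero p := ⟨hp.ne_zero⟩
  have h1 := isTw_nrm (sysT M p hp hpM) hf (fun i g => bdd_repT hp hf.bdd i g)
  obtain ⟨c, hc, h2⟩ := nrm_sysT hp hpM k f
  rw [h2] at h1
  have h3 := h1.smul c⁻¹
  rw [smul_smul, inv_mul_cancel₀ hc, one_smul] at h3
  refine h3.weight_eq ?_
  congr 2
  show Fintype.card (OnePoint (ZMod p)) = p + 1
  rw [show Fintype.card (OnePoint (ZMod p)) = Fintype.card (Option (ZMod p)) from rfl,
    Fintype.card_option, ZMod.card]

end Fermat.Agent.H22.Tw
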