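import Fermat.Agent.H22TwHecke

/-!
# `q`-expansions of the multiplicative Hecke operator
-/

set_option autoImplicit false

open Filter Topology Complex UpperHalfPlane Function CongruenceSubgroup ModularForm
open scoped Manifold MatrixGroups ModularForm

noncomputable section

namespace Fermat.Agent.H22.Tw

open Polynomial (nthRootsFinset mem_nthRootsFinset)

section algebra

variable {S T κ : Type*} [CommRing S] [IsDomain S] [CommRing T] [IsDomain T] {p : ℕ}

/-- all `p`-th roots of unity are present -/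
def HasRoots (S : Type*) [CommRing S] [IsDomain S] (p : ℕ) : Prop :=
  (nthRootsFinset p (1 : S)).card = p

/-- the relation between the `q`-expansions `P` of `f`, `Q` of `g` and `R` of `NP p f g` -/
def IsNP (p : ℕ) (hp : p ≠ 0) (P Q R : PowerSeries S) : Prop :=
  R.expand p hp = (Q.expand p hp).expand p hp *
    ∏ ζ ∈ nthRootsFinset p (1 : S), PowerSeries.rescale ζ P

theorem expand_injective (p : ℕ) (hp : p ≠ 0) :
    Function.Injective (PowerSeries.expand (R := S) p hp) := by
  intro P Q h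
  ext i
  have h1 := congrArg (PowerSeries.coeff (p * i)) h
  rwa [PowerSeries.coeff_expand_mul, PowerSeries.coeff_expand_mul] at h1

omit [IsDomain S] [IsDomain T] in
theorem map_injective' (φ : S →+* T) (hφ : Function.Injective φ) :
    Function.Injective (PowerSeries.map φ) := by
  intro P Q hPQ
  ext i
  have := congrArg (PowerSeries.coeff i) hPQ
  rw [PowerSeries.coeff_map, PowerSeries.coeff_map] at this
  exact hφ this

theorem card_nthRootsFinset_le (S : Type*) [CommRing S] [IsDomain S] (p : ℕ) :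
    (nthRootsFinset p (1 : S)).card ≤ p := by
  classical
  rw [Polynomial.nthRootsFinset_def]
  exact (Multiset.toFinset_card_le _).trans (Polynomial.card_nthRoots p 1)

theorem image_roots [DecidableEq T] (φ : S →+* T) (hφ : Function.Injective φ) (hp : p ≠ 0)
    (hS : HasRoots S p) :
    (nthRootsFinset p (1 : S)).image φ = nthRootsFinset p (1 : T) := by
  apply Finset.eq_of_subset_of_card_le
  · intro x hx
    obtain ⟨y, hy, rfl⟩ := Finset.mem_image.1 hx
    rw [mem_nthRootsFinset (Nat.pos_of_ne_zero hp)] at hy ⊢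
    rw [← map_pow, hy, map_one]
  · rw [Finset.card_image_of_injective _ hφ, hS]
    exact card_nthRootsFinset_le T p

theorem map_prod_rescale (φ : S →+* T) (hφ : Function.Injective φ) (hp : p ≠ 0)
    (hS : HasRoots S p) (P : PowerSeries S) :
    PowerSeries.map φ (∏ ζ ∈ nthRootsFinset p (1 : S), PowerSeries.rescale ζ P) =
      ∏ ζ ∈ nthRootsFinset p (1 : T), PowerSeries.rescale ζ (P.map φ) := by
  classical
  rw [← image_roots φ hφ hp hS, Finset.prod_image fun a _ b _ h => hφ h, map_prod]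
  refine Finset.prod_congr rfl fun ζ _ => ?_
  rw [← PowerSeries.rescale_map]

theorem IsNP.map_iff (φ : S →+* T) (hφ : Function.Injective φ) (hp : p ≠ 0)
    (hS : HasRoots S p) {P Q R : PowerSeries S} :
    IsNP p hp (P.map φ) (Q.map φ) (R.map φ) ↔ IsNP p hp P Q R := by
  rw [IsNP, IsNP, ← map_prod_rescale φ hφ hp hS, ← PowerSeries.map_expand,
    ← PowerSeries.map_expand, ← PowerSeries.map_expand, ← map_mul]
  exact (map_injective' φ hφ).eq_iff

theorem IsNP.unique (hp : p ≠ 0) {P Q R R' : PowerSeries S} (h : IsNP p hp P Q R)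
    (h' : IsNP p hp P Q R') : R = R' :=
  expand_injective p hp (h.trans h'.symm)

/-- descent of `IsNP` -/
theorem IsNP.descend (φ : S →+* T) (hφ : Function.Injective φ) (hp : p ≠ 0)
    (hS : HasRoots S p) {P Q : PowerSeries S} {R : PowerSeries T}
    (h : IsNP p hp (P.map φ) (Q.map φ) R) :
    ∃ R' : PowerSeries S, R = R'.map φ ∧ IsNP p hp P Q R' := by
  have h1 : R.expand p hp = PowerSeries.map φ ((Q.expand p hp).expand p hp *
      ∏ ζ ∈ nthRootsFinset p (1 : S), PowerSeries.rescale ζ P) := by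
    rw [map_mul, map_prod_rescale φ hφ hp hS, PowerSeries.map_expand, PowerSeries.map_expand]
    exact h
  set W := (Q.expand p hp).expand p hp *
      ∏ ζ ∈ nthRootsFinset p (1 : S), PowerSeries.rescale ζ P with hW
  have h2 : R = (PowerSeries.mk fun i => W.coeff (p * i)).map φ := by
    ext i
    rw [PowerSeries.coeff_map, PowerSeries.coeff_mk, ← PowerSeries.coeff_map, ← h1,
      PowerSeries.coeff_expand_mul]
  refine ⟨_, h2, ?_⟩
  rw [h2] at h
  exact (IsNP.map_iff φ hφ hp hS).1 h

/-- reduction modulo a prime above `p` -/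
theorem IsNP.reduce [Field κ] [CharP κ p] [Fact p.Prime] (ρ : S →+* κ) (hp : p ≠ 0)
    (hS : HasRoots S p) {P Q R : PowerSeries S} (h : IsNP p hp P Q R) :
    R.map ρ = (Q.map ρ).expand p hp * (P.map ρ).map (frobenius κ p) := by
  apply expand_injective p hp
  have h1 : ∀ ζ ∈ nthRootsFinset p (1 : S), ρ ζ = 1 := by
    intro ζ hζ
    rw [mem_nthRootsFinset (Nat.pos_of_ne_zero hp)] at hζ
    have h2 : (ρ ζ) ^ p = 1 := by rw [← map_pow, hζ, map_one]
    have h3 : (ρ ζ - 1) ^ p = 0 := by rw [sub_pow_char, h2, one_pow, sub_self]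
    exact sub_eq_zero.1 (eq_zero_of_pow_eq_zero h3)
  have h4 := congrArg (PowerSeries.map ρ) h
  rw [map_mul, map_prod, PowerSeries.map_expand, PowerSeries.map_expand,
    PowerSeries.map_expand] at h4
  have h5 : ∏ ζ ∈ nthRootsFinset p (1 : S), PowerSeries.map ρ (PowerSeries.rescale ζ P) =
      (P.map ρ) ^ p := by
    rw [Finset.prod_congr rfl fun ζ hζ => by
      rw [← PowerSeries.rescale_map, h1 ζ hζ, PowerSeries.rescale_one, RingHom.id_apply]]
    rw [Finset.prod_const, hS]
  rw [h4, h5, map_mul]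
  congr 1
  have h6 := MvPowerSeries.map_frobenius_expand (σ := Unit) (R := κ) (p := p) hp
    (f := P.map ρ)
  rw [← PowerSeries.map_expand]
  exact h6.symm

end algebra

theorem hasRoots_complex {p : ℕ} (hp : p ≠ 0) : HasRoots ℂ p :=
  (Complex.isPrimitiveRoot_exp p hp).card_nthRootsFinset

theorem prod_rootU {p : ℕ} (hp : p ≠ 0) {α : Type*} [CommMonoid α] (F : ℂ → α) :
    ∏ j ∈ Finset.range p, F (rootU p (j : ℕ)) = ∏ ζ ∈ nthRootsFinset p (1 : ℂ), F ζ := by
  classical
  have h0 : IsPrimitiveRoot (rootU p 1) p := by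
    have := Complex.isPrimitiveRoot_exp p hp
    rwa [rootU, Int.cast_one, mul_one]
  have h1 : ∀ j : ℕ, rootU p (j : ℕ) = rootU p 1 ^ j := by
    intro j
    rw [rootU, rootU, ← Complex.exp_nat_mul]
    congr 1
    push_cast
    ring
  have h2 : (Finset.range p).image (fun j : ℕ => rootU p (j : ℕ)) = nthRootsFinset p (1 : ℂ) := by
    apply Finset.eq_of_subset_of_card_le
    · intro x hx
      obtain ⟨j, hj, rfl⟩ := Finset.mem_image.1 hx
      rw [mem_nthRootsFinset (Nat.pos_of_ne_zero hp), h1, ← pow_mul, mul_comm, pow_mul,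
        h0.pow_eq_one, one_pow]
    · rw [hasRoots_complex hp, Finset.card_image_of_injOn, Finset.card_range]
      intro a ha b hb hab
      simp only [h1] at hab
      exact h0.pow_inj (by simpa using ha) (by simpa using hb) hab
  rw [← h2, Finset.prod_image]
  intro a ha b hb hab
  simp only [h1] at hab
  exact h0.pow_inj (by simpa using ha) (by simpa using hb) hab

variable {p : ℕ} {f g f' g' : ℍ → ℂ} {P Q R : PowerSeries ℂ}

theorem isQ_NP_aux (hp : p ≠ 0) (hf : IsQ 1 f P) (hg : IsQ 1 g Q) :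
    IsQ (p * 1) (NP p hp f g) ((Q.expand p hp).expand p hp *
      ∏ ζ ∈ nthRootsFinset p (1 : ℂ), PowerSeries.rescale ζ P) := by
  have hp' : (0 : ℝ) < p := by exact_mod_cast Nat.pos_of_ne_zero hp
  have h1 : IsQ (p * 1) (g ∘ mulArg p hp) ((Q.expand p hp).expand p hp) :=
    (hg.comp_mulArg hp).expand hp
  have h2 : IsQ (p * 1) (∏ j ∈ Finset.range p, (f ∘ divArg p hp j))
      (∏ j ∈ Finset.range p, PowerSeries.rescale (rootU p (j : ℕ)) P) := by
    refine IsQ.prod _ (by rw [mul_one]; exact hp') fun j _ => ?_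
    rw [mul_one]
    exact hf.comp_divArg hp j
  rw [prod_rootU hp (fun ζ => PowerSeries.rescale ζ P)] at h2
  exact h1.mul h2

theorem IsQ.of_NP (hp : p ≠ 0) (hf : IsQ 1 f P) (hg : IsQ 1 g Q) (hR : IsNP p hp P Q R) :
    IsQ 1 (NP p hp f g) R :=
  IsQ.of_expand hp one_pos (by rw [hR]; exact isQ_NP_aux hp hf hg)

theorem IsQ.exists_NP (hp : p ≠ 0) (hf : IsQ 1 f P) (hg : IsQ 1 g Q)
    (hper : Function.Periodic (NP p hp f g ∘ ofComplex) (1 : ℝ)) :
    ∃ R, IsQ 1 (NP p hp f g) R ∧ IsNP p hp P Q R := by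
  obtain ⟨R, h1, h2⟩ := IsQ.exists_expand hp one_pos (isQ_NP_aux hp hf hg) hper
  exact ⟨R, h1, h2.symm⟩

theorem IsConj.NP {σ : ℂ →+* ℂ} (hp : p ≠ 0) (hf : IsConj σ f f') (hg : IsConj σ g g')
    (hper : Function.Periodic (Tw.NP p hp f g ∘ ofComplex) (1 : ℝ)) :
    IsConj σ (Tw.NP p hp f g) (Tw.NP p hp f' g') := by
  obtain ⟨P, h1, h2⟩ := hf
  obtain ⟨Q, h3, h4⟩ := hg
  obtain ⟨R, h5, h6⟩ := IsQ.exists_NP hp h1 h3 hper
  exact ⟨R, h5, h2.of_NP hp h4
    ((IsNP.map_iff σ σ.injective hp (hasRoots_complex hp)).2 h6)⟩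

end Fermat.Agent.H22.Tw
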