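import Mathlib

/-!
# `q`-expansions of functions on the upper half plane

`IsQ h f P`: `f` is holomorphic on `ℍ`, `h`-periodic, bounded at `i∞`, with `q_h`-expansion `P`.
-/

set_option autoImplicit false

open Filter Topology Complex UpperHalfPlane Function
open scoped Manifold MatrixGroups ModularForm

noncomputable section

namespace Fermat.Agent.H22.Tw

local notation "𝕢" => Function.Periodic.qParam

/-- `f` is holomorphic, `h`-periodic, bounded at `i∞` and has `q`-expansion `P`. -/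
structure IsQ (h : ℝ) (f : ℍ → ℂ) (P : PowerSeries ℂ) : Prop where
  pos : 0 < h
  per : Function.Periodic (f ∘ ofComplex) h
  holo : MDiff f
  bdd : IsBoundedAtImInfty f
  eq : qExpansion h f = P

variable {h : ℝ} {f g : ℍ → ℂ} {P Q : PowerSeries ℂ}

theorem IsQ.analytic (hf : IsQ h f P) : AnalyticAt ℂ (cuspFunction h f) 0 :=
  analyticAt_cuspFunction_zero hf.pos hf.per hf.holo hf.bdd

theorem IsQ.hasSum (hf : IsQ h f P) (τ : ℍ) :
    HasSum (fun m : ℕ => P.coeff m * 𝕢 h τ ^ m) (f τ) := by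
  have := hasSum_qExpansion hf.pos hf.per hf.holo hf.bdd τ
  rw [hf.eq] at this
  simpa [smul_eq_mul] using this

theorem IsQ.unique (hf : IsQ h f P) (hg : IsQ h f Q) : P = Q := by rw [← hf.eq, hg.eq]

theorem IsQ.ext (hf : IsQ h f P) (hg : IsQ h g P) : f = g := by
  funext τ
  exact (hf.hasSum τ).unique (hg.hasSum τ)

theorem periodic_of_forall {h : ℝ} {f : ℍ → ℂ} (hf : ∀ τ : ℍ, f (h +ᵥ τ) = f τ) :
    Function.Periodic (f ∘ ofComplex) h := by
  intro w
  by_cases! hw : 0 < im w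
  · have h1 : 0 < im (w + h) := by simp [hw]
    simp only [comp_apply, ofComplex_apply_of_im_pos h1, ofComplex_apply_of_im_pos hw]
    rw [← hf ⟨w, hw⟩]
    congr 1
    ext
    simp [add_comm]
  · have h1 : im (w + h) ≤ 0 := by simpa using hw
    simp [ofComplex_apply_of_im_nonpos h1, ofComplex_apply_of_im_nonpos hw]

theorem forall_of_periodic {h : ℝ} {f : ℍ → ℂ} (hf : Function.Periodic (f ∘ ofComplex) h)
    (τ : ℍ) : f (h +ᵥ τ) = f τ := by
  have h1 := hf (τ : ℂ)
  have h2 : (τ : ℂ) + h = ((h +ᵥ τ : ℍ) : ℂ) := by simp [add_comm]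
  rw [h2, comp_apply, comp_apply, ofComplex_apply, ofComplex_apply] at h1
  exact h1

theorem qParam_vadd (hh : h ≠ 0) (τ : ℍ) : 𝕢 h ((h +ᵥ τ : ℍ) : ℂ) = 𝕢 h τ := by
  have h1 : ((h +ᵥ τ : ℍ) : ℂ) = (τ : ℂ) + h := by simp [add_comm]
  have h2 : (h : ℂ) ≠ 0 := by exact_mod_cast hh
  rw [h1, Function.Periodic.qParam, Function.Periodic.qParam,
    show 2 * (Real.pi : ℂ) * Complex.I * ((τ : ℂ) + h) / h =
      2 * (Real.pi : ℂ) * Complex.I * (τ : ℂ) / h + 2 * Real.pi * Complex.I by field_simp,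
    Complex.exp_add, Complex.exp_two_pi_mul_I, mul_one]

theorem IsQ.of_hasSum {c : ℕ → ℂ} (hh : 0 < h) (hholo : MDiff f)
    (hs : ∀ τ : ℍ, HasSum (fun m : ℕ => c m * 𝕢 h τ ^ m) (f τ)) :
    IsQ h f (PowerSeries.mk c) := by
  have hper : Function.Periodic (f ∘ ofComplex) h := by
    refine periodic_of_forall fun τ => ?_
    have h1 := hs (h +ᵥ τ)
    rw [qParam_vadd hh.ne'] at h1
    exact h1.unique (hs τ)
  have hb : IsBoundedAtImInfty f :=
    isBoundedAtImInfty_of_hasSum_qExpansion hh (c := c) (by simpa [smul_eq_mul] using hs)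
  refine ⟨hh, hper, hholo, hb, ?_⟩
  ext m
  rw [PowerSeries.coeff_mk]
  have han := analyticAt_cuspFunction_zero hh hper hholo hb
  have hs' : ∀ τ : ℍ, HasSum (fun m : ℕ => c m • 𝕢 h τ ^ m) (f τ) := by
    simpa [smul_eq_mul] using hs
  have h1 := (hasFPowerSeriesOnBall_cuspFunction hh han hs').hasFPowerSeriesAt
  have h2 := han.hasFPowerSeriesAt
  have h3 := congr_arg (FormalMultilinearSeries.coeff · m) (h1.eq_formalMultilinearSeries h2)
  simp only [FormalMultilinearSeries.coeff_ofScalars] at h3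
  rw [qExpansion_coeff, h3]
  ring

theorem IsQ.of_hasSum' (hh : 0 < h) (hholo : MDiff f)
    (hs : ∀ τ : ℍ, HasSum (fun m : ℕ => P.coeff m * 𝕢 h τ ^ m) (f τ)) :
    IsQ h f P := by
  have := IsQ.of_hasSum hh hholo hs
  convert this
  ext m
  simp

theorem IsQ.congr (hf : IsQ h f P) (hP : P = Q) : IsQ h f Q := hP ▸ hf

theorem IsQ.add (hf : IsQ h f P) (hg : IsQ h g Q) : IsQ h (f + g) (P + Q) where
  pos := hf.pos
  per := by
    have := hf.per.add hg.per
    exact this
  holo := hf.holo.add hg.holo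
  bdd := hf.bdd.add hg.bdd
  eq := by rw [qExpansion_add hf.analytic hg.analytic, hf.eq, hg.eq]

theorem IsQ.mul (hf : IsQ h f P) (hg : IsQ h g Q) : IsQ h (f * g) (P * Q) where
  pos := hf.pos
  per := by
    have := hf.per.mul hg.per
    exact this
  holo := hf.holo.mul hg.holo
  bdd := hf.bdd.mul hg.bdd
  eq := by rw [qExpansion_mul hf.analytic hg.analytic, hf.eq, hg.eq]

theorem IsQ.smul (hf : IsQ h f P) (a : ℂ) : IsQ h (a • f) (a • P) where
  pos := hf.pos
  per := by
    intro z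
    have := hf.per z
    simp only [comp_apply, Pi.smul_apply] at this ⊢
    rw [this]
  holo := hf.holo.const_smul a
  bdd := hf.bdd.smul a
  eq := by rw [qExpansion_smul hf.analytic, hf.eq]

theorem isQ_one (hh : 0 < h) : IsQ h 1 1 where
  pos := hh
  per := fun _ => rfl
  holo := mdifferentiable_const
  bdd := Filter.const_boundedAtFilter _ 1
  eq := qExpansion_one h

theorem isQ_zero (hh : 0 < h) : IsQ h 0 0 where
  pos := hh
  per := fun _ => rfl
  holo := mdifferentiable_const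
  bdd := Filter.const_boundedAtFilter _ 0
  eq := qExpansion_zero h

theorem IsQ.pow (hf : IsQ h f P) (n : ℕ) : IsQ h (f ^ n) (P ^ n) := by
  induction n with
  | zero => simpa using isQ_one hf.pos
  | succ n ih => rw [pow_succ, pow_succ]; exact ih.mul hf

theorem IsQ.neg (hf : IsQ h f P) : IsQ h (-f) (-P) := by
  simpa using hf.smul (-1)

theorem IsQ.sub (hf : IsQ h f P) (hg : IsQ h g Q) : IsQ h (f - g) (P - Q) := by
  simpa [sub_eq_add_neg] using hf.add hg.neg

theorem IsQ.sum {ι : Type*} (s : Finset ι) {F : ι → ℍ → ℂ} {R : ι → PowerSeries ℂ} (hh : 0 < h)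
    (hF : ∀ i ∈ s, IsQ h (F i) (R i)) : IsQ h (∑ i ∈ s, F i) (∑ i ∈ s, R i) := by
  classical
  induction s using Finset.induction_on with
  | empty => simpa using isQ_zero hh
  | insert a s ha ih =>
    rw [Finset.sum_insert ha, Finset.sum_insert ha]
    exact (hF a (Finset.mem_insert_self a s)).add
      (ih fun i hi => hF i (Finset.mem_insert_of_mem hi))

theorem IsQ.prod {ι : Type*} (s : Finset ι) {F : ι → ℍ → ℂ} {R : ι → PowerSeries ℂ} (hh : 0 < h)
    (hF : ∀ i ∈ s, IsQ h (F i) (R i)) : IsQ h (∏ i ∈ s, F i) (∏ i ∈ s, R i) := by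
  classical
  induction s using Finset.induction_on with
  | empty => simpa using isQ_one hh
  | insert a s ha ih =>
    rw [Finset.prod_insert ha, Finset.prod_insert ha]
    exact (hF a (Finset.mem_insert_self a s)).mul
      (ih fun i hi => hF i (Finset.mem_insert_of_mem hi))

theorem IsQ.eq_zero_iff (hf : IsQ h f P) : f = 0 ↔ P = 0 := by
  rw [← hf.eq, qExpansion_eq_zero_iff hf.pos hf.per hf.holo hf.bdd]

/-- the value at `i∞` -/
theorem IsQ.tendsto (hf : IsQ h f P) : Tendsto f atImInfty (𝓝 (P.coeff 0)) := by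
  have h1 : (cuspFunction h f ∘ fun τ : ℍ ↦ 𝕢 h τ : ℍ → ℂ) = f := by
    funext τ
    simpa using eq_cuspFunction τ hf.pos.ne' hf.per
  have h2 := hf.analytic.continuousAt.tendsto.comp (qParam_tendsto_atImInfty hf.pos)
  have h3 : Tendsto f atImInfty (𝓝 (cuspFunction h f 0)) := by
    have h4 := h2
    conv at h4 => enter [1]; rw [h1]
    exact h4
  have h4 : P.coeff 0 = cuspFunction h f 0 := by
    rw [← hf.eq, qExpansion_coeff]
    simp
  rw [h4]
  exact h3

/-- from a function with a series, to the width `n * h` -/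
theorem IsQ.expand (hf : IsQ h f P) {n : ℕ} (hn : n ≠ 0) : IsQ (n * h) f (P.expand n hn) := by
  have hn' : (0 : ℝ) < n := by exact_mod_cast Nat.pos_of_ne_zero hn
  refine IsQ.of_hasSum' (mul_pos hn' hf.pos) hf.holo fun τ => ?_
  have h1 := hf.hasSum τ
  have hq : 𝕢 h τ = 𝕢 (n * h) τ ^ n := by
    simp only [Function.Periodic.qParam]
    rw [← Complex.exp_nat_mul]
    congr 1
    have h2 : (h : ℂ) ≠ 0 := by exact_mod_cast hf.pos.ne'
    have h3 : (n : ℂ) ≠ 0 := by exact_mod_cast hn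
    push_cast
    field_simp
  have hinj : Function.Injective (fun m : ℕ => n * m) := fun a b hab =>
    Nat.eq_of_mul_eq_mul_left (Nat.pos_of_ne_zero hn) hab
  have h2 : HasSum ((fun m : ℕ => (P.expand n hn).coeff m * 𝕢 (n * h) τ ^ m) ∘
      (fun m : ℕ => n * m)) (f τ) := by
    convert h1 using 1
    funext m
    simp only [comp_apply, PowerSeries.coeff_expand_mul]
    rw [hq, ← pow_mul]
  refine (hinj.hasSum_iff ?_).1 h2
  intro m hm
  rw [PowerSeries.coeff_expand_of_not_dvd n hn, zero_mul]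
  rintro ⟨c, rfl⟩
  exact hm ⟨c, rfl⟩

/-- the substitution `τ ↦ n τ` -/
def mulArg (n : ℕ) (hn : n ≠ 0) (τ : ℍ) : ℍ :=
  ⟨n * (τ : ℂ), by
    have h1 : (0 : ℝ) < n := by exact_mod_cast Nat.pos_of_ne_zero hn
    have h2 := τ.im_pos
    simp only [mul_im, natCast_re, natCast_im, zero_mul, add_zero]
    positivity⟩

/-- the substitution `τ ↦ (τ + i) / n` -/
def divArg (n : ℕ) (hn : n ≠ 0) (i : ℤ) (τ : ℍ) : ℍ :=
  ⟨((τ : ℂ) + i) / n, by
    have h1 : (0 : ℝ) < n := by exact_mod_cast Nat.pos_of_ne_zero hn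
    have h2 := τ.im_pos
    rw [div_natCast_im, add_im, intCast_im, add_zero]
    positivity⟩

theorem coe_mulArg {n : ℕ} (hn : n ≠ 0) (τ : ℍ) : ((mulArg n hn τ : ℍ) : ℂ) = n * τ := rfl

theorem coe_divArg {n : ℕ} (hn : n ≠ 0) (i : ℤ) (τ : ℍ) :
    ((divArg n hn i τ : ℍ) : ℂ) = (τ + i) / n := rfl

theorem mdiff_comp_mulArg {n : ℕ} (hn : n ≠ 0) (hf : MDiff f) : MDiff (f ∘ mulArg n hn) := by
  rw [mdifferentiable_iff] at hf ⊢
  have h1 : (0 : ℝ) < n := by exact_mod_cast Nat.pos_of_ne_zero hn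
  have h2 : DifferentiableOn ℂ ((f ∘ ofComplex) ∘ fun z : ℂ => n * z) {z | 0 < z.im} := by
    refine hf.comp (by fun_prop) fun z hz => ?_
    simp only [Set.mem_ofPred_eq, mul_im, natCast_re, natCast_im, zero_mul, add_zero] at hz ⊢
    positivity
  refine h2.congr fun z hz => ?_
  have h3 : 0 < ((n : ℂ) * z).im := by
    simp only [Set.mem_ofPred_eq, mul_im, natCast_re, natCast_im, zero_mul, add_zero] at hz ⊢
    positivity
  simp only [comp_apply, ofComplex_apply_of_im_pos hz, ofComplex_apply_of_im_pos h3]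
  rfl

theorem mdiff_comp_divArg {n : ℕ} (hn : n ≠ 0) (i : ℤ) (hf : MDiff f) :
    MDiff (f ∘ divArg n hn i) := by
  rw [mdifferentiable_iff] at hf ⊢
  have h1 : (0 : ℝ) < n := by exact_mod_cast Nat.pos_of_ne_zero hn
  have h2 : DifferentiableOn ℂ ((f ∘ ofComplex) ∘ fun z : ℂ => (z + i) / n) {z | 0 < z.im} := by
    refine hf.comp (by fun_prop) fun z hz => ?_
    simp only [Set.mem_ofPred_eq, div_natCast_im, add_im, intCast_im, add_zero] at hz ⊢
    positivity
  refine h2.congr fun z hz => ?_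
  have h3 : 0 < ((z + i) / (n : ℂ)).im := by
    simp only [Set.mem_ofPred_eq, div_natCast_im, add_im, intCast_im, add_zero] at hz ⊢
    positivity
  simp only [comp_apply, ofComplex_apply_of_im_pos hz, ofComplex_apply_of_im_pos h3]
  rfl

theorem IsQ.comp_mulArg (hf : IsQ h f P) {n : ℕ} (hn : n ≠ 0) :
    IsQ h (f ∘ mulArg n hn) (P.expand n hn) := by
  refine IsQ.of_hasSum' hf.pos (mdiff_comp_mulArg hn hf.holo) fun τ => ?_
  have h1 := hf.hasSum (mulArg n hn τ)
  have hq : 𝕢 h (mulArg n hn τ : ℍ) = 𝕢 h τ ^ n := by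
    simp only [Function.Periodic.qParam, coe_mulArg]
    rw [← Complex.exp_nat_mul]
    congr 1
    ring
  have hinj : Function.Injective (fun m : ℕ => n * m) := fun a b hab =>
    Nat.eq_of_mul_eq_mul_left (Nat.pos_of_ne_zero hn) hab
  have h2 : HasSum ((fun m : ℕ => (P.expand n hn).coeff m * 𝕢 h τ ^ m) ∘
      (fun m : ℕ => n * m)) (f (mulArg n hn τ)) := by
    convert h1 using 1
    funext m
    simp only [comp_apply, PowerSeries.coeff_expand_mul]
    rw [hq, ← pow_mul]
  refine (hinj.hasSum_iff ?_).1 h2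
  intro m hm
  rw [PowerSeries.coeff_expand_of_not_dvd n hn, zero_mul]
  rintro ⟨c, rfl⟩
  exact hm ⟨c, rfl⟩

/-- the root of unity `exp (2 π i j / n)` -/
def rootU (n : ℕ) (j : ℤ) : ℂ := Complex.exp (2 * Real.pi * Complex.I * j / n)

theorem IsQ.comp_divArg (hf : IsQ 1 f P) {n : ℕ} (hn : n ≠ 0) (i : ℤ) :
    IsQ n (f ∘ divArg n hn i) (P.rescale (rootU n i)) := by
  have hn' : (0 : ℝ) < n := by exact_mod_cast Nat.pos_of_ne_zero hn
  refine IsQ.of_hasSum' hn' (mdiff_comp_divArg hn i hf.holo) fun τ => ?_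
  have h1 := hf.hasSum (divArg n hn i τ)
  have hq : 𝕢 1 (divArg n hn i τ : ℍ) = rootU n i * 𝕢 n τ := by
    simp only [Function.Periodic.qParam, coe_divArg, rootU]
    rw [← Complex.exp_add]
    congr 1
    have h2 : (n : ℂ) ≠ 0 := by exact_mod_cast hn
    push_cast
    field_simp
    ring
  show HasSum _ (f (divArg n hn i τ))
  convert h1 using 1
  funext m
  rw [PowerSeries.coeff_rescale, hq, mul_pow]
  ring

/-- reverse of `IsQ.expand` -/
theorem IsQ.of_expand {n : ℕ} (hn : n ≠ 0) (hh : 0 < h) (hf : IsQ (n * h) f (P.expand n hn)) :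
    IsQ h f P := by
  refine IsQ.of_hasSum' hh hf.holo fun τ => ?_
  have h1 := hf.hasSum τ
  have hq : 𝕢 h τ = 𝕢 (n * h) τ ^ n := by
    simp only [Function.Periodic.qParam]
    rw [← Complex.exp_nat_mul]
    congr 1
    have h2 : (h : ℂ) ≠ 0 := by exact_mod_cast hh.ne'
    have h3 : (n : ℂ) ≠ 0 := by exact_mod_cast hn
    push_cast
    field_simp
  have hinj : Function.Injective (fun m : ℕ => n * m) := fun a b hab =>
    Nat.eq_of_mul_eq_mul_left (Nat.pos_of_ne_zero hn) hab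
  have h2 := (hinj.hasSum_iff (f := fun m : ℕ => (P.expand n hn).coeff m * 𝕢 (n * h) τ ^ m)
    (a := f τ) (by
      intro m hm
      rw [PowerSeries.coeff_expand_of_not_dvd n hn, zero_mul]
      rintro ⟨c, rfl⟩
      exact hm ⟨c, rfl⟩)).2 h1
  convert h2 using 1
  funext m
  simp only [comp_apply, PowerSeries.coeff_expand_mul]
  rw [hq, ← pow_mul]

/-- if `f` is `n h` periodic with series `R` but already `h`-periodic, then `R = P(X^n)` -/
theorem IsQ.exists_expand {n : ℕ} (hn : n ≠ 0) (hh : 0 < h) {R : PowerSeries ℂ}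
    (hf : IsQ (n * h) f R) (hper : Function.Periodic (f ∘ ofComplex) h) :
    ∃ P : PowerSeries ℂ, IsQ h f P ∧ R = P.expand n hn := by
  have h1 : IsQ h f (qExpansion h f) := ⟨hh, hper, hf.holo, hf.bdd, rfl⟩
  exact ⟨_, h1, hf.unique (h1.expand hn)⟩

theorem IsQ.of_periodic (hh : 0 < h) (hper : Function.Periodic (f ∘ ofComplex) h)
    (hholo : MDiff f) (hb : IsBoundedAtImInfty f) : IsQ h f (qExpansion h f) :=
  ⟨hh, hper, hholo, hb, rfl⟩

end Fermat.Agent.H22.Tw
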