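import Fermat.Agent.H22ZK0b

/-!
# The Bessel function `K₀`, III: uniqueness of solutions of polynomial growth

`y² A'' - y A' + A = c² y² A` on `(0, ∞)`, `A` of polynomial growth at infinity, `c > 0`
implies `A y = D y K₀(c y)`.  For `c = 0`: `A y = y (a + b log y)`.
-/

set_option autoImplicit false

open MeasureTheory Set Real Filter Topology Asymptotics
open scoped ContDiff

noncomputable section

namespace Fermat.Agent.H22Z

/-- A function on `(0, ∞)` with derivative zero is constant. -/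
theorem eq_const_of_hasDerivAt_zero {f : ℝ → ℂ} (h : ∀ y > 0, HasDerivAt f 0 y) :
    ∀ y > 0, f y = f 1 := by
  intro y hy
  have hconv : Convex ℝ (Ioi (0 : ℝ)) := convex_Ioi 0
  have := hconv.is_const_of_fderivWithin_eq_zero (𝕜 := ℝ) (f := f)
    (fun x hx => (h x hx).differentiableAt.differentiableWithinAt) (fun x hx => by
      rw [fderivWithin_of_isOpen isOpen_Ioi hx]
      have := (h x hx).hasFDerivAt.fderiv
      rw [this]
      ext
      simp) (x := y) (y := 1) hy (by simp)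
  exact this

theorem hasDerivAt_mul_K1 {x : ℝ} (hx : 0 < x) :
    HasDerivAt (fun x => x * K1 x) (-(x * K0 x)) x := by
  have h := (hasDerivAt_id x).mul (hasDerivAt_K1 hx)
  have h2 := K0_ode hx
  refine h.congr_deriv ?_
  simp only [id]
  linarith

theorem mul_K1_le_of_le {a x : ℝ} (ha : 0 < a) (hx : a ≤ x) : x * K1 x ≤ a * K1 a := by
  have h : AntitoneOn (fun x => x * K1 x) (Ici a) := by
    refine antitoneOn_of_deriv_nonpos (convex_Ici a) ?_ ?_ ?_
    · intro y hy
      exact (hasDerivAt_mul_K1 (lt_of_lt_of_le ha hy)).continuousAt.continuousWithinAt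
    · intro y hy
      rw [interior_Ici] at hy
      exact (hasDerivAt_mul_K1 (ha.trans hy)).differentiableAt.differentiableWithinAt
    · intro y hy
      rw [interior_Ici] at hy
      have hy0 : 0 < y := ha.trans hy
      rw [(hasDerivAt_mul_K1 hy0).deriv]
      have := K0_pos hy0
      nlinarith
  exact h (mem_Ici.mpr le_rfl) hx hx

/-- `K₀(2x) ≤ e^{-x} K₀(x)` -/
theorem K0_two_mul_le {x : ℝ} (hx : 0 < x) : K0 (2 * x) ≤ exp (-x) * K0 x := by
  unfold K0
  rw [← integral_const_mul]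
  refine setIntegral_mono_on ?_ ?_ measurableSet_Ioi ?_
  · have := integrableOn_KJ 0 (a := 2 * x) (by positivity) 0
    simpa using this
  · have := integrableOn_KJ 0 (a := x) hx 0
    exact Integrable.const_mul (show IntegrableOn _ _ _ by simpa using this) _
  · intro t _
    rw [← exp_add]
    apply exp_le_exp.mpr
    have := one_le_cosh t
    nlinarith

/-- the conserved quantity -/
theorem wronskian_aux {c : ℝ} (hc : 0 < c) {u p : ℝ → ℂ}
    (hu : ∀ y > 0, HasDerivAt u (p y / y) y) (hp : ∀ y > 0, HasDerivAt p (c ^ 2 * y * u y) y) :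
    ∃ C : ℂ, ∀ y > 0, p y * K0 (c * y) + u y * ((c * y * K1 (c * y) : ℝ) : ℂ) = C := by
  refine ⟨_, eq_const_of_hasDerivAt_zero (f := fun y => p y * K0 (c * y) +
    u y * ((c * y * K1 (c * y) : ℝ) : ℂ)) ?_⟩
  intro y hy
  have hcy : 0 < c * y := mul_pos hc hy
  have hlin : HasDerivAt (fun y : ℝ => c * y) c y := by
    simpa using (hasDerivAt_id y).const_mul c
  have hk : HasDerivAt (fun y => K0 (c * y)) (-(K1 (c * y)) * c) y :=
    (hasDerivAt_K0 hcy).comp y hlin
  have hq : HasDerivAt (fun y => c * y * K1 (c * y)) (-(c * y * K0 (c * y)) * c) y := by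
    have := (hasDerivAt_mul_K1 hcy).comp y hlin
    exact this
  have h := ((hp y hy).mul hk.ofReal_comp).add ((hu y hy).mul hq.ofReal_comp)
  refine h.congr_deriv ?_
  have hy' : (y : ℂ) ≠ 0 := by exact_mod_cast hy.ne'
  push_cast
  field_simp
  ring

/-- **Uniqueness of the solution of polynomial growth**: `u' = p / y`, `p' = c² y u`. -/
theorem eq_K0_of_growth {c : ℝ} (hc : 0 < c) {u p : ℝ → ℂ}
    (hu : ∀ y > 0, HasDerivAt u (p y / y) y) (hp : ∀ y > 0, HasDerivAt p (c ^ 2 * y * u y) y)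
    {N : ℕ} (hgr : u =O[atTop] fun y => y ^ N) : ∃ D : ℂ, ∀ y > 0, u y = D * K0 (c * y) := by
  obtain ⟨C, hC⟩ := wronskian_aux hc hu hp
  have hk : ∀ y > 0, HasDerivAt (fun y => K0 (c * y)) (-(K1 (c * y)) * c) y := fun y hy =>
    (hasDerivAt_K0 (mul_pos hc hy)).comp y (by simpa using (hasDerivAt_id y).const_mul c)
  have hk0 : ∀ y > 0, 0 < K0 (c * y) := fun y hy => K0_pos (mul_pos hc hy)
  -- derivative of `v = u / k`
  have hv : ∀ y > 0, HasDerivAt (fun y => u y / K0 (c * y)) (C / (y * K0 (c * y) ^ 2)) y := by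
    intro y hy
    have hk0' : ((K0 (c * y) : ℝ) : ℂ) ≠ 0 := by exact_mod_cast (hk0 y hy).ne'
    have h := (hu y hy).div (hk y hy).ofReal_comp hk0'
    refine h.congr_deriv ?_
    have hy' : (y : ℂ) ≠ 0 := by exact_mod_cast hy.ne'
    rw [← hC y hy]
    push_cast
    field_simp
    ring
  have hC0 : C = 0 := by
    by_contra hne
    have hCn : 0 < ‖C‖ := norm_pos_iff.mpr hne
    -- real part of `v` rotated
    set φ : ℝ → ℝ := fun y => (u y / K0 (c * y) * (starRingEnd ℂ C)).re with hφ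
    have hφd : ∀ y > 0, HasDerivAt φ (‖C‖ ^ 2 / (y * K0 (c * y) ^ 2)) y := by
      intro y hy
      have h1 := (hv y hy).mul_const (starRingEnd ℂ C)
      have h2 := (Complex.reCLM.hasFDerivAt.comp_hasDerivAt y h1)
      refine h2.congr_deriv ?_
      simp only [Complex.reCLM_apply]
      have h3 : C / (y * K0 (c * y) ^ 2 : ℂ) * (starRingEnd ℂ C) =
          ((‖C‖ ^ 2 / (y * K0 (c * y) ^ 2) : ℝ) : ℂ) := by
        rw [div_mul_eq_mul_div, Complex.mul_conj, Complex.normSq_eq_norm_sq]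
        push_cast
        ring
      rw [h3, Complex.ofReal_re]
    -- key inequality
    have key : ∀ Y > 0, ‖C‖ ^ 2 / (c * Y * K1 (c * Y)) * (1 / K0 (c * (2 * Y)) - 1 / K0 (c * Y)) ≤
        φ (2 * Y) - φ Y := by
      intro Y hY
      set q := ‖C‖ ^ 2 / (c * Y * K1 (c * Y)) with hq
      have hcY : 0 < c * Y := mul_pos hc hY
      have hmono : MonotoneOn (fun y => φ y - q * (1 / K0 (c * y))) (Ici Y) := by
        have hd : ∀ y > 0, HasDerivAt (fun y => φ y - q * (1 / K0 (c * y)))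
            (‖C‖ ^ 2 / (y * K0 (c * y) ^ 2) - q * (c * K1 (c * y) / K0 (c * y) ^ 2)) y := by
          intro y hy
          have h1 : HasDerivAt (fun y => 1 / K0 (c * y)) (c * K1 (c * y) / K0 (c * y) ^ 2) y := by
            have := (hk y hy).fun_inv (hk0 y hy).ne'
            simp only [one_div]
            refine this.congr_deriv ?_
            ring
          exact (hφd y hy).sub (h1.const_mul q)
        refine monotoneOn_of_deriv_nonneg (convex_Ici Y) ?_ ?_ ?_
        · intro y hy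
          exact (hd y (lt_of_lt_of_le hY hy)).continuousAt.continuousWithinAt
        · intro y hy
          rw [interior_Ici] at hy
          exact (hd y (hY.trans hy)).differentiableAt.differentiableWithinAt
        · intro y hy
          rw [interior_Ici] at hy
          have hy0 : 0 < y := hY.trans hy
          rw [(hd y hy0).deriv]
          have h1 := mul_K1_le_of_le hcY (mul_le_mul_of_nonneg_left (le_of_lt hy) hc.le)
          have hK1 := K1_pos hcY
          have hk2 : 0 < K0 (c * y) ^ 2 := pow_pos (hk0 y hy0) 2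
          have h2 : q * (c * K1 (c * y) / K0 (c * y) ^ 2) ≤ ‖C‖ ^ 2 / (y * K0 (c * y) ^ 2) := by
            rw [hq, div_mul_div_comm, div_le_div_iff₀ (by positivity) (by positivity)]
            have h3 : c * K1 (c * y) * y ≤ c * Y * K1 (c * Y) := by nlinarith
            have h4 : 0 ≤ ‖C‖ ^ 2 * K0 (c * y) ^ 2 := by positivity
            nlinarith [mul_le_mul_of_nonneg_left h3 h4]
          linarith
      have h := hmono (mem_Ici.mpr le_rfl) (mem_Ici.mpr (by linarith : Y ≤ 2 * Y))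
        (by linarith : Y ≤ 2 * Y)
      simp only at h
      linarith
    -- upper bound of `φ`
    have hφb : ∀ y > 0, |φ y| ≤ ‖u y‖ * ‖C‖ / K0 (c * y) := by
      intro y hy
      refine (Complex.abs_re_le_norm _).trans ?_
      rw [norm_mul, norm_div, RCLike.norm_conj, Complex.norm_real, Real.norm_of_nonneg
        (hk0 y hy).le]
      rw [div_mul_eq_mul_div]
    have key2 : ∀ Y > 0, ‖C‖ * (1 - exp (-(c * Y))) ≤
        c * Y * K1 (c * Y) * (‖u (2 * Y)‖ + ‖u Y‖) := by
      intro Y hY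
      have hcY : 0 < c * Y := mul_pos hc hY
      have h2Y : 0 < 2 * Y := by linarith
      have e1 := key Y hY
      have e2 := hφb _ h2Y
      have e3 := hφb _ hY
      have hK1 := K1_pos hcY
      have hka := hk0 _ hY
      have hkb := hk0 _ h2Y
      have hle : K0 (c * (2 * Y)) ≤ exp (-(c * Y)) * K0 (c * Y) := by
        have := K0_two_mul_le hcY
        rwa [show c * (2 * Y) = 2 * (c * Y) by ring]
      have hle1 : K0 (c * (2 * Y)) ≤ K0 (c * Y) := by
        refine hle.trans ?_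
        have : exp (-(c * Y)) ≤ 1 := by
          rw [exp_le_one_iff]; linarith
        nlinarith
      have e4 : φ (2 * Y) - φ Y ≤ (‖u (2 * Y)‖ + ‖u Y‖) * ‖C‖ / K0 (c * (2 * Y)) := by
        have h1 : ‖u Y‖ * ‖C‖ / K0 (c * Y) ≤ ‖u Y‖ * ‖C‖ / K0 (c * (2 * Y)) :=
          div_le_div_of_nonneg_left (by positivity) hkb hle1
        have h2 : φ (2 * Y) - φ Y ≤ |φ (2 * Y)| + |φ Y| := by
          have := le_abs_self (φ (2 * Y))
          have := neg_le_abs (φ Y)
          linarith
        calc φ (2 * Y) - φ Y ≤ |φ (2 * Y)| + |φ Y| := h2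
          _ ≤ ‖u (2 * Y)‖ * ‖C‖ / K0 (c * (2 * Y)) + ‖u Y‖ * ‖C‖ / K0 (c * (2 * Y)) := by
            linarith
          _ = _ := by ring
      have e5 : ‖C‖ ^ 2 / (c * Y * K1 (c * Y)) * (1 / K0 (c * (2 * Y)) - 1 / K0 (c * Y)) ≤
          (‖u (2 * Y)‖ + ‖u Y‖) * ‖C‖ / K0 (c * (2 * Y)) := e1.trans e4
      have e6 : ‖C‖ ^ 2 / (c * Y * K1 (c * Y)) * ((1 - exp (-(c * Y))) / K0 (c * (2 * Y))) ≤
          (‖u (2 * Y)‖ + ‖u Y‖) * ‖C‖ / K0 (c * (2 * Y)) := by
        refine le_trans (mul_le_mul_of_nonneg_left ?_ (by positivity)) e5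
        rw [sub_div]
        have : 1 / K0 (c * Y) ≤ exp (-(c * Y)) / K0 (c * (2 * Y)) := by
          rw [div_le_div_iff₀ hka hkb]
          linarith
        linarith
      rw [mul_div_assoc', div_le_div_iff_of_pos_right hkb, div_mul_eq_mul_div,
        div_le_iff₀ (by positivity)] at e6
      have e7 : ‖C‖ * (‖C‖ * (1 - exp (-(c * Y)))) ≤
          ‖C‖ * (c * Y * K1 (c * Y) * (‖u (2 * Y)‖ + ‖u Y‖)) := by
        calc ‖C‖ * (‖C‖ * (1 - exp (-(c * Y)))) = ‖C‖ ^ 2 * (1 - exp (-(c * Y))) := by ring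
          _ ≤ _ := e6
          _ = _ := by ring
      exact le_of_mul_le_mul_left e7 hCn
    -- limits
    have hlim1 : Tendsto (fun Y : ℝ => ‖C‖ * (1 - exp (-(c * Y)))) atTop (𝓝 (‖C‖ * (1 - 0))) := by
      refine Tendsto.const_mul _ (Tendsto.const_sub _ ?_)
      exact tendsto_exp_neg_atTop_nhds_zero.comp (tendsto_id.const_mul_atTop hc)
    have hlim2 : Tendsto (fun Y : ℝ => c * Y * K1 (c * Y) * (‖u (2 * Y)‖ + ‖u Y‖)) atTop (𝓝 0) := by
      obtain ⟨M, hM⟩ := hgr.bound
      obtain ⟨K, hK0', hK⟩ := KJ_le 1 (a := 1) one_pos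
      have hK0 : 0 ≤ K := hK0'.le
      have hM2 : ∀ᶠ Y : ℝ in atTop, ‖u (2 * Y)‖ ≤ M * ‖(2 * Y) ^ N‖ :=
        (tendsto_id.const_mul_atTop (by norm_num : (0 : ℝ) < 2)).eventually hM
      have hbig : ∀ᶠ Y : ℝ in atTop, 0 < Y ∧ 1 ≤ c * Y :=
        (eventually_gt_atTop 0).and ((tendsto_id.const_mul_atTop hc).eventually
          (eventually_ge_atTop 1))
      have hupper : ∀ᶠ Y : ℝ in atTop, c * Y * K1 (c * Y) * (‖u (2 * Y)‖ + ‖u Y‖) ≤
          (K * |M| * (2 ^ N + 1) * c / c ^ (N + 1)) * ((c * Y) ^ (N + 1) * exp (-(c * Y))) := by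
        filter_upwards [hM, hM2, hbig] with Y h1 h2 ⟨h3, h4⟩
        have hcY : 0 < c * Y := mul_pos hc h3
        have h5 : ‖u (2 * Y)‖ + ‖u Y‖ ≤ |M| * (2 ^ N + 1) * Y ^ N := by
          have e1 : ‖(2 * Y) ^ N‖ = 2 ^ N * Y ^ N := by
            rw [norm_pow, Real.norm_of_nonneg (by positivity), mul_pow]
          have e2 : ‖Y ^ N‖ = Y ^ N := by rw [Real.norm_of_nonneg (by positivity)]
          rw [e1] at h2
          rw [e2] at h1
          have e3 : M * (2 ^ N * Y ^ N) ≤ |M| * (2 ^ N * Y ^ N) :=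
            mul_le_mul_of_nonneg_right (le_abs_self M) (by positivity)
          have e4 : M * Y ^ N ≤ |M| * Y ^ N :=
            mul_le_mul_of_nonneg_right (le_abs_self M) (by positivity)
          linarith
        have h6 : K1 (c * Y) ≤ K * exp (-(c * Y)) := hK _ h4
        calc c * Y * K1 (c * Y) * (‖u (2 * Y)‖ + ‖u Y‖)
            ≤ c * Y * (K * exp (-(c * Y))) * (|M| * (2 ^ N + 1) * Y ^ N) := by
              have := (K1_pos hcY).le
              gcongr
          _ = _ := by
              rw [mul_pow]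
              field_simp
              ring
      have hlim3 : Tendsto (fun Y : ℝ => (K * |M| * (2 ^ N + 1) * c / c ^ (N + 1)) *
          ((c * Y) ^ (N + 1) * exp (-(c * Y)))) atTop (𝓝 0) := by
        rw [show (0 : ℝ) = (K * |M| * (2 ^ N + 1) * c / c ^ (N + 1)) * 0 by ring]
        exact ((tendsto_pow_mul_exp_neg_atTop_nhds_zero (N + 1)).comp
          (tendsto_id.const_mul_atTop hc)).const_mul _
      refine squeeze_zero' ?_ hupper hlim3
      filter_upwards [hbig] with Y ⟨h3, h4⟩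
      have := (K1_pos (mul_pos hc h3)).le
      have := mul_pos hc h3
      positivity
    have hfin := le_of_tendsto_of_tendsto hlim1 hlim2
      ((eventually_gt_atTop 0).mono fun Y hY => key2 Y hY)
    linarith
  refine ⟨u 1 / K0 (c * 1), fun y hy => ?_⟩
  have h := eq_const_of_hasDerivAt_zero (f := fun y => u y / K0 (c * y))
    (fun y hy => by simpa [hC0] using hv y hy) y hy
  rw [← h]
  have hk0' : ((K0 (c * y) : ℝ) : ℂ) ≠ 0 := by exact_mod_cast (hk0 y hy).ne'
  field_simp

/-- **Uniqueness**, second order form. -/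
theorem eq_mul_K0_of_ode {c : ℝ} (hc : 0 < c) {A A1 A2 : ℝ → ℂ}
    (h1 : ∀ y > 0, HasDerivAt A (A1 y) y) (h2 : ∀ y > 0, HasDerivAt A1 (A2 y) y)
    (hode : ∀ y : ℝ, 0 < y → (y : ℂ) ^ 2 * (A2 y - c ^ 2 * A y) - y * A1 y = -A y)
    {N : ℕ} (hgr : A =O[atTop] fun y => y ^ N) :
    ∃ D : ℂ, ∀ y > 0, A y = D * (y * K0 (c * y)) := by
  have hu : ∀ y > 0, HasDerivAt (fun y : ℝ => A y / y) ((A1 y - A y / y) / y) y := by
    intro y hy
    have hy' : (y : ℂ) ≠ 0 := by exact_mod_cast hy.ne'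
    have h := (h1 y hy).div (hasDerivAt_id y).ofReal_comp hy'
    refine h.congr_deriv ?_
    simp only [id, Complex.ofReal_one]
    field_simp
  have hp : ∀ y > 0, HasDerivAt (fun y : ℝ => A1 y - A y / y) (c ^ 2 * y * (A y / y)) y := by
    intro y hy
    have hy' : (y : ℂ) ≠ 0 := by exact_mod_cast hy.ne'
    refine ((h2 y hy).sub (hu y hy)).congr_deriv ?_
    have := hode y hy
    field_simp
    linear_combination this
  have hgr' : (fun y : ℝ => A y / y) =O[atTop] fun y => y ^ N := by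
    refine IsBigO.trans ?_ hgr
    refine IsBigO.of_bound 1 ?_
    filter_upwards [eventually_ge_atTop 1] with y hy
    rw [norm_div, Complex.norm_real, Real.norm_of_nonneg (by linarith), one_mul]
    exact div_le_self (norm_nonneg _) hy
  obtain ⟨D, hD⟩ := eq_K0_of_growth hc hu hp hgr'
  refine ⟨D, fun y hy => ?_⟩
  have := hD y hy
  have hy' : (y : ℂ) ≠ 0 := by exact_mod_cast hy.ne'
  rw [div_eq_iff hy'] at this
  rw [this]
  ring

/-- **The case `c = 0`.** -/
theorem eq_log_of_ode {A A1 A2 : ℝ → ℂ}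
    (h1 : ∀ y > 0, HasDerivAt A (A1 y) y) (h2 : ∀ y > 0, HasDerivAt A1 (A2 y) y)
    (hode : ∀ y : ℝ, 0 < y → (y : ℂ) ^ 2 * A2 y - y * A1 y = -A y) :
    ∃ a b : ℂ, ∀ y > 0, A y = y * (a + b * log y) := by
  have hu : ∀ y > 0, HasDerivAt (fun y : ℝ => A y / y) ((A1 y - A y / y) / y) y := by
    intro y hy
    have hy' : (y : ℂ) ≠ 0 := by exact_mod_cast hy.ne'
    have h := (h1 y hy).div (hasDerivAt_id y).ofReal_comp hy'
    refine h.congr_deriv ?_
    simp only [id, Complex.ofReal_one]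
    field_simp
  have hp : ∀ y > 0, HasDerivAt (fun y : ℝ => A1 y - A y / y) 0 y := by
    intro y hy
    have hy' : (y : ℂ) ≠ 0 := by exact_mod_cast hy.ne'
    refine ((h2 y hy).sub (hu y hy)).congr_deriv ?_
    have := hode y hy
    field_simp
    linear_combination this
  have hpc := eq_const_of_hasDerivAt_zero hp
  set b : ℂ := A1 1 - A 1 / (1 : ℝ) with hb
  have hw : ∀ y > 0, HasDerivAt (fun y : ℝ => A y / y - b * log y) 0 y := by
    intro y hy
    have hy' : (y : ℂ) ≠ 0 := by exact_mod_cast hy.ne'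
    refine ((hu y hy).sub ((Real.hasDerivAt_log hy.ne').ofReal_comp.const_mul b)).congr_deriv ?_
    have h3 := hpc y hy
    rw [h3]
    push_cast
    field_simp
    ring
  have hwc := eq_const_of_hasDerivAt_zero hw
  refine ⟨A 1 / (1 : ℝ) - b * log 1, b, fun y hy => ?_⟩
  have hy' : (y : ℂ) ≠ 0 := by exact_mod_cast hy.ne'
  have h4 := hwc y hy
  rw [← h4]
  field_simp
  ring

/-- A bounded solution for `c = 0` vanishes. -/
theorem eq_zero_of_ode_of_bounded {A A1 A2 : ℝ → ℂ}
    (h1 : ∀ y > 0, HasDerivAt A (A1 y) y) (h2 : ∀ y > 0, HasDerivAt A1 (A2 y) y)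
    (hode : ∀ y : ℝ, 0 < y → (y : ℂ) ^ 2 * A2 y - y * A1 y = -A y)
    {M : ℝ} (hM : ∀ y > 0, ‖A y‖ ≤ M) : ∀ y > 0, A y = 0 := by
  obtain ⟨a, b, hab⟩ := eq_log_of_ode h1 h2 hode
  have hlim : Tendsto (fun y : ℝ => a + b * ((log y : ℝ) : ℂ)) atTop (𝓝 0) := by
    rw [tendsto_zero_iff_norm_tendsto_zero]
    refine squeeze_zero' (Eventually.of_forall fun _ => norm_nonneg _) (g := fun y => M / y) ?_
      (tendsto_const_nhds.div_atTop tendsto_id)
    filter_upwards [eventually_gt_atTop 0] with y hy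
    have h3 := hM y hy
    rw [hab y hy, norm_mul, Complex.norm_real, Real.norm_of_nonneg hy.le] at h3
    rw [le_div_iff₀ hy]
    linarith
  have hb : b = 0 := by
    have h5 : Tendsto (fun y : ℝ => (a + b * ((log y : ℝ) : ℂ)) * (((log y)⁻¹ : ℝ) : ℂ)) atTop
        (𝓝 (0 * ((0 : ℝ) : ℂ))) :=
      hlim.mul ((Complex.continuous_ofReal.tendsto 0).comp
        (tendsto_inv_atTop_zero.comp tendsto_log_atTop))
    have h6 : Tendsto (fun y : ℝ => (a + b * ((log y : ℝ) : ℂ)) * (((log y)⁻¹ : ℝ) : ℂ)) atTop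
        (𝓝 (a * ((0 : ℝ) : ℂ) + b)) := by
      have h7 : Tendsto (fun y : ℝ => a * (((log y)⁻¹ : ℝ) : ℂ) + b) atTop
          (𝓝 (a * ((0 : ℝ) : ℂ) + b)) :=
        (((Complex.continuous_ofReal.tendsto 0).comp
          (tendsto_inv_atTop_zero.comp tendsto_log_atTop)).const_mul a).add_const b
      refine h7.congr' ?_
      filter_upwards [tendsto_log_atTop.eventually (eventually_gt_atTop 0)] with y hy
      have : ((log y : ℝ) : ℂ) ≠ 0 := by exact_mod_cast hy.ne'
      push_cast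
      field_simp
    have := tendsto_nhds_unique h5 h6
    simpa using this.symm
  have ha : a = 0 := by
    have h8 : Tendsto (fun _ : ℝ => a) atTop (𝓝 0) := by simpa [hb] using hlim
    exact tendsto_nhds_unique tendsto_const_nhds h8
  intro y hy
  rw [hab y hy, ha, hb]
  simp

end Fermat.Agent.H22Z
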