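import Fermat.Agent.H22ZFour
import Fermat.Agent.H22ZK0c

/-!
# Fourier coefficients of eigenfunctions on products of hyperbolic 3-spaces, I

Coordinates `p : ι → ℂ × ℝ`, `p j = (z_j, y_j)`, domain `y_j > 0`.
-/

set_option autoImplicit false
set_option linter.unusedSectionVars false

open MeasureTheory Set Filter Topology Module Function

noncomputable section

namespace Fermat.Agent.H22Z

open H5Z

/-! ### Differentiation under the integral sign over a relatively compact set -/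

theorem hasDerivAt_integral_compact {X : Type*} [TopologicalSpace X] [MeasurableSpace X]
    [OpensMeasurableSpace X] {μ : Measure X} {S K : Set X}
    (hSK : S ⊆ K) (hK : IsCompact K) (hSm : MeasurableSet S) (hμ : μ S < ⊤) {I : Set ℝ}
    (hI : IsOpen I)
    {g g' : ℝ → X → ℂ} (hg : ContinuousOn (uncurry g) (I ×ˢ univ))
    (hg' : ContinuousOn (uncurry g') (I ×ˢ univ))
    (hd : ∀ s ∈ I, ∀ x, HasDerivAt (fun s => g s x) (g' s x) s) {s0 : ℝ} (hs0 : s0 ∈ I) :
    HasDerivAt (fun s => ∫ x in S, g s x ∂μ) (∫ x in S, g' s0 x ∂μ) s0 := by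
  obtain ⟨ε, hε, hball⟩ := Metric.isOpen_iff.mp hI s0 hs0
  have hsub : Metric.closedBall s0 (ε / 2) ⊆ I :=
    (Metric.closedBall_subset_ball (by linarith)).trans hball
  have hcomp : IsCompact (Metric.closedBall s0 (ε / 2) ×ˢ K) :=
    (isCompact_closedBall s0 (ε / 2)).prod hK
  obtain ⟨C, hC⟩ := hcomp.exists_bound_of_continuousOn
    (hg'.mono (prod_mono hsub (subset_univ K)))
  obtain ⟨C0, hC0⟩ := hcomp.exists_bound_of_continuousOn
    (hg.mono (prod_mono hsub (subset_univ K)))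
  have hcont : ∀ s ∈ I, Continuous (g s) := fun s hs => by
    have h1 : Continuous fun x : X => (s, x) := by fun_prop
    exact hg.comp_continuous h1 fun x => ⟨hs, mem_univ x⟩
  have hcont' : ∀ s ∈ I, Continuous (g' s) := fun s hs => by
    have h1 : Continuous fun x : X => (s, x) := by fun_prop
    exact hg'.comp_continuous h1 fun x => ⟨hs, mem_univ x⟩
  have : IsFiniteMeasure (μ.restrict S) := ⟨by rwa [Measure.restrict_apply_univ]⟩
  have hs0b : s0 ∈ Metric.closedBall s0 (ε / 2) := Metric.mem_closedBall_self (by linarith)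
  refine (hasDerivAt_integral_of_dominated_loc_of_deriv_le (𝕜 := ℝ) (μ := μ.restrict S)
    (F := g) (F' := g') (x₀ := s0) (s := Metric.closedBall s0 (ε / 2)) (bound := fun _ => C)
    (Metric.closedBall_mem_nhds s0 (by linarith)) ?_ ?_ ?_ ?_ (integrable_const _) ?_).2
  · filter_upwards [hI.mem_nhds hs0] with s hs
    exact (hcont s hs).aestronglyMeasurable
  · refine Integrable.of_bound (hcont s0 hs0).aestronglyMeasurable C0 ?_
    rw [ae_restrict_iff' hSm]
    exact Eventually.of_forall fun x hx => hC0 (s0, x) ⟨hs0b, hSK hx⟩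
  · exact (hcont' s0 hs0).aestronglyMeasurable
  · rw [ae_restrict_iff' hSm]
    exact Eventually.of_forall fun x hx s hs => hC (s, x) ⟨hs, hSK hx⟩
  · exact Eventually.of_forall fun x s hs => hd s (hsub hs) x

/-! ### Derivatives along lines -/

variable {ι : Type*}

/-- The domain `y_j > 0`. -/
def Dom (ι : Type*) : Set (ι → ℂ × ℝ) := {p | ∀ j, 0 < (p j).2}

/-- The point with coordinates `z`, `y`. -/
def pz (z : ι → ℂ) (y : ι → ℝ) : ι → ℂ × ℝ := fun j => (z j, y j)

theorem pz_mem {z : ι → ℂ} {y : ι → ℝ} (hy : ∀ j, 0 < y j) : pz z y ∈ Dom ι := hy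

variable [Fintype ι]

theorem isOpen_Dom : IsOpen (Dom ι) := by
  have : Dom ι = ⋂ j : ι, {p : ι → ℂ × ℝ | 0 < (p j).2} := by
    ext p
    simp [Dom]
  rw [this]
  refine isOpen_iInter_of_finite fun j => ?_
  exact isOpen_lt continuous_const (by fun_prop)

theorem continuous_pz : Continuous fun q : (ι → ℂ) × (ι → ℝ) => pz q.1 q.2 := by
  unfold pz
  fun_prop

/-- first derivative in the direction `d` -/
def D1 (f : (ι → ℂ × ℝ) → ℂ) (d : ι → ℂ × ℝ) (p : ι → ℂ × ℝ) : ℂ := fderiv ℝ f p d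

/-- second derivative in the direction `d` -/
def D2 (f : (ι → ℂ × ℝ) → ℂ) (d : ι → ℂ × ℝ) (p : ι → ℂ × ℝ) : ℂ :=
  fderiv ℝ (fun q => fderiv ℝ f q d) p d

variable {f : (ι → ℂ × ℝ) → ℂ}

theorem contDiffOn_D1 (hf : ContDiffOn ℝ 2 f (Dom ι)) (d : ι → ℂ × ℝ) :
    ContDiffOn ℝ 1 (D1 f d) (Dom ι) := by
  have h1 : ContDiffOn ℝ 1 (fderiv ℝ f) (Dom ι) := hf.fderiv_of_isOpen isOpen_Dom (by norm_num)
  exact h1.clm_apply contDiffOn_const

theorem continuousOn_D1 (hf : ContDiffOn ℝ 2 f (Dom ι)) (d : ι → ℂ × ℝ) :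
    ContinuousOn (D1 f d) (Dom ι) := (contDiffOn_D1 hf d).continuousOn

theorem continuousOn_D2 (hf : ContDiffOn ℝ 2 f (Dom ι)) (d : ι → ℂ × ℝ) :
    ContinuousOn (D2 f d) (Dom ι) := by
  have h1 : ContDiffOn ℝ 0 (fderiv ℝ (D1 f d)) (Dom ι) :=
    (contDiffOn_D1 hf d).fderiv_of_isOpen isOpen_Dom (by norm_num)
  have h2 : ContDiffOn ℝ 0 (fun p => fderiv ℝ (D1 f d) p d) (Dom ι) :=
    h1.clm_apply contDiffOn_const
  exact h2.continuousOn

theorem hasDerivAt_line (p d : ι → ℂ × ℝ) (s : ℝ) :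
    HasDerivAt (fun s : ℝ => p + s • d) d s := by
  simpa using ((hasDerivAt_id s).smul_const d).const_add p

theorem hasDerivAt_line1 (hf : ContDiffOn ℝ 2 f (Dom ι)) (d : ι → ℂ × ℝ) {p : ι → ℂ × ℝ} {s : ℝ}
    (hs : p + s • d ∈ Dom ι) :
    HasDerivAt (fun s : ℝ => f (p + s • d)) (D1 f d (p + s • d)) s := by
  have h1 : DifferentiableAt ℝ f (p + s • d) :=
    (hf.contDiffAt (isOpen_Dom.mem_nhds hs)).differentiableAt (by norm_num)
  exact h1.hasFDerivAt.comp_hasDerivAt s (hasDerivAt_line p d s)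

theorem hasDerivAt_line2 (hf : ContDiffOn ℝ 2 f (Dom ι)) (d : ι → ℂ × ℝ) {p : ι → ℂ × ℝ} {s : ℝ}
    (hs : p + s • d ∈ Dom ι) :
    HasDerivAt (fun s : ℝ => D1 f d (p + s • d)) (D2 f d (p + s • d)) s := by
  have h1 : DifferentiableAt ℝ (D1 f d) (p + s • d) :=
    ((contDiffOn_D1 hf d).contDiffAt (isOpen_Dom.mem_nhds hs)).differentiableAt (by norm_num)
  exact h1.hasFDerivAt.comp_hasDerivAt s (hasDerivAt_line p d s)

/-- iterated derivative along a line -/
theorem deriv_deriv_line (hf : ContDiffOn ℝ 2 f (Dom ι)) (d : ι → ℂ × ℝ) {p : ι → ℂ × ℝ} {s : ℝ}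
    (hs : p + s • d ∈ Dom ι) :
    deriv (deriv fun s : ℝ => f (p + s • d)) s = D2 f d (p + s • d) := by
  have hcont : Continuous fun s : ℝ => p + s • d := by fun_prop
  have hev : ∀ᶠ t in 𝓝 s, p + t • d ∈ Dom ι :=
    hcont.continuousAt.eventually_mem (isOpen_Dom.mem_nhds hs)
  have h1 : deriv (fun s : ℝ => f (p + s • d)) =ᶠ[𝓝 s] fun s => D1 f d (p + s • d) :=
    hev.mono fun t ht => (hasDerivAt_line1 hf d ht).deriv
  rw [h1.deriv_eq]
  exact (hasDerivAt_line2 hf d hs).deriv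

variable [DecidableEq ι]

/-- The Laplace operator of hyperbolic 3-space in the `j`-th variable,
`y_j² (∂²/∂x_j² + ∂²/∂x'_j² + ∂²/∂y_j²) - y_j ∂/∂y_j`. -/
def lapc (j : ι) (f : (ι → ℂ × ℝ) → ℂ) (p : ι → ℂ × ℝ) : ℂ :=
  ((p j).2 : ℂ) ^ 2 *
      (deriv (deriv fun t : ℝ => f (update p j ((p j).1 + t, (p j).2))) 0 +
        deriv (deriv fun t : ℝ => f (update p j ((p j).1 + t * Complex.I, (p j).2))) 0 +
        deriv (deriv fun t : ℝ => f (update p j ((p j).1, t))) (p j).2) -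
    ((p j).2 : ℂ) * deriv (fun t : ℝ => f (update p j ((p j).1, t))) (p j).2

theorem update_line_z (p : ι → ℂ × ℝ) (j : ι) (v : ℂ) (t : ℝ) :
    update p j ((p j).1 + t * v, (p j).2) = p + t • (Pi.single j (v, 0) : ι → ℂ × ℝ) := by
  funext i
  by_cases h : i = j
  · subst h
    refine Prod.ext ?_ ?_ <;> simp [update_self]
  · simp [update_of_ne h, Pi.single_eq_of_ne h]

theorem update_line_y (p : ι → ℂ × ℝ) (j : ι) (t : ℝ) :
    update p j ((p j).1, t) =
      update p j ((p j).1, 0) + t • (Pi.single j (0, 1) : ι → ℂ × ℝ) := by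
  funext i
  by_cases h : i = j
  · subst h
    simp [update_self]
  · simp [update_of_ne h, Pi.single_eq_of_ne h]

theorem lapc_eq (hf : ContDiffOn ℝ 2 f (Dom ι)) (j : ι) {p : ι → ℂ × ℝ} (hp : p ∈ Dom ι) :
    lapc j f p = ((p j).2 : ℂ) ^ 2 * (D2 f (Pi.single j (1, 0)) p +
      D2 f (Pi.single j (Complex.I, 0)) p + D2 f (Pi.single j (0, 1)) p) -
      ((p j).2 : ℂ) * D1 f (Pi.single j (0, 1)) p := by
  have e1 : (fun t : ℝ => f (update p j ((p j).1 + t, (p j).2))) =
      fun t : ℝ => f (p + t • (Pi.single j (1, 0) : ι → ℂ × ℝ)) := by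
    funext t
    rw [← update_line_z, mul_one]
  have e2 : (fun t : ℝ => f (update p j ((p j).1 + t * Complex.I, (p j).2))) =
      fun t : ℝ => f (p + t • (Pi.single j (Complex.I, 0) : ι → ℂ × ℝ)) := by
    funext t
    rw [← update_line_z]
  have e3 : (fun t : ℝ => f (update p j ((p j).1, t))) =
      fun t : ℝ => f (update p j ((p j).1, 0) + t • (Pi.single j (0, 1) : ι → ℂ × ℝ)) := by
    funext t
    rw [← update_line_y]
  have e4 : update p j ((p j).1, 0) + (p j).2 • (Pi.single j (0, 1) : ι → ℂ × ℝ) = p := by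
    rw [← update_line_y]
    simp
  unfold lapc
  rw [e1, e2, e3, deriv_deriv_line hf _ (by simpa using hp), deriv_deriv_line hf _
    (by simpa using hp), deriv_deriv_line hf _ (by rw [e4]; exact hp),
    (hasDerivAt_line1 hf _ (by rw [e4]; exact hp)).deriv, e4]
  simp

end Fermat.Agent.H22Z
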