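import Fermat.Agent.H22ZFEa

/-!
# Fourier coefficients of eigenfunctions on products of hyperbolic 3-spaces, II

The Fourier coefficient of a bounded eigenfunction at `ν` is `c ∏_j y_j K₀(4π |ν_j| y_j)`.
-/

set_option autoImplicit false
set_option linter.unusedSectionVars false

open MeasureTheory Set Filter Topology Module Function

noncomputable section

namespace Fermat.Agent.H22Z

open H5Z

variable {ι : Type*} [Fintype ι]

/-- The trace pairing `⟨ν, z⟩ = ∑ 2 Re (ν_j z_j)`. -/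
def prg (ν z : ι → ℂ) : ℝ := ∑ j, 2 * (ν j * z j).re

/-- The additive character `e(⟨ν, z⟩)`. -/
def ev (ν z : ι → ℂ) : ℂ := Complex.exp (2 * Real.pi * Complex.I * (prg ν z : ℂ))

theorem prg_add (ν z w : ι → ℂ) : prg ν (z + w) = prg ν z + prg ν w := by
  unfold prg
  rw [← Finset.sum_add_distrib]
  refine Finset.sum_congr rfl fun j _ => ?_
  simp only [Pi.add_apply, mul_add, Complex.add_re]

theorem prg_add_left (ν ν' z : ι → ℂ) : prg (ν + ν') z = prg ν z + prg ν' z := by
  unfold prg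
  rw [← Finset.sum_add_distrib]
  refine Finset.sum_congr rfl fun j _ => ?_
  simp only [Pi.add_apply, add_mul, mul_add, Complex.add_re]

theorem prg_smul (ν z : ι → ℂ) (s : ℝ) : prg ν (s • z) = s * prg ν z := by
  unfold prg
  rw [Finset.mul_sum]
  refine Finset.sum_congr rfl fun j _ => ?_
  simp only [Pi.smul_apply, Complex.real_smul]
  rw [show ν j * ((s : ℂ) * z j) = (s : ℂ) * (ν j * z j) by ring, Complex.re_ofReal_mul]
  ring

theorem prg_smul_left (ν z : ι → ℂ) (s : ℝ) : prg (s • ν) z = s * prg ν z := by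
  unfold prg
  rw [Finset.mul_sum]
  refine Finset.sum_congr rfl fun j _ => ?_
  simp only [Pi.smul_apply, Complex.real_smul]
  rw [mul_assoc, Complex.re_ofReal_mul]
  ring

theorem prg_neg_left (ν z : ι → ℂ) : prg (-ν) z = -prg ν z := by
  simpa using prg_smul_left ν z (-1)

theorem prg_neg (ν z : ι → ℂ) : prg ν (-z) = -prg ν z := by
  simpa using prg_smul ν z (-1)

@[simp] theorem prg_zero_left (z : ι → ℂ) : prg 0 z = 0 := by simp [prg]

@[simp] theorem prg_zero (ν : ι → ℂ) : prg ν 0 = 0 := by simp [prg]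

theorem continuous_prg (ν : ι → ℂ) : Continuous (prg ν) := by
  unfold prg
  fun_prop

theorem continuous_ev (ν : ι → ℂ) : Continuous (ev ν) := by
  unfold ev
  exact Complex.continuous_exp.comp (continuous_const.mul
    (Complex.continuous_ofReal.comp (continuous_prg ν)))

theorem ev_add (ν z w : ι → ℂ) : ev ν (z + w) = ev ν z * ev ν w := by
  unfold ev
  rw [← Complex.exp_add, ← mul_add, prg_add]
  push_cast
  rfl

theorem ev_add_left (ν ν' z : ι → ℂ) : ev (ν + ν') z = ev ν z * ev ν' z := by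
  unfold ev
  rw [← Complex.exp_add, ← mul_add, prg_add_left]
  push_cast
  rfl

@[simp] theorem ev_zero_left (z : ι → ℂ) : ev 0 z = 1 := by simp [ev]

@[simp] theorem ev_zero (ν : ι → ℂ) : ev ν 0 = 1 := by simp [ev]

theorem ev_neg_mul (ν z : ι → ℂ) : ev (-ν) z * ev ν z = 1 := by
  rw [← ev_add_left, neg_add_cancel, ev_zero_left]

theorem norm_ev (ν z : ι → ℂ) : ‖ev ν z‖ = 1 := by
  unfold ev
  rw [show 2 * (Real.pi : ℂ) * Complex.I * (prg ν z : ℂ) =
    ((2 * Real.pi * prg ν z : ℝ) : ℂ) * Complex.I by push_cast; ring]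
  exact Complex.norm_exp_ofReal_mul_I _

theorem ev_eq_one_of_int {ν z : ι → ℂ} {m : ℤ} (h : prg ν z = m) : ev ν z = 1 := by
  unfold ev
  rw [h, show 2 * (Real.pi : ℂ) * Complex.I * (((m : ℤ) : ℝ) : ℂ) =
    (m : ℂ) * (2 * Real.pi * Complex.I) by push_cast; ring]
  exact Complex.exp_int_mul_two_pi_mul_I _

variable {κ : Type*} [Fintype κ]

/-- `ν` is in the dual lattice (for the trace pairing) of the lattice spanned by `b`. -/
def IsDual (b : Basis κ ℝ (ι → ℂ)) (ν : ι → ℂ) : Prop :=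
  ∀ v ∈ Submodule.span ℤ (Set.range b), ∃ m : ℤ, prg ν v = m

theorem IsDual.neg {b : Basis κ ℝ (ι → ℂ)} {ν : ι → ℂ} (h : IsDual b ν) : IsDual b (-ν) := by
  intro v hv
  obtain ⟨m, hm⟩ := h v hv
  exact ⟨-m, by rw [prg_neg_left, hm]; push_cast; rfl⟩

theorem IsDual.per {b : Basis κ ℝ (ι → ℂ)} {ν : ι → ℂ} (h : IsDual b ν) : Per b (ev ν) := by
  intro x v hv
  obtain ⟨m, hm⟩ := h v hv
  rw [ev_add, ev_eq_one_of_int hm, mul_one]

/-- The Fourier coefficient (mean value of `ev (-ν) f`). -/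
def coefA (b : Basis κ ℝ (ι → ℂ)) (ν : ι → ℂ) (f : (ι → ℂ × ℝ) → ℂ) (y : ι → ℝ) : ℂ :=
  ((volume : Measure (ι → ℂ)).real (ZSpan.fundamentalDomain b) : ℂ)⁻¹ *
    ∫ z in ZSpan.fundamentalDomain b, ev (-ν) z * f (pz z y)

variable {f : (ι → ℂ × ℝ) → ℂ}

theorem vol_fd_lt_top (b : Basis κ ℝ (ι → ℂ)) :
    (volume : Measure (ι → ℂ)) (ZSpan.fundamentalDomain b) < ⊤ :=
  (ZSpan.fundamentalDomain_isBounded b).measure_lt_top

theorem integrableOn_fd (b : Basis κ ℝ (ι → ℂ)) {h : (ι → ℂ) → ℂ} (hc : Continuous h) :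
    IntegrableOn h (ZSpan.fundamentalDomain b) := by
  have hK : IsCompact (closure (ZSpan.fundamentalDomain b)) :=
    (ZSpan.fundamentalDomain_isBounded b).isCompact_closure
  exact (hc.continuousOn.integrableOn_compact hK).mono_set subset_closure

/-- Differentiation of `∫ ev (-ν) z f (pz z y₀ + s d) dz`. -/
theorem hasDerivAt_int_line (b : Basis κ ℝ (ι → ℂ)) (ν : ι → ℂ) (d : ι → ℂ × ℝ)
    {h h' : (ι → ℂ × ℝ) → ℂ} (hh : ContinuousOn h (Dom ι)) (hh' : ContinuousOn h' (Dom ι))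
    (hd : ∀ (p : ι → ℂ × ℝ) (s : ℝ), p + s • d ∈ Dom ι →
      HasDerivAt (fun s : ℝ => h (p + s • d)) (h' (p + s • d)) s)
    {y₀ : ι → ℝ} {I : Set ℝ} (hI : IsOpen I) (hmem : ∀ s ∈ I, ∀ z : ι → ℂ, pz z y₀ + s • d ∈ Dom ι)
    {s : ℝ} (hs : s ∈ I) :
    HasDerivAt (fun s : ℝ => ∫ z in ZSpan.fundamentalDomain b, ev (-ν) z * h (pz z y₀ + s • d))
      (∫ z in ZSpan.fundamentalDomain b, ev (-ν) z * h' (pz z y₀ + s • d)) s := by
  have hmap : Continuous fun q : ℝ × (ι → ℂ) => pz q.2 y₀ + q.1 • d := by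
    have : Continuous fun q : ℝ × (ι → ℂ) => pz q.2 y₀ :=
      continuous_pz.comp (continuous_snd.prodMk continuous_const)
    fun_prop
  have hmaps : MapsTo (fun q : ℝ × (ι → ℂ) => pz q.2 y₀ + q.1 • d) (I ×ˢ univ) (Dom ι) := by
    intro q hq
    exact hmem q.1 hq.1 q.2
  have hev : Continuous fun q : ℝ × (ι → ℂ) => ev (-ν) q.2 := (continuous_ev _).comp continuous_snd
  refine hasDerivAt_integral_compact (K := closure (ZSpan.fundamentalDomain b)) subset_closure
    (ZSpan.fundamentalDomain_isBounded b).isCompact_closure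
    (ZSpan.fundamentalDomain_measurableSet b) (vol_fd_lt_top b) hI
    (g := fun s z => ev (-ν) z * h (pz z y₀ + s • d))
    (g' := fun s z => ev (-ν) z * h' (pz z y₀ + s • d)) ?_ ?_ ?_ hs
  · exact hev.continuousOn.mul (hh.comp hmap.continuousOn hmaps)
  · exact hev.continuousOn.mul (hh'.comp hmap.continuousOn hmaps)
  · intro s hs z
    exact (hd _ s (hmem s hs z)).const_mul _

/-- Continuity of the integrand. -/
theorem continuous_slice {h : (ι → ℂ × ℝ) → ℂ} (hh : ContinuousOn h (Dom ι)) {y : ι → ℝ}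
    (hy : ∀ j, 0 < y j) : Continuous fun z => h (pz z y) := by
  have : Continuous fun z : ι → ℂ => pz z y :=
    continuous_pz.comp (continuous_id.prodMk continuous_const)
  exact hh.comp_continuous this fun z => pz_mem hy

variable [DecidableEq ι]

/-- **Integration by parts on the torus**, by translation invariance. -/
theorem int_D2_z (b : Basis κ ℝ (ι → ℂ)) (hf : ContDiffOn ℝ 2 f (Dom ι)) {y : ι → ℝ}
    (hy : ∀ j, 0 < y j) (hper : Per b fun z => f (pz z y)) {ν : ι → ℂ} (hν : IsDual b ν)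
    (j : ι) (v : ℂ) :
    ∫ z in ZSpan.fundamentalDomain b, ev (-ν) z * D2 f (Pi.single j (v, 0)) (pz z y) =
      (2 * Real.pi * Complex.I * ((2 * (ν j * v).re : ℝ) : ℂ)) ^ 2 *
        ∫ z in ZSpan.fundamentalDomain b, ev (-ν) z * f (pz z y) := by
  set d : ι → ℂ × ℝ := Pi.single j (v, 0) with hd
  set L : ℝ := 2 * (ν j * v).re with hL
  set c : ℂ := 2 * Real.pi * Complex.I * (L : ℂ) with hc
  set G0 : ℂ := ∫ z in ZSpan.fundamentalDomain b, ev (-ν) z * f (pz z y) with hG0
  have hsh : ∀ (z : ι → ℂ) (s : ℝ), pz z y + s • d = pz (z + s • (Pi.single j v : ι → ℂ)) y := by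
    intro z s
    funext i
    by_cases h : i = j
    · subst h
      refine Prod.ext ?_ ?_ <;> simp [pz, hd]
    · simp [pz, hd, Pi.single_eq_of_ne h]
  have hmem : ∀ s ∈ (univ : Set ℝ), ∀ z : ι → ℂ, pz z y + s • d ∈ Dom ι := by
    intro s _ z
    rw [hsh]
    exact pz_mem hy
  have hG : ∀ s : ℝ, ∫ z in ZSpan.fundamentalDomain b, ev (-ν) z * f (pz z y + s • d) =
      Complex.exp (s * c) * G0 := by
    intro s
    set w : ι → ℂ := s • (Pi.single j v : ι → ℂ) with hw
    have hper2 : Per b fun z => ev (-ν) z * f (pz z y) := by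
      intro z u hu
      show ev (-ν) (z + u) * f (pz (z + u) y) = _
      rw [hν.neg.per z u hu]
      have := hper z u hu
      simp only at this
      rw [this]
    have h1 := hper2.setIntegral_comp_add volume w
    have hevw : ev ν w = Complex.exp (s * c) := by
      unfold ev
      congr 1
      have : prg ν w = s * L := by
        rw [hw, prg_smul]
        congr 1
        unfold prg
        rw [Finset.sum_eq_single j]
        · simp [hL]
        · intro i _ hij
          simp [Pi.single_eq_of_ne hij]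
        · simp
      rw [this, hc]
      push_cast
      ring
    rw [hG0, ← h1, ← hevw, ← integral_const_mul]
    refine integral_congr_ae (Eventually.of_forall fun z => ?_)
    simp only
    rw [hsh, ev_add]
    have := ev_neg_mul ν w
    linear_combination (-(ev (-ν) z * f (pz (z + w) y))) * this
  have hder1 : ∀ s : ℝ, HasDerivAt
      (fun s : ℝ => ∫ z in ZSpan.fundamentalDomain b, ev (-ν) z * f (pz z y + s • d))
      (∫ z in ZSpan.fundamentalDomain b, ev (-ν) z * D1 f d (pz z y + s • d)) s := fun s =>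
    hasDerivAt_int_line b ν d hf.continuousOn (continuousOn_D1 hf d)
      (fun p s hs => hasDerivAt_line1 hf d hs) isOpen_univ hmem (mem_univ s)
  have hder2 : ∀ s : ℝ, HasDerivAt
      (fun s : ℝ => ∫ z in ZSpan.fundamentalDomain b, ev (-ν) z * D1 f d (pz z y + s • d))
      (∫ z in ZSpan.fundamentalDomain b, ev (-ν) z * D2 f d (pz z y + s • d)) s := fun s =>
    hasDerivAt_int_line b ν d (continuousOn_D1 hf d) (continuousOn_D2 hf d)
      (fun p s hs => hasDerivAt_line2 hf d hs) isOpen_univ hmem (mem_univ s)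
  have hexp : ∀ s : ℝ, HasDerivAt (fun s : ℝ => Complex.exp (s * c)) (c * Complex.exp (s * c)) s := by
    intro s
    have h1 : HasDerivAt (fun s : ℝ => (s : ℂ) * c) c s := by
      simpa using (hasDerivAt_id s).ofReal_comp.mul_const c
    have h2 := h1.cexp
    rwa [mul_comm] at h2
  have hG1 : ∀ s : ℝ, ∫ z in ZSpan.fundamentalDomain b, ev (-ν) z * D1 f d (pz z y + s • d) =
      c * Complex.exp (s * c) * G0 := by
    intro s
    have h1 := hder1 s
    rw [show (fun s : ℝ => ∫ z in ZSpan.fundamentalDomain b, ev (-ν) z * f (pz z y + s • d)) =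
      fun s : ℝ => Complex.exp (s * c) * G0 from funext hG] at h1
    exact h1.unique ((hexp s).mul_const G0)
  have h2 := hder2 0
  rw [show (fun s : ℝ => ∫ z in ZSpan.fundamentalDomain b,
    ev (-ν) z * D1 f d (pz z y + s • d)) = fun s : ℝ => c * Complex.exp (s * c) * G0 from
      funext hG1] at h2
  have h3 := h2.unique (((hexp 0).const_mul c).mul_const G0)
  simp only [zero_smul, add_zero, Complex.ofReal_zero, zero_mul, Complex.exp_zero, mul_one] at h3
  rw [h3]
  ring

theorem update_pos {y : ι → ℝ} (hy : ∀ j, 0 < y j) (j : ι) {t : ℝ} (ht : 0 < t) :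
    ∀ i, 0 < update y j t i := by
  intro i
  by_cases h : i = j
  · subst h
    simpa using ht
  · simpa [update_of_ne h] using hy i

theorem pz_update (z : ι → ℂ) (y : ι → ℝ) (j : ι) (t : ℝ) :
    pz z (update y j 0) + t • (Pi.single j (0, 1) : ι → ℂ × ℝ) = pz z (update y j t) := by
  funext i
  by_cases h : i = j
  · subst h
    refine Prod.ext ?_ ?_ <;> simp [pz]
  · simp [pz, Pi.single_eq_of_ne h, update_of_ne h]

/-- The unnormalised coefficient satisfies the Bessel equation in each variable. -/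
theorem int_ode (b : Basis κ ℝ (ι → ℂ)) (hf : ContDiffOn ℝ 2 f (Dom ι))
    (hper : ∀ y : ι → ℝ, (∀ j, 0 < y j) → Per b fun z => f (pz z y))
    (j : ι) (hlap : ∀ p ∈ Dom ι, lapc j f p = -f p)
    {y : ι → ℝ} (hy : ∀ j, 0 < y j) {ν : ι → ℂ} (hν : IsDual b ν) :
    ∃ A1 A2 : ℝ → ℂ,
      (∀ t > 0, HasDerivAt (fun t => ∫ z in ZSpan.fundamentalDomain b,
        ev (-ν) z * f (pz z (update y j t))) (A1 t) t) ∧
      (∀ t > 0, HasDerivAt A1 (A2 t) t) ∧
      ∀ t : ℝ, 0 < t → (t : ℂ) ^ 2 * (A2 t - ((4 * Real.pi * ‖ν j‖ : ℝ) : ℂ) ^ 2 *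
        ∫ z in ZSpan.fundamentalDomain b, ev (-ν) z * f (pz z (update y j t))) - t * A1 t =
        -∫ z in ZSpan.fundamentalDomain b, ev (-ν) z * f (pz z (update y j t)) := by
  set d : ι → ℂ × ℝ := Pi.single j (0, 1) with hd
  have hmem : ∀ s ∈ Ioi (0 : ℝ), ∀ z : ι → ℂ, pz z (update y j 0) + s • d ∈ Dom ι := by
    intro s hs z
    rw [hd, pz_update]
    exact pz_mem (update_pos hy j hs)
  have hder1 : ∀ s ∈ Ioi (0 : ℝ), HasDerivAt
      (fun s : ℝ => ∫ z in ZSpan.fundamentalDomain b, ev (-ν) z * f (pz z (update y j 0) + s • d))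
      (∫ z in ZSpan.fundamentalDomain b, ev (-ν) z * D1 f d (pz z (update y j 0) + s • d)) s :=
    fun s hs => hasDerivAt_int_line b ν d hf.continuousOn (continuousOn_D1 hf d)
      (fun p s hs => hasDerivAt_line1 hf d hs) isOpen_Ioi hmem hs
  have hder2 : ∀ s ∈ Ioi (0 : ℝ), HasDerivAt
      (fun s : ℝ => ∫ z in ZSpan.fundamentalDomain b,
        ev (-ν) z * D1 f d (pz z (update y j 0) + s • d))
      (∫ z in ZSpan.fundamentalDomain b, ev (-ν) z * D2 f d (pz z (update y j 0) + s • d)) s :=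
    fun s hs => hasDerivAt_int_line b ν d (continuousOn_D1 hf d) (continuousOn_D2 hf d)
      (fun p s hs => hasDerivAt_line2 hf d hs) isOpen_Ioi hmem hs
  simp only [hd, pz_update] at hder1 hder2
  refine ⟨_, _, hder1, hder2, ?_⟩
  intro t ht
  have hyt := update_pos hy j ht
  have hz1 := int_D2_z b hf hyt (hper _ hyt) hν j 1
  have hz2 := int_D2_z b hf hyt (hper _ hyt) hν j Complex.I
  have hI : ∀ d : ι → ℂ × ℝ, IntegrableOn (fun z => ev (-ν) z * D2 f d (pz z (update y j t)))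
      (ZSpan.fundamentalDomain b) := fun d =>
    integrableOn_fd b ((continuous_ev _).mul (continuous_slice (continuousOn_D2 hf d) hyt))
  have hI1 : ∀ d : ι → ℂ × ℝ, IntegrableOn (fun z => ev (-ν) z * D1 f d (pz z (update y j t)))
      (ZSpan.fundamentalDomain b) := fun d =>
    integrableOn_fd b ((continuous_ev _).mul (continuous_slice (continuousOn_D1 hf d) hyt))
  set A := ∫ z in ZSpan.fundamentalDomain b, ev (-ν) z * f (pz z (update y j t)) with hA
  have hpt : ∀ z : ι → ℂ, (t : ℂ) ^ 2 * (ev (-ν) z * D2 f (Pi.single j (1, 0))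
      (pz z (update y j t)) + ev (-ν) z * D2 f (Pi.single j (Complex.I, 0))
      (pz z (update y j t)) + ev (-ν) z * D2 f (Pi.single j (0, 1)) (pz z (update y j t))) -
      t * (ev (-ν) z * D1 f (Pi.single j (0, 1)) (pz z (update y j t))) =
      -(ev (-ν) z * f (pz z (update y j t))) := by
    intro z
    have hp : pz z (update y j t) ∈ Dom ι := pz_mem hyt
    have h1 := hlap _ hp
    rw [lapc_eq hf j hp] at h1
    have h2 : (pz z (update y j t) j).2 = t := by simp [pz]
    rw [h2] at h1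
    linear_combination ev (-ν) z * h1
  have hint := congrArg (fun g : (ι → ℂ) → ℂ => ∫ z in ZSpan.fundamentalDomain b, g z)
    (funext hpt)
  beta_reduce at hint
  rw [integral_sub, integral_const_mul, integral_add, integral_add, integral_const_mul,
    integral_neg, hz1, hz2, ← hA] at hint
  · have hnorm : ((‖ν j‖ : ℝ) : ℂ) ^ 2 = ((ν j).re : ℂ) ^ 2 + ((ν j).im : ℂ) ^ 2 := by
      rw [← Complex.ofReal_pow, Complex.sq_norm, Complex.normSq_apply]
      push_cast
      ring
    have h3 : (2 * Real.pi * Complex.I * ((2 * (ν j * 1).re : ℝ) : ℂ)) ^ 2 +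
        (2 * Real.pi * Complex.I * ((2 * (ν j * Complex.I).re : ℝ) : ℂ)) ^ 2 =
        -((4 * Real.pi * ‖ν j‖ : ℝ) : ℂ) ^ 2 := by
      have hI2 : Complex.I ^ 2 = -1 := Complex.I_sq
      simp only [mul_one, Complex.mul_I_re]
      push_cast
      rw [mul_pow (4 * (Real.pi : ℂ)), hnorm]
      linear_combination (16 * (Real.pi : ℂ) ^ 2 * (((ν j).re : ℂ) ^ 2 + ((ν j).im : ℂ) ^ 2)) * hI2
    linear_combination hint - (t : ℂ) ^ 2 * A * h3
  · exact hI _
  · exact hI _
  · exact (hI _).add (hI _)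
  · exact hI _
  · exact ((hI _).add (hI _)).add (hI _) |>.const_mul _
  · exact (hI1 _).const_mul _

theorem norm_int_le (b : Basis κ ℝ (ι → ℂ)) (ν : ι → ℂ) {M : ℝ}
    (hM : ∀ p ∈ Dom ι, ‖f p‖ ≤ M) {y : ι → ℝ} (hy : ∀ j, 0 < y j) :
    ‖∫ z in ZSpan.fundamentalDomain b, ev (-ν) z * f (pz z y)‖ ≤
      M * (volume : Measure (ι → ℂ)).real (ZSpan.fundamentalDomain b) := by
  refine norm_setIntegral_le_of_norm_le_const (vol_fd_lt_top b) fun z _ => ?_
  rw [norm_mul, norm_ev, one_mul]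
  exact hM _ (pz_mem hy)

/-- One variable: the unnormalised coefficient is `D t K₀(4π |ν_j| t)`. -/
theorem int_eq_K0 (b : Basis κ ℝ (ι → ℂ)) (hf : ContDiffOn ℝ 2 f (Dom ι))
    (hper : ∀ y : ι → ℝ, (∀ j, 0 < y j) → Per b fun z => f (pz z y))
    (j : ι) (hlap : ∀ p ∈ Dom ι, lapc j f p = -f p) {M : ℝ} (hM : ∀ p ∈ Dom ι, ‖f p‖ ≤ M)
    {y : ι → ℝ} (hy : ∀ j, 0 < y j) {ν : ι → ℂ} (hν : IsDual b ν) (hj : ν j ≠ 0) :
    ∃ D : ℂ, ∀ t > 0, ∫ z in ZSpan.fundamentalDomain b, ev (-ν) z * f (pz z (update y j t)) =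
      D * (t * K0 (4 * Real.pi * ‖ν j‖ * t)) := by
  obtain ⟨A1, A2, h1, h2, h3⟩ := int_ode b hf hper j hlap hy hν
  have hc : 0 < 4 * Real.pi * ‖ν j‖ := by
    have := norm_pos_iff.mpr hj
    have := Real.pi_pos
    positivity
  refine eq_mul_K0_of_ode hc h1 h2 h3 (N := 0) ?_
  refine Asymptotics.IsBigO.of_bound
    (M * (volume : Measure (ι → ℂ)).real (ZSpan.fundamentalDomain b)) ?_
  filter_upwards [eventually_gt_atTop 0] with t ht
  simpa using norm_int_le b ν hM (update_pos hy j ht)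

/-- One variable, `ν_j = 0`: the coefficient of a bounded eigenfunction vanishes. -/
theorem int_eq_zero (b : Basis κ ℝ (ι → ℂ)) (hf : ContDiffOn ℝ 2 f (Dom ι))
    (hper : ∀ y : ι → ℝ, (∀ j, 0 < y j) → Per b fun z => f (pz z y))
    (j : ι) (hlap : ∀ p ∈ Dom ι, lapc j f p = -f p) {M : ℝ} (hM : ∀ p ∈ Dom ι, ‖f p‖ ≤ M)
    {y : ι → ℝ} (hy : ∀ j, 0 < y j) {ν : ι → ℂ} (hν : IsDual b ν) (hj : ν j = 0) :
    ∫ z in ZSpan.fundamentalDomain b, ev (-ν) z * f (pz z y) = 0 := by
  obtain ⟨A1, A2, h1, h2, h3⟩ := int_ode b hf hper j hlap hy hν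
  have h4 := eq_zero_of_ode_of_bounded h1 h2 (fun t ht => by
    have := h3 t ht
    rw [hj] at this
    simpa using this) (fun t ht => norm_int_le b ν hM (update_pos hy j ht)) (y j) (hy j)
  simpa using h4

/-- A function of several variables which in each variable is proportional to `φ_j`. -/
theorem eq_mul_prod {A : (ι → ℝ) → ℂ} {φ : ι → ℝ → ℝ} (hφ : ∀ j, ∀ t > 0, 0 < φ j t)
    (h : ∀ j, ∀ y : ι → ℝ, (∀ i, 0 < y i) → ∃ D : ℂ, ∀ t > 0, A (update y j t) = D * φ j t) :
    ∀ y : ι → ℝ, (∀ i, 0 < y i) →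
      A y = A 1 / ((∏ j, φ j 1 : ℝ) : ℂ) * ((∏ j, φ j (y j) : ℝ) : ℂ) := by
  intro y hy
  have hprodpos : ∀ y : ι → ℝ, (∀ i, 0 < y i) → (0 : ℝ) < ∏ j, φ j (y j) := fun y hy =>
    Finset.prod_pos fun j _ => hφ j _ (hy j)
  have key : ∀ s : Finset ι, A (s.piecewise y 1) / ((∏ j, φ j (s.piecewise y 1 j) : ℝ) : ℂ) =
      A 1 / ((∏ j, φ j 1 : ℝ) : ℂ) := by
    intro s
    induction s using Finset.induction_on with
    | empty => simp
    | insert j s hjs ih =>
      rw [← ih, Finset.piecewise_insert]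
      set w : ι → ℝ := s.piecewise y 1 with hw
      have hwpos : ∀ i, 0 < w i := by
        intro i
        by_cases hi : i ∈ s
        · simp only [hw, Finset.piecewise_eq_of_mem _ _ _ hi]
          exact hy i
        · simp [hw, Finset.piecewise_eq_of_notMem _ _ _ hi]
      obtain ⟨D, hD⟩ := h j w hwpos
      have e1 := hD (y j) (hy j)
      have e2 := hD (w j) (hwpos j)
      rw [update_eq_self] at e2
      rw [e1, e2]
      have e3 : ∀ t : ℝ, (∏ i, φ i (update w j t i)) = φ j t * ∏ i ∈ Finset.univ.erase j, φ i (w i) := by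
        intro t
        rw [← Finset.mul_prod_erase Finset.univ _ (Finset.mem_univ j)]
        congr 1
        · simp
        · refine Finset.prod_congr rfl fun i hi => ?_
          rw [update_of_ne (Finset.ne_of_mem_erase hi)]
      have e4 : (∏ i, φ i (w i)) = φ j (w j) * ∏ i ∈ Finset.univ.erase j, φ i (w i) :=
        (Finset.mul_prod_erase Finset.univ (fun i => φ i (w i)) (Finset.mem_univ j)).symm
      rw [e3, e4]
      have e5 : (0 : ℝ) < ∏ i ∈ Finset.univ.erase j, φ i (w i) :=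
        Finset.prod_pos fun i _ => hφ i _ (hwpos i)
      have e6 : ((∏ i ∈ Finset.univ.erase j, φ i (w i) : ℝ) : ℂ) ≠ 0 := by exact_mod_cast e5.ne'
      have e7 : ((φ j (y j) : ℝ) : ℂ) ≠ 0 := by exact_mod_cast (hφ j _ (hy j)).ne'
      have e8 : ((φ j (w j) : ℝ) : ℂ) ≠ 0 := by exact_mod_cast (hφ j _ (hwpos j)).ne'
      rw [Complex.ofReal_mul, Complex.ofReal_mul]
      field_simp
  have h1 := key Finset.univ
  rw [Finset.piecewise_univ] at h1
  rw [← h1]
  have h2 : ((∏ j, φ j (y j) : ℝ) : ℂ) ≠ 0 := by exact_mod_cast (hprodpos y hy).ne'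
  field_simp

end Fermat.Agent.H22Z
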