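import Fermat.Agent.H22ZFEb

/-!
# The dual lattice and summability of exponentials over it
-/

set_option autoImplicit false
set_option linter.unusedSectionVars false

open MeasureTheory Set Filter Topology Module Function

noncomputable section

namespace Fermat.Agent.H22Z

open H5Z

/-! ### Summability over `κ → ℤ` -/

theorem summable_pi_prod {κ : Type*} [Fintype κ] [DecidableEq κ] {g : ℤ → ℝ} (hg0 : ∀ m, 0 ≤ g m)
    (hg : Summable g) : Summable fun n : κ → ℤ => ∏ i, g (n i) := by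
  refine summable_of_sum_le (c := ∏ _i : κ, ∑' m, g m) (fun n => Finset.prod_nonneg fun i _ => hg0 _)
    fun s => ?_
  have h1 : s ⊆ Fintype.piFinset fun i : κ => s.image fun n => n i := by
    intro n hn
    rw [Fintype.mem_piFinset]
    intro i
    exact Finset.mem_image_of_mem _ hn
  calc ∑ n ∈ s, ∏ i, g (n i)
      ≤ ∑ n ∈ Fintype.piFinset fun i : κ => s.image fun n => n i, ∏ i, g (n i) :=
        Finset.sum_le_sum_of_subset_of_nonneg h1 fun n _ _ => Finset.prod_nonneg fun i _ => hg0 _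
    _ = ∏ i : κ, ∑ m ∈ s.image fun n => n i, g m := by
        rw [Finset.prod_univ_sum]
    _ ≤ _ := Finset.prod_le_prod (fun i _ => Finset.sum_nonneg fun m _ => hg0 _)
        fun i _ => hg.sum_le_tsum _ fun m _ => hg0 _

theorem summable_exp_neg_abs {a : ℝ} (ha : 0 < a) : Summable fun m : ℤ => Real.exp (-a * |(m : ℝ)|) := by
  have h1 : Summable fun n : ℕ => Real.exp (-a * (n : ℝ)) := by
    have h2 : Summable fun n : ℕ => Real.exp (-a) ^ n :=
      summable_geometric_of_lt_one (Real.exp_pos _).le (by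
        rw [Real.exp_lt_one_iff]; linarith)
    refine h2.congr fun n => ?_
    rw [← Real.exp_nat_mul]
    congr 1
    ring
  rw [summable_int_iff_summable_nat_and_neg]
  constructor
  · refine h1.congr fun n => ?_
    simp
  · refine h1.congr fun n => ?_
    simp

theorem summable_exp_neg_norm {κ : Type*} [Fintype κ] {a : ℝ} (ha : 0 < a) :
    Summable fun n : κ → ℤ => Real.exp (-a * ‖fun i => (n i : ℝ)‖) := by
  classical
  set N : ℝ := Fintype.card κ + 1 with hN
  have hNpos : 0 < N := by positivity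
  have h1 := summable_pi_prod (κ := κ) (fun m => (Real.exp_pos _).le)
    (summable_exp_neg_abs (a := a / N) (by positivity))
  refine Summable.of_nonneg_of_le (fun n => (Real.exp_pos _).le) (fun n => ?_) h1
  rw [← Real.exp_sum]
  apply Real.exp_le_exp.mpr
  rw [← Finset.mul_sum]
  have h2 : ∑ i, |(n i : ℝ)| ≤ N * ‖fun i => (n i : ℝ)‖ := by
    calc ∑ i, |(n i : ℝ)| ≤ ∑ _i : κ, ‖fun i => (n i : ℝ)‖ :=
          Finset.sum_le_sum fun i _ => norm_le_pi_norm (fun i => (n i : ℝ)) i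
      _ = Fintype.card κ * ‖fun i => (n i : ℝ)‖ := by
          rw [Finset.sum_const, Finset.card_univ, nsmul_eq_mul]
      _ ≤ _ := by
          have := norm_nonneg fun i => (n i : ℝ)
          rw [hN]
          nlinarith
  have h3 : (a / N) * ∑ i, |(n i : ℝ)| ≤ (a / N) * (N * ‖fun i => (n i : ℝ)‖) :=
    mul_le_mul_of_nonneg_left h2 (by positivity)
  have h4 : (a / N) * (N * ‖fun i => (n i : ℝ)‖) = a * ‖fun i => (n i : ℝ)‖ := by
    field_simp
  rw [h4] at h3
  linarith

/-! ### The dual lattice -/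

variable {ι : Type*} [Fintype ι] {κ : Type*} [Fintype κ]

theorem prg_eq_zero {ν : ι → ℂ} (h : ∀ z, prg ν z = 0) : ν = 0 := by
  have h1 := h fun j => (starRingEnd ℂ) (ν j)
  unfold prg at h1
  have h2 : ∀ j ∈ Finset.univ, (0 : ℝ) ≤ 2 * (ν j * (starRingEnd ℂ) (ν j)).re := by
    intro j _
    rw [Complex.mul_conj, Complex.ofReal_re]
    have := Complex.normSq_nonneg (ν j)
    positivity
  rw [Finset.sum_eq_zero_iff_of_nonneg h2] at h1
  funext j
  have h3 := h1 j (Finset.mem_univ j)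
  rw [Complex.mul_conj, Complex.ofReal_re] at h3
  have h4 : Complex.normSq (ν j) = 0 := by linarith
  exact Complex.normSq_eq_zero.mp h4

/-- `ν ↦ (⟨ν, b_i⟩)_i` -/
def dualL (b : Basis κ ℝ (ι → ℂ)) : (ι → ℂ) →ₗ[ℝ] (κ → ℝ) where
  toFun ν i := prg ν (b i)
  map_add' ν ν' := by
    funext i
    exact prg_add_left ν ν' (b i)
  map_smul' s ν := by
    funext i
    exact prg_smul_left ν (b i) s

theorem prg_sum (ν : ι → ℂ) {κ : Type*} (s : Finset κ) (g : κ → ι → ℂ) :
    prg ν (∑ i ∈ s, g i) = ∑ i ∈ s, prg ν (g i) := by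
  classical
  induction s using Finset.induction_on with
  | empty => simp
  | insert a s ha ih => rw [Finset.sum_insert ha, Finset.sum_insert ha, prg_add, ih]

theorem prg_eq_sum (b : Basis κ ℝ (ι → ℂ)) (ν z : ι → ℂ) :
    prg ν z = ∑ i, prg ν (b i) * b.repr z i := by
  conv_lhs => rw [← b.sum_repr z]
  rw [prg_sum]
  refine Finset.sum_congr rfl fun i _ => ?_
  rw [prg_smul, mul_comm]

theorem dualL_injective (b : Basis κ ℝ (ι → ℂ)) : Injective (dualL b) := by
  rw [injective_iff_map_eq_zero]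
  intro ν hν
  refine prg_eq_zero fun z => ?_
  rw [prg_eq_sum b]
  refine Finset.sum_eq_zero fun i _ => ?_
  have := congrFun hν i
  rw [show prg ν (b i) = 0 from this, zero_mul]

/-- `(ι → ℂ) ≃ (κ → ℝ)`, `ν ↦ (⟨ν, b_i⟩)_i`. -/
def dualE (b : Basis κ ℝ (ι → ℂ)) : (ι → ℂ) ≃ₗ[ℝ] (κ → ℝ) :=
  LinearEquiv.ofInjectiveOfFinrankEq (dualL b) (dualL_injective b) (by
    rw [Module.finrank_eq_card_basis b, Module.finrank_fintype_fun_eq_card])

@[simp] theorem dualE_apply (b : Basis κ ℝ (ι → ℂ)) (ν : ι → ℂ) (i : κ) :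
    dualE b ν i = prg ν (b i) := rfl

theorem isDual_iff {b : Basis κ ℝ (ι → ℂ)} {ν : ι → ℂ} :
    IsDual b ν ↔ ∀ i, ∃ m : ℤ, prg ν (b i) = m := by
  constructor
  · intro h i
    exact h _ (Submodule.subset_span ⟨i, rfl⟩)
  · intro h v hv
    induction hv using Submodule.span_induction with
    | mem x hx =>
      obtain ⟨i, rfl⟩ := hx
      exact h i
    | zero => exact ⟨0, by simp⟩
    | add x y _ _ hx hy =>
      obtain ⟨m, hm⟩ := hx
      obtain ⟨m', hm'⟩ := hy
      exact ⟨m + m', by rw [prg_add, hm, hm']; push_cast; rfl⟩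
    | smul a x _ hx =>
      obtain ⟨m, hm⟩ := hx
      refine ⟨a * m, ?_⟩
      have := prg_smul ν x (a : ℝ)
      rw [Int.cast_smul_eq_zsmul] at this
      rw [this, hm]
      push_cast
      rfl

/-- The element of the dual lattice with given coordinates. -/
def dualOf (b : Basis κ ℝ (ι → ℂ)) (n : κ → ℤ) : ι → ℂ := (dualE b).symm fun i => (n i : ℝ)

theorem prg_dualOf_basis (b : Basis κ ℝ (ι → ℂ)) (n : κ → ℤ) (i : κ) :
    prg (dualOf b n) (b i) = n i := by
  rw [← dualE_apply, dualOf, LinearEquiv.apply_symm_apply]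

theorem prg_dualOf (b : Basis κ ℝ (ι → ℂ)) (n : κ → ℤ) (z : ι → ℂ) :
    prg (dualOf b n) z = ∑ i, (n i : ℝ) * b.repr z i := by
  rw [prg_eq_sum b]
  refine Finset.sum_congr rfl fun i _ => ?_
  rw [prg_dualOf_basis]

theorem isDual_dualOf (b : Basis κ ℝ (ι → ℂ)) (n : κ → ℤ) : IsDual b (dualOf b n) :=
  isDual_iff.mpr fun i => ⟨n i, prg_dualOf_basis b n i⟩

/-- The dual lattice in coordinates. -/
def dualEquiv (b : Basis κ ℝ (ι → ℂ)) : (κ → ℤ) ≃ {ν : ι → ℂ // IsDual b ν} where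
  toFun n := ⟨dualOf b n, isDual_dualOf b n⟩
  invFun ν i := (isDual_iff.mp ν.2 i).choose
  left_inv n := by
    funext i
    have h := (isDual_iff.mp (isDual_dualOf b n) i).choose_spec
    have h' := (prg_dualOf_basis b n i).symm.trans h
    exact_mod_cast h'.symm
  right_inv ν := by
    apply Subtype.ext
    show dualOf b _ = ν.1
    rw [dualOf, LinearEquiv.symm_apply_eq]
    funext i
    rw [dualE_apply]
    exact ((isDual_iff.mp ν.2 i).choose_spec).symm

theorem dualEquiv_apply (b : Basis κ ℝ (ι → ℂ)) (n : κ → ℤ) :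
    ((dualEquiv b n : {ν : ι → ℂ // IsDual b ν}) : ι → ℂ) = dualOf b n := rfl

theorem ev_dualOf (b : Basis κ ℝ (ι → ℂ)) (n : κ → ℤ) (z : ι → ℂ) :
    ev (dualOf b n) z = chr b n z := by
  unfold ev chr
  rw [prg_dualOf]

theorem dualOf_neg (b : Basis κ ℝ (ι → ℂ)) (n : κ → ℤ) : dualOf b (-n) = -dualOf b n := by
  unfold dualOf
  rw [← map_neg]
  congr 1
  funext i
  simp

/-- The dual lattice is discrete: lower bound for the norm. -/
theorem exists_norm_dualOf (b : Basis κ ℝ (ι → ℂ)) :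
    ∃ δ : ℝ, 0 < δ ∧ ∀ n : κ → ℤ, δ * ‖fun i => (n i : ℝ)‖ ≤ ‖dualOf b n‖ := by
  set T := LinearMap.toContinuousLinearMap ((dualE b : (ι → ℂ) →ₗ[ℝ] (κ → ℝ))) with hT
  refine ⟨(‖T‖ + 1)⁻¹, by positivity, fun n => ?_⟩
  have h1 : (fun i => (n i : ℝ)) = T (dualOf b n) := by
    show _ = dualE b (dualOf b n)
    rw [dualOf, LinearEquiv.apply_symm_apply]
  rw [inv_mul_le_iff₀ (by positivity)]
  conv_lhs => rw [h1]
  refine (T.le_opNorm _).trans ?_
  have := norm_nonneg (dualOf b n)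
  nlinarith

/-- `∑_j |ν_j| ≥ ‖ν‖` -/
theorem norm_le_sum_norm (ν : ι → ℂ) : ‖ν‖ ≤ ∑ j, ‖ν j‖ := by
  rw [pi_norm_le_iff_of_nonneg (Finset.sum_nonneg fun j _ => norm_nonneg _)]
  intro j
  exact Finset.single_le_sum (f := fun j => ‖ν j‖) (fun i _ => norm_nonneg _) (Finset.mem_univ j)

theorem summable_dual (b : Basis κ ℝ (ι → ℂ)) {a : ℝ} (ha : 0 < a) :
    Summable fun n : κ → ℤ => Real.exp (-a * ∑ j, ‖dualOf b n j‖) := by
  obtain ⟨δ, hδ, hδ'⟩ := exists_norm_dualOf b
  refine Summable.of_nonneg_of_le (fun n => (Real.exp_pos _).le) (fun n => ?_)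
    (summable_exp_neg_norm (κ := κ) (a := a * δ) (by positivity))
  apply Real.exp_le_exp.mpr
  have h1 := hδ' n
  have h2 := norm_le_sum_norm (dualOf b n)
  nlinarith

end Fermat.Agent.H22Z
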