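import Fermat.Agent.H74C3p
import Fermat.Agent.H31Hyp3
import Fermat.Agent.H5ZH3

/-!
# Radial eigenfunctions on `(H3)^J` are smooth Laplace eigenfunctions (helper74, package C3)

* `contDiffOn_Rk` : `R(κ) F` is of class `C^n` in the coordinates `(z, y)`;
* `Lap_Rk` : `Lap_j (R(κ) F) = R(LopJ j κ) F`;
* `hatv κ` : the eigenvalue of `R(κ)` on `∏ y_j`, `hatv (LopJ j κ) = - hatv κ`;
* `contDiffOn_of_Rk`, `Lap_of_Rk` : if `R(κ) F = hatv κ * F` for all smooth compactly supported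
  pure tensors, then `F` is smooth and `Lap_j F = - F`.
-/

set_option autoImplicit false
set_option linter.unusedSectionVars false
set_option linter.style.haveILetI false

noncomputable section

open Filter Topology Set MeasureTheory Function
open scoped ContDiff

namespace Fermat.Agent.H74.C3

open Fermat.Agent Fermat.Agent.H3

/-! ### One variable -/

theorem ch_pt_coord {p : ℂ × ℝ} (hp : p ∈ Up) (q : ℂ × ℝ) :
    ch (pt p.1 p.2) (coord.symm q) = (((p.1.re - Real.exp q.2 * q.1.re) ^ 2 +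
      (p.1.im - Real.exp q.2 * q.1.im) ^ 2) + p.2 ^ 2 + Real.exp q.2 ^ 2) /
      (2 * p.2 * Real.exp q.2) := by
  rw [ch_pt hp, coord_symm_z, coord_symm_y]
  simp only [Complex.re_ofReal_mul, Complex.im_ofReal_mul]

theorem contDiffOn_ch : ContDiffOn ℝ ∞
    (fun x : (ℂ × ℝ) × (ℂ × ℝ) => ch (pt x.1.1 x.1.2) (coord.symm x.2)) (Up ×ˢ univ) := by
  have hre : ContDiff ℝ ∞ (fun z : ℂ => z.re) := Complex.reCLM.contDiff
  have him : ContDiff ℝ ∞ (fun z : ℂ => z.im) := Complex.imCLM.contDiff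
  have h1 : ContDiff ℝ ∞ (fun x : (ℂ × ℝ) × (ℂ × ℝ) => Real.exp x.2.2) :=
    Real.contDiff_exp.comp (contDiff_snd.comp contDiff_snd)
  have ha : ContDiff ℝ ∞ (fun x : (ℂ × ℝ) × (ℂ × ℝ) => x.1.1.re) :=
    hre.comp (contDiff_fst.comp contDiff_fst)
  have hb : ContDiff ℝ ∞ (fun x : (ℂ × ℝ) × (ℂ × ℝ) => x.1.1.im) :=
    him.comp (contDiff_fst.comp contDiff_fst)
  have hc : ContDiff ℝ ∞ (fun x : (ℂ × ℝ) × (ℂ × ℝ) => x.2.1.re) :=
    hre.comp (contDiff_fst.comp contDiff_snd)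
  have hd : ContDiff ℝ ∞ (fun x : (ℂ × ℝ) × (ℂ × ℝ) => x.2.1.im) :=
    him.comp (contDiff_fst.comp contDiff_snd)
  have he : ContDiff ℝ ∞ (fun x : (ℂ × ℝ) × (ℂ × ℝ) => x.1.2) :=
    contDiff_snd.comp contDiff_fst
  have hnum : ContDiff ℝ ∞ (fun x : (ℂ × ℝ) × (ℂ × ℝ) =>
      ((x.1.1.re - Real.exp x.2.2 * x.2.1.re) ^ 2 +
      (x.1.1.im - Real.exp x.2.2 * x.2.1.im) ^ 2) + x.1.2 ^ 2 + Real.exp x.2.2 ^ 2) :=
    ((((ha.sub (h1.mul hc)).pow 2).add ((hb.sub (h1.mul hd)).pow 2)).add (he.pow 2)).add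
      (h1.pow 2)
  have hden : ContDiff ℝ ∞ (fun x : (ℂ × ℝ) × (ℂ × ℝ) => 2 * x.1.2 * Real.exp x.2.2) :=
    (contDiff_const.mul he).mul h1
  refine (hnum.contDiffOn.div hden.contDiffOn ?_).congr ?_
  · rintro ⟨p, q⟩ ⟨hp, -⟩
    have h2 : (0 : ℝ) < p.2 := hp
    have := Real.exp_pos q.2
    positivity
  · rintro ⟨p, q⟩ ⟨hp, -⟩
    exact ch_pt_coord hp q

theorem compact_nbhd (R : ℝ) {p₀ : ℂ × ℝ} (hp₀ : p₀ ∈ Up) :
    ∃ s ∈ 𝓝 p₀, ∃ k : Set (ℂ × ℝ), IsCompact k ∧ ∀ p ∈ s, ∀ q, q ∉ k →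
      R < ch (pt p.1 p.2) (coord.symm q) := by
  have hy : (0 : ℝ) < p₀.2 := hp₀
  set Q : ℝ := max R 1 with hQ
  have hQ1 : 1 ≤ Q := le_max_right _ _
  have hQR : R ≤ Q := le_max_left _ _
  set s : Set (ℂ × ℝ) := Metric.ball p₀.1 1 ×ˢ Ioo (p₀.2 / 2) (2 * p₀.2) with hs
  set B : ℝ := ‖p₀.1‖ + 1 + 4 * Q * p₀.2 with hB
  have hB0 : 0 < B := by positivity
  set k : Set (ℂ × ℝ) := Metric.closedBall 0 (B * (4 * Q / p₀.2)) ×ˢ
    Icc (Real.log (p₀.2 / (4 * Q))) (Real.log (4 * Q * p₀.2)) with hk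
  refine ⟨s, ?_, k, ?_, ?_⟩
  · exact prod_mem_nhds (Metric.ball_mem_nhds _ one_pos)
      (Ioo_mem_nhds (by linarith) (by linarith))
  · exact (isCompact_closedBall _ _).prod isCompact_Icc
  · rintro p ⟨hp1, hp2, hp3⟩ q hq
    by_contra hcon
    push Not at hcon
    apply hq
    have hpy : 0 < p.2 := by linarith
    rw [H5Z.ch_eq_chc, pt_z, pt_y hpy, coord_symm_z, coord_symm_y] at hcon
    have he := Real.exp_pos q.2
    obtain ⟨h1, h2, h3, -⟩ := H5Z.le_of_chc_le hpy he (hcon.trans hQR)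
    have h4 : p₀.2 ≤ 4 * Q * Real.exp q.2 := by linarith
    have h5 : Real.exp q.2 ≤ 4 * Q * p₀.2 := by
      have : 2 * Q * p.2 ≤ 2 * Q * (2 * p₀.2) := by gcongr
      linarith
    refine ⟨?_, ?_, ?_⟩
    · rw [Metric.mem_closedBall, dist_zero_right]
      have h6 : ‖p.1‖ ≤ ‖p₀.1‖ + 1 := by
        have := norm_sub_norm_le p.1 p₀.1
        have h7 : ‖p.1 - p₀.1‖ < 1 := by
          simpa [dist_eq_norm] using hp1
        linarith
      have h8 : ‖((Real.exp q.2 : ℝ) : ℂ) * q.1‖ ≤ B := by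
        have h9 : ‖((Real.exp q.2 : ℝ) : ℂ) * q.1‖ ≤
            ‖p.1‖ + ‖p.1 - ((Real.exp q.2 : ℝ) : ℂ) * q.1‖ := by
          have := norm_sub_le p.1 (p.1 - ((Real.exp q.2 : ℝ) : ℂ) * q.1)
          rwa [sub_sub_cancel] at this
        have h10 : 2 * Q * p.2 ≤ 4 * Q * p₀.2 := by
          have : 2 * Q * p.2 ≤ 2 * Q * (2 * p₀.2) := by gcongr
          linarith
        linarith
      rw [norm_mul, Complex.norm_real, Real.norm_eq_abs, abs_of_pos he] at h8
      have h11 : ‖q.1‖ ≤ B / Real.exp q.2 := by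
        rw [le_div_iff₀ he]
        linarith
      refine h11.trans ?_
      rw [div_eq_mul_inv]
      refine mul_le_mul_of_nonneg_left ?_ hB0.le
      rw [inv_le_comm₀ he (by positivity), inv_div]
      rw [div_le_iff₀ (by positivity)]
      linarith
    · rw [Real.log_le_iff_le_exp (by positivity), div_le_iff₀ (by positivity)]
      linarith
    · rw [Real.le_log_iff_exp_le (by positivity)]
      exact h5

/-! ### Several variables: coordinates -/

variable {J : Type*} [Fintype J]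

/-- The coordinates `(z, y)` on `J → H3`. -/
def ptv (p : J → ℂ × ℝ) : J → H3 := fun j => pt (p j).1 (p j).2

/-- The coordinates `coord` on `J → H3`. -/
def cs (q : J → ℂ × ℝ) : J → H3 := fun j => coord.symm (q j)

/-- The product of the open half spaces. -/
def UpJ (J : Type*) : Set (J → ℂ × ℝ) := {p | ∀ j, p j ∈ Up}

theorem isOpen_UpJ : IsOpen (UpJ J) := by
  have : UpJ J = ⋂ j, (fun p : J → ℂ × ℝ => p j) ⁻¹' Up := by
    ext p
    simp [UpJ]
  rw [this]
  exact isOpen_iInter_of_finite fun j => isOpen_Up.preimage (continuous_apply j)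

theorem ptv_self (w : J → H3) : ptv (fun j => ((w j).z, (w j).y)) = w := by
  funext j
  exact pt_self (w j)

theorem mem_UpJ (w : J → H3) : (fun j => ((w j).z, (w j).y)) ∈ UpJ J := fun j => (w j).pos

theorem measurePreserving_cs :
    MeasurePreserving (cs : (J → ℂ × ℝ) → J → H3) volume volume :=
  volume_preserving_pi fun _ => measurePreserving_coord_symm

/-- The coordinates as a homeomorphism. -/
def csHomeo : (J → ℂ × ℝ) ≃ₜ (J → H3) := Homeomorph.piCongrRight fun _ => coord.symm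

theorem continuous_cs : Continuous (cs : (J → ℂ × ℝ) → J → H3) := csHomeo.continuous

theorem measurableEmbedding_cs : MeasurableEmbedding (cs : (J → ℂ × ℝ) → J → H3) :=
  (csHomeo (J := J)).measurableEmbedding

theorem integral_cs (g : (J → H3) → ℂ) : ∫ w, g w = ∫ q : J → ℂ × ℝ, g (cs q) :=
  (measurePreserving_cs.integral_comp measurableEmbedding_cs g).symm

/-- Locally integrable functions on `J → H3` (in coordinates). -/
def LocInt (F : (J → H3) → ℂ) : Prop := LocallyIntegrable (fun q : J → ℂ × ℝ => F (cs q))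

theorem locInt_of_bounded {F : (J → H3) → ℂ} (hm : AEStronglyMeasurable F volume) {M : ℝ}
    (hM : ∀ w, ‖F w‖ ≤ M) : LocInt F := by
  have h1 : AEStronglyMeasurable (fun q : J → ℂ × ℝ => F (cs q)) volume :=
    hm.comp_measurePreserving measurePreserving_cs
  intro q
  refine ⟨Metric.ball q 1, Metric.ball_mem_nhds _ one_pos, ?_⟩
  refine ⟨h1.restrict, HasFiniteIntegral.restrict_of_bounded (C := M) measure_ball_lt_top ?_⟩
  exact ae_of_all _ fun q => hM _

theorem locInt_of_continuous {F : (J → H3) → ℂ} (hF : Continuous F) : LocInt F :=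
  (hF.comp continuous_cs).locallyIntegrable

/-- Locally bounded measurable functions are locally integrable. -/
theorem locInt_of_locallyBounded {F : (J → H3) → ℂ} (hm : AEStronglyMeasurable F volume)
    (hM : ∀ w, ∃ U ∈ 𝓝 w, ∃ M : ℝ, ∀ v ∈ U, ‖F v‖ ≤ M) : LocInt F := by
  have h1 : AEStronglyMeasurable (fun q : J → ℂ × ℝ => F (cs q)) volume :=
    hm.comp_measurePreserving measurePreserving_cs
  intro q
  obtain ⟨U, hU, M, hUM⟩ := hM (cs q)
  have h2 : cs ⁻¹' U ∈ 𝓝 q := continuous_cs.continuousAt hU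
  obtain ⟨r, hr, hrU⟩ := Metric.mem_nhds_iff.mp h2
  refine ⟨Metric.ball q r, Metric.ball_mem_nhds _ hr, ?_⟩
  refine ⟨h1.restrict, HasFiniteIntegral.restrict_of_bounded (C := M) measure_ball_lt_top ?_⟩
  rw [ae_restrict_iff' Metric.isOpen_ball.measurableSet]
  exact ae_of_all _ fun q hq => hUM _ (hrU hq)

/-! ### Smoothness of `R(κ) F` -/

open Fermat.Agent.H5Z (chv Rk)

/-- The kernel in coordinates. -/
def KJ (κ : (J → ℝ) → ℂ) (p q : J → ℂ × ℝ) : ℂ := κ (chv (ptv p) (cs q))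

theorem Rk_eq (κ : (J → ℝ) → ℂ) (F : (J → H3) → ℂ) (p : J → ℂ × ℝ) :
    Rk κ F (ptv p) = ∫ q, KJ κ p q * F (cs q) := integral_cs _

theorem contDiffOn_KJ {n : WithTop ℕ∞} (hn : n ≤ ∞) {κ : (J → ℝ) → ℂ} (hκ : ContDiff ℝ n κ) :
    ContDiffOn ℝ n (uncurry (KJ κ)) (UpJ J ×ˢ univ) := by
  have h1 : ContDiffOn ℝ n (fun x : (J → ℂ × ℝ) × (J → ℂ × ℝ) => chv (ptv x.1) (cs x.2))
      (UpJ J ×ˢ univ) := by
    rw [contDiffOn_pi]
    intro j
    have h2 : ContDiff ℝ n (fun x : (J → ℂ × ℝ) × (J → ℂ × ℝ) => (x.1 j, x.2 j)) :=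
      ((contDiff_apply ℝ (ℂ × ℝ) j).comp contDiff_fst).prodMk
        ((contDiff_apply ℝ (ℂ × ℝ) j).comp contDiff_snd)
    have h3 := (contDiffOn_ch.of_le hn).comp
      (f := fun x : (J → ℂ × ℝ) × (J → ℂ × ℝ) => (x.1 j, x.2 j)) (s := UpJ J ×ˢ univ)
      h2.contDiffOn (fun x hx => ⟨hx.1 j, mem_univ _⟩)
    exact h3
  exact hκ.comp_contDiffOn h1

theorem locSupp_KJ {κ : (J → ℝ) → ℂ} {R : ℝ} (hR : ∀ u, (∃ j, R < u j) → κ u = 0) :
    LocSupp (UpJ J) (KJ κ) := by
  intro p₀ hp₀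
  choose s hs k hk hsk using fun j => compact_nbhd R (hp₀ j)
  refine ⟨univ.pi s, set_pi_mem_nhds finite_univ fun j _ => hs j, univ.pi k,
    isCompact_univ_pi hk, fun p hp q hq => hR _ ?_⟩
  simp only [Set.mem_pi, mem_univ, true_implies, not_forall] at hq
  obtain ⟨j, hj⟩ := hq
  exact ⟨j, hsk j _ (hp j (mem_univ _)) _ hj⟩

/-- **Smoothness of `R(κ) F`.** -/
theorem contDiffOn_Rk {n : ℕ∞} {κ : (J → ℝ) → ℂ} (hκ : ContDiff ℝ n κ) {R : ℝ}
    (hR : ∀ u, (∃ j, R < u j) → κ u = 0) {F : (J → H3) → ℂ} (hF : LocInt F) :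
    ContDiffOn ℝ n (fun p => Rk κ F (ptv p)) (UpJ J) := by
  simp_rw [Rk_eq]
  exact contDiffOn_integral_loc isOpen_UpJ (contDiffOn_KJ (by exact_mod_cast le_top) hκ)
    (locSupp_KJ hR) hF

/-! ### The Laplace operator of `R(κ) F` -/

variable [DecidableEq J]

/-- `Lop` in the variable `j`. -/
def LopJ (j : J) (κ : (J → ℝ) → ℂ) (u : J → ℝ) : ℂ := Lop (fun t => κ (update u j t)) (u j)

theorem contDiff_update_const (j : J) (u : J → ℝ) :
    ContDiff ℝ ∞ (fun t : ℝ => update u j t) := by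
  rw [contDiff_pi]
  intro i
  by_cases h : i = j
  · subst h
    simp only [update_self]
    exact contDiff_id
  · simpa [update_of_ne h] using contDiff_const

theorem two_le_infty : (2 : WithTop ℕ∞) ≤ ∞ := WithTop.coe_le_coe.mpr (le_top (a := (2 : ℕ∞)))

theorem Lap_chv {κ : (J → ℝ) → ℂ} (hκ : ContDiff ℝ 2 κ) (j : J) (w x : J → H3) :
    Lap (fun v => κ (chv (update w j v) x)) (w j) = LopJ j κ (chv w x) := by
  have h1 : ContDiff ℝ 2 (fun t : ℝ => κ (update (chv w x) j t)) :=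
    hκ.comp ((contDiff_update_const j _).of_le two_le_infty)
  have h2 : (fun v => κ (chv (update w j v) x)) =
      fun v => (fun t => κ (update (chv w x) j t)) (ch v (x j)) := by
    funext v
    congr 1
    funext i
    by_cases h : i = j
    · subst h
      simp [chv]
    · simp [chv, update_of_ne h]
  rw [h2, Lap_ch h1]
  rfl

/-- **`Lap_j (R(κ) F) = R(LopJ j κ) F`.** -/
theorem Lap_Rk {κ : (J → ℝ) → ℂ} (hκ : ContDiff ℝ 2 κ) {R : ℝ}
    (hR : ∀ u, (∃ j, R < u j) → κ u = 0) {F : (J → H3) → ℂ} (hF : LocInt F) (j : J)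
    (w : J → H3) :
    Lap (fun v => Rk κ F (update w j v)) (w j) = Rk (LopJ j κ) F w := by
  set P : J → ℂ × ℝ := fun j => ((w j).z, (w j).y) with hP
  have hPw : ptv P = w := ptv_self w
  have e1 : ∀ p : ℂ × ℝ, ptv (update P j p) = update w j (pt p.1 p.2) := by
    intro p
    funext i
    by_cases h : i = j
    · subst h
      simp [ptv]
    · simp only [ptv, update_of_ne h]
      exact congrFun hPw i
  have hsm : ContDiff ℝ ∞ (fun p : ℂ × ℝ => update P j p) := by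
    rw [contDiff_pi]
    intro i
    by_cases h : i = j
    · subst h
      simp only [update_self]
      exact contDiff_id
    · simpa [update_of_ne h] using contDiff_const
  have hmaps : MapsTo (fun p : ℂ × ℝ => update P j p) Up (UpJ J) := by
    intro p hp i
    by_cases h : i = j
    · subst h
      simpa using hp
    · simp only [update_of_ne h]
      exact (w i).pos
  have hK : ContDiffOn ℝ 2 (uncurry fun (p : ℂ × ℝ) (q : J → ℂ × ℝ) =>
      κ (chv (update w j (pt p.1 p.2)) (cs q))) (Up ×ˢ univ) := by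
    have h1 : (uncurry fun (p : ℂ × ℝ) (q : J → ℂ × ℝ) =>
        κ (chv (update w j (pt p.1 p.2)) (cs q))) =
        (uncurry (KJ κ)) ∘ fun x : (ℂ × ℝ) × (J → ℂ × ℝ) => (update P j x.1, x.2) := by
      funext x
      simp only [uncurry, comp_apply, KJ, e1]
    rw [h1]
    refine (contDiffOn_KJ two_le_infty hκ).comp (ContDiff.contDiffOn ?_) ?_
    · exact ((hsm.of_le two_le_infty).comp contDiff_fst).prodMk contDiff_snd
    · rintro ⟨p, q⟩ ⟨hp, -⟩
      exact ⟨hmaps hp, mem_univ _⟩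
  have hS : LocSupp Up fun (p : ℂ × ℝ) (q : J → ℂ × ℝ) =>
      κ (chv (update w j (pt p.1 p.2)) (cs q)) := by
    have h1 := (locSupp_KJ hR).comp (Ω' := Up) hsm.continuous hmaps
    simpa only [KJ, e1] using h1
  have h := Lap_integral (k := fun (v : H3) (q : J → ℂ × ℝ) => κ (chv (update w j v) (cs q)))
    hK hS hF (w j)
  have e2 : (fun v => Rk κ F (update w j v)) =
      fun v => ∫ q : J → ℂ × ℝ, κ (chv (update w j v) (cs q)) * F (cs q) := by
    funext v
    exact integral_cs _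
  rw [e2, h]
  simp_rw [Lap_chv hκ]
  exact (integral_cs (fun x => LopJ j κ (chv w x) * F x)).symm

end Fermat.Agent.H74.C3
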