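import Fermat.Agent.H22ZFEd
import Fermat.Agent.H74C3b

/-!
# Fourier expansion on products of hyperbolic 3-spaces: version on `J → H3`, and on `H3`
-/

set_option autoImplicit false
set_option linter.unusedSectionVars false

open MeasureTheory Set Filter Topology Module Function

noncomputable section

namespace Fermat.Agent.H22Z

open H5Z Fermat.Agent.H3 Fermat.Agent.H74.C3

variable {J : Type*} [Fintype J] [DecidableEq J]

/-- Bounded `C²` function on `J → H3` with `Δ_j F = -F` for every `j`. -/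
structure IsEigH (F : (J → H3) → ℂ) (M : ℝ) : Prop where
  smooth : ContDiffOn ℝ 2 (fun p : J → ℂ × ℝ => F (ptv p)) (UpJ J)
  lap : ∀ j w, Lap (fun v => F (update w j v)) (w j) = -F w
  bound : ∀ w, ‖F w‖ ≤ M

/-- Translation of the point `x` by `v`. -/
def trl (v : J → ℂ) (x : J → H3) : J → H3 := fun j => ⟨(x j).z + v j, (x j).y, (x j).pos⟩

theorem ptv_update (p : J → ℂ × ℝ) (j : J) (q : ℂ × ℝ) :
    ptv (update p j q) = update (ptv p) j (pt q.1 q.2) := by
  funext i
  by_cases h : i = j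
  · subst h
    simp [ptv]
  · simp [ptv, update_of_ne h]

theorem lapc_ptv (F : (J → H3) → ℂ) (j : J) {p : J → ℂ × ℝ} (hp : p ∈ Dom J) :
    lapc j (fun p => F (ptv p)) p = Lap (fun v => F (update (ptv p) j v)) (ptv p j) := by
  have hy : (ptv p j).y = (p j).2 := pt_y (hp j)
  have hz : (ptv p j).z = (p j).1 := rfl
  unfold lapc Lap dz1 dz2 dyy dy
  simp only [ptv_update, hy, hz]

theorem per_of_basis {κ : Type*} {E : Type*} [NormedAddCommGroup E] [NormedSpace ℝ E]
    {b : Basis κ ℝ E} {α : Type*} {h : E → α} (hb : ∀ i x, h (x + b i) = h x) : Per b h := by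
  intro x v hv
  have hneg : ∀ v : E, (∀ x, h (x + v) = h x) → ∀ x, h (x + -v) = h x := by
    intro v hv x
    have := hv (x + -v)
    rw [neg_add_cancel_right] at this
    exact this.symm
  have hnsmul : ∀ (v : E), (∀ x, h (x + v) = h x) → ∀ (n : ℕ) (x : E), h (x + n • v) = h x := by
    intro v hv n
    induction n with
    | zero => intro x; simp
    | succ n ih => intro x; rw [add_smul, one_smul, ← add_assoc, hv, ih]
  induction hv using Submodule.span_induction generalizing x with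
  | mem y hy =>
    obtain ⟨i, rfl⟩ := hy
    exact hb i x
  | zero => simp
  | add y z _ _ hy hz => rw [← add_assoc, hz, hy]
  | smul a y _ hy =>
    obtain ⟨n, rfl | rfl⟩ := a.eq_nat_or_neg
    · rw [natCast_zsmul]
      exact hnsmul y (fun x => hy x) n x
    · rw [neg_smul, natCast_zsmul]
      exact hneg _ (hnsmul y (fun x => hy x) n) x

theorem ptv_pz {z : J → ℂ} {y : J → ℝ} (hy : ∀ j, 0 < y j) :
    ptv (pz z y) = fun j => ⟨z j, y j, hy j⟩ := by
  funext j
  exact pt_eq (hy j)

theorem pz_self (x : J → H3) : ptv (pz (fun j => (x j).z) fun j => (x j).y) = x := by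
  rw [ptv_pz fun j => (x j).pos]

variable {κ : Type*} [Fintype κ] {b : Basis κ ℝ (J → ℂ)} {F : (J → H3) → ℂ} {M : ℝ}

theorem IsEigH.isEig (hF : IsEigH F M) (hper : ∀ i x, F (trl (b i) x) = F x) :
    IsEig b (fun p => F (ptv p)) M where
  contDiffOn := hF.smooth
  per y hy := by
    refine per_of_basis fun i z => ?_
    have h := hper i (ptv (pz z y))
    rw [ptv_pz hy] at h
    rw [ptv_pz hy, ptv_pz hy]
    exact h
  lap j p hp := by
    rw [lapc_ptv F j hp]
    exact hF.lap j (ptv p)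
  bound p _ := hF.bound _

/-- **Fourier expansion on `J → H3`.** -/
theorem IsEigH.hasSum (hF : IsEigH F M) (hper : ∀ i x, F (trl (b i) x) = F x) (x : J → H3) :
    HasSum (fun ν : {ν : J → ℂ // IsDual b ν} => wcoef b (fun p => F (ptv p)) ν *
      ((bes (ν : J → ℂ) fun j => (x j).y) : ℝ) * ev (ν : J → ℂ) (fun j => (x j).z)) (F x) := by
  have h := hasSum_expansion (hF.isEig hper) (fun j => (x j).z) (y := fun j => (x j).y)
    fun j => (x j).pos
  simp only [pz_self] at h
  exact h

/-- **Decay on `J → H3`**, uniform in `F`. -/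
theorem IsEigH.decay [Nonempty J] (b : Basis κ ℝ (J → ℂ)) {y₀ : ℝ} (hy₀ : 0 < y₀) :
    ∃ C c : ℝ, 0 < C ∧ 0 < c ∧ ∀ {F : (J → H3) → ℂ} {M : ℝ}, IsEigH F M →
      (∀ i x, F (trl (b i) x) = F x) → ∀ T ≥ y₀, ∀ x : J → H3, (∀ j, T ≤ (x j).y) →
        ‖F x‖ ≤ C * M * Real.exp (-c * T) := by
  obtain ⟨C, c, hC, hc, h⟩ := norm_le_exp b hy₀
  refine ⟨C, c, hC, hc, fun {F M} hF hper T hT x hx => ?_⟩
  have h1 := h (hF.isEig hper) T hT (pz (fun j => (x j).z) fun j => (x j).y) hx
  simp only [pz_self] at h1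
  exact h1

/-- The mean value over the lattice vanishes. -/
theorem IsEigH.mean_zero [Nonempty J] (hF : IsEigH F M) (hper : ∀ i x, F (trl (b i) x) = F x)
    {y : J → ℝ} (hy : ∀ j, 0 < y j) :
    ∫ z in ZSpan.fundamentalDomain b, F (fun j => ⟨z j, y j, hy j⟩) = 0 := by
  have h1 := int_eq_zero b (hF.isEig hper).contDiffOn (hF.isEig hper).per (Classical.arbitrary J)
    ((hF.isEig hper).lap _) (hF.isEig hper).bound hy (ν := 0)
    (isDual_iff.mpr fun i => ⟨0, by simp⟩) rfl
  simpa only [neg_zero, ev_zero_left, one_mul, ptv_pz hy] using h1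

/-! ### One variable -/

/-- Bounded `C²` function on `H3` with `Δ F = -F`. -/
structure IsEig1 (F : H3 → ℂ) (M : ℝ) : Prop where
  smooth : ContDiffOn ℝ 2 (fun p : ℂ × ℝ => F (pt p.1 p.2)) {p | 0 < p.2}
  lap : ∀ w, Lap F w = -F w
  bound : ∀ w, ‖F w‖ ≤ M

variable {G : H3 → ℂ}

theorem IsEig1.isEigH (hG : IsEig1 G M) : IsEigH (fun w : Unit → H3 => G (w ())) M where
  smooth := by
    have h : ContDiff ℝ 2 fun p : Unit → ℂ × ℝ => p () := by fun_prop
    exact hG.smooth.comp h.contDiffOn fun p hp => hp ()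
  lap j w := by
    have : (fun v => (fun w : Unit → H3 => G (w ())) (update w j v)) = G := by
      funext v
      simp
    rw [this]
    exact hG.lap (w ())
  bound w := hG.bound _

/-- The basis of `Unit → ℂ` attached to a basis of `ℂ`. -/
def ub (b : Basis κ ℝ ℂ) : Basis κ ℝ (Unit → ℂ) := b.map (LinearEquiv.funUnique Unit ℝ ℂ).symm

theorem ub_apply (b : Basis κ ℝ ℂ) (i : κ) : ub b i () = b i := by
  simp [ub]

/-- translation -/
def trl1 (v : ℂ) (x : H3) : H3 := ⟨x.z + v, x.y, x.pos⟩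

/-- **Fourier expansion on `H3`.** -/
theorem IsEig1.hasSum {b : Basis κ ℝ ℂ} (hG : IsEig1 G M) (hper : ∀ i x, G (trl1 (b i) x) = G x) :
    ∃ c : ℂ → ℂ, c 0 = 0 ∧ (∀ ν, c ν ≠ 0 → ∀ i, ∃ n : ℤ, 2 * (ν * b i).re = n) ∧
      (∀ ν, ‖c ν‖ ≤ M * (‖ν‖ / K0 (4 * Real.pi))) ∧
      (∀ ν, ∀ y : ℝ, (∀ i, ∃ n : ℤ, 2 * (ν * b i).re = n) → ∀ hy : 0 < y,
        ((volume : Measure ℂ).real (ZSpan.fundamentalDomain b) : ℂ)⁻¹ *
        ∫ z in ZSpan.fundamentalDomain b,
          Complex.exp (-(2 * Real.pi * Complex.I * ((2 * (ν * z).re : ℝ) : ℂ))) * G ⟨z, y, hy⟩ =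
        c ν * (y * K0 (4 * Real.pi * ‖ν‖ * y) : ℝ)) ∧
      ∀ x : H3, HasSum (fun ν => c ν * (x.y * K0 (4 * Real.pi * ‖ν‖ * x.y) : ℝ) *
        Complex.exp (2 * Real.pi * Complex.I * ((2 * (ν * x.z).re : ℝ) : ℂ))) (G x) := by
  classical
  have hper' : ∀ (i : κ) (x : Unit → H3), (fun w : Unit → H3 => G (w ())) (trl (ub b i) x) =
      (fun w : Unit → H3 => G (w ())) x := by
    intro i x
    show G (trl (ub b i) x ()) = G (x ())
    have : trl (ub b i) x () = trl1 (b i) (x ()) := by
      ext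
      · simp [trl, trl1, ub_apply]
      · rfl
    rw [this]
    exact hper i _
  have hE := hG.isEigH.isEig (b := ub b) hper'
  set f := fun p : Unit → ℂ × ℝ => (fun w : Unit → H3 => G (w ())) (ptv p) with hf
  have hprg : ∀ ν z : ℂ, prg (fun _ : Unit => ν) (fun _ => z) = 2 * (ν * z).re := by
    intro ν z
    simp [prg]
  have hdual : ∀ ν : ℂ, IsDual (ub b) (fun _ => ν) ↔ ∀ i, ∃ n : ℤ, 2 * (ν * b i).re = n := by
    intro ν
    rw [isDual_iff]
    refine forall_congr' fun i => ?_
    have : prg (fun _ : Unit => ν) (ub b i) = 2 * (ν * b i).re := by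
      rw [← hprg]
      congr 1
    rw [this]
  set c : ℂ → ℂ := fun ν => if IsDual (ub b) (fun _ => ν) then wcoef (ub b) f (fun _ => ν) else 0
    with hc
  refine ⟨c, ?_, ?_, ?_, ?_, ?_⟩
  · have h0 : IsDual (ub b) (fun _ : Unit => (0 : ℂ)) :=
      (hdual 0).mpr fun i => ⟨0, by simp⟩
    show (if IsDual (ub b) (fun _ => (0 : ℂ)) then wcoef (ub b) f (fun _ => (0 : ℂ)) else 0) = 0
    rw [if_pos h0]
    exact wcoef_eq_zero hE h0 ⟨(), rfl⟩
  · intro ν hν
    by_contra hcon
    apply hν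
    show (if IsDual (ub b) (fun _ => ν) then wcoef (ub b) f (fun _ => ν) else 0) = 0
    rw [if_neg (fun h => hcon ((hdual ν).mp h))]
  · intro ν
    have hM := bound_nonneg hE.bound
    have hK : 0 < K0 (4 * Real.pi) := K0_pos (by positivity)
    by_cases h : IsDual (ub b) (fun _ => ν)
    · show ‖(if IsDual (ub b) (fun _ => ν) then wcoef (ub b) f (fun _ => ν) else 0)‖ ≤ _
      rw [if_pos h]
      simpa using norm_wcoef_le hE h
    · show ‖(if IsDual (ub b) (fun _ => ν) then wcoef (ub b) f (fun _ => ν) else 0)‖ ≤ _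
      rw [if_neg h, norm_zero]
      positivity
  · intro ν y hint hy
    have h : IsDual (ub b) (fun _ : Unit => ν) := (hdual ν).mpr hint
    have h1 := coefA_eq hE h (y := fun _ => y) (fun _ => hy)
    have h2 : bes (fun _ : Unit => ν) (fun _ => y) = y * K0 (4 * Real.pi * ‖ν‖ * y) := by
      simp [bes]
    show _ = (if IsDual (ub b) (fun _ => ν) then wcoef (ub b) f (fun _ => ν) else 0) * _
    rw [if_pos h, ← h2, ← h1]
    unfold coefA
    -- transfer of the integral
    set e := (MeasurableEquiv.funUnique Unit ℂ) with he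
    have hmp : MeasurePreserving e volume volume := volume_preserving_funUnique Unit ℂ
    have hpre : e ⁻¹' ZSpan.fundamentalDomain b = ZSpan.fundamentalDomain (ub b) := by
      ext t
      simp only [mem_preimage, ZSpan.mem_fundamentalDomain]
      refine forall_congr' fun i => ?_
      have : (ub b).repr t i = b.repr (e t) i := by
        simp only [ub, Basis.map_repr, LinearEquiv.trans_apply, LinearEquiv.symm_symm]
        rfl
      rw [this]
    have hvol : (volume : Measure (Unit → ℂ)).real (ZSpan.fundamentalDomain (ub b)) =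
        (volume : Measure ℂ).real (ZSpan.fundamentalDomain b) := by
      rw [← hpre, Measure.real, Measure.real, hmp.measure_preimage_equiv]
    rw [hvol, ← hpre]
    congr 1
    rw [← hmp.setIntegral_preimage_emb e.measurableEmbedding]
    refine integral_congr_ae (Eventually.of_forall fun z => ?_)
    have hz : z = fun _ => z () := by
      funext u
      rfl
    have e1 : ev (-fun _ : Unit => ν) z =
        Complex.exp (-(2 * Real.pi * Complex.I * ((2 * (ν * e z).re : ℝ) : ℂ))) := by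
      unfold ev
      rw [prg_neg_left, hz, hprg]
      push_cast
      congr 1
      ring_nf
      rfl
    have e2 : f (pz z fun _ => y) = G ⟨e z, y, hy⟩ := by
      rw [hf]
      simp only
      rw [ptv_pz fun _ => hy]
      rfl
    simp only
    rw [e1, e2]
  · intro x
    have h := hasSum_expansion hE (fun _ => x.z) (y := fun _ => x.y) fun _ => x.pos
    have h2 : f (pz (fun _ => x.z) fun _ => x.y) = G x := by
      rw [hf]
      simp only
      rw [ptv_pz fun _ => x.pos]
    rw [h2] at h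
    have hinj : Injective fun ν : {ν : Unit → ℂ // IsDual (ub b) ν} => ν.1 () := by
      intro ν ν' hh
      apply Subtype.ext
      funext u
      exact hh
    rw [← hinj.hasSum_iff]
    · have e : ((fun ν : ℂ => c ν * (x.y * K0 (4 * Real.pi * ‖ν‖ * x.y) : ℝ) *
          Complex.exp (2 * Real.pi * Complex.I * ((2 * (ν * x.z).re : ℝ) : ℂ))) ∘
          fun ν : {ν : Unit → ℂ // IsDual (ub b) ν} => ν.1 ()) =
          fun ν : {ν : Unit → ℂ // IsDual (ub b) ν} => wcoef (ub b) f ν *
            ((bes (ν : Unit → ℂ) fun _ => x.y) : ℝ) * ev (ν : Unit → ℂ) (fun _ => x.z) := by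
        funext ν
        have hν : (fun _ : Unit => ν.1 ()) = ν.1 := by
          funext u
          rfl
        have h3 : c (ν.1 ()) = wcoef (ub b) f ν.1 := by
          show (if IsDual (ub b) (fun _ => ν.1 ()) then wcoef (ub b) f (fun _ => ν.1 ()) else 0) = _
          rw [hν, if_pos ν.2]
        have h4 : bes ν.1 (fun _ => x.y) = x.y * K0 (4 * Real.pi * ‖ν.1 ()‖ * x.y) := by
          simp [bes]
        have h5 : ev ν.1 (fun _ => x.z) =
            Complex.exp (2 * Real.pi * Complex.I * ((2 * (ν.1 () * x.z).re : ℝ) : ℂ)) := by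
          unfold ev
          rw [← hprg, hν]
        show c (ν.1 ()) * _ * _ = _
        rw [h3, h4, h5]
      rw [e]
      exact h
    · intro ν hν
      have h3 : c ν = 0 := by
        show (if IsDual (ub b) (fun _ => ν) then wcoef (ub b) f (fun _ => ν) else 0) = 0
        rw [if_neg]
        intro hd
        exact hν ⟨⟨fun _ => ν, hd⟩, rfl⟩
      rw [h3, zero_mul, zero_mul]

/-- **The constant term vanishes** (bounded eigenfunction on `H3`). -/
theorem IsEig1.mean_zero {b : Basis κ ℝ ℂ} (hG : IsEig1 G M)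
    (hper : ∀ i x, G (trl1 (b i) x) = G x) {y : ℝ} (hy : 0 < y) :
    ∫ z in ZSpan.fundamentalDomain b, G ⟨z, y, hy⟩ = 0 := by
  obtain ⟨c, h0, -, -, h, -⟩ := hG.hasSum hper
  have h1 := h 0 y (fun i => ⟨0, by simp⟩) hy
  rw [h0, zero_mul] at h1
  have h2 : ((volume : Measure ℂ).real (ZSpan.fundamentalDomain b) : ℂ)⁻¹ ≠ 0 := by
    rw [ne_eq, inv_eq_zero]
    exact_mod_cast (measureReal_fundamentalDomain_pos (volume : Measure ℂ) b).ne'
  have h3 := (mul_eq_zero.mp h1).resolve_left h2
  simpa using h3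

/-- **Decay on `H3`.** -/
theorem IsEig1.decay (b : Basis κ ℝ ℂ) {y₀ : ℝ} (hy₀ : 0 < y₀) :
    ∃ C c : ℝ, 0 < C ∧ 0 < c ∧ ∀ {G : H3 → ℂ} {M : ℝ}, IsEig1 G M →
      (∀ i x, G (trl1 (b i) x) = G x) → ∀ x : H3, y₀ ≤ x.y →
        ‖G x‖ ≤ C * M * Real.exp (-c * x.y) := by
  obtain ⟨C, c, hC, hc, h⟩ := IsEigH.decay (ub b) hy₀
  refine ⟨C, c, hC, hc, fun {G M} hG hper x hx => ?_⟩
  have hper' : ∀ (i : κ) (x : Unit → H3), (fun w : Unit → H3 => G (w ())) (trl (ub b i) x) =
      (fun w : Unit → H3 => G (w ())) x := by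
    intro i x
    show G (trl (ub b i) x ()) = G (x ())
    have : trl (ub b i) x () = trl1 (b i) (x ()) := by
      ext
      · simp [trl, trl1, ub_apply]
      · rfl
    rw [this]
    exact hper i _
  exact h hG.isEigH hper' x.y hx (fun _ => x) fun _ => le_rfl

end Fermat.Agent.H22Z
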