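import Fermat.Agent.H5ZLat

/-!
# Fourier expansion of continuous functions periodic with respect to a lattice

`b : Basis κ ℝ E`, lattice `span ℤ (range b)`, `chr b n x = exp (2πi ∑ n_i x_i)`,
`fcoef b μ n h` = mean value of `chr b (-n) h` over a fundamental domain.
If the Fourier coefficients of a continuous periodic function are summable, the Fourier series
converges to the function.
-/

set_option autoImplicit false
set_option linter.unusedSectionVars false

open MeasureTheory Set Filter Topology Module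

noncomputable section

namespace Fermat.Agent.H22Z

open H5Z

variable {κ : Type*} [Fintype κ] {E : Type*} [NormedAddCommGroup E] [NormedSpace ℝ E]
  [FiniteDimensional ℝ E]

/-- The character `x ↦ exp (2πi ∑ n_i x_i)` of the lattice spanned by `b`. -/
def chr (b : Basis κ ℝ E) (n : κ → ℤ) (x : E) : ℂ :=
  Complex.exp (2 * Real.pi * Complex.I * ((∑ i, (n i : ℝ) * b.repr x i : ℝ) : ℂ))

theorem chr_add (b : Basis κ ℝ E) (n : κ → ℤ) (x y : E) :
    chr b n (x + y) = chr b n x * chr b n y := by
  unfold chr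
  rw [← Complex.exp_add, ← mul_add, ← Complex.ofReal_add, ← Finset.sum_add_distrib]
  have : ∀ i, (n i : ℝ) * b.repr (x + y) i = (n i : ℝ) * b.repr x i + (n i : ℝ) * b.repr y i := by
    intro i
    rw [map_add, Finsupp.add_apply, mul_add]
  simp only [this]

theorem chr_neg_mul (b : Basis κ ℝ E) (n : κ → ℤ) (x : E) : chr b (-n) x * chr b n x = 1 := by
  unfold chr
  rw [← Complex.exp_add, ← mul_add, ← Complex.ofReal_add, ← Finset.sum_add_distrib]
  simp

theorem norm_chr (b : Basis κ ℝ E) (n : κ → ℤ) (x : E) : ‖chr b n x‖ = 1 := by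
  unfold chr
  rw [show 2 * (Real.pi : ℂ) * Complex.I * ((∑ i, (n i : ℝ) * b.repr x i : ℝ) : ℂ) =
    ((2 * Real.pi * ∑ i, (n i : ℝ) * b.repr x i : ℝ) : ℂ) * Complex.I by push_cast; ring]
  exact Complex.norm_exp_ofReal_mul_I _

theorem chr_lattice (b : Basis κ ℝ E) (n : κ → ℤ) {v : E}
    (hv : v ∈ Submodule.span ℤ (Set.range b)) : chr b n v = 1 := by
  have h := (b.mem_span_iff_repr_mem ℤ v).mp hv
  choose m hm using h
  unfold chr
  have : (∑ i, (n i : ℝ) * b.repr v i : ℝ) = ((∑ i, n i * m i : ℤ) : ℝ) := by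
    push_cast
    refine Finset.sum_congr rfl fun i _ => ?_
    rw [← hm i]
    simp
  rw [this]
  rw [show 2 * (Real.pi : ℂ) * Complex.I * (((∑ i, n i * m i : ℤ) : ℝ) : ℂ) =
    ((∑ i, n i * m i : ℤ) : ℂ) * (2 * Real.pi * Complex.I) by push_cast; ring]
  exact Complex.exp_int_mul_two_pi_mul_I _

theorem per_chr (b : Basis κ ℝ E) (n : κ → ℤ) : Per b (chr b n) := by
  intro x v hv
  rw [chr_add, chr_lattice b n hv, mul_one]

theorem continuous_chr (b : Basis κ ℝ E) (n : κ → ℤ) : Continuous (chr b n) := by
  unfold chr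
  refine Complex.continuous_exp.comp (continuous_const.mul (Complex.continuous_ofReal.comp ?_))
  refine continuous_finsetSum _ fun i _ => continuous_const.mul ?_
  have : Continuous fun x => b.equivFunL x i := by fun_prop
  exact this

/-- unit cube -/
def cube (κ : Type*) : Set (κ → ℝ) := {t | ∀ i, t i ∈ Ioc (0 : ℝ) (0 + 1)}

theorem cube_eq : cube κ = Set.pi univ fun _ : κ => Ioc (0 : ℝ) 1 := by
  ext t
  simp [cube]

theorem cube_ae_eq : (Set.pi univ fun _ : κ => Ico (0 : ℝ) 1) =ᵐ[(volume : Measure (κ → ℝ))]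
    cube κ := by
  rw [cube_eq]
  exact Measure.univ_pi_Ico_ae_eq_Icc.trans Measure.univ_pi_Ioc_ae_eq_Icc.symm

variable [MeasurableSpace E] [BorelSpace E] (μ : Measure E) [μ.IsAddHaarMeasure]

theorem preimage_fundamentalDomain (b : Basis κ ℝ E) :
    b.equivFunL.symm ⁻¹' ZSpan.fundamentalDomain b = Set.pi univ fun _ : κ => Ico (0 : ℝ) 1 := by
  ext t
  simp only [mem_preimage, ZSpan.mem_fundamentalDomain, Set.mem_pi, mem_univ, forall_true_left]
  refine forall_congr' fun i => ?_
  have : b.repr (b.equivFunL.symm t) i = t i := by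
    have : b.equivFunL (b.equivFunL.symm t) = t := b.equivFunL.apply_symm_apply t
    exact congrFun this i
  rw [this]

/-- Integrals over the fundamental parallelepiped in coordinates. -/
theorem setIntegral_fundamentalDomain (b : Basis κ ℝ E) (g : E → ℂ) :
    ∫ x in ZSpan.fundamentalDomain b, g x ∂μ =
      (μ.real (ZSpan.fundamentalDomain b) : ℂ) * ∫ t in cube κ, g (b.equivFunL.symm t) := by
  set T := b.equivFunL.symm with hT
  have hTm : MeasurableEmbedding T := T.toHomeomorph.measurableEmbedding
  have : (Measure.map T (volume : Measure (κ → ℝ))).IsAddHaarMeasure :=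
    ContinuousLinearEquiv.isAddHaarMeasure_map T _
  obtain ⟨c, hc⟩ : ∃ c : NNReal, μ = c • Measure.map T (volume : Measure (κ → ℝ)) :=
    ⟨_, Measure.isAddLeftInvariant_eq_smul μ _⟩
  have hvol : (Measure.map T (volume : Measure (κ → ℝ))).real (ZSpan.fundamentalDomain b) = 1 := by
    rw [Measure.real, hTm.map_apply, preimage_fundamentalDomain, volume_pi, Measure.pi_pi]
    simp
  have hμ : μ.real (ZSpan.fundamentalDomain b) = c := by
    rw [hc, Measure.real, Measure.smul_apply]
    rw [Measure.real] at hvol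
    rw [ENNReal.toReal_smul, hvol]
    simp [NNReal.smul_def]
  rw [hμ]
  have h1 : ∫ x in ZSpan.fundamentalDomain b, g x ∂μ =
      c • ∫ x in ZSpan.fundamentalDomain b, g x ∂(Measure.map T (volume : Measure (κ → ℝ))) := by
    conv_lhs => rw [hc]
    rw [Measure.restrict_smul]
    exact integral_smul_nnreal_measure _ c
  rw [h1, hTm.setIntegral_map, preimage_fundamentalDomain,
    setIntegral_congr_set (cube_ae_eq (κ := κ))]
  rw [NNReal.smul_def, Complex.real_smul]

theorem measureReal_fundamentalDomain_pos (b : Basis κ ℝ E) :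
    0 < μ.real (ZSpan.fundamentalDomain b) := by
  refine lt_of_le_of_ne measureReal_nonneg (Ne.symm ?_)
  rw [Measure.real, ENNReal.toReal_ne_zero]
  exact ⟨ZSpan.measure_fundamentalDomain_ne_zero b,
    (ZSpan.fundamentalDomain_isBounded b).measure_lt_top.ne⟩

/-- The Fourier coefficients of a periodic function. -/
def fcoef (b : Basis κ ℝ E) (n : κ → ℤ) (h : E → ℂ) : ℂ :=
  (μ.real (ZSpan.fundamentalDomain b) : ℂ)⁻¹ * ∫ x in ZSpan.fundamentalDomain b, chr b (-n) x * h x ∂μ

theorem fcoef_eq (b : Basis κ ℝ E) (n : κ → ℤ) (h : E → ℂ) :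
    fcoef μ b n h = ∫ t in cube κ, chr b (-n) (b.equivFunL.symm t) * h (b.equivFunL.symm t) := by
  unfold fcoef
  rw [setIntegral_fundamentalDomain μ b (fun x => chr b (-n) x * h x), ← mul_assoc,
    inv_mul_cancel₀ (by exact_mod_cast (measureReal_fundamentalDomain_pos μ b).ne'), one_mul]

/-- `‖fcoef‖ ≤ sup ‖h‖` -/
theorem norm_fcoef_le (b : Basis κ ℝ E) (n : κ → ℤ) {h : E → ℂ} {M : ℝ} (hM : ∀ x, ‖h x‖ ≤ M) :
    ‖fcoef μ b n h‖ ≤ M := by
  rw [fcoef_eq]
  have hvol : (volume : Measure (κ → ℝ)).real (cube κ) = 1 := by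
    rw [cube_eq, Measure.real, volume_pi, Measure.pi_pi]
    simp
  have hfin : (volume : Measure (κ → ℝ)) (cube κ) < ⊤ := by
    rw [cube_eq, volume_pi, Measure.pi_pi]
    simp
  have := norm_setIntegral_le_of_norm_le_const (μ := (volume : Measure (κ → ℝ)))
    (f := fun t => chr b (-n) (b.equivFunL.symm t) * h (b.equivFunL.symm t)) (C := M) hfin
    (fun t _ => by rw [norm_mul, norm_chr, one_mul]; exact hM _)
  rwa [hvol, mul_one] at this

/-- The quotient map to the torus. -/
def toTorus (κ : Type*) (t : κ → ℝ) : UnitAddTorus κ := fun i => (t i : UnitAddCircle)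

theorem isOpenQuotientMap_toTorus : IsOpenQuotientMap (toTorus κ) :=
  IsOpenQuotientMap.piMap (f := fun _ : κ => fun x : ℝ => (x : UnitAddCircle))
    fun _ => QuotientAddGroup.isOpenQuotientMap_mk

theorem mFourier_toTorus (n : κ → ℤ) (t : κ → ℝ) :
    UnitAddTorus.mFourier n (toTorus κ t) =
      Complex.exp (2 * Real.pi * Complex.I * ((∑ i, (n i : ℝ) * t i : ℝ) : ℂ)) := by
  show ∏ i, fourier (n i) ((t i : UnitAddCircle)) = _
  simp only [fourier_coe_apply]
  rw [← Complex.exp_sum]
  congr 1
  push_cast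
  rw [Finset.mul_sum]
  refine Finset.sum_congr rfl fun i _ => ?_
  simp only [div_one]
  ring

theorem chr_symm (b : Basis κ ℝ E) (n : κ → ℤ) (t : κ → ℝ) :
    chr b n (b.equivFunL.symm t) = UnitAddTorus.mFourier n (toTorus κ t) := by
  rw [mFourier_toTorus]
  unfold chr
  have : ∀ i, b.repr (b.equivFunL.symm t) i = t i := fun i => by
    have : b.equivFunL (b.equivFunL.symm t) = t := b.equivFunL.apply_symm_apply t
    exact congrFun this i
  simp only [this]

/-- **Fourier expansion** of a continuous periodic function with summable coefficients. -/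
theorem hasSum_fcoef {b : Basis κ ℝ E} {h : E → ℂ} (hper : Per b h) (hc : Continuous h)
    (hs : Summable fun n => fcoef μ b n h) (x : E) :
    HasSum (fun n => fcoef μ b n h * chr b n x) (h x) := by
  have hq := isOpenQuotientMap_toTorus (κ := κ)
  set T := b.equivFunL.symm with hT
  set H : UnitAddTorus κ → ℂ := fun x => h (T (Function.surjInv hq.surjective x)) with hH
  have hHq : ∀ t, H (toTorus κ t) = h (T t) := by
    intro t
    set t' := Function.surjInv hq.surjective (toTorus κ t) with ht'
    have h1 : toTorus κ t' = toTorus κ t := Function.surjInv_eq hq.surjective _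
    have h2 : ∀ i, ∃ m : ℤ, t' i = t i + m := by
      intro i
      have h3 := congrFun h1 i
      have h5 : ((t' i - t i : ℝ) : UnitAddCircle) = 0 := by
        have : ((t' i - t i : ℝ) : UnitAddCircle) = (t' i : UnitAddCircle) - (t i) := by
          rfl
        rw [this]
        exact sub_eq_zero.mpr h3
      obtain ⟨m, hm⟩ := (AddCircle.coe_eq_zero_iff _).mp h5
      refine ⟨m, ?_⟩
      simp only [zsmul_eq_mul, mul_one] at hm
      linarith
    choose m hm using h2
    show h (T t') = h (T t)
    have h6 : T t' = T t + T (fun i => (m i : ℝ)) := by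
      rw [← map_add]
      congr 1
      funext i
      exact hm i
    rw [h6]
    refine hper _ _ ?_
    rw [b.mem_span_iff_repr_mem ℤ]
    intro i
    refine ⟨m i, ?_⟩
    have : b.equivFunL (T fun i => (m i : ℝ)) = fun i => (m i : ℝ) :=
      b.equivFunL.apply_symm_apply _
    have h7 := congrFun this i
    simp only [eq_intCast]
    exact h7.symm
  have hcont : Continuous H := by
    rw [hq.isQuotientMap.continuous_iff]
    have : H ∘ toTorus κ = fun t => h (T t) := funext hHq
    rw [this]
    exact hc.comp T.continuous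
  set Hc : C(UnitAddTorus κ, ℂ) := ⟨H, hcont⟩ with hHc
  have hcoef : ∀ n, UnitAddTorus.mFourierCoeff Hc n = fcoef μ b n h := by
    intro n
    rw [UnitAddTorus.mFourierCoeff_eq_integral Hc n 0, fcoef_eq]
    show ∫ t in cube κ, UnitAddTorus.mFourier (-n) (toTorus κ t) • H (toTorus κ t) = _
    simp only [hHq, smul_eq_mul, chr_symm]
    rfl
  have hs' : Summable (UnitAddTorus.mFourierCoeff Hc) := by
    rw [show UnitAddTorus.mFourierCoeff Hc = fun n => fcoef μ b n h from funext hcoef]
    exact hs
  have h8 := UnitAddTorus.hasSum_mFourier_series_apply_of_summable hs'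
    (toTorus κ (b.equivFunL x))
  have h9 : Hc (toTorus κ (b.equivFunL x)) = h x := by
    show H _ = _
    rw [hHq, hT, b.equivFunL.symm_apply_apply]
  rw [h9] at h8
  have h10 : ∀ n, UnitAddTorus.mFourierCoeff Hc n • UnitAddTorus.mFourier n
      (toTorus κ (b.equivFunL x)) = fcoef μ b n h * chr b n x := by
    intro n
    rw [← chr_symm b, b.equivFunL.symm_apply_apply, smul_eq_mul, hcoef]
  simpa only [h10] using h8

end Fermat.Agent.H22Z
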