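import Mathlib
import Fermat.Agent.H80Stab
import Fermat.Agent.H23LevelOne
import Fermat.Prelude.Thm_CongruenceSubgroup_one_mem_strictPeriods_Gamma0

/-!
# A primitive element for level `N` with integral `q`-expansion
-/

set_option autoImplicit false

noncomputable section

open UpperHalfPlane ModularForm MatrixGroups CongruenceSubgroup

namespace Fermat.Agent.H23

local notation "𝕢" => Function.Periodic.qParam

variable (N : ℕ) [NeZero N]

lemma dN_apply (τ : ℍ) :
    H80.dN N τ = (N : ℂ) ^ 11 * ModularForm.discriminant (heckeDiagMatrix N • τ) := by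
  rw [H80.dN, slash_heckeDiagMatrix_apply _ (NeZero.ne N)]
  norm_num

lemma qExpansion_dN (m : ℕ) : (qExpansion 1 (H80.dNForm N)).coeff m =
    if N ∣ m then (N : ℂ) ^ 11 * (qExpansion 1 CuspForm.discriminant).coeff (m / N) else 0 := by
  symm
  have hN : 0 < N := Nat.pos_of_ne_zero (NeZero.ne N)
  refine ModularFormClass.qExpansion_coeff_unique
    (c := fun m => if N ∣ m then (N : ℂ) ^ 11 *
      (qExpansion 1 CuspForm.discriminant).coeff (m / N) else 0) one_pos
    (CongruenceSubgroup.one_mem_strictPeriods_Gamma0 N) (f := H80.dNForm N) ?_ m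
  intro τ
  have h1 := ModularForm.hasSum_qExpansion (k := 12) (f := CuspForm.discriminant) one_pos
    one_mem_strictPeriods_SL (heckeDiagMatrix N • τ)
  have h2 := h1.mul_left ((N : ℂ) ^ 11)
  rw [H80.coe_dNForm, dN_apply]
  have hinj : Function.Injective (fun m : ℕ => N * m) := fun a b h => Nat.eq_of_mul_eq_mul_left hN h
  rw [← hinj.hasSum_iff]
  · convert! h2 using 2 with m
    have hq : 𝕢 (1 : ℝ) ((heckeDiagMatrix N • τ : ℍ) : ℂ) = 𝕢 (1 : ℝ) (τ : ℂ) ^ N := by
      rw [coe_heckeDiagMatrix_smul (NeZero.ne N), Function.Periodic.qParam,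
        Function.Periodic.qParam, ← Complex.exp_nat_mul]
      congr 1
      push_cast
      ring
    simp only [Function.comp_apply, Nat.dvd_mul_right, if_true, Nat.mul_div_cancel_left _ hN]
    rw [hq, ← pow_mul, smul_eq_mul, mul_assoc]
  · intro m hm
    have : ¬ N ∣ m := fun ⟨d, hd⟩ => hm ⟨d, hd.symm⟩
    simp [this]

lemma intPS_primitive :
    IntPS (qExpansion 1 ((1728 : ℂ) • H80.dNForm N : ModularForm (Gamma0 N) 12)) := by
  intro m
  rw [FunLike.coe_smul, ModularForm.qExpansion_smul one_pos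
    (CongruenceSubgroup.one_mem_strictPeriods_Gamma0 N), PowerSeries.coeff_smul, qExpansion_dN]
  split_ifs with h
  · obtain ⟨z, hz⟩ := intPS_disc (m / N)
    refine ⟨(N : ℤ) ^ 11 * z, ?_⟩
    rw [PowerSeries.coeff_smul, smul_eq_mul] at hz
    push_cast
    rw [← hz, smul_eq_mul]
    ring
  · exact ⟨0, by simp⟩

/-- A modular form of level `Γ₀(N)` with integral `q`-expansion and stabiliser `Γ₀(N)`. -/
theorem exists_primitive : ∃ g : ModularForm (Gamma0 N) 12,
    (∀ m, ∃ z : ℤ, (qExpansion 1 g).coeff m = z) ∧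
    ∀ γ : SL(2, ℤ), (⇑g ∣[(12 : ℤ)] γ = ⇑g) → γ ∈ Gamma0 N := by
  refine ⟨(1728 : ℂ) • H80.dNForm N, intPS_primitive N, fun γ hγ => ?_⟩
  apply H80.mem_Gamma0_of_dN_slash N
  rw [FunLike.coe_smul, ModularForm.SL_smul_slash, H80.coe_dNForm] at hγ
  have h := congrArg (fun F : ℍ → ℂ => (1728 : ℂ)⁻¹ • F) hγ
  simpa [smul_smul] using h

end Fermat.Agent.H23
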