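import Fermat.Agent.H31Hyp1

/-!
# The terms of the theta kernel of signature (3,1) and the weight one Laplacian (helper23, S47 T3)

For a Hermitian matrix `X = (a b; b̄ d)` and `w ∈ H3` put `Q = |b|² - a d`, `t = (X, X_w)`;
the term of the theta kernel is `θ(τ, w) = v^(1/2) e(τ Q) exp(-4 π v t²)`.

* `hasF_th`, `hasF_h`: real derivatives in `τ` in the form `A dτ + B dτ̄`;
  `v ∂θ/∂τ̄ = h`, `∂h/∂τ = (16 v)⁻¹ (Δ + 1) θ`.
-/

set_option autoImplicit false
set_option linter.unusedSectionVars false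

noncomputable section

open Complex
open scoped ComplexConjugate Real

namespace Fermat.Agent.H23T

/-! ### Real derivatives -/

/-- the real linear map `A dτ + B dτ̄` -/
def dW (A B : ℂ) : ℂ →L[ℝ] ℂ :=
  A • ContinuousLinearMap.id ℝ ℂ + B • (conjCLE : ℂ →L[ℝ] ℂ)

@[simp] theorem dW_apply (A B x : ℂ) : dW A B x = A * x + B * conj x := by
  simp [dW]

theorem dW_add (A B A' B' : ℂ) : dW A B + dW A' B' = dW (A + A') (B + B') := by
  ext x; simp; ring

theorem norm_dW_le (A B : ℂ) : ‖dW A B‖ ≤ ‖A‖ + ‖B‖ := by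
  refine ContinuousLinearMap.opNorm_le_bound _ (by positivity) fun x => ?_
  rw [dW_apply]
  calc ‖A * x + B * conj x‖ ≤ ‖A * x‖ + ‖B * conj x‖ := norm_add_le _ _
    _ = (‖A‖ + ‖B‖) * ‖x‖ := by
      rw [norm_mul, norm_mul, Complex.norm_conj]; ring

theorem hasF_congr {f : ℂ → ℂ} {A B A' B' x : ℂ} (h : HasFDerivAt f (dW A B) x) (hA : A = A')
    (hB : B = B') : HasFDerivAt f (dW A' B') x := by
  rw [← hA, ← hB]; exact h

theorem hasF_mul {f g : ℂ → ℂ} {A B A' B' x : ℂ} (hf : HasFDerivAt f (dW A B) x)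
    (hg : HasFDerivAt g (dW A' B') x) :
    HasFDerivAt (fun y => f y * g y) (dW (f x * A' + A * g x) (f x * B' + B * g x)) x := by
  have h := hf.mul hg
  refine h.congr_fderiv ?_
  ext y; simp; ring

/-- holomorphic functions -/
theorem hasF_of_hasDerivAt {f : ℂ → ℂ} {A x : ℂ} (h : HasDerivAt f A x) :
    HasFDerivAt f (dW A 0) x := by
  have h1 := h.hasFDerivAt.restrictScalars ℝ
  refine h1.congr_fderiv ?_
  ext y; simp [mul_comm]

/-- functions of the imaginary part -/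
theorem hasF_im {p : ℝ → ℝ} {p' : ℝ} {x : ℂ} (h : HasDerivAt p p' x.im) :
    HasFDerivAt (fun y : ℂ => ((p y.im : ℝ) : ℂ)) (dW (-(I / 2) * p') (I / 2 * p')) x := by
  have h1 : HasFDerivAt (fun y : ℂ => y.im) (Complex.imCLM) x := Complex.imCLM.hasFDerivAt
  have h2 := h.hasFDerivAt.comp x h1
  have h3 := (Complex.ofRealCLM.hasFDerivAt (x := p x.im)).comp x h2
  refine HasFDerivAt.congr_fderiv h3 ?_
  ext y
  simp only [ContinuousLinearMap.comp_apply, imCLM_apply, ContinuousLinearMap.toSpanSingleton_apply,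
    ofRealCLM_apply, smul_eq_mul, ofReal_mul, dW_apply]
  have h4 : conj y - y = -(2 * I * y.im) := by
    apply Complex.ext <;> simp <;> ring
  linear_combination (-(I / 2) * p') * h4 + (y.im : ℂ) * p' * I_mul_I

theorem hasF_const_mul {f : ℂ → ℂ} {A B x : ℂ} (c : ℂ) (hf : HasFDerivAt f (dW A B) x) :
    HasFDerivAt (fun y => c * f y) (dW (c * A) (c * B)) x := by
  refine (hf.const_mul c).congr_fderiv ?_
  ext y; simp; ring

/-! ### The terms -/

/-- the determinant form `|b|² - a d` -/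
def QX (a d : ℝ) (b : ℂ) : ℝ := normSq b - a * d

/-- the pairing of `X = (a b; b̄ d)` with the point `w` -/
def tX (a d : ℝ) (b : ℂ) (w : H3) : ℝ :=
  (2 * (b * conj w.z).re - a - d * (normSq w.z + w.y ^ 2)) / (2 * w.y)

/-- the majorant `Q + 2 t²` -/
def RX (a d : ℝ) (b : ℂ) (w : H3) : ℝ := QX a d b + 2 * tX a d b w ^ 2

theorem RX_eq (a d : ℝ) (b : ℂ) (w : H3) : RX a d b w = normSq (b - d * w.z) +
    ((2 * (b * conj w.z).re - a - d * normSq w.z) ^ 2 + d ^ 2 * w.y ^ 4) / (2 * w.y ^ 2) := by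
  have h := w.pos.ne'
  rw [RX, QX, tX, normSq_apply, normSq_apply, normSq_apply]
  simp only [mul_re, conj_re, conj_im, sub_re, sub_im, ofReal_re, ofReal_im, mul_im]
  field_simp
  ring

theorem RX_nonneg (a d : ℝ) (b : ℂ) (w : H3) : 0 ≤ RX a d b w := by
  rw [RX_eq]
  have := normSq_nonneg (b - d * w.z)
  positivity

theorem abs_QX_le (a d : ℝ) (b : ℂ) (w : H3) : |QX a d b| ≤ RX a d b w := by
  have h1 : 0 ≤ QX a d b + tX a d b w ^ 2 := by
    have h := w.pos.ne'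
    have h2 : QX a d b + tX a d b w ^ 2 = normSq (b - d * w.z) +
        ((2 * (b * conj w.z).re - a - d * normSq w.z) + d * w.y ^ 2) ^ 2 / (4 * w.y ^ 2) := by
      rw [QX, tX, normSq_apply, normSq_apply, normSq_apply]
      simp only [mul_re, conj_re, conj_im, sub_re, sub_im, ofReal_re, ofReal_im, mul_im]
      field_simp
      ring
    rw [h2]
    have := normSq_nonneg (b - d * w.z)
    positivity
  rw [abs_le, RX]
  constructor <;> nlinarith [sq_nonneg (tX a d b w)]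

/-- the term of the theta kernel, as a function of `Q` and `s = t²` -/
def thQ (Q s : ℝ) (τ : ℂ) : ℂ :=
  (√τ.im * Real.exp (-(4 * π * s) * τ.im) : ℝ) * cexp (2 * π * I * Q * τ)

/-- `v ∂/∂τ̄` of the term -/
def hQ (Q s : ℝ) (τ : ℂ) : ℂ :=
  I / 2 * (((√τ.im / 2 - 4 * π * s * (τ.im * √τ.im)) *
    Real.exp (-(4 * π * s) * τ.im) : ℝ) * cexp (2 * π * I * Q * τ))

/-- `(Δ + 1)` of the term -/
def lapQ (Q s : ℝ) (τ : ℂ) : ℂ :=
  ((1 - 32 * π * s * τ.im + 64 * π ^ 2 * s ^ 2 * τ.im ^ 2 - 8 * π * Q * τ.im +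
    64 * π ^ 2 * Q * s * τ.im ^ 2 : ℝ) : ℂ) * thQ Q s τ

theorem hasDerivAt_cexp (Q : ℝ) (τ : ℂ) :
    HasDerivAt (fun τ : ℂ => cexp (2 * π * I * Q * τ)) (2 * π * I * Q * cexp (2 * π * I * Q * τ)) τ := by
  have h := ((hasDerivAt_id τ).const_mul (2 * π * I * Q : ℂ)).cexp
  simpa [mul_comm] using h

theorem hasF_thQ (Q s : ℝ) {τ : ℂ} (hτ : 0 < τ.im) : HasFDerivAt (thQ Q s)
    (dW ((-(I / 2) * (1 / (2 * √τ.im) - 4 * π * s * √τ.im) + 2 * π * I * Q * √τ.im) *
        Real.exp (-(4 * π * s) * τ.im) * cexp (2 * π * I * Q * τ))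
      (hQ Q s τ / τ.im)) τ := by
  have hs : √τ.im ≠ 0 := (Real.sqrt_pos.mpr hτ).ne'
  have h1 : HasDerivAt (fun v : ℝ => √v * Real.exp (-(4 * π * s) * v))
      (1 / (2 * √τ.im) * Real.exp (-(4 * π * s) * τ.im) +
        √τ.im * (Real.exp (-(4 * π * s) * τ.im) * (-(4 * π * s)))) τ.im := by
    refine (Real.hasDerivAt_sqrt hτ.ne').mul ?_
    have := ((hasDerivAt_id τ.im).const_mul (-(4 * π * s))).exp
    simpa using this
  have h2 := hasF_mul (hasF_im h1) (hasF_of_hasDerivAt (hasDerivAt_cexp Q τ))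
  refine hasF_congr h2 ?_ ?_
  · push_cast
    ring
  · rw [hQ]
    have h3 : (τ.im : ℂ) ≠ 0 := by exact_mod_cast hτ.ne'
    have h5 : (√τ.im : ℂ) ≠ 0 := by exact_mod_cast hs
    have h4 : (τ.im : ℂ) = (√τ.im : ℂ) * (√τ.im : ℂ) := by
      rw [← ofReal_mul, Real.mul_self_sqrt hτ.le]
    push_cast
    rw [mul_zero, zero_add]
    field_simp
    rw [h4]
    ring

/-- `∂/∂τ̄` of `hQ` -/
def h'Q (Q s : ℝ) (τ : ℂ) : ℂ :=
  -(1 / 4) * (((1 / (4 * √τ.im) - 8 * π * s * √τ.im + 16 * π ^ 2 * s ^ 2 * (τ.im * √τ.im)) *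
    Real.exp (-(4 * π * s) * τ.im) : ℝ) * cexp (2 * π * I * Q * τ))

/-- the weight one Laplacian of a term -/
theorem hasF_hQ (Q s : ℝ) {τ : ℂ} (hτ : 0 < τ.im) : HasFDerivAt (hQ Q s)
    (dW (lapQ Q s τ / (16 * τ.im)) (h'Q Q s τ)) τ := by
  have hs : √τ.im ≠ 0 := (Real.sqrt_pos.mpr hτ).ne'
  have h1 : HasDerivAt (fun v : ℝ => (√v / 2 - 4 * π * s * (v * √v)) *
        Real.exp (-(4 * π * s) * v))
      ((1 / (2 * √τ.im) / 2 - 4 * π * s * (1 * √τ.im + τ.im * (1 / (2 * √τ.im)))) *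
        Real.exp (-(4 * π * s) * τ.im) +
        (√τ.im / 2 - 4 * π * s * (τ.im * √τ.im)) *
          (Real.exp (-(4 * π * s) * τ.im) * (-(4 * π * s)))) τ.im := by
    refine HasDerivAt.mul ?_ ?_
    · refine ((Real.hasDerivAt_sqrt hτ.ne').div_const 2).sub ?_
      exact (((hasDerivAt_id τ.im).mul (Real.hasDerivAt_sqrt hτ.ne')).const_mul (4 * π * s))
    · have := ((hasDerivAt_id τ.im).const_mul (-(4 * π * s))).exp
      simpa using this
  have h2 := hasF_const_mul (I / 2)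
    (hasF_mul (hasF_im h1) (hasF_of_hasDerivAt (hasDerivAt_cexp Q τ)))
  have h3 : (τ.im : ℂ) ≠ 0 := by exact_mod_cast hτ.ne'
  have h5 : (√τ.im : ℂ) ≠ 0 := by exact_mod_cast hs
  have h4 : (τ.im : ℂ) = (√τ.im : ℂ) * (√τ.im : ℂ) := by
    rw [← ofReal_mul, Real.mul_self_sqrt hτ.le]
  have hI : I ^ 2 = -1 := I_sq
  refine hasF_congr h2 ?_ ?_
  · rw [lapQ, thQ]
    push_cast
    generalize ((Real.exp (-(4 * π * s) * τ.im) : ℝ) : ℂ) = E
    generalize cexp (2 * π * I * Q * τ) = G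
    rw [h4]
    generalize ((√τ.im : ℝ) : ℂ) = r at *
    field_simp
    ring_nf
    simp only [hI]
    ring
  · rw [h'Q]
    push_cast
    generalize ((Real.exp (-(4 * π * s) * τ.im) : ℝ) : ℂ) = E
    generalize cexp (2 * π * I * Q * τ) = G
    rw [h4]
    generalize ((√τ.im : ℝ) : ℂ) = r at *
    field_simp
    ring_nf
    simp only [hI]
    ring
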