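import Mathlib

/-!
# Cut-offs: independence and adjunction (helper23, S47 T3)

`Γ` countable acting on `(X, μ)` by measure preserving maps, `χ : X → [0, ∞]` a cut-off:
`∑ χ (g x) = 1` for all `x`. The integral `∫ f d(χ μ)` of an invariant function does not depend on
`χ`; invariant kernels have an adjunction formula.
-/

set_option autoImplicit false
set_option linter.unusedSectionVars false

noncomputable section

open MeasureTheory
open scoped ENNReal

namespace Fermat.Agent.H23T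

section Cut

variable {X Γ : Type*} [Group Γ] [Countable Γ] [MulAction Γ X] [MeasurableSpace X] {μ : Measure X}

/-- two cut-offs give the same integral of an invariant function -/
theorem cut_lintegral (hμ : ∀ g : Γ, MeasurePreserving (fun x : X => g • x) μ μ) {χ χ' : X → ℝ≥0∞}
    (hχ : Measurable χ) (hχ' : Measurable χ') (h1 : ∀ x, ∑' g : Γ, χ (g • x) = 1)
    (h1' : ∀ x, ∑' g : Γ, χ' (g • x) = 1) {f : X → ℝ≥0∞} (hf : Measurable f)
    (hinv : ∀ (g : Γ) x, f (g • x) = f x) :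
    ∫⁻ x, χ x * f x ∂μ = ∫⁻ x, χ' x * f x ∂μ := by
  have hm : ∀ g : Γ, Measurable (fun x : X => g • x) := fun g => (hμ g).measurable
  calc ∫⁻ x, χ x * f x ∂μ = ∫⁻ x, ∑' g : Γ, χ x * f x * χ' (g • x) ∂μ := by
        refine lintegral_congr fun x => ?_
        rw [ENNReal.tsum_mul_left, h1', mul_one]
    _ = ∑' g : Γ, ∫⁻ x, χ x * f x * χ' (g • x) ∂μ :=
        lintegral_tsum fun g => ((hχ.mul hf).mul (hχ'.comp (hm g))).aemeasurable
    _ = ∑' g : Γ, ∫⁻ x, χ (g⁻¹ • x) * f x * χ' x ∂μ := by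
        refine tsum_congr fun g => ?_
        have := (hμ g).lintegral_comp (f := fun x => χ (g⁻¹ • x) * f x * χ' x)
          (((hχ.comp (hm g⁻¹)).mul hf).mul hχ')
        simpa [hinv, inv_smul_smul] using this
    _ = ∫⁻ x, ∑' g : Γ, χ (g⁻¹ • x) * f x * χ' x ∂μ :=
        (lintegral_tsum fun g => (((hχ.comp (hm g⁻¹)).mul hf).mul hχ').aemeasurable).symm
    _ = ∫⁻ x, χ' x * f x ∂μ := by
        refine lintegral_congr fun x => ?_
        have h2 : ∑' g : Γ, χ (g⁻¹ • x) = 1 := by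
          rw [← h1 x]; exact (Equiv.inv Γ).tsum_eq (fun g => χ (g • x))
        simp_rw [mul_assoc]
        rw [ENNReal.tsum_mul_right, h2, one_mul, mul_comm]

theorem cut_measure (hμ : ∀ g : Γ, MeasurePreserving (fun x : X => g • x) μ μ) {χ χ' : X → ℝ≥0∞}
    (hχ : Measurable χ) (hχ' : Measurable χ') (h1 : ∀ x, ∑' g : Γ, χ (g • x) = 1)
    (h1' : ∀ x, ∑' g : Γ, χ' (g • x) = 1) {B : Set X} (hB : MeasurableSet B)
    (hinv : ∀ (g : Γ) x, g • x ∈ B ↔ x ∈ B) :
    (μ.withDensity χ) B = (μ.withDensity χ') B := by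
  rw [withDensity_apply _ hB, withDensity_apply _ hB, ← lintegral_indicator hB,
    ← lintegral_indicator hB]
  have h := cut_lintegral hμ hχ hχ' h1 h1' (f := B.indicator 1) (measurable_one.indicator hB)
    (fun g x => by by_cases hx : x ∈ B <;> simp [Set.indicator, hinv, hx])
  convert h using 3 with x x <;> by_cases hx : x ∈ B <;> simp [hx]

theorem cut_map (hμ : ∀ g : Γ, MeasurePreserving (fun x : X => g • x) μ μ) {χ χ' : X → ℝ≥0∞}
    (hχ : Measurable χ) (hχ' : Measurable χ') (h1 : ∀ x, ∑' g : Γ, χ (g • x) = 1)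
    (h1' : ∀ x, ∑' g : Γ, χ' (g • x) = 1) {f : X → ℂ} (hf : Measurable f)
    (hinv : ∀ (g : Γ) x, f (g • x) = f x) :
    (μ.withDensity χ).map f = (μ.withDensity χ').map f := by
  ext B hB
  rw [Measure.map_apply hf hB, Measure.map_apply hf hB]
  exact cut_measure hμ hχ hχ' h1 h1' (hf hB) fun g x => by simp [hinv]

/-- Bochner version, no integrability needed -/
theorem cut_integral (hμ : ∀ g : Γ, MeasurePreserving (fun x : X => g • x) μ μ) {χ χ' : X → ℝ≥0∞}
    (hχ : Measurable χ) (hχ' : Measurable χ') (h1 : ∀ x, ∑' g : Γ, χ (g • x) = 1)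
    (h1' : ∀ x, ∑' g : Γ, χ' (g • x) = 1) {f : X → ℂ} (hf : Measurable f)
    (hinv : ∀ (g : Γ) x, f (g • x) = f x) :
    ∫ x, f x ∂(μ.withDensity χ) = ∫ x, f x ∂(μ.withDensity χ') := by
  have h : ∀ ν : Measure X, ∫ x, f x ∂ν = ∫ z, z ∂(ν.map f) := fun ν =>
    (integral_map hf.aemeasurable aestronglyMeasurable_id).symm
  rw [h, h, cut_map hμ hχ hχ' h1 h1' hf hinv]

theorem cut_integrable (hμ : ∀ g : Γ, MeasurePreserving (fun x : X => g • x) μ μ)
    {χ χ' : X → ℝ≥0∞}
    (hχ : Measurable χ) (hχ' : Measurable χ') (h1 : ∀ x, ∑' g : Γ, χ (g • x) = 1)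
    (h1' : ∀ x, ∑' g : Γ, χ' (g • x) = 1) {f : X → ℂ} (hf : Measurable f)
    (hinv : ∀ (g : Γ) x, f (g • x) = f x) :
    Integrable f (μ.withDensity χ) ↔ Integrable f (μ.withDensity χ') := by
  have h : ∀ ν : Measure X, Integrable f ν ↔ Integrable (fun z : ℂ => z) (ν.map f) := fun ν =>
    (integrable_map_measure aestronglyMeasurable_id hf.aemeasurable).symm
  rw [h, h, cut_map hμ hχ hχ' h1 h1' hf hinv]

/-- the two cut-offs on the product -/
theorem cut_prod [SFinite μ] (hμ : ∀ g : Γ, MeasurePreserving (fun x : X => g • x) μ μ)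
    {χ : X → ℝ≥0∞} (hχ : Measurable χ) (h1 : ∀ x, ∑' g : Γ, χ (g • x) = 1)
    {H : X × X → ℂ} (hH : Measurable H) (hinv : ∀ (g : Γ) x y, H (g • x, g • y) = H (x, y)) :
    ∫ p, H p ∂((μ.withDensity χ).prod μ) = ∫ p, H p ∂(μ.prod (μ.withDensity χ)) ∧
    (Integrable H ((μ.withDensity χ).prod μ) ↔ Integrable H (μ.prod (μ.withDensity χ))) := by
  rw [prod_withDensity_left hχ, prod_withDensity_right hχ]
  have hμ2 : ∀ g : Γ, MeasurePreserving (fun p : X × X => g • p) (μ.prod μ) (μ.prod μ) :=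
    fun g => (hμ g).prod (hμ g)
  have hi : ∀ (g : Γ) (p : X × X), H (g • p) = H p := fun g p => hinv g p.1 p.2
  exact ⟨cut_integral hμ2 (hχ.comp measurable_fst) (hχ.comp measurable_snd) (fun p => h1 p.1)
    (fun p => h1 p.2) hH hi, cut_integrable hμ2 (hχ.comp measurable_fst) (hχ.comp measurable_snd)
    (fun p => h1 p.1) (fun p => h1 p.2) hH hi⟩

/-- adjunction for an invariant kernel -/
theorem adj [SFinite μ] (hμ : ∀ g : Γ, MeasurePreserving (fun x : X => g • x) μ μ)
    {χ : X → ℝ≥0∞} (hχ : Measurable χ) (h1 : ∀ x, ∑' g : Γ, χ (g • x) = 1)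
    {F G : X → ℂ} {k : X → X → ℂ} (hF : Measurable F) (hG : Measurable G)
    (hk : Measurable (Function.uncurry k)) (hFi : ∀ (g : Γ) x, F (g • x) = F x)
    (hGi : ∀ (g : Γ) x, G (g • x) = G x) (hki : ∀ (g : Γ) x y, k (g • x) (g • y) = k x y)
    (hint : Integrable (fun p : X × X => F p.1 * k p.1 p.2 * G p.2) ((μ.withDensity χ).prod μ)) :
    ∫ x, F x * (∫ y, k x y * G y ∂μ) ∂(μ.withDensity χ) =
      ∫ y, G y * (∫ x, k x y * F x ∂μ) ∂(μ.withDensity χ) := by
  have hm : Measurable (fun p : X × X => F p.1 * k p.1 p.2 * G p.2) :=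
    ((hF.comp measurable_fst).mul hk).mul (hG.comp measurable_snd)
  obtain ⟨h2, h3⟩ := cut_prod hμ hχ h1 hm (fun g x y => by simp only [hFi, hGi, hki])
  rw [integral_prod _ hint, integral_prod_symm _ (h3.mp hint)] at h2
  refine Eq.trans (integral_congr_ae (Filter.Eventually.of_forall fun x => ?_)) (h2.trans
    (integral_congr_ae (Filter.Eventually.of_forall fun y => ?_)))
  · simp only
    rw [← integral_const_mul]
    refine integral_congr_ae (Filter.Eventually.of_forall fun y => ?_)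
    simp only
    ring
  · simp only
    rw [← integral_const_mul]
    refine integral_congr_ae (Filter.Eventually.of_forall fun x => ?_)
    simp only
    ring

end Cut

end Fermat.Agent.H23T
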