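import Mathlib

/-!
# Weight one theta integrals in abstract form (helper98, S47 block (T), T3)

`(Y, M)` is a measure space (the product of the lattice `V` with a fundamental domain of `Γ \ H3`),
`q, m : Y → ℝ` the quadratic form and its majorant, `A : Y → ℂ` the amplitude.  The theta integral is
`g(τ) = ∫ A θ(τ; q, m)`, `θ(τ; q, m) = v^(1/2) e(q τ) exp(-2π v (m - q))`, `v = Im τ`.

* `hasFDerivAt_int` : differentiation under the integral;
* `xiT` : `v ∂g/∂τ̄`, and `holomorphic_conj_xiT`: if `∫ A P θ = 0` (`P θ = (Δ + 1) θ`), then the complex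
  conjugate of `v ∂g/∂τ̄` is holomorphic.
-/

set_option autoImplicit false

noncomputable section

open Complex MeasureTheory Real

namespace Fermat.Agent.H98T

/-- the imaginary part as a map `ℂ →L[ℝ] ℂ` -/
def imC : ℂ →L[ℝ] ℂ := ofRealCLM.comp imCLM

@[simp] theorem imC_apply (z : ℂ) : imC z = (z.im : ℂ) := rfl

theorem norm_imC_le : ‖imC‖ ≤ 1 := by
  refine ContinuousLinearMap.opNorm_le_bound _ zero_le_one fun z => ?_
  rw [imC_apply, one_mul, Complex.norm_real]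
  exact Complex.abs_im_le_norm z

/-- the theta term of weight one -/
def th (q m : ℝ) (τ : ℂ) : ℂ :=
  (√τ.im : ℂ) * cexp (2 * π * I * q * τ) * cexp (-(2 * π * τ.im * (m - q)))

theorem norm_th (q m : ℝ) (τ : ℂ) : ‖th q m τ‖ = √τ.im * rexp (-(2 * π * τ.im * m)) := by
  rw [th, norm_mul, norm_mul, Complex.norm_real, Real.norm_of_nonneg (Real.sqrt_nonneg _),
    Complex.norm_exp, Complex.norm_exp, mul_assoc, ← Real.exp_add]
  congr 2
  have h1 : (2 * π * I * q * τ).re = -(2 * π * q * τ.im) := by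
    simp [Complex.mul_re, Complex.mul_im]
  have h2 : (-(2 * π * (τ.im : ℂ) * ((m : ℂ) - (q : ℂ)))).re = -(2 * π * τ.im * (m - q)) := by
    have h3 : (-(2 * π * (τ.im : ℂ) * ((m : ℂ) - (q : ℂ)))) =
      ((-(2 * π * τ.im * (m - q)) : ℝ) : ℂ) := by push_cast; ring
    rw [h3, Complex.ofReal_re]
  rw [h1, h2]
  ring

theorem hasFDerivAt_im' (τ : ℂ) : HasFDerivAt (fun z : ℂ => (z.im : ℂ)) imC τ :=
  imC.hasFDerivAt

theorem hasFDerivAt_th (q m : ℝ) {τ : ℂ} (hτ : 0 < τ.im) :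
    HasFDerivAt (th q m) ((2 * π * I * q * th q m τ) • ContinuousLinearMap.id ℝ ℂ +
      ((1 / (2 * τ.im) - 2 * π * (m - q)) * th q m τ) • imC) τ := by
  have h1 : HasFDerivAt (fun z : ℂ => cexp (2 * π * I * q * z))
      ((2 * π * I * q * cexp (2 * π * I * q * τ)) • ContinuousLinearMap.id ℝ ℂ) τ := by
    have h := ((hasDerivAt_id τ).const_mul (2 * π * I * (q : ℂ))).cexp
    have h' := h.hasFDerivAt.restrictScalars ℝ
    refine h'.congr_fderiv ?_
    ext z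
    simp
    ring
  have h2 : HasFDerivAt (fun z : ℂ => cexp (-(2 * π * z.im * (m - q))))
      ((-(2 * π * (m - q)) * cexp (-(2 * π * τ.im * (m - q)))) • imC) τ := by
    have h := ((hasFDerivAt_im' τ).const_mul (-(2 * π * ((m : ℂ) - q)))).cexp
    have e1 : (fun z : ℂ => cexp (-(2 * π * ((m : ℂ) - q)) * (z.im : ℂ))) =
        fun z : ℂ => cexp (-(2 * π * z.im * (m - q))) := by
      funext z; congr 1; ring
    rw [e1] at h
    refine h.congr_fderiv ?_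
    ext z
    simp
    have e2 : (-(2 * π * ((m : ℂ) - q)) * (τ.im : ℂ)) = -(2 * π * τ.im * (m - q)) := by ring
    rw [show (-(2 * ↑π * (↑m - ↑q) * ↑τ.im) : ℂ) = -(2 * π * τ.im * (m - q)) by ring]
    ring
  have h3 : HasFDerivAt (fun z : ℂ => ((√z.im : ℝ) : ℂ)) ((1 / (2 * √τ.im : ℂ)) • imC) τ := by
    have h := (Real.hasDerivAt_sqrt hτ.ne').comp_hasFDerivAt τ imCLM.hasFDerivAt
    have h' := ofRealCLM.hasFDerivAt.comp τ h
    refine h'.congr_fderiv ?_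
    ext z
    simp
  have h4 := (h3.mul h1).mul h2
  refine h4.congr_fderiv ?_
  simp only [Pi.mul_apply]
  have hs : ((√τ.im : ℝ) : ℂ) ≠ 0 := by
    rw [Complex.ofReal_ne_zero]
    exact (Real.sqrt_pos.mpr hτ).ne'
  have hs2 : ((√τ.im : ℝ) : ℂ) * ((√τ.im : ℝ) : ℂ) = τ.im := by
    rw [← Complex.ofReal_mul, Real.mul_self_sqrt hτ.le]
  ext z
  simp only [th, add_apply, smul_apply, imC_apply,
    ContinuousLinearMap.id_apply, smul_eq_mul]
  rw [← hs2]
  field_simp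
  ring

/-- `(i/2) (1/2 - 2π v (m - q)) θ = v ∂θ/∂τ̄` -/
def xt (q m : ℝ) (τ : ℂ) : ℂ := (I / 2) * (1 / 2 - 2 * π * τ.im * (m - q)) * th q m τ

/-- the coefficients of the derivative of `θ` -/
def aT (q m : ℝ) (τ : ℂ) : ℂ := 2 * π * I * q * th q m τ
def bT (q m : ℝ) (τ : ℂ) : ℂ := (1 / (2 * τ.im) - 2 * π * (m - q)) * th q m τ

/-- the coefficients of the derivative of `v ∂θ/∂τ̄` -/
def aX (q m : ℝ) (τ : ℂ) : ℂ :=
  (I / 2) * (1 / 2 - 2 * π * τ.im * (m - q)) * (2 * π * I * q) * th q m τ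
def bX (q m : ℝ) (τ : ℂ) : ℂ :=
  (I / 2) * (-(2 * π * (m - q)) + (1 / 2 - 2 * π * τ.im * (m - q)) *
    (1 / (2 * τ.im) - 2 * π * (m - q))) * th q m τ

theorem hasFDerivAt_th' (q m : ℝ) {τ : ℂ} (hτ : 0 < τ.im) :
    HasFDerivAt (th q m) (aT q m τ • ContinuousLinearMap.id ℝ ℂ + bT q m τ • imC) τ :=
  hasFDerivAt_th q m hτ

theorem hasFDerivAt_xt (q m : ℝ) {τ : ℂ} (hτ : 0 < τ.im) :
    HasFDerivAt (xt q m) (aX q m τ • ContinuousLinearMap.id ℝ ℂ + bX q m τ • imC) τ := by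
  have h1 : HasFDerivAt (fun z : ℂ => (I / 2) * (1 / 2 - 2 * π * (z.im : ℂ) * (m - q)))
      ((-(I / 2) * (2 * π * (m - q))) • imC) τ := by
    have h := ((hasFDerivAt_im' τ).const_mul (-(I / 2) * (2 * π * ((m : ℂ) - q)))).const_add
      ((I / 2) * (1 / 2))
    refine (h.congr_of_eventuallyEq (Filter.Eventually.of_forall fun z => ?_))
    show (I / 2) * (1 / 2 - 2 * π * (z.im : ℂ) * (m - q)) = (I / 2) * (1 / 2) +
      -(I / 2) * (2 * π * ((m : ℂ) - q)) * (z.im : ℂ)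
    ring
  have h2 := h1.mul (hasFDerivAt_th q m hτ)
  refine h2.congr_fderiv ?_
  ext z
  simp only [aX, bX, add_apply, smul_apply, imC_apply, ContinuousLinearMap.id_apply, smul_eq_mul]
  ring

theorem poly_le_exp {δ : ℝ} (hδ : 0 < δ) : ∃ C : ℝ, 0 < C ∧ ∀ m : ℝ, 0 ≤ m →
    (1 + m) ^ 3 ≤ C * rexp (δ * m) := by
  refine ⟨(1 + 3 / δ) ^ 3, by positivity, fun m hm => ?_⟩
  have h1 : 1 + m ≤ (1 + 3 / δ) * rexp (δ / 3 * m) := by
    have h2 := Real.add_one_le_exp (δ / 3 * m)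
    have h3 : 1 ≤ rexp (δ / 3 * m) := Real.one_le_exp (by positivity)
    have h4 : m ≤ 3 / δ * rexp (δ / 3 * m) := by
      have h5 : m = 3 / δ * (δ / 3 * m) := by field_simp
      calc m = 3 / δ * (δ / 3 * m) := h5
        _ ≤ 3 / δ * rexp (δ / 3 * m) := by
          apply mul_le_mul_of_nonneg_left _ (by positivity)
          linarith
    nlinarith
  calc (1 + m) ^ 3 ≤ ((1 + 3 / δ) * rexp (δ / 3 * m)) ^ 3 :=
        pow_le_pow_left₀ (by positivity) h1 3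
    _ = (1 + 3 / δ) ^ 3 * rexp (δ * m) := by
        rw [mul_pow, ← Real.exp_nat_mul]
        congr 2
        push_cast
        ring

section Int

variable {Y : Type*} [MeasurableSpace Y] {M : Measure Y} {A : Y → ℂ} {q m : Y → ℝ}

/-- the data of a theta integral -/
structure Dat (M : Measure Y) (A : Y → ℂ) (q m : Y → ℝ) : Prop where
  measA : AEStronglyMeasurable A M
  measq : AEStronglyMeasurable q M
  measm : AEStronglyMeasurable m M
  le : ∀ y, |q y| ≤ m y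
  int : ∀ ε : ℝ, 0 < ε → Integrable (fun y => ‖A y‖ * rexp (-(ε * m y))) M

/-- an admissible integrand -/
def Adm (Φ : ℝ → ℝ → ℂ → ℂ) : Prop :=
  (∀ τ, Continuous fun p : ℝ × ℝ => Φ p.1 p.2 τ) ∧
    ∀ v₀ : ℝ, 0 < v₀ → ∃ C : ℝ, 0 ≤ C ∧ ∀ (q m : ℝ) (τ : ℂ), |q| ≤ m → v₀ / 2 ≤ τ.im →
      τ.im ≤ 3 * v₀ / 2 → ‖Φ q m τ‖ ≤ C * (1 + m) ^ 3 * rexp (-(π * v₀ * m))

theorem Adm.bound {Φ : ℝ → ℝ → ℂ → ℂ} (h : Adm Φ) {v₀ : ℝ} (hv : 0 < v₀) :
    ∃ C : ℝ, 0 ≤ C ∧ ∀ (q m : ℝ) (τ : ℂ), |q| ≤ m → v₀ / 2 ≤ τ.im →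
      τ.im ≤ 3 * v₀ / 2 → ‖Φ q m τ‖ ≤ C * rexp (-(π * v₀ / 2 * m)) := by
  obtain ⟨C, hC, h1⟩ := h.2 v₀ hv
  obtain ⟨C', hC', h2⟩ := poly_le_exp (δ := π * v₀ / 2) (by positivity)
  refine ⟨C * C', by positivity, fun q m τ hq h3 h4 => (h1 q m τ hq h3 h4).trans ?_⟩
  have hm : 0 ≤ m := (abs_nonneg q).trans hq
  calc C * (1 + m) ^ 3 * rexp (-(π * v₀ * m))
      ≤ C * (C' * rexp (π * v₀ / 2 * m)) * rexp (-(π * v₀ * m)) := by
        gcongr
        exact h2 m hm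
    _ = C * C' * (rexp (π * v₀ / 2 * m) * rexp (-(π * v₀ * m))) := by ring
    _ = C * C' * rexp (-(π * v₀ / 2 * m)) := by
        rw [← Real.exp_add]
        congr 2
        ring

theorem Dat.integrable (D : Dat M A q m) {Φ : ℝ → ℝ → ℂ → ℂ} (h : Adm Φ) {τ : ℂ}
    (hτ : 0 < τ.im) : Integrable (fun y => A y * Φ (q y) (m y) τ) M := by
  obtain ⟨C, hC, h1⟩ := h.bound hτ
  have h2 := (D.int (π * τ.im / 2) (by positivity)).const_mul C
  refine h2.mono' ?_ (Filter.Eventually.of_forall fun y => ?_)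
  · exact D.measA.mul ((h.1 τ).comp_aestronglyMeasurable (D.measq.prodMk D.measm))
  · rw [norm_mul]
    calc ‖A y‖ * ‖Φ (q y) (m y) τ‖ ≤ ‖A y‖ * (C * rexp (-(π * τ.im / 2 * m y))) := by
          gcongr
          exact h1 _ _ _ (D.le y) (by linarith) (by linarith)
      _ = C * (‖A y‖ * rexp (-(π * τ.im / 2 * m y))) := by ring

theorem Dat.hasFDerivAt (D : Dat M A q m) {Φ a b : ℝ → ℝ → ℂ → ℂ} (hΦ : Adm Φ) (ha : Adm a)
    (hb : Adm b) (hd : ∀ (q m : ℝ) (τ : ℂ), 0 < τ.im →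
      HasFDerivAt (Φ q m) (a q m τ • ContinuousLinearMap.id ℝ ℂ + b q m τ • imC) τ)
    {τ : ℂ} (hτ : 0 < τ.im) :
    HasFDerivAt (fun τ => ∫ y, A y * Φ (q y) (m y) τ ∂M)
      ((∫ y, A y * a (q y) (m y) τ ∂M) • ContinuousLinearMap.id ℝ ℂ +
        (∫ y, A y * b (q y) (m y) τ ∂M) • imC) τ := by
  obtain ⟨Ca, hCa, hba⟩ := ha.bound hτ
  obtain ⟨Cb, hCb, hbb⟩ := hb.bound hτ
  have hball : ∀ z ∈ Metric.ball τ (τ.im / 2), τ.im / 2 ≤ z.im ∧ z.im ≤ 3 * τ.im / 2 := by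
    intro z hz
    rw [Metric.mem_ball, dist_eq_norm] at hz
    have h1 := (Complex.abs_im_le_norm (z - τ)).trans hz.le
    rw [Complex.sub_im, abs_le] at h1
    constructor <;> linarith [h1.1, h1.2]
  have key := hasFDerivAt_integral_of_dominated_of_fderiv_le (𝕜 := ℝ) (μ := M)
    (F := fun τ y => A y * Φ (q y) (m y) τ)
    (F' := fun τ y => (A y * a (q y) (m y) τ) • ContinuousLinearMap.id ℝ ℂ +
      (A y * b (q y) (m y) τ) • imC) (x₀ := τ) (s := Metric.ball τ (τ.im / 2))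
    (bound := fun y => (Ca + Cb) * (‖A y‖ * rexp (-(π * τ.im / 2 * m y))))
    (Metric.ball_mem_nhds τ (by positivity)) ?_ (D.integrable hΦ hτ) ?_ ?_ ?_ ?_
  · refine key.congr_fderiv ?_
    rw [integral_add, integral_smul_const, integral_smul_const]
    · exact (D.integrable ha hτ).smul_const _
    · exact (D.integrable hb hτ).smul_const _
  · exact Filter.Eventually.of_forall fun z => D.measA.mul
      ((hΦ.1 z).comp_aestronglyMeasurable (D.measq.prodMk D.measm))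
  · exact ((D.integrable ha hτ).aestronglyMeasurable.smul_const _).add
      ((D.integrable hb hτ).aestronglyMeasurable.smul_const _)
  · refine Filter.Eventually.of_forall fun y z hz => ?_
    obtain ⟨h1, h2⟩ := hball z hz
    calc ‖(A y * a (q y) (m y) z) • ContinuousLinearMap.id ℝ ℂ +
          (A y * b (q y) (m y) z) • imC‖
        ≤ ‖A y * a (q y) (m y) z‖ * ‖ContinuousLinearMap.id ℝ ℂ‖ +
          ‖A y * b (q y) (m y) z‖ * ‖imC‖ := by
          refine (norm_add_le _ _).trans ?_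
          rw [norm_smul, norm_smul]
      _ ≤ ‖A y * a (q y) (m y) z‖ * 1 + ‖A y * b (q y) (m y) z‖ * 1 := by
          gcongr
          · exact ContinuousLinearMap.norm_id_le
          · exact norm_imC_le
      _ = ‖A y‖ * ‖a (q y) (m y) z‖ + ‖A y‖ * ‖b (q y) (m y) z‖ := by
          rw [norm_mul, norm_mul]; ring
      _ ≤ ‖A y‖ * (Ca * rexp (-(π * τ.im / 2 * m y))) +
          ‖A y‖ * (Cb * rexp (-(π * τ.im / 2 * m y))) := by
          gcongr
          · exact hba _ _ _ (D.le y) h1 h2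
          · exact hbb _ _ _ (D.le y) h1 h2
      _ = (Ca + Cb) * (‖A y‖ * rexp (-(π * τ.im / 2 * m y))) := by ring
  · exact (D.int (π * τ.im / 2) (by positivity)).const_mul _
  · refine Filter.Eventually.of_forall fun y z hz => ?_
    obtain ⟨h1, -⟩ := hball z hz
    have h3 := (hd (q y) (m y) z (by linarith [half_pos hτ])).const_mul (A y)
    refine h3.congr_fderiv ?_
    rw [smul_add, smul_smul, smul_smul]

end Int

/-- polynomial growth in `m` -/
def Pol (k : ℕ) (p : ℝ → ℝ → ℂ → ℂ) : Prop :=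
  (∀ τ, Continuous fun x : ℝ × ℝ => p x.1 x.2 τ) ∧
    ∀ v₀ : ℝ, 0 < v₀ → ∃ C : ℝ, 0 ≤ C ∧ ∀ (q m : ℝ) (τ : ℂ), |q| ≤ m → v₀ / 2 ≤ τ.im →
      τ.im ≤ 3 * v₀ / 2 → ‖p q m τ‖ ≤ C * (1 + m) ^ k

theorem Pol.const (c : ℂ) : Pol 0 (fun _ _ _ => c) :=
  ⟨fun _ => continuous_const, fun _ _ => ⟨‖c‖, norm_nonneg _, fun _ _ _ _ _ _ => by simp⟩⟩

theorem Pol.q : Pol 1 (fun q _ _ => (q : ℂ)) := by
  refine ⟨fun _ => by fun_prop, fun _ _ => ⟨1, zero_le_one, fun q m _ h _ _ => ?_⟩⟩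
  rw [Complex.norm_real, pow_one, one_mul]
  exact h.trans (by linarith)

theorem Pol.s : Pol 1 (fun q m _ => ((m : ℂ) - q)) := by
  refine ⟨fun _ => by fun_prop, fun _ _ => ⟨2, zero_le_two, fun q m _ h _ _ => ?_⟩⟩
  show ‖((m : ℂ) - q)‖ ≤ _
  rw [← Complex.ofReal_sub, Complex.norm_real, pow_one, Real.norm_eq_abs]
  rw [abs_le] at h ⊢
  constructor <;> linarith [h.1, h.2]

theorem Pol.v : Pol 0 (fun _ _ τ => (τ.im : ℂ)) := by
  refine ⟨fun _ => continuous_const, fun v₀ hv => ⟨3 * v₀ / 2, by positivity,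
    fun q m τ _ h1 h2 => ?_⟩⟩
  rw [Complex.norm_real, pow_zero, mul_one, Real.norm_eq_abs, abs_of_nonneg (by linarith)]
  exact h2

theorem Pol.vinv : Pol 0 (fun _ _ τ => 1 / (2 * (τ.im : ℂ))) := by
  refine ⟨fun _ => continuous_const, fun v₀ hv => ⟨1 / v₀, by positivity,
    fun q m τ _ h1 h2 => ?_⟩⟩
  rw [norm_div, norm_one, norm_mul, Complex.norm_real, pow_zero, mul_one, Real.norm_eq_abs,
    abs_of_nonneg (by linarith), Complex.norm_ofNat]
  exact one_div_le_one_div_of_le hv (by linarith)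

theorem Pol.mono {k l : ℕ} (hkl : k ≤ l) {p : ℝ → ℝ → ℂ → ℂ} (h : Pol k p) : Pol l p := by
  refine ⟨h.1, fun v₀ hv => ?_⟩
  obtain ⟨C, hC, h1⟩ := h.2 v₀ hv
  refine ⟨C, hC, fun q m τ hq h2 h3 => (h1 q m τ hq h2 h3).trans ?_⟩
  have hm : 0 ≤ m := (abs_nonneg q).trans hq
  gcongr
  linarith

theorem Pol.add {k : ℕ} {p r : ℝ → ℝ → ℂ → ℂ} (hp : Pol k p) (hr : Pol k r) :
    Pol k (fun q m τ => p q m τ + r q m τ) := by
  refine ⟨fun τ => (hp.1 τ).add (hr.1 τ), fun v₀ hv => ?_⟩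
  obtain ⟨C, hC, h1⟩ := hp.2 v₀ hv
  obtain ⟨C', hC', h1'⟩ := hr.2 v₀ hv
  refine ⟨C + C', by positivity, fun q m τ hq h2 h3 => (norm_add_le _ _).trans ?_⟩
  rw [add_mul]
  exact add_le_add (h1 q m τ hq h2 h3) (h1' q m τ hq h2 h3)

theorem Pol.mul {k l : ℕ} {p r : ℝ → ℝ → ℂ → ℂ} (hp : Pol k p) (hr : Pol l r) :
    Pol (k + l) (fun q m τ => p q m τ * r q m τ) := by
  refine ⟨fun τ => (hp.1 τ).mul (hr.1 τ), fun v₀ hv => ?_⟩
  obtain ⟨C, hC, h1⟩ := hp.2 v₀ hv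
  obtain ⟨C', hC', h1'⟩ := hr.2 v₀ hv
  refine ⟨C * C', by positivity, fun q m τ hq h2 h3 => ?_⟩
  have hm : 0 ≤ m := (abs_nonneg q).trans hq
  rw [norm_mul, pow_add]
  calc ‖p q m τ‖ * ‖r q m τ‖ ≤ (C * (1 + m) ^ k) * (C' * (1 + m) ^ l) :=
        mul_le_mul (h1 q m τ hq h2 h3) (h1' q m τ hq h2 h3) (norm_nonneg _) (by positivity)
    _ = C * C' * ((1 + m) ^ k * (1 + m) ^ l) := by ring

theorem Pol.neg {k : ℕ} {p : ℝ → ℝ → ℂ → ℂ} (hp : Pol k p) : Pol k (fun q m τ => -p q m τ) := by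
  refine ⟨fun τ => (hp.1 τ).neg, fun v₀ hv => ?_⟩
  obtain ⟨C, hC, h1⟩ := hp.2 v₀ hv
  exact ⟨C, hC, fun q m τ hq h2 h3 => by rw [norm_neg]; exact h1 q m τ hq h2 h3⟩

theorem Pol.adm {k : ℕ} (hk : k ≤ 3) {p : ℝ → ℝ → ℂ → ℂ} (hp : Pol k p) :
    Adm (fun q m τ => p q m τ * th q m τ) := by
  have hp := hp.mono hk
  refine ⟨fun τ => (hp.1 τ).mul (by unfold th; fun_prop), fun v₀ hv => ?_⟩
  obtain ⟨C, hC, h1⟩ := hp.2 v₀ hv
  refine ⟨C * √(3 * v₀ / 2), by positivity, fun q m τ hq h2 h3 => ?_⟩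
  have hm : 0 ≤ m := (abs_nonneg q).trans hq
  rw [norm_mul, norm_th]
  have h4 : rexp (-(2 * π * τ.im * m)) ≤ rexp (-(π * v₀ * m)) := by
    rw [Real.exp_le_exp]
    nlinarith [Real.pi_pos, mul_nonneg Real.pi_pos.le hm]
  calc ‖p q m τ‖ * (√τ.im * rexp (-(2 * π * τ.im * m)))
      ≤ (C * (1 + m) ^ 3) * (√(3 * v₀ / 2) * rexp (-(π * v₀ * m))) := by
        gcongr
        exact h1 q m τ hq h2 h3
    _ = C * √(3 * v₀ / 2) * (1 + m) ^ 3 * rexp (-(π * v₀ * m)) := by ring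

/-- the factor of `xt` -/
theorem pol_half : Pol 1 (fun q m τ => (1 / 2 - 2 * π * τ.im * (m - q) : ℂ)) := by
  have h := ((Pol.const (1 / 2)).mono (Nat.zero_le 1)).add
    ((((Pol.const (2 * π)).mul Pol.v).mul Pol.s).neg.mono le_rfl)
  simpa only [← sub_eq_add_neg] using h

theorem pol_dT : Pol 1 (fun q m τ => (1 / (2 * τ.im) - 2 * π * (m - q) : ℂ)) := by
  have h := (Pol.vinv.mono (Nat.zero_le 1)).add
    (((Pol.const (2 * π)).mul Pol.s).neg.mono le_rfl)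
  simpa only [← sub_eq_add_neg] using h

theorem adm_th : Adm th := by
  have h := (Pol.const 1).adm (by norm_num)
  simpa using h

theorem adm_aT : Adm aT := ((Pol.const (2 * π * I)).mul Pol.q).adm (by norm_num)

theorem adm_bT : Adm bT := pol_dT.adm (by norm_num)

theorem adm_xt : Adm xt := ((Pol.const (I / 2)).mul pol_half).adm (by norm_num)

theorem adm_aX : Adm aX :=
  (((Pol.const (I / 2)).mul pol_half).mul ((Pol.const (2 * π * I)).mul Pol.q)).adm (by norm_num)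

theorem adm_bX : Adm bX := by
  have h1 : Pol 2 (fun q m τ => (-(2 * π * (m - q)) + (1 / 2 - 2 * π * τ.im * (m - q)) *
    (1 / (2 * τ.im) - 2 * π * (m - q)) : ℂ)) :=
    (((Pol.const (2 * π)).mul Pol.s).neg.mono (by norm_num)).add (pol_half.mul pol_dT)
  exact ((Pol.const (I / 2)).mul h1).adm (by norm_num)

section Main

variable {Y : Type*} [MeasurableSpace Y] {M : Measure Y} {A : Y → ℂ} {q m : Y → ℝ}

/-- the theta integral -/
def gT (M : Measure Y) (A : Y → ℂ) (q m : Y → ℝ) (τ : ℂ) : ℂ := ∫ y, A y * th (q y) (m y) τ ∂M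

/-- `v ∂g/∂τ̄` -/
def xiT (M : Measure Y) (A : Y → ℂ) (q m : Y → ℝ) (τ : ℂ) : ℂ := ∫ y, A y * xt (q y) (m y) τ ∂M

/-- `(Δ + 1) θ` -/
def pT (q m : ℝ) (τ : ℂ) : ℂ :=
  (1 - 8 * π * τ.im * q + 32 * π ^ 2 * τ.im ^ 2 * q * (m - q) - 16 * π * τ.im * (m - q) +
    16 * π ^ 2 * τ.im ^ 2 * (m - q) ^ 2) * th q m τ

theorem aX_sub_bX (q m : ℝ) {τ : ℂ} (hτ : 0 < τ.im) :
    aX q m τ - I / 2 * bX q m τ = 1 / (16 * τ.im) * pT q m τ := by
  have hv : (τ.im : ℂ) ≠ 0 := by exact_mod_cast hτ.ne'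
  rw [aX, bX, pT]
  have hI : I ^ 2 = -1 := Complex.I_sq
  field_simp
  ring_nf
  rw [hI]
  ring

theorem bT_eq (q m : ℝ) {τ : ℂ} (hτ : 0 < τ.im) :
    I / 2 * bT q m τ = xt q m τ / τ.im := by
  have hv : (τ.im : ℂ) ≠ 0 := by exact_mod_cast hτ.ne'
  rw [bT, xt]
  field_simp

/-- real derivative of the theta integral -/
theorem hasFDerivAt_gT (D : Dat M A q m) {τ : ℂ} (hτ : 0 < τ.im) :
    HasFDerivAt (gT M A q m)
      ((∫ y, A y * aT (q y) (m y) τ ∂M) • ContinuousLinearMap.id ℝ ℂ +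
        (∫ y, A y * bT (q y) (m y) τ ∂M) • imC) τ :=
  D.hasFDerivAt adm_th adm_aT adm_bT (fun q m _ h => hasFDerivAt_th' q m h) hτ

theorem hasFDerivAt_xiT (D : Dat M A q m) {τ : ℂ} (hτ : 0 < τ.im) :
    HasFDerivAt (xiT M A q m)
      ((∫ y, A y * aX (q y) (m y) τ ∂M) • ContinuousLinearMap.id ℝ ℂ +
        (∫ y, A y * bX (q y) (m y) τ ∂M) • imC) τ :=
  D.hasFDerivAt adm_xt adm_aX adm_bX (fun q m _ h => hasFDerivAt_xt q m h) hτ

theorem int_bT (τ : ℂ) (hτ : 0 < τ.im) :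
    I / 2 * (∫ y, A y * bT (q y) (m y) τ ∂M) = xiT M A q m τ / τ.im := by
  rw [xiT, ← integral_const_mul, ← integral_div]
  congr 1
  funext y
  rw [mul_left_comm, bT_eq _ _ hτ, mul_div_assoc]

theorem int_aX (D : Dat M A q m) {τ : ℂ} (hτ : 0 < τ.im) :
    (∫ y, A y * aX (q y) (m y) τ ∂M) - I / 2 * (∫ y, A y * bX (q y) (m y) τ ∂M) =
      1 / (16 * τ.im) * ∫ y, A y * pT (q y) (m y) τ ∂M := by
  rw [← integral_const_mul, ← integral_const_mul, ← integral_sub (D.integrable adm_aX hτ)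
    ((D.integrable adm_bX hτ).const_mul _)]
  congr 1
  funext y
  rw [mul_left_comm (1 / (16 * (τ.im : ℂ))), ← aX_sub_bX _ _ hτ]
  ring

/-- if `∂f/∂τ = 0` then `conj f` is holomorphic -/
theorem hasDerivAt_conj_of_fderiv {f : ℂ → ℂ} {τ a b : ℂ}
    (h : HasFDerivAt f (a • ContinuousLinearMap.id ℝ ℂ + b • imC) τ) (h0 : a - I / 2 * b = 0) :
    HasDerivAt (fun z => (starRingEnd ℂ) (f z)) ((starRingEnd ℂ) (I / 2 * b)) τ := by
  have h1 : HasFDerivAt (fun z => (starRingEnd ℂ) (f z))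
      ((conjCLE : ℂ →L[ℝ] ℂ).comp (a • ContinuousLinearMap.id ℝ ℂ + b • imC)) τ :=
    (conjCLE : ℂ →L[ℝ] ℂ).hasFDerivAt.comp τ h
  rw [hasDerivAt_iff_hasFDerivAt]
  refine hasFDerivAt_of_restrictScalars ℝ h1 ?_
  ext z
  have ha : a = I / 2 * b := by linear_combination h0
  have hz : (z.im : ℂ) = (z - (starRingEnd ℂ) z) / (2 * I) := by
    rw [Complex.sub_conj]
    push_cast
    field_simp
  have hI : I ^ 2 = -1 := Complex.I_sq
  simp only [ContinuousLinearMap.coe_restrictScalars', ContinuousLinearMap.toSpanSingleton_apply,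
    ContinuousLinearMap.comp_apply, add_apply, smul_apply, imC_apply,
    ContinuousLinearMap.id_apply, smul_eq_mul, ContinuousLinearEquiv.coe_coe, conjCLE_apply]
  rw [hz, ha]
  simp only [map_add, map_mul, map_div₀, map_sub, Complex.conj_I, Complex.conj_conj, map_ofNat]
  field_simp
  ring_nf
  rw [hI]
  ring

/-- if `∂f/∂τ̄ = 0` then `f` is holomorphic -/
theorem hasDerivAt_of_fderiv {f : ℂ → ℂ} {τ a : ℂ}
    (h : HasFDerivAt f (a • ContinuousLinearMap.id ℝ ℂ + (0 : ℂ) • imC) τ) :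
    HasDerivAt f a τ := by
  rw [hasDerivAt_iff_hasFDerivAt]
  refine hasFDerivAt_of_restrictScalars ℝ h ?_
  ext z
  simp only [ContinuousLinearMap.coe_restrictScalars', ContinuousLinearMap.toSpanSingleton_apply,
    add_apply, smul_apply, imC_apply,
    ContinuousLinearMap.id_apply, smul_eq_mul]
  ring

/-- the upper half plane as a set -/
abbrev HH : Set ℂ := {τ : ℂ | 0 < τ.im}

theorem isOpen_HH : IsOpen HH := isOpen_lt continuous_const Complex.continuous_im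

/-- `∂g/∂τ̄ = xi / v` in the form of the real derivative. -/
theorem hasFDerivAt_gT' (D : Dat M A q m) {τ : ℂ} (hτ : 0 < τ.im) :
    HasFDerivAt (gT M A q m)
      ((∫ y, A y * aT (q y) (m y) τ ∂M) • ContinuousLinearMap.id ℝ ℂ +
        (2 / I * (xiT M A q m τ / τ.im)) • imC) τ := by
  refine (hasFDerivAt_gT D hτ).congr_fderiv ?_
  rw [← int_bT τ hτ]
  congr 2
  have hI : I ≠ 0 := Complex.I_ne_zero
  field_simp

/-- if `∫ A (Δ + 1) θ = 0` then the conjugate of `xi = v ∂g/∂τ̄` is holomorphic -/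
theorem hasDerivAt_conj_xiT (D : Dat M A q m) {τ : ℂ} (hτ : 0 < τ.im)
    (h0 : ∫ y, A y * pT (q y) (m y) τ ∂M = 0) :
    HasDerivAt (fun z => (starRingEnd ℂ) (xiT M A q m z))
      ((starRingEnd ℂ) (I / 2 * ∫ y, A y * bX (q y) (m y) τ ∂M)) τ := by
  refine hasDerivAt_conj_of_fderiv (hasFDerivAt_xiT D hτ) ?_
  rw [int_aX D hτ, h0, mul_zero]

/-- **the conjugate of `v ∂g/∂τ̄` is holomorphic** -/
theorem differentiableOn_conj_xiT (D : Dat M A q m)
    (h0 : ∀ τ : ℂ, 0 < τ.im → ∫ y, A y * pT (q y) (m y) τ ∂M = 0) :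
    DifferentiableOn ℂ (fun z => (starRingEnd ℂ) (xiT M A q m z)) HH := fun τ hτ =>
  (hasDerivAt_conj_xiT D hτ (h0 τ hτ)).differentiableAt.differentiableWithinAt

/-- if `v ∂g/∂τ̄ = 0` then `g` is holomorphic -/
theorem differentiableOn_gT (D : Dat M A q m) (h0 : ∀ τ : ℂ, 0 < τ.im → xiT M A q m τ = 0) :
    DifferentiableOn ℂ (gT M A q m) HH := fun τ hτ => by
  have h := hasFDerivAt_gT' D hτ
  rw [h0 τ hτ, zero_div, mul_zero] at h
  exact (hasDerivAt_of_fderiv h).differentiableAt.differentiableWithinAt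

/-- continuity of a theta integral -/
theorem Dat.continuousOn (D : Dat M A q m) {Φ : ℝ → ℝ → ℂ → ℂ} (hΦ : Adm Φ)
    (hc : ∀ q m : ℝ, ContinuousOn (Φ q m) HH) :
    ContinuousOn (fun τ => ∫ y, A y * Φ (q y) (m y) τ ∂M) HH := by
  intro τ hτ
  obtain ⟨C, hC, hb⟩ := hΦ.bound hτ
  have hball : ∀ z ∈ Metric.ball τ (τ.im / 2), τ.im / 2 ≤ z.im ∧ z.im ≤ 3 * τ.im / 2 := by
    intro z hz
    rw [Metric.mem_ball, dist_eq_norm] at hz
    have h1 := (Complex.abs_im_le_norm (z - τ)).trans hz.le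
    rw [Complex.sub_im, abs_le] at h1
    constructor <;> linarith [h1.1, h1.2]
  refine ContinuousAt.continuousWithinAt ?_
  refine continuousAt_of_dominated (bound := fun y => C * (‖A y‖ * rexp (-(π * τ.im / 2 * m y))))
    ?_ ?_ ?_ ?_
  · exact Filter.Eventually.of_forall fun z => D.measA.mul
      ((hΦ.1 z).comp_aestronglyMeasurable (D.measq.prodMk D.measm))
  · filter_upwards [Metric.ball_mem_nhds τ (half_pos hτ)] with z hz
    refine Filter.Eventually.of_forall fun y => ?_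
    obtain ⟨h1, h2⟩ := hball z hz
    rw [norm_mul]
    calc ‖A y‖ * ‖Φ (q y) (m y) z‖ ≤ ‖A y‖ * (C * rexp (-(π * τ.im / 2 * m y))) := by
          gcongr
          exact hb _ _ _ (D.le y) h1 h2
      _ = C * (‖A y‖ * rexp (-(π * τ.im / 2 * m y))) := by ring
  · exact (D.int (π * τ.im / 2) (by have := Real.pi_pos; have hτ' : 0 < τ.im := hτ; positivity)).const_mul C
  · exact Filter.Eventually.of_forall fun y => continuousAt_const.mul
      ((hc (q y) (m y)).continuousAt (isOpen_HH.mem_nhds hτ))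

theorem continuousOn_th (q m : ℝ) : ContinuousOn (th q m) HH := fun _ hτ =>
  (hasFDerivAt_th q m hτ).continuousAt.continuousWithinAt

theorem continuousOn_im : ContinuousOn (fun τ : ℂ => (τ.im : ℂ)) HH :=
  (Complex.continuous_ofReal.comp Complex.continuous_im).continuousOn

theorem continuousOn_aT (q m : ℝ) : ContinuousOn (aT q m) HH :=
  continuousOn_const.mul (continuousOn_th q m)

theorem continuousOn_bT (q m : ℝ) : ContinuousOn (bT q m) HH := by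
  refine ContinuousOn.mul (ContinuousOn.sub ?_ continuousOn_const) (continuousOn_th q m)
  refine continuousOn_const.div (continuousOn_const.mul continuousOn_im) fun τ hτ => ?_
  have hτ' : 0 < τ.im := hτ
  have : (τ.im : ℂ) ≠ 0 := by exact_mod_cast hτ'.ne'
  simpa using this

theorem continuousOn_gT (D : Dat M A q m) : ContinuousOn (gT M A q m) HH :=
  D.continuousOn adm_th continuousOn_th

theorem continuousOn_xiT (D : Dat M A q m) : ContinuousOn (xiT M A q m) HH := fun _ hτ =>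
  (hasFDerivAt_xiT D hτ).continuousAt.continuousWithinAt

/-- the coefficient of `id` in the derivative of `g` is continuous -/
theorem continuousOn_aT_int (D : Dat M A q m) :
    ContinuousOn (fun τ => ∫ y, A y * aT (q y) (m y) τ ∂M) HH :=
  D.continuousOn adm_aT continuousOn_aT

theorem continuousOn_bT_int (D : Dat M A q m) :
    ContinuousOn (fun τ => ∫ y, A y * bT (q y) (m y) τ ∂M) HH :=
  D.continuousOn adm_bT continuousOn_bT

/-- growth of the integrand -/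
theorem norm_xt_le {q m : ℝ} (h : |q| ≤ m) {τ : ℂ} (hτ : 0 < τ.im) :
    ‖xt q m τ‖ ≤ 4 * √τ.im * rexp (-(3 / 2 * π * τ.im * m)) := by
  have hm : 0 ≤ m := (abs_nonneg q).trans h
  have hs : |m - q| ≤ 2 * m := by
    rw [abs_le] at h ⊢
    constructor <;> linarith [h.1, h.2]
  rw [xt, norm_mul, norm_mul, norm_th, norm_div, Complex.norm_I, Complex.norm_ofNat]
  have h1 : ‖(1 / 2 - 2 * π * τ.im * (m - q) : ℂ)‖ ≤ 1 / 2 + 4 * (π * τ.im * m) := by
    refine (norm_sub_le _ _).trans ?_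
    have h2 : ‖(2 * π * τ.im * (m - q) : ℂ)‖ = 2 * π * τ.im * |m - q| := by
      rw [← Complex.ofReal_sub, norm_mul, norm_mul, norm_mul, Complex.norm_real, Complex.norm_real,
        Complex.norm_real, Complex.norm_ofNat, Real.norm_of_nonneg Real.pi_pos.le,
        Real.norm_of_nonneg hτ.le, Real.norm_eq_abs]
    rw [h2]
    have h3 : ‖(1 / 2 : ℂ)‖ = 1 / 2 := by simp
    rw [h3]
    nlinarith [mul_le_mul_of_nonneg_left hs (by positivity : (0 : ℝ) ≤ 2 * π * τ.im)]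
  have h4 : 1 / 4 + 2 * (π * τ.im * m) ≤ 4 * rexp (π * τ.im * m / 2) := by
    have := Real.add_one_le_exp (π * τ.im * m / 2)
    nlinarith [this, mul_nonneg (mul_nonneg Real.pi_pos.le hτ.le) hm]
  calc 1 / 2 * ‖(1 / 2 - 2 * π * τ.im * (m - q) : ℂ)‖ * (√τ.im * rexp (-(2 * π * τ.im * m)))
      ≤ 1 / 2 * (1 / 2 + 4 * (π * τ.im * m)) * (√τ.im * rexp (-(2 * π * τ.im * m))) := by
        gcongr
    _ = (1 / 4 + 2 * (π * τ.im * m)) * (√τ.im * rexp (-(2 * π * τ.im * m))) := by ring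
    _ ≤ (4 * rexp (π * τ.im * m / 2)) * (√τ.im * rexp (-(2 * π * τ.im * m))) := by gcongr
    _ = 4 * √τ.im * (rexp (π * τ.im * m / 2) * rexp (-(2 * π * τ.im * m))) := by ring
    _ = 4 * √τ.im * rexp (-(3 / 2 * π * τ.im * m)) := by
        rw [← Real.exp_add]
        congr 2
        ring

/-- exponential decay of a theta integral supported on `m ≥ m₀` -/
theorem norm_gT_le (D : Dat M A q m) {m₀ v₁ : ℝ} (hv₁ : 0 < v₁) (hm₀ : 0 ≤ m₀)
    (hA : ∀ y, A y ≠ 0 → m₀ ≤ m y) {τ : ℂ} (hτ : v₁ ≤ τ.im) :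
    ‖gT M A q m τ‖ ≤ √τ.im * rexp (-(π * m₀ * τ.im)) *
      ∫ y, ‖A y‖ * rexp (-(π * v₁ * m y)) ∂M := by
  rw [gT, ← integral_const_mul]
  refine norm_integral_le_of_norm_le ((D.int (π * v₁) (by positivity)).const_mul _)
    (Filter.Eventually.of_forall fun y => ?_)
  rw [norm_mul, norm_th]
  by_cases hy : A y = 0
  · rw [hy, norm_zero, zero_mul, zero_mul, mul_zero]
  · have h1 := hA y hy
    have h2 : rexp (-(2 * π * τ.im * m y)) ≤
        rexp (-(π * m₀ * τ.im)) * rexp (-(π * v₁ * m y)) := by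
      rw [← Real.exp_add, Real.exp_le_exp]
      nlinarith [Real.pi_pos, mul_le_mul_of_nonneg_left h1 (mul_nonneg Real.pi_pos.le (hv₁.le.trans hτ)),
        mul_le_mul_of_nonneg_left hτ (mul_nonneg Real.pi_pos.le (hm₀.trans h1))]
    calc ‖A y‖ * (√τ.im * rexp (-(2 * π * τ.im * m y)))
        ≤ ‖A y‖ * (√τ.im * (rexp (-(π * m₀ * τ.im)) * rexp (-(π * v₁ * m y)))) := by gcongr
      _ = √τ.im * rexp (-(π * m₀ * τ.im)) * (‖A y‖ * rexp (-(π * v₁ * m y))) := by ring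

theorem norm_xiT_le (D : Dat M A q m) {m₀ v₁ : ℝ} (hv₁ : 0 < v₁) (hm₀ : 0 ≤ m₀)
    (hA : ∀ y, A y ≠ 0 → m₀ ≤ m y) {τ : ℂ} (hτ : v₁ ≤ τ.im) :
    ‖xiT M A q m τ‖ ≤ 4 * √τ.im * rexp (-(π / 2 * m₀ * τ.im)) *
      ∫ y, ‖A y‖ * rexp (-(π * v₁ * m y)) ∂M := by
  rw [xiT, ← integral_const_mul]
  refine norm_integral_le_of_norm_le ((D.int (π * v₁) (by positivity)).const_mul _)
    (Filter.Eventually.of_forall fun y => ?_)
  rw [norm_mul]
  by_cases hy : A y = 0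
  · rw [hy, norm_zero, zero_mul, zero_mul, mul_zero]
  · have h1 := hA y hy
    have h2 : rexp (-(3 / 2 * π * τ.im * m y)) ≤
        rexp (-(π / 2 * m₀ * τ.im)) * rexp (-(π * v₁ * m y)) := by
      rw [← Real.exp_add, Real.exp_le_exp]
      nlinarith [Real.pi_pos, mul_le_mul_of_nonneg_left h1 (mul_nonneg Real.pi_pos.le (hv₁.le.trans hτ)),
        mul_le_mul_of_nonneg_left hτ (mul_nonneg Real.pi_pos.le (hm₀.trans h1))]
    calc ‖A y‖ * ‖xt (q y) (m y) τ‖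
        ≤ ‖A y‖ * (4 * √τ.im * rexp (-(3 / 2 * π * τ.im * m y))) := by
          gcongr
          exact norm_xt_le (D.le y) (hv₁.trans_le hτ)
      _ ≤ ‖A y‖ * (4 * √τ.im * (rexp (-(π / 2 * m₀ * τ.im)) * rexp (-(π * v₁ * m y)))) := by gcongr
      _ = 4 * √τ.im * rexp (-(π / 2 * m₀ * τ.im)) * (‖A y‖ * rexp (-(π * v₁ * m y))) := by ring

end Main

end Fermat.Agent.H98T
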