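import Fermat.Agent.H74C3a
import Fermat.Agent.H98T1
import Fermat.Agent.H96TDef

/-!
# The Laplacian of the terms of the theta kernel (helper23, S47 T3)

`Lap_pair : Lap (κ ∘ pair X) = (Q + t²) κ''(t) + 3 t κ'(t)`, `t = pair X w`, `Q = hQ X`;
`Lap_th` : `(Δ + 1)` of the term `th` of the theta kernel is `pT` (helper98's `H98T1`).
-/

set_option autoImplicit false

noncomputable section

open Complex Filter Topology
open scoped ComplexConjugate Real ContDiff

namespace Fermat.Agent.H23T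

open Fermat.Agent.H74.C3 Fermat.Agent.S47T

/-! ### `pair` along the coordinate lines -/

section lines

variable (a d : ℝ) (b : ℂ)

theorem pair_pt {z : ℂ} {y : ℝ} (h : 0 < y) : pair a b d (pt z y) =
    (a - 2 * (b.re * z.re + b.im * z.im) + d * (z.re ^ 2 + z.im ^ 2 + y ^ 2)) / (2 * y) := by
  rw [pair, pt_y h, pt_z, normSq_apply, mul_re, conj_re, conj_im]
  ring_nf

theorem hasDerivAt_pair_re {z : ℂ} {y : ℝ} (h : 0 < y) (t : ℝ) :
    HasDerivAt (fun t : ℝ => pair a b d (pt (z + t) y)) ((d * (z.re + t) - b.re) / y) t := by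
  have e : (fun t : ℝ => pair a b d (pt (z + t) y)) = fun t : ℝ =>
      (a - 2 * (b.re * (z.re + t) + b.im * z.im) + d * ((z.re + t) ^ 2 + z.im ^ 2 + y ^ 2)) /
        (2 * y) := by
    funext t
    rw [pair_pt a d b h]
    simp
  rw [e]
  have h1 : HasDerivAt (fun t : ℝ => z.re + t) 1 t := (hasDerivAt_id t).const_add z.re
  have h2 := (((((h1.const_mul b.re).add_const (b.im * z.im)).const_mul 2).const_sub a).add
    ((((h1.pow 2).add_const (z.im ^ 2)).add_const (y ^ 2)).const_mul d)).div_const (2 * y)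
  refine HasDerivAt.congr_deriv h2 ?_
  field_simp
  norm_num
  ring

theorem hasDerivAt_pair_im {z : ℂ} {y : ℝ} (h : 0 < y) (t : ℝ) :
    HasDerivAt (fun t : ℝ => pair a b d (pt (z + t * I) y)) ((d * (z.im + t) - b.im) / y) t := by
  have e : (fun t : ℝ => pair a b d (pt (z + t * I) y)) = fun t : ℝ =>
      (a - 2 * (b.re * z.re + b.im * (z.im + t)) + d * (z.re ^ 2 + (z.im + t) ^ 2 + y ^ 2)) /
        (2 * y) := by
    funext t
    rw [pair_pt a d b h]
    simp
  rw [e]
  have h1 : HasDerivAt (fun t : ℝ => z.im + t) 1 t := (hasDerivAt_id t).const_add z.im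
  have h2 := (((((h1.const_mul b.im).const_add (b.re * z.re)).const_mul 2).const_sub a).add
    ((((h1.pow 2).const_add (z.re ^ 2)).add_const (y ^ 2)).const_mul d)).div_const (2 * y)
  refine HasDerivAt.congr_deriv h2 ?_
  field_simp
  norm_num
  ring

/-- `a - 2 Re(b z̄) + d |z|²` -/
def np (z : ℂ) : ℝ := a - 2 * (b.re * z.re + b.im * z.im) + d * (z.re ^ 2 + z.im ^ 2)

theorem hasDerivAt_pair_y (z : ℂ) {t : ℝ} (h : 0 < t) :
    HasDerivAt (fun t : ℝ => pair a b d (pt z t)) ((d - np a d b z / t ^ 2) / 2) t := by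
  have e : (fun t : ℝ => pair a b d (pt z t)) =ᶠ[𝓝 t] fun t : ℝ =>
      (np a d b z + d * t ^ 2) / (2 * t) := by
    filter_upwards [lt_mem_nhds h] with s hs
    rw [pair_pt a d b hs, np]
    ring_nf
  refine HasDerivAt.congr_of_eventuallyEq ?_ e
  have h1 : HasDerivAt (fun t : ℝ => np a d b z + d * t ^ 2) (d * (2 * t)) t := by
    simpa using (((hasDerivAt_pow 2 t).const_mul d).const_add (np a d b z))
  have h2 : HasDerivAt (fun t : ℝ => 2 * t) 2 t := by
    simpa using ((hasDerivAt_id t).const_mul 2)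
  have h3 := h1.div h2 (by positivity)
  refine HasDerivAt.congr_deriv h3 ?_
  field_simp
  ring

theorem hasDerivAt_pair_yy (z : ℂ) {t : ℝ} (h : 0 < t) :
    HasDerivAt (fun t : ℝ => (d - np a d b z / t ^ 2) / 2) (np a d b z / t ^ 3) t := by
  have h1 : HasDerivAt (fun t : ℝ => np a d b z / t ^ 2) (-(2 * np a d b z) / t ^ 3) t := by
    have h2 := (hasDerivAt_const t (np a d b z)).div (hasDerivAt_pow 2 t) (by positivity)
    refine HasDerivAt.congr_deriv h2 ?_
    field_simp
    norm_num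
    ring
  have h2 := (h1.const_sub d).div_const 2
  refine HasDerivAt.congr_deriv h2 ?_
  field_simp

end lines

/-- **the Laplacian of a function of `pair`** -/
theorem Lap_pair {κ : ℝ → ℂ} (hκ : ContDiff ℝ 2 κ) (a d : ℝ) (b : ℂ) (w : H3) :
    Lap (fun w => κ (pair a b d w)) w =
      ((hQ a b d + pair a b d w ^ 2 : ℝ) : ℂ) * deriv (deriv κ) (pair a b d w) +
        3 * pair a b d w * deriv κ (pair a b d w) := by
  have hd : Differentiable ℝ κ := hκ.differentiable (by norm_num)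
  have hy := w.y_ne
  have e0 := pair_pt a d b (z := w.z) w.pos
  rw [pt_self] at e0
  have e1 : dy (fun w => κ (pair a b d w)) w =
      (((d - np a d b w.z / w.y ^ 2) / 2 : ℝ) : ℂ) * deriv κ (pair a b d w) := by
    have := (hasDerivAt_comp_real (hd _) (hasDerivAt_pair_y a d b w.z w.pos)).deriv
    rw [pt_self] at this
    exact this
  have e2 : dyy (fun w => κ (pair a b d w)) w =
      deriv (deriv κ) (pair a b d w) * (((d - np a d b w.z / w.y ^ 2) / 2 : ℝ) : ℂ) ^ 2 +
        deriv κ (pair a b d w) * ((np a d b w.z / w.y ^ 3 : ℝ) : ℂ) := by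
    have h := deriv2_comp hκ (g := fun t : ℝ => pair a b d (pt w.z t))
      (g1 := fun t : ℝ => (d - np a d b w.z / t ^ 2) / 2) (t0 := w.y)
      (g2 := np a d b w.z / w.y ^ 3)
      (by filter_upwards [lt_mem_nhds w.pos] with t ht using hasDerivAt_pair_y a d b w.z ht)
      (hasDerivAt_pair_yy a d b w.z w.pos)
    simp only [pt_self] at h
    exact h
  have e3 : dz1 (fun w => κ (pair a b d w)) w =
      deriv (deriv κ) (pair a b d w) * (((d * w.z.re - b.re) / w.y : ℝ) : ℂ) ^ 2 +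
        deriv κ (pair a b d w) * ((d / w.y : ℝ) : ℂ) := by
    have h := deriv2_comp hκ (g := fun t : ℝ => pair a b d (pt (w.z + t) w.y))
      (g1 := fun t : ℝ => (d * (w.z.re + t) - b.re) / w.y) (t0 := 0)
      (g2 := d / w.y)
      (Eventually.of_forall fun t => hasDerivAt_pair_re a d b w.pos t)
      (by
        have h2 := ((((hasDerivAt_id (0 : ℝ)).const_add w.z.re).const_mul d).sub_const
          b.re).div_const w.y
        refine HasDerivAt.congr_deriv h2 ?_
        simp)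
    simp only [Complex.ofReal_zero, add_zero, pt_self] at h
    exact h
  have e4 : dz2 (fun w => κ (pair a b d w)) w =
      deriv (deriv κ) (pair a b d w) * (((d * w.z.im - b.im) / w.y : ℝ) : ℂ) ^ 2 +
        deriv κ (pair a b d w) * ((d / w.y : ℝ) : ℂ) := by
    have h := deriv2_comp hκ (g := fun t : ℝ => pair a b d (pt (w.z + t * Complex.I) w.y))
      (g1 := fun t : ℝ => (d * (w.z.im + t) - b.im) / w.y) (t0 := 0)
      (g2 := d / w.y)
      (Eventually.of_forall fun t => hasDerivAt_pair_im a d b w.pos t)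
      (by
        have h2 := ((((hasDerivAt_id (0 : ℝ)).const_add w.z.im).const_mul d).sub_const
          b.im).div_const w.y
        refine HasDerivAt.congr_deriv h2 ?_
        simp)
    simp only [Complex.ofReal_zero, zero_mul, add_zero, pt_self] at h
    exact h
  rw [Lap, e1, e2, e3, e4, e0, hQ, normSq_apply]
  generalize hA : deriv (deriv κ) _ = A
  generalize hB : deriv κ _ = B
  simp only [np]
  push_cast
  field_simp
  ring

theorem contDiffOn_pair (a d : ℝ) (b : ℂ) {n : WithTop ℕ∞} :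
    ContDiffOn ℝ n (fun p : ℂ × ℝ => pair a b d (pt p.1 p.2)) {p | 0 < p.2} := by
  have h1 : ContDiffOn ℝ n (fun p : ℂ × ℝ =>
      (a - 2 * (b.re * p.1.re + b.im * p.1.im) + d * (p.1.re ^ 2 + p.1.im ^ 2 + p.2 ^ 2)) /
        (2 * p.2)) {p | 0 < p.2} := by
    have hre : ContDiff ℝ n (fun p : ℂ × ℝ => p.1.re) := reCLM.contDiff.comp contDiff_fst
    have him : ContDiff ℝ n (fun p : ℂ × ℝ => p.1.im) := imCLM.contDiff.comp contDiff_fst
    refine ContDiffOn.div (ContDiff.contDiffOn ?_) (ContDiff.contDiffOn ?_) ?_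
    · exact (contDiff_const.sub (contDiff_const.mul ((contDiff_const.mul hre).add
        (contDiff_const.mul him)))).add (contDiff_const.mul (((hre.pow 2).add (him.pow 2)).add
          (contDiff_snd.pow 2)))
    · exact contDiff_const.mul contDiff_snd
    · intro p hp
      have : 0 < p.2 := hp
      positivity
  refine h1.congr fun p hp => ?_
  exact pair_pt a d b hp

theorem contDiffOn_comp_pair {κ : ℝ → ℂ} {n : WithTop ℕ∞} (hκ : ContDiff ℝ n κ) (a d : ℝ) (b : ℂ) :
    ContDiffOn ℝ n (fun p : ℂ × ℝ => κ (pair a b d (pt p.1 p.2))) {p | 0 < p.2} :=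
  hκ.comp_contDiffOn (contDiffOn_pair a d b)

/-! ### The terms of the theta kernel -/

/-- the term as a function of `t = pair` -/
def kth (r Q : ℝ) (τ : ℂ) (t : ℝ) : ℂ :=
  (√τ.im : ℂ) * cexp (2 * π * I * (r * Q : ℝ) * τ) * cexp ((-(4 * π * τ.im * r) * t ^ 2 : ℝ))

theorem kth_eq (r Q : ℝ) (τ : ℂ) (t : ℝ) :
    kth r Q τ t = H98T.th (r * Q) (r * Q + 2 * (r * t ^ 2)) τ := by
  rw [kth, H98T.th]
  congr 2
  push_cast
  ring

theorem contDiff_kth {n : WithTop ℕ∞} (r Q : ℝ) (τ : ℂ) : ContDiff ℝ n (kth r Q τ) := by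
  unfold kth
  refine contDiff_const.mul (ContDiff.cexp ?_)
  exact ofRealCLM.contDiff.comp (contDiff_const.mul (contDiff_id.pow 2))

theorem hasDerivAt_kth (r Q : ℝ) (τ : ℂ) (t : ℝ) :
    HasDerivAt (kth r Q τ) (((-(8 * π * τ.im * r) * t : ℝ) : ℂ) * kth r Q τ t) t := by
  have h1 : HasDerivAt (fun t : ℝ => (-(4 * π * τ.im * r) * t ^ 2 : ℝ)) (-(8 * π * τ.im * r) * t) t := by
    refine HasDerivAt.congr_deriv ((hasDerivAt_pow 2 t).const_mul (-(4 * π * τ.im * r))) ?_
    norm_num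
    ring
  have h2 := (h1.ofReal_comp.cexp).const_mul
    ((√τ.im : ℂ) * cexp (2 * π * I * (r * Q : ℝ) * τ))
  refine HasDerivAt.congr_deriv h2 ?_
  rw [kth]
  ring

theorem deriv_kth (r Q : ℝ) (τ : ℂ) : deriv (kth r Q τ) =
    fun t => ((-(8 * π * τ.im * r) * t : ℝ) : ℂ) * kth r Q τ t :=
  funext fun t => (hasDerivAt_kth r Q τ t).deriv

theorem deriv2_kth (r Q : ℝ) (τ : ℂ) (t : ℝ) : deriv (deriv (kth r Q τ)) t =
    ((-(8 * π * τ.im * r) + (8 * π * τ.im * r) ^ 2 * t ^ 2 : ℝ) : ℂ) * kth r Q τ t := by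
  rw [deriv_kth]
  have h1 : HasDerivAt (fun t : ℝ => ((-(8 * π * τ.im * r) * t : ℝ) : ℂ))
      ((-(8 * π * τ.im * r) : ℝ) : ℂ) t := by
    have := ((hasDerivAt_id t).const_mul (-(8 * π * τ.im * r))).ofReal_comp
    simpa using this
  have h2 : HasDerivAt (fun t : ℝ => ((-(8 * π * τ.im * r) * t : ℝ) : ℂ) * kth r Q τ t) _ t :=
    h1.mul (hasDerivAt_kth r Q τ t)
  rw [h2.deriv]
  push_cast
  ring

/-- **`(Δ + 1)` of a term** -/
theorem Lap_th (r a d : ℝ) (b : ℂ) (τ : ℂ) (w : H3) :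
    Lap (fun w => H98T.th (r * hQ a b d) (r * hQ a b d + 2 * (r * pair a b d w ^ 2)) τ) w +
      H98T.th (r * hQ a b d) (r * hQ a b d + 2 * (r * pair a b d w ^ 2)) τ =
    H98T.pT (r * hQ a b d) (r * hQ a b d + 2 * (r * pair a b d w ^ 2)) τ := by
  have h1 : (fun w => H98T.th (r * hQ a b d) (r * hQ a b d + 2 * (r * pair a b d w ^ 2)) τ) =
      fun w => kth r (hQ a b d) τ (pair a b d w) := by
    funext w
    rw [kth_eq]
  rw [h1, Lap_pair (contDiff_kth _ _ _), deriv2_kth, deriv_kth, H98T.pT, ← kth_eq]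
  simp only
  generalize kth r (hQ a b d) τ (pair a b d w) = K
  push_cast
  ring

theorem contDiffOn_th {n : WithTop ℕ∞} (r a d : ℝ) (b : ℂ) (τ : ℂ) :
    ContDiffOn ℝ n (fun p : ℂ × ℝ => H98T.th (r * hQ a b d)
      (r * hQ a b d + 2 * (r * pair a b d (pt p.1 p.2) ^ 2)) τ) {p | 0 < p.2} := by
  have h1 := contDiffOn_comp_pair (contDiff_kth (n := n) r (hQ a b d) τ) a d b
  refine h1.congr fun p _ => ?_
  rw [kth_eq]

end Fermat.Agent.H23T
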