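import Fermat.Agent.H23TB

/-!
# The abstract integral identity (helper23, S47 T3)

`F` an eigenfunction of an invariant kernel `k` with eigenvalue `c ≠ 0` and of `k'` with
eigenvalue `0`; `u i`, `u' i` families with `∫ k(x, y) u i y dy = ∫ k'(x, y) u' i y dy`. Then
`∫ χ F ∑ u i = 0`.
-/

set_option autoImplicit false
set_option linter.unusedSectionVars false

noncomputable section

open MeasureTheory
open scoped ENNReal

namespace Fermat.Agent.H23T

section Count

variable {ι : Type*} [Countable ι] [MeasurableSpace ι] [MeasurableSingletonClass ι]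

theorem integral_count_eq (f : ι → ℂ) : ∫ i, f i ∂(Measure.count : Measure ι) = ∑' i, f i := by
  by_cases h : Summable f
  · have hi : Integrable f (Measure.count : Measure ι) := integrable_count_iff.mpr h.norm
    rw [integral_countable hi]
    refine tsum_congr fun i => ?_
    simp [Measure.real]
  · rw [tsum_eq_zero_of_not_summable h, integral_undef]
    intro h'
    exact h (integrable_count_iff.mp h').of_norm

end Count

section Star

variable {X Γ ι : Type*} [Group Γ] [Countable Γ] [MulAction Γ X] [MeasurableSpace X]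
  {μ : Measure X} [Countable ι] [MeasurableSpace ι] [MeasurableSingletonClass ι]

/-- the sum of a family -/
def sumU (u : ι → X → ℂ) (x : X) : ℂ := ∑' i, u i x

theorem measurable_uncurry {u : ι → X → ℂ} (hu : ∀ i, Measurable (u i)) :
    Measurable (fun p : ι × X => u p.1 p.2) :=
  measurable_from_prod_countable_right hu

theorem measurable_sumU {u : ι → X → ℂ} (hu : ∀ i, Measurable (u i)) : Measurable (sumU u) := by
  have h : sumU u = fun x => ∫ i, u i x ∂(Measure.count : Measure ι) :=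
    funext fun x => (integral_count_eq _).symm
  rw [h]
  exact ((measurable_uncurry hu).stronglyMeasurable.integral_prod_left').measurable

theorem measurable_tsum_enorm {u : ι → X → ℂ} (hu : ∀ i, Measurable (u i)) :
    Measurable (fun x => ∑' i, ‖u i x‖ₑ) :=
  Measurable.tsum fun i => (hu i).enorm

theorem enorm_sumU_le (u : ι → X → ℂ) (x : X) : ‖sumU u x‖ₑ ≤ ∑' i, ‖u i x‖ₑ := by
  rw [sumU, ← integral_count_eq, ← lintegral_count]
  exact enorm_integral_le_lintegral_enorm _

theorem sumU_smul {u : ι → X → ℂ} (σ : Γ → ι ≃ ι)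
    (hσ : ∀ g i x, u (σ g i) (g • x) = u i x) (g : Γ) (x : X) : sumU u (g • x) = sumU u x := by
  rw [sumU, sumU, ← (σ g).tsum_eq]
  exact tsum_congr fun i => hσ g i x

theorem integrable_count_prod [SFinite μ] {f : ι × X → ℂ} (hf : Measurable f)
    (hfin : ∫⁻ x, ∑' i, ‖f (i, x)‖ₑ ∂μ < ∞) :
    Integrable f ((Measure.count : Measure ι).prod μ) := by
  refine ⟨hf.aestronglyMeasurable, ?_⟩
  rw [HasFiniteIntegral, lintegral_prod_symm' _ hf.enorm]
  simpa [lintegral_count] using hfin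

/-- interchange of sum and integral -/
theorem integral_mul_sumU [SFinite μ] {k : X → ℂ} (hk : Measurable k) {u : ι → X → ℂ}
    (hu : ∀ i, Measurable (u i)) (hfin : ∫⁻ y, ‖k y‖ₑ * ∑' i, ‖u i y‖ₑ ∂μ < ∞) :
    ∫ y, k y * sumU u y ∂μ = ∑' i, ∫ y, k y * u i y ∂μ := by
  have hm : Measurable (fun p : ι × X => k p.2 * u p.1 p.2) :=
    (hk.comp measurable_snd).mul (measurable_uncurry hu)
  have hi : Integrable (fun p : ι × X => k p.2 * u p.1 p.2) ((Measure.count : Measure ι).prod μ) := by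
    refine integrable_count_prod hm ?_
    simpa [enorm_mul, ENNReal.tsum_mul_left] using hfin
  rw [← integral_count_eq]
  have h := integral_integral_swap (f := fun (i : ι) (y : X) => k y * u i y) hi
  rw [h]
  refine integral_congr_ae (Filter.Eventually.of_forall fun y => ?_)
  simp only
  rw [integral_const_mul, integral_count_eq, sumU]

/-- the identity for one kernel: `∫ F R(k) G = c ∫ F G` -/
theorem adj_sumU [SFinite μ] (hμ : ∀ g : Γ, MeasurePreserving (fun x : X => g • x) μ μ)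
    {χ : X → ℝ≥0∞} (hχ : Measurable χ) (h1 : ∀ x, ∑' g : Γ, χ (g • x) = 1)
    {F : X → ℂ} (hF : Measurable F) (hFi : ∀ (g : Γ) x, F (g • x) = F x)
    {k : X → X → ℂ} (hk : Measurable (Function.uncurry k))
    (hki : ∀ (g : Γ) x y, k (g • x) (g • y) = k x y)
    {c : ℂ} (hkF : ∀ y, ∫ x, k x y * F x ∂μ = c * F y)
    {u : ι → X → ℂ} (hu : ∀ i, Measurable (u i)) (σ : Γ → ι ≃ ι)
    (hσ : ∀ g i x, u (σ g i) (g • x) = u i x)
    (hint : ∫⁻ x, ‖F x‖ₑ * (∫⁻ y, ‖k x y‖ₑ * ∑' i, ‖u i y‖ₑ ∂μ) ∂(μ.withDensity χ) < ∞) :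
    ∫ x, F x * (∫ y, k x y * sumU u y ∂μ) ∂(μ.withDensity χ) =
      c * ∫ x, F x * sumU u x ∂(μ.withDensity χ) := by
  have hm : Measurable (fun p : X × X => F p.1 * k p.1 p.2 * sumU u p.2) :=
    ((hF.comp measurable_fst).mul hk).mul ((measurable_sumU hu).comp measurable_snd)
  rw [adj hμ hχ h1 hF (measurable_sumU hu) hk hFi (sumU_smul σ hσ) hki]
  · rw [← integral_const_mul]
    refine integral_congr_ae (Filter.Eventually.of_forall fun y => ?_)
    simp only
    rw [hkF]
    ring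
  · refine ⟨hm.aestronglyMeasurable, ?_⟩
    rw [HasFiniteIntegral, lintegral_prod _ hm.enorm.aemeasurable]
    refine lt_of_le_of_lt (lintegral_mono fun x => ?_) hint
    simp only [enorm_mul, mul_assoc]
    rw [lintegral_const_mul]
    · gcongr with y
      exact enorm_sumU_le u y
    · exact (hk.comp measurable_prodMk_left).enorm.mul (measurable_sumU hu).enorm

/-- **the abstract identity** -/
theorem star_abs [SFinite μ] (hμ : ∀ g : Γ, MeasurePreserving (fun x : X => g • x) μ μ)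
    {χ : X → ℝ≥0∞} (hχ : Measurable χ) (h1 : ∀ x, ∑' g : Γ, χ (g • x) = 1)
    {F : X → ℂ} (hF : Measurable F) (hFi : ∀ (g : Γ) x, F (g • x) = F x)
    {k k' : X → X → ℂ} (hk : Measurable (Function.uncurry k))
    (hk' : Measurable (Function.uncurry k'))
    (hki : ∀ (g : Γ) x y, k (g • x) (g • y) = k x y)
    (hki' : ∀ (g : Γ) x y, k' (g • x) (g • y) = k' x y)
    {c : ℂ} (hc : c ≠ 0) (hkF : ∀ y, ∫ x, k x y * F x ∂μ = c * F y)
    (hkF' : ∀ y, ∫ x, k' x y * F x ∂μ = 0)
    {u u' : ι → X → ℂ} (hu : ∀ i, Measurable (u i)) (hu' : ∀ i, Measurable (u' i))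
    (σ : Γ → ι ≃ ι) (hσ : ∀ g i x, u (σ g i) (g • x) = u i x)
    (hσ' : ∀ g i x, u' (σ g i) (g • x) = u' i x)
    (hgreen : ∀ i x, ∫ y, k x y * u i y ∂μ = ∫ y, k' x y * u' i y ∂μ)
    (hint : ∫⁻ x, ‖F x‖ₑ * (∫⁻ y, ‖k x y‖ₑ * ∑' i, ‖u i y‖ₑ ∂μ) ∂(μ.withDensity χ) < ∞)
    (hint' : ∫⁻ x, ‖F x‖ₑ * (∫⁻ y, ‖k' x y‖ₑ * ∑' i, ‖u' i y‖ₑ ∂μ) ∂(μ.withDensity χ) < ∞) :
    ∫ x, F x * sumU u x ∂(μ.withDensity χ) = 0 := by
  have e1 := adj_sumU hμ hχ h1 hF hFi hk hki hkF hu σ hσ hint
  have e2 := adj_sumU hμ hχ h1 hF hFi hk' hki' (c := 0) (fun y => by rw [hkF', zero_mul]) hu' σ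
    hσ' hint'
  rw [zero_mul] at e2
  have hmeas : ∀ {k : X → X → ℂ} {u : ι → X → ℂ}, Measurable (Function.uncurry k) →
      (∀ i, Measurable (u i)) →
      Measurable (fun x => ‖F x‖ₑ * (∫⁻ y, ‖k x y‖ₑ * ∑' i, ‖u i y‖ₑ ∂μ)) := by
    intro k u hk hu
    refine hF.enorm.mul ?_
    have : Measurable (fun p : X × X => ‖k p.1 p.2‖ₑ * ∑' i, ‖u i p.2‖ₑ) :=
      hk.enorm.mul ((measurable_tsum_enorm hu).comp measurable_snd)
    exact this.lintegral_prod_right'
  have h3 : ∀ᵐ x ∂(μ.withDensity χ), F x * (∫ y, k x y * sumU u y ∂μ) =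
      F x * (∫ y, k' x y * sumU u' y ∂μ) := by
    filter_upwards [ae_lt_top (hmeas hk hu) hint.ne, ae_lt_top (hmeas hk' hu') hint'.ne] with x hx hx'
    by_cases hFx : F x = 0
    · rw [hFx, zero_mul, zero_mul]
    · have hne : ‖F x‖ₑ ≠ 0 := by simpa using hFx
      have hx1 : ∫⁻ y, ‖k x y‖ₑ * ∑' i, ‖u i y‖ₑ ∂μ < ∞ := by
        rcases ENNReal.mul_lt_top_iff.mp hx with h | h | h
        · exact h.2
        · exact absurd h hne
        · rw [h]; exact ENNReal.zero_lt_top
      have hx2 : ∫⁻ y, ‖k' x y‖ₑ * ∑' i, ‖u' i y‖ₑ ∂μ < ∞ := by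
        rcases ENNReal.mul_lt_top_iff.mp hx' with h | h | h
        · exact h.2
        · exact absurd h hne
        · rw [h]; exact ENNReal.zero_lt_top
      rw [integral_mul_sumU (k := k x) (hk.comp measurable_prodMk_left) hu hx1,
        integral_mul_sumU (k := k' x) (hk'.comp measurable_prodMk_left) hu' hx2]
      congr 1
      exact tsum_congr fun i => hgreen i x
  rw [integral_congr_ae h3, e2] at e1
  exact (mul_eq_zero.mp e1.symm).resolve_left hc

/-- the integral over the product -/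
theorem integral_prod_eq [SFinite μ] {F : X → ℂ} (hF : Measurable F) {u : ι → X → ℂ}
    (hu : ∀ i, Measurable (u i)) (hint : ∫⁻ x, ‖F x‖ₑ * ∑' i, ‖u i x‖ₑ ∂μ < ∞) :
    Integrable (fun p : ι × X => F p.2 * u p.1 p.2) ((Measure.count : Measure ι).prod μ) ∧
    ∫ p : ι × X, F p.2 * u p.1 p.2 ∂((Measure.count : Measure ι).prod μ) =
      ∫ x, F x * sumU u x ∂μ := by
  have hm : Measurable (fun p : ι × X => F p.2 * u p.1 p.2) :=
    (hF.comp measurable_snd).mul (measurable_uncurry hu)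
  have hi : Integrable (fun p : ι × X => F p.2 * u p.1 p.2) ((Measure.count : Measure ι).prod μ) := by
    refine integrable_count_prod hm ?_
    simpa [enorm_mul, ENNReal.tsum_mul_left] using hint
  refine ⟨hi, ?_⟩
  rw [integral_prod_symm _ hi]
  refine integral_congr_ae (Filter.Eventually.of_forall fun y => ?_)
  simp only
  rw [integral_const_mul, integral_count_eq, sumU]

end Star

end Fermat.Agent.H23T
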