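import Fermat.Agent.H96TDef
import Mathlib.Analysis.Calculus.BumpFunction.Normed

/-!
# A bump kernel with `kap0 κ ≠ 0` and `kap0 ((L + 1) κ) = 0` (helper23, S47 T3)
-/

set_option autoImplicit false

noncomputable section

open Filter Topology Set MeasureTheory
open scoped Real ContDiff

namespace Fermat.Agent.H23T

open Fermat.Agent.S47T

/-- `(L + 1) κ = (t² - 1) κ'' + 3 t κ' + κ` -/
def L1 (κ : ℝ → ℝ) (t : ℝ) : ℝ := (t ^ 2 - 1) * deriv (deriv κ) t + 3 * t * deriv κ t + κ t

section L1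

variable {κ : ℝ → ℝ}

theorem contDiff_deriv' (hκ : ContDiff ℝ ∞ κ) : ContDiff ℝ ∞ (deriv κ) := by
  have h : ContDiff ℝ (∞ + 1) κ := hκ
  exact ((contDiff_succ_iff_deriv (n := ∞)).mp h).2.2

theorem contDiff_L1 (hκ : ContDiff ℝ ∞ κ) : ContDiff ℝ ∞ (L1 κ) := by
  have h1 := contDiff_deriv' hκ
  have h2 := contDiff_deriv' h1
  exact ((((contDiff_id.pow 2).sub contDiff_const).mul h2).add
    ((contDiff_const.mul contDiff_id).mul h1)).add hκ

theorem hasCompactSupport_L1 (hs : HasCompactSupport κ) : HasCompactSupport (L1 κ) := by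
  have h1 : HasCompactSupport (deriv κ) := hs.deriv
  have h2 : HasCompactSupport (deriv (deriv κ)) := h1.deriv
  exact ((h2.mul_left).add (h1.mul_left)).add hs

/-- primitive of `L1 κ` -/
def G1 (κ : ℝ → ℝ) (t : ℝ) : ℝ := (t ^ 2 - 1) * deriv κ t + t * κ t

theorem hasDerivAt_G1 (hκ : ContDiff ℝ ∞ κ) (t : ℝ) : HasDerivAt (G1 κ) (L1 κ t) t := by
  have d0 : HasDerivAt κ (deriv κ t) t := (hκ.differentiable (by simp) t).hasDerivAt
  have d1 : HasDerivAt (deriv κ) (deriv (deriv κ) t) t :=
    ((contDiff_deriv' hκ).differentiable (by simp) t).hasDerivAt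
  have h1 : HasDerivAt (fun t : ℝ => t ^ 2 - 1) (2 * t) t := by
    simpa using (hasDerivAt_pow 2 t).sub_const 1
  have h2 := (h1.mul d1).add ((hasDerivAt_id t).mul d0)
  refine HasDerivAt.congr_deriv h2 ?_
  simp only [L1, id_eq]
  ring

theorem tendsto_of_compact {f : ℝ → ℝ} (hs : HasCompactSupport f) : Tendsto f atTop (𝓝 0) := by
  rw [hasCompactSupport_iff_eventuallyEq, Filter.coclosedCompact_eq_cocompact] at hs
  exact hs.filter_mono _root_.atTop_le_cocompact |>.tendsto

theorem integral_L1 (hκ : ContDiff ℝ ∞ κ) (hs : HasCompactSupport κ) (x : ℝ) :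
    ∫ t in Ioi x, L1 κ t = -G1 κ x := by
  have hG : HasCompactSupport (G1 κ) := (hs.deriv.mul_left).add hs.mul_left
  rw [integral_Ioi_of_hasDerivAt_of_tendsto' (fun t _ => hasDerivAt_G1 hκ t)
    (((contDiff_L1 hκ).continuous.integrable_of_hasCompactSupport
      (hasCompactSupport_L1 hs)).integrableOn) (tendsto_of_compact hG), zero_sub]

theorem kap0_L1 (hκ : ContDiff ℝ ∞ κ) (hs : HasCompactSupport κ) : kap0 (L1 κ) = 0 := by
  obtain ⟨R, hR⟩ : ∃ R : ℝ, ∀ t, R ≤ t → κ t = 0 ∧ deriv κ t = 0 := by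
    obtain ⟨R, hR⟩ := (hs.isCompact.union hs.deriv.isCompact).bddAbove
    refine ⟨R + 1, fun t ht => ⟨?_, ?_⟩⟩
    · by_contra h
      have := hR (Or.inl (subset_tsupport _ h))
      linarith
    · by_contra h
      have := hR (Or.inr (subset_tsupport _ h))
      linarith
  have hd : ∀ u, HasDerivAt (fun u => Real.sinh u * κ (Real.cosh u)) (G1 κ (Real.cosh u)) u := by
    intro u
    have d0 : HasDerivAt κ (deriv κ (Real.cosh u)) (Real.cosh u) :=
      (hκ.differentiable (by simp) _).hasDerivAt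
    have h := (Real.hasDerivAt_sinh u).mul (d0.comp u (Real.hasDerivAt_cosh u))
    refine HasDerivAt.congr_deriv h ?_
    rw [G1]
    simp only [Function.comp_apply]
    rw [Real.cosh_sq u]
    ring
  have hz : ∀ u, R ≤ u → 0 ≤ u → Real.sinh u * κ (Real.cosh u) = 0 ∧ G1 κ (Real.cosh u) = 0 := by
    intro u hu hu0
    have h1 : u ≤ Real.cosh u := by
      have h2 := Real.self_le_sinh_iff.mpr hu0
      have h3 := Real.sinh_lt_cosh u
      linarith
    obtain ⟨h4, h5⟩ := hR _ (hu.trans h1)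
    exact ⟨by rw [h4, mul_zero], by rw [G1, h4, h5]; ring⟩
  have ht : Tendsto (fun u => Real.sinh u * κ (Real.cosh u)) atTop (𝓝 0) := by
    refine (tendsto_congr' ?_).mpr tendsto_const_nhds
    filter_upwards [eventually_ge_atTop R, eventually_ge_atTop 0] with u h1 h2
    exact (hz u h1 h2).1
  have hc : Continuous (fun u => G1 κ (Real.cosh u)) := by
    have : Continuous (G1 κ) := by
      refine (Continuous.mul (by fun_prop) (contDiff_deriv' hκ).continuous).add
        (continuous_id.mul hκ.continuous)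
    exact this.comp Real.continuous_cosh
  have hi : IntegrableOn (fun u => G1 κ (Real.cosh u)) (Ioi 0) := by
    have h1 : IntegrableOn (fun u => G1 κ (Real.cosh u)) (Ioc 0 (max R 0)) :=
      (hc.integrableOn_Icc (a := 0) (b := max R 0)).mono_set Ioc_subset_Icc_self
    have h2 : IntegrableOn (fun u => G1 κ (Real.cosh u)) (Ioi (max R 0)) := by
      refine (integrableOn_zero).congr_fun (fun u hu => ?_) measurableSet_Ioi
      have hu' : max R 0 < u := hu
      exact (hz u ((le_max_left _ _).trans hu'.le) ((le_max_right _ _).trans hu'.le)).2.symm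
    rw [← Ioc_union_Ioi_eq_Ioi (le_max_right R 0)]
    exact h1.union h2
  rw [kap0]
  simp_rw [integral_L1 hκ hs]
  have h3 := integral_Ioi_of_hasDerivAt_of_tendsto' (fun u _ => hd u) hi ht
  have h4 : ∫ u in Ioi (0 : ℝ), 2 * π * -G1 κ (Real.cosh u) =
      -(2 * π) * ∫ u in Ioi (0 : ℝ), G1 κ (Real.cosh u) := by
    rw [← integral_const_mul]
    congr 1
    funext u
    ring
  rw [h4, h3]
  simp

end L1

/-! ### The bump kernel -/

/-- the bump function, supported in `(2, 4)` -/
def bk : ContDiffBump (3 : ℝ) where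
  rIn := 1 / 2
  rOut := 1
  rIn_pos := by norm_num
  rIn_lt_rOut := by norm_num

theorem bk_zero_of_le {t : ℝ} (ht : t ≤ 2) : bk t = 0 := by
  refine bk.zero_of_le_dist ?_
  show 1 ≤ dist t 3
  rw [Real.dist_eq, abs_of_nonpos (by linarith)]
  linarith

theorem bk_zero_of_ge {t : ℝ} (ht : 4 ≤ t) : bk t = 0 := by
  refine bk.zero_of_le_dist ?_
  show 1 ≤ dist t 3
  rw [Real.dist_eq, abs_of_nonneg (by linarith)]
  linarith

theorem contDiff_bk : ContDiff ℝ ∞ (bk : ℝ → ℝ) := bk.contDiff

theorem hasCompactSupport_bk : HasCompactSupport (bk : ℝ → ℝ) := bk.hasCompactSupport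

theorem integrable_bk : Integrable (bk : ℝ → ℝ) :=
  bk.continuous.integrable_of_hasCompactSupport bk.hasCompactSupport

theorem kap0_bk_pos : 0 < kap0 (bk : ℝ → ℝ) := by
  set B : ℝ → ℝ := fun x => ∫ t in Ioi x, bk t with hB
  have hm : 0 < ∫ t, bk t := bk.integral_pos
  have hB0 : ∀ x, 0 ≤ B x := fun x => setIntegral_nonneg measurableSet_Ioi fun t _ => bk.nonneg
  have hanti : Antitone B := by
    intro x y hxy
    exact setIntegral_mono_set integrable_bk.integrableOn
      (Filter.Eventually.of_forall fun t => bk.nonneg) (Ioi_subset_Ioi hxy).eventuallyLE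
  have hB1 : ∀ x ≤ 2, B x = ∫ t, bk t := by
    intro x hx
    rw [hB]
    refine setIntegral_eq_integral_of_forall_compl_eq_zero fun t ht => ?_
    have : t ≤ x := not_lt.mp ht
    exact bk_zero_of_le (this.trans hx)
  have hB2 : ∀ x, 4 ≤ x → B x = 0 := by
    intro x hx
    rw [hB]
    refine setIntegral_eq_zero_of_forall_eq_zero fun t ht => ?_
    have : x < t := ht
    exact bk_zero_of_ge (hx.trans this.le)
  have hBle : ∀ x, B x ≤ ∫ t, bk t := fun x => by
    rcases le_total x 2 with h | h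
    · exact (hB1 x h).le
    · exact (hanti h).trans (hB1 2 le_rfl).le
  have hmeas : Measurable fun u => B (Real.cosh u) := hanti.measurable.comp Real.measurable_cosh
  have hcosh3 : ∀ u, 4 ≤ u → 4 ≤ Real.cosh u := by
    intro u hu
    have h2 := Real.self_le_sinh_iff.mpr (by linarith : (0 : ℝ) ≤ u)
    have h3 := Real.sinh_lt_cosh u
    linarith
  have hint : IntegrableOn (fun u => B (Real.cosh u)) (Ioi 0) := by
    rw [← Ioc_union_Ioi_eq_Ioi (by norm_num : (0 : ℝ) ≤ 4)]
    refine IntegrableOn.union ?_ ?_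
    · refine Measure.integrableOn_of_bounded (M := ∫ t, bk t) (by simp)
        hmeas.aestronglyMeasurable (Filter.Eventually.of_forall fun u => ?_)
      rw [Real.norm_of_nonneg (hB0 _)]
      exact hBle _
    · refine (integrableOn_zero).congr_fun (fun u hu => ?_) measurableSet_Ioi
      have hu' : 4 < u := hu
      exact (hB2 _ (hcosh3 u hu'.le)).symm
  have hcosh1 : ∀ u, 0 < u → u ≤ 1 → Real.cosh u ≤ 2 := by
    intro u h0 h1
    have h2 : Real.cosh u ≤ Real.cosh 1 := Real.cosh_le_cosh.mpr (by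
      rw [abs_of_pos h0, abs_one]; exact h1)
    have h3 : Real.cosh 1 ≤ 2 := by
      rw [Real.cosh_eq]
      have h4 := Real.exp_one_lt_d9
      have h5 : Real.exp (-1) ≤ 1 := Real.exp_le_one_iff.mpr (by norm_num)
      linarith
    exact h2.trans h3
  have hlow : ∫ t, bk t ≤ ∫ u in Ioi (0 : ℝ), B (Real.cosh u) := by
    calc ∫ t, bk t = ∫ u in Ioc (0 : ℝ) 1, (∫ t, bk t) := by simp
      _ = ∫ u in Ioc (0 : ℝ) 1, B (Real.cosh u) := by
        refine setIntegral_congr_fun measurableSet_Ioc fun u hu => ?_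
        exact (hB1 _ (hcosh1 u hu.1 hu.2)).symm
      _ ≤ ∫ u in Ioi (0 : ℝ), B (Real.cosh u) :=
        setIntegral_mono_set hint (Filter.Eventually.of_forall fun u => hB0 _)
          (Ioc_subset_Ioi_self).eventuallyLE
  rw [kap0]
  have h5 : ∫ u in Ioi (0 : ℝ), 2 * π * ∫ t in Ioi (Real.cosh u), bk t =
      2 * π * ∫ u in Ioi (0 : ℝ), B (Real.cosh u) := by
    rw [← integral_const_mul]
  rw [h5]
  have := Real.pi_pos
  have h6 := hm.trans_le hlow
  positivity

end Fermat.Agent.H23T
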