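import Fermat.Agent.H23TD

/-!
# The abstract integral identity, invariance of the sums only (helper23, S47 T3)
-/

set_option autoImplicit false
set_option linter.unusedSectionVars false

noncomputable section

open MeasureTheory
open scoped ENNReal

namespace Fermat.Agent.H23T

section Star

variable {X Γ ι : Type*} [Group Γ] [Countable Γ] [MulAction Γ X] [MeasurableSpace X]
  {μ : Measure X} [Countable ι] [MeasurableSpace ι] [MeasurableSingletonClass ι]

/-- the identity for one kernel: `∫ F R(k) G = c ∫ F G` -/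
theorem adj_sumU₂ [SFinite μ] (hμ : ∀ g : Γ, MeasurePreserving (fun x : X => g • x) μ μ)
    {χ : X → ℝ≥0∞} (hχ : Measurable χ) (h1 : ∀ x, ∑' g : Γ, χ (g • x) = 1)
    {F : X → ℂ} (hF : Measurable F) (hFi : ∀ (g : Γ) x, F (g • x) = F x)
    {k : X → X → ℂ} (hk : Measurable (Function.uncurry k))
    (hki : ∀ (g : Γ) x y, k (g • x) (g • y) = k x y)
    {c : ℂ} (hkF : ∀ y, ∫ x, k x y * F x ∂μ = c * F y)
    {u : ι → X → ℂ} (hu : ∀ i, Measurable (u i))
    (hσ : ∀ (g : Γ) x, sumU u (g • x) = sumU u x)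
    (hint : ∫⁻ x, ‖F x‖ₑ * (∫⁻ y, ‖k x y‖ₑ * ∑' i, ‖u i y‖ₑ ∂μ) ∂(μ.withDensity χ) < ∞) :
    ∫ x, F x * (∫ y, k x y * sumU u y ∂μ) ∂(μ.withDensity χ) =
      c * ∫ x, F x * sumU u x ∂(μ.withDensity χ) := by
  have hm : Measurable (fun p : X × X => F p.1 * k p.1 p.2 * sumU u p.2) :=
    ((hF.comp measurable_fst).mul hk).mul ((measurable_sumU hu).comp measurable_snd)
  rw [adj hμ hχ h1 hF (measurable_sumU hu) hk hFi hσ hki]
  · rw [← integral_const_mul]
    refine integral_congr_ae (Filter.Eventually.of_forall fun y => ?_)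
    simp only
    rw [hkF]
    ring
  · refine ⟨hm.aestronglyMeasurable, ?_⟩
    rw [HasFiniteIntegral, lintegral_prod _ hm.enorm.aemeasurable]
    refine lt_of_le_of_lt (lintegral_mono fun x => ?_) hint
    simp only [enorm_mul, mul_assoc]
    rw [lintegral_const_mul]
    · gcongr with y
      exact enorm_sumU_le u y
    · exact (hk.comp measurable_prodMk_left).enorm.mul (measurable_sumU hu).enorm

/-- **the abstract identity** -/
theorem star_abs₂ [SFinite μ] (hμ : ∀ g : Γ, MeasurePreserving (fun x : X => g • x) μ μ)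
    {χ : X → ℝ≥0∞} (hχ : Measurable χ) (h1 : ∀ x, ∑' g : Γ, χ (g • x) = 1)
    {F : X → ℂ} (hF : Measurable F) (hFi : ∀ (g : Γ) x, F (g • x) = F x)
    {k k' : X → X → ℂ} (hk : Measurable (Function.uncurry k))
    (hk' : Measurable (Function.uncurry k'))
    (hki : ∀ (g : Γ) x y, k (g • x) (g • y) = k x y)
    (hki' : ∀ (g : Γ) x y, k' (g • x) (g • y) = k' x y)
    {c : ℂ} (hc : c ≠ 0) (hkF : ∀ y, ∫ x, k x y * F x ∂μ = c * F y)
    (hkF' : ∀ y, ∫ x, k' x y * F x ∂μ = 0)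
    {u u' : ι → X → ℂ} (hu : ∀ i, Measurable (u i)) (hu' : ∀ i, Measurable (u' i))
    (hσ : ∀ (g : Γ) x, sumU u (g • x) = sumU u x)
    (hσ' : ∀ (g : Γ) x, sumU u' (g • x) = sumU u' x)
    (hgreen : ∀ i x, ∫ y, k x y * u i y ∂μ = ∫ y, k' x y * u' i y ∂μ)
    (hint : ∫⁻ x, ‖F x‖ₑ * (∫⁻ y, ‖k x y‖ₑ * ∑' i, ‖u i y‖ₑ ∂μ) ∂(μ.withDensity χ) < ∞)
    (hint' : ∫⁻ x, ‖F x‖ₑ * (∫⁻ y, ‖k' x y‖ₑ * ∑' i, ‖u' i y‖ₑ ∂μ) ∂(μ.withDensity χ) < ∞) :
    ∫ x, F x * sumU u x ∂(μ.withDensity χ) = 0 := by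
  have e1 := adj_sumU₂ hμ hχ h1 hF hFi hk hki hkF hu hσ hint
  have e2 := adj_sumU₂ hμ hχ h1 hF hFi hk' hki' (c := 0) (fun y => by rw [hkF', zero_mul]) hu'
    hσ' hint'
  rw [zero_mul] at e2
  have hmeas : ∀ {k : X → X → ℂ} {u : ι → X → ℂ}, Measurable (Function.uncurry k) →
      (∀ i, Measurable (u i)) →
      Measurable (fun x => ‖F x‖ₑ * (∫⁻ y, ‖k x y‖ₑ * ∑' i, ‖u i y‖ₑ ∂μ)) := by
    intro k u hk hu
    refine hF.enorm.mul ?_
    have : Measurable (fun p : X × X => ‖k p.1 p.2‖ₑ * ∑' i, ‖u i p.2‖ₑ) :=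
      hk.enorm.mul ((measurable_tsum_enorm hu).comp measurable_snd)
    exact this.lintegral_prod_right'
  have h3 : ∀ᵐ x ∂(μ.withDensity χ), F x * (∫ y, k x y * sumU u y ∂μ) =
      F x * (∫ y, k' x y * sumU u' y ∂μ) := by
    filter_upwards [ae_lt_top (hmeas hk hu) hint.ne, ae_lt_top (hmeas hk' hu') hint'.ne] with x hx hx'
    by_cases hFx : F x = 0
    · rw [hFx, zero_mul, zero_mul]
    · have hne : ‖F x‖ₑ ≠ 0 := by simpa using hFx
      have hx1 : ∫⁻ y, ‖k x y‖ₑ * ∑' i, ‖u i y‖ₑ ∂μ < ∞ := by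
        rcases ENNReal.mul_lt_top_iff.mp hx with h | h | h
        · exact h.2
        · exact absurd h hne
        · rw [h]; exact ENNReal.zero_lt_top
      have hx2 : ∫⁻ y, ‖k' x y‖ₑ * ∑' i, ‖u' i y‖ₑ ∂μ < ∞ := by
        rcases ENNReal.mul_lt_top_iff.mp hx' with h | h | h
        · exact h.2
        · exact absurd h hne
        · rw [h]; exact ENNReal.zero_lt_top
      rw [integral_mul_sumU (k := k x) (hk.comp measurable_prodMk_left) hu hx1,
        integral_mul_sumU (k := k' x) (hk'.comp measurable_prodMk_left) hu' hx2]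
      congr 1
      exact tsum_congr fun i => hgreen i x
  rw [integral_congr_ae h3, e2] at e1
  exact (mul_eq_zero.mp e1.symm).resolve_left hc

end Star

end Fermat.Agent.H23T
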