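import Fermat.Agent.H23TC
import Fermat.Agent.H23TG
import Fermat.Agent.H23TE
import Fermat.Agent.H34T3
import Fermat.Agent.H8T3
import Fermat.Agent.H47RCong

/-!
# Bounds for the theta family and radial kernels (helper23, S47 T3)

* `qn n x = q(x) / n²`, `mn n x w = q(x) / n² + 2 (p(x, w) / n)²` : `Theta n φ τ w = ∑ φ x * th (qn x)
  (mn x w) τ`;
* `maj_adm` : `∑ ‖φ x Φ(qn x, mn x w, τ)‖ ≤ K ht(w)^8` for every admissible `Φ`;
* `lint_ch_le`, `dom0`, `dom1` : the domination needed for `star_abs₂`.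
-/

set_option autoImplicit false

noncomputable section

open Complex MeasureTheory Set
open scoped ComplexConjugate Real ENNReal

namespace Fermat.Agent.H23T

open Fermat.Agent.S47T Fermat.Agent.H8T Fermat.Agent.H47.Red

/-! ### The parameters -/

/-- `q(x) / n²` -/
def qn (n : ℕ) (x : S47T.Lat) : ℝ := qL x / (n : ℝ) ^ 2

/-- `q(x) / n² + 2 (p(x, w) / n)²` -/
def mn (n : ℕ) (x : S47T.Lat) (w : H3) : ℝ := qL x / (n : ℝ) ^ 2 + 2 * (pL x w / n) ^ 2

theorem mn_eq (n : ℕ) (x : S47T.Lat) (w : H3) : mn n x w = QW x w / (n : ℝ) ^ 2 := by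
  rw [mn, QW, div_pow, add_div, mul_div_assoc]

theorem abs_qn_le (n : ℕ) (x : S47T.Lat) (w : H3) : |qn n x| ≤ mn n x w := by
  rw [mn_eq, qn, abs_div, abs_of_nonneg (by positivity : (0 : ℝ) ≤ (n : ℝ) ^ 2)]
  exact div_le_div_of_nonneg_right (abs_qL_le x w) (by positivity)

theorem mn_nonneg (n : ℕ) (x : S47T.Lat) (w : H3) : 0 ≤ mn n x w :=
  (abs_nonneg _).trans (abs_qn_le n x w)

theorem Theta_eq (n : ℕ) (φ : S47T.Lat → ℂ) (τ : ℂ) (w : H3) :
    Theta n φ τ w = ∑' x, φ x * H98T.th (qn n x) (mn n x w) τ := by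
  rw [Theta, ← tsum_mul_left]
  refine tsum_congr fun x => ?_
  rw [H98T.th, ee, qn, mn]
  have h1 : (2 * π * I * (τ * ((qL x / (n : ℝ) ^ 2 : ℝ) : ℂ))) =
      2 * π * I * ((qL x / (n : ℝ) ^ 2 : ℝ) : ℂ) * τ := by ring
  have h2 : ((Real.exp (-4 * π * τ.im * (pL x w / n) ^ 2) : ℝ) : ℂ) =
      cexp (-(2 * π * τ.im * (((qL x / (n : ℝ) ^ 2 + 2 * (pL x w / n) ^ 2 : ℝ) : ℂ) -
        ((qL x / (n : ℝ) ^ 2 : ℝ) : ℂ)))) := by
    rw [Complex.ofReal_exp]
    congr 1
    push_cast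
    ring
  rw [h1, h2]
  ring

theorem continuous_pL (x : S47T.Lat) : Continuous (fun w : H3 => pL x w) := by
  unfold pL pair
  have hz := H3.continuous_z
  have hy := H3.continuous_y
  refine Continuous.div ?_ (continuous_const.mul hy) fun w => ?_
  · refine ((continuous_const.sub (continuous_const.mul (Complex.continuous_re.comp
      (continuous_const.mul (Complex.continuous_conj.comp hz))))).add (continuous_const.mul
        ((Complex.continuous_normSq.comp hz).add (hy.pow 2))))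
  · have := w.pos
    positivity

theorem continuous_mn (n : ℕ) (x : S47T.Lat) : Continuous (fun w : H3 => mn n x w) := by
  unfold mn
  exact continuous_const.add (continuous_const.mul (((continuous_pL x).div_const _).pow 2))

theorem continuous_adm {Φ : ℝ → ℝ → ℂ → ℂ} (h : H98T.Adm Φ) (n : ℕ) (x : S47T.Lat) (τ : ℂ) :
    Continuous (fun w : H3 => Φ (qn n x) (mn n x w) τ) :=
  (h.1 τ).comp (continuous_const.prodMk (continuous_mn n x))

/-! ### Bounds -/

theorem adm_pT : H98T.Adm H98T.pT := by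
  have hv := H98T.Pol.v
  have hq := H98T.Pol.q
  have hs := H98T.Pol.s
  have h1 : H98T.Pol 2 (fun q m τ => (1 - 8 * π * τ.im * q +
      32 * π ^ 2 * τ.im ^ 2 * q * (m - q) - 16 * π * τ.im * (m - q) +
      16 * π ^ 2 * τ.im ^ 2 * (m - q) ^ 2 : ℂ)) := by
    have a1 := (H98T.Pol.const 1).mono (by norm_num : 0 ≤ 2)
    have a2 := (((H98T.Pol.const (-(8 * π))).mul hv).mul hq).mono (by norm_num : 0 + 0 + 1 ≤ 2)
    have a3 := ((((H98T.Pol.const (32 * π ^ 2)).mul (hv.mul hv)).mul hq).mul hs).mono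
      (by norm_num : 0 + (0 + 0) + 1 + 1 ≤ 2)
    have a4 := (((H98T.Pol.const (-(16 * π))).mul hv).mul hs).mono (by norm_num : 0 + 0 + 1 ≤ 2)
    have a5 := (((H98T.Pol.const (16 * π ^ 2)).mul (hv.mul hv)).mul (hs.mul hs)).mono
      (by norm_num : 0 + (0 + 0) + (1 + 1) ≤ 2)
    have h := (((a1.add a2).add a3).add a4).add a5
    refine cast (congrArg _ ?_) h
    funext q m τ
    ring
  exact h1.adm (by norm_num)

/-- the majorant of an admissible family -/
theorem maj_adm {Φ : ℝ → ℝ → ℂ → ℂ} (h : H98T.Adm Φ) {n : ℕ} (hn : 0 < n) {φ : S47T.Lat → ℂ}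
    {Cφ : ℝ} (hφ : ∀ x, ‖φ x‖ ≤ Cφ) {τ : ℂ} (hτ : 0 < τ.im) :
    ∃ K : ℝ, 0 ≤ K ∧ ∀ w : H3, ∑' x, ‖φ x * Φ (qn n x) (mn n x w) τ‖ₑ ≤
      ENNReal.ofReal (K * ht Eis w ^ 8) := by
  obtain ⟨C, hC, hb⟩ := h.bound hτ
  have hn' : (0 : ℝ) < n := by exact_mod_cast hn
  have hε : 0 < π * τ.im / 2 / (n : ℝ) ^ 2 := by
    have := Real.pi_pos
    positivity
  set ε := π * τ.im / 2 / (n : ℝ) ^ 2 with hεdef
  obtain ⟨C₁, hC₁, h₁⟩ := maj_ht eucOrder_Eis 0 hε
  have hCφ : 0 ≤ Cφ := (norm_nonneg _).trans (hφ 0)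
  refine ⟨Cφ * C * C₁, by positivity, fun w => ?_⟩
  have hs := summable_QW 0 hε w
  simp only [pow_zero, one_mul] at hs h₁
  have h2 : ∀ x, ‖φ x * Φ (qn n x) (mn n x w) τ‖ₑ ≤
      ENNReal.ofReal (Cφ * C * Real.exp (-(ε * QW x w))) := by
    intro x
    rw [← ofReal_norm]
    refine ENNReal.ofReal_le_ofReal ?_
    rw [norm_mul, mul_assoc]
    refine mul_le_mul (hφ x) ?_ (norm_nonneg _) hCφ
    refine (hb _ _ _ (abs_qn_le n x w) (by linarith) (by linarith)).trans (le_of_eq ?_)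
    rw [mn_eq, hεdef]
    congr 2
    ring
  refine (ENNReal.tsum_le_tsum h2).trans ?_
  rw [← ENNReal.ofReal_tsum_of_nonneg (fun x => by positivity) (hs.mul_left _), tsum_mul_left]
  refine ENNReal.ofReal_le_ofReal ?_
  rw [mul_assoc (Cφ * C)]
  exact mul_le_mul_of_nonneg_left (h₁ w) (by positivity)

/-! ### Heights -/

theorem y_le_ch (w w' : H3) : w'.y ≤ 2 * H3.ch w w' * w.y := by
  have h := w.pos
  have h' := w'.pos
  have e : 2 * H3.ch w w' * w.y = (normSq (w.z - w'.z) + w.y ^ 2 + w'.y ^ 2) / w'.y := by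
    rw [H3.ch]
    field_simp
  rw [e, le_div_iff₀ h']
  nlinarith [normSq_nonneg (w.z - w'.z), sq_nonneg w.y]

theorem ht_le_ch (w w' : H3) : ht Eis w' ≤ 2 * H3.ch w w' * ht Eis w := by
  obtain ⟨g, hg, h1⟩ := eucOrder_Eis.exists_ht w'
  rw [← h1]
  refine (y_le_ch (g • w) (g • w')).trans ?_
  rw [H3.ch_smul]
  have h2 := eucOrder_Eis.le_ht hg w
  have h3 := H3.one_le_ch w w'
  exact mul_le_mul_of_nonneg_left h2 (by linarith)

/-- the mass of a bounded radial kernel of compact support -/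
theorem lint_ch_le {κ : ℝ → ℂ} (hm : Measurable κ) {M R : ℝ} (hR0 : 1 ≤ R)
    (hM : ∀ t, ‖κ t‖ ≤ M) (hR : ∀ t, R < t → κ t = 0) (w : H3) :
    ∫⁻ y : H3, ‖κ (H3.ch w y)‖ₑ ≤ ENNReal.ofReal (4 * π * R * M * R) := by
  have hM0 : 0 ≤ M := (norm_nonneg _).trans (hM 0)
  rw [H34T.lintegral_ch w (fun t => ‖κ t‖ₑ) hm.enorm]
  calc ∫⁻ t in Ioi (1 : ℝ), ENNReal.ofReal (4 * π * √(t ^ 2 - 1)) * ‖κ t‖ₑ
      ≤ ∫⁻ t in Ioi (1 : ℝ), (Ioc 1 R).indicator (fun _ => ENNReal.ofReal (4 * π * R * M)) t := by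
        refine setLIntegral_mono' measurableSet_Ioi fun t ht => ?_
        have ht1 : 1 < t := ht
        by_cases h : t ≤ R
        · rw [indicator_of_mem (show t ∈ Ioc 1 R from ⟨ht1, h⟩), ← ofReal_norm,
            ← ENNReal.ofReal_mul (by positivity)]
          refine ENNReal.ofReal_le_ofReal ?_
          have h1 : √(t ^ 2 - 1) ≤ R := by
            rw [Real.sqrt_le_left (by linarith)]
            nlinarith
          have := Real.pi_pos
          have h2 : 4 * π * √(t ^ 2 - 1) ≤ 4 * π * R :=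
            mul_le_mul_of_nonneg_left h1 (by positivity)
          exact mul_le_mul h2 (hM t) (norm_nonneg _) (by positivity)
        · rw [hR t (not_le.mp h)]
          simp
    _ ≤ ∫⁻ t, (Ioc 1 R).indicator (fun _ => ENNReal.ofReal (4 * π * R * M)) t :=
        setLIntegral_le_lintegral _ _
    _ = ENNReal.ofReal (4 * π * R * M) * volume (Ioc (1 : ℝ) R) := by
        rw [lintegral_indicator measurableSet_Ioc, setLIntegral_const]
    _ ≤ ENNReal.ofReal (4 * π * R * M * R) := by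
        rw [Real.volume_Ioc, ← ENNReal.ofReal_mul (by have := Real.pi_pos; positivity)]
        refine ENNReal.ofReal_le_ofReal ?_
        have := Real.pi_pos
        refine mul_le_mul_of_nonneg_left (by linarith) (by positivity)

theorem dom1 {κ : ℝ → ℂ} (hm : Measurable κ) {M R : ℝ} (hR0 : 1 ≤ R)
    (hM : ∀ t, ‖κ t‖ ≤ M) (hR : ∀ t, R < t → κ t = 0) {f : H3 → ℝ≥0∞} {K : ℝ} (hK : 0 ≤ K)
    (hf : ∀ w, f w ≤ ENNReal.ofReal (K * ht Eis w ^ 8)) :
    ∃ K' : ℝ, 0 ≤ K' ∧ ∀ w, ∫⁻ y : H3, ‖κ (H3.ch w y)‖ₑ * f y ≤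
      ENNReal.ofReal (K' * ht Eis w ^ 8) := by
  have hM0 : 0 ≤ M := (norm_nonneg _).trans (hM 0)
  have hpi := Real.pi_pos
  refine ⟨4 * π * R * M * R * (K * (2 * R) ^ 8), by positivity, fun w => ?_⟩
  have hht := eucOrder_Eis.ht_pos w
  calc ∫⁻ y : H3, ‖κ (H3.ch w y)‖ₑ * f y
      ≤ ∫⁻ y : H3, ‖κ (H3.ch w y)‖ₑ * ENNReal.ofReal (K * (2 * R * ht Eis w) ^ 8) := by
        refine lintegral_mono fun y => ?_
        by_cases h : H3.ch w y ≤ R
        · refine mul_le_mul_right ((hf y).trans (ENNReal.ofReal_le_ofReal ?_)) _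
          have h1 := ht_le_ch w y
          have h2 : ht Eis y ≤ 2 * R * ht Eis w :=
            h1.trans (mul_le_mul_of_nonneg_right (by linarith) hht.le)
          have h3 := (eucOrder_Eis.ht_pos y).le
          gcongr
        · simp only
          rw [hR _ (not_le.mp h)]
          simp
    _ = (∫⁻ y : H3, ‖κ (H3.ch w y)‖ₑ) * ENNReal.ofReal (K * (2 * R * ht Eis w) ^ 8) := by
        rw [lintegral_mul_const]
        exact (hm.comp (H34T.measurable_ch w)).enorm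
    _ ≤ ENNReal.ofReal (4 * π * R * M * R) * ENNReal.ofReal (K * (2 * R * ht Eis w) ^ 8) := by
        gcongr
        exact lint_ch_le hm hR0 hM hR w
    _ = ENNReal.ofReal (4 * π * R * M * R * (K * (2 * R) ^ 8) * ht Eis w ^ 8) := by
        rw [← ENNReal.ofReal_mul (by positivity)]
        congr 1
        ring

theorem dom0 {F : H3 → ℂ} {C c : ℝ} (hc : 0 < c) (hC : 0 ≤ C)
    (hF : ∀ w, ‖F w‖ ≤ C * Real.exp (-(c * ht Eis w))) {ν : Measure H3} (hν : ν univ < ∞)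
    {f : H3 → ℝ≥0∞} {K : ℝ} (hK : 0 ≤ K) (hf : ∀ w, f w ≤ ENNReal.ofReal (K * ht Eis w ^ 8)) :
    ∫⁻ x, ‖F x‖ₑ * f x ∂ν < ∞ := by
  obtain ⟨C₂, hC₂, h₂⟩ := ht_pow_mul_exp_le eucOrder_Eis 8 hc
  have h1 : ∀ x, ‖F x‖ₑ * f x ≤ ENNReal.ofReal (C * K * C₂) := by
    intro x
    have hht := eucOrder_Eis.ht_pos x
    calc ‖F x‖ₑ * f x ≤ ENNReal.ofReal (C * Real.exp (-(c * ht Eis x))) *
          ENNReal.ofReal (K * ht Eis x ^ 8) := by
          refine mul_le_mul' ?_ (hf x)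
          rw [← ofReal_norm]
          exact ENNReal.ofReal_le_ofReal (hF x)
      _ = ENNReal.ofReal (C * K * (ht Eis x ^ 8 * Real.exp (-(c * ht Eis x)))) := by
          rw [← ENNReal.ofReal_mul (by positivity)]
          congr 1
          ring
      _ ≤ _ := by
          refine ENNReal.ofReal_le_ofReal ?_
          exact mul_le_mul_of_nonneg_left (h₂ x) (by positivity)
  refine lt_of_le_of_lt (lintegral_mono h1) ?_
  rw [lintegral_const]
  exact ENNReal.mul_lt_top ENNReal.ofReal_lt_top hν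

end Fermat.Agent.H23T
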