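import Mathlib

/-!
# Verified truncated computations with integral power series (helper23)
-/

set_option autoImplicit false

noncomputable section

open PowerSeries

namespace Fermat.Agent.H23.Trunc

/-- the list `l` contains the coefficients of `f` up to degree `M - 1` -/
def Ap (M : ℕ) (f : PowerSeries ℤ) (l : List ℤ) : Prop := ∀ n < M, f.coeff n = l.getD n 0

/-- truncated multiplication of coefficient lists -/
def mulT (M : ℕ) (l l' : List ℤ) : List ℤ :=
  (List.range M).map fun n =>
    ((List.range (n + 1)).map fun i => l.getD i 0 * l'.getD (n - i) 0).sum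

/-- truncated addition of coefficient lists -/
def addT (M : ℕ) (l l' : List ℤ) : List ℤ :=
  (List.range M).map fun n => l.getD n 0 + l'.getD n 0

/-- truncated subtraction of coefficient lists -/
def subT (M : ℕ) (l l' : List ℤ) : List ℤ :=
  (List.range M).map fun n => l.getD n 0 - l'.getD n 0

/-- truncated scalar multiplication of coefficient lists -/
def smulT (M : ℕ) (c : ℤ) (l : List ℤ) : List ℤ :=
  (List.range M).map fun n => c * l.getD n 0

/-- truncated exact division of coefficient lists -/
def divT (M : ℕ) (c : ℤ) (l : List ℤ) : List ℤ :=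
  (List.range M).map fun n => l.getD n 0 / c

/-- truncated expansion `q ↦ q^N` of coefficient lists -/
def exT (M N : ℕ) (l : List ℤ) : List ℤ :=
  (List.range M).map fun n => if N ∣ n then l.getD (n / N) 0 else 0

lemma getD_map_range (M : ℕ) (g : ℕ → ℤ) {n : ℕ} (hn : n < M) :
    ((List.range M).map g).getD n 0 = g n := by
  rw [List.getD_eq_getElem _ _ (by simpa using hn)]
  simp

/-- the expansion `q ↦ q^N` -/
def exPS {R : Type*} [CommRing R] (N : ℕ) (f : PowerSeries R) : PowerSeries R :=
  PowerSeries.mk fun n => if N ∣ n then f.coeff (n / N) else 0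

variable {M : ℕ} {f g : PowerSeries ℤ} {l l' : List ℤ}

lemma Ap.mul (hf : Ap M f l) (hg : Ap M g l') : Ap M (f * g) (mulT M l l') := by
  intro n hn
  rw [mulT, getD_map_range M _ hn, PowerSeries.coeff_mul,
    Finset.Nat.sum_antidiagonal_eq_sum_range_succ_mk, ← List.sum_toFinset _ List.nodup_range,
    List.toFinset_range]
  refine Finset.sum_congr rfl fun i hi => ?_
  rw [Finset.mem_range] at hi
  rw [hf i (by omega), hg (n - i) (by omega)]

lemma Ap.add (hf : Ap M f l) (hg : Ap M g l') : Ap M (f + g) (addT M l l') := by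
  intro n hn
  rw [addT, getD_map_range M _ hn, map_add, hf n hn, hg n hn]

lemma Ap.sub (hf : Ap M f l) (hg : Ap M g l') : Ap M (f - g) (subT M l l') := by
  intro n hn
  rw [subT, getD_map_range M _ hn, map_sub, hf n hn, hg n hn]

lemma Ap.smul (c : ℤ) (hf : Ap M f l) : Ap M (C c * f) (smulT M c l) := by
  intro n hn
  rw [smulT, getD_map_range M _ hn, PowerSeries.coeff_C_mul, hf n hn]

lemma Ap.of_smul {c : ℤ} (hc : c ≠ 0) (hf : Ap M (C c * f) l) : Ap M f (divT M c l) := by
  intro n hn
  have h := hf n hn
  rw [PowerSeries.coeff_C_mul] at h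
  rw [divT, getD_map_range M _ hn, ← h, Int.mul_ediv_cancel_left _ hc]

lemma Ap.ex (N : ℕ) (hf : Ap M f l) : Ap M (exPS N f) (exT M N l) := by
  intro n hn
  rw [exT, getD_map_range M _ hn, exPS, PowerSeries.coeff_mk]
  split_ifs with h
  · exact hf _ (lt_of_le_of_lt (Nat.div_le_self _ _) hn)
  · rfl

lemma Ap.eq (hf : Ap M f l) (h : l = l') : Ap M f l' := h ▸ hf

/-- comparison of coefficients -/
lemma Ap.coeff_eq (hf : Ap M f l) (hg : Ap M g l) {n : ℕ} (hn : n < M) :
    f.coeff n = g.coeff n := by rw [hf n hn, hg n hn]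

lemma Ap.pow_zero : Ap M (f ^ 0) [1] := by
  intro n _
  rw [_root_.pow_zero, PowerSeries.coeff_one]
  rcases n with _ | n <;> simp

lemma Ap.pow_succ {k : ℕ} (hf : Ap M f l) (hg : Ap M (f ^ k) l') :
    Ap M (f ^ (k + 1)) (mulT M l' l) := by
  rw [_root_.pow_succ]
  exact hg.mul hf

end Fermat.Agent.H23.Trunc
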