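import Mathlib
import Fermat.Agent.H24CuspData
import Fermat.Agent.H36InjS
import Fermat.Agent.H83WindC
import Fermat.Agent.H83Unit

/-!
# Points of the cusp chart: residue fields, images, trivial windings (CARAYOL C5)
-/

set_option autoImplicit false

noncomputable section

namespace Fermat.Agent.H24

open Fermat.Agent.H83 Fermat.Agent.H83.CompSys Polynomial AlgebraicCurve

section general

variable {E : Type*} [Field E]

/-- elements of the fraction field of `C` integral over a localization of `C` are in the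
localization -/
theorem mem_locRing_of_isIntegral {C : Subring E} [hC : IsDedekindDomain C] (n : Ideal C)
    [n.IsPrime] {e a b : E} (ha : a ∈ C) (hb : b ∈ C) (hb0 : b ≠ 0) (he : e * b = a)
    (hint : IsIntegral (locRing C n) e) : e ∈ locRing C n := by
  obtain ⟨s, hs⟩ := IsIntegral.exists_multiple_integral_of_isLocalization n.primeCompl e hint
  have hs' : (s : C) ∉ n := s.2
  set e' : E := (s : C) • e with he'
  have he'b : e' * b = ((s : C) : E) * a := by
    rw [he', Subring.smul_def, smul_eq_mul, mul_assoc, he]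
  -- the fraction field
  have hinj : Function.Injective (algebraMap C E) := Subtype.val_injective
  let g : FractionRing C →+* E := IsFractionRing.lift (A := C) (K := FractionRing C)
    (g := algebraMap C E) hinj
  have hg : ∀ x : C, g (algebraMap C (FractionRing C) x) = x := fun x =>
    IsFractionRing.lift_algebraMap hinj x
  set w : FractionRing C := algebraMap C (FractionRing C) (s * ⟨a, ha⟩) /
    algebraMap C (FractionRing C) ⟨b, hb⟩ with hw
  have hgw : g w = e' := by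
    rw [hw, map_div₀, hg, hg]
    show (((s : C) : E) * a) / b = e'
    rw [← he'b]; field_simp
  have hwint : IsIntegral C w := by
    obtain ⟨P, hP, h0⟩ := hs
    refine ⟨P, hP, g.injective ?_⟩
    rw [Polynomial.hom_eval₂, map_zero, hgw]
    have : g.comp (algebraMap C (FractionRing C)) = algebraMap C E := RingHom.ext fun x => hg x
    rw [this]
    exact h0
  obtain ⟨c, hc⟩ := IsIntegrallyClosed.isIntegral_iff.1 hwint
  refine ⟨c, s, hs', ?_⟩
  rw [← hg c, hc, hgw, he', Subring.smul_def, smul_eq_mul, mul_comm]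

end general

variable {k E : Type*} [Field k] [Field E] [Algebra k E] {q : ℕ} {R : ResData k E q}
  {F' : Type*} [Field F'] {T : TwoData R F'} {F : Type*} [Field F]

namespace CuspData

variable {S : ThreeData T F} (D : CuspData S)

/-- `y` in the chart ring -/
def yB : D.comp.B := D.sys.yB

@[simp] theorem coe_yB : (D.yB : F) = D.y := rfl

/-- constants -/
theorem exists_const (a : k) : ∃ x : F, x ∈ S.B ∧ x ∈ D.comp.B ∧
    ∀ i, S.res i x = algebraMap k E a := by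
  obtain ⟨x, h1, h2, h3⟩ := D.const a
  exact ⟨x, S.mem_B.2 ⟨h1, fun i => (h3 i).1⟩, D.comp.mem_B.2 ⟨h2, fun i => (h3 i).1⟩,
    fun i => (h3 i).2⟩

theorem isIntegralElem_r (i : Fin 3) {c : E} (hc : c ∈ D.C) : (D.comp.r i).IsIntegralElem c := by
  let _ : Algebra D.comp.B E := (D.comp.r i).toAlgebra
  have halg : ∀ b : D.comp.B, algebraMap D.comp.B E b = D.comp.r i b := fun b => rfl
  have hq := D.prime.pos
  have hY : D.Y ∈ integralClosure D.comp.B E := by
    have h3 : i = 0 ∨ i = 1 ∨ i = 2 := by fin_cases i <;> simp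
    have hr : D.comp.r i D.yB = S.res i D.y := D.comp.r_apply i D.yB
    rcases h3 with rfl | rfl | rfl
    · have h1 : algebraMap D.comp.B E D.yB = D.Y := by rw [halg, hr]; exact D.sys.res0_y
      rw [← h1]; exact (integralClosure D.comp.B E).algebraMap_mem _
    · have h1 : algebraMap D.comp.B E D.yB = D.Y := by rw [halg, hr]; exact D.sys.res1_y
      rw [← h1]; exact (integralClosure D.comp.B E).algebraMap_mem _
    · have h1 : algebraMap D.comp.B E D.yB = D.Y ^ (q * q) := by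
        rw [halg, hr]; exact D.sys.res2_y
      have h2 : IsIntegral D.comp.B (D.Y ^ (q * q)) := by
        rw [← h1]; exact isIntegral_algebraMap
      exact IsIntegral.of_pow (by positivity) h2
  have hk : ∀ a : k, algebraMap k E a ∈ integralClosure D.comp.B E := by
    intro a
    obtain ⟨x, -, hx, hx'⟩ := D.exists_const a
    have h1 : algebraMap D.comp.B E ⟨x, hx⟩ = algebraMap k E a := by
      rw [halg]
      exact (D.comp.r_apply i ⟨x, hx⟩).trans (hx' i)
    rw [← h1]; exact (integralClosure D.comp.B E).algebraMap_mem _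
  have hle : ∀ x : E, x ∈ (Algebra.adjoin k {D.Y} : Subalgebra k E) →
      x ∈ integralClosure D.comp.B E := by
    intro x hx
    induction hx using Algebra.adjoin_induction with
    | mem x hx => rw [Set.mem_singleton_iff] at hx; rw [hx]; exact hY
    | algebraMap r => exact hk r
    | add x y _ _ hx hy => exact add_mem hx hy
    | mul x y _ _ hx hy => exact mul_mem hx hy
  have hint : IsIntegral (integralClosure D.comp.B E) c := by
    obtain ⟨P, hP, h0⟩ := D.C_int c hc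
    let g : (Algebra.adjoin k {D.Y} : Subalgebra k E) →+* integralClosure D.comp.B E :=
      { toFun := fun a => ⟨a, hle a a.2⟩
        map_one' := rfl
        map_mul' := fun _ _ => rfl
        map_zero' := rfl
        map_add' := fun _ _ => rfl }
    refine ⟨P.map g, hP.map _, ?_⟩
    rw [Polynomial.eval₂_map]
    exact h0
  exact isIntegral_trans (R := D.comp.B) (A := integralClosure D.comp.B E) c hint

/-- the residue field at a maximal ideal is `k` -/
theorem exists_sub_mem (m : Ideal D.comp.B) [hm : m.IsMaximal] {i : Fin 3}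
    (hp : D.comp.p i ≤ m) (b : D.comp.B) :
    ∃ a : k, ∀ x : D.comp.B, S.res i (x : F) = algebraMap k E a → b - x ∈ m := by
  let g : D.comp.B →+* D.C := (D.comp.r i).codRestrict D.C (D.r_mem i)
  let _ : Algebra D.comp.B D.C := g.toAlgebra
  have halg : ∀ b : D.comp.B, ((algebraMap D.comp.B D.C b : D.C) : E) = D.comp.r i b :=
    fun b => rfl
  have hint : Algebra.IsIntegral D.comp.B D.C := by
    refine ⟨fun c => ?_⟩
    obtain ⟨P, hP, h0⟩ := D.isIntegralElem_r i c.2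
    refine ⟨P, hP, Subtype.val_injective ?_⟩
    rw [show ((0 : D.C) : E) = 0 from rfl, ← h0]
    exact Polynomial.hom_eval₂ P (algebraMap D.comp.B D.C) D.C.val.toRingHom c
  have hker : RingHom.ker (algebraMap D.comp.B D.C) ≤ m := by
    intro x hx
    apply hp
    rw [D.comp.mem_p, ← halg, RingHom.mem_ker.1 hx]
    rfl
  obtain ⟨n, hn, hcomap⟩ := Ideal.exists_ideal_over_maximal_of_isIntegral m hker
  obtain ⟨a, ha⟩ := D.res_surj n hn (algebraMap D.comp.B D.C b)
  refine ⟨a, fun x hx => ?_⟩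
  rw [← hcomap, Ideal.mem_comap, map_sub]
  have h1 : algebraMap D.comp.B D.C x = algebraMap k D.C a := by
    apply Subtype.val_injective
    rw [halg]
    exact (D.comp.r_apply i x).trans hx
  rw [h1]
  exact ha

theorem hfrac (hS : ∀ x : F, ∃ b : S.B, (b : F) ≠ 0 ∧ x * b ∈ S.B) (x : F) :
    ∃ b : D.comp.B, (b : F) ≠ 0 ∧ x * b ∈ D.comp.B := by
  have key : ∀ x ∈ S.B, ∃ N : ℕ, ∀ M, N ≤ M → D.y ^ M * x ∈ D.comp.B := by
    intro x hx
    obtain ⟨N, hN⟩ := D.glue x (S.B_le_hor hx)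
    refine ⟨N, fun M hM => ?_⟩
    have hyB : D.y ∈ D.comp.B := D.sys.y_mem_B
    have h1 : D.y ^ N * x ∈ D.comp.B := by
      refine D.comp.mem_B.2 ⟨hN, fun i => mul_mem (pow_mem (D.sys.y_V i) N) (S.B_le_V i hx)⟩
    have e : D.y ^ M * x = D.y ^ (M - N) * (D.y ^ N * x) := by
      rw [← mul_assoc, ← pow_add, Nat.sub_add_cancel hM]
    rw [e]
    exact mul_mem (pow_mem hyB _) h1
  obtain ⟨b, hb0, hb⟩ := hS x
  obtain ⟨N, hN⟩ := key b b.2
  obtain ⟨M, hM⟩ := key _ hb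
  refine ⟨⟨_, hN (N + M) (by omega)⟩, ?_, ?_⟩
  · exact mul_ne_zero (pow_ne_zero _ D.sys.y_ne) hb0
  · have e : x * (D.y ^ (N + M) * (b : F)) = D.y ^ (N + M) * (x * b) := by ring
    show x * (D.y ^ (N + M) * (b : F)) ∈ D.comp.B
    rw [e]
    exact hM _ (by omega)

instance : IsDedekindDomain D.C.toSubring := D.dedekind

theorem surj (m : Ideal D.comp.B) [hm : m.IsPrime] (hy : D.yB ∈ m) {i : Fin 3}
    (hp : D.comp.p i ≤ m) :
    ∀ c ∈ D.C.toSubring, ∃ x : locRing D.comp.B m, D.comp.ρloc m hp x = c :=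
  CuspSys.surj D.sys (hm := hm) m hy hp

/-- **(c)** the image of the local ring is a localization of `C` -/
theorem range_eq (m : Ideal D.comp.B) [hm : m.IsPrime] (hy : D.yB ∈ m) {i : Fin 3}
    (hp : D.comp.p i ≤ m) :
    (D.comp.ρloc m hp).range = locRing D.C.toSubring (nC D.comp m hp (D.surj m hy hp)) :=
  CuspSys.range_eq D.sys (hm := hm) m hy hp

/-- **(a)** exactly one component passes through a cuspidal point -/
theorem existsUnique_p (m : Ideal D.comp.B) [hm : m.IsPrime] (hq : D.comp.qB ∈ m)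
    (hy : D.yB ∈ m) : ∃! i, D.comp.p i ≤ m :=
  CuspSys.existsUnique_p D.sys (hm := hm) m hy hq

/-- **(b)** the local rings at the cusps are UFDs -/
theorem ufd (m : Ideal D.comp.B) [hm : m.IsPrime] (hq : D.comp.qB ∈ m)
    (hy : D.yB ∈ m) : UniqueFactorizationMonoid (locRing D.comp.B m) :=
  CuspSys.ufd D.sys (hm := hm) m hy hq

/-- elements of the fraction field integral over the image of the local ring are in the image -/
theorem mem_range_of_pow (m : Ideal D.comp.B) [hm : m.IsPrime] (hy : D.yB ∈ m) {i : Fin 3}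
    (hp : D.comp.p i ≤ m) {e : E} (he : InFrac R e) {d : ℕ} (hd : d ≠ 0)
    (hpow : e ^ d ∈ (D.comp.ρloc m hp).range) : e ∈ (D.comp.ρloc m hp).range := by
  have hr := D.range_eq m hy hp
  -- `e` is a fraction
  obtain ⟨c, c', hc, hc', hc0, h⟩ := he
  obtain ⟨a, b, ha, hb, hb0, h1⟩ := D.frac c hc
  obtain ⟨a', b', ha', hb', hb0', h1'⟩ := D.frac c' hc'
  have ha0' : a' ≠ 0 := by rw [← h1']; exact mul_ne_zero hc0 hb0'
  rw [hr] at hpow ⊢
  refine mem_locRing_of_isIntegral (C := D.C.toSubring) _ (a := a * b') (b := a' * b)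
    (D.C.mul_mem ha hb') (D.C.mul_mem ha' hb) (mul_ne_zero ha0' hb0) ?_ ?_
  · rw [← h1, ← h1', ← h]; ring
  · have hint : IsIntegral (locRing D.C.toSubring (nC D.comp m hp (D.surj m hy hp))) (e ^ d) :=
      isIntegral_algebraMap (x := (⟨_, hpow⟩ :
        locRing D.C.toSubring (nC D.comp m hp (D.surj m hy hp))))
    exact IsIntegral.of_pow (Nat.pos_of_ne_zero hd) hint

/-- trivial windings at a cuspidal point -/
theorem wind_cusp (m : Ideal D.comp.B) [hm : m.IsMaximal] (hq : D.comp.qB ∈ m) (hy : D.yB ∈ m)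
    (hfr : ∀ i, ∀ x ∈ S.V i, InFrac R (S.res i x)) {f h : F} {a b : D.comp.B} {d : ℕ}
    (hd : d ≠ 0) (hf : ∀ i, S.res i f = 1) (ha : a ∉ m) (hb : b ∉ m)
    (hfb : f * b = h ^ d * a) :
    ∃ c : k, ∀ i, D.comp.p i ≤ m → ∃ x z : D.comp.B, x ∉ m ∧ z ∈ m ∧
      (S.res i h - algebraMap k E c) * S.res i (x : F) = S.res i (z : F) := by
  have hmp : m.IsPrime := hm.isPrime
  obtain ⟨i, hi, huniq⟩ := D.existsUnique_p m hq hy
  have hi' : D.comp.p i ≤ m := hi
  have hbr : S.res i (b : F) ≠ 0 := fun h0 => hb (hi' (D.comp.mem_p_iff.2 h0))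
  have har : S.res i (a : F) ≠ 0 := fun h0 => ha (hi' (D.comp.mem_p_iff.2 h0))
  have haV : (a : F) ∈ S.V i := D.comp.B_le_V i a.2
  have hbV : (b : F) ∈ S.V i := D.comp.B_le_V i b.2
  have hfV : f ∈ S.V i := res_mul_ne (by rw [hf i]; exact one_ne_zero)
  have ha0 : (a : F) ≠ 0 := by intro h0; apply har; rw [h0, res_zero]
  have hhd : h ^ d = f * b / a := by rw [hfb]; field_simp
  have hhdV : h ^ d ∈ S.V i := by
    rw [hhd]; exact div_mem (mul_mem hfV hbV) har
  have hhV : h ∈ S.V i := by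
    have h1 : IsIntegral (S.V i) (h ^ d) :=
      isIntegral_algebraMap (x := (⟨_, hhdV⟩ : S.V i))
    obtain ⟨w, hw⟩ := IsIntegrallyClosed.isIntegral_iff.1
      (IsIntegral.of_pow (Nat.pos_of_ne_zero hd) h1)
    rw [← hw]; exact w.2
  have hres : S.res i h ^ d = S.res i (b : F) / S.res i (a : F) := by
    rw [← res_pow hhV, hhd, res_div (mul_mem hfV hbV) har, res_mul hfV hbV, hf i, one_mul]
  have hmem : (b : F) / a ∈ locRing D.comp.B m := div_mem_locRing b ha
  have hrange : S.res i h ^ d ∈ (D.comp.ρloc m hi').range := by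
    refine ⟨⟨_, hmem⟩, ?_⟩
    rw [hres]
    exact res_div (S := D.comp) hbV har
  obtain ⟨t, ht⟩ := D.mem_range_of_pow m hy hi' (hfr i h hhV) hd hrange
  obtain ⟨x1, x2, hx2, hx⟩ := t.2
  obtain ⟨a1, ha1⟩ := D.exists_sub_mem m hi' x1
  obtain ⟨a2, ha2⟩ := D.exists_sub_mem m hi' x2
  obtain ⟨X1, -, hX1, hX1'⟩ := D.exists_const a1
  obtain ⟨X2, -, hX2, hX2'⟩ := D.exists_const a2
  have e1 := ha1 ⟨X1, hX1⟩ (hX1' i)
  have e2 := ha2 ⟨X2, hX2⟩ (hX2' i)
  have ha20 : a2 ≠ 0 := by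
    rintro rfl
    apply hx2
    have h3 := ha2 0 (by
      show S.res i (0 : F) = _
      rw [res_zero, map_zero])
    rwa [sub_zero] at h3
  obtain ⟨X3, -, hX3, hX3'⟩ := D.exists_const (a1 / a2)
  refine ⟨a1 / a2, fun j hj => ?_⟩
  have hji : j = i := huniq j hj
  subst hji
  refine ⟨x2, x1 - ⟨X3, hX3⟩ * x2, hx2, ?_, ?_⟩
  · -- `x1 - X3 x2 = (x1 - X1) - X3 (x2 - X2) + (X1 - X3 X2)`
    have h4 : (⟨X1, hX1⟩ : D.comp.B) - ⟨X3, hX3⟩ * ⟨X2, hX2⟩ ∈ m := by
      apply hj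
      rw [D.comp.mem_p_iff]
      show S.res j (X1 - X3 * X2) = 0
      have hV1 : X1 ∈ S.V j := D.comp.B_le_V j hX1
      have hV2 : X2 ∈ S.V j := D.comp.B_le_V j hX2
      have hV3 : X3 ∈ S.V j := D.comp.B_le_V j hX3
      rw [res_sub hV1 (mul_mem hV3 hV2), res_mul hV3 hV2, hX1', hX2', hX3', ← map_mul,
        div_mul_cancel₀ _ ha20, sub_self]
    have h5 := m.add_mem (m.sub_mem e1 (m.mul_mem_left ⟨X3, hX3⟩ e2)) h4
    have h6 : x1 - ⟨X1, hX1⟩ - ⟨X3, hX3⟩ * (x2 - ⟨X2, hX2⟩) +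
        (⟨X1, hX1⟩ - ⟨X3, hX3⟩ * ⟨X2, hX2⟩) = x1 - ⟨X3, hX3⟩ * x2 := by ring
    rwa [h6] at h5
  · have hx1V : (x1 : F) ∈ S.V j := D.comp.B_le_V j x1.2
    have hx2V : (x2 : F) ∈ S.V j := D.comp.B_le_V j x2.2
    have hX3V : X3 ∈ S.V j := D.comp.B_le_V j hX3
    have htV : (t : F) ∈ S.V j := D.comp.locRing_le_V m hj t.2
    have ht' : S.res j (t : F) = S.res j h := ht
    have h7 : S.res j h * S.res j (x2 : F) = S.res j (x1 : F) := by
      rw [← ht', ← res_mul htV hx2V, hx]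
    show _ = S.res j ((x1 : F) - X3 * x2)
    rw [res_sub hx1V (mul_mem hX3V hx2V), res_mul hX3V hx2V, hX3', ← h7]
    ring

section transfer

variable (m : Ideal D.comp.B) [hm : m.IsPrime] (hy : D.yB ∉ m)

theorem y_pow_mul_mem {x : F} (hx : x ∈ S.B) : ∃ N : ℕ, ∀ M, N ≤ M → D.y ^ M * x ∈ D.comp.B := by
  obtain ⟨N, hN⟩ := D.glue x (S.B_le_hor hx)
  refine ⟨N, fun M hM => ?_⟩
  have hyB : D.y ∈ D.comp.B := D.sys.y_mem_B
  have h1 : D.y ^ N * x ∈ D.comp.B := by
    refine D.comp.mem_B.2 ⟨hN, fun i => mul_mem (pow_mem (D.sys.y_V i) N) (S.B_le_V i hx)⟩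
  have e : D.y ^ M * x = D.y ^ (M - N) * (D.y ^ N * x) := by
    rw [← mul_assoc, ← pow_add, Nat.sub_add_cancel hM]
  rw [e]
  exact mul_mem (pow_mem hyB _) h1

include hy in
theorem B_le_locRing {x : F} (hx : x ∈ S.B) : x ∈ locRing D.comp.B m := by
  obtain ⟨N, hN⟩ := D.y_pow_mul_mem hx
  refine ⟨⟨_, hN N le_rfl⟩, D.yB ^ N, fun h => hy (hm.mem_of_pow_mem _ h), ?_⟩
  show x * D.y ^ N = D.y ^ N * x
  ring

/-- the inclusion of the affine chart ring into the local ring -/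
def toLoc : S.B →+* locRing D.comp.B m :=
  Subring.inclusion (fun _ hx => D.B_le_locRing m hy hx)

/-- the point of the affine chart -/
def ctr : Ideal S.B := (IsLocalRing.maximalIdeal (locRing D.comp.B m)).comap (D.toLoc m hy)

instance : (D.ctr m hy).IsPrime := Ideal.IsPrime.comap _

theorem mem_ctr_iff {b : S.B} : b ∈ D.ctr m hy ↔
    ∀ h : (b : F) ∈ locRing D.comp.B m, ¬ IsUnit (⟨b, h⟩ : locRing D.comp.B m) := by
  rw [ctr, Ideal.mem_comap, IsLocalRing.mem_maximalIdeal, mem_nonunits_iff]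
  exact ⟨fun h _ => h, fun h => h (D.B_le_locRing m hy b.2)⟩

theorem mem_ctr_iff' {b : S.B} {M : ℕ} (h : D.y ^ M * (b : F) ∈ D.comp.B) :
    b ∈ D.ctr m hy ↔ (⟨_, h⟩ : D.comp.B) ∈ m := by
  rw [← mem_maximalIdeal_locRing (m := m), ctr, Ideal.mem_comap]
  have e : algebraMap D.comp.B (locRing D.comp.B m) ⟨_, h⟩ =
      algebraMap D.comp.B (locRing D.comp.B m) D.yB ^ M * D.toLoc m hy b := Subtype.ext rfl
  have hu : IsUnit (algebraMap D.comp.B (locRing D.comp.B m) D.yB) :=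
    IsLocalization.map_units (M := m.primeCompl) (locRing D.comp.B m) ⟨D.yB, hy⟩
  rw [e]
  constructor
  · intro h1; exact Ideal.mul_mem_left _ _ h1
  · intro h1
    rcases (IsLocalRing.maximalIdeal.isMaximal (locRing D.comp.B m)).isPrime.mem_or_mem h1 with
      h2 | h2
    · exact absurd (hu.pow M) h2
    · exact h2

theorem p_le_ctr {i : Fin 3} (hp : D.comp.p i ≤ m) : S.p i ≤ D.ctr m hy := by
  intro b hb
  obtain ⟨N, hN⟩ := D.y_pow_mul_mem b.2
  rw [D.mem_ctr_iff' m hy (hN N le_rfl)]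
  apply hp
  rw [D.comp.mem_p_iff]
  show S.res i (D.y ^ N * (b : F)) = 0
  have hyV : D.y ∈ S.V i := D.sys.y_V i
  rw [res_mul (pow_mem hyV N) (S.B_le_V i b.2), S.mem_p_iff.1 hb, mul_zero]

theorem p_le_of_ctr {i : Fin 3} (hp : S.p i ≤ D.ctr m hy) : D.comp.p i ≤ m := by
  intro b hb
  obtain ⟨N, hN⟩ := D.glue' b (D.comp.B_le_hor b.2)
  have hJV : ∀ i, S.α D.J ∈ S.V i := by
    intro i
    have h1 : S.res i (S.α D.J) ≠ 0 := by
      have h3 : i = 0 ∨ i = 1 ∨ i = 2 := by fin_cases i <;> simp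
      rcases h3 with rfl | rfl | rfl
      · rw [D.sres0_α]; exact inv_ne_zero D.Y_ne
      · rw [D.sres1_α]; exact inv_ne_zero D.Y_ne
      · rw [D.sres2_α]; exact inv_ne_zero (pow_ne_zero _ D.Y_ne)
    exact res_mul_ne h1
  have hbV : ∀ i, (b : F) ∈ S.V i := fun i => D.comp.B_le_V i b.2
  have hmem : S.α D.J ^ N * (b : F) ∈ S.B :=
    S.mem_B.2 ⟨hN, fun i => mul_mem (pow_mem (hJV i) N) (hbV i)⟩
  have h1 : (⟨_, hmem⟩ : S.B) ∈ S.p i := by
    rw [S.mem_p_iff]
    show S.res i (S.α D.J ^ N * (b : F)) = 0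
    have h2 : S.res i (b : F) = 0 := D.comp.mem_p_iff.1 hb
    rw [res_mul (pow_mem (hJV i) N) (hbV i), h2, mul_zero]
  have h2 := hp h1
  have e : D.y ^ N * (S.α D.J ^ N * (b : F)) = b := by
    rw [← mul_assoc, ← mul_pow, y, inv_mul_cancel₀, one_pow, one_mul]
    rw [Ne, map_eq_zero]; exact D.J_ne
  have h3 : D.y ^ N * (((⟨_, hmem⟩ : S.B) : F)) ∈ D.comp.B := by
    show D.y ^ N * (S.α D.J ^ N * (b : F)) ∈ D.comp.B
    rw [e]; exact b.2
  rw [D.mem_ctr_iff' m hy h3] at h2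
  have h4 : (⟨_, h3⟩ : D.comp.B) = b := Subtype.ext e
  rwa [h4] at h2

/-- the point of the affine chart is maximal -/
theorem ctr_isMaximal (hmax : m.IsMaximal) {i : Fin 3} (hp : D.comp.p i ≤ m) :
    (D.ctr m hy).IsMaximal := by
  have hprime : (D.ctr m hy).IsPrime := inferInstance
  rw [Ideal.isMaximal_iff]
  refine ⟨fun h => hprime.ne_top ((Ideal.eq_top_iff_one _).2 h), fun I b hle hb hbI => ?_⟩
  obtain ⟨N, hN⟩ := D.y_pow_mul_mem b.2
  have hx := hN N le_rfl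
  rw [D.mem_ctr_iff' m hy hx] at hb
  obtain ⟨a1, ha1⟩ := D.exists_sub_mem m hp ⟨_, hx⟩
  obtain ⟨a2, ha2⟩ := D.exists_sub_mem m hp D.yB
  obtain ⟨X1, -, hX1, hX1'⟩ := D.exists_const a1
  obtain ⟨X2, -, hX2, hX2'⟩ := D.exists_const a2
  have e1 := ha1 ⟨X1, hX1⟩ (hX1' i)
  have e2 := ha2 ⟨X2, hX2⟩ (hX2' i)
  have hzero : ∀ {a : k} {x : D.comp.B}, S.res i (x : F) = algebraMap k E a → a = 0 → x ∈ m := by
    intro a x hx h0
    apply hp
    rw [D.comp.mem_p_iff]
    show S.res i (x : F) = 0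
    rw [hx, h0, map_zero]
  have ha10 : a1 ≠ 0 := by
    intro h0
    apply hb
    have := m.add_mem e1 (hzero (x := ⟨X1, hX1⟩) (hX1' i) h0)
    rwa [sub_add_cancel] at this
  have ha20 : a2 ≠ 0 := by
    intro h0
    apply hy
    have := m.add_mem e2 (hzero (x := ⟨X2, hX2⟩) (hX2' i) h0)
    rwa [sub_add_cancel] at this
  -- `b * const (a2^N / a1) - 1` lies in the point
  obtain ⟨X3, hX3S, hX3, hX3'⟩ := D.exists_const (a2 ^ N / a1)
  have h1 : b * ⟨X3, hX3S⟩ - 1 ∈ D.ctr m hy := by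
    have hmem : D.y ^ N * ((b * ⟨X3, hX3S⟩ - 1 : S.B) : F) ∈ D.comp.B := by
      have e : D.y ^ N * ((b * ⟨X3, hX3S⟩ - 1 : S.B) : F) = (D.y ^ N * b) * X3 - D.y ^ N := by
        push_cast; ring
      rw [e]
      exact sub_mem (mul_mem hx hX3) (pow_mem D.sys.y_mem_B _)
    rw [D.mem_ctr_iff' m hy hmem]
    have e : (⟨_, hmem⟩ : D.comp.B) = (⟨_, hx⟩ - ⟨X1, hX1⟩) * ⟨X3, hX3⟩
        - (D.yB ^ N - ⟨X2, hX2⟩ ^ N) + (⟨X1, hX1⟩ * ⟨X3, hX3⟩ - ⟨X2, hX2⟩ ^ N) := by
      apply Subtype.ext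
      push_cast
      show D.y ^ N * ((b : F) * X3 - 1) = _
      rw [coe_yB]
      ring
    rw [e]
    refine m.add_mem (m.sub_mem (m.mul_mem_right _ e1) ?_) ?_
    · obtain ⟨c, hc⟩ := sub_dvd_pow_sub_pow D.yB ⟨X2, hX2⟩ N
      rw [hc]; exact m.mul_mem_right _ e2
    · apply hp
      rw [D.comp.mem_p_iff]
      show S.res i (X1 * X3 - X2 ^ N) = 0
      have hV1 : X1 ∈ S.V i := D.comp.B_le_V i hX1
      have hV2 : X2 ∈ S.V i := D.comp.B_le_V i hX2
      have hV3 : X3 ∈ S.V i := D.comp.B_le_V i hX3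
      rw [res_sub (mul_mem hV1 hV3) (pow_mem hV2 N), res_mul hV1 hV3, res_pow hV2, hX1', hX2',
        hX3', ← map_mul, ← map_pow, mul_div_cancel₀ _ ha10, sub_self]
  have h2 := I.sub_mem (I.mul_mem_right ⟨X3, hX3S⟩ hbI) (hle h1)
  rwa [sub_sub_cancel] at h2

end transfer

/-- trivial windings at the points of the cusp chart which are in the affine chart -/
theorem wind_transfer {f : F} {d : ℕ} (hS : H36.TrivWind k S.toCompSys d f)
    (m : Ideal D.comp.B) (hmax : m.IsMaximal) (hq : D.comp.qB ∈ m) (hy : D.yB ∉ m) :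
    ∃ (h : F) (a b : D.comp.B), h ≠ 0 ∧ a ∉ m ∧ b ∉ m ∧ f * b = h ^ d * a ∧
      ∃ c : k, ∀ i, D.comp.p i ≤ m → ∃ x z : D.comp.B, x ∉ m ∧ z ∈ m ∧
        (S.res i h - algebraMap k E c) * S.res i (x : F) = S.res i (z : F) := by
  have hm : m.IsPrime := hmax.isPrime
  obtain ⟨i, hi⟩ := D.comp.exists_p_le m hq
  have hctr := D.ctr_isMaximal m hy hmax hi
  have hqc : S.qB ∈ D.ctr m hy := D.p_le_ctr m hy hi (S.qB_mem_p i)
  obtain ⟨h, a, b, hh, ha, hb, hfb, c, hc⟩ := hS (D.ctr m hy) hctr hqc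
  obtain ⟨N1, hN1⟩ := D.y_pow_mul_mem a.2
  obtain ⟨N2, hN2⟩ := D.y_pow_mul_mem b.2
  have ha' := hN1 (N1 + N2) (by omega)
  have hb' := hN2 (N1 + N2) (by omega)
  refine ⟨h, ⟨_, ha'⟩, ⟨_, hb'⟩, hh, ?_, ?_, ?_, c, fun j hj => ?_⟩
  · rwa [← D.mem_ctr_iff' m hy ha']
  · rwa [← D.mem_ctr_iff' m hy hb']
  · show f * (D.y ^ (N1 + N2) * (b : F)) = h ^ d * (D.y ^ (N1 + N2) * (a : F))
    linear_combination (D.y ^ (N1 + N2)) * hfb
  · obtain ⟨x, z, hx, hz, hxz⟩ := hc j (D.p_le_ctr m hy hj)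
    obtain ⟨M1, hM1⟩ := D.y_pow_mul_mem x.2
    obtain ⟨M2, hM2⟩ := D.y_pow_mul_mem z.2
    have hx' := hM1 (M1 + M2) (by omega)
    have hz' := hM2 (M1 + M2) (by omega)
    have hyV : D.y ∈ S.V j := D.sys.y_V j
    refine ⟨⟨_, hx'⟩, ⟨_, hz'⟩, ?_, ?_, ?_⟩
    · rwa [← D.mem_ctr_iff' m hy hx']
    · rwa [← D.mem_ctr_iff' m hy hz']
    · show (S.res j h - algebraMap k E c) * S.res j (D.y ^ (M1 + M2) * (x : F)) =
        S.res j (D.y ^ (M1 + M2) * (z : F))
      rw [res_mul (pow_mem hyV _) (S.B_le_V j x.2), res_mul (pow_mem hyV _) (S.B_le_V j z.2),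
        ← hxz]
      ring

/-- **Trivial windings on the cusp chart.** -/
theorem trivWind {K : Type*} [Field K] [Algebra K F] {f : F} {d : ℕ} (hd : d ≠ 0)
    (hS : H36.TrivWind k S.toCompSys d f) (hf : ∀ i, S.res i f = 1)
    (hord : ∀ P : Place K F, (d : ℤ) ∣ P.ord f)
    (hK : ∀ c : K, ∃ N : ℕ, algebraMap K F c * (q : F) ^ N ∈ D.comp.B)
    (hfS : ∀ x : F, ∃ b : S.B, (b : F) ≠ 0 ∧ x * b ∈ S.B)
    (hfr : ∀ i, ∀ x ∈ S.V i, InFrac R (S.res i x)) :
    H36.TrivWind k D.comp d f := by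
  intro m hmax hq
  by_cases hy : D.yB ∈ m
  · have hm : m.IsPrime := hmax.isPrime
    have hu := D.ufd m hq hy
    have hf0 : f ≠ 0 := by
      intro h0
      have := hf 0
      rw [h0, res_zero] at this
      exact zero_ne_one this
    obtain ⟨h, a, b, hh, ha, hb, hfb⟩ := D.comp.fact_at (K := K) hK (D.hfrac hfS) m hd
      (f := f) (fun i => by
        show S.res i f ≠ 0
        rw [hf i]; exact one_ne_zero) hf0 hord
    exact ⟨h, a, b, hh, ha, hb, hfb, D.wind_cusp m hq hy hfr hd hf ha hb hfb⟩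
  · exact D.wind_transfer hS m hmax hq hy

end CuspData

end Fermat.Agent.H24
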