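import Fermat.Agent.H66Gen

/-!
# `j(p τ)` is not a rational function of `j(τ)`
-/

set_option autoImplicit false
set_option linter.unusedSectionVars false

noncomputable section

open ModularCurve Polynomial IntermediateField

namespace Fermat.Agent.H66

variable {K : Type*} [Field K]

section

variable {p : ℕ} [Fact p.Prime] {u : Kˣ}

theorem InJ.exists_qExpand {x : LaurentSeries K} (hx : InJ K p x) :
    ∃ y ∈ K⟮jqModC K⟯, x = qExpand K p y := by
  obtain ⟨P, rfl⟩ := hx
  refine ⟨aeval (jqModC K) P, ?_, ?_⟩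
  · exact algebra_adjoin_le_adjoin K _ (Polynomial.aeval_mem_adjoin_singleton K (jqModC K))
  · rw [aeval_def, hom_eval₂]
    congr 1
    ext c
    rw [RingHom.comp_apply, algebraMap_eq_C, qExpand_C]

variable (K p) in
/-- The normalised `p`-th power of `Δ(p τ) / Δ(τ)`. -/
def vv : LaurentSeries K :=
  (HahnSeries.C ((p : K) ^ 12) * qExpand K p (H28.deltaL K) * H28.deltaInvL K) ^ p

theorem qExpand_vv : qExpand K p (vv K p) = vf K p u none := by
  rw [vv, vf, fam_none, map_pow, map_mul, map_mul, qExpand_C]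

theorem hasLead_vv : HasLead (vv K p) (p * (p - 1)) (((p : K) ^ 12) ^ p) := by
  have h := (((HasLead.C ((p : K) ^ 12)).mul ((hasLead_deltaL K).qExpand p)).mul
    (hasLead_deltaInvL K)).pow p
  have e1 : (p : ℤ) * (0 + p * 1 + (-1)) = p * (p - 1) := by ring
  rw [e1, mul_one, mul_one] at h
  exact h

theorem vv_mem (hmod : ModEq K p u) {Φ : K[X][X]} (hmon : Φ.Monic)
    (hΦ : phiAt K Φ (J K p) = ∏ a, (X - C (jf K p u a)))
    (hdegree : Φ.natDegree = p + 1) (hJ : J K p ∈ K⟮jqModC K⟯) : vv K p ∈ K⟮jqModC K⟯ := by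
  classical
  have hp : p.Prime := Fact.out
  set F := K⟮jqModC K⟯ with hF
  have hJ1 : J K 1 ∈ F := by rw [J_one]; exact mem_adjoin_simple_self K _
  obtain ⟨G, hG, hG2⟩ := exists_phiAt_field F hJ1 Φ
  have hGm := hG2 hmon
  have hr : G.IsRoot ⟨J K p, hJ⟩ := by
    have h1 := eval_root1 hΦ 1
    rw [mul_one, ← hG, show (J K p) = algebraMap F (LaurentSeries K) ⟨J K p, hJ⟩ from rfl,
      Polynomial.eval_map_apply] at h1
    exact (algebraMap F (LaurentSeries K)).injective (by rw [h1, map_zero])
  obtain ⟨Q, hQ⟩ := dvd_iff_isRoot.2 hr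
  set Q' : (LaurentSeries K)[X] := Q.map (algebraMap F (LaurentSeries K)) with hQ'
  have hone : ∀ a, qExpand K 1 (jf K p u a) = jf K p u a := fun a => qExpand_one_apply _
  have hnone : jf K p u none = qExpand K p (J K p) := by
    rw [← hone, qExpand_jf_none, qExpand_J, mul_one]
  have h1 : Q'.map (qExpand K p) = ∏ i : Fin p, (X - C (jf K p u (some i))) := by
    have h2 := phiAt_map_p hΦ 1
    simp only [hone] at h2
    rw [← hG, hQ, Fintype.prod_option, Polynomial.map_mul, Polynomial.map_mul,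
      Polynomial.map_sub, Polynomial.map_sub, Polynomial.map_X, Polynomial.map_X,
      Polynomial.map_C, Polynomial.map_C] at h2
    have h3 : qExpand K p (algebraMap F (LaurentSeries K) ⟨J K p, hJ⟩) = jf K p u none := by
      rw [hnone]; rfl
    rw [h3] at h2
    exact mul_left_cancel₀ (X_sub_C_ne_zero _) h2
  have hQdeg : Q'.natDegree = p := by
    have h2 := congrArg natDegree h1
    rw [natDegree_map, natDegree_prod_X_sub_C'] at h2
    simpa using h2
  -- the traces
  have htr : ∀ k, ∃ y ∈ F, k ≤ p → ∑ a, jf K p u a ^ k * vf K p u a = qExpand K p y := by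
    intro k
    by_cases hk : k ≤ p
    · obtain ⟨y, hy, hy2⟩ := (hmod.tr k hk).exists_qExpand
      exact ⟨y, hy, fun _ => hy2⟩
    · exact ⟨0, F.zero_mem, fun h => absurd h hk⟩
  choose t ht1 ht2 using htr
  have h4 : qExpand K p (vv K p * Q'.eval (J K p)) =
      qExpand K p (∑ k ∈ Finset.range (p + 1), Q'.coeff k * t k) := by
    rw [map_mul, qExpand_vv (u := u), ← Polynomial.eval_map_apply, h1, ← hnone, map_sum]
    have h5 : ∀ k ∈ Finset.range (p + 1), qExpand K p (Q'.coeff k * t k) =
        ∑ a, (Q'.map (qExpand K p)).coeff k * jf K p u a ^ k * vf K p u a := by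
      intro k hk
      rw [map_mul, ← ht2 k (by rw [Finset.mem_range] at hk; omega), ← coeff_map, Finset.mul_sum]
      refine Finset.sum_congr rfl fun a _ => by ring
    rw [Finset.sum_congr rfl h5, Finset.sum_comm]
    have h6 : ∀ a, ∑ k ∈ Finset.range (p + 1),
        (Q'.map (qExpand K p)).coeff k * jf K p u a ^ k * vf K p u a =
        (Q'.map (qExpand K p)).eval (jf K p u a) * vf K p u a := by
      intro a
      rw [eval_eq_sum_range, natDegree_map, hQdeg, Finset.sum_mul]
    simp only [h6]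
    rw [Fintype.sum_option, h1]
    have h7 : ∑ i : Fin p, (∏ i, (X - C (jf K p u (some i)))).eval (jf K p u (some i)) *
        vf K p u (some i) = 0 := by
      refine Finset.sum_eq_zero fun i _ => ?_
      rw [eval_prod, Finset.prod_eq_zero (Finset.mem_univ i) (by simp), zero_mul]
    rw [h7, add_zero, mul_comm]
  have h8 := qExpand_injective (R := K) p h4
  have h9 : Q'.eval (J K p) ∈ F := by
    rw [hQ', show (J K p) = algebraMap F (LaurentSeries K) ⟨J K p, hJ⟩ from rfl,
      Polynomial.eval_map_apply]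
    exact (Q.eval ⟨J K p, hJ⟩).2
  have h10 : Q'.eval (J K p) ≠ 0 := by
    intro h0
    have h11 : (Q'.map (qExpand K p)).eval (qExpand K p (J K p)) = 0 := by
      rw [Polynomial.eval_map_apply, h0, map_zero]
    rw [h1, eval_prod, Finset.prod_eq_zero_iff] at h11
    obtain ⟨i, _, hi⟩ := h11
    rw [eval_sub, eval_X, eval_C, sub_eq_zero, ← hnone] at hi
    have h12 := hasLead_jf_none (K := K) p u
    rw [hi] at h12
    have h13 := h12.order_unique (hasLead_jf_some p u i) one_ne_zero (Units.ne_zero _)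
    have hp2 : (2 : ℤ) ≤ p := by exact_mod_cast hp.two_le
    nlinarith
  have h11 : vv K p * Q'.eval (J K p) ∈ F := by
    rw [h8]
    refine F.toSubfield.toSubring.toSubsemiring.sum_mem fun k _ => ?_
    refine F.mul_mem ?_ (ht1 k)
    rw [hQ', coeff_map]
    exact (Q.coeff k).2
  have h12 := F.mul_mem h11 (F.inv_mem h9)
  rwa [mul_assoc, mul_inv_cancel₀ h10, mul_one] at h12

theorem aeval_J_injective : Function.Injective (aeval (jqModC K) : K[X] →ₐ[K] LaurentSeries K) := by
  rw [injective_iff_map_eq_zero]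
  intro P hP
  have h := (HasLead.jqModC (A := K)).eval₂ (n := 1) one_pos P
  rw [aeval_def, algebraMap_eq_C] at hP
  rw [hP] at h
  rw [← leadingCoeff_eq_zero, ← h.1]
  simp

/-- An element of `K(j)` which is integral over `K[j]` lies in `K[j]`. -/
theorem exists_aeval_of_isIntegral {v : LaurentSeries K} (hv : v ∈ K⟮jqModC K⟯)
    {H : K[X][X]} (hH : H.Monic) (hroot : (phiAt K H (jqModC K)).eval v = 0) :
    ∃ P : K[X], v = aeval (jqModC K) P := by
  obtain ⟨r, s, hrs⟩ := (mem_adjoin_simple_iff K v).1 hv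
  set φ : K[X] →+* LaurentSeries K := (aeval (jqModC K) : K[X] →ₐ[K] LaurentSeries K).toRingHom
    with hφ
  have hinj : Function.Injective φ := aeval_J_injective
  by_cases hs : s = 0
  · subst hs
    refine ⟨0, ?_⟩
    rw [hrs, map_zero, div_zero]
  let g : FractionRing K[X] →+* LaurentSeries K := IsFractionRing.lift hinj
  have hg : ∀ P : K[X], g (algebraMap K[X] (FractionRing K[X]) P) = φ P := fun P =>
    IsFractionRing.lift_algebraMap hinj P
  set w : FractionRing K[X] := algebraMap K[X] (FractionRing K[X]) r /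
    algebraMap K[X] (FractionRing K[X]) s with hw
  have hgw : g w = v := by
    rw [hw, map_div₀, hg, hg, hrs]
    rfl
  have hint : IsIntegral K[X] w := by
    refine ⟨H, hH, ?_⟩
    apply g.injective
    rw [map_zero, hom_eval₂, hgw]
    have h1 : g.comp (algebraMap K[X] (FractionRing K[X])) = φ := RingHom.ext hg
    rw [h1, ← eval_map]
    exact hroot
  obtain ⟨P, hP⟩ := IsIntegrallyClosed.isIntegral_iff.1 hint
  refine ⟨P, ?_⟩
  rw [← hgw, ← hP, hg]
  rfl

/-- `j(p τ)` is not a rational function of `j(τ)`. -/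
theorem J_notMem (hmod : ModEq K p u) (hp0 : (p : K) ≠ 0) : J K p ∉ K⟮jqModC K⟯ := by
  intro hJ
  have hp : p.Prime := Fact.out
  obtain ⟨Φ, h1, h2, h3⟩ := exists_poly _ hmod.phi
  obtain ⟨H, h4, h5, h6⟩ := exists_poly _ hmod.hp
  have h7 := vv_mem hmod h1 h3 h2 hJ
  have h8 : (phiAt K H (jqModC K)).eval (vv K p) = 0 := by
    apply qExpand_injective (R := K) p
    rw [map_zero, ← Polynomial.eval_map_apply, phiAt_map, ← J_one, qExpand_J, mul_one, h6,
      qExpand_vv (u := u), eval_prod]
    exact Finset.prod_eq_zero (Finset.mem_univ none) (by simp)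
  obtain ⟨P, hP⟩ := exists_aeval_of_isIntegral h7 h4 h8
  have h9 := (HasLead.jqModC (A := K)).eval₂ (n := 1) one_pos P
  rw [aeval_def, algebraMap_eq_C] at hP
  rw [← hP] at h9
  have h10 : P ≠ 0 := by
    rintro rfl
    rw [eval₂_zero] at hP
    exact (hasLead_vv (K := K) (p := p)).ne_zero (pow_ne_zero _ (pow_ne_zero _ hp0)) hP
  have h11 := h9.order_unique (hasLead_vv (K := K) (p := p)) (leadingCoeff_ne_zero.2 h10)
    (pow_ne_zero _ (pow_ne_zero _ hp0))
  have hp2 : (2 : ℤ) ≤ p := by exact_mod_cast hp.two_le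
  have h12 : (0 : ℤ) ≤ P.natDegree := by positivity
  nlinarith

end

end Fermat.Agent.H66
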