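import Fermat.Agent.H24ModPoly2
import Fermat.Agent.H66NotMem

/-!
# Kronecker congruence for the modular polynomial of prime level `q`
-/

set_option autoImplicit false

noncomputable section

namespace Fermat.Agent.H24

open ModularCurve Polynomial Fermat.Agent.H66

variable (q : ℕ) [hq : Fact q.Prime]

theorem eval_cyc_one : Polynomial.eval₂ (Int.castRingHom (ZMod q)) 1 (cyclotomic q ℤ) = 0 := by
  have h := Polynomial.eval_one_cyclotomic_prime (R := ZMod q) (p := q)
  rw [← Polynomial.map_cyclotomic_int q (ZMod q), Polynomial.eval_map] at h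
  rw [h]
  simp

/-- `ℤ[ζ] → 𝔽_q`, `ζ ↦ 1` -/
def redZ : Rz q →+* ZMod q := AdjoinRoot.lift (Int.castRingHom (ZMod q)) 1 (eval_cyc_one q)

theorem map_uz : Units.map (redZ q).toMonoidHom (uz q) = 1 := by
  ext
  show redZ q (AdjoinRoot.root _) = 1
  exact AdjoinRoot.lift_root _

instance charP_laurent : CharP (LaurentSeries (ZMod q)) q :=
  charP_of_injective_ringHom (f := (HahnSeries.C : ZMod q →+* LaurentSeries (ZMod q)))
    HahnSeries.C_injective q

theorem jqModC_pow_q : (jqModC (ZMod q)) ^ q = qExpand (ZMod q) q (jqModC (ZMod q)) := by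
  rw [H60.laurent_pow_char q, coeffMap_jqModC]

variable {q} {Ψ : ℤ[X][X]}

theorem psiAt_red (h : psiAt Ψ (qExpand (Rz q) q (jqModC (Rz q))) =
      ∏ a, (X - C (jf (Rz q) q (uz q) a))) :
    psiAt Ψ (qExpand (ZMod q) q (jqModC (ZMod q))) =
      (X - C ((qExpand (ZMod q) q (jqModC (ZMod q))) ^ q)) *
        (X ^ q - C (qExpand (ZMod q) q (jqModC (ZMod q)))) := by
  have h1 := congrArg (Polynomial.map (coeffMap (redZ q))) h
  rw [psiAt_map, coeffMap_qExpand, coeffMap_jqModC, Polynomial.map_prod] at h1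
  rw [h1, Fintype.prod_option]
  simp only [Polynomial.map_sub, Polynomial.map_X, Polynomial.map_C, coeffMap_jf, map_uz]
  congr 1
  · congr 2
    rw [jf, fam_none, map_one, one_mul, ← jqModC_pow_q, map_pow, jqModC_pow_q]
  · have : ∀ i : Fin q, jf (ZMod q) q 1 (some i) = jqModC (ZMod q) := fun i => by
      rw [jf, fam_some, one_pow, tw_one]
    simp only [this]
    rw [Finset.prod_const, Finset.card_univ, Fintype.card_fin, sub_pow_char, ← C_pow,
      jqModC_pow_q]

/-- evaluation of `𝔽_q`-polynomials at `j(t^q)` is injective -/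
theorem aeval_Jq_injective (P : ℤ[X])
    (hP : evZ (qExpand (ZMod q) q (jqModC (ZMod q))) P = 0) :
    P.map (Int.castRingHom (ZMod q)) = 0 := by
  have h1 : evZ (jqModC (ZMod q)) P = 0 := by
    apply qExpand_injective (R := ZMod q) q
    rw [map_zero, map_evZ, hP]
  apply aeval_J_injective (K := ZMod q)
  rw [map_zero, ← h1, Polynomial.aeval_def, Polynomial.eval₂_map, evZ, coe_eval₂RingHom]
  congr 1
  exact RingHom.ext_int _ _

theorem exists_C_mul_of_map_eq_zero (P : ℤ[X]) (hP : P.map (Int.castRingHom (ZMod q)) = 0) :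
    ∃ Q : ℤ[X], P = C (q : ℤ) * Q := by
  have h : (C (q : ℤ)) ∣ P := by
    rw [Polynomial.C_dvd_iff_dvd_coeff]
    intro i
    have h1 : (P.map (Int.castRingHom (ZMod q))).coeff i = 0 := by rw [hP, coeff_zero]
    rw [coeff_map] at h1
    exact (ZMod.intCast_zmod_eq_zero_iff_dvd _ q).1 (by simpa using h1)
  obtain ⟨Q, hQ⟩ := h
  exact ⟨Q, hQ⟩

/-- **Kronecker congruence** -/
theorem kronecker (h : psiAt Ψ (qExpand (Rz q) q (jqModC (Rz q))) =
      ∏ a, (X - C (jf (Rz q) q (uz q) a))) :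
    ∃ H : ℤ[X][X], Ψ = (X - C (X ^ q)) * (X ^ q - C X) + C (C (q : ℤ)) * H := by
  set D : ℤ[X][X] := Ψ - (X - C (X ^ q)) * (X ^ q - C X) with hD
  have h1 : psiAt D (qExpand (ZMod q) q (jqModC (ZMod q))) = 0 := by
    have h2 := psiAt_red h
    rw [psiAt] at h2
    rw [hD, psiAt, Polynomial.map_sub, h2]
    simp
  have h2 : ∀ k, ∃ Q : ℤ[X], D.coeff k = C (q : ℤ) * Q := by
    intro k
    apply exists_C_mul_of_map_eq_zero
    apply aeval_Jq_injective
    rw [← psiAt_coeff, h1, coeff_zero]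
  have h3 : (C (C (q : ℤ)) : ℤ[X][X]) ∣ D := by
    rw [Polynomial.C_dvd_iff_dvd_coeff]
    intro i
    obtain ⟨Q, hQ⟩ := h2 i
    exact ⟨Q, hQ⟩
  obtain ⟨H, hH⟩ := h3
  exact ⟨H, by rw [← hH, hD]; ring⟩

end Fermat.Agent.H24
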