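import Mathlib
import Fermat.Agent.H66Min
import Fermat.Agent.H60Series

/-!
# The modular polynomial of prime level `q` over `ℤ`
-/

set_option autoImplicit false

noncomputable section

namespace Fermat.Agent.H24

open ModularCurve Polynomial Fermat.Agent.H66

attribute [-instance] DivisionRing.toRatAlgebra

variable (q : ℕ) [hq : Fact q.Prime]

/-- `ℤ[ζ_q]` -/
abbrev Rz : Type := AdjoinRoot (cyclotomic q ℤ)

omit hq in
theorem root_pow_q : (AdjoinRoot.root (cyclotomic q ℤ)) ^ q = 1 := by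
  obtain ⟨Q, hQ⟩ := Polynomial.cyclotomic.dvd_X_pow_sub_one q ℤ
  have h2 := congrArg (AdjoinRoot.mk (Polynomial.cyclotomic q ℤ)) hQ
  rw [map_mul, AdjoinRoot.mk_self, zero_mul, map_sub, map_pow, AdjoinRoot.mk_X, map_one] at h2
  exact sub_eq_zero.1 h2

/-- the unit `ζ` of `ℤ[ζ]` -/
def uz : (Rz q)ˣ := Units.ofPowEqOne _ q (root_pow_q q) hq.out.ne_zero

@[simp] theorem coe_uz : ((uz q : (Rz q)ˣ) : Rz q) = AdjoinRoot.root (cyclotomic q ℤ) := rfl

/-- `ℚ(ζ)` -/
abbrev Lz : Type := CyclotomicField q ℚ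

instance : NeZero (q : ℚ) := ⟨by exact_mod_cast hq.out.ne_zero⟩

theorem zeta_prim : IsPrimitiveRoot (IsCyclotomicExtension.zeta q ℚ (Lz q)) q :=
  IsCyclotomicExtension.zeta_spec q ℚ (Lz q)

theorem eval_cyc {K : Type*} [Field K] {z : K} (hz : IsPrimitiveRoot z q) :
    Polynomial.eval₂ (Int.castRingHom K) z (Polynomial.cyclotomic q ℤ) = 0 := by
  have := hz.isRoot_cyclotomic hq.out.pos
  rw [← Polynomial.map_cyclotomic_int q K, Polynomial.IsRoot, Polynomial.eval_map] at this
  exact this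

/-- `ℤ[ζ] → ℚ(ζ)` -/
def iz : Rz q →+* Lz q :=
  AdjoinRoot.lift (Int.castRingHom (Lz q)) (IsCyclotomicExtension.zeta q ℚ (Lz q))
    (eval_cyc q (zeta_prim q))

theorem iz_root : iz q (AdjoinRoot.root (cyclotomic q ℤ)) = IsCyclotomicExtension.zeta q ℚ (Lz q) :=
  AdjoinRoot.lift_root _

theorem iz_injective : Function.Injective (iz q) := by
  rw [injective_iff_map_eq_zero]
  intro x hx
  obtain ⟨P, rfl⟩ := AdjoinRoot.mk_surjective x
  have h1 : Polynomial.eval₂ (Int.castRingHom (Lz q)) (IsCyclotomicExtension.zeta q ℚ (Lz q)) P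
      = 0 := by
    have := AdjoinRoot.lift_mk (eval_cyc q (zeta_prim q)) P
    rw [← this]; exact hx
  rw [AdjoinRoot.mk_eq_zero, Polynomial.cyclotomic_eq_minpoly (zeta_prim q) hq.out.pos]
  exact minpoly.isIntegrallyClosed_dvd ((zeta_prim q).isIntegral hq.out.pos) h1

/-- the unit `ζ` of `ℚ(ζ)` -/
def uL : (Lz q)ˣ := Units.map (iz q).toMonoidHom (uz q)

theorem coe_uL : ((uL q : (Lz q)ˣ) : Lz q) = IsCyclotomicExtension.zeta q ℚ (Lz q) := iz_root q

theorem uL_prim : IsPrimitiveRoot (uL q) q := by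
  rw [← IsPrimitiveRoot.coe_units_iff, coe_uL]
  exact zeta_prim q

theorem modEq_Lz : ModEq (Lz q) q (uL q) := modEq_field (Lz q) q (uL q) (uL_prim q)

theorem modEq_Rz : ModEq (Rz q) q (uz q) := ModEq.descend (iz_injective q) (modEq_Lz q)

theorem intCast_Rz_injective : Function.Injective (Int.castRingHom (Rz q)) := by
  have h1 : Function.Injective ((iz q).comp (Int.castRingHom (Rz q))) := by
    have : (iz q).comp (Int.castRingHom (Rz q)) = Int.castRingHom (Lz q) := RingHom.ext_int _ _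
    rw [this]
    exact Int.cast_injective
  rw [RingHom.coe_comp] at h1
  exact Function.Injective.of_comp h1

/-- product over all `q`-th roots of unity, for any choice of the primitive root -/
theorem prod_some_eq {L : Type*} [CommRing L] [IsDomain L] {M : Type*} [CommMonoid M] {u v : Lˣ}
    (hu : IsPrimitiveRoot u q) (hv : IsPrimitiveRoot v q) (f : Lˣ → M) :
    ∏ i : Fin q, f (u ^ (i : ℕ)) = ∏ i : Fin q, f (v ^ (i : ℕ)) := by
  classical
  let _ : Fintype (rootsOfUnity q L) := Fintype.ofFinite _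
  have key : ∀ {w : Lˣ}, IsPrimitiveRoot w q → ∏ i : Fin q, f (w ^ (i : ℕ)) =
      ∏ x : rootsOfUnity q L, f x := by
    intro w hw
    have hmem : ∀ i : ℕ, w ^ i ∈ rootsOfUnity q L := fun i => by
      rw [mem_rootsOfUnity, ← pow_mul, mul_comm, pow_mul, hw.pow_eq_one, one_pow]
    let g : Fin q → rootsOfUnity q L := fun i => ⟨w ^ (i : ℕ), hmem i⟩
    have hinj : Function.Injective g := by
      intro i j hij
      have h1 : w ^ (i : ℕ) = w ^ (j : ℕ) := congrArg Subtype.val hij
      exact Fin.ext (hw.pow_inj i.2 j.2 h1)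
    have hcard : Fintype.card (Fin q) = Fintype.card (rootsOfUnity q L) := by
      rw [Fintype.card_fin, ← Nat.card_eq_fintype_card]
      exact (IsPrimitiveRoot.card_rootsOfUnity (IsPrimitiveRoot.coe_units_iff.2 hw)).symm
    have hbij : Function.Bijective g :=
      (Fintype.bijective_iff_injective_and_card g).2 ⟨hinj, hcard⟩
    exact Fintype.prod_bijective g hbij _ _ fun i => rfl
  rw [key hu, key hv]

/-- coefficients of the modular polynomial -/
def cf (k : ℕ) : LaurentSeries (Rz q) :=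
  (∏ a, (Polynomial.X - Polynomial.C (jf (Rz q) q (uz q) a))).coeff k

theorem map_cf (k : ℕ) : coeffMap (iz q) (cf q k) =
    (∏ a, (Polynomial.X - Polynomial.C (jf (Lz q) q (uL q) a))).coeff k := by
  rw [cf, map_prod_coeff]
  simp only [coeffMap_jf]
  rfl

theorem coeffMap_sigma (σ : Lz q →+* Lz q) (hσ : IsPrimitiveRoot (Units.map σ.toMonoidHom (uL q)) q)
    (k : ℕ) : coeffMap σ (coeffMap (iz q) (cf q k)) = coeffMap (iz q) (cf q k) := by
  rw [map_cf, map_prod_coeff]
  congr 1
  simp only [coeffMap_jf]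
  rw [Fintype.prod_option, Fintype.prod_option]
  congr 1
  exact prod_some_eq q hσ (uL_prim q) fun v =>
    (Polynomial.X - Polynomial.C (tw v (jqModC (Lz q))))

theorem cf_coeff_int (k : ℕ) (n : ℤ) : ∃ z : ℤ, (z : Rz q) = (cf q k).coeff n := by
  set x : Lz q := iz q ((cf q k).coeff n) with hx
  have hxc : x = (coeffMap (iz q) (cf q k)).coeff n := by rw [coeffMap_coeff]
  have : IsGalois ℚ (Lz q) := IsCyclotomicExtension.isGalois {q} ℚ (Lz q)
  have : FiniteDimensional ℚ (Lz q) := IsCyclotomicExtension.finiteDimensional {q} ℚ (Lz q)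
  have h1 : x ∈ Set.range (algebraMap ℚ (Lz q)) := by
    rw [IsGalois.mem_range_algebraMap_iff_fixed]
    intro σ
    have h2 := coeffMap_sigma q (σ : Lz q →+* Lz q) (by
      exact (uL_prim q).map_of_injective (f := Units.map ((σ : Lz q →+* Lz q)).toMonoidHom)
        (Units.map_injective (f := ((σ : Lz q →+* Lz q)).toMonoidHom) σ.injective)) k
    have h3 := congrArg (fun y : LaurentSeries (Lz q) => y.coeff n) h2
    rw [hxc]
    simpa using h3
  obtain ⟨r, hr⟩ := h1
  have hfin : Module.Finite ℤ (Rz q) := (cyclotomic.monic q ℤ).finite_adjoinRoot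
  have h2 : IsIntegral ℤ x := by
    have h3 : IsIntegral ℤ ((cf q k).coeff n) := Algebra.IsIntegral.isIntegral _
    have h4 := h3.map (iz q).toIntAlgHom
    exact h4
  rw [← hr] at h2
  have h3 : IsIntegral ℤ r := (isIntegral_algebraMap_iff (algebraMap ℚ (Lz q)).injective).1 h2
  obtain ⟨z, hz⟩ := IsIntegrallyClosed.isIntegral_iff.1 h3
  refine ⟨z, iz_injective q ?_⟩
  rw [← hx, ← hr, ← hz]
  simp

/-- the coefficients as integral Laurent series -/
theorem exists_cfZ (k : ℕ) : ∃ x : LaurentSeries ℤ, coeffMap (Int.castRingHom (Rz q)) x = cf q k := by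
  classical
  choose z hz using cf_coeff_int q k
  have hinj := intCast_Rz_injective q
  have hsupp : Function.support z ⊆ (cf q k).support := by
    intro n hn
    rw [HahnSeries.mem_support, ← hz n]
    intro h0
    apply hn
    exact hinj (by rw [map_zero]; exact h0)
  refine ⟨⟨z, (cf q k).isPWO_support.mono hsupp⟩, ?_⟩
  ext n
  rw [coeffMap_coeff]
  exact hz n

end Fermat.Agent.H24
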