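import Fermat.Agent.H24ModPoly

/-!
# The modular polynomial of prime level `q` over `ℤ`, degree bounds and Kronecker congruence
-/

set_option autoImplicit false

noncomputable section

namespace Fermat.Agent.H24

open ModularCurve Polynomial Fermat.Agent.H66

variable (q : ℕ) [hq : Fact q.Prime]

/-- evaluation of integral polynomials -/
def evZ {B : Type*} [CommRing B] (z : B) : ℤ[X] →+* B := eval₂RingHom (Int.castRingHom B) z

@[simp] theorem evZ_X {B : Type*} [CommRing B] (z : B) : evZ z X = z := by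
  simp [evZ]

@[simp] theorem evZ_C {B : Type*} [CommRing B] (z : B) (n : ℤ) : evZ z (C n) = (n : B) := by
  simp [evZ]

theorem map_evZ {B B' : Type*} [CommRing B] [CommRing B'] (z : B) (f : B →+* B') (P : ℤ[X]) :
    f (evZ z P) = evZ (f z) P := by
  rw [← RingHom.comp_apply]
  congr 1
  refine Polynomial.ringHom_ext (fun a => ?_) ?_
  · simp
  · simp

/-- specialization of the inner variable -/
def psiAt {B : Type*} [CommRing B] (Ψ : ℤ[X][X]) (z : B) : B[X] := Ψ.map (evZ z)

theorem psiAt_map {B B' : Type*} [CommRing B] [CommRing B'] (Ψ : ℤ[X][X]) (z : B)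
    (f : B →+* B') : (psiAt Ψ z).map f = psiAt Ψ (f z) := by
  rw [psiAt, psiAt, Polynomial.map_map]
  congr 1
  exact RingHom.ext fun P => map_evZ z f P

theorem psiAt_coeff {B : Type*} [CommRing B] (Ψ : ℤ[X][X]) (z : B) (k : ℕ) :
    (psiAt Ψ z).coeff k = evZ z (Ψ.coeff k) := by
  rw [psiAt, Polynomial.coeff_map]

/-- coefficient series over `ℤ` -/
def cfZ (k : ℕ) : LaurentSeries ℤ := (exists_cfZ q k).choose

theorem coeffMap_cfZ (k : ℕ) : coeffMap (Int.castRingHom (Rz q)) (cfZ q k) = cf q k :=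
  (exists_cfZ q k).choose_spec

instance : Nontrivial (Rz q) := (iz q).domain_nontrivial

theorem exists_P (k : ℕ) :
    ∃ P : ℤ[X], P.eval₂ HahnSeries.C (qExpand ℤ q (jqModC ℤ)) = cfZ q k :=
  InJ.descend (intCast_Rz_injective q) (by rw [coeffMap_cfZ]; exact (modEq_Rz q).phi k)

theorem eval₂_C_eq (P : ℤ[X]) (y : LaurentSeries ℤ) : P.eval₂ HahnSeries.C y = evZ y P := by
  rw [evZ, coe_eval₂RingHom]
  congr 1

/-- **The modular polynomial over `ℤ`** -/
theorem exists_modPoly : ∃ Ψ : ℤ[X][X], Ψ.Monic ∧ Ψ.natDegree = q + 1 ∧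
    psiAt Ψ (qExpand (Rz q) q (jqModC (Rz q))) =
      ∏ a, (X - C (jf (Rz q) q (uz q) a)) := by
  classical
  choose P hP using exists_P q
  obtain ⟨h1, h2⟩ := monic_of_coeff (q + 1) P
  refine ⟨X ^ (q + 1) + ∑ k ∈ Finset.range (q + 1), C (P k) * X ^ k, h1, h2, ?_⟩
  have hm : (∏ a, (X - C (jf (Rz q) q (uz q) a))).Monic :=
    monic_prod_of_monic _ _ fun i _ => monic_X_sub_C _
  have hd : (∏ a, (X - C (jf (Rz q) q (uz q) a))).natDegree = q + 1 := by
    rw [natDegree_prod_of_monic _ _ fun i _ => monic_X_sub_C _]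
    simp
  conv_rhs => rw [hm.as_sum, hd]
  rw [psiAt, Polynomial.map_add, Polynomial.map_pow, Polynomial.map_X, Polynomial.map_sum]
  congr 1
  refine Finset.sum_congr rfl fun k _ => ?_
  rw [Polynomial.map_mul, Polynomial.map_pow, Polynomial.map_X, Polynomial.map_C]
  congr 2
  rw [← cf, ← coeffMap_cfZ, ← hP k, eval₂_C_eq, map_evZ, coeffMap_qExpand, coeffMap_jqModC]

section consequences

variable {q} {Ψ : ℤ[X][X]}

/-- `Ψ(j(t), j(t^q)) = 0` and `Ψ(j(t^q²), j(t^q)) = 0` -/
theorem eval_psi1 (h : psiAt Ψ (qExpand (Rz q) q (jqModC (Rz q))) =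
      ∏ a, (X - C (jf (Rz q) q (uz q) a))) (A : Type*) [CommRing A] :
    (psiAt Ψ (qExpand A q (jqModC A))).eval (jqModC A) = 0 := by
  have h1 : (psiAt Ψ (qExpand (Rz q) q (jqModC (Rz q)))).eval (jqModC (Rz q)) = 0 := by
    rw [h, eval_prod]
    refine Finset.prod_eq_zero (Finset.mem_univ (some 0)) ?_
    rw [jf, fam_some, Fin.val_zero, pow_zero, tw_one, eval_sub, eval_X, eval_C, sub_self]
  have h2 : (psiAt Ψ (qExpand ℤ q (jqModC ℤ))).eval (jqModC ℤ) = 0 := by
    apply coeffMap_injective (intCast_Rz_injective q)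
    rw [map_zero, ← Polynomial.eval_map_apply, psiAt_map, coeffMap_qExpand, coeffMap_jqModC, h1]
  have h3 := congrArg (coeffMap (Int.castRingHom A)) h2
  rwa [map_zero, ← Polynomial.eval_map_apply, psiAt_map, coeffMap_qExpand, coeffMap_jqModC] at h3

theorem eval_psi2 (h : psiAt Ψ (qExpand (Rz q) q (jqModC (Rz q))) =
      ∏ a, (X - C (jf (Rz q) q (uz q) a))) (A : Type*) [CommRing A] :
    (psiAt Ψ (jqModC A)).eval (qExpand A q (jqModC A)) = 0 := by
  have h1 : (psiAt Ψ (jqModC (Rz q))).eval (qExpand (Rz q) q (jqModC (Rz q))) = 0 := by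
    apply qExpand_injective (R := Rz q) q
    rw [map_zero, ← Polynomial.eval_map_apply, psiAt_map, h, eval_prod]
    refine Finset.prod_eq_zero (Finset.mem_univ none) ?_
    rw [jf, fam_none, map_one, one_mul, eval_sub, eval_X, eval_C, sub_self]
  have h2 : (psiAt Ψ (jqModC ℤ)).eval (qExpand ℤ q (jqModC ℤ)) = 0 := by
    apply coeffMap_injective (intCast_Rz_injective q)
    rw [map_zero, ← Polynomial.eval_map_apply, psiAt_map, coeffMap_qExpand, coeffMap_jqModC, h1]
  have h3 := congrArg (coeffMap (Int.castRingHom A)) h2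
  rwa [map_zero, ← Polynomial.eval_map_apply, psiAt_map, coeffMap_qExpand, coeffMap_jqModC] at h3

end consequences

section bounds

/-- pole of order at most `M` -/
def Bd {A : Type*} [CommRing A] (M : ℤ) (y : LaurentSeries A) : Prop := ∀ n < -M, y.coeff n = 0

theorem Bd.mul {A : Type*} [CommRing A] {M N : ℤ} {x y : LaurentSeries A} (hx : Bd M x)
    (hy : Bd N y) : Bd (M + N) (x * y) := by
  have h := HasLead.mul (n := -M) (m := -N) ⟨rfl, hx⟩ ⟨rfl, hy⟩
  intro n hn
  exact h.2 n (by linarith)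

theorem Bd.mono {A : Type*} [CommRing A] {M N : ℤ} {x : LaurentSeries A} (hx : Bd M x)
    (h : M ≤ N) : Bd N x := fun n hn => hx n (by linarith)

theorem Bd.sub {A : Type*} [CommRing A] {M : ℤ} {x y : LaurentSeries A} (hx : Bd M x)
    (hy : Bd M y) : Bd M (x - y) := by
  intro n hn
  rw [HahnSeries.coeff_sub, hx n hn, hy n hn, sub_zero]

theorem Bd.neg {A : Type*} [CommRing A] {M : ℤ} {x : LaurentSeries A} (hx : Bd M x) :
    Bd M (-x) := by
  intro n hn
  rw [HahnSeries.coeff_neg, hx n hn, neg_zero]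

theorem bd_coeff_prod {A : Type*} [CommRing A] {ι : Type*} (s : Finset ι)
    (x : ι → LaurentSeries A) {M : ℤ} (hx : ∀ i ∈ s, Bd M (x i)) :
    ∀ k : ℕ, k ≤ s.card → Bd (M * (s.card - k)) ((∏ i ∈ s, (X - C (x i))).coeff k) := by
  induction s using Finset.cons_induction with
  | empty =>
    intro k hk
    have hk0 : k = 0 := by simpa using hk
    subst hk0
    rw [Finset.prod_empty, coeff_one_zero]
    intro n hn
    exact HasLead.one.2 n (by simpa using hn)
  | cons a s ha ih =>
    intro k hk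
    have ih' := ih fun i hi => hx i (Finset.mem_cons_of_mem hi)
    have hxa := hx a (Finset.mem_cons_self a s)
    rw [Finset.prod_cons, Finset.card_cons]
    set f := ∏ i ∈ s, (X - C (x i)) with hf
    rw [Finset.card_cons] at hk
    cases k with
    | zero =>
      rw [mul_coeff_zero, coeff_sub, coeff_X_zero, coeff_C_zero, zero_sub]
      have h := (hxa.neg).mul (ih' 0 (Nat.zero_le _))
      refine h.mono (le_of_eq ?_)
      push_cast; ring
    | succ k =>
      rw [sub_mul, coeff_sub, coeff_X_mul, coeff_C_mul]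
      refine Bd.sub ?_ ?_
      · refine (ih' k (by omega)).mono (le_of_eq ?_)
        push_cast; ring
      · rcases Nat.lt_or_ge s.card (k + 1) with h | h
        · have h0 : f.coeff (k + 1) = 0 := by
            apply coeff_eq_zero_of_natDegree_lt
            refine lt_of_le_of_lt ?_ h
            rw [hf]
            refine (natDegree_prod_le _ _).trans ?_
            refine (Finset.sum_le_card_nsmul _ _ 1 fun i _ => ?_).trans (by simp)
            exact natDegree_X_sub_C_le _
          rw [h0, mul_zero]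
          intro n _
          simp
        · refine (hxa.mul (ih' (k + 1) h)).mono (le_of_eq ?_)
          push_cast; ring

variable {q} {Ψ : ℤ[X][X]}

theorem bd_jf (A : Type*) [CommRing A] (u : Aˣ) (a : Option (Fin q)) :
    Bd ((q : ℤ) * q) (jf A q u a) := by
  have hq2 : (2 : ℤ) ≤ q := by exact_mod_cast hq.out.two_le
  cases a with
  | none =>
    have h := ((HasLead.jqModC (A := A)).qExpand q).qExpand q
    intro n hn
    rw [jf, fam_none, map_one, one_mul]
    exact h.2 n (by nlinarith)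
  | some i =>
    have h := (HasLead.jqModC (A := A)).tw (u ^ (i : ℕ))
    intro n hn
    rw [jf, fam_some]
    exact h.2 n (by nlinarith)

/-- degree bound for the coefficients of the modular polynomial -/
theorem natDegree_coeff_le (h : psiAt Ψ (qExpand (Rz q) q (jqModC (Rz q))) =
      ∏ a, (X - C (jf (Rz q) q (uz q) a))) (k : ℕ) (hk : k ≤ q + 1) :
    (Ψ.coeff k).natDegree ≤ q * (q + 1 - k) := by
  have hq0 : (0 : ℤ) < q := by exact_mod_cast hq.out.pos
  by_cases hP0 : Ψ.coeff k = 0
  · rw [hP0, natDegree_zero]; exact Nat.zero_le _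
  set P := Ψ.coeff k with hP
  have h1 : evZ (qExpand (Rz q) q (jqModC (Rz q))) P =
      (∏ a, (X - C (jf (Rz q) q (uz q) a))).coeff k := by
    rw [← h, psiAt_coeff]
  have h2 := ((HasLead.jqModC (A := ℤ)).qExpand q)
  rw [show (q : ℤ) * (-1) = -(q : ℤ) by ring] at h2
  have h3 := (h2.eval₂ hq0 P).1
  rw [eval₂_C_eq] at h3
  have h4 : (evZ (qExpand (Rz q) q (jqModC (Rz q))) P).coeff (-(P.natDegree * q)) =
      ((P.leadingCoeff : ℤ) : Rz q) := by
    have : evZ (qExpand (Rz q) q (jqModC (Rz q))) P =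
        coeffMap (Int.castRingHom (Rz q)) (evZ (qExpand ℤ q (jqModC ℤ)) P) := by
      rw [map_evZ, coeffMap_qExpand, coeffMap_jqModC]
    rw [this, coeffMap_coeff, h3]
    simp
  by_contra hcon
  push Not at hcon
  have hcard : (Finset.univ : Finset (Option (Fin q))).card = q + 1 := by simp
  have h5 := bd_coeff_prod (Finset.univ : Finset (Option (Fin q)))
    (fun a => jf (Rz q) q (uz q) a) (fun a _ => bd_jf (Rz q) (uz q) a) k (by rw [hcard]; exact hk)
  rw [hcard, ← h1] at h5
  have h6 := h5 (-(P.natDegree * q)) (by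
    have h7 : ((q * (q + 1 - k) : ℕ) : ℤ) < P.natDegree := by exact_mod_cast hcon
    rw [Nat.cast_mul, Nat.cast_sub hk] at h7
    push_cast at h7 ⊢
    nlinarith)
  rw [h4] at h6
  have h8 : P.leadingCoeff = 0 := intCast_Rz_injective q (by simpa using h6)
  exact hP0 (leadingCoeff_eq_zero.1 h8)

end bounds

end Fermat.Agent.H24
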