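import Mathlib

set_option autoImplicit false

/-!
# The chart ring (job S25-D4)

Representability of "matrix data": pairs `(ρ, λ)` where `ρ : B → M_n(A[X])` is an algebra
homomorphism with degree bounds and `λ` is a covector satisfying normalisation conditions.
-/

universe u

namespace Fermat.Agent.H45

open Polynomial

/-- The data defining a chart: a `k`-algebra `B` with an element `t`, an exhaustive family of
subspaces `F m`, a `k`-point `e` of `B`, and noncommutative polynomials `p i`. -/
structure ChartData (k B : Type u) [Field k] [CommRing B] [Algebra k B] (n : ℕ) where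
  /-- the element acting as `X` -/
  t : B
  /-- the filtration bounding degrees -/
  F : ℕ → Submodule k B
  exh : ∀ b : B, ∃ m, b ∈ F m
  /-- the base point -/
  e : B →ₐ[k] k
  /-- the normalising noncommutative polynomials -/
  p : Fin n → FreeAlgebra k (B × ℕ)

variable {k B : Type u} [Field k] [CommRing B] [Algebra k B] {n : ℕ}

/-- coefficient matrices of a matrix of polynomials -/
def coeffMat {A : Type u} [CommRing A] (P : Matrix (Fin n) (Fin n) A[X]) (j : ℕ) :
    Matrix (Fin n) (Fin n) A := P.map fun q => q.coeff j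

/-- evaluation of noncommutative polynomials at the coefficient matrices of `ρ` -/
noncomputable def evNC {A : Type u} [CommRing A] [Algebra k A]
    (ρ : B →ₐ[k] Matrix (Fin n) (Fin n) A[X]) :
    FreeAlgebra k (B × ℕ) →ₐ[k] Matrix (Fin n) (Fin n) A :=
  FreeAlgebra.lift k fun x => coeffMat (ρ x.1) x.2

/-- A point of the chart with values in `A`. -/
@[ext]
structure ChartPt (D : ChartData k B n) (A : Type u) [CommRing A] [Algebra k A] where
  /-- the representation -/
  ρ : B →ₐ[k] Matrix (Fin n) (Fin n) A[X]
  /-- the covector -/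
  lam : Fin n → A
  ρ_t : ρ D.t = Matrix.diagonal fun _ => X
  ρ_deg : ∀ m : ℕ, ∀ b ∈ D.F m, ∀ i j, (ρ b i j).natDegree ≤ m
  lam_p : ∀ i, Matrix.vecMul lam (evNC ρ (D.p i)) = Pi.single i 1
  lam_e : ∀ b : B, Matrix.vecMul lam ((ρ b).map fun q => q.eval (algebraMap k A (D.e D.t))) =
    algebraMap k A (D.e b) • lam

namespace ChartPt

variable {D : ChartData k B n} {A : Type u} [CommRing A] [Algebra k A]
  {A' : Type u} [CommRing A'] [Algebra k A']

/-- pushing a representation forward along an algebra homomorphism -/
noncomputable def mapρ (φ : A →ₐ[k] A') (ρ : B →ₐ[k] Matrix (Fin n) (Fin n) A[X]) :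
    B →ₐ[k] Matrix (Fin n) (Fin n) A'[X] :=
  (Polynomial.mapAlgHom φ).mapMatrix.comp ρ

lemma mapρ_apply (φ : A →ₐ[k] A') (ρ : B →ₐ[k] Matrix (Fin n) (Fin n) A[X]) (b : B)
    (i j : Fin n) : mapρ φ ρ b i j = (ρ b i j).map (φ : A →+* A') := rfl

lemma evNC_mapρ (φ : A →ₐ[k] A') (ρ : B →ₐ[k] Matrix (Fin n) (Fin n) A[X])
    (q : FreeAlgebra k (B × ℕ)) : evNC (mapρ φ ρ) q = (evNC ρ q).map φ := by
  have h : evNC (mapρ φ ρ) = φ.mapMatrix.comp (evNC ρ) := by
    apply FreeAlgebra.hom_ext
    funext x
    ext i j
    simp [evNC, coeffMat, mapρ_apply, Polynomial.coeff_map]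
  rw [h]
  rfl

lemma vecMul_map {R S : Type u} [CommRing R] [CommRing S] (φ : R →+* S) (v : Fin n → R)
    (M : Matrix (Fin n) (Fin n) R) :
    Matrix.vecMul (fun i => φ (v i)) (M.map φ) = fun i => φ (Matrix.vecMul v M i) := by
  funext i
  simp [Matrix.vecMul, dotProduct, map_sum]

/-- functoriality of chart points -/
noncomputable def map (φ : A →ₐ[k] A') (x : ChartPt D A) : ChartPt D A' where
  ρ := mapρ φ x.ρ
  lam := fun i => φ (x.lam i)
  ρ_t := by
    ext1 i j
    rw [mapρ_apply, x.ρ_t]
    by_cases h : i = j
    · subst h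
      rw [Matrix.diagonal_apply_eq, Matrix.diagonal_apply_eq, Polynomial.map_X]
    · rw [Matrix.diagonal_apply_ne _ h, Matrix.diagonal_apply_ne _ h, Polynomial.map_zero]
  ρ_deg := fun m b hb i j => by
    rw [mapρ_apply]
    exact natDegree_map_le.trans (x.ρ_deg m b hb i j)
  lam_p := fun i => by
    rw [evNC_mapρ]
    have h := vecMul_map (φ : A →+* A') x.lam (evNC x.ρ (D.p i))
    rw [x.lam_p i] at h
    refine h.trans ?_
    funext j
    by_cases hj : j = i
    · subst hj; simp
    · simp [Pi.single_eq_of_ne hj]
  lam_e := fun b => by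
    have h := vecMul_map (φ : A →+* A') x.lam
      ((x.ρ b).map fun q => q.eval (algebraMap k A (D.e D.t)))
    rw [x.lam_e b] at h
    have h2 : ((mapρ φ x.ρ) b).map (fun q => q.eval (algebraMap k A' (D.e D.t))) =
        ((x.ρ b).map fun q => q.eval (algebraMap k A (D.e D.t))).map (φ : A →+* A') := by
      ext i j
      rw [Matrix.map_apply, Matrix.map_apply, Matrix.map_apply, mapρ_apply]
      have h3 : algebraMap k A' (D.e D.t) = (φ : A →+* A') (algebraMap k A (D.e D.t)) :=
        (φ.commutes _).symm
      rw [h3, Polynomial.eval_map_apply]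
    rw [h2]
    refine h.trans ?_
    funext j
    simp

@[simp]
lemma map_ρ (φ : A →ₐ[k] A') (x : ChartPt D A) (b : B) (i j : Fin n) :
    (x.map φ).ρ b i j = (x.ρ b i j).map (φ : A →+* A') := rfl

@[simp]
lemma map_lam (φ : A →ₐ[k] A') (x : ChartPt D A) (i : Fin n) :
    (x.map φ).lam i = φ (x.lam i) := rfl

lemma ext' {x y : ChartPt D A} (h1 : ∀ b i j, x.ρ b i j = y.ρ b i j)
    (h2 : ∀ i, x.lam i = y.lam i) : x = y := by
  apply ChartPt.ext
  · apply AlgHom.ext
    intro b
    ext1 i j
    exact h1 b i j
  · funext i
    exact h2 i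

lemma map_id (x : ChartPt D A) : x.map (AlgHom.id k A) = x := by
  apply ext'
  · intro b i j
    rw [map_ρ]
    exact Polynomial.map_id
  · intro i; rfl

lemma map_comp {A'' : Type u} [CommRing A''] [Algebra k A''] (x : ChartPt D A)
    (φ : A →ₐ[k] A') (ψ : A' →ₐ[k] A'') : x.map (ψ.comp φ) = (x.map φ).map ψ := by
  apply ext'
  · intro b i j
    rw [map_ρ, map_ρ, map_ρ, Polynomial.map_map]
    rfl
  · intro i; rfl

end ChartPt

/-! ### Construction of the chart ring -/

section ring

variable (D : ChartData k B n)

/-- the variables: entries of coefficients and entries of the covector -/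
abbrev ChartVar (B : Type u) (n : ℕ) : Type u := (B × Fin n × Fin n × ℕ) ⊕ Fin n

variable {D} in
/-- coordinates of a chart point -/
noncomputable def ChartPt.coord {A : Type u} [CommRing A] [Algebra k A] (y : ChartPt D A) :
    ChartVar B n → A
  | Sum.inl v => (y.ρ v.1 v.2.1 v.2.2.1).coeff v.2.2.2
  | Sum.inr i => y.lam i

/-- the ideal of all relations satisfied by all chart points -/
noncomputable def chartIdeal : Ideal (MvPolynomial (ChartVar B n) k) :=
  sInf {I | ∃ (A : Type u) (_ : CommRing A) (_ : Algebra k A) (y : ChartPt D A),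
    I = RingHom.ker (MvPolynomial.aeval (R := k) y.coord)}

/-- the chart ring -/
def ChartRing : Type u := MvPolynomial (ChartVar B n) k ⧸ chartIdeal D

noncomputable instance : CommRing (ChartRing D) :=
  inferInstanceAs (CommRing (MvPolynomial (ChartVar B n) k ⧸ chartIdeal D))

noncomputable instance : Algebra k (ChartRing D) :=
  inferInstanceAs (Algebra k (MvPolynomial (ChartVar B n) k ⧸ chartIdeal D))

namespace ChartRing

/-- the quotient map -/
noncomputable def proj : MvPolynomial (ChartVar B n) k →ₐ[k] ChartRing D :=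
  Ideal.Quotient.mkₐ k (chartIdeal D)

lemma proj_surjective : Function.Surjective (proj D) := Ideal.Quotient.mkₐ_surjective _ _

/-- the universal coordinates -/
noncomputable def cx (v : ChartVar B n) : ChartRing D := proj D (MvPolynomial.X v)

variable {D}
variable {A : Type u} [CommRing A] [Algebra k A]

/-- the homomorphism attached to a chart point -/
noncomputable def lift (y : ChartPt D A) : ChartRing D →ₐ[k] A :=
  Ideal.Quotient.liftₐ (chartIdeal D) (MvPolynomial.aeval (R := k) y.coord) (by
    intro a ha
    have h : chartIdeal D ≤ RingHom.ker (MvPolynomial.aeval (R := k) y.coord) :=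
      sInf_le ⟨A, inferInstance, inferInstance, y, rfl⟩
    exact (RingHom.mem_ker).mp (h ha))

lemma lift_proj (y : ChartPt D A) (P : MvPolynomial (ChartVar B n) k) :
    lift y (proj D P) = MvPolynomial.aeval (R := k) y.coord P := rfl

lemma lift_cx (y : ChartPt D A) (v : ChartVar B n) : lift y (cx D v) = y.coord v := by
  rw [cx, lift_proj, MvPolynomial.aeval_X]

/-- chart points are jointly faithful on the chart ring -/
lemma ext_lift {a b : ChartRing D}
    (h : ∀ (A : Type u) [CommRing A] [Algebra k A] (y : ChartPt D A), lift y a = lift y b) :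
    a = b := by
  obtain ⟨P, rfl⟩ := proj_surjective D a
  obtain ⟨Q, rfl⟩ := proj_surjective D b
  apply Ideal.Quotient.eq.mpr
  rw [chartIdeal, Submodule.mem_sInf]
  rintro _ ⟨A, _, _, y, rfl⟩
  rw [RingHom.mem_ker, map_sub, sub_eq_zero]
  exact h A y

lemma ext_lift_poly {P Q : (ChartRing D)[X]}
    (h : ∀ (A : Type u) [CommRing A] [Algebra k A] (y : ChartPt D A),
      P.map (lift y : ChartRing D →+* A) = Q.map (lift y : ChartRing D →+* A)) : P = Q := by
  ext l
  apply ext_lift
  intro A _ _ y
  have := congrArg (fun p => p.coeff l) (h A y)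
  simpa [Polynomial.coeff_map] using this

lemma hom_ext {φ ψ : ChartRing D →ₐ[k] A} (h : ∀ v, φ (cx D v) = ψ (cx D v)) : φ = ψ := by
  apply Ideal.Quotient.algHom_ext
  apply MvPolynomial.algHom_ext
  exact h

lemma cx_eq_zero {m : ℕ} {b : B} (hb : b ∈ D.F m) (i j : Fin n) {l : ℕ} (hl : m < l) :
    cx D (Sum.inl (b, i, j, l)) = 0 := by
  apply ext_lift
  intro A _ _ y
  rw [lift_cx, map_zero]
  exact coeff_eq_zero_of_natDegree_lt ((y.ρ_deg m b hb i j).trans_lt hl)

variable (D) in
/-- a degree bound -/
noncomputable def dg (b : B) : ℕ := (D.exh b).choose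

lemma mem_dg (b : B) : b ∈ D.F (dg D b) := (D.exh b).choose_spec

variable (D) in
/-- entries of the universal representation -/
noncomputable def uent (b : B) (i j : Fin n) : (ChartRing D)[X] :=
  ∑ l ∈ Finset.range (dg D b + 1), C (cx D (Sum.inl (b, i, j, l))) * X ^ l

lemma coeff_uent (b : B) (i j : Fin n) (l : ℕ) :
    (uent D b i j).coeff l = cx D (Sum.inl (b, i, j, l)) := by
  rw [uent, finsetSum_coeff]
  simp only [coeff_C_mul, coeff_X_pow]
  by_cases hl : l ∈ Finset.range (dg D b + 1)
  · rw [Finset.sum_eq_single_of_mem l hl]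
    · simp
    · intro l' _ hne
      rw [if_neg (Ne.symm hne), mul_zero]
  · rw [Finset.sum_eq_zero]
    · rw [Finset.mem_range, not_lt] at hl
      rw [cx_eq_zero (mem_dg b) i j (by omega)]
    · intro l' hl'
      rw [if_neg, mul_zero]
      rintro rfl
      exact hl hl'

lemma map_uent (y : ChartPt D A) (b : B) (i j : Fin n) :
    (uent D b i j).map (lift y : ChartRing D →+* A) = y.ρ b i j := by
  ext l
  rw [Polynomial.coeff_map, coeff_uent]
  exact lift_cx y _

variable (D) in
/-- the universal matrices -/
noncomputable def umat (b : B) : Matrix (Fin n) (Fin n) (ChartRing D)[X] :=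
  Matrix.of fun i j => uent D b i j

lemma map_umat (y : ChartPt D A) (b : B) :
    (umat D b).map (Polynomial.map (lift y : ChartRing D →+* A)) = y.ρ b := by
  ext1 i j
  exact map_uent y b i j

lemma mat_ext {P Q : Matrix (Fin n) (Fin n) (ChartRing D)[X]}
    (h : ∀ (A : Type u) [CommRing A] [Algebra k A] (y : ChartPt D A),
      P.map (Polynomial.map (lift y : ChartRing D →+* A)) =
        Q.map (Polynomial.map (lift y : ChartRing D →+* A))) : P = Q := by
  ext1 i j
  apply ext_lift_poly
  intro A _ _ y
  exact congrFun (congrFun (h A y) i) j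

variable (D) in
/-- the universal representation -/
noncomputable def uρ : B →ₐ[k] Matrix (Fin n) (Fin n) (ChartRing D)[X] where
  toFun := umat D
  map_one' := mat_ext fun A _ _ y => by
    rw [map_umat, map_one]
    exact (map_one (Polynomial.mapRingHom (lift y : ChartRing D →+* A)).mapMatrix).symm
  map_mul' b b' := mat_ext fun A _ _ y => by
    rw [map_umat, map_mul]
    have h := map_mul (Polynomial.mapRingHom (lift y : ChartRing D →+* A)).mapMatrix
      (umat D b) (umat D b')
    refine Eq.trans ?_ h.symm
    have h1 := map_umat y b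
    have h2 := map_umat y b'
    rw [← h1, ← h2]
    rfl
  map_zero' := mat_ext fun A _ _ y => by
    rw [map_umat, map_zero]
    exact (map_zero (Polynomial.mapRingHom (lift y : ChartRing D →+* A)).mapMatrix).symm
  map_add' b b' := mat_ext fun A _ _ y => by
    rw [map_umat, map_add]
    have h := map_add (Polynomial.mapRingHom (lift y : ChartRing D →+* A)).mapMatrix
      (umat D b) (umat D b')
    refine Eq.trans ?_ h.symm
    have h1 := map_umat y b
    have h2 := map_umat y b'
    rw [← h1, ← h2]
    rfl
  commutes' c := mat_ext fun A _ _ y => by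
    rw [map_umat, AlgHom.commutes]
    exact ((Polynomial.mapAlgHom (lift y)).mapMatrix.commutes c).symm

lemma uρ_apply (b : B) (i j : Fin n) : uρ D b i j = uent D b i j := rfl

lemma mapρ_uρ (y : ChartPt D A) : ChartPt.mapρ (lift y) (uρ D) = y.ρ := by
  apply AlgHom.ext
  intro b
  ext1 i j
  exact map_uent y b i j

variable (D) in
/-- the universal covector -/
noncomputable def ulam (i : Fin n) : ChartRing D := cx D (Sum.inr i)

lemma lift_ulam (y : ChartPt D A) (i : Fin n) : lift y (ulam D i) = y.lam i := lift_cx y _

variable (D) in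
/-- the universal chart point -/
noncomputable def upt : ChartPt D (ChartRing D) where
  ρ := uρ D
  lam := ulam D
  ρ_t := mat_ext fun A _ _ y => by
    have h := map_umat y D.t
    refine Eq.trans h ?_
    rw [y.ρ_t]
    ext1 i j
    rw [Matrix.map_apply]
    by_cases hij : i = j
    · subst hij
      rw [Matrix.diagonal_apply_eq, Matrix.diagonal_apply_eq, Polynomial.map_X]
    · rw [Matrix.diagonal_apply_ne _ hij, Matrix.diagonal_apply_ne _ hij, Polynomial.map_zero]
  ρ_deg := fun m b hb i j => by
    rw [uρ_apply, natDegree_le_iff_coeff_eq_zero]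
    intro l hl
    rw [coeff_uent]
    exact cx_eq_zero hb i j hl
  lam_p := fun i => by
    funext j
    apply ext_lift
    intro A _ _ y
    have h := ChartPt.vecMul_map (lift y : ChartRing D →+* A) (ulam D) (evNC (uρ D) (D.p i))
    have h1 : (evNC (uρ D) (D.p i)).map (lift y : ChartRing D →+* A) = evNC y.ρ (D.p i) := by
      rw [← mapρ_uρ y, ChartPt.evNC_mapρ]
      rfl
    rw [h1] at h
    have h2 : (fun i => (lift y : ChartRing D →+* A) (ulam D i)) = y.lam := by
      funext i
      exact lift_ulam y i
    rw [h2, y.lam_p i] at h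
    have h3 := congrFun h j
    refine h3.symm.trans ?_
    by_cases hj : j = i
    · subst hj; simp
    · simp [Pi.single_eq_of_ne hj]
  lam_e := fun b => by
    funext j
    apply ext_lift
    intro A _ _ y
    have h := ChartPt.vecMul_map (lift y : ChartRing D →+* A) (ulam D)
      ((uρ D b).map fun q => q.eval (algebraMap k (ChartRing D) (D.e D.t)))
    have h1 : ((uρ D b).map fun q => q.eval (algebraMap k (ChartRing D) (D.e D.t))).map
        (lift y : ChartRing D →+* A) = (y.ρ b).map fun q => q.eval (algebraMap k A (D.e D.t)) := by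
      ext i j
      rw [Matrix.map_apply, Matrix.map_apply, Matrix.map_apply, uρ_apply, ← map_uent y b i j]
      have h3 : algebraMap k A (D.e D.t) =
          (lift y : ChartRing D →+* A) (algebraMap k (ChartRing D) (D.e D.t)) :=
        ((lift y).commutes _).symm
      rw [h3, Polynomial.eval_map_apply]
    rw [h1] at h
    have h2 : (fun i => (lift y : ChartRing D →+* A) (ulam D i)) = y.lam := by
      funext i
      exact lift_ulam y i
    rw [h2, y.lam_e b] at h
    have h3 := congrFun h j
    refine h3.symm.trans ?_
    rw [Pi.smul_apply, Pi.smul_apply, smul_eq_mul, smul_eq_mul, map_mul, lift_ulam,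
      AlgHom.commutes]

lemma map_lift_upt (y : ChartPt D A) : (upt D).map (lift y) = y :=
  ChartPt.ext' (fun b i j => map_uent y b i j) (fun i => lift_ulam y i)

lemma eq_lift_of_map_upt {y : ChartPt D A} {φ : ChartRing D →ₐ[k] A}
    (h : (upt D).map φ = y) : φ = lift y := by
  apply hom_ext
  rintro (⟨b, i, j, l⟩ | i)
  · rw [lift_cx, ← h]
    show φ (cx D (Sum.inl (b, i, j, l))) = ((uent D b i j).map (φ : ChartRing D →+* A)).coeff l
    rw [Polynomial.coeff_map, coeff_uent]
    rfl
  · rw [lift_cx, ← h]
    rfl

variable (D) in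
/-- the chart ring represents chart points -/
noncomputable def homEquiv (A : Type u) [CommRing A] [Algebra k A] :
    (ChartRing D →ₐ[k] A) ≃ ChartPt D A where
  toFun φ := (upt D).map φ
  invFun y := lift y
  left_inv _ := (eq_lift_of_map_upt rfl).symm
  right_inv y := map_lift_upt y

/-- the chart ring is of finite type -/
theorem finiteType [Algebra.FiniteType k B] : Algebra.FiniteType k (ChartRing D) := by
  classical
  obtain ⟨s, hs⟩ := Algebra.FiniteType.out (R := k) (A := B)
  -- finite set of generators
  let T : Finset (ChartRing D) :=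
    (s.biUnion fun b => Finset.univ.biUnion fun i : Fin n => Finset.univ.biUnion
      fun j : Fin n => (Finset.range (dg D b + 1)).image fun l => cx D (Sum.inl (b, i, j, l))) ∪
      Finset.univ.image (ulam D)
  refine ⟨⟨T, ?_⟩⟩
  set S := Algebra.adjoin k (T : Set (ChartRing D)) with hS
  -- entries of the universal representation have coefficients in S
  have hb : ∀ b : B, ∀ i j, ∀ l, (uρ D b i j).coeff l ∈ S := by
    intro b
    have hbm : b ∈ Algebra.adjoin k (s : Set B) := by rw [hs]; trivial
    induction hbm using Algebra.adjoin_induction with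
    | mem b hb =>
      intro i j l
      rw [uρ_apply, coeff_uent]
      by_cases hl : l ≤ dg D b
      · apply Algebra.subset_adjoin
        simp only [T, Finset.coe_union, Set.mem_union]
        left
        simp only [Finset.mem_coe, Finset.mem_biUnion, Finset.mem_univ, true_and,
          Finset.mem_image, Finset.mem_range]
        exact ⟨b, hb, i, j, l, by omega, rfl⟩
      · rw [cx_eq_zero (mem_dg b) i j (not_le.mp hl)]
        exact Subalgebra.zero_mem _
    | algebraMap c =>
      intro i j l
      rw [AlgHom.commutes, Matrix.algebraMap_matrix_apply]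
      split_ifs with h
      · rw [Polynomial.algebraMap_apply, coeff_C]
        split_ifs
        · exact Subalgebra.algebraMap_mem _ _
        · exact Subalgebra.zero_mem _
      · rw [coeff_zero]
        exact Subalgebra.zero_mem _
    | add b b' _ _ ih ih' =>
      intro i j l
      rw [map_add, Matrix.add_apply, coeff_add]
      exact Subalgebra.add_mem _ (ih i j l) (ih' i j l)
    | mul b b' _ _ ih ih' =>
      intro i j l
      rw [map_mul, Matrix.mul_apply, finsetSum_coeff]
      refine Subalgebra.sum_mem _ fun m _ => ?_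
      rw [coeff_mul]
      exact Subalgebra.sum_mem _ fun x _ => Subalgebra.mul_mem _ (ih i m _) (ih' m j _)
  rw [eq_top_iff]
  rintro a -
  obtain ⟨P, rfl⟩ := proj_surjective D a
  have h1 : proj D P = MvPolynomial.aeval (cx D) P := by
    have : proj D = MvPolynomial.aeval (cx D) := by
      apply MvPolynomial.algHom_ext
      intro v
      rw [MvPolynomial.aeval_X]; rfl
    rw [this]
  rw [h1]
  have h2 : ∀ v, cx D v ∈ S := by
    rintro (⟨b, i, j, l⟩ | i)
    · have := hb b i j l
      rwa [uρ_apply, coeff_uent] at this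
    · apply Algebra.subset_adjoin
      simp only [T, Finset.coe_union, Set.mem_union]
      right
      simp only [Finset.coe_image, Set.mem_image]
      exact ⟨i, by simp, rfl⟩
  rw [MvPolynomial.aeval_def, MvPolynomial.eval₂_eq]
  refine Subalgebra.sum_mem _ fun d _ => Subalgebra.mul_mem _ (Subalgebra.algebraMap_mem _ _)
    (Subalgebra.prod_mem _ fun v _ => Subalgebra.pow_mem _ (h2 v) _)

end ChartRing

/-- **S25-D4**: existence of a universal chart point over a finitely generated algebra. -/
theorem exists_universal_chartPt [Algebra.FiniteType k B] :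
    ∃ (R : Type u) (_ : CommRing R) (_ : Algebra k R), Algebra.FiniteType k R ∧
      ∃ x : ChartPt D R, ∀ (A : Type u) [CommRing A] [Algebra k A] (y : ChartPt D A),
        ∃! φ : R →ₐ[k] A, x.map φ = y :=
  ⟨ChartRing D, inferInstance, inferInstance, ChartRing.finiteType, ChartRing.upt D,
    fun _ _ _ y => ⟨ChartRing.lift y, ChartRing.map_lift_upt y,
      fun _ h => ChartRing.eq_lift_of_map_upt h⟩⟩

end ring

end Fermat.Agent.H45
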