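import Fermat.Agent.H10_P1Lat
import Fermat.Agent.H45Chart
/-!
# S25: lattices with an action of the coordinate ring: definitions (pure algebra)

`ActLat t F e A M` : a `P1Lat` over `A` on `M` with an action of a `k`-algebra `B` such that
`t` acts as `τ`, `b` maps `P` to `P` and, for `b ∈ F m`, `Q` to `τ^m Q`; and a functional `lam` on
`P` which is `B`-semilinear for the point `e : B → k`.

For an acyclic (`IsCompl P Q`) lattice: `V = P ∩ τ Q`, `b · v = ∑_j τ^j (mop b j v)`,
`evV : FreeAlgebra k (B × ℕ) → End_A V`, and the coordinate map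
`kap p : V → A^n, v ↦ (lam (evV (p i) v))_i`.
-/
set_option autoImplicit false
universe u v

noncomputable section

namespace Fermat.Agent.H25

open Fermat.Agent.H10.Lat

/-- A lattice on `P¹_A` with an action of `B`. -/
structure ActLat {k B : Type u} [Field k] [CommRing B] [Algebra k B] (t : B)
    (F : ℕ → Submodule k B) (e : B →ₐ[k] k) (A : Type u) [CommRing A] [Algebra k A]
    (M : Type v) [AddCommGroup M] [Module A M] [Module k M] [IsScalarTower k A M]
    extends P1Lat A M where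
  act : B →ₐ[k] Module.End A M
  act_t : ∀ x, act t x = τ x
  act_P : ∀ b, ∀ x ∈ P, act b x ∈ P
  act_Q : ∀ m, ∀ b ∈ F m, ∀ x ∈ Q, act b x ∈ toP1Lat.Qm m
  lam : P →ₗ[A] A
  lam_act : ∀ b (x : P), lam ⟨act b x, act_P b x x.2⟩ = algebraMap k A (e b) * lam x

namespace ActLat

variable {k B : Type u} [Field k] [CommRing B] [Algebra k B] {t : B}
    {F : ℕ → Submodule k B} {e : B →ₐ[k] k} {A : Type u} [CommRing A] [Algebra k A]
    {M : Type v} [AddCommGroup M] [Module A M] [Module k M] [IsScalarTower k A M]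
    (L : ActLat t F e A M)

/-- `V = P ∩ τQ` -/
abbrev V : Submodule A M := L.toP1Lat.K 1

variable (hc : IsCompl L.P L.Q)

/-- Horrocks: `(ℕ →₀ V) ≃ P` -/
def sumPEquiv : (ℕ →₀ L.V) ≃ₗ[A] L.P :=
  LinearEquiv.ofBijective (sumP L.toP1Lat) (sumP_bijective L.toP1Lat hc)

/-- the coefficient operators of the action of `b` on `V` : `b · v = ∑_j τ^j (mop b j v)`. -/
def mop (b : B) (j : ℕ) : L.V →ₗ[A] L.V :=
  (Finsupp.lapply j) ∘ₗ (L.sumPEquiv hc).symm.toLinearMap ∘ₗ
    LinearMap.codRestrict L.P ((L.act b) ∘ₗ L.V.subtype) (fun v => L.act_P b _ v.2.1)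

/-- all the coefficients of `b · v` -/
def mops (b : B) (v : L.V) : ℕ →₀ L.V :=
  (L.sumPEquiv hc).symm ⟨L.act b v, L.act_P b _ v.2.1⟩

lemma mop_apply (b : B) (j : ℕ) (v : L.V) : L.mop hc b j v = L.mops hc b v j := rfl

lemma sumP_mops (b : B) (v : L.V) :
    sumP L.toP1Lat (L.mops hc b v) = ⟨L.act b v, L.act_P b _ v.2.1⟩ :=
  (L.sumPEquiv hc).apply_symm_apply _

lemma act_eq (b : B) (v : L.V) :
    L.act b v = (L.mops hc b v).sum fun j w => (L.τ ^ j) (w : M) := by
  have := congrArg Subtype.val (L.sumP_mops hc b v)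
  rw [coe_sumP] at this
  exact this.symm

/-- if `b · v = ∑ τ^j f_j` then `f = mops b v`. -/
lemma mops_eq (b : B) (v : L.V) (f : ℕ →₀ L.V)
    (hf : L.act b v = f.sum fun j w => (L.τ ^ j) (w : M)) : L.mops hc b v = f := by
  apply (sumP_bijective L.toP1Lat hc).1
  apply Subtype.ext
  rw [sumP_mops, coe_sumP]
  exact hf

/-- evaluation of noncommutative polynomials at the operators `mop b j` -/
def evV : FreeAlgebra k (B × ℕ) →ₐ[k] Module.End A L.V :=
  FreeAlgebra.lift k fun x => L.mop hc x.1 x.2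

@[simp] lemma evV_ι (x : B × ℕ) : L.evV hc (FreeAlgebra.ι k x) = L.mop hc x.1 x.2 := by
  simp [evV]

/-- the functional `lam` restricted to `V` -/
def lamV : L.V →ₗ[A] A := L.lam ∘ₗ Submodule.inclusion inf_le_left

lemma lamV_apply (v : L.V) : L.lamV v = L.lam ⟨v, v.2.1⟩ := rfl

/-- the coordinate map attached to `n` noncommutative polynomials -/
def kap {n : ℕ} (p : Fin n → FreeAlgebra k (B × ℕ)) : L.V →ₗ[A] (Fin n → A) :=
  LinearMap.pi fun i => L.lamV ∘ₗ L.evV hc (p i)

@[simp] lemma kap_apply {n : ℕ} (p : Fin n → FreeAlgebra k (B × ℕ)) (v : L.V) (i : Fin n) :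
    L.kap hc p v i = L.lamV (L.evV hc (p i) v) := rfl

end ActLat

end Fermat.Agent.H25
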