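import Fermat.Agent.H25Spine
import Fermat.Agent.H45Chart
import Fermat.Agent.H51Aff
/-!
# S25: matrix description of line bundles in a basic chart: definitions
-/
set_option autoImplicit false
universe u v
open CategoryTheory AlgebraicGeometry CategoryTheory.Limits TopologicalSpace Opposite Polynomial
open NeronModelInfra AlgebraicGeometry.RelPicard
open scoped Matrix

noncomputable section

namespace Fermat.Agent.H25

/-! ### the structure map -/

section strHom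
variable {R : Type u} [CommRing R] {X Y : Scheme.{u}}

lemma resO_strHom (y : Y ⟶ Spec (CommRingCat.of R)) {U V : Y.Opens} (h : V ≤ U) (r : R) :
    resO h (strHom y U r) = strHom y V r := by
  simp only [resO, strHom]
  rw [CommRingCat.hom_comp, CommRingCat.hom_comp, RingHom.comp_apply, RingHom.comp_apply]
  have := Scheme.Hom.appLE_map y (V := U) (V' := V) (U := ⊤) (le_top : U ≤ y ⁻¹ᵁ ⊤) (homOfLE h).op
  exact congr($this ((Scheme.ΓSpecIso (CommRingCat.of R)).inv r))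

lemma app_strHom (f : X ⟶ Y) (y : Y ⟶ Spec (CommRingCat.of R)) (U : Y.Opens) (r : R) :
    f.app U (strHom y U r) = strHom (f ≫ y) (f ⁻¹ᵁ U) r := by
  simp only [strHom]
  rw [CommRingCat.hom_comp, CommRingCat.hom_comp, RingHom.comp_apply, RingHom.comp_apply,
    ← Scheme.Hom.appLE_comp_appLE f y ⊤ U (f ⁻¹ᵁ U) le_top le_rfl, Scheme.Hom.app_eq_appLE]
  rfl

lemma ΓSpecIso_hom_strHom (r : R) {W : (Spec (CommRingCat.of R)).Opens} (h : ⊤ ≤ W) :
    (Scheme.ΓSpecIso (CommRingCat.of R)).hom (resO h (strHom (𝟙 (Spec (CommRingCat.of R))) W r)) =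
      r := by
  rw [resO_strHom]
  have h1 : Scheme.Hom.appLE (𝟙 (Spec (CommRingCat.of R))) ⊤ ⊤ le_top = 𝟙 _ := by
    have h2 := Scheme.Hom.appLE_eq_app (𝟙 (Spec (CommRingCat.of R))) (U := ⊤)
    rw [Scheme.Hom.id_app] at h2
    exact h2
  simp only [strHom]
  rw [h1, Category.comp_id]
  exact congr($((Scheme.ΓSpecIso (CommRingCat.of R)).inv_hom_id) r)

end strHom

/-! ### affine base schemes over `k` -/

/-- `Spec A ⟶ Spec k` -/
abbrev spm (k A : Type u) [CommRing k] [CommRing A] [Algebra k A] :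
    Spec (CommRingCat.of A) ⟶ Spec (CommRingCat.of k) :=
  Spec.map (CommRingCat.ofHom (algebraMap k A))

/-- `Spec A' ⟶ Spec A` over `k`, for a `k`-algebra hom `A → A'` -/
abbrev spa {k A A' : Type u} [CommRing k] [CommRing A] [Algebra k A] [CommRing A'] [Algebra k A']
    (φ : A →ₐ[k] A') : SchemeHomOver (spm k A') (spm k A) :=
  ⟨Spec.map (CommRingCat.ofHom φ.toRingHom), by
    rw [← Spec.map_comp, ← CommRingCat.ofHom_comp]
    congr 2
    exact φ.comp_algebraMap⟩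

section

variable {k : Type u} [Field k] {C : Scheme.{u}} {c : C ⟶ Spec (CommRingCat.of k)}

/-- the coordinate ring of the first chart, as a `k`-algebra -/
def TwoChart.B0 (τ : TwoChart c) : Type u := Γ(C, τ.U)

instance (τ : TwoChart c) : CommRing τ.B0 := inferInstanceAs (CommRing Γ(C, τ.U))

instance (τ : TwoChart c) : Algebra k τ.B0 := (strHom c τ.U).toAlgebra

/-- an element of `B0` as a function -/
def TwoChart.fn (τ : TwoChart c) : τ.B0 →+* Γ(C, τ.U) := RingHom.id _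

lemma TwoChart.fn_algebraMap (τ : TwoChart c) (a : k) :
    τ.fn (algebraMap k τ.B0 a) = strHom c τ.U a := rfl

lemma TwoChart.fn_smul (τ : TwoChart c) (a : k) (b : τ.B0) :
    τ.fn (a • b) = strHom c τ.U a * τ.fn b := rfl

/-- restriction to `U ∩ V` of functions on `U` -/
abbrev TwoChart.rU (τ : TwoChart c) (b : Γ(C, τ.U)) : Γ(C, τ.U ⊓ τ.V) := resO inf_le_left b

/-- restriction to `U ∩ V` of functions on `V` -/
abbrev TwoChart.rV (τ : TwoChart c) (b : Γ(C, τ.V)) : Γ(C, τ.U ⊓ τ.V) := resO inf_le_right b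

/-- functions on `U` with a pole of order `≤ m` at infinity -/
def TwoChart.F (τ : TwoChart c) (m : ℕ) : Submodule k τ.B0 where
  carrier := {b | ∃ y : Γ(C, τ.V), τ.rV y = τ.rV τ.s ^ m * τ.rU (τ.fn b)}
  zero_mem' := ⟨0, by simp⟩
  add_mem' := by
    rintro a b ⟨y, hy⟩ ⟨y', hy'⟩
    exact ⟨y + y', by simp only [resO_add, map_add, hy, hy', mul_add]⟩
  smul_mem' := by
    rintro a b ⟨y, hy⟩
    refine ⟨strHom c τ.V a * y, ?_⟩
    rw [τ.fn_smul]
    simp only [resO_mul, hy, resO_strHom]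
    ring

lemma TwoChart.mem_F (τ : TwoChart c) (m : ℕ) (b : τ.B0) :
    b ∈ τ.F m ↔ ∃ y : Γ(C, τ.V), τ.rV y = τ.rV τ.s ^ m * τ.rU (τ.fn b) := Iff.rfl

lemma TwoChart.exh (τ : TwoChart c) (b : τ.B0) : ∃ m, b ∈ τ.F m := by
  obtain ⟨n, x, hx⟩ := H51Aff.resO_surj τ.affV τ.s τ.basic_s.symm inf_le_right (τ.rU (τ.fn b))
  exact ⟨n, x, hx⟩

variable {ε : SchemeHomOver (𝟙 (Spec (CommRingCat.of k))) c}

/-- evaluation at the rational point `ε ∈ U` -/
def TwoChart.eval (τ : TwoChart c) (hε : ε.1 ⁻¹ᵁ τ.U = ⊤) : τ.B0 →ₐ[k] k where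
  toRingHom := ((Scheme.ΓSpecIso (CommRingCat.of k)).hom.hom.comp
    ((resOHom hε.ge).comp (ε.1.app τ.U).hom)).comp τ.fn
  commutes' a := by
    simp only [RingHom.toMonoidHom_eq_coe, OneHom.toFun_eq_coe, MonoidHom.toOneHom_coe,
      MonoidHom.coe_coe, RingHom.comp_apply, resOHom_apply]
    rw [τ.fn_algebraMap, app_strHom]
    have h : ∀ (y : Spec (CommRingCat.of k) ⟶ Spec (CommRingCat.of k)) (_ : y = 𝟙 _)
      (W : (Spec (CommRingCat.of k)).Opens) (hW : ⊤ ≤ W),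
        (Scheme.ΓSpecIso (CommRingCat.of k)).hom.hom (resO hW (strHom y W a)) = a := by
      rintro y rfl W hW
      exact ΓSpecIso_hom_strHom a hW
    exact h _ ε.2 _ _

/-- the data of a basic chart -/
def TwoChart.chartData (τ : TwoChart c) (hε : ε.1 ⁻¹ᵁ τ.U = ⊤)
    (p : Fin τ.n → FreeAlgebra k (τ.B0 × ℕ)) : H45.ChartData k τ.B0 τ.n where
  t := τ.t
  F := τ.F
  exh := τ.exh
  e := τ.eval hε
  p := p

/-! ### charts over an algebra -/

variable (τ : TwoChart c) (A : Type u) [CommRing A] [Algebra k A]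

/-- the first chart of `C_A` -/
abbrev TwoChart.UA : (pullback c (spm k A)).Opens := pullback.fst c (spm k A) ⁻¹ᵁ τ.U

/-- the second chart of `C_A` -/
abbrev TwoChart.VA : (pullback c (spm k A)).Opens := pullback.fst c (spm k A) ⁻¹ᵁ τ.V

variable {A}

/-- Data identifying a rigidified line bundle `M` on `C_A` with the bundle given by the matrix
data `x = (ρ, λ)`. -/
structure RepData (hε : ε.1 ⁻¹ᵁ τ.U = ⊤) (p : Fin τ.n → FreeAlgebra k (τ.B0 × ℕ))
    (M : RigidifiedLineBundle c ε (spm k A)) (x : H45.ChartPt (τ.chartData hε p) A) where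
  /-- the identification of sections over `U` -/
  θ0 : (Fin τ.n → A[X]) ≃+ Γ(M.L, τ.UA A)
  /-- the identification of sections over `V` -/
  θ1 : (Fin τ.n → A[X]) ≃+ Γ(M.L, τ.VA A)
  /-- the rigidification -/
  ℓ : Γ((Scheme.Modules.pullback (rigSection c (spm k A) ε)).obj M.L, ⊤)
  ℓ_gen : IsGen _ ℓ
  θ0_C : ∀ (a : A) (v : Fin τ.n → A[X]),
    θ0 (Polynomial.C a • v) = strHom (pullback.snd c (spm k A)) (τ.UA A) a • θ0 v
  θ0_B : ∀ (b : τ.B0) (v : Fin τ.n → A[X]),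
    θ0 (x.ρ b *ᵥ v) = (pullback.fst c (spm k A)).app τ.U (τ.fn b) • θ0 v
  θ1_C : ∀ (a : A) (v : Fin τ.n → A[X]),
    θ1 (Polynomial.C a • v) = strHom (pullback.snd c (spm k A)) (τ.VA A) a • θ1 v
  θ1_X : ∀ (v : Fin τ.n → A[X]),
    θ1 ((X : A[X]) • v) = (pullback.fst c (spm k A)).app τ.V τ.s • θ1 v
  θ01 : ∀ v : Fin τ.n → A,
    res M.L (inf_le_right : τ.UA A ⊓ τ.VA A ≤ τ.VA A) (θ1 fun i => Polynomial.C (v i)) =
      resO (inf_le_right : τ.UA A ⊓ τ.VA A ≤ τ.VA A) ((pullback.fst c (spm k A)).app τ.V τ.s) •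
        res M.L (inf_le_left : τ.UA A ⊓ τ.VA A ≤ τ.UA A) (θ0 fun i => Polynomial.C (v i))
  θ0_ℓ : ∀ v : Fin τ.n → A,
    pb (rigSection c (spm k A) ε) M.L (θ0 fun i => Polynomial.C (v i)) =
      strHom (𝟙 (Spec (CommRingCat.of A))) (rigSection c (spm k A) ε ⁻¹ᵁ τ.UA A)
        (∑ i, x.lam i * v i) • res _ le_top ℓ

/-- `M` is (isomorphic to) the bundle given by the matrix data `x`. -/
def Rep (hε : ε.1 ⁻¹ᵁ τ.U = ⊤) (p : Fin τ.n → FreeAlgebra k (τ.B0 × ℕ))
    (M : RigidifiedLineBundle c ε (spm k A)) (x : H45.ChartPt (τ.chartData hε p) A) : Prop :=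
  Nonempty (RepData τ hε p M x)

/-- `H⁰ = H¹ = 0` in terms of the two charts. -/
structure Acyc (L : (pullback c (spm k A)).Modules) : Prop where
  h0 : ∀ (x : Γ(L, τ.UA A)) (y : Γ(L, τ.VA A)),
    res L (inf_le_left : τ.UA A ⊓ τ.VA A ≤ τ.UA A) x =
      res L (inf_le_right : τ.UA A ⊓ τ.VA A ≤ τ.VA A) y → x = 0
  h1 : ∀ z : Γ(L, τ.UA A ⊓ τ.VA A), ∃ (x : Γ(L, τ.UA A)) (y : Γ(L, τ.VA A)),
    z = res L (inf_le_left : τ.UA A ⊓ τ.VA A ≤ τ.UA A) x +
      res L (inf_le_right : τ.UA A ⊓ τ.VA A ≤ τ.VA A) y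

end

end Fermat.Agent.H25
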