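import Fermat.Agent.H25Lat
import Fermat.Agent.H25Rep
import Fermat.Agent.H21Pic
/-!
# S25: classes of rigidified bundles, Euler characteristics and acyclicity of classes
-/
set_option autoImplicit false
universe u v
open CategoryTheory AlgebraicGeometry CategoryTheory.Limits TopologicalSpace Opposite Polynomial
open NeronModelInfra AlgebraicGeometry.RelPicard

noncomputable section

namespace Fermat.Agent.H25

open H21T

variable {k : Type u} [Field k] {C : Scheme.{u}} {c : C ⟶ Spec (CommRingCat.of k)}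
  {ε : SchemeHomOver (𝟙 (Spec (CommRingCat.of k))) c}

/-! ### classes -/

section cl

variable {T T' : Scheme.{u}} {t : T ⟶ Spec (CommRingCat.of k)} {t' : T' ⟶ Spec (CommRingCat.of k)}

/-- the class of a rigidified line bundle in the Picard group of `C_T` -/
def cl (M : RigidifiedLineBundle c ε t) : SPic (pullback c t) := SPic.mk M.L M.isInvertible

lemma cl_eq_iff {M M' : RigidifiedLineBundle c ε t} : cl M = cl M' ↔ Nonempty (M.L ≅ M'.L) :=
  SPic.mk_eq_mk

lemma cl_pullbackAlong (M : RigidifiedLineBundle c ε t) (g : SchemeHomOver t' t) :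
    cl (M.pullbackAlong g) = SPic.map (baseChangeSnd c g) (cl M) := rfl

lemma cl_rig (M : RigidifiedLineBundle c ε t) : SPic.map (rigSection c t ε) (cl M) = 1 := by
  rw [cl, SPic.map_mk, SPic.mk_eq_one_iff]
  exact M.rigidified

lemma exists_cl (α : SPic (pullback c t)) (h : SPic.map (rigSection c t ε) α = 1) :
    ∃ M : RigidifiedLineBundle c ε t, cl M = α := by
  induction α using SPic.ind with | _ L hL
  rw [SPic.map_mk, SPic.mk_eq_one_iff] at h
  exact ⟨⟨L, hL, h⟩, rfl⟩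

lemma cl_unit : cl (RigidifiedLineBundle.unit (c := c) (ε := ε) t) = 1 := rfl

end cl

/-- invertible modules over a one-point scheme are trivial -/
lemma spic_spec_field (K : Type u) [Field K] (α : SPic (Spec (CommRingCat.of K))) : α = 1 := by
  induction α using SPic.ind with | _ L hL
  rw [SPic.mk_eq_one_iff_exists]
  obtain ⟨U, hxU, s, hs⟩ := (isInvertible_iff L).mp hL (IsLocalRing.closedPoint K)
  have hU : U = ⊤ := by
    rw [eq_top_iff]
    intro y _
    have : y = IsLocalRing.closedPoint K := Subsingleton.elim _ _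
    rw [this]
    exact hxU
  subst hU
  exact ⟨s, hs⟩

section bcl

variable {T T' : Scheme.{u}} {t : T ⟶ Spec (CommRingCat.of k)} {t' : T' ⟶ Spec (CommRingCat.of k)}

/-- the pull back to `C_T` of a class on `C` -/
def bcl (t : T ⟶ Spec (CommRingCat.of k)) : SPic C →* SPic (pullback c t) :=
  SPic.map (pullback.fst c t)

lemma map_bcl (g : SchemeHomOver t' t) (ν : SPic C) :
    SPic.map (baseChangeSnd c g) (bcl t ν) = bcl t' ν := by
  rw [bcl, bcl, ← SPic.map_comp_apply, baseChangeSnd_fst]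

lemma rig_bcl (ν : SPic C) : SPic.map (rigSection c t ε) (bcl t ν) = 1 := by
  have h : rigSection c t ε ≫ pullback.fst c t = t ≫ ε.1 := pullback.lift_fst _ _ _
  rw [bcl, ← SPic.map_comp_apply, h, SPic.map_comp_apply,
    spic_spec_field k (SPic.map ε.1 ν), map_one]

/-- the twist of a rigidified bundle by a class on `C` -/
def tw (M : RigidifiedLineBundle c ε t) (ν : SPic C) : RigidifiedLineBundle c ε t :=
  (exists_cl (ε := ε) (cl M * bcl t ν) (by rw [map_mul, cl_rig, rig_bcl, mul_one])).choose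

@[simp] lemma cl_tw (M : RigidifiedLineBundle c ε t) (ν : SPic C) :
    cl (tw M ν) = cl M * bcl t ν :=
  (exists_cl (ε := ε) (cl M * bcl t ν) (by rw [map_mul, cl_rig, rig_bcl, mul_one])).choose_spec

lemma cl_tw_pullbackAlong (M : RigidifiedLineBundle c ε t) (ν : SPic C) (g : SchemeHomOver t' t) :
    cl ((tw M ν).pullbackAlong g) = cl (M.pullbackAlong g) * bcl t' ν := by
  rw [cl_pullbackAlong, cl_tw, map_mul, map_bcl, cl_pullbackAlong]

end bcl

/-- the twist of a Picard chart by a class on `C` -/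
def PicChart.twist (𝒞 : PicChart c ε) (ν : SPic C) : PicChart c ε where
  X := 𝒞.X
  x := 𝒞.x
  L := tw 𝒞.L ν⁻¹
  locus t M := 𝒞.locus t (tw M ν)
  locus_spec t M T' t' g := by
    rw [← 𝒞.locus_spec]
    refine exists_congr fun h => ?_
    rw [← cl_eq_iff, ← cl_eq_iff, cl_tw_pullbackAlong, cl_tw_pullbackAlong, map_inv,
      mul_inv_eq_iff_eq_mul]
  mono t h h' hh := by
    apply 𝒞.mono
    rw [← cl_eq_iff] at hh ⊢
    rw [cl_tw_pullbackAlong, cl_tw_pullbackAlong] at hh
    exact mul_right_cancel hh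

@[simp] lemma PicChart.twist_X (𝒞 : PicChart c ε) (ν : SPic C) : (𝒞.twist ν).X = 𝒞.X := rfl
@[simp] lemma PicChart.twist_x (𝒞 : PicChart c ε) (ν : SPic C) : (𝒞.twist ν).x = 𝒞.x := rfl
lemma PicChart.twist_locus (𝒞 : PicChart c ε) (ν : SPic C) {T : Scheme.{u}}
    (t : T ⟶ Spec (CommRingCat.of k)) (M : RigidifiedLineBundle c ε t) :
    (𝒞.twist ν).locus t M = 𝒞.locus t (tw M ν) := rfl

/-! ### Euler characteristic and acyclicity of classes -/

section chi

variable (τ : TwoChart c)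

/-- Euler characteristic of a class on `C_K` -/
def chiP {K : Type u} [Field K] (z : Spec (CommRingCat.of K) ⟶ Spec (CommRingCat.of k)) :
    SPic (pullback c z) → ℤ :=
  Quotient.lift (fun L => chiL (H51Pb.baseChange τ z) L.1 L.2) (fun L L' h =>
    (chiL_congr L.2 L'.2 rfl rfl (resO_self _ _).symm h.some).symm)

lemma chiP_mk {K : Type u} [Field K] (z : Spec (CommRingCat.of K) ⟶ Spec (CommRingCat.of k))
    (L : (pullback c z).Modules) (hL : Scheme.Modules.IsInvertible L) :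
    chiP τ z (SPic.mk L hL) = chiL (H51Pb.baseChange τ z) L hL := rfl

/-- acyclicity of a class on `C_A` -/
def AcycP {A : Type u} [CommRing A] (z : Spec (CommRingCat.of A) ⟶ Spec (CommRingCat.of k))
    (α : SPic (pullback c z)) : Prop :=
  ∃ (L : (pullback c z).Modules) (hL : Scheme.Modules.IsInvertible L), α = SPic.mk L hL ∧
    IsCompl (latOf (H51Pb.baseChange τ z) L hL).P (latOf (H51Pb.baseChange τ z) L hL).Q

lemma app_of_eq {X Y Z : Scheme.{u}} {g : X ⟶ Y} {f : Y ⟶ Z} {h : X ⟶ Z} (e : g ≫ f = h)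
    {U : Z.Opens} (hle : h ⁻¹ᵁ U ≤ g ⁻¹ᵁ (f ⁻¹ᵁ U)) (s : Γ(Z, U)) :
    h.app U s = resO hle (g.app _ (f.app U s)) := by
  subst e
  exact (resO_self (U := g ⁻¹ᵁ f ⁻¹ᵁ U) hle _).symm

section bcs

variable {A A' : Type u} [CommRing A] [CommRing A']
    {z : Spec (CommRingCat.of A) ⟶ Spec (CommRingCat.of k)}
    {z' : Spec (CommRingCat.of A') ⟶ Spec (CommRingCat.of k)} (g : SchemeHomOver z' z)

lemma bcs_U : (H51Pb.baseChange τ z').U = baseChangeSnd c g ⁻¹ᵁ (H51Pb.baseChange τ z).U := by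
  change pullback.fst c z' ⁻¹ᵁ τ.U = baseChangeSnd c g ⁻¹ᵁ (pullback.fst c z ⁻¹ᵁ τ.U)
  rw [← baseChangeSnd_fst c g]; rfl

lemma bcs_V : (H51Pb.baseChange τ z').V = baseChangeSnd c g ⁻¹ᵁ (H51Pb.baseChange τ z).V := by
  change pullback.fst c z' ⁻¹ᵁ τ.V = baseChangeSnd c g ⁻¹ᵁ (pullback.fst c z ⁻¹ᵁ τ.V)
  rw [← baseChangeSnd_fst c g]; rfl

lemma bcs_t : (H51Pb.baseChange τ z').t = resO (bcs_U τ g).le
    ((baseChangeSnd c g).app _ (H51Pb.baseChange τ z).t) :=
  app_of_eq (baseChangeSnd_fst c g) _ _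

end bcs

lemma chiP_map {K K' : Type u} [Field K] [Field K']
    {z : Spec (CommRingCat.of K) ⟶ Spec (CommRingCat.of k)}
    {z' : Spec (CommRingCat.of K') ⟶ Spec (CommRingCat.of k)} (g : SchemeHomOver z' z)
    (α : SPic (pullback c z)) : chiP τ z' (SPic.map (baseChangeSnd c g) α) = chiP τ z α := by
  induction α using SPic.ind with | _ L hL
  rw [SPic.map_mk, chiP_mk, chiP_mk]
  exact chiL_baseChange (H51Pb.baseChange τ z) hL (isPullback_baseChangeSnd c g)
    (H51Pb.baseChange τ z') (bcs_U τ g) (bcs_V τ g) (bcs_t τ g) _ (Iso.refl _)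

lemma AcycP.map {A A' : Type u} [CommRing A] [CommRing A']
    {z : Spec (CommRingCat.of A) ⟶ Spec (CommRingCat.of k)}
    {z' : Spec (CommRingCat.of A') ⟶ Spec (CommRingCat.of k)} (g : SchemeHomOver z' z)
    {α : SPic (pullback c z)} (h : AcycP τ z α) :
    AcycP τ z' (SPic.map (baseChangeSnd c g) α) := by
  obtain ⟨L, hL, rfl, h⟩ := h
  exact ⟨_, isInvertible_pullback _ hL, rfl, isCompl_latOf_baseChange (isPullback_baseChangeSnd c g)
    (H51Pb.baseChange τ z) (H51Pb.baseChange τ z') (bcs_U τ g) (bcs_V τ g) (bcs_t τ g) hL _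
    (Iso.refl _) h⟩

lemma idSqA {A : Type u} [CommRing A] {Y : Scheme.{u}} (y : Y ⟶ Spec (CommRingCat.of A)) :
    IsPullback (𝟙 Y) y y (𝟙 _) :=
  IsPullback.of_horiz_isIso ⟨by simp⟩

lemma idSqA_t {A : Type u} [CommRing A] {Y : Scheme.{u}} {y : Y ⟶ Spec (CommRingCat.of A)}
    (σ : TwoChart y) : σ.t = resO (le_refl σ.U) ((𝟙 Y : Y ⟶ Y).app σ.U σ.t) :=
  (resO_self (U := σ.U) le_rfl σ.t).symm

lemma acycP_mk {A : Type u} [CommRing A] {z : Spec (CommRingCat.of A) ⟶ Spec (CommRingCat.of k)}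
    {L : (pullback c z).Modules} (hL : Scheme.Modules.IsInvertible L) :
    AcycP τ z (SPic.mk L hL) ↔
      IsCompl (latOf (H51Pb.baseChange τ z) L hL).P (latOf (H51Pb.baseChange τ z) L hL).Q := by
  refine ⟨?_, fun h => ⟨L, hL, rfl, h⟩⟩
  rintro ⟨L', hL', h, h'⟩
  rw [SPic.mk_eq_mk] at h
  exact isCompl_latOf_baseChange (idSqA (pullback.snd c z)) (H51Pb.baseChange τ z)
    (H51Pb.baseChange τ z) rfl rfl (idSqA_t _) hL' hL
    ((Scheme.Modules.pullbackId _).app L' ≪≫ h.some.symm) h'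

lemma AcycP.chi {K : Type u} [Field K] {z : Spec (CommRingCat.of K) ⟶ Spec (CommRingCat.of k)}
    {α : SPic (pullback c z)} (h : AcycP τ z α) : chiP τ z α = 0 := by
  obtain ⟨L, hL, rfl, h⟩ := h
  exact chiL_eq_zero_of_isCompl _ hL h

/-- comparison with `Acyc` -/
lemma acyc_iff {A : Type u} [CommRing A] [Algebra k A] (M : RigidifiedLineBundle c ε (spm k A)) :
    Acyc τ M.L ↔ AcycP τ (spm k A) (cl M) := by
  rw [cl, acycP_mk]
  constructor
  · rintro ⟨h0, h1⟩
    constructor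
    · rw [disjoint_iff, eq_bot_iff]
      rintro z ⟨⟨x, rfl⟩, ⟨y, hy⟩⟩
      have h2 := h0 x.s y.s (congrArg Sec.s hy).symm
      change _ = _
      apply Sec.ext
      rw [Sec.resL_s, h2]
      exact res_zero _ _
    · rw [codisjoint_iff, eq_top_iff]
      rintro z -
      obtain ⟨x, y, hxy⟩ := h1 z.s
      have : z = Sec.resL _ _ inf_le_left (toSec x) + Sec.resL _ _ inf_le_right (toSec y) :=
        Sec.ext hxy
      rw [this]
      exact Submodule.add_mem_sup ⟨_, rfl⟩ ⟨_, rfl⟩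
  · rintro ⟨h0, h1⟩
    constructor
    · intro x y hxy
      let x' : Sec (pullback.snd c (spm k A)) M.L (H51Pb.baseChange τ (spm k A)).U := toSec x
      let y' : Sec (pullback.snd c (spm k A)) M.L (H51Pb.baseChange τ (spm k A)).V := toSec y
      have h2 : Sec.resL (pullback.snd c (spm k A)) M.L inf_le_left x' = 0 :=
        (disjoint_iff.mp h0).le ⟨⟨x', rfl⟩, ⟨y', Sec.ext hxy.symm⟩⟩
      have h3 : res M.L (inf_le_left : τ.UA A ⊓ τ.VA A ≤ τ.UA A) x = res M.L inf_le_left 0 :=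
        (congrArg Sec.s h2).trans (res_zero _ _).symm
      exact resU_injective (H51Pb.baseChange τ (spm k A)) M.isInvertible h3
    · intro z
      let z' : Sec (pullback.snd c (spm k A)) M.L
        ((H51Pb.baseChange τ (spm k A)).U ⊓ (H51Pb.baseChange τ (spm k A)).V) := toSec z
      have h2 : z' ∈ _ := (codisjoint_iff.mp h1).ge (Submodule.mem_top)
      obtain ⟨_, ⟨x, rfl⟩, _, ⟨y, rfl⟩, h3⟩ := Submodule.mem_sup.mp h2
      exact ⟨x.s, y.s, (congrArg Sec.s h3).symm⟩

end chi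

end Fermat.Agent.H25
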