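import Fermat.Agent.H25Pb
set_option autoImplicit false
/-!
# S25: line bundles from cocycles (job A2, part 1)
* `SecData`, `SecData.mk'`: elementary construction of a sheaf of modules on a scheme
* `exists_cocycle_module`
-/
universe u v
open CategoryTheory AlgebraicGeometry CategoryTheory.Limits TopologicalSpace Opposite

namespace Fermat.Agent.H25

variable {X Y Z : Scheme.{u}}

/-- Elementary description of a sheaf of modules on a scheme. -/
structure SecData (X : Scheme.{u}) where
  S : X.Opens → Type u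
  [grp : ∀ U, AddCommGroup (S U)]
  [mod : ∀ U, Module Γ(X, U) (S U)]
  r : ∀ {U V : X.Opens} (_ : V ≤ U), S U →+ S V
  r_self : ∀ {U : X.Opens} (h : U ≤ U) (x : S U), r h x = x
  r_r : ∀ {U V W : X.Opens} (h : V ≤ U) (h' : W ≤ V) (x : S U), r h' (r h x) = r (h'.trans h) x
  r_smul : ∀ {U V : X.Opens} (h : V ≤ U) (a : Γ(X, U)) (x : S U), r h (a • x) = resO h a • r h x
  ext : ∀ {ι : Type u} (U : ι → X.Opens) (x y : S (⨆ i, U i)),
    (∀ i, r (le_iSup U i) x = r (le_iSup U i) y) → x = y
  glue : ∀ {ι : Type u} (U : ι → X.Opens) (x : ∀ i, S (U i)),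
    (∀ i j, r (inf_le_left : U i ⊓ U j ≤ U i) (x i) = r (inf_le_right : U i ⊓ U j ≤ U j) (x j)) →
      ∃ y : S (⨆ i, U i), ∀ i, r (le_iSup U i) y = x i

attribute [instance] SecData.grp SecData.mod

namespace SecData

variable (D : SecData X)

/-- the underlying presheaf of abelian groups -/
def psh : TopCat.Presheaf Ab X where
  obj U := AddCommGrpCat.of (D.S U.unop)
  map i := AddCommGrpCat.ofHom (D.r (leOfHom i.unop))
  map_id U := by
    ext x
    exact D.r_self _ x
  map_comp i j := by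
    ext x
    exact (D.r_r _ _ x).symm

noncomputable def pmod : PresheafOfModules.{u} X.ringCatSheaf.obj :=
  letI : ∀ U : (Opens X)ᵒᵖ, Module (X.ringCatSheaf.obj.obj U) (D.psh.obj U) :=
    fun U ↦ D.mod U.unop
  PresheafOfModules.ofPresheaf (R := X.ringCatSheaf.obj) D.psh (fun _ _ f a x ↦
    D.r_smul (leOfHom f.unop) a x)

lemma psh_isSheaf : TopCat.Presheaf.IsSheaf D.psh := by
  rw [TopCat.Presheaf.isSheaf_iff_isSheafUniqueGluing]
  intro ι U sf hsf
  obtain ⟨y, hy⟩ := D.glue U sf (fun i j ↦ hsf i j)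
  exact ⟨y, hy, fun z hz ↦ D.ext U z y fun i ↦ (hz i).trans (hy i).symm⟩

/-- the sheaf of modules -/
noncomputable def mk' : X.Modules := ⟨D.pmod, D.psh_isSheaf⟩

/-- sections of `D.mk'` -/
def toSec {U : X.Opens} (x : D.S U) : Γ(D.mk', U) := x
def ofSec {U : X.Opens} (x : Γ(D.mk', U)) : D.S U := x

@[simp] lemma toSec_ofSec {U : X.Opens} (x : Γ(D.mk', U)) : D.toSec (D.ofSec x) = x := rfl
@[simp] lemma ofSec_toSec {U : X.Opens} (x : D.S U) : D.ofSec (D.toSec x) = x := rfl
lemma toSec_smul {U : X.Opens} (a : Γ(X, U)) (x : D.S U) : D.toSec (a • x) = a • D.toSec x := rfl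
lemma toSec_add {U : X.Opens} (y x : D.S U) : D.toSec (y + x) = D.toSec y + D.toSec x := rfl
lemma toSec_r {U V : X.Opens} (h : V ≤ U) (x : D.S U) :
    D.toSec (D.r h x) = res _ h (D.toSec x) := rfl
lemma ofSec_smul {U : X.Opens} (a : Γ(X, U)) (x : Γ(D.mk', U)) :
    D.ofSec (a • x) = a • D.ofSec x := rfl
lemma ofSec_add {U : X.Opens} (y x : Γ(D.mk', U)) : D.ofSec (y + x) = D.ofSec y + D.ofSec x := rfl
lemma ofSec_res {U V : X.Opens} (h : V ≤ U) (x : Γ(D.mk', U)) :
    D.ofSec (res _ h x) = D.r h (D.ofSec x) := rfl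

end SecData

section Cocycle

variable {ι : Type u} (U : ι → X.Opens) (g : ∀ i j, Γ(X, U i ⊓ U j))

/-- local coordinates of sections of the line bundle with cocycle `g` -/
def CocSec (W : X.Opens) : AddSubgroup (∀ i, Γ(X, W ⊓ U i)) where
  carrier := {a | ∀ i j (V : X.Opens) (hW : V ≤ W) (hi : V ≤ U i) (hj : V ≤ U j),
    resO (le_inf hW hj) (a j) = resO (le_inf hW hi) (a i) * resO (le_inf hi hj) (g i j)}
  zero_mem' := fun i j V hW hi hj ↦ by simp
  add_mem' := fun {a b} ha hb i j V hW hi hj ↦ by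
    have h1 := ha i j V hW hi hj
    have h2 := hb i j V hW hi hj
    simp only [Pi.add_apply, resO_add, h1, h2, add_mul]
  neg_mem' := fun {a} ha i j V hW hi hj ↦ by
    have h1 := ha i j V hW hi hj
    simp only [Pi.neg_apply, resO_neg, h1, neg_mul]

noncomputable instance (W : X.Opens) : SMul Γ(X, W) (CocSec U g W) :=
  ⟨fun a x ↦ ⟨fun i ↦ resO inf_le_left a * x.1 i, fun i j V hW hi hj ↦ by
    simp only [resO_mul, resO_resO]
    rw [x.2 i j V hW hi hj, mul_assoc]⟩⟩

lemma cocSec_smul_val {W : X.Opens} (a : Γ(X, W)) (x : CocSec U g W) (i : ι) :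
    (a • x).1 i = resO inf_le_left a * x.1 i := rfl

noncomputable instance (W : X.Opens) : Module Γ(X, W) (CocSec U g W) where
  one_smul x := by ext i; simp [cocSec_smul_val]
  mul_smul a b x := by ext i; simp [cocSec_smul_val, mul_assoc]
  smul_zero a := by ext i; simp [cocSec_smul_val]
  smul_add a x y := by ext i; simp [cocSec_smul_val, mul_add]
  add_smul a b x := by ext i; simp [cocSec_smul_val, add_mul]
  zero_smul x := by ext i; simp [cocSec_smul_val]

/-- the line bundle of a cocycle, as section data -/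
noncomputable def cocData : SecData X where
  S W := CocSec U g W
  r {W V} h :=
    { toFun := fun x ↦ ⟨fun i ↦ resO (inf_le_inf_right _ h) (x.1 i), fun i j V' hW hi hj ↦ by
        simp only [resO_resO]
        exact x.2 i j V' (hW.trans h) hi hj⟩
      map_zero' := by ext i; simp
      map_add' := fun x y ↦ by ext i; simp }
  r_self h x := by ext i; simp
  r_r h h' x := by
    ext i
    simp only [AddMonoidHom.coe_mk, ZeroHom.coe_mk, resO_resO]
  r_smul h a x := by
    ext i
    simp only [AddMonoidHom.coe_mk, ZeroHom.coe_mk, cocSec_smul_val, resO_mul, resO_resO]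
  ext {κ} W x y h := by
    ext i
    refine secO_ext (fun k ↦ W k ⊓ U i) (fun k ↦ inf_le_inf_right _ (le_iSup W k)) ?_ ?_
    · rw [iSup_inf_eq]
    · intro k
      have := congrArg (fun z ↦ z.1 i) (h k)
      simpa only [AddMonoidHom.coe_mk, ZeroHom.coe_mk, resO_resO] using this
  glue {κ} W x h := by
    have h1 : ∀ i, ∃ y : Γ(X, (⨆ k, W k) ⊓ U i), ∀ k,
        resO (inf_le_inf_right _ (le_iSup W k) : W k ⊓ U i ≤ (⨆ k, W k) ⊓ U i) y = (x k).1 i := by
      intro i
      refine secO_glue (fun k ↦ W k ⊓ U i) (fun k ↦ inf_le_inf_right _ (le_iSup W k)) ?_ _ ?_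
      · rw [iSup_inf_eq]
      · intro k l V hk hl
        have h2 := congrArg (fun z ↦ z.1 i) (h k l)
        simp only [AddMonoidHom.coe_mk, ZeroHom.coe_mk] at h2
        have h3 := congrArg (resO (le_inf (le_inf (hk.trans inf_le_left) (hl.trans inf_le_left))
          (hk.trans inf_le_right) : V ≤ (W k ⊓ W l) ⊓ U i)) h2
        simpa only [resO_resO] using h3
    choose y hy using h1
    refine ⟨⟨y, ?_⟩, ?_⟩
    · intro i j V hW hi hj
      refine secO_ext (fun k ↦ V ⊓ W k) (fun k ↦ inf_le_left) (inf_cover hW) ?_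
      intro k
      have h2 := (x k).2 i j (V ⊓ W k) inf_le_right (inf_le_left.trans hi) (inf_le_left.trans hj)
      rw [← hy, ← hy] at h2
      simpa only [resO_resO, resO_mul] using h2
    · intro k
      ext i
      exact hy i k

end Cocycle

theorem exists_cocycle_module {ι : Type u} (U : ι → X.Opens)
    (g : ∀ i j, (Γ(X, U i ⊓ U j))ˣ)
    (hg : ∀ i j k (W : X.Opens) (hi : W ≤ U i) (hj : W ≤ U j) (hk : W ≤ U k),
      resO (le_inf hi hj) (g i j).1 * resO (le_inf hj hk) (g j k).1 =
        resO (le_inf hi hk) (g i k).1) :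
    ∃ (M : X.Modules) (s : ∀ i, Γ(M, U i)), (∀ i, IsGen M (s i)) ∧
      ∀ i j, res M inf_le_left (s i) = (g i j).1 • res M inf_le_right (s j) := by
  have hgii : ∀ i (W : X.Opens) (h : W ≤ U i ⊓ U i), resO h (g i i).1 = 1 := by
    intro i W h
    have h1 := hg i i i W (h.trans inf_le_left) (h.trans inf_le_left) (h.trans inf_le_left)
    have hu : IsUnit (resO h (g i i).1) := (g i i).isUnit.map (resOHom h)
    exact hu.mul_left_cancel (by rw [mul_one]; exact h1)
  let D := cocData U (fun i j ↦ (g i j).1)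
  let σ : ∀ i, D.S (U i) := fun i ↦ ⟨fun j ↦ (g i j).1, fun j k V hW hi hj ↦
    (hg i j k V hW hi hj).symm⟩
  refine ⟨D.mk', fun i ↦ D.toSec (σ i), ?_, ?_⟩
  · intro i V hV
    constructor
    · intro a b hab
      have h1 : a • D.r hV (σ i) = b • D.r hV (σ i) := hab
      have h2 : resO (inf_le_left : V ⊓ U i ≤ V) a * resO (inf_le_inf_right _ hV) (g i i).1 =
        resO (inf_le_left : V ⊓ U i ≤ V) b * resO (inf_le_inf_right _ hV) (g i i).1 :=
        congrArg (fun z : CocSec U (fun i j ↦ (g i j).1) V ↦ z.1 i) h1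
      rw [hgii, mul_one, mul_one] at h2
      have h3 := congrArg (resO (le_inf le_rfl hV : V ≤ V ⊓ U i)) h2
      simpa only [resO_resO, resO_self] using h3
    · intro x
      refine ⟨resO (le_inf le_rfl hV : V ≤ V ⊓ U i) ((D.ofSec x).1 i), ?_⟩
      change D.toSec (_ • D.r hV (σ i)) = D.toSec (D.ofSec x)
      congr 1
      refine Subtype.ext (funext fun j ↦ ?_)
      have h1 := (D.ofSec x).2 i j (V ⊓ U j) inf_le_left (inf_le_left.trans hV) inf_le_right
      rw [resO_self] at h1
      rw [h1]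
      change resO _ (resO _ _) * resO _ (g i j).1 = _
      rw [resO_resO]
  · intro i j
    change D.toSec (D.r (inf_le_left : U i ⊓ U j ≤ U i) (σ i)) =
      D.toSec ((g i j).1 • D.r (inf_le_right : U i ⊓ U j ≤ U j) (σ j))
    congr 1
    refine Subtype.ext (funext fun k ↦ ?_)
    exact (hg i j k ((U i ⊓ U j) ⊓ U k) (inf_le_left.trans inf_le_left)
      (inf_le_left.trans inf_le_right) inf_le_right).symm

end Fermat.Agent.H25
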