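import Fermat.Agent.H25Lat
/-!
# S25: index of linear maps
-/
set_option autoImplicit false
universe u v
open CategoryTheory AlgebraicGeometry CategoryTheory.Limits TopologicalSpace Opposite Polynomial

noncomputable section

namespace Fermat.Agent.H25

section Index

variable {K : Type*} [Field K] {X Y Z : Type*} [AddCommGroup X] [Module K X] [AddCommGroup Y]
  [Module K Y] [AddCommGroup Z] [Module K Z]

/-- finite-dimensional kernel and cokernel -/
structure Fred (f : X →ₗ[K] Y) : Prop where
  ker : Module.Finite K (LinearMap.ker f)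
  coker : Module.Finite K (Y ⧸ LinearMap.range f)

/-- the index of a linear map -/
def ind (f : X →ₗ[K] Y) : ℤ :=
  (Module.finrank K (LinearMap.ker f) : ℤ) - Module.finrank K (Y ⧸ LinearMap.range f)

lemma finrank_lemA {S T : Submodule K X} (h : S ≤ T) [Module.Finite K (X ⧸ S)] :
    Module.finrank K (X ⧸ S) = Module.finrank K (X ⧸ T) + Module.finrank K (T.map S.mkQ) := by
  have h1 := Submodule.finrank_quotient_add_finrank (T.map S.mkQ)
  have h2 : Module.finrank K ((X ⧸ S) ⧸ T.map S.mkQ) = Module.finrank K (X ⧸ T) :=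
    (Submodule.quotientQuotientEquivQuotient S T h).finrank_eq
  rw [← h1, h2]

lemma finrank_lemB (h : X →ₗ[K] Y) (S : Submodule K X) [Module.Finite K S] :
    Module.finrank K S = Module.finrank K (S.map h) +
      Module.finrank K (S ⊓ LinearMap.ker h : Submodule K X) := by
  have h1 := LinearMap.finrank_range_add_finrank_ker (h.domRestrict S)
  have h2 : LinearMap.range (h.domRestrict S) = S.map h := LinearMap.range_domRestrict S h
  have h3 : Module.finrank K (LinearMap.ker (h.domRestrict S)) =
      Module.finrank K (S ⊓ LinearMap.ker h : Submodule K X) := by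
    have h4 : (LinearMap.ker (h.domRestrict S)).map S.subtype = S ⊓ LinearMap.ker h := by
      rw [LinearMap.domRestrict, LinearMap.ker_comp, Submodule.map_comap_subtype]
    rw [← h4]
    exact (Submodule.equivMapOfInjective S.subtype S.subtype_injective _).finrank_eq
  rw [h2, h3] at h1
  exact h1.symm

theorem Fred.comp {f : X →ₗ[K] Y} {g : Y →ₗ[K] Z} (hf : Fred f) (hg : Fred g) :
    Fred (g ∘ₗ f) ∧ ind (g ∘ₗ f) = ind g + ind f := by
  have := hf.ker
  have := hf.coker
  have := hg.ker
  have := hg.coker
  have hF : Module.Finite K (LinearMap.ker (g ∘ₗ f)) := by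
    rw [Module.Finite.iff_fg]
    refine Submodule.fg_of_fg_map_of_fg_inf_ker f ?_ ?_
    · rw [LinearMap.ker_comp, Submodule.map_comap_eq]
      have : Module.Finite K (LinearMap.range f ⊓ LinearMap.ker g : Submodule K Y) :=
        Submodule.finiteDimensional_of_le inf_le_right
      exact Module.Finite.iff_fg.mp this
    · have : Module.Finite K (LinearMap.ker (g ∘ₗ f) ⊓ LinearMap.ker f : Submodule K X) :=
        Submodule.finiteDimensional_of_le inf_le_right
      exact Module.Finite.iff_fg.mp this
  have hle : LinearMap.range (g ∘ₗ f) ≤ LinearMap.range g := LinearMap.range_comp_le_range f g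
  let q := (LinearMap.range (g ∘ₗ f)).mkQ
  have hq : (LinearMap.range g).map q = LinearMap.range (q ∘ₗ g) :=
    (LinearMap.range_comp g q).symm
  have hker : LinearMap.ker (q ∘ₗ g) = LinearMap.range f ⊔ LinearMap.ker g := by
    rw [LinearMap.ker_comp, Submodule.ker_mkQ, LinearMap.range_comp, Submodule.comap_map_eq]
  have hE : Module.Finite K ((LinearMap.range g).map q) := by
    let l : (Y ⧸ LinearMap.range f) →ₗ[K] _ := (LinearMap.range f).liftQ (q ∘ₗ g)
      (le_sup_left.trans hker.ge)
    have h2 : LinearMap.range l = LinearMap.range (q ∘ₗ g) := Submodule.range_liftQ _ _ _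
    rw [hq, ← h2]
    infer_instance
  have hG : Module.Finite K (Z ⧸ LinearMap.range (g ∘ₗ f)) := by
    have h1 : Module.Finite K ((Z ⧸ LinearMap.range (g ∘ₗ f)) ⧸ (LinearMap.range g).map q) :=
      Module.Finite.equiv (Submodule.quotientQuotientEquivQuotient _ _ hle).symm
    exact Module.Finite.of_submodule_quotient ((LinearMap.range g).map q)
  refine ⟨⟨hF, hG⟩, ?_⟩
  -- kernels
  have e1 := finrank_lemB f (LinearMap.ker (g ∘ₗ f))
  have e1' : LinearMap.ker (g ∘ₗ f) ⊓ LinearMap.ker f = LinearMap.ker f :=
    inf_eq_right.mpr (LinearMap.ker_le_ker_comp f g)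
  have e1'' : (LinearMap.ker (g ∘ₗ f)).map f = LinearMap.range f ⊓ LinearMap.ker g := by
    rw [LinearMap.ker_comp, Submodule.map_comap_eq]
  rw [e1', e1''] at e1
  -- cokernel of the composition
  have e2 := finrank_lemA hle
  have e2' : Module.finrank K ((LinearMap.range g).map (LinearMap.range (g ∘ₗ f)).mkQ) =
      Module.finrank K (Y ⧸ (LinearMap.range f ⊔ LinearMap.ker g)) := by
    change Module.finrank K ((LinearMap.range g).map q) = _
    rw [hq, ← hker]
    exact (LinearMap.quotKerEquivRange (q ∘ₗ g)).finrank_eq.symm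
  rw [e2'] at e2
  -- cokernel of `f`
  have e3 := finrank_lemA (le_sup_left : LinearMap.range f ≤ LinearMap.range f ⊔ LinearMap.ker g)
  have e3' : (LinearMap.range f ⊔ LinearMap.ker g).map (LinearMap.range f).mkQ =
      (LinearMap.ker g).map (LinearMap.range f).mkQ := by
    rw [Submodule.map_sup, Submodule.mkQ_map_self, bot_sup_eq]
  have e4 := finrank_lemB (LinearMap.range f).mkQ (LinearMap.ker g)
  rw [Submodule.ker_mkQ, inf_comm] at e4
  rw [e3'] at e3
  simp only [ind]
  omega

end Index

end Fermat.Agent.H25
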