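import Fermat.Agent.H25Eff1
import Fermat.Agent.H25Chi
import Fermat.Agent.H20TwCurve
import Fermat.Agent.H74F1
/-!
# S25: Euler characteristic of a twist by a rational point
-/
set_option autoImplicit false
universe u v
open CategoryTheory AlgebraicGeometry CategoryTheory.Limits TopologicalSpace Opposite Polynomial

noncomputable section

namespace Fermat.Agent.H25

open H21T H20T

section Eval

variable {K : Type u} [Field K] {Z : Scheme.{u}} {z : Z ⟶ Spec (CommRingCat.of K)}
  (γ : Spec (CommRingCat.of K) ⟶ Z)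

/-- pullback of sections along a section of `z`, as a linear map -/
def pbS (z : Z ⟶ Spec (CommRingCat.of K)) (γ : Spec (CommRingCat.of K) ⟶ Z) (M : Z.Modules)
    (W : Z.Opens) : Sec z M W →ₗ[K]
      Sec (γ ≫ z) ((Scheme.Modules.pullback γ).obj M) (γ ⁻¹ᵁ W) where
  toFun x := toSec (pb γ M x.s)
  map_add' x x' := by rw [Sec.s_add, pb_add]; rfl
  map_smul' a x := by
    rw [Sec.s_smul, pb_smul, app_strHom]
    rfl

lemma pbS_s (M : Z.Modules) (W : Z.Opens) (x : Sec z M W) : (pbS z γ M W x).s = pb γ M x.s := rfl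

lemma opens_spec_field (W : (Spec (CommRingCat.of K)).Opens) : W = ⊥ ∨ W = ⊤ := by
  by_cases h : IsLocalRing.closedPoint K ∈ W
  · right
    rw [eq_top_iff]
    intro y _
    have : y = IsLocalRing.closedPoint K := Subsingleton.elim _ _
    rw [this]; exact h
  · left
    rw [eq_bot_iff]
    intro y hy
    have : y = IsLocalRing.closedPoint K := Subsingleton.elim _ _
    rw [this] at hy; exact (h hy).elim

lemma strHom_id_bijective : Function.Bijective
    (strHom (𝟙 (Spec (CommRingCat.of K))) (⊤ : (Spec (CommRingCat.of K)).Opens)) := by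
  have h1 : ∀ r : K, (Scheme.ΓSpecIso (CommRingCat.of K)).hom
      (strHom (𝟙 (Spec (CommRingCat.of K))) (⊤ : (Spec (CommRingCat.of K)).Opens) r) = r := by
    intro r
    have := ΓSpecIso_hom_strHom r (le_refl (⊤ : (Spec (CommRingCat.of K)).Opens))
    rwa [resO_self] at this
  constructor
  · intro a b hab
    rw [← h1 a, ← h1 b, hab]
  · intro f
    refine ⟨(Scheme.ΓSpecIso (CommRingCat.of K)).hom f, ?_⟩
    have h2 : Function.Injective (Scheme.ΓSpecIso (CommRingCat.of K)).hom :=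
      (ConcreteCategory.bijective_of_isIso _).1
    exact h2 (h1 _)

lemma finrank_sec_top {y : Spec (CommRingCat.of K) ⟶ Spec (CommRingCat.of K)} (hy : y = 𝟙 _)
    {N : (Spec (CommRingCat.of K)).Modules} (hN : Scheme.Modules.IsInvertible N)
    {W : (Spec (CommRingCat.of K)).Opens} (hW : W = ⊤) :
    Module.finrank K (Sec y N W) = 1 := by
  subst hy hW
  have h1 : SPic.mk N hN = 1 := spic_spec_field K _
  rw [SPic.mk_eq_one_iff_exists] at h1
  obtain ⟨ℓ, hℓ⟩ := h1
  rw [finrank_eq_one_iff']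
  refine ⟨toSec ℓ, ?_, fun w => ?_⟩
  · intro h0
    have h2 : (1 : Γ(Spec (CommRingCat.of K), ⊤)) = 0 := by
      apply hℓ.inj
      rw [zero_smul, one_smul]
      exact h0
    have h3 : (strHom (𝟙 (Spec (CommRingCat.of K))) (⊤ : (Spec (CommRingCat.of K)).Opens)) 1 =
      (strHom (𝟙 (Spec (CommRingCat.of K))) (⊤ : (Spec (CommRingCat.of K)).Opens)) 0 := by
      rw [map_one, map_zero, h2]
    exact one_ne_zero (strHom_id_bijective.1 h3)
  · obtain ⟨f, hf⟩ := hℓ.surj w.s
    obtain ⟨a, rfl⟩ := strHom_id_bijective.2 f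
    exact ⟨a, hf.symm⟩

lemma exists_pb_ne_zero {W : Z.Opens} (hW : IsAffineOpen W) {M : Z.Modules}
    (hM : Scheme.Modules.IsInvertible M) (hγ : γ ⁻¹ᵁ W = ⊤) : ∃ s : Γ(M, W), pb γ M s ≠ 0 := by
  let p : Z := γ (IsLocalRing.closedPoint K)
  have hp : p ∈ W := by
    have : IsLocalRing.closedPoint K ∈ γ ⁻¹ᵁ W := by rw [hγ]; trivial
    exact this
  obtain ⟨V, hV, hpV, m, hm⟩ := exists_isGen_of_mem hM hp
  obtain ⟨f, hf, hpf⟩ := hW.exists_basicOpen_le ⟨p, hpV⟩ hp
  obtain ⟨n, x, hx⟩ := H51Aff.res_surj hW hM f (W := Z.basicOpen f) rfl (Z.basicOpen_le f)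
    (res M hf m)
  refine ⟨x, fun h0 => ?_⟩
  have h1 : pb γ M (res M (Z.basicOpen_le f) x) = 0 := by
    rw [pb_res, h0, res_zero]
  rw [hx] at h1
  have hu : IsUnit (resO (Z.basicOpen_le f) f) := H51Aff.isUnit_resO f le_rfl _
  have h2 : IsGen M ((resO (Z.basicOpen_le f) f) ^ n • res M hf m) :=
    (hm.res hf).unit_smul (hu.pow n)
  have h3 := h2.pb γ M
  rw [h1] at h3
  have h4 : (1 : Γ(Spec (CommRingCat.of K), γ ⁻¹ᵁ Z.basicOpen f)) = 0 := by
    apply h3.inj
    rw [smul_zero, smul_zero]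
  have h5 : γ ⁻¹ᵁ Z.basicOpen f = ⊤ := by
    rcases opens_spec_field (γ ⁻¹ᵁ Z.basicOpen f) with h | h
    · have : IsLocalRing.closedPoint K ∈ γ ⁻¹ᵁ Z.basicOpen f := hpf
      rw [h] at this
      exact this.elim
    · exact h
  have h6 : Nonempty (γ ⁻¹ᵁ Z.basicOpen f : (Spec (CommRingCat.of K)).Opens) := ⟨⟨_, hpf⟩⟩
  exact one_ne_zero h4

end Eval

section Index2

variable {K : Type u} [Field K] {Z : Scheme.{u}} {z : Z ⟶ Spec (CommRingCat.of K)}

/-- a morphism of modules on sections -/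
def homS (z : Z ⟶ Spec (CommRingCat.of K)) {L M : Z.Modules} (φ : L ⟶ M) (W : Z.Opens) :
    Sec z L W →ₗ[K] Sec z M W where
  toFun x := toSec (φ.app W x.s)
  map_add' x x' := by rw [Sec.s_add, map_add]; rfl
  map_smul' a x := by
    rw [Sec.s_smul, app_smul']
    rfl

lemma homS_s {L M : Z.Modules} (φ : L ⟶ M) (W : Z.Opens) (x : Sec z L W) :
    (homS z φ W x).s = φ.app W x.s := rfl

lemma homS_res {L M : Z.Modules} (φ : L ⟶ M) {W W' : Z.Opens} (h : W' ≤ W) (x : Sec z L W) :
    homS z φ W' (Sec.resL z L h x) = Sec.resL z M h (homS z φ W x) :=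
  Sec.ext (app_res φ h x.s)

lemma ind_of_injective {X Y : Type*} [AddCommGroup X] [Module K X] [AddCommGroup Y] [Module K Y]
    {f : X →ₗ[K] Y} (hf : Function.Injective f) :
    ind f = - (Module.finrank K (Y ⧸ LinearMap.range f) : ℤ) := by
  rw [ind, LinearMap.ker_eq_bot.mpr hf, finrank_bot]
  simp

/-- `1` if `γ ∈ W` and `0` otherwise -/
def wt (γ : Spec (CommRingCat.of K) ⟶ Z) (W : Z.Opens) : ℤ :=
  open scoped Classical in if γ (IsLocalRing.closedPoint K) ∈ W then 1 else 0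

lemma preimage_eq_top {γ : Spec (CommRingCat.of K) ⟶ Z} {W : Z.Opens}
    (h : γ (IsLocalRing.closedPoint K) ∈ W) : γ ⁻¹ᵁ W = ⊤ := by
  rcases opens_spec_field (γ ⁻¹ᵁ W) with h' | h'
  · have : IsLocalRing.closedPoint K ∈ γ ⁻¹ᵁ W := h
    rw [h'] at this
    exact this.elim
  · exact h'

lemma preimage_eq_bot {γ : Spec (CommRingCat.of K) ⟶ Z} {W : Z.Opens}
    (h : γ (IsLocalRing.closedPoint K) ∉ W) : γ ⁻¹ᵁ W = ⊥ := by
  rcases opens_spec_field (γ ⁻¹ᵁ W) with h' | h'
  · exact h'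
  · have : IsLocalRing.closedPoint K ∈ γ ⁻¹ᵁ W := by rw [h']; trivial
    exact (h this).elim

theorem fred_tw {γ : Spec (CommRingCat.of K) ⟶ Z} (hγ : γ ≫ z = 𝟙 _) {L M : Z.Modules}
    (hM : Scheme.Modules.IsInvertible M) {φ : L ⟶ M} (hφ : TwHom γ φ) {W : Z.Opens}
    (hW : IsAffineOpen W) : Fred (homS z φ W) ∧ ind (homS z φ W) = - wt γ W := by
  have hinj : Function.Injective (homS z φ W) := fun x y h => (hφ W).1 h
  have hr : LinearMap.range (homS z φ W) = LinearMap.ker (pbS z γ M W) := by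
    ext x
    exact (hφ W).2 x
  have h0 : LinearMap.ker (homS z φ W) = ⊥ := LinearMap.ker_eq_bot.mpr hinj
  by_cases h : γ (IsLocalRing.closedPoint K) ∈ W
  · have hW' := preimage_eq_top h
    have h1 := finrank_sec_top (y := γ ≫ z) hγ (isInvertible_pullback γ hM) hW'
    have hfin : Module.Finite K (Sec (γ ≫ z) ((Scheme.Modules.pullback γ).obj M) (γ ⁻¹ᵁ W)) :=
      Module.finite_of_finrank_eq_succ h1
    have hsurj : Function.Surjective (pbS z γ M W) := by
      rw [← LinearMap.range_eq_top]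
      obtain ⟨s, hs⟩ := exists_pb_ne_zero γ hW hM hW'
      have h2 := (Submodule.one_le_finrank_iff (S := LinearMap.range (pbS z γ M W))).mpr (by
        intro hbot
        have : pbS z γ M W (toSec s) ∈ LinearMap.range (pbS z γ M W) := ⟨_, rfl⟩
        rw [hbot] at this
        exact hs this)
      exact Submodule.eq_top_of_finrank_eq (le_antisymm (Submodule.finrank_le _) (by rw [h1]; exact h2))
    let e := (pbS z γ M W).quotKerEquivOfSurjective hsurj
    have h3 : Module.Finite K (Sec z M W ⧸ LinearMap.range (homS z φ W)) := by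
      rw [hr]
      exact Module.Finite.equiv e.symm
    refine ⟨⟨by rw [h0]; infer_instance, h3⟩, ?_⟩
    rw [ind_of_injective hinj, hr, e.finrank_eq, h1, wt, if_pos h]
    rfl
  · have hW' := preimage_eq_bot h
    have h2 : LinearMap.range (homS z φ W) = ⊤ := by
      rw [hr, LinearMap.ker_eq_top]
      ext x
      apply Sec.ext
      have : ∀ a b : Γ((Scheme.Modules.pullback γ).obj M, γ ⁻¹ᵁ W), a = b := by
        rw [hW']
        intro a b
        exact sec_ext (ι := Empty) (fun i => i.elim) (fun i => i.elim) bot_le (fun i => i.elim)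
      exact this _ _
    refine ⟨⟨by rw [h0]; infer_instance, by rw [h2]; infer_instance⟩, ?_⟩
    rw [ind_of_injective hinj, h2, Module.finrank_zero_of_subsingleton, wt, if_neg h]
    simp

theorem Fred.prod {X Y X' Y' : Type*} [AddCommGroup X] [Module K X] [AddCommGroup Y] [Module K Y]
    [AddCommGroup X'] [Module K X'] [AddCommGroup Y'] [Module K Y']
    {f : X →ₗ[K] Y} {g : X' →ₗ[K] Y'} (hf : Fred f) (hg : Fred g)
    (hif : Function.Injective f) (hig : Function.Injective g) :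
    Fred (f.prodMap g) ∧ ind (f.prodMap g) = ind f + ind g := by
  have := hf.coker
  have := hg.coker
  have hi : Function.Injective (f.prodMap g) := by
    rw [LinearMap.coe_prodMap]
    exact hif.prodMap hig
  have hr : LinearMap.range (f.prodMap g) =
      (LinearMap.range f).prod (LinearMap.range g) := LinearMap.range_prodMap _ _
  let q := (LinearMap.range f).mkQ.prodMap (LinearMap.range g).mkQ
  have hq : Function.Surjective q := by
    rw [LinearMap.coe_prodMap]
    exact (Submodule.mkQ_surjective _).prodMap (Submodule.mkQ_surjective _)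
  have hk : LinearMap.ker q = LinearMap.range (f.prodMap g) := by
    rw [hr]
    ext ⟨a, b⟩
    rw [LinearMap.mem_ker, LinearMap.prodMap_apply, Prod.mk_eq_zero, Submodule.mem_prod,
      Submodule.mkQ_apply, Submodule.mkQ_apply, Submodule.Quotient.mk_eq_zero,
      Submodule.Quotient.mk_eq_zero]
  let e := q.quotKerEquivOfSurjective hq
  have h1 : Module.Finite K ((Y × Y') ⧸ LinearMap.range (f.prodMap g)) := by
    rw [← hk]; exact Module.Finite.equiv e.symm
  have h0 : LinearMap.ker (f.prodMap g) = ⊥ := LinearMap.ker_eq_bot.mpr hi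
  refine ⟨⟨by rw [h0]; infer_instance, h1⟩, ?_⟩
  rw [ind_of_injective hi, ind_of_injective hif, ind_of_injective hig, ← hk, e.finrank_eq,
    Module.finrank_prod]
  push_cast
  ring

variable (τ : TwoChart z)

/-- the Cech differential -/
def dif (τ : TwoChart z) (M : Z.Modules) : (Sec z M τ.U × Sec z M τ.V) →ₗ[K] Sec z M (τ.U ⊓ τ.V) :=
  (Sec.resL z M inf_le_left).coprod (- Sec.resL z M inf_le_right)

lemma dif_apply (M : Z.Modules) (x : Sec z M τ.U × Sec z M τ.V) :
    dif τ M x = Sec.resL z M inf_le_left x.1 - Sec.resL z M inf_le_right x.2 := by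
  rw [dif, LinearMap.coprod_apply, LinearMap.neg_apply, sub_eq_add_neg]

theorem fred_dif {M : Z.Modules} (hM : Scheme.Modules.IsInvertible M) :
    Fred (dif τ M) ∧ ind (dif τ M) = chiL τ M hM := by
  obtain ⟨h1, h2⟩ := chiL_finite τ hM
  have hr : LinearMap.range (dif τ M) = (latOf τ M hM).P ⊔ (latOf τ M hM).Q := by
    rw [dif, LinearMap.range_coprod, LinearMap.range_neg]
    rfl
  let e : LinearMap.ker (dif τ M) ≃ₗ[K] ((latOf τ M hM).P ⊓ (latOf τ M hM).Q :
      Submodule K (Sec z M (τ.U ⊓ τ.V))) := by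
    refine LinearEquiv.ofBijective (LinearMap.codRestrict _
      ((Sec.resL z M inf_le_left) ∘ₗ (LinearMap.fst K _ _) ∘ₗ (LinearMap.ker (dif τ M)).subtype) ?_) ?_
    · rintro ⟨⟨x, y⟩, hxy⟩
      rw [LinearMap.mem_ker, dif_apply, sub_eq_zero] at hxy
      exact ⟨⟨x, rfl⟩, ⟨y, hxy.symm⟩⟩
    · constructor
      · rw [injective_iff_map_eq_zero]
        rintro ⟨⟨x, y⟩, hxy⟩ h
        rw [LinearMap.mem_ker, dif_apply, sub_eq_zero] at hxy
        have h3 : Sec.resL z M inf_le_left x = 0 := congrArg Subtype.val h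
        have h4 : x = 0 := by
          apply Sec.ext
          exact resU_injective τ hM ((congrArg Sec.s h3).trans (res_zero _ _).symm)
        have h5 : y = 0 := by
          apply Sec.ext
          exact resV_injective τ hM ((congrArg Sec.s (hxy.symm.trans h3)).trans (res_zero _ _).symm)
        exact Subtype.ext (Prod.ext h4 h5)
      · rintro ⟨_, ⟨x, rfl⟩, ⟨y, hy⟩⟩
        refine ⟨⟨(x, y), ?_⟩, rfl⟩
        rw [LinearMap.mem_ker, dif_apply, sub_eq_zero]
        exact hy.symm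
  refine ⟨⟨Module.Finite.equiv e.symm, by rw [hr]; exact h2⟩, ?_⟩
  rw [ind, chiL, e.finrank_eq, hr]

theorem wt_sum {γ : Spec (CommRingCat.of K) ⟶ Z} :
    wt γ τ.U + wt γ τ.V = wt γ (τ.U ⊓ τ.V) + 1 := by
  classical
  have h : γ (IsLocalRing.closedPoint K) ∈ τ.U ∨ γ (IsLocalRing.closedPoint K) ∈ τ.V := by
    have : γ (IsLocalRing.closedPoint K) ∈ τ.U ⊔ τ.V := by rw [τ.cover]; trivial
    exact this
  have h' : γ (IsLocalRing.closedPoint K) ∈ τ.U ⊓ τ.V ↔
    γ (IsLocalRing.closedPoint K) ∈ τ.U ∧ γ (IsLocalRing.closedPoint K) ∈ τ.V := Iff.rfl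
  simp only [wt, h']
  by_cases h1 : γ (IsLocalRing.closedPoint K) ∈ τ.U <;>
    by_cases h2 : γ (IsLocalRing.closedPoint K) ∈ τ.V <;> simp_all

/-- **twisting by a rational point lowers the Euler characteristic by one** -/
theorem chiL_tw {γ : Spec (CommRingCat.of K) ⟶ Z} (hγ : γ ≫ z = 𝟙 _) {L M : Z.Modules}
    (hL : Scheme.Modules.IsInvertible L) (hM : Scheme.Modules.IsInvertible M)
    (h : IsTw γ L M) : chiL τ L hL = chiL τ M hM - 1 := by
  obtain ⟨φ, hφ⟩ := h
  obtain ⟨hU, iU⟩ := fred_tw hγ hM hφ τ.affU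
  obtain ⟨hV, iV⟩ := fred_tw hγ hM hφ τ.affV
  obtain ⟨hUV, iUV⟩ := fred_tw hγ hM hφ (isAffineOpen_inter τ)
  obtain ⟨hP, iP⟩ := hU.prod hV (fun x y h => (hφ _).1 h) (fun x y h => (hφ _).1 h)
  obtain ⟨hDM, iDM⟩ := fred_dif τ hM
  obtain ⟨hDL, iDL⟩ := fred_dif τ hL
  have hsq : dif τ M ∘ₗ (homS z φ τ.U).prodMap (homS z φ τ.V) =
      homS z φ (τ.U ⊓ τ.V) ∘ₗ dif τ L := by
    refine LinearMap.ext fun x => ?_
    rw [LinearMap.comp_apply, LinearMap.comp_apply, dif_apply, dif_apply, map_sub, homS_res,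
      homS_res]
    rfl
  have e1 := (hP.comp hDM).2
  have e2 := (hDL.comp hUV).2
  rw [hsq, e2, iP, iDM, iDL, iU, iV, iUV] at e1
  have := wt_sum τ (γ := γ)
  linarith

end Index2

end Fermat.Agent.H25
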