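import Fermat.Agent.H25Eff2
/-!
# S25: classes of points, effective classes
-/
set_option autoImplicit false
universe u v
open CategoryTheory AlgebraicGeometry CategoryTheory.Limits TopologicalSpace Opposite Polynomial
open NeronModelInfra AlgebraicGeometry.RelPicard

noncomputable section

namespace Fermat.Agent.H25

open H21T H20T

section TwTens

variable {X T : Scheme.{u}}

/-- `M ⊗ O(-γ) = M(-γ)` -/
theorem isTw_tens {γ : T ⟶ X} (hγ : IsCart γ) {M N P : X.Modules}
    (hM : Scheme.Modules.IsInvertible M) (hN : Scheme.Modules.IsInvertible N)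
    (h : IsTw γ N (uMod X)) (t : Tens M N P) : IsTw γ P M := by
  obtain ⟨ψ, hψ⟩ := h
  obtain ⟨φ, hφ, -⟩ := t.exists_lift hM hN ((Tens.unit M).toBiHom.precomp (𝟙 M) ψ)
  refine ⟨φ, TwHom.of_local fun p => ?_⟩
  obtain ⟨W, hpW, e, he⟩ := hγ p
  obtain ⟨V, hVW, hpV, s, hs⟩ := exists_isGen_of_mem hM hpW
  obtain ⟨n, hn, hn'⟩ := hψ.exists_gen (he.res hVW) (isGen_one V)
  refine ⟨V, hpV, fun V' hV' => twHom_local_of_gen (he.res hVW) (t.gen _ _ _ hs hn) hs ?_ V' hV'⟩
  rw [hφ]
  change uFun (ψ.app V n) • s = _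
  rw [hn', uFun_smul, uFun_uSec, mul_one]

theorem mk_eq_mul_of_isTw {γ : T ⟶ X} (hγ : IsCart γ) {L M N : X.Modules}
    {hL : Scheme.Modules.IsInvertible L} {hM : Scheme.Modules.IsInvertible M}
    {hN : Scheme.Modules.IsInvertible N} (h : IsTw γ N (uMod X)) (h' : IsTw γ L M) :
    SPic.mk L hL = SPic.mk M hM * SPic.mk N hN := by
  obtain ⟨P, hP, ⟨t⟩⟩ := exists_tens hM hN
  rw [SPic.mk_mul_mk t (hT := hP), SPic.mk_eq_mk]
  exact h'.uniq (isTw_tens hγ hM hN h t)

end TwTens

section Points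

variable {k : Type u} [Field k] [IsAlgClosed k] {C : Scheme.{u}} (c : C ⟶ Spec (CommRingCat.of k))
  [IsSeparated c] [SmoothOfRelativeDimension 1 c] [IsIntegral C]
  {T T' : Scheme.{u}} {t : T ⟶ Spec (CommRingCat.of k)} {t' : T' ⟶ Spec (CommRingCat.of k)}

theorem exists_diagMod : ∃ L : (pullback c c).Modules, Scheme.Modules.IsInvertible L ∧
    IsTw (graph (⟨𝟙 C, Category.id_comp c⟩ : SchemeHomOver c c)) L (uMod _) :=
  exists_isTw (isCart_graph _) (isInvertible_uMod _)

/-- the class of `O(-Δ)` -/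
def diagCl : SPic (pullback c c) := SPic.mk _ (exists_diagMod c).choose_spec.1

variable {c}

/-- the class of `O(-y)` on `C_T`, for `y : T ⟶ C` -/
def dcl (y : SchemeHomOver t c) : SPic (pullback c t) := SPic.map (baseChangeSnd c y) (diagCl c)

lemma dcl_map (y : SchemeHomOver t c) (ψ : SchemeHomOver t' t) :
    SPic.map (baseChangeSnd c ψ) (dcl y) = dcl (shComp ψ y) := by
  rw [dcl, dcl, ← SPic.map_comp_apply, baseChangeSnd_shComp]

lemma exists_dcl (y : SchemeHomOver t c) : ∃ (N : (pullback c t).Modules)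
    (hN : Scheme.Modules.IsInvertible N), dcl y = SPic.mk N hN ∧ IsTw (graph y) N (uMod _) := by
  have h1 := IsTw.graph_baseChange (exists_diagMod c).choose_spec.2 (isInvertible_uMod _) y
  have h2 : postComp (⟨𝟙 C, Category.id_comp c⟩ : SchemeHomOver c c) y = y :=
    Subtype.ext (Category.comp_id _)
  rw [h2] at h1
  exact ⟨_, isInvertible_pullback _ (exists_diagMod c).choose_spec.1, rfl,
    h1.of_iso (Iso.refl _) (Scheme.Modules.pullbackUnitIso _)⟩

/-- `[M(-y)] = [M] [O(-y)]` -/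
lemma mk_tw (y : SchemeHomOver t c) {L M : (pullback c t).Modules}
    (hL : Scheme.Modules.IsInvertible L) (hM : Scheme.Modules.IsInvertible M)
    (h : IsTw (graph y) L M) : SPic.mk L hL = SPic.mk M hM * dcl y := by
  obtain ⟨N, hN, h1, h2⟩ := exists_dcl y
  rw [h1]
  exact mk_eq_mul_of_isTw (isCart_graph y) h2 h

/-- `χ(α(-x)) = χ(α) - 1` -/
theorem chiP_mul_dcl (τ : TwoChart c) {K : Type u} [Field K]
    {z : Spec (CommRingCat.of K) ⟶ Spec (CommRingCat.of k)} (x : SchemeHomOver z c)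
    (α : SPic (pullback c z)) : chiP τ z (α * dcl x) = chiP τ z α - 1 := by
  induction α using SPic.ind with | _ M hM
  obtain ⟨L, hL, h⟩ := exists_isTw (isCart_graph x) hM
  rw [← mk_tw x hL hM h, chiP_mk, chiP_mk]
  exact chiL_tw _ (graph_snd x) hL hM h

end Points

end Fermat.Agent.H25
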