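import Fermat.Agent.H25Eff3
import Fermat.Agent.H10_RRPoints
import Fermat.Agent.H74F1Int
/-!
# S25: effective classes are products of classes of points
-/
set_option autoImplicit false
set_option linter.unusedSectionVars false
universe u v
open CategoryTheory AlgebraicGeometry CategoryTheory.Limits TopologicalSpace Opposite Polynomial
open NeronModelInfra AlgebraicGeometry.RelPicard

noncomputable section

namespace Fermat.Agent.H25

open H21T H20T

section Alg

/-- a nonzero element of an invertible module over a curve generates a submodule of finite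
codimension -/
theorem finite_coker_of_ne_zero {K : Type*} [Field K] {R : Type*} [CommRing R] [IsDomain R]
    [Algebra K R] {t : R} {n : ℕ} {b : Fin n → R}
    (hb : Function.Bijective (fun f : Fin n → K[X] => ∑ i, aeval t (f i) * b i))
    {P : Type*} [AddCommGroup P] [Module R P] [Module K P] [IsScalarTower K R P]
    [Module.Invertible R P] {s : P} (hs : s ≠ 0) (u : R →ₗ[K] P) (hu : ∀ r, u r = r • s) :
    Function.Injective u ∧ Module.Finite K (P ⧸ LinearMap.range u) := by
  obtain ⟨φ, hφ⟩ := H10.Inv.exists_dual_apply_ne_zero (R := R) hs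
  have htf : ∀ (a : R) (x : P), a ≠ 0 → a • x = 0 → x = 0 := by
    intro a x ha hax
    by_contra hx
    obtain ⟨ψ, hψ⟩ := H10.Inv.exists_dual_apply_ne_zero (R := R) hx
    have := congrArg ψ hax
    rw [map_smul, map_zero, smul_eq_mul] at this
    exact (mul_ne_zero ha hψ) this
  have hφi : ∀ x, φ x = 0 → x = 0 := by
    intro x hx
    have h1 := H10.Inv.dual_smul_comm φ s x
    rw [hx, zero_smul] at h1
    exact htf _ _ hφ h1
  refine ⟨?_, ?_⟩
  · rw [injective_iff_map_eq_zero]
    intro r hr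
    rw [hu] at hr
    by_contra hr0
    exact hs (htf r s hr0 hr)
  · have := H10.Lat.finite_quot_of_ne_zero hb hφ
    let q : P →ₗ[K] (R ⧸ Ideal.span {φ s}) :=
      (Ideal.Quotient.mkₐ K (Ideal.span {φ s})).toLinearMap ∘ₗ (φ.restrictScalars K)
    have hq : LinearMap.ker q = LinearMap.range u := by
      ext x
      rw [LinearMap.mem_ker]
      change Ideal.Quotient.mk _ (φ x) = 0 ↔ _
      rw [Ideal.Quotient.eq_zero_iff_mem, Ideal.mem_span_singleton']
      constructor
      · rintro ⟨a, ha⟩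
        refine ⟨a, ?_⟩
        rw [hu]
        rw [← sub_eq_zero]
        apply hφi
        rw [map_sub, map_smul, smul_eq_mul, ha, sub_self]
      · rintro ⟨a, rfl⟩
        exact ⟨a, by rw [hu, map_smul, smul_eq_mul]⟩
    rw [← hq]
    exact Module.Finite.equiv q.quotKerEquivRange.symm

end Alg

section Sections

variable {K : Type u} [Field K] {Z : Scheme.{u}} {z : Z ⟶ Spec (CommRingCat.of K)}

lemma nonempty_of_basis [IsIntegral Z] {W W' : Z.Opens} [Nonempty W] {t : Γ(Z, W)} {s : Γ(Z, W')}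
    {n : ℕ} {b : Fin n → Γ(Z, W)} {b' : Fin n → Γ(Z, W')}
    (hb : Function.Bijective (fun f : Fin n → K[X] => ∑ i, (f i).eval₂ (strHom z W) t * b i))
    (hb' : Function.Bijective (fun f : Fin n → K[X] => ∑ i, (f i).eval₂ (strHom z W') s * b' i)) :
    Nonempty W' := by
  have h1 : ∃ i : Fin n, True := by
    by_contra hcon
    push Not at hcon
    obtain ⟨f, hf⟩ := hb.2 1
    have : (0 : Γ(Z, W)) = 1 := by
      rw [← hf]
      exact (Finset.sum_eq_zero fun i _ => (hcon i).elim).symm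
    exact zero_ne_one this
  obtain ⟨i, -⟩ := h1
  by_contra hW
  have hbot : W' = ⊥ := by
    rw [eq_bot_iff]
    intro x hx
    exact (hW ⟨⟨x, hx⟩⟩).elim
  have : Subsingleton Γ(Z, W') := by
    rw [hbot]
    exact ⟨fun a b => secO_ext (ι := Empty) (fun i => i.elim) (fun i => i.elim) bot_le
      (fun i => i.elim)⟩
  have h2 := hb'.1 (a₁ := fun _ => (1 : K[X])) (a₂ := fun _ => (0 : K[X])) (Subsingleton.elim _ _)
  exact one_ne_zero (congrFun h2 i)

lemma twoChart_nonempty [IsIntegral Z] (τ : TwoChart z) : Nonempty τ.U ∧ Nonempty τ.V := by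
  obtain ⟨p⟩ : Nonempty Z := inferInstance
  have : p ∈ τ.U ⊔ τ.V := by rw [τ.cover]; trivial
  rcases this with h | h
  · have : Nonempty τ.U := ⟨⟨p, h⟩⟩
    exact ⟨this, nonempty_of_basis τ.basisU τ.basisV⟩
  · have : Nonempty τ.V := ⟨⟨p, h⟩⟩
    exact ⟨nonempty_of_basis τ.basisV τ.basisU, this⟩

/-- multiplication by a nonzero section on a chart -/
theorem fred_unitHom [IsIntegral Z] {W : Z.Opens} (hW : IsAffineOpen W) [Nonempty W] {t : Γ(Z, W)}
    {n : ℕ} {b : Fin n → Γ(Z, W)} (hb : Function.Bijective (fun f : Fin n → K[X] =>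
      ∑ i, (f i).eval₂ (strHom z W) t * b i))
    {M : Z.Modules} (hM : Scheme.Modules.IsInvertible M) {s : Γ(M, ⊤)}
    (hs : res M (le_top : W ≤ ⊤) s ≠ 0) :
    Fred (homS z (unitHom s) W) ∧ Function.Injective (homS z (unitHom s) W) := by
  let i1 : Algebra K Γ(Z, W) := (strHom z W).toAlgebra
  let i2 : Module Γ(Z, W) (Sec z M W) := inferInstanceAs (Module Γ(Z, W) Γ(M, W))
  have : IsScalarTower K Γ(Z, W) (Sec z M W) := ⟨fun a b x => by
    rw [Algebra.smul_def, mul_smul]; rfl⟩
  have hinv : Module.Invertible Γ(Z, W) (Sec z M W) := H51Aff.invertible hW hM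
  let u : Γ(Z, W) →ₗ[K] Sec z M W :=
    { toFun := fun r => toSec (r • res M (le_top : W ≤ ⊤) s)
      map_add' := fun a b => by rw [add_smul]; rfl
      map_smul' := fun a b => by
        rw [Algebra.smul_def, mul_smul]; rfl }
  have hfc := @finite_coker_of_ne_zero K _ Γ(Z, W) _ _ i1 t n b hb (Sec z M W) _ i2 _ _ hinv
    (toSec (res M (le_top : W ≤ ⊤) s)) hs u (fun r => rfl)
  obtain ⟨h1, h2⟩ := hfc
  have hinj : Function.Injective (homS z (unitHom s) W) := by
    intro x y hxy
    exact h1 hxy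
  refine ⟨⟨?_, ?_⟩, hinj⟩
  · rw [LinearMap.ker_eq_bot.mpr hinj]; infer_instance
  · have : LinearMap.range (homS z (unitHom s) W) = LinearMap.range u := by
      ext x
      constructor
      · rintro ⟨y, rfl⟩
        exact ⟨uFun y.s, rfl⟩
      · rintro ⟨y, rfl⟩
        exact ⟨toSec (uSec y), rfl⟩
    rw [this]
    exact h2

/-- nonzero global sections restrict to nonzero sections on the charts -/
lemma res_ne_zero [IsIntegral Z] (τ : TwoChart z) {M : Z.Modules}
    (hM : Scheme.Modules.IsInvertible M) {s : Γ(M, ⊤)} (hs : s ≠ 0) :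
    res M (le_top : τ.U ≤ ⊤) s ≠ 0 ∧ res M (le_top : τ.V ≤ ⊤) s ≠ 0 := by
  have key : res M (le_top : τ.U ⊓ τ.V ≤ ⊤) s ≠ 0 := by
    intro h
    have hU : res M (le_top : τ.U ≤ ⊤) s = 0 := resU_injective τ hM (by
      rw [res_res, res_zero]; exact h)
    have hV : res M (le_top : τ.V ≤ ⊤) s = 0 := resV_injective τ hM (by
      rw [res_res, res_zero]; exact h)
    apply hs
    refine sec_ext (fun b : Bool => if b then τ.U else τ.V) (fun _ => le_top) ?_ ?_
    · rw [← τ.cover]
      refine sup_le ?_ ?_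
      · exact le_iSup (fun b : Bool => if b then τ.U else τ.V) true
      · exact le_iSup (fun b : Bool => if b then τ.U else τ.V) false
    · rintro (_ | _)
      · rw [res_zero]; exact hV
      · rw [res_zero]; exact hU
  constructor
  · intro h
    apply key
    rw [← res_res M (le_top : τ.U ≤ ⊤) inf_le_left, h, res_zero]
  · intro h
    apply key
    rw [← res_res M (le_top : τ.V ≤ ⊤) inf_le_right, h, res_zero]

/-- the number of zeros (with multiplicity, counted on both charts) -/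
def nz (τ : TwoChart z) {M : Z.Modules} (s : Γ(M, ⊤)) : ℕ :=
  Module.finrank K (Sec z M τ.U ⧸ LinearMap.range (homS z (unitHom s) τ.U)) +
    Module.finrank K (Sec z M τ.V ⧸ LinearMap.range (homS z (unitHom s) τ.V))

lemma nz_tw [IsIntegral Z] (τ : TwoChart z) {γ : Spec (CommRingCat.of K) ⟶ Z} (hγ : γ ≫ z = 𝟙 _)
    {L M : Z.Modules} (hL : Scheme.Modules.IsInvertible L) (hM : Scheme.Modules.IsInvertible M)
    {φ : L ⟶ M} (hφ : TwHom γ φ) {l : Γ(L, ⊤)} (hl : l ≠ 0) :
    nz τ l < nz τ (φ.app ⊤ l) := by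
  obtain ⟨_, _⟩ := twoChart_nonempty τ
  obtain ⟨hlU, hlV⟩ := res_ne_zero τ hL hl
  have hs : φ.app ⊤ l ≠ 0 := fun h => hl ((hφ ⊤).1 (h.trans (map_zero _).symm))
  obtain ⟨hsU, hsV⟩ := res_ne_zero τ hM hs
  obtain ⟨a1, a2⟩ := fred_unitHom τ.affU τ.basisU hL hlU
  obtain ⟨b1, b2⟩ := fred_unitHom τ.affV τ.basisV hL hlV
  obtain ⟨-, a3⟩ := fred_unitHom τ.affU τ.basisU hM hsU
  obtain ⟨-, b3⟩ := fred_unitHom τ.affV τ.basisV hM hsV
  obtain ⟨c1, c2⟩ := fred_tw hγ hM hφ τ.affU
  obtain ⟨d1, d2⟩ := fred_tw hγ hM hφ τ.affV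
  have hcomp : ∀ W : Z.Opens, homS z (unitHom (φ.app ⊤ l)) W = homS z φ W ∘ₗ homS z (unitHom l) W := by
    intro W
    refine LinearMap.ext fun x => ?_
    apply Sec.ext
    change uFun x.s • res M le_top (φ.app ⊤ l) = φ.app W (uFun x.s • res L le_top l)
    rw [app_smul', app_res]
  have e1 := (a1.comp c1).2
  have e2 := (b1.comp d1).2
  rw [← hcomp, c2, ind_of_injective a2, ind_of_injective a3] at e1
  rw [← hcomp, d2, ind_of_injective b2, ind_of_injective b3] at e2
  have e3 := wt_sum τ (γ := γ)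
  have e4 : 0 ≤ wt γ (τ.U ⊓ τ.V) := by
    unfold wt; split_ifs <;> norm_num
  unfold nz
  omega

end Sections

section Eff

variable {k : Type u} [Field k] [IsAlgClosed k] {C : Scheme.{u}} {c : C ⟶ Spec (CommRingCat.of k)}
  [IsSeparated c] [SmoothOfRelativeDimension 1 c] [IsIntegral C]

/-- a section without zeros at rational points is a generator -/
theorem isGen_of_points {M : (pullback c (𝟙 (Spec (CommRingCat.of k)))).Modules}
    (hM : Scheme.Modules.IsInvertible M) {s : Γ(M, ⊤)}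
    (h : ∀ x : SchemeHomOver (𝟙 (Spec (CommRingCat.of k))) c, pb (graph x) M s ≠ 0) :
    IsGen M s := by
  let Z := pullback c (𝟙 (Spec (CommRingCat.of k)))
  let U : Z.Opens := ⨆ V : {V : Z.Opens // IsGen M (res M (le_top : V ≤ ⊤) s)}, V.1
  have hft : LocallyOfFiniteType c := H51Curve.locallyOfFiniteType c
  have hfz : LocallyOfFiniteType (pullback.snd c (𝟙 (Spec (CommRingCat.of k)))) := inferInstance
  have hU : U = ⊤ := by
    refine H74.F1.eq_top_of_kPoints (pullback.snd c (𝟙 (Spec (CommRingCat.of k)))) U ?_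
    rintro γ hγ _ ⟨q, rfl⟩
    have hq : q = IsLocalRing.closedPoint k := Subsingleton.elim _ _
    rw [hq]
    let x : SchemeHomOver (𝟙 (Spec (CommRingCat.of k))) c :=
      ⟨γ ≫ pullback.fst _ _, by rw [Category.assoc, pullback.condition, ← Category.assoc, hγ]; simp⟩
    have hx : graph x = γ := by
      apply pullback.hom_ext
      · rw [graph_fst]
      · rw [graph_snd, hγ]
    have hs := h x
    rw [hx] at hs
    obtain ⟨V, hpV, m, hm⟩ := (isInvertible_iff M).mp hM (γ (IsLocalRing.closedPoint k))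
    obtain ⟨f, hf⟩ := hm.surj (res M (le_top : V ≤ ⊤) s)
    have hpre := preimage_eq_top hpV
    have hpf : γ (IsLocalRing.closedPoint k) ∈ Z.basicOpen f := by
      by_contra hcon
      have h1 : (Spec (CommRingCat.of k)).basicOpen (γ.app V f) = ⊥ := by
        rw [← Scheme.preimage_basicOpen]
        exact preimage_eq_bot hcon
      rw [basicOpen_eq_bot_iff] at h1
      apply hs
      have h2 : pb γ M (res M (le_top : V ≤ ⊤) s) = 0 := by
        rw [hf, pb_smul, h1, zero_smul]
      rw [pb_res] at h2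
      have h3 : ∀ (W : (Spec (CommRingCat.of k)).Opens) (hW : W ≤ ⊤) (hW' : W = ⊤)
          (y : Γ((Scheme.Modules.pullback γ).obj M, ⊤)), res _ hW y = 0 → y = 0 := by
        rintro W hW rfl y hy
        rwa [res_self] at hy
      exact h3 _ _ hpre _ h2
    have hgen : IsGen M (res M (le_top : Z.basicOpen f ≤ ⊤) s) := by
      rw [← res_res M (le_top : V ≤ ⊤) (Z.basicOpen_le f), hf, res_smul]
      exact (hm.res _).unit_smul (H51Aff.isUnit_resO f le_rfl _)
    exact Opens.mem_iSup.mpr ⟨⟨_, hgen⟩, hpf⟩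
  refine IsGen.of_forall_mem fun x hx => ?_
  have : x ∈ U := by rw [hU]; exact hx
  obtain ⟨⟨V, hV⟩, hxV⟩ := Opens.mem_iSup.mp this
  exact ⟨V, le_top, hxV, hV⟩

instance isIntegral_pullback_id : IsIntegral (pullback c (𝟙 (Spec (CommRingCat.of k)))) := by
  have : Nonempty (pullback c (𝟙 (Spec (CommRingCat.of k))) :) :=
    ⟨(inv (pullback.fst c (𝟙 (Spec (CommRingCat.of k))))) (Classical.arbitrary C)⟩
  exact isIntegral_of_isOpenImmersion (pullback.fst c (𝟙 (Spec (CommRingCat.of k))))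

/-- effective classes are inverses of products of classes `O(-x)` -/
theorem exists_list (τ : TwoChart c) (N : ℕ) :
    ∀ {M : (pullback c (𝟙 (Spec (CommRingCat.of k)))).Modules}
      (hM : Scheme.Modules.IsInvertible M) {s : Γ(M, ⊤)} (_ : s ≠ 0)
      (_ : nz (H51Pb.baseChange τ (𝟙 _)) s = N),
      ∃ l : List (SchemeHomOver (𝟙 (Spec (CommRingCat.of k))) c),
        SPic.mk M hM * (l.map dcl).prod = 1 := by
  induction N using Nat.strong_induction_on with | _ N ih
  intro M hM s hs hN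
  by_cases hgen : IsGen M s
  · exact ⟨[], by rw [List.map_nil, List.prod_nil, mul_one, SPic.mk_eq_one_iff_exists]; exact ⟨s, hgen⟩⟩
  · obtain ⟨x, hx⟩ : ∃ x : SchemeHomOver (𝟙 (Spec (CommRingCat.of k))) c, pb (graph x) M s = 0 := by
      by_contra hcon
      push Not at hcon
      exact hgen (isGen_of_points hM hcon)
    obtain ⟨L, hL, φ, hφ⟩ := exists_isTw (isCart_graph x) hM
    obtain ⟨l, rfl⟩ := ((hφ ⊤).2 s).mpr hx
    have hl : l ≠ 0 := by
      rintro rfl
      exact hs (map_zero _)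
    have hlt := nz_tw (H51Pb.baseChange τ (𝟙 _)) (graph_snd x) hL hM hφ hl
    rw [hN] at hlt
    obtain ⟨xs, hxs⟩ := ih _ hlt hL hl rfl
    refine ⟨x :: xs, ?_⟩
    rw [List.map_cons, List.prod_cons, ← mul_assoc, ← mk_tw x hL hM ⟨φ, hφ⟩, hxs]

/-- positive Euler characteristic implies existence of sections -/
theorem exists_section {K : Type u} [Field K] {Z : Scheme.{u}} {z : Z ⟶ Spec (CommRingCat.of K)}
    (τ : TwoChart z) {M : Z.Modules} (hM : Scheme.Modules.IsInvertible M) (h : 0 < chiL τ M hM) :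
    ∃ s : Γ(M, ⊤), s ≠ 0 := by
  have h1 : (latOf τ M hM).P ⊓ (latOf τ M hM).Q ≠ ⊥ := by
    intro h0
    rw [chiL, h0] at h
    have h2 : Module.finrank K (⊥ : Submodule K (Sec z M (τ.U ⊓ τ.V))) = 0 := finrank_bot _ _
    rw [h2] at h
    have : (0 : ℤ) ≤ Module.finrank K (Sec z M (τ.U ⊓ τ.V) ⧸ ((latOf τ M hM).P ⊔ (latOf τ M hM).Q)) :=
      Int.natCast_nonneg _
    simp only [Nat.cast_zero, zero_sub] at h
    omega
  obtain ⟨w, ⟨⟨x, hx⟩, ⟨y, hy⟩⟩, hw⟩ := Submodule.exists_mem_ne_zero_of_ne_bot h1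
  have hxy : res M (inf_le_left : τ.U ⊓ τ.V ≤ τ.U) x.s = res M (inf_le_right : τ.U ⊓ τ.V ≤ τ.V) y.s :=
    (congrArg Sec.s hx).trans (congrArg Sec.s hy).symm
  let S : ∀ b : Bool, Γ(M, (if b then τ.U else τ.V : Z.Opens)) := fun b => match b with
    | true => x.s
    | false => y.s
  obtain ⟨s, hs⟩ := sec_glue (U := ⊤) (fun b : Bool => if b then τ.U else τ.V) (fun _ => le_top)
    (by
      rw [← τ.cover]
      refine sup_le ?_ ?_
      · exact le_iSup (fun b : Bool => if b then τ.U else τ.V) true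
      · exact le_iSup (fun b : Bool => if b then τ.U else τ.V) false) S (by
      rintro (_ | _) (_ | _) W hi hj
      · rfl
      · change res M hi y.s = res M hj x.s
        have hW : W ≤ τ.U ⊓ τ.V := le_inf hj hi
        rw [← res_res M (inf_le_right : τ.U ⊓ τ.V ≤ τ.V) hW y.s, ← hxy, res_res]
      · change res M hi x.s = res M hj y.s
        have hW : W ≤ τ.U ⊓ τ.V := le_inf hi hj
        rw [← res_res M (inf_le_right : τ.U ⊓ τ.V ≤ τ.V) hW y.s, ← hxy, res_res]
      · rfl)
  refine ⟨s, ?_⟩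
  rintro rfl
  have h3 : x.s = 0 := (hs true).symm.trans (res_zero _ _)
  apply hw
  rw [← hx]
  apply Sec.ext
  rw [Sec.resL_s, h3]
  exact res_zero _ _

lemma chiP_mul_prod (τ : TwoChart c) (α : SPic (pullback c (𝟙 (Spec (CommRingCat.of k)))))
    (l : List (SchemeHomOver (𝟙 (Spec (CommRingCat.of k))) c)) :
    chiP τ (𝟙 _) (α * (l.map dcl).prod) = chiP τ (𝟙 _) α - l.length := by
  induction l generalizing α with
  | nil => simp
  | cons x l ih =>
    rw [List.map_cons, List.prod_cons, ← mul_assoc, ih, chiP_mul_dcl, List.length_cons]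
    push_cast
    ring

/-- a class with large Euler characteristic is effective -/
theorem exists_list_of_chi (τ : TwoChart c) (α : SPic (pullback c (𝟙 (Spec (CommRingCat.of k)))))
    (h : 0 < chiP τ (𝟙 _) α) :
    ∃ l : List (SchemeHomOver (𝟙 (Spec (CommRingCat.of k))) c),
      α * (l.map dcl).prod = 1 ∧ (l.length : ℤ) = chiP τ (𝟙 _) α - chiP τ (𝟙 _) 1 := by
  induction α using SPic.ind with | _ M hM
  obtain ⟨s, hs⟩ := exists_section _ hM h
  obtain ⟨l, hl⟩ := exists_list τ _ hM hs rfl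
  refine ⟨l, hl, ?_⟩
  have h1 := chiP_mul_prod τ (SPic.mk M hM) l
  rw [hl] at h1
  rw [h1]
  ring

end Eff

/-! ### the family -/

section Family

variable {k : Type u} [Field k] [IsAlgClosed k] {C : Scheme.{u}} {c : C ⟶ Spec (CommRingCat.of k)}
  [IsProper c] [SmoothOfRelativeDimension 1 c] [IsIntegral C]

/-- the family of all products of `d` classes of points -/
theorem exists_family (d : ℕ) : ∃ (Y : Scheme.{u}) (y : Y ⟶ Spec (CommRingCat.of k))
    (_ : IsProper y) (_ : IsIntegral Y) (F : SPic (pullback c y)),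
      ∀ l : List (SchemeHomOver (𝟙 (Spec (CommRingCat.of k))) c), l.length = d →
        ∃ s : SchemeHomOver (𝟙 (Spec (CommRingCat.of k))) y,
          SPic.map (baseChangeSnd c s) F = (l.map dcl).prod := by
  induction d with
  | zero =>
    refine ⟨Spec (CommRingCat.of k), 𝟙 _, inferInstance, inferInstance, 1, fun l hl => ?_⟩
    rw [List.length_eq_zero_iff] at hl
    subst hl
    exact ⟨⟨𝟙 _, Category.comp_id _⟩, by rw [map_one, List.map_nil, List.prod_nil]⟩
  | succ d ih =>
    obtain ⟨Y, y, hy, hY, F, hF⟩ := ih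
    have hft : LocallyOfFiniteType c := H51Curve.locallyOfFiniteType c
    let p₁ : SchemeHomOver (pullback.fst y c ≫ y) y := ⟨pullback.fst y c, rfl⟩
    let p₂ : SchemeHomOver (pullback.fst y c ≫ y) c := ⟨pullback.snd y c, pullback.condition.symm⟩
    refine ⟨pullback y c, pullback.fst y c ≫ y, inferInstance, H74.F1.isIntegral_pullback y c,
      dcl p₂ * SPic.map (baseChangeSnd c p₁) F, fun l hl => ?_⟩
    obtain _ | ⟨x, l⟩ := l
    · simp at hl
    rw [List.length_cons, Nat.add_right_cancel_iff] at hl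
    obtain ⟨s, hs⟩ := hF l hl
    let σ : SchemeHomOver (𝟙 (Spec (CommRingCat.of k))) (pullback.fst y c ≫ y) :=
      ⟨pullback.lift s.1 x.1 (by rw [s.2, x.2]), by rw [pullback.lift_fst_assoc, s.2]⟩
    refine ⟨σ, ?_⟩
    have h1 : shComp σ p₂ = x := Subtype.ext (pullback.lift_snd _ _ _)
    have h2 : shComp σ p₁ = s := Subtype.ext (pullback.lift_fst _ _ _)
    rw [map_mul, dcl_map, ← SPic.map_comp_apply, baseChangeSnd_shComp, h1, h2, hs, List.map_cons,
      List.prod_cons]

/-- **E4**: a proper integral family containing all classes with `χ = χ(O)` -/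
theorem exists_surj_family (τ : TwoChart c)
    (ε : SchemeHomOver (𝟙 (Spec (CommRingCat.of k))) c) :
    ∃ (Y : Scheme.{u}) (y : Y ⟶ Spec (CommRingCat.of k)) (_ : IsProper y) (_ : IsIntegral Y)
      (F : SPic (pullback c y)), ∀ α : SPic (pullback c (𝟙 (Spec (CommRingCat.of k)))),
        chiP τ (𝟙 _) α = chiP τ (𝟙 _) 1 →
          ∃ s : SchemeHomOver (𝟙 (Spec (CommRingCat.of k))) y,
            SPic.map (baseChangeSnd c s) F = α := by
  obtain ⟨d, hd⟩ : ∃ d : ℕ, 0 < chiP τ (𝟙 _) 1 + d :=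
    ⟨(1 - chiP τ (𝟙 _) 1).toNat, by omega⟩
  obtain ⟨Y, y, hy, hY, F, hF⟩ := exists_family (c := c) d
  let μ : SPic (pullback c (𝟙 (Spec (CommRingCat.of k)))) := (dcl ε) ^ d
  let q : SchemeHomOver y (𝟙 (Spec (CommRingCat.of k))) := ⟨y, Category.comp_id _⟩
  refine ⟨Y, y, hy, hY, F⁻¹ * SPic.map (baseChangeSnd c q) μ, fun α hα => ?_⟩
  have hμ : ∀ d : ℕ, chiP τ (𝟙 _) (α * ((dcl ε) ^ d)⁻¹) = chiP τ (𝟙 _) α + d := by
    intro d
    induction d with
    | zero => simp
    | succ d ih =>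
      have h1 := chiP_mul_dcl τ ε (α * ((dcl ε) ^ (d + 1))⁻¹)
      have h2 : α * ((dcl ε) ^ (d + 1))⁻¹ * dcl ε = α * ((dcl ε) ^ d)⁻¹ := by
        rw [pow_succ, mul_inv, mul_assoc, mul_assoc, inv_mul_cancel, mul_one]
      rw [h2, ih] at h1
      push_cast
      linarith
  obtain ⟨l, hl1, hl2⟩ := exists_list_of_chi τ (α * μ⁻¹) (by rw [hμ, hα]; exact hd)
  rw [hμ, hα] at hl2
  obtain ⟨s, hs⟩ := hF l (by omega)
  refine ⟨s, ?_⟩
  have h3 : shComp s q = ⟨𝟙 _, Category.comp_id _⟩ := Subtype.ext s.2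
  have h4 : baseChangeSnd c (⟨𝟙 _, Category.comp_id _⟩ : SchemeHomOver (𝟙 (Spec (CommRingCat.of k)))
    (𝟙 (Spec (CommRingCat.of k)))) = 𝟙 _ := baseChangeSnd_id c _
  rw [map_mul, map_inv, hs, ← SPic.map_comp_apply, baseChangeSnd_shComp, h3, h4, SPic.map_id,
    MonoidHom.id_apply]
  have h5 : α = μ * ((l.map dcl).prod)⁻¹ := by
    rw [eq_mul_inv_iff_mul_eq]
    have := hl1
    rw [mul_assoc, mul_comm μ⁻¹, ← mul_assoc, mul_inv_eq_one] at this
    exact this
  rw [h5, mul_comm]

end Family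

end Fermat.Agent.H25
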