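import Fermat.Agent.H2PicBase
/-!
# S25-E2: Picard charts from affine test schemes
* `mono_all`: the chart condition `mono` from affine test schemes
* `locus`, `locus_spec`
* `mkPicChart`
-/
set_option autoImplicit false
universe u v
open CategoryTheory AlgebraicGeometry CategoryTheory.Limits TopologicalSpace Opposite
  NeronModelInfra AlgebraicGeometry.RelPicard

noncomputable section

namespace Fermat.Agent.H2Pic

open Fermat.Agent.H25

variable {k : Type u} [Field k] {C : Scheme.{u}} {c : C ⟶ Spec (CommRingCat.of k)}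
  {ε : SchemeHomOver (𝟙 (Spec (CommRingCat.of k))) c}
variable {T T' T'' : Scheme.{u}} {t : T ⟶ Spec (CommRingCat.of k)}
  {t' : T' ⟶ Spec (CommRingCat.of k)} {t'' : T'' ⟶ Spec (CommRingCat.of k)}
  {X : Scheme.{u}} {x : X ⟶ Spec (CommRingCat.of k)} {L : RigidifiedLineBundle c ε x}
  {M : RigidifiedLineBundle c ε t}

/-- `h^* L ≅ g^* M` -/
def Cl (L : RigidifiedLineBundle c ε x) (M : RigidifiedLineBundle c ε t)
    (h : SchemeHomOver t' x) (g : SchemeHomOver t' t) : Prop :=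
  Nonempty ((L.pullbackAlong h).L ≅ (M.pullbackAlong g).L)

/-- the version of `Cl` with bare morphisms -/
def Cl' (L : RigidifiedLineBundle c ε x) (M : RigidifiedLineBundle c ε t)
    (h : T' ⟶ X) (g : T' ⟶ T) : Prop :=
  ∃ w : h ≫ x = g ≫ t, Cl L M (t' := g ≫ t) ⟨h, w⟩ ⟨g, rfl⟩

lemma cl_iff (h : SchemeHomOver t' x) (g : SchemeHomOver t' t) :
    Cl L M h g ↔ Cl' L M h.1 g.1 := by
  obtain ⟨h, hh⟩ := h
  obtain ⟨g, rfl⟩ := g
  exact ⟨fun H ↦ ⟨hh, H⟩, fun ⟨_, H⟩ ↦ H⟩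

lemma Cl.comp {h : SchemeHomOver t' x} {g : SchemeHomOver t' t} (H : Cl L M h g)
    (q : SchemeHomOver t'' t') : Cl L M (postComp h q) (postComp g q) := by
  refine iso_trans (iso_symm (pullbackAlong_comp L h q)) (iso_trans ?_ (pullbackAlong_comp M g q))
  exact RigidifiedLineBundle.pullbackAlong_congr q H

lemma Cl'.comp {h : T' ⟶ X} {g : T' ⟶ T} (H : Cl' L M h g) (q : T'' ⟶ T') :
    Cl' L M (q ≫ h) (q ≫ g) := by
  obtain ⟨w, H⟩ := H
  have := H.comp (t'' := q ≫ g ≫ t) ⟨q, rfl⟩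
  rw [cl_iff] at this
  exact this

lemma Cl'.symm {h : T' ⟶ X} {g : T' ⟶ T} (H : Cl' L M h g) : Cl' M L g h := by
  obtain ⟨w, H⟩ := H
  have : Cl M L (t' := g ≫ t) ⟨g, rfl⟩ ⟨h, w⟩ := iso_symm H
  rw [cl_iff] at this
  exact this

lemma Cl'.trans {Y : Scheme.{u}} {y : Y ⟶ Spec (CommRingCat.of k)}
    {N : RigidifiedLineBundle c ε y} {h : T' ⟶ X} {g : T' ⟶ T} {l : T' ⟶ Y}
    (H : Cl' L M h g) (H' : Cl' M N g l) : Cl' L N h l := by
  obtain ⟨w, H⟩ := H
  obtain ⟨w', H'⟩ := H'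
  have h1 : Cl M N (t' := g ≫ t) ⟨g, rfl⟩ ⟨l, w'.symm⟩ := by
    rw [cl_iff]; exact ⟨w', H'⟩
  have : Cl L N (t' := g ≫ t) ⟨h, w⟩ ⟨l, w'.symm⟩ := iso_trans H h1
  rw [cl_iff] at this
  exact this

lemma Cl'.congr {h h' : T' ⟶ X} {g g' : T' ⟶ T} (H : Cl' L M h g) (e : h = h') (e' : g = g') :
    Cl' L M h' g' := by
  subst e e'; exact H

/-- restriction of the second bundle along `g` -/
lemma cl'_pullbackAlong (g : SchemeHomOver t' t) {h : T'' ⟶ X} {q : T'' ⟶ T'} :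
    Cl' L (M.pullbackAlong g) h q ↔ Cl' L M h (q ≫ g.1) := by
  constructor
  · rintro ⟨w, H⟩
    have h1 := iso_trans H (pullbackAlong_comp M g ⟨q, rfl⟩)
    have : Cl L M (t' := q ≫ t') ⟨h, w⟩ (postComp g ⟨q, rfl⟩) := h1
    rw [cl_iff] at this
    exact this
  · rintro ⟨w, H⟩
    have w' : h ≫ x = q ≫ t' := by rw [w, Category.assoc, g.2]
    refine ⟨w', ?_⟩
    have h1 : Cl L M (t' := q ≫ t') ⟨h, w'⟩ (postComp g ⟨q, rfl⟩) := by
      rw [cl_iff]; exact ⟨w, H⟩
    exact iso_trans h1 (iso_symm (pullbackAlong_comp M g ⟨q, rfl⟩))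

/-- the bundle `M` itself -/
lemma cl'_id {h : SchemeHomOver t x} :
    Cl' L M h.1 (𝟙 T) ↔ Nonempty ((L.pullbackAlong h).L ≅ M.L) := by
  have h1 : Cl L M h ⟨𝟙 T, Category.id_comp t⟩ ↔ Cl' L M h.1 (𝟙 T) := cl_iff _ _
  rw [← h1]
  exact ⟨fun H ↦ iso_trans H (pullbackAlong_id M), fun H ↦ iso_trans H (iso_symm (pullbackAlong_id M))⟩

/-- The chart condition on affine test schemes. -/
def MonoAff (L : RigidifiedLineBundle c ε x) : Prop :=
  ∀ (A : CommRingCat.{u}) (t : Spec A ⟶ Spec (CommRingCat.of k)) (h h' : SchemeHomOver t x),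
      Nonempty ((L.pullbackAlong h).L ≅ (L.pullbackAlong h').L) → h = h'

theorem mono_all (hm : MonoAff L) (h h' : T ⟶ X) (H : Cl' L L h h') : h = h' := by
  refine Scheme.Cover.hom_ext T.affineOpenCover.openCover _ _ fun i ↦ ?_
  obtain ⟨w, H1⟩ := H.comp (T.affineOpenCover.f i)
  exact congrArg Subtype.val (hm _ _ _ _ H1)

/-- the locus where `M` is pulled back from the chart -/
def locus (L : RigidifiedLineBundle c ε x) (M : RigidifiedLineBundle c ε t) : T.Opens :=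
  sSup {W : T.Opens | ∃ h : W.toScheme ⟶ X, Cl' L M h W.ι}

theorem exists_of_range_le_locus (hinj : RigInj c ε) (hm : MonoAff L) (g : T' ⟶ T)
    (hg : Set.range g ⊆ locus L M) : ∃ h : T' ⟶ X, Cl' L M h g := by
  have h1 : ∀ y : T', ∃ (W : T.Opens) (_ : g y ∈ W) (h : W.toScheme ⟶ X), Cl' L M h W.ι := by
    intro y
    have h2 : g y ∈ locus L M := hg ⟨y, rfl⟩
    unfold locus at h2
    rw [Opens.mem_sSup] at h2
    obtain ⟨W, ⟨h, hh⟩, hy⟩ := h2
    exact ⟨W, hy, h, hh⟩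
  choose W hyW h hh using h1
  let V : T' → T'.Opens := fun y ↦ g ⁻¹ᵁ W y
  let 𝒰 : T'.OpenCover := T'.openCoverOfIsOpenCover V (by
    rw [IsOpenCover, eq_top_iff]
    intro y _
    exact Opens.mem_iSup.mpr ⟨y, hyW y⟩)
  let h' : ∀ y : T', (V y).toScheme ⟶ X := fun y ↦ (g ∣_ W y) ≫ h y
  have hh' : ∀ y, Cl' L M (h' y) ((V y).ι ≫ g) := by
    intro y
    have := (hh y).comp (g ∣_ W y)
    rwa [morphismRestrict_ι] at this
  have hcomp : ∀ y z, pullback.fst (𝒰.f y) (𝒰.f z) ≫ h' y = pullback.snd _ _ ≫ h' z := by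
    intro y z
    apply mono_all hm
    have e1 := (hh' y).comp (pullback.fst (𝒰.f y) (𝒰.f z))
    have e2 := (hh' z).comp (pullback.snd (𝒰.f y) (𝒰.f z))
    have e3 : pullback.fst (𝒰.f y) (𝒰.f z) ≫ (V y).ι ≫ g =
        pullback.snd (𝒰.f y) (𝒰.f z) ≫ (V z).ι ≫ g := by
      have := pullback.condition (f := 𝒰.f y) (g := 𝒰.f z)
      exact (Category.assoc _ _ _).symm.trans ((congrArg (· ≫ g) this).trans (Category.assoc _ _ _))
    exact (e1.congr rfl e3).trans e2.symm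
  let H : T' ⟶ X := 𝒰.glueMorphisms h' hcomp
  have hH : ∀ y, (V y).ι ≫ H = h' y := fun y ↦ 𝒰.ι_glueMorphisms h' hcomp y
  have hw : H ≫ x = g ≫ t := by
    refine Scheme.Cover.hom_ext 𝒰 _ _ fun y ↦ ?_
    have h3 : (V y).ι ≫ H ≫ x = (V y).ι ≫ g ≫ t := by
      obtain ⟨w, -⟩ := hh' y
      exact (Category.assoc _ _ _).symm.trans ((congrArg (· ≫ x) (hH y)).trans
        (w.trans (Category.assoc _ _ _)))
    exact h3
  refine ⟨H, hw, ?_⟩
  refine exists_iso_of_cover hinj _ _ (t := g ≫ t) (Z := fun y : T' ↦ (V y).toScheme)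
    (fun y ↦ ⟨(V y).ι, rfl⟩) (fun y ↦ ⟨y, ⟨y, hyW y⟩, rfl⟩) (fun y ↦ ?_)
  have h5 : Cl' (L.pullbackAlong ⟨H, hw⟩) (M.pullbackAlong (⟨g, rfl⟩ : SchemeHomOver (g ≫ t) t))
      (V y).ι (V y).ι := by
    rw [cl'_pullbackAlong]
    refine Cl'.symm ?_
    rw [cl'_pullbackAlong]
    refine Cl'.symm ?_
    exact (hh' y).congr (hH y).symm rfl
  obtain ⟨w6, h6⟩ := h5
  exact h6

/-- The openness condition on affine test schemes. -/
def KeyAff (L : RigidifiedLineBundle c ε x) : Prop :=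
  ∀ (A : CommRingCat.{u}) (t : Spec A ⟶ Spec (CommRingCat.of k))
    (M : RigidifiedLineBundle c ε t) (K : Type u) [Field K] (φ : A ⟶ CommRingCat.of K)
    (h : SchemeHomOver (Spec.map φ ≫ t) x),
    Nonempty ((L.pullbackAlong h).L ≅ (M.pullbackAlong ⟨Spec.map φ, rfl⟩).L) →
    ∃ f : A, φ f ≠ 0 ∧
      ∃ h' : SchemeHomOver
          (Spec.map (CommRingCat.ofHom (algebraMap A (Localization.Away f))) ≫ t) x,
        Nonempty ((L.pullbackAlong h').L ≅ (M.pullbackAlong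
          ⟨Spec.map (CommRingCat.ofHom (algebraMap A (Localization.Away f))), rfl⟩).L)

theorem mem_locus_of_cl (hk : KeyAff L) {h : T' ⟶ X} {g : T' ⟶ T} (H : Cl' L M h g) (y : T') :
    g y ∈ locus L M := by
  let 𝒜 := T.affineOpenCover
  let i := 𝒜.idx (g y)
  let φi : Spec (𝒜.X i) ⟶ T := 𝒜.f i
  let ρ := T'.fromSpecResidueField y ≫ g
  have hr : Set.range ρ ⊆ Set.range φi := by
    rintro _ ⟨z, rfl⟩
    have : ρ z = g y := by
      change g (T'.fromSpecResidueField y z) = g y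
      rw [Scheme.fromSpecResidueField_apply]
    rw [this]
    exact 𝒜.covers (g y)
  let l : Spec (T'.residueField y) ⟶ Spec (𝒜.X i) := IsOpenImmersion.lift φi ρ hr
  have hl : l ≫ φi = ρ := IsOpenImmersion.lift_fac _ _ _
  let φ : 𝒜.X i ⟶ CommRingCat.of (T'.residueField y) := Spec.preimage l
  have hφ : Spec.map φ = l := Spec.map_preimage l
  have h1 : Cl' L M (T'.fromSpecResidueField y ≫ h) (Spec.map φ ≫ φi) := by
    rw [hφ, hl]
    exact H.comp _
  obtain ⟨w, h2⟩ := (cl'_pullbackAlong (M := M) (t' := φi ≫ t) ⟨φi, rfl⟩).mpr h1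
  obtain ⟨f, hf, h', h3⟩ := hk (𝒜.X i) (φi ≫ t) (M.pullbackAlong ⟨φi, rfl⟩)
    (T'.residueField y) φ ⟨_, w⟩ h2
  let q : Spec (CommRingCat.of (Localization.Away f)) ⟶ Spec (𝒜.X i) :=
    Spec.map (CommRingCat.ofHom (algebraMap (𝒜.X i) (Localization.Away f)))
  have hq : IsOpenImmersion q := inferInstanceAs (IsOpenImmersion (Spec.map (CommRingCat.ofHom
    (algebraMap (𝒜.X i) (Localization.Away f)))))
  have h4 : Cl' L M h'.1 (q ≫ φi) := by
    have h5 : Cl L (M.pullbackAlong (⟨φi, rfl⟩ : SchemeHomOver (φi ≫ t) t)) h' ⟨q, rfl⟩ := h3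
    rw [cl_iff, cl'_pullbackAlong] at h5
    exact h5
  have hop : IsOpenImmersion (q ≫ φi) := inferInstance
  have h6 : Cl' L M ((q ≫ φi).isoOpensRange.inv ≫ h'.1) (q ≫ φi).opensRange.ι := by
    have := h4.comp (q ≫ φi).isoOpensRange.inv
    rwa [Scheme.Hom.isoOpensRange_inv_comp] at this
  have h7 : g y ∈ (q ≫ φi).opensRange := by
    -- the closed point of the residue field
    let z : Spec (T'.residueField y) := IsLocalRing.closedPoint (T'.residueField y)
    have e1 : l z ∈ Set.range q := by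
      have e2 : Set.range q = (PrimeSpectrum.basicOpen f : Set (PrimeSpectrum (𝒜.X i))) :=
        PrimeSpectrum.localization_away_comap_range _ f
      rw [e2, ← hφ]
      intro h8
      have h9 : φ f ∈ (z : PrimeSpectrum (T'.residueField y)).asIdeal := h8
      have h10 : (z : PrimeSpectrum (T'.residueField y)).asIdeal = ⊥ :=
        (Ideal.eq_bot_or_top _).resolve_right (z : PrimeSpectrum (T'.residueField y)).isPrime.ne_top
      rw [h10] at h9
      exact hf h9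
    obtain ⟨a, ha⟩ := e1
    refine ⟨a, ?_⟩
    change φi (q a) = g y
    rw [ha]
    have e3 : φi (l z) = ρ z := congr($hl z)
    rw [e3]
    change g (T'.fromSpecResidueField y z) = g y
    rw [Scheme.fromSpecResidueField_apply]
  exact Opens.mem_sSup.mpr ⟨_, ⟨_, h6⟩, h7⟩

/-- **E2**: a Picard chart from its behaviour on affine test schemes. -/
def mkPicChart (hinj : RigInj c ε) (L : RigidifiedLineBundle c ε x) (hm : MonoAff L)
    (hk : KeyAff L) : PicChart c ε where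
  X := X
  x := x
  L := L
  locus _ M := locus L M
  locus_spec t M T' t' g := by
    constructor
    · rintro ⟨h, hh⟩
      have h1 : Cl L M h g := hh
      rw [cl_iff] at h1
      rintro _ ⟨y, rfl⟩
      exact mem_locus_of_cl hk h1 y
    · intro hg
      obtain ⟨h, hh⟩ := exists_of_range_le_locus hinj hm g.1 hg
      obtain ⟨w, h2⟩ := hh
      have h3 : h ≫ x = t' := by rw [w, g.2]
      refine ⟨⟨h, h3⟩, ?_⟩
      have h4 : Cl L M ⟨h, h3⟩ g := by
        rw [cl_iff]; exact ⟨w, h2⟩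
      exact h4
  mono t h h' H := by
    apply Subtype.ext
    apply mono_all hm
    have : Cl L L h h' := H
    rwa [cl_iff] at this

theorem exists_picChart (hinj : RigInj c ε) (L : RigidifiedLineBundle c ε x) (hm : MonoAff L)
    (hk : KeyAff L) :
    ∃ (locus : ∀ {T : Scheme.{u}} (t : T ⟶ Spec (CommRingCat.of k)) (_ : RigidifiedLineBundle c ε t),
        T.Opens),
      (∀ {T : Scheme.{u}} (t : T ⟶ Spec (CommRingCat.of k))
        (M : RigidifiedLineBundle c ε t) {T' : Scheme.{u}} (t' : T' ⟶ Spec (CommRingCat.of k))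
        (g : SchemeHomOver t' t),
        (∃ h : SchemeHomOver t' x, Nonempty ((L.pullbackAlong h).L ≅ (M.pullbackAlong g).L)) ↔
          Set.range g.1.base ⊆ locus t M) ∧
      (∀ {T : Scheme.{u}} (t : T ⟶ Spec (CommRingCat.of k)) (h h' : SchemeHomOver t x),
        Nonempty ((L.pullbackAlong h).L ≅ (L.pullbackAlong h').L) → h = h') :=
  ⟨(mkPicChart hinj L hm hk).locus, (mkPicChart hinj L hm hk).locus_spec,
    (mkPicChart hinj L hm hk).mono⟩

end Fermat.Agent.H2Pic
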