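import Fermat.Agent.H25Glue
/-!
# S25: local isomorphisms and pullbacks (job A2, part 3)
-/
set_option autoImplicit false
universe u v
open CategoryTheory AlgebraicGeometry CategoryTheory.Limits TopologicalSpace Opposite

noncomputable section

namespace Fermat.Agent.H25

variable {X Y Z : Scheme.{u}}

lemma app_resO (g : X ⟶ Y) {V W : Y.Opens} (h : W ≤ V) (a : Γ(Y, V)) :
    g.app W (resO h a) = resO (g.preimage_mono h) (g.app V a) := by
  have := g.naturality (homOfLE h).op
  exact congr($this a)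

lemma pb_bijective_of_le (f : X ⟶ Y) [IsOpenImmersion f] (M : Y.Modules) {V : Y.Opens}
    (hV : V ≤ f.opensRange) : Function.Bijective (pb f M (V := V)) := by
  have hV' : f ''ᵁ (f ⁻¹ᵁ V) = V := by
    rw [Scheme.Hom.image_preimage_eq_opensRange_inf]; exact inf_eq_right.mpr hV
  have h1 : Function.Bijective (((Scheme.Modules.restrictFunctorIsoPullback f).hom.app M).app
    (f ⁻¹ᵁ V)) := ConcreteCategory.bijective_of_isIso _
  have h2 : Function.Bijective ((M.restrictAppIso f (f ⁻¹ᵁ V)).inv) :=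
    ConcreteCategory.bijective_of_isIso _
  have h3 : Function.Bijective (res M (f.image_preimage_le V)) := by
    refine ⟨fun x y h ↦ ?_, fun x ↦ ⟨res M hV'.ge x, by rw [res_res, res_self]⟩⟩
    have := congrArg (res M hV'.ge) h
    simpa only [res_res, res_self] using this
  have := (h1.comp h2).comp h3
  convert this using 1
  funext x
  exact pb_eq_restrict f M V x

namespace LHom

variable {U : Y.Opens} {M N P : Y.Modules}

theorem exists_pullback (g : X ⟶ Y) (hg : g ⁻¹ᵁ U = ⊤) (f : LHom U M N) :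
    ∃! φ : (Scheme.Modules.pullback g).obj M ⟶ (Scheme.Modules.pullback g).obj N,
      ∀ (W : Y.Opens) (h : W ≤ U) (x : Γ(M, W)),
        φ.app (g ⁻¹ᵁ W) (pb g M x) = pb g N (f.f W h x) := by
  have hle : ∀ V : Y.Opens, g ⁻¹ᵁ V ≤ g ⁻¹ᵁ (V ⊓ U) := by
    intro V
    rw [Scheme.Hom.preimage_inf, hg, inf_top_eq]
  have hu : ∃ u : M ⟶ (Scheme.Modules.pushforward g).obj ((Scheme.Modules.pullback g).obj N),
      ∀ (V : Y.Opens) (x : Γ(M, V)), u.app V x =
        H25.res ((Scheme.Modules.pullback g).obj N) (hle V) (pb g N (f.f (V ⊓ U) inf_le_right (H25.res M inf_le_left x))) := by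
    refine ⟨mkHom (fun V ↦ AddMonoidHom.mk' (fun x ↦
      H25.res ((Scheme.Modules.pullback g).obj N) (hle V) (pb g N (f.f (V ⊓ U) inf_le_right (H25.res M inf_le_left x)))) ?_)
      ?_ ?_, fun V x ↦ rfl⟩
    · intro x y
      simp only [res_add, map_add, pb_add]
      rfl
    · intro V a x
      change H25.res _ (hle V) (pb g N (f.f (V ⊓ U) inf_le_right (H25.res M inf_le_left (a • x)))) =
        g.app V a • H25.res _ (hle V) (pb g N (f.f (V ⊓ U) inf_le_right (H25.res M inf_le_left x)))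
      rw [res_smul, f.smul, pb_smul, res_smul, app_resO, resO_resO, resO_self]
    · intro V W h x
      change H25.res _ (hle W) (pb g N (f.f (W ⊓ U) inf_le_right
        (H25.res M inf_le_left (H25.res M h x)))) =
        H25.res _ (g.preimage_mono h) (H25.res _ (hle V) (pb g N (f.f (V ⊓ U) inf_le_right
          (H25.res M inf_le_left x))))
      rw [res_res, res_res]
      have h1 := f.res (V ⊓ U) (W ⊓ U) inf_le_right (inf_le_inf_right _ h)
        (H25.res M inf_le_left x)
      rw [res_res] at h1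
      rw [h1, pb_res, res_res]
  obtain ⟨u, hu⟩ := hu
  obtain ⟨v, hv, hv'⟩ := exists_pullback_hom g M _ u
  have hv1 : ∀ (W : Y.Opens) (h : W ≤ U) (x : Γ(M, W)),
        v.app (g ⁻¹ᵁ W) (pb g M x) = pb g N (f.f W h x) := by
    intro W h x
    rw [hv, hu, f.res W (W ⊓ U) h, pb_res, res_res, res_self]
  refine ⟨v, hv1, ?_⟩
  intro w hw
  refine hom_ext_pb g M fun V x ↦ ?_
  have h1 : (pb g M x) = H25.res _ (hle V) (pb g M (H25.res M (inf_le_left : V ⊓ U ≤ V) x)) := by
    rw [pb_res, res_res, res_self]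
  rw [h1, app_res, app_res]
  rw [hw (V ⊓ U) inf_le_right, hv1 (V ⊓ U) inf_le_right]

/-- the morphism of pullbacks induced by a local morphism -/
def pull (g : X ⟶ Y) (hg : g ⁻¹ᵁ U = ⊤) (f : LHom U M N) :
    (Scheme.Modules.pullback g).obj M ⟶ (Scheme.Modules.pullback g).obj N :=
  (exists_pullback g hg f).choose

lemma pull_app (g : X ⟶ Y) (hg : g ⁻¹ᵁ U = ⊤) (f : LHom U M N) {W : Y.Opens} (h : W ≤ U)
    (x : Γ(M, W)) : (f.pull g hg).app (g ⁻¹ᵁ W) (pb g M x) = pb g N (f.f W h x) :=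
  (exists_pullback g hg f).choose_spec.1 W h x

lemma pull_uniq (g : X ⟶ Y) (hg : g ⁻¹ᵁ U = ⊤) (f : LHom U M N)
    {φ : (Scheme.Modules.pullback g).obj M ⟶ (Scheme.Modules.pullback g).obj N}
    (hφ : ∀ (W : Y.Opens) (h : W ≤ U) (x : Γ(M, W)),
        φ.app (g ⁻¹ᵁ W) (pb g M x) = pb g N (f.f W h x)) : φ = f.pull g hg :=
  (exists_pullback g hg f).unique hφ (exists_pullback g hg f).choose_spec.1

@[simp] lemma pull_id (g : X ⟶ Y) (hg : g ⁻¹ᵁ U = ⊤) : (LHom.id U M).pull g hg = 𝟙 _ :=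
  (pull_uniq g hg _ fun _ _ _ ↦ rfl).symm

lemma pull_comp (g : X ⟶ Y) (hg : g ⁻¹ᵁ U = ⊤) (f : LHom U M N) (f' : LHom U N P) :
    (f.comp f').pull g hg = f.pull g hg ≫ f'.pull g hg := by
  refine (pull_uniq g hg _ fun W h x ↦ ?_).symm
  rw [Scheme.Modules.Hom.comp_app, ConcreteCategory.comp_apply, pull_app g hg f h,
    pull_app g hg f' h]
  rfl

/-- a morphism of pullbacks along an open immersion gives a local morphism -/
lemma exists_ofPull (j : X ⟶ Y) [IsOpenImmersion j] (hU : U ≤ j.opensRange)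
    (φ : (Scheme.Modules.pullback j).obj M ⟶ (Scheme.Modules.pullback j).obj N) :
    ∃ f : LHom U M N, ∀ (W : Y.Opens) (h : W ≤ U) (x : Γ(M, W)),
      pb j N (f.f W h x) = φ.app (j ⁻¹ᵁ W) (pb j M x) := by
  have h1 : ∀ (W : Y.Opens) (_ : W ≤ U) (x : Γ(M, W)), ∃ y : Γ(N, W),
      pb j N y = φ.app (j ⁻¹ᵁ W) (pb j M x) := fun W h x ↦
    (pb_bijective_of_le j N (h.trans hU)).2 _
  choose F hF using h1
  refine ⟨⟨fun W h ↦ AddMonoidHom.mk' (F W h) ?_, ?_, ?_⟩, hF⟩
  · intro x y
    apply (pb_bijective_of_le j N (h.trans hU)).1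
    rw [hF, pb_add, pb_add, hF, hF]
    exact map_add _ _ _
  · intro W h a x
    apply (pb_bijective_of_le j N (h.trans hU)).1
    change pb j N (F W h (a • x)) = pb j N (a • F W h x)
    rw [hF, pb_smul, pb_smul, hF, app_smul']
  · intro W V h h' x
    apply (pb_bijective_of_le j N ((h'.trans h).trans hU)).1
    change pb j N (F V _ (H25.res M h' x)) = pb j N (H25.res N h' (F W h x))
    rw [hF, pb_res, pb_res, hF, app_res]

/-- a morphism of pullbacks along an open immersion gives a local morphism -/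
def ofPull (j : X ⟶ Y) [IsOpenImmersion j] (hU : U ≤ j.opensRange)
    (φ : (Scheme.Modules.pullback j).obj M ⟶ (Scheme.Modules.pullback j).obj N) :
    LHom U M N := (exists_ofPull j hU φ).choose

lemma pb_ofPull (j : X ⟶ Y) [IsOpenImmersion j] (hU : U ≤ j.opensRange)
    (φ : (Scheme.Modules.pullback j).obj M ⟶ (Scheme.Modules.pullback j).obj N)
    (W : Y.Opens) (h : W ≤ U) (x : Γ(M, W)) :
      pb j N ((ofPull j hU φ).f W h x) = φ.app (j ⁻¹ᵁ W) (pb j M x) :=
  (exists_ofPull j hU φ).choose_spec W h x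

end LHom

namespace LIso

variable {U : Y.Opens} {M N P : Y.Modules}

/-- the isomorphism of pullbacks induced by a local isomorphism -/
def pull (g : X ⟶ Y) (hg : g ⁻¹ᵁ U = ⊤) (e : LIso U M N) :
    (Scheme.Modules.pullback g).obj M ≅ (Scheme.Modules.pullback g).obj N where
  hom := e.hom.pull g hg
  inv := e.inv.pull g hg
  hom_inv_id := by
    rw [← LHom.pull_comp, ← LHom.pull_id g hg]
    congr 1
    exact LHom.ext' e.hom_inv
  inv_hom_id := by
    rw [← LHom.pull_comp, ← LHom.pull_id g hg]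
    congr 1
    exact LHom.ext' e.inv_hom

lemma pull_hom_app (g : X ⟶ Y) (hg : g ⁻¹ᵁ U = ⊤) (e : LIso U M N) {W : Y.Opens} (h : W ≤ U)
    (x : Γ(M, W)) : (e.pull g hg).hom.app (g ⁻¹ᵁ W) (pb g M x) = pb g N (e.hom.f W h x) :=
  e.hom.pull_app g hg h x

/-- local isomorphism from an isomorphism of pullbacks along an open immersion -/
def ofPull (j : X ⟶ Y) [IsOpenImmersion j] (hU : U ≤ j.opensRange)
    (e : (Scheme.Modules.pullback j).obj M ≅ (Scheme.Modules.pullback j).obj N) :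
    LIso U M N where
  hom := .ofPull j hU e.hom
  inv := .ofPull j hU e.inv
  hom_inv W h x := by
    apply (pb_bijective_of_le j M (h.trans hU)).1
    rw [LHom.pb_ofPull, LHom.pb_ofPull, ← ConcreteCategory.comp_apply,
      ← Scheme.Modules.Hom.comp_app, Iso.hom_inv_id]
    rfl
  inv_hom W h x := by
    apply (pb_bijective_of_le j N (h.trans hU)).1
    rw [LHom.pb_ofPull, LHom.pb_ofPull, ← ConcreteCategory.comp_apply,
      ← Scheme.Modules.Hom.comp_app, Iso.inv_hom_id]
    rfl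

lemma pb_ofPull_hom (j : X ⟶ Y) [IsOpenImmersion j] (hU : U ≤ j.opensRange)
    (e : (Scheme.Modules.pullback j).obj M ≅ (Scheme.Modules.pullback j).obj N)
    (W : Y.Opens) (h : W ≤ U) (x : Γ(M, W)) :
      pb j N ((ofPull j hU e).hom.f W h x) = e.hom.app (j ⁻¹ᵁ W) (pb j M x) :=
  LHom.pb_ofPull j hU e.hom W h x

end LIso

end Fermat.Agent.H25
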