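import Mathlib
import Fermat.Agent.H51Aff

/-!
# Homomorphisms of invertible `O_X`-modules over opens (S25-B1, B3)
-/

set_option autoImplicit false
set_option linter.style.haveILetI false
set_option linter.unusedVariables false

open CategoryTheory AlgebraicGeometry CategoryTheory.Limits TopologicalSpace

namespace Fermat.Agent.H51Aff

open Fermat.Agent.H25 Fermat.Agent.H51Inv

universe u

variable {X : Scheme.{u}}

/-- A homomorphism `M|_U → N|_U`. -/
@[ext]
structure HomOn (M N : X.Modules) (U : X.Opens) where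
  app : ∀ (W : X.Opens), W ≤ U → Γ(M, W) → Γ(N, W)
  app_add : ∀ W h x y, app W h (x + y) = app W h x + app W h y
  app_smul : ∀ W h (a : Γ(X, W)) x, app W h (a • x) = a • app W h x
  app_res : ∀ W (h : W ≤ U) V (hV : V ≤ W) (h' : V ≤ U) x,
    app V h' (res M hV x) = res N hV (app W h x)

namespace HomOn

variable {M N : X.Modules} {U : X.Opens}

theorem app_zero (φ : HomOn M N U) {W : X.Opens} (h : W ≤ U) : φ.app W h 0 = 0 := by
  have := φ.app_smul W h 0 0
  simpa using this

/-- as a linear map -/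
def lin (φ : HomOn M N U) {W : X.Opens} (h : W ≤ U) : Γ(M, W) →ₗ[Γ(X, W)] Γ(N, W) where
  toFun := φ.app W h
  map_add' := φ.app_add W h
  map_smul' := φ.app_smul W h

@[simp] theorem lin_apply (φ : HomOn M N U) {W : X.Opens} (h : W ≤ U) (x : Γ(M, W)) :
    φ.lin h x = φ.app W h x := rfl

/-- restriction of a global homomorphism -/
noncomputable def ofHom (φ : M ⟶ N) (U : X.Opens) : HomOn M N U where
  app W _ x := φ.app W x
  app_add W _ x y := map_add _ _ _
  app_smul W _ a x := app_smul' φ a x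
  app_res W _ V hV _ x := H25.app_res φ hV x

/-- restriction -/
def restrict (φ : HomOn M N U) {V : X.Opens} (h : V ≤ U) : HomOn M N V where
  app W hW := φ.app W (hW.trans h)
  app_add W hW := φ.app_add W _
  app_smul W hW := φ.app_smul W _
  app_res W hW V hV h' := φ.app_res W _ V hV _

/-- composition -/
def comp {L : X.Modules} (φ : HomOn M N U) (ψ : HomOn N L U) : HomOn M L U where
  app W hW x := ψ.app W hW (φ.app W hW x)
  app_add W hW x y := by rw [φ.app_add, ψ.app_add]
  app_smul W hW a x := by rw [φ.app_smul, ψ.app_smul]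
  app_res W hW V hV h' x := by rw [φ.app_res W hW, ψ.app_res W hW]

/-- a homomorphism on `⊤` is a homomorphism -/
noncomputable def toHom (φ : HomOn M N ⊤) : M ⟶ N :=
  mkHom (fun W => AddMonoidHom.mk' (φ.app W le_top) (φ.app_add W le_top))
    (fun W => φ.app_smul W le_top)
    (fun W V hV x => φ.app_res W le_top V hV le_top x)

@[simp] theorem toHom_app (φ : HomOn M N ⊤) (W : X.Opens) (x : Γ(M, W)) :
    φ.toHom.app W x = φ.app W le_top x := rfl

theorem ext_gen {φ ψ : HomOn M N U} {ι : Type*} (W : ι → X.Opens) (hWU : ∀ i, W i ≤ U)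
    (hc : U ≤ ⨆ i, W i) (s : ∀ i, Γ(M, W i)) (hs : ∀ i, IsGen M (s i))
    (h : ∀ i, φ.app (W i) (hWU i) (s i) = ψ.app (W i) (hWU i) (s i)) : φ = ψ := by
  ext V hV x
  refine sec_ext (fun i ↦ V ⊓ W i) (fun i ↦ inf_le_left) (inf_cover (hV.trans hc)) ?_
  intro i
  obtain ⟨f, hf⟩ := (hs i).surj' (inf_le_right : V ⊓ W i ≤ W i) (res M inf_le_left x)
  have hVW : V ⊓ W i ≤ U := inf_le_left.trans hV
  rw [← φ.app_res V hV _ _ hVW, ← ψ.app_res V hV _ _ hVW, hf, φ.app_smul, ψ.app_smul,
    φ.app_res (W i) (hWU i), ψ.app_res (W i) (hWU i), h]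

end HomOn

variable {M N : X.Modules}

/-- glueing homomorphisms from generators -/
theorem exists_homOn {T : X.Opens} {ι : Type*} (U : ι → X.Opens) (hUT : ∀ i, U i ≤ T)
    (hU : T ≤ ⨆ i, U i) (s : ∀ i, Γ(M, U i)) (hs : ∀ i, IsGen M (s i)) (n : ∀ i, Γ(N, U i))
    (h : ∀ i j (W : X.Opens) (hi : W ≤ U i) (hj : W ≤ U j) (f : Γ(X, W)),
      res M hi (s i) = f • res M hj (s j) → res N hi (n i) = f • res N hj (n j)) :
    ∃ φ : HomOn M N T, ∀ i, φ.app (U i) (hUT i) (s i) = n i := by
  have hc : ∀ V : X.Opens, V ≤ T → V ≤ ⨆ i, U i := fun V hV ↦ hV.trans hU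
  have key : ∀ (V : X.Opens) (_ : V ≤ T) (x : Γ(M, V)), ∃ y : Γ(N, V), ∀ i (W : X.Opens)
      (hV : W ≤ V) (hi : W ≤ U i) (f : Γ(X, W)), res M hV x = f • res M hi (s i) →
        res N hV y = f • res N hi (n i) := by
    intro V hVT x
    have h1 : ∀ i, ∃ f : Γ(X, V ⊓ U i), res M (inf_le_left : V ⊓ U i ≤ V) x =
        f • res M (inf_le_right : V ⊓ U i ≤ U i) (s i) := fun i ↦ (hs i).surj' _ _
    choose f hf using h1
    obtain ⟨y, hy⟩ := sec_glue (M := N) (U := V) (fun i ↦ V ⊓ U i) (fun i ↦ inf_le_left)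
      (inf_cover (hc V hVT)) (fun i ↦ f i • res N (inf_le_right : V ⊓ U i ≤ U i) (n i)) (by
        intro i j W hi hj
        simp only [res_smul, res_res]
        obtain ⟨g, hg⟩ := (hs j).surj' (hj.trans inf_le_right) (res M (hi.trans inf_le_right) (s i))
        rw [h i j W _ _ g hg, ← mul_smul]
        congr 1
        refine ((hs j).res (hj.trans inf_le_right : W ≤ U j)).inj ?_
        have e1 := congrArg (res M hi) (hf i)
        have e2 := congrArg (res M hj) (hf j)
        simp only [res_smul, res_res] at e1 e2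
        rw [mul_smul, ← hg, ← e1, ← e2])
    refine ⟨y, ?_⟩
    intro i W hV hi g hg
    have hW : W ≤ V ⊓ U i := le_inf hV hi
    have e1 := congrArg (res M hW) (hf i)
    have e2 := congrArg (res N hW) (hy i)
    simp only [res_smul, res_res] at e1 e2
    rw [e2]
    congr 1
    refine ((hs i).res hi).inj ?_
    rw [← e1, hg]
  choose F hF using key
  have huniq : ∀ (V : X.Opens) (hV : V ≤ T) (x : Γ(M, V)) (y : Γ(N, V)),
      (∀ i, ∃ f : Γ(X, V ⊓ U i), res M (inf_le_left : V ⊓ U i ≤ V) x =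
        f • res M (inf_le_right : V ⊓ U i ≤ U i) (s i) ∧
        res N (inf_le_left : V ⊓ U i ≤ V) y = f • res N (inf_le_right : V ⊓ U i ≤ U i) (n i)) →
      F V hV x = y := by
    intro V hV x y hy
    refine sec_ext (fun i ↦ V ⊓ U i) (fun i ↦ inf_le_left) (inf_cover (hc V hV)) ?_
    intro i
    obtain ⟨f, hf, hf'⟩ := hy i
    rw [hF V hV x i _ _ _ f hf, hf']
  refine ⟨⟨F, ?_, ?_, ?_⟩, ?_⟩
  · intro V hV x x'
    refine huniq _ _ _ _ fun i ↦ ?_
    obtain ⟨f, hf⟩ := (hs i).surj' (inf_le_right : V ⊓ U i ≤ U i) (res M inf_le_left x)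
    obtain ⟨f', hf'⟩ := (hs i).surj' (inf_le_right : V ⊓ U i ≤ U i) (res M inf_le_left x')
    refine ⟨f + f', ?_, ?_⟩
    · rw [res_add, hf, hf', add_smul]
    · rw [res_add, hF V hV x i _ _ _ f hf, hF V hV x' i _ _ _ f' hf', add_smul]
  · intro V hV a x
    refine huniq _ _ _ _ fun i ↦ ?_
    obtain ⟨f, hf⟩ := (hs i).surj' (inf_le_right : V ⊓ U i ≤ U i) (res M inf_le_left x)
    refine ⟨resO inf_le_left a * f, ?_, ?_⟩
    · rw [res_smul, hf, mul_smul]
    · rw [res_smul, hF V hV x i _ _ _ f hf, mul_smul]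
  · intro V hV W hWV hW x
    refine huniq _ _ _ _ fun i ↦ ?_
    obtain ⟨f, hf⟩ := (hs i).surj' (inf_le_right : V ⊓ U i ≤ U i) (res M inf_le_left x)
    refine ⟨resO (inf_le_inf_right _ hWV) f, ?_, ?_⟩
    · have := congrArg (res M (inf_le_inf_right (U i) hWV)) hf
      simpa only [res_smul, res_res] using this
    · have := congrArg (res N (inf_le_inf_right (U i) hWV)) (hF V hV x i _ _ _ f hf)
      simp only [res_smul, res_res] at this
      rw [res_res]
      exact this
  · intro i
    have := hF (U i) (hUT i) (s i) i (U i) le_rfl le_rfl 1 (by simp)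
    simp only [res_self, one_smul] at this
    exact this

/-- A linear map on sections over an affine open extends to a homomorphism of sheaves there. -/
theorem exists_homOn_of_linear {U : X.Opens} (hU : IsAffineOpen U)
    (hM : Scheme.Modules.IsInvertible M) (ψ : Γ(M, U) →ₗ[Γ(X, U)] Γ(N, U)) :
    ∃ φ : HomOn M N U, ∀ x, φ.app U le_rfl x = ψ x := by
  obtain ⟨ι, _, f, e, hgen, h⟩ := exists_locGen_cover hU hM
  obtain ⟨φ, hφ⟩ := exists_homOn (M := M) (N := N) (fun i => X.basicOpen (f i))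
    (fun i => X.basicOpen_le (f i)) (le_iSup_basicOpen hU h.span)
    (fun i => res M (X.basicOpen_le (f i)) (e i)) hgen
    (fun i => res N (X.basicOpen_le (f i)) (ψ (e i))) (by
      intro i j W hi hj g hg
      rw [res_res, res_res] at hg ⊢
      -- on `D(f i) ⊓ D(f j)`
      let D : X.Opens := X.basicOpen (f i) ⊓ X.basicOpen (f j)
      have hWD : W ≤ D := le_inf hi hj
      have hDU : D ≤ U := inf_le_left.trans (X.basicOpen_le (f i))
      have hD : D = X.basicOpen (f i * f j) := (X.basicOpen_mul _ _).symm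
      have hgj : IsGen M (res M hDU (e j)) := by
        have := (hgen j).res (inf_le_right : D ≤ _)
        rwa [res_res] at this
      obtain ⟨g', hg'⟩ := hgj.surj (res M hDU (e i))
      obtain ⟨m, b, hb⟩ := resO_surj hU (f i * f j) hD hDU g'
      have h1 : res M hDU ((f i * f j) ^ m • e i - b • e j) = 0 := by
        rw [res_sub, res_smul, res_smul, hg', hb, resO_pow, smul_smul, sub_self]
      obtain ⟨l, hl⟩ := res_inj hU hM (f i * f j) hD hDU _ h1
      have h2 := congrArg ψ hl
      rw [map_smul, map_sub, map_smul, map_smul, map_zero] at h2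
      have h3 := congrArg (res N hDU) h2
      rw [res_zero, res_smul, res_sub, res_smul, res_smul, hb, resO_pow, resO_pow] at h3
      have hu : IsUnit (resO hDU (f i * f j)) := isUnit_resO _ hD.le hDU
      rw [(hu.pow l).smul_eq_zero, mul_smul, ← smul_sub, (hu.pow m).smul_eq_zero, sub_eq_zero] at h3
      have h4 := congrArg (res N hWD) h3
      rw [res_res, res_smul, res_res] at h4
      rw [h4]
      congr 1
      refine (hgj.res hWD).inj ?_
      have h5 := congrArg (res M hWD) hg'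
      rw [res_res, res_smul, res_res] at h5
      rw [res_res, ← h5, hg])
  refine ⟨φ, fun x => ?_⟩
  refine sec_ext (fun i => X.basicOpen (f i)) (fun i => X.basicOpen_le (f i))
    (le_iSup_basicOpen hU h.span) fun i => ?_
  obtain ⟨n, a, hna⟩ := h.surj i x
  have hu : IsUnit (resO (X.basicOpen_le (f i)) (f i) ^ n) :=
    (isUnit_resO (f i) le_rfl (X.basicOpen_le (f i))).pow n
  rw [← hu.smul_left_cancel, ← resO_pow, ← res_smul, ← res_smul,
    ← φ.app_smul, ← map_smul, hna, map_smul, φ.app_smul, res_smul, res_smul,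
    ← φ.app_res U le_rfl _ (X.basicOpen_le (f i)) (X.basicOpen_le (f i)), hφ]

theorem HomOn.ext_affine {U : X.Opens} (hU : IsAffineOpen U) (hM : Scheme.Modules.IsInvertible M)
    {φ ψ : HomOn M N U} (h : ∀ x, φ.app U le_rfl x = ψ.app U le_rfl x) : φ = ψ := by
  obtain ⟨ι, _, f, e, hgen, hfe⟩ := exists_locGen_cover hU hM
  refine HomOn.ext_gen (fun i => X.basicOpen (f i)) (fun i => X.basicOpen_le (f i))
    (le_iSup_basicOpen hU hfe.span) _ hgen fun i => ?_
  rw [φ.app_res U le_rfl, ψ.app_res U le_rfl, h]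

/-- bijective on sections over an affine open implies generators go to generators -/
theorem isGen_app_of_bijective {U : X.Opens} (hU : IsAffineOpen U)
    (hM : Scheme.Modules.IsInvertible M) (hN : Scheme.Modules.IsInvertible N) (φ : HomOn M N U)
    (hφ : Function.Bijective (φ.app U le_rfl)) {V : X.Opens} (hV : V ≤ U) {s : Γ(M, V)}
    (hs : IsGen M s) : IsGen N (φ.app V hV s) := by
  obtain ⟨ι, _, f, e, hgen, h⟩ := exists_locGen_cover hU hM
  have h' : LocGen f (fun i => φ.app U le_rfl (e i)) := by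
    refine ⟨h.span, fun i y => ?_, fun i a ha => ?_⟩
    · obtain ⟨x, rfl⟩ := hφ.2 y
      obtain ⟨n, a, hna⟩ := h.surj i x
      exact ⟨n, a, by rw [← φ.app_smul, hna, φ.app_smul]⟩
    · rw [← φ.app_smul] at ha
      exact h.inj i a (hφ.1 (by rw [ha, φ.app_zero]))
  refine IsGen.of_cover (fun i => X.basicOpen (f i) ⊓ V) (fun i => inf_le_right) ?_ fun i => ?_
  · rw [← iSup_inf_eq]
    exact le_inf (hV.trans (le_iSup_basicOpen hU h.span)) le_rfl
  · have hle : X.basicOpen (f i) ⊓ V ≤ U := inf_le_right.trans hV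
    have hg1 : IsGen M (res M hle (e i)) := by
      have := (hgen i).res (inf_le_left : X.basicOpen (f i) ⊓ V ≤ _)
      rwa [res_res] at this
    have hg2 := isGen_of_locGen hU hN h' i (inf_le_left : X.basicOpen (f i) ⊓ V ≤ _) hle
    obtain ⟨g, hg⟩ := hg1.exists_unit (hs.res (inf_le_right : X.basicOpen (f i) ⊓ V ≤ V))
    rw [← φ.app_res V hV _ _ hle, hg, φ.app_smul, φ.app_res U le_rfl _ hle hle]
    exact hg2.unit_smul g.isUnit

/-- iso detection on an affine cover -/
theorem isIso_of_affine_cover (hM : Scheme.Modules.IsInvertible M)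
    (hN : Scheme.Modules.IsInvertible N) (φ : M ⟶ N) {ι : Type*} (U : ι → X.Opens)
    (hU : ∀ i, IsAffineOpen (U i)) (hc : ⨆ i, U i = ⊤)
    (hφ : ∀ i, Function.Bijective (φ.app (U i))) : IsIso φ := by
  refine isIso_of_isGen φ fun x => ?_
  have hx : x ∈ ⨆ i, U i := hc ▸ trivial
  obtain ⟨i, hi⟩ := Opens.mem_iSup.mp hx
  obtain ⟨V, hVU, hxV, s, hs⟩ := exists_isGen_of_mem hM hi
  exact ⟨V, hxV, s, hs, isGen_app_of_bijective (hU i) hM hN (HomOn.ofHom φ (U i)) (hφ i) hVU hs⟩

end Fermat.Agent.H51Aff
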