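import Mathlib
import Fermat.Agent.H25Glue2
import Fermat.Agent.H51Hom

/-!
# Base change of sections of invertible modules and of functions (S25-B2)
-/

set_option autoImplicit false
set_option maxSynthPendingDepth 3
set_option linter.style.haveILetI false
set_option linter.unusedVariables false

open CategoryTheory AlgebraicGeometry CategoryTheory.Limits TopologicalSpace

namespace Fermat.Agent.H51Aff

open Fermat.Agent.H25 Fermat.Agent.H51Inv

universe u

/-! ### comparison of `HomOn` and `LHom` -/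

section Compare

variable {X : Scheme.{u}} {M N : X.Modules} {U : X.Opens}

/-- `HomOn` to `LHom` -/
noncomputable def HomOn.toLHom (φ : HomOn M N U) : LHom U M N where
  f W h := AddMonoidHom.mk' (φ.app W h) (φ.app_add W h)
  smul W h a x := φ.app_smul W h a x
  res W V h h' x := φ.app_res W h V h' _ x

@[simp] theorem HomOn.toLHom_f (φ : HomOn M N U) (W : X.Opens) (h : W ≤ U) (x : Γ(M, W)) :
    φ.toLHom.f W h x = φ.app W h x := rfl

/-- `LHom` to `HomOn` -/
noncomputable def _root_.Fermat.Agent.H51Aff.HomOn.ofLHom (φ : LHom U M N) : HomOn M N U where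
  app W h x := φ.f W h x
  app_add W h x y := map_add _ _ _
  app_smul W h a x := φ.smul W h a x
  app_res W h V hV h' x := φ.res W V h hV x

@[simp] theorem HomOn.ofLHom_app (φ : LHom U M N) (W : X.Opens) (h : W ≤ U) (x : Γ(M, W)) :
    (HomOn.ofLHom φ).app W h x = φ.f W h x := rfl

theorem exists_lHom_of_linear (hU : IsAffineOpen U)
    (hM : Scheme.Modules.IsInvertible M) (ψ : Γ(M, U) →ₗ[Γ(X, U)] Γ(N, U)) :
    ∃ φ : LHom U M N, ∀ x, φ.f U le_rfl x = ψ x := by
  obtain ⟨φ, hφ⟩ := exists_homOn_of_linear hU hM ψ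
  exact ⟨φ.toLHom, hφ⟩

theorem LHom_ext_affine (hU : IsAffineOpen U) (hM : Scheme.Modules.IsInvertible M)
    {φ ψ : LHom U M N} (h : ∀ x, φ.f U le_rfl x = ψ.f U le_rfl x) : φ = ψ := by
  have := HomOn.ext_affine hU hM (φ := HomOn.ofLHom φ) (ψ := HomOn.ofLHom ψ) h
  refine LHom.ext' fun W hW x => ?_
  exact congrArg (fun χ : HomOn M N U => χ.app W hW x) this

/-- an isomorphism over an affine open from a linear equivalence -/
theorem exists_lIso_of_linearEquiv (hU : IsAffineOpen U)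
    (hM : Scheme.Modules.IsInvertible M) (hN : Scheme.Modules.IsInvertible N)
    (ψ : Γ(M, U) ≃ₗ[Γ(X, U)] Γ(N, U)) :
    ∃ φ : LIso U M N, (∀ x, φ.hom.f U le_rfl x = ψ x) ∧ (∀ x, φ.inv.f U le_rfl x = ψ.symm x) := by
  obtain ⟨φ, hφ⟩ := exists_lHom_of_linear (N := N) hU hM ψ.toLinearMap
  obtain ⟨χ, hχ⟩ := exists_lHom_of_linear (N := M) hU hN ψ.symm.toLinearMap
  have h1 : φ.comp χ = LHom.id U M := LHom_ext_affine hU hM fun x => by
    rw [LHom.comp_f, hφ, hχ]; simp
  have h2 : χ.comp φ = LHom.id U N := LHom_ext_affine hU hN fun x => by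
    rw [LHom.comp_f, hχ, hφ]; simp
  refine ⟨⟨φ, χ, fun W hW x => ?_, fun W hW x => ?_⟩, hφ, hχ⟩
  · exact congrArg (fun χ : LHom U M M => χ.f W hW x) h1
  · exact congrArg (fun χ : LHom U N N => χ.f W hW x) h2

end Compare

/-! ### pullback of sections is a base change -/

section Pullback

variable {X Y : Scheme.{u}} (f : X ⟶ Y) {M : Y.Modules}

theorem appLE_eq_resO {V : Y.Opens} {W : X.Opens} (h : W ≤ f ⁻¹ᵁ V) (a : Γ(Y, V)) :
    f.appLE V W h a = resO h (f.app V a) := rfl

/-- local generators pull back to local generators -/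
theorem locGen_pb (hM : Scheme.Modules.IsInvertible M) {V : Y.Opens} (hV : IsAffineOpen V)
    {W : X.Opens} (hW : IsAffineOpen W) (h : W ≤ f ⁻¹ᵁ V) {ι : Type*} {g : ι → Γ(Y, V)}
    {e : ι → Γ(M, V)} (hge : LocGen g e) :
    LocGen (fun i => resO h (f.app V (g i))) (fun i => res _ h (pb f M (e i))) := by
  refine locGen_of_isGen hW (hM.pullback f) ?_ fun i => ?_
  · have := congrArg (Ideal.map ((resOHom h).comp (f.app V).hom)) hge.span
    rw [Ideal.map_span, Ideal.map_top, ← Set.range_comp] at this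
    exact this
  · have h1 : IsGen M (res M (Y.basicOpen_le (g i)) (e i)) := isGen_of_locGen hV hM hge i le_rfl _
    have h2 := h1.pb f M
    rw [pb_res] at h2
    have hle : X.basicOpen (resO h (f.app V (g i))) ≤ f ⁻¹ᵁ (Y.basicOpen (g i)) := by
      rw [basicOpen_resO, Scheme.preimage_basicOpen]
      exact inf_le_right
    have h3 := h2.res hle
    rw [res_res] at h3 ⊢
    exact h3

/-- Sections of the pullback over an affine open mapping into an affine open are the base change. -/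
theorem isBaseChange_pb (hM : Scheme.Modules.IsInvertible M) {V : Y.Opens} (hV : IsAffineOpen V)
    {W : X.Opens} (hW : IsAffineOpen W) (h : W ≤ f ⁻¹ᵁ V)
    [Algebra Γ(Y, V) Γ(X, W)] [Module Γ(Y, V) Γ((Scheme.Modules.pullback f).obj M, W)]
    [IsScalarTower Γ(Y, V) Γ(X, W) Γ((Scheme.Modules.pullback f).obj M, W)]
    (halg : ∀ a, algebraMap Γ(Y, V) Γ(X, W) a = resO h (f.app V a))
    (β : Γ(M, V) →ₗ[Γ(Y, V)] Γ((Scheme.Modules.pullback f).obj M, W))
    (hβ : ∀ x, β x = res _ h (pb f M x)) :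
    IsBaseChange Γ(X, W) β := by
  obtain ⟨ι, _, g, e, -, hge⟩ := exists_locGen_cover hV hM
  refine hge.isBaseChange Γ(X, W) β ?_
  simp only [halg, hβ]
  exact locGen_pb f hM hV hW h hge

/-- sections of the pullback are spanned by pullbacks of sections -/
theorem span_range_pb (hM : Scheme.Modules.IsInvertible M) {V : Y.Opens} (hV : IsAffineOpen V)
    {W : X.Opens} (hW : IsAffineOpen W) (h : W ≤ f ⁻¹ᵁ V) :
    Submodule.span Γ(X, W) (Set.range fun x : Γ(M, V) => res _ h (pb f M x)) = ⊤ := by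
  obtain ⟨ι, _, g, e, -, hge⟩ := exists_locGen_cover hV hM
  have h1 := (locGen_pb f hM hV hW h hge).span_eq_top
  rw [eq_top_iff, ← h1]
  exact Submodule.span_mono (by rintro _ ⟨i, rfl⟩; exact ⟨e i, rfl⟩)

end Pullback

end Fermat.Agent.H51Aff

namespace Fermat.Agent.H51Pb

open Fermat.Agent.H25 Fermat.Agent.H51Inv Fermat.Agent.H51Aff

universe u

/-! ### base change of functions -/

section Functions

variable {R A : Type u} [CommRing R] [CommRing A] {X Y : Scheme.{u}}
  {x : X ⟶ Spec (CommRingCat.of R)} {y : Y ⟶ Spec (CommRingCat.of A)} {g : Y ⟶ X}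
  {f : Spec (CommRingCat.of A) ⟶ Spec (CommRingCat.of R)}

include y in
theorem strHom_comp_app (w : g ≫ x = y ≫ f) (U : X.Opens) :
    CommRingCat.ofHom (strHom x U) ≫ g.app U = Spec.preimage f ≫
      CommRingCat.ofHom (strHom y (g ⁻¹ᵁ U)) := by
  have h1 : x.appLE ⊤ U le_top ≫ g.appLE U (g ⁻¹ᵁ U) le_rfl =
      (g ≫ x).appLE ⊤ (g ⁻¹ᵁ U) le_top :=
    Scheme.Hom.appLE_comp_appLE ..
  have h2 : f.appLE ⊤ ⊤ le_top ≫ y.appLE ⊤ (g ⁻¹ᵁ U) le_top =
      (y ≫ f).appLE ⊤ (g ⁻¹ᵁ U) le_top :=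
    Scheme.Hom.appLE_comp_appLE ..
  have h3 : (g ≫ x).appLE ⊤ (g ⁻¹ᵁ U) le_top =
      (y ≫ f).appLE ⊤ (g ⁻¹ᵁ U) le_top := by
    simp only [w]
  rw [strHom, strHom, CommRingCat.ofHom_hom, CommRingCat.ofHom_hom, Category.assoc,
    Scheme.ΓSpecIso_inv_naturality_assoc, Spec.map_preimage, Scheme.Hom.app_eq_appLE,
    Scheme.Hom.appTop, Scheme.Hom.app_eq_appLE, h1, h3, ← h2]
  rfl

/-- compatibility of structure maps -/
theorem app_strHom (w : g ≫ x = y ≫ f) (U : X.Opens) (r : R) :
    g.app U (strHom x U r) = strHom y (g ⁻¹ᵁ U) ((Spec.preimage f).hom r) :=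
  congr($(strHom_comp_app w U).hom r)

theorem resO_strHom {U V : X.Opens} (h : V ≤ U) (r : R) :
    resO h (strHom x U r) = strHom x V r := by
  have h1 : x.appLE ⊤ U le_top ≫ X.presheaf.map (homOfLE h).op = x.appLE ⊤ V le_top :=
    Scheme.Hom.appLE_map ..
  exact congr($h1 ((Scheme.ΓSpecIso (CommRingCat.of R)).inv r))

theorem isAffineHom_of_isPullback (H : IsPullback g y x f) : IsAffineHom g := by
  have h : IsAffineHom f := isAffineHom_of_isAffine f
  have h2 : MorphismProperty.IsStableUnderBaseChange @IsAffineHom.{u} :=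
    isAffineHom_isStableUnderBaseChange
  exact MorphismProperty.IsStableUnderBaseChange.of_isPullback (P := @IsAffineHom.{u}) H.flip h

theorem isAffineOpen_preimage (H : IsPullback g y x f) {U : X.Opens} (hU : IsAffineOpen U) :
    IsAffineOpen (g ⁻¹ᵁ U) := by
  haveI := isAffineHom_of_isPullback H
  exact hU.preimage g

/-- `Γ(X_A, U_A) = Γ(X, U) ⊗_R A` -/
theorem isPushout_strHom (H : IsPullback g y x f) {U : X.Opens} (hU : IsAffineOpen U) :
    IsPushout (CommRingCat.ofHom (strHom x U)) (Spec.preimage f) (g.app U)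
      (CommRingCat.ofHom (strHom y (g ⁻¹ᵁ U))) := by
  have hUY : g ⁻¹ᵁ U = g ⁻¹ᵁ U ⊓ y ⁻¹ᵁ ⊤ := by
    rw [Scheme.Hom.preimage_top, inf_top_eq]
  have h1 := (isIso_pushoutSection_iff H
    (US := ⊤) (UT := ⊤) (UX := U) le_top le_top (UY := g ⁻¹ᵁ U) hUY).mp
    (isIso_pushoutSection_of_isAffineOpen H _ _ _
      (isAffineOpen_top _) (isAffineOpen_top _) hU)
  refine h1.of_iso (Scheme.ΓSpecIso (.of R)) (Iso.refl _) (Scheme.ΓSpecIso (.of A)) (Iso.refl _)
    ?_ ?_ ?_ ?_
  · rw [Iso.refl_hom, Category.comp_id]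
    rw [strHom, CommRingCat.ofHom_hom, Iso.hom_inv_id_assoc]
  · rw [← Scheme.ΓSpecIso_naturality, Spec.map_preimage]
    rw [Scheme.Hom.appTop, Scheme.Hom.app_eq_appLE]
    rfl
  · rw [Iso.refl_hom, Iso.refl_hom, Category.id_comp, Category.comp_id, Scheme.Hom.app_eq_appLE]
  · rw [Iso.refl_hom, Category.comp_id]
    rw [strHom, CommRingCat.ofHom_hom, Iso.hom_inv_id_assoc]

end Functions

/-! ### base change of a polynomial basis -/

section Basis

variable {R A B B' : Type u} [CommRing R] [CommRing A] [CommRing B] [CommRing B']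

theorem isBaseChange_of_isPushout [Algebra R A] [Algebra R B] [Algebra A B'] [Algebra B B']
    [Algebra R B'] [IsScalarTower R A B'] [IsScalarTower R B B']
    (H : IsPushout (CommRingCat.ofHom (algebraMap R B)) (CommRingCat.ofHom (algebraMap R A))
      (CommRingCat.ofHom (algebraMap B B')) (CommRingCat.ofHom (algebraMap A B'))) :
    IsBaseChange A (IsScalarTower.toAlgHom R B B').toLinearMap := by
  have h1 : Algebra.IsPushout R B A B' := CommRingCat.isPushout_iff_isPushout.mp H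
  exact h1.symm.out

theorem bijective_of_isBaseChange_comp {M N O : Type*} [AddCommGroup M] [AddCommGroup N]
    [AddCommGroup O] [Algebra R A] [Module R M] [Module R N] [Module R O] [Module A N] [Module A O]
    [IsScalarTower R A N] [IsScalarTower R A O] {f : M →ₗ[R] N} (hf : IsBaseChange A f)
    (h : N →ₗ[A] O) (hc : IsBaseChange A ((h.restrictScalars R) ∘ₗ f)) : Function.Bijective h := by
  have h1 : h = (hf.equiv.symm ≪≫ₗ hc.equiv).toLinearMap := by
    refine hf.algHom_ext' _ _ ?_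
    ext x
    simp [IsBaseChange.equiv_symm_apply, IsBaseChange.equiv_tmul]
  rw [h1]
  exact (hf.equiv.symm ≪≫ₗ hc.equiv).bijective

section

attribute [local instance] Polynomial.algebra

theorem isBaseChange_polynomial [Algebra R A] :
    IsBaseChange A (Polynomial.mapAlgHom (Algebra.ofId R A)).toLinearMap := by
  have h1 : Algebra.IsPushout R A (Polynomial R) (Polynomial A) := inferInstance
  exact h1.out

end

theorem bijective_baseChange (φ : R →+* A) (i : R →+* B) (i' : A →+* B') (g : B →+* B')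
    (H : IsPushout (CommRingCat.ofHom i) (CommRingCat.ofHom φ)
      (CommRingCat.ofHom g) (CommRingCat.ofHom i')) {n : ℕ} (t : B) (b : Fin n → B)
    (hb : Function.Bijective (fun f : Fin n → Polynomial R => ∑ j, (f j).eval₂ i t * b j)) :
    Function.Bijective (fun f : Fin n → Polynomial A => ∑ j, (f j).eval₂ i' (g t) * g (b j)) := by
  letI : Algebra R A := φ.toAlgebra
  letI : Algebra R B := i.toAlgebra
  letI : Algebra A B' := i'.toAlgebra
  letI : Algebra B B' := g.toAlgebra
  letI : Algebra R B' := (g.comp i).toAlgebra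
  haveI : IsScalarTower R B B' := IsScalarTower.of_algebraMap_eq fun x => rfl
  have hw : g.comp i = i'.comp φ := by
    have := H.w
    rw [← CommRingCat.ofHom_comp, ← CommRingCat.ofHom_comp] at this
    exact congrArg CommRingCat.Hom.hom this
  haveI : IsScalarTower R A B' := IsScalarTower.of_algebraMap_eq fun x => by
    change (g.comp i) x = (i'.comp φ) x
    rw [hw]
  have hbc := isBaseChange_of_isPushout (R := R) (A := A) (B := B) (B' := B') H
  -- the two maps
  let Φ : (Fin n → Polynomial R) →ₗ[R] B :=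
    { toFun := fun f => ∑ j, (f j).eval₂ i t * b j
      map_add' := fun f f' => by
        simp only [Pi.add_apply, Polynomial.eval₂_add, add_mul, Finset.sum_add_distrib]
      map_smul' := fun r f => by
        simp only [Pi.smul_apply, Polynomial.eval₂_smul, RingHom.id_apply]
        rw [Algebra.smul_def, Finset.mul_sum]
        simp only [mul_assoc]
        rfl }
  let Φe : (Fin n → Polynomial R) ≃ₗ[R] B := LinearEquiv.ofBijective Φ hb
  let Φ' : (Fin n → Polynomial A) →ₗ[A] B' :=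
    { toFun := fun f => ∑ j, (f j).eval₂ i' (g t) * g (b j)
      map_add' := fun f f' => by
        simp only [Pi.add_apply, Polynomial.eval₂_add, add_mul, Finset.sum_add_distrib]
      map_smul' := fun r f => by
        simp only [Pi.smul_apply, Polynomial.eval₂_smul, RingHom.id_apply]
        rw [Algebra.smul_def, Finset.mul_sum]
        simp only [mul_assoc]
        rfl }
  let γ : (Fin n → Polynomial R) →ₗ[R] (Fin n → Polynomial A) :=
    ((Polynomial.mapAlgHom (Algebra.ofId R A)).toLinearMap).compLeft (Fin n)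
  have hγ : IsBaseChange A γ := (isBaseChange_polynomial (R := R) (A := A)).finitePow (Fin n)
  have hcomm : (Φ'.restrictScalars R) ∘ₗ γ =
      (IsScalarTower.toAlgHom R B B').toLinearMap ∘ₗ Φe.toLinearMap := by
    apply LinearMap.ext
    intro f
    change ∑ j, (Polynomial.map (algebraMap R A) (f j)).eval₂ i' (g t) * g (b j) =
      g (∑ j, (f j).eval₂ i t * b j)
    rw [map_sum]
    refine Finset.sum_congr rfl fun j _ => ?_
    rw [map_mul, Polynomial.eval₂_map, Polynomial.hom_eval₂, hw]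
    rfl
  exact bijective_of_isBaseChange_comp hγ Φ' (by
    rw [hcomm]
    exact IsBaseChange.comp_equiv Φe _ hbc)

end Basis

/-! ### base change of a two-chart presentation -/

section TwoChart

variable {R A : Type u} [CommRing R] [CommRing A] {X Y : Scheme.{u}}
  {x : X ⟶ Spec (CommRingCat.of R)} {y : Y ⟶ Spec (CommRingCat.of A)} {g : Y ⟶ X}
  {f : Spec (CommRingCat.of A) ⟶ Spec (CommRingCat.of R)}

/-- base change of a two-chart presentation to an affine base, along any cartesian square -/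
noncomputable def twoChartOfIsPullback (H : IsPullback g y x f) (τ : TwoChart x) : TwoChart y where
  U := g ⁻¹ᵁ τ.U
  V := g ⁻¹ᵁ τ.V
  affU := isAffineOpen_preimage H τ.affU
  affV := isAffineOpen_preimage H τ.affV
  cover := by
    rw [← Scheme.Hom.preimage_sup, τ.cover]; rfl
  t := g.app τ.U τ.t
  s := g.app τ.V τ.s
  basic_t := by
    rw [← Scheme.preimage_basicOpen, τ.basic_t, Scheme.Hom.preimage_inf]
  basic_s := by
    rw [← Scheme.preimage_basicOpen, τ.basic_s, Scheme.Hom.preimage_inf]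
  mul_eq_one := by
    have h1 := congrArg (g.app (τ.U ⊓ τ.V)) τ.mul_eq_one
    rw [map_mul, map_one, app_resO, app_resO] at h1
    exact h1
  n := τ.n
  bU i := g.app τ.U (τ.bU i)
  basisU := bijective_baseChange (Spec.preimage f).hom (strHom x τ.U)
    (strHom y (g ⁻¹ᵁ τ.U)) (g.app τ.U).hom
    (isPushout_strHom H τ.affU) τ.t τ.bU τ.basisU
  bV i := g.app τ.V (τ.bV i)
  basisV := bijective_baseChange (Spec.preimage f).hom (strHom x τ.V)
    (strHom y (g ⁻¹ᵁ τ.V)) (g.app τ.V).hom
    (isPushout_strHom H τ.affV) τ.s τ.bV τ.basisV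

/-- base change of a two-chart presentation to an affine base -/
noncomputable def baseChange {C : Scheme.{u}} {c : C ⟶ Spec (CommRingCat.of R)} (τ : TwoChart c)
    (t : Spec (CommRingCat.of A) ⟶ Spec (CommRingCat.of R)) : TwoChart (pullback.snd c t) :=
  twoChartOfIsPullback (IsPullback.of_hasPullback c t) τ

end TwoChart

/-! ### `IsBaseChange` form -/

section IsBaseChange

variable {R A : Type u} [CommRing R] [CommRing A] {X Y : Scheme.{u}}
  {x : X ⟶ Spec (CommRingCat.of R)} {y : Y ⟶ Spec (CommRingCat.of A)} {g : Y ⟶ X}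
  {f : Spec (CommRingCat.of A) ⟶ Spec (CommRingCat.of R)}

/-- `Γ(X_A, U_A) = A ⊗_R Γ(X, U)`, as a base change of modules -/
theorem isBaseChange_strHom (H : IsPullback g y x f) {U : X.Opens} (hU : IsAffineOpen U)
    [Algebra R A] (hA : algebraMap R A = (Spec.preimage f).hom)
    [Algebra R Γ(X, U)] (hB : algebraMap R Γ(X, U) = strHom x U)
    [Algebra A Γ(Y, g ⁻¹ᵁ U)] (hB' : algebraMap A Γ(Y, g ⁻¹ᵁ U) = strHom y (g ⁻¹ᵁ U))
    [Module R Γ(Y, g ⁻¹ᵁ U)] [IsScalarTower R A Γ(Y, g ⁻¹ᵁ U)]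
    (β : Γ(X, U) →ₗ[R] Γ(Y, g ⁻¹ᵁ U)) (hβ : ∀ a, β a = g.app U a) : IsBaseChange A β := by
  letI alg1 : Algebra Γ(X, U) Γ(Y, g ⁻¹ᵁ U) := (g.app U).hom.toAlgebra
  have hsm : ∀ (r : R) (a : Γ(Y, g ⁻¹ᵁ U)), r • a =
      (algebraMap A Γ(Y, g ⁻¹ᵁ U)) (algebraMap R A r) * a := by
    intro r a
    rw [← IsScalarTower.algebraMap_smul A r a, Algebra.smul_def]
  letI alg2 : Algebra R Γ(Y, g ⁻¹ᵁ U) :=
    ((algebraMap A Γ(Y, g ⁻¹ᵁ U)).comp (algebraMap R A)).toAlgebra
  have hmod : ‹Module R Γ(Y, g ⁻¹ᵁ U)› = alg2.toModule :=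
    Module.ext' _ _ fun r x => hsm r x
  subst hmod
  haveI : IsScalarTower R A Γ(Y, g ⁻¹ᵁ U) :=
    IsScalarTower.of_algebraMap_eq fun x => rfl
  haveI : IsScalarTower R Γ(X, U) Γ(Y, g ⁻¹ᵁ U) :=
    IsScalarTower.of_algebraMap_eq fun r => by
      change (algebraMap A Γ(Y, g ⁻¹ᵁ U)) (algebraMap R A r) =
        g.app U (algebraMap R Γ(X, U) r)
      rw [hB, hB', hA, app_strHom H.w]
  have h2 := isBaseChange_of_isPushout (R := R) (A := A) (B := Γ(X, U))
    (B' := Γ(Y, g ⁻¹ᵁ U)) (by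
      have := isPushout_strHom H hU
      rw [← hB, ← hB', ← CommRingCat.ofHom_hom (Spec.preimage f), ← hA] at this
      exact this)
  have h3 : β = (IsScalarTower.toAlgHom R Γ(X, U) Γ(Y, g ⁻¹ᵁ U)).toLinearMap := by
    ext x
    exact hβ x
  rw [h3]
  exact h2

/-- pure algebra: composing a base change of modules with a pushout of rings -/
theorem isBaseChange_comp_isPushout {R A B B' : Type*} [CommRing R] [CommRing A] [CommRing B]
    [CommRing B'] [Algebra R A] [Algebra R B] [Algebra A B'] [Algebra B B'] [Algebra R B']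
    [IsScalarTower R A B'] [IsScalarTower R B B'] [Algebra.IsPushout R A B B']
    {N N' : Type*} [AddCommGroup N] [AddCommGroup N'] [Module R N] [Module B N]
    [IsScalarTower R B N] [Module R N'] [Module A N'] [Module B N'] [Module B' N']
    [IsScalarTower B B' N'] [IsScalarTower A B' N'] [IsScalarTower R A N']
    (β : N →ₗ[B] N') (hβ : IsBaseChange B' β) (β' : N →ₗ[R] N') (h : ∀ n, β' n = β n) :
    IsBaseChange A β' := by
  refine IsBaseChange.of_equiv ((Algebra.IsPushout.cancelBaseChange R A B B' N).symm ≪≫ₗ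
    hβ.equiv.restrictScalars A) fun n => ?_
  rw [LinearEquiv.trans_apply, Algebra.IsPushout.cancelBaseChange_symm_tmul, map_one]
  rw [h]
  exact (hβ.equiv_tmul 1 n).trans (one_smul _ _)

/-- sections of the pulled back invertible module are the base change of the sections -/
theorem isBaseChange_pb_base (H : IsPullback g y x f) {M : X.Modules}
    (hM : Scheme.Modules.IsInvertible M) {U : X.Opens} (hU : IsAffineOpen U)
    [Algebra R A] (hA : algebraMap R A = (Spec.preimage f).hom)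
    [Module R Γ(M, U)] (hsm : ∀ (r : R) (m : Γ(M, U)), r • m = strHom x U r • m)
    [Module A Γ((Scheme.Modules.pullback g).obj M, g ⁻¹ᵁ U)]
    (hsm' : ∀ (a : A) (m : Γ((Scheme.Modules.pullback g).obj M, g ⁻¹ᵁ U)),
      a • m = strHom y (g ⁻¹ᵁ U) a • m)
    [Module R Γ((Scheme.Modules.pullback g).obj M, g ⁻¹ᵁ U)]
    [IsScalarTower R A Γ((Scheme.Modules.pullback g).obj M, g ⁻¹ᵁ U)]
    (β : Γ(M, U) →ₗ[R] Γ((Scheme.Modules.pullback g).obj M, g ⁻¹ᵁ U))
    (hβ : ∀ m, β m = pb g M m) : IsBaseChange A β := by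
  letI : Algebra R Γ(X, U) := (strHom x U).toAlgebra
  letI : Algebra A Γ(Y, g ⁻¹ᵁ U) := (strHom y (g ⁻¹ᵁ U)).toAlgebra
  letI : Algebra Γ(X, U) Γ(Y, g ⁻¹ᵁ U) := (g.app U).hom.toAlgebra
  letI : Algebra R Γ(Y, g ⁻¹ᵁ U) := ((strHom y (g ⁻¹ᵁ U)).comp (algebraMap R A)).toAlgebra
  letI : Module Γ(X, U) Γ((Scheme.Modules.pullback g).obj M, g ⁻¹ᵁ U) :=
    Module.compHom _ (g.app U).hom
  haveI : IsScalarTower R A Γ(Y, g ⁻¹ᵁ U) := IsScalarTower.of_algebraMap_eq fun r => rfl
  haveI : IsScalarTower R Γ(X, U) Γ(Y, g ⁻¹ᵁ U) :=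
    IsScalarTower.of_algebraMap_eq fun r => by
      change strHom y (g ⁻¹ᵁ U) (algebraMap R A r) = g.app U (strHom x U r)
      rw [hA, app_strHom H.w]
  haveI : IsScalarTower Γ(X, U) Γ(Y, g ⁻¹ᵁ U)
      Γ((Scheme.Modules.pullback g).obj M, g ⁻¹ᵁ U) := ⟨fun a b m => by
    rw [Algebra.smul_def, mul_smul]; rfl⟩
  haveI : IsScalarTower A Γ(Y, g ⁻¹ᵁ U)
      Γ((Scheme.Modules.pullback g).obj M, g ⁻¹ᵁ U) := ⟨fun a b m => by
    rw [Algebra.smul_def, mul_smul, hsm']; rfl⟩
  haveI : IsScalarTower R Γ(X, U) Γ(M, U) := ⟨fun a b m => by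
    rw [Algebra.smul_def, mul_smul, hsm]; rfl⟩
  haveI : Algebra.IsPushout R A Γ(X, U) Γ(Y, g ⁻¹ᵁ U) := by
    have h1 := isPushout_strHom H hU
    rw [← CommRingCat.ofHom_hom (Spec.preimage f), ← hA] at h1
    have h2 : Algebra.IsPushout R Γ(X, U) A Γ(Y, g ⁻¹ᵁ U) :=
      CommRingCat.isPushout_iff_isPushout.mp h1
    exact h2.symm
  let βB : Γ(M, U) →ₗ[Γ(X, U)] Γ((Scheme.Modules.pullback g).obj M, g ⁻¹ᵁ U) :=
    { toFun := pb g M
      map_add' := pb_add g M
      map_smul' := fun a m => pb_smul g M a m }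
  have hβB : IsBaseChange Γ(Y, g ⁻¹ᵁ U) βB :=
    isBaseChange_pb g hM hU (isAffineOpen_preimage H hU) le_rfl
      (fun a => (resO_self le_rfl _).symm) βB (fun m => (res_self _ le_rfl _).symm)
  exact isBaseChange_comp_isPushout (B := Γ(X, U)) (B' := Γ(Y, g ⁻¹ᵁ U)) βB hβB β hβ

end IsBaseChange

end Fermat.Agent.H51Pb
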