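import Fermat.Agent.H25Coc
/-!
# S25: glueing of modules and morphisms (job A2, part 2)
* `LHom U M N`: morphisms `M|_U ⟶ N|_U` in terms of sections; `LIso U M N`.
* `exists_hom_of_LHom`: glueing of morphisms, `exists_iso_of_LIso`.
* `exists_glued_module`: glueing of modules along `LIso`s.
* `LIso.ofIso`, `LIso.toIso`: comparison with isomorphisms `j^* M ≅ j^* N`.
-/
set_option autoImplicit false
universe u v
open CategoryTheory AlgebraicGeometry CategoryTheory.Limits TopologicalSpace Opposite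

noncomputable section

namespace Fermat.Agent.H25

variable {X Y Z : Scheme.{u}}

/-- morphisms `M|_U ⟶ N|_U` in terms of sections -/
@[ext]
structure LHom (U : X.Opens) (M N : X.Modules) where
  f : ∀ W : X.Opens, W ≤ U → Γ(M, W) →+ Γ(N, W)
  smul : ∀ (W : X.Opens) (h : W ≤ U) (a : Γ(X, W)) (x : Γ(M, W)), f W h (a • x) = a • f W h x
  res : ∀ (W V : X.Opens) (h : W ≤ U) (h' : V ≤ W) (x : Γ(M, W)),
    f V (h'.trans h) (res M h' x) = res N h' (f W h x)

namespace LHom

variable {U V : X.Opens} {M N P Q : X.Modules}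

lemma ext' {f g : LHom U M N} (h : ∀ W hW x, f.f W hW x = g.f W hW x) : f = g := by
  ext W hW x
  exact h W hW x

def id (U : X.Opens) (M : X.Modules) : LHom U M M where
  f _ _ := AddMonoidHom.id _
  smul _ _ _ _ := rfl
  res _ _ _ _ _ := rfl

def comp (f : LHom U M N) (g : LHom U N P) : LHom U M P where
  f W h := (g.f W h).comp (f.f W h)
  smul W h a x := by simp [f.smul, g.smul]
  res W V h h' x := by
    simp only [AddMonoidHom.comp_apply]
    rw [f.res W V h h', g.res W V h h']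

def restr (f : LHom U M N) (h : V ≤ U) : LHom V M N where
  f W h' := f.f W (h'.trans h)
  smul _ _ _ _ := f.smul _ _ _ _
  res _ _ _ _ _ := f.res _ _ _ _ _

def ofHom (U : X.Opens) (φ : M ⟶ N) : LHom U M N where
  f W _ := (φ.app W).hom
  smul _ _ a x := app_smul' φ a x
  res _ _ _ _ _ := app_res φ _ _

@[simp] lemma id_f (W : X.Opens) (h : W ≤ U) (x : Γ(M, W)) : (id U M).f W h x = x := rfl
@[simp] lemma comp_f (f : LHom U M N) (g : LHom U N P) (W : X.Opens) (h : W ≤ U) (x : Γ(M, W)) :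
    (f.comp g).f W h x = g.f W h (f.f W h x) := rfl
@[simp] lemma restr_f (f : LHom U M N) (h : V ≤ U) (W : X.Opens) (h' : W ≤ V) (x : Γ(M, W)) :
    (f.restr h).f W h' x = f.f W (h'.trans h) x := rfl
@[simp] lemma ofHom_f (φ : M ⟶ N) (W : X.Opens) (h : W ≤ U) (x : Γ(M, W)) :
    (ofHom U φ).f W h x = φ.app W x := rfl

/-- glueing of morphisms -/
theorem exists_hom {ι : Type*} (U : ι → X.Opens) (hU : ⨆ i, U i = ⊤) (f : ∀ i, LHom (U i) M N)
    (h : ∀ i j (W : X.Opens) (hi : W ≤ U i) (hj : W ≤ U j) (x : Γ(M, W)),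
      (f i).f W hi x = (f j).f W hj x) :
    ∃! φ : M ⟶ N, ∀ i (W : X.Opens) (hi : W ≤ U i) (x : Γ(M, W)), φ.app W x = (f i).f W hi x := by
  have hc : ∀ V : X.Opens, V ≤ ⨆ i, U i := fun V ↦ by rw [hU]; exact le_top
  have key : ∀ (V : X.Opens) (x : Γ(M, V)), ∃ y : Γ(N, V), ∀ i,
      H25.res N (inf_le_left : V ⊓ U i ≤ V) y =
        (f i).f (V ⊓ U i) inf_le_right (H25.res M inf_le_left x) := by
    intro V x
    refine sec_glue (M := N) (U := V) (fun i ↦ V ⊓ U i) (fun i ↦ inf_le_left) (inf_cover (hc V)) _ ?_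
    intro i j W hi hj
    rw [← (f i).res, ← (f j).res, res_res, res_res]
    exact h i j W _ _ _
  choose F hF using key
  have hF' : ∀ (V : X.Opens) (x : Γ(M, V)) (i : ι) (W : X.Opens) (hV : W ≤ V) (hi : W ≤ U i),
      H25.res N hV (F V x) = (f i).f W hi (H25.res M hV x) := by
    intro V x i W hV hi
    have := congrArg (H25.res N (le_inf hV hi)) (hF V x i)
    rw [← (f i).res, res_res, res_res] at this
    exact this
  have huniq : ∀ (V : X.Opens) (y y' : Γ(N, V)),
      (∀ i, H25.res N (inf_le_left : V ⊓ U i ≤ V) y = H25.res N (inf_le_left : V ⊓ U i ≤ V) y') →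
      y = y' := fun V y y' hy ↦
    sec_ext (fun i ↦ V ⊓ U i) (fun i ↦ inf_le_left) (inf_cover (hc V)) hy
  have hadd : ∀ (V : X.Opens) (x x' : Γ(M, V)), F V (x + x') = F V x + F V x' := by
    intro V x x'
    refine huniq _ _ _ fun i ↦ ?_
    rw [hF, res_add, map_add, res_add, hF, hF]
  refine ⟨mkHom (fun V ↦ AddMonoidHom.mk' (F V) (hadd V)) ?_ ?_, ?_, ?_⟩
  · intro V a x
    change F V (a • x) = a • F V x
    refine huniq _ _ _ fun i ↦ ?_
    rw [hF, res_smul, (f i).smul, res_smul, hF]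
  · intro V W hWV x
    change F W (H25.res M hWV x) = H25.res N hWV (F V x)
    refine huniq _ _ _ fun i ↦ ?_
    rw [hF, res_res, res_res, hF' V x i]
  · intro i W hi x
    change F W x = _
    have := hF' W x i W le_rfl hi
    simpa only [res_self] using this
  · intro φ hφ
    refine hom_ext_app fun V x ↦ ?_
    change _ = F V x
    refine huniq _ _ _ fun i ↦ ?_
    rw [← app_res, hφ i, hF]

end LHom

/-- isomorphisms `M|_U ≅ N|_U` in terms of sections -/
structure LIso (U : X.Opens) (M N : X.Modules) where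
  hom : LHom U M N
  inv : LHom U N M
  hom_inv : ∀ W hW x, inv.f W hW (hom.f W hW x) = x
  inv_hom : ∀ W hW x, hom.f W hW (inv.f W hW x) = x

namespace LIso

variable {U V : X.Opens} {M N P Q : X.Modules}

def refl (U : X.Opens) (M : X.Modules) : LIso U M M :=
  ⟨.id U M, .id U M, fun _ _ _ ↦ rfl, fun _ _ _ ↦ rfl⟩

def symm (e : LIso U M N) : LIso U N M := ⟨e.inv, e.hom, e.inv_hom, e.hom_inv⟩

def trans (e : LIso U M N) (e' : LIso U N P) : LIso U M P :=
  ⟨e.hom.comp e'.hom, e'.inv.comp e.inv, fun W hW x ↦ by simp [e.hom_inv, e'.hom_inv],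
    fun W hW x ↦ by simp [e.inv_hom, e'.inv_hom]⟩

def restr (e : LIso U M N) (h : V ≤ U) : LIso V M N :=
  ⟨e.hom.restr h, e.inv.restr h, fun _ _ _ ↦ e.hom_inv _ _ _, fun _ _ _ ↦ e.inv_hom _ _ _⟩

def ofIso (U : X.Opens) (e : M ≅ N) : LIso U M N :=
  ⟨.ofHom U e.hom, .ofHom U e.inv, fun W hW x ↦ by
      simp only [LHom.ofHom_f]
      rw [← ConcreteCategory.comp_apply, ← Scheme.Modules.Hom.comp_app, Iso.hom_inv_id]; rfl,
    fun W hW x ↦ by
      simp only [LHom.ofHom_f]
      rw [← ConcreteCategory.comp_apply, ← Scheme.Modules.Hom.comp_app, Iso.inv_hom_id]; rfl⟩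

@[simp] lemma refl_hom : (refl U M).hom = .id U M := rfl
@[simp] lemma symm_hom (e : LIso U M N) : e.symm.hom = e.inv := rfl
@[simp] lemma symm_inv (e : LIso U M N) : e.symm.inv = e.hom := rfl
@[simp] lemma trans_hom (e : LIso U M N) (e' : LIso U N P) :
    (e.trans e').hom = e.hom.comp e'.hom := rfl
@[simp] lemma restr_hom (e : LIso U M N) (h : V ≤ U) : (e.restr h).hom = e.hom.restr h := rfl
@[simp] lemma restr_inv (e : LIso U M N) (h : V ≤ U) : (e.restr h).inv = e.inv.restr h := rfl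
@[simp] lemma ofIso_hom (U : X.Opens) (e : M ≅ N) : (ofIso U e).hom = .ofHom U e.hom := rfl

lemma bijective (e : LIso U M N) (W : X.Opens) (h : W ≤ U) :
    Function.Bijective (e.hom.f W h) :=
  ⟨fun x y hxy ↦ by rw [← e.hom_inv W h x, hxy, e.hom_inv], fun x ↦ ⟨_, e.inv_hom W h x⟩⟩

lemma isGen (e : LIso U M N) {W : X.Opens} (h : W ≤ U) {s : Γ(M, W)} (hs : IsGen M s) :
    IsGen N (e.hom.f W h s) := by
  intro V hV
  have := (e.bijective V (hV.trans h)).comp (hs V hV)
  convert this using 1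
  funext a
  simp only [Function.comp_apply]
  rw [e.hom.smul, e.hom.res]

/-- glueing of isomorphisms -/
theorem exists_iso {ι : Type*} (U : ι → X.Opens) (hU : ⨆ i, U i = ⊤) (f : ∀ i, LIso (U i) M N)
    (h : ∀ i j (W : X.Opens) (hi : W ≤ U i) (hj : W ≤ U j) (x : Γ(M, W)),
      (f i).hom.f W hi x = (f j).hom.f W hj x) :
    ∃ φ : M ≅ N, ∀ i (W : X.Opens) (hi : W ≤ U i) (x : Γ(M, W)),
      φ.hom.app W x = (f i).hom.f W hi x := by
  obtain ⟨φ, hφ, -⟩ := LHom.exists_hom U hU (fun i ↦ (f i).hom) h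
  obtain ⟨ψ, hψ, -⟩ := LHom.exists_hom U hU (fun i ↦ (f i).inv) (by
    intro i j W hi hj x
    apply ((f i).bijective W hi).1
    rw [(f i).inv_hom, h i j W hi hj, (f j).inv_hom])
  have hc : ∀ V : X.Opens, V ≤ ⨆ i, U i := fun V ↦ by rw [hU]; exact le_top
  refine ⟨⟨φ, ψ, ?_, ?_⟩, hφ⟩
  · refine hom_ext_app fun V x ↦ ?_
    refine sec_ext (fun i ↦ V ⊓ U i) (fun i ↦ inf_le_left) (inf_cover (hc V)) fun i ↦ ?_
    rw [← app_res, ← app_res]
    simp only [Scheme.Modules.Hom.comp_app, ConcreteCategory.comp_apply]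
    rw [hφ i, hψ i, (f i).hom_inv]
    · rfl
    · exact inf_le_right
    · exact inf_le_right
  · refine hom_ext_app fun V x ↦ ?_
    refine sec_ext (fun i ↦ V ⊓ U i) (fun i ↦ inf_le_left) (inf_cover (hc V)) fun i ↦ ?_
    rw [← app_res, ← app_res]
    simp only [Scheme.Modules.Hom.comp_app, ConcreteCategory.comp_apply]
    rw [hψ i, hφ i, (f i).inv_hom]
    · rfl
    · exact inf_le_right
    · exact inf_le_right

end LIso


section GlueMod

variable {ι : Type u} (U : ι → X.Opens) (N : ι → X.Modules)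
  (φ : ∀ i j, LHom (U i ⊓ U j) (N i) (N j))

/-- sections of a glued module -/
def GlueSec (W : X.Opens) : AddSubgroup (∀ i, Γ(N i, W ⊓ U i)) where
  carrier := {a | ∀ i j (V : X.Opens) (hW : V ≤ W) (hi : V ≤ U i) (hj : V ≤ U j),
    res (N j) (le_inf hW hj) (a j) = (φ i j).f V (le_inf hi hj) (res (N i) (le_inf hW hi) (a i))}
  zero_mem' := fun i j V hW hi hj ↦ by simp
  add_mem' := fun {a b} ha hb i j V hW hi hj ↦ by
    have h1 := ha i j V hW hi hj
    have h2 := hb i j V hW hi hj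
    simp only [Pi.add_apply, res_add, h1, h2, map_add]
  neg_mem' := fun {a} ha i j V hW hi hj ↦ by
    have h1 := ha i j V hW hi hj
    simp only [Pi.neg_apply, res_neg, h1, map_neg]

instance (W : X.Opens) : SMul Γ(X, W) (GlueSec U N φ W) :=
  ⟨fun a x ↦ ⟨fun i ↦ resO (inf_le_left : W ⊓ U i ≤ W) a • x.1 i, fun i j V hW hi hj ↦ by
    simp only [res_smul, resO_resO]
    rw [x.2 i j V hW hi hj, (φ i j).smul]⟩⟩

lemma glueSec_smul_val {W : X.Opens} (a : Γ(X, W)) (x : GlueSec U N φ W) (i : ι) :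
    (a • x).1 i = resO (inf_le_left : W ⊓ U i ≤ W) a • x.1 i := rfl

instance (W : X.Opens) : Module Γ(X, W) (GlueSec U N φ W) where
  one_smul x := by ext i; simp [glueSec_smul_val]
  mul_smul a b x := by ext i; simp [glueSec_smul_val, mul_smul]
  smul_zero a := by ext i; simp [glueSec_smul_val]
  smul_add a x y := by ext i; simp [glueSec_smul_val]
  add_smul a b x := by ext i; simp [glueSec_smul_val, add_smul]
  zero_smul x := by ext i; simp [glueSec_smul_val]

/-- the glued module, as section data -/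
def glueData : SecData X where
  S W := GlueSec U N φ W
  r {W V} h :=
    { toFun := fun x ↦ ⟨fun i ↦ res (N i) (inf_le_inf_right _ h) (x.1 i), fun i j V' hW hi hj ↦ by
        simp only [res_res]
        exact x.2 i j V' (hW.trans h) hi hj⟩
      map_zero' := by ext i; simp
      map_add' := fun x y ↦ by ext i; simp }
  r_self h x := by ext i; simp
  r_r h h' x := by
    ext i
    simp only [AddMonoidHom.coe_mk, ZeroHom.coe_mk, res_res]
  r_smul h a x := by
    ext i
    simp only [AddMonoidHom.coe_mk, ZeroHom.coe_mk, glueSec_smul_val, res_smul, resO_resO]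
  ext {κ} W x y h := by
    ext i
    refine sec_ext (fun k ↦ W k ⊓ U i) (fun k ↦ inf_le_inf_right _ (le_iSup W k)) ?_ ?_
    · rw [iSup_inf_eq]
    · intro k
      have := congrArg (fun z ↦ z.1 i) (h k)
      simpa only [AddMonoidHom.coe_mk, ZeroHom.coe_mk, res_res] using this
  glue {κ} W x h := by
    have h1 : ∀ i, ∃ y : Γ(N i, (⨆ k, W k) ⊓ U i), ∀ k,
        res (N i) (inf_le_inf_right _ (le_iSup W k) : W k ⊓ U i ≤ (⨆ k, W k) ⊓ U i) y =
          (x k).1 i := by
      intro i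
      refine sec_glue (fun k ↦ W k ⊓ U i) (fun k ↦ inf_le_inf_right _ (le_iSup W k)) ?_ _ ?_
      · rw [iSup_inf_eq]
      · intro k l V hk hl
        have h2 := congrArg (fun z ↦ z.1 i) (h k l)
        simp only [AddMonoidHom.coe_mk, ZeroHom.coe_mk] at h2
        have h3 := congrArg (res (N i) (le_inf (le_inf (hk.trans inf_le_left)
          (hl.trans inf_le_left)) (hk.trans inf_le_right) : V ≤ (W k ⊓ W l) ⊓ U i)) h2
        simpa only [res_res] using h3
    choose y hy using h1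
    refine ⟨⟨y, ?_⟩, ?_⟩
    · intro i j V hW hi hj
      refine sec_ext (fun k ↦ V ⊓ W k) (fun k ↦ inf_le_left) (inf_cover hW) ?_
      intro k
      have h2 := (x k).2 i j (V ⊓ W k) inf_le_right (inf_le_left.trans hi) (inf_le_left.trans hj)
      rw [← hy, ← hy] at h2
      rw [← (φ i j).res V (V ⊓ W k) _ inf_le_left]
      simpa only [res_res] using h2
    · intro k
      ext i
      exact hy i k

end GlueMod

/-- **Glueing of modules.** -/
theorem exists_glued_module {ι : Type u} (U : ι → X.Opens) (N : ι → X.Modules)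
    (φ : ∀ i j, LIso (U i ⊓ U j) (N i) (N j))
    (hφ : ∀ i j k (W : X.Opens) (hi : W ≤ U i) (hj : W ≤ U j) (hk : W ≤ U k) (x : Γ(N i, W)),
      (φ j k).hom.f W (le_inf hj hk) ((φ i j).hom.f W (le_inf hi hj) x) =
        (φ i k).hom.f W (le_inf hi hk) x) :
    ∃ (M : X.Modules) (ψ : ∀ i, LIso (U i) M (N i)),
      ∀ i j (W : X.Opens) (hi : W ≤ U i) (hj : W ≤ U j) (x : Γ(M, W)),
        (φ i j).hom.f W (le_inf hi hj) ((ψ i).hom.f W hi x) = (ψ j).hom.f W hj x := by
  have hii : ∀ i (W : X.Opens) (h : W ≤ U i ⊓ U i) (x : Γ(N i, W)), (φ i i).hom.f W h x = x := by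
    intro i W h x
    apply ((φ i i).bijective W h).1
    exact hφ i i i W (h.trans inf_le_left) (h.trans inf_le_left) (h.trans inf_le_left) x
  let D := glueData U N (fun i j ↦ (φ i j).hom)
  refine ⟨D.mk', fun i ↦ ⟨⟨fun W hW ↦ AddMonoidHom.mk' (fun x ↦ res (N i) (le_inf le_rfl hW)
      ((D.ofSec x).1 i)) ?_, ?_, ?_⟩, ⟨fun W hW ↦ AddMonoidHom.mk' (fun y ↦ D.toSec (U := W)
      ⟨fun j ↦ (φ i j).hom.f (W ⊓ U j) (inf_le_inf_right _ hW) (res (N i) inf_le_left y), ?_⟩) ?_,
      ?_, ?_⟩, ?_, ?_⟩, ?_⟩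
  · intro x y
    change res (N i) _ ((D.ofSec x).1 i + (D.ofSec y).1 i) = _
    rw [res_add]
  · intro W hW a x
    change res (N i) (le_inf le_rfl hW) (resO (inf_le_left : W ⊓ U i ≤ W) a •
      (D.ofSec x).1 i) = a • res (N i) (le_inf le_rfl hW) ((D.ofSec x).1 i)
    rw [res_smul, resO_resO, resO_self]
  · intro W V hW hV x
    change res (N i) _ (res (N i) _ ((D.ofSec x).1 i)) = res (N i) _ (res (N i) _ _)
    rw [res_res, res_res]
  · intro j k V h1 h2 h3
    rw [← (φ i j).hom.res, ← (φ i k).hom.res, res_res, res_res]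
    exact (hφ i j k V (h1.trans hW) h2 h3 _).symm
  · intro x y
    refine Subtype.ext (funext fun j ↦ ?_)
    change (φ i j).hom.f _ _ (res (N i) _ (x + y)) = (φ i j).hom.f _ _ (res (N i) _ x) +
      (φ i j).hom.f _ _ (res (N i) _ y)
    rw [res_add, map_add]
  · intro W hW a x
    refine Subtype.ext (funext fun j ↦ ?_)
    change (φ i j).hom.f _ _ (res (N i) _ (a • x)) = resO (inf_le_left : W ⊓ U j ≤ W) a •
      (φ i j).hom.f _ _ (res (N i) _ x)
    rw [res_smul, (φ i j).hom.smul]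
  · intro W V hW hV x
    refine Subtype.ext (funext fun j ↦ ?_)
    change (φ i j).hom.f _ _ (res (N i) inf_le_left (res (N i) hV x)) =
      res (N j) (inf_le_inf_right _ hV) ((φ i j).hom.f _ _ (res (N i) inf_le_left x))
    rw [res_res, ← (φ i j).hom.res, res_res]
  · intro W hW x
    refine Subtype.ext (funext fun j ↦ ?_)
    change (φ i j).hom.f _ _ (res (N i) inf_le_left (res (N i) (le_inf le_rfl hW)
      ((D.ofSec x).1 i))) = (D.ofSec x).1 j
    have h1 := (D.ofSec x).2 i j (W ⊓ U j) inf_le_left (inf_le_left.trans hW) inf_le_right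
    rw [res_self] at h1
    rw [h1, res_res]
  · intro W hW x
    change res (N i) (le_inf le_rfl hW) ((φ i i).hom.f _ _ (res (N i) inf_le_left x)) = x
    rw [hii, res_res, res_self]
  · intro i j W hi hj x
    change (φ i j).hom.f _ _ (res (N i) (le_inf le_rfl hi) ((D.ofSec x).1 i)) =
      res (N j) (le_inf le_rfl hj) ((D.ofSec x).1 j)
    exact ((D.ofSec x).2 i j W le_rfl hi hj).symm

end Fermat.Agent.H25
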