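import Fermat.Agent.H51Hom
import Fermat.Agent.H25Glue

/-!
# S25-B3: invertible modules on `X = U ∪ V` from modules on two affine charts
-/

set_option autoImplicit false

open CategoryTheory AlgebraicGeometry CategoryTheory.Limits TopologicalSpace

namespace Fermat.Agent.H73.TwoChart

open Fermat.Agent.H25 Fermat.Agent.H51Inv Fermat.Agent.H51Aff

universe u

section Alg

variable {R : Type*} [CommRing R] {E : Type*} [AddCommGroup E] [Module R E] {S : Type*}
  [CommRing S] {φ : R →+* S} {ι : Type*} {f : ι → R} {e : ι → E}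

theorem exists_coord [Finite ι] (h : LocGen f e) (i : ι) (hu : IsUnit (φ (f i))) :
    ∃ c : E →ₛₗ[φ] S, c (e i) = 1 := by
  obtain ⟨N, ψ, hψ⟩ := h.exists_dual i
  obtain ⟨w, hw⟩ := hu
  refine ⟨{ toFun := fun x => (↑(w⁻¹) : S) ^ N * φ (ψ x)
            map_add' := fun x y => by rw [map_add, map_add, mul_add]
            map_smul' := fun a x => by
              rw [map_smul, smul_eq_mul, map_mul, smul_eq_mul]; ring }, ?_⟩
  change (↑(w⁻¹) : S) ^ N * φ (ψ (e i)) = 1
  rw [hψ, map_pow, ← hw, ← mul_pow, Units.inv_mul, one_pow]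

theorem coord_mul (h : LocGen f e) (i : ι) (hu : IsUnit (φ (f i))) {c : E →ₛₗ[φ] S}
    (hc : c (e i) = 1) (d : E →ₛₗ[φ] S) (x : E) : d x = c x * d (e i) := by
  obtain ⟨n, a, hna⟩ := h.surj i x
  have h1 := congrArg c hna
  have h2 := congrArg d hna
  rw [map_smulₛₗ, map_smulₛₗ, map_pow, smul_eq_mul, smul_eq_mul] at h1 h2
  rw [hc, mul_one] at h1
  rw [← (hu.pow n).mul_right_inj, h2, ← h1, mul_assoc]

/-- transport of local generators along a localisation -/
theorem locGen_localization {E' : Type*} [AddCommGroup E'] [Module S E'] (h : LocGen f e)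
    (r : E →+ E') (hr : ∀ (a : R) (x : E), r (a • x) = φ a • r x) (t : R) (ht : IsUnit (φ t))
    (hφ : ∀ c : S, ∃ (n : ℕ) (a : R), φ a = φ t ^ n * c)
    (hs : ∀ y : E', ∃ (n : ℕ) (x : E), r x = φ t ^ n • y)
    (hi : ∀ x : E, r x = 0 → ∃ n : ℕ, t ^ n • x = 0) :
    LocGen (fun i => φ (f i)) (fun i => r (e i)) := by
  refine ⟨?_, fun i y => ?_, fun i c hc => ?_⟩
  · have := congrArg (Ideal.map φ) h.span
    rw [Ideal.map_span, Ideal.map_top, ← Set.range_comp] at this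
    exact this
  · obtain ⟨n, x, hx⟩ := hs y
    obtain ⟨m, a, hma⟩ := h.surj i x
    obtain ⟨w, hw⟩ := ht.pow n
    refine ⟨m, (↑(w⁻¹) : S) * φ a, ?_⟩
    have h1 := congrArg r hma
    rw [hr, hr, hx, map_pow, ← hw] at h1
    rw [mul_smul, ← h1, smul_comm (φ (f i) ^ m), smul_smul, Units.inv_mul, one_smul]
  · obtain ⟨n, a, ha⟩ := hφ c
    have h1 : r (a • e i) = 0 := by
      rw [hr, ha, mul_smul, hc, smul_zero]
    obtain ⟨m, hm⟩ := hi _ h1
    rw [smul_smul] at hm
    obtain ⟨k, hk⟩ := h.inj i _ hm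
    refine ⟨k, ?_⟩
    have h2 := congrArg φ hk
    rw [map_mul, map_mul, map_pow, map_pow, ha, map_zero] at h2
    have h3 : (φ t ^ m * φ t ^ n) * (φ (f i) ^ k * c) = 0 := by rw [← h2]; ring
    exact (((ht.pow m).mul (ht.pow n)).mul_right_eq_zero).mp h3

theorem locGen_reindex {κ : Type*} (h : LocGen f e) (σ : κ ≃ ι) :
    LocGen (fun k => f (σ k)) (fun k => e (σ k)) := by
  refine ⟨?_, fun i x => h.surj _ x, fun i a ha => h.inj _ a ha⟩
  have : Set.range (fun k => f (σ k)) = Set.range f := by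
    rw [show (fun k => f (σ k)) = f ∘ σ from rfl, σ.surjective.range_comp]
  rw [this]; exact h.span

end Alg

section Coord

variable {X : Scheme.{u}}

/-- restriction of a semilinear functional -/
noncomputable def cres {T W W' : X.Opens} {E : Type*} [AddCommGroup E] [Module Γ(X, T) E]
    {hW : W ≤ T} (c : E →ₛₗ[resOHom hW] Γ(X, W)) (h : W' ≤ W) :
    E →ₛₗ[resOHom (h.trans hW)] Γ(X, W') where
  toFun x := resO h (c x)
  map_add' x y := by rw [map_add, resO_add]
  map_smul' a x := by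
    rw [map_smulₛₗ, smul_eq_mul, resO_mul, resOHom_apply, resO_resO]
    rfl

@[simp] theorem cres_apply {T W W' : X.Opens} {E : Type*} [AddCommGroup E] [Module Γ(X, T) E]
    {hW : W ≤ T} (c : E →ₛₗ[resOHom hW] Γ(X, W)) (h : W' ≤ W) (x : E) :
    cres c h x = resO h (c x) := rfl

theorem resO_coord_mul {T W W₁ W₂ : X.Opens} {E : Type*} [AddCommGroup E] [Module Γ(X, T) E]
    {ι : Type*} {f : ι → Γ(X, T)} {e : ι → E} (h : LocGen f e) (i : ι)
    {hW₁ : W₁ ≤ T} {hW₂ : W₂ ≤ T} (c : E →ₛₗ[resOHom hW₁] Γ(X, W₁))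
    (d : E →ₛₗ[resOHom hW₂] Γ(X, W₂)) (hc : c (e i) = 1) (hi : W₁ ≤ X.basicOpen (f i))
    (h₁ : W ≤ W₁) (h₂ : W ≤ W₂) (x : E) :
    resO h₂ (d x) = resO h₁ (c x) * resO h₂ (d (e i)) := by
  have hT : W ≤ T := h₁.trans hW₁
  exact coord_mul (φ := resOHom hT) h i (isUnit_resO (f i) (h₁.trans hi) hT)
    (c := cres c h₁) (by rw [cres_apply, hc, resO_one]) (cres d h₂) x

theorem exists_coord_open {T : X.Opens} {E : Type*} [AddCommGroup E] [Module Γ(X, T) E]
    {ι : Type*} [Finite ι] {f : ι → Γ(X, T)} {e : ι → E} (h : LocGen f e) (i : ι) (W : X.Opens)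
    (hW : W ≤ T) (hi : W ≤ X.basicOpen (f i)) :
    ∃ c : E →ₛₗ[resOHom hW] Γ(X, W), c (e i) = 1 :=
  exists_coord h i (isUnit_resO (f i) hi hW)

theorem exists_secMap {M : X.Modules} {T : X.Opens} {E : Type*} [AddCommGroup E]
    [Module Γ(X, T) E] {κ : Type*} (W : κ → X.Opens) (hW : ∀ i, W i ≤ T) (hc : T ≤ ⨆ i, W i)
    (s : ∀ i, Γ(M, W i)) (d : ∀ i, E →ₛₗ[resOHom (hW i)] Γ(X, W i))
    (hd : ∀ i j (Z : X.Opens) (hi : Z ≤ W i) (hj : Z ≤ W j) (y : E),
      resO hi (d i y) • res M hi (s i) = resO hj (d j y) • res M hj (s j)) :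
    ∃ a : E →ₗ[Γ(X, T)] Γ(M, T), ∀ i y, res M (hW i) (a y) = d i y • s i := by
  have h1 : ∀ y : E, ∃ z : Γ(M, T), ∀ i, res M (hW i) z = d i y • s i := fun y =>
    sec_glue W hW hc (fun i => d i y • s i) (fun i j Z hi hj => by
      rw [res_smul, res_smul]; exact hd i j Z hi hj y)
  choose a ha using h1
  refine ⟨{ toFun := a, map_add' := fun x y => ?_, map_smul' := fun b x => ?_ }, fun i y => ha y i⟩
  · refine sec_ext W hW hc fun i => ?_
    rw [res_add, ha, ha, ha, map_add, add_smul]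
  · refine sec_ext W hW hc fun i => ?_
    rw [RingHom.id_apply, res_smul, ha, ha, map_smulₛₗ, smul_eq_mul, resOHom_apply, mul_smul]

end Coord

section Main

variable {X : Scheme.{u}} {U V : X.Opens}

/-- The data of modules on two charts, with an identification on the overlap. -/
structure Data (U V : X.Opens) (E0 E1 E01 : Type*) [AddCommGroup E0] [Module Γ(X, U) E0]
    [AddCommGroup E1] [Module Γ(X, V) E1] [AddCommGroup E01] [Module Γ(X, U ⊓ V) E01]
    {ι0 ι1 : Type*} (f0 : ι0 → Γ(X, U)) (e0 : ι0 → E0) (f1 : ι1 → Γ(X, V)) (e1 : ι1 → E1) where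
  r0 : E0 →ₛₗ[resOHom (inf_le_left : U ⊓ V ≤ U)] E01
  r1 : E1 →ₛₗ[resOHom (inf_le_right : U ⊓ V ≤ V)] E01
  gen0 : LocGen f0 e0
  gen1 : LocGen f1 e1
  gen01 : LocGen (fun i => resO (inf_le_left : U ⊓ V ≤ U) (f0 i)) (fun i => r0 (e0 i))
  gen10 : LocGen (fun i => resO (inf_le_right : U ⊓ V ≤ V) (f1 i)) (fun i => r1 (e1 i))

namespace Data

variable {E0 E1 E01 : Type*} [AddCommGroup E0] [Module Γ(X, U) E0]
    [AddCommGroup E1] [Module Γ(X, V) E1] [AddCommGroup E01] [Module Γ(X, U ⊓ V) E01]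
    {ι0 ι1 : Type*}
    {f0 : ι0 → Γ(X, U)} {e0 : ι0 → E0} {f1 : ι1 → Γ(X, V)} {e1 : ι1 → E1}
    (D : Data U V E0 E1 E01 f0 e0 f1 e1)

/-- the opens of the cover -/
def op (_ : Data U V E0 E1 E01 f0 e0 f1 e1) : ι0 ⊕ ι1 → X.Opens :=
  Sum.elim (fun i => X.basicOpen (f0 i)) (fun i => X.basicOpen (f1 i))

/-- the opens of the cover of `U ⊓ V` -/
abbrev op' (i : ι0 ⊕ ι1) : X.Opens := D.op i ⊓ (U ⊓ V)

/-- the local generators of `E01` -/
noncomputable def v : ι0 ⊕ ι1 → E01 := Sum.elim (fun i => D.r0 (e0 i)) (fun i => D.r1 (e1 i))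

/-- the functions on the overlap -/
noncomputable def F (_ : Data U V E0 E1 E01 f0 e0 f1 e1) : ι0 ⊕ ι1 → Γ(X, U ⊓ V) :=
  Sum.elim (fun i => resO inf_le_left (f0 i)) (fun i => resO inf_le_right (f1 i))

theorem gen : LocGen D.F D.v := by
  refine ⟨?_, ?_, ?_⟩
  · rw [eq_top_iff, ← D.gen01.span]
    refine Ideal.span_mono ?_
    rintro _ ⟨i, rfl⟩
    exact ⟨Sum.inl i, rfl⟩
  · rintro (i | i) x
    · exact D.gen01.surj i x
    · exact D.gen10.surj i x
  · rintro (i | i) x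
    · exact D.gen01.inj i x
    · exact D.gen10.inj i x

theorem op'_le (i : ι0 ⊕ ι1) : D.op' i ≤ X.basicOpen (D.F i) := by
  rcases i with i | i
  · change _ ≤ X.basicOpen (resO _ _)
    rw [basicOpen_resO, inf_comm]; exact le_rfl
  · change _ ≤ X.basicOpen (resO _ _)
    rw [basicOpen_resO, inf_comm]; exact le_rfl

variable [Finite ι0] [Finite ι1]

include D in
theorem exists_c0 (i : ι0) :
    ∃ c : E0 →ₛₗ[resOHom (X.basicOpen_le (f0 i))] Γ(X, X.basicOpen (f0 i)), c (e0 i) = 1 :=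
  exists_coord_open D.gen0 i _ _ le_rfl

include D in
theorem exists_c1 (i : ι1) :
    ∃ c : E1 →ₛₗ[resOHom (X.basicOpen_le (f1 i))] Γ(X, X.basicOpen (f1 i)), c (e1 i) = 1 :=
  exists_coord_open D.gen1 i _ _ le_rfl

theorem exists_c (i : ι0 ⊕ ι1) :
    ∃ c : E01 →ₛₗ[resOHom (inf_le_right : D.op' i ≤ U ⊓ V)] Γ(X, D.op' i), c (D.v i) = 1 :=
  exists_coord_open D.gen i _ _ (D.op'_le i)

noncomputable def c0 (i : ι0) := (D.exists_c0 i).choose
noncomputable def c1 (i : ι1) := (D.exists_c1 i).choose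
noncomputable def c (i : ι0 ⊕ ι1) := (D.exists_c i).choose

theorem c0_self (i : ι0) : D.c0 i (e0 i) = 1 := (D.exists_c0 i).choose_spec
theorem c1_self (i : ι1) : D.c1 i (e1 i) = 1 := (D.exists_c1 i).choose_spec
theorem c_self (i : ι0 ⊕ ι1) : D.c i (D.v i) = 1 := (D.exists_c i).choose_spec

theorem le_mix (i : ι0) (j : ι1) (W : X.Opens) (hi : W ≤ X.basicOpen (f0 i))
    (hj : W ≤ X.basicOpen (f1 j)) : W ≤ U ⊓ V :=
  le_inf (hi.trans (X.basicOpen_le _)) (hj.trans (X.basicOpen_le _))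

/-- the cocycle -/
noncomputable def g : ∀ i j : ι0 ⊕ ι1, Γ(X, D.op i ⊓ D.op j)
  | Sum.inl i, Sum.inl j => resO (inf_le_right : X.basicOpen (f0 i) ⊓ X.basicOpen (f0 j) ≤ _)
      (D.c0 j (e0 i))
  | Sum.inl i, Sum.inr j => resO (le_inf inf_le_right (le_mix i j _ inf_le_left inf_le_right) :
      X.basicOpen (f0 i) ⊓ X.basicOpen (f1 j) ≤ D.op' (Sum.inr j)) (D.c (Sum.inr j) (D.r0 (e0 i)))
  | Sum.inr i, Sum.inl j => resO (le_inf inf_le_right (le_mix j i _ inf_le_right inf_le_left) :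
      X.basicOpen (f1 i) ⊓ X.basicOpen (f0 j) ≤ D.op' (Sum.inl j)) (D.c (Sum.inl j) (D.r1 (e1 i)))
  | Sum.inr i, Sum.inr j => resO (inf_le_right : X.basicOpen (f1 i) ⊓ X.basicOpen (f1 j) ≤ _)
      (D.c1 j (e1 i))

theorem c0_conv (j : ι0) (W : X.Opens) (hW : W ≤ D.op' (Sum.inl j))
    (hW' : W ≤ X.basicOpen (f0 j)) (x : E0) :
    resO hW' (D.c0 j x) = resO hW (D.c (Sum.inl j) (D.r0 x)) := by
  have hT : W ≤ U := hW'.trans (X.basicOpen_le _)
  let d : E0 →ₛₗ[resOHom hT] Γ(X, W) :=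
    { toFun := fun x => resO hW (D.c (Sum.inl j) (D.r0 x))
      map_add' := fun x y => by rw [map_add, map_add, resO_add]
      map_smul' := fun a x => by
        rw [map_smulₛₗ, map_smulₛₗ, smul_eq_mul, resO_mul, resOHom_apply, resOHom_apply,
          resO_resO, resO_resO, smul_eq_mul, resOHom_apply] }
  have h1 := coord_mul (φ := resOHom hT) D.gen0 j (isUnit_resO (f0 j) hW' hT)
    (c := cres (D.c0 j) hW') (by rw [cres_apply, D.c0_self, resO_one]) d x
  have h2 : d (e0 j) = 1 := by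
    change resO hW (D.c (Sum.inl j) (D.v (Sum.inl j))) = 1
    rw [D.c_self, resO_one]
  rw [h2, mul_one] at h1
  exact h1.symm

theorem c1_conv (j : ι1) (W : X.Opens) (hW : W ≤ D.op' (Sum.inr j))
    (hW' : W ≤ X.basicOpen (f1 j)) (x : E1) :
    resO hW' (D.c1 j x) = resO hW (D.c (Sum.inr j) (D.r1 x)) := by
  have hT : W ≤ V := hW'.trans (X.basicOpen_le _)
  let d : E1 →ₛₗ[resOHom hT] Γ(X, W) :=
    { toFun := fun x => resO hW (D.c (Sum.inr j) (D.r1 x))
      map_add' := fun x y => by rw [map_add, map_add, resO_add]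
      map_smul' := fun a x => by
        rw [map_smulₛₗ, map_smulₛₗ, smul_eq_mul, resO_mul, resOHom_apply, resOHom_apply,
          resO_resO, resO_resO, smul_eq_mul, resOHom_apply] }
  have h1 := coord_mul (φ := resOHom hT) D.gen1 j (isUnit_resO (f1 j) hW' hT)
    (c := cres (D.c1 j) hW') (by rw [cres_apply, D.c1_self, resO_one]) d x
  have h2 : d (e1 j) = 1 := by
    change resO hW (D.c (Sum.inr j) (D.v (Sum.inr j))) = 1
    rw [D.c_self, resO_one]
  rw [h2, mul_one] at h1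
  exact h1.symm

theorem g_conv (i j : ι0 ⊕ ι1) (W : X.Opens) (h : W ≤ D.op i ⊓ D.op j) (hW : W ≤ D.op' j) :
    resO h (D.g i j) = resO hW (D.c j (D.v i)) := by
  rcases i with i | i <;> rcases j with j | j
  · exact (resO_resO _ h _).trans (D.c0_conv j W hW _ _)
  · exact resO_resO _ h _
  · exact resO_resO _ h _
  · exact (resO_resO _ h _).trans (D.c1_conv j W hW _ _)

theorem c_mul (j k : ι0 ⊕ ι1) (W : X.Opens) (hj : W ≤ D.op' j) (hk : W ≤ D.op' k) (x : E01) :
    resO hk (D.c k x) = resO hj (D.c j x) * resO hk (D.c k (D.v j)) :=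
  resO_coord_mul D.gen j (D.c j) (D.c k) (D.c_self j) (D.op'_le j) hj hk x

theorem cocycle (i j k : ι0 ⊕ ι1) (W : X.Opens) (hi : W ≤ D.op i) (hj : W ≤ D.op j)
    (hk : W ≤ D.op k) :
    resO (le_inf hi hj) (D.g i j) * resO (le_inf hj hk) (D.g j k) =
      resO (le_inf hi hk) (D.g i k) := by
  have key : W ≤ U ⊓ V → resO (le_inf hi hj) (D.g i j) * resO (le_inf hj hk) (D.g j k) =
      resO (le_inf hi hk) (D.g i k) := by
    intro hW
    rw [D.g_conv i j W _ (le_inf hj hW), D.g_conv j k W _ (le_inf hk hW),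
      D.g_conv i k W _ (le_inf hk hW)]
    exact (D.c_mul j k W _ _ _).symm
  rcases i with i | i <;> rcases j with j | j <;> rcases k with k | k
  · have h1 := (resO_coord_mul D.gen0 j (D.c0 j) (D.c0 k) (D.c0_self j) le_rfl hj hk (e0 i)).symm
    exact ((congrArg₂ (· * ·) (resO_resO _ _ _) (resO_resO _ _ _)).trans h1).trans
      (resO_resO _ _ _).symm
  · exact key (le_mix i k W hi hk)
  · exact key (le_mix i j W hi hj)
  · exact key (le_mix i j W hi hj)
  · exact key (le_mix j i W hj hi)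
  · exact key (le_mix j i W hj hi)
  · exact key (le_mix k i W hk hi)
  · have h1 := (resO_coord_mul D.gen1 j (D.c1 j) (D.c1 k) (D.c1_self j) le_rfl hj hk (e1 i)).symm
    exact ((congrArg₂ (· * ·) (resO_resO _ _ _) (resO_resO _ _ _)).trans h1).trans
      (resO_resO _ _ _).symm

theorem g_self (i : ι0 ⊕ ι1) : D.g i i = 1 := by
  rcases i with i | i
  · exact (congrArg (resO _) (D.c0_self i)).trans (resO_one _)
  · exact (congrArg (resO _) (D.c1_self i)).trans (resO_one _)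

theorem g_mul (i j : ι0 ⊕ ι1) :
    D.g i j * resO (le_inf inf_le_right inf_le_left : D.op i ⊓ D.op j ≤ D.op j ⊓ D.op i)
      (D.g j i) = 1 := by
  have := D.cocycle i j i (D.op i ⊓ D.op j) inf_le_left inf_le_right inf_le_left
  rw [resO_self, D.g_self, resO_one] at this
  exact this

/-- the cocycle of units -/
noncomputable def gu (i j : ι0 ⊕ ι1) : (Γ(X, D.op i ⊓ D.op j))ˣ :=
  ⟨D.g i j, _, D.g_mul i j, by rw [mul_comm]; exact D.g_mul i j⟩

end Data

section Module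

variable {E0 E1 E01 : Type*} [AddCommGroup E0] [Module Γ(X, U) E0]
    [AddCommGroup E1] [Module Γ(X, V) E1] [AddCommGroup E01] [Module Γ(X, U ⊓ V) E01]
    {ι0 ι1 : Type u} [Finite ι0] [Finite ι1]
    {f0 : ι0 → Γ(X, U)} {e0 : ι0 → E0} {f1 : ι1 → Γ(X, V)} {e1 : ι1 → E1}
    (D : Data U V E0 E1 E01 f0 e0 f1 e1)

include D in
/-- existence, in terms of local generators -/
theorem Data.exists_module (hU : IsAffineOpen U) (hV : IsAffineOpen V)
    (hW : IsAffineOpen (U ⊓ V)) (hUV : U ⊔ V = ⊤) :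
    ∃ (M : X.Modules) (_ : Scheme.Modules.IsInvertible M) (a0 : E0 →ₗ[Γ(X, U)] Γ(M, U))
      (a1 : E1 →ₗ[Γ(X, V)] Γ(M, V)) (a01 : E01 →ₗ[Γ(X, U ⊓ V)] Γ(M, U ⊓ V)),
      Function.Bijective a0 ∧ Function.Bijective a1 ∧ Function.Bijective a01 ∧
      (∀ x, a01 (D.r0 x) = res M inf_le_left (a0 x)) ∧
      (∀ x, a01 (D.r1 x) = res M inf_le_right (a1 x)) := by
  obtain ⟨M, s, hs, hg⟩ := exists_cocycle_module D.op D.gu (fun i j k W hi hj hk =>
    D.cocycle i j k W hi hj hk)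
  have hcov0 : U ≤ ⨆ i, D.op (Sum.inl i) := le_iSup_basicOpen hU D.gen0.span
  have hcov1 : V ≤ ⨆ i, D.op (Sum.inr i) := le_iSup_basicOpen hV D.gen1.span
  have hcov : (⊤ : X.Opens) ≤ ⨆ i, D.op i := by
    rw [← hUV]
    refine sup_le (hcov0.trans (iSup_le fun i => le_iSup D.op _))
      (hcov1.trans (iSup_le fun i => le_iSup D.op _))
  have hM : Scheme.Modules.IsInvertible M := by
    rw [isInvertible_iff]
    intro x
    obtain ⟨i, hi⟩ := Opens.mem_iSup.mp (hcov (show x ∈ (⊤ : X.Opens) from trivial))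
    exact ⟨D.op i, hi, s i, hs i⟩
  -- transition on smaller opens
  have hg' : ∀ i j (Z : X.Opens) (hi : Z ≤ D.op i) (hj : Z ≤ D.op j),
      res M hi (s i) = resO (le_inf hi hj) (D.g i j) • res M hj (s j) := by
    intro i j Z hi hj
    have := congrArg (res M (le_inf hi hj)) (hg i j)
    rw [res_res, res_smul, res_res] at this
    exact this
  obtain ⟨a0, ha0⟩ := exists_secMap (M := M) (fun i => D.op (Sum.inl i))
    (fun i => X.basicOpen_le (f0 i)) hcov0 (fun i => s (Sum.inl i)) D.c0 (by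
      intro i j Z hi hj y
      rw [hg' (Sum.inl i) (Sum.inl j) Z hi hj, smul_smul]
      congr 1
      have h1 := resO_coord_mul D.gen0 i (D.c0 i) (D.c0 j) (D.c0_self i) le_rfl hi hj y
      refine Eq.trans ?_ h1.symm
      exact congrArg₂ (· * ·) rfl (resO_resO _ _ _))
  obtain ⟨a1, ha1⟩ := exists_secMap (M := M) (fun i => D.op (Sum.inr i))
    (fun i => X.basicOpen_le (f1 i)) hcov1 (fun i => s (Sum.inr i)) D.c1 (by
      intro i j Z hi hj y
      rw [hg' (Sum.inr i) (Sum.inr j) Z hi hj, smul_smul]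
      congr 1
      have h1 := resO_coord_mul D.gen1 i (D.c1 i) (D.c1 j) (D.c1_self i) le_rfl hi hj y
      refine Eq.trans ?_ h1.symm
      exact congrArg₂ (· * ·) rfl (resO_resO _ _ _))
  have hcov' : U ⊓ V ≤ ⨆ i, D.op' i := by
    rw [← iSup_inf_eq]
    exact le_inf (le_top.trans hcov) le_rfl
  obtain ⟨a01, ha01⟩ := exists_secMap (M := M) D.op' (fun i => inf_le_right) hcov'
    (fun i => res M (inf_le_left : D.op' i ≤ D.op i) (s i)) D.c (by
      intro i j Z hi hj y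
      rw [res_res, res_res, hg' i j Z (hi.trans inf_le_left) (hj.trans inf_le_left), smul_smul,
        D.g_conv i j Z _ hj, ← D.c_mul i j Z hi hj])
  have hc0 : ∀ x, a01 (D.r0 x) = res M inf_le_left (a0 x) := by
    intro x
    refine sec_ext (fun i => D.op' (Sum.inl i)) (fun i => inf_le_right) ?_ fun i => ?_
    · rw [← iSup_inf_eq]
      exact le_inf (inf_le_left.trans hcov0) le_rfl
    · have h1 := congrArg (res M (inf_le_left : D.op' (Sum.inl i) ≤ D.op (Sum.inl i))) (ha0 i x)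
      rw [ha01, res_res]
      rw [res_smul] at h1
      have h2 := (res_res M (X.basicOpen_le (f0 i))
        (inf_le_left : D.op' (Sum.inl i) ≤ D.op (Sum.inl i)) (a0 x)).symm.trans h1
      refine Eq.trans ?_ h2.symm
      congr 1
      have := D.c0_conv i (D.op' (Sum.inl i)) le_rfl inf_le_left x
      rw [resO_self] at this
      exact this.symm
  have hc1 : ∀ x, a01 (D.r1 x) = res M inf_le_right (a1 x) := by
    intro x
    refine sec_ext (fun i => D.op' (Sum.inr i)) (fun i => inf_le_right) ?_ fun i => ?_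
    · rw [← iSup_inf_eq]
      exact le_inf (inf_le_right.trans hcov1) le_rfl
    · have h1 := congrArg (res M (inf_le_left : D.op' (Sum.inr i) ≤ D.op (Sum.inr i))) (ha1 i x)
      rw [ha01, res_res]
      rw [res_smul] at h1
      have h2 := (res_res M (X.basicOpen_le (f1 i))
        (inf_le_left : D.op' (Sum.inr i) ≤ D.op (Sum.inr i)) (a1 x)).symm.trans h1
      refine Eq.trans ?_ h2.symm
      congr 1
      have := D.c1_conv i (D.op' (Sum.inr i)) le_rfl inf_le_left x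
      rw [resO_self] at this
      exact this.symm
  have hb0 : LocGen f0 (fun i => a0 (e0 i)) := by
    refine locGen_of_isGen hU hM D.gen0.span fun i => ?_
    have e : (1 : Γ(X, D.op (Sum.inl i))) • s (Sum.inl i) = s (Sum.inl i) := one_smul _ _
    have h1 := (ha0 i (e0 i)).trans ((congrArg (fun z : Γ(X, D.op (Sum.inl i)) =>
      z • s (Sum.inl i)) (D.c0_self i)).trans e)
    have h2 := hs (Sum.inl i)
    rw [← h1] at h2
    exact h2
  have hb1 : LocGen f1 (fun i => a1 (e1 i)) := by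
    refine locGen_of_isGen hV hM D.gen1.span fun i => ?_
    have e : (1 : Γ(X, D.op (Sum.inr i))) • s (Sum.inr i) = s (Sum.inr i) := one_smul _ _
    have h1 := (ha1 i (e1 i)).trans ((congrArg (fun z : Γ(X, D.op (Sum.inr i)) =>
      z • s (Sum.inr i)) (D.c1_self i)).trans e)
    have h2 := hs (Sum.inr i)
    rw [← h1] at h2
    exact h2
  have hb01 : LocGen (fun i => resO (inf_le_left : U ⊓ V ≤ U) (f0 i))
      (fun i => a01 (D.r0 (e0 i))) := by
    simp only [hc0]
    exact locGen_res hU hM hb0 hW inf_le_left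
  exact ⟨M, hM, a0, a1, a01, D.gen0.bijective a0 hb0, D.gen1.bijective a1 hb1,
    D.gen01.bijective a01 hb01, hc0, hc1⟩

end Module

end Main

section Final

variable {X : Scheme.{u}} {U V : X.Opens}

/-- **S25-B3, existence**: an invertible module on `X = U ∪ V` from invertible modules on two
affine charts `U`, `V` and a localisation of both on `U ⊓ V = D(t) = D(s)`. -/
theorem exists_module_of_charts (hU : IsAffineOpen U) (hV : IsAffineOpen V) (hUV : U ⊔ V = ⊤)
    (t : Γ(X, U)) (s : Γ(X, V)) (ht : X.basicOpen t = U ⊓ V) (hs : X.basicOpen s = U ⊓ V)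
    {E0 E1 E01 : Type*} [AddCommGroup E0] [Module Γ(X, U) E0] [Module.Invertible Γ(X, U) E0]
    [AddCommGroup E1] [Module Γ(X, V) E1] [Module.Invertible Γ(X, V) E1]
    [AddCommGroup E01] [Module Γ(X, U ⊓ V) E01]
    (r0 : E0 →+ E01)
    (r0_smul : ∀ (a : Γ(X, U)) (x : E0), r0 (a • x) = resO (inf_le_left : U ⊓ V ≤ U) a • r0 x)
    (r0_surj : ∀ y : E01, ∃ (n : ℕ) (x : E0),
      r0 x = (resO (inf_le_left : U ⊓ V ≤ U) t) ^ n • y)
    (r0_inj : ∀ x : E0, r0 x = 0 → ∃ n : ℕ, t ^ n • x = 0)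
    (r1 : E1 →+ E01)
    (r1_smul : ∀ (a : Γ(X, V)) (x : E1), r1 (a • x) = resO (inf_le_right : U ⊓ V ≤ V) a • r1 x)
    (r1_surj : ∀ y : E01, ∃ (n : ℕ) (x : E1),
      r1 x = (resO (inf_le_right : U ⊓ V ≤ V) s) ^ n • y)
    (r1_inj : ∀ x : E1, r1 x = 0 → ∃ n : ℕ, s ^ n • x = 0) :
    ∃ (M : X.Modules) (_ : Scheme.Modules.IsInvertible M) (a0 : Γ(M, U) ≃+ E0)
      (a1 : Γ(M, V) ≃+ E1) (a01 : Γ(M, U ⊓ V) ≃+ E01),
      (∀ (c : Γ(X, U)) (x : Γ(M, U)), a0 (c • x) = c • a0 x) ∧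
      (∀ (c : Γ(X, V)) (x : Γ(M, V)), a1 (c • x) = c • a1 x) ∧
      (∀ (c : Γ(X, U ⊓ V)) (x : Γ(M, U ⊓ V)), a01 (c • x) = c • a01 x) ∧
      (∀ x : Γ(M, U), a01 (res M inf_le_left x) = r0 (a0 x)) ∧
      (∀ x : Γ(M, V), a01 (res M inf_le_right x) = r1 (a1 x)) := by
  obtain ⟨n, f0, e0, h0⟩ := exists_locGen Γ(X, U) E0
  obtain ⟨m, f1, e1, h1⟩ := exists_locGen Γ(X, V) E1
  have hW : IsAffineOpen (U ⊓ V) := ht ▸ hU.basicOpen t
  let φ0 : Γ(X, U) →+* Γ(X, U ⊓ V) := resOHom inf_le_left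
  let φ1 : Γ(X, V) →+* Γ(X, U ⊓ V) := resOHom inf_le_right
  have h01 := locGen_localization (φ := φ0) h0 r0 r0_smul t
    (isUnit_resO t ht.ge inf_le_left) (fun c => resO_surj hU t ht.symm inf_le_left c)
    r0_surj r0_inj
  have h10 := locGen_localization (φ := φ1) h1 r1 r1_smul s
    (isUnit_resO s hs.ge inf_le_right) (fun c => resO_surj hV s hs.symm inf_le_right c)
    r1_surj r1_inj
  let D : Data U V E0 E1 E01 (fun i : ULift.{u} (Fin n) => f0 i.down) (fun i => e0 i.down)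
      (fun i : ULift.{u} (Fin m) => f1 i.down) (fun i => e1 i.down) :=
    { r0 := { toFun := r0, map_add' := map_add r0, map_smul' := r0_smul }
      r1 := { toFun := r1, map_add' := map_add r1, map_smul' := r1_smul }
      gen0 := locGen_reindex h0 Equiv.ulift
      gen1 := locGen_reindex h1 Equiv.ulift
      gen01 := locGen_reindex h01 Equiv.ulift
      gen10 := locGen_reindex h10 Equiv.ulift }
  obtain ⟨M, hM, a0, a1, a01, b0, b1, b01, hc0, hc1⟩ := D.exists_module hU hV hW hUV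
  let c0 := LinearEquiv.ofBijective a0 b0
  let c1 := LinearEquiv.ofBijective a1 b1
  let c01 := LinearEquiv.ofBijective a01 b01
  refine ⟨M, hM, c0.symm.toAddEquiv, c1.symm.toAddEquiv, c01.symm.toAddEquiv,
    fun c x => c0.symm.map_smul c x, fun c x => c1.symm.map_smul c x,
    fun c x => c01.symm.map_smul c x, fun x => ?_, fun x => ?_⟩
  · change c01.symm _ = r0 (c0.symm x)
    rw [LinearEquiv.symm_apply_eq]
    have := hc0 (c0.symm x)
    have e : a0 (c0.symm x) = x := c0.apply_symm_apply x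
    rw [e] at this
    exact this.symm
  · change c01.symm _ = r1 (c1.symm x)
    rw [LinearEquiv.symm_apply_eq]
    have := hc1 (c1.symm x)
    have e : a1 (c1.symm x) = x := c1.apply_symm_apply x
    rw [e] at this
    exact this.symm

variable {M N : X.Modules}

/-- a `HomOn` as an `LHom` -/
noncomputable def toLHom {T : X.Opens} (φ : HomOn M N T) : LHom T M N where
  f W h := AddMonoidHom.mk' (φ.app W h) (φ.app_add W h)
  smul W h a x := φ.app_smul W h a x
  res W V h h' x := φ.app_res W h V h' _ x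

/-- **S25-B3, homomorphisms** from an invertible module on `X = U ∪ V` are given by compatible
linear maps on sections over `U`, `V`, `U ⊓ V`. -/
theorem exists_hom_of_charts (hU : IsAffineOpen U) (hV : IsAffineOpen V)
    (hW : IsAffineOpen (U ⊓ V)) (hUV : U ⊔ V = ⊤) (hM : Scheme.Modules.IsInvertible M)
    (a0 : Γ(M, U) →+ Γ(N, U)) (a1 : Γ(M, V) →+ Γ(N, V)) (a01 : Γ(M, U ⊓ V) →+ Γ(N, U ⊓ V))
    (ha0 : ∀ (c : Γ(X, U)) (x : Γ(M, U)), a0 (c • x) = c • a0 x)
    (ha1 : ∀ (c : Γ(X, V)) (x : Γ(M, V)), a1 (c • x) = c • a1 x)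
    (ha01 : ∀ (c : Γ(X, U ⊓ V)) (x : Γ(M, U ⊓ V)), a01 (c • x) = c • a01 x)
    (h0 : ∀ x : Γ(M, U), a01 (res M inf_le_left x) = res N inf_le_left (a0 x))
    (h1 : ∀ x : Γ(M, V), a01 (res M inf_le_right x) = res N inf_le_right (a1 x)) :
    ∃! φ : M ⟶ N, (∀ x, φ.app U x = a0 x) ∧ (∀ x, φ.app V x = a1 x) := by
  let b0 : Γ(M, U) →ₗ[Γ(X, U)] Γ(N, U) := { a0 with map_smul' := ha0 }
  let b1 : Γ(M, V) →ₗ[Γ(X, V)] Γ(N, V) := { a1 with map_smul' := ha1 }
  let b01 : Γ(M, U ⊓ V) →ₗ[Γ(X, U ⊓ V)] Γ(N, U ⊓ V) := { a01 with map_smul' := ha01 }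
  obtain ⟨φ0, hφ0⟩ := exists_homOn_of_linear hU hM b0
  obtain ⟨φ1, hφ1⟩ := exists_homOn_of_linear hV hM b1
  have e0 : ∀ x, φ0.app (U ⊓ V) inf_le_left x = a01 x := by
    obtain ⟨ι, _, f, e, hgen, h⟩ := exists_locGen_cover hU hM
    have h' := locGen_res hU hM h hW inf_le_left
    have : φ0.lin inf_le_left = b01 := by
      refine LinearMap.ext_on_range h'.span_eq_top fun i => ?_
      change φ0.app (U ⊓ V) inf_le_left _ = a01 _
      rw [φ0.app_res U le_rfl, h0, hφ0]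
      rfl
    exact fun x => congrArg (fun l => l x) this
  have e1 : ∀ x, φ1.app (U ⊓ V) inf_le_right x = a01 x := by
    obtain ⟨ι, _, f, e, hgen, h⟩ := exists_locGen_cover hV hM
    have h' := locGen_res hV hM h hW inf_le_right
    have : φ1.lin inf_le_right = b01 := by
      refine LinearMap.ext_on_range h'.span_eq_top fun i => ?_
      change φ1.app (U ⊓ V) inf_le_right _ = a01 _
      rw [φ1.app_res V le_rfl, h1, hφ1]
      rfl
    exact fun x => congrArg (fun l => l x) this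
  have e01 : φ0.restrict inf_le_left = φ1.restrict inf_le_right :=
    HomOn.ext_affine hW hM fun x => (e0 x).trans (e1 x).symm
  have key : ∀ (W : X.Opens) (h : W ≤ U) (h' : W ≤ V) (x : Γ(M, W)),
      φ0.app W h x = φ1.app W h' x := fun W h h' x =>
    congrArg (fun ψ : HomOn M N (U ⊓ V) => ψ.app W (le_inf h h') x) e01
  obtain ⟨φ, hφ, -⟩ := LHom.exists_hom (M := M) (N := N) (fun b : Bool => bif b then V else U)
    (by rw [iSup_bool_eq, sup_comm]; exact hUV)
    (fun b => match b with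
      | true => toLHom φ1
      | false => toLHom φ0) (by
      rintro (_ | _) (_ | _) W hi hj x
      · rfl
      · exact key W hi hj x
      · exact (key W hj hi x).symm
      · rfl)
  refine ⟨φ, ⟨fun x => (hφ false U le_rfl x).trans (hφ0 x),
    fun x => (hφ true V le_rfl x).trans (hφ1 x)⟩, ?_⟩
  rintro ψ ⟨hψ0, hψ1⟩
  refine hom_ext_app fun W x => ?_
  have f0 : HomOn.ofHom ψ U = HomOn.ofHom φ U := HomOn.ext_affine hU hM fun x =>
    (hψ0 x).trans ((hφ false U le_rfl x).trans (hφ0 x)).symm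
  have f1 : HomOn.ofHom ψ V = HomOn.ofHom φ V := HomOn.ext_affine hV hM fun x =>
    (hψ1 x).trans ((hφ true V le_rfl x).trans (hφ1 x)).symm
  refine sec_ext (fun b : Bool => W ⊓ bif b then V else U) (fun b => inf_le_left)
    (by rw [← inf_iSup_eq, iSup_bool_eq, sup_comm]; exact le_inf le_rfl (hUV ▸ le_top)) ?_
  rintro (_ | _)
  · rw [← app_res, ← app_res]
    exact congrArg (fun ψ : HomOn M N U => ψ.app (W ⊓ U) inf_le_right
      (res M inf_le_left x)) f0
  · rw [← app_res, ← app_res]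
    exact congrArg (fun ψ : HomOn M N V => ψ.app (W ⊓ V) inf_le_right
      (res M inf_le_left x)) f1

/-- homomorphisms from an invertible module are determined by their values on sections over
an affine cover -/
theorem hom_ext_charts (hU : IsAffineOpen U) (hV : IsAffineOpen V) (hUV : U ⊔ V = ⊤)
    (hM : Scheme.Modules.IsInvertible M) {φ ψ : M ⟶ N} (h0 : ∀ x, φ.app U x = ψ.app U x)
    (h1 : ∀ x, φ.app V x = ψ.app V x) : φ = ψ := by
  refine hom_ext_app fun W x => ?_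
  have f0 : HomOn.ofHom φ U = HomOn.ofHom ψ U := HomOn.ext_affine hU hM fun x => h0 x
  have f1 : HomOn.ofHom φ V = HomOn.ofHom ψ V := HomOn.ext_affine hV hM fun x => h1 x
  refine sec_ext (fun b : Bool => W ⊓ bif b then V else U) (fun b => inf_le_left)
    (by rw [← inf_iSup_eq, iSup_bool_eq, sup_comm]; exact le_inf le_rfl (hUV ▸ le_top)) ?_
  rintro (_ | _)
  · rw [← app_res, ← app_res]
    exact congrArg (fun ψ : HomOn M N U => ψ.app (W ⊓ U) inf_le_right
      (res M inf_le_left x)) f0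
  · rw [← app_res, ← app_res]
    exact congrArg (fun ψ : HomOn M N V => ψ.app (W ⊓ V) inf_le_right
      (res M inf_le_left x)) f1

/-- **S25-B3, isomorphisms** between invertible modules on `X = U ∪ V`. -/
theorem exists_iso_of_charts (hU : IsAffineOpen U) (hV : IsAffineOpen V)
    (hW : IsAffineOpen (U ⊓ V)) (hUV : U ⊔ V = ⊤) (hM : Scheme.Modules.IsInvertible M)
    (hN : Scheme.Modules.IsInvertible N)
    (a0 : Γ(M, U) ≃+ Γ(N, U)) (a1 : Γ(M, V) ≃+ Γ(N, V)) (a01 : Γ(M, U ⊓ V) ≃+ Γ(N, U ⊓ V))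
    (ha0 : ∀ (c : Γ(X, U)) (x : Γ(M, U)), a0 (c • x) = c • a0 x)
    (ha1 : ∀ (c : Γ(X, V)) (x : Γ(M, V)), a1 (c • x) = c • a1 x)
    (ha01 : ∀ (c : Γ(X, U ⊓ V)) (x : Γ(M, U ⊓ V)), a01 (c • x) = c • a01 x)
    (h0 : ∀ x : Γ(M, U), a01 (res M inf_le_left x) = res N inf_le_left (a0 x))
    (h1 : ∀ x : Γ(M, V), a01 (res M inf_le_right x) = res N inf_le_right (a1 x)) :
    ∃! φ : M ≅ N, (∀ x, φ.hom.app U x = a0 x) ∧ (∀ x, φ.hom.app V x = a1 x) := by
  obtain ⟨φ, ⟨h2, h3⟩, hφ⟩ := exists_hom_of_charts hU hV hW hUV hM a0.toAddMonoidHom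
    a1.toAddMonoidHom a01.toAddMonoidHom ha0 ha1 ha01 h0 h1
  have hiso : IsIso φ := by
    refine isIso_of_affine_cover hM hN φ (fun b : Bool => bif b then V else U) ?_ ?_ ?_
    · rintro (_ | _)
      · exact hU
      · exact hV
    · rw [iSup_bool_eq, sup_comm]; exact hUV
    · rintro (_ | _)
      · have : (φ.app U : Γ(M, U) → Γ(N, U)) = a0 := funext h2
        change Function.Bijective (φ.app U : Γ(M, U) → Γ(N, U))
        rw [this]; exact a0.bijective
      · have : (φ.app V : Γ(M, V) → Γ(N, V)) = a1 := funext h3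
        change Function.Bijective (φ.app V : Γ(M, V) → Γ(N, V))
        rw [this]; exact a1.bijective
  refine ⟨asIso φ, ⟨h2, h3⟩, ?_⟩
  rintro ψ ⟨h4, h5⟩
  ext1
  exact hφ ψ.hom ⟨h4, h5⟩

end Final

end Fermat.Agent.H73.TwoChart
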