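import Fermat.Agent.H74Lift
import Fermat.Agent.H10_P1LatOpen

/-!
# Lifting gluing data and acyclic lattices along nilpotent thickenings (S25-D6)
-/

set_option autoImplicit false
set_option linter.style.haveILetI false
universe u v w

open TensorProduct

namespace Fermat.Agent.H74.Lift

section Glue

variable {S0 S1 S01 : Type u} {T0 T1 T01 : Type v}
  [CommRing S0] [CommRing S1] [CommRing S01] [CommRing T0] [CommRing T1] [CommRing T01]
  [Algebra S0 S01] [Algebra S1 S01] [Algebra T0 T01] [Algebra T1 T01]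
  [Algebra S0 T0] [Algebra S1 T1] [Algebra S01 T01] [Algebra S0 T01] [Algebra S1 T01]
  [IsScalarTower S0 S01 T01] [IsScalarTower S0 T0 T01]
  [IsScalarTower S1 S01 T01] [IsScalarTower S1 T1 T01]

/-- Gluing data of invertible modules lift along nilpotent thickenings. -/
theorem exists_lift_glue
    (h0 : Function.Surjective (algebraMap S0 T0)) (h1 : Function.Surjective (algebraMap S1 T1))
    (h01 : Function.Surjective (algebraMap S01 T01))
    (n0 : IsNilpotent (RingHom.ker (algebraMap S0 T0)))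
    (n1 : IsNilpotent (RingHom.ker (algebraMap S1 T1)))
    (n01 : IsNilpotent (RingHom.ker (algebraMap S01 T01)))
    (E0 E1 E01 : Type w) [AddCommGroup E0] [AddCommGroup E1] [AddCommGroup E01]
    [Module T0 E0] [Module S0 E0] [IsScalarTower S0 T0 E0]
    [Module T1 E1] [Module S1 E1] [IsScalarTower S1 T1 E1]
    [Module T01 E01] [Module S01 E01] [IsScalarTower S01 T01 E01]
    [Module T0 E01] [IsScalarTower T0 T01 E01] [Module T1 E01] [IsScalarTower T1 T01 E01]
    [Module S0 E01] [IsScalarTower S0 T0 E01] [IsScalarTower S0 S01 E01]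
    [Module S1 E01] [IsScalarTower S1 T1 E01] [IsScalarTower S1 S01 E01]
    [Module.Invertible T0 E0] [Module.Invertible T1 E1]
    (r0 : E0 →ₗ[T0] E01) (r1 : E1 →ₗ[T1] E01) (b0 : IsBaseChange T01 r0)
    (b1 : IsBaseChange T01 r1) :
    ∃ (F0 F1 F01 : Type u) (_ : AddCommGroup F0) (_ : AddCommGroup F1) (_ : AddCommGroup F01)
      (_ : Module S0 F0) (_ : Module S1 F1) (_ : Module S01 F01) (_ : Module S0 F01)
      (_ : Module S1 F01) (_ : IsScalarTower S0 S01 F01) (_ : IsScalarTower S1 S01 F01)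
      (_ : Module.Invertible S0 F0) (_ : Module.Invertible S1 F1) (_ : Module.Invertible S01 F01)
      (q0 : F0 →ₗ[S0] E0) (q1 : F1 →ₗ[S1] E1) (q01 : F01 →ₗ[S01] E01)
      (r0' : F0 →ₗ[S0] F01) (r1' : F1 →ₗ[S1] F01),
      IsRed T0 q0 ∧ IsRed T1 q1 ∧ IsRed T01 q01 ∧ IsBaseChange S01 r0' ∧ IsBaseChange S01 r1' ∧
      (∀ x, q01 (r0' x) = r0 (q0 x)) ∧ ∀ x, q01 (r1' x) = r1 (q1 x) := by
  have tow0 : IsScalarTower S0 T01 E01 := IsScalarTower.of_algebraMap_smul fun r x => by
    rw [IsScalarTower.algebraMap_apply S0 T0 T01, algebraMap_smul, algebraMap_smul]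
  have tow1 : IsScalarTower S1 T01 E01 := IsScalarTower.of_algebraMap_smul fun r x => by
    rw [IsScalarTower.algebraMap_apply S1 T1 T01, algebraMap_smul, algebraMap_smul]
  obtain ⟨F0, _, _, _, q0, hq0⟩ := exists_lift_invertible h0 n0 E0
  obtain ⟨F1, _, _, _, q1, hq1⟩ := exists_lift_invertible h1 n1 E1
  -- base changes to the overlap
  have c0 : IsBaseChange T01 ((r0.restrictScalars S0) ∘ₗ q0) :=
    (isBaseChange_of_isRed h0 hq0).comp b0
  have c1 : IsBaseChange T01 ((r1.restrictScalars S1) ∘ₗ q1) :=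
    (isBaseChange_of_isRed h1 hq1).comp b1
  let F01 := S01 ⊗[S0] F0
  let G01 := S01 ⊗[S1] F1
  let m0 : F0 →ₗ[S0] F01 := TensorProduct.mk S0 S01 F0 1
  let m1 : F1 →ₗ[S1] G01 := TensorProduct.mk S1 S01 F1 1
  have hm0 : IsBaseChange S01 m0 := TensorProduct.isBaseChange S0 F0 S01
  have hm1 : IsBaseChange S01 m1 := TensorProduct.isBaseChange S1 F1 S01
  let q01 : F01 →ₗ[S01] E01 := hm0.lift ((r0.restrictScalars S0) ∘ₗ q0)
  let p01 : G01 →ₗ[S01] E01 := hm1.lift ((r1.restrictScalars S1) ∘ₗ q1)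
  have hq01 : ∀ x, q01 (m0 x) = r0 (q0 x) := fun x => hm0.lift_eq _ x
  have hp01 : ∀ x, p01 (m1 x) = r1 (q1 x) := fun x => hm1.lift_eq _ x
  have bq : IsBaseChange T01 q01 := by
    refine IsBaseChange.of_comp hm0 ?_
    convert c0 using 1
    ext x
    exact hq01 x
  have bp : IsBaseChange T01 p01 := by
    refine IsBaseChange.of_comp hm1 ?_
    convert c1 using 1
    ext x
    exact hp01 x
  have rq : IsRed T01 q01 := isRed_of_isBaseChange h01 bq
  have rp : IsRed T01 p01 := isRed_of_isBaseChange h01 bp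
  obtain ⟨φ, hφ⟩ := exists_lift_hom (R' := T01) (f := p01) (f' := q01) rq.surj
    (LinearMap.id : E01 →ₗ[T01] E01)
  have hφb : Function.Bijective φ :=
    bijective_of_isRed n01 rp rq φ id Function.bijective_id (fun x => (hφ x).symm)
  let e : G01 ≃ₗ[S01] F01 := LinearEquiv.ofBijective φ hφb
  let r1' : F1 →ₗ[S1] F01 := (e.toLinearMap.restrictScalars S1) ∘ₗ m1
  have hr1' : IsBaseChange S01 r1' := hm1.comp (IsBaseChange.ofEquiv e)
  refine ⟨F0, F1, F01, inferInstance, inferInstance, inferInstance, inferInstance, inferInstance,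
    inferInstance, inferInstance, inferInstance, inferInstance, inferInstance, inferInstance,
    inferInstance, inferInstance, q0, q1, q01, m0, r1', hq0, hq1, rq, hm0, hr1', hq01, ?_⟩
  intro x
  have := hφ (m1 x)
  simp only [LinearMap.id_coe, id_eq] at this
  rw [← hp01, ← this]
  rfl

end Glue

section Elementwise

/-- elementwise form of "localization at the powers of `t`" for a semilinear map. -/
structure IsLocMap {S S' : Type*} [CommRing S] [CommRing S'] (ρ : S →+* S') (t : S)
    {E E' : Type*} [AddCommGroup E] [AddCommGroup E'] [Module S E] [Module S' E']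
    (r : E →+ E') : Prop where
  smul : ∀ (a : S) (x : E), r (a • x) = ρ a • r x
  surj : ∀ y : E', ∃ (n : ℕ) (x : E), r x = (ρ t) ^ n • y
  inj : ∀ x : E, r x = 0 → ∃ n : ℕ, t ^ n • x = 0

variable {S S' : Type*} [CommRing S] [CommRing S'] [Algebra S S'] {t : S}
  {E E' : Type*} [AddCommGroup E] [AddCommGroup E'] [Module S E] [Module S' E'] [Module S E']
  [IsScalarTower S S' E']

theorem isBaseChange_of_isLocMap [IsLocalization.Away t S'] {r : E →ₗ[S] E'}
    (h : IsLocMap (algebraMap S S') t r.toAddMonoidHom) : IsBaseChange S' r := by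
  have hu : ∀ x : Submonoid.powers t, IsUnit (algebraMap S S' (x : S)) := fun x =>
    IsLocalization.map_units S' x
  rw [← isLocalizedModule_iff_isBaseChange (Submonoid.powers t)]
  refine ⟨?_, ?_, ?_⟩
  · intro x
    rw [Module.End.isUnit_iff]
    obtain ⟨u, hu⟩ := hu x
    have key : ∀ y : E', (algebraMap S (Module.End S E') (x : S)) y = (u : S') • y := by
      intro y
      rw [Module.algebraMap_end_apply, hu, algebraMap_smul]
    constructor
    · intro a b hab
      rw [key, key] at hab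
      have := congrArg (fun z => (↑u⁻¹ : S') • z) hab
      simpa [smul_smul] using this
    · intro y
      refine ⟨(↑u⁻¹ : S') • y, ?_⟩
      rw [key, smul_smul]
      simp
  · intro y
    obtain ⟨n, x, hx⟩ := h.surj y
    refine ⟨⟨x, ⟨t ^ n, n, rfl⟩⟩, ?_⟩
    change t ^ n • y = r x
    have hx' : r x = (algebraMap S S' t) ^ n • y := hx
    rw [hx', ← map_pow, algebraMap_smul]
  · intro x₁ x₂ hx
    obtain ⟨n, hn⟩ := h.inj (x₁ - x₂) (by
      change r (x₁ - x₂) = 0
      rw [map_sub, hx, sub_self])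
    refine ⟨⟨t ^ n, n, rfl⟩, ?_⟩
    change t ^ n • x₁ = t ^ n • x₂
    rw [← sub_eq_zero, ← smul_sub, hn]

theorem isLocMap_of_isBaseChange [IsLocalization.Away t S'] {r : E →ₗ[S] E'}
    (h : IsBaseChange S' r) : IsLocMap (algebraMap S S') t r.toAddMonoidHom := by
  have h' : IsLocalizedModule (Submonoid.powers t) r :=
    (isLocalizedModule_iff_isBaseChange (Submonoid.powers t) S' r).mpr h
  refine ⟨?_, ?_, ?_⟩
  · intro a x
    change r (a • x) = algebraMap S S' a • r x
    rw [map_smul, algebraMap_smul]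
  · intro y
    obtain ⟨⟨x, ⟨_, n, rfl⟩⟩, hx⟩ := IsLocalizedModule.surj (Submonoid.powers t) r y
    refine ⟨n, x, ?_⟩
    change r x = (algebraMap S S' t) ^ n • y
    rw [← map_pow, algebraMap_smul]
    exact hx.symm
  · intro x hx
    have hx' : r x = r 0 := by rw [map_zero]; exact hx
    obtain ⟨⟨_, n, rfl⟩, hc⟩ := IsLocalizedModule.exists_of_eq (S := Submonoid.powers t) hx'
    refine ⟨n, ?_⟩
    change t ^ n • x = t ^ n • 0 at hc
    rw [hc, smul_zero]

end Elementwise

section GlueElt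

/-- semilinear reduction map, elementwise -/
structure IsRedMap {S T : Type*} [CommRing S] [CommRing T] (π : S →+* T)
    {F E : Type*} [AddCommGroup F] [AddCommGroup E] [Module S F] [Module T E]
    (q : F →+ E) : Prop where
  smul : ∀ (a : S) (x : F), q (a • x) = π a • q x
  surj : Function.Surjective q
  ker : ∀ x : F, q x = 0 → x ∈ (RingHom.ker π) • (⊤ : Submodule S F)

/-- Gluing data of invertible modules on a two-chart cover lift along nilpotent thickenings
(elementwise form). -/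
theorem exists_lift_glue_elt {S0 S1 S01 : Type u} {T0 T1 T01 : Type v}
    [CommRing S0] [CommRing S1] [CommRing S01] [CommRing T0] [CommRing T1] [CommRing T01]
    (ρ0 : S0 →+* S01) (ρ1 : S1 →+* S01) (σ0 : T0 →+* T01) (σ1 : T1 →+* T01)
    (π0 : S0 →+* T0) (π1 : S1 →+* T1) (π01 : S01 →+* T01)
    (c0 : ∀ a, π01 (ρ0 a) = σ0 (π0 a)) (c1 : ∀ a, π01 (ρ1 a) = σ1 (π1 a))
    (h0 : Function.Surjective π0) (h1 : Function.Surjective π1) (h01 : Function.Surjective π01)
    (n0 : IsNilpotent (RingHom.ker π0)) (n1 : IsNilpotent (RingHom.ker π1))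
    (n01 : IsNilpotent (RingHom.ker π01)) (t : S0) (s : S1)
    (l0 : @IsLocalization.Away S0 _ t S01 _ ρ0.toAlgebra)
    (l1 : @IsLocalization.Away S1 _ s S01 _ ρ1.toAlgebra)
    (l0' : @IsLocalization.Away T0 _ (π0 t) T01 _ σ0.toAlgebra)
    (l1' : @IsLocalization.Away T1 _ (π1 s) T01 _ σ1.toAlgebra)
    (E0 E1 E01 : Type w) [AddCommGroup E0] [AddCommGroup E1] [AddCommGroup E01]
    [Module T0 E0] [Module T1 E1] [Module T01 E01]
    [Module.Invertible T0 E0] [Module.Invertible T1 E1]
    (r0 : E0 →+ E01) (r1 : E1 →+ E01) (b0 : IsLocMap σ0 (π0 t) r0) (b1 : IsLocMap σ1 (π1 s) r1) :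
    ∃ (F0 F1 F01 : Type u) (_ : AddCommGroup F0) (_ : AddCommGroup F1) (_ : AddCommGroup F01)
      (_ : Module S0 F0) (_ : Module S1 F1) (_ : Module S01 F01)
      (_ : Module.Invertible S0 F0) (_ : Module.Invertible S1 F1) (_ : Module.Invertible S01 F01)
      (q0 : F0 →+ E0) (q1 : F1 →+ E1) (q01 : F01 →+ E01) (r0' : F0 →+ F01) (r1' : F1 →+ F01),
      IsRedMap π0 q0 ∧ IsRedMap π1 q1 ∧ IsRedMap π01 q01 ∧ IsLocMap ρ0 t r0' ∧
      IsLocMap ρ1 s r1' ∧ (∀ x, q01 (r0' x) = r0 (q0 x)) ∧ ∀ x, q01 (r1' x) = r1 (q1 x) := by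
  letI : Algebra S0 S01 := ρ0.toAlgebra
  letI : Algebra S1 S01 := ρ1.toAlgebra
  letI : Algebra T0 T01 := σ0.toAlgebra
  letI : Algebra T1 T01 := σ1.toAlgebra
  letI : Algebra S0 T0 := π0.toAlgebra
  letI : Algebra S1 T1 := π1.toAlgebra
  letI : Algebra S01 T01 := π01.toAlgebra
  letI : Algebra S0 T01 := (σ0.comp π0).toAlgebra
  letI : Algebra S1 T01 := (σ1.comp π1).toAlgebra
  haveI : IsScalarTower S0 T0 T01 := IsScalarTower.of_algebraMap_eq fun a => rfl
  haveI : IsScalarTower S1 T1 T01 := IsScalarTower.of_algebraMap_eq fun a => rfl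
  haveI : IsScalarTower S0 S01 T01 := IsScalarTower.of_algebraMap_eq fun a => (c0 a).symm
  haveI : IsScalarTower S1 S01 T01 := IsScalarTower.of_algebraMap_eq fun a => (c1 a).symm
  letI : Module S0 E0 := Module.compHom E0 π0
  haveI : IsScalarTower S0 T0 E0 := IsScalarTower.of_algebraMap_smul fun r x => rfl
  letI : Module S1 E1 := Module.compHom E1 π1
  haveI : IsScalarTower S1 T1 E1 := IsScalarTower.of_algebraMap_smul fun r x => rfl
  letI : Module S01 E01 := Module.compHom E01 π01
  haveI : IsScalarTower S01 T01 E01 := IsScalarTower.of_algebraMap_smul fun r x => rfl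
  letI : Module T0 E01 := Module.compHom E01 σ0
  haveI : IsScalarTower T0 T01 E01 := IsScalarTower.of_algebraMap_smul fun r x => rfl
  letI : Module T1 E01 := Module.compHom E01 σ1
  haveI : IsScalarTower T1 T01 E01 := IsScalarTower.of_algebraMap_smul fun r x => rfl
  letI : Module S0 E01 := Module.compHom E01 (σ0.comp π0)
  haveI : IsScalarTower S0 T0 E01 := IsScalarTower.of_algebraMap_smul fun r x => rfl
  haveI : IsScalarTower S0 S01 E01 := IsScalarTower.of_algebraMap_smul fun r x => by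
    change (π01 (ρ0 r)) • x = (σ0 (π0 r)) • x
    rw [c0]
  letI : Module S1 E01 := Module.compHom E01 (σ1.comp π1)
  haveI : IsScalarTower S1 T1 E01 := IsScalarTower.of_algebraMap_smul fun r x => rfl
  haveI : IsScalarTower S1 S01 E01 := IsScalarTower.of_algebraMap_smul fun r x => by
    change (π01 (ρ1 r)) • x = (σ1 (π1 r)) • x
    rw [c1]
  haveI : IsLocalization.Away t S01 := l0
  haveI : IsLocalization.Away s S01 := l1
  haveI : IsLocalization.Away (π0 t) T01 := l0'
  haveI : IsLocalization.Away (π1 s) T01 := l1'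
  let r0l : E0 →ₗ[T0] E01 := { r0 with map_smul' := b0.smul }
  let r1l : E1 →ₗ[T1] E01 := { r1 with map_smul' := b1.smul }
  have B0 : IsBaseChange T01 r0l := isBaseChange_of_isLocMap (t := π0 t) b0
  have B1 : IsBaseChange T01 r1l := isBaseChange_of_isLocMap (t := π1 s) b1
  obtain ⟨F0, F1, F01, _, _, _, _, _, _, _, _, _, _, _, _, _, q0, q1, q01, r0', r1', hq0, hq1, hq01,
    hr0, hr1, hc0, hc1⟩ := exists_lift_glue (S0 := S0) (S1 := S1) (S01 := S01) (T0 := T0)
      (T1 := T1) (T01 := T01) h0 h1 h01 n0 n1 n01 E0 E1 E01 r0l r1l B0 B1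
  refine ⟨F0, F1, F01, inferInstance, inferInstance, inferInstance, inferInstance, inferInstance,
    inferInstance, inferInstance, inferInstance, inferInstance, q0.toAddMonoidHom,
    q1.toAddMonoidHom, q01.toAddMonoidHom, r0'.toAddMonoidHom, r1'.toAddMonoidHom,
    ⟨fun a x => ?_, hq0.surj, hq0.ker_le⟩, ⟨fun a x => ?_, hq1.surj, hq1.ker_le⟩,
    ⟨fun a x => ?_, hq01.surj, hq01.ker_le⟩, isLocMap_of_isBaseChange (t := t) hr0,
    isLocMap_of_isBaseChange (t := s) hr1, hc0, hc1⟩
  · exact q0.map_smul a x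
  · exact q1.map_smul a x
  · exact q01.map_smul a x

end GlueElt

section Acyclic

open Fermat.Agent.H25 Fermat.Agent.H10.Lat

variable {A : Type u} [CommRing A] {M : Type v} [AddCommGroup M] [Module A M]
  {A' : Type u} [CommRing A'] [Algebra A A'] {M' : Type v} [AddCommGroup M']
  [Module A' M'] [Module A M'] [IsScalarTower A A' M']

/-- Acyclicity lifts along nilpotent thickenings. -/
theorem isCompl_of_isNilpotent (L : P1Lat A M) (L' : P1Lat A' M') {β : M →ₗ[A] M'}
    (hβ : L.IsBC L' β) (hP : L.FinProjP) (hQ : L.FinProjQ)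
    (hs : Function.Surjective (algebraMap A A'))
    (hnil : IsNilpotent (RingHom.ker (algebraMap A A')))
    (h : IsCompl L'.P L'.Q) : IsCompl L.P L.Q := by
  obtain ⟨m, hm⟩ := exists_forall_finite_K L hP hQ
  obtain ⟨hm, -, -⟩ := hm m le_rfl
  obtain ⟨-, hFproj⟩ := finite_projective_Qm_quot L hQ m
  rw [isCompl_iff L hm]
  have hb := (isCompl_iff_baseChange hP hQ hβ hm).mp h
  exact bijective_of_isRed (R' := A') hnil
    (f := TensorProduct.mk A A' (L.K m) 1)
    (f' := TensorProduct.mk A A' _ 1)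
    (isRed_of_isBaseChange hs (TensorProduct.isBaseChange A _ A'))
    (isRed_of_isBaseChange hs (TensorProduct.isBaseChange A _ A'))
    (gmap L m) _ hb (fun x => by simp)

end Acyclic

end Fermat.Agent.H74.Lift
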