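import Mathlib
import Fermat.Agent.H74F1

/-!
# S25-WP7: infinitesimal lifting criterion for smoothness of a scheme over an affine base
-/

set_option autoImplicit false
universe u
open CategoryTheory Limits AlgebraicGeometry MorphismProperty TopologicalSpace

namespace Fermat.Agent.H74.Sm

theorem surjective_comap_of_nilpotent {A B : Type*} [CommRing A] [CommRing B] (φ : A →+* B)
    (hs : Function.Surjective φ) (hn : IsNilpotent (RingHom.ker φ)) :
    Function.Surjective (PrimeSpectrum.comap φ) := by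
  intro z
  have h2 : z ∈ Set.range (PrimeSpectrum.comap φ) := by
    rw [range_comap_of_surjective _ φ hs, PrimeSpectrum.mem_zeroLocus]
    intro a ha
    obtain ⟨n, hn⟩ := hn
    have : a ^ n ∈ z.asIdeal := by
      have h3 : a ^ n ∈ (RingHom.ker φ) ^ n := Ideal.pow_mem_pow ha n
      rw [hn] at h3
      rw [show a ^ n = 0 by simpa using h3]
      exact zero_mem _
    exact z.isPrime.mem_of_pow_mem n this
  exact h2

theorem surjective_specMap_of_nilpotent {A B : CommRingCat.{u}} (φ : A ⟶ B)
    (hs : Function.Surjective φ.hom) (hn : IsNilpotent (RingHom.ker φ.hom)) :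
    Function.Surjective (Spec.map φ).base :=
  surjective_comap_of_nilpotent φ.hom hs hn

theorem surjective_specMap_mk {A : Type u} [CommRing A] (I : Ideal A) (hI : I ^ 2 = ⊥) :
    Function.Surjective (Spec.map (CommRingCat.ofHom (Ideal.Quotient.mk I))).base := by
  refine surjective_specMap_of_nilpotent _ Ideal.Quotient.mk_surjective ⟨2, ?_⟩
  rw [CommRingCat.hom_ofHom, Ideal.mk_ker, hI]
  rfl

/-- the lifting property along square-zero thickenings of affine schemes -/
def Lifting {R : Type u} [CommRing R] {X : Scheme.{u}} (x : X ⟶ Spec (.of R)) : Prop :=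
  ∀ (A : Type u) [CommRing A] (I : Ideal A) (_ : I ^ 2 = ⊥) (t : Spec (.of A) ⟶ Spec (.of R))
      (h₁ : Spec (.of (A ⧸ I)) ⟶ X),
      h₁ ≫ x = Spec.map (CommRingCat.ofHom (Ideal.Quotient.mk I)) ≫ t →
      ∃ h : Spec (.of A) ⟶ X, h ≫ x = t ∧
        Spec.map (CommRingCat.ofHom (Ideal.Quotient.mk I)) ≫ h = h₁

/-- the lifting property passes to open subschemes -/
theorem Lifting.of_isOpenImmersion {R : Type u} [CommRing R] {X U : Scheme.{u}}
    {x : X ⟶ Spec (.of R)} (H : Lifting x) (j : U ⟶ X) [IsOpenImmersion j] : Lifting (j ≫ x) := by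
  intro A _ I hI t h₁ w
  obtain ⟨h, h2, h3⟩ := H A I hI t (h₁ ≫ j) (by rw [Category.assoc, w])
  have hr : Set.range h.base ⊆ Set.range j.base := by
    rintro _ ⟨z, rfl⟩
    obtain ⟨w, rfl⟩ := surjective_specMap_mk I hI z
    refine ⟨h₁ w, ?_⟩
    have := congr($(h3) w)
    simpa using this.symm
  refine ⟨IsOpenImmersion.lift j h hr, ?_, ?_⟩
  · rw [← Category.assoc, IsOpenImmersion.lift_fac, h2]
  · rw [← cancel_mono j, Category.assoc, IsOpenImmersion.lift_fac, h3]

theorem formallySmooth_of_lifting {R S : Type u} [CommRing R] [CommRing S] [Algebra R S]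
    (H : Lifting (Spec.map (CommRingCat.ofHom (algebraMap R S)))) : Algebra.FormallySmooth R S := by
  refine Algebra.FormallySmooth.of_comp_surjective fun B _ _ I hI f => ?_
  obtain ⟨h, h1, h2⟩ := H B I hI (Spec.map (CommRingCat.ofHom (algebraMap R B)))
    (Spec.map (CommRingCat.ofHom f.toRingHom)) (by
      rw [← Spec.map_comp, ← Spec.map_comp, ← CommRingCat.ofHom_comp, ← CommRingCat.ofHom_comp]
      congr 2
      exact f.comp_algebraMap.trans rfl)
  obtain ⟨g, rfl⟩ := Spec.map_surjective h
  rw [← Spec.map_comp] at h1 h2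
  have h1' := congrArg CommRingCat.Hom.hom (Spec.map_injective h1)
  have h2' := congrArg CommRingCat.Hom.hom (Spec.map_injective h2)
  refine ⟨⟨g.hom, fun r => ?_⟩, ?_⟩
  · exact congr($h1' r)
  · ext s
    exact congr($h2' s)

/-- Infinitesimal lifting criterion. -/
theorem smooth_of_lifting {R : Type u} [CommRing R] {X : Scheme.{u}} (x : X ⟶ Spec (.of R))
    [LocallyOfFinitePresentation x] (H : Lifting x) : Smooth x := by
  let ι := {U : X.Opens // IsAffineOpen U}
  refine F1.smooth_of_cover x (fun i : ι => Spec Γ(X, i.1)) (fun i => i.2.fromSpec) ?_ ?_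
  · intro y
    obtain ⟨U, hU, hy, -⟩ := exists_isAffineOpen_mem_and_subset (x := y) (U := ⊤) trivial
    exact ⟨⟨U, hU⟩, by rw [hU.range_fromSpec]; exact hy⟩
  · rintro ⟨U, hU⟩
    have h1 := H.of_isOpenImmersion hU.fromSpec
    have h2 : LocallyOfFinitePresentation (hU.fromSpec ≫ x) := inferInstance
    revert h1 h2
    obtain ⟨φ, hφ⟩ := Spec.map_surjective (hU.fromSpec ≫ x)
    rw [← hφ]
    intro h1 h2
    rw [HasRingHomProperty.Spec_iff (P := @LocallyOfFinitePresentation.{u})] at h2
    rw [HasRingHomProperty.Spec_iff (P := @Smooth.{u}), RingHom.smooth_def]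
    refine ⟨?_, h2⟩
    let _ : Algebra R Γ(X, U) := φ.hom.toAlgebra
    exact formallySmooth_of_lifting h1

end Fermat.Agent.H74.Sm
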