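import Mathlib
import Fermat.Agent.H51Pb
import Fermat.Agent.H73TwoChart
import Fermat.Agent.H74LiftGlue
import Fermat.Agent.H74Sm1

/-!
# S25-WP7: lifting invertible modules along nilpotent thickenings of a two-chart curve
-/

set_option autoImplicit false
set_option linter.style.haveILetI false
universe u
open CategoryTheory Limits AlgebraicGeometry TopologicalSpace

namespace Fermat.Agent.H74.Sm

open Fermat.Agent.H25 Fermat.Agent.H51Aff Fermat.Agent.H51Pb Fermat.Agent.H73.TwoChart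
open Fermat.Agent.H74.Lift

section Alg

theorem surj_ker_of_isPushout {R A B P : Type u} [CommRing R] [CommRing A] [CommRing B]
    [CommRing P] (φ : R →+* A) (i : R →+* B) (π : B →+* P) (j : A →+* P)
    (H : IsPushout (CommRingCat.ofHom i) (CommRingCat.ofHom φ) (CommRingCat.ofHom π)
      (CommRingCat.ofHom j)) (hs : Function.Surjective φ) (hn : IsNilpotent (RingHom.ker φ)) :
    Function.Surjective π ∧ IsNilpotent (RingHom.ker π) := by
  letI : Algebra R A := φ.toAlgebra
  letI : Algebra R B := i.toAlgebra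
  letI : Algebra A P := j.toAlgebra
  letI : Algebra B P := π.toAlgebra
  letI : Algebra R P := (π.comp i).toAlgebra
  haveI : IsScalarTower R B P := IsScalarTower.of_algebraMap_eq fun x => rfl
  have hw : π.comp i = j.comp φ := by
    have := H.w
    rw [← CommRingCat.ofHom_comp, ← CommRingCat.ofHom_comp] at this
    exact congrArg CommRingCat.Hom.hom this
  haveI : IsScalarTower R A P := IsScalarTower.of_algebraMap_eq fun x => by
    change (π.comp i) x = (j.comp φ) x
    rw [hw]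
  have hbc := isBaseChange_of_isPushout (R := R) (A := A) (B := B) (B' := P) H
  have hred := isRed_of_isBaseChange (R' := A) hs hbc
  refine ⟨hred.surj, ?_⟩
  have hle : RingHom.ker π ≤ (RingHom.ker φ).map i := by
    intro x hx
    have h1 : x ∈ RingHom.ker (algebraMap R A) • (⊤ : Submodule R B) := hred.ker_le x hx
    refine Submodule.smul_induction_on h1 ?_ ?_
    · intro r hr b _
      rw [Algebra.smul_def]
      exact Ideal.mul_mem_right _ _ (Ideal.mem_map_of_mem i hr)
    · intro a b ha hb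
      exact add_mem ha hb
  obtain ⟨n, hn⟩ := hn
  refine ⟨n, ?_⟩
  have h2 : (RingHom.ker π) ^ n ≤ ((RingHom.ker φ).map i) ^ n := Ideal.pow_right_mono hle n
  rw [← Ideal.map_pow, hn] at h2
  simpa using h2

theorem mem_smul_top_of_addEquiv {S E F : Type*} [CommRing S] [AddCommGroup E] [AddCommGroup F]
    [Module S E] [Module S F] (e : E ≃+ F) (he : ∀ (c : S) (x : E), e (c • x) = c • e x)
    (I : Ideal S) {x : E} (h : e x ∈ I • (⊤ : Submodule S F)) :
    x ∈ I • (⊤ : Submodule S E) := by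
  rw [← e.symm_apply_apply x]
  refine Submodule.smul_induction_on h ?_ ?_
  · intro r hr n _
    have h1 : e.symm (r • n) = r • e.symm n := by
      apply e.injective
      rw [he, e.apply_symm_apply, e.apply_symm_apply]
    rw [h1]
    exact Submodule.smul_mem_smul hr trivial
  · intro a b ha hb
    rw [map_add]
    exact add_mem ha hb

end Alg

section Compare

variable {X Y : Scheme.{u}} (g : Y ⟶ X) {M : X.Modules} {N : Y.Modules}

/-- if functions lift along `g⁻¹ U → U`, every section of `g^* M` is a pullback -/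
theorem pb_surjective (hM : Scheme.Modules.IsInvertible M) {U : X.Opens} (hU : IsAffineOpen U)
    (hgU : IsAffineOpen (g ⁻¹ᵁ U)) (hs : Function.Surjective (g.app U)) :
    Function.Surjective (pb g M : Γ(M, U) → _) := by
  intro y
  have h1 : y ∈ Submodule.span Γ(Y, g ⁻¹ᵁ U)
      (Set.range fun x : Γ(M, U) => res _ (le_refl (g ⁻¹ᵁ U)) (pb g M x)) := by
    rw [span_range_pb g hM hU hgU le_rfl]; trivial
  induction h1 using Submodule.span_induction with
  | mem x hx =>
    obtain ⟨z, rfl⟩ := hx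
    exact ⟨z, by simp⟩
  | zero => exact ⟨0, by simp⟩
  | add a b _ _ ha hb =>
    obtain ⟨a, rfl⟩ := ha
    obtain ⟨b, rfl⟩ := hb
    exact ⟨a + b, by simp⟩
  | smul c a _ ha =>
    obtain ⟨a, rfl⟩ := ha
    obtain ⟨c, rfl⟩ := hs c
    exact ⟨c • a, pb_smul _ _ _ _⟩

theorem pb_eq_zero_of_mem (U : X.Opens) {x : Γ(M, U)}
    (hx : x ∈ (RingHom.ker (g.app U).hom) • (⊤ : Submodule Γ(X, U) Γ(M, U))) :
    pb g M x = 0 := by
  refine Submodule.smul_induction_on hx ?_ ?_
  · intro r hr m _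
    have hr' : g.app U r = 0 := hr
    rw [pb_smul, hr', zero_smul]
  · intro a b ha hb
    rw [pb_add, ha, hb, add_zero]

/-- a criterion for `g^* M ≅ N` -/
theorem nonempty_iso_of_red (hM : Scheme.Modules.IsInvertible M)
    (hN : Scheme.Modules.IsInvertible N) (u : M ⟶ (Scheme.Modules.pushforward g).obj N)
    {ι : Type*} (U : ι → X.Opens) (hU : ∀ i, IsAffineOpen (U i)) (hc : ⨆ i, U i = ⊤)
    (hg : ∀ i, IsAffineOpen (g ⁻¹ᵁ U i)) (hs : ∀ i, Function.Surjective (g.app (U i)))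
    (hq : ∀ i, Function.Surjective (u.app (U i)))
    (hk : ∀ i (x : Γ(M, U i)), u.app (U i) x = 0 →
      x ∈ (RingHom.ker (g.app (U i)).hom) • (⊤ : Submodule Γ(X, U i) Γ(M, U i))) :
    Nonempty ((Scheme.Modules.pullback g).obj M ≅ N) := by
  obtain ⟨v, hv, -⟩ := exists_pullback_hom g M N u
  have h1 : IsIso v := by
    refine isIso_of_affine_cover (hM.pullback g) hN v (fun i => g ⁻¹ᵁ U i) hg ?_ fun i => ⟨?_, ?_⟩
    · rw [← Scheme.Hom.preimage_iSup, hc]; rfl
    · rw [injective_iff_map_eq_zero]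
      intro y hy
      obtain ⟨x, rfl⟩ := pb_surjective g hM (hU i) (hg i) (hs i) y
      rw [hv] at hy
      exact pb_eq_zero_of_mem g (U i) (hk i x hy)
    · intro y
      obtain ⟨x, hx⟩ := hq i y
      exact ⟨pb g M x, by rw [hv]; exact hx⟩
  exact ⟨asIso v⟩

end Compare

section Lift

variable {R A : Type u} [CommRing R] [CommRing A] {X Y : Scheme.{u}}
  {x : X ⟶ Spec (CommRingCat.of R)} {y : Y ⟶ Spec (CommRingCat.of A)} {g : Y ⟶ X}
  {f : Spec (CommRingCat.of A) ⟶ Spec (CommRingCat.of R)}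

theorem surj_ker_app (H : IsPullback g y x f) (hs : Function.Surjective (Spec.preimage f).hom)
    (hn : IsNilpotent (RingHom.ker (Spec.preimage f).hom)) {U : X.Opens} (hU : IsAffineOpen U) :
    Function.Surjective (g.app U) ∧ IsNilpotent (RingHom.ker (g.app U).hom) :=
  surj_ker_of_isPushout _ _ _ _ (isPushout_strHom H hU) hs hn

/-- Invertible modules lift along nilpotent thickenings of the base of a two-chart curve. -/
theorem exists_lift_module (H : IsPullback g y x f)
    (hs : Function.Surjective (Spec.preimage f).hom)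
    (hn : IsNilpotent (RingHom.ker (Spec.preimage f).hom)) (τ : TwoChart x) {N : Y.Modules}
    (hN : Scheme.Modules.IsInvertible N) :
    ∃ M : X.Modules, Scheme.Modules.IsInvertible M ∧
      Nonempty ((Scheme.Modules.pullback g).obj M ≅ N) := by
  have hW : IsAffineOpen (τ.U ⊓ τ.V) := τ.basic_t ▸ τ.affU.basicOpen τ.t
  have gU := isAffineOpen_preimage H τ.affU
  have gV := isAffineOpen_preimage H τ.affV
  have gW := isAffineOpen_preimage H hW
  obtain ⟨s0, n0⟩ := surj_ker_app H hs hn τ.affU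
  obtain ⟨s1, n1⟩ := surj_ker_app H hs hn τ.affV
  obtain ⟨s01, n01⟩ := surj_ker_app H hs hn hW
  have leU : g ⁻¹ᵁ (τ.U ⊓ τ.V) ≤ g ⁻¹ᵁ τ.U := g.preimage_mono inf_le_left
  have leV : g ⁻¹ᵁ (τ.U ⊓ τ.V) ≤ g ⁻¹ᵁ τ.V := g.preimage_mono inf_le_right
  have bt : g ⁻¹ᵁ (τ.U ⊓ τ.V) = Y.basicOpen (g.app τ.U τ.t) := by
    rw [← Scheme.preimage_basicOpen, τ.basic_t]
  have bs : g ⁻¹ᵁ (τ.U ⊓ τ.V) = Y.basicOpen (g.app τ.V τ.s) := by
    rw [← Scheme.preimage_basicOpen, τ.basic_s]
  haveI := invertible gU hN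
  haveI := invertible gV hN
  obtain ⟨F0, F1, F01, _, _, _, _, _, _, _, _, _, q0, q1, q01, r0, r1, hq0, hq1, hq01, hr0, hr1,
    hc0, hc1⟩ := exists_lift_glue_elt (resOHom (inf_le_left : τ.U ⊓ τ.V ≤ τ.U))
    (resOHom (inf_le_right : τ.U ⊓ τ.V ≤ τ.V)) (resOHom leU) (resOHom leV)
    (g.app τ.U).hom (g.app τ.V).hom (g.app (τ.U ⊓ τ.V)).hom
    (fun a => app_resO g _ a) (fun a => app_resO g _ a) s0 s1 s01 n0 n1 n01 τ.t τ.s
    (τ.affU.isLocalization_of_eq_basicOpen τ.t (homOfLE inf_le_left) τ.basic_t.symm)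
    (τ.affV.isLocalization_of_eq_basicOpen τ.s (homOfLE inf_le_right) τ.basic_s.symm)
    (gU.isLocalization_of_eq_basicOpen _ (homOfLE leU) bt)
    (gV.isLocalization_of_eq_basicOpen _ (homOfLE leV) bs)
    Γ(N, g ⁻¹ᵁ τ.U) Γ(N, g ⁻¹ᵁ τ.V) Γ(N, g ⁻¹ᵁ (τ.U ⊓ τ.V)) (resHom N leU) (resHom N leV)
    ⟨fun a x => res_smul _ _ _ _, fun y => res_surj gU hN _ bt leU y,
      fun x hx => res_inj gU hN _ bt leU x hx⟩
    ⟨fun a x => res_smul _ _ _ _, fun y => res_surj gV hN _ bs leV y,
      fun x hx => res_inj gV hN _ bs leV x hx⟩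
  obtain ⟨M, hM, a0, a1, a01, l0, l1, l01, m0, m1⟩ := exists_module_of_charts τ.affU τ.affV τ.cover
    τ.t τ.s τ.basic_t τ.basic_s r0 hr0.smul hr0.surj hr0.inj r1 hr1.smul hr1.surj hr1.inj
  obtain ⟨u, ⟨hu0, hu1⟩, -⟩ := exists_hom_of_charts (M := M)
    (N := (Scheme.Modules.pushforward g).obj N) τ.affU τ.affV hW τ.cover hM
    (q0.comp a0.toAddMonoidHom) (q1.comp a1.toAddMonoidHom) (q01.comp a01.toAddMonoidHom)
    (fun c x => (congrArg q0 (l0 c x)).trans (hq0.smul c (a0 x)))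
    (fun c x => (congrArg q1 (l1 c x)).trans (hq1.smul c (a1 x)))
    (fun c x => (congrArg q01 (l01 c x)).trans (hq01.smul c (a01 x)))
    (fun x => (congrArg q01 (m0 x)).trans (hc0 (a0 x)))
    (fun x => (congrArg q01 (m1 x)).trans (hc1 (a1 x)))
  refine ⟨M, hM, nonempty_iso_of_red g hM hN u (fun b : Bool => bif b then τ.U else τ.V)
    (Bool.rec τ.affV τ.affU) ?_ (Bool.rec gV gU) (Bool.rec s1 s0) ?_ ?_⟩
  · rw [iSup_bool_eq]; exact τ.cover
  · rintro (_ | _)
    · intro y
      obtain ⟨z, rfl⟩ := hq1.surj y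
      exact ⟨a1.symm z, (hu1 _).trans (congrArg q1 (a1.apply_symm_apply z))⟩
    · intro y
      obtain ⟨z, rfl⟩ := hq0.surj y
      exact ⟨a0.symm z, (hu0 _).trans (congrArg q0 (a0.apply_symm_apply z))⟩
  · rintro (_ | _)
    · intro z hz
      have h1 : q1 (a1 z) = 0 := (hu1 z).symm.trans hz
      exact mem_smul_top_of_addEquiv a1 l1 _ (hq1.ker _ h1)
    · intro z hz
      have h1 : q0 (a0 z) = 0 := (hu0 z).symm.trans hz
      exact mem_smul_top_of_addEquiv a0 l0 _ (hq0.ker _ h1)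

end Lift

end Fermat.Agent.H74.Sm
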