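import Mathlib
import Fermat.Agent.H74Sm2
import Fermat.Agent.H2PicChart

/-!
# S25-WP7: smoothness of Picard charts
-/

set_option autoImplicit false
set_option linter.style.haveILetI false
universe u
open CategoryTheory Limits AlgebraicGeometry TopologicalSpace NeronModelInfra
  AlgebraicGeometry.RelPicard

namespace Fermat.Agent.H74.Sm

open Fermat.Agent.H25 Fermat.Agent.H51Aff Fermat.Agent.H51Pb Fermat.Agent.H2Pic
open Fermat.Agent.H74.Lift

section Rig

variable {X Y : Scheme.{u}} (g : Y ⟶ X)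

/-- A line bundle on an affine scheme, trivial on a nilpotent thickening, is trivial. -/
theorem exists_isGen_top_of_nilpotent [IsAffine X] [IsAffine Y]
    (hs : Function.Surjective (g.app ⊤)) (hn : IsNilpotent (RingHom.ker (g.app ⊤).hom))
    {N : X.Modules} (hN : Scheme.Modules.IsInvertible N)
    (h : ∃ s : Γ((Scheme.Modules.pullback g).obj N, g ⁻¹ᵁ ⊤), IsGen _ s) :
    ∃ s : Γ(N, ⊤), IsGen N s := by
  have hX : IsAffineOpen (⊤ : X.Opens) := isAffineOpen_top X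
  have hY : IsAffineOpen (g ⁻¹ᵁ ⊤) := isAffineOpen_top Y
  obtain ⟨s₁, hs₁⟩ := h
  obtain ⟨s, rfl⟩ := pb_surjective g hN hX hY hs s₁
  refine ⟨s, isGen_of_bijective hX hN s ?_⟩
  letI : Algebra Γ(X, ⊤) Γ(Y, g ⁻¹ᵁ ⊤) := (g.app ⊤).hom.toAlgebra
  letI : Module Γ(X, ⊤) Γ((Scheme.Modules.pullback g).obj N, g ⁻¹ᵁ ⊤) :=
    Module.compHom _ (g.app ⊤).hom
  haveI : IsScalarTower Γ(X, ⊤) Γ(Y, g ⁻¹ᵁ ⊤) Γ((Scheme.Modules.pullback g).obj N, g ⁻¹ᵁ ⊤) :=
    IsScalarTower.of_algebraMap_smul fun r x => rfl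
  haveI := invertible hX hN
  let β : Γ(N, ⊤) →ₗ[Γ(X, ⊤)] Γ((Scheme.Modules.pullback g).obj N, g ⁻¹ᵁ ⊤) :=
    { toFun := pb g N
      map_add' := pb_add _ _
      map_smul' := pb_smul _ _ }
  have hβ : IsRed Γ(Y, g ⁻¹ᵁ ⊤) β := isRed_of_isBaseChange hs
    (isBaseChange_pb g hN hX hY le_rfl (fun a => (resO_self _ _).symm) β
      (fun x => (res_self _ _ _).symm))
  have hα : IsRed Γ(Y, g ⁻¹ᵁ ⊤) (Algebra.linearMap Γ(X, ⊤) Γ(Y, g ⁻¹ᵁ ⊤)) := by
    refine ⟨hs, fun x hx => ?_⟩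
    have : x = x • (1 : Γ(X, ⊤)) := by simp
    rw [this]
    exact Submodule.smul_mem_smul hx trivial
  exact bijective_of_isRed (R := Γ(X, ⊤)) (R' := Γ(Y, g ⁻¹ᵁ ⊤)) hn hα hβ
    (LinearMap.toSpanSingleton _ _ s) (fun a => a • pb g N s)
    (by have := hs₁ _ le_rfl; rw [res_self] at this; exact this) (fun x => (pb_smul g N x s).symm)

end Rig

section Chart

variable {k : Type u} [Field k] {C : Scheme.{u}} {c : C ⟶ Spec (CommRingCat.of k)}
  {ε : SchemeHomOver (𝟙 (Spec (CommRingCat.of k))) c}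

/-- Rigidified line bundles lift along nilpotent thickenings. -/
theorem exists_lift_rigidified (τ : TwoChart c) {A B : CommRingCat.{u}} (φ : A ⟶ B)
    (hs : Function.Surjective φ.hom) (hn : IsNilpotent (RingHom.ker φ.hom))
    (t : Spec A ⟶ Spec (CommRingCat.of k))
    (N : RigidifiedLineBundle c ε (Spec.map φ ≫ t)) :
    ∃ M : RigidifiedLineBundle c ε t,
      Nonempty ((M.pullbackAlong ⟨Spec.map φ, rfl⟩).L ≅ N.L) := by
  have H := isPullback_baseChangeSnd (c := c)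
    (⟨Spec.map φ, rfl⟩ : SchemeHomOver (Spec.map φ ≫ t) t)
  obtain ⟨M0, hM0, ⟨e⟩⟩ := exists_lift_module (R := A) (A := B) H
    (by rw [Spec.preimage_map]; exact hs) (by rw [Spec.preimage_map]; exact hn)
    (H51Pb.baseChange (A := A) τ t) N.isInvertible
  have hσ := (hM0.pullback (rigSection c t ε))
  have h1 : Nonempty ((Scheme.Modules.pullback (Spec.map φ)).obj
      ((Scheme.Modules.pullback (rigSection c t ε)).obj M0) ≅
        SheafOfModules.unit (Spec B).ringCatSheaf) :=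
    ⟨(Scheme.Modules.pullbackComp _ _).app M0 ≪≫
      (Scheme.Modules.pullbackCongr (rigSection_baseChangeSnd c ε
        (⟨Spec.map φ, rfl⟩ : SchemeHomOver (Spec.map φ ≫ t) t)).symm).app M0 ≪≫
      ((Scheme.Modules.pullbackComp _ _).app M0).symm ≪≫
      (Scheme.Modules.pullback _).mapIso e ≪≫ N.rigidified.some⟩
  have h2 : Nonempty ((Scheme.Modules.pullback (rigSection c t ε)).obj M0 ≅
      SheafOfModules.unit (Spec A).ringCatSheaf) := by
    refine nonempty_iso_unit_iff.mpr ?_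
    have H0 : IsPullback (Spec.map φ) (𝟙 (Spec B)) (𝟙 (Spec A)) (Spec.map φ) :=
      IsPullback.of_vert_isIso ⟨by simp⟩
    obtain ⟨h3, h4⟩ := surj_ker_app (R := A) (A := B) H0
      (by rw [Spec.preimage_map]; exact hs) (by rw [Spec.preimage_map]; exact hn)
      (isAffineOpen_top (Spec A))
    exact exists_isGen_top_of_nilpotent (Spec.map φ) h3 h4 hσ (nonempty_iso_unit_iff.mp h1)
  exact ⟨⟨M0, hM0, h2⟩, ⟨e⟩⟩

/-- The Picard chart has the infinitesimal lifting property. -/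
theorem lifting_of_picChart (τ : TwoChart c) (ch : PicChart c ε) : Lifting ch.x := by
  intro A _ I hI t h₁ w
  let φ : CommRingCat.of A ⟶ CommRingCat.of (A ⧸ I) := CommRingCat.ofHom (Ideal.Quotient.mk I)
  have hs : Function.Surjective φ.hom := Ideal.Quotient.mk_surjective
  have hn : IsNilpotent (RingHom.ker φ.hom) := ⟨2, by
    rw [CommRingCat.hom_ofHom, Ideal.mk_ker, hI]; rfl⟩
  let π : SchemeHomOver (Spec.map φ ≫ t) t := ⟨Spec.map φ, rfl⟩
  let h₁' : SchemeHomOver (Spec.map φ ≫ t) ch.x := ⟨h₁, w⟩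
  obtain ⟨M, ⟨e⟩⟩ := exists_lift_rigidified τ φ hs hn t (ch.L.pullbackAlong h₁')
  have h2 := (ch.locus_spec t M (Spec.map φ ≫ t) π).mp ⟨h₁', ⟨e.symm⟩⟩
  have h3 : ch.locus t M = ⊤ := by
    rw [eq_top_iff]
    intro z _
    obtain ⟨y, hy⟩ := surjective_specMap_mk I hI z
    exact h2 ⟨y, hy⟩
  obtain ⟨h, hh⟩ := (ch.locus_spec t M t ⟨𝟙 _, Category.id_comp t⟩).mpr (by
    rw [h3]; exact fun _ _ => trivial)
  refine ⟨h.1, h.2, ?_⟩
  have h4 : postComp h π = h₁' := by
    refine ch.mono _ _ _ ?_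
    refine iso_trans (iso_symm (pullbackAlong_comp ch.L h π)) ?_
    refine iso_trans (RigidifiedLineBundle.pullbackAlong_congr π
      (iso_trans hh (pullbackAlong_id M))) ?_
    exact ⟨e⟩
  exact congrArg Subtype.val h4

/-- **Smoothness of Picard charts.** -/
theorem smooth_of_picChart (τ : TwoChart c) (ch : PicChart c ε)
    [LocallyOfFinitePresentation ch.x] : Smooth ch.x :=
  smooth_of_lifting ch.x (lifting_of_picChart τ ch)

end Chart

end Fermat.Agent.H74.Sm
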