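import Fermat.Agent.H25ChiLC
import Fermat.Agent.H74F1Int
import Fermat.Agent.H74Sm3
/-!
# S25: final assembly, part 1: the glued scheme
-/
set_option autoImplicit false
universe u v
open CategoryTheory AlgebraicGeometry CategoryTheory.Limits TopologicalSpace Opposite Polynomial
open NeronModelInfra AlgebraicGeometry.RelPicard

noncomputable section

namespace Fermat.Agent.H25

open H21T

variable {k : Type u} [Field k] {C : Scheme.{u}} (c : C ⟶ Spec (CommRingCat.of k))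
  (ε : SchemeHomOver (𝟙 (Spec (CommRingCat.of k))) c)

/-- all the inputs of the final assembly -/
structure FinData : Type (u + 1) where
  τ : TwoChart c
  inj : RigInj c ε
  I : Type u
  ch : I → PicChart c ε
  aff : ∀ i, IsAffine (ch i).X
  fp : ∀ i, LocallyOfFinitePresentation (ch i).x
  ac : ∀ (i : I) (K : Type u) [Field K] (z : Spec (CommRingCat.of K) ⟶ Spec (CommRingCat.of k))
    (M : RigidifiedLineBundle c ε z), (ch i).locus z M = ⊤ → AcycP τ z (cl M)
  ex : ∀ (K : Type u) [Field K] (z : Spec (CommRingCat.of K) ⟶ Spec (CommRingCat.of k))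
    (M M' : RigidifiedLineBundle c ε z), AcycP τ z (cl M) → AcycP τ z (cl M') →
      ∃ i, (ch i).locus z M = ⊤ ∧ (ch i).locus z M' = ⊤
  J : Type u
  ν : J → SPic C
  deg : ∀ j, ∃ e : ℤ, ∀ (K : Type u) [Field K]
    (z : Spec (CommRingCat.of K) ⟶ Spec (CommRingCat.of k)) (α : SPic (pullback c z)),
      chiP τ z (α * bcl z (ν j)) = chiP τ z α + e
  rr : ∀ (K : Type u) [Field K] (z : Spec (CommRingCat.of K) ⟶ Spec (CommRingCat.of k))
    (α β : SPic (pullback c z)), chiP τ z α = chiP τ z β →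
      ∃ j, AcycP τ z (α * bcl z (ν j)) ∧ AcycP τ z (β * bcl z (ν j))
  Y : Scheme.{u}
  y : Y ⟶ Spec (CommRingCat.of k)
  Y_proper : IsProper y
  Y_int : IsIntegral Y
  F : SPic (pullback c y)
  surj : ∀ α : SPic (pullback c (𝟙 (Spec (CommRingCat.of k)))), chiP τ (𝟙 _) α = chiP τ (𝟙 _) 1 →
    ∃ s : SchemeHomOver (𝟙 (Spec (CommRingCat.of k))) y, SPic.map (baseChangeSnd c s) F = α

variable {c ε}

section locus

variable (𝒞 : PicChart c ε) {T T' : Scheme.{u}} {t : T ⟶ Spec (CommRingCat.of k)}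
  {t' : T' ⟶ Spec (CommRingCat.of k)}

lemma PicChart.locus_eq_top_iff (M : RigidifiedLineBundle c ε t) :
    𝒞.locus t M = ⊤ ↔ ∃ h : SchemeHomOver t 𝒞.x, Nonempty ((𝒞.L.pullbackAlong h).L ≅ M.L) := by
  have h1 := 𝒞.locus_spec t M t ⟨𝟙 T, Category.id_comp t⟩
  have h2 : Set.range (𝟙 T : T ⟶ T).base ⊆ 𝒞.locus t M ↔ 𝒞.locus t M = ⊤ := by
    constructor
    · intro h
      rw [eq_top_iff]
      intro x _
      exact h ⟨x, rfl⟩
    · intro h
      rw [h]
      exact fun _ _ => trivial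
  rw [← h2, ← h1]
  refine exists_congr fun h => ?_
  obtain ⟨e⟩ := pullbackAlong_id M
  exact ⟨fun ⟨a⟩ => ⟨a ≪≫ e⟩, fun ⟨a⟩ => ⟨a ≪≫ e.symm⟩⟩

lemma PicChart.locus_pullbackAlong_eq_top_iff (M : RigidifiedLineBundle c ε t)
    (g : SchemeHomOver t' t) :
    𝒞.locus t' (M.pullbackAlong g) = ⊤ ↔ Set.range g.1.base ⊆ 𝒞.locus t M := by
  rw [locus_eq_top_iff, 𝒞.locus_spec]

lemma PicChart.locus_pullbackAlong_field {K : Type u} [Field K]
    {z : Spec (CommRingCat.of K) ⟶ Spec (CommRingCat.of k)} (M : RigidifiedLineBundle c ε t)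
    (g : SchemeHomOver z t) :
    𝒞.locus z (M.pullbackAlong g) = ⊤ ↔ g.1.base (IsLocalRing.closedPoint K) ∈ 𝒞.locus t M := by
  rw [locus_pullbackAlong_eq_top_iff]
  constructor
  · exact fun h => h ⟨_, rfl⟩
  · rintro h _ ⟨x, rfl⟩
    have : x = IsLocalRing.closedPoint K := Subsingleton.elim _ _
    rw [this]
    exact h

end locus

/-- `χ(O)` -/
def chi0 (τ : TwoChart c) : ℤ := chiP τ (𝟙 _) 1

lemma chiP_one (τ : TwoChart c) {K : Type u} [Field K]
    (z : Spec (CommRingCat.of K) ⟶ Spec (CommRingCat.of k)) : chiP τ z 1 = chi0 τ := by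
  have h := chiP_map τ (⟨z, Category.comp_id z⟩ : SchemeHomOver z (𝟙 _)) 1
  rw [map_one] at h
  exact h

/-- all fibres have `χ = χ(O)` -/
def Good (τ : TwoChart c) {T : Scheme.{u}} {t : T ⟶ Spec (CommRingCat.of k)}
    (F : SPic (pullback c t)) : Prop :=
  ∀ (K : Type u) [Field K] (s : Spec (CommRingCat.of K) ⟶ T), chiAt τ F s = chi0 τ

lemma Good.map {τ : TwoChart c} {T T' : Scheme.{u}} {t : T ⟶ Spec (CommRingCat.of k)}
    {t' : T' ⟶ Spec (CommRingCat.of k)} {F : SPic (pullback c t)} (h : Good τ F)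
    (g : SchemeHomOver t' t) : Good τ (SPic.map (baseChangeSnd c g) F) := by
  intro K _ s
  rw [chiAt_map]
  exact h K _

lemma Good.of_preconnected {τ : TwoChart c} {T : Scheme.{u}} {t : T ⟶ Spec (CommRingCat.of k)}
    [PreconnectedSpace T] {F : SPic (pullback c t)} {K : Type u} [Field K]
    (s : Spec (CommRingCat.of K) ⟶ T) (h : chiAt τ F s = chi0 τ) : Good τ F := by
  intro K' _ s'
  rw [← h]
  exact chiAt_const τ F _ _

lemma exists_fieldPt {T : Scheme.{u}} (x : T) :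
    ∃ (K : Type u) (_ : Field K) (s : Spec (CommRingCat.of K) ⟶ T),
      s.base (IsLocalRing.closedPoint K) = x :=
  ⟨T.residueField x, inferInstance, T.fromSpecResidueField x,
    Scheme.fromSpecResidueField_apply _ _⟩

namespace FinData

variable (D : FinData c ε)

lemma deg' (j : D.J) {K : Type u} [Field K]
    (z : Spec (CommRingCat.of K) ⟶ Spec (CommRingCat.of k)) (α : SPic (pullback c z)) :
    chiP D.τ z (α * bcl z (D.ν j)) =
      chiP D.τ z α + chiP D.τ (𝟙 _) (bcl (𝟙 _) (D.ν j)) - chi0 D.τ := by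
  obtain ⟨e, he⟩ := D.deg j
  have h1 := he K z α
  have h2 := he k (𝟙 _) 1
  rw [one_mul] at h2
  rw [h1, h2, chi0]
  ring

/-- the index set of the charts of the Jacobian -/
def Idx : Type u := {x : D.I × D.J // chiP D.τ (𝟙 _) (bcl (𝟙 _) (D.ν x.2)) = 0}

/-- the charts of the Jacobian -/
def chart (i : D.Idx) : PicChart c ε := (D.ch i.1.1).twist (D.ν i.1.2)

lemma chi_of_acyc {K : Type u} [Field K] {z : Spec (CommRingCat.of K) ⟶ Spec (CommRingCat.of k)}
    {α : SPic (pullback c z)} (i : D.Idx) (h : AcycP D.τ z (α * bcl z (D.ν i.1.2))) :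
    chiP D.τ z α = chi0 D.τ := by
  have h1 := h.chi
  rw [D.deg', i.2] at h1
  linarith

lemma chi_of_locus {K : Type u} [Field K] {z : Spec (CommRingCat.of K) ⟶ Spec (CommRingCat.of k)}
    {M : RigidifiedLineBundle c ε z} (i : D.Idx) (h : (D.chart i).locus z M = ⊤) :
    chiP D.τ z (cl M) = chi0 D.τ := by
  rw [chart, PicChart.twist_locus] at h
  have h1 := D.ac _ K z _ h
  rw [cl_tw] at h1
  exact D.chi_of_acyc i h1

lemma exists_chart {K : Type u} [Field K] {z : Spec (CommRingCat.of K) ⟶ Spec (CommRingCat.of k)}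
    (M M' : RigidifiedLineBundle c ε z) (hM : chiP D.τ z (cl M) = chi0 D.τ)
    (hM' : chiP D.τ z (cl M') = chi0 D.τ) :
    ∃ i : D.Idx, (D.chart i).locus z M = ⊤ ∧ (D.chart i).locus z M' = ⊤ := by
  obtain ⟨j, h1, h2⟩ := D.rr K z (cl M) (cl M') (hM.trans hM'.symm)
  have h3 : chiP D.τ (𝟙 _) (bcl (𝟙 _) (D.ν j)) = 0 := by
    have := h1.chi
    rw [D.deg', hM] at this
    linarith
  rw [← cl_tw] at h1 h2
  obtain ⟨i, h4, h5⟩ := D.ex K z _ _ h1 h2
  exact ⟨⟨(i, j), h3⟩, h4, h5⟩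

theorem iSup_locus_iff {T : Scheme.{u}} (t : T ⟶ Spec (CommRingCat.of k))
    (M : RigidifiedLineBundle c ε t) :
    ⨆ i, (D.chart i).locus t M = ⊤ ↔ Good D.τ (cl M) := by
  constructor
  · intro h K _ s
    have hx : s.base (IsLocalRing.closedPoint K) ∈ (⨆ i, (D.chart i).locus t M : T.Opens) := by
      rw [h]; trivial
    obtain ⟨i, hi⟩ := Opens.mem_iSup.mp hx
    have h1 := ((D.chart i).locus_pullbackAlong_field M
      (⟨s, rfl⟩ : SchemeHomOver (s ≫ t) t)).mpr hi
    have h2 := D.chi_of_locus i h1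
    rw [cl_pullbackAlong] at h2
    rw [chiAt]
    exact h2
  · intro h
    rw [eq_top_iff]
    intro x _
    obtain ⟨K, _, r, hr⟩ := exists_fieldPt x
    let s : SchemeHomOver (r ≫ t) t := ⟨r, rfl⟩
    have h1 : chiP D.τ _ (cl (M.pullbackAlong s)) = chi0 D.τ := by
      rw [cl_pullbackAlong, ← chiAt_eq]
      exact h K r
    obtain ⟨i, hi, -⟩ := D.exists_chart (M.pullbackAlong s) (M.pullbackAlong s) h1 h1
    have h2 := ((D.chart i).locus_pullbackAlong_field M s).mp hi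
    refine Opens.mem_iSup.mpr ⟨i, ?_⟩
    rw [hr] at h2
    exact h2

end FinData

end Fermat.Agent.H25
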