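import Fermat.Agent.H25Fin1
/-!
# S25: final assembly, part 2: the Jacobian, its smoothness, properness and connectedness
-/
set_option autoImplicit false
universe u v
open CategoryTheory AlgebraicGeometry CategoryTheory.Limits TopologicalSpace Opposite Polynomial
open NeronModelInfra AlgebraicGeometry.RelPicard

noncomputable section

namespace Fermat.Agent.H25

open H21T

variable {k : Type u} [Field k] {C : Scheme.{u}} {c : C ⟶ Spec (CommRingCat.of k)}
  {ε : SchemeHomOver (𝟙 (Spec (CommRingCat.of k))) c}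

/-- the scheme representing the functor of good rigidified bundles -/
structure Jac (D : FinData c ε) : Type (u + 1) where
  P : Scheme.{u}
  p : P ⟶ Spec (CommRingCat.of k)
  Poin : RigidifiedLineBundle c ε p
  good : Good D.τ (cl Poin)
  ex : ∀ {T : Scheme.{u}} (t : T ⟶ Spec (CommRingCat.of k)) (M : RigidifiedLineBundle c ε t),
    Good D.τ (cl M) → ∃ g : SchemeHomOver t p, cl (Poin.pullbackAlong g) = cl M
  uniq : ∀ {T : Scheme.{u}} (t : T ⟶ Spec (CommRingCat.of k)) (g g' : SchemeHomOver t p),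
    cl (Poin.pullbackAlong g) = cl (Poin.pullbackAlong g') → g = g'
  smooth : Smooth p
  lft : LocallyOfFiniteType p
  sep : IsSeparated p

theorem exists_jac [IsAlgClosed k] (D : FinData c ε) : Nonempty (Jac D) := by
  obtain ⟨P, p, Poin, j, hj, hcov, hP, hiff, huniq⟩ := exists_glued D.inj D.chart
  have hj' : ∀ i, IsOpenImmersion (j i).1 := hj
  have hgood : Good D.τ (cl Poin) := by
    rw [← D.iSup_locus_iff, hiff]
    exact ⟨⟨𝟙 P, Category.id_comp p⟩, pullbackAlong_id Poin⟩
  have hx : ∀ i, (j i).1 ≫ p = (D.chart i).x := fun i => (j i).2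
  have hfp : ∀ i, LocallyOfFinitePresentation (D.chart i).x := fun i => D.fp i.1.1
  have hsm : ∀ i, Smooth (D.chart i).x := fun i => by
    have := hfp i
    exact H74.Sm.smooth_of_picChart D.τ (D.chart i)
  have hlft : LocallyOfFiniteType p :=
    H74.F1.locallyOfFiniteType_of_cover p (fun i => (D.chart i).X) (fun i => (j i).1) hcov
      (fun i => by
        have := hfp i
        rw [hx]; infer_instance)
  refine ⟨⟨P, p, Poin, hgood, ?_, ?_, ?_, hlft, ?_⟩⟩
  · intro T t M hM
    rw [← D.iSup_locus_iff, hiff] at hM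
    obtain ⟨g, hg⟩ := hM
    exact ⟨g, cl_eq_iff.mpr hg⟩
  · intro T t g g' h
    exact huniq t g g' (cl_eq_iff.mp h)
  · exact H74.F1.smooth_of_cover p (fun i => (D.chart i).X) (fun i => (j i).1) hcov
      (fun i => by rw [hx]; exact hsm i)
  · refine H74.F1.isSeparated_of_kPoints p (fun i => (D.chart i).X) (fun i => (j i).1) ?_ ?_
    · intro i
      have : IsAffine (D.chart i).X := D.aff i.1.1
      rw [hx]; infer_instance
    · intro x y hx hy
      let x' : SchemeHomOver (𝟙 _) p := ⟨x, hx⟩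
      let y' : SchemeHomOver (𝟙 _) p := ⟨y, hy⟩
      have key : ∀ x' : SchemeHomOver (𝟙 (Spec (CommRingCat.of k))) p,
          chiP D.τ (𝟙 _) (cl (Poin.pullbackAlong x')) = chi0 D.τ := by
        intro x'
        rw [cl_pullbackAlong, ← chiAt_eq]
        exact hgood k _
      obtain ⟨i, h1, h2⟩ := D.exists_chart _ _ (key x') (key y')
      have key2 : ∀ x' : SchemeHomOver (𝟙 (Spec (CommRingCat.of k))) p,
          (D.chart i).locus (𝟙 _) (Poin.pullbackAlong x') = ⊤ →
            Set.range x'.1.base ⊆ Set.range (j i).1.base := by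
        intro x' h
        obtain ⟨a, ha⟩ := ((D.chart i).locus_eq_top_iff _).mp h
        have h3 : shComp a (j i) = x' := by
          apply huniq
          rw [← cl_eq_iff] at ha ⊢
          rw [← ha, cl_pullbackAlong, ← baseChangeSnd_shComp, SPic.map_comp_apply,
            ← cl_pullbackAlong Poin, cl_eq_iff.mpr (hP i)]
          rfl
        rw [← h3]
        rintro _ ⟨z, rfl⟩
        exact ⟨a.1.base z, rfl⟩
      exact ⟨i, key2 x' h1, key2 y' h2⟩

namespace FinData

variable (D : FinData c ε)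

/-- rigidification of the family over `Y` -/
theorem exists_MY : ∃ M : RigidifiedLineBundle c ε D.y, ∀ (K : Type u) [Field K]
    {z : Spec (CommRingCat.of K) ⟶ Spec (CommRingCat.of k)} (s : SchemeHomOver z D.y),
      cl (M.pullbackAlong s) = SPic.map (baseChangeSnd c s) D.F := by
  let G : SPic (pullback c D.y) :=
    SPic.map (pullback.snd c D.y) (SPic.map (rigSection c D.y ε) D.F)
  have h1 : SPic.map (rigSection c D.y ε) (D.F * G⁻¹) = 1 := by
    have h2 : rigSection c D.y ε ≫ pullback.snd c D.y = 𝟙 _ := pullback.lift_snd _ _ _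
    rw [map_mul, map_inv, ← SPic.map_comp_apply, h2, SPic.map_id, MonoidHom.id_apply,
      mul_inv_cancel]
  obtain ⟨M, hM⟩ := exists_cl (ε := ε) _ h1
  refine ⟨M, fun K _ z s => ?_⟩
  rw [cl_pullbackAlong, hM, map_mul, map_inv]
  have h3 : SPic.map (baseChangeSnd c s) G = 1 := by
    rw [← SPic.map_comp_apply, baseChangeSnd_snd, SPic.map_comp_apply,
      spic_spec_field K (SPic.map s.1 _), map_one]
  rw [h3, inv_one, mul_one]

/-- the rigidified family over `Y` -/
def MY : RigidifiedLineBundle c ε D.y := D.exists_MY.choose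

lemma cl_MY {K : Type u} [Field K]
    {z : Spec (CommRingCat.of K) ⟶ Spec (CommRingCat.of k)} (s : SchemeHomOver z D.y) :
    cl (D.MY.pullbackAlong s) = SPic.map (baseChangeSnd c s) D.F :=
  D.exists_MY.choose_spec K s

/-- the `k`-point of `Y` with trivial bundle -/
theorem exists_y0 : ∃ s : SchemeHomOver (𝟙 _) D.y, cl (D.MY.pullbackAlong s) = 1 := by
  obtain ⟨s, hs⟩ := D.surj 1 rfl
  exact ⟨s, by rw [cl_MY, hs]⟩

theorem good_MY : Good D.τ (cl D.MY) := by
  have := D.Y_int
  obtain ⟨s, hs⟩ := D.exists_y0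
  refine Good.of_preconnected s.1 ?_
  rw [chiAt_eq, ← cl_pullbackAlong, hs]
  rfl

end FinData

namespace Jac

variable {D : FinData c ε} (𝒥 : Jac D)

theorem exists_map : ∃ f : SchemeHomOver D.y 𝒥.p, cl (𝒥.Poin.pullbackAlong f) = cl D.MY :=
  𝒥.ex D.y D.MY D.good_MY

theorem surjective [IsAlgClosed k] (f : SchemeHomOver D.y 𝒥.p)
    (hf : cl (𝒥.Poin.pullbackAlong f) = cl D.MY) : Surjective f.1 := by
  have := 𝒥.lft
  have := 𝒥.sep
  have hp : IsProper (f.1 ≫ 𝒥.p) := by rw [f.2]; exact D.Y_proper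
  refine H74.F1.surjective_of_kPoints f.1 𝒥.p fun x hx => ?_
  let x' : SchemeHomOver (𝟙 _) 𝒥.p := ⟨x, hx⟩
  have h1 : chiP D.τ (𝟙 _) (cl (𝒥.Poin.pullbackAlong x')) = chiP D.τ (𝟙 _) 1 := by
    rw [cl_pullbackAlong, ← chiAt_eq]
    exact 𝒥.good k _
  obtain ⟨s, hs⟩ := D.surj _ h1
  refine ⟨s.1, ?_⟩
  have h2 : shComp s f = x' := by
    apply 𝒥.uniq
    rw [← hs, ← D.cl_MY, cl_pullbackAlong, ← baseChangeSnd_shComp, SPic.map_comp_apply,
      ← cl_pullbackAlong 𝒥.Poin, hf, cl_pullbackAlong]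
  exact congrArg Subtype.val h2

theorem proper [IsAlgClosed k] : IsProper 𝒥.p := by
  obtain ⟨f, hf⟩ := 𝒥.exists_map
  have h1 := 𝒥.surjective f hf
  have := 𝒥.lft
  have := 𝒥.sep
  have hp : IsProper (f.1 ≫ 𝒥.p) := by rw [f.2]; exact D.Y_proper
  exact H74.F1.isProper_of_surjective f.1 𝒥.p

theorem geometricallyConnected [IsAlgClosed k] : GeometricallyConnected 𝒥.p := by
  obtain ⟨f, hf⟩ := 𝒥.exists_map
  have h1 := 𝒥.surjective f hf
  have := D.Y_proper
  have := D.Y_int
  have hp : GeometricallyConnected (f.1 ≫ 𝒥.p) := by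
    rw [f.2]
    exact H74.F1.geometricallyConnected D.y
  exact H74.F1.geometricallyConnected_of_surjective f.1 𝒥.p

end Jac

end Fermat.Agent.H25
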