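import Fermat.Agent.H25Fin2
/-!
# S25: final assembly, part 3: fibrewise algebraic equivalence to zero
-/
set_option autoImplicit false
universe u v
open CategoryTheory AlgebraicGeometry CategoryTheory.Limits TopologicalSpace Opposite Polynomial
open NeronModelInfra AlgebraicGeometry.RelPicard

noncomputable section

namespace Fermat.Agent.H25

open H21T

variable {k : Type u} [Field k] {C : Scheme.{u}} {c : C ⟶ Spec (CommRingCat.of k)}
  {ε : SchemeHomOver (𝟙 (Spec (CommRingCat.of k))) c}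

/-- surjective morphisms of finite type lift points over algebraically closed fields -/
theorem exists_lift_point {Y P : Scheme.{u}} (f : Y ⟶ P) [Surjective f] [LocallyOfFiniteType f]
    {K : Type u} [Field K] [IsAlgClosed K] (q : Spec (CommRingCat.of K) ⟶ P) :
    ∃ r : Spec (CommRingCat.of K) ⟶ Y, r ≫ f = q := by
  let g : pullback f q ⟶ Spec (CommRingCat.of K) := pullback.snd f q
  have hg : LocallyOfFiniteType g := inferInstanceAs (LocallyOfFiniteType (pullback.snd f q))
  have hs : Surjective g := inferInstanceAs (Surjective (pullback.snd f q))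
  have hJ : JacobsonSpace (pullback f q :) := LocallyOfFiniteType.jacobsonSpace g
  obtain ⟨z, -⟩ := g.surjective (IsLocalRing.closedPoint K)
  obtain ⟨x, -, hx'⟩ := nonempty_inter_closedPoints (Z := (Set.univ : Set (pullback f q :)))
    ⟨z, trivial⟩ isOpen_univ.isLocallyClosed
  obtain ⟨⟨r, hr⟩, -⟩ := (pointEquivClosedPoint g).surjective ⟨x, hx'⟩
  refine ⟨r ≫ pullback.fst f q, ?_⟩
  rw [Category.assoc, pullback.condition, ← Category.assoc]
  have : r ≫ pullback.snd f q = 𝟙 _ := hr
  rw [this, Category.id_comp]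

section

variable {T : Scheme.{u}} {t : T ⟶ Spec (CommRingCat.of k)}

/-- comparison of `C ×_k W` with `(C_T)_s ×_K W` -/
def cmp {K : Type u} [Field K] (s : Spec (CommRingCat.of K) ⟶ T) {W : Scheme.{u}}
    (g : W ⟶ Spec (CommRingCat.of K)) {w : W ⟶ Spec (CommRingCat.of k)} (hw : g ≫ s ≫ t = w) :
    pullback c w ⟶ pullback (fibreAt c t s) g :=
  pullback.lift (pullback.lift (baseChangeSnd c (⟨g ≫ s, by rw [Category.assoc, hw]⟩ :
      SchemeHomOver w t)) (pullback.snd c w ≫ g)
        ((baseChangeSnd_snd c _).trans (Category.assoc _ _ _).symm)) (pullback.snd c w)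
      (by rw [fibreAt, pullback.lift_snd])

section
variable {K : Type u} [Field K] (s : Spec (CommRingCat.of K) ⟶ T) {W : Scheme.{u}}
    (g : W ⟶ Spec (CommRingCat.of K)) {w : W ⟶ Spec (CommRingCat.of k)} (hw : g ≫ s ≫ t = w)

lemma cmp_snd : cmp (c := c) s g hw ≫ pullback.snd _ _ = pullback.snd c w :=
  pullback.lift_snd _ _ _

lemma cmp_fst_fst : cmp (c := c) s g hw ≫ pullback.fst _ _ ≫ pullback.fst (pullback.snd c t) s =
    baseChangeSnd c (⟨g ≫ s, by rw [Category.assoc, hw]⟩ : SchemeHomOver w t) := by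
  rw [cmp, pullback.lift_fst_assoc, pullback.lift_fst]

lemma cmp_fst_fst_fst : cmp (c := c) s g hw ≫ pullback.fst _ _ ≫
    pullback.fst (pullback.snd c t) s ≫ pullback.fst c t = pullback.fst c w := by
  rw [← baseChangeSnd_fst c (⟨g ≫ s, by rw [Category.assoc, hw]⟩ : SchemeHomOver w t),
    ← cmp_fst_fst s g hw]
  simp only [Category.assoc]

/-- morphisms to `(C_T)_s ×_K W` are determined by the components in `C` and `W` -/
lemma fib_hom_ext {Z : Scheme.{u}} {a b : Z ⟶ pullback (fibreAt c t s) g}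
    (h1 : a ≫ pullback.fst _ _ ≫ pullback.fst (pullback.snd c t) s ≫ pullback.fst c t =
      b ≫ pullback.fst _ _ ≫ pullback.fst (pullback.snd c t) s ≫ pullback.fst c t)
    (h2 : a ≫ pullback.snd _ _ = b ≫ pullback.snd _ _) : a = b := by
  have h3 : a ≫ pullback.fst _ _ ≫ pullback.snd (pullback.snd c t) s =
      b ≫ pullback.fst _ _ ≫ pullback.snd (pullback.snd c t) s := by
    have h4 : pullback.fst (fibreAt c t s) g ≫ pullback.snd (pullback.snd c t) s =
      pullback.snd _ _ ≫ g := pullback.condition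
    rw [h4, reassoc_of% h2]
  apply pullback.hom_ext _ h2
  apply pullback.hom_ext
  · apply pullback.hom_ext
    · simpa only [Category.assoc] using h1
    · simp only [Category.assoc]
      rw [pullback.condition, reassoc_of% h3]
  · simpa only [Category.assoc] using h3

end

theorem good_of_fibrewise (τ : TwoChart c) (M : RigidifiedLineBundle c ε t)
    (h : FibrewiseAlgEquivZero M) : Good τ (cl M) := by
  suffices H : ∀ (K : Type u) [Field K] [IsAlgClosed K] (s : Spec (CommRingCat.of K) ⟶ T),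
      chiAt τ (cl M) s = chi0 τ by
    intro K _ s
    rw [← H (AlgebraicClosure K) (Spec.map (CommRingCat.ofHom (algebraMap K (AlgebraicClosure K))) ≫ s),
      chiAt_comp]
  intro K _ _ s
  obtain ⟨T', h', hft, hgi, M', hM', t₀, t₁, ⟨e₀⟩, ⟨e₁⟩⟩ := h K s
  have hT : PreconnectedSpace T' := by
    have : IsIntegral T' := hgi.geometrically_isIntegral (𝟙 _) (𝟙 _) h'
      (IsPullback.of_horiz_isIso ⟨by simp⟩)
    infer_instance
  let w : T' ⟶ Spec (CommRingCat.of k) := h' ≫ s ≫ t
  let F : SPic (pullback c w) := SPic.map (cmp s h' rfl) (SPic.mk M' hM')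
  let κ' : pullback c (s ≫ t) ⟶ pullback (fibreAt c t s) (𝟙 _) := cmp s (𝟙 _) (Category.id_comp _)
  have h1 : ∀ r : SchemeHomOver (𝟙 (Spec (CommRingCat.of K))) h',
      chiAt τ F r.1 = chiP τ (s ≫ t) (SPic.map κ' (SPic.map (baseChangeSnd (fibreAt c t s) r)
        (SPic.mk M' hM'))) := by
    intro r
    let r' : SchemeHomOver (s ≫ t) w := ⟨r.1, by simp only [w]; rw [reassoc_of% r.2]⟩
    have hsq : baseChangeSnd c r' ≫ cmp s h' rfl = κ' ≫ baseChangeSnd (fibreAt c t s) r := by
      apply fib_hom_ext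
      · rw [Category.assoc, cmp_fst_fst_fst, Category.assoc, reassoc_of% baseChangeSnd_fst,
          cmp_fst_fst_fst, baseChangeSnd_fst]
      · rw [Category.assoc, cmp_snd, baseChangeSnd_snd, Category.assoc, baseChangeSnd_snd,
          ← Category.assoc, cmp_snd]
    rw [← SPic.map_comp_apply, ← hsq, SPic.map_comp_apply]
    exact chiAt_eq τ F r'
  have h2 : chiAt τ F t₀.1 = chi0 τ := by
    rw [h1, SPic.map_mk, SPic.mk_eq_one_iff.mpr ⟨e₀⟩, map_one, chiP_one]
  have h3 : chiAt τ F t₁.1 = chiAt τ (cl M) s := by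
    rw [h1, SPic.map_mk, SPic.mk_eq_mk (hN := (M.isInvertible.pullback _).pullback _).mpr ⟨e₁⟩]
    have h4 : κ' ≫ pullback.fst _ _ ≫ pullback.fst (pullback.snd c t) s =
        baseChangeSnd c (⟨s, rfl⟩ : SchemeHomOver (s ≫ t) t) := by
      rw [cmp_fst_fst]
      exact congrArg _ (Subtype.ext (Category.id_comp s))
    rw [← SPic.map_mk (hM := M.isInvertible.pullback _), ← SPic.map_mk (hM := M.isInvertible),
      ← SPic.map_comp_apply, ← SPic.map_comp_apply, Category.assoc, h4, chiAt]
    rfl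
  rw [← h3, chiAt_const τ F t₁.1 t₀.1, h2]

end

section

variable {T : Scheme.{u}} {t : T ⟶ Spec (CommRingCat.of k)}

/-- the comparison map `(C_T)_s ×_K W ⟶ C ×_k Y` -/
def cmq {K : Type u} [Field K] (s : Spec (CommRingCat.of K) ⟶ T) {W Y : Scheme.{u}}
    (g : W ⟶ Spec (CommRingCat.of K)) {y : Y ⟶ Spec (CommRingCat.of k)} (q : W ⟶ Y)
    (hq : g ≫ s ≫ t = q ≫ y) : pullback (fibreAt c t s) g ⟶ pullback c y :=
  pullback.lift (pullback.fst _ _ ≫ pullback.fst (pullback.snd c t) s ≫ pullback.fst c t)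
    (pullback.snd _ _ ≫ q) (by
      have h4 : pullback.fst (fibreAt c t s) g ≫ pullback.snd (pullback.snd c t) s =
        pullback.snd _ _ ≫ g := pullback.condition
      rw [Category.assoc, Category.assoc, Category.assoc, ← hq, pullback.condition,
        pullback.condition_assoc, reassoc_of% h4])

section

variable {K : Type u} [Field K] (s : Spec (CommRingCat.of K) ⟶ T) {W Y : Scheme.{u}}
    (g : W ⟶ Spec (CommRingCat.of K)) {y : Y ⟶ Spec (CommRingCat.of k)} (q : W ⟶ Y)
    (hq : g ≫ s ≫ t = q ≫ y)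

lemma cmq_fst : cmq (c := c) s g q hq ≫ pullback.fst c y =
    pullback.fst _ _ ≫ pullback.fst (pullback.snd c t) s ≫ pullback.fst c t :=
  pullback.lift_fst _ _ _

lemma cmq_snd : cmq (c := c) s g q hq ≫ pullback.snd c y = pullback.snd _ _ ≫ q :=
  pullback.lift_snd _ _ _

end

theorem fibrewise_of_good [IsAlgClosed k] {D : FinData c ε} (𝒥 : Jac D)
    (M : RigidifiedLineBundle c ε t) (h : Good D.τ (cl M)) : FibrewiseAlgEquivZero M := by
  obtain ⟨f, hf⟩ := 𝒥.exists_map
  have hsurj := 𝒥.surjective f hf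
  have := D.Y_proper
  have := D.Y_int
  have := 𝒥.lft
  have hlft : LocallyOfFiniteType f.1 := by
    have : LocallyOfFiniteType (f.1 ≫ 𝒥.p) := by rw [f.2]; infer_instance
    exact locallyOfFiniteType_of_comp f.1 𝒥.p
  obtain ⟨g, hg⟩ := 𝒥.ex t M h
  obtain ⟨y0, hy0⟩ := D.exists_y0
  intro K _ _ s
  obtain ⟨r, hr⟩ := exists_lift_point f.1 (s ≫ g.1)
  have hry : r ≫ D.y = s ≫ t := by
    rw [← f.2, reassoc_of% hr, g.2]
  have hGI : GeometricallyIntegral D.y := H74.F1.geometricallyIntegral D.y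
  let h' : pullback D.y (s ≫ t) ⟶ Spec (CommRingCat.of K) := pullback.snd D.y (s ≫ t)
  have hq : h' ≫ s ≫ t = pullback.fst D.y (s ≫ t) ≫ D.y := pullback.condition.symm
  let μ : pullback (fibreAt c t s) h' ⟶ pullback c D.y := cmq s h' (pullback.fst D.y (s ≫ t)) hq
  let t₀ : SchemeHomOver (𝟙 (Spec (CommRingCat.of K))) h' :=
    ⟨pullback.lift (s ≫ t ≫ y0.1) (𝟙 _) (by simp only [Category.assoc]; rw [y0.2]; simp),
      pullback.lift_snd _ _ _⟩
  let t₁ : SchemeHomOver (𝟙 (Spec (CommRingCat.of K))) h' :=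
    ⟨pullback.lift r (𝟙 _) (by rw [hry, Category.id_comp]), pullback.lift_snd _ _ _⟩
  refine ⟨pullback D.y (s ≫ t), h', inferInstanceAs (LocallyOfFiniteType (pullback.snd _ _)),
    inferInstanceAs (GeometricallyIntegral (pullback.snd _ _)),
    (Scheme.Modules.pullback μ).obj D.MY.L, D.MY.isInvertible.pullback μ, t₀, t₁, ?_, ?_⟩
  · have hfac : baseChangeSnd (fibreAt c t s) t₀ ≫ μ =
        cmq s (𝟙 _) (s ≫ t) (by rw [Category.id_comp, Category.comp_id]) ≫
          baseChangeSnd c y0 := by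
      apply pullback.hom_ext
      · rw [Category.assoc, Category.assoc, baseChangeSnd_fst, cmq_fst, cmq_fst,
          reassoc_of% baseChangeSnd_fst]
      · rw [Category.assoc, Category.assoc, baseChangeSnd_snd, cmq_snd,
          reassoc_of% baseChangeSnd_snd, ← Category.assoc (cmq _ _ _ _), cmq_snd]
        simp only [t₀, pullback.lift_fst, Category.assoc]
    refine (SPic.mk_eq_one_iff (hM := (D.MY.isInvertible.pullback μ).pullback _)).mp ?_
    change SPic.map (baseChangeSnd (fibreAt c t s) t₀) (SPic.map μ (cl D.MY)) = 1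
    rw [← SPic.map_comp_apply, hfac, SPic.map_comp_apply, ← cl_pullbackAlong, hy0, map_one]
  · let r' : SchemeHomOver (s ≫ t) D.y := ⟨r, hry⟩
    have hfac : baseChangeSnd (fibreAt c t s) t₁ ≫ μ =
        cmq s (𝟙 _) (𝟙 _) rfl ≫ baseChangeSnd c r' := by
      apply pullback.hom_ext
      · rw [Category.assoc, Category.assoc, baseChangeSnd_fst, cmq_fst, cmq_fst,
          reassoc_of% baseChangeSnd_fst]
      · rw [Category.assoc, Category.assoc, baseChangeSnd_snd, cmq_snd,
          reassoc_of% baseChangeSnd_snd, ← Category.assoc (cmq _ _ _ _), cmq_snd]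
        simp only [t₁, pullback.lift_fst, Category.assoc, Category.id_comp, r']
    have hfac' : cmq s (𝟙 _) (𝟙 _) rfl ≫ baseChangeSnd c (⟨s, rfl⟩ : SchemeHomOver (s ≫ t) t) =
        pullback.fst (fibreAt c t s) (𝟙 _) ≫ pullback.fst (pullback.snd c t) s := by
      apply pullback.hom_ext
      · rw [Category.assoc, baseChangeSnd_fst, cmq_fst, Category.assoc]
      · have h4 : pullback.fst (fibreAt c t s) (𝟙 _) ≫ pullback.snd (pullback.snd c t) s =
          pullback.snd _ _ ≫ 𝟙 _ := pullback.condition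
        rw [Category.assoc, baseChangeSnd_snd, ← Category.assoc, cmq_snd, Category.assoc,
          Category.assoc, pullback.condition (f := pullback.snd c t), reassoc_of% h4]
        simp only [Category.id_comp]
    have hcl : SPic.map (baseChangeSnd c r') (cl D.MY) =
        SPic.map (baseChangeSnd c (⟨s, rfl⟩ : SchemeHomOver (s ≫ t) t)) (cl M) := by
      rw [← hf, ← hg, cl_pullbackAlong, cl_pullbackAlong, ← SPic.map_comp_apply,
        ← SPic.map_comp_apply, baseChangeSnd_shComp, baseChangeSnd_shComp]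
      congr 3
      exact Subtype.ext hr
    refine (SPic.mk_eq_mk (hM := (D.MY.isInvertible.pullback μ).pullback _)
      (hN := (M.isInvertible.pullback _).pullback _)).mp ?_
    change SPic.map (baseChangeSnd (fibreAt c t s) t₁) (SPic.map μ (cl D.MY)) =
      SPic.map (pullback.fst (fibreAt c t s) (𝟙 _)) (SPic.map (pullback.fst (pullback.snd c t) s)
        (cl M))
    rw [← SPic.map_comp_apply, ← SPic.map_comp_apply, hfac, ← hfac', SPic.map_comp_apply,
      SPic.map_comp_apply, hcl]

theorem exists_representsRelSubPic [IsAlgClosed k] (D : FinData c ε) :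
    ∃ E : GoodReductionJacobian.RelativePic0Designation k c,
      Nonempty (RepresentsRelSubPic c ε (algEquivZeroCut c ε) E) ∧
        Smooth E.toBase ∧ IsProper E.toBase ∧ GeometricallyConnected E.toBase := by
  obtain ⟨𝒥⟩ := exists_jac D
  have hunit : Good D.τ (cl (RigidifiedLineBundle.unit (c := c) (ε := ε) (𝟙 _))) := by
    intro K _ s
    rw [cl_unit, chiAt, map_one, chiP_one]
  obtain ⟨z, hz⟩ := 𝒥.ex (𝟙 _) _ hunit
  refine ⟨⟨𝒥.P, 𝒥.p, z.1, z.2⟩, ⟨⟨𝒥.Poin, ?_, ?_, ?_⟩⟩, 𝒥.smooth, 𝒥.proper,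
    𝒥.geometricallyConnected⟩
  · exact fibrewise_of_good 𝒥 _ 𝒥.good
  · intro T t M hM
    obtain ⟨g, hg⟩ := 𝒥.ex t M (good_of_fibrewise D.τ M hM)
    refine ⟨g, cl_eq_iff.mp hg, fun g' hg' => 𝒥.uniq t g' g ?_⟩
    rw [hg]
    exact cl_eq_iff.mpr hg'
  · exact cl_eq_iff.mp hz

end

end Fermat.Agent.H25
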