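import Fermat.Agent.H25Act
import Mathlib.LinearAlgebra.Matrix.Polynomial

/-!
# S25-G1c: cyclicity, noncommutative polynomials giving a basis of the dual of `V`
-/

set_option autoImplicit false
universe u v w

noncomputable section

namespace Fermat.Agent.H65

open Fermat.Agent.H25 Fermat.Agent.H10.Lat Module

section Cyc

variable {k B K : Type u} [Field k] [CommRing B] [Algebra k B] {t : B}
    {F : ℕ → Submodule k B} {e : B →ₐ[k] k} [Field K] [Algebra k K]
    {M : Type v} [AddCommGroup M] [Module K M] [Module k M] [IsScalarTower k K M]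
    (L : ActLat t F e K M) (hc : IsCompl L.P L.Q)

/-- the vectors killed by all functionals `lam ∘ w`. -/
def cycW : Submodule K L.V where
  carrier := {v | ∀ q : FreeAlgebra k (B × ℕ), L.lamV (L.evV hc q v) = 0}
  add_mem' {v w} hv hw q := by rw [map_add, map_add, hv, hw, add_zero]
  zero_mem' q := by rw [map_zero, map_zero]
  smul_mem' c v hv q := by rw [map_smul, map_smul, hv, smul_zero]

lemma mem_cycW {v : L.V} :
    v ∈ cycW L hc ↔ ∀ q : FreeAlgebra k (B × ℕ), L.lamV (L.evV hc q v) = 0 := Iff.rfl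

lemma evV_mem_cycW {v : L.V} (hv : v ∈ cycW L hc) (q : FreeAlgebra k (B × ℕ)) :
    L.evV hc q v ∈ cycW L hc := fun q' => by
  have h := hv (q' * q)
  rwa [map_mul] at h

lemma mop_mem_cycW {v : L.V} (hv : v ∈ cycW L hc) (b : B) (j : ℕ) :
    L.mop hc b j v ∈ cycW L hc := by
  have h := evV_mem_cycW L hc hv (FreeAlgebra.ι k (b, j))
  rwa [ActLat.evV_ι] at h

/-- the lattice `W[τ]` -/
def cycP : Submodule K M :=
  (Finsupp.submodule fun _ : ℕ => cycW L hc).map (L.P.subtype ∘ₗ sumP L.toP1Lat)

lemma mem_cycP {x : M} : x ∈ cycP L hc ↔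
    ∃ f : ℕ →₀ L.V, (∀ j, f j ∈ cycW L hc) ∧ (sumP L.toP1Lat f : M) = x := by
  rw [cycP, Submodule.mem_map]
  rfl

lemma cycP_le : cycP L hc ≤ L.P := by
  intro x hx
  obtain ⟨f, -, rfl⟩ := (mem_cycP L hc).1 hx
  exact (sumP L.toP1Lat f).2

lemma pow_mem_cycP (n : ℕ) {w : L.V} (hw : w ∈ cycW L hc) : (L.τ ^ n) (w : M) ∈ cycP L hc := by
  rw [mem_cycP]
  refine ⟨Finsupp.single n w, fun j => ?_, ?_⟩
  · by_cases h : n = j
    · subst h
      rw [Finsupp.single_eq_same]
      exact hw
    · rw [Finsupp.single_eq_of_ne (Ne.symm h)]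
      exact (cycW L hc).zero_mem
  · rw [coe_sumP, Finsupp.sum_single_index]
    exact map_zero (L.τ ^ n)

lemma act_tau (b : B) (x : M) : L.act b (L.τ x) = L.τ (L.act b x) := by
  rw [← L.act_t, ← L.act_t]
  have h1 : L.act b * L.act t = L.act t * L.act b := by
    rw [← map_mul, mul_comm, map_mul]
  exact LinearMap.congr_fun h1 x

lemma act_tau_pow (b : B) (n : ℕ) (x : M) : L.act b ((L.τ ^ n) x) = (L.τ ^ n) (L.act b x) := by
  induction n generalizing x with
  | zero => rfl
  | succ n ih => rw [pow_succ_apply, pow_succ_apply, ih, act_tau]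

lemma act_mem_cycP (b : B) {x : M} (hx : x ∈ cycP L hc) : L.act b x ∈ cycP L hc := by
  obtain ⟨f, hf, rfl⟩ := (mem_cycP L hc).1 hx
  rw [coe_sumP, Finsupp.sum, map_sum]
  refine Submodule.sum_mem _ fun i _ => ?_
  rw [act_tau_pow, L.act_eq hc b (f i), Finsupp.sum, map_sum]
  refine Submodule.sum_mem _ fun j _ => ?_
  rw [← pow_add_apply]
  exact pow_mem_cycP L hc (i + j) (mop_mem_cycW L hc (hf i) b j)

lemma tau_pow_apply (n : ℕ) (x : M) : ((L.τ : M →ₗ[K] M) ^ n) x = (L.τ ^ n) x := by
  induction n generalizing x with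
  | zero => rfl
  | succ n ih =>
    rw [pow_succ_apply, pow_succ, Module.End.mul_apply, ih]
    rfl

lemma coe_sumP_single (n : ℕ) (v : L.V) :
    (sumP L.toP1Lat (Finsupp.single n v) : M) = (L.τ ^ n) (v : M) := by
  rw [coe_sumP, Finsupp.sum_single_index]
  exact map_zero (L.τ ^ n)

lemma lam_sumP_single (n : ℕ) (v : L.V) :
    L.lam (sumP L.toP1Lat (Finsupp.single n v)) = (algebraMap k K (e t)) ^ n * L.lamV v := by
  induction n with
  | zero =>
    rw [pow_zero, one_mul, ActLat.lamV_apply]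
    congr 1
    apply Subtype.ext
    rw [coe_sumP_single]
    rfl
  | succ n ih =>
    have h1 : sumP L.toP1Lat (Finsupp.single (n + 1) v) =
        ⟨L.act t (sumP L.toP1Lat (Finsupp.single n v)),
          L.act_P t _ (sumP L.toP1Lat (Finsupp.single n v)).2⟩ := by
      apply Subtype.ext
      show (sumP L.toP1Lat (Finsupp.single (n + 1) v) : M) =
        L.act t (sumP L.toP1Lat (Finsupp.single n v))
      rw [L.act_t, coe_sumP_single, coe_sumP_single, pow_succ_apply']
    rw [h1, L.lam_act, ih, pow_succ]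
    ring

/-- if `cycW` is everything then `lam = 0` -/
lemma lam_eq_zero_of_cycW_eq_top (h : cycW L hc = ⊤) : L.lam = 0 := by
  have h0 : ∀ v : L.V, L.lamV v = 0 := by
    intro v
    have hv : v ∈ cycW L hc := by rw [h]; exact Submodule.mem_top
    have := hv 1
    rwa [map_one, Module.End.one_apply] at this
  refine LinearMap.ext fun x => ?_
  obtain ⟨f, rfl⟩ := (sumP_bijective L.toP1Lat hc).2 x
  rw [LinearMap.zero_apply]
  induction f using Finsupp.induction_linear with
  | zero => rw [map_zero, map_zero]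
  | add f g hf hg => rw [map_add, map_add, hf, hg, add_zero]
  | single n v => rw [lam_sumP_single, h0, mul_zero]

/-- **cyclicity** : the common kernel of the functionals `lam ∘ w` is zero -/
theorem cycW_eq_bot (h1 : L.lam ≠ 0)
    (h2 : ∀ P' : Submodule K M, P' ≤ L.P → P' ≠ ⊥ → (∀ b, ∀ x ∈ P', L.act b x ∈ P') →
      ∀ x ∈ L.P, ∃ q : Polynomial K, q ≠ 0 ∧ Polynomial.aeval (L.τ : M →ₗ[K] M) q x ∈ P') :
    cycW L hc = ⊥ := by
  by_contra hne
  apply h1
  apply lam_eq_zero_of_cycW_eq_top L hc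
  obtain ⟨w, hw, hw0⟩ := Submodule.exists_mem_ne_zero_of_ne_bot hne
  have hP : cycP L hc ≠ ⊥ := by
    intro h0
    have h3 := pow_mem_cycP L hc 0 hw
    rw [h0, Submodule.mem_bot] at h3
    exact hw0 (Subtype.ext h3)
  rw [eq_top_iff]
  intro v _
  obtain ⟨q, hq, hmem⟩ := h2 (cycP L hc) (cycP_le L hc) hP
    (fun b x hx => act_mem_cycP L hc b hx) v v.2.1
  let f : ℕ →₀ L.V := ∑ i ∈ Finset.range (q.natDegree + 1), Finsupp.single i (q.coeff i • v)
  have hfv : (sumP L.toP1Lat f : M) = Polynomial.aeval (L.τ : M →ₗ[K] M) q (v : M) := by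
    rw [Polynomial.aeval_eq_sum_range, LinearMap.sum_apply]
    have h3 : sumP L.toP1Lat f = ∑ i ∈ Finset.range (q.natDegree + 1),
        sumP L.toP1Lat (Finsupp.single i (q.coeff i • v)) := map_sum _ _ _
    rw [h3, Submodule.coe_sum]
    refine Finset.sum_congr rfl fun i _ => ?_
    rw [coe_sumP_single, LinearMap.smul_apply, tau_pow_apply]
    exact map_smul (L.τ ^ i) _ _
  obtain ⟨g, hg, hgv⟩ := (mem_cycP L hc).1 hmem
  have hfg : f = g := by
    apply (sumP_bijective L.toP1Lat hc).1
    apply Subtype.ext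
    rw [hfv, hgv]
  have hj : ∃ j, q.coeff j ≠ 0 := by
    by_contra hcon
    push Not at hcon
    exact hq (Polynomial.ext fun j => by rw [hcon j, Polynomial.coeff_zero])
  obtain ⟨j, hj⟩ := hj
  have hjr : j ∈ Finset.range (q.natDegree + 1) := by
    rw [Finset.mem_range, Nat.lt_succ_iff]
    exact Polynomial.le_natDegree_of_ne_zero hj
  have hfj : f j = q.coeff j • v := by
    show (∑ i ∈ Finset.range (q.natDegree + 1), Finsupp.single i (q.coeff i • v)) j = _
    rw [Finsupp.finsetSum_apply, Finset.sum_eq_single j]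
    · rw [Finsupp.single_eq_same]
    · intro i _ hi
      rw [Finsupp.single_eq_of_ne (Ne.symm hi)]
    · intro h
      exact absurd hjr h
  have h4 : q.coeff j • v ∈ cycW L hc := by
    rw [← hfj, hfg]
    exact hg j
  have h5 := (cycW L hc).smul_mem (q.coeff j)⁻¹ h4
  rwa [inv_smul_smul₀ hj] at h5

/-- **S25-G1c (1)** -/
theorem exists_kap_bijective [Module.Finite K L.V] {n : ℕ} (hn : finrank K L.V = n)
    (h1 : L.lam ≠ 0)
    (h2 : ∀ P' : Submodule K M, P' ≤ L.P → P' ≠ ⊥ → (∀ b, ∀ x ∈ P', L.act b x ∈ P') →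
      ∀ x ∈ L.P, ∃ q : Polynomial K, q ≠ 0 ∧ Polynomial.aeval (L.τ : M →ₗ[K] M) q x ∈ P') :
    ∃ p : Fin n → FreeAlgebra k (B × ℕ), Function.Bijective (L.kap hc p) := by
  let φ : FreeAlgebra k (B × ℕ) → Dual K L.V := fun q => L.lamV ∘ₗ L.evV hc q
  have hspan : Submodule.span K (Set.range φ) = ⊤ := by
    have h3 : (Submodule.span K (Set.range φ)).dualCoannihilator = ⊥ := by
      rw [eq_bot_iff, ← cycW_eq_bot L hc h1 h2]
      intro v hv q
      rw [Submodule.mem_dualCoannihilator] at hv
      exact hv (φ q) (Submodule.subset_span ⟨q, rfl⟩)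
    have h4 := Subspace.dualCoannihilator_dualAnnihilator_eq
      (W := Submodule.span K (Set.range φ))
    rw [h3, Submodule.dualAnnihilator_bot] at h4
    exact h4.symm
  obtain ⟨κ, a, ha, hsp, hli⟩ := exists_linearIndependent' K φ
  rw [hspan] at hsp
  let b : Basis κ K (Dual K L.V) := Basis.mk hli hsp.ge
  have hfin : Finite κ := Module.Finite.finite_basis b
  have := Fintype.ofFinite κ
  have hcard : Fintype.card κ = n := by
    rw [← Module.finrank_eq_card_basis b, Subspace.dual_finrank_eq, hn]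
  let ε : κ ≃ Fin n := Fintype.equivFinOfCardEq hcard
  refine ⟨fun i => a (ε.symm i), ?_⟩
  have hinj : Function.Injective (L.kap hc fun i => a (ε.symm i)) := by
    rw [← LinearMap.ker_eq_bot, LinearMap.ker_eq_bot']
    intro v hv
    have h5 : ∀ i, φ (a i) v = 0 := by
      intro i
      have := congrFun hv (ε i)
      rw [ActLat.kap_apply, Equiv.symm_apply_apply] at this
      exact this
    have h6 : ∀ ψ : Dual K L.V, ψ v = 0 := by
      intro ψ
      have hψ : ψ ∈ Submodule.span K (Set.range (φ ∘ a)) := by rw [hsp]; exact Submodule.mem_top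
      induction hψ using Submodule.span_induction with
      | mem x hx =>
        obtain ⟨i, rfl⟩ := hx
        exact h5 i
      | zero => rfl
      | add x y _ _ hx hy => rw [LinearMap.add_apply, hx, hy, add_zero]
      | smul c x _ hx => rw [LinearMap.smul_apply, hx, smul_zero]
    exact (Module.forall_dual_apply_eq_zero_iff K v).1 h6
  refine ⟨hinj, ?_⟩
  rwa [← LinearMap.injective_iff_surjective_of_finrank_eq_finrank]
  rw [hn, Module.finrank_fintype_fun_eq_card, Fintype.card_fin]

end Cyc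

section Two

variable {k B K : Type u} [Field k] [CommRing B] [Algebra k B] {t : B}
    {F : ℕ → Submodule k B} {e : B →ₐ[k] k} [Field K] [Algebra k K]
    {M : Type v} [AddCommGroup M] [Module K M] [Module k M] [IsScalarTower k K M]
    (L : ActLat t F e K M) (hc : IsCompl L.P L.Q)

lemma kap_add_smul {n : ℕ} (p p' : Fin n → FreeAlgebra k (B × ℕ)) (s : k) :
    L.kap hc (fun i => s • p i + p' i) =
      (algebraMap k K s) • L.kap hc p + L.kap hc p' := by
  refine LinearMap.ext fun v => funext fun i => ?_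
  rw [ActLat.kap_apply, LinearMap.add_apply, LinearMap.smul_apply, Pi.add_apply, Pi.smul_apply,
    ActLat.kap_apply, ActLat.kap_apply, map_add, LinearMap.add_apply, map_add]
  congr 1
  rw [map_smul]
  have h1 : (s • L.evV hc (p i)) v = (algebraMap k K s) • (L.evV hc (p i) v) := by
    rw [LinearMap.smul_apply]
    exact (algebraMap_smul K s _).symm
  rw [h1, map_smul]

/-- the determinant of `kap` for `s p + p'` is a polynomial in `s`, nonzero if one of `kap p`,
`kap p'` is bijective -/
lemma exists_poly_kap [Module.Finite K L.V] {n : ℕ} (hn : finrank K L.V = n)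
    (p p' : Fin n → FreeAlgebra k (B × ℕ))
    (h : Function.Bijective (L.kap hc p) ∨ Function.Bijective (L.kap hc p')) :
    ∃ q : Polynomial K, q ≠ 0 ∧ ∀ s : k, q.eval (algebraMap k K s) ≠ 0 →
      Function.Bijective (L.kap hc (fun i => s • p i + p' i)) := by
  classical
  let b : Basis (Fin n) K L.V := Module.finBasisOfFinrankEq K L.V hn
  let A1 : Matrix (Fin n) (Fin n) K := LinearMap.toMatrix b (Pi.basisFun K (Fin n)) (L.kap hc p)
  let A2 : Matrix (Fin n) (Fin n) K := LinearMap.toMatrix b (Pi.basisFun K (Fin n)) (L.kap hc p')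
  have hbij : ∀ g : L.V →ₗ[K] (Fin n → K),
      (LinearMap.toMatrix b (Pi.basisFun K (Fin n)) g).det ≠ 0 ↔ Function.Bijective g := by
    intro g
    constructor
    · intro hg
      have hu : IsUnit (LinearMap.toMatrix b (Pi.basisFun K (Fin n)) g).det := hg.isUnit
      exact (LinearEquiv.ofIsUnitDet hu).bijective
    · intro hg
      exact (LinearEquiv.isUnit_det (LinearEquiv.ofBijective g hg) b
        (Pi.basisFun K (Fin n))).ne_zero
  let q : Polynomial K := Matrix.det ((Polynomial.X : Polynomial K) •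
    A1.map Polynomial.C + A2.map Polynomial.C)
  refine ⟨q, ?_, fun s hs => ?_⟩
  · rcases h with h | h
    · intro h0
      have h1 := Polynomial.coeff_det_X_add_C_card A1 A2
      have h2 : (Matrix.det ((Polynomial.X : Polynomial K) •
        A1.map Polynomial.C + A2.map Polynomial.C)) = 0 := h0
      rw [h2, Polynomial.coeff_zero] at h1
      exact (hbij _).2 h h1.symm
    · intro h0
      have h1 := Polynomial.coeff_det_X_add_C_zero A1 A2
      have h2 : (Matrix.det ((Polynomial.X : Polynomial K) •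
        A1.map Polynomial.C + A2.map Polynomial.C)) = 0 := h0
      rw [h2, Polynomial.coeff_zero] at h1
      exact (hbij _).2 h h1.symm
  · rw [← hbij, kap_add_smul]
    intro h0
    apply hs
    have h1 : LinearMap.toMatrix b (Pi.basisFun K (Fin n))
        ((algebraMap k K s) • L.kap hc p + L.kap hc p') = (algebraMap k K s) • A1 + A2 := by
      rw [map_add, map_smul]
    rw [h1] at h0
    show Polynomial.eval (algebraMap k K s) (Matrix.det ((Polynomial.X : Polynomial K) •
        A1.map Polynomial.C + A2.map Polynomial.C)) = 0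
    rw [← Polynomial.coe_evalRingHom, RingHom.map_det, ← h0]
    congr 1
    ext i j
    simp
    rw [Algebra.smul_def, mul_comm]

/-- **S25-G1c (2)** : common noncommutative polynomials for two lattices -/
theorem exists_common_kap_bijective [Infinite k] {M' : Type w} [AddCommGroup M'] [Module K M']
    [Module k M'] [IsScalarTower k K M'] (L' : ActLat t F e K M') (hc' : IsCompl L'.P L'.Q)
    [Module.Finite K L.V] [Module.Finite K L'.V] {n : ℕ} (hn : finrank K L.V = n)
    (hn' : finrank K L'.V = n)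
    (h1 : L.lam ≠ 0)
    (h2 : ∀ P' : Submodule K M, P' ≤ L.P → P' ≠ ⊥ → (∀ b, ∀ x ∈ P', L.act b x ∈ P') →
      ∀ x ∈ L.P, ∃ q : Polynomial K, q ≠ 0 ∧ Polynomial.aeval (L.τ : M →ₗ[K] M) q x ∈ P')
    (h1' : L'.lam ≠ 0)
    (h2' : ∀ P' : Submodule K M', P' ≤ L'.P → P' ≠ ⊥ → (∀ b, ∀ x ∈ P', L'.act b x ∈ P') →
      ∀ x ∈ L'.P, ∃ q : Polynomial K, q ≠ 0 ∧
        Polynomial.aeval (L'.τ : M' →ₗ[K] M') q x ∈ P') :
    ∃ p : Fin n → FreeAlgebra k (B × ℕ), Function.Bijective (L.kap hc p) ∧
      Function.Bijective (L'.kap hc' p) := by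
  obtain ⟨p, hp⟩ := exists_kap_bijective L hc hn h1 h2
  obtain ⟨p', hp'⟩ := exists_kap_bijective L' hc' hn' h1' h2'
  obtain ⟨q, hq, hqs⟩ := exists_poly_kap L hc hn p p' (Or.inl hp)
  obtain ⟨q', hq', hqs'⟩ := exists_poly_kap L' hc' hn' p p' (Or.inr hp')
  have hqq : q * q' ≠ 0 := mul_ne_zero hq hq'
  have hinf : (Set.range (algebraMap k K)).Infinite :=
    Set.infinite_range_of_injective (algebraMap k K).injective
  obtain ⟨x, ⟨s, rfl⟩, hx⟩ : ∃ x ∈ Set.range (algebraMap k K), (q * q').eval x ≠ 0 := by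
    by_contra hcon
    push Not at hcon
    exact hqq (Polynomial.eq_zero_of_infinite_isRoot _ (hinf.mono fun x hx => hcon x hx))
  rw [Polynomial.eval_mul] at hx
  exact ⟨fun i => s • p i + p' i, hqs s (left_ne_zero_of_mul hx),
    hqs' s (right_ne_zero_of_mul hx)⟩

end Two

end Fermat.Agent.H65
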