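import Mathlib
import Fermat.Agent.H74LiftGlue
import Fermat.Agent.H98ChartTensor

/-!
# S25-R4 (algebra): the second chart of the bundle of a matrix datum

`E0 = A[X]^n` is a module over `S0` with `t` acting as `X`, and `E01` its localisation at `t`.
The second chart is the image of `R1 : A[Y]^n → E01`, `Y^j e_i ↦ t^{-j-1} e_i`.
-/

set_option autoImplicit false
set_option linter.style.haveILetI false
universe u v
open Polynomial

namespace Fermat.Agent.H74.R4

open Fermat.Agent.H74.Lift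

section Alg

variable {A : Type*} [CommRing A] {n : ℕ}

/-- the map `(w_i) ↦ Σ_i w_i(x) m_i` -/
noncomputable def lc {R M : Type*} [CommRing R] [AddCommGroup M] [Module R M] (φ : A →+* R) (x : R)
    (m : Fin n → M) : (Fin n → A[X]) →+ M where
  toFun w := ∑ i, (w i).eval₂ φ x • m i
  map_zero' := by simp
  map_add' a b := by simp [eval₂_add, add_smul, Finset.sum_add_distrib]

theorem lc_apply {R M : Type*} [CommRing R] [AddCommGroup M] [Module R M] (φ : A →+* R) (x : R)
    (m : Fin n → M) (w : Fin n → A[X]) : lc φ x m w = ∑ i, (w i).eval₂ φ x • m i := rfl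

theorem lc_smul {R M : Type*} [CommRing R] [AddCommGroup M] [Module R M] (φ : A →+* R) (x : R)
    (m : Fin n → M) (p : A[X]) (w : Fin n → A[X]) :
    lc φ x m (p • w) = p.eval₂ φ x • lc φ x m w := by
  simp only [lc_apply, Pi.smul_apply, smul_eq_mul, eval₂_mul, mul_smul, Finset.smul_sum]

theorem lc_single {R M : Type*} [CommRing R] [AddCommGroup M] [Module R M] (φ : A →+* R) (x : R)
    (m : Fin n → M) (i : Fin n) (p : A[X]) :
    lc φ x m (Pi.single i p) = p.eval₂ φ x • m i := by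
  rw [lc_apply, Finset.sum_eq_single i]
  · rw [Pi.single_eq_same]
  · intro j _ hj
    rw [Pi.single_eq_of_ne hj, eval₂_zero, zero_smul]
  · simp

theorem sum_single (w : Fin n → A[X]) : w = ∑ i, w i • (Pi.single i 1 : Fin n → A[X]) := by
  ext1 j
  simp [Finset.sum_apply, Pi.single_apply]

/-- naturality of `lc` along semilinear maps -/
theorem map_lc {R R' M M' : Type*} [CommRing R] [CommRing R'] [AddCommGroup M] [Module R M]
    [AddCommGroup M'] [Module R' M'] (ψ : R →+* R') (f : M →+ M')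
    (hf : ∀ (a : R) (x : M), f (a • x) = ψ a • f x) (φ : A →+* R) (x : R) (m : Fin n → M)
    (w : Fin n → A[X]) : f (lc φ x m w) = lc (ψ.comp φ) (ψ x) (fun i => f (m i)) w := by
  simp only [lc_apply, map_sum, hf, Polynomial.hom_eval₂]

theorem exists_natDegree_le (w : Fin n → A[X]) : ∃ N, ∀ i, (w i).natDegree ≤ N :=
  ⟨Finset.univ.sup fun i => (w i).natDegree, fun i => Finset.le_sup
    (f := fun i => (w i).natDegree) (Finset.mem_univ i)⟩

/-- coefficient reversal: comparison of the two charts -/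
theorem lc_reflect {R M : Type*} [CommRing R] [AddCommGroup M] [Module R M] (φ : A →+* R)
    {t s : R} (hts : t * s = 1) (m : Fin n → M) (w : Fin n → A[X]) {N : ℕ}
    (hN : ∀ i, (w i).natDegree ≤ N) :
    lc φ s m w = s ^ N • lc φ t m (fun i => reflect N (w i)) := by
  let _ : Invertible s := ⟨t, hts, by rw [mul_comm]; exact hts⟩
  rw [lc_apply, lc_apply, Finset.smul_sum]
  refine Finset.sum_congr rfl fun i _ => ?_
  rw [smul_smul]
  congr 1
  have := eval₂_reflect_mul_pow φ s N (w i) (hN i)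
  rw [mul_comm] at this
  exact this.symm

variable {S0 S1 S01 E0 E01 : Type*} [CommRing S0] [CommRing S1]
  [CommRing S01] [AddCommGroup E0] [Module S0 E0] [AddCommGroup E01] [Module S01 E01]
  {ρU : S0 →+* S01} {ρV : S1 →+* S01} {α0 : A →+* S0} {α1 : A →+* S1}
  {t : S0} {s : S1} {e : Fin n → E0} {r0 : E0 →+ E01}

/-- the generators of the second chart -/
def mg (ρV : S1 →+* S01) (s : S1) (e : Fin n → E0) (r0 : E0 →+ E01) (i : Fin n) : E01 :=
  ρV s • r0 (e i)

/-- the second chart as a map `A[Y]^n → E01` -/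
noncomputable def R1 (ρV : S1 →+* S01) (α1 : A →+* S1) (s : S1) (e : Fin n → E0) (r0 : E0 →+ E01) :
    (Fin n → A[X]) →+ E01 :=
  lc (ρV.comp α1) (ρV s) (mg ρV s e r0)

section Facts

variable (hα : ρU.comp α0 = ρV.comp α1) (hts : ρU t * ρV s = 1)
  (hr : IsLocMap ρU t r0)

include hα hts hr in
theorem R1_eq (w : Fin n → A[X]) {N : ℕ} (hN : ∀ i, (w i).natDegree ≤ N) :
    R1 ρV α1 s e r0 w = ρV s ^ (N + 1) • r0 (lc α0 t e (fun i => reflect N (w i))) := by
  rw [R1, lc_reflect (ρV.comp α1) hts _ w hN, map_lc ρU r0 hr.smul, ← hα, pow_succ, mul_smul]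
  congr 1
  simp only [lc_apply, Finset.smul_sum, mg]
  refine Finset.sum_congr rfl fun i _ => ?_
  rw [smul_comm]

theorem R1_smul (p : A[X]) (w : Fin n → A[X]) :
    R1 ρV α1 s e r0 (p • w) = ρV (p.eval₂ α1 s) • R1 ρV α1 s e r0 w := by
  rw [R1, lc_smul, Polynomial.hom_eval₂]

variable (he : Function.Injective (lc α0 t e))

include hα hts hr he in
theorem R1_injective : Function.Injective (R1 ρV α1 s e r0) := by
  rw [injective_iff_map_eq_zero]
  intro w hw
  obtain ⟨N, hN⟩ := exists_natDegree_le w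
  rw [R1_eq hα hts hr w hN] at hw
  have h1 : r0 (lc α0 t e (fun i => reflect N (w i))) = 0 := by
    have h2 := congrArg (fun z => ρU t ^ (N + 1) • z) hw
    simp only [smul_smul, ← mul_pow, hts, one_pow, one_smul, smul_zero] at h2
    exact h2
  obtain ⟨m, hm⟩ := hr.inj _ h1
  have h3 : lc α0 t e ((X : A[X]) ^ m • fun i => reflect N (w i)) = 0 := by
    rw [lc_smul, eval₂_X_pow]
    exact hm
  have h4 := (injective_iff_map_eq_zero _).mp he _ h3
  ext1 i
  have h5 := congrFun h4 i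
  rw [Pi.smul_apply, smul_eq_mul, Pi.zero_apply, X_pow_mul] at h5
  exact reflect_eq_zero_iff.mp (mul_X_pow_eq_zero h5)

variable (he' : Function.Surjective (lc α0 t e))

include hα hts hr he' in
theorem exists_R1_eq (z : E01) : ∃ (N : ℕ) (w : Fin n → A[X]),
    R1 ρV α1 s e r0 w = ρV s ^ N • z := by
  obtain ⟨m, x, hx⟩ := hr.surj z
  obtain ⟨v, rfl⟩ := he' x
  obtain ⟨d, hd⟩ := exists_natDegree_le v
  refine ⟨d + 1, (X : A[X]) ^ m • fun i => reflect d (v i), ?_⟩
  rw [R1_smul, eval₂_X_pow, R1_eq hα hts hr (N := d) _ (fun i =>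
    natDegree_reflect_le.trans (by rw [max_eq_left (hd i)]))]
  simp only [reflect_reflect]
  rw [hx, smul_smul, smul_smul, map_pow]
  congr 1
  calc ρV s ^ m * ρV s ^ (d + 1) * ρU t ^ m = ρV s ^ (d + 1) * (ρU t * ρV s) ^ m := by ring
    _ = ρV s ^ (d + 1) := by rw [hts, one_pow, mul_one]

include hα hts hr in
/-- stability of the range of `R1` -/
theorem smul_mg_mem (y : S1) (m : ℕ) (b : S0) (hy : ρV y = ρV s ^ m * ρU b) (i : Fin n)
    (u : Fin n → A[X]) (hu : ∀ l, (u l).natDegree ≤ m) (hbu : b • e i = lc α0 t e u) :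
    ρV y • mg ρV s e r0 i ∈ (R1 ρV α1 s e r0).range := by
  refine ⟨fun l => reflect m (u l), ?_⟩
  rw [R1_eq hα hts hr (N := m) _ (fun l =>
    natDegree_reflect_le.trans (by rw [max_eq_left (hu l)]))]
  simp only [reflect_reflect]
  rw [← hbu, hr.smul, hy, mg]
  simp only [smul_smul]
  congr 1
  ring

variable (G : Set S1) (hG : ∀ y ∈ G, ∀ i, ρV y • mg ρV s e r0 i ∈ (R1 ρV α1 s e r0).range)

/-- stability under multiplication follows from stability of the generators -/
theorem smul_mem_range_of_forall {y : S1}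
    (hy : ∀ i, ρV y • mg ρV s e r0 i ∈ (R1 ρV α1 s e r0).range) {z : E01}
    (hz : z ∈ (R1 ρV α1 s e r0).range) : ρV y • z ∈ (R1 ρV α1 s e r0).range := by
  obtain ⟨w, rfl⟩ := hz
  rw [R1, lc_apply, Finset.smul_sum]
  refine sum_mem fun i _ => ?_
  rw [smul_comm]
  obtain ⟨w', hw'⟩ := hy i
  rw [← hw']
  refine ⟨w i • w', ?_⟩
  have h1 := R1_smul (ρV := ρV) (α1 := α1) (s := s) (e := e) (r0 := r0) (w i) w'
  rw [Polynomial.hom_eval₂] at h1
  exact h1

/-- scalar action of `S1` on the range -/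
theorem smul_mem_range {n' : ℕ} (γ : Fin n' → S1)
    (hgen : ∀ y : S1, ∃ f : Fin n' → A[X], y = ∑ j, (f j).eval₂ α1 s * γ j)
    (hγ : ∀ j i, ρV (γ j) • mg ρV s e r0 i ∈ (R1 ρV α1 s e r0).range) (y : S1) {z : E01}
    (hz : z ∈ (R1 ρV α1 s e r0).range) : ρV y • z ∈ (R1 ρV α1 s e r0).range := by
  obtain ⟨f, rfl⟩ := hgen y
  rw [map_sum, Finset.sum_smul]
  refine sum_mem fun j _ => ?_
  rw [map_mul, mul_smul]
  obtain ⟨w, hw⟩ := smul_mem_range_of_forall (hγ j) hz
  rw [← hw, ← R1_smul]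
  exact ⟨_, rfl⟩

end Facts

/-- existence of the second chart -/
theorem exists_chart1 {A : Type*} [CommRing A] {n : ℕ} {S0 : Type*} {S1 S01 : Type u}
    {E0 : Type*} {E01 : Type v} [CommRing S0] [CommRing S1] [CommRing S01] [AddCommGroup E0]
    [Module S0 E0] [AddCommGroup E01] [Module S01 E01]
    {ρU : S0 →+* S01} {ρV : S1 →+* S01} {α0 : A →+* S0} {α1 : A →+* S1}
    {t : S0} {s : S1} {e : Fin n → E0} {r0 : E0 →+ E01}
    (hα : ρU.comp α0 = ρV.comp α1) (hts : ρU t * ρV s = 1)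
    (hr : IsLocMap ρU t r0) (he : Function.Bijective (lc α0 t e)) {n' : ℕ} (γ : Fin n' → S1)
    (hgen : ∀ y : S1, ∃ f : Fin n' → A[X], y = ∑ j, (f j).eval₂ α1 s * γ j)
    (hγ : ∀ j i, ρV (γ j) • mg ρV s e r0 i ∈ (R1 ρV α1 s e r0).range) :
    ∃ (E1 : Type v) (_ : AddCommGroup E1) (_ : Module S1 E1) (r1 : E1 →+ E01) (m : Fin n → E1),
      IsLocMap ρV s r1 ∧ Function.Injective r1 ∧ Function.Bijective (lc α1 s m) ∧
      ∀ i, r1 (m i) = ρV s • r0 (e i) := by
  letI : Module S1 E01 := Module.compHom E01 ρV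
  have hsm : ∀ (y : S1) (z : E01), y • z = ρV y • z := fun _ _ => rfl
  let E1 : Submodule S1 E01 :=
    { (R1 ρV α1 s e r0).range with
      smul_mem' := fun y z hz => smul_mem_range γ hgen hγ y hz }
  have hmem : ∀ z, z ∈ E1 ↔ z ∈ (R1 ρV α1 s e r0).range := fun z => Iff.rfl
  let m : Fin n → E1 := fun i => ⟨mg ρV s e r0 i, by
    rw [hmem]
    exact ⟨Pi.single i 1, by rw [R1, lc_single, eval₂_one, one_smul]⟩⟩
  have key : ∀ w, (lc α1 s m w : E01) = R1 ρV α1 s e r0 w := by
    intro w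
    have := map_lc (M' := E01) ρV (E1.subtype.toAddMonoidHom) (fun a x => rfl) α1 s m w
    exact this
  refine ⟨E1, inferInstance, inferInstance, E1.subtype.toAddMonoidHom, m,
    ⟨fun a x => rfl, ?_, ?_⟩, Subtype.val_injective, ⟨?_, ?_⟩, fun i => rfl⟩
  · intro z
    obtain ⟨N, w, hw⟩ := exists_R1_eq (α1 := α1) hα hts hr he.2 z
    exact ⟨N, ⟨_, (hmem _).mpr ⟨w, rfl⟩⟩, hw⟩
  · intro x hx
    exact ⟨0, by rw [pow_zero, one_smul]; exact Subtype.ext hx⟩
  · intro w w' h
    apply R1_injective (α1 := α1) hα hts hr he.1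
    rw [← key, ← key, h]
  · rintro ⟨z, hz⟩
    obtain ⟨w, hw⟩ := (hmem z).mp hz
    exact ⟨w, Subtype.ext ((key w).trans hw)⟩

end Alg

end Fermat.Agent.H74.R4
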