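import Mathlib
import Fermat.Agent.H74R4a
import Fermat.Agent.H25Rep
import Fermat.Agent.H51Pb
import Fermat.Agent.H73TwoChart

/-!
# S25-R4: the bundle of a matrix datum exists
-/

set_option autoImplicit false
set_option linter.style.haveILetI false
universe u
open CategoryTheory Limits AlgebraicGeometry TopologicalSpace Polynomial
open NeronModelInfra AlgebraicGeometry.RelPicard
open scoped Matrix TensorProduct

namespace Fermat.Agent.H74.R4

open Fermat.Agent.H25 Fermat.Agent.H51Aff Fermat.Agent.H51Pb Fermat.Agent.H73.TwoChart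
open Fermat.Agent.H74.Lift

section Alg

variable {k A B S : Type u} [Field k] [CommRing A] [CommRing B] [CommRing S] [Algebra k A]
  [Algebra k B] {n : ℕ}

/-- the ring homomorphism `A ⊗ B → Mₙ(A[X])`, for an abstract pushout. -/
theorem exists_hom_of_isPushout (α : A →+* S) (γ : B →+* S)
    (H : IsPushout (CommRingCat.ofHom (algebraMap k B)) (CommRingCat.ofHom (algebraMap k A))
      (CommRingCat.ofHom γ) (CommRingCat.ofHom α))
    (ρ : B →ₐ[k] Matrix (Fin n) (Fin n) A[X]) :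
    ∃ Φ : S →+* Matrix (Fin n) (Fin n) A[X],
      (∀ a, Φ (α a) = (C a : A[X]) • (1 : Matrix (Fin n) (Fin n) A[X])) ∧ ∀ b, Φ (γ b) = ρ b := by
  have H2 := CommRingCat.isPushout_tensorProduct k A B
  let e := H.flip.isoIsPushout _ _ H2
  have h1 : CommRingCat.ofHom α ≫ e.hom = _ := IsPushout.inl_isoIsPushout_hom ..
  have h2 : CommRingCat.ofHom γ ≫ e.hom = _ := IsPushout.inr_isoIsPushout_hom ..
  refine ⟨(H98.tensorHom ρ).toRingHom.comp e.hom.hom, fun a => ?_, fun b => ?_⟩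
  · have h3 : e.hom.hom (α a) = a ⊗ₜ[k] (1 : B) := congr($(h1).hom a)
    rw [RingHom.comp_apply, h3]
    have := H98.tensorHom_tmul ρ a 1
    rw [map_one] at this
    exact this
  · have h3 : e.hom.hom (γ b) = (1 : A) ⊗ₜ[k] b := congr($(h2).hom b)
    rw [RingHom.comp_apply, h3]
    have := H98.tensorHom_tmul ρ 1 b
    rw [C_1, one_smul] at this
    exact this

/-- The module structure on `A[X]^n` given by `ρ`. -/
theorem exists_module (α : A →+* S) (γ : B →+* S)
    (H : IsPushout (CommRingCat.ofHom (algebraMap k B)) (CommRingCat.ofHom (algebraMap k A))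
      (CommRingCat.ofHom γ) (CommRingCat.ofHom α)) (t : B)
    (ρ : B →ₐ[k] Matrix (Fin n) (Fin n) A[X]) (hρ : ρ t = Matrix.diagonal fun _ => X) :
    ∃ (E : Type u) (_ : AddCommGroup E) (_ : Module S E) (θ : (Fin n → A[X]) ≃+ E),
      (∀ (b : B) (v : Fin n → A[X]), θ (ρ b *ᵥ v) = γ b • θ v) ∧
      ∀ v, θ v = lc α (γ t) (fun i => θ (Pi.single i 1)) v := by
  obtain ⟨Φ, hΦα, hΦγ⟩ := exists_hom_of_isPushout α γ H ρ
  letI : Module S (Fin n → A[X]) := Module.compHom (Fin n → A[X])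
    ((Matrix.toLinAlgEquiv' : Matrix (Fin n) (Fin n) A[X] ≃ₐ[A[X]]
      ((Fin n → A[X]) →ₗ[A[X]] (Fin n → A[X]))).toRingEquiv.toRingHom.comp Φ)
  have hsm : ∀ (s : S) (v : Fin n → A[X]), s • v = Φ s *ᵥ v := fun _ _ => rfl
  have hp : ∀ p : A[X], Φ (p.eval₂ α (γ t)) = p • (1 : Matrix (Fin n) (Fin n) A[X]) := by
    have h1 : Φ.comp (Polynomial.eval₂RingHom α (γ t)) =
        algebraMap A[X] (Matrix (Fin n) (Fin n) A[X]) := by
      apply Polynomial.ringHom_ext
      · intro a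
        simp only [RingHom.comp_apply, coe_eval₂RingHom, eval₂_C, hΦα]
        exact (Algebra.algebraMap_eq_smul_one _).symm
      · simp only [RingHom.comp_apply, coe_eval₂RingHom, eval₂_X, hΦγ, hρ]
        ext1 i j
        rw [Matrix.algebraMap_matrix_apply, Matrix.diagonal_apply]
        rfl
    intro p
    have := congr($h1 p)
    rw [Algebra.algebraMap_eq_smul_one] at this
    exact this
  refine ⟨Fin n → A[X], inferInstance, inferInstance, AddEquiv.refl _, fun b v => ?_, fun v => ?_⟩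
  · rw [AddEquiv.refl_apply, AddEquiv.refl_apply, hsm, hΦγ]
  · rw [AddEquiv.refl_apply, lc_apply]
    conv_lhs => rw [sum_single v]
    refine Finset.sum_congr rfl fun i _ => ?_
    rw [hsm, hp, AddEquiv.refl_apply, Matrix.smul_mulVec, Matrix.one_mulVec]

open Fermat.Agent.H51Inv in
/-- rigidification, algebra -/
theorem rig_alg {S A' E P : Type*} [CommRing S] [CommRing A'] [Algebra S A'] [AddCommGroup E]
    [Module S E] [AddCommGroup P] [Module A' P] [Module S P] [IsScalarTower S A' P]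
    [Module.Invertible A' P] (β : E →ₗ[S] P) (hβ : IsBaseChange A' β) (Λ : E →ₗ[S] A') (x₀ : E)
    (h₀ : Λ x₀ = 1) :
    (∀ x, β x = Λ x • β x₀) ∧ Function.Bijective (fun a : A' => a • β x₀) := by
  let ψ : P →ₗ[A'] A' := hβ.lift Λ
  have hψ : ∀ x, ψ (β x) = Λ x := fun x => hβ.lift_eq Λ x
  refine ⟨fun x => ?_, fun a b hab => ?_, fun y => ⟨ψ y, ?_⟩⟩
  · have := smul_comm_dual ψ (β x₀) (β x)
    rw [hψ, h₀, one_smul, hψ] at this
    exact this
  · have := congrArg ψ hab
    simpa [hψ, h₀] using this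
  · have := smul_comm_dual ψ (β x₀) y
    rw [hψ, h₀, one_smul] at this
    exact this.symm

end Alg

section Sec

variable {k : Type u} [Field k] {C : Scheme.{u}} {c : C ⟶ Spec (CommRingCat.of k)}
  {ε : SchemeHomOver (𝟙 (Spec (CommRingCat.of k))) c} (τ : TwoChart c)
  (hε : ε.1 ⁻¹ᵁ τ.U = ⊤) {A : Type u} [CommRing A] [Algebra k A]

theorem eq_strHom {R : Type u} [CommRing R] {W : (Spec (CommRingCat.of R)).Opens} (h : ⊤ ≤ W)
    (a : Γ(Spec (CommRingCat.of R), W)) :
    a = strHom (𝟙 _) W ((Scheme.ΓSpecIso (CommRingCat.of R)).hom (resO h a)) := by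
  have h1 : W = ⊤ := top_le_iff.mp h
  subst h1
  rw [resO_self]
  have h2 : Scheme.Hom.appLE (𝟙 (Spec (CommRingCat.of R))) ⊤ ⊤ le_top = 𝟙 _ := by
    have h2 := Scheme.Hom.appLE_eq_app (𝟙 (Spec (CommRingCat.of R))) (U := ⊤)
    rw [Scheme.Hom.id_app] at h2
    exact h2
  simp only [strHom]
  rw [h2, Category.comp_id]
  exact congr($((Scheme.ΓSpecIso (CommRingCat.of R)).hom_inv_id) a).symm

theorem app_eval (b : τ.B0) :
    ε.1.app τ.U (τ.fn b) = strHom (𝟙 _) (ε.1 ⁻¹ᵁ τ.U) (τ.eval hε b) :=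
  eq_strHom hε.ge _

theorem σ_app_snd (a : A) (W : (pullback c (spm k A)).Opens) :
    (rigSection c (spm k A) ε).app W (strHom (pullback.snd c (spm k A)) W a) =
      strHom (𝟙 _) (rigSection c (spm k A) ε ⁻¹ᵁ W) a := by
  rw [H25.app_strHom, H25.rigSection_snd]

theorem strHom_congr {R : Type u} [CommRing R] {X : Scheme.{u}} {x : X ⟶ Spec (CommRingCat.of R)}
    {U V : X.Opens} (h : V ≤ U) (r : R) : resO h (strHom x U r) = strHom x V r :=
  H25.resO_strHom x h r

theorem σ_app_fst (b : τ.B0) :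
    (rigSection c (spm k A) ε).app (τ.UA A) ((pullback.fst c (spm k A)).app τ.U (τ.fn b)) =
      strHom (𝟙 _) (rigSection c (spm k A) ε ⁻¹ᵁ τ.UA A) (algebraMap k A (τ.eval hε b)) := by
  have h1 : rigSection c (spm k A) ε ≫ pullback.fst c (spm k A) = spm k A ≫ ε.1 :=
    pullback.lift_fst _ _ _
  have h2 := H25.congr_app_apply h1 (V := τ.U) (τ.fn b)
  rw [H25.comp_app_apply, H25.comp_app_apply, app_eval τ hε,
    H51Pb.app_strHom (y := 𝟙 (Spec (CommRingCat.of A))) (f := spm k A) (by simp),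
    Spec.preimage_map] at h2
  exact h2.trans (strHom_congr (x := 𝟙 (Spec (CommRingCat.of A)))
    (U := spm k A ⁻¹ᵁ ε.1 ⁻¹ᵁ τ.U) (V := rigSection c (spm k A) ε ⁻¹ᵁ τ.UA A) _ _)

include hε in
theorem σ_preimage : rigSection c (spm k A) ε ⁻¹ᵁ τ.UA A = ⊤ := by
  have h1 : rigSection c (spm k A) ε ≫ pullback.fst c (spm k A) = spm k A ≫ ε.1 :=
    pullback.lift_fst _ _ _
  rw [TwoChart.UA, ← Scheme.Hom.comp_preimage, h1, Scheme.Hom.comp_preimage, hε]
  rfl

end Sec

end Fermat.Agent.H74.R4
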