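import Mathlib
import Fermat.Agent.H74R4b
import Fermat.Agent.H51Curve

/-!
# S25-R4: the bundle of a matrix datum exists (main theorem)
-/

set_option autoImplicit false
set_option linter.style.haveILetI false
universe u
open CategoryTheory Limits AlgebraicGeometry TopologicalSpace Polynomial
open NeronModelInfra AlgebraicGeometry.RelPicard
open scoped Matrix TensorProduct

namespace Fermat.Agent.H74.R4

open Fermat.Agent.H25 Fermat.Agent.H51Aff Fermat.Agent.H51Pb Fermat.Agent.H73.TwoChart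
open Fermat.Agent.H74.Lift

theorem semilinear_of_gen {S A' E A : Type*} [CommRing S] [CommRing A'] [AddCommGroup E]
    [Module S E] [CommRing A] (ψ : S →+* A') (Λ : E →+ A') {n' : ℕ} (α : A →+* S) (t : S)
    (γ : Fin n' → S) (hgen : ∀ y : S, ∃ f : Fin n' → A[X], y = ∑ j, (f j).eval₂ α t * γ j)
    (h1 : ∀ a z, Λ (α a • z) = ψ (α a) * Λ z) (h2 : ∀ z, Λ (t • z) = ψ t * Λ z)
    (h3 : ∀ j z, Λ (γ j • z) = ψ (γ j) * Λ z) (s : S) (z : E) : Λ (s • z) = ψ s * Λ z := by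
  let R : Subring S :=
    { carrier := {s | ∀ z, Λ (s • z) = ψ s * Λ z}
      mul_mem' := fun {a b} ha hb z => by rw [mul_smul, ha, hb, map_mul, mul_assoc]
      one_mem' := fun z => by rw [one_smul, map_one, one_mul]
      add_mem' := fun {a b} ha hb z => by rw [add_smul, map_add, ha, hb, map_add, add_mul]
      zero_mem' := fun z => by rw [zero_smul, map_zero, map_zero, zero_mul]
      neg_mem' := fun {a} ha z => by rw [neg_smul, map_neg, ha, map_neg, neg_mul] }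
  suffices h : s ∈ R from h z
  obtain ⟨f, rfl⟩ := hgen s
  refine sum_mem fun j _ => mul_mem ?_ (h3 j)
  rw [eval₂_eq_sum_range]
  exact sum_mem fun i _ => mul_mem (h1 _) (pow_mem (show t ∈ R from h2) i)

theorem lam_mulVec {A : Type*} [CommRing A] {n : ℕ} (lam : Fin n → A)
    (M : Matrix (Fin n) (Fin n) A[X]) (v : Fin n → A[X]) (a' e : A)
    (h : Matrix.vecMul lam (M.map fun q => q.eval a') = e • lam) :
    ∑ i, lam i * ((M *ᵥ v) i).eval a' = ∑ i, e * (lam i * (v i).eval a') := by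
  have h1 : ∀ j, ∑ i, lam i * (M i j).eval a' = e * lam j := fun j => congrFun h j
  simp only [Matrix.mulVec, dotProduct, eval_finsetSum, eval_mul, Finset.mul_sum]
  rw [Finset.sum_comm]
  refine Finset.sum_congr rfl fun j _ => ?_
  rw [← mul_assoc, ← h1, Finset.sum_mul]
  refine Finset.sum_congr rfl fun i _ => ?_
  ring

variable {k : Type u} [Field k] {C : Scheme.{u}} {c : C ⟶ Spec (CommRingCat.of k)}
  {ε : SchemeHomOver (𝟙 (Spec (CommRingCat.of k))) c} (τ : TwoChart c)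
  (hε : ε.1 ⁻¹ᵁ τ.U = ⊤) {A : Type u} [CommRing A] [Algebra k A]

section Basic

theorem isPullbackA (c : C ⟶ Spec (CommRingCat.of k)) (A : Type u) [CommRing A] [Algebra k A] :
    IsPullback (pullback.fst c (spm k A)) (pullback.snd c (spm k A)) c (spm k A) :=
  IsPullback.of_hasPullback _ _

theorem isPushoutA {U : C.Opens} (hU : IsAffineOpen U) :
    IsPushout (CommRingCat.ofHom (strHom c U)) (CommRingCat.ofHom (algebraMap k A))
      ((pullback.fst c (spm k A)).app U)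
      (CommRingCat.ofHom (strHom (pullback.snd c (spm k A)) (pullback.fst c (spm k A) ⁻¹ᵁ U))) := by
  have := isPushout_strHom (isPullbackA c A) hU
  rwa [Spec.preimage_map] at this

theorem strHom_algebraMap (c : C ⟶ Spec (CommRingCat.of k)) (A : Type u) [CommRing A] [Algebra k A]
    (U : C.Opens) (a : k) :
    strHom (pullback.snd c (spm k A)) (pullback.fst c (spm k A) ⁻¹ᵁ U) (algebraMap k A a) =
      (pullback.fst c (spm k A)).app U (strHom c U a) := by
  have := H51Pb.app_strHom (isPullbackA c A).w U a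
  rw [Spec.preimage_map] at this
  exact this.symm

end Basic

variable [IsAlgClosed k] (p : Fin τ.n → FreeAlgebra k (τ.B0 × ℕ))

theorem exists_rep (hDU : IsDedekindDomain Γ(C, τ.U)) (hDV : IsDedekindDomain Γ(C, τ.V))
    (hn : 0 < τ.n) (x : H45.ChartPt (τ.chartData hε p) A) :
    ∃ M : RigidifiedLineBundle c ε (spm k A), Rep τ hε p M x := by
  haveI hDU' : IsDedekindDomain τ.B0 := hDU
  let T := baseChange τ (spm k A)
  have hW : IsAffineOpen (τ.U ⊓ τ.V) := τ.basic_t ▸ τ.affU.basicOpen τ.t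
  have leU : τ.UA A ⊓ τ.VA A ≤ τ.UA A := inf_le_left
  have leV : τ.UA A ⊓ τ.VA A ≤ τ.VA A := inf_le_right
  -- names
  let α0 := strHom (pullback.snd c (spm k A)) (τ.UA A)
  let α1 := strHom (pullback.snd c (spm k A)) (τ.VA A)
  let γ0 := ((pullback.fst c (spm k A)).app τ.U).hom
  let γ1 := ((pullback.fst c (spm k A)).app τ.V).hom
  let ρU := resOHom leU
  let ρV := resOHom leV
  have hαγ0 : ∀ a : k, α0 (algebraMap k A a) = γ0 (strHom c τ.U a) :=
    strHom_algebraMap c A τ.U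
  have hαγ1 : ∀ a : k, α1 (algebraMap k A a) = γ1 (strHom c τ.V a) :=
    strHom_algebraMap c A τ.V
  -- the first chart
  obtain ⟨E0, _, _, θ0, hB, hlc⟩ := exists_module (B := τ.B0)
    α0 γ0 (isPushoutA τ.affU) τ.t x.ρ x.ρ_t
  have hlc' : (θ0 : (Fin τ.n → A[X]) → E0) = lc α0 (γ0 τ.t) (fun i => θ0 (Pi.single i 1)) :=
    funext hlc
  have hbij : Function.Bijective (lc α0 (γ0 τ.t) (fun i => θ0 (Pi.single i 1))) := by
    rw [← hlc']; exact θ0.bijective
  haveI : Module.Invertible Γ(pullback c (spm k A), τ.UA A) E0 :=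
    H98.invertible_chart (k := k) (B := τ.B0) τ.t τ.bU τ.basisU α0 γ0 hαγ0 T.basisU _ hbij
  letI : Algebra Γ(pullback c (spm k A), τ.UA A) Γ(pullback c (spm k A), τ.UA A ⊓ τ.VA A) :=
    ρU.toAlgebra
  haveI : IsLocalization.Away (γ0 τ.t) Γ(pullback c (spm k A), τ.UA A ⊓ τ.VA A) :=
    T.affU.isLocalization_of_eq_basicOpen T.t (homOfLE leU) T.basic_t.symm
  let E01 := Γ(pullback c (spm k A), τ.UA A ⊓ τ.VA A) ⊗[Γ(pullback c (spm k A), τ.UA A)] E0
  let r0 : E0 →+ E01 := (TensorProduct.mk Γ(pullback c (spm k A), τ.UA A)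
    Γ(pullback c (spm k A), τ.UA A ⊓ τ.VA A) E0 1).toAddMonoidHom
  have hr0 : IsLocMap ρU (γ0 τ.t) r0 :=
    isLocMap_of_isBaseChange (t := γ0 τ.t) (TensorProduct.isBaseChange _ _ _)
  have hα : ρU.comp α0 = ρV.comp α1 := by
    ext a; exact (H25.resO_strHom _ leU a).trans (H25.resO_strHom _ leV a).symm
  have hγ : ∀ j i, ρV (γ1 (τ.bV j)) • mg ρV (γ1 τ.s) (fun i => θ0 (Pi.single i 1)) r0 i ∈
      (R1 ρV α1 (γ1 τ.s) (fun i => θ0 (Pi.single i 1)) r0).range := by
    intro j i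
    obtain ⟨m, b, hb⟩ := resO_surj τ.affU τ.t τ.basic_t.symm inf_le_left (τ.rV (τ.bV j))
    have h1 : τ.rV (τ.bV j) = τ.rV τ.s ^ m * τ.rU b := by
      have h2 : τ.rU τ.t * τ.rV τ.s = 1 := τ.mul_eq_one
      rw [TwoChart.rU, hb, ← mul_assoc, ← mul_pow, mul_comm (τ.rV τ.s), ← TwoChart.rU, h2,
        one_pow, one_mul]
    have h3 : b ∈ τ.F m := ⟨τ.bV j, h1⟩
    have h4 : ρV (γ1 (τ.bV j)) = ρV (γ1 τ.s) ^ m * ρU (γ0 b) := by
      have h5 := congrArg (((pullback.fst c (spm k A)).app (τ.U ⊓ τ.V)).hom) h1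
      rw [map_mul, map_pow] at h5
      have h6 : ∀ z : Γ(C, τ.V), ρV (γ1 z) =
        ((pullback.fst c (spm k A)).app (τ.U ⊓ τ.V)).hom (τ.rV z) := fun z =>
          (app_resO (W := τ.U ⊓ τ.V) (pullback.fst c (spm k A)) inf_le_right z).symm
      have h7 : ∀ z : Γ(C, τ.U), ρU (γ0 z) =
        ((pullback.fst c (spm k A)).app (τ.U ⊓ τ.V)).hom (τ.rU z) := fun z =>
          (app_resO (W := τ.U ⊓ τ.V) (pullback.fst c (spm k A)) inf_le_left z).symm
      rw [h6, h6, h7]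
      exact h5
    refine smul_mg_mem hα T.mul_eq_one hr0 _ m (γ0 b) h4 i (fun l => x.ρ b l i)
      (fun l => x.ρ_deg m b h3 l i) ?_
    refine (hB b _).symm.trans ?_
    rw [Matrix.mulVec_single_one]
    exact hlc _
  -- the second chart
  obtain ⟨E1, _, _, r1, m, hr1, hr1i, hbij1, hm⟩ := exists_chart1 (α1 := α1) hα
    T.mul_eq_one hr0 hbij (fun j => γ1 (τ.bV j))
    (fun y => by obtain ⟨f, hf⟩ := T.basisV.2 y; exact ⟨f, hf.symm⟩) hγ
  letI : Algebra k Γ(C, τ.V) := (strHom c τ.V).toAlgebra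
  haveI : Module.Invertible Γ(pullback c (spm k A), τ.VA A) E1 :=
    H98.invertible_chart (k := k) (B := Γ(C, τ.V)) τ.s τ.bV τ.basisV α1 γ1 hαγ1 T.basisV _ hbij1
  -- the bundle
  obtain ⟨M, hM, a0, a1, a01, l0, l1, l01, m0, m1⟩ := exists_module_of_charts (U := τ.UA A)
    (V := τ.VA A) T.affU T.affV T.cover (γ0 τ.t) (γ1 τ.s) T.basic_t T.basic_s r0 hr0.smul hr0.surj hr0.inj r1 hr1.smul hr1.surj hr1.inj
  let θ0' : (Fin τ.n → A[X]) ≃+ Γ(M, τ.UA A) := θ0.trans a0.symm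
  let θ1' : (Fin τ.n → A[X]) ≃+ Γ(M, τ.VA A) :=
    (AddEquiv.ofBijective (lc α1 (γ1 τ.s) m) hbij1).trans a1.symm
  have a0s : ∀ (s : Γ(pullback c (spm k A), τ.UA A)) (z : E0), a0.symm (s • z) = s • a0.symm z :=
    fun s z => a0.injective (by rw [l0, a0.apply_symm_apply, a0.apply_symm_apply])
  have a1s : ∀ (s : Γ(pullback c (spm k A), τ.VA A)) (z : E1), a1.symm (s • z) = s • a1.symm z :=
    fun s z => a1.injective (by rw [l1, a1.apply_symm_apply, a1.apply_symm_apply])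
  have θ0_C : ∀ (a : A) (v : Fin τ.n → A[X]), θ0' (Polynomial.C a • v) = α0 a • θ0' v := by
    intro a v
    change a0.symm (θ0 _) = _
    rw [hlc, lc_smul, eval₂_C, a0s, ← hlc]
    rfl
  have θ0_X : ∀ (v : Fin τ.n → A[X]), θ0' ((X : A[X]) • v) = γ0 τ.t • θ0' v := by
    intro v
    change a0.symm (θ0 _) = _
    rw [hlc, lc_smul, eval₂_X, a0s, ← hlc]
    rfl
  have θ0_B : ∀ (b : τ.B0) (v : Fin τ.n → A[X]), θ0' (x.ρ b *ᵥ v) = γ0 b • θ0' v := by
    intro b v
    change a0.symm (θ0 _) = _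
    rw [hB, a0s]
    rfl
  have θ1_C : ∀ (a : A) (v : Fin τ.n → A[X]), θ1' (Polynomial.C a • v) = α1 a • θ1' v := by
    intro a v
    change a1.symm (lc α1 (γ1 τ.s) m _) = _
    rw [lc_smul, eval₂_C, a1s]
    rfl
  have θ1_X : ∀ (v : Fin τ.n → A[X]), θ1' ((X : A[X]) • v) = γ1 τ.s • θ1' v := by
    intro v
    change a1.symm (lc α1 (γ1 τ.s) m _) = _
    rw [lc_smul, eval₂_X, a1s]
    rfl
  have θ01 : ∀ v : Fin τ.n → A, res M leV (θ1' fun i => Polynomial.C (v i)) =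
      ρV (γ1 τ.s) • res M leU (θ0' fun i => Polynomial.C (v i)) := by
    intro v
    apply a01.injective
    rw [l01]
    refine (m1 _).trans ?_
    have e1 : a01 (res M leU (θ0' fun i => Polynomial.C (v i))) =
        r0 (θ0 fun i => Polynomial.C (v i)) := by
      refine (m0 _).trans ?_
      change r0 (a0 (a0.symm _)) = _
      rw [a0.apply_symm_apply]
      rfl
    rw [e1]
    change r1 (a1 (a1.symm (lc α1 (γ1 τ.s) m _))) = _
    rw [a1.apply_symm_apply, map_lc ρV r1 hr1.smul, hlc, map_lc ρU r0 hr0.smul, lc_apply, lc_apply,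
      Finset.smul_sum]
    refine Finset.sum_congr rfl fun i _ => ?_
    rw [eval₂_C, eval₂_C, hm, smul_comm, ← hα]
    rfl
  -- the rigidification
  let σ := rigSection c (spm k A) ε
  let W := σ ⁻¹ᵁ τ.UA A
  have hWt : W = ⊤ := σ_preimage τ hε
  have hWaff : IsAffineOpen W := by rw [hWt]; exact isAffineOpen_top _
  let a' : A := algebraMap k A (τ.eval hε τ.t)
  let L : (Fin τ.n → A[X]) →+ A :=
    { toFun := fun v => ∑ i, x.lam i * (v i).eval a'
      map_zero' := by simp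
      map_add' := fun v w => by simp [mul_add, Finset.sum_add_distrib] }
  have hL : ∀ v, L v = ∑ i, x.lam i * (v i).eval a' := fun _ => rfl
  let Λ : Γ(M, τ.UA A) →+ Γ(Spec (CommRingCat.of A), W) :=
    (strHom (𝟙 (Spec (CommRingCat.of A))) W).toAddMonoidHom.comp
      (L.comp θ0'.symm.toAddMonoidHom)
  have hΛ : ∀ v, Λ (θ0' v) = strHom (𝟙 (Spec (CommRingCat.of A))) W (L v) := fun v => by
    change strHom (𝟙 (Spec (CommRingCat.of A))) W (L (θ0'.symm (θ0' v))) = _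
    rw [θ0'.symm_apply_apply]
  have hΛs : ∀ (s : Γ(pullback c (spm k A), τ.UA A)) (z : Γ(M, τ.UA A)),
      Λ (s • z) = (σ.app (τ.UA A)).hom s * Λ z := by
    refine semilinear_of_gen (σ.app (τ.UA A)).hom Λ α0 (γ0 τ.t) (fun j => γ0 (τ.bU j))
      (fun y => by obtain ⟨f, hf⟩ := T.basisU.2 y; exact ⟨f, hf.symm⟩) ?_ ?_ ?_
    · intro a z
      obtain ⟨v, rfl⟩ := θ0'.surjective z
      rw [← θ0_C, hΛ, hΛ]
      have h1 : (σ.app (τ.UA A)).hom (α0 a) = strHom (𝟙 _) W a := σ_app_snd a (τ.UA A)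
      rw [h1, ← map_mul, hL, hL, Finset.mul_sum]
      congr 1
      refine Finset.sum_congr rfl fun i _ => ?_
      rw [Pi.smul_apply, smul_eq_mul, eval_mul, eval_C]
      ring
    · intro z
      obtain ⟨v, rfl⟩ := θ0'.surjective z
      rw [← θ0_X, hΛ, hΛ]
      have h1 : (σ.app (τ.UA A)).hom (γ0 τ.t) = strHom (𝟙 _) W a' := σ_app_fst τ hε τ.t
      rw [h1, ← map_mul, hL, hL, Finset.mul_sum]
      congr 1
      refine Finset.sum_congr rfl fun i _ => ?_
      rw [Pi.smul_apply, smul_eq_mul, eval_mul, eval_X]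
      ring
    · intro j z
      obtain ⟨v, rfl⟩ := θ0'.surjective z
      have h0 : γ0 (τ.bU j) • θ0' v = θ0' (x.ρ (τ.bU j) *ᵥ v) := (θ0_B (τ.bU j) v).symm
      rw [h0, hΛ, hΛ]
      have h1 : (σ.app (τ.UA A)).hom (γ0 (τ.bU j)) =
        strHom (𝟙 _) W (algebraMap k A (τ.eval hε (τ.bU j))) := σ_app_fst τ hε (τ.bU j)
      rw [h1, ← map_mul, hL, hL, Finset.mul_sum]
      congr 1
      exact lam_mulVec x.lam _ v a' _ (x.lam_e (τ.bU j))
  -- a vector with value one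
  obtain ⟨u₀, hu₀⟩ : ∃ u₀ : Fin τ.n → A, ∑ i, x.lam i * u₀ i = 1 := by
    have h1 := congrFun (x.lam_p ⟨0, hn⟩) ⟨0, hn⟩
    rw [Pi.single_eq_same] at h1
    exact ⟨_, h1⟩
  have hLC : ∀ v : Fin τ.n → A, L (fun i => Polynomial.C (v i)) = ∑ i, x.lam i * v i := by
    intro v
    simp [hL]
  let x₀ := θ0' fun i => Polynomial.C (u₀ i)
  have hx₀ : Λ x₀ = 1 := by
    rw [hΛ, hLC, hu₀, map_one]
  letI : Algebra Γ(pullback c (spm k A), τ.UA A) Γ(Spec (CommRingCat.of A), W) :=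
    (σ.app (τ.UA A)).hom.toAlgebra
  letI : Module Γ(pullback c (spm k A), τ.UA A) Γ((Scheme.Modules.pullback σ).obj M, W) :=
    Module.compHom _ (σ.app (τ.UA A)).hom
  haveI : IsScalarTower Γ(pullback c (spm k A), τ.UA A) Γ(Spec (CommRingCat.of A), W)
      Γ((Scheme.Modules.pullback σ).obj M, W) :=
    IsScalarTower.of_algebraMap_smul fun r x => rfl
  haveI := invertible hWaff (hM.pullback σ)
  let β : Γ(M, τ.UA A) →ₗ[Γ(pullback c (spm k A), τ.UA A)]
      Γ((Scheme.Modules.pullback σ).obj M, W) :=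
    { toFun := pb σ M
      map_add' := pb_add _ _
      map_smul' := pb_smul _ _ }
  have hβ : IsBaseChange Γ(Spec (CommRingCat.of A), W) β :=
    isBaseChange_pb (V := τ.UA A) σ hM T.affU hWaff le_rfl (fun a => (resO_self _ _).symm) β
      (fun x => (res_self _ _ _).symm)
  let Λ' : Γ(M, τ.UA A) →ₗ[Γ(pullback c (spm k A), τ.UA A)] Γ(Spec (CommRingCat.of A), W) :=
    { Λ with map_smul' := hΛs }
  obtain ⟨hr1', hr2'⟩ := rig_alg β hβ Λ' x₀ hx₀
  have hgen : IsGen _ (β x₀) := isGen_of_bijective hWaff (hM.pullback σ) _ hr2'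
  have hle : (⊤ : (Spec (CommRingCat.of A)).Opens) ≤ W := hWt.ge
  have hrig : Nonempty ((Scheme.Modules.pullback σ).obj M ≅
      SheafOfModules.unit (Spec (CommRingCat.of A)).ringCatSheaf) :=
    nonempty_iso_unit_iff.mpr ⟨res _ hle (β x₀), hgen.res hle⟩
  refine ⟨⟨M, hM, hrig⟩, ⟨⟨θ0', θ1', res _ hle (β x₀), hgen.res hle, θ0_C, θ0_B, θ1_C, θ1_X, θ01,
    fun v => ?_⟩⟩⟩
  have h1 := hr1' (θ0' fun i => Polynomial.C (v i))
  refine h1.trans ?_
  rw [res_res, res_self]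
  congr 1
  exact (hΛ _).trans (by rw [hLC])

omit [IsAlgClosed k] in
theorem nonempty_of_bijective {n : ℕ} (hn : 0 < n) {U : C.Opens} (φ : k →+* Γ(C, U)) (t : Γ(C, U))
    (b : Fin n → Γ(C, U))
    (h : Function.Bijective (fun f : Fin n → Polynomial k => ∑ i, (f i).eval₂ φ t * b i)) :
    Nonempty U := by
  by_contra hne
  have hU : U = ⊥ := by
    rw [eq_bot_iff]
    intro z hz
    exact hne ⟨⟨z, hz⟩⟩
  subst hU
  have h2 : (fun _ => 1 : Fin n → Polynomial k) = 0 := h.1 (Subsingleton.elim _ _)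
  have h3 := congrFun h2 ⟨0, hn⟩
  simp at h3

/-- **S25-R4** for smooth curves. -/
theorem exists_rep' [IsIntegral C] [SmoothOfRelativeDimension 1 c] (hn : 0 < τ.n)
    (x : H45.ChartPt (τ.chartData hε p) A) :
    ∃ M : RigidifiedLineBundle c ε (spm k A), Rep τ hε p M x := by
  haveI : Nonempty τ.U := nonempty_of_bijective hn _ _ _ τ.basisU
  haveI : Nonempty τ.V := nonempty_of_bijective hn _ _ _ τ.basisV
  exact exists_rep τ hε p (H51Curve.isDedekindDomain c τ.affU)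
    (H51Curve.isDedekindDomain c τ.affV) hn x

end Fermat.Agent.H74.R4
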