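import Fermat.Agent.H2G2
import Fermat.Agent.H10_RRDim
import Fermat.Agent.H65Cyc
import Fermat.Agent.H74F1Int
import Fermat.Agent.H74R4
/-!
# S25-R7: over a field, acyclic rigidified line bundles have matrix data
-/
set_option autoImplicit false
universe u v
open CategoryTheory AlgebraicGeometry CategoryTheory.Limits TopologicalSpace Opposite Polynomial
open NeronModelInfra AlgebraicGeometry.RelPicard
open scoped Matrix

noncomputable section

namespace Fermat.Agent.H2G2

open Fermat.Agent.H25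

/-! ### the dimension of `V` -/

section dim

variable {K : Type u} [Field K] {Z : Scheme.{u}} {z : Z ⟶ Spec (CommRingCat.of K)}
  (τ : TwoChart z) {L : Z.Modules} (hL : Scheme.Modules.IsInvertible L)

/-- sections form a module over functions -/
instance secMod (W : Z.Opens) : Module Γ(Z, W) (Sec z L W) := inferInstanceAs (Module _ Γ(L, W))

/-- the comparison `V ≃ Γ(L, V) / s Γ(L, V)` -/
theorem finrank_V (h : IsCompl (latOf τ L hL).P (latOf τ L hL).Q) :
    Module.Finite K ((latOf τ L hL).K 1) ∧ Module.finrank K ((latOf τ L hL).K 1) = τ.n := by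
  let _ : Algebra K Γ(Z, τ.V) := (strHom z τ.V).toAlgebra
  have : IsScalarTower K Γ(Z, τ.V) (Sec z L τ.V) :=
    ⟨fun a b w => by rw [Algebra.smul_def, mul_smul]; rfl⟩
  have hinv : Module.Invertible Γ(Z, τ.V) (Sec z L τ.V) := H51Aff.invertible τ.affV hL
  have hb : Function.Bijective
    (fun f : Fin τ.n → Polynomial K => ∑ i, Polynomial.aeval τ.s (f i) * τ.bV i) := τ.basisV
  obtain ⟨h1, h2⟩ := H10.Lat.finrank_quot_pow hb 1
  obtain ⟨h3, h4⟩ := H10.Lat.finrank_quot_smul (K := K) (Q := Sec z L τ.V)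
    (Ideal.span {τ.s ^ 1})
  set I : Ideal Γ(Z, τ.V) := Ideal.span {τ.s ^ 1} with hI
  have hmemI : ∀ w : Sec z L τ.V, w ∈ I • (⊤ : Submodule Γ(Z, τ.V) (Sec z L τ.V)) ↔
      ∃ w', w = toSec (τ.s • w'.s) ∧ w' ∈ (⊤ : Submodule Γ(Z, τ.V) (Sec z L τ.V)) := by
    intro w
    rw [hI, Submodule.ideal_span_singleton_smul, Submodule.mem_smul_pointwise_iff_exists]
    constructor
    · rintro ⟨w', -, rfl⟩
      exact ⟨w', by rw [pow_one]; rfl, trivial⟩
    · rintro ⟨w', rfl, -⟩
      exact ⟨w', trivial, by rw [pow_one]; rfl⟩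
  let ψ0 : (latOf τ L hL).K 1 →ₗ[K] (latOf τ L hL).Q :=
    { toFun := fun v => ⟨(latOf τ L hL).τ.symm v, by
        have := (H10.Lat.mem_Qm (latOf τ L hL)).mp v.2.2
        rwa [pow_one] at this⟩
      map_add' := fun v v' => Subtype.ext (map_add _ _ _)
      map_smul' := fun a v => Subtype.ext (map_smul _ _ _) }
  let ψ : (latOf τ L hL).K 1 →ₗ[K] (Sec z L τ.V ⧸ (I • (⊤ : Submodule Γ(Z, τ.V) (Sec z L τ.V)))) :=
    ((I • (⊤ : Submodule Γ(Z, τ.V) (Sec z L τ.V))).mkQ.restrictScalars K) ∘ₗ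
      (equivQ τ hL).symm.toLinearMap ∘ₗ ψ0
  have hψ : Function.Bijective ψ := by
    constructor
    · rw [injective_iff_map_eq_zero]
      intro v hv
      have h5 : (equivQ τ hL).symm (ψ0 v) ∈ I • (⊤ : Submodule Γ(Z, τ.V) (Sec z L τ.V)) :=
        (Submodule.Quotient.mk_eq_zero _).mp hv
      obtain ⟨w, hw, -⟩ := (hmemI _).mp h5
      have h6 : ψ0 v = equivQ τ hL (toSec (τ.s • w.s)) := by
        rw [← hw, LinearEquiv.apply_symm_apply]
      have h7 : (latOf τ L hL).τ.symm v = (latOf τ L hL).τ.symm (equivQ τ hL w) := by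
        have h8 := congrArg Subtype.val h6
        refine h8.trans ?_
        apply Sec.ext
        rw [latOf_τ_symm, equivQ_s, equivQ_s, Sec.s_toSec, res_smul]
      have h9 := (latOf τ L hL).τ.symm.injective h7
      have h10 := Submodule.disjoint_def.mp h.disjoint v v.2.1 (h9 ▸ (equivQ τ hL w).2)
      exact Subtype.ext h10
    · intro y
      obtain ⟨w, rfl⟩ := Submodule.mkQ_surjective _ y
      obtain ⟨p, hp, q, hq, hpq⟩ := Submodule.mem_sup.mp (h.codisjoint.eq_top.ge
        (Submodule.mem_top (x := (latOf τ L hL).τ (equivQ τ hL w))))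
      have h11 : (latOf τ L hL).τ.symm p = equivQ τ hL w - (latOf τ L hL).τ.symm q := by
        rw [← (latOf τ L hL).τ.symm_apply_apply (equivQ τ hL w : Sec z L (τ.U ⊓ τ.V)), ← hpq,
          map_add, add_sub_cancel_right]
      have h12 : (latOf τ L hL).τ.symm p ∈ (latOf τ L hL).Q := by
        rw [h11]
        exact Submodule.sub_mem _ (equivQ τ hL w).2 ((latOf τ L hL).τ_symm_mem q hq)
      refine ⟨⟨p, hp, (H10.Lat.mem_Qm (latOf τ L hL)).mpr (by rwa [pow_one])⟩, ?_⟩
      refine (Submodule.Quotient.eq _).mpr ?_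
      obtain ⟨w', hw'⟩ := (equivQ τ hL).surjective ⟨q, hq⟩
      have h13 : (equivQ τ hL).symm (ψ0 ⟨p, hp, (H10.Lat.mem_Qm (latOf τ L hL)).mpr
          (by rwa [pow_one])⟩) = w - toSec (τ.s • w'.s) := by
        rw [LinearEquiv.symm_apply_eq, map_sub]
        apply Subtype.ext
        refine h11.trans ?_
        rw [Submodule.coe_sub]
        congr 1
        apply Sec.ext
        rw [latOf_τ_symm, equivQ_s, Sec.s_toSec, res_smul, ← equivQ_s τ hL, hw']
      have h14 : (equivQ τ hL).symm (ψ0 ⟨p, hp, (H10.Lat.mem_Qm (latOf τ L hL)).mpr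
          (by rwa [pow_one])⟩) - w = - toSec (τ.s • w'.s) := by rw [h13]; abel
      have h15 : (equivQ τ hL).symm (ψ0 ⟨p, hp, (H10.Lat.mem_Qm (latOf τ L hL)).mpr
          (by rwa [pow_one])⟩) - w ∈ I • (⊤ : Submodule Γ(Z, τ.V) (Sec z L τ.V)) := by
        rw [h14]
        exact Submodule.neg_mem _ ((hmemI _).mpr ⟨w', rfl, trivial⟩)
      exact h15
  let e := LinearEquiv.ofBijective ψ hψ
  refine ⟨Module.Finite.equiv e.symm, ?_⟩
  rw [e.finrank_eq, h4, h2, one_mul]

end dim

/-! ### the functional is nonzero -/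

section nonzero

variable {k : Type u} [Field k] {C : Scheme.{u}} {c : C ⟶ Spec (CommRingCat.of k)}
  {ε : SchemeHomOver (𝟙 (Spec (CommRingCat.of k))) c} {A : Type u} [CommRing A] [Algebra k A]
  {τ : TwoChart c} (hε : ε.1 ⁻¹ᵁ τ.U = ⊤) {L : (pullback c (spm k A)).Modules}
  (hL : Scheme.Modules.IsInvertible L)
  {ℓ : Γ((Scheme.Modules.pullback (rigSection c (spm k A) ε)).obj L, ⊤)} (hℓ : IsGen _ ℓ)

include hL in
lemma exists_val_ne_zero [Nontrivial A] : ∃ w : Γ(L, τ.UA A), val hε hℓ w ≠ 0 := by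
  by_contra hcon
  push Not at hcon
  have h0 := pre_UA (A := A) τ hε
  have h1 : ∀ w : Γ(L, τ.UA A), pb (rigSection c (spm k A) ε) L w = 0 := by
    intro w
    rw [val_spec hε hℓ w, hcon, map_zero, zero_smul]
  have h2 := H51Aff.span_range_pb (rigSection c (spm k A) ε) hL (τ.affUA A)
    (isAffineOpen_top _) h0.ge
  have h3 : ℓ ∈ (⊤ : Submodule Γ(Spec (CommRingCat.of A), ⊤)
      Γ((Scheme.Modules.pullback (rigSection c (spm k A) ε)).obj L, ⊤)) := trivial
  rw [← h2] at h3
  have h4 : Submodule.span Γ(Spec (CommRingCat.of A), ⊤) (Set.range fun x : Γ(L, τ.UA A) =>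
      res _ h0.ge (pb (rigSection c (spm k A) ε) L x)) ≤ ⊥ := by
    rw [Submodule.span_le]
    rintro _ ⟨x, rfl⟩
    change res _ _ (pb (rigSection c (spm k A) ε) L x) = 0
    rw [h1, res_zero]
  have h5 : ℓ = 0 := h4 h3
  have h6 : (1 : Γ(Spec (CommRingCat.of A), ⊤)) = 0 := by
    apply hℓ.inj
    rw [h5, smul_zero, smul_zero]
  have h7 : (1 : A) = 0 := by
    have := congrArg (H2Lat.glob A rfl) h6
    rwa [map_one, map_zero] at this
  exact one_ne_zero h7

lemma lam_ne_zero [Nontrivial A] : (actLat hε hL hℓ).lam ≠ 0 := by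
  intro h0
  obtain ⟨w, hw⟩ := exists_val_ne_zero hε hL hℓ
  apply hw
  have h1 := actLat_lam hε hL hℓ ⟨toSec (res L inf_le_left w), toSec w, rfl⟩ w rfl
  rw [h0] at h1
  exact h1.symm

end nonzero

/-! ### torsion -/

lemma exists_dvd_eval₂ {K B : Type u} [Field K] [CommRing B] [IsDomain B] (i : K →+* B) (t : B)
    {n : ℕ} (b : Fin n → B)
    (hb : Function.Surjective (fun f : Fin n → Polynomial K => ∑ j, (f j).eval₂ i t * b j))
    {a : B} (ha : a ≠ 0) : ∃ q : Polynomial K, q ≠ 0 ∧ a ∣ q.eval₂ i t := by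
  classical
  let _ : Algebra (Polynomial K) B := (Polynomial.eval₂RingHom i t).toAlgebra
  have hfin : Module.Finite (Polynomial K) B := by
    refine ⟨⟨Finset.univ.image b, ?_⟩⟩
    rw [eq_top_iff]
    rintro x -
    obtain ⟨f, rfl⟩ := hb x
    refine Submodule.sum_mem _ fun j _ => ?_
    have h1 : (f j).eval₂ i t * b j = f j • b j := rfl
    rw [h1]
    exact Submodule.smul_mem _ _ (Submodule.subset_span (by simp))
  have hint : Algebra.IsIntegral (Polynomial K) B := Algebra.IsIntegral.of_finite _ _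
  obtain ⟨q, hq, hdvd⟩ := (hint.isIntegral a).isAlgebraic.exists_nonzero_dvd
    (mem_nonZeroDivisors_of_ne_zero ha)
  exact ⟨q, hq, hdvd⟩

section torsion

variable {k : Type u} [Field k] {C : Scheme.{u}} {c : C ⟶ Spec (CommRingCat.of k)}
  {ε : SchemeHomOver (𝟙 (Spec (CommRingCat.of k))) c} {K : Type u} [Field K] [Algebra k K]
  {τ : TwoChart c} (hε : ε.1 ⁻¹ᵁ τ.U = ⊤) {L : (pullback c (spm k K)).Modules}
  (hL : Scheme.Modules.IsInvertible L)
  {ℓ : Γ((Scheme.Modules.pullback (rigSection c (spm k K) ε)).obj L, ⊤)} (hℓ : IsGen _ ℓ)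

theorem torsion [IsDomain Γ(pullback c (spm k K), τ.UA K)]
    (P' : Submodule K (ESec τ L)) (hP' : P' ≤ (actLat hε hL hℓ).P) (h0 : P' ≠ ⊥)
    (hst : ∀ b, ∀ x ∈ P', (actLat hε hL hℓ).act b x ∈ P') :
    ∀ x ∈ (actLat hε hL hℓ).P, ∃ q : Polynomial K, q ≠ 0 ∧
      Polynomial.aeval ((actLat hε hL hℓ).τ : ESec τ L →ₗ[K] ESec τ L) q x ∈ P' := by
  have hdom : IsDomain Γ(pullback c (spm k K), (tc τ K).U) :=
    inferInstanceAs (IsDomain Γ(pullback c (spm k K), τ.UA K))
  let _ : Algebra K Γ(pullback c (spm k K), (tc τ K).U) :=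
    (strHom (pullback.snd c (spm k K)) (tc τ K).U).toAlgebra
  have hinv : Module.Invertible Γ(pullback c (spm k K), (tc τ K).U) Γ(L, (tc τ K).U) :=
    H51Aff.invertible (tc τ K).affU hL
  -- the corresponding submodule of sections over `U`
  let E : Submodule Γ(pullback c (spm k K), (tc τ K).U) Γ(L, (tc τ K).U) :=
    { carrier := {w | (toSec (res L inf_le_left w) : ESec τ L) ∈ P'}
      add_mem' := fun {a b} ha hb => by
        change (toSec (res L inf_le_left (a + b)) : ESec τ L) ∈ P'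
        rw [res_add]
        exact P'.add_mem ha hb
      zero_mem' := by
        change (toSec (res L inf_le_left 0) : ESec τ L) ∈ P'
        rw [res_zero]
        exact P'.zero_mem
      smul_mem' := by
        intro r w hw
        let S : Subring Γ(pullback c (spm k K), (tc τ K).U) :=
          { carrier := {r | ∀ w : Γ(L, (tc τ K).U),
              (toSec (res L inf_le_left w) : ESec τ L) ∈ P' →
              (toSec (res L inf_le_left (r • w)) : ESec τ L) ∈ P'}
            mul_mem' := fun {a b} ha hb w hw => by rw [mul_smul]; exact ha _ (hb _ hw)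
            one_mem' := fun w hw => by rwa [one_smul]
            add_mem' := fun {a b} ha hb w hw => by
              rw [add_smul, res_add]
              exact P'.add_mem (ha _ hw) (hb _ hw)
            zero_mem' := fun w hw => by
              rw [zero_smul, res_zero]
              exact P'.zero_mem
            neg_mem' := fun {a} ha w hw => by
              rw [neg_smul, res_neg]
              exact P'.neg_mem (ha _ hw) }
        have key : ∀ (S : Subring Γ(pullback c (spm k K), (tc τ K).U))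
            (_ : ∀ a, strHom (pullback.snd c (spm k K)) (tc τ K).U a ∈ S)
            (_ : ∀ b : τ.B0, fU τ K b ∈ S) (z : Γ(pullback c (spm k K), (tc τ K).U)), z ∈ S :=
          τ.mem_subring_UA K
        refine key S (fun a w hw => ?_) (fun b w hw => ?_) r w hw
        · have h1 := P'.smul_mem a hw
          have h2 : (Sec.resL (pullback.snd c (spm k K)) L
              (inf_le_left : (tc τ K).U ⊓ (tc τ K).V ≤ (tc τ K).U)) (a • toSec w) ∈ P' := by
            rw [LinearMap.map_smul]
            exact h1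
          exact h2
        · have h1 := hst b _ hw
          have h2 : (actLat hε hL hℓ).act b
                (toSec (res L inf_le_left w) : ESec τ L) = (toSec (res L inf_le_left
                  (fU τ K b • w)) : ESec τ L) := by
            apply Sec.ext
            rw [actLat_act_s, Sec.s_toSec, Sec.s_toSec, fO_apply]
            exact (res_smul L _ (fU τ K b) w).symm
          rw [h2] at h1
          exact h1 }
  have hE : ∀ w : Γ(L, (tc τ K).U), w ∈ E ↔ (toSec (res L inf_le_left w) : ESec τ L) ∈ P' :=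
    fun w => Iff.rfl
  obtain ⟨y, hy, hy0⟩ := Submodule.exists_mem_ne_zero_of_ne_bot h0
  obtain ⟨wy, hwy⟩ := hP' hy
  have hwy1 : (toSec (res L inf_le_left wy.s) : ESec τ L) = y := hwy
  have hwy0 : wy.s ≠ 0 := by
    intro h
    apply hy0
    rw [← hwy1, h, res_zero]
    rfl
  obtain ⟨φ, hφ⟩ := H10.Inv.exists_dual_apply_ne_zero
    (R := Γ(pullback c (spm k K), (tc τ K).U)) hwy0
  rintro _ ⟨w, rfl⟩
  obtain ⟨q, hq0, a, ha⟩ := exists_dvd_eval₂ (strHom (pullback.snd c (spm k K)) (tc τ K).U)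
    (tc τ K).t (tc τ K).bU (tc τ K).basisU.2 hφ
  refine ⟨q, hq0, ?_⟩
  have h1 : q.eval₂ (strHom (pullback.snd c (spm k K)) (tc τ K).U) (tc τ K).t • w.s ∈ E := by
    rw [ha, mul_comm, mul_smul, H10.Inv.dual_smul_comm φ wy.s w.s]
    refine E.smul_mem _ (E.smul_mem _ ?_)
    rw [hE, hwy1]
    exact hy
  rw [hE] at h1
  convert h1 using 1
  apply Sec.ext
  refine (aeval_mulT_s (tc τ K) q _).trans ?_
  rw [Sec.s_toSec, Sec.resL_s, res_smul, resO_eval₂_t]

end torsion

/-! ### existence of matrix data over a field -/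

section main

variable {k : Type u} [Field k] [IsAlgClosed k] {C : Scheme.{u}}
  {c : C ⟶ Spec (CommRingCat.of k)} [IsIntegral C] [LocallyOfFiniteType c]
  {ε : SchemeHomOver (𝟙 (Spec (CommRingCat.of k))) c} {K : Type u} [Field K] [Algebra k K]
  {τ : TwoChart c}

variable (K) in
include K in
lemma isDomain_UA (hn : 0 < τ.n) : IsDomain Γ(pullback c (spm k K), τ.UA K) := by
  have h1 := H74.F1.geometricallyIntegral c
  have h2 : IsIntegral (pullback c (spm k K)) :=
    h1.geometrically_isIntegral (spm k K) (pullback.fst c (spm k K)) (pullback.snd c (spm k K))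
      (IsPullback.of_hasPullback _ _)
  have h3 : Nonempty (tc τ K).U := by
    by_contra hne
    have hU : (tc τ K).U = ⊥ := by
      rw [eq_bot_iff]
      intro z hz
      exact hne ⟨⟨z, hz⟩⟩
    have hsub : Subsingleton Γ(pullback c (spm k K), (tc τ K).U) := by
      rw [hU]
      infer_instance
    have h2 : (fun _ => 1 : Fin τ.n → Polynomial K) = 0 :=
      (tc τ K).basisU.1 (Subsingleton.elim _ _)
    have h3 := congrFun h2 ⟨0, hn⟩
    simp at h3
  have h4 : Nonempty (τ.UA K) := h3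
  infer_instance

/-- **R7**: over a field, two acyclic bundles have matrix data for the same polynomials. -/
theorem exists_common_rep (hε : ε.1 ⁻¹ᵁ τ.U = ⊤) (hn : 0 < τ.n)
    (M M' : RigidifiedLineBundle c ε (spm k K)) (hM : Acyc τ M.L) (hM' : Acyc τ M'.L) :
    ∃ p : Fin τ.n → FreeAlgebra k (τ.B0 × ℕ),
      (∃ x : H45.ChartPt (τ.chartData hε p) K, Rep τ hε p M x) ∧
      ∃ x : H45.ChartPt (τ.chartData hε p) K, Rep τ hε p M' x := by
  have hdom := isDomain_UA (c := c) K hn
  obtain ⟨ℓ, hℓ⟩ := exists_rigGen M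
  obtain ⟨ℓ', hℓ'⟩ := exists_rigGen M'
  have hc := (acyc_iff hε M.isInvertible hℓ).mp hM
  have hc' := (acyc_iff hε M'.isInvertible hℓ').mp hM'
  obtain ⟨hf, hfr⟩ := finrank_V (tc τ K) M.isInvertible hc
  obtain ⟨hf', hfr'⟩ := finrank_V (tc τ K) M'.isInvertible hc'
  have : Infinite k := inferInstance
  have hf1 : Module.Finite K (latM hε M hℓ).V := hf
  have hf1' : Module.Finite K (latM hε M' hℓ').V := hf'
  obtain ⟨p, hp, hp'⟩ := H65.exists_common_kap_bijective (latM hε M hℓ) hc (latM hε M' hℓ') hc'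
    (n := τ.n) hfr hfr' (lam_ne_zero hε M.isInvertible hℓ) (torsion hε M.isInvertible hℓ)
    (lam_ne_zero hε M'.isInvertible hℓ') (torsion hε M'.isInvertible hℓ')
  exact ⟨p, exists_rep_of_kap hℓ hc hp, exists_rep_of_kap hℓ' hc' hp'⟩

end main

end Fermat.Agent.H2G2
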