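import Fermat.Agent.H2Chart
import Fermat.Agent.H2Fld
/-!
# S25-E3: the family of basic Picard charts attached to a two-chart structure
-/
set_option autoImplicit false
universe u v
open CategoryTheory AlgebraicGeometry CategoryTheory.Limits TopologicalSpace Opposite Polynomial
open NeronModelInfra AlgebraicGeometry.RelPicard

noncomputable section

namespace Fermat.Agent.H2G2

open Fermat.Agent.H25

variable {k : Type u} [Field k] [IsAlgClosed k] {C : Scheme.{u}}
  {c : C ⟶ Spec (CommRingCat.of k)} [IsIntegral C] [SmoothOfRelativeDimension 1 c]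
  {ε : SchemeHomOver (𝟙 (Spec (CommRingCat.of k))) c}

/-- **S25-E3**: the family of basic Picard charts. -/
theorem exists_baseCharts (hinj : RigInj c ε) (τ : TwoChart c) (hε : ε.1 ⁻¹ᵁ τ.U = ⊤)
    (hn : 0 < τ.n) :
    ∃ (I : Type u) (ch : I → PicChart c ε),
      (∀ i, IsAffine (ch i).X ∧ LocallyOfFinitePresentation (ch i).x) ∧
      (∀ i (A : Type u) [CommRing A] [Algebra k A] (M : RigidifiedLineBundle c ε (spm k A)),
        (ch i).locus (spm k A) M = ⊤ → Acyc τ M.L) ∧
      (∀ (K : Type u) [Field K] [Algebra k K] (M M' : RigidifiedLineBundle c ε (spm k K)),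
        Acyc τ M.L → Acyc τ M'.L → ∃ i, (ch i).locus (spm k K) M = ⊤ ∧
          (ch i).locus (spm k K) M' = ⊤) := by
  have : LocallyOfFiniteType c := H51Curve.locallyOfFiniteType c
  have h := fun p : Fin τ.n → FreeAlgebra k (τ.B0 × ℕ) => exists_chart τ hε p hinj hn
  choose ch h1 h2 h3 using h
  refine ⟨Fin τ.n → FreeAlgebra k (τ.B0 × ℕ), ch, fun p => ⟨h1 p, h2 p⟩, ?_, ?_⟩
  · intro p A _ _ M hM
    obtain ⟨x, hx⟩ := (h3 p A M).mp hM
    exact rep_acyc hx
  · intro K _ _ M M' hM hM'
    obtain ⟨p, hp, hp'⟩ := exists_common_rep hε hn M M' hM hM'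
    exact ⟨p, (h3 p K M).mpr hp, (h3 p K M').mpr hp'⟩

end Fermat.Agent.H2G2
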