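import Mathlib
import Fermat.Agent.H94Divisors
set_option autoImplicit false

/-!
# Ranks over polynomial rings (helper94)
-/

noncomputable section

open IntermediateField
open scoped IntermediateField.algebraAdjoinAdjoin

namespace Fermat.Agent.H94.TC

theorem finrank_of_eval {k K B : Type*} [Field k] [Field K] [Algebra k K] [CommRing B]
    [IsDomain B] [Algebra B K] [IsFractionRing B K] {t : K} (ht : Transcendental k t)
    (φ : Polynomial k →+* B) (hφ : ∀ p, algebraMap B K (φ p) = Polynomial.aeval t p) :
    (letI := φ.toAlgebra; Module.finrank (Polynomial k) B) = Module.finrank k⟮t⟯ K := by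
  let := φ.toAlgebra
  let : Algebra (Polynomial k) K := ((algebraMap B K).comp φ).toAlgebra
  have : IsScalarTower (Polynomial k) B K := IsScalarTower.of_algebraMap_eq' rfl
  refine (IsFractionRing.finrank_left_eq (Polynomial k) (S := B) K).trans ?_
  rw [IsFractionRing.finrank_right_eq (Algebra.adjoin k {t}) k⟮t⟯ K]
  let i : Polynomial k →ₐ[k] Algebra.adjoin k {t} := 
    (Polynomial.aeval (⟨t, Algebra.subset_adjoin rfl⟩ : Algebra.adjoin k {t}))
  have hi : ∀ p, ((i p : Algebra.adjoin k {t}) : K) = Polynomial.aeval t p := by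
    intro p
    exact (Polynomial.map_aeval_eq_aeval_map (φ := RingHom.id k) (ψ := (Algebra.adjoin k {t}).val.toRingHom) rfl p _).trans (by simp)
  refine congrArg Cardinal.toNat (rank_eq_of_equiv_equiv i (AddEquiv.refl K) ⟨?_, ?_⟩ ?_)
  · intro p q hpq
    have h1 := congrArg (Subtype.val) hpq
    rw [hi, hi] at h1
    exact (transcendental_iff_injective.mp ht) h1
  · rintro ⟨x, hx⟩
    rw [Algebra.adjoin_singleton_eq_range_aeval] at hx
    obtain ⟨p, rfl⟩ := hx
    exact ⟨p, Subtype.ext (hi p)⟩
  · intro p m
    rw [Algebra.smul_def, Algebra.smul_def]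
    have h1 : algebraMap (Polynomial k) K p = Polynomial.aeval t p := hφ p
    have h2 : algebraMap (Algebra.adjoin k {t}) K (i p) = Polynomial.aeval t p := hi p
    rw [h1, h2]
    rfl

/-- A basis in the form used in `TwoChart`. -/
theorem exists_basis {k B : Type*} [Field k] [CommRing B] [IsDomain B] (φ : Polynomial k →+* B)
    (hinj : Function.Injective φ) (hfin : φ.Finite) :
    ∃ b : Fin (letI := φ.toAlgebra; Module.finrank (Polynomial k) B) → B,
      Function.Bijective (fun f : Fin (letI := φ.toAlgebra; Module.finrank (Polynomial k) B) →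
        Polynomial k => ∑ i, φ (f i) * b i) := by
  let := φ.toAlgebra
  have h1 : Module.Finite (Polynomial k) B := hfin
  have h2 : Module.IsTorsionFree (Polynomial k) B := by
    rw [Module.isTorsionFree_iff_algebraMap_injective]
    exact hinj
  let b := Module.finBasis (Polynomial k) B
  refine ⟨b, ?_⟩
  have h3 : (fun f : Fin (Module.finrank (Polynomial k) B) →
        Polynomial k => ∑ i, φ (f i) * b i) = b.equivFun.symm := by
    ext f
    rw [Module.Basis.equivFun_symm_apply]
    rfl
  rw [h3]
  exact b.equivFun.symm.bijective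

end Fermat.Agent.H94.TC
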