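import Mathlib
import Fermat.Agent.H25Defs
set_option autoImplicit false

/-!
# Rational functions on an integral scheme: domain of definition (helper94)
-/

noncomputable section

universe u
open CategoryTheory AlgebraicGeometry TopologicalSpace Opposite TopCat

namespace Fermat.Agent.H94.TC

variable {C : Scheme.{u}} [IsIntegral C]

/-- The domain of definition of a rational function. -/
def dom (t : C.functionField) : C.Opens :=
  sSup {W : C.Opens | ∃ _ : Nonempty W, ∃ s : Γ(C, W), C.germToFunctionField W s = t}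

/-- the stalk is a subring of the function field -/
theorem stalk_injective (x : C) :
    Function.Injective (algebraMap (C.presheaf.stalk x) C.functionField) :=
  IsFractionRing.injective _ _

theorem mem_dom_iff (t : C.functionField) (x : C) :
    x ∈ dom t ↔ ∃ a : C.presheaf.stalk x, algebraMap (C.presheaf.stalk x) C.functionField a = t := by
  constructor
  · intro hx
    rw [dom, Opens.mem_sSup] at hx
    obtain ⟨W, ⟨hW, s, hs⟩, hxW⟩ := hx
    exact ⟨C.presheaf.germ W x hxW s, by rw [Scheme.algebraMap_germ_eq_germToFunctionField, hs]⟩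
  · rintro ⟨a, rfl⟩
    obtain ⟨W, hxW, s, rfl⟩ := C.presheaf.exists_germ_eq a
    rw [dom, Opens.mem_sSup]
    have : Nonempty W := ⟨⟨x, hxW⟩⟩
    exact ⟨W, ⟨this, s, by rw [Scheme.algebraMap_germ_eq_germToFunctionField]⟩, hxW⟩

theorem dom_nonempty (t : C.functionField) : Nonempty (dom t) := by
  refine ⟨⟨genericPoint C, (mem_dom_iff t _).mpr ⟨t, ?_⟩⟩⟩
  obtain ⟨W, hxW, s, rfl⟩ := C.presheaf.exists_germ_eq t
  have : Nonempty W := ⟨⟨_, hxW⟩⟩
  rw [Scheme.algebraMap_germ_eq_germToFunctionField]

theorem exists_sec (t : C.functionField) : ∃ s : Γ(C, dom t), ∀ (x : C) (hx : x ∈ dom t),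
    algebraMap (C.presheaf.stalk x) C.functionField (C.presheaf.germ (dom t) x hx s) = t := by
  let ι := {W : C.Opens // ∃ _ : Nonempty W, ∃ s : Γ(C, W), C.germToFunctionField W s = t}
  let U : ι → C.Opens := fun i => i.1
  let sf : ∀ i : ι, Γ(C, U i) := fun i => i.2.choose_spec.choose
  have hsf : ∀ i : ι, haveI := i.2.choose; C.germToFunctionField (U i) (sf i) = t := fun i =>
    i.2.choose_spec.choose_spec
  have hle : ∀ i : ι, U i ≤ dom t := fun i => le_sSup i.2
  obtain ⟨s, hs, -⟩ := C.sheaf.existsUnique_gluing' U (dom t) (fun i => homOfLE (hle i))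
    (by rw [dom, sSup_eq_iSup']; exact le_rfl) sf (by
      intro i j
      have hi := i.2.choose
      have hj := j.2.choose
      have hgi : genericPoint C ∈ U i :=
        ((genericPoint_spec C).mem_open_set_iff (U i).isOpen).mpr (by simpa using hi)
      have hgj : genericPoint C ∈ U j :=
        ((genericPoint_spec C).mem_open_set_iff (U j).isOpen).mpr (by simpa using hj)
      apply germ_injective_of_isIntegral C (U := U i ⊓ U j) (genericPoint C) ⟨hgi, hgj⟩
      have h1 := hsf i
      have h2 := hsf j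
      erw [TopCat.Presheaf.germ_res_apply, TopCat.Presheaf.germ_res_apply]
      exact h1.trans h2.symm)
  refine ⟨s, fun x hx => ?_⟩
  have hx' := hx
  rw [dom, Opens.mem_sSup] at hx'
  obtain ⟨W, hW, hxW⟩ := hx'
  have hWne : Nonempty W := hW.choose
  have hdne : Nonempty (dom t) := ⟨⟨x, hx⟩⟩
  have h1 := hs ⟨W, hW⟩
  have h2 := hsf ⟨W, hW⟩
  rw [← h1] at h2
  refine (Scheme.algebraMap_germ_eq_germToFunctionField C hx s).trans (Eq.trans ?_ h2)
  symm
  exact TopCat.Presheaf.germ_res_apply _ _ _ _ _

/-- The section attached to a rational function. -/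
def sec (t : C.functionField) : Γ(C, dom t) := (exists_sec t).choose

theorem sec_spec (t : C.functionField) (x : C) (hx : x ∈ dom t) :
    algebraMap (C.presheaf.stalk x) C.functionField (C.presheaf.germ (dom t) x hx (sec t)) = t :=
  (exists_sec t).choose_spec x hx

theorem algebraMap_germ_resO {U V : C.Opens} (h : V ≤ U) (x : C) (hx : x ∈ V) (s : Γ(C, U)) :
    C.presheaf.germ V x hx (Fermat.Agent.H25.resO h s) = C.presheaf.germ U x (h hx) s :=
  TopCat.Presheaf.germ_res_apply _ _ _ _ _

theorem basicOpen_sec (t : C.functionField) (ht : t ≠ 0) :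
    C.basicOpen (sec t) = dom t ⊓ dom t⁻¹ := by
  ext x
  constructor
  · intro hx
    have hxU : x ∈ dom t := C.basicOpen_le _ hx
    rw [SetLike.mem_coe, Scheme.mem_basicOpen _ _ x hxU] at hx
    refine ⟨hxU, ?_⟩
    rw [SetLike.mem_coe, mem_dom_iff]
    obtain ⟨a, ha⟩ := hx.exists_right_inv
    refine ⟨a, ?_⟩
    have h1 := congrArg (algebraMap (C.presheaf.stalk x) C.functionField) ha
    rw [map_mul, map_one, sec_spec] at h1
    exact eq_inv_of_mul_eq_one_right h1
  · rintro ⟨hx1, hx2⟩
    rw [SetLike.mem_coe] at hx1 hx2 ⊢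
    rw [Scheme.mem_basicOpen _ _ x hx1]
    refine IsUnit.of_mul_eq_one (C.presheaf.germ (dom t⁻¹) x hx2 (sec t⁻¹)) ?_
    apply stalk_injective x
    rw [map_mul, map_one, sec_spec, sec_spec, mul_inv_cancel₀ ht]

theorem basicOpen_sec_inv (t : C.functionField) (ht : t ≠ 0) :
    C.basicOpen (sec t⁻¹) = dom t ⊓ dom t⁻¹ := by
  rw [basicOpen_sec _ (inv_ne_zero ht), inv_inv, inf_comm]

theorem eq_of_algebraMap_germ_eq {U : C.Opens} [Nonempty U] {s s' : Γ(C, U)}
    (h : C.germToFunctionField U s = C.germToFunctionField U s') : s = s' :=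
  Scheme.germToFunctionField_injective C U h

theorem sec_mul_sec_inv (t : C.functionField) (ht : t ≠ 0) :
    Fermat.Agent.H25.resO (inf_le_left : dom t ⊓ dom t⁻¹ ≤ dom t) (sec t) *
      Fermat.Agent.H25.resO (inf_le_right : dom t ⊓ dom t⁻¹ ≤ dom t⁻¹) (sec t⁻¹) = 1 := by
  have hg : genericPoint C ∈ dom t ⊓ dom t⁻¹ :=
    ⟨((genericPoint_spec C).mem_open_set_iff (dom t).isOpen).mpr (by simpa using dom_nonempty t),
      ((genericPoint_spec C).mem_open_set_iff (dom t⁻¹).isOpen).mpr
        (by simpa using dom_nonempty t⁻¹)⟩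
  apply germ_injective_of_isIntegral C (genericPoint C) hg
  apply stalk_injective
  rw [map_mul, map_one, map_mul, map_one, algebraMap_germ_resO, algebraMap_germ_resO, sec_spec,
    sec_spec, mul_inv_cancel₀ ht]

theorem dom_sup_dom_inv (hval : ∀ x : C, ValuationRing (C.presheaf.stalk x))
    (t : C.functionField) : dom t ⊔ dom t⁻¹ = ⊤ := by
  rw [eq_top_iff]
  intro x _
  have := hval x
  rcases ValuationRing.isInteger_or_isInteger (C.presheaf.stalk x) t with h | h
  · exact Or.inl ((mem_dom_iff t x).mpr h)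
  · exact Or.inr ((mem_dom_iff _ x).mpr h)

end Fermat.Agent.H94.TC
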