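import Mathlib
import Fermat.Agent.H25Defs
set_option autoImplicit false

/-!
# Morphisms from open subschemes to the affine line, valuative criterion (helper94)
-/

noncomputable section

universe u
open CategoryTheory AlgebraicGeometry TopologicalSpace Opposite TopCat

namespace Fermat.Agent.H94.TC

open Fermat.Agent.H25

variable {C : Scheme.{u}}

section secTo

variable {R : CommRingCat.{u}} (l : Spec R ⟶ C) (U : C.Opens)

/-- pullback of sections to an affine scheme mapping into `U` -/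
def secTo (h : ⊤ ≤ l ⁻¹ᵁ U) : Γ(C, U) ⟶ R :=
  l.appLE U ⊤ h ≫ (Scheme.ΓSpecIso R).hom

theorem top_le_comp {R' : CommRingCat.{u}} (φ : R ⟶ R') {l : Spec R ⟶ C} {U : C.Opens}
    (h : ⊤ ≤ l ⁻¹ᵁ U) : ⊤ ≤ (Spec.map φ ≫ l) ⁻¹ᵁ U := by
  intro x _
  exact h (x := Spec.map φ x) trivial

theorem secTo_map {R' : CommRingCat.{u}} (φ : R ⟶ R') (h : ⊤ ≤ l ⁻¹ᵁ U) :
    secTo (Spec.map φ ≫ l) U (top_le_comp φ h) = secTo l U h ≫ φ := by
  have h1 := Scheme.Hom.appLE_comp_appLE (Spec.map φ) l U ⊤ ⊤ h le_top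
  rw [secTo, secTo, Category.assoc, ← Scheme.ΓSpecIso_naturality, ← Category.assoc]
  congr 1

theorem secTo_res {U V : C.Opens} (hVU : V ≤ U) (h : ⊤ ≤ l ⁻¹ᵁ V) (s : Γ(C, U)) :
    secTo l V h (resO hVU s) = secTo l U (h.trans (l.preimage_mono hVU)) s := by
  have h1 : C.presheaf.map (homOfLE hVU).op ≫ l.appLE V ⊤ h =
      l.appLE U ⊤ (h.trans (l.preimage_mono hVU)) := by
    rw [Scheme.Hom.map_appLE]
  show (Scheme.ΓSpecIso R).hom (l.appLE V ⊤ h (C.presheaf.map (homOfLE hVU).op s)) = _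
  have h2 := congrArg (fun f => f s) (congrArg CommRingCat.Hom.hom h1)
  simp only [CommRingCat.hom_comp, RingHom.comp_apply] at h2
  erw [h2]
  rfl

theorem isUnit_secTo_iff (h : ⊤ ≤ l ⁻¹ᵁ U) (s : Γ(C, U)) :
    IsUnit (secTo l U h s) ↔ ⊤ ≤ l ⁻¹ᵁ (C.basicOpen s) := by
  have h0 : IsUnit (secTo l U h s) ↔ IsUnit (l.appLE U ⊤ h s) := by
    constructor
    · intro h1
      have h2 := h1.map (Scheme.ΓSpecIso R).inv.hom
      have h3 : (Scheme.ΓSpecIso R).inv.hom (secTo l U h s) = l.appLE U ⊤ h s :=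
        Iso.hom_inv_id_apply (C := CommRingCat) (Scheme.ΓSpecIso R) _
      rwa [h3] at h2
    · intro h1
      exact h1.map (Scheme.ΓSpecIso R).hom.hom
  rw [h0]
  have h1 := Scheme.basicOpen_appLE l ⊤ U h s
  rw [top_inf_eq] at h1
  rw [← h1]
  constructor
  · intro h2
    rw [Scheme.basicOpen_of_isUnit _ h2]
  · intro h2
    refine RingedSpace.isUnit_of_isUnit_germ (Spec R).toRingedSpace ⊤ _ fun x hx => ?_
    exact (Scheme.mem_basicOpen (Spec R) _ x hx).mp (h2 trivial)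

end secTo

section toA1

variable {k : Type u} [CommRing k] (c : C ⟶ Spec (CommRingCat.of k))

/-- `f ↦ f(t)` -/
def evHom (U : C.Opens) (t : Γ(C, U)) : Polynomial k →+* Γ(C, U) :=
  Polynomial.eval₂RingHom (strHom c U) t

/-- the morphism `U ⟶ 𝔸¹` given by `t` -/
def toA1 (U : C.Opens) (t : Γ(C, U)) : U.toScheme ⟶ Spec (CommRingCat.of (Polynomial k)) :=
  U.toSpecΓ ≫ Spec.map (CommRingCat.ofHom (evHom c U t))

theorem top_le_comp_ι {R : CommRingCat.{u}} {U : C.Opens} (j : Spec R ⟶ U.toScheme) :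
    ⊤ ≤ (j ≫ U.ι) ⁻¹ᵁ U := by
  intro x _
  show (j ≫ U.ι) x ∈ U
  rw [Scheme.Hom.comp_apply]
  exact (j x).2

theorem comp_toSpecΓ {R : CommRingCat.{u}} {U : C.Opens} (j : Spec R ⟶ U.toScheme) :
    j ≫ U.toSpecΓ = Spec.map (secTo (j ≫ U.ι) U (top_le_comp_ι j)) := by
  have h1 : j ≫ U.toScheme.toSpecΓ = (Spec R).toSpecΓ ≫ Spec.map j.appTop :=
    Scheme.toSpecΓ_naturality j
  rw [Scheme.Opens.toSpecΓ, ← Category.assoc, h1, ← SpecMap_ΓSpecIso_hom, ← Spec.map_comp,
    ← Spec.map_comp]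
  congr 1
  rw [secTo, ← Category.assoc]
  congr 1
  have h2 := Scheme.Hom.appLE_comp_appLE j U.ι U ⊤ ⊤ (by
    intro x _; exact x.2) le_top
  rw [← h2]
  congr 1
  · rw [Scheme.Opens.ι_appLE]
    rfl

theorem comp_toA1 {R : CommRingCat.{u}} {U : C.Opens} (t : Γ(C, U)) (j : Spec R ⟶ U.toScheme) :
    j ≫ toA1 c U t = Spec.map (CommRingCat.ofHom (evHom c U t) ≫
      secTo (j ≫ U.ι) U (top_le_comp_ι j)) := by
  rw [toA1, ← Category.assoc, comp_toSpecΓ, Spec.map_comp]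

theorem toA1_comp (U : C.Opens) (t : Γ(C, U)) :
    toA1 c U t ≫ Spec.map (CommRingCat.ofHom (Polynomial.C : k →+* Polynomial k)) = U.ι ≫ c := by
  rw [toA1, Category.assoc, ← Spec.map_comp]
  have h1 : CommRingCat.ofHom (Polynomial.C : k →+* Polynomial k) ≫
      CommRingCat.ofHom (evHom c U t) = CommRingCat.ofHom (strHom c U) := by
    ext a
    simp [evHom]
  rw [h1]
  have h2 : CommRingCat.ofHom (strHom c U) =
      (Scheme.ΓSpecIso (CommRingCat.of k)).inv ≫ c.appLE ⊤ U le_top := rfl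
  rw [h2, Spec.map_comp, ← Category.assoc, Scheme.Opens.toSpecΓ_SpecMap_appLE]
  have h3 : (⊤ : (Spec (CommRingCat.of k)).Opens).toSpecΓ = (⊤ : (Spec (CommRingCat.of k)).Opens).ι ≫
    (Spec (CommRingCat.of k)).toSpecΓ := Scheme.Opens.toSpecΓ_top
  rw [h3, Category.assoc, Category.assoc, toSpecΓ_SpecMap_ΓSpecIso_inv, Category.comp_id]
  simp

theorem preimage_eq_top_of_closedPoint {R : Type u} [CommRing R] [IsLocalRing R]
    (l : Spec (CommRingCat.of R) ⟶ C) (U : C.Opens)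
    (h : l (IsLocalRing.closedPoint R) ∈ U) : ⊤ ≤ l ⁻¹ᵁ U := by
  intro x _
  have hsp : x ⤳ (IsLocalRing.closedPoint R : PrimeSpectrum R) :=
    IsLocalRing.specializes_closedPoint x
  exact hsp.mem_open (l ⁻¹ᵁ U).isOpen h

theorem existence_toA1 {U V : C.Opens} (hcov : U ⊔ V = ⊤) (t : Γ(C, U)) (s : Γ(C, V))
    (hs : C.basicOpen s = U ⊓ V)
    (hts : resO (inf_le_left : U ⊓ V ≤ U) t * resO (inf_le_right : U ⊓ V ≤ V) s = 1)
    (hc : ValuativeCriterion.Existence c) : ValuativeCriterion.Existence (toA1 c U t) := by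
  rintro ⟨R, K, i₁, i₂, ⟨w⟩⟩
  obtain ⟨ψ, rfl⟩ := Spec.map_surjective i₂
  dsimp only at w ⊢
  let α : CommRingCat.of R ⟶ CommRingCat.of K := CommRingCat.ofHom (algebraMap R K)
  have hα : Function.Injective α.hom := IsFractionRing.injective R K
  let S : ValuativeCommSq c :=
    { R := R, K := K, i₁ := i₁ ≫ U.ι,
      i₂ := Spec.map ψ ≫ Spec.map (CommRingCat.ofHom (Polynomial.C : k →+* Polynomial k)),
      commSq := ⟨by
        rw [Category.assoc, ← toA1_comp c U t, ← Category.assoc, w, Category.assoc]⟩ }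
  obtain ⟨l, hl₁, hl₂⟩ := (hc S).exists_lift
  change Spec.map α ≫ l = i₁ ≫ U.ι at hl₁
  change l ≫ c = Spec.map ψ ≫ _ at hl₂
  -- the composite to `K`
  have hw : Spec.map (CommRingCat.ofHom (evHom c U t) ≫
      secTo (i₁ ≫ U.ι) U (top_le_comp_ι i₁)) = Spec.map (ψ ≫ α) := by
    rw [← comp_toA1, w, Spec.map_comp]
  have hw' := Spec.map_injective hw
  -- the closed point lands in `U`
  have key : l (IsLocalRing.closedPoint R) ∈ U := by
    have hmem : l (IsLocalRing.closedPoint R) ∈ U ⊔ V := by rw [hcov]; trivial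
    rcases hmem with h | h
    · exact h
    · have hV := preimage_eq_top_of_closedPoint l V h
      -- `σ τ = 1`
      have hU' : ⊤ ≤ (Spec.map α ≫ l) ⁻¹ᵁ U := by rw [hl₁]; exact top_le_comp_ι i₁
      have hV' : ⊤ ≤ (Spec.map α ≫ l) ⁻¹ᵁ V := top_le_comp α hV
      have hUV : ⊤ ≤ (Spec.map α ≫ l) ⁻¹ᵁ (U ⊓ V) := fun x hx => ⟨hU' hx, hV' hx⟩
      have h1 := congrArg (secTo (Spec.map α ≫ l) (U ⊓ V) hUV).hom hts
      rw [map_mul, map_one] at h1
      have h2 : secTo (Spec.map α ≫ l) (U ⊓ V) hUV (resO inf_le_left t) =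
        secTo (Spec.map α ≫ l) U hU' t := secTo_res _ _ _ _
      have h3 : secTo (Spec.map α ≫ l) (U ⊓ V) hUV (resO inf_le_right s) =
        secTo (Spec.map α ≫ l) V hV' s := secTo_res _ _ _ _
      have h4 : secTo (Spec.map α ≫ l) V hV' s = α (secTo l V hV s) := by
        rw [secTo_map]; rfl
      have h5 : secTo (Spec.map α ≫ l) U hU' t = α (ψ Polynomial.X) := by
        have h6 := congrArg (fun f => f.hom Polynomial.X) hw'
        simp only [CommRingCat.hom_comp, CommRingCat.hom_ofHom, RingHom.comp_apply] at h6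
        have h7 : evHom c U t Polynomial.X = t := by simp [evHom]
        rw [h7] at h6
        rw [← h6]
        congr! 3
      erw [h2, h3, h4, h5, ← map_mul] at h1
      have h8 : (ψ Polynomial.X) * (secTo l V hV s) = 1 := hα (by rw [h1, map_one])
      have h9 : IsUnit (secTo l V hV s) := IsUnit.of_mul_eq_one_right _ h8
      rw [isUnit_secTo_iff, hs] at h9
      exact (h9 (x := IsLocalRing.closedPoint R) trivial).1
  have hU := preimage_eq_top_of_closedPoint l U key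
  have hrange : Set.range l ⊆ Set.range U.ι := by
    rintro _ ⟨x, rfl⟩
    rw [Scheme.Opens.range_ι]
    exact hU (x := x) trivial
  let l' : Spec (CommRingCat.of R) ⟶ U.toScheme := IsOpenImmersion.lift U.ι l hrange
  have hl' : l' ≫ U.ι = l := IsOpenImmersion.lift_fac _ _ _
  refine ⟨⟨⟨l', ?_, ?_⟩⟩⟩
  · show Spec.map α ≫ l' = i₁
    rw [← cancel_mono U.ι, Category.assoc, hl', hl₁]
  · show l' ≫ toA1 c U t = Spec.map ψ
    rw [comp_toA1]
    congr 1
    have h7 : Mono α := ConcreteCategory.mono_of_injective _ hα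
    rw [← cancel_mono α, ← hw', Category.assoc, ← secTo_map]
    congr! 2
    rw [hl', hl₁]

end toA1

end Fermat.Agent.H94.TC
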