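import Mathlib
import Fermat.Agent.H94TC1
import Fermat.Agent.H94TC2
set_option autoImplicit false

/-!
# Curves whose local rings are valuation rings: topology; finiteness of `U → 𝔸¹` (helper94)
-/

noncomputable section

universe u
open CategoryTheory AlgebraicGeometry TopologicalSpace Opposite TopCat

namespace Fermat.Agent.H94.TC

variable {C : Scheme.{u}} [IsIntegral C]

theorem prime_of_valuationRing {R : Type*} [CommRing R] [IsDomain R] [ValuationRing R]
    [IsNoetherianRing R] (p : Ideal R) (hp : p.IsPrime) :
    p = ⊥ ∨ p = IsLocalRing.maximalIdeal R := by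
  have h1 : IsBezout R := inferInstance
  have h2 : IsPrincipalIdealRing R := inferInstance
  by_cases h : p = ⊥
  · exact Or.inl h
  · exact Or.inr (IsLocalRing.eq_maximalIdeal (IsPrime.to_maximal_ideal h))

theorem eq_or_eq_genericPoint [IsLocallyNoetherian C]
    (hval : ∀ x : C, ValuationRing (C.presheaf.stalk x)) {x y : C} (h : x ⤳ y) :
    x = y ∨ x = genericPoint C := by
  have hx : x ∈ Set.range (C.fromSpecStalk y) := by
    rw [Scheme.range_fromSpecStalk]; exact h
  have hg : genericPoint C ∈ Set.range (C.fromSpecStalk y) := by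
    rw [Scheme.range_fromSpecStalk]; exact (genericPoint_spec C).specializes trivial
  obtain ⟨p, rfl⟩ := hx
  obtain ⟨q, hq⟩ := hg
  have := hval y
  rcases prime_of_valuationRing p.asIdeal p.2 with h1 | h1
  · right
    have h2 : p ⤳ q := by
      refine (PrimeSpectrum.le_iff_specializes p q).mp ?_
      show p.asIdeal ≤ q.asIdeal
      rw [h1]; exact bot_le
    have h3 := h2.map (C.fromSpecStalk y).continuous
    rw [hq] at h3
    have h4 : genericPoint C ⤳ C.fromSpecStalk y p := (genericPoint_spec C).specializes trivial
    exact (h4.antisymm h3).symm.eq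
  · left
    have h2 : p = IsLocalRing.closedPoint _ := PrimeSpectrum.ext h1
    rw [h2, Scheme.fromSpecStalk_closedPoint]

theorem isClosed_singleton [IsLocallyNoetherian C]
    (hval : ∀ x : C, ValuationRing (C.presheaf.stalk x)) {x : C} (hx : x ≠ genericPoint C) :
    IsClosed ({x} : Set C) := by
  rw [← closure_subset_iff_isClosed]
  intro y hy
  have h : x ⤳ y := specializes_iff_mem_closure.mpr hy
  exact ((eq_or_eq_genericPoint hval h).resolve_right hx).symm

theorem finite_of_isClosed [IsLocallyNoetherian C] [NoetherianSpace C]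
    (hval : ∀ x : C, ValuationRing (C.presheaf.stalk x)) {Z : Set C} (hZ : IsClosed Z)
    (hg : genericPoint C ∉ Z) : Z.Finite := by
  obtain ⟨S, hS, hS1, hS2, rfl⟩ := NoetherianSpace.exists_finite_set_isClosed_irreducible hZ
  refine Set.Finite.sUnion hS fun T hT => ?_
  obtain ⟨z, hz⟩ := QuasiSober.sober (hS2 T hT) (hS1 T hT)
  have hzT : z ∈ T := hz.mem
  have hzg : z ≠ genericPoint C := fun h => hg ⟨T, hT, h ▸ hzT⟩
  have h1 : closure ({z} : Set C) = T := hz
  rw [← h1, (isClosed_singleton hval hzg).closure_eq]
  exact Set.finite_singleton z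

variable {k : Type u} [Field k] (c : C ⟶ Spec (CommRingCat.of k))

open Fermat.Agent.H25

/-- `k → K(C)` -/
def kmap : k →+* C.functionField :=
  (C.presheaf.germ ⊤ (genericPoint C) trivial).hom.comp (strHom c ⊤)

omit [AlgebraicGeometry.IsIntegral C] in
theorem resO_strHom {U V : C.Opens} (h : V ≤ U) (a : k) :
    resO h (strHom c U a) = strHom c V a := by
  have h1 : c.appLE ⊤ U le_top ≫ C.presheaf.map (homOfLE h).op = c.appLE ⊤ V le_top := by
    rw [Scheme.Hom.appLE_map]
  have h2 := congrArg (fun f => f.hom ((Scheme.ΓSpecIso (CommRingCat.of k)).inv a)) h1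
  exact h2

theorem germ_strHom (U : C.Opens) [Nonempty U] (a : k) :
    C.germToFunctionField U (strHom c U a) = kmap c a := by
  have h1 := resO_strHom c (le_top : U ≤ ⊤) a
  rw [← h1]
  exact TopCat.Presheaf.germ_res_apply _ _ _ _ _

/-- transcendental rational functions -/
def IsTr (t : C.functionField) : Prop :=
  Function.Injective (Polynomial.eval₂RingHom (kmap c) t)

theorem germ_evHom (t : C.functionField) (p : Polynomial k) :
    haveI := dom_nonempty t
    C.germToFunctionField (dom t) (evHom c (dom t) (sec t) p) =
      Polynomial.eval₂ (kmap c) t p := by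
  have := dom_nonempty t
  have hgen : genericPoint C ∈ dom t :=
    ((genericPoint_spec C).mem_open_set_iff (dom t).isOpen).mpr (by simpa using dom_nonempty t)
  have h1 : C.germToFunctionField (dom t) (sec t) = t := by
    have := sec_spec t (genericPoint C) hgen
    rwa [Scheme.algebraMap_germ_eq_germToFunctionField] at this
  rw [evHom, Polynomial.coe_eval₂RingHom, Polynomial.hom_eval₂ _ _ (C.germToFunctionField (dom t)).hom]
  congr 1
  · ext a
    exact germ_strHom c (dom t) a

omit [AlgebraicGeometry.IsIntegral C] in
theorem preimage_basicOpen_toA1 (U : C.Opens) (t : Γ(C, U)) (p : Polynomial k) :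
    toA1 c U t ⁻¹ᵁ (PrimeSpectrum.basicOpen p) = U.ι ⁻¹ᵁ (C.basicOpen (evHom c U t p)) := by
  rw [toA1, Scheme.Hom.comp_preimage]
  have h1 : Spec.map (CommRingCat.ofHom (evHom c U t)) ⁻¹ᵁ (PrimeSpectrum.basicOpen p) =
      PrimeSpectrum.basicOpen (evHom c U t p) := rfl
  rw [h1, Scheme.Opens.toSpecΓ_preimage_basicOpen]

instance locallyOfFiniteType_toA1 [LocallyOfFiniteType c] (U : C.Opens) (t : Γ(C, U)) :
    LocallyOfFiniteType (toA1 c U t) := by
  have h1 : LocallyOfFiniteType (toA1 c U t ≫
      Spec.map (CommRingCat.ofHom (Polynomial.C : k →+* Polynomial k))) := by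
    rw [toA1_comp]; infer_instance
  exact locallyOfFiniteType_of_comp _ (Spec.map (CommRingCat.ofHom
    (Polynomial.C : k →+* Polynomial k)))

instance isSeparated_toA1 [IsSeparated c] (U : C.Opens) (t : Γ(C, U)) :
    IsSeparated (toA1 c U t) := by
  have h1 : IsSeparated (toA1 c U t ≫
      Spec.map (CommRingCat.ofHom (Polynomial.C : k →+* Polynomial k))) := by
    rw [toA1_comp]; infer_instance
  exact IsSeparated.of_comp _ (Spec.map (CommRingCat.ofHom
    (Polynomial.C : k →+* Polynomial k)))

theorem finite_fibre [LocallyOfFiniteType c] [IsLocallyNoetherian C] [NoetherianSpace C]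
    (hval : ∀ x : C, ValuationRing (C.presheaf.stalk x)) (t : C.functionField) (ht : IsTr c t)
    (y : Spec (CommRingCat.of (Polynomial k))) :
    ((toA1 c (dom t) (sec t)) ⁻¹' {y}).Finite := by
  by_cases hy : y.asIdeal = ⊥
  · -- only the generic point
    refine Set.Finite.subset (Set.Finite.preimage (f := (dom t).ι)
      ((dom t).ι.isOpenEmbedding.injective.injOn) (Set.finite_singleton (genericPoint C))) ?_
    intro x hx
    rw [Set.mem_preimage, Set.mem_singleton_iff] at hx ⊢
    by_contra hxg
    have h1 : IsClosed ({(dom t).ι x} : Set C) := isClosed_singleton hval hxg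
    have h2 : IsClosed ({x} : Set (dom t)) := by
      have h3 : ({x} : Set (dom t)) = (dom t).ι ⁻¹' {(dom t).ι x} := by
        ext z
        simp only [Set.mem_singleton_iff, Set.mem_preimage]
        exact ⟨fun h => h ▸ rfl, fun h => (dom t).ι.isOpenEmbedding.injective h⟩
      rw [h3]
      exact h1.preimage (dom t).ι.continuous
    have : JacobsonSpace (Spec (CommRingCat.of (Polynomial k))) :=
      inferInstanceAs (JacobsonSpace (PrimeSpectrum (Polynomial k)))
    have h4 := (toA1 c (dom t) (sec t)).closePoints_subset_preimage_closedPoints h2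
    rw [Set.mem_preimage, hx] at h4
    have h5 : IsClosed ({y} : Set (PrimeSpectrum (Polynomial k))) := h4
    have h6 := (PrimeSpectrum.isClosed_singleton_iff_isMaximal _).mp h5
    have h7 : (⊥ : Ideal (Polynomial k)).IsMaximal := hy ▸ h6
    exact Polynomial.not_isField k (Ring.isField_iff_maximal_bot.mpr h7)
  · obtain ⟨p, hp, hp0⟩ := Submodule.exists_mem_ne_zero_of_ne_bot hy
    let Z : Set C := (C.basicOpen (evHom c (dom t) (sec t) p) : Set C)ᶜ
    have hZ : IsClosed Z := (C.basicOpen _).isOpen.isClosed_compl
    have hZg : genericPoint C ∉ Z := by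
      intro h
      apply h
      have := dom_nonempty t
      have hgen : genericPoint C ∈ dom t :=
        ((genericPoint_spec C).mem_open_set_iff (dom t).isOpen).mpr
          (by simpa using dom_nonempty t)
      rw [SetLike.mem_coe, Scheme.mem_basicOpen _ _ _ hgen]
      have h1 := germ_evHom c t p
      have h2 : Polynomial.eval₂ (kmap c) t p ≠ 0 := by
        intro h3
        apply hp0
        apply ht
        rw [map_zero]
        exact h3
      rw [← h1] at h2
      exact IsUnit.mk0 _ h2
    refine Set.Finite.subset (Set.Finite.preimage (f := (dom t).ι)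
      ((dom t).ι.isOpenEmbedding.injective.injOn) (finite_of_isClosed hval hZ hZg)) ?_
    intro x hx
    rw [Set.mem_preimage, Set.mem_singleton_iff] at hx
    rw [Set.mem_preimage]
    intro h1
    have h2 : x ∈ (dom t).ι ⁻¹ᵁ (C.basicOpen (evHom c (dom t) (sec t) p)) := h1
    rw [← preimage_basicOpen_toA1] at h2
    have h3 : toA1 c (dom t) (sec t) x ∈ PrimeSpectrum.basicOpen p := h2
    rw [hx] at h3
    exact h3 hp

theorem isFinite_toA1 [IsProper c]
    (hval : ∀ x : C, ValuationRing (C.presheaf.stalk x)) (t : C.functionField) (ht : IsTr c t) :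
    IsFinite (toA1 c (dom t) (sec t)) := by
  have h1 : IsLocallyNoetherian C := LocallyOfFiniteType.isLocallyNoetherian c
  have h2 : CompactSpace C := QuasiCompact.compactSpace_of_compactSpace c
  have h3 : AlgebraicGeometry.IsNoetherian C := { }
  have h4 : NoetherianSpace (dom t).toScheme := by
    have : IsLocallyNoetherian (dom t).toScheme := inferInstance
    exact (dom t).ι.isOpenEmbedding.isInducing.noetherianSpace
  have ht0 : t ≠ 0 := by
    rintro rfl
    have h5 : Polynomial.eval₂RingHom (kmap c) (0 : C.functionField) Polynomial.X =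
        Polynomial.eval₂RingHom (kmap c) (0 : C.functionField) 0 := by simp
    exact Polynomial.X_ne_zero (ht h5)
  rw [IsFinite.iff_isProper_and_locallyQuasiFinite]
  constructor
  · have h5 : ValuativeCriterion.Existence c := by
      have h6 : UniversallyClosed c := inferInstance
      rw [UniversallyClosed.eq_valuativeCriterion] at h6
      exact h6.1
    have h6 := existence_toA1 c (dom_sup_dom_inv hval t) (sec t) (sec t⁻¹)
      (basicOpen_sec_inv t ht0) (sec_mul_sec_inv t ht0) h5
    have h7 : UniversallyClosed (toA1 c (dom t) (sec t)) :=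
      UniversallyClosed.of_valuativeCriterion _ h6
    exact { }
  · exact LocallyQuasiFinite.of_finite_preimage_singleton _ (finite_fibre c hval t ht)

end Fermat.Agent.H94.TC
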