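import Mathlib
import Fermat.Agent.H94TC3
import Fermat.Agent.H94TC4
set_option autoImplicit false

/-!
# Two-chart presentation of a curve (helper94)
-/

noncomputable section

universe u
open CategoryTheory AlgebraicGeometry TopologicalSpace Opposite TopCat

namespace Fermat.Agent.H94.TC

open Fermat.Agent.H25

variable {C : Scheme.{u}} [IsIntegral C]
variable {k : Type u} [Field k] (c : C ⟶ Spec (CommRingCat.of k))

theorem isAffineOpen_dom [IsProper c]
    (hval : ∀ x : C, ValuationRing (C.presheaf.stalk x)) (t : C.functionField) (ht : IsTr c t) :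
    IsAffineOpen (dom t) := by
  have := isFinite_toA1 c hval t ht
  exact isAffine_of_isAffineHom (toA1 c (dom t) (sec t))

theorem finite_evHom [IsProper c]
    (hval : ∀ x : C, ValuationRing (C.presheaf.stalk x)) (t : C.functionField) (ht : IsTr c t) :
    (evHom c (dom t) (sec t)).Finite := by
  have h1 := isFinite_toA1 c hval t ht
  have hA := isAffineOpen_dom c hval t ht
  have h2 : IsFinite (hA.isoSpec.inv ≫ toA1 c (dom t) (sec t)) := inferInstance
  rw [toA1, IsAffineOpen.isoSpec_inv_toSpecΓ_assoc, IsFinite.SpecMap_iff] at h2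
  exact h2

theorem injective_evHom (t : C.functionField) (ht : IsTr c t) :
    Function.Injective (evHom c (dom t) (sec t)) := by
  intro p q h
  apply ht
  have := dom_nonempty t
  show Polynomial.eval₂ (kmap c) t p = Polynomial.eval₂ (kmap c) t q
  rw [← germ_evHom, ← germ_evHom, h]

theorem isTr_inv {t : C.functionField} (ht : IsTr c t) : IsTr c t⁻¹ := by
  let := (kmap c).toAlgebra
  have h1 : Transcendental k t := by
    rw [transcendental_iff_injective]; exact ht
  have h2 : Transcendental k t⁻¹ := transcendental_inv h1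
  rw [transcendental_iff_injective] at h2
  exact h2

theorem exists_twoChart_of [IsProper c]
    (hval : ∀ x : C, ValuationRing (C.presheaf.stalk x)) {t : C.functionField} (ht : IsTr c t) :
    ∃ τ : TwoChart c, 0 < τ.n ∧ τ.U = dom t ∧ τ.V = dom t⁻¹ := by
  let := (kmap c).toAlgebra
  have htr : Transcendental k t := by
    rw [transcendental_iff_injective]; exact ht
  have ht0 : t ≠ 0 := by
    rintro rfl
    exact htr (isAlgebraic_zero)
  have hd := dom_nonempty t
  have hd' := dom_nonempty t⁻¹
  have ht' := isTr_inv c ht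
  have hA := isAffineOpen_dom c hval t ht
  have hA' := isAffineOpen_dom c hval t⁻¹ ht'
  have hn : ∀ (z : C.functionField), IsTr c z → IsAffineOpen (dom z) →
      (letI := (evHom c (dom z) (sec z)).toAlgebra;
        Module.finrank (Polynomial k) Γ(C, dom z)) =
      Module.finrank (IntermediateField.adjoin k {z}) C.functionField := by
    intro z hz hAz
    have := dom_nonempty z
    have := functionField_isFractionRing_of_isAffineOpen C (dom z) hAz
    refine finrank_of_eval (K := C.functionField) (by
      rw [transcendental_iff_injective]; exact hz) _ fun p => ?_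
    exact germ_evHom c z p
  have hn1 := hn t ht hA
  have hn2 := hn t⁻¹ ht' hA'
  rw [adjoin_inv, ← hn1] at hn2
  obtain ⟨b, hb⟩ := exists_basis _ (injective_evHom c t ht) (finite_evHom c hval t ht)
  obtain ⟨b', hb'⟩ : ∃ b' : Fin (letI := (evHom c (dom t) (sec t)).toAlgebra;
      Module.finrank (Polynomial k) Γ(C, dom t)) → Γ(C, dom t⁻¹),
      Function.Bijective (fun f : Fin (letI := (evHom c (dom t) (sec t)).toAlgebra;
        Module.finrank (Polynomial k) Γ(C, dom t)) → Polynomial k =>
        ∑ i, (evHom c (dom t⁻¹) (sec t⁻¹)) (f i) * b' i) := by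
    rw [← hn2]
    exact exists_basis _ (injective_evHom c t⁻¹ ht') (finite_evHom c hval t⁻¹ ht')
  refine ⟨⟨dom t, dom t⁻¹, hA, hA', dom_sup_dom_inv hval t, sec t, sec t⁻¹, basicOpen_sec t ht0,
    basicOpen_sec_inv t ht0, sec_mul_sec_inv t ht0, _, b, hb, b', hb'⟩, ?_, rfl, rfl⟩
  show 0 < (letI := (evHom c (dom t) (sec t)).toAlgebra;
      Module.finrank (Polynomial k) Γ(C, dom t))
  rw [Nat.pos_iff_ne_zero]
  intro h0
  have h1 : IsEmpty (Fin (letI := (evHom c (dom t) (sec t)).toAlgebra;
      Module.finrank (Polynomial k) Γ(C, dom t))) := by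
    rw [h0]; infer_instance
  obtain ⟨f, hf⟩ := hb.2 1
  obtain ⟨g, hg⟩ := hb.2 0
  have h2 : f = g := Subsingleton.elim _ _
  rw [h2, hg] at hf
  exact zero_ne_one hf

end Fermat.Agent.H94.TC
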