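import Mathlib
import Fermat.Agent.H94TC5
import Fermat.Agent.H51Curve
set_option autoImplicit false

/-!
# S25-C2: existence of a two-chart presentation (helper94)
-/

noncomputable section

universe u
open CategoryTheory AlgebraicGeometry TopologicalSpace Opposite TopCat

namespace Fermat.Agent.H94.TC

open Fermat.Agent.H25

theorem exists_isTr (k : Type u) [Field k] [IsAlgClosed k] {C : Scheme.{u}}
    (c : C ⟶ Spec (CommRingCat.of k)) [SmoothOfRelativeDimension 1 c] [IsIntegral C] :
    ∃ t : C.functionField, IsTr c t := by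
  obtain ⟨U, hU, hxU, -⟩ := exists_isAffineOpen_mem_and_subset (X := C) (U := ⊤)
    (x := genericPoint C) trivial
  have : Nonempty U := ⟨⟨_, hxU⟩⟩
  obtain ⟨t, ht⟩ := H51Curve.exists_transcendental c hU
  refine ⟨C.germToFunctionField U t, ?_⟩
  rw [IsTr, injective_iff_map_eq_zero]
  intro p hp
  apply ht
  apply Scheme.germToFunctionField_injective C U
  rw [map_zero, Polynomial.hom_eval₂ _ _ (C.germToFunctionField U).hom]
  have h1 : (C.germToFunctionField U).hom.comp (strHom c U) = kmap c := by
    ext a
    exact germ_strHom c U a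
  rw [h1]
  exact hp

/-- Existence of a two-chart presentation with a given point in the first chart. -/
theorem exists_twoChart (k : Type u) [Field k] [IsAlgClosed k] {C : Scheme.{u}}
    (c : C ⟶ Spec (CommRingCat.of k)) [IsProper c] [SmoothOfRelativeDimension 1 c] [IsIntegral C]
    (e : C) (_he : IsClosed {e}) : ∃ τ : TwoChart c, 0 < τ.n ∧ e ∈ τ.U := by
  have hval : ∀ x : C, ValuationRing (C.presheaf.stalk x) := fun x =>
    H51Curve.valuationRing_stalk c x
  obtain ⟨t, ht⟩ := exists_isTr k c
  have hcov : e ∈ dom t ⊔ dom t⁻¹ := by rw [dom_sup_dom_inv hval]; trivial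
  rcases hcov with h | h
  · obtain ⟨τ, h1, h2, -⟩ := exists_twoChart_of c hval ht
    exact ⟨τ, h1, by rw [h2]; exact h⟩
  · obtain ⟨τ, h1, h2, -⟩ := exists_twoChart_of c hval (isTr_inv c ht)
    exact ⟨τ, h1, by rw [h2]; exact h⟩

end Fermat.Agent.H94.TC
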