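import Fermat.Agent.H25Fin3
import Fermat.Agent.H25Eff4
import Fermat.Agent.H2Base
import Fermat.Agent.H94TwoChart
import Fermat.Agent.H20Rig
/-!
# S25: final assembly, part 4: everything except the twisting classes
-/
set_option autoImplicit false
universe u v
open CategoryTheory AlgebraicGeometry CategoryTheory.Limits TopologicalSpace Opposite Polynomial
open NeronModelInfra AlgebraicGeometry.RelPicard

noncomputable section

namespace Fermat.Agent.H25

open H21T

variable {k : Type u} [Field k] [IsAlgClosed k] {C : Scheme.{u}}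
  (c : C ⟶ Spec (CommRingCat.of k))
  [IsProper c] [SmoothOfRelativeDimension 1 c] [IsIntegral C]
  (ε : SchemeHomOver (𝟙 (Spec (CommRingCat.of k))) c)

/-- the statement of K3 (twisting classes) -/
def Twists (τ : TwoChart c) : Prop :=
  ∃ (J : Type u) (ν : J → SPic C),
    (∀ j, ∃ e : ℤ, ∀ (K : Type u) [Field K] (z : Spec (CommRingCat.of K) ⟶ Spec (CommRingCat.of k))
      (α : SPic (pullback c z)), chiP τ z (α * bcl z (ν j)) = chiP τ z α + e) ∧
    ∀ (K : Type u) [Field K] (z : Spec (CommRingCat.of K) ⟶ Spec (CommRingCat.of k))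
      (α β : SPic (pullback c z)), chiP τ z α = chiP τ z β →
        ∃ j, AcycP τ z (α * bcl z (ν j)) ∧ AcycP τ z (β * bcl z (ν j))

theorem exists_finData (hK3 : ∀ τ : TwoChart c, Twists c τ) : Nonempty (FinData c ε) := by
  have hcl : IsClosed {ε.1 (IsLocalRing.closedPoint k)} := by
    have : IsClosedImmersion ε.1 := isClosedImmersion_of_comp_eq_id c ε.1 ε.2
    have h1 := ε.1.isClosedEmbedding.isClosedMap Set.univ isClosed_univ
    have h2 : ε.1 '' Set.univ = {ε.1 (IsLocalRing.closedPoint k)} := by
      ext x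
      constructor
      · rintro ⟨y, -, rfl⟩
        rw [Subsingleton.elim y (IsLocalRing.closedPoint k)]
        rfl
      · rintro rfl
        exact ⟨_, trivial, rfl⟩
    rwa [h2] at h1
  obtain ⟨τ, hn, he⟩ := H94.TC.exists_twoChart k c _ hcl
  have hε : ε.1 ⁻¹ᵁ τ.U = ⊤ := preimage_eq_top he
  have hinj : RigInj c ε := H20R.rigInj c ε
  obtain ⟨I, ch, h1, h2, h3⟩ := H2G2.exists_baseCharts hinj τ hε hn
  obtain ⟨J, ν, h4, h5⟩ := hK3 τ
  obtain ⟨Y, y, hy, hY, F, hF⟩ := exists_surj_family τ ε
  exact ⟨{
    τ := τ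
    inj := hinj
    I := I
    ch := ch
    aff := fun i => (h1 i).1
    fp := fun i => (h1 i).2
    ac := fun i K _ z M hM => by
      obtain ⟨φ, rfl⟩ := Spec.map_surjective z
      let _ : Algebra k K := φ.hom.toAlgebra
      exact (acyc_iff τ (A := K) M).mp (h2 i K M hM)
    ex := fun K _ z M M' hM hM' => by
      obtain ⟨φ, rfl⟩ := Spec.map_surjective z
      let _ : Algebra k K := φ.hom.toAlgebra
      exact h3 K M M' ((acyc_iff τ (A := K) M).mpr hM) ((acyc_iff τ (A := K) M').mpr hM')
    J := J
    ν := ν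
    deg := h4
    rr := h5
    Y := Y
    y := y
    Y_proper := hy
    Y_int := hY
    F := F
    surj := hF }⟩

theorem exists_of_twists (hK3 : ∀ τ : TwoChart c, Twists c τ) :
    ∃ D : GoodReductionJacobian.RelativePic0Designation k c,
      Nonempty (RepresentsRelSubPic c ε (algEquivZeroCut c ε) D) ∧
        Smooth D.toBase ∧ IsProper D.toBase ∧ GeometricallyConnected D.toBase :=
  exists_representsRelSubPic (exists_finData c ε hK3).some

end Fermat.Agent.H25
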