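import Fermat.Agent.H25Defs
/-!
# S25: generators of invertible modules (job A1), part 1: sections calculus
-/
set_option autoImplicit false
universe u v
open CategoryTheory AlgebraicGeometry CategoryTheory.Limits TopologicalSpace

namespace Fermat.Agent.H25

variable {X Y : Scheme.{u}}

section Res

variable (M N : X.Modules)

@[simp] lemma res_self {U : X.Opens} (h : U ≤ U) (s : Γ(M, U)) : res M h s = s := by
  have : (homOfLE h).op = 𝟙 _ := rfl
  rw [res, this, CategoryTheory.Functor.map_id]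
  rfl

lemma res_res {U V W : X.Opens} (h : V ≤ U) (h' : W ≤ V) (s : Γ(M, U)) :
    res M h' (res M h s) = res M (h'.trans h) s := by
  simp only [res]
  rw [← ConcreteCategory.comp_apply, ← Functor.map_comp]
  rfl

@[simp] lemma resO_self {U : X.Opens} (h : U ≤ U) (s : Γ(X, U)) : resO h s = s := by
  have : (homOfLE h).op = 𝟙 _ := rfl
  rw [resO, this, CategoryTheory.Functor.map_id]
  rfl

lemma resO_resO {U V W : X.Opens} (h : V ≤ U) (h' : W ≤ V) (s : Γ(X, U)) :
    resO h' (resO h s) = resO (h'.trans h) s := by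
  simp only [resO]
  rw [← ConcreteCategory.comp_apply, ← Functor.map_comp]
  rfl

@[simp] lemma res_add {U V : X.Opens} (h : V ≤ U) (s t : Γ(M, U)) :
    res M h (s + t) = res M h s + res M h t := map_add _ _ _

@[simp] lemma res_zero {U V : X.Opens} (h : V ≤ U) :
    res M h (0 : Γ(M, U)) = 0 := map_zero _

@[simp] lemma res_neg {U V : X.Opens} (h : V ≤ U) (s : Γ(M, U)) :
    res M h (-s) = - res M h s := map_neg _ _

@[simp] lemma res_sub {U V : X.Opens} (h : V ≤ U) (s t : Γ(M, U)) :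
    res M h (s - t) = res M h s - res M h t := map_sub _ _ _

@[simp] lemma res_smul {U V : X.Opens} (h : V ≤ U) (f : Γ(X, U)) (s : Γ(M, U)) :
    res M h (f • s) = resO h f • res M h s := Scheme.Modules.map_smul M (homOfLE h) f s

@[simp] lemma resO_add {U V : X.Opens} (h : V ≤ U) (s t : Γ(X, U)) :
    resO h (s + t) = resO h s + resO h t := map_add _ _ _

@[simp] lemma resO_mul {U V : X.Opens} (h : V ≤ U) (s t : Γ(X, U)) :
    resO h (s * t) = resO h s * resO h t := map_mul _ _ _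

@[simp] lemma resO_zero {U V : X.Opens} (h : V ≤ U) :
    resO h (0 : Γ(X, U)) = 0 := map_zero _

@[simp] lemma resO_one {U V : X.Opens} (h : V ≤ U) :
    resO h (1 : Γ(X, U)) = 1 := map_one _

@[simp] lemma resO_neg {U V : X.Opens} (h : V ≤ U) (s : Γ(X, U)) :
    resO h (-s) = - resO h s := map_neg _ _

@[simp] lemma resO_sub {U V : X.Opens} (h : V ≤ U) (s t : Γ(X, U)) :
    resO h (s - t) = resO h s - resO h t := map_sub _ _ _

@[simp] lemma resO_pow {U V : X.Opens} (h : V ≤ U) (s : Γ(X, U)) (n : ℕ) :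
    resO h (s ^ n) = (resO h s) ^ n := map_pow _ _ _

/-- restriction of functions, as a ring hom -/
noncomputable def resOHom {U V : X.Opens} (h : V ≤ U) : Γ(X, U) →+* Γ(X, V) :=
  (X.presheaf.map (homOfLE h).op).hom

@[simp] lemma resOHom_apply {U V : X.Opens} (h : V ≤ U) (f : Γ(X, U)) :
    resOHom h f = resO h f := rfl

/-- restriction of sections, as an additive map -/
noncomputable def resHom {U V : X.Opens} (h : V ≤ U) : Γ(M, U) →+ Γ(M, V) :=
  (M.presheaf.map (homOfLE h).op).hom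

@[simp] lemma resHom_apply {U V : X.Opens} (h : V ≤ U) (s : Γ(M, U)) :
    resHom M h s = res M h s := rfl

variable {M N}

@[simp] lemma app_res (φ : M ⟶ N) {U V : X.Opens} (h : V ≤ U) (s : Γ(M, U)) :
    φ.app V (res M h s) = res N h (φ.app U s) := by
  have := φ.mapPresheaf.naturality (homOfLE h).op
  have := congr($this s)
  simp only [ConcreteCategory.comp_apply, Scheme.Modules.mapPresheaf_app] at this
  exact this

lemma app_smul' (φ : M ⟶ N) {U : X.Opens} (f : Γ(X, U)) (s : Γ(M, U)) :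
    φ.app U (f • s) = f • φ.app U s := Scheme.Modules.Hom.app_smul φ f s

/-- sections agreeing on a cover are equal -/
lemma sec_ext {U : X.Opens} {ι : Type*} (W : ι → X.Opens) (hW : ∀ i, W i ≤ U)
    (hc : U ≤ ⨆ i, W i) {s t : Γ(M, U)} (h : ∀ i, res M (hW i) s = res M (hW i) t) : s = t :=
  TopCat.Sheaf.eq_of_locally_eq' ⟨_, M.isSheaf⟩ W U (fun i ↦ homOfLE (hW i)) hc _ _ h

/-- functions agreeing on a cover are equal -/
lemma secO_ext {U : X.Opens} {ι : Type*} (W : ι → X.Opens) (hW : ∀ i, W i ≤ U)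
    (hc : U ≤ ⨆ i, W i) {s t : Γ(X, U)} (h : ∀ i, resO (hW i) s = resO (hW i) t) : s = t :=
  TopCat.Sheaf.eq_of_locally_eq' X.sheaf W U (fun i ↦ homOfLE (hW i)) hc _ _ h

/-- glueing sections -/
lemma sec_glue {U : X.Opens} {ι : Type*} (W : ι → X.Opens) (hW : ∀ i, W i ≤ U)
    (hc : U ≤ ⨆ i, W i) (s : ∀ i, Γ(M, W i))
    (h : ∀ i j (V : X.Opens) (hi : V ≤ W i) (hj : V ≤ W j), res M hi (s i) = res M hj (s j)) :
    ∃ x : Γ(M, U), ∀ i, res M (hW i) x = s i :=
  (TopCat.Sheaf.existsUnique_gluing' ⟨_, M.isSheaf⟩ W U (fun i ↦ homOfLE (hW i)) hc s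
    (fun i j ↦ h i j (W i ⊓ W j) inf_le_left inf_le_right)).exists

/-- glueing functions -/
lemma secO_glue {U : X.Opens} {ι : Type*} (W : ι → X.Opens) (hW : ∀ i, W i ≤ U)
    (hc : U ≤ ⨆ i, W i) (s : ∀ i, Γ(X, W i))
    (h : ∀ i j (V : X.Opens) (hi : V ≤ W i) (hj : V ≤ W j), resO hi (s i) = resO hj (s j)) :
    ∃ x : Γ(X, U), ∀ i, resO (hW i) x = s i :=
  (TopCat.Sheaf.existsUnique_gluing' X.sheaf W U (fun i ↦ homOfLE (hW i)) hc s
    (fun i j ↦ h i j (W i ⊓ W j) inf_le_left inf_le_right)).exists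

end Res

section Gen

variable {M N : X.Modules}

lemma IsGen.res {U V : X.Opens} {s : Γ(M, U)} (hs : IsGen M s) (h : V ≤ U) :
    IsGen M (res M h s) := fun W hW ↦ by
  have := hs W (hW.trans h)
  rwa [← res_res M h hW] at this

lemma IsGen.inj {U : X.Opens} {s : Γ(M, U)} (hs : IsGen M s) {a b : Γ(X, U)}
    (h : a • s = b • s) : a = b := by
  have := (hs U le_rfl).1 (a₁ := a) (a₂ := b)
  simp only [res_self] at this
  exact this h

lemma IsGen.surj {U : X.Opens} {s : Γ(M, U)} (hs : IsGen M s) (x : Γ(M, U)) :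
    ∃ a : Γ(X, U), x = a • s := by
  obtain ⟨a, ha⟩ := (hs U le_rfl).2 x
  simp only [res_self] at ha
  exact ⟨a, ha.symm⟩

lemma IsGen.surj' {U V : X.Opens} {s : Γ(M, U)} (hs : IsGen M s) (h : V ≤ U) (x : Γ(M, V)) :
    ∃ a : Γ(X, V), x = a • H25.res M h s := (hs.res h).surj x

/-- Being a generator is local. -/
lemma IsGen.of_cover {U : X.Opens} {s : Γ(M, U)} {ι : Type*} (W : ι → X.Opens)
    (hW : ∀ i, W i ≤ U) (hc : U ≤ ⨆ i, W i) (h : ∀ i, IsGen M (H25.res M (hW i) s)) :
    IsGen M s := by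
  intro V hV
  constructor
  · intro a b hab
    refine secO_ext (fun i ↦ V ⊓ W i) (fun i ↦ inf_le_left) ?_ ?_
    · rw [← inf_iSup_eq]; exact le_inf le_rfl (hV.trans hc)
    · intro i
      refine ((h i).res (inf_le_right : V ⊓ W i ≤ W i)).inj ?_
      have := congrArg (H25.res M (inf_le_left : V ⊓ W i ≤ V)) hab
      simp only [res_smul, res_res] at this ⊢
      exact this
  · intro x
    have h1 : ∀ i, ∃ a : Γ(X, V ⊓ W i), H25.res M (inf_le_left : V ⊓ W i ≤ V) x =
        a • H25.res M (inf_le_left.trans hV : V ⊓ W i ≤ U) s := fun i ↦ by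
      obtain ⟨a, ha⟩ := ((h i).res (inf_le_right : V ⊓ W i ≤ W i)).surj
        (H25.res M (inf_le_left : V ⊓ W i ≤ V) x)
      exact ⟨a, by rw [ha, res_res]⟩
    choose a ha using h1
    obtain ⟨b, hb⟩ := secO_glue (U := V) (fun i ↦ V ⊓ W i) (fun i ↦ inf_le_left)
      (by rw [← inf_iSup_eq]; exact le_inf le_rfl (hV.trans hc)) a (by
        intro i j Z hi hj
        refine ((h i).res (hi.trans inf_le_right)).inj ?_
        have e1 := congrArg (H25.res M hi) (ha i)
        have e2 := congrArg (H25.res M hj) (ha j)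
        simp only [res_smul, res_res] at e1 e2 ⊢
        rw [← e1, ← e2])
    refine ⟨b, ?_⟩
    refine sec_ext (fun i ↦ V ⊓ W i) (fun i ↦ inf_le_left)
      (by rw [← inf_iSup_eq]; exact le_inf le_rfl (hV.trans hc)) ?_
    intro i
    simp only [res_smul, res_res, hb, ha]

lemma IsGen.of_forall_mem {U : X.Opens} {s : Γ(M, U)}
    (h : ∀ x ∈ U, ∃ (V : X.Opens) (hV : V ≤ U), x ∈ V ∧ IsGen M (H25.res M hV s)) :
    IsGen M s := by
  choose V hV hx hg using h
  refine IsGen.of_cover (ι := U) (fun x ↦ V x.1 x.2) (fun x ↦ hV x.1 x.2) ?_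
    (fun x ↦ hg x.1 x.2)
  intro x hxU
  exact Opens.mem_iSup.mpr ⟨⟨x, hxU⟩, hx x hxU⟩

/-- Two generators differ by a unit. -/
lemma IsGen.exists_unit {U : X.Opens} {s s' : Γ(M, U)} (hs : IsGen M s) (hs' : IsGen M s') :
    ∃ g : (Γ(X, U))ˣ, s' = (g : Γ(X, U)) • s := by
  obtain ⟨a, ha⟩ := hs.surj s'
  obtain ⟨b, hb⟩ := hs'.surj s
  refine ⟨⟨a, b, ?_, ?_⟩, ha⟩
  · apply hs'.inj
    rw [mul_smul, one_smul, ← hb, ← ha]
  · apply hs.inj
    rw [mul_smul, one_smul, ← ha, ← hb]

lemma IsGen.unit_smul {U : X.Opens} {s : Γ(M, U)} (hs : IsGen M s) {g : Γ(X, U)}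
    (hg : IsUnit g) : IsGen M (g • s) := by
  intro V hV
  have hu : IsUnit (resO hV g) := hg.map (resOHom hV)
  have := (hs V hV).comp (f := fun f : Γ(X, V) => f * resO hV g)
    ⟨fun a b hab ↦ hu.mul_left_injective hab, fun x ↦ by
      obtain ⟨w, hw⟩ := hu
      exact ⟨x * ↑w⁻¹, by rw [← hw]; simp⟩⟩
  convert this using 1
  funext a
  simp [mul_smul]

/-- An iso maps generators to generators -/
lemma IsGen.map_iso {U : X.Opens} {s : Γ(M, U)} (hs : IsGen M s) (φ : M ⟶ N) [IsIso φ] :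
    IsGen N (φ.app U s) := by
  intro V hV
  have hb : Function.Bijective (φ.app V) := ConcreteCategory.bijective_of_isIso _
  have := hb.comp (hs V hV)
  convert this using 1
  funext a
  simp only [Function.comp_apply]
  rw [app_smul', app_res]

end Gen

end Fermat.Agent.H25
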