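import Mathlib
set_option autoImplicit false
universe u v
open Polynomial

namespace Fermat.Agent.H25

section
variable {A B : Type*} [CommRing A] [CommRing B] (i : A →+* B) (t : B) {n : ℕ} (b : Fin n → B)
  (hb : Function.Bijective (fun f : Fin n → Polynomial A => ∑ j, (f j).eval₂ i t * b j))

/-- the map `A[X]^n → B` as an additive equivalence -/
noncomputable def polyEquiv : (Fin n → Polynomial A) ≃+ B :=
  AddEquiv.ofBijective (AddMonoidHom.mk' (fun f : Fin n → Polynomial A => ∑ j, (f j).eval₂ i t * b j)
    (fun f g => by simp [eval₂_add, add_mul, Finset.sum_add_distrib])) hb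

lemma polyEquiv_apply (f : Fin n → Polynomial A) :
    polyEquiv i t b hb f = ∑ j, (f j).eval₂ i t * b j := rfl

lemma polyEquiv_smul (p : A[X]) (f : Fin n → Polynomial A) :
    polyEquiv i t b hb (p • f) = p.eval₂ i t * polyEquiv i t b hb f := by
  rw [polyEquiv_apply, polyEquiv_apply, Finset.mul_sum]
  refine Finset.sum_congr rfl fun j _ => ?_
  rw [Pi.smul_apply, smul_eq_mul, eval₂_mul, mul_assoc]

lemma polyEquiv_symm_mul (p : A[X]) (x : B) :
    (polyEquiv i t b hb).symm (p.eval₂ i t * x) = p • (polyEquiv i t b hb).symm x := by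
  apply (polyEquiv i t b hb).injective
  rw [AddEquiv.apply_symm_apply, polyEquiv_smul, AddEquiv.apply_symm_apply]

/-- coordinates -/
noncomputable def pcoord (j : Fin n) (x : B) : A[X] := (polyEquiv i t b hb).symm x j

lemma pcoord_add (j : Fin n) (x y : B) :
    pcoord i t b hb j (x + y) = pcoord i t b hb j x + pcoord i t b hb j y := by
  simp [pcoord]

lemma pcoord_mul (j : Fin n) (p : A[X]) (x : B) :
    pcoord i t b hb j (p.eval₂ i t * x) = p * pcoord i t b hb j x := by
  rw [pcoord, polyEquiv_symm_mul]; rfl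

lemma sum_pcoord (x : B) : ∑ j, (pcoord i t b hb j x).eval₂ i t * b j = x :=
  (polyEquiv i t b hb).apply_symm_apply x

include hb in
lemma eq_zero_of_pow_mul (m : ℕ) (x : B) (h : t ^ m * x = 0) : x = 0 := by
  have h1 : (polyEquiv i t b hb).symm (t ^ m * x) = (X : A[X]) ^ m • (polyEquiv i t b hb).symm x := by
    rw [← polyEquiv_symm_mul]; simp
  rw [h, map_zero] at h1
  have h2 : (polyEquiv i t b hb).symm x = 0 := by
    funext j
    have h3 := congrFun h1 j
    rw [Pi.zero_apply, Pi.smul_apply, smul_eq_mul, mul_comm] at h3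
    exact (Polynomial.isRegular_X_pow m).right.eq_iff.mp (by rw [h3.symm]; simp)
  simpa using congrArg (polyEquiv i t b hb) h2

variable {E : Type*} [AddCommGroup E] [Module B E] [Module.Finite B E] [Module.Projective B E]

include hb in
/-- dual basis of a finite projective module over a ring which is finite free over `A[X]` -/
theorem exists_polyDual : ∃ (r : ℕ) (e : Fin r → E) (φ : Fin r → (E →+ A[X])),
    (∀ j (p : A[X]) x, φ j (p.eval₂ i t • x) = p * φ j x) ∧
      ∀ x, x = ∑ j, (φ j x).eval₂ i t • e j := by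
  obtain ⟨m, g, hg⟩ := Module.Finite.exists_fin' B E
  obtain ⟨s, hs⟩ := Module.projective_lifting_property g LinearMap.id hg
  let e0 : Fin m → E := fun l => g (Pi.single l 1)
  have h0 : ∀ x, x = ∑ l, s x l • e0 l := by
    intro x
    have h1 : g (s x) = x := congrArg (fun f => f x) hs
    conv_lhs => rw [← h1]
    have h2 : s x = ∑ l, s x l • (Pi.single l 1 : Fin m → B) := by
      funext l'
      simp [Finset.sum_apply, Pi.single_apply]
    conv_lhs => rw [h2]
    rw [map_sum]
    refine Finset.sum_congr rfl fun l _ => ?_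
    rw [map_smul]
  let E' := (finProdFinEquiv : Fin m × Fin n ≃ Fin (m * n))
  refine ⟨m * n, fun j => b (E'.symm j).2 • e0 (E'.symm j).1, fun j =>
    AddMonoidHom.mk' (fun x => pcoord i t b hb (E'.symm j).2 (s x (E'.symm j).1)) ?_, ?_, ?_⟩
  · intro x y
    rw [map_add, Pi.add_apply, pcoord_add]
  · intro j p x
    change pcoord i t b hb _ (s (p.eval₂ i t • x) _) = _
    rw [map_smul, Pi.smul_apply, smul_eq_mul, pcoord_mul]; rfl
  · intro x
    conv_lhs => rw [h0 x]
    rw [← E'.sum_comp, Fintype.sum_prod_type]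
    refine Finset.sum_congr rfl fun l _ => ?_
    conv_lhs => rw [← sum_pcoord i t b hb (s x l)]
    rw [Finset.sum_smul]
    refine Finset.sum_congr rfl fun j _ => ?_
    simp only [Equiv.symm_apply_apply, AddMonoidHom.mk'_apply]
    rw [mul_smul]

end

end Fermat.Agent.H25
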