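import Fermat.Agent.H51Pb
import Fermat.Agent.H10_P1LatOpen
import Fermat.Agent.H25Poly
/-!
# S25: the lattice of a line bundle on a two-chart curve
-/
set_option autoImplicit false
universe u v
open CategoryTheory AlgebraicGeometry CategoryTheory.Limits TopologicalSpace Opposite Polynomial

noncomputable section

namespace Fermat.Agent.H25

/-- sections of `L` over `W`, as a module over the base ring -/
def Sec {A : Type u} [CommRing A] {Y : Scheme.{u}} (_y : Y ⟶ Spec (CommRingCat.of A))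
    (L : Y.Modules) (W : Y.Opens) : Type u := Γ(L, W)

variable {A : Type u} [CommRing A] {Y : Scheme.{u}} (y : Y ⟶ Spec (CommRingCat.of A))

variable {y} in
/-- a section as an element of `Sec` -/
def toSec {L : Y.Modules} {W : Y.Opens} (x : Γ(L, W)) : Sec y L W := x

variable {y} in
/-- an element of `Sec` as a section -/
def Sec.s {L : Y.Modules} {W : Y.Opens} (x : Sec y L W) : Γ(L, W) := x

instance (L : Y.Modules) (W : Y.Opens) : AddCommGroup (Sec y L W) :=
  inferInstanceAs (AddCommGroup Γ(L, W))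

instance (L : Y.Modules) (W : Y.Opens) : Module A (Sec y L W) :=
  Module.compHom Γ(L, W) (strHom y W)

section basics
variable {y} {L : Y.Modules} {W : Y.Opens}
@[simp] lemma Sec.s_toSec (x : Γ(L, W)) : (toSec (y := y) x).s = x := rfl
@[simp] lemma toSec_s (x : Sec y L W) : toSec x.s = x := rfl
@[simp] lemma Sec.s_add (x x' : Sec y L W) : (x + x').s = x.s + x'.s := rfl
@[simp] lemma Sec.s_zero : (0 : Sec y L W).s = 0 := rfl
@[simp] lemma Sec.s_sub (x x' : Sec y L W) : (x - x').s = x.s - x'.s := rfl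
lemma Sec.s_smul (a : A) (x : Sec y L W) : (a • x).s = strHom y W a • x.s := rfl
lemma Sec.ext {x x' : Sec y L W} (h : x.s = x'.s) : x = x' := h
lemma toSec_add (x x' : Γ(L, W)) : toSec (y := y) (x + x') = toSec x + toSec x' := rfl
lemma toSec_smul (a : A) (x : Γ(L, W)) : toSec (y := y) (strHom y W a • x) = a • toSec x := rfl

/-- restriction as a linear map -/
def Sec.resL (y : Y ⟶ Spec (CommRingCat.of A)) (L : Y.Modules) {U V : Y.Opens} (h : V ≤ U) :
    Sec y L U →ₗ[A] Sec y L V where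
  toFun x := toSec (res L h x.s)
  map_add' x x' := by simp only [Sec.s_add, res_add]; rfl
  map_smul' a x := by
    simp only [RingHom.id_apply, Sec.s_smul, res_smul]
    rw [H51Pb.resO_strHom]; rfl

@[simp] lemma Sec.resL_s {U V : Y.Opens} (h : V ≤ U) (x : Sec y L U) :
    (Sec.resL y L h x).s = res L h x.s := rfl

/-- multiplication by a function, as a linear map -/
def Sec.mulL (y : Y ⟶ Spec (CommRingCat.of A)) (L : Y.Modules) {U : Y.Opens} (f : Γ(Y, U)) :
    Sec y L U →ₗ[A] Sec y L U where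
  toFun x := toSec (f • x.s)
  map_add' x x' := by simp only [Sec.s_add, smul_add]; rfl
  map_smul' a x := by
    simp only [RingHom.id_apply, Sec.s_smul]
    rw [smul_comm]; rfl

@[simp] lemma Sec.mulL_s {U : Y.Opens} (f : Γ(Y, U)) (x : Sec y L U) :
    (Sec.mulL y L f x).s = f • x.s := rfl

end basics

section Lat

variable {y} (τ : TwoChart y) (L : Y.Modules)

/-- `t` restricted to `U ∩ V` -/
abbrev TwoChart.tr : Γ(Y, τ.U ⊓ τ.V) := resO inf_le_left τ.t
/-- `s` restricted to `U ∩ V` -/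
abbrev TwoChart.sr : Γ(Y, τ.U ⊓ τ.V) := resO inf_le_right τ.s

lemma TwoChart.tr_mul_sr : τ.tr * τ.sr = 1 := τ.mul_eq_one
lemma TwoChart.sr_mul_tr : τ.sr * τ.tr = 1 := by rw [mul_comm]; exact τ.mul_eq_one

/-- multiplication by the coordinate -/
def mulT : Sec y L (τ.U ⊓ τ.V) ≃ₗ[A] Sec y L (τ.U ⊓ τ.V) :=
  LinearEquiv.ofLinearMap (Sec.mulL y L τ.tr) (Sec.mulL y L τ.sr)
    (by
      ext x
      apply Sec.ext
      simp only [LinearMap.comp_apply, Sec.mulL_s, LinearMap.id_apply]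
      rw [← mul_smul, τ.tr_mul_sr, one_smul])
    (by
      ext x
      apply Sec.ext
      simp only [LinearMap.comp_apply, Sec.mulL_s, LinearMap.id_apply]
      rw [← mul_smul, τ.sr_mul_tr, one_smul])

lemma mulT_s (x : Sec y L (τ.U ⊓ τ.V)) : (mulT τ L x).s = τ.tr • x.s := rfl
lemma mulT_symm_s (x : Sec y L (τ.U ⊓ τ.V)) : ((mulT τ L).symm x).s = τ.sr • x.s := rfl

lemma mulT_pow_s (n : ℕ) (x : Sec y L (τ.U ⊓ τ.V)) :
    (((mulT τ L) ^ n) x).s = τ.tr ^ n • x.s := by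
  induction n with
  | zero => simp
  | succ n ih =>
    have : ((mulT τ L) ^ (n + 1)) x = mulT τ L (((mulT τ L) ^ n) x) := by
      rw [pow_succ']; rfl
    rw [this, mulT_s, ih, ← mul_smul, pow_succ']

lemma mulT_symm_pow_s (n : ℕ) (x : Sec y L (τ.U ⊓ τ.V)) :
    (((mulT τ L).symm ^ n) x).s = τ.sr ^ n • x.s := by
  induction n with
  | zero => simp
  | succ n ih =>
    have : ((mulT τ L).symm ^ (n + 1)) x = (mulT τ L).symm (((mulT τ L).symm ^ n) x) := by
      rw [pow_succ']; rfl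
    rw [this, mulT_symm_s, ih, ← mul_smul, pow_succ']

/-- the lattice of a line bundle -/
def latOf (hL : Scheme.Modules.IsInvertible L) : P1Lat A (Sec y L (τ.U ⊓ τ.V)) where
  τ := mulT τ L
  P := LinearMap.range (Sec.resL y L (inf_le_left : τ.U ⊓ τ.V ≤ τ.U))
  Q := LinearMap.range (Sec.resL y L (inf_le_right : τ.U ⊓ τ.V ≤ τ.V))
  τ_mem := by
    rintro _ ⟨x, rfl⟩
    refine ⟨Sec.mulL y L τ.t x, ?_⟩
    apply Sec.ext
    rw [mulT_s, Sec.resL_s, Sec.resL_s, Sec.mulL_s, res_smul]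
  τ_symm_mem := by
    rintro _ ⟨x, rfl⟩
    refine ⟨Sec.mulL y L τ.s x, ?_⟩
    apply Sec.ext
    rw [mulT_symm_s, Sec.resL_s, Sec.resL_s, Sec.mulL_s, res_smul]
  exhaustP x := by
    obtain ⟨n, z, hz⟩ := H51Aff.res_surj τ.affU hL τ.t τ.basic_t.symm inf_le_left x.s
    refine ⟨n, toSec z, ?_⟩
    apply Sec.ext
    rw [mulT_pow_s, Sec.resL_s, Sec.s_toSec]
    exact hz
  exhaustQ x := by
    obtain ⟨n, z, hz⟩ := H51Aff.res_surj τ.affV hL τ.s τ.basic_s.symm inf_le_right x.s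
    refine ⟨n, toSec z, ?_⟩
    apply Sec.ext
    rw [mulT_symm_pow_s, Sec.resL_s, Sec.s_toSec]
    exact hz

variable {L} (hL : Scheme.Modules.IsInvertible L)

lemma mem_latOf_P {x : Sec y L (τ.U ⊓ τ.V)} :
    x ∈ (latOf τ L hL).P ↔ ∃ z : Γ(L, τ.U), res L inf_le_left z = x.s := Iff.rfl

lemma mem_latOf_Q {x : Sec y L (τ.U ⊓ τ.V)} :
    x ∈ (latOf τ L hL).Q ↔ ∃ z : Γ(L, τ.V), res L inf_le_right z = x.s := Iff.rfl

lemma latOf_τ (x : Sec y L (τ.U ⊓ τ.V)) : ((latOf τ L hL).τ x).s = τ.tr • x.s := rfl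
lemma latOf_τ_symm (x : Sec y L (τ.U ⊓ τ.V)) : ((latOf τ L hL).τ.symm x).s = τ.sr • x.s := rfl


/-! ### injectivity of restriction -/

lemma eq_zero_of_pow_smul_U (hL : Scheme.Modules.IsInvertible L) (m : ℕ) (x : Γ(L, τ.U))
    (h : τ.t ^ m • x = 0) : x = 0 := by
  have : Module.Invertible Γ(Y, τ.U) Γ(L, τ.U) := H51Aff.invertible τ.affU hL
  obtain ⟨r, e, φ, h1, h2⟩ := exists_polyDual (strHom y τ.U) τ.t τ.bU τ.basisU (E := Γ(L, τ.U))
  rw [h2 x]
  refine Finset.sum_eq_zero fun j _ => ?_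
  have h3 := h1 j (X ^ m) x
  rw [eval₂_pow, eval₂_X, h, map_zero] at h3
  have h4 : φ j x = 0 := (Polynomial.isRegular_X_pow m).left.eq_iff.mp (by rw [← h3]; simp)
  rw [h4, eval₂_zero, zero_smul]

lemma eq_zero_of_pow_smul_V (hL : Scheme.Modules.IsInvertible L) (m : ℕ) (x : Γ(L, τ.V))
    (h : τ.s ^ m • x = 0) : x = 0 := by
  have : Module.Invertible Γ(Y, τ.V) Γ(L, τ.V) := H51Aff.invertible τ.affV hL
  obtain ⟨r, e, φ, h1, h2⟩ := exists_polyDual (strHom y τ.V) τ.s τ.bV τ.basisV (E := Γ(L, τ.V))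
  rw [h2 x]
  refine Finset.sum_eq_zero fun j _ => ?_
  have h3 := h1 j (X ^ m) x
  rw [eval₂_pow, eval₂_X, h, map_zero] at h3
  have h4 : φ j x = 0 := (Polynomial.isRegular_X_pow m).left.eq_iff.mp (by rw [← h3]; simp)
  rw [h4, eval₂_zero, zero_smul]

lemma resU_injective (hL : Scheme.Modules.IsInvertible L) :
    Function.Injective (res L (inf_le_left : τ.U ⊓ τ.V ≤ τ.U)) := by
  intro x x' h
  rw [← sub_eq_zero] at h ⊢
  rw [← res_sub] at h
  obtain ⟨n, hn⟩ := H51Aff.res_inj τ.affU hL τ.t τ.basic_t.symm inf_le_left _ h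
  exact eq_zero_of_pow_smul_U τ hL n _ hn

lemma resV_injective (hL : Scheme.Modules.IsInvertible L) :
    Function.Injective (res L (inf_le_right : τ.U ⊓ τ.V ≤ τ.V)) := by
  intro x x' h
  rw [← sub_eq_zero] at h ⊢
  rw [← res_sub] at h
  obtain ⟨n, hn⟩ := H51Aff.res_inj τ.affV hL τ.s τ.basic_s.symm inf_le_right _ h
  exact eq_zero_of_pow_smul_V τ hL n _ hn

/-- `Γ(L, U) ≃ P` -/
def equivP : Sec y L τ.U ≃ₗ[A] (latOf τ L hL).P :=
  LinearEquiv.ofInjective (Sec.resL y L inf_le_left) (resU_injective τ hL)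

/-- `Γ(L, V) ≃ Q` -/
def equivQ : Sec y L τ.V ≃ₗ[A] (latOf τ L hL).Q :=
  LinearEquiv.ofInjective (Sec.resL y L inf_le_right) (resV_injective τ hL)

lemma equivP_s (x : Sec y L τ.U) : ((equivP τ hL x : Sec y L (τ.U ⊓ τ.V))).s = res L inf_le_left x.s :=
  rfl

lemma equivQ_s (x : Sec y L τ.V) :
    ((equivQ τ hL x : Sec y L (τ.U ⊓ τ.V))).s = res L inf_le_right x.s := rfl

lemma aeval_mulT_s (p : A[X]) (x : Sec y L (τ.U ⊓ τ.V)) :
    (aeval (mulT τ L : Sec y L (τ.U ⊓ τ.V) →ₗ[A] Sec y L (τ.U ⊓ τ.V)) p x).s =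
      p.eval₂ (strHom y _) τ.tr • x.s := by
  induction p using Polynomial.induction_on' with
  | add p q hp hq =>
    rw [map_add, LinearMap.add_apply, Sec.s_add, hp, hq, eval₂_add, add_smul]
  | monomial n a =>
    rw [aeval_monomial, Module.End.mul_apply, eval₂_monomial, mul_smul]
    have h1 : ((mulT τ L : Sec y L (τ.U ⊓ τ.V) →ₗ[A] Sec y L (τ.U ⊓ τ.V)) ^ n) x =
        ((mulT τ L) ^ n) x := by
      induction n generalizing x with
      | zero => rfl
      | succ n ih =>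
        rw [pow_succ, pow_succ, Module.End.mul_apply, ih]; rfl
    rw [h1]
    change strHom y (τ.U ⊓ τ.V) a • (((mulT τ L) ^ n) x).s = _
    rw [mulT_pow_s]

lemma aeval_mulT_symm_s (p : A[X]) (x : Sec y L (τ.U ⊓ τ.V)) :
    (aeval ((mulT τ L).symm : Sec y L (τ.U ⊓ τ.V) →ₗ[A] Sec y L (τ.U ⊓ τ.V)) p x).s =
      p.eval₂ (strHom y _) τ.sr • x.s := by
  induction p using Polynomial.induction_on' with
  | add p q hp hq =>
    rw [map_add, LinearMap.add_apply, Sec.s_add, hp, hq, eval₂_add, add_smul]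
  | monomial n a =>
    rw [aeval_monomial, Module.End.mul_apply, eval₂_monomial, mul_smul]
    have h1 : (((mulT τ L).symm : Sec y L (τ.U ⊓ τ.V) →ₗ[A] Sec y L (τ.U ⊓ τ.V)) ^ n) x =
        ((mulT τ L).symm ^ n) x := by
      induction n generalizing x with
      | zero => rfl
      | succ n ih =>
        rw [pow_succ, pow_succ, Module.End.mul_apply, ih]; rfl
    rw [h1]
    change strHom y (τ.U ⊓ τ.V) a • (((mulT τ L).symm ^ n) x).s = _
    rw [mulT_symm_pow_s]

lemma resO_eval₂_t (p : A[X]) : resO (inf_le_left : τ.U ⊓ τ.V ≤ τ.U) (p.eval₂ (strHom y _) τ.t) =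
    p.eval₂ (strHom y _) τ.tr := by
  rw [← resOHom_apply, Polynomial.hom_eval₂]
  congr 1
  ext a
  simp only [RingHom.comp_apply, resOHom_apply]
  rw [H51Pb.resO_strHom]

lemma resO_eval₂_s (p : A[X]) : resO (inf_le_right : τ.U ⊓ τ.V ≤ τ.V) (p.eval₂ (strHom y _) τ.s) =
    p.eval₂ (strHom y _) τ.sr := by
  rw [← resOHom_apply, Polynomial.hom_eval₂]
  congr 1
  ext a
  simp only [RingHom.comp_apply, resOHom_apply]
  rw [H51Pb.resO_strHom]

theorem finProjP : (latOf τ L hL).FinProjP := by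
  have : Module.Invertible Γ(Y, τ.U) Γ(L, τ.U) := H51Aff.invertible τ.affU hL
  obtain ⟨r, e, φ, h1, h2⟩ := exists_polyDual (strHom y τ.U) τ.t τ.bU τ.basisU (E := Γ(L, τ.U))
  refine ⟨r, fun j => equivP τ hL (toSec (e j)), fun j =>
    { toFun := fun x => φ j ((equivP τ hL).symm x).s
      map_add' := fun x x' => by rw [map_add, Sec.s_add, map_add]
      map_smul' := fun a x => ?_ }, ?_, ?_⟩
  · rw [map_smul, Sec.s_smul, RingHom.id_apply, Polynomial.smul_eq_C_mul]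
    have := h1 j (C a) ((equivP τ hL).symm x).s
    rwa [eval₂_C] at this
  · intro j x
    change φ j ((equivP τ hL).symm _).s = X * φ j ((equivP τ hL).symm x).s
    rw [← h1, eval₂_X]
    congr 1
    have h3 : (equivP τ hL).symm ⟨(latOf τ L hL).τ x, (latOf τ L hL).τ_mem x x.2⟩ =
        toSec (τ.t • ((equivP τ hL).symm x).s) := by
      apply (equivP τ hL).injective
      rw [LinearEquiv.apply_symm_apply]
      apply Subtype.ext
      apply Sec.ext
      rw [equivP_s, latOf_τ, Sec.s_toSec, res_smul, ← equivP_s, LinearEquiv.apply_symm_apply]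
    rw [h3, Sec.s_toSec]
  · intro x
    apply Sec.ext
    conv_lhs => rw [← LinearEquiv.apply_symm_apply (equivP τ hL) x]
    rw [equivP_s, h2 ((equivP τ hL).symm x).s]
    have h4 : ∀ (F : Fin r → Sec y L (τ.U ⊓ τ.V)), (∑ j, F j).s = ∑ j, (F j).s := fun F => rfl
    rw [h4]
    have h5 : ∀ (F : Fin r → Γ(L, τ.U)), res L (inf_le_left : τ.U ⊓ τ.V ≤ τ.U) (∑ j, F j) =
      ∑ j, res L inf_le_left (F j) := fun F => map_sum (resHom L _) _ _
    rw [h5]
    refine Finset.sum_congr rfl fun j _ => ?_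
    rw [res_smul, resO_eval₂_t]
    exact (aeval_mulT_s τ _ _).symm

theorem finProjQ : (latOf τ L hL).FinProjQ := by
  have : Module.Invertible Γ(Y, τ.V) Γ(L, τ.V) := H51Aff.invertible τ.affV hL
  obtain ⟨r, e, φ, h1, h2⟩ := exists_polyDual (strHom y τ.V) τ.s τ.bV τ.basisV (E := Γ(L, τ.V))
  refine ⟨r, fun j => equivQ τ hL (toSec (e j)), fun j =>
    { toFun := fun x => φ j ((equivQ τ hL).symm x).s
      map_add' := fun x x' => by rw [map_add, Sec.s_add, map_add]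
      map_smul' := fun a x => ?_ }, ?_, ?_⟩
  · rw [map_smul, Sec.s_smul, RingHom.id_apply, Polynomial.smul_eq_C_mul]
    have := h1 j (C a) ((equivQ τ hL).symm x).s
    rwa [eval₂_C] at this
  · intro j x
    change φ j ((equivQ τ hL).symm _).s = X * φ j ((equivQ τ hL).symm x).s
    rw [← h1, eval₂_X]
    congr 1
    have h3 : (equivQ τ hL).symm ⟨(latOf τ L hL).τ.symm x, (latOf τ L hL).τ_symm_mem x x.2⟩ =
        toSec (τ.s • ((equivQ τ hL).symm x).s) := by
      apply (equivQ τ hL).injective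
      rw [LinearEquiv.apply_symm_apply]
      apply Subtype.ext
      apply Sec.ext
      rw [equivQ_s, latOf_τ_symm, Sec.s_toSec, res_smul, ← equivQ_s, LinearEquiv.apply_symm_apply]
    rw [h3, Sec.s_toSec]
  · intro x
    apply Sec.ext
    conv_lhs => rw [← LinearEquiv.apply_symm_apply (equivQ τ hL) x]
    rw [equivQ_s, h2 ((equivQ τ hL).symm x).s]
    have h4 : ∀ (F : Fin r → Sec y L (τ.U ⊓ τ.V)), (∑ j, F j).s = ∑ j, (F j).s := fun F => rfl
    rw [h4]
    have h5 : ∀ (F : Fin r → Γ(L, τ.V)), res L (inf_le_right : τ.U ⊓ τ.V ≤ τ.V) (∑ j, F j) =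
      ∑ j, res L inf_le_right (F j) := fun F => map_sum (resHom L _) _ _
    rw [h5]
    refine Finset.sum_congr rfl fun j _ => ?_
    rw [res_smul, resO_eval₂_s]
    exact (aeval_mulT_symm_s τ _ _).symm

end Lat



/-! ### base change -/

section BC

variable {y} {A' : Type u} [CommRing A'] {Y' : Scheme.{u}} {y' : Y' ⟶ Spec (CommRingCat.of A')}
  {g : Y' ⟶ Y} {f : Spec (CommRingCat.of A') ⟶ Spec (CommRingCat.of A)}

lemma isAffineOpen_inter (τ : TwoChart y) : IsAffineOpen (τ.U ⊓ τ.V) := by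
  rw [← τ.basic_t]
  exact τ.affU.basicOpen _


/-- base change of sections over an affine open, strict form -/
lemma exists_bc0 (H : IsPullback g y' y f) {W : Y.Opens} (hW : IsAffineOpen W)
    {L : Y.Modules} (hL : Scheme.Modules.IsInvertible L)
    [Algebra A A'] (hA : algebraMap A A' = (Spec.preimage f).hom)
    [Module A (Sec y' ((Scheme.Modules.pullback g).obj L) (g ⁻¹ᵁ W))]
    [IsScalarTower A A' (Sec y' ((Scheme.Modules.pullback g).obj L) (g ⁻¹ᵁ W))] :
    ∃ β : Sec y L W →ₗ[A] Sec y' ((Scheme.Modules.pullback g).obj L) (g ⁻¹ᵁ W),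
      (∀ x, (β x).s = pb g L x.s) ∧ IsBaseChange A' β := by
  have hsA : ∀ (a : A) (z : Sec y' ((Scheme.Modules.pullback g).obj L) (g ⁻¹ᵁ W)),
      a • z = (algebraMap A A' a) • z := fun a z => (algebraMap_smul A' a z).symm
  let β : Sec y L W →ₗ[A] Sec y' ((Scheme.Modules.pullback g).obj L) (g ⁻¹ᵁ W) :=
    { toFun := fun x => toSec (pb g L x.s)
      map_add' := fun x x' => by rw [Sec.s_add, pb_add]; rfl
      map_smul' := fun a x => by
        rw [Sec.s_smul, pb_smul, H51Pb.app_strHom H.w, RingHom.id_apply, hsA, hA]; rfl }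
  refine ⟨β, fun x => rfl, ?_⟩
  have key := @H51Pb.isBaseChange_pb_base A A' _ _ Y Y' y y' g f H L hL W hW _ hA
    (inferInstanceAs (Module A (Sec y L W))) (fun r m => rfl)
    (inferInstanceAs (Module A' (Sec y' ((Scheme.Modules.pullback g).obj L) (g ⁻¹ᵁ W))))
    (fun a m => rfl)
    (inferInstanceAs (Module A (Sec y' ((Scheme.Modules.pullback g).obj L) (g ⁻¹ᵁ W))))
    (inferInstanceAs (IsScalarTower A A' (Sec y' ((Scheme.Modules.pullback g).obj L) (g ⁻¹ᵁ W))))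
    β (fun m => rfl)
  exact key

/-- semilinear map: pull back, restrict, apply an isomorphism. -/
def pbL (g : Y' ⟶ Y) {L : Y.Modules} {L' : Y'.Modules} (e : (Scheme.Modules.pullback g).obj L ≅ L')
    {W : Y.Opens} {W' : Y'.Opens} (h : W' ≤ g ⁻¹ᵁ W) (x : Γ(L, W)) : Γ(L', W') :=
  e.hom.app W' (res _ h (pb g L x))

lemma pbL_res (g : Y' ⟶ Y) {L : Y.Modules} {L' : Y'.Modules}
    (e : (Scheme.Modules.pullback g).obj L ≅ L') {W V : Y.Opens} {W' V' : Y'.Opens}
    (h : W' ≤ g ⁻¹ᵁ W) (hV : V ≤ W) (hV' : V' ≤ W') (h' : V' ≤ g ⁻¹ᵁ V) (x : Γ(L, W)) :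
    pbL g e h' (res L hV x) = res L' hV' (pbL g e h x) := by
  rw [pbL, pbL, pb_res, res_res, ← app_res, res_res]

lemma pbL_smul (g : Y' ⟶ Y) {L : Y.Modules} {L' : Y'.Modules}
    (e : (Scheme.Modules.pullback g).obj L ≅ L') {W : Y.Opens} {W' : Y'.Opens}
    (h : W' ≤ g ⁻¹ᵁ W) (a : Γ(Y, W)) (x : Γ(L, W)) :
    pbL g e h (a • x) = resO h (g.app W a) • pbL g e h x := by
  rw [pbL, pbL, pb_smul, res_smul, app_smul']

lemma pbL_add (g : Y' ⟶ Y) {L : Y.Modules} {L' : Y'.Modules}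
    (e : (Scheme.Modules.pullback g).obj L ≅ L') {W : Y.Opens} {W' : Y'.Opens}
    (h : W' ≤ g ⁻¹ᵁ W) (x x' : Γ(L, W)) :
    pbL g e h (x + x') = pbL g e h x + pbL g e h x' := by
  rw [pbL, pb_add, res_add, map_add]; rfl

/-- base change of sections over an affine open -/
lemma exists_bc (H : IsPullback g y' y f) {W : Y.Opens} (hW : IsAffineOpen W) {W' : Y'.Opens}
    (hW' : W' = g ⁻¹ᵁ W)
    {L : Y.Modules} (hL : Scheme.Modules.IsInvertible L) {L' : Y'.Modules}
    (e : (Scheme.Modules.pullback g).obj L ≅ L')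
    [Algebra A A'] (hA : algebraMap A A' = (Spec.preimage f).hom)
    [Module A (Sec y' L' W')] [IsScalarTower A A' (Sec y' L' W')] :
    ∃ β : Sec y L W →ₗ[A] Sec y' L' W',
      (∀ x, (β x).s = pbL g e hW'.le x.s) ∧ IsBaseChange A' β := by
  let _ : Module A (Sec y' ((Scheme.Modules.pullback g).obj L) (g ⁻¹ᵁ W)) :=
    Module.compHom _ (algebraMap A A')
  have : IsScalarTower A A' (Sec y' ((Scheme.Modules.pullback g).obj L) (g ⁻¹ᵁ W)) :=
    ⟨fun a b z => by rw [Algebra.smul_def, mul_smul]; rfl⟩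
  obtain ⟨β0, h0, hbc⟩ := exists_bc0 (y' := y') H hW hL hA
  subst hW'
  let r : Sec y' ((Scheme.Modules.pullback g).obj L) (g ⁻¹ᵁ W) ≃ₗ[A'] Sec y' L' (g ⁻¹ᵁ W) :=
    { toFun := fun x => toSec (e.hom.app _ x.s)
      map_add' := fun x x' => by rw [Sec.s_add, map_add]; rfl
      map_smul' := fun a x => by rw [Sec.s_smul, app_smul']; rfl
      invFun := fun x => toSec (e.inv.app _ x.s)
      left_inv := fun x => by
        apply Sec.ext
        rw [Sec.s_toSec, Sec.s_toSec, ← ConcreteCategory.comp_apply,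
          ← Scheme.Modules.Hom.comp_app, Iso.hom_inv_id]; rfl
      right_inv := fun x => by
        apply Sec.ext
        rw [Sec.s_toSec, Sec.s_toSec, ← ConcreteCategory.comp_apply,
          ← Scheme.Modules.Hom.comp_app, Iso.inv_hom_id]; rfl }
  refine ⟨(r.toLinearMap.restrictScalars A) ∘ₗ β0, fun x => ?_, ?_⟩
  · change e.hom.app _ (β0 x).s = _
    rw [h0, pbL, res_self]
  · exact IsBaseChange.of_equiv (hbc.equiv ≪≫ₗ r) (fun x => by
      rw [LinearEquiv.trans_apply, IsBaseChange.equiv_tmul, one_smul]; rfl)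

/-- **base change of the lattice of a line bundle** -/
theorem exists_isBC (H : IsPullback g y' y f) (τ : TwoChart y) (τ' : TwoChart y')
    (hU : τ'.U = g ⁻¹ᵁ τ.U) (hV : τ'.V = g ⁻¹ᵁ τ.V) (ht : τ'.t = resO hU.le (g.app _ τ.t))
    {L : Y.Modules} (hL : Scheme.Modules.IsInvertible L) {L' : Y'.Modules}
    (hL' : Scheme.Modules.IsInvertible L')
    (e : (Scheme.Modules.pullback g).obj L ≅ L')
    [Algebra A A'] (hA : algebraMap A A' = (Spec.preimage f).hom)
    [Module A (Sec y' L' (τ'.U ⊓ τ'.V))] [IsScalarTower A A' (Sec y' L' (τ'.U ⊓ τ'.V))] :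
    ∃ β : Sec y L (τ.U ⊓ τ.V) →ₗ[A] Sec y' L' (τ'.U ⊓ τ'.V),
      (∀ x, (β x).s = pbL g e (inf_le_inf hU.le hV.le) x.s) ∧
      (latOf τ L hL).IsBC (latOf τ' L' hL') β := by
  have hUV : τ'.U ⊓ τ'.V = g ⁻¹ᵁ (τ.U ⊓ τ.V) := by rw [hU, hV]; rfl
  obtain ⟨β, hβ, hbc⟩ := exists_bc (y' := y') H (isAffineOpen_inter τ) hUV hL e hA
  have hspan : ∀ {W : Y.Opens} {W' : Y'.Opens} (hW : IsAffineOpen W) (hW' : W' = g ⁻¹ᵁ W)
      (hle : τ.U ⊓ τ.V ≤ W) (hle' : τ'.U ⊓ τ'.V ≤ W'),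
      LinearMap.range (Sec.resL y' L' hle') =
        Submodule.span A' (β '' (LinearMap.range (Sec.resL y L hle) : Set (Sec y L (τ.U ⊓ τ.V)))) := by
    intro W W' hW hW' hle hle'
    let _ : Module A (Sec y' L' W') := Module.compHom _ (algebraMap A A')
    have : IsScalarTower A A' (Sec y' L' W') :=
      ⟨fun a b z => by rw [Algebra.smul_def, mul_smul]; rfl⟩
    obtain ⟨γ, hγ, hbc'⟩ := exists_bc (y' := y') H hW hW' hL e hA
    have h1 : Submodule.span A' (Set.range γ) = ⊤ := by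
      rw [eq_top_iff]
      rintro z -
      obtain ⟨w, rfl⟩ := hbc'.equiv.surjective z
      induction w using TensorProduct.induction_on with
      | zero => rw [map_zero]; exact Submodule.zero_mem _
      | add a b ha hb => rw [map_add]; exact Submodule.add_mem _ ha hb
      | tmul a x =>
        rw [IsBaseChange.equiv_tmul]
        exact Submodule.smul_mem _ _ (Submodule.subset_span ⟨x, rfl⟩)
    rw [LinearMap.range_eq_map, ← h1, Submodule.map_span, ← Set.range_comp]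
    congr 1
    ext z
    simp only [Set.mem_range, Set.mem_image, SetLike.mem_coe, LinearMap.mem_range,
      Function.comp_apply]
    constructor
    · rintro ⟨x, rfl⟩
      refine ⟨_, ⟨x, rfl⟩, ?_⟩
      apply Sec.ext
      rw [hβ, Sec.resL_s, Sec.resL_s, hγ]
      exact pbL_res g e _ _ _ _ _
    · rintro ⟨_, ⟨x, rfl⟩, rfl⟩
      refine ⟨x, ?_⟩
      apply Sec.ext
      rw [hβ, Sec.resL_s, Sec.resL_s, hγ]
      exact (pbL_res g e _ _ _ _ _).symm
  have ht' : resO (inf_le_inf hU.le hV.le : τ'.U ⊓ τ'.V ≤ g ⁻¹ᵁ (τ.U ⊓ τ.V))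
      (g.app (τ.U ⊓ τ.V) τ.tr) = τ'.tr := by
    have h1 : g.app (τ.U ⊓ τ.V) τ.tr = resO (g.preimage_mono inf_le_left) (g.app _ τ.t) :=
      app_resO g inf_le_left τ.t
    have h2 : τ'.tr = resO inf_le_left τ'.t := rfl
    rw [h1, h2, ht]
    exact (resO_resO _ _ _).trans (resO_resO _ _ _).symm
  refine ⟨β, hβ, ⟨?_, hbc, ?_, ?_, ?_, ?_⟩⟩
  · intro x
    apply Sec.ext
    rw [hβ, latOf_τ, latOf_τ, pbL_smul, hβ]
    congr 1
  · intro x hx
    have := (hspan τ.affU hU inf_le_left inf_le_left).ge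
    exact this (Submodule.subset_span ⟨x, hx, rfl⟩)
  · intro x hx
    have := (hspan τ.affV hV inf_le_right inf_le_right).ge
    exact this (Submodule.subset_span ⟨x, hx, rfl⟩)
  · exact hspan τ.affU hU inf_le_left inf_le_left
  · exact hspan τ.affV hV inf_le_right inf_le_right


/-- acyclicity is stable under base change -/
theorem isCompl_latOf_baseChange (H : IsPullback g y' y f) (τ : TwoChart y) (τ' : TwoChart y')
    (hU : τ'.U = g ⁻¹ᵁ τ.U) (hV : τ'.V = g ⁻¹ᵁ τ.V) (ht : τ'.t = resO hU.le (g.app _ τ.t))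
    {L : Y.Modules} (hL : Scheme.Modules.IsInvertible L) {L' : Y'.Modules}
    (hL' : Scheme.Modules.IsInvertible L')
    (e : (Scheme.Modules.pullback g).obj L ≅ L')
    (h : IsCompl (latOf τ L hL).P (latOf τ L hL).Q) :
    IsCompl (latOf τ' L' hL').P (latOf τ' L' hL').Q := by
  let _ : Algebra A A' := (Spec.preimage f).hom.toAlgebra
  let _ : Module A (Sec y' L' (τ'.U ⊓ τ'.V)) := Module.compHom _ (algebraMap A A')
  have : IsScalarTower A A' (Sec y' L' (τ'.U ⊓ τ'.V)) :=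
    ⟨fun a b z => by rw [Algebra.smul_def, mul_smul]; rfl⟩
  obtain ⟨β, -, hβ⟩ := exists_isBC H τ τ' hU hV ht hL hL' e rfl
  exact H10.Lat.IsBC_isCompl (finProjP τ hL) hβ h

end BC

/-! ### Euler characteristic -/

section Chi

variable {K : Type u} [Field K] {Z : Scheme.{u}} {z : Z ⟶ Spec (CommRingCat.of K)}

/-- the identity cartesian square -/
theorem idSq (z : Z ⟶ Spec (CommRingCat.of K)) : IsPullback (𝟙 Z) z z (𝟙 _) :=
  IsPullback.of_horiz_isIso ⟨by simp⟩

theorem idSq_t (τ : TwoChart z) : τ.t = resO (le_refl τ.U) ((𝟙 Z : Z ⟶ Z).app τ.U τ.t) :=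
  (resO_self (U := τ.U) le_rfl τ.t).symm

/-- the Euler characteristic `h⁰ - h¹` of a line bundle on a two-chart curve over a field -/
def chiL (τ : TwoChart z) (L : Z.Modules) (hL : Scheme.Modules.IsInvertible L) : ℤ :=
  (Module.finrank K ((latOf τ L hL).P ⊓ (latOf τ L hL).Q : Submodule K (Sec z L (τ.U ⊓ τ.V))) : ℤ) -
    Module.finrank K (Sec z L (τ.U ⊓ τ.V) ⧸ ((latOf τ L hL).P ⊔ (latOf τ L hL).Q))

/-- **local constancy of the Euler characteristic in families** -/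
theorem exists_chiL {y : Y ⟶ Spec (CommRingCat.of A)} (τ : TwoChart y)
    {L : Y.Modules} (hL : Scheme.Modules.IsInvertible L) :
    ∃ χ : PrimeSpectrum A → ℤ, IsLocallyConstant χ ∧
      ∀ (K : Type u) [Field K] {Z : Scheme.{u}} {z : Z ⟶ Spec (CommRingCat.of K)} {g : Z ⟶ Y}
        {f : Spec (CommRingCat.of K) ⟶ Spec (CommRingCat.of A)} (_ : IsPullback g z y f)
        (τ' : TwoChart z) (hU : τ'.U = g ⁻¹ᵁ τ.U) (_ : τ'.V = g ⁻¹ᵁ τ.V)
        (_ : τ'.t = resO hU.le (g.app _ τ.t)) {L' : Z.Modules}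
        (hL' : Scheme.Modules.IsInvertible L') (_ : (Scheme.Modules.pullback g).obj L ≅ L'),
        Module.Finite K ((latOf τ' L' hL').P ⊓ (latOf τ' L' hL').Q :
          Submodule K (Sec z L' (τ'.U ⊓ τ'.V))) ∧
        Module.Finite K (Sec z L' (τ'.U ⊓ τ'.V) ⧸ ((latOf τ' L' hL').P ⊔ (latOf τ' L' hL').Q)) ∧
        chiL τ' L' hL' = χ (PrimeSpectrum.comap (Spec.preimage f).hom ⊥) := by
  obtain ⟨χ, h1, h2⟩ := H10.Lat.exists_chi (latOf τ L hL) (finProjP τ hL) (finProjQ τ hL)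
  refine ⟨χ, h1, ?_⟩
  intro K _ Z z g f H τ' hU hV ht L' hL' e
  let _ : Algebra A K := (Spec.preimage f).hom.toAlgebra
  let _ : Module A (Sec z L' (τ'.U ⊓ τ'.V)) := Module.compHom _ (algebraMap A K)
  have : IsScalarTower A K (Sec z L' (τ'.U ⊓ τ'.V)) :=
    ⟨fun a b z => by rw [Algebra.smul_def, mul_smul]; rfl⟩
  obtain ⟨β, -, hβ⟩ := exists_isBC H τ τ' hU hV ht hL hL' e rfl
  exact h2 K _ _ β hβ

theorem chiL_baseChange (τ : TwoChart z) {L : Z.Modules} (hL : Scheme.Modules.IsInvertible L)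
    {K' : Type u} [Field K'] {Z' : Scheme.{u}} {z' : Z' ⟶ Spec (CommRingCat.of K')} {g : Z' ⟶ Z}
    {f : Spec (CommRingCat.of K') ⟶ Spec (CommRingCat.of K)} (H : IsPullback g z' z f)
    (τ' : TwoChart z') (hU : τ'.U = g ⁻¹ᵁ τ.U) (hV : τ'.V = g ⁻¹ᵁ τ.V)
    (ht : τ'.t = resO hU.le (g.app _ τ.t)) {L' : Z'.Modules}
    (hL' : Scheme.Modules.IsInvertible L') (e : (Scheme.Modules.pullback g).obj L ≅ L') :
    chiL τ' L' hL' = chiL τ L hL := by
  obtain ⟨χ, -, h⟩ := exists_chiL τ hL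
  obtain ⟨-, -, h1⟩ := h K' H τ' hU hV ht hL' e
  obtain ⟨-, -, h2⟩ := h K (idSq z) τ rfl rfl
    (idSq_t τ) hL ((Scheme.Modules.pullbackId Z).app L)
  rw [h1, h2]
  congr 1
  exact Subsingleton.elim _ _

/-- invariance of `chiL` under isomorphisms and change of presentation -/
theorem chiL_congr {τ τ' : TwoChart z} {L L' : Z.Modules} (hL : Scheme.Modules.IsInvertible L)
    (hL' : Scheme.Modules.IsInvertible L') (hU : τ'.U = τ.U) (hV : τ'.V = τ.V)
    (ht : τ'.t = resO hU.le τ.t) (e : L ≅ L') : chiL τ' L' hL' = chiL τ L hL :=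
  chiL_baseChange τ hL (idSq z) τ' hU hV (by rw [ht]; congr 1)
    hL' ((Scheme.Modules.pullbackId Z).app L ≪≫ e)

theorem chiL_finite (τ : TwoChart z) {L : Z.Modules} (hL : Scheme.Modules.IsInvertible L) :
    Module.Finite K ((latOf τ L hL).P ⊓ (latOf τ L hL).Q : Submodule K (Sec z L (τ.U ⊓ τ.V))) ∧
    Module.Finite K (Sec z L (τ.U ⊓ τ.V) ⧸ ((latOf τ L hL).P ⊔ (latOf τ L hL).Q)) := by
  obtain ⟨χ, -, h⟩ := exists_chiL τ hL
  obtain ⟨h1, h2, -⟩ := h K (idSq z) τ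
    rfl rfl (idSq_t τ) hL ((Scheme.Modules.pullbackId Z).app L)
  exact ⟨h1, h2⟩

theorem chiL_eq_zero_of_isCompl (τ : TwoChart z) {L : Z.Modules}
    (hL : Scheme.Modules.IsInvertible L)
    (h : IsCompl (latOf τ L hL).P (latOf τ L hL).Q) : chiL τ L hL = 0 := by
  rw [chiL, h.inf_eq_bot, h.sup_eq_top]
  have h1 : Module.finrank K (⊥ : Submodule K (Sec z L (τ.U ⊓ τ.V))) = 0 := finrank_bot _ _
  have h2 : Module.finrank K (Sec z L (τ.U ⊓ τ.V) ⧸ (⊤ : Submodule K (Sec z L (τ.U ⊓ τ.V)))) = 0 :=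
    Module.finrank_zero_of_subsingleton
  rw [h1, h2]; rfl

end Chi


end Fermat.Agent.H25
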