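import Fermat.Agent.H25Gen2
set_option autoImplicit false
/-!
# S25: pullback of sections (job A3)
`pb f M s` is the pullback of a section `s` of `M` along `f`.
* `pb_smul`, `pb_add`, `pb_res`, `pb_app` (naturality), `hom_ext_pb`, `exists_pullback_hom`
* `pb_pb` (compatibility with `pullbackComp`), `pb_congr`, `pb_id`, `pullbackUnitIso_pb`
* `IsGen.pb`, `isGen_pb_iff_of_le`, `isGen_pb_comp_iff`, `isGen_app_iso_iff`
* `exists_pullback_iso` (construct an iso `f^*M ≅ N` from generators)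
-/
universe u v
open CategoryTheory AlgebraicGeometry CategoryTheory.Limits TopologicalSpace

namespace Fermat.Agent.H25

variable {X Y Z : Scheme.{u}}

section basics

variable (f : X ⟶ Y) (g : Y ⟶ Z) (M : Y.Modules)

lemma pb_smul {V : Y.Opens} (a : Γ(Y, V)) (s : Γ(M, V)) :
    pb f M (a • s) = (f.app V a) • pb f M s :=
  app_smul' (X := Y) ((Scheme.Modules.pullbackPushforwardAdjunction f).unit.app M) a s

@[simp] lemma pb_add {V : Y.Opens} (s s' : Γ(M, V)) :
    pb f M (s + s') = pb f M s + pb f M s' := map_add _ _ _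

@[simp] lemma pb_zero {V : Y.Opens} :
    pb f M (0 : Γ(M, V)) = 0 := map_zero _

@[simp] lemma pb_sub {V : Y.Opens} (s s' : Γ(M, V)) :
    pb f M (s - s') = pb f M s - pb f M s' := map_sub _ _ _

lemma pb_res {V W : Y.Opens} (h : W ≤ V) (s : Γ(M, V)) :
    pb f M (res M h s) = res _ (f.preimage_mono h) (pb f M s) := by
  have := app_res ((Scheme.Modules.pullbackPushforwardAdjunction f).unit.app M) h s
  exact this

lemma pb_app {M N : Y.Modules} (φ : M ⟶ N) {V : Y.Opens} (s : Γ(M, V)) :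
    ((Scheme.Modules.pullback f).map φ).app (f ⁻¹ᵁ V) (pb f M s) = pb f N (φ.app V s) := by
  have := (Scheme.Modules.pullbackPushforwardAdjunction f).unit.naturality φ
  have := congr(Scheme.Modules.Hom.app $this V s)
  exact this.symm

/-- the value of the map corresponding by adjunction -/
lemma homEquiv_symm_app_pb {N : X.Modules} (u : M ⟶ (Scheme.Modules.pushforward f).obj N)
    {V : Y.Opens} (s : Γ(M, V)) :
    (((Scheme.Modules.pullbackPushforwardAdjunction f).homEquiv M N).symm u).app (f ⁻¹ᵁ V)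
      (pb f M s) = u.app V s := by
  have : (Scheme.Modules.pullbackPushforwardAdjunction f).unit.app M ≫
      (Scheme.Modules.pushforward f).map
        (((Scheme.Modules.pullbackPushforwardAdjunction f).homEquiv M N).symm u) = u := by
    exact (Adjunction.homEquiv_unit _ _ _ _).symm.trans (Equiv.apply_symm_apply _ _)
  have := congr(Scheme.Modules.Hom.app $this V s)
  exact this

lemma hom_ext_pb {N : X.Modules} {v w : (Scheme.Modules.pullback f).obj M ⟶ N}
    (h : ∀ (V : Y.Opens) (s : Γ(M, V)), v.app (f ⁻¹ᵁ V) (pb f M s) = w.app (f ⁻¹ᵁ V) (pb f M s)) :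
    v = w := by
  apply ((Scheme.Modules.pullbackPushforwardAdjunction f).homEquiv M N).injective
  refine hom_ext_app fun V s ↦ ?_
  rw [Adjunction.homEquiv_unit, Adjunction.homEquiv_unit]
  exact h V s

theorem exists_pullback_hom (N : X.Modules)
    (u : M ⟶ (Scheme.Modules.pushforward f).obj N) :
    ∃! v : (Scheme.Modules.pullback f).obj M ⟶ N, ∀ (V : Y.Opens) (s : Γ(M, V)),
      v.app (f ⁻¹ᵁ V) (pb f M s) = u.app V s :=
  ⟨((Scheme.Modules.pullbackPushforwardAdjunction f).homEquiv M N).symm u,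
    fun V s ↦ homEquiv_symm_app_pb f M u s,
    fun w hw ↦ hom_ext_pb f M fun V s ↦ by rw [hw, homEquiv_symm_app_pb]⟩

/-- compatibility of `pb` with composition -/
lemma pb_pb {M : Z.Modules} {V : Z.Opens} (s : Γ(M, V)) :
    ((Scheme.Modules.pullbackComp f g).hom.app M).app (f ⁻¹ᵁ g ⁻¹ᵁ V) (pb f _ (pb g M s)) =
      pb (f ≫ g) M s := by
  have h := unit_conjugateEquiv ((Scheme.Modules.pullbackPushforwardAdjunction g).comp
    (Scheme.Modules.pullbackPushforwardAdjunction f))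
      (Scheme.Modules.pullbackPushforwardAdjunction (f ≫ g)) (Scheme.Modules.pullbackComp f g).inv M
  rw [Scheme.Modules.conjugateEquiv_pullbackComp_inv] at h
  have h1 := congr(Scheme.Modules.Hom.app $h V s)
  have h2 : pb f _ (pb g M s) =
      ((Scheme.Modules.pullbackComp f g).inv.app M).app (f ⁻¹ᵁ g ⁻¹ᵁ V) (pb (f ≫ g) M s) := h1
  rw [h2, ← ConcreteCategory.comp_apply, ← Scheme.Modules.Hom.comp_app, ← NatTrans.comp_app,
    Iso.inv_hom_id]
  rfl

lemma pb_comp_inv {M : Z.Modules} {V : Z.Opens} (s : Γ(M, V)) :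
    ((Scheme.Modules.pullbackComp f g).inv.app M).app (f ⁻¹ᵁ g ⁻¹ᵁ V) (pb (f ≫ g) M s) =
      pb f _ (pb g M s) := by
  have h := unit_conjugateEquiv ((Scheme.Modules.pullbackPushforwardAdjunction g).comp
    (Scheme.Modules.pullbackPushforwardAdjunction f))
      (Scheme.Modules.pullbackPushforwardAdjunction (f ≫ g)) (Scheme.Modules.pullbackComp f g).inv M
  rw [Scheme.Modules.conjugateEquiv_pullbackComp_inv] at h
  have h1 := congr(Scheme.Modules.Hom.app $h V s)
  exact h1.symm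

lemma pb_congr {f g : X ⟶ Y} (hfg : f = g) {V : Y.Opens} (s : Γ(M, V)) :
    ((Scheme.Modules.pullbackCongr hfg).hom.app M).app (g ⁻¹ᵁ V)
      (res _ (by rw [hfg]) (pb f M s)) = pb g M s := by
  subst hfg
  simp only [Scheme.Modules.pullbackCongr, eqToIso_refl, Iso.refl_hom, NatTrans.id_app, res_self]
  rfl

lemma pb_congr' {f g : X ⟶ Y} (hfg : f = g) {V : Y.Opens} (s : Γ(M, V)) :
    ((Scheme.Modules.pullbackCongr hfg).hom.app M).app (f ⁻¹ᵁ V)
      (pb f M s) = res _ (by rw [hfg]) (pb g M s) := by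
  subst hfg
  simp only [Scheme.Modules.pullbackCongr, eqToIso_refl, Iso.refl_hom, NatTrans.id_app, res_self]
  rfl

lemma pb_id (M : X.Modules) {V : X.Opens} (s : Γ(M, V)) :
    ((Scheme.Modules.pullbackId X).hom.app M).app V (pb (𝟙 X) M s) = s := by
  have h := unit_conjugateEquiv (Adjunction.id (C := X.Modules))
    (Scheme.Modules.pullbackPushforwardAdjunction (𝟙 X)) (Scheme.Modules.pullbackId X).hom M
  rw [Scheme.Modules.conjugateEquiv_pullbackId_hom] at h
  have h1 := congr(Scheme.Modules.Hom.app $h V s)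
  exact h1.symm

/-- the canonical iso for the unit maps `1` to `1`. -/
lemma pullbackUnitIso_pb {V : Y.Opens} (a : Γ(Y, V)) :
    (show (Scheme.Modules.pullback f).obj (uMod Y) ⟶ uMod X from
      (Scheme.Modules.pullbackUnitIso f).hom).app (f ⁻¹ᵁ V) (pb f _ (uSec a)) =
      uSec (f.app V a) := by
  exact homEquiv_symm_app_pb f (uMod Y)
    (SheafOfModules.unitToPushforwardObjUnit f.toRingCatSheafHom) (uSec a)

end basics

/-- For an open immersion, `pb` is the restriction of sections -/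
lemma isGen_pb_of_isOpenImmersion (f : X ⟶ Y) [IsOpenImmersion f] (M : Y.Modules) {V : Y.Opens}
    (s : Γ(M, V)) :
    IsGen _ (pb f M s) ↔ IsGen M (res M (f.image_preimage_le V) s) := by
  rw [← isGen_restrictAppIso_inv, pb_eq_restrict]
  constructor
  · intro h
    have h1 := h.map_iso ((Scheme.Modules.restrictFunctorIsoPullback f).inv.app M)
    rw [← ConcreteCategory.comp_apply, ← Scheme.Modules.Hom.comp_app, ← NatTrans.comp_app,
      Iso.hom_inv_id] at h1
    exact h1
  · intro h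
    exact h.map_iso ((Scheme.Modules.restrictFunctorIsoPullback f).hom.app M)

lemma isGen_pb_iff_of_le (f : X ⟶ Y) [IsOpenImmersion f] (M : Y.Modules) {V : Y.Opens}
    (hV : V ≤ f.opensRange) (s : Γ(M, V)) :
    IsGen _ (pb f M s) ↔ IsGen M s := by
  rw [isGen_pb_of_isOpenImmersion]
  have hV' : f ''ᵁ (f ⁻¹ᵁ V) = V := by
    rw [Scheme.Hom.image_preimage_eq_opensRange_inf]; exact inf_eq_right.mpr hV
  constructor
  · intro h
    have := h.res hV'.ge
    rwa [res_res, res_self] at this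
  · intro h
    exact h.res _

lemma isGen_app_iso_iff {M N : X.Modules} (φ : M ⟶ N) [IsIso φ] {U : X.Opens} (s : Γ(M, U)) :
    IsGen N (φ.app U s) ↔ IsGen M s := by
  refine ⟨fun h ↦ ?_, fun h ↦ h.map_iso φ⟩
  have := h.map_iso (inv φ)
  rwa [← ConcreteCategory.comp_apply, ← Scheme.Modules.Hom.comp_app, IsIso.hom_inv_id] at this

lemma isGen_pb_comp_iff (f : X ⟶ Y) (g : Y ⟶ Z) {M : Z.Modules} {V : Z.Opens} (s : Γ(M, V)) :
    IsGen _ (pb f _ (pb g M s)) ↔ IsGen _ (pb (f ≫ g) M s) := by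
  have h1 := isGen_app_iso_iff ((Scheme.Modules.pullbackComp f g).hom.app M)
    (pb f ((Scheme.Modules.pullback g).obj M) (pb g M s))
  rw [pb_pb f g s] at h1
  exact h1.symm

lemma isGen_pb_congr {f g : X ⟶ Y} (h : f = g) {M : Y.Modules} {V : Y.Opens} (s : Γ(M, V)) :
    IsGen _ (pb f M s) ↔ IsGen _ (pb g M s) := by
  subst h; rfl

/-- The pullback of a generator is a generator. -/
theorem IsGen.pb (f : X ⟶ Y) (M : Y.Modules) {V : Y.Opens} {s : Γ(M, V)} (hs : IsGen M s) :
    IsGen _ (pb f M s) := by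
  have hfact : (f ∣_ V) ≫ V.ι = (f ⁻¹ᵁ V).ι ≫ f := morphismRestrict_ι f V
  have h1 : IsGen _ (H25.pb V.ι M s) := by
    rw [isGen_pb_iff_of_le]
    · exact hs
    · rw [Scheme.Opens.opensRange_ι]
  have hle : (⊤ : V.toScheme.Opens) ≤ V.ι ⁻¹ᵁ V := (Scheme.Opens.ι_preimage_self V).ge
  have hφ : IsIso (unitHom (H25.res _ hle (H25.pb V.ι M s))) := isIso_unitHom (h1.res hle)
  have h2 : IsGen _ (H25.pb (f ∣_ V) (uMod V.toScheme) (uSec (1 : Γ(V.toScheme, ⊤)))) := by
    have h3 : IsGen (uMod (f ⁻¹ᵁ V).toScheme) (uSec ((f ∣_ V).app ⊤ (1 : Γ(V.toScheme, ⊤)))) := by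
      rw [map_one]; exact isGen_one _
    rw [← pullbackUnitIso_pb] at h3
    have h4 := h3.map_iso (M := uMod _) (N := (Scheme.Modules.pullback (f ∣_ V)).obj (uMod _))
      (Scheme.Modules.pullbackUnitIso (f ∣_ V)).inv
    rw [← ConcreteCategory.comp_apply, ← Scheme.Modules.Hom.comp_app] at h4
    have h5 : (show (Scheme.Modules.pullback (f ∣_ V)).obj (uMod _) ⟶ uMod _ from
      (Scheme.Modules.pullbackUnitIso (f ∣_ V)).hom) ≫ (show uMod _ ⟶
        (Scheme.Modules.pullback (f ∣_ V)).obj (uMod _) from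
        (Scheme.Modules.pullbackUnitIso (f ∣_ V)).inv) = 𝟙 _ := Iso.hom_inv_id _
    rw [h5] at h4
    exact h4
  have h3 := h2.map_iso ((Scheme.Modules.pullback (f ∣_ V)).map
    (unitHom (H25.res _ hle (H25.pb V.ι M s))))
  rw [pb_app, unitHom_app, uFun_uSec, one_smul, res_res, pb_res] at h3
  have h4 : IsGen _ (H25.pb (f ∣_ V) _ (H25.pb V.ι M s)) := by
    have h5 := h3.res (V := (f ∣_ V) ⁻¹ᵁ V.ι ⁻¹ᵁ V)
      ((f ∣_ V).preimage_mono (Scheme.Opens.ι_preimage_self V).le)
    rwa [res_res, res_self] at h5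
  rw [isGen_pb_comp_iff, isGen_pb_congr hfact, ← isGen_pb_comp_iff, isGen_pb_iff_of_le] at h4
  · exact h4
  · rw [Scheme.Opens.opensRange_ι]

/-- Construction of an isomorphism `f^* M ≅ N` from generators. -/
theorem exists_pullback_iso (f : X ⟶ Y) (M : Y.Modules) (N : X.Modules) {ι : Type*}
    (V : ι → Y.Opens) (hV : ⨆ i, V i = ⊤) (s : ∀ i, Γ(M, V i)) (hs : ∀ i, IsGen M (s i))
    (n : ∀ i, Γ(N, f ⁻¹ᵁ V i)) (hn : ∀ i, IsGen N (n i))
    (h : ∀ i j (W : Y.Opens) (hi : W ≤ V i) (hj : W ≤ V j) (g : Γ(Y, W)),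
      res M hi (s i) = g • res M hj (s j) →
      res N (f.preimage_mono hi) (n i) = (f.app W g) • res N (f.preimage_mono hj) (n j)) :
    ∃ e : (Scheme.Modules.pullback f).obj M ≅ N,
      ∀ i, e.hom.app (f ⁻¹ᵁ V i) (pb f M (s i)) = n i := by
  obtain ⟨φ, hφ, -⟩ := exists_glueHom (M := M) (N := (Scheme.Modules.pushforward f).obj N)
    V hV s hs n h
  obtain ⟨v, hv, -⟩ := exists_pullback_hom f M N φ
  have : IsIso v := by
    refine isIso_of_isGen_cover v (fun i ↦ f ⁻¹ᵁ V i) ?_ (fun i ↦ pb f M (s i))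
      (fun i ↦ (hs i).pb f M) (fun i ↦ ?_)
    · rw [← Scheme.Hom.preimage_iSup, hV]; rfl
    · rw [hv, hφ]; exact hn i
  exact ⟨asIso v, fun i ↦ by rw [asIso_hom, hv, hφ]⟩

/-- pullback of sections, as an additive map -/
noncomputable def pbHom (f : X ⟶ Y) (M : Y.Modules) (V : Y.Opens) :
    Γ(M, V) →+ Γ((Scheme.Modules.pullback f).obj M, f ⁻¹ᵁ V) :=
  AddMonoidHom.mk' (pb f M) (pb_add f M)

@[simp] lemma pbHom_apply (f : X ⟶ Y) (M : Y.Modules) (V : Y.Opens) (s : Γ(M, V)) :
    pbHom f M V s = pb f M s := rfl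

end Fermat.Agent.H25
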