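import Fermat.Agent.H25Glue2
/-!
# S25: pullback of local homomorphisms
-/
set_option autoImplicit false
universe u v
open CategoryTheory AlgebraicGeometry CategoryTheory.Limits TopologicalSpace Opposite

noncomputable section

namespace Fermat.Agent.H25

variable {X Y Z : Scheme.{u}}

namespace LHom

variable {U V : Y.Opens} {M N P : Y.Modules}

lemma ι_preimage_self' (g : X ⟶ Y) : (g ⁻¹ᵁ U).ι ⁻¹ᵁ (g ⁻¹ᵁ U) = ⊤ := Scheme.Opens.ι_preimage_self _

lemma ι_comp_preimage (g : X ⟶ Y) : ((g ⁻¹ᵁ U).ι ≫ g) ⁻¹ᵁ U = ⊤ := Scheme.Opens.ι_preimage_self _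

/-- local homomorphisms out of a pullback are determined on pulled back sections -/
lemma ext_pb (g : X ⟶ Y) {N : X.Modules} {f f' : LHom (g ⁻¹ᵁ U) ((Scheme.Modules.pullback g).obj M) N}
    (h : ∀ (W : Y.Opens) (hW : W ≤ U) (x : Γ(M, W)),
      f.f (g ⁻¹ᵁ W) (g.preimage_mono hW) (pb g M x) =
        f'.f (g ⁻¹ᵁ W) (g.preimage_mono hW) (pb g M x)) : f = f' := by
  have key : f.pull (g ⁻¹ᵁ U).ι (ι_preimage_self' g) = f'.pull (g ⁻¹ᵁ U).ι (ι_preimage_self' g) := by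
    rw [← cancel_epi ((Scheme.Modules.pullbackComp (g ⁻¹ᵁ U).ι g).inv.app M)]
    refine hom_ext_pb ((g ⁻¹ᵁ U).ι ≫ g) M fun V x ↦ ?_
    have hle : ((g ⁻¹ᵁ U).ι ≫ g) ⁻¹ᵁ V ≤ ((g ⁻¹ᵁ U).ι ≫ g) ⁻¹ᵁ (V ⊓ U) := by
      rw [Scheme.Hom.preimage_inf, ι_comp_preimage, inf_top_eq]
    have h1 : pb ((g ⁻¹ᵁ U).ι ≫ g) M x = H25.res _ hle (pb ((g ⁻¹ᵁ U).ι ≫ g) M
        (H25.res M (inf_le_left : V ⊓ U ≤ V) x)) := by
      rw [pb_res, res_res, res_self]
    rw [h1, app_res, app_res]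
    congr 1
    simp only [Scheme.Modules.Hom.comp_app, ConcreteCategory.comp_apply]
    have h2 := pb_comp_inv (g ⁻¹ᵁ U).ι g (H25.res M (inf_le_left : V ⊓ U ≤ V) x)
    have h3 := congrArg ((f.pull (g ⁻¹ᵁ U).ι (ι_preimage_self' g)).app _) h2
    have h4 := congrArg ((f'.pull (g ⁻¹ᵁ U).ι (ι_preimage_self' g)).app _) h2
    refine h3.trans (Eq.trans ?_ h4.symm)
    rw [pull_app _ _ _ (g.preimage_mono inf_le_right), pull_app _ _ _ (g.preimage_mono inf_le_right),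
      h]
    exact inf_le_right
  refine ext' fun W hW x ↦ ?_
  apply (pb_bijective_of_le (g ⁻¹ᵁ U).ι N (hW.trans (by rw [Scheme.Opens.opensRange_ι]))).1
  rw [← pull_app _ (ι_preimage_self' g), ← pull_app _ (ι_preimage_self' g), key]

theorem exists_pullL (g : X ⟶ Y) (f : LHom U M N) :
    ∃ f' : LHom (g ⁻¹ᵁ U) ((Scheme.Modules.pullback g).obj M) ((Scheme.Modules.pullback g).obj N),
      ∀ (W : Y.Opens) (h : W ≤ U) (x : Γ(M, W)),
        f'.f (g ⁻¹ᵁ W) (g.preimage_mono h) (pb g M x) = pb g N (f.f W h x) := by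
  let i := (g ⁻¹ᵁ U).ι
  let φ := f.pull (i ≫ g) (ι_comp_preimage g)
  let φ' := (Scheme.Modules.pullbackComp i g).hom.app M ≫ φ ≫
    (Scheme.Modules.pullbackComp i g).inv.app N
  obtain ⟨f', hf'⟩ := exists_ofPull (U := g ⁻¹ᵁ U) i (by rw [Scheme.Opens.opensRange_ι]) φ'
  refine ⟨f', fun W h x ↦ ?_⟩
  apply (pb_bijective_of_le i _ ((g.preimage_mono h).trans (by rw [Scheme.Opens.opensRange_ι]))).1
  rw [hf']
  simp only [φ', Scheme.Modules.Hom.comp_app, ConcreteCategory.comp_apply]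
  have h1 := pb_pb i g x
  have h2 := congrArg (φ.app _) h1
  have h3 := congrArg (((Scheme.Modules.pullbackComp i g).inv.app N).app _) h2
  refine h3.trans ?_
  have h4 : φ.app (i ⁻¹ᵁ g ⁻¹ᵁ W) (pb (i ≫ g) M x) = pb (i ≫ g) N (f.f W h x) :=
    f.pull_app (i ≫ g) (ι_comp_preimage g) h x
  rw [h4]
  exact pb_comp_inv i g _

/-- pullback of local homomorphisms -/
def pullL (g : X ⟶ Y) (f : LHom U M N) :
    LHom (g ⁻¹ᵁ U) ((Scheme.Modules.pullback g).obj M) ((Scheme.Modules.pullback g).obj N) :=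
  (exists_pullL g f).choose

lemma pullL_pb (g : X ⟶ Y) (f : LHom U M N) (W : Y.Opens) (h : W ≤ U) (x : Γ(M, W)) :
    (f.pullL g).f (g ⁻¹ᵁ W) (g.preimage_mono h) (pb g M x) = pb g N (f.f W h x) :=
  (exists_pullL g f).choose_spec W h x

/-- multiplication by a function -/
def smulId (a : Γ(Y, U)) (M : Y.Modules) : LHom U M M where
  f W h := AddMonoidHom.mk' (fun x ↦ resO h a • x) (fun x y ↦ smul_add _ _ _)
  smul W h b x := by
    change resO h a • b • x = b • resO h a • x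
    rw [smul_comm]
  res W V h h' x := by
    change resO (h'.trans h) a • H25.res M h' x = H25.res M h' (resO h a • x)
    rw [res_smul, resO_resO]

@[simp] lemma smulId_f (a : Γ(Y, U)) {W : Y.Opens} (h : W ≤ U) (x : Γ(M, W)) :
    (smulId a M).f W h x = resO h a • x := rfl

@[simp] lemma pullL_id (g : X ⟶ Y) : (LHom.id U M).pullL g = LHom.id _ _ :=
  ext_pb g fun W hW x ↦ by rw [pullL_pb g _ W hW]; rfl

lemma pullL_comp (g : X ⟶ Y) (f : LHom U M N) (f' : LHom U N P) :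
    (f.comp f').pullL g = (f.pullL g).comp (f'.pullL g) :=
  ext_pb g fun W hW x ↦ by rw [pullL_pb g _ W hW, comp_f, comp_f, pullL_pb g _ W hW, pullL_pb g _ W hW]

lemma pullL_restr (g : X ⟶ Y) (f : LHom U M N) (h : V ≤ U) :
    (f.restr h).pullL g = (f.pullL g).restr (g.preimage_mono h) :=
  ext_pb g fun W hW x ↦ by rw [pullL_pb g _ W hW, restr_f, restr_f, pullL_pb g f W (hW.trans h)]

lemma pullL_smulId (g : X ⟶ Y) (a : Γ(Y, U)) :
    (smulId a M).pullL g = smulId (g.app U a) _ :=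
  ext_pb g fun W hW x ↦ by rw [pullL_pb g _ W hW, smulId_f, smulId_f, pb_smul, app_resO]

end LHom

namespace LIso

variable {U V : Y.Opens} {M N P : Y.Modules}

@[ext] lemma ext' {e e' : LIso U M N} (h : e.hom = e'.hom) : e = e' := by
  obtain ⟨f, f', h1, h2⟩ := e
  obtain ⟨g, g', h3, h4⟩ := e'
  dsimp at h
  subst h
  congr 1
  refine LHom.ext' fun W hW x ↦ ?_
  rw [← h4 W hW x, h1, h4]

def pullL (g : X ⟶ Y) (e : LIso U M N) :
    LIso (g ⁻¹ᵁ U) ((Scheme.Modules.pullback g).obj M) ((Scheme.Modules.pullback g).obj N) where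
  hom := e.hom.pullL g
  inv := e.inv.pullL g
  hom_inv := by
    have : e.hom.comp e.inv = LHom.id _ _ := LHom.ext' e.hom_inv
    have h1 := congrArg (LHom.pullL g) this
    rw [LHom.pullL_comp, LHom.pullL_id] at h1
    intro W hW x
    have := congrArg (fun f ↦ f.f W hW x) h1
    exact this
  inv_hom := by
    have : e.inv.comp e.hom = LHom.id _ _ := LHom.ext' e.inv_hom
    have h1 := congrArg (LHom.pullL g) this
    rw [LHom.pullL_comp, LHom.pullL_id] at h1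
    intro W hW x
    have := congrArg (fun f ↦ f.f W hW x) h1
    exact this

@[simp] lemma pullL_hom (g : X ⟶ Y) (e : LIso U M N) : (e.pullL g).hom = e.hom.pullL g := rfl

/-- multiplication by a unit -/
def smulU (a : (Γ(Y, U))ˣ) (M : Y.Modules) : LIso U M M where
  hom := .smulId a.1 M
  inv := .smulId a⁻¹.1 M
  hom_inv W h x := by
    simp only [LHom.smulId_f]
    rw [← mul_smul, ← resO_mul, Units.inv_mul, resO_one, one_smul]
  inv_hom W h x := by
    simp only [LHom.smulId_f]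
    rw [← mul_smul, ← resO_mul, Units.mul_inv, resO_one, one_smul]

@[simp] lemma smulU_hom (a : (Γ(Y, U))ˣ) : (smulU a M).hom = .smulId a.1 M := rfl

end LIso

/-- `M` is invertible on `U`. -/
def InvOn (U : X.Opens) (M : X.Modules) : Prop :=
  ∀ x ∈ U, ∃ (V : X.Opens) (_ : V ≤ U) (_ : x ∈ V) (s : Γ(M, V)), IsGen M s

lemma InvOn.mono {U V : X.Opens} {M : X.Modules} (h : InvOn U M) (hV : V ≤ U) : InvOn V M := by
  intro x hx
  obtain ⟨W, hW, hxW, s, hs⟩ := h x (hV hx)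
  exact ⟨V ⊓ W, inf_le_left, ⟨hx, hxW⟩, res M inf_le_right s, hs.res _⟩

lemma isInvertible_iff_invOn {M : X.Modules} : Scheme.Modules.IsInvertible M ↔ InvOn ⊤ M := by
  rw [isInvertible_iff]
  exact ⟨fun h x _ ↦ by
    obtain ⟨V, hx, s, hs⟩ := h x
    exact ⟨V, le_top, hx, s, hs⟩, fun h x ↦ by
    obtain ⟨V, _, hx, s, hs⟩ := h x trivial
    exact ⟨V, hx, s, hs⟩⟩

lemma InvOn.of_isInvertible {M : X.Modules} (h : Scheme.Modules.IsInvertible M) (U : X.Opens) :
    InvOn U M := (isInvertible_iff_invOn.mp h).mono le_top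

lemma InvOn.of_lIso {U : X.Opens} {M N : X.Modules} (h : InvOn U M) (e : LIso U M N) :
    InvOn U N := by
  intro x hx
  obtain ⟨W, hW, hxW, s, hs⟩ := h x hx
  exact ⟨W, hW, hxW, _, e.isGen hW hs⟩

/-- every local endomorphism of an invertible module is a multiplication. -/
lemma LHom.exists_eq_smulId {U : X.Opens} {M : X.Modules} (h : InvOn U M) (f : LHom U M M) :
    ∃! a : Γ(X, U), f = .smulId a M := by
  have h0 : ∀ x : U, ∃ (V : X.Opens) (_ : V ≤ U) (_ : x.1 ∈ V) (s : Γ(M, V)), IsGen M s :=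
    fun x ↦ h x.1 x.2
  choose V hVU hxV s hs using h0
  have hcov : U ≤ ⨆ x, V x := fun x hx ↦ Opens.mem_iSup.mpr ⟨⟨x, hx⟩, hxV ⟨x, hx⟩⟩
  have h1 : ∀ x, ∃ a : Γ(X, V x), f.f (V x) (hVU x) (s x) = a • s x := fun x ↦
    (hs x).surj _
  choose a ha using h1
  have h2 : ∀ (x : U) (W : X.Opens) (hW : W ≤ V x) (y : Γ(M, W)),
      f.f W (hW.trans (hVU x)) y = resO hW (a x) • y := by
    intro x W hW y
    obtain ⟨b, rfl⟩ := (hs x).surj' hW y
    rw [f.smul, f.res _ _ (hVU x) hW, ha, res_smul, smul_comm]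
  obtain ⟨b, hb⟩ := secO_glue (U := U) V hVU hcov a (by
    intro x y W hx hy
    refine ((hs x).res hx).inj ?_
    rw [← h2, ← h2])
  have key : f = .smulId b M := by
    refine LHom.ext' fun W hW y ↦ ?_
    refine sec_ext (fun x ↦ W ⊓ V x) (fun x ↦ inf_le_left) (inf_cover (hW.trans hcov)) fun x ↦ ?_
    rw [← f.res W (W ⊓ V x) hW inf_le_left, ← (smulId b M).res W (W ⊓ V x) hW inf_le_left]
    rw [h2 x _ inf_le_right, smulId_f, ← hb, resO_resO]
  refine ⟨b, key, ?_⟩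
  intro b' hb'
  refine secO_ext V hVU hcov fun x ↦ ?_
  refine (hs x).inj ?_
  have h3 := key.symm.trans hb'
  have := congrArg (fun f ↦ f.f (V x) (hVU x) (s x)) h3
  exact this.symm

end Fermat.Agent.H25
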