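import Mathlib
/-!
# S25: glueing schemes along relations of `S`-points (part of job E1)
-/
set_option autoImplicit false
universe u v
open CategoryTheory AlgebraicGeometry CategoryTheory.Limits TopologicalSpace Opposite

noncomputable section

namespace Fermat.Agent.H25

/-- Data for glueing schemes described by a relation on points with values in schemes. -/
structure RelGlue where
  ι : Type u
  X : ι → Scheme.{u}
  V : ∀ i _ : ι, (X i).Opens
  R : ∀ {S : Scheme.{u}} (i j : ι) (_ : S ⟶ X i) (_ : S ⟶ X j), Prop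
  symm : ∀ {S : Scheme.{u}} {i j : ι} {a : S ⟶ X i} {b : S ⟶ X j}, R i j a b → R j i b a
  trans : ∀ {S : Scheme.{u}} {i j k : ι} {a : S ⟶ X i} {b : S ⟶ X j} {d : S ⟶ X k},
    R i j a b → R j k b d → R i k a d
  pre : ∀ {S S' : Scheme.{u}} {i j : ι} {a : S ⟶ X i} {b : S ⟶ X j} (g : S' ⟶ S),
    R i j a b → R i j (g ≫ a) (g ≫ b)
  self : ∀ {S : Scheme.{u}} {i : ι} {a b : S ⟶ X i}, R i i a b ↔ a = b
  hV : ∀ {S : Scheme.{u}} {i : ι} (j : ι) (a : S ⟶ X i),
    (∃ b, R i j a b) ↔ Set.range a ⊆ V i j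

namespace RelGlue

variable (D : RelGlue.{u})

lemma exists_h (i j : D.ι) : ∃ h : (D.V i j).toScheme ⟶ D.X j, D.R i j (D.V i j).ι h :=
  (D.hV j (D.V i j).ι).mpr (by rw [Scheme.Opens.range_ι])

/-- transition map `V i j ⟶ X j` -/
def h (i j : D.ι) : (D.V i j).toScheme ⟶ D.X j := (D.exists_h i j).choose

lemma h_spec (i j : D.ι) : D.R i j (D.V i j).ι (D.h i j) := (D.exists_h i j).choose_spec

/-- factor an `S`-point through `V i j` -/
def toV {S : Scheme.{u}} {i j : D.ι} {a : S ⟶ D.X i} {b : S ⟶ D.X j} (r : D.R i j a b) :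
    S ⟶ (D.V i j).toScheme :=
  IsOpenImmersion.lift (D.V i j).ι a (by
    rw [Scheme.Opens.range_ι]
    exact (D.hV j a).mp ⟨b, r⟩)

@[reassoc (attr := simp)]
lemma toV_ι {S : Scheme.{u}} {i j : D.ι} {a : S ⟶ D.X i} {b : S ⟶ D.X j} (r : D.R i j a b) :
    D.toV r ≫ (D.V i j).ι = a := IsOpenImmersion.lift_fac _ _ _

@[reassoc]
lemma toV_h {S : Scheme.{u}} {i j : D.ι} {a : S ⟶ D.X i} {b : S ⟶ D.X j} (r : D.R i j a b) :
    D.toV r ≫ D.h i j = b := by
  rw [← D.self]
  have h1 := D.pre (D.toV r) (D.h_spec i j)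
  rw [toV_ι] at h1
  exact D.trans (D.symm h1) r

/-- the transition isomorphism -/
def t (i j : D.ι) : (D.V i j).toScheme ⟶ (D.V j i).toScheme :=
  D.toV (D.symm (D.h_spec i j))

@[reassoc (attr := simp)]
lemma t_ι (i j : D.ι) : D.t i j ≫ (D.V j i).ι = D.h i j := D.toV_ι _

lemma R_left (i j k : D.ι) :
    D.R i j (pullback.fst (D.V i j).ι (D.V i k).ι ≫ (D.V i j).ι)
      (pullback.fst (D.V i j).ι (D.V i k).ι ≫ D.h i j) := D.pre _ (D.h_spec i j)

lemma R_right (i j k : D.ι) :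
    D.R i k (pullback.fst (D.V i j).ι (D.V i k).ι ≫ (D.V i j).ι)
      (pullback.snd (D.V i j).ι (D.V i k).ι ≫ D.h i k) := by
  rw [pullback.condition]
  exact D.pre _ (D.h_spec i k)

/-- transition on triple overlaps -/
def t' (i j k : D.ι) : pullback (D.V i j).ι (D.V i k).ι ⟶ pullback (D.V j k).ι (D.V j i).ι :=
  pullback.lift (D.toV (D.trans (D.symm (D.R_left i j k)) (D.R_right i j k)))
    (D.toV (D.symm (D.R_left i j k))) (by rw [toV_ι, toV_ι])

@[reassoc]
lemma t'_fst_ι (i j k : D.ι) : D.t' i j k ≫ pullback.fst _ _ ≫ (D.V j k).ι =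
    pullback.fst _ _ ≫ D.h i j := by
  rw [t', pullback.lift_fst_assoc, toV_ι]

lemma R_t' (i j k : D.ι) : D.R i j (pullback.fst (D.V i j).ι (D.V i k).ι ≫ (D.V i j).ι)
    (D.t' i j k ≫ pullback.fst _ _ ≫ (D.V j k).ι) := by
  rw [t'_fst_ι]; exact D.R_left i j k

lemma V_self (i : D.ι) : D.V i i = ⊤ := by
  have h1 := (D.hV i (𝟙 (D.X i))).mp ⟨𝟙 _, D.self.mpr rfl⟩
  refine le_antisymm le_top fun x _ ↦ ?_
  exact h1 ⟨x, rfl⟩

/-- the glueing data -/
def glueData : Scheme.GlueData.{u} where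
  J := D.ι
  U := D.X
  V := fun ij ↦ (D.V ij.1 ij.2).toScheme
  f i j := (D.V i j).ι
  f_id i := by
    dsimp only
    rw [D.V_self i]
    exact inferInstanceAs (IsIso (D.X i).topIso.hom)
  t i j := D.t i j
  t_id i := by
    rw [← cancel_mono (D.V i i).ι, t_ι, Category.id_comp, ← D.self]
    exact D.symm (D.h_spec i i)
  t' i j k := D.t' i j k
  t_fac i j k := by
    rw [t', pullback.lift_snd, ← cancel_mono (D.V j i).ι, toV_ι, Category.assoc, t_ι]
  cocycle i j k := by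
    have h1 := D.R_t' i j k
    have h2 := D.pre (D.t' i j k) (D.R_t' j k i)
    have h3 := D.pre (D.t' i j k ≫ D.t' j k i) (D.R_t' k i j)
    simp only [Category.assoc] at h1 h2 h3
    have h4 := D.self.mp (D.trans h1 (D.trans h2 h3))
    apply pullback.hom_ext
    · rw [← cancel_mono (D.V i j).ι]
      simp only [Category.assoc, Category.id_comp]
      exact h4.symm
    · rw [← cancel_mono (D.V i k).ι]
      simp only [Category.assoc, Category.id_comp, ← pullback.condition]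
      exact h4.symm
  f_open i j := by dsimp only; infer_instance

theorem glueData_ι_eq_iff {S : Scheme.{u}} (i j : D.ι) (a : S ⟶ D.X i) (b : S ⟶ D.X j) :
    a ≫ D.glueData.ι i = b ≫ D.glueData.ι j ↔ D.R i j a b := by
  constructor
  · intro hab
    let s : PullbackCone (D.glueData.ι i) (D.glueData.ι j) := PullbackCone.mk a b hab
    let l : S ⟶ (D.V i j).toScheme := (D.glueData.vPullbackConeIsLimit i j).lift s
    have h1 : l ≫ (D.V i j).ι = a :=
      (D.glueData.vPullbackConeIsLimit i j).fac s WalkingCospan.left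
    have h2 : l ≫ D.t i j ≫ (D.V j i).ι = b :=
      (D.glueData.vPullbackConeIsLimit i j).fac s WalkingCospan.right
    rw [t_ι] at h2
    rw [← h1, ← h2]
    exact D.pre _ (D.h_spec i j)
  · intro r
    have h1 : D.t i j ≫ (D.V j i).ι ≫ D.glueData.ι j = (D.V i j).ι ≫ D.glueData.ι i :=
      D.glueData.glue_condition i j
    calc a ≫ D.glueData.ι i = D.toV r ≫ (D.V i j).ι ≫ D.glueData.ι i := by rw [toV_ι_assoc]
      _ = D.toV r ≫ D.t i j ≫ (D.V j i).ι ≫ D.glueData.ι j := by rw [← h1]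
      _ = b ≫ D.glueData.ι j := by rw [t_ι_assoc, toV_h_assoc]

end RelGlue

theorem exists_relGlue (D : RelGlue.{u}) :
    ∃ (P : Scheme.{u}) (j : ∀ i, D.X i ⟶ P), (∀ i, IsOpenImmersion (j i)) ∧
      (∀ x : P, ∃ i, x ∈ Set.range (j i)) ∧
      ∀ {S : Scheme.{u}} (i i' : D.ι) (a : S ⟶ D.X i) (b : S ⟶ D.X i'),
        a ≫ j i = b ≫ j i' ↔ D.R i i' a b :=
  ⟨D.glueData.glued, D.glueData.ι, fun i ↦ D.glueData.ι_isOpenImmersion i,
    fun x ↦ D.glueData.ι_jointly_surjective x, fun i j a b ↦ D.glueData_ι_eq_iff i j a b⟩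

end Fermat.Agent.H25
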