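import Fermat.Agent.H25PullL
/-!
# S25: rigidified isomorphisms, locality and glueing (part of job E1)
* `isPullback_baseChangeSnd`, `opensRange_baseChangeSnd`
* `RigInj.app`, `lIso_ext`, `exists_lIso_rig`
* `exists_iso_of_cover` (S1), `exists_glued_bundle` (S2)
-/
set_option autoImplicit false
universe u v
open CategoryTheory AlgebraicGeometry CategoryTheory.Limits TopologicalSpace Opposite
open NeronModelInfra AlgebraicGeometry.RelPicard

noncomputable section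

namespace Fermat.Agent.H25

section BC
variable {R : Type u} [CommRing R] {C T T' : Scheme.{u}} (c : C ⟶ Spec (CommRingCat.of R))
    {t : T ⟶ Spec (CommRingCat.of R)} {t' : T' ⟶ Spec (CommRingCat.of R)}

lemma baseChangeSnd_fst (ψ : SchemeHomOver t' t) :
    baseChangeSnd c ψ ≫ pullback.fst c t = pullback.fst c t' := by
  rw [baseChangeSnd, pullback.map, pullback.lift_fst, Category.comp_id]

lemma baseChangeSnd_snd (ψ : SchemeHomOver t' t) :
    baseChangeSnd c ψ ≫ pullback.snd c t = pullback.snd c t' ≫ ψ.1 := by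
  rw [baseChangeSnd, pullback.map, pullback.lift_snd]

lemma isPullback_baseChangeSnd (ψ : SchemeHomOver t' t) :
    IsPullback (baseChangeSnd c ψ) (pullback.snd c t') (pullback.snd c t) ψ.1 := by
  refine IsPullback.of_right (h₁₂ := pullback.fst c t) (h₂₂ := t) (v₁₃ := c) ?_
    (baseChangeSnd_snd c ψ) (IsPullback.of_hasPullback c t)
  rw [baseChangeSnd_fst, ψ.2]
  exact IsPullback.of_hasPullback c t'

instance (ψ : SchemeHomOver t' t) [IsOpenImmersion ψ.1] : IsOpenImmersion (baseChangeSnd c ψ) :=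
  MorphismProperty.of_isPullback (P := @IsOpenImmersion) (isPullback_baseChangeSnd c ψ).flip
    inferInstance

lemma opensRange_baseChangeSnd (ψ : SchemeHomOver t' t) [IsOpenImmersion ψ.1] :
    (baseChangeSnd c ψ).opensRange = pullback.snd c t ⁻¹ᵁ ψ.1.opensRange := by
  apply le_antisymm
  · rintro x ⟨y, rfl⟩
    change pullback.snd c t (baseChangeSnd c ψ y) ∈ ψ.1.opensRange
    rw [← Scheme.Hom.comp_apply, baseChangeSnd_snd, Scheme.Hom.comp_apply]
    exact ⟨_, rfl⟩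
  · intro x hx
    let V : (pullback c t).Opens := pullback.snd c t ⁻¹ᵁ ψ.1.opensRange
    have hr : Set.range (V.ι ≫ pullback.snd c t) ⊆ Set.range ψ.1 := by
      rintro _ ⟨y, rfl⟩
      exact y.2
    let l : V.toScheme ⟶ pullback c t' := (isPullback_baseChangeSnd c ψ).lift V.ι
      (IsOpenImmersion.lift ψ.1 (V.ι ≫ pullback.snd c t) hr)
      (IsOpenImmersion.lift_fac _ _ _).symm
    refine ⟨l ⟨x, hx⟩, ?_⟩
    rw [← Scheme.Hom.comp_apply, IsPullback.lift_fst]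
    rfl

end BC


section Rig

variable {k : Type u} [Field k] {C : Scheme.{u}} {c : C ⟶ Spec (CommRingCat.of k)}
  {ε : SchemeHomOver (𝟙 (Spec (CommRingCat.of k))) c}

lemma rigSection_snd {T : Scheme.{u}} (t : T ⟶ Spec (CommRingCat.of k)) :
    rigSection c t ε ≫ pullback.snd c t = 𝟙 T := by
  rw [rigSection, pullback.lift_snd]

lemma rigSection_preimage {T : Scheme.{u}} (t : T ⟶ Spec (CommRingCat.of k)) (W : T.Opens) :
    rigSection c t ε ⁻¹ᵁ (pullback.snd c t ⁻¹ᵁ W) = W := by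
  rw [← Scheme.Hom.comp_preimage, rigSection_snd]
  rfl

lemma app_bijective_of_le {X Y : Scheme.{u}} (j : X ⟶ Y) [IsOpenImmersion j] {V : Y.Opens}
    (hV : V ≤ j.opensRange) : Function.Bijective (j.app V) := by
  have := Scheme.Hom.isIso_app j V hV
  exact ConcreteCategory.bijective_of_isIso _

lemma comp_app_apply {X Y Z : Scheme.{u}} (f : X ⟶ Y) (g : Y ⟶ Z) {V : Z.Opens} (a : Γ(Z, V)) :
    (f ≫ g).app V a = f.app (g ⁻¹ᵁ V) (g.app V a) := by
  rw [Scheme.Hom.comp_app]; rfl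

lemma congr_app_apply {X Y : Scheme.{u}} {f g : X ⟶ Y} (h : f = g) {V : Y.Opens} (a : Γ(Y, V)) :
    f.app V a = resO (by rw [h]) (g.app V a) := by
  subst h; rw [resO_self]

lemma RigInj.app (hinj : RigInj c ε) {T : Scheme.{u}} (t : T ⟶ Spec (CommRingCat.of k))
    (W : T.Opens) : Function.Injective ((rigSection c t ε).app (pullback.snd c t ⁻¹ᵁ W)) := by
  rw [injective_iff_map_eq_zero]
  intro a ha
  let ψ : SchemeHomOver (W.ι ≫ t) t := ⟨W.ι, rfl⟩
  have hr : pullback.snd c t ⁻¹ᵁ W ≤ (baseChangeSnd c ψ).opensRange := by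
    rw [opensRange_baseChangeSnd]
    simp [ψ]
  apply (app_bijective_of_le (baseChangeSnd c ψ) hr).1
  rw [map_zero]
  have hle : (⊤ : (pullback c (W.ι ≫ t)).Opens) ≤ (baseChangeSnd c ψ) ⁻¹ᵁ pullback.snd c t ⁻¹ᵁ W := by
    rw [← Scheme.Hom.comp_preimage, baseChangeSnd_snd, Scheme.Hom.comp_preimage]
    have : ψ.1 ⁻¹ᵁ W = ⊤ := Scheme.Opens.ι_preimage_self W
    rw [this]; rfl
  have h1 : resO hle ((baseChangeSnd c ψ).app _ a) = 0 := by
    apply hinj (W.ι ≫ t)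
    rw [map_zero]
    change (rigSection c (W.ι ≫ t) ε).app ⊤ _ = 0
    have h0 : (ψ.1 ≫ rigSection c t ε).app (pullback.snd c t ⁻¹ᵁ W) a = 0 := by
      rw [comp_app_apply, ha, map_zero]; rfl
    rw [app_resO, ← comp_app_apply, congr_app_apply (rigSection_baseChangeSnd c ε ψ),
      h0, resO_zero]
    exact map_zero (resOHom _)
  have h2 := congrArg (resO (le_top : (baseChangeSnd c ψ) ⁻¹ᵁ pullback.snd c t ⁻¹ᵁ W ≤ ⊤)) h1
  rwa [resO_resO, resO_self, resO_zero] at h2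

variable {T : Scheme.{u}} {t : T ⟶ Spec (CommRingCat.of k)}

/-- uniqueness of rigidified isomorphisms -/
lemma lIso_ext (hinj : RigInj c ε) {W : T.Opens} {M M' : (pullback c t).Modules}
    (hM : InvOn (pullback.snd c t ⁻¹ᵁ W) M)
    {ℓ : Γ((Scheme.Modules.pullback (rigSection c t ε)).obj M,
      rigSection c t ε ⁻¹ᵁ (pullback.snd c t ⁻¹ᵁ W))} (hℓ : IsGen _ ℓ)
    (f f' : LIso (pullback.snd c t ⁻¹ᵁ W) M M')
    (h : (f.pullL (rigSection c t ε)).hom.f _ le_rfl ℓ =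
      (f'.pullL (rigSection c t ε)).hom.f _ le_rfl ℓ) : f = f' := by
  obtain ⟨a, ha, -⟩ := LHom.exists_eq_smulId hM (f.hom.comp f'.inv)
  have h1 := congrArg (LHom.pullL (rigSection c t ε)) ha
  rw [LHom.pullL_comp, LHom.pullL_smulId] at h1
  have h2 := congrArg (fun φ ↦ φ.f _ le_rfl ℓ) h1
  simp only [LHom.comp_f, LHom.smulId_f, resO_self] at h2
  have h3 : (f'.inv.pullL (rigSection c t ε)).f _ le_rfl
      ((f.hom.pullL (rigSection c t ε)).f _ le_rfl ℓ) = ℓ := by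
    have := (f'.pullL (rigSection c t ε)).hom_inv _ le_rfl ℓ
    rw [← h] at this
    exact this
  have h4 : (rigSection c t ε).app _ a = 1 := by
    apply hℓ.inj
    rw [one_smul, ← h2, h3]
  have h5 : a = 1 := by
    apply hinj.app t W
    rw [h4, map_one]
  subst h5
  ext W' hW' x
  have h6 := congrArg (fun φ ↦ φ.f W' hW' x) ha
  simp only [LHom.comp_f, LHom.smulId_f, resO_one, one_smul] at h6
  rw [← f'.inv_hom W' hW' (f.hom.f W' hW' x), h6]

/-- existence of rigidified isomorphisms -/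
lemma exists_lIso_rig {W : T.Opens} {M M' : (pullback c t).Modules}
    {ℓ : Γ((Scheme.Modules.pullback (rigSection c t ε)).obj M,
      rigSection c t ε ⁻¹ᵁ (pullback.snd c t ⁻¹ᵁ W))} (hℓ : IsGen _ ℓ)
    {ℓ' : Γ((Scheme.Modules.pullback (rigSection c t ε)).obj M',
      rigSection c t ε ⁻¹ᵁ (pullback.snd c t ⁻¹ᵁ W))} (hℓ' : IsGen _ ℓ')
    (f : LIso (pullback.snd c t ⁻¹ᵁ W) M M') :
    ∃ f' : LIso (pullback.snd c t ⁻¹ᵁ W) M M',
      (f'.pullL (rigSection c t ε)).hom.f _ le_rfl ℓ = ℓ' := by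
  obtain ⟨u, hu⟩ := IsGen.exists_unit ((f.pullL (rigSection c t ε)).isGen le_rfl hℓ) hℓ'
  -- `v = q^* u`
  have hW' : rigSection c t ε ⁻¹ᵁ (pullback.snd c t ⁻¹ᵁ W) = W := rigSection_preimage t W
  let v : (Γ(pullback c t, pullback.snd c t ⁻¹ᵁ W))ˣ :=
    Units.map ((pullback.snd c t).app W).hom.toMonoidHom
      (Units.map (resOHom hW'.ge).toMonoidHom u)
  have hv : (rigSection c t ε).app _ v.1 = u.1 := by
    change (rigSection c t ε).app _ ((pullback.snd c t).app W (resO hW'.ge u.1)) = _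
    rw [← comp_app_apply, congr_app_apply (rigSection_snd t)]
    have : (Scheme.Hom.app (𝟙 T) W) (resO hW'.ge u.1) = resO hW'.ge u.1 := rfl
    rw [this]
    exact (resO_resO (U := rigSection c t ε ⁻¹ᵁ (pullback.snd c t ⁻¹ᵁ W)) (V := W)
      (W := rigSection c t ε ⁻¹ᵁ (pullback.snd c t ⁻¹ᵁ W)) hW'.ge hW'.le u.1).trans
      (resO_self _ _)
  refine ⟨f.trans (LIso.smulU v M'), ?_⟩
  rw [LIso.pullL_hom, LIso.trans_hom, LHom.pullL_comp, LIso.smulU_hom, LHom.pullL_smulId, hv]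
  simp only [LHom.comp_f, LHom.smulId_f, resO_self]
  exact hu.symm


/-- **S1**: isomorphism classes of rigidified line bundles are local on the base. -/
lemma exists_iso_of_cover (hinj : RigInj c ε) {M M' : (pullback c t).Modules}
    (hM : Scheme.Modules.IsInvertible M)
    {ℓ : Γ((Scheme.Modules.pullback (rigSection c t ε)).obj M, ⊤)} (hℓ : IsGen _ ℓ)
    {ℓ' : Γ((Scheme.Modules.pullback (rigSection c t ε)).obj M', ⊤)} (hℓ' : IsGen _ ℓ')
    {ι : Type*} (W : ι → T.Opens) (hW : ⨆ i, W i = ⊤)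
    (f : ∀ i, LIso (pullback.snd c t ⁻¹ᵁ W i) M M') : Nonempty (M ≅ M') := by
  have h1 : ∀ i, ∃ f' : LIso (pullback.snd c t ⁻¹ᵁ W i) M M',
      (f'.pullL (rigSection c t ε)).hom.f _ le_rfl (res _ le_top ℓ) = res _ le_top ℓ' :=
    fun i ↦ exists_lIso_rig (hℓ.res _) (hℓ'.res _) (f i)
  choose f' hf' using h1
  have hcov : ⨆ i, (pullback.snd c t ⁻¹ᵁ W i) = ⊤ := by
    rw [← Scheme.Hom.preimage_iSup, hW]; rfl
  obtain ⟨φ, -⟩ := LIso.exists_iso _ hcov f' (by
    intro i j V hi hj x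
    have hV : V ≤ pullback.snd c t ⁻¹ᵁ (W i ⊓ W j) := le_inf hi hj
    have hli : pullback.snd c t ⁻¹ᵁ (W i ⊓ W j) ≤ pullback.snd c t ⁻¹ᵁ W i :=
      Scheme.Hom.preimage_mono _ inf_le_left
    have hlj : pullback.snd c t ⁻¹ᵁ (W i ⊓ W j) ≤ pullback.snd c t ⁻¹ᵁ W j :=
      Scheme.Hom.preimage_mono _ inf_le_right
    have key : (f' i).restr hli = (f' j).restr hlj := by
      refine lIso_ext hinj (InvOn.of_isInvertible hM _) (hℓ.res le_top) _ _ ?_
      rw [LIso.pullL_hom, LIso.pullL_hom, LIso.restr_hom, LIso.restr_hom, LHom.pullL_restr,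
        LHom.pullL_restr, LHom.restr_f, LHom.restr_f]
      have h2 := congrArg (res _ (Scheme.Hom.preimage_mono (rigSection c t ε) hli)) (hf' i)
      have h3 := congrArg (res _ (Scheme.Hom.preimage_mono (rigSection c t ε) hlj)) (hf' j)
      rw [← LHom.res _ _ _ le_rfl, res_res, res_res] at h2 h3
      rw [LIso.pullL_hom] at h2 h3
      rw [h2, h3]
    exact congrArg (fun e ↦ e.hom.f V hV x) key)
  exact ⟨φ⟩

/-- **S2**: glueing of rigidified line bundles. -/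
lemma exists_glued_bundle (hinj : RigInj c ε) {ι : Type u} (W : ι → T.Opens) (hW : ⨆ i, W i = ⊤)
    (N : ι → (pullback c t).Modules) (hN : ∀ i, InvOn (pullback.snd c t ⁻¹ᵁ W i) (N i))
    (ℓ : ∀ i, Γ((Scheme.Modules.pullback (rigSection c t ε)).obj (N i),
      rigSection c t ε ⁻¹ᵁ (pullback.snd c t ⁻¹ᵁ W i))) (hℓ : ∀ i, IsGen _ (ℓ i))
    (f : ∀ i j, LIso (pullback.snd c t ⁻¹ᵁ (W i ⊓ W j)) (N i) (N j)) :
    ∃ (M : RigidifiedLineBundle c ε t), ∀ i, Nonempty (LIso (pullback.snd c t ⁻¹ᵁ W i) M.L (N i)) := by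
  have hli : ∀ i j, pullback.snd c t ⁻¹ᵁ (W i ⊓ W j) ≤ pullback.snd c t ⁻¹ᵁ W i := fun i j ↦
      Scheme.Hom.preimage_mono _ inf_le_left
  have hlj : ∀ i j, pullback.snd c t ⁻¹ᵁ (W i ⊓ W j) ≤ pullback.snd c t ⁻¹ᵁ W j := fun i j ↦
      Scheme.Hom.preimage_mono _ inf_le_right
  have h1 : ∀ i j, ∃ f' : LIso (pullback.snd c t ⁻¹ᵁ (W i ⊓ W j)) (N i) (N j),
      (f'.pullL (rigSection c t ε)).hom.f _ le_rfl
        (res _ (Scheme.Hom.preimage_mono (rigSection c t ε) (hli i j)) (ℓ i)) =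
        res _ (Scheme.Hom.preimage_mono (rigSection c t ε) (hlj i j)) (ℓ j) :=
    fun i j ↦ exists_lIso_rig ((hℓ i).res _) ((hℓ j).res _) (f i j)
  choose φ hφ using h1
  have hcov : ⨆ i, (pullback.snd c t ⁻¹ᵁ W i) = ⊤ := by
    rw [← Scheme.Hom.preimage_iSup, hW]; rfl
  obtain ⟨M, ψ, hψ⟩ := exists_glued_module (fun i ↦ pullback.snd c t ⁻¹ᵁ W i) N
    (fun i j ↦ φ i j) (by
    intro i j k V hi hj hk x
    have hV : V ≤ pullback.snd c t ⁻¹ᵁ (W i ⊓ (W j ⊓ W k)) := le_inf hi (le_inf hj hk)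
    have hij : pullback.snd c t ⁻¹ᵁ (W i ⊓ (W j ⊓ W k)) ≤ pullback.snd c t ⁻¹ᵁ (W i ⊓ W j) :=
      Scheme.Hom.preimage_mono _ (inf_le_inf_left _ inf_le_left)
    have hik : pullback.snd c t ⁻¹ᵁ (W i ⊓ (W j ⊓ W k)) ≤ pullback.snd c t ⁻¹ᵁ (W i ⊓ W k) :=
      Scheme.Hom.preimage_mono _ (inf_le_inf_left _ inf_le_right)
    have hjk : pullback.snd c t ⁻¹ᵁ (W i ⊓ (W j ⊓ W k)) ≤ pullback.snd c t ⁻¹ᵁ (W j ⊓ W k) :=
      Scheme.Hom.preimage_mono _ inf_le_right
    have key : ((φ i j).restr hij).trans ((φ j k).restr hjk) = (φ i k).restr hik := by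
      refine lIso_ext hinj ((hN i).mono (hij.trans (hli _ _)))
        ((hℓ i).res (Scheme.Hom.preimage_mono (rigSection c t ε) (hij.trans (hli _ _)))) _ _ ?_
      rw [LIso.pullL_hom, LIso.pullL_hom, LIso.trans_hom, LHom.pullL_comp, LIso.restr_hom,
        LIso.restr_hom, LIso.restr_hom, LHom.pullL_restr, LHom.pullL_restr, LHom.pullL_restr,
        LHom.comp_f, LHom.restr_f, LHom.restr_f, LHom.restr_f]
      have h2 := congrArg (res _ (Scheme.Hom.preimage_mono (rigSection c t ε) hij)) (hφ i j)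
      have h3 := congrArg (res _ (Scheme.Hom.preimage_mono (rigSection c t ε) hjk)) (hφ j k)
      have h4 := congrArg (res _ (Scheme.Hom.preimage_mono (rigSection c t ε) hik)) (hφ i k)
      rw [← LHom.res _ _ _ le_rfl, res_res, res_res] at h2 h3 h4
      rw [LIso.pullL_hom] at h2 h3 h4
      rw [h2, h3, h4]
    exact congrArg (fun e ↦ e.hom.f V hV x) key)
  have hMinv : Scheme.Modules.IsInvertible M := by
    rw [isInvertible_iff]
    intro x
    obtain ⟨i, hi⟩ := Opens.mem_iSup.mp (hcov.ge (trivial : x ∈ (⊤ : (pullback c t).Opens)))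
    obtain ⟨V, hV, hxV, s, hs⟩ := ((hN i).of_lIso (ψ i).symm) x hi
    exact ⟨V, hxV, s, hs⟩
  have hcovT : (⊤ : T.Opens) ≤ ⨆ i, rigSection c t ε ⁻¹ᵁ (pullback.snd c t ⁻¹ᵁ W i) := by
    simp only [rigSection_preimage]
    rw [hW]
  obtain ⟨m, hm⟩ := sec_glue (M := (Scheme.Modules.pullback (rigSection c t ε)).obj M) (U := ⊤)
    (fun i ↦ rigSection c t ε ⁻¹ᵁ (pullback.snd c t ⁻¹ᵁ W i)) (fun i ↦ le_top) hcovT
    (fun i ↦ ((ψ i).pullL (rigSection c t ε)).inv.f _ le_rfl (ℓ i)) (by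
    intro i j V hi hj
    have hV : V ≤ rigSection c t ε ⁻¹ᵁ pullback.snd c t ⁻¹ᵁ (W i ⊓ W j) := le_inf hi hj
    apply (((ψ j).pullL (rigSection c t ε)).bijective V hj).1
    rw [((ψ j).pullL (rigSection c t ε)).hom.res _ _ le_rfl hj, LIso.inv_hom]
    have key : ((ψ i).restr (hli i j)).trans (φ i j) = (ψ j).restr (hlj i j) := by
      ext V' hV' x
      exact hψ i j V' (hV'.trans (hli i j)) (hV'.trans (hlj i j)) x
    have h2 := congrArg (fun e ↦ (e.pullL (rigSection c t ε)).hom.f V hV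
      (res _ hi (((ψ i).pullL (rigSection c t ε)).inv.f _ le_rfl (ℓ i)))) key
    simp only [LIso.pullL_hom, LIso.trans_hom, LHom.pullL_comp, LIso.restr_hom, LHom.pullL_restr,
      LHom.comp_f, LHom.restr_f] at h2
    rw [LIso.pullL_hom, ← h2]
    have h3 : ((ψ i).hom.pullL (rigSection c t ε)).f V hi
      (res _ hi (((ψ i).pullL (rigSection c t ε)).inv.f _ le_rfl (ℓ i))) = res _ hi (ℓ i) := by
      rw [((ψ i).hom.pullL (rigSection c t ε)).res _ _ le_rfl hi]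
      congr 1
      exact ((ψ i).pullL (rigSection c t ε)).inv_hom _ le_rfl (ℓ i)
    rw [h3]
    have h4 := congrArg (res _ hV) (hφ i j)
    rw [← LHom.res _ _ _ le_rfl, res_res, res_res] at h4
    exact h4)
  have hmgen : IsGen _ m := by
    refine IsGen.of_cover _ (fun i ↦ le_top) hcovT fun i ↦ ?_
    rw [hm]
    exact ((ψ i).pullL (rigSection c t ε)).symm.isGen le_rfl (hℓ i)
  exact ⟨⟨M, hMinv, nonempty_iso_unit_iff.mpr ⟨m, hmgen⟩⟩, fun i ↦ ⟨ψ i⟩⟩

end Rig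

end Fermat.Agent.H25
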