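import Fermat.Agent.H25Rig
/-!
# S25: locality and glueing of rigidified line bundles, user versions
* `iso_of_cover` (S1), `exists_bundle_of_cover` (S2), `shComp`, `pullbackAlong_comp`, `pullbackAlong_id`
-/
set_option autoImplicit false
universe u v
open CategoryTheory AlgebraicGeometry CategoryTheory.Limits TopologicalSpace Opposite
open NeronModelInfra AlgebraicGeometry.RelPicard

noncomputable section

namespace Fermat.Agent.H25

section OI
variable {X Y : Scheme.{u}} (j : X ⟶ Y) [IsOpenImmersion j]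

instance isIso_counit_openImmersion (M : X.Modules) :
    IsIso ((Scheme.Modules.pullbackPushforwardAdjunction j).counit.app M) :=
  inferInstance

lemma exists_isGen_opensRange_iff (N : Y.Modules) :
    (∃ s : Γ((Scheme.Modules.pullback j).obj N, ⊤), IsGen _ s) ↔
      ∃ s : Γ(N, j.opensRange), IsGen N s := by
  have htop : j ⁻¹ᵁ j.opensRange = ⊤ := Scheme.Hom.preimage_opensRange j
  constructor
  · rintro ⟨s, hs⟩
    obtain ⟨x, hx⟩ := (pb_bijective_of_le j N (le_refl j.opensRange)).2 (res _ le_top s)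
    refine ⟨x, ?_⟩
    rw [← isGen_pb_iff_of_le j N le_rfl, hx]
    exact hs.res _
  · rintro ⟨s, hs⟩
    exact ⟨res _ htop.ge (pb j N s), (hs.pb j N).res _⟩

lemma invOn_opensRange_iff (N : Y.Modules) :
    InvOn j.opensRange N ↔ Scheme.Modules.IsInvertible ((Scheme.Modules.pullback j).obj N) := by
  rw [isInvertible_iff]
  constructor
  · intro h x
    obtain ⟨V, hV, hxV, s, hs⟩ := h (j x) ⟨x, rfl⟩
    exact ⟨j ⁻¹ᵁ V, hxV, _, hs.pb j N⟩
  · rintro h _ ⟨x, rfl⟩
    obtain ⟨V, hxV, s, hs⟩ := h x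
    have hV : j ⁻¹ᵁ (j ''ᵁ V) = V := Scheme.Hom.preimage_image_eq j V
    have hle : j ''ᵁ V ≤ j.opensRange := Scheme.Hom.image_le_opensRange j V
    obtain ⟨y, hy⟩ := (pb_bijective_of_le j N hle).2 (res _ hV.le s)
    refine ⟨j ''ᵁ V, hle, ⟨x, hxV, rfl⟩, y, ?_⟩
    rw [← isGen_pb_iff_of_le j N hle, hy]
    exact hs.res _

end OI


section S1S2

variable {k : Type u} [Field k] {C : Scheme.{u}} {c : C ⟶ Spec (CommRingCat.of k)}
  {ε : SchemeHomOver (𝟙 (Spec (CommRingCat.of k))) c}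

lemma exists_rigGen {T : Scheme.{u}} {t : T ⟶ Spec (CommRingCat.of k)}
    (M : RigidifiedLineBundle c ε t) :
    ∃ ℓ : Γ((Scheme.Modules.pullback (rigSection c t ε)).obj M.L, ⊤), IsGen _ ℓ :=
  nonempty_iso_unit_iff.mp M.rigidified

/-- composition of morphisms over the base -/
abbrev shComp {S T U : Scheme.{u}} {s : S ⟶ Spec (CommRingCat.of k)}
    {t : T ⟶ Spec (CommRingCat.of k)} {u : U ⟶ Spec (CommRingCat.of k)}
    (a : SchemeHomOver s t) (b : SchemeHomOver t u) : SchemeHomOver s u :=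
  ⟨a.1 ≫ b.1, by rw [Category.assoc, b.2, a.2]⟩

lemma baseChangeSnd_shComp {S T U : Scheme.{u}} {s : S ⟶ Spec (CommRingCat.of k)}
    {t : T ⟶ Spec (CommRingCat.of k)} {u : U ⟶ Spec (CommRingCat.of k)}
    (a : SchemeHomOver s t) (b : SchemeHomOver t u) :
    baseChangeSnd c a ≫ baseChangeSnd c b = baseChangeSnd c (shComp a b) :=
  baseChangeSnd_comp c b a

lemma pullbackAlong_comp {S T U : Scheme.{u}} {s : S ⟶ Spec (CommRingCat.of k)}
    {t : T ⟶ Spec (CommRingCat.of k)} {u : U ⟶ Spec (CommRingCat.of k)}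
    (a : SchemeHomOver s t) (b : SchemeHomOver t u) (M : RigidifiedLineBundle c ε u) :
    Nonempty (((M.pullbackAlong b).pullbackAlong a).L ≅ (M.pullbackAlong (shComp a b)).L) :=
  ⟨(Scheme.Modules.pullbackComp _ _).app M.L ≪≫
    (Scheme.Modules.pullbackCongr (baseChangeSnd_shComp a b)).app M.L⟩

lemma pullbackAlong_id {T : Scheme.{u}} {t : T ⟶ Spec (CommRingCat.of k)}
    (M : RigidifiedLineBundle c ε t) :
    Nonempty ((M.pullbackAlong ⟨𝟙 T, Category.id_comp t⟩).L ≅ M.L) :=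
  ⟨(Scheme.Modules.pullbackCongr (baseChangeSnd_id c t)).app M.L ≪≫
          (Scheme.Modules.pullbackId _).app M.L⟩

/-- **S1**, user version -/
theorem iso_of_cover (hinj : RigInj c ε) {T : Scheme.{u}} {t : T ⟶ Spec (CommRingCat.of k)}
    (M M' : RigidifiedLineBundle c ε t) {ι : Type*} {S : ι → Scheme.{u}}
    {s : ∀ i, S i ⟶ Spec (CommRingCat.of k)} (ψ : ∀ i, SchemeHomOver (s i) t)
    (hψ : ∀ i, IsOpenImmersion (ψ i).1) (hcov : ∀ x : T, ∃ i, x ∈ (ψ i).1.opensRange)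
    (h : ∀ i, Nonempty ((M.pullbackAlong (ψ i)).L ≅ (M'.pullbackAlong (ψ i)).L)) :
    Nonempty (M.L ≅ M'.L) := by
  obtain ⟨ℓ, hℓ⟩ := exists_rigGen M
  obtain ⟨ℓ', hℓ'⟩ := exists_rigGen M'
  refine exists_iso_of_cover hinj M.isInvertible hℓ hℓ' (fun i ↦ (ψ i).1.opensRange) ?_ ?_
  · refine le_antisymm le_top fun x _ ↦ ?_
    obtain ⟨i, hi⟩ := hcov x
    exact Opens.mem_iSup.mpr ⟨i, hi⟩
  · intro i
    exact LIso.ofPull (baseChangeSnd c (ψ i)) (opensRange_baseChangeSnd c (ψ i)).ge (h i).some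

/-- **S2**, user version -/
theorem exists_bundle_of_cover (hinj : RigInj c ε) {T : Scheme.{u}}
    {t : T ⟶ Spec (CommRingCat.of k)} {ι : Type u} {S : ι → Scheme.{u}}
    {s : ∀ i, S i ⟶ Spec (CommRingCat.of k)} (ψ : ∀ i, SchemeHomOver (s i) t)
    (hψ : ∀ i, IsOpenImmersion (ψ i).1) (hcov : ∀ x : T, ∃ i, x ∈ (ψ i).1.opensRange)
    (M : ∀ i, RigidifiedLineBundle c ε (s i))
    (h : ∀ i j, ∃ (V : Scheme.{u}) (v : V ⟶ Spec (CommRingCat.of k)) (a : SchemeHomOver v (s i))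
      (b : SchemeHomOver v (s j)), a.1 ≫ (ψ i).1 = b.1 ≫ (ψ j).1 ∧ IsOpenImmersion a.1 ∧
      (∀ x, x ∈ (ψ i).1.opensRange → x ∈ (ψ j).1.opensRange → x ∈ Set.range (a.1 ≫ (ψ i).1)) ∧
      Nonempty (((M i).pullbackAlong a).L ≅ ((M j).pullbackAlong b).L)) :
    ∃ N : RigidifiedLineBundle c ε t, ∀ i, Nonempty ((N.pullbackAlong (ψ i)).L ≅ (M i).L) := by
  let N : ∀ i, (pullback c t).Modules := fun i ↦
    (Scheme.Modules.pushforward (baseChangeSnd c (ψ i))).obj (M i).L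
  let e : ∀ i, (Scheme.Modules.pullback (baseChangeSnd c (ψ i))).obj (N i) ≅ (M i).L := fun i ↦
    asIso ((Scheme.Modules.pullbackPushforwardAdjunction (baseChangeSnd c (ψ i))).counit.app (M i).L)
  have hN : ∀ i, InvOn (pullback.snd c t ⁻¹ᵁ (ψ i).1.opensRange) (N i) := by
    intro i
    rw [← opensRange_baseChangeSnd, invOn_opensRange_iff]
    exact IsInvertible.of_iso (M i).isInvertible (e i).symm
  have hℓ : ∀ i, ∃ ℓ : Γ((Scheme.Modules.pullback (rigSection c t ε)).obj (N i),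
      rigSection c t ε ⁻¹ᵁ (pullback.snd c t ⁻¹ᵁ (ψ i).1.opensRange)), IsGen _ ℓ := by
    intro i
    have h1 : ∃ s : Γ((Scheme.Modules.pullback (rigSection c t ε)).obj (N i), (ψ i).1.opensRange),
        IsGen _ s := by
      rw [← exists_isGen_opensRange_iff, ← nonempty_iso_unit_iff]
      exact ⟨(Scheme.Modules.pullbackComp _ _).app (N i) ≪≫
        (Scheme.Modules.pullbackCongr (rigSection_baseChangeSnd c ε (ψ i)).symm).app (N i) ≪≫
        ((Scheme.Modules.pullbackComp _ _).app (N i)).symm ≪≫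
        (Scheme.Modules.pullback (rigSection c (s i) ε)).mapIso (e i) ≪≫
        (M i).rigidified.some⟩
    obtain ⟨x, hx⟩ := h1
    exact ⟨res _ (rigSection_preimage t _).le x, hx.res _⟩
  choose ℓ hℓ using hℓ
  have hf : ∀ i j, Nonempty (LIso (pullback.snd c t ⁻¹ᵁ
      ((ψ i).1.opensRange ⊓ (ψ j).1.opensRange)) (N i) (N j)) := by
    intro i j
    obtain ⟨V, v, a, b, hab, ha, hr, ⟨f⟩⟩ := h i j
    have h1 := hψ i
    have h2 : shComp a (ψ i) = shComp b (ψ j) := Subtype.ext hab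
    have h3 : IsOpenImmersion (shComp a (ψ i)).1 := by
      change IsOpenImmersion (a.1 ≫ (ψ i).1)
      infer_instance
    refine ⟨LIso.ofPull (baseChangeSnd c (shComp a (ψ i))) ?_ ?_⟩
    · rw [opensRange_baseChangeSnd]
      refine Scheme.Hom.preimage_mono _ ?_
      rintro x ⟨hx1, hx2⟩
      exact hr x hx1 hx2
    · exact (Scheme.Modules.pullbackCongr (baseChangeSnd_shComp a (ψ i)).symm).app (N i) ≪≫
        ((Scheme.Modules.pullbackComp _ _).app (N i)).symm ≪≫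
        (Scheme.Modules.pullback (baseChangeSnd c a)).mapIso (e i) ≪≫ f ≪≫
        (Scheme.Modules.pullback (baseChangeSnd c b)).mapIso (e j).symm ≪≫
        (Scheme.Modules.pullbackComp _ _).app (N j) ≪≫
        (Scheme.Modules.pullbackCongr ((baseChangeSnd_shComp b (ψ j)).trans
          (by rw [h2]))).app (N j)
  obtain ⟨P, hP⟩ := exists_glued_bundle hinj (fun i ↦ (ψ i).1.opensRange) (by
    refine le_antisymm le_top fun x _ ↦ ?_
    obtain ⟨i, hi⟩ := hcov x
    exact Opens.mem_iSup.mpr ⟨i, hi⟩) N hN ℓ hℓ (fun i j ↦ (hf i j).some)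
  refine ⟨P, fun i ↦ ⟨?_⟩⟩
  have hpre : baseChangeSnd c (ψ i) ⁻¹ᵁ (pullback.snd c t ⁻¹ᵁ (ψ i).1.opensRange) = ⊤ := by
    rw [← opensRange_baseChangeSnd]
    exact Scheme.Hom.preimage_opensRange _
  exact (hP i).some.pull (baseChangeSnd c (ψ i)) hpre ≪≫ e i

end S1S2

end Fermat.Agent.H25
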