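import Fermat.Agent.H25S12
import Fermat.Agent.H25RelGlue
/-!
# S25: the spine: glueing Picard charts (job E1)
-/
set_option autoImplicit false
universe u v
open CategoryTheory AlgebraicGeometry CategoryTheory.Limits TopologicalSpace Opposite
open NeronModelInfra AlgebraicGeometry.RelPicard

noncomputable section

namespace Fermat.Agent.H25

/-! ### glueing morphisms of schemes along open immersions -/

section Desc

variable {P : Scheme.{u}} {ι : Type v} {X : ι → Scheme.{u}} (j : ∀ i, X i ⟶ P)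
  (hj : ∀ i, IsOpenImmersion (j i)) (hcov : ∀ x : P, ∃ i, x ∈ Set.range (j i))

/-- the open cover given by a jointly surjective family of open immersions -/
def mkCover : P.OpenCover where
  I₀ := ι
  X := X
  f := j
  mem₀ := by
    rw [Scheme.presieve₀_mem_precoverage_iff]
    exact ⟨fun x ↦ by
      obtain ⟨i, y, hy⟩ := hcov x
      exact ⟨i, y, hy⟩, hj⟩

include hj hcov in
lemma homs_ext {Z : Scheme.{u}} {f g : P ⟶ Z} (h : ∀ i, j i ≫ f = j i ≫ g) : f = g :=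
  (mkCover j hj hcov).hom_ext _ _ h

include hj hcov in
lemma exists_desc {Z : Scheme.{u}} (f : ∀ i, X i ⟶ Z)
    (h : ∀ {S : Scheme.{u}} (i i' : ι) (a : S ⟶ X i) (b : S ⟶ X i'),
      a ≫ j i = b ≫ j i' → a ≫ f i = b ≫ f i') : ∃ g : P ⟶ Z, ∀ i, j i ≫ g = f i :=
  ⟨(mkCover j hj hcov).glueMorphisms f (fun i i' ↦ h i i' _ _ pullback.condition),
    fun i ↦ (mkCover j hj hcov).ι_glueMorphisms f _ i⟩

end Desc

variable {k : Type u} [Field k] {C : Scheme.{u}} {c : C ⟶ Spec (CommRingCat.of k)}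
  {ε : SchemeHomOver (𝟙 (Spec (CommRingCat.of k))) c}

/-- a scheme with a rigidified line bundle -/
structure RB (c : C ⟶ Spec (CommRingCat.of k)) (ε : SchemeHomOver (𝟙 (Spec (CommRingCat.of k))) c) :
    Type (u + 1) where
  Y : Scheme.{u}
  y : Y ⟶ Spec (CommRingCat.of k)
  N : RigidifiedLineBundle c ε y

/-- the pullbacks of two rigidified line bundles to `S` are isomorphic -/
def BRel (B B' : RB c ε) {S : Scheme.{u}} (a : S ⟶ B.Y) (b : S ⟶ B'.Y) : Prop :=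
  ∃ (s : S ⟶ Spec (CommRingCat.of k)) (ha : a ≫ B.y = s) (hb : b ≫ B'.y = s),
    Nonempty ((B.N.pullbackAlong ⟨a, ha⟩).L ≅ (B'.N.pullbackAlong ⟨b, hb⟩).L)

lemma BRel.refl (B : RB c ε) {S : Scheme.{u}} (a : S ⟶ B.Y) : BRel B B a a :=
  ⟨_, rfl, rfl, ⟨Iso.refl _⟩⟩

lemma BRel.symm {B B' : RB c ε} {S : Scheme.{u}} {a : S ⟶ B.Y} {b : S ⟶ B'.Y}
    (h : BRel B B' a b) : BRel B' B b a := by
  obtain ⟨s, ha, hb, ⟨e⟩⟩ := h
  exact ⟨s, hb, ha, ⟨e.symm⟩⟩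

lemma BRel.trans {B B' B'' : RB c ε} {S : Scheme.{u}} {a : S ⟶ B.Y} {b : S ⟶ B'.Y} {d : S ⟶ B''.Y}
    (h : BRel B B' a b) (h' : BRel B' B'' b d) : BRel B B'' a d := by
  obtain ⟨s, ha, hb, ⟨e⟩⟩ := h
  obtain ⟨s', hb', hd, ⟨e'⟩⟩ := h'
  obtain rfl : s = s' := hb.symm.trans hb'
  exact ⟨s, ha, hd, ⟨e ≪≫ e'⟩⟩

lemma BRel.pre {B B' : RB c ε} {S S' : Scheme.{u}} {a : S ⟶ B.Y} {b : S ⟶ B'.Y} (g : S' ⟶ S)
    (h : BRel B B' a b) : BRel B B' (g ≫ a) (g ≫ b) := by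
  obtain ⟨s, ha, hb, ⟨e⟩⟩ := h
  refine ⟨g ≫ s, by rw [Category.assoc, ha], by rw [Category.assoc, hb], ?_⟩
  let γ : SchemeHomOver (g ≫ s) s := ⟨g, rfl⟩
  obtain ⟨e1⟩ := pullbackAlong_comp γ ⟨a, ha⟩ B.N
  obtain ⟨e2⟩ := pullbackAlong_comp γ ⟨b, hb⟩ B'.N
  obtain ⟨e3⟩ := RigidifiedLineBundle.pullbackAlong_congr γ
    (M := B.N.pullbackAlong ⟨a, ha⟩) (M' := B'.N.pullbackAlong ⟨b, hb⟩) ⟨e⟩
  exact ⟨e1.symm ≪≫ e3 ≪≫ e2⟩

/-- the pullback of `B` along `g : S ⟶ B.Y` is related to `B` -/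
lemma BRel.of_iso {S Y : Scheme.{u}} {s : S ⟶ Spec (CommRingCat.of k)}
    {y : Y ⟶ Spec (CommRingCat.of k)} (M : RigidifiedLineBundle c ε s)
    (N : RigidifiedLineBundle c ε y) (g : SchemeHomOver s y)
    (e : Nonempty ((N.pullbackAlong g).L ≅ M.L)) :
    BRel (⟨S, s, M⟩ : RB c ε) ⟨Y, y, N⟩ (𝟙 S) g.1 := by
  obtain ⟨e⟩ := e
  obtain ⟨e'⟩ := pullbackAlong_id M
  exact ⟨s, Category.id_comp _, g.2, ⟨e' ≪≫ e.symm⟩⟩

lemma BRel.iso {S Y : Scheme.{u}} {s : S ⟶ Spec (CommRingCat.of k)}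
    {y : Y ⟶ Spec (CommRingCat.of k)} {M : RigidifiedLineBundle c ε s}
    {N : RigidifiedLineBundle c ε y} {g : S ⟶ Y}
    (h : BRel (⟨S, s, M⟩ : RB c ε) ⟨Y, y, N⟩ (𝟙 S) g) :
    ∃ hg : g ≫ y = s, Nonempty ((N.pullbackAlong ⟨g, hg⟩).L ≅ M.L) := by
  obtain ⟨s', h1, h2, ⟨e⟩⟩ := h
  obtain rfl : s = s' := (Category.id_comp s).symm.trans h1
  obtain ⟨e'⟩ := pullbackAlong_id M
  exact ⟨h2, ⟨e.symm ≪≫ e'⟩⟩

/-- the rigidified line bundle of a chart -/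
abbrev PicChart.toRB (𝒞 : PicChart c ε) : RB c ε := ⟨𝒞.X, 𝒞.x, 𝒞.L⟩

lemma PicChart.exists_iff (𝒞 : PicChart c ε) (B : RB c ε) {S : Scheme.{u}} (a : S ⟶ B.Y) :
    (∃ b, BRel B 𝒞.toRB a b) ↔ Set.range a ⊆ 𝒞.locus B.y B.N := by
  have h := 𝒞.locus_spec B.y B.N (a ≫ B.y) ⟨a, rfl⟩
  refine Iff.trans ?_ h
  constructor
  · rintro ⟨b, s, ha, hb, ⟨e⟩⟩
    obtain rfl : s = a ≫ B.y := ha.symm
    exact ⟨⟨b, hb⟩, ⟨e.symm⟩⟩
  · rintro ⟨h, ⟨e⟩⟩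
    exact ⟨h.1, a ≫ B.y, rfl, h.2, ⟨e.symm⟩⟩

lemma PicChart.eq_of_rel (𝒞 : PicChart c ε) {S : Scheme.{u}} {a b : S ⟶ 𝒞.X}
    (h : BRel 𝒞.toRB 𝒞.toRB a b) : a = b := by
  obtain ⟨s, ha, hb, e⟩ := h
  exact congrArg Subtype.val (𝒞.mono s ⟨a, ha⟩ ⟨b, hb⟩ e)

/-- glueing data for a family of charts -/
def chartGlue {ι : Type u} (𝒞 : ι → PicChart c ε) : RelGlue.{u} where
  ι := ι
  X i := (𝒞 i).X
  V i j := (𝒞 j).locus (𝒞 i).x (𝒞 i).L
  R i j a b := BRel (𝒞 i).toRB (𝒞 j).toRB a b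
  symm h := h.symm
  trans h h' := h.trans h'
  pre g h := h.pre g
  self := ⟨fun h ↦ (𝒞 _).eq_of_rel h, fun h ↦ h ▸ BRel.refl _ _⟩
  hV {_ i} j a := (𝒞 j).exists_iff (𝒞 i).toRB a

theorem exists_glued (hinj : RigInj c ε) {ι : Type u} (𝒞 : ι → PicChart c ε) :
    ∃ (P : Scheme.{u}) (p : P ⟶ Spec (CommRingCat.of k)) (Poin : RigidifiedLineBundle c ε p)
      (j : ∀ i, SchemeHomOver (𝒞 i).x p),
      (∀ i, IsOpenImmersion (j i).1) ∧ (∀ y : P, ∃ i, y ∈ Set.range (j i).1.base) ∧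
      (∀ i, Nonempty ((Poin.pullbackAlong (j i)).L ≅ (𝒞 i).L.L)) ∧
      (∀ {T : Scheme.{u}} (t : T ⟶ Spec (CommRingCat.of k)) (M : RigidifiedLineBundle c ε t),
        (⨆ i, (𝒞 i).locus t M = ⊤) ↔
          ∃ g : SchemeHomOver t p, Nonempty ((Poin.pullbackAlong g).L ≅ M.L)) ∧
      (∀ {T : Scheme.{u}} (t : T ⟶ Spec (CommRingCat.of k)) (g g' : SchemeHomOver t p),
        Nonempty ((Poin.pullbackAlong g).L ≅ (Poin.pullbackAlong g').L) → g = g') := by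
  obtain ⟨P, j, hj, hcov, hR⟩ : ∃ (P : Scheme.{u}) (j : ∀ i, (𝒞 i).X ⟶ P),
      (∀ i, IsOpenImmersion (j i)) ∧ (∀ x : P, ∃ i, x ∈ Set.range (j i)) ∧
      ∀ {S : Scheme.{u}} (i i' : ι) (a : S ⟶ (𝒞 i).X) (b : S ⟶ (𝒞 i').X),
        a ≫ j i = b ≫ j i' ↔ BRel (𝒞 i).toRB (𝒞 i').toRB a b := exists_relGlue (chartGlue 𝒞)
  obtain ⟨p, hp⟩ := exists_desc j hj hcov (fun i ↦ (𝒞 i).x) (fun i i' a b hab ↦ by
    obtain ⟨s, ha, hb, -⟩ := (hR i i' a b).mp hab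
    exact ha.trans hb.symm)
  let J : ∀ i, SchemeHomOver (𝒞 i).x p := fun i ↦ ⟨j i, hp i⟩
  have hcov' : ∀ x : P, ∃ i, x ∈ (J i).1.opensRange := hcov
  obtain ⟨Poin, hPoin⟩ := exists_bundle_of_cover hinj J hj hcov' (fun i ↦ (𝒞 i).L) (by
    intro i i'
    have h1 : BRel (𝒞 i).toRB (𝒞 i').toRB (pullback.fst (j i) (j i')) (pullback.snd (j i) (j i')) :=
      (hR i i' _ _).mp pullback.condition
    obtain ⟨s, ha, hb, e⟩ := h1
    refine ⟨_, s, ⟨_, ha⟩, ⟨_, hb⟩, pullback.condition, ?_, ?_, e⟩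
    · have := hj i'
      change IsOpenImmersion (pullback.fst (j i) (j i'))
      infer_instance
    · rintro x ⟨y, hy⟩ ⟨y', hy'⟩
      obtain ⟨z, hz1, hz2⟩ := Scheme.Pullback.exists_preimage_pullback y y' (hy.trans hy'.symm)
      refine ⟨z, ?_⟩
      rw [Scheme.Hom.comp_apply]
      change (J i).1 ((pullback.fst (j i) (j i')) z) = x
      rw [hz1]
      exact hy)
  -- the relation between `Poin` and the charts
  let BP : RB c ε := ⟨P, p, Poin⟩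
  have hrel : ∀ i, BRel (𝒞 i).toRB BP (𝟙 _) (j i) := fun i ↦
    BRel.of_iso (𝒞 i).L Poin (J i) (hPoin i)
  have hrel' : ∀ {S : Scheme.{u}} (i : ι) (a : S ⟶ (𝒞 i).X), BRel (𝒞 i).toRB BP a (a ≫ j i) := by
    intro S i a
    have h1 : BRel (𝒞 i).toRB BP (a ≫ 𝟙 (𝒞 i).X) (a ≫ j i) := (hrel i).pre a
    rwa [Category.comp_id] at h1
  refine ⟨P, p, Poin, J, hj, hcov, hPoin, ?_, ?_⟩
  · intro T t M
    let BM : RB c ε := ⟨T, t, M⟩
    constructor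
    · intro hsup
      have h1 : ∀ i, ∃ b : ((𝒞 i).locus t M).toScheme ⟶ (𝒞 i).X, BRel BM (𝒞 i).toRB ((𝒞 i).locus t M).ι b := fun i ↦
        ((𝒞 i).exists_iff BM _).mpr (by rw [Scheme.Opens.range_ι])
      choose h hh using h1
      have hcovT : ∀ x : T, ∃ i, x ∈ Set.range ((𝒞 i).locus t M).ι := by
        intro x
        obtain ⟨i, hi⟩ := Opens.mem_iSup.mp (hsup.ge (trivial : x ∈ (⊤ : T.Opens)))
        exact ⟨i, by rw [Scheme.Opens.range_ι]; exact hi⟩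
      obtain ⟨g, hg⟩ := exists_desc (fun i ↦ ((𝒞 i).locus t M).ι) (fun i ↦ inferInstance) hcovT
        (fun i ↦ h i ≫ j i) (by
          intro S i i' a b hab
          rw [← Category.assoc, ← Category.assoc, hR]
          have e1 := (hh i).pre a
          have e2 := (hh i').pre b
          rw [hab] at e1
          exact e1.symm.trans e2)
      have hgp : g ≫ p = t := by
        refine homs_ext (fun i ↦ ((𝒞 i).locus t M).ι) (fun i ↦ inferInstance) hcovT fun i ↦ ?_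
        rw [← Category.assoc, hg, Category.assoc, hp]
        obtain ⟨s, ha, hb, -⟩ := hh i
        exact hb.trans ha.symm
      refine ⟨⟨g, hgp⟩, ?_⟩
      refine iso_of_cover hinj _ _ (fun i ↦ ⟨((𝒞 i).locus t M).ι, rfl⟩)
        (fun i ↦ inferInstance) (fun x ↦ ?_) fun i ↦ ?_
      · obtain ⟨i, hi⟩ := hcovT x
        exact ⟨i, hi⟩
      · have e1 := (hh i).trans (hrel' i (h i))
        rw [← hg] at e1
        obtain ⟨s, ha, hb, ⟨e⟩⟩ := e1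
        obtain rfl : ((𝒞 i).locus t M).ι ≫ t = s := ha
        obtain ⟨e2⟩ := pullbackAlong_comp (⟨((𝒞 i).locus t M).ι, rfl⟩ :
          SchemeHomOver (((𝒞 i).locus t M).ι ≫ t) t) ⟨g, hgp⟩ Poin
        exact ⟨e2 ≪≫ e.symm⟩
    · rintro ⟨g, e⟩
      have h1 : BRel BM BP (𝟙 T) g.1 := BRel.of_iso M Poin g e
      refine le_antisymm le_top fun x _ ↦ ?_
      obtain ⟨i, hi⟩ := hcov' (g.1 x)
      refine Opens.mem_iSup.mpr ⟨i, ?_⟩
      let S : T.Opens := g.1 ⁻¹ᵁ (j i).opensRange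
      have := hj i
      have hr : Set.range (S.ι ≫ g.1) ⊆ Set.range (j i) := by
        rintro _ ⟨y, rfl⟩
        exact y.2
      have h2 : BRel BM (𝒞 i).toRB S.ι
          (show S.toScheme ⟶ (𝒞 i).X from IsOpenImmersion.lift (j i) (S.ι ≫ g.1) hr) := by
        have e1 := h1.pre S.ι
        rw [Category.comp_id] at e1
        have e2 := hrel' i (IsOpenImmersion.lift (j i) (S.ι ≫ g.1) hr)
        rw [IsOpenImmersion.lift_fac] at e2
        exact e1.trans e2.symm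
      have h3 := ((𝒞 i).exists_iff BM S.ι).mp ⟨_, h2⟩
      rw [Scheme.Opens.range_ι] at h3
      exact h3 hi
  · intro T t g g' e
    have h1 : BRel BP BP g.1 g'.1 := ⟨t, g.2, g'.2, e⟩
    refine Subtype.ext ?_
    refine Scheme.hom_ext_of_forall _ _ fun x ↦ ?_
    obtain ⟨i, hi⟩ := hcov' (g.1 x)
    obtain ⟨i', hi'⟩ := hcov' (g'.1 x)
    let S : T.Opens := g.1 ⁻¹ᵁ (j i).opensRange ⊓ g'.1 ⁻¹ᵁ (j i').opensRange
    refine ⟨S, ⟨hi, hi'⟩, ?_⟩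
    have := hj i
    have := hj i'
    have hr : Set.range (S.ι ≫ g.1) ⊆ Set.range (j i) := by
      rintro _ ⟨y, rfl⟩
      exact y.2.1
    have hr' : Set.range (S.ι ≫ g'.1) ⊆ Set.range (j i') := by
      rintro _ ⟨y, rfl⟩
      exact y.2.2
    rw [← IsOpenImmersion.lift_fac (j i) (S.ι ≫ g.1) hr,
      ← IsOpenImmersion.lift_fac (j i') (S.ι ≫ g'.1) hr', hR]
    have e1 := hrel' i (IsOpenImmersion.lift (j i) (S.ι ≫ g.1) hr)
    have e2 := hrel' i' (IsOpenImmersion.lift (j i') (S.ι ≫ g'.1) hr')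
    rw [IsOpenImmersion.lift_fac] at e1 e2
    exact e1.trans ((h1.pre S.ι).trans e2.symm)

end Fermat.Agent.H25
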