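import Mathlib

/-!
# S47, block (C), package C14: the place `v₀` (good inert), Iwahori level, local comparison

`K` is a field with a valuation `v`, `s` an automorphism preserving `v`.
`Cell v c` = `K^* I diag(a,1) I` for `v a = c` (`I` = Iwahori subgroup).
-/

set_option autoImplicit false

namespace Fermat.Agent.H25V

open Matrix
open scoped MatrixGroups

section Cell

variable {K : Type*} [Field K] {Γ₀ : Type*} [LinearOrderedCommGroupWithZero Γ₀]
variable (v : Valuation K Γ₀)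

/-- the (scalar invariant) cell: `K^* I diag(a,1) I` with `v a = c` -/
def Cell (c : Γ₀) (g : Matrix (Fin 2) (Fin 2) K) : Prop :=
  v (g 0 0) ≤ v (g 1 1) ∧ v (g 0 1) ≤ v (g 1 1) ∧ v (g 1 0) < v (g 1 1) ∧
    v g.det = c * v (g 1 1) ^ 2

theorem mul_lt_of_lt_of_le {a b c d : Γ₀} (h : a < b) (h' : c ≤ d) (hd : 0 < d) :
    a * c < b * d :=
  (mul_le_mul_right h' a).trans_lt (mul_lt_mul_of_pos_right h hd)

theorem mul_lt_of_le_of_lt {a b c d : Γ₀} (h : a ≤ b) (h' : c < d) (hb : 0 < b) :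
    a * c < b * d := by
  rw [mul_comm a, mul_comm b]
  exact mul_lt_of_lt_of_le h' h hb

variable {v}

theorem Cell.pos {c : Γ₀} {g : Matrix (Fin 2) (Fin 2) K} (h : Cell v c g) : 0 < v (g 1 1) :=
  lt_of_le_of_lt zero_le h.2.2.1

theorem Cell.ne {c : Γ₀} {g : Matrix (Fin 2) (Fin 2) K} (h : Cell v c g) : g 1 1 ≠ 0 :=
  v.pos_iff.mp h.pos

theorem Cell.smul {c : Γ₀} {g : Matrix (Fin 2) (Fin 2) K} (h : Cell v c g) {z : K} (hz : z ≠ 0) :
    Cell v c (z • g) := by
  have hz' : 0 < v z := v.pos_iff.mpr hz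
  obtain ⟨h1, h2, h3, h4⟩ := h
  refine ⟨?_, ?_, ?_, ?_⟩
  · simpa [Matrix.smul_apply] using mul_le_mul_right h1 (v z)
  · simpa [Matrix.smul_apply] using mul_le_mul_right h2 (v z)
  · simpa [Matrix.smul_apply] using (mul_lt_mul_iff_right₀ hz').mpr h3
  · rw [Matrix.det_smul, Fintype.card_fin, map_mul, map_pow, h4, Matrix.smul_apply, smul_eq_mul,
      map_mul, mul_pow]
    exact mul_left_comm _ _ _

theorem cell_smul {c : Γ₀} {g : Matrix (Fin 2) (Fin 2) K} {z : K} (hz : z ≠ 0) :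
    Cell v c (z • g) ↔ Cell v c g := by
  refine ⟨fun h => ?_, fun h => h.smul hz⟩
  have := h.smul (inv_ne_zero hz)
  rwa [smul_smul, inv_mul_cancel₀ hz, one_smul] at this

theorem Cell.mul {c c' : Γ₀} {g g' : Matrix (Fin 2) (Fin 2) K} (h : Cell v c g)
    (h' : Cell v c' g') : Cell v (c * c') (g * g') := by
  have hp := h.pos
  have hp' := h'.pos
  obtain ⟨h1, h2, h3, h4⟩ := h
  obtain ⟨h1', h2', h3', h4'⟩ := h'
  have e11 : v ((g * g') 1 1) = v (g 1 1) * v (g' 1 1) := by
    rw [Matrix.mul_apply, Fin.sum_univ_two, ← map_mul]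
    apply Valuation.map_add_eq_of_lt_right
    rw [map_mul, map_mul]
    exact mul_lt_of_lt_of_le h3 h2' hp'
  refine ⟨?_, ?_, ?_, ?_⟩
  · rw [e11, Matrix.mul_apply, Fin.sum_univ_two]
    refine (v.map_add _ _).trans (max_le ?_ ?_)
    · rw [map_mul]; exact mul_le_mul' h1 h1'
    · rw [map_mul]; exact mul_le_mul' h2 h3'.le
  · rw [e11, Matrix.mul_apply, Fin.sum_univ_two]
    refine (v.map_add _ _).trans (max_le ?_ ?_)
    · rw [map_mul]; exact mul_le_mul' h1 h2'
    · rw [map_mul]; exact mul_le_mul' h2 le_rfl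
  · rw [e11, Matrix.mul_apply, Fin.sum_univ_two]
    refine (v.map_add _ _).trans_lt (max_lt ?_ ?_)
    · rw [map_mul]; exact mul_lt_of_lt_of_le h3 h1' hp'
    · rw [map_mul]; exact mul_lt_of_le_of_lt le_rfl h3' hp
  · rw [e11, Matrix.det_mul, map_mul, h4, h4', mul_pow]
    exact mul_mul_mul_comm _ _ _ _

theorem cell_one : Cell v 1 (1 : Matrix (Fin 2) (Fin 2) K) := by
  simp [Cell]

theorem Cell.v00 {c : Γ₀} (hc : c = 1) {g : Matrix (Fin 2) (Fin 2) K} (h : Cell v c g) :
    v (g 0 0) = v (g 1 1) := by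
  have hp := h.pos
  obtain ⟨h1, h2, h3, h4⟩ := h
  subst hc
  rw [one_mul] at h4
  have h5 : v (g 0 0 * g 1 1) = v (g 1 1) ^ 2 := by
    have : g 0 0 * g 1 1 = g.det + g 0 1 * g 1 0 := by rw [Matrix.det_fin_two]; ring
    rw [this, ← h4]
    apply Valuation.map_add_eq_of_lt_left
    rw [h4, map_mul, pow_two]
    exact mul_lt_of_le_of_lt h2 h3 hp
  rw [map_mul, pow_two] at h5
  exact mul_right_cancel₀ hp.ne' h5

/-- the inverse of an element of the (scalars times) Iwahori group -/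
theorem Cell.adjugate {g : Matrix (Fin 2) (Fin 2) K} (h : Cell v 1 g) :
    Cell v 1 g.adjugate := by
  have h0 := h.v00 rfl
  obtain ⟨h1, h2, h3, h4⟩ := h
  rw [Matrix.adjugate_fin_two]
  refine ⟨?_, ?_, ?_, ?_⟩
  · simp [h0]
  · simpa [h0] using h2
  · simpa [h0] using h3
  · rw [one_mul] at h4 ⊢
    have : (!![g 1 1, -g 0 1; -g 1 0, g 0 0] : Matrix (Fin 2) (Fin 2) K).det = g.det := by
      rw [Matrix.det_fin_two, Matrix.det_fin_two]; simp; ring
    rw [this, h4]
    simp [h0]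

theorem Cell.inv {g : GL (Fin 2) K} (h : Cell v 1 (g : Matrix (Fin 2) (Fin 2) K)) :
    Cell v 1 ((g⁻¹ : GL (Fin 2) K) : Matrix (Fin 2) (Fin 2) K) := by
  have : ((g⁻¹ : GL (Fin 2) K) : Matrix (Fin 2) (Fin 2) K) =
      (Ring.inverse (g : Matrix (Fin 2) (Fin 2) K).det) • (g : Matrix (Fin 2) (Fin 2) K).adjugate := by
    rw [Matrix.coe_units_inv, Matrix.inv_def]
  rw [this]
  apply h.adjugate.smul
  have hd : (g : Matrix (Fin 2) (Fin 2) K).det ≠ 0 := by
    intro hd
    have := h.2.2.2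
    rw [hd, map_zero, one_mul] at this
    exact (pow_pos h.pos 2).ne' this.symm
  rw [Ring.inverse_eq_inv']
  exact inv_ne_zero hd

variable (v) in
/-- the group `K^* I` in `GL₂(K)` -/
def IwGL : Subgroup (GL (Fin 2) K) where
  carrier := {g | Cell v 1 (g : Matrix (Fin 2) (Fin 2) K)}
  mul_mem' := fun {a b} ha hb => by
    have := Cell.mul ha hb
    rwa [one_mul, ← Units.val_mul] at this
  one_mem' := cell_one
  inv_mem' := fun {a} ha => Cell.inv ha

theorem mem_IwGL {g : GL (Fin 2) K} : g ∈ IwGL v ↔ Cell v 1 (g : Matrix (Fin 2) (Fin 2) K) :=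
  Iff.rfl

/-- bi-invariance of the cells -/
theorem cell_mul_iff {c : Γ₀} {i g j : GL (Fin 2) K} (hi : i ∈ IwGL v) (hj : j ∈ IwGL v) :
    Cell v c ((i * g * j : GL (Fin 2) K) : Matrix (Fin 2) (Fin 2) K) ↔
      Cell v c (g : Matrix (Fin 2) (Fin 2) K) := by
  have key : ∀ {i g j : GL (Fin 2) K}, i ∈ IwGL v → j ∈ IwGL v →
      Cell v c (g : Matrix (Fin 2) (Fin 2) K) →
      Cell v c ((i * g * j : GL (Fin 2) K) : Matrix (Fin 2) (Fin 2) K) := by
    intro i g j hi hj h
    have := (Cell.mul (Cell.mul hi h) hj)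
    rwa [one_mul, mul_one, ← Units.val_mul, ← Units.val_mul] at this
  refine ⟨fun h => ?_, key hi hj⟩
  have := key (inv_mem hi) (inv_mem hj) h
  rwa [show i⁻¹ * (i * g * j) * j⁻¹ = g by group] at this

end Cell

section Explicit

variable {K : Type*} [Field K]

/-- diagonal matrices -/
def dg (a d : Kˣ) : GL (Fin 2) K :=
  ⟨!![(a : K), 0; 0, d], !![((a⁻¹ : Kˣ) : K), 0; 0, ((d⁻¹ : Kˣ) : K)],
    by simp [Matrix.one_fin_two], by simp [Matrix.one_fin_two]⟩

/-- upper unipotent -/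
def nn (x : K) : GL (Fin 2) K :=
  ⟨!![1, x; 0, 1], !![1, -x; 0, 1], by simp [Matrix.one_fin_two], by simp [Matrix.one_fin_two]⟩

/-- lower unipotent -/
def ln (x : K) : GL (Fin 2) K :=
  ⟨!![1, 0; x, 1], !![1, 0; -x, 1], by simp [Matrix.one_fin_two], by simp [Matrix.one_fin_two]⟩

/-- the Weyl element -/
def ww : GL (Fin 2) K :=
  ⟨!![0, 1; 1, 0], !![0, 1; 1, 0], by simp [Matrix.one_fin_two], by simp [Matrix.one_fin_two]⟩

@[simp] theorem coe_dg (a d : Kˣ) :
    ((dg a d : GL (Fin 2) K) : Matrix (Fin 2) (Fin 2) K) = !![(a : K), 0; 0, d] := rfl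
theorem coe_dg_inv (a d : Kˣ) :
    (((dg a d)⁻¹ : GL (Fin 2) K) : Matrix (Fin 2) (Fin 2) K) =
      !![((a⁻¹ : Kˣ) : K), 0; 0, ((d⁻¹ : Kˣ) : K)] := rfl
@[simp] theorem coe_nn (x : K) :
    ((nn x : GL (Fin 2) K) : Matrix (Fin 2) (Fin 2) K) = !![1, x; 0, 1] := rfl
theorem coe_nn_inv (x : K) :
    (((nn x)⁻¹ : GL (Fin 2) K) : Matrix (Fin 2) (Fin 2) K) = !![1, -x; 0, 1] := rfl
@[simp] theorem coe_ln (x : K) :
    ((ln x : GL (Fin 2) K) : Matrix (Fin 2) (Fin 2) K) = !![1, 0; x, 1] := rfl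
@[simp] theorem coe_ww : ((ww : GL (Fin 2) K) : Matrix (Fin 2) (Fin 2) K) = !![0, 1; 1, 0] := rfl

theorem dg_inv (a d : Kˣ) : (dg a d)⁻¹ = dg a⁻¹ d⁻¹ := rfl

theorem dg_mul (a d a' d' : Kˣ) : dg a d * dg a' d' = dg (a * a') (d * d') := by
  apply Units.ext
  simp [Units.val_mul]

theorem nn_inv (x : K) : (nn x)⁻¹ = nn (-x) := by
  apply Units.ext
  rw [coe_nn_inv, coe_nn]

theorem ww_inv : (ww : GL (Fin 2) K)⁻¹ = ww := rfl

theorem nn_mul_ww (x : K) : nn x * ww = ww * ln x := by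
  apply Units.ext
  simp [Units.val_mul]

theorem map_dg {L : Type*} [Field L] (f : K →+* L) (a d : Kˣ) :
    GeneralLinearGroup.map f (dg a d) = dg (Units.map f a) (Units.map f d) := by
  apply Units.ext
  ext i j
  fin_cases i <;> fin_cases j <;> simp

theorem map_nn {L : Type*} [Field L] (f : K →+* L) (x : K) :
    GeneralLinearGroup.map f (nn x) = nn (f x) := by
  apply Units.ext
  ext i j
  fin_cases i <;> fin_cases j <;> simp

theorem map_ww {L : Type*} [Field L] (f : K →+* L) :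
    GeneralLinearGroup.map f (ww : GL (Fin 2) K) = ww := by
  apply Units.ext
  ext i j
  fin_cases i <;> fin_cases j <;> simp

variable {Γ₀ : Type*} [LinearOrderedCommGroupWithZero Γ₀] {v : Valuation K Γ₀}

theorem nn_mem {x : K} (hx : v x ≤ 1) : nn x ∈ IwGL v := by
  rw [mem_IwGL, Cell]
  simpa using hx

theorem ln_mem {x : K} (hx : v x < 1) : ln x ∈ IwGL v := by
  rw [mem_IwGL, Cell]
  simpa using hx

theorem dg_mem {a d : Kˣ} (h : v (a : K) = v (d : K)) : dg a d ∈ IwGL v := by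
  rw [mem_IwGL, Cell]
  simp only [coe_dg]
  refine ⟨by simp [h], by simp, by simp [v.pos_iff], ?_⟩
  rw [Matrix.det_fin_two]
  simp [h, pow_two]

/-- **Iwasawa decomposition** relative to the Iwahori group -/
theorem iwasawa (v : Valuation K Γ₀) (g : GL (Fin 2) K) :
    (∃ (a d : Kˣ) (x : K) (i : GL (Fin 2) K), i ∈ IwGL v ∧ g = dg a d * nn x * i) ∨
    (∃ (a d : Kˣ) (x : K) (i : GL (Fin 2) K), i ∈ IwGL v ∧ g = dg a d * nn x * ww * i) := by
  have hdet : (g : Matrix (Fin 2) (Fin 2) K).det ≠ 0 := g.det_ne_zero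
  rw [Matrix.det_fin_two] at hdet
  by_cases h : v (g 1 0) < v (g 1 1)
  · left
    have hd : g 1 1 ≠ 0 := v.pos_iff.mp (lt_of_le_of_lt zero_le h)
    have ha : g 0 0 - g 0 1 * (g 1 0 / g 1 1) ≠ 0 := by
      intro h0
      apply hdet
      have : g 0 0 = g 0 1 * (g 1 0 / g 1 1) := sub_eq_zero.mp h0
      rw [this]; field_simp; ring
    refine ⟨Units.mk0 _ ha, Units.mk0 _ hd,
      g 0 1 / (g 0 0 - g 0 1 * (g 1 0 / g 1 1)), ln (g 1 0 / g 1 1), ln_mem ?_, ?_⟩
    · rw [map_div₀]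
      exact (div_lt_one₀ (v.pos_iff.mpr hd)).mpr h
    · apply Units.ext
      ext i j
      fin_cases i <;> fin_cases j <;> simp [Units.val_mul, Matrix.mul_apply, Fin.sum_univ_two] <;>
        field_simp <;> ring
  · right
    push Not at h
    have hc : g 1 0 ≠ 0 := by
      intro hc
      rw [hc, map_zero] at h
      have : g 1 1 = 0 := (map_eq_zero v).mp (le_antisymm h zero_le)
      apply hdet
      rw [hc, this]; ring
    have ha : g 0 1 - g 0 0 * (g 1 1 / g 1 0) ≠ 0 := by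
      intro h0
      apply hdet
      have : g 0 1 = g 0 0 * (g 1 1 / g 1 0) := sub_eq_zero.mp h0
      rw [this]; field_simp; ring
    refine ⟨Units.mk0 _ ha, Units.mk0 _ hc,
      g 0 0 / (g 0 1 - g 0 0 * (g 1 1 / g 1 0)), nn (g 1 1 / g 1 0), nn_mem ?_, ?_⟩
    · rw [map_div₀]
      exact (div_le_one₀ (v.pos_iff.mpr hc)).mpr h
    · have h1 : (g 0 1 - g 0 0 * (g 1 1 / g 1 0)) *
          (g 0 0 / (g 0 1 - g 0 0 * (g 1 1 / g 1 0))) = g 0 0 := mul_div_cancel₀ _ ha
      have h2 : g 1 0 * (g 1 1 / g 1 0) = g 1 1 := mul_div_cancel₀ _ hc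
      apply Units.ext
      ext i j
      fin_cases i <;> fin_cases j <;>
        simp [Units.val_mul, Matrix.mul_apply, Fin.sum_univ_two, h1, h2]

end Explicit

section Twist

variable {K : Type*} [Field K] {Γ₀ : Type*} [LinearOrderedCommGroupWithZero Γ₀]
  {v : Valuation K Γ₀}

theorem cell_map {s : K →+* K} (hs : ∀ x, v (s x) = v x) {c : Γ₀} {g : GL (Fin 2) K} :
    Cell v c ((GeneralLinearGroup.map s g : GL (Fin 2) K) : Matrix (Fin 2) (Fin 2) K) ↔
      Cell v c (g : Matrix (Fin 2) (Fin 2) K) := by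
  have hdet : ((GeneralLinearGroup.map s g : GL (Fin 2) K) : Matrix (Fin 2) (Fin 2) K).det =
      s (g : Matrix (Fin 2) (Fin 2) K).det := by
    rw [Matrix.det_fin_two, Matrix.det_fin_two]; simp
  rw [Cell, Cell, hdet, hs]
  simp [hs]

theorem map_mem {s : K →+* K} (hs : ∀ x, v (s x) = v x) {i : GL (Fin 2) K} (hi : i ∈ IwGL v) :
    GeneralLinearGroup.map s i ∈ IwGL v := by
  rw [mem_IwGL, cell_map hs]
  exact hi

theorem cell_upper {c : Γ₀} (hc : c < 1) {α β x y : K} (hβ : β ≠ 0) (hy : v y = v x)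
    (h : Cell v c !![α, α * y - x * β; 0, β]) : v α = c * v β ∧ v x ≤ 1 := by
  obtain ⟨h1, h2, h3, h4⟩ := h
  have hβ' : 0 < v β := v.pos_iff.mpr hβ
  rw [Matrix.det_fin_two] at h4
  simp only [Matrix.of_apply, Matrix.cons_val', Matrix.cons_val_zero, Matrix.cons_val_one,
    Matrix.cons_val_fin_one, mul_zero, sub_zero, map_mul, pow_two] at h1 h2 h3 h4
  have h5 : v α = c * v β := by
    rw [← mul_assoc] at h4
    exact mul_right_cancel₀ hβ'.ne' h4
  refine ⟨h5, ?_⟩
  by_cases hx : x = 0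
  · rw [hx, map_zero]; exact zero_le
  have hx' : 0 < v x := v.pos_iff.mpr hx
  have hlt : v (α * y) < v (x * β) := by
    rw [map_mul, map_mul, h5, hy, mul_comm (v x), mul_assoc]
    calc c * (v β * v x) < 1 * (v β * v x) := mul_lt_mul_of_pos_right hc (mul_pos hβ' hx')
      _ = v β * v x := one_mul _
  have h6 : v (α * y - x * β) = v (x * β) := Valuation.map_sub_eq_of_lt_right v hlt
  rw [h6, map_mul] at h2
  by_contra hcon
  push Not at hcon
  exact absurd h2 (not_le.mpr (by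
    calc v β = 1 * v β := (one_mul _).symm
      _ < v x * v β := mul_lt_mul_of_pos_right hcon hβ'))

theorem cell_lower {c : Γ₀} (hc : c < 1) {α β x y : K} (hα : α ≠ 0) (hβ : β ≠ 0) (hy : v y = v x)
    (h : Cell v c !![β, 0; α * y - x * β, α]) : v β = c * v α ∧ v x < 1 := by
  obtain ⟨h1, h2, h3, h4⟩ := h
  have hα' : 0 < v α := v.pos_iff.mpr hα
  have hβ' : 0 < v β := v.pos_iff.mpr hβ
  rw [Matrix.det_fin_two] at h4
  simp only [Matrix.of_apply, Matrix.cons_val', Matrix.cons_val_zero, Matrix.cons_val_one,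
    Matrix.cons_val_fin_one, zero_mul, sub_zero, map_mul, pow_two] at h1 h2 h3 h4
  have h5 : v β = c * v α := by
    rw [← mul_assoc] at h4
    exact mul_right_cancel₀ hα'.ne' h4
  refine ⟨h5, ?_⟩
  by_cases hx : x = 0
  · rw [hx, map_zero]; exact zero_lt_one
  have hx' : 0 < v x := v.pos_iff.mpr hx
  have hlt : v (x * β) < v (α * y) := by
    rw [map_mul, map_mul, h5, hy, mul_comm (v x), mul_assoc]
    calc c * (v α * v x) < 1 * (v α * v x) := mul_lt_mul_of_pos_right hc (mul_pos hα' hx')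
      _ = v α * v x := one_mul _
  have h6 : v (α * y - x * β) = v (α * y) := Valuation.map_sub_eq_of_lt_left v hlt
  rw [h6, map_mul, hy] at h3
  by_contra hcon
  push Not at hcon
  exact absurd h3 (not_lt.mpr (by
    calc v α = v α * 1 := (mul_one _).symm
      _ ≤ v α * v x := mul_le_mul_right hcon _))

theorem cell_twist_diag {s : K →+* K} (hs : ∀ x, v (s x) = v x) {c : Γ₀} (hc : c < 1)
    {δ ε : Kˣ} {g : GL (Fin 2) K}
    (h : Cell v c ((g⁻¹ * dg δ ε * GeneralLinearGroup.map s g : GL (Fin 2) K) :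
      Matrix (Fin 2) (Fin 2) K)) :
    (v (δ : K) = c * v (ε : K) ∧ ∃ a d : Kˣ, ∃ i ∈ IwGL v, g = dg a d * i) ∨
    (v (ε : K) = c * v (δ : K) ∧ ∃ a d : Kˣ, ∃ i ∈ IwGL v, g = dg a d * ww * i) := by
  rcases iwasawa v g with ⟨a, d, x, i, hi, rfl⟩ | ⟨a, d, x, i, hi, rfl⟩
  · left
    have e1 : ((dg a d * nn x * i)⁻¹ * dg δ ε * GeneralLinearGroup.map s (dg a d * nn x * i)) =
        i⁻¹ * ((nn x)⁻¹ * (dg a d)⁻¹ * dg δ ε * dg (Units.map s a) (Units.map s d) * nn (s x)) *
          GeneralLinearGroup.map s i := by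
      rw [map_mul, map_mul, map_dg, map_nn]
      simp only [_root_.mul_inv_rev, mul_assoc]
    have e2 : (((nn x)⁻¹ * (dg a d)⁻¹ * dg δ ε * dg (Units.map s a) (Units.map s d) * nn (s x) :
        GL (Fin 2) K) : Matrix (Fin 2) (Fin 2) K) =
        !![((a⁻¹ * δ * Units.map s a : Kˣ) : K),
          ((a⁻¹ * δ * Units.map s a : Kˣ) : K) * s x - x * ((d⁻¹ * ε * Units.map s d : Kˣ) : K);
          0, ((d⁻¹ * ε * Units.map s d : Kˣ) : K)] := by
      rw [nn_inv, dg_inv]
      simp [Units.val_mul]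
      ring
    rw [e1, cell_mul_iff (inv_mem hi) (map_mem hs hi), e2] at h
    obtain ⟨h1, h2⟩ := cell_upper hc (Units.ne_zero _) (hs x) h
    have va : v (((a⁻¹ * δ * Units.map s a : Kˣ) : K)) = v (δ : K) := by
      have : v (a : K) ≠ 0 := (v.ne_zero_iff).mpr a.ne_zero
      simp only [Units.val_mul, Units.coe_map, MonoidHom.coe_coe, map_mul, hs,
        Units.val_inv_eq_inv_val, map_inv₀]
      field_simp
    have vd : v (((d⁻¹ * ε * Units.map s d : Kˣ) : K)) = v (ε : K) := by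
      have : v (d : K) ≠ 0 := (v.ne_zero_iff).mpr d.ne_zero
      simp only [Units.val_mul, Units.coe_map, MonoidHom.coe_coe, map_mul, hs,
        Units.val_inv_eq_inv_val, map_inv₀]
      field_simp
    rw [va, vd] at h1
    exact ⟨h1, a, d, nn x * i, mul_mem (nn_mem h2) hi, (mul_assoc _ _ _)⟩
  · right
    have e1 : ((dg a d * nn x * ww * i)⁻¹ * dg δ ε *
        GeneralLinearGroup.map s (dg a d * nn x * ww * i)) =
        i⁻¹ * (ww⁻¹ * (nn x)⁻¹ * (dg a d)⁻¹ * dg δ ε * dg (Units.map s a) (Units.map s d) *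
          nn (s x) * ww) * GeneralLinearGroup.map s i := by
      rw [map_mul, map_mul, map_mul, map_dg, map_nn, map_ww]
      simp only [_root_.mul_inv_rev, mul_assoc]
    have e2 : ((ww⁻¹ * (nn x)⁻¹ * (dg a d)⁻¹ * dg δ ε * dg (Units.map s a) (Units.map s d) *
          nn (s x) * ww :
        GL (Fin 2) K) : Matrix (Fin 2) (Fin 2) K) =
        !![((d⁻¹ * ε * Units.map s d : Kˣ) : K), 0;
          ((a⁻¹ * δ * Units.map s a : Kˣ) : K) * s x - x * ((d⁻¹ * ε * Units.map s d : Kˣ) : K),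
          ((a⁻¹ * δ * Units.map s a : Kˣ) : K)] := by
      rw [nn_inv, dg_inv, ww_inv]
      simp [Units.val_mul]
      ring
    rw [e1, cell_mul_iff (inv_mem hi) (map_mem hs hi), e2] at h
    obtain ⟨h1, h2⟩ := cell_lower hc (Units.ne_zero _) (Units.ne_zero _) (hs x) h
    have va : v (((a⁻¹ * δ * Units.map s a : Kˣ) : K)) = v (δ : K) := by
      have : v (a : K) ≠ 0 := (v.ne_zero_iff).mpr a.ne_zero
      simp only [Units.val_mul, Units.coe_map, MonoidHom.coe_coe, map_mul, hs,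
        Units.val_inv_eq_inv_val, map_inv₀]
      field_simp
    have vd : v (((d⁻¹ * ε * Units.map s d : Kˣ) : K)) = v (ε : K) := by
      have : v (d : K) ≠ 0 := (v.ne_zero_iff).mpr d.ne_zero
      simp only [Units.val_mul, Units.coe_map, MonoidHom.coe_coe, map_mul, hs,
        Units.val_inv_eq_inv_val, map_inv₀]
      field_simp
    rw [va, vd] at h1
    refine ⟨h1, a, d, ln x * i, mul_mem (ln_mem h2) hi, ?_⟩
    rw [mul_assoc (dg a d), nn_mul_ww]
    simp only [mul_assoc]

theorem v_conj {s : K →+* K} (hs : ∀ x, v (s x) = v x) (a δ : Kˣ) :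
    v (((a⁻¹ * δ * Units.map s a : Kˣ) : K)) = v (δ : K) := by
  have : v (a : K) ≠ 0 := (v.ne_zero_iff).mpr a.ne_zero
  simp only [Units.val_mul, Units.coe_map, MonoidHom.coe_coe, map_mul, hs,
    Units.val_inv_eq_inv_val, map_inv₀]
  field_simp

theorem cell_dg {c : Γ₀} (hc : c ≤ 1) {α β : Kˣ} (h : v (α : K) = c * v (β : K)) :
    Cell v c ((dg α β : GL (Fin 2) K) : Matrix (Fin 2) (Fin 2) K) := by
  have hβ : 0 < v (β : K) := v.pos_iff.mpr β.ne_zero
  rw [Cell, Matrix.det_fin_two]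
  simp only [coe_dg, Matrix.of_apply, Matrix.cons_val', Matrix.cons_val_zero, Matrix.cons_val_one,
    Matrix.cons_val_fin_one, mul_zero, sub_zero, map_mul, pow_two, map_zero]
  refine ⟨?_, zero_le, hβ, ?_⟩
  · rw [h]
    exact mul_le_of_le_one_left' hc
  · rw [h, mul_assoc]

theorem cell_twist_of_dg {s : K →+* K} (hs : ∀ x, v (s x) = v x) {c : Γ₀} (hc : c ≤ 1)
    {δ ε : Kˣ} (h : v (δ : K) = c * v (ε : K)) (a d : Kˣ) {i : GL (Fin 2) K} (hi : i ∈ IwGL v) :
    Cell v c (((dg a d * i)⁻¹ * dg δ ε * GeneralLinearGroup.map s (dg a d * i) : GL (Fin 2) K) :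
      Matrix (Fin 2) (Fin 2) K) := by
  have e1 : ((dg a d * i)⁻¹ * dg δ ε * GeneralLinearGroup.map s (dg a d * i)) =
      i⁻¹ * (dg (a⁻¹ * δ * Units.map s a) (d⁻¹ * ε * Units.map s d)) *
        GeneralLinearGroup.map s i := by
    rw [map_mul, map_dg]
    have : dg (a⁻¹ * δ * Units.map (s : K →* K) a) (d⁻¹ * ε * Units.map (s : K →* K) d) =
        (dg a d)⁻¹ * dg δ ε * dg (Units.map s a) (Units.map s d) := by
      rw [dg_inv]
      apply Units.ext
      simp [Units.val_mul]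
    rw [this]
    simp only [_root_.mul_inv_rev, mul_assoc]
  rw [e1, cell_mul_iff (inv_mem hi) (map_mem hs hi)]
  apply cell_dg hc
  rw [v_conj hs, v_conj hs, h]

theorem cell_twist_of_ww {s : K →+* K} (hs : ∀ x, v (s x) = v x) {c : Γ₀} (hc : c ≤ 1)
    {δ ε : Kˣ} (h : v (ε : K) = c * v (δ : K)) (a d : Kˣ) {i : GL (Fin 2) K} (hi : i ∈ IwGL v) :
    Cell v c (((dg a d * ww * i)⁻¹ * dg δ ε * GeneralLinearGroup.map s (dg a d * ww * i) :
      GL (Fin 2) K) : Matrix (Fin 2) (Fin 2) K) := by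
  have e1 : ((dg a d * ww * i)⁻¹ * dg δ ε * GeneralLinearGroup.map s (dg a d * ww * i)) =
      i⁻¹ * (dg (d⁻¹ * ε * Units.map s d) (a⁻¹ * δ * Units.map s a)) *
        GeneralLinearGroup.map s i := by
    rw [map_mul, map_mul, map_dg, map_ww]
    have : dg (d⁻¹ * ε * Units.map (s : K →* K) d) (a⁻¹ * δ * Units.map (s : K →* K) a) =
        ww⁻¹ * (dg a d)⁻¹ * dg δ ε * dg (Units.map s a) (Units.map s d) * ww := by
      rw [dg_inv, ww_inv]
      apply Units.ext
      simp [Units.val_mul]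
    rw [this]
    simp only [_root_.mul_inv_rev, mul_assoc]
  rw [e1, cell_mul_iff (inv_mem hi) (map_mem hs hi)]
  apply cell_dg hc
  rw [v_conj hs, v_conj hs, h]

end Twist

section Eigen

/-- a `2 × 2` matrix with distinct eigenvalues is diagonalisable -/
theorem exists_diag {k : Type*} [Field k] (γ : GL (Fin 2) k) (α β : kˣ)
    (hne : (α : k) ≠ β) (htr : γ 0 0 + γ 1 1 = (α : k) + β)
    (hdet : γ 0 0 * γ 1 1 - γ 0 1 * γ 1 0 = (α : k) * β) :
    ∃ h : GL (Fin 2) k, γ = h * dg α β * h⁻¹ := by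
  have key : ∀ h : GL (Fin 2) k, (γ : Matrix (Fin 2) (Fin 2) k) * h = h * dg α β →
      γ = h * dg α β * h⁻¹ := by
    intro h hh
    rw [eq_mul_inv_iff_mul_eq]
    apply Units.ext
    rw [Units.val_mul, Units.val_mul, hh]
  have hne' : (α : k) - β ≠ 0 := sub_ne_zero.mpr hne
  by_cases hb : γ 0 1 = 0
  · by_cases hc : γ 1 0 = 0
    · have h0 : (γ 0 0 - α) * (γ 0 0 - β) = 0 := by
        rw [hb] at hdet
        linear_combination (γ 0 0) * htr - hdet
      rcases mul_eq_zero.mp h0 with h1 | h1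
      · have h2 : γ 0 0 = α := sub_eq_zero.mp h1
        have h3 : γ 1 1 = β := by rw [h2] at htr; exact add_left_cancel htr
        refine ⟨1, key _ ?_⟩
        ext i j
        fin_cases i <;> fin_cases j <;> simp [h2, h3, hb, hc]
      · have h2 : γ 0 0 = β := sub_eq_zero.mp h1
        have h3 : γ 1 1 = α := by
          rw [h2] at htr
          exact add_left_cancel (htr.trans (add_comm _ _))
        refine ⟨ww, key _ ?_⟩
        ext i j
        fin_cases i <;> fin_cases j <;>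
          simp [h2, h3, hb, hc, Matrix.mul_apply, Fin.sum_univ_two]
    · have hd : (!![(α : k) - γ 1 1, (β : k) - γ 1 1; γ 1 0, γ 1 0] :
          Matrix (Fin 2) (Fin 2) k).det ≠ 0 := by
        rw [Matrix.det_fin_two]
        simp only [Matrix.of_apply, Matrix.cons_val', Matrix.cons_val_zero, Matrix.cons_val_one,
          Matrix.cons_val_fin_one]
        have : ((α : k) - γ 1 1) * γ 1 0 - ((β : k) - γ 1 1) * γ 1 0 = γ 1 0 * (α - β) := by ring
        rw [this]
        exact mul_ne_zero hc hne'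
      refine ⟨GeneralLinearGroup.mkOfDetNeZero _ hd, key _ ?_⟩
      change (γ : Matrix (Fin 2) (Fin 2) k) * !![(α : k) - γ 1 1, (β : k) - γ 1 1; γ 1 0, γ 1 0] =
        !![(α : k) - γ 1 1, (β : k) - γ 1 1; γ 1 0, γ 1 0] * !![(α : k), 0; 0, β]
      ext i j
      fin_cases i <;> fin_cases j <;>
        simp [Matrix.mul_apply, Fin.sum_univ_two, hb]
      · rw [hb] at hdet
        linear_combination (α : k) * htr - hdet
      · rw [hb] at hdet
        linear_combination (β : k) * htr - hdet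
      · ring
      · ring
  · have hd : (!![γ 0 1, γ 0 1; (α : k) - γ 0 0, (β : k) - γ 0 0] :
        Matrix (Fin 2) (Fin 2) k).det ≠ 0 := by
      rw [Matrix.det_fin_two]
      simp only [Matrix.of_apply, Matrix.cons_val', Matrix.cons_val_zero, Matrix.cons_val_one,
        Matrix.cons_val_fin_one]
      have : γ 0 1 * ((β : k) - γ 0 0) - γ 0 1 * ((α : k) - γ 0 0) = -(γ 0 1 * (α - β)) := by ring
      rw [this]
      exact neg_ne_zero.mpr (mul_ne_zero hb hne')
    refine ⟨GeneralLinearGroup.mkOfDetNeZero _ hd, key _ ?_⟩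
    change (γ : Matrix (Fin 2) (Fin 2) k) * !![γ 0 1, γ 0 1; (α : k) - γ 0 0, (β : k) - γ 0 0] =
      !![γ 0 1, γ 0 1; (α : k) - γ 0 0, (β : k) - γ 0 0] * !![(α : k), 0; 0, β]
    ext i j
    fin_cases i <;> fin_cases j <;>
      simp [Matrix.mul_apply, Fin.sum_univ_two]
    · ring
    · ring
    · linear_combination (α : k) * htr - hdet
    · linear_combination (β : k) * htr - hdet

end Eigen

section Main

variable {K : Type*} [Field K] {k : Type*} [Field k] [Algebra k K]
  {Γ₀ : Type*} [LinearOrderedCommGroupWithZero Γ₀] {v : Valuation K Γ₀}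

/-- eigenvalues of an element of a cell (Hensel) -/
theorem eigen_of_cell (hens : ∀ n : K, v n < 1 → ∃ b, b ^ 2 - b + n = 0 ∧ v b < 1)
    {c : Γ₀} (hc : c < 1) {A : Matrix (Fin 2) (Fin 2) K} (hA : Cell v c A) :
    ∃ b1 b2 : K, b1 + b2 = A.trace ∧ b1 * b2 = A.det ∧ v b1 < v b2 ∧ v b1 = c * v b2 ∧
      A.trace ≠ 0 := by
  have hp := hA.pos
  have hne := hA.ne
  obtain ⟨h1, h2, h3, h4⟩ := hA
  have e1 : v (A 0 0 * A 1 1) < v (A 1 1) * v (A 1 1) := by
    have : A 0 0 * A 1 1 = A.det + A 0 1 * A 1 0 := by rw [Matrix.det_fin_two]; ring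
    rw [this]
    refine (v.map_add _ _).trans_lt (max_lt ?_ ?_)
    · rw [h4, pow_two]
      calc c * (v (A 1 1) * v (A 1 1)) < 1 * (v (A 1 1) * v (A 1 1)) :=
            mul_lt_mul_of_pos_right hc (mul_pos hp hp)
        _ = _ := one_mul _
    · rw [map_mul]
      exact mul_lt_of_le_of_lt h2 h3 hp
  have e2 : v (A 0 0) < v (A 1 1) := by
    rw [map_mul] at e1
    by_contra hcon
    push Not at hcon
    exact absurd e1 (not_lt.mpr (mul_le_mul' hcon le_rfl))
  have e3 : v A.trace = v (A 1 1) := by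
    rw [Matrix.trace_fin_two]
    exact Valuation.map_add_eq_of_lt_right v e2
  have htr : A.trace ≠ 0 := by
    intro h0
    rw [h0, map_zero] at e3
    exact hp.ne e3
  have e4 : v (A.det / A.trace ^ 2) = c := by
    rw [map_div₀, map_pow, e3, h4]
    exact mul_div_cancel_right₀ _ (pow_ne_zero 2 hp.ne')
  obtain ⟨b, hb, hvb⟩ := hens (A.det / A.trace ^ 2) (by rw [e4]; exact hc)
  have hb1 : v (1 - b) = 1 := by
    rw [← v.map_one]
    exact Valuation.map_sub_eq_of_lt_left v (by rw [v.map_one]; exact hvb)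
  refine ⟨A.trace * b, A.trace * (1 - b), by ring, ?_, ?_, ?_, htr⟩
  · have : A.trace ^ 2 * (b ^ 2 - b + A.det / A.trace ^ 2) = 0 := by rw [hb, mul_zero]
    rw [mul_add, mul_div_cancel₀ _ (pow_ne_zero 2 htr)] at this
    linear_combination -this
  · rw [map_mul, map_mul, hb1]
    exact mul_lt_of_le_of_lt le_rfl hvb (by rw [e3]; exact hp)
  · have : v (b * (1 - b)) = c := by
      rw [← e4]
      congr 1
      linear_combination -hb
    rw [map_mul, hb1, mul_one] at this
    rw [map_mul, map_mul, this, hb1, mul_one, mul_comm]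

/-- the data at a good inert place: `k` = fixed field of `s`, unramified, Hensel -/
structure Inert (v : Valuation K Γ₀) (s : K →+* K) (k : Type*) [Field k] [Algebra k K] : Prop where
  val : ∀ x, v (s x) = v x
  cube : ∀ x, s (s (s x)) = x
  fix : ∀ y : k, s (algebraMap k K y) = algebraMap k K y
  desc : ∀ x : K, s x = x → ∃ y : k, algebraMap k K y = x
  unram : ∀ x : K, x ≠ 0 → ∃ y : k, v (algebraMap k K y) = v x
  hens : ∀ n : K, v n < 1 → ∃ b, b ^ 2 - b + n = 0 ∧ v b < 1

theorem trace_conj_map (γ : GL (Fin 2) k) (g : GL (Fin 2) K) :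
    ((g⁻¹ * GeneralLinearGroup.map (algebraMap k K) γ * g : GL (Fin 2) K) :
      Matrix (Fin 2) (Fin 2) K).trace = algebraMap k K (γ : Matrix (Fin 2) (Fin 2) k).trace := by
  rw [Units.val_mul, Matrix.trace_mul_comm, ← Units.val_mul]
  rw [show g * (g⁻¹ * GeneralLinearGroup.map (algebraMap k K) γ) =
    GeneralLinearGroup.map (algebraMap k K) γ by group]
  rw [Matrix.trace_fin_two, Matrix.trace_fin_two]
  simp

theorem det_conj_map (γ : GL (Fin 2) k) (g : GL (Fin 2) K) :
    ((g⁻¹ * GeneralLinearGroup.map (algebraMap k K) γ * g : GL (Fin 2) K) :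
      Matrix (Fin 2) (Fin 2) K).det = algebraMap k K (γ : Matrix (Fin 2) (Fin 2) k).det := by
  rw [Units.val_mul, Matrix.det_mul_comm, ← Units.val_mul]
  rw [show g * (g⁻¹ * GeneralLinearGroup.map (algebraMap k K) γ) =
    GeneralLinearGroup.map (algebraMap k K) γ by group]
  rw [Matrix.det_fin_two, Matrix.det_fin_two]
  simp

theorem Inert.diag {s : K →+* K} (H : Inert v s k) {c : Γ₀} (hc : c < 1) (hc0 : c ≠ 0)
    {γ : GL (Fin 2) k}
    {g : GL (Fin 2) K} (h : Cell v c ((g⁻¹ * GeneralLinearGroup.map (algebraMap k K) γ * g :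
      GL (Fin 2) K) : Matrix (Fin 2) (Fin 2) K)) :
    ∃ (α β : kˣ) (u : GL (Fin 2) k), γ = u * dg α β * u⁻¹ ∧
      v (algebraMap k K α) = c * v (algebraMap k K β) ∧ (α : k) ≠ β ∧
      (γ : Matrix (Fin 2) (Fin 2) k).trace ≠ 0 := by
  obtain ⟨b1, b2, h1, h2, h3, h4, h5⟩ := eigen_of_cell H.hens hc h
  rw [trace_conj_map] at h1 h5
  rw [det_conj_map] at h2
  have hb2 : b2 ≠ 0 := v.pos_iff.mp (lt_of_le_of_lt zero_le h3)
  have hb1 : b1 ≠ 0 := by
    intro h0
    rw [h0, map_zero] at h4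
    exact mul_ne_zero hc0 ((v.ne_zero_iff).mpr hb2) h4.symm
  have hs1 : s b1 = b1 := by
    have e : (s b1 - b1) * (s b1 - b2) = 0 := by
      have e1 : s b1 + s b2 = b1 + b2 := by
        rw [← map_add, h1, H.fix]
      have e2 : s b1 * s b2 = b1 * b2 := by
        rw [← map_mul, h2, H.fix]
      linear_combination (s b1) * e1 - e2
    rcases mul_eq_zero.mp e with h | h
    · exact sub_eq_zero.mp h
    · exfalso
      have h6 : s b1 = b2 := sub_eq_zero.mp h
      have := H.val b1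
      rw [h6] at this
      exact h3.ne this.symm
  have hs2 : s b2 = b2 := by
    have e1 : s b1 + s b2 = b1 + b2 := by
      rw [← map_add, h1, H.fix]
    rw [hs1] at e1
    exact add_left_cancel e1
  obtain ⟨a1, ha1⟩ := H.desc b1 hs1
  obtain ⟨a2, ha2⟩ := H.desc b2 hs2
  have ha1' : a1 ≠ 0 := by rintro rfl; exact hb1 (by rw [← ha1, map_zero])
  have ha2' : a2 ≠ 0 := by rintro rfl; exact hb2 (by rw [← ha2, map_zero])
  have hinj : Function.Injective (algebraMap k K) := (algebraMap k K).injective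
  have hne : a1 ≠ a2 := by
    rintro rfl
    rw [← ha1, ← ha2] at h3
    exact lt_irrefl _ h3
  obtain ⟨u, hu⟩ := exists_diag γ (Units.mk0 a1 ha1') (Units.mk0 a2 ha2') hne
    (by
      apply hinj
      rw [← Matrix.trace_fin_two, ← h1, map_add]
      simp [ha1, ha2])
    (by
      apply hinj
      rw [← Matrix.det_fin_two, ← h2, map_mul]
      simp [ha1, ha2])
  refine ⟨Units.mk0 a1 ha1', Units.mk0 a2 ha2', u, hu, ?_, hne, ?_⟩
  · simp only [Units.val_mk0]
    rw [ha1, ha2, h4]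
  · intro h0
    exact h5 (by rw [h0, map_zero])

theorem diag_of_commute {α β : Kˣ} (hne : (α : K) ≠ β) {g : GL (Fin 2) K}
    (h : g * dg α β = dg α β * g) : ∃ δ ε : Kˣ, g = dg δ ε := by
  have h' := congrArg (fun x : GL (Fin 2) K => (x : Matrix (Fin 2) (Fin 2) K)) h
  simp only [Units.val_mul, coe_dg] at h'
  have h01 := congrFun (congrFun h' 0) 1
  have h10 := congrFun (congrFun h' 1) 0
  simp only [Matrix.mul_apply, Fin.sum_univ_two, Matrix.of_apply, Matrix.cons_val',
    Matrix.cons_val_zero, Matrix.cons_val_one, Matrix.cons_val_fin_one, mul_zero, zero_mul,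
    add_zero, zero_add] at h01 h10
  have hne' : (α : K) - β ≠ 0 := sub_ne_zero.mpr hne
  have g01 : g 0 1 = 0 := by
    have : ((α : K) - β) * g 0 1 = 0 := by linear_combination -h01
    exact (mul_eq_zero.mp this).resolve_left hne'
  have g10 : g 1 0 = 0 := by
    have : ((α : K) - β) * g 1 0 = 0 := by linear_combination h10
    exact (mul_eq_zero.mp this).resolve_left hne'
  have hdet : (g : Matrix (Fin 2) (Fin 2) K).det ≠ 0 := g.det_ne_zero
  rw [Matrix.det_fin_two, g01, zero_mul, sub_zero] at hdet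
  refine ⟨Units.mk0 _ (left_ne_zero_of_mul hdet), Units.mk0 _ (right_ne_zero_of_mul hdet), ?_⟩
  apply Units.ext
  ext i j
  fin_cases i <;> fin_cases j <;> simp [g01, g10]

theorem commute_of_mk {d c : GL (Fin 2) K} (htr : (c : Matrix (Fin 2) (Fin 2) K).trace ≠ 0)
    (h : ProjGenLinGroup.mk d * ProjGenLinGroup.mk c = ProjGenLinGroup.mk c * ProjGenLinGroup.mk d) :
    d * c = c * d := by
  rw [← map_mul, ← map_mul, ProjGenLinGroup.mk_eq_mk_iff] at h
  obtain ⟨z, hz⟩ := h
  have h1 : c = d * (c * GeneralLinearGroup.scalar (Fin 2) z) * d⁻¹ := by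
    rw [← mul_assoc, hz]; group
  have h2 : (c : Matrix (Fin 2) (Fin 2) K).trace =
      ((c * GeneralLinearGroup.scalar (Fin 2) z : GL (Fin 2) K) :
        Matrix (Fin 2) (Fin 2) K).trace := by
    conv_lhs => rw [h1]
    rw [Units.val_mul, Matrix.trace_mul_comm, ← Units.val_mul]
    congr 2
    group
  have h3 : ((c * GeneralLinearGroup.scalar (Fin 2) z : GL (Fin 2) K) :
        Matrix (Fin 2) (Fin 2) K).trace = (z : K) * (c : Matrix (Fin 2) (Fin 2) K).trace := by
    rw [Units.val_mul, GeneralLinearGroup.coe_scalar, Matrix.trace_fin_two, Matrix.trace_fin_two]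
    simp only [Matrix.mul_apply, Fin.sum_univ_two, Matrix.scalar_apply, Matrix.diagonal_apply]
    simp
    ring
  have h4 : (z : K) = 1 := by
    have : ((z : K) - 1) * (c : Matrix (Fin 2) (Fin 2) K).trace = 0 := by
      rw [h3] at h2; linear_combination -h2
    exact sub_eq_zero.mp ((mul_eq_zero.mp this).resolve_right htr)
  have h5 : z = 1 := Units.ext h4
  rw [h5, map_one, mul_one] at hz
  exact hz

theorem cube_inj {a b : Γ₀} (h : a ^ 3 = b ^ 3) : a = b :=
  by
  rcases lt_trichotomy a b with h1 | h1 | h1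
  · exact absurd h (pow_lt_pow_left₀ h1 zero_le (by norm_num)).ne
  · exact h1
  · exact absurd h.symm (pow_lt_pow_left₀ h1 zero_le (by norm_num)).ne

/-- `(d, γ)` is a norm pair: `N(d) = γ` and `d` commutes with `γ`, in `PGL₂` -/
structure NormPair (s : K →+* K) (d : GL (Fin 2) K) (γ : GL (Fin 2) k) : Prop where
  norm : ProjGenLinGroup.mk (d * GeneralLinearGroup.map s d *
    GeneralLinearGroup.map s (GeneralLinearGroup.map s d)) =
      ProjGenLinGroup.mk (GeneralLinearGroup.map (algebraMap k K) γ)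
  comm : ProjGenLinGroup.mk d * ProjGenLinGroup.mk (GeneralLinearGroup.map (algebraMap k K) γ) =
    ProjGenLinGroup.mk (GeneralLinearGroup.map (algebraMap k K) γ) * ProjGenLinGroup.mk d

theorem Inert.map_map {s : K →+* K} (H : Inert v s k) (u : GL (Fin 2) k) :
    GeneralLinearGroup.map s (GeneralLinearGroup.map (algebraMap k K) u) =
      GeneralLinearGroup.map (algebraMap k K) u := by
  apply Units.ext
  ext i j
  simp [H.fix]

theorem Inert.diag2 {s : K →+* K} (H : Inert v s k) {c : Γ₀} (hc : c < 1) (hc0 : c ≠ 0)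
    {d : GL (Fin 2) K} {γ : GL (Fin 2) k} (P : NormPair s d γ)
    {g : GL (Fin 2) K} (h : Cell v (c ^ 3) ((g⁻¹ * GeneralLinearGroup.map (algebraMap k K) γ * g :
      GL (Fin 2) K) : Matrix (Fin 2) (Fin 2) K)) :
    ∃ (α β : kˣ) (u : GL (Fin 2) k) (δ ε : Kˣ), γ = u * dg α β * u⁻¹ ∧
      d = GeneralLinearGroup.map (algebraMap k K) u * dg δ ε *
        (GeneralLinearGroup.map (algebraMap k K) u)⁻¹ ∧
      v (algebraMap k K α) = c ^ 3 * v (algebraMap k K β) ∧ v (δ : K) = c * v (ε : K) := by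
  obtain ⟨α, β, u, hu, hv, hne, htr⟩ :=
    H.diag (pow_lt_one₀ zero_le hc (by norm_num)) (pow_ne_zero 3 hc0) h
  set ι := GeneralLinearGroup.map (n := Fin 2) (algebraMap k K) with hι
  have htr' : ((ι γ : GL (Fin 2) K) : Matrix (Fin 2) (Fin 2) K).trace ≠ 0 := by
    have := trace_conj_map (K := K) γ 1
    rw [inv_one, one_mul, mul_one] at this
    rw [this]
    exact fun h0 => htr ((map_eq_zero _).mp h0)
  have hcomm := commute_of_mk htr' P.comm
  have e1 : ι γ = ι u * dg (Units.map (algebraMap k K) α) (Units.map (algebraMap k K) β) *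
      (ι u)⁻¹ := by
    rw [hu, map_mul, map_mul, map_inv, map_dg]
  have h2 : ((ι u)⁻¹ * d * ι u) *
      dg (Units.map (algebraMap k K) α) (Units.map (algebraMap k K) β) =
      dg (Units.map (algebraMap k K) α) (Units.map (algebraMap k K) β) *
        ((ι u)⁻¹ * d * ι u) := by
    have e2 : dg (Units.map (algebraMap k K) α) (Units.map (algebraMap k K) β) =
        (ι u)⁻¹ * ι γ * ι u := by rw [e1]; group
    rw [e2]
    calc (ι u)⁻¹ * d * ι u * ((ι u)⁻¹ * ι γ * ι u) = (ι u)⁻¹ * (d * ι γ) * ι u := by group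
      _ = (ι u)⁻¹ * (ι γ * d) * ι u := by rw [hcomm]
      _ = _ := by group
  obtain ⟨δ, ε, hδ⟩ := diag_of_commute (by simpa using hne) h2
  have hd : d = ι u * dg δ ε * (ι u)⁻¹ := by
    rw [← hδ]; group
  refine ⟨α, β, u, δ, ε, hu, hd, hv, ?_⟩
  obtain ⟨z, hz⟩ := ProjGenLinGroup.mk_eq_mk_iff.mp P.norm
  have e3 : d * GeneralLinearGroup.map s d * GeneralLinearGroup.map s (GeneralLinearGroup.map s d)
      = ι u * dg (δ * Units.map (s : K →* K) δ * Units.map (s : K →* K) (Units.map (s : K →* K) δ))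
        (ε * Units.map (s : K →* K) ε * Units.map (s : K →* K) (Units.map (s : K →* K) ε)) * (ι u)⁻¹ := by
    rw [hd]
    have e5 : dg (δ * Units.map (s : K →* K) δ * Units.map (s : K →* K) (Units.map (s : K →* K) δ))
        (ε * Units.map (s : K →* K) ε * Units.map (s : K →* K) (Units.map (s : K →* K) ε)) =
        dg δ ε * dg (Units.map (s : K →* K) δ) (Units.map (s : K →* K) ε) *
          dg (Units.map (s : K →* K) (Units.map (s : K →* K) δ)) (Units.map (s : K →* K) (Units.map (s : K →* K) ε)) := by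
      apply Units.ext
      simp [Units.val_mul]
    rw [e5]
    simp only [map_mul, map_inv, map_dg, hι, H.map_map]
    group
  rw [e3] at hz
  have e4 : dg (δ * Units.map (s : K →* K) δ * Units.map (s : K →* K) (Units.map (s : K →* K) δ))
        (ε * Units.map (s : K →* K) ε * Units.map (s : K →* K) (Units.map (s : K →* K) ε)) * GeneralLinearGroup.scalar (Fin 2) z =
      dg (Units.map (algebraMap k K) α) (Units.map (algebraMap k K) β) := by
    have e6 : GeneralLinearGroup.scalar (Fin 2) z * ι u =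
      ι u * GeneralLinearGroup.scalar (Fin 2) z := GeneralLinearGroup.scalar_commute z (ι u)
    have e7 : dg (Units.map (algebraMap k K) α) (Units.map (algebraMap k K) β) =
        (ι u)⁻¹ * ι γ * ι u := by rw [e1]; group
    rw [e7, ← hz]
    simp only [mul_assoc]
    rw [e6]
    group
  have e8 := congrArg (fun x : GL (Fin 2) K => (x : Matrix (Fin 2) (Fin 2) K)) e4
  simp only [Units.val_mul, coe_dg, GeneralLinearGroup.coe_scalar] at e8
  have h00 := congrArg v (congrFun (congrFun e8 0) 0)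
  have h11 := congrArg v (congrFun (congrFun e8 1) 1)
  simp only [Matrix.mul_apply, Fin.sum_univ_two, Matrix.of_apply, Matrix.cons_val',
    Matrix.cons_val_zero, Matrix.cons_val_one, Matrix.cons_val_fin_one, zero_mul,
    add_zero, zero_add, Matrix.scalar_apply, Matrix.diagonal_apply_eq, map_mul,
    Units.coe_map, MonoidHom.coe_coe, H.val] at h00 h11
  rw [← h00, ← h11] at hv
  have hz0 : v (z : K) ≠ 0 := (v.ne_zero_iff).mpr z.ne_zero
  apply cube_inj
  apply mul_right_cancel₀ hz0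
  calc v (δ : K) ^ 3 * v (z : K) = v (δ : K) * v (δ : K) * v (δ : K) * v (z : K) := by
        rw [pow_succ, pow_two]
    _ = c ^ 3 * (v (ε : K) * v (ε : K) * v (ε : K) * v (z : K)) := hv
    _ = (c * v (ε : K)) ^ 3 * v (z : K) := by
        rw [mul_pow, pow_succ (v (ε : K)) 2, pow_two (v (ε : K)), ← mul_assoc (c ^ 3)]

theorem cell_mul_scalar {c : Γ₀} {g : GL (Fin 2) K} {z : Kˣ} :
    Cell v c ((g * GeneralLinearGroup.scalar (Fin 2) z : GL (Fin 2) K) :
      Matrix (Fin 2) (Fin 2) K) ↔ Cell v c (g : Matrix (Fin 2) (Fin 2) K) := by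
  have : ((g * GeneralLinearGroup.scalar (Fin 2) z : GL (Fin 2) K) :
      Matrix (Fin 2) (Fin 2) K) = (z : K) • (g : Matrix (Fin 2) (Fin 2) K) := by
    rw [Units.val_mul, GeneralLinearGroup.coe_scalar]
    ext i j
    simp [mul_comm]
  rw [this, cell_smul z.ne_zero]

theorem Inert.cell_cube {s : K →+* K} (H : Inert v s k) {c : Γ₀}
    {d : GL (Fin 2) K} {γ : GL (Fin 2) k} (P : NormPair s d γ)
    {g : GL (Fin 2) K} (h : Cell v c ((g⁻¹ * d * GeneralLinearGroup.map s g : GL (Fin 2) K) :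
      Matrix (Fin 2) (Fin 2) K)) :
    Cell v (c ^ 3) ((g⁻¹ * GeneralLinearGroup.map (algebraMap k K) γ * g :
      GL (Fin 2) K) : Matrix (Fin 2) (Fin 2) K) := by
  obtain ⟨z, hz⟩ := ProjGenLinGroup.mk_eq_mk_iff.mp P.norm
  have h3 : GeneralLinearGroup.map s (GeneralLinearGroup.map s (GeneralLinearGroup.map s g)) =
      g := by
    apply Units.ext
    ext i j
    simp [H.cube]
  have h1 := (cell_map H.val).mpr h
  have h2 := (cell_map H.val).mpr h1
  have h4 := Cell.mul (Cell.mul h h1) h2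
  rw [← Units.val_mul, ← Units.val_mul] at h4
  have e : g⁻¹ * GeneralLinearGroup.map (algebraMap k K) γ * g =
      (g⁻¹ * d * GeneralLinearGroup.map s g) *
        GeneralLinearGroup.map s (g⁻¹ * d * GeneralLinearGroup.map s g) *
        GeneralLinearGroup.map s (GeneralLinearGroup.map s
          (g⁻¹ * d * GeneralLinearGroup.map s g)) * GeneralLinearGroup.scalar (Fin 2) z := by
    rw [← hz]
    simp only [map_mul, map_inv, h3]
    have := GeneralLinearGroup.scalar_commute z g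
    calc g⁻¹ * (d * GeneralLinearGroup.map s d *
          GeneralLinearGroup.map s (GeneralLinearGroup.map s d) *
          GeneralLinearGroup.scalar (Fin 2) z) * g
        = g⁻¹ * (d * GeneralLinearGroup.map s d *
          GeneralLinearGroup.map s (GeneralLinearGroup.map s d)) *
          (GeneralLinearGroup.scalar (Fin 2) z * g) := by group
      _ = g⁻¹ * (d * GeneralLinearGroup.map s d *
          GeneralLinearGroup.map s (GeneralLinearGroup.map s d)) *
          (g * GeneralLinearGroup.scalar (Fin 2) z) := by rw [this]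
      _ = _ := by group
  rw [e, cell_mul_scalar]
  have hc : c * c * c = c ^ 3 := by rw [pow_succ, pow_two]
  rwa [hc] at h4

/-- `(R1)`: a contributing point of the big building comes from the small one -/
theorem Inert.exists_of_cell {s : K →+* K} (H : Inert v s k) {c : Γ₀} (hc : c < 1) (hc0 : c ≠ 0)
    {d : GL (Fin 2) K} {γ : GL (Fin 2) k} (P : NormPair s d γ)
    {g : GL (Fin 2) K} (h : Cell v c ((g⁻¹ * d * GeneralLinearGroup.map s g : GL (Fin 2) K) :
      Matrix (Fin 2) (Fin 2) K)) :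
    ∃ (y : GL (Fin 2) k) (i : GL (Fin 2) K), i ∈ IwGL v ∧
      g = GeneralLinearGroup.map (algebraMap k K) y * i := by
  obtain ⟨α, β, u, δ, ε, hγ, hd, hv, hδ⟩ := H.diag2 hc hc0 P (H.cell_cube P h)
  set ι := GeneralLinearGroup.map (n := Fin 2) (algebraMap k K) with hι
  have hε : 0 < v (ε : K) := v.pos_iff.mpr ε.ne_zero
  have e1 : g⁻¹ * d * GeneralLinearGroup.map s g =
      ((ι u)⁻¹ * g)⁻¹ * dg δ ε * GeneralLinearGroup.map s ((ι u)⁻¹ * g) := by
    rw [hd]
    simp only [map_mul, map_inv, hι, H.map_map]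
    group
  rw [e1] at h
  rcases cell_twist_diag H.val hc h with ⟨-, a, b, i, hi, hg⟩ | ⟨h1, -⟩
  · obtain ⟨a', ha'⟩ := H.unram a a.ne_zero
    obtain ⟨b', hb'⟩ := H.unram b b.ne_zero
    have ha0 : a' ≠ 0 := by
      rintro rfl
      rw [map_zero, map_zero] at ha'
      exact (v.ne_zero_iff).mpr a.ne_zero ha'.symm
    have hb0 : b' ≠ 0 := by
      rintro rfl
      rw [map_zero, map_zero] at hb'
      exact (v.ne_zero_iff).mpr b.ne_zero hb'.symm
    refine ⟨u * dg (Units.mk0 a' ha0) (Units.mk0 b' hb0),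
      dg ((Units.map (algebraMap k K) (Units.mk0 a' ha0))⁻¹ * a)
        ((Units.map (algebraMap k K) (Units.mk0 b' hb0))⁻¹ * b) * i,
      mul_mem (dg_mem ?_) hi, ?_⟩
    · have h1 : v (algebraMap k K a') ≠ 0 := by rw [ha']; exact (v.ne_zero_iff).mpr a.ne_zero
      have h2 : v (algebraMap k K b') ≠ 0 := by rw [hb']; exact (v.ne_zero_iff).mpr b.ne_zero
      simp only [Units.val_mul, Units.val_inv_eq_inv_val, Units.coe_map, MonoidHom.coe_coe,
        Units.val_mk0, map_mul, map_inv₀, ← ha', ← hb', inv_mul_cancel₀ h1, inv_mul_cancel₀ h2]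
    · have e2 : dg (Units.map (algebraMap k K) (Units.mk0 a' ha0))
          (Units.map (algebraMap k K) (Units.mk0 b' hb0)) *
          dg ((Units.map (algebraMap k K) (Units.mk0 a' ha0))⁻¹ * a)
        ((Units.map (algebraMap k K) (Units.mk0 b' hb0))⁻¹ * b) = dg a b := by
        rw [dg_mul, mul_inv_cancel_left, mul_inv_cancel_left]
      rw [map_mul, map_dg, mul_assoc (ι u), ← mul_assoc (dg _ _) (dg _ _) i, e2, ← hg]
      group
  · exfalso
    rw [hδ, ← mul_assoc] at h1
    have : c * c < 1 := mul_lt_one_of_nonneg_of_lt_one_left zero_le hc hc.le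
    have h2 : c * c * v (ε : K) < 1 * v (ε : K) := mul_lt_mul_of_pos_right this hε
    rw [← h1, one_mul] at h2
    exact lt_irrefl _ h2

/-- `(R2)`: on the small building the two conditions agree -/
theorem Inert.cell_iff {s : K →+* K} (H : Inert v s k) {c : Γ₀} (hc : c < 1) (hc0 : c ≠ 0)
    {d : GL (Fin 2) K} {γ : GL (Fin 2) k} (P : NormPair s d γ) (y : GL (Fin 2) k) :
    Cell v c ((((GeneralLinearGroup.map (algebraMap k K) y)⁻¹ * d *
      GeneralLinearGroup.map s (GeneralLinearGroup.map (algebraMap k K) y) : GL (Fin 2) K)) :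
      Matrix (Fin 2) (Fin 2) K) ↔
    Cell (v.comap (algebraMap k K)) (c ^ 3) ((y⁻¹ * γ * y : GL (Fin 2) k) :
      Matrix (Fin 2) (Fin 2) k) := by
  set ι := GeneralLinearGroup.map (n := Fin 2) (algebraMap k K) with hι
  have key : ∀ (c : Γ₀) (x : GL (Fin 2) k), Cell (v.comap (algebraMap k K)) c
      (x : Matrix (Fin 2) (Fin 2) k) ↔
      Cell v c ((ι x : GL (Fin 2) K) : Matrix (Fin 2) (Fin 2) K) := by
    intro c x
    have hdet : ((ι x : GL (Fin 2) K) : Matrix (Fin 2) (Fin 2) K).det =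
        algebraMap k K (x : Matrix (Fin 2) (Fin 2) k).det := by
      rw [Matrix.det_fin_two, Matrix.det_fin_two]; simp [hι]
    rw [Cell, Cell, hdet]
    simp [hι, Valuation.comap_apply]
  rw [key, map_mul, map_mul, map_inv]
  refine ⟨fun h => H.cell_cube P h, fun h => ?_⟩
  obtain ⟨α, β, u, δ, ε, hγ, hd, hv, hδ⟩ := H.diag2 hc hc0 P h
  have hc3 : c ^ 3 < 1 := pow_lt_one₀ zero_le hc (by norm_num)
  have h' : Cell (v.comap (algebraMap k K)) (c ^ 3) (((u⁻¹ * y)⁻¹ * dg α β *
      GeneralLinearGroup.map (RingHom.id k) (u⁻¹ * y) : GL (Fin 2) k) :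
      Matrix (Fin 2) (Fin 2) k) := by
    rw [key]
    have : ι ((u⁻¹ * y)⁻¹ * dg α β * GeneralLinearGroup.map (RingHom.id k) (u⁻¹ * y)) =
        (ι y)⁻¹ * ι γ * ι y := by
      rw [hγ, GeneralLinearGroup.map_id]
      simp only [MonoidHom.id_apply, ← map_inv, ← map_mul]
      congr 1
      group
    rw [this]
    exact h
  rcases cell_twist_diag (v := v.comap (algebraMap k K)) (s := RingHom.id k) (fun _ => rfl) hc3 h'
    with ⟨-, a, b, i, hi, hg⟩ | ⟨h1, -⟩
  · have hy : ι y = ι u * (dg (Units.map (algebraMap k K) a) (Units.map (algebraMap k K) b) *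
        ι i) := by
      have : y = u * (dg a b * i) := by rw [← hg]; group
      rw [this, map_mul, map_mul, map_dg]
    have hi' : ι i ∈ IwGL v := (key 1 i).mp hi
    have := cell_twist_of_dg H.val hc.le hδ (Units.map (algebraMap k K) a)
      (Units.map (algebraMap k K) b) hi'
    have e1 : (ι y)⁻¹ * d * GeneralLinearGroup.map s (ι y) =
        (dg (Units.map (algebraMap k K) a) (Units.map (algebraMap k K) b) * ι i)⁻¹ * dg δ ε *
        GeneralLinearGroup.map s
          (dg (Units.map (algebraMap k K) a) (Units.map (algebraMap k K) b) * ι i) := by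
      rw [hy, hd]
      rw [map_mul (GeneralLinearGroup.map s) (ι u), hι, H.map_map]
      group
    rw [e1]
    exact this
  · exfalso
    simp only [Valuation.comap_apply] at h1
    rw [hv, ← mul_assoc] at h1
    have hβ : 0 < v (algebraMap k K β) := v.pos_iff.mpr
      (fun h0 => β.ne_zero ((map_eq_zero _).mp h0))
    have : c ^ 3 * c ^ 3 < 1 := mul_lt_one_of_nonneg_of_lt_one_left zero_le hc3 hc3.le
    have h2 : c ^ 3 * c ^ 3 * v (algebraMap k K β) < 1 * v (algebraMap k K β) :=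
      mul_lt_mul_of_pos_right this hβ
    rw [← h1, one_mul] at h2
    exact lt_irrefl _ h2

end Main

end Fermat.Agent.H25V
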