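import Mathlib
import Fermat.Agent.H59Def2

/-!
# S47, block (C): automorphisms acting on the finite and infinite places
-/

set_option autoImplicit false
set_option linter.unusedSectionVars false
set_option linter.unusedVariables false

noncomputable section

open IsDedekindDomain HeightOneSpectrum WithZero NumberField Matrix MeasureTheory
open scoped MatrixGroups

namespace Fermat.Agent.H59D

open Fermat.Agent.H59XF

/-! ## Finite places -/

section Places

variable {K : Type*} [Field K] [NumberField K]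

/-- The automorphism of the ring of integers. -/
def sO (s : K ≃+* K) : 𝓞 K ≃+* 𝓞 K := RingOfIntegers.mapRingEquiv s

@[simp] theorem sO_coe (s : K ≃+* K) (x : 𝓞 K) : ((sO s x : 𝓞 K) : K) = s (x : K) := rfl

/-- The permutation of the finite places induced by an automorphism. -/
def sigmaP (s : K ≃+* K) : Equiv.Perm (HeightOneSpectrum (𝓞 K)) :=
  HeightOneSpectrum.equivOfRingEquiv (sO s)

theorem mem_sigmaP (s : K ≃+* K) (w : HeightOneSpectrum (𝓞 K)) (x : 𝓞 K) :
    sO s x ∈ (sigmaP s w).asIdeal ↔ x ∈ w.asIdeal := by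
  show sO s x ∈ Ideal.comap ((sO s).symm : 𝓞 K →+* 𝓞 K) w.asIdeal ↔ _
  rw [Ideal.mem_comap]
  simp

theorem sigmaP_asIdeal (s : K ≃+* K) (w : HeightOneSpectrum (𝓞 K)) :
    (sigmaP s w).asIdeal = Ideal.map (sO s) w.asIdeal := by
  rw [← Ideal.comap_symm]
  rfl

theorem mem_sigmaP_pow (s : K ≃+* K) (w : HeightOneSpectrum (𝓞 K)) (x : 𝓞 K) (n : ℕ) :
    sO s x ∈ (sigmaP s w).asIdeal ^ n ↔ x ∈ w.asIdeal ^ n := by
  rw [sigmaP_asIdeal, ← Ideal.map_pow, ← Ideal.comap_symm, Ideal.mem_comap]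
  simp

theorem intValuation_sigmaP (s : K ≃+* K) (w : HeightOneSpectrum (𝓞 K)) (x : 𝓞 K) :
    (sigmaP s w).intValuation (sO s x) = w.intValuation x := by
  by_cases hx : x = 0
  · subst hx; simp
  have hsx : sO s x ≠ 0 := by simpa using hx
  have key : ∀ n : ℕ, (sigmaP s w).intValuation (sO s x) ≤ exp (-(n : ℤ)) ↔
      w.intValuation x ≤ exp (-(n : ℤ)) := by
    intro n
    rw [HeightOneSpectrum.intValuation_le_pow_iff_mem, HeightOneSpectrum.intValuation_le_pow_iff_mem,
      mem_sigmaP_pow]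
  have h1 := (sigmaP s w).intValuation_eq_exp_neg_multiplicity hsx
  have h2 := w.intValuation_eq_exp_neg_multiplicity hx
  apply le_antisymm
  · rw [h2]
    exact (key _).2 h2.le
  · rw [h1]
    exact (key _).1 h1.le

/-- The automorphism preserves the valuations. -/
theorem valuation_sigmaP (s : K ≃+* K) (w : HeightOneSpectrum (𝓞 K)) (x : K) :
    (sigmaP s w).valuation K (s x) = w.valuation K x := by
  obtain ⟨a, b, hb, rfl⟩ := IsFractionRing.div_surjective (A := 𝓞 K) x
  have h : ∀ y : 𝓞 K, (sigmaP s w).valuation K (s (algebraMap (𝓞 K) K y)) =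
      w.valuation K (algebraMap (𝓞 K) K y) := by
    intro y
    have : s (algebraMap (𝓞 K) K y) = algebraMap (𝓞 K) K (sO s y) := rfl
    rw [this, HeightOneSpectrum.valuation_of_algebraMap, HeightOneSpectrum.valuation_of_algebraMap,
      intValuation_sigmaP]
  rw [map_div₀, map_div₀, map_div₀, h, h]

theorem valuation_sigmaP' (s : K ≃+* K) (w : HeightOneSpectrum (𝓞 K)) (x : K) :
    (sigmaP s w).valuation K x = w.valuation K (s.symm x) := by
  conv_lhs => rw [← s.apply_symm_apply x]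
  rw [valuation_sigmaP]

theorem sigmaP_symm (s : K ≃+* K) : (sigmaP s).symm = sigmaP s.symm := by
  apply Equiv.ext
  intro w
  apply HeightOneSpectrum.ext
  ext x
  obtain ⟨y, rfl⟩ := (sO s.symm).surjective x
  rw [mem_sigmaP, ← mem_sigmaP s ((sigmaP s).symm w), Equiv.apply_symm_apply]
  have : sO s (sO s.symm y) = y := by
    apply RingOfIntegers.ext
    simp
  rw [this]

theorem sigmaP_trans (s t : K ≃+* K) (w : HeightOneSpectrum (𝓞 K)) :
    sigmaP t (sigmaP s w) = sigmaP (s.trans t) w := by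
  apply HeightOneSpectrum.ext
  ext x
  obtain ⟨y, rfl⟩ := (sO (s.trans t)).surjective x
  rw [mem_sigmaP]
  have : sO (s.trans t) y = sO t (sO s y) := rfl
  rw [this, mem_sigmaP, mem_sigmaP]

@[simp] theorem sigmaP_refl : sigmaP (RingEquiv.refl K) = 1 := by
  apply Equiv.ext
  intro w
  apply HeightOneSpectrum.ext
  ext x
  exact mem_sigmaP (RingEquiv.refl K) w x

/-! ### Subgroups -/

theorem mem_GLw_sigmaP (s : K ≃+* K) (w : HeightOneSpectrum (𝓞 K)) (g : GL (Fin 2) K) :
    GeneralLinearGroup.map (s : K →+* K) g ∈ GLw (sigmaP s w) ↔ g ∈ GLw w := by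
  have hdet : ((GeneralLinearGroup.map (s : K →+* K) g : GL (Fin 2) K) :
      Matrix (Fin 2) (Fin 2) K).det = s (g : Matrix (Fin 2) (Fin 2) K).det := by
    rw [Matrix.det_fin_two, Matrix.det_fin_two]
    simp
  rw [mem_GLw, mem_GLw, hdet, valuation_sigmaP]
  refine and_congr_left fun _ => forall_congr' fun i => forall_congr' fun j => ?_
  have : (GeneralLinearGroup.map (s : K →+* K) g : GL (Fin 2) K) i j = s (g i j) := rfl
  rw [this, valuation_sigmaP]

theorem mem_GLcong_sigmaP (s : K ≃+* K) (w : HeightOneSpectrum (𝓞 K)) (n : ℕ) (g : GL (Fin 2) K) :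
    GeneralLinearGroup.map (s : K →+* K) g ∈ GLcong (sigmaP s w) n ↔ g ∈ GLcong w n := by
  rw [mem_GLcong, mem_GLcong, mem_GLw_sigmaP]
  refine and_congr_right fun _ => forall_congr' fun i => forall_congr' fun j => ?_
  have h1 : (GeneralLinearGroup.map (s : K →+* K) g : GL (Fin 2) K) i j = s (g i j) := rfl
  have h2 : (1 : Matrix (Fin 2) (Fin 2) K) i j = s ((1 : Matrix (Fin 2) (Fin 2) K) i j) := by
    rw [Matrix.one_apply]
    split_ifs <;> simp
  rw [h1]
  conv_lhs => rw [h2]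
  rw [← map_sub, valuation_sigmaP]

/-- Images under `PGL₂(K) → PGL₂(K)` of subgroups given in `GL₂(K)`. -/
theorem mem_map_iff (s : K ≃+* K) {A B : Subgroup (GL (Fin 2) K)}
    (h : ∀ g, GeneralLinearGroup.map (s : K →+* K) g ∈ B ↔ g ∈ A) (g : PGL(2, K)) :
    ProjGenLinGroup.map (s : K →+* K) g ∈ B.map ProjGenLinGroup.mk ↔
      g ∈ A.map ProjGenLinGroup.mk := by
  constructor
  · rintro ⟨b, hb, hbg⟩
    refine ⟨GeneralLinearGroup.map (s.symm : K →+* K) b, ?_, ?_⟩
    · rw [SetLike.mem_coe, ← h]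
      have : GeneralLinearGroup.map (s : K →+* K) (GeneralLinearGroup.map (s.symm : K →+* K) b) =
          b := by
        ext i j
        simp
      rw [this]; exact hb
    · have h1 : ProjGenLinGroup.mk (GeneralLinearGroup.map (s.symm : K →+* K) b) =
          ProjGenLinGroup.map (s.symm : K →+* K) (ProjGenLinGroup.mk b) := rfl
      rw [h1, hbg]
      exact (AutData.pmap s).symm_apply_apply g
  · rintro ⟨a, ha, rfl⟩
    exact ⟨GeneralLinearGroup.map (s : K →+* K) a, (h a).2 ha, rfl⟩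

theorem mem_U0_sigmaP (s : K ≃+* K) (w : HeightOneSpectrum (𝓞 K)) (g : PGL(2, K)) :
    ProjGenLinGroup.map (s : K →+* K) g ∈ U0 (sigmaP s w) ↔ g ∈ U0 w :=
  mem_map_iff s (mem_GLw_sigmaP s w) g

theorem mem_Gam_sigmaP (s : K ≃+* K) (w : HeightOneSpectrum (𝓞 K)) (n : ℕ) (g : PGL(2, K)) :
    ProjGenLinGroup.map (s : K →+* K) g ∈ Gam (sigmaP s w) n ↔ g ∈ Gam w n :=
  mem_map_iff s (mem_GLcong_sigmaP s w n) g

end Places

/-! ## The Iwahori subgroup -/

section Iwahori

variable {R : Type*} [CommRing R] [IsDedekindDomain R] {K : Type*} [Field K] [Algebra R K]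
  [IsFractionRing R K]

/-- The Iwahori subgroup of `GL₂(O_(w))`: lower left entry in the maximal ideal. -/
def GLIw (w : HeightOneSpectrum R) : Subgroup (GL (Fin 2) K) where
  carrier := {g | g ∈ GLw w ∧ w.valuation K (g 1 0) < 1}
  one_mem' := ⟨one_mem _, by simp⟩
  mul_mem' := by
    rintro a b ⟨ha, ha'⟩ ⟨hb, hb'⟩
    refine ⟨mul_mem ha hb, ?_⟩
    have : ((a * b : GL (Fin 2) K) : Matrix (Fin 2) (Fin 2) K) 1 0 =
        a 1 0 * b 0 0 + a 1 1 * b 1 0 := by
      rw [Units.val_mul, Matrix.mul_apply, Fin.sum_univ_two]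
    rw [this]
    refine Valuation.map_add_lt _ ?_ ?_
    · rw [map_mul]
      refine lt_of_le_of_lt (mul_le_mul' le_rfl (hb.1 0 0)) ?_
      rw [mul_one]; exact ha'
    · rw [map_mul]
      refine lt_of_le_of_lt (mul_le_mul' (ha.1 1 1) le_rfl) ?_
      rw [one_mul]; exact hb'
  inv_mem' := by
    rintro a ⟨ha, ha'⟩
    refine ⟨inv_mem ha, ?_⟩
    have hinv : ((a⁻¹ : GL (Fin 2) K) : Matrix (Fin 2) (Fin 2) K) =
        (a : Matrix (Fin 2) (Fin 2) K).det⁻¹ • (a : Matrix (Fin 2) (Fin 2) K).adjugate := by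
      rw [Matrix.coe_units_inv, Matrix.inv_def, Ring.inverse_eq_inv']
    rw [hinv, Matrix.smul_apply, smul_eq_mul, map_mul, map_inv₀, ha.2, inv_one, one_mul,
      Matrix.adjugate_fin_two]
    simpa [Valuation.map_neg] using ha'

/-- The Iwahori subgroup of `PGL₂(K)`. -/
def Iw (w : HeightOneSpectrum R) : Subgroup PGL(2, K) := (GLIw w).map ProjGenLinGroup.mk

theorem mem_GLIw {w : HeightOneSpectrum R} {g : GL (Fin 2) K} :
    g ∈ GLIw w ↔ g ∈ GLw w ∧ w.valuation K (g 1 0) < 1 := Iff.rfl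

theorem Iw_le (w : HeightOneSpectrum R) : Iw (K := K) w ≤ U0 w :=
  Subgroup.map_mono fun _ h => h.1

theorem Gam_le_Iw (w : HeightOneSpectrum R) : Gam (K := K) w 1 ≤ Iw w :=
  Subgroup.map_mono fun g hg => ⟨hg.1, by
    have := hg.2 1 0
    simp only [Matrix.one_apply, Fin.isValue, one_ne_zero, if_false, sub_zero] at this
    refine lt_of_le_of_lt this ?_
    rw [← exp_zero, exp_lt_exp]
    simp⟩

end Iwahori

theorem mem_Iw_sigmaP {K : Type*} [Field K] [NumberField K] (s : K ≃+* K)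
    (w : HeightOneSpectrum (𝓞 K)) (g : PGL(2, K)) :
    ProjGenLinGroup.map (s : K →+* K) g ∈ Iw (sigmaP s w) ↔ g ∈ Iw w := by
  refine mem_map_iff s (fun g => ?_) g
  rw [mem_GLIw, mem_GLIw, mem_GLw_sigmaP]
  have h1 : (GeneralLinearGroup.map (s : K →+* K) g : GL (Fin 2) K) 1 0 = s (g 1 0) := rfl
  rw [h1, valuation_sigmaP]

/-! ## Infinite places of a cyclic cubic extension of an imaginary quadratic field -/

section Infinite

variable {F E : Type*} [Field F] [Field E] [NumberField F] [NumberField E] [Algebra F E]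

/-- The embeddings `e0 ∘ s ^ j`. -/
def eC (e0 : E →+* ℂ) (s : E ≃ₐ[F] E) (j : Fin 3) : E →+* ℂ :=
  e0.comp ((s ^ (j : ℕ) : E ≃ₐ[F] E) : E →+* E)

theorem eC_apply (e0 : E →+* ℂ) (s : E ≃ₐ[F] E) (j : Fin 3) (x : E) :
    eC e0 s j x = e0 ((s ^ (j : ℕ)) x) := rfl

theorem eC_bijective [IsGalois F E] (e0 : E →+* ℂ) (s : E ≃ₐ[F] E) (hs : orderOf s = 3)
    (hgen : ∀ g : E ≃ₐ[F] E, g ∈ Subgroup.zpowers s)
    (hreal : ¬ ComplexEmbedding.IsReal (e0.comp (algebraMap F E)))
    (hone : ∀ φ : F →+* ℂ, φ = e0.comp (algebraMap F E) ∨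
      φ = ComplexEmbedding.conjugate (e0.comp (algebraMap F E))) :
    Function.Bijective fun j : Fin 3 => InfinitePlace.mk (eC e0 s j) := by
  have hres : ∀ j : Fin 3, (eC e0 s j).comp (algebraMap F E) = e0.comp (algebraMap F E) := by
    intro j
    ext x
    show e0 ((s ^ (j : ℕ)) (algebraMap F E x)) = e0 (algebraMap F E x)
    rw [AlgEquiv.commutes]
  constructor
  · intro i j hij
    simp only at hij
    rw [InfinitePlace.mk_eq_iff] at hij
    rcases hij with h | h
    · have h1 : ∀ x, (s ^ (i : ℕ)) x = (s ^ (j : ℕ)) x := fun x =>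
        e0.injective (by simpa [eC_apply] using RingHom.congr_fun h x)
      have h2 : s ^ (i : ℕ) = s ^ (j : ℕ) := AlgEquiv.ext h1
      have h3 := (pow_inj_mod (x := s)).1 h2
      rw [hs, Nat.mod_eq_of_lt i.2, Nat.mod_eq_of_lt j.2] at h3
      exact Fin.ext h3
    · exfalso
      apply hreal
      rw [← hres j, ← h]
      have h4 : (ComplexEmbedding.conjugate (eC e0 s i)).comp (algebraMap F E) =
          ComplexEmbedding.conjugate (e0.comp (algebraMap F E)) := by
        rw [← hres i]; rfl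
      have h5 : ComplexEmbedding.conjugate (e0.comp (algebraMap F E)) =
          e0.comp (algebraMap F E) := by
        rw [← h4, h, hres j]
      rw [h4, ComplexEmbedding.isReal_iff, h5, h5]
  · intro w
    obtain ⟨φ, hφ⟩ : ∃ φ : E →+* ℂ, InfinitePlace.mk φ = w ∧
        φ.comp (algebraMap F E) = e0.comp (algebraMap F E) := by
      rcases hone (w.embedding.comp (algebraMap F E)) with h | h
      · exact ⟨w.embedding, InfinitePlace.mk_embedding w, h⟩
      · refine ⟨ComplexEmbedding.conjugate w.embedding, ?_, ?_⟩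
        · rw [InfinitePlace.mk_conjugate_eq, InfinitePlace.mk_embedding]
        · have h1 : (ComplexEmbedding.conjugate w.embedding).comp (algebraMap F E) =
              ComplexEmbedding.conjugate (w.embedding.comp (algebraMap F E)) := rfl
          rw [h1, h]
          ext x
          simp
    obtain ⟨g, hg⟩ := ComplexEmbedding.exists_comp_symm_eq_of_comp_eq (k := F) e0 φ hφ.2.symm
    obtain ⟨n, hn⟩ := hgen g.symm
    have h3 : (3 : ℤ) ≠ 0 := by norm_num
    let j : ℕ := (n % 3).toNat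
    have hj3 : j < 3 := by
      have h1 := Int.emod_lt_of_pos n (b := 3) (by norm_num)
      have h2 := Int.emod_nonneg n h3
      show (n % 3).toNat < 3
      omega
    have hjn : s ^ j = g.symm := by
      have hn' : s ^ n = g.symm := hn
      rw [← hn']
      have h4 : (s : E ≃ₐ[F] E) ^ (j : ℤ) = s ^ n := by
        have h5 : (j : ℤ) = n % 3 := Int.toNat_of_nonneg (Int.emod_nonneg n h3)
        rw [h5]
        have h6 : (3 : ℤ) = (orderOf s : ℤ) := by rw [hs]; rfl
        rw [h6, zpow_mod_orderOf]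
      rw [← h4, zpow_natCast]
    refine ⟨⟨j, hj3⟩, ?_⟩
    show InfinitePlace.mk (eC e0 s ⟨j, hj3⟩) = w
    rw [← hφ.1, ← hg]
    congr 1
    ext x
    show e0 ((s ^ j) x) = e0 (g.symm x)
    rw [hjn]

/-- The rotation of the infinite indices: `c j = j - 1`. -/
def rot : Equiv.Perm (Fin 3) := (Equiv.subRight 1 : Equiv.Perm (Fin 3))

theorem eC_rot (e0 : E →+* ℂ) (s : E ≃ₐ[F] E) (hs : orderOf s = 3) (j : Fin 3) (x : E) :
    eC e0 s (rot j) (s x) = eC e0 s j x := by
  rw [eC_apply, eC_apply]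
  congr 1
  have h1 : (s ^ ((rot j : Fin 3) : ℕ)) (s x) = (s ^ (((rot j : Fin 3) : ℕ) + 1)) x := by
    rw [pow_succ]; rfl
  rw [h1]
  have h2 : s ^ (((rot j : Fin 3) : ℕ) + 1) = s ^ (j : ℕ) := by
    rw [pow_inj_mod, hs]
    show (((j - 1 : Fin 3) : ℕ) + 1) % 3 = (j : ℕ) % 3
    fin_cases j <;> rfl
  rw [h2]

theorem eC_not_real (e0 : E →+* ℂ) (s : E ≃ₐ[F] E)
    (hreal : ¬ ComplexEmbedding.IsReal (e0.comp (algebraMap F E))) (j : Fin 3) :
    ¬ ComplexEmbedding.IsReal (eC e0 s j) := by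
  intro h
  apply hreal
  have hres : (eC e0 s j).comp (algebraMap F E) = e0.comp (algebraMap F E) := by
    ext x
    show e0 ((s ^ (j : ℕ)) (algebraMap F E x)) = e0 (algebraMap F E x)
    rw [AlgEquiv.commutes]
  rw [← hres, ComplexEmbedding.isReal_iff]
  rw [ComplexEmbedding.isReal_iff] at h
  ext x
  exact RingHom.congr_fun h (algebraMap F E x)

/-- The automorphism data of a model of `E` with the embeddings `e0 ∘ s ^ j`, from the stability of
the level. -/
def AutData.ofCubic (m : Model E (Fin 3)) (s : E ≃ₐ[F] E) (hs : orderOf s = 3) (e0 : E →+* ℂ)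
    (he : m.e = eC e0 s)
    (hU : ∀ w (g : PGL(2, E)), g ∈ m.L.U w ↔
      ProjGenLinGroup.map ((s : E ≃+* E) : E →+* E) g ∈ m.L.U (sigmaP (s : E ≃+* E) w)) :
    AutData m where
  s := (s : E ≃+* E)
  σ := sigmaP (s : E ≃+* E)
  val w x := valuation_sigmaP _ w x
  c := rot
  e_s j x := by
    rw [he]
    exact eC_rot e0 s hs j x
  U_s := hU

end Infinite

end Fermat.Agent.H59D
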