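import Fermat.Agent.H25ZV0
import Fermat.Agent.H57CProd
import Fermat.Agent.H59Aut
import Fermat.Agent.H92T2

/-!
# S47, block (C), package C14: the place `v₀` in the exact form of `H57C.exists_locMatch`

* `exists_locMatch_nonsplit` : reduction at a place with exactly one place above it (no translation);
* `exists_of_cell_dense`, `cell_iff_dense` : the two local facts over the number fields,
  through the completion;
* `exists_locMatch_v0`.
-/

set_option autoImplicit false

namespace Fermat.Agent.H25V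

open Fermat.Agent.H59XF Fermat.Agent.H57C Function

section Nonsplit

variable {G : Type*} [Group G] {ι : Type*} {L : LevelFam G ι} (t : Twist L)
  {G' : Type*} [Group G'] {κ : Type*} {L' : LevelFam G' κ} (π : ι → κ)

/-- the local weight at a place with exactly one place above it -/
theorem phiv_nonsplit (hπ : ∀ i, π (t.σ i) = π i) (a : GlobKer L) (d : G) {v : κ} (i₀ : ι)
    (hi₀ : π i₀ = v) (huniq : ∀ i, π i = v → i = i₀) (x : Xv L π v) (g : G)
    (hx : x ⟨i₀, hi₀⟩ = (g : G ⧸ L.U i₀)) :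
    phiv t π hπ a d v x = (a.loc i₀).k (g : G ⧸ L.U i₀) ((d * t.s g : G) : G ⧸ L.U i₀) := by
  have key : ∀ (j : ι) (hj : π j = v) (h' : t.σ j = i₀),
      Twist.ccast (L := L) h' (t.cmap j (x ⟨j, hj⟩)) = ((t.s g : G) : G ⧸ L.U i₀) := by
    intro j hj h'
    have hji : j = i₀ := huniq j hj
    subst hji
    rw [hx, Twist.cmap_mk, Twist.ccast_mk]
  have hact : actv t π hπ v x ⟨i₀, hi₀⟩ = ((t.s g : G) : G ⧸ L.U i₀) := key _ _ _
  unfold phiv
  rw [finprod_eq_single _ (⟨i₀, hi₀⟩ : {i // π i = v})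
    (fun i hi => absurd (Subtype.ext (huniq i.1 i.2)) hi)]
  rw [hact, hx]
  rfl

/-- the map of cosets -/
def incq (inc : G' →* G) {U : Subgroup G} {V : Subgroup G'} (hV : ∀ g, g ∈ V ↔ inc g ∈ U) :
    G' ⧸ V → G ⧸ U :=
  Quotient.map' inc (by
    intro a b hab
    rw [QuotientGroup.leftRel_apply] at hab ⊢
    rw [← map_inv, ← map_mul]
    exact (hV _).1 hab)

@[simp] theorem incq_mk (inc : G' →* G) {U : Subgroup G} {V : Subgroup G'}
    (hV : ∀ g, g ∈ V ↔ inc g ∈ U) (y : G') :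
    incq inc hV ((y : G') : G' ⧸ V) = ((inc y : G) : G ⧸ U) := rfl

theorem incq_injective (inc : G' →* G) {U : Subgroup G} {V : Subgroup G'}
    (hV : ∀ g, g ∈ V ↔ inc g ∈ U) : Function.Injective (incq inc hV) := by
  intro x y h
  induction x using QuotientGroup.induction_on with
  | H x =>
    induction y using QuotientGroup.induction_on with
    | H y =>
      rw [incq_mk, incq_mk, QuotientGroup.eq] at h
      rw [QuotientGroup.eq, hV]
      simpa using h

theorem incq_smul (inc : G' →* G) {U : Subgroup G} {V : Subgroup G'}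
    (hV : ∀ g, g ∈ V ↔ inc g ∈ U) (g : G') (y : G' ⧸ V) :
    incq inc hV (g • y) = inc g • incq inc hV y := by
  induction y using QuotientGroup.induction_on with
  | H y =>
    show incq inc hV (((g * y : G')) : G' ⧸ V) = _
    rw [incq_mk, incq_mk, map_mul]
    rfl

/-- **Local matching at a place with exactly one place above it**, when the contributing points
come from the small group. -/
theorem exists_locMatch_nonsplit (hπ : ∀ i, π (t.σ i) = π i) (inc : G' →* G) (v : κ) (i₀ : ι)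
    (hi₀ : π i₀ = v) (huniq : ∀ i, π i = v → i = i₀)
    (hV : ∀ g, g ∈ L'.U v ↔ inc g ∈ L.U i₀)
    (a : GlobKer L) (b : LocKer (L'.U v)) (d : G) (γ : G')
    (R1 : ∀ g : G, (a.loc i₀).k (g : G ⧸ L.U i₀) ((d * t.s g : G) : G ⧸ L.U i₀) ≠ 0 →
      ∃ y : G', g⁻¹ * inc y ∈ L.U i₀)
    (R2 : ∀ y : G', (a.loc i₀).k ((inc y : G) : G ⧸ L.U i₀) ((d * t.s (inc y) : G) : G ⧸ L.U i₀) =
      b.k (y : G' ⧸ L'.U v) ((γ * y : G') : G' ⧸ L'.U v))
    {T : Type*} (τ : T → G') :
    ∃ β : Xv L π v → G' ⧸ L'.U v,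
      LocMatch (fun c x => fun i => inc (τ c) • x i) (fun c y => τ c • y)
        (phiv t π hπ a d v) (fun y => b.k y (γ • y)) β := by
  classical
  let β : Xv L π v → G' ⧸ L'.U v := fun x =>
    if h : ∃ y, incq inc hV y = x ⟨i₀, hi₀⟩ then h.choose else ((1 : G') : G' ⧸ L'.U v)
  have hβ : ∀ (x : Xv L π v) (y : G' ⧸ L'.U v), incq inc hV y = x ⟨i₀, hi₀⟩ → β x = y := by
    intro x y hy
    have h : ∃ y, incq inc hV y = x ⟨i₀, hi₀⟩ := ⟨y, hy⟩
    have e : β x = h.choose := dif_pos h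
    rw [e]
    exact incq_injective inc hV (h.choose_spec.trans hy.symm)
  -- contributing points
  have hex : ∀ x : Xv L π v, phiv t π hπ a d v x ≠ 0 →
      ∃ y : G', incq inc hV ((y : G') : G' ⧸ L'.U v) = x ⟨i₀, hi₀⟩ := by
    intro x hx
    obtain ⟨g, hg⟩ : ∃ g : G, (g : G ⧸ L.U i₀) = x ⟨i₀, hi₀⟩ := QuotientGroup.mk_surjective _
    rw [phiv_nonsplit t π hπ a d i₀ hi₀ huniq x g hg.symm] at hx
    obtain ⟨y, hy⟩ := R1 g hx
    refine ⟨y, ?_⟩
    rw [incq_mk, ← hg]
    exact (QuotientGroup.eq.mpr hy).symm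
  have hphi : ∀ (x : Xv L π v) (y : G'), incq inc hV ((y : G') : G' ⧸ L'.U v) = x ⟨i₀, hi₀⟩ →
      phiv t π hπ a d v x = b.k (y : G' ⧸ L'.U v) (γ • (y : G' ⧸ L'.U v)) := by
    intro x y hy
    rw [phiv_nonsplit t π hπ a d i₀ hi₀ huniq x (inc y) (by rw [← hy, incq_mk]), R2]
    rfl
  refine ⟨β, LocMatch.of_bij ?_ ?_ ?_ ?_⟩
  · intro c x hx
    obtain ⟨y, hy⟩ := hex x hx
    rw [hβ x _ hy]
    refine hβ (fun i : {i // π i = v} => inc (τ c) • x i) (τ c • ((y : G') : G' ⧸ L'.U v)) ?_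
    rw [incq_smul, hy]
  · intro x hx
    obtain ⟨y, hy⟩ := hex x hx
    rw [hβ x _ hy, hphi x y hy]
  · intro x x' hx hx' h
    obtain ⟨y, hy⟩ := hex x hx
    obtain ⟨y', hy'⟩ := hex x' hx'
    rw [hβ x _ hy, hβ x' _ hy'] at h
    funext i
    obtain ⟨i, hi⟩ := i
    have hii : i = i₀ := huniq i hi
    subst hii
    rw [← hy, ← hy', h]
  · intro y hy
    obtain ⟨y, rfl⟩ := QuotientGroup.mk_surjective y
    let x : Xv L π v := fun i =>
      Twist.ccast (L := L) (huniq i.1 i.2).symm (incq inc hV ((y : G') : G' ⧸ L'.U v))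
    have hx : incq inc hV ((y : G') : G' ⧸ L'.U v) = x ⟨i₀, hi₀⟩ := rfl
    refine ⟨x, ?_, hβ x _ hx⟩
    rw [hphi x y hx]
    exact hy

end Nonsplit

section Dense

open Matrix WithZero
open scoped MatrixGroups
open Fermat.Agent.H92T

/-- Hensel's lemma for `X² - X + n` from elementary completeness. -/
theorem hens_of_compl {L : Type*} [Field L] {v : Valuation L ℤᵐ⁰} (hC : Compl3 v) (n : L)
    (hn : v n < 1) : ∃ b, b ^ 2 - b + n = 0 ∧ v b < 1 := by
  have hlt : ∀ {x : ℤᵐ⁰}, x < 1 → x ≤ exp (-1 : ℤ) := by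
    intro x hx
    rcases eq_or_ne x 0 with rfl | h0
    · exact zero_le
    · rw [← exp_log h0, ← exp_zero, exp_lt_exp] at hx
      rw [← exp_log h0, exp_le_exp]
      omega
  let b : ℕ → L := fun k => Nat.rec 0 (fun _ x => x ^ 2 + n) k
  have hb0 : b 0 = 0 := rfl
  have hbs : ∀ k, b (k + 1) = b k ^ 2 + n := fun _ => rfl
  have hb1 : ∀ k, v (b k) ≤ exp (-1 : ℤ) := by
    intro k
    induction k with
    | zero => rw [hb0, map_zero]; exact zero_le
    | succ k ih =>
      rw [hbs]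
      refine (v.map_add _ _).trans (max_le ?_ (hlt hn))
      rw [map_pow, pow_two]
      calc v (b k) * v (b k) ≤ exp (-1 : ℤ) * exp (-1 : ℤ) := mul_le_mul' ih ih
        _ ≤ exp (-1 : ℤ) := by rw [← exp_add, exp_le_exp]; norm_num
  have hd : ∀ k : ℕ, v (b (k + 1) - b k) ≤ exp (-((k + 1 : ℕ) : ℤ)) := by
    intro k
    induction k with
    | zero =>
      rw [hb0, sub_zero]
      exact (hb1 1).trans (by simp)
    | succ k ih =>
      have : b (k + 1 + 1) - b (k + 1) = (b (k + 1) - b k) * (b (k + 1) + b k) := by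
        rw [hbs (k + 1)]
        nth_rewrite 2 [hbs k]
        ring
      rw [this, map_mul]
      calc v (b (k + 1) - b k) * v (b (k + 1) + b k)
          ≤ exp (-((k + 1 : ℕ) : ℤ)) * exp (-1 : ℤ) :=
            mul_le_mul' ih ((v.map_add _ _).trans (max_le (hb1 (k + 1)) (hb1 k)))
        _ = exp (-((k + 1 + 1 : ℕ) : ℤ)) := by
            rw [← exp_add]
            congr 1
  obtain ⟨y, hy⟩ := hC b (fun k => (hd k).trans (by rw [exp_le_exp]; push_cast; omega))
  have hy1 : v y < 1 := by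
    have h1 : y = (y - b 1) + b 1 := by ring
    have h2 : exp (-1 : ℤ) < (1 : ℤᵐ⁰) := by rw [← exp_zero, exp_lt_exp]; norm_num
    rw [h1]
    refine lt_of_le_of_lt ((v.map_add _ _).trans (max_le ?_ (hb1 1))) h2
    exact (hy 1).trans (by simp)
  refine ⟨y, ?_, hy1⟩
  apply eq_zero_of_small v
  intro k
  have h1 : y ^ 2 - y + n = (y - b k) * (y + b k) - (y - b (k + 1)) := by
    rw [hbs k]; ring
  rw [h1]
  refine (v.map_sub _ _).trans (max_le ?_ ((hy (k + 1)).trans ?_))
  · rw [map_mul]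
    calc v (y - b k) * v (y + b k) ≤ exp (-(k : ℤ)) * 1 := by
          refine mul_le_mul' (hy k) ((v.map_add _ _).trans (max_le hy1.le ((hb1 k).trans ?_)))
          rw [← exp_zero, exp_le_exp]; norm_num
      _ = exp (-(k : ℤ)) := mul_one _
  · rw [exp_le_exp]; push_cast; omega

variable {E F L : Type*} [Field E] [Field F] [Field L] [Algebra F E]

/-- A nonsplit unramified place, and its complete object. -/
structure DenseData (w : Valuation E ℤᵐ⁰) (s : E →+* E) (F : Type*) [Field F] [Algebra F E]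
    (L : Type*) [Field L] (vL : Valuation L ℤᵐ⁰) (j : E →+* L) (sh : L ≃+* L) : Prop where
  hj : ∀ x, vL (j x) = w x
  hsh : ∀ x, sh (j x) = j (s x)
  val : ∀ x, vL (sh x) = vL x
  cube : ∀ x, sh (sh (sh x)) = x
  fix : ∀ y : F, s (algebraMap F E y) = algebraMap F E y
  desc : ∀ x : E, s x = x → ∃ y : F, algebraMap F E y = x
  dense : DenseHom vL j
  compl : Compl3 vL
  surj : Function.Surjective vL
  three : (3 : E) ≠ 0
  unif : ∃ p : F, w (algebraMap F E p) = exp (-1 : ℤ)

variable {w : Valuation E ℤᵐ⁰} {s : E →+* E} {vL : Valuation L ℤᵐ⁰} {j : E →+* L} {sh : L ≃+* L}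

theorem DenseData.inert (D : DenseData w s F L vL j sh) :
    Inert vL (sh : L →+* L) (fixF sh) where
  val := D.val
  cube := D.cube
  fix y := y.2
  desc x hx := ⟨⟨x, hx⟩, rfl⟩
  unram x hx := by
    obtain ⟨p, hp⟩ := D.unif
    have h0 : vL x ≠ 0 := (vL.ne_zero_iff).mpr hx
    have hfix : sh (j (algebraMap F E p)) = j (algebraMap F E p) := by
      rw [D.hsh, D.fix]
    refine ⟨(⟨j (algebraMap F E p), hfix⟩ : fixF sh) ^ (-(log (vL x))), ?_⟩
    have : algebraMap (fixF sh) L ((⟨j (algebraMap F E p), hfix⟩ : fixF sh) ^ (-(log (vL x)))) =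
        (j (algebraMap F E p)) ^ (-(log (vL x))) := by
      rw [map_zpow₀]; rfl
    rw [this, map_zpow₀, D.hj, hp]
    conv_rhs => rw [← exp_log h0]
    rw [← WithZero.exp_zsmul]
    simp
  hens n hn := hens_of_compl D.compl n hn

/-- the embedding `F → fixF sh` -/
def jF (D : DenseData w s F L vL j sh) : F →+* fixF sh where
  toFun x := ⟨j (algebraMap F E x), by
    show sh (j (algebraMap F E x)) = j (algebraMap F E x)
    rw [D.hsh, D.fix]⟩
  map_one' := by apply Subtype.ext; simp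
  map_mul' a b := by apply Subtype.ext; simp
  map_zero' := by apply Subtype.ext; simp
  map_add' a b := by apply Subtype.ext; simp

theorem coe_jF (D : DenseData w s F L vL j sh) (x : F) :
    algebraMap (fixF sh) L (jF D x) = j (algebraMap F E x) := rfl

theorem DenseData.denseF (D : DenseData w s F L vL j sh) :
    DenseHom (vL.comap (algebraMap (fixF sh) L)) (jF D) := by
  intro x n
  have h3 : j (3 : E) ≠ 0 := (map_ne_zero j).mpr D.three
  obtain ⟨e, he⟩ := exists_le_exp' vL (j (3 : E))⁻¹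
  obtain ⟨k, hk⟩ := D.dense x (n + e)
  have hs3 : ∀ y : E, s (s (s y)) = y := by
    intro y
    apply j.injective
    rw [← D.hsh, ← D.hsh, ← D.hsh, D.cube]
  obtain ⟨f, hf⟩ := D.desc ((k + s k + s (s k)) / 3) (by
    rw [map_div₀, map_add, map_add, hs3, map_ofNat]
    congr 1
    ring)
  refine ⟨f, ?_⟩
  have hx : sh (x : L) = x := x.2
  have e1 : algebraMap (fixF sh) L (x - jF D f) =
      (j (3 : E))⁻¹ * (((x : L) - j k) + (sh ((x : L) - j k) + sh (sh ((x : L) - j k)))) := by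
    rw [map_sub, coe_jF, hf]
    show (x : L) - _ = _
    rw [map_sub, map_sub, hx, hx, D.hsh, D.hsh, map_div₀, map_add, map_add]
    have h3' : j (3 : E) = 3 := map_ofNat j 3
    rw [h3'] at h3 ⊢
    field_simp
    ring
  rw [Valuation.comap_apply, e1, map_mul]
  have h4 : vL (((x : L) - j k) + (sh ((x : L) - j k) + sh (sh ((x : L) - j k)))) ≤
      exp (-((n + e : ℕ) : ℤ)) := by
    refine (vL.map_add _ _).trans (max_le hk ((vL.map_add _ _).trans (max_le ?_ ?_)))
    · rw [D.val]; exact hk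
    · rw [D.val, D.val]; exact hk
  refine (mul_le_mul' he h4).trans ?_
  rw [← exp_add, exp_le_exp]
  push_cast
  linarith

theorem gam_le_IwGL {k : Type*} [Field k] {v : Valuation k ℤᵐ⁰} {g : GL (Fin 2) k}
    (hg : g ∈ Gam v (0 + 1)) : g ∈ IwGL v := by
  obtain ⟨h, -⟩ := hg
  obtain ⟨-, hd⟩ := det_ne_zero_of_near h
  have hlt : exp (-((0 + 1 : ℕ) : ℤ)) < (1 : ℤᵐ⁰) := by rw [← exp_zero, exp_lt_exp]; norm_num
  have h00 := (h 0 0).trans_lt hlt
  have h01 := (h 0 1).trans_lt hlt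
  have h10 := (h 1 0).trans_lt hlt
  have h11 := (h 1 1).trans_lt hlt
  simp only [Matrix.one_apply_eq, Matrix.one_apply_ne (show (0 : Fin 2) ≠ 1 by decide),
    Matrix.one_apply_ne (show (1 : Fin 2) ≠ 0 by decide), sub_zero] at h00 h01 h10 h11
  have e00 : v (g.1 0 0) = 1 := by
    have : g.1 0 0 = 1 + (g.1 0 0 - 1) := by ring
    rw [this]; exact Valuation.map_one_add_of_lt v h00
  have e11 : v (g.1 1 1) = 1 := by
    have : g.1 1 1 = 1 + (g.1 1 1 - 1) := by ring
    rw [this]; exact Valuation.map_one_add_of_lt v h11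
  rw [mem_IwGL, Cell]
  refine ⟨by rw [e00, e11], by rw [e11]; exact h01.le, by rw [e11]; exact h10, ?_⟩
  rw [e11, hd]; simp

theorem cell_map_val {A B : Type*} [Field A] [Field B] {Γ₀ : Type*}
    [LinearOrderedCommGroupWithZero Γ₀] {vA : Valuation A Γ₀} {vB : Valuation B Γ₀} {f : A →+* B}
    (hf : ∀ x, vB (f x) = vA x) {c : Γ₀} {g : GL (Fin 2) A} :
    Cell vB c ((GeneralLinearGroup.map f g : GL (Fin 2) B) : Matrix (Fin 2) (Fin 2) B) ↔
      Cell vA c (g : Matrix (Fin 2) (Fin 2) A) := by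
  have hdet : ((GeneralLinearGroup.map f g : GL (Fin 2) B) : Matrix (Fin 2) (Fin 2) B).det =
      f (g : Matrix (Fin 2) (Fin 2) A).det := by
    rw [Matrix.det_fin_two, Matrix.det_fin_two]; simp
  rw [Cell, Cell, hdet, hf]
  simp [hf]

theorem map_jF (D : DenseData w s F L vL j sh) (y : GL (Fin 2) F) :
    GeneralLinearGroup.map (algebraMap (fixF sh) L) (GeneralLinearGroup.map (jF D) y) =
      GeneralLinearGroup.map j (GeneralLinearGroup.map (algebraMap F E) y) := by
  apply Units.ext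
  ext a b
  rfl

theorem map_sh (D : DenseData w s F L vL j sh) (g : GL (Fin 2) E) :
    GeneralLinearGroup.map (sh : L →+* L) (GeneralLinearGroup.map j g) =
      GeneralLinearGroup.map j (GeneralLinearGroup.map s g) := by
  apply Units.ext
  ext a b
  exact D.hsh _

theorem NormPair.hat (D : DenseData w s F L vL j sh) {d : GL (Fin 2) E} {γ : GL (Fin 2) F}
    (P : NormPair s d γ) : NormPair (k := fixF sh) (sh : L →+* L) (GeneralLinearGroup.map j d)
      (GeneralLinearGroup.map (jF D) γ) := by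
  refine ⟨?_, ?_⟩
  · have h := congrArg (ProjGenLinGroup.map (n := Fin 2) j) P.norm
    rw [ProjGenLinGroup.map_mk, ProjGenLinGroup.map_mk] at h
    rw [map_jF D, map_sh D, map_sh D, ← map_mul, ← map_mul]
    exact h
  · have h := congrArg (ProjGenLinGroup.map (n := Fin 2) j) P.comm
    rw [map_mul, map_mul, ProjGenLinGroup.map_mk, ProjGenLinGroup.map_mk] at h
    rw [map_jF D]
    exact h

/-- `(R1)` over the number field -/
theorem DenseData.exists_of_cell (D : DenseData w s F L vL j sh) {c : ℤᵐ⁰} (hc : c < 1)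
    (hc0 : c ≠ 0) {d : GL (Fin 2) E} {γ : GL (Fin 2) F} (P : NormPair s d γ) {g : GL (Fin 2) E}
    (h : Cell w c ((g⁻¹ * d * GeneralLinearGroup.map s g : GL (Fin 2) E) :
      Matrix (Fin 2) (Fin 2) E)) :
    ∃ y : GL (Fin 2) F, g⁻¹ * GeneralLinearGroup.map (algebraMap F E) y ∈ IwGL w := by
  have h' : Cell vL c ((((GeneralLinearGroup.map j g)⁻¹ * GeneralLinearGroup.map j d *
      GeneralLinearGroup.map (sh : L →+* L) (GeneralLinearGroup.map j g) : GL (Fin 2) L)) :
      Matrix (Fin 2) (Fin 2) L) := by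
    rw [map_sh D, ← map_inv, ← map_mul, ← map_mul, cell_map_val D.hj]
    exact h
  obtain ⟨y, i, hi, hy⟩ := D.inert.exists_of_cell hc hc0 (P.hat D) h'
  obtain ⟨x, hx⟩ := approx_GL D.denseF y 0
  have hx' := gam_le_IwGL hx
  refine ⟨x, ?_⟩
  rw [mem_IwGL, ← cell_map_val D.hj (g := g⁻¹ * GeneralLinearGroup.map (algebraMap F E) x),
    map_mul, map_inv, ← map_jF D, hy]
  have e : (GeneralLinearGroup.map (algebraMap (fixF sh) L) y * i)⁻¹ *
      GeneralLinearGroup.map (algebraMap (fixF sh) L) (GeneralLinearGroup.map (jF D) x) =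
      i⁻¹ * GeneralLinearGroup.map (algebraMap (fixF sh) L)
        (y⁻¹ * GeneralLinearGroup.map (jF D) x) := by
    rw [map_mul, map_inv]; group
  rw [e]
  refine mul_mem (inv_mem hi) ?_
  rw [mem_IwGL, cell_map_val (vA := vL.comap (algebraMap (fixF sh) L)) (fun _ => rfl)]
  exact hx'

/-- `(R2)` over the number field -/
theorem DenseData.cell_iff (D : DenseData w s F L vL j sh) {c : ℤᵐ⁰} (hc : c < 1)
    (hc0 : c ≠ 0) {v : Valuation F ℤᵐ⁰} (hv : ∀ x, w (algebraMap F E x) = v x)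
    {d : GL (Fin 2) E} {γ : GL (Fin 2) F} (P : NormPair s d γ) (y : GL (Fin 2) F) :
    Cell w c ((((GeneralLinearGroup.map (algebraMap F E) y)⁻¹ * d *
      GeneralLinearGroup.map (algebraMap F E) y : GL (Fin 2) E)) : Matrix (Fin 2) (Fin 2) E) ↔
    Cell v (c ^ 3) ((y⁻¹ * γ * y : GL (Fin 2) F) : Matrix (Fin 2) (Fin 2) F) := by
  have h := D.inert.cell_iff hc hc0 (P.hat D) (GeneralLinearGroup.map (jF D) y)
  rw [D.inert.map_map] at h
  have e1 : (GeneralLinearGroup.map (algebraMap (fixF sh) L) (GeneralLinearGroup.map (jF D) y))⁻¹ *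
      GeneralLinearGroup.map j d *
      GeneralLinearGroup.map (algebraMap (fixF sh) L) (GeneralLinearGroup.map (jF D) y) =
      GeneralLinearGroup.map j ((GeneralLinearGroup.map (algebraMap F E) y)⁻¹ * d *
      GeneralLinearGroup.map (algebraMap F E) y) := by
    rw [map_jF D, map_mul, map_mul, map_inv]
  have e2 : (GeneralLinearGroup.map (jF D) y)⁻¹ * GeneralLinearGroup.map (jF D) γ *
      GeneralLinearGroup.map (jF D) y = GeneralLinearGroup.map (jF D) (y⁻¹ * γ * y) := by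
    rw [map_mul, map_mul, map_inv]
  rw [e1, e2, cell_map_val D.hj, cell_map_val (vA := v) (fun x => by
    rw [Valuation.comap_apply, coe_jF, D.hj, hv])] at h
  exact h

end Dense

section Final

open Matrix WithZero IsDedekindDomain NumberField
open scoped MatrixGroups
open Fermat.Agent.H92T Fermat.Agent.H59D

variable {R : Type*} [CommRing R] [IsDedekindDomain R] {K : Type*} [Field K] [Algebra R K]
  [IsFractionRing R K]

theorem mk_mem_Iw {w : HeightOneSpectrum R} {g : GL (Fin 2) K} :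
    ProjGenLinGroup.mk g ∈ Iw (K := K) w ↔ g ∈ IwGL (w.valuation K) := by
  constructor
  · rintro ⟨h, hh, hhg⟩
    obtain ⟨z, rfl⟩ := ProjGenLinGroup.mk_eq_mk_iff.mp hhg
    rw [mem_IwGL, cell_mul_scalar]
    rw [SetLike.mem_coe, mem_GLIw, mem_GLw] at hh
    obtain ⟨⟨h1, h2⟩, h3⟩ := hh
    have e11 : w.valuation K (h 1 1) = 1 := by
      refine le_antisymm (h1 1 1) ?_
      by_contra hcon
      push Not at hcon
      have : w.valuation K (h : Matrix (Fin 2) (Fin 2) K).det < 1 := by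
        rw [Matrix.det_fin_two]
        refine (Valuation.map_sub _ _ _).trans_lt (max_lt ?_ ?_)
        · rw [map_mul]
          calc _ ≤ 1 * w.valuation K (h 1 1) := mul_le_mul' (h1 0 0) le_rfl
            _ < 1 := by rw [one_mul]; exact hcon
        · rw [map_mul]
          calc _ ≤ 1 * w.valuation K (h 1 0) := mul_le_mul' (h1 0 1) le_rfl
            _ < 1 := by rw [one_mul]; exact h3
      exact this.ne h2
    refine ⟨?_, ?_, ?_, ?_⟩
    · rw [e11]; exact h1 0 0
    · rw [e11]; exact h1 0 1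
    · rw [e11]; exact h3
    · rw [e11, h2]; simp
  · intro hg
    have hne := hg.ne
    have hv0 : w.valuation K (g 1 1) ≠ 0 := hg.pos.ne'
    refine ⟨g * GeneralLinearGroup.scalar (Fin 2) (Units.mk0 (g 1 1) hne)⁻¹, ?_, ?_⟩
    · have hg' : Cell (w.valuation K) 1 ((g * GeneralLinearGroup.scalar (Fin 2)
          (Units.mk0 (g 1 1) hne)⁻¹ : GL (Fin 2) K) : Matrix (Fin 2) (Fin 2) K) :=
        cell_mul_scalar.mpr hg
      have e11 : w.valuation K ((g * GeneralLinearGroup.scalar (Fin 2)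
          (Units.mk0 (g 1 1) hne)⁻¹ : GL (Fin 2) K) 1 1) = 1 := by
        have : (g * GeneralLinearGroup.scalar (Fin 2)
          (Units.mk0 (g 1 1) hne)⁻¹ : GL (Fin 2) K) 1 1 = 1 := by
          rw [GeneralLinearGroup.coe_mul, GeneralLinearGroup.coe_scalar]
          simp [Matrix.scalar_apply, Matrix.mul_diagonal, hne]
        rw [this, map_one]
      have h00 := hg'.v00 rfl
      obtain ⟨h1, h2, h3, h4⟩ := hg'
      rw [e11] at h1 h2 h3 h4 h00
      rw [SetLike.mem_coe, mem_GLIw, mem_GLw]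
      refine ⟨⟨?_, by rw [h4]; simp⟩, h3⟩
      intro i j
      fin_cases i <;> fin_cases j
      · exact h1
      · exact h2
      · exact h3.le
      · exact e11.le
    · rw [map_mul, ProjGenLinGroup.mk_scalar, mul_one]

open Classical in
/-- `κ` is the kernel of `Iw diag(ϖ^m, 1) Iw` -/
def IsUKer (w : HeightOneSpectrum R) (m : ℕ) {U : Subgroup PGL(2, K)} (κ : LocKer U) : Prop :=
  ∀ g h : GL (Fin 2) K,
    κ.k ((ProjGenLinGroup.mk g : PGL(2, K)) : PGL(2, K) ⧸ U)
      ((ProjGenLinGroup.mk h : PGL(2, K)) : PGL(2, K) ⧸ U) =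
    if Cell (w.valuation K) (exp (-(m : ℤ))) ((g⁻¹ * h : GL (Fin 2) K) : Matrix (Fin 2) (Fin 2) K)
      then 1 else 0

variable {E F : Type*} [Field E] [NumberField E] [Field F] [NumberField F] [Algebra F E]

theorem denseData_adic (s : E ≃+* E) (w : HeightOneSpectrum (𝓞 E)) (v : HeightOneSpectrum (𝓞 F))
    (hsw : ∀ x, w.valuation E (s x) = w.valuation E x) (hs3 : ∀ x, s (s (s x)) = x)
    (hfix : ∀ y : F, s (algebraMap F E y) = algebraMap F E y)
    (hdesc : ∀ x : E, s x = x → ∃ y : F, algebraMap F E y = x)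
    (hval : ∀ x : F, w.valuation E (algebraMap F E x) = v.valuation F x) :
    ∃ sh : w.adicCompletion E ≃+* w.adicCompletion E,
      DenseData (w.valuation E) (s : E →+* E) F (w.adicCompletion E) Valued.v
        (algebraMap E (w.adicCompletion E)) sh := by
  obtain ⟨sh, h1, h2, h3⟩ := exists_hat3 w s hsw hs3
  refine ⟨sh, ⟨adic_val w, h1, h2, h3, hfix, hdesc, denseHom_adic w, compl3_adic w, adic_surj w,
    by norm_num, ?_⟩⟩
  obtain ⟨p, hp⟩ := v.valuation_exists_uniformizer F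
  exact ⟨p, by rw [hval, hp]⟩

/-- **Local matching at the good inert place `v₀`** (Iwahori level, `U^m` on `E`, `U^{3m}` on `F`),
in the form used by `H57C.exists_locMatch`. -/
theorem exists_locMatch_v0 {L : LevelFam PGL(2, E) (HeightOneSpectrum (𝓞 E))} (t : Twist L)
    {L' : LevelFam PGL(2, F) (HeightOneSpectrum (𝓞 F))}
    (π : HeightOneSpectrum (𝓞 E) → HeightOneSpectrum (𝓞 F)) (hπ : ∀ i, π (t.σ i) = π i)
    (s : E ≃+* E) (hts : ∀ g, t.s g = ProjGenLinGroup.map (s : E →+* E) g)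
    (w : HeightOneSpectrum (𝓞 E)) (v : HeightOneSpectrum (𝓞 F))
    (hw : π w = v) (huniq : ∀ i, π i = v → i = w)
    (hsw : ∀ x, w.valuation E (s x) = w.valuation E x) (hs3 : ∀ x, s (s (s x)) = x)
    (hfix : ∀ y : F, s (algebraMap F E y) = algebraMap F E y)
    (hdesc : ∀ x : E, s x = x → ∃ y : F, algebraMap F E y = x)
    (hval : ∀ x : F, w.valuation E (algebraMap F E x) = v.valuation F x)
    (hL : L.U w = Iw w) (hL' : L'.U v = Iw v) {m : ℕ} (hm : 1 ≤ m)
    (a : GlobKer L) (b : LocKer (L'.U v)) (ha : IsUKer w m (a.loc w)) (hb : IsUKer v (3 * m) b)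
    (d : PGL(2, E)) (γ : PGL(2, F))
    (hγ : ProjGenLinGroup.map (algebraMap F E) γ = d * t.s d * t.s (t.s d))
    (hcomm : d * ProjGenLinGroup.map (algebraMap F E) γ =
      ProjGenLinGroup.map (algebraMap F E) γ * d) {T : Type*} (τ : T → PGL(2, F)) :
    ∃ β : Xv L π v → PGL(2, F) ⧸ L'.U v,
      LocMatch (fun c x => fun i => ProjGenLinGroup.map (algebraMap F E) (τ c) • x i)
        (fun c y => τ c • y) (phiv t π hπ a d v) (fun y => b.k y (γ • y)) β := by
  obtain ⟨sh, D⟩ := denseData_adic s w v hsw hs3 hfix hdesc hval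
  have hc : (exp (-(m : ℤ)) : ℤᵐ⁰) < 1 := by
    rw [← exp_zero, exp_lt_exp]
    omega
  have hc0 : (exp (-(m : ℤ)) : ℤᵐ⁰) ≠ 0 := exp_ne_zero
  have hc3 : (exp (-(m : ℤ)) : ℤᵐ⁰) ^ 3 = exp (-((3 * m : ℕ) : ℤ)) := by
    rw [← WithZero.exp_nsmul]
    congr 1
    simp
  obtain ⟨d', rfl⟩ := ProjGenLinGroup.mk_surjective d
  obtain ⟨γ', rfl⟩ := ProjGenLinGroup.mk_surjective γ
  have P : NormPair (s : E →+* E) d' γ' := by
    refine ⟨?_, ?_⟩
    · rw [hts, hts, ProjGenLinGroup.map_mk, ProjGenLinGroup.map_mk, ProjGenLinGroup.map_mk] at hγ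
      rw [map_mul, map_mul]
      exact hγ.symm
    · exact hcomm
  refine exists_locMatch_nonsplit t π hπ (ProjGenLinGroup.map (algebraMap F E)) v w hw huniq
    ?_ a b _ _ ?_ ?_ τ
  · intro g
    obtain ⟨g, rfl⟩ := ProjGenLinGroup.mk_surjective g
    rw [hL, hL', ProjGenLinGroup.map_mk, mk_mem_Iw, mk_mem_Iw, mem_IwGL, mem_IwGL]
    exact (cell_map_val hval).symm
  · intro g hg
    obtain ⟨g, rfl⟩ := ProjGenLinGroup.mk_surjective g
    rw [hts, ProjGenLinGroup.map_mk, ← map_mul, ha] at hg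
    have h1 : Cell (w.valuation E) (exp (-(m : ℤ)))
        ((g⁻¹ * (d' * GeneralLinearGroup.map (s : E →+* E) g) : GL (Fin 2) E) :
          Matrix (Fin 2) (Fin 2) E) := by
      by_contra hcon
      exact hg (if_neg hcon)
    rw [← mul_assoc] at h1
    obtain ⟨y, hy⟩ := D.exists_of_cell hc hc0 P h1
    refine ⟨ProjGenLinGroup.mk y, ?_⟩
    rw [hL, ProjGenLinGroup.map_mk, ← map_inv, ← map_mul, mk_mem_Iw]
    exact hy
  · intro y
    obtain ⟨y, rfl⟩ := ProjGenLinGroup.mk_surjective y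
    have hsy : GeneralLinearGroup.map (s : E →+* E) (GeneralLinearGroup.map (algebraMap F E) y) =
        GeneralLinearGroup.map (algebraMap F E) y := by
      apply Units.ext
      ext i j
      exact hfix _
    rw [hts, ProjGenLinGroup.map_mk, ProjGenLinGroup.map_mk, hsy, ← map_mul, ← map_mul, ha, hb,
      ← mul_assoc, ← mul_assoc, ← hc3]
    have h := D.cell_iff hc hc0 hval P y
    by_cases h1 : Cell (v.valuation F) (exp (-(m : ℤ)) ^ 3)
        ((y⁻¹ * γ' * y : GL (Fin 2) F) : Matrix (Fin 2) (Fin 2) F)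
    · rw [if_pos h1, if_pos (h.mpr h1)]
    · rw [if_neg h1, if_neg (fun h2 => h1 (h.mp h2))]

end Final

end Fermat.Agent.H25V
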