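import Fermat.Agent.H20S5
import Fermat.Agent.H94UCut
import Mathlib.MeasureTheory.Integral.DominatedConvergence

/-!
# Geometric sides as sums over classes, and their comparison (C18c)

* `Tw φ`: the group `G` with the twisted conjugation action `g • d = g d φ(g)⁻¹`;
* `tw_unfold`: unfolding of `∑_d t(x, d τ(x))` over twisted conjugacy classes;
* `geom_compare`: the comparison of the twisted geometric side over `E` and the geometric side
  over `F`.
-/

set_option autoImplicit false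
set_option linter.unusedSectionVars false

noncomputable section

open MeasureTheory ENNReal Matrix
open scoped MatrixGroups

namespace Fermat.Agent.H94U

open Fermat.Agent.H20.S47

/-! ### Twisted conjugation -/

section Tw

/-- the group `G`, as a set with twisted conjugation -/
def Tw {G : Type*} [Group G] (_φ : G →* G) : Type _ := G

variable {G : Type*} [Group G] (φ : G →* G)

instance : MulAction G (Tw φ) where
  smul g d := (g * (show G from d) * (φ g)⁻¹ : G)
  one_smul d := by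
    show ((1 : G) * (show G from d) * (φ 1)⁻¹ : G) = d
    rw [map_one, inv_one, mul_one, one_mul]
  mul_smul g h d := by
    show ((g * h) * (show G from d) * (φ (g * h))⁻¹ : G) = (g * (h * (show G from d) * (φ h)⁻¹) * (φ g)⁻¹ : G)
    rw [map_mul, _root_.mul_inv_rev]
    simp only [mul_assoc]

/-- an element of `G` as an element of `Tw φ` -/
def Tw.of (d : G) : Tw φ := d

theorem Tw.smul_of (g d : G) : g • Tw.of φ d = Tw.of φ (g * d * (φ g)⁻¹) := rfl

theorem Tw.of_injective : Function.Injective (Tw.of φ) := fun _ _ h => h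

theorem Tw.mem_stabilizer (g d : G) :
    g ∈ MulAction.stabilizer G (Tw.of φ d) ↔ g * d = d * φ g := by
  rw [MulAction.mem_stabilizer_iff, Tw.smul_of, (Tw.of_injective φ).eq_iff, mul_inv_eq_iff_eq_mul]

variable {X : Type*} [MulAction G X] {E : Type*}

/-- the terms of a geometric side -/
def twf (t : X → X → E) (τ : X → X) (d : Tw φ) (x : X) : E := t x ((show G from d) • τ x)

theorem twf_of (t : X → X → E) (τ : X → X) (d : G) (x : X) :
    twf φ t τ (Tw.of φ d) x = t x (d • τ x) := rfl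

theorem twf_inv {t : X → X → E} {τ : X → X} (ht : ∀ (g : G) x y, t (g • x) (g • y) = t x y)
    (hτ : ∀ (g : G) x, τ (g • x) = φ g • τ x) (g : G) (d : Tw φ) (x : X) :
    twf φ t τ (g • d) (g • x) = twf φ t τ d x := by
  show t (g • x) ((g * (show G from d) * (φ g)⁻¹ : G) • τ (g • x)) = t x ((show G from d) • τ x)
  rw [hτ, smul_smul, inv_mul_cancel_right, mul_smul, ht]

end Tw

/-! ### Unfolding over twisted classes -/

section Unf

variable {G : Type*} [Group G] [Countable G] (φ : G →* G) {X I : Type*} [MulAction G X]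
  [MeasurableSpace X] [MeasurableConstSMul G X] (μ : Measure X) [SMulInvariantMeasure G X μ]
  {E : Type*} [NormedAddCommGroup E] [NormedSpace ℝ E] [MeasurableSpace E] [BorelSpace E]
  [SecondCountableTopology E]

/-- **Unfolding over twisted conjugacy classes**: `r` is a system of representatives of the
classes which contribute, `χr i` is a cut-off of the twisted centraliser of `r i`, at least on the
support of `t x (r i • τ x)`. -/
theorem tw_unfold {χ : X → ℝ≥0∞} (hχ : IsCutoff G χ) {t : X → X → E} {τ : X → X}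
    (ht : ∀ (g : G) x y, t (g • x) (g • y) = t x y) (hτ : ∀ (g : G) x, τ (g • x) = φ g • τ x)
    (hm : ∀ d : G, Measurable fun x => t x (d • τ x))
    (r : I → G) (χr : I → X → ℝ≥0∞) (hχm : ∀ i, Measurable (χr i))
    (huniq : ∀ i j, (∃ g : G, g * r i * (φ g)⁻¹ = r j) → i = j)
    (hex : ∀ (d : G) x, t x (d • τ x) ≠ 0 → ∃ i, ∃ g : G, g * d * (φ g)⁻¹ = r i)
    (hχr : ∀ i x, t x (r i • τ x) ≠ 0 →
      ∑' k : MulAction.stabilizer G (Tw.of φ (r i)), χr i (k • x) = 1)
    (hint : ∑' d : G, ∫⁻ x, ‖t x (d • τ x)‖ₑ ∂(μ.withDensity χ) ≠ ⊤) :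
    (∀ i, Integrable (fun x => t x (r i • τ x)) (μ.withDensity (χr i))) ∧
    ∃ J : E, HasSum (fun d : G => ∫ x, t x (d • τ x) ∂(μ.withDensity χ)) J ∧
      HasSum (fun i => ∫ x, t x (r i • τ x) ∂(μ.withDensity (χr i))) J :=
  unfold_integral' (G := G) (D := Tw φ) μ hχ (fun i => Tw.of φ (r i)) χr hχm
    (fun i j ⟨g, hg⟩ => huniq i j ⟨g, hg⟩) (f := twf φ t τ) (fun d => hm d)
    (twf_inv φ ht hτ) (fun d x h => hex d x h) hχr hint

end Unf

/-! ### Sums and integrals -/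

section Sum

variable {X D E : Type*} [Countable D] [MeasurableSpace X] {μ : Measure X}
  [NormedAddCommGroup E] [NormedSpace ℝ E] [CompleteSpace E] [MeasurableSpace E] [BorelSpace E]
  [SecondCountableTopology E]

/-- sums and integrals, under absolute convergence -/
theorem integrable_tsum_of {f : D → X → E} (hf : ∀ d, Measurable (f d))
    (h : ∑' d, ∫⁻ x, ‖f d x‖ₑ ∂μ ≠ ⊤) :
    Integrable (fun x => ∑' d, f d x) μ ∧ HasSum (fun d => ∫ x, f d x ∂μ) (∫ x, ∑' d, f d x ∂μ) := by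
  have hm : ∀ d, AEStronglyMeasurable (f d) μ := fun d => (hf d).aestronglyMeasurable
  have h1 : ∀ d, Integrable (f d) μ := fun d =>
    ⟨hm d, lt_of_le_of_lt (ENNReal.le_tsum (f := fun d => ∫⁻ x, ‖f d x‖ₑ ∂μ) d)
      (lt_top_iff_ne_top.mpr h)⟩
  have h5 : Summable fun d => ∫ x, ‖f d x‖ ∂μ := by
    refine (ENNReal.summable_toReal h).congr fun d => ?_
    rw [integral_norm_eq_lintegral_enorm (hm d)]
  refine ⟨⟨(Measurable.tsum hf).aestronglyMeasurable, ?_⟩,
    hasSum_integral_of_summable_integral_norm h1 h5⟩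
  refine lt_of_le_of_lt (lintegral_mono fun x => enorm_tsum_le_tsum_enorm) ?_
  rw [lintegral_tsum fun d => (hf d).enorm.aemeasurable]
  exact lt_top_iff_ne_top.mpr h

end Sum

/-! ### Countability -/

theorem countable_PGL (K : Type*) [Field K] [Countable K] : Countable PGL(2, K) := by
  have h1 : Countable (GL (Fin 2) K) := by
    have : Function.Injective fun g : GL (Fin 2) K => (g : Matrix (Fin 2) (Fin 2) K) :=
      fun g h e => Units.ext e
    have h0 : Countable (Matrix (Fin 2) (Fin 2) K) := inferInstanceAs (Countable (Fin 2 → Fin 2 → K))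
    exact this.countable
  exact Matrix.ProjGenLinGroup.mk_surjective.countable

/-! ### The comparison -/

section Compare

variable {F E : Type*} [Field F] [Field E] [Algebra F E] {s : E ≃ₐ[F] E}

/-- the conjugacy classes of elliptic regular norms -/
def NCls (s : E ≃ₐ[F] E) : Type _ :=
  {c : ConjClasses PGL(2, F) // ∃ γ, ConjClasses.mk γ = c ∧ EllReg γ ∧ ∃ δ, nP s δ = incP E γ}

/-- representatives of classes, over `F` -/
def NCls.γ (c : NCls s) : PGL(2, F) := c.2.choose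

theorem NCls.mk_γ (c : NCls s) : ConjClasses.mk c.γ = c.1 := c.2.choose_spec.1

theorem NCls.ellReg (c : NCls s) : EllReg c.γ := c.2.choose_spec.2.1

/-- representatives of classes, over `E` -/
def NCls.δ (c : NCls s) : PGL(2, E) := c.2.choose_spec.2.2.choose

theorem NCls.nP_δ (c : NCls s) : nP s c.δ = incP E c.γ := c.2.choose_spec.2.2.choose_spec

theorem NCls.eq_of_conj {c c' : NCls s} (h : ∃ g : PGL(2, F), g * c.γ * g⁻¹ = c'.γ) : c = c' := by
  obtain ⟨g, hg⟩ := h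
  apply Subtype.ext
  rw [← c.mk_γ, ← c'.mk_γ, ConjClasses.mk_eq_mk_iff_isConj, isConj_iff]
  exact ⟨g, hg⟩

theorem NCls.exists_conj {γ : PGL(2, F)} (h : EllReg γ) (hn : ∃ δ, nP s δ = incP E γ) :
    ∃ c : NCls s, ∃ g : PGL(2, F), g * γ * g⁻¹ = c.γ := by
  let c : NCls s := ⟨ConjClasses.mk γ, γ, rfl, h, hn⟩
  refine ⟨c, ?_⟩
  rw [← isConj_iff, ← ConjClasses.mk_eq_mk_iff_isConj]
  exact c.mk_γ.symm

theorem NCls.eq_of_tw (h3 : ∀ x, s (s (s x)) = x) {c c' : NCls s}
    (h : ∃ g : PGL(2, E), g * c.δ * (sP s g)⁻¹ = c'.δ) : c = c' := by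
  obtain ⟨g, hg⟩ := h
  apply NCls.eq_of_conj
  have h1 : g * incP E c.γ = incP E c'.γ * g := by
    rw [← c.nP_δ, ← c'.nP_δ, ← hg, nP_conj s h3, inv_mul_cancel_right]
  obtain ⟨y, hy⟩ := conj_rational c.ellReg c'.ellReg h1
  exact ⟨y, by rw [hy, mul_inv_cancel_right]⟩

theorem NCls.exists_tw (h3 : ∀ x, s (s (s x)) = x) (hs : s ≠ AlgEquiv.refl)
    (hfix : ∀ x, s x = x → x ∈ Set.range (algebraMap F E)) {δ : PGL(2, E)}
    (h : EllReg (nP s δ)) : ∃ c : NCls s, ∃ g : PGL(2, E), g * δ * (sP s g)⁻¹ = c.δ := by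
  obtain ⟨x, γ, hγ, hx⟩ := exists_rational_norm h3 hfix h
  obtain ⟨c, g, hg⟩ := NCls.exists_conj (s := s) hγ ⟨_, hx⟩
  refine ⟨c, ?_⟩
  obtain ⟨y, hy⟩ := (twisted_conj_iff h3 hs hfix (δ₁ := δ) (δ₂ := c.δ) h).mpr
    ⟨incP E g * x, by
      rw [c.nP_δ, ← hg, map_mul, map_mul, ← hx, nP_conj s h3, map_inv]
      group⟩
  exact ⟨y, hy.symm⟩

/-- `δ` commutes with the image of the centraliser of `γ` -/
theorem incP_mul_comm (h3 : ∀ x, s (s (s x)) = x)
    (hfix : ∀ x, s x = x → x ∈ Set.range (algebraMap F E)) {δ : PGL(2, E)} {γ : PGL(2, F)}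
    (hγ : EllReg γ) (h : nP s δ = incP E γ) {y : PGL(2, F)} (hy : y * γ = γ * y) :
    incP E y * δ = δ * incP E y := by
  have h1 := (twisted_centralizer_iff h3 hfix hγ h (incP E y)).mpr ⟨y, hy, rfl⟩
  rwa [sP_incP] at h1

/-- the twisted centraliser of `δ` is the centraliser of `γ` -/
def stabEquiv (h3 : ∀ x, s (s (s x)) = x)
    (hfix : ∀ x, s x = x → x ∈ Set.range (algebraMap F E)) {δ : PGL(2, E)} {γ : PGL(2, F)}
    (hγ : EllReg γ) (h : nP s δ = incP E γ) :
    Subgroup.centralizer {γ} ≃ MulAction.stabilizer PGL(2, E) (Tw.of (sP s) δ) :=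
  Equiv.ofBijective (fun y => ⟨incP E (y : PGL(2, F)), by
    rw [Tw.mem_stabilizer]
    exact (twisted_centralizer_iff h3 hfix hγ h _).mpr
      ⟨y, Subgroup.mem_centralizer_singleton_iff.mp y.2, rfl⟩⟩) (by
    constructor
    · intro y y' hyy
      exact Subtype.ext (incP_injective (congrArg Subtype.val hyy))
    · rintro ⟨x, hx⟩
      rw [Tw.mem_stabilizer] at hx
      obtain ⟨y, hy, rfl⟩ := (twisted_centralizer_iff h3 hfix hγ h _).mp hx
      exact ⟨⟨y, Subgroup.mem_centralizer_singleton_iff.mpr hy⟩, rfl⟩)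

theorem stabEquiv_coe (h3 : ∀ x, s (s (s x)) = x)
    (hfix : ∀ x, s x = x → x ∈ Set.range (algebraMap F E)) {δ : PGL(2, E)} {γ : PGL(2, F)}
    (hγ : EllReg γ) (h : nP s δ = incP E γ) (y : Subgroup.centralizer {γ}) :
    (stabEquiv h3 hfix hγ h y : PGL(2, E)) = incP E (y : PGL(2, F)) := rfl

variable {XE XF : Type*} [MeasurableSpace XE] [MeasurableSpace XF]
  [MulAction PGL(2, E) XE] [MulAction PGL(2, F) XF]
  [MeasurableConstSMul PGL(2, E) XE] [MeasurableConstSMul PGL(2, F) XF]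
  (μE : Measure XE) (μF : Measure XF)
  [SMulInvariantMeasure PGL(2, E) XE μE] [SMulInvariantMeasure PGL(2, F) XF μF]
  {V : Type*} [NormedAddCommGroup V] [NormedSpace ℝ V] [CompleteSpace V] [MeasurableSpace V]
  [BorelSpace V] [SecondCountableTopology V]

/-- **(GEOM)** the twisted geometric side over `E` is the geometric side over `F`. The comparison
`hcmp` of the contributions of single classes is only needed for norm pairs `(δ, γ)` with `δ`
commuting with the centraliser of `γ` and such that at least one of the two contributions is not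
identically zero; the weight `w` on the `E`-side need only be a cut-off on the support. -/
theorem geom_compare [Countable PGL(2, E)] [Countable PGL(2, F)]
    (h3 : ∀ x, s (s (s x)) = x) (hs : s ≠ AlgEquiv.refl)
    (hfix : ∀ x, s x = x → x ∈ Set.range (algebraMap F E))
    {sX : XE → XE} (hsX : ∀ (g : PGL(2, E)) x, sX (g • x) = sP s g • sX x)
    {tE : XE → XE → V} (htE : ∀ (g : PGL(2, E)) x y, tE (g • x) (g • y) = tE x y)
    (hmE : ∀ δ : PGL(2, E), Measurable fun x => tE x (δ • sX x))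
    {tF : XF → XF → V} (htF : ∀ (g : PGL(2, F)) x y, tF (g • x) (g • y) = tF x y)
    (hmF : ∀ γ : PGL(2, F), Measurable fun y => tF y (γ • y))
    {χE : XE → ℝ≥0∞} (hχE : IsCutoff PGL(2, E) χE)
    {χF : XF → ℝ≥0∞} (hχF : IsCutoff PGL(2, F) χF)
    (hE1 : ∀ (δ : PGL(2, E)) x, tE x (δ • sX x) ≠ 0 → EllReg (nP s δ))
    (hE2 : ∑' δ : PGL(2, E), ∫⁻ x, ‖tE x (δ • sX x)‖ₑ ∂(μE.withDensity χE) ≠ ⊤)
    (hF1 : ∀ (γ : PGL(2, F)) y, tF y (γ • y) ≠ 0 → EllReg γ ∧ ∃ δ, nP s δ = incP E γ)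
    (hF2 : ∑' γ : PGL(2, F), ∫⁻ y, ‖tF y (γ • y)‖ₑ ∂(μF.withDensity χF) ≠ ⊤)
    (hcmp : ∀ (δ : PGL(2, E)) (γ : PGL(2, F)), EllReg γ → nP s δ = incP E γ →
      (∀ y : PGL(2, F), y * γ = γ * y → incP E y * δ = δ * incP E y) →
      ((∃ x, tE x (δ • sX x) ≠ 0) ∨ ∃ y, tF y (γ • y) ≠ 0) →
      ∀ χ : XF → ℝ≥0∞, IsCutoff (Subgroup.centralizer {γ}) χ →
      ∃ w : XE → ℝ≥0∞, Measurable w ∧
        (∀ x, tE x (δ • sX x) ≠ 0 →
          ∑' τ : Subgroup.centralizer {γ}, w (incP E (τ : PGL(2, F)) • x) = 1) ∧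
        ∫ x, tE x (δ • sX x) ∂(μE.withDensity w) = ∫ y, tF y (γ • y) ∂(μF.withDensity χ)) :
    Integrable (fun x => ∑' δ : PGL(2, E), tE x (δ • sX x)) (μE.withDensity χE) ∧
    Integrable (fun y => ∑' γ : PGL(2, F), tF y (γ • y)) (μF.withDensity χF) ∧
    ∫ x, ∑' δ : PGL(2, E), tE x (δ • sX x) ∂(μE.withDensity χE) =
      ∫ y, ∑' γ : PGL(2, F), tF y (γ • y) ∂(μF.withDensity χF) := by
  obtain ⟨iE, sE⟩ := integrable_tsum_of hmE hE2
  obtain ⟨iF, sF⟩ := integrable_tsum_of hmF hF2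
  refine ⟨iE, iF, ?_⟩
  -- cut-offs of the centralisers
  have hcut : ∀ c : NCls s, ∃ χ : XF → ℝ≥0∞, IsCutoff (Subgroup.centralizer {c.γ}) χ :=
    fun c => hχF.exists_subgroup _
  choose χc hχc using hcut
  have hw : ∀ c : NCls s, ∃ w : XE → ℝ≥0∞, Measurable w ∧
        (∀ x, tE x (c.δ • sX x) ≠ 0 →
          ∑' τ : Subgroup.centralizer {c.γ}, w (incP E (τ : PGL(2, F)) • x) = 1) ∧
        ∫ x, tE x (c.δ • sX x) ∂(μE.withDensity w) =
          ∫ y, tF y (c.γ • y) ∂(μF.withDensity (χc c)) := by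
    intro c
    by_cases hne : (∃ x, tE x (c.δ • sX x) ≠ 0) ∨ ∃ y, tF y (c.γ • y) ≠ 0
    · exact hcmp c.δ c.γ c.ellReg c.nP_δ
        (fun y hy => incP_mul_comm h3 hfix c.ellReg c.nP_δ hy) hne (χc c) (hχc c)
    · push Not at hne
      refine ⟨0, measurable_const, fun x hx => absurd (hne.1 x) hx, ?_⟩
      simp only [hne.1, hne.2, integral_zero]
  choose w hwm hw1 hw2 using hw
  obtain ⟨-, JE, hJE1, hJE2⟩ := tw_unfold (sP s) μE hχE htE hsX hmE (fun c : NCls s => c.δ) w hwm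
    (fun c c' h => NCls.eq_of_tw h3 h)
    (fun δ x h => NCls.exists_tw h3 hs hfix (hE1 δ x h))
    (fun c x h => by
      rw [← hw1 c x h, ← (stabEquiv h3 hfix c.ellReg c.nP_δ).tsum_eq]
      rfl) hE2
  obtain ⟨-, JF, hJF1, hJF2⟩ := tw_unfold (MonoidHom.id PGL(2, F)) μF hχF (τ := id) htF
    (fun g x => rfl) hmF (fun c : NCls s => c.γ) χc (fun c => (hχc c).meas)
    (fun c c' h => NCls.eq_of_conj h)
    (fun γ y h => NCls.exists_conj (hF1 γ y h).1 (hF1 γ y h).2)
    (fun c x _ => by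
      rw [← (hχc c).sum x]
      have hEq : MulAction.stabilizer PGL(2, F) (Tw.of (MonoidHom.id PGL(2, F)) c.γ) =
          Subgroup.centralizer {c.γ} := by
        ext g
        rw [Tw.mem_stabilizer, Subgroup.mem_centralizer_singleton_iff]
        rfl
      rw [hEq]) hF2
  rw [sE.unique hJE1, sF.unique hJF1]
  have h4 : (fun c : NCls s => ∫ x, tE x (c.δ • sX x) ∂(μE.withDensity (w c))) =
      fun c : NCls s => ∫ y, tF y (c.γ • y) ∂(μF.withDensity (χc c)) := funext hw2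
  rw [h4] at hJE2
  exact hJE2.unique hJF2

/-- **(GEOM)**, with a symmetric form of the comparison of the contributions of single classes:
all cut-offs of the centraliser on both sides, under integrability on both sides. -/
theorem geom_compare_sym [Countable PGL(2, E)] [Countable PGL(2, F)]
    (h3 : ∀ x, s (s (s x)) = x) (hs : s ≠ AlgEquiv.refl)
    (hfix : ∀ x, s x = x → x ∈ Set.range (algebraMap F E))
    {sX : XE → XE} (hsX : ∀ (g : PGL(2, E)) x, sX (g • x) = sP s g • sX x)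
    {tE : XE → XE → V} (htE : ∀ (g : PGL(2, E)) x y, tE (g • x) (g • y) = tE x y)
    (hmE : ∀ δ : PGL(2, E), Measurable fun x => tE x (δ • sX x))
    {tF : XF → XF → V} (htF : ∀ (g : PGL(2, F)) x y, tF (g • x) (g • y) = tF x y)
    (hmF : ∀ γ : PGL(2, F), Measurable fun y => tF y (γ • y))
    {χE : XE → ℝ≥0∞} (hχE : IsCutoff PGL(2, E) χE)
    {χF : XF → ℝ≥0∞} (hχF : IsCutoff PGL(2, F) χF)
    (hE1 : ∀ (δ : PGL(2, E)) x, tE x (δ • sX x) ≠ 0 → EllReg (nP s δ))
    (hE2 : ∑' δ : PGL(2, E), ∫⁻ x, ‖tE x (δ • sX x)‖ₑ ∂(μE.withDensity χE) ≠ ⊤)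
    (hF1 : ∀ (γ : PGL(2, F)) y, tF y (γ • y) ≠ 0 → EllReg γ ∧ ∃ δ, nP s δ = incP E γ)
    (hF2 : ∑' γ : PGL(2, F), ∫⁻ y, ‖tF y (γ • y)‖ₑ ∂(μF.withDensity χF) ≠ ⊤)
    (hcmp : ∀ (δ : PGL(2, E)) (γ : PGL(2, F)), EllReg γ → nP s δ = incP E γ →
      (∀ y : PGL(2, F), y * γ = γ * y → incP E y * δ = δ * incP E y) →
      ((∃ x, tE x (δ • sX x) ≠ 0) ∨ ∃ y, tF y (γ • y) ≠ 0) →
      ∀ (wE : XE → ℝ≥0∞) (wF : XF → ℝ≥0∞), Measurable wE →
      (∀ x, ∑' τ : Subgroup.centralizer {γ}, wE (incP E (τ : PGL(2, F)) • x) = 1) →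
      IsCutoff (Subgroup.centralizer {γ}) wF →
      Integrable (fun x => tE x (δ • sX x)) (μE.withDensity wE) →
      Integrable (fun y => tF y (γ • y)) (μF.withDensity wF) →
      ∫ x, tE x (δ • sX x) ∂(μE.withDensity wE) = ∫ y, tF y (γ • y) ∂(μF.withDensity wF)) :
    Integrable (fun x => ∑' δ : PGL(2, E), tE x (δ • sX x)) (μE.withDensity χE) ∧
    Integrable (fun y => ∑' γ : PGL(2, F), tF y (γ • y)) (μF.withDensity χF) ∧
    ∫ x, ∑' δ : PGL(2, E), tE x (δ • sX x) ∂(μE.withDensity χE) =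
      ∫ y, ∑' γ : PGL(2, F), tF y (γ • y) ∂(μF.withDensity χF) := by
  obtain ⟨iE, sE⟩ := integrable_tsum_of hmE hE2
  obtain ⟨iF, sF⟩ := integrable_tsum_of hmF hF2
  refine ⟨iE, iF, ?_⟩
  -- cut-offs of the centralisers
  have hcut : ∀ c : NCls s, ∃ χ : XF → ℝ≥0∞, IsCutoff (Subgroup.centralizer {c.γ}) χ :=
    fun c => hχF.exists_subgroup _
  choose χc hχc using hcut
  have hw : ∀ c : NCls s, ∃ w : XE → ℝ≥0∞,
      IsCutoff (MulAction.stabilizer PGL(2, E) (Tw.of (sP s) c.δ)) w :=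
    fun c => hχE.exists_subgroup _
  choose w hw using hw
  obtain ⟨iE', JE, hJE1, hJE2⟩ := tw_unfold (sP s) μE hχE htE hsX hmE (fun c : NCls s => c.δ) w
    (fun c => (hw c).meas)
    (fun c c' h => NCls.eq_of_tw h3 h)
    (fun δ x h => NCls.exists_tw h3 hs hfix (hE1 δ x h))
    (fun c x _ => (hw c).sum x) hE2
  obtain ⟨iF', JF, hJF1, hJF2⟩ := tw_unfold (MonoidHom.id PGL(2, F)) μF hχF (τ := id) htF
    (fun g x => rfl) hmF (fun c : NCls s => c.γ) χc (fun c => (hχc c).meas)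
    (fun c c' h => NCls.eq_of_conj h)
    (fun γ y h => NCls.exists_conj (hF1 γ y h).1 (hF1 γ y h).2)
    (fun c x _ => by
      rw [← (hχc c).sum x]
      have hEq : MulAction.stabilizer PGL(2, F) (Tw.of (MonoidHom.id PGL(2, F)) c.γ) =
          Subgroup.centralizer {c.γ} := by
        ext g
        rw [Tw.mem_stabilizer, Subgroup.mem_centralizer_singleton_iff]
        rfl
      rw [hEq]) hF2
  rw [sE.unique hJE1, sF.unique hJF1]
  have h4 : (fun c : NCls s => ∫ x, tE x (c.δ • sX x) ∂(μE.withDensity (w c))) =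
      fun c : NCls s => ∫ y, tF y (c.γ • y) ∂(μF.withDensity (χc c)) := by
    funext c
    by_cases hne : (∃ x, tE x (c.δ • sX x) ≠ 0) ∨ ∃ y, tF y (c.γ • y) ≠ 0
    · refine hcmp c.δ c.γ c.ellReg c.nP_δ
        (fun y hy => incP_mul_comm h3 hfix c.ellReg c.nP_δ hy) hne (w c) (χc c) (hw c).meas
        (fun x => ?_) (hχc c) (iE' c) (iF' c)
      rw [← (hw c).sum x, ← (stabEquiv h3 hfix c.ellReg c.nP_δ).tsum_eq]
      rfl
    · push Not at hne
      simp only [hne.1, hne.2, integral_zero]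
  rw [h4] at hJE2
  exact hJE2.unique hJF2

end Compare

end Fermat.Agent.H94U

end
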