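import Fermat.Agent.H57COrb2
import Fermat.Agent.H94UCls

/-!
# Block (C) of S47: equality of the geometric sides on the model (GEOM)

`geom`: for pure test kernels `(κE, a)` on `E` and `(κF, b)` on `F` which match at infinity and at every
finite place (through a third level), the twisted geometric side over `E` equals the geometric side
over `F`.
-/

set_option linter.unusedSectionVars false

noncomputable section

namespace Fermat.Agent.H57C

open MeasureTheory Filter H59D H59XF IsDedekindDomain NumberField Matrix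
open scoped ENNReal MatrixGroups
open H20.S47 (incP sP nP EllReg)

variable {F E : Type*} [Field F] [NumberField F] [Field E] [NumberField E] [Algebra F E]
  {JE JF : Type*} [Fintype JE] [Fintype JF]

/-- Local matchings over all places, on the `E` side, for the pair `(d, γ)`. -/
def MatchE (mE : Model E JE) (aE : AutData mE) (mT : Model F JF)
    (π : HeightOneSpectrum (𝓞 E) → HeightOneSpectrum (𝓞 F)) (hπ : ∀ w, π (aE.σ w) = π w)
    (a : GlobKer mE.L.fam) (ψ : ∀ v, PGL(2, F) ⧸ mT.L.fam.U v → ℂ)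
    (d : PGL(2, E)) (γ : PGL(2, F)) : Prop :=
  ∃ S : Set (HeightOneSpectrum (𝓞 F)), S.Finite ∧
    ∀ v, ∃ β : Xv mE.L.fam π v → PGL(2, F) ⧸ mT.L.fam.U v,
      LocMatch (fun (c : Subgroup.centralizer ({γ} : Set PGL(2, F))) x =>
          fun i => incP E (c : PGL(2, F)) • x i)
        (fun c y => (c : PGL(2, F)) • y) (phiv aE.twist π hπ a d v) (ψ v) β ∧
      (v ∉ S → Base (bv mE.L.fam π v) ((1 : PGL(2, F)) : PGL(2, F) ⧸ mT.L.fam.U v)
        (phiv aE.twist π hπ a d v) (ψ v) β)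

/-- Local matchings over all places, on the `F` side, for `γ`. -/
def MatchF (mF mT : Model F JF) (b : GlobKer mF.L.fam)
    (ψ : ∀ v, PGL(2, F) ⧸ mT.L.fam.U v → ℂ) (γ : PGL(2, F)) : Prop :=
  ∃ S : Set (HeightOneSpectrum (𝓞 F)), S.Finite ∧
    ∀ v, ∃ β : PGL(2, F) ⧸ mF.L.fam.U v → PGL(2, F) ⧸ mT.L.fam.U v,
      LocMatch (fun (c : Subgroup.centralizer ({γ} : Set PGL(2, F))) x => (c : PGL(2, F)) • x)
        (fun c y => (c : PGL(2, F)) • y) (fun y => (b.loc v).k y (γ • y)) (ψ v) β ∧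
      (v ∉ S → Base ((1 : PGL(2, F)) : PGL(2, F) ⧸ mF.L.fam.U v)
        ((1 : PGL(2, F)) : PGL(2, F) ⧸ mT.L.fam.U v)
        (fun y => (b.loc v).k y (γ • y)) (ψ v) β)

theorem measurable_ker {K J : Type*} [Field K] [NumberField K] [Fintype J] (m : Model K J)
    {κ : (J → ℝ) → ℂ} (hκ : Measurable κ) (kf : XF m.L.fam → XF m.L.fam → ℂ)
    {f : m.X → m.X} (hf : Measurable f) : Measurable fun x => m.ker κ kf x (f x) := by
  have h1 : Measurable fun x : m.X => Model.chJ x.1 (f x).1 :=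
    measurable_chJ (X := m.X) measurable_fst (measurable_fst.comp hf)
  have h2 : Measurable fun x : m.X => (x.2, (f x).2) :=
    (measurable_snd (α := J → H3) (β := XF m.L.fam)).prodMk (measurable_snd.comp hf)
  have h3 : Measurable fun p : XF m.L.fam × XF m.L.fam => kf p.1 p.2 :=
    measurable_of_countable _
  exact (hκ.comp h1).mul (h3.comp h2)

/-- **GEOM.** -/
theorem geom (s : E ≃ₐ[F] E) (h3 : ∀ x, s (s (s x)) = x) (hs : s ≠ AlgEquiv.refl)
    (hfix : ∀ x, s x = x → x ∈ Set.range (algebraMap F E))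
    (mE : Model E JE) (aE : AutData mE) (hsE : ∀ x, aE.s x = s x)
    (mF mT : Model F JF) (he : mT.e = mF.e)
    (π : HeightOneSpectrum (𝓞 E) → HeightOneSpectrum (𝓞 F)) (hπ : ∀ w, π (aE.σ w) = π w)
    (hfib : ∀ v, {w | π w = v}.Finite)
    (κE : (JE → ℝ) → ℂ) (κF : (JF → ℝ) → ℂ) (hκE : Measurable κE) (hκF : Measurable κF)
    (a : GlobKer mE.L.fam) (b : GlobKer mF.L.fam)
    (ψ : PGL(2, F) → ∀ v, PGL(2, F) ⧸ mT.L.fam.U v → ℂ)
    (p : (JE → H3) → (JF → H3))
    (hp : ∀ (τ : PGL(2, F)) x, p (mE.actInf (incP E τ) x) = mF.actInf τ (p x))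
    (hinf : ∀ d γ, nP s d = incP E γ → InfMatch volume volume p
      (fun x => κE (Model.chJ x (mE.actInf d (aE.actInf x))))
      (fun x => κF (Model.chJ x (mF.actInf γ x))))
    {χE : mE.X → ℝ≥0∞} (hχE : H94U.IsCutoff PGL(2, E) χE)
    {χF : mF.X → ℝ≥0∞} (hχF : H94U.IsCutoff PGL(2, F) χF)
    {χT : mT.X → ℝ≥0∞} (hχT : H94U.IsCutoff PGL(2, F) χT)
    (hE1 : ∀ (d : PGL(2, E)) x, mE.ker κE a.k x (d • aE.act x) ≠ 0 → EllReg (nP s d))
    (hE2 : ∑' d : PGL(2, E), ∫⁻ x, ‖mE.ker κE a.k x (d • aE.act x)‖ₑ ∂(mE.μ.withDensity χE) ≠ ⊤)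
    (hF1 : ∀ (γ : PGL(2, F)) y, mF.ker κF b.k y (γ • y) ≠ 0 →
      EllReg γ ∧ ∃ d, nP s d = incP E γ)
    (hF2 : ∑' γ : PGL(2, F), ∫⁻ y, ‖mF.ker κF b.k y (γ • y)‖ₑ ∂(mF.μ.withDensity χF) ≠ ⊤)
    (hloc : ∀ (d : PGL(2, E)) (γ : PGL(2, F)), EllReg γ → nP s d = incP E γ →
      (∀ y : PGL(2, F), y * γ = γ * y → incP E y * d = d * incP E y) →
      ((∃ x, mE.ker κE a.k x (d • aE.act x) ≠ 0) ∨ ∃ y, mF.ker κF b.k y (γ • y) ≠ 0) →
      MatchE mE aE mT π hπ a (ψ γ) d γ ∧ MatchF mF mT b (ψ γ) γ) :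
    Integrable (fun x => ∑' d : PGL(2, E), mE.ker κE a.k x (d • aE.act x))
      (mE.μ.withDensity χE) ∧
    Integrable (fun y => ∑' γ : PGL(2, F), mF.ker κF b.k y (γ • y)) (mF.μ.withDensity χF) ∧
    ∫ x, ∑' d : PGL(2, E), mE.ker κE a.k x (d • aE.act x) ∂(mE.μ.withDensity χE) =
      ∫ y, ∑' γ : PGL(2, F), mF.ker κF b.k y (γ • y) ∂(mF.μ.withDensity χF) := by
  have iE : MeasurableConstSMul PGL(2, E) mE.X := ⟨fun g => mE.measurable_smul g⟩
  have iF : MeasurableConstSMul PGL(2, F) mF.X := ⟨fun g => mF.measurable_smul g⟩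
  have jE : SMulInvariantMeasure PGL(2, E) mE.X mE.μ :=
    ⟨fun g t ht => (mE.measurePreserving_smul' g).measure_preimage ht.nullMeasurableSet⟩
  have jF : SMulInvariantMeasure PGL(2, F) mF.X mF.μ :=
    ⟨fun g t ht => (mF.measurePreserving_smul' g).measure_preimage ht.nullMeasurableSet⟩
  have hmap : ∀ g : PGL(2, E), ProjGenLinGroup.map (aE.s : E →+* E) g = sP s g := by
    intro g
    have : (aE.s : E →+* E) = ((s : E →+* E)) := by
      ext x
      exact hsE x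
    show ProjGenLinGroup.map (aE.s : E →+* E) g = ProjGenLinGroup.map (s : E →+* E) g
    rw [this]
  refine H94U.geom_compare_sym (XE := mE.X) (XF := mF.X) mE.μ mF.μ h3 hs hfix (sX := aE.act)
    (fun g x => by rw [aE.act_smul, hmap])
    (tE := mE.ker κE a.k) (fun g x y => mE.ker_smul κE a.k (fun g x y => a.k_smul g x y) g x y)
    (fun d => measurable_ker mE hκE a.k
      ((mE.measurable_smul d).comp aE.measurePreserving_act.measurable))
    (tF := mF.ker κF b.k) (fun g x y => mF.ker_smul κF b.k (fun g x y => b.k_smul g x y) g x y)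
    (fun γ => measurable_ker mF hκF b.k (mF.measurable_smul γ)) hχE hχF hE1 hE2 hF1 hF2 ?_
  intro d γ hγ hN hcomm hne wE wF hwE hwE1 hwF intE intF
  obtain ⟨⟨S, hS, h1⟩, ⟨S', hS', h2⟩⟩ := hloc d γ hγ hN hcomm hne
  refine cmp mE aE mF mT he d γ (fun x => by rw [hsE]; exact s.commutes x) ?_ κE κF a.k b.k
    (fun g x y => a.k_smul g x y) (fun g x y => b.k_smul g x y) hκE p hp (hinf d γ hN)
    (wt (ψ γ)) ?_ ?_ hχT ⟨hwE, hwE1⟩ ⟨hwF.meas, hwF.sum⟩ intE.2.ne intF.2.ne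
  · intro τ hτ
    exact hcomm τ ((Subgroup.mem_centralizer_singleton_iff.1 hτ))
  · exact exists_locMatchE aE.twist π hπ hfib a (ψ γ) d
      (fun c : Subgroup.centralizer ({γ} : Set PGL(2, F)) => incP E (c : PGL(2, F)))
      (fun c => (c : PGL(2, F))) S hS h1
  · exact exists_locMatchF b γ (ψ γ)
      (fun c : Subgroup.centralizer ({γ} : Set PGL(2, F)) => (c : PGL(2, F))) S' hS' h2

end Fermat.Agent.H57C
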