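import Fermat.Agent.H25ZV0b
import Fermat.Agent.H57CGeom
import Fermat.Agent.H51ZIwEq
import Fermat.Agent.H10T3

/-!
# S47, block (C), package C14: `v₀` on the model, with helper51's kernels, in the shape of `MatchE`
-/

set_option autoImplicit false

noncomputable section

namespace Fermat.Agent.H25V

open Fermat.Agent.H59XF Fermat.Agent.H57C Fermat.Agent.H59D Matrix WithZero IsDedekindDomain
  NumberField
open scoped MatrixGroups Classical
open H20.S47 (incP sP nP EllReg)

section Ker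

variable {R : Type*} [CommRing R] [IsDedekindDomain R] {K : Type*} [Field K] [Algebra R K]
  [IsFractionRing R K]

theorem cell_iff_H51 {v : Valuation K ℤᵐ⁰} {c : ℤᵐ⁰} {g : GL (Fin 2) K} :
    H51Z.Cell v c g ↔ Cell v c (g : Matrix (Fin 2) (Fin 2) K) := by
  rw [H51Z.Cell, Cell, GeneralLinearGroup.val_det_apply]

/-- the indicator kernel of `Iw diag(ϖ^m,1) Iw` (helper51) is a `U^m`-kernel, at any level -/
theorem isUKer_lind (w : HeightOneSpectrum R) (m : ℕ) {U : Subgroup PGL(2, K)}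
    (h : H51Z.DC U (H51Z.cellU (w.valuation K) (exp (-(m : ℤ))))) :
    IsUKer w m (H51Z.lind _ h) := by
  intro g g'
  rw [H51Z.lind_k, ← map_inv, ← map_mul]
  by_cases hc : Cell (w.valuation K) (exp (-(m : ℤ)))
      ((g⁻¹ * g' : GL (Fin 2) K) : Matrix (Fin 2) (Fin 2) K)
  · rw [if_pos hc, if_pos ((H51Z.mk_mem_cellU _).mpr (cell_iff_H51.mpr hc))]
  · rw [if_neg hc, if_neg (fun h' => hc (cell_iff_H51.mp ((H51Z.mk_mem_cellU _).mp h')))]

theorem isUKer_Uker (w : HeightOneSpectrum R) (m : ℕ) (h : H51Z.Disc (w.valuation K)) :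
    IsUKer w m (H51Z.Uker h m) := isUKer_lind w m _

theorem Iw_eq_H51 (w : HeightOneSpectrum R) : Iw (K := K) w = H51Z.Iw (w.valuation K) := by
  ext x
  obtain ⟨g, rfl⟩ := ProjGenLinGroup.mk_surjective x
  rw [mk_mem_Iw, H51Z.mk_mem_Iw, cell_iff_H51, mem_IwGL]

theorem Iw_eq_H83 (w : HeightOneSpectrum R) : Iw (K := K) w = H83Z.Iw w := by
  rw [Iw_eq_H51, H51Z.Iw_eq]

end Ker

variable {E F : Type*} [Field E] [NumberField E] [Field F] [NumberField F] [Algebra F E]
  {JE JF : Type*} [Fintype JE] [Fintype JF]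

/-- `hval` from unramifiedness -/
theorem val_of_unram (w : HeightOneSpectrum (𝓞 E)) (v : HeightOneSpectrum (𝓞 F))
    [w.asIdeal.LiesOver v.asIdeal] (h : v.asIdeal.ramificationIdx' w.asIdeal = 1) (x : F) :
    w.valuation E (algebraMap F E x) = v.valuation F x := by
  rw [H10T.val_eq v w, h, pow_one]

/-- **C14 on the model**, in the shape of `H57C.MatchE` at `v = v₀`. -/
theorem exists_locMatch_v0_model (s : E ≃ₐ[F] E) (h3 : ∀ x, s (s (s x)) = x)
    (hfix : ∀ x, s x = x → x ∈ Set.range (algebraMap F E))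
    (mE : Model E JE) (aE : AutData mE) (hsE : ∀ x, aE.s x = s x) (mT : Model F JF)
    (π : HeightOneSpectrum (𝓞 E) → HeightOneSpectrum (𝓞 F)) (hπ : ∀ w, π (aE.σ w) = π w)
    (w : HeightOneSpectrum (𝓞 E)) (v : HeightOneSpectrum (𝓞 F)) (hw : π w = v)
    (huniq : ∀ i, π i = v → i = w)
    (hval : ∀ x : F, w.valuation E (algebraMap F E x) = v.valuation F x)
    (hL : mE.L.U w = Iw w) (hL' : mT.L.U v = Iw v) {m : ℕ} (hm : 1 ≤ m)
    (a : GlobKer mE.L.fam) (b : LocKer (mT.L.fam.U v)) (ha : IsUKer w m (a.loc w))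
    (hb : IsUKer v (3 * m) b) (d : PGL(2, E)) (γ : PGL(2, F)) (hN : nP s d = incP E γ)
    (hcomm : incP E γ * d = d * incP E γ) :
    ∃ β : Xv mE.L.fam π v → PGL(2, F) ⧸ mT.L.fam.U v,
      LocMatch (fun (c : Subgroup.centralizer ({γ} : Set PGL(2, F))) x =>
          fun i => incP E (c : PGL(2, F)) • x i)
        (fun c y => (c : PGL(2, F)) • y) (phiv aE.twist π hπ a d v)
        (fun y => b.k y (γ • y)) β := by
  have hσ : aE.σ w = w := huniq _ (by rw [hπ]; exact hw)
  have hmap : ∀ g : PGL(2, E), aE.twist.s g = ProjGenLinGroup.map ((s : E ≃+* E) : E →+* E) g := by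
    intro g
    show ProjGenLinGroup.map (aE.s : E →+* E) g = _
    have : (aE.s : E →+* E) = (((s : E ≃+* E) : E →+* E)) := by
      ext x
      exact hsE x
    rw [this]
  have hmap' : ∀ g : PGL(2, E), aE.twist.s g = sP s g := hmap
  refine exists_locMatch_v0 aE.twist π hπ (s : E ≃+* E) hmap w v hw huniq
    (fun x => ?_) h3 (fun y => s.commutes y) (fun x hx => hfix x hx) hval hL hL' hm a b ha hb d γ
    ?_ hcomm.symm (fun c : Subgroup.centralizer ({γ} : Set PGL(2, F)) => (c : PGL(2, F)))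
  · have := aE.val w x
    rw [hσ, hsE] at this
    exact this
  · rw [hmap', hmap']
    exact hN.symm

end Fermat.Agent.H25V
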