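import Mathlib
import Fermat.Agent.H26CE5

/-!
# Transitivity of constant field extensions (helper26, S26)
-/

set_option autoImplicit false
set_option linter.unusedSectionVars false

noncomputable section

open AlgebraicCurve WithZero Fermat.Agent.H3RR

namespace Fermat.Agent.H26

namespace IsCE

section

variable {k k' E E' : Type*} [Field k] [Field k'] [Field E] [Field E'] [Algebra k k']
    [Algebra k E] [Algebra k' E'] [Algebra E E'] [Algebra k E'] [IsScalarTower k k' E']
    [IsScalarTower k E E']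

variable (k k' E) in
/-- elements which are quotients of elements of `E ⊗ k'` -/
def IsQuo (x : E') : Prop := ∃ a ∈ tens k k' E E', ∃ b ∈ tens k k' E E', b ≠ 0 ∧ x * b = a

theorem IsQuo.add {x y : E'} (hx : IsQuo k k' E x) (hy : IsQuo k k' E y) :
    IsQuo k k' E (x + y) := by
  obtain ⟨a, ha, b, hb, hb0, h⟩ := hx
  obtain ⟨a', ha', b', hb', hb0', h'⟩ := hy
  exact ⟨a * b' + a' * b, add_mem (mul_mem ha hb') (mul_mem ha' hb), b * b', mul_mem hb hb',
    mul_ne_zero hb0 hb0', by rw [← h, ← h']; ring⟩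

theorem IsQuo.mul {x y : E'} (hx : IsQuo k k' E x) (hy : IsQuo k k' E y) :
    IsQuo k k' E (x * y) := by
  obtain ⟨a, ha, b, hb, hb0, h⟩ := hx
  obtain ⟨a', ha', b', hb', hb0', h'⟩ := hy
  exact ⟨a * a', mul_mem ha ha', b * b', mul_mem hb hb', mul_ne_zero hb0 hb0', by
    rw [← h, ← h']; ring⟩

theorem isQuo_of_mem {x : E'} (hx : x ∈ tens k k' E E') : IsQuo k k' E x :=
  ⟨x, hx, 1, one_mem _, one_ne_zero, mul_one _⟩

theorem IsQuo.inv {x : E'} (hx : IsQuo k k' E x) : IsQuo k k' E x⁻¹ := by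
  by_cases h0 : x = 0
  · rw [h0, inv_zero]; exact isQuo_of_mem (zero_mem _)
  obtain ⟨a, ha, b, hb, hb0, h⟩ := hx
  refine ⟨b, hb, a, ha, ?_, ?_⟩
  · rw [← h]; exact mul_ne_zero h0 hb0
  · rw [← h]; field_simp

end

/-- transitivity -/
theorem trans (k k₁ k₂ E E₁ E₂ : Type*) [Field k] [Field k₁] [Field k₂] [Field E] [Field E₁]
    [Field E₂] [Algebra k k₁] [Algebra k₁ k₂] [Algebra k k₂] [IsScalarTower k k₁ k₂]
    [Algebra E E₁] [Algebra E₁ E₂] [Algebra E E₂] [IsScalarTower E E₁ E₂]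
    [Algebra k E] [Algebra k₁ E₁] [Algebra k₂ E₂] [Algebra k E₁] [Algebra k₁ E₂] [Algebra k E₂]
    [IsScalarTower k k₁ E₁] [IsScalarTower k E E₁] [IsScalarTower k₁ k₂ E₂]
    [IsScalarTower k₁ E₁ E₂] [IsScalarTower k k₂ E₂] [IsScalarTower k E E₂]
    [IsCE k k₁ E E₁] [IsCE k₁ k₂ E₁ E₂] : IsCE k k₂ E E₂ := by
  refine ⟨?_, ?_⟩
  · intro n e he
    have h1 := linInd (k' := k₁) (E' := E₁) e he
    have h2 := linInd (k' := k₂) (E' := E₂) _ h1
    simpa only [← IsScalarTower.algebraMap_apply] using h2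
  · have hE : ∀ y : E₁, IsQuo k k₂ E (algebraMap E₁ E₂ y) := by
      intro y
      have hmem : ∀ a ∈ Submodule.span k₁ (Set.range (algebraMap E E₁)),
          algebraMap E₁ E₂ a ∈ tens k k₂ E E₂ := by
        intro a ha
        induction ha using Submodule.span_induction with
        | mem x hx =>
          obtain ⟨e, rfl⟩ := hx
          rw [← IsScalarTower.algebraMap_apply]
          exact algebraMap_mem_tens e
        | zero => rw [map_zero]; exact zero_mem _
        | add x y _ _ hx hy => rw [map_add]; exact add_mem hx hy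
        | smul c x _ hx =>
          rw [Algebra.smul_def, map_mul, ← IsScalarTower.algebraMap_apply k₁ E₁ E₂,
            IsScalarTower.algebraMap_apply k₁ k₂ E₂]
          exact mul_mem (Subalgebra.algebraMap_mem _ _) hx
      obtain ⟨a, ha, b, hb, hb0, h⟩ := IsCE.exists_mul_eq (k := k) (k' := k₁) (E := E) y
      exact ⟨_, hmem a ha, _, hmem b hb, (map_ne_zero _).mpr hb0, by rw [← map_mul, h]⟩
    have hS : ∀ a ∈ Submodule.span k₂ (Set.range (algebraMap E₁ E₂)), IsQuo k k₂ E a := by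
      intro a ha
      induction ha using Submodule.span_induction with
      | mem x hx =>
        obtain ⟨e, rfl⟩ := hx
        exact hE e
      | zero => exact isQuo_of_mem (zero_mem _)
      | add x y _ _ hx hy => exact hx.add hy
      | smul c x _ hx =>
        rw [Algebra.smul_def]
        exact (isQuo_of_mem (Subalgebra.algebraMap_mem _ _)).mul hx
    intro x
    obtain ⟨a, ha, b, hb, hb0, h⟩ := IsCE.exists_mul_eq (k := k₁) (k' := k₂) (E := E₁) x
    have h1 : IsQuo k k₂ E x := by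
      have : x = a * b⁻¹ := by rw [← h, mul_inv_cancel_right₀ hb0]
      rw [this]
      exact (hS a ha).mul (hS b hb).inv
    obtain ⟨a', ha', b', hb', hb0', h'⟩ := h1
    exact ⟨a', mem_tens_iff.mp ha', b', mem_tens_iff.mp hb', hb0', h'⟩

section

variable {k k₁ k₂ E E₁ E₂ : Type*} [Field k] [Field k₁] [Field k₂] [Field E] [Field E₁]
    [Field E₂] [Algebra k k₁] [Algebra k₁ k₂] [Algebra k k₂] [IsScalarTower k k₁ k₂]
    [Algebra E E₁] [Algebra E₁ E₂] [Algebra E E₂] [IsScalarTower E E₁ E₂]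
    [Algebra k E] [Algebra k₁ E₁] [Algebra k₂ E₂] [Algebra k E₁] [Algebra k₁ E₂] [Algebra k E₂]
    [IsScalarTower k k₁ E₁] [IsScalarTower k E E₁] [IsScalarTower k₁ k₂ E₂]
    [IsScalarTower k₁ E₁ E₂] [IsScalarTower k k₂ E₂] [IsScalarTower k E E₂]
    [IsCE k k₁ E E₁] [IsCE k₁ k₂ E₁ E₂] [IsCE k k₂ E E₂]
    [IsAlgClosed k] [IsAlgClosed k₁] [IsFF k E] [IsFF k₁ E₁]

theorem pl_pl (c : Place k E) : (pl k₂ E₂ (pl k₁ E₁ c) : Place k₂ E₂) = pl k₂ E₂ c := by
  apply eq_pl_of_comap
  intro e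
  rw [IsScalarTower.algebraMap_apply E E₁ E₂, pl_toValuationSubring, algebraMap_mem_plRing_iff,
    pl_toValuationSubring, algebraMap_mem_plRing_iff]

theorem con_con (D : Divisor k E) :
    (con k₂ E₂ (con k₁ E₁ D) : Divisor k₂ E₂) = con k₂ E₂ D := by
  have h : (con k₂ E₂ : Divisor k₁ E₁ →+ Divisor k₂ E₂).comp (con k₁ E₁) =
      (con k₂ E₂ : Divisor k E →+ Divisor k₂ E₂) := by
    ext c : 2
    simp [con_single, pl_pl]
  exact DFunLike.congr_fun h D

end

end IsCE

end Fermat.Agent.H26
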