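import Fermat.Agent.H98AV5
import Fermat.Agent.H26Height

/-!
# S26-J11, part 1: reduction of points at places (helper98)
-/

set_option autoImplicit false

noncomputable section

open AlgebraicCurve

namespace Fermat.Agent.H26

universe u

namespace AV

variable {K : Type u} [Field K] {𝒜 : AV K}

/-! ### reduction at a valuation ring along a local homomorphism -/

section redAt

variable {L L' κ κ' : Type u} [Field L] [Algebra K L] [Field L'] [Algebra K L'] [Field κ]
  [Algebra K κ] [Field κ'] [Algebra K κ']

/-- reduction of an `L`-point at a valuation ring `V` of `L` -/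
def redAt (V : VSub K L) (ρ : V.toSubalgebra →ₐ[K] κ) (X : 𝒜.Pt L) : 𝒜.Pt κ :=
  𝒜.map ρ (𝒜.lift V X)

variable (V : VSub K L) (ρ : V.toSubalgebra →ₐ[K] κ)

theorem redAt_add (X Y : 𝒜.Pt L) : redAt V ρ (X + Y) = redAt V ρ X + redAt V ρ Y := by
  rw [redAt, lift_add, map_add]; rfl

theorem redAt_sub (X Y : 𝒜.Pt L) : redAt V ρ (X - Y) = redAt V ρ X - redAt V ρ Y := by
  rw [redAt, lift_sub, map_sub]; rfl

theorem redAt_nsmul (n : ℕ) (X : 𝒜.Pt L) : redAt V ρ (n • X) = n • redAt V ρ X := by
  rw [redAt, lift_nsmul, map_nsmul]; rfl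

/-- compatibility of reductions with homomorphisms of valuation rings -/
theorem redAt_map (V' : VSub K L') (ρ' : V'.toSubalgebra →ₐ[K] κ') (j : L →ₐ[K] L')
    (jV : V.toSubalgebra →ₐ[K] V'.toSubalgebra) (hj : ∀ x, ((jV x : V'.toSubalgebra) : L') = j x)
    (i : κ →ₐ[K] κ') (hi : ρ'.comp jV = i.comp ρ) (X : 𝒜.Pt L) :
    redAt V' ρ' (𝒜.map j X) = 𝒜.map i (redAt V ρ X) := by
  have h1 : 𝒜.lift V' (𝒜.map j X) = 𝒜.map jV (𝒜.lift V X) := by
    apply lift_eq_of_map_eq
    rw [map_map]
    have : (V'.toSubalgebra.val).comp jV = j.comp V.toSubalgebra.val := AlgHom.ext hj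
    rw [this, ← map_map, map_lift]
  rw [redAt, h1, redAt, map_map, map_map, hi]

/-- the reduction of a constant point -/
theorem redAt_const {k : Type u} [Field k] [Algebra K k] (ι : k →ₐ[K] V.toSubalgebra)
    (P : 𝒜.Pt k) : redAt V ρ (𝒜.map ((V.toSubalgebra.val).comp ι) P) = 𝒜.map (ρ.comp ι) P := by
  have h1 : 𝒜.lift V (𝒜.map ((V.toSubalgebra.val).comp ι) P) = 𝒜.map ι P := by
    apply lift_eq_of_map_eq
    rw [map_map]
  rw [redAt, h1, map_map]

theorem dom_redAt [IsLocalHom ρ.toRingHom] (X : 𝒜.Pt L) :
    𝒜.dom (redAt V ρ X) = 𝒜.dom (𝒜.lift V X) := dom_map_of_isLocalHom ρ _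

theorem val_redAt (X : 𝒜.Pt L) {w : 𝒜.F} (hw : w ∈ 𝒜.dom (𝒜.lift V X)) :
    𝒜.val (redAt V ρ X) w = ρ (𝒜.val (𝒜.lift V X) w) := val_map hw

end redAt

/-! ### reduction at a place of a function field -/

section red

variable {k E : Type u} [Field k] [Field E] [Algebra K k] [Algebra K E] [Algebra k E]
  [IsScalarTower K k E] [IsAlgClosed k] [H3RR.IsFF k E]

variable (K) in
/-- the residue map of a place of a function field over an algebraically closed field -/
def red (v : Place k E) : (plV K v).toSubalgebra →ₐ[K] k :=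
  let e : k ≃+* v.ResidueField := RingEquiv.ofBijective _ (H3RR.residue_bijective v)
  { toFun := fun x => e.symm (IsLocalRing.residue v.toValuationSubring ⟨x.1, x.2⟩)
    map_one' := by
      change e.symm (IsLocalRing.residue v.toValuationSubring 1) = 1
      rw [map_one, map_one]
    map_mul' := fun x y => by
      rw [← map_mul, ← map_mul]
      rfl
    map_zero' := by
      change e.symm (IsLocalRing.residue v.toValuationSubring 0) = 0
      rw [map_zero, map_zero]
    map_add' := fun x y => by
      rw [← map_add, ← map_add]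
      rfl
    commutes' := fun c => by
      rw [RingEquiv.symm_apply_eq]
      change IsLocalRing.residue v.toValuationSubring _ =
        IsLocalRing.residue v.toValuationSubring (algebraMap k _ (algebraMap K k c))
      congr 1
      apply Subtype.ext
      change algebraMap K E c = algebraMap k E (algebraMap K k c)
      exact IsScalarTower.algebraMap_apply K k E c }

variable (K) in
/-- constants in the valuation ring -/
def cst (v : Place k E) : k →ₐ[K] (plV K v).toSubalgebra where
  toFun c := ⟨algebraMap k E c, v.algebraMap_mem' c⟩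
  map_one' := Subtype.ext (map_one _)
  map_mul' _ _ := Subtype.ext (map_mul _ _ _)
  map_zero' := Subtype.ext (map_zero _)
  map_add' _ _ := Subtype.ext (map_add _ _ _)
  commutes' c := Subtype.ext (IsScalarTower.algebraMap_apply K k E c).symm

omit [IsAlgClosed k] [H3RR.IsFF k E] in
@[simp] theorem coe_cst (v : Place k E) (c : k) :
    ((cst K v c : (plV K v).toSubalgebra) : E) = algebraMap k E c := rfl

@[simp] theorem red_cst (v : Place k E) (c : k) : red K v (cst K v c) = c := by
  let e : k ≃+* v.ResidueField := RingEquiv.ofBijective _ (H3RR.residue_bijective v)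
  change e.symm (IsLocalRing.residue v.toValuationSubring (algebraMap k _ c)) = c
  rw [RingEquiv.symm_apply_eq]
  rfl

theorem red_comp_cst (v : Place k E) : (red K v).comp (cst K v) = AlgHom.id K k :=
  AlgHom.ext fun c => red_cst v c

theorem red_surjective (v : Place k E) : Function.Surjective (red K v) :=
  fun c => ⟨cst K v c, red_cst v c⟩

instance isLocalHom_red (v : Place k E) : IsLocalHom (red K v).toRingHom :=
  IsLocalHom.of_surjective _ (red_surjective v)

/-- reduction of a point at a place -/
def redPt (X : 𝒜.Pt E) (v : Place k E) : 𝒜.Pt k := redAt (plV K v) (red K v) X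

theorem redPt_add (X Y : 𝒜.Pt E) (v : Place k E) :
    redPt (X + Y) v = redPt X v + redPt Y v := redAt_add _ _ _ _

theorem redPt_sub (X Y : 𝒜.Pt E) (v : Place k E) :
    redPt (X - Y) v = redPt X v - redPt Y v := redAt_sub _ _ _ _

theorem redPt_nsmul (n : ℕ) (X : 𝒜.Pt E) (v : Place k E) :
    redPt (n • X) v = n • redPt X v := redAt_nsmul _ _ _ _

theorem redPt_const (P : 𝒜.Pt k) (v : Place k E) :
    redPt (𝒜.map (IsScalarTower.toAlgHom K k E) P) v = P := by
  have h := redAt_const (plV K v) (red K v) (cst K v) P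
  rw [red_comp_cst, map_id] at h
  exact h

theorem dom_redPt (X : 𝒜.Pt E) (v : Place k E) : 𝒜.dom (redPt X v) = 𝒜.dom (liftP X v) :=
  dom_redAt (plV K v) (red K v) X

theorem val_redPt (X : 𝒜.Pt E) (v : Place k E) {w : 𝒜.F} (hw : w ∈ 𝒜.dom (liftP X v)) :
    𝒜.val (redPt X v) w = red K v (𝒜.val (liftP X v) w) := val_redAt _ _ _ hw

/-- two homomorphisms from the valuation ring of a place to a field which agree on constants agree,
if one is local -/
theorem algHom_ext_place {M : Type u} [Field M] [Algebra K M] (v : Place k E)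
    {α β : (plV K v).toSubalgebra →ₐ[K] M} [IsLocalHom α.toRingHom] [IsLocalHom β.toRingHom]
    (h : α.comp (cst K v) = β.comp (cst K v)) : α = β := by
  refine AlgHom.ext fun x => ?_
  have hx : ¬ IsUnit (x - cst K v (red K v x)) := by
    intro hu
    have := hu.map (red K v)
    rw [map_sub, red_cst, sub_self] at this
    exact not_isUnit_zero this
  have h1 : α (x - cst K v (red K v x)) = 0 := by
    by_contra hne
    exact hx (isUnit_of_map_unit α.toRingHom _ (isUnit_iff_ne_zero.mpr hne))
  have h2 : β (x - cst K v (red K v x)) = 0 := by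
    by_contra hne
    exact hx (isUnit_of_map_unit β.toRingHom _ (isUnit_iff_ne_zero.mpr hne))
  rw [map_sub, sub_eq_zero] at h1 h2
  rw [h1, h2]
  exact AlgHom.congr_fun h (red K v x)

end red

/-- `j` restricted to valuation rings -/
def restr {L L' : Type u} [Field L] [Algebra K L] [Field L'] [Algebra K L'] (j : L →ₐ[K] L')
    (V : VSub K L) (V' : VSub K L') (h : ∀ x ∈ V.toSubalgebra, j x ∈ V'.toSubalgebra) :
    V.toSubalgebra →ₐ[K] V'.toSubalgebra :=
  (j.comp V.toSubalgebra.val).codRestrict V'.toSubalgebra fun x => h x x.2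

@[simp] theorem coe_restr {L L' : Type u} [Field L] [Algebra K L] [Field L'] [Algebra K L']
    (j : L →ₐ[K] L')
    (V : VSub K L) (V' : VSub K L') (h : ∀ x ∈ V.toSubalgebra, j x ∈ V'.toSubalgebra)
    (x : V.toSubalgebra) : ((restr j V V' h x : V'.toSubalgebra) : L') = j x := rfl

theorem isLocalHom_restr {L L' : Type u} [Field L] [Algebra K L] [Field L'] [Algebra K L']
    (j : L →ₐ[K] L')
    (V : VSub K L) (V' : VSub K L') (h : ∀ x, x ∈ V.toSubalgebra ↔ j x ∈ V'.toSubalgebra) :
    IsLocalHom (restr j V V' fun x => (h x).mp).toRingHom := by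
  refine ⟨fun x hx => ?_⟩
  have hx' : IsUnit (restr j V V' (fun x => (h x).mp) x) := hx
  rw [VSub.isUnit_iff] at hx' ⊢
  rw [coe_restr] at hx'
  refine ⟨fun h0 => hx'.1 (by rw [h0, map_zero]), ?_⟩
  rw [h, map_inv₀]
  exact hx'.2

section compat

variable {k E k' E' : Type u} [Field k] [Field E] [Algebra K k] [Algebra K E] [Algebra k E]
  [IsScalarTower K k E] [IsAlgClosed k] [H3RR.IsFF k E]
  [Field k'] [Field E'] [Algebra K k'] [Algebra K E'] [Algebra k' E']
  [IsScalarTower K k' E'] [IsAlgClosed k'] [H3RR.IsFF k' E']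

/-- compatibility of the reduction at places with homomorphisms of function fields -/
theorem redPt_map (v : Place k E) (v' : Place k' E') (j : E →ₐ[K] E') (i : k →ₐ[K] k')
    (hij : ∀ c : k, j (algebraMap k E c) = algebraMap k' E' (i c))
    (hv : ∀ x, x ∈ v.toValuationSubring ↔ j x ∈ v'.toValuationSubring) (X : 𝒜.Pt E) :
    redPt (𝒜.map j X) v' = 𝒜.map i (redPt X v) := by
  have hv' : ∀ x, x ∈ (plV K v).toSubalgebra ↔ j x ∈ (plV K v').toSubalgebra := hv
  let jV : (plV K v).toSubalgebra →ₐ[K] (plV K v').toSubalgebra :=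
    restr j (plV K v) (plV K v') fun x => (hv' x).mp
  have hloc : IsLocalHom jV.toRingHom := isLocalHom_restr j (plV K v) (plV K v') hv'
  refine redAt_map (plV K v) (red K v) (plV K v') (red K v') j jV (fun x => rfl) i ?_ X
  have l1 : IsLocalHom ((red K v').comp jV).toRingHom :=
    RingHom.isLocalHom_comp (red K v').toRingHom jV.toRingHom
  have l2 : IsLocalHom (i.comp (red K v)).toRingHom :=
    RingHom.isLocalHom_comp i.toRingHom (red K v).toRingHom
  apply algHom_ext_place
  refine AlgHom.ext fun c => ?_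
  have h1 : jV (cst K v c) = cst K v' (i c) := Subtype.ext (hij c)
  change red K v' (jV (cst K v c)) = i (red K v (cst K v c))
  rw [red_cst, h1, red_cst]

end compat

end AV

end Fermat.Agent.H26
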