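import Mathlib
import Fermat.Agent.H26CE5
import Fermat.Agent.H98Ev1

/-!
# Points and constant field extensions (helper26, S26)
-/

set_option autoImplicit false
set_option linter.unusedSectionVars false

noncomputable section

open AlgebraicCurve WithZero

namespace Fermat.Agent.H26

universe u

namespace AV

variable {K : Type u} [Field K] {𝒜 : AV K}

section lift

variable {L L' : Type u} [Field L] [Algebra K L] [Field L'] [Algebra K L']

theorem lift_map_eq (j : L →ₐ[K] L') (V : VSub K L) (V' : VSub K L')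
    (h : ∀ x ∈ V.toSubalgebra, j x ∈ V'.toSubalgebra) (X : 𝒜.Pt L) :
    𝒜.lift V' (𝒜.map j X) = 𝒜.map (restr j V V' h) (𝒜.lift V X) := by
  apply lift_eq_of_map_eq
  rw [map_map]
  have : (V'.toSubalgebra.val).comp (restr j V V' h) = j.comp V.toSubalgebra.val :=
    AlgHom.ext fun _ => rfl
  rw [this, ← map_map, map_lift]

theorem dom_lift_map (j : L →ₐ[K] L') (V : VSub K L) (V' : VSub K L')
    (h : ∀ x, x ∈ V.toSubalgebra ↔ j x ∈ V'.toSubalgebra) (X : 𝒜.Pt L) :
    𝒜.dom (𝒜.lift V' (𝒜.map j X)) = 𝒜.dom (𝒜.lift V X) := by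
  rw [lift_map_eq j V V' (fun x => (h x).mp)]
  have := isLocalHom_restr j V V' h
  exact dom_map_of_isLocalHom _ _

/-- the local equation of `D` at the extension of `X` to `V` -/
def CDiv.locV (D : 𝒜.CDiv) (V : VSub K L) (X : 𝒜.Pt L) : L :=
  𝒜.val X (D.eqn (𝒜.dom (𝒜.lift V X)) / D.eqn (𝒜.dom X))

theorem CDiv.locV_ne_zero (D : 𝒜.CDiv) (V : VSub K L) (X : 𝒜.Pt L) : D.locV V X ≠ 0 :=
  val_unitIn_ne_zero (D.unitIn_lift X _)

theorem CDiv.locV_map (D : 𝒜.CDiv) (j : L →ₐ[K] L') (V : VSub K L) (V' : VSub K L')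
    (h : ∀ x, x ∈ V.toSubalgebra ↔ j x ∈ V'.toSubalgebra) (X : 𝒜.Pt L) :
    D.locV V' (𝒜.map j X) = j (D.locV V X) := by
  rw [CDiv.locV, CDiv.locV, dom_lift_map j V V' h, dom_map_field, val_map_field]

/-- if `V'` contains the image of `L` then the extension is the constant one -/
theorem lift_map_of_range_le (j : L →ₐ[K] L') (V' : VSub K L')
    (h : ∀ x, j x ∈ V'.toSubalgebra) (X : 𝒜.Pt L) :
    𝒜.lift V' (𝒜.map j X) = 𝒜.map (j.codRestrict V'.toSubalgebra h) X := by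
  apply lift_eq_of_map_eq
  rw [map_map]
  rfl

theorem dom_lift_map_of_range_le (j : L →ₐ[K] L') (V' : VSub K L')
    (h : ∀ x, j x ∈ V'.toSubalgebra) (X : 𝒜.Pt L) :
    𝒜.dom (𝒜.lift V' (𝒜.map j X)) = 𝒜.dom X := by
  rw [lift_map_of_range_le j V' h]
  have : IsLocalHom (j.codRestrict V'.toSubalgebra h).toRingHom :=
    inferInstanceAs (IsLocalHom ((j.codRestrict V'.toSubalgebra h) : L →+* V'.toSubalgebra))
  exact dom_map_of_isLocalHom _ _

theorem CDiv.locV_map_of_range_le (D : 𝒜.CDiv) (j : L →ₐ[K] L') (V' : VSub K L')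
    (h : ∀ x, j x ∈ V'.toSubalgebra) (X : 𝒜.Pt L) :
    D.locV V' (𝒜.map j X) = 1 := by
  rw [CDiv.locV, dom_lift_map_of_range_le j V' h, dom_map_field, div_self (D.eqn_ne_zero _),
    val_one]

end lift

section CE

variable {k E k' E' : Type u} [Field k] [Field E] [Algebra K k] [Algebra K E] [Algebra k E]
  [IsScalarTower K k E] [IsAlgClosed k] [H3RR.IsFF k E]
  [Field k'] [Field E'] [Algebra K k'] [Algebra K E'] [Algebra k' E']
  [IsScalarTower K k' E'] [IsAlgClosed k'] [H3RR.IsFF k' E']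
  [Algebra k k'] [Algebra E E'] [Algebra k E'] [IsScalarTower k k' E'] [IsScalarTower k E E']
  [IsCE k k' E E'] [IsScalarTower K E E']

theorem CDiv.loc_eq_locV (D : 𝒜.CDiv) (X : 𝒜.Pt E) (v : Place k E) :
    D.loc X v = D.locV (plV K v) X := rfl

theorem CDiv.pull_CE (D : 𝒜.CDiv) (X : 𝒜.Pt E) :
    D.pull k' (𝒜.map (IsScalarTower.toAlgHom K E E') X) = IsCE.con k' E' (D.pull k X) := by
  ext w
  rw [CDiv.pull_apply, CDiv.loc_eq_locV]
  rcases IsCE.generic_or_eq_pl (k := k) (E := E) w with hw | ⟨c, rfl⟩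
  · rw [D.locV_map_of_range_le (IsScalarTower.toAlgHom K E E') (plV K w) (fun x => hw x),
      Place.ord_one, IsCE.con_generic _ hw]
  · rw [D.locV_map (IsScalarTower.toAlgHom K E E') (plV K c) (plV K (IsCE.pl k' E' c)),
      IsCE.con_pl, CDiv.pull_apply, CDiv.loc_eq_locV]
    · exact IsCE.ord_pl_algebraMap c _
    · intro x
      rw [mem_plV, mem_plV, IsCE.pl_toValuationSubring]
      exact IsCE.algebraMap_mem_plRing_iff.symm

theorem CDiv.ht_CE (D : 𝒜.CDiv) (X : 𝒜.Pt E) :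
    D.ht k' (𝒜.map (IsScalarTower.toAlgHom K E E') X) = D.ht k X := by
  rw [CDiv.ht, D.pull_CE (k := k) X, IsCE.degree_con, CDiv.ht]

end CE

end AV

end Fermat.Agent.H26
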