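import Fermat.Agent.H42Gauss
import Fermat.Agent.H40DeuringPlace

/-!
# Gauss data from degree equality
-/

set_option autoImplicit false

open Polynomial Module IntermediateField

namespace Fermat.Agent.H42

section Relations

variable {L E : Type*} [Field L] [Field E] [Algebra L E]

theorem exists_common_denom (x : E) {κ : Type*} [Finite κ] (c : κ → E) (hc : ∀ i, c i ∈ L⟮x⟯) :
    ∃ (D : L[X]) (p : κ → L[X]), aeval x D ≠ 0 ∧ ∀ i, aeval x D * c i = aeval x (p i) := by
  classical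
  have := Fintype.ofFinite κ
  have h1 : ∀ i, ∃ r s : L[X], aeval x s ≠ 0 ∧ aeval x s * c i = aeval x r := by
    intro i
    obtain ⟨r, s, h⟩ := (mem_adjoin_simple_iff L (c i)).mp (hc i)
    by_cases hs : aeval x s = 0
    · refine ⟨0, 1, by simp, ?_⟩
      rw [h, hs, div_zero, mul_zero, map_zero]
    · refine ⟨r, s, hs, ?_⟩
      rw [h, mul_div_cancel₀ _ hs]
  choose r s hs h using h1
  refine ⟨∏ i, s i, fun i => (∏ j ∈ Finset.univ.erase i, s j) * r i, ?_, fun i => ?_⟩
  · rw [map_prod]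
    exact Finset.prod_ne_zero_iff.mpr fun i _ => hs i
  · rw [← Finset.prod_erase_mul _ _ (Finset.mem_univ i), map_mul, map_mul, mul_assoc, h]

theorem exists_relation (x : E) (F : IntermediateField L E) (hx : x ∈ F)
    (hfin : relfinrank L⟮x⟯ F ≠ 0) {κ : Type*} [Fintype κ] (u : κ → E) (hu : ∀ i, u i ∈ F)
    (hcard : relfinrank L⟮x⟯ F < Fintype.card κ) :
    ∃ p : κ → L[X], (∃ i, aeval x (p i) ≠ 0) ∧ ∑ i, aeval x (p i) * u i = 0 := by
  classical
  have hle : L⟮x⟯ ≤ F := adjoin_simple_le_iff.mpr hx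
  rw [relfinrank_eq_finrank_of_le hle] at hfin hcard
  have : FiniteDimensional L⟮x⟯ (extendScalars hle) :=
    FiniteDimensional.of_finrank_pos (Nat.pos_of_ne_zero hfin)
  let u' : κ → extendScalars hle := fun i => ⟨u i, hu i⟩
  have hdep : ¬ LinearIndependent L⟮x⟯ u' := fun h =>
    absurd h.fintype_card_le_finrank (not_le.mpr hcard)
  obtain ⟨c, hc, i₀, hi₀⟩ := Fintype.not_linearIndependent_iff.mp hdep
  obtain ⟨D, p, hD, hp⟩ := exists_common_denom x (fun i => (c i : E)) (fun i => (c i).2)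
  refine ⟨p, ⟨i₀, ?_⟩, ?_⟩
  · rw [← hp]
    exact mul_ne_zero hD fun h => hi₀ (Subtype.ext h)
  · have h1 : ∑ i, (c i : E) * u i = 0 := by
      have h2 := congrArg (extendScalars hle).val hc
      rw [map_sum, map_zero] at h2
      rw [← h2]
      rfl
    simp only [← hp, mul_assoc]
    rw [← Finset.mul_sum, h1, mul_zero]

theorem exists_independent (x : E) (F : IntermediateField L E) (hx : x ∈ F)
    (hfin : relfinrank L⟮x⟯ F ≠ 0) :
    ∃ u : Fin (relfinrank L⟮x⟯ F) → E, (∀ i, u i ∈ F) ∧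
      ∀ p : Fin (relfinrank L⟮x⟯ F) → L[X], ∑ i, aeval x (p i) * u i = 0 →
        ∀ i, aeval x (p i) = 0 := by
  classical
  have hle : L⟮x⟯ ≤ F := adjoin_simple_le_iff.mpr hx
  rw [relfinrank_eq_finrank_of_le hle] at hfin ⊢
  have : FiniteDimensional L⟮x⟯ (extendScalars hle) :=
    FiniteDimensional.of_finrank_pos (Nat.pos_of_ne_zero hfin)
  let b := Module.finBasis L⟮x⟯ (extendScalars hle)
  refine ⟨fun i => (b i : E), fun i => (b i).2, fun p hp i => ?_⟩
  have hmem : ∀ q : L[X], aeval x q ∈ L⟮x⟯ := fun q =>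
    (mem_adjoin_simple_iff L _).mpr ⟨q, 1, by simp⟩
  have h1 := Fintype.linearIndependent_iff.mp b.linearIndependent
    (fun i => ⟨aeval x (p i), hmem _⟩) (by
      apply Subtype.ext
      have h3 : (((∑ i, (⟨aeval x (p i), hmem _⟩ : L⟮x⟯) • b i : extendScalars hle)) : E) =
          (extendScalars hle).val (∑ i, (⟨aeval x (p i), hmem _⟩ : L⟮x⟯) • b i) := rfl
      rw [h3, map_sum]
      exact hp) i
  exact congrArg Subtype.val h1

end Relations

section Restrict

variable {L E₁ k E₂ : Type*} [Field L] [Field E₁] [Algebra L E₁] [Field k] [Field E₂] [Algebra k E₂]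
  {A : ValuationSubring L} {π : A →+* k}

/-- Restriction of reduction data to an intermediate field. -/
def RedRing.restrict (R : RedRing E₁ E₂ A π) (F : IntermediateField L E₁) : RedRing F E₂ A π where
  B := R.B.comap F.val.toRingHom
  ρ := R.ρ.comp ((F.val.toRingHom.comp (R.B.comap F.val.toRingHom).subtype).codRestrict R.B
    fun y => y.2)
  mem a := R.mem a
  ρ_mem a := R.ρ_mem a

theorem RedRing.mem_restrict_B (R : RedRing E₁ E₂ A π) (F : IntermediateField L E₁) {f : F} :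
    f ∈ (R.restrict F).B ↔ (f : E₁) ∈ R.B := Iff.rfl

theorem RedRing.restrict_ρ (R : RedRing E₁ E₂ A π) (F : IntermediateField L E₁)
    (y : (R.restrict F).B) : (R.restrict F).ρ y = R.ρ ⟨((y : F) : E₁), y.2⟩ := rfl

/-- Restriction of the codomain of reduction data. -/
def RedRing.codRestrict (R : RedRing E₁ E₂ A π) (E' : IntermediateField k E₂)
    (h : ∀ y, R.ρ y ∈ E') : RedRing E₁ E' A π where
  B := R.B
  ρ := R.ρ.codRestrict E' h
  mem := R.mem
  ρ_mem a := Subtype.ext (R.ρ_mem a)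

theorem RedRing.coe_codRestrict_ρ (R : RedRing E₁ E₂ A π) (E' : IntermediateField k E₂)
    (h : ∀ y, R.ρ y ∈ E') (y : R.B) : (((R.codRestrict E' h).ρ y : E') : E₂) = R.ρ y := rfl

namespace GaussData

/-- Reductions of elements of `B` satisfy a linear relation over `k[ρ x]` with the `ρ (b i)`. -/
theorem exists_relation_ρ (G : GaussData E₁ E₂ A π) (y : G.B) :
    ∃ (Q : k[X]) (q : G.ι → k[X]), Q ≠ 0 ∧
      aeval (G.ρ G.x) Q * G.ρ y = ∑ i, aeval (G.ρ G.x) (q i) * G.ρ (G.b i) := by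
  obtain ⟨Q, q, hQ, h⟩ := G.span (y : E₁)
  obtain ⟨c, q', hc, h1, i₁, a₁, h2⟩ := exists_scale_poly A
    (fun o : Option G.ι => o.elim Q q) (fun h0 => hQ (congrFun h0 none))
  have hQ' : Q = C c * (q' none).map A.subtype := h1 none
  have hq' : ∀ i, q i = C c * (q' (some i)).map A.subtype := fun i => h1 (some i)
  have hcE : algebraMap L E₁ c ≠ 0 := (_root_.map_ne_zero _).mpr hc
  have h3 : G.ev G.x (q' none) * y = ∑ i, G.ev G.x (q' (some i)) * G.b i := by
    apply Subtype.ext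
    simp only [AddSubmonoidClass.coe_finsetSum, Subring.coe_mul, RedRing.coe_ev]
    apply mul_left_cancel₀ hcE
    rw [← mul_assoc, Finset.mul_sum]
    have e1 : algebraMap L E₁ c * aeval (G.x : E₁) ((q' none).map A.subtype) =
        aeval (G.x : E₁) Q := by rw [hQ', map_mul, aeval_C]
    rw [e1, h]
    refine Finset.sum_congr rfl fun i _ => ?_
    rw [hq' i, map_mul, aeval_C, mul_assoc]
  have h4 := congrArg G.ρ h3
  rw [map_mul, map_sum] at h4
  simp only [map_mul, RedRing.ρ_ev] at h4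
  refine ⟨(q' none).map π, fun i => (q' (some i)).map π, fun h5 => ?_, h4⟩
  have h6 : (fun i => (q' (some i)).map π) = 0 := by
    apply G.ind
    rw [← h4, h5, map_zero, zero_mul]
  have h7 : ∀ o, (q' o).map π = 0 := by
    rintro (_ | i)
    · exact h5
    · exact congrFun h6 i
  have h8 := congrArg (fun p => p.coeff a₁) (h7 i₁)
  simp only [coeff_map, coeff_zero, h2, map_one] at h8
  exact one_ne_zero h8

theorem ρ_mem_of (G : GaussData E₁ E₂ A π) (E' : IntermediateField k E₂)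
    (hx : G.ρ G.x ∈ E') (hb : ∀ i, G.ρ (G.b i) ∈ E') (y : G.B) : G.ρ y ∈ E' := by
  obtain ⟨Q, q, hQ, h⟩ := G.exists_relation_ρ y
  have hmem : ∀ q : k[X], aeval (G.ρ G.x) q ∈ E' := by
    intro q
    have h1 : aeval (G.ρ G.x) q = ((aeval (⟨G.ρ G.x, hx⟩ : E') q : E') : E₂) := by
      have := aeval_algHom_apply E'.val (⟨G.ρ G.x, hx⟩ : E') q
      exact this
    rw [h1]
    exact Subtype.mem _
  have hne : aeval (G.ρ G.x) Q ≠ 0 := fun h0 => hQ (G.transc Q h0)
  have h2 : G.ρ y = (∑ i, aeval (G.ρ G.x) (q i) * G.ρ (G.b i)) / aeval (G.ρ G.x) Q := by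
    rw [← h, mul_div_cancel_left₀ _ hne]
  rw [h2]
  exact E'.div_mem (E'.sum_mem fun i _ => E'.mul_mem (hmem _) (hb i)) (hmem _)

/-- Restriction of the codomain of Gauss data. -/
def codRestrict (G : GaussData E₁ E₂ A π) (E' : IntermediateField k E₂)
    (hx : G.ρ G.x ∈ E') (hb : ∀ i, G.ρ (G.b i) ∈ E') : GaussData E₁ E' A π where
  toRedRing := G.toRedRing.codRestrict E' (G.ρ_mem_of E' hx hb)
  x := G.x
  transc q hq := by
    apply G.transc q
    have := congrArg E'.val hq
    rw [← aeval_algHom_apply, map_zero] at this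
    exact this
  ι := G.ι
  fin := G.fin
  b := G.b
  ind q hq := by
    apply G.ind q
    have := congrArg E'.val hq
    rw [map_zero, map_sum] at this
    rw [← this]
    refine Finset.sum_congr rfl fun i _ => ?_
    rw [map_mul, ← aeval_algHom_apply]
    rfl
  span := G.span

end GaussData

theorem RedRing.poly_independent (R : RedRing E₁ E₂ A π) {ι : Type*} [Finite ι] [Fintype ι]
    (x : R.B) (b : ι → R.B)
    (ind : ∀ q : ι → k[X], ∑ i, aeval (R.ρ x) (q i) * R.ρ (b i) = 0 → q = 0)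
    (p : ι → L[X]) (hp : ∑ i, aeval (x : E₁) (p i) * (b i : E₁) = 0) : p = 0 := by
  by_contra hne
  obtain ⟨c, q', hc, h1, i₁, a₁, h2⟩ := exists_scale_poly A p hne
  have hcE : algebraMap L E₁ c ≠ 0 := (_root_.map_ne_zero _).mpr hc
  have h3 : ∑ i, R.ev x (q' i) * b i = 0 := by
    apply Subtype.ext
    simp only [AddSubmonoidClass.coe_finsetSum, Subring.coe_mul, RedRing.coe_ev,
      ZeroMemClass.coe_zero]
    apply mul_left_cancel₀ hcE
    rw [mul_zero, ← hp, Finset.mul_sum]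
    refine Finset.sum_congr rfl fun i _ => ?_
    rw [h1 i, map_mul, aeval_C, mul_assoc]
  have h4 := congrArg R.ρ h3
  rw [map_zero, map_sum] at h4
  simp only [map_mul, RedRing.ρ_ev] at h4
  have h5 := ind _ h4
  have h6 := congrArg (fun p => p.coeff a₁) (congrFun h5 i₁)
  simp only [coeff_map, Pi.zero_apply, coeff_zero, h2, map_one] at h6
  exact one_ne_zero h6

section Construct

variable (R : RedRing E₁ E₂ A π) (hπ : Function.Surjective π)
  (F : IntermediateField L E₁) (S : Set R.B) (hS : ∀ s ∈ S, (s : E₁) ∈ F)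
  (Fk : IntermediateField k E₂) (hFk : adjoin k (R.ρ '' S) = Fk)
  (x : R.B) (hx : (x : E₁) ∈ F) (hxk : R.ρ x ∈ Fk)
  (htr : ∀ q : k[X], aeval (R.ρ x) q = 0 → q = 0)
  (hne : relfinrank L⟮(x : E₁)⟯ F ≠ 0)
  (hdeg : relfinrank L⟮(x : E₁)⟯ F ≤ relfinrank k⟮R.ρ x⟯ Fk)

include hπ hS in
theorem exists_lift {t : E₂} (ht : t ∈ Algebra.adjoin k (R.ρ '' S)) :
    ∃ y : (R.restrict F).B, (R.restrict F).ρ y = t := by
  induction ht using Algebra.adjoin_induction with
  | mem t ht =>
    obtain ⟨s, hs, rfl⟩ := ht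
    exact ⟨⟨⟨s, hS s hs⟩, s.2⟩, rfl⟩
  | algebraMap a =>
    obtain ⟨a, rfl⟩ := hπ a
    exact ⟨(R.restrict F).const a, (R.restrict F).ρ_const a⟩
  | add a b _ _ ha hb =>
    obtain ⟨y, rfl⟩ := ha
    obtain ⟨z, rfl⟩ := hb
    exact ⟨y + z, map_add _ _ _⟩
  | mul a b _ _ ha hb =>
    obtain ⟨y, rfl⟩ := ha
    obtain ⟨z, rfl⟩ := hb
    exact ⟨y * z, map_mul _ _ _⟩

include hπ hS in
theorem exists_frac {t : E₂} (ht : t ∈ adjoin k (R.ρ '' S)) :
    ∃ y z : (R.restrict F).B, (R.restrict F).ρ z ≠ 0 ∧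
      t * (R.restrict F).ρ z = (R.restrict F).ρ y := by
  obtain ⟨r, hr, s, hs, h⟩ := mem_adjoin_iff_div.mp ht
  by_cases hs0 : s = 0
  · refine ⟨0, 1, by rw [map_one]; exact one_ne_zero, ?_⟩
    rw [h, hs0, div_zero, map_zero, zero_mul]
  · obtain ⟨y, rfl⟩ := exists_lift R hπ F S hS hr
    obtain ⟨z, rfl⟩ := exists_lift R hπ F S hS hs
    refine ⟨y, z, hs0, ?_⟩
    rw [h, div_mul_cancel₀ _ hs0]

include hπ hS hFk hxk htr hne hdeg in
/-- existence of the elements `b i`. -/
theorem exists_b : ∃ b : Fin (relfinrank k⟮R.ρ x⟯ Fk) → (R.restrict F).B,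
    (∀ i, (R.restrict F).ρ (b i) ∈ Fk) ∧
    ∀ q : Fin (relfinrank k⟮R.ρ x⟯ Fk) → k[X],
      ∑ i, aeval (R.ρ x) (q i) * (R.restrict F).ρ (b i) = 0 → q = 0 := by
  classical
  subst hFk
  have hn0 : relfinrank k⟮R.ρ x⟯ (adjoin k (R.ρ '' S)) ≠ 0 :=
    fun h => hne (Nat.le_zero.mp (h ▸ hdeg))
  obtain ⟨u, hu, hind⟩ := exists_independent (R.ρ x) (adjoin k (R.ρ '' S)) hxk hn0
  have h1 : ∀ i, ∃ y z : (R.restrict F).B, (R.restrict F).ρ z ≠ 0 ∧
      u i * (R.restrict F).ρ z = (R.restrict F).ρ y ∧ (R.restrict F).ρ z ∈ adjoin k (R.ρ '' S) := by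
    intro i
    obtain ⟨r, hr, s, hs, h⟩ := mem_adjoin_iff_div.mp (hu i)
    by_cases hs0 : s = 0
    · refine ⟨0, 1, by rw [map_one]; exact one_ne_zero, ?_, ?_⟩
      · rw [h, hs0, div_zero, map_zero, zero_mul]
      · rw [map_one]; exact one_mem _
    · obtain ⟨y, rfl⟩ := exists_lift R hπ F S hS hr
      obtain ⟨z, rfl⟩ := exists_lift R hπ F S hS hs
      refine ⟨y, z, hs0, ?_, algebra_adjoin_le_adjoin k _ hs⟩
      rw [h, div_mul_cancel₀ _ hs0]
  choose y z hz hyz hzm using h1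
  let Z : (R.restrict F).B := ∏ i, z i
  have hZ : (R.restrict F).ρ Z ≠ 0 := by
    rw [map_prod]
    exact Finset.prod_ne_zero_iff.mpr fun i _ => hz i
  have hb : ∀ i, (R.restrict F).ρ ((∏ j ∈ Finset.univ.erase i, z j) * y i) =
      (R.restrict F).ρ Z * u i := by
    intro i
    simp only [Z]
    rw [← Finset.prod_erase_mul _ _ (Finset.mem_univ i), map_mul, map_mul, ← hyz]
    ring
  have hZm : (R.restrict F).ρ Z ∈ adjoin k (R.ρ '' S) := by
    rw [map_prod]
    exact prod_mem fun i _ => hzm i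
  refine ⟨fun i => (∏ j ∈ Finset.univ.erase i, z j) * y i, fun i => ?_, fun q hq => ?_⟩
  · rw [hb]
    exact mul_mem hZm (hu i)
  · funext i
    apply htr
    apply hind q
    simp only [hb] at hq
    apply mul_left_cancel₀ hZ
    rw [mul_zero, ← hq, Finset.mul_sum]
    exact Finset.sum_congr rfl fun i _ => by ring

/-- Gauss data with values in `E₂`, from the degree inequality. -/
noncomputable def gaussData₀ : GaussData F E₂ A π where
  toRedRing := R.restrict F
  x := ⟨⟨x, hx⟩, x.2⟩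
  transc := htr
  ι := Fin (relfinrank k⟮R.ρ x⟯ Fk)
  fin := inferInstance
  b := (exists_b R hπ F S hS Fk hFk x hxk htr hne hdeg).choose
  ind := (exists_b R hπ F S hS Fk hFk x hxk htr hne hdeg).choose_spec.2
  span f := by
    classical
    set n := relfinrank k⟮R.ρ x⟯ Fk with hn
    set b := (exists_b R hπ F S hS Fk hFk x hxk htr hne hdeg).choose with hb
    have hb2 := (exists_b R hπ F S hS Fk hFk x hxk htr hne hdeg).choose_spec.2
    obtain ⟨p, ⟨o, ho⟩, hp⟩ := exists_relation (x : E₁) F hx hne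
      (κ := Option (Fin n)) (fun o => o.elim (f : E₁) (fun i => ((b i : F) : E₁)))
      (by rintro (_ | i); exacts [f.2, (b i : F).2])
      (by rw [Fintype.card_option, Fintype.card_fin]; exact Nat.lt_succ_of_le hdeg)
    have hcoe : ∀ q : L[X], ((aeval (⟨x, hx⟩ : F) q : F) : E₁) = aeval (x : E₁) q := fun q =>
      (aeval_algHom_apply F.val (⟨x, hx⟩ : F) q).symm
    rw [Fintype.sum_option] at hp
    refine ⟨p none, fun i => - p (some i), fun h0 => ?_, ?_⟩
    · have h1 : (fun i => p (some i)) = 0 := by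
        apply (R.restrict F).poly_independent ⟨⟨x, hx⟩, x.2⟩ b hb2
        apply Subtype.ext
        have h2 : ((∑ i, aeval (⟨x, hx⟩ : F) (p (some i)) * (b i : F) : F) : E₁) =
            ∑ i, aeval (x : E₁) (p (some i)) * ((b i : F) : E₁) := by
          rw [← F.coe_val, map_sum]
          refine Finset.sum_congr rfl fun i _ => ?_
          rw [map_mul, F.coe_val, hcoe]
        rw [h2]
        rw [h0, map_zero, zero_mul, zero_add] at hp
        exact hp
      apply ho
      rcases o with _ | i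
      · rw [h0, map_zero]
      · rw [show p (some i) = 0 from congrFun h1 i, map_zero]
    · apply Subtype.ext
      have h2 : ((∑ i, aeval (⟨x, hx⟩ : F) (- p (some i)) * (b i : F) : F) : E₁) =
          - ∑ i, aeval (x : E₁) (p (some i)) * ((b i : F) : E₁) := by
        rw [← F.coe_val, map_sum, ← Finset.sum_neg_distrib]
        refine Finset.sum_congr rfl fun i _ => ?_
        rw [map_mul, F.coe_val, hcoe, map_neg, neg_mul]
      rw [h2]
      have h3 : ((aeval (⟨x, hx⟩ : F) (p none) * f : F) : E₁) =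
          aeval (x : E₁) (p none) * f := by
        rw [← hcoe]; rfl
      rw [h3]
      exact eq_neg_of_add_eq_zero_left hp

/-- Gauss data from the degree inequality `[F : L(x)] ≤ [k(ρ S) : k(ρ x)]`. -/
noncomputable def gaussData : GaussData F Fk A π :=
  (gaussData₀ R hπ F S hS Fk hFk x hx hxk htr hne hdeg).codRestrict _ hxk
    (exists_b R hπ F S hS Fk hFk x hxk htr hne hdeg).choose_spec.1

theorem gaussData_B : (gaussData R hπ F S hS Fk hFk x hx hxk htr hne hdeg).B = (R.restrict F).B := rfl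

theorem coe_gaussData_ρ (y : (R.restrict F).B) :
    (((gaussData R hπ F S hS Fk hFk x hx hxk htr hne hdeg).ρ y : Fk) : E₂) =
      R.ρ ⟨((y : F) : E₁), y.2⟩ := rfl

theorem gaussData_frac (t : Fk) :
    ∃ y z : (gaussData R hπ F S hS Fk hFk x hx hxk htr hne hdeg).B,
      (gaussData R hπ F S hS Fk hFk x hx hxk htr hne hdeg).ρ z ≠ 0 ∧
      t * (gaussData R hπ F S hS Fk hFk x hx hxk htr hne hdeg).ρ z =
        (gaussData R hπ F S hS Fk hFk x hx hxk htr hne hdeg).ρ y := by
  obtain ⟨y, z, hz, h⟩ := exists_frac R hπ F S hS (t := (t : E₂)) (by rw [hFk]; exact t.2)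
  exact ⟨y, z, fun h0 => hz (congrArg Subtype.val h0), Subtype.ext h⟩

end Construct

/-- helper40's reduction data from Gauss data. -/
noncomputable def GaussData.toReductionData (G : GaussData E₁ E₂ A π) [IsLocalHom π]
    (hπ : Function.Surjective π)
    (hfrac : ∀ t : E₂, ∃ y z : G.B, G.ρ z ≠ 0 ∧ t * G.ρ z = G.ρ y) :
    H40.ReductionData L E₁ k E₂ where
  A := A
  π := π
  π_surj := hπ
  π_eq_zero a := by
    rw [← not_iff_not, not_not, ← ne_eq, ← isUnit_iff_ne_zero]
    exact isUnit_map_iff π a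
  B := G.loc
  ρ := G.res
  mem_B a := G.le_loc (G.mem a)
  ρ_algebraMap a := (G.res_coe (G.const a)).trans (G.ρ_const a)
  exists_basis W _ := G.exists_basis_V W
  frac e := by
    obtain ⟨y, hy⟩ := G.res_surjective hfrac e
    exact ⟨y, 1, by rw [map_one]; exact one_ne_zero, by rw [map_one, mul_one]; exact hy.symm⟩

end Restrict

end Fermat.Agent.H42
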