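import Mathlib
import Fermat.Agent.H42GaussField
import Fermat.Agent.H40Pole
import Fermat.Agent.H40DeuringPlace
import Fermat.Agent.H26CE5

/-!
# Reduction of constant field extensions along a valuation ring of the constants (helper26, S26)
-/

set_option autoImplicit false
set_option linter.unusedSectionVars false

noncomputable section

open AlgebraicCurve WithZero Fermat.Agent.H3RR Polynomial IntermediateField TensorProduct

namespace Fermat.Agent.H26

section pole

variable {K F k E : Type*} [Field K] [Field F] [Algebra K F] [Field k] [Field E] [Algebra k E]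
variable (R : H40.ReductionData K F k E)

theorem finrank_adjoin_le' [IsAlgClosed K] [IsFF K F] {x : R.B}
    (hρx : Transcendental k (R.ρ x)) :
    Module.finrank k⟮R.ρ x⟯ E ≤ Module.finrank K⟮(x : F)⟯ F := by
  classical
  have hx := R.transcendental_of_ρ hρx
  have hfd := IsFF.finiteDimensional (K := K) hx
  by_cases hfin : FiniteDimensional k⟮R.ρ x⟯ E
  · let e := Module.finBasis k⟮R.ρ x⟯ E
    choose u w hw huw using R.frac
    let Y : E := ∏ i, R.ρ (w (e i))
    have hY : Y ≠ 0 := Finset.prod_ne_zero_iff.mpr fun i _ => hw (e i)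
    let z : Fin (Module.finrank k⟮R.ρ x⟯ E) → R.B := fun i =>
      u (e i) * ∏ j ∈ Finset.univ.erase i, w (e j)
    have hz : ∀ i, R.ρ (z i) = e i * Y := fun i => by
      simp only [z, Y]
      rw [map_mul, map_prod, ← huw (e i), mul_assoc,
        Finset.mul_prod_erase Finset.univ (fun j => R.ρ (w (e j))) (Finset.mem_univ i)]
    have hzli : LinearIndependent k⟮R.ρ x⟯ fun i => R.ρ (z i) := by
      rw [Fintype.linearIndependent_iff]
      intro t ht
      apply Fintype.linearIndependent_iff.mp e.linearIndependent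
      have : (∑ i, t i • e i) * Y = 0 := by
        rw [Finset.sum_mul, ← ht]
        refine Finset.sum_congr rfl fun i _ => ?_
        rw [hz, Algebra.smul_mul_assoc]
      exact (mul_eq_zero.mp this).resolve_right hY
    have := (R.linearIndependent_adjoin hx hρx z hzli).fintype_card_le_finrank
    simpa using this
  · rw [Module.finrank_of_not_finite hfin]
    exact Nat.zero_le _

theorem degree_nonneg_of_nonneg [IsAlgClosed K] [IsFF K F] {D : Divisor K F} (h : 0 ≤ D) :
    0 ≤ Divisor.degree D := by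
  rw [degree_eq_sum]
  exact Finset.sum_nonneg fun v _ => Finsupp.le_def.mp h v

theorem degree_mono [IsAlgClosed K] [IsFF K F] {D D' : Divisor K F} (h : D ≤ D') :
    Divisor.degree D ≤ Divisor.degree D' := by
  have h1 := degree_nonneg_of_nonneg (sub_nonneg.mpr h)
  rw [map_sub] at h1
  omega

/-- Pole degree inequality, any characteristic. -/
theorem poleIneq' [IsAlgClosed K] [IsFF K F] [IsAlgClosed k] [IsFF k E] : R.PoleIneq := by
  classical
  intro x D Dbar hD hxD hρx0 hDbar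
  have hx0 := R.ne_zero_of_ρ_ne_zero hρx0
  by_cases halg : IsAlgebraic k (R.ρ x)
  · obtain ⟨a, ha⟩ := exists_const_of_isAlgebraic halg
    have ha0 : a ≠ 0 := by
      rintro rfl
      rw [map_zero] at ha
      exact hρx0 ha.symm
    have : Dbar = 0 := by
      ext v
      rw [hDbar, ← ha, ord_algebraMap v ha0]
      simp
    rw [this, map_zero]
    exact degree_nonneg_of_nonneg hD
  · have hρx : Transcendental k (R.ρ x) := halg
    have hx := R.transcendental_of_ρ hρx
    have h1 : Dbar = poleDiv (R.ρ x) := by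
      ext v
      rw [hDbar, poleDiv_apply hρx0, max_comm]
    have h2 : poleDiv (x : F) ≤ D := by
      intro v
      rw [poleDiv_apply hx0]
      have h3 := (H40.mem_L hx0).mp hxD v
      have h4 := Finsupp.le_def.mp hD v
      simp only [Finsupp.coe_zero, Pi.zero_apply] at h4
      omega
    have h3 := degree_mono h2
    rw [degree_poleDiv hx] at h3
    rw [h1, degree_poleDiv hρx]
    have h4 := finrank_adjoin_le' R hρx
    omega

end pole

section red

variable {k k₁ κ E E₁ Eκ : Type*} [Field k] [Field k₁] [Field κ] [Field E] [Field E₁] [Field Eκ]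
  [Algebra k k₁] [Algebra k E] [Algebra k₁ E₁] [Algebra E E₁] [Algebra k E₁]
  [IsScalarTower k k₁ E₁] [IsScalarTower k E E₁] [IsCE k k₁ E E₁]
  [Algebra k κ] [Algebra κ Eκ] [Algebra E Eκ] [Algebra k Eκ]
  [IsScalarTower k κ Eκ] [IsScalarTower k E Eκ] [IsCE k κ E Eκ]
  {A : ValuationSubring k₁} {π : A →+* κ}
  (hA : ∀ c : k, algebraMap k k₁ c ∈ A)
  (hπ : ∀ c : k, π ⟨algebraMap k k₁ c, hA c⟩ = algebraMap k κ c)

include hA hπ

variable (E E₁ Eκ) in
/-- The ring `E ⊗ A` inside `E₁` with its reduction to `Eκ`. -/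
theorem exists_redRing : ∃ R : H42.RedRing E₁ Eκ A π,
    (∀ e : E, ∃ h : algebraMap E E₁ e ∈ R.B, R.ρ ⟨algebraMap E E₁ e, h⟩ = algebraMap E Eκ e) ∧
    ∀ x ∈ R.B, ∃ (n : ℕ) (a : Fin n → A) (e : Fin n → E),
      x = ∑ i, algebraMap k₁ E₁ (a i) * algebraMap E E₁ (e i) := by
  classical
  let _ : Algebra k A := ((algebraMap k k₁).codRestrict A.toSubring hA).toAlgebra
  have hAk : ∀ c : k, ((algebraMap k A c : A) : k₁) = algebraMap k k₁ c := fun c => rfl
  let f1 : A →ₐ[k] E₁ :=
    { ((algebraMap k₁ E₁).comp A.subtype) with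
      commutes' := fun c => by
        change algebraMap k₁ E₁ (algebraMap k k₁ c) = _
        rw [← IsScalarTower.algebraMap_apply] }
  let g1 : E →ₐ[k] E₁ := IsScalarTower.toAlgHom k E E₁
  let f2 : A →ₐ[k] Eκ :=
    { ((algebraMap κ Eκ).comp π) with
      commutes' := fun c => by
        change algebraMap κ Eκ (π ⟨algebraMap k k₁ c, hA c⟩) = _
        rw [hπ, ← IsScalarTower.algebraMap_apply] }
  let g2 : E →ₐ[k] Eκ := IsScalarTower.toAlgHom k E Eκ
  let Φ1 : E ⊗[k] A →ₐ[k] E₁ := Algebra.TensorProduct.lift g1 f1 (fun _ _ => Commute.all _ _)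
  let Φ2 : E ⊗[k] A →ₐ[k] Eκ := Algebra.TensorProduct.lift g2 f2 (fun _ _ => Commute.all _ _)
  have hinj : Function.Injective Φ1 := by
    rw [injective_iff_map_eq_zero]
    intro t ht
    let b := Module.Basis.ofVectorSpace k E
    let ε : E ⊗[k] A ≃ₗ[k] (_ →₀ A) := TensorProduct.equivFinsuppOfBasisLeft b
    have h1 : t = (ε t).sum fun i a => b i ⊗ₜ[k] a := by
      conv_lhs => rw [← ε.symm_apply_apply t, TensorProduct.equivFinsuppOfBasisLeft_symm_apply]
    have hb := IsCE.linInd (k' := k₁) (E' := E₁) b b.linearIndependent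
    have h2 : ∑ i ∈ (ε t).support, ((ε t i : A) : k₁) • algebraMap E E₁ (b i) = 0 := by
      rw [← ht]
      conv_rhs => rw [h1]
      rw [Finsupp.sum, map_sum]
      refine Finset.sum_congr rfl fun i _ => ?_
      rw [Algebra.TensorProduct.lift_tmul, Algebra.smul_def, mul_comm]
      rfl
    have h3 := linearIndependent_iff'.mp hb _ _ h2
    apply ε.injective
    rw [map_zero]
    ext i
    by_cases hi : i ∈ (ε t).support
    · rw [h3 i hi]; rfl
    · rw [Finsupp.notMem_support_iff.mp hi]; rfl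
  let e : E ⊗[k] A ≃+* Φ1.toRingHom.range := RingEquiv.ofBijective Φ1.toRingHom.rangeRestrict
    ⟨fun x y h => hinj (congrArg Subtype.val h), Φ1.toRingHom.rangeRestrict_surjective⟩
  have he : ∀ t, ((e t : Φ1.toRingHom.range) : E₁) = Φ1 t := fun t => rfl
  have h1a : ∀ a : A, Φ1 (1 ⊗ₜ a) = algebraMap k₁ E₁ (a : k₁) := fun a => by
    rw [Algebra.TensorProduct.lift_tmul, map_one, one_mul]; rfl
  have h1e : ∀ x : E, Φ1 (x ⊗ₜ 1) = algebraMap E E₁ x := fun x => by
    rw [Algebra.TensorProduct.lift_tmul, map_one, mul_one]; rfl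
  have h2a : ∀ a : A, Φ2 (1 ⊗ₜ a) = algebraMap κ Eκ (π a) := fun a => by
    rw [Algebra.TensorProduct.lift_tmul, map_one, one_mul]; rfl
  have h2e : ∀ x : E, Φ2 (x ⊗ₜ 1) = algebraMap E Eκ x := fun x => by
    rw [Algebra.TensorProduct.lift_tmul, map_one, mul_one]; rfl
  refine ⟨{ B := Φ1.toRingHom.range
            ρ := Φ2.toRingHom.comp e.symm.toRingHom
            mem := fun a => ⟨1 ⊗ₜ a, h1a a⟩
            ρ_mem := fun a => ?_ }, ?_, ?_⟩
  · have h1 : e.symm ⟨algebraMap k₁ E₁ (a : k₁), ⟨1 ⊗ₜ a, h1a a⟩⟩ = 1 ⊗ₜ a := by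
      rw [RingEquiv.symm_apply_eq]
      exact Subtype.ext (h1a a).symm
    change Φ2 (e.symm _) = _
    rw [h1, h2a]
  · intro x
    have hx : algebraMap E E₁ x ∈ Φ1.toRingHom.range := ⟨x ⊗ₜ 1, h1e x⟩
    refine ⟨hx, ?_⟩
    have h1 : e.symm ⟨algebraMap E E₁ x, hx⟩ = x ⊗ₜ 1 := by
      rw [RingEquiv.symm_apply_eq]
      exact Subtype.ext (h1e x).symm
    change Φ2 (e.symm _) = _
    rw [h1, h2e]
  · rintro _ ⟨t, rfl⟩
    obtain ⟨S, hS⟩ := TensorProduct.exists_finset t
    have h1 : Φ1.toRingHom t = ∑ i ∈ S, algebraMap k₁ E₁ (i.2 : A) * algebraMap E E₁ i.1 := by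
      change Φ1 t = _
      rw [hS, map_sum]
      refine Finset.sum_congr rfl fun i _ => ?_
      rw [Algebra.TensorProduct.lift_tmul, mul_comm]
      rfl
    let φ : Fin S.card ≃ S := S.equivFin.symm
    refine ⟨S.card, fun i => (φ i).1.2, fun i => (φ i).1.1, ?_⟩
    rw [h1, ← Finset.sum_coe_sort]
    exact (Equiv.sum_comp φ (fun i : S => algebraMap k₁ E₁ (i.1.2 : A) *
      algebraMap E E₁ i.1.1)).symm

variable (E E₁ Eκ) in
/-- Gauss data for a constant field extension -/
theorem exists_gaussData [IsFF k E] : ∃ G : H42.GaussData E₁ Eκ A π,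
    (∀ e : E, ∃ h : algebraMap E E₁ e ∈ G.B, G.ρ ⟨algebraMap E E₁ e, h⟩ = algebraMap E Eκ e) := by
  classical
  obtain ⟨R, hR, -⟩ := exists_redRing E E₁ Eκ hA hπ
  obtain ⟨s, hs, hfd⟩ := IsFF.exists_gen (K := k) (F := E)
  let b := Module.finBasis k⟮s⟯ E
  obtain ⟨b', hb'⟩ := IsCE.exists_basis (k' := k₁) (E' := E₁) hs b
  choose hB hρ using hR
  refine ⟨{ toRedRing := R
            x := ⟨algebraMap E E₁ s, hB s⟩
            transc := ?_
            ι := Fin (Module.finrank k⟮s⟯ E)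
            fin := inferInstance
            b := fun i => ⟨algebraMap E E₁ (b i), hB _⟩
            ind := ?_
            span := ?_ }, fun e => ⟨hB e, hρ e⟩⟩
  · intro q hq
    rw [hρ] at hq
    exact transcendental_iff.mp (IsCE.transcendental_map (k' := κ) (E' := Eκ) hs) q hq
  · intro q hq
    simp only [hρ] at hq
    exact IsCE.poly_independent (k' := κ) (E' := Eκ) hs b b.linearIndependent q hq
  · intro f
    obtain ⟨D, p, hD, hp⟩ := H42.exists_common_denom (L := k₁) (algebraMap E E₁ s)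
      (fun i => ((b'.repr f i : k₁⟮algebraMap E E₁ s⟯) : E₁)) (fun i => (b'.repr f i).2)
    refine ⟨D, p, ?_, ?_⟩
    · rintro rfl
      simp at hD
    · have h1 : f = ∑ i, ((b'.repr f i : k₁⟮algebraMap E E₁ s⟯) : E₁) * algebraMap E E₁ (b i) := by
        conv_lhs => rw [← b'.sum_repr f]
        refine Finset.sum_congr rfl fun i _ => ?_
        rw [Algebra.smul_def, hb']
        rfl
      conv_lhs => rw [h1]
      rw [Finset.mul_sum]
      refine Finset.sum_congr rfl fun i _ => ?_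
      rw [← hp i]
      ring

end red

/-- The reduction of a constant field extension `E₁ = E k₁` along a valuation ring `A ⊇ k` of `k₁`
with residue field `κ`. -/
structure Reduction (k k₁ κ E E₁ Eκ : Type*) [Field k] [Field k₁] [Field κ] [Field E]
    [Field E₁] [Field Eκ] [Algebra k k₁] [Algebra k E] [Algebra k₁ E₁] [Algebra E E₁]
    [Algebra κ Eκ] [Algebra E Eκ] (A : ValuationSubring k₁) (π : A →+* κ) where
  /-- the Gauss valuation ring -/
  G : ValuationSubring E₁
  /-- its residue map -/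
  ρ : G →+* Eκ
  isUnit_iff : ∀ x : G, IsUnit x ↔ ρ x ≠ 0
  ρ_surj : Function.Surjective ρ
  const_mem : ∀ a : A, algebraMap k₁ E₁ a ∈ G
  ρ_const : ∀ a : A, ρ ⟨algebraMap k₁ E₁ a, const_mem a⟩ = algebraMap κ Eκ (π a)
  fun_mem : ∀ e : E, algebraMap E E₁ e ∈ G
  ρ_fun : ∀ e : E, ρ ⟨algebraMap E E₁ e, fun_mem e⟩ = algebraMap E Eκ e
  /-- the reduction map on places -/
  r : Place k₁ E₁ → Place κ Eκ
  mapDomain_r : ∀ x : G, ρ x ≠ 0 → ∀ Δ : Divisor k₁ E₁, (∀ v, Δ v = v.ord (x : E₁)) →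
    ∀ w, Finsupp.mapDomain r Δ w = w.ord (ρ x)
  bound : ℤ
  exists_lift : ∀ D : Divisor k₁ E₁, bound < Divisor.degree D →
    ∀ y ∈ riemannRochSpace (Finsupp.mapDomain r D), ∃ x : G, (x : E₁) ∈ riemannRochSpace D ∧
      ρ x = y
  coeff_mem : ∀ {n : ℕ} (e : Fin n → E), LinearIndependent k e → ∀ c : Fin n → k₁,
    (∑ i, algebraMap k₁ E₁ (c i) * algebraMap E E₁ (e i)) ∈ G → ∀ i, c i ∈ A
  exists_scale : ∀ f : E₁, f ≠ 0 → ∃ t : k₁, t ≠ 0 ∧ ∃ x : G, (x : E₁) = algebraMap k₁ E₁ t * f ∧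
    ρ x ≠ 0

/-- Reductions exist. -/
theorem exists_reduction (k k₁ κ E E₁ Eκ : Type*) [Field k] [Field k₁] [Field κ] [Field E]
    [Field E₁] [Field Eκ] [Algebra k k₁] [Algebra k E] [Algebra k₁ E₁] [Algebra E E₁]
    [Algebra k E₁] [IsScalarTower k k₁ E₁] [IsScalarTower k E E₁] [IsCE k k₁ E E₁]
    [Algebra k κ] [Algebra κ Eκ] [Algebra E Eκ] [Algebra k Eκ]
    [IsScalarTower k κ Eκ] [IsScalarTower k E Eκ] [IsCE k κ E Eκ]
    [IsAlgClosed k] [IsAlgClosed k₁] [IsAlgClosed κ] [IsFF k E]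
    (A : ValuationSubring k₁) (π : A →+* κ) (hπs : Function.Surjective π)
    (hπl : ∀ a, π a = 0 ↔ ¬ IsUnit a)
    (hA : ∀ c : k, algebraMap k k₁ c ∈ A)
    (hπ : ∀ c : k, π ⟨algebraMap k k₁ c, hA c⟩ = algebraMap k κ c) :
    Nonempty (Reduction k k₁ κ E E₁ Eκ A π) := by
  classical
  have hFF1 : IsFF k₁ E₁ := IsCE.isFF k k₁ E E₁
  have hFFκ : IsFF κ Eκ := IsCE.isFF k κ E Eκ
  have hloc : IsLocalHom π := ⟨fun a ha => by
    by_contra hcon
    exact ha.ne_zero ((hπl a).mpr hcon)⟩
  obtain ⟨G, hG⟩ := exists_gaussData E E₁ Eκ hA hπ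
  choose hB hρ using hG
  -- the constants of `κ` lift, hence every element of `Eκ` is a fraction
  have hspan : ∀ t ∈ Submodule.span κ (Set.range (algebraMap E Eκ)), ∃ y : G.B, G.ρ y = t := by
    intro t ht
    induction ht using Submodule.span_induction with
    | mem t ht =>
      obtain ⟨e, rfl⟩ := ht
      exact ⟨_, hρ e⟩
    | zero => exact ⟨0, map_zero _⟩
    | add x y _ _ hx hy =>
      obtain ⟨a, rfl⟩ := hx
      obtain ⟨b, rfl⟩ := hy
      exact ⟨a + b, map_add _ _ _⟩
    | smul c x _ hx =>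
      obtain ⟨a, rfl⟩ := hx
      obtain ⟨c, rfl⟩ := hπs c
      exact ⟨G.const c * a, by rw [map_mul, G.ρ_const, Algebra.smul_def]⟩
  have hfrac : ∀ t : Eκ, ∃ y z : G.B, G.ρ z ≠ 0 ∧ t * G.ρ z = G.ρ y := by
    intro t
    obtain ⟨a, ha, b, hb, hb0, h⟩ := IsCE.exists_mul_eq (k := k) (k' := κ) (E := E) t
    obtain ⟨y, hy⟩ := hspan a ha
    obtain ⟨z, hz⟩ := hspan b hb
    exact ⟨y, z, by rw [hz]; exact hb0, by rw [hz, hy, h]⟩
  let R := G.toReductionData hπs hfrac
  set g := genusFF k E with hg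
  have hg1 : genusFF k₁ E₁ = g := IsCE.genus_eq k k₁ E E₁
  have hgκ : genusFF κ Eκ = g := IsCE.genus_eq k κ E Eκ
  have hRF : H40.RiemannFor k₁ E₁ g (2 * g : ℤ) := by
    have := IsCE.riemannFor k₁ E₁ (c := (2 * g : ℤ)) (by rw [hg1]; omega)
    rwa [hg1] at this
  have hRE : H40.RiemannFor κ Eκ g (2 * g : ℤ) := by
    have := IsCE.riemannFor κ Eκ (c := (2 * g : ℤ)) (by rw [hgκ]; omega)
    rwa [hgκ] at this
  have hne1 : Nonempty (Place k₁ E₁) := exists_place k₁ E₁
  have hneκ : Nonempty (Place κ Eκ) := exists_place κ Eκ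
  have hinf : Infinite κ := IsAlgClosed.instInfinite
  obtain ⟨r, hr1, hr2⟩ := R.exists_placeReduction hRF hRE (fun v => deg_eq_one v)
    (fun v => deg_eq_one v) (poleIneq' R) (by omega) (by omega)
  refine ⟨{ G := G.V
            ρ := G.res
            isUnit_iff := fun x => G.isUnit_iff x
            ρ_surj := G.res_surjective hfrac
            const_mem := fun a => G.le_loc (G.mem a)
            ρ_const := fun a => (G.res_coe (G.const a)).trans (G.ρ_const a)
            fun_mem := fun e => G.le_loc (hB e)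
            ρ_fun := fun e => (G.res_coe ⟨_, hB e⟩).trans (hρ e)
            r := r
            mapDomain_r := fun x hx Δ hΔ w => hr2 x hx Δ hΔ w
            bound := 2 * g
            exists_lift := ?_
            coeff_mem := ?_
            exists_scale := ?_ }⟩
  · intro D hD y hy
    have := (hr1 D hD).2
    rw [← this] at hy
    obtain ⟨x, hx, hxy⟩ := hy
    exact ⟨x, hx, hxy⟩
  · intro n e he c hc i
    have hb : LinearIndependent κ fun i => R.ρ (⟨algebraMap E E₁ (e i), G.le_loc (hB _)⟩ : G.loc) := by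
      have h1 := IsCE.linInd (k' := κ) (E' := Eκ) e he
      have h2 : (fun i => R.ρ (⟨algebraMap E E₁ (e i), G.le_loc (hB _)⟩ : G.loc)) =
          fun i => algebraMap E Eκ (e i) := by
        funext i
        exact (G.res_coe ⟨_, hB (e i)⟩).trans (hρ (e i))
      rw [h2]
      exact h1
    refine R.coeff_mem (b := fun i => (⟨algebraMap E E₁ (e i), G.le_loc (hB _)⟩ : G.loc)) hb
      (c := c) ?_ i
    have h3 : (∑ i, c i • algebraMap E E₁ (e i)) =
        ∑ i, algebraMap k₁ E₁ (c i) * algebraMap E E₁ (e i) :=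
      Finset.sum_congr rfl fun i _ => Algebra.smul_def _ _
    change (∑ i, c i • algebraMap E E₁ (e i)) ∈ G.loc
    rw [h3]
    exact hc
  · intro f hf
    obtain ⟨t, ht, x, hx, hx0⟩ := R.exists_scale hf
    exact ⟨t, ht, x, by rw [hx, Algebra.smul_def], hx0⟩

end Fermat.Agent.H26
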