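import Mathlib
import Fermat.Agent.H3S27Weight
import Fermat.Agent.H26Red1
import Fermat.Agent.H26CDiv

/-!
# Reduction of constant field extensions: centres of places, local rings (helper26, S26)
-/

set_option autoImplicit false
set_option linter.unusedSectionVars false

noncomputable section

open AlgebraicCurve WithZero Fermat.Agent.H3RR

namespace Fermat.Agent.H26

/-! ### Residues at places -/

section rsd

variable {k E : Type*} [Field k] [Field E] [Algebra k E] [IsAlgClosed k] [IsFF k E]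

/-- the residue map of a place as a map to the constants -/
def rsdRing (w : Place k E) : w.toValuationSubring →+* k :=
  (RingEquiv.ofBijective (algebraMap k w.ResidueField) (residue_bijective w)).symm.toRingHom.comp
    (IsLocalRing.residue w.toValuationSubring)

theorem adicValuation_sub_rsdRing (w : Place k E) (x : w.toValuationSubring) :
    w.adicValuation ((x : E) - algebraMap k E (rsdRing w x)) < 1 := by
  have h1 : algebraMap k w.ResidueField (rsdRing w x) = IsLocalRing.residue _ x :=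
    (RingEquiv.ofBijective (algebraMap k w.ResidueField) (residue_bijective w)).apply_symm_apply _
  have h2 : IsLocalRing.residue w.toValuationSubring
      (x - ⟨algebraMap k E (rsdRing w x), w.algebraMap_mem' _⟩) = 0 := by
    rw [map_sub, ← h1]
    exact sub_self _
  exact (residue_eq_zero_iff' w).mp h2

theorem eq_of_adicValuation_sub_lt (w : Place k E) {x : E} {a b : k}
    (ha : w.adicValuation (x - algebraMap k E a) < 1)
    (hb : w.adicValuation (x - algebraMap k E b) < 1) : a = b := by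
  by_contra hne
  have h1 : algebraMap k E (b - a) = (x - algebraMap k E a) - (x - algebraMap k E b) := by
    rw [map_sub]; ring
  have h2 : w.adicValuation (algebraMap k E (b - a)) < 1 := by
    rw [h1]
    exact lt_of_le_of_lt (Valuation.map_sub _ _ _) (max_lt ha hb)
  rw [adicValuation_algebraMap w (sub_ne_zero.mpr (Ne.symm hne))] at h2
  exact lt_irrefl _ h2

theorem rsdRing_eq (w : Place k E) {x : w.toValuationSubring} {a : k}
    (ha : w.adicValuation ((x : E) - algebraMap k E a) < 1) : rsdRing w x = a :=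
  eq_of_adicValuation_sub_lt w (adicValuation_sub_rsdRing w x) ha

@[simp] theorem rsdRing_algebraMap (w : Place k E) (a : k) :
    rsdRing w ⟨algebraMap k E a, w.algebraMap_mem' a⟩ = a :=
  rsdRing_eq w (by rw [sub_self, map_zero]; exact zero_lt_one)

variable (K : Type*) [Field K] [Algebra K k] [Algebra K E] [IsScalarTower K k E]

/-- the residue map of a place as an algebra homomorphism over a smaller base field -/
def rsd (w : Place k E) : (plV K w).toSubalgebra →ₐ[K] k :=
  { rsdRing w with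
    commutes' := fun c => by
      have h1 : (algebraMap K (plV K w).toSubalgebra c : E) = algebraMap k E (algebraMap K k c) := by
        rw [← IsScalarTower.algebraMap_apply]; rfl
      exact rsdRing_eq w (x := ⟨_, (algebraMap K (plV K w).toSubalgebra c).2⟩) (by
        rw [h1, sub_self, map_zero]; exact zero_lt_one) }

theorem rsd_apply (w : Place k E) (x : (plV K w).toSubalgebra) :
    rsd K w x = rsdRing w ⟨x, x.2⟩ := rfl

theorem adicValuation_sub_rsd (w : Place k E) (x : (plV K w).toSubalgebra) :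
    w.adicValuation ((x : E) - algebraMap k E (rsd K w x)) < 1 :=
  adicValuation_sub_rsdRing w ⟨x, x.2⟩

theorem rsd_eq (w : Place k E) {x : (plV K w).toSubalgebra} {a : k}
    (ha : w.adicValuation ((x : E) - algebraMap k E a) < 1) : rsd K w x = a :=
  eq_of_adicValuation_sub_lt w (adicValuation_sub_rsd K w x) ha

theorem rsd_eq_zero_iff (w : Place k E) {x : (plV K w).toSubalgebra} :
    rsd K w x = 0 ↔ w.adicValuation (x : E) < 1 := by
  constructor
  · intro h
    have := adicValuation_sub_rsd K w x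
    rwa [h, map_zero, sub_zero] at this
  · intro h
    exact rsd_eq K w (by rwa [map_zero, sub_zero])

theorem adicValuation_eq_one_iff_ord (w : Place k E) {x : E} (hx : x ≠ 0) :
    w.adicValuation x = 1 ↔ w.ord x = 0 := by
  rw [w.adicValuation_eq_exp_neg_ord hx, ← exp_zero]
  constructor
  · intro h
    have := exp_injective h
    omega
  · intro h
    rw [h, neg_zero]

end rsd

theorem mapDomain_apply_sum {α β : Type*} [DecidableEq β] (r : α → β) (D : α →₀ ℤ) (b : β) :
    Finsupp.mapDomain r D b = ∑ a ∈ D.support with r a = b, D a := by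
  rw [Finsupp.mapDomain, Finsupp.sum, Finsupp.finsetSum_apply, Finset.sum_filter]
  exact Finset.sum_congr rfl fun a _ => by rw [Finsupp.single_apply]

theorem mapDomain_pos {α β : Type*} (r : α → β) (D : α →₀ ℤ) (b : β) (h : ∀ a, r a = b → 0 ≤ D a)
    {a : α} (ha : r a = b) (hpos : 0 < D a) : 0 < Finsupp.mapDomain r D b := by
  classical
  rw [mapDomain_apply_sum]
  refine Finset.sum_pos' (fun a h' => h a (Finset.mem_filter.mp h').2) ⟨a, ?_, hpos⟩
  rw [Finset.mem_filter, Finsupp.mem_support_iff]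
  exact ⟨hpos.ne', ha⟩

theorem mapDomain_nonneg {α β : Type*} (r : α → β) {D : α →₀ ℤ} (h : 0 ≤ D) :
    0 ≤ Finsupp.mapDomain r D := by
  classical
  intro b
  rw [mapDomain_apply_sum]
  exact Finset.sum_nonneg fun a _ => Finsupp.le_def.mp h a

namespace Reduction

variable {k k₁ κ E E₁ Eκ : Type*} [Field k] [Field k₁] [Field κ] [Field E]
    [Field E₁] [Field Eκ] [Algebra k k₁] [Algebra k E] [Algebra k₁ E₁] [Algebra E E₁]
    [Algebra k E₁] [IsScalarTower k k₁ E₁] [IsScalarTower k E E₁] [IsCE k k₁ E E₁]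
    [Algebra k κ] [Algebra κ Eκ] [Algebra E Eκ] [Algebra k Eκ]
    [IsScalarTower k κ Eκ] [IsScalarTower k E Eκ] [IsCE k κ E Eκ]
    [IsAlgClosed k] [IsAlgClosed k₁] [IsAlgClosed κ] [IsFF k E] [IsFF k₁ E₁] [IsFF κ Eκ]
    {A : ValuationSubring k₁} {π : A →+* κ}
    (𝓡 : Reduction k k₁ κ E E₁ Eκ A π)

theorem degree_mapDomain (D : Divisor k₁ E₁) :
    Divisor.degree (Finsupp.mapDomain 𝓡.r D : Divisor κ Eκ) = Divisor.degree D := by
  have h : (Divisor.degree (K := κ) (F := Eκ)).comp (Finsupp.mapDomain.addMonoidHom 𝓡.r) =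
      Divisor.degree (K := k₁) (F := E₁) := by
    ext c
    simp [deg_eq_one]
  exact DFunLike.congr_fun h D

theorem ne_zero_of_ρ {x : 𝓡.G} (hx : 𝓡.ρ x ≠ 0) : (x : E₁) ≠ 0 := by
  intro h
  apply hx
  have : x = 0 := Subtype.ext h
  rw [this, map_zero]

theorem mapDomain_divOf {x : 𝓡.G} (hx : 𝓡.ρ x ≠ 0) :
    Finsupp.mapDomain 𝓡.r (divOf (x : E₁) : Divisor k₁ E₁) = divOf (𝓡.ρ x) := by
  ext w
  rw [𝓡.mapDomain_r x hx _ (fun v => divOf_apply (𝓡.ne_zero_of_ρ hx) v) w, divOf_apply hx]

theorem r_pl (c : Place k E) : 𝓡.r (IsCE.pl k₁ E₁ c) = IsCE.pl κ Eκ c := by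
  classical
  by_contra hne
  obtain ⟨e, het, hec, heo⟩ := H3S27.exists_only_pole c
  have he0 : e ≠ 0 := transcendental_ne_zero het
  have h1 : 𝓡.ρ ⟨algebraMap E E₁ e, 𝓡.fun_mem e⟩ ≠ 0 := by
    rw [𝓡.ρ_fun]; exact (_root_.map_ne_zero _).mpr he0
  have h2 := 𝓡.mapDomain_divOf h1
  rw [𝓡.ρ_fun] at h2
  have h3 := DFunLike.congr_fun h2 (IsCE.pl κ Eκ c)
  rw [divOf_apply ((_root_.map_ne_zero _).mpr he0), IsCE.ord_pl_algebraMap,
    mapDomain_apply_sum] at h3
  have hneg : c.ord e < 0 := by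
    rw [c.adicValuation_eq_exp_neg_ord he0, ← exp_zero, exp_lt_exp] at hec
    omega
  have hnn : 0 ≤ ∑ a ∈ (divOf (algebraMap E E₁ e) : Divisor k₁ E₁).support with
      𝓡.r a = IsCE.pl κ Eκ c, (divOf (algebraMap E E₁ e) : Divisor k₁ E₁) a := by
    refine Finset.sum_nonneg fun v hv => ?_
    have hv2 := (Finset.mem_filter.mp hv).2
    rw [divOf_apply ((_root_.map_ne_zero _).mpr he0)]
    rcases IsCE.generic_or_eq_pl (k := k) (E := E) v with hw | ⟨c', rfl⟩
    · rw [IsCE.ord_generic hw]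
    · rw [IsCE.ord_pl_algebraMap]
      have hcc : c' ≠ c := by
        rintro rfl
        exact hne hv2
      have := heo c' hcc
      rw [c'.adicValuation_eq_exp_neg_ord he0, ← exp_zero, exp_le_exp] at this
      omega
  have h4 : ∑ a ∈ (divOf (algebraMap E E₁ e) : Divisor k₁ E₁).support with
      𝓡.r a = IsCE.pl κ Eκ c, (divOf (algebraMap E E₁ e) : Divisor k₁ E₁) a = c.ord e := h3
  omega

/-- `r_* ∘ con = con` -/
theorem mapDomain_con (D : Divisor k E) :
    Finsupp.mapDomain 𝓡.r (IsCE.con k₁ E₁ D) = IsCE.con κ Eκ D := by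
  have h : (Finsupp.mapDomain.addMonoidHom 𝓡.r).comp (IsCE.con k₁ E₁) =
      (IsCE.con κ Eκ : Divisor k E →+ Divisor κ Eκ) := by
    ext c : 2
    simp [IsCE.con_single, 𝓡.r_pl]
  exact DFunLike.congr_fun h D

theorem fun_mem_of_mem {w : Place k₁ E₁} {e : E}
    (he : algebraMap E Eκ e ∈ (𝓡.r w).toValuationSubring) :
    algebraMap E E₁ e ∈ w.toValuationSubring := by
  rcases IsCE.generic_or_eq_pl (k := k) (E := E) w with hw | ⟨c, rfl⟩
  · exact hw e
  · rw [𝓡.r_pl, IsCE.pl_toValuationSubring, IsCE.algebraMap_mem_plRing_iff] at he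
    rw [IsCE.pl_toValuationSubring, IsCE.algebraMap_mem_plRing_iff]
    exact he

/-- **Compatibility of residues.** -/
theorem exists_residue {w : Place k₁ E₁} {e : E}
    (he : algebraMap E Eκ e ∈ (𝓡.r w).toValuationSubring) :
    ∃ a : A, w.adicValuation (algebraMap E E₁ e - algebraMap k₁ E₁ a) < 1 ∧
      (𝓡.r w).adicValuation (algebraMap E Eκ e - algebraMap κ Eκ (π a)) < 1 := by
  classical
  have hew := 𝓡.fun_mem_of_mem he
  obtain ⟨a, ha⟩ := exists_const_sub_lt_one w ((mem_iff_adicValuation_le_one w).mp hew)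
  have haA : a ∈ A := by
    by_contra haA
    have ha0 : a ≠ 0 := by rintro rfl; exact haA A.zero_mem
    have hinv : a⁻¹ ∈ A := (A.mem_or_inv_mem a).resolve_left haA
    have hnu : ¬ IsUnit (⟨a⁻¹, hinv⟩ : A) := by
      intro hu
      have h1 := (A.valuation_eq_one_iff ⟨a⁻¹, hinv⟩).mp hu
      have h2 : A.valuation a = 1 := by
        have : A.valuation a⁻¹ = 1 := h1
        rwa [map_inv₀, inv_eq_one] at this
      exact haA ((A.valuation_le_one_iff a).mp h2.le)
    -- `π (a⁻¹) = 0`
    have hπ0 : 𝓡.ρ ⟨algebraMap k₁ E₁ a⁻¹, 𝓡.const_mem ⟨a⁻¹, hinv⟩⟩ = 0 := by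
      by_contra hne
      have hu := (𝓡.isUnit_iff _).mpr hne
      -- then `a ∈ G`, contradiction with coeff_mem
      obtain ⟨⟨u, v, huv, hvu⟩, hu'⟩ := hu
      have hv : (v : E₁) = algebraMap k₁ E₁ a := by
        have h1 : (u : E₁) * v = 1 := congrArg Subtype.val huv
        have h2 : (u : E₁) = algebraMap k₁ E₁ a⁻¹ := congrArg Subtype.val hu'
        rw [h2, map_inv₀] at h1
        have h3 : algebraMap k₁ E₁ a ≠ 0 := (_root_.map_ne_zero _).mpr ha0
        field_simp at h1
        exact h1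
      have h4 := 𝓡.coeff_mem (n := 1) (fun _ => (1 : E))
        (LinearIndependent.of_subsingleton 0 one_ne_zero) (fun _ => a) (by
          simp only [Finset.univ_unique, Finset.sum_singleton, map_one, mul_one]
          rw [← hv]; exact v.2) 0
      exact haA h4
    let y : 𝓡.G := ⟨algebraMap E E₁ e, 𝓡.fun_mem e⟩ *
      ⟨algebraMap k₁ E₁ a⁻¹, 𝓡.const_mem ⟨a⁻¹, hinv⟩⟩ - 1
    have hy : 𝓡.ρ y = -1 := by
      simp only [y, map_sub, map_mul, map_one, hπ0, mul_zero, zero_sub]
    have hy0 : 𝓡.ρ y ≠ 0 := by rw [hy]; exact neg_ne_zero.mpr one_ne_zero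
    have hycoe : (y : E₁) = algebraMap k₁ E₁ a⁻¹ * (algebraMap E E₁ e - algebraMap k₁ E₁ a) := by
      have h3 : algebraMap k₁ E₁ a ≠ 0 := (_root_.map_ne_zero _).mpr ha0
      change algebraMap E E₁ e * algebraMap k₁ E₁ a⁻¹ - 1 = _
      rw [map_inv₀]
      field_simp
    have h1 := 𝓡.mapDomain_divOf hy0
    have h2 : (divOf (𝓡.ρ y) : Divisor κ Eκ) = 0 := by
      rw [hy]
      have : (-1 : Eκ) = algebraMap κ Eκ (-1) := by simp
      rw [this, divOf_algebraMap_const (neg_ne_zero.mpr one_ne_zero)]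
    rw [h2] at h1
    have hyne := 𝓡.ne_zero_of_ρ hy0
    have h3 := mapDomain_pos 𝓡.r (divOf (y : E₁) : Divisor k₁ E₁) (𝓡.r w) (fun v hv => by
        rw [divOf_apply hyne]
        apply ord_nonneg_of_mem
        rw [← hv] at he
        have := 𝓡.fun_mem_of_mem he
        rw [hycoe]
        exact mul_mem (v.algebraMap_mem' _) (sub_mem this (v.algebraMap_mem' _))) rfl (by
        rw [divOf_apply hyne]
        have h4 : w.adicValuation (y : E₁) < 1 := by
          rw [hycoe, map_mul, adicValuation_algebraMap w (inv_ne_zero ha0), one_mul]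
          exact ha
        rw [w.adicValuation_eq_exp_neg_ord hyne, ← exp_zero, exp_lt_exp] at h4
        omega)
    rw [h1] at h3
    exact lt_irrefl _ h3
  refine ⟨⟨a, haA⟩, ha, ?_⟩
  let x : 𝓡.G := ⟨algebraMap E E₁ e, 𝓡.fun_mem e⟩ - ⟨algebraMap k₁ E₁ a, 𝓡.const_mem ⟨a, haA⟩⟩
  have hx : 𝓡.ρ x = algebraMap E Eκ e - algebraMap κ Eκ (π ⟨a, haA⟩) := by
    simp only [x, map_sub]
    rw [𝓡.ρ_fun, 𝓡.ρ_const ⟨a, haA⟩]
  by_cases hx0 : 𝓡.ρ x = 0
  · rw [← hx, hx0, map_zero]; exact zero_lt_one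
  rw [← hx]
  have h1 := 𝓡.mapDomain_divOf hx0
  have hxne := 𝓡.ne_zero_of_ρ hx0
  have h3 := mapDomain_pos 𝓡.r (divOf (x : E₁) : Divisor k₁ E₁) (𝓡.r w) (fun v hv => by
      rw [divOf_apply hxne]
      apply ord_nonneg_of_mem
      rw [← hv] at he
      exact sub_mem (𝓡.fun_mem_of_mem he) (v.algebraMap_mem' _)) rfl (by
      rw [divOf_apply hxne]
      have h4 : w.adicValuation (x : E₁) < 1 := ha
      rw [w.adicValuation_eq_exp_neg_ord hxne, ← exp_zero, exp_lt_exp] at h4
      omega)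
  rw [h1, divOf_apply hx0] at h3
  rw [(𝓡.r w).adicValuation_eq_exp_neg_ord hx0, ← exp_zero, exp_lt_exp]
  omega

end Reduction

end Fermat.Agent.H26
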