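import Mathlib
import Fermat.Agent.H26Red2

/-!
# Local rings of the reduction (helper26, S26)
-/

set_option autoImplicit false
set_option linter.unusedSectionVars false

noncomputable section

open AlgebraicCurve WithZero Fermat.Agent.H3RR

namespace Fermat.Agent.H26

namespace Reduction

section defs

variable (K : Type*) {k k₁ κ E E₁ Eκ : Type*} [Field K] [Field k] [Field k₁] [Field κ] [Field E]
    [Field E₁] [Field Eκ] [Algebra k k₁] [Algebra k E] [Algebra k₁ E₁] [Algebra E E₁]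
    [Algebra k E₁] [IsScalarTower k k₁ E₁] [IsScalarTower k E E₁] [IsCE k k₁ E E₁]
    [Algebra k κ] [Algebra κ Eκ] [Algebra E Eκ] [Algebra k Eκ]
    [IsScalarTower k κ Eκ] [IsScalarTower k E Eκ] [IsCE k κ E Eκ]
    [IsAlgClosed k] [IsAlgClosed k₁] [IsAlgClosed κ] [IsFF k E] [IsFF k₁ E₁] [IsFF κ Eκ]
    [Algebra K k] [Algebra K k₁] [Algebra K κ] [Algebra K E] [Algebra K E₁] [Algebra K Eκ]
    [IsScalarTower K k k₁] [IsScalarTower K k κ] [IsScalarTower K k E] [IsScalarTower K k₁ E₁]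
    [IsScalarTower K E E₁] [IsScalarTower K κ Eκ] [IsScalarTower K E Eκ]
    {A : ValuationSubring k₁} {π : A →+* κ}
    (hA : ∀ c : k, algebraMap k k₁ c ∈ A)
    (hπ : ∀ c : k, π ⟨algebraMap k k₁ c, hA c⟩ = algebraMap k κ c)
    (𝓡 : Reduction k k₁ κ E E₁ Eκ A π)

/-- `A` as a `K`-algebra -/
def vA {k k₁ : Type*} [Field k] [Field k₁] [Algebra k k₁] [Algebra K k] [Algebra K k₁]
    [IsScalarTower K k k₁] {A : ValuationSubring k₁} (hA : ∀ c : k, algebraMap k k₁ c ∈ A) :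
    VSub K k₁ :=
  VSub.ofValuationSubring A fun c => by
    rw [IsScalarTower.algebraMap_apply K k k₁]; exact hA _

/-- `π` as a `K`-algebra homomorphism -/
def redA {k k₁ κ : Type*} [Field k] [Field k₁] [Field κ] [Algebra k k₁] [Algebra k κ]
    [Algebra K k] [Algebra K k₁] [Algebra K κ] [IsScalarTower K k k₁] [IsScalarTower K k κ]
    {A : ValuationSubring k₁} {π : A →+* κ} (hA : ∀ c : k, algebraMap k k₁ c ∈ A)
    (hπ : ∀ c : k, π ⟨algebraMap k k₁ c, hA c⟩ = algebraMap k κ c) :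
    (vA K hA).toSubalgebra →ₐ[K] κ :=
  { π with
    commutes' := fun c => by
      rw [IsScalarTower.algebraMap_apply K k κ, ← hπ]
      change π _ = π _
      congr 1
      exact Subtype.ext (IsScalarTower.algebraMap_apply K k k₁ c) }

/-- the Gauss valuation ring as a `K`-algebra -/
def GK (hA : ∀ c : k, algebraMap k k₁ c ∈ A) : VSub K E₁ :=
  VSub.ofValuationSubring 𝓡.G fun c => by
    rw [IsScalarTower.algebraMap_apply K k₁ E₁, IsScalarTower.algebraMap_apply K k k₁]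
    exact 𝓡.const_mem ⟨_, hA _⟩

/-- the residue map of the Gauss valuation ring -/
def redG (hA : ∀ c : k, algebraMap k k₁ c ∈ A)
    (hπ : ∀ c : k, π ⟨algebraMap k k₁ c, hA c⟩ = algebraMap k κ c) :
    (𝓡.GK K hA).toSubalgebra →ₐ[K] Eκ :=
  { 𝓡.ρ with
    commutes' := fun c => by
      rw [IsScalarTower.algebraMap_apply K κ Eκ, IsScalarTower.algebraMap_apply K k κ, ← hπ,
        ← 𝓡.ρ_const]
      change 𝓡.ρ _ = 𝓡.ρ _
      congr 1
      apply Subtype.ext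
      change algebraMap K E₁ c = _
      rw [IsScalarTower.algebraMap_apply K k₁ E₁, IsScalarTower.algebraMap_apply K k k₁] }

/-- functions in `E` regular at `τ` -/
def S (τ : Place κ Eκ) : VSub K E :=
  VSub.ofValuationSubring (τ.toValuationSubring.comap (algebraMap E Eκ)) fun c => by
    rw [ValuationSubring.mem_comap, ← IsScalarTower.algebraMap_apply,
      IsScalarTower.algebraMap_apply K κ Eκ]
    exact τ.algebraMap_mem' _

variable (k₁ E E₁) in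
/-- the ring `S_τ ⊗ A` inside `E₁` -/
def Bt (A : ValuationSubring k₁) (τ : Place κ Eκ) : Subalgebra K E₁ :=
  Algebra.adjoin K (algebraMap k₁ E₁ '' (A : Set k₁) ∪
    algebraMap E E₁ '' {e | algebraMap E Eκ e ∈ τ.toValuationSubring})

end defs

section

variable {K k k₁ κ E E₁ Eκ : Type*} [Field K] [Field k] [Field k₁] [Field κ] [Field E]
    [Field E₁] [Field Eκ] [Algebra k k₁] [Algebra k E] [Algebra k₁ E₁] [Algebra E E₁]
    [Algebra k E₁] [IsScalarTower k k₁ E₁] [IsScalarTower k E E₁] [IsCE k k₁ E E₁]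
    [Algebra k κ] [Algebra κ Eκ] [Algebra E Eκ] [Algebra k Eκ]
    [IsScalarTower k κ Eκ] [IsScalarTower k E Eκ] [IsCE k κ E Eκ]
    [IsAlgClosed k] [IsAlgClosed k₁] [IsAlgClosed κ] [IsFF k E] [IsFF k₁ E₁] [IsFF κ Eκ]
    {A : ValuationSubring k₁} {π : A →+* κ}
    (𝓡 : Reduction k k₁ κ E E₁ Eκ A π)

/-- residue compatibility for a function `f` at a place `w` -/
def Comp (w : Place k₁ E₁) (τ : Place κ Eκ) (f : E₁) : Prop :=
  ∃ (h : f ∈ 𝓡.G) (a : A), w.adicValuation (f - algebraMap k₁ E₁ a) < 1 ∧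
    τ.adicValuation (𝓡.ρ ⟨f, h⟩ - algebraMap κ Eκ (π a)) < 1

variable {𝓡} {w : Place k₁ E₁} {τ : Place κ Eκ}

theorem le_one_of_sub_lt {F κ : Type*} [Field F] [Field κ] [Algebra κ F] {w : Place κ F}
    {f : F} {a : κ} (h : w.adicValuation (f - algebraMap κ F a) < 1) : w.adicValuation f ≤ 1 := by
  have h1 : f = (f - algebraMap κ F a) + algebraMap κ F a := by ring
  rw [h1]
  exact (Valuation.map_add _ _ _).trans (max_le h.le (w.adicValuation_algebraMap_le_one a))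

theorem comp_const (a : A) : 𝓡.Comp w τ (algebraMap k₁ E₁ a) :=
  ⟨𝓡.const_mem a, a, by rw [sub_self, map_zero]; exact zero_lt_one, by
    rw [𝓡.ρ_const, sub_self, map_zero]; exact zero_lt_one⟩

theorem comp_fun (hw : 𝓡.r w = τ) {e : E} (he : algebraMap E Eκ e ∈ τ.toValuationSubring) :
    𝓡.Comp w τ (algebraMap E E₁ e) := by
  subst hw
  obtain ⟨a, h1, h2⟩ := 𝓡.exists_residue he
  exact ⟨𝓡.fun_mem e, a, h1, by rw [𝓡.ρ_fun]; exact h2⟩

theorem Comp.add {f g : E₁} (hf : 𝓡.Comp w τ f) (hg : 𝓡.Comp w τ g) : 𝓡.Comp w τ (f + g) := by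
  obtain ⟨h, a, h1, h2⟩ := hf
  obtain ⟨h', a', h1', h2'⟩ := hg
  refine ⟨add_mem h h', a + a', ?_, ?_⟩
  · have : f + g - algebraMap k₁ E₁ (a + a' : A) =
        (f - algebraMap k₁ E₁ a) + (g - algebraMap k₁ E₁ a') := by
      have h3 : ((a + a' : A) : k₁) = a + a' := rfl
      rw [h3, map_add]; ring
    rw [this]
    exact lt_of_le_of_lt (Valuation.map_add _ _ _) (max_lt h1 h1')
  · have : 𝓡.ρ ⟨f + g, add_mem h h'⟩ - algebraMap κ Eκ (π (a + a')) =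
        (𝓡.ρ ⟨f, h⟩ - algebraMap κ Eκ (π a)) + (𝓡.ρ ⟨g, h'⟩ - algebraMap κ Eκ (π a')) := by
      have h3 : (⟨f + g, add_mem h h'⟩ : 𝓡.G) = ⟨f, h⟩ + ⟨g, h'⟩ := rfl
      rw [h3, map_add, map_add, map_add]; ring
    rw [this]
    exact lt_of_le_of_lt (Valuation.map_add _ _ _) (max_lt h2 h2')

theorem Comp.mul {f g : E₁} (hf : 𝓡.Comp w τ f) (hg : 𝓡.Comp w τ g) : 𝓡.Comp w τ (f * g) := by
  obtain ⟨h, a, h1, h2⟩ := hf
  obtain ⟨h', a', h1', h2'⟩ := hg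
  refine ⟨mul_mem h h', a * a', ?_, ?_⟩
  · have : f * g - algebraMap k₁ E₁ (a * a' : A) =
        (f - algebraMap k₁ E₁ a) * g + algebraMap k₁ E₁ a * (g - algebraMap k₁ E₁ a') := by
      have h3 : ((a * a' : A) : k₁) = a * a' := rfl
      rw [h3, map_mul]; ring
    rw [this]
    refine lt_of_le_of_lt (Valuation.map_add _ _ _) (max_lt ?_ ?_)
    · rw [map_mul]
      exact lt_of_le_of_lt (mul_le_of_le_one_right' (le_one_of_sub_lt h1')) h1
    · rw [map_mul]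
      exact lt_of_le_of_lt (mul_le_of_le_one_left' (w.adicValuation_algebraMap_le_one _)) h1'
  · have : 𝓡.ρ ⟨f * g, mul_mem h h'⟩ - algebraMap κ Eκ (π (a * a')) =
        (𝓡.ρ ⟨f, h⟩ - algebraMap κ Eκ (π a)) * 𝓡.ρ ⟨g, h'⟩ +
          algebraMap κ Eκ (π a) * (𝓡.ρ ⟨g, h'⟩ - algebraMap κ Eκ (π a')) := by
      have h3 : (⟨f * g, mul_mem h h'⟩ : 𝓡.G) = ⟨f, h⟩ * ⟨g, h'⟩ := rfl
      rw [h3, map_mul, map_mul, map_mul]; ring
    rw [this]
    refine lt_of_le_of_lt (Valuation.map_add _ _ _) (max_lt ?_ ?_)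
    · rw [map_mul]
      exact lt_of_le_of_lt (mul_le_of_le_one_right' (le_one_of_sub_lt h2')) h2
    · rw [map_mul]
      exact lt_of_le_of_lt (mul_le_of_le_one_left' (τ.adicValuation_algebraMap_le_one _)) h2'

theorem isUnit_of_π_ne_zero (hπl : ∀ a, π a = 0 ↔ ¬ IsUnit a) {a : A} (h : π a ≠ 0) :
    (a : k₁)⁻¹ ∈ A := by
  have hu : IsUnit a := by
    by_contra hcon
    exact h ((hπl a).mpr hcon)
  obtain ⟨⟨u, v, huv, hvu⟩, rfl⟩ := hu
  have h1 : (u : k₁) * v = 1 := congrArg Subtype.val huv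
  change (u : k₁)⁻¹ ∈ A
  rw [← eq_inv_of_mul_eq_one_right h1]
  exact v.2

theorem Comp.inv (hπl : ∀ a, π a = 0 ↔ ¬ IsUnit a) {f : E₁} (hf : 𝓡.Comp w τ f)
    (h1 : ∀ h : f ∈ 𝓡.G, τ.adicValuation (𝓡.ρ ⟨f, h⟩) = 1) : 𝓡.Comp w τ f⁻¹ := by
  obtain ⟨h, a, h2, h3⟩ := hf
  have hρ1 := h1 h
  have hπa : π a ≠ 0 := by
    intro h0
    rw [h0, map_zero, sub_zero, hρ1] at h3
    exact lt_irrefl _ h3
  have hρ0 : 𝓡.ρ ⟨f, h⟩ ≠ 0 := by
    intro h0
    rw [h0, map_zero] at hρ1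
    exact zero_ne_one hρ1
  have hainv := isUnit_of_π_ne_zero hπl hπa
  have ha0 : (a : k₁) ≠ 0 := by
    intro h0
    have : a = 0 := Subtype.ext h0
    rw [this, map_zero] at hπa
    exact hπa rfl
  have hf0 : f ≠ 0 := 𝓡.ne_zero_of_ρ hρ0
  have hfinv : f⁻¹ ∈ 𝓡.G := by
    obtain ⟨⟨u, v, huv, hvu⟩, hu⟩ := (𝓡.isUnit_iff ⟨f, h⟩).mpr hρ0
    have h4 : (u : E₁) * v = 1 := congrArg Subtype.val huv
    have h5 : (u : E₁) = f := congrArg Subtype.val hu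
    rw [h5] at h4
    rw [← eq_inv_of_mul_eq_one_right h4]
    exact v.2
  have hwa : w.adicValuation (algebraMap k₁ E₁ a) = 1 := adicValuation_algebraMap w ha0
  have hwf : w.adicValuation f = 1 := by
    have h5 : f = (f - algebraMap k₁ E₁ a) + algebraMap k₁ E₁ a := by ring
    rw [h5, Valuation.map_add_eq_of_lt_right _ (by rw [hwa]; exact h2), hwa]
  refine ⟨hfinv, ⟨(a : k₁)⁻¹, hainv⟩, ?_, ?_⟩
  · have h6 : algebraMap k₁ E₁ a ≠ 0 := (_root_.map_ne_zero _).mpr ha0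
    have : f⁻¹ - algebraMap k₁ E₁ ((⟨(a : k₁)⁻¹, hainv⟩ : A) : k₁) =
        -((f - algebraMap k₁ E₁ a) * f⁻¹ * (algebraMap k₁ E₁ a)⁻¹) := by
      change f⁻¹ - algebraMap k₁ E₁ (a : k₁)⁻¹ = _
      rw [map_inv₀]
      field_simp
      ring
    rw [this, Valuation.map_neg, map_mul, map_mul, map_inv₀, map_inv₀, hwf, hwa]
    simpa using h2
  · have h7 : 𝓡.ρ ⟨f⁻¹, hfinv⟩ = (𝓡.ρ ⟨f, h⟩)⁻¹ := by
      apply eq_inv_of_mul_eq_one_right
      rw [← map_mul]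
      have : (⟨f, h⟩ * ⟨f⁻¹, hfinv⟩ : 𝓡.G) = 1 := Subtype.ext (mul_inv_cancel₀ hf0)
      rw [this, map_one]
    have h8 : π ⟨(a : k₁)⁻¹, hainv⟩ = (π a)⁻¹ := by
      apply eq_inv_of_mul_eq_one_right
      rw [← map_mul]
      have : (a * ⟨(a : k₁)⁻¹, hainv⟩ : A) = 1 := Subtype.ext (mul_inv_cancel₀ ha0)
      rw [this, map_one]
    have h9 : algebraMap κ Eκ (π a) ≠ 0 := (_root_.map_ne_zero _).mpr hπa
    have h10 : τ.adicValuation (algebraMap κ Eκ (π a)) = 1 := adicValuation_algebraMap τ hπa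
    have : 𝓡.ρ ⟨f⁻¹, hfinv⟩ - algebraMap κ Eκ (π ⟨(a : k₁)⁻¹, hainv⟩) =
        -((𝓡.ρ ⟨f, h⟩ - algebraMap κ Eκ (π a)) * (𝓡.ρ ⟨f, h⟩)⁻¹ * (algebraMap κ Eκ (π a))⁻¹) := by
      rw [h7, h8, map_inv₀]
      field_simp
      ring
    rw [this, Valuation.map_neg, map_mul, map_mul, map_inv₀, map_inv₀, hρ1, h10]
    simpa using h3

end

section R

variable (K : Type*) {k k₁ κ E E₁ Eκ : Type*} [Field K] [Field k] [Field k₁] [Field κ] [Field E]
    [Field E₁] [Field Eκ] [Algebra k k₁] [Algebra k E] [Algebra k₁ E₁] [Algebra E E₁]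
    [Algebra k E₁] [IsScalarTower k k₁ E₁] [IsScalarTower k E E₁] [IsCE k k₁ E E₁]
    [Algebra k κ] [Algebra κ Eκ] [Algebra E Eκ] [Algebra k Eκ]
    [IsScalarTower k κ Eκ] [IsScalarTower k E Eκ] [IsCE k κ E Eκ]
    [IsAlgClosed k] [IsAlgClosed k₁] [IsAlgClosed κ] [IsFF k E] [IsFF k₁ E₁] [IsFF κ Eκ]
    [Algebra K k] [Algebra K k₁] [Algebra K κ] [Algebra K E] [Algebra K E₁] [Algebra K Eκ]
    [IsScalarTower K k k₁] [IsScalarTower K k κ] [IsScalarTower K k E] [IsScalarTower K k₁ E₁]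
    [IsScalarTower K E E₁] [IsScalarTower K κ Eκ] [IsScalarTower K E Eκ]
    {A : ValuationSubring k₁} {π : A →+* κ}
    (hA : ∀ c : k, algebraMap k k₁ c ∈ A)
    (hπ : ∀ c : k, π ⟨algebraMap k k₁ c, hA c⟩ = algebraMap k κ c)
    (𝓡 : Reduction k k₁ κ E E₁ Eκ A π)

include hA in
theorem Bt_le_G (τ : Place κ Eκ) : Bt K k₁ E E₁ A τ ≤ (𝓡.GK K hA).toSubalgebra := by
  refine Algebra.adjoin_le ?_
  rintro _ (⟨a, ha, rfl⟩ | ⟨e, he, rfl⟩)
  · exact 𝓡.const_mem ⟨a, ha⟩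
  · exact 𝓡.fun_mem e

include hA in
theorem mem_G_of_mem_Bt {τ : Place κ Eκ} {f : E₁} (hf : f ∈ Bt K k₁ E E₁ A τ) : f ∈ 𝓡.G :=
  𝓡.Bt_le_G K hA τ hf

include hA in
theorem ρ_mem_of_mem_Bt {τ : Place κ Eκ} {f : E₁} (hf : f ∈ Bt K k₁ E E₁ A τ) :
    ∃ h : f ∈ 𝓡.G, 𝓡.ρ ⟨f, h⟩ ∈ τ.toValuationSubring := by
  induction hf using Algebra.adjoin_induction with
  | mem x hx =>
    rcases hx with ⟨a, ha, rfl⟩ | ⟨e, he, rfl⟩
    · exact ⟨𝓡.const_mem ⟨a, ha⟩, by rw [𝓡.ρ_const ⟨a, ha⟩]; exact τ.algebraMap_mem' _⟩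
    · exact ⟨𝓡.fun_mem e, by rw [𝓡.ρ_fun]; exact he⟩
  | algebraMap c =>
    have hc : algebraMap K E₁ c = algebraMap k₁ E₁ (⟨algebraMap k k₁ (algebraMap K k c), hA _⟩ : A) := by
      rw [IsScalarTower.algebraMap_apply K k₁ E₁, IsScalarTower.algebraMap_apply K k k₁]
    rw [hc]
    exact ⟨𝓡.const_mem _, by rw [𝓡.ρ_const]; exact τ.algebraMap_mem' _⟩
  | add x y _ _ hx hy =>
    obtain ⟨h, h'⟩ := hx
    obtain ⟨g, g'⟩ := hy
    exact ⟨add_mem h g, by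
      have : (⟨x + y, add_mem h g⟩ : 𝓡.G) = ⟨x, h⟩ + ⟨y, g⟩ := rfl
      rw [this, map_add]; exact add_mem h' g'⟩
  | mul x y _ _ hx hy =>
    obtain ⟨h, h'⟩ := hx
    obtain ⟨g, g'⟩ := hy
    exact ⟨mul_mem h g, by
      have : (⟨x * y, mul_mem h g⟩ : 𝓡.G) = ⟨x, h⟩ * ⟨y, g⟩ := rfl
      rw [this, map_mul]; exact mul_mem h' g'⟩

/-- unit at `τ` -/
def UnitAt (τ : Place κ Eκ) (z : E₁) : Prop :=
  ∃ h : z ∈ 𝓡.G, τ.adicValuation (𝓡.ρ ⟨z, h⟩) = 1

variable {𝓡} in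
theorem UnitAt.mul {τ : Place κ Eκ} {z z' : E₁} (h : 𝓡.UnitAt τ z) (h' : 𝓡.UnitAt τ z') :
    𝓡.UnitAt τ (z * z') := by
  obtain ⟨h1, h2⟩ := h
  obtain ⟨h1', h2'⟩ := h'
  refine ⟨mul_mem h1 h1', ?_⟩
  have : (⟨z * z', mul_mem h1 h1'⟩ : 𝓡.G) = ⟨z, h1⟩ * ⟨z', h1'⟩ := rfl
  rw [this, map_mul, map_mul, h2, h2', one_mul]

theorem unitAt_one (τ : Place κ Eκ) : 𝓡.UnitAt τ 1 :=
  ⟨one_mem _, by
    have : (⟨1, one_mem _⟩ : 𝓡.G) = 1 := rfl
    rw [this, map_one, map_one]⟩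

variable {𝓡} in
theorem UnitAt.ne_zero {τ : Place κ Eκ} {z : E₁} (h : 𝓡.UnitAt τ z) : z ≠ 0 := by
  obtain ⟨h1, h2⟩ := h
  refine 𝓡.ne_zero_of_ρ (x := ⟨z, h1⟩) ?_
  intro h0
  rw [h0, map_zero] at h2
  exact zero_ne_one h2

variable {𝓡} in
theorem UnitAt.inv {τ : Place κ Eκ} {z : E₁} (h : 𝓡.UnitAt τ z) : 𝓡.UnitAt τ z⁻¹ := by
  have h0 := h.ne_zero
  obtain ⟨h1, h2⟩ := h
  have hρ0 : 𝓡.ρ ⟨z, h1⟩ ≠ 0 := by
    intro h0
    rw [h0, map_zero] at h2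
    exact zero_ne_one h2
  obtain ⟨⟨u, v, huv, hvu⟩, hu⟩ := (𝓡.isUnit_iff ⟨z, h1⟩).mpr hρ0
  have h4 : (u : E₁) * v = 1 := congrArg Subtype.val huv
  have h5 : (u : E₁) = z := congrArg Subtype.val hu
  rw [h5] at h4
  have h6 : (v : E₁) = z⁻¹ := eq_inv_of_mul_eq_one_right h4
  have hmem : z⁻¹ ∈ 𝓡.G := by rw [← h6]; exact v.2
  refine ⟨hmem, ?_⟩
  have h7 : 𝓡.ρ ⟨z⁻¹, hmem⟩ = (𝓡.ρ ⟨z, h1⟩)⁻¹ := by
    apply eq_inv_of_mul_eq_one_right
    rw [← map_mul]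
    have : (⟨z, h1⟩ * ⟨z⁻¹, hmem⟩ : 𝓡.G) = 1 := Subtype.ext (mul_inv_cancel₀ h0)
    rw [this, map_one]
  rw [h7, map_inv₀, h2, inv_one]

/-- The local ring `R_τ` of the point `τ` on the model. -/
def R (τ : Place κ Eκ) : Subalgebra K E₁ where
  carrier := {f | ∃ y ∈ Bt K k₁ E E₁ A τ, ∃ z ∈ Bt K k₁ E E₁ A τ, 𝓡.UnitAt τ z ∧ f * z = y}
  add_mem' := by
    rintro f f' ⟨y, hy, z, hz, hu, h⟩ ⟨y', hy', z', hz', hu', h'⟩
    exact ⟨y * z' + y' * z, add_mem (mul_mem hy hz') (mul_mem hy' hz), z * z', mul_mem hz hz',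
      hu.mul hu', by rw [← h, ← h']; ring⟩
  mul_mem' := by
    rintro f f' ⟨y, hy, z, hz, hu, h⟩ ⟨y', hy', z', hz', hu', h'⟩
    exact ⟨y * y', mul_mem hy hy', z * z', mul_mem hz hz', hu.mul hu', by rw [← h, ← h']; ring⟩
  algebraMap_mem' c := ⟨_, Subalgebra.algebraMap_mem _ c, 1, one_mem _, 𝓡.unitAt_one τ, mul_one _⟩

theorem mem_R_iff {τ : Place κ Eκ} {f : E₁} :
    f ∈ 𝓡.R K τ ↔ ∃ y ∈ Bt K k₁ E E₁ A τ, ∃ z ∈ Bt K k₁ E E₁ A τ, 𝓡.UnitAt τ z ∧ f * z = y := Iff.rfl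

theorem Bt_le_R (τ : Place κ Eκ) : Bt K k₁ E E₁ A τ ≤ 𝓡.R K τ := fun f hf =>
  ⟨f, hf, 1, one_mem _, 𝓡.unitAt_one τ, mul_one _⟩

theorem const_mem_R {τ : Place κ Eκ} {a : k₁} (ha : a ∈ A) : algebraMap k₁ E₁ a ∈ 𝓡.R K τ :=
  𝓡.Bt_le_R K τ (Algebra.subset_adjoin (Or.inl ⟨a, ha, rfl⟩))

theorem fun_mem_R {τ : Place κ Eκ} {e : E} (he : algebraMap E Eκ e ∈ τ.toValuationSubring) :
    algebraMap E E₁ e ∈ 𝓡.R K τ :=
  𝓡.Bt_le_R K τ (Algebra.subset_adjoin (Or.inr ⟨e, he, rfl⟩))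

include hA in
theorem R_ρ_mem {τ : Place κ Eκ} {f : E₁} (hf : f ∈ 𝓡.R K τ) :
    ∃ h : f ∈ 𝓡.G, 𝓡.ρ ⟨f, h⟩ ∈ τ.toValuationSubring := by
  obtain ⟨y, hy, z, hz, hu, h⟩ := hf
  have hz0 := hu.ne_zero
  obtain ⟨h1, h2⟩ := 𝓡.ρ_mem_of_mem_Bt K hA hy
  obtain ⟨h3, h4⟩ := hu.inv
  have hf : f = y * z⁻¹ := by rw [← h, mul_inv_cancel_right₀ hz0]
  subst hf
  refine ⟨mul_mem h1 h3, ?_⟩
  have : (⟨y * z⁻¹, mul_mem h1 h3⟩ : 𝓡.G) = ⟨y, h1⟩ * ⟨z⁻¹, h3⟩ := rfl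
  rw [this, map_mul]
  exact mul_mem h2 ((mem_iff_adicValuation_le_one τ).mpr h4.le)

include hA in
/-- units of `R_τ` -/
theorem inv_mem_R {τ : Place κ Eκ} {f : E₁} (hf : f ∈ 𝓡.R K τ) (hu : 𝓡.UnitAt τ f) :
    f⁻¹ ∈ 𝓡.R K τ := by
  obtain ⟨y, hy, z, hz, huz, h⟩ := hf
  have hf0 := hu.ne_zero
  refine ⟨z, hz, y, hy, ?_, ?_⟩
  · rw [← h]; exact hu.mul huz
  · rw [← h]; field_simp

include hA in
/-- residue compatibility on `R_τ` -/
theorem comp_of_mem_R (hπl : ∀ a, π a = 0 ↔ ¬ IsUnit a) {w : Place k₁ E₁} {τ : Place κ Eκ}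
    (hw : 𝓡.r w = τ) {f : E₁} (hf : f ∈ 𝓡.R K τ) : 𝓡.Comp w τ f := by
  have hB : ∀ x ∈ Bt K k₁ E E₁ A τ, 𝓡.Comp w τ x := by
    intro x hx
    induction hx using Algebra.adjoin_induction with
    | mem x hx =>
      rcases hx with ⟨a, ha, rfl⟩ | ⟨e, he, rfl⟩
      · exact comp_const (⟨a, ha⟩ : A)
      · exact comp_fun hw he
    | algebraMap c =>
      have hc : algebraMap K E₁ c =
          algebraMap k₁ E₁ (⟨algebraMap k k₁ (algebraMap K k c), hA _⟩ : A) := by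
        rw [IsScalarTower.algebraMap_apply K k₁ E₁, IsScalarTower.algebraMap_apply K k k₁]
      rw [hc]
      exact comp_const _
    | add x y _ _ hx hy => exact hx.add hy
    | mul x y _ _ hx hy => exact hx.mul hy
  obtain ⟨y, hy, z, hz, huz, h⟩ := hf
  have hf : f = y * z⁻¹ := by rw [← h, mul_inv_cancel_right₀ huz.ne_zero]
  rw [hf]
  exact (hB y hy).mul ((hB z hz).inv hπl fun h => huz.2)

theorem Comp.mem_place {w : Place k₁ E₁} {τ : Place κ Eκ} {f : E₁} (h : 𝓡.Comp w τ f) :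
    f ∈ w.toValuationSubring := by
  obtain ⟨_, a, h1, _⟩ := h
  exact (mem_iff_adicValuation_le_one w).mpr (le_one_of_sub_lt h1)

/-- **(sp1)**: a function which is integral for the Gauss valuation and regular at all places
specialising to `τ` lies in `R_τ`. -/
theorem mem_R_of_regular {τ : Place κ Eκ} {u : E₁} (hu : u ∈ 𝓡.G)
    (h : ∀ v, 𝓡.r v = τ → u ∈ v.toValuationSubring) : u ∈ 𝓡.R K τ := by
  classical
  by_cases hu0 : u = 0
  · rw [hu0]; exact zero_mem _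
  -- pole divisor
  set P : Divisor k₁ E₁ := poleDiv u with hP
  have hPτ : Finsupp.mapDomain 𝓡.r P τ = 0 := by
    rw [mapDomain_apply_sum]
    refine Finset.sum_eq_zero fun v hv => ?_
    have hv2 := (Finset.mem_filter.mp hv).2
    rw [hP, poleDiv_apply hu0]
    have := (mem_iff_ord_nonneg v hu0).mp (h v hv2)
    omega
  -- a constant place whose reduction is different from `τ`
  obtain ⟨c, hc⟩ : ∃ c : Place k E, IsCE.pl κ Eκ c ≠ τ := by
    obtain ⟨c₀⟩ := exists_place k E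
    by_cases h0 : IsCE.pl κ Eκ c₀ = τ
    · -- another place: a zero of a function whose only pole is `c₀`
      obtain ⟨x, hxt, hx1, hx2⟩ := H3S27.exists_only_pole c₀
      obtain ⟨c, hc⟩ := exists_place_lt_one hxt
      refine ⟨c, fun h1 => ?_⟩
      have : c = c₀ := IsCE.pl_injective (h1.trans h0.symm)
      rw [this] at hc
      exact absurd hc (not_lt.mpr hx1.le)
    · exact ⟨c₀, h0⟩
  -- large degree
  obtain ⟨N, hN0, hN1, hN2⟩ : ∃ N : ℤ, 0 ≤ N ∧ 𝓡.bound < N - Divisor.degree P ∧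
      2 * (genusFF κ Eκ : ℤ) < N - Divisor.degree P := by
    refine ⟨|𝓡.bound| + |Divisor.degree P| + 2 * genusFF κ Eκ + 1, ?_, ?_, ?_⟩
    · positivity
    · have h1 := le_abs_self 𝓡.bound
      have h2 := le_abs_self (Divisor.degree P)
      omega
    · have h1 := abs_nonneg 𝓡.bound
      have h2 := le_abs_self (Divisor.degree P)
      omega
  set D₀ : Divisor k E := Finsupp.single c N with hD₀
  set D : Divisor k₁ E₁ := IsCE.con k₁ E₁ D₀ - P with hD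
  have hD₀deg : Divisor.degree D₀ = N := by rw [hD₀, Divisor.degree_single, deg_eq_one]; simp
  have hDdeg : Divisor.degree D = N - Divisor.degree P := by
    rw [hD, map_sub, IsCE.degree_con, hD₀deg]
  -- a section of the reduced divisor which is a unit at `τ`
  set Dk : Divisor κ Eκ := Finsupp.mapDomain 𝓡.r D with hDk
  have hDkdeg : Divisor.degree Dk = N - Divisor.degree P := by
    rw [hDk, 𝓡.degree_mapDomain, hDdeg]
  have hDkτ : Dk τ = 0 := by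
    have h1 : Dk = IsCE.con κ Eκ D₀ - Finsupp.mapDomain 𝓡.r P := by
      rw [hDk, hD, ← 𝓡.mapDomain_con]
      exact map_sub (Finsupp.mapDomain.addMonoidHom 𝓡.r) _ _
    rw [h1, Finsupp.sub_apply, hPτ, sub_zero, hD₀, IsCE.con_single, Finsupp.single_apply,
      if_neg hc]
  obtain ⟨y, hyL, hyτ⟩ : ∃ y ∈ riemannRochSpace Dk, τ.adicValuation y = 1 := by
    have h1 := ell_of_degree_gt (K := κ) (F := Eκ) (D := Dk) (by rw [hDkdeg]; omega)
    have h2 := ell_of_degree_gt (K := κ) (F := Eκ) (D := Dk - Finsupp.single τ 1) (by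
      rw [map_sub, hDkdeg, Divisor.degree_single, deg_eq_one]; push_cast; omega)
    rw [map_sub, Divisor.degree_single, deg_eq_one] at h2
    have h3 : ell (Dk - Finsupp.single τ 1) < ell Dk := by
      push_cast at h2; omega
    have hle : riemannRochSpace (Dk - Finsupp.single τ 1) ≤ riemannRochSpace Dk :=
      L_mono (by rw [sub_le_self_iff]; exact Finsupp.single_nonneg.mpr zero_le_one)
    obtain ⟨y, hy, hy'⟩ : ∃ y ∈ riemannRochSpace Dk, y ∉ riemannRochSpace (Dk - Finsupp.single τ 1) := by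
      by_contra hcon
      push Not at hcon
      have : riemannRochSpace (Dk - Finsupp.single τ 1) = riemannRochSpace Dk :=
        le_antisymm hle hcon
      rw [ell, ell, this] at h3
      exact lt_irrefl _ h3
    refine ⟨y, hy, ?_⟩
    have h4 : τ.adicValuation y ≤ exp (Dk τ) := hy τ
    rw [hDkτ, exp_zero] at h4
    by_contra hne
    apply hy'
    intro v
    change v.adicValuation y ≤ exp _
    rw [Finsupp.sub_apply, Finsupp.single_apply]
    by_cases hv : τ = v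
    · subst hv
      rw [if_pos rfl, hDkτ, zero_sub, ← adicValuation_lt_one_iff]
      exact lt_of_le_of_ne h4 hne
    · rw [if_neg hv, sub_zero]; exact hy v
  obtain ⟨q, hqL, hq⟩ := 𝓡.exists_lift D (by rw [hDdeg]; exact hN1) y hyL
  have hqu : 𝓡.UnitAt τ (q : E₁) := ⟨q.2, by
    have : (⟨(q : E₁), q.2⟩ : 𝓡.G) = q := rfl
    rw [this, hq, hyτ]⟩
  -- elements of `L(con D₀) ∩ G` lie in `Bt`
  have key : ∀ x : E₁, x ∈ 𝓡.G → x ∈ riemannRochSpace (IsCE.con k₁ E₁ D₀) →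
      x ∈ Bt K k₁ E E₁ A τ := by
    intro x hxG hxL
    rw [IsCE.riemannRochSpace_con] at hxL
    -- write with a basis of `L(D₀)`
    let b := Module.finBasis k (riemannRochSpace D₀)
    have hbli : LinearIndependent k fun i => (b i : E) :=
      b.linearIndependent.map' (riemannRochSpace D₀).subtype (Submodule.ker_subtype _)
    obtain ⟨cf, hcf⟩ : ∃ cf : Fin (Module.finrank k (riemannRochSpace D₀)) → k₁,
        x = ∑ i, algebraMap k₁ E₁ (cf i) * algebraMap E E₁ (b i) := by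
      have hsp : IsCE.ext k₁ E₁ (riemannRochSpace D₀) ≤
          Submodule.span k₁ (Set.range fun i => algebraMap E E₁ (b i : E)) := by
        refine Submodule.span_le.mpr ?_
        rintro _ ⟨e, he, rfl⟩
        have h1 : e = ∑ i, b.repr ⟨e, he⟩ i • (b i : E) := by
          have := congrArg Subtype.val (b.sum_repr ⟨e, he⟩)
          rw [AddSubmonoidClass.coe_finsetSum] at this
          exact this.symm
        rw [SetLike.mem_coe, h1, map_sum]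
        refine sum_mem fun i _ => ?_
        rw [Algebra.smul_def, map_mul, ← IsScalarTower.algebraMap_apply,
          IsScalarTower.algebraMap_apply k k₁ E₁, ← Algebra.smul_def]
        exact Submodule.smul_mem _ _ (Submodule.subset_span ⟨i, rfl⟩)
      obtain ⟨cf, hcf⟩ := (Submodule.mem_span_range_iff_exists_fun k₁).mp (hsp hxL)
      exact ⟨cf, by rw [← hcf]; exact Finset.sum_congr rfl fun i _ => Algebra.smul_def _ _⟩
    have hcoef := 𝓡.coeff_mem _ hbli cf (by rw [← hcf]; exact hxG)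
    rw [hcf]
    refine sum_mem fun i _ => mul_mem (Algebra.subset_adjoin (Or.inl ⟨_, hcoef i, rfl⟩))
      (Algebra.subset_adjoin (Or.inr ⟨_, ?_, rfl⟩))
    -- `b i` is regular at `τ`
    change algebraMap E Eκ (b i) ∈ τ.toValuationSubring
    rcases IsCE.generic_or_eq_pl (k := k) (E := E) τ with hw | ⟨c', rfl⟩
    · exact hw _
    · rw [IsCE.pl_toValuationSubring, IsCE.algebraMap_mem_plRing_iff,
        mem_iff_adicValuation_le_one]
      have h5 : c'.adicValuation (b i : E) ≤ exp (D₀ c') := (b i).2 c'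
      have hne : c ≠ c' := by rintro rfl; exact hc rfl
      have h6 : D₀ c' = 0 := by rw [hD₀, Finsupp.single_apply, if_neg hne]
      rwa [h6, exp_zero] at h5
  have hqL' : (q : E₁) ∈ riemannRochSpace (IsCE.con k₁ E₁ D₀) := by
    refine L_mono ?_ hqL
    rw [hD, sub_le_self_iff]
    intro v
    rw [hP, poleDiv_apply hu0]
    exact le_max_right _ _
  have huqL : u * q ∈ riemannRochSpace (IsCE.con k₁ E₁ D₀) := by
    have hq0 : (q : E₁) ≠ 0 := hqu.ne_zero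
    rw [H40.mem_L (mul_ne_zero hu0 hq0)]
    intro v
    rw [v.ord_mul hu0 hq0]
    have h6 := (H40.mem_L hq0).mp hqL v
    rw [hD, Finsupp.sub_apply, hP, poleDiv_apply hu0] at h6
    have := le_max_left (-v.ord u) 0
    omega
  exact ⟨u * q, key _ (mul_mem hu q.2) huqL, q, key _ q.2 hqL', hqu, rfl⟩

end R

end Reduction

end Fermat.Agent.H26
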