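import Mathlib
import Fermat.Agent.H26Red3

/-!
# Bundled reduction context (helper26, S26)
-/

set_option autoImplicit false
set_option linter.unusedSectionVars false

noncomputable section

open AlgebraicCurve WithZero Fermat.Agent.H3RR

namespace Fermat.Agent.H26

/-- Bundled reduction data. -/
structure RedCtx (k k₁ κ E E₁ Eκ : Type*) [Field k] [Field k₁] [Field κ] [Field E]
    [Field E₁] [Field Eκ] [Algebra k k₁] [Algebra k E] [Algebra k₁ E₁] [Algebra E E₁]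
    [Algebra k κ] [Algebra κ Eκ] [Algebra E Eκ] where
  A : ValuationSubring k₁
  π : A →+* κ
  surj : Function.Surjective π
  loc : ∀ a, π a = 0 ↔ ¬ IsUnit a
  hA : ∀ c : k, algebraMap k k₁ c ∈ A
  hπ : ∀ c : k, π ⟨algebraMap k k₁ c, hA c⟩ = algebraMap k κ c
  𝓡 : Reduction k k₁ κ E E₁ Eκ A π

namespace RedCtx

variable {K k k₁ κ E E₁ Eκ : Type*} [Field K] [Field k] [Field k₁] [Field κ] [Field E]
    [Field E₁] [Field Eκ] [Algebra k k₁] [Algebra k E] [Algebra k₁ E₁] [Algebra E E₁]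
    [Algebra k E₁] [IsScalarTower k k₁ E₁] [IsScalarTower k E E₁] [IsCE k k₁ E E₁]
    [Algebra k κ] [Algebra κ Eκ] [Algebra E Eκ] [Algebra k Eκ]
    [IsScalarTower k κ Eκ] [IsScalarTower k E Eκ] [IsCE k κ E Eκ]
    [IsAlgClosed k] [IsAlgClosed k₁] [IsAlgClosed κ] [IsFF k E] [IsFF k₁ E₁] [IsFF κ Eκ]
    [Algebra K k] [Algebra K k₁] [Algebra K κ] [Algebra K E] [Algebra K E₁] [Algebra K Eκ]
    [IsScalarTower K k k₁] [IsScalarTower K k κ] [IsScalarTower K k E] [IsScalarTower K k₁ E₁]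
    [IsScalarTower K E E₁] [IsScalarTower K κ Eκ] [IsScalarTower K E Eκ]
    (c : RedCtx k k₁ κ E E₁ Eκ)

/-! ### Divisors -/

/-- `r_*` -/
def push : Divisor k₁ E₁ →+ Divisor κ Eκ := Finsupp.mapDomain.addMonoidHom c.𝓡.r

theorem push_apply (D : Divisor k₁ E₁) : c.push D = Finsupp.mapDomain c.𝓡.r D := rfl

theorem degree_push (D : Divisor k₁ E₁) : Divisor.degree (c.push D) = Divisor.degree D :=
  c.𝓡.degree_mapDomain D

theorem push_con (D : Divisor k E) : c.push (IsCE.con k₁ E₁ D) = IsCE.con κ Eκ D :=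
  c.𝓡.mapDomain_con D

theorem push_nonneg {D : Divisor k₁ E₁} (h : 0 ≤ D) : 0 ≤ c.push D := mapDomain_nonneg _ h

theorem exists_push_divOf {f : E₁} (hf : f ≠ 0) :
    ∃ g : Eκ, g ≠ 0 ∧ c.push (divOf f) = divOf g := by
  obtain ⟨t, ht, x, hx, hx0⟩ := c.𝓡.exists_scale f hf
  refine ⟨c.𝓡.ρ x, hx0, ?_⟩
  rw [← c.𝓡.mapDomain_divOf hx0, hx, divOf_mul ((_root_.map_ne_zero _).mpr ht) hf,
    divOf_algebraMap_const ht, zero_add, push_apply]

theorem push_linEq {D D' : Divisor k₁ E₁} (h : LinEq D D') : LinEq (c.push D) (c.push D') := by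
  obtain ⟨f, hf, rfl⟩ := h
  obtain ⟨g, hg, hfg⟩ := c.exists_push_divOf hf
  exact ⟨g, hg, by rw [map_add, hfg]⟩

/-! ### Rings and homomorphisms -/

variable (K)

/-- the valuation ring `A` -/
abbrev vA : VSub K k₁ := Reduction.vA K c.hA

/-- `A → κ` -/
abbrev redA : (c.vA K).toSubalgebra →ₐ[K] κ := Reduction.redA K c.hA c.hπ

/-- the Gauss valuation ring -/
abbrev GK : VSub K E₁ := c.𝓡.GK K c.hA

/-- `G → Eκ` -/
abbrev redG : (c.GK K).toSubalgebra →ₐ[K] Eκ := c.𝓡.redG K c.hA c.hπ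

/-- functions in `E` regular at `τ` -/
abbrev S (_c : RedCtx k k₁ κ E E₁ Eκ) (τ : Place κ Eκ) : VSub K E := Reduction.S K τ

/-- the local ring at `τ` of the model -/
abbrev R (τ : Place κ Eκ) : Subalgebra K E₁ := c.𝓡.R K τ

theorem redG_apply (x : (c.GK K).toSubalgebra) : c.redG K x = c.𝓡.ρ ⟨x, x.2⟩ := rfl

theorem redA_apply (x : (c.vA K).toSubalgebra) : c.redA K x = c.π ⟨x, x.2⟩ := rfl

/-- inclusion `R_τ → G` -/
def toG (τ : Place κ Eκ) : c.R K τ →ₐ[K] (c.GK K).toSubalgebra :=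
  Subalgebra.inclusion fun _ hf => (c.𝓡.R_ρ_mem K c.hA hf).choose

@[simp] theorem coe_toG (τ : Place κ Eκ) (x : c.R K τ) : ((c.toG K τ x : _) : E₁) = x := rfl

/-- reduction `R_τ → O_τ` -/
def toPl (τ : Place κ Eκ) : c.R K τ →ₐ[K] (plV K τ).toSubalgebra :=
  ((c.redG K).comp (c.toG K τ)).codRestrict (plV K τ).toSubalgebra fun x =>
    (c.𝓡.R_ρ_mem K c.hA x.2).choose_spec

theorem val_comp_toPl (τ : Place κ Eκ) :
    (plV K τ).toSubalgebra.val.comp (c.toPl K τ) = (c.redG K).comp (c.toG K τ) := rfl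

theorem coe_toPl (τ : Place κ Eκ) (x : c.R K τ) :
    ((c.toPl K τ x : (plV K τ).toSubalgebra) : Eκ) = c.redG K (c.toG K τ x) := rfl

/-- inclusion `R_τ → O_w` -/
def toPlw {τ : Place κ Eκ} {w : Place k₁ E₁} (h : c.𝓡.r w = τ) :
    c.R K τ →ₐ[K] (plV K w).toSubalgebra :=
  Subalgebra.inclusion fun _ hf => (c.𝓡.comp_of_mem_R K c.hA c.loc h hf).mem_place

@[simp] theorem coe_toPlw {τ : Place κ Eκ} {w : Place k₁ E₁} (h : c.𝓡.r w = τ) (x : c.R K τ) :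
    ((c.toPlw K h x : _) : E₁) = x := rfl

/-- reduction `R_τ → A` along `w` -/
def toA {τ : Place κ Eκ} {w : Place k₁ E₁} (h : c.𝓡.r w = τ) :
    c.R K τ →ₐ[K] (c.vA K).toSubalgebra :=
  ((rsd K w).comp (c.toPlw K h)).codRestrict (c.vA K).toSubalgebra fun x => by
    obtain ⟨h1, a, h2, h3⟩ := c.𝓡.comp_of_mem_R K c.hA c.loc h x.2
    have h4 : rsd K w (c.toPlw K h x) = a := rsd_eq K w h2
    change rsd K w (c.toPlw K h x) ∈ c.A
    rw [h4]
    exact a.2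

theorem val_comp_toA {τ : Place κ Eκ} {w : Place k₁ E₁} (h : c.𝓡.r w = τ) :
    (c.vA K).toSubalgebra.val.comp (c.toA K h) = (rsd K w).comp (c.toPlw K h) := rfl

theorem coe_toA {τ : Place κ Eκ} {w : Place k₁ E₁} (h : c.𝓡.r w = τ) (x : c.R K τ) :
    ((c.toA K h x : (c.vA K).toSubalgebra) : k₁) = rsd K w (c.toPlw K h x) := rfl

/-- `S_τ → R_τ` -/
def fromS (τ : Place κ Eκ) : (c.S K τ).toSubalgebra →ₐ[K] c.R K τ :=
  ((IsScalarTower.toAlgHom K E E₁).comp (c.S K τ).toSubalgebra.val).codRestrict _ fun x =>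
    c.𝓡.fun_mem_R K x.2

@[simp] theorem coe_fromS (τ : Place κ Eκ) (x : (c.S K τ).toSubalgebra) :
    ((c.fromS K τ x : c.R K τ) : E₁) = algebraMap E E₁ x := rfl

/-- `A → R_τ` -/
def fromA (τ : Place κ Eκ) : (c.vA K).toSubalgebra →ₐ[K] c.R K τ :=
  ((IsScalarTower.toAlgHom K k₁ E₁).comp (c.vA K).toSubalgebra.val).codRestrict _ fun x =>
    c.𝓡.const_mem_R K x.2

@[simp] theorem coe_fromA (τ : Place κ Eκ) (x : (c.vA K).toSubalgebra) :
    ((c.fromA K τ x : c.R K τ) : E₁) = algebraMap k₁ E₁ x := rfl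

theorem isLocalHom_toPl (τ : Place κ Eκ) : IsLocalHom (c.toPl K τ).toRingHom := by
  refine ⟨fun x hx => ?_⟩
  obtain ⟨hG, hτ⟩ := c.𝓡.R_ρ_mem K c.hA x.2
  have h0 : c.𝓡.ρ ⟨(x : E₁), hG⟩ ≠ 0 ∧ (c.𝓡.ρ ⟨(x : E₁), hG⟩)⁻¹ ∈ τ.toValuationSubring :=
    (VSub.isUnit_iff (plV K τ)).mp hx
  have h1 : τ.adicValuation (c.𝓡.ρ ⟨(x : E₁), hG⟩) = 1 := by
    apply le_antisymm ((mem_iff_adicValuation_le_one τ).mp hτ)
    have h2 := (mem_iff_adicValuation_le_one τ).mp h0.2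
    rw [map_inv₀] at h2
    exact (inv_le_one₀ (zero_lt_iff.mpr ((Valuation.ne_zero_iff _).mpr h0.1))).mp h2
  have hu : c.𝓡.UnitAt τ (x : E₁) := ⟨hG, h1⟩
  exact IsUnit.of_mul_eq_one ⟨(x : E₁)⁻¹, c.𝓡.inv_mem_R K c.hA x.2 hu⟩
    (Subtype.ext (mul_inv_cancel₀ hu.ne_zero))

instance isLocalRing_R (τ : Place κ Eκ) : IsLocalRing (c.R K τ) :=
  have := c.isLocalHom_toPl K τ
  (c.toPl K τ).toRingHom.domain_isLocalRing

theorem redG_comp_toG_comp_fromS (τ : Place κ Eκ) :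
    (c.redG K).comp ((c.toG K τ).comp (c.fromS K τ)) =
      (IsScalarTower.toAlgHom K E Eκ).comp (c.S K τ).toSubalgebra.val := by
  ext x
  change c.𝓡.ρ ⟨algebraMap E E₁ x, _⟩ = algebraMap E Eκ x
  rw [c.𝓡.ρ_fun]

theorem redG_comp_toG_comp_fromA (τ : Place κ Eκ) :
    (c.redG K).comp ((c.toG K τ).comp (c.fromA K τ)) =
      (IsScalarTower.toAlgHom K κ Eκ).comp (c.redA K) := by
  ext x
  change c.𝓡.ρ ⟨algebraMap k₁ E₁ x, _⟩ = algebraMap κ Eκ (c.π ⟨x, x.2⟩)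
  exact c.𝓡.ρ_const ⟨x, x.2⟩

theorem toA_comp_fromA {τ : Place κ Eκ} {w : Place k₁ E₁} (h : c.𝓡.r w = τ) :
    (c.toA K h).comp (c.fromA K τ) = AlgHom.id K _ := by
  ext x
  change rsd K w (c.toPlw K h (c.fromA K τ x)) = x
  refine rsd_eq K w ?_
  rw [coe_toPlw, coe_fromA, sub_self, map_zero]
  exact zero_lt_one

/-- the element of `R_τ` whose image in `A` along `w` is a unit is a unit -/
theorem isUnit_iff_unitAt {τ : Place κ Eκ} {x : c.R K τ} :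
    IsUnit x ↔ c.𝓡.UnitAt τ (x : E₁) := by
  constructor
  · intro hx
    have h2 : IsUnit (c.toPl K τ x) := hx.map (c.toPl K τ)
    obtain ⟨h0, h3⟩ := (VSub.isUnit_iff (plV K τ)).mp h2
    obtain ⟨hG, hτ⟩ := c.𝓡.R_ρ_mem K c.hA x.2
    refine ⟨hG, le_antisymm ((mem_iff_adicValuation_le_one τ).mp hτ) ?_⟩
    have h4 : (c.𝓡.ρ ⟨(x : E₁), hG⟩)⁻¹ ∈ τ.toValuationSubring := h3
    have h2 := (mem_iff_adicValuation_le_one τ).mp h4
    rw [map_inv₀] at h2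
    exact (inv_le_one₀ (zero_lt_iff.mpr ((Valuation.ne_zero_iff _).mpr h0))).mp h2
  · intro hu
    exact IsUnit.of_mul_eq_one ⟨(x : E₁)⁻¹, c.𝓡.inv_mem_R K c.hA x.2 hu⟩
      (Subtype.ext (mul_inv_cancel₀ hu.ne_zero))

end RedCtx

end Fermat.Agent.H26
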