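import Mathlib
import Fermat.Agent.H26Red4
import Fermat.Agent.H26Pt

/-!
# Specialisation of divisors of points (helper26, S26)
-/

set_option autoImplicit false
set_option linter.unusedSectionVars false

noncomputable section

open AlgebraicCurve WithZero Fermat.Agent.H3RR

namespace Fermat.Agent.H26

universe u

theorem mapDomain_congr_fiber {α β : Type*} (r : α → β) (D D' : α →₀ ℤ) (b : β)
    (h : ∀ a, r a = b → D a = D' a) : Finsupp.mapDomain r D b = Finsupp.mapDomain r D' b := by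
  classical
  have h1 : Finsupp.mapDomain r (D - D') b = 0 := by
    rw [mapDomain_apply_sum]
    refine Finset.sum_eq_zero fun a ha => ?_
    have := (Finset.mem_filter.mp ha).2
    rw [Finsupp.sub_apply, h a this, sub_self]
  have h2 : Finsupp.mapDomain r (D - D') = Finsupp.mapDomain r D - Finsupp.mapDomain r D' :=
    map_sub (Finsupp.mapDomain.addMonoidHom r) D D'
  rw [h2, Finsupp.sub_apply, sub_eq_zero] at h1
  exact h1

namespace RedCtx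

open AV

variable {K : Type u} [Field K] {𝒜 : AV K}
variable {k k₁ κ E E₁ Eκ : Type u} [Field k] [Field k₁] [Field κ] [Field E]
    [Field E₁] [Field Eκ] [Algebra k k₁] [Algebra k E] [Algebra k₁ E₁] [Algebra E E₁]
    [Algebra k E₁] [IsScalarTower k k₁ E₁] [IsScalarTower k E E₁] [IsCE k k₁ E E₁]
    [Algebra k κ] [Algebra κ Eκ] [Algebra E Eκ] [Algebra k Eκ]
    [IsScalarTower k κ Eκ] [IsScalarTower k E Eκ] [IsCE k κ E Eκ]
    [IsAlgClosed k] [IsAlgClosed k₁] [IsAlgClosed κ] [IsFF k E] [IsFF k₁ E₁] [IsFF κ Eκ]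
    [Algebra K k] [Algebra K k₁] [Algebra K κ] [Algebra K E] [Algebra K E₁] [Algebra K Eκ]
    [IsScalarTower K k k₁] [IsScalarTower K k κ] [IsScalarTower K k E] [IsScalarTower K k₁ E₁]
    [IsScalarTower K E E₁] [IsScalarTower K κ Eκ] [IsScalarTower K E Eκ]
    (c : RedCtx k k₁ κ E E₁ Eκ)

/-- specialisation of constant points -/
def sp (P : 𝒜.Pt k₁) : 𝒜.Pt κ := redAt (c.vA K) (c.redA K) P

theorem sp_add (P Q : 𝒜.Pt k₁) : c.sp (P + Q) = c.sp P + c.sp Q := redAt_add _ _ _ _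

theorem sp_const (P : 𝒜.Pt k) :
    c.sp (𝒜.map (IsScalarTower.toAlgHom K k k₁) P) = 𝒜.map (IsScalarTower.toAlgHom K k κ) P := by
  let j : k →ₐ[K] (c.vA K).toSubalgebra :=
    (IsScalarTower.toAlgHom K k k₁).codRestrict (c.vA K).toSubalgebra c.hA
  have h1 := redAt_const (c.vA K) (c.redA K) j P
  have h2 : (c.vA K).toSubalgebra.val.comp j = IsScalarTower.toAlgHom K k k₁ := rfl
  have h3 : (c.redA K).comp j = IsScalarTower.toAlgHom K k κ := AlgHom.ext fun x => c.hπ x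
  rw [h2, h3] at h1
  exact h1

/-- `Z ∈ 𝒜(E₁)` specialises to `Zb ∈ 𝒜(Eκ)`. -/
def Spec (Z : 𝒜.Pt E₁) (Zb : 𝒜.Pt Eκ) : Prop :=
  ∀ τ : Place κ Eκ, ∃ Y : 𝒜.Pt (c.R K τ), 𝒜.map (c.R K τ).val Y = Z ∧
    𝒜.map ((c.redG K).comp (c.toG K τ)) Y = Zb

variable {c}

theorem Spec.add {Z Z' : 𝒜.Pt E₁} {Zb Zb' : 𝒜.Pt Eκ} (h : c.Spec Z Zb) (h' : c.Spec Z' Zb') :
    c.Spec (Z + Z') (Zb + Zb') := by
  intro τ
  obtain ⟨Y, h1, h2⟩ := h τ
  obtain ⟨Y', h1', h2'⟩ := h' τ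
  exact ⟨Y + Y', by rw [map_add, h1, h1'], by rw [map_add, h2, h2']⟩

theorem Spec.neg {Z : 𝒜.Pt E₁} {Zb : 𝒜.Pt Eκ} (h : c.Spec Z Zb) : c.Spec (-Z) (-Zb) := by
  intro τ
  obtain ⟨Y, h1, h2⟩ := h τ
  exact ⟨-Y, by rw [map_neg, h1], by rw [map_neg, h2]⟩

variable (c)

theorem spec_fun (X : 𝒜.Pt E) : c.Spec (𝒜.map (IsScalarTower.toAlgHom K E E₁) X)
    (𝒜.map (IsScalarTower.toAlgHom K E Eκ) X) := by
  intro τ
  refine ⟨𝒜.map (c.fromS K τ) (𝒜.lift (c.S K τ) X), ?_, ?_⟩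
  · rw [map_map]
    have : (c.R K τ).val.comp (c.fromS K τ) =
      (IsScalarTower.toAlgHom K E E₁).comp (c.S K τ).toSubalgebra.val := rfl
    rw [this, ← map_map, map_lift]
  · rw [map_map, AlgHom.comp_assoc, c.redG_comp_toG_comp_fromS K, ← map_map, map_lift]

theorem spec_const (P : 𝒜.Pt k₁) : c.Spec (𝒜.map (IsScalarTower.toAlgHom K k₁ E₁) P)
    (𝒜.map (IsScalarTower.toAlgHom K κ Eκ) (c.sp P)) := by
  intro τ
  refine ⟨𝒜.map (c.fromA K τ) (𝒜.lift (c.vA K) P), ?_, ?_⟩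
  · rw [map_map]
    have : (c.R K τ).val.comp (c.fromA K τ) =
      (IsScalarTower.toAlgHom K k₁ E₁).comp (c.vA K).toSubalgebra.val := rfl
    rw [this, ← map_map, map_lift]
  · rw [map_map, AlgHom.comp_assoc, c.redG_comp_toG_comp_fromA K, ← map_map]
    rfl

section facts

variable {Z : 𝒜.Pt E₁} {Zb : 𝒜.Pt Eκ} {τ : Place κ Eκ} {Y : 𝒜.Pt (c.R K τ)}
  (hY : 𝒜.map (c.R K τ).val Y = Z) (hYb : 𝒜.map ((c.redG K).comp (c.toG K τ)) Y = Zb)

include hY in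
theorem map_toG : 𝒜.map (c.toG K τ) Y = 𝒜.lift (c.GK K) Z := by
  symm
  apply lift_eq_of_map_eq
  rw [map_map, ← hY]
  rfl

include hY hYb in
theorem map_redG_lift : 𝒜.map (c.redG K) (𝒜.lift (c.GK K) Z) = Zb := by
  rw [← c.map_toG hY, map_map, hYb]

include hYb in
theorem map_toPl : 𝒜.map (c.toPl K τ) Y = liftP Zb τ := by
  symm
  apply lift_eq_of_map_eq
  rw [map_map, c.val_comp_toPl K τ, hYb]

include hY in
theorem map_toPlw {w : Place k₁ E₁} (h : c.𝓡.r w = τ) : 𝒜.map (c.toPlw K h) Y = liftP Z w := by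
  symm
  apply lift_eq_of_map_eq
  rw [map_map, ← hY]
  rfl

include hY in
theorem map_toA {w : Place k₁ E₁} (h : c.𝓡.r w = τ) :
    𝒜.map (c.toA K h) Y = 𝒜.lift (c.vA K) (redAt (plV K w) (rsd K w) Z) := by
  symm
  apply lift_eq_of_map_eq
  rw [map_map, c.val_comp_toA K h, ← map_map, c.map_toPlw hY h]
  rfl

end facts

variable {c}

/-- **Specialisation of divisors** -/
theorem push_pull (D : 𝒜.CDiv) {Z : 𝒜.Pt E₁} {Zb : 𝒜.Pt Eκ} (hZ : c.Spec Z Zb) :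
    LinEq (c.push (D.pull k₁ Z)) (D.pull κ Zb) := by
  classical
  choose Y hY hYb using hZ
  set b := D.eqn (𝒜.dom (𝒜.lift (c.GK K) Z)) with hb
  set e := D.eqn (𝒜.dom Z) with he
  set eb := D.eqn (𝒜.dom Zb) with heb
  have hbe : 𝒜.UnitIn (𝒜.dom Z) (b / e) := D.unitIn_lift Z (c.GK K)
  obtain ⟨τ₀⟩ := exists_place κ Eκ
  have hZb : 𝒜.map (c.redG K) (𝒜.lift (c.GK K) Z) = Zb := c.map_redG_lift (hY τ₀) (hYb τ₀)
  have hbeb : 𝒜.UnitIn (𝒜.dom Zb) (b / eb) := by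
    have := D.unitIn_map (c.redG K) (𝒜.lift (c.GK K) Z)
    rwa [hZb] at this
  have hdomZb : 𝒜.dom (𝒜.lift (c.GK K) Z) ≤ 𝒜.dom Zb := by
    rw [← hZb]; exact dom_le_dom_map _ _
  set u := 𝒜.val Z (b / e) with hu
  set ub := 𝒜.val Zb (b / eb) with hub
  have hu0 : u ≠ 0 := val_unitIn_ne_zero hbe
  have hub0 : ub ≠ 0 := val_unitIn_ne_zero hbeb
  -- the local equations
  have hab : ∀ τ, 𝒜.UnitIn (𝒜.dom (𝒜.lift (c.GK K) Z)) (D.eqn (𝒜.dom (Y τ)) / b) := by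
    intro τ
    have := D.unitIn_map (c.toG K τ) (Y τ)
    rwa [c.map_toG (hY τ)] at this
  have key1 : ∀ τ (w : Place k₁ E₁), c.𝓡.r w = τ → D.pull k₁ Z w =
      w.ord (𝒜.val Z (D.eqn (𝒜.dom (Y τ)) / b)) + w.ord u := by
    intro τ w hw
    have h1 := D.unitIn_map (c.toPlw K hw) (Y τ)
    rw [c.map_toPlw (hY τ) hw] at h1
    have h2 := ord_val_eq_zero (k := k₁) h1
    have h3 : 𝒜.UnitIn (𝒜.dom Z) (D.eqn (𝒜.dom (liftP Z w)) / e) := D.unitIn_lift Z (plV K w)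
    have h4 := (hab τ).mono (dom_lift_le (c.GK K) Z)
    have h5 := h1.mono (dom_liftP_le Z w)
    rw [CDiv.pull_apply, CDiv.loc, ← Place.ord_mul _ (val_unitIn_ne_zero h4) hu0, hu,
      ← val_mul h4.2.1 hbe.2.1]
    have h6 : D.eqn (𝒜.dom (Y τ)) / b * (b / e) =
        (D.eqn (𝒜.dom (Y τ)) / D.eqn (𝒜.dom (liftP Z w))) *
          (D.eqn (𝒜.dom (liftP Z w)) / e) := by
      have := D.eqn_ne_zero (𝒜.dom (𝒜.lift (c.GK K) Z))
      have := D.eqn_ne_zero (𝒜.dom (liftP Z w))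
      rw [hb]
      field_simp
    rw [h6, val_mul h5.2.1 h3.2.1, Place.ord_mul _ (val_unitIn_ne_zero h5)
      (val_unitIn_ne_zero h3), h2, zero_add]
  have key2 : ∀ τ : Place κ Eκ, D.pull κ Zb τ =
      τ.ord (𝒜.val Zb (D.eqn (𝒜.dom (Y τ)) / b)) + τ.ord ub := by
    intro τ
    have h1 := D.unitIn_map (c.toPl K τ) (Y τ)
    rw [c.map_toPl (hYb τ)] at h1
    have h2 := ord_val_eq_zero (k := κ) h1
    have h3 : 𝒜.UnitIn (𝒜.dom Zb) (D.eqn (𝒜.dom (liftP Zb τ)) / eb) := D.unitIn_lift Zb (plV K τ)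
    have h4 := (hab τ).mono hdomZb
    have h5 := h1.mono (dom_liftP_le Zb τ)
    rw [CDiv.pull_apply, CDiv.loc, ← Place.ord_mul _ (val_unitIn_ne_zero h4) hub0, hub,
      ← val_mul h4.2.1 hbeb.2.1]
    have h6 : D.eqn (𝒜.dom (Y τ)) / b * (b / eb) =
        (D.eqn (𝒜.dom (Y τ)) / D.eqn (𝒜.dom (liftP Zb τ))) *
          (D.eqn (𝒜.dom (liftP Zb τ)) / eb) := by
      have := D.eqn_ne_zero (𝒜.dom (𝒜.lift (c.GK K) Z))
      have := D.eqn_ne_zero (𝒜.dom (liftP Zb τ))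
      rw [hb]
      field_simp
    rw [h6, val_mul h5.2.1 h3.2.1, Place.ord_mul _ (val_unitIn_ne_zero h5)
      (val_unitIn_ne_zero h3), h2, zero_add]
  have key3 : c.push (D.pull k₁ Z - divOf u) = D.pull κ Zb - divOf ub := by
    ext τ
    -- the unit of the Gauss ring
    let W : (c.GK K).toSubalgebra := 𝒜.val (𝒜.lift (c.GK K) Z) (D.eqn (𝒜.dom (Y τ)) / b)
    have hW1 : (W : E₁) = 𝒜.val Z (D.eqn (𝒜.dom (Y τ)) / b) := val_lift _ _ (hab τ).2.1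
    have hW2 : c.redG K W = 𝒜.val Zb (D.eqn (𝒜.dom (Y τ)) / b) := by
      rw [← hZb, val_map (hab τ).2.1]
    have hW3 : c.𝓡.ρ ⟨(W : E₁), W.2⟩ = 𝒜.val Zb (D.eqn (𝒜.dom (Y τ)) / b) := hW2
    have hρ0 : c.𝓡.ρ ⟨(W : E₁), W.2⟩ ≠ 0 := by
      rw [hW3]; exact val_unitIn_ne_zero ((hab τ).mono hdomZb)
    have hW0 : (W : E₁) ≠ 0 := c.𝓡.ne_zero_of_ρ hρ0
    have h1 := c.𝓡.mapDomain_divOf hρ0
    have h2 : c.push (D.pull k₁ Z - divOf u) τ = Finsupp.mapDomain c.𝓡.r (divOf (W : E₁)) τ := by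
      refine mapDomain_congr_fiber _ _ _ _ fun w hw => ?_
      rw [Finsupp.sub_apply, key1 τ w hw, divOf_apply hu0, divOf_apply hW0, hW1]
      ring
    rw [h2, h1, divOf_apply hρ0, hW3, Finsupp.sub_apply, key2 τ, divOf_apply hub0]
    ring
  obtain ⟨g, hg, hgu⟩ := c.exists_push_divOf hu0
  rw [map_sub, hgu] at key3
  refine ⟨g / ub, div_ne_zero hg hub0, ?_⟩
  rw [divOf_div hg hub0]
  have : c.push (D.pull k₁ Z) = (c.push (D.pull k₁ Z) - divOf g) + divOf g := by abel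
  rw [this, key3]
  abel

theorem ht_eq (D : 𝒜.CDiv) {Z : 𝒜.Pt E₁} {Zb : 𝒜.Pt Eκ} (hZ : c.Spec Z Zb) :
    D.ht k₁ Z = D.ht κ Zb := by
  rw [CDiv.ht, ← c.degree_push, (push_pull D hZ).degree_eq, CDiv.ht]

end RedCtx

end Fermat.Agent.H26
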