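import Mathlib
import Fermat.Agent.H18Res
import Fermat.Agent.H3RR_Special
import Fermat.Agent.H26SP

/-!
# Existence of reductions; generic points (helper26, S26)
-/

set_option autoImplicit false
set_option linter.unusedSectionVars false

noncomputable section

open AlgebraicCurve WithZero Fermat.Agent.H3RR
open scoped TensorProduct

namespace Fermat.Agent.H26

universe u

/-! ### Existence of reductions -/

section exist

variable (K k k₁ E E₁ : Type u) [Field K] [Field k] [Field k₁] [Field E] [Field E₁]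
  [Algebra k k₁] [Algebra k E] [Algebra k₁ E₁] [Algebra E E₁]
  [Algebra k E₁] [IsScalarTower k k₁ E₁] [IsScalarTower k E E₁] [IsCE k k₁ E E₁]
  [IsAlgClosed k] [IsAlgClosed k₁] [IsFF k E]
  [Algebra K k] [Algebra K k₁] [Algebra K E] [Algebra K E₁]
  [IsScalarTower K k k₁] [IsScalarTower K k E] [IsScalarTower K k₁ E₁] [IsScalarTower K E E₁]

/-- reductions along a given valuation ring -/
theorem exists_redCtx (A : ValuationSubring k₁) (hA : ∀ c : k, algebraMap k k₁ c ∈ A) :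
    ∃ (κ Eκ : Type u) (_ : Field κ) (_ : Field Eκ) (_ : Algebra k κ) (_ : Algebra κ Eκ)
      (_ : Algebra E Eκ) (_ : Algebra k Eκ) (_ : IsScalarTower k κ Eκ) (_ : IsScalarTower k E Eκ)
      (_ : IsCE k κ E Eκ) (_ : IsAlgClosed κ) (_ : IsFF κ Eκ) (_ : Algebra K κ) (_ : Algebra K Eκ)
      (_ : IsScalarTower K k κ) (_ : IsScalarTower K κ Eκ) (_ : IsScalarTower K E Eκ)
      (c : RedCtx k k₁ κ E E₁ Eκ), c.A = A := by
  classical
  let κ := IsLocalRing.ResidueField A
  let π : A →+* κ := IsLocalRing.residue A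
  have hac : IsAlgClosed κ := H18.isAlgClosed_residueField A
  let i : k →+* A := (algebraMap k k₁).codRestrict A.toSubring hA
  let a1 : Algebra k κ := (π.comp i).toAlgebra
  let a2 : Algebra K κ := ((π.comp i).comp (algebraMap K k)).toAlgebra
  have t1 : IsScalarTower K k κ := IsScalarTower.of_algebraMap_eq fun c => rfl
  obtain ⟨Eκ, f1, b1, b2, b3, b4, s1, s2, s3, s4, s5, hCE⟩ := exists_CE K k κ E
  have hFF : IsFF κ Eκ := IsCE.isFF k κ E Eκ
  have hπs : Function.Surjective π := IsLocalRing.residue_surjective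
  have hπl : ∀ a, π a = 0 ↔ ¬ IsUnit a := fun a => by
    rw [IsLocalRing.residue_eq_zero_iff, IsLocalRing.mem_maximalIdeal, mem_nonunits_iff]
  have hπ : ∀ c : k, π ⟨algebraMap k k₁ c, hA c⟩ = algebraMap k κ c := fun c => rfl
  obtain ⟨𝓡⟩ := exists_reduction k k₁ κ E E₁ Eκ A π hπs hπl hA hπ
  exact ⟨κ, Eκ, inferInstance, f1, a1, b3, b4, b2, s4, s5, hCE, hac, hFF, a2, b1, t1, s2, s3,
    ⟨A, π, hπs, hπl, hA, hπ, 𝓡⟩, rfl⟩

/-- A valuation ring of `L` dominating the kernel of an augmentation of a subring. -/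
theorem exists_valuationSubring_of_algHom {k L T : Type*} [Field k] [Field L] [Algebra k L]
    [CommRing T] [Algebra k T] (f : T →ₐ[k] L) (hf : Function.Injective f) (χ : T →ₐ[k] k) :
    ∃ A : ValuationSubring L, (∀ t, f t ∈ A) ∧ ∀ t, χ t = 0 → f t ∈ A.nonunits := by
  let e : T ≃+* f.toRingHom.range := RingEquiv.ofBijective f.toRingHom.rangeRestrict
    ⟨fun x y h => hf (congrArg Subtype.val h), f.toRingHom.rangeRestrict_surjective⟩
  let I : Ideal f.toRingHom.range := (RingHom.ker χ).comap e.symm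
  have hI : I ≠ ⊤ := by
    intro h
    have h1 : (1 : f.toRingHom.range) ∈ I := h ▸ Submodule.mem_top
    rw [Ideal.mem_comap, map_one, RingHom.mem_ker, map_one] at h1
    exact one_ne_zero h1
  obtain ⟨A, hA1, hA2⟩ := Ideal.image_subset_nonunits_valuationSubring I hI
  refine ⟨A, fun t => hA1 ⟨t, rfl⟩, fun t ht => hA2 ⟨e t, ?_, rfl⟩⟩
  rw [SetLike.mem_coe, Ideal.mem_comap, RingEquiv.symm_apply_apply]
  exact ht

/-- reductions along an augmentation -/
theorem exists_redCtx_of_algHom (T : Type u) [CommRing T] [Algebra k T] (f : T →ₐ[k] k₁)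
    (hf : Function.Injective f) (χ : T →ₐ[k] k) :
    ∃ (κ Eκ : Type u) (_ : Field κ) (_ : Field Eκ) (_ : Algebra k κ) (_ : Algebra κ Eκ)
      (_ : Algebra E Eκ) (_ : Algebra k Eκ) (_ : IsScalarTower k κ Eκ) (_ : IsScalarTower k E Eκ)
      (_ : IsCE k κ E Eκ) (_ : IsAlgClosed κ) (_ : IsFF κ Eκ) (_ : Algebra K κ) (_ : Algebra K Eκ)
      (_ : IsScalarTower K k κ) (_ : IsScalarTower K κ Eκ) (_ : IsScalarTower K E Eκ)
      (c : RedCtx k k₁ κ E E₁ Eκ),
      ∀ t, ∃ h : f t ∈ c.A, c.π ⟨f t, h⟩ = algebraMap k κ (χ t) := by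
  obtain ⟨A, hA1, hA2⟩ := exists_valuationSubring_of_algHom f hf χ
  have hA : ∀ c : k, algebraMap k k₁ c ∈ A := fun c => by
    rw [← f.commutes]; exact hA1 _
  obtain ⟨κ, Eκ, i1, i2, i3, i4, i5, i6, i7, i8, i9, i10, i11, i12, i13, i14, i15, i16, c, hc⟩ :=
    exists_redCtx K k k₁ E E₁ A hA
  refine ⟨κ, Eκ, i1, i2, i3, i4, i5, i6, i7, i8, i9, i10, i11, i12, i13, i14, i15, i16, c,
    fun t => ?_⟩
  subst hc
  refine ⟨hA1 t, ?_⟩
  have h1 := hA2 (t - algebraMap k T (χ t)) (by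
    rw [map_sub, AlgHom.commutes, Algebra.algebraMap_self, RingHom.id_apply, sub_self])
  have h2 : c.π (⟨f t, hA1 t⟩ - ⟨algebraMap k k₁ (χ t), c.hA _⟩) = 0 := by
    rw [c.loc, ← mem_nonunits_iff, ← IsLocalRing.mem_maximalIdeal,
      ← ValuationSubring.coe_mem_nonunits_iff]
    rw [map_sub, AlgHom.commutes] at h1
    exact h1
  rw [map_sub, c.hπ, sub_eq_zero] at h2
  exact h2

end exist

namespace AV

variable {K : Type u} [Field K] {𝒜 : AV K}

/-! ### Generic points over an extension -/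

/-- `Y` is a generic point over the field `k` -/
structure GenOver (k : Type u) {k₁ : Type u} [Field k] [Field k₁] [Algebra K k] [Algebra K k₁]
    [Algebra k k₁] [IsScalarTower K k k₁] (Y : 𝒜.Pt k₁) : Prop where
  gen : IsGeneric Y
  linInd : ∀ {ι : Type u} (w : ι → 𝒜.F), LinearIndependent K w →
    LinearIndependent k fun i => 𝒜.val Y (w i)

theorem exists_genOver (𝒜 : AV K) (k : Type u) [IsAlgClosed K] [Field k] [Algebra K k] :
    ∃ (k₁ : Type u) (_ : Field k₁) (_ : Algebra k k₁) (_ : Algebra K k₁)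
      (_ : IsScalarTower K k k₁) (_ : IsAlgClosed k₁) (Y : 𝒜.Pt k₁), GenOver k Y := by
  obtain ⟨L, i1, i2, i3, i4, i5, i6, i7, i8, i9, i10, i11⟩ := exists_CE K K 𝒜.F k
  let k₁ := AlgebraicClosure L
  let β : 𝒜.F →ₐ[K] k₁ := (IsScalarTower.toAlgHom K L k₁).comp (IsScalarTower.toAlgHom K 𝒜.F L)
  have t1 : IsScalarTower K k k₁ := inferInstance
  refine ⟨k₁, inferInstance, inferInstance, inferInstance, t1, inferInstance, 𝒜.map β 𝒜.η,
    isGeneric_map_eta β, ?_⟩
  intro ι w hw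
  have h1 := IsCE.linInd' (k := K) (k' := 𝒜.F) (E := k) (E' := L) w hw
  have h2 : (fun i => 𝒜.val (𝒜.map β 𝒜.η) (w i)) =
      fun i => IsScalarTower.toAlgHom k L k₁ (algebraMap 𝒜.F L (w i)) := by
    funext i
    rw [val_map_eta]
    rfl
  rw [h2]
  exact h1.map' (IsScalarTower.toAlgHom k L k₁).toLinearMap
    (LinearMap.ker_eq_bot.mpr (IsScalarTower.toAlgHom k L k₁).toRingHom.injective)

end AV

namespace RedCtx

open AV

variable {K : Type u} [Field K] {𝒜 : AV K}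
variable {k k₁ κ E E₁ Eκ : Type u} [Field k] [Field k₁] [Field κ] [Field E]
    [Field E₁] [Field Eκ] [Algebra k k₁] [Algebra k E] [Algebra k₁ E₁] [Algebra E E₁]
    [Algebra k E₁] [IsScalarTower k k₁ E₁] [IsScalarTower k E E₁] [IsCE k k₁ E E₁]
    [Algebra k κ] [Algebra κ Eκ] [Algebra E Eκ] [Algebra k Eκ]
    [IsScalarTower k κ Eκ] [IsScalarTower k E Eκ] [IsCE k κ E Eκ]
    [IsAlgClosed k] [IsAlgClosed k₁] [IsAlgClosed κ] [IsFF k E] [IsFF k₁ E₁] [IsFF κ Eκ]
    [Algebra K k] [Algebra K k₁] [Algebra K κ] [Algebra K E] [Algebra K E₁] [Algebra K Eκ]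
    [IsScalarTower K k k₁] [IsScalarTower K k κ] [IsScalarTower K k E] [IsScalarTower K k₁ E₁]
    [IsScalarTower K E E₁] [IsScalarTower K κ Eκ] [IsScalarTower K E Eκ]
    (c : RedCtx k k₁ κ E E₁ Eκ)

theorem sp_of_algHom {T : Type u} [CommRing T] [Algebra K T] [Algebra k T] [IsScalarTower K k T]
    (f : T →ₐ[k] k₁) (χ : T →ₐ[k] k)
    (h : ∀ t, ∃ h : f t ∈ c.A, c.π ⟨f t, h⟩ = algebraMap k κ (χ t)) (Y : 𝒜.Pt T) :
    c.sp (𝒜.map (f.restrictScalars K) Y) =
      𝒜.map (IsScalarTower.toAlgHom K k κ) (𝒜.map (χ.restrictScalars K) Y) := by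
  let f' : T →ₐ[K] (c.vA K).toSubalgebra :=
    (f.restrictScalars K).codRestrict (c.vA K).toSubalgebra fun t => (h t).choose
  have h1 : 𝒜.lift (c.vA K) (𝒜.map (f.restrictScalars K) Y) = 𝒜.map f' Y := by
    apply lift_eq_of_map_eq
    rw [map_map]
    rfl
  rw [sp, redAt, h1, map_map, map_map]
  congr 1
  exact congrArg _ (AlgHom.ext fun t => (h t).choose_spec)

end RedCtx

namespace AV

variable {K : Type u} [Field K] {𝒜 : AV K}

section

variable (k k₁ E E₁ : Type u) [Field k] [Field k₁] [Field E] [Field E₁]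
  [Algebra k k₁] [Algebra k E] [Algebra k₁ E₁] [Algebra E E₁]
  [Algebra k E₁] [IsScalarTower k k₁ E₁] [IsScalarTower k E E₁] [IsCE k k₁ E E₁]
  [IsAlgClosed k] [IsAlgClosed k₁] [IsFF k E] [IsFF k₁ E₁]
  [Algebra K k] [Algebra K k₁] [Algebra K E] [Algebra K E₁]
  [IsScalarTower K k k₁] [IsScalarTower K k E] [IsScalarTower K k₁ E₁] [IsScalarTower K E E₁]

/-- **Specialisation of a generic point** to an arbitrary point, along with an auxiliary
augmented ring which is linearly disjoint from it. -/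
theorem exists_redCtx_spec (O : Type u) [CommRing O] [Algebra K O] [Algebra k O]
    [IsScalarTower K k O] (fO : O →ₐ[k] k₁) (χO : O →ₐ[k] k) {Y : 𝒜.Pt k₁} (hY : IsGeneric Y)
    (hdis : ∀ {ι : Type u} (w : ι → 𝒜.F), LinearIndependent K w → ∀ a : ι →₀ O,
      (a.sum fun i a => fO a * 𝒜.val Y (w i)) = 0 → a = 0) (P : 𝒜.Pt k) :
    ∃ (κ Eκ : Type u) (_ : Field κ) (_ : Field Eκ) (_ : Algebra k κ) (_ : Algebra κ Eκ)
      (_ : Algebra E Eκ) (_ : Algebra k Eκ) (_ : IsScalarTower k κ Eκ) (_ : IsScalarTower k E Eκ)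
      (_ : IsCE k κ E Eκ) (_ : IsAlgClosed κ) (_ : IsFF κ Eκ) (_ : Algebra K κ) (_ : Algebra K Eκ)
      (_ : IsScalarTower K k κ) (_ : IsScalarTower K κ Eκ) (_ : IsScalarTower K E Eκ)
      (c : RedCtx k k₁ κ E E₁ Eκ),
      c.sp Y = 𝒜.map (IsScalarTower.toAlgHom K k κ) P ∧
      ∀ a : O, ∃ h : fO a ∈ c.A, c.π ⟨fO a, h⟩ = algebraMap k κ (χO a) := by
  classical
  let T := O ⊗[K] (𝒜.dom P)
  let g : 𝒜.dom P →ₐ[K] k₁ := (evHom Y hY).comp (𝒜.dom P).val
  let f : T →ₐ[k] k₁ := Algebra.TensorProduct.lift fO g (fun _ _ => Commute.all _ _)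
  let χ : T →ₐ[k] k := Algebra.TensorProduct.lift χO (𝒜.ev P) (fun _ _ => Commute.all _ _)
  have hf : Function.Injective f := by
    rw [injective_iff_map_eq_zero]
    intro t ht
    let b := Module.Basis.ofVectorSpace K (𝒜.dom P)
    let ε : T ≃ₗ[K] (_ →₀ O) := TensorProduct.equivFinsuppOfBasisRight b
    have h1 : t = (ε t).sum fun i a => a ⊗ₜ[K] b i := by
      conv_lhs => rw [← ε.symm_apply_apply t, TensorProduct.equivFinsuppOfBasisRight_symm_apply]
    have hb : LinearIndependent K fun i => (b i : 𝒜.F) :=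
      b.linearIndependent.map' (𝒜.dom P).val.toLinearMap
        (LinearMap.ker_eq_bot.mpr Subtype.val_injective)
    have h2 := hdis (fun i => (b i : 𝒜.F)) hb (ε t) (by
      rw [← ht]
      conv_rhs => rw [h1]
      rw [Finsupp.sum, Finsupp.sum, map_sum]
      refine Finset.sum_congr rfl fun i _ => ?_
      rw [Algebra.TensorProduct.lift_tmul]
      rfl)
    exact (LinearEquiv.map_eq_zero_iff ε).mp h2
  obtain ⟨κ, Eκ, i1, i2, i3, i4, i5, i6, i7, i8, i9, i10, i11, i12, i13, i14, i15, i16, c, hc⟩ :=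
    exists_redCtx_of_algHom K k k₁ E E₁ T f hf χ
  refine ⟨κ, Eκ, i1, i2, i3, i4, i5, i6, i7, i8, i9, i10, i11, i12, i13, i14, i15, i16, c, ?_,
    fun a => ?_⟩
  · let inc : 𝒜.dom P →ₐ[K] T := Algebra.TensorProduct.includeRight
    have h1 := c.sp_of_algHom f χ hc (𝒜.map inc (𝒜.taut P))
    have h2 : (f.restrictScalars K).comp inc = g := by
      ext x
      change Algebra.TensorProduct.lift fO g (fun _ _ => Commute.all _ _) (1 ⊗ₜ x) = g x
      rw [Algebra.TensorProduct.lift_tmul, map_one, one_mul]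
    have h3 : (χ.restrictScalars K).comp inc = 𝒜.ev P := by
      ext x
      change Algebra.TensorProduct.lift χO (𝒜.ev P) (fun _ _ => Commute.all _ _) (1 ⊗ₜ x) = 𝒜.ev P x
      rw [Algebra.TensorProduct.lift_tmul, map_one, one_mul]
    rw [map_map, h2, map_map _ inc, h3, map_ev_taut] at h1
    rw [← h1, ← map_map, map_val_taut, map_evHom_eta]
  · obtain ⟨h, h'⟩ := hc (a ⊗ₜ 1)
    have h2 : f (a ⊗ₜ 1) = fO a := by
      change Algebra.TensorProduct.lift fO g (fun _ _ => Commute.all _ _) (a ⊗ₜ 1) = fO a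
      rw [Algebra.TensorProduct.lift_tmul, map_one, mul_one]
    have h3 : χ (a ⊗ₜ 1) = χO a := by
      change Algebra.TensorProduct.lift χO (𝒜.ev P) (fun _ _ => Commute.all _ _) (a ⊗ₜ 1) = χO a
      rw [Algebra.TensorProduct.lift_tmul, map_one, mul_one]
    have h4 : fO a ∈ c.A := h2 ▸ h
    refine ⟨h4, ?_⟩
    rw [← h3, ← h']
    congr 1
    exact Subtype.ext h2.symm

/-- specialisation of a generic point to an arbitrary point -/
theorem GenOver.exists_redCtx {Y : 𝒜.Pt k₁} (hY : GenOver k Y) (P : 𝒜.Pt k) :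
    ∃ (κ Eκ : Type u) (_ : Field κ) (_ : Field Eκ) (_ : Algebra k κ) (_ : Algebra κ Eκ)
      (_ : Algebra E Eκ) (_ : Algebra k Eκ) (_ : IsScalarTower k κ Eκ) (_ : IsScalarTower k E Eκ)
      (_ : IsCE k κ E Eκ) (_ : IsAlgClosed κ) (_ : IsFF κ Eκ) (_ : Algebra K κ) (_ : Algebra K Eκ)
      (_ : IsScalarTower K k κ) (_ : IsScalarTower K κ Eκ) (_ : IsScalarTower K E Eκ)
      (c : RedCtx k k₁ κ E E₁ Eκ),
      c.sp Y = 𝒜.map (IsScalarTower.toAlgHom K k κ) P := by
  obtain ⟨κ, Eκ, i1, i2, i3, i4, i5, i6, i7, i8, i9, i10, i11, i12, i13, i14, i15, i16, c, hc, -⟩ :=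
    exists_redCtx_spec k k₁ E E₁ k (Algebra.ofId k k₁) (AlgHom.id k k) hY.gen
      (fun w hw a ha => by
        have h1 := hY.linInd w hw
        rw [linearIndependent_iff] at h1
        refine h1 a ?_
        rw [Finsupp.linearCombination_apply, ← ha]
        exact Finsupp.sum_congr fun i _ => Algebra.smul_def _ _) P
  exact ⟨κ, Eκ, i1, i2, i3, i4, i5, i6, i7, i8, i9, i10, i11, i12, i13, i14, i15, i16, c, hc⟩

end

end AV

end Fermat.Agent.H26
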