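import Mathlib
import Fermat.Agent.H26CE6
import Fermat.Agent.H26Gen

/-!
# Rigidity: constancy of the height under translations, theorem of the square (helper26, S26)
-/

set_option autoImplicit false
set_option linter.unusedSectionVars false

noncomputable section

open AlgebraicCurve WithZero Fermat.Agent.H3RR

namespace Fermat.Agent.H26

universe u

namespace AV

variable {K : Type u} [Field K] {𝒜 : AV K}

theorem map_square {A B C D : Type u} [CommRing A] [CommRing B] [CommRing C] [CommRing D]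
    [Algebra K A] [Algebra K B] [Algebra K C] [Algebra K D] [Algebra A B] [Algebra A C]
    [Algebra B D] [Algebra C D] [Algebra A D] [IsScalarTower K A B] [IsScalarTower K A C]
    [IsScalarTower K B D] [IsScalarTower K C D] [IsScalarTower A B D] [IsScalarTower A C D]
    (P : 𝒜.Pt A) :
    𝒜.map (IsScalarTower.toAlgHom K B D) (𝒜.map (IsScalarTower.toAlgHom K A B) P) =
      𝒜.map (IsScalarTower.toAlgHom K C D) (𝒜.map (IsScalarTower.toAlgHom K A C) P) := by
  rw [map_map, map_map]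
  congr 2
  ext x
  change algebraMap B D (algebraMap A B x) = algebraMap C D (algebraMap A C x)
  rw [← IsScalarTower.algebraMap_apply, ← IsScalarTower.algebraMap_apply]

theorem map_tower {A B C : Type u} [CommRing A] [CommRing B] [CommRing C]
    [Algebra K A] [Algebra K B] [Algebra K C] [Algebra A B] [Algebra A C]
    [Algebra B C] [IsScalarTower K A B] [IsScalarTower K A C]
    [IsScalarTower K B C] [IsScalarTower A B C] (P : 𝒜.Pt A) :
    𝒜.map (IsScalarTower.toAlgHom K B C) (𝒜.map (IsScalarTower.toAlgHom K A B) P) =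
      𝒜.map (IsScalarTower.toAlgHom K A C) P := by
  rw [map_map]
  congr 2
  ext x
  exact (IsScalarTower.algebraMap_apply A B C x).symm

section

variable (k : Type u) {E : Type u} [Field k] [Field E] [Algebra K k] [Algebra K E] [Algebra k E]
  [IsScalarTower K k E]

/-- translation by a constant point -/
def tr (X : 𝒜.Pt E) (P : 𝒜.Pt k) : 𝒜.Pt E := X + 𝒜.map (IsScalarTower.toAlgHom K k E) P

@[simp] theorem tr_zero (X : 𝒜.Pt E) : tr k X 0 = X := by rw [tr, map_zero, add_zero]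

variable [IsAlgClosed k] [H3RR.IsFF k E]

/-- the height is invariant under constant translations -/
theorem ht_add_const [IsAlgClosed K] (D : 𝒜.CDiv) (X : 𝒜.Pt E) (P : 𝒜.Pt k) :
    D.ht k (X + 𝒜.map (IsScalarTower.toAlgHom K k E) P) = D.ht k X := by
  obtain ⟨k₁, i1, i2, i3, i4, i5, η, hη⟩ := exists_genOver 𝒜 k
  obtain ⟨E₁, f1, b1, b2, b3, b4, s1, s2, s3, s4, s5, hCE⟩ := exists_CE K k k₁ E
  have hFF : IsFF k₁ E₁ := IsCE.isFF k k₁ E E₁
  have key : ∀ P : 𝒜.Pt k, D.ht k₁ (𝒜.map (IsScalarTower.toAlgHom K E E₁) X +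
      𝒜.map (IsScalarTower.toAlgHom K k₁ E₁) η) =
      D.ht k (X + 𝒜.map (IsScalarTower.toAlgHom K k E) P) := by
    intro P
    obtain ⟨κ, Eκ, i1, i2, i3, i4, i5, i6, i7, i8, i9, i10, i11, i12, i13, i14, i15, i16, c, hc⟩ :=
      GenOver.exists_redCtx k k₁ E E₁ hη P
    have h1 := (c.spec_fun X).add (c.spec_const η)
    rw [RedCtx.ht_eq D h1, hc, map_square (A := k) (B := κ) (C := E) (D := Eκ), ← map_add,
      D.ht_CE (k := k)]
  have h0 := key 0
  rw [map_zero, add_zero] at h0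
  rw [← key P, h0]

/-- the divisor measuring the failure of additivity in translations -/
def CDiv.sq (D : 𝒜.CDiv) (X : 𝒜.Pt E) (P Q : 𝒜.Pt k) : Divisor k E :=
  D.pull k (tr k X (P + Q)) - D.pull k (tr k X P) - D.pull k (tr k X Q) + D.pull k (tr k X 0)

theorem CDiv.sq_zero_left (D : 𝒜.CDiv) (X : 𝒜.Pt E) (Q : 𝒜.Pt k) : D.sq k X 0 Q = 0 := by
  rw [CDiv.sq, zero_add]; abel

theorem CDiv.sq_zero_right (D : 𝒜.CDiv) (X : 𝒜.Pt E) (P : 𝒜.Pt k) : D.sq k X P 0 = 0 := by
  rw [CDiv.sq, add_zero]; abel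

theorem CDiv.degree_sq [IsAlgClosed K] (D : 𝒜.CDiv) (X : 𝒜.Pt E) (P Q : 𝒜.Pt k) :
    Divisor.degree (D.sq k X P Q) = 0 := by
  have h : ∀ P, Divisor.degree (D.pull k (tr k X P)) = D.ht k X := fun P => ht_add_const k D X P
  rw [CDiv.sq, map_add, map_sub, map_sub, h, h, h, h]
  ring

variable {k}
variable {k' E' : Type u} [Field k'] [Field E'] [Algebra K k'] [Algebra K E'] [Algebra k' E']
  [IsScalarTower K k' E'] [IsAlgClosed k'] [H3RR.IsFF k' E']
  [Algebra k k'] [Algebra E E'] [Algebra k E'] [IsScalarTower k k' E'] [IsScalarTower k E E']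
  [IsCE k k' E E'] [IsScalarTower K E E'] [IsScalarTower K k k']

omit [IsAlgClosed k] [H3RR.IsFF k E] [IsAlgClosed k'] [H3RR.IsFF k' E'] [IsCE k k' E E'] in
theorem map_tr (X : 𝒜.Pt E) (P : 𝒜.Pt k) :
    𝒜.map (IsScalarTower.toAlgHom K E E') (tr k X P) =
      tr k' (𝒜.map (IsScalarTower.toAlgHom K E E') X)
        (𝒜.map (IsScalarTower.toAlgHom K k k') P) := by
  rw [tr, tr, map_add, map_square (A := k) (B := E) (C := k') (D := E')]

theorem CDiv.sq_CE (D : 𝒜.CDiv) (X : 𝒜.Pt E) (P Q : 𝒜.Pt k) :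
    D.sq k' (𝒜.map (IsScalarTower.toAlgHom K E E') X) (𝒜.map (IsScalarTower.toAlgHom K k k') P)
      (𝒜.map (IsScalarTower.toAlgHom K k k') Q) = IsCE.con k' E' (D.sq k X P Q) := by
  have h0 : (0 : 𝒜.Pt k') = 𝒜.map (IsScalarTower.toAlgHom K k k') 0 := (map_zero _).symm
  rw [CDiv.sq, CDiv.sq, h0, ← map_add, ← map_tr, ← map_tr, ← map_tr, ← map_tr, D.pull_CE (k := k),
    D.pull_CE (k := k), D.pull_CE (k := k), D.pull_CE (k := k), map_add, map_sub, map_sub]

end

end AV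

namespace RedCtx

open AV

variable {K : Type u} [Field K] {𝒜 : AV K}
variable {k k₁ κ E E₁ Eκ : Type u} [Field k] [Field k₁] [Field κ] [Field E]
    [Field E₁] [Field Eκ] [Algebra k k₁] [Algebra k E] [Algebra k₁ E₁] [Algebra E E₁]
    [Algebra k E₁] [IsScalarTower k k₁ E₁] [IsScalarTower k E E₁] [IsCE k k₁ E E₁]
    [Algebra k κ] [Algebra κ Eκ] [Algebra E Eκ] [Algebra k Eκ]
    [IsScalarTower k κ Eκ] [IsScalarTower k E Eκ] [IsCE k κ E Eκ]
    [IsAlgClosed k] [IsAlgClosed k₁] [IsAlgClosed κ] [IsFF k E] [IsFF k₁ E₁] [IsFF κ Eκ]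
    [Algebra K k] [Algebra K k₁] [Algebra K κ] [Algebra K E] [Algebra K E₁] [Algebra K Eκ]
    [IsScalarTower K k k₁] [IsScalarTower K k κ] [IsScalarTower K k E] [IsScalarTower K k₁ E₁]
    [IsScalarTower K E E₁] [IsScalarTower K κ Eκ] [IsScalarTower K E Eκ]
    (c : RedCtx k k₁ κ E E₁ Eκ)

theorem spec_tr (X : 𝒜.Pt E) (P : 𝒜.Pt k₁) :
    c.Spec (tr k₁ (𝒜.map (IsScalarTower.toAlgHom K E E₁) X) P)
      (tr κ (𝒜.map (IsScalarTower.toAlgHom K E Eκ) X) (c.sp P)) :=
  (c.spec_fun X).add (c.spec_const P)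

theorem push_sq (D : 𝒜.CDiv) (X : 𝒜.Pt E) (P Q : 𝒜.Pt k₁) :
    LinEq (c.push (D.sq k₁ (𝒜.map (IsScalarTower.toAlgHom K E E₁) X) P Q))
      (D.sq κ (𝒜.map (IsScalarTower.toAlgHom K E Eκ) X) (c.sp P) (c.sp Q)) := by
  have h0 : (0 : 𝒜.Pt κ) = c.sp 0 := by
    have := c.sp_add (0 : 𝒜.Pt k₁) 0
    rw [add_zero] at this
    exact (left_eq_add.mp this).symm
  rw [CDiv.sq, CDiv.sq, map_add, map_sub, map_sub, h0, ← c.sp_add]
  exact (((push_pull D (c.spec_tr X _)).sub (push_pull D (c.spec_tr X _))).sub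
    (push_pull D (c.spec_tr X _))).add (push_pull D (c.spec_tr X _))

end RedCtx

end Fermat.Agent.H26
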