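import Mathlib
import Fermat.Agent.H26Rig

/-!
# Theorem of the square (helper26, S26)
-/

set_option autoImplicit false
set_option linter.unusedSectionVars false

noncomputable section

open AlgebraicCurve WithZero Fermat.Agent.H3RR

namespace Fermat.Agent.H26

universe u

namespace AV

variable {K : Type u} [Field K] {𝒜 : AV K}

section generic

variable (k k₁ k₂ E E₁ E₂ : Type u) [Field k] [Field k₁] [Field k₂] [Field E] [Field E₁]
    [Field E₂] [Algebra k k₁] [Algebra k₁ k₂] [Algebra k k₂] [IsScalarTower k k₁ k₂]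
    [Algebra E E₁] [Algebra E₁ E₂] [Algebra E E₂] [IsScalarTower E E₁ E₂]
    [Algebra k E] [Algebra k₁ E₁] [Algebra k₂ E₂] [Algebra k E₁] [Algebra k₁ E₂] [Algebra k E₂]
    [IsScalarTower k k₁ E₁] [IsScalarTower k E E₁] [IsScalarTower k₁ k₂ E₂]
    [IsScalarTower k₁ E₁ E₂] [IsScalarTower k k₂ E₂] [IsScalarTower k E E₂]
    [IsCE k k₁ E E₁] [IsCE k₁ k₂ E₁ E₂] [IsCE k k₂ E E₂]
    [IsAlgClosed k] [IsAlgClosed k₁] [IsAlgClosed k₂] [IsFF k E] [IsFF k₁ E₁] [IsFF k₂ E₂]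
    [Algebra K k] [Algebra K k₁] [Algebra K k₂] [Algebra K E] [Algebra K E₁] [Algebra K E₂]
    [IsScalarTower K k k₁] [IsScalarTower K k₁ k₂] [IsScalarTower K k k₂]
    [IsScalarTower K k E] [IsScalarTower K k₁ E₁] [IsScalarTower K k₂ E₂]
    [IsScalarTower K E E₁] [IsScalarTower K E₁ E₂] [IsScalarTower K E E₂]

/-- a place of `E₂` which is not constant over `E₁` does not occur in a divisor equivalent to
`sq + D₀` -/
theorem not_generic [IsAlgClosed K] (D : 𝒜.CDiv) (X : 𝒜.Pt E) {η₁ : 𝒜.Pt k₁} (h₁ : GenOver k η₁)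
    (η₂ : 𝒜.Pt k₂) {D₀ : Divisor k E} (hD₀ : 0 ≤ D₀) (hell : ell D₀ = 1) {𝓓 : Divisor k₂ E₂}
    (h𝓓 : 0 ≤ 𝓓)
    (hlin : LinEq 𝓓 (D.sq k₂ (𝒜.map (IsScalarTower.toAlgHom K E E₂) X)
      (𝒜.map (IsScalarTower.toAlgHom K k₁ k₂) η₁) η₂ + IsCE.con k₂ E₂ D₀))
    (w : Place k₂ E₂) (hw : ∀ e : E₁, algebraMap E₁ E₂ e ∈ w.toValuationSubring) : 𝓓 w = 0 := by
  classical
  by_contra hne
  have hpos : 0 < 𝓓 w := lt_of_le_of_ne (h𝓓 w) (Ne.symm hne)
  -- the embedding given by `w`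
  let j : E₁ →ₐ[k₁] k₂ := (rsd k₁ w).comp
    ((IsScalarTower.toAlgHom k₁ E₁ E₂).codRestrict (plV k₁ w).toSubalgebra hw)
  have hj : ∀ e, w.adicValuation (algebraMap E₁ E₂ e - algebraMap k₂ E₂ (j e)) < 1 := fun e =>
    adicValuation_sub_rsd k₁ w ⟨algebraMap E₁ E₂ e, hw e⟩
  have hjinj : Function.Injective j := j.toRingHom.injective
  -- a place of `E` outside the support of `D₀`
  obtain ⟨H, hH⟩ := Infinite.exists_notMem_finset D₀.support
  let O := (plV k H).toSubalgebra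
  let incl : O →ₐ[k] E := (plV k H).toSubalgebra.val
  let jk : E₁ →ₐ[k] k₂ := j.restrictScalars k
  let fO : O →ₐ[k] k₂ := (jk.comp (IsScalarTower.toAlgHom k E E₁)).comp incl
  have hfO : ∀ a : O, fO a = j (algebraMap E E₁ (a : E)) := fun a => rfl
  let χO : O →ₐ[k] k := rsd k H
  have hgen : IsGeneric (𝒜.map (IsScalarTower.toAlgHom K k₁ k₂) η₁) :=
    (isGeneric_map _).mpr h₁.gen
  have hdis : ∀ {ι : Type u} (v : ι → 𝒜.F), LinearIndependent K v → ∀ a : ι →₀ O,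
      (a.sum fun i a => fO a * 𝒜.val (𝒜.map (IsScalarTower.toAlgHom K k₁ k₂) η₁) (v i)) = 0 →
        a = 0 := by
    intro ι v hv a ha
    have h1 := IsCE.linInd' (k := k) (k' := k₁) (E := E) (E' := E₁) _ (h₁.linInd v hv)
    have h2 : j (∑ i ∈ a.support, (a i : E) • algebraMap k₁ E₁ (𝒜.val η₁ (v i))) = 0 := by
      rw [← ha, map_sum]
      refine Finset.sum_congr rfl fun i _ => ?_
      change _ = fO (a i) * 𝒜.val (𝒜.map (IsScalarTower.toAlgHom K k₁ k₂) η₁) (v i)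
      rw [Algebra.smul_def, map_mul, hfO, val_map_field, j.commutes]
      rfl
    have h3 := (map_eq_zero_iff j hjinj).mp h2
    ext i
    by_cases hi : i ∈ a.support
    · exact (linearIndependent_iff'.mp h1) _ _ h3 i hi
    · rw [Finsupp.notMem_support_iff.mp hi]
      rfl
  obtain ⟨κ, Eκ, i1, i2, i3, i4, i5, i6, i7, i8, i9, i10, i11, i12, i13, i14, i15, i16, c, hc,
    hcO⟩ := exists_redCtx_spec k k₂ E E₂ O fO χO hgen (fun v hv a => hdis v hv a) 0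
  -- the centre of `w`
  have hr : c.𝓡.r w = IsCE.pl κ Eκ H := by
    by_contra hne
    obtain ⟨x, hxt, hx1, hx2⟩ := H3S27.exists_only_pole H
    have hx0 : x ≠ 0 := transcendental_ne_zero hxt
    have hxτ : algebraMap E Eκ x ∈ (c.𝓡.r w).toValuationSubring := by
      rcases IsCE.generic_or_eq_pl (k := k) (E := E) (c.𝓡.r w) with hw' | ⟨c', hc'⟩
      · exact hw' x
      · rw [hc'] at hne ⊢
        rw [IsCE.pl_toValuationSubring, IsCE.algebraMap_mem_plRing_iff,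
          mem_iff_adicValuation_le_one]
        exact hx2 c' (by rintro rfl; exact hne rfl)
    obtain ⟨a, ha1, ha2⟩ := c.𝓡.exists_residue hxτ
    have hja : j (algebraMap E E₁ x) = a := by
      refine eq_of_adicValuation_sub_lt w ?_ ha1
      have := hj (algebraMap E E₁ x)
      rwa [← IsScalarTower.algebraMap_apply] at this
    have hxinv : x⁻¹ ∈ (plV k H).toSubalgebra := by
      rw [mem_plV, mem_iff_adicValuation_le_one, map_inv₀]
      exact inv_le_one_of_one_le₀ hx1.le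
    obtain ⟨h3, h4⟩ := hcO ⟨x⁻¹, hxinv⟩
    have h5 : χO ⟨x⁻¹, hxinv⟩ = 0 := by
      rw [rsd_eq_zero_iff]
      change H.adicValuation x⁻¹ < 1
      rw [map_inv₀]
      exact inv_lt_one_of_one_lt₀ hx1
    rw [h5, map_zero] at h4
    have h6 : (⟨fO ⟨x⁻¹, hxinv⟩, h3⟩ : c.A) * a = 1 := by
      apply Subtype.ext
      change fO ⟨x⁻¹, hxinv⟩ * (a : k₂) = 1
      rw [hfO, ← hja, ← map_mul, ← map_mul, inv_mul_cancel₀ hx0, map_one, map_one]
    have h7 := congrArg c.π h6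
    rw [map_mul, h4, zero_mul, map_one] at h7
    exact zero_ne_one h7
  -- specialise the linear equivalence
  have h1 := c.push_linEq hlin
  rw [map_add, c.push_con] at h1
  have h2 := h1.trans ((c.push_sq D X _ _).add (LinEq.refl _))
  rw [hc, map_zero, CDiv.sq_zero_left, zero_add] at h2
  have h3 : c.push 𝓓 = IsCE.con κ Eκ D₀ :=
    eq_of_linEq_of_ell_le_one (c.push_nonneg h𝓓) (IsCE.con_nonneg hD₀) h2
      (by rw [IsCE.ell_con, hell])
  have h4 : 0 < c.push 𝓓 (c.𝓡.r w) := mapDomain_pos _ _ _ (fun v _ => h𝓓 v) rfl hpos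
  rw [h3, hr, IsCE.con_pl, Finsupp.notMem_support_iff.mp hH] at h4
  exact lt_irrefl _ h4

include E₁ in
/-- the theorem of the square for two independent generic points -/
theorem square_generic [IsAlgClosed K] (D : 𝒜.CDiv) (X : 𝒜.Pt E) {η₁ : 𝒜.Pt k₁}
    (h₁ : GenOver k η₁) {η₂ : 𝒜.Pt k₂} (h₂ : GenOver k₁ η₂) :
    LinEq (D.sq k₂ (𝒜.map (IsScalarTower.toAlgHom K E E₂) X)
      (𝒜.map (IsScalarTower.toAlgHom K k₁ k₂) η₁) η₂) 0 := by
  classical
  obtain ⟨R, hRc, -, -, hR⟩ := exists_nonspecial (K := k) (F := E) ∅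
  set D₀ : Divisor k E := redDiv R with hD₀def
  have hD₀ : 0 ≤ D₀ := redDiv_nonneg R
  set M := D.sq k₂ (𝒜.map (IsScalarTower.toAlgHom K E E₂) X)
      (𝒜.map (IsScalarTower.toAlgHom K k₁ k₂) η₁) η₂ with hM
  have hg : genusFF k₂ E₂ = genusFF k E := IsCE.genus_eq k k₂ E E₂
  have hdeg : Divisor.degree (M + IsCE.con k₂ E₂ D₀) = genusFF k₂ E₂ := by
    rw [map_add, hM, CDiv.degree_sq, IsCE.degree_con, hD₀def, degree_redDiv, hRc, hg, zero_add]
  have hell : 0 < ell (M + IsCE.con k₂ E₂ D₀) := by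
    have h1 := riemann_inequality (M + IsCE.con k₂ E₂ D₀)
    rw [hdeg] at h1
    omega
  obtain ⟨𝓓, h𝓓, hlin⟩ := H26.exists_effective hell
  have hsupp : ∀ w, 𝓓 w ≠ 0 → ∃ c : Place k₁ E₁, w = IsCE.pl k₂ E₂ c := by
    intro w hw
    rcases IsCE.generic_or_eq_pl (k := k₁) (E := E₁) w with hw' | h
    · exact absurd (not_generic k k₁ k₂ E E₁ E₂ D X h₁ η₂ hD₀ hR h𝓓 hlin w hw') hw
    · exact h
  -- hence `𝓓` comes from `E₁`
  obtain ⟨𝓓₁, h𝓓₁⟩ : ∃ 𝓓₁ : Divisor k₁ E₁, IsCE.con k₂ E₂ 𝓓₁ = 𝓓 := by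
    refine ⟨Finsupp.comapDomain (IsCE.pl k₂ E₂) 𝓓 IsCE.pl_injective.injOn, ?_⟩
    refine Finsupp.mapDomain_comapDomain _ IsCE.pl_injective _ ?_
    intro w hw
    obtain ⟨c, hc⟩ := hsupp w (Finsupp.mem_support_iff.mp hw)
    exact ⟨c, hc.symm⟩
  have h𝓓₁nn : 0 ≤ 𝓓₁ := by
    intro v
    have := h𝓓 (IsCE.pl k₂ E₂ v)
    rwa [← h𝓓₁, IsCE.con_pl] at this
  -- specialise `η₂` to `0`
  obtain ⟨κ, Eκ, i1, i2, i3, i4, i5, i6, i7, i8, i9, i10, i11, i12, i13, i14, i15, i16, c, hc⟩ :=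
    GenOver.exists_redCtx k₁ k₂ E₁ E₂ h₂ 0
  have hX : 𝒜.map (IsScalarTower.toAlgHom K E E₂) X = 𝒜.map (IsScalarTower.toAlgHom K E₁ E₂)
      (𝒜.map (IsScalarTower.toAlgHom K E E₁) X) := (map_tower X).symm
  have hcon : IsCE.con k₂ E₂ D₀ = IsCE.con k₂ E₂ (IsCE.con k₁ E₁ D₀) := (IsCE.con_con D₀).symm
  rw [hM, hX, hcon, ← h𝓓₁] at hlin
  have h1 := c.push_linEq hlin
  rw [map_add, c.push_con, c.push_con] at h1
  have h2 := h1.trans ((c.push_sq D _ _ _).add (LinEq.refl _))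
  rw [hc, map_zero, CDiv.sq_zero_right, zero_add] at h2
  have h3 := IsCE.linEq_of_con (k := k₁) (E := E₁) h2
  have h4 : 𝓓₁ = IsCE.con k₁ E₁ D₀ :=
    eq_of_linEq_of_ell_le_one h𝓓₁nn (IsCE.con_nonneg hD₀) h3 (by rw [IsCE.ell_con, hR])
  rw [h4] at hlin
  have h5 := hlin.symm.sub (LinEq.refl (IsCE.con k₂ E₂ (IsCE.con k₁ E₁ D₀)))
  rw [add_sub_cancel_right, sub_self] at h5
  rw [hM, hX]
  exact h5

end generic

/-- **Theorem of the square.** -/
theorem square [IsAlgClosed K] (k : Type u) {E : Type u} [Field k] [Field E] [Algebra K k]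
    [Algebra K E] [Algebra k E] [IsScalarTower K k E] [IsAlgClosed k] [IsFF k E]
    (D : 𝒜.CDiv) (X : 𝒜.Pt E) (P Q : 𝒜.Pt k) : LinEq (D.sq k X P Q) 0 := by
  obtain ⟨k₁, i1, i2, i3, i4, i5, η₁, h₁⟩ := exists_genOver 𝒜 k
  obtain ⟨E₁, f1, b1, b2, b3, b4, s1, s2, s3, s4, s5, hCE⟩ := exists_CE K k k₁ E
  have hFF : IsFF k₁ E₁ := IsCE.isFF k k₁ E E₁
  obtain ⟨k₂, i1', i2', i3', i4', i5', η₂, h₂⟩ := exists_genOver 𝒜 k₁
  obtain ⟨E₂, f1', b1', b2', b3', b4', s1', s2', s3', s4', s5', hCE'⟩ := exists_CE K k₁ k₂ E₁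
  have hFF' : IsFF k₂ E₂ := IsCE.isFF k₁ k₂ E₁ E₂
  let a1 : Algebra k k₂ := ((algebraMap k₁ k₂).comp (algebraMap k k₁)).toAlgebra
  have t1 : IsScalarTower k k₁ k₂ := IsScalarTower.of_algebraMap_eq fun c => rfl
  have t2 : IsScalarTower K k k₂ := IsScalarTower.of_algebraMap_eq fun c => by
    rw [IsScalarTower.algebraMap_apply K k₁ k₂, IsScalarTower.algebraMap_apply K k k₁]
    rfl
  let a2 : Algebra E E₂ := ((algebraMap E₁ E₂).comp (algebraMap E E₁)).toAlgebra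
  let a3 : Algebra k E₂ := ((algebraMap k₁ E₂).comp (algebraMap k k₁)).toAlgebra
  have t3 : IsScalarTower E E₁ E₂ := IsScalarTower.of_algebraMap_eq fun c => rfl
  have t4 : IsScalarTower k k₂ E₂ := IsScalarTower.of_algebraMap_eq fun c => by
    change algebraMap k₁ E₂ (algebraMap k k₁ c) = algebraMap k₂ E₂ (algebraMap k₁ k₂ _)
    rw [← IsScalarTower.algebraMap_apply k₁ k₂ E₂]
  have t5 : IsScalarTower k E E₂ := IsScalarTower.of_algebraMap_eq fun c => by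
    change algebraMap k₁ E₂ (algebraMap k k₁ c) =
      algebraMap E₁ E₂ (algebraMap E E₁ (algebraMap k E c))
    rw [← IsScalarTower.algebraMap_apply k E E₁, IsScalarTower.algebraMap_apply k k₁ E₁,
      ← IsScalarTower.algebraMap_apply k₁ E₁ E₂]
  have t6 : IsScalarTower K E E₂ := IsScalarTower.of_algebraMap_eq fun c => by
    rw [IsScalarTower.algebraMap_apply K E₁ E₂, IsScalarTower.algebraMap_apply K E E₁]
    rfl
  have hCE2 : IsCE k k₂ E E₂ := IsCE.trans k k₁ k₂ E E₁ E₂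
  have hsq := square_generic k k₁ k₂ E E₁ E₂ D X h₁ h₂
  -- specialise `η₂` to `Q`
  have h1 : LinEq (D.sq k₁ (𝒜.map (IsScalarTower.toAlgHom K E E₁) X) η₁
      (𝒜.map (IsScalarTower.toAlgHom K k k₁) Q)) 0 := by
    obtain ⟨κ, Eκ, i1, i2, i3, i4, i5, i6, i7, i8, i9, i10, i11, i12, i13, i14, i15, i16, c, hc⟩ :=
      GenOver.exists_redCtx k₁ k₂ E₁ E₂ h₂ (𝒜.map (IsScalarTower.toAlgHom K k k₁) Q)
    have h2 := c.push_linEq hsq
    rw [map_zero, ← map_tower (A := E) (B := E₁) (C := E₂)] at h2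
    have h3 := (c.push_sq D (𝒜.map (IsScalarTower.toAlgHom K E E₁) X) _ _).symm.trans h2
    rw [hc, c.sp_const, CDiv.sq_CE] at h3
    exact IsCE.linEq_zero_of_con h3
  -- specialise `η₁` to `P`
  obtain ⟨κ, Eκ, i1, i2, i3, i4, i5, i6, i7, i8, i9, i10, i11, i12, i13, i14, i15, i16, c, hc⟩ :=
    GenOver.exists_redCtx k k₁ E E₁ h₁ P
  have h2 := c.push_linEq h1
  rw [map_zero] at h2
  have h3 := (c.push_sq D X _ _).symm.trans h2
  rw [hc, c.sp_const, CDiv.sq_CE] at h3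
  exact IsCE.linEq_zero_of_con h3

end AV

end Fermat.Agent.H26
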