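import Mathlib
import Fermat.Agent.H26Square

/-!
# Towards the cube: residues of local equations (helper26, S26)
-/

set_option autoImplicit false
set_option linter.unusedSectionVars false

noncomputable section

open AlgebraicCurve WithZero Fermat.Agent.H3RR

namespace Fermat.Agent.H26

universe u

/-! ### Residues of units -/

section Res

variable {k E : Type*} [Field k] [Field E] [Algebra k E] [IsAlgClosed k] [IsFF k E]

/-- `x` is a unit at `w` with residue `α` -/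
def Res (w : Place k E) (x : E) (α : k) : Prop :=
  α ≠ 0 ∧ w.adicValuation (x - algebraMap k E α) < 1

variable {w : Place k E} {x y : E} {α β : k}

theorem Res.val_eq_one (h : Res w x α) : w.adicValuation x = 1 := by
  have h5 : x = (x - algebraMap k E α) + algebraMap k E α := by ring
  have h6 := adicValuation_algebraMap w h.1
  rw [h5, Valuation.map_add_eq_of_lt_right _ (by rw [h6]; exact h.2), h6]

theorem Res.ne_zero (h : Res w x α) : x ≠ 0 := by
  rintro rfl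
  have := h.val_eq_one
  rw [map_zero] at this
  exact zero_ne_one this

theorem Res.ord_eq_zero (h : Res w x α) : w.ord x = 0 :=
  (adicValuation_eq_one_iff_ord w h.ne_zero).mp h.val_eq_one

theorem Res.mul (h : Res w x α) (h' : Res w y β) : Res w (x * y) (α * β) := by
  refine ⟨mul_ne_zero h.1 h'.1, ?_⟩
  have : x * y - algebraMap k E (α * β) =
      (x - algebraMap k E α) * y + algebraMap k E α * (y - algebraMap k E β) := by
    rw [map_mul]; ring
  rw [this]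
  refine lt_of_le_of_lt (Valuation.map_add _ _ _) (max_lt ?_ ?_)
  · rw [map_mul, h'.val_eq_one, mul_one]; exact h.2
  · rw [map_mul, adicValuation_algebraMap w h.1, one_mul]; exact h'.2

theorem res_const (hα : α ≠ 0) : Res w (algebraMap k E α) α :=
  ⟨hα, by rw [sub_self, map_zero]; exact zero_lt_one⟩

theorem Res.inv (h : Res w x α) : Res w x⁻¹ α⁻¹ := by
  refine ⟨inv_ne_zero h.1, ?_⟩
  have h0 := h.ne_zero
  have h6 : algebraMap k E α ≠ 0 := (_root_.map_ne_zero _).mpr h.1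
  have : x⁻¹ - algebraMap k E α⁻¹ =
      -((x - algebraMap k E α) * x⁻¹ * (algebraMap k E α)⁻¹) := by
    rw [map_inv₀]
    field_simp
    ring
  rw [this, Valuation.map_neg, map_mul, map_mul, map_inv₀, map_inv₀, h.val_eq_one,
    adicValuation_algebraMap w h.1]
  simpa using h.2

theorem res_one : Res w (1 : E) (1 : k) := by
  have := res_const (w := w) (E := E) (one_ne_zero (α := k))
  rwa [map_one] at this

theorem Res.pow (h : Res w x α) (n : ℕ) : Res w (x ^ n) (α ^ n) := by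
  induction n with
  | zero => rw [pow_zero, pow_zero]; exact res_one
  | succ n ih => rw [pow_succ, pow_succ]; exact ih.mul h

theorem Res.zpow (h : Res w x α) (n : ℤ) : Res w (x ^ n) (α ^ n) := by
  cases n with
  | ofNat n => simpa using h.pow n
  | negSucc n => rw [zpow_negSucc, zpow_negSucc]; exact (h.pow _).inv

theorem Res.prod {ι : Type*} (s : Finset ι) {f : ι → E} {a : ι → k}
    (h : ∀ i ∈ s, Res w (f i) (a i)) : Res w (∏ i ∈ s, f i) (∏ i ∈ s, a i) := by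
  classical
  induction s using Finset.induction_on with
  | empty => simpa using res_one
  | insert a s ha ih =>
    rw [Finset.prod_insert ha, Finset.prod_insert ha]
    exact (h _ (Finset.mem_insert_self _ _)).mul (ih fun i hi => h i (Finset.mem_insert_of_mem hi))

theorem Res.unique (h : Res w x α) (h' : Res w x β) : α = β :=
  eq_of_adicValuation_sub_lt w h.2 h'.2

theorem exists_res (hx : x ≠ 0) (h : w.ord x = 0) : ∃ α, Res w x α := by
  have h1 := (adicValuation_eq_one_iff_ord w hx).mpr h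
  obtain ⟨a, ha⟩ := exists_const_sub_lt_one w h1.le
  refine ⟨a, ?_, ha⟩
  rintro rfl
  rw [map_zero, sub_zero, h1] at ha
  exact lt_irrefl _ ha

theorem ord_prod_zpow {ι : Type*} (w : Place k E) (s : Finset ι) {f : ι → E}
    (hf : ∀ i ∈ s, f i ≠ 0) (n : ι → ℤ) :
    w.ord (∏ i ∈ s, f i ^ n i) = ∑ i ∈ s, n i * w.ord (f i) := by
  classical
  induction s using Finset.induction_on with
  | empty => simp
  | insert a s ha ih =>
    rw [Finset.prod_insert ha, Finset.sum_insert ha, Place.ord_mul, Place.ord_zpow,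
      ih fun i hi => hf i (Finset.mem_insert_of_mem hi)]
    · exact zpow_ne_zero _ (hf _ (Finset.mem_insert_self _ _))
    · exact Finset.prod_ne_zero_iff.mpr fun i hi =>
        zpow_ne_zero _ (hf i (Finset.mem_insert_of_mem hi))

end Res

namespace AV

variable {K : Type u} [Field K] {𝒜 : AV K}
variable {k E : Type u} [Field k] [Field E] [Algebra K k] [Algebra K E] [Algebra k E]
  [IsScalarTower K k E] [IsAlgClosed k] [H3RR.IsFF k E]

theorem rsd_surjective (w : Place k E) : Function.Surjective (rsd K w) := fun c =>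
  ⟨⟨algebraMap k E c, w.algebraMap_mem' c⟩, rsd_eq K w (by
    rw [sub_self, map_zero]; exact zero_lt_one)⟩

instance isLocalHom_rsd (w : Place k E) : IsLocalHom (rsd K w).toRingHom :=
  IsLocalHom.of_surjective _ (rsd_surjective w)

/-- the value of the point `Z` at the place `w` -/
def atPl (Z : 𝒜.Pt E) (w : Place k E) : 𝒜.Pt k := redAt (plV K w) (rsd K w) Z

theorem atPl_add (Z Z' : 𝒜.Pt E) (w : Place k E) : atPl (Z + Z') w = atPl Z w + atPl Z' w :=
  redAt_add _ _ _ _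

theorem dom_atPl (Z : 𝒜.Pt E) (w : Place k E) : 𝒜.dom (atPl Z w) = 𝒜.dom (liftP Z w) :=
  dom_redAt (plV K w) (rsd K w) Z

/-- the value of a function at a point has the value at the residue point as residue -/
theorem res_val {Z : 𝒜.Pt E} {w : Place k E} {f : 𝒜.F} (h : 𝒜.UnitIn (𝒜.dom (liftP Z w)) f) :
    Res w (𝒜.val Z f) (𝒜.val (atPl Z w) f) := by
  refine ⟨val_unitIn_ne_zero (by rwa [dom_atPl]), ?_⟩
  rw [← val_lift (plV K w) Z h.2.1, atPl, val_redAt _ _ _ h.2.1]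
  exact adicValuation_sub_rsd K w _

end AV

namespace RedCtx

open AV

variable {K : Type u} [Field K] {𝒜 : AV K}
variable {k k₁ κ E E₁ Eκ : Type u} [Field k] [Field k₁] [Field κ] [Field E]
    [Field E₁] [Field Eκ] [Algebra k k₁] [Algebra k E] [Algebra k₁ E₁] [Algebra E E₁]
    [Algebra k E₁] [IsScalarTower k k₁ E₁] [IsScalarTower k E E₁] [IsCE k k₁ E E₁]
    [Algebra k κ] [Algebra κ Eκ] [Algebra E Eκ] [Algebra k Eκ]
    [IsScalarTower k κ Eκ] [IsScalarTower k E Eκ] [IsCE k κ E Eκ]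
    [IsAlgClosed k] [IsAlgClosed k₁] [IsAlgClosed κ] [IsFF k E] [IsFF k₁ E₁] [IsFF κ Eκ]
    [Algebra K k] [Algebra K k₁] [Algebra K κ] [Algebra K E] [Algebra K E₁] [Algebra K Eκ]
    [IsScalarTower K k k₁] [IsScalarTower K k κ] [IsScalarTower K k E] [IsScalarTower K k₁ E₁]
    [IsScalarTower K E E₁] [IsScalarTower K κ Eκ] [IsScalarTower K E Eκ]
    (c : RedCtx k k₁ κ E E₁ Eκ)

theorem valuation_coe_eq_one_of_isUnit {L : Type*} [Field L] [Algebra K L] (V : VSub K L)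
    {x : V.toSubalgebra} (h : IsUnit x) : V.toValuationSubring.valuation (x : L) = 1 :=
  (V.toValuationSubring.valuation_eq_one_iff ⟨x, x.2⟩).mp h

theorem valuation_val_eq_one {L : Type u} [Field L] [Algebra K L] (V : VSub K L) (X : 𝒜.Pt L)
    {f : 𝒜.F} (h : 𝒜.UnitIn (𝒜.dom (𝒜.lift V X)) f) :
    V.toValuationSubring.valuation (𝒜.val X f) = 1 := by
  rw [← val_lift V X h.2.1]
  exact valuation_coe_eq_one_of_isUnit V (isUnit_val_of_unitIn h)

/-- **Main local computation.** -/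
theorem exists_scalar (D : 𝒜.CDiv) {ι : Type} [Fintype ι] (Z : ι → 𝒜.Pt E₁)
    (hZ : ∀ i, ∃ Zb, c.Spec (Z i) Zb) (ε : ι → ℤ) {Φ : E₁} (hΦ0 : Φ ≠ 0)
    (hΦ : ∀ w : Place k₁ E₁, ∑ i, ε i * D.pull k₁ (Z i) w = w.ord Φ) :
    ∃ t : k₁, t ≠ 0 ∧ ∀ (w : Place k₁ E₁) (α : k₁), Res w (Φ / ∏ i, D.loc (Z i) w ^ ε i) α →
      c.A.valuation t * c.A.valuation α =
        ∏ i, c.A.valuation (D.locV (c.vA K) (atPl (Z i) w)) ^ ε i := by
  classical
  choose Zb hZ using hZ
  choose Y hY hYb using hZ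
  let b : ι → 𝒜.F := fun i => D.eqn (𝒜.dom (𝒜.lift (c.GK K) (Z i)))
  let e : ι → 𝒜.F := fun i => D.eqn (𝒜.dom (Z i))
  have hb0 : ∀ i, b i ≠ 0 := fun i => D.eqn_ne_zero _
  have he0 : ∀ i, e i ≠ 0 := fun i => D.eqn_ne_zero _
  have hbe : ∀ i, 𝒜.UnitIn (𝒜.dom (Z i)) (b i / e i) := fun i => D.unitIn_lift (Z i) (c.GK K)
  let u : ι → E₁ := fun i => 𝒜.val (Z i) (b i / e i)
  have hu0 : ∀ i, u i ≠ 0 := fun i => val_unitIn_ne_zero (hbe i)
  have hprodu : ∏ i, u i ^ ε i ≠ 0 := Finset.prod_ne_zero_iff.mpr fun i _ => zpow_ne_zero _ (hu0 i)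
  obtain ⟨t, ht0, x, hx, hρx⟩ := c.𝓡.exists_scale (Φ / ∏ i, u i ^ ε i)
    (div_ne_zero hΦ0 hprodu)
  refine ⟨t, ht0, fun w α hα => ?_⟩
  set τ := c.𝓡.r w with hτ
  have ht1 : algebraMap k₁ E₁ t ≠ 0 := (_root_.map_ne_zero _).mpr ht0
  -- local equations
  let a : ι → 𝒜.F := fun i => D.eqn (𝒜.dom (Y i τ))
  have ha0 : ∀ i, a i ≠ 0 := fun i => D.eqn_ne_zero _
  have hab : ∀ i, 𝒜.UnitIn (𝒜.dom (𝒜.lift (c.GK K) (Z i))) (a i / b i) := by
    intro i
    have := D.unitIn_map (c.toG K τ) (Y i τ)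
    rwa [c.map_toG (hY i τ)] at this
  let W : ι → E₁ := fun i => 𝒜.val (Z i) (a i / b i)
  have hW0 : ∀ i, W i ≠ 0 := fun i =>
    val_unitIn_ne_zero ((hab i).mono (dom_lift_le (c.GK K) (Z i)))
  have hWG : ∀ i, c.𝓡.G.valuation (W i) = 1 := fun i =>
    valuation_val_eq_one (c.GK K) (Z i) (hab i)
  -- for every place above `τ`
  let U : Place k₁ E₁ → ι → E₁ := fun v i => D.loc (Z i) v
  let N : Place k₁ E₁ → ι → E₁ := fun v i =>
    𝒜.val (Z i) (a i / D.eqn (𝒜.dom (liftP (Z i) v)))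
  have hU0 : ∀ v i, U v i ≠ 0 := fun v i => D.loc_ne_zero _ _
  have hN : ∀ v, c.𝓡.r v = τ → ∀ i,
      𝒜.UnitIn (𝒜.dom (liftP (Z i) v)) (a i / D.eqn (𝒜.dom (liftP (Z i) v))) := by
    intro v hv i
    have h1 := D.unitIn_map (c.toPlw K hv) (Y i τ)
    rwa [c.map_toPlw (hY i τ) hv] at h1
  have hUN : ∀ v, c.𝓡.r v = τ → ∀ i, U v i * N v i = u i * W i := by
    intro v hv i
    have h1 := hN v hv i
    have h3 : 𝒜.UnitIn (𝒜.dom (Z i)) (D.eqn (𝒜.dom (liftP (Z i) v)) / e i) :=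
      D.unitIn_lift (Z i) (plV K v)
    have h4 := (hab i).mono (dom_lift_le (c.GK K) (Z i))
    have h5 := h1.mono (dom_liftP_le (Z i) v)
    change 𝒜.val (Z i) _ * 𝒜.val (Z i) _ = 𝒜.val (Z i) _ * 𝒜.val (Z i) _
    rw [← val_mul h3.2.1 h5.2.1, ← val_mul (hbe i).2.1 h4.2.1]
    congr 1
    have := D.eqn_ne_zero (𝒜.dom (liftP (Z i) v))
    have := hb0 i
    have := he0 i
    field_simp
  have hN0 : ∀ v, c.𝓡.r v = τ → ∀ i, N v i ≠ 0 := fun v hv i =>
    val_unitIn_ne_zero ((hN v hv i).mono (dom_liftP_le (Z i) v))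
  -- the function `G`
  let G : E₁ := (x : E₁) / ∏ i, W i ^ ε i
  have hprodW : ∏ i, W i ^ ε i ≠ 0 := Finset.prod_ne_zero_iff.mpr fun i _ => zpow_ne_zero _ (hW0 i)
  have hx0 : (x : E₁) ≠ 0 := c.𝓡.ne_zero_of_ρ hρx
  have hG0 : G ≠ 0 := div_ne_zero hx0 hprodW
  have hxv : c.𝓡.G.valuation (x : E₁) = 1 :=
    (c.𝓡.G.valuation_eq_one_iff x).mp ((c.𝓡.isUnit_iff x).mpr hρx)
  have hGv : c.𝓡.G.valuation G = 1 := by
    simp only [G, map_div₀, map_prod, map_zpow₀, hWG, one_zpow, Finset.prod_const_one, hxv,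
      div_one]
  have hGU : ∀ v, c.𝓡.r v = τ → algebraMap k₁ E₁ t * (Φ / ∏ i, U v i ^ ε i) =
      G * ∏ i, N v i ^ ε i := by
    intro v hv
    have h1 : (∏ i, U v i ^ ε i) * ∏ i, N v i ^ ε i = (∏ i, u i ^ ε i) * ∏ i, W i ^ ε i := by
      rw [← Finset.prod_mul_distrib, ← Finset.prod_mul_distrib]
      refine Finset.prod_congr rfl fun i _ => ?_
      rw [← mul_zpow, ← mul_zpow, hUN v hv i]
    have hprodU : ∏ i, U v i ^ ε i ≠ 0 :=
      Finset.prod_ne_zero_iff.mpr fun i _ => zpow_ne_zero _ (hU0 v i)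
    have hprodN : ∏ i, N v i ^ ε i ≠ 0 :=
      Finset.prod_ne_zero_iff.mpr fun i _ => zpow_ne_zero _ (hN0 v hv i)
    have h2 : Φ / ∏ i, U v i ^ ε i =
        Φ / (∏ i, u i ^ ε i) / (∏ i, W i ^ ε i) * ∏ i, N v i ^ ε i := by
      rw [div_div, ← h1]
      field_simp
    change _ = (x : E₁) / (∏ i, W i ^ ε i) * _
    rw [hx, h2]
    ring
  have hGord : ∀ v, c.𝓡.r v = τ → v.ord G = 0 := by
    intro v hv
    have hprodU : ∏ i, U v i ^ ε i ≠ 0 :=
      Finset.prod_ne_zero_iff.mpr fun i _ => zpow_ne_zero _ (hU0 v i)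
    have hprodN : ∏ i, N v i ^ ε i ≠ 0 :=
      Finset.prod_ne_zero_iff.mpr fun i _ => zpow_ne_zero _ (hN0 v hv i)
    have h1 := congrArg v.ord (hGU v hv)
    rw [Place.ord_mul _ ht1 (div_ne_zero hΦ0 hprodU), ord_algebraMap v ht0, zero_add,
      ord_div _ hΦ0 hprodU, ord_prod_zpow _ _ (fun i _ => hU0 v i),
      Place.ord_mul _ hG0 hprodN, ord_prod_zpow _ _ (fun i _ => hN0 v hv i)] at h1
    have h2 : ∀ i, v.ord (N v i) = 0 := fun i => ord_val_eq_zero (hN v hv i)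
    have h3 : ∑ i, ε i * v.ord (U v i) = v.ord Φ := hΦ v
    simp only [h2, mul_zero, Finset.sum_const_zero, add_zero, h3, sub_self] at h1
    exact h1.symm
  have hGR : G ∈ c.R K τ := by
    refine c.𝓡.mem_R_of_regular K ?_ fun v hv => ?_
    · exact (c.𝓡.G.valuation_le_one_iff _).mp hGv.le
    · exact (mem_iff_ord_nonneg v hG0).mpr (hGord v hv).ge
  have hGR' : G⁻¹ ∈ c.R K τ := by
    refine c.𝓡.mem_R_of_regular K ?_ fun v hv => ?_
    · exact (c.𝓡.G.valuation_le_one_iff _).mp (by rw [map_inv₀, hGv, inv_one])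
    · exact (mem_iff_ord_nonneg v (inv_ne_zero hG0)).mpr (by rw [Place.ord_inv, hGord v hv]; rfl)
  have hGunit : IsUnit (⟨G, hGR⟩ : c.R K τ) :=
    IsUnit.of_mul_eq_one ⟨G⁻¹, hGR'⟩ (Subtype.ext (mul_inv_cancel₀ hG0))
  -- residue of `G` at `w`
  let g : (c.vA K).toSubalgebra := c.toA K hτ.symm ⟨G, hGR⟩
  have hgunit : IsUnit g := hGunit.map _
  have hgv : c.A.valuation (g : k₁) = 1 := valuation_coe_eq_one_of_isUnit (c.vA K) hgunit
  have hGg : Res w G g := by
    refine ⟨?_, adicValuation_sub_rsd K w (c.toPlw K hτ.symm ⟨G, hGR⟩)⟩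
    intro h0
    rw [h0, map_zero] at hgv
    exact zero_ne_one hgv
  -- residues of `N`
  have hNn : ∀ i, Res w (N w i) (𝒜.val (atPl (Z i) w) (a i / D.eqn (𝒜.dom (liftP (Z i) w)))) :=
    fun i => res_val (hN w rfl i)
  have hnv : ∀ i, c.A.valuation (𝒜.val (atPl (Z i) w) (a i / D.eqn (𝒜.dom (liftP (Z i) w)))) =
      c.A.valuation (D.locV (c.vA K) (atPl (Z i) w)) := by
    intro i
    have h1 := D.unitIn_map (c.toA K hτ.symm) (Y i τ)
    rw [c.map_toA (hY i τ) hτ.symm] at h1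
    change 𝒜.UnitIn (𝒜.dom (𝒜.lift (c.vA K) (atPl (Z i) w)))
      (a i / D.eqn (𝒜.dom (𝒜.lift (c.vA K) (atPl (Z i) w)))) at h1
    have h2 : 𝒜.UnitIn (𝒜.dom (atPl (Z i) w))
      (D.eqn (𝒜.dom (𝒜.lift (c.vA K) (atPl (Z i) w))) / D.eqn (𝒜.dom (atPl (Z i) w))) :=
      D.unitIn_lift _ _
    have h3 := h1.mono (dom_lift_le (c.vA K) (atPl (Z i) w))
    have h4 : a i / D.eqn (𝒜.dom (liftP (Z i) w)) =
        (a i / D.eqn (𝒜.dom (𝒜.lift (c.vA K) (atPl (Z i) w)))) *
        (D.eqn (𝒜.dom (𝒜.lift (c.vA K) (atPl (Z i) w))) / D.eqn (𝒜.dom (atPl (Z i) w))) := by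
      rw [dom_atPl]
      have := D.eqn_ne_zero (𝒜.dom (𝒜.lift (c.vA K) (atPl (Z i) w)))
      have := D.eqn_ne_zero (𝒜.dom (liftP (Z i) w))
      field_simp
    rw [h4, val_mul h3.2.1 h2.2.1, map_mul]
    have h5 : c.A.valuation (𝒜.val (atPl (Z i) w)
        (a i / D.eqn (𝒜.dom (𝒜.lift (c.vA K) (atPl (Z i) w))))) = 1 :=
      valuation_val_eq_one (c.vA K) _ h1
    rw [h5, one_mul]
    rfl
  have h1 : Res w (algebraMap k₁ E₁ t * (Φ / ∏ i, U w i ^ ε i)) (t * α) :=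
    (res_const ht0).mul hα
  rw [hGU w rfl] at h1
  have h2 := h1.unique (hGg.mul (Res.prod Finset.univ fun i _ => (hNn i).zpow (ε i)))
  have h3 := congrArg c.A.valuation h2
  rw [map_mul, map_mul, hgv, one_mul, map_prod] at h3
  rw [h3]
  refine Finset.prod_congr rfl fun i _ => ?_
  rw [map_zpow₀, hnv]

end RedCtx

end Fermat.Agent.H26
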