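import Fermat.Agent.H98Ev1

/-!
# S26-J11, part 2: places above a given place (helper98)
-/

set_option autoImplicit false

noncomputable section

open AlgebraicCurve IntermediateField

namespace Fermat.Agent.H26

universe u

theorem isFF_of_finite (k E E' : Type*) [Field k] [Field E] [Field E'] [Algebra k E]
    [Algebra k E'] [Algebra E E'] [IsScalarTower k E E'] [FiniteDimensional E E']
    [H3RR.IsFF k E] : H3RR.IsFF k E' := by
  obtain ⟨x, hx, hfd⟩ := H3RR.IsFF.exists_gen (K := k) (F := E)
  let f : E →ₐ[k] E' := IsScalarTower.toAlgHom k E E'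
  refine ⟨f x, ?_, ?_⟩
  · intro h
    exact hx ((isAlgebraic_algHom_iff f f.toRingHom.injective).mp h)
  · have hmap : k⟮x⟯.map f = k⟮f x⟯ := by
      rw [IntermediateField.adjoin_map, Set.image_singleton]
    let g : k⟮x⟯ →+* k⟮f x⟯ :=
      (f.toRingHom.comp (algebraMap k⟮x⟯ E)).codRestrict k⟮f x⟯.toSubfield fun y => by
        change f (y : E) ∈ k⟮f x⟯
        rw [← hmap]
        exact ⟨y, y.2, rfl⟩
    let _ : Algebra k⟮x⟯ k⟮f x⟯ := g.toAlgebra
    have t1 : IsScalarTower k⟮x⟯ k⟮f x⟯ E' := IsScalarTower.of_algebraMap_eq fun y => by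
      change algebraMap k⟮x⟯ E' y = f (y : E)
      rw [IsScalarTower.algebraMap_apply k⟮x⟯ E E']
      rfl
    have h1 : FiniteDimensional k⟮x⟯ E' := Module.Finite.trans E E'
    exact Module.Finite.of_restrictScalars_finite k⟮x⟯ k⟮f x⟯ E'

namespace AV

variable {K : Type u} [Field K] {𝒜 : AV K}

section

variable {E₀ E' L : Type u} [Field E₀] [Field E'] [Algebra K E₀] [Algebra K E'] [Algebra E₀ E']
  [IsScalarTower K E₀ E'] [Field L] [Algebra K L] [Algebra E₀ L] [IsScalarTower K E₀ L]

theorem algHom_ext_fieldOver {x : 𝒜.Pt E'} (hgen : fieldOver E₀ x = ⊤) {τ σ : E' →ₐ[E₀] L}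
    (h : 𝒜.map (τ.restrictScalars K) x = 𝒜.map (σ.restrictScalars K) x) : τ = σ := by
  refine AlgHom.ext fun e => ?_
  have he : e ∈ fieldOver E₀ x := by rw [hgen]; exact IntermediateField.mem_top
  unfold fieldOver at he
  induction he using IntermediateField.adjoin_induction with
  | mem e he =>
    obtain ⟨w, rfl⟩ := he
    have h1 := val_map_field (τ.restrictScalars K) x w
    have h2 := val_map_field (σ.restrictScalars K) x w
    rw [h, h2, val_coe] at h1
    exact h1.symm
  | algebraMap c => rw [AlgHom.commutes, AlgHom.commutes]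
  | add a b _ _ h1 h2 => rw [map_add, map_add, h1, h2]
  | inv a _ h1 => rw [map_inv₀, map_inv₀, h1]
  | mul a b _ _ h1 h2 => rw [map_mul, map_mul, h1, h2]

end

section places

variable [IsAlgClosed K] {k E₀ E' : Type u} [Field k] [Field E₀] [Field E'] [Algebra K k]
  [Algebra K E₀] [Algebra K E'] [Algebra k E₀] [Algebra k E'] [Algebra E₀ E']
  [IsScalarTower K k E₀] [IsScalarTower K k E'] [IsScalarTower K E₀ E'] [IsScalarTower k E₀ E']
  [IsAlgClosed k] [H3RR.IsFF k E₀] [H3RR.IsFF k E']
  [FiniteDimensional E₀ E'] [Algebra.IsSeparable E₀ E']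

/-- Above every place of `E₀` there are at least `[E' : E₀]` places of the field of definition
`E'` of an `n`-division point of an `E₀`-point. -/
theorem exists_places_above (n : ℕ) (hn : (n : K) ≠ 0) (x : 𝒜.Pt E') (z : 𝒜.Pt E₀)
    (hx : n • x = 𝒜.map (IsScalarTower.toAlgHom K E₀ E') z) (hgen : fieldOver E₀ x = ⊤)
    (c : Place k E₀) :
    ∃ S : Finset (Place k E'), S.card = Module.finrank E₀ E' ∧
      ∀ v ∈ S, ∀ e : E₀, e ∈ c.toValuationSubring ↔ algebraMap E₀ E' e ∈ v.toValuationSubring := by
  classical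
  let L := AlgebraicClosure E'
  let f : c.toValuationSubring →+* L := (algebraMap E₀ L).comp c.toValuationSubring.subtype
  obtain ⟨W, hW, hloc⟩ := IsLocalRing.exists_factor_valuationRing f
  have hmem : ∀ e : E₀, e ∈ c.toValuationSubring ↔ algebraMap E₀ L e ∈ W := by
    intro e
    constructor
    · intro he
      exact hW ⟨e, he⟩
    · intro he
      by_contra hec
      have he0 : e ≠ 0 := by rintro rfl; exact hec (zero_mem _)
      have hinv : e⁻¹ ∈ c.toValuationSubring :=
        (c.toValuationSubring.mem_or_inv_mem e).resolve_left hec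
      have hu : IsUnit (f.codRestrict W.toSubring hW ⟨e⁻¹, hinv⟩) := by
        refine IsUnit.of_mul_eq_one (⟨algebraMap E₀ L e, he⟩ : W) ?_
        apply Subtype.ext
        change algebraMap E₀ L e⁻¹ * algebraMap E₀ L e = 1
        rw [← map_mul, inv_mul_cancel₀ he0, map_one]
      have hu' : IsUnit (⟨e⁻¹, hinv⟩ : c.toValuationSubring) := hloc.map_nonunit _ hu
      obtain ⟨⟨a, b, hab, hba⟩, hau⟩ := hu'
      apply hec
      have h1 : (a : E₀) * (b : E₀) = 1 := congrArg Subtype.val hab
      have h2 : (a : E₀) = e⁻¹ := by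
        have := congrArg Subtype.val hau
        exact this
      have h3 : (b : E₀) = e := by
        rw [h2] at h1
        have := eq_inv_of_mul_eq_one_right h1
        rwa [inv_inv] at this
      rw [← h3]
      exact b.2
  have hKW : ∀ a : k, algebraMap k L a ∈ W := by
    intro a
    rw [IsScalarTower.algebraMap_apply k E₀ L]
    exact (hmem _).mp (c.algebraMap_mem' a)
  -- the places
  let pv : (E' →ₐ[E₀] L) → Place k E' := fun τ => H3RR.placeOf (W.comap τ.toRingHom)
    (fun a => by
      change τ (algebraMap k E' a) ∈ W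
      rw [IsScalarTower.algebraMap_apply k E₀ E', AlgHom.commutes,
        ← IsScalarTower.algebraMap_apply]
      exact hKW a)
    (fun htop => by
      apply c.ne_top'
      rw [eq_top_iff]
      intro e _
      rw [hmem]
      have h1 : algebraMap E₀ E' e ∈ W.comap τ.toRingHom := by rw [htop]; trivial
      have h2 : τ (algebraMap E₀ E' e) ∈ W := h1
      rwa [AlgHom.commutes] at h2)
  have hpv : ∀ (τ : E' →ₐ[E₀] L) (y : E'), y ∈ (pv τ).toValuationSubring ↔ τ y ∈ W :=
    fun τ y => Iff.rfl
  -- reduction modulo `W`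
  let VW : VSub K L := VSub.ofValuationSubring W fun a => by
    rw [IsScalarTower.algebraMap_apply K k L]
    exact hKW _
  let ρ : VW.toSubalgebra →ₐ[K] IsLocalRing.ResidueField VW.toSubalgebra :=
    IsScalarTower.toAlgHom K VW.toSubalgebra (IsLocalRing.ResidueField VW.toSubalgebra)
  have hρ : IsLocalHom ρ.toRingHom :=
    inferInstanceAs (IsLocalHom (IsLocalRing.residue VW.toSubalgebra))
  let cW : k →ₐ[K] VW.toSubalgebra :=
    (IsScalarTower.toAlgHom K k L).codRestrict VW.toSubalgebra hKW
  let i : k →ₐ[K] IsLocalRing.ResidueField VW.toSubalgebra := ρ.comp cW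
  have hred : ∀ τ : E' →ₐ[E₀] L, redAt VW ρ (𝒜.map (τ.restrictScalars K) x) =
      𝒜.map i (redPt x (pv τ)) := by
    intro τ
    have hv' : ∀ y, y ∈ (plV K (pv τ)).toSubalgebra ↔ (τ.restrictScalars K) y ∈ VW.toSubalgebra :=
      fun y => hpv τ y
    let jV : (plV K (pv τ)).toSubalgebra →ₐ[K] VW.toSubalgebra :=
      restr (τ.restrictScalars K) (plV K (pv τ)) VW fun y => (hv' y).mp
    have hjV : IsLocalHom jV.toRingHom :=
      isLocalHom_restr (τ.restrictScalars K) (plV K (pv τ)) VW hv'
    refine redAt_map (plV K (pv τ)) (red K (pv τ)) VW ρ (τ.restrictScalars K) jV (fun y => rfl) i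
      ?_ x
    have l1 : IsLocalHom (ρ.comp jV).toRingHom :=
      RingHom.isLocalHom_comp ρ.toRingHom jV.toRingHom
    have l2 : IsLocalHom (i.comp (red K (pv τ))).toRingHom :=
      RingHom.isLocalHom_comp i.toRingHom (red K (pv τ)).toRingHom
    apply algHom_ext_place
    refine AlgHom.ext fun a => ?_
    change ρ (jV (cst K (pv τ) a)) = ρ (cW (red K (pv τ) (cst K (pv τ) a)))
    rw [red_cst]
    congr 1
    apply Subtype.ext
    change τ (algebraMap k E' a) = algebraMap k L a
    rw [IsScalarTower.algebraMap_apply k E₀ E', AlgHom.commutes,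
        ← IsScalarTower.algebraMap_apply]
  have hinj : Function.Injective pv := by
    intro τ σ hτσ
    apply algHom_ext_fieldOver hgen
    rw [← sub_eq_zero]
    set Y := 𝒜.map (τ.restrictScalars K) x - 𝒜.map (σ.restrictScalars K) x with hY
    have hcomp : ∀ τ : E' →ₐ[E₀] L, (τ.restrictScalars K).comp (IsScalarTower.toAlgHom K E₀ E') =
        IsScalarTower.toAlgHom K E₀ L := by
      intro τ
      refine AlgHom.ext fun e => ?_
      exact τ.commutes e
    have hnY : n • Y = 𝒜.map (IsScalarTower.toAlgHom K K L) (0 : 𝒜.Pt K) := by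
      rw [map_zero, hY, smul_sub, ← map_nsmul, ← map_nsmul, hx, map_map, map_map, hcomp, hcomp,
        sub_self]
    obtain ⟨t, ht⟩ := mem_range_of_nsmul K n hn Y 0 hnY
    have h1 : redAt VW ρ Y = 0 := by
      rw [hY, redAt_sub, hred, hred, hτσ, sub_self]
    have h2 := redAt_const VW ρ (Algebra.ofId K VW.toSubalgebra) t
    have h3 : (VW.toSubalgebra.val).comp (Algebra.ofId K VW.toSubalgebra) =
        IsScalarTower.toAlgHom K K L := AlgHom.ext fun a => rfl
    rw [h3, ht, h1] at h2
    have h4 : t = 0 := by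
      apply 𝒜.map_injective (ρ.comp (Algebra.ofId K VW.toSubalgebra))
        (ρ.comp (Algebra.ofId K VW.toSubalgebra)).toRingHom.injective
      rw [map_zero]
      exact h2.symm
    rw [← ht, h4, map_zero]
  refine ⟨Finset.univ.image pv, ?_, ?_⟩
  · rw [Finset.card_image_of_injective _ hinj, Finset.card_univ]
    exact AlgHom.card E₀ E' L
  · intro v hv e
    obtain ⟨τ, -, rfl⟩ := Finset.mem_image.mp hv
    rw [hpv, AlgHom.commutes]
    exact hmem e

end places

end AV

end Fermat.Agent.H26
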