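import Mathlib
import Fermat.Agent.H98Calc
import Fermat.Agent.H98Ev2
import Fermat.Agent.H26Cube1

/-!
# Towards the cube: the diagonal place, constant places, extension of valuations (helper26, S26)
-/

set_option autoImplicit false
set_option linter.unusedSectionVars false

noncomputable section

open AlgebraicCurve WithZero Fermat.Agent.H3RR
open scoped TensorProduct

namespace Fermat.Agent.H26

universe u

/-- valuation rings extend to extension fields -/
theorem exists_valuationSubring_extends {L M : Type*} [Field L] [Field M] [Algebra L M]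
    (O : ValuationSubring L) :
    ∃ A : ValuationSubring M, ∀ x : L, algebraMap L M x ∈ A ↔ x ∈ O := by
  let g : O →+* M := (algebraMap L M).comp O.subtype
  have hg : Function.Injective g := (algebraMap L M).injective.comp Subtype.val_injective
  let e : O ≃+* g.range := RingEquiv.ofBijective g.rangeRestrict
    ⟨fun x y h => hg (congrArg Subtype.val h), g.rangeRestrict_surjective⟩
  let I : Ideal g.range := (IsLocalRing.maximalIdeal O).comap e.symm
  have hI : I ≠ ⊤ := by
    intro h
    have h1 : (1 : g.range) ∈ I := h ▸ Submodule.mem_top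
    rw [Ideal.mem_comap, map_one] at h1
    exact (Ideal.ne_top_iff_one _).mp (IsLocalRing.maximalIdeal.isMaximal O).ne_top h1
  obtain ⟨A, hA1, hA2⟩ := Ideal.image_subset_nonunits_valuationSubring I hI
  refine ⟨A, fun x => ⟨fun hx => ?_, fun hx => hA1 ⟨⟨x, hx⟩, rfl⟩⟩⟩
  by_contra hxO
  have hinv : x⁻¹ ∈ O := (O.mem_or_inv_mem x).resolve_left hxO
  have hx0 : x ≠ 0 := by rintro rfl; exact hxO O.zero_mem
  have hmax : (⟨x⁻¹, hinv⟩ : O) ∈ IsLocalRing.maximalIdeal O := by
    rw [← ValuationSubring.coe_mem_nonunits_iff, ValuationSubring.mem_nonunits_iff_or]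
    right
    rw [inv_inv]
    exact hxO
  have h1 : algebraMap L M x⁻¹ ∈ A.nonunits := hA2 ⟨e ⟨x⁻¹, hinv⟩, by
    rw [SetLike.mem_coe, Ideal.mem_comap, RingEquiv.symm_apply_apply]
    exact hmax, rfl⟩
  rw [ValuationSubring.mem_nonunits_iff_or] at h1
  rcases h1 with h1 | h1
  · exact inv_ne_zero hx0 ((map_eq_zero _).mp h1)
  · rw [← map_inv₀, inv_inv] at h1
    exact h1 hx

section diag

variable (k k₁ E E₁ : Type u) [Field k] [Field k₁] [Field E] [Field E₁]
  [Algebra k k₁] [Algebra k E] [Algebra k₁ E₁] [Algebra E E₁]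
  [Algebra k E₁] [IsScalarTower k k₁ E₁] [IsScalarTower k E E₁] [IsCE k k₁ E E₁]
  [IsAlgClosed k] [IsAlgClosed k₁] [IsFF k E] [IsFF k₁ E₁]
  [Algebra E k₁] [IsScalarTower k E k₁]

include k in
/-- the diagonal place -/
theorem exists_diag : ∃ δ : Place k₁ E₁, ∀ e : E,
    δ.adicValuation (algebraMap E E₁ e - algebraMap k₁ E₁ (algebraMap E k₁ e)) < 1 := by
  classical
  let f : k₁ ⊗[k] E →ₐ[k₁] E₁ := Algebra.TensorProduct.lift (Algebra.ofId k₁ E₁)
    (IsScalarTower.toAlgHom k E E₁) (fun _ _ => Commute.all _ _)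
  let χ : k₁ ⊗[k] E →ₐ[k₁] k₁ := Algebra.TensorProduct.lift (AlgHom.id k₁ k₁)
    (IsScalarTower.toAlgHom k E k₁) (fun _ _ => Commute.all _ _)
  have hf : Function.Injective f := by
    rw [injective_iff_map_eq_zero]
    intro t ht
    let b := Module.Basis.ofVectorSpace k E
    let ε : k₁ ⊗[k] E ≃ₗ[k] (_ →₀ k₁) := TensorProduct.equivFinsuppOfBasisRight b
    have h1 : t = (ε t).sum fun i a => a ⊗ₜ[k] b i := by
      conv_lhs => rw [← ε.symm_apply_apply t, TensorProduct.equivFinsuppOfBasisRight_symm_apply]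
    have hb := IsCE.linInd (k' := k₁) (E' := E₁) b b.linearIndependent
    have h2 := (linearIndependent_iff.mp hb) (ε t) (by
      rw [Finsupp.linearCombination_apply, ← ht]
      conv_rhs => rw [h1]
      rw [Finsupp.sum, Finsupp.sum, map_sum]
      refine Finset.sum_congr rfl fun i _ => ?_
      rw [Algebra.TensorProduct.lift_tmul, Algebra.smul_def]
      rfl)
    exact (LinearEquiv.map_eq_zero_iff ε).mp h2
  obtain ⟨A, hA1, hA2⟩ := exists_valuationSubring_of_algHom f hf χ
  have hf1 : ∀ a : k₁, f (a ⊗ₜ 1) = algebraMap k₁ E₁ a := fun a => by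
    change Algebra.TensorProduct.lift _ _ (fun _ _ => Commute.all _ _) (a ⊗ₜ 1) = _
    rw [Algebra.TensorProduct.lift_tmul, map_one, mul_one]
    rfl
  have hf2 : ∀ e : E, f (1 ⊗ₜ e) = algebraMap E E₁ e := fun a => by
    change Algebra.TensorProduct.lift _ _ (fun _ _ => Commute.all _ _) (1 ⊗ₜ a) = _
    rw [Algebra.TensorProduct.lift_tmul, map_one, one_mul]
    rfl
  have hχ1 : ∀ a : k₁, χ (a ⊗ₜ 1) = a := fun a => by
    change Algebra.TensorProduct.lift _ _ (fun _ _ => Commute.all _ _) (a ⊗ₜ 1) = _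
    rw [Algebra.TensorProduct.lift_tmul, map_one, mul_one]
    rfl
  have hχ2 : ∀ e : E, χ (1 ⊗ₜ e) = algebraMap E k₁ e := fun a => by
    change Algebra.TensorProduct.lift _ _ (fun _ _ => Commute.all _ _) (1 ⊗ₜ a) = _
    rw [Algebra.TensorProduct.lift_tmul, map_one, one_mul]
    rfl
  have hnon : ∀ e : E, algebraMap E E₁ e - algebraMap k₁ E₁ (algebraMap E k₁ e) ∈ A.nonunits := by
    intro e
    have := hA2 (1 ⊗ₜ e - (algebraMap E k₁ e) ⊗ₜ 1) (by rw [map_sub, hχ1, hχ2, sub_self])
    rwa [map_sub, hf1, hf2] at this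
  have hne : A ≠ ⊤ := by
    rintro rfl
    obtain ⟨x, hx, -⟩ := IsFF.exists_gen (K := k) (F := E)
    have h1 := hnon x
    rw [ValuationSubring.mem_nonunits_iff_or] at h1
    rcases h1 with h1 | h1
    · have h2 := IsCE.transcendental_map (k' := k₁) (E' := E₁) hx
      apply h2
      rw [sub_eq_zero.mp h1]
      exact isAlgebraic_algebraMap _
    · exact h1 (ValuationSubring.mem_top _)
  refine ⟨placeOf A (fun a => hf1 a ▸ hA1 _) hne, fun e => ?_⟩
  have h1 := hnon e
  rw [ValuationSubring.mem_nonunits_iff_or] at h1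
  rcases h1 with h1 | h1
  · rw [h1, map_zero]; exact zero_lt_one
  · by_contra hcon
    rw [not_lt] at hcon
    apply h1
    have h2 : (algebraMap E E₁ e - algebraMap k₁ E₁ (algebraMap E k₁ e))⁻¹ ∈
        (placeOf A (fun a => hf1 a ▸ hA1 _) hne : Place k₁ E₁).toValuationSubring := by
      rw [mem_iff_adicValuation_le_one, map_inv₀]
      exact inv_le_one_of_one_le₀ hcon
    rwa [placeOf_toValuationSubring] at h2

end diag

namespace AV

variable {K : Type u} [Field K] {𝒜 : AV K}

section atPl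

variable {k E : Type u} [Field k] [Field E] [Algebra K k] [Algebra K E] [Algebra k E]
  [IsScalarTower K k E] [IsAlgClosed k] [H3RR.IsFF k E]

theorem atPl_map_of_res {L : Type u} [Field L] [Algebra K L] (w : Place k E) (j : L →ₐ[K] E)
    (i : L →ₐ[K] k) (h : ∀ x, w.adicValuation (j x - algebraMap k E (i x)) < 1) (X : 𝒜.Pt L) :
    atPl (𝒜.map j X) w = 𝒜.map i X := by
  have hmem : ∀ x, j x ∈ (plV K w).toSubalgebra := fun x => by
    have h5 : j x = (j x - algebraMap k E (i x)) + algebraMap k E (i x) := by ring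
    rw [mem_plV, mem_iff_adicValuation_le_one, h5]
    exact (Valuation.map_add _ _ _).trans (max_le (h x).le (w.adicValuation_algebraMap_le_one _))
  have h1 := redAt_const (plV K w) (rsd K w) (j.codRestrict _ hmem) X
  have h2 : (rsd K w).comp (j.codRestrict _ hmem) = i := AlgHom.ext fun x => rsd_eq K w (h x)
  rw [h2] at h1
  exact h1

theorem atPl_const (w : Place k E) (P : 𝒜.Pt k) :
    atPl (𝒜.map (IsScalarTower.toAlgHom K k E) P) w = P := by
  rw [atPl_map_of_res w (IsScalarTower.toAlgHom K k E) (AlgHom.id K k) (fun x => ?_), map_id]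
  change w.adicValuation (algebraMap k E x - algebraMap k E x) < 1
  rw [sub_self, map_zero]
  exact zero_lt_one

theorem atPl_tr (w : Place k E) (X : 𝒜.Pt E) (P : 𝒜.Pt k) :
    atPl (tr k X P) w = atPl X w + P := by
  rw [tr, atPl_add, atPl_const]

variable {k' E' : Type u} [Field k'] [Field E'] [Algebra K k'] [Algebra K E'] [Algebra k' E']
  [IsScalarTower K k' E'] [IsAlgClosed k'] [H3RR.IsFF k' E']
  [Algebra k k'] [Algebra E E'] [Algebra k E'] [IsScalarTower k k' E'] [IsScalarTower k E E']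
  [IsCE k k' E E'] [IsScalarTower K E E'] [IsScalarTower K k k']

/-- the value at a constant place is constant -/
theorem atPl_pl (w : Place k E) (X : 𝒜.Pt E) :
    atPl (𝒜.map (IsScalarTower.toAlgHom K E E') X) (IsCE.pl k' E' w) =
      𝒜.map (IsScalarTower.toAlgHom K k k') (atPl X w) := by
  have hmem : ∀ x, x ∈ (plV K w).toSubalgebra →
      IsScalarTower.toAlgHom K E E' x ∈ (plV K (IsCE.pl k' E' w)).toSubalgebra := fun x hx => by
    rw [mem_plV, IsCE.pl_toValuationSubring]
    exact IsCE.algebraMap_mem_plRing_iff.mpr hx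
  refine redAt_map (plV K w) (rsd K w) (plV K (IsCE.pl k' E' w)) (rsd K (IsCE.pl k' E' w))
    (IsScalarTower.toAlgHom K E E') (restr (IsScalarTower.toAlgHom K E E') _ _ hmem)
    (fun x => rfl) (IsScalarTower.toAlgHom K k k') ?_ X
  refine AlgHom.ext fun x => ?_
  change rsd K (IsCE.pl k' E' w) _ = algebraMap k k' (rsd K w x)
  refine rsd_eq K _ ?_
  have h1 := adicValuation_sub_rsd K w x
  change (IsCE.pl k' E' w).adicValuation ((IsScalarTower.toAlgHom K E E' (x : E)) -
    algebraMap k' E' (algebraMap k k' (rsd K w x))) < 1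
  have h2 : (IsScalarTower.toAlgHom K E E' (x : E)) - algebraMap k' E' (algebraMap k k' (rsd K w x)) =
      algebraMap E E' ((x : E) - algebraMap k E (rsd K w x)) := by
    rw [map_sub, ← IsScalarTower.algebraMap_apply k k' E', ← IsScalarTower.algebraMap_apply k E E']
    rfl
  rw [h2]
  by_cases h0 : (x : E) - algebraMap k E (rsd K w x) = 0
  · rw [h0, map_zero, map_zero]; exact zero_lt_one
  · rw [(IsCE.pl k' E' w).adicValuation_eq_exp_neg_ord ((_root_.map_ne_zero _).mpr h0),
      IsCE.ord_pl_algebraMap, ← w.adicValuation_eq_exp_neg_ord h0]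
    exact h1

end atPl

end AV

end Fermat.Agent.H26
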