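import Mathlib
import Fermat.Agent.H26Cube2

/-!
# The theorem of the cube for heights (helper26, S26)
-/

set_option autoImplicit false
set_option linter.unusedSectionVars false

noncomputable section

open AlgebraicCurve WithZero Fermat.Agent.H3RR

namespace Fermat.Agent.H26

universe u

namespace AV

variable {K : Type u} [Field K] {𝒜 : AV K}

section aux

variable {k k₁ E E₁ : Type u} [Field k] [Field k₁] [Field E] [Field E₁]
  [Algebra k k₁] [Algebra k E] [Algebra k₁ E₁] [Algebra E E₁]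
  [Algebra k E₁] [IsScalarTower k k₁ E₁] [IsScalarTower k E E₁] [IsCE k k₁ E E₁]
  [IsAlgClosed k] [IsAlgClosed k₁] [IsFF k E] [IsFF k₁ E₁]
  [Algebra E k₁] [IsScalarTower k E k₁]
  [Algebra K k] [Algebra K k₁] [Algebra K E] [Algebra K E₁]
  [IsScalarTower K k k₁] [IsScalarTower K k E] [IsScalarTower K k₁ E₁] [IsScalarTower K E E₁]
  [IsScalarTower K E k₁]

/-- the local statement at a place `y` of a finite extension `L` of `E` inside `k₁` -/
theorem ord_beta (D : 𝒜.CDiv) {ι : Type} [Fintype ι] (X : 𝒜.Pt E) (R : ι → 𝒜.Pt E) (ε : ι → ℤ)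
    {Φ : E₁} (hΦ0 : Φ ≠ 0)
    (hΦ : ∀ w : Place k₁ E₁, ∑ i, ε i * D.pull k₁ (tr k₁ (𝒜.map (IsScalarTower.toAlgHom K E E₁) X)
      (𝒜.map (IsScalarTower.toAlgHom K E k₁) (R i))) w = w.ord Φ)
    (δ : Place k₁ E₁) (hδ : ∀ e : E,
      δ.adicValuation (algebraMap E E₁ e - algebraMap k₁ E₁ (algebraMap E k₁ e)) < 1)
    (c₀ : Place k E) {αδ α₀ : k₁}
    (hαδ : Res δ (Φ / ∏ i, D.loc (tr k₁ (𝒜.map (IsScalarTower.toAlgHom K E E₁) X)
      (𝒜.map (IsScalarTower.toAlgHom K E k₁) (R i))) δ ^ ε i) αδ)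
    (hα₀ : Res (IsCE.pl k₁ E₁ c₀) (Φ / ∏ i, D.loc (tr k₁ (𝒜.map (IsScalarTower.toAlgHom K E E₁) X)
      (𝒜.map (IsScalarTower.toAlgHom K E k₁) (R i))) (IsCE.pl k₁ E₁ c₀) ^ ε i) α₀)
    (L : Type u) [Field L] [Algebra E L] [Algebra L k₁] [IsScalarTower E L k₁] [Algebra k L]
    [IsScalarTower k E L] [IsScalarTower k L k₁] [Algebra K L] [IsScalarTower K E L]
    [IsScalarTower K L k₁] [IsScalarTower K k L] [IsFF k L] {β : L}
    (hβ : algebraMap L k₁ β * α₀ = αδ) (y : Place k L) :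
    y.ord β = ∑ i, ε i * (D.pull k (𝒜.map (IsScalarTower.toAlgHom K E L) (X + R i)) y -
      D.pull k (𝒜.map (IsScalarTower.toAlgHom K E L)
        (𝒜.map (IsScalarTower.toAlgHom K k E) (atPl X c₀) + R i)) y) := by
  classical
  obtain ⟨A, hA⟩ := exists_valuationSubring_extends (M := k₁) y.toValuationSubring
  have hAk : ∀ a : k, algebraMap k k₁ a ∈ A := fun a => by
    rw [IsScalarTower.algebraMap_apply k L k₁, hA]
    exact y.algebraMap_mem' a
  obtain ⟨κ, Eκ, i1, i2, i3, i4, i5, i6, i7, i8, i9, i10, i11, i12, i13, i14, i15, i16, c, hc⟩ :=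
    exists_redCtx K k k₁ E E₁ A hAk
  subst hc
  obtain ⟨t, ht0, ht⟩ := c.exists_scalar D (fun i => tr k₁ (𝒜.map (IsScalarTower.toAlgHom K E E₁) X)
      (𝒜.map (IsScalarTower.toAlgHom K E k₁) (R i))) (fun i => ⟨_, c.spec_tr X _⟩) ε hΦ0 hΦ
  have h1 := ht δ αδ hαδ
  have h2 := ht _ α₀ hα₀
  -- the points
  have hpδ : ∀ i, atPl (tr k₁ (𝒜.map (IsScalarTower.toAlgHom K E E₁) X)
      (𝒜.map (IsScalarTower.toAlgHom K E k₁) (R i))) δ =
      𝒜.map (IsScalarTower.toAlgHom K L k₁) (𝒜.map (IsScalarTower.toAlgHom K E L) (X + R i)) := by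
    intro i
    have e1 : atPl (𝒜.map (IsScalarTower.toAlgHom K E E₁) X) δ =
        𝒜.map (IsScalarTower.toAlgHom K E k₁) X :=
      atPl_map_of_res δ (IsScalarTower.toAlgHom K E E₁) (IsScalarTower.toAlgHom K E k₁) hδ X
    rw [atPl_tr, e1, ← map_add, map_tower (A := E) (B := L) (C := k₁)]
  have hp₀ : ∀ i, atPl (tr k₁ (𝒜.map (IsScalarTower.toAlgHom K E E₁) X)
      (𝒜.map (IsScalarTower.toAlgHom K E k₁) (R i))) (IsCE.pl k₁ E₁ c₀) =
      𝒜.map (IsScalarTower.toAlgHom K L k₁) (𝒜.map (IsScalarTower.toAlgHom K E L)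
        (𝒜.map (IsScalarTower.toAlgHom K k E) (atPl X c₀) + R i)) := by
    intro i
    have e1 : atPl (𝒜.map (IsScalarTower.toAlgHom K E E₁) X) (IsCE.pl k₁ E₁ c₀) =
        𝒜.map (IsScalarTower.toAlgHom K k k₁) (atPl X c₀) := atPl_pl c₀ X
    rw [atPl_tr, e1, map_tower (A := E) (B := L) (C := k₁), map_add,
      map_tower (A := k) (B := E) (C := k₁)]
  have hmem : ∀ x : L, x ∈ (plV K y).toSubalgebra ↔
      IsScalarTower.toAlgHom K L k₁ x ∈ (c.vA K).toSubalgebra := fun x => (hA x).symm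
  have hlocδ : ∀ i, D.locV (c.vA K) (atPl (tr k₁ (𝒜.map (IsScalarTower.toAlgHom K E E₁) X)
      (𝒜.map (IsScalarTower.toAlgHom K E k₁) (R i))) δ) =
      algebraMap L k₁ (D.loc (𝒜.map (IsScalarTower.toAlgHom K E L) (X + R i)) y) := by
    intro i
    rw [hpδ, D.locV_map _ (plV K y) (c.vA K) hmem]
    rfl
  have hloc₀ : ∀ i, D.locV (c.vA K) (atPl (tr k₁ (𝒜.map (IsScalarTower.toAlgHom K E E₁) X)
      (𝒜.map (IsScalarTower.toAlgHom K E k₁) (R i))) (IsCE.pl k₁ E₁ c₀)) =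
      algebraMap L k₁ (D.loc (𝒜.map (IsScalarTower.toAlgHom K E L)
        (𝒜.map (IsScalarTower.toAlgHom K k E) (atPl X c₀) + R i)) y) := by
    intro i
    rw [hp₀, D.locV_map _ (plV K y) (c.vA K) hmem]
    rfl
  simp only [hlocδ, hloc₀] at h1 h2
  -- abbreviations
  set f : ι → L := fun i => D.loc (𝒜.map (IsScalarTower.toAlgHom K E L) (X + R i)) y with hf
  set g : ι → L := fun i => D.loc (𝒜.map (IsScalarTower.toAlgHom K E L)
        (𝒜.map (IsScalarTower.toAlgHom K k E) (atPl X c₀) + R i)) y with hg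
  have hf0 : ∀ i, f i ≠ 0 := fun i => D.loc_ne_zero _ _
  have hg0 : ∀ i, g i ≠ 0 := fun i => D.loc_ne_zero _ _
  have hF0 : ∏ i, f i ^ ε i ≠ 0 := Finset.prod_ne_zero_iff.mpr fun i _ => zpow_ne_zero _ (hf0 i)
  have hG0 : ∏ i, g i ^ ε i ≠ 0 := Finset.prod_ne_zero_iff.mpr fun i _ => zpow_ne_zero _ (hg0 i)
  have hβ0 : β ≠ 0 := by
    rintro rfl
    rw [map_zero, zero_mul] at hβ
    exact hαδ.1 hβ.symm
  let v := c.A.valuation.comap (algebraMap L k₁)
  have hv : ∀ x, v x = c.A.valuation (algebraMap L k₁ x) := fun x => rfl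
  have h3 : c.A.valuation t * (v β * c.A.valuation α₀) = v (∏ i, f i ^ ε i) := by
    rw [hv, ← map_mul, hβ, h1, map_prod]
    simp only [map_zpow₀]
    rfl
  have h4 : c.A.valuation t * c.A.valuation α₀ = v (∏ i, g i ^ ε i) := by
    rw [h2, map_prod]
    simp only [map_zpow₀]
    rfl
  have hvt : c.A.valuation t ≠ 0 := (Valuation.ne_zero_iff _).mpr ht0
  have hvα : c.A.valuation α₀ ≠ 0 := (Valuation.ne_zero_iff _).mpr hα₀.1
  have h5 : v (β * (∏ i, g i ^ ε i) / ∏ i, f i ^ ε i) = 1 := by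
    rw [map_div₀, map_mul, ← h3, ← h4, div_eq_one_iff_eq]
    · exact mul_left_comm _ _ _
    · exact mul_ne_zero hvt (mul_ne_zero ((Valuation.ne_zero_iff _).mpr hβ0) hvα)
  have h6 : y.ord (β * (∏ i, g i ^ ε i) / ∏ i, f i ^ ε i) = 0 := by
    rw [← isUnit_iff_ord _ (div_ne_zero (mul_ne_zero hβ0 hG0) hF0)]
    constructor
    · rw [← hA, ← c.A.valuation_le_one_iff, ← hv, h5]
    · rw [← hA, ← c.A.valuation_le_one_iff, ← hv, map_inv₀, h5, inv_one]
  rw [ord_div _ (mul_ne_zero hβ0 hG0) hF0, Place.ord_mul _ hβ0 hG0,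
    ord_prod_zpow _ _ (fun i _ => hf0 i), ord_prod_zpow _ _ (fun i _ => hg0 i)] at h6
  have h7 : ∑ i, ε i * (D.pull k (𝒜.map (IsScalarTower.toAlgHom K E L) (X + R i)) y -
      D.pull k (𝒜.map (IsScalarTower.toAlgHom K E L)
        (𝒜.map (IsScalarTower.toAlgHom K k E) (atPl X c₀) + R i)) y) =
      ∑ i, ε i * y.ord (f i) - ∑ i, ε i * y.ord (g i) := by
    rw [← Finset.sum_sub_distrib]
    refine Finset.sum_congr rfl fun i _ => ?_
    rw [CDiv.pull_apply, CDiv.pull_apply, mul_sub]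
  rw [h7]
  omega

/-- the global consequence -/
theorem sum_ht (D : 𝒜.CDiv) {ι : Type} [Fintype ι] (X : 𝒜.Pt E) (R : ι → 𝒜.Pt E) (ε : ι → ℤ)
    {Φ : E₁} (hΦ0 : Φ ≠ 0)
    (hΦ : ∀ w : Place k₁ E₁, ∑ i, ε i * D.pull k₁ (tr k₁ (𝒜.map (IsScalarTower.toAlgHom K E E₁) X)
      (𝒜.map (IsScalarTower.toAlgHom K E k₁) (R i))) w = w.ord Φ)
    (δ : Place k₁ E₁) (hδ : ∀ e : E,
      δ.adicValuation (algebraMap E E₁ e - algebraMap k₁ E₁ (algebraMap E k₁ e)) < 1)
    (c₀ : Place k E) {αδ α₀ : k₁}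
    (hαδ : Res δ (Φ / ∏ i, D.loc (tr k₁ (𝒜.map (IsScalarTower.toAlgHom K E E₁) X)
      (𝒜.map (IsScalarTower.toAlgHom K E k₁) (R i))) δ ^ ε i) αδ)
    (hα₀ : Res (IsCE.pl k₁ E₁ c₀) (Φ / ∏ i, D.loc (tr k₁ (𝒜.map (IsScalarTower.toAlgHom K E E₁) X)
      (𝒜.map (IsScalarTower.toAlgHom K E k₁) (R i))) (IsCE.pl k₁ E₁ c₀) ^ ε i) α₀)
    (L : Type u) [Field L] [Algebra E L] [Algebra L k₁] [IsScalarTower E L k₁] [Algebra k L]
    [IsScalarTower k E L] [IsScalarTower k L k₁] [Algebra K L] [IsScalarTower K E L]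
    [IsScalarTower K L k₁] [IsScalarTower K k L] [IsFF k L] [FiniteDimensional E L] {β : L}
    (hβ : algebraMap L k₁ β * α₀ = αδ) :
    ∑ i, ε i * (D.ht k (X + R i) -
      D.ht k (𝒜.map (IsScalarTower.toAlgHom K k E) (atPl X c₀) + R i)) = 0 := by
  classical
  have hβ0 : β ≠ 0 := by
    rintro rfl
    rw [map_zero, zero_mul] at hβ
    exact hαδ.1 hβ.symm
  have h1 : (divOf β : Divisor k L) =
      ∑ i, ε i • (D.pull k (𝒜.map (IsScalarTower.toAlgHom K E L) (X + R i)) -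
      D.pull k (𝒜.map (IsScalarTower.toAlgHom K E L)
        (𝒜.map (IsScalarTower.toAlgHom K k E) (atPl X c₀) + R i))) := by
    ext y
    rw [divOf_apply hβ0, ord_beta D X R ε hΦ0 hΦ δ hδ c₀ hαδ hα₀ L hβ y, Finsupp.finsetSum_apply]
    refine Finset.sum_congr rfl fun i _ => ?_
    rw [Finsupp.smul_apply, Finsupp.sub_apply, smul_eq_mul]
  have h2 := degree_divOf (K := k) hβ0
  rw [h1, map_sum] at h2
  have h3 : ∀ Y : 𝒜.Pt E, Divisor.degree (D.pull k (𝒜.map (IsScalarTower.toAlgHom K E L) Y)) =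
      Module.finrank E L * D.ht k Y := fun Y => D.ht_finite k Y L
  have h4 : (Module.finrank E L : ℤ) * ∑ i, ε i * (D.ht k (X + R i) -
      D.ht k (𝒜.map (IsScalarTower.toAlgHom K k E) (atPl X c₀) + R i)) = 0 := by
    rw [← h2, Finset.mul_sum]
    refine Finset.sum_congr rfl fun i _ => ?_
    rw [map_zsmul, map_sub, h3, h3, smul_eq_mul]
    ring
  have h5 : (Module.finrank E L : ℤ) ≠ 0 := by
    have := Module.finrank_pos (R := E) (M := L)
    omega
  exact (mul_eq_zero.mp h4).resolve_left h5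

end aux

section cube

variable (k : Type u) {E : Type u} [Field k] [Field E] [Algebra K k] [Algebra K E] [Algebra k E]
  [IsScalarTower K k E] [IsAlgClosed k] [H3RR.IsFF k E]

/-- **The theorem of the cube for heights.** -/
theorem ht_cube [IsAlgClosed K] (D : 𝒜.CDiv) (X Y Z : 𝒜.Pt E) :
    D.ht k (X + Y + Z) - D.ht k (X + Y) - D.ht k (X + Z) - D.ht k (Y + Z)
      + D.ht k X + D.ht k Y + D.ht k Z = 0 := by
  classical
  let k₁ := AlgebraicClosure E
  obtain ⟨E₁, f1, b1, b2, b3, b4, s1, s2, s3, s4, s5, hCE⟩ := exists_CE K k k₁ E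
  have hFF : IsFF k₁ E₁ := IsCE.isFF k k₁ E E₁
  let R : Fin 4 → 𝒜.Pt E := ![Y + Z, Y, Z, 0]
  let ε : Fin 4 → ℤ := ![1, -1, -1, 1]
  obtain ⟨Φ, hΦ0, hΦ⟩ := square k₁ D (𝒜.map (IsScalarTower.toAlgHom K E E₁) X)
    (𝒜.map (IsScalarTower.toAlgHom K E k₁) Y) (𝒜.map (IsScalarTower.toAlgHom K E k₁) Z)
  rw [zero_add, CDiv.sq] at hΦ
  have hΦ' : ∀ w : Place k₁ E₁, ∑ i, ε i * D.pull k₁ (tr k₁
      (𝒜.map (IsScalarTower.toAlgHom K E E₁) X)
      (𝒜.map (IsScalarTower.toAlgHom K E k₁) (R i))) w = w.ord Φ := by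
    intro w
    have h1 := DFunLike.congr_fun hΦ w
    rw [divOf_apply hΦ0] at h1
    rw [← h1, Fin.sum_univ_four]
    simp only [R, ε, Matrix.cons_val_zero, Matrix.cons_val_one, Matrix.cons_val, map_add, map_zero]
    simp only [Finsupp.add_apply, Finsupp.sub_apply]
    ring
  obtain ⟨δ, hδ⟩ := exists_diag k k₁ E E₁
  obtain ⟨c₀⟩ := exists_place k E
  have hord : ∀ w : Place k₁ E₁, w.ord (Φ / ∏ i, D.loc (tr k₁
      (𝒜.map (IsScalarTower.toAlgHom K E E₁) X)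
      (𝒜.map (IsScalarTower.toAlgHom K E k₁) (R i))) w ^ ε i) = 0 := by
    intro w
    rw [ord_div _ hΦ0 (Finset.prod_ne_zero_iff.mpr fun i _ => zpow_ne_zero _ (D.loc_ne_zero _ _)),
      ord_prod_zpow _ _ (fun i _ => D.loc_ne_zero _ _), ← hΦ' w]
    simp only [CDiv.pull_apply, sub_self]
  have hne : ∀ w : Place k₁ E₁, (Φ / ∏ i, D.loc (tr k₁
      (𝒜.map (IsScalarTower.toAlgHom K E E₁) X)
      (𝒜.map (IsScalarTower.toAlgHom K E k₁) (R i))) w ^ ε i) ≠ 0 := fun w =>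
    div_ne_zero hΦ0 (Finset.prod_ne_zero_iff.mpr fun i _ => zpow_ne_zero _ (D.loc_ne_zero _ _))
  obtain ⟨αδ, hαδ⟩ := exists_res (hne δ) (hord δ)
  obtain ⟨α₀, hα₀⟩ := exists_res (hne (IsCE.pl k₁ E₁ c₀)) (hord (IsCE.pl k₁ E₁ c₀))
  let β : k₁ := αδ / α₀
  let L : IntermediateField E k₁ := IntermediateField.adjoin E {β}
  have hfin : FiniteDimensional E L :=
    IntermediateField.adjoin.finiteDimensional (Algebra.IsIntegral.isIntegral β)
  have t1 : IsScalarTower k E L := inferInstance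
  have t2 : IsScalarTower k L k₁ := IsScalarTower.of_algebraMap_eq fun x => rfl
  have t3 : IsScalarTower K E L := inferInstance
  have t4 : IsScalarTower K L k₁ := IsScalarTower.of_algebraMap_eq fun x => rfl
  have t5 : IsScalarTower K k L := IsScalarTower.of_algebraMap_eq fun x => by
    apply Subtype.ext
    exact IsScalarTower.algebraMap_apply K k k₁ x
  have hFFL : IsFF k L := isFF_of_finite k E L
  have hsum := sum_ht D X R ε hΦ0 hΦ' δ hδ c₀ hαδ hα₀ L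
    (β := ⟨β, IntermediateField.mem_adjoin_simple_self E β⟩) (div_mul_cancel₀ _ hα₀.1)
  rw [Fin.sum_univ_four] at hsum
  simp only [R, ε, Matrix.cons_val_zero, Matrix.cons_val_one, Matrix.cons_val] at hsum
  have hc : ∀ W : 𝒜.Pt E, D.ht k (𝒜.map (IsScalarTower.toAlgHom K k E) (atPl X c₀) + W) =
      D.ht k W := fun W => by rw [add_comm]; exact ht_add_const k D W _
  have h0 : D.ht k (0 : 𝒜.Pt E) = 0 := by
    have := D.ht_const k (0 : 𝒜.Pt k) (E := E)
    rwa [map_zero] at this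
  rw [hc, hc, hc, hc, h0, ← add_assoc, add_zero] at hsum
  linarith

/-- heights are quadratic for symmetric divisors -/
theorem ht_nsmul [IsAlgClosed K] (D : 𝒜.CDiv) (X : 𝒜.Pt E)
    (hD : ∀ Y : 𝒜.Pt E, D.ht k (-Y) = D.ht k Y) (n : ℕ) :
    D.ht k (n • X) = n ^ 2 * D.ht k X := by
  have h0 : D.ht k (0 : 𝒜.Pt E) = 0 := by
    have := D.ht_const k (0 : 𝒜.Pt k) (E := E)
    rwa [map_zero] at this
  have hrec : ∀ n : ℕ, D.ht k ((n + 2) • X) = 2 * D.ht k ((n + 1) • X) - D.ht k (n • X) +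
      2 * D.ht k X := by
    intro n
    have h1 := ht_cube k D ((n + 1) • X) X (-X)
    rw [hD, add_neg_cancel, h0] at h1
    have h2 : (n + 1) • X + X + -X = (n + 1) • X := by abel
    have h3 : (n + 1) • X + X = (n + 2) • X := by
      rw [← succ_nsmul]
    have h4 : (n + 1) • X + -X = n • X := by
      rw [succ_nsmul]; abel
    rw [h2, h3, h4] at h1
    linarith
  induction n using Nat.twoStepInduction with
  | zero => rw [zero_smul, h0]; simp
  | one => rw [one_smul]; simp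
  | more n ih1 ih2 =>
    rw [hrec, ih1, ih2]
    push_cast
    ring

end cube

end AV

end Fermat.Agent.H26
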