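import Fermat.Agent.H98Calc

/-!
# S26-J12: assembly of the torsion count (helper76)
-/

set_option autoImplicit false

noncomputable section

open AlgebraicCurve

namespace Fermat.Agent.H26

universe u

namespace AV

variable {K : Type u} [Field K] {𝒜 : AV K}

/-- symmetric Cartier data (as far as heights are concerned) -/
def CDiv.Sym (D : 𝒜.CDiv) : Prop :=
  ∀ (k E : Type u) [Field k] [Field E] [Algebra K k] [Algebra K E] [Algebra k E]
    [IsScalarTower K k E] [IsAlgClosed k] [H3RR.IsFF k E] (X : 𝒜.Pt E),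
    D.ht k (-X) = D.ht k X

theorem CDiv.Sym.smul {D : 𝒜.CDiv} (h : D.Sym) (m : ℕ) : (D.smul m).Sym := by
  intro k E _ _ _ _ _ _ _ _ X
  rw [CDiv.ht_smul, CDiv.ht_smul, h k E X]

theorem CDiv.sym_add_comap_neg (D : 𝒜.CDiv) : (D.add (D.comap (Endo.neg 𝒜))).Sym := by
  intro k E _ _ _ _ _ _ _ _ X
  rw [CDiv.ht_add, CDiv.ht_add, CDiv.ht_comap, CDiv.ht_comap]
  have h1 : (Endo.neg 𝒜).toHom E (-X) = X := neg_neg X
  have h2 : (Endo.neg 𝒜).toHom E X = -X := rfl
  rw [h1, h2, add_comm]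

/-- the trivial Cartier datum -/
def CDiv.one (𝒜 : AV K) : 𝒜.CDiv where
  eqn _ := 1
  eqn_ne_zero _ := one_ne_zero
  unitIn_map _ _ := by rw [div_one]; exact unitIn_one
  exists_finset _ := ⟨∅, fun V _ => by rw [div_one]; exact unitIn_one⟩

theorem CDiv.one_mem_one : (1 : 𝒜.F) ∈ (CDiv.one 𝒜).sections := by
  rw [CDiv.mem_sections]
  intro R _ _ _ P
  change (1 : 𝒜.F) * 1 ∈ 𝒜.dom P
  rw [one_mul]; exact one_mem _

/-- finitely many functions are sections of a common effective Cartier datum -/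
theorem Good.exists_pole_finset {g : ℕ} (hG : 𝒜.Good g) (s : Finset 𝒜.F) :
    ∃ D : 𝒜.CDiv, (1 : 𝒜.F) ∈ D.sections ∧ ∀ φ ∈ s, φ ∈ D.sections := by
  classical
  induction s using Finset.induction_on with
  | empty => exact ⟨CDiv.one 𝒜, CDiv.one_mem_one, by simp⟩
  | insert φ s _ ih =>
    obtain ⟨D, h1, h2⟩ := ih
    obtain ⟨D', h1', h2'⟩ := hG.exists_pole φ
    refine ⟨D.add D', ?_, ?_⟩
    · have h3 : (1 * 1 : 𝒜.F) ∈ (D.add D').sections := CDiv.mul_mem_sections h1 h1'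
      rwa [one_mul] at h3
    · intro ψ hψ
      rcases Finset.mem_insert.mp hψ with rfl | hψ
      · have h3 : 1 * ψ ∈ (D.add D').sections := CDiv.mul_mem_sections h1 h2'
        rwa [one_mul] at h3
      · have h3 : ψ * 1 ∈ (D.add D').sections := CDiv.mul_mem_sections (h2 ψ hψ) h1'
        rwa [mul_one] at h3

theorem Good.exists_pole_range {g : ℕ} (hG : 𝒜.Good g) {ι : Type*} [Finite ι] (φ : ι → 𝒜.F) :
    ∃ D : 𝒜.CDiv, (1 : 𝒜.F) ∈ D.sections ∧ ∀ i, φ i ∈ D.sections := by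
  classical
  have : Fintype ι := Fintype.ofFinite ι
  obtain ⟨D, h1, h2⟩ := hG.exists_pole_finset (Finset.univ.image φ)
  exact ⟨D, h1, fun i => h2 _ (Finset.mem_image_of_mem _ (Finset.mem_univ i))⟩

/-- finitely many functions are sections of a common effective symmetric Cartier datum -/
theorem Good.exists_sym {g : ℕ} (hG : 𝒜.Good g) {ι : Type*} [Finite ι] (φ : ι → 𝒜.F) :
    ∃ D : 𝒜.CDiv, D.Sym ∧ (1 : 𝒜.F) ∈ D.sections ∧ ∀ i, φ i ∈ D.sections := by
  obtain ⟨D, h1, h2⟩ := hG.exists_pole_range φ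
  have h3 : (1 : 𝒜.F) ∈ (D.comap (Endo.neg 𝒜)).sections := by
    have h4 : (Endo.neg 𝒜).star 1 ∈ (D.comap (Endo.neg 𝒜)).sections :=
      CDiv.star_mem_sections (Endo.neg 𝒜) h1
    rwa [map_one] at h4
  refine ⟨D.add (D.comap (Endo.neg 𝒜)), D.sym_add_comap_neg, ?_, fun i => ?_⟩
  · have h4 : (1 * 1 : 𝒜.F) ∈ (D.add (D.comap (Endo.neg 𝒜))).sections :=
      CDiv.mul_mem_sections h1 h3
    rwa [one_mul] at h4
  · have h4 : φ i * 1 ∈ (D.add (D.comap (Endo.neg 𝒜))).sections :=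
      CDiv.mul_mem_sections (h2 i) h3
    rwa [mul_one] at h4

/-- monomials of degree `≤ m` in every variable -/
def mon {g : ℕ} (φ : Fin g → 𝒜.F) (m : ℕ) (e : Fin g → Fin (m + 1)) : 𝒜.F :=
  ∏ i, φ i ^ (e i : ℕ)

theorem mon_mem_sections {g : ℕ} {D : 𝒜.CDiv} {φ : Fin g → 𝒜.F} (h1 : (1 : 𝒜.F) ∈ D.sections)
    (h2 : ∀ i, φ i ∈ D.sections) (m : ℕ) (e : Fin g → Fin (m + 1)) :
    mon φ m e ∈ (D.smul (g * m)).sections := by
  rw [CDiv.mem_sections]
  intro R _ _ _ P
  rw [CDiv.mem_sections] at h1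
  have h2' : ∀ i, φ i * D.eqn (𝒜.dom P) ∈ 𝒜.dom P := fun i => h2 i P
  have h1' := h1 P
  rw [one_mul] at h1'
  change mon φ m e * D.eqn (𝒜.dom P) ^ (g * m) ∈ 𝒜.dom P
  have : mon φ m e * D.eqn (𝒜.dom P) ^ (g * m) =
      ∏ i : Fin g, (φ i * D.eqn (𝒜.dom P)) ^ (e i : ℕ) * D.eqn (𝒜.dom P) ^ (m - (e i : ℕ)) := by
    have h3 : D.eqn (𝒜.dom P) ^ (g * m) = ∏ _i : Fin g, D.eqn (𝒜.dom P) ^ m := by
      rw [Finset.prod_const, Finset.card_univ, Fintype.card_fin, ← pow_mul, mul_comm]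
    rw [mon, h3, ← Finset.prod_mul_distrib]
    refine Finset.prod_congr rfl fun i _ => ?_
    have h4 : (e i : ℕ) + (m - (e i : ℕ)) = m := by
      have := (e i).2
      omega
    rw [mul_pow, mul_assoc, ← pow_add, h4]
  rw [this]
  exact prod_mem fun i _ => mul_mem (pow_mem (h2' i) _) (pow_mem h1' _)

theorem linearIndependent_mon {g : ℕ} {φ : Fin g → 𝒜.F} (hφ : AlgebraicIndependent K φ) (m : ℕ) :
    LinearIndependent K (mon φ m) := by
  have h1 : LinearIndependent K (fun e : Fin g →₀ ℕ => MvPolynomial.aeval φ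
      (MvPolynomial.monomial e (1 : K))) := by
    have h := (MvPolynomial.basisMonomials (Fin g) K).linearIndependent.map'
      (MvPolynomial.aeval φ).toLinearMap (LinearMap.ker_eq_bot.mpr hφ)
    have h' : (fun e : Fin g →₀ ℕ => MvPolynomial.aeval φ (MvPolynomial.monomial e (1 : K))) =
        (MvPolynomial.aeval φ).toLinearMap ∘ (MvPolynomial.basisMonomials (Fin g) K) := by
      funext e
      rw [Function.comp_apply, MvPolynomial.coe_basisMonomials]
      rfl
    rw [h']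
    exact h
  have h2 := h1.comp (fun e : Fin g → Fin (m + 1) =>
    Finsupp.equivFunOnFinite.symm (fun i => ((e i : ℕ)))) (by
      intro e e' h
      have := Finsupp.equivFunOnFinite.symm.injective h
      funext i
      exact Fin.ext (congrFun this i))
  have h3 : mon φ m = (fun e : Fin g →₀ ℕ => MvPolynomial.aeval φ
      (MvPolynomial.monomial e (1 : K))) ∘ (fun e : Fin g → Fin (m + 1) =>
        Finsupp.equivFunOnFinite.symm (fun i => ((e i : ℕ)))) := by
    funext e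
    simp only [mon, Function.comp_apply, MvPolynomial.aeval_monomial, map_one, one_mul]
    rw [Finsupp.prod_fintype _ _ (fun i => pow_zero _)]
    rfl
  rw [h3]
  exact h2

theorem linearIndependent_nStar_mon [IsAlgClosed K] (𝒜 : AV K) (n : ℕ) (hn : (n : K) ≠ 0)
    {ι : Type*} [Finite ι] {b : ι → 𝒜.F} (hb : LinearIndependent K b)
    {u : {x : 𝒜.Pt K // n • x = 0} → 𝒜.F}
    (hu : ∀ c : {x : 𝒜.Pt K // n • x = 0} →₀ 𝒜.F,
      (c.sum fun i a => 𝒜.nStar n hn a * u i) = 0 → c = 0) :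
    LinearIndependent K (fun p : {x : 𝒜.Pt K // n • x = 0} × ι =>
      𝒜.nStar n hn (b p.2) * u p.1) := by
  classical
  have : Fintype ι := Fintype.ofFinite ι
  have hfin := finite_torsion 𝒜 n hn
  have : Fintype {x : 𝒜.Pt K // n • x = 0} := Fintype.ofFinite _
  rw [Fintype.linearIndependent_iff]
  rintro a ha ⟨x, i⟩
  have h1 : ∀ x, ∑ j, a (x, j) • b j = 0 := by
    intro x
    have h2 := hu (Finsupp.equivFunOnFinite.symm fun x => ∑ j, a (x, j) • b j) (by
      rw [Finsupp.sum_fintype _ _ (fun i => by rw [map_zero, zero_mul]), ← ha,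
        Fintype.sum_prod_type]
      refine Finset.sum_congr rfl fun x _ => ?_
      rw [Finsupp.equivFunOnFinite_symm_apply_apply, map_sum, Finset.sum_mul]
      refine Finset.sum_congr rfl fun j _ => ?_
      rw [map_smul, smul_mul_assoc])
    have h3 := DFunLike.congr_fun h2 x
    simpa using h3
  exact (Fintype.linearIndependent_iff.mp hb) _ (h1 x) i

theorem finrank_span_range {ι : Type*} [Finite ι] {b : ι → 𝒜.F} (hb : LinearIndependent K b) :
    Module.finrank K (Submodule.span K (Set.range b)) = Nat.card ι := by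
  have : Fintype ι := Fintype.ofFinite ι
  rw [finrank_span_eq_card hb, Nat.card_eq_fintype_card]

/-- upper and lower bounds for the number of torsion points -/
theorem exists_bounds [IsAlgClosed K] {g : ℕ} (hG : 𝒜.Good g)
    {r : ℕ} (hr : r ≤ g) (H : 𝒜.CDiv → Fin r → ℤ)
    (hadd : ∀ D D' i, H (D.add D') i = H D i + H D' i)
    (hsmul : ∀ (m : ℕ) D i, H (D.smul m) i = m * H D i)
    (hcomap : ∀ (n : ℕ) (hn : (n : K) ≠ 0) (D : 𝒜.CDiv), D.Sym →
      ∀ i, H (D.comap (Endo.nsmul 𝒜 n hn)) i = (n : ℤ) ^ 2 * H D i)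
    (heval : ∀ (n : ℕ) (_ : (n : K) ≠ 0) (D : 𝒜.CDiv) (M : Fin r → ℕ),
        (n = 1 ∨ D.Sym) →
        (∀ i, H D i < ((n : ℤ) ^ 2) * (M i + 1)) →
        ∀ U : Submodule K 𝒜.F, U ≤ D.sections →
        FiniteDimensional K U ∧
        Module.finrank K U ≤ Nat.card {x : 𝒜.Pt K // n • x = 0} * ∏ i, (M i + 1)) :
    ∃ C : ℕ, ∀ (n : ℕ), (n : K) ≠ 0 →
      n ^ (2 * g) ≤ C * Nat.card {x : 𝒜.Pt K // n • x = 0} ∧
      Nat.card {x : 𝒜.Pt K // n • x = 0} ≤ C * n ^ (2 * g) := by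
  classical
  obtain ⟨φ, hφ⟩ := hG.exists_algInd
  obtain ⟨D, hS, h1, h2⟩ := hG.exists_sym φ
  refine ⟨∏ i : Fin r, (g * (H D i).natAbs + 1), fun n hn => ?_⟩
  have hn0 : 0 < n := by
    rcases Nat.eq_zero_or_pos n with rfl | h
    · simp at hn
    · exact h
  have hn2 : 0 < (n : ℤ) ^ 2 := by positivity
  constructor
  · obtain ⟨-, h3⟩ := heval n hn (D.smul (g * n ^ 2)) (fun i => g * (H D i).natAbs)
      (Or.inr (hS.smul _)) (fun i => by
        rw [hsmul]
        push_cast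
        have h4 : H D i ≤ |H D i| := le_abs_self _
        have h5 : (0 : ℤ) ≤ (g : ℤ) * (n : ℤ) ^ 2 := by positivity
        nlinarith [mul_le_mul_of_nonneg_left h4 h5])
      (Submodule.span K (Set.range (mon φ (n ^ 2)))) (by
        rw [Submodule.span_le]
        rintro _ ⟨e, rfl⟩
        exact mon_mem_sections h1 h2 _ e)
    rw [finrank_span_range (linearIndependent_mon hφ _)] at h3
    have h4 : Nat.card (Fin g → Fin (n ^ 2 + 1)) = (n ^ 2 + 1) ^ g := by
      simp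
    rw [h4] at h3
    calc n ^ (2 * g) = (n ^ 2) ^ g := pow_mul _ _ _
      _ ≤ (n ^ 2 + 1) ^ g := Nat.pow_le_pow_left (Nat.le_succ _) _
      _ ≤ _ := h3
      _ = _ := mul_comm _ _
  · obtain ⟨u, hu⟩ := exists_linearIndependent_nStar 𝒜 n hn
    have hfin := finite_torsion 𝒜 n hn
    obtain ⟨D', h1', h2'⟩ := hG.exists_pole_range u
    set m : ℕ := ∑ i, (H D' i).natAbs with hm
    have hmi : ∀ i, (H D' i).natAbs ≤ m := fun i =>
      Finset.single_le_sum (f := fun i => (H D' i).natAbs) (fun _ _ => Nat.zero_le _)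
        (Finset.mem_univ i)
    obtain ⟨-, h3⟩ := heval 1 (by simp) (((D.smul (g * m)).comap (Endo.nsmul 𝒜 n hn)).add D')
      (fun i => n ^ 2 * (g * m * (H D i).natAbs) + (H D' i).natAbs)
      (Or.inl rfl) (fun i => by
        rw [hadd, hcomap n hn _ (hS.smul _), hsmul]
        push_cast
        have h4 : H D i ≤ |H D i| := le_abs_self _
        have h4' : H D' i ≤ |H D' i| := le_abs_self _
        have h5 : (0 : ℤ) ≤ (n : ℤ) ^ 2 * ((g : ℤ) * m) := by positivity
        nlinarith [mul_le_mul_of_nonneg_left h4 h5])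
      (Submodule.span K (Set.range (fun p : {x : 𝒜.Pt K // n • x = 0} ×
        (Fin g → Fin (m + 1)) => 𝒜.nStar n hn (mon φ m p.2) * u p.1))) (by
        rw [Submodule.span_le]
        rintro _ ⟨p, rfl⟩
        exact CDiv.mul_mem_sections (CDiv.star_mem_sections (Endo.nsmul 𝒜 n hn)
          (mon_mem_sections h1 h2 _ p.2)) (h2' p.1))
    rw [finrank_span_range (linearIndependent_nStar_mon 𝒜 n hn (linearIndependent_mon hφ m) hu),
      Nat.card_prod] at h3
    have h4 : Nat.card (Fin g → Fin (m + 1)) = (m + 1) ^ g := by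
      simp
    have h5 : Nat.card {x : 𝒜.Pt K // 1 • x = 0} = 1 := by
      have : Subsingleton {x : 𝒜.Pt K // 1 • x = 0} := by
        refine ⟨fun x y => Subtype.ext ?_⟩
        have hx := x.2
        have hy := y.2
        rw [one_smul] at hx hy
        rw [hx, hy]
      have : Nonempty {x : 𝒜.Pt K // 1 • x = 0} := ⟨⟨0, smul_zero _⟩⟩
      exact Nat.card_unique
    rw [h4, h5, one_mul] at h3
    have h6 : ∏ i : Fin r, (n ^ 2 * (g * m * (H D i).natAbs) + (H D' i).natAbs + 1) ≤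
        (m + 1) ^ r * ((n ^ 2) ^ r * ∏ i : Fin r, (g * (H D i).natAbs + 1)) := by
      have h7 : (m + 1) ^ r * ((n ^ 2) ^ r * ∏ i : Fin r, (g * (H D i).natAbs + 1)) =
          ∏ i : Fin r, ((m + 1) * (n ^ 2 * (g * (H D i).natAbs + 1))) := by
        rw [Finset.prod_mul_distrib, Finset.prod_mul_distrib, Finset.prod_const,
          Finset.prod_const, Finset.card_univ, Fintype.card_fin]
      rw [h7]
      refine Finset.prod_le_prod (fun _ _ => Nat.zero_le _) fun i _ => ?_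
      have h8 := hmi i
      have h9 : 1 ≤ n ^ 2 := Nat.one_le_pow _ _ hn0
      calc n ^ 2 * (g * m * (H D i).natAbs) + (H D' i).natAbs + 1
          ≤ n ^ 2 * (g * m * (H D i).natAbs) + m + 1 := by omega
        _ ≤ n ^ 2 * (g * m * (H D i).natAbs) + n ^ 2 * (m + 1) := by nlinarith
        _ ≤ (m + 1) * (n ^ 2 * (g * (H D i).natAbs + 1)) := by
            have : (m + 1) * (n ^ 2 * (g * (H D i).natAbs + 1)) =
              n ^ 2 * (g * m * (H D i).natAbs) + n ^ 2 * (m + 1) +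
                n ^ 2 * (g * (H D i).natAbs) := by ring
            rw [this]
            exact Nat.le_add_right _ _
    have h7 : Nat.card {x : 𝒜.Pt K // n • x = 0} * (m + 1) ^ g ≤
        ((∏ i : Fin r, (g * (H D i).natAbs + 1)) * n ^ (2 * g)) * (m + 1) ^ g := by
      refine h3.trans (h6.trans ?_)
      have h8 : (m + 1) ^ r ≤ (m + 1) ^ g := Nat.pow_le_pow_right (Nat.succ_pos _) hr
      have h9 : (n ^ 2) ^ r ≤ n ^ (2 * g) := by
        rw [← pow_mul]
        exact Nat.pow_le_pow_right hn0 (by omega)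
      calc (m + 1) ^ r * ((n ^ 2) ^ r * ∏ i : Fin r, (g * (H D i).natAbs + 1))
          ≤ (m + 1) ^ g * (n ^ (2 * g) * ∏ i : Fin r, (g * (H D i).natAbs + 1)) := by
            gcongr
        _ = _ := by ring
    exact Nat.le_of_mul_le_mul_right h7 (Nat.pow_pos (Nat.succ_pos _))

theorem eq_of_bounds {C ℓ a b : ℕ} (hℓ : 2 ≤ ℓ) (h : ∀ k : ℕ, ℓ ^ (k * a) ≤ C * ℓ ^ (k * b)) :
    a ≤ b := by
  by_contra hab
  push Not at hab
  have h1 := h C
  have h2 : ℓ ^ (C * a) = ℓ ^ (C * (a - b)) * ℓ ^ (C * b) := by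
    rw [← pow_add, ← mul_add, Nat.sub_add_cancel hab.le]
  rw [h2] at h1
  have h3 : ℓ ^ (C * (a - b)) ≤ C :=
    Nat.le_of_mul_le_mul_right h1 (Nat.pow_pos (by omega))
  have h4 : C < 2 ^ C := Nat.lt_two_pow_self
  have h5 : 2 ^ C ≤ ℓ ^ C := Nat.pow_le_pow_left hℓ _
  have h6 : ℓ ^ C ≤ ℓ ^ (C * (a - b)) :=
    Nat.pow_le_pow_right (by omega) (Nat.le_mul_of_pos_right _ (by omega))
  omega

theorem card_torsion_of_bounds [IsAlgClosed K] {g : ℕ}
    (h : ∃ C : ℕ, ∀ (n : ℕ), (n : K) ≠ 0 →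
      n ^ (2 * g) ≤ C * Nat.card {x : 𝒜.Pt K // n • x = 0} ∧
      Nat.card {x : 𝒜.Pt K // n • x = 0} ≤ C * n ^ (2 * g))
    (n : ℕ) (hn : (n : K) ≠ 0) : Nat.card {x : 𝒜.Pt K // n • x = 0} = n ^ (2 * g) := by
  obtain ⟨C, hC⟩ := h
  induction n using Nat.recOnPosPrimePosCoprime with
  | prime_pow p k hp hk =>
    have hpK : (p : K) ≠ 0 := by
      intro h0
      apply hn
      rw [Nat.cast_pow, h0, zero_pow hk.ne']
    obtain ⟨r, hr⟩ := exists_card_torsion_pow 𝒜 p hp hpK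
    have h1 : 2 * g ≤ r := by
      refine eq_of_bounds (C := C) hp.two_le fun k => ?_
      have h2 := (hC (p ^ k) (by rw [Nat.cast_pow]; exact pow_ne_zero _ hpK)).1
      rwa [hr, ← pow_mul] at h2
    have h2 : r ≤ 2 * g := by
      refine eq_of_bounds (C := C) hp.two_le fun k => ?_
      have h2 := (hC (p ^ k) (by rw [Nat.cast_pow]; exact pow_ne_zero _ hpK)).2
      rwa [hr, ← pow_mul] at h2
    rw [hr, le_antisymm h2 h1, pow_mul]
  | zero => simp at hn
  | one =>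
    rw [one_pow]
    have : Subsingleton {x : 𝒜.Pt K // 1 • x = 0} := by
      refine ⟨fun x y => Subtype.ext ?_⟩
      have hx := x.2
      have hy := y.2
      rw [one_smul] at hx hy
      rw [hx, hy]
    have : Nonempty {x : 𝒜.Pt K // 1 • x = 0} := ⟨⟨0, smul_zero _⟩⟩
    exact Nat.card_unique
  | coprime a b ha hb hab iha ihb =>
    have hn' : (a : K) * b ≠ 0 := by rwa [Nat.cast_mul] at hn
    rw [card_torsion_mul 𝒜 hab hn, iha (left_ne_zero_of_mul hn'), ihb (right_ne_zero_of_mul hn'),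
      mul_pow]

/-- J12, conditional on the evaluation lemma (J11) and on the quadraticity of heights (J10) -/
theorem card_torsion_of_evaluation [IsAlgClosed K] {g : ℕ} (hG : 𝒜.Good g)
    (hsq : ∀ (k E : Type u) [Field k] [Field E] [Algebra K k] [Algebra K E] [Algebra k E]
      [IsScalarTower K k E] [IsAlgClosed k] [H3RR.IsFF k E] (D : 𝒜.CDiv) (X : 𝒜.Pt E)
      (_ : ∀ Y : 𝒜.Pt E, D.ht k (-Y) = D.ht k Y) (n : ℕ), D.ht k (n • X) = n ^ 2 * D.ht k X)
    {r : ℕ} (hr : r ≤ g) (E : Fin r → Type u) [∀ i, Field (E i)] [∀ i, Algebra K (E i)]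
    [∀ i, H3RR.IsFF K (E i)] (f : ∀ i, 𝒜.Pt (E i))
    (heval : ∀ (n : ℕ) (_ : (n : K) ≠ 0) (D : 𝒜.CDiv) (M : Fin r → ℕ)
        (_ : ∀ (k E : Type u) [Field k] [Field E] [Algebra K k] [Algebra K E] [Algebra k E]
          [IsScalarTower K k E] [IsAlgClosed k] [H3RR.IsFF k E] (X : 𝒜.Pt E),
          (n ^ 2 : ℤ) * D.ht k X = D.ht k (n • X))
        (_ : ∀ i, D.ht K (f i) < (n ^ 2 : ℤ) * (M i + 1))
        (U : Submodule K 𝒜.F), U ≤ D.sections →
        FiniteDimensional K U ∧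
        Module.finrank K U ≤ Nat.card {x : 𝒜.Pt K // n • x = 0} * ∏ i, (M i + 1))
    (n : ℕ) (hn : (n : K) ≠ 0) : Nat.card {x : 𝒜.Pt K // n • x = 0} = n ^ (2 * g) := by
  refine card_torsion_of_bounds (exists_bounds hG hr (fun D i => D.ht K (f i))
    (fun D D' i => CDiv.ht_add K D D' (f i)) (fun m D i => CDiv.ht_smul K m D (f i))
    (fun n hn D hD i => ?_) (fun n hn D M hor hM U hU => ?_)) n hn
  · change (D.comap (Endo.nsmul 𝒜 n hn)).ht K (f i) = _
    rw [CDiv.ht_comap]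
    exact hsq K (E i) D (f i) (fun Y => hD K (E i) Y) n
  · refine heval n hn D M ?_ hM U hU
    intro k E _ _ _ _ _ _ _ _ X
    rcases hor with rfl | hS
    · rw [one_smul, Nat.cast_one, one_pow, one_mul]
    · exact (hsq k E D X (fun Y => hS k E Y) n).symm

end AV

end Fermat.Agent.H26
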