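import Fermat.Agent.H98Ev7
import Fermat.Agent.H3RR_Special

/-!
# S26-J11, part 8: the evaluation lemma (helper98)
-/

set_option autoImplicit false

noncomputable section

open AlgebraicCurve IntermediateField Cardinal TensorProduct

namespace Fermat.Agent.H26

universe u

namespace AV

variable {K : Type u} [Field K] [IsAlgClosed K] {𝒜 : AV K}

open Classical in
/-- the grid of sums of points of the curves -/
def grid : (l : List (Curve0 𝒜)) → (∀ i : Fin l.length, Finset (Place K (l.get i).E)) →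
    Finset (𝒜.Pt K)
  | [], _ => {0}
  | C :: l, S => Finset.image₂ (· + ·) (grid l fun i => S i.succ)
      ((S ⟨0, Nat.succ_pos _⟩).image fun c => redPt C.f c)

theorem card_grid_le (l : List (Curve0 𝒜)) (S : ∀ i : Fin l.length, Finset (Place K (l.get i).E)) :
    (grid l S).card ≤ ∏ i, (S i).card := by
  classical
  induction l with
  | nil => simp [grid]
  | cons C l ih =>
    have h1 := ih fun i => S i.succ
    have h2 : ∏ i : Fin (l.length + 1), (S i).card =
      (S ⟨0, Nat.succ_pos _⟩).card * ∏ i : Fin l.length, (S i.succ).card :=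
      Fin.prod_univ_succ (fun i : Fin (l.length + 1) => (S i).card)
    change (grid (C :: l) S).card ≤ ∏ i : Fin (l.length + 1), (S i).card
    rw [h2, grid, mul_comm]
    refine Finset.card_image₂_le _ _ _ |>.trans ?_
    exact Nat.mul_le_mul h1 Finset.card_image_le

variable (𝒜) in
/-- translation invariance of heights -/
def HtAdd : Prop := ∀ (D : 𝒜.CDiv) (k E : Type u) [Field k] [Field E] [Algebra K k] [Algebra K E]
    [Algebra k E] [IsScalarTower K k E] [IsAlgClosed k] [H3RR.IsFF k E] (X : 𝒜.Pt E) (P : 𝒜.Pt k),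
    D.ht k (X + 𝒜.map (IsScalarTower.toAlgHom K k E) P) = D.ht k X

variable (𝒜) in
/-- heights are invariant under constant field extensions -/
def HtCE : Prop := ∀ (D : 𝒜.CDiv) (k E E' : Type u) [Field k] [Field E] [Field E'] [Algebra K k]
    [Algebra K E] [Algebra K E'] [Algebra k E'] [Algebra E E'] [IsScalarTower K k E']
    [IsScalarTower K E E'] [IsCE K k E E'] [IsAlgClosed k] [H3RR.IsFF K E] [H3RR.IsFF k E']
    (X : 𝒜.Pt E), D.ht k (𝒜.map (IsScalarTower.toAlgHom K E E') X) = D.ht K X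

/-- one step of the induction in `vanish` -/
theorem vanish_step (hadd : HtAdd 𝒜) (hCE : HtCE 𝒜) (n : ℕ) (hn : (n : K) ≠ 0) (D : 𝒜.CDiv)
    {φ : 𝒜.F} (hφ : φ ∈ D.sections)
    (hquad : ∀ (k E : Type u) [Field k] [Field E] [Algebra K k] [Algebra K E] [Algebra k E]
      [IsScalarTower K k E] [IsAlgClosed k] [H3RR.IsFF k E] (X : 𝒜.Pt E),
      (n ^ 2 : ℤ) * D.ht k X = D.ht k (n • X))
    {k E E' : Type u} [Field k] [Field E] [Field E'] [Algebra K k] [Algebra K E] [Algebra K E']
    [Algebra k E'] [Algebra E E'] [IsScalarTower K k E'] [IsScalarTower K E E'] [IsCE K k E E']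
    [IsAlgClosed k] [H3RR.IsFF K E] [H3RR.IsFF k E'] (f : 𝒜.Pt E) (S : Finset (Place K E))
    (hht : D.ht K f < (n ^ 2 : ℤ) * S.card) (s P : 𝒜.Pt k)
    (hvan : ∀ c ∈ S, ∀ z : 𝒜.Pt k, n • z = s + (P + 𝒜.map (Algebra.ofId K k) (redPt f c)) →
      𝒜.val z (φ * D.eqn (𝒜.dom z)) = 0)
    (x : 𝒜.Pt (AlgebraicClosure E'))
    (hx : n • x = 𝒜.map (IsScalarTower.toAlgHom K E' (AlgebraicClosure E')) (addC f s) +
      𝒜.map (IsScalarTower.toAlgHom K k (AlgebraicClosure E')) P) :
    𝒜.val x (φ * D.eqn (𝒜.dom x)) = 0 := by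
  classical
  refine step_vanish (k := k) (E₀ := E') n hn D hφ (fun E' _ _ _ _ _ Y => hquad k E' Y)
    (𝒜.map (IsScalarTower.toAlgHom K E E') f) (s + P) (hadd D _ _ _ _) x ?_
    (S.image (IsCE.pl k E')) ?_ ?_
  · rw [hx, map_add (𝒜.map (IsScalarTower.toAlgHom K k E')), ← add_assoc, ← addC,
      map_add (𝒜.map (IsScalarTower.toAlgHom K E' (AlgebraicClosure E'))), map_map _ _ _ P]
    rfl
  · intro v hv z hz
    obtain ⟨c, hc, rfl⟩ := Finset.mem_image.mp hv
    rw [redPt_pl] at hz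
    exact hvan c hc z (by rw [hz]; abel)
  · rw [Finset.card_image_of_injective _ IsCE.pl_injective, hCE D k E E' f]
    exact hht

theorem vanish (hadd : HtAdd 𝒜) (hCE : HtCE 𝒜) (n : ℕ) (hn : (n : K) ≠ 0) (D : 𝒜.CDiv) {φ : 𝒜.F}
    (hφ : φ ∈ D.sections)
    (hquad : ∀ (k E : Type u) [Field k] [Field E] [Algebra K k] [Algebra K E] [Algebra k E]
      [IsScalarTower K k E] [IsAlgClosed k] [H3RR.IsFF k E] (X : 𝒜.Pt E),
      (n ^ 2 : ℤ) * D.ht k X = D.ht k (n • X))
    (l : List (Curve0 𝒜)) (S : ∀ i : Fin l.length, Finset (Place K (l.get i).E))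
    (hht : ∀ i, D.ht K (l.get i).f < (n ^ 2 : ℤ) * (S i).card) (t : 𝒜.Pt K)
    (hvan : ∀ u ∈ grid l S, ∀ z : 𝒜.Pt K, n • z = u + t → 𝒜.val z (φ * D.eqn (𝒜.dom z)) = 0)
    (x : 𝒜.Pt (tower l).k)
    (hx : n • x = (tower l).s + 𝒜.map (Algebra.ofId K (tower l).k) t) :
    𝒜.val x (φ * D.eqn (𝒜.dom x)) = 0 := by
  classical
  induction l generalizing t with
  | nil =>
    refine hvan 0 (by simp [grid]) x ?_
    refine hx.trans ?_
    change (0 : 𝒜.Pt K) + 𝒜.map (Algebra.ofId K K) t = 0 + t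
    have : Algebra.ofId K K = AlgHom.id K K := AlgHom.ext fun c => rfl
    rw [this, map_id]
  | cons C l ih =>
    refine vanish_step (k := (tower l).k) (E' := (tower l).EE C) hadd hCE n hn D hφ hquad C.f
      (S ⟨0, Nat.succ_pos _⟩) (hht ⟨0, Nat.succ_pos _⟩) (tower l).s
      (𝒜.map (Algebra.ofId K (tower l).k) t) ?_ x ?_
    · intro c hc z hz
      refine ih (fun i => S i.succ) (fun i => hht i.succ) (t + redPt C.f c) ?_ z ?_
      · intro u hu z' hz'
        refine hvan (u + redPt C.f c) ?_ z' (by rw [hz']; abel)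
        rw [grid]
        exact Finset.mem_image₂_of_mem hu (Finset.mem_image_of_mem _ hc)
      · rw [hz, map_add]
    · refine hx.trans ?_
      congr 1
      have h1 : (IsScalarTower.toAlgHom K (tower l).k (AlgebraicClosure ((tower l).EE C))).comp
          (Algebra.ofId K (tower l).k) = Algebra.ofId K (AlgebraicClosure ((tower l).EE C)) :=
        AlgHom.ext fun c => AlgHom.commutes _ c
      rw [map_map, h1]
      rfl

/-- J11 main. -/
theorem evaluation' (hadd : HtAdd 𝒜) (hCE : HtCE 𝒜) {g : ℕ} (hG : 𝒜.Good g) :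
    ∃ (r : ℕ) (_ : r ≤ g) (C : Fin r → Curve0 𝒜),
      ∀ (n : ℕ) (_ : (n : K) ≠ 0) (D : 𝒜.CDiv) (M : Fin r → ℕ)
        (_ : ∀ (k E : Type u) [Field k] [Field E] [Algebra K k] [Algebra K E] [Algebra k E]
          [IsScalarTower K k E] [IsAlgClosed k] [H3RR.IsFF k E] (X : 𝒜.Pt E),
          (n ^ 2 : ℤ) * D.ht k X = D.ht k (n • X))
        (_ : ∀ i, D.ht K (C i).f < (n ^ 2 : ℤ) * (M i + 1))
        (U : Submodule K 𝒜.F), U ≤ D.sections →
        FiniteDimensional K U ∧
        Module.finrank K U ≤ Nat.card {x : 𝒜.Pt K // n • x = 0} * ∏ i, (M i + 1) := by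
  classical
  obtain ⟨l, hl, hpr⟩ := exists_list hG
  refine ⟨l.length, hl, l.get, ?_⟩
  intro n hn D M hquad hht U hU
  -- the grid
  choose S hS using fun i : Fin l.length =>
    Infinite.exists_subset_card_eq (Place K (l.get i).E) (M i + 1)
  have hft : Finite {x : 𝒜.Pt K // n • x = 0} := finite_torsion 𝒜 n hn
  have _ := Fintype.ofFinite {x : 𝒜.Pt K // n • x = 0}
  choose q hq using fun u : 𝒜.Pt K => exists_nsmul_eq n hn u
  let Z : Finset (𝒜.Pt K) := Finset.image₂ (fun u (x : {x : 𝒜.Pt K // n • x = 0}) => q u + x.1)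
    (grid l S) Finset.univ
  have hZ : ∀ z, n • z ∈ grid l S → z ∈ Z := by
    intro z hz
    refine Finset.mem_image₂.mpr ⟨n • z, hz, ⟨z - q (n • z), ?_⟩, Finset.mem_univ _, ?_⟩
    · rw [nsmul_sub, hq, sub_self]
    · change q (n • z) + (z - q (n • z)) = z
      abel
  have hcard : Z.card ≤ Nat.card {x : 𝒜.Pt K // n • x = 0} * ∏ i, (M i + 1) := by
    refine (Finset.card_image₂_le _ _ _).trans ?_
    rw [mul_comm, Finset.card_univ, ← Nat.card_eq_fintype_card]
    refine Nat.mul_le_mul le_rfl ((card_grid_le l S).trans (le_of_eq ?_))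
    exact Finset.prod_congr rfl fun i _ => hS i
  -- evaluation
  let Φ : U →ₗ[K] (Z → K) :=
    { toFun := fun φ z => 𝒜.val z.1 ((φ : 𝒜.F) * D.eqn (𝒜.dom z.1))
      map_add' := fun φ ψ => by
        funext z
        change 𝒜.val z.1 (((φ : 𝒜.F) + ψ) * D.eqn (𝒜.dom z.1)) = _
        rw [add_mul, val_add (CDiv.mem_sections.mp (hU φ.2) z.1)
          (CDiv.mem_sections.mp (hU ψ.2) z.1)]
        rfl
      map_smul' := fun c φ => by
        funext z
        change 𝒜.val z.1 ((c • (φ : 𝒜.F)) * D.eqn (𝒜.dom z.1)) = _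
        rw [smul_mul_assoc, val_smul c (CDiv.mem_sections.mp (hU φ.2) z.1)]
        rfl }
  have hΦ : Function.Injective Φ := by
    rw [injective_iff_map_eq_zero]
    intro φ hφ
    obtain ⟨x, hxg, hx⟩ := exists_generic_nsmul_eq n hn (tower l).s (isGeneric_tower hpr)
    have h1 := vanish hadd hCE n hn D (hU φ.2) hquad l S (fun i => by
      rw [hS]; push_cast; exact hht i) 0 (fun u hu z hz => by
        rw [add_zero] at hz
        have hz' : z ∈ Z := hZ z (by rwa [hz])
        exact congrFun hφ ⟨z, hz'⟩) x (by rw [hx, map_zero, add_zero])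
    have h2 := isGeneric_iff.mp hxg _ (CDiv.mem_sections.mp (hU φ.2) x) h1
    have h3 := (mul_eq_zero.mp h2).resolve_right (D.eqn_ne_zero _)
    exact Subtype.ext h3
  have hfd : FiniteDimensional K U := FiniteDimensional.of_injective Φ hΦ
  refine ⟨hfd, ?_⟩
  have h4 := LinearMap.finrank_le_finrank_of_injective hΦ
  rw [Module.finrank_fintype_fun_eq_card, Fintype.card_coe] at h4
  exact h4.trans hcard

end AV

end Fermat.Agent.H26
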