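import Mathlib
import Fermat.Agent.H98Ev8
import Fermat.Agent.H76Card
import Fermat.Agent.H26Cube

/-!
# The number of torsion points of an abstract abelian variety (helper26, S26)
-/

set_option autoImplicit false

noncomputable section

open AlgebraicCurve

namespace Fermat.Agent.H26

universe u

namespace AV

variable {K : Type u} [Field K] [IsAlgClosed K] {𝒜 : AV K}

theorem htAdd (𝒜 : AV K) : HtAdd 𝒜 := fun D k E _ _ _ _ _ _ _ _ X P => ht_add_const k D X P

theorem htCE (𝒜 : AV K) : HtCE 𝒜 := fun D k E E' _ _ _ _ _ _ _ _ _ _ _ _ _ _ X =>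
  D.ht_CE (k := K) (k' := k) (E' := E') X

/-- **The torsion count.** -/
theorem card_torsion {g : ℕ} (hG : 𝒜.Good g) (n : ℕ) (hn : (n : K) ≠ 0) :
    Nat.card {x : 𝒜.Pt K // n • x = 0} = n ^ (2 * g) := by
  obtain ⟨r, hr, C, hC⟩ := evaluation' (htAdd 𝒜) (htCE 𝒜) hG
  exact card_torsion_of_evaluation hG
    (fun k E _ _ _ _ _ _ _ _ D X hD n => ht_nsmul k D X hD n) hr
    (fun i => (C i).E) (fun i => (C i).f) hC n hn

end AV

end Fermat.Agent.H26
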