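import Fermat.Agent.H26ZLat

/-!
# The determinant ideal of a lattice (helper26, S47, package C7)

`detI Λ` is the fractional ideal generated by the determinants `v₀ w₁ - v₁ w₀`, `v, w ∈ Λ`;
`lineI Λ v = {c | c v ∈ Λ}`.
-/

set_option autoImplicit false
set_option linter.unusedSectionVars false

noncomputable section

open scoped nonZeroDivisors MatrixGroups
open Matrix

namespace Fermat.Agent.H26Z

variable {R K : Type*} [CommRing R] [IsDedekindDomain R] [Field K] [Algebra R K]
  [IsFractionRing R K]

/-- the determinant of two vectors -/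
def det2 (v w : Fin 2 → K) : K := v 0 * w 1 - v 1 * w 0

theorem det2_gl (g : GL (Fin 2) K) (v w : Fin 2 → K) :
    det2 (g • v) (g • w) = g.1.det * det2 v w := by
  rw [det2, Lat.gl_smul_zero, Lat.gl_smul_zero, Lat.gl_smul_one, Lat.gl_smul_one,
    Matrix.det_fin_two, det2]
  ring

theorem det2_smul_smul (a b : K) (v w : Fin 2 → K) :
    det2 (a • v) (b • w) = a * b * det2 v w := by
  simp only [det2, Pi.smul_apply, smul_eq_mul]
  ring

variable (R K)

/-- the determinant as a bilinear map -/
def detBil : (Fin 2 → K) →ₗ[R] (Fin 2 → K) →ₗ[R] K :=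
  LinearMap.mk₂ R det2
    (fun v v' w => by simp only [det2, Pi.add_apply]; ring)
    (fun c v w => by
      simp only [det2, Pi.smul_apply, Algebra.smul_def]; ring)
    (fun v w w' => by simp only [det2, Pi.add_apply]; ring)
    (fun c v w => by
      simp only [det2, Pi.smul_apply, Algebra.smul_def]; ring)

variable {R K}

@[simp] theorem detBil_apply (v w : Fin 2 → K) : detBil R K v w = det2 v w := rfl

namespace Lat

/-- the module generated by the determinants -/
def detM (Λ : Lat R K) : Submodule R K := Submodule.map₂ (detBil R K) Λ.M Λ.M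

theorem det2_mem {Λ : Lat R K} {v w : Fin 2 → K} (hv : v ∈ Λ.M) (hw : w ∈ Λ.M) :
    det2 v w ∈ Λ.detM := Submodule.apply_mem_map₂ (detBil R K) hv hw

theorem detM_fg (Λ : Lat R K) : Λ.detM.FG := Λ.fg.map₂ _ Λ.fg

/-- the determinant ideal -/
def detF (Λ : Lat R K) : FractionalIdeal R⁰ K :=
  ⟨Λ.detM, FractionalIdeal.isFractional_of_fg Λ.detM_fg⟩

theorem coe_detF (Λ : Lat R K) : (Λ.detF : Submodule R K) = Λ.detM := rfl

/-- a lattice is not contained in a line: there are two independent vectors -/
theorem exists_det2_ne (Λ : Lat R K) {v : Fin 2 → K} (hv : v ≠ 0) :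
    ∃ w ∈ Λ.M, det2 v w ≠ 0 := by
  by_contra hcon
  push Not at hcon
  have h1 : Submodule.span K (Λ.M : Set (Fin 2 → K)) ≤ LinearMap.ker (detBil K K v) := by
    rw [Submodule.span_le]
    intro w hw
    exact hcon w hw
  rw [Λ.span_eq, top_le_iff] at h1
  apply hv
  have e1 : det2 v ![0, 1] = 0 := by
    have : (![0, 1] : Fin 2 → K) ∈ LinearMap.ker (detBil K K v) := by rw [h1]; trivial
    exact this
  have e2 : det2 v ![1, 0] = 0 := by
    have : (![1, 0] : Fin 2 → K) ∈ LinearMap.ker (detBil K K v) := by rw [h1]; trivial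
    exact this
  funext i
  fin_cases i
  · simpa [det2] using e1
  · simpa [det2] using e2

theorem exists_ne_zero (Λ : Lat R K) : ∃ v ∈ Λ.M, v ≠ 0 := by
  by_contra hcon
  push Not at hcon
  obtain ⟨w, hw, h⟩ := Λ.exists_det2_ne (v := ![1, 0])
    (fun h => one_ne_zero (α := K) (by simpa using congrFun h 0))
  rw [hcon w hw] at h
  exact h (by simp [det2])

theorem exists_det2 (Λ : Lat R K) : ∃ v ∈ Λ.M, ∃ w ∈ Λ.M, det2 v w ≠ 0 := by
  obtain ⟨v, hv, hv0⟩ := Λ.exists_ne_zero
  obtain ⟨w, hw, h⟩ := Λ.exists_det2_ne hv0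
  exact ⟨v, hv, w, hw, h⟩

theorem detF_ne_zero (Λ : Lat R K) : Λ.detF ≠ 0 := by
  obtain ⟨v, hv, w, hw, h⟩ := Λ.exists_det2
  intro h0
  apply h
  have h1 : det2 v w ∈ (Λ.detF : Submodule R K) := det2_mem hv hw
  rw [h0] at h1
  simpa using h1

/-- the determinant ideal as a unit -/
def detI (Λ : Lat R K) : (FractionalIdeal R⁰ K)ˣ := Units.mk0 Λ.detF Λ.detF_ne_zero

theorem coe_detI (Λ : Lat R K) : ((Λ.detI : FractionalIdeal R⁰ K) : Submodule R K) = Λ.detM := rfl

/-- the determinant ideal of `g Λ` -/
theorem detI_gl (g : GL (Fin 2) K) (Λ : Lat R K) :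
    (g • Λ).detI = toPrincipalIdeal R K (GeneralLinearGroup.det g) * Λ.detI := by
  apply Units.ext
  apply FractionalIdeal.coeToSubmodule_injective
  beta_reduce
  rw [coe_detI, Units.val_mul, coe_toPrincipalIdeal, FractionalIdeal.coe_mul,
    FractionalIdeal.coe_spanSingleton, coe_detI]
  apply le_antisymm
  · unfold detM
    rw [Submodule.map₂_le]
    rintro _ ⟨v, hv, rfl⟩ _ ⟨w, hw, rfl⟩
    have h1 : detBil R K (g • v) (g • w) = g.1.det * det2 v w := det2_gl g v w
    show detBil R K (g • v) (g • w) ∈ _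
    rw [h1]
    exact Submodule.mul_mem_mul (Submodule.mem_span_singleton_self _) (det2_mem hv hw)
  · rw [Submodule.mul_le]
    intro a ha d hd
    obtain ⟨r, rfl⟩ := Submodule.mem_span_singleton.mp ha
    have h2 : Λ.detM ≤ ((g • Λ).detM).comap
        (LinearMap.mulLeft R (g.1.det)) := by
      unfold detM
      rw [Submodule.map₂_le]
      intro v hv w hw
      have h5 : g.1.det * det2 v w ∈ (g • Λ).detM := by
        rw [← det2_gl]
        exact det2_mem (smul_mem_smul.mpr hv) (smul_mem_smul.mpr hw)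
      exact h5
    rw [smul_mul_assoc]
    exact Submodule.smul_mem _ _ (h2 hd)

/-- the determinant ideal of `I Λ` -/
theorem detI_ismul (I : (FractionalIdeal R⁰ K)ˣ) (Λ : Lat R K) :
    (I • Λ).detI = I * I * Λ.detI := by
  apply Units.ext
  apply FractionalIdeal.coeToSubmodule_injective
  beta_reduce
  rw [coe_detI, Units.val_mul, Units.val_mul, FractionalIdeal.coe_mul, FractionalIdeal.coe_mul,
    coe_detI]
  apply le_antisymm
  · unfold detM
    rw [Submodule.map₂_le]
    intro v hv w hw
    rw [ismul_M] at hv hw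
    refine Submodule.smul_induction_on hv ?_ ?_
    · intro a ha v hv
      refine Submodule.smul_induction_on hw ?_ ?_
      · intro b hb w hw
        have h1 : detBil R K (a • v) (b • w) = a * b * det2 v w := det2_smul_smul a b v w
        rw [h1]
        exact Submodule.mul_mem_mul (Submodule.mul_mem_mul ha hb) (det2_mem hv hw)
      · intro w w' h1 h2
        rw [map_add]
        exact add_mem h1 h2
    · intro v v' h1 h2
      rw [map_add, LinearMap.add_apply]
      exact add_mem h1 h2
  · rw [Submodule.mul_le]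
    intro c hc d hd
    have h3 : (((I : FractionalIdeal R⁰ K) : Submodule R K) *
        ((I : FractionalIdeal R⁰ K) : Submodule R K)) ≤
          ((I • Λ).detM).comap (LinearMap.mulRight R d) := by
      rw [Submodule.mul_le]
      intro a ha b hb
      show a * b * d ∈ (I • Λ).detM
      have h2 : Λ.detM ≤ ((I • Λ).detM).comap (LinearMap.mulLeft R (a * b)) := by
        unfold detM
        rw [Submodule.map₂_le]
        intro v hv w hw
        have h5 : a * b * det2 v w ∈ (I • Λ).detM := by
          rw [← det2_smul_smul]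
          exact det2_mem (Submodule.smul_mem_smul ha hv) (Submodule.smul_mem_smul hb hw)
        exact h5
      exact h2 hd
    exact h3 hc

/-- common denominators -/
theorem exists_den {M : Submodule R (Fin 2 → K)} (hM : M.FG) :
    ∃ d : R, d ≠ 0 ∧ ∀ v ∈ M, ∀ i, ∃ r : R, algebraMap R K r = algebraMap R K d * v i := by
  obtain ⟨S, rfl⟩ := hM
  classical
  obtain ⟨d, hd⟩ := IsLocalization.exist_integer_multiples_of_finset R⁰
    (S.image (fun v => v 0) ∪ S.image (fun v => v 1))
  refine ⟨d, nonZeroDivisors.ne_zero d.2, ?_⟩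
  intro v hv i
  induction hv using Submodule.span_induction with
  | mem v hv =>
    have h1 : v i ∈ S.image (fun v => v 0) ∪ S.image (fun v => v 1) := by
      rw [Finset.mem_union, Finset.mem_image, Finset.mem_image]
      fin_cases i
      · exact Or.inl ⟨v, hv, rfl⟩
      · exact Or.inr ⟨v, hv, rfl⟩
    obtain ⟨r, hr⟩ := hd _ h1
    exact ⟨r, by rw [hr, Algebra.smul_def]⟩
  | zero => exact ⟨0, by simp⟩
  | add v w _ _ hv hw =>
    obtain ⟨r, hr⟩ := hv
    obtain ⟨s, hs⟩ := hw
    exact ⟨r + s, by rw [map_add, hr, hs, Pi.add_apply, mul_add]⟩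
  | smul a v _ hv =>
    obtain ⟨r, hr⟩ := hv
    exact ⟨a * r, by rw [map_mul, hr, Pi.smul_apply, Algebra.smul_def]; ring⟩

end Lat

end Fermat.Agent.H26Z
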