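import Fermat.Agent.H26ZHt

/-!
# Finiteness theorems of reduction theory (helper26, S47, package C7)
-/

set_option autoImplicit false
set_option linter.unusedSectionVars false

noncomputable section

open scoped nonZeroDivisors MatrixGroups NumberField
open Matrix NumberField

namespace Fermat.Agent.H26Z

variable {K : Type*} [Field K] [NumberField K] {J : Type*} [Fintype J]

/-- a vector of `K²` at a complex embedding -/
def ev (φ : K →+* ℂ) (v : Fin 2 → K) : Fin 2 → ℂ := fun i => φ (v i)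

@[simp] theorem ev_apply (φ : K →+* ℂ) (v : Fin 2 → K) (i : Fin 2) : ev φ v i = φ (v i) := rfl

theorem ev_ne_zero (φ : K →+* ℂ) {v : Fin 2 → K} (hv : v ≠ 0) : ev φ v ≠ 0 := by
  intro h
  apply hv
  funext i
  have := congrFun h i
  exact φ.injective (this.trans (map_zero φ).symm)

theorem ev_gl (φ : K →+* ℂ) (g : GL (Fin 2) K) (v : Fin 2 → K) :
    ev φ (g • v) = GeneralLinearGroup.map φ g • ev φ v := by
  funext i
  fin_cases i
  · show φ ((g • v) 0) = (GeneralLinearGroup.map φ g • ev φ v) 0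
    rw [Lat.gl_smul_zero, Lat.gl_smul_zero, map_add, map_mul, map_mul]
    rfl
  · show φ ((g • v) 1) = (GeneralLinearGroup.map φ g • ev φ v) 1
    rw [Lat.gl_smul_one, Lat.gl_smul_one, map_add, map_mul, map_mul]
    rfl

theorem det_map (φ : K →+* ℂ) (g : GL (Fin 2) K) :
    (GeneralLinearGroup.map φ g).1.det = φ g.1.det := by
  rw [Matrix.det_fin_two, Matrix.det_fin_two, map_sub, map_mul, map_mul]
  rfl

/-- the action of `GL₂(K)` on a product of hyperbolic spaces -/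
def actJ (e : J → K →+* ℂ) (g : GL (Fin 2) K) (x : J → H3) : J → H3 :=
  fun j => GeneralLinearGroup.map (e j) g • x j

theorem actJ_apply (e : J → K →+* ℂ) (g : GL (Fin 2) K) (x : J → H3) (j : J) :
    actJ e g x j = GeneralLinearGroup.map (e j) g • x j := rfl

theorem actJ_one (e : J → K →+* ℂ) (x : J → H3) : actJ e 1 x = x := by
  funext j
  rw [actJ_apply, map_one, one_smul]

theorem actJ_mul (e : J → K →+* ℂ) (g h : GL (Fin 2) K) (x : J → H3) :
    actJ e (g * h) x = actJ e g (actJ e h x) := by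
  funext j
  rw [actJ_apply, map_mul, mul_smul]
  rfl

theorem hh_actJ (e : J → K →+* ℂ) (g : GL (Fin 2) K) (x : J → H3) (v : Fin 2 → K) (j : J) :
    hh (actJ e g x j) (ev (e j) (g • v)) = ‖e j g.1.det‖ * hh (x j) (ev (e j) v) := by
  rw [actJ_apply, ev_gl, hh_smul, det_map]

/-- the family of embeddings represents all infinite places -/
def Full (e : J → K →+* ℂ) : Prop := ∀ w : InfinitePlace K, ∃ j, InfinitePlace.mk (e j) = w

theorem Full.norm_le {e : J → K →+* ℂ} (he : Full e) {a : K} {B : ℝ}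
    (h : ∀ j, ‖e j a‖ ≤ B) (φ : K →+* ℂ) : ‖φ a‖ ≤ B := by
  obtain ⟨j, hj⟩ := he (InfinitePlace.mk φ)
  have h1 : InfinitePlace.mk (e j) a = InfinitePlace.mk φ a := by rw [hj]
  rw [InfinitePlace.apply, InfinitePlace.apply] at h1
  rw [← h1]
  exact h j

theorem finite_le {e : J → K →+* ℂ} (he : Full e) (Λ : Lat (𝓞 K) K) (B : ℝ) :
    {v : Fin 2 → K | v ∈ Λ.M ∧ ∀ j i, ‖e j (v i)‖ ≤ B}.Finite := by
  obtain ⟨d, hd, hden⟩ := Lat.exists_den Λ.fg
  obtain ⟨D, hD⟩ : ∃ D : ℝ, ∀ j, ‖e j (algebraMap (𝓞 K) K d)‖ ≤ D := by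
    obtain ⟨D, hD⟩ := (Set.finite_range fun j => ‖e j (algebraMap (𝓞 K) K d)‖).bddAbove
    exact ⟨D, fun j => hD ⟨j, rfl⟩⟩
  have hd' : algebraMap (𝓞 K) K d ≠ 0 := by
    intro h
    exact hd ((FaithfulSMul.algebraMap_injective (𝓞 K) K) (h.trans (map_zero _).symm))
  have hfin := Embeddings.finite_of_norm_le K ℂ (D * B)
  have h2 : {v : Fin 2 → K | ∀ i, algebraMap (𝓞 K) K d * v i ∈
      {x : K | IsIntegral ℤ x ∧ ∀ φ : K →+* ℂ, ‖φ x‖ ≤ D * B}}.Finite := by
    have h3 := Set.Finite.pi' (fun _ : Fin 2 => hfin)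
    refine Set.Finite.preimage (f := fun v : Fin 2 → K => fun i => algebraMap (𝓞 K) K d * v i)
      ?_ h3
    intro v _ w _ h
    funext i
    exact mul_left_cancel₀ hd' (congrFun h i)
  refine h2.subset ?_
  rintro v ⟨hv, hB⟩ i
  refine ⟨?_, ?_⟩
  · obtain ⟨r, hr⟩ := hden v hv i
    rw [← hr]
    exact r.2
  · refine he.norm_le fun j => ?_
    rw [map_mul, norm_mul]
    exact mul_le_mul (hD j) (hB j i) (norm_nonneg _) ((norm_nonneg _).trans (hD j))

/-- finitely many short vectors, uniformly for `x` in a bounded set -/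
theorem finite_short {e : J → K →+* ℂ} (he : Full e) (Λ : Lat (𝓞 K) K) {c : ℝ} (hc : 0 < c)
    (R Y B : ℝ) :
    {v : Fin 2 → K | v ∈ Λ.M ∧ ∃ x : J → H3, (∀ j, c ≤ (x j).y) ∧ (∀ j, (x j).y ≤ Y) ∧
      (∀ j, ‖(x j).z‖ ≤ R) ∧ ∀ j, hh (x j) (ev (e j) v) ≤ B}.Finite := by
  refine (finite_le he Λ (Real.sqrt (B / c) + (Real.sqrt (B * Y) + |R| * Real.sqrt (B / c)))).subset
    ?_
  rintro v ⟨hv, x, h1, h2, h3, h4⟩
  refine ⟨hv, fun j => ?_⟩
  have hy := (x j).pos
  have hB0 : 0 ≤ B := (hh_nonneg _ _).trans (h4 j)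
  have h5 : ‖e j (v 1)‖ ≤ Real.sqrt (B / c) := by
    apply Real.le_sqrt_of_sq_le
    rw [← Complex.normSq_eq_norm_sq]
    refine (normSq_one_le (x j) (ev (e j) v)).trans ?_
    exact (div_le_div_of_nonneg_right (h4 j) hy.le).trans
      (div_le_div_of_nonneg_left hB0 hc (h1 j))
  have h6 : ‖e j (v 0) - (x j).z * e j (v 1)‖ ≤ Real.sqrt (B * Y) := by
    apply Real.le_sqrt_of_sq_le
    rw [← Complex.normSq_eq_norm_sq]
    refine (normSq_zero_le (x j) (ev (e j) v)).trans ?_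
    exact mul_le_mul (h4 j) (h2 j) hy.le hB0
  have h7 : ‖e j (v 0)‖ ≤ Real.sqrt (B * Y) + |R| * Real.sqrt (B / c) := by
    have h8 : e j (v 0) = (e j (v 0) - (x j).z * e j (v 1)) + (x j).z * e j (v 1) := by ring
    rw [h8]
    refine (norm_add_le _ _).trans (add_le_add h6 ?_)
    rw [norm_mul]
    exact mul_le_mul ((h3 j).trans (le_abs_self R)) h5 (norm_nonneg _) (abs_nonneg _)
  have h9 : 0 ≤ Real.sqrt (B / c) := Real.sqrt_nonneg _
  have h10 : 0 ≤ Real.sqrt (B * Y) + |R| * Real.sqrt (B / c) := by positivity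
  intro i
  fin_cases i
  · exact h7.trans (le_add_of_nonneg_left h9)
  · exact h5.trans (le_add_of_nonneg_right h10)

end Fermat.Agent.H26Z
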