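import Fermat.Agent.H26ZDet
import Fermat.Agent.H31Hyp2

/-!
# The norm forms attached to points of hyperbolic space (helper26, S47, package C7)

`hh x v = (|v₀ - z v₁|² + |v₁|² y²) / y`; `hh (g x) (g v) = |det g| hh x v`;
`|det (v, w)|² ≤ hh x v * hh x w`; finiteness of the set of short vectors of a lattice.
-/

set_option autoImplicit false
set_option linter.unusedSectionVars false

noncomputable section

open scoped nonZeroDivisors MatrixGroups NumberField
open Matrix NumberField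

namespace Fermat.Agent.H26Z

/-- the norm form of a point of hyperbolic space -/
def hh (x : H3) (v : Fin 2 → ℂ) : ℝ :=
  (Complex.normSq (v 0 - x.z * v 1) + Complex.normSq (v 1) * x.y ^ 2) / x.y

theorem hh_nonneg (x : H3) (v : Fin 2 → ℂ) : 0 ≤ hh x v := by
  have h1 := x.pos
  have h2 := Complex.normSq_nonneg (v 0 - x.z * v 1)
  have h3 := Complex.normSq_nonneg (v 1)
  unfold hh
  positivity

theorem hh_pos (x : H3) {v : Fin 2 → ℂ} (hv : v ≠ 0) : 0 < hh x v := by
  have h1 := x.pos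
  have h2 := Complex.normSq_nonneg (v 0 - x.z * v 1)
  have h3 := Complex.normSq_nonneg (v 1)
  refine lt_of_le_of_ne (hh_nonneg x v) (fun h0 => hv ?_)
  have h4 : Complex.normSq (v 0 - x.z * v 1) + Complex.normSq (v 1) * x.y ^ 2 = 0 := by
    unfold hh at h0
    rcases div_eq_zero_iff.mp h0.symm with h | h
    · exact h
    · exact absurd h h1.ne'
  have h5 : 0 ≤ Complex.normSq (v 1) * x.y ^ 2 := by positivity
  have h6 : Complex.normSq (v 1) * x.y ^ 2 = 0 := by linarith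
  have h7 : Complex.normSq (v 1) = 0 := by
    rcases mul_eq_zero.mp h6 with h | h
    · exact h
    · exact absurd h (by positivity)
  have h8 : v 1 = 0 := Complex.normSq_eq_zero.mp h7
  have h9 : Complex.normSq (v 0 - x.z * v 1) = 0 := by linarith
  have h10 : v 0 = 0 := by
    have := Complex.normSq_eq_zero.mp h9
    rwa [h8, mul_zero, sub_zero] at this
  funext i
  fin_cases i
  · exact h10
  · exact h8

theorem hh_smul_vec (x : H3) (c : ℂ) (v : Fin 2 → ℂ) :
    hh x (c • v) = Complex.normSq c * hh x v := by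
  have h1 : (c • v) 0 - x.z * (c • v) 1 = c * (v 0 - x.z * v 1) := by
    simp only [Pi.smul_apply, smul_eq_mul]; ring
  have h2 : (c • v) 1 = c * v 1 := rfl
  rw [hh, h1, h2, map_mul, map_mul, hh]
  ring

/-- the norm form in terms of the Hermitian matrix -/
theorem hh_eq_herm (x : H3) (v : Fin 2 → ℂ) :
    ((hh x v : ℝ) : ℂ) = star v ⬝ᵥ ((H3.herm x).adjugate *ᵥ v) := by
  have hy := x.y_ne
  have h1 : ((Complex.normSq (v 0 - x.z * v 1) : ℝ) : ℂ) =
      (v 0 - x.z * v 1) * (starRingEnd ℂ) (v 0 - x.z * v 1) := (Complex.mul_conj _).symm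
  have h2 : ((Complex.normSq (v 1) : ℝ) : ℂ) = v 1 * (starRingEnd ℂ) (v 1) :=
    (Complex.mul_conj _).symm
  have h3 : ((Complex.normSq x.z : ℝ) : ℂ) = x.z * (starRingEnd ℂ) x.z := (Complex.mul_conj _).symm
  rw [hh, Matrix.adjugate_fin_two, H3.herm]
  simp only [Matrix.mulVec, dotProduct, Fin.sum_univ_two, Matrix.of_apply, Matrix.cons_val',
    Matrix.cons_val_one, Matrix.cons_val_zero, Matrix.cons_val_fin_one, Pi.star_apply,
    Complex.star_def]
  push_cast
  rw [h1, h2, h3]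
  field_simp
  simp only [map_sub, map_mul]
  ring

/-- transformation of the norm form -/
theorem hh_smul (g : GL (Fin 2) ℂ) (x : H3) (v : Fin 2 → ℂ) :
    hh (g • x) (g • v) = ‖g.1.det‖ * hh x v := by
  have hn : ((‖g.1.det‖ : ℝ) : ℂ) ≠ 0 := by exact_mod_cast (norm_pos_iff.mpr g.det.ne_zero).ne'
  have h1 : ((hh (g • x) (g • v) : ℝ) : ℂ) = ((‖g.1.det‖ * hh x v : ℝ) : ℂ) := by
    rw [hh_eq_herm, H3.herm_smul, Complex.ofReal_mul, hh_eq_herm]
    set G := g.1 with hG
    rw [Matrix.adjugate_smul, Fintype.card_fin, Matrix.adjugate_mul_distrib,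
      Matrix.adjugate_mul_distrib, pow_one, Matrix.smul_mulVec, dotProduct_smul]
    have h2 : g • v = G *ᵥ v := rfl
    have h3 : ((Gᴴ).adjugate * ((H3.herm x).adjugate * G.adjugate)) *ᵥ (G *ᵥ v) =
        G.det • ((Gᴴ).adjugate *ᵥ ((H3.herm x).adjugate *ᵥ v)) := by
      rw [Matrix.mulVec_mulVec, Matrix.mul_assoc, Matrix.mul_assoc, Matrix.adjugate_mul,
        Matrix.mul_smul, Matrix.mul_smul, Matrix.mul_one, Matrix.smul_mulVec,
        ← Matrix.mulVec_mulVec]
    have h4 : star (G *ᵥ v) ⬝ᵥ ((Gᴴ).adjugate *ᵥ ((H3.herm x).adjugate *ᵥ v)) =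
        (starRingEnd ℂ G.det) * (star v ⬝ᵥ ((H3.herm x).adjugate *ᵥ v)) := by
      rw [Matrix.star_mulVec, ← Matrix.dotProduct_mulVec, Matrix.mulVec_mulVec,
        Matrix.mul_adjugate, Matrix.det_conjTranspose, Matrix.smul_mulVec, Matrix.one_mulVec,
        dotProduct_smul, smul_eq_mul, Complex.star_def]
    rw [h2, h3, dotProduct_smul, h4, smul_eq_mul, smul_eq_mul, ← mul_assoc G.det,
      Complex.mul_conj, Complex.normSq_eq_norm_sq]
    push_cast
    field_simp
  exact_mod_cast h1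

/-- the two line inequality at one place -/
theorem normSq_det_le (x : H3) (v w : Fin 2 → ℂ) :
    Complex.normSq (v 0 * w 1 - v 1 * w 0) ≤ hh x v * hh x w := by
  have hy := x.pos
  set a := v 0 - x.z * v 1 with ha
  set b := w 0 - x.z * w 1 with hb
  have h1 : v 0 * w 1 - v 1 * w 0 = a * w 1 - v 1 * b := by rw [ha, hb]; ring
  have h2 : Complex.normSq (a * w 1 - v 1 * b) ≤
      (Complex.normSq a + Complex.normSq (v 1) * x.y ^ 2) *
        (Complex.normSq b + Complex.normSq (w 1) * x.y ^ 2) / x.y ^ 2 := by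
    rw [le_div_iff₀ (by positivity)]
    have h3 : ‖a * w 1 - v 1 * b‖ ≤ ‖a‖ * ‖w 1‖ + ‖v 1‖ * ‖b‖ := by
      refine (norm_sub_le _ _).trans ?_
      rw [norm_mul, norm_mul]
    have h4 : ‖a * w 1 - v 1 * b‖ ^ 2 ≤ (‖a‖ * ‖w 1‖ + ‖v 1‖ * ‖b‖) ^ 2 :=
      pow_le_pow_left₀ (norm_nonneg _) h3 2
    simp only [Complex.normSq_eq_norm_sq]
    have h5 := sq_nonneg (‖a‖ * ‖b‖ - ‖v 1‖ * ‖w 1‖ * x.y ^ 2)
    have h6 : 0 < x.y ^ 2 := by positivity
    nlinarith [mul_le_mul_of_nonneg_right h4 h6.le, sq_nonneg (‖a‖ * ‖b‖ - ‖v 1‖ * ‖w 1‖ * x.y ^ 2)]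
  rw [h1]
  refine h2.trans_eq ?_
  unfold hh
  rw [← ha, ← hb]
  field_simp

theorem hh_e1 (x : H3) (c : ℂ) : hh x ![c, 0] = Complex.normSq c / x.y := by
  simp [hh]

theorem hh_e2 (x : H3) (c : ℂ) :
    hh x ![0, c] = Complex.normSq c * (Complex.normSq x.z + x.y ^ 2) / x.y := by
  simp [hh]
  ring

theorem normSq_one_le (x : H3) (v : Fin 2 → ℂ) : Complex.normSq (v 1) ≤ hh x v / x.y := by
  have hy := x.pos
  rw [le_div_iff₀ hy, hh, le_div_iff₀ hy]
  nlinarith [Complex.normSq_nonneg (v 0 - x.z * v 1)]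

theorem normSq_zero_le (x : H3) (v : Fin 2 → ℂ) :
    Complex.normSq (v 0 - x.z * v 1) ≤ hh x v * x.y := by
  have hy := x.pos
  rw [hh, div_mul_cancel₀ _ hy.ne']
  have := Complex.normSq_nonneg (v 1)
  nlinarith [sq_nonneg x.y, mul_nonneg this (sq_nonneg x.y)]

end Fermat.Agent.H26Z
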