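import Fermat.Agent.H26ZFin2
import Fermat.Agent.H59Def

/-!
# Siegel sets: finiteness and volume (helper26, S47, package C7)
-/

set_option autoImplicit false
set_option linter.unusedSectionVars false

noncomputable section

open scoped nonZeroDivisors MatrixGroups NumberField
open Matrix NumberField MeasureTheory

namespace Fermat.Agent.H26Z

variable {J : Type*} [Fintype J]

/-- the Siegel set at infinity -/
def siegel (J : Type*) (c C R : ℝ) : Set (J → H3) :=
  {x | (∀ j, c ≤ (x j).y) ∧ (∀ j k, (x j).y ≤ C * (x k).y) ∧ ∀ j, ‖(x j).z‖ ≤ R}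

theorem siegel_eq (c C R : ℝ) : siegel J c C R =
    (⋂ j, {x : J → H3 | c ≤ (x j).y}) ∩ ((⋂ j, ⋂ k, {x : J → H3 | (x j).y ≤ C * (x k).y}) ∩
      ⋂ j, {x : J → H3 | ‖(x j).z‖ ≤ R}) := by
  ext x
  simp only [siegel, Set.mem_inter_iff, Set.mem_iInter, Set.mem_ofPred_eq]

theorem measurableSet_siegel (c C R : ℝ) : MeasurableSet (siegel J c C R) := by
  have hy : ∀ j, Measurable fun x : J → H3 => (x j).y :=
    fun j => H3.measurable_y.comp (measurable_pi_apply j)
  have hz : ∀ j, Measurable fun x : J → H3 => ‖(x j).z‖ :=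
    fun j => (H3.measurable_z.comp (measurable_pi_apply j)).norm
  rw [siegel_eq]
  refine MeasurableSet.inter ?_ (MeasurableSet.inter ?_ ?_)
  · exact MeasurableSet.iInter fun j => measurableSet_le measurable_const (hy j)
  · exact MeasurableSet.iInter fun j => MeasurableSet.iInter fun k =>
      measurableSet_le (hy j) (measurable_const.mul (hy k))
  · exact MeasurableSet.iInter fun j => measurableSet_le (hz j) measurable_const

theorem yMeasure_Ici_lt_top {c : ℝ} (hc : 0 < c) : H3.yMeasure (Set.Ici c) < ⊤ := by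
  have h1 : IntegrableOn (fun y : ℝ => y ^ (-3 : ℝ)) (Set.Ioi (c / 2)) :=
    integrableOn_Ioi_rpow_of_lt (by norm_num) (by positivity)
  rw [H3.yMeasure, withDensity_apply _ measurableSet_Ici]
  have h2 : ∫⁻ y in Set.Ici c, ENNReal.ofReal ((y ^ 3)⁻¹) ∂(volume.restrict (Set.Ioi 0)) ≤
      ∫⁻ y in Set.Ioi (c / 2), ENNReal.ofReal ((y ^ 3)⁻¹) := by
    rw [Measure.restrict_restrict measurableSet_Ici]
    refine lintegral_mono_set ?_
    intro y hy
    have : c ≤ y := hy.1
    show c / 2 < y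
    linarith
  refine h2.trans_lt ?_
  have h3 : ∫⁻ y in Set.Ioi (c / 2), ENNReal.ofReal ((y ^ 3)⁻¹) =
      ∫⁻ y in Set.Ioi (c / 2), ‖y ^ (-3 : ℝ)‖ₑ := by
    refine setLIntegral_congr_fun measurableSet_Ioi fun y hy => ?_
    have hy0 : 0 < y := lt_trans (by positivity) hy
    show ENNReal.ofReal ((y ^ 3)⁻¹) = ‖y ^ (-3 : ℝ)‖ₑ
    rw [Real.enorm_eq_ofReal (by positivity), Real.rpow_neg hy0.le]
    norm_num
  rw [h3]
  exact h1.2

/-- one factor: `{|z| ≤ R, y ≥ c}` has finite volume -/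
theorem volume_box_lt_top {c : ℝ} (hc : 0 < c) (R : ℝ) :
    volume {w : H3 | c ≤ w.y ∧ ‖w.z‖ ≤ R} < ⊤ := by
  have h1 : {w : H3 | c ≤ w.y ∧ ‖w.z‖ ≤ R} =
      (fun w : H3 => (w.z, w.y)) ⁻¹' (Metric.closedBall (0 : ℂ) R ×ˢ Set.Ici c) := by
    ext w
    simp [and_comm]
  rw [h1, H3.measurePreserving_zy.measure_preimage
    (Metric.isClosed_closedBall.measurableSet.prod measurableSet_Ici).nullMeasurableSet,
    Measure.prod_prod]
  exact ENNReal.mul_lt_top measure_closedBall_lt_top (yMeasure_Ici_lt_top hc)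

/-- the Siegel set has finite volume -/
theorem volume_siegel_lt_top {c : ℝ} (hc : 0 < c) (C R : ℝ) :
    volume (siegel J c C R) < ⊤ := by
  have h1 : siegel J c C R ⊆ Set.pi Set.univ (fun _ : J => {w : H3 | c ≤ w.y ∧ ‖w.z‖ ≤ R}) :=
    fun x hx j _ => ⟨hx.1 j, hx.2.2 j⟩
  refine (measure_mono h1).trans_lt ?_
  rw [volume_pi_pi]
  exact ENNReal.prod_lt_top fun j _ => volume_box_lt_top hc R

/-! ### Finiteness in `PGL₂(K)` -/

variable {K : Type*} [Field K] [NumberField K]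

/-- the action of `PGL₂(K)` on `J → ℍ³` (`= Model.actInf`) -/
def hAct (e : J → K →+* ℂ) (g : PGL(2, K)) (x : J → H3) : J → H3 :=
  fun j => ProjGenLinGroup.map (e j) g • x j

theorem hAct_mk (e : J → K →+* ℂ) (g : GL (Fin 2) K) (x : J → H3) :
    hAct e (ProjGenLinGroup.mk g) x = actJ e g x := rfl

theorem hAct_model (m : H59D.Model K J) (g : PGL(2, K)) (x : J → H3) :
    m.actInf g x = hAct m.e g x := rfl

theorem actJ_scalar_mul (e : J → K →+* ℂ) (c : Kˣ) (g : GL (Fin 2) K) (x : J → H3) :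
    actJ e (GeneralLinearGroup.scalar (Fin 2) c * g) x = actJ e g x := by
  rw [← hAct_mk, ← hAct_mk, map_mul, ProjGenLinGroup.mk_scalar, one_mul]

theorem full_of_bij {e : J → K →+* ℂ} (he : Function.Bijective fun j => InfinitePlace.mk (e j)) :
    Full e := fun w => he.2 w

/-- [FIN] for two lattice classes -/
theorem finite_latC {e : J → K →+* ℂ} (he : Full e) (l l' : LatC (𝓞 K) K) (x : J → H3)
    {c : ℝ} (hc : 0 < c) (R : ℝ) :
    {g : PGL(2, K) | g • l = l' ∧ (∀ j, c ≤ (hAct e g x j).y) ∧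
      ∀ j, ‖(hAct e g x j).z‖ ≤ R}.Finite := by
  obtain ⟨Λ, rfl⟩ := LatC.mk_surjective l
  obtain ⟨Λ', rfl⟩ := LatC.mk_surjective l'
  obtain ⟨P, hP, hlift⟩ := exists_lifts Λ Λ'
  refine ((hP.biUnion fun p _ => (finite_point he Λ (p.1 • Λ') p.2 x hc R)).image
    ProjGenLinGroup.mk).subset ?_
  rintro g ⟨h1, h2, h3⟩
  induction g using ProjGenLinGroup.induction_on with
  | mk g =>
    rw [LatC.pgl_smul] at h1
    obtain ⟨a, p, hp, h4, h5⟩ := hlift g h1
    refine ⟨GeneralLinearGroup.scalar (Fin 2) a * g, ?_, ?_⟩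
    · simp only [Set.mem_iUnion]
      refine ⟨p, hp, h4, h5, ?_, ?_⟩
      · rw [actJ_scalar_mul]
        exact h2
      · rw [actJ_scalar_mul]
        exact h3
    · rw [map_mul, ProjGenLinGroup.mk_scalar, one_mul]

/-- [FIN]: a point has finitely many translates in a Siegel set. `Y` is any `PGL₂(K)`-set with an
equivariant map to the lattice classes. -/
theorem finite_siegel {e : J → K →+* ℂ} (he : Full e) {Y : Type*} [MulAction PGL(2, K) Y]
    (π : Y → LatC (𝓞 K) K) (hπ : ∀ (g : PGL(2, K)) y, π (g • y) = g • π y)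
    {Y0 : Set Y} (hY0 : Y0.Finite) (x : J → H3) (y : Y) {c : ℝ} (hc : 0 < c) (C R : ℝ) :
    {g : PGL(2, K) | hAct e g x ∈ siegel J c C R ∧ g • y ∈ Y0}.Finite := by
  refine ((hY0.image π).biUnion fun l' _ => finite_latC he (π y) l' x hc R).subset ?_
  rintro g ⟨h1, h2⟩
  simp only [Set.mem_iUnion]
  exact ⟨π (g • y), ⟨_, h2, rfl⟩, (hπ g y).symm, h1.1, h1.2.2⟩

end Fermat.Agent.H26Z
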