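import Fermat.Agent.H27LTDefs
import Mathlib

/-!
Binary forms attached to ideals of imaginary quadratic fields.
-/

set_option autoImplicit false

namespace Fermat.Agent.LT

open Matrix NumberField Module

variable (K : Type*) [Field K] [NumberField K]

lemma exists_conj_pair (h2 : finrank ℚ K = 2) [IsTotallyComplex K] :
    ∃ e : Fin 2 ≃ (K →ₐ[ℚ] ℂ), ∀ x, e 1 x = (starRingEnd ℂ) (e 0 x) := by
  have hcard : Fintype.card (K →ₐ[ℚ] ℂ) = 2 := by rw [AlgHom.card, h2]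
  obtain ⟨σ⟩ : Nonempty (K →ₐ[ℚ] ℂ) := by
    rw [← Fintype.card_pos_iff, hcard]; norm_num
  let τ : K →ₐ[ℚ] ℂ := (ComplexEmbedding.conjugate (σ : K →+* ℂ)).toRatAlgHom
  have hτ : ∀ x, τ x = (starRingEnd ℂ) (σ x) := fun x => rfl
  have hne : σ ≠ τ := by
    intro h
    have hc : (InfinitePlace.mk (σ : K →+* ℂ)).IsComplex := IsTotallyComplex.isComplex _
    rw [InfinitePlace.isComplex_mk_iff, ComplexEmbedding.isReal_iff] at hc
    apply hc
    ext x
    have := congrArg (fun f : K →ₐ[ℚ] ℂ => f x) h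
    exact (this).symm
  have hinj : Function.Injective ![σ, τ] := by
    intro i j hij
    fin_cases i <;> fin_cases j <;> simp_all
  have hbij : Function.Bijective ![σ, τ] := by
    rw [Fintype.bijective_iff_injective_and_card]
    exact ⟨hinj, by rw [hcard]; simp⟩
  exact ⟨Equiv.ofBijective _ hbij, fun x => hτ x⟩

variable {K}

lemma norm_eq_normSq (e : Fin 2 ≃ (K →ₐ[ℚ] ℂ)) (he : ∀ x, e 1 x = (starRingEnd ℂ) (e 0 x))
    (x : 𝓞 K) : (((Ideal.absNorm (Ideal.span {x}) : ℕ) : ℝ)) = Complex.normSq (e 0 (x : K)) := by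
  have h1 : ((Algebra.norm ℚ (x : K) : ℚ) : ℂ) = (Complex.normSq (e 0 (x : K)) : ℂ) := by
    have := Algebra.norm_eq_prod_embeddings ℚ ℂ (x : K)
    rw [← Equiv.prod_comp e] at this
    simp only [Fin.prod_univ_two, he] at this
    rw [Complex.mul_conj] at this
    simpa using this
  have h2 : ((Algebra.norm ℤ x : ℤ) : ℝ) = Complex.normSq (e 0 (x : K)) := by
    have h3 := Algebra.coe_norm_int x
    have h4 : ((Algebra.norm ℤ x : ℤ) : ℂ) = (Complex.normSq (e 0 (x : K)) : ℂ) := by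
      rw [← h1, ← h3]; simp
    exact_mod_cast h4
  rw [Ideal.absNorm_span_singleton]
  have h5 : 0 ≤ Algebra.norm ℤ x := by
    have : (0 : ℝ) ≤ ((Algebra.norm ℤ x : ℤ) : ℝ) := by rw [h2]; exact Complex.normSq_nonneg _
    exact_mod_cast this
  rw [← h2]
  have h6 : (((Algebra.norm ℤ x).natAbs : ℕ) : ℤ) = Algebra.norm ℤ x := Int.natAbs_of_nonneg h5
  have h7 : ((((Algebra.norm ℤ x).natAbs : ℕ) : ℤ) : ℝ) = ((Algebra.norm ℤ x : ℤ) : ℝ) := by
    rw [h6]
  rw [← h7, Int.cast_natCast]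

lemma det_sq (e : Fin 2 ≃ (K →ₐ[ℚ] ℂ)) (I : Ideal (𝓞 K)) (b : Basis (Fin 2) ℤ (𝓞 K))
    (bI : Basis (Fin 2) ℤ I) :
    (e 0 ((bI 0 : 𝓞 K) : K) * e 1 ((bI 1 : 𝓞 K) : K) -
      e 0 ((bI 1 : 𝓞 K) : K) * e 1 ((bI 0 : 𝓞 K) : K)) ^ 2 =
      (Ideal.absNorm I : ℂ) ^ 2 * ((discr K : ℤ) : ℂ) := by
  let b' := Basis.localizationLocalization ℚ (nonZeroDivisors ℤ) K b
  have hb' : ∀ i, b' i = ((b i : 𝓞 K) : K) := fun i => by
    simp [b', Basis.localizationLocalization_apply]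
  have hd : ((discr K : ℤ) : ℂ) =
      (e 0 (b 0 : K) * e 1 (b 1 : K) - e 0 (b 1 : K) * e 1 (b 0 : K)) ^ 2 := by
    have h1 := Algebra.discr_localizationLocalization ℤ (nonZeroDivisors ℤ) (Rₘ := ℚ) K b
    rw [NumberField.discr_eq_discr] at h1
    have h2 := Algebra.discr_eq_det_embeddingsMatrixReindex_pow_two ℚ ℂ b' e
    rw [show Algebra.discr ℚ (b' : Fin 2 → K) = ((discr K : ℤ) : ℚ) from h1] at h2
    rw [Matrix.det_fin_two] at h2
    simp only [Algebra.embeddingsMatrixReindex, Algebra.embeddingsMatrix, Matrix.reindex_apply,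
      Matrix.submatrix_apply, Matrix.of_apply, hb'] at h2
    have h3 : ((discr K : ℤ) : ℂ) =
        (e 0 (b 0 : K) * e 1 (b 1 : K) - e 1 (b 0 : K) * e 0 (b 1 : K)) ^ 2 := by simpa using h2
    rw [h3]; ring
  have hP := Ideal.natAbs_det_basis_change b I bI
  rw [Basis.det_apply] at hP
  set P := b.toMatrix (((↑) : I → 𝓞 K) ∘ bI) with hPdef
  have hv : ∀ j, ((bI j : 𝓞 K) : K) = (P 0 j : K) * (b 0 : K) + (P 1 j : K) * (b 1 : K) := by
    intro j
    have h1 := b.sum_toMatrix_smul_self (((↑) : I → 𝓞 K) ∘ bI) j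
    rw [Fin.sum_univ_two] at h1
    have h2 := congrArg (fun z : 𝓞 K => (z : K)) h1
    simp only [Function.comp] at h2
    rw [← h2]
    simp [zsmul_eq_mul, hPdef]
  have hdet : (P.det : ℂ) ^ 2 = (Ideal.absNorm I : ℂ) ^ 2 := by
    rw [← hP]
    have h1 : ((P.det.natAbs : ℕ) : ℤ) ^ 2 = P.det ^ 2 := by simp
    have h2 : ((((P.det.natAbs : ℕ) : ℤ) : ℂ)) ^ 2 = ((P.det : ℤ) : ℂ) ^ 2 := by
      rw [← Int.cast_pow, h1, Int.cast_pow]
    rw [← h2, Int.cast_natCast]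
  rw [← hdet, hd, hv 0, hv 1, Matrix.det_fin_two]
  simp only [map_add, map_mul, map_intCast]
  push_cast
  ring

/-- The data of the binary form of an ideal. -/
structure IsBQF (D : ℕ) (a b c : ℤ) : Prop where
  pos : 0 < a
  pos' : 0 < c
  disc : 4 * a * c - b ^ 2 = D

/-- Value of the norm form of the ideal `I`. -/
noncomputable def qI (I : Ideal (𝓞 K)) (x : I) : ℕ :=
  Ideal.absNorm (Ideal.span {(x : 𝓞 K)}) / Ideal.absNorm I

lemma absNorm_dvd (I : Ideal (𝓞 K)) (x : I) :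
    Ideal.absNorm I ∣ Ideal.absNorm (Ideal.span {(x : 𝓞 K)}) :=
  Ideal.absNorm_dvd_absNorm_of_le ((Ideal.span_singleton_le_iff_mem I).mpr x.2)

lemma qI_mul (I : Ideal (𝓞 K)) (x : I) :
    qI I x * Ideal.absNorm I = Ideal.absNorm (Ideal.span {(x : 𝓞 K)}) :=
  Nat.div_mul_cancel (absNorm_dvd I x)

theorem exists_gram (h2 : finrank ℚ K = 2) [IsTotallyComplex K] (I : Ideal (𝓞 K)) (hI : I ≠ ⊥) :
    ∃ (v : Basis (Fin 2) ℤ I) (a b c : ℤ), IsBQF (discr K).natAbs a b c ∧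
      ∀ x y : ℤ, (qI I (x • v 0 + y • v 1) : ℤ) = a * x ^ 2 + b * x * y + c * y ^ 2 := by
  obtain ⟨e, he⟩ := exists_conj_pair K h2
  have hfr : finrank ℤ (𝓞 K) = 2 := by rw [RingOfIntegers.rank, h2]
  let b0 : Basis (Fin 2) ℤ (𝓞 K) := finBasisOfFinrankEq ℤ (𝓞 K) hfr
  have hfrI : finrank ℤ I = 2 := by
    have := Ideal.finrank_eq_finrank b0 I hI
    rw [hfr] at this
    exact this
  let v : Basis (Fin 2) ℤ I := finBasisOfFinrankEq ℤ I hfrI
  have hN : (Ideal.absNorm I : ℝ) ≠ 0 := by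
    have : Ideal.absNorm I ≠ 0 := Ideal.absNorm_eq_zero_iff.not.mpr hI
    exact_mod_cast this
  have hNpos : (0 : ℝ) < (Ideal.absNorm I : ℝ) := lt_of_le_of_ne (Nat.cast_nonneg _) hN.symm
  have hq : ∀ x : I, (qI I x : ℝ) * Ideal.absNorm I = Complex.normSq (e 0 ((x : 𝓞 K) : K)) := by
    intro x
    rw [← norm_eq_normSq e he, ← qI_mul]
    push_cast
    ring
  set z0 : ℂ := e 0 ((v 0 : 𝓞 K) : K) with hz0
  set z1 : ℂ := e 0 ((v 1 : 𝓞 K) : K) with hz1
  have hxy : ∀ x y : ℤ, e 0 (((x • v 0 + y • v 1 : I) : 𝓞 K) : K) = x * z0 + y * z1 := by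
    intro x y
    simp [hz0, hz1, zsmul_eq_mul]
  let a : ℤ := qI I (v 0)
  let c : ℤ := qI I (v 1)
  let b : ℤ := (qI I (v 0 + v 1) : ℤ) - a - c
  have ha : (a : ℝ) * Ideal.absNorm I = Complex.normSq z0 := by
    simpa [a] using hq (v 0)
  have hc : (c : ℝ) * Ideal.absNorm I = Complex.normSq z1 := by
    simpa [c] using hq (v 1)
  have hb : (b : ℝ) * Ideal.absNorm I = 2 * (z0.re * z1.re + z0.im * z1.im) := by
    have h1 := hq (v 0 + v 1)
    have h3 := hxy 1 1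
    simp only [one_smul, Int.cast_one, one_mul] at h3
    rw [h3] at h1
    simp only [b]
    push_cast
    rw [sub_mul, sub_mul, ha, hc, h1]
    simp only [Complex.normSq_apply, Complex.add_re, Complex.add_im]
    ring
  have hform : ∀ x y : ℤ, (qI I (x • v 0 + y • v 1) : ℤ) = a * x ^ 2 + b * x * y + c * y ^ 2 := by
    intro x y
    have h1 := hq (x • v 0 + y • v 1)
    rw [hxy] at h1
    have h3 : ((qI I (x • v 0 + y • v 1) : ℕ) : ℝ) * Ideal.absNorm I =
        ((a * x ^ 2 + b * x * y + c * y ^ 2 : ℤ) : ℝ) * Ideal.absNorm I := by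
      rw [h1]
      push_cast
      have : ((a : ℝ) * x ^ 2 + b * x * y + c * y ^ 2) * Ideal.absNorm I =
        (a * Ideal.absNorm I) * x ^ 2 + (b * Ideal.absNorm I) * x * y +
          (c * Ideal.absNorm I) * y ^ 2 := by ring
      rw [this, ha, hb, hc]
      simp only [Complex.normSq_apply, Complex.add_re, Complex.add_im, Complex.mul_re,
        Complex.mul_im, Complex.intCast_re, Complex.intCast_im]
      ring
    have h4 := mul_right_cancel₀ hN h3
    exact_mod_cast h4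
  have hvne : ∀ i, ((v i : 𝓞 K) : K) ≠ 0 := by
    intro i h
    apply v.ne_zero i
    have h1 : (v i : 𝓞 K) = 0 := by
      exact_mod_cast (RingOfIntegers.coe_eq_zero_iff.mp h)
    exact Subtype.ext h1
  have hposq : ∀ i, 0 < qI I (v i) := by
    intro i
    have h1 : (0 : ℝ) < Complex.normSq (e 0 ((v i : 𝓞 K) : K)) := by
      rw [Complex.normSq_pos]
      exact (map_ne_zero _).mpr (hvne i)
    rw [← hq] at h1
    have h3 := (pos_iff_pos_of_mul_pos h1).mpr hNpos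
    exact_mod_cast h3
  refine ⟨v, a, b, c, ⟨?_, ?_, ?_⟩, hform⟩
  · exact Int.natCast_pos.mpr (hposq 0)
  · exact Int.natCast_pos.mpr (hposq 1)
  · have h1 := det_sq e I b0 v
    rw [he, he, ← hz0, ← hz1] at h1
    have h3 : (z0 * (starRingEnd ℂ) z1 - z1 * (starRingEnd ℂ) z0) ^ 2 =
        -(4 * (z0.im * z1.re - z0.re * z1.im) ^ 2 : ℝ) := by
      apply Complex.ext
      · simp [pow_two, Complex.mul_re, Complex.mul_im]
        ring
      · simp [pow_two, Complex.mul_re, Complex.mul_im]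
        ring
    rw [h3] at h1
    have h4 : -(4 * (z0.im * z1.re - z0.re * z1.im) ^ 2 : ℝ) =
        (Ideal.absNorm I : ℝ) ^ 2 * ((discr K : ℤ) : ℝ) := by exact_mod_cast h1
    have h5 : ((4 * a * c - b ^ 2 : ℤ) : ℝ) * (Ideal.absNorm I : ℝ) ^ 2 =
        (-((discr K : ℤ) : ℝ)) * (Ideal.absNorm I : ℝ) ^ 2 := by
      push_cast
      have : (4 * (a : ℝ) * c - b ^ 2) * (Ideal.absNorm I : ℝ) ^ 2 =
        4 * (a * Ideal.absNorm I) * (c * Ideal.absNorm I) - (b * Ideal.absNorm I) ^ 2 := by ring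
      rw [this, ha, hb, hc]
      simp only [Complex.normSq_apply]
      linear_combination -h4
    have h6 := mul_right_cancel₀ (pow_ne_zero 2 hN) h5
    have h7 : 4 * a * c - b ^ 2 = - discr K := by exact_mod_cast h6
    have h8 : discr K ≤ 0 := by
      have h9 : (Ideal.absNorm I : ℝ) ^ 2 * ((discr K : ℤ) : ℝ) ≤ 0 := by
        rw [← h4]; nlinarith [sq_nonneg (z0.im * z1.re - z0.re * z1.im)]
      have h10 : ((discr K : ℤ) : ℝ) ≤ 0 := by
        by_contra hcon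
        push Not at hcon
        have : 0 < (Ideal.absNorm I : ℝ) ^ 2 * ((discr K : ℤ) : ℝ) := by positivity
        linarith
      exact_mod_cast h10
    rw [h7]
    omega

end Fermat.Agent.LT
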