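import Mathlib

/-!
Common definitions for the theta series block (M3): even positive definite quaternary forms of
level `M` and discriminant `M ^ 2`, and their representation numbers.
-/

set_option autoImplicit false

namespace Fermat.Agent.LT

open Matrix

/-- `A` is the Gram matrix of an even positive definite quaternary form of level `M` and
discriminant `M ^ 2`. -/
structure IsQF (M : ℕ) (A : Matrix (Fin 4) (Fin 4) ℤ) : Prop where
  symm : A.IsSymm
  even : ∀ i, Even (A i i)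
  pos : ∀ x : Fin 4 → ℤ, x ≠ 0 → 0 < x ⬝ᵥ (A *ᵥ x)
  adj : ∃ B : Matrix (Fin 4) (Fin 4) ℤ, B.IsSymm ∧ (∀ i, Even (B i i)) ∧ A * B = (M : ℤ) • 1
  det : A.det = (M : ℤ) ^ 2

/-- number of representations of `n` by the form `x ↦ (x ⬝ᵥ A *ᵥ x) / 2`. -/
noncomputable def rep (A : Matrix (Fin 4) (Fin 4) ℤ) (n : ℕ) : ℕ :=
  Nat.card {x : Fin 4 → ℤ // x ⬝ᵥ (A *ᵥ x) = 2 * (n : ℤ)}

/-- Brandt matrices: `B n i j` together with the even forms `A i j`. -/
structure BrandtData (M : ℕ) (Y : Type) [Fintype Y] [DecidableEq Y] (S : Set ℕ) where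
  A : Y → Y → Matrix (Fin 4) (Fin 4) ℤ
  isQF : ∀ i j, IsQF M (A i j)
  B : ℕ → Y → Y → ℕ
  rep_eq : ∀ n, 1 ≤ n → ∀ i j, rep (A i j) n = 2 * B n i j
  symm : ∀ n i j, B n i j = B n j i
  one : ∀ i j, B 1 i j = if i = j then 1 else 0
  hecke : ∀ l : ℕ, l.Prime → ¬ l ∣ M → ∀ n, 1 ≤ n → ∀ i j,
    B (l * n) i j + l * (if l ∣ n then B (n / l) i j else 0) = ∑ k, B l i k * B n k j
  ram : ∀ v ∈ S, v.Prime → v ∣ M → ∀ n, 1 ≤ n → ∀ i j,
    B (v * n) i j = ∑ k, B v i k * B n k j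

end Fermat.Agent.LT
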