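import Mathlib
import Fermat.Agent.H16Poisson

/-!
# Quaternary theta series, part 1: lattices and Poisson summation (LT M3a, helper45)
-/

set_option autoImplicit false

noncomputable section

namespace Fermat.Agent.H45.Th

open Matrix Complex
open scoped Real

/-- the bilinear form of an integral matrix -/
def bl (G : Matrix (Fin 4) (Fin 4) ℤ) (x y : Fin 4 → ℤ) : ℤ := x ⬝ᵥ (G *ᵥ y)

/-- the quadratic form `½ xᵀ G x` -/
def Q (G : Matrix (Fin 4) (Fin 4) ℤ) (x : Fin 4 → ℤ) : ℤ := bl G x x / 2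

section Bl

variable {G : Matrix (Fin 4) (Fin 4) ℤ}

theorem bl_add_left (x y z : Fin 4 → ℤ) : bl G (x + y) z = bl G x z + bl G y z := by
  rw [bl, bl, bl, add_dotProduct]

theorem bl_add_right (x y z : Fin 4 → ℤ) : bl G x (y + z) = bl G x y + bl G x z := by
  rw [bl, bl, bl, mulVec_add, dotProduct_add]

theorem bl_smul_left (c : ℤ) (x y : Fin 4 → ℤ) : bl G (c • x) y = c * bl G x y := by
  rw [bl, bl, smul_dotProduct, smul_eq_mul]

theorem bl_smul_right (c : ℤ) (x y : Fin 4 → ℤ) : bl G x (c • y) = c * bl G x y := by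
  rw [bl, bl, mulVec_smul, dotProduct_smul, smul_eq_mul]

theorem bl_comm (hG : Gᵀ = G) (x y : Fin 4 → ℤ) : bl G x y = bl G y x := by
  rw [bl, bl, dotProduct_mulVec, ← mulVec_transpose, hG, dotProduct_comm]

theorem even_bl (hG : Gᵀ = G) (he : ∀ i, Even (G i i)) (x : Fin 4 → ℤ) : Even (bl G x x) := by
  have h10 : G 1 0 = G 0 1 := congrFun (congrFun hG 0) 1
  have h20 : G 2 0 = G 0 2 := congrFun (congrFun hG 0) 2
  have h30 : G 3 0 = G 0 3 := congrFun (congrFun hG 0) 3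
  have h21 : G 2 1 = G 1 2 := congrFun (congrFun hG 1) 2
  have h31 : G 3 1 = G 1 3 := congrFun (congrFun hG 1) 3
  have h32 : G 3 2 = G 2 3 := congrFun (congrFun hG 2) 3
  obtain ⟨g0, h0⟩ := he 0
  obtain ⟨g1, h1⟩ := he 1
  obtain ⟨g2, h2⟩ := he 2
  obtain ⟨g3, h3⟩ := he 3
  refine ⟨g0 * x 0 ^ 2 + g1 * x 1 ^ 2 + g2 * x 2 ^ 2 + g3 * x 3 ^ 2 + G 0 1 * x 0 * x 1 +
    G 0 2 * x 0 * x 2 + G 0 3 * x 0 * x 3 + G 1 2 * x 1 * x 2 + G 1 3 * x 1 * x 3 +
    G 2 3 * x 2 * x 3, ?_⟩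
  simp only [bl, dotProduct, mulVec, Fin.sum_univ_four, h10, h20, h30, h21, h31, h32, h0, h1, h2, h3]
  ring

theorem two_mul_Q (hG : Gᵀ = G) (he : ∀ i, Even (G i i)) (x : Fin 4 → ℤ) :
    2 * Q G x = bl G x x :=
  Int.mul_ediv_cancel' (even_bl hG he x).two_dvd

theorem Q_add (hG : Gᵀ = G) (he : ∀ i, Even (G i i)) (x y : Fin 4 → ℤ) :
    Q G (x + y) = Q G x + Q G y + bl G x y := by
  have h1 := two_mul_Q hG he (x + y)
  have h2 := two_mul_Q hG he x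
  have h3 := two_mul_Q hG he y
  rw [bl_add_left, bl_add_right, bl_add_right, bl_comm hG y x] at h1
  linarith

theorem Q_smul (hG : Gᵀ = G) (he : ∀ i, Even (G i i)) (c : ℤ) (x : Fin 4 → ℤ) :
    Q G (c • x) = c ^ 2 * Q G x := by
  have h1 := two_mul_Q hG he (c • x)
  have h2 := two_mul_Q hG he x
  rw [bl_smul_left, bl_smul_right, ← h2] at h1
  linarith

theorem cast_bl (x : Fin 4 → ℤ) :
    ((fun i => (x i : ℝ)) ⬝ᵥ ((G.map (Int.cast : ℤ → ℝ)) *ᵥ (fun i => (x i : ℝ)))) =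
      ((bl G x x : ℤ) : ℝ) := by
  simp only [bl, dotProduct, mulVec, Fin.sum_univ_four, map_apply]
  push_cast
  ring

end Bl

/-- A positive definite even quaternary lattice of level dividing `N` and discriminant `D²`. -/
structure QD (N : ℕ) where
  G : Matrix (Fin 4) (Fin 4) ℤ
  Gs : Matrix (Fin 4) (Fin 4) ℤ
  symm : Gᵀ = G
  symm' : Gsᵀ = Gs
  even : ∀ i, Even (G i i)
  even' : ∀ i, Even (Gs i i)
  mul : G * Gs = (N : ℤ) • (1 : Matrix (Fin 4) (Fin 4) ℤ)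
  pos : (G.map (Int.cast : ℤ → ℝ)).PosDef
  D : ℕ
  det : G.det = (D : ℤ) ^ 2

namespace QD

variable {N : ℕ} (L : QD N)

/-- the real Gram matrix -/
def A : Matrix (Fin 4) (Fin 4) ℝ := L.G.map (Int.cast : ℤ → ℝ)

theorem det_A : L.A.det = (L.D : ℝ) ^ 2 := by
  have h : L.A = (Int.castRingHom ℝ).mapMatrix L.G := rfl
  rw [h, ← RingHom.map_det, L.det]
  simp

theorem sqrt_det_A : √L.A.det = L.D := by
  rw [det_A, Real.sqrt_sq (Nat.cast_nonneg _)]

theorem D_pos : 0 < L.D := by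
  have h := L.pos.det_pos
  change 0 < L.A.det at h
  rw [det_A] at h
  rcases Nat.eq_zero_or_pos L.D with h0 | h0
  · rw [h0] at h; simp at h
  · exact h0

theorem inv_A (hN : N ≠ 0) : L.A⁻¹ = ((N : ℝ)⁻¹) • L.Gs.map (Int.cast : ℤ → ℝ) := by
  apply inv_eq_right_inv
  have h : L.A * L.Gs.map (Int.cast : ℤ → ℝ) = (N : ℝ) • (1 : Matrix (Fin 4) (Fin 4) ℝ) := by
    have h1 := congrArg (Int.castRingHom ℝ).mapMatrix L.mul
    rw [map_mul] at h1
    refine h1.trans ?_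
    rw [RingHom.mapMatrix_apply]
    ext i j
    rw [Matrix.map_apply, Matrix.smul_apply, Matrix.smul_apply, Matrix.one_apply, Matrix.one_apply]
    split_ifs <;> simp
  rw [Matrix.mul_smul, h, smul_smul, inv_mul_cancel₀ (by exact_mod_cast hN), one_smul]

theorem mul' : L.Gs * L.G = (N : ℤ) • (1 : Matrix (Fin 4) (Fin 4) ℤ) := by
  have h := congrArg transpose L.mul
  rw [transpose_mul, L.symm, L.symm', transpose_smul, transpose_one] at h
  exact h

/-- the value of the dual form -/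
theorem dual_form (hN : N ≠ 0) (y : Fin 4 → ℤ) :
    ((fun i => (y i : ℝ)) ⬝ᵥ (L.A⁻¹ *ᵥ (fun i => (y i : ℝ)))) = ((bl L.Gs y y : ℤ) : ℝ) / N := by
  rw [L.inv_A hN, smul_mulVec, dotProduct_smul, cast_bl, smul_eq_mul]
  field_simp

theorem bl_nonneg (x : Fin 4 → ℤ) : 0 ≤ bl L.G x x := by
  have h := L.pos.posSemidef.dotProduct_mulVec_nonneg (fun i => (x i : ℝ))
  simp only [star_trivial] at h
  rw [cast_bl] at h
  exact_mod_cast h

theorem dual_nonneg (hN : N ≠ 0) (x : Fin 4 → ℤ) : 0 ≤ bl L.Gs x x := by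
  have h := L.pos.inv.posSemidef.dotProduct_mulVec_nonneg (fun i => (x i : ℝ))
  simp only [star_trivial] at h
  change 0 ≤ ((fun i => (x i : ℝ)) ⬝ᵥ (L.A⁻¹ *ᵥ (fun i => (x i : ℝ)))) at h
  rw [L.dual_form hN] at h
  have hN' : (0 : ℝ) < N := by exact_mod_cast Nat.pos_of_ne_zero hN
  rw [le_div_iff₀ hN', zero_mul] at h
  exact_mod_cast h

/-- the dual lattice, scaled -/
theorem bl_Gs_mulVec (x : Fin 4 → ℤ) :
    bl L.Gs (L.G *ᵥ x) (L.G *ᵥ x) = N * bl L.G x x := by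
  rw [bl, bl, mulVec_mulVec, L.mul', smul_mulVec, one_mulVec, dotProduct_smul, smul_eq_mul,
    dotProduct_comm]

/-- the theta series of the lattice -/
def th (τ : ℂ) : ℂ := ∑' x : Fin 4 → ℤ, cexp (π * I * τ * ((bl L.G x x : ℤ) : ℂ))

/-- the theta series of the dual lattice, scaled by `N` -/
def ths (τ : ℂ) : ℂ := ∑' x : Fin 4 → ℤ, cexp (π * I * τ * ((bl L.Gs x x : ℤ) : ℂ))

theorem summable_th {τ : ℂ} (hτ : 0 < τ.im) :
    Summable fun x : Fin 4 → ℤ => cexp (π * I * τ * ((bl L.G x x : ℤ) : ℂ)) := by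
  have h := H16.gaussian_summable L.A L.pos 0 ⟨τ, hτ⟩
  refine h.congr fun x => ?_
  congr 2
  have : (fun i => (x i : ℝ) + (0 : Fin 4 → ℝ) i) = fun i => (x i : ℝ) := by ext i; simp
  rw [this]
  have h2 := cast_bl (G := L.G) x
  change ((fun i => (x i : ℝ)) ⬝ᵥ (L.A *ᵥ (fun i => (x i : ℝ)))) = _ at h2
  rw [h2]
  push_cast
  rfl

theorem summable_dual (hN : N ≠ 0) {τ : ℂ} (hτ : 0 < τ.im) :
    Summable fun x : Fin 4 → ℤ => cexp (π * I * τ * (((bl L.Gs x x : ℤ) : ℂ) / N)) := by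
  have h := H16.gaussian_summable L.A⁻¹ L.pos.inv 0 ⟨τ, hτ⟩
  refine h.congr fun x => ?_
  congr 2
  have : (fun i => (x i : ℝ) + (0 : Fin 4 → ℝ) i) = fun i => (x i : ℝ) := by ext i; simp
  rw [this, L.dual_form hN]
  push_cast
  rfl

theorem im_neg_inv {τ : ℂ} (hτ : 0 < τ.im) : 0 < (-1 / τ).im :=
  H45.im_neg_one_div_pos hτ

/-- **Poisson summation** for the shifted lattice. -/
theorem poisson (hN : N ≠ 0) (h : Fin 4 → ℝ) {z : ℂ} (hz : 0 < z.im) :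
    ∑' x : Fin 4 → ℤ, cexp (π * I * z *
        ((((fun i => (x i : ℝ) + h i) ⬝ᵥ (L.A *ᵥ (fun i => (x i : ℝ) + h i)) : ℝ) : ℂ))) =
      -(1 / z ^ 2) * (1 / (L.D : ℂ)) *
        ∑' y : Fin 4 → ℤ, cexp (π * I * (-1 / z) * (((bl L.Gs y y : ℤ) : ℂ) / N) +
          2 * π * I * (((fun i => (y i : ℝ)) ⬝ᵥ h : ℝ) : ℂ)) := by
  have h1 := H16.gaussian_poisson L.A L.pos h ⟨z, hz⟩
  rw [L.sqrt_det_A] at h1
  have h2 : ((⟨z, hz⟩ : UpperHalfPlane) : ℂ) = z := rfl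
  rw [h2] at h1
  rw [h1]
  refine congrArg₂ (· * ·) ?_ ?_
  · push_cast; rfl
  · refine tsum_congr fun y => ?_
    rw [L.dual_form hN]
    congr 2
    push_cast
    ring

/-- the inversion formula -/
theorem th_inv (hN : N ≠ 0) {z : ℂ} (hz : 0 < z.im) :
    L.th (-1 / z) = -(z ^ 2 / L.D) * L.ths (z / N) := by
  have hz0 : z ≠ 0 := by rintro rfl; simp at hz
  have h1 := L.poisson hN 0 (im_neg_inv hz)
  have h2 : L.th (-1 / z) = ∑' x : Fin 4 → ℤ, cexp (π * I * (-1 / z) *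
        ((((fun i => (x i : ℝ) + (0 : Fin 4 → ℝ) i) ⬝ᵥ
          (L.A *ᵥ (fun i => (x i : ℝ) + (0 : Fin 4 → ℝ) i)) : ℝ) : ℂ))) := by
    rw [th]
    refine tsum_congr fun x => ?_
    have : (fun i => (x i : ℝ) + (0 : Fin 4 → ℝ) i) = fun i => (x i : ℝ) := by ext i; simp
    rw [this]
    have h3 := cast_bl (G := L.G) x
    change ((fun i => (x i : ℝ)) ⬝ᵥ (L.A *ᵥ (fun i => (x i : ℝ)))) = _ at h3
    rw [h3]
    push_cast
    rfl
  rw [h2, h1, ths]
  congr 1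
  · field_simp
  · refine tsum_congr fun y => ?_
    congr 1
    simp only [dotProduct_zero, Complex.ofReal_zero, mul_zero, add_zero]
    field_simp

end QD

end Fermat.Agent.H45.Th
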