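import Mathlib
import Fermat.Agent.H45Th1

/-!
# Quaternary theta series, part 2: Gauss sums and the transformation formula (LT M3a, helper45)
-/

set_option autoImplicit false

noncomputable section

namespace Fermat.Agent.H45.Th

open Matrix Complex
open scoped Real

/-! ### Sums over residues -/

/-- representatives of residue classes -/
def lft (c : ℕ) (h : Fin 4 → ZMod c) : Fin 4 → ℤ := fun i => ((h i).val : ℤ)

/-- sum over residue classes -/
def psum (c : ℕ) [NeZero c] (f : (Fin 4 → ℤ) → ℂ) : ℂ := ∑ h : Fin 4 → ZMod c, f (lft c h)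

section

variable {c : ℕ} [NeZero c]

theorem lft_add (h : Fin 4 → ZMod c) (v : Fin 4 → ℤ) :
    ∃ w : Fin 4 → ℤ, lft c h + v = lft c (h + fun i => (v i : ZMod c)) + (c : ℤ) • w := by
  refine ⟨fun i => (((h i).val : ℤ) + v i - (((h i + (v i : ZMod c)).val : ℕ) : ℤ)) / c, ?_⟩
  ext i
  simp only [Pi.add_apply, Pi.smul_apply, smul_eq_mul, lft]
  have hdvd : (c : ℤ) ∣ ((h i).val : ℤ) + v i - (((h i + (v i : ZMod c)).val : ℕ) : ℤ) := by
    rw [← ZMod.intCast_zmod_eq_zero_iff_dvd]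
    push_cast
    rw [ZMod.natCast_zmod_val, ZMod.natCast_zmod_val]
    ring
  rw [Int.mul_ediv_cancel' hdvd]
  ring

theorem psum_shift {f : (Fin 4 → ℤ) → ℂ} (hf : ∀ x y, f (x + (c : ℤ) • y) = f x)
    (v : Fin 4 → ℤ) : psum c (fun x => f (x + v)) = psum c f := by
  rw [psum, psum]
  refine Fintype.sum_equiv (Equiv.addRight fun i => (v i : ZMod c)) _ _ fun h => ?_
  obtain ⟨w, hw⟩ := lft_add h v
  rw [hw, hf]
  rfl

/-- splitting integral vectors into residue and quotient -/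
def splitE (c : ℕ) [NeZero c] : (Fin 4 → ZMod c) × (Fin 4 → ℤ) ≃ (Fin 4 → ℤ) where
  toFun p := lft c p.1 + (c : ℤ) • p.2
  invFun x := (fun i => (x i : ZMod c), fun i => x i / c)
  left_inv := by
    rintro ⟨h, y⟩
    have hc : (c : ℤ) ≠ 0 := by exact_mod_cast NeZero.ne c
    ext i
    · simp [lft]
    · simp only [Pi.add_apply, Pi.smul_apply, smul_eq_mul, lft]
      rw [Int.add_mul_ediv_left _ _ hc, Int.ediv_eq_zero_of_lt (Int.natCast_nonneg _)
        (by exact_mod_cast ZMod.val_lt (h i)), zero_add]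
  right_inv x := by
    ext i
    simp only [Pi.add_apply, Pi.smul_apply, smul_eq_mul, lft, ZMod.val_intCast]
    exact Int.emod_add_mul_ediv _ _

theorem splitE_apply (p : (Fin 4 → ZMod c) × (Fin 4 → ℤ)) :
    splitE c p = lft c p.1 + (c : ℤ) • p.2 := rfl

/-- `e(m/c)` -/
def ee (c : ℕ) (m : ℤ) : ℂ := cexp (2 * π * I * m / c)

omit [NeZero c] in
theorem ee_add (m n : ℤ) : ee c (m + n) = ee c m * ee c n := by
  rw [ee, ee, ee, ← Complex.exp_add]
  congr 1
  push_cast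
  ring

omit [NeZero c] in
theorem ee_zero : ee c 0 = 1 := by simp [ee]

theorem ee_mul_left (k : ℤ) : ee c (c * k) = 1 := by
  rw [ee]
  have hc : (c : ℂ) ≠ 0 := by exact_mod_cast NeZero.ne c
  have : (2 * π * I * ((c * k : ℤ) : ℂ) / c : ℂ) = k * (2 * π * I) := by
    push_cast; field_simp
  rw [this, Complex.exp_int_mul_two_pi_mul_I]

theorem ee_add_mul (m k : ℤ) : ee c (m + c * k) = ee c m := by
  rw [ee_add, ee_mul_left, mul_one]

theorem ee_congr {m n : ℤ} (h : (c : ℤ) ∣ m - n) : ee c m = ee c n := by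
  obtain ⟨k, hk⟩ := h
  have : m = n + c * k := by linarith
  rw [this, ee_add_mul]

theorem ee_eq_one_iff (m : ℤ) : ee c m = 1 ↔ (c : ℤ) ∣ m := by
  constructor
  · intro h
    rw [ee, Complex.exp_eq_one_iff] at h
    obtain ⟨n, hn⟩ := h
    have hc : (c : ℂ) ≠ 0 := by exact_mod_cast NeZero.ne c
    refine ⟨n, ?_⟩
    have h2 : (m : ℂ) = c * n := by
      have h3 : (2 * (π : ℂ) * I) ≠ 0 := Complex.two_pi_I_ne_zero
      have h4 : (m : ℂ) * (2 * π * I) = (c * n) * (2 * π * I) := by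
        field_simp at hn
        linear_combination (2 * π * I) * hn
      exact mul_right_cancel₀ h3 h4
    exact_mod_cast h2
  · rintro ⟨k, rfl⟩
    exact ee_mul_left k

omit [NeZero c] in
theorem norm_ee (m : ℤ) : ‖ee c m‖ = 1 := by
  rw [ee, Complex.norm_exp]
  have : (2 * π * I * m / c : ℂ).re = 0 := by
    have h : (2 * π * I * m / c : ℂ) = ((2 * π * m / c : ℝ) : ℂ) * I := by push_cast; ring
    rw [h]
    simp
  rw [this, Real.exp_zero]

end

namespace QD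

variable {N : ℕ} (L : QD N)

/-- the quadratic form -/
abbrev q (x : Fin 4 → ℤ) : ℤ := Q L.G x

theorem two_q (x : Fin 4 → ℤ) : 2 * L.q x = bl L.G x x := two_mul_Q L.symm L.even x

/-- the Gauss sum -/
def gs (a : ℤ) (c : ℕ) [NeZero c] (w : Fin 4 → ℤ) : ℂ :=
  psum c fun x => ee c (a * L.q x + w ⬝ᵥ x)

variable {c : ℕ} [NeZero c]

theorem gs_periodic (a : ℤ) (w x y : Fin 4 → ℤ) :
    ee c (a * L.q (x + (c : ℤ) • y) + w ⬝ᵥ (x + (c : ℤ) • y)) = ee c (a * L.q x + w ⬝ᵥ x) := by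
  apply ee_congr
  refine ⟨a * (c * L.q y + bl L.G x y) + w ⬝ᵥ y, ?_⟩
  rw [q, Q_add L.symm L.even, Q_smul L.symm L.even, bl_smul_right, dotProduct_add,
    dotProduct_smul, smul_eq_mul]
  ring

/-- the Gauss sum vanishes off the lattice -/
theorem gs_eq_zero (hN : N ≠ 0) (hNc : N ∣ c) (a : ℤ) (w : Fin 4 → ℤ)
    (hw : ¬ ∃ x, w = L.G *ᵥ x) : L.gs a c w = 0 := by
  by_contra hne
  apply hw
  obtain ⟨k, hk⟩ := hNc
  -- all values `w · Gs u` are divisible by `N`
  have key : ∀ u : Fin 4 → ℤ, (N : ℤ) ∣ w ⬝ᵥ (L.Gs *ᵥ u) := by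
    intro u
    have h1 := psum_shift (c := c) (f := fun x => ee c (a * L.q x + w ⬝ᵥ x)) (L.gs_periodic a w) ((k : ℤ) • (L.Gs *ᵥ u))
    have h2 : ∀ x : Fin 4 → ℤ, ee c (a * L.q (x + (k : ℤ) • (L.Gs *ᵥ u)) +
        w ⬝ᵥ (x + (k : ℤ) • (L.Gs *ᵥ u))) =
          ee c (k * (w ⬝ᵥ (L.Gs *ᵥ u))) * ee c (a * L.q x + w ⬝ᵥ x) := by
      intro x
      rw [← ee_add]
      apply ee_congr
      -- `q(k Gs u) = k c q*(u)`, `bl x (k Gs u) = c x·u`
      have h3 : bl L.G x (L.Gs *ᵥ u) = N * (x ⬝ᵥ u) := by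
        rw [bl, mulVec_mulVec, L.mul, smul_mulVec, one_mulVec, dotProduct_smul, smul_eq_mul]
      have h4 : L.q (L.Gs *ᵥ u) = N * Q L.Gs u := by
        have h5 := L.two_q (L.Gs *ᵥ u)
        have h6 := two_mul_Q L.symm' L.even' u
        have h7 : bl L.G (L.Gs *ᵥ u) (L.Gs *ᵥ u) = N * bl L.Gs u u := by
          rw [bl, mulVec_mulVec, L.mul, smul_mulVec, one_mulVec, dotProduct_smul, smul_eq_mul,
            dotProduct_comm]
          rfl
        rw [h7, ← h6] at h5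
        linarith
      refine ⟨a * (k * Q L.Gs u + x ⬝ᵥ u), ?_⟩
      rw [q, Q_add L.symm L.even, Q_smul L.symm L.even, bl_smul_right, dotProduct_add,
        dotProduct_smul, smul_eq_mul]
      change a * (L.q x + (k : ℤ) ^ 2 * L.q (L.Gs *ᵥ u) + k * bl L.G x (L.Gs *ᵥ u)) + _ - _ = _
      rw [h3, h4, hk]
      push_cast
      ring
    have h3 : psum c (fun x => ee c (a * L.q (x + (k : ℤ) • (L.Gs *ᵥ u)) +
        w ⬝ᵥ (x + (k : ℤ) • (L.Gs *ᵥ u)))) =
          ee c (k * (w ⬝ᵥ (L.Gs *ᵥ u))) * L.gs a c w := by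
      rw [psum, gs, psum, Finset.mul_sum]
      exact Finset.sum_congr rfl fun h _ => h2 _
    rw [h3] at h1
    have h4 : ee c (k * (w ⬝ᵥ (L.Gs *ᵥ u))) = 1 :=
      mul_right_cancel₀ hne (h1.trans (one_mul _).symm)
    rw [ee_eq_one_iff, hk] at h4
    push_cast at h4
    have hk0 : (k : ℤ) ≠ 0 := by
      rintro h0
      apply NeZero.ne c
      rw [hk, show k = 0 by exact_mod_cast h0, mul_zero]
    rw [mul_comm] at h4
    exact (mul_dvd_mul_iff_left hk0).mp h4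
  -- so `Gs w = N x`
  have h5 : ∀ i, (N : ℤ) ∣ (L.Gs *ᵥ w) i := by
    intro i
    have h6 := key (Pi.single i 1)
    rw [dotProduct_mulVec, ← mulVec_transpose, L.symm', dotProduct_single, mul_one] at h6
    exact h6
  choose x hx using h5
  refine ⟨x, ?_⟩
  have h7 : L.Gs *ᵥ w = (N : ℤ) • x := by
    ext i; rw [hx i]; rfl
  have h8 : (N : ℤ) • w = (N : ℤ) • (L.G *ᵥ x) := by
    rw [← mulVec_smul, ← h7, mulVec_mulVec, L.mul, smul_mulVec, one_mulVec]
  have hN' : (N : ℤ) ≠ 0 := by exact_mod_cast hN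
  exact smul_right_injective _ hN' h8

/-- the Gauss sum on the lattice -/
theorem gs_mulVec (a d : ℤ) (had : (c : ℤ) ∣ a * d - 1) (x : Fin 4 → ℤ) :
    L.gs a c (L.G *ᵥ x) = ee c (-(d * L.q x)) * L.gs a c 0 := by
  have h1 := psum_shift (c := c) (f := fun x => ee c (a * L.q x + 0 ⬝ᵥ x)) (L.gs_periodic a 0) (d • x)
  rw [gs, gs, ← h1, psum, psum, Finset.mul_sum]
  refine Finset.sum_congr rfl fun h _ => ?_
  rw [← ee_add]
  apply ee_congr
  obtain ⟨k, hk⟩ := had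
  refine ⟨-(k * (bl L.G (lft c h) x + d * L.q x)), ?_⟩
  have h2 : L.q (lft c h + d • x) = L.q (lft c h) + d ^ 2 * L.q x + d * bl L.G (lft c h) x := by
    rw [q, Q_add L.symm L.even, Q_smul L.symm L.even, bl_smul_right]
  have h3 : (L.G *ᵥ x) ⬝ᵥ lft c h = bl L.G (lft c h) x := by
    rw [bl, dotProduct_comm]
  rw [h2, h3, zero_dotProduct]
  have h4 : a * d = 1 + c * k := by linarith
  linear_combination (-(bl L.G (lft c h) x) - d * L.q x) * h4

end QD

end Fermat.Agent.H45.Th
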