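import Mathlib
import Fermat.Agent.H45Th2

/-!
# Quaternary theta series, part 3: the transformation formula (LT M3a, helper45)
-/

set_option autoImplicit false

noncomputable section

namespace Fermat.Agent.H45.Th

open Matrix Complex
open scoped Real

namespace QD

variable {N : ℕ} (L : QD N) {c : ℕ} [NeZero c]

theorem q_add (x y : Fin 4 → ℤ) : L.q (x + y) = L.q x + L.q y + bl L.G x y :=
  Q_add L.symm L.even x y

theorem q_smul (k : ℤ) (x : Fin 4 → ℤ) : L.q (k • x) = k ^ 2 * L.q x :=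
  Q_smul L.symm L.even k x

theorem im_denom_pos {c : ℕ} [NeZero c] (d : ℤ) {τ : ℂ} (hτ : 0 < τ.im) :
    0 < ((c : ℂ) * τ + d).im := by
  have hc : (0 : ℝ) < c := by exact_mod_cast Nat.pos_of_ne_zero (NeZero.ne c)
  simp only [add_im, mul_im, natCast_re, natCast_im, zero_mul, add_zero, intCast_im]
  positivity

/-- terms of the dual series -/
def dt (L : QD N) (τ : ℂ) (w : Fin 4 → ℤ) : ℂ :=
  cexp (π * I * τ * (((bl L.Gs w w : ℤ) : ℂ) / N))

theorem norm_dt (hN : N ≠ 0) (τ : ℂ) (w : Fin 4 → ℤ) :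
    ‖L.dt τ w‖ = Real.exp (-(π * τ.im * ((bl L.Gs w w : ℤ) : ℝ) / N)) := by
  have hN' : (N : ℝ) ≠ 0 := by exact_mod_cast hN
  rw [dt, Complex.norm_exp]
  congr 1
  have h : (π * I * τ * (((bl L.Gs w w : ℤ) : ℂ) / N) : ℂ) =
      (((π * ((bl L.Gs w w : ℤ) : ℝ) / N : ℝ)) : ℂ) * (I * τ) := by
    push_cast; ring
  rw [h, re_ofReal_mul, I_mul_re]
  ring

theorem summable_dt (hN : N ≠ 0) {τ : ℂ} (hτ : 0 < τ.im) : Summable (L.dt τ) :=
  L.summable_dual hN hτ

/-- **The transformation formula** under `(a b; c d)`, `c > 0`. -/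
theorem th_smul (hN : N ≠ 0) (a b d : ℤ) (hdet : a * d - b * c = 1) {τ : ℂ} (hτ : 0 < τ.im) :
    L.th ((a * τ + b) / (c * τ + d)) = -(((c : ℂ) * τ + d) ^ 2 / (c ^ 2 * L.D)) *
      ∑' w : Fin 4 → ℤ, L.dt (τ + d / c) w * L.gs a c w := by
  have hc0 : (c : ℂ) ≠ 0 := by exact_mod_cast NeZero.ne c
  set u : ℂ := (c : ℂ) * τ + d with hu
  have him : 0 < u.im := im_denom_pos d hτ
  have hu0 : u ≠ 0 := by intro h; rw [h] at him; simp at him
  have hτ' : 0 < (τ + d / c : ℂ).im := by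
    have : (τ + d / c : ℂ) = u / c := by rw [hu]; field_simp
    have h2 : ((d : ℂ) / c).im = 0 := by
      have : ((d : ℂ) / c) = (((d : ℝ) / c : ℝ) : ℂ) := by push_cast; rfl
      rw [this, ofReal_im]
    rw [add_im, h2, add_zero]
    exact hτ
  -- the point
  have hpt : (a * τ + b) / u = a / c + -1 / (c * u) := by
    have hdet' : (a : ℂ) * d - b * c = 1 := by exact_mod_cast hdet
    rw [div_add_div _ _ hc0 (mul_ne_zero hc0 hu0), div_eq_div_iff hu0 (mul_ne_zero hc0 (mul_ne_zero hc0 hu0)), hu]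
    linear_combination (-(c : ℂ) * (c * τ + d)) * hdet'
  -- `z = - c / u`
  set z : ℂ := -c / u with hz
  have hzim : 0 < z.im := by
    have h1 : z = (c : ℂ) * (-1 / u) := by rw [hz]; ring
    have h2 := im_neg_inv him
    have hc : (0 : ℝ) < c := by exact_mod_cast Nat.pos_of_ne_zero (NeZero.ne c)
    rw [h1]
    simp only [mul_im, natCast_re, natCast_im, zero_mul, add_zero]
    positivity
  have hzinv : -1 / z = τ + d / c := by
    rw [hz, hu]; rw [hu] at hu0; field_simp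
  have himp : 0 < ((a * τ + b) / u).im := by
    rw [hpt]
    have h1 : ((a : ℂ) / c).im = 0 := by
      have : ((a : ℂ) / c) = (((a : ℝ) / c : ℝ) : ℂ) := by push_cast; rfl
      rw [this, ofReal_im]
    have h2 : (-1 / (c * u) : ℂ) = ((c : ℂ))⁻¹ * ((c : ℂ))⁻¹ * z := by
      rw [hz]; field_simp
    have h3 : (((c : ℂ))⁻¹ * ((c : ℂ))⁻¹ * z).im = ((c : ℝ)⁻¹ * (c : ℝ)⁻¹) * z.im := by
      have : ((c : ℂ))⁻¹ * ((c : ℂ))⁻¹ = (((c : ℝ)⁻¹ * (c : ℝ)⁻¹ : ℝ) : ℂ) := by push_cast; rfl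
      rw [this, im_ofReal_mul]
    rw [add_im, h1, zero_add, h2, h3]
    have hc : (0 : ℝ) < c := by exact_mod_cast Nat.pos_of_ne_zero (NeZero.ne c)
    positivity
  -- split the sum
  have hsum := L.summable_th himp
  rw [th, ← (splitE c).tsum_eq]
  rw [((splitE c).summable_iff.mpr hsum).tsum_prod' (f := fun p =>
    cexp (π * I * ((a * τ + b) / u) * ((bl L.G (splitE c p) (splitE c p) : ℤ) : ℂ)))
    (fun h => ((splitE c).summable_iff.mpr hsum).prod_factor h), tsum_fintype]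
  -- each inner sum
  have hinner : ∀ h : Fin 4 → ZMod c,
      ∑' y : Fin 4 → ℤ, cexp (π * I * ((a * τ + b) / u) *
        ((bl L.G (splitE c (h, y)) (splitE c (h, y)) : ℤ) : ℂ)) =
      -(u ^ 2 / (c ^ 2 * L.D)) * ∑' w : Fin 4 → ℤ,
        L.dt (τ + d / c) w * ee c (a * L.q (lft c h) + w ⬝ᵥ lft c h) := by
    intro h
    have h1 : ∀ y : Fin 4 → ℤ, cexp (π * I * ((a * τ + b) / u) *
        ((bl L.G (splitE c (h, y)) (splitE c (h, y)) : ℤ) : ℂ)) =
        ee c (a * L.q (lft c h)) * cexp (π * I * z *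
        ((((fun i => (y i : ℝ) + (fun i => (lft c h i : ℝ) / c) i) ⬝ᵥ
          (L.A *ᵥ (fun i => (y i : ℝ) + (fun i => (lft c h i : ℝ) / c) i)) : ℝ) : ℂ))) := by
      intro y
      set x := splitE c (h, y) with hx
      have hxe : x = lft c h + (c : ℤ) • y := rfl
      -- the quadratic form at `y + h/c`
      have hcr : (c : ℝ) ≠ 0 := by exact_mod_cast NeZero.ne c
      have h2 : (fun i => (y i : ℝ) + (fun i => (lft c h i : ℝ) / c) i) =
          (c : ℝ)⁻¹ • fun i => (x i : ℝ) := by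
        ext i
        rw [hxe]
        simp only [Pi.smul_apply, Pi.add_apply, smul_eq_mul]
        push_cast
        field_simp
        ring
      have h3 : ((fun i => (x i : ℝ)) ⬝ᵥ (L.A *ᵥ (fun i => (x i : ℝ)))) = ((bl L.G x x : ℤ) : ℝ) :=
        cast_bl x
      rw [h2, mulVec_smul, dotProduct_smul, smul_dotProduct, h3]
      -- the exponential
      have h4 : ee c (a * L.q (lft c h)) = ee c (a * L.q x) := by
        apply ee_congr
        refine ⟨-(a * (c * L.q y + bl L.G (lft c h) y)), ?_⟩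
        rw [hxe, L.q_add, L.q_smul, bl_smul_right]
        ring
      rw [h4, ee, ← Complex.exp_add]
      congr 1
      rw [hpt]
      have h5 : ((bl L.G x x : ℤ) : ℂ) = 2 * (L.q x : ℂ) := by
        rw [← L.two_q]; push_cast; ring
      rw [hz]
      simp only [smul_eq_mul]
      push_cast
      rw [h5]
      field_simp
    rw [tsum_congr h1, tsum_mul_left, L.poisson hN _ hzim, hzinv]
    have h6 : (-(1 / z ^ 2) * (1 / (L.D : ℂ))) = -(u ^ 2 / (c ^ 2 * L.D)) := by
      have hD : (L.D : ℂ) ≠ 0 := by exact_mod_cast L.D_pos.ne'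
      rw [hz]
      field_simp
    rw [h6, ← mul_assoc, mul_comm (ee c _), mul_assoc, ← tsum_mul_left]
    congr 1
    refine tsum_congr fun w => ?_
    rw [Complex.exp_add, ee_add, dt]
    have h7 : cexp (2 * π * I * (((fun i => (w i : ℝ)) ⬝ᵥ fun i => (lft c h i : ℝ) / c : ℝ) : ℂ)) =
        ee c (w ⬝ᵥ lft c h) := by
      rw [ee]
      congr 1
      simp only [dotProduct, Fin.sum_univ_four]
      push_cast
      field_simp
    rw [h7]
    ring
  rw [Finset.sum_congr rfl fun h _ => hinner h, ← Finset.mul_sum]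
  congr 1
  have hs : ∀ h ∈ (Finset.univ : Finset (Fin 4 → ZMod c)), Summable fun w : Fin 4 → ℤ =>
      L.dt (τ + d / c) w * ee c (a * L.q (lft c h) + w ⬝ᵥ lft c h) := by
    intro h _
    refine Summable.of_norm ?_
    refine (L.summable_dt hN hτ').norm.congr fun w => ?_
    rw [norm_mul, norm_ee, mul_one]
  rw [← Summable.tsum_finsetSum hs]
  refine tsum_congr fun w => ?_
  rw [gs, psum, Finset.mul_sum]

end QD

end Fermat.Agent.H45.Th
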