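import Mathlib
import Fermat.Agent.H45Th3

/-!
# Quaternary theta series, part 4: invariance under `Γ₀(N)` (LT M3a, helper45)
-/

set_option autoImplicit false

noncomputable section

namespace Fermat.Agent.H45.Th

open Matrix Complex
open scoped Real

namespace QD

variable {N : ℕ} (L : QD N)

theorem mulVec_injective (hN : N ≠ 0) : Function.Injective fun x : Fin 4 → ℤ => L.G *ᵥ x := by
  intro x y hxy
  have h1 := congrArg (fun v => L.Gs *ᵥ v) hxy
  simp only [mulVec_mulVec, L.mul', smul_mulVec, one_mulVec] at h1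
  have hN' : (N : ℤ) ≠ 0 := by exact_mod_cast hN
  exact smul_right_injective _ hN' h1

section

variable {c : ℕ} [NeZero c]

/-- The transformation formula for `N ∣ c`. -/
theorem th_smul_of_dvd (hN : N ≠ 0) (hNc : N ∣ c) (a b d : ℤ) (hdet : a * d - b * c = 1) {τ : ℂ}
    (hτ : 0 < τ.im) :
    L.th ((a * τ + b) / (c * τ + d)) =
      -(L.gs a c 0 / (c ^ 2 * L.D)) * ((c : ℂ) * τ + d) ^ 2 * L.th τ := by
  rw [L.th_smul hN a b d hdet hτ]
  have hsupp : Function.support (fun w : Fin 4 → ℤ => L.dt (τ + d / c) w * L.gs a c w) ⊆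
      Set.range fun x : Fin 4 → ℤ => L.G *ᵥ x := by
    intro w hw
    by_contra hcon
    apply hw
    show L.dt (τ + d / c) w * L.gs a c w = 0
    rw [L.gs_eq_zero hN hNc a w (fun ⟨x, hx⟩ => hcon ⟨x, hx.symm⟩), mul_zero]
  rw [← (L.mulVec_injective hN).tsum_eq hsupp]
  have hterm : ∀ x : Fin 4 → ℤ, L.dt (τ + d / c) (L.G *ᵥ x) * L.gs a c (L.G *ᵥ x) =
      L.gs a c 0 * cexp (π * I * τ * ((bl L.G x x : ℤ) : ℂ)) := by
    intro x
    rw [L.gs_mulVec a d ⟨b, by linarith⟩, dt, L.bl_Gs_mulVec]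
    have hN' : (N : ℂ) ≠ 0 := by exact_mod_cast hN
    have hc0 : (c : ℂ) ≠ 0 := by exact_mod_cast NeZero.ne c
    have h1 : cexp (π * I * (τ + d / c) * (((N * bl L.G x x : ℤ) : ℂ) / N)) *
        ee c (-(d * L.q x)) = cexp (π * I * τ * ((bl L.G x x : ℤ) : ℂ)) := by
      rw [ee, ← Complex.exp_add]
      congr 1
      have h5 : ((bl L.G x x : ℤ) : ℂ) = 2 * (L.q x : ℂ) := by
        rw [← L.two_q]; push_cast; ring
      push_cast
      rw [h5]
      field_simp
      ring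
    rw [← h1]
    ring
  rw [tsum_congr hterm, tsum_mul_left]
  change _ * (L.gs a c 0 * L.th τ) = _
  ring

end

/-- periodicity of the dual theta series -/
theorem ths_add_int (τ : ℂ) (k : ℤ) : L.ths (τ + k) = L.ths τ := by
  rw [ths, ths]
  refine tsum_congr fun x => ?_
  have h5 : ((bl L.Gs x x : ℤ) : ℂ) = 2 * (Q L.Gs x : ℂ) := by
    rw [← two_mul_Q L.symm' L.even']; push_cast; ring
  rw [h5]
  have : (π * I * (τ + k) * (2 * (Q L.Gs x : ℂ)) : ℂ) =
      π * I * τ * (2 * (Q L.Gs x : ℂ)) + ((k * Q L.Gs x : ℤ) : ℂ) * (2 * π * I) := by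
    push_cast; ring
  rw [this, Complex.exp_add, Complex.exp_int_mul_two_pi_mul_I, mul_one]

/-- periodicity of the theta series -/
theorem th_add_int (τ : ℂ) (k : ℤ) : L.th (τ + k) = L.th τ := by
  rw [th, th]
  refine tsum_congr fun x => ?_
  have h5 : ((bl L.G x x : ℤ) : ℂ) = 2 * (L.q x : ℂ) := by
    rw [← L.two_q]; push_cast; ring
  rw [h5]
  have : (π * I * (τ + k) * (2 * (L.q x : ℂ)) : ℂ) =
      π * I * τ * (2 * (L.q x : ℂ)) + ((k * L.q x : ℤ) : ℂ) * (2 * π * I) := by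
    push_cast; ring
  rw [this, Complex.exp_add, Complex.exp_int_mul_two_pi_mul_I, mul_one]

/-- invariance under the lower triangular elements -/
theorem th_lower (hN : N ≠ 0) (k : ℤ) {τ : ℂ} (hτ : 0 < τ.im) :
    L.th (τ / ((k * N) * τ + 1)) = ((k * N) * τ + 1) ^ 2 * L.th τ := by
  have hτ0 : τ ≠ 0 := by rintro rfl; simp at hτ
  have hN' : (N : ℂ) ≠ 0 := by exact_mod_cast hN
  set z : ℂ := -1 / τ with hz
  have hzim : 0 < z.im := im_neg_inv hτ
  have hz0 : z ≠ 0 := by intro h; rw [h] at hzim; simp at hzim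
  have hτz : τ = -1 / z := by rw [hz]; field_simp
  have hz'im : 0 < (z - k * N).im := by
    have : ((k : ℂ) * N).im = 0 := by
      have : ((k : ℂ) * N) = (((k : ℝ) * N : ℝ) : ℂ) := by push_cast; rfl
      rw [this, ofReal_im]
    rw [sub_im, this, sub_zero]
    exact hzim
  have hz'0 : z - k * N ≠ 0 := by intro h; rw [h] at hz'im; simp at hz'im
  have hden : ((k * N) * τ + 1 : ℂ) = (z - k * N) / z := by
    rw [hτz]; field_simp; ring
  have h1 : τ / ((k * N) * τ + 1) = -1 / (z - k * N) := by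
    rw [hden]
    conv_lhs => rw [hτz]
    field_simp
  rw [h1, L.th_inv hN hz'im, hden]
  conv_rhs => rw [hτz, L.th_inv hN hzim]
  have h2 : (z - k * N) / N = z / N + ((-k : ℤ) : ℂ) := by
    push_cast; field_simp; ring
  rw [h2, ths_add_int]
  field_simp

/-- the theta series does not vanish identically -/
theorem th_I_ne_zero : L.th I ≠ 0 := by
  have hI : 0 < (I : ℂ).im := by simp
  have hs := L.summable_th hI
  have hterm : ∀ x : Fin 4 → ℤ, cexp (π * I * I * ((bl L.G x x : ℤ) : ℂ)) =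
      ((Real.exp (-π * ((bl L.G x x : ℤ) : ℝ)) : ℝ) : ℂ) := by
    intro x
    rw [Complex.ofReal_exp]
    congr 1
    push_cast
    rw [mul_assoc (π : ℂ) I I, I_mul_I]
    ring
  have hs' : Summable fun x : Fin 4 → ℤ => Real.exp (-π * ((bl L.G x x : ℤ) : ℝ)) := by
    have := hs.congr hterm
    exact_mod_cast this
  have h1 : L.th I = ((∑' x : Fin 4 → ℤ, Real.exp (-π * ((bl L.G x x : ℤ) : ℝ)) : ℝ) : ℂ) := by
    rw [th, tsum_congr hterm, Complex.ofReal_tsum]
  rw [h1]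
  have h2 : 0 < ∑' x : Fin 4 → ℤ, Real.exp (-π * ((bl L.G x x : ℤ) : ℝ)) :=
    hs'.tsum_pos (fun x => (Real.exp_pos _).le) 0 (Real.exp_pos _)
  exact_mod_cast h2.ne'

section

variable {c : ℕ} [NeZero c]

theorem gs_one (hN : N ≠ 0) (hNc : N ∣ c) : L.gs 1 c 0 = -((c ^ 2 * L.D : ℕ) : ℂ) := by
  obtain ⟨k, hk⟩ := hNc
  have hI : 0 < (I : ℂ).im := by simp
  have hc0 : (c : ℂ) ≠ 0 := by exact_mod_cast NeZero.ne c
  have hD : (L.D : ℂ) ≠ 0 := by exact_mod_cast L.D_pos.ne'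
  have h1 := L.th_smul_of_dvd hN ⟨k, hk⟩ (c := c) 1 0 1 (by ring) hI
  have h2 := L.th_lower hN k hI
  have hkc : ((k : ℤ) : ℂ) * (N : ℂ) = (c : ℂ) := by rw [hk]; push_cast; ring
  rw [hkc] at h2
  have h3 : (((1 : ℤ) : ℂ) * I + ((0 : ℤ) : ℂ)) / (c * I + ((1 : ℤ) : ℂ)) = I / (c * I + 1) := by
    push_cast; ring
  rw [h3, h2] at h1
  push_cast at h1
  have him : 0 < ((c : ℂ) * I + ((1 : ℤ) : ℂ)).im := im_denom_pos 1 hI
  have hu0 : ((c : ℂ) * I + 1) ≠ 0 := by
    intro h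
    push_cast at him
    rw [h] at him
    simp at him
  have h4 : ((c : ℂ) * I + 1) ^ 2 * L.th I * 1 =
      ((c : ℂ) * I + 1) ^ 2 * L.th I * (-(L.gs 1 c 0 / (c ^ 2 * L.D))) := by
    rw [mul_one]; exact h1.trans (by ring)
  have h5 := mul_left_cancel₀ (mul_ne_zero (pow_ne_zero 2 hu0) L.th_I_ne_zero) h4
  push_cast
  field_simp at h5
  linear_combination h5

/-- Galois conjugation of the Gauss sum -/
theorem gs_eq (hN : N ≠ 0) (hNc : N ∣ c) {a : ℤ} (ha : IsCoprime a (c : ℤ)) :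
    L.gs a c 0 = -((c ^ 2 * L.D : ℕ) : ℂ) := by
  classical
  -- polynomial
  let P : Polynomial ℤ := ∑ h : Fin 4 → ZMod c, Polynomial.X ^ ((L.q (lft c h) : ZMod c)).val +
    Polynomial.C ((c ^ 2 * L.D : ℕ) : ℤ)
  set ζ : ℂ := ee c 1 with hζ
  have hprim : IsPrimitiveRoot ζ c := by
    have := Complex.isPrimitiveRoot_exp c (NeZero.ne c)
    rw [hζ, ee]
    convert this using 2
    push_cast
    ring
  have heval : ∀ b : ℕ, Polynomial.aeval (ζ ^ b) P = L.gs b c 0 + ((c ^ 2 * L.D : ℕ) : ℂ) := by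
    intro b
    have h1 : ∀ m : ℤ, ∀ b : ℕ, (ζ ^ b) ^ ((m : ZMod c)).val = ee c (b * m) := by
      intro m b
      rw [← pow_mul, hζ, ee, ← Complex.exp_nat_mul]
      have h2 : ee c ((b : ℤ) * (((m : ZMod c)).val : ℤ)) = ee c (b * m) := by
        apply ee_congr
        rw [← mul_sub]
        apply Dvd.dvd.mul_left
        rw [← ZMod.intCast_zmod_eq_zero_iff_dvd]
        push_cast
        rw [ZMod.natCast_zmod_val, sub_self]
      rw [← h2, ee]
      congr 1
      push_cast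
      ring
    simp only [P, map_add, map_sum, map_pow, Polynomial.aeval_X, Polynomial.aeval_C, h1]
    rw [gs, psum]
    congr 1
    refine Finset.sum_congr rfl fun h _ => ?_
    rw [zero_dotProduct, add_zero]
  have h1 : Polynomial.aeval ζ P = 0 := by
    have := heval 1
    rw [pow_one] at this
    rw [this]
    have h2 := L.gs_one hN hNc
    push_cast at h2 ⊢
    rw [h2]
    ring
  -- choose a natural number congruent to `a`
  set b : ℕ := (a % c).toNat with hb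
  have hcpos : (0 : ℤ) < c := by exact_mod_cast Nat.pos_of_ne_zero (NeZero.ne c)
  have hbz : (b : ℤ) = a % c := Int.toNat_of_nonneg (Int.emod_nonneg _ hcpos.ne')
  have hdvd : (c : ℤ) ∣ (b : ℤ) - a := by
    rw [hbz]
    exact (Int.mod_modEq a c).symm.dvd
  have hcop : Nat.Coprime b c := by
    rw [← Nat.isCoprime_iff_coprime]
    obtain ⟨k, hk⟩ := hdvd
    have : (b : ℤ) = a + c * k := by linarith
    rw [this]
    exact ha.add_mul_left_left k
  have hmin : minpoly ℤ ζ = minpoly ℤ (ζ ^ b) := hprim.minpoly_eq_pow_coprime hcop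
  have h2 : Polynomial.aeval (ζ ^ b) P = 0 := by
    obtain ⟨R, hR⟩ := minpoly.isIntegrallyClosed_dvd (hprim.isIntegral (Nat.pos_of_ne_zero (NeZero.ne c))) h1
    rw [hR, map_mul, hmin, minpoly.aeval, zero_mul]
  rw [heval b] at h2
  have h3 : L.gs a c 0 = L.gs b c 0 := by
    rw [gs, gs, psum, psum]
    refine Finset.sum_congr rfl fun h _ => ee_congr ?_
    obtain ⟨k, hk⟩ := hdvd
    refine ⟨-(k * L.q (lft c h)), ?_⟩
    linear_combination (-(L.q (lft c h))) * hk
  rw [h3]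
  linear_combination h2

end

/-- **Invariance under `Γ₀(N)`**, lower left entry positive. -/
theorem th_gamma_pos (hN : N ≠ 0) {a b d : ℤ} {c : ℕ} (hc : c ≠ 0) (hNc : N ∣ c)
    (hdet : a * d - b * c = 1) {τ : ℂ} (hτ : 0 < τ.im) :
    L.th ((a * τ + b) / (c * τ + d)) = ((c : ℂ) * τ + d) ^ 2 * L.th τ := by
  have : NeZero c := ⟨hc⟩
  have hc0 : (c : ℂ) ≠ 0 := by exact_mod_cast hc
  have hD : (L.D : ℂ) ≠ 0 := by exact_mod_cast L.D_pos.ne'
  rw [L.th_smul_of_dvd hN hNc a b d hdet hτ, L.gs_eq hN hNc ⟨d, -b, by linarith⟩]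
  push_cast
  field_simp

/-- **Invariance under `Γ₀(N)`.** -/
theorem th_gamma (hN : N ≠ 0) {a b c d : ℤ} (hNc : (N : ℤ) ∣ c)
    (hdet : a * d - b * c = 1) {τ : ℂ} (hτ : 0 < τ.im) :
    L.th ((a * τ + b) / (c * τ + d)) = ((c : ℂ) * τ + d) ^ 2 * L.th τ := by
  rcases lt_trichotomy c 0 with hc | hc | hc
  · obtain ⟨m, hm⟩ : ∃ m : ℕ, c = -(m : ℤ) := ⟨(-c).toNat, by omega⟩
    subst hm
    have h := L.th_gamma_pos hN (a := -a) (b := -b) (d := -d) (c := m) (by rintro rfl; simp at hc)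
      (by rw [dvd_neg] at hNc; exact_mod_cast hNc) (by linarith) hτ
    push_cast at h ⊢
    have h1 : (a * τ + b) / (-(m : ℂ) * τ + d) = (-(a : ℂ) * τ + -b) / (m * τ + -d) := by
      rw [show (-(a : ℂ) * τ + -b) = -(a * τ + b) by ring,
        show ((m : ℂ) * τ + -d) = -(-(m : ℂ) * τ + d) by ring, neg_div_neg_eq]
    rw [h1, h]
    ring
  · subst hc
    rw [mul_zero, sub_zero] at hdet
    have hd : d = a := by
      rcases Int.eq_one_or_neg_one_of_mul_eq_one' hdet with ⟨h1, h2⟩ | ⟨h1, h2⟩ <;> rw [h1, h2]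
    have ha2 : (a : ℂ) * a = 1 := by rw [hd] at hdet; exact_mod_cast hdet
    have ha0 : (a : ℂ) ≠ 0 := by intro h; rw [h, zero_mul] at ha2; exact zero_ne_one ha2
    have h1 : (a * τ + b) / (((0 : ℤ) : ℂ) * τ + d) = τ + ((a * b : ℤ) : ℂ) := by
      rw [hd]
      push_cast
      rw [zero_mul, zero_add, div_eq_iff ha0]
      linear_combination (-(b : ℂ)) * ha2
    rw [h1, th_add_int, hd]
    push_cast
    rw [zero_mul, zero_add, sq, ha2, one_mul]
  · obtain ⟨m, hm⟩ : ∃ m : ℕ, c = (m : ℤ) := ⟨c.toNat, by omega⟩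
    subst hm
    have h := L.th_gamma_pos hN (a := a) (b := b) (d := d) (c := m) (by rintro rfl; simp at hc)
      (by exact_mod_cast hNc) hdet hτ
    push_cast at h ⊢
    exact h

end QD

end Fermat.Agent.H45.Th
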