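import Mathlib
import Fermat.Agent.H45Th4
import Fermat.Prelude.Def_FLTPrelim_Modularity
import Fermat.Prelude.Thm_CongruenceSubgroup_one_mem_strictPeriods_Gamma0

/-!
# Quaternary theta series, part 5: the modular form (LT M3a, helper45)
-/

set_option autoImplicit false

noncomputable section

namespace Fermat.Agent.H45.Th

open Matrix Complex Filter Topology
open UpperHalfPlane hiding I
open scoped Real ModularForm MatrixGroups Manifold

/-- limits of Gaussian sums at `i∞` -/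
theorem tendsto_gauss {q : (Fin 4 → ℤ) → ℝ} (hq0 : q 0 = 0) (hq : ∀ w, w ≠ 0 → 0 < q w)
    (hs : Summable fun w => Real.exp (-(π * q w))) (g : (Fin 4 → ℤ) → ℂ) (C : ℝ)
    (hg : ∀ w, ‖g w‖ ≤ C) (r : ℝ) :
    Tendsto (fun z : ℍ => ∑' w, cexp (π * I * ((z : ℂ) + r) * (q w : ℂ)) * g w) atImInfty
      (𝓝 (g 0)) := by
  classical
  have hnorm : ∀ (z : ℍ) w, ‖cexp (π * I * ((z : ℂ) + r) * (q w : ℂ))‖ =
      Real.exp (-(π * z.im * q w)) := by
    intro z w
    rw [Complex.norm_exp]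
    congr 1
    have h : (π * I * ((z : ℂ) + r) * (q w : ℂ) : ℂ) = ((π * q w : ℝ) : ℂ) * (I * (z + r)) := by
      push_cast; ring
    rw [h, re_ofReal_mul, I_mul_re, add_im, ofReal_im, add_zero, coe_im]
    ring
  have hlim : g 0 = ∑' w : Fin 4 → ℤ, if w = 0 then g 0 else 0 := by rw [tsum_ite_eq]
  rw [hlim]
  refine tendsto_tsum_of_dominated_convergence (bound := fun w => Real.exp (-(π * q w)) * C)
    (hs.mul_right C) ?_ ?_
  · intro w
    by_cases hw : w = 0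
    · subst hw
      simp only [hq0, ofReal_zero, mul_zero, Complex.exp_zero, one_mul, if_true]
      exact tendsto_const_nhds
    · rw [if_neg hw, tendsto_zero_iff_norm_tendsto_zero]
      have h1 : Tendsto (fun z : ℍ => Real.exp (-(π * z.im * q w)) * ‖g w‖) atImInfty (𝓝 (0 * ‖g w‖)) := by
        refine Tendsto.mul_const _ ?_
        refine Real.tendsto_exp_neg_atTop_nhds_zero.comp ?_
        have h2 : Tendsto (fun z : ℍ => z.im) atImInfty atTop := tendsto_comap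
        have h3 : (fun z : ℍ => π * z.im * q w) = fun z : ℍ => z.im * (π * q w) := by
          ext z; ring
        rw [h3]
        exact h2.atTop_mul_const (mul_pos Real.pi_pos (hq w hw))
      rw [zero_mul] at h1
      refine h1.congr fun z => ?_
      rw [norm_mul, hnorm]
  · filter_upwards [atImInfty_mem (S := {z : ℍ | 1 ≤ z.im}) |>.mpr ⟨1, fun z hz => hz⟩] with z hz w
    rw [norm_mul, hnorm]
    refine mul_le_mul (Real.exp_le_exp.mpr ?_) (hg w) (norm_nonneg _) (Real.exp_pos _).le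
    have hz' : (1 : ℝ) ≤ z.im := hz
    have h0 : 0 ≤ π * q w := by
      by_cases hw : w = 0
      · rw [hw, hq0, mul_zero]
      · exact (mul_pos Real.pi_pos (hq w hw)).le
    nlinarith

namespace QD

variable {N : ℕ} (L : QD N)

/-- terms of the theta series -/
def tt (τ : ℂ) (x : Fin 4 → ℤ) : ℂ := cexp (π * I * τ * ((bl L.G x x : ℤ) : ℂ))

theorem norm_tt (τ : ℂ) (x : Fin 4 → ℤ) :
    ‖L.tt τ x‖ = Real.exp (-(π * τ.im * ((bl L.G x x : ℤ) : ℝ))) := by
  rw [tt, Complex.norm_exp]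
  congr 1
  have h : (π * I * τ * ((bl L.G x x : ℤ) : ℂ) : ℂ) =
      (((π * ((bl L.G x x : ℤ) : ℝ) : ℝ)) : ℂ) * (I * τ) := by
    push_cast; ring
  rw [h, re_ofReal_mul, I_mul_re]
  ring

theorem norm_tt_le (z w : ℂ) (h : w.im ≤ z.im) (x : Fin 4 → ℤ) : ‖L.tt z x‖ ≤ ‖L.tt w x‖ := by
  rw [norm_tt, norm_tt]
  apply Real.exp_le_exp.mpr
  have h0 : (0 : ℝ) ≤ ((bl L.G x x : ℤ) : ℝ) := by exact_mod_cast L.bl_nonneg x
  have h1 := mul_le_mul_of_nonneg_right h (mul_nonneg Real.pi_pos.le h0)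
  nlinarith

theorem differentiable_tt (x : Fin 4 → ℤ) : Differentiable ℂ fun z => L.tt z x := by
  unfold tt
  fun_prop

theorem bl_pos {x : Fin 4 → ℤ} (hx : x ≠ 0) : 0 < bl L.G x x := by
  have hx' : (fun i => (x i : ℝ)) ≠ 0 := by
    intro h
    apply hx
    ext i
    have := congrFun h i
    simpa using this
  have h := L.pos.dotProduct_mulVec_pos hx'
  simp only [star_trivial] at h
  rw [cast_bl] at h
  exact_mod_cast h

theorem dual_pos (hN : N ≠ 0) {x : Fin 4 → ℤ} (hx : x ≠ 0) : 0 < bl L.Gs x x := by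
  have hx' : (fun i => (x i : ℝ)) ≠ 0 := by
    intro h
    apply hx
    ext i
    have := congrFun h i
    simpa using this
  have h := L.pos.inv.dotProduct_mulVec_pos hx'
  simp only [star_trivial] at h
  change 0 < ((fun i => (x i : ℝ)) ⬝ᵥ (L.A⁻¹ *ᵥ (fun i => (x i : ℝ)))) at h
  rw [L.dual_form hN] at h
  have hN' : (0 : ℝ) < N := by exact_mod_cast Nat.pos_of_ne_zero hN
  rw [lt_div_iff₀ hN', zero_mul] at h
  exact_mod_cast h

/-- the theta series as a function on `ℍ` -/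
def thf (z : ℍ) : ℂ := L.th (z : ℂ)

theorem mdifferentiable_thf : MDiff (L.thf) := by
  rw [UpperHalfPlane.mdifferentiable_iff]
  intro z hz
  have hz' : 0 < z.im := hz
  let y0 : ℍ := ⟨(z.im / 2 : ℝ) * Complex.I, by simpa using hz'⟩
  have hy0 : (y0 : ℂ).im = z.im / 2 := by simp [y0]
  have hopen : IsOpen {w : ℂ | (y0 : ℂ).im < w.im} := isOpen_lt continuous_const Complex.continuous_im
  have hd : DifferentiableOn ℂ (fun w : ℂ => ∑' x, L.tt w x) {w : ℂ | (y0 : ℂ).im < w.im} := by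
    apply differentiableOn_tsum_of_summable_norm (L.summable_th y0.im_pos).norm
    · intro x
      exact (L.differentiable_tt x).differentiableOn
    · exact hopen
    · intro x w hw
      exact L.norm_tt_le w y0 hw.le x
  have hzmem : z ∈ {w : ℂ | (y0 : ℂ).im < w.im} := by
    rw [Set.mem_ofPred_eq, hy0]
    linarith
  have hda := hd.differentiableAt (hopen.mem_nhds hzmem)
  have heq : (L.thf ∘ UpperHalfPlane.ofComplex) =ᶠ[nhds z] fun w : ℂ => ∑' x, L.tt w x := by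
    filter_upwards [hopen.mem_nhds hzmem] with w hw
    have hw' : 0 < w.im := by
      have : (y0 : ℂ).im < w.im := hw
      rw [hy0] at this
      linarith
    rw [Function.comp_apply, UpperHalfPlane.ofComplex_apply_of_im_pos hw', thf, th]
    rfl
  exact (hda.congr_of_eventuallyEq heq).differentiableWithinAt

theorem tendsto_thf : Tendsto L.thf atImInfty (𝓝 1) := by
  have h := tendsto_gauss (q := fun x => ((bl L.G x x : ℤ) : ℝ)) (by simp [bl])
    (fun w hw => by exact_mod_cast L.bl_pos hw) (by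
      have h1 := (L.summable_th (τ := I) (by simp)).norm
      refine h1.congr fun x => ?_
      have h2 := L.norm_tt I x
      rw [tt] at h2
      rw [h2]
      simp) (fun _ => 1) 1 (fun _ => by simp) 0
  refine h.congr fun z => ?_
  rw [thf, th]
  refine tsum_congr fun w => ?_
  push_cast
  rw [add_zero, mul_one]

section

variable {c : ℕ} [NeZero c]

theorem norm_gs_le (a : ℤ) (w : Fin 4 → ℤ) : ‖L.gs a c w‖ ≤ (c : ℝ) ^ 4 := by
  rw [gs, psum]
  refine (norm_sum_le _ _).trans ?_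
  simp only [norm_ee, Finset.sum_const, Finset.card_univ, nsmul_eq_mul, mul_one]
  rw [Fintype.card_fun, ZMod.card, Fintype.card_fin]
  push_cast
  exact le_rfl

theorem tendsto_dual (hN : N ≠ 0) (a : ℤ) (r : ℝ) :
    Tendsto (fun z : ℍ => ∑' w, L.dt ((z : ℂ) + r) w * L.gs a c w) atImInfty
      (𝓝 (L.gs a c 0)) := by
  have hN' : (0 : ℝ) < N := by exact_mod_cast Nat.pos_of_ne_zero hN
  have h := tendsto_gauss (q := fun x => ((bl L.Gs x x : ℤ) : ℝ) / N) (by simp [bl])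
    (fun w hw => div_pos (by exact_mod_cast L.dual_pos hN hw) hN') (by
      have h1 := (L.summable_dt hN (τ := I) (by simp)).norm
      refine h1.congr fun x => ?_
      rw [L.norm_dt hN]
      simp only [Complex.I_im, mul_one]
      rw [mul_div_assoc]) (fun w => L.gs a c w) _ (fun w => L.norm_gs_le a w) r
  refine h.congr fun z => ?_
  refine tsum_congr fun w => ?_
  rw [dt]
  push_cast
  rfl

/-- the value of `θ|γ` at `i∞`, lower left entry positive -/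
theorem tendsto_slash_pos (hN : N ≠ 0) {γ : SL(2, ℤ)} (hc : γ 1 0 = (c : ℤ)) :
    Tendsto (L.thf ∣[(2 : ℤ)] γ) atImInfty (𝓝 (-(L.gs (γ 0 0) c 0 / (c ^ 2 * L.D)))) := by
  have h := (L.tendsto_dual (c := c) hN (γ 0 0) ((γ 1 1 : ℤ) / c : ℝ)).const_mul
    (-(1 / ((c : ℂ) ^ 2 * L.D)))
  have hlim : -(L.gs (γ 0 0) c 0 / ((c : ℂ) ^ 2 * L.D)) =
      -(1 / ((c : ℂ) ^ 2 * L.D)) * L.gs (γ 0 0) c 0 := by ring
  rw [hlim]
  refine h.congr fun z => ?_
  rw [ModularForm.SL_slash_apply, thf, coe_specialLinearGroup_apply]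
  have hdet : γ 0 0 * γ 1 1 - γ 0 1 * (c : ℤ) = 1 := by
    rw [← hc]
    have := γ.det_coe
    rw [Matrix.det_fin_two] at this
    exact this
  have h1 := L.th_smul (c := c) hN (γ 0 0) (γ 0 1) (γ 1 1) hdet z.im_pos
  have hden : denom γ z = (c : ℂ) * z + (γ 1 1 : ℤ) := by
    rw [denom]
    simp [hc]
  have h0 : (c : ℂ) * z + (γ 1 1 : ℤ) ≠ 0 := by
    rw [← hden]; exact denom_ne_zero _ _
  have h2 : ((((algebraMap ℤ ℝ) (γ 0 0) : ℝ) : ℂ) * (z : ℂ) + (((algebraMap ℤ ℝ) (γ 0 1) : ℝ) : ℂ)) /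
      ((((algebraMap ℤ ℝ) (γ 1 0) : ℝ) : ℂ) * (z : ℂ) + (((algebraMap ℤ ℝ) (γ 1 1) : ℝ) : ℂ)) =
      (((γ 0 0 : ℤ) : ℂ) * z + ((γ 0 1 : ℤ) : ℂ)) / (c * z + ((γ 1 1 : ℤ) : ℂ)) := by
    rw [hc]
    simp
  rw [h2, h1, hden]
  have h3 : ((z : ℂ) + (((γ 1 1 : ℤ) : ℝ) / (c : ℝ) : ℝ)) = (z : ℂ) + ((γ 1 1 : ℤ) : ℂ) / c := by
    push_cast; rfl
  rw [h3]
  rw [_root_.zpow_neg]
  have h4 : ((c : ℂ) * z + ((γ 1 1 : ℤ) : ℂ)) ^ (2 : ℤ) = ((c : ℂ) * z + ((γ 1 1 : ℤ) : ℂ)) ^ 2 := by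
    norm_cast
  rw [h4]
  field_simp

end

theorem slash_neg (f : ℍ → ℂ) (γ : SL(2, ℤ)) : f ∣[(2 : ℤ)] (-γ) = f ∣[(2 : ℤ)] γ := by
  funext τ
  rw [ModularForm.SL_slash_apply, ModularForm.SL_slash_apply]
  have h1 : denom ((-γ : SL(2, ℤ)) : GL (Fin 2) ℝ) τ = (-1) * denom (γ : GL (Fin 2) ℝ) τ := by
    simp [denom]
    ring
  have h2 : (-γ) • τ = γ • τ := ModularGroup.SL_neg_smul γ τ
  have h3 : ((-1 : ℂ)) ^ (-(2 : ℤ)) = 1 := by norm_num
  rw [h1, h2, mul_zpow, h3, one_mul]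

/-- invariance of the theta function under `Γ₀(N)` -/
theorem slash_of_dvd (hN : N ≠ 0) (γ : SL(2, ℤ)) (h : (N : ℤ) ∣ γ 1 0) :
    L.thf ∣[(2 : ℤ)] γ = L.thf := by
  ext z
  rw [ModularForm.SL_slash_apply, thf, coe_specialLinearGroup_apply]
  have hdet : γ 0 0 * γ 1 1 - γ 0 1 * γ 1 0 = 1 := by
    have := γ.det_coe
    rw [Matrix.det_fin_two] at this
    exact this
  have h1 := L.th_gamma hN h hdet z.im_pos
  have hden : denom γ z = ((γ 1 0 : ℤ) : ℂ) * z + ((γ 1 1 : ℤ) : ℂ) := by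
    rw [denom]
    simp
  have h0 : ((γ 1 0 : ℤ) : ℂ) * z + ((γ 1 1 : ℤ) : ℂ) ≠ 0 := by
    rw [← hden]; exact denom_ne_zero _ _
  have h2 : ((((algebraMap ℤ ℝ) (γ 0 0) : ℝ) : ℂ) * (z : ℂ) + (((algebraMap ℤ ℝ) (γ 0 1) : ℝ) : ℂ)) /
      ((((algebraMap ℤ ℝ) (γ 1 0) : ℝ) : ℂ) * (z : ℂ) + (((algebraMap ℤ ℝ) (γ 1 1) : ℝ) : ℂ)) =
      (((γ 0 0 : ℤ) : ℂ) * z + ((γ 0 1 : ℤ) : ℂ)) / (((γ 1 0 : ℤ) : ℂ) * z + ((γ 1 1 : ℤ) : ℂ)) := by
    simp
  rw [h2, h1, hden, _root_.zpow_neg]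
  have h4 : (((γ 1 0 : ℤ) : ℂ) * z + ((γ 1 1 : ℤ) : ℂ)) ^ (2 : ℤ) =
      (((γ 1 0 : ℤ) : ℂ) * z + ((γ 1 1 : ℤ) : ℂ)) ^ 2 := by
    norm_cast
  rw [h4, thf]
  field_simp

/-- the theta function has a limit at every cusp -/
theorem exists_tendsto_slash (hN : N ≠ 0) (γ : SL(2, ℤ)) :
    ∃ ℓ : ℂ, Tendsto (L.thf ∣[(2 : ℤ)] γ) atImInfty (𝓝 ℓ) := by
  rcases lt_trichotomy (γ 1 0) 0 with hc | hc | hc
  · obtain ⟨m, hm⟩ : ∃ m : ℕ, γ 1 0 = -(m : ℤ) := ⟨(-γ 1 0).toNat, by omega⟩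
    have : NeZero m := ⟨by rintro rfl; simp at hm; omega⟩
    rw [← slash_neg]
    have h1 : (-γ) 1 0 = (m : ℤ) := by
      have : ((-γ : SL(2, ℤ)) : Matrix (Fin 2) (Fin 2) ℤ) 1 0 = -(γ 1 0) := by simp
      rw [this, hm, neg_neg]
    exact ⟨_, L.tendsto_slash_pos hN h1⟩
  · rw [L.slash_of_dvd hN γ (by rw [hc]; exact dvd_zero _)]
    exact ⟨_, L.tendsto_thf⟩
  · obtain ⟨m, hm⟩ : ∃ m : ℕ, γ 1 0 = (m : ℤ) := ⟨(γ 1 0).toNat, by omega⟩
    have : NeZero m := ⟨by rintro rfl; simp at hm; omega⟩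
    exact ⟨_, L.tendsto_slash_pos hN hm⟩

/-- the theta series as a modular form -/
def theta [NeZero N] : ModularForm (CongruenceSubgroup.Gamma0 N) 2 where
  toFun := L.thf
  slash_action_eq' := by
    intro γ hγ
    obtain ⟨γ', hγ', rfl⟩ := hγ
    refine L.slash_of_dvd (NeZero.ne N) γ' ?_
    rw [← ZMod.intCast_zmod_eq_zero_iff_dvd]
    exact (CongruenceSubgroup.Gamma0_mem).mp hγ'
  holo' := L.mdifferentiable_thf
  bdd_at_cusps' := by
    intro c hc
    rw [Subgroup.IsArithmetic.isCusp_iff_isCusp_SL2Z] at hc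
    rw [OnePoint.isBoundedAt_iff_forall_SL2Z hc]
    intro γ _
    obtain ⟨ℓ, hℓ⟩ := L.exists_tendsto_slash (NeZero.ne N) γ
    exact hℓ.isBigO_one ℝ

theorem theta_apply [NeZero N] (z : ℍ) : L.theta z = L.th z := rfl

/-- the quadratic form, as a natural number -/
def qn (x : Fin 4 → ℤ) : ℕ := (L.q x).toNat

theorem qn_eq (x : Fin 4 → ℤ) : (L.qn x : ℤ) = L.q x := by
  have h1 := L.bl_nonneg x
  have h2 := L.two_q x
  rw [qn, Int.toNat_of_nonneg (by omega)]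

theorem qn_eq_iff (x : Fin 4 → ℤ) (n : ℕ) : L.qn x = n ↔ bl L.G x x = 2 * n := by
  have h1 := L.qn_eq x
  have h2 := L.two_q x
  omega

theorem tt_eq (z : ℍ) (x : Fin 4 → ℤ) : L.tt z x = Function.Periodic.qParam 1 z ^ L.qn x := by
  rw [tt, Function.Periodic.qParam, ← Complex.exp_nat_mul, ← L.two_q, ← L.qn_eq]
  congr 1
  push_cast
  ring

theorem finite_rep (n : ℕ) : Finite {x : Fin 4 → ℤ // L.qn x = n} := by
  by_contra h
  rw [not_finite_iff_infinite] at h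
  have h1 := (L.summable_th (τ := (UpperHalfPlane.I : ℍ)) (UpperHalfPlane.I).im_pos).subtype
    {x : Fin 4 → ℤ | L.qn x = n}
  have h2 : Summable fun _ : {x : Fin 4 → ℤ // L.qn x = n} =>
      (Function.Periodic.qParam 1 UpperHalfPlane.I) ^ n := by
    refine h1.congr fun x => ?_
    have hx : L.qn x.1 = n := x.2
    have h3 := L.tt_eq UpperHalfPlane.I x.1
    rw [tt] at h3
    rw [Function.comp_apply, h3, hx]
  rw [summable_const_iff] at h2
  exact pow_ne_zero _ (Function.Periodic.qParam_ne_zero _) h2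

/-- the number of representations -/
def rp (n : ℕ) : ℕ := Nat.card {x : Fin 4 → ℤ // L.qn x = n}

theorem hasSum_thf (z : ℍ) :
    HasSum (fun n => (L.rp n : ℂ) • Function.Periodic.qParam 1 z ^ n) (L.thf z) := by
  have h1 := (L.summable_th z.im_pos).hasSum
  rw [← (Equiv.sigmaFiberEquiv L.qn).hasSum_iff] at h1
  refine h1.sigma fun n => ?_
  have := L.finite_rep n
  have := Fintype.ofFinite {x : Fin 4 → ℤ // L.qn x = n}
  have h2 : (L.rp n : ℂ) • Function.Periodic.qParam 1 z ^ n =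
      ∑ x : {x : Fin 4 → ℤ // L.qn x = n}, Function.Periodic.qParam 1 z ^ n := by
    simp [rp]
  rw [h2]
  have h3 : (fun x : {x : Fin 4 → ℤ // L.qn x = n} =>
      ((fun x : Fin 4 → ℤ => cexp (π * I * z * ((bl L.G x x : ℤ) : ℂ))) ∘
        (Equiv.sigmaFiberEquiv L.qn)) ⟨n, x⟩) =
        fun _ => Function.Periodic.qParam 1 z ^ n := by
    ext x
    have hx : L.qn x = n := x.2
    have h4 := L.tt_eq z x
    rw [tt] at h4
    rw [Function.comp_apply, Equiv.sigmaFiberEquiv_apply, h4, hx]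
  rw [h3]
  exact hasSum_fintype _

theorem qCoeff_theta [NeZero N] (n : ℕ) :
    ModularFormClass.qCoeff L.theta n =
      (Nat.card {x : Fin 4 → ℤ // x ⬝ᵥ (L.G *ᵥ x) = 2 * n} : ℂ) := by
  rw [ModularFormClass.qCoeff]
  rw [(ModularFormClass.qExpansion_coeff_unique (f := L.theta) one_pos
      (CongruenceSubgroup.one_mem_strictPeriods_Gamma0 N) (fun τ => L.hasSum_thf τ) n).symm, rp]
  congr 1
  exact Nat.card_congr (Equiv.subtypeEquivRight fun x => L.qn_eq_iff x n)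

end QD

end Fermat.Agent.H45.Th
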