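import Mathlib
import Fermat.Agent.H45Th5
import Fermat.Agent.H27LTDefs

/-!
# Quaternary theta series are modular forms (LT M3a, helper45)

`Fermat.Agent.LT.exists_theta`: for an even positive definite quaternary form of level `M` and
discriminant `M ^ 2` the generating function of the representation numbers is a modular form of
weight two for `Γ₀(M)`.
-/

set_option autoImplicit false

noncomputable section

namespace Fermat.Agent.H45.Th

open Matrix Complex Filter Topology
open scoped Real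

/-- positivity on rational vectors -/
theorem nonneg_of_int {A : Matrix (Fin 4) (Fin 4) ℤ}
    (pos : ∀ x : Fin 4 → ℤ, x ≠ 0 → 0 < x ⬝ᵥ (A *ᵥ x)) (y : Fin 4 → ℚ) :
    0 ≤ (fun i => (y i : ℝ)) ⬝ᵥ ((A.map (Int.cast : ℤ → ℝ)) *ᵥ (fun i => (y i : ℝ))) := by
  obtain ⟨n, hn, x, hx⟩ : ∃ n : ℕ, n ≠ 0 ∧ ∃ x : Fin 4 → ℤ, ∀ i, (n : ℝ) * (y i : ℝ) = x i := by
    refine ⟨∏ i, (y i).den, Finset.prod_ne_zero_iff.mpr fun i _ => (y i).den_nz, ?_⟩
    have h : ∀ i, ∃ m : ℤ, ((∏ j, (y j).den : ℕ) : ℝ) * (y i : ℝ) = m := by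
      intro i
      obtain ⟨k, hk⟩ : (y i).den ∣ ∏ j, (y j).den := Finset.dvd_prod_of_mem _ (Finset.mem_univ i)
      refine ⟨(y i).num * k, ?_⟩
      rw [hk]
      have h1 : ((y i : ℚ) : ℝ) * ((y i).den : ℝ) = ((y i).num : ℝ) := by
        exact_mod_cast Rat.mul_den_eq_num (y i)
      push_cast
      linear_combination (k : ℝ) * h1
    choose x hx using h
    exact ⟨x, hx⟩
  have h0 : 0 ≤ bl A x x := by
    by_cases hx0 : x = 0
    · rw [hx0]; simp [bl]
    · exact (pos x hx0).le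
  have h1 : (fun i => (x i : ℝ)) = (n : ℝ) • fun i => (y i : ℝ) := by
    ext i
    rw [← hx i]
    rfl
  have h2 := cast_bl (G := A) x
  rw [h1, mulVec_smul, dotProduct_smul, smul_dotProduct, smul_eq_mul, smul_eq_mul] at h2
  have h3 : (0 : ℝ) ≤ ((bl A x x : ℤ) : ℝ) := by exact_mod_cast h0
  rw [← h2] at h3
  have hn' : (0 : ℝ) < n := by exact_mod_cast Nat.pos_of_ne_zero hn
  have h4 := nonneg_of_mul_nonneg_right h3 hn'
  exact nonneg_of_mul_nonneg_right h4 hn'

theorem posDef_of_int {A : Matrix (Fin 4) (Fin 4) ℤ} (hs : Aᵀ = A) (hd : A.det ≠ 0)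
    (pos : ∀ x : Fin 4 → ℤ, x ≠ 0 → 0 < x ⬝ᵥ (A *ᵥ x)) :
    (A.map (Int.cast : ℤ → ℝ)).PosDef := by
  have hH : (A.map (Int.cast : ℤ → ℝ)).IsHermitian := by
    rw [IsHermitian, conjTranspose_eq_transpose_of_trivial, ← transpose_map, hs]
  have hps : (A.map (Int.cast : ℤ → ℝ)).PosSemidef := by
    refine PosSemidef.of_dotProduct_mulVec_nonneg hH fun x => ?_
    rw [star_trivial]
    have hcont : Continuous fun x : Fin 4 → ℝ => x ⬝ᵥ ((A.map (Int.cast : ℤ → ℝ)) *ᵥ x) := by
      fun_prop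
    have hdense : DenseRange (Pi.map fun _ : Fin 4 => (Rat.cast : ℚ → ℝ)) :=
      DenseRange.piMap fun _ => Rat.denseRange_cast
    exact isClosed_le continuous_const hcont |>.closure_subset_iff.mpr
      (by rintro _ ⟨y, rfl⟩; exact nonneg_of_int pos y) (hdense x)
  rw [hps.posDef_iff_det_ne_zero]
  have h : A.map (Int.cast : ℤ → ℝ) = (Int.castRingHom ℝ).mapMatrix A := rfl
  rw [h, ← RingHom.map_det]
  simpa using hd

end Fermat.Agent.H45.Th

namespace Fermat.Agent.LT

open Fermat.Agent.H45.Th Matrix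

/-- the lattice datum of an even positive quaternary form -/
def IsQF.qd {M : ℕ} [NeZero M] {A : Matrix (Fin 4) (Fin 4) ℤ} (hA : IsQF M A) : QD M where
  G := A
  Gs := hA.adj.choose
  symm := hA.symm
  symm' := hA.adj.choose_spec.1
  even := hA.even
  even' := hA.adj.choose_spec.2.1
  mul := hA.adj.choose_spec.2.2
  pos := posDef_of_int hA.symm (by rw [hA.det]; exact pow_ne_zero _ (by exact_mod_cast NeZero.ne M))
    hA.pos
  D := M
  det := hA.det

/-- **Theta series** (LT M3a): the generating function of the representation numbers of an even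
positive definite quaternary form of level `M` and discriminant `M ^ 2` is a modular form of
weight two for `Γ₀(M)`. -/
theorem exists_theta {M : ℕ} [NeZero M] {A : Matrix (Fin 4) (Fin 4) ℤ} (hA : IsQF M A) :
    ∃ f : ModularForm (CongruenceSubgroup.Gamma0 M) 2,
      ∀ n, ModularFormClass.qCoeff f n = rep A n :=
  ⟨hA.qd.theta, fun n => hA.qd.qCoeff_theta n⟩

/-- More generally for discriminant `D ^ 2` and level dividing `M`. -/
theorem exists_theta' {M : ℕ} [NeZero M] {A B : Matrix (Fin 4) (Fin 4) ℤ} (symm : A.IsSymm)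
    (even : ∀ i, Even (A i i)) (symm' : B.IsSymm) (even' : ∀ i, Even (B i i))
    (mul : A * B = (M : ℤ) • 1) (pos : ∀ x : Fin 4 → ℤ, x ≠ 0 → 0 < x ⬝ᵥ (A *ᵥ x))
    (D : ℕ) (det : A.det = (D : ℤ) ^ 2) :
    ∃ f : ModularForm (CongruenceSubgroup.Gamma0 M) 2,
      ∀ n, ModularFormClass.qCoeff f n = rep A n := by
  have hd : A.det ≠ 0 := by
    intro h0
    have h1 := congrArg Matrix.det mul
    rw [det_mul, h0, zero_mul, det_smul, det_one, mul_one] at h1
    have hM : (M : ℤ) ≠ 0 := by exact_mod_cast NeZero.ne M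
    exact pow_ne_zero _ hM h1.symm
  let L : QD M :=
    { G := A
      Gs := B
      symm := symm
      symm' := symm'
      even := even
      even' := even'
      mul := mul
      pos := posDef_of_int symm hd pos
      D := D
      det := det }
  exact ⟨L.theta, fun n => L.qCoeff_theta n⟩

/-- finiteness of representations -/
theorem IsQF.finite_rep {M : ℕ} [NeZero M] {A : Matrix (Fin 4) (Fin 4) ℤ} (hA : IsQF M A) (n : ℕ) :
    Finite {x : Fin 4 → ℤ // x ⬝ᵥ (A *ᵥ x) = 2 * (n : ℤ)} := by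
  have := hA.qd.finite_rep n
  exact Finite.of_equiv _ (Equiv.subtypeEquivRight fun x => hA.qd.qn_eq_iff x n)

theorem IsQF.rep_zero {M : ℕ} {A : Matrix (Fin 4) (Fin 4) ℤ} (hA : IsQF M A) : rep A 0 = 1 := by
  rw [rep, Nat.card_eq_one_iff_unique]
  have h : ∀ x : Fin 4 → ℤ, x ⬝ᵥ (A *ᵥ x) = 2 * ((0 : ℕ) : ℤ) → x = 0 := by
    intro x hx
    by_contra hne
    have := hA.pos x hne
    rw [hx] at this
    simp at this
  exact ⟨⟨fun x y => Subtype.ext ((h x.1 x.2).trans (h y.1 y.2).symm)⟩, ⟨⟨0, by simp⟩⟩⟩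

end Fermat.Agent.LT
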