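import Fermat.Agent.H27LTBin
import Fermat.Agent.H45Theta

/-!
Products of binary theta series of ideals of an imaginary quadratic field as modular forms of
weight two.
-/

set_option autoImplicit false

namespace Fermat.Agent.LT

open Matrix NumberField Module

/-- The block form `(a,b,c) ⊕ Q (a',b',c')`. -/
def blockQF (Q : ℕ) (a b c a' b' c' : ℤ) : Matrix (Fin 4) (Fin 4) ℤ :=
  !![2 * a, b, 0, 0; b, 2 * c, 0, 0; 0, 0, 2 * Q * a', Q * b'; 0, 0, Q * b', 2 * Q * c']

lemma blockQF_form (Q : ℕ) (a b c a' b' c' : ℤ) (x : Fin 4 → ℤ) :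
    x ⬝ᵥ (blockQF Q a b c a' b' c' *ᵥ x) =
      2 * ((a * x 0 ^ 2 + b * x 0 * x 1 + c * x 1 ^ 2) +
        Q * (a' * x 2 ^ 2 + b' * x 2 * x 3 + c' * x 3 ^ 2)) := by
  simp only [blockQF, dotProduct, Matrix.mulVec, Fin.sum_univ_four, Matrix.of_apply,
    Matrix.cons_val', Matrix.cons_val_zero, Matrix.cons_val_one, Matrix.cons_val,
    Matrix.cons_val_fin_one]
  ring

lemma IsBQF.nonneg {D : ℕ} {a b c : ℤ} (h : IsBQF D a b c) (x y : ℤ) :
    0 ≤ a * x ^ 2 + b * x * y + c * y ^ 2 := by
  have h1 : 4 * a * (a * x ^ 2 + b * x * y + c * y ^ 2) =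
      (2 * a * x + b * y) ^ 2 + D * y ^ 2 := by
    rw [← h.disc]; ring
  have h2 : 0 ≤ 4 * a * (a * x ^ 2 + b * x * y + c * y ^ 2) := by rw [h1]; positivity
  have h3 : 0 < 4 * a := by linarith [h.pos]
  exact nonneg_of_mul_nonneg_right h2 h3

lemma IsBQF.pos_of {D : ℕ} (hD : 0 < D) {a b c : ℤ} (h : IsBQF D a b c) (x y : ℤ)
    (hxy : x ≠ 0 ∨ y ≠ 0) : 0 < a * x ^ 2 + b * x * y + c * y ^ 2 := by
  have h1 : 4 * a * (a * x ^ 2 + b * x * y + c * y ^ 2) =
      (2 * a * x + b * y) ^ 2 + D * y ^ 2 := by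
    rw [← h.disc]; ring
  have h3 : 0 < 4 * a := by linarith [h.pos]
  have h2 : 0 < 4 * a * (a * x ^ 2 + b * x * y + c * y ^ 2) := by
    rw [h1]
    have hD' : (0 : ℤ) < D := by exact_mod_cast hD
    by_cases hy : y = 0
    · subst hy
      have hx : x ≠ 0 := by simpa using hxy
      have : 2 * a * x + b * 0 ≠ 0 := by
        have := h.pos.ne'
        simp [this, hx]
      have h4 : 0 < (2 * a * x + b * 0) ^ 2 := by positivity
      linarith
    · have h4 : 0 < (D : ℤ) * y ^ 2 := by positivity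
      have h5 : 0 ≤ (2 * a * x + b * y) ^ 2 := sq_nonneg _
      linarith
  exact pos_of_mul_pos_of_pos_left' h2 h3
where
  pos_of_mul_pos_of_pos_left' {u v : ℤ} (h : 0 < u * v) (hu : 0 < u) : 0 < v :=
    (pos_iff_pos_of_mul_pos h).mp hu

theorem isQF_block {D Q : ℕ} (hD : 0 < D) (hQ : 0 < Q) {a b c a' b' c' : ℤ}
    (h : IsBQF D a b c) (h' : IsBQF D a' b' c') :
    IsQF (D * Q) (blockQF Q a b c a' b' c') := by
  have hd := h.disc
  have hd' := h'.disc
  refine ⟨?_, ?_, ?_, ?_, ?_⟩
  · ext i j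
    fin_cases i <;> fin_cases j <;> rfl
  · intro i
    fin_cases i
    · exact even_two_mul a
    · exact even_two_mul c
    · exact ⟨Q * a', by simp [blockQF]; ring⟩
    · exact ⟨Q * c', by simp [blockQF]; ring⟩
  · intro x hx
    rw [blockQF_form]
    have hQ' : (0 : ℤ) < Q := by exact_mod_cast hQ
    have n1 := h.nonneg (x 0) (x 1)
    have n2 := h'.nonneg (x 2) (x 3)
    by_cases h01 : x 0 ≠ 0 ∨ x 1 ≠ 0
    · have := h.pos_of hD _ _ h01
      positivity
    · have h23 : x 2 ≠ 0 ∨ x 3 ≠ 0 := by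
        by_contra hcon
        apply hx
        push Not at h01 hcon
        ext i
        fin_cases i
        · exact h01.1
        · exact h01.2
        · exact hcon.1
        · exact hcon.2
      have := h'.pos_of hD _ _ h23
      positivity
  · refine ⟨!![2 * Q * c, -(Q * b), 0, 0; -(Q * b), 2 * Q * a, 0, 0;
      0, 0, 2 * c', -b'; 0, 0, -b', 2 * a'], ?_, ?_, ?_⟩
    · ext i j
      fin_cases i <;> fin_cases j <;> rfl
    · intro i
      fin_cases i
      · exact ⟨Q * c, by simp; ring⟩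
      · exact ⟨Q * a, by simp; ring⟩
      · exact even_two_mul c'
      · exact even_two_mul a'
    · have e1 : ((D * Q : ℕ) : ℤ) = (4 * a * c - b ^ 2) * Q := by push_cast; rw [hd]
      have e2 : ((D * Q : ℕ) : ℤ) = (4 * a' * c' - b' ^ 2) * Q := by push_cast; rw [hd']
      ext i j
      fin_cases i <;> fin_cases j <;>
        simp only [blockQF, Matrix.mul_apply, Fin.sum_univ_four, Matrix.of_apply,
          Matrix.cons_val', Matrix.cons_val_zero, Matrix.cons_val_one, Matrix.cons_val,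
          Matrix.cons_val_fin_one, Matrix.smul_apply, Matrix.one_apply, smul_eq_mul,
          Fin.zero_eta, Fin.mk_one, Fin.reduceFinMk, Fin.isValue, if_true, Fin.reduceEq,
          if_false, mul_one, mul_zero, zero_mul, add_zero, zero_add, reduceIte]
      · rw [e1]; ring
      · ring
      · ring
      · rw [e1]; ring
      · rw [e2]; ring
      · ring
      · ring
      · rw [e2]; ring
  · have e1 : (D : ℤ) = 4 * a * c - b ^ 2 := hd.symm
    have e2 : (D : ℤ) = 4 * a' * c' - b' ^ 2 := hd'.symm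
    have e3 : (((D * Q : ℕ) : ℤ)) ^ 2 = (4 * a * c - b ^ 2) * (4 * a' * c' - b' ^ 2) * Q ^ 2 := by
      push_cast
      rw [mul_pow, pow_two (D : ℤ)]
      nth_rewrite 1 [e1]
      rw [e2]
    rw [e3, blockQF, Matrix.det_succ_row_zero]
    simp only [Fin.sum_univ_four, Matrix.det_fin_three, Matrix.submatrix_apply, Matrix.of_apply,
      Matrix.cons_val', Matrix.cons_val_zero, Matrix.cons_val_one, Matrix.cons_val,
      Matrix.cons_val_fin_one, Fin.succ_zero_eq_one, Fin.succ_one_eq_two, Fin.isValue,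
      Fin.succAbove_zero, Fin.zero_succAbove]
    simp [Fin.succAbove]
    ring

variable {K : Type*} [Field K] [NumberField K]

/-- The product of the theta series of `I` at `τ` and of `J` at `Q τ` is a modular form of weight
two and level `|disc K| Q`. -/
theorem exists_theta_prod (h2 : finrank ℚ K = 2) [IsTotallyComplex K] (I J : Ideal (𝓞 K))
    (hI : I ≠ ⊥) (hJ : J ≠ ⊥) (Q : ℕ) (hQ : 0 < Q) (M : ℕ) (hM : (discr K).natAbs * Q = M) :
    ∃ f : ModularForm (CongruenceSubgroup.Gamma0 M) 2, ∀ n : ℕ,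
      ModularFormClass.qCoeff f n =
        (Nat.card {p : I × J // qI I p.1 + Q * qI J p.2 = n} : ℂ) := by
  obtain ⟨v, a, b, c, h, hv⟩ := exists_gram h2 I hI
  obtain ⟨w, a', b', c', h', hw⟩ := exists_gram h2 J hJ
  have hD : 0 < (discr K).natAbs := Int.natAbs_pos.mpr (discr_ne_zero K)
  have hQF := isQF_block hD hQ h h'
  rw [hM] at hQF
  haveI : NeZero M := ⟨by rw [← hM]; positivity⟩
  obtain ⟨f, hf⟩ := exists_theta hQF
  refine ⟨f, fun n => ?_⟩
  rw [hf n, rep]
  congr 1
  let e : (Fin 4 → ℤ) ≃ I × J :=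
    { toFun := fun x => (x 0 • v 0 + x 1 • v 1, x 2 • w 0 + x 3 • w 1)
      invFun := fun p => ![v.repr p.1 0, v.repr p.1 1, w.repr p.2 0, w.repr p.2 1]
      left_inv := by
        intro x
        ext i
        fin_cases i <;> simp
      right_inv := by
        rintro ⟨p, q⟩
        simp only [Matrix.cons_val_zero, Matrix.cons_val_one, Matrix.cons_val]
        have h1 := v.sum_repr p
        have h3 := w.sum_repr q
        rw [Fin.sum_univ_two] at h1 h3
        rw [h1, h3] }
  refine Nat.card_congr (e.subtypeEquiv fun x => ?_)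
  rw [blockQF_form, ← hv, ← hw]
  simp only [e, Equiv.coe_fn_mk]
  constructor
  · intro h4
    have h5 := mul_left_cancel₀ two_ne_zero h4
    exact_mod_cast h5
  · intro h4
    rw [← h4]
    push_cast
    ring

end Fermat.Agent.LT
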