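import Fermat.Agent.H23RedPic
import Fermat.Agent.H60Trick

/-!
# Correspondences and reduction of divisors (MZ-J2, helper27)

* `mapDomain_hom_eq_zero`: a bounded homomorphism `T` of divisors which preserves the set of
  principal divisors `div x`, `x ≡ const`, respects the residue discs;
* `redPic0_eq_zero_of_hom`: the kernel of the reduction of classes is stable.
-/

set_option autoImplicit false

noncomputable section

open AlgebraicCurve WithZero

namespace Fermat.Agent.H27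

open Fermat.Agent.H40 Fermat.Agent.H19 Fermat.Agent.H23

section Div

variable {K F k E : Type*} [Field K] [Field F] [Algebra K F] [Field k] [Field E] [Algebra k E]
variable (S : GoodRed K F k E)
variable [IsAlgClosed K] [IsAlgClosed k] [H94.FunField K F] [H94.FunField k E]

theorem eq_zero_of_forall_nat_mul_abs_le {a B : ℤ} (h : ∀ n : ℕ, (n : ℤ) * |a| ≤ B) : a = 0 := by
  by_contra hne
  have hpos : 1 ≤ |a| := Int.one_le_abs hne
  have hB : 0 ≤ B := by simpa using h 0
  have h1 := h (B.toNat + 1)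
  have h2 : ((B.toNat + 1 : ℕ) : ℤ) = B + 1 := by
    push_cast
    rw [Int.toNat_of_nonneg hB]
  rw [h2] at h1
  nlinarith

omit [IsAlgClosed k] [H94.FunField k E] in
/-- a divisor of degree zero with trivial reduction is mapped to a divisor with trivial
reduction -/
theorem mapDomain_hom_eq_zero (T : Divisor K F →+ Divisor K F) {C : ℤ}
    (hC : ∀ (P : Place K F) (Q : Place k E),
      |Finsupp.mapDomain S.r (T (Finsupp.single P 1)) Q| ≤ C)
    (hT : ∀ x : S.B, S.ρ x = 1 → ∀ Δ : Divisor K F, (∀ v, Δ v = v.ord (x : F)) →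
      Finsupp.mapDomain S.r (T Δ) = 0)
    (D : Divisor K F) (hD : Divisor.degree D = 0) (hr : Finsupp.mapDomain S.r D = 0) :
    Finsupp.mapDomain S.r (T D) = 0 := by
  classical
  have := S.pdF
  rcases isEmpty_or_nonempty (Place K F) with hempty | ⟨⟨P₀⟩⟩
  · have h0 : D = 0 := Subsingleton.elim _ _
    rw [h0, map_zero]
    exact Finsupp.mapDomain_zero
  set ψ : Divisor K F →+ Divisor k E := (Finsupp.mapDomain.addMonoidHom S.r).comp T with hψ
  have hψapp : ∀ D, ψ D = Finsupp.mapDomain S.r (T D) := fun _ => rfl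
  have hdeg1 : ∀ v : Place K F, v.deg = 1 := H94.deg_eq_one
  set m : ℤ := max S.c 0 + 1 with hm
  have hm1 : S.c < m := by have := le_max_left S.c 0; omega
  have hm0 : 0 < m := by have := le_max_right S.c 0; omega
  set E₀ : Divisor K F := Finsupp.single P₀ m with hE₀
  have hdE₀ : Divisor.degree E₀ = m := by
    rw [hE₀, Divisor.degree_single, H94.deg_eq_one]; simp
  have hE₀0 : ∀ v, 0 ≤ E₀ v := by
    intro v
    rw [hE₀, Finsupp.single_apply]
    split_ifs
    · exact hm0.le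
    · exact le_rfl
  -- the key claim
  have key : ∀ n : ℕ, ∃ Eₙ : Divisor K F, (∀ v, 0 ≤ Eₙ v) ∧ Divisor.degree Eₙ = m ∧
      ψ Eₙ = n • ψ D + ψ E₀ := by
    intro n
    set Dₙ : Divisor K F := n • D + E₀ with hDₙ
    have hdDₙ : Divisor.degree Dₙ = m := by
      rw [hDₙ, map_add, map_nsmul, hD, smul_zero, zero_add, hdE₀]
    have h1 := (S.isRed Dₙ (by rw [hdDₙ]; exact hm1)).2
    have h2 : Finsupp.mapDomain S.r Dₙ = Finsupp.single (S.r P₀) m := by
      rw [hDₙ, ← Finsupp.mapDomain.addMonoidHom_apply, map_add, map_nsmul,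
        Finsupp.mapDomain.addMonoidHom_apply, Finsupp.mapDomain.addMonoidHom_apply, hr, smul_zero,
        zero_add, hE₀, Finsupp.mapDomain_single]
    rw [h2] at h1
    have h3 : (1 : E) ∈ riemannRochSpace (Finsupp.single (S.r P₀) m) := by
      rw [one_mem_L, Finsupp.le_def]
      intro w
      rw [Finsupp.single_apply]
      simp only [Finsupp.coe_zero, Pi.zero_apply]
      split_ifs <;> omega
    rw [← h1] at h3
    obtain ⟨x, hx, hρ⟩ := h3
    have hρ0 : S.ρ x ≠ 0 := by rw [hρ]; exact one_ne_zero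
    have hx0 := S.ne_zero_of_ρ_ne_zero hρ0
    obtain ⟨Δ, hΔ, hΔ0⟩ := S.pdF.exists_divisor (x : F) hx0
    refine ⟨Dₙ + Δ, fun v => ?_, ?_, ?_⟩
    · have := (H40.mem_L hx0).mp hx v
      rw [Finsupp.add_apply, hΔ v]
      omega
    · rw [map_add, hdDₙ, hΔ0, add_zero]
    · rw [map_add, hψapp Δ, hT x hρ Δ hΔ, add_zero, hDₙ, map_add, map_nsmul]
  rw [← hψapp]
  ext Q
  rw [Finsupp.coe_zero, Pi.zero_apply]
  refine eq_zero_of_forall_nat_mul_abs_le (B := 2 * (m * C)) fun n => ?_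
  obtain ⟨Eₙ, h0, hdeg, hψn⟩ := key n
  have h1 := H60.abs_hom_le hdeg1 ψ hC Eₙ h0 Q
  have h2 := H60.abs_hom_le hdeg1 ψ hC E₀ hE₀0 Q
  rw [hdeg] at h1
  rw [hdE₀] at h2
  have h3 : (n : ℤ) * ψ D Q = ψ Eₙ Q - ψ E₀ Q := by
    rw [hψn, Finsupp.add_apply, Finsupp.smul_apply, nsmul_eq_mul]
    ring
  have h4 : (n : ℤ) * |ψ D Q| = |(n : ℤ) * ψ D Q| := by
    rw [abs_mul, abs_of_nonneg (Int.natCast_nonneg n)]
  rw [h4, h3]
  calc |ψ Eₙ Q - ψ E₀ Q| ≤ |ψ Eₙ Q| + |ψ E₀ Q| := abs_sub _ _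
    _ ≤ m * C + m * C := add_le_add h1 h2
    _ = 2 * (m * C) := by ring

/-- The kernel of the reduction of divisor classes is stable under an operator induced by a
homomorphism of divisors as in `mapDomain_hom_eq_zero`. -/
theorem redPic0_eq_zero_of_hom (T : Divisor K F →+ Divisor K F) {C : ℤ}
    (hC : ∀ (P : Place K F) (Q : Place k E),
      |Finsupp.mapDomain S.r (T (Finsupp.single P 1)) Q| ≤ C)
    (hT : ∀ x : S.B, S.ρ x = 1 → ∀ Δ : Divisor K F, (∀ v, Δ v = v.ord (x : F)) →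
      Finsupp.mapDomain S.r (T Δ) = 0)
    (U : Pic0 K F →+ Pic0 K F)
    (hU : ∀ D : Divisor.degZero (K := K) (F := F),
      ∃ h : T D ∈ Divisor.degZero (K := K) (F := F), U (Pic0.mk D) = Pic0.mk ⟨T D, h⟩)
    {x : Pic0 K F} (hx : redPic0 S x = 0) : redPic0 S (U x) = 0 := by
  have := S.pdF
  obtain ⟨D, rfl⟩ := Pic0.mk_surjective x
  rw [redPic0_mk, ← Pic0.mk_zero, eq_comm, Pic0_mk_eq_mk_iff] at hx
  rw [coe_redDegZero, AddSubgroup.coe_zero, sub_zero] at hx
  obtain ⟨h, hh0, hh⟩ := hx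
  obtain ⟨x, y, hy, hxy⟩ := S.frac h
  have hx : S.ρ x ≠ 0 := by rw [← hxy]; exact mul_ne_zero hh0 hy
  have hx0 := S.ne_zero_of_ρ_ne_zero hx
  have hy0 := S.ne_zero_of_ρ_ne_zero hy
  obtain ⟨X, hX, hX0⟩ := S.pdF.exists_divisor (x : F) hx0
  obtain ⟨Y, hY, hY0⟩ := S.pdF.exists_divisor (y : F) hy0
  have h1 : Finsupp.mapDomain S.r (D : Divisor K F) = Finsupp.mapDomain S.r (X - Y) := by
    ext w
    rw [hh w]
    rw [← Finsupp.mapDomain.addMonoidHom_apply, map_sub, Finsupp.mapDomain.addMonoidHom_apply,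
      Finsupp.mapDomain.addMonoidHom_apply, Finsupp.sub_apply, S.div_red x hx X hX w,
      S.div_red y hy Y hY w, ← hxy, w.ord_mul hh0 hy]
    ring
  -- another representative
  have hXY : (X - Y : Divisor K F) ∈ Divisor.degZero (K := K) (F := F) := by
    rw [Divisor.mem_degZero, map_sub, hX0, hY0, sub_zero]
  set D' : Divisor.degZero (K := K) (F := F) := D - ⟨X - Y, hXY⟩ with hD'
  have h2 : Pic0.mk D = Pic0.mk D' := by
    symm
    rw [Pic0_mk_eq_mk_iff, hD', AddSubgroup.coe_sub, sub_sub_cancel]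
    refine ⟨(x : F) / y, div_ne_zero hx0 hy0, fun v => ?_⟩
    rw [Finsupp.sub_apply, hX, hY, div_eq_mul_inv, v.ord_mul hx0 (inv_ne_zero hy0), v.ord_inv]
    ring
  have h3 : Finsupp.mapDomain S.r (D' : Divisor K F) = 0 := by
    rw [hD', AddSubgroup.coe_sub, ← Finsupp.mapDomain.addMonoidHom_apply, map_sub,
      Finsupp.mapDomain.addMonoidHom_apply, Finsupp.mapDomain.addMonoidHom_apply, h1, sub_self]
  obtain ⟨h4, h5⟩ := hU D'
  rw [h2, h5, redPic0_mk, ← Pic0.mk_zero]
  congr 1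
  apply Subtype.ext
  rw [coe_redDegZero, AddSubgroup.coe_zero]
  exact mapDomain_hom_eq_zero S T hC hT _ (Divisor.mem_degZero.mp D'.2) h3

end Div

end Fermat.Agent.H27
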