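import Fermat.Agent.H23RedPic
import Fermat.Agent.H60Norm

/-!
# Norms and reduction (MZ-J2, helper27)

`normAlong_red`: for a Gauss type reduction of a finite extension `F'/F` (along `φ`) to an extension
`E'/E` (along `φb`) of at least the same degree, the norm of an integral function is integral and
its reduction is the norm of the reduction.
-/

set_option autoImplicit false

noncomputable section

open AlgebraicCurve WithZero

namespace Fermat.Agent.H27

open Fermat.Agent.H40

section Norm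

variable {K F F' k E E' : Type*} [Field K] [Field F] [Field F'] [Algebra K F] [Algebra K F']
  [Field k] [Field E] [Field E'] [Algebra k E] [Algebra k E']

/-- the embedding `φb` is the reduction of `φ` -/
structure RedCompat (R : ReductionData K F k E) (R' : ReductionData K F' k E')
    (φ : F →ₐ[K] F') (φb : E →ₐ[k] E') : Prop where
  mem : ∀ x : R.B, φ x ∈ R'.B
  red : ∀ x : R.B, R'.ρ ⟨φ x, mem x⟩ = φb (R.ρ x)

/-- scaling a family of functions -/
theorem exists_scale_family (R : ReductionData K F k E) {ι : Type*} [Fintype ι] {a : ι → F}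
    {i₁ : ι} (hi₁ : a i₁ ≠ 0) :
    ∃ c : K, c ≠ 0 ∧ ∃ x : ι → R.B, (∀ i, (x i : F) = c • a i) ∧ ∃ i, R.ρ (x i) ≠ 0 := by
  classical
  have h1 : ∀ i, ∃ c : K, c ≠ 0 ∧ ∃ x : R.B, (x : F) = c • a i ∧ (a i ≠ 0 → R.ρ x ≠ 0) := by
    intro i
    by_cases hi : a i = 0
    · exact ⟨1, one_ne_zero, 0, by simp [hi], fun h => absurd hi h⟩
    · obtain ⟨c, hc, x, hx, hρ⟩ := R.exists_scale hi
      exact ⟨c, hc, x, hx, fun _ => hρ⟩
  choose c hc x hx hρ using h1
  obtain ⟨i₀, hi₀, hmin⟩ := Finset.exists_min_image (Finset.univ.filter fun i => a i ≠ 0)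
    (fun i => R.A.valuation (c i)) ⟨i₁, by simp [hi₁]⟩
  have hd : ∀ i, a i ≠ 0 → c i₀ / c i ∈ R.A := fun i hi => by
    rw [← R.A.valuation_le_one_iff, map_div₀]
    exact div_le_one_of_le₀ (hmin i (by simp [hi])) zero_le
  refine ⟨c i₀, hc i₀, fun i => if hi : a i = 0 then 0 else R.const ⟨c i₀ / c i, hd i hi⟩ * x i,
    fun i => ?_, i₀, ?_⟩
  · dsimp only
    split_ifs with hi
    · simp [hi]
    · rw [Subring.coe_mul, ReductionData.coe_const, hx i, ← Algebra.smul_def, smul_smul]
      congr 1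
      exact div_mul_cancel₀ _ (hc i)
  · have hi : a i₀ ≠ 0 := (Finset.mem_filter.mp hi₀).2
    dsimp only
    rw [dif_neg hi]
    have : (⟨c i₀ / c i₀, hd i₀ hi⟩ : R.A) = 1 := Subtype.ext (div_self (hc i₀))
    rw [map_mul, ReductionData.ρ_const, this, map_one, map_one, one_mul]
    exact hρ i₀ hi

variable {R : ReductionData K F k E} {R' : ReductionData K F' k E'}
  {φ : F →ₐ[K] F'} {φb : E →ₐ[k] E'}

/-- the embedding as a homomorphism of the rings of integral functions -/
def RedCompat.hom (hc : RedCompat R R' φ φb) : R.B →+* R'.B :=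
  ((φ : F →+* F').comp R.B.subtype).codRestrict R'.B hc.mem

theorem RedCompat.coe_hom (hc : RedCompat R R' φ φb) (x : R.B) : (hc.hom x : F') = φ x := rfl

theorem RedCompat.ρ_hom (hc : RedCompat R R' φ φb) (x : R.B) : R'.ρ (hc.hom x) = φb (R.ρ x) :=
  hc.red x

/-- coefficients with respect to a family with independent reductions -/
theorem RedCompat.coeff_mem (hc : RedCompat R R' φ φb) (hA : ∀ c, c ∈ R'.A → c ∈ R.A)
    {ι : Type*} [Fintype ι] {b : ι → R'.B}
    (hb : ∀ e : ι → E, ∑ i, φb (e i) * R'.ρ (b i) = 0 → ∀ i, e i = 0)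
    (x : R'.B) (a : ι → F) (hx : (x : F') = ∑ i, φ (a i) * (b i : F')) (i : ι) : a i ∈ R.B := by
  classical
  by_contra hi
  have hi0 : a i ≠ 0 := fun h => hi (by rw [h]; exact R.B.zero_mem)
  obtain ⟨c, hc0, y, hy, j, hj⟩ := exists_scale_family R hi0
  -- `c⁻¹` is integral
  have key : c⁻¹ ∈ R'.A := by
    by_contra hcA
    have hcA' : c ∈ R'.A := (R'.A.mem_or_inv_mem c).resolve_right hcA
    have hnu : ¬ IsUnit (⟨c, hcA'⟩ : R'.A) := by
      intro hu
      apply hcA
      obtain ⟨u, hu⟩ := hu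
      have h1 : ((u : R'.A) : K) = c := by rw [hu]
      have h2 : ((u⁻¹ : R'.Aˣ) : R'.A) * (u : R'.A) = 1 := u.inv_mul
      have h3 : (((u⁻¹ : R'.Aˣ) : R'.A) : K) * c = 1 := by
        rw [← h1, ← Subring.coe_mul] 
        exact congrArg Subtype.val h2
      have h4 : c⁻¹ = (((u⁻¹ : R'.Aˣ) : R'.A) : K) := (eq_inv_of_mul_eq_one_left h3).symm
      rw [h4]
      exact Subtype.mem _
    have e1 : R'.const ⟨c, hcA'⟩ * x = ∑ i, hc.hom (y i) * b i := by
      apply Subtype.ext
      rw [Subring.coe_mul, ReductionData.coe_const,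
        show ((∑ i, hc.hom (y i) * b i : R'.B) : F') = ∑ i, ((hc.hom (y i) * b i : R'.B) : F') from
          map_sum R'.B.subtype _ _, hx, Finset.mul_sum]
      refine Finset.sum_congr rfl fun i _ => ?_
      rw [Subring.coe_mul, hc.coe_hom, hy, map_smul, Algebra.smul_def, mul_assoc]
    have e2 := congrArg R'.ρ e1
    rw [map_mul, ReductionData.ρ_const, (R'.π_eq_zero _).mpr hnu, map_zero, zero_mul, map_sum] at e2
    refine hj (hb (fun i => R.ρ (y i)) ?_ j)
    rw [e2]
    refine Finset.sum_congr rfl fun i _ => ?_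
    rw [map_mul, hc.ρ_hom]
  apply hi
  have h1 : a i = algebraMap K F c⁻¹ * (y i : F) := by
    rw [hy, Algebra.smul_def, ← mul_assoc, ← map_mul, inv_mul_cancel₀ hc0, map_one, one_mul]
  rw [h1]
  exact R.B.mul_mem (R.mem_B ⟨c⁻¹, hA _ key⟩) (y i).2

theorem RedCompat.independent (hc : RedCompat R R' φ φb)
    {ι : Type*} [Fintype ι] {b : ι → R'.B}
    (hb : ∀ e : ι → E, ∑ i, φb (e i) * R'.ρ (b i) = 0 → ∀ i, e i = 0)
    (a : ι → F) (hx : ∑ i, φ (a i) * (b i : F') = 0) (i : ι) : a i = 0 := by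
  classical
  by_contra hi0
  obtain ⟨c, hc0, y, hy, j, hj⟩ := exists_scale_family R hi0
  refine hj (hb (fun i => R.ρ (y i)) ?_ j)
  have e1 : ∑ i, hc.hom (y i) * b i = 0 := by
    apply Subtype.ext
    rw [show ((∑ i, hc.hom (y i) * b i : R'.B) : F') = ∑ i, ((hc.hom (y i) * b i : R'.B) : F') from
          map_sum R'.B.subtype _ _, Subring.coe_zero]
    have h1 : algebraMap K F' c * ∑ i, φ (a i) * (b i : F') = 0 := by rw [hx, mul_zero]
    rw [← h1, Finset.mul_sum]
    refine Finset.sum_congr rfl fun i _ => ?_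
    rw [Subring.coe_mul, hc.coe_hom, hy, map_smul, Algebra.smul_def, mul_assoc]
  have e2 := congrArg R'.ρ e1
  rw [map_sum, map_zero] at e2
  rw [← e2]
  refine Finset.sum_congr rfl fun i _ => ?_
  rw [map_mul, hc.ρ_hom]

/-- **Norms and reduction.** -/
theorem normAlong_red (hc : RedCompat R R' φ φb) (hA : ∀ c, c ∈ R'.A → c ∈ R.A)
    (hs : Function.Surjective R'.ρ) (hfin : FiniteAlong K φ) (hfinb : FiniteAlong k φb)
    (hdeg : finrankAlong K φ ≤ finrankAlong k φb) (x : R'.B) :
    ∃ h : H60.normAlong φ (x : F') ∈ R.B,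
      R.ρ ⟨H60.normAlong φ (x : F'), h⟩ = H60.normAlong φb (R'.ρ x) := by
  classical
  letI := algebraAlong φ
  letI := algebraAlong φb
  haveI : FiniteDimensional F F' := hfin
  haveI : FiniteDimensional E E' := hfinb
  have hdeg' : Module.finrank F F' ≤ Module.finrank E E' := hdeg
  set bb := Module.finBasis E E' with hbb
  choose b hbρ using fun i => hs (bb i)
  have hb : ∀ e : Fin (Module.finrank E E') → E, ∑ i, φb (e i) * R'.ρ (b i) = 0 → ∀ i, e i = 0 := by
    intro e he
    refine Fintype.linearIndependent_iff.mp bb.linearIndependent e ?_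
    rw [← he]
    refine Finset.sum_congr rfl fun i _ => ?_
    rw [hbρ, Algebra.smul_def]
    rfl
  have hli : LinearIndependent F (fun i => (b i : F')) := by
    rw [Fintype.linearIndependent_iff]
    intro a ha
    refine hc.independent hb a ?_
    rw [← ha]
    refine Finset.sum_congr rfl fun i _ => ?_
    rw [Algebra.smul_def]
    rfl
  have hcard : Fintype.card (Fin (Module.finrank E E')) = Module.finrank F F' :=
    le_antisymm hli.fintype_card_le_finrank (by rw [Fintype.card_fin]; exact hdeg')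
  haveI : Nonempty (Fin (Module.finrank E E')) := ⟨⟨0, Module.finrank_pos⟩⟩
  set B := basisOfLinearIndependentOfCardEqFinrank hli hcard with hB
  have hBi : ∀ i, B i = (b i : F') := fun i => by
    rw [hB, coe_basisOfLinearIndependentOfCardEqFinrank]
  -- the matrix of multiplication by `x`
  set M := Algebra.leftMulMatrix B (x : F') with hM
  have hMe : ∀ j, (x : F') * (b j : F') = ∑ i, φ (M i j) * (b i : F') := by
    intro j
    have h1 := B.sum_repr ((x : F') * B j)
    rw [hBi] at h1
    rw [← h1]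
    refine Finset.sum_congr rfl fun i _ => ?_
    rw [hM, Algebra.leftMulMatrix_eq_repr_mul, hBi, hBi, Algebra.smul_def]
    rfl
  have hMB : ∀ i j, M i j ∈ R.B := fun i j =>
    hc.coeff_mem hA hb (x * b j) (fun i => M i j) (by rw [Subring.coe_mul]; exact hMe j) i
  set M₀ : Matrix (Fin (Module.finrank E E')) (Fin (Module.finrank E E')) R.B :=
    fun i j => ⟨M i j, hMB i j⟩ with hM₀
  have hM₀' : R.B.subtype.mapMatrix M₀ = M := rfl
  have hdet : H60.normAlong φ (x : F') = ((M₀.det : R.B) : F) := by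
    have h1 : H60.normAlong φ (x : F') = M.det := Algebra.norm_eq_matrix_det B (x : F')
    rw [h1, ← hM₀', ← RingHom.map_det]
    rfl
  have hred : R.ρ.mapMatrix M₀ = Algebra.leftMulMatrix bb (R'.ρ x) := by
    ext i j
    have h1 : x * b j = ∑ i, hc.hom (M₀ i j) * b i := by
      apply Subtype.ext
      rw [show ((∑ i, hc.hom (M₀ i j) * b i : R'.B) : F') =
        ∑ i, ((hc.hom (M₀ i j) * b i : R'.B) : F') from map_sum R'.B.subtype _ _, Subring.coe_mul,
        hMe j]
      rfl
    have h2 := congrArg R'.ρ h1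
    rw [map_mul, map_sum, hbρ] at h2
    have h3 : R'.ρ x * bb j = ∑ i, (R.ρ (M₀ i j)) • bb i := by
      rw [h2]
      refine Finset.sum_congr rfl fun i _ => ?_
      rw [map_mul, hc.ρ_hom, hbρ, Algebra.smul_def]
      rfl
    rw [Algebra.leftMulMatrix_eq_repr_mul, h3, map_sum, Finsupp.finset_sum_apply]
    simp only [map_smul, Finsupp.smul_apply, Module.Basis.repr_self, smul_eq_mul,
      Finsupp.single_apply, mul_ite, mul_one, mul_zero, Finset.sum_ite_eq', Finset.mem_univ, if_true]
    rfl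
  refine ⟨by rw [hdet]; exact (M₀.det).2, ?_⟩
  have h1 : (⟨H60.normAlong φ (x : F'), by rw [hdet]; exact (M₀.det).2⟩ : R.B) = M₀.det :=
    Subtype.ext hdet
  rw [h1, RingHom.map_det, hred]
  exact (Algebra.norm_eq_matrix_det bb (R'.ρ x)).symm

end Norm

end Fermat.Agent.H27
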