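import Fermat.Agent.H15Defs
import Fermat.Agent.H18J4
import Fermat.Agent.H42HeckeData
import Fermat.Agent.H27MZRedNorm
import Fermat.Agent.H27MZRedDiv

/-!
# MZ-J2: the kernels of reduction of `J₀(N)` are Hecke stable (helper27)

`heckeRed : H15.T_heckeRed`.
-/

set_option autoImplicit false
set_option synthInstance.maxHeartbeats 400000
set_option maxHeartbeats 4000000

noncomputable section

open AlgebraicCurve ModularCurve WithZero IntermediateField

namespace Fermat.Agent.H27

open Fermat.Agent.H40 Fermat.Agent.H94 Fermat.Agent.H19 Fermat.Agent.H23 Fermat.Agent.H60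

local notation "Qb" => AlgebraicClosure ℚ

section Compat

variable {L : Type*} [Field L] [Algebra ℚ L] (A : ValuationSubring L) {k : Type*} [Field k]
  (π : A →+* k) {N N' : ℕ} (hπ : Function.Surjective π) [IsLocalHom π] (hdeg : H42.DegLE L k N)
  (hdeg' : H42.DegLE L k N')

/-- compatibility of embeddings of modular function fields with the reductions can be checked on
integral `q`-expansions -/
theorem redCompat_of
    (θ : laurentBaseChange L (modularFunctionFieldFull N) →ₐ[L]
      laurentBaseChange L (modularFunctionFieldFull N'))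
    (θb : modularFunctionFieldFullC k N →ₐ[k] modularFunctionFieldFullC k N')
    (f : LaurentSeries A → LaurentSeries A)
    (h1 : ∀ (y : LaurentSeries A)
      (hy : coeffMap A.subtype y ∈ laurentBaseChange L (modularFunctionFieldFull N)),
      (θ ⟨coeffMap A.subtype y, hy⟩ : LaurentSeries L) = coeffMap A.subtype (f y))
    (h2 : ∀ (y : LaurentSeries A) (hy : coeffMap π y ∈ modularFunctionFieldFullC k N),
      (θb ⟨coeffMap π y, hy⟩ : LaurentSeries k) = coeffMap π (f y)) :
    RedCompat (H42.modReductionData A π N hπ hdeg) (H42.modReductionData A π N' hπ hdeg') θ θb := by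
  set G := H42.modGauss A π N hπ hdeg with hG
  set G' := H42.modGauss A π N' hπ hdeg' with hG'
  have hB : ∀ y : G.B, ∃ y' : G'.B, (y' : laurentBaseChange L (modularFunctionFieldFull N')) =
      θ (y : laurentBaseChange L (modularFunctionFieldFull N)) ∧ G'.ρ y' = θb (G.ρ y) := by
    rintro ⟨⟨g, hg⟩, y, hyg⟩
    obtain rfl : coeffMap A.subtype y = g := hyg
    have hy' : coeffMap A.subtype (f y) ∈ laurentBaseChange L (modularFunctionFieldFull N') := by
      rw [← h1 y hg]; exact Subtype.mem _
    have hyk := H42.coeffMap_mem_full A π N hπ hdeg y hg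
    have e1 : G.ρ ⟨⟨coeffMap A.subtype y, hg⟩, y, rfl⟩ = ⟨coeffMap π y, hyk⟩ :=
      Subtype.ext (H42.coe_modGauss_ρ A π N hπ hdeg y hg)
    refine ⟨⟨⟨coeffMap A.subtype (f y), hy'⟩, f y, rfl⟩, Subtype.ext (h1 y hg).symm, ?_⟩
    apply Subtype.ext
    have e2 := H42.coe_modGauss_ρ A π N' hπ hdeg' (f y) hy'
    rw [e1, h2 y hyk]
    exact e2
  have key : ∀ x : (H42.modReductionData A π N hπ hdeg).B,
      ∃ h : θ (x : laurentBaseChange L (modularFunctionFieldFull N)) ∈
        (H42.modReductionData A π N' hπ hdeg').B,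
      (H42.modReductionData A π N' hπ hdeg').ρ ⟨_, h⟩ =
        θb ((H42.modReductionData A π N hπ hdeg).ρ x) := by
    intro x
    obtain ⟨y, z, hz, hxz⟩ := x.2
    obtain ⟨y', hy', hy'ρ⟩ := hB y
    obtain ⟨z', hz', hz'ρ⟩ := hB z
    have hz'0 : G'.ρ z' ≠ 0 := by
      rw [hz'ρ]
      exact (map_ne_zero _).mpr hz
    have hxz' : θ (x : laurentBaseChange L (modularFunctionFieldFull N)) *
        (z' : laurentBaseChange L (modularFunctionFieldFull N')) = y' := by
      rw [hz', hy', ← map_mul, hxz]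
    refine ⟨⟨y', z', hz'0, hxz'⟩, ?_⟩
    have e1 : (H42.modReductionData A π N' hπ hdeg').ρ
        ⟨θ (x : laurentBaseChange L (modularFunctionFieldFull N)), y', z', hz'0, hxz'⟩ =
        G'.ρ y' / G'.ρ z' := G'.res_eq_div _ hz'0 hxz'
    have e2 : (H42.modReductionData A π N hπ hdeg).ρ x = G.ρ y / G.ρ z := G.res_eq_div x hz hxz
    rw [e1, e2, hy'ρ, hz'ρ, map_div₀]
  exact ⟨fun x => (key x).choose, fun x => (key x).choose_spec⟩

theorem modReductionData_ρ_surjective :
    Function.Surjective (H42.modReductionData A π N hπ hdeg).ρ :=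
  (H42.modGauss A π N hπ hdeg).res_surjective (H42.modGauss_frac A π N hπ hdeg)

end Compat

section Bar

variable (k : Type*) [Field k] (N q : ℕ) [NeZero N] [NeZero q]

/-- the first degeneracy embedding in characteristic `ℓ` -/
def alphaC : modularFunctionFieldFullC k N →ₐ[k] modularFunctionFieldFullC k (N * q) :=
  inclusion (full_degeneracyC_le k (dvd_mul_right N q))

theorem coe_alphaC (x : modularFunctionFieldFullC k N) :
    (alphaC k N q x : LaurentSeries k) = x :=
  coe_inclusion _ x

/-- the second degeneracy embedding in characteristic `ℓ` -/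
def betaC : modularFunctionFieldFullC k N →ₐ[k] modularFunctionFieldFullC k (N * q) :=
  ((qExpandAlgHomC k q).comp (modularFunctionFieldFullC k N).val).codRestrict
    (modularFunctionFieldFullC k (N * q)).toSubalgebra
    fun x => full_degeneracyC_map_le k N q ⟨x, x.2, rfl⟩

theorem coe_betaC (x : modularFunctionFieldFullC k N) :
    (betaC k N q x : LaurentSeries k) = qExpand k q x := rfl

theorem finrank_alphaC :
    finrankAlong k (alphaC k N q) =
      relfinrank (modularFunctionFieldFullC k N) (modularFunctionFieldFullC k (N * q)) := by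
  rw [relfinrank_eq_finrank_of_le (full_degeneracyC_le k (dvd_mul_right N q))]
  rfl

/-- the degrees of the degeneracy maps in characteristic zero and in characteristic `ℓ` agree -/
theorem finrank_alphaC_eq (L : Type*) [Field L] [Algebra ℚ L] [IsAlgClosed L] [IsAlgClosed k]
    (h : ((N * q : ℕ) : k) ≠ 0) :
    finrankAlong L (heckeAlphaBar L N q) = finrankAlong k (alphaC k N q) ∧
      finrankAlong k (alphaC k N q) ≠ 0 := by
  have hN : ((N : ℕ) : k) ≠ 0 := by
    intro h0
    rw [Nat.cast_mul, h0, zero_mul] at h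
    exact h rfl
  have h1 := H67.relfinrank_full_mul (H42.degreeFact L) N q
  have h2 : dedekindPsi N *
      relfinrank (modularFunctionFieldFullC k N) (modularFunctionFieldFullC k (N * q))
      = dedekindPsi (N * q) := by
    have e1 := H66.relfinrank_full k N hN
    have e2 := H66.relfinrank_full k (N * q) h
    rw [← e1, ← e2]
    refine relfinrank_mul_relfinrank ?_ (full_degeneracyC_le k (dvd_mul_right N q))
    rw [adjoin_le_iff, Set.singleton_subset_iff]
    exact jqModC_mem_full k N
  have h3 := H67.dedekindPsi_pos N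
  have h4 := H67.dedekindPsi_pos (N * q)
  rw [H67.finrank_alpha, finrank_alphaC]
  refine ⟨Nat.eq_of_mul_eq_mul_left h3 (h1.trans h2.symm), fun h0 => ?_⟩
  rw [h0, mul_zero] at h2
  exact h4.ne h2

end Bar

section Corr

variable {K F F' k E E' : Type*} [Field K] [Field F] [Field F'] [Algebra K F] [Algebra K F']
  [Field k] [Field E] [Field E'] [Algebra k E] [Algebra k E']

/-- the divisor of a function with constant reduction is mapped by a correspondence with good
reduction to a divisor with trivial reduction -/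
theorem correspondence_red [HasPrincipalDivisors K F'] (S : GoodRed K F k E)
    (R' : ReductionData K F' k E')
    {φ ψ : F →ₐ[K] F'} {φb ψb : E →ₐ[k] E'}
    (hcφ : RedCompat S.toReductionData R' φ φb) (hcψ : RedCompat S.toReductionData R' ψ ψb)
    (hA : ∀ c, c ∈ R'.A → c ∈ S.A) (hs : Function.Surjective R'.ρ)
    (hφ : φ.toRingHom.IsIntegral) (hψ : ψ.toRingHom.IsIntegral)
    (hfin : FiniteAlong K ψ) (hN : NormFormulaAlong K ψ hfin) (hfinb : FiniteAlong k ψb)
    (hdeg : finrankAlong K ψ ≤ finrankAlong k ψb)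
    (x : S.B) (hx : S.ρ x = 1) (Δ : Divisor K F) (hΔ : ∀ v, Δ v = v.ord (x : F)) :
    Finsupp.mapDomain S.r (Divisor.correspondence φ ψ hφ hψ Δ) = 0 := by
  have hx0 : (x : F) ≠ 0 := S.ne_zero_of_ρ_ne_zero (by rw [hx]; exact one_ne_zero)
  have h1 : R'.ρ (hcφ.hom x) = 1 := by rw [hcφ.ρ_hom, hx, map_one]
  obtain ⟨h2, h3⟩ : ∃ h : normAlong ψ (φ x) ∈ S.B,
      S.ρ ⟨normAlong ψ (φ x), h⟩ = normAlong ψb (R'.ρ (hcφ.hom x)) :=
    normAlong_red hcψ hA hs hfin hfinb hdeg (hcφ.hom x)
  have h4 : S.ρ ⟨normAlong ψ (φ x), h2⟩ = 1 := by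
    rw [h3, h1]
    letI := algebraAlong ψb
    exact map_one (Algebra.norm E)
  have h5 : ∀ v, Divisor.correspondence φ ψ hφ hψ Δ v = v.ord (normAlong ψ (φ x)) := fun v =>
    correspondence_apply_eq_ord φ ψ hφ hψ hfin hN hx0 hΔ v
  ext w
  have h6 := S.div_red ⟨normAlong ψ (φ x), h2⟩ (by rw [h4]; exact one_ne_zero) _ h5 w
  rw [h6, h4, w.ord_one]
  rfl

end Corr

section Main

variable {N : ℕ} [NeZero N] {ℓ : ℕ} {A : ValuationSubring Qb}

/-- `T_q` respects the kernel of reduction at `ℓ`, `q ≠ ℓ` -/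
theorem reductionModL_heckeOperatorBar_of_ne (hℓ : ℓ.Prime) (hℓN : ¬ ℓ ∣ N)
    (hA : A.LiesOverPrime ℓ) (q : Nat.Primes) (hq : (q : ℕ) ≠ ℓ) (x : JZero N)
    (hx : reductionModL A N x = 0) : reductionModL A N (heckeOperatorBar N q x) = 0 := by
  haveI : NeZero (q : ℕ) := ⟨q.2.ne_zero⟩
  have : Fact ℓ.Prime := ⟨hℓ⟩
  have hg : H42.GenusEq N A := S19.genusEqAt N (NeZero.ne N) hℓ hℓN A hA
  have hdeg := H42.degLE_place hℓ hA hℓN
  have h := H42.reductionInputsModL_of_genusEq hℓ hA hℓN hg
  have hℓNq : ¬ ℓ ∣ N * q := by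
    intro hd
    rcases (Nat.Prime.dvd_mul hℓ).mp hd with hd | hd
    · exact hℓN hd
    · exact hq ((Nat.prime_dvd_prime_iff_eq hℓ q.2).mp hd).symm
  have hdeg' := H42.degLE_place (N := N * q) hℓ hA hℓNq
  have := H42.funField_left (k := IsLocalRing.ResidueField A) N hdeg
  have := H42.funField_right (L := Qb) N hdeg
  have hk : IsAlgClosed (IsLocalRing.ResidueField A) :=
    H18.isAlgClosed_residueField A
  obtain ⟨S, hS, hr⟩ := H18.exists_goodRedModL hdeg hg h
  obtain ⟨hα, hβ, hPD, hfin, hFI, hNF⟩ :=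
    H67.heckeInputsAlong_of_degreeFact (H42.degreeFact Qb) N q
  have hop : heckeOperatorBar N q x = heckePic0Bar hα hβ hFI hfin hNF x :=
    (heckeOperatorBar_apply N q x).trans
      (DFunLike.congr_fun (heckeOperatorAlong_eq hα hβ hFI hfin hNF) x)
  have hne : ((N * q : ℕ) : IsLocalRing.ResidueField A) ≠ 0 :=
    H42.natCast_ne_zero_of_liesOver hℓ hA hℓNq
  obtain ⟨hdeg1, hdeg2⟩ := finrank_alphaC_eq (IsLocalRing.ResidueField A) N q Qb hne
  have hfinb : FiniteAlong (IsLocalRing.ResidueField A)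
      (alphaC (IsLocalRing.ResidueField A) N q) := by
    letI := algebraAlong (alphaC (IsLocalRing.ResidueField A) N q)
    exact FiniteDimensional.of_finrank_pos (Nat.pos_of_ne_zero hdeg2)
  have hcα : RedCompat S.toReductionData (H42.modRed hdeg') (heckeAlphaBar Qb N q)
      (alphaC (IsLocalRing.ResidueField A) N q) := by
    rw [hS]
    exact redCompat_of A (IsLocalRing.residue A) IsLocalRing.residue_surjective hdeg hdeg' _ _ id
      (fun y hy => coe_heckeAlphaBar N q _) (fun y hy => rfl)
  have hcβ : RedCompat S.toReductionData (H42.modRed hdeg') (heckeBetaBar Qb N q)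
      (betaC (IsLocalRing.ResidueField A) N q) := by
    rw [hS]
    exact redCompat_of A (IsLocalRing.residue A) IsLocalRing.residue_surjective hdeg hdeg' _ _
      (qExpand A q) (fun y hy => by rw [coe_heckeBetaBar, coeffMap_qExpand])
      (fun y hy => by rw [coe_betaC, coeffMap_qExpand])
  have hSA : S.A = A := congrArg ReductionData.A hS
  rw [hop, ← H18.redPic0_eq h S hr]
  refine redPic0_eq_zero_of_hom S (heckeDivBar hα hβ)
    (C := finrankAlong Qb (heckeBetaBar Qb N q)) ?_ ?_ (heckePic0Bar hα hβ hFI hfin hNF) ?_ ?_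
  · intro P Q
    have hdeg1 : ∀ v : Place Qb (modularFunctionFieldBar N), v.deg = 1 := H94.deg_eq_one
    have hpos : ∀ v, 0 ≤ heckeDivBar hα hβ (Finsupp.single P 1) v := by
      intro v
      refine correspondence_nonneg _ _ hβ hα (fun u => ?_) v
      classical
      rw [Finsupp.single_apply]
      split_ifs <;> norm_num
    have hdegT : Divisor.degree (heckeDivBar hα hβ (Finsupp.single P 1)) =
        (finrankAlong Qb (heckeBetaBar Qb N q) : ℤ) := by
      have := Divisor.degree_correspondence (heckeBetaBar Qb N q) (heckeAlphaBar Qb N q) hβ hα hFI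
        (Finsupp.single P 1)
      rw [heckeDivBar, this, Divisor.degree_single, hdeg1]
      simp
    have h0 := mapDomain_apply_le_degree hdeg1 S.r _ hpos Q
    rw [hdegT] at h0
    rw [abs_of_nonneg h0.1]
    exact h0.2
  · intro x hx Δ hΔ
    exact correspondence_red S (H42.modRed hdeg') hcβ hcα (fun c hc => by rw [hSA]; exact hc)
      (modReductionData_ρ_surjective A (IsLocalRing.residue A) IsLocalRing.residue_surjective hdeg')
      hβ hα hfin hNF hfinb hdeg1.le x hx Δ hΔ
  · intro D
    exact ⟨(Pic0.degZeroCorrespondence (heckeBetaBar Qb N q) (heckeAlphaBar Qb N q) hβ hα hFI D).2,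
      rfl⟩
  · rw [H18.redPic0_eq h S hr]
    exact hx

/-- `T_ℓ` respects the kernel of reduction at `ℓ` (Eichler-Shimura) -/
theorem reductionModL_heckeOperatorBar_self (hℓ : ℓ.Prime) (hℓN : ¬ ℓ ∣ N)
    (hA : A.LiesOverPrime ℓ) (x : JZero N)
    (hx : reductionModL A N x = 0) : reductionModL A N (heckeOperatorBar N ⟨ℓ, hℓ⟩ x) = 0 := by
  haveI : NeZero ℓ := ⟨hℓ.ne_zero⟩
  haveI : Fact ℓ.Prime := ⟨hℓ⟩
  haveI : CharP (IsLocalRing.ResidueField A) ℓ := charP_residue hℓ hA
  have hg : H42.GenusEq N A := S19.genusEqAt N (NeZero.ne N) hℓ hℓN A hA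
  have hred := H42.reductionInputsModL_of_genusEq hℓ hA hℓN hg
  have hH := H42.heckeData N ℓ hℓ hℓN
  obtain ⟨τ, hτ⟩ := exists_frobAut hℓ hA
  obtain ⟨ζ, hζ, hζ1⟩ := exists_zeta hℓ hA
  obtain ⟨w, hw⟩ := hH.swap
  have hr := hred.choose_spec.1
  have hgen := hred.choose_spec.2
  have hs : reductionModL A N = reductionPic0Along hred.choose hr hgen := reductionAlong_eq hred
  obtain ⟨hα, hβ, hPD, hfin, hFI, hNF⟩ := hH.inputs
  have hop : heckeOperatorBar N ⟨ℓ, hℓ⟩ x = heckePic0Bar hα hβ hFI hfin hNF x := by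
    exact (heckeOperatorBar_apply N (⟨ℓ, hℓ⟩ : Nat.Primes) x).trans
      (DFunLike.congr_fun (heckeOperatorAlong_eq hα hβ hFI hfin hNF) x)
  rw [hs] at hx
  rw [hop, hs, reductionPic0Along_heckePic0Bar hw hζ hζ1 hα hβ hFI hfin hNF hH.degree_le
    (H42.riemannBound _ _) (H42.deg_bar N) hr hgen hτ x, hx]
  have h0 : ∀ g : SemilinearAut (IsLocalRing.ResidueField A)
      (modularFunctionFieldFullC (IsLocalRing.ResidueField A) N),
      g • (0 : JZeroC (IsLocalRing.ResidueField A) N) = 0 := fun g => by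
    rw [← Pic0.mk_zero, SemilinearAut.pic0_smul_mk, map_zero]
  rw [h0, h0, smul_zero, add_zero]

theorem reductionModL_heckeOperatorBar (hℓ : ℓ.Prime) (hℓN : ¬ ℓ ∣ N)
    (hA : A.LiesOverPrime ℓ) (q : Nat.Primes) (x : JZero N)
    (hx : reductionModL A N x = 0) : reductionModL A N (heckeOperatorBar N q x) = 0 := by
  by_cases hq : (q : ℕ) = ℓ
  · obtain rfl : q = ⟨ℓ, hℓ⟩ := Subtype.ext hq
    exact reductionModL_heckeOperatorBar_self hℓ hℓN hA x hx
  · exact reductionModL_heckeOperatorBar_of_ne hℓ hℓN hA q hq x hx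

/-- **MZ-J2**: the kernels of reduction are Hecke stable. -/
theorem heckeRed : H15.T_heckeRed := by
  intro N _ ℓ hℓ hℓN A hA t x hx
  have hcomm := H67.heckeOperatorsCommuteBar N
  show reductionModL A N (letI := heckeModuleBar N; t • x) = 0
  rw [heckeModuleBar_smul_def hcomm]
  have hx : reductionModL A N x = 0 := hx
  induction t using MvPolynomial.induction_on generalizing x with
  | C a =>
    rw [heckeEvalBar_C]
    have : ((a : Module.End ℤ (JZero N))) x = a • x := by simp
    rw [this, map_zsmul, hx, smul_zero]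
  | add p r hp hr =>
    rw [map_add, LinearMap.add_apply, map_add, hp x hx hx, hr x hx hx, add_zero]
  | mul_X p q hp =>
    have h1 : heckeEvalBar hcomm (MvPolynomial.X q) = heckeOperatorBar N q :=
      heckeEvalBar_heckeGen hcomm q
    rw [map_mul, Module.End.mul_apply, h1]
    have h2 := reductionModL_heckeOperatorBar hℓ hℓN hA q x hx
    exact hp _ h2 h2

end Main

end Fermat.Agent.H27
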