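import Mathlib

/-!
# The self-dual normal basis of a cyclic cubic Kummer extension

`E / F` cyclic cubic, `E = F(θ)`, `θ ^ 3 = m ∈ F`, `s θ = ω θ`, `ω` a primitive cube root of unity in `F`.
`e i = (1 + ω ^ i θ + ω ^ (-i) θ⁻¹) / 3` is a self-dual normal basis:
`s (e i) = e (i + 1)`, `∑ e i = 1`, `Tr (e i * e j) = δ_ij`; moreover
`e 0 e 1 + e 1 e 2 + e 2 e 0 = 0`, `e 0 e 1 e 2 = (m - 1) ^ 2 / (27 m)`.
-/

set_option autoImplicit false

namespace Fermat.Agent.H27SD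

/-- The data of a cyclic cubic Kummer extension (no separate hypothesis on the degree: it follows). -/
structure Kum (F E : Type*) [Field F] [Field E] [Algebra F E] (s : E →ₐ[F] E) where
  /-- cube root of unity -/
  ω : F
  /-- the radicand -/
  m : F
  /-- the radical -/
  θ : E
  three : (3 : F) ≠ 0
  hω : ω ^ 2 + ω + 1 = 0
  hm : m ≠ 0
  hθ : θ ^ 3 = algebraMap F E m
  hs : s θ = algebraMap F E ω * θ
  /-- `1, θ, θ²` span -/
  span : ∀ x : E, ∃ a b c : F, x = algebraMap F E a + algebraMap F E b * θ + algebraMap F E c * θ ^ 2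

namespace Kum

variable {F E : Type*} [Field F] [Field E] [Algebra F E] {s : E →ₐ[F] E} (K : Kum F E s)

/-- shorthand -/
local notation "ι" => algebraMap F E

include K

theorem three' : (3 : E) ≠ 0 := by
  have h := (map_ne_zero (algebraMap F E)).2 K.three
  rwa [map_ofNat] at h

theorem ω_ne : K.ω ≠ 0 := by
  intro h
  have := K.hω
  rw [h] at this
  norm_num at this

theorem ω_cube : K.ω ^ 3 = 1 := by
  linear_combination (K.ω - 1) * K.hω

theorem ωE : (ι K.ω) ^ 2 + ι K.ω + 1 = 0 := by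
  have := congrArg (algebraMap F E) K.hω
  simpa using this

theorem ωE_cube : (ι K.ω) ^ 3 = 1 := by
  linear_combination (ι K.ω - 1) * K.ωE

theorem mE_ne : ι K.m ≠ 0 := (map_ne_zero _).2 K.hm

theorem θ_ne : K.θ ≠ 0 := by
  intro h
  have := K.hθ
  rw [h] at this
  exact K.mE_ne (by rw [← this]; ring)

/-- the inverse of `θ`. -/
theorem θ_inv : K.θ⁻¹ = K.θ ^ 2 / ι K.m := by
  have h1 := K.θ_ne
  have h2 := K.mE_ne
  have h3 := K.hθ
  field_simp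
  rw [← h3]

/-- `e i = (1 + ω ^ i θ + ω ^ (2 i) θ⁻¹) / 3`. -/
noncomputable def e (i : ℕ) : E :=
  (1 + (ι K.ω) ^ i * K.θ + (ι K.ω) ^ (2 * i) * K.θ⁻¹) / 3

theorem e_zero : K.e 0 = (1 + K.θ + K.θ⁻¹) / 3 := by simp [e]

theorem e_one : K.e 1 = (1 + ι K.ω * K.θ + (ι K.ω) ^ 2 * K.θ⁻¹) / 3 := by simp [e]

theorem e_two : K.e 2 = (1 + (ι K.ω) ^ 2 * K.θ + ι K.ω * K.θ⁻¹) / 3 := by
  have h : (ι K.ω) ^ 4 = ι K.ω := by
    calc (ι K.ω) ^ 4 = (ι K.ω) ^ 3 * ι K.ω := by ring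
      _ = ι K.ω := by rw [K.ωE_cube, one_mul]
  simp only [e]
  rw [show 2 * 2 = 4 from rfl, h]

theorem e_add_three (i : ℕ) : K.e (i + 3) = K.e i := by
  have h1 : (ι K.ω) ^ (i + 3) = (ι K.ω) ^ i := by rw [pow_add, K.ωE_cube, mul_one]
  have h2 : (ι K.ω) ^ (2 * (i + 3)) = (ι K.ω) ^ (2 * i) := by
    rw [show 2 * (i + 3) = 2 * i + 3 + 3 from by ring, pow_add, pow_add, K.ωE_cube, mul_one, mul_one]
  simp only [e, h1, h2]

theorem s_θinv : s K.θ⁻¹ = (ι K.ω) ^ 2 * K.θ⁻¹ := by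
  have h1 : s K.θ⁻¹ = (s K.θ)⁻¹ := map_inv₀ s K.θ
  rw [h1, K.hs, mul_inv]
  congr 1
  have h2 : (ι K.ω) ≠ 0 := (map_ne_zero _).2 K.ω_ne
  field_simp
  exact K.ωE_cube.symm

theorem s_e (i : ℕ) : s (K.e i) = K.e (i + 1) := by
  simp only [e, map_div₀, map_add, map_mul, map_pow, map_one, AlgHom.commutes, K.hs, K.s_θinv]
  have h3 : s (3 : E) = 3 := map_ofNat s 3
  rw [h3]
  congr 1
  ring

theorem sum_e : K.e 0 + K.e 1 + K.e 2 = 1 := by
  rw [K.e_zero, K.e_one, K.e_two]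
  have h3 := K.three'
  field_simp
  have h := K.ωE
  have h2 := K.θ_ne
  field_simp
  linear_combination (K.θ ^ 2 + 1) * h

theorem nine' : (9 : E) ≠ 0 := by
  have h := K.three'
  have h2 : (9 : E) = 3 * 3 := by norm_num
  rw [h2]
  exact mul_ne_zero h h

theorem x_y : K.θ * K.θ⁻¹ = 1 := mul_inv_cancel₀ K.θ_ne

theorem x_sq : K.θ ^ 2 = ι K.m * K.θ⁻¹ := by
  have h := K.x_y
  have h3 := K.hθ
  calc K.θ ^ 2 = K.θ ^ 3 * K.θ⁻¹ := by linear_combination (-K.θ ^ 2) * h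
    _ = ι K.m * K.θ⁻¹ := by rw [h3]

theorem m_y_sq : ι K.m * K.θ⁻¹ ^ 2 = K.θ := by
  have h := K.x_y
  have h3 := K.x_sq
  linear_combination (-K.θ⁻¹) * h3 + K.θ * h

theorem y_sq : K.θ⁻¹ ^ 2 = K.θ * (ι K.m)⁻¹ := by
  have h := K.m_y_sq
  have hm := K.mE_ne
  field_simp
  linear_combination h

/-- `T x = x + s x + s² x`, as a linear map to `E`. -/
noncomputable def T (_K : Kum F E s) : E →ₗ[F] E :=
  LinearMap.id + s.toLinearMap + s.toLinearMap ∘ₗ s.toLinearMap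

omit K in
theorem T_apply (K : Kum F E s) (x : E) : K.T x = x + s x + s (s x) := rfl

theorem T_repr (a b c : F) : K.T (ι a + ι b * K.θ + ι c * K.θ ^ 2) = ι (3 * a) := by
  rw [T_apply]
  simp only [map_add, map_mul, map_pow, AlgHom.commutes, K.hs]
  have h := K.ωE
  have h3 : ι (3 : F) = 3 := map_ofNat _ 3
  rw [h3]
  linear_combination (ι b * K.θ + ι c * K.θ ^ 2 * ((ι K.ω) ^ 2 - ι K.ω + 1)) * h

theorem T_mem (x : E) : K.T x ∈ LinearMap.range (Algebra.linearMap F E) := by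
  obtain ⟨a, b, c, rfl⟩ := K.span x
  exact ⟨3 * a, (K.T_repr a b c).symm⟩

omit K in
theorem inj (F E : Type*) [Field F] [Field E] [Algebra F E] :
    Function.Injective (Algebra.linearMap F E) := (algebraMap F E).injective

/-- the trace, with values in `F`. -/
noncomputable def tr : E →ₗ[F] F :=
  ((LinearEquiv.ofInjective (Algebra.linearMap F E) (inj F E)).symm.toLinearMap) ∘ₗ
    (K.T.codRestrict (LinearMap.range (Algebra.linearMap F E)) K.T_mem)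

theorem ι_tr (x : E) : ι (K.tr x) = x + s x + s (s x) := by
  have h := (LinearEquiv.ofInjective (Algebra.linearMap F E) (inj F E)).apply_symm_apply
    (K.T.codRestrict (LinearMap.range (Algebra.linearMap F E)) K.T_mem x)
  exact congrArg Subtype.val h

theorem tr_eq_iff {x : E} {a : F} : K.tr x = a ↔ x + s x + s (s x) = ι a := by
  rw [← K.ι_tr]
  exact ⟨fun h => by rw [h], fun h => (algebraMap F E).injective h⟩

/-- the three coordinates with respect to `1, θ, θ⁻¹`. -/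
theorem tr_xy (a b c : F) : K.tr (ι a + ι b * K.θ + ι c * K.θ⁻¹) = 3 * a := by
  rw [K.tr_eq_iff]
  simp only [map_add, map_mul, map_pow, AlgHom.commutes, K.hs, K.s_θinv]
  have h := K.ωE
  have h3 : ι (3 : F) = 3 := map_ofNat _ 3
  rw [h3]
  linear_combination (ι b * K.θ + ι c * K.θ⁻¹ * ((ι K.ω) ^ 2 - ι K.ω + 1)) * h

theorem tr_ι (a : F) : K.tr (ι a) = 3 * a := by
  have h := K.tr_xy a 0 0
  simpa using h

theorem s_cube (x : E) : s (s (s x)) = x := by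
  obtain ⟨a, b, c, rfl⟩ := K.span x
  simp only [map_add, map_mul, map_pow, AlgHom.commutes, K.hs]
  have h := K.ωE_cube
  linear_combination (ι b * K.θ + ι c * K.θ ^ 2 * ((ι K.ω) ^ 3 + 1)) * h

theorem tr_s (x : E) : K.tr (s x) = K.tr x := by
  rw [K.tr_eq_iff, K.ι_tr, K.s_cube]
  ring

theorem e_mul_e (i j : ℕ) : K.e i * K.e j =
    ι ((1 + K.ω ^ (i + 2 * j) + K.ω ^ (2 * i + j)) / 9)
      + ι ((K.ω ^ i + K.ω ^ j + K.ω ^ (2 * i + 2 * j) / K.m) / 9) * K.θ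
      + ι ((K.ω ^ (2 * i) + K.ω ^ (2 * j) + K.ω ^ (i + j) * K.m) / 9) * K.θ⁻¹ := by
  have h9 : ι (9 : F) = 9 := map_ofNat _ 9
  simp only [e, map_div₀, map_add, map_mul, map_pow, map_one, h9]
  have h1 := K.x_y
  have h2 := K.x_sq
  have h3 := K.y_sq
  have h4 := K.nine'
  have h5 := K.three'
  have h6 : (9 : E) = 3 * 3 := by norm_num
  rw [h6, div_mul_div_comm]
  have h7 : ∀ A B C : E, A / (3 * 3) + B / (3 * 3) * K.θ + C / (3 * 3) * K.θ⁻¹
      = (A + B * K.θ + C * K.θ⁻¹) / (3 * 3) := by intro A B C; ring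
  rw [h7]
  congr 1
  rw [pow_mul, pow_mul, div_eq_mul_inv]
  linear_combination (((ι K.ω) ^ i * ((ι K.ω) ^ 2) ^ j + ((ι K.ω) ^ 2) ^ i * (ι K.ω) ^ j)) * h1
    + ((ι K.ω) ^ i * (ι K.ω) ^ j) * h2 + (((ι K.ω) ^ 2) ^ i * ((ι K.ω) ^ 2) ^ j) * h3

theorem nine : (9 : F) ≠ 0 := by
  have h := K.three
  have h2 : (9 : F) = 3 * 3 := by norm_num
  rw [h2]
  exact mul_ne_zero h h

theorem tr_e_mul_e' (i j : ℕ) : K.tr (K.e i * K.e j) =
    (1 + K.ω ^ (i + 2 * j) + K.ω ^ (2 * i + j)) / 3 := by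
  rw [K.e_mul_e, K.tr_xy]
  have h := K.nine
  have h2 := K.three
  have h3 : (9 : F) = 3 * 3 := by norm_num
  rw [h3]
  field_simp

theorem tr_e_mul_e (i j : Fin 3) : K.tr (K.e i * K.e j) = if i = j then 1 else 0 := by
  rw [K.tr_e_mul_e']
  have h := K.hω
  have h2 := K.three
  have h3 := K.ω_cube
  have h4 : K.ω ^ 4 = K.ω := by linear_combination K.ω * h3
  have h5 : K.ω ^ 5 = K.ω ^ 2 := by linear_combination K.ω ^ 2 * h3
  have h6 : K.ω ^ 6 = 1 := by linear_combination (K.ω ^ 3 + 1) * h3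
  have hA : 1 + K.ω + K.ω ^ 2 = 0 := by linear_combination h
  have hB : 1 + K.ω ^ 2 + K.ω = 0 := by linear_combination h
  have hC : ((1 : F) + 1 + 1) / 3 = 1 := by
    rw [div_eq_one_iff_eq h2]
    norm_num
  fin_cases i <;> fin_cases j <;> simp [h3, h4, h5, h6, hA, hB, hC]

theorem tr_e (i : Fin 3) : K.tr (K.e i) = 1 := by
  have h := K.sum_e
  have h1 : K.e i = K.e (i : ℕ) * K.e ((0 : Fin 3) : ℕ) + K.e (i : ℕ) * K.e ((1 : Fin 3) : ℕ)
      + K.e (i : ℕ) * K.e ((2 : Fin 3) : ℕ) := by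
    simp only [Fin.val_zero, Fin.val_one, Fin.val_two]
    linear_combination (-K.e i) * h
  rw [h1, map_add, map_add, K.tr_e_mul_e, K.tr_e_mul_e, K.tr_e_mul_e]
  fin_cases i <;> simp

theorem e_eq (i : Fin 3) : K.e i = ι (1 / 3) + ι (K.ω ^ (i : ℕ) / 3) * K.θ
    + ι (K.ω ^ (2 * (i : ℕ)) / 3) * K.θ⁻¹ := by
  have h3 : ι (3 : F) = 3 := map_ofNat _ 3
  simp only [e, map_div₀, map_pow, map_one, h3]
  ring

/-- `θ` in terms of the `e i`. -/
theorem θ_eq : K.θ = K.e 0 + (ι K.ω) ^ 2 * K.e 1 + ι K.ω * K.e 2 := by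
  rw [K.e_zero, K.e_one, K.e_two]
  have h := K.ωE
  have h3 := K.three'
  have key : (1 + K.θ + K.θ⁻¹) + (ι K.ω) ^ 2 * (1 + ι K.ω * K.θ + (ι K.ω) ^ 2 * K.θ⁻¹)
      + ι K.ω * (1 + (ι K.ω) ^ 2 * K.θ + ι K.ω * K.θ⁻¹) = 3 * K.θ := by
    linear_combination (1 + 2 * K.θ * (ι K.ω - 1) + K.θ⁻¹ * (1 - ι K.ω + (ι K.ω) ^ 2)) * h
  have h33 : (3 : E) * (3 : E)⁻¹ = 1 := mul_inv_cancel₀ h3
  linear_combination (-(3 : E)⁻¹) * key - K.θ * h33

/-- `θ⁻¹` in terms of the `e i`. -/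
theorem θinv_eq : K.θ⁻¹ = K.e 0 + ι K.ω * K.e 1 + (ι K.ω) ^ 2 * K.e 2 := by
  rw [K.e_zero, K.e_one, K.e_two]
  have h := K.ωE
  have h3 := K.three'
  have key : (1 + K.θ + K.θ⁻¹) + ι K.ω * (1 + ι K.ω * K.θ + (ι K.ω) ^ 2 * K.θ⁻¹)
      + (ι K.ω) ^ 2 * (1 + (ι K.ω) ^ 2 * K.θ + ι K.ω * K.θ⁻¹) = 3 * K.θ⁻¹ := by
    linear_combination (1 + 2 * K.θ⁻¹ * (ι K.ω - 1) + K.θ * (1 - ι K.ω + (ι K.ω) ^ 2)) * h
  have h33 : (3 : E) * (3 : E)⁻¹ = 1 := mul_inv_cancel₀ h3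
  linear_combination (-(3 : E)⁻¹) * key - K.θ⁻¹ * h33

theorem span_e (x : E) : ∃ c : Fin 3 → F, x = ∑ i, ι (c i) * K.e i := by
  obtain ⟨a, b, c, rfl⟩ := K.span x
  refine ⟨![a + b + c * K.m, a + b * K.ω ^ 2 + c * K.m * K.ω,
    a + b * K.ω + c * K.m * K.ω ^ 2], ?_⟩
  rw [K.x_sq, Fin.sum_univ_three]
  simp only [Matrix.cons_val_zero, Matrix.cons_val_one, Matrix.cons_val_two, Matrix.head_cons,
    Matrix.tail_cons, map_add, map_mul, map_pow, Fin.val_zero, Fin.val_one, Fin.val_two]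
  have h1 := K.sum_e
  have h2 := K.θ_eq
  have h3 := K.θinv_eq
  linear_combination (-ι a) * h1 + ι b * h2 + ι c * ι K.m * h3

theorem tr_sum (c : Fin 3 → F) (j : Fin 3) : K.tr ((∑ i, ι (c i) * K.e i) * K.e j) = c j := by
  rw [Finset.sum_mul, map_sum]
  have h : ∀ i : Fin 3, K.tr (ι (c i) * K.e i * K.e j) = c i * (if i = j then 1 else 0) := by
    intro i
    rw [← K.tr_e_mul_e, mul_assoc, ← Algebra.smul_def, map_smul, smul_eq_mul]
  simp_rw [h]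
  simp

/-- the `e i` are their own dual basis. -/
theorem eq_sum (x : E) : x = ∑ i : Fin 3, ι (K.tr (x * K.e i)) * K.e i := by
  obtain ⟨c, hc⟩ := K.span_e x
  have h : ∀ j : Fin 3, K.tr (x * K.e j) = c j := fun j => by rw [hc, K.tr_sum]
  simp_rw [h]
  exact hc

theorem s_e2 : s (K.e 2) = K.e 0 := by
  rw [K.s_e, show 2 + 1 = 0 + 3 from rfl, K.e_add_three]

theorem e_sym2 : K.e 0 * K.e 1 + K.e 1 * K.e 2 + K.e 2 * K.e 0 = 0 := by
  have h := K.ι_tr (K.e 0 * K.e 1)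
  have h0 := K.tr_e_mul_e 0 1
  simp only [Fin.val_zero, Fin.val_one] at h0
  rw [h0] at h
  simp only [map_mul, K.s_e] at h
  rw [show (1 + 1 : ℕ) = 2 from rfl, show (0 + 1 : ℕ) = 1 from rfl,
    show (2 + 1 : ℕ) = 0 + 3 from rfl, K.e_add_three] at h
  rw [← h]
  simp

/-- explicit product. -/
theorem e0_e1 : K.e 0 * K.e 1 =
    (ι K.m - 1) * (3 : E)⁻¹ ^ 2 * (ι K.ω * K.θ⁻¹ - (ι K.ω) ^ 2 * K.θ * (ι K.m)⁻¹) := by
  rw [K.e_zero, K.e_one]
  have R1 := K.x_y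
  have R2 := K.x_sq
  have R3 := K.y_sq
  have R4 := K.ωE
  have R5 : ι K.m * (ι K.m)⁻¹ = 1 := mul_inv_cancel₀ K.mE_ne
  linear_combination (3 : E)⁻¹ ^ 2 * ((1 + K.θ + K.θ⁻¹) * R4 + ι K.ω * R2 + (ι K.ω) ^ 2 * R3
    + ((ι K.ω) ^ 2 + ι K.ω) * R1 + (ι K.ω) ^ 2 * K.θ * R5)

/-- the constant `(m - 1) ^ 2 / (27 m)`. -/
noncomputable def c0 : F := (K.m - 1) ^ 2 / (27 * K.m)

theorem e_prod : K.e 0 * K.e 1 * K.e 2 = ι K.c0 := by
  rw [K.e0_e1, K.e_two, c0, div_eq_mul_inv _ (3 : E)]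
  have R1 := K.x_y
  have R2 := K.x_sq
  have R3 := K.y_sq
  have R4 := K.ωE
  have R4' := K.ωE_cube
  have R5 : ι K.m * (ι K.m)⁻¹ = 1 := mul_inv_cancel₀ K.mE_ne
  have h3 := K.three'
  have h27 : (27 : E) = 3 ^ 3 := by norm_num
  have h27' : ι (27 : F) = 3 ^ 3 := by rw [← h27]; exact map_ofNat _ 27
  rw [map_div₀, map_mul, map_pow, map_sub, map_one, h27']
  have h5 : (ι K.m - 1) ^ 2 / (3 ^ 3 * ι K.m) = (ι K.m - 1) ^ 2 * (3 : E)⁻¹ ^ 3 * (ι K.m)⁻¹ := by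
    rw [div_eq_mul_inv, mul_inv, ← inv_pow]
    ring
  rw [h5]
  generalize ι K.m = M at *
  generalize ι K.ω = w at *
  generalize K.θ⁻¹ = y at *
  generalize K.θ = x at *
  generalize hn : M⁻¹ = n at *
  generalize hk : (3 : E)⁻¹ = k at *
  have key : (w * y - w ^ 2 * x * n) * (1 + w ^ 2 * x + w * y) = (M - 1) * n := by
    linear_combination (w ^ 3 - w ^ 3 * n) * R1 + (1 - n) * R4' + (-w ^ 4 * n) * R2 + w ^ 2 * R3
      + (-w * y * n * M) * R4' - (1 + w * y) * R5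
  linear_combination (M - 1) * k ^ 3 * key

/-! ### The product formula -/

/-- `(1 + x e₀ a)(1 + x e₁ a)(1 + x e₂ a) = 1 + x a + c₀ x³ a³` in any `E`-algebra. -/
theorem prod_formula {R : Type*} [Ring R] [Algebra E R] (x : E) (a : R) :
    (1 + (x * K.e 0) • a) * (1 + (x * K.e 1) • a) * (1 + (x * K.e 2) • a) =
      1 + x • a + (x ^ 3 * ι K.c0) • a ^ 3 := by
  have h1 := congrArg (Polynomial.C (R := E)) K.sum_e
  have h2 := congrArg (Polynomial.C (R := E)) K.e_sym2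
  have h3 := congrArg (Polynomial.C (R := E)) K.e_prod
  simp only [map_add, map_mul, map_one, map_zero] at h1 h2 h3
  have key : (1 + Polynomial.C (x * K.e 0) * Polynomial.X) *
      (1 + Polynomial.C (x * K.e 1) * Polynomial.X) * (1 + Polynomial.C (x * K.e 2) * Polynomial.X)
      = 1 + Polynomial.C x * Polynomial.X
        + Polynomial.C (x ^ 3 * ι K.c0) * Polynomial.X ^ 3 := by
    simp only [map_mul, map_pow]
    linear_combination (Polynomial.C x * Polynomial.X) * h1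
      + (Polynomial.C x ^ 2 * Polynomial.X ^ 2) * h2 + (Polynomial.C x ^ 3 * Polynomial.X ^ 3) * h3
  have h := congrArg (Polynomial.aeval a) key
  simpa [Algebra.smul_def] using h

/-! ### The lattice -/

variable (O : Subring F)

/-- The self-dual lattice `L = O e₀ + O e₁ + O e₂`, described by the coordinates `Tr (x e_i)`. -/
def L : AddSubgroup E where
  carrier := {x | ∀ i : Fin 3, K.tr (x * K.e i) ∈ O}
  zero_mem' := fun i => by simp [O.zero_mem]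
  add_mem' := fun {x y} hx hy i => by
    rw [add_mul, map_add]
    exact O.add_mem (hx i) (hy i)
  neg_mem' := fun {x} hx i => by
    rw [neg_mul, map_neg]
    exact O.neg_mem (hx i)

theorem mem_L {x : E} : x ∈ K.L O ↔ ∀ i : Fin 3, K.tr (x * K.e i) ∈ O := Iff.rfl

theorem mem_L_iff_exists {x : E} :
    x ∈ K.L O ↔ ∃ c : Fin 3 → F, (∀ i, c i ∈ O) ∧ x = ∑ i, ι (c i) * K.e i := by
  constructor
  · intro h
    exact ⟨fun i => K.tr (x * K.e i), h, K.eq_sum x⟩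
  · rintro ⟨c, hc, rfl⟩ i
    rw [K.tr_sum]
    exact hc i

theorem e_mem (i : Fin 3) : K.e i ∈ K.L O := by
  intro j
  rw [K.tr_e_mul_e]
  split
  · exact O.one_mem
  · exact O.zero_mem

theorem one_mem_L : (1 : E) ∈ K.L O := by
  intro i
  rw [one_mul, K.tr_e]
  exact O.one_mem

theorem smul_mem_L {o : F} (ho : o ∈ O) {x : E} (hx : x ∈ K.L O) : ι o * x ∈ K.L O := by
  intro i
  rw [mul_assoc, ← Algebra.smul_def, map_smul, smul_eq_mul]
  exact O.mul_mem ho (hx i)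

theorem ι_mem_L {o : F} (ho : o ∈ O) : ι o ∈ K.L O := by
  have h := K.smul_mem_L O ho (K.one_mem_L O)
  rwa [mul_one] at h

theorem tr_mem_of_mem_L {x : E} (hx : x ∈ K.L O) : K.tr x ∈ O := by
  have h : x = x * K.e ((0 : Fin 3) : ℕ) + x * K.e ((1 : Fin 3) : ℕ) + x * K.e ((2 : Fin 3) : ℕ) := by
    have h1 := K.sum_e
    simp only [Fin.val_zero, Fin.val_one, Fin.val_two]
    linear_combination (-x) * h1
  rw [h, map_add, map_add]
  exact O.add_mem (O.add_mem (hx 0) (hx 1)) (hx 2)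

theorem s_mem_L {x : E} (hx : x ∈ K.L O) : s x ∈ K.L O := by
  rw [K.mem_L_iff_exists] at hx ⊢
  obtain ⟨c, hc, rfl⟩ := hx
  refine ⟨![c 2, c 0, c 1], ?_, ?_⟩
  · intro i
    fin_cases i
    · exact hc 2
    · exact hc 0
    · exact hc 1
  · rw [Fin.sum_univ_three, Fin.sum_univ_three]
    simp only [map_add, map_mul, AlgHom.commutes, K.s_e, Fin.val_zero, Fin.val_one, Fin.val_two,
      Matrix.cons_val_zero, Matrix.cons_val_one, Matrix.cons_val_two, Matrix.head_cons,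
      Matrix.tail_cons]
    rw [show (2 + 1 : ℕ) = 0 + 3 from rfl, K.e_add_three]
    ring

/-- self-duality of `L` for the trace form. -/
theorem mem_L_iff_dual {x : E} : x ∈ K.L O ↔ ∀ y ∈ K.L O, K.tr (x * y) ∈ O := by
  constructor
  · intro hx y hy
    obtain ⟨c, hc, rfl⟩ := (K.mem_L_iff_exists O).1 hy
    rw [Finset.mul_sum, map_sum]
    refine O.sum_mem fun i _ => ?_
    rw [mul_left_comm, ← Algebra.smul_def, map_smul, smul_eq_mul]
    exact O.mul_mem (hc i) (hx i)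
  · intro h i
    exact h _ (K.e_mem O i)

/-- `L = O e₀ ⊕ (s - 1) L`, with the coefficient `Tr x`. -/
theorem exists_eq_add_sub {x : E} (hx : x ∈ K.L O) :
    ∃ y ∈ K.L O, x = ι (K.tr x) * K.e 0 + (s y - y) := by
  have hx' := hx
  obtain ⟨c, hc, rfl⟩ := (K.mem_L_iff_exists O).1 hx
  refine ⟨ι (c 1) * K.e 0 + ι (c 2) * (K.e 0 + K.e 1), ?_, ?_⟩
  · refine (K.L O).add_mem (K.smul_mem_L O (hc 1) (K.e_mem O 0)) (K.smul_mem_L O (hc 2) ?_)
    exact (K.L O).add_mem (K.e_mem O 0) (K.e_mem O 1)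
  · have htr : K.tr (∑ i, ι (c i) * K.e i) = c 0 + c 1 + c 2 := by
      rw [map_sum, Fin.sum_univ_three]
      simp only [← Algebra.smul_def, map_smul, smul_eq_mul, K.tr_e, mul_one]
    rw [htr, Fin.sum_univ_three]
    simp only [map_add, map_mul, AlgHom.commutes, K.s_e, Fin.val_zero, Fin.val_one, Fin.val_two]
    rw [show (1 + 1 : ℕ) = 2 from rfl, show (0 + 1 : ℕ) = 1 from rfl]
    ring

/-- fixed points: `L ∩ F = O`. -/
theorem ι_mem_L_iff {a : F} : ι a ∈ K.L O ↔ a ∈ O := by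
  constructor
  · intro h
    have h0 := h 0
    rwa [← Algebra.smul_def, map_smul, smul_eq_mul, K.tr_e, mul_one] at h0
  · exact K.ι_mem_L O

theorem eq_ι_of_fixed {x : E} (hx : s x = x) : ∃ a : F, x = ι a := by
  refine ⟨K.tr x / 3, ?_⟩
  have h := K.ι_tr x
  rw [hx, hx] at h
  have h3 : ι (3 : F) = 3 := map_ofNat _ 3
  rw [map_div₀, h, h3]
  have h3' := K.three'
  field_simp
  ring

/-- the structure constants. -/
theorem tr_e_e_e (hm : K.m ∈ O) (hω : K.ω ∈ O) (i j k : Fin 3) :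
    9 * K.m * K.tr (K.e i * K.e j * K.e k) ∈ O := by
  have hm0 := K.hm
  have h9 := K.nine
  have h3 := K.three
  have hk := K.e_eq k
  have hij := K.e_mul_e i j
  -- coefficient extraction
  have hmul : ∀ a b c a' b' c' : F,
      (ι a + ι b * K.θ + ι c * K.θ⁻¹) * (ι a' + ι b' * K.θ + ι c' * K.θ⁻¹) =
        ι (a * a' + b * c' + c * b') + ι (a * b' + b * a' + c * c' / K.m) * K.θ
          + ι (a * c' + c * a' + b * b' * K.m) * K.θ⁻¹ := by
    intro a b c a' b' c'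
    have R1 := K.x_y
    have R2 := K.x_sq
    have R3 := K.y_sq
    simp only [map_add, map_mul, map_inv₀, div_eq_mul_inv]
    linear_combination (ι b * ι c' + ι c * ι b') * R1 + (ι b * ι b') * R2 + (ι c * ι c') * R3
  rw [hij, hk, hmul, K.tr_xy]
  generalize (i : ℕ) = i'
  generalize (j : ℕ) = j'
  generalize (k : ℕ) = k'
  have e1 : 9 * K.m * (3 * ((1 + K.ω ^ (i' + 2 * j') + K.ω ^ (2 * i' + j')) / 9 * (1 / 3) +
      (K.ω ^ i' + K.ω ^ j' + K.ω ^ (2 * i' + 2 * j') / K.m) / 9 * (K.ω ^ (2 * k') / 3) +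
      (K.ω ^ (2 * i') + K.ω ^ (2 * j') + K.ω ^ (i' + j') * K.m) / 9 * (K.ω ^ k' / 3))) =
      K.m * (1 + K.ω ^ (i' + 2 * j') + K.ω ^ (2 * i' + j')) +
      (K.m * (K.ω ^ i' + K.ω ^ j') + K.ω ^ (2 * i' + 2 * j')) * K.ω ^ (2 * k') +
      K.m * (K.ω ^ (2 * i') + K.ω ^ (2 * j') + K.ω ^ (i' + j') * K.m) * K.ω ^ k' := by
    field_simp
  rw [e1]
  have hp : ∀ n : ℕ, K.ω ^ n ∈ O := fun n => O.pow_mem hω n
  refine O.add_mem (O.add_mem ?_ ?_) ?_
  · exact O.mul_mem hm (O.add_mem (O.add_mem O.one_mem (hp _)) (hp _))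
  · exact O.mul_mem (O.add_mem (O.mul_mem hm (O.add_mem (hp _) (hp _))) (hp _)) (hp _)
  · exact O.mul_mem (O.mul_mem hm (O.add_mem (O.add_mem (hp _) (hp _)) (O.mul_mem (hp _) hm))) (hp _)

/-- `9 m L L ⊆ L`. -/
theorem mul_mem_L (hm : K.m ∈ O) (hω : K.ω ∈ O) {x y : E} (hx : x ∈ K.L O) (hy : y ∈ K.L O) :
    ι (9 * K.m) * (x * y) ∈ K.L O := by
  obtain ⟨c, hc, rfl⟩ := (K.mem_L_iff_exists O).1 hx
  obtain ⟨d, hd, rfl⟩ := (K.mem_L_iff_exists O).1 hy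
  rw [Finset.sum_mul_sum, Finset.mul_sum]
  refine (K.L O).sum_mem fun i _ => ?_
  rw [Finset.mul_sum]
  refine (K.L O).sum_mem fun j _ => ?_
  have h : ι (9 * K.m) * (ι (c i) * K.e i * (ι (d j) * K.e j)) =
      ι (c i * d j) * (ι (9 * K.m) * (K.e i * K.e j)) := by
    simp only [map_mul]
    ring
  rw [h]
  refine K.smul_mem_L O (O.mul_mem (hc i) (hd j)) ?_
  intro k
  have h2 := K.tr_e_e_e O hm hω i j k
  rwa [← smul_eq_mul, ← map_smul, Algebra.smul_def, ← mul_assoc] at h2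

/-- `27 m c₀ = (m - 1) ^ 2`. -/
theorem c0_mul : 27 * K.m * K.c0 = (K.m - 1) ^ 2 := by
  have hm := K.hm
  have h3 := K.three
  have h27 : (27 : F) ≠ 0 := by
    have : (27 : F) = 3 ^ 3 := by norm_num
    rw [this]
    exact pow_ne_zero _ h3
  rw [c0]
  field_simp

end Kum

end Fermat.Agent.H27SD
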