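import Fermat.Agent.H28FrobGen
import Fermat.Agent.H54Place

/-!
# Cocycles on decomposition groups: determination by the values on a Frobenius and on a tame
generator of inertia
-/

set_option autoImplicit false
set_option maxSynthPendingDepth 3

noncomputable section

open Pointwise

namespace Fermat.Agent.H28

open Fermat.Agent.H55 Fermat.Agent.H56 Fermat.Agent.H53 ExtCitation

local notation "Qb" => AlgebraicClosure ℚ

theorem primeLocalPlace_liesOver (q : Nat.Primes) : (primeLocalPlace q).LiesOverPrime q := by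
  have : Fact (q : ℕ).Prime := ⟨q.2⟩
  exact H54.liesOverPrime_padicPlace (q := (q : ℕ))

section Coc

variable {p : ℕ} [Fact p.Prime] {M : Type} [AddCommGroup M] [Module (ZMod p) M]
  {ρ : Representation (ZMod p) H91.GQ M} {q : Nat.Primes}

open Classical in
/-- extension by zero of a function on the decomposition group -/
def extD (c : Dq q → M) (σ : H91.GQ) : M := if h : σ ∈ Dq q then c ⟨σ, h⟩ else 0

theorem extD_coe (c : Dq q → M) (σ : Dq q) : extD c σ = c σ := by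
  simp [extD]

theorem extD_of_mem (c : Dq q → M) {σ : H91.GQ} (h : σ ∈ Dq q) : extD c σ = c ⟨σ, h⟩ := by
  simp [extD, h]

theorem Iq_le_Dq {σ : H91.GQ} (h : σ ∈ Iq q) : σ ∈ Dq q := inertia_le_decomp h

variable {c : Dq q → M} (hc : c ∈ Z1 (Dlev q) (rhoD ρ q))

include hc

theorem extD_mul {σ τ : H91.GQ} (hσ : σ ∈ Dq q) (hτ : τ ∈ Dq q) :
    extD c (σ * τ) = ρ σ (extD c τ) + extD c σ := by
  rw [extD_of_mem c hσ, extD_of_mem c hτ, extD_of_mem c (mul_mem hσ hτ)]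
  exact hc.2 ⟨σ, hσ⟩ ⟨τ, hτ⟩

theorem extD_one : extD c (1 : H91.GQ) = 0 := by
  have h1 := extD_mul hc (one_mem (Dq q)) (one_mem (Dq q))
  rw [one_mul, map_one, Module.End.one_apply] at h1
  simpa using h1

theorem extD_inv {σ : H91.GQ} (hσ : σ ∈ Dq q) : extD c σ⁻¹ = - ρ σ⁻¹ (extD c σ) := by
  have h1 := extD_mul hc (inv_mem hσ) hσ
  rw [inv_mul_cancel, extD_one hc] at h1
  rw [eq_neg_iff_add_eq_zero, add_comm]
  exact h1.symm

/-- the level of a cocycle -/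
theorem extD_level : ∃ W : Subgroup H91.GQ, krullLevels.op W ∧ W.Normal ∧
    ∀ σ ∈ Dq q, ∀ u ∈ W, u ∈ Dq q → extD c (σ * u) = extD c σ := by
  obtain ⟨V, hV, h⟩ := hc.1
  rw [Levels.op_onSub_iff] at hV
  obtain ⟨W, hW, hWV⟩ := hV
  obtain ⟨N, hN, hNn, hNW⟩ := krullLevels.exists_normal hW
  refine ⟨N, hN, hNn, fun σ hσ u hu huD => ?_⟩
  rw [extD_of_mem c hσ, extD_of_mem c (mul_mem hσ huD)]
  exact h ⟨σ, hσ⟩ ⟨u, huD⟩ (hWV (show u ∈ W from hNW hu))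

theorem extD_level_zero : ∃ W : Subgroup H91.GQ, krullLevels.op W ∧ W.Normal ∧
    (∀ σ ∈ Dq q, ∀ u ∈ W, u ∈ Dq q → extD c (σ * u) = extD c σ) ∧
    ∀ u ∈ W, u ∈ Dq q → extD c u = 0 := by
  obtain ⟨W, hW, hWn, h⟩ := extD_level hc
  refine ⟨W, hW, hWn, h, fun u hu huD => ?_⟩
  have := h 1 (one_mem _) u hu huD
  rwa [one_mul, extD_one hc] at this

/-- A cocycle vanishing on inertia and on a Frobenius vanishes. -/
theorem eq_zero_of_frobenius {φ : H91.GQ} (hφ : (primeLocalPlace q).IsFrobeniusAt φ q)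
    (hI : ∀ σ ∈ Iq q, extD c σ = 0) (h0 : extD c φ = 0) : c = 0 := by
  have hφD : φ ∈ Dq q := hφ.mem_decompositionSubgroup
  have hpow : ∀ n : ℕ, extD c (φ ^ n) = 0 := by
    intro n
    induction n with
    | zero => rw [pow_zero, extD_one hc]
    | succ n ih => rw [pow_succ, extD_mul hc (pow_mem hφD n) hφD, h0, map_zero, zero_add, ih]
  obtain ⟨W, hW, hWn, h, hz⟩ := extD_level_zero hc
  funext σ
  obtain ⟨n, ι, hι, u, hu, hσ⟩ := exists_frobenius_mul q.2 (primeLocalPlace_liesOver q) hφ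
    (σ := (σ : H91.GQ)) σ.2 hW
  have hιD : ι ∈ Dq q := Iq_le_Dq hι
  have h1 : φ ^ n * ι ∈ Dq q := mul_mem (pow_mem hφD n) hιD
  have huD : u ∈ Dq q := by
    have : u = (φ ^ n * ι)⁻¹ * (σ : H91.GQ) := by rw [hσ]; group
    rw [this]
    exact mul_mem (inv_mem h1) σ.2
  rw [← extD_coe c σ, hσ, h _ h1 u hu huD, extD_mul hc (pow_mem hφD n) hιD, hI ι hι, map_zero,
    zero_add, hpow]
  rfl

section Tame

variable (hqp : (q : ℕ) ≠ p) (hρ : ∀ σ ∈ Iq q, ∀ m, ρ σ m = m)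

include hρ

theorem extD_mul_inertia {σ τ : H91.GQ} (hσ : σ ∈ Iq q) (hτ : τ ∈ Iq q) :
    extD c (σ * τ) = extD c σ + extD c τ := by
  rw [extD_mul hc (Iq_le_Dq hσ) (Iq_le_Dq hτ), hρ σ hσ, add_comm]

theorem extD_inv_inertia {σ : H91.GQ} (hσ : σ ∈ Iq q) : extD c σ⁻¹ = - extD c σ := by
  rw [extD_inv hc (Iq_le_Dq hσ), hρ _ (inv_mem hσ)]

theorem extD_pow_inertia {σ : H91.GQ} (hσ : σ ∈ Iq q) (n : ℕ) :
    extD c (σ ^ n) = n • extD c σ := by
  induction n with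
  | zero => rw [pow_zero, extD_one hc, zero_smul]
  | succ n ih => rw [pow_succ, extD_mul_inertia hc hρ (pow_mem hσ n) hσ, ih, succ_nsmul]

/-- the elements of inertia on which the cocycle vanishes -/
def kerI : Subgroup H91.GQ where
  carrier := {σ | σ ∈ Iq q ∧ extD c σ = 0}
  mul_mem' {σ τ} hσ hτ := ⟨mul_mem hσ.1 hτ.1, by
    rw [extD_mul_inertia hc hρ hσ.1 hτ.1, hσ.2, hτ.2, add_zero]⟩
  one_mem' := ⟨one_mem _, extD_one hc⟩
  inv_mem' {σ} hσ := ⟨inv_mem hσ.1, by rw [extD_inv_inertia hc hρ hσ.1, hσ.2, neg_zero]⟩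

theorem exists_open_level : ∃ H : Subgroup H91.GQ, IsOpen (H : Set H91.GQ) ∧
    (∀ τ ∈ Iq q, τ ∈ H → extD c τ = 0) ∧ ∀ τ ∈ Iq q, ∃ n, τ ^ p ^ n ∈ H := by
  obtain ⟨W, hW, hWn, h, hz⟩ := extD_level_zero hc
  refine ⟨W ⊔ kerI hc hρ, ?_, ?_, ?_⟩
  · rw [krullLevels_op_iff] at hW
    obtain ⟨F, hF, hFW⟩ := hW
    exact Subgroup.isOpen_mono (hFW.trans le_sup_left) (IntermediateField.fixingSubgroup_isOpen F)
  · intro τ hτ hτH
    rw [← SetLike.mem_coe, Subgroup.normal_mul, Set.mem_mul] at hτH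
    obtain ⟨w, hw, κ, hκ, rfl⟩ := hτH
    have hκ' : κ ∈ Iq q ∧ extD c κ = 0 := hκ
    have hwI : w ∈ Iq q := by
      have : w = (w * κ) * κ⁻¹ := by group
      rw [this]
      exact mul_mem hτ (inv_mem hκ'.1)
    rw [extD_mul_inertia hc hρ hwI hκ'.1, hz w hw (Iq_le_Dq hwI), hκ'.2, add_zero]
  · intro τ hτ
    refine ⟨1, ?_⟩
    rw [pow_one]
    refine (le_sup_right : kerI hc hρ ≤ _) ?_
    refine ⟨pow_mem hτ p, ?_⟩
    rw [extD_pow_inertia hc hρ hτ, ← Nat.cast_smul_eq_nsmul (ZMod p), CharP.cast_eq_zero, zero_smul]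

include hqp

/-- A cocycle vanishing on a tame generator vanishes on inertia. -/
theorem eq_zero_of_tame {σ₀ : H91.GQ} (hσ₀ : σ₀ ∈ Iq q)
    (hne : σ₀ (piSys p q 1) ≠ piSys p q 1) (h0 : extD c σ₀ = 0) :
    ∀ σ ∈ Iq q, extD c σ = 0 := by
  intro σ hσ
  obtain ⟨H, hH, hH1, hH2⟩ := exists_open_level hc hρ
  have hA := primeLocalPlace_liesOver q
  obtain ⟨m, hm⟩ := exists_level q.2 hA (Ne.symm hqp) hH hH2
  obtain ⟨a, ha1, ha2⟩ := exists_pow_fix q.2 hA (Ne.symm hqp) hσ₀ hne hσ m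
  have h1 := hH1 _ ha1 (hm _ ha1 ha2)
  rw [extD_mul_inertia hc hρ (inv_mem (pow_mem hσ₀ a)) hσ,
    extD_inv_inertia hc hρ (pow_mem hσ₀ a), extD_pow_inertia hc hρ hσ₀, h0, smul_zero, neg_zero,
    zero_add] at h1
  exact h1

/-- the Frobenius relation -/
theorem frob_rel_coc {φ : H91.GQ} (hφ : (primeLocalPlace q).IsFrobeniusAt φ q) {σ : H91.GQ}
    (hσ : σ ∈ Iq q) : ρ φ (extD c σ) = (q : ℕ) • extD c σ := by
  obtain ⟨H, hH, hH1, hH2⟩ := exists_open_level hc hρ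
  have hA := primeLocalPlace_liesOver q
  have hφD : φ ∈ Dq q := hφ.mem_decompositionSubgroup
  obtain ⟨h1, h2⟩ := frob_rel q.2 hA (Ne.symm hqp) (p := p) hσ hφ
  obtain ⟨m, hm⟩ := exists_level q.2 hA (Ne.symm hqp) hH hH2
  have h3 := hH1 _ h1 (hm _ h1 (h2 m))
  have hconj : φ * σ * φ⁻¹ ∈ Iq q := by
    have : φ * σ * φ⁻¹ = (φ * σ * φ⁻¹ * (σ ^ (q : ℕ))⁻¹) * σ ^ (q : ℕ) := by group
    rw [this]
    exact mul_mem h1 (pow_mem hσ _)
  rw [extD_mul_inertia hc hρ hconj (inv_mem (pow_mem hσ _)),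
    extD_inv_inertia hc hρ (pow_mem hσ _), extD_pow_inertia hc hρ hσ, ← sub_eq_add_neg,
    sub_eq_zero] at h3
  rw [← h3, extD_mul hc (mul_mem hφD (Iq_le_Dq hσ)) (inv_mem hφD),
    extD_mul hc hφD (Iq_le_Dq hσ), extD_inv hc hφD, map_neg]
  have h4 : ρ (φ * σ) (ρ φ⁻¹ (extD c φ)) = extD c φ := by
    rw [← Module.End.mul_apply, ← map_mul]
    exact hρ _ hconj _
  rw [h4]
  abel

end Tame

end Coc

end Fermat.Agent.H28
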