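import Mathlib
import Fermat.Agent.H28Tower

/-!
# The tower of function fields, II
-/

set_option autoImplicit false

noncomputable section

open Polynomial ModularCurve IntermediateField

namespace Fermat.Agent.H28

theorem order_div {K : Type} [Field K] {a b : LaurentSeries K} (ha : a ≠ 0) (hb : b ≠ 0) :
    (a / b).order = a.order - b.order := by
  have h1 : (a / b * b).order = a.order := by rw [div_mul_cancel₀ _ hb]
  rw [HahnSeries.order_mul (div_ne_zero ha hb) hb] at h1
  omega

/-- The modular polynomial of prime level `p` together with its analogue for the quotient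
`Δ(pτ)/Δ(τ)`, over a field `K`. -/
structure ModData (K : Type) [Field K] (p : ℕ) where
  Φ : K[X][X]
  monicΦ : Φ.Monic
  r : ℕ → LaurentSeries K
  r_zero : r 0 = jqModC K
  order_r : ∀ i, (r i).order = -1
  mapΦ : Φ.map ((V K p : LaurentSeries K →+* LaurentSeries K).comp (evJ K)) =
    (X - C (V K (p * p) (jqModC K))) * ∏ i ∈ Finset.range p, (X - C (r i))
  H : K[X][X]
  monicH : H.Monic
  s : ℕ → LaurentSeries K
  s_zero : s 0 * V K p (deltaL K) = deltaL K
  order_s : ∀ i, (s i).order = 1 - p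
  mapH : H.map ((V K p : LaurentSeries K →+* LaurentSeries K).comp (evJ K)) =
    (X - C ((algebraMap K (LaurentSeries K) (p ^ 12)) *
      (V K (p * p) (deltaL K) / V K p (deltaL K)))) * ∏ i ∈ Finset.range p, (X - C (s i))

namespace ModData

variable {K : Type} [Field K] {p : ℕ} (D : ModData K p)

local notation "LS" => LaurentSeries K

theorem natDegree_Φ : D.Φ.natDegree = p + 1 := by
  rw [← D.monicΦ.natDegree_map ((V K p : LS →+* LS).comp (evJ K)), D.mapΦ,
    (monic_X_sub_C _).natDegree_mul (monic_prod_of_monic _ _ fun i _ => monic_X_sub_C _),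
    natDegree_prod_of_monic _ _ fun i _ => monic_X_sub_C _]
  simp [add_comm]

variable (hp : p.Prime)

include D hp

/-- factorisation of `Φ(V_d j, X)` -/
theorem exists_factorΦ {d : ℕ} (hd : d ≠ 0) : ∃ G : (LaurentSeries K)[X], G.Monic ∧
    D.Φ.map ((V K d : LS →+* LS).comp (evJ K)) = (X - C (V K (d * p) (jqModC K))) * G ∧
    G.map (V K p : LS →+* LS) = ∏ i ∈ Finset.range p, (X - C (V K d (D.r i))) := by
  have h1 : (D.Φ.map (evJ K)).map (V K p : LS →+* LS) =
      (X - C ((V K p : LS →+* LS) (V K p (jqModC K)))) *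
        ∏ i ∈ Finset.range p, (X - C (D.r i)) := by
    rw [Polynomial.map_map, D.mapΦ]
    congr 3
    exact (V_V hp.ne_zero hp.ne_zero _).symm
  obtain ⟨G, hG1, hG2⟩ := exists_factor_of_map _ h1
  have hm : G.Monic := (monic_X_sub_C _).of_mul_monic_left (hG1 ▸ D.monicΦ.map _)
  refine ⟨G.map (V K d : LS →+* LS), hm.map _, ?_, ?_⟩
  · rw [← Polynomial.map_map, hG1, Polynomial.map_mul, Polynomial.map_sub, map_X, map_C]
    congr 3
    exact V_V hd hp.ne_zero _
  · rw [Polynomial.map_map]
    have h2 : ((V K p : LS →+* LS).comp (V K d : LS →+* LS)) =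
        ((V K d : LS →+* LS).comp (V K p : LS →+* LS)) := by
      refine RingHom.ext fun x => ?_
      show V K p (V K d x) = V K d (V K p x)
      rw [V_V hp.ne_zero hd, V_V hd hp.ne_zero, mul_comm]
    rw [h2, ← Polynomial.map_map, hG2, Polynomial.map_prod]
    refine Finset.prod_congr rfl fun i _ => ?_
    rw [Polynomial.map_sub, map_X, map_C]
    rfl

theorem exists_factorΦ_irreducible {d : ℕ} (hd : ¬ p ∣ d) : ∃ G : (LaurentSeries K)[X],
    Irreducible G ∧
    D.Φ.map ((V K d : LS →+* LS).comp (evJ K)) = (X - C (V K (d * p) (jqModC K))) * G := by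
  have hd0 : d ≠ 0 := by rintro rfl; exact hd (dvd_zero _)
  obtain ⟨G, hG0, hG1, hG2⟩ := D.exists_factorΦ hp hd0
  refine ⟨G, ?_, hG1⟩
  refine irreducible_of_order hp hG0 (d := -(d : ℤ)) ?_ ?_ hG2
  · rw [dvd_neg]
    exact_mod_cast hd
  · intro i
    rw [order_V hd0, D.order_r]; ring

/-- the dichotomy for the degree of `V_{dp} j` over a field containing `V_d j`, `p ∤ d` -/
theorem natDegree_minpoly {E : IntermediateField K LS} {d : ℕ} (hd : ¬ p ∣ d)
    (hE : V K d (jqModC K) ∈ E) (hnot : V K (d * p) (jqModC K) ∉ E) :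
    (minpoly E (V K (d * p) (jqModC K))).natDegree = p + 1 := by
  obtain ⟨G, hG, hG1⟩ := D.exists_factorΦ_irreducible hp hd
  obtain ⟨P, hP, hPd, hP1⟩ := exists_lift E hE D.Φ D.monicΦ
  rw [hG1] at hP1
  rcases natDegree_minpoly_of_irreducible_cofactor hP hP1 hG with h | h
  · rw [minpoly.natDegree_eq_one_iff] at h
    obtain ⟨x, hx⟩ := h
    exact absurd (hx ▸ x.2) hnot
  · rw [h, hPd, D.natDegree_Φ]

/-- `Φ(V_{pd} j, V_d j) = 0` -/
theorem eval_swap {d : ℕ} (hd : d ≠ 0) :
    (D.Φ.map ((V K (d * p) : LS →+* LS).comp (evJ K))).eval (V K d (jqModC K)) = 0 := by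
  have h1 : (D.Φ.map ((V K p : LS →+* LS).comp (evJ K))).eval (jqModC K) = 0 := by
    rw [D.mapΦ, eval_mul, eval_prod, Finset.prod_eq_zero (i := 0), mul_zero]
    · exact Finset.mem_range.2 hp.pos
    · rw [D.r_zero]; simp
  have h2 : D.Φ.map ((V K (d * p) : LS →+* LS).comp (evJ K)) =
      (D.Φ.map ((V K p : LS →+* LS).comp (evJ K))).map (V K d : LS →+* LS) := by
    rw [Polynomial.map_map]
    congr 1
    refine RingHom.ext fun x => ?_
    exact (V_V hd hp.ne_zero _).symm
  rw [h2, eval_map]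
  have h3 := eval₂_hom (p := D.Φ.map ((V K p : LS →+* LS).comp (evJ K))) (V K d : LS →+* LS) (jqModC K)
  rw [h1, map_zero] at h3
  exact h3


omit hp in
theorem s_zero_eq : D.s 0 = deltaL K / V K p (deltaL K) := by
  have h1 : V K p (deltaL K) ≠ 0 := (_root_.map_ne_zero _).2 deltaL_ne_zero
  rw [eq_div_iff h1, D.s_zero]

/-- factorisation of `H(j, X)` -/
theorem exists_factorH : ∃ G : (LaurentSeries K)[X],
    D.H.map ((V K 1 : LS →+* LS).comp (evJ K)) =
      (X - C (algebraMap K LS (p ^ 12) * (V K p (deltaL K) / deltaL K))) * G ∧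
    G.map (V K p : LS →+* LS) = ∏ i ∈ Finset.range p, (X - C (D.s i)) := by
  have h0 : D.H.map ((V K 1 : LS →+* LS).comp (evJ K)) = D.H.map (evJ K) := by
    congr 1
    refine RingHom.ext fun x => V_one _
  rw [h0]
  apply exists_factor_of_map
  rw [Polynomial.map_map, D.mapH]
  congr 3
  have h1 : (V K p) (algebraMap K LS (p ^ 12) * (V K p (deltaL K) / deltaL K)) = 
    algebraMap K LS (p ^ 12) * (V K (p * p) (deltaL K) / V K p (deltaL K)) := by
    rw [map_mul, map_div₀, V_V hp.ne_zero hp.ne_zero, AlgHom.commutes]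
  exact h1.symm

theorem V_not_mem (hpK : (p : K) ≠ 0) : V K p (jqModC K) ∉ K⟮jqModC K⟯ := by
  intro hmem
  set E := K⟮jqModC K⟯ with hE
  have hc0 : (algebraMap K E (p ^ 12)) ≠ 0 := by
    rw [_root_.map_ne_zero]; exact pow_ne_zero _ hpK
  have hc' : algebraMap E LS (algebraMap K E (p ^ 12)) = algebraMap K LS (p ^ 12) :=
    (IsScalarTower.algebraMap_apply K E LS _).symm
  have hc0' : algebraMap K LS (p ^ 12) ≠ 0 := by
    rw [_root_.map_ne_zero]; exact pow_ne_zero _ hpK
  have hcord : (algebraMap K LS (p ^ 12)).order = 0 := by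
    rw [algebraMap_laurentSeries_eq_single, HahnSeries.order_single (pow_ne_zero _ hpK)]
  have hΔ : deltaL K ≠ 0 := deltaL_ne_zero
  have hVΔ : V K p (deltaL K) ≠ 0 := (_root_.map_ne_zero _).2 hΔ
  have hVVΔ : V K (p * p) (deltaL K) ≠ 0 := (_root_.map_ne_zero _).2 hΔ
  have hp2 := hp.two_le
  obtain ⟨P1, hP1m, -, hP1⟩ := exists_lift E hmem D.H D.monicH
  rw [D.mapH] at hP1
  have hmem0 : 0 ∈ Finset.range p := Finset.mem_range.2 hp.pos
  rw [← Finset.mul_prod_erase _ _ hmem0, mul_left_comm, D.s_zero_eq] at hP1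
  have hj : V K 1 (jqModC K) ∈ E := by
    rw [V_one]; exact mem_adjoin_simple_self K _
  obtain ⟨P2, hP2m, -, hP2⟩ := exists_lift E hj D.H D.monicH
  obtain ⟨G, hG1, hG2⟩ := D.exists_factorH hp
  rw [hG1] at hP2
  have hu0 : (algebraMap K LS (p ^ 12) * (V K p (deltaL K) / deltaL K)) ≠ 0 :=
    mul_ne_zero hc0' (div_ne_zero hVΔ hΔ)
  obtain ⟨Q, G', hQ, hG'⟩ := exists_inv_poly hP2 (algebraMap K E (p ^ 12)) hc0 hu0
  have hw : algebraMap E LS (algebraMap K E (p ^ 12)) /
      (algebraMap K LS (p ^ 12) * (V K p (deltaL K) / deltaL K)) =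
      deltaL K / V K p (deltaL K) := by
    rw [hc']; field_simp
  rw [hw] at hQ
  -- coprimality
  have hcop : IsCoprime ((X - C ((algebraMap K (LaurentSeries K) (p ^ 12)) *
      (V K (p * p) (deltaL K) / V K p (deltaL K)))) *
        ∏ i ∈ (Finset.range p).erase 0, (X - C (D.s i))) G' := by
    have key : ∀ y : LS, y ≠ 0 → y.order ≠ p - 1 →
        IsCoprime (X - C y) (G'.map (V K p : LS →+* LS)) := by
      intro y hy0 hy
      rw [(irreducible_X_sub_C y).coprime_iff_not_dvd, dvd_iff_isRoot]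
      intro h
      have h1 := hG' (V K p : LS →+* LS) y hy0 h
      rw [hG2, eval_prod, Finset.prod_eq_zero_iff] at h1
      obtain ⟨k, -, hk⟩ := h1
      rw [eval_sub, eval_X, eval_C, sub_eq_zero, hc'] at hk
      have h2 : (V K p : LS →+* LS) (algebraMap K LS (p ^ 12)) = algebraMap K LS (p ^ 12) :=
        AlgHom.commutes (V K p) _
      rw [h2] at hk
      have h3 := congrArg HahnSeries.order hk
      rw [order_div hc0' hy0, hcord, D.order_s] at h3
      apply hy
      omega
    rw [← isCoprime_map (V K p : LS →+* LS), Polynomial.map_mul, Polynomial.map_sub, map_X,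
      map_C, Polynomial.map_prod]
    refine IsCoprime.mul_left (key _ ?_ ?_) (IsCoprime.prod_left fun i hi => ?_)
    · exact (_root_.map_ne_zero _).2 (mul_ne_zero hc0' (div_ne_zero hVVΔ hVΔ))
    · have h1 : ((V K p : LS →+* LS) (algebraMap K LS (p ^ 12) *
        (V K (p * p) (deltaL K) / V K p (deltaL K)))).order = p * (p * p - p) := by
        refine (order_V hp.ne_zero _).trans ?_
        rw [HahnSeries.order_mul hc0' (div_ne_zero hVVΔ hVΔ), hcord, order_div hVVΔ hVΔ,
          order_V hp.ne_zero, order_V (mul_ne_zero hp.ne_zero hp.ne_zero), order_deltaL]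
        push_cast; ring
      rw [h1]
      have h2 : (2 : ℤ) ≤ p := by exact_mod_cast hp2
      nlinarith
    · rw [Polynomial.map_sub, map_X, map_C]
      have hs0 : D.s i ≠ 0 := by
        intro h
        have h1 := D.order_s i
        rw [h, HahnSeries.order_zero] at h1
        omega
      refine key _ ((_root_.map_ne_zero _).2 hs0) ?_
      have h1 : ((V K p : LS →+* LS) (D.s i)).order = p * (1 - p) := by
        refine (order_V hp.ne_zero _).trans ?_
        rw [D.order_s]
      rw [h1]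
      have h2 : (2 : ℤ) ≤ p := by exact_mod_cast hp2
      nlinarith
  obtain ⟨w, hwE⟩ := mem_range_of_coprime hP1m hP1 hQ hcop
  have hwE' : deltaL K / V K p (deltaL K) ∈ E := by rw [← hwE]; exact w.2
  have huE : (algebraMap K LS (p ^ 12) * (V K p (deltaL K) / deltaL K)) ∈ E := by
    refine mul_mem (E.algebraMap_mem _) ?_
    rw [← inv_div]
    exact inv_mem hwE'
  have hroot : D.H.eval₂ (evJ K) (algebraMap K LS (p ^ 12) * (V K p (deltaL K) / deltaL K)) = 0 := by
    have h0 : D.H.map ((V K 1 : LS →+* LS).comp (evJ K)) = D.H.map (evJ K) := by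
      congr 1
      refine RingHom.ext fun x => V_one _
    rw [← eval_map, ← h0, hG1]; simp
  obtain ⟨P, hP⟩ := exists_evJ_of_isIntegral huE D.monicH hroot
  have h1 := order_evJ_nonpos P
  rw [hP, HahnSeries.order_mul hc0' (div_ne_zero hVΔ hΔ), hcord, order_div hVΔ hΔ,
    order_V hp.ne_zero, order_deltaL] at h1
  omega

end ModData

end Fermat.Agent.H28
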