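import Mathlib
import Fermat.Agent.H28Tower2
import Fermat.Agent.H28Final
import Fermat.Agent.H45P1Index

/-!
# The tower of function fields, III: the degree of `K(j(q^d) : d ∣ N)` over `K(j)`
-/

set_option autoImplicit false

noncomputable section

open Polynomial ModularCurve IntermediateField

namespace Fermat.Agent.H28

section General

variable {F M : Type*} [Field F] [Field M] [Algebra F M] {E E' : IntermediateField F M}

theorem relfinrank_eq_natDegree_minpoly {x : M} (hEE' : E ≤ E') (hx : x ∈ E')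
    (hle : ∀ E'' : IntermediateField F M, E ≤ E'' → x ∈ E'' → E' ≤ E'') (hint : IsIntegral E x) :
    relfinrank E E' = (minpoly E x).natDegree := by
  rw [relfinrank_eq_finrank_of_le hEE']
  have h : extendScalars hEE' = IntermediateField.adjoin E {x} := by
    apply le_antisymm
    · rw [extendScalars_le_iff]
      apply hle
      · intro y hy
        exact (IntermediateField.adjoin E {x}).algebraMap_mem ⟨y, hy⟩
      · exact mem_adjoin_simple_self E x
    · rw [adjoin_simple_le_iff]
      exact hx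
  rw [h, adjoin.finrank hint]

end General

section Fields

variable {K : Type} [Field K]

local notation "LS" => LaurentSeries K

theorem V_mem_full {d N : ℕ} (hN : N ≠ 0) (hd : d ∣ N) :
    V K d (jqModC K) ∈ modularFunctionFieldFullC K N := by
  have : NeZero d := ⟨fun h => hN (Nat.eq_zero_of_zero_dvd (h ▸ hd))⟩
  rw [V_apply]
  exact jqModCd_mem_full K N hd

theorem full_le_iff {N : ℕ} (hN : N ≠ 0) {E : IntermediateField K LS} :
    modularFunctionFieldFullC K N ≤ E ↔ ∀ d, d ∣ N → V K d (jqModC K) ∈ E := by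
  constructor
  · exact fun h d hd => h (V_mem_full hN hd)
  · intro h
    rw [modularFunctionFieldFullC, adjoin_le_iff]
    rintro x ⟨d, hd0, hd, rfl⟩
    have := h d hd
    rwa [V_apply] at this

theorem full_one : modularFunctionFieldFullC K 1 = K⟮jqModC K⟯ := by
  apply le_antisymm
  · rw [full_le_iff one_ne_zero]
    intro d hd
    rw [Nat.dvd_one.1 hd, V_one]
    exact mem_adjoin_simple_self K _
  · rw [adjoin_simple_le_iff]
    exact jqModC_mem_full K 1

theorem full_mono {N M : ℕ} (hN : N ≠ 0) (hM : M ≠ 0) (h : N ∣ M) :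
    modularFunctionFieldFullC K N ≤ modularFunctionFieldFullC K M := by
  rw [full_le_iff hN]
  exact fun d hd => V_mem_full hM (hd.trans h)

theorem map_full_le {N p : ℕ} (hN : N ≠ 0) (hp : p ≠ 0) :
    (modularFunctionFieldFullC K N).map (V K p) ≤ modularFunctionFieldFullC K (N * p) := by
  rw [IntermediateField.map_le_iff_le_comap, full_le_iff hN]
  intro d hd
  have hd0 : d ≠ 0 := fun h => hN (Nat.eq_zero_of_zero_dvd (h ▸ hd))
  show V K p (V K d (jqModC K)) ∈ modularFunctionFieldFullC K (N * p)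
  rw [V_V hp hd0, mul_comm p d]
  exact V_mem_full (mul_ne_zero hN hp) (Nat.mul_dvd_mul hd dvd_rfl)

theorem sum_ne_zero_of_order {ι : Type*} (s : Finset ι) (f : ι → LS)
    (hne : ∃ i ∈ s, f i ≠ 0)
    (hinj : ∀ i ∈ s, ∀ k ∈ s, f i ≠ 0 → f k ≠ 0 → (f i).order = (f k).order → i = k) :
    ∑ i ∈ s, f i ≠ 0 := by
  classical
  have h1 : (s.filter fun i => f i ≠ 0).Nonempty := by
    obtain ⟨i, hi, hi'⟩ := hne
    exact ⟨i, Finset.mem_filter.2 ⟨hi, hi'⟩⟩
  obtain ⟨i₀, hi₀, hmin⟩ := Finset.exists_min_image _ (fun i => (f i).order) h1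
  rw [Finset.mem_filter] at hi₀
  have h2 : (∑ i ∈ s, f i).coeff (f i₀).order ≠ 0 := by
    rw [HahnSeries.coeff_sum, Finset.sum_eq_single i₀]
    · exact fun h => hi₀.2 (HahnSeries.coeff_order_eq_zero.1 h)
    · intro i hi hne'
      by_cases h3 : f i = 0
      · rw [h3, HahnSeries.coeff_zero]
      · apply HahnSeries.coeff_eq_zero_of_lt_order
        refine lt_of_le_of_ne (hmin i (Finset.mem_filter.2 ⟨hi, h3⟩)) ?_
        intro h4
        exact hne' (hinj i hi i₀ hi₀.1 h3 hi₀.2 h4.symm)
    · exact fun h => absurd hi₀.1 h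
  exact HahnSeries.ne_zero_of_coeff_ne_zero h2

theorem linearIndependent_pow {p : ℕ} (hp : 0 < p) (E : IntermediateField K LS) :
    LinearIndependent (E.map (V K p)) (fun i : Fin p => (jqModC K) ^ (i : ℕ)) := by
  rw [Fintype.linearIndependent_iff]
  intro g hg
  by_contra hcon
  push Not at hcon
  obtain ⟨i₁, hi₁⟩ := hcon
  have hj0 : jqModC K ≠ 0 := jqModC_ne_zero'
  have hg' : ∑ i : Fin p, ((g i : LS)) * (jqModC K) ^ (i : ℕ) = 0 := hg
  refine sum_ne_zero_of_order Finset.univ (fun i : Fin p => ((g i : LS)) * (jqModC K) ^ (i : ℕ))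
    ?_ ?_ hg'
  · refine ⟨i₁, Finset.mem_univ _, mul_ne_zero ?_ (pow_ne_zero _ hj0)⟩
    exact fun h => hi₁ (Subtype.ext h)
  · intro i _ k _ hi hk hord
    have h1 : ∀ l : Fin p, ((g l : LS)) * (jqModC K) ^ (l : ℕ) ≠ 0 →
        ∃ z : ℤ, (((g l : LS)) * (jqModC K) ^ (l : ℕ)).order = p * z - l := by
      intro l hl
      obtain ⟨x, -, hx⟩ := (g l).2
      have hx' : V K p x = (g l : LS) := hx
      rw [← hx'] at hl ⊢
      have h3 : V K p x ≠ 0 := by
        intro h; rw [h, zero_mul] at hl; exact hl rfl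
      refine ⟨x.order, ?_⟩
      rw [HahnSeries.order_mul h3 (pow_ne_zero _ hj0), order_V hp.ne', HahnSeries.order_pow,
        order_jqModC]
      simp [sub_eq_add_neg]
    obtain ⟨z, hz⟩ := h1 i hi
    obtain ⟨z', hz'⟩ := h1 k hk
    rw [hz, hz'] at hord
    have h2 : (i : ℤ) - k = p * (z - z') := by linarith
    have h3 : (p : ℤ) ∣ (i : ℤ) - k := ⟨_, h2⟩
    have h4 : |(i : ℤ) - k| < p := by
      have := i.2
      have := k.2
      rw [abs_lt]; constructor <;> omega
    have h5 := Int.eq_zero_of_abs_lt_dvd h3 h4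
    exact Fin.ext (by omega)

end Fields

namespace ModData

variable {K : Type} [Field K] {p : ℕ} (D : ModData K p) (hp : p.Prime)

local notation "LS" => LaurentSeries K

include D hp

theorem relfinrank_level_p (hpK : (p : K) ≠ 0) :
    relfinrank K⟮jqModC K⟯ (modularFunctionFieldFullC K p) = p + 1 := by
  have h1 : ¬ p ∣ 1 := fun h => hp.one_lt.ne' (Nat.dvd_one.1 h)
  have hj : V K 1 (jqModC K) ∈ K⟮jqModC K⟯ := by
    rw [V_one]; exact mem_adjoin_simple_self K _
  have hnot : V K (1 * p) (jqModC K) ∉ K⟮jqModC K⟯ := by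
    rw [one_mul]; exact D.V_not_mem hp hpK
  have h2 := D.natDegree_minpoly hp h1 hj hnot
  rw [one_mul] at h2
  rw [← h2]
  refine relfinrank_eq_natDegree_minpoly (adjoin_jqModC_le p K) (V_mem_full hp.ne_zero dvd_rfl)
    ?_ ?_
  · intro E hE hx
    rw [full_le_iff hp.ne_zero]
    intro d hd
    rcases (Nat.dvd_prime hp).1 hd with rfl | rfl
    · rw [V_one]; exact hE (mem_adjoin_simple_self K _)
    · exact hx
  · by_contra h
    rw [minpoly.eq_zero h, natDegree_zero] at h2
    omega

theorem relfinrank_level_p' (hpK : (p : K) ≠ 0) :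
    relfinrank (K⟮jqModC K⟯.map (V K p)) (modularFunctionFieldFullC K p) = p + 1 := by
  have h1 : ¬ p ∣ 1 := fun h => hp.one_lt.ne' (Nat.dvd_one.1 h)
  have hj : V K 1 (jqModC K) ∈ K⟮jqModC K⟯ := by
    rw [V_one]; exact mem_adjoin_simple_self K _
  obtain ⟨P, hPm, hPd, hP⟩ := exists_lift _ hj D.Φ D.monicΦ
  obtain ⟨G, hG, hG1⟩ := D.exists_factorΦ_irreducible hp h1
  rw [hG1, one_mul] at hP
  -- `P` is irreducible
  have hPirr : Irreducible P := by
    rcases natDegree_minpoly_of_irreducible_cofactor hPm hP hG with h | h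
    · rw [minpoly.natDegree_eq_one_iff] at h
      obtain ⟨x, hx⟩ := h
      exact absurd (hx ▸ x.2) (D.V_not_mem hp hpK)
    · rw [← h]
      apply minpoly.irreducible
      exact ⟨P, hPm, by rw [← eval_map, hP]; simp⟩
  let e : K⟮jqModC K⟯ ≃ₐ[K] (K⟮jqModC K⟯.map (V K p)) := K⟮jqModC K⟯.equivMap (V K p)
  have he : ∀ x, ((e x : (K⟮jqModC K⟯.map (V K p))) : LS) = V K p (x : LS) := fun x => rfl
  let Q := P.map (e : K⟮jqModC K⟯ →+* (K⟮jqModC K⟯.map (V K p)))
  have hQm : Q.Monic := hPm.map _
  have hQirr : Irreducible Q := by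
    have := (MulEquiv.irreducible_iff (Polynomial.mapEquiv e.toRingEquiv) (x := P)).2 hPirr
    exact this
  have hQ : Q.map (algebraMap _ LS) =
      D.Φ.map ((V K (1 * p) : LS →+* LS).comp (evJ K)) := by
    have h2 : Q.map (algebraMap _ LS) = (P.map (algebraMap K⟮jqModC K⟯ LS)).map
        (V K p : LS →+* LS) := by
      rw [Polynomial.map_map, Polynomial.map_map]
      rfl
    obtain ⟨P', hPm', hPd', hP'⟩ := exists_lift _ hj D.Φ D.monicΦ
    rw [h2, hP]
    have h3 : (D.Φ.map ((V K 1 : LS →+* LS).comp (evJ K))).map (V K p : LS →+* LS) =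
        D.Φ.map ((V K (1 * p) : LS →+* LS).comp (evJ K)) := by
      rw [Polynomial.map_map]
      congr 1
      refine RingHom.ext fun x => ?_
      show V K p (V K 1 (evJ K x)) = V K (1 * p) (evJ K x)
      rw [V_V hp.ne_zero one_ne_zero, mul_comm]
    rw [← h3, hG1, one_mul]
  have hroot : aeval (jqModC K) Q = 0 := by
    rw [aeval_def, ← eval_map, hQ]
    have := D.eval_swap hp one_ne_zero
    rwa [V_one] at this
  have hmin := minpoly.eq_of_irreducible_of_monic hQirr hroot hQm
  have hdeg : (minpoly (K⟮jqModC K⟯.map (V K p)) (jqModC K)).natDegree = p + 1 := by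
    rw [← hmin, natDegree_map, hPd, D.natDegree_Φ]
  rw [← hdeg]
  refine relfinrank_eq_natDegree_minpoly ?_ (jqModC_mem_full K p) ?_ ⟨Q, hQm, hroot⟩
  · rw [← full_one]
    have := map_full_le (K := K) one_ne_zero hp.ne_zero
    rwa [one_mul] at this
  · intro E hE hx
    rw [full_le_iff hp.ne_zero]
    intro d hd
    rcases (Nat.dvd_prime hp).1 hd with rfl | rfl
    · rw [V_one]; exact hx
    · exact hE ⟨jqModC K, mem_adjoin_simple_self K _, rfl⟩

/-- the relative degree over `k_N` equals that over `V_p k_N` -/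
theorem relfinrank_eq_relfinrank_map (hpK : (p : K) ≠ 0) {N : ℕ} (hN : N ≠ 0)
    (ha : relfinrank K⟮jqModC K⟯ (modularFunctionFieldFullC K N) ≠ 0) :
    relfinrank (modularFunctionFieldFullC K N) (modularFunctionFieldFullC K (N * p)) =
      relfinrank ((modularFunctionFieldFullC K N).map (V K p))
        (modularFunctionFieldFullC K (N * p)) := by
  have hNp : N * p ≠ 0 := mul_ne_zero hN hp.ne_zero
  have h1 := relfinrank_mul_relfinrank (adjoin_jqModC_le N K)
    (full_mono (K := K) hN hNp (dvd_mul_right N p))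
  have h2 := relfinrank_mul_relfinrank (adjoin_jqModC_le p K)
    (full_mono (K := K) hp.ne_zero hNp (dvd_mul_left p N))
  have h3 := relfinrank_mul_relfinrank
    (IntermediateField.map_mono (V K p) (adjoin_jqModC_le N K))
    (map_full_le (K := K) hN hp.ne_zero)
  have h4' : K⟮jqModC K⟯.map (V K p) ≤ modularFunctionFieldFullC K p := by
    rw [← full_one]
    have := map_full_le (K := K) one_ne_zero hp.ne_zero
    rwa [one_mul] at this
  have h4 := relfinrank_mul_relfinrank h4'
    (full_mono (K := K) hp.ne_zero hNp (dvd_mul_left p N))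
  rw [D.relfinrank_level_p hp hpK] at h2
  rw [D.relfinrank_level_p' hp hpK] at h4
  rw [relfinrank_map_map] at h3
  have h5 : relfinrank K⟮jqModC K⟯ (modularFunctionFieldFullC K N) *
      relfinrank (modularFunctionFieldFullC K N) (modularFunctionFieldFullC K (N * p)) =
      relfinrank K⟮jqModC K⟯ (modularFunctionFieldFullC K N) *
      relfinrank ((modularFunctionFieldFullC K N).map (V K p))
        (modularFunctionFieldFullC K (N * p)) := by
    rw [h1, h3, ← h2, ← h4]
  exact Nat.eq_of_mul_eq_mul_left (Nat.pos_of_ne_zero ha) h5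

theorem le_relfinrank (hpK : (p : K) ≠ 0) {N : ℕ} (hN : N ≠ 0)
    (ha : relfinrank K⟮jqModC K⟯ (modularFunctionFieldFullC K N) ≠ 0)
    (hb : relfinrank (modularFunctionFieldFullC K N) (modularFunctionFieldFullC K (N * p)) ≠ 0) :
    p ≤ relfinrank (modularFunctionFieldFullC K N) (modularFunctionFieldFullC K (N * p)) := by
  rw [D.relfinrank_eq_relfinrank_map hp hpK hN ha] at hb ⊢
  have hle := map_full_le (K := K) hN hp.ne_zero
  rw [relfinrank_eq_finrank_of_le hle] at hb ⊢
  have : FiniteDimensional ((modularFunctionFieldFullC K N).map (V K p)) (extendScalars hle) :=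
    FiniteDimensional.of_finrank_pos (Nat.pos_of_ne_zero hb)
  let v' : Fin p → extendScalars hle := fun i => ⟨jqModC K ^ (i : ℕ),
    pow_mem (jqModC_mem_full K (N * p)) _⟩
  have hli' : LinearIndependent ((modularFunctionFieldFullC K N).map (V K p)) v' :=
    LinearIndependent.of_comp (extendScalars hle).val.toLinearMap
      (linearIndependent_pow hp.pos (modularFunctionFieldFullC K N))
  have := hli'.fintype_card_le_finrank
  rwa [Fintype.card_fin] at this

end ModData

section Upper

variable {K : Type} [Field K]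

local notation "LS" => LaurentSeries K

/-- `V_{p^{a+1}} j` generates `k_{Np}` over `k_N`, where `p^a ∥ N` -/
theorem full_mul_le {p a M : ℕ} (hp : p.Prime) (hpM : ¬ p ∣ M)
    (D : ∀ r : ℕ, r.Prime → r ∣ p ^ a * M * p → ModData K r)
    {E : IntermediateField K LS} (hE : modularFunctionFieldFullC K (p ^ a * M) ≤ E)
    (hx : V K (p ^ (a + 1)) (jqModC K) ∈ E) :
    modularFunctionFieldFullC K (p ^ a * M * p) ≤ E := by
  have hM : M ≠ 0 := by rintro rfl; exact hpM (dvd_zero _)
  have hp0 := hp.ne_zero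
  have hN : p ^ a * M ≠ 0 := mul_ne_zero (pow_ne_zero _ hp0) hM
  have hmem : ∀ d, d ∣ p ^ a * M → V K d (jqModC K) ∈ E := (full_le_iff hN).1 hE
  have key : ∀ m : ℕ, m ∣ M → V K (p ^ (a + 1) * m) (jqModC K) ∈ E := by
    intro m
    induction m using induction_on_primes with
    | zero => intro h; exact absurd (Nat.eq_zero_of_zero_dvd h) hM
    | one => intro _; rw [mul_one]; exact hx
    | prime_mul r m hr ih =>
      intro h
      have hm : m ∣ M := (dvd_mul_left m r).trans h
      have hm0 : m ≠ 0 := fun h' => hM (Nat.eq_zero_of_zero_dvd (h' ▸ hm))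
      have hrM : r ∣ M := (dvd_mul_right r m).trans h
      have hrp : r ≠ p := by rintro rfl; exact hpM hrM
      have h1 := ih hm
      have h2 : V K (p ^ a * (r * m)) (jqModC K) ∈ E := hmem _ (Nat.mul_dvd_mul dvd_rfl h)
      have D1 := D r hr ((hrM.mul_left _).mul_right _)
      have D2 := D p hp (dvd_mul_left _ _)
      have hd0 : p ^ (a + 1) * m ≠ 0 := mul_ne_zero (pow_ne_zero _ hp0) hm0
      have hd0' : p ^ a * (r * m) ≠ 0 :=
        mul_ne_zero (pow_ne_zero _ hp0) (mul_ne_zero hr.ne_zero hm0)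
      obtain ⟨G, hGm, hG1, hG2⟩ := D1.exists_factorΦ hr hd0
      obtain ⟨G', hGm', hG1', hG2'⟩ := D2.exists_factorΦ hp hd0'
      obtain ⟨P, hPm, -, hP⟩ := exists_lift E h1 D1.Φ D1.monicΦ
      obtain ⟨P', hPm', -, hP'⟩ := exists_lift E h2 D2.Φ D2.monicΦ
      rw [hG1] at hP
      rw [hG1'] at hP'
      have e1 : p ^ a * (r * m) * p = p ^ (a + 1) * m * r := by ring
      rw [e1] at hP'
      have e2 : p ^ (a + 1) * (r * m) = p ^ (a + 1) * m * r := by ring
      rw [e2]
      have hcop : IsCoprime G G' := by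
        refine isCoprime_of_map_roots_ne ((V K p : LS →+* LS).comp (V K r : LS →+* LS))
          (s := Finset.range r) (t := Finset.range p)
          (a := fun i => V K p (V K (p ^ (a + 1) * m) (D1.r i)))
          (b := fun i => V K r (V K (p ^ a * (r * m)) (D2.r i))) ?_ ?_ ?_
        · intro i _ k _ hik
          have h3 := congrArg HahnSeries.order hik
          rw [order_V hp0, order_V hr.ne_zero, order_V hd0, order_V hd0', D1.order_r,
            D2.order_r] at h3
          have h4 : (p : ℤ) ^ a * m * (p * p) = p ^ a * m * (r * r) := by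
            push_cast at h3
            linear_combination -h3
          have h5 : ((p : ℤ)) ^ a * m ≠ 0 := by
            have := mul_ne_zero (pow_ne_zero a hp0) hm0
            exact_mod_cast this
          have h6 := mul_left_cancel₀ h5 h4
          have h7 : p * p = r * r := by exact_mod_cast h6
          exact hrp (Nat.mul_self_inj.1 h7).symm
        · rw [← Polynomial.map_map, hG2, Polynomial.map_prod]
          refine Finset.prod_congr rfl fun i _ => ?_
          rw [Polynomial.map_sub, map_X, map_C]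
          rfl
        · have h8 : ((V K p : LS →+* LS).comp (V K r : LS →+* LS)) =
              ((V K r : LS →+* LS).comp (V K p : LS →+* LS)) := by
            refine RingHom.ext fun x => ?_
            show V K p (V K r x) = V K r (V K p x)
            rw [V_V hp0 hr.ne_zero, V_V hr.ne_zero hp0, mul_comm]
          rw [h8, ← Polynomial.map_map, hG2', Polynomial.map_prod]
          refine Finset.prod_congr rfl fun i _ => ?_
          rw [Polynomial.map_sub, map_X, map_C]
          rfl
      obtain ⟨x, hx⟩ := mem_range_of_coprime hPm hP hP' hcop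
      rw [← hx]
      exact x.2
  rw [full_le_iff (mul_ne_zero hN hp0)]
  intro d hd
  have e3 : p ^ a * M * p = p ^ (a + 1) * M := by ring
  rw [e3, Nat.dvd_mul] at hd
  obtain ⟨d1, d2, hd1, hd2, rfl⟩ := hd
  obtain ⟨k, hk, rfl⟩ := (Nat.dvd_prime_pow hp).1 hd1
  rcases Nat.lt_or_ge k (a + 1) with h | h
  · exact hmem _ (Nat.mul_dvd_mul (pow_dvd_pow p (by omega)) hd2)
  · obtain rfl : k = a + 1 := le_antisymm hk h
    exact key _ hd2

theorem natDegree_le_of_level {p a N : ℕ} (hp : p.Prime) (hN : N ≠ 0) (D : ModData K p)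
    (hpa : p ^ a ∣ N) :
    IsIntegral (modularFunctionFieldFullC K N) (V K (p ^ (a + 1)) (jqModC K)) ∧
    (minpoly (modularFunctionFieldFullC K N) (V K (p ^ (a + 1)) (jqModC K))).natDegree ≤ p + 1 ∧
    (a ≠ 0 → (minpoly (modularFunctionFieldFullC K N)
      (V K (p ^ (a + 1)) (jqModC K))).natDegree ≤ p) := by
  have hp0 := hp.ne_zero
  have hmem : V K (p ^ a) (jqModC K) ∈ modularFunctionFieldFullC K N := V_mem_full hN hpa
  obtain ⟨P, hPm, hPd, hP⟩ := exists_lift _ hmem D.Φ D.monicΦ
  obtain ⟨G, hGm, hG1, hG2⟩ := D.exists_factorΦ hp (pow_ne_zero a hp0)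
  have hroot : aeval (V K (p ^ (a + 1)) (jqModC K)) P = 0 := by
    rw [aeval_def, ← eval_map, hP, hG1, pow_succ]; simp
  refine ⟨⟨P, hPm, hroot⟩, ?_, ?_⟩
  · rw [← D.natDegree_Φ, ← hPd]
    exact natDegree_le_of_dvd (minpoly.dvd _ _ hroot) hPm.ne_zero
  · intro ha
    obtain ⟨b, rfl⟩ := Nat.exists_eq_succ_of_ne_zero ha
    have hmem' : V K (p ^ b) (jqModC K) ∈ modularFunctionFieldFullC K N :=
      V_mem_full hN ((pow_dvd_pow p (Nat.le_succ b)).trans hpa)
    have h1 := D.eval_swap hp (pow_ne_zero b hp0)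
    rw [← pow_succ] at h1
    have h2 : P.IsRoot ⟨_, hmem'⟩ := by
      have h3 : algebraMap (modularFunctionFieldFullC K N) LS (P.eval ⟨_, hmem'⟩) = 0 := by
        rw [← Polynomial.eval₂_hom, ← eval_map, hP]
        exact h1
      exact (map_eq_zero _).1 h3
    obtain ⟨P', hP'⟩ := dvd_iff_isRoot.2 h2
    have hP'm : P'.Monic := (monic_X_sub_C _).of_mul_monic_left (hP' ▸ hPm)
    have hP'd : P'.natDegree = p := by
      have h3 := congrArg natDegree hP'
      rw [(monic_X_sub_C _).natDegree_mul hP'm, natDegree_X_sub_C, hPd, D.natDegree_Φ] at h3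
      omega
    have hroot' : aeval (V K (p ^ (b + 1 + 1)) (jqModC K)) P' = 0 := by
      have h3 := hroot
      rw [hP', map_mul, mul_eq_zero] at h3
      rcases h3 with h3 | h3
      · exfalso
        rw [map_sub, aeval_X, aeval_C, sub_eq_zero] at h3
        have h4 : V K (p ^ (b + 1 + 1)) (jqModC K) = V K (p ^ b) (jqModC K) := h3
        have h5 := congrArg HahnSeries.order h4
        rw [order_V_jqModC (pow_ne_zero _ hp0), order_V_jqModC (pow_ne_zero _ hp0)] at h5
        have h6 : p ^ (b + 1 + 1) = p ^ b := by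
          have := neg_injective h5
          exact_mod_cast this
        have := Nat.pow_right_injective hp.two_le h6
        omega
      · exact h3
    exact (natDegree_le_of_dvd (minpoly.dvd _ _ hroot') hP'm.ne_zero).trans hP'd.le

theorem relfinrank_step {p N : ℕ} (hp : p.Prime) (hN : N ≠ 0) (hpK : (p : K) ≠ 0)
    (D : ∀ r : ℕ, r.Prime → r ∣ N * p → ModData K r)
    (ha : relfinrank K⟮jqModC K⟯ (modularFunctionFieldFullC K N) ≠ 0) :
    relfinrank (modularFunctionFieldFullC K N) (modularFunctionFieldFullC K (N * p)) =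
      if p ∣ N then p else p + 1 := by
  obtain ⟨a, M, hpM, rfl⟩ := Nat.exists_eq_pow_mul_and_not_dvd hN p hp.ne_one
  have hp0 := hp.ne_zero
  have D0 := D p hp (dvd_mul_left _ _)
  obtain ⟨hint, hle1, hle2⟩ := natDegree_le_of_level (a := a) hp hN D0 (dvd_mul_right _ _)
  have hle := full_mono (K := K) hN (mul_ne_zero hN hp0) (dvd_mul_right _ p)
  have hx : V K (p ^ (a + 1)) (jqModC K) ∈ modularFunctionFieldFullC K (p ^ a * M * p) := by
    refine V_mem_full (mul_ne_zero hN hp0) ?_
    rw [pow_succ]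
    exact Nat.mul_dvd_mul (dvd_mul_right _ _) dvd_rfl
  have hrel := relfinrank_eq_natDegree_minpoly hle hx
    (fun E hE hxE => full_mul_le hp hpM D hE hxE) hint
  have hpos := minpoly.natDegree_pos hint
  have hlow := D0.le_relfinrank hp hpK hN ha (by rw [hrel]; exact hpos.ne')
  rw [hrel] at hlow ⊢
  by_cases ha0 : a = 0
  · subst ha0
    rw [pow_zero, one_mul] at hint hle1 hlow hpos hN hrel ⊢
    rw [zero_add, pow_one] at hint hle1 hlow hpos hrel ⊢
    rw [if_neg hpM]
    have h1 : ¬ p ∣ 1 := fun h => hp.one_lt.ne' (Nat.dvd_one.1 h)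
    by_cases hmem : V K p (jqModC K) ∈ modularFunctionFieldFullC K M
    · exfalso
      have h2 : (minpoly (modularFunctionFieldFullC K M) (V K p (jqModC K))).natDegree = 1 := by
        rw [minpoly.natDegree_eq_one_iff]
        exact ⟨⟨_, hmem⟩, rfl⟩
      have := hp.two_le
      omega
    · have h3 := D0.natDegree_minpoly hp h1 (E := modularFunctionFieldFullC K M)
        (by rw [V_one]; exact jqModC_mem_full K M) (by rwa [one_mul])
      rwa [one_mul] at h3
  · rw [if_pos ((dvd_pow_self p ha0).mul_right M)]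
    exact le_antisymm (hle2 ha0) hlow

/-- The degree theorem, from the modular polynomials of the primes dividing the level. -/
theorem relfinrank_full {N : ℕ} (hN : N ≠ 0)
    (D : ∀ r : ℕ, r.Prime → r ∣ N → (r : K) ≠ 0 ∧ Nonempty (ModData K r)) :
    relfinrank K⟮jqModC K⟯ (modularFunctionFieldFullC K N) = dedekindPsi N := by
  induction N using induction_on_primes with
  | zero => exact absurd rfl hN
  | one => rw [full_one, relfinrank_self, dedekindPsi_one]
  | prime_mul p N hp ih =>
    have hN0 : N ≠ 0 := by rintro rfl; simp at hN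
    have ih' := ih hN0 fun r hr hrN => D r hr (hrN.mul_left p)
    have hpos : relfinrank K⟮jqModC K⟯ (modularFunctionFieldFullC K N) ≠ 0 := by
      have : NeZero N := ⟨hN0⟩
      rw [ih']; exact (dedekindPsi_pos N).ne'
    have hstep := relfinrank_step (K := K) hp hN0 (D p hp (dvd_mul_right _ _)).1
      (fun r hr hrN => (D r hr (by rwa [mul_comm] at hrN)).2.some) hpos
    rw [mul_comm p N, ← relfinrank_mul_relfinrank (adjoin_jqModC_le N K)
      (full_mono hN0 (mul_ne_zero hN0 hp.ne_zero) (dvd_mul_right N p)), hstep, ih', mul_comm N p]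
    split_ifs with h
    · rw [H45.dedekindPsi_mul_of_dvd hp hN0 h, mul_comm]
    · rw [H45.dedekindPsi_mul_of_not_dvd hp hN0 h, mul_comm]

end Upper

end Fermat.Agent.H28
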