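import Fermat.Agent.H76ClassL
import Fermat.Agent.H85Euler

/-!
# Ray class `L`-series are bounded near `s = 1` (helper28, S47 [RAY])

Periodic sums over the ring of integers, weighted by helper76's partition of unity.
-/

set_option autoImplicit false
set_option maxSynthPendingDepth 3

noncomputable section

namespace Fermat.Agent.H28Z

open NumberField NumberField.mixedEmbedding Ideal nonZeroDivisors
open Fermat.Agent.H76

open scoped Classical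

variable {K : Type*} [Field K] [NumberField K]

/-- the basic sum -/
def SS (K : Type*) [Field K] [NumberField K] (s : ℝ) : ℝ := ∑' β : 𝓞 K, wt s (emb β)

lemma SS_nonneg (s : ℝ) : 0 ≤ SS K s := tsum_nonneg fun _ => wt_nonneg _ _

/-- periodic sums decompose along cosets -/
lemma hasSum_per (n : (Ideal (𝓞 K))⁰) (h : 𝓞 K ⧸ (n : Ideal (𝓞 K)) → ℂ) {s : ℝ} (hs : 1 < s) :
    HasSum (fun β : 𝓞 K => h (Ideal.Quotient.mk _ β) * (wt s (emb β) : ℂ))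
      (∑ q : 𝓞 K ⧸ (n : Ideal (𝓞 K)), h q *
        ((∑' t : (n : Ideal (𝓞 K)), wt s (emb ((t : 𝓞 K) + q.out)) : ℝ) : ℂ)) := by
  rw [← (cosetEquiv n).hasSum_iff]
  have hsummable : Summable (fun a : (𝓞 K ⧸ (n : Ideal (𝓞 K))) × (n : Ideal (𝓞 K)) =>
      h a.1 * ((wt s (emb ((a.2 : 𝓞 K) + a.1.out)) : ℝ) : ℂ)) := by
    obtain ⟨B, hB⟩ : ∃ B : ℝ, ∀ q, ‖h q‖ ≤ B := by
      obtain ⟨B, hB⟩ := (Set.finite_range fun q => ‖h q‖).bddAbove
      exact ⟨B, fun q => hB ⟨q, rfl⟩⟩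
    refine Summable.of_norm_bounded ((summable_wt_cosetEquiv n hs).mul_left B) fun a => ?_
    rw [norm_mul, Complex.norm_real, Real.norm_of_nonneg (wt_nonneg _ _), cosetEquiv_apply]
    exact mul_le_mul_of_nonneg_right (hB _) (wt_nonneg _ _)
  have hfun : ((fun β : 𝓞 K => h (Ideal.Quotient.mk _ β) * (wt s (emb β) : ℂ)) ∘ cosetEquiv n) =
      fun a : (𝓞 K ⧸ (n : Ideal (𝓞 K))) × (n : Ideal (𝓞 K)) =>
      h a.1 * ((wt s (emb ((a.2 : 𝓞 K) + a.1.out)) : ℝ) : ℂ) := by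
    funext a
    simp only [Function.comp_apply]
    rw [cosetEquiv_apply]
    congr 2
    rw [map_add, Ideal.Quotient.eq_zero_iff_mem.mpr a.2.2, zero_add, Ideal.Quotient.mk_out]
  rw [hfun]
  have h1 := hsummable.hasSum
  have h2 : ∑' a : (𝓞 K ⧸ (n : Ideal (𝓞 K))) × (n : Ideal (𝓞 K)),
      h a.1 * ((wt s (emb ((a.2 : 𝓞 K) + a.1.out)) : ℝ) : ℂ) = ∑ q : 𝓞 K ⧸ (n : Ideal (𝓞 K)), h q *
        ((∑' t : (n : Ideal (𝓞 K)), wt s (emb ((t : 𝓞 K) + q.out)) : ℝ) : ℂ) := by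
    rw [hsummable.tsum_prod, tsum_fintype]
    refine Finset.sum_congr rfl fun q _ => ?_
    dsimp only
    rw [tsum_mul_left, Complex.ofReal_tsum]
  rw [← h2]
  exact h1

/-- **Periodic sums.** -/
theorem exists_per_bound (n : (Ideal (𝓞 K))⁰) (h : 𝓞 K ⧸ (n : Ideal (𝓞 K)) → ℂ) :
    ∃ C : ℝ, 0 ≤ C ∧ ∀ s : ℝ, 1 < s → s ≤ 2 →
      ‖∑' β : 𝓞 K, h (Ideal.Quotient.mk _ β) * (wt s (emb β) : ℂ) -
        ((absNorm (n : Ideal (𝓞 K)) : ℝ) : ℂ)⁻¹ * (∑ q, h q) * (SS K s : ℂ)‖ ≤ C := by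
  choose c hc0 hc using fun q : 𝓞 K ⧸ (n : Ideal (𝓞 K)) => exists_coset_bound_one n q.out
  obtain ⟨D, hD0, hD⟩ := exists_coset_bound n
  have hN := absNorm_pos n
  set N : ℝ := (absNorm (n : Ideal (𝓞 K)) : ℝ) with hNdef
  refine ⟨∑ q, ‖h q‖ * (c q + N⁻¹ * D), Finset.sum_nonneg fun q _ =>
    mul_nonneg (norm_nonneg _) (add_nonneg (hc0 q) (mul_nonneg (inv_nonneg.mpr hN.le) hD0)),
    fun s hs1 hs2 => ?_⟩
  rw [(hasSum_per n h hs1).tsum_eq, Finset.mul_sum, Finset.sum_mul, ← Finset.sum_sub_distrib]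
  refine norm_sum_le_of_le _ fun q _ => ?_
  set T : ℝ := ∑' t : (n : Ideal (𝓞 K)), wt s (emb ((t : 𝓞 K) + q.out)) with hT
  set W : ℝ := ∑' t : (n : Ideal (𝓞 K)), wt s (emb (t : 𝓞 K)) with hW
  have e1 : h q * (T : ℂ) - (N : ℂ)⁻¹ * h q * (SS K s : ℂ) = h q * (((T - N⁻¹ * SS K s : ℝ)) : ℂ) := by
    push_cast; ring
  rw [e1, norm_mul, Complex.norm_real, Real.norm_eq_abs]
  refine mul_le_mul_of_nonneg_left ?_ (norm_nonneg _)
  have h1 := hc q s hs1 hs2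
  have h2 := hD s ⟨hs1, hs2⟩
  have h3 : T - N⁻¹ * SS K s = (T - W) - N⁻¹ * (SS K s - N * W) := by
    field_simp
    ring
  rw [h3]
  refine (abs_sub _ _).trans ?_
  rw [abs_mul, abs_of_pos (inv_pos.mpr hN)]
  exact add_le_add h1 (mul_le_mul_of_nonneg_left h2 (inv_nonneg.mpr hN.le))

/-! ## Ray class characters -/

/-- A completely multiplicative function on ideals which vanishes on the ideals not prime to `m`
and is `1` on the principal ideals `(a)`, `a ≡ 1 (mod m)`. -/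
structure RayChar (m : Ideal (𝓞 K)) (ψ : Ideal (𝓞 K) → ℂ) : Prop where
  map_bot : ψ ⊥ = 0
  map_one : ψ 1 = 1
  map_mul : ∀ I J, ψ (I * J) = ψ I * ψ J
  eq_zero : ∀ I, ¬ IsCoprime I m → ψ I = 0
  map_span : ∀ a : 𝓞 K, a ≠ 0 → a - 1 ∈ m → ψ (Ideal.span {a}) = 1

namespace RayChar

variable {m : Ideal (𝓞 K)} {ψ : Ideal (𝓞 K) → ℂ}

lemma map_pow (hψ : RayChar m ψ) (I : Ideal (𝓞 K)) (n : ℕ) : ψ (I ^ n) = ψ I ^ n := by
  induction n with
  | zero => rw [pow_zero, pow_zero, hψ.map_one]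
  | succ n ih => rw [pow_succ, pow_succ, hψ.map_mul, ih]

/-- an inverse modulo `m` -/
lemma exists_inv {b : 𝓞 K} (hb : IsCoprime (Ideal.span {b}) m) : ∃ c : 𝓞 K, c * b - 1 ∈ m := by
  rw [Ideal.isCoprime_iff_exists] at hb
  obtain ⟨x, hx, y, hy, hxy⟩ := hb
  obtain ⟨c, rfl⟩ := Ideal.mem_span_singleton.mp hx
  exact ⟨c, by
    have : c * b - 1 = -y := by rw [← hxy]; ring
    rw [this]; exact m.neg_mem hy⟩

/-- `ψ((b))` depends only on `b` modulo `m`. -/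
lemma congr_span (hψ : RayChar m ψ) {b b' : 𝓞 K} (hb0 : b ≠ 0) (hb0' : b' ≠ 0)
    (h : b - b' ∈ m) : ψ (Ideal.span {b}) = ψ (Ideal.span {b'}) := by
  by_cases hb : IsCoprime (Ideal.span {b}) m
  · obtain ⟨c, hc⟩ := exists_inv hb
    have hc' : c * b' - 1 ∈ m := by
      have : c * b' - 1 = (c * b - 1) - c * (b - b') := by ring
      rw [this]; exact m.sub_mem hc (m.mul_mem_left _ h)
    by_cases hc0 : c = 0
    · -- then `m = ⊤`
      subst hc0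
      rw [zero_mul, zero_sub] at hc
      have htop : m = ⊤ := by
        rw [Ideal.eq_top_iff_one]
        simpa using m.neg_mem hc
      rw [hψ.map_span b hb0 (by rw [htop]; trivial), hψ.map_span b' hb0' (by rw [htop]; trivial)]
    · have h1 := hψ.map_span _ (mul_ne_zero hc0 hb0) hc
      have h2 := hψ.map_span _ (mul_ne_zero hc0 hb0') hc'
      rw [← Ideal.span_singleton_mul_span_singleton, hψ.map_mul] at h1 h2
      have h3 : ψ (Ideal.span {c}) ≠ 0 := by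
        intro h0; rw [h0, zero_mul] at h1; exact zero_ne_one h1
      exact mul_left_cancel₀ h3 (h1.trans h2.symm)
  · rw [hψ.eq_zero _ hb, hψ.eq_zero]
    intro hb'
    apply hb
    rw [Ideal.isCoprime_iff_exists] at hb' ⊢
    obtain ⟨x, hx, y, hy, hxy⟩ := hb'
    obtain ⟨c, rfl⟩ := Ideal.mem_span_singleton.mp hx
    refine ⟨c * b, Ideal.mem_span_singleton.mpr ⟨c, by ring⟩, y - c * (b - b'), 
      m.sub_mem hy (m.mul_mem_left _ h), ?_⟩
    rw [← hxy]; ring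

lemma exists_pow_sub_one_mem (hm0 : m ≠ ⊥) {b : 𝓞 K} (hb : IsCoprime (Ideal.span {b}) m) :
    ∃ k : ℕ, 0 < k ∧ b ^ k - 1 ∈ m := by
  have : Finite (𝓞 K ⧸ m) := Ring.HasFiniteQuotients.finiteQuotient hm0
  obtain ⟨c, hc⟩ := exists_inv hb
  have h1 : Ideal.Quotient.mk m c * Ideal.Quotient.mk m b = 1 := by
    rw [← _root_.map_mul, ← _root_.map_one (Ideal.Quotient.mk m), Ideal.Quotient.eq]
    exact hc
  let u : (𝓞 K ⧸ m)ˣ := ⟨Ideal.Quotient.mk m b, Ideal.Quotient.mk m c, by rw [mul_comm, h1], h1⟩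
  have h2 : u ^ (Nat.card (𝓞 K ⧸ m)ˣ) = 1 := pow_card_eq_one'
  refine ⟨Nat.card (𝓞 K ⧸ m)ˣ, Nat.card_pos, ?_⟩
  rw [← Ideal.Quotient.eq, _root_.map_one, _root_.map_pow]
  have h3 := congrArg Units.val h2
  rw [Units.val_pow_eq_pow_val] at h3
  exact h3

lemma exists_pow_eq_one (hψ : RayChar m ψ) (hm0 : m ≠ ⊥) {I : Ideal (𝓞 K)} (hI0 : I ≠ ⊥)
    (hI : IsCoprime I m) : ∃ k : ℕ, 0 < k ∧ ψ I ^ k = 1 := by
  let I' : (Ideal (𝓞 K))⁰ := ⟨I, mem_nonZeroDivisors_of_ne_zero hI0⟩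
  have h1 : ClassGroup.mk0 (I' ^ Fintype.card (ClassGroup (𝓞 K))) = 1 := by
    rw [_root_.map_pow, pow_card_eq_one]
  rw [ClassGroup.mk0_eq_one_iff] at h1
  obtain ⟨b, hb⟩ := h1
  have hb' : I ^ Fintype.card (ClassGroup (𝓞 K)) = Ideal.span {b} := hb
  have hbc : IsCoprime (Ideal.span {b}) m := by
    rw [← hb']; exact hI.pow_left
  have hb0 : b ≠ 0 := by
    rintro rfl
    rw [Ideal.span_singleton_eq_bot.mpr rfl] at hb'
    exact pow_ne_zero _ hI0 hb'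
  obtain ⟨k, hk, h2⟩ := exists_pow_sub_one_mem hm0 hbc
  refine ⟨Fintype.card (ClassGroup (𝓞 K)) * k, Nat.mul_pos Fintype.card_pos hk, ?_⟩
  rw [pow_mul, ← hψ.map_pow, hb', ← hψ.map_pow, Ideal.span_singleton_pow]
  exact hψ.map_span _ (pow_ne_zero _ hb0) h2

lemma norm_eq_one (hψ : RayChar m ψ) (hm0 : m ≠ ⊥) {I : Ideal (𝓞 K)} (hI0 : I ≠ ⊥)
    (hI : IsCoprime I m) : ‖ψ I‖ = 1 := by
  obtain ⟨k, hk, h⟩ := hψ.exists_pow_eq_one hm0 hI0 hI
  exact Complex.norm_eq_one_of_pow_eq_one h hk.ne'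

lemma ne_zero (hψ : RayChar m ψ) (hm0 : m ≠ ⊥) {I : Ideal (𝓞 K)} (hI0 : I ≠ ⊥)
    (hI : IsCoprime I m) : ψ I ≠ 0 := by
  intro h
  have := hψ.norm_eq_one hm0 hI0 hI
  rw [h, norm_zero] at this
  exact zero_ne_one this

lemma norm_le_one (hψ : RayChar m ψ) (hm0 : m ≠ ⊥) (I : Ideal (𝓞 K)) : ‖ψ I‖ ≤ 1 := by
  by_cases hI0 : I = ⊥
  · rw [hI0, hψ.map_bot, norm_zero]; exact zero_le_one
  by_cases hI : IsCoprime I m
  · rw [hψ.norm_eq_one hm0 hI0 hI]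
  · rw [hψ.eq_zero _ hI, norm_zero]; exact zero_le_one

end RayChar

/-- every ideal class contains an ideal prime to `m` -/
lemma exists_coprime_rep {m : Ideal (𝓞 K)} (hm0 : m ≠ ⊥) (C : ClassGroup (𝓞 K)) :
    ∃ I : (Ideal (𝓞 K))⁰, ClassGroup.mk0 I = C ∧ IsCoprime (I : Ideal (𝓞 K)) m := by
  obtain ⟨J, hJ⟩ := ClassGroup.mk0_surjective (C⁻¹)
  by_cases htop : m = ⊤
  · obtain ⟨I, hI⟩ := ClassGroup.mk0_surjective C
    exact ⟨I, hI, Ideal.isCoprime_iff_sup_eq.mpr (by rw [htop, sup_top_eq])⟩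
  · have hJ0 : (J : Ideal (𝓞 K)) ≠ 0 := nonZeroDivisors.ne_zero J.2
    obtain ⟨a, ha⟩ := IsDedekindDomain.exists_sup_span_eq (I := (J : Ideal (𝓞 K)) * m)
      (J := (J : Ideal (𝓞 K))) Ideal.mul_le_left (mul_ne_zero hJ0 hm0)
    have haJ : a ∈ (J : Ideal (𝓞 K)) := by
      rw [← ha]
      exact Ideal.mem_sup_right (Ideal.mem_span_singleton_self a)
    obtain ⟨B, hB⟩ := Ideal.dvd_iff_le.mpr ((Ideal.span_singleton_le_iff_mem _).mpr haJ)
    have hMB : m ⊔ B = ⊤ := by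
      rw [hB, ← Ideal.mul_sup] at ha
      have : (J : Ideal (𝓞 K)) * (m ⊔ B) = (J : Ideal (𝓞 K)) * ⊤ := by
        rw [ha, Ideal.mul_top]
      exact mul_left_cancel₀ hJ0 this
    have hB0 : B ≠ 0 := by
      rintro rfl
      apply htop
      rw [← hMB]
      exact (sup_bot_eq m).symm
    refine ⟨⟨B, mem_nonZeroDivisors_of_ne_zero hB0⟩, ?_, ?_⟩
    · have h1 : ClassGroup.mk0 (J * ⟨B, mem_nonZeroDivisors_of_ne_zero hB0⟩) = 1 := by
        rw [ClassGroup.mk0_eq_one_iff]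
        show ((J : Ideal (𝓞 K)) * B).IsPrincipal
        rw [← hB]
        exact ⟨a, rfl⟩
      rw [map_mul, hJ] at h1
      rw [eq_comm, ← inv_mul_eq_one]
      exact h1
    · rw [Ideal.isCoprime_iff_sup_eq, sup_comm]
      exact hMB

end Fermat.Agent.H28Z
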