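import Fermat.Agent.H64FTors

/-!
# S56-[B4], K1 : the connected part of a finite flat group scheme, in coordinates
-/

set_option autoImplicit false

noncomputable section

namespace Fermat.Agent.H29

open Fermat.Agent.H64

variable {p : ℕ} [Fact p.Prime] {W : Type*} [AddCommGroup W] {act : FGQ → W → W} {n : ℕ}
  {e : Fin n → W → FQb} {a : Fin n → Fin n → Fin n → ℚ}

/-- the centred coordinates -/
def uu (e : Fin n → W → FQb) (x : W) (i : Fin n) : FQb := e i x - e i 0

/-- the bilinear multiplication of the dual algebra -/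
def BB (a : Fin n → Fin n → Fin n → ℚ) (u v : Fin n → FQb) (i : Fin n) : FQb :=
  ∑ j, ∑ k, (a i j k : FQb) * (u j * v k)

@[simp] theorem uu_zero (i : Fin n) : uu e 0 i = 0 := sub_self _

theorem uu_add (h : FData p act n e a) (x y : W) (i : Fin n) :
    uu e (x + y) i = uu e x i + uu e y i + BB a (uu e x) (uu e y) i := by
  have h1 := h.comul i x y
  have h2 := h.comul i x 0
  have h3 := h.comul i 0 y
  have h4 := h.comul i 0 0
  rw [add_zero] at h2 h4
  rw [zero_add] at h3
  have h5 : BB a (uu e x) (uu e y) i = ∑ j, ∑ k, (a i j k : FQb) * (e j x * e k y) -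
      ∑ j, ∑ k, (a i j k : FQb) * (e j x * e k 0) - ∑ j, ∑ k, (a i j k : FQb) * (e j 0 * e k y) +
      ∑ j, ∑ k, (a i j k : FQb) * (e j 0 * e k 0) := by
    simp only [BB, uu, ← Finset.sum_sub_distrib, ← Finset.sum_add_distrib]
    refine Finset.sum_congr rfl fun j _ => Finset.sum_congr rfl fun k _ => ?_
    ring
  rw [h5, ← h1, ← h2, ← h3, ← h4]
  simp only [uu]
  ring

theorem nm_BB_le (h : FData p act n e a) {u v : Fin n → FQb} {c d : ℝ} (hc : 0 ≤ c) (hd : 0 ≤ d)
    (hu : ∀ i, nm p (u i) ≤ c) (hv : ∀ i, nm p (v i) ≤ d) (i : Fin n) :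
    nm p (BB a u v i) ≤ c * d := by
  refine nm_sum_le _ _ (mul_nonneg hc hd) fun j _ => nm_sum_le _ _ (mul_nonneg hc hd) fun k _ => ?_
  rw [nm_mul, nm_mul]
  calc nm p (a i j k : FQb) * (nm p (u j) * nm p (v k)) ≤ 1 * (c * d) :=
        mul_le_mul (h.nm_a i j k) (mul_le_mul (hu j) (hv k) (nm_nonneg _) hc)
          (mul_nonneg (nm_nonneg _) (nm_nonneg _)) zero_le_one
    _ = c * d := one_mul _

theorem BB_add_left (a : Fin n → Fin n → Fin n → ℚ) (u u' v : Fin n → FQb) (i : Fin n) :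
    BB a (u + u') v i = BB a u v i + BB a u' v i := by
  simp only [BB, ← Finset.sum_add_distrib, Pi.add_apply]
  refine Finset.sum_congr rfl fun j _ => Finset.sum_congr rfl fun k _ => ?_
  ring

theorem BB_smul_left (a : Fin n → Fin n → Fin n → ℚ) (c : FQb) (u v : Fin n → FQb) (i : Fin n) :
    BB a (c • u) v i = c * BB a u v i := by
  simp only [BB, Finset.mul_sum, Pi.smul_apply, smul_eq_mul]
  refine Finset.sum_congr rfl fun j _ => Finset.sum_congr rfl fun k _ => ?_
  ring

theorem BB_sum_left {ι : Type*} (a : Fin n → Fin n → Fin n → ℚ) (s : Finset ι) (f : ι → Fin n → FQb)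
    (v : Fin n → FQb) (i : Fin n) : BB a (∑ t ∈ s, f t) v i = ∑ t ∈ s, BB a (f t) v i := by
  classical
  induction s using Finset.induction_on with
  | empty => simp [BB]
  | insert b s hb ih => rw [Finset.sum_insert hb, Finset.sum_insert hb, BB_add_left, ih]

theorem nm_uu_le (h : FData p act n e a) (x : W) (i : Fin n) : nm p (uu e x i) ≤ 1 :=
  nm_sub_le_of (h.nm_le i x) (h.nm_le i 0)

theorem uu_act (h : FData p act n e a) (σ : FGQ) (x : W) (i : Fin n) :
    uu e (act σ x) i = σ (uu e x i) := by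
  rw [uu, uu, map_sub, h.equiv, h.fix_zero]

/-! ## the connected part -/

/-- membership in the connected part -/
def InW0 (p : ℕ) [Fact p.Prime] (e : Fin n → W → FQb) (x : W) : Prop := ∀ i, nm p (uu e x i) < 1

theorem InW0.zero : InW0 p e 0 := fun i => by rw [uu_zero, nm_zero]; exact zero_lt_one

theorem nm_BB_lt_left (h : FData p act n e a) {u v : Fin n → FQb}
    (hu : ∀ i, nm p (u i) < 1) (hv : ∀ i, nm p (v i) ≤ 1) (i : Fin n) :
    nm p (BB a u v i) < 1 := by
  refine nm_sum_lt _ _ zero_lt_one fun j _ => nm_sum_lt _ _ zero_lt_one fun k _ => ?_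
  rw [nm_mul, nm_mul]
  calc nm p (a i j k : FQb) * (nm p (u j) * nm p (v k)) ≤ 1 * (nm p (u j) * 1) :=
        mul_le_mul (h.nm_a i j k) (mul_le_mul_of_nonneg_left (hv k) (nm_nonneg _))
          (mul_nonneg (nm_nonneg _) (nm_nonneg _)) zero_le_one
    _ < 1 := by rw [one_mul, mul_one]; exact hu j

theorem nm_BB_lt_right (h : FData p act n e a) {u v : Fin n → FQb}
    (hu : ∀ i, nm p (u i) ≤ 1) (hv : ∀ i, nm p (v i) < 1) (i : Fin n) :
    nm p (BB a u v i) < 1 := by
  refine nm_sum_lt _ _ zero_lt_one fun j _ => nm_sum_lt _ _ zero_lt_one fun k _ => ?_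
  rw [nm_mul, nm_mul]
  calc nm p (a i j k : FQb) * (nm p (u j) * nm p (v k)) ≤ 1 * (1 * nm p (v k)) :=
        mul_le_mul (h.nm_a i j k) (mul_le_mul_of_nonneg_right (hu j) (nm_nonneg _))
          (mul_nonneg (nm_nonneg _) (nm_nonneg _)) zero_le_one
    _ < 1 := by rw [one_mul, one_mul]; exact hv k

theorem InW0.add (h : FData p act n e a) {x y : W} (hx : InW0 p e x) (hy : InW0 p e y) :
    InW0 p e (x + y) := by
  intro i
  rw [uu_add h]
  exact nm_add_lt_of (nm_add_lt_of (hx i) (hy i)) (nm_BB_lt_left h hx (nm_uu_le h y) i)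

theorem InW0.nsmul (h : FData p act n e a) {x : W} (hx : InW0 p e x) (k : ℕ) :
    InW0 p e (k • x) := by
  induction k with
  | zero => rw [zero_smul]; exact InW0.zero
  | succ k ih => rw [succ_nsmul]; exact ih.add h hx

theorem InW0.neg [Finite W] (h : FData p act n e a) {x : W} (hx : InW0 p e x) :
    InW0 p e (-x) := by
  have h1 : (Nat.card W - 1) • x = -x := by
    have h2 : (Nat.card W - 1) • x + x = 0 := by
      rw [← succ_nsmul, Nat.sub_add_cancel (Nat.card_pos), card_nsmul_eq_zero']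
    exact eq_neg_of_add_eq_zero_left h2
  rw [← h1]
  exact hx.nsmul h _

/-- the connected part -/
def W0 [Finite W] (h : FData p act n e a) : AddSubgroup W where
  carrier := {x | InW0 p e x}
  add_mem' hx hy := hx.add h hy
  zero_mem' := InW0.zero
  neg_mem' hx := hx.neg h

theorem mem_W0 [Finite W] {h : FData p act n e a} {x : W} : x ∈ W0 h ↔ ∀ i, nm p (uu e x i) < 1 :=
  Iff.rfl

theorem sub_mem_W0_iff [Finite W] {h : FData p act n e a} {x y : W} :
    x - y ∈ W0 h ↔ ∀ i, nm p (e i x - e i y) < 1 := by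
  constructor
  · intro hxy i
    have h1 := uu_add h y (x - y) i
    rw [add_sub_cancel] at h1
    have h2 : e i x - e i y = uu e (x - y) i + BB a (uu e y) (uu e (x - y)) i := by
      rw [uu, uu] at h1
      linear_combination h1
    rw [h2]
    exact nm_add_lt_of (hxy i) (nm_BB_lt_right h (nm_uu_le h y) hxy i)
  · intro hxy i
    have h1 := h.comul i x (-y)
    have h2 := h.comul i y (-y)
    rw [← sub_eq_add_neg] at h1 h2
    rw [sub_self] at h2
    rw [uu, h1, h2, ← Finset.sum_sub_distrib]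
    refine nm_sum_lt _ _ zero_lt_one fun j _ => ?_
    rw [← Finset.sum_sub_distrib]
    refine nm_sum_lt _ _ zero_lt_one fun k _ => ?_
    have h3 : (a i j k : FQb) * (e j x * e k (-y)) - (a i j k : FQb) * (e j y * e k (-y)) =
        (a i j k : FQb) * e k (-y) * (e j x - e j y) := by ring
    rw [h3, nm_mul]
    exact lt_of_le_of_lt (mul_le_of_le_one_left (nm_nonneg _)
      (nm_mul_le_one (h.nm_a i j k) (h.nm_le k _))) (hxy j)

theorem act_mem_W0_iff [Finite W] {h : FData p act n e a} {σ : FGQ} (hσ : σ ∈ Dp p) {x : W} :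
    act σ x ∈ W0 h ↔ x ∈ W0 h := by
  simp only [mem_W0, uu_act h, nm_dec hσ]

theorem act_sub_mem_W0 [Finite W] (h : FData p act n e a) {σ : FGQ} (hσ : σ ∈ Ip p) (x : W) :
    act σ x - x ∈ W0 h := by
  rw [sub_mem_W0_iff]
  intro i
  rw [h.equiv]
  exact nm_inertia hσ (h.nm_le i x)

/-! ## the size of a point -/

theorem exists_max [Nonempty (Fin n)] (e : Fin n → W → FQb) (x : W) :
    ∃ i, ∀ j, nm p (uu e x j) ≤ nm p (uu e x i) :=
  Finite.exists_max _

theorem FData_nonempty (h : FData p act n e a) : Nonempty (Fin n) := by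
  by_contra hn
  rw [not_nonempty_iff] at hn
  obtain ⟨c, hc⟩ := h.span (fun _ => 1)
  have h1 := congrFun hc (0 : W)
  rw [Finset.univ_eq_empty, Finset.sum_empty] at h1
  exact one_ne_zero h1

theorem eq_zero_of_uu (h : FData p act n e a) {x : W} (hx : ∀ i, uu e x i = 0) : x = 0 :=
  h.ext fun i => sub_eq_zero.mp (hx i)

/-! ## powers in the dual algebra -/

/-- `u ^ (k + 1)` -/
def pw (a : Fin n → Fin n → Fin n → ℚ) (u : Fin n → FQb) : ℕ → Fin n → FQb
  | 0 => u
  | k + 1 => BB a (pw a u k) u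

theorem nm_pw_le (h : FData p act n e a) {u : Fin n → FQb} {M : ℝ} (hM : 0 ≤ M)
    (hu : ∀ i, nm p (u i) ≤ M) (k : ℕ) (i : Fin n) : nm p (pw a u k i) ≤ M ^ (k + 1) := by
  induction k generalizing i with
  | zero => rw [zero_add, pow_one]; exact hu i
  | succ k ih =>
    rw [pw, pow_succ]
    exact nm_BB_le h (pow_nonneg hM _) hM ih hu i

theorem sum_choose_succ (w : ℕ → FQb) (k : ℕ) :
    ∑ j ∈ Finset.range (k + 1), (((k + 1).choose (j + 1) : ℕ) : FQb) * w j =
      ∑ j ∈ Finset.range k, ((k.choose (j + 1) : ℕ) : FQb) * w j + w 0 +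
        ∑ j ∈ Finset.range k, ((k.choose (j + 1) : ℕ) : FQb) * w (j + 1) := by
  have h1 : ∑ j ∈ Finset.range (k + 1), (((k + 1).choose (j + 1) : ℕ) : FQb) * w j =
      ∑ j ∈ Finset.range (k + 1), ((k.choose j : ℕ) : FQb) * w j +
        ∑ j ∈ Finset.range (k + 1), ((k.choose (j + 1) : ℕ) : FQb) * w j := by
    rw [← Finset.sum_add_distrib]
    refine Finset.sum_congr rfl fun j _ => ?_
    rw [Nat.choose_succ_succ]
    push_cast
    ring
  rw [h1, Finset.sum_range_succ' (fun j => ((k.choose j : ℕ) : FQb) * w j),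
    Finset.sum_range_succ (fun j => ((k.choose (j + 1) : ℕ) : FQb) * w j),
    Nat.choose_eq_zero_of_lt (Nat.lt_succ_self k), Nat.choose_zero_right]
  push_cast
  ring

theorem uu_nsmul (h : FData p act n e a) (x : W) (k : ℕ) (i : Fin n) :
    uu e (k • x) i =
      ∑ j ∈ Finset.range k, ((k.choose (j + 1) : ℕ) : FQb) * pw a (uu e x) j i := by
  have key : ∀ k : ℕ, uu e (k • x) =
      ∑ j ∈ Finset.range k, ((k.choose (j + 1) : ℕ) : FQb) • pw a (uu e x) j := by
    intro k
    induction k with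
    | zero =>
      rw [zero_smul, Finset.range_zero, Finset.sum_empty]
      funext i
      exact uu_zero i
    | succ k ih =>
      funext i
      rw [succ_nsmul, uu_add h, ih, BB_sum_left]
      have h1 : ∀ j, BB a (((k.choose (j + 1) : ℕ) : FQb) • pw a (uu e x) j) (uu e x) i =
          ((k.choose (j + 1) : ℕ) : FQb) * pw a (uu e x) (j + 1) i := fun j => by
        rw [BB_smul_left]; rfl
      simp only [h1, Finset.sum_apply, Pi.smul_apply, smul_eq_mul]
      exact (sum_choose_succ (fun j => pw a (uu e x) j i) k).symm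
  rw [key k]
  simp only [Finset.sum_apply, Pi.smul_apply, smul_eq_mul]

/-- leading term of a multiple -/
theorem nm_uu_nsmul_sub_le (h : FData p act n e a) {x : W} {M : ℝ} (hM : 0 ≤ M) (hM1 : M ≤ 1)
    (hx : ∀ i, nm p (uu e x i) ≤ M) (k : ℕ) (i : Fin n) :
    nm p (uu e (k • x) i - (k : FQb) * uu e x i) ≤ M ^ 2 := by
  rw [uu_nsmul h]
  cases k with
  | zero =>
    simp only [Finset.range_zero, Finset.sum_empty, Nat.cast_zero, zero_mul, sub_zero, nm_zero]
    exact pow_nonneg hM _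
  | succ k =>
    rw [Finset.sum_range_succ', zero_add, Nat.choose_one_right, pw, add_sub_cancel_right]
    refine nm_sum_le _ _ (pow_nonneg hM _) fun j _ => ?_
    rw [nm_mul]
    calc nm p (((k + 1).choose (j + 1 + 1) : ℕ) : FQb) * nm p (pw a (uu e x) (j + 1) i)
        ≤ 1 * M ^ (j + 1 + 1) := mul_le_mul (nm_natCast_le_one _) (nm_pw_le h hM hx _ _)
          (nm_nonneg _) zero_le_one
      _ ≤ M ^ 2 := by
        rw [one_mul]
        exact pow_le_pow_of_le_one hM hM1 (by omega)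

/-- additivity of leading terms -/
theorem nm_uu_add_sub_le (h : FData p act n e a) {x y : W} {M M' : ℝ} (hM : 0 ≤ M) (hM' : 0 ≤ M')
    (hx : ∀ i, nm p (uu e x i) ≤ M) (hy : ∀ i, nm p (uu e y i) ≤ M') (i : Fin n) :
    nm p (uu e (x + y) i - (uu e x i + uu e y i)) ≤ M * M' := by
  rw [uu_add h, add_sub_cancel_left]
  exact nm_BB_le h hM hM' hx hy i

theorem nm_choose_le {j : ℕ} (hj : 0 < j) (hjp : j < p) :
    nm p ((p.choose j : ℕ) : FQb) ≤ nm p (p : FQb) := by
  obtain ⟨c, hc⟩ := (Fact.out : p.Prime).dvd_choose_self hj.ne' hjp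
  rw [hc, Nat.cast_mul, nm_mul]
  exact mul_le_of_le_one_right (nm_nonneg _) (nm_natCast_le_one _)

/-- **lower bound for the size of a point of the connected part** -/
theorem le_size_pow (h : FData p act n e a) (hpW : ∀ x : W, p • x = 0) {x : W} (hx0 : x ≠ 0)
    {M : ℝ} (hM1 : M < 1) (hx : ∀ i, nm p (uu e x i) ≤ M) : nm p (p : FQb) ≤ M ^ (p - 1) := by
  have hp : p.Prime := Fact.out
  have hp2 := hp.two_le
  obtain ⟨j, hj⟩ : ∃ i, uu e x i ≠ 0 := by
    by_contra hcon
    push Not at hcon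
    exact hx0 (eq_zero_of_uu h hcon)
  have hne : Nonempty (Fin n) := ⟨j⟩
  obtain ⟨i, hi⟩ := exists_max e x (p := p)
  set N := nm p (uu e x i) with hN
  have hNpos : 0 < N := (nm_pos.mpr hj).trans_le (hi j)
  have hNM : N ≤ M := hx i
  have hN1 : N < 1 := hNM.trans_lt hM1
  have h0 : uu e (p • x) i = 0 := by rw [hpW, uu_zero]
  rw [uu_nsmul h] at h0
  obtain ⟨m, rfl⟩ : ∃ m, p = m + 2 := ⟨p - 2, by omega⟩
  rw [show m + 2 = (m + 1) + 1 from rfl, Finset.sum_range_succ, Finset.sum_range_succ',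
    Nat.choose_self, Nat.cast_one, one_mul, zero_add, Nat.choose_one_right, pw] at h0
  have h2 : nm (m + 2) (∑ k ∈ Finset.range m, (((m + 1 + 1).choose (k + 1 + 1) : ℕ) : FQb) *
      pw a (uu e x) (k + 1) i) ≤ nm (m + 2) ((m + 2 : ℕ) : FQb) * N ^ 2 := by
    refine nm_sum_le _ _ (mul_nonneg (nm_nonneg _) (pow_nonneg hNpos.le _)) fun k hk => ?_
    rw [nm_mul]
    have hk' := Finset.mem_range.mp hk
    refine mul_le_mul (nm_choose_le (by omega) (by omega)) ?_ (nm_nonneg _) (nm_nonneg _)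
    exact (nm_pw_le h hNpos.le hi _ _).trans (pow_le_pow_of_le_one hNpos.le hN1.le (by omega))
  have h3 : nm (m + 2) (pw a (uu e x) (m + 1) i) ≤ N ^ (m + 2) := nm_pw_le h hNpos.le hi _ _
  have hppos := nm_p_pos (m + 2)
  have h4 : nm (m + 2) (((m + 2 : ℕ) : FQb) * uu e x i) = nm (m + 2) ((m + 2 : ℕ) : FQb) * N :=
    nm_mul _ _
  have h5 : nm (m + 2) ((m + 2 : ℕ) : FQb) * N ≤ N ^ (m + 2) := by
    by_contra hcon
    push Not at hcon
    have h6 : ((m + 2 : ℕ) : FQb) * uu e x i =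
        -((∑ k ∈ Finset.range m, (((m + 1 + 1).choose (k + 1 + 1) : ℕ) : FQb) *
          pw a (uu e x) (k + 1) i) + pw a (uu e x) (m + 1) i) := by
      linear_combination h0
    have h7 : nm (m + 2) (((m + 2 : ℕ) : FQb) * uu e x i) <
        nm (m + 2) ((m + 2 : ℕ) : FQb) * N := by
      rw [h6, nm_neg]
      refine nm_add_lt_of (h2.trans_lt ?_) (h3.trans_lt hcon)
      have : N ^ 2 < N := by nlinarith
      exact mul_lt_mul_of_pos_left this hppos
    rw [h4] at h7
    exact lt_irrefl _ h7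
  have h8 : nm (m + 2) ((m + 2 : ℕ) : FQb) ≤ N ^ (m + 1) := by
    rw [pow_succ] at h5
    exact le_of_mul_le_mul_right h5 hNpos
  exact h8.trans (pow_le_pow_left₀ hNpos.le hNM _)

end Fermat.Agent.H29
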