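import Fermat.Agent.H64FTame

/-!
# S56-[B4] : the `p`-th power map near one, `p`-th roots of unity
-/

set_option autoImplicit false

noncomputable section

namespace Fermat.Agent.H64

section Poly

open Polynomial

/-- `(1 + X)^p = 1 + X^p + p X + p X² S` -/
theorem exists_one_add_X_pow (p : ℕ) (hp : p.Prime) : ∃ S : ℤ[X],
    (1 + X : ℤ[X]) ^ p = 1 + X ^ p + (p : ℤ[X]) * X + (p : ℤ[X]) * X ^ 2 * S := by
  obtain ⟨m, rfl⟩ : ∃ m, p = m + 2 := ⟨p - 2, by have := hp.two_le; omega⟩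
  refine ⟨∑ k ∈ Finset.range m, X ^ k * (((m + 2).choose (k + 2) / (m + 2) : ℕ) : ℤ[X]), ?_⟩
  rw [add_comm (1 : ℤ[X]) X, add_pow, Finset.sum_range_succ, Finset.sum_range_succ',
    Finset.sum_range_succ']
  have h1 : ∀ k ∈ Finset.range m, (X : ℤ[X]) ^ (k + 1 + 1) * 1 ^ (m + 2 - (k + 1 + 1)) *
      (((m + 2).choose (k + 1 + 1) : ℕ) : ℤ[X]) =
      ((m + 2 : ℕ) : ℤ[X]) * X ^ 2 * (X ^ k * (((m + 2).choose (k + 2) / (m + 2) : ℕ) : ℤ[X])) := by
    intro k hk
    rw [Finset.mem_range] at hk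
    have h2 : (m + 2) ∣ (m + 2).choose (k + 2) :=
      hp.dvd_choose_self (by omega) (by omega)
    obtain ⟨c, hc⟩ := h2
    rw [show k + 1 + 1 = k + 2 from rfl, hc, Nat.mul_div_cancel_left _ (by omega : 0 < m + 2)]
    push_cast
    ring
  rw [Finset.sum_congr rfl h1, ← Finset.mul_sum]
  simp
  ring

end Poly

variable {p : ℕ} [Fact p.Prime]

/-- precise form of the `p`-th power of `1 + y` -/
theorem exists_one_add_pow {y : FQb} (hy : nm p y ≤ 1) :
    ∃ s, nm p s ≤ 1 ∧ (1 + y) ^ p = 1 + y ^ p + p * y * (1 + y * s) := by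
  obtain ⟨S, hS⟩ := exists_one_add_X_pow p Fact.out
  refine ⟨Polynomial.aeval y S, ?_, ?_⟩
  · rw [Polynomial.aeval_eq_sum_range]
    refine nm_sum_le _ _ zero_le_one fun i _ => ?_
    rw [zsmul_eq_mul]
    apply nm_mul_le_one (nm_intCast_le_one _)
    rw [nm_pow]
    exact pow_le_one₀ (nm_nonneg _) hy
  · have h1 := congrArg (Polynomial.aeval y) hS
    simp only [map_add, map_mul, map_pow, map_one, Polynomial.aeval_X, map_natCast] at h1
    rw [h1]
    ring

/-- the `p`-th power map near `1` -/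
theorem nm_one_add_pow_sub_one {y : FQb} (hy : nm p y ^ (p - 1) < nm p (p : FQb)) :
    nm p ((1 + y) ^ p - 1) = nm p (p : FQb) * nm p y := by
  have hp := (Fact.out : p.Prime)
  have hp1 : 0 < p - 1 := by have := hp.two_le; omega
  by_cases hy0 : y = 0
  · subst hy0; simp
  have hypos : 0 < nm p y := nm_pos.mpr hy0
  have hylt : nm p y < 1 := by
    by_contra hcon
    rw [not_lt] at hcon
    exact absurd (hy.trans (nm_p_lt_one p)) (not_lt.mpr (one_le_pow₀ hcon))
  obtain ⟨s, hs, h1⟩ := exists_one_add_pow hylt.le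
  have hu : nm p (1 + y * s) = 1 := by
    rw [← nm_one (p := p)]
    apply nm_eq_of_sub_lt
    rw [add_sub_cancel_left, nm_mul, nm_one]
    exact mul_lt_one_of_nonneg_of_lt_one_left (nm_nonneg _) hylt hs
  have h2 : nm p ((p : FQb) * y * (1 + y * s)) = nm p (p : FQb) * nm p y := by
    rw [nm_mul, nm_mul, hu, mul_one]
  rw [← h2]
  apply nm_eq_of_sub_lt
  rw [h2, h1]
  have e1 : 1 + y ^ p + (p : FQb) * y * (1 + y * s) - 1 - (p : FQb) * y * (1 + y * s) = y ^ p := by
    ring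
  rw [e1, nm_pow]
  calc nm p y ^ p = nm p y ^ (p - 1) * nm p y := by
        rw [← pow_succ, Nat.sub_add_cancel hp.one_lt.le]
    _ < nm p (p : FQb) * nm p y := mul_lt_mul_of_pos_right hy hypos

theorem nm_zeta_sub_one_lt {ζ : FQb} (hζ : ζ ^ p = 1) : nm p (ζ - 1) < 1 := by
  have hζ1 : nm p ζ = 1 := by
    have := congrArg (nm p) hζ
    rw [nm_pow, nm_one] at this
    exact (pow_eq_one_iff_of_nonneg (nm_nonneg _) (Fact.out : p.Prime).ne_zero).mp this
  have h2 : nm p (ζ - 1) ≤ 1 := nm_sub_le_of hζ1.le (by simp)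
  have h1 := nm_add_pow_p_sub_le (p := p) (a := 1) (b := ζ - 1) (by simp) h2
  rw [add_sub_cancel, hζ, one_pow, sub_self, zero_sub, nm_neg, nm_pow] at h1
  have h3 : nm p (ζ - 1) ^ p < 1 := by
    refine (h1.trans ?_).trans_lt (nm_p_lt_one p)
    apply mul_le_of_le_one_right (nm_nonneg _)
    rw [nm_one, one_mul]
    exact h2
  by_contra hcon
  rw [not_lt] at hcon
  exact absurd h3 (not_lt.mpr (one_le_pow₀ hcon))

/-- distance between distinct `p`-th roots of unity -/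
theorem nm_zeta_sub_one {ζ : FQb} (hζ : ζ ^ p = 1) (hne : ζ ≠ 1) :
    nm p (ζ - 1) ^ (p - 1) = nm p (p : FQb) := by
  have hp := (Fact.out : p.Prime)
  have hlt := nm_zeta_sub_one_lt hζ
  set y := ζ - 1 with hy
  have hy0 : y ≠ 0 := sub_ne_zero.mpr hne
  have hypos : 0 < nm p y := nm_pos.mpr hy0
  obtain ⟨s, hs, h1⟩ := exists_one_add_pow hlt.le
  rw [hy, add_sub_cancel, hζ, ← hy] at h1
  have hu : nm p (1 + y * s) = 1 := by
    rw [← nm_one (p := p)]
    apply nm_eq_of_sub_lt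
    rw [add_sub_cancel_left, nm_mul, nm_one]
    exact mul_lt_one_of_nonneg_of_lt_one_left (nm_nonneg _) hlt hs
  have h2 : y ^ p = -((p : FQb) * y * (1 + y * s)) := by
    linear_combination -h1
  have h3 := congrArg (nm p) h2
  rw [nm_pow, nm_neg, nm_mul, nm_mul, hu, mul_one] at h3
  have h4 : nm p y ^ (p - 1) * nm p y = nm p (p : FQb) * nm p y := by
    rw [← pow_succ, Nat.sub_add_cancel hp.one_lt.le, h3]
  exact mul_right_cancel₀ hypos.ne' h4

theorem zeta_eq_one_of_lt {ζ : FQb} (hζ : ζ ^ p = 1)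
    (h : nm p (ζ - 1) ^ (p - 1) < nm p (p : FQb)) : ζ = 1 := by
  by_contra hne
  rw [nm_zeta_sub_one hζ hne] at h
  exact lt_irrefl _ h

/-- existence of a `p`-th root near one -/
theorem exists_root_near_one' {κ : FQb}
    (hκ : nm p (κ - 1) ^ (p - 1) < nm p (p : FQb) ^ p) :
    ∃ α, α ^ p = κ ∧ nm p (α - 1) ^ (p - 1) < nm p (p : FQb) ∧
      nm p (κ - 1) = nm p (p : FQb) * nm p (α - 1) := by
  classical
  have hp := (Fact.out : p.Prime)
  have : NeZero p := ⟨hp.ne_zero⟩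
  obtain ⟨β, hβ⟩ := IsAlgClosed.exists_pow_nat_eq κ hp.pos
  obtain ⟨ζ, hζ⟩ := HasEnoughRootsOfUnity.exists_primitiveRoot FQb p
  have hprod := hζ.pow_sub_pow_eq_prod_sub_mul 1 β hp.pos
  rw [one_pow, hβ] at hprod
  have hne : (Polynomial.nthRootsFinset p (1 : FQb)).Nonempty :=
    ⟨1, by rw [Polynomial.mem_nthRootsFinset hp.pos, one_pow]⟩
  obtain ⟨ξ, hξ, hmin⟩ := Finset.exists_min_image (Polynomial.nthRootsFinset p (1 : FQb))
    (fun ξ => nm p (1 - ξ * β)) hne
  have hξp : ξ ^ p = 1 := (Polynomial.mem_nthRootsFinset hp.pos (1 : FQb)).mp hξ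
  have hα : (ξ * β) ^ p = κ := by rw [mul_pow, hξp, one_mul, hβ]
  have hsmall : nm p (ξ * β - 1) ^ (p - 1) < nm p (p : FQb) := by
    by_contra hcon
    rw [not_lt] at hcon
    have h1 : nm p (ξ * β - 1) ^ p ≤ nm p (κ - 1) := by
      rw [nm_sub_comm κ 1, hprod]
      have h2 : nm p (∏ ζ ∈ Polynomial.nthRootsFinset p (1 : FQb), (1 - ζ * β)) =
          ∏ ζ ∈ Polynomial.nthRootsFinset p (1 : FQb), nm p (1 - ζ * β) := by
        unfold nm
        rw [map_prod, norm_prod]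
      rw [h2, nm_sub_comm]
      have h3 : nm p (1 - ξ * β) ^ (Polynomial.nthRootsFinset p (1 : FQb)).card ≤
          ∏ ζ ∈ Polynomial.nthRootsFinset p (1 : FQb), nm p (1 - ζ * β) := by
        rw [← Finset.prod_const]
        exact Finset.prod_le_prod (fun _ _ => nm_nonneg _) hmin
      rwa [hζ.card_nthRootsFinset] at h3
    have h4 : nm p (p : FQb) ^ p ≤ nm p (κ - 1) ^ (p - 1) := by
      calc nm p (p : FQb) ^ p ≤ (nm p (ξ * β - 1) ^ (p - 1)) ^ p :=
            pow_le_pow_left₀ (nm_nonneg _) hcon p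
        _ = (nm p (ξ * β - 1) ^ p) ^ (p - 1) := by rw [← pow_mul, ← pow_mul, mul_comm (p - 1) p]
        _ ≤ nm p (κ - 1) ^ (p - 1) :=
            pow_le_pow_left₀ (pow_nonneg (nm_nonneg _) _) h1 _
    exact absurd hκ (not_lt.mpr h4)
  refine ⟨ξ * β, hα, hsmall, ?_⟩
  have h5 := nm_one_add_pow_sub_one hsmall
  rw [add_sub_cancel, hα] at h5
  exact h5

/-- uniqueness of the `p`-th root near one -/
theorem root_near_one_unique {α α' : FQb} (h : α ^ p = α' ^ p)
    (hα : nm p (α - 1) ^ (p - 1) < nm p (p : FQb))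
    (hα' : nm p (α' - 1) ^ (p - 1) < nm p (p : FQb)) : α = α' := by
  have hp := (Fact.out : p.Prime)
  have hlt1 : ∀ {z : FQb}, nm p (z - 1) ^ (p - 1) < nm p (p : FQb) → nm p (z - 1) < 1 := by
    intro z hz
    by_contra hcon
    rw [not_lt] at hcon
    exact absurd (hz.trans (nm_p_lt_one p)) (not_lt.mpr (one_le_pow₀ hcon))
  have hn : ∀ {z : FQb}, nm p (z - 1) ^ (p - 1) < nm p (p : FQb) → nm p z = 1 := by
    intro z hz
    rw [← nm_one (p := p)]
    apply nm_eq_of_sub_lt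
    rw [nm_one]
    exact hlt1 hz
  have hα'0 : α' ≠ 0 := by
    intro h0
    have := hn hα'
    rw [h0, nm_zero] at this
    exact zero_ne_one this
  have h1 : (α / α') ^ p = 1 := by
    rw [div_pow, h, div_self (pow_ne_zero _ hα'0)]
  have h2 : α / α' = 1 := by
    apply zeta_eq_one_of_lt h1
    have h3 : nm p (α / α' - 1) = nm p (α - α') := by
      rw [div_sub_one hα'0, nm_div, hn hα', div_one]
    have h4 : nm p (α - α') ≤ max (nm p (α - 1)) (nm p (α' - 1)) := by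
      have e1 : α - α' = (α - 1) - (α' - 1) := by ring
      rw [e1]
      exact nm_sub_le _ _
    rw [h3]
    rcases le_max_iff.mp h4 with h5 | h5
    · exact (pow_le_pow_left₀ (nm_nonneg _) h5 _).trans_lt hα
    · exact (pow_le_pow_left₀ (nm_nonneg _) h5 _).trans_lt hα'
  rwa [div_eq_one_iff_eq hα'0] at h2

/-- the root near one is fixed by any subgroup of `Dp` fixing `κ` -/
theorem root_near_one_fixed {α : FQb} (hα : nm p (α - 1) ^ (p - 1) < nm p (p : FQb))
    {σ : FGQ} (hσ : σ ∈ Dp p) (h : σ (α ^ p) = α ^ p) : σ α = α := by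
  apply root_near_one_unique _ _ hα
  · rw [← map_pow, h]
  · have : σ α - 1 = σ (α - 1) := by rw [map_sub, map_one]
    rw [this, nm_dec hσ]
    exact hα

end Fermat.Agent.H64
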