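import Fermat.Agent.H29FK1
import Fermat.Agent.H64FRoot

/-!
# S56-[B4], K1 : inertia characters of the connected part
-/

set_option autoImplicit false

noncomputable section

namespace Fermat.Agent.H29

open Fermat.Agent.H64

variable {p : ℕ} [Fact p.Prime] {W : Type*} [AddCommGroup W] {act : FGQ → W → W} {n : ℕ}
  {e : Fin n → W → FQb} {a : Fin n → Fin n → Fin n → ℚ}

theorem nm_prod {ι : Type*} (s : Finset ι) (f : ι → FQb) :
    nm p (∏ i ∈ s, f i) = ∏ i ∈ s, nm p (f i) := by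
  classical
  induction s using Finset.induction_on with
  | empty => simp
  | insert b s hb ih => rw [Finset.prod_insert hb, Finset.prod_insert hb, nm_mul, ih]

theorem nsmul_eq_of_cast {W : Type*} [AddCommGroup W] (hpW : ∀ x : W, p • x = 0) {k l : ℕ}
    (hkl : (k : ZMod p) = (l : ZMod p)) (x : W) : k • x = l • x := by
  have h1 : ∀ m : ℕ, m • x = (m % p) • x := by
    intro m
    conv_lhs => rw [← Nat.mod_add_div m p]
    rw [add_smul, mul_comm, mul_smul, hpW, smul_zero, add_zero]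
  have h2 : k % p = l % p := (ZMod.natCast_eq_natCast_iff k l p).mp hkl
  rw [h1 k, h1 l, h2]

theorem act_nsmul (h : FData p act n e a) (σ : FGQ) (k : ℕ) (x : W) :
    act σ (k • x) = k • act σ x := by
  induction k with
  | zero => rw [zero_smul, zero_smul, h.act_zero]
  | succ k ih => rw [succ_nsmul, succ_nsmul, h.act_add, ih]

theorem act_ne_zero (h : FData p act n e a) (σ : FGQ) {x : W} (hx : x ≠ 0) : act σ x ≠ 0 := by
  intro h0
  apply hx
  apply eq_zero_of_uu h
  intro i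
  have h1 := uu_act h σ x i
  rw [h0, uu_zero] at h1
  exact (map_eq_zero σ).mp h1.symm

/-- the size of a multiple prime to `p` -/
theorem nm_uu_nsmul_eq (h : FData p act n e a) {x : W} {i : Fin n}
    (hi : ∀ j, nm p (uu e x j) ≤ nm p (uu e x i)) (hpos : 0 < nm p (uu e x i))
    (hlt : nm p (uu e x i) < 1) {k : ℕ} (hk : ¬ p ∣ k) :
    nm p (uu e (k • x) i) = nm p (uu e x i) := by
  have h1 := nm_uu_nsmul_sub_le h hpos.le hlt.le hi k i
  have hk1 : nm p (k : FQb) = 1 := nm_natCast_eq_one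
    ((Nat.Prime.coprime_iff_not_dvd Fact.out).mpr hk).symm
  have h2 : nm p ((k : FQb) * uu e x i) = nm p (uu e x i) := by rw [nm_mul, hk1, one_mul]
  rw [← h2]
  apply nm_eq_of_sub_lt
  rw [h2]
  refine h1.trans_lt ?_
  nlinarith

theorem nm_one_add_pow_sub_le {z : FQb} (hz : nm p z ≤ 1) (k : ℕ) :
    nm p ((1 + z) ^ k - 1 - k * z) ≤ nm p z ^ 2 := by
  induction k with
  | zero => simp [nm_nonneg]
  | succ k ih =>
    have h1 : (1 + z) ^ (k + 1) - 1 - ((k + 1 : ℕ) : FQb) * z =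
        ((1 + z) ^ k - 1 - k * z) * (1 + z) + k * z ^ 2 := by
      push_cast
      ring
    rw [h1]
    refine nm_add_le_of ?_ ?_
    · rw [nm_mul]
      exact (mul_le_of_le_one_right (nm_nonneg _) (nm_add_le_of (by simp) hz)).trans ih
    · rw [nm_mul, nm_pow]
      exact mul_le_of_le_one_left (pow_nonneg (nm_nonneg _) _) (nm_natCast_le_one _)

/-- a `ℕ`-valued character of inertia on a point of the connected part -/
theorem size_and_char (h : FData p act n e a) (hpW : ∀ x : W, p • x = 0) {x : W} (hx0 : x ≠ 0)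
    (hx : InW0 p e x) (c : FGQ → ℕ) (hc : ∀ σ ∈ Ip p, act σ x = c σ • x) :
    (∃ i, (∀ j, nm p (uu e x j) ≤ nm p (uu e x i)) ∧
      nm p (uu e x i) ^ (p - 1) = nm p (p : FQb)) ∧
    ∀ σ ∈ Ip p, ∀ ζ : FQb, ζ ^ p = 1 → σ ζ = ζ ^ c σ := by
  classical
  have hp : p.Prime := Fact.out
  have hp2 := hp.two_le
  obtain ⟨j₀, hj₀⟩ : ∃ i, uu e x i ≠ 0 := by
    by_contra hcon
    push Not at hcon
    exact hx0 (eq_zero_of_uu h hcon)
  have hne : Nonempty (Fin n) := ⟨j₀⟩
  obtain ⟨i, hi⟩ := exists_max e x (p := p)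
  have hpos : 0 < nm p (uu e x i) := (nm_pos.mpr hj₀).trans_le (hi j₀)
  have hlt : nm p (uu e x i) < 1 := hx i
  have hcp : ∀ σ ∈ Ip p, ¬ p ∣ c σ := by
    intro σ hσ hdvd
    obtain ⟨m, hm⟩ := hdvd
    have h1 := hc σ hσ
    rw [hm, mul_smul, hpW] at h1
    exact act_ne_zero h σ hx0 h1
  have hlow := le_size_pow h hpW hx0 hlt hi
  -- the product over the multiples
  let y : (ZMod p)ˣ → FQb := fun j => uu e ((j : ZMod p).val • x) i
  have hval : ∀ j : (ZMod p)ˣ, ¬ p ∣ (j : ZMod p).val := by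
    intro j hd
    have h1 : ((j : ZMod p).val : ZMod p) = 0 := (ZMod.natCast_eq_zero_iff _ _).mpr hd
    rw [ZMod.natCast_zmod_val] at h1
    exact j.ne_zero h1
  have hy : ∀ j, nm p (y j) = nm p (uu e x i) := fun j => nm_uu_nsmul_eq h hi hpos hlt (hval j)
  have hσy : ∀ σ ∈ Ip p, ∀ u : (ZMod p)ˣ, (u : ZMod p) = (c σ : ZMod p) → ∀ j,
      σ (y j) = y (j * u) := by
    intro σ hσ u hu j
    show σ (uu e ((j : ZMod p).val • x) i) = uu e (((j * u : (ZMod p)ˣ) : ZMod p).val • x) i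
    rw [← uu_act h, act_nsmul h, hc σ hσ, ← mul_smul]
    congr 1
    apply nsmul_eq_of_cast hpW
    rw [Nat.cast_mul, ZMod.natCast_zmod_val, ZMod.natCast_zmod_val, Units.val_mul, hu]
  have hfix : FixI p (∏ j, y j) := by
    intro σ hσ
    have hcσ : (c σ : ZMod p) ≠ 0 := fun h0 => hcp σ hσ ((ZMod.natCast_eq_zero_iff _ _).mp h0)
    rw [map_prod]
    rw [Finset.prod_congr rfl fun j _ => hσy σ hσ (Units.mk0 _ hcσ) rfl j]
    exact Fintype.prod_equiv (Equiv.mulRight _) _ _ fun j => rfl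
  have hnmP : nm p (∏ j, y j) = nm p (uu e x i) ^ (p - 1) := by
    rw [nm_prod, Finset.prod_congr rfl fun j _ => hy j, Finset.prod_const, Finset.card_univ,
      ZMod.card_units p]
  have hP0 : ∏ j, y j ≠ 0 := by
    rw [← nm_pos (p := p), hnmP]
    exact pow_pos hpos _
  have hsize : nm p (uu e x i) ^ (p - 1) = nm p (p : FQb) := by
    obtain ⟨k, hk⟩ := hfix.exists_zpow hP0
    rw [hnmP] at hk
    have h1 : nm p (uu e x i) ^ (p - 1) < 1 := pow_lt_one₀ hpos.le hlt (by omega)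
    rw [hk] at h1 hlow
    have hkpos : 0 < k := by
      by_contra hcon
      rw [not_lt] at hcon
      exact absurd h1 (not_lt.mpr (one_le_zpow_of_nonpos₀ (nm_p_pos p) (nm_p_lt_one p).le hcon))
    have hk1 : k ≤ 1 := by
      by_contra hcon
      rw [not_le] at hcon
      have h2 : nm p (p : FQb) ^ k < nm p (p : FQb) ^ (1 : ℤ) :=
        zpow_lt_zpow_right_of_lt_one₀ (nm_p_pos p) (nm_p_lt_one p) hcon
      rw [zpow_one] at h2
      exact absurd hlow (not_le.mpr h2)
    obtain rfl : k = 1 := by omega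
    rw [hk, zpow_one]
  refine ⟨⟨i, hi, hsize⟩, ?_⟩
  intro σ hσ ζ hζ
  by_cases hζ1 : ζ = 1
  · rw [hζ1, map_one, one_pow]
  -- compare with `ζ - 1`
  set z := ζ - 1 with hz
  have hzsize : nm p z ^ (p - 1) = nm p (p : FQb) := nm_zeta_sub_one hζ hζ1
  have hznm : nm p z = nm p (uu e x i) :=
    (pow_left_inj₀ (nm_nonneg _) hpos.le (by omega : p - 1 ≠ 0)).mp (hzsize.trans hsize.symm)
  have hz0 : z ≠ 0 := sub_ne_zero.mpr hζ1
  have hprim : IsPrimitiveRoot ζ p := by
    have h1 : orderOf ζ = p := orderOf_eq_prime hζ hζ1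
    have h2 := IsPrimitiveRoot.orderOf ζ
    rwa [h1] at h2
  have hσζ : (σ ζ) ^ p = 1 := by rw [← map_pow, hζ, map_one]
  obtain ⟨k, -, hk⟩ := hprim.eq_pow_of_pow_eq_one hσζ
  set w := uu e x i with hw
  have hz1 : nm p z ≤ 1 := hznm.le.trans hlt.le
  have hw0 : w ≠ 0 := nm_pos.mp hpos
  have e1 : nm p (σ w - c σ * w) ≤ nm p w ^ 2 := by
    rw [hw, ← uu_act h, hc σ hσ]
    exact nm_uu_nsmul_sub_le h hpos.le hlt.le hi _ i
  have e2 : nm p (σ z - k * z) ≤ nm p w ^ 2 := by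
    have h1 : σ z = (1 + z) ^ k - 1 := by
      rw [hz, map_sub, map_one, ← hk]
      ring
    rw [h1, ← hznm]
    exact nm_one_add_pow_sub_le hz1 k
  have hwz : nm p (w / z) = 1 := by rw [nm_div, hznm, div_self hpos.ne']
  have e3 : nm p (σ (w / z) - w / z) < 1 := nm_inertia hσ hwz.le
  have hσz : σ z ≠ 0 := (map_ne_zero σ).mpr hz0
  have e4 : nm p (σ w * z - w * σ z) < nm p w ^ 2 := by
    have h1 : σ w * z - w * σ z = (σ (w / z) - w / z) * (σ z * z) := by
      rw [map_div₀]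
      field_simp
    rw [h1, nm_mul, nm_mul, nm_dec (Ip_le_Dp hσ), hznm, ← pow_two]
    exact mul_lt_of_lt_one_left (pow_pos hpos 2) e3
  have e5 : nm p (((c σ : FQb) - k) * (w * z)) < nm p w ^ 2 := by
    have h1 : ((c σ : FQb) - k) * (w * z) = (σ w * z - w * σ z) - (σ w - c σ * w) * z +
        w * (σ z - k * z) := by ring
    have hcube : nm p w ^ 2 * nm p w < nm p w ^ 2 :=
      mul_lt_of_lt_one_right (pow_pos hpos 2) hlt
    rw [h1]
    refine nm_add_lt_of (nm_sub_lt_of e4 ?_) ?_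
    · rw [nm_mul, hznm]
      exact (mul_le_mul_of_nonneg_right e1 hpos.le).trans_lt hcube
    · rw [nm_mul]
      refine (mul_le_mul_of_nonneg_left e2 hpos.le).trans_lt ?_
      rw [mul_comm]
      exact hcube
  have e6 : nm p ((c σ : FQb) - k) < 1 := by
    rw [nm_mul, nm_mul, hznm, ← pow_two] at e5
    by_contra hcon
    rw [not_lt] at hcon
    exact absurd e5 (not_lt.mpr (le_mul_of_one_le_left (pow_nonneg hpos.le 2) hcon))
  have e7 : (c σ : Kap p) = (k : Kap p) := by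
    rw [← rs_natCast, ← rs_natCast]
    exact (rs_eq_iff (nm_natCast_le_one _) (nm_natCast_le_one _)).mpr e6
  have e8 : c σ ≡ k [MOD p] := (CharP.natCast_eq_natCast (Kap p) p).mp e7
  rw [← hk]
  conv_lhs => rw [← Nat.mod_add_div k p, pow_add, pow_mul, hζ, one_pow, mul_one]
  conv_rhs => rw [← Nat.mod_add_div (c σ) p, pow_add, pow_mul, hζ, one_pow, mul_one]
  rw [show k % p = c σ % p from e8.symm]

/-- no invariants in the connected part -/
theorem eq_zero_of_fixed (h : FData p act n e a) (hp2 : p ≠ 2) (hpW : ∀ x : W, p • x = 0) {x : W}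
    (hx : InW0 p e x) (hfix : ∀ σ ∈ Ip p, act σ x = x) : x = 0 := by
  by_contra hx0
  have hp : p.Prime := Fact.out
  have hp3 : 2 < p := lt_of_le_of_ne hp.two_le (Ne.symm hp2)
  have hle : ∀ i, nm p (uu e x i) ≤ nm p (p : FQb) := by
    intro i
    apply FixI.nm_le_p_of_lt _ (hx i)
    intro σ hσ
    rw [← uu_act h, hfix σ hσ]
  have h1 := le_size_pow h hpW hx0 (nm_p_lt_one p) hle
  have h2 : nm p (p : FQb) ^ (p - 1) < nm p (p : FQb) ^ 1 :=
    pow_lt_pow_right_of_lt_one₀ (nm_p_pos p) (nm_p_lt_one p) (by omega)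
  rw [pow_one] at h2
  exact absurd h1 (not_le.mpr h2)

end Fermat.Agent.H29
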