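import Fermat.Agent.H29FK1b
import Fermat.Agent.H64FK2

/-!
# S56-[B4], K1 : uniqueness of the connected part

If `T` is an inertia stable subgroup, and `x` is a point of the connected part on which inertia
acts trivially modulo `T`, then `x ∈ T`.
-/

set_option autoImplicit false

noncomputable section

namespace Fermat.Agent.H29

open Fermat.Agent.H64

variable {p : ℕ} [Fact p.Prime]

/-! ## the ring of inertia invariant integers -/

instance isPID_OG : IsPrincipalIdealRing (OG p (Ip p)) := by
  classical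
  constructor
  intro I
  by_cases hI : I = ⊥
  · exact ⟨⟨0, by rw [hI, Submodule.span_zero_singleton]⟩⟩
  have hex : ∃ k : ℕ, ∃ x ∈ I, nm p (x : FQb) = nm p (p : FQb) ^ k := by
    obtain ⟨x, hxI, hx0⟩ := Submodule.exists_mem_ne_zero_of_ne_bot hI
    have hx0' : (x : FQb) ≠ 0 := fun h => hx0 (Subtype.ext h)
    obtain ⟨k, hk⟩ := FixI.exists_zpow (p := p) (x := (x : FQb)) x.2.1 hx0'
    have hk0 : 0 ≤ k := by
      by_contra hcon
      rw [not_le] at hcon
      have h1 : 1 < nm p (p : FQb) ^ k := one_lt_zpow_of_neg₀ (nm_p_pos p) (nm_p_lt_one p) hcon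
      rw [← hk] at h1
      exact absurd x.2.2 (not_le.mpr h1)
    obtain ⟨m, rfl⟩ := Int.eq_ofNat_of_zero_le hk0
    exact ⟨m, x, hxI, by rw [hk, zpow_natCast]⟩
  obtain ⟨x, hxI, hx⟩ := Nat.find_spec hex
  have hx0 : (x : FQb) ≠ 0 := by
    rw [← nm_pos (p := p), hx]
    exact pow_pos (nm_p_pos p) _
  refine ⟨⟨x, ?_⟩⟩
  apply le_antisymm
  · intro y hy
    rw [Submodule.mem_span_singleton]
    by_cases hy0 : y = 0
    · exact ⟨0, by rw [hy0, zero_smul]⟩
    have hy0' : (y : FQb) ≠ 0 := fun h => hy0 (Subtype.ext h)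
    obtain ⟨k, hk⟩ := FixI.exists_zpow (p := p) (x := (y : FQb)) y.2.1 hy0'
    have hle : nm p (y : FQb) ≤ nm p (x : FQb) := by
      by_contra hcon
      rw [not_le, hk, hx] at hcon
      have hk0 : 0 ≤ k := by
        by_contra hcon'
        rw [not_le] at hcon'
        have h1 : 1 < nm p (p : FQb) ^ k := one_lt_zpow_of_neg₀ (nm_p_pos p) (nm_p_lt_one p) hcon'
        rw [← hk] at h1
        exact absurd y.2.2 (not_le.mpr h1)
      obtain ⟨m, rfl⟩ := Int.eq_ofNat_of_zero_le hk0
      rw [zpow_natCast] at hcon hk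
      have hlt : m < Nat.find hex := by
        by_contra hge
        rw [not_lt] at hge
        exact absurd hcon (not_lt.mpr
          (pow_le_pow_of_le_one (nm_p_pos p).le (nm_p_lt_one p).le hge))
      exact Nat.find_min hex hlt ⟨y, hy, hk⟩
    refine ⟨⟨(y : FQb) / x, ?_, ?_⟩, ?_⟩
    · intro σ hσ
      rw [map_div₀, x.2.1 σ hσ, y.2.1 σ hσ]
    · rw [nm_div]
      exact div_le_one_of_le₀ hle (nm_nonneg _)
    · apply Subtype.ext
      show (y : FQb) / x * x = y
      rw [div_mul_cancel₀ _ hx0]
  · rw [Submodule.span_singleton_le_iff_mem]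
    exact hxI

variable {W : Type*} [AddCommGroup W] {act : FGQ → W → W} {n : ℕ}
  {e : Fin n → W → FQb} {a : Fin n → Fin n → Fin n → ℚ}

/-! ## the pairing of coefficient vectors of functions and of distributions -/

/-- coefficient vectors of `T`-invariant functions -/
def InvF (e : Fin n → W → FQb) (T : AddSubgroup W) (F : Fin n → FQb) : Prop :=
  ∀ z, ∀ t ∈ T, ∑ i, F i * e i (z + t) = ∑ i, F i * e i z

/-- distributions killing the `T`-invariant functions -/
def KK (e : Fin n → W → FQb) (T : AddSubgroup W) (v : Fin n → FQb) : Prop :=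
  ∀ F : Fin n → FQb, InvF e T F → ∑ i, F i * v i = 0

theorem exists_combination [Finite W] (h : FData p act n e a) (w : Fin n → FQb) :
    ∃ α : W → FQb, ∀ k, w k = ∑ᶠ y, α y * e k y := by
  classical
  have := Fintype.ofFinite W
  choose d hd using fun y : W => h.span (Pi.single y 1)
  refine ⟨fun y => ∑ l, d y l * w l, fun k => ?_⟩
  rw [finsum_eq_sum_of_fintype]
  have h1 : (fun l => ∑ y, e k y * d y l) = fun l => if l = k then 1 else 0 := by
    apply h.coeff_eq
    intro z
    have h2 : ∀ y, ∑ l, d y l * e l z = if z = y then 1 else 0 := by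
      intro y
      have h3 := congrFun (hd y) z
      rw [Finset.sum_apply] at h3
      simp only [Pi.smul_apply, smul_eq_mul] at h3
      rw [← h3, Pi.single_apply]
    simp only [Finset.sum_mul, ite_mul, one_mul, zero_mul, Finset.sum_ite_eq', Finset.mem_univ,
      if_true]
    rw [Finset.sum_comm]
    simp only [mul_assoc, ← Finset.mul_sum, h2]
    simp
  have h4 : ∀ l, ∑ y, e k y * d y l = if l = k then 1 else 0 := congrFun h1
  have h5 : ∑ y, (∑ l, d y l * w l) * e k y = ∑ l, (∑ y, e k y * d y l) * w l := by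
    simp only [Finset.sum_mul]
    rw [Finset.sum_comm]
    refine Finset.sum_congr rfl fun l _ => Finset.sum_congr rfl fun y _ => ?_
    ring
  rw [h5]
  simp [h4]

theorem KK.BB_left [Finite W] (h : FData p act n e a) {T : AddSubgroup W} {v : Fin n → FQb}
    (hv : KK e T v) (w : Fin n → FQb) : KK e T (BB a v w) := by
  classical
  have := Fintype.ofFinite W
  intro F hF
  obtain ⟨α, hα⟩ := exists_combination h w
  simp only [finsum_eq_sum_of_fintype] at hα
  have h1 : ∑ i, F i * BB a v w i = ∑ j, (∑ i, ∑ k, F i * (a i j k : FQb) * w k) * v j := by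
    simp only [BB, Finset.mul_sum, Finset.sum_mul]
    rw [Finset.sum_comm]
    refine Finset.sum_congr rfl fun j _ => Finset.sum_congr rfl fun i _ =>
      Finset.sum_congr rfl fun k _ => ?_
    ring
  rw [h1]
  apply hv
  have h2 : ∀ z, ∑ j, (∑ i, ∑ k, F i * (a i j k : FQb) * w k) * e j z =
      ∑ y, α y * ∑ i, F i * e i (z + y) := by
    intro z
    have h3 : ∀ j i k, F i * (a i j k : FQb) * w k * e j z =
        ∑ y, α y * (F i * ((a i j k : FQb) * (e j z * e k y))) := by
      intro j i k
      rw [hα k, Finset.mul_sum, Finset.sum_mul]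
      refine Finset.sum_congr rfl fun y _ => ?_
      ring
    simp only [Finset.sum_mul, h3, h.comul, Finset.mul_sum]
    have h4 : ∀ f : Fin n → Fin n → Fin n → W → FQb,
        ∑ j, ∑ i, ∑ k, ∑ y, f j i k y = ∑ y, ∑ i, ∑ j, ∑ k, f j i k y := by
      intro f
      calc ∑ j, ∑ i, ∑ k, ∑ y, f j i k y = ∑ j, ∑ i, ∑ y, ∑ k, f j i k y := by
            refine Finset.sum_congr rfl fun j _ => Finset.sum_congr rfl fun i _ =>
              Finset.sum_comm
        _ = ∑ j, ∑ y, ∑ i, ∑ k, f j i k y := by
            refine Finset.sum_congr rfl fun j _ => Finset.sum_comm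
        _ = ∑ y, ∑ j, ∑ i, ∑ k, f j i k y := Finset.sum_comm
        _ = ∑ y, ∑ i, ∑ j, ∑ k, f j i k y := by
            refine Finset.sum_congr rfl fun y _ => Finset.sum_comm
    exact h4 _
  intro z t ht
  rw [h2, h2]
  refine Finset.sum_congr rfl fun y _ => ?_
  rw [add_right_comm, hF _ t ht]

theorem BB_comm (h : FData p act n e a) (v w : Fin n → FQb) : BB a v w = BB a w v := by
  funext i
  simp only [BB]
  rw [Finset.sum_comm]
  refine Finset.sum_congr rfl fun j _ => Finset.sum_congr rfl fun k _ => ?_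
  rw [h.symm i k j]
  ring

theorem BB_sub_left (a : Fin n → Fin n → Fin n → ℚ) (u u' v : Fin n → FQb) :
    BB a (u - u') v = BB a u v - BB a u' v := by
  funext i
  simp only [BB, Pi.sub_apply, ← Finset.sum_sub_distrib]
  refine Finset.sum_congr rfl fun j _ => Finset.sum_congr rfl fun k _ => ?_
  ring

theorem KK.add {T : AddSubgroup W} {v w : Fin n → FQb} (hv : KK e T v) (hw : KK e T w) :
    KK e T (v + w) := by
  intro F hF
  simp only [Pi.add_apply, mul_add, Finset.sum_add_distrib, hv F hF, hw F hF, add_zero]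

theorem KK.pw_sub [Finite W] (h : FData p act n e a) {T : AddSubgroup W} {v w : Fin n → FQb}
    (hvw : KK e T (v - w)) (k : ℕ) : KK e T (pw a v k - pw a w k) := by
  induction k with
  | zero => exact hvw
  | succ k ih =>
    have h1 : pw a v (k + 1) - pw a w (k + 1) =
        BB a (pw a v k - pw a w k) v + BB a (v - w) (pw a w k) := by
      rw [BB_sub_left, BB_sub_left, BB_comm h v, BB_comm h w]
      simp only [pw]
      abel
    rw [h1]
    exact (ih.BB_left h v).add (hvw.BB_left h _)

end Fermat.Agent.H29
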