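import Fermat.Agent.H29FK1c

/-!
# S56-[B4], K1 : uniqueness of the connected part (main theorem)
-/

set_option autoImplicit false

noncomputable section

namespace Fermat.Agent.H29

open Fermat.Agent.H64

variable {p : ℕ} [Fact p.Prime] {W : Type*} [AddCommGroup W] {act : FGQ → W → W} {n : ℕ}
  {e : Fin n → W → FQb} {a : Fin n → Fin n → Fin n → ℚ}

/-- integral inertia invariant coefficient vectors of `T`-invariant functions -/
def NT (p : ℕ) [Fact p.Prime] (e : Fin n → W → FQb) (T : AddSubgroup W) :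
    Submodule (OG p (Ip p)) (Fin n → OG p (Ip p)) where
  carrier := {c | InvF e T fun i => (c i : FQb)}
  add_mem' {c d} hc hd := by
    intro z t ht
    have h1 := hc z t ht
    have h2 := hd z t ht
    simp only [Pi.add_apply, Subring.coe_add, add_mul, Finset.sum_add_distrib] at h1 h2 ⊢
    rw [h1, h2]
  zero_mem' := by
    intro z t ht
    simp
  smul_mem' r c hc := by
    intro z t ht
    have h1 := hc z t ht
    simp only [Pi.smul_apply, smul_eq_mul, Subring.coe_mul, mul_assoc, ← Finset.mul_sum] at h1 ⊢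
    rw [h1]

theorem mem_NT {T : AddSubgroup W} {c : Fin n → OG p (Ip p)} :
    c ∈ NT p e T ↔ InvF e T fun i => (c i : FQb) := Iff.rfl

instance torsionFree_quot (T : AddSubgroup W) :
    Module.IsTorsionFree (OG p (Ip p)) ((Fin n → OG p (Ip p)) ⧸ NT p e T) := by
  rw [Module.isTorsionFree_iff_smul_eq_zero]
  intro r m
  induction m using Submodule.Quotient.induction_on with
  | H c =>
    intro hrc
    by_cases hr : r = 0
    · exact Or.inl hr
    right
    rw [← Submodule.Quotient.mk_smul, Submodule.Quotient.mk_eq_zero, mem_NT] at hrc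
    rw [Submodule.Quotient.mk_eq_zero, mem_NT]
    have hr' : (r : FQb) ≠ 0 := fun h => hr (Subtype.ext h)
    intro z t ht
    have h1 := hrc z t ht
    simp only [Pi.smul_apply, smul_eq_mul, Subring.coe_mul, mul_assoc, ← Finset.mul_sum] at h1
    exact mul_left_cancel₀ hr' h1

/-- a retraction on the invariants -/
theorem exists_retraction (T : AddSubgroup W) :
    ∃ P : (Fin n → OG p (Ip p)) →ₗ[OG p (Ip p)] (Fin n → OG p (Ip p)),
      (∀ c, P c ∈ NT p e T) ∧ ∀ c ∈ NT p e T, P c = c := by
  have hfree : Module.Free (OG p (Ip p)) ((Fin n → OG p (Ip p)) ⧸ NT p e T) :=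
    Module.free_of_finite_type_torsion_free'
  obtain ⟨s, hs⟩ := Module.projective_lifting_property (NT p e T).mkQ
    (LinearMap.id : ((Fin n → OG p (Ip p)) ⧸ NT p e T) →ₗ[OG p (Ip p)] _)
    (Submodule.mkQ_surjective _)
  refine ⟨LinearMap.id - s ∘ₗ (NT p e T).mkQ, fun c => ?_, fun c hc => ?_⟩
  · have h1 := LinearMap.congr_fun hs ((NT p e T).mkQ c)
    simp only [LinearMap.comp_apply, LinearMap.id_apply] at h1
    refine (Submodule.Quotient.mk_eq_zero _).mp ?_
    rw [← Submodule.mkQ_apply, LinearMap.sub_apply, map_sub, LinearMap.comp_apply,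
      LinearMap.id_apply, h1, sub_self]
  · have h1 : (NT p e T).mkQ c = 0 := by
      rwa [Submodule.mkQ_apply, Submodule.Quotient.mk_eq_zero]
    simp only [LinearMap.sub_apply, LinearMap.id_apply, LinearMap.comp_apply, h1, map_zero,
      sub_zero]

/-- the coefficients of the trace of `e i` -/
theorem exists_trace [Finite W] (h : FData p act n e a) (T : AddSubgroup W)
    (hT : ∀ σ ∈ Ip p, ∀ t ∈ T, act σ t ∈ T) (i : Fin n) :
    ∃ c ∈ NT p e T, ∀ z, ∑ j, (c j : FQb) * e j z = ∑ᶠ t : T, e i (z + t) := by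
  classical
  have := Fintype.ofFinite T
  have hmem : ∀ k, (∑ t : T, e k t) ∈ OG p (Ip p) := by
    intro k
    refine ⟨fun σ hσ => ?_, nm_sum_le _ _ zero_le_one fun t _ => h.nm_le k t⟩
    rw [map_sum]
    let g : T → T := fun t => ⟨act σ t, hT σ hσ t t.2⟩
    have hg : Function.Injective g := by
      intro s t hst
      apply Subtype.ext
      have h1 : act σ (s : W) = act σ t := congrArg Subtype.val hst
      have h2 : act σ ((s : W) - t) = 0 := by
        have h3 := h.act_add σ ((s : W) - t) t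
        rw [sub_add_cancel, h1] at h3
        exact left_eq_add.mp (by rw [add_comm]; exact h3)
      by_contra hne
      exact act_ne_zero h σ (sub_ne_zero.mpr hne) h2
    have hgb : Function.Bijective g := Finite.injective_iff_bijective.mp hg
    rw [← hgb.sum_comp (fun t : T => e k t)]
    exact Finset.sum_congr rfl fun t _ => (h.equiv σ k t).symm
  have hamem : ∀ j k, (a i j k : FQb) ∈ OG p (Ip p) := fun j k =>
    ⟨fun σ _ => map_ratCast σ _, h.nm_a i j k⟩
  let c : Fin n → OG p (Ip p) := fun j => ∑ k, ⟨_, hamem j k⟩ * ⟨_, hmem k⟩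
  have hc : ∀ z, ∑ j, (c j : FQb) * e j z = ∑ᶠ t : T, e i (z + t) := by
    intro z
    rw [finsum_eq_sum_of_fintype]
    have h1 : ∀ t : T, e i (z + t) = ∑ j, ∑ k, (a i j k : FQb) * (e j z * e k t) :=
      fun t => h.comul i z t
    simp only [h1]
    rw [Finset.sum_comm]
    refine Finset.sum_congr rfl fun j _ => ?_
    rw [Finset.sum_comm]
    have h2 : (c j : FQb) = ∑ k, (a i j k : FQb) * ∑ t : T, e k t := by
      rw [AddSubmonoidClass.coe_finsetSum]
      rfl
    rw [h2, Finset.sum_mul]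
    refine Finset.sum_congr rfl fun k _ => ?_
    rw [mul_assoc, mul_comm _ (e j z), Finset.mul_sum, Finset.mul_sum]
  refine ⟨c, ?_, hc⟩
  intro z t ht
  show ∑ j, (c j : FQb) * e j (z + t) = ∑ j, (c j : FQb) * e j z
  rw [hc, hc, finsum_eq_sum_of_fintype, finsum_eq_sum_of_fintype]
  exact Fintype.sum_equiv (Equiv.addLeft (⟨t, ht⟩ : T)) _ _ fun s => by
    rw [Equiv.coe_addLeft, AddSubgroup.coe_add, add_assoc]

/-- invariant functions are, up to the order of `T`, combinations of traces -/
theorem InvF.eq_combination [Finite W] (h : FData p act n e a) {T : AddSubgroup W}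
    {F : Fin n → FQb} (hF : InvF e T F) {c : Fin n → Fin n → OG p (Ip p)}
    (hc : ∀ i z, ∑ j, (c i j : FQb) * e j z = ∑ᶠ t : T, e i (z + t)) (j : Fin n) :
    (Nat.card T : FQb) * F j = ∑ i, F i * (c i j : FQb) := by
  classical
  have := Fintype.ofFinite T
  have h1 : (fun j => (Nat.card T : FQb) * F j) = fun j => ∑ i, F i * (c i j : FQb) := by
    apply h.coeff_eq
    intro z
    simp only [Finset.sum_mul]
    rw [Finset.sum_comm]
    simp only [mul_assoc, ← Finset.mul_sum, hc, finsum_eq_sum_of_fintype]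
    have h2 : ∑ i, F i * ∑ t : T, e i (z + t) = ∑ t : T, ∑ i, F i * e i (z + t) := by
      rw [Finset.sum_comm]
      simp only [Finset.mul_sum]
    rw [h2, Finset.sum_congr rfl fun (t : T) _ => hF z t t.2, Finset.sum_const,
      Finset.card_univ, nsmul_eq_mul, Nat.card_eq_fintype_card]
  exact congrFun h1 j

theorem le_of_binomial_relation (f : ℕ → FQb) {ρ : ℝ} (hρ : 0 < ρ) (hρ1 : ρ < 1)
    (hf0 : nm p (f 0) = ρ) (hf : ∀ j, nm p (f j) ≤ ρ ^ (j + 1)) (q : ℕ) (hq : q = p)
    (hrel : ∑ j ∈ Finset.range q, ((q.choose (j + 1) : ℕ) : FQb) * f j = 0) :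
    nm p (p : FQb) ≤ ρ ^ (p - 1) := by
  have hp : p.Prime := Fact.out
  have hp2 := hp.two_le
  obtain ⟨m, hm⟩ : ∃ m, q = m + 1 + 1 := ⟨q - 2, by omega⟩
  subst hm
  rw [Finset.sum_range_succ, Finset.sum_range_succ', Nat.choose_self, Nat.cast_one, one_mul,
    zero_add, Nat.choose_one_right] at hrel
  have h2 : nm p (∑ k ∈ Finset.range m, (((m + 1 + 1).choose (k + 1 + 1) : ℕ) : FQb) *
      f (k + 1)) ≤ nm p (p : FQb) * ρ ^ 2 := by
    refine nm_sum_le _ _ (mul_nonneg (nm_nonneg _) (pow_nonneg hρ.le _)) fun k hk => ?_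
    rw [nm_mul, hq]
    have hk' := Finset.mem_range.mp hk
    refine mul_le_mul (nm_choose_le (by omega) (by omega)) ?_ (nm_nonneg _) (nm_nonneg _)
    exact (hf _).trans (pow_le_pow_of_le_one hρ.le hρ1.le (by omega))
  have h3 := hf (m + 1)
  have h4 : nm p (((m + 1 + 1 : ℕ) : FQb) * f 0) = nm p (p : FQb) * ρ := by
    rw [nm_mul, hf0, hq]
  have h5 : nm p (p : FQb) * ρ ≤ ρ ^ (m + 1 + 1) := by
    by_contra hcon
    push Not at hcon
    have h6 : ((m + 1 + 1 : ℕ) : FQb) * f 0 =
        -((∑ k ∈ Finset.range m, (((m + 1 + 1).choose (k + 1 + 1) : ℕ) : FQb) *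
          f (k + 1)) + f (m + 1)) := by
      linear_combination hrel
    have h7 : nm p (((m + 1 + 1 : ℕ) : FQb) * f 0) < nm p (p : FQb) * ρ := by
      rw [h6, nm_neg]
      refine nm_add_lt_of (h2.trans_lt ?_) (h3.trans_lt hcon)
      have : ρ ^ 2 < ρ := by nlinarith
      exact mul_lt_mul_of_pos_left this (nm_p_pos p)
    rw [h4] at h7
    exact lt_irrefl _ h7
  rw [pow_succ] at h5
  have h8 := le_of_mul_le_mul_right h5 hρ
  rwa [show m + 1 = p - 1 by omega] at h8

/-- **uniqueness of the connected part**: a point of the connected part on which inertia acts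
trivially modulo `T` lies in `T` -/
theorem mem_of_act_sub_mem [Finite W] (h : FData p act n e a) (hp2 : p ≠ 2)
    (hpW : ∀ x : W, p • x = 0) (T : AddSubgroup W) (hT : ∀ σ ∈ Ip p, ∀ t ∈ T, act σ t ∈ T)
    {x : W} (hx : InW0 p e x) (hxT : ∀ σ ∈ Ip p, act σ x - x ∈ T) : x ∈ T := by
  classical
  have hp : p.Prime := Fact.out
  have hp3 : 2 < p := lt_of_le_of_ne hp.two_le (Ne.symm hp2)
  obtain ⟨P, hPN, hPid⟩ := exists_retraction (p := p) (e := e) T
  choose c hcN hc using fun i => exists_trace h T hT i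
  -- the functional attached to `x` on the invariants
  set u := uu e x with hu
  let L : (Fin n → OG p (Ip p)) → FQb := fun d => ∑ j, (d j : FQb) * u j
  have hLN : ∀ d ∈ NT p e T, L d ≠ 0 → ∃ k : ℕ, 0 < k ∧ nm p (L d) = nm p (p : FQb) ^ k := by
    intro d hd hd0
    have hLd : L d = ∑ j, (d j : FQb) * e j x - ∑ j, (d j : FQb) * e j 0 := by
      rw [← Finset.sum_sub_distrib]
      refine Finset.sum_congr rfl fun j _ => ?_
      rw [hu, uu]
      ring
    have hfix : FixI p (L d) := by
      intro σ hσ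
      rw [hLd, map_sub, map_sum, map_sum]
      congr 1
      · have h1 : act σ x = x + (act σ x - x) := by abel
        have h2 := hd x _ (hxT σ hσ)
        rw [← h1] at h2
        rw [← h2]
        refine Finset.sum_congr rfl fun j _ => ?_
        rw [map_mul, (d j).2.1 σ hσ, h.equiv]
      · refine Finset.sum_congr rfl fun j _ => ?_
        rw [map_mul, (d j).2.1 σ hσ, h.fix_zero]
    have hlt : nm p (L d) < 1 := by
      refine nm_sum_lt _ _ zero_lt_one fun j _ => ?_
      rw [nm_mul]
      exact lt_of_le_of_lt (mul_le_of_le_one_left (nm_nonneg _) (d j).2.2) (hx j)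
    obtain ⟨k, hk⟩ := hfix.exists_zpow hd0
    have hkpos : 0 < k := by
      by_contra hcon
      rw [not_lt] at hcon
      rw [hk] at hlt
      exact absurd hlt (not_lt.mpr (one_le_zpow_of_nonpos₀ (nm_p_pos p) (nm_p_lt_one p).le hcon))
    obtain ⟨m, rfl⟩ := Int.eq_ofNat_of_zero_le hkpos.le
    exact ⟨m, by exact_mod_cast hkpos, by rw [hk, zpow_natCast]⟩
  by_cases hall : ∀ d ∈ NT p e T, L d = 0
  · -- all invariant functions agree at `x` and `0`
    have := Fintype.ofFinite W
    have hcard : (Nat.card T : FQb) ≠ 0 := Nat.cast_ne_zero.mpr Nat.card_pos.ne'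
    by_contra hxT'
    let F₀ : W → FQb := fun y => if y ∈ T then 1 else 0
    obtain ⟨F, hF⟩ := h.span F₀
    have hF' : ∀ z, ∑ i, F i * e i z = F₀ z := by
      intro z
      have h1 := congrFun hF z
      rw [Finset.sum_apply] at h1
      exact h1.symm
    have hinv : InvF e T F := by
      intro z t ht
      rw [hF', hF']
      show (if z + t ∈ T then (1 : FQb) else 0) = if z ∈ T then 1 else 0
      simp only [T.add_mem_cancel_right ht]
    have h1 : ∑ j, F j * u j = 0 := by
      have h2 : (Nat.card T : FQb) * ∑ j, F j * u j = 0 := by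
        rw [Finset.mul_sum]
        have h3 : ∀ j, (Nat.card T : FQb) * (F j * u j) = ∑ i, F i * ((c i j : FQb) * u j) := by
          intro j
          rw [← mul_assoc, hinv.eq_combination h hc, Finset.sum_mul]
          exact Finset.sum_congr rfl fun i _ => by ring
        simp only [h3]
        rw [Finset.sum_comm]
        apply Finset.sum_eq_zero
        intro i _
        rw [← Finset.mul_sum, show ∑ j, (c i j : FQb) * u j = 0 from hall _ (hcN i), mul_zero]
      exact (mul_eq_zero.mp h2).resolve_left hcard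
    have h2 : ∑ j, F j * u j = F₀ x - F₀ 0 := by
      rw [← hF', ← hF', ← Finset.sum_sub_distrib]
      refine Finset.sum_congr rfl fun j _ => ?_
      rw [hu, uu]
      ring
    have h3 : F₀ x = 0 := if_neg hxT'
    have h4 : F₀ 0 = 1 := if_pos T.zero_mem
    rw [h2, h3, h4] at h1
    norm_num at h1
  -- the minimal valuation
  exfalso
  push Not at hall
  have hex : ∃ k : ℕ, ∃ d ∈ NT p e T, L d ≠ 0 ∧ nm p (L d) = nm p (p : FQb) ^ k := by
    obtain ⟨d, hd, hd0⟩ := hall
    obtain ⟨k, -, hk⟩ := hLN d hd hd0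
    exact ⟨k, d, hd, hd0, hk⟩
  obtain ⟨d, hdN, hd0, hdk⟩ := Nat.find_spec hex
  set ρ := nm p (L d) with hρ
  have hρpos : 0 < ρ := nm_pos.mpr hd0
  have hρle : ρ ≤ nm p (p : FQb) := by
    obtain ⟨k, hk, hk'⟩ := hLN d hdN hd0
    rw [hρ, hk']
    exact pow_le_of_le_one (nm_p_pos p).le (nm_p_lt_one p).le hk.ne'
  have hρ1 : ρ < 1 := hρle.trans_lt (nm_p_lt_one p)
  have hmin : ∀ d' ∈ NT p e T, nm p (L d') ≤ ρ := by
    intro d' hd'
    by_cases h0 : L d' = 0
    · rw [h0, nm_zero]; exact hρpos.le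
    obtain ⟨k, -, hk⟩ := hLN d' hd' h0
    rw [hk, hdk]
    refine pow_le_pow_of_le_one (nm_p_pos p).le (nm_p_lt_one p).le ?_
    exact Nat.find_min' hex ⟨d', hd', h0, hk⟩
  -- the modified functional
  let v : Fin n → FQb := fun i => L (P (Pi.single i 1))
  have hLlin : ∀ (s : Fin n → OG p (Ip p)), L (P s) = ∑ i, (s i : FQb) * v i := by
    intro s
    have h1 : s = ∑ i, s i • (Pi.single i 1 : Fin n → OG p (Ip p)) := by
      rw [← pi_eq_sum_univ' s]
    have h2 : P s = ∑ i, s i • P (Pi.single i 1) := by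
      conv_lhs => rw [h1]
      rw [map_sum]
      simp only [map_smul]
    show ∑ j, (P s j : FQb) * u j = ∑ i, (s i : FQb) * ∑ j, (P (Pi.single i 1) j : FQb) * u j
    rw [h2]
    simp only [Finset.sum_apply, Pi.smul_apply, smul_eq_mul, AddSubmonoidClass.coe_finsetSum,
      Subring.coe_mul, Finset.sum_mul, Finset.mul_sum]
    rw [Finset.sum_comm]
    refine Finset.sum_congr rfl fun i _ => Finset.sum_congr rfl fun j _ => ?_
    ring
  have hv : ∀ i, nm p (v i) ≤ ρ := fun i => hmin _ (hPN _)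
  have hvd : ∀ s ∈ NT p e T, ∑ i, (s i : FQb) * v i = L s := by
    intro s hs
    rw [← hLlin, hPid s hs]
  have hKK : KK e T (v - u) := by
    intro F hF
    have hcard : (Nat.card T : FQb) ≠ 0 := Nat.cast_ne_zero.mpr Nat.card_pos.ne'
    have h2 : (Nat.card T : FQb) * ∑ j, F j * (v - u) j = 0 := by
      rw [Finset.mul_sum]
      have h3 : ∀ j, (Nat.card T : FQb) * (F j * (v - u) j) =
          ∑ i, F i * ((c i j : FQb) * (v - u) j) := by
        intro j
        rw [← mul_assoc, hF.eq_combination h hc, Finset.sum_mul]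
        exact Finset.sum_congr rfl fun i _ => by ring
      simp only [h3]
      rw [Finset.sum_comm]
      apply Finset.sum_eq_zero
      intro i _
      rw [← Finset.mul_sum]
      have h4 : ∑ j, (c i j : FQb) * (v - u) j = 0 := by
        simp only [Pi.sub_apply, mul_sub, Finset.sum_sub_distrib]
        rw [hvd _ (hcN i)]
        exact sub_self _
      rw [h4, mul_zero]
    exact (mul_eq_zero.mp h2).resolve_left hcard
  -- the relation
  have hrel : ∑ j ∈ Finset.range p, ((p.choose (j + 1) : ℕ) : FQb) *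
      ∑ i, (d i : FQb) * pw a v j i = 0 := by
    have h1 : ∀ j, ∑ i, (d i : FQb) * pw a v j i = ∑ i, (d i : FQb) * pw a u j i := by
      intro j
      have h2 := hKK.pw_sub h j (fun i => (d i : FQb)) hdN
      simp only [Pi.sub_apply, mul_sub, Finset.sum_sub_distrib] at h2
      exact sub_eq_zero.mp h2
    simp only [h1, Finset.mul_sum]
    rw [Finset.sum_comm]
    apply Finset.sum_eq_zero
    intro i _
    have h2 : uu e (p • x) i = 0 := by rw [hpW, uu_zero]
    rw [uu_nsmul h] at h2
    have h3 : ∀ j, ((p.choose (j + 1) : ℕ) : FQb) * ((d i : FQb) * pw a u j i) =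
        (d i : FQb) * (((p.choose (j + 1) : ℕ) : FQb) * pw a u j i) := fun j => by ring
    simp only [h3]
    rw [← Finset.mul_sum, h2, mul_zero]
  have hbd : ∀ j, nm p (∑ i, (d i : FQb) * pw a v j i) ≤ ρ ^ (j + 1) := by
    intro j
    refine nm_sum_le _ _ (pow_nonneg hρpos.le _) fun i _ => ?_
    rw [nm_mul]
    exact (mul_le_of_le_one_left (nm_nonneg _) (d i).2.2).trans (nm_pw_le h hρpos.le hv j i)
  have hzero : ∑ i, (d i : FQb) * pw a v 0 i = L d := hvd d hdN
  have h8 : nm p (p : FQb) ≤ ρ ^ (p - 1) :=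
    le_of_binomial_relation (fun j => ∑ i, (d i : FQb) * pw a v j i) hρpos hρ1
      (by simp only [hzero]; exact hρ.symm) hbd p rfl hrel
  have h9 : ρ ^ (p - 1) ≤ nm p (p : FQb) ^ (p - 1) := pow_le_pow_left₀ hρpos.le hρle _
  have h10 : nm p (p : FQb) ^ (p - 1) < nm p (p : FQb) ^ 1 :=
    pow_lt_pow_right_of_lt_one₀ (nm_p_pos p) (nm_p_lt_one p) (by omega)
  rw [pow_one] at h10
  exact absurd (h8.trans h9) (not_le.mpr h10)

end Fermat.Agent.H29
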