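import Fermat.Agent.H29FK1d

/-!
# S56-[B4], K1 : the connected part does not depend on the order; functoriality
-/

set_option autoImplicit false

noncomputable section

namespace Fermat.Agent.H29

open Fermat.Agent.H64 GaloisRep

variable {p : ℕ} [Fact p.Prime] {W : Type*} [AddCommGroup W] {act : FGQ → W → W} {n n' : ℕ}
  {e : Fin n → W → FQb} {a : Fin n → Fin n → Fin n → ℚ}
  {e' : Fin n' → W → FQb} {a' : Fin n' → Fin n' → Fin n' → ℚ}

/-- the connected part does not depend on the order -/
theorem InW0.change [Finite W] (h : FData p act n e a) (h' : FData p act n' e' a') (hp2 : p ≠ 2)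
    (hpW : ∀ x : W, p • x = 0) {x : W} (hx : InW0 p e x) : InW0 p e' x := by
  have h1 : x ∈ W0 h' := by
    apply mem_of_act_sub_mem h hp2 hpW (W0 h') _ hx
    · intro σ hσ
      exact act_sub_mem_W0 h' hσ x
    · intro σ hσ t ht
      exact (act_mem_W0_iff (Ip_le_Dp hσ)).mpr ht
  exact h1

theorem inW0_iff [Finite W] (h : FData p act n e a) (h' : FData p act n' e' a') (hp2 : p ≠ 2)
    (hpW : ∀ x : W, p • x = 0) {x : W} : InW0 p e x ↔ InW0 p e' x :=
  ⟨InW0.change h h' hp2 hpW, InW0.change h' h hp2 hpW⟩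

/-- transport by an equivariant automorphism -/
theorem FData_comp (h : FData p act n e a) (g : W ≃+ W) (hg : ∀ σ x, g (act σ x) = act σ (g x)) :
    FData p act n (fun i x => e i (g x)) a where
  indep := by
    have h1 : LinearIndependent FQb ((LinearMap.funLeft FQb FQb (g : W → W)) ∘ e) :=
      h.indep.map' _ (LinearMap.ker_eq_bot.mpr
        (LinearMap.funLeft_injective_of_surjective FQb FQb _ g.surjective))
    exact h1
  span F := by
    obtain ⟨c, hc⟩ := h.span (fun y => F (g.symm y))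
    refine ⟨c, ?_⟩
    funext x
    have h1 := congrFun hc (g x)
    rw [AddEquiv.symm_apply_apply] at h1
    rw [h1]
    simp only [Finset.sum_apply, Pi.smul_apply]
  comul i x y := by rw [map_add]; exact h.comul i _ _
  nm_a := h.nm_a
  equiv σ i x := by rw [hg]; exact h.equiv σ i _
  nm_le i x := h.nm_le i _

theorem InW0.map_equiv [Finite W] (h : FData p act n e a) (hp2 : p ≠ 2)
    (hpW : ∀ x : W, p • x = 0) (g : W ≃+ W) (hg : ∀ σ x, g (act σ x) = act σ (g x)) {x : W}
    (hx : InW0 p e x) : InW0 p e (g x) := by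
  have h2 := InW0.change (n' := n) h (FData_comp h g hg) hp2 hpW hx
  intro i
  have h3 := h2 i
  rw [uu] at h3 ⊢
  simp only [map_zero] at h3
  exact h3

/-- description of the connected part by the order -/
theorem inW0_iff_order {H : Subalgebra (ratLocalizedAt p) (W → FQb)}
    (heH : ∀ i, e i ∈ H) (hgen : ∀ f ∈ H, ∃ r : Fin n → ratLocalizedAt p, f = ∑ i, r i • e i)
    {x : W} : InW0 p e x ↔ ∀ f ∈ H, nm p (f x - f 0) < 1 := by
  constructor
  · intro hx f hf
    obtain ⟨r, rfl⟩ := hgen f hf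
    rw [Finset.sum_apply, Finset.sum_apply, ← Finset.sum_sub_distrib]
    refine nm_sum_lt _ _ zero_lt_one fun i _ => ?_
    have h1 : (r i • e i) x - (r i • e i) 0 = ((r i : ℚ) : FQb) * uu e x i := by
      rw [uu, mul_sub]
      congr 1
      · exact Rat.smul_def (r i : ℚ) (e i x)
      · exact Rat.smul_def (r i : ℚ) (e i 0)
    rw [h1, nm_mul]
    exact lt_of_le_of_lt (mul_le_of_le_one_left (nm_nonneg _) (nm_ratCast_le_one (r i).2)) (hx i)
  · intro hx i
    exact hx _ (heH i)

variable {V : Type*} [AddCommGroup V] {actV : FGQ → V → V} {m : ℕ}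
  {eV : Fin m → V → FQb} {aV : Fin m → Fin m → Fin m → ℚ}

/-- the connected part of a subobject -/
theorem inW0_sub_iff [Finite W] (hW : H32.HasFlatOrder p W act) (i : V →+ W)
    (hi : Function.Injective i) (hact : ∀ σ v, i (actV σ v) = act σ (i v)) (hp2 : p ≠ 2)
    (hpW : ∀ x : W, p • x = 0) (h : FData p act n e a) (hV : FData p actV m eV aV) {v : V} :
    InW0 p eV v ↔ InW0 p e (i v) := by
  have hfinV : Finite V := Finite.of_injective i hi
  have hpV : ∀ x : V, p • x = 0 := by
    intro x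
    apply hi
    rw [map_nsmul, hpW, map_zero]
  obtain ⟨-, H, hH⟩ := hW
  obtain ⟨n₁, e₁, a₁, h₁, heH₁, hgen₁⟩ := exists_FData hH
  obtain ⟨n₂, e₂, a₂, h₂, heH₂, hgen₂⟩ := exists_FData (hH.sub (actN := actV) i hi hact)
  rw [inW0_iff hV h₂ hp2 hpV, inW0_iff h h₁ hp2 hpW, inW0_iff_order heH₁ hgen₁,
    inW0_iff_order heH₂ hgen₂]
  constructor
  · intro hv f hf
    have h1 := hv (H32.pull (ratLocalizedAt p) i f) ⟨f, hf, rfl⟩
    have h2 : H32.pull (ratLocalizedAt p) i f 0 = f 0 := by
      show f (i 0) = f 0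
      rw [map_zero]
    rw [h2] at h1
    exact h1
  · rintro hv _ ⟨f, hf, rfl⟩
    have h2 : H32.pull (ratLocalizedAt p) i f 0 = f 0 := by
      show f (i 0) = f 0
      rw [map_zero]
    show nm p (H32.pull (ratLocalizedAt p) i f v - H32.pull (ratLocalizedAt p) i f 0) < 1
    rw [h2]
    exact hv f hf

end Fermat.Agent.H29
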