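import Fermat.Agent.H29FK1e
import Fermat.Agent.H53Flat1
import Fermat.Agent.H56Defs

/-!
# S56-[B4], K1 : matrix representations
-/

set_option autoImplicit false

noncomputable section

namespace Fermat.Agent.H29

open Fermat.Agent.H64 Fermat.Agent.H53 GaloisRep

variable {p : ℕ} [Fact p.Prime]

section LocalCoeff

variable {B : Type} [CommRing B] [IsLocalRing B] {R : FGQ →* M2 B} {n : ℕ}
  {e : Fin n → (Fin 2 → B) → FQb} {a : Fin n → Fin n → Fin n → ℚ}

omit [IsLocalRing B] in
/-- [FD] a flat representation has coordinates -/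
theorem exists_FData_of_flatM (hR : FlatM p R) :
    ∃ (n : ℕ) (e : Fin n → (Fin 2 → B) → FQb) (a : Fin n → Fin n → Fin n → ℚ),
      FData p (fun σ x => (R σ).mulVec x) n e a := by
  have hfin := hR.1
  obtain ⟨-, H, hH⟩ := hR
  obtain ⟨n, e, a, h, -⟩ := exists_FData hH
  exact ⟨n, e, a, h⟩

omit [Fact p.Prime] [IsLocalRing B] in
theorem nsmul_eq_zero_of_cast (hB : (p : B) = 0) (x : Fin 2 → B) : p • x = 0 := by
  funext i
  rw [Pi.smul_apply, nsmul_eq_mul, hB, zero_mul]
  rfl

theorem inW0_smul_unit [Finite B] (h : FData p (fun σ x => (R σ).mulVec x) n e a) (hp2 : p ≠ 2)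
    (hB : (p : B) = 0) (u : Bˣ) {x : Fin 2 → B} (hx : InW0 p e x) :
    InW0 p e ((u : B) • x) := by
  let g : (Fin 2 → B) ≃+ (Fin 2 → B) :=
    { toFun := fun y => (u : B) • y
      invFun := fun y => ((u⁻¹ : Bˣ) : B) • y
      left_inv := fun y => by
        show ((u⁻¹ : Bˣ) : B) • (u : B) • y = y
        rw [smul_smul, Units.inv_mul, one_smul]
      right_inv := fun y => by
        show (u : B) • ((u⁻¹ : Bˣ) : B) • y = y
        rw [smul_smul, Units.mul_inv, one_smul]
      map_add' := fun y z => smul_add _ _ _ }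
  exact InW0.map_equiv h hp2 (nsmul_eq_zero_of_cast hB) g
    (fun σ x => by
      show (u : B) • (R σ).mulVec x = (R σ).mulVec ((u : B) • x)
      exact (Matrix.mulVec_smul _ _ _).symm) hx

/-- the connected part is a submodule -/
theorem inW0_smul [Finite B] (h : FData p (fun σ x => (R σ).mulVec x) n e a) (hp2 : p ≠ 2)
    (hB : (p : B) = 0) (b : B) {x : Fin 2 → B} (hx : InW0 p e x) : InW0 p e (b • x) := by
  rcases IsLocalRing.isUnit_or_isUnit_one_sub_self b with hb | hb
  · exact inW0_smul_unit h hp2 hB hb.unit hx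
  · have h1 := inW0_smul_unit h hp2 hB hb.unit hx
    have h2 : b • x = x + -((hb.unit : B) • x) := by
      rw [IsUnit.unit_spec, sub_smul, one_smul]
      abel
    rw [h2]
    exact hx.add h (h1.neg h)

end LocalCoeff

/-! ## linear algebra -/

section Lin

variable {A : Type} [CommRing A]

/-- triangular shape of a matrix in an adapted basis -/
theorem exists_triangular (g : M2 A) (hg : IsUnit g) (N : M2 A)
    (hc : ∃ α : A, N.mulVec (g.mulVec ![1, 0]) = α • g.mulVec ![1, 0]) :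
    ∃ α T Z : A, N * g = g * !![α, T; 0, Z] ∧
      ((∃ β : A, N.mulVec (g.mulVec ![0, 1]) - g.mulVec ![0, 1] = β • g.mulVec ![1, 0]) →
        Z = 1) := by
  obtain ⟨u, rfl⟩ := hg
  obtain ⟨α, hα⟩ := hc
  set M : M2 A := ((u⁻¹ : (M2 A)ˣ) : M2 A) * N * u with hM
  have hNM : N * (u : M2 A) = (u : M2 A) * M := by
    rw [hM, ← mul_assoc, ← mul_assoc, Units.mul_inv, one_mul]
  have hcol : ∀ v : Fin 2 → A, M.mulVec v = ((u⁻¹ : (M2 A)ˣ) : M2 A).mulVec
      (N.mulVec ((u : M2 A).mulVec v)) := by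
    intro v
    rw [Matrix.mulVec_mulVec, Matrix.mulVec_mulVec, hM]
  have h1 : M.mulVec ![1, 0] = α • ![1, 0] := by
    rw [hcol, hα, Matrix.mulVec_smul, Matrix.mulVec_mulVec, Units.inv_mul, Matrix.one_mulVec]
  have h10 : M 1 0 = 0 := by
    have h2 := congrFun h1 1
    simpa [Matrix.mulVec, dotProduct, Fin.sum_univ_two] using h2
  have h00 : M 0 0 = α := by
    have h2 := congrFun h1 0
    simpa [Matrix.mulVec, dotProduct, Fin.sum_univ_two] using h2
  refine ⟨α, M 0 1, M 1 1, ?_, ?_⟩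
  · rw [hNM]
    congr 1
    ext i j
    fin_cases i <;> fin_cases j <;> simp [h10, h00]
  · rintro ⟨β, hβ⟩
    have h2 : M.mulVec ![0, 1] - ![0, 1] = β • ![1, 0] := by
      have h3 : ((u⁻¹ : (M2 A)ˣ) : M2 A).mulVec (N.mulVec ((u : M2 A).mulVec ![0, 1]) -
          (u : M2 A).mulVec ![0, 1]) = ((u⁻¹ : (M2 A)ˣ) : M2 A).mulVec
            (β • (u : M2 A).mulVec ![1, 0]) := by rw [hβ]
      rw [Matrix.mulVec_sub, ← hcol, Matrix.mulVec_smul, Matrix.mulVec_mulVec,
        Matrix.mulVec_mulVec, Units.inv_mul, Matrix.one_mulVec, Matrix.one_mulVec] at h3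
      exact h3
    have h3 := congrFun h2 1
    have h4 : M 1 1 - 1 = 0 := by
      simpa [Matrix.mulVec, dotProduct, Fin.sum_univ_two] using h3
    exact sub_eq_zero.mp h4

end Lin

end Fermat.Agent.H29
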