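import Fermat.Agent.H64FLayer2

/-!
# Wild inertia at `p` inside `Gal(ℚ̄/ℚ)`, and the action of Frobenius on tame inertia
-/

set_option autoImplicit false

noncomputable section

namespace Fermat.Agent.H29

open Fermat.Agent.H64

variable {p : ℕ} [Fact p.Prime]

/-- wild inertia -/
def Wild (p : ℕ) [Fact p.Prime] : Subgroup FGQ where
  carrier := {σ | σ ∈ Ip p ∧ ∀ y, y ≠ 0 → nm p (σ y - y) < nm p y}
  mul_mem' {σ τ} hσ hτ := by
    refine ⟨(Ip p).mul_mem hσ.1 hτ.1, fun y hy => ?_⟩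
    have h1 : (σ * τ) y - y = (σ (τ y) - τ y) + (τ y - y) := by
      rw [AlgEquiv.mul_apply]; ring
    rw [h1]
    refine nm_add_lt_of ?_ (hτ.2 y hy)
    have h2 := hσ.2 (τ y) ((map_ne_zero τ).mpr hy)
    rwa [nm_dec (Ip_le_Dp hτ.1)] at h2
  one_mem' := ⟨(Ip p).one_mem, fun y hy => by
    rw [AlgEquiv.one_apply, sub_self, nm_zero]; exact nm_pos.mpr hy⟩
  inv_mem' {σ} hσ := by
    refine ⟨(Ip p).inv_mem hσ.1, fun y hy => ?_⟩
    have h1 : σ (σ⁻¹ y - y) = -(σ y - y) := by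
      rw [map_sub, show σ (σ⁻¹ y) = y from σ.apply_symm_apply y]; ring
    rw [← nm_dec (Ip_le_Dp hσ.1), h1, nm_neg]
    exact hσ.2 y hy

theorem mem_Wild {σ : FGQ} : σ ∈ Wild p ↔ σ ∈ Ip p ∧ ∀ y, y ≠ 0 → nm p (σ y - y) < nm p y :=
  Iff.rfl

theorem Wild_le_Ip : Wild p ≤ Ip p := fun _ h => h.1

theorem aut_pow_succ (g : FGQ) (i : ℕ) (y : FQb) : (g ^ (i + 1)) y = g ((g ^ i) y) := by
  rw [pow_succ', AlgEquiv.mul_apply]

/-- averaging over a group of order prime to `p` -/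
theorem fixed_of_pow_fixed {g : FGQ} (hg : g ∈ Wild p) {m : ℕ} (hm : m.Coprime p) (hm0 : 0 < m)
    {y : FQb} (hy : (g ^ m) y = y) : g y = y := by
  classical
  set z : FQb := ∑ i ∈ Finset.range m, (g ^ i) y with hz
  have hgz : g z = z := by
    have h1 : g z = ∑ i ∈ Finset.range m, (g ^ (i + 1)) y := by
      rw [hz, map_sum]
      exact Finset.sum_congr rfl fun i _ => (aut_pow_succ g i y).symm
    have h2 := Finset.sum_range_succ' (fun i => (g ^ i) y) m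
    have h3 := Finset.sum_range_succ (fun i => (g ^ i) y) m
    rw [h1]
    have h4 : (g ^ 0) y = y := by rw [pow_zero, AlgEquiv.one_apply]
    rw [h3, hy, h4] at h2
    exact (add_right_cancel h2).symm
  have hgiz : ∀ i, (g ^ i) z = z := by
    intro i
    induction i with
    | zero => rw [pow_zero, AlgEquiv.one_apply]
    | succ i ih => rw [aut_pow_succ, ih, hgz]
  set w : FQb := m * y - z with hw
  have hm' : (m : FQb) ≠ 0 := Nat.cast_ne_zero.mpr hm0.ne'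
  by_cases hw0 : w = 0
  · have h1 : (m : FQb) * y = z := sub_eq_zero.mp hw0
    have h2 : (m : FQb) * g y = m * y := by
      rw [← map_natCast g m, ← map_mul, map_natCast, h1, hgz]
    exact mul_left_cancel₀ hm' h2
  exfalso
  have hsum : ∑ i ∈ Finset.range m, (g ^ i) w = 0 := by
    have h1 : ∀ i, (g ^ i) w = m * (g ^ i) y - z := by
      intro i
      rw [hw, map_sub, map_mul, map_natCast, hgiz]
    simp only [h1, Finset.sum_sub_distrib, ← Finset.mul_sum]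
    rw [← hz, Finset.sum_const, Finset.card_range, nsmul_eq_mul, sub_self]
  have h1 : (m : FQb) * w = -∑ i ∈ Finset.range m, ((g ^ i) w - w) := by
    rw [Finset.sum_sub_distrib, hsum, Finset.sum_const, Finset.card_range, nsmul_eq_mul]
    ring
  have h2 : nm p ((m : FQb) * w) = nm p w := by
    rw [nm_mul, nm_natCast_eq_one hm, one_mul]
  have h3 : nm p ((m : FQb) * w) < nm p w := by
    rw [h1, nm_neg]
    exact nm_sum_lt _ _ (nm_pos.mpr hw0) fun i _ => ((Wild p).pow_mem hg i).2 w hw0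
  rw [h2] at h3
  exact lt_irrefl _ h3

/-- wild inertia acts through a `p`-group on every finite Galois extension -/
theorem exists_pow_fixes {g : FGQ} (hg : g ∈ Wild p) (L : IntermediateField ℚ FQb)
    [FiniteDimensional ℚ L] : ∃ s : ℕ, ∀ y ∈ L, (g ^ (p ^ s)) y = y := by
  classical
  obtain ⟨L', hL'fd, hL'gal, hL'⟩ := exists_galois_field
    (Set.range fun i => (((Module.finBasis ℚ L) i : L) : FQb)) (Set.finite_range _)
  have hLL' : L ≤ L' := by
    intro y hy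
    have h1 := (Module.finBasis ℚ L).sum_repr ⟨y, hy⟩
    have h2 : y = ∑ i, (Module.finBasis ℚ L).repr ⟨y, hy⟩ i • (((Module.finBasis ℚ L) i : L) : FQb) := by
      have h3 := congrArg (fun z : L => (z : FQb)) h1
      simp only [AddSubmonoidClass.coe_finsetSum] at h3
      exact h3.symm
    rw [h2]
    exact sum_mem fun i _ => L'.smul_mem (hL' ⟨i, rfl⟩)
  have : Finite (L' ≃ₐ[ℚ] L') := inferInstance
  set N := Nat.card (L' ≃ₐ[ℚ] L') with hN
  have hN0 : N ≠ 0 := Nat.card_pos.ne'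
  obtain ⟨s, m, hm, hNm⟩ := Nat.exists_eq_pow_mul_and_not_dvd hN0 p (Fact.out : p.Prime).ne_one
  refine ⟨s, fun y hy => ?_⟩
  have hm0 : 0 < m := by
    rcases Nat.eq_zero_or_pos m with h0 | h0
    · rw [h0, mul_zero] at hNm
      exact absurd hNm hN0
    · exact h0
  apply fixed_of_pow_fixed ((Wild p).pow_mem hg _)
    ((Nat.Prime.coprime_iff_not_dvd Fact.out).mpr hm).symm hm0
  rw [← pow_mul, ← hNm]
  have h1 : (AlgEquiv.restrictNormalHom L' g) ^ N = 1 := pow_card_eq_one'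
  rw [← map_pow] at h1
  have h2 := AlgEquiv.restrictNormal_commutes (g ^ N) L' ⟨y, hLL' hy⟩
  have h3 : (g ^ N).restrictNormal L' = 1 := h1
  rw [h3] at h2
  exact h2.symm

/-- `σ y / y` modulo the maximal ideal only depends on the absolute value of `y` -/
theorem rs_div_congr {σ : FGQ} (hσ : σ ∈ Ip p) {y y' : FQb} (hy : y ≠ 0) (hy' : y' ≠ 0)
    (h : nm p y = nm p y') : rs (p := p) (σ y / y) = rs (p := p) (σ y' / y') := by
  have hpos : 0 < nm p y' := nm_pos.mpr hy'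
  have h1 : nm p (σ y / y) = 1 := by
    rw [nm_div, nm_dec (Ip_le_Dp hσ), div_self (nm_pos.mpr hy).ne']
  have h2 : nm p (σ y' / y') = 1 := by
    rw [nm_div, nm_dec (Ip_le_Dp hσ), div_self hpos.ne']
  rw [rs_eq_iff h1.le h2.le]
  have hu : nm p (y / y') = 1 := by rw [nm_div, h, div_self hpos.ne']
  have hσy : σ y' ≠ 0 := (map_ne_zero σ).mpr hy'
  have h3 : σ y / y - σ y' / y' = (σ (y / y') - y / y') * (σ y' / y) := by
    rw [map_div₀]
    field_simp
  rw [h3, nm_mul]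
  have h4 : nm p (σ y' / y) = 1 := by
    rw [nm_div, nm_dec (Ip_le_Dp hσ), h, div_self hpos.ne']
  rw [h4, mul_one]
  exact nm_inertia hσ hu.le

theorem nm_sigma_div {σ : FGQ} (hσ : σ ∈ Dp p) {y : FQb} (hy : y ≠ 0) : nm p (σ y / y) = 1 := by
  rw [nm_div, nm_dec hσ, div_self (nm_pos.mpr hy).ne']

theorem rs_mul_div {σ τ : FGQ} (hσ : σ ∈ Ip p) (hτ : τ ∈ Ip p) {y : FQb} (hy : y ≠ 0) :
    rs (p := p) ((σ * τ) y / y) = rs (p := p) (σ y / y) * rs (p := p) (τ y / y) := by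
  have hτy : τ y ≠ 0 := (map_ne_zero τ).mpr hy
  have h1 : (σ * τ) y / y = (σ (τ y) / τ y) * (τ y / y) := by
    rw [AlgEquiv.mul_apply]
    field_simp
  rw [h1, rs_mul (nm_sigma_div (Ip_le_Dp hσ) hτy).le (nm_sigma_div (Ip_le_Dp hτ) hy).le,
    rs_div_congr hσ hτy hy (nm_dec (Ip_le_Dp hτ) y)]

theorem rs_pow_div {σ : FGQ} (hσ : σ ∈ Ip p) {y : FQb} (hy : y ≠ 0) (k : ℕ) :
    rs (p := p) ((σ ^ k) y / y) = rs (p := p) (σ y / y) ^ k := by
  induction k with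
  | zero =>
    rw [pow_zero, pow_zero, AlgEquiv.one_apply, div_self hy, rs_of_le (by simp)]
    exact map_one _
  | succ k ih => rw [pow_succ', rs_mul_div hσ ((Ip p).pow_mem hσ k) hy, ih, pow_succ']

/-- **Frobenius acts on tame inertia by raising to the `p`-th power** -/
theorem frob_conj_mem_Wild {σ : FGQ} (hσ : σ ∈ Ip p) (φ : FGQ) (hφ : φ ∈ Dp p)
    (hφ' : ∀ x, nm p x ≤ 1 → nm p (φ x - x ^ p) < 1) :
    (σ ^ p)⁻¹ * (φ * σ * φ⁻¹) ∈ Wild p := by
  have hconj : φ * σ * φ⁻¹ ∈ Ip p := by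
    rw [mem_Ip_iff]
    refine ⟨(Dp p).mul_mem ((Dp p).mul_mem hφ (Ip_le_Dp hσ)) ((Dp p).inv_mem hφ), ?_⟩
    intro x hx
    have h1 : (φ * σ * φ⁻¹) x - x = φ (σ (φ⁻¹ x) - φ⁻¹ x) := by
      rw [map_sub, AlgEquiv.mul_apply, AlgEquiv.mul_apply,
        show φ (φ⁻¹ x) = x from φ.apply_symm_apply x]
    rw [h1, nm_dec hφ]
    apply nm_inertia hσ
    rwa [nm_dec ((Dp p).inv_mem hφ)]
  refine ⟨(Ip p).mul_mem ((Ip p).inv_mem ((Ip p).pow_mem hσ p)) hconj, fun y hy => ?_⟩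
  have hσp : σ ^ p ∈ Ip p := (Ip p).pow_mem hσ p
  have h0 : (σ ^ p) (((σ ^ p)⁻¹ * (φ * σ * φ⁻¹)) y - y) = (φ * σ * φ⁻¹) y - (σ ^ p) y := by
    rw [map_sub, AlgEquiv.mul_apply, show (σ ^ p) ((σ ^ p)⁻¹ ((φ * σ * φ⁻¹) y)) =
      (φ * σ * φ⁻¹) y from (σ ^ p).apply_symm_apply _]
  rw [← nm_dec (Ip_le_Dp hσp), h0]
  -- compare the residues
  set y' := φ⁻¹ y with hy'
  have hy'0 : y' ≠ 0 := (map_ne_zero _).mpr hy
  have hnm : nm p y' = nm p y := nm_dec ((Dp p).inv_mem hφ) y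
  have hφy' : φ y' = y := φ.apply_symm_apply y
  have h1 : (φ * σ * φ⁻¹) y / y = φ (σ y' / y') := by
    rw [map_div₀, hφy', AlgEquiv.mul_apply, AlgEquiv.mul_apply]
  have h2 : nm p (σ y' / y') = 1 := nm_sigma_div (Ip_le_Dp hσ) hy'0
  have h3 : rs (p := p) (φ (σ y' / y')) = rs (p := p) (σ y' / y') ^ p := by
    rw [← rs_pow h2.le]
    refine (rs_eq_iff (by rw [nm_dec hφ, h2]) ?_).mpr (hφ' _ h2.le)
    rw [nm_pow, h2, one_pow]
  have h4 : rs (p := p) ((φ * σ * φ⁻¹) y / y) = rs (p := p) ((σ ^ p) y / y) := by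
    rw [h1, h3, rs_pow_div hσ hy, rs_div_congr hσ hy'0 hy hnm]
  rw [rs_eq_iff (nm_sigma_div (Ip_le_Dp hconj) hy).le (nm_sigma_div (Ip_le_Dp hσp) hy).le,
    ← sub_div, nm_div, div_lt_one (nm_pos.mpr hy)] at h4
  exact h4

end Fermat.Agent.H29
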