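import Fermat.Agent.H29FK1f
import Fermat.Agent.H29FWild
import Fermat.Agent.H63Cyclo

/-!
# S56-[B4], K1 : eigenlines of the decomposition group in the connected part
-/

set_option autoImplicit false

noncomputable section

namespace Fermat.Agent.H29

open Fermat.Agent.H64 Fermat.Agent.H53 Fermat.Agent.H56 Fermat.Agent.H55 GaloisRep ExtCitation

variable {p : ℕ} [Fact p.Prime] {k : Type} [Field k] [Algebra (ZMod p) k]

/-- fixed points of the Frobenius of a field of characteristic `p` -/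
theorem exists_nat_of_pow_eq {x : k} (hx : x ^ p = x) : ∃ m : ℕ, (m : k) = x := by
  classical
  have hp : p.Prime := Fact.out
  by_contra hcon
  push Not at hcon
  set S : Finset k := (Finset.univ : Finset (ZMod p)).image (algebraMap (ZMod p) k) with hS
  have hScard : S.card = p := by
    rw [hS, Finset.card_image_of_injective _ (algebraMap (ZMod p) k).injective, Finset.card_univ,
      ZMod.card]
  have hxS : x ∉ S := by
    intro h
    rw [hS, Finset.mem_image] at h
    obtain ⟨a, -, ha⟩ := h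
    apply hcon a.val
    rw [← ha, ← map_natCast (algebraMap (ZMod p) k), ZMod.natCast_zmod_val]
  set P : Polynomial k := Polynomial.X ^ p - Polynomial.X with hP
  have hdeg : P.natDegree = p := FiniteField.X_pow_card_sub_X_natDegree_eq k hp.one_lt
  have hP0 : P ≠ 0 := by
    intro h0
    rw [h0, Polynomial.natDegree_zero] at hdeg
    exact hp.ne_zero hdeg.symm
  have hsub : (insert x S : Finset k).val ⊆ P.roots := by
    intro y hy
    rw [Polynomial.mem_roots hP0, Polynomial.IsRoot.def, hP, Polynomial.eval_sub,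
      Polynomial.eval_pow, Polynomial.eval_X, sub_eq_zero]
    rw [Finset.mem_val, Finset.mem_insert] at hy
    rcases hy with rfl | hy
    · exact hx
    · rw [hS, Finset.mem_image] at hy
      obtain ⟨a, -, rfl⟩ := hy
      rw [← map_pow, ZMod.pow_card]
  have h1 := Polynomial.card_le_degree_of_subset_roots hsub
  rw [Finset.card_insert_of_notMem hxS, hScard, hdeg] at h1
  omega

theorem charP_of_algebra : CharP k p := charP_of_injective_algebraMap
  (algebraMap (ZMod p) k).injective p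

theorem natCast_p_eq_zero : (p : k) = 0 := by
  have := charP_of_algebra (p := p) (k := k)
  exact CharP.cast_eq_zero k p

/-- the mod `p` cyclotomic character is nontrivial on inertia -/
theorem exists_cycloChar_ne_one (hp2 : p ≠ 2) : ∃ σ ∈ Ip p, cycloChar p σ ≠ 1 := by
  have hp : p.Prime := Fact.out
  have : NeZero (p : FQb) := ⟨Nat.cast_ne_zero.mpr hp.ne_zero⟩
  obtain ⟨ζ, hζ⟩ := HasEnoughRootsOfUnity.exists_primitiveRoot FQb p
  by_contra hcon
  push Not at hcon
  have hfix : FixI p (ζ - 1) := by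
    intro σ hσ
    rw [map_sub, map_one, (H63.cycloChar_eq_one_iff hζ).mp (hcon σ hσ)]
  have hne : ζ ≠ 1 := hζ.ne_one hp.one_lt
  obtain ⟨m, hm⟩ := hfix.exists_zpow (sub_ne_zero.mpr hne)
  have h1 := nm_zeta_sub_one hζ.pow_eq_one hne
  rw [hm, ← zpow_natCast, ← zpow_mul] at h1
  have h2 : nm p (p : FQb) ^ (m * ((p - 1 : ℕ) : ℤ)) = nm p (p : FQb) ^ (1 : ℤ) := by
    rw [h1, zpow_one]
  have h3 := nm_p_zpow_inj h2
  have h4 : ((p - 1 : ℕ) : ℤ) ∣ 1 := ⟨m, by rw [mul_comm]; exact h3.symm⟩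
  have h5 : (p - 1 : ℕ) ∣ 1 := by exact_mod_cast h4
  have h6 := Nat.dvd_one.mp h5
  have := hp.two_le
  omega

section Line

variable {r : FGQ →* M2 k}

/-- eigenvalues of wild inertia on an eigenline -/
theorem wild_eigenvalue (hr : FinLev r) {x : Fin 2 → k} (hx0 : x ≠ 0) {g : FGQ} (hg : g ∈ Wild p)
    {c : k} (hc : (r g).mulVec x = c • x) : c = 1 := by
  obtain ⟨U, hU, hU'⟩ := hr
  obtain ⟨F, hF, hFU⟩ := (krullLevels_op_iff U).mp hU
  obtain ⟨s, hs⟩ := exists_pow_fixes hg F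
  have h1 : r (g ^ (p ^ s)) = 1 := by
    apply hU'
    apply hFU
    rw [IntermediateField.mem_fixingSubgroup_iff]
    exact hs
  have h2 : ∀ m : ℕ, (r (g ^ m)).mulVec x = c ^ m • x := by
    intro m
    induction m with
    | zero => rw [pow_zero, pow_zero, map_one, Matrix.one_mulVec, one_smul]
    | succ m ih =>
      rw [pow_succ', map_mul, ← Matrix.mulVec_mulVec, ih, Matrix.mulVec_smul, hc, smul_smul,
        pow_succ]
  have h3 := h2 (p ^ s)
  rw [h1, Matrix.one_mulVec] at h3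
  have h4 : c ^ (p ^ s) = 1 := by
    have h5 : (c ^ (p ^ s) - 1) • x = 0 := by rw [sub_smul, one_smul, ← h3, sub_self]
    rcases smul_eq_zero.mp h5 with h6 | h6
    · exact sub_eq_zero.mp h6
    · exact absurd h6 hx0
  have := charP_of_algebra (p := p) (k := k)
  have h5 : (c - 1) ^ (p ^ s) = 0 := by
    rw [sub_pow_char_pow, h4, one_pow, sub_self]
  exact sub_eq_zero.mp ((pow_eq_zero_iff (pow_pos (Fact.out : p.Prime).pos s).ne').mp h5)

/-- the character of inertia on a line stable under the decomposition group has values in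
`𝔽_p` -/
theorem inertia_eigenvalue (hr : FinLev r) {x : Fin 2 → k} (hx0 : x ≠ 0)
    (hx : ∀ σ ∈ Dp p, ∃ c : k, (r σ).mulVec x = c • x) {σ : FGQ} (hσ : σ ∈ Ip p) :
    ∃ m : ℕ, (r σ).mulVec x = m • x := by
  obtain ⟨c, hc⟩ := hx σ (Ip_le_Dp hσ)
  obtain ⟨φ, hφ, hφ'⟩ := exists_frobenius p
  obtain ⟨b, hb⟩ := hx φ hφ
  obtain ⟨b', hb'⟩ := hx φ⁻¹ ((Dp p).inv_mem hφ)
  have hbb : b' * b = 1 := by
    have h1 : (r (φ⁻¹ * φ)).mulVec x = (b' * b) • x := by
      rw [map_mul, ← Matrix.mulVec_mulVec, hb, Matrix.mulVec_smul, hb', smul_smul, mul_comm b b']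
    rw [inv_mul_cancel, map_one, Matrix.one_mulVec] at h1
    have h5 : (b' * b - 1) • x = 0 := by rw [sub_smul, one_smul, ← h1, sub_self]
    rcases smul_eq_zero.mp h5 with h6 | h6
    · exact sub_eq_zero.mp h6
    · exact absurd h6 hx0
  have hconj : (r (φ * σ * φ⁻¹)).mulVec x = c • x := by
    rw [map_mul, map_mul, ← Matrix.mulVec_mulVec, hb', Matrix.mulVec_smul, ← Matrix.mulVec_mulVec,
      hc, Matrix.mulVec_smul, hb, smul_smul, smul_smul]
    congr 1
    linear_combination c * hbb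
  have hpow : ∀ m : ℕ, (r (σ ^ m)).mulVec x = c ^ m • x := by
    intro m
    induction m with
    | zero => rw [pow_zero, pow_zero, map_one, Matrix.one_mulVec, one_smul]
    | succ m ih =>
      rw [pow_succ', map_mul, ← Matrix.mulVec_mulVec, ih, Matrix.mulVec_smul, hc, smul_smul,
        pow_succ]
  have hw := frob_conj_mem_Wild hσ φ hφ hφ'
  obtain ⟨d, hd⟩ := hx _ (Ip_le_Dp (Wild_le_Ip hw))
  have hd1 := wild_eigenvalue hr hx0 hw hd
  rw [hd1, one_smul] at hd
  have h1 : (r (φ * σ * φ⁻¹)).mulVec x = c ^ p • x := by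
    have h2 : φ * σ * φ⁻¹ = σ ^ p * ((σ ^ p)⁻¹ * (φ * σ * φ⁻¹)) := by group
    rw [h2, map_mul, ← Matrix.mulVec_mulVec, hd, hpow]
  have h2 : c ^ p = c := by
    rw [hconj] at h1
    have h5 : (c ^ p - c) • x = 0 := by rw [sub_smul, ← h1, sub_self]
    rcases smul_eq_zero.mp h5 with h6 | h6
    · exact sub_eq_zero.mp h6
    · exact absurd h6 hx0
  obtain ⟨m, hm⟩ := exists_nat_of_pow_eq (p := p) h2
  refine ⟨m, ?_⟩
  rw [hc, ← hm, Nat.cast_smul_eq_nsmul]

theorem cast_eq_cycloChar {ζ : FQb} (hζ : IsPrimitiveRoot ζ p) {σ : FGQ} {m : ℕ}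
    (h : σ ζ = ζ ^ m) : (m : k) = algebraMap (ZMod p) k (cycloChar p σ : ZMod p) := by
  have h0 : σ ζ = ζ ^ (cycloChar p σ : ZMod p).val := H63.apply_of_pow_eq_one p σ hζ.pow_eq_one
  have h1 : ζ ^ (cycloChar p σ : ZMod p).val = ζ ^ m := h0.symm.trans h
  have hp : p.Prime := Fact.out
  have h2 : (cycloChar p σ : ZMod p).val = m % p := by
    apply hζ.pow_inj (ZMod.val_lt _) (Nat.mod_lt _ hp.pos)
    rw [h1]
    conv_lhs => rw [← Nat.mod_add_div m p, pow_add, pow_mul, hζ.pow_eq_one, one_pow, mul_one]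
  have h3 : ((cycloChar p σ : ZMod p).val : ZMod p) = (m : ZMod p) := by
    rw [h2, ZMod.natCast_mod]
  rw [ZMod.natCast_zmod_val] at h3
  rw [h3, map_natCast]

/-- **no stable line when everything is connected** -/
theorem no_stable_line [Finite k] (hp2 : p ≠ 2) (hr : FinLev r) (hdet : DetCyc p r) {n : ℕ}
    {e : Fin n → (Fin 2 → k) → FQb} {a : Fin n → Fin n → Fin n → ℚ}
    (h : FData p (fun σ x => (r σ).mulVec x) n e a) (hall : ∀ x, InW0 p e x) :
    ¬ ∃ x : Fin 2 → k, x ≠ 0 ∧ ∀ σ ∈ Dp p, ∃ c : k, (r σ).mulVec x = c • x := by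
  classical
  rintro ⟨x, hx0, hx⟩
  have hp : p.Prime := Fact.out
  have hpk : (p : k) = 0 := natCast_p_eq_zero
  have hpW := nsmul_eq_zero_of_cast (B := k) hpk
  choose! m hm using fun σ (hσ : σ ∈ Ip p) => inertia_eigenvalue hr hx0 hx hσ
  obtain ⟨-, hchar⟩ := size_and_char h hpW hx0 (hall x) m hm
  -- the eigenvalue is the cyclotomic character
  have : NeZero (p : FQb) := ⟨Nat.cast_ne_zero.mpr hp.ne_zero⟩
  obtain ⟨ζ, hζ⟩ := HasEnoughRootsOfUnity.exists_primitiveRoot FQb p
  have hmχ : ∀ σ ∈ Ip p, (m σ : k) = algebraMap (ZMod p) k (cycloChar p σ : ZMod p) := by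
    intro σ hσ
    exact cast_eq_cycloChar hζ (hchar σ hσ ζ hζ.pow_eq_one)
  -- a complementary vector
  obtain ⟨y, hy⟩ : ∃ y : Fin 2 → k, IsUnit (Matrix.of ![![x 0, y 0], ![x 1, y 1]]) := by
    by_cases h0 : x 0 = 0
    · have h1 : x 1 ≠ 0 := by
        intro h1
        apply hx0
        ext i
        fin_cases i
        · exact h0
        · exact h1
      refine ⟨![1, 0], ?_⟩
      rw [Matrix.isUnit_iff_isUnit_det, isUnit_iff_ne_zero]
      simp [Matrix.det_fin_two, h0, h1]
    · refine ⟨![0, 1], ?_⟩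
      rw [Matrix.isUnit_iff_isUnit_det, isUnit_iff_ne_zero]
      simp [Matrix.det_fin_two, h0]
  set g : M2 k := Matrix.of ![![x 0, y 0], ![x 1, y 1]] with hg
  have hg1 : g.mulVec ![1, 0] = x := by
    ext i
    fin_cases i <;> simp [hg, Matrix.mulVec, dotProduct, Fin.sum_univ_two]
  have hg2 : g.mulVec ![0, 1] = y := by
    ext i
    fin_cases i <;> simp [hg, Matrix.mulVec, dotProduct, Fin.sum_univ_two]
  have hgdet : g.det ≠ 0 := by
    rw [← isUnit_iff_ne_zero, ← Matrix.isUnit_iff_isUnit_det]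
    exact hy
  -- the line
  let T : AddSubgroup (Fin 2 → k) := (k ∙ x).toAddSubgroup
  have hT : ∀ {z : Fin 2 → k}, z ∈ T ↔ ∃ b : k, b • x = z := by
    intro z
    exact Submodule.mem_span_singleton
  have key : ∀ σ ∈ Ip p, ∃ t : k, (r σ).mulVec y = t • x + y := by
    intro σ hσ
    obtain ⟨c, hc⟩ := hx σ (Ip_le_Dp hσ)
    obtain ⟨α, t, Z, hN, -⟩ := exists_triangular g hy (r σ) ⟨c, by rw [hg1, hc]⟩
    have hα : α = (m σ : k) := by
      have h1 : (r σ).mulVec x = α • x := by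
        have h2 : (r σ * g).mulVec ![1, 0] = (g * !![α, t; 0, Z]).mulVec ![1, 0] := by rw [hN]
        rw [← Matrix.mulVec_mulVec, hg1, ← Matrix.mulVec_mulVec] at h2
        have h3 : (!![α, t; 0, Z] : M2 k).mulVec ![1, 0] = α • ![1, 0] := by
          ext i
          fin_cases i <;> simp [Matrix.mulVec, dotProduct, Fin.sum_univ_two]
        rw [h3, Matrix.mulVec_smul, hg1] at h2
        exact h2
      rw [hm σ hσ, ← Nat.cast_smul_eq_nsmul k] at h1
      have h5 : ((m σ : k) - α) • x = 0 := by rw [sub_smul, h1, sub_self]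
      rcases smul_eq_zero.mp h5 with h6 | h6
      · exact (sub_eq_zero.mp h6).symm
      · exact absurd h6 hx0
    have hZ : Z = 1 := by
      have h1 := congrArg Matrix.det hN
      have hdetT : (!![α, t; 0, Z] : M2 k).det = α * Z := by
        rw [Matrix.det_fin_two_of, mul_zero, sub_zero]
      rw [Matrix.det_mul, Matrix.det_mul, hdet σ, hdetT, ← hmχ σ hσ, hα] at h1
      have hm0 : (m σ : k) ≠ 0 := by
        rw [hmχ σ hσ]
        exact (map_ne_zero _).mpr (Units.ne_zero _)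
      have h2 : g.det * (m σ : k) * (Z - 1) = 0 := by linear_combination -h1
      rcases mul_eq_zero.mp h2 with h3 | h3
      · exact absurd h3 (mul_ne_zero hgdet hm0)
      · exact sub_eq_zero.mp h3
    refine ⟨t, ?_⟩
    have h2 : (r σ * g).mulVec ![0, 1] = (g * !![α, t; 0, Z]).mulVec ![0, 1] := by rw [hN]
    rw [← Matrix.mulVec_mulVec, hg2, ← Matrix.mulVec_mulVec] at h2
    have h3 : (!![α, t; 0, Z] : M2 k).mulVec ![0, 1] = t • ![1, 0] + ![0, 1] := by
      ext i
      fin_cases i <;> simp [Matrix.mulVec, dotProduct, Fin.sum_univ_two, hZ]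
    rw [h3, Matrix.mulVec_add, Matrix.mulVec_smul, hg1, hg2] at h2
    exact h2
  have hyT : y ∈ T := by
    apply mem_of_act_sub_mem h hp2 hpW T _ (hall y)
    · intro σ hσ
      obtain ⟨t, ht⟩ := key σ hσ
      show (r σ).mulVec y - y ∈ T
      rw [ht, add_sub_cancel_right]
      exact hT.mpr ⟨t, rfl⟩
    · intro σ hσ z hz
      obtain ⟨b, rfl⟩ := hT.mp hz
      obtain ⟨c, hc⟩ := hx σ (Ip_le_Dp hσ)
      show (r σ).mulVec (b • x) ∈ T
      rw [Matrix.mulVec_smul, hc, smul_smul]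
      exact hT.mpr ⟨_, rfl⟩
  obtain ⟨b, hb⟩ := hT.mp hyT
  apply hgdet
  rw [hg, Matrix.det_fin_two]
  have hb0 := congrFun hb 0
  have hb1 := congrFun hb 1
  simp only [Pi.smul_apply, smul_eq_mul] at hb0 hb1
  simp [← hb0, ← hb1]
  ring

end Line

end Fermat.Agent.H29
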