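import Fermat.Agent.H29FK1h

/-!
# The connected part of a finite flat group scheme killed by a power of `p`
-/

set_option autoImplicit false

noncomputable section

namespace Fermat.Agent.H29

open Fermat.Agent.H64 GaloisRep

variable {p : ℕ} [Fact p.Prime] {W : Type*} [AddCommGroup W] {act : FGQ → W → W} {n n' : ℕ}
  {e : Fin n → W → FQb} {a : Fin n → Fin n → Fin n → ℚ}
  {e' : Fin n' → W → FQb} {a' : Fin n' → Fin n' → Fin n' → ℚ}

/-- **uniqueness of the connected part**: a point of the connected part on which inertia acts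
trivially modulo `T` lies in `T` -/
theorem mem_of_act_sub_mem_one [Finite W] (h : FData p act n e a) (hp2 : p ≠ 2)
    (T : AddSubgroup W) (hT : ∀ σ ∈ Ip p, ∀ t ∈ T, act σ t ∈ T)
    {x : W} (hx : InW0 p e x) (hpx : p • x ∈ T) (hxT : ∀ σ ∈ Ip p, act σ x - x ∈ T) :
    x ∈ T := by
  classical
  have hp : p.Prime := Fact.out
  have hp3 : 2 < p := lt_of_le_of_ne hp.two_le (Ne.symm hp2)
  obtain ⟨P, hPN, hPid⟩ := exists_retraction (p := p) (e := e) T
  choose c hcN hc using fun i => exists_trace h T hT i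
  -- the functional attached to `x` on the invariants
  set u := uu e x with hu
  let L : (Fin n → OG p (Ip p)) → FQb := fun d => ∑ j, (d j : FQb) * u j
  have hLN : ∀ d ∈ NT p e T, L d ≠ 0 → ∃ k : ℕ, 0 < k ∧ nm p (L d) = nm p (p : FQb) ^ k := by
    intro d hd hd0
    have hLd : L d = ∑ j, (d j : FQb) * e j x - ∑ j, (d j : FQb) * e j 0 := by
      rw [← Finset.sum_sub_distrib]
      refine Finset.sum_congr rfl fun j _ => ?_
      rw [hu, uu]
      ring
    have hfix : FixI p (L d) := by
      intro σ hσ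
      rw [hLd, map_sub, map_sum, map_sum]
      congr 1
      · have h1 : act σ x = x + (act σ x - x) := by abel
        have h2 := hd x _ (hxT σ hσ)
        rw [← h1] at h2
        rw [← h2]
        refine Finset.sum_congr rfl fun j _ => ?_
        rw [map_mul, (d j).2.1 σ hσ, h.equiv]
      · refine Finset.sum_congr rfl fun j _ => ?_
        rw [map_mul, (d j).2.1 σ hσ, h.fix_zero]
    have hlt : nm p (L d) < 1 := by
      refine nm_sum_lt _ _ zero_lt_one fun j _ => ?_
      rw [nm_mul]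
      exact lt_of_le_of_lt (mul_le_of_le_one_left (nm_nonneg _) (d j).2.2) (hx j)
    obtain ⟨k, hk⟩ := hfix.exists_zpow hd0
    have hkpos : 0 < k := by
      by_contra hcon
      rw [not_lt] at hcon
      rw [hk] at hlt
      exact absurd hlt (not_lt.mpr (one_le_zpow_of_nonpos₀ (nm_p_pos p) (nm_p_lt_one p).le hcon))
    obtain ⟨m, rfl⟩ := Int.eq_ofNat_of_zero_le hkpos.le
    exact ⟨m, by exact_mod_cast hkpos, by rw [hk, zpow_natCast]⟩
  by_cases hall : ∀ d ∈ NT p e T, L d = 0
  · -- all invariant functions agree at `x` and `0`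
    have := Fintype.ofFinite W
    have hcard : (Nat.card T : FQb) ≠ 0 := Nat.cast_ne_zero.mpr Nat.card_pos.ne'
    by_contra hxT'
    let F₀ : W → FQb := fun y => if y ∈ T then 1 else 0
    obtain ⟨F, hF⟩ := h.span F₀
    have hF' : ∀ z, ∑ i, F i * e i z = F₀ z := by
      intro z
      have h1 := congrFun hF z
      rw [Finset.sum_apply] at h1
      exact h1.symm
    have hinv : InvF e T F := by
      intro z t ht
      rw [hF', hF']
      show (if z + t ∈ T then (1 : FQb) else 0) = if z ∈ T then 1 else 0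
      simp only [T.add_mem_cancel_right ht]
    have h1 : ∑ j, F j * u j = 0 := by
      have h2 : (Nat.card T : FQb) * ∑ j, F j * u j = 0 := by
        rw [Finset.mul_sum]
        have h3 : ∀ j, (Nat.card T : FQb) * (F j * u j) = ∑ i, F i * ((c i j : FQb) * u j) := by
          intro j
          rw [← mul_assoc, hinv.eq_combination h hc, Finset.sum_mul]
          exact Finset.sum_congr rfl fun i _ => by ring
        simp only [h3]
        rw [Finset.sum_comm]
        apply Finset.sum_eq_zero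
        intro i _
        rw [← Finset.mul_sum, show ∑ j, (c i j : FQb) * u j = 0 from hall _ (hcN i), mul_zero]
      exact (mul_eq_zero.mp h2).resolve_left hcard
    have h2 : ∑ j, F j * u j = F₀ x - F₀ 0 := by
      rw [← hF', ← hF', ← Finset.sum_sub_distrib]
      refine Finset.sum_congr rfl fun j _ => ?_
      rw [hu, uu]
      ring
    have h3 : F₀ x = 0 := if_neg hxT'
    have h4 : F₀ 0 = 1 := if_pos T.zero_mem
    rw [h2, h3, h4] at h1
    norm_num at h1
  -- the minimal valuation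
  exfalso
  push Not at hall
  have hex : ∃ k : ℕ, ∃ d ∈ NT p e T, L d ≠ 0 ∧ nm p (L d) = nm p (p : FQb) ^ k := by
    obtain ⟨d, hd, hd0⟩ := hall
    obtain ⟨k, -, hk⟩ := hLN d hd hd0
    exact ⟨k, d, hd, hd0, hk⟩
  obtain ⟨d, hdN, hd0, hdk⟩ := Nat.find_spec hex
  set ρ := nm p (L d) with hρ
  have hρpos : 0 < ρ := nm_pos.mpr hd0
  have hρle : ρ ≤ nm p (p : FQb) := by
    obtain ⟨k, hk, hk'⟩ := hLN d hdN hd0
    rw [hρ, hk']
    exact pow_le_of_le_one (nm_p_pos p).le (nm_p_lt_one p).le hk.ne'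
  have hρ1 : ρ < 1 := hρle.trans_lt (nm_p_lt_one p)
  have hmin : ∀ d' ∈ NT p e T, nm p (L d') ≤ ρ := by
    intro d' hd'
    by_cases h0 : L d' = 0
    · rw [h0, nm_zero]; exact hρpos.le
    obtain ⟨k, -, hk⟩ := hLN d' hd' h0
    rw [hk, hdk]
    refine pow_le_pow_of_le_one (nm_p_pos p).le (nm_p_lt_one p).le ?_
    exact Nat.find_min' hex ⟨d', hd', h0, hk⟩
  -- the modified functional
  let v : Fin n → FQb := fun i => L (P (Pi.single i 1))
  have hLlin : ∀ (s : Fin n → OG p (Ip p)), L (P s) = ∑ i, (s i : FQb) * v i := by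
    intro s
    have h1 : s = ∑ i, s i • (Pi.single i 1 : Fin n → OG p (Ip p)) := by
      rw [← pi_eq_sum_univ' s]
    have h2 : P s = ∑ i, s i • P (Pi.single i 1) := by
      conv_lhs => rw [h1]
      rw [map_sum]
      simp only [map_smul]
    show ∑ j, (P s j : FQb) * u j = ∑ i, (s i : FQb) * ∑ j, (P (Pi.single i 1) j : FQb) * u j
    rw [h2]
    simp only [Finset.sum_apply, Pi.smul_apply, smul_eq_mul, AddSubmonoidClass.coe_finsetSum,
      Subring.coe_mul, Finset.sum_mul, Finset.mul_sum]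
    rw [Finset.sum_comm]
    refine Finset.sum_congr rfl fun i _ => Finset.sum_congr rfl fun j _ => ?_
    ring
  have hv : ∀ i, nm p (v i) ≤ ρ := fun i => hmin _ (hPN _)
  have hvd : ∀ s ∈ NT p e T, ∑ i, (s i : FQb) * v i = L s := by
    intro s hs
    rw [← hLlin, hPid s hs]
  have hKK : KK e T (v - u) := by
    intro F hF
    have hcard : (Nat.card T : FQb) ≠ 0 := Nat.cast_ne_zero.mpr Nat.card_pos.ne'
    have h2 : (Nat.card T : FQb) * ∑ j, F j * (v - u) j = 0 := by
      rw [Finset.mul_sum]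
      have h3 : ∀ j, (Nat.card T : FQb) * (F j * (v - u) j) =
          ∑ i, F i * ((c i j : FQb) * (v - u) j) := by
        intro j
        rw [← mul_assoc, hF.eq_combination h hc, Finset.sum_mul]
        exact Finset.sum_congr rfl fun i _ => by ring
      simp only [h3]
      rw [Finset.sum_comm]
      apply Finset.sum_eq_zero
      intro i _
      rw [← Finset.mul_sum]
      have h4 : ∑ j, (c i j : FQb) * (v - u) j = 0 := by
        simp only [Pi.sub_apply, mul_sub, Finset.sum_sub_distrib]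
        rw [hvd _ (hcN i)]
        exact sub_self _
      rw [h4, mul_zero]
    exact (mul_eq_zero.mp h2).resolve_left hcard
  -- the relation
  have hrel : ∑ j ∈ Finset.range p, ((p.choose (j + 1) : ℕ) : FQb) *
      ∑ i, (d i : FQb) * pw a v j i = 0 := by
    have h1 : ∀ j, ∑ i, (d i : FQb) * pw a v j i = ∑ i, (d i : FQb) * pw a u j i := by
      intro j
      have h2 := hKK.pw_sub h j (fun i => (d i : FQb)) hdN
      simp only [Pi.sub_apply, mul_sub, Finset.sum_sub_distrib] at h2
      exact sub_eq_zero.mp h2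
    simp only [h1, Finset.mul_sum]
    rw [Finset.sum_comm]
    have h3 : ∀ i j, ((p.choose (j + 1) : ℕ) : FQb) * ((d i : FQb) * pw a u j i) =
        (d i : FQb) * (((p.choose (j + 1) : ℕ) : FQb) * pw a u j i) := fun i j => by ring
    simp only [h3, ← Finset.mul_sum]
    have h2 : ∀ i, (d i : FQb) * ∑ j ∈ Finset.range p, ((p.choose (j + 1) : ℕ) : FQb) *
        pw a u j i = (d i : FQb) * e i (p • x) - (d i : FQb) * e i 0 := by
      intro i
      rw [← uu_nsmul h, uu]
      ring
    simp only [h2, Finset.sum_sub_distrib]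
    have h4 := hdN 0 (p • x) hpx
    rw [zero_add] at h4
    exact sub_eq_zero.mpr h4
  have hbd : ∀ j, nm p (∑ i, (d i : FQb) * pw a v j i) ≤ ρ ^ (j + 1) := by
    intro j
    refine nm_sum_le _ _ (pow_nonneg hρpos.le _) fun i _ => ?_
    rw [nm_mul]
    exact (mul_le_of_le_one_left (nm_nonneg _) (d i).2.2).trans (nm_pw_le h hρpos.le hv j i)
  have hzero : ∑ i, (d i : FQb) * pw a v 0 i = L d := hvd d hdN
  have h8 : nm p (p : FQb) ≤ ρ ^ (p - 1) :=
    le_of_binomial_relation (fun j => ∑ i, (d i : FQb) * pw a v j i) hρpos hρ1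
      (by simp only [hzero]; exact hρ.symm) hbd p rfl hrel
  have h9 : ρ ^ (p - 1) ≤ nm p (p : FQb) ^ (p - 1) := pow_le_pow_left₀ hρpos.le hρle _
  have h10 : nm p (p : FQb) ^ (p - 1) < nm p (p : FQb) ^ 1 :=
    pow_lt_pow_right_of_lt_one₀ (nm_p_pos p) (nm_p_lt_one p) (by omega)
  rw [pow_one] at h10
  exact absurd (h8.trans h9) (not_le.mpr h10)

/-- general form -/
theorem mem_of_act_sub_mem_gen [Finite W] (h : FData p act n e a) (hp2 : p ≠ 2)
    (T : AddSubgroup W) (hT : ∀ σ ∈ Ip p, ∀ t ∈ T, act σ t ∈ T)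
    {x : W} (hx : InW0 p e x) (m : ℕ) (hpx : p ^ m • x ∈ T)
    (hxT : ∀ σ ∈ Ip p, act σ x - x ∈ T) : x ∈ T := by
  induction m generalizing x with
  | zero => rwa [pow_zero, one_smul] at hpx
  | succ m ih =>
    have h1 : p • x ∈ T := by
      apply ih (hx.nsmul h p)
      · rwa [← mul_smul, ← pow_succ]
      · intro σ hσ
        rw [act_nsmul h, ← smul_sub]
        exact T.nsmul_mem (hxT σ hσ) p
    exact mem_of_act_sub_mem_one h hp2 T hT hx h1 hxT

theorem InW0.change_gen [Finite W] (h : FData p act n e a) (h' : FData p act n' e' a')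
    (hp2 : p ≠ 2) {x : W} {m : ℕ} (hm : p ^ m • x = 0) (hx : InW0 p e x) : InW0 p e' x := by
  have h1 : x ∈ W0 h' := by
    apply mem_of_act_sub_mem_gen h hp2 (W0 h') _ hx m (by rw [hm]; exact (W0 h').zero_mem)
    · intro σ hσ
      exact act_sub_mem_W0 h' hσ x
    · intro σ hσ t ht
      exact (act_mem_W0_iff (Ip_le_Dp hσ)).mpr ht
  exact h1

theorem inW0_iff_gen [Finite W] (h : FData p act n e a) (h' : FData p act n' e' a') (hp2 : p ≠ 2)
    {x : W} {m : ℕ} (hm : p ^ m • x = 0) : InW0 p e x ↔ InW0 p e' x :=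
  ⟨InW0.change_gen h h' hp2 hm, InW0.change_gen h' h hp2 hm⟩

theorem InW0.map_equiv_gen [Finite W] (h : FData p act n e a) (hp2 : p ≠ 2)
    (g : W ≃+ W) (hg : ∀ σ x, g (act σ x) = act σ (g x)) {x : W} {m : ℕ} (hm : p ^ m • x = 0)
    (hx : InW0 p e x) : InW0 p e (g x) := by
  have h2 := InW0.change_gen (n' := n) h (FData_comp h g hg) hp2 hm hx
  intro i
  have h3 := h2 i
  rw [uu] at h3 ⊢
  simp only [map_zero] at h3
  exact h3

/-- no nonzero inertia invariants -/
theorem eq_zero_of_fixed_gen [Finite W] (h : FData p act n e a) (hp2 : p ≠ 2) {x : W} {m : ℕ}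
    (hm : p ^ m • x = 0) (hx : InW0 p e x) (hfix : ∀ σ ∈ Ip p, act σ x = x) : x = 0 := by
  have h1 : x ∈ (⊥ : AddSubgroup W) := by
    apply mem_of_act_sub_mem_gen h hp2 ⊥ _ hx m (by rw [hm]; exact AddSubgroup.zero_mem _)
    · intro σ hσ
      rw [hfix σ hσ, sub_self]
      exact AddSubgroup.zero_mem _
    · intro σ hσ t ht
      rw [AddSubgroup.mem_bot] at ht ⊢
      rw [ht, h.act_zero]
  exact h1

variable {V : Type*} [AddCommGroup V] {actV : FGQ → V → V} {m : ℕ}
  {eV : Fin m → V → FQb} {aV : Fin m → Fin m → Fin m → ℚ}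

/-- the connected part of a subobject -/
theorem inW0_sub_iff_gen [Finite W] (hW : H32.HasFlatOrder p W act) (i : V →+ W)
    (hi : Function.Injective i) (hact : ∀ σ v, i (actV σ v) = act σ (i v)) (hp2 : p ≠ 2)
    (h : FData p act n e a) (hV : FData p actV m eV aV) {v : V} {s : ℕ} (hs : p ^ s • v = 0) :
    InW0 p eV v ↔ InW0 p e (i v) := by
  have hfinV : Finite V := Finite.of_injective i hi
  have hs' : p ^ s • i v = 0 := by rw [← map_nsmul, hs, map_zero]
  obtain ⟨-, H, hH⟩ := hW
  obtain ⟨n₁, e₁, a₁, h₁, heH₁, hgen₁⟩ := exists_FData hH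
  obtain ⟨n₂, e₂, a₂, h₂, heH₂, hgen₂⟩ := exists_FData (hH.sub (actN := actV) i hi hact)
  rw [inW0_iff_gen hV h₂ hp2 hs, inW0_iff_gen h h₁ hp2 hs', inW0_iff_order heH₁ hgen₁,
    inW0_iff_order heH₂ hgen₂]
  constructor
  · intro hv f hf
    have h1 := hv (H32.pull (ratLocalizedAt p) i f) ⟨f, hf, rfl⟩
    have h2 : H32.pull (ratLocalizedAt p) i f 0 = f 0 := by
      show f (i 0) = f 0
      rw [map_zero]
    rw [h2] at h1
    exact h1
  · rintro hv _ ⟨f, hf, rfl⟩
    have h2 : H32.pull (ratLocalizedAt p) i f 0 = f 0 := by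
      show f (i 0) = f 0
      rw [map_zero]
    show nm p (H32.pull (ratLocalizedAt p) i f v - H32.pull (ratLocalizedAt p) i f 0) < 1
    rw [h2]
    exact hv f hf

/-- the connected part maps to the connected part -/
theorem InW0.map_gen [Finite W] [Finite V] (h : FData p act n e a) (hV : FData p actV m eV aV)
    (hp2 : p ≠ 2) (f : W →+ V) (hf : ∀ σ x, f (act σ x) = actV σ (f x)) {x : W} {s : ℕ}
    (hs : p ^ s • x = 0) (hx : InW0 p e x) : InW0 p eV (f x) := by
  have h1 : x ∈ (W0 hV).comap f := by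
    apply mem_of_act_sub_mem_gen h hp2 _ _ hx s (by rw [hs]; exact AddSubgroup.zero_mem _)
    · intro σ hσ
      rw [AddSubgroup.mem_comap, map_sub, hf]
      exact act_sub_mem_W0 hV hσ _
    · intro σ hσ t ht
      rw [AddSubgroup.mem_comap] at ht ⊢
      rw [hf]
      exact (act_mem_W0_iff (Ip_le_Dp hσ)).mpr ht
  exact h1

/-- the connected part of a flat matrix representation over a finite ring in which `p` is
nilpotent is a submodule -/
theorem inW0_smul_gen {B : Type} [CommRing B] [Finite B] {R : FGQ →* Matrix (Fin 2) (Fin 2) B}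
    {eB : Fin n → (Fin 2 → B) → FQb} {aB : Fin n → Fin n → Fin n → ℚ}
    (h : FData p (fun σ x => (R σ).mulVec x) n eB aB) (hp2 : p ≠ 2) {s : ℕ} (hs : (p : B) ^ s = 0)
    (b : B) {x : Fin 2 → B} (hx : InW0 p eB x) : InW0 p eB (b • x) := by
  have hs' : p ^ s • x = 0 := by
    funext i
    rw [Pi.smul_apply, nsmul_eq_mul, Nat.cast_pow, hs, zero_mul]
    rfl
  let f : (Fin 2 → B) →+ (Fin 2 → B) :=
    { toFun := fun y => b • y
      map_zero' := smul_zero b
      map_add' := smul_add b }
  exact InW0.map_gen h h hp2 f (fun σ y => by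
    show b • (R σ).mulVec y = (R σ).mulVec (b • y)
    exact (Matrix.mulVec_smul _ _ _).symm) hs' hx

end Fermat.Agent.H29
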