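import Mathlib
import Fermat.Agent.H53Matrix

/-!
# S56-[F], case II : linear algebra
-/

set_option autoImplicit false

noncomputable section

open Fermat.Agent.H53 Polynomial

namespace Fermat.Agent.H56

variable {k : Type} [Field k]

theorem exists_eigenvector {A : M2 k} {α β : k}
    (h : A.charpoly = (X - C α) * (X - C β)) : ∃ v : Fin 2 → k, v ≠ 0 ∧ A.mulVec v = α • v := by
  have h1 : (Matrix.scalar (Fin 2) α - A).det = 0 := by
    rw [← Matrix.eval_charpoly, h]
    simp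
  obtain ⟨v, hv, hv'⟩ := Matrix.exists_mulVec_eq_zero_iff.mpr h1
  refine ⟨v, hv, ?_⟩
  rw [Matrix.sub_mulVec, sub_eq_zero, Matrix.scalar_apply] at hv'
  rw [← hv']
  ext i
  rw [Matrix.mulVec_diagonal]
  rfl

theorem pow_mulVec_eig {A : M2 k} {v : Fin 2 → k} {g : k} (h : A.mulVec v = g • v) (n : ℕ) :
    (A ^ n).mulVec v = g ^ n • v := by
  induction n with
  | zero => simp
  | succ n ih => rw [pow_succ, ← Matrix.mulVec_mulVec, h, Matrix.mulVec_smul, ih, smul_smul, pow_succ]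
                 ring_nf

theorem eig_unique {v : Fin 2 → k} (hv : v ≠ 0) {c d : k} (h : c • v = d • v) : c = d := by
  obtain ⟨i, hi⟩ := Function.ne_iff.mp hv
  have := congrFun h i
  simp only [Pi.smul_apply, smul_eq_mul] at this
  exact mul_right_cancel₀ hi this

/-- from eigenvectors of `A ^ p` to eigenvectors of `A` -/
theorem eig_of_pow {A : M2 k} {m p : ℕ} (hm : 0 < m) (hmp : m.Coprime p) (hA : A ^ m = 1)
    {w : Fin 2 → k} (hw : w ≠ 0) {g : k} (h : (A ^ p).mulVec w = g • w) :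
    ∃ g' : k, A.mulVec w = g' • w ∧ g' ^ p = g := by
  obtain ⟨s, hs⟩ : ∃ s : ℕ, A ^ (p * s) = A := by
    rcases Nat.lt_or_ge 1 m with h1 | h1
    · obtain ⟨s, -, hs⟩ := Nat.exists_mul_mod_eq_one_of_coprime hmp.symm h1
      refine ⟨s, ?_⟩
      have h2 : p * s ≡ 1 [MOD m] := by
        rw [Nat.ModEq, hs, Nat.mod_eq_of_lt h1]
      have h3 := pow_eq_pow_of_modEq h2 hA
      rw [h3, pow_one]
    · obtain rfl : m = 1 := by omega
      rw [pow_one] at hA
      exact ⟨0, by rw [hA, one_pow]⟩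
  have h1 : A.mulVec w = (g ^ s) • w := by
    conv_lhs => rw [← hs, pow_mul]
    exact pow_mulVec_eig h s
  refine ⟨g ^ s, h1, ?_⟩
  have h2 := pow_mulVec_eig h1 p
  rw [h] at h2
  exact (eig_unique hw h2).symm

/-- the matrix with columns `v`, `w` -/
def colM (v w : Fin 2 → k) : M2 k := Matrix.of fun i j => if j = 0 then v i else w i

theorem colM_mulVec (v w c : Fin 2 → k) : (colM v w).mulVec c = c 0 • v + c 1 • w := by
  ext i
  simp [colM, Matrix.mulVec, dotProduct, Fin.sum_univ_two, mul_comm]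

theorem mul_colM (A : M2 k) (v w : Fin 2 → k) :
    A * colM v w = colM (A.mulVec v) (A.mulVec w) := by
  ext i j
  fin_cases j <;> simp [colM, Matrix.mul_apply, Matrix.mulVec, dotProduct]

theorem colM_mul (v w : Fin 2 → k) (a b c d : k) :
    colM v w * !![a, b; c, d] = colM (a • v + c • w) (b • v + d • w) := by
  ext i j
  fin_cases j <;> simp [colM, Matrix.mul_apply, Fin.sum_univ_two, mul_comm]

theorem isUnit_colM {v w : Fin 2 → k} (hv : v ≠ 0) (h : ∀ c : k, w ≠ c • v) :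
    IsUnit (colM v w) := by
  rw [Matrix.isUnit_iff_isUnit_det, isUnit_iff_ne_zero]
  intro h0
  obtain ⟨c, hc, hc'⟩ := Matrix.exists_mulVec_eq_zero_iff.mpr h0
  rw [colM_mulVec] at hc'
  by_cases h1 : c 1 = 0
  · rw [h1, zero_smul, add_zero] at hc'
    rcases smul_eq_zero.mp hc' with h2 | h2
    · apply hc
      ext i
      fin_cases i
      · exact h2
      · exact h1
    · exact hv h2
  · apply h (-(c 0) / c 1)
    have h2 : c 1 • w = -(c 0 • v) := eq_neg_of_add_eq_zero_right hc'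
    have h3 : w = (c 1)⁻¹ • (c 1 • w) := by rw [smul_smul, inv_mul_cancel₀ h1, one_smul]
    rw [h3, h2, ← neg_smul, smul_smul]
    congr 1
    field_simp

/-- **The linear algebra of case II.** -/
theorem caseII_linear {A B : M2 k} {m p : ℕ} (hm : 0 < m) (hmp : m.Coprime p) (hA : A ^ m = 1)
    (hB : IsUnit B) (hBA : B * A = A ^ p * B)
    (hAe : ∃ v : Fin 2 → k, v ≠ 0 ∧ ∃ g : k, A.mulVec v = g • v)
    (hBe : ∃ v : Fin 2 → k, v ≠ 0 ∧ ∃ g : k, B.mulVec v = g • v)
    (hirr : ∀ v : Fin 2 → k, v ≠ 0 → ∀ c d : k, A.mulVec v = c • v → B.mulVec v = d • v → False) :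
    ∃ (P : M2 k) (g b : k), IsUnit P ∧ A * P = P * !![g, 0; 0, g ^ p] ∧
      B * P = P * !![0, b; 1, 0] ∧ g ≠ g ^ p ∧ (g ^ p) ^ p = g ∧ g ≠ 0 ∧ b ≠ 0 := by
  obtain ⟨v, hv, g, hg⟩ := hAe
  set w := B.mulVec v with hw
  have hBinj : ∀ x : Fin 2 → k, B.mulVec x = 0 → x = 0 := by
    intro x hx
    obtain ⟨u, rfl⟩ := hB
    have h1 : (↑u⁻¹ : M2 k).mulVec ((u : M2 k).mulVec x) = x := by
      rw [Matrix.mulVec_mulVec, Units.inv_mul, Matrix.one_mulVec]
    rw [← h1, hx, Matrix.mulVec_zero]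
  have hw0 : w ≠ 0 := fun h => hv (hBinj v h)
  have hind : ∀ c : k, w ≠ c • v := fun c hc => hirr v hv g c hg hc
  have hP := isUnit_colM hv hind
  have hApw : (A ^ p).mulVec w = g • w := by
    rw [hw, Matrix.mulVec_mulVec, ← hBA, ← Matrix.mulVec_mulVec, hg, Matrix.mulVec_smul]
  obtain ⟨g2, hg2, hg2p⟩ := eig_of_pow hm hmp hA hw0 hApw
  have hz0 : B.mulVec w ≠ 0 := fun h => hw0 (hBinj w h)
  have hApz : (A ^ p).mulVec (B.mulVec w) = g2 • B.mulVec w := by
    rw [Matrix.mulVec_mulVec, ← hBA, ← Matrix.mulVec_mulVec, hg2, Matrix.mulVec_smul]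
  obtain ⟨g3, hg3, hg3p⟩ := eig_of_pow hm hmp hA hz0 hApz
  -- the two eigenvalues are distinct
  have hne : g ≠ g2 := by
    intro heq
    obtain ⟨x, hx, d, hd⟩ := hBe
    refine hirr x hx g d ?_ hd
    have h1 : A * colM v w = (g • (1 : M2 k)) * colM v w := by
      rw [mul_colM, hg, hg2, ← heq, smul_mul_assoc, one_mul]
      ext i j
      fin_cases j <;> simp [colM]
    have h2 : A = g • (1 : M2 k) := by
      obtain ⟨u, hu⟩ := hP
      rw [← hu] at h1
      exact (Units.mul_left_inj u).mp h1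
    rw [h2, Matrix.smul_mulVec, Matrix.one_mulVec]
  -- coordinates of `B w`
  obtain ⟨c, hc⟩ : ∃ c : Fin 2 → k, (colM v w).mulVec c = B.mulVec w := by
    obtain ⟨u, hu⟩ := hP
    refine ⟨(↑u⁻¹ : M2 k).mulVec (B.mulVec w), ?_⟩
    rw [← hu, Matrix.mulVec_mulVec, Units.mul_inv, Matrix.one_mulVec]
  have hc' := hc
  rw [colM_mulVec] at hc'
  have h4 : (colM v w).mulVec ![g * c 0, g2 * c 1] = (colM v w).mulVec (g3 • c) := by
    rw [Matrix.mulVec_smul, hc, ← hg3, ← hc', colM_mulVec, Matrix.mulVec_add, Matrix.mulVec_smul,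
      Matrix.mulVec_smul, hg, hg2, smul_smul, smul_smul]
    simp [mul_comm]
  have h5 : (![g * c 0, g2 * c 1] : Fin 2 → k) = g3 • c := by
    obtain ⟨u, hu⟩ := hP
    rw [← hu] at h4
    have h6 := congrArg (fun x => (↑u⁻¹ : M2 k).mulVec x) h4
    simp only [Matrix.mulVec_mulVec, Units.inv_mul, Matrix.one_mulVec] at h6
    exact h6
  have h6 : g * c 0 = g3 * c 0 := congrFun h5 0
  have h7 : g2 * c 1 = g3 * c 1 := congrFun h5 1
  have hc1 : c 1 = 0 := by
    by_contra h1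
    have h8 : g2 = g3 := mul_right_cancel₀ h1 h7
    have h9 : c 0 = 0 := by
      by_contra h0
      exact hne ((mul_right_cancel₀ h0 h6).trans h8.symm)
    rw [h9, zero_smul, zero_add] at hc'
    exact hirr w hw0 g2 (c 1) hg2 hc'.symm
  have hc0 : c 0 ≠ 0 := by
    intro h0
    rw [hc1, h0, zero_smul, zero_smul, add_zero] at hc'
    exact hz0 hc'.symm
  have h8 : g = g3 := mul_right_cancel₀ hc0 h6
  have h9 : g ^ p = g2 := by rw [h8, hg3p]
  have hg0 : g ≠ 0 := by
    intro h0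
    have h1 := pow_mulVec_eig hg m
    rw [hA, Matrix.one_mulVec, h0, zero_pow hm.ne', zero_smul] at h1
    exact hv h1
  refine ⟨colM v w, g, c 0, hP, ?_, ?_, ?_, ?_, hg0, hc0⟩
  · rw [mul_colM, colM_mul, hg, hg2, h9]
    simp
  · rw [mul_colM, colM_mul, ← hw, ← hc', hc1]
    simp
  · rw [h9]; exact hne
  · rw [h9, hg2p]

end Fermat.Agent.H56
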