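import Fermat.Agent.H56FC2c
import Fermat.Agent.H56FC2d

/-!
# S56-[F], case II : structure of the representation
-/

set_option autoImplicit false
set_option maxSynthPendingDepth 3

noncomputable section

open Fermat.Agent.H53 ExtCitation

namespace Fermat.Agent.H56

open Fermat.Agent.H64 Fermat.Agent.H29

variable {p : ℕ} [Fact p.Prime] {k : Type} [Field k] [Algebra (ZMod p) k] [Finite k]

/-- the mod `p` cyclotomic character on inertia, as a tame character -/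
theorem cyclo_eq_theta {π : FQb} (hp1 : 0 < p ^ 2 - 1) (hπ : π ^ (p ^ 2 - 1) = -(p : FQb))
    {σ : FGQ} (hσ : σ ∈ Ip p) :
    (((cycloChar p σ : ZMod p).val : ℕ) : Kap p) = theta π σ ^ (p + 1) := by
  have hp : p.Prime := Fact.out
  have : NeZero p := ⟨hp.ne_zero⟩
  obtain ⟨ζ, hζ⟩ := HasEnoughRootsOfUnity.exists_primitiveRoot FQb p
  have hζ1 : ζ ≠ 1 := hζ.ne_one hp.one_lt
  have hz0 : ζ - 1 ≠ 0 := sub_ne_zero.mpr hζ1
  have hnz := nm_zeta_sub_one (p := p) hζ.pow_eq_one hζ1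
  have hzlt := nm_zeta_sub_one_lt (p := p) hζ.pow_eq_one
  have hπ0 := pi_ne_zero hp1 hπ
  have hp2 := hp.two_le
  have hsq : p ^ 2 - 1 = (p + 1) * (p - 1) := by
    have := Nat.sq_sub_sq p 1
    simpa using this
  have hnm : nm p (ζ - 1) = nm p (π ^ (p + 1)) := by
    apply (pow_left_inj₀ (nm_nonneg _) (nm_nonneg _) (by omega : p - 1 ≠ 0)).mp
    rw [hnz, nm_pow, ← pow_mul, ← hsq, nm_pi_pow hπ]
  rw [← theta_pow_elt (Ip_le_Dp hσ) hπ0,
    ← theta_congr hσ hz0 (pow_ne_zero _ hπ0) hnm, theta]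
  set c := (cycloChar p σ : ZMod p).val with hc
  have hσζ : σ ζ = ζ ^ c := H63.apply_of_pow_eq_one p σ hζ.pow_eq_one
  set z := ζ - 1 with hz
  have hzle : nm p z ≤ 1 := hzlt.le
  have h1 : σ z = (1 + z) ^ c - 1 := by
    rw [hz, map_sub, map_one, hσζ]
    ring
  have h2 := nm_one_add_pow_sub_le (p := p) hzle c
  rw [← h1] at h2
  have hzpos : 0 < nm p z := nm_pos.mpr hz0
  rw [← rs_natCast, eq_comm, rs_eq_iff (nm_dec_div (Ip_le_Dp hσ) hz0).le (nm_natCast_le_one _)]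
  have h3 : σ z / z - c = (σ z - c * z) / z := by field_simp
  rw [h3, nm_div, div_lt_one hzpos]
  refine h2.trans_lt ?_
  rw [pow_two]
  exact mul_lt_of_lt_one_left hzpos hzlt

omit [Algebra (ZMod p) k] [Finite k] in
theorem submodule_irr {r : FGQ →* M2 k}
    (hirr : ∀ v : Fin 2 → k, v ≠ 0 → ¬ ∀ σ ∈ Dp p, ∃ c : k, (r σ).mulVec v = c • v)
    (U : Submodule k (Fin 2 → k)) (hU : ∀ σ ∈ Dp p, ∀ x ∈ U, (r σ).mulVec x ∈ U) :
    U = ⊥ ∨ U = ⊤ := by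
  by_cases hbot : U = ⊥
  · exact Or.inl hbot
  right
  obtain ⟨v, hvU, hv⟩ := Submodule.exists_mem_ne_zero_of_ne_bot hbot
  obtain ⟨w, hwU, hw⟩ : ∃ w ∈ U, ∀ c : k, w ≠ c • v := by
    by_contra hcon
    push Not at hcon
    exact hirr v hv fun σ hσ => hcon _ (hU σ hσ v hvU)
  obtain ⟨u, hu⟩ := isUnit_colM hv hw
  rw [eq_top_iff]
  intro x _
  have h1 : x = (colM v w).mulVec ((↑u⁻¹ : M2 k).mulVec x) := by
    rw [← hu, Matrix.mulVec_mulVec, Units.mul_inv, Matrix.one_mulVec]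
  rw [h1, colM_mulVec]
  exact add_mem (U.smul_mem _ hvU) (U.smul_mem _ hwU)

/-- **Structure of the representation in case II.** -/
theorem caseII_structure {r : FGQ →* M2 k} (hr : FinLev r) (hdet : DetCyc p r)
    (hsplit : ∀ σ, ∃ α β : k, (r σ).charpoly =
      (Polynomial.X - Polynomial.C α) * (Polynomial.X - Polynomial.C β))
    {n : ℕ} {e : Fin n → (Fin 2 → k) → FQb} {a : Fin n → Fin n → Fin n → ℚ}
    (h : FData p (fun σ x => (r σ).mulVec x) n e a) (hW0 : ∀ x, InW0 p e x)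
    (hirr : ∀ v : Fin 2 → k, v ≠ 0 → ¬ ∀ σ ∈ Dp p, ∃ c : k, (r σ).mulVec v = c • v)
    {π : FQb} (hπ : π ^ (p ^ 2 - 1) = -(p : FQb)) {t : FGQ} (ht : t ∈ Ip p) {ζ : FQb}
    (hζ : IsPrimitiveRoot ζ (p ^ 2 - 1)) (htπ : t π = ζ * π) :
    (∀ σ ∈ Tm p π, r σ = 1) ∧
    (∀ σ ∈ Ip p, r (frob p * σ * (frob p)⁻¹) = r σ ^ p) ∧
    ∃ (P : M2 k) (g b : k), IsUnit P ∧ r t * P = P * !![g, 0; 0, g ^ p] ∧
      r (frob p) * P = P * !![0, b; 1, 0] ∧ g ≠ g ^ p ∧ (g ^ p) ^ p = g ∧ g ≠ 0 ∧ b ≠ 0 ∧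
      g ^ (p + 1) = algebraMap (ZMod p) k (cycloChar p t : ZMod p) := by
  classical
  have hp : p.Prime := Fact.out
  have hp2 := hp.two_le
  have he : 0 < p ^ 2 - 1 := by
    have : 2 ^ 2 ≤ p ^ 2 := Nat.pow_le_pow_left hp2 2
    omega
  have hep : (p ^ 2 - 1).Coprime p := by
    rw [Nat.coprime_comm, Nat.Prime.coprime_iff_not_dvd hp]
    intro hd
    have h1 : p ∣ p ^ 2 := dvd_pow_self p two_ne_zero
    have h2 : p ∣ 1 := by
      have h3 := (Nat.dvd_sub h1 hd)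
      rwa [Nat.sub_sub_self (by omega)] at h3
    exact hp.one_lt.ne' (Nat.dvd_one.mp h2)
  have hπ0 := pi_ne_zero he hπ
  have hne : Nonempty (Fin n) := FData_nonempty h
  obtain ⟨ϖ, l, hϖ, hϖ1, hadd, hinj, hI⟩ := exists_leading_terms (k := k) h hW0
    (fun σ c x => Matrix.mulVec_smul _ _ _) (submodule_irr hirr)
  have hI' : ∀ σ ∈ Ip p, ∀ j x, l j ((r σ).mulVec x) = theta ϖ σ * l j x := hI
  have hfc : ∀ σ ∈ Ip p, r (frob p * σ * (frob p)⁻¹) = r σ ^ p := fun σ hσ =>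
    r_frob_conj hϖ hadd hinj hI' hσ
  obtain ⟨σ₀, hσ₀, hgen, m, hm, hmp, hσm⟩ := exists_gen hϖ hadd hinj hI'
  set A := r σ₀ with hA
  set B := r (frob p) with hB
  have hBu : IsUnit B := by
    rw [hB]
    exact (Group.isUnit (frob p)).map r
  have hBA : B * A = A ^ p * B := by
    have h1 := hfc σ₀ hσ₀
    rw [map_mul, map_mul] at h1
    rw [← h1, mul_assoc, ← map_mul r (frob p)⁻¹, inv_mul_cancel, map_one, mul_one]
  have heig : ∀ σ, ∃ v : Fin 2 → k, v ≠ 0 ∧ ∃ g : k, (r σ).mulVec v = g • v := by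
    intro σ
    obtain ⟨α, β, hαβ⟩ := hsplit σ
    obtain ⟨v, hv, hv'⟩ := exists_eigenvector hαβ
    exact ⟨v, hv, α, hv'⟩
  obtain ⟨P, g₀, b, hP, hAP, hBP, hg1, hg2, hg0, hb0⟩ := caseII_linear hm hmp hσm hBu hBA
    (heig σ₀) (heig (frob p)) (by
      intro v hv c d hc hd
      apply hirr v hv
      intro σ hσ
      obtain ⟨i, τ, hτ, hστ⟩ := exists_frob_mul_inertia hr hσ
      obtain ⟨j, hj⟩ := hgen τ hτ
      refine ⟨c ^ j * d ^ i, ?_⟩
      rw [hστ, hj, ← Matrix.mulVec_mulVec, pow_mulVec_eig hc, Matrix.mulVec_smul,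
        pow_mulVec_eig hd, smul_smul])
  -- powers
  have hpowP : ∀ i : ℕ, A ^ i * P = P * !![g₀ ^ i, 0; 0, (g₀ ^ i) ^ p] := by
    intro i
    induction i with
    | zero => simp [← Matrix.one_fin_two]
    | succ i ih =>
      rw [pow_succ', mul_assoc, ih, ← mul_assoc, hAP, mul_assoc]
      congr 1
      ext x y
      fin_cases x <;> fin_cases y <;> simp [Matrix.mul_apply, Fin.sum_univ_two, pow_succ', mul_pow]
  have hexp : ∀ σ ∈ Ip p, r σ ^ (p ^ 2 - 1) = 1 := by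
    intro σ hσ
    obtain ⟨i, hi⟩ := hgen σ hσ
    have h1 := hpowP (i * (p ^ 2 - 1))
    have h2 : g₀ ^ (p ^ 2 - 1) = 1 := by
      have h3 : g₀ ^ (p ^ 2 - 1) * g₀ = 1 * g₀ := by
        rw [← pow_succ, Nat.sub_add_cancel (by omega : 1 ≤ p ^ 2), pow_two, pow_mul, hg2, one_mul]
      exact mul_right_cancel₀ hg0 h3
    have h3 : g₀ ^ (i * (p ^ 2 - 1)) = 1 := by rw [mul_comm, pow_mul, h2, one_pow]
    rw [h3, one_pow, pow_mul, ← hi, ← Matrix.one_fin_two, mul_one] at h1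
    obtain ⟨u, hu⟩ := hP
    rw [← hu] at h1
    have h4 : r σ ^ (p ^ 2 - 1) * (u : M2 k) = 1 * (u : M2 k) := by rw [one_mul]; exact h1
    exact (Units.mul_left_inj u).mp h4
  have hθpow : ∀ σ ∈ Ip p, ∀ m : ℕ, theta (p := p) ϖ (σ ^ m) = theta ϖ σ ^ m := by
    intro σ hσ m
    induction m with
    | zero => rw [pow_zero, pow_zero, theta_fixed _ hϖ rfl]
    | succ m ih => rw [pow_succ, theta_mul (pow_mem hσ m) (Ip_le_Dp hσ) hϖ, ih, pow_succ]
  have hθe : ∀ σ ∈ Ip p, theta (p := p) ϖ σ ^ (p ^ 2 - 1) = 1 := by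
    intro σ hσ
    rw [← hθpow σ hσ, theta_eq_of_r_eq hinj hI' (pow_mem hσ _) (one_mem _)
      (by rw [map_pow, hexp σ hσ, map_one]), theta_fixed _ hϖ rfl]
  obtain ⟨j, hj⟩ := exists_theta_eq_pow he hep hπ hϖ hϖ1 hθe
  have hTm : ∀ σ ∈ Tm p π, r σ = 1 := by
    intro σ hσ
    rw [← map_one r]
    apply r_eq_of_theta_eq hadd hinj hI' (Tm_le_Ip hσ) (one_mem _)
    rw [hj σ (Tm_le_Ip hσ), theta_fixed σ hπ0 (mem_Tm.mp hσ).2, one_pow, theta_fixed _ hϖ rfl]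
  refine ⟨hTm, hfc, ?_⟩
  -- the generator `t`
  obtain ⟨i, hi⟩ := hgen t ht
  obtain ⟨i', -, τ, hτ, hσ₀'⟩ := exists_pow_mul_Tm he hep hπ ht hζ htπ hσ₀
  have hAt : A = r t ^ i' := by rw [hA, hσ₀', map_mul, map_pow, hTm τ hτ, mul_one]
  have hrtP : r t * P = P * !![g₀ ^ i, 0; 0, (g₀ ^ i) ^ p] := by rw [hi, hpowP]
  have hg₀ : (g₀ ^ i) ^ i' = g₀ := by
    have h1 : A ^ (i * i') = A := by rw [pow_mul, ← hi, ← hAt]
    have h2 := hpowP (i * i')
    rw [h1, hAP] at h2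
    obtain ⟨u, hu⟩ := hP
    rw [← hu] at h2
    have h3 := (Units.mul_right_inj u).mp h2
    have h4 := congrFun (congrFun h3 0) 0
    simp at h4
    rw [← pow_mul]
    exact h4.symm
  refine ⟨P, g₀ ^ i, b, hP, hrtP, hBP, ?_, ?_, pow_ne_zero _ hg0, hb0, ?_⟩
  · intro heq
    apply hg1
    calc g₀ = (g₀ ^ i) ^ i' := hg₀.symm
      _ = ((g₀ ^ i) ^ p) ^ i' := by rw [← heq]
      _ = ((g₀ ^ i) ^ i') ^ p := by
        simp only [← pow_mul]
        congr 1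
        ring
      _ = g₀ ^ p := by rw [hg₀]
  · calc ((g₀ ^ i) ^ p) ^ p = ((g₀ ^ p) ^ p) ^ i := by
          simp only [← pow_mul]
          congr 1
          ring
      _ = g₀ ^ i := by rw [hg2]
  · have h1 := congrArg Matrix.det hrtP
    rw [Matrix.det_mul, Matrix.det_mul, hdet t, mul_comm (Matrix.det P)] at h1
    have hPd : P.det ≠ 0 := by
      rw [Matrix.isUnit_iff_isUnit_det, isUnit_iff_ne_zero] at hP
      exact hP
    have h2 := mul_right_cancel₀ hPd h1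
    rw [h2, Matrix.det_fin_two]
    simp [pow_succ']

end Fermat.Agent.H56
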