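import Fermat.Agent.H56FC5b

/-!
# S56-[F], case II : the local bound
-/

set_option autoImplicit false
set_option maxSynthPendingDepth 3

noncomputable section

open Fermat.Agent.H53 Fermat.Agent.H55 Fermat.Agent.H28 ExtCitation

namespace Fermat.Agent.H56

open Fermat.Agent.H64

variable {p : ℕ} [Fact p.Prime] {k : Type} [Field k] [Algebra (ZMod p) k] [Finite k]

theorem coprime_sq_sub_one (p : ℕ) [Fact p.Prime] : (p ^ 2 - 1).Coprime p := by
  have hp : p.Prime := Fact.out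
  have hsq : 2 ^ 2 ≤ p ^ 2 := Nat.pow_le_pow_left hp.two_le 2
  rw [Nat.coprime_comm, Nat.Prime.coprime_iff_not_dvd hp]
  intro hd
  have h1 : p ∣ p ^ 2 := dvd_pow_self p two_ne_zero
  have h2 : p ∣ 1 := by
    have h3 := (Nat.dvd_sub h1 hd)
    rwa [Nat.sub_sub_self (by omega)] at h3
  exact hp.one_lt.ne' (Nat.dvd_one.mp h2)

theorem sq_sub_one_pos (p : ℕ) [Fact p.Prime] : 0 < p ^ 2 - 1 := by
  have hp : p.Prime := Fact.out
  have hsq : 2 ^ 2 ≤ p ^ 2 := Nat.pow_le_pow_left hp.two_le 2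
  omega

/-- `Tm` is normalised by the decomposition group -/
theorem conj_mem_Tm_of_Dp {e : ℕ} (he : 0 < e) (hep : e.Coprime p) {π : FQb}
    (hπ : π ^ e = -(p : FQb)) {τ σ : FGQ} (hτ : τ ∈ Dp p) (hσ : σ ∈ Tm p π) :
    τ * σ * τ⁻¹ ∈ Tm p π := by
  refine mem_Tm.mpr ⟨conj_mem_Ip hτ (Tm_le_Ip hσ), ?_⟩
  have hπ0 := pi_ne_zero he hπ
  have h1 : τ⁻¹ π = (τ⁻¹ π / π) * π := by rw [div_mul_cancel₀ _ hπ0]
  have h2 : σ (τ⁻¹ π) = τ⁻¹ π := by
    conv_lhs => rw [h1]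
    rw [map_mul, (teich_sigma_pi_div he hep hπ τ⁻¹).inertia (Tm_le_Ip hσ), (mem_Tm.mp hσ).2, ← h1]
  rw [AlgEquiv.mul_apply, AlgEquiv.mul_apply, h2, ← AlgEquiv.mul_apply, mul_inv_cancel]
  rfl

theorem extD_conj {r : FGQ →* M2 k} {π : FQb} (hTm : ∀ σ ∈ Tm p π, r σ = 1)
    {c : Dq (pPrime p) → SL p k} (hc : c ∈ Z1 (Dlev (pPrime p)) (rhoD (ad p r) (pPrime p)))
    {τ σ : FGQ} (hτ : τ ∈ Dp p) (hσ : σ ∈ Tm p π) (hτσ : τ * σ * τ⁻¹ ∈ Tm p π) :
    extD c (τ * σ * τ⁻¹) = ad p r τ (extD c σ) := by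
  have hτ' : τ ∈ Dq (pPrime p) := hτ
  have h1 : extD c (τ * σ) = ad p r τ (extD c σ) + extD c τ := extD_mul hc hτ' (mem_Dq_of_Tm hσ)
  have h2 : extD c ((τ * σ * τ⁻¹) * τ) = extD c τ + extD c (τ * σ * τ⁻¹) := by
    rw [extD_mul hc (mem_Dq_of_Tm hτσ) hτ']
    congr 1
    ext1
    rw [coe_ad, hTm _ hτσ, hTm _ (inv_mem hτσ), one_mul, mul_one]
  have h3 : (τ * σ * τ⁻¹) * τ = τ * σ := by group
  rw [h3, h1] at h2
  rw [add_comm] at h2
  exact (add_left_cancel h2).symm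

omit [Finite k] in
theorem extD_add (c c' : Dq (pPrime p) → SL p k) (σ : FGQ) :
    extD (c + c') σ = extD c σ + extD c' σ := by
  unfold extD
  split_ifs
  · rfl
  · rw [add_zero]

omit [Finite k] in
theorem extD_neg (c : Dq (pPrime p) → SL p k) (σ : FGQ) :
    extD (-c) σ = -extD c σ := by
  unfold extD
  split_ifs
  · rfl
  · rw [neg_zero]

omit [Finite k] in
theorem extD_zero' (σ : FGQ) : extD (0 : Dq (pPrime p) → SL p k) σ = 0 := by
  unfold extD
  split_ifs <;> rfl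

omit [Algebra (ZMod p) k] [Finite k] in
theorem co_neg (u : (M2 k)ˣ) (X : M2 k) : co u (-X) = -co u X := by
  simp [co]

/-- the subgroup of cocycles in case II -/
def LIIadd (r : FGQ →* M2 k) (π : FQb) (u : (M2 k)ˣ) : AddSubgroup (Dq (pPrime p) → SL p k) where
  carrier := {c | c ∈ Z1 (Dlev (pPrime p)) (rhoD (ad p r) (pPrime p)) ∧
    (∀ σ ∈ Tm p π, co u ((extD c σ : SL p k) : M2 k) 0 0 = 0) ∧
    KumX p π (fun σ => co u ((extD c σ : SL p k) : M2 k) 0 1)}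
  zero_mem' := by
    refine ⟨zero_mem _, fun σ _ => ?_, KumX.zero.congr fun σ _ => ?_⟩
    · rw [extD_zero']; simp
    · rw [extD_zero']; simp
  add_mem' := by
    rintro c c' ⟨h1, h2, h3⟩ ⟨h1', h2', h3'⟩
    have key : ∀ σ, co u ((extD (c + c') σ : SL p k) : M2 k) =
        co u ((extD c σ : SL p k) : M2 k) + co u ((extD c' σ : SL p k) : M2 k) := by
      intro σ
      rw [extD_add, ← co_add]
      rfl
    refine ⟨add_mem h1 h1', fun σ hσ => ?_, (h3.add h3').congr fun σ _ => ?_⟩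
    · rw [key, Matrix.add_apply, h2 σ hσ, h2' σ hσ, add_zero]
    · rw [key, Matrix.add_apply]
  neg_mem' := by
    rintro c ⟨h1, h2, h3⟩
    have key : ∀ σ, co u ((extD (-c) σ : SL p k) : M2 k) =
        -co u ((extD c σ : SL p k) : M2 k) := by
      intro σ
      rw [extD_neg, ← co_neg]
      rfl
    refine ⟨neg_mem h1, fun σ hσ => ?_, h3.neg.congr fun σ _ => ?_⟩
    · rw [key, Matrix.neg_apply, h2 σ hσ, neg_zero]
    · rw [key, Matrix.neg_apply]

/-- **The local bound in case II**, given the Kummer theoretic count. -/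
theorem caseII_localBound (hp2 : p ≠ 2) {r : FGQ →* M2 k} (hr : FinLev r)
    {π : FQb} (hπ : π ^ (p ^ 2 - 1) = -(p : FQb)) {t : FGQ} (ht : t ∈ Ip p) {ζ : FQb}
    (hζ : IsPrimitiveRoot ζ (p ^ 2 - 1)) (htπ : t π = ζ * π)
    (hTm : ∀ σ ∈ Tm p π, r σ = 1) {u : (M2 k)ˣ} {g b : k}
    (htu : r t * u = u * !![g, 0; 0, g ^ p]) (hφu : r (frob p) * u = u * !![0, b; 1, 0])
    (hg : g ≠ g ^ p) (hgp : (g ^ p) ^ p = g) (hg0 : g ≠ 0) (hb : b ≠ 0)
    (hL1 : ∀ x : FGQ → k, KumX p π x → (∀ σ ∈ Tm p π, x (t * σ * t⁻¹) = x σ) →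
      ∀ σ ∈ Tm p π, x σ = 0)
    (X : Set (Tm p π → k)) (hXfin : X.Finite) (hXcard : X.ncard ≤ Nat.card k)
    (hX : ∀ x : FGQ → k, KumX p π x →
      (∀ σ ∈ Tm p π, g ^ p * x (t * σ * t⁻¹) = g * x σ) →
      (∀ σ ∈ Tm p π, x (frob p * (frob p * σ * (frob p)⁻¹) * (frob p)⁻¹) = x σ) →
      (fun σ : Tm p π => x σ) ∈ X)
    {Cond : (FGQ →* M2 (DualNumber k)) → Prop}
    (hFD : ∀ R, GoodLift r R → Cond R →
      ∃ (n : ℕ) (e : Fin n → (Fin 2 → DualNumber k) → FQb) (a : Fin n → Fin n → Fin n → ℚ),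
        FData p (fun σ (x : Fin 2 → DualNumber k) => (R σ).mulVec x) n e a) :
    LocalBound p r (pPrime p) 4 Cond := by
  classical
  have he := sq_sub_one_pos p
  have hep := coprime_sq_sub_one p
  have hgp0 : g ^ p ≠ 0 := pow_ne_zero _ hg0
  have hadt : ∀ Y : SL p k, co u (ad p r t Y : M2 k) =
      !![co u Y 0 0, g * (g ^ p)⁻¹ * co u Y 0 1; g ^ p * g⁻¹ * co u Y 1 0, co u Y 1 1] :=
    fun Y => co_conj_diag r u hg0 hgp0 htu _
  have hadφ : ∀ Y : SL p k, co u (ad p r (frob p) Y : M2 k) =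
      !![co u Y 1 1, b * co u Y 1 0; b⁻¹ * co u Y 0 1, co u Y 0 0] :=
    fun Y => co_conj_anti r u hb hφu _
  have hTt : ∀ σ ∈ Tm p π, t * σ * t⁻¹ ∈ Tm p π := fun σ hσ =>
    conj_mem_Tm_of_Dp he hep hπ (Ip_le_Dp ht) hσ
  have hTφ : ∀ σ ∈ Tm p π, frob p * σ * (frob p)⁻¹ ∈ Tm p π := fun σ hσ =>
    conj_mem_Tm_of_Dp he hep hπ frob_mem hσ
  let L : Submodule (ZMod p) (Dq (pPrime p) → SL p k) :=
    AddSubgroup.toZModSubmodule p (LIIadd (p := p) r π u)
  have hLmem : ∀ c, c ∈ L ↔ c ∈ Z1 (Dlev (pPrime p)) (rhoD (ad p r) (pPrime p)) ∧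
    (∀ σ ∈ Tm p π, co u ((extD c σ : SL p k) : M2 k) 0 0 = 0) ∧
    KumX p π (fun σ => co u ((extD c σ : SL p k) : M2 k) 0 1) := fun c => Iff.rfl
  have hBL : B1 (rhoD (ad p r) (pPrime p)) ≤ L := by
    rintro _ ⟨Y, rfl⟩
    have h0 : ∀ σ ∈ Tm p π, extD (d0 (rhoD (ad p r) (pPrime p)) Y) σ = 0 := by
      intro σ hσ
      rw [extD_of_mem _ (mem_Dq_of_Tm hσ)]
      show ad p r σ Y - Y = 0
      rw [sub_eq_zero]
      ext1
      rw [coe_ad, hTm σ hσ, hTm σ⁻¹ (inv_mem hσ), one_mul, mul_one]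
    rw [hLmem]
    refine ⟨B1_le_Z1 hr _ ⟨Y, rfl⟩, fun σ hσ => ?_, KumX.zero.congr fun σ hσ => ?_⟩
    · rw [h0 σ hσ]; simp
    · rw [h0 σ hσ]; simp
  have hLZ : L ≤ Z1 (Dlev (pPrime p)) (rhoD (ad p r) (pPrime p)) := fun c hc => ((hLmem c).mp hc).1
  -- symmetries of the `(0, 1)` entry
  have hsym1 : ∀ c ∈ L, ∀ σ ∈ Tm p π, g ^ p * co u ((extD c (t * σ * t⁻¹) : SL p k) : M2 k) 0 1 =
      g * co u ((extD c σ : SL p k) : M2 k) 0 1 := by
    intro c hc σ hσ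
    rw [extD_conj hTm (hLZ hc) (Ip_le_Dp ht) hσ (hTt σ hσ), hadt]
    simp only [Matrix.of_apply, Matrix.cons_val', Matrix.cons_val_zero, Matrix.cons_val_one]
    field_simp
  have hsym2 : ∀ c ∈ L, ∀ σ ∈ Tm p π,
      co u ((extD c (frob p * (frob p * σ * (frob p)⁻¹) * (frob p)⁻¹) : SL p k) : M2 k) 0 1 =
      co u ((extD c σ : SL p k) : M2 k) 0 1 := by
    intro c hc σ hσ
    rw [extD_conj hTm (hLZ hc) frob_mem (hTφ σ hσ) (hTφ _ (hTφ σ hσ)), hadφ,
      extD_conj hTm (hLZ hc) frob_mem hσ (hTφ σ hσ), hadφ]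
    simp only [Matrix.of_apply, Matrix.cons_val', Matrix.cons_val_zero, Matrix.cons_val_one]
    field_simp
  -- the map to `X`
  let F : L → X := fun c => ⟨fun σ => co u ((extD (c : Dq (pPrime p) → SL p k) σ : SL p k) : M2 k) 0 1,
    hX _ ((hLmem _).mp c.2).2.2 (hsym1 _ c.2) (hsym2 _ c.2)⟩
  -- elements with the same image differ by a coboundary
  have hker : ∀ c c' : L, F c = F c' →
      (c : Dq (pPrime p) → SL p k) - c' ∈ B1 (rhoD (ad p r) (pPrime p)) := by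
    intro c c' hcc
    have hd : (c : Dq (pPrime p) → SL p k) - c' ∈ L := sub_mem c.2 c'.2
    set d := (c : Dq (pPrime p) → SL p k) - c' with hdd
    have h01 : ∀ σ ∈ Tm p π, co u ((extD d σ : SL p k) : M2 k) 0 1 = 0 := by
      intro σ hσ
      have h1 := congrFun (congrArg Subtype.val hcc) ⟨σ, hσ⟩
      have h1' : co u ((extD (c : Dq (pPrime p) → SL p k) σ : SL p k) : M2 k) 0 1 =
        co u ((extD (c' : Dq (pPrime p) → SL p k) σ : SL p k) : M2 k) 0 1 := h1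
      have h2 : co u ((extD d σ : SL p k) : M2 k) =
          co u ((extD (c : Dq (pPrime p) → SL p k) σ : SL p k) : M2 k) -
          co u ((extD (c' : Dq (pPrime p) → SL p k) σ : SL p k) : M2 k) := by
        rw [hdd, sub_eq_add_neg, extD_add, extD_neg, ← co_sub, ← sub_eq_add_neg]
        rfl
      rw [h2, Matrix.sub_apply, h1', sub_self]
    have h00 := ((hLmem d).mp hd).2.1
    have h11 : ∀ σ ∈ Tm p π, co u ((extD d σ : SL p k) : M2 k) 1 1 = 0 := by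
      intro σ hσ
      have h1 : (co u ((extD d σ : SL p k) : M2 k)).trace = 0 := by
        rw [trace_co]
        exact (extD d σ).2
      rw [Matrix.trace_fin_two, h00 σ hσ, zero_add] at h1
      exact h1
    have h10 : ∀ σ ∈ Tm p π, co u ((extD d σ : SL p k) : M2 k) 1 0 = 0 := by
      intro σ hσ
      have h1 := h01 _ (hTφ σ hσ)
      rw [extD_conj hTm (hLZ hd) frob_mem hσ (hTφ σ hσ), hadφ] at h1
      simp only [Matrix.of_apply, Matrix.cons_val', Matrix.cons_val_zero,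
        Matrix.cons_val_one] at h1
      exact (mul_eq_zero.mp h1).resolve_left hb
    apply mem_B1_of_Tm hp2 hr hπ ht hζ htπ hTm htu hφu hg hgp hg0 hb (hLZ hd)
    intro σ hσ
    apply Subtype.ext
    apply co_inj u
    show co u ((extD d σ : SL p k) : M2 k) = co u 0
    rw [co_zero]
    ext i j
    fin_cases i <;> fin_cases j
    · exact h00 σ hσ
    · exact h01 σ hσ
    · exact h10 σ hσ
    · exact h11 σ hσ
  -- the count
  have hB1fin : Finite (B1 (rhoD (ad p r) (pPrime p))) := by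
    have : Function.Surjective (fun Y : SL p k =>
        (⟨d0 (rhoD (ad p r) (pPrime p)) Y, ⟨Y, rfl⟩⟩ : B1 (rhoD (ad p r) (pPrime p)))) := by
      rintro ⟨_, ⟨Y, rfl⟩⟩
      exact ⟨Y, rfl⟩
    exact Finite.of_surjective _ this
  have hB1card : Nat.card (B1 (rhoD (ad p r) (pPrime p))) ≤ Nat.card k ^ 3 := by
    have : Function.Surjective (fun Y : SL p k =>
        (⟨d0 (rhoD (ad p r) (pPrime p)) Y, ⟨Y, rfl⟩⟩ : B1 (rhoD (ad p r) (pPrime p)))) := by
      rintro ⟨_, ⟨Y, rfl⟩⟩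
      exact ⟨Y, rfl⟩
    rw [← card_SL (p := p)]
    exact Nat.card_le_card_of_surjective _ this
  have hXfin' : Finite X := hXfin
  let sec : X → L := fun x => if hx : ∃ c, F c = x then hx.choose else 0
  have hsec : ∀ c : L, F (sec (F c)) = F c := by
    intro c
    have hx : ∃ c', F c' = F c := ⟨c, rfl⟩
    have h1 : sec (F c) = hx.choose := dif_pos hx
    rw [h1]
    exact hx.choose_spec
  let Φ : L → X × B1 (rhoD (ad p r) (pPrime p)) := fun c =>
    (F c, ⟨(c : Dq (pPrime p) → SL p k) - sec (F c), hker _ _ (hsec c).symm⟩)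
  have hΦ : Function.Injective Φ := by
    intro c c' hcc
    have h1 : F c = F c' := congrArg Prod.fst hcc
    have h2 := congrArg (fun z => ((Prod.snd z : B1 (rhoD (ad p r) (pPrime p))) :
      Dq (pPrime p) → SL p k)) hcc
    simp only [Φ] at h2
    rw [h1] at h2
    exact Subtype.ext (sub_left_injective h2)
  have hLfin : Finite L := Finite.of_injective Φ hΦ
  refine ⟨L, hBL, hLZ, hLfin, ?_, ?_⟩
  · calc Nat.card L ≤ Nat.card (X × B1 (rhoD (ad p r) (pPrime p))) :=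
          Nat.card_le_card_of_injective Φ hΦ
      _ = Nat.card X * Nat.card (B1 (rhoD (ad p r) (pPrime p))) := Nat.card_prod _ _
      _ ≤ Nat.card k * Nat.card k ^ 3 := by
          apply Nat.mul_le_mul _ hB1card
          rw [Nat.card_coe_set_eq]
          exact hXcard
      _ = Nat.card k ^ 4 := by ring
  · intro R hR hCond c hc
    obtain ⟨n, e, a, hFDR⟩ := hFD R hR hCond
    have hcZ := coc_mem_Z1 hR hc
    have hext : ∀ σ ∈ Tm p π, ((extD c σ : SL p k) : M2 k) = coc R σ := by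
      intro σ hσ
      rw [extD_of_mem _ (mem_Dq_of_Tm hσ), hc]
    have hK : ∀ i j, KumX p π (fun σ => co u ((extD c σ : SL p k) : M2 k) i j) := by
      intro i j
      refine (kumX_of_FData hp2 hπ hTm hR.red hFDR u i j).congr fun σ hσ => ?_
      rw [hext σ hσ]
    rw [hLmem]
    refine ⟨hcZ, ?_, hK 0 1⟩
    apply hL1 _ (hK 0 0)
    intro σ hσ
    rw [extD_conj hTm hcZ (Ip_le_Dp ht) hσ (hTt σ hσ), hadt]
    simp

end Fermat.Agent.H56
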