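import Fermat.Agent.H29FK1h
import Fermat.Agent.H95K3Final
import Fermat.Agent.H56FC5c
import Fermat.Agent.H56FC2e

/-!
# S56-[B4] : the flat local bound, from the Kummer theoretic count of case II
-/

set_option autoImplicit false

noncomputable section

namespace Fermat.Agent.H29

open Fermat.Agent.H64 Fermat.Agent.H53 Fermat.Agent.H56 Fermat.Agent.H55 GaloisRep ExtCitation

variable {p : ℕ} [Fact p.Prime] {k : Type} [Field k] [Algebra (ZMod p) k]

/-- the local bound when there is no lift at all -/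
theorem localBound_of_empty [Finite k] {r : FGQ →* M2 k} (hr : FinLev r) (q : Nat.Primes)
    {Cond : (FGQ →* M2 (DualNumber k)) → Prop} (hex : ¬ ∃ R, GoodLift r R ∧ Cond R) :
    LocalBound p r q 4 Cond := by
  have hs : Function.Surjective (fun X : H56.SL p k =>
      (⟨d0 (rhoD (ad p r) q) X, X, rfl⟩ : B1 (rhoD (ad p r) q))) := by
    rintro ⟨_, X, rfl⟩
    exact ⟨X, rfl⟩
  refine ⟨B1 (rhoD (ad p r) q), le_rfl, H28.B1_le_Z1 hr q, Finite.of_surjective _ hs, ?_, ?_⟩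
  · calc Nat.card (B1 (rhoD (ad p r) q)) ≤ Nat.card (H56.SL p k) :=
          Nat.card_le_card_of_surjective _ hs
      _ = Nat.card k ^ 3 := H28.card_SL
      _ ≤ Nat.card k ^ 4 := Nat.pow_le_pow_right Nat.card_pos (by norm_num)
  · intro R hR hC
    exact absurd ⟨R, hR, hC⟩ hex

/-- the Kummer theoretic count needed in case II -/
def CountII (p : ℕ) [Fact p.Prime] (k : Type) [Field k] [Algebra (ZMod p) k] : Prop :=
  ∀ (π : FQb) (t : FGQ) (ζ : FQb) (g : k), π ^ (p ^ 2 - 1) = -(p : FQb) → t ∈ Ip p →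
    IsPrimitiveRoot ζ (p ^ 2 - 1) → t π = ζ * π → g ≠ g ^ p → (g ^ p) ^ p = g → g ≠ 0 →
    g ^ (p + 1) = algebraMap (ZMod p) k (cycloChar p t : ZMod p) →
    (∀ x : FGQ → k, KumX p π x → (∀ σ ∈ Tm p π, x (t * σ * t⁻¹) = x σ) →
      ∀ σ ∈ Tm p π, x σ = 0) ∧
    ∃ X : Set (Tm p π → k), X.Finite ∧ X.ncard ≤ Nat.card k ∧
      ∀ x : FGQ → k, KumX p π x →
        (∀ σ ∈ Tm p π, g ^ p * x (t * σ * t⁻¹) = g * x σ) →
        (∀ σ ∈ Tm p π, x (frob p * (frob p * σ * (frob p)⁻¹) * (frob p)⁻¹) = x σ) →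
        (fun σ : Tm p π => x σ) ∈ X

/-- **the flat local bound** -/
theorem statementF_of_count [Finite k] (hp2 : p ≠ 2) (hcount : CountII p k) :
    StatementF p (k := k) := by
  intro r hr hdet hsplit
  by_cases hex : ∃ R : FGQ →* M2 (DualNumber k), GoodLift r R ∧
      ∃ h : MCont (DualNumber k) R, (ofMatrix R h).IsFlatAt p
  swap
  · exact localBound_of_empty hr _ hex
  obtain ⟨R₀, hR₀, h₀, hflat₀⟩ := hex
  have hFM : FlatM p r := flatM_red hR₀.red (flatM_of_isFlatAt h₀ hflat₀)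
  rcases case_division hp2 hr hdet hFM with hI | hII
  · obtain ⟨u, hu1, hu2⟩ := hI
    refine H95.K3.caseI_localBound (u := u) hp2 hr hdet hu1 ?_
    rintro R hR ⟨h, hflat⟩
    exact ⟨hu2 R hR ⟨h, hflat⟩, exists_FData_of_flatM (flatM_of_isFlatAt h hflat)⟩
  · obtain ⟨hall, hirr⟩ := hII
    obtain ⟨n, e, a, hFD⟩ := exists_FData_of_flatM hFM
    have he := sq_sub_one_pos p
    have hep := coprime_sq_sub_one p
    obtain ⟨π, hπ⟩ : ∃ π : FQb, π ^ (p ^ 2 - 1) = -(p : FQb) :=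
      IsAlgClosed.exists_pow_nat_eq _ he
    obtain ⟨t, ht, ζ, hζ, htπ⟩ := exists_tame_gen he hep hπ
    obtain ⟨hTm, -, P, g, b, hP, htP, hφP, hg, hgp, hg0, hb, hgχ⟩ :=
      caseII_structure hr hdet hsplit hFD (hall n e a hFD)
        (fun v hv hcon => hirr ⟨v, hv, hcon⟩) hπ ht hζ htπ
    obtain ⟨u, rfl⟩ := hP
    obtain ⟨hL1, X, hXfin, hXcard, hX⟩ := hcount π t ζ g hπ ht hζ htπ hg hgp hg0 hgχ
    refine caseII_localBound hp2 hr hπ ht hζ htπ hTm htP hφP hg hgp hg0 hb hL1 X hXfin hXcard hX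
      ?_
    rintro R hR ⟨h, hflat⟩
    exact exists_FData_of_flatM (flatM_of_isFlatAt h hflat)

end Fermat.Agent.H29
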