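import Mathlib

/-!
# S47, block (T), package T4: the Hecke operator at a split prime on the Hermitian lattice

`R` is a commutative ring with an involution `star` (think of `ℤ[ω]`), `π · star π = p` a split
prime. `Herm R` is the lattice of Hermitian matrices `X = (a, b; star b, d)` with `a, d ∈ ℤ`,
`b ∈ R`, and `Q X = b * star b - a * d`.  The matrices `α_t = (1, t; 0, π)`, `0 ≤ t < p`, and
`α_∞ = (π, 0; 0, 1)` represent `SL₂(R) \ {det = π}`, and `X ↦ adj(α) X adj(α)^*` are the maps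
`Herm.tr t` and `Herm.ti` below.
-/

set_option autoImplicit false
set_option linter.unusedSectionVars false

namespace Fermat.Agent.H29T

/-- a commutative ring with involution, with integral norm and trace -/
class NormTrace (R : Type*) [CommRing R] [StarRing R] where
  nm : R → ℤ
  tr : R → ℤ
  nm_cast : ∀ x : R, ((nm x : ℤ) : R) = x * star x
  tr_cast : ∀ x : R, ((tr x : ℤ) : R) = x + star x

open NormTrace

section

variable {R : Type*} [CommRing R] [StarRing R] [NormTrace R] [IsDomain R] [CharZero R]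

lemma nm_mul (x y : R) : nm (x * y) = nm x * nm y := by
  have h : ((nm (x * y) : ℤ) : R) = ((nm x * nm y : ℤ) : R) := by
    push_cast
    rw [nm_cast, nm_cast, nm_cast, star_mul]; ring
  exact_mod_cast h

lemma nm_intCast (n : ℤ) : nm (n : R) = n ^ 2 := by
  have h : ((nm (n : R) : ℤ) : R) = ((n ^ 2 : ℤ) : R) := by
    push_cast
    rw [nm_cast, star_intCast]; ring
  exact_mod_cast h

lemma tr_intCast (n : ℤ) : tr (n : R) = 2 * n := by
  have h : ((tr (n : R) : ℤ) : R) = ((2 * n : ℤ) : R) := by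
    push_cast
    rw [tr_cast, star_intCast]; ring
  exact_mod_cast h

lemma tr_add (x y : R) : tr (x + y) = tr x + tr y := by
  have h : ((tr (x + y) : ℤ) : R) = ((tr x + tr y : ℤ) : R) := by
    push_cast
    rw [tr_cast, tr_cast, tr_cast, star_add]; ring
  exact_mod_cast h

lemma tr_sub (x y : R) : tr (x - y) = tr x - tr y := by
  have h : ((tr (x - y) : ℤ) : R) = ((tr x - tr y : ℤ) : R) := by
    push_cast
    rw [tr_cast, tr_cast, tr_cast, star_sub]; ring
  exact_mod_cast h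

lemma tr_int_mul (n : ℤ) (x : R) : tr ((n : R) * x) = n * tr x := by
  have h : ((tr ((n : R) * x) : ℤ) : R) = ((n * tr x : ℤ) : R) := by
    push_cast
    rw [tr_cast, tr_cast, star_mul, star_intCast]; ring
  exact_mod_cast h

lemma nm_add_int (b : R) (n : ℤ) : nm (b + n) = nm b + n * tr b + n ^ 2 := by
  have h : ((nm (b + n) : ℤ) : R) = ((nm b + n * tr b + n ^ 2 : ℤ) : R) := by
    push_cast
    rw [nm_cast, nm_cast, tr_cast, star_add, star_intCast]; ring
  exact_mod_cast h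

/-- a split prime -/
structure SplitPrime (R : Type*) [CommRing R] [StarRing R] (p : ℕ) (π : R) : Prop where
  prime : p.Prime
  mul_star : π * star π = p
  surj : ∀ b : R, ∃ n : ℤ, π ∣ b - n
  ne : ¬ star π ∣ π

namespace SplitPrime

variable {p : ℕ} {π : R} (h : SplitPrime R p π)

include h

omit [NormTrace R] [IsDomain R] [CharZero R] in
lemma dvd_p : π ∣ (p : R) := ⟨star π, h.mul_star.symm⟩

omit [NormTrace R] [IsDomain R] [CharZero R] in
lemma star_dvd_p : star π ∣ (p : R) := ⟨π, by rw [mul_comm, h.mul_star]⟩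

omit [NormTrace R] [IsDomain R] in
lemma ne_zero : π ≠ 0 := by
  rintro rfl
  have h1 := h.mul_star
  rw [zero_mul] at h1
  exact h.prime.ne_zero (by exact_mod_cast h1.symm)

lemma nm_pi : nm π = p := by
  have h1 : ((nm π : ℤ) : R) = ((p : ℤ) : R) := by
    rw [nm_cast, h.mul_star]; push_cast; rfl
  exact_mod_cast h1

lemma dvd_int {n : ℤ} : π ∣ (n : R) ↔ (p : ℤ) ∣ n := by
  constructor
  · rintro ⟨r, hr⟩
    have h1 : n ^ 2 = p * nm r := by rw [← nm_intCast (R := R), hr, nm_mul, h.nm_pi]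
    have hp : Prime (p : ℤ) := Nat.prime_iff_prime_int.mp h.prime
    exact hp.dvd_of_dvd_pow ⟨_, h1⟩
  · rintro ⟨m, rfl⟩
    push_cast
    exact h.dvd_p.mul_right _

lemma star_dvd_int {n : ℤ} : star π ∣ (n : R) ↔ (p : ℤ) ∣ n := by
  rw [← h.dvd_int]
  constructor
  · rintro ⟨r, hr⟩
    refine ⟨star r, ?_⟩
    have := congrArg star hr
    rw [star_intCast, star_mul, star_star] at this
    rw [this, mul_comm]
  · rintro ⟨r, hr⟩
    refine ⟨star r, ?_⟩
    have := congrArg star hr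
    rw [star_intCast, star_mul] at this
    rw [this, mul_comm]

omit [NormTrace R] [IsDomain R] [CharZero R] h in
lemma star_dvd_iff {x y : R} : star x ∣ star y ↔ x ∣ y := by
  constructor
  · rintro ⟨r, hr⟩
    refine ⟨star r, ?_⟩
    have := congrArg star hr
    rw [star_star, star_mul, star_star] at this
    rw [this, mul_comm]
  · rintro ⟨r, hr⟩
    refine ⟨star r, ?_⟩
    have := congrArg star hr
    rw [star_mul] at this
    rw [this, mul_comm]

lemma dvd_mul {x y : R} (hxy : π ∣ x * y) : π ∣ x ∨ π ∣ y := by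
  obtain ⟨m, hm⟩ := h.surj x
  obtain ⟨n, hn⟩ := h.surj y
  have h1 : π ∣ ((m * n : ℤ) : R) := by
    push_cast
    have e : (m : R) * n = x * y - ((x - m) * y + m * (y - n)) := by ring
    rw [e]
    exact dvd_sub hxy (dvd_add (hm.mul_right _) (hn.mul_left _))
  rw [h.dvd_int] at h1
  have hp : Prime (p : ℤ) := Nat.prime_iff_prime_int.mp h.prime
  rcases hp.dvd_or_dvd h1 with h2 | h2
  · left
    have h3 : π ∣ (m : R) := h.dvd_int.mpr h2
    have e : x = (x - m) + m := by ring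
    rw [e]; exact dvd_add hm h3
  · right
    have h3 : π ∣ (n : R) := h.dvd_int.mpr h2
    have e : y = (y - n) + n := by ring
    rw [e]; exact dvd_add hn h3

lemma star_dvd_mul {x y : R} (hxy : star π ∣ x * y) : star π ∣ x ∨ star π ∣ y := by
  have h1 : π ∣ star x * star y := by
    rw [← star_dvd_iff, star_mul, star_star, star_star, mul_comm]; exact hxy
  rcases h.dvd_mul h1 with h2 | h2
  · left; rw [← star_dvd_iff, star_star] at h2; exact h2
  · right; rw [← star_dvd_iff, star_star] at h2; exact h2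

/-- `p ∣ N(b)` iff `π ∣ b` or `star π ∣ b` -/
lemma dvd_nm {b : R} : (p : ℤ) ∣ nm b ↔ π ∣ b ∨ star π ∣ b := by
  rw [← h.dvd_int, nm_cast]
  constructor
  · intro h1
    rcases h.dvd_mul h1 with h2 | h2
    · exact Or.inl h2
    · right; rw [← star_dvd_iff, star_star] at h2; exact h2
  · rintro (h1 | h1)
    · exact h1.mul_right _
    · refine dvd_mul_of_dvd_right ?_ _
      rw [← star_dvd_iff, star_star]; exact h1

lemma dvd_of_both {b : R} (h1 : π ∣ b) (h2 : star π ∣ b) : (p : R) ∣ b := by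
  obtain ⟨c, rfl⟩ := h1
  rcases h.star_dvd_mul h2 with h3 | h3
  · exact absurd h3 h.ne
  · obtain ⟨e, rfl⟩ := h3
    exact ⟨e, by rw [← h.mul_star]; ring⟩

lemma p_dvd_iff {b : R} : (p : R) ∣ b ↔ π ∣ b ∧ star π ∣ b :=
  ⟨fun h1 => ⟨h.dvd_p.trans h1, h.star_dvd_p.trans h1⟩, fun h1 => h.dvd_of_both h1.1 h1.2⟩

lemma p_dvd_int {n : ℤ} : (p : R) ∣ (n : R) ↔ (p : ℤ) ∣ n :=
  ⟨fun h1 => h.dvd_int.mp (h.dvd_p.trans h1), fun ⟨m, hm⟩ => ⟨m, by rw [hm]; push_cast; rfl⟩⟩

end SplitPrime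

end

/-- the lattice of Hermitian matrices `(a, b; star b, d)` -/
@[ext] structure Herm (R : Type*) where
  a : ℤ
  d : ℤ
  b : R

namespace Herm

section

variable {R : Type*} [CommRing R] [StarRing R] [NormTrace R]

/-- the quadratic form `-det` -/
def Q (X : Herm R) : ℤ := nm X.b - X.a * X.d

/-- `X ↦ p X` -/
def sc (p : ℕ) (X : Herm R) : Herm R := ⟨p * X.a, p * X.d, p * X.b⟩

/-- `X ↦ adj(α_t) X adj(α_t)^*`, `α_t = (1, t; 0, π)` -/
def tr (p : ℕ) (π : R) (t : ℕ) (X : Herm R) : Herm R :=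
  ⟨p * X.a - t * NormTrace.tr (π * X.b) + t ^ 2 * X.d, X.d, π * X.b - t * X.d⟩

/-- `X ↦ adj(α_∞) X adj(α_∞)^*`, `α_∞ = (π, 0; 0, 1)` -/
def ti (p : ℕ) (π : R) (X : Herm R) : Herm R := ⟨X.a, p * X.d, star π * X.b⟩

end

variable {R : Type*} [CommRing R] [StarRing R] [NormTrace R] [IsDomain R] [CharZero R]
  {p : ℕ} {π : R} (h : SplitPrime R p π)

include h

lemma Q_tr (t : ℕ) (X : Herm R) : (tr p π t X).Q = p * X.Q := by
  have e1 : nm (π * X.b - (t : R) * X.d) = p * nm X.b + (-(t * X.d)) * NormTrace.tr (π * X.b)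
      + (-(t * X.d : ℤ)) ^ 2 := by
    have e : π * X.b - (t : R) * X.d = π * X.b + ((-(t * X.d) : ℤ) : R) := by push_cast; ring
    rw [e, nm_add_int, nm_mul, h.nm_pi]
  simp only [Q, tr]
  rw [e1]; ring

lemma Q_ti (X : Herm R) : (ti p π X).Q = p * X.Q := by
  have e1 : nm (star π) = p := by
    have h1 : ((nm (star π) : ℤ) : R) = ((p : ℤ) : R) := by
      rw [nm_cast, star_star, mul_comm, h.mul_star]; push_cast; rfl
    exact_mod_cast h1
  simp only [Q, ti]
  rw [nm_mul, e1]; ring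

lemma Q_sc (X : Herm R) : (sc p X).Q = p ^ 2 * X.Q := by
  have e1 : nm ((p : R) * X.b) = p ^ 2 * nm X.b := by
    have : (p : R) = ((p : ℤ) : R) := by push_cast; rfl
    rw [nm_mul, this, nm_intCast]
  simp only [Q, sc]
  rw [e1]; ring

lemma sc_injective : Function.Injective (sc (R := R) p) := by
  intro X Y hXY
  have hp : (p : ℤ) ≠ 0 := by exact_mod_cast h.prime.ne_zero
  have hp' : (p : R) ≠ 0 := by exact_mod_cast h.prime.ne_zero
  simp only [sc, Herm.mk.injEq] at hXY
  obtain ⟨h1, h2, h3⟩ := hXY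
  exact Herm.ext (mul_left_cancel₀ hp h1) (mul_left_cancel₀ hp h2) (mul_left_cancel₀ hp' h3)

lemma tr_injective (t : ℕ) : Function.Injective (tr p π t) := by
  intro X Y hXY
  have hp : (p : ℤ) ≠ 0 := by exact_mod_cast h.prime.ne_zero
  simp only [tr, Herm.mk.injEq] at hXY
  obtain ⟨h1, h2, h3⟩ := hXY
  have h4 : X.b = Y.b := by
    rw [h2] at h3
    exact mul_left_cancel₀ h.ne_zero (sub_left_injective h3)
  rw [h2, h4] at h1
  refine Herm.ext (mul_left_cancel₀ hp ?_) h2 h4
  linarith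

lemma ti_injective : Function.Injective (ti p π) := by
  intro X Y hXY
  have hp : (p : ℤ) ≠ 0 := by exact_mod_cast h.prime.ne_zero
  simp only [ti, Herm.mk.injEq] at hXY
  obtain ⟨h1, h2, h3⟩ := hXY
  exact Herm.ext h1 (mul_left_cancel₀ hp h2)
    (mul_left_cancel₀ (star_ne_zero.mpr h.ne_zero) h3)

lemma mem_range_tr (t : ℕ) (Z : Herm R) : Z ∈ Set.range (tr p π t) ↔
    π ∣ Z.b + t * Z.d ∧ (p : ℤ) ∣ Z.a + t * NormTrace.tr Z.b + t ^ 2 * Z.d := by
  constructor
  · rintro ⟨X, rfl⟩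
    refine ⟨⟨X.b, ?_⟩, ⟨X.a, ?_⟩⟩
    · simp only [tr]; ring
    · simp only [tr]
      have e : NormTrace.tr (π * X.b - (t : R) * X.d) = NormTrace.tr (π * X.b) - 2 * (t * X.d) := by
        rw [tr_sub]
        have : (t : R) * X.d = ((t * X.d : ℤ) : R) := by push_cast; ring
        rw [this, tr_intCast]
      rw [e]; ring
  · rintro ⟨⟨b', hb⟩, ⟨a', ha⟩⟩
    have hb' : π * b' - t * Z.d = Z.b := by rw [← hb]; ring
    have e : NormTrace.tr (π * b') = NormTrace.tr Z.b + 2 * (t * Z.d) := by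
      rw [← hb, tr_add]
      have : (t : R) * Z.d = ((t * Z.d : ℤ) : R) := by push_cast; ring
      rw [this, tr_intCast]
    refine ⟨⟨a', Z.d, b'⟩, Herm.ext ?_ rfl hb'⟩
    simp only [tr]
    rw [e, ← ha]; ring

lemma mem_range_ti (Z : Herm R) : Z ∈ Set.range (ti p π) ↔ star π ∣ Z.b ∧ (p : ℤ) ∣ Z.d := by
  constructor
  · rintro ⟨X, rfl⟩
    exact ⟨⟨X.b, rfl⟩, ⟨X.d, rfl⟩⟩
  · rintro ⟨⟨b', hb⟩, ⟨d', hd⟩⟩
    exact ⟨⟨Z.a, d', b'⟩, Herm.ext rfl hd.symm hb.symm⟩

lemma mem_range_sc (Z : Herm R) : Z ∈ Set.range (sc (R := R) p) ↔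
    (p : ℤ) ∣ Z.a ∧ (p : ℤ) ∣ Z.d ∧ (p : R) ∣ Z.b := by
  constructor
  · rintro ⟨X, rfl⟩
    exact ⟨⟨X.a, rfl⟩, ⟨X.d, rfl⟩, ⟨X.b, rfl⟩⟩
  · rintro ⟨⟨a', ha⟩, ⟨d', hd⟩, ⟨b', hb⟩⟩
    exact ⟨⟨a', d', b'⟩, Herm.ext ha.symm hd.symm hb.symm⟩

end Herm

/-- a linear congruence has exactly one solution -/
lemma sum_range_ite_dvd {p : ℕ} (hp : p.Prime) (a c : ℤ) (hc : ¬ (p : ℤ) ∣ c) :
    ∑ t ∈ Finset.range p, (if (p : ℤ) ∣ a + t * c then (1 : ℂ) else 0) = 1 := by
  haveI : Fact p.Prime := ⟨hp⟩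
  have hc' : (c : ZMod p) ≠ 0 := fun h0 => hc ((ZMod.intCast_zmod_eq_zero_iff_dvd c p).mp h0)
  set x : ZMod p := -(a : ZMod p) / c with hx
  have key : ∀ t ∈ Finset.range p, ((p : ℤ) ∣ a + t * c) ↔ t = x.val := by
    intro t ht
    rw [Finset.mem_range] at ht
    rw [← ZMod.intCast_zmod_eq_zero_iff_dvd]
    push_cast
    constructor
    · intro h1
      have h2 : (t : ZMod p) = x := by
        rw [hx, eq_div_iff hc']
        linear_combination h1
      rw [← h2, ZMod.val_natCast, Nat.mod_eq_of_lt ht]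
    · rintro rfl
      rw [ZMod.natCast_val, ZMod.cast_id', id, hx, div_mul_cancel₀ _ hc']
      ring
  rw [Finset.sum_congr rfl fun t ht => by rw [if_congr (key t ht) rfl rfl]]
  rw [Finset.sum_ite_eq' (Finset.range p) x.val]
  rw [if_pos]
  rw [Finset.mem_range]
  exact ZMod.val_lt x

section Count

variable {R : Type*} [CommRing R] [StarRing R] [NormTrace R] [IsDomain R] [CharZero R]
  {p : ℕ} {π : R}

open Classical in
/-- **the counting lemma** -/
theorem count (h : SplitPrime R p π) (Z : Herm R) :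
    ∑ t ∈ Finset.range p, (if Z ∈ Set.range (Herm.tr p π t) then (1 : ℂ) else 0) +
      (if Z ∈ Set.range (Herm.ti p π) then (1 : ℂ) else 0) =
    (if (p : ℤ) ∣ Z.Q then (1 : ℂ) else 0) +
      p * (if Z ∈ Set.range (Herm.sc (R := R) p) then (1 : ℂ) else 0) := by
  have hpp : Prime (p : ℤ) := Nat.prime_iff_prime_int.mp h.prime
  simp only [Herm.mem_range_tr h, Herm.mem_range_ti h, Herm.mem_range_sc h]
  by_cases hd : (p : ℤ) ∣ Z.d
  · -- `p ∣ d`
    have hQ : (p : ℤ) ∣ Z.Q ↔ π ∣ Z.b ∨ star π ∣ Z.b := by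
      rw [← h.dvd_nm, Herm.Q]
      exact ⟨fun h1 => by
        have := dvd_add h1 (hd.mul_left Z.a)
        rwa [sub_add_cancel] at this, fun h1 => dvd_sub h1 (hd.mul_left _)⟩
    have hπd : ∀ t : ℕ, π ∣ (t : R) * Z.d := fun t => (h.dvd_int.mpr hd).mul_left _
    have hbt : ∀ t : ℕ, π ∣ Z.b + t * Z.d ↔ π ∣ Z.b := fun t =>
      (dvd_add_left (hπd t))
    have hat : ∀ t : ℕ, (p : ℤ) ∣ Z.a + t * NormTrace.tr Z.b + t ^ 2 * Z.d ↔
        (p : ℤ) ∣ Z.a + t * NormTrace.tr Z.b := fun t =>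
      (dvd_add_left (hd.mul_left _))
    simp only [hbt, hat]
    by_cases hb : π ∣ Z.b
    · by_cases hb' : star π ∣ Z.b
      · -- `p ∣ b`
        have hpb : (p : R) ∣ Z.b := h.dvd_of_both hb hb'
        have htr : (p : ℤ) ∣ NormTrace.tr Z.b := by
          rw [← h.dvd_int, tr_cast]
          refine dvd_add hb ?_
          rw [← SplitPrime.star_dvd_iff, star_star]; exact hb'
        have hat' : ∀ t : ℕ, (p : ℤ) ∣ Z.a + t * NormTrace.tr Z.b ↔ (p : ℤ) ∣ Z.a := fun t =>
          (dvd_add_left (htr.mul_left _))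
        simp only [hat', hb, hb', hd, hpb, hQ, true_and, and_true, true_or, if_true]
        by_cases ha : (p : ℤ) ∣ Z.a
        · simp only [ha, if_true, Finset.sum_const, Finset.card_range, nsmul_eq_mul, mul_one]
          ring
        · simp only [ha, if_false, Finset.sum_const_zero, mul_zero]
          ring
      · have htr : ¬ (p : ℤ) ∣ NormTrace.tr Z.b := by
          intro h1
          apply hb'
          have h2 : star π ∣ ((NormTrace.tr Z.b : ℤ) : R) := h.star_dvd_int.mpr h1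
          rw [tr_cast] at h2
          have h3 : star π ∣ star Z.b := SplitPrime.star_dvd_iff.mpr hb
          exact (dvd_add_left h3).mp h2
        have hpb : ¬ (p : R) ∣ Z.b := fun h1 => hb' (h.star_dvd_p.trans h1)
        simp only [hb, hb', hd, hpb, hQ, true_and, and_true, true_or, if_true, false_and, and_false,
          if_false]
        rw [sum_range_ite_dvd h.prime _ _ htr]
        ring
    · have hpb : ¬ (p : R) ∣ Z.b := fun h1 => hb (h.dvd_p.trans h1)
      simp only [hb, hd, hpb, hQ, false_and, and_false, if_false, Finset.sum_const_zero, and_true,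
        false_or, mul_zero, zero_add, add_zero]
  · -- `p ∤ d`
    obtain ⟨n, hn⟩ := h.surj Z.b
    have hbt : ∀ t : ℕ, π ∣ Z.b + t * Z.d ↔ (p : ℤ) ∣ n + t * Z.d := by
      intro t
      rw [← h.dvd_int]
      have e : Z.b + t * Z.d = (Z.b - n) + ((n + t * Z.d : ℤ) : R) := by push_cast; ring
      rw [e]
      exact dvd_add_right hn
    have hat : ∀ t : ℕ, (π ∣ Z.b + t * Z.d ∧
        (p : ℤ) ∣ Z.a + t * NormTrace.tr Z.b + t ^ 2 * Z.d) ↔
        ((p : ℤ) ∣ n + t * Z.d ∧ (p : ℤ) ∣ Z.Q) := by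
      intro t
      rw [← hbt t]
      refine and_congr_right fun h1 => ?_
      have h2 : (p : ℤ) ∣ nm (Z.b + ((t * Z.d : ℤ) : R)) := by
        rw [h.dvd_nm]; left; push_cast; exact h1
      rw [nm_add_int] at h2
      have e : Z.d * (Z.a + t * NormTrace.tr Z.b + t ^ 2 * Z.d) =
          (nm Z.b + (t * Z.d) * NormTrace.tr Z.b + (t * Z.d) ^ 2) - Z.Q := by
        rw [Herm.Q]; ring
      constructor
      · intro h3
        have h4 := h3.mul_left Z.d
        rw [e] at h4
        exact (dvd_sub_right h2).mp h4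
      · intro h3
        have h4 := dvd_sub h2 h3
        rw [← e] at h4
        exact (hpp.dvd_or_dvd h4).resolve_left hd
    simp only [hat, hd, false_and, and_false, if_false, mul_zero, add_zero]
    by_cases hQ : (p : ℤ) ∣ Z.Q
    · simp only [hQ, and_true, if_true]
      exact sum_range_ite_dvd h.prime _ _ hd
    · simp only [hQ, and_false, if_false, Finset.sum_const_zero]

/-- reindexing a sum along an injective map -/
lemma tsum_range_ite {L : Type*} (T : L → L) (hT : Function.Injective T) (g : L → ℂ) :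
    ∑' X, g (T X) = ∑' Z, (open Classical in if Z ∈ Set.range T then (1 : ℂ) else 0) * g Z := by
  classical
  have h1 : Function.support (fun Z => (if Z ∈ Set.range T then (1 : ℂ) else 0) * g Z) ⊆
      Set.range T := by
    intro Z hZ
    by_contra h2
    exact hZ (by simp only [h2, if_false, zero_mul])
  rw [← hT.tsum_eq h1]
  refine tsum_congr fun X => ?_
  rw [if_pos (Set.mem_range_self X), one_mul]

open Classical in
/-- **the Hecke identity for sums over the Hermitian lattice** -/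
theorem hecke_sum (h : SplitPrime R p π) (φ : Herm R → ℂ)
    (hφt : ∀ (t : ℕ) (X : Herm R), φ (Herm.tr p π t X) = φ X)
    (hφi : ∀ X : Herm R, φ (Herm.ti p π X) = φ X) (hφp : ∀ X : Herm R, φ (Herm.sc p X) = φ X)
    (f : Herm R → ℂ) (hf : Summable fun X => φ X * f X) :
    ∑ t ∈ Finset.range p, ∑' X, φ X * f (Herm.tr p π t X) + ∑' X, φ X * f (Herm.ti p π X) =
      (∑' X, if (p : ℤ) ∣ X.Q then φ X * f X else 0) + p * ∑' X, φ X * f (Herm.sc p X) := by
  set g : Herm R → ℂ := fun X => φ X * f X with hg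
  have hsum : ∀ (c : Herm R → ℂ), (∀ X, ‖c X‖ ≤ 1) → Summable fun X => c X * g X := by
    intro c hc
    refine Summable.of_norm_bounded (g := fun X => ‖g X‖) hf.norm fun X => ?_
    rw [norm_mul]
    exact mul_le_of_le_one_left (norm_nonneg _) (hc X)
  have hite : ∀ (P : Prop) [Decidable P], ‖(if P then (1 : ℂ) else 0)‖ ≤ 1 := by
    intro P _; split_ifs <;> simp
  have h1 : ∀ t : ℕ, ∑' X, φ X * f (Herm.tr p π t X) =
      ∑' Z, (if Z ∈ Set.range (Herm.tr p π t) then (1 : ℂ) else 0) * g Z := by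
    intro t
    rw [← tsum_range_ite _ (Herm.tr_injective h t) g]
    refine tsum_congr fun X => ?_
    rw [hg]; simp only [hφt]
  have h2 : ∑' X, φ X * f (Herm.ti p π X) =
      ∑' Z, (if Z ∈ Set.range (Herm.ti p π) then (1 : ℂ) else 0) * g Z := by
    rw [← tsum_range_ite _ (Herm.ti_injective h) g]
    refine tsum_congr fun X => ?_
    rw [hg]; simp only [hφi]
  have h3 : ∑' X, φ X * f (Herm.sc p X) =
      ∑' Z, (if Z ∈ Set.range (Herm.sc (R := R) p) then (1 : ℂ) else 0) * g Z := by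
    rw [← tsum_range_ite _ (Herm.sc_injective h) g]
    refine tsum_congr fun X => ?_
    rw [hg]; simp only [hφp]
  have h4 : (∑' X : Herm R, if (p : ℤ) ∣ X.Q then φ X * f X else 0) =
      ∑' Z, (if (p : ℤ) ∣ Z.Q then (1 : ℂ) else 0) * g Z := by
    refine tsum_congr fun X => ?_
    split_ifs <;> simp [hg]
  rw [Finset.sum_congr rfl fun t _ => h1 t, h2, h3, h4]
  rw [← Summable.tsum_finsetSum fun t _ => hsum _ fun X => hite _]
  rw [← Summable.tsum_add (summable_sum fun t _ => hsum _ fun X => hite _)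
    (hsum _ fun X => hite _)]
  rw [← tsum_mul_left]
  refine Eq.trans ?_ (Summable.tsum_add (hsum _ fun X => hite _)
    ((hsum _ fun X => hite _).mul_left _))
  refine tsum_congr fun Z => ?_
  have := count h Z
  calc _ = (∑ t ∈ Finset.range p, (if Z ∈ Set.range (Herm.tr p π t) then (1 : ℂ) else 0) +
      (if Z ∈ Set.range (Herm.ti p π) then (1 : ℂ) else 0)) * g Z := by
        rw [add_mul, Finset.sum_mul]
    _ = _ := by rw [this]; ring

end Count

end Fermat.Agent.H29T
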