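import Fermat.Agent.H31Hyp2
import Fermat.Agent.H29T1

/-!
# S47, block (T), package T4: the Hecke identity for the theta kernel

`Herm.pair e X w = ½ tr(X adj(herm w))`, `kf e κ τ w X = e(τ κ Q(X)) exp(-4 π v κ pair²)`,
`Th e κ φ τ w = √v ∑ φ(X) kf(X)`.
-/

set_option autoImplicit false
set_option linter.unusedSectionVars false

noncomputable section

open Complex
open scoped ComplexConjugate Real

namespace Fermat.Agent.H29T

open NormTrace

/-- `(1, t; 0, π)` -/
def alT (t : ℂ) (c : ℂ) (hc : c ≠ 0) : GL (Fin 2) ℂ :=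
  Matrix.GeneralLinearGroup.mkOfDetNeZero !![1, t; 0, c] (by simpa [Matrix.det_fin_two] using hc)

theorem alT_smul (t c : ℂ) (hc : c ≠ 0) (w : H3) : alT t c hc • w =
    ⟨(w.z + t) / c, w.y / ‖c‖, div_pos w.pos (norm_pos_iff.mpr hc)⟩ := by
  have h1 : Complex.normSq c ≠ 0 := by simpa using hc
  have h2 : ((Complex.normSq c : ℝ) : ℂ) ≠ 0 := by exact_mod_cast h1
  have h3 : ‖c‖ ≠ 0 := norm_ne_zero_iff.mpr hc
  ext
  · rw [H3.smul_z]
    simp only [alT, H3.den, Matrix.GeneralLinearGroup.mkOfDetNeZero]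
    simp
    rw [div_eq_div_iff h2 hc, mul_assoc, ← Complex.mul_conj]
    ring
  · rw [H3.smul_y]
    simp [alT, H3.den, Matrix.GeneralLinearGroup.mkOfDetNeZero, Matrix.det_fin_two]
    rw [Complex.normSq_eq_norm_sq]
    field_simp

section

variable {R : Type*} [CommRing R] [StarRing R] [NormTrace R]

/-- `½ tr(X adj(herm w))` -/
def Herm.pair (e : R →+* ℂ) (X : Herm R) (w : H3) : ℝ :=
  (X.a - 2 * (e X.b * conj w.z).re + X.d * (Complex.normSq w.z + w.y ^ 2)) / (2 * w.y)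

/-- the Gaussian -/
def kf (e : R →+* ℂ) (κ : ℝ) (τ : ℂ) (w : H3) (X : Herm R) : ℂ :=
  cexp (2 * π * I * τ * ((κ * X.Q : ℝ) : ℂ)) * Real.exp (-(4 * π * τ.im * κ * X.pair e w ^ 2))

/-- the theta kernel -/
def Th (e : R →+* ℂ) (κ : ℝ) (φ : Herm R → ℂ) (τ : ℂ) (w : H3) : ℂ :=
  (Real.sqrt τ.im : ℂ) * ∑' X, φ X * kf e κ τ w X

variable {e : R →+* ℂ} (he : ∀ x, e (star x) = conj (e x))

include he

lemma cast_nm (x : R) : ((nm x : ℤ) : ℝ) = Complex.normSq (e x) := by
  have h : (((nm x : ℤ) : ℝ) : ℂ) = ((Complex.normSq (e x) : ℝ) : ℂ) := by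
    rw [← Complex.mul_conj, ← he, ← map_mul, ← nm_cast, map_intCast]
    push_cast; rfl
  exact_mod_cast h

lemma cast_tr (x : R) : ((tr x : ℤ) : ℝ) = 2 * (e x).re := by
  have h : (((tr x : ℤ) : ℝ) : ℂ) = ((2 * (e x).re : ℝ) : ℂ) := by
    rw [← Complex.add_conj, ← he, ← map_add, ← tr_cast, map_intCast]
    push_cast; rfl
  exact_mod_cast h

variable [IsDomain R] [CharZero R] {p : ℕ} {ϖ : R} (h : SplitPrime R p ϖ)

include h

omit he [NormTrace R] [IsDomain R] in
lemma e_ne : e ϖ ≠ 0 := by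
  intro h0
  have h1 := congrArg e h.mul_star
  rw [map_mul, h0, zero_mul, map_natCast] at h1
  exact h.prime.ne_zero (by exact_mod_cast h1.symm)

omit [NormTrace R] [IsDomain R] [CharZero R] in
lemma mul_conj_e : e ϖ * conj (e ϖ) = p := by
  rw [← he, ← map_mul, h.mul_star, map_natCast]

omit [NormTrace R] [IsDomain R] [CharZero R] in
lemma normSq_e : Complex.normSq (e ϖ) = p := by
  have h1 := mul_conj_e he h
  rw [Complex.mul_conj] at h1
  exact_mod_cast h1

omit [NormTrace R] [IsDomain R] [CharZero R] in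
lemma norm_e : ‖e ϖ‖ = Real.sqrt p := by
  rw [← normSq_e he h, Complex.normSq_eq_norm_sq, Real.sqrt_sq (norm_nonneg _)]

omit [NormTrace R] [IsDomain R] [CharZero R] in
lemma norm_e_sq : ‖e ϖ‖ ^ 2 = p := by
  rw [← Complex.normSq_eq_norm_sq, normSq_e he h]

lemma pair_tr (t : ℕ) (X : Herm R) (w : H3) :
    (Herm.tr p ϖ t X).pair e w = ‖e ϖ‖ * X.pair e (alT t (e ϖ) (e_ne h) • w) := by
  have h1 := norm_e_sq he h
  have h0 : ‖e ϖ‖ ≠ 0 := norm_ne_zero_iff.mpr (e_ne h)
  have hy := w.pos.ne'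
  have hq : (p : ℝ) ≠ 0 := by exact_mod_cast h.prime.ne_zero
  have hc : conj (e ϖ) ≠ 0 := (map_ne_zero _).mpr (e_ne h)
  rw [alT_smul]
  simp only [Herm.pair, Herm.tr]
  push_cast
  rw [cast_tr he, map_sub, map_mul, map_mul, map_natCast, map_intCast]
  set c := e ϖ with hcdef
  set b := e X.b with hb
  have e1 : (p : ℝ) * (b * conj ((w.z + t) / c)).re =
      (c * b * conj w.z).re + t * (c * b).re := by
    have e3 : ((p : ℝ) : ℂ) * (b * conj ((w.z + t) / c)) = c * b * conj w.z + ((t : ℝ) : ℂ) * (c * b) := by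
      push_cast
      have e0 : c * conj c = p := mul_conj_e he h
      rw [map_div₀, ← e0, map_add, map_natCast]
      field_simp
    have e4 := congrArg Complex.re e3
    rwa [Complex.re_ofReal_mul, Complex.add_re, Complex.re_ofReal_mul] at e4
  have e2 : Complex.normSq ((w.z + t) / c) = (Complex.normSq w.z + 2 * t * w.z.re + t ^ 2) / p := by
    rw [map_div₀, normSq_e he h]
    congr 1
    rw [Complex.normSq_apply, Complex.normSq_apply, Complex.add_re, Complex.add_im,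
      Complex.natCast_re, Complex.natCast_im]
    ring
  have e5 : ((c * b - (t : ℂ) * (X.d : ℂ)) * conj w.z).re =
      (c * b * conj w.z).re - t * X.d * w.z.re := by
    have : (c * b - (t : ℂ) * (X.d : ℂ)) * conj w.z =
        c * b * conj w.z - (((t * X.d : ℝ)) : ℂ) * conj w.z := by push_cast; ring
    rw [this, Complex.sub_re, Complex.re_ofReal_mul, Complex.conj_re]
  rw [e5, e2]
  have e6 : (w.y / ‖c‖) ^ 2 = w.y ^ 2 / p := by rw [div_pow, h1]
  rw [e6]
  have e7 : ‖c‖ * ((X.a - 2 * (b * conj ((w.z + t) / c)).re +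
      X.d * ((Complex.normSq w.z + 2 * t * w.z.re + t ^ 2) / p + w.y ^ 2 / p)) / (2 * (w.y / ‖c‖))) =
      (p * X.a - 2 * (p * (b * conj ((w.z + t) / c)).re) +
      X.d * (Complex.normSq w.z + 2 * t * w.z.re + t ^ 2 + w.y ^ 2)) / (2 * w.y) := by
    rw [← h1] at hq ⊢
    field_simp
  rw [e7, e1]
  congr 1
  ring

lemma pair_ti (X : Herm R) (w : H3) :
    (Herm.ti p ϖ X).pair e w = ‖e ϖ‖ * X.pair e (H3.dMat (e ϖ) (e_ne h) • w) := by
  have h1 := norm_e_sq he h
  have h0 : ‖e ϖ‖ ≠ 0 := norm_ne_zero_iff.mpr (e_ne h)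
  have hy := w.pos.ne'
  rw [H3.dMat_smul]
  simp only [Herm.pair, Herm.ti]
  push_cast
  rw [map_mul, he]
  set c := e ϖ with hcdef
  set b := e X.b with hb
  have e2 : Complex.normSq (c * w.z) = p * Complex.normSq w.z := by
    rw [map_mul, normSq_e he h]
  have e3 : b * conj (c * w.z) = conj c * b * conj w.z := by rw [map_mul]; ring
  rw [e2, e3, ← h1]
  field_simp

omit he h [IsDomain R] [CharZero R] in
lemma pair_sc (X : Herm R) (w : H3) :
    (Herm.sc p X).pair e w = p * X.pair e w := by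
  simp only [Herm.pair, Herm.sc]
  push_cast
  rw [map_mul, map_natCast]
  have : ((p : ℂ) * e X.b * conj w.z).re = p * (e X.b * conj w.z).re := by
    rw [mul_assoc, ← Complex.ofReal_natCast, Complex.re_ofReal_mul]
  rw [this]
  have hy := w.pos.ne'
  field_simp

/-- `f_τ(X, α_t w) = f_{τ/p}(adj(α_t) X adj(α_t)^*, w)` -/
lemma kf_tr (κ : ℝ) (τ : ℂ) (t : ℕ) (X : Herm R) (w : H3) :
    kf e κ τ (alT t (e ϖ) (e_ne h) • w) X = kf e κ (τ / p) w (Herm.tr p ϖ t X) := by
  have hq : (p : ℝ) ≠ 0 := by exact_mod_cast h.prime.ne_zero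
  have hq' : (p : ℂ) ≠ 0 := by exact_mod_cast h.prime.ne_zero
  rw [kf, kf, pair_tr he h, Herm.Q_tr h, mul_pow, norm_e_sq he h, Complex.div_natCast_im]
  congr 1
  · congr 1
    push_cast
    field_simp
  · congr 2
    field_simp

lemma kf_ti (κ : ℝ) (τ : ℂ) (X : Herm R) (w : H3) :
    kf e κ τ (H3.dMat (e ϖ) (e_ne h) • w) X = kf e κ (τ / p) w (Herm.ti p ϖ X) := by
  have hq : (p : ℝ) ≠ 0 := by exact_mod_cast h.prime.ne_zero
  have hq' : (p : ℂ) ≠ 0 := by exact_mod_cast h.prime.ne_zero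
  rw [kf, kf, pair_ti he h, Herm.Q_ti h, mul_pow, norm_e_sq he h, Complex.div_natCast_im]
  congr 1
  · congr 1
    push_cast
    field_simp
  · congr 2
    field_simp

omit he in
lemma kf_sc (κ : ℝ) (τ : ℂ) (X : Herm R) (w : H3) :
    kf e κ (p * τ) w X = kf e κ (τ / p) w (Herm.sc p X) := by
  have hq : (p : ℝ) ≠ 0 := by exact_mod_cast h.prime.ne_zero
  have hq' : (p : ℂ) ≠ 0 := by exact_mod_cast h.prime.ne_zero
  have e1 : ((p : ℂ) * τ).im = p * τ.im := by
    rw [← Complex.ofReal_natCast, Complex.im_ofReal_mul]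
  rw [kf, kf, pair_sc, Herm.Q_sc h, mul_pow, Complex.div_natCast_im, e1]
  congr 1
  · congr 1
    push_cast
    field_simp
  · congr 2
    field_simp

omit [StarRing R] [NormTrace R] [IsDomain R] [CharZero R] he h in
/-- orthogonality of additive characters -/
lemma sum_exp (hp : p.Prime) (n : ℤ) : ∑ b ∈ Finset.range p, cexp (2 * π * I * (b * n / p)) =
    if (p : ℤ) ∣ n then (p : ℂ) else 0 := by
  have hp0 : (p : ℂ) ≠ 0 := by exact_mod_cast hp.ne_zero
  have h1 : ∀ b ∈ Finset.range p, cexp (2 * π * I * (b * n / p)) =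
      (cexp (2 * π * I * (n / p))) ^ b := by
    intro b _
    rw [← Complex.exp_nat_mul]
    congr 1
    ring
  rw [Finset.sum_congr rfl h1]
  split_ifs with hd
  · obtain ⟨m, rfl⟩ := hd
    have h2 : cexp (2 * π * I * (((p * m : ℤ) : ℂ) / p)) = 1 := by
      rw [Complex.exp_eq_one_iff]
      refine ⟨m, ?_⟩
      push_cast
      field_simp
    rw [h2]
    simp
  · have h2 : cexp (2 * π * I * (n / p)) ≠ 1 := by
      intro h3
      rw [Complex.exp_eq_one_iff] at h3
      obtain ⟨m, hm⟩ := h3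
      apply hd
      have h4 : (n : ℂ) = p * m := by
        have h5 : (2 * π * I) ≠ 0 := Complex.two_pi_I_ne_zero
        have h6 : (n : ℂ) / p = m := by
          apply mul_left_cancel₀ h5
          rw [hm]; ring
        field_simp at h6
        rw [h6]; 
      exact ⟨m, by exact_mod_cast h4⟩
    have h3 : cexp (2 * π * I * (n / p)) ^ p = 1 := by
      rw [← Complex.exp_nat_mul, Complex.exp_eq_one_iff]
      exact ⟨n, by field_simp⟩
    have h4 := mul_geom_sum (cexp (2 * π * I * (n / p))) p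
    rw [h3, sub_self] at h4
    exact (mul_eq_zero.mp h4).resolve_left (sub_ne_zero.mpr h2)

omit he in
/-- the translates `(τ + s b) / p` -/
lemma kf_shift (κ : ℝ) (τ : ℂ) (s b : ℕ) (X : Herm R) (w : H3) (n : ℤ)
    (hn : (s : ℝ) * κ * X.Q = n) :
    kf e κ ((τ + s * b) / p) w X = kf e κ (τ / p) w X * cexp (2 * π * I * (b * n / p)) := by
  have hq' : (p : ℂ) ≠ 0 := by exact_mod_cast h.prime.ne_zero
  have e1 : ((τ + s * b) / p).im = (τ / p).im := by
    rw [Complex.div_natCast_im, Complex.div_natCast_im, Complex.add_im]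
    have : ((s : ℂ) * b).im = 0 := by
      rw [← Nat.cast_mul, Complex.natCast_im]
    rw [this, add_zero]
  have hn' : (s : ℂ) * κ * X.Q = n := by
    exact_mod_cast congrArg (fun x : ℝ => (x : ℂ)) hn
  have e2 : cexp (2 * π * I * ((τ + s * b) / p) * ((κ * X.Q : ℝ) : ℂ)) =
      cexp (2 * π * I * (τ / p) * ((κ * X.Q : ℝ) : ℂ)) * cexp (2 * π * I * (b * n / p)) := by
    rw [← Complex.exp_add]
    congr 1
    rw [← hn']
    push_cast
    field_simp
  rw [kf, kf, e1, e2]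
  ring

/-- **the Hecke identity for the theta kernel** -/
theorem hecke_kernel (φ : Herm R → ℂ)
    (hφt : ∀ (t : ℕ) (X : Herm R), φ (Herm.tr p ϖ t X) = φ X)
    (hφi : ∀ X : Herm R, φ (Herm.ti p ϖ X) = φ X) (hφp : ∀ X : Herm R, φ (Herm.sc p X) = φ X)
    (κ : ℝ) (s : ℕ)
    (hs : ∀ X, φ X ≠ 0 → ∃ n : ℤ, (s : ℝ) * κ * X.Q = n ∧ ((p : ℤ) ∣ n ↔ (p : ℤ) ∣ X.Q))
    (τ : ℂ) (hτ : 0 < τ.im) (w : H3) (hsum : Summable fun X => φ X * kf e κ (τ / p) w X) :
    ∑ t ∈ Finset.range p, Th e κ φ τ (alT t (e ϖ) (e_ne h) • w) +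
      Th e κ φ τ (H3.dMat (e ϖ) (e_ne h) • w) =
    Real.sqrt p * (1 / p * ∑ b ∈ Finset.range p, Th e κ φ ((τ + s * b) / p) w +
      Th e κ φ (p * τ) w) := by
  have hp : (0 : ℝ) < p := by exact_mod_cast h.prime.pos
  have hp0 : (p : ℂ) ≠ 0 := by exact_mod_cast h.prime.ne_zero
  have key := hecke_sum h φ hφt hφi hφp (kf e κ (τ / p) w) hsum
  -- left hand side
  have hL : ∑ t ∈ Finset.range p, Th e κ φ τ (alT t (e ϖ) (e_ne h) • w) +
      Th e κ φ τ (H3.dMat (e ϖ) (e_ne h) • w) = (Real.sqrt τ.im : ℂ) *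
      ((∑' X, if (p : ℤ) ∣ X.Q then φ X * kf e κ (τ / p) w X else 0) +
        p * ∑' X, φ X * kf e κ (τ / p) w (Herm.sc p X)) := by
    rw [← key, mul_add, Finset.mul_sum]
    congr 1
    · refine Finset.sum_congr rfl fun t _ => ?_
      simp only [Th, kf_tr he h]
    · simp only [Th, kf_ti he h]
  -- the translates
  have hb : ∑ b ∈ Finset.range p, Th e κ φ ((τ + s * b) / p) w = (Real.sqrt (τ.im / p) : ℂ) *
      (p * ∑' X, if (p : ℤ) ∣ X.Q then φ X * kf e κ (τ / p) w X else 0) := by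
    have e1 : ∀ b : ℕ, ((τ + s * b) / p).im = τ.im / p := by
      intro b
      rw [Complex.div_natCast_im, Complex.add_im]
      have : ((s : ℂ) * b).im = 0 := by
        rw [← Nat.cast_mul, Complex.natCast_im]
      rw [this, add_zero]
    have e2 : ∀ b : ℕ, Th e κ φ ((τ + s * b) / p) w = (Real.sqrt (τ.im / p) : ℂ) *
        ∑' X, φ X * kf e κ ((τ + s * b) / p) w X := by
      intro b
      rw [Th, e1]
    rw [Finset.sum_congr rfl fun b _ => e2 b, ← Finset.mul_sum]
    congr 1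
    choose! n hn1 hn2 using hs
    have e3 : ∀ (b : ℕ) (X : Herm R), φ X * kf e κ ((τ + s * b) / p) w X =
        cexp (2 * π * I * (b * n X / p)) * (φ X * kf e κ (τ / p) w X) := by
      intro b X
      by_cases hX : φ X = 0
      · rw [hX]; ring
      · rw [kf_shift h κ τ s b X w (n X) (hn1 X hX)]
        ring
    have e4 : ∀ b : ℕ, Summable fun X => cexp (2 * π * I * (b * n X / p)) *
        (φ X * kf e κ (τ / p) w X) := by
      intro b
      refine Summable.of_norm_bounded (g := fun X => ‖φ X * kf e κ (τ / p) w X‖) hsum.norm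
        fun X => ?_
      rw [norm_mul]
      have : ‖cexp (2 * π * I * (b * n X / p))‖ = 1 := by
        have e5 : 2 * π * I * ((b : ℂ) * n X / p) = ((2 * π * (b * n X / p) : ℝ) : ℂ) * I := by
          push_cast; ring
        rw [e5, Complex.norm_exp_ofReal_mul_I]
      rw [this, one_mul]
    rw [Finset.sum_congr rfl fun b _ => tsum_congr fun X => e3 b X]
    rw [← Summable.tsum_finsetSum fun b _ => e4 b, ← tsum_mul_left]
    refine tsum_congr fun X => ?_
    rw [← Finset.sum_mul, sum_exp h.prime]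
    by_cases hX : φ X = 0
    · rw [hX]; simp
    · by_cases hd : (p : ℤ) ∣ X.Q
      · rw [if_pos ((hn2 X hX).mpr hd), if_pos hd]
      · rw [if_neg (fun h1 => hd ((hn2 X hX).mp h1)), if_neg hd, zero_mul, mul_zero]
  have hi : Th e κ φ (p * τ) w = (Real.sqrt (p * τ.im) : ℂ) *
      ∑' X, φ X * kf e κ (τ / p) w (Herm.sc p X) := by
    have e1 : ((p : ℂ) * τ).im = p * τ.im := by
      rw [← Complex.ofReal_natCast, Complex.im_ofReal_mul]
    rw [Th, e1]
    simp only [kf_sc h]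
  rw [hL, hb, hi]
  have hs1 : Real.sqrt p * Real.sqrt (τ.im / p) = Real.sqrt τ.im := by
    rw [← Real.sqrt_mul hp.le]
    congr 1
    field_simp
  have hs2 : Real.sqrt p * Real.sqrt (p * τ.im) = p * Real.sqrt τ.im := by
    rw [← Real.sqrt_mul hp.le, ← mul_assoc, Real.sqrt_mul (by positivity), Real.sqrt_mul_self hp.le]
  have hs1' : (Real.sqrt p : ℂ) * (Real.sqrt (τ.im / p) : ℂ) = (Real.sqrt τ.im : ℂ) := by
    exact_mod_cast hs1
  have hs2' : (Real.sqrt p : ℂ) * (Real.sqrt (p * τ.im) : ℂ) = (p : ℂ) * (Real.sqrt τ.im : ℂ) := by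
    exact_mod_cast hs2
  rw [← hs1']
  have e8 : ∀ S1 S2 : ℂ, (Real.sqrt p : ℂ) * (1 / p * ((Real.sqrt (τ.im / p) : ℂ) * (p * S1)) +
      (Real.sqrt (p * τ.im) : ℂ) * S2) = ((Real.sqrt p : ℂ) * (Real.sqrt (τ.im / p) : ℂ)) * S1 +
      ((Real.sqrt p : ℂ) * (Real.sqrt (p * τ.im) : ℂ)) * S2 := by
    intro S1 S2
    field_simp
  rw [e8, hs2', ← hs1']
  ring

end

end Fermat.Agent.H29T
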