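import Mathlib

/-!
# S47, block (T), package T4: adjointness of a Hecke correspondence in cut-off language

`Γ` a countable group acting on a measure space, `Δ = ⋃ Γ α i` a finite union of cosets, stable
under an involution `σ` which induces `δ ↦ δ⁻¹` on the space.  Then
`∫ χ F ∑ Θ(α i x) = ∫ χ (∑ F(α i x)) Θ`, `χ` any cut-off of `Γ`.
-/

set_option autoImplicit false
set_option linter.unusedSectionVars false

open MeasureTheory

namespace Fermat.Agent.H29T

section Sum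

variable {Γ ι E : Type*} [Fintype ι] [NormedAddCommGroup E]

lemma hasSum_prod_fintype {f : Γ × ι → E} {a : ι → E} (h : ∀ i, HasSum (fun γ => f (γ, i)) (a i)) :
    HasSum f (∑ i, a i) := by
  classical
  have h1 : ∀ i ∈ (Finset.univ : Finset ι),
      HasSum (fun δ : Γ × ι => if δ.2 = i then f δ else 0) (a i) := by
    intro i _
    have hinj : Function.Injective (fun γ : Γ => (γ, i)) := fun γ γ' h => (Prod.mk.inj h).1
    rw [← Function.Injective.hasSum_iff hinj]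
    · simpa [Function.comp_def] using h i
    · rintro ⟨γ, j⟩ hγ
      have : j ≠ i := by
        rintro rfl
        exact hγ ⟨γ, rfl⟩
      simp [this]
  have h2 := hasSum_sum h1
  simpa using h2

lemma summable_prod_fintype {f : Γ × ι → E} (h : ∀ i, Summable (fun γ => f (γ, i))) :
    Summable f :=
  (hasSum_prod_fintype fun i => (h i).hasSum).summable

end Sum

section Adjoint

variable {X : Type*} [MeasurableSpace X] {μ : Measure X}
  {Γ : Type*} [Countable Γ] {ι : Type*} [Fintype ι]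

/-- The heart of the unfolding: for functions `A`, `B` with `B (γ x) = B x`. -/
lemma hasSum_unfold (D : Γ → X → X) (hD : ∀ γ, Measurable (D γ))
    {χ : X → ℝ} (hχ0 : ∀ x, 0 ≤ χ x) (hχm : Measurable χ)
    (hχ : ∀ x, HasSum (fun γ : Γ => χ (D γ x)) 1)
    {A : X → ℂ} (hA : Integrable (fun x => (χ x : ℂ) * A x) μ) :
    Summable fun γ => ∫ x, ‖(χ (D γ x) : ℂ) * ((χ x : ℂ) * A x)‖ ∂μ := by
  have hle : ∀ x γ, χ (D γ x) ≤ 1 := fun x γ =>
    le_hasSum (hχ x) γ fun _ _ => hχ0 _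
  have hint : ∀ γ, Integrable (fun x => (χ (D γ x) : ℂ) * ((χ x : ℂ) * A x)) μ := by
    intro γ
    refine hA.bdd_mul (c := 1) ?_ ?_
    · exact (Complex.measurable_ofReal.comp (hχm.comp (hD γ))).aestronglyMeasurable
    · refine Filter.Eventually.of_forall fun x => ?_
      rw [Complex.norm_real, Real.norm_of_nonneg (hχ0 _)]
      exact hle x γ
  refine summable_of_sum_le (c := ∫ x, ‖(χ x : ℂ) * A x‖ ∂μ) (fun γ => by positivity) fun s => ?_
  rw [← integral_finsetSum _ fun γ _ => (hint γ).norm]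
  refine integral_mono (integrable_finsetSum _ fun γ _ => (hint γ).norm) hA.norm fun x => ?_
  have h1 : ∀ γ, ‖(χ (D γ x) : ℂ) * ((χ x : ℂ) * A x)‖ = χ (D γ x) * ‖(χ x : ℂ) * A x‖ := by
    intro γ
    rw [norm_mul (χ (D γ x) : ℂ), Complex.norm_real, Real.norm_of_nonneg (hχ0 _)]
  simp only [h1]
  rw [← Finset.sum_mul]
  exact mul_le_of_le_one_left (norm_nonneg _) (sum_le_hasSum s (fun _ _ => hχ0 _) (hχ x))

/-- **adjointness of the Hecke correspondence** (abstract form) -/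
theorem adjoint_hecke (D : Γ × ι → X → X) (hD : ∀ δ, MeasurePreserving (D δ) μ μ)
    (al : ι → X → X) (σ : Γ × ι ≃ Γ × ι) (hσ : ∀ δ x, D (σ δ) (D δ x) = x)
    {χ : X → ℝ} (hχ0 : ∀ x, 0 ≤ χ x) (hχm : Measurable χ)
    (hχ : ∀ i x, HasSum (fun γ : Γ => χ (D (γ, i) x)) 1)
    {F Θ : X → ℂ} (hF : ∀ γ i x, F (D (γ, i) x) = F (al i x))
    (hΘ : ∀ γ i x, Θ (D (γ, i) x) = Θ (al i x))
    (hint : ∀ i, Integrable (fun x => (χ x : ℂ) * (F x * Θ (al i x))) μ) :
    ∫ x, (χ x : ℂ) * (F x * ∑ i, Θ (al i x)) ∂μ =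
      ∫ x, (χ x : ℂ) * ((∑ i, F (al i x)) * Θ x) ∂μ := by
  have hle : ∀ x δ, χ (D δ x) ≤ 1 := fun x δ =>
    le_hasSum (hχ δ.2 x) δ.1 fun _ _ => hχ0 _
  -- the two families
  set I : Γ × ι → X → ℂ := fun δ x => (χ (D δ x) : ℂ) * ((χ x : ℂ) * (F x * Θ (D δ x))) with hI
  set J : Γ × ι → X → ℂ := fun δ x => (χ (D δ x) : ℂ) * ((χ x : ℂ) * (F (D δ x) * Θ x)) with hJ
  have hIint : ∀ δ, Integrable (I δ) μ := by
    rintro ⟨γ, i⟩
    simp only [hI, hΘ]
    refine (hint i).bdd_mul (c := 1) ?_ ?_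
    · exact (Complex.measurable_ofReal.comp (hχm.comp (hD _).measurable)).aestronglyMeasurable
    · refine Filter.Eventually.of_forall fun x => ?_
      rw [Complex.norm_real, Real.norm_of_nonneg (hχ0 _)]
      exact hle x _
  have hIsum : Summable fun δ => ∫ x, ‖I δ x‖ ∂μ := by
    refine summable_prod_fintype fun i => ?_
    simp only [hI, hΘ]
    exact hasSum_unfold (fun γ => D (γ, i)) (fun γ => (hD _).measurable) hχ0 hχm (hχ i) (hint i)
  -- change of variables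
  have hIJ : ∀ δ x, J (σ δ) (D δ x) = I δ x := by
    intro δ x
    simp only [hI, hJ, hσ]
    ring
  -- `D δ` is invertible
  have hσ' : ∀ δ x, D δ (D (σ δ) x) = x := by
    intro δ x
    have h1 : ∀ y, D δ y = D (σ (σ δ)) y := by
      intro y
      have h2 := hσ (σ δ) (D δ y)
      rw [hσ δ y] at h2
      exact h2.symm
    rw [h1]
    exact hσ (σ δ) x
  have hemb : ∀ δ, MeasurableEmbedding (D δ) := by
    intro δ
    refine (MeasurableEquiv.mk ⟨D δ, D (σ δ), hσ δ, hσ' δ⟩ (hD δ).measurable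
      (hD _).measurable).measurableEmbedding
  have hJint : ∀ δ, Integrable (J δ) μ := by
    intro δ
    obtain ⟨δ, rfl⟩ := σ.surjective δ
    rw [← (hD δ).integrable_comp_emb (hemb δ)]
    have : J (σ δ) ∘ D δ = I δ := funext fun x => hIJ δ x
    rw [this]
    exact hIint δ
  have hJI : ∀ δ, ∫ x, J (σ δ) x ∂μ = ∫ x, I δ x ∂μ := by
    intro δ
    rw [← (hD δ).integral_comp (hemb δ)]
    exact integral_congr_ae (Filter.Eventually.of_forall fun x => hIJ δ x)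
  have hJIn : ∀ δ, ∫ x, ‖J (σ δ) x‖ ∂μ = ∫ x, ‖I δ x‖ ∂μ := by
    intro δ
    rw [← (hD δ).integral_comp (hemb δ)]
    refine integral_congr_ae (Filter.Eventually.of_forall fun x => ?_)
    simp only [hIJ]
  have hJsum : Summable fun δ => ∫ x, ‖J δ x‖ ∂μ := by
    rw [← σ.summable_iff]
    refine hIsum.congr fun δ => ?_
    rw [Function.comp_apply, hJIn]
  have h1 := hasSum_integral_of_summable_integral_norm hIint hIsum
  have h2 := hasSum_integral_of_summable_integral_norm hJint hJsum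
  have h3 : HasSum (fun δ => ∫ x, J (σ δ) x ∂μ) (∫ x, ∑' δ, J δ x ∂μ) :=
    (σ.hasSum_iff (f := fun δ => ∫ x, J δ x ∂μ)).mpr h2
  simp only [hJI] at h3
  have h4 := h1.unique h3
  -- identify the sums
  have hc : ∀ (i : ι) (x : X) (c : ℂ), HasSum (fun γ : Γ => (χ (D (γ, i) x) : ℂ) * c) c := by
    intro i x c
    have h5 : HasSum (fun γ : Γ => ((χ (D (γ, i) x) : ℝ) : ℂ)) ((1 : ℝ) : ℂ) :=
      Complex.hasSum_ofReal.mpr (hχ i x)
    simpa using h5.mul_right c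
  have e1 : ∀ x, ∑' δ, I δ x = (χ x : ℂ) * (F x * ∑ i, Θ (al i x)) := by
    intro x
    have h6 : HasSum (fun δ => I δ x) (∑ i, (χ x : ℂ) * (F x * Θ (al i x))) := by
      refine hasSum_prod_fintype fun i => ?_
      simp only [hI, hΘ]
      exact hc i x _
    rw [h6.tsum_eq, ← Finset.mul_sum, ← Finset.mul_sum]
  have e2 : ∀ x, ∑' δ, J δ x = (χ x : ℂ) * ((∑ i, F (al i x)) * Θ x) := by
    intro x
    have h6 : HasSum (fun δ => J δ x) (∑ i, (χ x : ℂ) * (F (al i x) * Θ x)) := by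
      refine hasSum_prod_fintype fun i => ?_
      simp only [hJ, hF]
      exact hc i x _
    rw [h6.tsum_eq, ← Finset.mul_sum, ← Finset.sum_mul]
  simp only [e1, e2] at h4
  exact h4

end Adjoint

section Group

variable {G : Type*} [Group G] {X : Type*} [MeasurableSpace X] [MulAction G X] {μ : Measure X}
  {ι : Type*} [Fintype ι]

/-- **adjointness of the Hecke correspondence `Γ \ Δ`** -/
theorem adjoint_group (hmp : ∀ g : G, MeasurePreserving (fun x : X => g • x) μ μ)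
    (Γ : Subgroup G) [Countable Γ] (α : ι → G) (Δ : Set G) (adj : G → G)
    (hmem : ∀ γ ∈ Γ, ∀ i, γ * α i ∈ Δ) (hex : ∀ δ ∈ Δ, ∃ γ ∈ Γ, ∃ i, γ * α i = δ)
    (huniq : ∀ i j, α i * (α j)⁻¹ ∈ Γ → i = j)
    (hadj : ∀ δ ∈ Δ, adj δ ∈ Δ) (hadj2 : ∀ δ ∈ Δ, adj (adj δ) = δ)
    (hadjx : ∀ δ ∈ Δ, ∀ x : X, adj δ • δ • x = x)
    {χ : X → ℝ} (hχ0 : ∀ x, 0 ≤ χ x) (hχm : Measurable χ)
    (hχ : ∀ x, HasSum (fun γ : Γ => χ ((γ : G) • x)) 1)
    {F Θ : X → ℂ} (hF : ∀ γ ∈ Γ, ∀ x, F (γ • x) = F x) (hΘ : ∀ γ ∈ Γ, ∀ x, Θ (γ • x) = Θ x)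
    (hint : ∀ i, Integrable (fun x => (χ x : ℂ) * (F x * Θ (α i • x))) μ) :
    ∫ x, (χ x : ℂ) * (F x * ∑ i, Θ (α i • x)) ∂μ =
      ∫ x, (χ x : ℂ) * ((∑ i, F (α i • x)) * Θ x) ∂μ := by
  classical
  -- the bijection `Γ × ι ≃ Δ`
  let b : Γ × ι → Δ := fun δ => ⟨(δ.1 : G) * α δ.2, hmem _ δ.1.2 _⟩
  have hb : Function.Bijective b := by
    constructor
    · rintro ⟨⟨γ, hγ⟩, i⟩ ⟨⟨γ', hγ'⟩, j⟩ h1
      have h2 : γ * α i = γ' * α j := congrArg Subtype.val h1
      have h3 : α i * (α j)⁻¹ = γ⁻¹ * γ' := by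
        rw [mul_inv_eq_iff_eq_mul, mul_assoc, ← h2, inv_mul_cancel_left]
      have h4 : i = j := huniq i j (by rw [h3]; exact Γ.mul_mem (Γ.inv_mem hγ) hγ')
      subst h4
      have h5 : γ = γ' := mul_right_cancel h2
      subst h5
      rfl
    · rintro ⟨δ, hδ⟩
      obtain ⟨γ, hγ, i, h1⟩ := hex δ hδ
      exact ⟨(⟨γ, hγ⟩, i), Subtype.ext h1⟩
  let B : Γ × ι ≃ Δ := Equiv.ofBijective b hb
  let A : Δ ≃ Δ :=
    { toFun := fun δ => ⟨adj δ, hadj _ δ.2⟩
      invFun := fun δ => ⟨adj δ, hadj _ δ.2⟩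
      left_inv := fun δ => Subtype.ext (hadj2 _ δ.2)
      right_inv := fun δ => Subtype.ext (hadj2 _ δ.2) }
  let σ : Γ × ι ≃ Γ × ι := B.trans (A.trans B.symm)
  have hB : ∀ δ, ((B δ : Δ) : G) = (δ.1 : G) * α δ.2 := fun δ => rfl
  have hσB : ∀ δ, B (σ δ) = A (B δ) := fun δ => by
    simp only [σ, Equiv.trans_apply, Equiv.apply_symm_apply]
  refine adjoint_hecke (μ := μ) (D := fun δ : Γ × ι => fun x => ((δ.1 : G) * α δ.2) • x)
    (fun δ => hmp _) (fun i x => α i • x) σ ?_ hχ0 hχm ?_ ?_ ?_ hint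
  · intro δ x
    have h1 : (((σ δ).1 : Γ) : G) * α (σ δ).2 = adj ((B δ : Δ) : G) := by
      rw [← hB (σ δ), hσB]
      rfl
    simp only [h1, ← hB]
    exact hadjx _ (B δ).2 x
  · intro i x
    simp only [mul_smul]
    exact hχ (α i • x)
  · intro γ i x
    simp only [mul_smul]
    exact hF _ γ.2 _
  · intro γ i x
    simp only [mul_smul]
    exact hΘ _ γ.2 _

end Group

end Fermat.Agent.H29T
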