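import Fermat.Agent.H29T2
import Fermat.Agent.H96TDef

/-!
# S47, block (T), package T4: the Hecke identity for the theta kernel of `phiN N`

* `ℤ[ω]` with complex conjugation is a `NormTrace` ring, `SplitPrime` for `|ϖ|² = p ≠ 3`;
* transport `Lat → Herm Eis`, `(a, β, d) ↦ (3a, -√-3 β, 3d)`;
* `theta_hecke`.
-/

set_option autoImplicit false
set_option linter.unusedSectionVars false

noncomputable section

open Complex
open scoped ComplexConjugate Real

namespace Fermat.Agent.H29T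

open NormTrace S47T

/-- complex conjugation as `star` on `ℤ[ω]` -/
@[reducible] def starEis : StarRing Eis where
  star := conjE
  star_involutive x := Subtype.ext (by simp)
  star_mul x y := by rw [map_mul, mul_comm]
  star_add x y := map_add _ _ _

attribute [local instance] starEis

lemma star_eis (x : Eis) : star x = conjE x := rfl

lemma coe_star (x : Eis) : ((star x : Eis) : ℂ) = conj (x : ℂ) := rfl

lemma eis_eq (x : Eis) : x = ((eisEquiv.symm x).1 : Eis) + ((eisEquiv.symm x).2 : Eis) * omE := by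
  have h := congrArg Subtype.val (eisEquiv.apply_symm_apply x)
  apply Subtype.ext
  rw [coe_eisEquiv] at h
  rw [← h]
  push_cast
  rfl

lemma star_omE : star omE = -1 - omE := Subtype.ext (by
  rw [coe_star]
  push_cast
  exact conj_om)

lemma omE_rel : omE ^ 2 + omE + 1 = 0 := Subtype.ext (by push_cast; exact om_rel)

@[reducible] def normTraceEis : NormTrace Eis where
  nm x := (eisEquiv.symm x).1 ^ 2 - (eisEquiv.symm x).1 * (eisEquiv.symm x).2 +
    (eisEquiv.symm x).2 ^ 2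
  tr x := 2 * (eisEquiv.symm x).1 - (eisEquiv.symm x).2
  nm_cast x := by
    set a := (eisEquiv.symm x).1
    set b := (eisEquiv.symm x).2
    have h : x = (a : Eis) + (b : Eis) * omE := eis_eq x
    rw [h, star_add, star_mul, star_intCast, star_intCast, star_omE]
    push_cast
    linear_combination ((b : Eis) ^ 2) * omE_rel
  tr_cast x := by
    set a := (eisEquiv.symm x).1
    set b := (eisEquiv.symm x).2
    have h : x = (a : Eis) + (b : Eis) * omE := eis_eq x
    rw [h, star_add, star_mul, star_intCast, star_intCast, star_omE]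
    push_cast
    ring

attribute [local instance] normTraceEis

/-- the embedding of `ℤ[ω]` -/
abbrev emb : Eis →+* ℂ := Eis.subtype

lemma emb_star (x : Eis) : emb (star x) = conj (emb x) := rfl

/-- an element of norm `p ≠ 3` is a split prime -/
theorem splitPrime {p : ℕ} (hp : p.Prime) (h3 : p ≠ 3) {ϖ : Eis} (hϖ : Complex.normSq (ϖ : ℂ) = p) :
    SplitPrime Eis p ϖ := by
  have hmul : ϖ * star ϖ = p := Subtype.ext (by
    push_cast
    rw [coe_star, Complex.mul_conj, hϖ]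
    push_cast; rfl)
  set x := (eisEquiv.symm ϖ).1 with hx
  set y := (eisEquiv.symm ϖ).2 with hy
  have hxy : ϖ = (x : Eis) + (y : Eis) * omE := eis_eq ϖ
  have hnm : (x ^ 2 - x * y + y ^ 2 : ℤ) = p := by
    have h1 : ((nm ϖ : ℤ) : Eis) = ((p : ℤ) : Eis) := by
      rw [nm_cast, hmul]; push_cast; rfl
    exact_mod_cast h1
  have hpp : Prime (p : ℤ) := Nat.prime_iff_prime_int.mp hp
  have hpy : ¬ (p : ℤ) ∣ y := by
    intro hd
    have h1 : (p : ℤ) ∣ x ^ 2 := by
      have h2 : (x ^ 2 : ℤ) = p + y * (x - y) := by rw [← hnm]; ring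
      rw [h2]
      exact dvd_add dvd_rfl (hd.mul_right _)
    have h3 : (p : ℤ) ∣ x := hpp.dvd_of_dvd_pow h1
    obtain ⟨x', hx'⟩ := h3
    obtain ⟨y', hy'⟩ := hd
    rw [hx', hy'] at hnm
    have h4 : (p : ℤ) * ((p : ℤ) * (x' ^ 2 - x' * y' + y' ^ 2)) = p * 1 := by
      rw [mul_one]; nth_rewrite 3 [← hnm]; ring
    have h5 := mul_left_cancel₀ hpp.ne_zero h4
    exact hpp.not_isUnit (IsUnit.of_mul_eq_one _ h5)
  refine ⟨hp, hmul, ?_, ?_⟩
  · -- every element is congruent to an integer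
    have hcop : IsCoprime y (p : ℤ) := ((hpp.coprime_iff_not_dvd).mpr hpy).symm
    obtain ⟨u, v, huv⟩ := hcop
    have hpd : ϖ ∣ ((p : ℤ) : Eis) := ⟨star ϖ, by rw [hmul]; push_cast; rfl⟩
    have hom : ϖ ∣ omE - ((-(x * u) : ℤ) : Eis) := by
      -- `u ϖ = u x + u y om = u x + (1 - v p) om`
      have e : omE - ((-(x * u) : ℤ) : Eis) = (u : Eis) * ϖ + ((p : ℤ) : Eis) * ((v : Eis) * omE) := by
        have huv' : (u : Eis) * (y : Eis) + (v : Eis) * ((p : ℤ) : Eis) = 1 := by exact_mod_cast huv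
        rw [hxy]
        push_cast
        push_cast at huv'
        linear_combination (-omE) * huv'
      rw [e]
      exact dvd_add (Dvd.intro_left _ rfl) (hpd.mul_right _)
    intro b
    refine ⟨(eisEquiv.symm b).1 + (eisEquiv.symm b).2 * (-(x * u)), ?_⟩
    have e : b - (((eisEquiv.symm b).1 + (eisEquiv.symm b).2 * (-(x * u)) : ℤ) : Eis) =
        ((eisEquiv.symm b).2 : Eis) * (omE - ((-(x * u) : ℤ) : Eis)) := by
      nth_rewrite 1 [eis_eq b]
      push_cast
      ring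
    rw [e]
    exact hom.mul_left _
  · -- `star ϖ ∤ ϖ`
    intro hd
    have e : ϖ - star ϖ = (y : Eis) * sq3E := by
      have : sq3E = 1 + 2 * omE := Subtype.ext (by push_cast; exact sq3_eq)
      rw [hxy, star_add, star_mul, star_intCast, star_intCast, star_omE, this]
      ring
    have h1 : star ϖ ∣ (y : Eis) * sq3E := by
      rw [← e]; exact dvd_sub hd dvd_rfl
    obtain ⟨r, hr⟩ := h1
    have h2 : nm ((y : Eis) * sq3E) = nm (star ϖ) * nm r := by rw [hr, nm_mul]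
    have h4 : nm sq3E = 3 := by
      have : ((nm sq3E : ℤ) : Eis) = ((3 : ℤ) : Eis) := by
        rw [nm_cast]
        refine Subtype.ext ?_
        rw [Subring.coe_mul, coe_star, coe_sq3E, conj_sq3]
        have e3 : (((3 : ℤ) : Eis) : ℂ) = 3 := by push_cast; rfl
        rw [e3]
        linear_combination (-1 : ℂ) * sq3_mul_sq3
      exact_mod_cast this
    have h5 : nm (star ϖ) = p := by
      have : ((nm (star ϖ) : ℤ) : Eis) = ((p : ℤ) : Eis) := by
        rw [nm_cast, star_star, mul_comm, hmul]; push_cast; rfl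
      exact_mod_cast this
    rw [nm_mul, nm_intCast, h4, h5] at h2
    have h6 : (p : ℤ) ∣ y ^ 2 * 3 := ⟨_, h2⟩
    rcases hpp.dvd_or_dvd h6 with h7 | h7
    · exact hpy (hpp.dvd_of_dvd_pow h7)
    · have h8 : p ∣ 3 := by exact_mod_cast h7
      exact h3 ((Nat.prime_dvd_prime_iff_eq hp Nat.prime_three).mp h8)

/-! ### Transport -/

lemma sq3E_mul : sq3E * sq3E = -3 := Subtype.ext (by
  have e3 : ((-3 : Eis) : ℂ) = -3 := by push_cast; rfl
  rw [Subring.coe_mul, coe_sq3E, e3]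
  exact sq3_mul_sq3)

lemma star_sq3E : star sq3E = -sq3E := Subtype.ext (by
  rw [coe_star, coe_sq3E, conj_sq3]; rfl)

lemma sq3E_ne : sq3E ≠ 0 := fun h => sq3_ne_zero (by rw [← coe_sq3E, h]; rfl)

/-- `(a, β, d) ↦ 3 (a, β/√-3, d)` -/
def J (x : S47T.Lat) : Herm Eis := ⟨3 * x.1, 3 * x.2.2, -sq3E * x.2.1⟩

lemma J_injective : Function.Injective J := by
  rintro ⟨a, b, d⟩ ⟨a', b', d'⟩ h
  simp only [J, Herm.mk.injEq] at h
  obtain ⟨h1, h2, h3⟩ := h
  have h4 : b = b' := mul_left_cancel₀ (neg_ne_zero.mpr sq3E_ne) h3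
  have h5 : a = a' := by omega
  have h6 : d = d' := by omega
  rw [h4, h5, h6]

lemma sq3_div (b : ℂ) : 3 * (b / sq3) = -sq3 * b := by
  have h := sq3_mul_sq3
  have h0 := sq3_ne_zero
  field_simp
  linear_combination b * h

lemma emb_J (x : S47T.Lat) : emb (J x).b = ((3 : ℝ) : ℂ) * ((x.2.1 : ℂ) / sq3) := by
  have h1 : emb (J x).b = -sq3 * (x.2.1 : ℂ) := by
    simp only [J, emb, map_mul, map_neg]; rfl
  rw [h1, ← sq3_div]
  norm_num

lemma Q_J (x : S47T.Lat) : (((J x).Q : ℤ) : ℝ) = 9 * qL x := by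
  rw [Herm.Q, Int.cast_sub, cast_nm (e := emb) emb_star, emb_J, qL, hQ, map_mul,
    Complex.normSq_ofReal]
  simp only [J]
  push_cast
  ring

lemma pair_J (x : S47T.Lat) (w : H3) : (J x).pair emb w = 3 * pL x w := by
  rw [Herm.pair, emb_J, pL, pair, mul_assoc, Complex.re_ofReal_mul]
  simp only [J]
  push_cast
  have := w.pos.ne'
  field_simp

/-- the test function on `Herm Eis` -/
def Good (N : ℕ) (Z : Herm Eis) : Prop :=
  (3 : ℤ) ∣ Z.a ∧ (3 * N : ℤ) ∣ Z.d ∧ ∃ β : Eis, Z.b = -sq3E * β ∧ IsCoprime β (N : Eis)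

open Classical in
def phiH (N : ℕ) (Z : Herm Eis) : ℂ := if Good N Z then 1 else 0

lemma good_J {N : ℕ} (x : S47T.Lat) : Good N (J x) ↔ (N : ℤ) ∣ x.2.2 ∧ IsCoprime x.2.1 (N : Eis) := by
  constructor
  · rintro ⟨_, h2, β, h3, h4⟩
    refine ⟨Int.dvd_of_mul_dvd_mul_left (by norm_num : (3 : ℤ) ≠ 0) h2, ?_⟩
    have h5 : x.2.1 = β := mul_left_cancel₀ (neg_ne_zero.mpr sq3E_ne) h3
    rw [h5]; exact h4
  · rintro ⟨h1, h2⟩
    exact ⟨dvd_mul_right _ _, mul_dvd_mul_left 3 h1, x.2.1, rfl, h2⟩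

lemma phiH_J (N : ℕ) (x : S47T.Lat) : phiH N (J x) = phiN N x := by
  by_cases h : Good N (J x)
  · rw [phiH, if_pos h, phiN, if_pos ((good_J x).mp h)]
  · rw [phiH, if_neg h, phiN, if_neg (fun h1 => h ((good_J x).mpr h1))]

lemma range_of_good {N : ℕ} {Z : Herm Eis} (h : Good N Z) : Z ∈ Set.range J := by
  obtain ⟨⟨a, ha⟩, ⟨d, hd⟩, β, hb, _⟩ := h
  refine ⟨(a, β, N * d), Herm.ext ha.symm ?_ hb.symm⟩
  simp only [J]
  rw [hd]; ring

lemma tsum_phiH (N : ℕ) (f : Herm Eis → ℂ) :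
    ∑' Z, phiH N Z * f Z = ∑' x, phiN N x * f (J x) := by
  have h1 : Function.support (fun Z => phiH N Z * f Z) ⊆ Set.range J := by
    intro Z hZ
    by_contra h2
    apply hZ
    have h3 : ¬ Good N Z := fun h => h2 (range_of_good h)
    simp only [phiH, if_neg h3, zero_mul]
  rw [← J_injective.tsum_eq h1]
  refine tsum_congr fun x => ?_
  rw [phiH_J]

lemma summable_phiH (N : ℕ) (f : Herm Eis → ℂ) :
    Summable (fun Z => phiH N Z * f Z) ↔ Summable fun x => phiN N x * f (J x) := by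
  have h1 : ∀ Z ∉ Set.range J, phiH N Z * f Z = 0 := by
    intro Z h2
    have h3 : ¬ Good N Z := fun h => h2 (range_of_good h)
    simp only [phiH, if_neg h3, zero_mul]
  rw [← J_injective.summable_iff h1]
  refine summable_congr fun x => ?_
  simp only [Function.comp_apply, phiH_J]

lemma kf_J (τ : ℂ) (w : H3) (x : S47T.Lat) : kf emb (1 / 9) τ w (J x) =
    ee (τ * (qL x / (1 : ℕ) ^ 2 : ℝ)) * (Real.exp (-4 * π * τ.im * (pL x w / (1 : ℕ)) ^ 2) : ℝ) := by
  rw [kf, Q_J, pair_J, ee]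
  congr 1
  · congr 1
    push_cast
    ring
  · congr 2
    push_cast
    ring

lemma Th_eq (N : ℕ) (τ : ℂ) (w : H3) : Th emb (1 / 9) (phiH N) τ w = Theta 1 (phiN N) τ w := by
  rw [Th, Theta, tsum_phiH]
  congr 1
  refine tsum_congr fun x => ?_
  rw [kf_J, ← mul_assoc]

/-! ### Invariance of the test function -/

section Inv

variable {N p : ℕ} {ϖ : Eis}

lemma coprime_of {x : Eis} {q m : ℕ} (hx : x ∣ (q : Eis)) (hq : Nat.Coprime q m) :
    IsCoprime x (m : Eis) := by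
  have h1 : IsCoprime ((q : ℤ) : Eis) ((m : ℤ) : Eis) :=
    (Nat.isCoprime_iff_coprime.mpr hq).map (Int.castRingHom Eis)
  have h2 : IsCoprime (q : Eis) (m : Eis) := by exact_mod_cast h1
  exact h2.of_isCoprime_of_dvd_left hx

lemma tr_sq3 (x : Eis) : (3 : ℤ) ∣ NormTrace.tr (-sq3E * x) := by
  set a := (eisEquiv.symm x).1
  set b := (eisEquiv.symm x).2
  have hx : x = (a : Eis) + (b : Eis) * omE := eis_eq x
  refine ⟨b, ?_⟩
  have h : ((NormTrace.tr (-sq3E * x) : ℤ) : Eis) = ((3 * b : ℤ) : Eis) := by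
    rw [tr_cast, hx, star_mul, star_neg, star_sq3E, star_add, star_mul, star_intCast, star_intCast,
      star_omE]
    have h3 : sq3E = 1 + 2 * omE := Subtype.ext (by push_cast; exact sq3_eq)
    have h4 := sq3E_mul
    push_cast
    rw [h3] at h4 ⊢
    linear_combination (-(b : Eis)) * h4
  exact_mod_cast h

lemma exists_mul_iff {u : Eis} (hu3 : IsCoprime u sq3E) (huN : IsCoprime u (N : Eis)) (b : Eis) :
    (∃ β : Eis, u * b = -sq3E * β ∧ IsCoprime β (N : Eis)) ↔
      ∃ β : Eis, b = -sq3E * β ∧ IsCoprime β (N : Eis) := by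
  constructor
  · rintro ⟨β, h1, h2⟩
    have h3 : sq3E ∣ u * b := ⟨-β, by rw [h1]; ring⟩
    obtain ⟨c, hc⟩ := hu3.symm.dvd_of_dvd_mul_left h3
    refine ⟨-c, by rw [hc]; ring, ?_⟩
    have h4 : u * -c = β := by
      apply mul_left_cancel₀ (neg_ne_zero.mpr sq3E_ne)
      rw [← h1, hc]; ring
    rw [← h4] at h2
    exact h2.of_mul_left_right
  · rintro ⟨β, rfl, h2⟩
    exact ⟨u * β, by ring, huN.mul_left h2⟩

variable (h : SplitPrime Eis p ϖ) (hN : ¬ p ∣ 3 * N)

include h hN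

omit h in
lemma coprime_3N (hp : p.Prime) : Nat.Coprime p (3 * N) := (Nat.Prime.coprime_iff_not_dvd hp).mpr hN

lemma coprime_sq3 {u : Eis} (hu : u ∣ (p : Eis)) : IsCoprime u sq3E := by
  have h1 : IsCoprime u ((3 : ℕ) : Eis) :=
    coprime_of hu (Nat.Coprime.coprime_mul_right_right (coprime_3N hN h.prime))
  refine h1.of_isCoprime_of_dvd_right ⟨-sq3E, ?_⟩
  push_cast
  linear_combination (1 : Eis) * sq3E_mul

lemma coprime_N {u : Eis} (hu : u ∣ (p : Eis)) : IsCoprime u (N : Eis) :=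
  coprime_of hu (Nat.Coprime.coprime_mul_left_right (coprime_3N hN h.prime))

lemma dvd_p_mul {m n : ℤ} (hm : m ∣ 3 * N) : m ∣ (p : ℤ) * n ↔ m ∣ n := by
  have h1 : IsCoprime (p : ℤ) (3 * N : ℤ) := by
    have := Nat.isCoprime_iff_coprime.mpr (coprime_3N hN h.prime)
    push_cast at this
    exact this
  have h2 : IsCoprime m (p : ℤ) := (h1.of_isCoprime_of_dvd_right hm).symm
  exact ⟨fun h3 => h2.dvd_of_dvd_mul_left h3, fun h3 => h3.mul_left _⟩

omit h in
lemma dvd_three_mul (hp : p.Prime) (m : ℤ) : (p : ℤ) ∣ 3 * m ↔ (p : ℤ) ∣ m := by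
  have hpp : Prime (p : ℤ) := Nat.prime_iff_prime_int.mp hp
  constructor
  · intro h1
    refine (hpp.dvd_or_dvd h1).resolve_left fun h2 => hN ?_
    have h3 : p ∣ 3 := by exact_mod_cast h2
    exact h3.mul_right _
  · exact fun h1 => h1.mul_left _

theorem good_tr (t : ℕ) (Z : Herm Eis) : Good N (Herm.tr p ϖ t Z) ↔ Good N Z := by
  have h3dvd : (3 : ℤ) ∣ 3 * N := dvd_mul_right _ _
  have key : ∀ d' : ℤ, Z.d = 3 * N * d' →
      ((∃ β : Eis, ϖ * Z.b - t * Z.d = -sq3E * β ∧ IsCoprime β (N : Eis)) ↔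
        ∃ β : Eis, Z.b = -sq3E * β ∧ IsCoprime β (N : Eis)) := by
    intro d' hd
    refine Iff.trans ?_ (exists_mul_iff (coprime_sq3 h hN h.dvd_p) (coprime_N h hN h.dvd_p) Z.b)
    constructor
    · rintro ⟨β, h1, h2⟩
      refine ⟨β + N * (sq3E * t * d'), ?_, h2.add_mul_left_left _⟩
      have h4 : ϖ * Z.b = t * Z.d + -sq3E * β := by rw [← h1]; ring
      rw [h4, hd]
      push_cast
      linear_combination ((N : Eis) * t * d') * sq3E_mul
    · rintro ⟨β, h1, h2⟩
      refine ⟨β + N * (-(sq3E * t * d')), ?_, h2.add_mul_left_left _⟩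
      rw [h1, hd]
      push_cast
      linear_combination (-(N : Eis) * t * d') * sq3E_mul
  have htr : ∀ β : Eis, Z.b = -sq3E * β → (3 : ℤ) ∣ NormTrace.tr (ϖ * Z.b) := by
    intro β hβ
    have : ϖ * Z.b = -sq3E * (ϖ * β) := by rw [hβ]; ring
    rw [this]
    exact tr_sq3 _
  constructor
  · rintro ⟨h1, ⟨d', h2⟩, h3⟩
    have h4 := (key d' h2).mp h3
    obtain ⟨β, hβ, _⟩ := id h4
    refine ⟨?_, ⟨d', h2⟩, h4⟩
    rw [← dvd_p_mul h hN h3dvd]
    have e : (p : ℤ) * Z.a = (Herm.tr p ϖ t Z).a + t * NormTrace.tr (ϖ * Z.b) - t ^ 2 * Z.d := by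
      simp only [Herm.tr]; ring
    rw [e]
    have h2' : Z.d = 3 * N * d' := h2
    refine dvd_sub (dvd_add h1 ((htr β hβ).mul_left _)) ?_
    rw [h2']
    exact ((h3dvd.mul_right _).mul_left _)
  · rintro ⟨h1, ⟨d', h2⟩, h3⟩
    obtain ⟨β, hβ, _⟩ := id h3
    refine ⟨?_, ⟨d', h2⟩, (key d' h2).mpr h3⟩
    simp only [Herm.tr]
    refine dvd_add (dvd_sub (h1.mul_left _) ((htr β hβ).mul_left _)) ?_
    rw [h2]
    exact ((h3dvd.mul_right _).mul_left _)

theorem good_ti (Z : Herm Eis) : Good N (Herm.ti p ϖ Z) ↔ Good N Z := by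
  unfold Good
  simp only [Herm.ti]
  rw [dvd_p_mul h hN dvd_rfl, exists_mul_iff (coprime_sq3 h hN h.star_dvd_p)
    (coprime_N h hN h.star_dvd_p)]

theorem good_sc (Z : Herm Eis) : Good N (Herm.sc p Z) ↔ Good N Z := by
  unfold Good
  simp only [Herm.sc]
  rw [dvd_p_mul h hN dvd_rfl, dvd_p_mul h hN (dvd_mul_right _ _),
    exists_mul_iff (coprime_sq3 h hN dvd_rfl) (coprime_N h hN dvd_rfl)]

end Inv

theorem coe_ne {p : ℕ} {ϖ : Eis} (h : SplitPrime Eis p ϖ) : (ϖ : ℂ) ≠ 0 := e_ne (e := emb) h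

/-- **the Hecke identity for the theta kernel of `phiN N`** -/
theorem theta_hecke {N p : ℕ} {ϖ : Eis} (h : SplitPrime Eis p ϖ) (hN : ¬ p ∣ 3 * N)
    {τ : ℂ} (hτ : 0 < τ.im) (w : H3)
    (hsum : Summable fun x : S47T.Lat => phiN N x * ee (τ / p * (qL x / (1 : ℕ) ^ 2 : ℝ)) *
      (Real.exp (-4 * π * (τ / p).im * (pL x w / (1 : ℕ)) ^ 2) : ℝ)) :
    ∑ t ∈ Finset.range p, Theta 1 (phiN N) τ (alT t (ϖ : ℂ) (coe_ne h) • w) +
      Theta 1 (phiN N) τ (H3.dMat (ϖ : ℂ) (coe_ne h) • w) =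
    Real.sqrt p * (1 / p * ∑ j ∈ Finset.range p, Theta 1 (phiN N) ((τ + 3 * j) / p) w +
      Theta 1 (phiN N) (p * τ) w) := by
  have hi : ∀ {Z Z' : Herm Eis}, (Good N Z ↔ Good N Z') → phiH N Z = phiH N Z' := by
    intro Z Z' hZ
    by_cases h1 : Good N Z
    · rw [phiH, phiH, if_pos h1, if_pos (hZ.mp h1)]
    · rw [phiH, phiH, if_neg h1, if_neg (fun h2 => h1 (hZ.mpr h2))]
  have key := hecke_kernel (e := emb) emb_star h (phiH N) (fun t Z => hi (good_tr h hN t Z))
    (fun Z => hi (good_ti h hN Z)) (fun Z => hi (good_sc h hN Z)) (1 / 9) 3 ?_ τ hτ w ?_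
  · simp only [Th_eq] at key
    exact_mod_cast key
  · intro Z hZ
    have hg : Good N Z := by
      by_contra h1
      exact hZ (by rw [phiH, if_neg h1])
    obtain ⟨x, rfl⟩ := range_of_good hg
    -- `Q (J x) = 3 (nm β - 3 a d)`
    have e1 : (J x).Q = 3 * (nm x.2.1 - 3 * (x.1 * x.2.2)) := by
      have e2 : ((J x).Q : ℤ) = nm (-sq3E * x.2.1) - 9 * (x.1 * x.2.2) := by
        simp only [Herm.Q, J]; ring
      have e3 : nm (-sq3E) = 3 := by
        have : ((nm (-sq3E) : ℤ) : Eis) = ((3 : ℤ) : Eis) := by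
          rw [nm_cast, star_neg, star_sq3E]
          push_cast
          linear_combination (-1 : Eis) * sq3E_mul
        exact_mod_cast this
      rw [e2, nm_mul, e3]; ring
    refine ⟨nm x.2.1 - 3 * (x.1 * x.2.2), ?_, ?_⟩
    · rw [e1]; push_cast; ring
    · rw [e1, dvd_three_mul hN h.prime]
  · rw [summable_phiH]
    refine hsum.congr fun x => ?_
    rw [kf_J, mul_assoc]

end Fermat.Agent.H29T
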