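import Fermat.Agent.H29T3
import Fermat.Agent.H29T4

/-!
# S47, block (T), package T4: representatives of `Gam N \ {det = ϖ}` and adjointness
-/

set_option autoImplicit false
set_option linter.unusedSectionVars false

noncomputable section

open Complex MeasureTheory Matrix
open scoped ComplexConjugate Real

namespace Fermat.Agent.H29T

open S47T

attribute [local instance] starEis normTraceEis

section

variable {N p : ℕ} {ϖ : Eis}

/-- the matrices of determinant `ϖ` -/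
def Del (N : ℕ) (ϖ : Eis) : Set (GL (Fin 2) ℂ) :=
  {g | (g : Matrix (Fin 2) (Fin 2) ℂ).det = ϖ ∧
    (∀ i j, (g : Matrix (Fin 2) (Fin 2) ℂ) i j ∈ Eis) ∧
    ∃ x ∈ Eis, (g : Matrix (Fin 2) (Fin 2) ℂ) 1 0 = N * x}

variable (h : SplitPrime Eis p ϖ)

/-- the representatives -/
def al (h : SplitPrime Eis p ϖ) : Option (Fin p) → GL (Fin 2) ℂ
  | none => H3.dMat (ϖ : ℂ) (coe_ne h)
  | some t => alT ((t : ℕ) : ℂ) (ϖ : ℂ) (coe_ne h)

lemma al_none_val : ((al h none : GL (Fin 2) ℂ) : Matrix (Fin 2) (Fin 2) ℂ) =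
    !![(ϖ : ℂ), 0; 0, 1] := rfl

lemma al_some_val (t : Fin p) : ((al h (some t) : GL (Fin 2) ℂ) : Matrix (Fin 2) (Fin 2) ℂ) =
    !![1, ((t : ℕ) : ℂ); 0, (ϖ : ℂ)] := rfl

include h in
lemma not_unit' (x : Eis) : 1 ≠ x * ϖ := by
  intro h1
  have h2 : ϖ ∣ ((1 : ℤ) : Eis) := ⟨x, by push_cast; rw [h1]; ring⟩
  rw [h.dvd_int] at h2
  have h3 : p ∣ 1 := by exact_mod_cast h2
  exact h.prime.one_lt.ne' (Nat.dvd_one.mp h3)

lemma al_mem : ∀ i, al h i ∈ Del N ϖ := by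
  rintro (_ | t)
  · refine ⟨by rw [al_none_val, Matrix.det_fin_two]; simp, ?_, 0, Eis.zero_mem, by
      rw [al_none_val]; simp⟩
    intro i j
    rw [al_none_val]
    fin_cases i <;> fin_cases j
    · exact ϖ.2
    · exact Eis.zero_mem
    · exact Eis.zero_mem
    · exact Eis.one_mem
  · refine ⟨by rw [al_some_val, Matrix.det_fin_two]; simp, ?_, 0, Eis.zero_mem, by
      rw [al_some_val]; simp⟩
    intro i j
    rw [al_some_val]
    fin_cases i <;> fin_cases j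
    · exact Eis.one_mem
    · exact natCast_mem _ _
    · exact Eis.zero_mem
    · exact ϖ.2

lemma mul_mem_Del {γ δ : GL (Fin 2) ℂ} (hγ : γ ∈ Gam N) (hδ : δ ∈ Del N ϖ) : γ * δ ∈ Del N ϖ := by
  obtain ⟨h1, h2, x, hx, h3⟩ := hγ
  obtain ⟨k1, k2, y, hy, k3⟩ := hδ
  refine ⟨?_, ?_, ?_⟩
  · rw [Units.val_mul, Matrix.det_mul, h1, k1, one_mul]
  · intro i j
    rw [Units.val_mul, Matrix.mul_apply, Fin.sum_univ_two]
    exact Eis.add_mem (Eis.mul_mem (h2 _ _) (k2 _ _)) (Eis.mul_mem (h2 _ _) (k2 _ _))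
  · refine ⟨x * (δ : Matrix (Fin 2) (Fin 2) ℂ) 0 0 + (γ : Matrix (Fin 2) (Fin 2) ℂ) 1 1 * y,
      Eis.add_mem (Eis.mul_mem hx (k2 _ _)) (Eis.mul_mem (h2 _ _) hy), ?_⟩
    rw [Units.val_mul, Matrix.mul_apply, Fin.sum_univ_two, h3, k3]
    ring

include h in
lemma exists_t {x : Eis} (hx : ¬ ϖ ∣ x) (y : Eis) : ∃ t : Fin p, ϖ ∣ y - ((t : ℕ) : Eis) * x := by
  obtain ⟨m, hm⟩ := h.surj x
  obtain ⟨n, hn⟩ := h.surj y
  have hpm : ¬ (p : ℤ) ∣ m := by
    intro h1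
    apply hx
    have h2 : ϖ ∣ (m : Eis) := h.dvd_int.mpr h1
    have e : x = (x - m) + m := by ring
    rw [e]; exact dvd_add hm h2
  have hpp : Prime (p : ℤ) := Nat.prime_iff_prime_int.mp h.prime
  obtain ⟨u, v, huv⟩ := ((hpp.coprime_iff_not_dvd).mpr hpm).symm
  -- `u m + v p = 1`
  have hp0 : (0 : ℤ) < p := by exact_mod_cast h.prime.pos
  have h1 := Int.emod_nonneg (n * u) hp0.ne'
  have h2 := Int.emod_lt_of_pos (n * u) hp0
  set r := (n * u) % p with hr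
  obtain ⟨t, ht⟩ : ∃ t : ℕ, (t : ℤ) = r := ⟨r.toNat, Int.toNat_of_nonneg h1⟩
  have htp : t < p := by omega
  refine ⟨⟨t, htp⟩, ?_⟩
  have h3 : (p : ℤ) ∣ n - t * m := by
    have h4 : (p : ℤ) ∣ n * u - r := Int.dvd_self_sub_emod
    rw [← ht] at h4
    have e : n - t * m = (n * u - t) * m + (n * v) * p := by
      linear_combination (-n) * huv
    rw [e]
    exact dvd_add (h4.mul_right _) (dvd_mul_left _ _)
  have h5 : ϖ ∣ ((n - t * m : ℤ) : Eis) := h.dvd_int.mpr h3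
  have e : y - ((t : ℕ) : Eis) * x = (y - n) + ((n - t * m : ℤ) : Eis) - (t : Eis) * (x - m) := by
    push_cast; ring
  show ϖ ∣ y - ((t : ℕ) : Eis) * x
  rw [e]
  exact dvd_sub (dvd_add hn h5) (hm.mul_left _)

/-- a matrix of determinant one from entries -/
def mk4 (a b c d : ℂ) (h : a * d - b * c = 1) : GL (Fin 2) ℂ :=
  Matrix.GeneralLinearGroup.mkOfDetNeZero !![a, b; c, d] (by
    rw [Matrix.det_fin_two]
    simp only [Matrix.of_apply, Matrix.cons_val', Matrix.cons_val_zero, Matrix.cons_val_one,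
      Matrix.cons_val_fin_one]
    rw [h]; exact one_ne_zero)

lemma mk4_val (a b c d : ℂ) (h : a * d - b * c = 1) :
    ((mk4 a b c d h : GL (Fin 2) ℂ) : Matrix (Fin 2) (Fin 2) ℂ) = !![a, b; c, d] := rfl

lemma mk4_mem {a b c d : Eis} (h : (a : ℂ) * d - b * c = 1) (hc : (N : Eis) ∣ c) :
    mk4 (a : ℂ) b c d h ∈ Gam N := by
  rw [mem_Gam, mk4_val]
  refine ⟨?_, ?_, ?_⟩
  · rw [Matrix.det_fin_two]
    simpa using h
  · intro i j
    fin_cases i <;> fin_cases j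
    · exact a.2
    · exact b.2
    · exact c.2
    · exact d.2
  · obtain ⟨x, hx⟩ := hc
    exact ⟨x, x.2, by simp [hx]⟩

theorem exists_rep (hN : ¬ p ∣ 3 * N) {δ : GL (Fin 2) ℂ} (hδ : δ ∈ Del N ϖ) :
    ∃ γ ∈ Gam N, ∃ i, γ * al h i = δ := by
  obtain ⟨k1, k2, y, hy, k3⟩ := hδ
  rw [Matrix.det_fin_two] at k1
  obtain ⟨a, ha⟩ : ∃ a : Eis, (a : ℂ) = (δ : Matrix (Fin 2) (Fin 2) ℂ) 0 0 := ⟨⟨_, k2 0 0⟩, rfl⟩
  obtain ⟨b, hb⟩ : ∃ b : Eis, (b : ℂ) = (δ : Matrix (Fin 2) (Fin 2) ℂ) 0 1 := ⟨⟨_, k2 0 1⟩, rfl⟩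
  obtain ⟨c, hc⟩ : ∃ c : Eis, (c : ℂ) = (δ : Matrix (Fin 2) (Fin 2) ℂ) 1 0 := ⟨⟨_, k2 1 0⟩, rfl⟩
  obtain ⟨d, hd⟩ : ∃ d : Eis, (d : ℂ) = (δ : Matrix (Fin 2) (Fin 2) ℂ) 1 1 := ⟨⟨_, k2 1 1⟩, rfl⟩
  rw [← ha, ← hb, ← hc, ← hd] at k1
  have k1' : a * d - b * c = ϖ := Subtype.ext (by push_cast; exact k1)
  have hNc : (N : Eis) ∣ c := ⟨⟨y, hy⟩, Subtype.ext (by push_cast; rw [hc, k3])⟩
  have hϖ0 : (ϖ : ℂ) ≠ 0 := coe_ne h
  have hcop : IsCoprime ϖ (N : Eis) := coprime_N h hN h.dvd_p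
  by_cases hac : ϖ ∣ a ∧ ϖ ∣ c
  · obtain ⟨⟨a', ha'⟩, ⟨c', hc'⟩⟩ := hac
    have hdet : (a' : ℂ) * d - b * c' = 1 := by
      have e1 : ϖ * (a' * d - b * c') = ϖ * 1 := by
        rw [mul_one]; nth_rewrite 2 [← k1']; rw [ha', hc']; ring
      have e2 := mul_left_cancel₀ h.ne_zero e1
      have e3 := congrArg Subtype.val e2
      push_cast at e3
      exact e3
    have hNc' : (N : Eis) ∣ c' := by
      rw [hc'] at hNc
      exact hcop.symm.dvd_of_dvd_mul_left hNc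
    refine ⟨mk4 a' b c' d hdet, mk4_mem hdet hNc', none, ?_⟩
    apply Units.ext
    rw [Units.val_mul, mk4_val, al_none_val]
    ext i j
    fin_cases i <;> fin_cases j
    · simp only [Fin.zero_eta, Matrix.mul_apply, Fin.sum_univ_two, Matrix.of_apply,
        Matrix.cons_val', Matrix.cons_val_zero, Matrix.cons_val_one, Matrix.cons_val_fin_one]
      rw [← ha, ha']; push_cast; ring
    · simp only [Fin.zero_eta, Fin.mk_one, Matrix.mul_apply, Fin.sum_univ_two, Matrix.of_apply,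
        Matrix.cons_val', Matrix.cons_val_zero, Matrix.cons_val_one, Matrix.cons_val_fin_one]
      rw [← hb]; ring
    · simp only [Fin.zero_eta, Fin.mk_one, Matrix.mul_apply, Fin.sum_univ_two, Matrix.of_apply,
        Matrix.cons_val', Matrix.cons_val_zero, Matrix.cons_val_one, Matrix.cons_val_fin_one]
      rw [← hc, hc']; push_cast; ring
    · simp only [Fin.mk_one, Matrix.mul_apply, Fin.sum_univ_two, Matrix.of_apply,
        Matrix.cons_val', Matrix.cons_val_zero, Matrix.cons_val_one, Matrix.cons_val_fin_one]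
      rw [← hd]; ring
  · obtain ⟨t, ht1, ht2⟩ : ∃ t : Fin p, ϖ ∣ b - ((t : ℕ) : Eis) * a ∧
        ϖ ∣ d - ((t : ℕ) : Eis) * c := by
      by_cases ha0 : ϖ ∣ a
      · have hc0 : ¬ ϖ ∣ c := fun h1 => hac ⟨ha0, h1⟩
        obtain ⟨t, ht⟩ := exists_t h hc0 d
        refine ⟨t, ?_, ht⟩
        have h1 : ϖ ∣ c * (b - ((t : ℕ) : Eis) * a) := by
          have e : c * (b - ((t : ℕ) : Eis) * a) = a * (d - ((t : ℕ) : Eis) * c) - ϖ := by
            rw [← k1']; ring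
          rw [e]
          exact dvd_sub (ht.mul_left _) dvd_rfl
        exact (h.dvd_mul h1).resolve_left hc0
      · obtain ⟨t, ht⟩ := exists_t h ha0 b
        refine ⟨t, ht, ?_⟩
        have h1 : ϖ ∣ a * (d - ((t : ℕ) : Eis) * c) := by
          have e : a * (d - ((t : ℕ) : Eis) * c) = ϖ + c * (b - ((t : ℕ) : Eis) * a) := by
            rw [← k1']; ring
          rw [e]
          exact dvd_add dvd_rfl (ht.mul_left _)
        exact (h.dvd_mul h1).resolve_left ha0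
    obtain ⟨b', hb'⟩ := ht1
    obtain ⟨d', hd'⟩ := ht2
    have hb2 : b = ϖ * b' + ((t : ℕ) : Eis) * a := by rw [← hb']; ring
    have hd2 : d = ϖ * d' + ((t : ℕ) : Eis) * c := by rw [← hd']; ring
    have hdet : (a : ℂ) * d' - b' * c = 1 := by
      have e1 : ϖ * (a * d' - b' * c) = ϖ * 1 := by
        rw [mul_one]; nth_rewrite 2 [← k1']; rw [hb2, hd2]; ring
      have e2 := mul_left_cancel₀ h.ne_zero e1
      have e3 := congrArg Subtype.val e2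
      push_cast at e3
      exact e3
    refine ⟨mk4 a b' c d' hdet, mk4_mem hdet hNc, some t, ?_⟩
    apply Units.ext
    rw [Units.val_mul, mk4_val, al_some_val]
    ext i j
    fin_cases i <;> fin_cases j
    · simp only [Fin.zero_eta, Matrix.mul_apply, Fin.sum_univ_two, Matrix.of_apply,
        Matrix.cons_val', Matrix.cons_val_zero, Matrix.cons_val_one, Matrix.cons_val_fin_one]
      rw [← ha]; ring
    · simp only [Fin.zero_eta, Fin.mk_one, Matrix.mul_apply, Fin.sum_univ_two, Matrix.of_apply,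
        Matrix.cons_val', Matrix.cons_val_zero, Matrix.cons_val_one, Matrix.cons_val_fin_one]
      rw [← hb, hb2]; push_cast; ring
    · simp only [Fin.zero_eta, Fin.mk_one, Matrix.mul_apply, Fin.sum_univ_two, Matrix.of_apply,
        Matrix.cons_val', Matrix.cons_val_zero, Matrix.cons_val_one, Matrix.cons_val_fin_one]
      rw [← hc]; ring
    · simp only [Fin.mk_one, Matrix.mul_apply, Fin.sum_univ_two, Matrix.of_apply,
        Matrix.cons_val', Matrix.cons_val_zero, Matrix.cons_val_one, Matrix.cons_val_fin_one]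
      rw [← hd, hd2]; push_cast; ring

theorem rep_unique (i j : Option (Fin p)) (hij : al h i * (al h j)⁻¹ ∈ Gam N) : i = j := by
  set γ := al h i * (al h j)⁻¹ with hγ
  have hmul : γ * al h j = al h i := by rw [hγ, inv_mul_cancel_right]
  obtain ⟨_, k2, _⟩ := hij
  obtain ⟨a, ha⟩ : ∃ a : Eis, (a : ℂ) = (γ : Matrix (Fin 2) (Fin 2) ℂ) 0 0 := ⟨⟨_, k2 0 0⟩, rfl⟩
  obtain ⟨b, hb⟩ : ∃ b : Eis, (b : ℂ) = (γ : Matrix (Fin 2) (Fin 2) ℂ) 0 1 := ⟨⟨_, k2 0 1⟩, rfl⟩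
  obtain ⟨c, hc⟩ : ∃ c : Eis, (c : ℂ) = (γ : Matrix (Fin 2) (Fin 2) ℂ) 1 0 := ⟨⟨_, k2 1 0⟩, rfl⟩
  obtain ⟨d, hd⟩ : ∃ d : Eis, (d : ℂ) = (γ : Matrix (Fin 2) (Fin 2) ℂ) 1 1 := ⟨⟨_, k2 1 1⟩, rfl⟩
  have hm : (γ : Matrix (Fin 2) (Fin 2) ℂ) * (al h j : Matrix (Fin 2) (Fin 2) ℂ) =
      (al h i : Matrix (Fin 2) (Fin 2) ℂ) := by rw [← Units.val_mul, hmul]
  have e00 := congrFun (congrFun hm 0) 0
  have e01 := congrFun (congrFun hm 0) 1
  have e10 := congrFun (congrFun hm 1) 0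
  have e11 := congrFun (congrFun hm 1) 1
  simp only [Matrix.mul_apply, Fin.sum_univ_two] at e00 e01 e10 e11
  rw [← ha, ← hb] at e00 e01
  rw [← hc, ← hd] at e10 e11
  rcases i with _ | t <;> rcases j with _ | s
  · rfl
  · exfalso
    rw [al_none_val, al_some_val] at e10 e11
    simp at e10 e11
    have h1 : d * ϖ = 1 := Subtype.ext (by
      push_cast
      rw [e10] at e11
      simpa using e11)
    exact not_unit' h d h1.symm
  · exfalso
    rw [al_none_val, al_some_val] at e00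
    simp at e00
    have h1 : a * ϖ = 1 := Subtype.ext (by push_cast; exact e00)
    exact not_unit' h a h1.symm
  · rw [al_some_val, al_some_val] at e00 e01
    simp at e00 e01
    rw [e00, Subring.coe_one, one_mul] at e01
    have h1 : (((t : ℕ) - (s : ℕ) : ℤ) : Eis) = ϖ * b := Subtype.ext (by
      push_cast
      rw [← e01]; ring)
    have h2 : (p : ℤ) ∣ ((t : ℕ) - (s : ℕ) : ℤ) := by
      rw [← h.dvd_int]
      exact ⟨b, h1⟩
    have h3 := t.2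
    have h4 := s.2
    have h5 : ((t : ℕ) - (s : ℕ) : ℤ) = 0 := by
      refine Int.eq_zero_of_abs_lt_dvd h2 ?_
      rw [abs_lt]
      constructor <;> omega
    congr 1
    exact Fin.ext (by omega)

/-- `ϖ g⁻¹` -/
def adjD (h : SplitPrime Eis p ϖ) (g : GL (Fin 2) ℂ) : GL (Fin 2) ℂ :=
  H3.sMat (ϖ : ℂ) (coe_ne h) * g⁻¹

lemma sMat_val (c : ℂ) (hc : c ≠ 0) : ((H3.sMat c hc : GL (Fin 2) ℂ) : Matrix (Fin 2) (Fin 2) ℂ) =
    c • (1 : Matrix (Fin 2) (Fin 2) ℂ) := by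
  have : ((H3.sMat c hc : GL (Fin 2) ℂ) : Matrix (Fin 2) (Fin 2) ℂ) = !![c, 0; 0, c] := rfl
  rw [this]
  ext i j
  fin_cases i <;> fin_cases j <;> simp

lemma sMat_comm (c : ℂ) (hc : c ≠ 0) (g : GL (Fin 2) ℂ) : H3.sMat c hc * g = g * H3.sMat c hc := by
  apply Units.ext
  rw [Units.val_mul, Units.val_mul, sMat_val, Matrix.smul_mul, Matrix.mul_smul, Matrix.one_mul,
    Matrix.mul_one]

lemma adjD_val {δ : GL (Fin 2) ℂ} (hδ : δ ∈ Del N ϖ) :
    ((adjD h δ : GL (Fin 2) ℂ) : Matrix (Fin 2) (Fin 2) ℂ) =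
      (δ : Matrix (Fin 2) (Fin 2) ℂ).adjugate := by
  have h0 : (ϖ : ℂ) ≠ 0 := coe_ne h
  rw [adjD, Units.val_mul, sMat_val, Matrix.smul_mul, Matrix.one_mul, Matrix.coe_units_inv,
    Matrix.inv_def, hδ.1, smul_smul, Ring.inverse_eq_inv', mul_inv_cancel₀ h0, one_smul]

lemma adjD_mem {δ : GL (Fin 2) ℂ} (hδ : δ ∈ Del N ϖ) : adjD h δ ∈ Del N ϖ := by
  have hv := adjD_val h hδ
  obtain ⟨k1, k2, y, hy, k3⟩ := hδ
  refine ⟨?_, ?_, -y, Eis.neg_mem hy, ?_⟩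
  · rw [hv, Matrix.det_adjugate, k1]; simp
  · intro i j
    rw [hv, Matrix.adjugate_fin_two]
    fin_cases i <;> fin_cases j
    · exact k2 1 1
    · exact Eis.neg_mem (k2 0 1)
    · exact Eis.neg_mem (k2 1 0)
    · exact k2 0 0
  · rw [hv, Matrix.adjugate_fin_two]
    show -((δ : Matrix (Fin 2) (Fin 2) ℂ) 1 0) = _
    rw [k3]; ring

lemma adjD_adjD (δ : GL (Fin 2) ℂ) : adjD h (adjD h δ) = δ := by
  rw [adjD, adjD, _root_.mul_inv_rev, inv_inv, ← mul_assoc, sMat_comm, mul_assoc, mul_inv_cancel, mul_one]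

/-- **adjointness of `T_ϖ` on `Gam N \ H3`** -/
theorem adjoint_gam (hN : ¬ p ∣ 3 * N) {χ : H3 → ℝ} (hχ : IsCut (Gam N) χ) {F Θ : H3 → ℂ}
    (hF : ∀ g ∈ Gam N, ∀ w, F (g • w) = F w) (hΘ : ∀ g ∈ Gam N, ∀ w, Θ (g • w) = Θ w)
    (hint : ∀ i, Integrable (fun w => (χ w : ℂ) * (F w * Θ (al h i • w)))) :
    ∫ w, (χ w : ℂ) * (F w * ∑ i, Θ (al h i • w)) =
      ∫ w, (χ w : ℂ) * ((∑ i, F (al h i • w)) * Θ w) := by
  refine adjoint_group (fun g => H3.measurePreserving_smul g) (Gam N) (al h) (Del N ϖ) (adjD h)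
    (fun γ hγ i => mul_mem_Del hγ (al_mem h i)) (fun δ hδ => exists_rep h hN hδ)
    (fun i j => rep_unique h i j) (fun δ hδ => adjD_mem h hδ) (fun δ _ => adjD_adjD h δ) ?_
    hχ.nonneg hχ.meas hχ.sum hF hΘ hint
  intro δ _ w
  rw [adjD, mul_smul, inv_smul_smul, H3.sMat_smul]

end

end Fermat.Agent.H29T
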