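import Fermat.Agent.H29T5

/-!
# S47, block (T), package T4: the Hecke relation for `F` from the Fourier expansion (I-CT)
-/

set_option autoImplicit false
set_option linter.unusedSectionVars false

noncomputable section

open Complex MeasureTheory Matrix
open scoped ComplexConjugate Real

namespace Fermat.Agent.H29T

open S47T NormTrace

attribute [local instance] starEis normTraceEis

section

variable {N p : ℕ} {ϖ : Eis}

/-! ### arithmetic of `ϖ` -/

section

variable (h : SplitPrime Eis p ϖ)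

include h

lemma prime_pi : Prime ϖ := by
  refine ⟨h.ne_zero, ?_, fun a b hab => h.dvd_mul hab⟩
  intro hu
  obtain ⟨u, hu⟩ := hu
  exact not_unit' h (↑u⁻¹ : Eis) (by rw [← hu, Units.inv_mul])

lemma isCoprime_of_not_dvd {x : Eis} (hx : ¬ ϖ ∣ x) : IsCoprime ϖ x := by
  obtain ⟨m, s, hm⟩ := h.surj x
  have hpm : ¬ (p : ℤ) ∣ m := by
    intro h1
    apply hx
    have h2 : ϖ ∣ (m : Eis) := h.dvd_int.mpr h1
    have e : x = ϖ * s + m := by rw [← hm]; ring
    rw [e]; exact dvd_add (dvd_mul_right _ _) h2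
  have hpp : Prime (p : ℤ) := Nat.prime_iff_prime_int.mp h.prime
  obtain ⟨u, v, huv⟩ := ((hpp.coprime_iff_not_dvd).mpr hpm).symm
  have huv' : (u : Eis) * (m : Eis) + (v : Eis) * (ϖ * star ϖ) = 1 := by
    rw [h.mul_star]; exact_mod_cast huv
  refine ⟨v * star ϖ - u * s, u, ?_⟩
  have hx' : x = m + ϖ * s := by rw [← hm]; ring
  rw [hx']
  linear_combination huv'

lemma nm_pos_of_ne {x : Eis} (hx : x ≠ 0) : 0 < nm x := by
  have h1 : ((nm x : ℤ) : ℝ) = Complex.normSq (emb x) := cast_nm (e := emb) emb_star x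
  have h2 : (0 : ℝ) < Complex.normSq (emb x) := by
    apply Complex.normSq_pos.mpr
    intro h0
    exact hx (Subtype.ext (by simpa using h0))
  rw [← h1] at h2
  exact_mod_cast h2

lemma exists_pow {x : Eis} (hx : x ≠ 0) : ∃ (k : ℕ) (y : Eis), x = ϖ ^ k * y ∧ ¬ ϖ ∣ y := by
  have key : ∀ n : ℕ, ∀ x : Eis, x ≠ 0 → nm x ≤ n →
      ∃ (k : ℕ) (y : Eis), x = ϖ ^ k * y ∧ ¬ ϖ ∣ y := by
    intro n
    induction n with
    | zero =>
      intro x hx hn
      exact absurd (nm_pos_of_ne h hx) (by push_cast at hn; omega)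
    | succ n ih =>
      intro x hx hn
      by_cases hd : ϖ ∣ x
      · obtain ⟨x', rfl⟩ := hd
        have hx' : x' ≠ 0 := right_ne_zero_of_mul hx
        have h1 : nm x' ≤ n := by
          rw [nm_mul, h.nm_pi] at hn
          have h2 : (2 : ℤ) ≤ p := by exact_mod_cast h.prime.two_le
          have h3 := nm_pos_of_ne h hx'
          push_cast at hn
          nlinarith
        obtain ⟨k, y, h4, h5⟩ := ih x' hx' h1
        exact ⟨k + 1, y, by rw [h4, pow_succ]; ring, h5⟩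
      · exact ⟨0, x, by simp, hd⟩
  exact key (nm x).toNat x hx (by rw [Int.toNat_of_nonneg (nm_pos_of_ne h hx).le])

/-- the Hecke recursion for the coefficients -/
lemma c_hecke (hN : ¬ p ∣ 3 * N) {c : Eis → ℝ} (c_zero : c 0 = 0)
    (c_mul : ∀ α β : Eis, IsCoprime α β → c (α * β) = c α * c β)
    (c_rec : ∀ (ϖ : Eis) (k : ℕ), Prime ϖ → IsCoprime ϖ (N : Eis) →
      c (ϖ ^ (k + 2)) = c ϖ * c (ϖ ^ (k + 1)) - c (ϖ ^ k)) :
    (∀ β : Eis, c (ϖ * (ϖ * β)) + c β = c ϖ * c (ϖ * β)) ∧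
    (∀ β : Eis, ¬ ϖ ∣ β → c (ϖ * β) = c ϖ * c β) := by
  refine ⟨fun β => ?_, fun β hβ => c_mul _ _ (isCoprime_of_not_dvd h hβ)⟩
  by_cases hβ : β = 0
  · subst hβ; simp [c_zero]
  · obtain ⟨k, y, rfl, hy⟩ := exists_pow h hβ
    have hcop : ∀ j : ℕ, IsCoprime (ϖ ^ j) y := fun j => (isCoprime_of_not_dvd h hy).pow_left
    have e1 : ϖ * (ϖ * (ϖ ^ k * y)) = ϖ ^ (k + 2) * y := by ring
    have e2 : ϖ * (ϖ ^ k * y) = ϖ ^ (k + 1) * y := by ring
    rw [e1, e2, c_mul _ _ (hcop _), c_mul _ _ (hcop _), c_mul _ _ (hcop _),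
      c_rec ϖ k (prime_pi h) (coprime_N h hN h.dvd_p)]
    ring

/-! ### the exponential sum -/

omit h in
lemma two_re (x : Eis) : 2 * ((x : ℂ) / sq3).re = ((eisEquiv.symm x).2 : ℤ) := by
  have h1 : ((2 * ((x : ℂ) / sq3).re : ℝ) : ℂ) = (((eisEquiv.symm x).2 : ℤ) : ℂ) := by
    have h2 : ((x : ℂ)) = ((eisEquiv.symm x).1 : ℂ) + ((eisEquiv.symm x).2 : ℂ) * om := by
      have := congrArg Subtype.val (eisEquiv.apply_symm_apply x)
      rw [coe_eisEquiv] at this
      exact this.symm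
    have h3 := Complex.add_conj ((x : ℂ) / sq3)
    rw [← h3, map_div₀, conj_sq3]
    have h0 := sq3_ne_zero
    have h4 : (x : ℂ) / sq3 + conj (x : ℂ) / -sq3 = ((x : ℂ) - conj (x : ℂ)) / sq3 := by
      field_simp
      ring
    rw [h4, div_eq_iff h0, h2, map_add, map_mul, conj_om, map_intCast, map_intCast, sq3_eq]
    ring
  exact_mod_cast h1

lemma sum_ee (α : Eis) : ∑ t ∈ Finset.range p,
    ee ((2 * ((α : ℂ) * ((t : ℂ) / ϖ) / sq3).re : ℝ)) =
    (open Classical in if ϖ ∣ α then (p : ℂ) else 0) := by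
  classical
  have hp0 : (p : ℂ) ≠ 0 := by exact_mod_cast h.prime.ne_zero
  have hp0' : (p : ℝ) ≠ 0 := by exact_mod_cast h.prime.ne_zero
  have hϖ := coe_ne h
  set m := (eisEquiv.symm (α * star ϖ)).2 with hm
  have h1 : ∀ t : ℕ, (2 * ((α : ℂ) * ((t : ℂ) / ϖ) / sq3).re : ℝ) = t * m / p := by
    intro t
    have e1 : (α : ℂ) * ((t : ℂ) / ϖ) / sq3 = ((t / p : ℝ) : ℂ) * (((α * star ϖ : Eis) : ℂ) / sq3) := by
      rw [Subring.coe_mul, coe_star]
      have h2 : (ϖ : ℂ) * conj (ϖ : ℂ) = p := mul_conj_e (e := emb) emb_star h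
      push_cast
      rw [← h2]
      have h3 : conj (ϖ : ℂ) ≠ 0 := (map_ne_zero _).mpr hϖ
      have h0 := sq3_ne_zero
      field_simp
    rw [e1, Complex.re_ofReal_mul]
    have := two_re (α * star ϖ)
    rw [← hm] at this
    rw [← this]
    ring
  have h2 : ∀ t ∈ Finset.range p, ee ((2 * ((α : ℂ) * ((t : ℂ) / ϖ) / sq3).re : ℝ)) =
      cexp (2 * π * I * (t * m / p)) := by
    intro t _
    rw [h1, ee]
    congr 1
    push_cast
    ring
  rw [Finset.sum_congr rfl h2, sum_exp h.prime]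
  have h3 : (p : ℤ) ∣ m ↔ ϖ ∣ α := by
    have e := eis_eq (α * star ϖ)
    rw [← hm] at e
    constructor
    · intro hd
      obtain ⟨m', hm'⟩ := hd
      have h4 : star ϖ ∣ (((eisEquiv.symm (α * star ϖ)).1 : ℤ) : Eis) := by
        have e5 : (((eisEquiv.symm (α * star ϖ)).1 : ℤ) : Eis) =
            α * star ϖ - (p : Eis) * ((m' : Eis) * omE) := by
          rw [hm'] at e
          push_cast at e
          linear_combination -e
        rw [e5]
        exact dvd_sub (dvd_mul_left _ _) (h.star_dvd_p.mul_right _)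
      rw [h.star_dvd_int] at h4
      obtain ⟨n', hn'⟩ := h4
      have h5 : (p : Eis) * ((n' : Eis) + (m' : Eis) * omE) = α * star ϖ := by
        rw [e, hn', hm']; push_cast; ring
      have h6 : star ϖ * (ϖ * ((n' : Eis) + (m' : Eis) * omE)) = star ϖ * α := by
        rw [← mul_assoc, mul_comm (star ϖ) ϖ, h.mul_star, h5, mul_comm]
      exact ⟨_, (mul_left_cancel₀ (star_ne_zero.mpr h.ne_zero) h6).symm⟩
    · rintro ⟨α', rfl⟩
      have e6 : ϖ * α' * star ϖ = ((p : ℤ) : Eis) * α' := by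
        rw [mul_right_comm, h.mul_star]; push_cast; rfl
      have e7 := eis_eq α'
      have e8 : (((eisEquiv.symm (ϖ * α' * star ϖ)).1 : ℤ) : ℂ) + ((m : ℤ) : ℂ) * om =
          ((p * (eisEquiv.symm α').1 : ℤ) : ℂ) + ((p * (eisEquiv.symm α').2 : ℤ) : ℂ) * om := by
        have e9 := congrArg Subtype.val e
        have e10 := congrArg Subtype.val e6
        have e11 := congrArg Subtype.val e7
        push_cast at e9 e10 e11 ⊢
        rw [coe_omE] at e9 e11
        rw [← e9, e10]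
        linear_combination (p : ℂ) * e11
      have e12 := om_indep (a := (eisEquiv.symm (ϖ * α' * star ϖ)).1 - p * (eisEquiv.symm α').1)
        (b := m - p * (eisEquiv.symm α').2) (by push_cast at e8 ⊢; linear_combination e8)
      exact ⟨_, by linarith [e12.2]⟩
  exact if_congr h3 rfl rfl

/-! ### the Hecke relation -/

omit h in
/-- the Whittaker function -/
def tm (w : H3) (α : Eis) : ℂ :=
  (w.y * K0 (4 * π * ‖(α : ℂ)‖ * w.y / Real.sqrt 3) : ℝ) *
    ee ((2 * ((α : ℂ) * w.z / sq3).re : ℝ))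

omit h in
lemma fterm_eq (c : Eis → ℝ) (w : H3) (α : Eis) : fterm c w α = (c α : ℂ) * tm w α := by
  rw [fterm, tm]
  push_cast
  ring

lemma norm_coe : ‖(ϖ : ℂ)‖ = Real.sqrt p := norm_e (e := emb) emb_star h

lemma ee_add (x y : ℂ) : ee (x + y) = ee x * ee y := by
  rw [ee, ee, ee, ← Complex.exp_add]
  congr 1
  ring

/-- the sum over the translates -/
lemma sum_fterm (c : Eis → ℝ) (w : H3) (α : Eis) :
    ∑ t ∈ Finset.range p, fterm c (alT t (ϖ : ℂ) (coe_ne h) • w) α =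
      (open Classical in if ϖ ∣ α then (p : ℂ) else 0) *
      ((c α * (w.y / Real.sqrt p * K0 (4 * π * ‖(α : ℂ)‖ * (w.y / Real.sqrt p) / Real.sqrt 3)) : ℝ) *
        ee ((2 * ((α : ℂ) * (w.z / ϖ) / sq3).re : ℝ))) := by
  rw [← sum_ee h, Finset.sum_mul]
  refine Finset.sum_congr rfl fun t _ => ?_
  rw [alT_smul, fterm]
  simp only [norm_coe h]
  have e1 : (2 * ((α : ℂ) * ((w.z + t) / ϖ) / sq3).re : ℝ) =
      2 * ((α : ℂ) * ((t : ℂ) / ϖ) / sq3).re + 2 * ((α : ℂ) * (w.z / ϖ) / sq3).re := by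
    rw [← mul_add, ← Complex.add_re]
    congr 2
    ring
  rw [e1, Complex.ofReal_add, ee_add h]
  push_cast
  ring

omit h in
lemma hs_congr {f g : Eis → ℂ} {a : ℂ} (hfg : ∀ b, f b = g b) (hf : HasSum f a) : HasSum g a := by
  rwa [← funext hfg]

/-- **the Hecke relation for `F`** -/
theorem hecke_F (hN : ¬ p ∣ 3 * N) {c : Eis → ℝ} (c_zero : c 0 = 0)
    (c_mul : ∀ α β : Eis, IsCoprime α β → c (α * β) = c α * c β)
    (c_rec : ∀ (ϖ : Eis) (k : ℕ), Prime ϖ → IsCoprime ϖ (N : Eis) →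
      c (ϖ ^ (k + 2)) = c ϖ * c (ϖ ^ (k + 1)) - c (ϖ ^ k)) {F : H3 → ℂ}
    (expn : ∀ w, HasSum (fun α : Eis => fterm c w α) (F w)) (w : H3) :
    ∑ t ∈ Finset.range p, F (alT t (ϖ : ℂ) (coe_ne h) • w) + F (H3.dMat (ϖ : ℂ) (coe_ne h) • w) =
      Real.sqrt p * c ϖ * F w := by
  classical
  have hϖ := coe_ne h
  have hp : (0 : ℝ) < p := by exact_mod_cast h.prime.pos
  have hsp : 0 < Real.sqrt p := Real.sqrt_pos.mpr hp
  have hsp0 : Real.sqrt p ≠ 0 := hsp.ne'
  have hss : Real.sqrt p * Real.sqrt p = p := Real.mul_self_sqrt hp.le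
  have hinj : Function.Injective (fun β : Eis => ϖ * β) := mul_right_injective₀ h.ne_zero
  -- first sum
  have h1 : HasSum (fun α : Eis => ∑ t ∈ Finset.range p, fterm c (alT t (ϖ : ℂ) (coe_ne h) • w) α)
      (∑ t ∈ Finset.range p, F (alT t (ϖ : ℂ) (coe_ne h) • w)) :=
    hasSum_sum fun t _ => expn _
  have h2 : HasSum (fun β : Eis => (Real.sqrt p : ℂ) * (c (ϖ * β) : ℂ) * tm w β)
      (∑ t ∈ Finset.range p, F (alT t (ϖ : ℂ) (coe_ne h) • w)) := by
    have h3 := (hinj.hasSum_iff (f := fun α : Eis =>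
      ∑ t ∈ Finset.range p, fterm c (alT t (ϖ : ℂ) (coe_ne h) • w) α) (by
        intro α hα
        have hd : ¬ ϖ ∣ α := fun ⟨β, hβ⟩ => hα ⟨β, hβ.symm⟩
        rw [sum_fterm h, if_neg hd, zero_mul])).mpr h1
    refine hs_congr (fun β => ?_) h3
    simp only [Function.comp_apply]
    rw [sum_fterm h, if_pos (dvd_mul_right _ _), tm]
    have e1 : ((ϖ * β : Eis) : ℂ) * (w.z / ϖ) / sq3 = (β : ℂ) * w.z / sq3 := by
      push_cast
      field_simp
    have e2 : 4 * π * ‖((ϖ * β : Eis) : ℂ)‖ * (w.y / Real.sqrt p) / Real.sqrt 3 =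
        4 * π * ‖(β : ℂ)‖ * w.y / Real.sqrt 3 := by
      rw [Subring.coe_mul, norm_mul, norm_coe h]
      field_simp
    rw [e1, e2]
    have e3 : (p : ℂ) = (Real.sqrt p : ℂ) * (Real.sqrt p : ℂ) := by exact_mod_cast hss.symm
    rw [e3]
    have e4 : (Real.sqrt p : ℂ) ≠ 0 := by exact_mod_cast hsp0
    push_cast
    field_simp
  -- second sum
  have h4 : HasSum (fun α : Eis => (Real.sqrt p : ℂ) * (c α : ℂ) * tm w (ϖ * α))
      (F (H3.dMat (ϖ : ℂ) (coe_ne h) • w)) := by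
    refine hs_congr (fun α => ?_) (expn _)
    rw [H3.dMat_smul, fterm, tm]
    simp only [norm_coe h]
    have e1 : (α : ℂ) * (ϖ * w.z) / sq3 = ((ϖ * α : Eis) : ℂ) * w.z / sq3 := by
      push_cast
      ring
    have e2 : 4 * π * ‖(α : ℂ)‖ * (Real.sqrt p * w.y) / Real.sqrt 3 =
        4 * π * ‖((ϖ * α : Eis) : ℂ)‖ * w.y / Real.sqrt 3 := by
      rw [Subring.coe_mul, norm_mul, norm_coe h]
      ring
    rw [e1, e2]
    push_cast
    ring
  obtain ⟨cr1, cr2⟩ := c_hecke h hN c_zero c_mul c_rec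
  -- the function `c (β / ϖ)`
  set cd : Eis → ℝ := fun β => if hd : ϖ ∣ β then c hd.choose else 0 with hcd
  have hcd1 : ∀ α, cd (ϖ * α) = c α := by
    intro α
    have hd : ϖ ∣ ϖ * α := dvd_mul_right _ _
    simp only [hcd, dif_pos hd]
    congr 1
    exact (mul_left_cancel₀ h.ne_zero hd.choose_spec).symm
  have hcd2 : ∀ β, ¬ ϖ ∣ β → cd β = 0 := fun β hβ => by simp only [hcd, dif_neg hβ]
  have h5 : HasSum (fun β : Eis => (Real.sqrt p : ℂ) * (cd β : ℂ) * tm w β)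
      (F (H3.dMat (ϖ : ℂ) (coe_ne h) • w)) := by
    rw [← hinj.hasSum_iff]
    · refine hs_congr (fun α => ?_) h4
      simp only [Function.comp_apply, hcd1]
    · intro β hβ
      have hd : ¬ ϖ ∣ β := fun ⟨α, hα⟩ => hβ ⟨α, hα.symm⟩
      rw [hcd2 β hd]
      simp
  have h6 := h2.add h5
  have h7 : HasSum (fun β : Eis => (Real.sqrt p : ℂ) * (c ϖ : ℂ) * fterm c w β)
      (Real.sqrt p * c ϖ * F w) := (expn w).mul_left _
  refine h6.unique (hs_congr (fun β => ?_) h7)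
  have e : c ϖ * c β = c (ϖ * β) + cd β := by
    by_cases hd : ϖ ∣ β
    · obtain ⟨α, rfl⟩ := hd
      rw [hcd1, ← cr1 α]
    · rw [hcd2 β hd, add_zero, cr2 β hd]
  have e' : (c ϖ : ℂ) * (c β : ℂ) = (c (ϖ * β) : ℂ) + (cd β : ℂ) := by exact_mod_cast e
  rw [fterm_eq]
  linear_combination ((Real.sqrt p : ℂ) * tm w β) * e'

end

end

end Fermat.Agent.H29T
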