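import Fermat.Agent.H35Geo0

/-!
# Descent of the node formula along degeneracy maps

`NodeInput` at level `m` implies `NodeInput` at level `M` if `M e ∣ m` and the ramification of
`X₀(m) → X₀(M)` (along `f(q) ↦ f(q ^ e)`) in characteristic `q` is controlled.
-/

set_option autoImplicit false
set_option linter.unusedSectionVars false
set_option linter.style.haveILetI false

noncomputable section

open AlgebraicCurve ModularCurve IntermediateField HahnSeries Fermat.Agent.H67
open Fermat.Agent.H35.Geo

namespace Fermat.Agent.H29.Wire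

local notation "Qb" => AlgebraicClosure ℚ

/-- `f(q) ↦ f(q ^ e)` maps `F_M` to `F_m` if `M e ∣ m`. -/
theorem qExpand_mem_fullC (k : Type*) [Field k] {M m e : ℕ} [NeZero e] (hm : m ≠ 0)
    (h : M * e ∣ m) {x : LaurentSeries k} (hx : x ∈ modularFunctionFieldFullC k M) :
    qExpand k e x ∈ modularFunctionFieldFullC k m := by
  rw [modularFunctionFieldFullC] at hx
  induction hx using IntermediateField.adjoin_induction with
  | mem y hy =>
    obtain ⟨d, hd, hdvd, rfl⟩ := hy
    rw [← H66.J_eq, H66.qExpand_J]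
    refine H66.J_mem hm (Dvd.dvd.trans ?_ h)
    rw [mul_comm]
    exact mul_dvd_mul_right hdvd e
  | algebraMap c =>
    rw [algebraMap_laurentSeries_eq_single, qExpand_single, mul_zero,
      ← algebraMap_laurentSeries_eq_single]
    exact (modularFunctionFieldFullC k m).algebraMap_mem _
  | add y z _ _ hy hz => rw [map_add]; exact add_mem hy hz
  | inv y _ hy => rw [map_inv₀]; exact inv_mem hy
  | mul y z _ _ hy hz => rw [map_mul]; exact mul_mem hy hz

/-- Pull back of functions with divisor divisible by `d`. -/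
theorem isU_dg {A : ValuationSubring Qb} {d M N : ℕ} [NeZero M] [NeZero N] (e : ℕ) [NeZero e]
    (h : M * e ∣ N) {u : FB Qb M} (hu : IsU A d M u) : IsU A d N (dg Qb e h u) where
  ne := (_root_.map_ne_zero _).mpr hu.ne
  fix σ hσ := by rw [dg_smul, hu.fix σ hσ]
  div v := by
    rw [ord_res]
    exact (hu.div _).mul_left _

theorem dvd_of_gcd {d g c : ℕ} (hg : Nat.gcd g d ∣ c) {x : ℤ} (h : (d : ℤ) ∣ g * x) :
    (d : ℤ) ∣ c * x := by
  obtain ⟨t, ht⟩ := hg
  have h1 : (d : ℤ) ∣ ((Nat.gcd g d : ℕ) : ℤ) * x := by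
    rw [Nat.gcd_eq_gcd_ab g d, add_mul]
    refine dvd_add ?_ ?_
    · rw [mul_right_comm]
      exact h.mul_right _
    · rw [mul_assoc]
      exact dvd_mul_right _ _
  rw [ht]
  push_cast
  rw [mul_right_comm]
  exact h1.mul_right _

/-- **Descent of the node formula**, at one place. -/
theorem dvd_of_nodeInput {d c' q M m : ℕ} [NeZero M] [NeZero m] [NeZero (M * q)]
    [NeZero (m * q)] (e : ℕ) [NeZero e] (hMm : M * e ∣ m) (hmq : m.Coprime q)
    {A : ValuationSubring Qb} {k : Type} [Field k] {π : A →+* k} (h : NodeInput d c' q m A π)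
    (hc : M.Coprime q) {u : FB Qb (M * q)} (hu : IsU A d (M * q) u) {a b : ℤ}
    {r s : LaurentSeries k} (hr : H97.HasG π (u : LaurentSeries Qb) ((q : Qb) ^ a) r)
    (hs : H97.HasG π ((atkin (L := Qb) embQbar M q rfl hc u : FB Qb (M * q)) : LaurentSeries Qb)
      ((q : Qb) ^ b) s) (hdvd : (d : ℤ) ∣ b - a) {r' : modularFunctionFieldFullC k M}
    (hr' : (r' : LaurentSeries k) = r) {P : Place k (modularFunctionFieldFullC k M)}
    {P' : Place k (modularFunctionFieldFullC k m)} {e' : ℕ}
    (hord : ∀ (f : modularFunctionFieldFullC k M) (f' : modularFunctionFieldFullC k m),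
      (f' : LaurentSeries k) = qExpand k e (f : LaurentSeries k) →
        P'.ord f' = e' * P.ord f) : (d : ℤ) ∣ c' * e' * P.ord r' := by
  have hdiv : M * q * e ∣ m * q := by
    rw [mul_right_comm]
    exact mul_dvd_mul_right hMm q
  have hW := isAL_atkin (L := Qb) embQbar M q rfl hc
  have hW' := isAL_atkin (L := Qb) embQbar m q rfl hmq
  have e1 := hW.comp_dg rfl hc rfl hmq hW' (d := e) hMm hdiv
  have e2 : atkin (L := Qb) embQbar m q rfl hmq (dg Qb e hdiv u) =
      dg Qb e hdiv (atkin (L := Qb) embQbar M q rfl hc u) := AlgHom.congr_fun e1 u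
  have hmem := qExpand_mem_fullC k (NeZero.ne m) hMm (e := e) r'.2
  have h1 := h hmq (dg Qb e hdiv u) (isU_dg e hdiv hu) a b (qExpand k e r) (qExpand k e s)
    (hr.qExpand e) (by rw [e2]; exact hs.qExpand e) hdvd ⟨_, hmem⟩ (by rw [← hr']) P'
  rw [hord r' _ rfl, ← mul_assoc] at h1
  exact h1

/-- **Descent of the node formula.** -/
theorem nodeInput_descend {d c c' q M m : ℕ} [NeZero M] [NeZero m] [NeZero (M * q)]
    [NeZero (m * q)] (e : ℕ) [NeZero e] (hMm : M * e ∣ m) (hmq : m.Coprime q)
    {A : ValuationSubring Qb} {k : Type} [Field k] {π : A →+* k} (h : NodeInput d c' q m A π)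
    (hram : ∀ P : Place k (modularFunctionFieldFullC k M),
      ∃ (P' : Place k (modularFunctionFieldFullC k m)) (e' : ℕ), Nat.gcd (c' * e') d ∣ c ∧
        ∀ (f : modularFunctionFieldFullC k M) (f' : modularFunctionFieldFullC k m),
          (f' : LaurentSeries k) = qExpand k e (f : LaurentSeries k) →
            P'.ord f' = e' * P.ord f) :
    NodeInput d c q M A π := by
  intro hc u hu a b r s hr hs hdvd r' hr' P
  obtain ⟨P', e', hg, hord⟩ := hram P
  refine dvd_of_gcd (g := c' * e') hg ?_
  push_cast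
  exact dvd_of_nodeInput e hMm hmq h hc hu hr hs hdvd hr' hord

end Fermat.Agent.H29.Wire

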