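import Fermat.Agent.H29Wire1
import Fermat.Agent.H97MdI

/-!
# The node formula in terms of the valuations `v₁`, `v₂`
-/

set_option autoImplicit false
set_option linter.unusedSectionVars false
set_option linter.style.haveILetI false

noncomputable section

open AlgebraicCurve ModularCurve IntermediateField HahnSeries Fermat.Agent.H67
open Fermat.Agent.H35.Geo Fermat.Agent.H34.Two Fermat.Agent.H97

namespace Fermat.Agent.H29.Wire

local notation "Qb" => AlgebraicClosure ℚ

theorem hasG_const_mul {L : Type*} [Field L] {A : ValuationSubring L} {k : Type*} [Field k]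
    {π : A →+* k} {f : LaurentSeries L} {c : L} {r : LaurentSeries k} (h : HasG π f c r) (d : L) :
    HasG π (algebraMap L (LaurentSeries L) d * f) (d * c) r := by
  obtain ⟨y, z, hy, hz, h1, h2⟩ := h
  refine ⟨y, z, hy, hz, ?_, h2⟩
  rw [mul_assoc, h1, ← mul_assoc, ← map_mul]

theorem smul_algebraMap_of_fixed {N : ℕ} (σ : Qb ≃ₐ[ℚ] Qb) {c : Qb} (hc : σ c = c) :
    arithmeticGalois (modularFunctionFieldFull N) σ • algebraMap Qb (FB Qb N) c =
      algebraMap Qb (FB Qb N) c := by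
  apply Subtype.ext
  rw [coe_arithmeticGalois_smul]
  show coeffMap _ (algebraMap Qb (LaurentSeries Qb) c) = algebraMap Qb (LaurentSeries Qb) c
  rw [algebraMap_laurentSeries_eq_single, coeffMap_single]
  congr 1

theorem isU_const_mul {A : ValuationSubring Qb} {d N : ℕ} [NeZero N] {u : FB Qb N}
    (hu : IsU A d N u) {c : Qb} (hc0 : c ≠ 0) (hc : ∀ σ : Qb ≃ₐ[ℚ] Qb, σ c = c) :
    IsU A d N (algebraMap Qb (FB Qb N) c * u) where
  ne := mul_ne_zero ((_root_.map_ne_zero _).mpr hc0) hu.ne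
  fix σ hσ := by rw [smul_mul', hu.fix σ hσ, smul_algebraMap_of_fixed σ (hc σ)]
  div v := by
    have : H3RR.IsFF Qb (FB Qb N) := isFF_FF Qb N
    rw [v.ord_mul ((_root_.map_ne_zero _).mpr hc0) hu.ne, H40.ord_algebraMap, zero_add]
    exact hu.div v

section Main

variable {m q : ℕ} [NeZero m] [NeZero q] [NeZero (m * q)] [hq : Fact q.Prime]
  {A : ValuationSubring Qb} {k : Type} [Field k] [CharP k q] [Infinite k] {π : A →+* k}
  [IsLocalHom π] (w : H99.AL Qb m q) (hπ : Function.Surjective π) (hD : H67.DegreeFact Qb)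
  (hdeg : H42.DegLE Qb k m) (hqm : ¬ q ∣ m)

theorem v1_of_hasG {f : FB Qb (m * q)} (hf : f ≠ 0) {c : Qb} (hc : c ≠ 0) {r : LaurentSeries k}
    (h : HasG π (f : LaurentSeries Qb) c r) :
    v1 A π w hπ hD hdeg hqm f = A.valuation c := by
  obtain ⟨c', r', hc', h', h1, -⟩ := hasG1 A π w hπ hD hdeg hqm hf
  rw [h1]
  exact HasG.val_eq hc' hc h' h

theorem red1_of_hasG_one {f : FB Qb (m * q)} {r : LaurentSeries k}
    (h : HasG π (f : LaurentSeries Qb) 1 r) :
    ((comp1 A π w hπ hD hdeg hqm).red f : LaurentSeries k) = r := by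
  rw [coe_red1]
  have := red_of_hasG A π (M := m * q) (f := f) one_ne_zero h
  rwa [inv_one, map_one, one_mul] at this

/-- **The node formula from its version in terms of valuations.** -/
theorem nodeInput_of_slope {d : ℕ}
    (hslope : ∀ hc : m.Coprime q, ∀ u : FB Qb (m * q), IsU A d (m * q) u →
      v1 A π w hπ hD hdeg hqm u = 1 → ∀ n : ℤ,
      v1 A π w hπ hD hdeg hqm (atkin (L := Qb) embQbar m q rfl hc u) = A.valuation (q : Qb) ^ n →
      (d : ℤ) ∣ n → ∀ x : Place k (modularFunctionFieldFullC k m),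
        (d : ℤ) ∣ x.ord ((comp1 A π w hπ hD hdeg hqm).red u)) :
    NodeInput d 1 q m A π := by
  intro hc u hu a b r s hr hs hdvd r' hr' P
  have hq0 : (q : Qb) ≠ 0 := Nat.cast_ne_zero.mpr hq.out.ne_zero
  have hqa : ((q : Qb) ^ (-a)) ≠ 0 := zpow_ne_zero _ hq0
  have hfix : ∀ σ : Qb ≃ₐ[ℚ] Qb, σ ((q : Qb) ^ (-a)) = (q : Qb) ^ (-a) := fun σ => by
    rw [map_zpow₀, map_natCast]
  set u' : FB Qb (m * q) := algebraMap Qb (FB Qb (m * q)) ((q : Qb) ^ (-a)) * u with hu'def
  have hu' : IsU A d (m * q) u' := isU_const_mul hu hqa hfix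
  have hg1 : HasG π (u' : LaurentSeries Qb) 1 r := by
    have h1 := hasG_const_mul hr ((q : Qb) ^ (-a))
    rw [← zpow_add₀ hq0, neg_add_cancel, zpow_zero] at h1
    exact h1
  have hg2 : HasG π ((atkin (L := Qb) embQbar m q rfl hc u' : FB Qb (m * q)) :
      LaurentSeries Qb) ((q : Qb) ^ (b - a)) s := by
    have h1 := hasG_const_mul hs ((q : Qb) ^ (-a))
    rw [← zpow_add₀ hq0, neg_add_eq_sub] at h1
    have h2 : atkin (L := Qb) embQbar m q rfl hc u' =
        algebraMap Qb (FB Qb (m * q)) ((q : Qb) ^ (-a)) *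
          atkin (L := Qb) embQbar m q rfl hc u := by
      rw [hu'def, map_mul, AlgEquiv.commutes]
    rw [h2]
    exact h1
  have hv1 : v1 A π w hπ hD hdeg hqm u' = 1 := by
    rw [v1_of_hasG w hπ hD hdeg hqm hu'.ne one_ne_zero hg1, map_one]
  have hv2 : v1 A π w hπ hD hdeg hqm (atkin (L := Qb) embQbar m q rfl hc u') =
      A.valuation (q : Qb) ^ (b - a) := by
    rw [v1_of_hasG w hπ hD hdeg hqm (hu'.atkin hc).ne (zpow_ne_zero _ hq0) hg2, map_zpow₀]
  have h3 := hslope hc u' hu' hv1 (b - a) hv2 hdvd P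
  have h4 : (comp1 A π w hπ hD hdeg hqm).red u' = r' := by
    apply Subtype.ext
    rw [red1_of_hasG_one w hπ hD hdeg hqm hg1, hr']
  rw [h4] at h3
  rw [Nat.cast_one, one_mul]
  exact h3

end Main

end Fermat.Agent.H29.Wire

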