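import Fermat.Agent.H29Wire3
import Fermat.Agent.H31MPParams
import Fermat.Agent.H97MdL

/-!
# The node formula from the data of Mazur's principle
-/

set_option autoImplicit false
set_option linter.unusedSectionVars false
set_option linter.style.haveILetI false

noncomputable section

open AlgebraicCurve ModularCurve IntermediateField HahnSeries Fermat.Agent.H67
open Fermat.Agent.H35.Geo Fermat.Agent.H34.Two Fermat.Agent.H97 Fermat.Agent.H31.MP

namespace Fermat.Agent.H29.Wire

local notation "Qb" => AlgebraicClosure ℚ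

/-- Divisibility at all points of the first component. -/
theorem dvd_ord_data {K F k Fb Γ ν G : Type*} [Field K] [Field F] [Algebra K F] [Field k]
    [Field Fb] [Algebra k Fb] [LinearOrderedCommGroupWithZero Γ] [Group G]
    [MulSemiringAction G K] [MulSemiringAction G F] {p : ℕ} (D : Data K F k Fb Γ ν G p)
    [IsAlgClosed K] [H3RR.IsFF K F] [IsAlgClosed k] [H3RR.IsFF k Fb]
    {e : ℕ} (he : e ≠ 0) {H : Subgroup G} {u : F} (hu : Fix H u) (hu0 : u ≠ 0)
    (hdiv : ∀ P : Place K F, (e : ℤ) ∣ P.ord u) (hvu : D.M.v false u = 1)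
    (hH : ∀ c : K, c ≠ 0 → Fix H c → ∃ m : ℤ, D.M.vK c = D.M.vK (p : K) ^ m)
    (hp0 : (p : K) ≠ 0) (hp1 : D.M.vK (p : K) < 1) {n : ℤ}
    (hn : D.M.v true u = D.M.vK (p : K) ^ n) (hen : (e : ℤ) ∣ n) (x : Place k Fb) :
    (e : ℤ) ∣ x.ord (D.M.ρ false u) := by
  classical
  by_cases hx : ∃ s, ((false, x) : Bool × Place k Fb) ∈ D.M.br s
  · obtain ⟨s, hs⟩ := hx
    have hxs : x = D.pt false s := by
      rcases (D.mem_br s _).mp hs with h | h
      · exact (Prod.ext_iff.mp h).2
      · exact absurd (Prod.ext_iff.mp h).1 Bool.false_ne_true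
    have h1 := D.slope_congr he hu hu0 hdiv hvu hH hp0 hp1 hn s
    rw [← hxs] at h1
    have h2 := dvd_add h1 hen
    rwa [sub_add_cancel] at h2
  · push Not at hx
    have h1 := D.M.smooth_deg (false, x) hx u hu0 hvu (H3RR.divOf u) (H3RR.divOf_apply hu0)
    rw [← h1, cls_eq_sum]
    refine Finset.dvd_sum fun P _ => ?_
    rw [H3RR.divOf_apply hu0]
    exact hdiv P

section Main

variable {m q : ℕ} [NeZero m] [NeZero q] [NeZero (m * q)] [hq : Fact q.Prime]

theorem AL_eq_atkin (w : H99.AL Qb m q) (hc : m.Coprime q) :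
    w.W = atkin (L := Qb) embQbar m q rfl hc := by
  have hW := isAL_atkin (L := Qb) embQbar m q rfl hc
  have h1 : m * 1 ∣ m * q := mul_dvd_mul_left _ (one_dvd q)
  have e1 := hW.comp_dg_one hc h1 dvd_rfl
  have e2 := hW.comp_dg_Q hc h1 dvd_rfl
  have h : w.W.toAlgHom = (atkin (L := Qb) embQbar m q rfl hc).toAlgHom := by
    refine H99.algHom_ext' m q hq.out _ _ (fun x => ?_) fun x => ?_
    · show w.W (heckeAlphaBar Qb m q x) = atkin (L := Qb) embQbar m q rfl hc
        (heckeAlphaBar Qb m q x)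
      rw [w.alpha, alpha_eq_dg, beta_eq_dg]
      exact (AlgHom.congr_fun e1 x).symm
    · show w.W (heckeBetaBar Qb m q x) = atkin (L := Qb) embQbar m q rfl hc
        (heckeBetaBar Qb m q x)
      rw [w.beta, alpha_eq_dg, beta_eq_dg]
      exact (AlgHom.congr_fun e2 x).symm
  exact AlgEquiv.ext fun x => AlgHom.congr_fun h x

variable {A : ValuationSubring Qb} {k : Type} [Field k] [CharP k q] [IsAlgClosed k] [Infinite k]
  {π : A →+* k} [IsLocalHom π] (w : H99.AL Qb m q) (hπ : Function.Surjective π)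
  (hD : H67.DegreeFact Qb) (hdeg : H42.DegLE Qb k m) (hqm : ¬ q ∣ m)

/-- **The node formula at level `m`** from the data of Mazur's principle. -/
theorem nodeInput_of_data {ν G : Type*} [Group G] [MulSemiringAction G Qb]
    [MulSemiringAction G (FB Qb (m * q))]
    (D : Data Qb (FB Qb (m * q)) k (modularFunctionFieldFullC k m) A.ValueGroup ν G q)
    (hvK : D.M.vK = A.valuation)
    (hv0 : ∀ f, D.M.v false f = v1 A π w hπ hD hdeg hqm f)
    (hv1 : ∀ f, D.M.v true f = v2 A π w hπ hD hdeg hqm f)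
    (hρ : ∀ f, D.M.ρ false f = (comp1 A π w hπ hD hdeg hqm).red f)
    (hfix : ∀ u : FB Qb (m * q), (∀ σ ∈ A.inertiaSubgroupIn ℚ,
      arithmeticGalois (modularFunctionFieldFull (m * q)) σ • u = u) →
        Fix (⊤ : Subgroup G) u)
    (hval : ∀ c : Qb, c ≠ 0 → Fix (⊤ : Subgroup G) c →
      ∃ n : ℤ, A.valuation c = A.valuation (q : Qb) ^ n)
    (hq1 : A.valuation (q : Qb) < 1) {d : ℕ} (hd : d ≠ 0) :
    NodeInput d 1 q m A π := by
  have i1 : H3RR.IsFF Qb (FB Qb (m * q)) := isFF_FF Qb (m * q)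
  have i2 : H3RR.IsFF k (modularFunctionFieldFullC k m) := isFF_right (L := Qb) hdeg
  refine nodeInput_of_slope w hπ hD hdeg hqm fun hc u hu h1 n h2 hdn x => ?_
  have h3 := dvd_ord_data D hd (hfix u hu.fix) hu.ne hu.div (by rw [hv0, h1])
    (fun c hc0 hcf => by rw [hvK]; exact hval c hc0 hcf)
    (Nat.cast_ne_zero.mpr hq.out.ne_zero) (by rw [hvK]; exact hq1) (n := n)
    (by rw [hv1, hvK, v2_eq, AL_eq_atkin w hc, h2]) hdn x
  rwa [hρ] at h3

end Main

end Fermat.Agent.H29.Wire
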