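import Fermat.Agent.H2C38S
import Fermat.Agent.H85C2
import Fermat.Agent.H69C2
import Fermat.Agent.H65C1
import Fermat.Agent.H20C1
import Fermat.Agent.H75D2
import Fermat.Agent.H4GeomIn
import Fermat.Agent.S34

/-!
# The scalar case of S38 from its letters

`NoLLAt` = the conclusion of `NoLL` for one level; `noLLAt_flat` (type `F`, `p ∤ M`), `noLLAt_strict`
(type `O`), `noLL_of`.
-/

set_option autoImplicit false
set_option linter.style.haveILetI false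

noncomputable section

open IsLocalRing CuspForm GaloisRep ExtCitation
open Fermat.Agent.H53 (GQ M2 toMat mapMat PData)
open Fermat.Agent.H59 (Tset CoeffChoice Zset)
open Fermat.Agent.H87.Glue (resZ)
open Fermat.Agent.H75P (MarkElts)

namespace Fermat.Agent.H2C

/-- the data of `NoLL` -/
structure LLData (W : WeierstrassCurve ℤ) (hΔ : W.Δ ≠ 0) (p : ℕ) [Fact p.Prime] (M s : ℕ)
    (A T : Finset ℕ) : Prop where
  sq : Squarefree M
  mod : W.IsResiduallyModularOfLevel p M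
  res : H57.S59.ResHypB W hΔ p A T ∅ (fun _ => 1)
  aux : H30.S59.Aux W p s
  aux_dvd : p = 3 → s ∣ M
  s_ne : s ≠ p
  s_A : s ∉ A
  s_T : s ∉ T
  cover : ∀ q : ℕ, q.Prime → q ∣ M → q ∈ A ∨ q ∈ T ∨ q = s ∨ q = p
  A_dvd : ∀ q ∈ A, q ∣ M
  T_dvd : ∀ q ∈ T, q ∣ M ∧ q ≠ p
  min_p : p ∣ M → ¬ W.IsResiduallyModularOfLevel p (M / p)

variable {W : WeierstrassCurve ℤ} {hΔ : W.Δ ≠ 0} {p : ℕ} [hp : Fact p.Prime]

theorem noLL_iff : NoLL W hΔ p ↔ ∀ (M s : ℕ) (A T : Finset ℕ), LLData W hΔ p M s A T →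
    ∀ t₀ ∈ T, ¬ W.IsResiduallyModularOfLevel p (M / t₀) → False := by
  constructor
  · intro h M s A T D
    exact h M s A T D.sq D.mod D.res D.aux D.aux_dvd D.s_ne D.s_A D.s_T D.cover D.A_dvd D.T_dvd
      D.min_p
  · intro h M s A T h1 h2 h3 h4 h5 h6 h7 h8 h9 h10 h11 h12
    exact h M s A T ⟨h1, h2, h3, h4, h5, h6, h7, h8, h9, h10, h11, h12⟩

/-- **Types at `p` without marks.** -/
theorem false_of_type (hp2 : p ≠ 2) (hTW : H69C.TWCond W hΔ p) (hirr : W.ModRepIsIrreducible p)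
    {M s : ℕ} {A T : Finset ℕ} (D : LLData W hΔ p M s A T) {t₀ : ℕ} (ht₀ : t₀ ∈ T)
    (hnot : ¬ W.IsResiduallyModularOfLevel p (M / t₀))
    (hP : ∀ (O : Type) [CommRing O] [IsDomain O] [IsDiscreteValuationRing O]
      [IsAdicComplete (maximalIdeal O) O] [CharZero O] [Finite (ResidueField O)]
      [CharP (ResidueField O) p] [Algebra (ZMod p) (ResidueField O)] (ϖ : O) (a : ℕ) (ζ : O)
      (_ : CoeffChoice p T O ϖ a ζ)
      (b : Module.Basis (Fin 2) (ResidueField O) ((resZ W hΔ p).baseChange (ResidueField O)).V),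
      ∃ pd : PData p ((resZ W hΔ p).baseChange (ResidueField O)) b, IsEmpty pd.ε ∧
        ∀ {L : ℕ} [NeZero L] {S : Finset ℕ}, p ∈ S → (∀ q : ℕ, q.Prime → q ∣ L → q ∈ S) →
          ¬ p ^ 2 ∣ L → (p ∣ L ↔ p ∣ M) →
          ∀ {θ : heckeAlgebra L 2 (↑S : Set ℕ) →+* ResidueField O}
          (H : HeckeGaloisRepDatum L (↑S : Set ℕ) O θ (heckeLocal L (↑S : Set ℕ) O θ)),
          H.ρ.residual.IsEquiv (((resZ W hΔ p).baseChange (ResidueField O)).baseChangeAlong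
            (ResidueField.map (algebraMap O (heckeLocal L (↑S : Set ℕ) O θ)))) → pd.𝒟p H.ρ) :
    False := by
  refine H69C.noLL' hp2 hTW hirr D.res ⟨t₀, ht₀⟩ ?_
  exact H85.C.innerLL_of hΔ hp2 hirr S29.result S34.result (H4.geomInputs hp.out)
    D.res.A_prime (fun q hA hT => D.res.A_ram q hA (D.res.T_unr q hT)) D.res.T_prime D.res.T_dvd
    D.res.T_unr D.aux D.sq D.mod
    (fun q hq hd => by
      rcases D.cover q hq hd with h | h | h | h
      · exact Or.inr (Or.inl h)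
      · exact Or.inr (Or.inr (Or.inl h))
      · exact Or.inr (Or.inr (Or.inr h))
      · exact Or.inl h)
    (fun t ht => (D.T_dvd t ht).1) D.aux_dvd ⟨t₀, ht₀⟩ hnot hP

/-- **Letter F**: level prime to `p`. -/
theorem false_flat (hp2 : p ≠ 2) (hTW : H69C.TWCond W hΔ p) (hirr : W.ModRepIsIrreducible p)
    {M s : ℕ} {A T : Finset ℕ} (D : LLData W hΔ p M s A T) (hpM : ¬ p ∣ M) {t₀ : ℕ} (ht₀ : t₀ ∈ T)
    (hnot : ¬ W.IsResiduallyModularOfLevel p (M / t₀)) : False :=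
  false_of_type hp2 hTW hirr D ht₀ hnot (H65.C.letterF hΔ hp2 hirr D.sq.ne_zero hpM D.mod)

/-- **Letter O**: multiplicative reduction at `p`, non-trivial at `σ₀`. -/
theorem false_strict (hp2 : p ≠ 2) (hTW : H69C.TWCond W hΔ p) (hss : W.IsSemistableModel)
    (hirr : W.ModRepIsIrreducible p)
    {M s : ℕ} {A T : Finset ℕ} (D : LLData W hΔ p M s A T) (hpM : p ∣ M) {t₀ : ℕ} (ht₀ : t₀ ∈ T)
    (hnot : ¬ W.IsResiduallyModularOfLevel p (M / t₀)) (hbad : (p : ℤ) ∣ W.Δ)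
    {φ σ₀ : GQ} (hm : MarkElts p φ σ₀) (hne : (resZ W hΔ p).ρ σ₀ ≠ 1) : False :=
  false_of_type hp2 hTW hirr D ht₀ hnot fun _ _ _ _ _ _ _ _ _ _ _ _ hO b =>
    H20.C.letterO hΔ b hO.mem hp2 hss hbad hm hne hpM

/-- **The scalar case** from the two remaining cases: `W` good at `p | M`, and `W` multiplicative at
`p | M` with `W[p]` trivial at `σ₀`. -/
theorem noLL_of (hp2 : p ≠ 2) (hTW : H69C.TWCond W hΔ p) (hss : W.IsSemistableModel)
    (hirr : W.ModRepIsIrreducible p)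
    (hgood : ¬ (p : ℤ) ∣ W.Δ → ∀ (M s : ℕ) (A T : Finset ℕ), LLData W hΔ p M s A T → p ∣ M →
      ∀ t₀ ∈ T, ¬ W.IsResiduallyModularOfLevel p (M / t₀) → False)
    (hO2 : (p : ℤ) ∣ W.Δ → ∀ (φ σ₀ : GQ), MarkElts p φ σ₀ → (resZ W hΔ p).ρ σ₀ = 1 →
      ∀ (M s : ℕ) (A T : Finset ℕ), LLData W hΔ p M s A T → p ∣ M →
      ∀ t₀ ∈ T, ¬ W.IsResiduallyModularOfLevel p (M / t₀) → False) : NoLL W hΔ p := by
  rw [noLL_iff]
  intro M s A T D t₀ ht₀ hnot
  by_cases hpM : p ∣ M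
  · by_cases hbad : (p : ℤ) ∣ W.Δ
    · obtain ⟨φ, σ₀, hm⟩ := H75P.exists_markElts (p := p) hp2
      by_cases hne : (resZ W hΔ p).ρ σ₀ = 1
      · exact hO2 hbad φ σ₀ hm hne M s A T D hpM t₀ ht₀ hnot
      · exact false_strict hp2 hTW hss hirr D hpM ht₀ hnot hbad hm hne
    · exact hgood hbad M s A T D hpM t₀ ht₀ hnot
  · exact false_flat hp2 hTW hirr D hpM ht₀ hnot

end Fermat.Agent.H2C
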