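import Fermat.Agent.H2C38A
import Fermat.Agent.H57S59Out
import Fermat.Agent.H30S59b
import Fermat.Agent.H59LocAt
import Fermat.Agent.S30
import Fermat.Agent.S32

/-!
# Skeleton of S38

`NoLL W hΔ p` is the scalar case of level lowering; `S38_of` deduces level lowering at every unramified
prime from it.
-/

set_option autoImplicit false
set_option linter.style.haveILetI false

noncomputable section

open Polynomial WeierstrassCurve WeierstrassCurve.Affine WeierstrassCurve.Affine.Point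
open Fermat.Agent.H87.Glue

namespace Fermat.Agent.H2C

local notation "Qb" => AlgebraicClosure ℚ

/-- **The scalar case of level lowering.** `M` squarefree with `W[p]` modular of level `M`; `A` = the
ramified primes different from `p`; `T` = the unramified primes different from `p` and `s`, all with
scalar Frobenius; `s` = the auxiliary prime (`p = 3` only). It is impossible that `W[p]` is not modular
of level `M / t₀`, `t₀ ∈ T`, and not modular of level `M / p` (if `p ∣ M`). -/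
def NoLL (W : WeierstrassCurve ℤ) (hΔ : W.Δ ≠ 0) (p : ℕ) [Fact p.Prime] : Prop :=
  ∀ (M s : ℕ) (A T : Finset ℕ), Squarefree M → W.IsResiduallyModularOfLevel p M →
    H57.S59.ResHypB W hΔ p A T ∅ (fun _ => 1) → H30.S59.Aux W p s → (p = 3 → s ∣ M) →
    s ≠ p → s ∉ A → s ∉ T →
    (∀ q : ℕ, q.Prime → q ∣ M → q ∈ A ∨ q ∈ T ∨ q = s ∨ q = p) →
    (∀ q ∈ A, q ∣ M) → (∀ q ∈ T, q ∣ M ∧ q ≠ p) →
    (p ∣ M → ¬ W.IsResiduallyModularOfLevel p (M / p)) →
    ∀ t₀ ∈ T, ¬ W.IsResiduallyModularOfLevel p (M / t₀) → False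

variable {W : WeierstrassCurve ℤ} {hΔ : W.Δ ≠ 0} {p : ℕ} [hp : Fact p.Prime]

/-- arithmetic of squarefree numbers -/
theorem sqf_div {m ℓ : ℕ} (hm : Squarefree m) (hℓ : ℓ.Prime) (h : ℓ ∣ m) :
    ¬ ℓ ∣ m / ℓ ∧ m / ℓ * ℓ = m ∧ 0 < m / ℓ ∧ m / ℓ < m := by
  have hm0 : m ≠ 0 := hm.ne_zero
  have h1 : m / ℓ * ℓ = m := Nat.div_mul_cancel h
  refine ⟨fun h => ?_, h1, Nat.div_pos (Nat.le_of_dvd (Nat.pos_of_ne_zero hm0) h) hℓ.pos,
    Nat.div_lt_self (Nat.pos_of_ne_zero hm0) hℓ.one_lt⟩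
  have h2 : ℓ * ℓ ∣ m := by
    rw [← h1]
    exact Nat.mul_dvd_mul_right h ℓ
  exact hℓ.not_isUnit (hm ℓ h2)

/-- **Level lowering at an unramified prime** from the scalar case. -/
theorem S38_of (hLL : NoLL W hΔ p) (hp2 : p ≠ 2) (hW : W.IsSemistableModel)
    (hirr : W.ModRepIsIrreducible p) {M q : ℕ} (hq : q.Prime) (hqp : q ≠ p) (hqM : q ∣ M)
    (hM : Squarefree M) (hunr : (resZ W hΔ p).IsUnramifiedAt q)
    (hres : W.IsResiduallyModularOfLevel p M) : W.IsResiduallyModularOfLevel p (M / q) := by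
  classical
  have hM0 : 0 < M := Nat.pos_of_ne_zero hM.ne_zero
  have h30 : H96.StatementS30 := H30.statementS30
  have h32 : H30.StatementS32 := Fermat.Agent.S32.result
  have hloc := H59.localAt hΔ (p := p) hW hp2 h30 h32 (resZ_isIrreducible W hΔ p hirr)
  -- the auxiliary prime
  obtain ⟨s, haux, hsp, hsM, hs0, hsm⟩ : ∃ s : ℕ, H30.S59.Aux W p s ∧ s ≠ p ∧
      (∀ ℓ : ℕ, ℓ.Prime → ℓ ∣ M → ℓ ≠ s) ∧ 0 < s ∧
      (∀ m : ℕ, 0 < m → m ∣ M → W.IsResiduallyModularOfLevel p (m * s) →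
        W.IsResiduallyModularOfLevel p m) := by
    by_cases h3 : p = 3
    · subst h3
      obtain ⟨s, h1, h2, h3, h4, h5⟩ :=
        H80.Aux.exists_aux_prime W hΔ hW hirr (insert 3 M.primeFactors)
      rw [Finset.mem_insert, not_or, Nat.mem_primeFactors] at h2
      have hsM : ¬ s ∣ M := fun h => h2.2 ⟨h1, h, hM.ne_zero⟩
      refine ⟨s, ⟨fun _ => ⟨h1, h3, h4, h5⟩, fun h => absurd rfl h⟩, h2.1,
        fun ℓ _ hℓM h => hsM (h ▸ hℓM), h1.pos, fun m hm hmM h => ?_⟩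
      exact remove_aux hm hp2 hΔ hirr h1 h2.1 (fun h => hsM (h.trans hmM)) h4 (aux_ap h3 h5) h
    · refine ⟨1, ⟨fun h => absurd h h3, fun _ => rfl⟩, hp.out.ne_one.symm,
        fun ℓ hℓ _ h => hℓ.ne_one h, one_pos, fun m _ _ h => by rwa [mul_one] at h⟩
  -- the minimal level
  have hex : ∃ m : ℕ, m ∣ M ∧ W.IsResiduallyModularOfLevel p (m * s) :=
    ⟨M, dvd_rfl, H69.Red.res_of_dvd S29.result hΔ hp.out (Nat.mul_pos hM0 hs0).ne'
      (dvd_mul_right M s) hres⟩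
  set m := Nat.find hex with hmdef
  obtain ⟨hmM, hmres⟩ := Nat.find_spec hex
  rw [← hmdef] at hmM hmres
  have hmin : ∀ m' : ℕ, m' ∣ M → m' < m → ¬ W.IsResiduallyModularOfLevel p (m' * s) :=
    fun m' h1 h2 h3 => Nat.find_min hex h2 ⟨h1, h3⟩
  have hm0 : 0 < m := Nat.pos_of_dvd_of_pos hmM hM0
  have hmsq : Squarefree m := hM.squarefree_of_dvd hmM
  by_cases hqm : q ∣ m
  swap
  · -- the prime `q` has been removed
    have h1 : m ∣ M / q := by
      refine Nat.Coprime.dvd_of_dvd_mul_right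
        ((Nat.Prime.coprime_iff_not_dvd hq).mpr hqm).symm ?_
      rw [Nat.div_mul_cancel hqM]
      exact hmM
    exact H69.Red.res_of_dvd S29.result hΔ hp.out (sqf_div hM hq hqM).2.2.1.ne' h1
      (hsm m hm0 hmM hmres)
  exfalso
  let A : Finset ℕ := (m.primeFactors.erase p).filter fun ℓ => ¬ (resZ W hΔ p).IsUnramifiedAt ℓ
  let T : Finset ℕ := (m.primeFactors.erase p).filter fun ℓ => (resZ W hΔ p).IsUnramifiedAt ℓ
  have hA : ∀ ℓ, ℓ ∈ A ↔ ((ℓ.Prime ∧ ℓ ∣ m) ∧ ℓ ≠ p) ∧ ¬ (resZ W hΔ p).IsUnramifiedAt ℓ :=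
    fun ℓ => by
      rw [Finset.mem_filter, Finset.mem_erase, Nat.mem_primeFactors]
      have := hm0.ne'
      tauto
  have hT : ∀ ℓ, ℓ ∈ T ↔ ((ℓ.Prime ∧ ℓ ∣ m) ∧ ℓ ≠ p) ∧ (resZ W hΔ p).IsUnramifiedAt ℓ :=
    fun ℓ => by
      rw [Finset.mem_filter, Finset.mem_erase, Nat.mem_primeFactors]
      have := hm0.ne'
      tauto
  have hns : ∀ ℓ : ℕ, ℓ.Prime → ℓ ∣ m → ¬ ℓ ∣ s := by
    intro ℓ hℓ hℓm hd
    by_cases h3 : p = 3
    · exact hsM ℓ hℓ (hℓm.trans hmM) ((Nat.prime_dvd_prime_iff_eq hℓ (haux.1 h3).1).mp hd)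
    · rw [haux.2 h3] at hd
      exact hℓ.ne_one (Nat.dvd_one.mp hd)
  have hdivs : ∀ ℓ : ℕ, ℓ ∣ m → m * s / ℓ = m / ℓ * s := fun ℓ h => by
    rw [mul_comm m s, Nat.mul_div_assoc s h, mul_comm]
  -- all unramified primes are scalar
  have hsc : ∀ ℓ ∈ T, H69.Red.ScalarAt W hΔ p ℓ := by
    intro ℓ hℓT
    obtain ⟨⟨⟨hℓ, hℓm⟩, hℓp⟩, hℓu⟩ := (hT ℓ).mp hℓT
    obtain ⟨h1, h2, h3, h4⟩ := sqf_div hmsq hℓ hℓm
    by_contra hcon
    refine hmin (m / ℓ) ((Nat.div_dvd_of_dvd hℓm).trans hmM) h4 ?_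
    refine lower_nonscalar hp2 hΔ hW hirr hℓ hℓp (Nat.mul_pos h3 hs0) ?_ hℓu hcon ?_
    · intro hd
      rcases hℓ.dvd_mul.mp hd with hd | hd
      · exact h1 hd
      · exact hns ℓ hℓ hℓm hd
    · rw [mul_right_comm, h2]
      exact hmres
  have hmspos : 0 < m * s := Nat.mul_pos hm0 hs0
  have hRes : H57.S59.ResHypB W hΔ p A T ∅ (fun _ => 1) :=
    { A_prime := fun ℓ h => ((hA ℓ).mp h).1.1.1
      A_ne := fun ℓ h => ((hA ℓ).mp h).1.2
      A_ram := fun ℓ h => ((hA ℓ).mp h).2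
      A_unip := fun ℓ h => hloc.unip ℓ ((hA ℓ).mp h).1.1.1 ((hA ℓ).mp h).1.2
      unr := fun ℓ hℓ hℓp hℓA => by
        by_cases h : ℓ ∣ m
        · by_contra hcon
          exact hℓA ((hA ℓ).mpr ⟨⟨⟨hℓ, h⟩, hℓp⟩, hcon⟩)
        · by_cases hs : ℓ ∣ s
          · by_cases h3 : p = 3
            · have h5 : ℓ = s := (Nat.prime_dvd_prime_iff_eq hℓ (haux.1 h3).1).mp hs
              exact resZ_isUnramifiedAt W hΔ p hℓ hℓp (h5 ▸ (haux.1 h3).2.2.1)
            · rw [haux.2 h3] at hs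
              exact absurd (Nat.dvd_one.mp hs) hℓ.ne_one
          · exact hloc.unr (m * s) hmspos hmres ℓ hℓ hℓp (fun hd => by
              rcases hℓ.dvd_mul.mp hd with hd | hd
              · exact h hd
              · exact hs hd)
      T_prime := fun ℓ h => ((hT ℓ).mp h).1.1.1
      T_dvd := fun ℓ h => (hsc ℓ h).1
      T_unr := fun ℓ h => ((hT ℓ).mp h).2
      T_scalar := fun ℓ h => (hsc ℓ h).2
      B_prime := fun ℓ h => absurd h (Finset.notMem_empty ℓ)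
      B_ne := fun ℓ h => absurd h (Finset.notMem_empty ℓ)
      B_unr := fun ℓ h => absurd h (Finset.notMem_empty ℓ)
      B_nonscalar := fun ℓ h => absurd h (Finset.notMem_empty ℓ)
      B_sign := fun ℓ h => absurd h (Finset.notMem_empty ℓ)
      B_trace := fun ℓ h => absurd h (Finset.notMem_empty ℓ) }
  have hqT : q ∈ T := (hT q).mpr ⟨⟨⟨hq, hqm⟩, hqp⟩, hunr⟩
  have hsq : Squarefree (m * s) := by
    by_cases h3 : p = 3
    · have hs := (haux.1 h3).1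
      rw [Nat.squarefree_mul]
      · exact ⟨hmsq, hs.squarefree⟩
      · rw [Nat.coprime_comm, Nat.Prime.coprime_iff_not_dvd hs]
        exact fun h => hsM s hs (h.trans hmM) rfl
    · rw [haux.2 h3, mul_one]
      exact hmsq
  refine hLL (m * s) s A T hsq hmres hRes haux (fun _ => dvd_mul_left s m) hsp ?_ ?_ ?_ ?_ ?_ ?_
    q hqT ?_
  · exact fun h => hsM s ((hA s).mp h).1.1.1 (((hA s).mp h).1.1.2.trans hmM) rfl
  · exact fun h => hsM s ((hT s).mp h).1.1.1 (((hT s).mp h).1.1.2.trans hmM) rfl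
  · intro ℓ hℓ hd
    rw [hA, hT]
    rcases hℓ.dvd_mul.mp hd with hd | hd
    · by_cases h1 : ℓ = p
      · exact Or.inr (Or.inr (Or.inr h1))
      · by_cases h2 : (resZ W hΔ p).IsUnramifiedAt ℓ
        · exact Or.inr (Or.inl ⟨⟨⟨hℓ, hd⟩, h1⟩, h2⟩)
        · exact Or.inl ⟨⟨⟨hℓ, hd⟩, h1⟩, h2⟩
    · by_cases h3 : p = 3
      · exact Or.inr (Or.inr (Or.inl ((Nat.prime_dvd_prime_iff_eq hℓ (haux.1 h3).1).mp hd)))
      · rw [haux.2 h3] at hd
        exact absurd (Nat.dvd_one.mp hd) hℓ.ne_one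
  · exact fun ℓ h => ((hA ℓ).mp h).1.1.2.mul_right s
  · exact fun ℓ h => ⟨((hT ℓ).mp h).1.1.2.mul_right s, ((hT ℓ).mp h).1.2⟩
  · intro hpm
    have hpm' : p ∣ m := by
      rcases hp.out.dvd_mul.mp hpm with hd | hd
      · exact hd
      · exfalso
        by_cases h3 : p = 3
        · exact hsp ((Nat.prime_dvd_prime_iff_eq hp.out (haux.1 h3).1).mp hd).symm
        · rw [haux.2 h3] at hd
          exact hp.out.ne_one (Nat.dvd_one.mp hd)
    rw [hdivs p hpm']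
    exact hmin _ ((Nat.div_dvd_of_dvd hpm').trans hmM) (sqf_div hmsq hp.out hpm').2.2.2
  · rw [hdivs q hqm]
    exact hmin _ ((Nat.div_dvd_of_dvd hqm).trans hmM) (sqf_div hmsq hq hqm).2.2.2

/-- **S38** (verbatim) from the scalar case. -/
theorem S38_of_noLL
    (hLL : ∀ (p : ℕ) [Fact p.Prime], p ≠ 2 → ∀ (W : WeierstrassCurve ℤ) (hΔ : W.Δ ≠ 0),
      W.IsSemistableModel → W.ModRepIsIrreducible p → NoLL W hΔ p)
    (p : ℕ) [Fact p.Prime] (hp2 : p ≠ 2) (W : WeierstrassCurve ℤ) (hΔ : W.Δ ≠ 0)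
    (hW : W.IsSemistableModel)
    (hcard₁ : Nat.card (Submodule.torsionBy ℤ
      ((W.map (Int.castRingHom ℚ))⁄(AlgebraicClosure ℚ)).Point p) = p ^ 2)
    (hker : GaloisFactorsThroughFiniteLevel
      (WeierstrassCurve.Affine.Point.galoisRepModuleEnd (K := AlgebraicClosure ℚ) ℚ
        (W.map (Int.castRingHom ℚ)) p))
    (hirr : W.ModRepIsIrreducible p) (M q : ℕ) (hq : q.Prime) (hqp : q ≠ p)
    (hqM : q ∣ M) (_hq2 : ¬ q ^ 2 ∣ M) (hM : Squarefree M)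
    (hunr : ((W.map (Int.castRingHom ℚ)).residualGaloisRepOf p hcard₁ hker).IsUnramifiedAt q)
    (hres : W.IsResiduallyModularOfLevel p M) :
    W.IsResiduallyModularOfLevel p (M / q) :=
  S38_of (hLL p hp2 W hΔ hW hirr) hp2 hW hirr hq hqp hqM hM hunr hres

end Fermat.Agent.H2C
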