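import Fermat.Agent.H2G3
import Fermat.Agent.H2PicChart
import Fermat.Agent.H74R4
/-!
# S25-E3: the Picard chart attached to a two-chart structure and noncommutative polynomials
-/
set_option autoImplicit false
universe u v
open CategoryTheory AlgebraicGeometry CategoryTheory.Limits TopologicalSpace Opposite Polynomial
open NeronModelInfra AlgebraicGeometry.RelPicard
open scoped Matrix

noncomputable section

namespace Fermat.Agent.H2G2

open Fermat.Agent.H25 Fermat.Agent.H2Pic

variable {k : Type u} [Field k]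

/-- affine schemes over `k` are spectra of `k`-algebras -/
lemma exists_alg {A : Type u} [CommRing A]
    (t : Spec (CommRingCat.of A) ⟶ Spec (CommRingCat.of k)) :
    ∃ _ : Algebra k A, t = spm k A := by
  obtain ⟨ψ, rfl⟩ := Spec.map_surjective t
  exact ⟨ψ.hom.toAlgebra, rfl⟩

/-- morphisms of affine schemes over `k` are given by homomorphisms of `k`-algebras -/
lemma exists_spa {A A' : Type u} [CommRing A] [Algebra k A] [CommRing A'] [Algebra k A']
    (h : SchemeHomOver (spm k A') (spm k A)) : ∃ φ : A →ₐ[k] A', h = spa φ := by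
  obtain ⟨h, hh⟩ := h
  obtain ⟨ψ, rfl⟩ := Spec.map_surjective h
  have h1 : CommRingCat.ofHom (algebraMap k A) ≫ ψ = CommRingCat.ofHom (algebraMap k A') := by
    apply Spec.map_injective
    rw [Spec.map_comp]
    exact hh
  exact ⟨{ ψ.hom with commutes' := fun a => congr($h1 a) }, Subtype.ext rfl⟩

variable {C : Scheme.{u}} {c : C ⟶ Spec (CommRingCat.of k)}
  {ε : SchemeHomOver (𝟙 (Spec (CommRingCat.of k))) c}
  {τ : TwoChart c} {hε : ε.1 ⁻¹ᵁ τ.U = ⊤} {p : Fin τ.n → FreeAlgebra k (τ.B0 × ℕ)}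

section

variable {U : RigidifiedLineBundle c ε (spm k (H45.ChartRing (τ.chartData hε p)))}
  (hU : Rep τ hε p U (H45.ChartRing.upt (τ.chartData hε p)))

include hU

lemma rep_univ {A : Type u} [CommRing A] [Algebra k A]
    (φ : H45.ChartRing (τ.chartData hε p) →ₐ[k] A) :
    Rep τ hε p (U.pullbackAlong (spa φ)) ((H45.ChartRing.upt (τ.chartData hε p)).map φ) :=
  rep_pullback hU φ

lemma exists_hom_iff {A : Type u} [CommRing A] [Algebra k A]
    (M : RigidifiedLineBundle c ε (spm k A)) :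
    (∃ h : SchemeHomOver (spm k A) (spm k (H45.ChartRing (τ.chartData hε p))),
      Nonempty ((U.pullbackAlong h).L ≅ M.L)) ↔
    ∃ x : H45.ChartPt (τ.chartData hε p) A, Rep τ hε p M x := by
  constructor
  · rintro ⟨h, hh⟩
    obtain ⟨φ, rfl⟩ := exists_spa h
    exact ⟨_, (rep_univ hU φ).of_iso hh⟩
  · rintro ⟨x, hx⟩
    refine ⟨spa (H45.ChartRing.lift x), ?_⟩
    have h1 := rep_univ hU (H45.ChartRing.lift x)
    rw [H45.ChartRing.map_lift_upt] at h1
    exact h1.iso hx

lemma monoAff : MonoAff U := by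
  intro A t h h' H
  obtain ⟨_, rfl⟩ := exists_alg (A := A) t
  obtain ⟨φ, rfl⟩ := exists_spa h
  obtain ⟨φ', rfl⟩ := exists_spa h'
  have h1 := (rep_univ hU φ).of_iso H
  have h2 := rep_unique h1 (rep_univ hU φ')
  have h3 := H45.ChartRing.eq_lift_of_map_upt h2
  have h4 := H45.ChartRing.eq_lift_of_map_upt (φ := φ') rfl
  rw [h3.trans h4.symm]

lemma keyAff : KeyAff U := by
  intro A t M K _ φ h H
  obtain ⟨_, rfl⟩ := exists_alg (A := A) t
  let algK : Algebra k K := (φ.hom.comp (algebraMap k A)).toAlgebra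
  let φK : A →ₐ[k] K := { φ.hom with commutes' := fun a => rfl }
  have e1 : Spec.map φ ≫ spm k A = spm k K := by
    rw [← Spec.map_comp]; rfl
  have H' : ∃ h : SchemeHomOver (spm k K) (spm k (H45.ChartRing (τ.chartData hε p))),
      Nonempty ((U.pullbackAlong h).L ≅ (M.pullbackAlong (spa φK)).L) := by
    have h2 : Cl' U M h.1 (Spec.map φ) := (cl_iff (t' := Spec.map φ ≫ spm k A) h
      ⟨Spec.map φ, rfl⟩).mp H
    have w : h.1 ≫ spm k (H45.ChartRing (τ.chartData hε p)) = spm k K := h.2.trans e1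
    exact ⟨⟨h.1, w⟩, (cl_iff (t' := spm k K) ⟨h.1, w⟩ (spa φK)).mpr h2⟩
  obtain ⟨xK, hx⟩ := (exists_hom_iff hU _).mp H'
  obtain ⟨f, hf, Hf⟩ := exists_open_rep φK hx
  refine ⟨f, hf, ?_⟩
  obtain ⟨x, hx⟩ := Hf (Localization.Away f) (IsScalarTower.toAlgHom k A (Localization.Away f))
    (IsLocalization.Away.algebraMap_isUnit f)
  obtain ⟨h', H2⟩ := (exists_hom_iff hU _).mpr ⟨x, hx⟩
  have e2 : Spec.map (CommRingCat.ofHom (algebraMap A (Localization.Away f))) ≫ spm k A =
      spm k (Localization.Away f) := by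
    rw [← Spec.map_comp, ← CommRingCat.ofHom_comp]
  have h3 : Cl' U M h'.1 (Spec.map (CommRingCat.ofHom (algebraMap A (Localization.Away f)))) :=
    (cl_iff (t' := spm k (Localization.Away f)) h'
      (spa (IsScalarTower.toAlgHom k A (Localization.Away f)))).mp H2
  exact ⟨⟨h'.1, h'.2.trans e2.symm⟩, (cl_iff _ _).mpr h3⟩

end

variable [IsAlgClosed k] [IsIntegral C] [SmoothOfRelativeDimension 1 c]

variable (τ hε p) in
/-- **S25-E3**: the Picard chart attached to `p`. -/
theorem exists_chart (hinj : RigInj c ε) (hn : 0 < τ.n) :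
    ∃ 𝒞 : PicChart c ε, IsAffine 𝒞.X ∧ LocallyOfFinitePresentation 𝒞.x ∧
      ∀ (A : Type u) [CommRing A] [Algebra k A] (M : RigidifiedLineBundle c ε (spm k A)),
        𝒞.locus (spm k A) M = ⊤ ↔ ∃ x : H45.ChartPt (τ.chartData hε p) A, Rep τ hε p M x := by
  obtain ⟨U, hU⟩ := H74.R4.exists_rep' τ hε p hn (H45.ChartRing.upt (τ.chartData hε p))
  refine ⟨mkPicChart hinj U (monoAff hU) (keyAff hU), ?_, ?_, ?_⟩
  · exact inferInstanceAs (IsAffine (Spec _))
  · have : Algebra.FiniteType k τ.B0 := H51Curve.strHom_finiteType c τ.affU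
    have h1 : Algebra.FiniteType k (H45.ChartRing (τ.chartData hε p)) :=
      H45.ChartRing.finiteType
    have h2 : Algebra.FinitePresentation k (H45.ChartRing (τ.chartData hε p)) :=
      Algebra.FinitePresentation.of_finiteType.mp h1
    have h3 : LocallyOfFinitePresentation (spm k (H45.ChartRing (τ.chartData hε p))) :=
      (HasRingHomProperty.Spec_iff (P := @LocallyOfFinitePresentation)).mpr
        (RingHom.finitePresentation_algebraMap.mpr h2)
    exact h3
  · intro A _ _ M
    rw [← exists_hom_iff hU]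
    let 𝒞 := mkPicChart hinj U (monoAff hU) (keyAff hU)
    have h1 := 𝒞.locus_spec (spm k A) M (spm k A) ⟨𝟙 _, Category.id_comp _⟩
    have h2 : Set.range (𝟙 (Spec (CommRingCat.of A)) : _ ⟶ _).base = Set.univ := by
      exact Set.range_eq_univ.mpr fun x => ⟨x, rfl⟩
    have h3 : (Set.univ ⊆ (𝒞.locus (spm k A) M : Set (Spec (CommRingCat.of A)))) ↔
        𝒞.locus (spm k A) M = ⊤ := by
      rw [Set.univ_subset_iff]
      exact ⟨fun h => Opens.ext h, fun h => by rw [h]; rfl⟩
    rw [← h3, ← h2, ← h1]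
    constructor
    · rintro ⟨h, H⟩
      exact ⟨h, iso_trans H (H25.pullbackAlong_id M)⟩
    · rintro ⟨h, H⟩
      exact ⟨h, iso_trans H (iso_symm (H25.pullbackAlong_id M))⟩

end Fermat.Agent.H2G2
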