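import Fermat.Agent.H2Base
import Fermat.Agent.H25Fin3
import Fermat.Agent.H20Deg4
import Fermat.Agent.H20Rig
import Fermat.Agent.H94TwoChart
/-!
# S25: assembly of all the inputs, except the existence of twisting classes
-/
set_option autoImplicit false
universe u v
open CategoryTheory AlgebraicGeometry CategoryTheory.Limits TopologicalSpace Opposite Polynomial
open NeronModelInfra AlgebraicGeometry.RelPicard

noncomputable section

namespace Fermat.Agent.H2G2

open Fermat.Agent.H25 Fermat.Agent.H21T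

variable {k : Type u} [Field k] [IsAlgClosed k] {C : Scheme.{u}}
  (c : C ⟶ Spec (CommRingCat.of k)) [IsIntegral C] [SmoothOfRelativeDimension 1 c] [IsProper c]
  (ε : SchemeHomOver (𝟙 (Spec (CommRingCat.of k))) c)

/-- the statement of S25-K3 -/
def HasTwists {c : C ⟶ Spec (CommRingCat.of k)} (τ : TwoChart c) : Prop :=
  ∃ (J : Type u) (ν : J → SPic C),
    (∀ j, ∃ e : ℤ, ∀ (K : Type u) [Field K]
      (z : Spec (CommRingCat.of K) ⟶ Spec (CommRingCat.of k)) (α : SPic (pullback c z)),
        chiP τ z (α * bcl z (ν j)) = chiP τ z α + e) ∧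
    ∀ (K : Type u) [Field K] (z : Spec (CommRingCat.of K) ⟶ Spec (CommRingCat.of k))
      (α β : SPic (pullback c z)), chiP τ z α = chiP τ z β →
      ∃ j, AcycP τ z (α * bcl z (ν j)) ∧ AcycP τ z (β * bcl z (ν j))

lemma exists_twoChart_sec : ∃ τ : TwoChart c, 0 < τ.n ∧ ε.1 ⁻¹ᵁ τ.U = ⊤ := by
  let x : Spec (CommRingCat.of k) := IsLocalRing.closedPoint k
  have hcl : IsClosed {ε.1 x} := by
    have h1 : IsClosedImmersion ε.1 := by
      have h2 : IsClosedImmersion (ε.1 ≫ c) := by rw [ε.2]; infer_instance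
      exact IsClosedImmersion.of_comp ε.1 c
    have h3 : IsClosed (Set.range ε.1) := ε.1.isClosedEmbedding.isClosed_range
    have h4 : Set.range ε.1 = {ε.1 x} := by
      ext y
      constructor
      · rintro ⟨w, rfl⟩
        have : w = x := Subsingleton.elim _ _
        rw [this]; rfl
      · rintro rfl
        exact ⟨x, rfl⟩
    rwa [h4] at h3
  obtain ⟨τ, hn, hτ⟩ := Fermat.Agent.H94.TC.exists_twoChart k c (ε.1 x) hcl
  refine ⟨τ, hn, ?_⟩
  rw [eq_top_iff]
  intro w _
  have : w = x := Subsingleton.elim _ _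
  rw [this]
  exact hτ

/-- all the inputs of the final assembly -/
theorem nonempty_finData (h : ∀ τ : TwoChart c, 0 < τ.n → ε.1 ⁻¹ᵁ τ.U = ⊤ → HasTwists τ) :
    Nonempty (FinData c ε) := by
  obtain ⟨τ, hn, hε⟩ := exists_twoChart_sec c ε
  have hinj : RigInj c ε := H20R.rigInj c ε
  obtain ⟨I, ch, h1, h2, h3⟩ := exists_baseCharts hinj τ hε hn
  obtain ⟨J, ν, hdeg, hrr⟩ := h τ hn hε
  obtain ⟨Y, y, hy1, hy2, F, -, hF⟩ := H20T.exists_surj_family (c := c) τ
  refine ⟨
    { τ := τ
      inj := hinj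
      I := I
      ch := ch
      aff := fun i => (h1 i).1
      fp := fun i => (h1 i).2
      ac := ?_
      ex := ?_
      J := J
      ν := ν
      deg := hdeg
      rr := hrr
      Y := Y
      y := y
      Y_proper := hy1
      Y_int := hy2
      F := F
      surj := hF }⟩
  · intro i K _ z M hM
    obtain ⟨_, rfl⟩ := exists_alg z
    exact (H25.acyc_iff τ M).mp (h2 i K M hM)
  · intro K _ z M M' hM hM'
    obtain ⟨_, rfl⟩ := exists_alg z
    exact h3 K M M' ((H25.acyc_iff τ M).mpr hM) ((H25.acyc_iff τ M').mpr hM')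

/-- S25 from the existence of twisting classes -/
theorem s25_of_twists (h : ∀ τ : TwoChart c, 0 < τ.n → ε.1 ⁻¹ᵁ τ.U = ⊤ → HasTwists τ) :
    ∃ D : GoodReductionJacobian.RelativePic0Designation k c,
      Nonempty (RepresentsRelSubPic c ε (algEquivZeroCut c ε) D) ∧
        Smooth D.toBase ∧ IsProper D.toBase ∧ GeometricallyConnected D.toBase :=
  exists_representsRelSubPic (nonempty_finData c ε h).some

end Fermat.Agent.H2G2
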