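import Fermat.Agent.H25Act
/-!
# S25-G1a: acyclic lattices with action and matrix data (pure algebra)

* `LatRep L x u`: identification of `L` with the standard lattice attached to the chart point `x`
* `exists_chartPt`: acyclic `L` with bijective coordinate map gives a chart point
* `PreRep.isCompl`, `PreRep.kap_eq`, `PreRep.kap_bijective`: the converse
* `PreRep.unique`: uniqueness of the chart point
-/
set_option autoImplicit false
universe u v
open Polynomial Matrix

noncomputable section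

namespace Fermat.Agent.H2Lat

open Fermat.Agent.H25 Fermat.Agent.H45 Fermat.Agent.H10.Lat

section

variable {k B : Type u} [Field k] [CommRing B] [Algebra k B] {n : ℕ} {D : ChartData k B n}
  {A : Type u} [CommRing A] [Algebra k A]
  {M : Type v} [AddCommGroup M] [Module A M] [Module k M] [IsScalarTower k A M]
  (L : ActLat D.t D.F D.e A M)

/-- constant vectors -/
abbrev cst (v : Fin n → A) : Fin n → A[X] := fun i => C (v i)

/-- identification of `L` with the standard lattice attached to `(ρ, lm)` -/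
structure PreRep (ρ : B →ₐ[k] Matrix (Fin n) (Fin n) A[X]) (lm : Fin n → A) (u : Aˣ) where
  ρ_t : ρ D.t = Matrix.diagonal fun _ => X
  θ0 : (Fin n → A[X]) ≃ₗ[A] L.P
  θ1 : (Fin n → A[X]) ≃ₗ[A] L.Q
  act : ∀ (b : B) (v : Fin n → A[X]), (θ0 (ρ b *ᵥ v) : M) = L.act b (θ0 v)
  θ1_X : ∀ v : Fin n → A[X], (θ1 ((X : A[X]) • v) : M) = L.τ.symm (θ1 v)
  θ01 : ∀ v : Fin n → A, (θ1 (cst v) : M) = L.τ.symm (θ0 (cst v))
  lam : ∀ v : Fin n → A, L.lam (θ0 (cst v)) = u * ∑ i, lm i * v i

/-- identification of `L` with the standard lattice attached to the chart point `x` -/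
abbrev LatRep (x : ChartPt D A) (u : Aˣ) := PreRep L x.ρ x.lam u

lemma act_τ (b : B) (x : M) : L.act b (L.τ x) = L.τ (L.act b x) := by
  rw [← L.act_t, ← L.act_t, ← Module.End.mul_apply, ← Module.End.mul_apply, ← map_mul, ← map_mul,
    mul_comm]

lemma act_τ_symm (b : B) (x : M) : L.act b (L.τ.symm x) = L.τ.symm (L.act b x) := by
  apply L.τ.injective
  rw [← act_τ, LinearEquiv.apply_symm_apply, LinearEquiv.apply_symm_apply]

lemma act_τ_pow (b : B) (m : ℕ) (x : M) : L.act b ((L.τ ^ m) x) = (L.τ ^ m) (L.act b x) := by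
  induction m generalizing x with
  | zero => simp
  | succ m ih => rw [pow_succ_apply', pow_succ_apply', act_τ, ih]

section Conv

variable {L} {ρ : B →ₐ[k] Matrix (Fin n) (Fin n) A[X]} {lm : Fin n → A} {u : Aˣ}
  (r : PreRep L ρ lm u)

namespace PreRep

include r in
lemma θ0_X (v : Fin n → A[X]) : (r.θ0 ((X : A[X]) • v) : M) = L.τ (r.θ0 v) := by
  have h1 : (X : A[X]) • v = ρ D.t *ᵥ v := by
    rw [r.ρ_t]
    funext i
    rw [Matrix.mulVec_diagonal]
    rfl
  rw [h1, r.act, L.act_t]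

lemma θ0_X_pow (m : ℕ) (v : Fin n → A[X]) :
    (r.θ0 ((X : A[X]) ^ m • v) : M) = (L.τ ^ m) (r.θ0 v) := by
  induction m generalizing v with
  | zero => simp
  | succ m ih =>
    rw [pow_succ', mul_smul, r.θ0_X, ih, pow_succ_apply']

lemma θ1_X_pow (m : ℕ) (v : Fin n → A[X]) :
    (r.θ1 ((X : A[X]) ^ m • v) : M) = (L.τ.symm ^ m) (r.θ1 v) := by
  induction m generalizing v with
  | zero => simp
  | succ m ih =>
    rw [pow_succ', mul_smul, r.θ1_X, ih, symm_pow_succ_apply']

/-- decomposition of a vector of polynomials -/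
lemma vec_eq_sum (v : Fin n → A[X]) {N : ℕ} (hN : ∀ i, (v i).natDegree < N) :
    v = ∑ j ∈ Finset.range N, (X : A[X]) ^ j • cst (fun i => (v i).coeff j) := by
  funext i
  rw [Finset.sum_apply]
  conv_lhs => rw [(v i).as_sum_range' N (hN i)]
  refine Finset.sum_congr rfl fun j _ => ?_
  rw [Pi.smul_apply, smul_eq_mul, X_pow_mul, C_mul_X_pow_eq_monomial]

lemma exists_deg_lt (v : Fin n → A[X]) : ∃ N, ∀ i, (v i).natDegree < N :=
  ⟨Finset.univ.sup (fun i => (v i).natDegree) + 1, fun i => Nat.lt_succ_of_le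
    (Finset.le_sup (f := fun i => (v i).natDegree) (Finset.mem_univ i))⟩

lemma θ0_eq_sum (v : Fin n → A[X]) {N : ℕ} (hN : ∀ i, (v i).natDegree < N) :
    (r.θ0 v : M) = ∑ j ∈ Finset.range N, (L.τ ^ j) (r.θ0 (cst fun i => (v i).coeff j) : M) := by
  conv_lhs => rw [vec_eq_sum v hN]
  rw [map_sum, Submodule.coe_sum]
  exact Finset.sum_congr rfl fun j _ => r.θ0_X_pow j _

lemma θ1_eq_sum (v : Fin n → A[X]) {N : ℕ} (hN : ∀ i, (v i).natDegree < N) :
    (r.θ1 v : M) = ∑ j ∈ Finset.range N,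
      (L.τ.symm ^ (j + 1)) (r.θ0 (cst fun i => (v i).coeff j) : M) := by
  conv_lhs => rw [vec_eq_sum v hN]
  rw [map_sum, Submodule.coe_sum]
  refine Finset.sum_congr rfl fun j _ => ?_
  rw [r.θ1_X_pow, r.θ01, symm_pow_succ_apply]

lemma mem_V (v : Fin n → A) : (r.θ0 (cst v) : M) ∈ L.V := by
  rw [mem_K]
  refine ⟨(r.θ0 (cst v)).2, ?_⟩
  rw [mem_QZ, Nat.cast_one, ← Nat.cast_one, ← symm_pow_eq, pow_one, ← r.θ01]
  exact (r.θ1 (cst v)).2

lemma zpow_mem_sup {w : M} (hw : w ∈ L.V) (z : ℤ) : (L.τ ^ z) w ∈ L.P ⊔ L.Q := by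
  by_cases hz : 0 ≤ z
  · exact Submodule.mem_sup_left (zpow_mem_P L.toP1Lat hz hw.1)
  · refine Submodule.mem_sup_right ?_
    have h1 : w ∈ QZ L.toP1Lat 1 := by
      have := hw.2
      rw [← QZ_natCast] at this
      exact_mod_cast this
    have h2 := zpow_mem_QZ L.toP1Lat (j := z) h1
    have h3 := QZ_mono L.toP1Lat (show z + 1 ≤ 0 by omega) h2
    rwa [QZ_zero] at h3

include r in
/-- The lattice is acyclic. -/
theorem isCompl : IsCompl L.P L.Q := by
  constructor
  · rw [Submodule.disjoint_def]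
    intro y hP hQ
    obtain ⟨f, hf⟩ := r.θ0.surjective ⟨y, hP⟩
    obtain ⟨g, hg⟩ := r.θ1.surjective ⟨y, hQ⟩
    obtain ⟨N, hN⟩ := exists_deg_lt g
    have h1 : (r.θ0 f : M) = r.θ1 g := by rw [hf, hg]
    have h2 : (r.θ0 ((X : A[X]) ^ N • f) : M) = r.θ0 (∑ j ∈ Finset.range N,
        (X : A[X]) ^ (N - 1 - j) • cst (fun i => (g i).coeff j)) := by
      rw [r.θ0_X_pow, h1, r.θ1_eq_sum g hN, map_sum, map_sum, Submodule.coe_sum]
      refine Finset.sum_congr rfl fun j hj => ?_
      rw [r.θ0_X_pow]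
      have hj' : j < N := Finset.mem_range.mp hj
      have h3 : N = (N - 1 - j) + (j + 1) := by omega
      conv_lhs => rw [h3]
      rw [pow_add_apply, pow_apply_symm_pow]
    have h3 := r.θ0.injective (Subtype.ext h2)
    have h4 : f = 0 := by
      funext i
      ext m
      have h5 := congrArg (fun q : A[X] => q.coeff (m + N)) (congrFun h3 i)
      simp only [Pi.smul_apply, smul_eq_mul, coeff_X_pow_mul, Finset.sum_apply,
        finsetSum_coeff] at h5
      rw [h5, Pi.zero_apply, coeff_zero]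
      refine Finset.sum_eq_zero fun j hj => ?_
      have hj' : j < N := Finset.mem_range.mp hj
      rw [X_pow_mul, coeff_C_mul_X_pow, if_neg (by omega)]
    have h5 : (⟨y, hP⟩ : L.P) = 0 := by rw [← hf, h4, map_zero]
    exact congrArg Subtype.val h5
  · rw [codisjoint_iff, eq_top_iff]
    intro y _
    obtain ⟨N, hN⟩ := L.exhaustP y
    obtain ⟨f, hf⟩ := r.θ0.surjective ⟨_, hN⟩
    obtain ⟨N', hN'⟩ := exists_deg_lt f
    have h1 : y = (L.τ.symm ^ N) (r.θ0 f : M) := by
      rw [hf, symm_pow_apply_pow]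
    rw [h1, r.θ0_eq_sum f hN', map_sum]
    refine Submodule.sum_mem _ fun j _ => ?_
    rw [symm_pow_eq, ← zpow_natCast, ← zpow_add_apply]
    exact zpow_mem_sup (r.mem_V _) _

/-- coefficients of the action -/
lemma act_θ0_cst (b : B) (v : Fin n → A) {N : ℕ} (hN : ∀ i j, (ρ b i j).natDegree < N) :
    L.act b (r.θ0 (cst v)) = ∑ j ∈ Finset.range N,
      (L.τ ^ j) (r.θ0 (cst (coeffMat (ρ b) j *ᵥ v)) : M) := by
  rw [← r.act, r.θ0_eq_sum (ρ b *ᵥ cst v) (N := N) (fun i => by
    have : (ρ b *ᵥ cst v) i = ∑ j, ρ b i j * C (v j) := rfl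
    rw [this]
    have h0 := hN i i
    have h1 : (∑ j, ρ b i j * C (v j)).natDegree ≤ N - 1 :=
      natDegree_sum_le_of_forall_le _ _ fun j _ =>
        (natDegree_mul_C_le _ _).trans (by have := hN i j; omega)
    omega)]
  refine Finset.sum_congr rfl fun j _ => ?_
  congr 4
  funext i
  change (∑ l, ρ b i l * C (v l)).coeff j = ∑ l, (ρ b i l).coeff j * v l
  rw [finsetSum_coeff]
  exact Finset.sum_congr rfl fun l _ => coeff_mul_C _ _ _

lemma mop_θ0 (b : B) (v : Fin n → A) (j : ℕ) :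
    L.mop r.isCompl b j ⟨r.θ0 (cst v), r.mem_V v⟩ =
      ⟨r.θ0 (cst (coeffMat (ρ b) j *ᵥ v)), r.mem_V _⟩ := by
  classical
  obtain ⟨N, hN⟩ : ∃ N, ∀ i j, (ρ b i j).natDegree < N := by
    refine ⟨Finset.univ.sup (fun ij : Fin n × Fin n => (ρ b ij.1 ij.2).natDegree) + 1,
      fun i j => Nat.lt_succ_of_le (Finset.le_sup
        (f := fun ij : Fin n × Fin n => (ρ b ij.1 ij.2).natDegree) (Finset.mem_univ (i, j)))⟩
  let g : ℕ →₀ L.V := Finsupp.onFinset (Finset.range N)
    (fun j => if j < N then ⟨r.θ0 (cst (coeffMat (ρ b) j *ᵥ v)), r.mem_V _⟩ else 0)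
    (fun j hj => by
      by_contra h
      rw [Finset.mem_range] at h
      exact hj (if_neg h))
  have hg : L.mops r.isCompl b ⟨r.θ0 (cst v), r.mem_V v⟩ = g := by
    apply L.mops_eq
    have h1 : (g.sum fun j w => (L.τ ^ j) (w : M)) = ∑ j ∈ Finset.range N,
        (L.τ ^ j) (g j : M) := by
      refine Finsupp.sum_of_support_subset _ Finsupp.support_onFinset_subset _ fun j _ => ?_
      simp
    rw [h1]
    change L.act b (r.θ0 (cst v)) = _
    rw [r.act_θ0_cst b v hN]
    refine Finset.sum_congr rfl fun j hj => ?_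
    have h2 : g j = ⟨r.θ0 (cst (coeffMat (ρ b) j *ᵥ v)), r.mem_V _⟩ :=
      if_pos (Finset.mem_range.mp hj)
    rw [h2]
  rw [L.mop_apply, hg]
  by_cases hj : j < N
  · exact if_pos hj
  · have h1 : g j = 0 := if_neg hj
    rw [h1]
    apply Subtype.ext
    have h2 : coeffMat (ρ b) j = 0 := by
      ext1 i l
      exact coeff_eq_zero_of_natDegree_lt ((hN i l).trans_le (not_lt.mp hj))
    have h3 : cst (0 : Fin n → A) = 0 := by funext i; simp [cst]
    rw [h2]
    change (0 : M) = ((r.θ0 (cst ((0 : Matrix (Fin n) (Fin n) A) *ᵥ v)) : L.P) : M)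
    rw [Matrix.zero_mulVec, h3, map_zero]
    rfl

lemma evV_θ0 (q : FreeAlgebra k (B × ℕ)) (v : Fin n → A) :
    L.evV r.isCompl q ⟨r.θ0 (cst v), r.mem_V v⟩ =
      ⟨r.θ0 (cst (evNC ρ q *ᵥ v)), r.mem_V _⟩ := by
  have hcst : ∀ (a : A) (v : Fin n → A), cst (a • v) = a • cst v := by
    intro a v
    funext i
    change C (a * v i) = a • C (v i)
    rw [C_mul, ← smul_eq_C_mul]
  have hcadd : ∀ (v w : Fin n → A), cst (v + w) = cst v + cst w := by
    intro v w
    funext i
    simp [cst]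
  induction q using FreeAlgebra.induction generalizing v with
  | grade0 a =>
    apply Subtype.ext
    rw [AlgHom.commutes, AlgHom.commutes]
    have h1 : algebraMap k (Matrix (Fin n) (Fin n) A) a *ᵥ v = algebraMap k A a • v := by
      rw [Matrix.algebraMap_eq_diagonal]
      funext i
      rw [Matrix.mulVec_diagonal]
      rfl
    rw [h1]
    change a • (r.θ0 (cst v) : M) = ((r.θ0 (cst (algebraMap k A a • v)) : L.P) : M)
    rw [hcst, map_smul]
    exact (algebraMap_smul A a ((r.θ0 (cst v) : L.P) : M)).symm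
  | grade1 y =>
    rw [L.evV_ι, r.mop_θ0]
    simp [evNC]
  | mul a b ha hb =>
    rw [map_mul, map_mul, Module.End.mul_apply, hb, ha, Matrix.mulVec_mulVec]
  | add a b ha hb =>
    rw [map_add, map_add, LinearMap.add_apply, ha, hb]
    apply Subtype.ext
    change (r.θ0 _ : M) + (r.θ0 _ : M) = r.θ0 _
    rw [Matrix.add_mulVec, hcadd, map_add]
    rfl

end PreRep

end Conv

section Conv2

variable {L} {x : ChartPt D A} {u : Aˣ} (r : LatRep L x u)

namespace PreRep

/-- the coordinate map -/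
theorem kap_eq (v : Fin n → A) :
    L.kap r.isCompl D.p ⟨r.θ0 (cst v), r.mem_V v⟩ = (u : A) • v := by
  funext i
  rw [L.kap_apply, r.evV_θ0, L.lamV_apply]
  have h1 := r.lam (evNC x.ρ (D.p i) *ᵥ v)
  refine h1.trans ?_
  rw [Pi.smul_apply, smul_eq_mul]
  congr 1
  have h2 : ∑ j, x.lam j * (evNC x.ρ (D.p i) *ᵥ v) j = x.lam ⬝ᵥ (evNC x.ρ (D.p i) *ᵥ v) := rfl
  rw [h2, Matrix.dotProduct_mulVec, x.lam_p, single_dotProduct, one_mul]

lemma exists_θ0_of_mem_V {w : M} (hw : w ∈ L.V) : ∃ v : Fin n → A, (r.θ0 (cst v) : M) = w := by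
  obtain ⟨f, hf⟩ := r.θ0.surjective ⟨w, hw.1⟩
  obtain ⟨g, hg⟩ := r.θ1.surjective ⟨L.τ.symm w, by
    have := (mem_Qm L.toP1Lat).mp hw.2
    rwa [pow_one] at this⟩
  obtain ⟨N, hN⟩ := exists_deg_lt g
  have h1 : (r.θ0 f : M) = L.τ (r.θ1 g) := by
    rw [hf, hg, LinearEquiv.apply_symm_apply]
  -- `τ^N w`
  have h2 : (r.θ0 ((X : A[X]) ^ N • f) : M) = r.θ0 (∑ j ∈ Finset.range N,
      (X : A[X]) ^ (N - j) • cst (fun i => (g i).coeff j)) := by
    rw [r.θ0_X_pow, h1, r.θ1_eq_sum g hN, map_sum, map_sum, map_sum, Submodule.coe_sum]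
    refine Finset.sum_congr rfl fun j hj => ?_
    rw [r.θ0_X_pow]
    have hj' : j < N := Finset.mem_range.mp hj
    have h3 : N = (N - j) + j := by omega
    rw [symm_pow_succ_apply', LinearEquiv.apply_symm_apply]
    conv_lhs => rw [h3]
    rw [pow_add_apply, pow_apply_symm_pow]
  have h3 := r.θ0.injective (Subtype.ext h2)
  refine ⟨fun i => (f i).coeff 0, ?_⟩
  have h4 : f = cst fun i => (f i).coeff 0 := by
    funext i
    ext m
    rcases Nat.eq_zero_or_pos m with rfl | hm
    · simp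
    · have h5 := congrArg (fun q : A[X] => q.coeff (m + N)) (congrFun h3 i)
      simp only [Pi.smul_apply, smul_eq_mul, coeff_X_pow_mul, Finset.sum_apply,
        finsetSum_coeff] at h5
      rw [h5, coeff_C, if_neg (by omega)]
      refine Finset.sum_eq_zero fun j hj => ?_
      have hj' : j < N := Finset.mem_range.mp hj
      rw [X_pow_mul, coeff_C_mul_X_pow, if_neg (by omega)]
  rw [← h4, hf]

theorem kap_bijective : Function.Bijective (L.kap r.isCompl D.p) := by
  constructor
  · rw [injective_iff_map_eq_zero]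
    rintro ⟨w, hw⟩ h
    obtain ⟨v, rfl⟩ := r.exists_θ0_of_mem_V hw
    rw [r.kap_eq] at h
    have h1 : v = 0 := by
      have := congrArg ((↑(u⁻¹) : A) • ·) h
      simpa [smul_smul] using this
    apply Subtype.ext
    subst h1
    have h3 : cst (0 : Fin n → A) = 0 := by funext i; simp [cst]
    change ((r.θ0 (cst 0) : L.P) : M) = 0
    rw [h3, map_zero]
    rfl
  · intro v
    refine ⟨⟨r.θ0 (cst ((↑(u⁻¹) : A) • v)), r.mem_V _⟩, ?_⟩
    rw [r.kap_eq, smul_smul, Units.mul_inv, one_smul]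

include r in
/-- the chart point is unique -/
theorem unique {x' : ChartPt D A} {u' : Aˣ} (r' : LatRep L x' u') : x = x' := by
  have hc0 : ∀ v : Fin n → A, (r.θ0 (cst v) : M) = r'.θ0 (cst ((↑(u'⁻¹ * u) : A) • v)) := by
    intro v
    have h1 := r.kap_eq v
    have h2 := r'.kap_eq ((↑(u'⁻¹ * u) : A) • v)
    have h3 : (u' : A) • ((↑(u'⁻¹ * u) : A) • v) = (u : A) • v := by
      rw [smul_smul, ← Units.val_mul, mul_inv_cancel_left]
    rw [h3, ← h1] at h2
    exact congrArg (fun z : L.V => (z : M)) (r.kap_bijective.1 h2).symm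
  have hc1 : ∀ f : Fin n → A[X], (r.θ0 f : M) = r'.θ0 (C (↑(u'⁻¹ * u) : A) • f) := by
    intro f
    obtain ⟨N, hN⟩ := exists_deg_lt f
    rw [r.θ0_eq_sum f hN, r'.θ0_eq_sum (C (↑(u'⁻¹ * u) : A) • f) (N := N) (fun i =>
      (natDegree_C_mul_le _ _).trans_lt (hN i))]
    refine Finset.sum_congr rfl fun j _ => ?_
    rw [hc0]
    congr 4
    funext i
    simp only [Pi.smul_apply, smul_eq_mul, coeff_C_mul]
  apply ChartPt.ext
  · apply AlgHom.ext
    intro b
    have h1 : ∀ v, x.ρ b *ᵥ v = x'.ρ b *ᵥ v := by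
      intro v
      have h2 : r'.θ0 (C (↑(u'⁻¹ * u) : A) • (x.ρ b *ᵥ v)) =
          r'.θ0 (C (↑(u'⁻¹ * u) : A) • (x'.ρ b *ᵥ v)) := by
        apply Subtype.ext
        rw [← hc1, r.act, hc1, ← r'.act, Matrix.mulVec_smul]
      have h3 := congrArg (C (↑(u'⁻¹ * u)⁻¹ : A) • ·) (r'.θ0.injective h2)
      simp only [smul_smul, ← C_mul, ← Units.val_mul, inv_mul_cancel, Units.val_one, C_1,
        one_smul] at h3
      exact h3
    exact Matrix.ext_of_mulVec_single fun l => h1 _
  · funext i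
    have h1 := r.lam (Pi.single i 1)
    have h2 := r'.lam ((↑(u'⁻¹ * u) : A) • Pi.single i 1)
    have h3 : r.θ0 (cst (Pi.single i 1)) = r'.θ0 (cst ((↑(u'⁻¹ * u) : A) • Pi.single i 1)) :=
      Subtype.ext (hc0 _)
    rw [h3, h2] at h1
    have h4 : ∑ j, x.lam j * (Pi.single i 1 : Fin n → A) j = x.lam i := by
      simp [Pi.single_apply]
    have h5 : ∑ j, x'.lam j * ((↑(u'⁻¹ * u) : A) • (Pi.single i 1 : Fin n → A)) j =
        (↑(u'⁻¹ * u) : A) * x'.lam i := by
      simp only [Pi.smul_apply, Pi.single_apply, smul_eq_mul, mul_ite, mul_one, mul_zero,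
        Finset.sum_ite_eq', Finset.mem_univ, if_true]
      ring
    rw [h4, h5, ← mul_assoc, ← Units.val_mul, mul_inv_cancel_left] at h1
    exact (u.isUnit.mul_left_cancel h1).symm

end PreRep

end Conv2

/-! ### existence -/

lemma eq_zero_of_sumP_mem_QZ (L : P1Lat A M) (hc : IsCompl L.P L.Q) {g : ℕ →₀ L.K 1} {m : ℕ}
    (h : (sumP L g : M) ∈ QZ L m) (j : ℕ) (hj : m ≤ j) : g j = 0 := by
  by_contra hne
  rw [sumP_eq_sumZ, mem_QZ, ← sumZ_mapDomain, mem_Q_iff_sumZ L hc] at h
  have hinj : Function.Injective (fun i : ℤ => -(m : ℤ) + i) := fun a b hab => by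
    simpa using hab
  have h1 := h (-(m : ℤ) + (j : ℤ)) (by
    rw [Finsupp.mem_support_iff, Finsupp.mapDomain_apply hinj,
      Finsupp.mapDomain_apply Nat.cast_injective]
    exact hne)
  omega

/-- vectors of polynomials and finitely supported families of vectors -/
def polyEquiv {W : Type*} [AddCommGroup W] [Module A W] (κ : W ≃ₗ[A] (Fin n → A)) :
    (Fin n → A[X]) ≃ₗ[A] (ℕ →₀ W) where
  toFun f := Finsupp.onFinset (Finset.univ.biUnion fun i => (f i).support)
    (fun j => κ.symm (fun i => (f i).coeff j)) (fun j hj => by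
      by_contra h
      apply hj
      have h1 : (fun i => (f i).coeff j) = 0 := by
        funext i
        by_contra h2
        exact h (Finset.mem_biUnion.mpr ⟨i, Finset.mem_univ _, mem_support_iff.mpr h2⟩)
      rw [h1, map_zero])
  map_add' f g := by
    ext j
    simp only [Finsupp.onFinset_apply, Finsupp.add_apply, ← map_add]
    congr 1
  map_smul' a f := by
    ext j
    simp only [Finsupp.onFinset_apply, Finsupp.smul_apply, ← map_smul, RingHom.id_apply]
    congr 1
  invFun g := fun i => ∑ j ∈ g.support, monomial j (κ (g j) i)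
  left_inv f := by
    classical
    funext i
    ext m
    rw [finsetSum_coeff]
    simp only [coeff_monomial, Finsupp.onFinset_apply, LinearEquiv.apply_symm_apply,
      Finset.sum_ite_eq']
    split_ifs with h
    · rfl
    · rw [Finsupp.mem_support_iff, not_not, Finsupp.onFinset_apply] at h
      have := congrFun (κ.symm.injective (h.trans (map_zero κ.symm).symm)) i
      exact this.symm
  right_inv g := by
    classical
    ext j
    rw [Finsupp.onFinset_apply, LinearEquiv.symm_apply_eq]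
    funext i
    rw [finsetSum_coeff]
    simp only [coeff_monomial, Finset.sum_ite_eq']
    split_ifs with h
    · rfl
    · rw [Finsupp.mem_support_iff, not_not] at h
      rw [h, map_zero]
      rfl

lemma polyEquiv_apply {W : Type*} [AddCommGroup W] [Module A W] (κ : W ≃ₗ[A] (Fin n → A))
    (f : Fin n → A[X]) (j : ℕ) : polyEquiv κ f j = κ.symm (fun i => (f i).coeff j) := rfl

lemma polyEquiv_X {W : Type*} [AddCommGroup W] [Module A W] (κ : W ≃ₗ[A] (Fin n → A))
    (f : Fin n → A[X]) : polyEquiv κ ((X : A[X]) • f) = (polyEquiv κ f).mapDomain (· + 1) := by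
  ext j
  rw [polyEquiv_apply]
  cases j with
  | zero =>
    rw [Finsupp.mapDomain_of_notMem_range]
    · have : (fun i => (((X : A[X]) • f) i).coeff 0) = 0 := by
        funext i; simp
      rw [this, map_zero]
    · rintro ⟨a, ha⟩
      simp at ha
  | succ j =>
    rw [Finsupp.mapDomain_apply (add_left_injective 1), polyEquiv_apply]
    congr 1
    funext i
    simp

lemma polyEquiv_cst {W : Type*} [AddCommGroup W] [Module A W] (κ : W ≃ₗ[A] (Fin n → A))
    (v : Fin n → A) : polyEquiv κ (cst v) = Finsupp.single 0 (κ.symm v) := by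
  ext j
  rw [polyEquiv_apply]
  by_cases hj : j = 0
  · subst hj
    simp
  · rw [Finsupp.single_eq_of_ne hj]
    have : (fun i => (cst v i).coeff j) = 0 := by
      funext i
      simp [cst, coeff_C, hj]
    rw [this, map_zero]


/-- two linear maps out of `A[X]^n` commuting with `X` -/
lemma ext_of_X {τ : M → M} {F1 F2 : (Fin n → A[X]) →ₗ[A] M}
    (h1 : ∀ f, F1 ((X : A[X]) • f) = τ (F1 f)) (h2 : ∀ f, F2 ((X : A[X]) • f) = τ (F2 f))
    (h : ∀ l, F1 (Pi.single l 1) = F2 (Pi.single l 1)) : F1 = F2 := by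
  have h3 : ∀ (m : ℕ) (f : Fin n → A[X]), F1 f = F2 f →
      F1 ((X : A[X]) ^ m • f) = F2 ((X : A[X]) ^ m • f) := by
    intro m
    induction m with
    | zero => intro f hf; simpa using hf
    | succ m ih =>
      intro f hf
      rw [pow_succ', mul_smul, h1, h2, ih f hf]
  have h4 : ∀ (q : A[X]) (f : Fin n → A[X]), F1 f = F2 f → F1 (q • f) = F2 (q • f) := by
    intro q f hf
    induction q using Polynomial.induction_on' with
    | add p q hp hq => rw [add_smul, map_add, map_add, hp, hq]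
    | monomial j a =>
      have : (monomial j a : A[X]) • f = a • ((X : A[X]) ^ j • f) := by
        rw [← C_mul_X_pow_eq_monomial, mul_smul]
        funext i
        simp only [Pi.smul_apply, smul_eq_mul, smul_eq_C_mul]
      rw [this, F1.map_smul a, F2.map_smul a, h3 j f hf]
  apply LinearMap.ext
  intro f
  have h5 : f = ∑ l, f l • (Pi.single l 1 : Fin n → A[X]) := by
    funext i
    simp [Finset.sum_apply, Pi.single_apply]
  rw [h5, map_sum, map_sum]
  exact Finset.sum_congr rfl fun l _ => h4 _ _ (h l)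

lemma cst_single (l : Fin n) : cst (Pi.single l 1 : Fin n → A) = Pi.single l 1 := by
  funext i
  by_cases h : i = l
  · subst h; simp [cst]
  · simp [cst, Pi.single_eq_of_ne h]

variable (hc : IsCompl L.P L.Q) (hk : Function.Bijective (L.kap hc D.p))

/-- the coordinate equivalence -/
def kapE : L.V ≃ₗ[A] (Fin n → A) := LinearEquiv.ofBijective (L.kap hc D.p) hk

/-- sections over the first chart -/
def th0 : (Fin n → A[X]) ≃ₗ[A] L.P :=
  (polyEquiv (kapE L hc hk)).trans (L.sumPEquiv hc)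

/-- sections over the second chart -/
def th1 : (Fin n → A[X]) ≃ₗ[A] L.Q :=
  (polyEquiv (kapE L hc hk)).trans (LinearEquiv.ofBijective (sumQ L.toP1Lat)
    (sumQ_bijective L.toP1Lat hc))

lemma coe_th0 (f : Fin n → A[X]) : (th0 L hc hk f : M) =
    (polyEquiv (kapE L hc hk) f).sum fun j w => (L.τ ^ j) (w : M) := by
  change (sumP L.toP1Lat _ : M) = _
  rw [coe_sumP]
  rfl

lemma coe_th1 (f : Fin n → A[X]) : (th1 L hc hk f : M) =
    (polyEquiv (kapE L hc hk) f).sum fun j w => (L.τ.symm ^ (j + 1)) (w : M) := by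
  change (sumQ L.toP1Lat _ : M) = _
  rw [coe_sumQ]
  rfl

lemma th0_X (f : Fin n → A[X]) : (th0 L hc hk ((X : A[X]) • f) : M) = L.τ (th0 L hc hk f) := by
  rw [coe_th0, coe_th0, polyEquiv_X, Finsupp.sum_mapDomain_index (by simp) (by simp),
    Finsupp.sum, Finsupp.sum, map_sum]
  exact Finset.sum_congr rfl fun j _ => pow_succ_apply' L.toP1Lat _ _

lemma th1_X (f : Fin n → A[X]) :
    (th1 L hc hk ((X : A[X]) • f) : M) = L.τ.symm (th1 L hc hk f) := by
  rw [coe_th1, coe_th1, polyEquiv_X, Finsupp.sum_mapDomain_index (by simp) (by simp),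
    Finsupp.sum, Finsupp.sum, map_sum]
  exact Finset.sum_congr rfl fun j _ => symm_pow_succ_apply' L.toP1Lat _ _

lemma th0_cst (v : Fin n → A) : (th0 L hc hk (cst v) : M) = (kapE L hc hk).symm v := by
  rw [coe_th0, polyEquiv_cst, Finsupp.sum_single_index (by simp)]
  simp

lemma th1_cst (v : Fin n → A) : (th1 L hc hk (cst v) : M) = L.τ.symm (th0 L hc hk (cst v)) := by
  rw [th0_cst, coe_th1, polyEquiv_cst, Finsupp.sum_single_index (by simp)]
  simp

/-- the matrix of the action of `b` -/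
def rhoM (b : B) : Matrix (Fin n) (Fin n) A[X] := Matrix.of fun i l =>
  (th0 L hc hk).symm ⟨L.act b (th0 L hc hk (Pi.single l 1)), L.act_P b _ (Subtype.prop _)⟩ i

lemma th0_rhoM (b : B) (f : Fin n → A[X]) :
    (th0 L hc hk (rhoM L hc hk b *ᵥ f) : M) = L.act b (th0 L hc hk f) := by
  let F1 : (Fin n → A[X]) →ₗ[A] M := L.P.subtype ∘ₗ (th0 L hc hk : (Fin n → A[X]) →ₗ[A] L.P) ∘ₗ
    ((Matrix.mulVecLin (rhoM L hc hk b)).restrictScalars A)
  let F2 : (Fin n → A[X]) →ₗ[A] M := L.act b ∘ₗ L.P.subtype ∘ₗ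
    (th0 L hc hk : (Fin n → A[X]) →ₗ[A] L.P)
  have h : F1 = F2 := by
    refine ext_of_X (τ := L.τ) ?_ ?_ ?_
    · intro f
      change (th0 L hc hk (rhoM L hc hk b *ᵥ ((X : A[X]) • f)) : M) =
        L.τ (th0 L hc hk (rhoM L hc hk b *ᵥ f))
      rw [Matrix.mulVec_smul, th0_X]
    · intro f
      change L.act b (th0 L hc hk ((X : A[X]) • f) : M) = L.τ (L.act b (th0 L hc hk f))
      rw [th0_X, act_τ]
    · intro l
      change (th0 L hc hk (rhoM L hc hk b *ᵥ (Pi.single l 1)) : M) =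
        L.act b (th0 L hc hk (Pi.single l 1))
      have h1 : rhoM L hc hk b *ᵥ (Pi.single l 1) = (th0 L hc hk).symm
          ⟨L.act b (th0 L hc hk (Pi.single l 1)), L.act_P b _ (Subtype.prop _)⟩ := by
        rw [Matrix.mulVec_single_one]
        rfl
      rw [h1, LinearEquiv.apply_symm_apply]
  exact congrArg (fun F : (Fin n → A[X]) →ₗ[A] M => F f) h

lemma mat_ext_th0 {P Q : Matrix (Fin n) (Fin n) A[X]}
    (h : ∀ f, (th0 L hc hk (P *ᵥ f) : M) = th0 L hc hk (Q *ᵥ f)) : P = Q :=
  Matrix.ext_of_mulVec_single fun _ => (th0 L hc hk).injective (Subtype.ext (h _))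

/-- the representation -/
def rhoA : B →ₐ[k] Matrix (Fin n) (Fin n) A[X] where
  toFun := rhoM L hc hk
  map_one' := mat_ext_th0 L hc hk fun f => by
    rw [th0_rhoM, map_one, Matrix.one_mulVec]; rfl
  map_mul' b b' := mat_ext_th0 L hc hk fun f => by
    rw [th0_rhoM, map_mul, ← Matrix.mulVec_mulVec, th0_rhoM, th0_rhoM]; rfl
  map_zero' := mat_ext_th0 L hc hk fun f => by
    rw [th0_rhoM, map_zero, Matrix.zero_mulVec, map_zero]; rfl
  map_add' b b' := mat_ext_th0 L hc hk fun f => by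
    rw [th0_rhoM, map_add, Matrix.add_mulVec, map_add, Submodule.coe_add, th0_rhoM, th0_rhoM]; rfl
  commutes' a := mat_ext_th0 L hc hk fun f => by
    rw [th0_rhoM, AlgHom.commutes]
    have h1 : algebraMap k (Matrix (Fin n) (Fin n) A[X]) a *ᵥ f = algebraMap k A a • f := by
      rw [Matrix.algebraMap_eq_diagonal]
      funext i
      rw [Matrix.mulVec_diagonal]
      change algebraMap k A[X] a * f i = algebraMap k A a • f i
      rw [smul_eq_C_mul]
      rfl
    rw [h1, map_smul]
    exact (algebraMap_smul A a _).symm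

lemma th0_rhoA (b : B) (f : Fin n → A[X]) :
    (th0 L hc hk (rhoA L hc hk b *ᵥ f) : M) = L.act b (th0 L hc hk f) := th0_rhoM L hc hk b f

/-- the covector -/
def lamA (i : Fin n) : A := L.lam (th0 L hc hk (Pi.single i 1))

lemma lam_cst (v : Fin n → A) :
    L.lam (th0 L hc hk (cst v)) = ∑ i, lamA L hc hk i * v i := by
  have h1 : cst v = ∑ i, v i • (Pi.single i 1 : Fin n → A[X]) := by
    funext j
    simp [Finset.sum_apply, Pi.single_apply, cst, smul_eq_C_mul]
  rw [h1, map_sum, map_sum]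
  refine Finset.sum_congr rfl fun i _ => ?_
  rw [map_smul, map_smul, smul_eq_mul, mul_comm]
  rfl

lemma lam_τ (y : L.P) : L.lam ⟨L.τ y, L.τ_mem y y.2⟩ = algebraMap k A (D.e D.t) * L.lam y := by
  rw [← L.lam_act]
  congr 1
  exact Subtype.ext (L.act_t y).symm

lemma lam_eval (f : Fin n → A[X]) :
    L.lam (th0 L hc hk f) = ∑ i, lamA L hc hk i * (f i).eval (algebraMap k A (D.e D.t)) := by
  -- both sides are linear maps commuting with `X`
  let F1 : (Fin n → A[X]) →ₗ[A] A := L.lam ∘ₗ (th0 L hc hk : (Fin n → A[X]) →ₗ[A] L.P)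
  let F2 : (Fin n → A[X]) →ₗ[A] A :=
    { toFun := fun f => ∑ i, lamA L hc hk i * (f i).eval (algebraMap k A (D.e D.t))
      map_add' := fun f g => by
        rw [← Finset.sum_add_distrib]
        exact Finset.sum_congr rfl fun i _ => by rw [Pi.add_apply, eval_add, mul_add]
      map_smul' := fun a f => by
        rw [RingHom.id_apply, smul_eq_mul, Finset.mul_sum]
        refine Finset.sum_congr rfl fun i _ => ?_
        rw [Pi.smul_apply, eval_smul, smul_eq_mul]
        ring }
  have hsc : IsScalarTower k A A := inferInstance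
  have h : F1 = F2 := by
    refine ext_of_X (τ := fun a => algebraMap k A (D.e D.t) * a) ?_ ?_ ?_
    · intro f
      change L.lam (th0 L hc hk ((X : A[X]) • f)) = _ * L.lam (th0 L hc hk f)
      rw [← lam_τ]
      congr 1
      exact Subtype.ext (th0_X L hc hk f)
    · intro f
      change ∑ i, lamA L hc hk i * (((X : A[X]) • f) i).eval (algebraMap k A (D.e D.t)) =
        _ * ∑ i, lamA L hc hk i * (f i).eval (algebraMap k A (D.e D.t))
      rw [Finset.mul_sum]
      refine Finset.sum_congr rfl fun i _ => ?_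
      rw [Pi.smul_apply, smul_eq_mul, eval_mul, eval_X]
      ring
    · intro l
      change lamA L hc hk l = ∑ i, lamA L hc hk i * ((Pi.single l 1 : Fin n → A[X]) i).eval _
      rw [Finset.sum_eq_single l]
      · simp
      · intro i _ hi
        rw [Pi.single_eq_of_ne hi, eval_zero, mul_zero]
      · simp
  exact congrArg (fun F : (Fin n → A[X]) →ₗ[A] A => F f) h

lemma natDegree_rhoA {m : ℕ} {b : B} (hb : b ∈ D.F m) (i l : Fin n) :
    (rhoA L hc hk b i l).natDegree ≤ m := by
  -- `act b w ∈ τ^(m+1) Q`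
  have hw : (th0 L hc hk (Pi.single l 1) : M) ∈ L.toP1Lat.Qm 1 := by
    rw [← cst_single, th0_cst]
    exact ((kapE L hc hk).symm (Pi.single l 1)).2.2
  rw [mem_Qm, pow_one] at hw
  have h1 := L.act_Q m b hb _ hw
  have h2 : L.act b (th0 L hc hk (Pi.single l 1)) ∈ QZ L.toP1Lat ((m + 1 : ℕ) : ℤ) := by
    rw [← QZ_natCast] at h1
    have h3 := zpow_mem_QZ L.toP1Lat (j := 1) h1
    rw [zpow_one, ← act_τ, LinearEquiv.apply_symm_apply] at h3
    convert h3 using 2
    push_cast; ring
  let f : Fin n → A[X] := fun i => rhoA L hc hk b i l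
  have hf : f = (th0 L hc hk).symm ⟨L.act b (th0 L hc hk (Pi.single l 1)),
    L.act_P b _ (Subtype.prop _)⟩ := rfl
  have h3 : (sumP L.toP1Lat (polyEquiv (kapE L hc hk) f) : M) ∈ QZ L.toP1Lat ((m + 1 : ℕ) : ℤ) := by
    have : (sumP L.toP1Lat (polyEquiv (kapE L hc hk) f) : M) = th0 L hc hk f := rfl
    rw [this, hf, LinearEquiv.apply_symm_apply]
    exact h2
  rw [natDegree_le_iff_coeff_eq_zero]
  intro j hj
  have h4 := eq_zero_of_sumP_mem_QZ L.toP1Lat hc h3 j hj
  rw [polyEquiv_apply] at h4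
  have h5 := (kapE L hc hk).symm.injective (h4.trans (map_zero _).symm)
  exact congrFun h5 i

lemma rhoA_t : rhoA L hc hk D.t = Matrix.diagonal fun _ => X := by
  refine mat_ext_th0 L hc hk fun f => ?_
  rw [th0_rhoA, L.act_t, ← th0_X]
  congr 3
  funext i
  rw [Matrix.mulVec_diagonal]
  rfl

/-- the identification without the normalisation -/
def preRep : PreRep L (rhoA L hc hk) (lamA L hc hk) 1 where
  ρ_t := rhoA_t L hc hk
  θ0 := th0 L hc hk
  θ1 := th1 L hc hk
  act := th0_rhoA L hc hk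
  θ1_X := th1_X L hc hk
  θ01 := th1_cst L hc hk
  lam v := by rw [lam_cst, Units.val_one, one_mul]

/-- the chart point -/
def ptA : ChartPt D A where
  ρ := rhoA L hc hk
  lam := lamA L hc hk
  ρ_t := rhoA_t L hc hk
  ρ_deg m b hb i l := natDegree_rhoA L hc hk hb i l
  lam_p i := by
    funext l
    have h1 : L.kap hc D.p ((kapE L hc hk).symm (Pi.single l 1)) = Pi.single l 1 :=
      (kapE L hc hk).apply_symm_apply _
    have h2 := congrFun h1 i
    have h3 : (kapE L hc hk).symm (Pi.single l 1) =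
        ⟨(preRep L hc hk).θ0 (cst (Pi.single l 1)), (preRep L hc hk).mem_V _⟩ :=
      Subtype.ext (th0_cst L hc hk _).symm
    rw [L.kap_apply, h3, (preRep L hc hk).evV_θ0, L.lamV_apply] at h2
    have h4 := (preRep L hc hk).lam (evNC (rhoA L hc hk) (D.p i) *ᵥ (Pi.single l 1))
    rw [Units.val_one, one_mul] at h4
    have h5 := h4.symm.trans h2
    have h6 : Matrix.vecMul (lamA L hc hk) (evNC (rhoA L hc hk) (D.p i)) l =
        ∑ j, lamA L hc hk j * (evNC (rhoA L hc hk) (D.p i) *ᵥ (Pi.single l 1)) j := by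
      rw [Matrix.mulVec_single_one]
      rfl
    rw [h6, h5]
    simp only [Pi.single_apply, eq_comm]
  lam_e b := by
    funext l
    have h1 := lam_eval L hc hk (rhoA L hc hk b *ᵥ (Pi.single l 1))
    have h2 : L.lam (th0 L hc hk (rhoA L hc hk b *ᵥ (Pi.single l 1))) =
        algebraMap k A (D.e b) * L.lam (th0 L hc hk (Pi.single l 1)) := by
      rw [← L.lam_act]
      congr 1
      exact Subtype.ext (th0_rhoA L hc hk b _)
    rw [h2, Matrix.mulVec_single_one] at h1
    exact h1.symm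

include hc hk in
/-- **S25-G1a (1)**: an acyclic lattice with bijective coordinate map comes from a chart point -/
theorem exists_chartPt : ∃ x : ChartPt D A, Nonempty (LatRep L x 1) :=
  ⟨ptA L hc hk, ⟨preRep L hc hk⟩⟩

end

end Fermat.Agent.H2Lat
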