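import Fermat.Agent.H25Act
import Fermat.Agent.H10_P1LatBC
import Fermat.Agent.H10_P1LatOpen

/-!
# S25-G1b: base change of lattices with an action (pure algebra)
-/

set_option autoImplicit false
set_option linter.style.haveILetI false

universe u v

noncomputable section

namespace Fermat.Agent.H25

open Fermat.Agent.H10.Lat

/-- A lattice with action over `A'` is the base change of one over `A` along `β : M → M'`. -/
structure ActBC {k B : Type u} [Field k] [CommRing B] [Algebra k B] {t : B}
    {F : ℕ → Submodule k B} {e : B →ₐ[k] k} {A : Type u} [CommRing A] [Algebra k A]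
    {M : Type v} [AddCommGroup M] [Module A M] [Module k M] [IsScalarTower k A M]
    {A' : Type u} [CommRing A'] [Algebra k A'] [Algebra A A']
    {M' : Type v} [AddCommGroup M'] [Module A' M'] [Module A M'] [IsScalarTower A A' M']
    [Module k M'] [IsScalarTower k A' M']
    (L : ActLat t F e A M) (L' : ActLat t F e A' M') (β : M →ₗ[A] M') : Prop
    extends toIsBC : L.toP1Lat.IsBC L'.toP1Lat β where
  act : ∀ b x, β (L.act b x) = L'.act b (β x)
  lam : ∀ x : L.P, L'.lam ⟨β x, memP x x.2⟩ = algebraMap A A' (L.lam x)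

namespace ActBC

variable {k B : Type u} [Field k] [CommRing B] [Algebra k B] {t : B}
    {F : ℕ → Submodule k B} {e : B →ₐ[k] k} {A : Type u} [CommRing A] [Algebra k A]
    {M : Type v} [AddCommGroup M] [Module A M] [Module k M] [IsScalarTower k A M]
    {A' : Type u} [CommRing A'] [Algebra k A'] [Algebra A A'] [IsScalarTower k A A']
    {M' : Type v} [AddCommGroup M'] [Module A' M'] [Module A M'] [IsScalarTower A A' M']
    [Module k M'] [IsScalarTower k A' M']
    {L : ActLat t F e A M} {L' : ActLat t F e A' M'} {β : M →ₗ[A] M'}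

omit [IsScalarTower k A A'] in
/-- acyclicity is stable under base change -/
theorem isCompl (h : ActBC L L' β) (hP : L.FinProjP) (hc : IsCompl L.P L.Q) :
    IsCompl L'.P L'.Q := IsBC_isCompl hP h.toIsBC hc

/-- the map `V → V'` -/
def bV (h : ActBC L L' β) : L.V →ₗ[A] L'.V :=
  resBC β (L.K 1) (L'.K 1) (fun _ hx => IsBC_mem_K h.toIsBC 1 hx)

omit [IsScalarTower k A A'] in
@[simp] lemma coe_bV (h : ActBC L L' β) (v : L.V) : (h.bV v : M') = β v := rfl

omit [IsScalarTower k A A'] in
lemma isBaseChange_bV (h : ActBC L L' β) (hP : L.FinProjP) (hQ : L.FinProjQ)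
    (hc : IsCompl L.P L.Q) : IsBaseChange A' h.bV :=
  IsBC_isBaseChange_K1 hP hQ h.toIsBC hc

omit [IsScalarTower k A A'] in
lemma mops_bV (h : ActBC L L' β) (hc : IsCompl L.P L.Q) (hc' : IsCompl L'.P L'.Q) (b : B)
    (v : L.V) : L'.mops hc' b (h.bV v) = (L.mops hc b v).mapRange h.bV (map_zero _) := by
  apply L'.mops_eq hc'
  rw [coe_bV, ← h.act, L.act_eq hc, Finsupp.sum_mapRange_index (fun _ => by simp), Finsupp.sum,
    Finsupp.sum, map_sum]
  refine Finset.sum_congr rfl fun j _ => ?_
  rw [IsBC_pow h.toIsBC]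
  rfl

omit [IsScalarTower k A A'] in
lemma mop_bV (h : ActBC L L' β) (hc : IsCompl L.P L.Q) (hc' : IsCompl L'.P L'.Q) (b : B) (j : ℕ)
    (v : L.V) : L'.mop hc' b j (h.bV v) = h.bV (L.mop hc b j v) := by
  rw [L'.mop_apply, mops_bV h hc hc', Finsupp.mapRange_apply]
  rfl

variable (A') in
include A' in
lemma map_smul_k (β : M →ₗ[A] M') (a : k) (x : M) : β (a • x) = a • β x := by
  rw [← IsScalarTower.algebraMap_smul A a x, map_smul, ← IsScalarTower.algebraMap_smul A' _ (β x),
    ← IsScalarTower.algebraMap_apply, IsScalarTower.algebraMap_smul]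

lemma evV_bV (h : ActBC L L' β) (hc : IsCompl L.P L.Q) (hc' : IsCompl L'.P L'.Q)
    (q : FreeAlgebra k (B × ℕ)) (v : L.V) :
    L'.evV hc' q (h.bV v) = h.bV (L.evV hc q v) := by
  induction q generalizing v with
  | grade0 r =>
    rw [AlgHom.commutes, AlgHom.commutes, Module.algebraMap_end_apply,
      Module.algebraMap_end_apply]
    exact Subtype.ext (map_smul_k A' β r v).symm
  | grade1 x => rw [ActLat.evV_ι, ActLat.evV_ι, mop_bV h hc hc']
  | mul a b ha hb =>
    rw [map_mul, map_mul, Module.End.mul_apply, Module.End.mul_apply, hb, ha]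
  | add a b ha hb =>
    rw [map_add, map_add, LinearMap.add_apply, LinearMap.add_apply, hb, ha, map_add]

omit [IsScalarTower k A A'] in
lemma lamV_bV (h : ActBC L L' β) (v : L.V) :
    L'.lamV (h.bV v) = algebraMap A A' (L.lamV v) := by
  rw [ActLat.lamV_apply, ActLat.lamV_apply]
  exact h.lam ⟨v, v.2.1⟩

lemma kap_bV (h : ActBC L L' β) (hc : IsCompl L.P L.Q) (hc' : IsCompl L'.P L'.Q) {n : ℕ}
    (p : Fin n → FreeAlgebra k (B × ℕ)) (v : L.V) (i : Fin n) :
    L'.kap hc' p (h.bV v) i = algebraMap A A' (L.kap hc p v i) := by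
  rw [ActLat.kap_apply, ActLat.kap_apply, evV_bV h hc hc', lamV_bV]

/-- `kap'` is the base change of `kap` -/
lemma kap_equiv (h : ActBC L L' β) (hP : L.FinProjP) (hQ : L.FinProjQ)
    (hc : IsCompl L.P L.Q) (hc' : IsCompl L'.P L'.Q) {n : ℕ}
    (p : Fin n → FreeAlgebra k (B × ℕ)) (z : TensorProduct A A' L.V) :
    L'.kap hc' p ((h.isBaseChange_bV hP hQ hc).equiv z) =
      (IsBaseChange.finitePow (Fin n) (IsBaseChange.linearMap A A')).equiv
        ((L.kap hc p).baseChange A' z) := by
  induction z with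
  | zero => simp
  | add x y hx hy => simp only [map_add, hx, hy]
  | tmul a x =>
    rw [LinearMap.baseChange_tmul, IsBaseChange.equiv_tmul, IsBaseChange.equiv_tmul, map_smul]
    congr 1
    funext i
    rw [kap_bV h hc hc']
    rfl

theorem kap_bijective_iff (h : ActBC L L' β) (hP : L.FinProjP) (hQ : L.FinProjQ)
    (hc : IsCompl L.P L.Q) (hc' : IsCompl L'.P L'.Q) {n : ℕ}
    (p : Fin n → FreeAlgebra k (B × ℕ)) :
    Function.Bijective (L'.kap hc' p) ↔ Function.Bijective ((L.kap hc p).baseChange A') := by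
  have h1 : (L'.kap hc' p) ∘ (h.isBaseChange_bV hP hQ hc).equiv =
      (IsBaseChange.finitePow (Fin n) (IsBaseChange.linearMap A A')).equiv ∘
        ((L.kap hc p).baseChange A') := funext (h.kap_equiv hP hQ hc hc' p)
  constructor
  · intro hb
    have h2 : Function.Bijective ((IsBaseChange.finitePow (Fin n)
      (IsBaseChange.linearMap A A')).equiv ∘ ((L.kap hc p).baseChange A')) := by
      rw [← h1]; exact hb.comp (LinearEquiv.bijective _)
    exact (Function.Bijective.of_comp_iff' (LinearEquiv.bijective _) _).mp h2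
  · intro hb
    have h2 : Function.Bijective ((L'.kap hc' p) ∘ (h.isBaseChange_bV hP hQ hc).equiv) := by
      rw [h1]; exact (LinearEquiv.bijective _).comp hb
    exact (Function.Bijective.of_comp_iff _ (LinearEquiv.bijective _)).mp h2

/-- (1) bijectivity of the coordinate map is stable under base change -/
theorem kap_bijective (h : ActBC L L' β) (hP : L.FinProjP) (hQ : L.FinProjQ)
    (hc : IsCompl L.P L.Q) (hc' : IsCompl L'.P L'.Q) {n : ℕ}
    {p : Fin n → FreeAlgebra k (B × ℕ)} (hk : Function.Bijective (L.kap hc p)) :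
    Function.Bijective (L'.kap hc' p) := by
  rw [h.kap_bijective_iff hP hQ hc hc']
  exact (LinearEquiv.baseChange A A' _ _ (LinearEquiv.ofBijective _ hk)).bijective

end ActBC

end Fermat.Agent.H25
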