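import Fermat.Agent.H2G1a
import Fermat.Agent.H51ActBC
/-!
# S25-G1c: base change of matrix data (pure algebra)
-/
set_option autoImplicit false
universe u v
open Polynomial Matrix

noncomputable section

namespace Fermat.Agent.H2Lat

open Fermat.Agent.H25 Fermat.Agent.H45 Fermat.Agent.H10.Lat

variable {k B : Type u} [Field k] [CommRing B] [Algebra k B] {n : ℕ} {D : ChartData k B n}
  {A : Type u} [CommRing A] [Algebra k A]
  {M : Type v} [AddCommGroup M] [Module A M] [Module k M] [IsScalarTower k A M]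
  {A' : Type u} [CommRing A'] [Algebra k A'] [Algebra A A'] [IsScalarTower k A A']
  {M' : Type v} [AddCommGroup M'] [Module A' M'] [Module A M'] [IsScalarTower A A' M']
  [Module k M'] [IsScalarTower k A' M']
  {L : ActLat D.t D.F D.e A M} {L' : ActLat D.t D.F D.e A' M'} {β : M →ₗ[A] M'}
  {x : ChartPt D A} {x' : ChartPt D A'} {u : Aˣ} {u' : A'ˣ}

/-- apply a ring homomorphism to a vector of polynomials -/
def mapV (φ : A →+* A') (f : Fin n → A[X]) : Fin n → A'[X] := fun i => (f i).map φ

lemma β_θ0_cst (h : ActBC L L' β) (r : LatRep L x u) (r' : LatRep L' x' 1) (v : Fin n → A) :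
    β (r.θ0 (cst v) : M) =
      r'.θ0 (cst fun i => algebraMap A A' u * algebraMap A A' (v i)) := by
  have h2 : L'.kap r'.isCompl D.p (h.bV ⟨r.θ0 (cst v), r.mem_V v⟩) =
      L'.kap r'.isCompl D.p ⟨r'.θ0 (cst fun i => algebraMap A A' u * algebraMap A A' (v i)),
        r'.mem_V _⟩ := by
    funext i
    rw [h.kap_bV r.isCompl r'.isCompl D.p, r.kap_eq, r'.kap_eq]
    simp
  have h3 := r'.kap_bijective.1 h2
  exact congrArg (fun z : L'.V => (z : M')) h3

lemma β_pow (h : ActBC L L' β) (m : ℕ) (y : M) : β ((L.τ ^ m) y) = (L'.τ ^ m) (β y) :=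
  IsBC_pow h.toIsBC m y

lemma β_θ0 (h : ActBC L L' β) (r : LatRep L x u) (r' : LatRep L' x' 1) (f : Fin n → A[X]) :
    β (r.θ0 f : M) =
      r'.θ0 (C (algebraMap A A' u) • mapV (algebraMap A A') f) := by
  obtain ⟨N, hN⟩ := PreRep.exists_deg_lt f
  rw [r.θ0_eq_sum f hN, r'.θ0_eq_sum (C (algebraMap A A' u) • mapV (algebraMap A A') f) (N := N)
    (fun i => ((natDegree_C_mul_le _ _).trans natDegree_map_le).trans_lt (hN i)), map_sum]
  refine Finset.sum_congr rfl fun j _ => ?_
  rw [β_pow h, β_θ0_cst h r r']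
  congr 4
  funext i
  simp only [Pi.smul_apply, smul_eq_mul, coeff_C_mul, mapV, coeff_map]

/-- **base change of matrix data** -/
theorem map_unique (h : ActBC L L' β) (φ : A →ₐ[k] A') (hA : algebraMap A A' = φ.toRingHom)
    (r : LatRep L x u) (r' : LatRep L' x' 1) : x' = x.map φ := by
  have hu : IsUnit (algebraMap A A' (u : A)) := u.isUnit.map _
  obtain ⟨w, hw⟩ := hu
  have hcan : ∀ a b : Fin n → A'[X], C (w : A') • a = C (w : A') • b → a = b := by
    intro a b hab
    have h3 := congrArg (C (↑w⁻¹ : A') • ·) hab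
    simpa only [smul_smul, ← C_mul, Units.inv_mul, C_1, one_smul] using h3
  apply ChartPt.ext
  · apply AlgHom.ext
    intro b
    refine Matrix.ext_of_mulVec_single fun l => ?_
    apply hcan
    apply r'.θ0.injective
    apply Subtype.ext
    have h1 := β_θ0 h r r' (x.ρ b *ᵥ Pi.single l 1)
    rw [r.act, h.act, β_θ0 h r r', ← r'.act] at h1
    have h2 : mapV (algebraMap A A') (Pi.single l 1 : Fin n → A[X]) = Pi.single l 1 := by
      funext i
      by_cases hi : i = l
      · subst hi; simp [mapV]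
      · simp [mapV, Pi.single_eq_of_ne hi]
    have h3 : mapV (algebraMap A A') (x.ρ b *ᵥ Pi.single l 1) =
        (x.map φ).ρ b *ᵥ Pi.single l 1 := by
      funext i
      rw [Matrix.mulVec_single_one, Matrix.mulVec_single_one, hA]
      rfl
    rw [h2, h3, ← hw, Matrix.mulVec_smul] at h1
    exact h1
  · funext i
    have h1 := β_θ0_cst h r r' (Pi.single i 1)
    have h2 := h.lam (r.θ0 (cst (Pi.single i 1)))
    rw [r.lam] at h2
    have h3 : (⟨β (r.θ0 (cst (Pi.single i 1)) : M), h.memP _ (r.θ0 (cst (Pi.single i 1))).2⟩ :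
        L'.P) = r'.θ0 (cst fun j => algebraMap A A' u *
          algebraMap A A' ((Pi.single i 1 : Fin n → A) j)) := Subtype.ext h1
    rw [h3, r'.lam] at h2
    have h4 : ∑ j, x.lam j * (Pi.single i 1 : Fin n → A) j = x.lam i := by
      simp [Pi.single_apply]
    have h5 : ∑ j, x'.lam j * (algebraMap A A' u * algebraMap A A' ((Pi.single i 1 : Fin n → A) j))
        = algebraMap A A' u * x'.lam i := by
      rw [Finset.sum_eq_single i]
      · simp [mul_comm]
      · intro j _ hj
        simp [Pi.single_eq_of_ne hj]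
      · intro hi; exact absurd (Finset.mem_univ i) hi
    rw [h4, h5, Units.val_one, one_mul, map_mul, ← hw] at h2
    rw [ChartPt.map_lam]
    have h6 := w.isUnit.mul_left_cancel h2
    rw [h6, hA]
    rfl

end Fermat.Agent.H2Lat
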