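import Fermat.Agent.H2PicS1
/-!
# S25: base change formalism for rigidified line bundles
* `isPullback_baseChangeSnd`
* `rig_of_rigInj`: the setting `Rig` of `H2PicS1` for `pullback c t ⟶ T`
* `pullbackAlong_comp`, `pullbackAlong_id`, `pullbackAlong_eq`
* `exists_iso_of_cover` (S1): rigidified line bundles on `C_T` that are isomorphic over an open
  cover of `T` are isomorphic.
-/
set_option autoImplicit false
universe u v
open CategoryTheory AlgebraicGeometry CategoryTheory.Limits TopologicalSpace Opposite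
  NeronModelInfra AlgebraicGeometry.RelPicard

noncomputable section

namespace Fermat.Agent.H2Pic

open Fermat.Agent.H25

section R

variable {R : Type u} [CommRing R] {C : Scheme.{u}} {c : C ⟶ Spec (CommRingCat.of R)}
  {ε : SchemeHomOver (𝟙 (Spec (CommRingCat.of R))) c}
variable {T T' T'' : Scheme.{u}} {t : T ⟶ Spec (CommRingCat.of R)}
  {t' : T' ⟶ Spec (CommRingCat.of R)} {t'' : T'' ⟶ Spec (CommRingCat.of R)}

lemma baseChangeSnd_snd (s : SchemeHomOver t' t) :
    baseChangeSnd c s ≫ pullback.snd c t = pullback.snd c t' ≫ s.1 := pullback.lift_snd _ _ _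

lemma baseChangeSnd_fst (s : SchemeHomOver t' t) :
    baseChangeSnd c s ≫ pullback.fst c t = pullback.fst c t' :=
  (pullback.lift_fst _ _ _).trans (Category.comp_id _)

lemma rigSection_snd : rigSection c t ε ≫ pullback.snd c t = 𝟙 T := pullback.lift_snd _ _ _

lemma rigSection_fst : rigSection c t ε ≫ pullback.fst c t = t ≫ ε.1 := pullback.lift_fst _ _ _

lemma isPullback_baseChangeSnd (s : SchemeHomOver t' t) :
    IsPullback (baseChangeSnd c s) (pullback.snd c t') (pullback.snd c t) s.1 := by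
  refine IsPullback.of_right (h₁₂ := pullback.fst c t) (v₁₃ := c) (h₂₂ := t) ?_
    (baseChangeSnd_snd s) (IsPullback.of_hasPullback c t)
  rw [baseChangeSnd_fst, s.2]
  exact IsPullback.of_hasPullback c t'

instance (s : SchemeHomOver t' t) [IsOpenImmersion s.1] : IsOpenImmersion (baseChangeSnd c s) :=
  MorphismProperty.of_isPullback (P := @IsOpenImmersion) (isPullback_baseChangeSnd s).flip
    inferInstance

lemma opensRange_baseChangeSnd (s : SchemeHomOver t' t) [IsOpenImmersion s.1] :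
    (baseChangeSnd c s).opensRange = (pullback.snd c t) ⁻¹ᵁ s.1.opensRange := by
  ext x
  constructor
  · rintro ⟨y, rfl⟩
    refine ⟨pullback.snd c t' y, ?_⟩
    have := congr($(baseChangeSnd_snd (c := c) s) y)
    exact this.symm
  · rintro ⟨y, hy⟩
    obtain ⟨p, hp, -⟩ := Scheme.exists_preimage_of_isPullback (isPullback_baseChangeSnd (c := c) s)
      x y hy.symm
    exact ⟨p, hp⟩

lemma preimage_baseChangeSnd (s : SchemeHomOver t' t) (W : T.Opens) :
    baseChangeSnd c s ⁻¹ᵁ (pullback.snd c t ⁻¹ᵁ W) = pullback.snd c t' ⁻¹ᵁ (s.1 ⁻¹ᵁ W) := by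
  rw [← Scheme.Hom.comp_preimage, baseChangeSnd_snd, Scheme.Hom.comp_preimage]

/-- pullback of rigidified bundles along compositions -/
lemma pullbackAlong_comp (M : RigidifiedLineBundle c ε t) (ψ : SchemeHomOver t' t)
    (χ : SchemeHomOver t'' t') :
    Nonempty (((M.pullbackAlong ψ).pullbackAlong χ).L ≅ (M.pullbackAlong (postComp ψ χ)).L) :=
  ⟨(Scheme.Modules.pullbackComp _ _).app M.L ≪≫
      (Scheme.Modules.pullbackCongr (baseChangeSnd_comp c ψ χ)).app M.L⟩

lemma pullbackAlong_id (M : RigidifiedLineBundle c ε t) :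
    Nonempty ((M.pullbackAlong ⟨𝟙 T, Category.id_comp t⟩).L ≅ M.L) :=
  ⟨(Scheme.Modules.pullbackCongr (baseChangeSnd_id c t)).app M.L ≪≫
    (Scheme.Modules.pullbackId (pullback c t)).app M.L⟩

lemma pullbackAlong_eq (M : RigidifiedLineBundle c ε t) {ψ ψ' : SchemeHomOver t' t}
    (h : ψ.1 = ψ'.1) : Nonempty ((M.pullbackAlong ψ).L ≅ (M.pullbackAlong ψ').L) := by
  have : ψ = ψ' := Subtype.ext h
  subst this
  exact ⟨Iso.refl _⟩

/-- `M ~ M'`: notation for `Nonempty (M.L ≅ M'.L)` -/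
lemma iso_trans {A B D : (pullback c t).Modules} (h : Nonempty (A ≅ B)) (h' : Nonempty (B ≅ D)) :
    Nonempty (A ≅ D) := ⟨h.some ≪≫ h'.some⟩

lemma iso_symm {A B : (pullback c t).Modules} (h : Nonempty (A ≅ B)) : Nonempty (B ≅ A) :=
  ⟨h.some.symm⟩

end R

section k

variable {k : Type u} [Field k] {C : Scheme.{u}} {c : C ⟶ Spec (CommRingCat.of k)}
  {ε : SchemeHomOver (𝟙 (Spec (CommRingCat.of k))) c}
variable {T T' T'' : Scheme.{u}} {t : T ⟶ Spec (CommRingCat.of k)}
  {t' : T' ⟶ Spec (CommRingCat.of k)} {t'' : T'' ⟶ Spec (CommRingCat.of k)}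

lemma comp_app_apply {X Y Z : Scheme.{u}} (f : X ⟶ Y) (g : Y ⟶ Z) {V : Z.Opens} (a : Γ(Z, V)) :
    (f ≫ g).app V a = f.app (g ⁻¹ᵁ V) (g.app V a) := by
  have := Scheme.Hom.comp_app f g V
  exact congr($this a)

lemma app_congr {X Y : Scheme.{u}} {f g : X ⟶ Y} (h : f = g) {V : Y.Opens} (a : Γ(Y, V)) :
    f.app V a = resO (by rw [h]) (g.app V a) := by
  subst h
  exact (resO_self (X := X) le_rfl _).symm

lemma app_injective_of_le {X Y : Scheme.{u}} (j : X ⟶ Y) [IsOpenImmersion j] {V : Y.Opens}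
    (hV : V ≤ j.opensRange) : Function.Injective (j.app V) := by
  have : IsIso (j.app V) := Scheme.Hom.isIso_app j V hV
  exact (ConcreteCategory.bijective_of_isIso (j.app V)).1

theorem rig_of_rigInj (hinj : RigInj c ε) (t : T ⟶ Spec (CommRingCat.of k)) :
    Rig (rigSection c t ε) (pullback.snd c t) := by
  refine ⟨rigSection_snd, fun W ↦ ?_⟩
  rw [injective_iff_map_eq_zero]
  intro a ha
  let j : SchemeHomOver (W.ι ≫ t) t := ⟨W.ι, rfl⟩
  have hj : IsOpenImmersion j.1 := inferInstanceAs (IsOpenImmersion W.ι)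
  have hle : pullback.snd c t ⁻¹ᵁ W ≤ (baseChangeSnd c j).opensRange := by
    rw [opensRange_baseChangeSnd]
    exact ((pullback.snd c t).preimage_mono (by rw [Scheme.Opens.opensRange_ι]))
  apply app_injective_of_le (baseChangeSnd c j) hle
  rw [map_zero]
  have htop : baseChangeSnd c j ⁻¹ᵁ (pullback.snd c t ⁻¹ᵁ W) = ⊤ := by
    rw [preimage_baseChangeSnd]
    have : j.1 ⁻¹ᵁ W = ⊤ := Scheme.Opens.ι_preimage_self W
    rw [this]; rfl
  have h1 := hinj (W.ι ≫ t)
  rw [injective_iff_map_eq_zero] at h1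
  have h2 := h1 (resO htop.ge ((baseChangeSnd c j).app _ a)) (by
    change (rigSection c (W.ι ≫ t) ε).app ⊤ _ = 0
    have h3 : (rigSection c (W.ι ≫ t) ε ≫ baseChangeSnd c j).app (pullback.snd c t ⁻¹ᵁ W) a = 0 := by
      rw [app_congr (rigSection_baseChangeSnd c ε j), comp_app_apply, ha, map_zero]
      exact resO_zero _
    rw [comp_app_apply] at h3
    rw [app_resO, h3]
    exact resO_zero _)
  have h4 := congrArg (resO htop.le) h2
  rwa [resO_resO, resO_self, resO_zero] at h4

/-- **S1**: rigidified line bundles that are isomorphic on an open cover of `T` are isomorphic -/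
theorem exists_iso_of_cover (hinj : RigInj c ε) (M N : RigidifiedLineBundle c ε t)
    {ι : Type*} {Z : ι → Scheme.{u}} {z : ∀ i, Z i ⟶ Spec (CommRingCat.of k)}
    (j : ∀ i, SchemeHomOver (z i) t) [∀ i, IsOpenImmersion (j i).1]
    (hcov : ∀ y : T, ∃ i, y ∈ Set.range (j i).1)
    (h : ∀ i, Nonempty ((M.pullbackAlong (j i)).L ≅ (N.pullbackAlong (j i)).L)) :
    Nonempty (M.L ≅ N.L) := by
  have ρ : (Scheme.Modules.pullback (rigSection c t ε)).obj M.L ≅ uMod T := M.rigidified.some
  have σ : (Scheme.Modules.pullback (rigSection c t ε)).obj N.L ≅ uMod T := N.rigidified.some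
  have hφ : ∀ i, Nonempty (LIso (pullback.snd c t ⁻¹ᵁ (j i).1.opensRange) M.L N.L) := by
    intro i
    refine ⟨LIso.ofPull (baseChangeSnd c (j i)) ?_ (h i).some⟩
    rw [opensRange_baseChangeSnd]
  obtain ⟨Φ, -⟩ := (rig_of_rigInj hinj t).exists_iso M.isInvertible ρ.hom σ.hom
    (fun i ↦ (j i).1.opensRange) (by
      rw [eq_top_iff]
      intro y _
      obtain ⟨i, hi⟩ := hcov y
      exact Opens.mem_iSup.mpr ⟨i, hi⟩) (fun i ↦ (hφ i).some)
  exact ⟨Φ⟩

end k

end Fermat.Agent.H2Pic
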