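import Fermat.Agent.H2Lat
import Fermat.Agent.H2PicBase
import Fermat.Agent.H51Pb
/-!
# S25-E3 (part III a): the curve lattice of a rigidified line bundle

* `curveAlg τ ε heU : CurveAlg k`: the coordinate rings of a two-chart curve
* `tA k A : Spec A ⟶ Spec k`
* `ESec τ M`: the sections of `M` over the overlap, as an `A`-module
* `lat τ heU hn M ρ : CLat (curveAlg τ ε heU) A (ESec τ M)`
-/
set_option autoImplicit false
universe u v
open CategoryTheory AlgebraicGeometry CategoryTheory.Limits TopologicalSpace Opposite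
  NeronModelInfra AlgebraicGeometry.RelPicard

noncomputable section

namespace Fermat.Agent.H2Lat

open Fermat.Agent.H25 Fermat.Agent.H2Pic Fermat.Agent.H51Aff Fermat.Agent.H51Pb

lemma ev_add {Y T : Scheme.{u}} {M : Y.Modules} (e : T ⟶ Y)
    (ρ : (Scheme.Modules.pullback e).obj M ⟶ uMod T) {G : Y.Opens} (s s' : Γ(M, G)) :
    ev e ρ (s + s') = ev e ρ s + ev e ρ s' := by
  unfold ev
  rw [pb_add, map_add, uFun_add]

section ring

variable {A : Type u} [CommRing A]

/-- global functions on `Spec A` -/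
def glob (A : Type u) [CommRing A] {W : (Spec (CommRingCat.of A)).Opens} (h : W = ⊤) :
    Γ(Spec (CommRingCat.of A), W) →+* A :=
  (Scheme.ΓSpecIso (CommRingCat.of A)).hom.hom.comp (resOHom h.ge)

lemma strHom_apply {R : Type u} [CommRing R] {X : Scheme.{u}} (x : X ⟶ Spec (CommRingCat.of R))
    (U : X.Opens) (r : R) : strHom x U r =
      resO (le_top : U ≤ x ⁻¹ᵁ ⊤) (x.app ⊤ ((Scheme.ΓSpecIso (CommRingCat.of R)).inv r)) := rfl

lemma strHom_id (a : A) {W : (Spec (CommRingCat.of A)).Opens} (h : W = ⊤) :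
    glob A h (strHom (𝟙 (Spec (CommRingCat.of A))) W a) = a := by
  subst h
  rw [strHom_apply, Scheme.Hom.id_app]
  change (Scheme.ΓSpecIso (CommRingCat.of A)).hom
    (resO le_rfl (resO le_top ((Scheme.ΓSpecIso (CommRingCat.of A)).inv a))) = a
  rw [resO_self]
  have h2 : (resO le_top ((Scheme.ΓSpecIso (CommRingCat.of A)).inv a) :
    Γ(Spec (CommRingCat.of A), ⊤)) = (Scheme.ΓSpecIso (CommRingCat.of A)).inv a := resO_self _ _
  rw [h2]
  exact congr($((Scheme.ΓSpecIso (CommRingCat.of A)).inv_hom_id) a)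

end ring

variable {k : Type u} [Field k] {C : Scheme.{u}} {c : C ⟶ Spec (CommRingCat.of k)}

/-- evaluation of functions on the first chart at the base point -/
def evPt (τ : TwoChart c) (ε : SchemeHomOver (𝟙 (Spec (CommRingCat.of k))) c)
    (heU : ε.1 ⁻¹ᵁ τ.U = ⊤) : Γ(C, τ.U) →+* k :=
  (glob k heU).comp (ε.1.app τ.U).hom

lemma evPt_strHom (τ : TwoChart c) (ε : SchemeHomOver (𝟙 (Spec (CommRingCat.of k))) c)
    (heU : ε.1 ⁻¹ᵁ τ.U = ⊤) (a : k) : evPt τ ε heU (strHom c τ.U a) = a := by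
  change glob k heU (ε.1.app τ.U (strHom c τ.U a)) = a
  have w : ε.1 ≫ c = 𝟙 _ ≫ 𝟙 _ := by rw [Category.comp_id]; exact ε.2
  rw [app_strHom w]
  have h1 : (Spec.preimage (𝟙 (Spec (CommRingCat.of k)))).hom a = a := by
    have : Spec.preimage (𝟙 (Spec (CommRingCat.of k))) = 𝟙 _ := by
      apply Spec.map_injective
      rw [Spec.map_preimage, Spec.map_id]
    rw [this]; rfl
  rw [h1]
  exact strHom_id a heU


lemma res_F {τ : TwoChart c} : C.basicOpen τ.t = τ.U ⊓ τ.V := τ.basic_t

/-- the coordinate rings of a two-chart curve -/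
@[simps (isSimp := false) B0 B1 B01 a0 a1 a01 t s]
def curveAlg (τ : TwoChart c) (ε : SchemeHomOver (𝟙 (Spec (CommRingCat.of k))) c)
    (heU : ε.1 ⁻¹ᵁ τ.U = ⊤) : CurveAlg k where
  B0 := Γ(C, τ.U)
  B1 := Γ(C, τ.V)
  B01 := Γ(C, τ.U ⊓ τ.V)
  a0 := (strHom c τ.U).toAlgebra
  a1 := (strHom c τ.V).toAlgebra
  a01 := (strHom c (τ.U ⊓ τ.V)).toAlgebra
  i0 :=
    letI := (strHom c τ.U).toAlgebra
    letI := (strHom c (τ.U ⊓ τ.V)).toAlgebra
    { resOHom (inf_le_left : τ.U ⊓ τ.V ≤ τ.U) with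
      commutes' := fun a => resO_strHom _ a }
  i1 :=
    letI := (strHom c τ.V).toAlgebra
    letI := (strHom c (τ.U ⊓ τ.V)).toAlgebra
    { resOHom (inf_le_right : τ.U ⊓ τ.V ≤ τ.V) with
      commutes' := fun a => resO_strHom _ a }
  t := τ.t
  s := τ.s
  mul_eq_one := τ.mul_eq_one
  exh0 b := by
    obtain ⟨n, x, hx⟩ := resO_surj τ.affU τ.t τ.basic_t.symm inf_le_left b
    exact ⟨n, x, by rw [mul_comm]; exact hx⟩
  exh1 b := by
    obtain ⟨n, x, hx⟩ := resO_surj τ.affV τ.s τ.basic_s.symm inf_le_right b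
    exact ⟨n, x, by rw [mul_comm]; exact hx⟩
  e :=
    letI := (strHom c τ.U).toAlgebra
    { evPt τ ε heU with commutes' := fun a => evPt_strHom τ ε heU a }


/-! ### sections as modules over the base -/

section SecA

variable {A : Type u} [CommRing A] {Y : Scheme.{u}} (y : Y ⟶ Spec (CommRingCat.of A))
  (M : Y.Modules)

/-- sections of a module on a scheme over `Spec A`, as an `A`-module -/
def SecA {A : Type u} [CommRing A] {Y : Scheme.{u}} (_ : Y ⟶ Spec (CommRingCat.of A))
    (M : Y.Modules) (W : Y.Opens) : Type u := Γ(M, W)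

instance (W : Y.Opens) : AddCommGroup (SecA y M W) := inferInstanceAs (AddCommGroup Γ(M, W))

instance (W : Y.Opens) : Module Γ(Y, W) (SecA y M W) := inferInstanceAs (Module Γ(Y, W) Γ(M, W))

instance (W : Y.Opens) : Module A (SecA y M W) := Module.compHom Γ(M, W) (strHom y W)

lemma secA_smul {W : Y.Opens} (a : A) (x : SecA y M W) : a • x = strHom y W a • x := rfl

/-- restriction of sections, as an `A`-linear map -/
def resA {W W' : Y.Opens} (h : W' ≤ W) : SecA y M W →ₗ[A] SecA y M W' where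
  toFun x := res M h x
  map_add' x x' := res_add M h x x'
  map_smul' a x := by
    change res M h (strHom y W a • (show Γ(M, W) from x)) = strHom y W' a • res M h x
    rw [res_smul, resO_strHom]

@[simp] lemma resA_apply {W W' : Y.Opens} (h : W' ≤ W) (x : SecA y M W) :
    resA y M h x = res M h x := rfl

/-- multiplication by a function, as an `A`-linear map -/
def mulA (W : Y.Opens) : Γ(Y, W) →+* Module.End A (SecA y M W) where
  toFun f :=
    { toFun := fun x => f • x
      map_add' := fun x x' => smul_add f x x'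
      map_smul' := fun a x => by
        change f • (strHom y W a • x) = strHom y W a • (f • x)
        rw [smul_comm] }
  map_one' := by ext x; exact one_smul _ _
  map_mul' f g := by ext x; exact mul_smul f g x
  map_zero' := by ext x; exact zero_smul _ _
  map_add' f g := by ext x; exact add_smul f g x

@[simp] lemma mulA_apply {W : Y.Opens} (f : Γ(Y, W)) (x : SecA y M W) :
    mulA y M W f x = f • x := rfl

end SecA

/-- the structure morphism of `Spec A` for a `k`-algebra `A` -/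
abbrev tA (k A : Type u) [Field k] [CommRing A] [Algebra k A] :
    Spec (CommRingCat.of A) ⟶ Spec (CommRingCat.of k) :=
  Spec.map (CommRingCat.ofHom (algebraMap k A))

section lat

variable (τ : TwoChart c) {ε : SchemeHomOver (𝟙 (Spec (CommRingCat.of k))) c}
  (heU : ε.1 ⁻¹ᵁ τ.U = ⊤) {A : Type u} [CommRing A] [Algebra k A]

lemma isPB (A : Type u) [CommRing A] [Algebra k A] :
    IsPullback (pullback.fst c (tA k A)) (pullback.snd c (tA k A)) c (tA k A) :=
  IsPullback.of_hasPullback _ _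

lemma preimage_tA : (Spec.preimage (tA k A)).hom = algebraMap k A := by
  rw [Spec.preimage_map]
  rfl

/-- pullback of functions and structure maps -/
lemma fst_app_strHom {U : C.Opens} (a : k) :
    (pullback.fst c (tA k A)).app U (strHom c U a) =
      strHom (pullback.snd c (tA k A)) _ (algebraMap k A a) := by
  rw [app_strHom (isPB A).w, preimage_tA]

lemma rigSection_preimage {U : C.Opens} (hU : ε.1 ⁻¹ᵁ U = ⊤) :
    (rigSection c (tA k A) ε) ⁻¹ᵁ ((pullback.fst c (tA k A)) ⁻¹ᵁ U) = ⊤ := by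
  rw [← Scheme.Hom.comp_preimage, rigSection_fst, Scheme.Hom.comp_preimage, hU]
  rfl

/-- evaluation of functions along the section -/
def evF {U : C.Opens} (hU : ε.1 ⁻¹ᵁ U = ⊤) (A : Type u) [CommRing A] [Algebra k A] :
    Γ(pullback c (tA k A), (pullback.fst c (tA k A)) ⁻¹ᵁ U) →+* A :=
  (glob A (rigSection_preimage hU)).comp ((rigSection c (tA k A) ε).app _).hom

lemma evF_strHom {U : C.Opens} (hU : ε.1 ⁻¹ᵁ U = ⊤) (a : A) :
    evF hU A (strHom (pullback.snd c (tA k A)) _ a) = a := by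
  change glob A (rigSection_preimage hU)
    ((rigSection c (tA k A) ε).app _ (strHom (pullback.snd c (tA k A)) _ a)) = a
  have w : rigSection c (tA k A) ε ≫ pullback.snd c (tA k A) = 𝟙 _ ≫ 𝟙 _ := by
    rw [Category.comp_id]; exact rigSection_snd
  rw [app_strHom w]
  have h1 : (Spec.preimage (𝟙 (Spec (CommRingCat.of A)))).hom a = a := by
    have : Spec.preimage (𝟙 (Spec (CommRingCat.of A))) = 𝟙 _ := by
      apply Spec.map_injective
      rw [Spec.map_preimage, Spec.map_id]
    rw [this]; rfl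
  rw [h1]
  exact strHom_id a (rigSection_preimage hU)

/-- sections of `M` over the overlap, as an `A`-module -/
abbrev ESec (A : Type u) [CommRing A] [Algebra k A] (M : (pullback c (tA k A)).Modules) : Type u :=
  SecA (pullback.snd c (tA k A)) M ((pullback.fst c (tA k A)) ⁻¹ᵁ (τ.U ⊓ τ.V))


lemma evF_fst (b : Γ(C, τ.U)) :
    evF heU A ((pullback.fst c (tA k A)).app τ.U b) = algebraMap k A (evPt τ ε heU b) := by
  change glob A (rigSection_preimage heU) ((rigSection c (tA k A) ε).app _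
    ((pullback.fst c (tA k A)).app τ.U b)) = _
  rw [← comp_app_apply, app_congr rigSection_fst, comp_app_apply]
  change (Scheme.ΓSpecIso (CommRingCat.of A)).hom (resO _ (resO _ _)) = algebraMap k A
    ((Scheme.ΓSpecIso (CommRingCat.of k)).hom (resO heU.ge (ε.1.app τ.U b)))
  have h1 : ∀ (W : (Spec (CommRingCat.of k)).Opens) (hW : W = ⊤)
      (z : Γ(Spec (CommRingCat.of k), W)) (h2 : ⊤ ≤ (tA k A) ⁻¹ᵁ W),
      (Scheme.ΓSpecIso (CommRingCat.of A)).hom (resO h2 ((tA k A).app W z)) =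
        algebraMap k A ((Scheme.ΓSpecIso (CommRingCat.of k)).hom (resO hW.ge z)) := by
    intro W hW z h2
    subst hW
    have h3 : resO h2 ((tA k A).app ⊤ z) = (tA k A).appTop z := resO_self _ _
    have h4 : (resO (le_refl ⊤) z : Γ(Spec (CommRingCat.of k), ⊤)) = z := resO_self _ _
    rw [h3, h4]
    have h5 := Scheme.ΓSpecIso_naturality (CommRingCat.ofHom (algebraMap k A))
    exact congr($h5 z)
  exact (congrArg _ (resO_resO (X := Spec (CommRingCat.of A)) _ _ _)).trans (h1 _ heU _ _)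

variable (M : (pullback c (tA k A)).Modules)
  (ρ : (Scheme.Modules.pullback (rigSection c (tA k A) ε)).obj M ⟶ uMod (Spec (CommRingCat.of A)))

/-- evaluation of sections along the section, `A`-linear -/
def evS {U : C.Opens} (hU : ε.1 ⁻¹ᵁ U = ⊤) :
    SecA (pullback.snd c (tA k A)) M ((pullback.fst c (tA k A)) ⁻¹ᵁ U) →ₗ[A] A where
  toFun x := glob A (rigSection_preimage hU) (ev (rigSection c (tA k A) ε) ρ x)
  map_add' x x' := by
    have h1 := ev_add (rigSection c (tA k A) ε) ρ (G := (pullback.fst c (tA k A)) ⁻¹ᵁ U) x x'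
    exact (congrArg (glob A (rigSection_preimage hU)) h1).trans (map_add _ _ _)
  map_smul' a x := by
    have h1 := ev_smul (rigSection c (tA k A) ε) ρ (strHom (pullback.snd c (tA k A)) _ a)
      (show Γ(M, (pullback.fst c (tA k A)) ⁻¹ᵁ U) from x)
    refine (congrArg (glob A (rigSection_preimage hU)) h1).trans ((map_mul _ _ _).trans ?_)
    rw [RingHom.id_apply, smul_eq_mul]
    congr 1
    exact evF_strHom hU a

lemma evS_smul {U : C.Opens} (hU : ε.1 ⁻¹ᵁ U = ⊤)
    (f : Γ(pullback c (tA k A), (pullback.fst c (tA k A)) ⁻¹ᵁ U))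
    (x : SecA (pullback.snd c (tA k A)) M ((pullback.fst c (tA k A)) ⁻¹ᵁ U)) :
    evS M ρ hU (f • x) = evF hU A f * evS M ρ hU x := by
  have h1 := ev_smul (rigSection c (tA k A) ε) ρ f
      (show Γ(M, (pullback.fst c (tA k A)) ⁻¹ᵁ U) from x)
  exact (congrArg (glob A (rigSection_preimage hU)) h1).trans (map_mul _ _ _)


/-! ### injectivity of restriction -/

lemma isRegular_of_basis {R B : Type*} [CommRing R] [CommRing B] (i : R →+* B) (t : B) {n : ℕ}
    (b : Fin n → B)
    (hb : Function.Bijective (fun f : Fin n → Polynomial R => ∑ j, (f j).eval₂ i t * b j)) :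
    IsRegular t := by
  have h1 : ∀ x : B, t * x = 0 → x = 0 := by
    intro x hx
    obtain ⟨f, rfl⟩ := hb.2 x
    have h2 : (fun f : Fin n → Polynomial R => ∑ j, (f j).eval₂ i t * b j)
        (fun j => Polynomial.X * f j) = (fun f : Fin n → Polynomial R =>
          ∑ j, (f j).eval₂ i t * b j) 0 := by
      simp only [Pi.zero_apply, Polynomial.eval₂_zero, zero_mul, Finset.sum_const_zero,
        Polynomial.eval₂_mul, Polynomial.eval₂_X]
      rw [← hx]
      simp only
      rw [Finset.mul_sum]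
      exact Finset.sum_congr rfl fun j _ => by ring
    have h3 := hb.1 h2
    have h4 : f = 0 := by
      funext j
      have h5 := congrFun h3 j
      simp only [Pi.zero_apply] at h5
      exact Polynomial.isRegular_X.left (h5.trans (mul_zero _).symm)
    simp [h4]
  refine isRegular_iff_mem_nonZeroDivisors.mpr (mem_nonZeroDivisors_iff.mpr ⟨h1, fun x hx => ?_⟩)
  exact h1 x (by rw [mul_comm]; exact hx)

/-- the base change of the two-chart structure to `A` -/
abbrev tcA (A : Type u) [CommRing A] [Algebra k A] : TwoChart (pullback.snd c (tA k A)) :=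
  baseChange τ (tA k A)

lemma resA_injective_U (hM : Scheme.Modules.IsInvertible M) :
    Function.Injective (resA (pullback.snd c (tA k A)) M
      (inf_le_left : (tcA τ A).U ⊓ (tcA τ A).V ≤ (tcA τ A).U)) := by
  rw [injective_iff_map_eq_zero]
  intro x hx
  obtain ⟨n, hn⟩ := res_inj (tcA τ A).affU hM (tcA τ A).t (tcA τ A).basic_t.symm inf_le_left x hx
  have h1 := isRegular_of_basis _ (tcA τ A).t _ (tcA τ A).basisU
  have h2 : Module.Invertible Γ(pullback c (tA k A), (tcA τ A).U) Γ(M, (tcA τ A).U) :=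
    invertible (tcA τ A).affU hM
  have h3 := Module.Flat.isSMulRegular_of_isRegular (M := Γ(M, (tcA τ A).U)) (h1.pow n)
  exact h3 (hn.trans (smul_zero _).symm)

lemma resA_injective_V (hM : Scheme.Modules.IsInvertible M) :
    Function.Injective (resA (pullback.snd c (tA k A)) M
      (inf_le_right : (tcA τ A).U ⊓ (tcA τ A).V ≤ (tcA τ A).V)) := by
  rw [injective_iff_map_eq_zero]
  intro x hx
  obtain ⟨n, hn⟩ := res_inj (tcA τ A).affV hM (tcA τ A).s (tcA τ A).basic_s.symm inf_le_right x hx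
  have h1 := isRegular_of_basis _ (tcA τ A).s _ (tcA τ A).basisV
  have h2 : Module.Invertible Γ(pullback c (tA k A), (tcA τ A).V) Γ(M, (tcA τ A).V) :=
    invertible (tcA τ A).affV hM
  have h3 := Module.Flat.isSMulRegular_of_isRegular (M := Γ(M, (tcA τ A).V)) (h1.pow n)
  exact h3 (hn.trans (smul_zero _).symm)

lemma leU (A : Type u) [CommRing A] [Algebra k A] :
    (pullback.fst c (tA k A)) ⁻¹ᵁ (τ.U ⊓ τ.V) ≤ (pullback.fst c (tA k A)) ⁻¹ᵁ τ.U :=
  (pullback.fst c (tA k A)).preimage_mono inf_le_left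

lemma leV (A : Type u) [CommRing A] [Algebra k A] :
    (pullback.fst c (tA k A)) ⁻¹ᵁ (τ.U ⊓ τ.V) ≤ (pullback.fst c (tA k A)) ⁻¹ᵁ τ.V :=
  (pullback.fst c (tA k A)).preimage_mono inf_le_right

/-- restriction from the first chart to the overlap -/
abbrev r0 : SecA (pullback.snd c (tA k A)) M ((pullback.fst c (tA k A)) ⁻¹ᵁ τ.U) →ₗ[A]
    ESec τ A M :=
  resA (pullback.snd c (tA k A)) M (leU τ A)

/-- restriction from the second chart to the overlap -/
abbrev r1 : SecA (pullback.snd c (tA k A)) M ((pullback.fst c (tA k A)) ⁻¹ᵁ τ.V) →ₗ[A]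
    ESec τ A M :=
  resA (pullback.snd c (tA k A)) M (leV τ A)

lemma r0_injective (hM : Scheme.Modules.IsInvertible M) : Function.Injective (r0 τ M) :=
  resA_injective_U τ M hM

lemma r1_injective (hM : Scheme.Modules.IsInvertible M) : Function.Injective (r1 τ M) :=
  resA_injective_V τ M hM

lemma r0_smul (f : Γ(pullback c (tA k A), (pullback.fst c (tA k A)) ⁻¹ᵁ τ.U))
    (x : SecA (pullback.snd c (tA k A)) M ((pullback.fst c (tA k A)) ⁻¹ᵁ τ.U)) :
    r0 τ M (f • x) = resO (leU τ A) f • r0 τ M x :=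
  res_smul M (leU τ A) f
    (show Γ(M, (pullback.fst c (tA k A)) ⁻¹ᵁ τ.U) from x)

lemma r1_smul (f : Γ(pullback c (tA k A), (pullback.fst c (tA k A)) ⁻¹ᵁ τ.V))
    (x : SecA (pullback.snd c (tA k A)) M ((pullback.fst c (tA k A)) ⁻¹ᵁ τ.V)) :
    r1 τ M (f • x) = resO (leV τ A) f • r1 τ M x :=
  res_smul M (leV τ A) f
    (show Γ(M, (pullback.fst c (tA k A)) ⁻¹ᵁ τ.V) from x)

/-- the action of functions on `C` on sections over the overlap -/
def actE : Γ(C, τ.U ⊓ τ.V) →+* Module.End A (ESec τ A M) :=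
  (mulA (pullback.snd c (tA k A)) M ((pullback.fst c (tA k A)) ⁻¹ᵁ (τ.U ⊓ τ.V))).comp
    ((pullback.fst c (tA k A)).app (τ.U ⊓ τ.V)).hom

lemma actE_apply (b : Γ(C, τ.U ⊓ τ.V)) (x : ESec τ A M) :
    actE τ M b x = (pullback.fst c (tA k A)).app (τ.U ⊓ τ.V) b • x := rfl

lemma actE_r0 (b : Γ(C, τ.U))
    (y : SecA (pullback.snd c (tA k A)) M ((pullback.fst c (tA k A)) ⁻¹ᵁ τ.U)) :
    actE τ M (resO inf_le_left b) (r0 τ M y) =
      r0 τ M ((pullback.fst c (tA k A)).app τ.U b • y) := by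
  rw [r0_smul, actE_apply, app_resO]

lemma actE_r1 (b : Γ(C, τ.V))
    (y : SecA (pullback.snd c (tA k A)) M ((pullback.fst c (tA k A)) ⁻¹ᵁ τ.V)) :
    actE τ M (resO inf_le_right b) (r1 τ M y) =
      r1 τ M ((pullback.fst c (tA k A)).app τ.V b • y) := by
  rw [r1_smul, actE_apply, app_resO]

/-- the evaluation functional on `P = range r0` -/
def lamE (hM : Scheme.Modules.IsInvertible M) : LinearMap.range (r0 τ M) →ₗ[A] A :=
  (evS M ρ heU) ∘ₗ
    ((LinearEquiv.ofInjective (r0 τ M) (r0_injective τ M hM)).symm :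
      LinearMap.range (r0 τ M) →ₗ[A] _)

lemma lamE_r0 (hM : Scheme.Modules.IsInvertible M)
    (y : SecA (pullback.snd c (tA k A)) M ((pullback.fst c (tA k A)) ⁻¹ᵁ τ.U)) (hy) :
    lamE τ heU M ρ hM ⟨r0 τ M y, hy⟩ = evS M ρ heU y := by
  change evS M ρ heU ((LinearEquiv.ofInjective (r0 τ M) (r0_injective τ M hM)).symm _) = _
  congr 1
  rw [LinearEquiv.symm_apply_eq]
  rfl

lemma lamE_act (hM : Scheme.Modules.IsInvertible M) (b : Γ(C, τ.U))
    (x : LinearMap.range (r0 τ M)) (hx) :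
    lamE τ heU M ρ hM ⟨actE τ M (resO inf_le_left b) x, hx⟩ =
      algebraMap k A (evPt τ ε heU b) * lamE τ heU M ρ hM x := by
  obtain ⟨x, y, rfl⟩ := x
  have h1 : (⟨actE τ M (resO inf_le_left b) (r0 τ M y), hx⟩ : LinearMap.range (r0 τ M)) =
        ⟨r0 τ M ((pullback.fst c (tA k A)).app τ.U b • y), ⟨_, rfl⟩⟩ :=
      Subtype.ext (actE_r0 τ M b y)
  refine (congrArg (lamE τ heU M ρ hM) h1).trans ((lamE_r0 τ heU M ρ hM _ _).trans ?_)
  rw [evS_smul, evF_fst]
  exact congrArg _ (lamE_r0 τ heU M ρ hM y _).symm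

lemma actE_strHom (a : k) (x : ESec τ A M) :
    actE τ M (strHom c (τ.U ⊓ τ.V) a) x = algebraMap k A a • x := by
  have h1 : actE τ M (strHom c (τ.U ⊓ τ.V) a) x =
    (pullback.fst c (tA k A)).app (τ.U ⊓ τ.V) (strHom c (τ.U ⊓ τ.V) a) • x := rfl
  rw [h1, fst_app_strHom]
  rfl

/-- **the curve lattice of a rigidified line bundle** -/
def lat (hM : Scheme.Modules.IsInvertible M) : CLat (curveAlg τ ε heU) A (ESec τ A M) where
  act := actE τ M
  act_k a x := actE_strHom τ M a x
  P := LinearMap.range (r0 τ M)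
  Q := LinearMap.range (r1 τ M)
  act_P b x hx := by
    obtain ⟨y, rfl⟩ := hx
    exact ⟨_, (actE_r0 τ M b y).symm⟩
  act_Q b x hx := by
    obtain ⟨y, rfl⟩ := hx
    exact ⟨_, (actE_r1 τ M b y).symm⟩
  exhP x := by
    obtain ⟨n, y, hy⟩ := res_surj (tcA τ A).affU hM (tcA τ A).t (tcA τ A).basic_t.symm
      inf_le_left x
    refine ⟨n, y, ?_⟩
    refine hy.trans ?_
    change _ = actE τ M (resO inf_le_left τ.t ^ n) x
    rw [actE_apply, map_pow, app_resO]
    rfl
  exhQ x := by
    obtain ⟨n, y, hy⟩ := res_surj (tcA τ A).affV hM (tcA τ A).s (tcA τ A).basic_s.symm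
      inf_le_right x
    refine ⟨n, y, ?_⟩
    refine hy.trans ?_
    change _ = actE τ M (resO inf_le_right τ.s ^ n) x
    rw [actE_apply, map_pow, app_resO]
    rfl
  lam := lamE τ heU M ρ hM
  lam_act b x := lamE_act τ heU M ρ hM b x _

@[simp] lemma lat_P (hM : Scheme.Modules.IsInvertible M) :
    (lat τ heU M ρ hM).P = LinearMap.range (r0 τ M) := rfl
@[simp] lemma lat_Q (hM : Scheme.Modules.IsInvertible M) :
    (lat τ heU M ρ hM).Q = LinearMap.range (r1 τ M) := rfl
lemma lat_act (hM : Scheme.Modules.IsInvertible M) (b : Γ(C, τ.U ⊓ τ.V)) (x : ESec τ A M) :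
    (lat τ heU M ρ hM).act b x = (pullback.fst c (tA k A)).app (τ.U ⊓ τ.V) b • x := rfl
lemma lat_lam (hM : Scheme.Modules.IsInvertible M)
    (y : SecA (pullback.snd c (tA k A)) M ((pullback.fst c (tA k A)) ⁻¹ᵁ τ.U)) (hy) :
    (lat τ heU M ρ hM).lam ⟨r0 τ M y, hy⟩ = evS M ρ heU y := lamE_r0 τ heU M ρ hM y hy

end lat

end Fermat.Agent.H2Lat
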