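import Fermat.Agent.H51ActBC

/-!
# S25-G1b, part 2: existence of base changes, openness of the coordinate condition
-/

set_option autoImplicit false
set_option linter.style.haveILetI false
set_option linter.unusedSectionVars false

universe u v

open TensorProduct

noncomputable section

namespace Fermat.Agent.H25

open Fermat.Agent.H10.Lat

/-! ### spans of base changes -/

section Span

variable {A : Type u} [CommRing A] {M : Type u} [AddCommGroup M] [Module A M]
  (A' : Type u) [CommRing A'] [Algebra A A']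

/-- the span of the image of a submodule in the base change -/
def bcSub (N : Submodule A M) : Submodule A' (A' ⊗[A] M) :=
  Submodule.span A' ((TensorProduct.mk A A' M 1) '' (N : Set M))

variable {A'} in
lemma mk_mem_bcSub {N : Submodule A M} {x : M} (hx : x ∈ N) :
    (1 : A') ⊗ₜ[A] x ∈ bcSub A' N := Submodule.subset_span ⟨x, hx, rfl⟩

variable {A'} in
lemma map_mem_bcSub {N N₁ : Submodule A M} (f : M →ₗ[A] M) (h : ∀ x ∈ N, f x ∈ N₁)
    {z : A' ⊗[A] M} (hz : z ∈ bcSub A' N) : f.baseChange A' z ∈ bcSub A' N₁ := by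
  have h2 : bcSub A' N ≤ (bcSub A' N₁).comap (f.baseChange A') := by
    refine Submodule.span_le.mpr ?_
    rintro _ ⟨x, hx, rfl⟩
    exact mk_mem_bcSub (h x hx)
  exact h2 hz

variable {A'} in
lemma pow_baseChange_mem {N : Submodule A M} (σ : M ≃ₗ[A] M) (h : ∀ x ∈ N, σ x ∈ N)
    {z : A' ⊗[A] M} (hz : z ∈ bcSub A' N) : σ.baseChange A A' M M z ∈ bcSub A' N :=
  map_mem_bcSub (σ : M →ₗ[A] M) h hz

variable {A'} in
lemma pow_baseChange_tmul (σ : M ≃ₗ[A] M) (n : ℕ) (a : A') (x : M) :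
    ((σ.baseChange A A' M M) ^ n) (a ⊗ₜ x) = a ⊗ₜ (σ ^ n) x := by
  induction n with
  | zero => simp
  | succ n ih => rw [pow_succ', LinearEquiv.mul_apply, ih, pow_succ', LinearEquiv.mul_apply]; rfl

variable {A'} in
lemma exhaust_bcSub {N : Submodule A M} (σ : M ≃ₗ[A] M) (h : ∀ x ∈ N, σ x ∈ N)
    (hex : ∀ x, ∃ n : ℕ, (σ ^ n) x ∈ N) (z : A' ⊗[A] M) :
    ∃ n : ℕ, ((σ.baseChange A A' M M) ^ n) z ∈ bcSub A' N := by
  have hmono : ∀ (z : A' ⊗[A] M) (n m : ℕ), n ≤ m →
      ((σ.baseChange A A' M M) ^ n) z ∈ bcSub A' N →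
      ((σ.baseChange A A' M M) ^ m) z ∈ bcSub A' N := by
    intro z n m hnm hn
    induction hnm with
    | refl => exact hn
    | step _ ih =>
      rw [pow_succ', LinearEquiv.mul_apply]
      exact pow_baseChange_mem σ h ih
  induction z with
  | zero => exact ⟨0, by rw [map_zero]; exact Submodule.zero_mem _⟩
  | tmul a x =>
    obtain ⟨n, hn⟩ := hex x
    refine ⟨n, ?_⟩
    rw [pow_baseChange_tmul]
    have : a ⊗ₜ[A] (σ ^ n) x = a • ((1 : A') ⊗ₜ[A] (σ ^ n) x) := by
      rw [TensorProduct.smul_tmul', smul_eq_mul, mul_one]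
    rw [this]
    exact Submodule.smul_mem _ _ (mk_mem_bcSub hn)
  | add x y hx hy =>
    obtain ⟨n, hn⟩ := hx
    obtain ⟨m, hm⟩ := hy
    refine ⟨max n m, ?_⟩
    rw [map_add]
    exact Submodule.add_mem _ (hmono _ _ _ (le_max_left _ _) hn) (hmono _ _ _ (le_max_right _ _) hm)

end Span

/-! ### existence of base changes -/

section Exists

variable {k B : Type u} [Field k] [CommRing B] [Algebra k B] {t : B}
    {F : ℕ → Submodule k B} {e : B →ₐ[k] k} {A : Type u} [CommRing A] [Algebra k A]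
    {M : Type u} [AddCommGroup M] [Module A M] [Module k M] [IsScalarTower k A M]
    (L : ActLat t F e A M)
    (A' : Type u) [CommRing A'] [Algebra k A'] [Algebra A A'] [IsScalarTower k A A']

/-- base change of the underlying lattice -/
def bcLat (L : P1Lat A M) : P1Lat A' (A' ⊗[A] M) where
  τ := L.τ.baseChange A A' M M
  P := bcSub A' L.P
  Q := bcSub A' L.Q
  τ_mem _ hx := pow_baseChange_mem L.τ L.τ_mem hx
  τ_symm_mem _ hx := pow_baseChange_mem L.τ.symm L.τ_symm_mem hx
  exhaustP x := exhaust_bcSub L.τ L.τ_mem L.exhaustP x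
  exhaustQ x := exhaust_bcSub L.τ.symm L.τ_symm_mem L.exhaustQ x

/-- the base changed action -/
def bcAct : B →ₐ[k] Module.End A' (A' ⊗[A] M) where
  toFun b := (L.act b).baseChange A'
  map_one' := by
    rw [map_one]; exact LinearMap.baseChange_id
  map_mul' b b' := by
    rw [map_mul]; exact LinearMap.baseChange_comp _ _
  map_zero' := by rw [map_zero]; exact LinearMap.baseChange_zero ..
  map_add' b b' := by rw [map_add]; exact LinearMap.baseChange_add ..
  commutes' r := by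
    rw [AlgHom.commutes]
    ext x
    exact ActBC.map_smul_k A' (TensorProduct.mk A A' M 1) r x

/-- **existence of base changes** of lattices with action -/
theorem exists_baseChange (hP : L.FinProjP) :
    ∃ (L' : ActLat t F e A' (A' ⊗[A] M)), ActBC L L' (TensorProduct.mk A A' M 1) := by
  obtain ⟨r, hr⟩ := exists_retraction_P L.toP1Lat hP
  let lM : M →ₗ[A] A := L.lam ∘ₗ r
  have hlM : ∀ x : L.P, lM x = L.lam x := fun x => by
    show L.lam (r x) = _
    rw [hr]
  have hbc := TensorProduct.isBaseChange A M A'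
  let l' : A' ⊗[A] M →ₗ[A'] A' := hbc.lift (Algebra.linearMap A A' ∘ₗ lM)
  have hl' : ∀ x, l' ((1 : A') ⊗ₜ[A] x) = algebraMap A A' (lM x) := fun x => hbc.lift_eq _ x
  have hact : ∀ b (z : A' ⊗[A] M), z ∈ bcSub A' L.P → bcAct L A' b z ∈ bcSub A' L.P :=
    fun b z hz => map_mem_bcSub (L.act b) (L.act_P b) hz
  refine ⟨
    { toP1Lat := bcLat A' L.toP1Lat
      act := bcAct L A'
      act_t := fun x => ?_
      act_P := hact
      act_Q := fun m b hb x hx => ?_
      lam := l' ∘ₗ Submodule.subtype _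
      lam_act := fun b x => ?_ },
    { τ := fun _ => rfl
      bc := hbc
      memP := fun x hx => mk_mem_bcSub hx
      memQ := fun x hx => mk_mem_bcSub hx
      spanP := rfl
      spanQ := rfl
      act := fun _ _ => rfl
      lam := fun x => ?_ }⟩
  · have h1 : (L.act t : M →ₗ[A] M) = (L.τ : M →ₗ[A] M) := LinearMap.ext L.act_t
    show (L.act t).baseChange A' x = _
    rw [h1]; rfl
  · have h1 : bcSub A' (L.Qm m) ≤ (bcLat A' L.toP1Lat).Qm m := by
      refine Submodule.span_le.mpr ?_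
      rintro _ ⟨_, ⟨q, hq, rfl⟩, rfl⟩
      exact ⟨(1 : A') ⊗ₜ q, mk_mem_bcSub hq, pow_baseChange_tmul L.τ m 1 q⟩
    exact h1 (map_mem_bcSub (L.act b) (L.act_Q m b hb) hx)
  · show l' (bcAct L A' b x) = algebraMap k A' (e b) * l' x
    obtain ⟨x, hx⟩ := x
    simp only
    have h2 : bcSub A' L.P ≤ LinearMap.eqLocus (l' ∘ₗ bcAct L A' b)
        ((algebraMap k A' (e b)) • l') := by
      refine Submodule.span_le.mpr ?_
      rintro _ ⟨y, hy, rfl⟩
      show l' ((1 : A') ⊗ₜ (L.act b y)) = algebraMap k A' (e b) • l' ((1 : A') ⊗ₜ y)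
      rw [hl', hl', hlM ⟨y, hy⟩, hlM ⟨L.act b y, L.act_P b y hy⟩, L.lam_act b ⟨y, hy⟩, map_mul,
        ← IsScalarTower.algebraMap_apply, smul_eq_mul]
    exact h2 hx
  · show l' ((1 : A') ⊗ₜ[A] (x : M)) = _
    rw [hl', hlM]

end Exists

/-! ### transitivity -/

section Factor

variable {k B : Type u} [Field k] [CommRing B] [Algebra k B] {t : B}
    {F : ℕ → Submodule k B} {e : B →ₐ[k] k} {A : Type u} [CommRing A] [Algebra k A]
    {M : Type v} [AddCommGroup M] [Module A M] [Module k M] [IsScalarTower k A M]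
    {L : ActLat t F e A M}
    {A₁ : Type u} [CommRing A₁] [Algebra k A₁] [Algebra A A₁]
    {M₁ : Type v} [AddCommGroup M₁] [Module A₁ M₁] [Module A M₁] [IsScalarTower A A₁ M₁]
    [Module k M₁] [IsScalarTower k A₁ M₁] {L₁ : ActLat t F e A₁ M₁} {β₁ : M →ₗ[A] M₁}
    {A' : Type u} [CommRing A'] [Algebra k A'] [Algebra A A']
    {M' : Type v} [AddCommGroup M'] [Module A' M'] [Module A M'] [IsScalarTower A A' M']
    [Module k M'] [IsScalarTower k A' M'] {L' : ActLat t F e A' M'} {β : M →ₗ[A] M'}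
    [Algebra A₁ A'] [IsScalarTower A A₁ A'] [Module A₁ M'] [IsScalarTower A₁ A' M']
    [IsScalarTower A A₁ M']

/-- factoring a base change through an intermediate ring -/
theorem ActBC.factor (h₁ : ActBC L L₁ β₁) (h : ActBC L L' β) :
    ActBC L₁ L' (h₁.bc.lift β) := by
  have hl : ∀ x, h₁.bc.lift β (β₁ x) = β x := fun x => h₁.bc.lift_eq β x
  have hmem : ∀ (N : Submodule A M) (N' : Submodule A' M'), (∀ x ∈ N, β x ∈ N') →
      ∀ x ∈ Submodule.span A₁ (β₁ '' (N : Set M)), h₁.bc.lift β x ∈ N' := by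
    intro N N' hN x hx
    have h2 : Submodule.span A₁ (β₁ '' (N : Set M)) ≤
        (N'.restrictScalars A₁).comap (h₁.bc.lift β) := by
      refine Submodule.span_le.mpr ?_
      rintro _ ⟨y, hy, rfl⟩
      show h₁.bc.lift β (β₁ y) ∈ N'
      rw [hl]
      exact hN y hy
    exact h2 hx
  have hP : ∀ x ∈ L₁.P, h₁.bc.lift β x ∈ L'.P := by
    intro x hx
    rw [h₁.spanP] at hx
    exact hmem _ _ h.memP x hx
  have hQ : ∀ x ∈ L₁.Q, h₁.bc.lift β x ∈ L'.Q := by
    intro x hx
    rw [h₁.spanQ] at hx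
    exact hmem _ _ h.memQ x hx
  refine
    { τ := ?_
      bc := ?_
      memP := hP
      memQ := hQ
      spanP := ?_
      spanQ := ?_
      act := ?_
      lam := ?_ }
  · have h2 : (h₁.bc.lift β) ∘ₗ (L₁.τ : M₁ →ₗ[A₁] M₁) =
        ((L'.τ : M' →ₗ[A'] M').restrictScalars A₁) ∘ₗ (h₁.bc.lift β) := by
      apply h₁.bc.algHom_ext
      intro x
      show h₁.bc.lift β (L₁.τ (β₁ x)) = L'.τ (h₁.bc.lift β (β₁ x))
      rw [← h₁.τ, hl, hl, h.τ]
    exact fun x => LinearMap.congr_fun h2 x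
  · refine IsBaseChange.of_comp h₁.bc ?_
    convert h.bc using 1
    ext x
    exact hl x
  · apply le_antisymm
    · rw [h.spanP, Submodule.span_le]
      rintro _ ⟨x, hx, rfl⟩
      exact Submodule.subset_span ⟨β₁ x, h₁.memP x hx, hl x⟩
    · rw [Submodule.span_le]
      rintro _ ⟨x, hx, rfl⟩
      exact hP x hx
  · apply le_antisymm
    · rw [h.spanQ, Submodule.span_le]
      rintro _ ⟨x, hx, rfl⟩
      exact Submodule.subset_span ⟨β₁ x, h₁.memQ x hx, hl x⟩
    · rw [Submodule.span_le]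
      rintro _ ⟨x, hx, rfl⟩
      exact hQ x hx
  · intro b
    have h2 : (h₁.bc.lift β) ∘ₗ (L₁.act b) =
        ((L'.act b : M' →ₗ[A'] M').restrictScalars A₁) ∘ₗ (h₁.bc.lift β) := by
      apply h₁.bc.algHom_ext
      intro x
      show h₁.bc.lift β (L₁.act b (β₁ x)) = L'.act b (h₁.bc.lift β (β₁ x))
      rw [← h₁.act, hl, hl, h.act]
    exact fun x => LinearMap.congr_fun h2 x
  · rintro ⟨x, hx⟩
    have key : ∀ y ∈ Submodule.span A₁ (β₁ '' (L.P : Set M)), ∀ hy : y ∈ L₁.P,
        L'.lam ⟨h₁.bc.lift β y, hP y hy⟩ = algebraMap A₁ A' (L₁.lam ⟨y, hy⟩) := by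
      intro y hy
      induction hy using Submodule.span_induction with
      | mem y hy =>
        obtain ⟨z, hz, rfl⟩ := hy
        intro hy'
        have h3 := h₁.lam ⟨z, hz⟩
        have h4 := h.lam ⟨z, hz⟩
        rw [h3, ← IsScalarTower.algebraMap_apply, ← h4]
        congr 1
        exact Subtype.ext (hl z)
      | zero =>
        intro hy
        have e1 : (⟨0, hy⟩ : L₁.P) = 0 := rfl
        have e2 : (⟨h₁.bc.lift β 0, hP 0 hy⟩ : L'.P) = 0 := Subtype.ext (map_zero _)
        rw [e1, e2, map_zero, map_zero, map_zero]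
      | add a b ha hb iha ihb =>
        intro hab
        rw [← h₁.spanP] at ha hb
        have e1 : (⟨a + b, hab⟩ : L₁.P) = ⟨a, ha⟩ + ⟨b, hb⟩ := rfl
        have e2 : (⟨h₁.bc.lift β (a + b), hP _ hab⟩ : L'.P) =
          ⟨h₁.bc.lift β a, hP _ ha⟩ + ⟨h₁.bc.lift β b, hP _ hb⟩ := Subtype.ext (map_add _ _ _)
        rw [e1, e2, map_add, map_add, map_add, iha, ihb]
      | smul c a ha iha =>
        intro hca
        rw [← h₁.spanP] at ha
        have e1 : (⟨c • a, hca⟩ : L₁.P) = c • ⟨a, ha⟩ := rfl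
        have e2 : (⟨h₁.bc.lift β (c • a), hP _ hca⟩ : L'.P) =
            (algebraMap A₁ A' c) • ⟨h₁.bc.lift β a, hP _ ha⟩ :=
          Subtype.ext ((map_smul _ c a).trans (algebraMap_smul A' c _).symm)
        rw [e1, e2, map_smul, map_smul, iha, smul_eq_mul, smul_eq_mul, map_mul]
    exact key x (by rw [← h₁.spanP]; exact hx) hx

end Factor

/-! ### openness -/

/-- a map with a quasi-inverse up to `f` becomes bijective when `f` is invertible -/
theorem bijective_baseChange_of_quasi {A : Type u} [CommRing A] {E F : Type*} [AddCommGroup E]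
    [Module A E] [AddCommGroup F] [Module A F] (g : E →ₗ[A] F) (H : F →ₗ[A] E) (f : A)
    (h1 : ∀ x, g (H x) = f • x) (h2 : ∀ x, H (g x) = f • x) (A' : Type u) [CommRing A']
    [Algebra A A'] (hu : IsUnit (algebraMap A A' f)) : Function.Bijective (g.baseChange A') := by
  obtain ⟨u, hu⟩ := hu
  have h3 : ∀ z, g.baseChange A' (H.baseChange A' z) = (algebraMap A A' f) • z := by
    intro z
    rw [← LinearMap.comp_apply, ← LinearMap.baseChange_comp]
    have : g ∘ₗ H = f • LinearMap.id := LinearMap.ext fun x => h1 x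
    rw [this, LinearMap.baseChange_smul, LinearMap.baseChange_id]
    simp
  have h4 : ∀ z, H.baseChange A' (g.baseChange A' z) = (algebraMap A A' f) • z := by
    intro z
    rw [← LinearMap.comp_apply, ← LinearMap.baseChange_comp]
    have : H ∘ₗ g = f • LinearMap.id := LinearMap.ext fun x => h2 x
    rw [this, LinearMap.baseChange_smul, LinearMap.baseChange_id]
    simp
  constructor
  · intro x y hxy
    have h5 : (algebraMap A A' f) • x = (algebraMap A A' f) • y := by
      rw [← h4, ← h4, hxy]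
    rw [← hu] at h5
    have h6 := congrArg (fun z => (↑u⁻¹ : A') • z) h5
    simpa [smul_smul] using h6
  · intro y
    refine ⟨(↑u⁻¹ : A') • H.baseChange A' y, ?_⟩
    rw [map_smul, h3, ← hu, smul_smul]
    simp

section Open

variable {k B : Type u} [Field k] [CommRing B] [Algebra k B] {t : B}
    {F : ℕ → Submodule k B} {e : B →ₐ[k] k} {A : Type u} [CommRing A] [Algebra k A]
    {M : Type u} [AddCommGroup M] [Module A M] [Module k M] [IsScalarTower k A M]
    (L : ActLat t F e A M)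

/-- auxiliary: factoring through `A₁` -/
theorem key_factor {L : ActLat t F e A M} {f₁ : A} {A₁ : Type u} [CommRing A₁] [Algebra k A₁]
    [Algebra A A₁]
    [IsScalarTower k A A₁] [IsLocalization.Away f₁ A₁]
    {M₁ : Type u} [AddCommGroup M₁] [Module A₁ M₁] [Module A M₁] [IsScalarTower A A₁ M₁]
    [Module k M₁] [IsScalarTower k A₁ M₁] {L₁ : ActLat t F e A₁ M₁} {β₁ : M →ₗ[A] M₁}
    (h₁ : ActBC L L₁ β₁) (hP₁ : L₁.FinProjP) (hQ₁ : L₁.FinProjQ)
    (hc₁ : IsCompl L₁.P L₁.Q) {n : ℕ} (p : Fin n → FreeAlgebra k (B × ℕ))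
    {A' : Type u} [CommRing A'] [Algebra k A'] [Algebra A A'] [IsScalarTower k A A']
    {M' : Type u} [AddCommGroup M'] [Module A' M'] [Module A M'] [IsScalarTower A A' M']
    [Module k M'] [IsScalarTower k A' M'] {L' : ActLat t F e A' M'}
    {β : M →ₗ[A] M'} (hβ : ActBC L L' β) (hu : IsUnit (algebraMap A A' f₁)) :
    ∃ (_ : Algebra A₁ A') (_ : IsScalarTower A A₁ A'), ∀ hc' : IsCompl L'.P L'.Q,
      (Function.Bijective (L'.kap hc' p) ↔
        Function.Bijective ((L₁.kap hc₁ p).baseChange A')) := by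
  letI alg : Algebra A₁ A' := (IsLocalization.Away.lift f₁ hu).toAlgebra
  haveI t1 : IsScalarTower A A₁ A' := IsScalarTower.of_algebraMap_eq fun x =>
    (IsLocalization.Away.lift_eq f₁ hu x).symm
  haveI t2 : IsScalarTower k A₁ A' := IsScalarTower.of_algebraMap_eq fun x => by
    rw [IsScalarTower.algebraMap_apply k A A₁, ← IsScalarTower.algebraMap_apply A A₁ A',
      ← IsScalarTower.algebraMap_apply]
  letI m1 : Module A₁ M' := Module.compHom M' (algebraMap A₁ A')
  haveI t3 : IsScalarTower A₁ A' M' := ⟨fun a b m => by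
    rw [Algebra.smul_def, mul_smul]; rfl⟩
  haveI t4 : IsScalarTower A A₁ M' := ⟨fun a b m => by
    calc (a • b) • m = (algebraMap A₁ A' (a • b)) • m := rfl
      _ = (algebraMap A A' a * algebraMap A₁ A' b) • m := by
        rw [Algebra.smul_def a b, map_mul, ← IsScalarTower.algebraMap_apply A A₁ A']
      _ = algebraMap A A' a • (b • m) := mul_smul _ _ _
      _ = a • b • m := IsScalarTower.algebraMap_smul A' a _⟩
  exact ⟨alg, t1, fun hc' => (h₁.factor hβ).kap_bijective_iff hP₁ hQ₁ hc₁ hc' p⟩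

theorem exists_open_kap_aux {L : ActLat t F e A M} {K : Type u} [Field K] [Algebra k K]
    [Algebra A K] [IsScalarTower k A K] {MK : Type u} [AddCommGroup MK] [Module K MK]
    [Module A MK] [IsScalarTower A K MK] [Module k MK] [IsScalarTower k K MK]
    {LK : ActLat t F e K MK} {βK : M →ₗ[A] MK} (hK : ActBC L LK βK)
    (hcK : IsCompl LK.P LK.Q) {n : ℕ} (p : Fin n → FreeAlgebra k (B × ℕ))
    (hk : Function.Bijective (LK.kap hcK p)) {f₁ : A} (hf₁ : algebraMap A K f₁ ≠ 0)
    (H₁ : ∀ (A' : Type u) [CommRing A'] [Algebra A A'] (M' : Type u) [AddCommGroup M']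
        [Module A' M'] [Module A M'] [IsScalarTower A A' M'] (L' : P1Lat A' M')
        (β : M →ₗ[A] M') (_ : L.toP1Lat.IsBC L' β), IsUnit (algebraMap A A' f₁) →
        IsCompl L'.P L'.Q)
    {A₁ : Type u} [CommRing A₁] [Algebra k A₁] [Algebra A A₁]
    [IsScalarTower k A A₁] [IsLocalization.Away f₁ A₁]
    {M₁ : Type u} [AddCommGroup M₁] [Module A₁ M₁] [Module A M₁] [IsScalarTower A A₁ M₁]
    [Module k M₁] [IsScalarTower k A₁ M₁] {L₁ : ActLat t F e A₁ M₁} {β₁ : M →ₗ[A] M₁}
    (h₁ : ActBC L L₁ β₁) (hP₁ : L₁.FinProjP) (hQ₁ : L₁.FinProjQ)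
    (hc₁ : IsCompl L₁.P L₁.Q) :
    ∃ f : A, algebraMap A K f ≠ 0 ∧
      ∀ (A' : Type u) [CommRing A'] [Algebra k A'] [Algebra A A'] [IsScalarTower k A A']
        (M' : Type u) [AddCommGroup M'] [Module A' M'] [Module A M'] [IsScalarTower A A' M']
        [Module k M'] [IsScalarTower k A' M'] (L' : ActLat t F e A' M')
        (β : M →ₗ[A] M') (_ : ActBC L L' β), IsUnit (algebraMap A A' f) →
        ∃ hc' : IsCompl L'.P L'.Q, Function.Bijective (L'.kap hc' p) := by
  obtain ⟨hfin, hproj⟩ := finite_projective_K1 (L := L₁.toP1Lat) hP₁ hQ₁ hc₁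
  obtain ⟨algK, tK, hbij⟩ := key_factor h₁ hP₁ hQ₁ hc₁ p hK (isUnit_iff_ne_zero.mpr hf₁)
  obtain ⟨f₂, H, hf₂, e1, e2⟩ := exists_quasi_inverse (L₁.kap hc₁ p) ((hbij hcK).mp hk)
  obtain ⟨⟨a, ⟨_, m, rfl⟩⟩, ha⟩ := IsLocalization.surj (Submonoid.powers f₁) f₂
  simp only at ha
  refine ⟨f₁ * a, ?_, ?_⟩
  · rw [map_mul]
    refine mul_ne_zero hf₁ ?_
    rw [IsScalarTower.algebraMap_apply A A₁ K, ← ha, map_mul]
    refine mul_ne_zero hf₂ ?_
    rw [← IsScalarTower.algebraMap_apply, map_pow]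
    exact pow_ne_zero _ hf₁
  · intro A' _ _ _ _ M' _ _ _ _ _ _ L' β hβ hu
    rw [map_mul, IsUnit.mul_iff] at hu
    obtain ⟨alg', t', hbij'⟩ := key_factor h₁ hP₁ hQ₁ hc₁ p hβ hu.1
    have hc' : IsCompl L'.P L'.Q := H₁ A' M' L'.toP1Lat β hβ.toIsBC hu.1
    refine ⟨hc', (hbij' hc').mpr ?_⟩
    refine bijective_baseChange_of_quasi _ H f₂ e1 e2 A' ?_
    have h5 : algebraMap A A' a = algebraMap A₁ A' f₂ * algebraMap A A' (f₁ ^ m) := by
      rw [IsScalarTower.algebraMap_apply A A₁ A', ← ha, map_mul,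
        ← IsScalarTower.algebraMap_apply]
    have h6 := hu.2
    rw [h5] at h6
    exact isUnit_of_mul_isUnit_left h6

/-- (2) **Openness of the coordinate condition.** -/
theorem exists_open_kap (hP : L.FinProjP) (hQ : L.FinProjQ) {K : Type u} [Field K] [Algebra k K]
    [Algebra A K] [IsScalarTower k A K] {MK : Type u} [AddCommGroup MK] [Module K MK]
    [Module A MK] [IsScalarTower A K MK] [Module k MK] [IsScalarTower k K MK]
    {LK : ActLat t F e K MK} {βK : M →ₗ[A] MK} (hK : ActBC L LK βK)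
    (hcK : IsCompl LK.P LK.Q) {n : ℕ} (p : Fin n → FreeAlgebra k (B × ℕ))
    (hk : Function.Bijective (LK.kap hcK p)) :
    ∃ f : A, algebraMap A K f ≠ 0 ∧
      ∀ (A' : Type u) [CommRing A'] [Algebra k A'] [Algebra A A'] [IsScalarTower k A A']
        (M' : Type u) [AddCommGroup M'] [Module A' M'] [Module A M'] [IsScalarTower A A' M']
        [Module k M'] [IsScalarTower k A' M'] (L' : ActLat t F e A' M')
        (β : M →ₗ[A] M') (_ : ActBC L L' β), IsUnit (algebraMap A A' f) →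
        ∃ hc' : IsCompl L'.P L'.Q, Function.Bijective (L'.kap hc' p) := by
  obtain ⟨f₁, hf₁, H₁⟩ := exists_isCompl_of_field L.toP1Lat hP hQ hK.toIsBC hcK
  obtain ⟨L₁, h₁⟩ := exists_baseChange L (Localization.Away f₁) hP
  have hc₁ : IsCompl L₁.P L₁.Q := H₁ (Localization.Away f₁) _ L₁.toP1Lat _ h₁.toIsBC
    (IsLocalization.Away.algebraMap_isUnit f₁)
  exact exists_open_kap_aux hK hcK p hk hf₁ H₁ h₁ (IsBC_finProjP hP h₁.toIsBC)
    (IsBC_finProjQ hQ h₁.toIsBC) hc₁

end Open

end Fermat.Agent.H25
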