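import Fermat.Agent.H25Rep
import Fermat.Agent.H51Pb
import Fermat.Agent.H73TwoChart

/-!
# S25-R1: two bundles with the same matrix data are isomorphic; invariance under isomorphism
-/

set_option autoImplicit false
set_option linter.style.haveILetI false

universe u

open CategoryTheory AlgebraicGeometry CategoryTheory.Limits TopologicalSpace Opposite Polynomial
open NeronModelInfra AlgebraicGeometry.RelPicard
open scoped Matrix

noncomputable section

namespace Fermat.Agent.H25

/-! ### vectors of polynomials -/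

section PolyVec

variable {A : Type u} [CommRing A] {n : ℕ}

/-- induction principle for vectors of polynomials -/
theorem polyVec_induction {P : (Fin n → A[X]) → Prop} (hadd : ∀ v w, P v → P w → P (v + w))
    (hC : ∀ v : Fin n → A, P fun i => Polynomial.C (v i))
    (hX : ∀ w, P w → P ((X : A[X]) • w)) (w : Fin n → A[X]) : P w := by
  have key : ∀ d : ℕ, ∀ w : Fin n → A[X], (∀ i, (w i).natDegree ≤ d) → P w := by
    intro d
    induction d with
    | zero =>
      intro w hw
      have : w = fun i => Polynomial.C ((w i).coeff 0) := by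
        funext i
        exact Polynomial.eq_C_of_natDegree_le_zero (hw i)
      rw [this]
      exact hC _
    | succ d ih =>
      intro w hw
      have : w = (X : A[X]) • (fun i => (w i).divX) + fun i => Polynomial.C ((w i).coeff 0) := by
        funext i
        rw [Pi.add_apply, Pi.smul_apply, smul_eq_mul]
        exact (Polynomial.X_mul_divX_add (w i)).symm
      rw [this]
      refine hadd _ _ (hX _ (ih _ fun i => ?_)) (hC _)
      rw [Polynomial.natDegree_divX_eq_natDegree_tsub_one]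
      have := hw i
      omega
  exact key (Finset.univ.sup fun i => (w i).natDegree) w fun i =>
    Finset.le_sup (f := fun i => (w i).natDegree) (Finset.mem_univ i)

end PolyVec

section

variable {k : Type u} [Field k] {C : Scheme.{u}} {c : C ⟶ Spec (CommRingCat.of k)}
  (τ : TwoChart c) (A : Type u) [CommRing A] [Algebra k A]

/-! ### the chart of `C_A` -/

lemma TwoChart.affUA : IsAffineOpen (τ.UA A) :=
  H51Pb.isAffineOpen_preimage (IsPullback.of_hasPullback c (spm k A)) τ.affU

lemma TwoChart.affVA : IsAffineOpen (τ.VA A) :=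
  H51Pb.isAffineOpen_preimage (IsPullback.of_hasPullback c (spm k A)) τ.affV

lemma TwoChart.basic_tA : (pullback c (spm k A)).basicOpen
    ((pullback.fst c (spm k A)).app τ.U τ.t) = τ.UA A ⊓ τ.VA A := by
  rw [← Scheme.preimage_basicOpen, τ.basic_t, Scheme.Hom.preimage_inf]

lemma TwoChart.basic_sA : (pullback c (spm k A)).basicOpen
    ((pullback.fst c (spm k A)).app τ.V τ.s) = τ.UA A ⊓ τ.VA A := by
  rw [← Scheme.preimage_basicOpen, τ.basic_s, Scheme.Hom.preimage_inf]

lemma TwoChart.affUVA : IsAffineOpen (τ.UA A ⊓ τ.VA A) := by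
  rw [← τ.basic_tA A]
  exact (τ.affUA A).basicOpen _

lemma TwoChart.coverA : τ.UA A ⊔ τ.VA A = ⊤ := by
  rw [← Scheme.Hom.preimage_sup, τ.cover]; rfl

/-- functions on `U_A` are generated by constants and functions on `U` -/
theorem TwoChart.mem_subring_UA (S : Subring Γ(pullback c (spm k A), τ.UA A))
    (hA : ∀ a : A, strHom (pullback.snd c (spm k A)) (τ.UA A) a ∈ S)
    (hB : ∀ b : Γ(C, τ.U), (pullback.fst c (spm k A)).app τ.U b ∈ S)
    (z : Γ(pullback c (spm k A), τ.UA A)) : z ∈ S := by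
  obtain ⟨f, hf⟩ := (H51Pb.baseChange τ (spm k A)).basisU.2 z
  rw [← hf]
  refine Subring.sum_mem _ fun i _ => Subring.mul_mem _ ?_ (hB _)
  induction f i using Polynomial.induction_on' with
  | add p q hp hq => rw [Polynomial.eval₂_add]; exact Subring.add_mem _ hp hq
  | monomial n a =>
    rw [Polynomial.eval₂_monomial]
    exact Subring.mul_mem _ (hA a) (Subring.pow_mem _ (hB _) n)

/-- functions on `V_A` are generated by constants and functions on `V` -/
theorem TwoChart.mem_subring_VA (S : Subring Γ(pullback c (spm k A), τ.VA A))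
    (hA : ∀ a : A, strHom (pullback.snd c (spm k A)) (τ.VA A) a ∈ S)
    (hB : ∀ b : Γ(C, τ.V), (pullback.fst c (spm k A)).app τ.V b ∈ S)
    (z : Γ(pullback c (spm k A), τ.VA A)) : z ∈ S := by
  obtain ⟨f, hf⟩ := (H51Pb.baseChange τ (spm k A)).basisV.2 z
  rw [← hf]
  refine Subring.sum_mem _ fun i _ => Subring.mul_mem _ ?_ (hB _)
  induction f i using Polynomial.induction_on' with
  | add p q hp hq => rw [Polynomial.eval₂_add]; exact Subring.add_mem _ hp hq
  | monomial n a =>
    rw [Polynomial.eval₂_monomial]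
    exact Subring.mul_mem _ (hA a) (Subring.pow_mem _ (hB _) n)

variable {A}

/-- an additive map between modules commuting with the elements of a generating set is linear -/
def linSubring {R E E' : Type*} [CommRing R] [AddCommGroup E] [Module R E] [AddCommGroup E']
    [Module R E'] (a : E →+ E') : Subring R where
  carrier := {z | ∀ x, a (z • x) = z • a x}
  mul_mem' {z w} hz hw x := by rw [mul_smul, hz, hw, mul_smul]
  one_mem' x := by rw [one_smul, one_smul]
  add_mem' {z w} hz hw x := by rw [add_smul, map_add, hz, hw, add_smul]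
  zero_mem' x := by rw [zero_smul, zero_smul, map_zero]
  neg_mem' {z} hz x := by rw [neg_smul, map_neg, hz, neg_smul]

variable {ε : SchemeHomOver (𝟙 (Spec (CommRingCat.of k))) c} {τ}

/-- injectivity of restriction from `V_A`, when `s` is a nonzerodivisor on the sections -/
theorem res_VA_injective {L : (pullback c (spm k A)).Modules}
    (hL : Scheme.Modules.IsInvertible L)
    (hs : ∀ x : Γ(L, τ.VA A), (pullback.fst c (spm k A)).app τ.V τ.s • x = 0 → x = 0)
    {x : Γ(L, τ.VA A)} (hx : res L (inf_le_right : τ.UA A ⊓ τ.VA A ≤ τ.VA A) x = 0) : x = 0 := by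
  obtain ⟨n, hn⟩ := H51Aff.res_inj (τ.affVA A) hL ((pullback.fst c (spm k A)).app τ.V τ.s)
    (τ.basic_sA A).symm inf_le_right x hx
  induction n generalizing x with
  | zero => rwa [pow_zero, one_smul] at hn
  | succ n ih =>
    rw [pow_succ', mul_smul] at hn
    exact ih hx (hs _ hn)

variable {hε : ε.1 ⁻¹ᵁ τ.U = ⊤} {p : Fin τ.n → FreeAlgebra k (τ.B0 × ℕ)}
  {M M' : RigidifiedLineBundle c ε (spm k A)} {x : H45.ChartPt (τ.chartData hε p) A}

/-- **S25-R1**: two bundles with the same matrix data are isomorphic. -/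
theorem RepData.iso (h : RepData τ hε p M x) (h' : RepData τ hε p M' x) :
    ∃ φ : M.L ≅ M'.L, (∀ y, φ.hom.app (τ.UA A) y = h'.θ0 (h.θ0.symm y)) ∧
      (∀ y, φ.hom.app (τ.VA A) y = h'.θ1 (h.θ1.symm y)) := by
  let a0 : Γ(M.L, τ.UA A) ≃+ Γ(M'.L, τ.UA A) := h.θ0.symm.trans h'.θ0
  let a1 : Γ(M.L, τ.VA A) ≃+ Γ(M'.L, τ.VA A) := h.θ1.symm.trans h'.θ1
  have e0 : ∀ v, a0 (h.θ0 v) = h'.θ0 v := fun v => by simp [a0]
  have e1 : ∀ v, a1 (h.θ1 v) = h'.θ1 v := fun v => by simp [a1]
  -- linearity on `U`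
  have ha0 : ∀ (z : Γ(pullback c (spm k A), τ.UA A)) (y : Γ(M.L, τ.UA A)),
      a0 (z • y) = z • a0 y := by
    intro z
    refine τ.mem_subring_UA A (linSubring a0.toAddMonoidHom) (fun a y => ?_) (fun b y => ?_) z
    · obtain ⟨v, rfl⟩ := h.θ0.surjective y
      show a0 (_ • h.θ0 v) = _ • a0 (h.θ0 v)
      rw [← h.θ0_C, e0, e0, h'.θ0_C]
    · obtain ⟨v, rfl⟩ := h.θ0.surjective y
      show a0 ((pullback.fst c (spm k A)).app τ.U b • h.θ0 v) = _ • a0 (h.θ0 v)
      rw [e0]
      exact (congrArg a0 (h.θ0_B b v)).symm.trans ((e0 _).trans (h'.θ0_B b v))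
  -- extension to `U ∩ V`
  obtain ⟨φ, hφ, hφ'⟩ := H51Aff.exists_lIso_of_linearEquiv (τ.affUA A) M.isInvertible M'.isInvertible
    { a0 with map_smul' := ha0 }
  have hle : τ.UA A ⊓ τ.VA A ≤ τ.UA A := inf_le_left
  let a01 : Γ(M.L, τ.UA A ⊓ τ.VA A) ≃+ Γ(M'.L, τ.UA A ⊓ τ.VA A) :=
    { toFun := φ.hom.f _ hle
      invFun := φ.inv.f _ hle
      left_inv := φ.hom_inv _ hle
      right_inv := φ.inv_hom _ hle
      map_add' := map_add _ }
  have ha01 : ∀ (z : Γ(pullback c (spm k A), τ.UA A ⊓ τ.VA A)) (y : Γ(M.L, τ.UA A ⊓ τ.VA A)),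
      a01 (z • y) = z • a01 y := fun z y => φ.hom.smul _ hle z y
  have h0 : ∀ y : Γ(M.L, τ.UA A), a01 (res M.L inf_le_left y) = res M'.L inf_le_left (a0 y) := by
    intro y
    refine (φ.hom.res _ _ le_rfl hle y).trans ?_
    rw [hφ]
    rfl
  have h1 : ∀ y : Γ(M.L, τ.VA A), a01 (res M.L inf_le_right y) = res M'.L inf_le_right (a1 y) := by
    intro y
    obtain ⟨v, rfl⟩ := h.θ1.surjective y
    rw [e1]
    induction v using polyVec_induction with
    | hadd v w hv hw => rw [map_add, res_add, map_add, hv, hw, map_add, res_add]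
    | hC v => rw [h.θ01, ha01, h0, e0, h'.θ01]
    | hX w hw => rw [h.θ1_X, res_smul, ha01, hw, h'.θ1_X, res_smul]
  -- injectivity of restriction from `V`
  have hinj : ∀ y : Γ(M'.L, τ.VA A), res M'.L (inf_le_right : τ.UA A ⊓ τ.VA A ≤ τ.VA A) y = 0 →
      y = 0 := by
    intro y hy
    refine res_VA_injective M'.isInvertible (fun z hz => ?_) hy
    obtain ⟨v, rfl⟩ := h'.θ1.surjective z
    rw [← h'.θ1_X, ← map_zero h'.θ1, h'.θ1.injective.eq_iff] at hz
    rw [← map_zero h'.θ1]
    congr 1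
    funext i
    have := congrFun hz i
    rw [Pi.smul_apply, Pi.zero_apply, smul_eq_mul] at this
    exact Polynomial.isRegular_X.left (this.trans (mul_zero X).symm)
  have ha1 : ∀ (z : Γ(pullback c (spm k A), τ.VA A)) (y : Γ(M.L, τ.VA A)),
      a1 (z • y) = z • a1 y := by
    intro z y
    rw [← sub_eq_zero]
    refine hinj _ ?_
    rw [res_sub, res_smul, ← h1, ← h1, res_smul, ha01, sub_self]
  obtain ⟨ψ, ⟨hψ0, hψ1⟩, -⟩ := H73.TwoChart.exists_iso_of_charts (τ.affUA A) (τ.affVA A) (τ.affUVA A)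
    (τ.coverA A) M.isInvertible M'.isInvertible a0 a1 a01 ha0 ha1 ha01 h0 h1
  exact ⟨ψ, hψ0, hψ1⟩

/-- **S25-R1**: two bundles with the same matrix data are isomorphic. -/
theorem Rep.iso (h : Rep τ hε p M x) (h' : Rep τ hε p M' x) : Nonempty (M.L ≅ M'.L) := by
  obtain ⟨h⟩ := h
  obtain ⟨h'⟩ := h'
  exact ⟨(h.iso h').choose⟩

/-- transport of matrix data along an isomorphism -/
theorem RepData.of_iso (h : RepData τ hε p M x) (e : M.L ≅ M'.L) :
    ∃ h' : RepData τ hε p M' x, (∀ v, h'.θ0 v = e.hom.app (τ.UA A) (h.θ0 v)) ∧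
      (∀ v, h'.θ1 v = e.hom.app (τ.VA A) (h.θ1 v)) := by
  let b0 : Γ(M.L, τ.UA A) ≃+ Γ(M'.L, τ.UA A) :=
    { toFun := e.hom.app (τ.UA A)
      invFun := e.inv.app (τ.UA A)
      left_inv := fun y => by
        rw [← ConcreteCategory.comp_apply, ← Scheme.Modules.Hom.comp_app, Iso.hom_inv_id]; rfl
      right_inv := fun y => by
        rw [← ConcreteCategory.comp_apply, ← Scheme.Modules.Hom.comp_app, Iso.inv_hom_id]; rfl
      map_add' := map_add _ }
  let b1 : Γ(M.L, τ.VA A) ≃+ Γ(M'.L, τ.VA A) :=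
    { toFun := e.hom.app (τ.VA A)
      invFun := e.inv.app (τ.VA A)
      left_inv := fun y => by
        rw [← ConcreteCategory.comp_apply, ← Scheme.Modules.Hom.comp_app, Iso.hom_inv_id]; rfl
      right_inv := fun y => by
        rw [← ConcreteCategory.comp_apply, ← Scheme.Modules.Hom.comp_app, Iso.inv_hom_id]; rfl
      map_add' := map_add _ }
  have hb0 : ∀ y, b0 y = e.hom.app (τ.UA A) y := fun _ => rfl
  have hb1 : ∀ y, b1 y = e.hom.app (τ.VA A) y := fun _ => rfl
  let E := (Scheme.Modules.pullback (rigSection c (spm k A) ε)).mapIso e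
  refine ⟨
    { θ0 := h.θ0.trans b0
      θ1 := h.θ1.trans b1
      ℓ := E.hom.app ⊤ h.ℓ
      ℓ_gen := h.ℓ_gen.map_iso E.hom
      θ0_C := fun a v => ?_
      θ0_B := fun b v => ?_
      θ1_C := fun a v => ?_
      θ1_X := fun v => ?_
      θ01 := fun v => ?_
      θ0_ℓ := fun v => ?_ }, fun _ => rfl, fun _ => rfl⟩
  · rw [AddEquiv.trans_apply, AddEquiv.trans_apply, h.θ0_C, hb0, hb0, app_smul']
  · rw [AddEquiv.trans_apply, AddEquiv.trans_apply]
    refine (congrArg b0 (h.θ0_B b v)).trans ?_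
    rw [hb0, hb0, app_smul']
  · rw [AddEquiv.trans_apply, AddEquiv.trans_apply, h.θ1_C, hb1, hb1, app_smul']
  · rw [AddEquiv.trans_apply, AddEquiv.trans_apply, h.θ1_X, hb1, hb1, app_smul']
  · rw [AddEquiv.trans_apply, AddEquiv.trans_apply, hb1, hb0, ← app_res, h.θ01, app_smul',
      app_res]
  · rw [AddEquiv.trans_apply, hb0, ← pb_app, h.θ0_ℓ, app_smul', app_res]
    rfl

/-- **S25-R1**: invariance under isomorphism. -/
theorem Rep.of_iso (h : Rep τ hε p M x) (e : Nonempty (M.L ≅ M'.L)) : Rep τ hε p M' x := by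
  obtain ⟨h⟩ := h
  obtain ⟨e⟩ := e
  exact ⟨(h.of_iso e).choose⟩

end

end Fermat.Agent.H25
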