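import Fermat.Agent.H25Rep
import Fermat.Agent.H25Act
import Fermat.Agent.H25Lat
import Fermat.Agent.H51ActBC
import Fermat.Agent.H51ActOpen
import Fermat.Agent.H51Rep
import Fermat.Agent.H2LatSheaf
import Fermat.Agent.H2G1a
/-!
# S25-G2: the `ActLat` of a rigidified line bundle on `C_A`
-/
set_option autoImplicit false
universe u v
open CategoryTheory AlgebraicGeometry CategoryTheory.Limits TopologicalSpace Opposite Polynomial
open NeronModelInfra AlgebraicGeometry.RelPicard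
open scoped Matrix

noncomputable section

namespace Fermat.Agent.H2G2

open Fermat.Agent.H25

/-! ### values along the section -/

section val

variable {A : Type u} [CommRing A]

lemma glob_injective {W : (Spec (CommRingCat.of A)).Opens} (h : W = ⊤) :
    Function.Injective (H2Lat.glob A h) := by
  subst h
  intro a b hab
  have h1 : (Scheme.ΓSpecIso (CommRingCat.of A)).hom (resO le_rfl a) =
    (Scheme.ΓSpecIso (CommRingCat.of A)).hom (resO le_rfl b) := hab
  have h2 := (ConcreteCategory.bijective_of_isIso (Scheme.ΓSpecIso (CommRingCat.of A)).hom).1 h1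
  have h3 : (resO (le_refl ⊤) a : Γ(Spec (CommRingCat.of A), ⊤)) = a := resO_self _ _
  have h4 : (resO (le_refl ⊤) b : Γ(Spec (CommRingCat.of A), ⊤)) = b := resO_self _ _
  exact h3.symm.trans (h2.trans h4)

lemma strHom_glob {W : (Spec (CommRingCat.of A)).Opens} (h : W = ⊤)
    (a : Γ(Spec (CommRingCat.of A), W)) :
    strHom (𝟙 (Spec (CommRingCat.of A))) W (H2Lat.glob A h a) = a := by
  apply glob_injective h
  rw [H2Lat.strHom_id]

lemma strHom_id_injective {W : (Spec (CommRingCat.of A)).Opens} (h : W = ⊤) :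
    Function.Injective (strHom (𝟙 (Spec (CommRingCat.of A))) W) := by
  intro a b hab
  rw [← H2Lat.strHom_id a h, hab, H2Lat.strHom_id]

variable {k : Type u} [Field k] {C : Scheme.{u}} {c : C ⟶ Spec (CommRingCat.of k)}
  {ε : SchemeHomOver (𝟙 (Spec (CommRingCat.of k))) c} [Algebra k A]

lemma pre_UA (τ : TwoChart c) (hε : ε.1 ⁻¹ᵁ τ.U = ⊤) :
    rigSection c (spm k A) ε ⁻¹ᵁ (τ.UA A) = ⊤ := H2Lat.rigSection_preimage hε

variable {τ : TwoChart c} (hε : ε.1 ⁻¹ᵁ τ.U = ⊤) {L : (pullback c (spm k A)).Modules}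
  {ℓ : Γ((Scheme.Modules.pullback (rigSection c (spm k A) ε)).obj L, ⊤)} (hℓ : IsGen _ ℓ)

include hε hℓ in
lemma exists_val (x : Γ(L, τ.UA A)) : ∃ a : A, pb (rigSection c (spm k A) ε) L x =
    strHom (𝟙 (Spec (CommRingCat.of A))) (rigSection c (spm k A) ε ⁻¹ᵁ τ.UA A) a •
      res _ le_top ℓ := by
  obtain ⟨f, hf⟩ := hℓ.surj' (le_top : rigSection c (spm k A) ε ⁻¹ᵁ τ.UA A ≤ ⊤)
    (pb (rigSection c (spm k A) ε) L x)
  refine ⟨H2Lat.glob A (pre_UA τ hε) f, ?_⟩
  rw [strHom_glob]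
  exact hf

include hε hℓ in
lemma val_unique {a a' : A}
    (h : strHom (𝟙 (Spec (CommRingCat.of A))) (rigSection c (spm k A) ε ⁻¹ᵁ τ.UA A) a •
      res _ (le_top : rigSection c (spm k A) ε ⁻¹ᵁ τ.UA A ≤ ⊤) ℓ =
      strHom (𝟙 (Spec (CommRingCat.of A))) (rigSection c (spm k A) ε ⁻¹ᵁ τ.UA A) a' •
        res _ (le_top : rigSection c (spm k A) ε ⁻¹ᵁ τ.UA A ≤ ⊤) ℓ) : a = a' :=
  strHom_id_injective (pre_UA τ hε) ((hℓ.res le_top).inj h)

/-- the value of a section along the rigidifying section -/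
def val (x : Γ(L, τ.UA A)) : A := (exists_val hε hℓ x).choose

lemma val_spec (x : Γ(L, τ.UA A)) : pb (rigSection c (spm k A) ε) L x =
    strHom (𝟙 (Spec (CommRingCat.of A))) (rigSection c (spm k A) ε ⁻¹ᵁ τ.UA A) (val hε hℓ x) •
      res _ le_top ℓ := (exists_val hε hℓ x).choose_spec

lemma val_eq {x : Γ(L, τ.UA A)} {a : A} (h : pb (rigSection c (spm k A) ε) L x =
    strHom (𝟙 (Spec (CommRingCat.of A))) (rigSection c (spm k A) ε ⁻¹ᵁ τ.UA A) a •
      res _ le_top ℓ) : val hε hℓ x = a :=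
  val_unique hε hℓ ((val_spec hε hℓ x).symm.trans h)

lemma val_add (x x' : Γ(L, τ.UA A)) : val hε hℓ (x + x') = val hε hℓ x + val hε hℓ x' := by
  apply val_eq
  rw [pb_add, val_spec hε hℓ x, val_spec hε hℓ x', map_add, add_smul]

lemma val_strHom_smul (a : A) (x : Γ(L, τ.UA A)) :
    val hε hℓ (strHom (pullback.snd c (spm k A)) (τ.UA A) a • x) = a * val hε hℓ x := by
  apply val_eq
  have w : rigSection c (spm k A) ε ≫ pullback.snd c (spm k A) = 𝟙 _ ≫ 𝟙 _ := by
    rw [Category.comp_id]; exact rigSection_snd _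
  have h1 : (Spec.preimage (𝟙 (Spec (CommRingCat.of A)))).hom a = a := by
    have : Spec.preimage (𝟙 (Spec (CommRingCat.of A))) = 𝟙 _ := by
      apply Spec.map_injective
      rw [Spec.map_preimage, Spec.map_id]
    rw [this]; rfl
  rw [pb_smul, val_spec hε hℓ x, H51Pb.app_strHom w, h1, map_mul, mul_smul]

lemma fst_app_eval (b : τ.B0) :
    (rigSection c (spm k A) ε).app (τ.UA A) ((pullback.fst c (spm k A)).app τ.U (τ.fn b)) =
      strHom (𝟙 (Spec (CommRingCat.of A))) (rigSection c (spm k A) ε ⁻¹ᵁ τ.UA A)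
        (algebraMap k A (τ.eval hε b)) := by
  apply glob_injective (pre_UA τ hε)
  rw [H2Lat.strHom_id]
  exact H2Lat.evF_fst τ hε (τ.fn b)

lemma val_fst_smul (b : τ.B0) (x : Γ(L, τ.UA A)) :
    val hε hℓ ((pullback.fst c (spm k A)).app τ.U (τ.fn b) • x) =
      algebraMap k A (τ.eval hε b) * val hε hℓ x := by
  apply val_eq
  rw [pb_smul, val_spec hε hℓ x, fst_app_eval hε, map_mul, mul_smul]

end val

/-! ### the lattice with action -/

section actLat

variable {k : Type u} [Field k] {C : Scheme.{u}} {c : C ⟶ Spec (CommRingCat.of k)}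
  {ε : SchemeHomOver (𝟙 (Spec (CommRingCat.of k))) c} {A : Type u} [CommRing A] [Algebra k A]

/-- the two-chart structure of `C_A` -/
abbrev tc (τ : TwoChart c) (A : Type u) [CommRing A] [Algebra k A] :
    TwoChart (pullback.snd c (spm k A)) := H51Pb.baseChange τ (spm k A)

/-- sections over the overlap -/
abbrev ESec (τ : TwoChart c) (L : (pullback c (spm k A)).Modules) : Type u :=
  Sec (pullback.snd c (spm k A)) L ((tc τ A).U ⊓ (tc τ A).V)

instance (L : (pullback c (spm k A)).Modules) (W : (pullback c (spm k A)).Opens) :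
    Module k (Sec (pullback.snd c (spm k A)) L W) := Module.compHom _ (algebraMap k A)

instance (L : (pullback c (spm k A)).Modules) (W : (pullback c (spm k A)).Opens) :
    IsScalarTower k A (Sec (pullback.snd c (spm k A)) L W) :=
  ⟨fun a b z => by rw [Algebra.smul_def, mul_smul]; rfl⟩

variable (τ : TwoChart c)

/-- functions on `U`, on the first chart of `C_A` -/
def fU (A : Type u) [CommRing A] [Algebra k A] :
    τ.B0 →+* Γ(pullback c (spm k A), (tc τ A).U) :=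
  ((pullback.fst c (spm k A)).app τ.U).hom.comp τ.fn

/-- functions on `V`, on the second chart of `C_A` -/
def fV (A : Type u) [CommRing A] [Algebra k A] :
    Γ(C, τ.V) →+* Γ(pullback c (spm k A), (tc τ A).V) :=
  ((pullback.fst c (spm k A)).app τ.V).hom

/-- functions on `U`, restricted to the overlap of `C_A` -/
def fO (A : Type u) [CommRing A] [Algebra k A] :
    τ.B0 →+* Γ(pullback c (spm k A), (tc τ A).U ⊓ (tc τ A).V) :=
  (resOHom (inf_le_left : (tc τ A).U ⊓ (tc τ A).V ≤ (tc τ A).U)).comp (fU τ A)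

lemma fU_apply (b : τ.B0) : fU τ A b = (pullback.fst c (spm k A)).app τ.U (τ.fn b) := rfl

lemma fV_apply (b : Γ(C, τ.V)) : fV τ A b = (pullback.fst c (spm k A)).app τ.V b := rfl

lemma fO_apply (b : τ.B0) : fO τ A b =
    resO (inf_le_left : (tc τ A).U ⊓ (tc τ A).V ≤ (tc τ A).U) (fU τ A b) := rfl

lemma fU_t : fU τ A τ.t = (tc τ A).t := rfl
lemma fO_t : fO τ A τ.t = (tc τ A).tr := rfl
lemma fV_s : fV τ A τ.s = (tc τ A).s := rfl

lemma fU_algebraMap (a : k) : fU τ A (algebraMap k τ.B0 a) =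
    strHom (pullback.snd c (spm k A)) _ (algebraMap k A a) := by
  rw [fU_apply, τ.fn_algebraMap]
  exact H2Lat.fst_app_strHom a

lemma fO_algebraMap (a : k) : fO τ A (algebraMap k τ.B0 a) =
    strHom (pullback.snd c (spm k A)) _ (algebraMap k A a) := by
  rw [fO_apply, fU_algebraMap, H51Pb.resO_strHom]

lemma fV_eq_of_mem {m : ℕ} {b : τ.B0} {y : Γ(C, τ.V)}
    (hy : τ.rV y = τ.rV τ.s ^ m * τ.rU (τ.fn b)) :
    resO (inf_le_right : (tc τ A).U ⊓ (tc τ A).V ≤ (tc τ A).V) (fV τ A y) =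
      (tc τ A).sr ^ m * fO τ A b := by
  have h2 := congrArg ((pullback.fst c (spm k A)).app (τ.U ⊓ τ.V)) hy
  rw [map_mul, map_pow, app_resO, app_resO, app_resO] at h2
  exact h2

/-- the action on sections over the overlap -/
def actO (L : (pullback c (spm k A)).Modules) : τ.B0 →ₐ[k] Module.End A (ESec τ L) where
  toFun b := Sec.mulL _ L (fO τ A b)
  map_one' := by
    ext x
    apply Sec.ext
    rw [Sec.mulL_s, map_one, one_smul]; rfl
  map_mul' b b' := by
    ext x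
    apply Sec.ext
    rw [Sec.mulL_s, map_mul, mul_smul]; rfl
  map_zero' := by
    ext x
    apply Sec.ext
    rw [Sec.mulL_s, map_zero, zero_smul]; rfl
  map_add' b b' := by
    ext x
    apply Sec.ext
    rw [Sec.mulL_s, map_add, add_smul]; rfl
  commutes' a := by
    ext x
    apply Sec.ext
    rw [Sec.mulL_s, fO_algebraMap]; rfl

lemma actO_s (L : (pullback c (spm k A)).Modules) (b : τ.B0) (x : ESec τ L) :
    (actO τ L b x).s = fO τ A b • x.s := rfl

variable {τ}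

/-- evaluation of sections, linear form -/
def valL (hε : ε.1 ⁻¹ᵁ τ.U = ⊤) {L : (pullback c (spm k A)).Modules}
    {ℓ : Γ((Scheme.Modules.pullback (rigSection c (spm k A) ε)).obj L, ⊤)} (hℓ : IsGen _ ℓ) :
    Sec (pullback.snd c (spm k A)) L (tc τ A).U →ₗ[A] A where
  toFun x := val hε hℓ x.s
  map_add' x x' := val_add hε hℓ x.s x'.s
  map_smul' a x := val_strHom_smul hε hℓ a x.s

/-- the evaluation functional on `P` -/
def lamO (hε : ε.1 ⁻¹ᵁ τ.U = ⊤) {L : (pullback c (spm k A)).Modules}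
    (hL : Scheme.Modules.IsInvertible L)
    {ℓ : Γ((Scheme.Modules.pullback (rigSection c (spm k A) ε)).obj L, ⊤)} (hℓ : IsGen _ ℓ) :
    (latOf (tc τ A) L hL).P →ₗ[A] A :=
  (valL hε hℓ) ∘ₗ ((equivP (tc τ A) hL).symm : _ →ₗ[A] _)

lemma lamO_eq (hε : ε.1 ⁻¹ᵁ τ.U = ⊤) {L : (pullback c (spm k A)).Modules}
    (hL : Scheme.Modules.IsInvertible L)
    {ℓ : Γ((Scheme.Modules.pullback (rigSection c (spm k A) ε)).obj L, ⊤)} (hℓ : IsGen _ ℓ)
    (x : (latOf (tc τ A) L hL).P) (z : Γ(L, (tc τ A).U))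
    (h : (x : ESec τ L).s = res L inf_le_left z) :
    lamO hε hL hℓ x = val hε hℓ z := by
  change val hε hℓ ((equivP (tc τ A) hL).symm x).s = val hε hℓ z
  congr 1
  have h1 : x = equivP (tc τ A) hL (toSec z) := Subtype.ext (Sec.ext h)
  rw [h1, LinearEquiv.symm_apply_apply]
  rfl

/-- **the lattice with action attached to a line bundle with a rigidification** -/
def actLat (hε : ε.1 ⁻¹ᵁ τ.U = ⊤) {L : (pullback c (spm k A)).Modules}
    (hL : Scheme.Modules.IsInvertible L)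
    {ℓ : Γ((Scheme.Modules.pullback (rigSection c (spm k A) ε)).obj L, ⊤)} (hℓ : IsGen _ ℓ) :
    ActLat (B := τ.B0) τ.t τ.F (τ.eval hε) A (ESec τ L) where
  toP1Lat := latOf (tc τ A) L hL
  act := actO τ L
  act_t x := rfl
  act_P b := by
    rintro _ ⟨z, rfl⟩
    refine ⟨Sec.mulL _ L (fU τ A b) z, ?_⟩
    apply Sec.ext
    rw [actO_s, Sec.resL_s, Sec.resL_s, Sec.mulL_s, res_smul]
    rfl
  act_Q m b hb := by
    rintro _ ⟨z, rfl⟩
    obtain ⟨y, hy⟩ := hb
    refine ⟨Sec.resL _ L inf_le_right (Sec.mulL _ L (fV τ A y) z), ⟨_, rfl⟩, ?_⟩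
    apply Sec.ext
    have h1 : ∀ x : ESec τ L, (((mulT (tc τ A) L) ^ m : _ ≃ₗ[A] _) x).s =
      (tc τ A).tr ^ m • x.s := mulT_pow_s _ _ _
    refine (h1 _).trans ?_
    rw [actO_s, Sec.resL_s, Sec.resL_s, Sec.mulL_s, res_smul, ← mul_smul]
    congr 1
    rw [fV_eq_of_mem τ hy, ← mul_assoc, ← mul_pow, (tc τ A).tr_mul_sr, one_pow, one_mul]
  lam := lamO hε hL hℓ
  lam_act b x := by
    obtain ⟨x, z, hz⟩ := x
    have h1 : x.s = res L inf_le_left z.s := (congrArg Sec.s hz).symm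
    have h2 := lamO_eq hε hL hℓ ⟨x, z, hz⟩ z.s h1
    refine Eq.trans ?_ (congrArg (algebraMap k A (τ.eval hε b) * ·) h2.symm)
    refine Eq.trans (lamO_eq hε hL hℓ _ (fU τ A b • z.s) ?_) (val_fst_smul hε hℓ b z.s)
    rw [res_smul, ← h1]
    rfl

variable (hε : ε.1 ⁻¹ᵁ τ.U = ⊤) {L : (pullback c (spm k A)).Modules}
    (hL : Scheme.Modules.IsInvertible L)
    {ℓ : Γ((Scheme.Modules.pullback (rigSection c (spm k A) ε)).obj L, ⊤)} (hℓ : IsGen _ ℓ)

@[simp] lemma actLat_toP1Lat : (actLat hε hL hℓ).toP1Lat = latOf (tc τ A) L hL := rfl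

lemma actLat_act_s (b : τ.B0) (x : ESec τ L) :
    ((actLat hε hL hℓ).act b x).s = fO τ A b • x.s := rfl

lemma actLat_lam (x : (actLat hε hL hℓ).P) (z : Γ(L, (tc τ A).U))
    (h : (x : ESec τ L).s = res L inf_le_left z) :
    (actLat hε hL hℓ).lam x = val hε hℓ z := lamO_eq hε hL hℓ x z h

/-- acyclicity -/
theorem acyc_iff : Acyc τ L ↔ IsCompl (actLat hε hL hℓ).P (actLat hε hL hℓ).Q := by
  constructor
  · intro h
    constructor
    · rw [Submodule.disjoint_def]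
      rintro _ ⟨x, rfl⟩ ⟨y, hy⟩
      have h1 : x.s = 0 := h.h0 x.s y.s (congrArg Sec.s hy).symm
      have h2 : x = 0 := h1
      rw [h2, map_zero]
    · rw [codisjoint_iff, eq_top_iff]
      rintro z -
      obtain ⟨x, y, hxy⟩ := h.h1 z.s
      exact Submodule.mem_sup.mpr ⟨_, ⟨toSec x, rfl⟩, _, ⟨toSec y, rfl⟩, hxy.symm⟩
  · intro h
    constructor
    · intro x y hxy
      have h1 := Submodule.disjoint_def.mp h.disjoint (toSec (res L inf_le_left x))
        ⟨toSec x, rfl⟩ ⟨toSec y, hxy.symm⟩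
      have h2 : res L (inf_le_left : (tc τ A).U ⊓ (tc τ A).V ≤ (tc τ A).U) x = 0 := h1
      exact resU_injective (tc τ A) hL (h2.trans (res_zero L _).symm)
    · intro z
      obtain ⟨_, ⟨x, rfl⟩, _, ⟨y, rfl⟩, hxy⟩ := Submodule.mem_sup.mp
        ((h.codisjoint.eq_top).ge (Submodule.mem_top (x := (toSec z : ESec τ L))))
      exact ⟨x.s, y.s, hxy.symm⟩

end actLat

/-! ### matrix data -/

/-- an additive equivalence compatible with constants, in linear form -/
def secLin {A : Type u} [CommRing A] {Y : Scheme.{u}} {y : Y ⟶ Spec (CommRingCat.of A)}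
    {L : Y.Modules} {W : Y.Opens} {n : ℕ} (θ : (Fin n → A[X]) ≃+ Γ(L, W))
    (hC : ∀ (a : A) (v : Fin n → A[X]), θ (Polynomial.C a • v) = strHom y W a • θ v) :
    (Fin n → A[X]) ≃ₗ[A] Sec y L W where
  toFun v := toSec (θ v)
  invFun z := θ.symm z.s
  map_add' v v' := by rw [map_add, toSec_add]
  map_smul' a v := by
    have h1 : a • v = Polynomial.C a • v := by
      funext i
      rw [Pi.smul_apply, Pi.smul_apply, Polynomial.smul_eq_C_mul, smul_eq_mul]
    rw [h1, hC, RingHom.id_apply, toSec_smul]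
  left_inv v := θ.symm_apply_apply v
  right_inv z := θ.apply_symm_apply z.s

@[simp] lemma secLin_apply {A : Type u} [CommRing A] {Y : Scheme.{u}}
    {y : Y ⟶ Spec (CommRingCat.of A)}
    {L : Y.Modules} {W : Y.Opens} {n : ℕ} (θ : (Fin n → A[X]) ≃+ Γ(L, W))
    (hC : ∀ (a : A) (v : Fin n → A[X]), θ (Polynomial.C a • v) = strHom y W a • θ v)
    (v : Fin n → A[X]) : secLin θ hC v = toSec (θ v) := rfl

section rep

variable {k : Type u} [Field k] {C : Scheme.{u}} {c : C ⟶ Spec (CommRingCat.of k)}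
  {ε : SchemeHomOver (𝟙 (Spec (CommRingCat.of k))) c} {A : Type u} [CommRing A] [Algebra k A]
  {τ : TwoChart c} {hε : ε.1 ⁻¹ᵁ τ.U = ⊤} {p : Fin τ.n → FreeAlgebra k (τ.B0 × ℕ)}
  {M : RigidifiedLineBundle c ε (spm k A)} {x : H45.ChartPt (τ.chartData hε p) A}

/-- the lattice of a rigidified line bundle -/
abbrev latM (hε : ε.1 ⁻¹ᵁ τ.U = ⊤) (M : RigidifiedLineBundle c ε (spm k A))
    {ℓ : Γ((Scheme.Modules.pullback (rigSection c (spm k A) ε)).obj M.L, ⊤)} (hℓ : IsGen _ ℓ) :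
    ActLat (B := τ.B0) τ.t τ.F (τ.eval hε) A (ESec τ M.L) := actLat hε M.isInvertible hℓ

variable {ℓ : Γ((Scheme.Modules.pullback (rigSection c (spm k A) ε)).obj M.L, ⊤)}
  (hℓ : IsGen _ ℓ)

/-- `RepData` gives `LatRep` -/
theorem exists_latRep (h : RepData τ hε p M x) :
    ∃ u : Aˣ, Nonempty (H2Lat.LatRep (D := τ.chartData hε p) (latM hε M hℓ) x u) := by
  obtain ⟨f, hf⟩ := hℓ.exists_unit h.ℓ_gen
  have htop : ∀ W : (Spec (CommRingCat.of A)).Opens, W = ⊤ →
    ∀ hW : W ≤ ⊤, resO hW (f : Γ(Spec (CommRingCat.of A), ⊤)) =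
      strHom (𝟙 (Spec (CommRingCat.of A))) W (H2Lat.glob A rfl f) := by
    intro W hW hW'
    subst hW
    rw [strHom_glob]
    exact resO_self _ _
  refine ⟨Units.map (H2Lat.glob A rfl).toMonoidHom f, ⟨
    { ρ_t := x.ρ_t
      θ0 := secLin h.θ0 h.θ0_C ≪≫ₗ equivP (tc τ A) M.isInvertible
      θ1 := secLin h.θ1 h.θ1_C ≪≫ₗ equivQ (tc τ A) M.isInvertible
      act := fun b v => ?_
      θ1_X := fun v => ?_
      θ01 := fun v => ?_
      lam := fun v => ?_ }⟩⟩
  · apply Sec.ext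
    rw [actLat_act_s]
    change res M.L (inf_le_left : (tc τ A).U ⊓ (tc τ A).V ≤ (tc τ A).U) (h.θ0 (x.ρ b *ᵥ v)) =
      fO τ A b • res M.L (inf_le_left : (tc τ A).U ⊓ (tc τ A).V ≤ (tc τ A).U) (h.θ0 v)
    rw [h.θ0_B b v]
    exact res_smul M.L _ (fU τ A b) (h.θ0 v)
  · apply Sec.ext
    change res M.L (inf_le_right : (tc τ A).U ⊓ (tc τ A).V ≤ (tc τ A).V) (h.θ1 ((X : A[X]) • v)) =
      (tc τ A).sr • res M.L (inf_le_right : (tc τ A).U ⊓ (tc τ A).V ≤ (tc τ A).V) (h.θ1 v)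
    rw [h.θ1_X v]
    exact res_smul M.L _ (fV τ A τ.s) (h.θ1 v)
  · apply Sec.ext
    exact h.θ01 v
  · refine (actLat_lam hε M.isInvertible hℓ _ (h.θ0 (H2Lat.cst v)) rfl).trans ?_
    apply val_eq
    refine (h.θ0_ℓ v).trans ?_
    rw [hf, res_smul, ← mul_smul, htop _ (pre_UA τ hε), ← map_mul, mul_comm]
    rfl

/-- `LatRep` gives `Rep` -/
theorem rep_of_latRep (r : H2Lat.LatRep (D := τ.chartData hε p) (latM hε M hℓ) x 1) :
    Rep τ hε p M x := by
  let E0 : (Fin τ.n → A[X]) ≃ₗ[A] Sec (pullback.snd c (spm k A)) M.L (tc τ A).U :=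
    r.θ0 ≪≫ₗ (equivP (tc τ A) M.isInvertible).symm
  let E1 : (Fin τ.n → A[X]) ≃ₗ[A] Sec (pullback.snd c (spm k A)) M.L (tc τ A).V :=
    r.θ1 ≪≫ₗ (equivQ (tc τ A) M.isInvertible).symm
  have h0 : ∀ v, (r.θ0 v : ESec τ M.L).s =
      res M.L (inf_le_left : (tc τ A).U ⊓ (tc τ A).V ≤ (tc τ A).U) (E0 v).s := by
    intro v
    have h1 : r.θ0 v = equivP (tc τ A) M.isInvertible (E0 v) :=
      ((equivP (tc τ A) M.isInvertible).apply_symm_apply _).symm
    rw [h1]; rfl
  have h1 : ∀ v, (r.θ1 v : ESec τ M.L).s =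
      res M.L (inf_le_right : (tc τ A).U ⊓ (tc τ A).V ≤ (tc τ A).V) (E1 v).s := by
    intro v
    have h1 : r.θ1 v = equivQ (tc τ A) M.isInvertible (E1 v) :=
      ((equivQ (tc τ A) M.isInvertible).apply_symm_apply _).symm
    rw [h1]; rfl
  have hCa : ∀ (a : A) (v : Fin τ.n → A[X]), Polynomial.C a • v = a • v := by
    intro a v
    funext i
    rw [Pi.smul_apply, Pi.smul_apply, Polynomial.smul_eq_C_mul, smul_eq_mul]
  refine ⟨
    { θ0 := E0.toAddEquiv
      θ1 := E1.toAddEquiv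
      ℓ := ℓ
      ℓ_gen := hℓ
      θ0_C := fun a v => ?_
      θ0_B := fun b v => ?_
      θ1_C := fun a v => ?_
      θ1_X := fun v => ?_
      θ01 := fun v => ?_
      θ0_ℓ := fun v => ?_ }⟩
  · rw [hCa]
    exact E0.map_smul a v
  · apply resU_injective (tc τ A) M.isInvertible
    refine (h0 _).symm.trans ?_
    refine (congrArg Sec.s (r.act b v)).trans ?_
    rw [actLat_act_s, h0]
    exact (res_smul M.L _ (fU τ A b) (E0 v).s).symm
  · rw [hCa]
    exact E1.map_smul a v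
  · apply resV_injective (tc τ A) M.isInvertible
    refine (h1 _).symm.trans ?_
    refine (congrArg Sec.s (r.θ1_X v)).trans ?_
    refine Eq.trans ?_ (res_smul M.L _ (fV τ A τ.s) (E1 v).s).symm
    rw [← h1]
    rfl
  · refine (h1 _).symm.trans ?_
    refine (congrArg Sec.s (r.θ01 v)).trans ?_
    exact congrArg ((tc τ A).sr • ·) (h0 _)
  · refine (val_spec hε hℓ (E0 (H2Lat.cst v)).s).trans ?_
    have h2 := actLat_lam hε M.isInvertible hℓ (r.θ0 (H2Lat.cst v)) (E0 (H2Lat.cst v)).s (h0 _)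
    have h3 := r.lam v
    rw [Units.val_one, one_mul] at h3
    rw [← h2]
    exact congrArg (fun a => strHom (𝟙 (Spec (CommRingCat.of A)))
      (rigSection c (spm k A) ε ⁻¹ᵁ τ.UA A) a • res _ le_top ℓ) h3

/-- **R3**: uniqueness of the matrix data -/
theorem rep_unique {x' : H45.ChartPt (τ.chartData hε p) A} (h : Rep τ hε p M x)
    (h' : Rep τ hε p M x') : x = x' := by
  obtain ⟨h⟩ := h
  obtain ⟨h'⟩ := h'
  obtain ⟨ℓ, hℓ⟩ := exists_rigGen M
  obtain ⟨u, ⟨r⟩⟩ := exists_latRep hℓ h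
  obtain ⟨u', ⟨r'⟩⟩ := exists_latRep hℓ h'
  exact r.unique r'

/-- **R8**: bundles with matrix data are acyclic -/
theorem rep_acyc (h : Rep τ hε p M x) : Acyc τ M.L := by
  obtain ⟨h⟩ := h
  obtain ⟨ℓ, hℓ⟩ := exists_rigGen M
  obtain ⟨u, ⟨r⟩⟩ := exists_latRep hℓ h
  exact (acyc_iff hε M.isInvertible hℓ).mpr r.isCompl

/-- bundles with matrix data have bijective coordinate map -/
theorem rep_kap (h : Rep τ hε p M x) : ∃ hc : IsCompl (latM hε M hℓ).P (latM hε M hℓ).Q,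
    Function.Bijective ((latM hε M hℓ).kap hc p) := by
  obtain ⟨h⟩ := h
  obtain ⟨u, ⟨r⟩⟩ := exists_latRep hℓ h
  exact ⟨r.isCompl, r.kap_bijective⟩

/-- bundles with bijective coordinate map have matrix data -/
theorem exists_rep_of_kap (hc : IsCompl (latM hε M hℓ).P (latM hε M hℓ).Q)
    (hk : Function.Bijective ((latM hε M hℓ).kap hc p)) :
    ∃ x : H45.ChartPt (τ.chartData hε p) A, Rep τ hε p M x := by
  obtain ⟨x, ⟨r⟩⟩ := H2Lat.exists_chartPt (D := τ.chartData hε p) (latM hε M hℓ) hc hk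
  exact ⟨x, rep_of_latRep hℓ r⟩

end rep

end Fermat.Agent.H2G2
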