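import Fermat.Agent.H2G2
/-!
# S25-G2, part 2: base change of the lattice of a rigidified line bundle
-/
set_option autoImplicit false
universe u v
open CategoryTheory AlgebraicGeometry CategoryTheory.Limits TopologicalSpace Opposite Polynomial
open NeronModelInfra AlgebraicGeometry.RelPicard
open scoped Matrix

noncomputable section

namespace Fermat.Agent.H2G2

open Fermat.Agent.H25

/-! ### pullback of the rigidification -/

section pull

variable {k : Type u} [Field k] {C : Scheme.{u}} {c : C ⟶ Spec (CommRingCat.of k)}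
  {ε : SchemeHomOver (𝟙 (Spec (CommRingCat.of k))) c}
  {T T' : Scheme.{u}} {t : T ⟶ Spec (CommRingCat.of k)} {t' : T' ⟶ Spec (CommRingCat.of k)}

/-- the canonical isomorphism `σ'^* g^* L ≅ f^* σ^* L` -/
def rigIso (ψ : SchemeHomOver t' t) (L : (pullback c t).Modules) :
    (Scheme.Modules.pullback (rigSection c t' ε)).obj
      ((Scheme.Modules.pullback (baseChangeSnd c ψ)).obj L) ≅
    (Scheme.Modules.pullback ψ.1).obj ((Scheme.Modules.pullback (rigSection c t ε)).obj L) :=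
  (Scheme.Modules.pullbackComp (rigSection c t' ε) (baseChangeSnd c ψ)).app L ≪≫
    (Scheme.Modules.pullbackCongr (rigSection_baseChangeSnd c ε ψ)).app L ≪≫
    ((Scheme.Modules.pullbackComp ψ.1 (rigSection c t ε)).app L).symm

lemma rig_preimage (ψ : SchemeHomOver t' t) (W : (pullback c t).Opens) :
    rigSection c t' ε ⁻¹ᵁ (baseChangeSnd c ψ ⁻¹ᵁ W) = ψ.1 ⁻¹ᵁ (rigSection c t ε ⁻¹ᵁ W) := by
  rw [← Scheme.Hom.comp_preimage, rigSection_baseChangeSnd, Scheme.Hom.comp_preimage]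

lemma rigIso_pb (ψ : SchemeHomOver t' t) (L : (pullback c t).Modules) {W : (pullback c t).Opens}
    (z : Γ(L, W)) :
    (rigIso (ε := ε) ψ L).hom.app _ (pb (rigSection c t' ε) _ (pb (baseChangeSnd c ψ) L z)) =
      res _ (rig_preimage ψ W).le (pb ψ.1 _ (pb (rigSection c t ε) L z)) := by
  have h1 := pb_pb (rigSection c t' ε) (baseChangeSnd c ψ) (M := L) z
  have h2 := pb_congr' (M := L) (rigSection_baseChangeSnd c ε ψ) z
  have h3 := pb_comp_inv ψ.1 (rigSection c t ε) (M := L) z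
  have h4 : (rigIso (ε := ε) ψ L).hom.app (rigSection c t' ε ⁻¹ᵁ (baseChangeSnd c ψ ⁻¹ᵁ W))
      (pb (rigSection c t' ε) _ (pb (baseChangeSnd c ψ) L z)) =
      ((Scheme.Modules.pullbackComp ψ.1 (rigSection c t ε)).inv.app L).app _
        (((Scheme.Modules.pullbackCongr (rigSection_baseChangeSnd c ε ψ)).hom.app L).app _
          (((Scheme.Modules.pullbackComp (rigSection c t' ε) (baseChangeSnd c ψ)).hom.app L).app _
            (pb (rigSection c t' ε) _ (pb (baseChangeSnd c ψ) L z)))) := rfl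
  rw [h4, h1]
  refine (congrArg _ h2).trans ?_
  exact (app_res _ _ _).trans (congrArg _ h3)

/-- the pulled back generator -/
theorem exists_rig_pullback (ψ : SchemeHomOver t' t) {L : (pullback c t).Modules}
    {ℓ : Γ((Scheme.Modules.pullback (rigSection c t ε)).obj L, ⊤)} (hℓ : IsGen _ ℓ) :
    ∃ ℓ' : Γ((Scheme.Modules.pullback (rigSection c t' ε)).obj
      ((Scheme.Modules.pullback (baseChangeSnd c ψ)).obj L), ⊤), IsGen _ ℓ' ∧
      ∀ (W : (pullback c t).Opens) (z : Γ(L, W)) (a : Γ(T, rigSection c t ε ⁻¹ᵁ W)),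
        pb (rigSection c t ε) L z = a • res _ le_top ℓ →
        pb (rigSection c t' ε) _ (pb (baseChangeSnd c ψ) L z) =
          resO (rig_preimage ψ W).le (ψ.1.app _ a) • res _ le_top ℓ' := by
  refine ⟨(rigIso (ε := ε) ψ L).inv.app ⊤ (pb ψ.1 _ ℓ), (hℓ.pb ψ.1 _).map_iso _, ?_⟩
  intro W z a hz
  have h1 := rigIso_pb (ε := ε) ψ L z
  rw [hz, pb_smul, res_smul] at h1
  have h2 : ∀ (V : T'.Opens) (y : Γ((Scheme.Modules.pullback (rigSection c t' ε)).obj
      ((Scheme.Modules.pullback (baseChangeSnd c ψ)).obj L), V)),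
      (rigIso (ε := ε) ψ L).inv.app V ((rigIso (ε := ε) ψ L).hom.app V y) = y := by
    intro V y
    rw [← ConcreteCategory.comp_apply, ← Scheme.Modules.Hom.comp_app, Iso.hom_inv_id]; rfl
  have h3 := congrArg ((rigIso (ε := ε) ψ L).inv.app _) h1
  rw [h2, app_smul'] at h3
  refine h3.trans ?_
  congr 1
  have h4 : (pb ψ.1 _ (res _ (le_top : rigSection c t ε ⁻¹ᵁ W ≤ ⊤) ℓ)) =
    res _ (ψ.1.preimage_mono le_top) (pb ψ.1 _ ℓ) := pb_res _ _ _ _
  rw [h4, res_res, app_res]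
  rfl

end pull

/-! ### base change of the lattice -/

section bc

variable {k : Type u} [Field k] {C : Scheme.{u}} {c : C ⟶ Spec (CommRingCat.of k)}
  {ε : SchemeHomOver (𝟙 (Spec (CommRingCat.of k))) c}
  {A : Type u} [CommRing A] [Algebra k A] {A' : Type u} [CommRing A'] [Algebra k A']
  (τ : TwoChart c) (φ : A →ₐ[k] A')

lemma U_pre : (tc τ A').U = baseChangeSnd c (spa φ) ⁻¹ᵁ (tc τ A).U := by
  change pullback.fst c (spm k A') ⁻¹ᵁ τ.U =
    baseChangeSnd c (spa φ) ⁻¹ᵁ (pullback.fst c (spm k A) ⁻¹ᵁ τ.U)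
  rw [← Scheme.Hom.comp_preimage, baseChangeSnd_fst]

lemma V_pre : (tc τ A').V = baseChangeSnd c (spa φ) ⁻¹ᵁ (tc τ A).V := by
  change pullback.fst c (spm k A') ⁻¹ᵁ τ.V =
    baseChangeSnd c (spa φ) ⁻¹ᵁ (pullback.fst c (spm k A) ⁻¹ᵁ τ.V)
  rw [← Scheme.Hom.comp_preimage, baseChangeSnd_fst]

lemma fU_pre (b : τ.B0) : fU τ A' b =
    resO (U_pre τ φ).le ((baseChangeSnd c (spa φ)).app _ (fU τ A b)) := by
  have h1 := congr_app_apply (baseChangeSnd_fst c (spa φ)).symm (V := τ.U) (τ.fn b)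
  rw [H25.comp_app_apply] at h1
  exact h1

lemma UV_pre : (tc τ A').U ⊓ (tc τ A').V ≤
    baseChangeSnd c (spa φ) ⁻¹ᵁ ((tc τ A).U ⊓ (tc τ A).V) :=
  inf_le_inf (U_pre τ φ).le (V_pre τ φ).le

lemma fO_pre (b : τ.B0) : fO τ A' b = resO (UV_pre τ φ)
        ((baseChangeSnd c (spa φ)).app _ (fO τ A b)) := by
  rw [fO_apply, fO_apply, fU_pre τ φ, app_resO]
  exact (resO_resO _ _ _).trans (resO_resO _ _ _).symm

lemma preimage_spa : (Spec.preimage (spa φ).1).hom = φ.toRingHom := by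
  rw [Spec.preimage_map]
  rfl

lemma UA_pre : τ.UA A' = baseChangeSnd c (spa φ) ⁻¹ᵁ τ.UA A := by
  rw [← Scheme.Hom.comp_preimage, baseChangeSnd_fst]

variable {τ}

theorem val_pre (hε : ε.1 ⁻¹ᵁ τ.U = ⊤) {L : (pullback c (spm k A)).Modules}
    {ℓ : Γ((Scheme.Modules.pullback (rigSection c (spm k A) ε)).obj L, ⊤)} (hℓ : IsGen _ ℓ)
    {ℓ' : Γ((Scheme.Modules.pullback (rigSection c (spm k A') ε)).obj
      ((Scheme.Modules.pullback (baseChangeSnd c (spa φ))).obj L), ⊤)} (hℓ' : IsGen _ ℓ')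
    (h : ∀ (W : (pullback c (spm k A)).Opens) (z : Γ(L, W))
        (a : Γ(Spec (CommRingCat.of A), rigSection c (spm k A) ε ⁻¹ᵁ W)),
        pb (rigSection c (spm k A) ε) L z = a • res _ le_top ℓ →
        pb (rigSection c (spm k A') ε) _ (pb (baseChangeSnd c (spa φ)) L z) =
          resO (rig_preimage (spa φ) W).le ((spa φ).1.app _ a) • res _ le_top ℓ')
    (z : Γ(L, τ.UA A)) :
    val hε hℓ' (pbL (baseChangeSnd c (spa φ)) (Iso.refl _) (UA_pre τ φ).le z) =
      φ (val hε hℓ z) := by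
  apply val_eq
  have h1 := h _ z _ (val_spec hε hℓ z)
  have w : (spa φ).1 ≫ 𝟙 _ = 𝟙 _ ≫ (spa φ).1 := by rw [Category.comp_id, Category.id_comp]
  rw [H51Pb.app_strHom w, preimage_spa] at h1
  have h2 : pbL (baseChangeSnd c (spa φ)) (Iso.refl _) (UA_pre τ φ).le z =
    res _ (UA_pre τ φ).le (pb (baseChangeSnd c (spa φ)) L z) := rfl
  rw [h2]
  refine (pb_res _ _ _ _).trans ?_
  rw [h1, res_smul, res_res]
  congr 1

/-- **base change of the lattice with action** -/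
theorem exists_actBC (hε : ε.1 ⁻¹ᵁ τ.U = ⊤) {L : (pullback c (spm k A)).Modules}
    (hL : Scheme.Modules.IsInvertible L)
    {ℓ : Γ((Scheme.Modules.pullback (rigSection c (spm k A) ε)).obj L, ⊤)} (hℓ : IsGen _ ℓ)
    (hL' : Scheme.Modules.IsInvertible
      ((Scheme.Modules.pullback (baseChangeSnd c (spa φ))).obj L))
    [Algebra A A'] (hA : algebraMap A A' = φ.toRingHom) :
    ∃ (ℓ' : Γ((Scheme.Modules.pullback (rigSection c (spm k A') ε)).obj
      ((Scheme.Modules.pullback (baseChangeSnd c (spa φ))).obj L), ⊤)) (hℓ' : IsGen _ ℓ'),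
      ∀ [Module A (ESec τ ((Scheme.Modules.pullback (baseChangeSnd c (spa φ))).obj L))]
        [IsScalarTower A A' (ESec τ ((Scheme.Modules.pullback (baseChangeSnd c (spa φ))).obj L))],
      ∃ β : ESec τ L →ₗ[A] ESec τ ((Scheme.Modules.pullback (baseChangeSnd c (spa φ))).obj L),
        (∀ x, (β x).s = pbL (baseChangeSnd c (spa φ)) (Iso.refl _) (UV_pre τ φ) x.s) ∧
        ActBC (actLat hε hL hℓ) (actLat hε hL' hℓ') β := by
  obtain ⟨ℓ', hℓ', H⟩ := exists_rig_pullback (spa φ) hℓ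
  refine ⟨ℓ', hℓ', ?_⟩
  intro _ _
  obtain ⟨β, hβ, hbc⟩ := exists_isBC (isPullback_baseChangeSnd c (spa φ)) (tc τ A) (tc τ A')
    (U_pre τ φ) (V_pre τ φ) (fU_pre τ φ τ.t) hL hL' (Iso.refl _)
    (hA.trans (preimage_spa φ).symm)
  replace hβ : ∀ x : ESec τ L, (β x).s =
    pbL (baseChangeSnd c (spa φ)) (Iso.refl _) (UV_pre τ φ) x.s := hβ
  refine ⟨β, hβ, { toIsBC := hbc, act := ?_, lam := ?_ }⟩
  · intro b x
    apply Sec.ext
    rw [hβ, actLat_act_s, actLat_act_s, pbL_smul, hβ, fO_pre τ φ]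
  · rintro ⟨x, z, hz⟩
    have h1 : x.s = res L inf_le_left z.s := (congrArg Sec.s hz).symm
    have h2 := actLat_lam hε hL hℓ ⟨x, z, hz⟩ z.s h1
    have h3 := actLat_lam hε hL' hℓ' ⟨β x, hbc.memP x ⟨z, hz⟩⟩
      (pbL (baseChangeSnd c (spa φ)) (Iso.refl _) (U_pre τ φ).le z.s) (by
        rw [hβ, h1]
        exact pbL_res _ _ _ _ _ _ _)
    rw [h3, h2, hA]
    exact val_pre φ hε hℓ hℓ' H z.s

end bc

end Fermat.Agent.H2G2
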