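import Fermat.Agent.H2G2BC
import Fermat.Agent.H2G1c
/-!
# S25-E3: base change and openness of matrix data (R5, R6)
-/
set_option autoImplicit false
universe u v
open CategoryTheory AlgebraicGeometry CategoryTheory.Limits TopologicalSpace Opposite Polynomial
open NeronModelInfra AlgebraicGeometry.RelPicard
open scoped Matrix

noncomputable section

namespace Fermat.Agent.H2G2

open Fermat.Agent.H25

variable {k : Type u} [Field k] {C : Scheme.{u}} {c : C ⟶ Spec (CommRingCat.of k)}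
  {ε : SchemeHomOver (𝟙 (Spec (CommRingCat.of k))) c} {A : Type u} [CommRing A] [Algebra k A]
  {A' : Type u} [CommRing A'] [Algebra k A']
  {τ : TwoChart c} {hε : ε.1 ⁻¹ᵁ τ.U = ⊤} {p : Fin τ.n → FreeAlgebra k (τ.B0 × ℕ)}
  {M : RigidifiedLineBundle c ε (spm k A)} {x : H45.ChartPt (τ.chartData hε p) A}

/-- **R5**: base change of matrix data -/
theorem rep_pullback (h : Rep τ hε p M x) (φ : A →ₐ[k] A') :
    Rep τ hε p (M.pullbackAlong (spa φ)) (x.map φ) := by
  obtain ⟨ℓ, hℓ⟩ := exists_rigGen M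
  obtain ⟨hc, hk⟩ := rep_kap hℓ h
  obtain ⟨h⟩ := h
  obtain ⟨u, ⟨r⟩⟩ := exists_latRep hℓ h
  let _ : Algebra A A' := φ.toRingHom.toAlgebra
  have : IsScalarTower k A A' := IsScalarTower.of_algebraMap_eq fun a => (φ.commutes a).symm
  obtain ⟨ℓ', hℓ', H⟩ := exists_actBC φ hε M.isInvertible hℓ
    (M.pullbackAlong (spa φ)).isInvertible rfl
  let _ : Module A (ESec τ ((Scheme.Modules.pullback (baseChangeSnd c (spa φ))).obj M.L)) :=
    Module.compHom _ (algebraMap A A')
  have : IsScalarTower A A'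
      (ESec τ ((Scheme.Modules.pullback (baseChangeSnd c (spa φ))).obj M.L)) :=
    ⟨fun a b z => by rw [Algebra.smul_def, mul_smul]; rfl⟩
  obtain ⟨β, -, hβ⟩ := H
  have hP := finProjP (tc τ A) M.isInvertible
  have hQ := finProjQ (tc τ A) M.isInvertible
  have hc' := hβ.isCompl hP hc
  have hk' := hβ.kap_bijective hP hQ hc hc' hk
  obtain ⟨x', ⟨r'⟩⟩ := H2Lat.exists_chartPt (D := τ.chartData hε p)
    (latM hε (M.pullbackAlong (spa φ)) hℓ') hc' hk'
  have hx := H2Lat.map_unique (D := τ.chartData hε p) hβ φ rfl r r'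
  rw [← hx]
  exact rep_of_latRep hℓ' r'

/-- **R6**: openness -/
theorem exists_open_rep {K : Type u} [Field K] [Algebra k K] (φK : A →ₐ[k] K)
    {xK : H45.ChartPt (τ.chartData hε p) K} (h : Rep τ hε p (M.pullbackAlong (spa φK)) xK) :
    ∃ f : A, φK f ≠ 0 ∧ ∀ (A' : Type u) [CommRing A'] [Algebra k A'] (φ : A →ₐ[k] A'),
      IsUnit (φ f) → ∃ x : H45.ChartPt (τ.chartData hε p) A',
        Rep τ hε p (M.pullbackAlong (spa φ)) x := by
  obtain ⟨ℓ, hℓ⟩ := exists_rigGen M
  let _ : Algebra A K := φK.toRingHom.toAlgebra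
  have : IsScalarTower k A K := IsScalarTower.of_algebraMap_eq fun a => (φK.commutes a).symm
  obtain ⟨ℓK, hℓK, H⟩ := exists_actBC φK hε M.isInvertible hℓ
    (M.pullbackAlong (spa φK)).isInvertible rfl
  let _ : Module A (ESec τ ((Scheme.Modules.pullback (baseChangeSnd c (spa φK))).obj M.L)) :=
    Module.compHom _ (algebraMap A K)
  have : IsScalarTower A K
      (ESec τ ((Scheme.Modules.pullback (baseChangeSnd c (spa φK))).obj M.L)) :=
    ⟨fun a b z => by rw [Algebra.smul_def, mul_smul]; rfl⟩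
  obtain ⟨βK, -, hβK⟩ := H
  have hP := finProjP (tc τ A) M.isInvertible
  have hQ := finProjQ (tc τ A) M.isInvertible
  have hk1 := rep_kap (M := M.pullbackAlong (spa φK)) hℓK h
  obtain ⟨hcK, hkK⟩ := hk1
  obtain ⟨f, hf, Hf⟩ := exists_open_kap (L := actLat hε M.isInvertible hℓ) hP hQ hβK hcK p hkK
  refine ⟨f, hf, ?_⟩
  intro A' _ _ φ hu
  let _ : Algebra A A' := φ.toRingHom.toAlgebra
  have : IsScalarTower k A A' := IsScalarTower.of_algebraMap_eq fun a => (φ.commutes a).symm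
  obtain ⟨ℓ', hℓ', H⟩ := exists_actBC φ hε M.isInvertible hℓ
    (M.pullbackAlong (spa φ)).isInvertible rfl
  let _ : Module A (ESec τ ((Scheme.Modules.pullback (baseChangeSnd c (spa φ))).obj M.L)) :=
    Module.compHom _ (algebraMap A A')
  have : IsScalarTower A A'
      (ESec τ ((Scheme.Modules.pullback (baseChangeSnd c (spa φ))).obj M.L)) :=
    ⟨fun a b z => by rw [Algebra.smul_def, mul_smul]; rfl⟩
  obtain ⟨β, -, hβ⟩ := H
  obtain ⟨hc', hk'⟩ := Hf A' _ _ β hβ hu
  exact exists_rep_of_kap hℓ' hc' hk'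

end Fermat.Agent.H2G2
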