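import Fermat.Agent.H10_P1LatOpen
import Fermat.Agent.H45Chart
/-!
# S25-E3 (part I): curve lattices and frames (pure algebra)

* `CurveAlg k`: coordinate rings `B0`, `B1`, `B01` of the two charts of a curve, with a point `e`.
* `CLat 𝒟 A E`: a "rigidified sheaf on the curve over `A`", as a module `E` over `B01` and `A`, with
  a `B0`-submodule `P`, a `B1`-submodule `Q` and the evaluation `lam : P → A` at the point `e`.
* `CLat.toP1Lat`: the underlying lattice on `P¹_A`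
* `IsFrame L pt v`: `L` is acyclic and `v` is the basis of `V = P ∩ τQ` dual to the coordinates
  `lam ∘ p_i`, with matrices given by the chart point `pt`.
-/
set_option autoImplicit false
universe u v
open Polynomial

noncomputable section

namespace Fermat.Agent.H2Lat

open Fermat.Agent.H25 Fermat.Agent.H45 Fermat.Agent.H10.Lat

/-- Coordinate rings of the two charts of a curve over `k`, and a point of the first chart. -/
structure CurveAlg (k : Type u) [Field k] where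
  B0 : Type u
  B1 : Type u
  B01 : Type u
  [r0 : CommRing B0]
  [r1 : CommRing B1]
  [r01 : CommRing B01]
  [a0 : Algebra k B0]
  [a1 : Algebra k B1]
  [a01 : Algebra k B01]
  i0 : B0 →ₐ[k] B01
  i1 : B1 →ₐ[k] B01
  t : B0
  s : B1
  mul_eq_one : i0 t * i1 s = 1
  exh0 : ∀ b : B01, ∃ (m : ℕ) (a : B0), i0 a = b * i0 t ^ m
  exh1 : ∀ b : B01, ∃ (m : ℕ) (a : B1), i1 a = b * i1 s ^ m
  e : B0 →ₐ[k] k

attribute [instance] CurveAlg.r0 CurveAlg.r1 CurveAlg.r01 CurveAlg.a0 CurveAlg.a1 CurveAlg.a01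

variable {k : Type u} [Field k]

/-- functions on the first chart with pole of order at most `m` at infinity -/
def CurveAlg.F (𝒟 : CurveAlg k) (m : ℕ) : Submodule k 𝒟.B0 :=
  (LinearMap.range 𝒟.i1.toLinearMap).comap
    ((LinearMap.mulRight k (𝒟.i1 𝒟.s ^ m)) ∘ₗ 𝒟.i0.toLinearMap)

lemma CurveAlg.mem_F {𝒟 : CurveAlg k} {m : ℕ} {b : 𝒟.B0} :
    b ∈ 𝒟.F m ↔ ∃ a : 𝒟.B1, 𝒟.i1 a = 𝒟.i0 b * 𝒟.i1 𝒟.s ^ m := Iff.rfl

/-- the chart data of a curve -/
def CurveAlg.chartData (𝒟 : CurveAlg k) {n : ℕ} (p : Fin n → FreeAlgebra k (𝒟.B0 × ℕ)) :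
    ChartData k 𝒟.B0 n where
  t := 𝒟.t
  F := 𝒟.F
  exh b := 𝒟.exh1 (𝒟.i0 b)
  e := 𝒟.e
  p := p

/-- A rigidified sheaf on the curve over `A`. -/
structure CLat (𝒟 : CurveAlg k) (A : Type u) [CommRing A] [Algebra k A] (E : Type u)
    [AddCommGroup E] [Module A E] where
  act : 𝒟.B01 →+* Module.End A E
  act_k : ∀ (c : k) (x : E), act (algebraMap k _ c) x = algebraMap k A c • x
  P : Submodule A E
  Q : Submodule A E
  act_P : ∀ (b : 𝒟.B0) (x : E), x ∈ P → act (𝒟.i0 b) x ∈ P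
  act_Q : ∀ (b : 𝒟.B1) (x : E), x ∈ Q → act (𝒟.i1 b) x ∈ Q
  exhP : ∀ x : E, ∃ m : ℕ, act (𝒟.i0 𝒟.t ^ m) x ∈ P
  exhQ : ∀ x : E, ∃ m : ℕ, act (𝒟.i1 𝒟.s ^ m) x ∈ Q
  lam : P →ₗ[A] A
  lam_act : ∀ (b : 𝒟.B0) (x : P),
    lam ⟨act (𝒟.i0 b) x, act_P b x x.2⟩ = algebraMap k A (𝒟.e b) * lam x

namespace CLat

variable {𝒟 : CurveAlg k} {A : Type u} [CommRing A] [Algebra k A] {E : Type u}
  [AddCommGroup E] [Module A E] (L : CLat 𝒟 A E)

lemma act_act (a b : 𝒟.B01) (x : E) : L.act a (L.act b x) = L.act (a * b) x := by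
  rw [map_mul]; rfl

lemma act_comm (a b : 𝒟.B01) (x : E) : L.act a (L.act b x) = L.act b (L.act a x) := by
  rw [act_act, act_act, mul_comm]

lemma act_one (x : E) : L.act 1 x = x := by rw [map_one]; rfl

/-- multiplication by `t` -/
def tau : E ≃ₗ[A] E :=
  LinearEquiv.ofLinearMap (L.act (𝒟.i0 𝒟.t)) (L.act (𝒟.i1 𝒟.s))
    (LinearMap.ext fun x => by
      change L.act _ (L.act _ x) = x
      rw [act_act, 𝒟.mul_eq_one, act_one])
    (LinearMap.ext fun x => by
      change L.act _ (L.act _ x) = x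
      rw [act_act, mul_comm, 𝒟.mul_eq_one, act_one])

lemma tau_apply (x : E) : L.tau x = L.act (𝒟.i0 𝒟.t) x := rfl
lemma tau_symm_apply (x : E) : L.tau.symm x = L.act (𝒟.i1 𝒟.s) x := rfl

lemma tau_pow_apply (m : ℕ) (x : E) : (L.tau ^ m) x = L.act (𝒟.i0 𝒟.t ^ m) x := by
  induction m generalizing x with
  | zero => simp
  | succ m ih =>
    rw [pow_succ, pow_succ, ← act_act, ← ih]
    rfl

lemma tau_symm_pow_apply (m : ℕ) (x : E) : (L.tau.symm ^ m) x = L.act (𝒟.i1 𝒟.s ^ m) x := by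
  induction m generalizing x with
  | zero => simp
  | succ m ih =>
    rw [pow_succ, pow_succ, ← act_act, ← ih]
    rfl

/-- the underlying lattice on the projective line -/
def toP1Lat : P1Lat A E where
  τ := L.tau
  P := L.P
  Q := L.Q
  τ_mem x hx := L.act_P _ x hx
  τ_symm_mem x hx := L.act_Q _ x hx
  exhaustP x := by
    obtain ⟨m, hm⟩ := L.exhP x
    exact ⟨m, by rw [tau_pow_apply]; exact hm⟩
  exhaustQ x := by
    obtain ⟨m, hm⟩ := L.exhQ x
    exact ⟨m, by rw [tau_symm_pow_apply]; exact hm⟩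

@[simp] lemma toP1Lat_P : L.toP1Lat.P = L.P := rfl
@[simp] lemma toP1Lat_Q : L.toP1Lat.Q = L.Q := rfl
@[simp] lemma toP1Lat_τ : L.toP1Lat.τ = L.tau := rfl

/-- `V = P ∩ τQ` -/
abbrev V : Submodule A E := L.toP1Lat.K 1

lemma tau_pow_apply' (m : ℕ) (x : E) :
    ((L.tau : E →ₗ[A] E) ^ m) x = L.act (𝒟.i0 𝒟.t ^ m) x := by
  induction m generalizing x with
  | zero => simp
  | succ m ih =>
    rw [pow_succ, pow_succ, ← act_act, ← ih]
    rfl

/-- polynomials in `τ` -/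
lemma act_aeval (b : 𝒟.B01) (q : A[X]) (x : E) :
    L.act b (aeval (L.tau : E →ₗ[A] E) q x) =
      aeval (L.tau : E →ₗ[A] E) q (L.act b x) := by
  induction q using Polynomial.induction_on' with
  | add p q hp hq =>
    simp only [map_add, LinearMap.add_apply, hp, hq]
  | monomial j a =>
    rw [aeval_monomial]
    rw [Module.End.mul_apply, Module.End.mul_apply, tau_pow_apply', tau_pow_apply']
    rw [Module.algebraMap_end_apply, Module.algebraMap_end_apply, map_smul, act_comm]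

/-- base change of curve lattices -/
structure IsBCC {A' : Type u} [CommRing A'] [Algebra k A'] [Algebra A A'] {E' : Type u}
    [AddCommGroup E'] [Module A' E'] [Module A E'] [IsScalarTower A A' E'] (L' : CLat 𝒟 A' E')
    (β : E →ₗ[A] E') : Prop where
  bc : L.toP1Lat.IsBC L'.toP1Lat β
  act : ∀ (b : 𝒟.B01) (x : E), β (L.act b x) = L'.act b (β x)
  lam : ∀ x : L.P, L'.lam ⟨β x, bc.memP x x.2⟩ = algebraMap A A' (L.lam x)

/-- isomorphisms of curve lattices -/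
structure Iso {E' : Type u} [AddCommGroup E'] [Module A E'] (L' : CLat 𝒟 A E') where
  φ : E ≃ₗ[A] E'
  act : ∀ (b : 𝒟.B01) (x : E), φ (L.act b x) = L'.act b (φ x)
  memP : ∀ x, φ x ∈ L'.P ↔ x ∈ L.P
  memQ : ∀ x, φ x ∈ L'.Q ↔ x ∈ L.Q
  lam : ∀ x : L.P, L'.lam ⟨φ x, (memP x).mpr x.2⟩ = L.lam x

/-- `L` is acyclic and `v` is a basis of `V` in which the structure of `L` is given by the chart
point `pt`. -/
structure IsFrame {n : ℕ} {p : Fin n → FreeAlgebra k (𝒟.B0 × ℕ)}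
    (pt : ChartPt (𝒟.chartData p) A) (v : Fin n → E) : Prop where
  compl : IsCompl L.P L.Q
  mem : ∀ l, v l ∈ L.V
  bij : Function.Bijective (fun a : Fin n → A => (∑ l, a l • ⟨v l, mem l⟩ : L.V))
  act : ∀ (b : 𝒟.B0) (l : Fin n), L.act (𝒟.i0 b) (v l) =
    ∑ i, aeval (L.tau : E →ₗ[A] E) (pt.ρ b i l) (v i)
  lam : ∀ l, L.lam ⟨v l, (mem l).1⟩ = pt.lam l

end CLat

end Fermat.Agent.H2Lat
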