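import Fermat.Agent.H25Glue2
/-!
# S25: rigidified isomorphisms (S1)
Abstract setting: `f : Y ⟶ T` with a section `e : T ⟶ Y`, such that for every open `W` of `T`
functions on `f⁻¹ W` are determined by their restriction along `e`.  `M`, `N` invertible modules on
`Y` with trivialisations `ρ`, `σ` along `e`.
* `ev e ρ s`: the value of a section `s` of `M` along `e`
* `rig_unique`: rigidified local isomorphisms are unique
* `exists_rig`: a local isomorphism can be rigidified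
* `exists_iso_of_locally`: locally isomorphic ⇒ isomorphic
-/
set_option autoImplicit false
universe u v
open CategoryTheory AlgebraicGeometry CategoryTheory.Limits TopologicalSpace Opposite

noncomputable section

namespace Fermat.Agent.H2Pic

open Fermat.Agent.H25

variable {Y T : Scheme.{u}} {M N : Y.Modules}

/-- evaluation of a section along `e : T ⟶ Y`, using a trivialisation of `e^* M` -/
def ev (e : T ⟶ Y) (ρ : (Scheme.Modules.pullback e).obj M ⟶ uMod T)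
    {G : Y.Opens} (s : Γ(M, G)) : Γ(T, e ⁻¹ᵁ G) :=
  uFun (ρ.app (e ⁻¹ᵁ G) (pb e M s))

section ev

variable (e : T ⟶ Y) (ρ : (Scheme.Modules.pullback e).obj M ⟶ uMod T)

lemma ev_smul {G : Y.Opens} (a : Γ(Y, G)) (s : Γ(M, G)) :
    ev e ρ (a • s) = e.app G a * ev e ρ s := by
  unfold ev
  rw [pb_smul, app_smul', uFun_smul]

lemma ev_res {G H : Y.Opens} (h : H ≤ G) (s : Γ(M, G)) :
    ev e ρ (res M h s) = resO (e.preimage_mono h) (ev e ρ s) := by
  unfold ev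
  rw [pb_res, app_res, uFun_res]

lemma isUnit_ev [IsIso ρ] {G : Y.Opens} {s : Γ(M, G)} (hs : IsGen M s) : IsUnit (ev e ρ s) := by
  have h1 := (hs.pb e M).map_iso ρ
  rw [← isGen_uSec_iff]
  exact h1

end ev

/-- the setting: a section `e` of `f` such that functions on `f⁻¹ W` are determined by their
restriction along `e`. -/
structure Rig (e : T ⟶ Y) (f : Y ⟶ T) : Prop where
  comp : e ≫ f = 𝟙 T
  inj : ∀ W : T.Opens, Function.Injective (e.app (f ⁻¹ᵁ W))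

namespace Rig

variable {e : T ⟶ Y} {f : Y ⟶ T} (h : Rig e f)
include h

lemma preimage (W : T.Opens) : e ⁻¹ᵁ (f ⁻¹ᵁ W) = W := by
  rw [← Scheme.Hom.comp_preimage, h.comp, Scheme.Hom.id_preimage]

lemma app_app {W : T.Opens} (a : Γ(T, W)) :
    e.app (f ⁻¹ᵁ W) (f.app W a) = resO (h.preimage W).le a := by
  rw [← ConcreteCategory.comp_apply, ← Scheme.Hom.comp_app]
  have : ∀ (g : T ⟶ T) (hg : g = 𝟙 T), g.app W a = resO (by rw [hg]; exact le_rfl) a := by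
    intro g hg
    subst hg
    rw [Scheme.Hom.id_app]
    exact (resO_self (X := T) le_rfl a).symm
  exact this _ h.comp

omit h in
/-- `φ` is compatible with the trivialisations along `e` -/
def IsRig (ρ : (Scheme.Modules.pullback e).obj M ⟶ uMod T)
    (σ : (Scheme.Modules.pullback e).obj N ⟶ uMod T) {W : Y.Opens} (φ : LIso W M N) : Prop :=
  ∀ (G : Y.Opens) (hG : G ≤ W) (s : Γ(M, G)), ev e σ (φ.hom.f G hG s) = ev e ρ s

/-- rigidified isomorphisms are unique -/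
theorem unique (hM : Scheme.Modules.IsInvertible M)
    (ρ : (Scheme.Modules.pullback e).obj M ⟶ uMod T) [IsIso ρ]
    (σ : (Scheme.Modules.pullback e).obj N ⟶ uMod T) [IsIso σ] {W : T.Opens}
    {φ ψ : LIso (f ⁻¹ᵁ W) M N} (hφ : IsRig ρ σ φ) (hψ : IsRig ρ σ ψ)
    (G : Y.Opens) (hG : G ≤ f ⁻¹ᵁ W) (s : Γ(M, G)) : φ.hom.f G hG s = ψ.hom.f G hG s := by
  -- generators on a cover of `f⁻¹ W`
  have h1 : ∀ x : (f ⁻¹ᵁ W : Y.Opens), ∃ (V : Y.Opens) (_ : V ≤ f ⁻¹ᵁ W) (_ : x.1 ∈ V)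
      (s : Γ(M, V)), IsGen M s := fun x ↦ exists_isGen_of_mem hM x.2
  choose V hV hxV g hg using h1
  have hc : f ⁻¹ᵁ W ≤ ⨆ x, V x := fun x hx ↦ Opens.mem_iSup.mpr ⟨⟨x, hx⟩, hxV _⟩
  have h2 : ∀ x, ∃ u : Γ(Y, V x), φ.hom.f (V x) (hV x) (g x) = u • ψ.hom.f (V x) (hV x) (g x) :=
    fun x ↦ (ψ.isGen (hV x) (hg x)).surj _
  choose u hu using h2
  -- the units agree on overlaps
  have key : ∀ (x : (f ⁻¹ᵁ W : Y.Opens)) (Z : Y.Opens) (hZ : Z ≤ V x) (s : Γ(M, Z)),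
      φ.hom.f Z (hZ.trans (hV x)) s = resO hZ (u x) • ψ.hom.f Z (hZ.trans (hV x)) s := by
    intro x Z hZ s
    obtain ⟨a, ha⟩ := (hg x).surj' hZ s
    rw [ha, φ.hom.smul, ψ.hom.smul, φ.hom.res _ _ (hV x) hZ, ψ.hom.res _ _ (hV x) hZ, hu, res_smul,
      smul_comm]
  obtain ⟨v, hv⟩ := secO_glue (U := f ⁻¹ᵁ W) V hV hc u (by
    intro x y Z hx hy
    have hgen := ψ.isGen (hx.trans (hV x)) ((hg x).res hx)
    apply hgen.inj
    rw [← key x Z hx, ← key y Z hy])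
  have hv1 : e.app _ v = 1 := by
    refine secO_ext (fun x ↦ e ⁻¹ᵁ (V x)) (fun x ↦ e.preimage_mono (hV x)) ?_ ?_
    · rw [← Scheme.Hom.preimage_iSup]
      exact e.preimage_mono hc
    · intro x
      rw [← app_resO e (hV x) v, hv, resO_one]
      have h3 : ev e σ (φ.hom.f (V x) (hV x) (g x)) = ev e σ (ψ.hom.f (V x) (hV x) (g x)) := by
        rw [hφ, hψ]
      rw [hu, ev_smul] at h3
      have h4 := isUnit_ev e σ (ψ.isGen (hV x) (hg x))
      exact h4.mul_right_cancel (by rw [h3, one_mul])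
  have hv2 : v = 1 := h.inj W (by rw [hv1, map_one])
  refine sec_ext (fun x ↦ G ⊓ V x) (fun x ↦ inf_le_left) (inf_cover (hG.trans hc)) ?_
  intro x
  rw [← φ.hom.res, ← ψ.hom.res, key x (G ⊓ V x) inf_le_right, ← hv x, hv2, resO_one, resO_one,
    one_smul]

/-- every local isomorphism can be rigidified -/
theorem exists_isRig (hM : Scheme.Modules.IsInvertible M)
    (ρ : (Scheme.Modules.pullback e).obj M ⟶ uMod T) [IsIso ρ]
    (σ : (Scheme.Modules.pullback e).obj N ⟶ uMod T) [IsIso σ] {W : T.Opens}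
    (φ : LIso (f ⁻¹ᵁ W) M N) : ∃ ψ : LIso (f ⁻¹ᵁ W) M N, IsRig ρ σ ψ := by
  have h1 : ∀ x : (f ⁻¹ᵁ W : Y.Opens), ∃ (V : Y.Opens) (_ : V ≤ f ⁻¹ᵁ W) (_ : x.1 ∈ V)
      (s : Γ(M, V)), IsGen M s := fun x ↦ exists_isGen_of_mem hM x.2
  choose V hV hxV g hg using h1
  have hc : f ⁻¹ᵁ W ≤ ⨆ x, V x := fun x hx ↦ Opens.mem_iSup.mpr ⟨⟨x, hx⟩, hxV _⟩
  have hc' : W ≤ ⨆ x, e ⁻¹ᵁ (V x) := by
    rw [← Scheme.Hom.preimage_iSup]
    exact (h.preimage W).ge.trans (e.preimage_mono hc)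
  have hle : ∀ x, e ⁻¹ᵁ (V x) ≤ W := fun x ↦ (e.preimage_mono (hV x)).trans (h.preimage W).le
  have h2 : ∀ x, IsUnit (ev e ρ (g x)) := fun x ↦ isUnit_ev e ρ (hg x)
  have h3 : ∀ x, IsUnit (ev e σ (φ.hom.f (V x) (hV x) (g x))) :=
    fun x ↦ isUnit_ev e σ (φ.isGen (hV x) (hg x))
  have h4 : ∀ x, ∃ v : Γ(T, e ⁻¹ᵁ (V x)), IsUnit v ∧
      v * ev e σ (φ.hom.f (V x) (hV x) (g x)) = ev e ρ (g x) := by
    intro x
    obtain ⟨b, hb⟩ := h3 x
    refine ⟨ev e ρ (g x) * ↑b⁻¹, (h2 x).mul b⁻¹.isUnit, ?_⟩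
    rw [← hb, mul_assoc, Units.inv_mul, mul_one]
  choose v hvu hv using h4
  -- `v` works for all sections
  have key : ∀ (x : (f ⁻¹ᵁ W : Y.Opens)) (Z : Y.Opens) (hZ : Z ≤ V x) (s : Γ(M, Z)),
      resO (e.preimage_mono hZ) (v x) * ev e σ (φ.hom.f Z (hZ.trans (hV x)) s) = ev e ρ s := by
    intro x Z hZ s
    obtain ⟨a, ha⟩ := (hg x).surj' hZ s
    rw [ha, φ.hom.smul, ev_smul, ev_smul, φ.hom.res _ _ (hV x) hZ, ev_res, ev_res, ← hv x, resO_mul]
    ring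
  obtain ⟨w, hw⟩ := secO_glue (U := W) (fun x ↦ e ⁻¹ᵁ (V x)) hle hc' v (by
    intro x y Z hx hy
    -- compare on `e⁻¹ (V x ⊓ V y)`
    have hZ : Z ≤ e ⁻¹ᵁ (V x ⊓ V y) := le_inf hx hy
    have e1 := key x (V x ⊓ V y) inf_le_left (res M inf_le_left (g x))
    have e2 := key y (V x ⊓ V y) inf_le_right (res M inf_le_left (g x))
    have e3 : IsUnit (ev e σ (φ.hom.f (V x ⊓ V y) (inf_le_left.trans (hV x))
      (res M inf_le_left (g x)))) := isUnit_ev e σ (φ.isGen _ ((hg x).res inf_le_left))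
    have e4 := e3.mul_right_cancel (e1.trans e2.symm)
    have e5 := congrArg (resO hZ) e4
    rwa [resO_resO, resO_resO] at e5)
  have hwu : IsUnit w := by
    have : IsGen (uMod T) (uSec w) := by
      refine IsGen.of_cover (fun x ↦ e ⁻¹ᵁ (V x)) hle hc' fun x ↦ ?_
      rw [res_uSec, hw, isGen_uSec_iff]
      exact hvu x
    exact (isGen_uSec_iff w).mp this
  obtain ⟨w', hw'⟩ := hwu
  -- multiply `φ` by `f^# w`
  let a : Γ(Y, f ⁻¹ᵁ W) := f.app W w
  let b : Γ(Y, f ⁻¹ᵁ W) := f.app W ↑w'⁻¹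
  have hab : a * b = 1 := by
    rw [← map_mul, ← hw', Units.mul_inv, map_one]
  have hba : b * a = 1 := by rw [mul_comm, hab]
  refine ⟨⟨⟨fun G hG ↦ AddMonoidHom.mk' (fun s ↦ resO hG a • φ.hom.f G hG s) ?_, ?_, ?_⟩,
    ⟨fun G hG ↦ AddMonoidHom.mk' (fun s ↦ resO hG b • φ.inv.f G hG s) ?_, ?_, ?_⟩, ?_, ?_⟩, ?_⟩
  · intro x y; rw [map_add, smul_add]
  · intro G hG c x
    change resO hG a • φ.hom.f G hG (c • x) = c • (resO hG a • φ.hom.f G hG x)
    rw [φ.hom.smul, smul_comm]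
  · intro G H hG hH x
    change resO (hH.trans hG) a • φ.hom.f H (hH.trans hG) (res M hH x) =
      res N hH (resO hG a • φ.hom.f G hG x)
    rw [φ.hom.res, res_smul, resO_resO]
  · intro x y; rw [map_add, smul_add]
  · intro G hG c x
    change resO hG b • φ.inv.f G hG (c • x) = c • (resO hG b • φ.inv.f G hG x)
    rw [φ.inv.smul, smul_comm]
  · intro G H hG hH x
    change resO (hH.trans hG) b • φ.inv.f H (hH.trans hG) (res N hH x) =
      res M hH (resO hG b • φ.inv.f G hG x)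
    rw [φ.inv.res, res_smul, resO_resO]
  · intro G hG x
    change resO hG b • φ.inv.f G hG (resO hG a • φ.hom.f G hG x) = x
    rw [φ.inv.smul, φ.hom_inv, ← mul_smul, ← resO_mul, hba, resO_one, one_smul]
  · intro G hG x
    change resO hG a • φ.hom.f G hG (resO hG b • φ.inv.f G hG x) = x
    rw [φ.hom.smul, φ.inv_hom, ← mul_smul, ← resO_mul, hab, resO_one, one_smul]
  · intro G hG s
    change ev e σ (resO hG a • φ.hom.f G hG s) = ev e ρ s
    refine secO_ext (fun x ↦ e ⁻¹ᵁ (G ⊓ V x)) (fun x ↦ e.preimage_mono inf_le_left) ?_ ?_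
    · rw [← Scheme.Hom.preimage_iSup]
      exact e.preimage_mono (inf_cover (hG.trans hc))
    · intro x
      rw [← ev_res, ← ev_res, res_smul, resO_resO, ← φ.hom.res, ev_smul, app_resO, h.app_app,
        resO_resO]
      have := key x (G ⊓ V x) inf_le_right (res M inf_le_left s)
      rw [← hw x, resO_resO] at this
      exact this

/-- **S1**: locally isomorphic rigidified modules are isomorphic. -/
theorem exists_iso {ι : Type*} (hM : Scheme.Modules.IsInvertible M)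
    (ρ : (Scheme.Modules.pullback e).obj M ⟶ uMod T) [IsIso ρ]
    (σ : (Scheme.Modules.pullback e).obj N ⟶ uMod T) [IsIso σ] (W : ι → T.Opens)
    (hW : ⨆ i, W i = ⊤) (φ : ∀ i, LIso (f ⁻¹ᵁ (W i)) M N) :
    ∃ Φ : M ≅ N, ∀ (G : Y.Opens) (s : Γ(M, G)), ev e σ (Φ.hom.app G s) = ev e ρ s := by
  have h1 := fun i ↦ h.exists_isRig hM ρ σ (φ i)
  choose ψ hψ using h1
  have hc : ⨆ i, f ⁻¹ᵁ (W i) = ⊤ := by
    rw [← Scheme.Hom.preimage_iSup, hW]; rfl
  obtain ⟨Φ, hΦ⟩ := LIso.exists_iso (fun i ↦ f ⁻¹ᵁ (W i)) hc ψ (by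
    intro i j G hi hj x
    have hG : G ≤ f ⁻¹ᵁ (W i ⊓ W j) := le_inf hi hj
    have := h.unique hM ρ σ (φ := (ψ i).restr (f.preimage_mono inf_le_left))
      (ψ := (ψ j).restr (f.preimage_mono inf_le_right)) (W := W i ⊓ W j)
      (fun G' hG' s ↦ hψ i _ _ _) (fun G' hG' s ↦ hψ j _ _ _) G hG x
    exact this)
  refine ⟨Φ, fun G s ↦ ?_⟩
  refine secO_ext (fun i ↦ e ⁻¹ᵁ (G ⊓ f ⁻¹ᵁ (W i))) (fun i ↦ e.preimage_mono inf_le_left) ?_ ?_
  · rw [← Scheme.Hom.preimage_iSup]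
    exact e.preimage_mono (inf_cover (by rw [hc]; exact le_top))
  · intro i
    rw [← ev_res e σ inf_le_left, ← ev_res e ρ inf_le_left, ← app_res, hΦ i _ inf_le_right, hψ i]

end Rig

end Fermat.Agent.H2Pic
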