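import Fermat.Agent.H59Maz
import Fermat.Agent.H47LL2
import Fermat.Agent.H81L1
import Fermat.Agent.H88LTRoot
import Fermat.Agent.H45FreyImage

/-!
# S43: final wiring

`T43_of`: the statement S43 from Mazur's principle `MazurOdd`, the statement S44 and the theorem
`LLAt` for the Frey curve.
-/

set_option autoImplicit false
set_option linter.style.haveILetI false

noncomputable section

open Polynomial WeierstrassCurve WeierstrassCurve.Affine WeierstrassCurve.Affine.Point
open Fermat.Agent.H87.Glue Fermat.Agent.H45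

namespace Fermat.Agent.H2S43

local notation "Qb" => AlgebraicClosure ℚ

/-- the local hypotheses for semistable curves -/
theorem localAt_of_semistable (h30 : H96.StatementS30) (h32 : H47.StatementS32')
    {W : WeierstrassCurve ℤ} (hΔ : W.Δ ≠ 0) (hss : W.IsSemistableModel) {p : ℕ}
    [hp : Fact p.Prime] (hp2 : p ≠ 2) (hirr : W.ModRepIsIrreducible p) :
    H59.LocalAt W hΔ p := by
  have hirr' := resZ_isIrreducible W hΔ p hirr
  refine ⟨fun q hq hqp P hP σ hσ => ?_, fun M hM hpM hmod => ?_, fun M hM hmod q hq hqp hqM => ?_⟩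
  · by_cases h : (q : ℤ) ∣ W.Δ
    · have hnd : ¬ q ∣ p := fun h => hqp ((Nat.prime_dvd_prime_iff_eq hq hp.out).mp h)
      obtain ⟨h1, h2⟩ := trace_det_inertia_mult W hΔ hq hp.out.ne_zero hnd h (hss q hq h) hP hσ
      rw [H86.charpoly_eq_of_finrank_two (resZ W hΔ p).finrank_eq]
      change X ^ 2 - C (LinearMap.trace (ZMod p) _ (H87.Tate.rep (EQ W) p σ)) * X +
        C (LinearMap.det (H87.Tate.rep (EQ W) p σ)) = _
      rw [h1, h2, C_1, map_ofNat]
      ring
    · rw [resZ_isUnramifiedAt W hΔ p hq hqp h P hP σ hσ]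
      have h1 : LinearMap.charpoly (1 : Module.End (ZMod p) (resZ W hΔ p).V) =
        (X - 1) ^ Module.finrank (ZMod p) (resZ W hΔ p).V := LinearMap.charpoly_one
      rw [h1, (resZ W hΔ p).finrank_eq]
  · have : NeZero M := ⟨hM.ne'⟩
    exact (H47.isFlatAt_resZ' W hΔ hp2 h30 h32 hirr' hmod).1 hpM
  · have : NeZero M := ⟨hM.ne'⟩
    exact (H47.isFlatAt_resZ' W hΔ hp2 h30 h32 hirr' hmod).2 q hq hqM hqp

/-- `GaloisRepUnramifiedAt` in terms of the residual representation -/
theorem freyRes_isUnramifiedAt_iff (P : FreyPackage) (q : ℕ) :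
    P.GaloisRepUnramifiedAt q ↔ (freyRes P).IsUnramifiedAt q := by
  unfold FreyPackage.GaloisRepUnramifiedAt GaloisRepUnramifiedAt
  rw [← H6.freyCurveInt_map P]
  constructor
  · intro h A hA σ hσ
    exact LinearMap.ext fun x => h A hA σ hσ x
  · intro h A hA σ hσ x
    exact LinearMap.congr_fun (h A hA σ hσ) x

/-- **S43** from Mazur's principle, S44 and the theorem LL for the Frey curve. -/
theorem T43_of (h29 : H96.StatementS29) (h30 : H96.StatementS30) (h32 : H47.StatementS32')
    (Hmz : H2Mz.MazurOdd) (h44 : H88.LTW.T44)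
    (LL : ∀ P : FreyPackage,
      GaloisRepIsIrreducible (K := AlgebraicClosure ℚ) ℚ P.freyCurve P.p →
        H59.LLAt P.freyCurveInt (H6.freyCurveInt_Δ_ne_zero P) P.p) :
    H88.LTW.T43 := by
  intro P N q hcond hq _ hqp hqN hirr hmod hunr
  have h5 := P.hp5
  -- remove `p`
  obtain ⟨N', hN', hpN', hmod'⟩ : ∃ N' : ℕ, N' ∣ N ∧ ¬ P.p ∣ N' ∧ P.ModularRepOfLevel N' := by
    by_cases hp : P.p ∣ N
    · exact h44 P hcond hp hirr hmod
    · exact ⟨N, dvd_rfl, hp, hmod⟩
  have hsq' : Squarefree N' := hcond.squarefree.squarefree_of_dvd hN'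
  have hne : NeZero N' := ⟨hsq'.ne_zero⟩
  have hirr' := frey_modRepIsIrreducible P hirr
  have hmod'' := H81.L1.isResiduallyModularOfLevel_freyCurveInt P h29 hmod'
  obtain ⟨M, hM, hqM, hres⟩ := H59.exists_level (H6.freyCurveInt_Δ_ne_zero P)
    (H59.mazurAt_of_odd _ Hmz (by omega) (by omega) hirr')
    (localAt_of_semistable h30 h32 _ (H6.freyCurveInt_isSemistableModel P) (by omega) hirr')
    (LL P hirr) hsq' hpN' hmod'' hq hqp ((freyRes_isUnramifiedAt_iff P q).mp hunr)
  exact ⟨M, hM.trans hN', hqM, H81.L1.modularRepOfLevel_of_freyCurveInt P hres⟩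

end Fermat.Agent.H2S43
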