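import Mathlib

/-!
# Exact separation of one eigenvalue (S47, block (C), second source of C10/C11 and C20)

`sep_fd`: a family of identities `∑ i, c i ^ (k + 2) * τ i m = 0` for `m ≥ κ * k + κ₀`, where the
`c i` are the (distinct, nonzero, tending to `0`) eigenvalues of a Hilbert-Schmidt operator and
`τ i m` are exponentially bounded in `m`, implies that every single `τ i` which is a finite
exponential sum vanishes.  No averaging in `m` is needed.
-/

set_option autoImplicit false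

noncomputable section

open Polynomial

namespace Fermat.Agent.H2Z

variable {ι : Type*}

/-- A family tending to zero is bounded. -/
theorem bdd_of_fin (c : ι → ℝ) (hfin : ∀ ε : ℝ, 0 < ε → {i | ε ≤ |c i|}.Finite) :
    ∃ B : ℝ, 1 ≤ B ∧ ∀ i, |c i| ≤ B := by
  classical
  refine ⟨1 + ∑ i ∈ (hfin 1 one_pos).toFinset, |c i|, ?_, fun i => ?_⟩
  · have : 0 ≤ ∑ i ∈ (hfin 1 one_pos).toFinset, |c i| := Finset.sum_nonneg fun i _ => abs_nonneg _
    linarith
  · by_cases hi : 1 ≤ |c i|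
    · have hm : i ∈ (hfin 1 one_pos).toFinset := by simpa using hi
      have := Finset.single_le_sum (f := fun i => |c i|) (fun i _ => abs_nonneg (c i)) hm
      linarith
    · have : 0 ≤ ∑ i ∈ (hfin 1 one_pos).toFinset, |c i| :=
        Finset.sum_nonneg fun i _ => abs_nonneg _
      push Not at hi
      linarith

theorem summable_mono (c d : ι → ℝ) (τ : ι → ℕ → ℂ) (B : ℝ) (hB : ∀ i, |c i| ≤ B)
    (hd : ∀ i, 0 ≤ d i) (hsum : Summable fun i => c i ^ 2 * d i)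
    (R : ℝ) (hτ : ∀ i m, ‖τ i m‖ ≤ d i * R ^ m) (k m : ℕ) :
    Summable fun i => (c i : ℂ) ^ (k + 2) * τ i m := by
  refine Summable.of_norm_bounded (g := fun i => B ^ k * |R ^ m| * (c i ^ 2 * d i))
    (hsum.mul_left _) fun i => ?_
  have h1 : ‖(c i : ℂ)‖ = |c i| := by simp
  rw [norm_mul, norm_pow, h1, pow_add]
  have h2 : |c i| ^ k ≤ B ^ k := pow_le_pow_left₀ (abs_nonneg _) (hB i) k
  have h3 : ‖τ i m‖ ≤ d i * |R ^ m| :=
    (hτ i m).trans (mul_le_mul_of_nonneg_left (le_abs_self _) (hd i))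
  have h4 : |c i| ^ 2 = c i ^ 2 := sq_abs _
  rw [h4]
  calc |c i| ^ k * c i ^ 2 * ‖τ i m‖ ≤ B ^ k * c i ^ 2 * (d i * |R ^ m|) :=
        mul_le_mul (mul_le_mul_of_nonneg_right h2 (sq_nonneg _)) h3 (norm_nonneg _)
          (mul_nonneg (pow_nonneg ((abs_nonneg _).trans (hB i)) _) (sq_nonneg _))
    _ = B ^ k * |R ^ m| * (c i ^ 2 * d i) := by ring

/-- The monomial identities imply the identity for all polynomials. -/
theorem poly_id (c d : ι → ℝ) (τ : ι → ℕ → ℂ)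
    (hfin : ∀ ε : ℝ, 0 < ε → {i | ε ≤ |c i|}.Finite)
    (hd : ∀ i, 0 ≤ d i) (hsum : Summable fun i => c i ^ 2 * d i)
    (R : ℝ) (hτ : ∀ i m, ‖τ i m‖ ≤ d i * R ^ m)
    (κ κ₀ : ℕ)
    (hid : ∀ k m : ℕ, κ * k + κ₀ ≤ m → ∑' i, (c i : ℂ) ^ (k + 2) * τ i m = 0)
    (p : ℝ[X]) (m : ℕ) (hm : κ * p.natDegree + κ₀ ≤ m) :
    ∑' i, ((p.eval (c i) * c i ^ 2 : ℝ) : ℂ) * τ i m = 0 := by
  obtain ⟨B, -, hB⟩ := bdd_of_fin c hfin
  have h1 : ∀ i, ((p.eval (c i) * c i ^ 2 : ℝ) : ℂ) * τ i m =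
      ∑ k ∈ Finset.range (p.natDegree + 1), (p.coeff k : ℂ) * ((c i : ℂ) ^ (k + 2) * τ i m) := by
    intro i
    rw [Polynomial.eval_eq_sum_range, Finset.sum_mul, Complex.ofReal_sum, Finset.sum_mul]
    refine Finset.sum_congr rfl fun k _ => ?_
    push_cast
    ring
  simp_rw [h1]
  rw [Summable.tsum_finsetSum fun k _ =>
    (summable_mono c d τ B hB hd hsum R hτ k m).mul_left _]
  refine Finset.sum_eq_zero fun k hk => ?_
  rw [tsum_mul_left, hid k m, mul_zero]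
  refine le_trans ?_ hm
  have : k ≤ p.natDegree := Nat.lt_succ_iff.mp (Finset.mem_range.mp hk)
  gcongr

/-- Bound of one eigenspace contribution by the tail. -/
theorem tail_bound (c d : ι → ℝ) (τ : ι → ℕ → ℂ) (i0 : ι)
    (hc0 : c i0 ≠ 0) (hne : ∀ i, i ≠ i0 → c i ≠ c i0)
    (hfin : ∀ ε : ℝ, 0 < ε → {i | ε ≤ |c i|}.Finite)
    (hd : ∀ i, 0 ≤ d i) (hsum : Summable fun i => c i ^ 2 * d i)
    (R : ℝ) (hR : 0 ≤ R) (hτ : ∀ i m, ‖τ i m‖ ≤ d i * R ^ m)
    (κ κ₀ : ℕ)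
    (hid : ∀ k m : ℕ, κ * k + κ₀ ≤ m → ∑' i, (c i : ℂ) ^ (k + 2) * τ i m = 0)
    (ε : ℝ) (hε : 0 < ε) :
    ∃ (s : ℕ) (D : ℝ), 0 ≤ D ∧ ∀ k m : ℕ, κ * (k + s) + κ₀ ≤ m →
      ‖τ i0 m‖ ≤ D * (ε / |c i0|) ^ k * R ^ m := by
  classical
  set S : Finset ι := (hfin ε hε).toFinset.erase i0 with hS
  set Q : ℝ[X] := ∏ i ∈ S, (X - C (c i)) * C ((c i0 - c i)⁻¹) with hQ
  have hQdeg : Q.natDegree ≤ S.card := by
    refine (Polynomial.natDegree_prod_le _ _).trans ?_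
    rw [Finset.card_eq_sum_ones]
    refine Finset.sum_le_sum fun i _ => ?_
    refine (Polynomial.natDegree_mul_C_le _ _).trans ?_
    exact (Polynomial.natDegree_X_sub_C (c i)).le
  have hQ0 : Q.eval (c i0) = 1 := by
    rw [hQ, Polynomial.eval_prod]
    refine Finset.prod_eq_one fun i hi => ?_
    have hi' : i ≠ i0 := (Finset.mem_erase.mp hi).1
    have : c i0 - c i ≠ 0 := sub_ne_zero.mpr (hne i hi').symm
    simp [this]
  have hQi : ∀ i ∈ S, Q.eval (c i) = 0 := by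
    intro i hi
    rw [hQ, Polynomial.eval_prod]
    refine Finset.prod_eq_zero hi ?_
    simp
  set BQ : ℝ := ∏ i ∈ S, ((ε + |c i|) * |(c i0 - c i)⁻¹|) with hBQ
  have hBQ0 : 0 ≤ BQ := Finset.prod_nonneg fun i _ => by positivity
  have hQb : ∀ x : ℝ, |x| ≤ ε → |Q.eval x| ≤ BQ := by
    intro x hx
    rw [hQ, Polynomial.eval_prod, Finset.abs_prod]
    refine Finset.prod_le_prod (fun i _ => abs_nonneg _) fun i _ => ?_
    rw [Polynomial.eval_mul, Polynomial.eval_sub, Polynomial.eval_X, Polynomial.eval_C,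
      Polynomial.eval_C, abs_mul]
    refine mul_le_mul_of_nonneg_right ?_ (abs_nonneg _)
    calc |x - c i| ≤ |x| + |c i| := abs_sub _ _
      _ ≤ ε + |c i| := by linarith
  set E : ℝ := ∑' i, c i ^ 2 * d i with hE
  have hE0 : 0 ≤ E := tsum_nonneg fun i => mul_nonneg (sq_nonneg _) (hd i)
  refine ⟨S.card, (c i0 ^ 2)⁻¹ * (BQ * E), by positivity, fun k m hm => ?_⟩
  set p : ℝ[X] := (C ((c i0)⁻¹) * X) ^ k * Q with hp
  have hpdeg : p.natDegree ≤ k + S.card := by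
    refine (Polynomial.natDegree_mul_le).trans ?_
    refine Nat.add_le_add ?_ hQdeg
    refine (Polynomial.natDegree_pow_le).trans ?_
    calc k * (C ((c i0)⁻¹) * X).natDegree ≤ k * 1 :=
          Nat.mul_le_mul_left k ((Polynomial.natDegree_C_mul_le _ _).trans Polynomial.natDegree_X_le)
      _ = k := mul_one k
  have hp0 : p.eval (c i0) = 1 := by
    rw [hp, Polynomial.eval_mul, hQ0, Polynomial.eval_pow]
    simp [hc0]
  have hmain := poly_id c d τ hfin hd hsum R hτ κ κ₀ hid p m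
    (le_trans (Nat.add_le_add_right (Nat.mul_le_mul_left κ hpdeg) κ₀) hm)
  have hpe : ∀ i, i ≠ i0 → |p.eval (c i)| ≤ (ε / |c i0|) ^ k * BQ := by
    intro i hi
    by_cases hS' : i ∈ S
    · rw [hp, Polynomial.eval_mul, hQi i hS', mul_zero, abs_zero]
      positivity
    · have hlt : |c i| < ε := by
        by_contra hcon
        push Not at hcon
        apply hS'
        rw [hS, Finset.mem_erase]
        exact ⟨hi, by simpa using hcon⟩
      rw [hp, Polynomial.eval_mul, Polynomial.eval_pow, abs_mul, abs_pow, Polynomial.eval_mul,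
        Polynomial.eval_C, Polynomial.eval_X, abs_mul, abs_inv]
      refine mul_le_mul ?_ (hQb _ hlt.le) (abs_nonneg _) (by positivity)
      refine pow_le_pow_left₀ (by positivity) ?_ k
      rw [inv_mul_eq_div]
      gcongr
  have hsm : Summable fun i => ((p.eval (c i) * c i ^ 2 : ℝ) : ℂ) * τ i m := by
    obtain ⟨B, -, hB⟩ := bdd_of_fin c hfin
    have h1 : ∀ i, ((p.eval (c i) * c i ^ 2 : ℝ) : ℂ) * τ i m =
        ∑ k ∈ Finset.range (p.natDegree + 1), (p.coeff k : ℂ) * ((c i : ℂ) ^ (k + 2) * τ i m) := by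
      intro i
      rw [Polynomial.eval_eq_sum_range, Finset.sum_mul, Complex.ofReal_sum, Finset.sum_mul]
      refine Finset.sum_congr rfl fun k _ => ?_
      push_cast
      ring
    simp_rw [h1]
    exact summable_sum fun k _ => (summable_mono c d τ B hB hd hsum R hτ k m).mul_left _
  rw [hsm.tsum_eq_add_tsum_ite i0, hp0] at hmain
  have hmain' : ((c i0 ^ 2 : ℝ) : ℂ) * τ i0 m = -∑' i, ite (i = i0) 0
      (((p.eval (c i) * c i ^ 2 : ℝ) : ℂ) * τ i m) := by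
    rw [one_mul] at hmain
    linear_combination hmain
  have hbound : ‖((c i0 ^ 2 : ℝ) : ℂ) * τ i0 m‖ ≤ ((ε / |c i0|) ^ k * BQ * R ^ m) * E := by
    rw [hmain', norm_neg]
    refine tsum_of_norm_bounded (g := fun i => ((ε / |c i0|) ^ k * BQ * R ^ m) * (c i ^ 2 * d i))
      (hsum.hasSum.mul_left _) fun i => ?_
    split_ifs with h
    · rw [norm_zero]
      have := hd i
      positivity
    · rw [norm_mul, Complex.norm_real, Real.norm_eq_abs, abs_mul, abs_of_nonneg (sq_nonneg (c i))]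
      calc |p.eval (c i)| * c i ^ 2 * ‖τ i m‖
          ≤ ((ε / |c i0|) ^ k * BQ) * c i ^ 2 * (d i * R ^ m) :=
            mul_le_mul (mul_le_mul_of_nonneg_right (hpe i h) (sq_nonneg _)) (hτ i m)
              (norm_nonneg _) (by positivity)
        _ = ((ε / |c i0|) ^ k * BQ * R ^ m) * (c i ^ 2 * d i) := by ring
  rw [norm_mul, Complex.norm_real, Real.norm_eq_abs, abs_of_nonneg (sq_nonneg (c i0))] at hbound
  have hpos : 0 < c i0 ^ 2 := by positivity
  calc ‖τ i0 m‖ = (c i0 ^ 2)⁻¹ * (c i0 ^ 2 * ‖τ i0 m‖) := by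
        rw [← mul_assoc, inv_mul_cancel₀ hpos.ne', one_mul]
    _ ≤ (c i0 ^ 2)⁻¹ * (((ε / |c i0|) ^ k * BQ * R ^ m) * E) :=
        mul_le_mul_of_nonneg_left hbound (inv_nonneg.mpr hpos.le)
    _ = (c i0 ^ 2)⁻¹ * (BQ * E) * (ε / |c i0|) ^ k * R ^ m := by ring

/-- **Exact separation.** -/
theorem sep_fd (c d : ι → ℝ) (τ : ι → ℕ → ℂ) (i0 : ι)
    (hc0 : c i0 ≠ 0) (hne : ∀ i, i ≠ i0 → c i ≠ c i0)
    (hfin : ∀ ε : ℝ, 0 < ε → {i | ε ≤ |c i|}.Finite)
    (hd : ∀ i, 0 ≤ d i) (hsum : Summable fun i => c i ^ 2 * d i)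
    (R : ℝ) (hR : 0 < R) (hτ : ∀ i m, ‖τ i m‖ ≤ d i * R ^ m)
    (κ κ₀ : ℕ)
    (hid : ∀ k m : ℕ, κ * k + κ₀ ≤ m → ∑' i, (c i : ℂ) ^ (k + 2) * τ i m = 0)
    (J : Finset ℂ) (n : ℂ → ℂ) (hJ : (0 : ℂ) ∉ J)
    (h0 : ∀ m, κ₀ ≤ m → τ i0 m = ∑ u ∈ J, n u * u ^ m) :
    ∀ u ∈ J, n u = 0 := by
  classical
  intro u0 hu0
  have hr : 0 < ‖u0‖ := norm_pos_iff.mpr fun h => hJ (h ▸ hu0)
  have hc : 0 < |c i0| := abs_pos.mpr hc0
  set A : ℝ := (R / ‖u0‖) ^ κ with hA
  have hA0 : 0 ≤ A := by positivity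
  set ε : ℝ := |c i0| / (2 * (1 + A)) with hε
  have hε0 : 0 < ε := by positivity
  obtain ⟨s, D, hD, hb⟩ := tail_bound c d τ i0 hc0 hne hfin hd hsum R hR.le hτ κ κ₀ hid ε hε0
  set L : ℂ[X] := Lagrange.basis J id u0 with hL
  have hL0 : L.eval u0 = 1 := Lagrange.eval_basis_self (v := id) (Function.injective_id.injOn) hu0
  have hL1 : ∀ u ∈ J, u ≠ u0 → L.eval u = 0 := fun u hu hne' =>
    Lagrange.eval_basis_of_ne (v := id) hne'.symm hu
  have hcomb : ∀ m, κ₀ ≤ m → ∑ l ∈ Finset.range (L.natDegree + 1), L.coeff l * τ i0 (m + l) =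
      n u0 * u0 ^ m := by
    intro m hm
    have h1 : ∀ l ∈ Finset.range (L.natDegree + 1), L.coeff l * τ i0 (m + l) =
        ∑ u ∈ J, n u * u ^ m * (L.coeff l * u ^ l) := by
      intro l _
      rw [h0 (m + l) (le_trans hm (Nat.le_add_right m l)), Finset.mul_sum]
      refine Finset.sum_congr rfl fun u _ => ?_
      rw [pow_add]
      ring
    rw [Finset.sum_congr rfl h1, Finset.sum_comm]
    have h2 : ∀ u ∈ J, ∑ l ∈ Finset.range (L.natDegree + 1), n u * u ^ m * (L.coeff l * u ^ l) =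
        n u * u ^ m * L.eval u := by
      intro u _
      rw [← Finset.mul_sum, Polynomial.eval_eq_sum_range]
    rw [Finset.sum_congr rfl h2, Finset.sum_eq_single u0, hL0, mul_one]
    · intro u hu hne'
      rw [hL1 u hu hne', mul_zero]
    · intro h
      exact absurd hu0 h
  set W : ℝ := ∑ l ∈ Finset.range (L.natDegree + 1), ‖L.coeff l‖ * R ^ l with hW
  have hW0 : 0 ≤ W := Finset.sum_nonneg fun l _ => by positivity
  have hkey : ∀ k : ℕ, ‖n u0‖ ≤
      (W * D * (R / ‖u0‖) ^ (κ * s + κ₀)) * ((ε / |c i0|) * A) ^ k := by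
    intro k
    set m := κ * (k + s) + κ₀ with hm
    have h1 : ‖n u0 * u0 ^ m‖ ≤ ∑ l ∈ Finset.range (L.natDegree + 1),
        ‖L.coeff l‖ * (D * (ε / |c i0|) ^ k * R ^ (m + l)) := by
      rw [← hcomb m (Nat.le_add_left _ _)]
      refine (norm_sum_le _ _).trans (Finset.sum_le_sum fun l _ => ?_)
      rw [norm_mul]
      exact mul_le_mul_of_nonneg_left (hb k (m + l) (Nat.le_add_right m l)) (norm_nonneg _)
    have h2 : ∑ l ∈ Finset.range (L.natDegree + 1),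
        ‖L.coeff l‖ * (D * (ε / |c i0|) ^ k * R ^ (m + l)) =
        W * D * (ε / |c i0|) ^ k * R ^ m := by
      rw [hW, Finset.sum_mul, Finset.sum_mul, Finset.sum_mul]
      refine Finset.sum_congr rfl fun l _ => ?_
      rw [pow_add]
      ring
    rw [h2, norm_mul, norm_pow] at h1
    have hrm : 0 < ‖u0‖ ^ m := pow_pos hr m
    have h3 : ‖n u0‖ ≤ W * D * (ε / |c i0|) ^ k * R ^ m / ‖u0‖ ^ m := by
      rw [le_div_iff₀ hrm]
      exact h1
    refine h3.trans (le_of_eq ?_)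
    rw [mul_div_assoc, ← div_pow, hm, mul_add, add_assoc, pow_add, mul_pow, hA, ← pow_mul]
    ring
  have hq : (ε / |c i0|) * A ≤ 1 / 2 := by
    rw [hε, div_div_cancel_left' hc.ne']
    rw [inv_mul_le_iff₀ (by positivity)]
    linarith
  have hq0 : 0 ≤ (ε / |c i0|) * A := by positivity
  have hlim : Filter.Tendsto (fun k : ℕ => (W * D * (R / ‖u0‖) ^ (κ * s + κ₀)) *
      ((ε / |c i0|) * A) ^ k) Filter.atTop (nhds 0) := by
    have := (tendsto_pow_atTop_nhds_zero_of_lt_one hq0 (by linarith)).const_mul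
      (W * D * (R / ‖u0‖) ^ (κ * s + κ₀))
    rwa [mul_zero] at this
  have hle : ‖n u0‖ ≤ 0 := ge_of_tendsto' hlim hkey
  exact norm_le_zero_iff.mp hle

end Fermat.Agent.H2Z
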