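/-
H30PT3: the point of the level defined by the Tate module, for the types F, O, Pα/Pβ.
-/
import Fermat.Agent.H30PT2
import Fermat.Agent.H53POrd

set_option autoImplicit false
set_option linter.style.haveILetI false
set_option linter.unusedSectionVars false

noncomputable section

namespace Fermat.Agent.H30.PT

open IsLocalRing GaloisRep Polynomial
open Fermat.Agent.H53 (GQ M2 MCont toMat mapMat FlatType OrdType PlaceData PData GalLevelB)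
open Fermat.Agent.H87.Glue (resZ tateZ EQ)
open Fermat.Agent.H87.S58 (tO)
open Fermat.Agent.H73LT (LocType nodeSign)
open Fermat.Agent.H75P (MarkElts OrdI cj)

variable {W : WeierstrassCurve ℤ} (hΔ : W.Δ ≠ 0) {p : ℕ} [Fact p.Prime]
  {𝒪 : Type} [CommRing 𝒪] [IsDomain 𝒪] [IsDiscreteValuationRing 𝒪]
  [IsAdicComplete (maximalIdeal 𝒪) 𝒪] [Finite (ResidueField 𝒪)] [CharZero 𝒪]
  (hp𝒪 : (p : 𝒪) ∈ maximalIdeal 𝒪)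
  {ρbar : ResidualGaloisRep (ResidueField 𝒪)}
  {b : Module.Basis (Fin 2) (ResidueField 𝒪) ρbar.V} {A : Finset ℕ}
  {τ ι : Type} [Fintype τ] [Fintype ι] {qT : τ → ℕ} {pl : ∀ t, PlaceData p (qT t)} {u : τ → 𝒪}
  {qB : ι → ℕ} {plB : ∀ i, PlaceData p (qB i)} {uB : ι → 𝒪} {k n : ℕ} {S : Finset ℕ}

/-- **type F** -/
theorem exists_pt_flat (hss : W.IsSemistableModel) (hp2 : p ≠ 2) (hgp : W.IsGoodPrimeFor p)
    {F : ∀ [Algebra (ZMod p) (ResidueField 𝒪)], H56.StatementF (k := ResidueField 𝒪) p}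
    {hdet : (GaloisRepAdic.ofResidualGaloisRep ρbar).DetIsCyclotomic p}
    {hsplit : ∀ σ : AlgebraicClosure ℚ ≃ₐ[ℚ] AlgebraicClosure ℚ,
      ∃ α β : ResidueField 𝒪, LinearMap.charpoly (ρbar.ρ σ) = (X - C α) * (X - C β)}
    {hflat : (GaloisRepAdic.ofResidualGaloisRep ρbar).IsFlatAt p}
    (L : GalLevelB p ρbar b (PData.flat ρbar b F hdet hsplit hflat) A qT pl u qB plB uB k n S)
    (hres : (tO W hΔ hp𝒪).residual.IsEquiv ρbar)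
    (hgood : ∀ q : ℕ, q.Prime → q ≠ p → (q : ℤ) ∣ W.Δ → q ∈ A ∨ (∃ t, qT t = q) ∨ ∃ i, qB i = q)
    (hTpr : ∀ t, (qT t).Prime ∧ qT t ≠ p) (hBpr : ∀ i, (qB i).Prime ∧ qB i ≠ p)
    (hBbad : ∀ i, ((qB i : ℕ) : ℤ) ∣ W.Δ) (huB : ∀ i, uB i = (nodeSign W (qB i) : 𝒪)) :
    ∃ (pt : L.D.R →ₐ[𝒪] 𝒪), IsLocalHom (pt : L.D.R →+* 𝒪) ∧
      (∃ b' : Module.Basis (Fin 2) 𝒪 (tO W hΔ hp𝒪).V,
        toMat (tO W hΔ hp𝒪).ρ b' = mapMat (pt : L.D.R →+* 𝒪) L.r) ∧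
      (∀ σ, pt (L.r σ).trace = (tMat W hΔ hp𝒪 σ).trace) ∧
      (∀ i, pt (L.c i) = 0) ∧
      (∀ t, pt (L.r (pl t).σ).trace = 2) ∧
      (∀ i, pt (L.mB (Sum.inl i) 0) = 0) ∧
      (∀ i, pt (L.mB (Sum.inl i) 2) = 0) :=
  exists_pt_tate hΔ hp𝒪 hss L hres (tO_isFlatAt hΔ hp𝒪 hp2 hgp) hgood hTpr hBpr hBbad huB

/-- **type O** -/
theorem exists_pt_strict (hss : W.IsSemistableModel) (hbad : (p : ℤ) ∣ W.Δ)
    {hp2' : p ≠ 2}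
    {O' : ∀ [Algebra (ZMod p) (ResidueField 𝒪)], H56.StatementO (k := ResidueField 𝒪) p}
    {hdet : (GaloisRepAdic.ofResidualGaloisRep ρbar).DetIsCyclotomic p}
    {hord : (GaloisRepAdic.ofResidualGaloisRep ρbar).IsStrictOrdinaryAt p}
    (L : GalLevelB p ρbar b (PData.strict hp2' ρbar b O' hdet hord) A qT pl u qB plB uB k n S)
    (hres : (tO W hΔ hp𝒪).residual.IsEquiv ρbar)
    (hgood : ∀ q : ℕ, q.Prime → q ≠ p → (q : ℤ) ∣ W.Δ → q ∈ A ∨ (∃ t, qT t = q) ∨ ∃ i, qB i = q)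
    (hTpr : ∀ t, (qT t).Prime ∧ qT t ≠ p) (hBpr : ∀ i, (qB i).Prime ∧ qB i ≠ p)
    (hBbad : ∀ i, ((qB i : ℕ) : ℤ) ∣ W.Δ) (huB : ∀ i, uB i = (nodeSign W (qB i) : 𝒪)) :
    ∃ (pt : L.D.R →ₐ[𝒪] 𝒪), IsLocalHom (pt : L.D.R →+* 𝒪) ∧
      (∃ b' : Module.Basis (Fin 2) 𝒪 (tO W hΔ hp𝒪).V,
        toMat (tO W hΔ hp𝒪).ρ b' = mapMat (pt : L.D.R →+* 𝒪) L.r) ∧
      (∀ σ, pt (L.r σ).trace = (tMat W hΔ hp𝒪 σ).trace) ∧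
      (∀ i, pt (L.c i) = 0) ∧
      (∀ t, pt (L.r (pl t).σ).trace = 2) ∧
      (∀ i, pt (L.mB (Sum.inl i) 0) = 0) ∧
      (∀ i, pt (L.mB (Sum.inl i) 2) = 0) :=
  exists_pt_tate hΔ hp𝒪 hss L hres (tO_isStrictOrdinaryAt hΔ hp𝒪 hss hbad) hgood hTpr hBpr hBbad
    huB

/-- **types Pα, Pβ** -/
theorem exists_pt_ord (hss : W.IsSemistableModel) (hbad : (p : ℤ) ∣ W.Δ)
    {hp2 : p ≠ 2} {hdet : (GaloisRepAdic.ofResidualGaloisRep ρbar).DetIsCyclotomic p}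
    {hord : (GaloisRepAdic.ofResidualGaloisRep ρbar).IsOrdinaryAt p}
    {φ σ₀ : GQ} {hm : MarkElts p φ σ₀} {hr0 : toMat ρbar.ρ b σ₀ = 1} {w : ℤ} {hw : w ^ 2 = 1}
    {g₀ : (M2 (ResidueField 𝒪))ˣ} {hg₀ : OrdI p (cj g₀ (toMat ρbar.ρ b))}
    {hu : cj g₀ (toMat ρbar.ρ b) φ 1 1 = (w : ResidueField 𝒪)}
    (L : GalLevelB p ρbar b (PData.ord hp2 ρbar b hdet hord hm hr0 w hw hg₀ hu) A qT pl u qB plB
      uB k n S)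
    (hres : (tO W hΔ hp𝒪).residual.IsEquiv ρbar)
    (hgood : ∀ q : ℕ, q.Prime → q ≠ p → (q : ℤ) ∣ W.Δ → q ∈ A ∨ (∃ t, qT t = q) ∨ ∃ i, qB i = q)
    (hTpr : ∀ t, (qT t).Prime ∧ qT t ≠ p) (hBpr : ∀ i, (qB i).Prime ∧ qB i ≠ p)
    (hBbad : ∀ i, ((qB i : ℕ) : ℤ) ∣ W.Δ) (huB : ∀ i, uB i = (nodeSign W (qB i) : 𝒪)) :
    ∃ (pt : L.D.R →ₐ[𝒪] 𝒪), IsLocalHom (pt : L.D.R →+* 𝒪) ∧
      (∃ b' : Module.Basis (Fin 2) 𝒪 (tO W hΔ hp𝒪).V,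
        toMat (tO W hΔ hp𝒪).ρ b' = mapMat (pt : L.D.R →+* 𝒪) L.r) ∧
      (∀ σ, pt (L.r σ).trace = (tMat W hΔ hp𝒪 σ).trace) ∧
      (∀ i, pt (L.c i) = 0) ∧
      (∀ t, pt (L.r (pl t).σ).trace = 2) ∧
      (∀ i, pt (L.mB i 0) = 0) ∧
      (∀ i, pt (L.mB i 2) = 0) := by
  obtain ⟨pt, h1, ⟨b', hb'⟩, h3, h4, h5, h6, h7⟩ :=
    exists_pt_tate hΔ hp𝒪 hss L hres (tO_isOrdinaryAt hΔ hp𝒪 hss hbad) hgood hTpr hBpr hBbad huB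
  have ht : pt (L.mB (Sum.inr ()) 0) = 0 :=
    GalLevelB.ord_pt hp2 hdet hord hm hr0 w hw hg₀ hu L inferInstance (pt : L.D.R →+* 𝒪) h1
      (tO W hΔ hp𝒪) b' hb' (tO_isStrictOrdinaryAt hΔ hp𝒪 hss hbad) (tO_detIsCyclotomic hΔ hp𝒪)
  have hz : L.mB (Sum.inr ()) 2 = 0 := GalLevelB.ord_z hp2 hdet hord hm hr0 w hw hg₀ hu L
  refine ⟨pt, h1, ⟨b', hb'⟩, h3, h4, h5, ?_, ?_⟩
  · rintro (i | ⟨⟩)
    · exact h6 i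
    · exact ht
  · rintro (i | ⟨⟩)
    · exact h7 i
    · exact (congrArg pt hz).trans (map_zero pt)

end Fermat.Agent.H30.PT
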