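import Mathlib
import Fermat.Agent.H61L5C
import Fermat.Prelude.Def_WeierstrassCurve_PeuRamifiee

/-!
# Wrappers for level lowering at `p` (S39, S40): general curve, general level (helper61)

* `badSet W p N` : the primes dividing `N`, `p` or the discriminant;
* `residual_dichotomy` : residual modularity of level `M * p`, `p ∤ M`, gives residual modularity of
  level `M` or a `p`-new embedding of `E[p]` into `J₀(Mp)`;
* `isResiduallyModularOfLevel_of_torsion` : a nonzero eigenvector in the `p`-torsion of `J₀(N)` gives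
  residual modularity of level `N`.

No restriction on `M` (not necessarily squarefree), on `p` (odd) or on the curve.
-/

set_option autoImplicit false
set_option linter.style.haveILetI false

noncomputable section

namespace Fermat.Agent.H61C

open CuspForm ModularCurve Fermat.Agent.H31 ModularFormClass CongruenceSubgroup WeierstrassCurve
open WeierstrassCurve.Affine.Point
open Fermat.Agent.H39 (Tor GQb)
open Fermat.Agent.H61.L5

/-- The primes dividing `N`, `p` or the discriminant of `W`. -/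
def badSet (W : WeierstrassCurve ℤ) (p N : ℕ) : Finset ℕ := (N * p * W.Δ.natAbs).primeFactors

theorem mem_badSet {W : WeierstrassCurve ℤ} (hΔ : W.Δ ≠ 0) {p N : ℕ} (hp : p.Prime) (hN : N ≠ 0)
    {q : ℕ} (hq : q.Prime) : q ∈ badSet W p N ↔ q ∣ N ∨ q = p ∨ (q : ℤ) ∣ W.Δ := by
  have hne : N * p * W.Δ.natAbs ≠ 0 :=
    mul_ne_zero (mul_ne_zero hN hp.ne_zero) (Int.natAbs_ne_zero.mpr hΔ)
  rw [badSet, Nat.mem_primeFactors_of_ne_zero hne]
  constructor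
  · rintro ⟨-, h⟩
    rcases hq.dvd_mul.mp h with h | h
    · rcases hq.dvd_mul.mp h with h | h
      · exact Or.inl h
      · exact Or.inr (Or.inl ((Nat.prime_dvd_prime_iff_eq hq hp).mp h))
    · exact Or.inr (Or.inr (Int.natCast_dvd.mpr h))
  · rintro (h | h | h)
    · exact ⟨hq, (h.mul_right _).mul_right _⟩
    · exact ⟨hq, (h ▸ dvd_mul_left _ _ : q ∣ N * p).mul_right _⟩
    · exact ⟨hq, (Int.natCast_dvd.mp h).mul_left _⟩

/-- The primes outside the bad set are good, do not divide the level and are different from `p`. -/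
theorem not_mem_badSet {W : WeierstrassCurve ℤ} (hΔ : W.Δ ≠ 0) {p N : ℕ} (hp : p.Prime) (hN : N ≠ 0)
    {q : ℕ} (hq : q.Prime) : q ∉ badSet W p N ↔ W.IsGoodPrimeFor q ∧ ¬ q ∣ N ∧ q ≠ p := by
  rw [mem_badSet hΔ hp hN hq]
  constructor
  · intro h
    push Not at h
    exact ⟨h.2.2, h.1, h.2.1⟩
  · rintro ⟨h1, h2, h3⟩ (h | h | h)
    · exact h2 h
    · exact h3 h
    · exact h1 h

/-- **The dichotomy** for residual modularity. -/
theorem residual_dichotomy {W : WeierstrassCurve ℤ} (hΔ : W.Δ ≠ 0) {p : Nat.Primes}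
    (hp2 : (p : ℕ) ≠ 2) (hirr : W.ModRepIsIrreducible p) {M : ℕ} [NeZero M] [NeZero (M * p)]
    (hpM : ¬ (p : ℕ) ∣ M) (hmod : W.IsResiduallyModularOfLevel p (M * p)) :
    W.IsResiduallyModularOfLevel p M ∨
      Nonempty (NewEmb W p M (↑(badSet W p M) : Set ℕ)) := by
  obtain ⟨f, 𝔪, hf, h𝔪, hp𝔪, hcong⟩ := hmod
  have hM : M ≠ 0 := NeZero.ne M
  haveI : NeZero (p : ℕ) := ⟨p.2.ne_zero⟩
  have hS : ∀ q : ℕ, q.Prime → (q ∈ badSet W p M ↔ q ∣ M ∨ q = p ∨ (q : ℤ) ∣ W.Δ) :=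
    fun q hq => mem_badSet hΔ p.2 hM hq
  have hS' : ∀ q : ℕ, q.Prime → (q ∉ badSet W p M ↔ W.IsGoodPrimeFor q ∧ ¬ q ∣ M ∧ q ≠ p) :=
    fun q hq => not_mem_badSet hΔ p.2 hM hq
  rcases exists_newEmb_or_of_eigenform (W := W) (p := p) (M := M) (H31.jzeroInputs _)
    (S := badSet W p M) hp2 hpM ((hS _ p.2).mpr (Or.inr (Or.inl rfl)))
    (fun q hq h => (hS q hq).mpr (Or.inl h)) hΔ
    (fun q hq h => (hS q hq).mpr (Or.inr (Or.inr h))) hirr hf h𝔪 hp𝔪 (by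
      intro ℓ hℓ hℓS
      obtain ⟨h1, h2, h3⟩ := (hS' ℓ hℓ).mp hℓS
      refine hcong ℓ hℓ h1 ?_ h3
      intro h
      rcases hℓ.dvd_mul.mp h with h | h
      · exact h2 h
      · exact h3 ((Nat.prime_dvd_prime_iff_eq hℓ p.2).mp h)) with h | h
  · left
    obtain ⟨g, 𝔫, hg, h𝔫, hp𝔫, hg'⟩ := h
    exact ⟨g, 𝔫, hg, h𝔫, hp𝔫, fun ℓ hℓ hgood hℓM hℓp =>
      hg' ℓ hℓ ((hS' ℓ hℓ).mpr ⟨hgood, hℓM, hℓp⟩)⟩
  · exact Or.inr h

/-- A nonzero eigenvector in the `p`-torsion of `J₀(N)` gives residual modularity of level `N`. -/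
theorem isResiduallyModularOfLevel_of_torsion {W : WeierstrassCurve ℤ} (hΔ : W.Δ ≠ 0) {p : ℕ}
    (hp : p.Prime) {N : ℕ} [NeZero N] {x : JZero N} (hx0 : x ≠ 0) (hpx : p • x = 0)
    (hT : ∀ ℓ : Nat.Primes, W.IsGoodPrimeFor ℓ → ¬ (ℓ : ℕ) ∣ N → (ℓ : ℕ) ≠ p →
      heckeOperatorBar N ℓ x = W.apOfModel ℓ • x) :
    W.IsResiduallyModularOfLevel p N := by
  have hN : N ≠ 0 := NeZero.ne N
  have hS : ∀ q : ℕ, q.Prime → (q ∉ badSet W p N ↔ W.IsGoodPrimeFor q ∧ ¬ q ∣ N ∧ q ≠ p) :=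
    fun q hq => not_mem_badSet hΔ hp hN hq
  obtain ⟨f, 𝔪, hf, h𝔪, hp𝔪, h⟩ := exists_eigenform_of_torsion (N := N) (S := badSet W p N)
    (fun q hq h => (mem_badSet hΔ hp hN hq).mpr (Or.inl h)) hp (fun ℓ => W.apOfModel ℓ) hx0 hpx
    (fun ℓ hℓ => by
      obtain ⟨h1, h2, h3⟩ := (hS ℓ ℓ.2).mp hℓ
      exact hT ℓ h1 h2 h3)
  exact ⟨f, 𝔪, hf, h𝔪, hp𝔪, fun ℓ hℓ hg hℓN hℓp => h ℓ hℓ ((hS ℓ hℓ).mpr ⟨hg, hℓN, hℓp⟩)⟩

/-- Level lowering at `p` for all curves that are semistable and peu ramifié at `p`, from the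
statement about `p`-new embeddings. -/
theorem level_lowering_of {p : ℕ} (hp : p.Prime) (hp2 : p ≠ 2) (W : WeierstrassCurve ℤ)
    (hΔ : W.Δ ≠ 0) (hirr : W.ModRepIsIrreducible p)
    (key : ∀ (M : ℕ) [NeZero M] [NeZero (M * p)], ¬ p ∣ M →
      Nonempty (NewEmb W ⟨p, hp⟩ M (↑(badSet W p M) : Set ℕ)) → W.IsResiduallyModularOfLevel p M)
    {M : ℕ} (hM : 0 < M) (hpM : p ∣ M) (hp2M : ¬ p ^ 2 ∣ M)
    (hmod : W.IsResiduallyModularOfLevel p M) :
    W.IsResiduallyModularOfLevel p (M / p) := by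
  obtain ⟨M₀, rfl⟩ := hpM
  rw [Nat.mul_div_cancel_left _ hp.pos]
  have hM₀ : M₀ ≠ 0 := by
    rintro rfl
    simp at hM
  have hpM₀ : ¬ p ∣ M₀ := by
    intro h
    exact hp2M (by rw [pow_two]; exact mul_dvd_mul_left p h)
  haveI : NeZero M₀ := ⟨hM₀⟩
  haveI : NeZero (M₀ * p) := ⟨mul_ne_zero hM₀ hp.ne_zero⟩
  haveI : NeZero (M₀ * ((⟨p, hp⟩ : Nat.Primes) : ℕ)) := ⟨mul_ne_zero hM₀ hp.ne_zero⟩
  rw [mul_comm] at hmod
  rcases residual_dichotomy (p := ⟨p, hp⟩) hΔ hp2 hirr hpM₀ hmod with h | h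
  · exact h
  · exact key M₀ hpM₀ h

theorem isPeuRamifieeAt_of_good {W : WeierstrassCurve ℤ} {p : ℕ} (h : W.IsGoodPrimeFor p) :
    (W.map (Int.castRingHom ℚ)).IsPeuRamifieeAt p p := by
  have h0 : ¬ (p : ℤ) ∣ W.Δ := h
  have h1 : (W.map (Int.castRingHom ℚ)).Δ = ((W.Δ : ℤ) : ℚ) := by
    rw [WeierstrassCurve.map_Δ]; rfl
  show (p : ℤ) ∣ padicValRat p (W.map (Int.castRingHom ℚ)).Δ
  rw [h1, padicValRat.of_int, padicValInt.eq_zero_of_not_dvd h0]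
  exact dvd_zero _

end Fermat.Agent.H61C
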