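import Fermat.Agent.H9Swap
import Fermat.Agent.H42RedInputs
import Fermat.Agent.H90Place
import Fermat.Agent.H18Div

/-!
# The two cusps of `X_0(p)` over an algebraically closed field of characteristic `≠ p`
-/

set_option autoImplicit false
set_option linter.unusedSectionVars false

noncomputable section

open ModularCurve Polynomial IntermediateField AlgebraicCurve
open Fermat.Agent.H61 Fermat.Agent.H28 Fermat.Agent.H66

namespace Fermat.Agent.H9

section General

variable (K : Type*) [Field K] (N : ℕ) [NeZero N]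

theorem order_of_hasLead {x : LaurentSeries K} {n : ℤ} {c : K} (h : HasLead x n c) (hc : c ≠ 0) :
    x.order = n := by
  have h0 := h.ne_zero hc
  apply le_antisymm
  · exact HahnSeries.order_le_of_coeff_ne_zero (by rw [h.1]; exact hc)
  · by_contra hlt
    rw [not_le] at hlt
    exact HahnSeries.coeff_order_eq_zero.not.mpr h0 (h.2 _ hlt)

theorem order_J (d : ℕ) [NeZero d] : (J K d).order = -d :=
  order_of_hasLead K (hasLead_J K d) one_ne_zero

variable [IsAlgClosed K] (hN : (N : K) ≠ 0)

include hN in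
theorem funField_full : H94.FunField K (modularFunctionFieldFullC K N) := by
  apply H42.funField_full
  rw [relfinrank_full K N hN]
  exact (relfinrank_full_of_hasRoots (hasRoots_of_isAlgClosed K) N hN).2

/-- The cusp `∞` of `X_0(N)` over `K`. -/
def infPl : Place K (modularFunctionFieldFullC K N) :=
  H90.laurentPlace (modularFunctionFieldFullC K N).val.toRingHom (fun _ => rfl)
    ⟨(⟨J K 1, J_mem (NeZero.ne N) (one_dvd _)⟩ : modularFunctionFieldFullC K N)⁻¹, by
      show ((J K 1)⁻¹ : LaurentSeries K).order = 1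
      have h := (hasLead_deltaInvL K)
      have h1 : (J K 1)⁻¹.order + (J K 1).order = 0 := by
        rw [← HahnSeries.order_mul (inv_ne_zero (J_ne_zero 1)) (J_ne_zero 1),
          inv_mul_cancel₀ (J_ne_zero 1), HahnSeries.order_one]
      rw [order_J] at h1
      push_cast at h1
      omega⟩

theorem infPl_ord (f : modularFunctionFieldFullC K N) :
    (infPl K N).ord f = (f : LaurentSeries K).order :=
  H90.laurentPlace_ord _ _ _ f

end General

section Prime

variable (K : Type*) [Field K] [IsAlgClosed K] (p : ℕ) [Fact p.Prime] (hp0 : (p : K) ≠ 0)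

instance instNeZeroPrime : NeZero p := ⟨(Fact.out : p.Prime).ne_zero⟩

/-- The Atkin-Lehner involution. -/
def wAL : modularFunctionFieldFullC K p ≃ₐ[K] modularFunctionFieldFullC K p :=
  (exists_swap hp0 (hasRoots_of_isAlgClosed K p Fact.out hp0).choose_spec).choose

theorem wAL_j₁ : wAL K p hp0 (j₁ K p) = jₚ K p :=
  (exists_swap hp0 (hasRoots_of_isAlgClosed K p Fact.out hp0).choose_spec).choose_spec.1

theorem wAL_jₚ : wAL K p hp0 (jₚ K p) = j₁ K p :=
  (exists_swap hp0 (hasRoots_of_isAlgClosed K p Fact.out hp0).choose_spec).choose_spec.2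

theorem wAL_wAL (f : modularFunctionFieldFullC K p) : wAL K p hp0 (wAL K p hp0 f) = f := by
  have h : ((wAL K p hp0 : modularFunctionFieldFullC K p →ₐ[K] modularFunctionFieldFullC K p).comp
      (wAL K p hp0 : modularFunctionFieldFullC K p →ₐ[K] modularFunctionFieldFullC K p)) =
        AlgHom.id K _ := by
    apply algHom_ext
    · show wAL K p hp0 (wAL K p hp0 (j₁ K p)) = j₁ K p
      rw [wAL_j₁, wAL_jₚ]
    · show wAL K p hp0 (wAL K p hp0 (jₚ K p)) = jₚ K p
      rw [wAL_jₚ, wAL_j₁]
  exact DFunLike.congr_fun h f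

/-- The cusp `0` of `X_0(p)` over `K`. -/
def zeroPl : Place K (modularFunctionFieldFullC K p) := wAL K p hp0 • infPl K p

theorem zeroPl_ord (f : modularFunctionFieldFullC K p) :
    (zeroPl K p hp0).ord f = (infPl K p).ord (wAL K p hp0 f) := by
  have h := Place.ord_smul (wAL K p hp0) (infPl K p) (wAL K p hp0 f)
  rw [wAL_wAL] at h
  exact h

theorem infPl_ord_j₁ : (infPl K p).ord (j₁ K p) = -1 := by
  rw [infPl_ord]
  have := order_J K 1
  exact_mod_cast this

theorem infPl_ord_jₚ : (infPl K p).ord (jₚ K p) = -p := by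
  rw [infPl_ord]
  exact order_J K p

theorem zeroPl_ord_j₁ : (zeroPl K p hp0).ord (j₁ K p) = -p := by
  rw [zeroPl_ord, wAL_j₁, infPl_ord_jₚ]

theorem zeroPl_ord_jₚ : (zeroPl K p hp0).ord (jₚ K p) = -1 := by
  rw [zeroPl_ord, wAL_jₚ, infPl_ord_j₁]

theorem infPl_ne_zeroPl : infPl K p ≠ zeroPl K p hp0 := by
  intro h
  have h1 := infPl_ord_j₁ K p
  rw [h, zeroPl_ord_j₁] at h1
  have := (Fact.out : p.Prime).one_lt
  omega

theorem transcendental_j₁ : Transcendental K (j₁ K p) := by
  have h := H42.transcendental_jFull K p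
  have h1 : (j₁ K p) = ⟨jqModC K, jqModC_mem_full K p⟩ := Subtype.ext (J_one K)
  rw [h1]
  exact h

include hp0 in
theorem finrank_adjoin_j₁ : Module.finrank K⟮j₁ K p⟯ (modularFunctionFieldFullC K p) = p + 1 := by
  have h1 : (j₁ K p) = ⟨jqModC K, jqModC_mem_full K p⟩ := Subtype.ext (J_one K)
  rw [h1, ← H42.relfinrank_eq_finrank_adjoin, relfinrank_full K p hp0]
  have hp : p.Prime := Fact.out
  rw [dedekindPsi, hp.divisors]
  have : ({1, p} : Finset ℕ).filter Squarefree = {1, p} := by
    apply Finset.filter_true_of_mem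
    intro x hx
    rw [Finset.mem_insert, Finset.mem_singleton] at hx
    rcases hx with rfl | rfl
    · exact squarefree_one
    · exact hp.squarefree
  rw [this, Finset.sum_pair hp.one_lt.ne, Nat.div_one, Nat.div_self hp.pos]

/-- The poles of `j` are the two cusps. -/
theorem eq_cusp_of_ord_neg {v : Place K (modularFunctionFieldFullC K p)}
    (hv : v.ord (j₁ K p) < 0) : v = infPl K p ∨ v = zeroPl K p hp0 := by
  classical
  haveI := funField_full K p hp0
  have hp : p.Prime := Fact.out
  have hsum := H18.sum_ord_neg (K := K) (transcendental_j₁ K p)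
  rw [finrank_adjoin_j₁ K p hp0] at hsum
  set S := (H18.finite_setOf_ord_neg (K := K) (transcendental_j₁ K p)).toFinset with hS
  by_contra hcon
  rw [not_or] at hcon
  have hmem : ∀ w : Place K (modularFunctionFieldFullC K p), w ∈ S ↔ w.ord (j₁ K p) < 0 := by
    intro w; simp [hS]
  have h1 : infPl K p ∈ S := by rw [hmem, infPl_ord_j₁]; omega
  have h2 : zeroPl K p hp0 ∈ S := by
    rw [hmem, zeroPl_ord_j₁]
    have := hp.pos
    omega
  have h3 : v ∈ S := (hmem v).mpr hv
  have hsub : ({infPl K p, zeroPl K p hp0, v} : Finset _) ⊆ S := by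
    intro w hw
    simp only [Finset.mem_insert, Finset.mem_singleton] at hw
    rcases hw with rfl | rfl | rfl <;> assumption
  have hle : ∑ w ∈ S, w.ord (j₁ K p) ≤ ∑ w ∈ ({infPl K p, zeroPl K p hp0, v} : Finset _),
      w.ord (j₁ K p) := by
    rw [← Finset.sum_sdiff hsub]
    have : ∑ w ∈ S \ {infPl K p, zeroPl K p hp0, v}, w.ord (j₁ K p) ≤ 0 := by
      apply Finset.sum_nonpos
      intro w hw
      exact ((hmem w).mp (Finset.mem_sdiff.mp hw).1).le
    omega
  rw [hsum, Finset.sum_insert, Finset.sum_insert, Finset.sum_singleton, infPl_ord_j₁,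
    zeroPl_ord_j₁] at hle
  · push_cast at hle
    omega
  · simp only [Finset.mem_singleton]
    exact fun h => hcon.2 h.symm
  · simp only [Finset.mem_insert, Finset.mem_singleton, not_or]
    exact ⟨infPl_ne_zeroPl K p hp0, fun h => hcon.1 h.symm⟩

end Prime

end Fermat.Agent.H9
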