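import Mathlib
import Fermat.Agent.H61C1
import Fermat.Agent.H31Kum2
import Fermat.Agent.H44Kum
import Fermat.Agent.H9Cusp

/-!
# Auxiliary levels for level lowering at `p = 3` (helper61)

The extension `F_{2N} / F_N` of modular function fields, `N` odd, has degree `3`, so for `p = 3` one
needs an argument to see that `p`-th roots of functions of level `N` that lie in `F_{2N}` lie in `F_N`
(equivalently: the pull back `J₀(N)[3] → J₀(2N)[3]` is injective).

*Idea.* Let `f ∈ F_{2N}`, `f³ = u ∈ F_N`, and let `w` be the Atkin--Lehner involution at `2`. Then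
`(w f)³ = w u = u(q²) = f(q²)³`, so `w f = ζ f(q²)` is a series in `q²`. The set `T` of all
`x ∈ F_{2N}` such that `w x` is a series in `q²` is a subring containing `F_N`; it is not everything
since `J(q) = w (w J)` is not a series in `q²`. Because the degree `3` is prime, `T = F_N`.

* `root_descends` : `u ∈ F_{M₀ p}`, `u = f ^ p` with `f ∈ F_{M p}`, `M = 2 ^ a M₀` gives `u = g ^ p` with
  `g ∈ F_{M₀ p}`, every odd prime `p`;
* `degPull_injOn` : pull back is injective on the `p`-torsion;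
* `NewEmb.exists_aux` : auxiliary level divisible by `4` for every odd prime `p`.
-/

set_option autoImplicit false
set_option linter.style.haveILetI false
set_option linter.unusedSectionVars false
set_option synthInstance.maxHeartbeats 200000

noncomputable section

namespace Fermat.Agent.H61C

open CuspForm ModularCurve AlgebraicCurve WeierstrassCurve
open Fermat.Agent.H39 (Tor GQb)
open Fermat.Agent.H61.L5
open Fermat.Agent.H33 (IsKum)
open Fermat.Agent.H67 (degPush degPull wJ cdeg)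

local notation "Qb" => AlgebraicClosure ℚ

/-! ### The degree three step -/

section Three

variable {m : ℕ} [NeZero m]

theorem J_ne_qExpand (z : LaurentSeries Qb) : H66.J Qb 1 ≠ qExpand Qb 2 z := by
  intro h
  have h0 : H66.J Qb 1 ≠ 0 := by
    intro h0
    have h1 := H9.order_J (K := Qb) 1
    rw [h0, HahnSeries.order_zero] at h1
    norm_num at h1
  have h1 : (H66.J Qb 1).coeff (H66.J Qb 1).order ≠ 0 := by
    rwa [Ne, HahnSeries.coeff_order_eq_zero]
  rw [H9.order_J (K := Qb) 1, h] at h1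
  exact h1 (qExpand_coeff_of_not_dvd 2 z (by norm_num))

/-- The subring of the functions whose `w₂`-transform is a series in `q²`. -/
def sqSub (w : H99.AL Qb m 2) : letI := algebraAlong (heckeAlphaBar Qb m 2)
    Subalgebra (H99.FX Qb m) (H99.FX Qb (m * 2)) :=
  letI := algebraAlong (heckeAlphaBar Qb m 2)
  { carrier := {y | ∃ z : LaurentSeries Qb, ((w.W y : H99.FX Qb (m * 2)) : LaurentSeries Qb) =
      qExpand Qb 2 z}
    mul_mem' := by
      rintro a b ⟨y, hy⟩ ⟨z, hz⟩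
      exact ⟨y * z, by rw [map_mul, map_mul, ← hy, ← hz]; rfl⟩
    add_mem' := by
      rintro a b ⟨y, hy⟩ ⟨z, hz⟩
      exact ⟨y + z, by rw [map_add, map_add, ← hy, ← hz]; rfl⟩
    algebraMap_mem' := by
      intro x
      refine ⟨(x : LaurentSeries Qb), ?_⟩
      show ((w.W (heckeAlphaBar Qb m 2 x) : H99.FX Qb (m * 2)) : LaurentSeries Qb) = _
      rw [w.alpha]
      exact coe_heckeBetaBar (L := Qb) m 2 x }

theorem mem_range_alpha (h2m : ¬ 2 ∣ m) (w : H99.AL Qb m 2) {y : H99.FX Qb (m * 2)}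
    (hy : ∃ z : LaurentSeries Qb, ((w.W y : H99.FX Qb (m * 2)) : LaurentSeries Qb) =
      qExpand Qb 2 z) :
    ∃ x, heckeAlphaBar Qb m 2 x = y := by
  letI := algebraAlong (heckeAlphaBar Qb m 2)
  have hfin : Module.finrank (H99.FX Qb m) (H99.FX Qb (m * 2)) = 3 := by
    have h1 := H67.finrank_dg_prime (L := Qb) H67.embQbar (M := m) (N := m * 2) Nat.prime_two 1
      (by rw [mul_one]; exact dvd_mul_right m 2) rfl
    rw [← H67.alpha_eq_dg, cdeg, if_neg h2m] at h1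
    exact h1
  have hsimple : IsSimpleOrder (Subalgebra (H99.FX Qb m) (H99.FX Qb (m * 2))) :=
    Subalgebra.isSimpleOrder_of_finrank_prime _ _ (by rw [hfin]; norm_num)
  rcases hsimple.eq_bot_or_eq_top (sqSub w) with h | h
  · have h1 : y ∈ sqSub w := hy
    rw [h, Algebra.mem_bot] at h1
    obtain ⟨x, hx⟩ := h1
    exact ⟨x, hx⟩
  · exfalso
    have hJ : H66.J Qb 1 ∈ H99.FX Qb (m * 2) := H67.J_mem_FB (one_dvd _)
    have h1 : w.W ⟨H66.J Qb 1, hJ⟩ ∈ sqSub w := by rw [h]; exact Algebra.mem_top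
    obtain ⟨z, hz⟩ := h1
    rw [w.invol] at hz
    exact J_ne_qExpand z hz

/-- Cube roots descend from level `2m` to level `m`, `m` odd. -/
theorem cube_descends (h2m : ¬ 2 ∣ m) {u : H99.FX Qb m} {f : H99.FX Qb (m * 2)} {n : ℕ}
    (hn : 0 < n) (h : heckeAlphaBar Qb m 2 u = f ^ n) : ∃ g, u = g ^ n := by
  obtain ⟨w⟩ := H99.nonempty_AL (L := Qb) H67.embQbar
    (((Nat.Prime.coprime_iff_not_dvd Nat.prime_two).2 h2m).symm : m.Coprime 2)
  haveI : NeZero n := ⟨hn.ne'⟩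
  haveI : NeZero (n : Qb) := ⟨Nat.cast_ne_zero.mpr hn.ne'⟩
  obtain ⟨ζ, hζ⟩ := HasEnoughRootsOfUnity.exists_primitiveRoot Qb n
  have hinj : Function.Injective (algebraMap Qb (LaurentSeries Qb)) :=
    (algebraMap Qb (LaurentSeries Qb)).injective
  have hζ' := hζ.map_of_injective hinj
  rcases eq_or_ne f 0 with rfl | hf
  · refine ⟨0, ?_⟩
    rw [zero_pow hn.ne'] at h ⊢
    exact (map_eq_zero _).mp h
  have e1 : ((w.W f : H99.FX Qb (m * 2)) : LaurentSeries Qb) ^ n =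
      (qExpand Qb 2 (f : LaurentSeries Qb)) ^ n := by
    have h1 : (w.W f) ^ n = heckeBetaBar Qb m 2 u := by rw [← map_pow, ← h, w.alpha]
    have h2 : (((w.W f) ^ n : H99.FX Qb (m * 2)) : LaurentSeries Qb) =
        qExpand Qb 2 (u : LaurentSeries Qb) := by
      rw [h1]; exact coe_heckeBetaBar (L := Qb) m 2 u
    have h3 : (u : LaurentSeries Qb) = (f : LaurentSeries Qb) ^ n := by
      have := congrArg (fun x : H99.FX Qb (m * 2) => (x : LaurentSeries Qb)) h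
      exact (coe_heckeAlphaBar (L := Qb) m 2 u).symm.trans this
    rw [← map_pow, ← h3, ← h2]
    rfl
  have hf0 : qExpand Qb 2 (f : LaurentSeries Qb) ≠ 0 := by
    rw [Ne, map_eq_zero_iff _ (qExpand_injective (R := Qb) 2)]
    exact fun h0 => hf (Subtype.ext h0)
  have e2 : (((w.W f : H99.FX Qb (m * 2)) : LaurentSeries Qb) /
      qExpand Qb 2 (f : LaurentSeries Qb)) ^ n = 1 := by
    rw [div_pow, e1, div_self (pow_ne_zero n hf0)]
  obtain ⟨i, -, hi⟩ := hζ'.eq_pow_of_pow_eq_one e2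
  obtain ⟨g, hg⟩ := mem_range_alpha h2m w (y := f)
    ⟨algebraMap Qb (LaurentSeries Qb) (ζ ^ i) * (f : LaurentSeries Qb), by
      rw [map_mul, eq_comm]
      have h4 : qExpand Qb 2 (algebraMap Qb (LaurentSeries Qb) (ζ ^ i)) =
          algebraMap Qb (LaurentSeries Qb) (ζ ^ i) := by
        rw [algebraMap_laurentSeries_eq_single, qExpand_single, mul_zero]
      rw [h4, map_pow, hi, div_mul_cancel₀ _ hf0]⟩
  refine ⟨g, ?_⟩
  apply (heckeAlphaBar Qb m 2).injective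
  show heckeAlphaBar Qb m 2 u = heckeAlphaBar Qb m 2 (g ^ n)
  rw [h, map_pow, hg]

end Three

/-! ### Descent of roots -/

section Descent

/-- One step. -/
theorem root_descends_step {p : ℕ} (hp : p.Prime) (hp2 : p ≠ 2) {R N : ℕ} [NeZero R] [NeZero N]
    (hN : N = R * 2) (h : R * 1 ∣ N) {u : H99.FX Qb R} {f : H99.FX Qb N}
    (huf : H67.dg Qb 1 h u = f ^ p) : ∃ g, u = g ^ p := by
  by_cases hd : p ∣ cdeg R 2
  · -- `p = 3` and `R` is odd
    have h2R : ¬ 2 ∣ R := by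
      intro h2
      rw [cdeg, if_pos h2] at hd
      exact hp2 ((Nat.prime_dvd_prime_iff_eq hp Nat.prime_two).mp hd)
    subst hN
    rw [← H67.alpha_eq_dg] at huf
    exact cube_descends h2R hp.pos huf
  · exact H31.Kum2.root_descends (H67.dg Qb 1 h) hp
      (by rwa [H67.finrank_dg_prime H67.embQbar Nat.prime_two 1 h hN]) u f huf

/-- **Descent of `p`-th roots** along `F_{2^a R} / F_R`. -/
theorem root_descends {p : ℕ} (hp : p.Prime) (hp2 : p ≠ 2) (a : ℕ) :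
    ∀ {R N : ℕ} [NeZero R] [NeZero N] (_ : N = R * 2 ^ a) (h : R * 1 ∣ N) {u : H99.FX Qb R}
      {f : H99.FX Qb N} (_ : H67.dg Qb 1 h u = f ^ p), ∃ g, u = g ^ p := by
  induction a with
  | zero =>
    intro R N _ _ hN h u f huf
    rw [pow_zero, mul_one] at hN
    subst hN
    refine ⟨f, ?_⟩
    rw [← huf]
    apply Subtype.ext
    rw [H67.coe_dg, qExpand_one_apply]
  | succ a ih =>
    intro R N _ _ hN h u f huf
    haveI : NeZero (R * 2) := ⟨mul_ne_zero (NeZero.ne R) two_ne_zero⟩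
    have h1 : R * 1 ∣ R * 2 := mul_dvd_mul_left _ (one_dvd _)
    have h2 : R * 2 * 1 ∣ N := ⟨2 ^ a, by rw [hN, pow_succ]; ring⟩
    have e1 : H67.dg Qb 1 h2 (H67.dg Qb 1 h1 u) = f ^ p := by
      rw [← huf, ← AlgHom.comp_apply, H67.dg_comp 1 1 1 h1 h2 h (one_mul 1)]
    obtain ⟨g, hg⟩ := ih (R := R * 2) (N := N) (by rw [hN, pow_succ]; ring) h2 e1
    exact root_descends_step hp hp2 rfl h1 hg

/-- **Injectivity of the pull back** on the `p`-torsion. -/
theorem degPull_injOn {p : ℕ} (hp : p.Prime) (hp2 : p ≠ 2) (a : ℕ) {R N : ℕ} [NeZero R] [NeZero N]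
    (hN : N = R * 2 ^ a) (h : R * 1 ∣ N) {x : JZero R} (hx : p • x = 0) (h0 : degPull 1 h x = 0) :
    x = 0 := by
  obtain ⟨u, hu⟩ := IsKum.exists_of_nsmul hx
  have h1 : IsKum p (degPull 1 h x) (H67.dg Qb 1 h u) := H44K.isKum_pullP (H67.dg Qb 1 h) hu
  rw [h0] at h1
  obtain ⟨f, -, hf⟩ := IsKum.unique hp.ne_zero h1 (IsKum.one Qb)
  rw [one_mul] at hf
  obtain ⟨g, hg⟩ := root_descends hp hp2 a hN h hf
  exact hu.eq_zero hp.ne_zero (c := 1) (h := g) (by rw [map_one, one_mul, hg])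

end Descent

/-! ### The auxiliary level -/

section Aux

variable {W : WeierstrassCurve ℤ} {p : Nat.Primes} {M : ℕ} [NeZero M] [NeZero (M * p)]
  [NeZero (p : ℕ)] {S : Set ℕ}

/-- Pull back from level `Mp` to level `M'p`, `M' = 2 M`, for every odd prime `p`. -/
def pullBackTwo (E : NewEmb W p M S) (hp2 : (p : ℕ) ≠ 2) {M' : ℕ} [NeZero (M' * p)]
    (hM' : M' = M * 2) (h2S : 2 ∈ S) (h : M * p * 1 ∣ M' * p) : NewEmb W p M' S :=
  have hN : M' * p = M * p * 2 := by rw [hM']; ring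
  have hc' : M'.Coprime p := by
    rw [hM']
    exact Nat.Coprime.mul_left E.hc ((Nat.coprime_primes Nat.prime_two p.2).mpr hp2.symm)
  { hc := hc'
    ι := (degPull 1 h).comp E.ι
    inj := by
      rw [injective_iff_map_eq_zero]
      intro x hx
      have h1 := degPull_injOn p.2 hp2 1 (by rw [hN, pow_one]) h (E.nsmul_ι x) hx
      exact (injective_iff_map_eq_zero E.ι).mp E.inj x h1
    galois := by
      intro σ x
      rw [AddMonoidHom.comp_apply, AddMonoidHom.comp_apply, E.galois, H67.degPull_galois]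
    hecke := by
      intro ℓ hℓ x
      rw [AddMonoidHom.comp_apply,
        ← NewEmb.degPull_hecke' hN Nat.prime_two h ℓ (fun h => hℓ (h ▸ h2S)), E.hecke ℓ hℓ, map_zsmul]
    ε := E.ε
    hε := E.hε
    w := by
      intro x
      rw [AddMonoidHom.comp_apply, NewEmb.degPull_wJ rfl E.hc rfl hc'
        (by rw [hM']; exact dvd_mul_right _ _) h, E.w, map_zsmul]
    U := by
      intro x
      rw [AddMonoidHom.comp_apply, ← NewEmb.degPull_hecke' hN Nat.prime_two h p hp2, E.U,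
        map_zsmul] }

/-- Pull back from level `Mp` to level `2^(k+1) M p`. -/
theorem exists_two_pow (E : NewEmb W p M S) (hp2 : (p : ℕ) ≠ 2) (k : ℕ) :
    ∀ [NeZero (M * 2 ^ (k + 1) * p)] (h : M * p * 1 ∣ M * 2 ^ (k + 1) * p),
      ∃ E' : NewEmb W p (M * 2 ^ (k + 1)) (S ∪ {2}), E'.ε = E.ε ∧
        ∀ x, E'.ι x = degPull 1 h (E.ι x) := by
  induction k with
  | zero =>
    intro _ h
    exact ⟨pullBackTwo (E.mono (Set.subset_union_left (t := {2}))) hp2 (by ring) (Or.inr rfl) h,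
      rfl, fun x => rfl⟩
  | succ k ih =>
    intro _ h
    haveI : NeZero (M * 2 ^ (k + 1)) := ⟨mul_ne_zero (NeZero.ne M) (by positivity)⟩
    haveI : NeZero (M * 2 ^ (k + 1) * p) := ⟨mul_ne_zero (NeZero.ne _) (NeZero.ne _)⟩
    have h1 : M * p * 1 ∣ M * 2 ^ (k + 1) * p := ⟨2 ^ (k + 1), by ring⟩
    have h2 : M * 2 ^ (k + 1) * p * 1 ∣ M * 2 ^ (k + 1 + 1) * p := ⟨2, by ring⟩
    obtain ⟨E', hε, hι⟩ := ih h1
    refine ⟨pullBackTwo E' hp2 (by ring) (Or.inr rfl) h2, hε, fun x => ?_⟩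
    show degPull 1 h2 (E'.ι x) = _
    rw [hι, H67.degPull_degPull 1 1 1 h1 h2 h (one_mul 1)]

/-- **An auxiliary level divisible by `4`**, every odd prime `p`. -/
theorem exists_aux {M₀ : ℕ} [NeZero M₀] [NeZero (M₀ * p)] (E : NewEmb W p M₀ S)
    (hp2 : (p : ℕ) ≠ 2) :
    ∃ M : ℕ, M₀ ∣ M ∧ 4 ∣ M ∧ M ∣ 4 * M₀ ∧ (∃ a : ℕ, M = M₀ * 2 ^ a) ∧ ¬ (p : ℕ) ∣ M ∧
      ∃ (_ : NeZero M) (_ : NeZero (M * p)) (h : M₀ * p * 1 ∣ M * p) (E' : NewEmb W p M (S ∪ {2})),
        E'.ε = E.ε ∧ ∀ x, E'.ι x = degPull 1 h (E.ι x) := by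
  have hp : (p : ℕ) ≠ 0 := NeZero.ne _
  have hM₀ : M₀ ≠ 0 := NeZero.ne _
  have key : ∀ k : ℕ, 4 ∣ M₀ * 2 ^ (k + 1) → M₀ * 2 ^ (k + 1) ∣ 4 * M₀ →
    ∃ M : ℕ, M₀ ∣ M ∧ 4 ∣ M ∧ M ∣ 4 * M₀ ∧ (∃ a : ℕ, M = M₀ * 2 ^ a) ∧ ¬ (p : ℕ) ∣ M ∧
      ∃ (_ : NeZero M) (_ : NeZero (M * p)) (h : M₀ * p * 1 ∣ M * p) (E' : NewEmb W p M (S ∪ {2})),
        E'.ε = E.ε ∧ ∀ x, E'.ι x = degPull 1 h (E.ι x) := by
    intro k h4 h4'
    have hM : M₀ * 2 ^ (k + 1) ≠ 0 := mul_ne_zero hM₀ (by positivity)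
    haveI : NeZero (M₀ * 2 ^ (k + 1)) := ⟨hM⟩
    haveI : NeZero (M₀ * 2 ^ (k + 1) * p) := ⟨mul_ne_zero hM hp⟩
    have h : M₀ * p * 1 ∣ M₀ * 2 ^ (k + 1) * p := ⟨2 ^ (k + 1), by ring⟩
    obtain ⟨E', h1, h2⟩ := exists_two_pow E hp2 k h
    exact ⟨M₀ * 2 ^ (k + 1), dvd_mul_right _ _, h4, h4', ⟨k + 1, rfl⟩,
      (Nat.Prime.coprime_iff_not_dvd p.2).mp E'.hc.symm, inferInstance, inferInstance, h, E', h1, h2⟩
  by_cases h2 : 2 ∣ M₀
  · refine key 0 ?_ ⟨2, by ring⟩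
    obtain ⟨m, rfl⟩ := h2
    exact ⟨m, by ring⟩
  · exact key 1 ⟨M₀, by ring⟩ ⟨1, by ring⟩

end Aux

end Fermat.Agent.H61C
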