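import Fermat.Agent.H31C1
import Fermat.Agent.H61C2

/-!
# Level lowering at `p`: the general form of the last step, `M ∣ 4 M₀` (helper31)

`resModular_of_newEmb4` : the geometric steps for an arbitrary odd prime `p` (`p = 3` included), an
arbitrary level `M₀` prime to `p` and an arbitrary curve, from the structure of the torsion points
at `p` (`H40.ESide`) and the last step (`CoreStep4`).
-/

set_option autoImplicit false
set_option linter.unusedSectionVars false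
set_option linter.style.haveILetI false
set_option maxHeartbeats 2000000
set_option synthInstance.maxHeartbeats 200000

noncomputable section

open AlgebraicCurve ModularCurve IntermediateField WithZero
open Fermat.Agent.H97 Fermat.Agent.H34.Two Fermat.Agent.H31.In Fermat.Agent.H31
open Fermat.Agent.H61.L5 Fermat.Agent.H28

namespace Fermat.Agent.H31C

local notation "Qb" => AlgebraicClosure ℚ

/-- **The last step**, `M ∣ 4 M₀`: the reduction `g` of the Kummer function `u` has orders which are congruent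
modulo `p` at the nodes and divisible by `p` at the other places, and `g` is not a `p`-th power;
then `W` is residually modular of level `M₀`. -/
def CoreStep4 (p : Nat.Primes) [NeZero (p : ℕ)] : Prop :=
  ∀ {W : WeierstrassCurve ℤ} {A : ValuationSubring Qb} [Fact (p : ℕ).Prime]
    (_hA : A.LiesOverPrime p) (_hΔ : W.Δ ≠ 0) (_hirr : W.ModRepIsIrreducible p)
    {M₀ M : ℕ} [NeZero M₀] [NeZero M] [NeZero (M₀ * p)] [NeZero (M * p)]
    (_hdvd : M₀ ∣ M) (_h4 : M ∣ 4 * M₀)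
    (_h4M : 4 ∣ M) (hpM : ¬ (p : ℕ) ∣ M)
    {S : Set ℕ}
    (_hS : ∀ ℓ : ℕ, ℓ.Prime → W.IsGoodPrimeFor ℓ → ¬ ℓ ∣ M₀ → ℓ ≠ p → ℓ ∉ S)
    (E₀ : NewEmb W p M₀ S)
    [CharP (IsLocalRing.ResidueField A) p] [IsAlgClosed (IsLocalRing.ResidueField A)]
    [Infinite (IsLocalRing.ResidueField A)] (w : H99.AL Qb M p)
    (hπ : Function.Surjective (IsLocalRing.residue A))
    (hdeg : H42.DegLE Qb (IsLocalRing.ResidueField A) M) (arch : Arch A)
    (r : Place Qb (H99.FX Qb M) → Place (IsLocalRing.ResidueField A)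
      (modularFunctionFieldFullC (IsLocalRing.ResidueField A) M))
    {c : ℕ}
    (hr1 : ∀ D : Divisor Qb (H99.FX Qb M), (c : ℤ) < Divisor.degree D →
      (H42.modReductionData A (IsLocalRing.residue A) M hπ hdeg).IsRed D (Finsupp.mapDomain r D))
    (hr2 : H34.GR.DivCompat (H42.modReductionData A (IsLocalRing.residue A) M hπ hdeg) r)
    [H3RR.IsFF Qb (H99.FX Qb M)] [H3RR.IsFF Qb (H99.FX Qb (M * p))]
    [H3RR.IsFF (IsLocalRing.ResidueField A)
      (modularFunctionFieldFullC (IsLocalRing.ResidueField A) M)] [H94.FunField Qb (H99.FX Qb M)]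
    [H94.FunField Qb (H99.FX Qb (M * p))]
    {z : H39.Tor W p} {u₀ : H99.FX Qb (M₀ * p)} (_hu₀ : H33.IsKum p (E₀.ι z) u₀) {a : Qb}
    {u : H99.FX Qb (M * p)}
    (_hu : (u : LaurentSeries Qb) = algebraMap Qb (LaurentSeries Qb) a * (u₀ : LaurentSeries Qb))
    (_hv : (sheets w hπ hdeg hpM arch r hr1 hr2).v false u = 1)
    (_hnode : ∀ s s', (sheets w hπ hdeg hpM arch r hr1 hr2).Node s →
      (sheets w hπ hdeg hpM arch r hr1 hr2).Node s' →
        ((p : ℕ) : ℤ) ∣ s.ord ((sheets w hπ hdeg hpM arch r hr1 hr2).ρ false u) -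
          s'.ord ((sheets w hπ hdeg hpM arch r hr1 hr2).ρ false u))
    (_hsm : ∀ s, ¬ (sheets w hπ hdeg hpM arch r hr1 hr2).Node s →
      ((p : ℕ) : ℤ) ∣ s.ord ((sheets w hπ hdeg hpM arch r hr1 hr2).ρ false u))
    (_hpow : ∀ h : modularFunctionFieldFullC (IsLocalRing.ResidueField A) M,
      (sheets w hπ hdeg hpM arch r hr1 hr2).ρ false u ≠ h ^ (p : ℕ)),
    W.IsResiduallyModularOfLevel p M₀

/-- The version of `CoreStep` for `p ≥ 5`. -/
theorem coreStep4_of_five_le {p : Nat.Primes} [NeZero (p : ℕ)] (hp5 : 5 ≤ (p : ℕ))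
    (h : CoreStep p) : CoreStep4 p := by
  intro W A _ hA hΔ hirr M₀ M _ _ _ _ hdvd h4 h4M hpM S hS E₀ _ _ _ w hπ hdeg arch r c hr1 hr2
    _ _ _ _ _ z u₀ hu₀ a u hu hv hnode hsm hpow
  exact h hA hΔ hirr hdvd (H38.S44.exists_deg p.2 hp5 hdvd h4) h4M hpM hS E₀ w hπ hdeg arch r hr1
    hr2 hu₀ hu hv hnode hsm hpow

/-- **Level lowering at `p`** for a new embedding: every odd prime `p`, every level `M₀`. -/
theorem resModular_of_newEmb4 {W : WeierstrassCurve ℤ} {p : Nat.Primes} [NeZero (p : ℕ)]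
    (hcore : CoreStep4 p) (hΔ : W.Δ ≠ 0) (hirr : W.ModRepIsIrreducible p)
    {M₀ : ℕ} [NeZero M₀] [NeZero (M₀ * p)] {S : Set ℕ}
    (hS : ∀ ℓ : ℕ, ℓ.Prime → W.IsGoodPrimeFor ℓ → ¬ ℓ ∣ M₀ → ℓ ≠ p → ℓ ∉ S)
    (E₀ : NewEmb W p M₀ S) (hp2 : (p : ℕ) ≠ 2)
    (hE : ∀ A : ValuationSubring Qb, A.LiesOverPrime p → ∀ ζ : Qb, IsPrimitiveRoot ζ (p : ℕ) →
      Nonempty (H40.ESide (G := A.inertiaSubgroupIn ℚ) A.valuation p (H44E.TorQ W p) ζ)) :
    W.IsResiduallyModularOfLevel p M₀ := by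
  haveI hpf : Fact (p : ℕ).Prime := ⟨p.2⟩
  obtain ⟨M, hdvd, h4M, h4, -, hpM, i1, i2, h, E, -, hEι⟩ := H61C.exists_aux E₀ hp2
  obtain ⟨A, hA⟩ := H54.exists_liesOverPrime p.2
  haveI hk1 : IsAlgClosed (IsLocalRing.ResidueField A) := H18.isAlgClosed_residueField A
  haveI hk2 : CharP (IsLocalRing.ResidueField A) p :=
    H1.charP_of_liesOver A hA (IsLocalRing.residue A)
  haveI hk3 : Infinite (IsLocalRing.ResidueField A) := IsAlgClosed.instInfinite
  have hdeg : H42.DegLE Qb (IsLocalRing.ResidueField A) M := H18.degLE_of_not_dvd M hpM A hA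
  have hco : M.Coprime p := ((Nat.Prime.coprime_iff_not_dvd p.2).2 hpM).symm
  obtain ⟨w⟩ := H99.nonempty_AL (L := Qb) H67.embQbar hco
  obtain ⟨r, c, hr1, hr2, -⟩ := EqI.exists_r hpM hA hdeg
  have arch : Arch A := H89Arch.arch p.2 hA
  haveI j1 : H3RR.IsFF Qb (H99.FX Qb M) := isFF_FF Qb M
  haveI j2 : H3RR.IsFF Qb (H99.FX Qb (M * p)) := isFF_FF Qb (M * p)
  haveI j3 : H3RR.IsFF (IsLocalRing.ResidueField A)
    (modularFunctionFieldFullC (IsLocalRing.ResidueField A) M) := isFF_right (L := Qb) hdeg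
  haveI j4 : H94.FunField Qb (H99.FX Qb M) := H3RR.funField_of_isFF
  haveI j5 : H94.FunField Qb (H99.FX Qb (M * p)) := H3RR.funField_of_isFF
  haveI j6 : CharP (modularFunctionFieldFullC (IsLocalRing.ResidueField A) M) p :=
    charP_of_injective_algebraMap
      (algebraMap (IsLocalRing.ResidueField A)
        (modularFunctionFieldFullC (IsLocalRing.ResidueField A) M)).injective p
  obtain ⟨P₀, hP₀⟩ := exists_isInf (H99.FX Qb M) (jqModC_mem_bar Qb M)
  have htors := EqI.tors w IsLocalRing.residue_surjective hdeg hpM arch r hr1 hr2 hA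
  -- a primitive root
  obtain ⟨ζ, hζ⟩ : ∃ ζ : Qbˣ, IsPrimitiveRoot ζ (p : ℕ) := by
    obtain ⟨ζ, hζ⟩ := HasEnoughRootsOfUnity.exists_primitiveRoot Qb (p : ℕ)
    exact ⟨(hζ.isUnit p.2.ne_zero).unit, IsPrimitiveRoot.coe_units_iff.mp hζ⟩
  obtain ⟨Es⟩ := hE A hA (ζ : Qb) (IsPrimitiveRoot.coe_units_iff.mpr hζ)
  have R := H73.GeoX.geoX w hdeg hpM H67.embQbar (Or.inl rfl) h4M arch r hr1 hr2 hA hP₀ htors hζ
  set Dt := EqI.dataX w IsLocalRing.residue_surjective hdeg hpM H67.embQbar (Or.inl rfl) h4M arch r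
    hr1 hr2 (EqI.trivV hA IsLocalRing.residue_surjective) hP₀ htors with hDt
  obtain ⟨U₀, hU₀, hfix⟩ := H44K.exists_kum_functions E₀
  let Q : H40.Kum Qb (A.inertiaSubgroupIn ℚ) (p : ℕ) (H39.Tor W p) w.W (H40.Nrm.nOp hpM hζ) :=
    H44K.kumAux E₀ E h hEι w (A := A) (fun _ _ => rfl) (H40.Nrm.nOp hpM hζ)
      (H38.S44.nOp_eq w hpM hζ) U₀ hU₀ hfix
  have hQU : ∀ x, Q.U x = H67.dg Qb 1 h (U₀ x) := fun _ => rfl
  -- scaling
  obtain ⟨c', hc', hvc'⟩ := (Dt.comp false).scale (Q.U Es.z) (Q.ne Es.z)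
  have hc'F : algebraMap Qb (H99.FX Qb (M * p)) c' ≠ 0 := (_root_.map_ne_zero _).mpr hc'
  have hv : Dt.M.v false (Q.U Es.z / algebraMap Qb (H99.FX Qb (M * p)) c') = 1 := by
    rw [map_div₀, (Dt.comp false).v_alg, hvc', div_self]
    exact (Valuation.ne_zero_iff _).mpr hc'
  have hu0 : Q.U Es.z / algebraMap Qb (H99.FX Qb (M * p)) c' ≠ 0 := div_ne_zero (Q.ne _) hc'F
  have hudiv : ∀ P : Place Qb (H99.FX Qb (M * p)),
      ((p : ℕ) : ℤ) ∣ P.ord (Q.U Es.z / algebraMap Qb (H99.FX Qb (M * p)) c') := by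
    intro P
    rw [H31.MP.ord_div P (Q.ne _) hc'F, H31.MP.ord_alg P hc', sub_zero]
    exact Q.dvd _ P
  refine hcore hA hΔ hirr hdvd h4 h4M hpM hS E₀ w
    IsLocalRing.residue_surjective hdeg arch r hr1 hr2 (hU₀ Es.z) (a := c'⁻¹)
    (u := Q.U Es.z / algebraMap Qb (H99.FX Qb (M * p)) c') ?_ hv ?_ ?_ ?_
  · have e1 : Q.U Es.z / algebraMap Qb (H99.FX Qb (M * p)) c' =
        algebraMap Qb (H99.FX Qb (M * p)) c'⁻¹ * H67.dg Qb 1 h (U₀ Es.z) := by
      rw [map_inv₀, ← hQU, div_eq_inv_mul]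
    rw [e1]
    have e2 : ((H67.dg Qb 1 h (U₀ Es.z) : H99.FX Qb (M * p)) : LaurentSeries Qb) =
        (U₀ Es.z : LaurentSeries Qb) := qExpand_one_apply _
    calc ((algebraMap Qb (H99.FX Qb (M * p)) c'⁻¹ * H67.dg Qb 1 h (U₀ Es.z) :
          H99.FX Qb (M * p)) : LaurentSeries Qb)
        = algebraMap Qb (LaurentSeries Qb) c'⁻¹ *
          ((H67.dg Qb 1 h (U₀ Es.z) : H99.FX Qb (M * p)) : LaurentSeries Qb) := rfl
      _ = _ := by rw [e2]
  · intro s s' hs hs'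
    exact H40.node_congr R Q Es hv ⟨s, hs⟩ ⟨s', hs'⟩
  · intro s hs
    refine H40.dvd_ord_smooth (D := Dt) hu0 hudiv hv (P := s) fun n hn => ?_
    rcases (Dt.mem_br n _).mp hn with h1 | h1
    · have h2 : s = n.1 := congrArg Prod.snd h1
      exact hs (h2 ▸ n.2)
    · have h2 : false = true := congrArg Prod.fst h1
      exact Bool.false_ne_true h2
  · intro g
    exact H40.ne_pow R Q Es hv g

end Fermat.Agent.H31C
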