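import Fermat.Agent.H46P2
import Fermat.Agent.H45P1Index

/-!
# Descent of divisibility of orders along `X_0(M) → X_0(M₀)` (helper38)
-/

set_option autoImplicit false
set_option linter.unusedSectionVars false

open AlgebraicCurve ModularCurve IntermediateField

namespace Fermat.Agent.H38.Dv

/-- degrees of the auxiliary covers are prime to `p ≥ 5` -/
theorem not_dvd_of_psi {p M₀ M : ℕ} (hp : p.Prime) (hp5 : 5 ≤ p) [NeZero M₀] (h : M₀ ∣ M)
    (h4 : M ∣ 4 * M₀) (n : ℕ) (hn : dedekindPsi M₀ * n = dedekindPsi M) : ¬ p ∣ n := by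
  have hM₀ : M₀ ≠ 0 := NeZero.ne M₀
  have hpos : 0 < dedekindPsi M₀ := H46.P2.psi_pos M₀
  have h2M : dedekindPsi (M₀ * 2) = dedekindPsi M₀ * 2 ∨
      dedekindPsi (M₀ * 2) = dedekindPsi M₀ * 3 := by
    by_cases h2 : 2 ∣ M₀
    · left
      rw [mul_comm M₀ 2, H45.dedekindPsi_mul_of_dvd Nat.prime_two hM₀ h2, mul_comm]
    · right
      rw [mul_comm M₀ 2, H45.dedekindPsi_mul_of_not_dvd Nat.prime_two hM₀ h2, mul_comm]
  have h4M : dedekindPsi (M₀ * 2 * 2) = dedekindPsi (M₀ * 2) * 2 := by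
    rw [mul_comm (M₀ * 2) 2, H45.dedekindPsi_mul_of_dvd Nat.prime_two
      (mul_ne_zero hM₀ two_ne_zero) (Dvd.intro_left _ rfl), mul_comm]
  obtain ⟨t, rfl⟩ := h
  have ht : t ∣ 4 := by
    rw [mul_comm 4] at h4
    exact Nat.dvd_of_mul_dvd_mul_left (Nat.pos_of_ne_zero hM₀) h4
  have hn' : n ∈ ({1, 2, 3, 4, 6} : Finset ℕ) := by
    have ht' : t ∈ Nat.divisors 4 := Nat.mem_divisors.mpr ⟨ht, by norm_num⟩
    have : Nat.divisors 4 = {1, 2, 4} := by decide
    rw [this] at ht'
    simp only [Finset.mem_insert, Finset.mem_singleton] at ht' ⊢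
    rcases ht' with rfl | rfl | rfl
    · left
      rw [mul_one] at hn
      exact Nat.eq_of_mul_eq_mul_left hpos (by rw [hn, mul_one])
    · rcases h2M with h | h
      · right; left
        exact Nat.eq_of_mul_eq_mul_left hpos (by rw [hn, h])
      · right; right; left
        exact Nat.eq_of_mul_eq_mul_left hpos (by rw [hn, h])
    · have e4 : M₀ * 4 = M₀ * 2 * 2 := by ring
      rw [e4, h4M] at hn
      rcases h2M with h | h
      · right; right; right; left
        exact Nat.eq_of_mul_eq_mul_left hpos (by rw [hn, h]; ring)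
      · right; right; right; right
        exact Nat.eq_of_mul_eq_mul_left hpos (by rw [hn, h]; ring)
  intro hpn
  simp only [Finset.mem_insert, Finset.mem_singleton] at hn'
  have hle := Nat.le_of_dvd (by omega) hpn
  rcases hn' with rfl | rfl | rfl | rfl | rfl
  · omega
  · omega
  · omega
  · omega
  · have h5 : p = 5 ∨ p = 6 := by omega
    rcases h5 with rfl | rfl
    · norm_num at hpn
    · norm_num at hp

variable {k : Type*} [Field k] [IsAlgClosed k]

/-- **[DV3]** Descent from `X_0(M)` to `X_0(M₀)`. -/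
theorem descend (M₀ M : ℕ) [NeZero M₀] [NeZero M] (h : M₀ ∣ M) (hk : ((M : ℕ) : k) ≠ 0)
    [H3RR.IsFF k (modularFunctionFieldFullC k M₀)] [H3RR.IsFF k (modularFunctionFieldFullC k M)]
    {p : ℕ} (hp : p.Prime) (hn : ∀ n, dedekindPsi M₀ * n = dedekindPsi M → ¬ p ∣ n)
    {a b j : modularFunctionFieldFullC k M₀} {a' b' j' : modularFunctionFieldFullC k M}
    (ha : (a' : LaurentSeries k) = a) (hb : (b' : LaurentSeries k) = b)
    (hj : (j' : LaurentSeries k) = j) {c c' : ℤ}
    (H : ∀ x : Place k (modularFunctionFieldFullC k M), 0 ≤ x.ord j' →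
      (p : ℤ) ∣ c * x.ord a' + c' * x.ord b')
    (w : Place k (modularFunctionFieldFullC k M₀)) (hw : 0 ≤ w.ord j) :
    (p : ℤ) ∣ c * w.ord a + c' * w.ord b := by
  obtain ⟨s, e, he0, hpe, hs⟩ := H46.P2.exists_above_full_of_not_dvd M₀ M h hk hn w
  have ea : H46.P2.incl (k := k) M₀ M h a = a' := Subtype.ext (by rw [H46.P2.coe_incl, ha])
  have eb : H46.P2.incl (k := k) M₀ M h b = b' := Subtype.ext (by rw [H46.P2.coe_incl, hb])
  have ej : H46.P2.incl (k := k) M₀ M h j = j' := Subtype.ext (by rw [H46.P2.coe_incl, hj])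
  have h1 := H s (by rw [← ej, hs]; positivity)
  rw [← ea, ← eb, hs, hs] at h1
  have h2 : c * ((e : ℤ) * w.ord a) + c' * ((e : ℤ) * w.ord b) =
      (e : ℤ) * (c * w.ord a + c' * w.ord b) := by ring
  rw [h2] at h1
  exact ((Nat.prime_iff_prime_int.mp hp).dvd_or_dvd h1).resolve_left
    (fun h => hpe (by exact_mod_cast h))

end Fermat.Agent.H38.Dv
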