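import Fermat.Agent.H38DvC
import Fermat.Agent.H38DvD

/-!
# [S44-DIV]: the divisor of the reduction of a Kummer function modulo `p` (helper38)
-/

set_option autoImplicit false
set_option linter.unusedSectionVars false
set_option maxHeartbeats 1000000

noncomputable section

open AlgebraicCurve ModularCurve IntermediateField WithZero
open Fermat.Agent.H97 Fermat.Agent.H97.Sheets Fermat.Agent.H34.Two Fermat.Agent.H61.Nd
open Fermat.Agent.H28 Fermat.Agent.H66

namespace Fermat.Agent.H38.Dv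

variable {L : Type*} [Field L] [Algebra ℚ L] {A : ValuationSubring L} {k : Type*} [Field k]
  {π : A →+* k} {m q : ℕ} [NeZero m] [NeZero q] [hq : Fact q.Prime]
  [CharP k q] [IsAlgClosed k] [Infinite k] (w : H99.AL L m q)
  (hπ : Function.Surjective π)
  (hdeg : H42.DegLE L k m) (hqm : ¬ q ∣ m)
  [IsAlgClosed L] [CharZero L] [IsLocalHom π]
  (ι : L →+* ℂ) {e : ℕ} (he : e = 4 ∨ e = 9) (hem : e ∣ m)
  (arch : Arch A)
  (r : Place L (H99.FX L m) → Place k (modularFunctionFieldFullC k m))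
  {c : ℕ}
  (hr1 : ∀ D : Divisor L (H99.FX L m), (c : ℤ) < Divisor.degree D →
    (H42.modReductionData A π m hπ hdeg).IsRed D (Finsupp.mapDomain r D))
  (hr2 : H34.GR.DivCompat (H42.modReductionData A π m hπ hdeg) r)
  [H3RR.IsFF L (H99.FX L m)] [H3RR.IsFF L (H99.FX L (m * q))]
  [H3RR.IsFF k (modularFunctionFieldFullC k m)] [H94.FunField L (H99.FX L m)]
  [H94.FunField L (H99.FX L (m * q))]

include ι he hem in
/-- **[S44-DIV]** Let `g` on the special fibre of `X_0(m)` have orders which are congruent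
modulo `q` at the nodes and divisible by `q` elsewhere, and let `g₀`, `ub₀` be functions on
`X_0(m₀)` with the expansions of `g` and `Δ̄^{q-1}`, `m₀ ∣ m ∣ 4 m₀`, `q ≥ 5`.  Then the
divisor of `g₀` is, modulo `q` and away from the cusps, a multiple of that of `ub₀`. -/
theorem hdiv {m₀ : ℕ} [NeZero m₀] [H3RR.IsFF k (modularFunctionFieldFullC k m₀)]
    (hm : m₀ ∣ m) (h4 : m ∣ 4 * m₀) (hq5 : 5 ≤ q)
    {g : modularFunctionFieldFullC k m}
    (hnode : ∀ s s', (sheets w hπ hdeg hqm arch r hr1 hr2).Node s →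
      (sheets w hπ hdeg hqm arch r hr1 hr2).Node s' → (q : ℤ) ∣ s.ord g - s'.ord g)
    (hsm : ∀ s, ¬ (sheets w hπ hdeg hqm arch r hr1 hr2).Node s → (q : ℤ) ∣ s.ord g)
    {g₀ ub₀ j₀ : modularFunctionFieldFullC k m₀}
    (hg : (g : LaurentSeries k) = g₀)
    (hub : (ub₀ : LaurentSeries k) = deltaL k ^ (q - 1))
    (hj : (j₀ : LaurentSeries k) = jqModC k) :
    ∃ c c' : ℤ, ¬ (q : ℤ) ∣ c ∧ ∀ w : Place k (modularFunctionFieldFullC k m₀),
      0 ≤ w.ord j₀ → (q : ℤ) ∣ c * w.ord g₀ + c' * w.ord ub₀ := by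
  obtain ⟨ub, hub'⟩ := exists_ubar w hπ hdeg hqm arch r hr1 hr2
  obtain ⟨n, hn⟩ := exists_dvd_ord w hπ hdeg hqm ι he hem arch r hr1 hr2 hnode hsm hub'
  have hk : ((m : ℕ) : k) ≠ 0 := by
    intro h0
    exact hqm ((CharP.cast_eq_zero_iff k q m).mp h0)
  refine ⟨12, n, ?_, fun v hv => descend m₀ m hm hk hq.out
    (fun n hn => not_dvd_of_psi hq.out hq5 hm h4 n hn) hg (hub'.trans hub.symm)
    (j' := jk k m) ?_ hn v hv⟩
  · intro h12
    have h1 : q ∣ 12 := by exact_mod_cast h12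
    have h2 : (12 : ℕ) = 2 ^ 2 * 3 := by norm_num
    rw [h2] at h1
    rcases (hq.out.dvd_mul).mp h1 with h3 | h3
    · have := Nat.le_of_dvd (by norm_num) (hq.out.dvd_of_dvd_pow h3)
      omega
    · have := Nat.le_of_dvd (by norm_num) h3
      omega
  · rw [hj]
    exact coe_jk m

end Fermat.Agent.H38.Dv
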