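import Fermat.Agent.H31C2
import Fermat.Agent.H16C7P
import Fermat.Agent.H17C1
import Fermat.Agent.H18CRed
import Fermat.Agent.H38DvE
import Fermat.Agent.H62NE

/-!
# Level lowering at `p`: the last step (helper31)

From the reduction `g` of the Kummer function `u` (orders congruent modulo `p` at the nodes,
divisible by `p` elsewhere, `g` not a `p`-th power) to residual modularity of level `M₀`.

* `exists_kum_aux` : the Hecke eigenclass at the auxiliary level `M ∣ 4 M₀`;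
* `dvd_ord_top` : step 7 : all the orders of `g` at level `M` are divisible by `p`;
* `resModular_of_base` : step 8 : it suffices that all the orders of `g` at level `M₀` are divisible
  by `p`;
* `coreStep4_of_five` : `CoreStep4 p` for `p ≥ 5`;
* `coreStep4_three` : `CoreStep4 3` from the descent statement `T3`.
-/

set_option autoImplicit false
set_option linter.unusedSectionVars false
set_option linter.style.haveILetI false
set_option maxHeartbeats 2000000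
set_option synthInstance.maxHeartbeats 200000

noncomputable section

open AlgebraicCurve ModularCurve IntermediateField WithZero
open Fermat.Agent.H97 Fermat.Agent.H34.Two Fermat.Agent.H31.In Fermat.Agent.H31
open Fermat.Agent.H61.L5 Fermat.Agent.H28

namespace Fermat.Agent.H31C

local notation "Qb" => AlgebraicClosure ℚ

/-- The Hecke eigenclass at the auxiliary level. -/
theorem exists_kum_aux {W : WeierstrassCurve ℤ} {p : Nat.Primes} [NeZero (p : ℕ)]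
    (hp2 : (p : ℕ) ≠ 2) {M₀ M : ℕ} [NeZero M₀] [NeZero M] [NeZero (M₀ * p)] [NeZero (M * p)]
    (hdvd : M₀ ∣ M) (h4 : M ∣ 4 * M₀) {S : Set ℕ} (E₀ : NewEmb W p M₀ S) {z : H39.Tor W p}
    {u₀ : H99.FX Qb (M₀ * p)} (hu₀ : H33.IsKum p (E₀.ι z) u₀) :
    ∃ (y : JZero (M * p)) (u' : H99.FX Qb (M * p)), H33.IsKum p y u' ∧
      (u' : LaurentSeries Qb) = (u₀ : LaurentSeries Qb) ∧
      ∀ ℓ : Nat.Primes, (ℓ : ℕ) ∉ S → (ℓ : ℕ) ≠ 2 →
        heckeOperatorBar (M * p) ℓ y = W.apOfModel (ℓ : ℕ) • y := by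
  obtain ⟨t, ht⟩ := hdvd
  have ht4 : t ∣ 2 ^ 2 := by
    have h1 : M₀ * t ∣ M₀ * 4 := by rw [← ht, mul_comm M₀ 4]; exact h4
    exact Nat.dvd_of_mul_dvd_mul_left (Nat.pos_of_ne_zero (NeZero.ne M₀)) h1
  obtain ⟨k, -, rfl⟩ := (Nat.dvd_prime_pow Nat.prime_two).1 ht4
  cases k with
  | zero =>
    rw [pow_zero, mul_one] at ht
    subst ht
    exact ⟨E₀.ι z, u₀, hu₀, rfl, fun ℓ hℓ _ => E₀.hecke ℓ hℓ z⟩
  | succ k =>
    subst ht
    have h : M₀ * p * 1 ∣ M₀ * 2 ^ (k + 1) * p := ⟨2 ^ (k + 1), by ring⟩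
    obtain ⟨E', -, hι⟩ := H61C.exists_two_pow E₀ hp2 k h
    refine ⟨E'.ι z, H67.dg Qb 1 h u₀, ?_, qExpand_one_apply _, fun ℓ hℓ h2 => E'.hecke ℓ ?_ z⟩
    · rw [hι]
      exact H44K.isKum_pullP (H67.dg Qb 1 h) hu₀
    · rintro (h3 | h3)
      · exact hℓ h3
      · exact h2 h3

section Core

variable {W : WeierstrassCurve ℤ} {A : ValuationSubring Qb} {p : Nat.Primes}
  [hpf : Fact (p : ℕ).Prime] [NeZero (p : ℕ)] (hA : A.LiesOverPrime p)
  {M₀ M : ℕ} [NeZero M₀] [NeZero M] [NeZero (M₀ * p)] [NeZero (M * p)]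
  (hdvd : M₀ ∣ M) (h4 : M ∣ 4 * M₀)
  (h4M : 4 ∣ M) (hpM : ¬ (p : ℕ) ∣ M) {S : Set ℕ}
  (hS : ∀ ℓ : ℕ, ℓ.Prime → W.IsGoodPrimeFor ℓ → ¬ ℓ ∣ M₀ → ℓ ≠ p → ℓ ∉ S)
  (E₀ : NewEmb W p M₀ S)
  [CharP (IsLocalRing.ResidueField A) p] [IsAlgClosed (IsLocalRing.ResidueField A)]
  [Infinite (IsLocalRing.ResidueField A)] (w : H99.AL Qb M p)
  (hπ : Function.Surjective (IsLocalRing.residue A))
  (hdeg : H42.DegLE Qb (IsLocalRing.ResidueField A) M) (arch : Arch A)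
  (r : Place Qb (H99.FX Qb M) → Place (IsLocalRing.ResidueField A)
    (modularFunctionFieldFullC (IsLocalRing.ResidueField A) M))
  {c : ℕ}
  (hr1 : ∀ D : Divisor Qb (H99.FX Qb M), (c : ℤ) < Divisor.degree D →
    (H42.modReductionData A (IsLocalRing.residue A) M hπ hdeg).IsRed D (Finsupp.mapDomain r D))
  (hr2 : H34.GR.DivCompat (H42.modReductionData A (IsLocalRing.residue A) M hπ hdeg) r)
  [H3RR.IsFF Qb (H99.FX Qb M)] [H3RR.IsFF Qb (H99.FX Qb (M * p))]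
  [H3RR.IsFF (IsLocalRing.ResidueField A)
    (modularFunctionFieldFullC (IsLocalRing.ResidueField A) M)] [H94.FunField Qb (H99.FX Qb M)]
  [H94.FunField Qb (H99.FX Qb (M * p))]
  {z : H39.Tor W p} {u₀ : H99.FX Qb (M₀ * p)} (hu₀ : H33.IsKum p (E₀.ι z) u₀) {a : Qb}
  {u : H99.FX Qb (M * p)}
  (hu : (u : LaurentSeries Qb) = algebraMap Qb (LaurentSeries Qb) a * (u₀ : LaurentSeries Qb))
  (hv : (sheets w hπ hdeg hpM arch r hr1 hr2).v false u = 1)

local notation "kA" => IsLocalRing.ResidueField A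

include hu hv in
/-- the reduction in terms of expansions -/
theorem red_g : H38.Mz.Red A (IsLocalRing.residue A)
    (algebraMap Qb (LaurentSeries Qb) a * (u₀ : LaurentSeries Qb))
    (((sheets w hπ hdeg hpM arch r hr1 hr2).ρ false u : modularFunctionFieldFullC kA M) :
      LaurentSeries kA) := by
  have h := H38.S44.red_of_v1 w hπ hdeg hpM (f := u) (le_of_eq hv)
  rw [hu] at h
  exact h

include hv in
theorem g_ne_zero : (sheets w hπ hdeg hpM arch r hr1 hr2).ρ false u ≠ 0 :=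
  ((sheets w hπ hdeg hpM arch r hr1 hr2).comp false).ρ_ne_zero hv

include hA hdvd h4 h4M hS hu₀ hu hv in
/-- **Step 7**: all the orders of the reduction are divisible by `p`. -/
theorem dvd_ord_top (hp2 : (p : ℕ) ≠ 2) (hΔ : W.Δ ≠ 0) (hirr : W.ModRepIsIrreducible p)
    (hnode : ∀ s s', (sheets w hπ hdeg hpM arch r hr1 hr2).Node s →
      (sheets w hπ hdeg hpM arch r hr1 hr2).Node s' →
        ((p : ℕ) : ℤ) ∣ s.ord ((sheets w hπ hdeg hpM arch r hr1 hr2).ρ false u) -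
          s'.ord ((sheets w hπ hdeg hpM arch r hr1 hr2).ρ false u))
    (hsm : ∀ s, ¬ (sheets w hπ hdeg hpM arch r hr1 hr2).Node s →
      ((p : ℕ) : ℤ) ∣ s.ord ((sheets w hπ hdeg hpM arch r hr1 hr2).ρ false u))
    (s : Place kA (modularFunctionFieldFullC kA M)) :
    ((p : ℕ) : ℤ) ∣ s.ord ((sheets w hπ hdeg hpM arch r hr1 hr2).ρ false u) := by
  have hg0 := g_ne_zero hpM w hπ hdeg arch r hr1 hr2 hv
  have hred := red_g hpM w hπ hdeg arch r hr1 hr2 hu hv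
  obtain ⟨y, u', ⟨hu'0, D, hD, hordD⟩, hu', hT⟩ := exists_kum_aux hp2 hdvd h4 E₀ hu₀
  rw [← hu'] at hred
  obtain ⟨ub, hub⟩ := H38.Dv.exists_ubar w hπ hdeg hpM arch r hr1 hr2
  -- a non Eisenstein prime
  obtain ⟨ℓ, hℓ, hgood, hℓM, hℓp, -, hne⟩ := H62.ne2 hΔ hp2 hirr
    (B := M) (Nat.pos_of_ne_zero (NeZero.ne M)) (M := 1) one_pos
  haveI : NeZero ℓ := ⟨hℓ.ne_zero⟩
  haveI : NeZero (M * ℓ) := ⟨mul_ne_zero (NeZero.ne M) hℓ.ne_zero⟩
  have hℓ2 : ℓ ≠ 2 := by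
    rintro rfl
    exact hℓM ((by norm_num : 2 ∣ 4).trans h4M)
  have hℓN : ¬ ℓ ∣ M * p := by
    rw [hℓ.dvd_mul]
    rintro (h | h)
    · exact hℓM h
    · exact hℓp ((Nat.prime_dvd_prime_iff_eq hℓ p.2).mp h)
  have hpMℓ : ¬ (p : ℕ) ∣ M * ℓ := by
    rw [p.2.dvd_mul]
    rintro (h | h)
    · exact hpM h
    · exact hℓp ((Nat.prime_dvd_prime_iff_eq p.2 hℓ).mp h).symm
  have c1 : ∀ n : ℕ, ¬ (p : ℕ) ∣ n → ((n : ℕ) : kA) ≠ 0 := fun n hn h0 =>
    hn ((CharP.cast_eq_zero_iff kA p n).mp h0)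
  haveI : H94.FunField kA (modularFunctionFieldFullC kA M) := H9.funField_full kA M (c1 _ hpM)
  haveI : H94.FunField kA (modularFunctionFieldFullC kA (M * ℓ)) :=
    H9.funField_full kA (M * ℓ) (c1 _ hpMℓ)
  have hα := H17.isIntegral_of_funField (H17.alphaC kA M ℓ)
  have hβ := H17.isIntegral_of_funField (H17.betaC kA M ℓ)
  have hTℓ : heckeOperatorBar (M * p) ⟨ℓ, hℓ⟩ (Pic0.mk D) =
      W.apOfModel ℓ • (Pic0.mk D : Pic0 Qb (H99.FX Qb (M * p))) := by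
    have h1 := hT ⟨ℓ, hℓ⟩ (hS ℓ hℓ hgood (fun h => hℓM (h.trans hdvd)) hℓp) hℓ2
    rw [← hD] at h1
    exact h1
  obtain ⟨h, -, hrel⟩ := H17C.exists_hrel p.2 hpM hA hℓ hℓN hα hβ hu'0
    (fun v => (hordD v).symm) hTℓ hg0 hred
  obtain ⟨Dg, hDg, -⟩ := HasPrincipalDivisors.exists_divisor (K := kA) _ hg0
  have hnodeiff := H16.C7.node_iff w hπ hdeg hpM arch r hr1 hr2 h4M hub
  refine H16.C7.dvd_ord_of_hecke hA h4M hpM hℓ hℓM hℓp hα hβ (D := Dg) (fun v => hDg v) hub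
    (fun s hs => hsm s fun hN => hs ((hnodeiff s).mp hN))
    (fun s s' h1 h2 h3 h4 => hnode s s' ((hnodeiff s).mpr ⟨h1, h2⟩) ((hnodeiff s').mpr ⟨h3, h4⟩))
    (hrel Dg (fun v => hDg v)) (fun hdv => hne ?_) s
  have h5 := (ZMod.intCast_zmod_eq_zero_iff_dvd (W.apOfModel ℓ - (ℓ + 1)) p).mpr hdv
  push_cast at h5
  exact sub_eq_zero.mp h5

include hA hdvd hS hu₀ hu hv in
/-- **Step 8**: it suffices that all the orders of the reduction are divisible by `p` at level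
`M₀`. -/
theorem resModular_of_base
    (hpow : ∀ h : modularFunctionFieldFullC kA M,
      (sheets w hπ hdeg hpM arch r hr1 hr2).ρ false u ≠ h ^ (p : ℕ))
    (hbase : ∀ g₀ : modularFunctionFieldFullC kA M₀, g₀ ≠ 0 →
      (g₀ : LaurentSeries kA) =
        (((sheets w hπ hdeg hpM arch r hr1 hr2).ρ false u : modularFunctionFieldFullC kA M) :
          LaurentSeries kA) →
      H46.P2.incl (k := kA) M₀ M hdvd g₀ = (sheets w hπ hdeg hpM arch r hr1 hr2).ρ false u →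
      ∀ v : Place kA (modularFunctionFieldFullC kA M₀), ((p : ℕ) : ℤ) ∣ v.ord g₀) :
    W.IsResiduallyModularOfLevel p M₀ := by
  have hpM₀ : ¬ (p : ℕ) ∣ M₀ := fun h => hpM (h.trans hdvd)
  have hg0 := g_ne_zero hpM w hπ hdeg arch r hr1 hr2 hv
  have hred := red_g hpM w hπ hdeg arch r hr1 hr2 hu hv
  obtain ⟨hu₀0, D, hD, hordD⟩ := hu₀
  have hmem : (((sheets w hπ hdeg hpM arch r hr1 hr2).ρ false u :
      modularFunctionFieldFullC kA M) : LaurentSeries kA) ∈ modularFunctionFieldFullC kA M₀ := by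
    refine H38.Mz.mem_full_of_red hpM₀ hA
      (f := algebraMap Qb (H99.FX Qb (M₀ * p)) a * u₀) ?_
    exact hred
  obtain ⟨g₀, hg₀⟩ : ∃ g₀ : modularFunctionFieldFullC kA M₀, (g₀ : LaurentSeries kA) =
      (((sheets w hπ hdeg hpM arch r hr1 hr2).ρ false u : modularFunctionFieldFullC kA M) :
          LaurentSeries kA) := ⟨⟨_, hmem⟩, rfl⟩
  have hg₀0 : g₀ ≠ 0 := by
    rintro rfl
    exact hg0 (Subtype.ext hg₀.symm)
  have hincl : H46.P2.incl (k := kA) M₀ M hdvd g₀ =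
      (sheets w hπ hdeg hpM arch r hr1 hr2).ρ false u :=
    Subtype.ext ((H46.P2.coe_incl M₀ M hdvd g₀).trans hg₀)
  refine H18.CR.isResiduallyModularOfLevel_of_fun hpM₀ hA (D := D) hu₀0
    (fun v => (hordD v).symm) (fun ℓ hℓ hg hℓM hℓp => ?_) (c := a) (gb := g₀) hg₀0
    (by rw [hg₀]; exact hred) (fun h hh => ?_) (hbase g₀ hg₀0 hg₀ hincl)
  · have h1 := E₀.hecke ⟨ℓ, hℓ⟩ (hS ℓ hℓ hg hℓM hℓp) z
    rw [← hD] at h1
    exact h1
  · apply hpow (H46.P2.incl (k := kA) M₀ M hdvd h)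
    rw [← map_pow, hh, hincl]

end Core

/-- Descent of divisibility, degree prime to `p`. -/
theorem dvd_ord_base_of_not_dvd {k : Type*} [Field k] [IsAlgClosed k] {p M₀ M : ℕ} [NeZero M₀]
    [NeZero M] (hp : p.Prime) (hdvd : M₀ ∣ M) (hk : ((M : ℕ) : k) ≠ 0)
    [H3RR.IsFF k (modularFunctionFieldFullC k M₀)] [H3RR.IsFF k (modularFunctionFieldFullC k M)]
    (hn : ∀ n, dedekindPsi M₀ * n = dedekindPsi M → ¬ p ∣ n)
    {g₀ : modularFunctionFieldFullC k M₀}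
    (h : ∀ s : Place k (modularFunctionFieldFullC k M),
      (p : ℤ) ∣ s.ord (H46.P2.incl (k := k) M₀ M hdvd g₀))
    (v : Place k (modularFunctionFieldFullC k M₀)) : (p : ℤ) ∣ v.ord g₀ := by
  obtain ⟨s', e, -, hpe, he⟩ := H46.P2.exists_above_full_of_not_dvd M₀ M hdvd hk hn v
  have h1 := h s'
  rw [he] at h1
  exact ((Nat.prime_iff_prime_int.mp hp).dvd_or_dvd h1).resolve_left
    fun h2 => hpe (Int.natCast_dvd_natCast.mp h2)

/-- **The last step, `p ≥ 5`.** -/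
theorem coreStep4_of_five {p : Nat.Primes} [NeZero (p : ℕ)] (hp5 : 5 ≤ (p : ℕ)) :
    CoreStep4 p := by
  intro W A _ hA hΔ hirr M₀ M _ _ _ _ hdvd h4 h4M hpM S hS E₀ _ _ _ w hπ hdeg arch r c hr1 hr2
    _ _ _ _ _ z u₀ hu₀ a u hu hv hnode hsm hpow
  have hp2 : (p : ℕ) ≠ 2 := by omega
  have htop := dvd_ord_top hA hdvd h4 h4M hpM hS E₀ w hπ hdeg arch r hr1 hr2 hu₀ hu hv hp2 hΔ hirr
    hnode hsm
  refine resModular_of_base hA hdvd hpM hS E₀ w hπ hdeg arch r hr1 hr2 hu₀ hu hv hpow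
    fun g₀ _ _ hincl v => ?_
  have c1 : ∀ n : ℕ, ¬ (p : ℕ) ∣ n → ((n : ℕ) : IsLocalRing.ResidueField A) ≠ 0 := fun n hn h0 =>
    hn ((CharP.cast_eq_zero_iff (IsLocalRing.ResidueField A) p n).mp h0)
  have hpM₀ : ¬ (p : ℕ) ∣ M₀ := fun h => hpM (h.trans hdvd)
  haveI : H3RR.IsFF (IsLocalRing.ResidueField A)
    (modularFunctionFieldFullC (IsLocalRing.ResidueField A) M₀) :=
      isFF_right (L := Qb) (H18.degLE_of_not_dvd M₀ hpM₀ A hA)
  exact dvd_ord_base_of_not_dvd p.2 hdvd (c1 _ hpM)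
    (fun n hn => H38.Dv.not_dvd_of_psi p.2 hp5 hdvd h4 n hn)
    (fun s => by rw [hincl]; exact htop s) v

end Fermat.Agent.H31C
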