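import Fermat.Agent.H31C2
import Fermat.Agent.H61C1
import Fermat.Agent.H33CNew
import Fermat.Agent.H44EFrey

/-!
# Final assembly of `S39` and `S40` (helper31)

`level_lowering39` : from the last step (`CoreStep4`, steps 7' and 8') and the structure of the
torsion points at a prime of good reduction (`GoodSide`).
-/

set_option autoImplicit false
set_option linter.unusedSectionVars false
set_option linter.style.haveILetI false

noncomputable section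

open AlgebraicCurve ModularCurve
open Fermat.Agent.H61.L5 Fermat.Agent.H44E

namespace Fermat.Agent.H31C

local notation "Qb" => AlgebraicClosure ℚ

/-- The structure of the `p`-torsion at a prime of good reduction: a line (ordinary reduction), or
inertia acts transitively (supersingular reduction). -/
def GoodSide : Prop :=
  ∀ {W : WeierstrassCurve ℤ} {p : ℕ}, p.Prime → p ≠ 2 → W.Δ ≠ 0 → ¬ (p : ℤ) ∣ W.Δ →
    ∀ {A : ValuationSubring Qb}, A.LiesOverPrime p →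
      (∃ V : AddSubgroup (PtQ W), LineAtP p A (PtQ W) V) ∨
        ∀ x y : PtQ W, p • x = 0 → p • y = 0 → x ≠ 0 → y ≠ 0 →
          ∃ σ : A.inertiaSubgroupIn ℚ, σ • x = y

/-- The `E`-side input of the node analysis from the line. -/
theorem eSide_of_line {W : WeierstrassCurve ℤ} {p : ℕ} (hp : p.Prime) (hp2 : p ≠ 2)
    (hΔ : W.Δ ≠ 0) {A : ValuationSubring Qb}
    (h : ∃ V : AddSubgroup (PtQ W), LineAtP p A (PtQ W) V) {ζ : Qb} (hζ : IsPrimitiveRoot ζ p) :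
    Nonempty (H40.ESide (G := A.inertiaSubgroupIn ℚ) A.valuation p (TorQ W p) ζ) := by
  obtain ⟨V, hV⟩ := h
  have h1 := hV.comap ((Submodule.torsionBy ℤ (PtQ W) (p : ℤ)).subtype.toAddMonoidHom)
    Subtype.val_injective (fun σ x => rfl) (fun x' hx' => ⟨⟨x', by
      rw [Submodule.mem_torsionBy_iff, natCast_zsmul]
      exact hx'⟩, rfl⟩)
  obtain ⟨E, -⟩ := h1.exists_eSide hp hp2 hΔ hζ
  exact ⟨E⟩

/-- Transitivity on the `p`-torsion. -/
theorem transitive_tor {W : WeierstrassCurve ℤ} {p : ℕ} {A : ValuationSubring Qb}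
    (h : ∀ x y : PtQ W, p • x = 0 → p • y = 0 → x ≠ 0 → y ≠ 0 →
      ∃ σ : A.inertiaSubgroupIn ℚ, σ • x = y) (x y : H39.Tor W p) (hx : x ≠ 0) (hy : y ≠ 0) :
    ∃ σ ∈ A.inertiaSubgroupIn ℚ, σ • x = y := by
  have htor : ∀ x : H39.Tor W p, p • (x : PtQ W) = 0 := by
    intro x
    have h1 := x.2
    rw [Submodule.mem_torsionBy_iff, natCast_zsmul] at h1
    exact h1
  obtain ⟨σ, hσ⟩ := h x y (htor x) (htor y) (fun h0 => hx (Subtype.ext h0))
    (fun h0 => hy (Subtype.ext h0))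
  exact ⟨σ, σ.2, Subtype.ext hσ⟩

/-- **The key statement**: a `p`-new embedding gives residual modularity of level `M`. -/
theorem resModular_of_newEmb_all {W : WeierstrassCurve ℤ} {p : Nat.Primes} [NeZero (p : ℕ)]
    (hgs : GoodSide) (hcore : CoreStep4 p) (hp2 : (p : ℕ) ≠ 2) (hΔ : W.Δ ≠ 0)
    (hsemi : ((p : ℕ) : ℤ) ∣ W.Δ → ¬ ((p : ℕ) : ℤ) ∣ W.c₄)
    (hirr : W.ModRepIsIrreducible p)
    (hfin : (W.map (Int.castRingHom ℚ)).IsPeuRamifieeAt p p)
    {M : ℕ} [NeZero M] [NeZero (M * p)] {S : Set ℕ}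
    (hS : ∀ ℓ : ℕ, ℓ.Prime → W.IsGoodPrimeFor ℓ → ¬ ℓ ∣ M → ℓ ≠ p → ℓ ∉ S)
    (E : NewEmb W p M S) : W.IsResiduallyModularOfLevel p M := by
  by_cases hbad : ((p : ℕ) : ℤ) ∣ W.Δ
  · have hdvd : (p : ℕ) ∣ padicValInt p W.Δ := by
      have h1 : ((p : ℕ) : ℤ) ∣ padicValRat p (W.map (Int.castRingHom ℚ)).Δ := hfin
      have h2 : (W.map (Int.castRingHom ℚ)).Δ = ((W.Δ : ℤ) : ℚ) := by
        rw [WeierstrassCurve.map_Δ]; rfl
      rw [h2, padicValRat.of_int] at h1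
      exact_mod_cast h1
    exact resModular_of_newEmb4 hcore hΔ hirr hS E hp2 fun A hA ζ hζ =>
      eSide_of_line p.2 hp2 hΔ
        ⟨_, lineAtP_of_multiplicative p.2 hp2 hbad hΔ (hsemi hbad) hdvd hA⟩ hζ
  · by_cases hss : ∃ A : ValuationSubring Qb, A.LiesOverPrime p ∧
      ∀ x y : PtQ W, (p : ℕ) • x = 0 → (p : ℕ) • y = 0 → x ≠ 0 → y ≠ 0 →
        ∃ σ : A.inertiaSubgroupIn ℚ, σ • x = y
    · obtain ⟨A, hA, htr⟩ := hss
      exact (H33C.false_of_transitive E hp2 hΔ hA (transitive_tor htr)).elim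
    · refine resModular_of_newEmb4 hcore hΔ hirr hS E hp2 fun A hA ζ hζ =>
        eSide_of_line p.2 hp2 hΔ ?_ hζ
      rcases hgs p.2 hp2 hΔ hbad hA with h | h
      · exact h
      · exact (hss ⟨A, hA, h⟩).elim

/-- **`S39`** from the last step and the good side. -/
theorem level_lowering39 (hgs : GoodSide)
    (hcore : ∀ (p : Nat.Primes) [NeZero (p : ℕ)], (p : ℕ) ≠ 2 → CoreStep4 p)
    (W : WeierstrassCurve ℤ) (hΔ : W.Δ ≠ 0)
    {p : ℕ} (hp : p.Prime) (hp2 : p ≠ 2)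
    (hsemi : (p : ℤ) ∣ W.Δ → ¬ (p : ℤ) ∣ W.c₄)
    (hirr : W.ModRepIsIrreducible p)
    (hfin : (W.map (Int.castRingHom ℚ)).IsPeuRamifieeAt p p)
    {M : ℕ} (hM : 0 < M) (hpM : p ∣ M) (hp2M : ¬ p ^ 2 ∣ M)
    (hmod : W.IsResiduallyModularOfLevel p M) :
    W.IsResiduallyModularOfLevel p (M / p) := by
  refine H61C.level_lowering_of hp hp2 W hΔ hirr (fun M _ _ hpM ⟨E⟩ => ?_) hM hpM hp2M hmod
  haveI : NeZero ((⟨p, hp⟩ : Nat.Primes) : ℕ) := ⟨hp.ne_zero⟩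
  haveI : NeZero (M * ((⟨p, hp⟩ : Nat.Primes) : ℕ)) := ⟨mul_ne_zero (NeZero.ne M) hp.ne_zero⟩
  refine resModular_of_newEmb_all (p := ⟨p, hp⟩) hgs (hcore ⟨p, hp⟩ hp2) hp2 hΔ hsemi hirr hfin
    (fun ℓ hℓ h1 h2 h3 => ?_) E
  rw [Finset.mem_coe, H61C.not_mem_badSet hΔ hp (NeZero.ne M) hℓ]
  exact ⟨h1, h2, h3⟩

/-- **`S40`** from the last step and the good side. -/
theorem level_lowering40 (hgs : GoodSide)
    (hcore : ∀ (p : Nat.Primes) [NeZero (p : ℕ)], (p : ℕ) ≠ 2 → CoreStep4 p)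
    (W : WeierstrassCurve ℤ) (hΔ : W.Δ ≠ 0)
    {p : ℕ} (hp : p.Prime) (hp2 : p ≠ 2)
    (hgood : W.IsGoodPrimeFor p)
    (hirr : W.ModRepIsIrreducible p)
    {M : ℕ} (hM : 0 < M) (hpM : p ∣ M) (hp2M : ¬ p ^ 2 ∣ M)
    (hmod : W.IsResiduallyModularOfLevel p M) :
    W.IsResiduallyModularOfLevel p (M / p) :=
  level_lowering39 hgs hcore W hΔ hp hp2 (fun h => absurd h hgood) hirr
    (H61C.isPeuRamifieeAt_of_good hgood) hM hpM hp2M hmod

end Fermat.Agent.H31C
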