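import Fermat.Agent.H31C3
import Fermat.Agent.H31C5
import Fermat.Agent.H47ESGS
import Fermat.Agent.H17C2

/-!
# Level lowering at `p`: `S39`, `S40` (helper31)

Everything from the single input `H40C.InT3` (descent of the divisibility by `3` along
`X₀(M) → X₀(M₀)` in characteristic `3`).
-/

set_option autoImplicit false
set_option linter.unusedSectionVars false
set_option linter.style.haveILetI false
set_option maxHeartbeats 2000000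
set_option synthInstance.maxHeartbeats 200000

noncomputable section

open AlgebraicCurve ModularCurve IntermediateField WithZero
open Fermat.Agent.H97 Fermat.Agent.H34.Two Fermat.Agent.H31.In Fermat.Agent.H31
open Fermat.Agent.H61.L5 Fermat.Agent.H28

namespace Fermat.Agent.H31C

local notation "Qb" => AlgebraicClosure ℚ

/-- The Hecke relations of the reduction at level `M₀`. -/
theorem hrel_base {W : WeierstrassCurve ℤ} {A : ValuationSubring Qb} {p : Nat.Primes}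
    (hA : A.LiesOverPrime p) {M₀ : ℕ} [NeZero M₀] [NeZero (M₀ * p)] (hpM₀ : ¬ (p : ℕ) ∣ M₀)
    {S : Set ℕ} (hS : ∀ ℓ : ℕ, ℓ.Prime → W.IsGoodPrimeFor ℓ → ¬ ℓ ∣ M₀ → ℓ ≠ p → ℓ ∉ S)
    (E₀ : NewEmb W p M₀ S) {z : H39.Tor W p} {u₀ : H99.FX Qb (M₀ * p)}
    (hu₀ : H33.IsKum p (E₀.ι z) u₀) {a : Qb}
    {g₀ : modularFunctionFieldFullC (IsLocalRing.ResidueField A) M₀} (hg₀0 : g₀ ≠ 0)
    (hred : H38.Mz.Red A (IsLocalRing.residue A)
      (algebraMap Qb (LaurentSeries Qb) a * (u₀ : LaurentSeries Qb))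
      (g₀ : LaurentSeries (IsLocalRing.ResidueField A)))
    (ℓ : ℕ) [NeZero ℓ] (hℓ : ℓ.Prime) (hgood : W.IsGoodPrimeFor ℓ) (hℓN : ¬ ℓ ∣ M₀ * p) :
    H40C.HRel p M₀ ℓ (W.apOfModel ℓ) g₀ := by
  obtain ⟨hu₀0, D, hD, hordD⟩ := hu₀
  have hℓM : ¬ ℓ ∣ M₀ := fun h => hℓN (h.trans (dvd_mul_right _ _))
  have hℓp : ℓ ≠ p := fun h => hℓN (h ▸ dvd_mul_left _ _)
  refine H17C.inHR p p.2 A hA M₀ hpM₀ ℓ hℓ hℓN D u₀ hu₀0 (fun v => (hordD v).symm) _ ?_ a g₀ hg₀0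
    hred
  have h1 := E₀.hecke ⟨ℓ, hℓ⟩ (hS ℓ hℓ hgood hℓM hℓp) z
  rw [← hD] at h1
  exact h1

/-- **The last step, `p = 3`.** -/
theorem coreStep4_three (hT3 : H40C.InT3) {p : Nat.Primes} [NeZero (p : ℕ)]
    (hp3 : (p : ℕ) = 3) : CoreStep4 p := by
  obtain rfl : p = ⟨3, Nat.prime_three⟩ := Subtype.ext hp3
  intro W A _ hA hΔ hirr M₀ M _ _ _ _ hdvd h4 h4M hpM S hS E₀ _ _ _ w hπ hdeg arch r c hr1 hr2
    _ _ _ _ _ z u₀ hu₀ a u hu hv hnode hsm hpow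
  have hp2 : (((⟨3, Nat.prime_three⟩ : Nat.Primes) : ℕ)) ≠ 2 := by norm_num
  have hpM₀ : ¬ ((⟨3, Nat.prime_three⟩ : Nat.Primes) : ℕ) ∣ M₀ := fun h => hpM (h.trans hdvd)
  have htop := dvd_ord_top hA hdvd h4 h4M hpM hS E₀ w hπ hdeg arch r hr1 hr2 hu₀ hu hv hp2 hΔ hirr
    hnode hsm
  have hred := red_g hpM w hπ hdeg arch r hr1 hr2 hu hv
  refine resModular_of_base hA hdvd hpM hS E₀ w hπ hdeg arch r hr1 hr2 hu₀ hu hv hpow
    fun g₀ hg₀0 hg₀ _ v => ?_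
  rw [← hg₀] at hred
  haveI : Fact (Nat.Prime 3) := ⟨Nat.prime_three⟩
  refine hT3 A hA M₀ M hdvd h4M h4 hpM g₀ hg₀0 _ hg₀.symm htop
    (↑(H61C.badSet W 3 M₀) : Set ℕ) (Finset.finite_toSet _) (fun ℓ => W.apOfModel ℓ) ?_ ?_ v
  · intro ℓ _ hℓ hℓS hℓN
    rw [Finset.mem_coe, H61C.not_mem_badSet hΔ Nat.prime_three (NeZero.ne M₀) hℓ] at hℓS
    exact hrel_base hA hpM₀ hS E₀ hu₀ hg₀0 hred ℓ hℓ hℓS.1 hℓN
  · obtain ⟨ℓ, hℓ, hgood, hℓM, hℓp, -, hne⟩ := H62.ne2 (p := 3) hΔ (by norm_num) hirr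
      (B := M₀) (Nat.pos_of_ne_zero (NeZero.ne M₀)) (M := 1) one_pos
    refine ⟨ℓ, hℓ, ?_, ?_, fun hdv => hne ?_⟩
    · rw [Finset.mem_coe, H61C.not_mem_badSet hΔ Nat.prime_three (NeZero.ne M₀) hℓ]
      exact ⟨hgood, hℓM, hℓp⟩
    · rw [hℓ.dvd_mul]
      rintro (h | h)
      · exact hℓM h
      · exact hℓp ((Nat.prime_dvd_prime_iff_eq hℓ Nat.prime_three).mp h)
    · have h5 := (ZMod.intCast_zmod_eq_zero_iff_dvd (W.apOfModel ℓ - (ℓ + 1)) 3).mpr hdv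
      push_cast at h5
      exact sub_eq_zero.mp h5

/-- **The last step.** -/
theorem coreStep4 (hT3 : H40C.InT3) (p : Nat.Primes) [NeZero (p : ℕ)] (hp2 : (p : ℕ) ≠ 2) :
    CoreStep4 p := by
  rcases Nat.lt_or_ge (p : ℕ) 5 with h | h
  · refine coreStep4_three hT3 ?_
    have h2 := p.2.two_le
    interval_cases h3 : (p : ℕ)
    · exact (hp2 rfl).elim
    · rfl
    · exact absurd (h3 ▸ p.2) (by norm_num)
  · exact coreStep4_of_five h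

/-- **`S39`** from `InT3`. -/
theorem level_lowering39_of (hT3 : H40C.InT3) (W : WeierstrassCurve ℤ) (hΔ : W.Δ ≠ 0)
    {p : ℕ} (hp : p.Prime) (hp2 : p ≠ 2)
    (hsemi : (p : ℤ) ∣ W.Δ → ¬ (p : ℤ) ∣ W.c₄)
    (hirr : W.ModRepIsIrreducible p)
    (hfin : (W.map (Int.castRingHom ℚ)).IsPeuRamifieeAt p p)
    {M : ℕ} (hM : 0 < M) (hpM : p ∣ M) (hp2M : ¬ p ^ 2 ∣ M)
    (hmod : W.IsResiduallyModularOfLevel p M) :
    W.IsResiduallyModularOfLevel p (M / p) :=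
  level_lowering39 H47.ES.good_side (coreStep4 hT3) W hΔ hp hp2 hsemi hirr hfin hM hpM hp2M hmod

/-- **`S40`** from `InT3`. -/
theorem level_lowering40_of (hT3 : H40C.InT3) (W : WeierstrassCurve ℤ) (hΔ : W.Δ ≠ 0)
    {p : ℕ} (hp : p.Prime) (hp2 : p ≠ 2)
    (hgood : W.IsGoodPrimeFor p)
    (hirr : W.ModRepIsIrreducible p)
    {M : ℕ} (hM : 0 < M) (hpM : p ∣ M) (hp2M : ¬ p ^ 2 ∣ M)
    (hmod : W.IsResiduallyModularOfLevel p M) :
    W.IsResiduallyModularOfLevel p (M / p) :=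
  level_lowering40 H47.ES.good_side (coreStep4 hT3) W hΔ hp hp2 hgood hirr hM hpM hp2M hmod

end Fermat.Agent.H31C
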