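import Fermat.Agent.H97MdE
import Fermat.Agent.H31MPParams

/-!
# Two sheets: node parameters
-/

set_option autoImplicit false
set_option linter.unusedSectionVars false

open AlgebraicCurve WithZero IntermediateField Fermat.Agent.H97 Fermat.Agent.H97.Sheets

namespace Fermat.Agent.H31.Eq

variable {K F₀ F k κ Γ : Type*} [Field K] [Field F₀] [Field F] [Algebra K F₀] [Algebra K F]
    [Field k] [Field κ] [Algebra k κ] [LinearOrderedCommGroupWithZero Γ] {q : ℕ}
    (S : Sheets K F₀ F k κ Γ q)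

variable [IsAlgClosed K] [CharZero K] [H3RR.IsFF K F₀] [H3RR.IsFF K F]
  [IsAlgClosed k] [H3RR.IsFF k κ] [H94.FunField K F₀] [H94.FunField K F]

/-- A parameter at the node over `x`. -/
structure NodePar (x : Place k κ) (z z' u : F) : Prop where
  hz : S.InR x z
  hz' : S.InR x z'
  hu : S.InR x u
  hui : S.InR x u⁻¹
  mul : z * z' = q * u
  v_z : S.v false z = 1
  v_z' : S.v true z' = 1
  ord_z : x.ord (S.ρ false z) = 1
  ord_z' : (S.tw x).ord (S.ρ true z') = 1

namespace NodePar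

variable {S} {x : Place k κ} {z z' u : F} (h : NodePar S x z z' u)

include h

theorem z_ne : z ≠ 0 := by
  rintro rfl
  have := h.v_z
  simp at this

theorem z'_ne : z' ≠ 0 := by
  rintro rfl
  have := h.v_z'
  simp at this

theorem u_ne (hq : q ≠ 0) : u ≠ 0 := by
  rintro rfl
  have := h.mul
  rw [mul_zero] at this
  rcases mul_eq_zero.mp this with h1 | h1
  · exact h.z_ne h1
  · exact h.z'_ne h1

theorem v_u (hq : q ≠ 0) (i : Bool) : S.v i u = 1 := by
  refine le_antisymm (h.hu.1 i) ?_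
  have h1 := h.hui.1 i
  rw [map_inv₀] at h1
  have h0 : 0 < S.v i u := zero_lt_iff.mpr ((Valuation.ne_zero_iff _).mpr (h.u_ne hq))
  exact (inv_le_one₀ h0).mp h1

theorem v_true_z (hq : q ≠ 0) : S.v true z = S.vK q := by
  have h1 := congrArg (S.v true) h.mul
  rw [map_mul, map_mul, h.v_z', mul_one, h.v_u hq, mul_one] at h1
  rw [h1, ← map_natCast (algebraMap K F) q, (S.comp true).v_alg]

theorem ord_u (hq : q ≠ 0) {P : Place K F} (hP : S.red P = x) : P.ord u = 0 := by
  have h0 := h.u_ne hq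
  have h1 := ((P.adicValuation_le_one_iff).mp (h.hu.2 P hP)).resolve_left h0
  have h2 := ((P.adicValuation_le_one_iff).mp (h.hui.2 P hP)).resolve_left (inv_ne_zero h0)
  rw [P.ord_inv] at h2
  omega

theorem ord_z_zero (hq : q ≠ 0) {P : Place K F} (hP : S.red P = x) : P.ord z = 0 := by
  have hqK : (q : K) ≠ 0 := by exact_mod_cast hq
  have h1 := ((P.adicValuation_le_one_iff).mp (h.hz.2 P hP)).resolve_left h.z_ne
  have h2 := ((P.adicValuation_le_one_iff).mp (h.hz'.2 P hP)).resolve_left h.z'_ne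
  have h3 := congrArg P.ord h.mul
  have hqF : ((q : ℕ) : F) ≠ 0 := by
    rw [← map_natCast (algebraMap K F) q]
    exact (_root_.map_ne_zero _).mpr hqK
  rw [P.ord_mul h.z_ne h.z'_ne, P.ord_mul hqF (h.u_ne hq), h.ord_u hq hP] at h3
  have h4 : P.ord ((q : ℕ) : F) = 0 := by
    rw [← map_natCast (algebraMap K F) q]
    exact MP.ord_alg P hqK
  omega

theorem ord_ρu (hq : q ≠ 0) (i : Bool) : (S.pt i x).ord (S.ρ i u) = 0 := by
  have h0 : S.ρ i u ≠ 0 := (S.comp i).ρ_ne_zero (h.v_u hq i)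
  have h1 := S.reg h.hu i
  have h2 := S.reg h.hui i
  rw [(S.comp i).ρ_inv (h.v_u hq i)] at h2
  have h3 := (((S.pt i x).adicValuation_le_one_iff).mp h1).resolve_left h0
  have h4 := (((S.pt i x).adicValuation_le_one_iff).mp h2).resolve_left (inv_ne_zero h0)
  rw [(S.pt i x).ord_inv] at h4
  omega

end NodePar

variable [hqF : Fact q.Prime] [CharP k q]

/-- Values at places over a node. -/
theorem val_node {x : Place k κ} (hx : S.Node x) {P : Place K F} (hP : S.red P = x) {f : F}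
    (hf : S.InR x f) {c : K} (hc : Val P f c) (i : Bool) :
    (S.pt i x).adicValuation (S.ρ i f - algebraMap k κ (S.res c)) < 1 := by
  obtain ⟨d, hd⟩ := hx f hf
  subst hP
  have key : S.res c = d := by
    rcases S.on_false_or_true P with h | h
    · exact valκ_unique (h f hf c hc) (hd false)
    · exact valκ_unique (h f hf c hc) (hd true)
  rw [key]
  exact hd i

namespace NodePar

variable {S} {x : Place k κ} {z z' u : F} (h : NodePar S x z z' u)

include h

/-- values of the parameters at a place over the node. -/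
theorem exists_val (hx : S.Node x) {P : Place K F} (hP : S.red P = x) :
    ∃ a : K, Val P z a ∧ S.vK a < 1 ∧ S.vK q < S.vK a := by
  have hq : q ≠ 0 := hqF.out.ne_zero
  obtain ⟨a, ha⟩ := Sheets.exists_val (h.hz.2 P hP)
  obtain ⟨a', ha'⟩ := Sheets.exists_val (h.hz'.2 P hP)
  obtain ⟨b, hb⟩ := Sheets.exists_val (h.hu.2 P hP)
  have hlt : ∀ {w : F} {c : K} {i : Bool}, S.InR x w → Val P w c →
      (S.pt i x).ord (S.ρ i w) = 1 → S.vK c < 1 := by
    intro w c i hw hc hord
    have h1 := val_node S hx hP hw hc i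
    have h2 : (S.pt i x).adicValuation (S.ρ i w) < 1 := by
      have h0 : S.ρ i w ≠ 0 := by
        intro h0
        rw [h0, Place.ord_zero] at hord
        exact zero_ne_one hord
      rw [(S.pt i x).adicValuation_eq_exp_neg_ord h0, hord, ← exp_zero, exp_lt_exp]
      norm_num
    have hcA := hw.val_le hP hc
    rw [← (S.comp false).res_eq_zero hcA]
    by_contra hne
    have h3 : (S.pt i x).adicValuation (algebraMap k κ (S.res c)) < 1 := by
      have : algebraMap k κ (S.res c) = S.ρ i w - (S.ρ i w - algebraMap k κ (S.res c)) := by ring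
      rw [this]
      exact Valuation.map_sub_lt _ h2 h1
    rw [H3RR.adicValuation_algebraMap _ hne] at h3
    exact lt_irrefl _ h3
  have ha1 := hlt (i := false) h.hz ha h.ord_z
  have ha'1 := hlt (i := true) h.hz' ha' h.ord_z'
  refine ⟨a, ha, ha1, ?_⟩
  -- the value of `u` is a unit
  have hprod : Val P (z * z') (a * a') := Val.mul (h.hz.2 P hP) ha ha'
  have hprod' : Val P ((q : F) * u) (q * b) := by
    have h1 : Val P (q : F) (q : K) := by
      have := Val.const (P := P) (q : K)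
      rwa [map_natCast] at this
    refine Val.mul ?_ h1 hb
    rw [← map_natCast (algebraMap K F) q]
    exact P.adicValuation_algebraMap_le_one _
  rw [h.mul] at hprod
  have h2 := hprod.unique hprod'
  have hb1 : S.vK b = 1 := by
    have hbA := h.hu.val_le hP hb
    refine le_antisymm hbA ?_
    obtain ⟨d, hd⟩ := Sheets.exists_val (h.hui.2 P hP)
    have hdA := h.hui.val_le hP hd
    have h3 : Val P (u * u⁻¹) (b * d) := Val.mul (h.hu.2 P hP) hb hd
    rw [mul_inv_cancel₀ (h.u_ne hq)] at h3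
    have h4 : Val P (1 : F) 1 := by
      have := Val.const (P := P) (1 : K)
      rwa [map_one] at this
    have h5 := h3.unique h4
    have h6 := congrArg S.vK h5
    rw [map_mul, map_one] at h6
    rw [← h6]
    exact mul_le_of_le_one_right' hdA
  have h3 := congrArg S.vK h2
  rw [map_mul, map_mul, hb1, mul_one] at h3
  have hqK : (q : K) ≠ 0 := by exact_mod_cast hq
  have ha0 : 0 < S.vK a := by
    rw [zero_lt_iff]
    intro h0
    rw [h0, zero_mul] at h3
    exact (Valuation.ne_zero_iff _).mpr hqK h3.symm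
  rw [← h3]
  exact mul_lt_of_lt_one_right ha0 ha'1

/-- **`z - z(P)` generates `P` on the node class.** -/
theorem z_sub (hx : S.Node x)
    (hval : ∀ a : K, a ≠ 0 → ∃ (l : ℕ) (m : ℤ), l ≠ 0 ∧ S.vK a ^ l = S.vK q ^ m)
    {P : Place K F} (hP : S.red P = x) :
    ∃ a : K, S.vK a < 1 ∧ S.vK q < S.vK a ∧ 0 < P.ord (z - algebraMap K F a) ∧
      ∀ P', S.red P' = x → P'.ord (z - algebraMap K F a) =
        (Finsupp.single P (1 : ℤ) : Divisor K F) P' := by
  classical
  have hq : q ≠ 0 := hqF.out.ne_zero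
  have hqK : (q : K) ≠ 0 := by exact_mod_cast hq
  obtain ⟨a, ha, ha1, hqa⟩ := h.exists_val hx hP
  have ha0 : a ≠ 0 := by
    rintro rfl
    rw [map_zero] at hqa
    exact absurd hqa (not_lt.mpr zero_le')
  have hvKq : S.vK (q : K) ≠ 0 := (Valuation.ne_zero_iff _).mpr hqK
  have hvKa : S.vK a ≠ 0 := (Valuation.ne_zero_iff _).mpr ha0
  have haF : algebraMap K F a ≠ 0 := (_root_.map_ne_zero _).mpr ha0
  obtain ⟨l, m, hl, hlm⟩ := hval a ha0
  have Cf := S.comp false
  have Ct := S.comp true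
  have hvt := h.v_true_z hq
  set f := z - algebraMap K F a with hf
  have hvff : S.v false f = 1 := by
    rw [hf, Valuation.map_sub_eq_of_lt_left _ (by rw [h.v_z, Cf.v_alg]; exact ha1), h.v_z]
  have hvft : S.v true f = S.vK a := by
    rw [hf, Valuation.map_sub_eq_of_lt_right _ (by rw [hvt, Ct.v_alg]; exact hqa), Ct.v_alg]
  have hf0 : f ≠ 0 := by rintro h0; rw [h0] at hvff; simp at hvff
  have hfR : S.InR x f := h.hz.sub (InR.const ha1.le)
  have hz0 := h.z_ne
  have hzm0 : z ^ m ≠ 0 := zpow_ne_zero _ hz0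
  have hfl0 : f ^ l ≠ 0 := pow_ne_zero _ hf0
  set g := f ^ l / z ^ m with hg
  have hg0 : g ≠ 0 := div_ne_zero hfl0 hzm0
  have hvg : ∀ i, S.v i g = 1 := by
    intro i
    cases i with
    | false => rw [hg, map_div₀, map_pow, map_zpow₀, hvff, h.v_z, one_pow, one_zpow, div_one]
    | true =>
      rw [hg, map_div₀, map_pow, map_zpow₀, hvft, hvt, hlm, div_self (zpow_ne_zero _ hvKq)]
  -- the reductions
  have hρff : S.ρ false f = S.ρ false z := by
    have h1 : S.v false (algebraMap K F a) < 1 := by rw [Cf.v_alg]; exact ha1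
    rw [hf, Cf.ρ_sub h.v_z.le h1.le, (Cf.ρ_eq_zero _ h1.le).mpr h1, sub_zero]
  have hρz0 : S.ρ false z ≠ 0 := Cf.ρ_ne_zero h.v_z
  have hzp : ∀ (i : Bool) (w : F) (hw : S.v i w = 1) (n : ℤ), S.ρ i (w ^ n) = (S.ρ i w) ^ n := by
    intro i w hw n
    cases n with
    | ofNat n => rw [Int.ofNat_eq_natCast, zpow_natCast, zpow_natCast, (S.comp i).ρ_pow hw.le]
    | negSucc n =>
      rw [zpow_negSucc, zpow_negSucc, (S.comp i).ρ_inv (by rw [map_pow, hw, one_pow]),
        (S.comp i).ρ_pow hw.le]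
  have hordf : x.ord (S.ρ false g) = l - m := by
    have h1 : S.v false (f ^ l) = 1 := by rw [map_pow, hvff, one_pow]
    have h2 : S.v false (z ^ m) = 1 := by rw [map_zpow₀, h.v_z, one_zpow]
    rw [hg, Cf.ρ_div h1.le h2, MP.ord_div x (Cf.ρ_ne_zero h1) (Cf.ρ_ne_zero h2),
      Cf.ρ_pow hvff.le, hzp false z h.v_z, MP.ord_pow, x.ord_zpow, hρff, h.ord_z]
    ring
  have hordt : (S.tw x).ord (S.ρ true g) = m := by
    -- `g = (f / a)^l * (a^l / q^m) * u^(-m) * z'^m`
    have hqF0 : ((q : ℕ) : F) ≠ 0 := by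
      rw [← map_natCast (algebraMap K F) q]
      exact (_root_.map_ne_zero _).mpr hqK
    have e1 : g = (f / algebraMap K F a) ^ l * algebraMap K F (a ^ l / (q : K) ^ m) *
        (u ^ (-m) * z' ^ m) := by
      have h1 : z ^ m = (q : F) ^ m * u ^ m / z' ^ m := by
        rw [eq_div_iff (zpow_ne_zero _ h.z'_ne), ← mul_zpow, h.mul, mul_zpow]
      have h2 : algebraMap K F (a ^ l / (q : K) ^ m) = (algebraMap K F a) ^ l / (q : F) ^ m := by
        rw [map_div₀, map_pow, map_zpow₀, map_natCast]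
      rw [hg, h1, h2, div_pow, zpow_neg]
      have h3 : (q : F) ^ m ≠ 0 := zpow_ne_zero _ hqF0
      have h4 : u ^ m ≠ 0 := zpow_ne_zero _ (h.u_ne hq)
      have h5 : z' ^ m ≠ 0 := zpow_ne_zero _ h.z'_ne
      field_simp
    have hw1 : S.v true (f / algebraMap K F a) = 1 := by
      rw [map_div₀, hvft, Ct.v_alg, div_self hvKa]
    have hρw1 : S.ρ true (f / algebraMap K F a) = -1 := by
      have h1 : f / algebraMap K F a = z / algebraMap K F a - 1 := by
        rw [hf, sub_div, div_self haF]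
      have h2 : S.v true (z / algebraMap K F a) < 1 := by
        rw [map_div₀, hvt, Ct.v_alg]
        exact (div_lt_one₀ (zero_lt_iff.mpr hvKa)).mpr hqa
      rw [h1, Ct.ρ_sub h2.le (by simp), (Ct.ρ_eq_zero _ h2.le).mpr h2, Ct.ρ_one, zero_sub]
    have hc1 : S.vK (a ^ l / (q : K) ^ m) = 1 := by
      rw [map_div₀, map_pow, map_zpow₀, hlm, div_self (zpow_ne_zero _ hvKq)]
    have hc2 : S.v true (algebraMap K F (a ^ l / (q : K) ^ m)) = 1 := by rw [Ct.v_alg, hc1]
    have hum : S.v true (u ^ (-m)) = 1 := by rw [map_zpow₀, h.v_u hq, one_zpow]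
    have hzm : S.v true (z' ^ m) = 1 := by rw [map_zpow₀, h.v_z', one_zpow]
    have hA : S.v true ((f / algebraMap K F a) ^ l) = 1 := by rw [map_pow, hw1, one_pow]
    have hAB : S.v true ((f / algebraMap K F a) ^ l * algebraMap K F (a ^ l / (q : K) ^ m)) = 1 := by
      rw [map_mul, hA, hc2, one_mul]
    have hCD : S.v true (u ^ (-m) * z' ^ m) = 1 := by rw [map_mul, hum, hzm, one_mul]
    rw [e1, Ct.ρ_mul _ _ hAB.le hCD.le, Ct.ρ_mul _ _ hA.le hc2.le, Ct.ρ_mul _ _ hum.le hzm.le,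
      (S.tw x).ord_mul (mul_ne_zero (Ct.ρ_ne_zero hA) (Ct.ρ_ne_zero hc2))
        (mul_ne_zero (Ct.ρ_ne_zero hum) (Ct.ρ_ne_zero hzm)),
      (S.tw x).ord_mul (Ct.ρ_ne_zero hA) (Ct.ρ_ne_zero hc2),
      (S.tw x).ord_mul (Ct.ρ_ne_zero hum) (Ct.ρ_ne_zero hzm), Ct.ρ_pow hw1.le, hρw1,
      hzp true u (h.v_u hq true), hzp true z' h.v_z', MP.ord_pow, (S.tw x).ord_zpow,
      (S.tw x).ord_zpow, h.ord_z', Ct.ρ_alg _ hc1.le]
    have h1 : (S.tw x).ord (-1 : κ) = 0 := by
      have h3 : (-1 : κ) = algebraMap k κ (-1) := by simp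
      rw [h3, H94.ord_algebraMap]
    have h2 : (S.tw x).ord (algebraMap k κ (S.res (a ^ l / (q : K) ^ m))) = 0 :=
      H94.ord_algebraMap _ _
    have h3 : (S.tw x).ord (S.ρ true u) = 0 := h.ord_ρu hq true
    rw [h1, h2, h3]
    ring
  have hdeg := S.deg_node ⟨x, hx⟩ hg0 hvg (D := H3RR.divOf g) (H3RR.divOf_apply hg0)
  have hdeg' : H97.cls S.sp (H3RR.divOf g : Divisor K F) (Sum.inr ⟨x, hx⟩) =
      l * H97.cls S.sp (H3RR.divOf f : Divisor K F) (Sum.inr ⟨x, hx⟩) := by
    rw [← H97.cls_smul]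
    refine H97.cls_congr S.sp fun P' hP' => ?_
    have hP'x : S.red P' = x := S.sp_eq_inr.mp hP'
    rw [Finsupp.smul_apply, H3RR.divOf_apply hg0, H3RR.divOf_apply hf0, hg,
      MP.ord_div P' hfl0 hzm0, MP.ord_pow, P'.ord_zpow, h.ord_z_zero hq hP'x, mul_zero, sub_zero,
      smul_eq_mul]
  rw [hdeg'] at hdeg
  change (l : ℤ) * _ = x.ord (S.ρ false g) + (S.tw x).ord (S.ρ true g) at hdeg
  rw [hordf, hordt, sub_add_cancel] at hdeg
  have hcls : H97.cls S.sp (H3RR.divOf f : Divisor K F) (Sum.inr ⟨x, hx⟩) = 1 := by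
    have hlz : (l : ℤ) ≠ 0 := by exact_mod_cast hl
    exact mul_left_cancel₀ hlz (by rw [hdeg, mul_one])
  have hpos : 0 < P.ord f := H3RR.ord_pos_of_lt_one hf0 ha
  have hsp : ∀ P' : Place K F, S.red P' = x → S.sp P' = Sum.inr ⟨x, hx⟩ := fun P' h' =>
    S.sp_eq_inr.mpr h'
  obtain ⟨h1, h2⟩ := H97.eq_one_of_cls_eq_one S.sp (fun P' hP' => by
      rw [H3RR.divOf_apply hf0]
      exact ((P'.adicValuation_le_one_iff).mp (hfR.2 P' (S.sp_eq_inr.mp hP'))).resolve_left hf0)
    hcls (hsp P hP) (by rw [H3RR.divOf_apply hf0]; exact hpos)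
  refine ⟨a, ha1, hqa, hpos, fun P' hP' => ?_⟩
  by_cases hPP : P' = P
  · subst hPP
    rw [Finsupp.single_eq_same, ← H3RR.divOf_apply hf0, h1]
  · rw [Finsupp.single_apply, if_neg (Ne.symm hPP), ← H3RR.divOf_apply hf0, h2 P' (hsp P' hP') hPP]

end NodePar

end Fermat.Agent.H31.Eq
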