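import Fermat.Agent.H31Eq1
import Fermat.Agent.H31Lift

/-!
# Two sheets with a group action: invariance of the specialisation map
-/

set_option autoImplicit false
set_option linter.unusedSectionVars false

open AlgebraicCurve WithZero IntermediateField Fermat.Agent.H97 Fermat.Agent.H97.Sheets

namespace Fermat.Agent.H31.Eq

variable {K F₀ F k κ Γ : Type*} [Field K] [Field F₀] [Field F] [Algebra K F₀] [Algebra K F]
    [Field k] [Field κ] [Algebra k κ] [LinearOrderedCommGroupWithZero Γ] {q : ℕ}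
    (S : Sheets K F₀ F k κ Γ q)

variable [IsAlgClosed K] [CharZero K] [H3RR.IsFF K F₀] [H3RR.IsFF K F]
  [IsAlgClosed k] [H3RR.IsFF k κ] [H94.FunField K F₀] [H94.FunField K F]

/-- Equivariance data. -/
structure Equi (G : Type*) [Group G] [MulSemiringAction G K] [MulSemiringAction G F₀]
    [MulSemiringAction G F] (W : F ≃ₐ[K] F) (P₀ : Place K F₀) : Prop where
  smul_alg₀ : ∀ (σ : G) (c : K), σ • algebraMap K F₀ c = algebraMap K F₀ (σ • c)
  smul_alg : ∀ (σ : G) (c : K), σ • algebraMap K F c = algebraMap K F (σ • c)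
  φ_smul : ∀ (σ : G) (b : F₀), σ • S.φ b = S.φ (σ • b)
  W_smul : ∀ (σ : G) (f : F), σ • W f = W (σ • f)
  v_smul : ∀ (σ : G) (f : F), S.v false (σ • f) = S.v false f
  ρ_smul : ∀ (σ : G) (f : F), S.v false f ≤ 1 → S.ρ false (σ • f) = S.ρ false f
  v_W : ∀ f, S.v true f = S.v false (W f)
  ρ_W : ∀ f, S.ρ true f = S.ρ false (W f)
  WW : ∀ f, W (W f) = f
  pl : ∀ (σ : G) (P : Place K F), ∃ P' : Place K F, ∀ f, P.ord (σ • f) = P'.ord f
  ord_P₀ : ∀ (σ : G) (b : F₀), P₀.ord (σ • b) = P₀.ord b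
  lift_inf : ∃ n₀ : ℤ, ∀ n : ℤ, n₀ < n → ∀ h : κ,
    h ∈ riemannRochSpace (Finsupp.single (S.r P₀) n : Divisor k κ) →
      ∃ b : F₀, MP.Fix (⊤ : Subgroup G) b ∧ S.v₀ b ≤ 1 ∧
        b ∈ riemannRochSpace (Finsupp.single P₀ n : Divisor K F₀) ∧ S.ρ₀ b = h
  W_inf : ∀ P : Place K F, (∀ b : F₀, b ∈ P₀.toValuationSubring ↔
    W (S.φ b) ∈ P.toValuationSubring) → S.red P = S.r P₀
  scale : ∀ (H : Subgroup G) (f : F), MP.Fix H f → f ≠ 0 →
    ∃ c : K, c ≠ 0 ∧ MP.Fix H c ∧ S.v false f = S.vK c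
  teich : ∀ e : k, ∃ c : K, MP.Fix (⊤ : Subgroup G) c ∧ S.vK c ≤ 1 ∧ S.res c = e

omit [IsAlgClosed K] [CharZero K] [H3RR.IsFF K F] [H94.FunField K F] in
theorem adic_lt_one_iff_inv {Q : Place K F} {g : F} (hg : g ≠ 0) :
    Q.adicValuation g < 1 ↔ g⁻¹ ∉ Q.toValuationSubring := by
  rw [H3RR.mem_iff_adicValuation_le_one, map_inv₀, not_le,
    one_lt_inv₀ (zero_lt_iff.mpr ((Valuation.ne_zero_iff _).mpr hg))]

/-- Separating functions with poles at one place. -/
theorem exists_sep_inf {k κ : Type*} [Field k] [IsAlgClosed k] [Field κ] [Algebra k κ]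
    [H3RR.IsFF k κ] (x₀ : Place k κ) {y y' : Place k κ} (hne : y ≠ y') (n₀ : ℤ) :
    ∃ n : ℤ, n₀ < n ∧ 0 < n ∧ ∃ h : κ, h ≠ 0 ∧
      h ∈ riemannRochSpace (Finsupp.single x₀ n : Divisor k κ) ∧
      -(Finsupp.single x₀ n : Divisor k κ) y < y.ord h ∧
      y'.ord h = -(Finsupp.single x₀ n : Divisor k κ) y' := by
  classical
  have : H94.FunField k κ := H3RR.funField_of_isFF
  have hdE : ∀ v : Place k κ, v.deg = 1 := fun v => H94.deg_eq_one v
  set c : ℤ := 2 * (genusFF k κ : ℤ) with hc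
  have hE := H42.riemannFor k κ (c := c) (by omega)
  set n : ℤ := |c| + |n₀| + 2 with hn
  have h1 := le_abs_self c
  have h2 := le_abs_self n₀
  have h3 := abs_nonneg c
  have h4 := abs_nonneg n₀
  set D : Divisor k κ := Finsupp.single x₀ n - Finsupp.single y 1 with hD
  have hdD : c < Divisor.degree D := by
    rw [hD, map_sub, Divisor.degree_single, Divisor.degree_single, hdE, hdE]
    push_cast
    omega
  obtain ⟨h, hhD, hh0, hhy⟩ := H40.exists_ord_eq hE hdE hdD y'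
  rw [H40.mem_L hh0] at hhD
  refine ⟨n, by omega, by omega, h, hh0, ?_, ?_, ?_⟩
  · rw [H40.mem_L hh0]
    intro v
    have := hhD v
    rw [hD, Finsupp.sub_apply, Finsupp.single_apply, Finsupp.single_apply] at this
    rw [Finsupp.single_apply]
    split_ifs at this ⊢ <;> omega
  · have := hhD y
    rw [hD, Finsupp.sub_apply, Finsupp.single_eq_same] at this
    omega
  · rw [hhy, hD, Finsupp.sub_apply, Finsupp.single_apply (a := y), if_neg hne, sub_zero]

namespace Equi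

variable {S} {G : Type*} [Group G] [MulSemiringAction G K] [MulSemiringAction G F₀]
    [MulSemiringAction G F] {W : F ≃ₐ[K] F} {P₀ : Place K F₀} (E : Equi S G W P₀)

include E

theorem vK_smul (σ : G) (c : K) : S.vK (σ • c) = S.vK c := by
  rw [← (S.comp false).v_alg, ← E.smul_alg, E.v_smul, (S.comp false).v_alg]

theorem res_smul (σ : G) (c : K) (hc : S.vK c ≤ 1) : S.res (σ • c) = S.res c := by
  have h := E.ρ_smul σ (algebraMap K F c) (by rwa [(S.comp false).v_alg])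
  rw [E.smul_alg, (S.comp false).ρ_alg _ (by rwa [E.vK_smul]), (S.comp false).ρ_alg _ hc] at h
  exact (algebraMap k κ).injective h

theorem v_smul' (i : Bool) (σ : G) (f : F) : S.v i (σ • f) = S.v i f := by
  cases i with
  | false => exact E.v_smul σ f
  | true => rw [E.v_W, E.v_W, ← E.W_smul, E.v_smul]

theorem ρ_smul' (i : Bool) (σ : G) (f : F) (hf : S.v i f ≤ 1) : S.ρ i (σ • f) = S.ρ i f := by
  cases i with
  | false => exact E.ρ_smul σ f hf
  | true => rw [E.ρ_W, E.ρ_W, ← E.W_smul, E.ρ_smul]; rwa [← E.v_W]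

omit E in
/-- Values on the class of `∞`. -/
theorem one_lt_val_inf {n : ℤ} (hn : 0 < n) {b : F₀} (hbv : S.v₀ b ≤ 1)
    (hb : b ∈ riemannRochSpace (Finsupp.single P₀ n : Divisor K F₀))
    (hord : (S.r P₀).ord (S.ρ₀ b) = -n) {Q : Place K F₀} (hQ : Q ≠ P₀) (hrQ : S.r Q = S.r P₀)
    {c : K} (hc : Val Q b c) : 1 < S.vK c := by
  classical
  by_contra hcon
  rw [not_lt] at hcon
  have C := S.comp₀
  have hcv : S.v₀ (algebraMap K F₀ c) ≤ 1 := by rw [C.v_alg]; exact hcon
  set g := b - algebraMap K F₀ c with hg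
  have hρb0 : S.ρ₀ b ≠ 0 := by
    intro h0
    rw [h0, Place.ord_zero] at hord
    omega
  have hρg : S.ρ₀ g = S.ρ₀ b - algebraMap k κ (S.res c) := by
    rw [hg, C.ρ_sub hbv hcv, C.ρ_alg c hcon]
  have hval : (S.r P₀).adicValuation (S.ρ₀ g) = exp n := by
    have h1 : (S.r P₀).adicValuation (S.ρ₀ b) = exp n := by
      rw [(S.r P₀).adicValuation_eq_exp_neg_ord hρb0, hord, neg_neg]
    rw [hρg, Valuation.map_sub_eq_of_lt_left, h1]
    rw [h1]
    refine ((S.r P₀).adicValuation_algebraMap_le_one _).trans_lt ?_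
    rw [← exp_zero, exp_lt_exp]
    exact hn
  have hρg0 : S.ρ₀ g ≠ 0 := by
    intro h0
    rw [h0, map_zero] at hval
    exact exp_ne_zero hval.symm
  have hordg : (S.r P₀).ord (S.ρ₀ g) = -n := by
    rw [(S.r P₀).adicValuation_eq_exp_neg_ord hρg0, exp_inj] at hval
    omega
  have hvg : S.v₀ g = 1 :=
    C.v_eq_one ((Valuation.map_sub _ _ _).trans (max_le hbv hcv)) hρg0
  have hg0 : g ≠ 0 := by rintro h0; rw [h0] at hvg; simp at hvg
  have hgL : g ∈ riemannRochSpace (Finsupp.single P₀ n : Divisor K F₀) := by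
    refine Submodule.sub_mem _ hb ?_
    by_cases hc0 : c = 0
    · rw [hc0, map_zero]; exact zero_mem _
    · rw [H40.mem_L ((_root_.map_ne_zero _).mpr hc0)]
      intro v
      rw [MP.ord_alg v hc0, Finsupp.single_apply]
      split_ifs <;> omega
  rw [H40.mem_L hg0] at hgL
  have h1 := S.deg₀ g hg0 hvg (H3RR.divOf g) (H3RR.divOf_apply hg0) (S.r P₀)
  have h2 : H97.cls S.r ((H3RR.divOf g : Divisor K F₀) + Finsupp.single P₀ n) (S.r P₀) = 0 := by
    rw [H97.cls_add, h1, hordg, H97.cls, Finsupp.mapDomain_single, Finsupp.single_eq_same]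
    ring
  have h3 := H97.eq_zero_of_cls_eq_zero S.r (fun P' _ => by
    rw [Finsupp.add_apply, H3RR.divOf_apply hg0]
    have := hgL P'
    omega) h2 hrQ
  rw [Finsupp.add_apply, H3RR.divOf_apply hg0, Finsupp.single_apply, if_neg (Ne.symm hQ),
    add_zero] at h3
  have h4 := H3RR.ord_pos_of_lt_one hg0 hc
  omega

omit E in
theorem regular_of_mem_L {n : ℤ} {b : F₀}
    (hb : b ∈ riemannRochSpace (Finsupp.single P₀ n : Divisor K F₀)) {Q : Place K F₀}
    (hQ : Q ≠ P₀) : Q.adicValuation b ≤ 1 := by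
  classical
  by_cases hb0 : b = 0
  · rw [hb0, map_zero]; exact zero_le_one
  rw [H40.mem_L hb0] at hb
  have := hb Q
  rw [Finsupp.single_apply, if_neg (Ne.symm hQ)] at this
  exact (Q.adicValuation_le_one_iff).mpr (Or.inr (by omega))

/-- transport of values -/
theorem val_transport {σ : G} {Q Q' : Place K F₀}
    (h : ∀ b : F₀, σ • b ∈ Q.toValuationSubring ↔ b ∈ Q'.toValuationSubring) {b : F₀}
    (hb : σ • b = b) {c : K} (hc : Val Q' b c) : Val Q b (σ • c) := by
  have e1 : b - algebraMap K F₀ (σ • c) = σ • (b - algebraMap K F₀ c) := by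
    rw [smul_sub, hb, E.smul_alg₀]
  rw [Val, e1]
  by_cases h0 : b - algebraMap K F₀ c = 0
  · rw [h0, smul_zero, map_zero]; exact zero_lt_one
  rw [adic_lt_one_iff_inv (by rwa [smul_ne_zero_iff_ne]), ← smul_inv'', h,
    ← adic_lt_one_iff_inv h0]
  exact hc

theorem r_smul_aux {σ : G} {Q Q' : Place K F₀}
    (h : ∀ b : F₀, σ • b ∈ Q.toValuationSubring ↔ b ∈ Q'.toValuationSubring)
    (hx : S.r Q ≠ S.r P₀) : S.r Q' = S.r Q := by
  classical
  by_contra hne
  obtain ⟨n₀, hlift⟩ := E.lift_inf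
  obtain ⟨n, hn, hn0, h', hh0, hhL, hhx, hhx'⟩ := exists_sep_inf (S.r P₀)
    (y := S.r Q) (y' := S.r Q') (Ne.symm hne) n₀
  obtain ⟨b, hbG, hbv, hbL, hbρ⟩ := hlift n hn h' hhL
  have hQ : Q ≠ P₀ := by rintro rfl; exact hx rfl
  have hQ' : Q' ≠ P₀ := by
    intro hQ'
    apply hQ
    apply Place.ext
    ext b
    have h1 := h (σ⁻¹ • b)
    rw [smul_inv_smul, hQ', H97.mem_iff_ord_nonneg P₀, E.ord_P₀, ← H97.mem_iff_ord_nonneg P₀] at h1
    exact h1
  obtain ⟨c, hc⟩ := H3RR.exists_const_sub_lt_one Q' (regular_of_mem_L hbL hQ')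
  have hcQ := E.val_transport h (hbG σ (Subgroup.mem_top σ)) hc
  obtain ⟨h1, h2⟩ := S.val₀ hbv (fun P hP => regular_of_mem_L hbL (by
    rintro rfl; exact hx hP.symm)) rfl hcQ
  have hxh : (S.r Q).adicValuation h' < 1 := by
    rw [Finsupp.single_apply, if_neg (Ne.symm hx), neg_zero] at hhx
    rw [(S.r Q).adicValuation_eq_exp_neg_ord hh0, ← exp_zero, exp_lt_exp]
    omega
  have hres : S.res (σ • c) = 0 := by
    by_contra hne'
    have h3 : (S.r Q).adicValuation (algebraMap k κ (S.res (σ • c))) < 1 := by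
      have : algebraMap k κ (S.res (σ • c)) = h' - (S.ρ₀ b - algebraMap k κ (S.res (σ • c))) := by
        rw [hbρ]; ring
      rw [this]
      exact Valuation.map_sub_lt _ hxh h2
    rw [H3RR.adicValuation_algebraMap _ hne'] at h3
    exact lt_irrefl _ h3
  have hc1 : S.vK c < 1 := by
    rw [(S.comp false).res_eq_zero h1, E.vK_smul] at hres
    exact hres
  by_cases hx' : S.r Q' = S.r P₀
  · rw [hx', Finsupp.single_eq_same] at hhx'
    have := one_lt_val_inf hn0 hbv hbL (by rw [hbρ]; exact hhx') hQ' hx' hc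
    exact absurd this (not_lt.mpr hc1.le)
  · obtain ⟨h3, h4⟩ := S.val₀ hbv (fun P hP => regular_of_mem_L hbL (by
      rintro rfl; exact hx' hP.symm)) rfl hc
    rw [((S.comp false).res_eq_zero hc1.le).mpr hc1, map_zero, sub_zero, hbρ] at h4
    rw [Finsupp.single_apply, if_neg (Ne.symm hx'), neg_zero] at hhx'
    rw [(S.r Q').adicValuation_eq_exp_neg_ord hh0, hhx', neg_zero, exp_zero] at h4
    exact lt_irrefl _ h4

/-- The reduction of places is invariant. -/
theorem r_smul {σ : G} {Q Q' : Place K F₀}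
    (h : ∀ b : F₀, σ • b ∈ Q.toValuationSubring ↔ b ∈ Q'.toValuationSubring) :
    S.r Q' = S.r Q := by
  by_cases hx : S.r Q = S.r P₀
  · by_cases hx' : S.r Q' = S.r P₀
    · rw [hx, hx']
    · exact (E.r_smul_aux (σ := σ⁻¹) (Q := Q') (Q' := Q) (fun b => by
        rw [← h, smul_inv_smul]) hx').symm
  · exact E.r_smul_aux h hx

omit E in
/-- transport of adic valuations -/
theorem adic_transport {σ : G} {P P' : Place K F} (h : ∀ f : F, P.ord (σ • f) = P'.ord f)
    (f : F) : P.adicValuation (σ • f) = P'.adicValuation f := by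
  by_cases hf : f = 0
  · rw [hf, smul_zero, map_zero, map_zero]
  · rw [P.adicValuation_eq_exp_neg_ord (by rwa [smul_ne_zero_iff_ne]),
      P'.adicValuation_eq_exp_neg_ord hf, h]

theorem red_smul {σ : G} {P P' : Place K F} (h : ∀ f : F, P.ord (σ • f) = P'.ord f) :
    S.red P' = S.red P := by
  refine E.r_smul (σ := σ) fun b => ?_
  rw [H67.mem_res, H67.mem_res, ← E.φ_smul, H3RR.mem_iff_adicValuation_le_one,
    H3RR.mem_iff_adicValuation_le_one, adic_transport h]

theorem inR_smul {σ : G} {x : Place k κ} {f : F} (hf : S.InR x f) : S.InR x (σ • f) := by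
  refine ⟨fun i => by rw [E.v_smul']; exact hf.1 i, fun P hP => ?_⟩
  obtain ⟨P', hP'⟩ := E.pl σ P
  rw [adic_transport hP']
  exact hf.2 P' ((E.red_smul hP').trans hP)

theorem inv_transport {σ : G} {P P' : Place K F} (h : ∀ f : F, P.ord (σ • f) = P'.ord f) :
    ∀ f : F, P'.ord (σ⁻¹ • f) = P.ord f := fun f => by rw [← h, smul_inv_smul]

theorem on_smul {σ : G} {P P' : Place K F} (h : ∀ f : F, P.ord (σ • f) = P'.ord f) {i : Bool}
    (hP : S.On i P) : S.On i P' := by
  intro f hf c hc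
  have hred := E.red_smul h
  rw [hred] at hf ⊢
  have h1 : Val P (σ • f) (σ • c) := by
    rw [Val, ← E.smul_alg, ← smul_sub, adic_transport h]
    exact hc
  have h2 := hP (σ • f) (E.inR_smul hf) (σ • c) h1
  have hcA : S.vK c ≤ 1 := hf.val_le hred hc
  rw [E.ρ_smul' i σ f (hf.1 i), E.res_smul σ c hcA] at h2
  exact h2

theorem on_smul_iff {σ : G} {P P' : Place K F} (h : ∀ f : F, P.ord (σ • f) = P'.ord f)
    {i : Bool} : S.On i P' ↔ S.On i P :=
  ⟨E.on_smul (σ := σ⁻¹) (inv_transport E h), E.on_smul h⟩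

variable [hqF : Fact q.Prime] [CharP k q]

theorem sp_smul {σ : G} {P P' : Place K F} (h : ∀ f : F, P.ord (σ • f) = P'.ord f) :
    S.sp P' = S.sp P := by
  by_cases hN : S.Node (S.red P)
  · have h1 : S.sp P' = Sum.inr ⟨S.red P, hN⟩ := S.sp_eq_inr.mpr (E.red_smul h)
    have h2 : S.sp P = Sum.inr ⟨S.red P, hN⟩ := S.sp_eq_inr.mpr rfl
    rw [h1, h2]
  · obtain ⟨i, hi⟩ : ∃ i, S.On i P := by
      rcases S.on_false_or_true P with h1 | h1
      exacts [⟨false, h1⟩, ⟨true, h1⟩]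
    rw [(S.sp_eq_inl hN).mpr ⟨E.red_smul h, E.on_smul h hi⟩, (S.sp_eq_inl hN).mpr ⟨rfl, hi⟩]

end Equi

end Fermat.Agent.H31.Eq
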