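import Fermat.Agent.H31Eq2

/-!
# Two sheets with a group action: local parameters and the data
-/

set_option autoImplicit false
set_option linter.unusedSectionVars false

open AlgebraicCurve WithZero IntermediateField Fermat.Agent.H97 Fermat.Agent.H97.Sheets

namespace Fermat.Agent.H31.Eq

variable {K F₀ F k κ Γ : Type*} [Field K] [Field F₀] [Field F] [Algebra K F₀] [Algebra K F]
    [Field k] [Field κ] [Algebra k κ] [LinearOrderedCommGroupWithZero Γ] {q : ℕ}
    {S : Sheets K F₀ F k κ Γ q}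

variable [IsAlgClosed K] [CharZero K] [H3RR.IsFF K F₀] [H3RR.IsFF K F]
  [IsAlgClosed k] [H3RR.IsFF k κ] [H94.FunField K F₀] [H94.FunField K F]

namespace Equi

variable {G : Type*} [Group G] [MulSemiringAction G K] [MulSemiringAction G F₀]
    [MulSemiringAction G F] {W : F ≃ₐ[K] F} {P₀ : Place K F₀} (E : Equi S G W P₀)

theorem adic_W {P P' : Place K F} (h : ∀ f, P'.ord f = P.ord (W f)) (f : F) :
    P'.adicValuation f = P.adicValuation (W f) := by
  by_cases hf : f = 0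
  · rw [hf, map_zero, map_zero, map_zero]
  · rw [P'.adicValuation_eq_exp_neg_ord hf, P.adicValuation_eq_exp_neg_ord
      (by rwa [ne_eq, EmbeddingLike.map_eq_zero_iff]), h]

theorem val_φ_of {P : Place K F} {b : F₀} {c : K} (hc : Val (H67.res S.φ P) b c) :
    Val P (S.φ b) c := by
  have e1 : S.φ b - algebraMap K F c = S.φ (b - algebraMap K F₀ c) := by
    rw [map_sub]
    congr 1
    exact (S.φ.commutes c).symm
  rw [Val, e1]
  by_cases h0 : b - algebraMap K F₀ c = 0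
  · rw [h0, map_zero, map_zero]; exact zero_lt_one
  have hc' : (H67.res S.φ P).adicValuation (b - algebraMap K F₀ c) < 1 := hc
  rw [adic_lt_one_iff_inv h0, H67.mem_res, map_inv₀] at hc'
  rw [adic_lt_one_iff_inv ((_root_.map_ne_zero S.φ).mpr h0)]
  exact hc'

theorem val_W {P P' : Place K F} (h : ∀ f, P'.ord f = P.ord (W f)) {f : F} {c : K}
    (hc : Val P' f c) : Val P (W f) c := by
  have e1 : W f - algebraMap K F c = W (f - algebraMap K F c) := by
    rw [map_sub, W.commutes]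
  rw [Val, e1, ← adic_W h]
  exact hc

include E

theorem W_reg {n : ℤ} {b : F₀} (hb : b ∈ riemannRochSpace (Finsupp.single P₀ n : Divisor K F₀))
    {P : Place K F} (hP : S.red P ≠ S.r P₀) : P.adicValuation (W (S.φ b)) ≤ 1 := by
  obtain ⟨P', hP'⟩ := exists_comap_place W P
  rw [← adic_W hP', ← H3RR.mem_iff_adicValuation_le_one, ← H67.mem_res,
    H3RR.mem_iff_adicValuation_le_one]
  apply regular_of_mem_L hb
  intro h
  apply hP
  apply E.W_inf
  intro b
  rw [← h, H67.mem_res, H3RR.mem_iff_adicValuation_le_one, H3RR.mem_iff_adicValuation_le_one,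
    adic_W hP']

theorem W_inR {n : ℤ} {b : F₀} (hb : b ∈ riemannRochSpace (Finsupp.single P₀ n : Divisor K F₀))
    (hbv : S.v₀ b ≤ 1) {x : Place k κ} (hx : x ≠ S.r P₀) : S.InR x (W (S.φ b)) := by
  refine ⟨fun i => ?_, fun P hP => E.W_reg hb (by rw [hP]; exact hx)⟩
  cases i with
  | false => rw [← E.v_W, S.v_φ]; exact hbv
  | true => rw [E.v_W, E.WW, S.v_φ]; exact hbv

theorem ρ_true_W {b : F₀} (hbv : S.v₀ b ≤ 1) : S.ρ true (W (S.φ b)) = S.ρ₀ b := by
  rw [E.ρ_W, E.WW, S.ρ_false b hbv]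

/-- A function with exact pole order at `∞`. -/
theorem exists_pole {x : Place k κ} (hx : x ≠ S.r P₀) :
    ∃ (n : ℤ) (b : F₀), 0 < n ∧ S.v₀ b ≤ 1 ∧
      b ∈ riemannRochSpace (Finsupp.single P₀ n : Divisor K F₀) ∧
      (S.r P₀).ord (S.ρ₀ b) = -n := by
  obtain ⟨n₀, hlift⟩ := E.lift_inf
  obtain ⟨n, hn, hn0, h, -, hhL, -, hh⟩ := exists_sep_inf (S.r P₀) hx n₀
  obtain ⟨b, -, hbv, hbL, hbρ⟩ := hlift n hn h hhL
  exact ⟨n, b, hn0, hbv, hbL, by rw [hbρ, hh, Finsupp.single_eq_same]⟩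

theorem tw_ne {x : Place k κ} (hx : x ≠ S.r P₀) : S.tw x ≠ S.r P₀ := by
  intro htw
  obtain ⟨n, b, hn, hbv, hbL, hord⟩ := E.exists_pole hx
  have h1 := S.reg (E.W_inR hbL hbv hx) true
  have h0 : S.ρ₀ b ≠ 0 := by
    intro h0
    rw [h0, Place.ord_zero] at hord
    omega
  rw [E.ρ_true_W hbv, pt_true, htw, (S.r P₀).adicValuation_eq_exp_neg_ord h0, hord,
    ← exp_zero, exp_le_exp] at h1
  omega

theorem tw_inf : S.tw (S.r P₀) = S.r P₀ := by
  by_contra h
  have h1 : S.tw.symm (S.r P₀) ≠ S.r P₀ := by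
    intro h2
    apply h
    conv_lhs => rw [← h2]
    exact S.tw.apply_symm_apply _
  exact E.tw_ne h1 (S.tw.apply_symm_apply _)

variable [hqF : Fact q.Prime] [CharP k q]

theorem red_W_aux {P P' : Place K F} (h : ∀ f, P'.ord f = P.ord (W f)) (hP : S.On true P)
    (hx : S.red P ≠ S.r P₀) : S.red P' = S.tw (S.red P) := by
  classical
  by_contra hne
  obtain ⟨n₀, hlift⟩ := E.lift_inf
  obtain ⟨n, hn, hn0, h', hh0, hhL, hhx, hhx'⟩ := exists_sep_inf (S.r P₀)
    (y := S.tw (S.red P)) (y' := S.red P') (Ne.symm hne) n₀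
  obtain ⟨b, -, hbv, hbL, hbρ⟩ := hlift n hn h' hhL
  have htw := E.tw_ne hx
  rw [Finsupp.single_apply, if_neg (Ne.symm htw), neg_zero] at hhx
  have hR := E.W_inR hbL hbv hx
  have hQ : H67.res S.φ P' ≠ P₀ := by
    intro hQ
    apply hx
    apply E.W_inf
    intro b
    rw [← hQ, H67.mem_res, H3RR.mem_iff_adicValuation_le_one, H3RR.mem_iff_adicValuation_le_one,
      adic_W h]
  obtain ⟨c, hc⟩ := H3RR.exists_const_sub_lt_one (H67.res S.φ P') (regular_of_mem_L hbL hQ)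
  have hcP : Val P (W (S.φ b)) c := val_W h (val_φ_of hc)
  have h1 := hP _ hR c hcP
  have hcA := hR.val_le rfl hcP
  rw [E.ρ_true_W hbv, hbρ, pt_true] at h1
  have h2 : (S.tw (S.red P)).adicValuation h' < 1 := by
    rw [(S.tw (S.red P)).adicValuation_eq_exp_neg_ord hh0, ← exp_zero, exp_lt_exp]
    omega
  have hres : S.res c = 0 := by
    by_contra hne'
    have h3 : (S.tw (S.red P)).adicValuation (algebraMap k κ (S.res c)) < 1 := by
      have : algebraMap k κ (S.res c) = h' - (h' - algebraMap k κ (S.res c)) := by ring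
      rw [this]
      exact Valuation.map_sub_lt _ h2 h1
    rw [H3RR.adicValuation_algebraMap _ hne'] at h3
    exact lt_irrefl _ h3
  have hc1 : S.vK c < 1 := ((S.comp false).res_eq_zero hcA).mp hres
  by_cases hx' : S.red P' = S.r P₀
  · rw [hx', Finsupp.single_eq_same] at hhx'
    have := one_lt_val_inf hn0 hbv hbL (by rw [hbρ]; exact hhx') hQ hx' hc
    exact absurd this (not_lt.mpr hc1.le)
  · obtain ⟨h3, h4⟩ := S.val₀ hbv (fun Q hQ' => regular_of_mem_L hbL (by
      rintro rfl; exact hx' hQ'.symm)) (rfl : S.r (H67.res S.φ P') = S.red P') hc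
    rw [hres, map_zero, sub_zero, hbρ] at h4
    change (S.red P').adicValuation h' < 1 at h4
    rw [Finsupp.single_apply, if_neg (Ne.symm hx'), neg_zero] at hhx'
    rw [(S.red P').adicValuation_eq_exp_neg_ord hh0, hhx', neg_zero, exp_zero] at h4
    exact lt_irrefl _ h4

theorem red_W_inf {P P' : Place K F} (h : ∀ f, P'.ord f = P.ord (W f))
    (hx : S.red P = S.r P₀) : S.red P' = S.r P₀ := by
  by_contra hne
  obtain ⟨n, b, hn, hbv, hbL, hord⟩ := E.exists_pole hne
  have h' : ∀ f, P.ord f = P'.ord (W f) := fun f => by rw [h, E.WW]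
  have hQ : H67.res S.φ P ≠ P₀ := by
    intro hQ
    apply hne
    apply E.W_inf
    intro b
    rw [← hQ, H67.mem_res, H3RR.mem_iff_adicValuation_le_one, H3RR.mem_iff_adicValuation_le_one,
      adic_W h']
  obtain ⟨c, hc⟩ := H3RR.exists_const_sub_lt_one (H67.res S.φ P) (regular_of_mem_L hbL hQ)
  have h1 := one_lt_val_inf hn hbv hbL hord hQ hx hc
  have h2 : Val P' (W (S.φ b)) c := val_W h' (val_φ_of hc)
  have h3 := (E.W_inR hbL hbv hne).val_le rfl h2
  exact absurd h1 (not_lt.mpr h3)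

/-- The specialisation of `W P`. -/
theorem red_W {P P' : Place K F} (h : ∀ f, P'.ord f = P.ord (W f)) (hP : S.On true P) :
    S.red P' = S.tw (S.red P) := by
  by_cases hx : S.red P = S.r P₀
  · rw [E.red_W_inf h hx, hx, E.tw_inf]
  · exact E.red_W_aux h hP hx

omit hqF [CharP k q] in
/-- Fixed lifts of regular functions. -/
theorem exists_lift (y : Place k κ) {a : κ} (ha : y.adicValuation a ≤ 1) :
    ∃ b : F₀, MP.Fix (⊤ : Subgroup G) b ∧ S.v₀ b ≤ 1 ∧
      (∀ Q, S.r Q = y → Q.adicValuation b ≤ 1) ∧ S.ρ₀ b = a := by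
  classical
  rcases eq_or_ne a 0 with rfl | ha0
  · exact ⟨0, MP.Fix.zero, by simp, fun Q _ => by simp, S.comp₀.ρ_zero⟩
  have : H94.FunField k κ := H3RR.funField_of_isFF
  have hdE : ∀ v : Place k κ, v.deg = 1 := fun v => H94.deg_eq_one v
  have hya : 0 ≤ y.ord a := ((y.adicValuation_le_one_iff).mp ha).resolve_left ha0
  obtain ⟨n₀, hlift⟩ := E.lift_inf
  have hE := H42.riemannFor k κ (c := max (2 * (genusFF k κ : ℤ)) n₀)
    (by have := le_max_left (2 * (genusFF k κ : ℤ)) n₀; omega)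
  obtain ⟨n, n', a₁, a₂, hn, hn', ha₁0, ha₂0, haa, ha₁, ha₂, hya₂, hyP⟩ :=
    In.exists_frac_inf hE hdE (S.r P₀) y ha0 hya
  have hmax := le_max_right (2 * (genusFF k κ : ℤ)) n₀
  obtain ⟨f₁, hf₁G, hf₁v, hf₁L, hf₁ρ⟩ := hlift n' (by omega) a₁ ha₁
  obtain ⟨f₂, hf₂G, hf₂v, hf₂L, hf₂ρ⟩ := hlift n (by omega) a₂ ha₂
  have C := S.comp₀
  have hv₁ : S.v₀ f₁ = 1 := C.v_eq_one hf₁v (by rw [hf₁ρ]; exact ha₁0)
  have hv₂ : S.v₀ f₂ = 1 := C.v_eq_one hf₂v (by rw [hf₂ρ]; exact ha₂0)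
  have hf₁0 : f₁ ≠ 0 := by rintro rfl; simp at hv₁
  have hf₂0 : f₂ ≠ 0 := by rintro rfl; simp at hv₂
  refine ⟨f₁ / f₂, hf₁G.div hf₂G, by rw [map_div₀, hv₁, hv₂, div_one], fun Q hQ => ?_, ?_⟩
  · have h1 := S.deg₀ f₂ hf₂0 hv₂ (H3RR.divOf f₂) (H3RR.divOf_apply hf₂0) y
    rw [hf₂ρ, hya₂] at h1
    have h2 : H97.cls S.r ((H3RR.divOf f₂ : Divisor K F₀) + Finsupp.single P₀ n) y = 0 := by
      rw [H97.cls_add, h1, H97.cls, Finsupp.mapDomain_single]
      ring
    rw [H40.mem_L hf₂0] at hf₂L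
    rw [H40.mem_L hf₁0] at hf₁L
    have h5 := H97.eq_zero_of_cls_eq_zero S.r (fun P' _ => by
      rw [Finsupp.add_apply, H3RR.divOf_apply hf₂0]
      have := hf₂L P'
      omega) h2 hQ
    rw [Finsupp.add_apply, H3RR.divOf_apply hf₂0] at h5
    have h6 := hf₁L Q
    rw [Place.adicValuation_le_one_iff]
    right
    rw [MP.ord_div Q hf₁0 hf₂0]
    rw [Finsupp.single_apply] at h5 h6
    by_cases hQP : P₀ = Q
    · rw [if_pos hQP] at h5 h6
      have := hyP (by rw [← hQ, hQP])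
      omega
    · rw [if_neg hQP] at h5 h6
      omega
  · rw [C.ρ_div hv₁.le hv₂, hf₁ρ, hf₂ρ, haa, mul_div_assoc, div_self ha₂0, mul_one]

/-- Local parameters at smooth points. -/
theorem exists_param (x : Bool × Place k κ) :
    ∃ t : F, MP.Fix (⊤ : Subgroup G) t ∧ S.v x.1 t = 1 ∧
      (∀ P, S.sp P = Sum.inl x → P.adicValuation t ≤ 1) ∧ x.2.ord (S.ρ x.1 t) = 1 := by
  obtain ⟨i, y⟩ := x
  obtain ⟨a, ha0, ha⟩ := H3RR.adicValuation_surjective_exp y (-1)
  have ha1 : y.adicValuation a ≤ 1 := by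
    rw [ha, ← exp_zero, exp_le_exp]; omega
  have hord : y.ord a = 1 := by
    rw [y.adicValuation_eq_exp_neg_ord ha0, exp_inj] at ha
    omega
  obtain ⟨b, hbG, hbv, hbreg, hbρ⟩ := E.exists_lift y ha1
  have hbv1 : S.v₀ b = 1 := S.comp₀.v_eq_one hbv (by rw [hbρ]; exact ha0)
  have hφG : MP.Fix (⊤ : Subgroup G) (S.φ b) := fun σ hσ => by rw [E.φ_smul, hbG σ hσ]
  cases i with
  | false =>
    refine ⟨S.φ b, hφG, by rw [S.v_φ]; exact hbv1, fun P hP => ?_, ?_⟩
    · have hN : ¬ S.Node (S.red P) := by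
        intro hN
        have h0 : S.sp P = Sum.inr ⟨S.red P, hN⟩ := S.sp_eq_inr.mpr rfl
        rw [h0] at hP
        simp at hP
      have hred : S.red P = y := by
        rcases S.on_false_or_true P with h1 | h1
        · have := (S.sp_eq_inl hN (i := false)).mpr ⟨rfl, h1⟩
          rw [this, Sum.inl.injEq, Prod.mk.injEq] at hP
          exact hP.2
        · have := (S.sp_eq_inl hN (i := true)).mpr ⟨rfl, h1⟩
          rw [this, Sum.inl.injEq, Prod.mk.injEq] at hP
          simp at hP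
      exact (S.InR_φ hbv hbreg).2 P hred
    · show y.ord (S.ρ false (S.φ b)) = 1
      rw [S.ρ_false b hbv, hbρ, hord]
  | true =>
    refine ⟨W (S.φ b), fun σ hσ => by rw [E.W_smul, hφG σ hσ], ?_, fun P hP => ?_, ?_⟩
    · show S.v true (W (S.φ b)) = 1
      rw [E.v_W, E.WW, S.v_φ]; exact hbv1
    · have hN : ¬ S.Node (S.red P) := by
        intro hN
        have h0 : S.sp P = Sum.inr ⟨S.red P, hN⟩ := S.sp_eq_inr.mpr rfl
        rw [h0] at hP
        simp at hP
      obtain ⟨hon, hred⟩ : S.On true P ∧ S.tw (S.red P) = y := by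
        rcases S.on_false_or_true P with h1 | h1
        · have := (S.sp_eq_inl hN (i := false)).mpr ⟨rfl, h1⟩
          rw [this, Sum.inl.injEq, Prod.mk.injEq] at hP
          simp at hP
        · have := (S.sp_eq_inl hN (i := true)).mpr ⟨rfl, h1⟩
          rw [this, Sum.inl.injEq, Prod.mk.injEq] at hP
          exact ⟨h1, hP.2⟩
      obtain ⟨P', hP'⟩ := exists_comap_place W P
      have h1 := E.red_W hP' hon
      rw [hred] at h1
      rw [← adic_W hP', ← H3RR.mem_iff_adicValuation_le_one, ← H67.mem_res,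
        H3RR.mem_iff_adicValuation_le_one]
      exact hbreg _ h1
    · show y.ord (S.ρ true (W (S.φ b))) = 1
      rw [E.ρ_true_W hbv, hbρ, hord]

omit E in
/-- The value group of `K` is torsion over `|q|`. -/
def Tors (S : Sheets K F₀ F k κ Γ q) : Prop :=
  ∀ a : K, a ≠ 0 → ∃ (l : ℕ) (m : ℤ), l ≠ 0 ∧ S.vK a ^ l = S.vK q ^ m

/-- **The data for the Mazur principle.** -/
noncomputable def preData (z : {x : Place k κ // S.Node x} → F)
    (hzG : ∀ n, MP.Fix (⊤ : Subgroup G) (z n))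
    (hpar : ∀ n : {x : Place k κ // S.Node x}, ∃ z' u, NodePar S n.1 (z n) z' u)
    (htors : Tors S) :
    MP.PreData K F k κ Γ {x : Place k κ // S.Node x} G q where
  M := S.model
  pt i n := S.pt i n.1
  mem_br n x := by
    classical
    rw [Sheets.model]
    rw [Finset.mem_insert, Finset.mem_singleton]
    rfl
  smul_alg := E.smul_alg
  v_smul := E.v_smul'
  ρ_smul := E.ρ_smul'
  place σ P := by
    obtain ⟨P', hP'⟩ := E.pl σ P
    exact ⟨P', E.sp_smul hP', hP'⟩
  scale H i f hf hf0 := by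
    cases i with
    | false => exact E.scale H f hf hf0
    | true =>
      obtain ⟨c, hc0, hcH, hc⟩ := E.scale H (W f) (fun σ hσ => by rw [E.W_smul, hf σ hσ])
        (by rwa [ne_eq, EmbeddingLike.map_eq_zero_iff])
      exact ⟨c, hc0, hcH, (E.v_W f).trans hc⟩
  res_lift := E.teich
  z := z
  z_fix := hzG
  z_unit n P hP := by
    obtain ⟨z', u, h⟩ := hpar n
    exact h.ord_z_zero hqF.out.ne_zero (S.sp_eq_inr.mp hP)
  z_false n := by
    obtain ⟨z', u, h⟩ := hpar n
    exact h.v_z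
  z_ord n := by
    obtain ⟨z', u, h⟩ := hpar n
    exact h.ord_z
  z_true n := by
    obtain ⟨z', u, h⟩ := hpar n
    exact h.v_true_z hqF.out.ne_zero
  z_sub n P hP := by
    obtain ⟨z', u, h⟩ := hpar n
    obtain ⟨a, h1, h2, h3, h4⟩ := h.z_sub n.2 htors (S.sp_eq_inr.mp hP)
    exact ⟨a, h1, h2, h3, fun P' hP' => h4 P' (S.sp_eq_inr.mp hP')⟩
  t x := (E.exists_param x).choose
  t_fix x := (E.exists_param x).choose_spec.1
  t_v x _ := (E.exists_param x).choose_spec.2.1
  t_reg x _ := (E.exists_param x).choose_spec.2.2.1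
  t_ord x _ := (E.exists_param x).choose_spec.2.2.2

end Equi

end Fermat.Agent.H31.Eq
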