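import Fermat.Agent.H31Lift
import Fermat.Agent.H1Inertia
import Fermat.Agent.H44EDisc
import Fermat.Agent.H33Inertia

/-!
# Inertia groups: residue field, value groups, values of fixed functions
-/

set_option autoImplicit false
set_option linter.unusedSectionVars false

open ModularCurve IntermediateField Polynomial AlgebraicCurve WithZero Fermat.Agent.H97

namespace Fermat.Agent.H31.In

local notation "Qb" => AlgebraicClosure ℚ

section Inertia

variable {q : ℕ} [hq : Fact q.Prime] {A : ValuationSubring Qb} (hA : A.LiesOverPrime q)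
  {k : Type*} [Field k] {π : A →+* k} [IsLocalHom π]

include hA in
theorem triv (hπ : Function.Surjective π) : Triv π (A.inertiaSubgroupIn ℚ) where
  mem σ hσ a ha := H1.inertia_mem A hσ ⟨a, ha⟩
  red σ hσ a := H1.π_inertia A π hσ a
  teich e := by
    obtain ⟨a, h1, h2⟩ := H1.exists_const_inertia A hA π hπ e
    exact ⟨a, h2, h1⟩

include hA in
theorem inertiaFacts : H33.InertiaFacts q A where
  val a ha h := H44E.exists_valuation_eq_zpow hq.out hA ha h
  res c := by
    obtain ⟨a, h1, h2⟩ := H1.exists_const_inertia A hA (IsLocalRing.residue A)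
      IsLocalRing.residue_surjective c
    exact ⟨a, h1, h2⟩

include hA in
/-- The value group of `Q̄` is torsion over `|q|`. -/
theorem exists_pow_eq_zpow {a : Qb} (ha : a ≠ 0) :
    ∃ (l : ℕ) (m : ℤ), l ≠ 0 ∧ A.valuation a ^ l = A.valuation (q : Qb) ^ m := by
  classical
  set H : Subgroup (A.inertiaSubgroupIn ℚ) := MulAction.stabilizer (A.inertiaSubgroupIn ℚ) a
    with hH
  have hfin : (MulAction.orbit (A.inertiaSubgroupIn ℚ) a).Finite := by
    have : Algebra.IsAlgebraic ℚ Qb := AlgebraicClosure.isAlgebraic ℚ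
    refine ((minpoly ℚ a).rootSet_finite Qb).subset ?_
    rintro _ ⟨σ, rfl⟩
    rw [Polynomial.mem_rootSet]
    refine ⟨minpoly.ne_zero (Algebra.IsIntegral.isIntegral a), ?_⟩
    have := Polynomial.aeval_algHom_apply ((σ : Qb ≃ₐ[ℚ] Qb) : Qb →ₐ[ℚ] Qb) a (minpoly ℚ a)
    rw [minpoly.aeval, map_zero] at this
    exact this
  have hidx : H.index ≠ 0 := by
    rw [hH, MulAction.index_stabilizer]
    exact Set.ncard_ne_zero_of_mem (MulAction.mem_orbit_self a) hfin
  have : H.FiniteIndex := ⟨hidx⟩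
  obtain ⟨m, hm⟩ := H33.exists_pow_valuation (inertiaFacts hA) H ha
    (fun σ hσ => MulAction.mem_stabilizer_iff.mp hσ)
  exact ⟨H.index, m, hidx, hm⟩

end Inertia

section Scale

variable {L : Type*} [Field L] [Algebra ℚ L] [CharZero L] [IsAlgClosed L] {A : ValuationSubring L}
  {k : Type*} [Field k] {π : A →+* k} {N : ℕ} [NeZero N]

/-- A stable space of functions with bounded orders contains a fixed vector. -/
theorem exists_fixed_mem {H : Subgroup (L ≃ₐ[ℚ] L)}
    (V : Submodule L (FF L N)) (hV : ∃ x ∈ V, x ≠ 0) (hVH : ∀ σ ∈ H, ∀ x ∈ V, σ • x ∈ V)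
    (hb : ∃ m : ℤ, ∀ x ∈ V, x ≠ 0 → (x : LaurentSeries L).order ≤ m) :
    ∃ x ∈ V, x ≠ 0 ∧ ∀ σ ∈ H, σ • x = x := by
  obtain ⟨m, hm⟩ := hb
  obtain ⟨x₀, hx₀, hx₀0⟩ := hV
  obtain ⟨M, ⟨x, hxV, hx0, hxM⟩, hmax⟩ := Int.exists_greatest_of_bdd
    (P := fun z => ∃ x ∈ V, x ≠ 0 ∧ (x : LaurentSeries L).order = z)
    ⟨m, fun z ⟨x, h1, h2, h3⟩ => h3 ▸ hm x h1 h2⟩ ⟨_, x₀, hx₀, hx₀0, rfl⟩
  have hxs : (x : LaurentSeries L) ≠ 0 := fun h => hx0 (Subtype.ext h)
  set a := (x : LaurentSeries L).coeff M with ha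
  have ha0 : a ≠ 0 := by
    rw [ha, ← hxM]; exact HahnSeries.coeff_order_eq_zero.not.mpr hxs
  set y : FF L N := a⁻¹ • x with hy
  have hy0 : y ≠ 0 := smul_ne_zero (inv_ne_zero ha0) hx0
  have hyV : y ∈ V := V.smul_mem _ hxV
  have hyc : ∀ n, (y : LaurentSeries L).coeff n = a⁻¹ * (x : LaurentSeries L).coeff n := by
    intro n
    exact (coeffL (FF L N) n).map_smul a⁻¹ x
  refine ⟨y, hyV, hy0, fun σ hσ => ?_⟩
  by_contra hne
  have hd0 : y - σ • y ≠ 0 := sub_ne_zero.mpr (Ne.symm hne)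
  have hdV : y - σ • y ∈ V := V.sub_mem hyV (hVH σ hσ y hyV)
  have hds : ((y - σ • y : FF L N) : LaurentSeries L) ≠ 0 := fun h => hd0 (Subtype.ext h)
  have h1 := hmax _ ⟨_, hdV, hd0, rfl⟩
  have h2 : M + 1 ≤ ((y - σ • y : FF L N) : LaurentSeries L).order := by
    apply le_order_of hds
    intro n hn
    have hc : ((y - σ • y : FF L N) : LaurentSeries L).coeff n =
        (y : LaurentSeries L).coeff n - σ ((y : LaurentSeries L).coeff n) := by
      rw [← coeff_smul]
      rfl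
    rw [hc, hyc]
    rcases (Int.lt_add_one_iff.mp hn).lt_or_eq with h3 | h3
    · rw [HahnSeries.coeff_eq_zero_of_lt_order (by rw [hxM]; exact h3), mul_zero, map_zero,
        sub_zero]
    · rw [h3, ← ha, inv_mul_cancel₀ ha0, map_one, sub_self]
  omega

theorem L_neg_eq_bot (P₀ : Place L (FF L N)) :
    riemannRochSpace (Finsupp.single P₀ (-1) : Divisor L (FF L N)) = ⊥ := by
  have hff : H3RR.IsFF L (FF L N) := isFF_FF L N
  have hFF : H94.FunField L (FF L N) := H3RR.funField_of_isFF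
  have hfin := H3RR.finite_L (Finsupp.single P₀ (-1) : Divisor L (FF L N))
  have h := H3RR.ell_eq_zero_of_degree_neg
    (D := (Finsupp.single P₀ (-1) : Divisor L (FF L N))) (by
      rw [Divisor.degree_single, H94.deg_eq_one]; norm_num)
  exact Submodule.finrank_eq_zero.mp h

/-- Fixed denominators. -/
theorem exists_fixed_denom {H : Subgroup (L ≃ₐ[ℚ] L)} {P₀ : Place L (FF L N)} (hP₀ : IsInf P₀)
    {f : FF L N} (hf0 : f ≠ 0) (hf : ∀ σ ∈ H, σ • f = f) :
    ∃ (n n' : ℤ) (g : FF L N), g ≠ 0 ∧ (∀ σ ∈ H, σ • g = g) ∧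
      g ∈ riemannRochSpace (Finsupp.single P₀ n : Divisor L (FF L N)) ∧
      f * g ∈ riemannRochSpace (Finsupp.single P₀ n' : Divisor L (FF L N)) := by
  classical
  have hff : H3RR.IsFF L (FF L N) := isFF_FF L N
  have hFF : H94.FunField L (FF L N) := H3RR.funField_of_isFF
  have hdF : ∀ v : Place L (FF L N), v.deg = 1 := fun v => H94.deg_eq_one v
  have hE := H42.riemannFor L (FF L N) (c := 2 * (genusFF L (FF L N) : ℤ)) (by omega)
  obtain ⟨x, hx⟩ : ∃ x : Place L (FF L N), 0 ≤ x.ord f := by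
    by_cases h0 : 0 ≤ P₀.ord f
    · exact ⟨P₀, h0⟩
    by_contra hcon
    push Not at hcon
    have hd := H3RR.degree_divOf (K := L) hf0
    have h1 := L_neg_eq_bot P₀
    have h2 : f⁻¹ ∈ riemannRochSpace (Finsupp.single P₀ (-1) : Divisor L (FF L N)) := by
      rw [H40.mem_L (inv_ne_zero hf0)]
      intro v
      rw [v.ord_inv, Finsupp.single_apply]
      have := hcon v
      split_ifs <;> omega
    rw [h1, Submodule.mem_bot] at h2
    exact inv_ne_zero hf0 h2
  obtain ⟨n, n', a₁, a₂, -, -, ha₁0, ha₂0, haa, ha₁, ha₂, -, -⟩ :=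
    exists_frac_inf hE hdF P₀ x hf0 hx
  set V : Submodule L (FF L N) :=
    riemannRochSpace (Finsupp.single P₀ n : Divisor L (FF L N)) ⊓
      (riemannRochSpace (Finsupp.single P₀ n' : Divisor L (FF L N))).comap
        (LinearMap.mulLeft L f) with hV
  obtain ⟨g, hgV, hg0, hgH⟩ := exists_fixed_mem (H := H) V
    ⟨a₂, ⟨ha₂, by
      show f * a₂ ∈ riemannRochSpace (Finsupp.single P₀ n' : Divisor L (FF L N))
      rw [← haa]; exact ha₁⟩, ha₂0⟩ (fun σ hσ x hx => ⟨smul_mem_L hP₀ n σ hx.1, by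
      show f * σ • x ∈ riemannRochSpace (Finsupp.single P₀ n' : Divisor L (FF L N))
      have h1 : f * σ • x = σ • (f * x) := by rw [smul_mul', hf σ hσ]
      rw [h1]
      exact smul_mem_L hP₀ n' σ hx.2⟩) ⟨0, fun x hx hx0 => by
      by_contra hcon
      rw [not_le, ← hP₀] at hcon
      have h1 := L_neg_eq_bot P₀
      have h2 : x ∈ riemannRochSpace (Finsupp.single P₀ (-1) : Divisor L (FF L N)) := by
        have h3 : x ∈ riemannRochSpace (Finsupp.single P₀ n : Divisor L (FF L N)) := hx.1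
        rw [H40.mem_L hx0] at h3 ⊢
        intro v
        have := h3 v
        rw [Finsupp.single_apply] at this ⊢
        split_ifs at this ⊢ with h
        · rw [← h]; omega
        · omega
      rw [h1, Submodule.mem_bot] at h2
      exact hx0 h2⟩
  exact ⟨n, n', g, hg0, hgH, hgV.1, hgV.2⟩

/-- Fixed functions have the value of a fixed constant. -/
theorem exists_fixed_scale [IsLocalHom π] (arch : Arch A) {P₀ : Place L (FF L N)}
    (hP₀ : IsInf P₀) (v : Valuation (FF L N) A.ValueGroup)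
    (hscale : ∀ f : FF L N, f ≠ 0 → ∃ c : L, c ≠ 0 ∧ v f = A.valuation c)
    (halg : ∀ c : L, v (algebraMap L (FF L N) c) = A.valuation c)
    (hgi : ∀ f : FF L N, v f ≤ 1 → GaussInt π (f : LaurentSeries L))
    (hred : ∀ (f : FF L N) (y : LaurentSeries A), coeffMap A.subtype y = f → v f = 1 →
      coeffMap π y ≠ 0)
    {H : Subgroup (L ≃ₐ[ℚ] L)} {f : FF L N} (hf0 : f ≠ 0) (hf : ∀ σ ∈ H, σ • f = f) :
    ∃ c : L, c ≠ 0 ∧ (∀ σ ∈ H, σ c = c) ∧ v f = A.valuation c := by
  classical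
  obtain ⟨n, n', g, hg0, hgH, hgL, hfgL⟩ := exists_fixed_denom hP₀ hf0 hf
  have key : ∀ (m : ℤ) (h : FF L N), h ≠ 0 → (∀ σ ∈ H, σ • h = h) →
      h ∈ riemannRochSpace (Finsupp.single P₀ m : Divisor L (FF L N)) →
      ∃ c : L, c ≠ 0 ∧ (∀ σ ∈ H, σ c = c) ∧ v h = A.valuation c := by
    intro m h hh0 hhH hhL
    obtain ⟨c, hc0, hc⟩ := hscale h hh0
    have hcF : algebraMap L (FF L N) c ≠ 0 := (_root_.map_ne_zero _).mpr hc0
    set h₁ : FF L N := algebraMap L (FF L N) c⁻¹ * h with hh₁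
    have hvh₁ : v h₁ = 1 := by
      rw [hh₁, map_mul, halg, map_inv₀, hc, inv_mul_cancel₀]
      exact (A.valuation.ne_zero_iff).mpr hc0
    have hbdd : (h₁ : LaurentSeries L) ∈ bddL A := by
      apply mem_bddL_of_inf arch hP₀
      intro w hw
      have h1 : w.adicValuation h ≤ 1 := by
        rw [H40.mem_L hh0] at hhL
        have := hhL w
        rw [Finsupp.single_apply, if_neg (Ne.symm hw)] at this
        exact (w.adicValuation_le_one_iff).mpr (Or.inr (by omega))
      rw [H3RR.mem_iff_adicValuation_le_one, hh₁, map_mul]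
      exact mul_le_one' (w.adicValuation_algebraMap_le_one _) h1
    obtain ⟨y, hy⟩ := (hgi h₁ hvh₁.le).mem_intL arch hbdd
    have hy0 := hred h₁ y hy hvh₁
    have : ∃ i, (coeffMap π y).coeff i ≠ 0 := by
      by_contra h1
      push Not at h1
      exact hy0 (by ext i; rw [h1, HahnSeries.coeff_zero])
    obtain ⟨i, hi⟩ := this
    rw [coeffMap_coeff] at hi
    have hu : IsUnit (y.coeff i) := (isUnit_map_iff π _).mp (isUnit_iff_ne_zero.mpr hi)
    have hvy : A.valuation ((y.coeff i : A) : L) = 1 := (A.valuation_eq_one_iff _).mp hu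
    have hci : (h : LaurentSeries L).coeff i = c * ((y.coeff i : A) : L) := by
      have h1 : (h₁ : LaurentSeries L).coeff i = c⁻¹ * (h : LaurentSeries L).coeff i := by
        rw [hh₁]
        show (algebraMap L (LaurentSeries L) c⁻¹ * (h : LaurentSeries L)).coeff i = _
        exact H97.coeff_C_mul _ _ _
      have h2 : (h₁ : LaurentSeries L).coeff i = ((y.coeff i : A) : L) := by
        rw [← hy, coeffMap_coeff]; rfl
      rw [← h2, h1, ← mul_assoc, mul_inv_cancel₀ hc0, one_mul]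
    have hvi : A.valuation ((h : LaurentSeries L).coeff i) = A.valuation c := by
      rw [hci, map_mul, hvy, mul_one]
    refine ⟨(h : LaurentSeries L).coeff i, ?_, fun σ hσ => ?_, by rw [hvi, hc]⟩
    · intro h0
      rw [h0, map_zero] at hvi
      exact (A.valuation.ne_zero_iff).mpr hc0 hvi.symm
    · rw [← coeff_smul, hhH σ hσ]
  have hfg0 : f * g ≠ 0 := mul_ne_zero hf0 hg0
  obtain ⟨c₁, hc₁0, hc₁H, hc₁⟩ := key n' (f * g) hfg0
    (fun σ hσ => by rw [smul_mul', hf σ hσ, hgH σ hσ]) hfgL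
  obtain ⟨c₂, hc₂0, hc₂H, hc₂⟩ := key n g hg0 hgH hgL
  refine ⟨c₁ / c₂, div_ne_zero hc₁0 hc₂0, fun σ hσ => ?_, ?_⟩
  · rw [map_div₀, hc₁H σ hσ, hc₂H σ hσ]
  · rw [map_div₀, ← hc₁, ← hc₂, map_mul, mul_div_assoc, div_self, mul_one]
    exact (Valuation.ne_zero_iff _).mpr hg0

end Scale

end Fermat.Agent.H31.In
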