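import Fermat.Agent.H31Eq3
import Fermat.Agent.H31Scale
import Fermat.Agent.H97MdL
import Fermat.Agent.H89Inst

/-!
# The two-sheet structure of `X_0(mq)` with the action of an inertia group
-/

set_option autoImplicit false
set_option linter.unusedSectionVars false

noncomputable section

open AlgebraicCurve ModularCurve IntermediateField WithZero Fermat.Agent.H97
  Fermat.Agent.H34.Two Fermat.Agent.H31.In

namespace Fermat.Agent.H31.EqI

/-- `G` acts trivially on the residue field and on the value group. -/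
structure TrivV {L : Type*} [Field L] [Algebra ℚ L] {A : ValuationSubring L}
    {k : Type*} [Field k] (π : A →+* k) (G : Subgroup (L ≃ₐ[ℚ] L)) : Prop extends Triv π G where
  val : ∀ σ ∈ G, ∀ c : L, A.valuation (σ c) = A.valuation c

section Gen

variable {L : Type*} [Field L] [Algebra ℚ L] {A : ValuationSubring L} {k : Type*} [Field k]
  {π : A →+* k}

/-- The endomorphism of `A` induced by `σ`. -/
def sA {G : Subgroup (L ≃ₐ[ℚ] L)} (hG : Triv π G) (σ : L ≃ₐ[ℚ] L) (hσ : σ ∈ G) : A →+* A where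
  toFun a := ⟨σ a, hG.mem σ hσ a a.2⟩
  map_one' := Subtype.ext (map_one σ)
  map_zero' := Subtype.ext (map_zero σ)
  map_mul' a b := Subtype.ext (map_mul σ (a : L) b)
  map_add' a b := Subtype.ext (map_add σ (a : L) b)

theorem compat {G : Subgroup (L ≃ₐ[ℚ] L)} (hG : Triv π G) (σ : L ≃ₐ[ℚ] L) (hσ : σ ∈ G) :
    H60.Compat π σ (sA hG σ hσ) (RingEquiv.refl k) :=
  ⟨fun _ => rfl, fun a => hG.red σ hσ a⟩

theorem smul_algebraMap' {M : ℕ} (σ : L ≃ₐ[ℚ] L) (c : L) :
    σ • algebraMap L (H99.FX L M) c = algebraMap L (H99.FX L M) (σ c) := by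
  apply Subtype.ext
  rw [In.coe_smul]
  exact coeffMap_algebraMap _ c

end Gen

section Inst

variable {L : Type*} [Field L] [Algebra ℚ L] {A : ValuationSubring L} {k : Type*} [Field k]
  {π : A →+* k} {m q : ℕ} [NeZero m] [NeZero q] [hq : Fact q.Prime]
  [CharP k q] [IsAlgClosed k] [Infinite k] (w : H99.AL L m q)
  (hπ : Function.Surjective π)
  (hdeg : H42.DegLE L k m) (hqm : ¬ q ∣ m)
  [IsAlgClosed L] [CharZero L] [IsLocalHom π] (arch : Arch A)
  {r : Place L (H99.FX L m) → Place k (modularFunctionFieldFullC k m)}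
  {G : Subgroup (L ≃ₐ[ℚ] L)}

theorem red1_smul (hG : Triv π G) {σ : L ≃ₐ[ℚ] L} (hσ : σ ∈ G) {f : H99.FX L (m * q)}
    (hf : v1 A π w hπ (H42.degreeFact L) hdeg hqm f ≤ 1) :
    (comp1 A π w hπ (H42.degreeFact L) hdeg hqm).red (σ • f) =
      (comp1 A π w hπ (H42.degreeFact L) hdeg hqm).red f := by
  have h1 : f ∈ (gC A π (m * q)).V :=
    (compVal_le_one_iff hπ (comp1_scalable A π w hπ (H42.degreeFact L) hdeg hqm)).mp hf
  obtain ⟨-, h2⟩ := smul_gC (compat hG σ hσ) h1
  apply Subtype.ext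
  rw [coe_red1, coe_red1]
  refine h2.trans ?_
  ext n
  rw [coeffMap_coeff]
  rfl

theorem v1_smul (hG : TrivV π G) {σ : L ≃ₐ[ℚ] L} (hσ : σ ∈ G) (f : H99.FX L (m * q)) :
    v1 A π w hπ (H42.degreeFact L) hdeg hqm (σ • f) =
      v1 A π w hπ (H42.degreeFact L) hdeg hqm f := by
  rcases eq_or_ne f 0 with rfl | hf
  · rw [smul_zero]
  obtain ⟨c, hc, h⟩ := comp1_scalable A π w hπ (H42.degreeFact L) hdeg hqm f hf
  have h1 : v1 A π w hπ (H42.degreeFact L) hdeg hqm f = (A.valuation c)⁻¹ :=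
    compVal_of_scale hπ _ hc h
  have hv : v1 A π w hπ (H42.degreeFact L) hdeg hqm (algebraMap L _ c * f) = 1 := by
    exact (compVal_eq_one_iff hπ _).mpr h
  have h2 := red1_smul w hπ hdeg hqm hG.toTriv hσ hv.le
  rw [smul_mul', smul_algebraMap'] at h2
  have h3 : v1 A π w hπ (H42.degreeFact L) hdeg hqm (σ • f) = (A.valuation (σ c))⁻¹ :=
    compVal_of_scale hπ _ ((map_ne_zero σ).mpr hc) (by rw [h2]; exact h)
  rw [h1, h3, hG.val σ hσ]

/-- A function with poles exactly at one place. -/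
theorem exists_pole_at {K F : Type*} [Field K] [IsAlgClosed K] [Field F] [Algebra K F]
    [H3RR.IsFF K F] (P₀ : Place K F) :
    ∃ y : F, (∀ v : Place K F, v ≠ P₀ → y ∈ v.toValuationSubring) ∧
      y ∉ P₀.toValuationSubring := by
  classical
  have : H94.FunField K F := H3RR.funField_of_isFF
  have hdE : ∀ v : Place K F, v.deg = 1 := fun v => H94.deg_eq_one v
  have hE := H42.riemannFor K F (c := 2 * (genusFF K F : ℤ)) (by omega)
  set n : ℤ := 2 * (genusFF K F : ℤ) + 1 with hn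
  obtain ⟨y, hy, hy0, hyo⟩ := H40.exists_ord_eq hE hdE (D := Finsupp.single P₀ n) (by
    rw [Divisor.degree_single, hdE]; push_cast; omega) P₀
  rw [H40.mem_L hy0] at hy
  refine ⟨y, fun v hv => ?_, ?_⟩
  · have := hy v
    rw [Finsupp.single_apply, if_neg (Ne.symm hv)] at this
    rw [H97.mem_iff_ord_nonneg]
    omega
  · rw [H97.mem_iff_ord_nonneg, hyo, Finsupp.single_eq_same]
    omega

theorem res_eq_inf {P₀ : Place L (H99.FX L m)} (hP₀ : IsInf P₀) {P : Place L (H99.FX L (m * q))}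
    (hP : ∀ b : H99.FX L m, b ∈ P₀.toValuationSubring ↔
      w.W (heckeAlphaBar L m q b) ∈ P.toValuationSubring) :
    ∀ b : H99.FX L m, heckeAlphaBar L m q b ∈ P.toValuationSubring ↔
      b ∈ P₀.toValuationSubring := by
  have i1 : H3RR.IsFF L (H99.FX L m) := isFF_FF L m
  have i2 : H3RR.IsFF L (H99.FX L (m * q)) := isFF_FF L (m * q)
  obtain ⟨P₁, hP₁⟩ := exists_isInf (H99.FX L (m * q)) (jqModC_mem_bar L (m * q))
  obtain ⟨P₂, hP₂⟩ := exists_comap_place w.W P₁
  obtain ⟨P', hP'⟩ := exists_comap_place w.W P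
  have h : SwapData L m q w.W P₀ P₁ P₂ := ⟨w.alpha, w.invol, hP₀, hP₁, hP₂⟩
  obtain ⟨y, hy, hyP⟩ := exists_pole_at P₀
  have hfin : FiniteAlong L (heckeAlphaBar L m q) := H67.finiteAlong_alpha (H42.degreeFact L) m q
  have hfr := finrank_alpha_le (L := L) (N := m) hq.out
  have hyP' : heckeAlphaBar L m q y ∉ P'.toValuationSubring := by
    rw [H97.mem_iff_ord_nonneg, hP', ← H97.mem_iff_ord_nonneg, ← hP]
    exact hyP
  obtain ⟨e1, e2⟩ := h.comap_eq hP'
  intro b
  rcases h.eq_or_eq hq.out.one_lt hfin hfr hy hyP' with h1 | h1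
  · rw [e1.mp h1, H97.mem_iff_ord_nonneg, H97.mem_iff_ord_nonneg, h.ord_alpha']
    have : (0 : ℤ) < q := by exact_mod_cast hq.out.pos
    exact mul_nonneg_iff_of_pos_left this
  · rw [e2.mp h1, H97.mem_iff_ord_nonneg, H97.mem_iff_ord_nonneg, h.ord_alpha]

variable {c : ℕ}
    (hr1 : ∀ D : Divisor L (H99.FX L m), (c : ℤ) < Divisor.degree D →
      (H42.modReductionData A π m hπ hdeg).IsRed D (Finsupp.mapDomain r D))
    (hr2 : H34.GR.DivCompat (H42.modReductionData A π m hπ hdeg) r)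


theorem sheets_v_false : (sheets w hπ hdeg hqm arch r hr1 hr2).v false =
    v1 A π w hπ (H42.degreeFact L) hdeg hqm := rfl

theorem sheets_v_true : (sheets w hπ hdeg hqm arch r hr1 hr2).v true =
    v2 A π w hπ (H42.degreeFact L) hdeg hqm := rfl

theorem sheets_ρ_false : (sheets w hπ hdeg hqm arch r hr1 hr2).ρ false =
    (comp1 A π w hπ (H42.degreeFact L) hdeg hqm).red := rfl

theorem sheets_ρ_true : (sheets w hπ hdeg hqm arch r hr1 hr2).ρ true =
    (comp2 A π w hπ (H42.degreeFact L) hdeg hqm).red := rfl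

theorem sheets_v₀ : (sheets w hπ hdeg hqm arch r hr1 hr2).v₀ =
    v0 A π w hπ (H42.degreeFact L) hdeg hqm := rfl

theorem sheets_ρ₀ : (sheets w hπ hdeg hqm arch r hr1 hr2).ρ₀ =
    (comp0 A π w hπ (H42.degreeFact L) hdeg hqm).red := rfl

theorem sheets_vK : (sheets w hπ hdeg hqm arch r hr1 hr2).vK = A.valuation := rfl

theorem sheets_res : (sheets w hπ hdeg hqm arch r hr1 hr2).res = resK π := rfl

theorem sheets_φ : (sheets w hπ hdeg hqm arch r hr1 hr2).φ = heckeAlphaBar L m q := rfl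

theorem sheets_r : (sheets w hπ hdeg hqm arch r hr1 hr2).r = r := rfl

end Inst

end Fermat.Agent.H31.EqI
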