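import Fermat.Agent.H31EqI

set_option autoImplicit false
set_option linter.unusedSectionVars false

noncomputable section

open AlgebraicCurve ModularCurve IntermediateField WithZero Fermat.Agent.H97
  Fermat.Agent.H34.Two Fermat.Agent.H31.In

namespace Fermat.Agent.H31.EqI

section Inst

variable {L : Type*} [Field L] [Algebra ℚ L] {A : ValuationSubring L} {k : Type*} [Field k]
  {π : A →+* k} {m q : ℕ} [NeZero m] [NeZero q] [hq : Fact q.Prime]
  [CharP k q] [IsAlgClosed k] [Infinite k] (w : H99.AL L m q)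
  (hπ : Function.Surjective π)
  (hdeg : H42.DegLE L k m) (hqm : ¬ q ∣ m)
  [IsAlgClosed L] [CharZero L] [IsLocalHom π] (arch : Arch A)
  {r : Place L (H99.FX L m) → Place k (modularFunctionFieldFullC k m)}
  {G : Subgroup (L ≃ₐ[ℚ] L)}
variable {c : ℕ}
    (hr1 : ∀ D : Divisor L (H99.FX L m), (c : ℤ) < Divisor.degree D →
      (H42.modReductionData A π m hπ hdeg).IsRed D (Finsupp.mapDomain r D))
    (hr2 : H34.GR.DivCompat (H42.modReductionData A π m hπ hdeg) r)

omit [IsAlgClosed L] [CharZero L] in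
theorem e_smul_alg {M : ℕ} (σ : G) (c : L) :
    σ • algebraMap L (H99.FX L M) c = algebraMap L (H99.FX L M) (σ • c) :=
  smul_algebraMap' (σ : L ≃ₐ[ℚ] L) c

omit [IsAlgClosed L] [CharZero L] in
theorem e_φ_smul (σ : G) (b : H99.FX L m) :
    σ • heckeAlphaBar L m q b = heckeAlphaBar L m q (σ • b) := by
  apply Subtype.ext
  have h1 : ((σ • heckeAlphaBar L m q b : H99.FX L (m * q)) : LaurentSeries L) =
      coeffMap ((σ : L ≃ₐ[ℚ] L) : L →+* L) (heckeAlphaBar L m q b : H99.FX L (m * q)) :=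
    In.coe_smul (σ : L ≃ₐ[ℚ] L) _
  have h2 : ((σ • b : H99.FX L m) : LaurentSeries L) =
      coeffMap ((σ : L ≃ₐ[ℚ] L) : L →+* L) (b : H99.FX L m) :=
    In.coe_smul (σ : L ≃ₐ[ℚ] L) _
  rw [h1, coe_heckeAlphaBar, coe_heckeAlphaBar, h2]

include hqm in
theorem e_W_smul (σ : G) (f : H99.FX L (m * q)) : σ • w.W f = w.W (σ • f) :=
  ((isAL w hq.out hqm).galois (σ : L ≃ₐ[ℚ] L) f).symm

theorem e_v_smul (hG : TrivV π G) (σ : G) (f : H99.FX L (m * q)) :
    v1 A π w hπ (H42.degreeFact L) hdeg hqm (σ • f) =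
      v1 A π w hπ (H42.degreeFact L) hdeg hqm f := v1_smul w hπ hdeg hqm hG σ.2 f

theorem e_ρ_smul (hG : TrivV π G) (σ : G) (f : H99.FX L (m * q))
    (hf : v1 A π w hπ (H42.degreeFact L) hdeg hqm f ≤ 1) :
    (comp1 A π w hπ (H42.degreeFact L) hdeg hqm).red (σ • f) =
      (comp1 A π w hπ (H42.degreeFact L) hdeg hqm).red f :=
  red1_smul w hπ hdeg hqm hG.toTriv σ.2 hf

include hr1 arch in
theorem e_lift_inf (hG : Triv π G) {P₀ : Place L (H99.FX L m)} (hP₀ : IsInf P₀) :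
    ∃ n₀ : ℤ, ∀ n : ℤ, n₀ < n → ∀ h : modularFunctionFieldFullC k m,
    h ∈ riemannRochSpace (Finsupp.single (r P₀) n : Divisor k (modularFunctionFieldFullC k m)) →
      ∃ b : H99.FX L m, MP.Fix (⊤ : Subgroup G) b ∧
        v0 A π w hπ (H42.degreeFact L) hdeg hqm b ≤ 1 ∧
        b ∈ riemannRochSpace (Finsupp.single P₀ n : Divisor L (H99.FX L m)) ∧
        (comp0 A π w hπ (H42.degreeFact L) hdeg hqm).red b = h := by
  have i1 : H3RR.IsFF L (H99.FX L m) := isFF_FF L m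
  have i3 : H94.FunField L (H99.FX L m) := H3RR.funField_of_isFF
  refine ⟨c, fun n hn h hh => ?_⟩
  have h1 := (hr1 (Finsupp.single P₀ n) (by
    rw [Divisor.degree_single, H94.deg_eq_one]; simpa using hn)).2
  rw [Finsupp.mapDomain_single] at h1
  obtain ⟨b, hb, hbρ, hbG⟩ := exists_fixed hπ arch hdeg hG hP₀ (by rw [h1]; exact hh)
  have hv := v0_le_of_mem_R A π w hπ (H42.degreeFact L) hdeg hqm b
  refine ⟨b, fun σ _ => hbG σ σ.2, hv, hb, ?_⟩
  obtain ⟨h', hρ⟩ := mem_R_of_v0 A π w hπ (H42.degreeFact L) hdeg hqm hv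
  exact hρ.symm.trans hbρ

theorem e_W_inf {P₀ : Place L (H99.FX L m)} (hP₀ : IsInf P₀) (P : Place L (H99.FX L (m * q)))
    (hP : ∀ b : H99.FX L m, b ∈ P₀.toValuationSubring ↔
      w.W (heckeAlphaBar L m q b) ∈ P.toValuationSubring) :
    letI : H3RR.IsFF L (H99.FX L m) := isFF_FF L m
    letI : H3RR.IsFF L (H99.FX L (m * q)) := isFF_FF L (m * q)
    letI : H94.FunField L (H99.FX L m) := H3RR.funField_of_isFF
    letI : H94.FunField L (H99.FX L (m * q)) := H3RR.funField_of_isFF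
    H67.res (heckeAlphaBar L m q) P = P₀ := by
  have i1 : H3RR.IsFF L (H99.FX L m) := isFF_FF L m
  have i2 : H3RR.IsFF L (H99.FX L (m * q)) := isFF_FF L (m * q)
  have i3 : H94.FunField L (H99.FX L m) := H3RR.funField_of_isFF
  have i4 : H94.FunField L (H99.FX L (m * q)) := H3RR.funField_of_isFF
  have h1 := res_eq_inf w hP₀ hP
  apply Place.ext
  ext b
  rw [H67.mem_res]
  exact h1 b

include arch in
theorem e_scale {P₀ : Place L (H99.FX L (m * q))} (hP₀ : IsInf P₀)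
    {H : Subgroup (L ≃ₐ[ℚ] L)} {f : H99.FX L (m * q)} (hf0 : f ≠ 0) (hf : ∀ σ ∈ H, σ • f = f) :
    ∃ c : L, c ≠ 0 ∧ (∀ σ ∈ H, σ c = c) ∧
      v1 A π w hπ (H42.degreeFact L) hdeg hqm f = A.valuation c := by
  refine exists_fixed_scale (π := π) arch hP₀ (v1 A π w hπ (H42.degreeFact L) hdeg hqm)
    (fun f hf => ?_) (fun c => ?_) (fun f hf => ?_) (fun f y hy hf => ?_) hf0 hf
  · obtain ⟨c, r, hc, -, h, -⟩ := hasG1 A π w hπ (H42.degreeFact L) hdeg hqm hf
    exact ⟨c, hc, h⟩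
  · exact compVal_algebraMap hπ _ c
  · have h1 : f ∈ (gC A π (m * q)).V :=
      (compVal_le_one_iff hπ (comp1_scalable A π w hπ (H42.degreeFact L) hdeg hqm)).mp hf
    exact (mem_locL_iff A π).mp h1
  · have h1 := (compVal_eq_one_iff hπ (comp1_scalable A π w hπ (H42.degreeFact L) hdeg hqm)).mp hf
    intro h2
    apply h1
    apply Subtype.ext
    rw [coe_red1]
    exact (red_gaussComp_of_eq A π _ hy.symm).trans h2

include arch in
theorem e_scale' {P₀ : Place L (H99.FX L (m * q))} (hP₀ : IsInf P₀)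
    (H : Subgroup G) (f : H99.FX L (m * q)) (hf : MP.Fix H f) (hf0 : f ≠ 0) :
    ∃ c : L, c ≠ 0 ∧ MP.Fix H c ∧
      v1 A π w hπ (H42.degreeFact L) hdeg hqm f = A.valuation c := by
  obtain ⟨c, hc0, hc, hv⟩ := e_scale w hπ hdeg hqm arch hP₀ (H := H.map G.subtype) hf0 (by
    rintro _ ⟨σ, hσ, rfl⟩
    exact hf σ hσ)
  exact ⟨c, hc0, fun σ hσ => hc _ ⟨σ, hσ, rfl⟩, hv⟩

/-- **The action of an inertia group on the two-sheet structure of `X_0(mq)`.** -/
theorem equi [H3RR.IsFF k (modularFunctionFieldFullC k m)]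
    [H3RR.IsFF L (H99.FX L m)] [H3RR.IsFF L (H99.FX L (m * q))]
    [H94.FunField L (H99.FX L m)] [H94.FunField L (H99.FX L (m * q))]
    (hG : TrivV π G) {P₀ : Place L (H99.FX L m)} (hP₀ : IsInf P₀) :
    Eq.Equi (sheets w hπ hdeg hqm arch r hr1 hr2) G w.W P₀ := by
  obtain ⟨P₁, hP₁⟩ := exists_isInf (H99.FX L (m * q)) (jqModC_mem_bar L (m * q))
  constructor
  · exact fun σ c => e_smul_alg σ c
  · exact fun σ c => e_smul_alg σ c
  · exact fun σ b => e_φ_smul σ b
  · exact fun σ f => e_W_smul w hqm σ f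
  · exact fun σ f => e_v_smul w hπ hdeg hqm hG σ f
  · exact fun σ f hf => e_ρ_smul w hπ hdeg hqm hG σ f hf
  · exact fun f => (v1_W A π w hπ (H42.degreeFact L) hdeg hqm f).symm
  · exact fun f => red2_eq A π w hπ (H42.degreeFact L) hdeg hqm f
  · exact w.invol
  · exact fun σ P => ⟨_, ord_galois (σ : L ≃ₐ[ℚ] L) P⟩
  · intro σ b
    rw [hP₀, hP₀]
    exact order_smul (σ : L ≃ₐ[ℚ] L) b
  · exact e_lift_inf w hπ hdeg hqm arch hr1 hG.toTriv hP₀
  · exact fun P hP => congrArg r (e_W_inf w hP₀ P hP)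
  · exact fun H f hf hf0 => e_scale' w hπ hdeg hqm arch hP₁ H f hf hf0
  · intro e
    obtain ⟨a, ha, haG⟩ := hG.teich e
    refine ⟨a, fun σ _ => haG σ σ.2, A.valuation_le_one a, ?_⟩
    exact (resK_of_mem a.2).trans ha

omit [CharP k q] [IsAlgClosed k] [Infinite k] [IsAlgClosed L] [CharZero L] [IsLocalHom π] hq
  [NeZero m] [NeZero q] in
/-- Functions with rational coefficients are fixed by Galois. -/
theorem fix_of_rat {M : ℕ} {z : H99.FX L M} {z₀ : LaurentSeries ℚ}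
    (h : (z : LaurentSeries L) = coeffMap (algebraMap ℚ L) z₀) (σ : L ≃ₐ[ℚ] L) : σ • z = z := by
  apply Subtype.ext
  rw [In.coe_smul, h]
  ext n
  rw [coeffMap_coeff, coeffMap_coeff]
  exact σ.commutes _

end Inst

section Qbar

local notation "Qb" => AlgebraicClosure ℚ

variable {q : ℕ} [hq : Fact q.Prime] {A : ValuationSubring Qb} (hA : A.LiesOverPrime q)
  {k : Type*} [Field k] {π : A →+* k} [IsLocalHom π]

include hA in
/-- Inertia groups act trivially on the residue field and on the value group. -/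
theorem trivV (hπ : Function.Surjective π) : TrivV π (A.inertiaSubgroupIn ℚ) where
  toTriv := triv hA hπ
  val := by
    have key : ∀ σ ∈ A.inertiaSubgroupIn ℚ, ∀ c : Qb, A.valuation (σ c) ≤ A.valuation c := by
      rintro _ ⟨σ', hσ', rfl⟩ c
      rcases eq_or_ne c 0 with rfl | hc
      · rw [map_zero]
      have h1 := H89J.div_mem_of_mem_decomposition σ'.2 c hc
      rw [← A.valuation_le_one_iff, map_div₀] at h1
      exact (div_le_one₀ (zero_lt_iff.mpr ((Valuation.ne_zero_iff _).mpr hc))).mp h1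
    intro σ hσ c
    refine le_antisymm (key σ hσ c) ?_
    have h1 := key σ⁻¹ (inv_mem hσ) (σ c)
    have h2 : σ⁻¹ (σ c) = c := σ.symm_apply_apply c
    rwa [h2] at h1

end Qbar

end Fermat.Agent.H31.EqI
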