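import Fermat.Agent.H31EqJ

/-!
# The Mazur principle data for `X_0(mq)`
-/

set_option autoImplicit false
set_option linter.unusedSectionVars false
set_option maxHeartbeats 2000000
set_option synthInstance.maxHeartbeats 200000

noncomputable section

open AlgebraicCurve ModularCurve IntermediateField WithZero Fermat.Agent.H97
  Fermat.Agent.H34.Two Fermat.Agent.H31.In

namespace Fermat.Agent.H31.EqI

section Inst

variable {L : Type*} [Field L] [Algebra ℚ L] {A : ValuationSubring L} {k : Type*} [Field k]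
  {π : A →+* k} {m q : ℕ} [NeZero m] [NeZero q] [hq : Fact q.Prime]
  [CharP k q] [IsAlgClosed k] [Infinite k] (w : H99.AL L m q)
  (hπ : Function.Surjective π)
  (hdeg : H42.DegLE L k m) (hqm : ¬ q ∣ m)
  [IsAlgClosed L] [CharZero L] [IsLocalHom π] (arch : Arch A)
  (r : Place L (H99.FX L m) → Place k (modularFunctionFieldFullC k m))
  {c : ℕ}
  (hr1 : ∀ D : Divisor L (H99.FX L m), (c : ℤ) < Divisor.degree D →
    (H42.modReductionData A π m hπ hdeg).IsRed D (Finsupp.mapDomain r D))
  (hr2 : H34.GR.DivCompat (H42.modReductionData A π m hπ hdeg) r)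
  [H3RR.IsFF L (H99.FX L m)] [H3RR.IsFF L (H99.FX L (m * q))]
  [H3RR.IsFF k (modularFunctionFieldFullC k m)] [H94.FunField L (H99.FX L m)]
  [H94.FunField L (H99.FX L (m * q))]
  {G : Subgroup (L ≃ₐ[ℚ] L)}

/-- The data for the group `G` acting on `X_0(mq)`, before `gen`. -/
def preData (hG : TrivV π G) {P₀ : Place L (H99.FX L m)} (hP₀ : IsInf P₀)
    (z : {x : Place k (modularFunctionFieldFullC k m) //
      (sheets w hπ hdeg hqm arch r hr1 hr2).Node x} → H99.FX L (m * q))
    (hzG : ∀ n, MP.Fix (⊤ : Subgroup G) (z n))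
    (hpar : ∀ n : {x : Place k (modularFunctionFieldFullC k m) //
      (sheets w hπ hdeg hqm arch r hr1 hr2).Node x},
      ∃ z' u, Eq.NodePar (sheets w hπ hdeg hqm arch r hr1 hr2) n.1 (z n) z' u)
    (htors : Eq.Equi.Tors (sheets w hπ hdeg hqm arch r hr1 hr2)) :
    MP.PreData L (H99.FX L (m * q)) k (modularFunctionFieldFullC k m) A.ValueGroup
      {x : Place k (modularFunctionFieldFullC k m) //
        (sheets w hπ hdeg hqm arch r hr1 hr2).Node x} G q :=
  Eq.Equi.preData (S := sheets w hπ hdeg hqm arch r hr1 hr2) (G := G) (W := w.W) (P₀ := P₀)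
    (equi w hπ hdeg hqm arch hr1 hr2 hG hP₀) z hzG hpar htors

/-- **The data for the group `G` acting on `X_0(mq)`.** -/
def data (hG : TrivV π G) {P₀ : Place L (H99.FX L m)} (hP₀ : IsInf P₀)
    (z : {x : Place k (modularFunctionFieldFullC k m) //
      (sheets w hπ hdeg hqm arch r hr1 hr2).Node x} → H99.FX L (m * q))
    (hzG : ∀ n, MP.Fix (⊤ : Subgroup G) (z n))
    (hpar : ∀ n : {x : Place k (modularFunctionFieldFullC k m) //
      (sheets w hπ hdeg hqm arch r hr1 hr2).Node x},
      ∃ z' u, Eq.NodePar (sheets w hπ hdeg hqm arch r hr1 hr2) n.1 (z n) z' u)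
    (htors : Eq.Equi.Tors (sheets w hπ hdeg hqm arch r hr1 hr2)) :
    MP.Data L (H99.FX L (m * q)) k (modularFunctionFieldFullC k m) A.ValueGroup
      {x : Place k (modularFunctionFieldFullC k m) //
        (sheets w hπ hdeg hqm arch r hr1 hr2).Node x} G q :=
  (preData w hπ hdeg hqm arch r hr1 hr2 hG hP₀ z hzG hpar htors).toData

theorem data_M (hG : TrivV π G) {P₀ : Place L (H99.FX L m)} (hP₀ : IsInf P₀)
    (z : {x : Place k (modularFunctionFieldFullC k m) //
      (sheets w hπ hdeg hqm arch r hr1 hr2).Node x} → H99.FX L (m * q))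
    (hzG : ∀ n, MP.Fix (⊤ : Subgroup G) (z n))
    (hpar : ∀ n : {x : Place k (modularFunctionFieldFullC k m) //
      (sheets w hπ hdeg hqm arch r hr1 hr2).Node x},
      ∃ z' u, Eq.NodePar (sheets w hπ hdeg hqm arch r hr1 hr2) n.1 (z n) z' u)
    (htors : Eq.Equi.Tors (sheets w hπ hdeg hqm arch r hr1 hr2)) :
    (data w hπ hdeg hqm arch r hr1 hr2 hG hP₀ z hzG hpar htors).M =
      (sheets w hπ hdeg hqm arch r hr1 hr2).model := rfl

end Inst

section Qbar

local notation "Qb" => AlgebraicClosure ℚ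

variable {A : ValuationSubring Qb} {k : Type*} [Field k]
  {π : A →+* k} {m q : ℕ} [NeZero m] [NeZero q] [hq : Fact q.Prime]
  [CharP k q] [IsAlgClosed k] [Infinite k] (w : H99.AL Qb m q)
  (hπ : Function.Surjective π)
  (hdeg : H42.DegLE Qb k m) (hqm : ¬ q ∣ m) [IsLocalHom π] (arch : Arch A)
  (r : Place Qb (H99.FX Qb m) → Place k (modularFunctionFieldFullC k m))
  {c : ℕ}
  (hr1 : ∀ D : Divisor Qb (H99.FX Qb m), (c : ℤ) < Divisor.degree D →
    (H42.modReductionData A π m hπ hdeg).IsRed D (Finsupp.mapDomain r D))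
  (hr2 : H34.GR.DivCompat (H42.modReductionData A π m hπ hdeg) r)

theorem tors (hA : A.LiesOverPrime q) : Eq.Equi.Tors (sheets w hπ hdeg hqm arch r hr1 hr2) :=
  fun _ ha => exists_pow_eq_zpow hA ha

end Qbar

end Fermat.Agent.H31.EqI
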