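import Mathlib
import Fermat.Agent.H51ZOp

/-!
# S47, block (C): uniform bounds for the finite kernels

* `locKer_bound`, `locKer_card`: a local kernel is bounded, with rows of bounded cardinality;
* `globKer_bound`, `globKer_card`, `globKer_card_left`: the same for global kernels;
* `norm_gop_le`: the operator of a global kernel is bounded for the sup norm.
-/

set_option autoImplicit false
set_option linter.unusedSectionVars false

noncomputable section

namespace Fermat.Agent.H31I

open Fermat.Agent.H59XF Fermat.Agent.H51Z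

variable {G : Type*} [Group G]

section Loc

variable {H : Subgroup G}

theorem locKer_k_eq (a : LocKer H) (g : G) (y : G ⧸ H) :
    a.k (g : G ⧸ H) y = a.k ((1 : G) : G ⧸ H) (g⁻¹ • y) := by
  have h := a.inv g⁻¹ (g : G ⧸ H) y
  have h1 : (g⁻¹ • ((g : G) : G ⧸ H)) = ((1 : G) : G ⧸ H) := by
    show (((g⁻¹ * g : G)) : G ⧸ H) = _
    rw [inv_mul_cancel]
  rw [← h, h1]

theorem locKer_bound (a : LocKer H) : ∃ B : ℝ, 1 ≤ B ∧ ∀ x y, ‖a.k x y‖ ≤ B := by
  obtain ⟨B, hB⟩ := ((a.fin_right ((1 : G) : G ⧸ H)).image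
    fun y => ‖a.k ((1 : G) : G ⧸ H) y‖).bddAbove
  refine ⟨max B 1, le_max_right _ _, fun x y => ?_⟩
  induction x using QuotientGroup.induction_on with
  | H g =>
    rw [locKer_k_eq]
    by_cases h0 : a.k ((1 : G) : G ⧸ H) (g⁻¹ • y) = 0
    · rw [h0, norm_zero]
      exact zero_le_one.trans (le_max_right _ _)
    · exact (hB ⟨_, h0, rfl⟩).trans (le_max_left _ _)

theorem locKer_card (a : LocKer H) : ∃ N : ℕ, ∀ x, {y | a.k x y ≠ 0}.ncard ≤ N := by
  refine ⟨{y | a.k ((1 : G) : G ⧸ H) y ≠ 0}.ncard, fun x => ?_⟩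
  induction x using QuotientGroup.induction_on with
  | H g =>
    refine Set.ncard_le_ncard_of_injOn (fun y => g⁻¹ • y) ?_ ?_ (a.fin_right _)
    · intro y hy
      show a.k _ (g⁻¹ • y) ≠ 0
      rw [← locKer_k_eq]
      exact hy
    · intro y _ y' _ h
      exact smul_left_cancel g⁻¹ h

end Loc

section Glob

variable {ι : Type*} {L : LevelFam G ι}

theorem globKer_k_eq_prod (a : GlobKer L) (x y : XF L) (hxy : ∀ i, a.loc i = LocKer.one → x i = y i) :
    a.k x y = ∏ i ∈ a.fin.toFinset, (a.loc i).k (x i) (y i) := by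
  unfold GlobKer.k
  apply finprod_eq_prod_of_mulSupport_subset
  intro i hi
  by_contra hcon
  have h1 : a.loc i = LocKer.one := by simpa using hcon
  apply hi
  show (a.loc i).k (x i) (y i) = 1
  rw [h1, LocKer.one_k, if_pos (hxy i h1)]

theorem globKer_bound (a : GlobKer L) : ∃ B : ℝ, 1 ≤ B ∧ ∀ x y, ‖a.k x y‖ ≤ B := by
  classical
  choose B hB1 hB using fun i => locKer_bound (a.loc i)
  refine ⟨∏ i ∈ a.fin.toFinset, B i, ?_, fun x y => ?_⟩
  · calc (1 : ℝ) = ∏ _i ∈ a.fin.toFinset, (1 : ℝ) := by simp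
      _ ≤ _ := Finset.prod_le_prod (fun _ _ => zero_le_one) fun i _ => hB1 i
  · by_cases h0 : a.k x y = 0
    · rw [h0, norm_zero]
      exact Finset.prod_nonneg fun i _ => zero_le_one.trans (hB1 i)
    · rw [globKer_k_eq_prod a x y fun i hi => eq_of_k_ne_zero h0 hi, norm_prod]
      exact Finset.prod_le_prod (fun _ _ => norm_nonneg _) fun i _ => hB i _ _

theorem globKer_card (a : GlobKer L) : ∃ N : ℕ, ∀ x, {y | a.k x y ≠ 0}.ncard ≤ N := by
  classical
  choose N hN using fun i => locKer_card (a.loc i)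
  refine ⟨∏ i : a.fin.toFinset, N i.1, fun x => ?_⟩
  let S : (i : a.fin.toFinset) → Finset (G ⧸ L.U i.1) := fun i =>
    ((a.loc i.1).fin_right (x i.1)).toFinset
  have hS : ∀ i, (S i).card ≤ N i.1 := fun i => by
    have h1 := hN i.1 (x i.1)
    rwa [Set.ncard_eq_toFinset_card _ ((a.loc i.1).fin_right (x i.1))] at h1
  have h2 : {y | a.k x y ≠ 0}.ncard ≤ ((Fintype.piFinset S : Finset _) : Set ((i : a.fin.toFinset) → G ⧸ L.U i.1)).ncard := by
    refine Set.ncard_le_ncard_of_injOn (fun (y : XF L) (i : a.fin.toFinset) => y i.1) ?_ ?_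
      (Finset.finite_toSet _)
    · intro y hy
      rw [Finset.mem_coe, Fintype.mem_piFinset]
      intro i
      show y i.1 ∈ ((a.loc i.1).fin_right (x i.1)).toFinset
      rw [Set.Finite.mem_toFinset]
      exact (a.k_ne_zero_iff x y).1 hy i.1
    · intro y hy y' hy' hyy
      apply XF.ext
      intro i
      by_cases hi : a.loc i = LocKer.one
      · rw [← eq_of_k_ne_zero hy hi, ← eq_of_k_ne_zero hy' hi]
      · exact congrFun hyy ⟨i, by simpa using hi⟩
  rw [Set.ncard_coe_finset, Fintype.card_piFinset] at h2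
  exact h2.trans (Finset.prod_le_prod' fun i _ => hS i)

/-- The transpose of a local kernel. -/
def locTr {H : Subgroup G} (a : LocKer H) : LocKer H where
  k x y := a.k y x
  inv g x y := a.inv g y x
  fin_right x := a.fin_left x
  fin_left x := a.fin_right x

theorem locTr_one {H : Subgroup G} : locTr (LocKer.one : LocKer H) = LocKer.one := by
  classical
  ext x y
  show (LocKer.one : LocKer H).k y x = _
  rw [LocKer.one_k, LocKer.one_k]
  exact if_congr eq_comm rfl rfl

/-- The transpose of a global kernel. -/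
def globTr (a : GlobKer L) : GlobKer L where
  loc i := locTr (a.loc i)
  fin := by
    refine a.fin.subset fun i hi h => hi ?_
    show locTr (a.loc i) = _
    rw [h, locTr_one]

theorem globTr_k (a : GlobKer L) (x y : XF L) : (globTr a).k x y = a.k y x := rfl

theorem supp_finite_left (a : GlobKer L) (y : XF L) : {x | a.k x y ≠ 0}.Finite :=
  supp_finite (globTr a) y

theorem globKer_card_left (a : GlobKer L) : ∃ N : ℕ, ∀ y, {x | a.k x y ≠ 0}.ncard ≤ N :=
  globKer_card (globTr a)

theorem norm_gop_le {E : Type*} [NormedAddCommGroup E] [NormedSpace ℂ E] (a : GlobKer L) :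
    ∃ C : ℝ, 0 ≤ C ∧ ∀ (f : XF L → E) (x : XF L) (B : ℝ), (∀ y, a.k x y ≠ 0 → ‖f y‖ ≤ B) →
      0 ≤ B → ‖gop a f x‖ ≤ C * B := by
  obtain ⟨B0, hB1, hB0⟩ := globKer_bound a
  obtain ⟨N, hN⟩ := globKer_card a
  refine ⟨N * B0, by positivity, fun f x B hf hB => ?_⟩
  rw [gop_def]
  refine (norm_sum_le _ _).trans ?_
  calc ∑ y ∈ gs a x, ‖a.k x y • f y‖ ≤ ∑ _y ∈ gs a x, B0 * B := by
        refine Finset.sum_le_sum fun y hy => ?_
        rw [norm_smul]
        exact mul_le_mul (hB0 x y) (hf y (mem_gs.1 hy)) (norm_nonneg _)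
          (zero_le_one.trans hB1)
    _ = (gs a x).card * (B0 * B) := by rw [Finset.sum_const, nsmul_eq_mul]
    _ ≤ N * (B0 * B) := by
        refine mul_le_mul_of_nonneg_right ?_ (mul_nonneg (zero_le_one.trans hB1) hB)
        have h1 := hN x
        rw [Set.ncard_eq_toFinset_card _ (supp_finite a x)] at h1
        exact_mod_cast h1
    _ = _ := by ring

end Glob

end Fermat.Agent.H31I
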