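import Fermat.Agent.H97Model

/-!
# Mazur's principle at `p`: setting

Two component reduction of a function field with a group `G` (inertia) acting semilinearly.
-/

set_option autoImplicit false
set_option linter.unusedSectionVars false
set_option linter.style.haveILetI false

open AlgebraicCurve WithZero Fermat.Agent

namespace Fermat.Agent.H31.MP

section Fix

variable {G X : Type*} [Group G]

/-- `f` is fixed by the subgroup `H`. -/
def Fix [SMul G X] (H : Subgroup G) (f : X) : Prop := ∀ σ ∈ H, σ • f = f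

variable [Field X] [MulSemiringAction G X] {H : Subgroup G} {f g : X}

theorem Fix.add (hf : Fix H f) (hg : Fix H g) : Fix H (f + g) := fun σ hσ => by
  rw [smul_add, hf σ hσ, hg σ hσ]

theorem Fix.sub (hf : Fix H f) (hg : Fix H g) : Fix H (f - g) := fun σ hσ => by
  rw [smul_sub, hf σ hσ, hg σ hσ]

theorem Fix.mul (hf : Fix H f) (hg : Fix H g) : Fix H (f * g) := fun σ hσ => by
  rw [smul_mul', hf σ hσ, hg σ hσ]

theorem Fix.inv (hf : Fix H f) : Fix H f⁻¹ := fun σ hσ => by
  rw [smul_inv'', hf σ hσ]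

theorem Fix.div (hf : Fix H f) (hg : Fix H g) : Fix H (f / g) := by
  rw [div_eq_mul_inv]; exact hf.mul hg.inv

theorem Fix.pow (hf : Fix H f) (n : ℕ) : Fix H (f ^ n) := fun σ hσ => by
  rw [smul_pow', hf σ hσ]

theorem Fix.zpow (hf : Fix H f) (n : ℤ) : Fix H (f ^ n) := by
  cases n with
  | ofNat n => rw [Int.ofNat_eq_natCast, zpow_natCast]; exact hf.pow n
  | negSucc n => rw [zpow_negSucc]; exact (hf.pow _).inv

theorem Fix.one : Fix H (1 : X) := fun σ _ => smul_one σ

theorem Fix.zero : Fix H (0 : X) := fun σ _ => smul_zero σ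

theorem Fix.natCast (n : ℕ) : Fix H (n : X) := fun σ _ =>
  map_natCast (MulSemiringAction.toRingHom G X σ) n

theorem Fix.mono {H' : Subgroup G} (h : H ≤ H') (hf : Fix H' f) : Fix H f :=
  fun σ hσ => hf σ (h hσ)

theorem Fix.of_top (hf : Fix (⊤ : Subgroup G) f) : Fix H f := hf.mono le_top

end Fix


section Generic

theorem adic_le_one_of_ord {K F : Type*} [Field K] [Field F]
    [Algebra K F] {P : Place K F} {f : F} (h : 0 ≤ P.ord f) : P.adicValuation f ≤ 1 :=
  (P.adicValuation_le_one_iff).mpr (Or.inr h)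

theorem adic_eq_one_of_ord {K F : Type*} [Field K] [Field F]
    [Algebra K F] {P : Place K F} {f : F} (hf : f ≠ 0) (h : P.ord f = 0) :
    P.adicValuation f = 1 := by
  rw [P.adicValuation_eq_exp_neg_ord hf, h, neg_zero, exp_zero]

theorem ord_eq_zero_of_adic {K F : Type*} [Field K] [Field F]
    [Algebra K F] {P : Place K F} {f : F} (h : P.adicValuation f = 1) : P.ord f = 0 := by
  have hf : f ≠ 0 := by rintro rfl; simp at h
  rw [P.adicValuation_eq_exp_neg_ord hf, ← exp_zero, exp_inj] at h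
  omega

theorem ord_eq_zero_of_sub_lt {k Fb : Type*} [Field k] [IsAlgClosed k] [Field Fb]
    [Algebra k Fb] [H3RR.IsFF k Fb] {s : Place k Fb} {a : Fb} {c : k} (hc : c ≠ 0)
    (h : s.adicValuation (a - algebraMap k Fb c) < 1) : a ≠ 0 ∧ s.ord a = 0 := by
  have h1 : s.adicValuation (algebraMap k Fb c) = 1 := H3RR.adicValuation_algebraMap _ hc
  have h2 : s.adicValuation a = 1 := by
    have h3 : a = algebraMap k Fb c + (a - algebraMap k Fb c) := by ring
    rw [h3, Valuation.map_add_eq_of_lt_left _ (by rwa [h1]), h1]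
  have ha : a ≠ 0 := by rintro rfl; simp at h2
  exact ⟨ha, ord_eq_zero_of_adic h2⟩

end Generic

/-- The geometric data: a two component model with a semilinear action of `G` which is trivial
on the special fibre. -/
structure Data (K F k Fb Γ ν G : Type*) [Field K] [Field F] [Algebra K F] [Field k] [Field Fb]
    [Algebra k Fb] [LinearOrderedCommGroupWithZero Γ] [Group G] [MulSemiringAction G K]
    [MulSemiringAction G F] (p : ℕ) where
  M : H97.Model K F k Fb Γ Bool ν
  pt : Bool → ν → Place k Fb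
  mem_br : ∀ n x, x ∈ M.br n ↔ x = (false, pt false n) ∨ x = (true, pt true n)
  smul_alg : ∀ (σ : G) (c : K), σ • algebraMap K F c = algebraMap K F (σ • c)
  v_smul : ∀ i (σ : G) f, M.v i (σ • f) = M.v i f
  ρ_smul : ∀ i (σ : G) f, M.v i f ≤ 1 → M.ρ i (σ • f) = M.ρ i f
  place : ∀ (σ : G) P, ∃ P', M.sp P' = M.sp P ∧ ∀ f, P.ord (σ • f) = P'.ord f
  scale : ∀ (H : Subgroup G) i (f : F), Fix H f → f ≠ 0 →
    ∃ c : K, c ≠ 0 ∧ Fix H c ∧ M.v i f = M.vK c
  res_lift : ∀ e : k, ∃ c : K, Fix (⊤ : Subgroup G) c ∧ M.vK c ≤ 1 ∧ M.res c = e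
  z : ν → F
  z_fix : ∀ n, Fix (⊤ : Subgroup G) (z n)
  z_unit : ∀ n P, M.sp P = Sum.inr n → P.ord (z n) = 0
  z_false : ∀ n, M.v false (z n) = 1
  z_ord : ∀ n, (pt false n).ord (M.ρ false (z n)) = 1
  z_true : ∀ n, M.v true (z n) = M.vK p
  gen : ∀ (d : ℕ), d ≠ 0 → ∀ (H : Subgroup G) (f : F), f ≠ 0 → Fix H f →
    (∀ P : Place K F, (d : ℤ) ∣ P.ord f) →
      ∀ a, ∃ g : F, g ≠ 0 ∧ Fix H g ∧ ∀ P, M.sp P = a → P.ord f = d * P.ord g


/-- Lifting of regular functions on the special fibre to `G`-fixed regular functions. -/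
structure Data.Lifts {K F k Fb Γ ν G : Type*} [Field K] [Field F] [Algebra K F] [Field k]
    [Field Fb] [Algebra k Fb] [LinearOrderedCommGroupWithZero Γ] [Group G]
    [MulSemiringAction G K] [MulSemiringAction G F] {p : ℕ} (D : Data K F k Fb Γ ν G p) :
    Prop where
  lift_smooth : ∀ x : Bool × Place k Fb, (∀ n, x ∉ D.M.br n) → ∀ a : Fb,
    x.2.adicValuation a ≤ 1 →
    ∃ b : F, Fix (⊤ : Subgroup G) b ∧ D.M.v x.1 b ≤ 1 ∧
      (∀ P, D.M.sp P = Sum.inl x → P.adicValuation b ≤ 1) ∧ D.M.ρ x.1 b = a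
  lift_node : ∀ n (a : Bool → Fb) (c : k),
    (∀ i, (D.pt i n).adicValuation (a i - algebraMap k Fb c) < 1) →
      ∃ b : F, Fix (⊤ : Subgroup G) b ∧ (∀ i, D.M.v i b ≤ 1) ∧
        (∀ P, D.M.sp P = Sum.inr n → P.adicValuation b ≤ 1) ∧ ∀ i, D.M.ρ i b = a i

namespace Data

variable {K F k Fb Γ ν G : Type*} [Field K] [Field F] [Algebra K F] [Field k] [Field Fb]
    [Algebra k Fb] [LinearOrderedCommGroupWithZero Γ] [Group G] [MulSemiringAction G K]
    [MulSemiringAction G F] {p : ℕ} (D : Data K F k Fb Γ ν G p)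

local notation "vv" => D.M.v
local notation "ρρ" => D.M.ρ
local notation "vK" => D.M.vK

theorem comp (i : Bool) : H97.Comp D.M.vK D.M.res (D.M.v i) (D.M.ρ i) := D.M.comp i

theorem z_ne (n : ν) : D.z n ≠ 0 := by
  intro h
  have := D.z_false n
  rw [h, map_zero] at this
  exact zero_ne_one this

/-- Transport of a local divisor relation. -/
theorem ord_smul_eq {σ : G} {f g : F} {a : (Bool × Place k Fb) ⊕ ν} {m : ℤ}
    (h : ∀ P, D.M.sp P = a → P.ord f = m * P.ord g) :
    ∀ P, D.M.sp P = a → P.ord (σ • f) = m * P.ord (σ • g) := by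
  intro P hP
  obtain ⟨P', hP', h'⟩ := D.place σ P
  rw [h', h']
  exact h P' (hP'.trans hP)

theorem vK_smul (σ : G) (c : K) : vK (σ • c) = vK c := by
  rw [← (D.comp false).v_alg, ← D.smul_alg, D.v_smul, (D.comp false).v_alg]

theorem res_smul (σ : G) (c : K) (hc : vK c ≤ 1) : D.M.res (σ • c) = D.M.res c := by
  have h := D.ρ_smul false σ (algebraMap K F c) (by rwa [(D.comp false).v_alg])
  rw [D.smul_alg, (D.comp false).ρ_alg _ (by rwa [D.vK_smul]), (D.comp false).ρ_alg _ hc] at h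
  exact (algebraMap k Fb).injective h

include D in
theorem fix_alg {H : Subgroup G} {c : K} (hc : Fix H c) : Fix H (algebraMap K F c) :=
  fun σ hσ => by rw [D.smul_alg, hc σ hσ]

theorem res_zero : D.M.res 0 = 0 := by
  have h := (D.comp false).ρ_alg 0 (by simp)
  rw [map_zero, (D.comp false).ρ_zero] at h
  exact (algebraMap k Fb).injective (by rw [← h, map_zero])

theorem res_one : D.M.res 1 = 1 := by
  have h := (D.comp false).ρ_alg 1 (by simp)
  rw [map_one, (D.comp false).ρ_one] at h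
  exact (algebraMap k Fb).injective (by rw [← h, map_one])

theorem res_eq_zero {c : K} (hc : vK c ≤ 1) : D.M.res c = 0 ↔ vK c < 1 := by
  have h := (D.comp false).ρ_eq_zero (algebraMap K F c) (by rwa [(D.comp false).v_alg])
  rw [(D.comp false).v_alg, (D.comp false).ρ_alg _ hc] at h
  rw [← h]
  simp

section RR

variable [IsAlgClosed K] [H3RR.IsFF K F] [IsAlgClosed k] [H3RR.IsFF k Fb]

theorem ord_nonneg_of_le {P : Place K F} {f : F} (hf : f ≠ 0) (h : P.adicValuation f ≤ 1) :
    0 ≤ P.ord f := ((P.adicValuation_le_one_iff).mp h).resolve_left hf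

/-- A function regular on a smooth class with unit reduction is a unit on the class. -/
theorem unit_smooth {x : Bool × Place k Fb} (hx : ∀ n, x ∉ D.M.br n) {b : F}
    (hb : vv x.1 b = 1) (hreg : ∀ P, D.M.sp P = Sum.inl x → P.adicValuation b ≤ 1)
    (hord : x.2.ord (ρρ x.1 b) = 0) : ∀ P, D.M.sp P = Sum.inl x → P.ord b = 0 := by
  have hb0 : b ≠ 0 := by rintro rfl; simp at hb
  have h1 := D.M.smooth_deg x hx b hb0 hb (H3RR.divOf b) (H3RR.divOf_apply hb0)
  rw [hord] at h1
  intro P hP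
  have h2 := H97.eq_zero_of_cls_eq_zero D.M.sp (D := H3RR.divOf b) (a := Sum.inl x)
    (fun P hP => by
      rw [H3RR.divOf_apply hb0]
      exact ((P.adicValuation_le_one_iff).mp (hreg P hP)).resolve_left hb0) h1 hP
  rwa [H3RR.divOf_apply hb0] at h2

theorem sum_br (n : ν) (f : Bool × Place k Fb → ℤ) :
    ∑ x ∈ D.M.br n, f x = f (false, D.pt false n) + f (true, D.pt true n) := by
  classical
  have h : D.M.br n = {(false, D.pt false n), (true, D.pt true n)} := by
    ext x
    rw [D.mem_br, Finset.mem_insert, Finset.mem_singleton]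
  rw [h, Finset.sum_pair]
  simp

/-- A function regular at a node with unit reductions is a unit on the node class. -/
theorem unit_node {n : ν} {b : F} (hb : ∀ i, vv i b = 1)
    (hreg : ∀ P, D.M.sp P = Sum.inr n → P.adicValuation b ≤ 1)
    (hord : ∀ i, (D.pt i n).ord (ρρ i b) = 0) : ∀ P, D.M.sp P = Sum.inr n → P.ord b = 0 := by
  have hb0 : b ≠ 0 := by
    rintro rfl
    have := hb false
    simp at this
  have h1 := D.M.node_deg n b hb0 hb (H3RR.divOf b) (H3RR.divOf_apply hb0)
  rw [D.sum_br n (fun x => x.2.ord (ρρ x.1 b)), hord, hord, add_zero] at h1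
  intro P hP
  have h2 := H97.eq_zero_of_cls_eq_zero D.M.sp (D := H3RR.divOf b) (a := Sum.inr n)
    (fun P hP => by
      rw [H3RR.divOf_apply hb0]
      exact ((P.adicValuation_le_one_iff).mp (hreg P hP)).resolve_left hb0) h1 hP
  rwa [H3RR.divOf_apply hb0] at h2

theorem node_val' {n : ν} {f : F} (hf : ∀ i, vv i f ≤ 1)
    (hreg : ∀ P, D.M.sp P = Sum.inr n → P.adicValuation f ≤ 1) :
    ∃ c : k, ∀ i, (D.pt i n).adicValuation (ρρ i f - algebraMap k Fb c) < 1 := by
  obtain ⟨c, hc⟩ := D.M.node_val n f hf hreg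
  refine ⟨c, fun i => ?_⟩
  have := hc (i, D.pt i n) ((D.mem_br n _).mpr (by cases i <;> simp))
  exact this

/-- Units on a node class have the same size on both components. -/
theorem AN {n : ν} {h : F} (h0 : h ≠ 0) (hord : ∀ P, D.M.sp P = Sum.inr n → P.ord h = 0)
    (hf : vv false h = 1) (hz : (D.pt false n).ord (ρρ false h) = 0) :
    vv true h = 1 ∧ ∃ c : k, c ≠ 0 ∧
      ∀ i, (D.pt i n).adicValuation (ρρ i h - algebraMap k Fb c) < 1 := by
  have hρf : ρρ false h ≠ 0 := (D.comp false).ρ_ne_zero hf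
  -- key: the case `v true ≤ 1`
  have key : ∀ g : F, g ≠ 0 → (∀ P, D.M.sp P = Sum.inr n → P.ord g = 0) → vv false g = 1 →
      (D.pt false n).ord (ρρ false g) = 0 → vv true g ≤ 1 →
      vv true g = 1 ∧ ∃ c : k, c ≠ 0 ∧
        ∀ i, (D.pt i n).adicValuation (ρρ i g - algebraMap k Fb c) < 1 := by
    intro g hg0 hgord hgf hgz hgt
    obtain ⟨c, hc⟩ := D.node_val' (n := n) (f := g)
      (fun i => by cases i; exacts [hgf.le, hgt])
      (fun P hP => adic_le_one_of_ord (hgord P hP).ge)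
    have hρ0 : ρρ false g ≠ 0 := (D.comp false).ρ_ne_zero hgf
    have hc0 : c ≠ 0 := by
      rintro rfl
      have h1 := hc false
      rw [map_zero, sub_zero, adic_eq_one_of_ord hρ0 hgz] at h1
      exact lt_irrefl _ h1
    refine ⟨(D.comp true).v_eq_one hgt (ord_eq_zero_of_sub_lt hc0 (hc true)).1, c, hc0, hc⟩
  rcases le_or_gt (vv true h) 1 with hle | hgt
  · exact key h h0 hord hf hz hle
  · exfalso
    have h1 := key h⁻¹ (inv_ne_zero h0) (fun P hP => by rw [P.ord_inv, hord P hP, neg_zero])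
      (by rw [map_inv₀, hf, inv_one])
      (by rw [(D.comp false).ρ_inv hf, (D.pt false n).ord_inv, hz, neg_zero])
      (by rw [map_inv₀]; exact inv_le_one_of_one_le₀ hgt.le)
    have h2 := h1.1
    rw [map_inv₀, inv_eq_one] at h2
    exact absurd h2 hgt.ne'

end RR

end Data

end Fermat.Agent.H31.MP
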