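import Fermat.Agent.H31MPBase

/-!
# Mazur's principle at `p`: local generators congruent to `1`
-/

set_option autoImplicit false
set_option linter.unusedSectionVars false
set_option linter.style.haveILetI false

open AlgebraicCurve WithZero Fermat.Agent

namespace Fermat.Agent.H31.MP

section Generic

/-- `(1+y)^p = 1 + y^p + p y r`. -/
theorem one_add_pow_prime {F Γ : Type*} [Field F] [LinearOrderedCommGroupWithZero Γ]
    (v : Valuation F Γ) {p : ℕ} (hp : p.Prime) {y : F} (hy : v y ≤ 1) :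
    ∃ r : F, v r ≤ 1 ∧ (1 + y) ^ p = 1 + y ^ p + p * y * r := by
  refine ⟨∑ m ∈ Finset.Ioo 0 p, y ^ (m - 1) * ((p.choose m / p : ℕ) : F), ?_, ?_⟩
  · refine Valuation.map_sum_le _ fun m _ => ?_
    rw [map_mul, map_pow]
    exact mul_le_one' (pow_le_one' hy _) (H97.v_natCast_le _)
  · rw [add_comm 1 y, add_pow_prime_eq hp y 1, one_pow, add_comm (y ^ p) 1, mul_assoc,
      add_right_inj]
    simp only [one_pow, mul_one, one_mul, mul_assoc]

theorem one_add_pow {F Γ : Type*} [Field F] [LinearOrderedCommGroupWithZero Γ]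
    (v : Valuation F Γ) {y : F} (hy : v y ≤ 1) (n : ℕ) :
    ∃ r : F, v r ≤ 1 ∧ (1 + y) ^ n = 1 + n * y + y ^ 2 * r := by
  obtain ⟨r, hr, h⟩ := H97.exists_one_sub_pow (v := v) (y := -y) (by rwa [Valuation.map_neg]) n
  exact ⟨r, hr, by rw [← sub_neg_eq_add, h]; ring⟩

theorem adic_sub_lt_of_pow {k Fb : Type*} [Field k] [Field Fb] [Algebra k Fb] {p : ℕ}
    [Fact p.Prime] [CharP Fb p] {s : Place k Fb} {a : Fb} {c : k}
    (h : s.adicValuation (a ^ p - algebraMap k Fb (c ^ p)) < 1) :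
    s.adicValuation (a - algebraMap k Fb c) < 1 := by
  rw [map_pow, ← sub_pow_char, map_pow] at h
  by_contra hcon
  rw [not_lt] at hcon
  exact absurd h (not_lt.mpr (one_le_pow₀ hcon))

end Generic

namespace Data

variable {K F k Fb Γ ν G : Type*} [Field K] [Field F] [Algebra K F] [Field k] [Field Fb]
    [Algebra k Fb] [LinearOrderedCommGroupWithZero Γ] [Group G] [MulSemiringAction G K]
    [MulSemiringAction G F] {p : ℕ} (D : Data K F k Fb Γ ν G p)

local notation "vv" => D.M.v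
local notation "ρρ" => D.M.ρ
local notation "vK" => D.M.vK

/-- The fixed field of `H` is discretely valued with uniformiser `ϖ`. -/
structure Disc (H : Subgroup G) (ϖ : K) : Prop where
  ne : ϖ ≠ 0
  fix : Fix H ϖ
  lt : vK ϖ < 1
  gen : ∀ c : K, c ≠ 0 → Fix H c → ∃ n : ℤ, vK c = vK ϖ ^ n

variable {D} in
theorem Disc.pos {H : Subgroup G} {ϖ : K} (h : D.Disc H ϖ) : 0 < vK ϖ :=
  zero_lt_iff.mpr ((Valuation.ne_zero_iff _).mpr h.ne)

variable {D} in
theorem Disc.le_pow_succ {H : Subgroup G} {ϖ : K} (h : D.Disc H ϖ) {i : Bool} {f : F}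
    (hf : Fix H f) {m : ℕ} (hlt : vv i f < vK ϖ ^ m) : vv i f ≤ vK ϖ ^ (m + 1) := by
  rcases eq_or_ne f 0 with rfl | hf0
  · simp
  obtain ⟨c, hc0, hc, hvc⟩ := D.scale H i f hf hf0
  obtain ⟨n, hn⟩ := h.gen c hc0 hc
  rw [hvc, hn] at hlt ⊢
  rw [← zpow_natCast] at hlt ⊢
  have hq := h.pos
  have h1 := h.lt
  rw [zpow_lt_zpow_iff_right_of_lt_one₀ hq h1] at hlt
  rw [zpow_le_zpow_iff_right_of_lt_one₀ hq h1]
  push_cast
  omega

variable {D} in
theorem Disc.le_of_lt_one {H : Subgroup G} {ϖ : K} (h : D.Disc H ϖ) {i : Bool} {f : F}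
    (hf : Fix H f) (hlt : vv i f < 1) : vv i f ≤ vK ϖ := by
  have := h.le_pow_succ (m := 0) hf (by rwa [pow_zero])
  rwa [zero_add, pow_one] at this

theorem ρ_zpow {i : Bool} {x : F} (hx : vv i x = 1) (n : ℤ) : ρρ i (x ^ n) = (ρρ i x) ^ n := by
  cases n with
  | ofNat n => rw [Int.ofNat_eq_natCast, zpow_natCast, zpow_natCast, (D.comp i).ρ_pow hx.le]
  | negSucc n =>
    rw [zpow_negSucc, zpow_negSucc, (D.comp i).ρ_inv (by rw [map_pow, hx, one_pow]),
      (D.comp i).ρ_pow hx.le]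

theorem one_of_sub {i : Bool} {f : F} (h : vv i (f - 1) < 1) : vv i f = 1 ∧ ρρ i f = 1 := by
  have h1 : f = 1 + (f - 1) := by ring
  have hv : vv i f = 1 := by
    rw [h1, Valuation.map_add_eq_of_lt_left _ (by rwa [map_one]), map_one]
  refine ⟨hv, ?_⟩
  rw [h1, (D.comp i).ρ_add _ _ (by simp) h.le, (D.comp i).ρ_one,
    ((D.comp i).ρ_eq_zero _ h.le).mpr h, add_zero]

theorem sub_lt_of_ρ {i : Bool} {f g : F} (hf : vv i f ≤ 1) (hg : vv i g ≤ 1)
    (h : ρρ i f = ρρ i g) : vv i (f - g) < 1 := by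
  rw [← (D.comp i).ρ_eq_zero _ ((Valuation.map_sub _ _ _).trans (max_le hf hg)),
    (D.comp i).ρ_sub hf hg, h, sub_self]

/-- Expansion of `u / g^p`. -/
theorem pow_step [Fact p.Prime] {H : Subgroup G} {ϖ : K} (hd : D.Disc H ϖ) {d : ℕ}
    (he : vK (p : K) = vK ϖ ^ ((p - 1) * d)) {i : Bool} {u g : F} {n m : ℕ}
    (hm1 : 1 ≤ m) (hmn : p * m < n) (hn : n ≤ p * d) (hu : vv i (u - 1) ≤ vK ϖ ^ n)
    (hg : vv i (g - 1) ≤ vK ϖ ^ m) :
    vv i ((u / g ^ p - 1) / algebraMap K F (ϖ ^ (p * m))) ≤ 1 ∧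
    ρρ i ((u / g ^ p - 1) / algebraMap K F (ϖ ^ (p * m))) =
      - (ρρ i ((g - 1) / algebraMap K F (ϖ ^ m))) ^ p := by
  have hp : p.Prime := Fact.out
  have C := D.comp i
  have hq := hd.pos
  have hq1 := hd.lt
  have hq1' := hq1.le
  set q := vK ϖ with hqdef
  have hϖF : ∀ j : ℕ, algebraMap K F (ϖ ^ j) ≠ 0 := fun j =>
    (_root_.map_ne_zero _).mpr (pow_ne_zero _ hd.ne)
  have hvϖ : ∀ j : ℕ, vv i (algebraMap K F (ϖ ^ j)) = q ^ j := fun j => by
    rw [C.v_alg, map_pow]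
  set y := g - 1 with hy
  have hg' : g = 1 + y := by rw [hy]; ring
  have hy1 : vv i y < 1 := hg.trans_lt (pow_lt_one₀ hq.le hq1 (by omega))
  obtain ⟨hvg, hρg⟩ := D.one_of_sub (i := i) (f := g) hy1
  obtain ⟨r, hr, hexp⟩ := one_add_pow_prime (vv i) hp hy1.le
  have hg0 : g ≠ 0 := by rintro rfl; simp at hvg
  have hvgp : vv i (g ^ p) = 1 := by rw [map_pow, hvg, one_pow]
  have hρgp : ρρ i (g ^ p) = 1 := by rw [C.ρ_pow hvg.le, hρg, one_pow]
  have e1 : (u / g ^ p - 1) / algebraMap K F (ϖ ^ (p * m)) =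
      ((u - 1) / algebraMap K F (ϖ ^ (p * m)) - (y / algebraMap K F (ϖ ^ m)) ^ p
        - p * y * r / algebraMap K F (ϖ ^ (p * m))) / g ^ p := by
    have h1 : (y / algebraMap K F (ϖ ^ m)) ^ p = y ^ p / algebraMap K F (ϖ ^ (p * m)) := by
      rw [div_pow, ← map_pow, ← pow_mul, mul_comm m p]
    rw [h1, ← sub_div, ← sub_div, div_sub_one (pow_ne_zero _ hg0), div_div, div_div,
      mul_comm (g ^ p)]
    congr 1
    rw [hg', hexp]
    ring
  have hA : vv i ((u - 1) / algebraMap K F (ϖ ^ (p * m))) < 1 := by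
    rw [map_div₀, hvϖ, div_lt_one₀ (pow_pos hq _)]
    exact hu.trans_lt (pow_lt_pow_right_of_lt_one₀ hq hq1 hmn)
  have hY : vv i (y / algebraMap K F (ϖ ^ m)) ≤ 1 := by
    rw [map_div₀, hvϖ, div_le_one₀ (pow_pos hq _)]
    exact hg
  have hB : vv i ((y / algebraMap K F (ϖ ^ m)) ^ p) ≤ 1 := by
    rw [map_pow]; exact pow_le_one' hY _
  have hC : vv i (p * y * r / algebraMap K F (ϖ ^ (p * m))) < 1 := by
    rw [map_div₀, hvϖ, div_lt_one₀ (pow_pos hq _), map_mul, map_mul]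
    have h1 : vv i (p : F) = q ^ ((p - 1) * d) := by
      rw [← he, ← C.v_alg, map_natCast (algebraMap K F) p]
    rw [h1]
    calc q ^ ((p - 1) * d) * vv i y * vv i r ≤ q ^ ((p - 1) * d) * q ^ m * 1 := by gcongr
      _ = q ^ ((p - 1) * d + m) := by rw [mul_one, pow_add]
      _ < q ^ (p * m) := by
          apply pow_lt_pow_right_of_lt_one₀ hq hq1
          have h2 : m < d := by
            have : p * m < p * d := lt_of_lt_of_le hmn hn
            exact lt_of_mul_lt_mul_left this (Nat.zero_le _)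
          obtain ⟨p', rfl⟩ : ∃ p', p = p' + 1 := ⟨p - 1, by have := hp.pos; omega⟩
          have hp' : 0 < p' := by have := hp.two_le; omega
          rw [Nat.add_sub_cancel]
          nlinarith [Nat.mul_lt_mul_of_pos_left h2 hp']
  have hAB : vv i ((u - 1) / algebraMap K F (ϖ ^ (p * m)) - (y / algebraMap K F (ϖ ^ m)) ^ p) ≤ 1 :=
    (Valuation.map_sub _ _ _).trans (max_le hA.le hB)
  have hABC : vv i ((u - 1) / algebraMap K F (ϖ ^ (p * m)) - (y / algebraMap K F (ϖ ^ m)) ^ p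
        - p * y * r / algebraMap K F (ϖ ^ (p * m))) ≤ 1 :=
    (Valuation.map_sub _ _ _).trans (max_le hAB hC.le)
  rw [e1]
  refine ⟨by rw [map_div₀, hvgp, div_one]; exact hABC, ?_⟩
  rw [C.ρ_div hABC hvgp, hρgp, div_one, C.ρ_sub hAB hC.le, C.ρ_sub hA.le hB,
    (C.ρ_eq_zero _ hA.le).mpr hA, (C.ρ_eq_zero _ hC.le).mpr hC, C.ρ_pow hY]
  ring

/-- Improving a generator. -/
theorem improve {H : Subgroup G} {ϖ : K} (hd : D.Disc H ϖ) {i : Bool} {g b : F} {m : ℕ}
    (hgf : Fix H g) (hbf : Fix H b) (hm1 : 1 ≤ m)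
    (hg : vv i (g - 1) ≤ vK ϖ ^ m) (hb : vv i b ≤ 1)
    (hρ : ρρ i b = ρρ i ((g - 1) / algebraMap K F (ϖ ^ m))) :
    vv i (1 + algebraMap K F (ϖ ^ m) * b) = 1 ∧ ρρ i (1 + algebraMap K F (ϖ ^ m) * b) = 1 ∧
    vv i (g / (1 + algebraMap K F (ϖ ^ m) * b) - 1) ≤ vK ϖ ^ (m + 1) := by
  have C := D.comp i
  have hq := hd.pos
  have hq1 := hd.lt
  have hvϖ : vv i (algebraMap K F (ϖ ^ m)) = vK ϖ ^ m := by rw [C.v_alg, map_pow]
  have hϖF : algebraMap K F (ϖ ^ m) ≠ 0 := (_root_.map_ne_zero _).mpr (pow_ne_zero _ hd.ne)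
  have h1 : vv i (algebraMap K F (ϖ ^ m) * b) < 1 := by
    rw [map_mul, hvϖ]
    exact mul_lt_one_of_lt_of_le (pow_lt_one₀ hq.le hq1 (by omega)) hb
  obtain ⟨h2, h3⟩ := D.one_of_sub (i := i) (f := 1 + algebraMap K F (ϖ ^ m) * b)
    (by rwa [add_sub_cancel_left])
  refine ⟨h2, h3, ?_⟩
  have h20 : (1 + algebraMap K F (ϖ ^ m) * b) ≠ 0 := by
    intro h; rw [h] at h2; simp at h2
  apply hd.le_pow_succ
  · refine (hgf.div (Fix.one.add ((D.fix_alg (hd.fix.pow m)).mul hbf))).sub Fix.one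
  · have e1 : g / (1 + algebraMap K F (ϖ ^ m) * b) - 1 =
        algebraMap K F (ϖ ^ m) * ((g - 1) / algebraMap K F (ϖ ^ m) - b) /
          (1 + algebraMap K F (ϖ ^ m) * b) := by
      rw [mul_sub, mul_div_cancel₀ _ hϖF, div_sub_one h20]
      congr 1
      ring
    have h4 : vv i ((g - 1) / algebraMap K F (ϖ ^ m)) ≤ 1 := by
      rw [map_div₀, hvϖ, div_le_one₀ (pow_pos hq _)]
      exact hg
    rw [e1, map_div₀, h2, div_one, map_mul, hvϖ]
    exact mul_lt_of_lt_one_right (pow_pos hq _) (D.sub_lt_of_ρ h4 hb hρ.symm)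

variable [IsAlgClosed K] [H3RR.IsFF K F] [IsAlgClosed k] [H3RR.IsFF k Fb]
variable [Fact p.Prime] [CharP k p] [CharP Fb p]

/-- Local generators at smooth classes, congruent to `1`. -/
theorem gen_smooth (L : D.Lifts) {H : Subgroup G} {ϖ : K} (hd : D.Disc H ϖ) {d : ℕ}
    (he : vK (p : K) = vK ϖ ^ ((p - 1) * d)) {x : Bool × Place k Fb} (hx : ∀ n, x ∉ D.M.br n)
    {u : F} (hu : Fix H u) (hu0 : u ≠ 0) (hdiv : ∀ P : Place K F, (p : ℤ) ∣ P.ord u)
    {n : ℕ} (hn1 : 1 ≤ n) (hn : n ≤ p * d) (hun : vv x.1 (u - 1) ≤ vK ϖ ^ n) (m : ℕ)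
    (hm : p * m < n) :
    ∃ g : F, g ≠ 0 ∧ Fix H g ∧ (∀ P, D.M.sp P = Sum.inl x → P.ord u = p * P.ord g) ∧
      vv x.1 (g - 1) ≤ vK ϖ ^ (m + 1) := by
  have hp : p.Prime := Fact.out
  have C := D.comp x.1
  have hq := hd.pos
  have hq1 := hd.lt
  have hu1 : vv x.1 (u - 1) < 1 := hun.trans_lt (pow_lt_one₀ hq.le hq1 (by omega))
  obtain ⟨hvu, hρu⟩ := D.one_of_sub hu1
  induction m with
  | zero =>
    obtain ⟨g0, hg00, hg0f, hg0⟩ := D.gen p hp.ne_zero H u hu0 hu hdiv (Sum.inl x)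
    obtain ⟨c, hc0, hcf, hvc⟩ := D.scale H x.1 g0 hg0f hg00
    have hcF : algebraMap K F c ≠ 0 := (_root_.map_ne_zero _).mpr hc0
    set g := g0 / algebraMap K F c with hgdef
    have hg_ne : g ≠ 0 := div_ne_zero hg00 hcF
    have hgf : Fix H g := hg0f.div (D.fix_alg hcf)
    have hvg : vv x.1 g = 1 := by
      rw [hgdef, map_div₀, C.v_alg, hvc, div_self]
      exact (Valuation.ne_zero_iff _).mpr hc0
    have hgord : ∀ P, D.M.sp P = Sum.inl x → P.ord u = p * P.ord g := by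
      intro P hP
      rw [hg0 P hP, hgdef, div_eq_mul_inv, P.ord_mul hg00 (inv_ne_zero hcF), P.ord_inv,
        ord_eq_zero_of_adic (H3RR.adicValuation_algebraMap P hc0), neg_zero, add_zero]
    have hρg : ρρ x.1 g ≠ 0 := C.ρ_ne_zero hvg
    have hord : x.2.ord (ρρ x.1 g) = 0 := by
      have h1 := D.M.smooth_deg x hx g hg_ne hvg (H3RR.divOf g) (H3RR.divOf_apply hg_ne)
      have h2 := D.M.smooth_deg x hx u hu0 hvu (H3RR.divOf u) (H3RR.divOf_apply hu0)
      rw [hρu, x.2.ord_one] at h2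
      have h3 : H97.cls D.M.sp (H3RR.divOf u) (Sum.inl x) =
          p * H97.cls D.M.sp (H3RR.divOf g) (Sum.inl x) := by
        rw [← H97.cls_smul]
        refine H97.cls_congr D.M.sp fun P hP => ?_
        rw [Finsupp.smul_apply, H3RR.divOf_apply hu0, H3RR.divOf_apply hg_ne, hgord P hP,
          smul_eq_mul]
      rw [h2, h1] at h3
      rcases mul_eq_zero.mp h3.symm with h4 | h4
      · exact absurd (by exact_mod_cast h4) hp.ne_zero
      · exact h4
    obtain ⟨b, hbf, hb1, hbreg, hbρ⟩ := L.lift_smooth x hx (ρρ x.1 g)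
      (adic_le_one_of_ord hord.ge)
    have hvb : vv x.1 b = 1 := C.v_eq_one hb1 (by rw [hbρ]; exact hρg)
    have hb0 : b ≠ 0 := by rintro rfl; simp at hvb
    have hbord := D.unit_smooth hx hvb hbreg (by rw [hbρ]; exact hord)
    refine ⟨g / b, div_ne_zero hg_ne hb0, hgf.div hbf.of_top, fun P hP => ?_, ?_⟩
    · rw [hgord P hP, div_eq_mul_inv, P.ord_mul hg_ne (inv_ne_zero hb0), P.ord_inv, hbord P hP,
        neg_zero, add_zero]
    · rw [zero_add, pow_one]
      apply hd.le_of_lt_one ((hgf.div hbf.of_top).sub Fix.one)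
      rw [div_sub_one hb0, map_div₀, hvb, div_one]
      exact D.sub_lt_of_ρ hvg.le hb1 hbρ.symm
  | succ m ih =>
    obtain ⟨g, hg0, hgf, hgord, hvg⟩ := ih (by
      have : p * m ≤ p * (m + 1) := Nat.mul_le_mul_left _ (Nat.le_succ _)
      omega)
    obtain ⟨h1, h2⟩ := D.pow_step hd he (i := x.1) (m := m + 1) (by omega) hm hn hun hvg
    have hϖF : ∀ j : ℕ, algebraMap K F (ϖ ^ j) ≠ 0 := fun j =>
      (_root_.map_ne_zero _).mpr (pow_ne_zero _ hd.ne)
    have hh0 : u / g ^ p ≠ 0 := div_ne_zero hu0 (pow_ne_zero _ hg0)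
    have hhord : ∀ P, D.M.sp P = Sum.inl x → P.adicValuation (u / g ^ p) ≤ 1 := by
      intro P hP
      apply adic_le_one_of_ord
      have h3 : P.ord (g ^ p) = p * P.ord g := by
        have := P.ord_zpow g p
        rwa [zpow_natCast] at this
      rw [div_eq_mul_inv, P.ord_mul hu0 (inv_ne_zero (pow_ne_zero _ hg0)), P.ord_inv, h3,
        hgord P hP]
      omega
    have hreg := D.M.reg hx h1 (fun P hP => by
      rw [map_div₀, H3RR.adicValuation_algebraMap _ (pow_ne_zero _ hd.ne), div_one]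
      exact (Valuation.map_sub _ _ _).trans (max_le (hhord P hP) (by simp)))
    rw [h2, Valuation.map_neg, map_pow] at hreg
    have hreg' : x.2.adicValuation (ρρ x.1 ((g - 1) / algebraMap K F (ϖ ^ (m + 1)))) ≤ 1 := by
      by_contra hcon
      rw [not_le] at hcon
      exact absurd hreg (not_le.mpr (one_lt_pow₀ hcon hp.ne_zero))
    obtain ⟨b, hbf, hb1, hbreg, hbρ⟩ := L.lift_smooth x hx _ hreg'
    obtain ⟨h4, h5, h6⟩ := D.improve hd hgf hbf.of_top (m := m + 1) (by omega) hvg hb1 hbρ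
    set w := 1 + algebraMap K F (ϖ ^ (m + 1)) * b with hw
    have hw0 : w ≠ 0 := by intro h; rw [h] at h4; simp at h4
    have hword := D.unit_smooth hx h4 (fun P hP => by
      refine (Valuation.map_add _ _ _).trans (max_le (by simp) ?_)
      rw [map_mul]
      exact mul_le_one' (P.adicValuation_algebraMap_le_one _) (hbreg P hP))
      (by rw [h5, x.2.ord_one])
    refine ⟨g / w, div_ne_zero hg0 hw0, hgf.div (Fix.one.add ((D.fix_alg (hd.fix.pow _)).mul
      hbf.of_top)), fun P hP => ?_, h6⟩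
    rw [hgord P hP, div_eq_mul_inv, P.ord_mul hg0 (inv_ne_zero hw0), P.ord_inv, hword P hP,
        neg_zero, add_zero]

end Data

end Fermat.Agent.H31.MP
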