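import Fermat.Agent.H31MPNode

/-!
# Mazur's principle at `p`: the orders at the nodes are all equal modulo `p`
-/

set_option autoImplicit false
set_option linter.unusedSectionVars false
set_option linter.style.haveILetI false

open AlgebraicCurve WithZero Fermat.Agent

namespace Fermat.Agent.H31.MP

namespace Data

variable {K F k Fb Γ ν G : Type*} [Field K] [Field F] [Algebra K F] [Field k] [Field Fb]
    [Algebra k Fb] [LinearOrderedCommGroupWithZero Γ] [Group G] [MulSemiringAction G K]
    [MulSemiringAction G F] {p : ℕ} (D : Data K F k Fb Γ ν G p)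

local notation "vv" => D.M.v
local notation "ρρ" => D.M.ρ
local notation "vK" => D.M.vK

variable [IsAlgClosed K] [H3RR.IsFF K F] [IsAlgClosed k] [H3RR.IsFF k Fb]
variable [Fact p.Prime] [CharP k p] [CharP Fb p]

/-- Local generators congruent to `1` for a function congruent to `1`. -/
def HasGenOne (H : Subgroup G) (w : F) : Prop :=
  (∀ x : Bool × Place k Fb, (∀ n, x ∉ D.M.br n) → ∃ g : F, g ≠ 0 ∧ Fix H g ∧
    (∀ P, D.M.sp P = Sum.inl x → P.ord w = p * P.ord g) ∧ vv x.1 (g - 1) < 1) ∧
  (∀ s, ∃ g : F, g ≠ 0 ∧ Fix H g ∧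
    (∀ P, D.M.sp P = Sum.inr s → P.ord w = p * P.ord g) ∧ ∀ i, vv i (g - 1) < 1)

theorem gen_node_full {H : Subgroup G} {u : F} (hu : Fix H u) (hu0 : u ≠ 0)
    (hdiv : ∀ P : Place K F, (p : ℤ) ∣ P.ord u) (hvu : vv false u = 1) (n : ν) :
    ∃ (g : F) (A : K), g ≠ 0 ∧ A ≠ 0 ∧ Fix H g ∧ Fix H A ∧
      (∀ P, D.M.sp P = Sum.inr n → P.ord u = p * P.ord g) ∧ vv false g = 1 ∧
      vv true g = vK A ∧
      vv true u = vK (p : K) ^ ((D.pt false n).ord (ρρ false u)) * vK A ^ p :=
  D.slope_node (Fact.out : p.Prime).ne_zero hu hu0 hdiv hvu n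

/-- The tame case. -/
theorem node_const_tame (hd : D.Disc (⊤ : Subgroup G) (p : K)) {u : F}
    (hu : Fix (⊤ : Subgroup G) u) (hu0 : u ≠ 0)
    (hdiv : ∀ P : Place K F, (p : ℤ) ∣ P.ord u) (hvu : vv false u = 1) (s s' : ν) :
    (p : ℤ) ∣ (D.pt false s).ord (ρρ false u) - (D.pt false s').ord (ρρ false u) := by
  have key : ∀ t : ν, ∃ m : ℤ, vv true u =
      vK (p : K) ^ ((D.pt false t).ord (ρρ false u) + p * m) := by
    intro t
    obtain ⟨g, A, -, hA0, -, hAf, -, -, -, h⟩ := D.gen_node_full hu hu0 hdiv hvu t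
    obtain ⟨m, hm⟩ := hd.gen A hA0 hAf
    refine ⟨m, ?_⟩
    have hp0 : vK (p : K) ≠ 0 := (Valuation.ne_zero_iff _).mpr hd.ne
    rw [h, hm, zpow_add₀ hp0, ← zpow_natCast, ← zpow_mul, mul_comm m]
  obtain ⟨m, hm⟩ := key s
  obtain ⟨m', hm'⟩ := key s'
  rw [hm] at hm'
  have hinj := zpow_right_injective₀ hd.pos (ne_of_lt hd.lt) hm'
  refine ⟨m' - m, ?_⟩
  linear_combination hinj

/-- Integers of absolute value `< 1` are divisible by `p`. -/
theorem dvd_of_vK_lt {m : ℤ} (h : vK (m : K) < 1) : (p : ℤ) ∣ m := by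
  have C := D.comp false
  have h1 : vv false ((m : ℤ) : F) < 1 := by
    rw [← map_intCast (algebraMap K F), C.v_alg]
    exact h
  have h2 := (C.ρ_eq_zero _ h1.le).mpr h1
  have h3 : ρρ false ((m : ℤ) : F) = ((m : ℤ) : Fb) := by
    cases m with
    | ofNat m =>
      rw [Int.ofNat_eq_natCast, Int.cast_natCast, C.ρ_natCast, Int.cast_natCast]
    | negSucc m =>
      rw [Int.cast_negSucc, Int.cast_negSucc, C.ρ_neg (H97.v_natCast_le _), C.ρ_natCast]
  rw [h3] at h2
  exact (CharP.intCast_eq_zero_iff Fb p m).mp h2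

/-- The wild case. -/
theorem node_const_wild {Hx Hy : Subgroup G} {τ : G} {u w f : F} {ε : K}
    (hu : Fix Hx u) (hu0 : u ≠ 0) (hudiv : ∀ P : Place K F, (p : ℤ) ∣ P.ord u)
    (hvu : vv false u = 1) (hw0 : w ≠ 0) (hw : Fix Hy w) (hw1 : ∀ i, vv i (w - 1) < 1)
    (hgw : D.HasGenOne Hy w) (hf0 : f ≠ 0) (hτu : τ • u = u * w * f ^ p)
    (hε0 : ε ≠ 0) (hε1 : vK ε < 1)
    (hτ : ∀ i (g : F), Fix Hx g → vv i g ≤ 1 → vv i (τ • g - g) ≤ vK ε ^ 2)
    (hval : ∀ a : K, a ≠ 0 → Fix Hx a →
      ∃ n : ℤ, vK a ^ p = vK (p : K) ^ n ∧ vK ((τ • a) / a - 1 - n * ε) ≤ vK ε ^ 2)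
    (hy : ∀ i (g : F), Fix Hy g → vv i g < 1 → vv i g ≤ vK ε ^ 2)
    (hp1 : vK (p : K) < 1) (hp0 : (p : K) ≠ 0) (s s' : ν) :
    (p : ℤ) ∣ (D.pt false s).ord (ρρ false u) - (D.pt false s').ord (ρρ false u) := by
  have hp : p.Prime := Fact.out
  set E := vK ε ^ 2 with hE
  have hvε : 0 < vK ε := zero_lt_iff.mpr ((Valuation.ne_zero_iff _).mpr hε0)
  have hE0 : 0 < E := pow_pos hvε _
  have hE1 : E < 1 := pow_lt_one₀ hvε.le hε1 (by norm_num)
  have hEε : E < vK ε := by
    rw [hE, pow_two]
    exact mul_lt_of_lt_one_right hvε hε1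
  -- basic facts on `w`
  have hvw : ∀ i, vv i w = 1 := fun i => (D.one_of_sub (hw1 i)).1
  have hρw : ∀ i, ρρ i w = 1 := fun i => (D.one_of_sub (hw1 i)).2
  -- `τ a / a` is close to `1`
  have hτa : ∀ a : K, a ≠ 0 → Fix Hx a → vK (a / τ • a - 1) < 1 := by
    intro a ha0 ha
    obtain ⟨n, -, hn⟩ := hval a ha0 ha
    have h1 : vK ((τ • a) / a - 1) < 1 := by
      have e1 : (τ • a) / a - 1 = ((τ • a) / a - 1 - n * ε) + n * ε := by ring
      rw [e1]
      refine (Valuation.map_add _ _ _).trans_lt (max_lt (hn.trans_lt hE1) ?_)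
      rw [map_mul]
      refine (mul_le_of_le_one_left' ?_).trans_lt hε1
      rw [← (D.comp false).v_alg, map_intCast]
      cases n with
      | ofNat m => rw [Int.ofNat_eq_natCast, Int.cast_natCast]; exact H97.v_natCast_le m
      | negSucc m => rw [Int.cast_negSucc, Valuation.map_neg]; exact H97.v_natCast_le _
    have hτa0 : τ • a ≠ 0 := by rwa [smul_ne_zero_iff_ne]
    have e2 : a / τ • a - 1 = -((τ • a) / a - 1) * (a / τ • a) := by
      field_simp
      ring
    rw [e2, map_mul, Valuation.map_neg, map_div₀, D.vK_smul, div_self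
      ((Valuation.ne_zero_iff _).mpr ha0), mul_one]
    exact h1
  -- `v i f = 1`
  have hvf : ∀ i, vv i f = 1 := by
    intro i
    have h1 := D.v_smul i τ u
    rw [hτu, map_mul, map_mul, hvw, mul_one, map_pow] at h1
    have h2 : vv i u ≠ 0 := (Valuation.ne_zero_iff _).mpr hu0
    have h3 : vv i f ^ p = 1 := mul_left_cancel₀ h2 (by rw [h1, mul_one])
    exact (pow_eq_one_iff_of_nonneg zero_le' hp.ne_zero).mp h3
  -- `ρ i f = 1`
  have hρf : ∀ i, ρρ i f = 1 := by
    intro i
    have C := D.comp i
    obtain ⟨A, hA0, hAf, hvA⟩ := D.scale Hx i u hu hu0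
    have hAF : algebraMap K F A ≠ 0 := (_root_.map_ne_zero _).mpr hA0
    have hτA0 : τ • A ≠ 0 := by rwa [smul_ne_zero_iff_ne]
    have hτAF : algebraMap K F (τ • A) ≠ 0 := (_root_.map_ne_zero _).mpr hτA0
    have hv1 : vv i (u / algebraMap K F A) = 1 := by
      rw [map_div₀, C.v_alg, hvA, div_self ((Valuation.ne_zero_iff _).mpr hA0)]
    have hs := D.ρ_smul i τ _ hv1.le
    have e1 : τ • (u / algebraMap K F A) =
        (u / algebraMap K F A) * w * f ^ p * algebraMap K F (A / τ • A) := by
      rw [div_eq_mul_inv, smul_mul', smul_inv'', D.smul_alg, hτu, map_div₀]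
      field_simp
    have hb : ρρ i (algebraMap K F (A / τ • A)) = 1 := by
      have := D.one_of_sub (i := i) (f := algebraMap K F (A / τ • A)) (by
        rw [← map_one (algebraMap K F), ← map_sub, C.v_alg]
        exact hτa A hA0 hAf)
      exact this.2
    have hb' : vv i (algebraMap K F (A / τ • A)) = 1 := by
      have := D.one_of_sub (i := i) (f := algebraMap K F (A / τ • A)) (by
        rw [← map_one (algebraMap K F), ← map_sub, C.v_alg]
        exact hτa A hA0 hAf)
      exact this.1
    have hfp : vv i (f ^ p) = 1 := by rw [map_pow, hvf, one_pow]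
    have huw : vv i (u / algebraMap K F A * w) = 1 := by rw [map_mul, hv1, hvw, one_mul]
    rw [e1, C.ρ_mul _ _ (by rw [map_mul, huw, hfp, one_mul]) hb'.le,
      C.ρ_mul _ _ huw.le hfp.le, C.ρ_mul _ _ hv1.le (hvw i).le, hρw, hb, mul_one, mul_one,
      C.ρ_pow (hvf i).le] at hs
    have h0 : ρρ i (u / algebraMap K F A) ≠ 0 := C.ρ_ne_zero hv1
    have h1 : (ρρ i f) ^ p = 1 := mul_left_cancel₀ h0 (by rw [hs, mul_one])
    have h2 : (ρρ i f - 1) ^ p = 0 := by rw [sub_pow_char, h1, one_pow, sub_self]
    exact sub_eq_zero.mp (pow_eq_zero_iff hp.ne_zero |>.mp h2)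
  have hord_eq : ∀ P : Place K F, P.ord (τ • u) = P.ord u + P.ord w + p * P.ord f := by
    intro P
    rw [hτu, P.ord_mul (mul_ne_zero hu0 hw0) (pow_ne_zero _ hf0), P.ord_mul hu0 hw0, ord_pow]
  -- the local comparison function
  have hcmp : ∀ (i : Bool) (g gw : F) (A : K), g ≠ 0 → A ≠ 0 → Fix Hx g → Fix Hx A →
      vv i g = vK A → Fix Hy gw → vv i (gw - 1) < 1 →
      vv i (f * g * gw / (τ • g) - algebraMap K F (A / τ • A) * f) ≤ E := by
    intro i g gw A hg0 hA0 hgf hAf hvg hgwf hgw1
    have C := D.comp i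
    have hAF : algebraMap K F A ≠ 0 := (_root_.map_ne_zero _).mpr hA0
    have hτA0 : τ • A ≠ 0 := by rwa [smul_ne_zero_iff_ne]
    have hτAF : algebraMap K F (τ • A) ≠ 0 := (_root_.map_ne_zero _).mpr hτA0
    have hτg0 : τ • g ≠ 0 := by rwa [smul_ne_zero_iff_ne]
    have hvA0 : vK A ≠ 0 := (Valuation.ne_zero_iff _).mpr hA0
    set g' := g / algebraMap K F A with hg'
    have hvg' : vv i g' = 1 := by rw [hg', map_div₀, C.v_alg, hvg, div_self hvA0]
    have hg'f : Fix Hx g' := hgf.div (D.fix_alg hAf)
    have hg'0 : g' ≠ 0 := div_ne_zero hg0 hAF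
    have hτg'0 : τ • g' ≠ 0 := by rwa [smul_ne_zero_iff_ne]
    have hgg : g = algebraMap K F A * g' := by rw [hg', mul_div_cancel₀ _ hAF]
    have hB : vv i (algebraMap K F (A / τ • A)) = 1 := by
      rw [C.v_alg, map_div₀, D.vK_smul, div_self hvA0]
    have e1 : f * g * gw / (τ • g) - algebraMap K F (A / τ • A) * f =
        algebraMap K F (A / τ • A) * f * ((g' * (gw - 1) - (τ • g' - g')) / (τ • g')) := by
      have e2 : τ • g = algebraMap K F (τ • A) * τ • g' := by
        rw [hgg, smul_mul', D.smul_alg]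
      rw [e2, hgg, map_div₀]
      field_simp
      ring
    rw [e1, map_mul, map_mul, hB, hvf, one_mul, one_mul, map_div₀, D.v_smul, hvg', div_one]
    refine (Valuation.map_sub _ _ _).trans (max_le ?_ (hτ i g' hg'f hvg'.le))
    rw [map_mul, hvg', one_mul]
    exact hy i (gw - 1) (hgwf.sub Fix.one) hgw1
  have hcmp_ord : ∀ (g gw : F) (P : Place K F), g ≠ 0 → gw ≠ 0 →
      P.ord u = p * P.ord g → P.ord w = p * P.ord gw → P.ord (τ • u) = p * P.ord (τ • g) →
      P.ord (f * g * gw / (τ • g)) = 0 := by
    intro g gw P hg0 hgw0 h1 h2 h3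
    have hτg0 : τ • g ≠ 0 := by rwa [smul_ne_zero_iff_ne]
    rw [ord_div P (mul_ne_zero (mul_ne_zero hf0 hg0) hgw0) hτg0,
      P.ord_mul (mul_ne_zero hf0 hg0) hgw0, P.ord_mul hf0 hg0]
    have h4 := hord_eq P
    rw [h3, h1, h2] at h4
    have hpz : (p : ℤ) ≠ 0 := by exact_mod_cast hp.ne_zero
    have h5 : (p : ℤ) * (P.ord f + P.ord g + P.ord gw - P.ord (τ • g)) = 0 := by
      linear_combination -h4
    rcases mul_eq_zero.mp h5 with h6 | h6
    · exact absurd h6 hpz
    · exact h6
  -- smooth classes
  have hsm : ∀ x : Bool × Place k Fb, (∀ n, x ∉ D.M.br n) → ∃ h : F, vv x.1 (h - f) ≤ E ∧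
      ∀ P, D.M.sp P = Sum.inl x → P.adicValuation h ≤ 1 := by
    intro x hx
    have C := D.comp x.1
    obtain ⟨g0, hg00, hg0f, hg0⟩ := D.gen p hp.ne_zero Hx u hu0 hu hudiv (Sum.inl x)
    obtain ⟨A, hA0, hAf, hvA⟩ := D.scale Hx x.1 g0 hg0f hg00
    obtain ⟨gw, hgw0, hgwf, hgword, hgw1⟩ := hgw.1 x hx
    have hτA0 : τ • A ≠ 0 := by rwa [smul_ne_zero_iff_ne]
    have hB0 : A / τ • A ≠ 0 := div_ne_zero hA0 hτA0
    have hBF : algebraMap K F (A / τ • A) ≠ 0 := (_root_.map_ne_zero _).mpr hB0
    have hvB : vv x.1 (algebraMap K F (A / τ • A)) = 1 := by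
      rw [C.v_alg, map_div₀, D.vK_smul, div_self ((Valuation.ne_zero_iff _).mpr hA0)]
    refine ⟨(f * g0 * gw / (τ • g0)) / algebraMap K F (A / τ • A), ?_, fun P hP => ?_⟩
    · have e1 : (f * g0 * gw / (τ • g0)) / algebraMap K F (A / τ • A) - f =
          (f * g0 * gw / (τ • g0) - algebraMap K F (A / τ • A) * f) /
            algebraMap K F (A / τ • A) := by
        field_simp
      rw [e1, map_div₀, hvB, div_one]
      exact hcmp x.1 g0 gw A hg00 hA0 hg0f hAf hvA hgwf hgw1
    · rw [map_div₀, H3RR.adicValuation_algebraMap _ hB0, div_one]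
      apply adic_le_one_of_ord
      exact (hcmp_ord g0 gw P hg00 hgw0 (hg0 P hP) (hgword P hP)
        (D.ord_smul_eq (σ := τ) (m := p) hg0 P hP)).ge
  -- nodes
  have hnd : ∀ t : ν, ∃ (h : F) (B : K) (n : ℤ), vv false (h - f) ≤ E ∧
      vv true (h - algebraMap K F B * f) ≤ E ∧ vK B = 1 ∧ vK (B - 1 + n * ε) ≤ E ∧
      vv true u = vK (p : K) ^ ((D.pt false t).ord (ρρ false u) + n) ∧
      ∀ P, D.M.sp P = Sum.inr t → P.adicValuation h ≤ 1 := by
    intro t
    obtain ⟨g, A, hg0, hA0, hgf, hAf, hgord, hvg, hvgA, hvu'⟩ :=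
      D.gen_node_full hu hu0 hudiv hvu t
    obtain ⟨gw, hgw0, hgwf, hgword, hgw1⟩ := hgw.2 t
    obtain ⟨n, hn1, hn2⟩ := hval A hA0 hAf
    have hτA0 : τ • A ≠ 0 := by rwa [smul_ne_zero_iff_ne]
    have hvA0 : vK A ≠ 0 := (Valuation.ne_zero_iff _).mpr hA0
    refine ⟨f * g * gw / (τ • g), A / τ • A, n, ?_, ?_, ?_, ?_, ?_, fun P hP => ?_⟩
    · have := hcmp false g gw 1 hg0 one_ne_zero hgf Fix.one (by rw [hvg, map_one]) hgwf
        (hgw1 false)
      rwa [smul_one, div_one, map_one, one_mul] at this
    · exact hcmp true g gw A hg0 hA0 hgf hAf hvgA hgwf (hgw1 true)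
    · rw [map_div₀, D.vK_smul, div_self hvA0]
    · -- `B - 1 + nε`, with `τA/A = 1 + nε + O(ε²)`
      have e1 : A / τ • A - 1 + n * ε =
          (A / τ • A) * (-((τ • A) / A - 1 - n * ε) + n * ε * ((τ • A) / A - 1)) := by
        field_simp
        ring
      have hn1' : vK ((n : ℤ) : K) ≤ 1 := by
        rw [← (D.comp false).v_alg, map_intCast]
        cases n with
        | ofNat m => rw [Int.ofNat_eq_natCast, Int.cast_natCast]; exact H97.v_natCast_le m
        | negSucc m => rw [Int.cast_negSucc, Valuation.map_neg]; exact H97.v_natCast_le _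
      rw [e1, map_mul, map_div₀, D.vK_smul, div_self hvA0, one_mul]
      refine (Valuation.map_add _ _ _).trans (max_le (by rw [Valuation.map_neg]; exact hn2) ?_)
      rw [map_mul, map_mul, hE, pow_two]
      have h3 : vK ((τ • A) / A - 1) ≤ vK ε := by
        have e2 : (τ • A) / A - 1 = ((τ • A) / A - 1 - n * ε) + n * ε := by ring
        rw [e2]
        refine (Valuation.map_add _ _ _).trans (max_le (hn2.trans hEε.le) ?_)
        rw [map_mul]
        exact mul_le_of_le_one_left' hn1'
      calc vK ((n : ℤ) : K) * vK ε * vK ((τ • A) / A - 1) ≤ 1 * vK ε * vK ε := by gcongr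
        _ = vK ε * vK ε := by rw [one_mul]
    · rw [hvu', hn1, zpow_add₀ ((Valuation.ne_zero_iff _).mpr hp0)]
    · apply adic_le_one_of_ord
      exact (hcmp_ord g gw P hg0 hgw0 (hgord P hP) (hgword P hP)
        (D.ord_smul_eq (σ := τ) (m := p) hgord P hP)).ge
  -- distance of `f` to the constants
  have hdist : ∀ i, ∃ c l : K, l ≠ 0 ∧ vv i (f - algebraMap K F c) ≤ vK l ∧ E ≤ vK l ∧
      (E < vK l → ∀ e : k, ρρ i ((f - algebraMap K F c) / algebraMap K F l) ≠
        algebraMap k Fb e) := by
    intro i
    by_cases hc : ∀ c : K, f ≠ algebraMap K F c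
    · obtain ⟨c, l, hl0, h1, h2⟩ := (D.comp i).opt f hc
      rcases le_or_gt (vK l) E with hle | hgt
      · exact ⟨c, ε ^ 2, pow_ne_zero _ hε0, by rw [map_pow]; exact h1.trans hle,
          by rw [map_pow], fun h => absurd h (by rw [map_pow]; exact lt_irrefl _)⟩
      · exact ⟨c, l, hl0, h1, hgt.le, fun _ => h2⟩
    · push Not at hc
      obtain ⟨c, hc⟩ := hc
      exact ⟨c, ε ^ 2, pow_ne_zero _ hε0, by rw [hc, sub_self, map_zero]; exact zero_le',
        by rw [map_pow], fun h => absurd h (by rw [map_pow]; exact lt_irrefl _)⟩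
  -- symmetric form of the nodes
  have hnd' : ∀ (t : ν) (i : Bool), ∃ (h : F) (B : K), vv i (h - f) ≤ E ∧
      vv (!i) (h - algebraMap K F B * f) ≤ E ∧ vK B = 1 ∧
      ∀ P, D.M.sp P = Sum.inr t → P.adicValuation h ≤ 1 := by
    intro t i
    obtain ⟨h, B, n, h1, h2, h3, -, -, h4⟩ := hnd t
    cases i with
    | false => exact ⟨h, B, h1, h2, h3, h4⟩
    | true =>
      have hB0 : B ≠ 0 := by rintro rfl; simp at h3
      have hBF : algebraMap K F B ≠ 0 := (_root_.map_ne_zero _).mpr hB0
      refine ⟨h / algebraMap K F B, B⁻¹, ?_, ?_, by rw [map_inv₀, h3, inv_one], fun P hP => ?_⟩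
      · have e1 : h / algebraMap K F B - f = (h - algebraMap K F B * f) / algebraMap K F B := by
          field_simp
        rw [e1, map_div₀, (D.comp true).v_alg, h3, div_one]
        exact h2
      · have e1 : h / algebraMap K F B - algebraMap K F B⁻¹ * f =
            (h - f) / algebraMap K F B := by
          rw [map_inv₀]; field_simp
        rw [Bool.not_true, e1, map_div₀, (D.comp false).v_alg, h3, div_one]
        exact h1
      · rw [map_div₀, H3RR.adicValuation_algebraMap _ hB0, div_one]
        exact h4 P hP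
  choose c l hl0 hcl hEl hnc using hdist
  -- the maximum of the two distances is `≤ E`
  have hmax : ∀ i, vK (l (!i)) ≤ vK (l i) → vK (l i) ≤ E := by
    intro i hle
    by_contra hcon
    rw [not_le] at hcon
    have C := D.comp i
    have C' := D.comp (!i)
    have hlF : algebraMap K F (l i) ≠ 0 := (_root_.map_ne_zero _).mpr (hl0 i)
    have hvl : ∀ j, vv j (algebraMap K F (l i)) = vK (l i) := fun j => (D.comp j).v_alg _
    have hvl0 : 0 < vK (l i) := zero_lt_iff.mpr ((Valuation.ne_zero_iff _).mpr (hl0 i))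
    have hv1 : vv i ((f - algebraMap K F (c i)) / algebraMap K F (l i)) ≤ 1 := by
      rw [map_div₀, hvl, div_le_one₀ hvl0]
      exact hcl i
    -- replacing `f` by `h`
    have hrepl : ∀ h : F, vv i (h - f) ≤ E →
        vv i ((h - algebraMap K F (c i)) / algebraMap K F (l i)) ≤ 1 ∧
        ρρ i ((h - algebraMap K F (c i)) / algebraMap K F (l i)) =
          ρρ i ((f - algebraMap K F (c i)) / algebraMap K F (l i)) := by
      intro h hh
      have e1 : (h - algebraMap K F (c i)) / algebraMap K F (l i) =
          (f - algebraMap K F (c i)) / algebraMap K F (l i) + (h - f) / algebraMap K F (l i) := by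
        ring
      have h2 : vv i ((h - f) / algebraMap K F (l i)) < 1 := by
        rw [map_div₀, hvl, div_lt_one₀ hvl0]
        exact hh.trans_lt hcon
      rw [e1]
      refine ⟨(Valuation.map_add _ _ _).trans (max_le hv1 h2.le), ?_⟩
      rw [C.ρ_add _ _ hv1 h2.le, (C.ρ_eq_zero _ h2.le).mpr h2, add_zero]
    have hreg : ∀ Q : Place k Fb, Q.adicValuation
        (ρρ i ((f - algebraMap K F (c i)) / algebraMap K F (l i))) ≤ 1 := by
      intro Q
      by_cases hQ : ∀ n, (i, Q) ∉ D.M.br n
      · obtain ⟨h, h1, h2⟩ := hsm (i, Q) hQ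
        obtain ⟨h3, h4⟩ := hrepl h h1
        rw [← h4]
        apply D.M.reg hQ h3
        intro P hP
        rw [map_div₀, H3RR.adicValuation_algebraMap _ (hl0 i), div_one]
        exact (Valuation.map_sub _ _ _).trans
          (max_le (h2 P hP) (P.adicValuation_algebraMap_le_one _))
      · push Not at hQ
        obtain ⟨t, ht⟩ := hQ
        have hQt : Q = D.pt i t := by
          rcases (D.mem_br t _).mp ht with h | h
          · have h1 := congrArg Prod.fst h
            have h2 := congrArg Prod.snd h
            simp only at h1 h2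
            rw [h1, h2]
          · have h1 := congrArg Prod.fst h
            have h2 := congrArg Prod.snd h
            simp only at h1 h2
            rw [h1, h2]
        obtain ⟨h, B, h1, h2, hB1, h3⟩ := hnd' t i
        obtain ⟨h4, h5⟩ := hrepl h h1
        -- the other side
        have hother : vv (!i) (h - algebraMap K F (c i)) ≤ vK (l i) := by
          by_contra hcon2
          rw [not_le] at hcon2
          have hne : h - algebraMap K F (c i) ≠ 0 := by
            intro h0
            rw [h0, map_zero] at hcon2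
            exact absurd hcon2 (not_lt.mpr zero_le')
          obtain ⟨d, hd0, hvd⟩ := C'.scale _ hne
          rw [hvd] at hcon2
          have hdF : algebraMap K F d ≠ 0 := (_root_.map_ne_zero _).mpr hd0
          have hvd0 : 0 < vK d := zero_lt_iff.mpr ((Valuation.ne_zero_iff _).mpr hd0)
          have hvdj : ∀ j, vv j (algebraMap K F d) = vK d := fun j => (D.comp j).v_alg _
          have hi1 : vv i ((h - algebraMap K F (c i)) / algebraMap K F d) < 1 := by
            rw [map_div₀, hvdj, div_lt_one₀ hvd0]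
            refine lt_of_le_of_lt ?_ hcon2
            rwa [map_div₀, hvl, div_le_one₀ hvl0] at h4
          have hj1 : vv (!i) ((h - algebraMap K F (c i)) / algebraMap K F d) = 1 := by
            rw [map_div₀, hvdj, hvd, div_self hvd0.ne']
          obtain ⟨e, he⟩ := D.node_val' (n := t)
            (f := (h - algebraMap K F (c i)) / algebraMap K F d)
            (fun j => by
              rcases Bool.eq_or_eq_not j i with rfl | rfl
              · exact hi1.le
              · exact hj1.le)
            (fun P hP => by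
              rw [map_div₀, H3RR.adicValuation_algebraMap _ hd0, div_one]
              exact (Valuation.map_sub _ _ _).trans
                (max_le (h3 P hP) (P.adicValuation_algebraMap_le_one _)))
          have he0 : e = 0 := by
            by_contra he0
            have := he i
            rw [(C.ρ_eq_zero _ hi1.le).mpr hi1, zero_sub, Valuation.map_neg,
              H3RR.adicValuation_algebraMap _ he0] at this
            exact lt_irrefl _ this
          -- compute the reduction on the other side
          have e1 : (h - algebraMap K F (c i)) / algebraMap K F d =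
              ((h - algebraMap K F B * f) / algebraMap K F d +
                algebraMap K F B * ((f - algebraMap K F (c (!i))) / algebraMap K F d)) +
              algebraMap K F ((B * c (!i) - c i) / d) := by
            rw [map_div₀, map_sub, map_mul]
            ring
          have ha : vv (!i) ((h - algebraMap K F B * f) / algebraMap K F d) < 1 := by
            rw [map_div₀, hvdj, div_lt_one₀ hvd0]
            exact h2.trans_lt ((hEl i).trans_lt hcon2)
          have hb : vv (!i) (algebraMap K F B *
              ((f - algebraMap K F (c (!i))) / algebraMap K F d)) < 1 := by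
            rw [map_mul, C'.v_alg, hB1, one_mul, map_div₀, hvdj, div_lt_one₀ hvd0]
            exact (hcl (!i)).trans_lt (hle.trans_lt hcon2)
          have hab := (Valuation.map_add (vv (!i)) ((h - algebraMap K F B * f) / algebraMap K F d)
            (algebraMap K F B * ((f - algebraMap K F (c (!i))) / algebraMap K F d))).trans_lt
              (max_lt ha hb)
          have hcst : vv (!i) (algebraMap K F ((B * c (!i) - c i) / d)) = 1 := by
            have e2 : algebraMap K F ((B * c (!i) - c i) / d) =
                (h - algebraMap K F (c i)) / algebraMap K F d -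
                ((h - algebraMap K F B * f) / algebraMap K F d +
                algebraMap K F B * ((f - algebraMap K F (c (!i))) / algebraMap K F d)) := by
              rw [e1]; ring
            rw [e2, Valuation.map_sub_eq_of_lt_left _ (by rw [hj1]; exact hab), hj1]
          have hρ : ρρ (!i) ((h - algebraMap K F (c i)) / algebraMap K F d) =
              algebraMap k Fb (D.M.res ((B * c (!i) - c i) / d)) := by
            rw [e1, C'.ρ_add _ _ hab.le hcst.le, (C'.ρ_eq_zero _ hab.le).mpr hab, zero_add,
              C'.ρ_alg _ (by rw [← C'.v_alg]; exact hcst.le)]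
          have hres : D.M.res ((B * c (!i) - c i) / d) ≠ 0 := by
            intro h0
            rw [D.res_eq_zero (by rw [← C'.v_alg]; exact hcst.le), ← C'.v_alg, hcst] at h0
            exact lt_irrefl _ h0
          have := he (!i)
          rw [he0, map_zero, sub_zero, hρ, H3RR.adicValuation_algebraMap _ hres] at this
          exact lt_irrefl _ this
        obtain ⟨e, he⟩ := D.node_val' (n := t)
            (f := (h - algebraMap K F (c i)) / algebraMap K F (l i))
            (fun j => by
              rcases Bool.eq_or_eq_not j i with rfl | rfl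
              · exact h4
              · rw [map_div₀, hvl, div_le_one₀ hvl0]
                exact hother)
            (fun P hP => by
              rw [map_div₀, H3RR.adicValuation_algebraMap _ (hl0 i), div_one]
              exact (Valuation.map_sub _ _ _).trans
                (max_le (h3 P hP) (P.adicValuation_algebraMap_le_one _)))
        have h6 := he i
        rw [h5] at h6
        rw [hQt]
        have e3 : ρρ i ((f - algebraMap K F (c i)) / algebraMap K F (l i)) =
            (ρρ i ((f - algebraMap K F (c i)) / algebraMap K F (l i)) - algebraMap k Fb e)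
              + algebraMap k Fb e := by ring
        rw [e3]
        exact (Valuation.map_add _ _ _).trans
          (max_le h6.le ((D.pt i t).adicValuation_algebraMap_le_one _))
    obtain ⟨e, he⟩ := H3RR.exists_const_of_forall_le_one hreg
    exact hnc i hcon e he.symm
  have hall : ∀ i, vK (l i) ≤ E := by
    rcases le_total (vK (l true)) (vK (l false)) with h | h
    · have h1 := hmax false (by simpa using h)
      intro i
      cases i
      · exact h1
      · exact h.trans h1
    · have h1 := hmax true (by simpa using h)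
      intro i
      cases i
      · exact h.trans h1
      · exact h1
  have hκ : ∀ i, vv i (f - algebraMap K F (c i)) ≤ E := fun i => (hcl i).trans (hall i)
  have hκ1 : vK (c true) = 1 := by
    rw [← (D.comp true).v_alg]
    have e1 : algebraMap K F (c true) = f - (f - algebraMap K F (c true)) := by ring
    rw [e1, Valuation.map_sub_eq_of_lt_left _ (by rw [hvf]; exact (hκ true).trans_lt hE1), hvf]
  -- comparison at the nodes
  have hfin : ∀ t : ν, ∃ (B : K) (n : ℤ), vK (B - 1 + n * ε) ≤ E ∧
      vK (B * c true - c false) ≤ E ∧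
      vv true u = vK (p : K) ^ ((D.pt false t).ord (ρρ false u) + n) := by
    intro t
    obtain ⟨h, B, n, h1, h2, hB1, hB2, h3, h4⟩ := hnd t
    refine ⟨B, n, hB2, ?_, h3⟩
    by_contra hcon
    rw [not_le] at hcon
    set δ := B * c true - c false with hδ
    have hδ0 : δ ≠ 0 := by
      intro h0
      rw [h0, map_zero] at hcon
      exact absurd hcon (not_lt.mpr zero_le')
    have hδF : algebraMap K F δ ≠ 0 := (_root_.map_ne_zero _).mpr hδ0
    have hvδ0 : 0 < vK δ := zero_lt_iff.mpr ((Valuation.ne_zero_iff _).mpr hδ0)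
    have hvδ : ∀ j, vv j (algebraMap K F δ) = vK δ := fun j => (D.comp j).v_alg _
    have ha : vv false ((h - algebraMap K F (c false)) / algebraMap K F δ) < 1 := by
      rw [map_div₀, hvδ, div_lt_one₀ hvδ0]
      have e1 : h - algebraMap K F (c false) = (h - f) + (f - algebraMap K F (c false)) := by ring
      rw [e1]
      exact ((Valuation.map_add _ _ _).trans (max_le h1 (hκ false))).trans_lt hcon
    have hb : vv true ((h - algebraMap K F (c false)) / algebraMap K F δ - 1) < 1 := by
      have e1 : (h - algebraMap K F (c false)) / algebraMap K F δ - 1 =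
          ((h - algebraMap K F B * f) + algebraMap K F B * (f - algebraMap K F (c true))) /
            algebraMap K F δ := by
        have e2 : algebraMap K F δ = algebraMap K F B * algebraMap K F (c true) -
          algebraMap K F (c false) := by rw [hδ, map_sub, map_mul]
        rw [div_sub_one hδF]
        congr 1
        rw [e2]; ring
      rw [e1, map_div₀, hvδ, div_lt_one₀ hvδ0]
      refine lt_of_le_of_lt ((Valuation.map_add _ _ _).trans (max_le h2 ?_)) hcon
      rw [map_mul, (D.comp true).v_alg, hB1, one_mul]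
      exact hκ true
    obtain ⟨hb1, hb2⟩ := D.one_of_sub hb
    obtain ⟨e, he⟩ := D.node_val' (n := t)
      (f := (h - algebraMap K F (c false)) / algebraMap K F δ)
      (fun j => by cases j; exacts [ha.le, hb1.le])
      (fun P hP => by
        rw [map_div₀, H3RR.adicValuation_algebraMap _ hδ0, div_one]
        exact (Valuation.map_sub _ _ _).trans
          (max_le (h4 P hP) (P.adicValuation_algebraMap_le_one _)))
    have he0 : e = 0 := by
      by_contra he0
      have := he false
      rw [((D.comp false).ρ_eq_zero _ ha.le).mpr ha, zero_sub, Valuation.map_neg,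
        H3RR.adicValuation_algebraMap _ he0] at this
      exact lt_irrefl _ this
    have := he true
    rw [he0, map_zero, sub_zero, hb2, map_one] at this
    exact lt_irrefl _ this
  obtain ⟨B, n, hB1, hB2, hv1⟩ := hfin s
  obtain ⟨B', n', hB1', hB2', hv1'⟩ := hfin s'
  have hnn : vK (((n - n' : ℤ) : K) * ε) ≤ E := by
    have e1 : ((n - n' : ℤ) : K) * ε = (B - 1 + n * ε) - (B' - 1 + n' * ε) - (B - B') := by
      push_cast; ring
    rw [e1]
    refine (Valuation.map_sub _ _ _).trans (max_le ((Valuation.map_sub _ _ _).trans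
      (max_le hB1 hB1')) ?_)
    have e2 : (B - B') * c true = (B * c true - c false) - (B' * c true - c false) := by ring
    have h1 : vK ((B - B') * c true) ≤ E := by
      rw [e2]
      exact (Valuation.map_sub _ _ _).trans (max_le hB2 hB2')
    rwa [map_mul, hκ1, mul_one] at h1
  have hnn' : vK ((n - n' : ℤ) : K) < 1 := by
    rw [map_mul, hE, pow_two] at hnn
    exact (le_of_mul_le_mul_right hnn hvε).trans_lt hε1
  have hdvd := D.dvd_of_vK_lt hnn'
  rw [hv1] at hv1'
  have hvp0 : 0 < vK (p : K) := zero_lt_iff.mpr ((Valuation.ne_zero_iff _).mpr hp0)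
  have hinj := zpow_right_injective₀ hvp0 (ne_of_lt hp1) hv1'
  have e1 : (D.pt false s).ord (ρρ false u) - (D.pt false s').ord (ρρ false u) = -(n - n') := by
    linear_combination hinj
  rw [e1]
  exact (dvd_neg).mpr hdvd

end Data

end Fermat.Agent.H31.MP
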