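import Fermat.Agent.H19Zl
import Fermat.Agent.H32FlatClosure

/-!
# Comparison of the two notions of flat orders (`H19` and `H32`) and Hopf algebra models
-/

set_option autoImplicit false

noncomputable section

namespace Fermat.Agent.H32

open GaloisRep

variable {ℓ : ℕ} {M : Type} [AddCommGroup M] {act : GQ → M → M}

theorem isFlatOrder_iff (H : Subalgebra (ratLocalizedAt ℓ) (M → Qbar)) :
    IsFlatOrder ℓ act H ↔ H19.IsFlatOrder (ratLocalizedAt ℓ) ℚ Qbar act H := by
  constructor
  · intro h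
    have hfg : (Subalgebra.toSubmodule H).FG :=
      (Module.Finite.iff_fg (N := Subalgebra.toSubmodule H)).mp h.finite
    refine ⟨hfg, h.equivariant, h.separates, ?_⟩
    intro f hf
    obtain ⟨s, hs⟩ := hfg
    let e := s.equivFin
    have h1 := exists_coeff_of_mem_tensorSpan H (n := s.card) (fun i => (e.symm i : M → Qbar)) (by
      intro g hg
      have hg' : g ∈ Submodule.span (ratLocalizedAt ℓ) (s : Set (M → Qbar)) := by
        rw [hs]; exact hg
      obtain ⟨r, hr⟩ := Submodule.mem_span_finset'.mp hg'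
      refine ⟨fun i => r (e.symm i), ?_⟩
      rw [← hr, ← Equiv.sum_comp e.symm]) (h.comul f hf)
    obtain ⟨a, ha, hab⟩ := h1
    refine ⟨s.card, a, fun i => (e.symm i : M → Qbar), ha, ?_, hab⟩
    intro i
    have : ((e.symm i : M → Qbar)) ∈ Submodule.span (ratLocalizedAt ℓ) (s : Set (M → Qbar)) :=
      Submodule.subset_span (e.symm i).2
    rw [hs] at this
    exact this
  · intro h
    refine ⟨(Module.Finite.iff_fg (N := Subalgebra.toSubmodule H)).mpr h.fg, h.equivariant,
      h.separates, ?_⟩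
    intro f hf
    obtain ⟨n, a, b, ha, hb, hab⟩ := h.comul f hf
    have e1 : comulFun f = ∑ i, (fun x : M × M => a i x.1 * b i x.2) := by
      ext x
      rw [comulFun, hab, Finset.sum_apply]
    rw [e1]
    exact Submodule.sum_mem _ fun i _ => Submodule.subset_span ⟨a i, ha i, b i, hb i, rfl⟩

theorem hasFlatOrder_iff : HasFlatOrder ℓ M act ↔
    Finite M ∧ ∃ H : Subalgebra (ratLocalizedAt ℓ) (M → Qbar),
      H19.IsFlatOrder (ratLocalizedAt ℓ) ℚ Qbar act H := by
  unfold HasFlatOrder
  simp only [isFlatOrder_iff]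

instance isGalois_Qbar' : IsGalois ℚ Qbar := isGalois_Qbar

theorem HasFlatOrder.hasFlatModel [Fact ℓ.Prime] (h : HasFlatOrder ℓ M act) :
    H19.HasFlatModel (ratLocalizedAt ℓ) ℚ Qbar M act := by
  have : IsFractionRing (ratLocalizedAt ℓ) ℚ := H19.isFractionRing_Zl ℓ
  have : IsPrincipalIdealRing (ratLocalizedAt ℓ) := H19.isPID_Zl ℓ
  exact H19.hasFlatModel_iff.mpr (hasFlatOrder_iff.mp h)

theorem hasFlatOrder_of_hasFlatModel [Fact ℓ.Prime]
    (h : H19.HasFlatModel (ratLocalizedAt ℓ) ℚ Qbar M act) : HasFlatOrder ℓ M act := by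
  have : IsFractionRing (ratLocalizedAt ℓ) ℚ := H19.isFractionRing_Zl ℓ
  have : IsPrincipalIdealRing (ratLocalizedAt ℓ) := H19.isPID_Zl ℓ
  exact hasFlatOrder_iff.mpr (H19.hasFlatModel_iff.mp h)

end Fermat.Agent.H32
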