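import Mathlib.LinearAlgebra.Eigenspace.Triangularizable
import Mathlib.LinearAlgebra.Eigenspace.Basic
import Fermat.Agent.H32Carayol

/-!
# Two elements of an absolutely irreducible group without common eigenvector
-/

set_option autoImplicit false

open scoped TensorProduct

namespace Fermat.Agent.H32

section AlgClosed

variable {K V : Type*} [Field K] [IsAlgClosed K] [AddCommGroup V] [Module K V]
  [FiniteDimensional K V]

/-- A nonzero subspace stable under `B` contains an eigenvector of `B`. -/
theorem exists_eigenvector_mem (B : Module.End K V) (W : Submodule K V) (hW : W ≠ ⊥)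
    (hB : ∀ w ∈ W, B w ∈ W) : ∃ v ∈ W, v ≠ 0 ∧ ∃ b : K, B v = b • v := by
  have hnt : Nontrivial W := Submodule.nontrivial_iff_ne_bot.mpr hW
  obtain ⟨b, hb⟩ := Module.End.exists_eigenvalue (B.restrict hB)
  obtain ⟨v, hv⟩ := hb.exists_hasEigenvector
  refine ⟨v, v.2, fun h0 => hv.2 (Subtype.ext h0), b, ?_⟩
  have := congrArg Subtype.val hv.apply_eq_smul
  exact this

/-- If `det [A, B] = 0` then `A`, `B` have a common eigenvector. -/
theorem exists_common_eigenvector (hV : Module.finrank K V = 2) (A B : Module.End K V)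
    (h : LinearMap.det (A * B - B * A) = 0) :
    ∃ v : V, v ≠ 0 ∧ (∃ a : K, A v = a • v) ∧ ∃ b : K, B v = b • v := by
  let bas := Module.finBasisOfFinrankEq K V hV
  set C := A * B - B * A with hC
  have hker : LinearMap.ker C ≠ ⊥ := by
    intro hbot
    have hinj : Function.Injective C := LinearMap.ker_eq_bot.mp hbot
    have hu : IsUnit C := by
      rw [Module.End.isUnit_iff]
      exact ⟨hinj, (LinearMap.injective_iff_surjective).mp hinj⟩
    have := hu.map LinearMap.det
    rw [h] at this
    exact not_isUnit_zero this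
  have hstab : ∀ (D : Module.End K V), (D = A ∨ D = B) → ∀ w ∈ LinearMap.ker C, D w ∈ LinearMap.ker C := by
    intro D hD w hw
    have hq := quadratic_of_basis bas D
    have hDD : D * D = (LinearMap.trace K V D) • D - (LinearMap.det D) • (1 : Module.End K V) := by
      rw [← sub_eq_zero, ← hq]; abel
    have key : D * C + C * D = (LinearMap.trace K V D) • C := by
      rcases hD with rfl | rfl
      · have e : D * C + C * D = (D * D) * B - B * (D * D) := by
          rw [hC]; noncomm_ring
        rw [e, hDD, hC]
        simp only [sub_mul, mul_sub, smul_mul_assoc, mul_smul_comm, one_mul, mul_one, smul_sub]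
        abel
      · have e : D * C + C * D = A * (D * D) - (D * D) * A := by
          rw [hC]; noncomm_ring
        rw [e, hDD, hC]
        simp only [sub_mul, mul_sub, smul_mul_assoc, mul_smul_comm, one_mul, mul_one, smul_sub]
        abel
    rw [LinearMap.mem_ker] at hw ⊢
    have h1 := congrArg (fun F => F w) key
    simp only [LinearMap.add_apply, Module.End.mul_apply, LinearMap.smul_apply, hw, map_zero,
      smul_zero, zero_add] at h1
    exact h1
  -- eigenspace of `A` in `ker C`
  obtain ⟨v, hvW, hv0, a, hva⟩ := exists_eigenvector_mem A (LinearMap.ker C) hker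
    (hstab A (Or.inl rfl))
  set W := LinearMap.ker C ⊓ LinearMap.ker (A - a • (1 : Module.End K V)) with hW
  have hWne : W ≠ ⊥ := by
    intro hbot
    have : v ∈ W := ⟨hvW, by simp [LinearMap.mem_ker, hva]⟩
    rw [hbot, Submodule.mem_bot] at this
    exact hv0 this
  obtain ⟨u, huW, hu0, b, hub⟩ := exists_eigenvector_mem B W hWne (by
    rintro w ⟨hw1, hw2⟩
    refine ⟨hstab B (Or.inr rfl) w hw1, ?_⟩
    have hw3 : A w = a • w := by
      have := (LinearMap.mem_ker).mp hw2
      simpa [sub_eq_zero] using this
    have hw4 : A (B w) = B (A w) := by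
      have := (LinearMap.mem_ker).mp hw1
      simpa [hC, sub_eq_zero] using this
    refine LinearMap.mem_ker.mpr ?_
    simp [hw4, hw3])
  refine ⟨u, hu0, ⟨a, ?_⟩, b, hub⟩
  have := (LinearMap.mem_ker).mp huW.2
  simpa [sub_eq_zero] using this

omit [IsAlgClosed K] in
/-- In a two-dimensional space, a nonzero vector in a proper subspace spans it. -/
theorem eq_span_singleton_of_mem (hV : Module.finrank K V = 2) (L : Submodule K V) (hL : L ≠ ⊤)
    (v : V) (hv : v ∈ L) (hv0 : v ≠ 0) : L = K ∙ v := by
  have h1 : (K ∙ v) ≤ L := by rwa [Submodule.span_singleton_le_iff_mem]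
  symm
  apply Submodule.eq_of_le_of_finrank_le h1
  rw [finrank_span_singleton hv0]
  have h2 : Module.finrank K L < 2 := by
    rw [← hV]
    exact Submodule.finrank_lt hL
  omega

theorem exists_det_commutator_ne_zero {G : Type*} [Group G] (hV : Module.finrank K V = 2)
    (ρ : G →* Module.End K V)
    (hirr : ∀ W : Submodule K V, (∀ g, ∀ x ∈ W, ρ g x ∈ W) → W = ⊥ ∨ W = ⊤) :
    ∃ x y : G, LinearMap.det (ρ x * ρ y - ρ y * ρ x) ≠ 0 := by
  by_contra hcon
  push Not at hcon
  have hnt : Nontrivial V := Module.nontrivial_of_finrank_pos (R := K) (by rw [hV]; norm_num)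
  have hlt : ∀ v : V, v ≠ 0 → (K ∙ v) ≠ ⊤ := by
    intro v hv h
    have h1 := finrank_span_singleton (K := K) hv
    rw [h, finrank_top, hV] at h1
    norm_num at h1
  -- a non-scalar element
  obtain ⟨x₀, hx₀⟩ : ∃ x₀ : G, ∀ a : K, ρ x₀ ≠ a • (1 : Module.End K V) := by
    by_contra hs
    push Not at hs
    obtain ⟨v, hv⟩ := exists_ne (0 : V)
    rcases hirr (K ∙ v) (fun g x hx => by
      obtain ⟨a, ha⟩ := hs g
      rw [ha, LinearMap.smul_apply, Module.End.one_apply]
      exact Submodule.smul_mem _ _ hx) with h | h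
    · rw [Submodule.span_singleton_eq_bot] at h
      exact hv h
    · exact hlt v hv h
  set A := ρ x₀ with hA
  let bas := Module.finBasisOfFinrankEq K V hV
  have hq := quadratic_of_basis bas A
  obtain ⟨v₁, hv₁⟩ := (Module.End.exists_eigenvalue A).choose_spec.exists_hasEigenvector
  set a₁ := (Module.End.exists_eigenvalue A).choose with ha₁
  have hAv₁ : A v₁ = a₁ • v₁ := hv₁.apply_eq_smul
  have hv₁0 : v₁ ≠ 0 := hv₁.2
  set a₂ := LinearMap.trace K V A - a₁ with ha₂
  have hroot : a₁ * a₁ - LinearMap.trace K V A * a₁ + LinearMap.det A = 0 := by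
    have h1 := congrArg (fun F => F v₁) hq
    simp only [LinearMap.add_apply, LinearMap.sub_apply, Module.End.mul_apply,
      LinearMap.smul_apply, Module.End.one_apply, LinearMap.zero_apply, hAv₁, map_smul,
      smul_smul] at h1
    rw [← sub_smul, ← add_smul] at h1
    exact (smul_eq_zero.mp h1).resolve_right hv₁0
  have hfact : (A - a₁ • (1 : Module.End K V)) * (A - a₂ • (1 : Module.End K V)) = 0 := by
    have : (A - a₁ • (1 : Module.End K V)) * (A - a₂ • (1 : Module.End K V)) =
        A * A - (LinearMap.trace K V A) • A + (LinearMap.det A) • (1 : Module.End K V) := by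
      have hdet : LinearMap.det A = a₁ * a₂ := by
        rw [ha₂]; linear_combination hroot
      rw [hdet]
      have : LinearMap.trace K V A = a₁ + a₂ := by rw [ha₂]; ring
      rw [this, add_smul, mul_comm a₁ a₂]
      simp only [sub_mul, mul_sub, smul_mul_assoc, mul_smul_comm, one_mul, mul_one, smul_smul,
        smul_sub]
      abel
    rw [this, hq]
  have hfact' : (A - a₂ • (1 : Module.End K V)) * (A - a₁ • (1 : Module.End K V)) = 0 := by
    rw [← hfact]
    simp only [sub_mul, mul_sub, smul_mul_assoc, mul_smul_comm, one_mul, mul_one, smul_sub,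
      smul_smul, mul_comm a₂ a₁]
    abel
  -- the two eigenlines
  let L : Bool → Submodule K V := fun i =>
    LinearMap.ker (A - (if i then a₁ else a₂) • (1 : Module.End K V))
  have hLtop : ∀ i, L i ≠ ⊤ := by
    intro i hi
    have : A - (if i then a₁ else a₂) • (1 : Module.End K V) = 0 := LinearMap.ker_eq_top.mp hi
    exact hx₀ _ (sub_eq_zero.mp this)
  have hLbot : ∀ i, L i ≠ ⊥ := by
    intro i hi
    have hinj : Function.Injective (A - (if i then a₁ else a₂) • (1 : Module.End K V)) :=
      LinearMap.ker_eq_bot.mp hi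
    cases i
    · have : A - a₁ • (1 : Module.End K V) = 0 := by
        ext w
        apply hinj
        have := congrArg (fun F => F w) hfact'
        simpa using this
      exact hx₀ _ (sub_eq_zero.mp this)
    · have : A - a₂ • (1 : Module.End K V) = 0 := by
        ext w
        apply hinj
        have := congrArg (fun F => F w) hfact
        simpa using this
      exact hx₀ _ (sub_eq_zero.mp this)
  -- the stabilisers
  let St : Bool → Subgroup G := fun i =>
    { carrier := {g | (∀ w ∈ L i, ρ g w ∈ L i) ∧ (∀ w ∈ L i, ρ g⁻¹ w ∈ L i)}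
      mul_mem' := fun {a b} ha hb => ⟨fun w hw => by
          rw [map_mul]; exact ha.1 _ (hb.1 w hw), fun w hw => by
          rw [mul_inv_rev, map_mul]; exact hb.2 _ (ha.2 w hw)⟩
      one_mem' := ⟨fun w hw => by rwa [map_one], fun w hw => by rwa [inv_one, map_one]⟩
      inv_mem' := fun {a} ha => ⟨ha.2, fun w hw => by rw [inv_inv]; exact ha.1 w hw⟩ }
  have hcover : ∀ y : G, y ∈ St true ∨ y ∈ St false := by
    intro y
    obtain ⟨v, hv0, ⟨a, hav⟩, b, hbv⟩ := exists_common_eigenvector hV A (ρ y) (hcon x₀ y)
    have hmem : ∃ i, v ∈ L i := by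
      have h1 := congrArg (fun F => F v) hfact
      have h2 : (a - a₁) * (a - a₂) = 0 := by
        simp only [Module.End.mul_apply, LinearMap.sub_apply, LinearMap.smul_apply,
          Module.End.one_apply, hav, map_sub, map_smul, LinearMap.zero_apply] at h1
        rw [← sub_smul] at h1
        simp only [smul_smul, ← sub_smul] at h1
        have h3 := (smul_eq_zero.mp h1).resolve_right hv0
        linear_combination h3
      rcases mul_eq_zero.mp h2 with h3 | h3
      · refine ⟨true, ?_⟩
        show v ∈ LinearMap.ker _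
        rw [LinearMap.mem_ker]
        simp [hav, sub_eq_zero.mp h3]
      · refine ⟨false, ?_⟩
        show v ∈ LinearMap.ker _
        rw [LinearMap.mem_ker]
        simp [hav, sub_eq_zero.mp h3]
    obtain ⟨i, hi⟩ := hmem
    have hLi := eq_span_singleton_of_mem hV (L i) (hLtop i) v hi hv0
    have hinv : ρ y⁻¹ (ρ y v) = v := by
      rw [← Module.End.mul_apply, ← map_mul, inv_mul_cancel, map_one, Module.End.one_apply]
    have hb0 : b ≠ 0 := by
      rintro rfl
      rw [hbv, zero_smul, map_zero] at hinv
      exact hv0 hinv.symm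
    have hyi : y ∈ St i := by
      refine ⟨fun w hw => ?_, fun w hw => ?_⟩
      · rw [hLi] at hw ⊢
        obtain ⟨c, rfl⟩ := Submodule.mem_span_singleton.mp hw
        rw [map_smul, hbv]
        exact Submodule.smul_mem _ _ (Submodule.smul_mem _ _ (Submodule.mem_span_singleton_self v))
      · rw [hLi] at hw ⊢
        obtain ⟨c, rfl⟩ := Submodule.mem_span_singleton.mp hw
        have : ρ y⁻¹ v = b⁻¹ • v := by
          rw [hbv, map_smul] at hinv
          rw [← hinv, smul_smul, inv_mul_cancel₀ hb0, one_smul, hinv]
        rw [map_smul, this]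
        exact Submodule.smul_mem _ _ (Submodule.smul_mem _ _ (Submodule.mem_span_singleton_self v))
    cases i
    · exact Or.inr hyi
    · exact Or.inl hyi
  -- a group is not the union of two proper subgroups
  have hone : St true = ⊤ ∨ St false = ⊤ := by
    by_contra hne
    push Not at hne
    obtain ⟨h1, h2⟩ := hne
    obtain ⟨a, ha⟩ : ∃ a, a ∉ St true := by
      by_contra h; push Not at h; exact h1 (Subgroup.eq_top_iff' _ |>.mpr h)
    obtain ⟨b, hb⟩ : ∃ b, b ∉ St false := by
      by_contra h; push Not at h; exact h2 (Subgroup.eq_top_iff' _ |>.mpr h)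
    have ha' : a ∈ St false := (hcover a).resolve_left ha
    have hb' : b ∈ St true := (hcover b).resolve_right hb
    rcases hcover (a * b) with h | h
    · exact ha (((St true).mul_mem_cancel_right hb').mp h)
    · exact hb (((St false).mul_mem_cancel_left ha').mp h)
  have hfin : ∀ i, St i ≠ ⊤ := by
    intro i hi
    rcases hirr (L i) (fun g w hw => by
      have : g ∈ St i := by rw [hi]; trivial
      exact this.1 w hw) with h | h
    · exact hLbot i h
    · exact hLtop i h
  rcases hone with h | h
  · exact hfin _ h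
  · exact hfin _ h

end AlgClosed

section Local

variable {A : Type} [CommRing A] [IsLocalRing A]

theorem exists_isUnit_det_commutator (ρ : GaloisRepAdic A)
    (h : ρ.residual.IsAbsolutelyIrreducible) :
    ∃ x y : AlgebraicClosure ℚ ≃ₐ[ℚ] AlgebraicClosure ℚ,
      IsUnit (LinearMap.det (ρ.ρ x * ρ.ρ y - ρ.ρ y * ρ.ρ x)) := by
  obtain ⟨x, y, hxy⟩ := exists_det_commutator_ne_zero
    (K := AlgebraicClosure (IsLocalRing.ResidueField A))
    (V := (ρ.residual.baseChange (AlgebraicClosure (IsLocalRing.ResidueField A))).V)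
    (ρ.residual.baseChange (AlgebraicClosure (IsLocalRing.ResidueField A))).finrank_eq
    ((ρ.residual.baseChange (AlgebraicClosure (IsLocalRing.ResidueField A))).ρ) h
  refine ⟨x, y, ?_⟩
  by_contra hu
  apply hxy
  have hm : LinearMap.det (ρ.ρ x * ρ.ρ y - ρ.ρ y * ρ.ρ x) ∈ IsLocalRing.maximalIdeal A := by
    rwa [IsLocalRing.mem_maximalIdeal, mem_nonunits_iff]
  have h0 : algebraMap A (IsLocalRing.ResidueField A)
      (LinearMap.det (ρ.ρ x * ρ.ρ y - ρ.ρ y * ρ.ρ x)) = 0 := by
    rw [IsLocalRing.ResidueField.algebraMap_eq, IsLocalRing.residue_eq_zero_iff]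
    exact hm
  have e : LinearMap.det (((ρ.ρ x * ρ.ρ y - ρ.ρ y * ρ.ρ x).baseChange
      (IsLocalRing.ResidueField A)).baseChange
        (AlgebraicClosure (IsLocalRing.ResidueField A))) = 0 := by
    rw [LinearMap.det_baseChange, LinearMap.det_baseChange, h0, map_zero]
  rw [LinearMap.baseChange_sub, LinearMap.baseChange_sub, LinearMap.baseChange_mul,
      LinearMap.baseChange_mul, LinearMap.baseChange_mul, LinearMap.baseChange_mul] at e
  exact e

end Local

end Fermat.Agent.H32
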