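import Fermat.Agent.H32PointA
import Fermat.Agent.H32RealK
import Fermat.Agent.H35LTTop
import Fermat.Agent.H31Inputs

/-!
# Points of the Hecke ring and the Tate module of `J_0(N)`

For every point `ψ : T → K` of the Hecke ring of a `HeckeGaloisRepDatum` there is a nonzero
Galois equivariant additive map from the Hecke Galois representation to the Tate module of
`J_0(N)` killing `(ker ψ) V`.
-/

set_option autoImplicit false
set_option linter.style.haveILetI false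
set_option maxSynthPendingDepth 3

noncomputable section

open scoped TensorProduct
open IsLocalRing CuspForm ModularCurve Fermat.Agent.H31 Fermat.Agent.H30

namespace Fermat.Agent.H32

/-- `T_p J` receives a nonzero equivariant map from the Hecke Galois representation at every
point of the Hecke ring. -/
theorem exists_hom_of_point_module {p : ℕ} [Fact p.Prime] {N : ℕ} [NeZero N] {S : Finset ℕ}
    {𝒪 : Type} [CommRing 𝒪] [IsDomain 𝒪] [IsDiscreteValuationRing 𝒪]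
    [IsAdicComplete (IsLocalRing.maximalIdeal 𝒪) 𝒪]
    {θ : CuspForm.heckeAlgebra N 2 (↑S : Set ℕ) →+* IsLocalRing.ResidueField 𝒪}
    {T : Type} [CommRing T] [IsLocalRing T] [IsNoetherianRing T]
    [IsAdicComplete (IsLocalRing.maximalIdeal T) T] [Algebra 𝒪 T] [IsLocalHom (algebraMap 𝒪 T)]
    [Module.Finite 𝒪 T] [Module.Free 𝒪 T]
    [Finite (IsLocalRing.ResidueField 𝒪)] [CharZero 𝒪]
    (hp𝒪 : (p : 𝒪) ∈ IsLocalRing.maximalIdeal 𝒪) (hpS : p ∈ S)
    (hNS : ∀ q : ℕ, q.Prime → q ∣ N → q ∈ S)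
    (H : CuspForm.HeckeGaloisRepDatum N (↑S : Set ℕ) 𝒪 θ T)
    {J : Type*} [AddCommGroup J] [Module HeckeAlg J] [DistribMulAction H31.GQ J]
    [SMulCommClass H31.GQ HeckeAlg J]
    (hfin : {x : J | p • x = 0}.Finite)
    (hF : FrobeniusQuadratic (K := ℚ) (L := AlgebraicClosure ℚ) N p J)
    (hlev : H31.FiniteLevel p J) (hfaith : H31.HeckeFaithful N (↑S : Set ℕ) p J)
    {K : Type} [Field K] [Algebra 𝒪 K] [FaithfulSMul 𝒪 K] (ψ : T →ₐ[𝒪] K) :
    ∃ h : H.ρ.V →+ TateMod p J, h ≠ 0 ∧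
      (∀ σ v, h (H.ρ.ρ σ v) = galTate p J σ (h v)) ∧
      ∀ t : T, ψ t = 0 → ∀ v, h (t • v) = 0 := by
  haveI := TateMod.finite_of_finite_torsion (p := p) (J := J) hfin
  haveI := TateMod.free_of_finite_torsion (p := p) (J := J) hfin
  haveI : CharZero K := charZero_of_injective_algebraMap (FaithfulSMul.algebraMap_injective 𝒪 K)
  letI : Algebra ℤ_[p] 𝒪 := (H35.padicToAdic 𝒪 hp𝒪).toAlgebra
  letI : Algebra ℤ_[p] T := ((algebraMap 𝒪 T).comp (algebraMap ℤ_[p] 𝒪)).toAlgebra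
  haveI : IsScalarTower ℤ_[p] 𝒪 T := IsScalarTower.of_algebraMap_eq' rfl
  letI : Algebra T K := ψ.toRingHom.toAlgebra
  letI : Algebra ℤ_[p] K := ((algebraMap T K).comp (algebraMap ℤ_[p] T)).toAlgebra
  haveI : IsScalarTower ℤ_[p] T K := IsScalarTower.of_algebraMap_eq' rfl
  haveI : Module.Finite ℤ_[p] 𝒪 := H35.finite_padic 𝒪 hp𝒪
  haveI : Module.Finite ℤ_[p] T := Module.Finite.trans 𝒪 T
  letI : Module ℤ_[p] H.ρ.V := Module.compHom H.ρ.V (algebraMap ℤ_[p] T)
  haveI : IsScalarTower ℤ_[p] T H.ρ.V := ⟨fun a t v => by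
    rw [Algebra.smul_def, mul_smul]; rfl⟩
  haveI : Module.Finite ℤ_[p] H.ρ.V := Module.Finite.trans T H.ρ.V
  obtain ⟨F, hFi, hFg, -⟩ := exists_realization_datum hp𝒪 hpS hNS H hfin hF hlev hfaith (K := K)
  have hZK : Function.Injective (algebraMap ℤ_[p] K) := by
    have h1 : algebraMap ℤ_[p] K = (algebraMap 𝒪 K).comp (algebraMap ℤ_[p] 𝒪) := by
      ext x
      show ψ (algebraMap 𝒪 T (algebraMap ℤ_[p] 𝒪 x)) = _
      rw [AlgHom.commutes]; rfl
    rw [h1]
    exact (FaithfulSMul.algebraMap_injective 𝒪 K).comp (H35.padicToAdic_injective 𝒪 hp𝒪)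
  -- the restriction of `F` to `V`
  let f : H.ρ.V →ₗ[ℤ_[p]] K ⊗[ℤ_[p]] TateMod p J :=
    { toFun := fun v => F ((1 : K) ⊗ₜ[T] v)
      map_add' := fun v w => by rw [TensorProduct.tmul_add, map_add]
      map_smul' := fun a v => by
        have h1 : (a • v : H.ρ.V) = algebraMap ℤ_[p] T a • v := rfl
        rw [h1, TensorProduct.tmul_smul, RingHom.id_apply]
        have h2 : (algebraMap ℤ_[p] T a) • ((1 : K) ⊗ₜ[T] v) =
            (algebraMap ℤ_[p] K a) • ((1 : K) ⊗ₜ[T] v) := by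
          rw [TensorProduct.smul_tmul', TensorProduct.smul_tmul', Algebra.smul_def, smul_eq_mul]
          rfl
        rw [h2, map_smul, algebraMap_smul] }
  have hfv : ∀ v, f v = F ((1 : K) ⊗ₜ[T] v) := fun v => rfl
  -- `f ≠ 0`
  obtain ⟨v₀, hv₀⟩ : ∃ v, f v ≠ 0 := by
    let b := Module.Free.chooseBasis T H.ρ.V
    haveI : Nontrivial (Module.Free.ChooseBasisIndex T H.ρ.V) := by
      have h1 := Module.finrank_eq_card_chooseBasisIndex T H.ρ.V
      rw [H.ρ.finrank_eq] at h1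
      exact Fintype.one_lt_card_iff_nontrivial.mp (by omega)
    obtain ⟨i, -⟩ := exists_pair_ne (Module.Free.ChooseBasisIndex T H.ρ.V)
    refine ⟨b i, fun h0 => ?_⟩
    rw [hfv] at h0
    have h1 : (1 : K) ⊗ₜ[T] b i = 0 := hFi (by rw [h0, map_zero])
    have h2 := (Algebra.TensorProduct.basis K b).ne_zero i
    rw [Algebra.TensorProduct.basis_apply] at h2
    exact h2 h1
  obtain ⟨h, hne, hker, heq⟩ := exists_integral_map hZK f v₀ hv₀
  refine ⟨h.toAddMonoidHom, fun h0 => hne ?_, ?_, ?_⟩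
  · have := congrArg (fun g : H.ρ.V →+ TateMod p J => g v₀) h0
    simpa using this
  · intro σ v
    refine heq ((H.ρ.ρ σ).restrictScalars ℤ_[p]) (galTate p J σ) (fun v => ?_) v
    rw [hfv, hfv, ← hFg]
    rw [LinearMap.baseChange_tmul]
    rfl
  · intro t ht v
    refine hker (t • v) ?_
    rw [hfv, TensorProduct.tmul_smul]
    have h2 : t • ((1 : K) ⊗ₜ[T] v) = 0 := by
      rw [TensorProduct.smul_tmul', Algebra.smul_def]
      have : algebraMap T K t = 0 := ht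
      rw [this, zero_mul, TensorProduct.zero_tmul]
    rw [h2, map_zero]

/-- The same for `J_0(N)`. -/
theorem exists_hom_of_point {p : ℕ} [Fact p.Prime] {N : ℕ} [NeZero N] {S : Finset ℕ}
    {𝒪 : Type} [CommRing 𝒪] [IsDomain 𝒪] [IsDiscreteValuationRing 𝒪]
    [IsAdicComplete (IsLocalRing.maximalIdeal 𝒪) 𝒪]
    {θ : CuspForm.heckeAlgebra N 2 (↑S : Set ℕ) →+* IsLocalRing.ResidueField 𝒪}
    {T : Type} [CommRing T] [IsLocalRing T] [IsNoetherianRing T]
    [IsAdicComplete (IsLocalRing.maximalIdeal T) T] [Algebra 𝒪 T] [IsLocalHom (algebraMap 𝒪 T)]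
    [Module.Finite 𝒪 T] [Module.Free 𝒪 T]
    [Finite (IsLocalRing.ResidueField 𝒪)] [CharZero 𝒪]
    (hp𝒪 : (p : 𝒪) ∈ IsLocalRing.maximalIdeal 𝒪) (hpS : p ∈ S)
    (hNS : ∀ q : ℕ, q.Prime → q ∣ N → q ∈ S)
    (H : CuspForm.HeckeGaloisRepDatum N (↑S : Set ℕ) 𝒪 θ T)
    {K : Type} [Field K] [Algebra 𝒪 K] [FaithfulSMul 𝒪 K] (ψ : T →ₐ[𝒪] K) :
    ∃ h : H.ρ.V →+ TateMod p (JZero N), h ≠ 0 ∧
      (∀ σ v, h (H.ρ.ρ σ v) = galTate p (JZero N) σ (h v)) ∧
      ∀ t : T, ψ t = 0 → ∀ v, h (t • v) = 0 := by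
  have hp : p.Prime := Fact.out
  letI := heckeModuleBar N
  haveI := (H31.jzeroInputs N).principal
  haveI := (H31.jzeroInputs N).comm
  have hfin : ∀ n : ℕ, {x : JZero N | p ^ n • x = 0}.Finite :=
    fun n => (H31.jzeroInputs N).finite p n hp
  exact exists_hom_of_point_module hp𝒪 hpS hNS H (J := JZero N) (by simpa using hfin 1)
    (frobeniusQuadratic_of_specializationExists ((H31.jzeroInputs N).spec p hp))
    (finiteLevel_JZero N p hfin) ((H31.jzeroInputs N).faithful p S hp hpS hNS) ψ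

end Fermat.Agent.H32
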