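import Mathlib

/-!
# Extraction of an integral map from a map to `K ⊗ M`
-/

set_option autoImplicit false

noncomputable section

open scoped TensorProduct

namespace Fermat.Agent.H32

/-- A nonzero linear map `V → K ⊗ M` with `V` finite over a PID `R ⊂ K` and `M` free gives a
nonzero linear map `V → M`, compatible with every pair of endomorphisms with which the first one is
compatible. -/
theorem exists_integral_map {R : Type*} [CommRing R] [IsDomain R] [IsPrincipalIdealRing R]
    {K : Type*} [Field K] [Algebra R K] (hinj : Function.Injective (algebraMap R K))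
    {V : Type*} [AddCommGroup V] [Module R V] [Module.Finite R V]
    {M : Type*} [AddCommGroup M] [Module R M] [Module.Finite R M] [Module.Free R M]
    (f : V →ₗ[R] K ⊗[R] M) (v₀ : V) (hv₀ : f v₀ ≠ 0) :
    ∃ h : V →ₗ[R] M, h v₀ ≠ 0 ∧ (∀ v, f v = 0 → h v = 0) ∧
      ∀ (a : V →ₗ[R] V) (g : M →ₗ[R] M), (∀ v, f (a v) = g.baseChange K (f v)) →
        ∀ v, h (a v) = g (h v) := by
  classical
  have hTK : Module.IsTorsionFree R K := by
    refine Module.isTorsionFree_iff_smul_eq_zero.mpr ?_
    intro r m h
    rw [Algebra.smul_def, mul_eq_zero] at h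
    rcases h with h | h
    · exact Or.inl (hinj (by rw [h, map_zero]))
    · exact Or.inr h
  let b := Module.Free.chooseBasis R M
  let bK := Algebra.TensorProduct.basis K b
  let c : Module.Free.ChooseBasisIndex R M → V →ₗ[R] K := fun i =>
    ((bK.coord i).restrictScalars R) ∘ₗ f
  let P : Submodule R K := ⨆ i, LinearMap.range (c i)
  have hPfin : Module.Finite R P := by
    haveI : ∀ i, Module.Finite R (LinearMap.range (c i)) := fun i => inferInstance
    exact Submodule.finite_iSup _
  have hPfree : Module.Free R P := inferInstance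
  have hcP : ∀ i v, c i v ∈ P := fun i v => Submodule.mem_iSup_of_mem i ⟨v, rfl⟩
  let c' : Module.Free.ChooseBasisIndex R M → V →ₗ[R] P := fun i =>
    (c i).codRestrict P (hcP i)
  let f' : V →ₗ[R] P ⊗[R] M :=
    ∑ i, (((TensorProduct.mk R P M).flip (b i)) ∘ₗ (c' i))
  have hf'v : ∀ v, f' v = ∑ i, c' i v ⊗ₜ[R] b i := fun v => by
    simp [f', LinearMap.sum_apply]
  let ι : P ⊗[R] M →ₗ[R] K ⊗[R] M := P.subtype.rTensor M
  have hι : Function.Injective ι :=
    Module.Flat.rTensor_preserves_injective_linearMap P.subtype P.subtype_injective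
  have hf' : ∀ v, ι (f' v) = f v := by
    intro v
    rw [hf'v, map_sum]
    conv_rhs => rw [← bK.sum_repr (f v)]
    refine Finset.sum_congr rfl fun i _ => ?_
    rw [LinearMap.rTensor_tmul, Algebra.TensorProduct.basis_apply, TensorProduct.smul_tmul',
      smul_eq_mul, mul_one]
    rfl
  -- a coordinate of `f v₀` which is nonzero
  obtain ⟨i₀, hi₀⟩ : ∃ i, c' i v₀ ≠ 0 := by
    by_contra hcon
    push Not at hcon
    apply hv₀
    rw [← hf', hf'v]
    simp [hcon]
  let bP := Module.Free.chooseBasis R P
  obtain ⟨j₀, hj₀⟩ : ∃ j, bP.coord j (c' i₀ v₀) ≠ 0 := by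
    by_contra hcon
    push Not at hcon
    exact hi₀ ((bP.forall_coord_eq_zero_iff).mp hcon)
  let lam : P →ₗ[R] R := bP.coord j₀
  let h : V →ₗ[R] M := (TensorProduct.lid R M).toLinearMap ∘ₗ (lam.rTensor M) ∘ₗ f'
  have hhv : ∀ v, h v = TensorProduct.lid R M (lam.rTensor M (f' v)) := fun v => rfl
  refine ⟨h, ?_, ?_, ?_⟩
  · intro h0
    have h1 : h v₀ = ∑ i, lam (c' i v₀) • b i := by
      rw [hhv, hf'v, map_sum, map_sum]
      simp
    rw [h1] at h0
    exact hj₀ (Fintype.linearIndependent_iff.mp b.linearIndependent _ h0 i₀)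
  · intro v hv
    have : f' v = 0 := hι (by rw [hf', hv, map_zero])
    rw [hhv, this, map_zero, map_zero]
  · intro a g hag v
    have h1 : f' (a v) = g.lTensor P (f' v) := by
      apply hι
      rw [hf', hag, ← hf']
      show g.baseChange K (P.subtype.rTensor M (f' v)) = P.subtype.rTensor M (g.lTensor P (f' v))
      rw [← LinearMap.comp_apply, ← LinearMap.comp_apply (P.subtype.rTensor M),
        LinearMap.rTensor_comp_lTensor, ← LinearMap.lTensor_comp_rTensor]
      rfl
    rw [hhv, h1, hhv]
    generalize f' v = x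
    rw [← LinearMap.comp_apply (lam.rTensor M), LinearMap.rTensor_comp_lTensor,
      ← LinearMap.lTensor_comp_rTensor, LinearMap.comp_apply]
    generalize lam.rTensor M x = y
    induction y using TensorProduct.induction_on with
    | zero => simp
    | add x y hx hy => rw [map_add, map_add, map_add, hx, hy, map_add]
    | tmul r m => simp

end Fermat.Agent.H32
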