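import Mathlib.Algebra.Algebra.Basic
import Mathlib.LinearAlgebra.Trace
import Mathlib.LinearAlgebra.FreeModule.Finite.Matrix
import Mathlib.Tactic

/-!
# A "trace" argument

`G` a group, `R` a commutative ring, `E` an `R`-algebra, `μ : G →* Eˣ`-like, with
`μ g ^ 2 - t g * μ g + d g = 0`.  If `∑ a_g μ g = 0` then the "trace" `∑ a_g t (g h)` is killed by
the discriminant `ν(x,y) = det [x,y]` for every `x`, `y`.
-/

set_option autoImplicit false

namespace Fermat.Agent.H32

section Abstract

variable {R E G : Type*} [CommRing R] [Ring E] [Algebra R E] [Group G]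

/-- `det [X, Y]` in terms of traces and determinants. -/
def discComm (tx ty txy dx dy : R) : R :=
  4 * dx * dy - tx ^ 2 * dy - ty ^ 2 * dx + tx * ty * txy - txy ^ 2

variable (μ : G →* E) (t d : G → R)
  (hQ : ∀ g, μ g * μ g - algebraMap R E (t g) * μ g + algebraMap R E (d g) = 0)
  (hD1 : algebraMap R E (d 1) = 1)
  (hD2 : ∀ g h, algebraMap R E (d (g * h)) = algebraMap R E (d g) * algebraMap R E (d h))

include hQ in
theorem map_t_eq (g : G) : algebraMap R E (t g) = μ g + algebraMap R E (d g) * μ g⁻¹ := by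
  have h1 : (μ g * μ g - algebraMap R E (t g) * μ g + algebraMap R E (d g)) * μ g⁻¹ = 0 := by
    rw [hQ, zero_mul]
  have h2 : μ g * μ g⁻¹ = 1 := by rw [← map_mul, mul_inv_cancel, map_one]
  rw [add_mul, sub_mul, mul_assoc, mul_assoc, h2, mul_one, mul_one] at h1
  rw [← sub_eq_zero, ← neg_eq_zero, ← h1]
  abel

include hQ in
theorem map_d_mul_inv (g : G) : algebraMap R E (d g) * μ g⁻¹ = algebraMap R E (t g) - μ g := by
  rw [map_t_eq μ t d hQ g]; abel

include hQ hD2 in
theorem trace_sum_eq (s : Finset G) (a : G → R) (hz : ∑ g ∈ s, algebraMap R E (a g) * μ g = 0)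
    (h : G) :
    algebraMap R E (∑ g ∈ s, a g * t (g * h)) =
      algebraMap R E (d h) * μ h⁻¹ * algebraMap R E (∑ g ∈ s, a g * t g) := by
  have h1 : algebraMap R E (∑ g ∈ s, a g * t (g * h)) =
      (∑ g ∈ s, algebraMap R E (a g) * μ g) * μ h +
      algebraMap R E (d h) * μ h⁻¹ * ∑ g ∈ s, algebraMap R E (a g) *
        (algebraMap R E (d g) * μ g⁻¹) := by
    rw [map_sum, Finset.sum_mul, Finset.mul_sum, ← Finset.sum_add_distrib]
    refine Finset.sum_congr rfl fun g _ => ?_
    rw [map_mul, map_t_eq μ t d hQ (g * h), mul_add, map_mul, ← mul_assoc]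
    congr 1
    rw [mul_inv_rev, map_mul, hD2]
    calc algebraMap R E (a g) * (algebraMap R E (d g) * algebraMap R E (d h) * (μ h⁻¹ * μ g⁻¹))
        = algebraMap R E (a g * d g * d h) * (μ h⁻¹ * μ g⁻¹) := by
          rw [map_mul, map_mul]; simp only [mul_assoc]
      _ = algebraMap R E (d h) * (algebraMap R E (a g * d g) * μ h⁻¹) * μ g⁻¹ := by
          rw [show a g * d g * d h = d h * (a g * d g) by ring, map_mul]; simp only [mul_assoc]
      _ = algebraMap R E (d h) * (μ h⁻¹ * algebraMap R E (a g * d g)) * μ g⁻¹ := by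
          rw [Algebra.commutes (a g * d g) (μ h⁻¹)]
      _ = _ := by rw [map_mul]; simp only [mul_assoc]
  rw [h1, hz, zero_mul, zero_add]
  congr 1
  rw [map_sum]
  have h2 : ∑ g ∈ s, algebraMap R E (a g) * (algebraMap R E (d g) * μ g⁻¹) =
      ∑ g ∈ s, algebraMap R E (a g * t g) - ∑ g ∈ s, algebraMap R E (a g) * μ g := by
    rw [← Finset.sum_sub_distrib]
    refine Finset.sum_congr rfl fun g _ => ?_
    rw [map_d_mul_inv μ t d hQ, mul_sub, map_mul]
  rw [h2, hz, sub_zero]

include hQ hD1 hD2 in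
/-- `c * μ x` is a scalar. -/
theorem scalar_mul (s : Finset G) (a : G → R) (hz : ∑ g ∈ s, algebraMap R E (a g) * μ g = 0)
    (x : G) :
    algebraMap R E (∑ g ∈ s, a g * t g) * μ x =
      algebraMap R E (d x * ∑ g ∈ s, a g * t (g * x⁻¹)) := by
  rw [map_mul, trace_sum_eq μ t d hQ hD2 s a hz x⁻¹, inv_inv, ← mul_assoc, ← mul_assoc, ← hD2,
    mul_inv_cancel, hD1, one_mul, Algebra.commutes]

omit [Group G] in
theorem comm_sq_smul (X Y : E) (tx ty s dx dy : R) (hXX : X * X = tx • X - dx • (1 : E))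
    (hYY : Y * Y = ty • Y - dy • (1 : E))
    (hYX : Y * X = (s - tx * ty) • (1 : E) - X * Y + ty • X + tx • Y) :
    (X * Y - Y * X) * (X * Y - Y * X) = -(discComm tx ty s dx dy • (1 : E)) := by
  have hXYX : X * Y * X = s • X + dx • Y - (ty * dx) • (1 : E) := by
    rw [mul_assoc, hYX]
    simp only [mul_add, mul_sub, mul_smul_comm, mul_one, ← mul_assoc, hXX, sub_mul, smul_mul_assoc,
      one_mul]
    module
  have hYXY : Y * X * Y = s • Y + dy • X - (tx * dy) • (1 : E) := by
    rw [hYX]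
    simp only [add_mul, sub_mul, smul_mul_assoc, one_mul, mul_assoc, hYY, mul_sub, mul_smul_comm,
      mul_one]
    module
  have e0 : (X * Y - Y * X) * (X * Y - Y * X) =
      (X * Y * X) * Y - X * (Y * Y) * X - Y * (X * X) * Y + (Y * X * Y) * X := by
    noncomm_ring
  have e1 : (X * Y * X) * Y = s • (X * Y) - (dx * dy) • (1 : E) := by
    rw [hXYX]
    simp only [add_mul, sub_mul, smul_mul_assoc, one_mul, hYY]
    module
  have e2 : X * (Y * Y) * X = ty • (X * Y * X) - dy • (X * X) := by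
    rw [hYY]
    simp only [mul_sub, sub_mul, mul_smul_comm, smul_mul_assoc, mul_one]
  have e3 : Y * (X * X) * Y = tx • (Y * X * Y) - dx • (Y * Y) := by
    rw [hXX]
    simp only [mul_sub, sub_mul, mul_smul_comm, smul_mul_assoc, mul_one]
  have e4 : (Y * X * Y) * X = s • (Y * X) + dy • (X * X) - (tx * dy) • X := by
    rw [hYXY]
    simp only [add_mul, sub_mul, smul_mul_assoc, one_mul]
  rw [e0, e1, e2, e3, e4, hXYX, hYXY, hYX, hXX, hYY, discComm]
  module

include hQ hD2 in
theorem map_mul_swap (x y : G) :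
    μ y * μ x = (t (x * y) - t x * t y) • (1 : E) - μ x * μ y + t y • μ x + t x • μ y := by
  have h1 := map_t_eq μ t d hQ (x * y)
  rw [mul_inv_rev, map_mul, map_mul, hD2] at h1
  have h2 : algebraMap R E (d x) * algebraMap R E (d y) * (μ y⁻¹ * μ x⁻¹) =
      (algebraMap R E (d y) * μ y⁻¹) * (algebraMap R E (d x) * μ x⁻¹) := by
    calc _ = algebraMap R E (d y) * (algebraMap R E (d x) * μ y⁻¹) * μ x⁻¹ := by
          rw [← map_mul, mul_comm (d x) (d y), map_mul]; simp only [mul_assoc]
      _ = algebraMap R E (d y) * (μ y⁻¹ * algebraMap R E (d x)) * μ x⁻¹ := by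
          rw [Algebra.commutes (d x) (μ y⁻¹)]
      _ = _ := by simp only [mul_assoc]
  rw [h2, map_d_mul_inv μ t d hQ, map_d_mul_inv μ t d hQ] at h1
  simp only [Algebra.algebraMap_eq_smul_one, mul_sub, sub_mul, smul_mul_assoc, mul_smul_comm,
    mul_one, one_mul] at h1
  rw [sub_smul, h1]
  module

include hQ hD2 in
/-- `[μ x, μ y] ^ 2 = - ν`. -/
theorem comm_sq (x y : G) :
    (μ x * μ y - μ y * μ x) * (μ x * μ y - μ y * μ x) =
      - algebraMap R E (discComm (t x) (t y) (t (x * y)) (d x) (d y)) := by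
  have hs : ∀ g, μ g * μ g = t g • μ g - d g • (1 : E) := by
    intro g
    have := hQ g
    rw [Algebra.algebraMap_eq_smul_one, Algebra.algebraMap_eq_smul_one, smul_mul_assoc,
      one_mul] at this
    rw [← sub_eq_zero, ← this]
    abel
  rw [comm_sq_smul (μ x) (μ y) _ _ _ _ _ (hs x) (hs y) (map_mul_swap μ t d hQ hD2 x y),
    Algebra.algebraMap_eq_smul_one]

include hQ hD1 hD2 in
theorem disc_mul_trace_sum (s : Finset G) (a : G → R)
    (hz : ∑ g ∈ s, algebraMap R E (a g) * μ g = 0) (x y h : G) :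
    algebraMap R E (discComm (t x) (t y) (t (x * y)) (d x) (d y) *
      ∑ g ∈ s, a g * t (g * h)) = 0 := by
  set c := ∑ g ∈ s, a g * t g with hc
  have h1 : algebraMap R E c * (μ x * μ y - μ y * μ x) = 0 := by
    have e1 := scalar_mul μ t d hQ hD1 hD2 s a hz x
    rw [← hc] at e1
    have e2 : algebraMap R E c * (μ y * μ x) = μ y * (algebraMap R E c * μ x) := by
      rw [← mul_assoc, Algebra.commutes, mul_assoc]
    rw [mul_sub, e2, ← mul_assoc, e1, ← Algebra.commutes, sub_self]
  rw [map_mul, trace_sum_eq μ t d hQ hD2 s a hz h, ← neg_neg (algebraMap R E (discComm _ _ _ _ _)),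
    ← comm_sq μ t d hQ hD2 x y, ← hc]
  have e3 : algebraMap R E (d h) * μ h⁻¹ * algebraMap R E c =
      algebraMap R E c * (algebraMap R E (d h) * μ h⁻¹) := (Algebra.commutes _ _).symm
  rw [e3, neg_mul, mul_assoc, ← mul_assoc _ (algebraMap R E c), ← Algebra.commutes c, h1, zero_mul,
    mul_zero, neg_zero]

end Abstract

section Apply

variable {T V : Type*} [CommRing T] [AddCommGroup V] [Module T V]

/-- If `tr (x y) ∈ K` for all `y` then `x` is zero mod `K`. -/
theorem apply_mem_of_trace_mem (b : Module.Basis (Fin 2) T V) (K : Ideal T) (x : Module.End T V)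
    (h : ∀ y : Module.End T V, LinearMap.trace T V (x * y) ∈ K) (v : V) :
    x v ∈ K • (⊤ : Submodule T V) := by
  classical
  have key : ∀ i j, b.repr (x (b j)) i ∈ K := by
    intro i j
    have h1 := h (Matrix.toLin b b (Matrix.single j i 1))
    rw [LinearMap.trace_eq_matrix_trace T b, LinearMap.toMatrix_mul, LinearMap.toMatrix_toLin,
      Matrix.trace_mul_single] at h1
    simpa [LinearMap.toMatrix_apply] using h1
  rw [← b.sum_repr v, map_sum]
  refine Submodule.sum_mem _ fun j _ => ?_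
  rw [map_smul]
  refine Submodule.smul_mem _ _ ?_
  rw [← b.sum_repr (x (b j))]
  refine Submodule.sum_mem _ fun i _ => ?_
  exact Submodule.smul_mem_smul (key i j) Submodule.mem_top

/-- det of the commutator as a polynomial in traces and determinants. -/
theorem det_comm_eq (b : Module.Basis (Fin 2) T V) (X Y : Module.End T V) :
    LinearMap.det (X * Y - Y * X) =
      discComm (LinearMap.trace T V X) (LinearMap.trace T V Y) (LinearMap.trace T V (X * Y))
        (LinearMap.det X) (LinearMap.det Y) := by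
  classical
  rw [← LinearMap.det_toMatrix b, ← LinearMap.det_toMatrix b X, ← LinearMap.det_toMatrix b Y,
    LinearMap.trace_eq_matrix_trace T b, LinearMap.trace_eq_matrix_trace T b,
    LinearMap.trace_eq_matrix_trace T b, map_sub, LinearMap.toMatrix_mul, LinearMap.toMatrix_mul]
  set A := LinearMap.toMatrix b b X
  set B := LinearMap.toMatrix b b Y
  simp only [Matrix.det_fin_two, Matrix.trace_fin_two, Matrix.sub_apply, Matrix.mul_apply,
    Fin.sum_univ_two, discComm]
  ring

variable {R E G : Type*} [CommRing R] [Ring E] [Algebra R E] [Group G]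

theorem sum_apply_mem_of_sum_eq_zero (b : Module.Basis (Fin 2) T V)
    (ρ : G →* Module.End T V) (hspan : Submodule.span T (Set.range ρ) = ⊤)
    (x₀ y₀ : G) (hu : IsUnit (LinearMap.det (ρ x₀ * ρ y₀ - ρ y₀ * ρ x₀)))
    (K : Ideal T) (π : R →+* T)
    (μ : G →* E) (t d : G → R)
    (hQ : ∀ g, μ g * μ g - algebraMap R E (t g) * μ g + algebraMap R E (d g) = 0)
    (hD1 : algebraMap R E (d 1) = 1)
    (hD2 : ∀ g h, algebraMap R E (d (g * h)) = algebraMap R E (d g) * algebraMap R E (d h))
    (ht : ∀ g, π (t g) - LinearMap.trace T V (ρ g) ∈ K)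
    (hd : ∀ g, π (d g) - LinearMap.det (ρ g) ∈ K)
    (hfaith : ∀ P : R, algebraMap R E P = 0 → π P ∈ K)
    (s : Finset G) (a : G → R) (hz : ∑ g ∈ s, algebraMap R E (a g) * μ g = 0) (v : V) :
    ∑ g ∈ s, π (a g) • ρ g v ∈ K • (⊤ : Submodule T V) := by
  have hfin : Module.Finite T V := Module.Finite.of_basis b
  have hfree : Module.Free T V := Module.Free.of_basis b
  set q := Ideal.Quotient.mk K with hq
  have hqt : ∀ g, q (π (t g)) = q (LinearMap.trace T V (ρ g)) := fun g =>
    Ideal.Quotient.eq.mpr (ht g)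
  have hqd : ∀ g, q (π (d g)) = q (LinearMap.det (ρ g)) := fun g =>
    Ideal.Quotient.eq.mpr (hd g)
  set ν := discComm (t x₀) (t y₀) (t (x₀ * y₀)) (d x₀) (d y₀) with hν
  have hνT : q (π ν) = q (LinearMap.det (ρ x₀ * ρ y₀ - ρ y₀ * ρ x₀)) := by
    rw [det_comm_eq b, hν, discComm, discComm, ← map_mul ρ]
    simp only [map_sub, map_add, map_mul, map_pow, hqt, hqd, map_ofNat]
  have key : ∀ h : G, LinearMap.trace T V ((∑ g ∈ s, π (a g) • ρ g) * ρ h) ∈ K := by
    intro h
    have h1 := hfaith _ (disc_mul_trace_sum μ t d hQ hD1 hD2 s a hz x₀ y₀ h)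
    rw [← hν, ← Ideal.Quotient.eq_zero_iff_mem, ← hq, map_mul, map_mul, hνT] at h1
    have h2 : q (π (∑ g ∈ s, a g * t (g * h))) = 0 := by
      have hu' := hu.map q
      exact (hu'.mul_right_eq_zero).mp h1
    rw [← Ideal.Quotient.eq_zero_iff_mem, ← hq, ← h2, Finset.sum_mul, map_sum, map_sum, map_sum,
      map_sum]
    refine Finset.sum_congr rfl fun g _ => ?_
    rw [smul_mul_assoc, map_smul, smul_eq_mul, ← map_mul ρ, map_mul q, map_mul π, map_mul q, hqt]
  have key2 : ∀ y : Module.End T V, LinearMap.trace T V ((∑ g ∈ s, π (a g) • ρ g) * y) ∈ K := by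
    intro y
    have hy : y ∈ Submodule.span T (Set.range ρ) := by rw [hspan]; trivial
    refine Submodule.span_induction
      (p := fun y _ => LinearMap.trace T V ((∑ g ∈ s, π (a g) • ρ g) * y) ∈ K) ?_ ?_ ?_ ?_ hy
    · rintro _ ⟨g, rfl⟩
      exact key g
    · rw [mul_zero, map_zero]; exact K.zero_mem
    · intro f g _ _ hf hg
      rw [mul_add, map_add]
      exact K.add_mem hf hg
    · intro c f _ hf
      rw [mul_smul_comm, map_smul, smul_eq_mul]
      exact K.mul_mem_left _ hf
  have h3 := apply_mem_of_trace_mem b K _ key2 v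
  simpa [LinearMap.sum_apply, LinearMap.smul_apply] using h3

end Apply

end Fermat.Agent.H32
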