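import Fermat.Agent.H32Bridge
import Fermat.Agent.H32Trace
import Fermat.Agent.H32Commutator
import Fermat.Agent.H32Compare
import Fermat.Agent.H31Wire
import Mathlib.RingTheory.LocalRing.Quotient

/-!
# Flatness of the Hecke Galois representation (`S32`) from a flat Galois-Hecke module
-/

set_option autoImplicit false

noncomputable section

namespace Fermat.Agent.H32

open GaloisRep Polynomial CuspForm ModularCurve Fermat.Agent.H31

/-- Flat orders for subquotients. -/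
theorem HasFlatOrder.subquotient {ℓ : ℕ} {M W A : Type*} [AddCommGroup M] [AddCommGroup W]
    [AddCommGroup A] {actM : GQ → M → M} {actW : GQ → W → W} (h : HasFlatOrder ℓ M actM)
    (actA : GQ → A →+ A) (Φ : A →+ M) (Ψ : A →+ W) (hΨ : Function.Surjective Ψ)
    (hker : ∀ a, Φ a = 0 → Ψ a = 0) (hΦact : ∀ σ a, Φ (actA σ a) = actM σ (Φ a))
    (hΨact : ∀ σ a, Ψ (actA σ a) = actW σ (Ψ a)) : HasFlatOrder ℓ W actW := by
  have h0 : ∀ σ, Φ.ker ≤ Φ.ker.comap (actA σ) := by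
    intro σ a ha
    rw [AddSubgroup.mem_comap, AddMonoidHom.mem_ker, hΦact, AddMonoidHom.mem_ker.mp ha,
      ← map_zero Φ, ← hΦact, map_zero]
  have hN : HasFlatOrder ℓ (A ⧸ Φ.ker) (fun σ => QuotientAddGroup.map Φ.ker Φ.ker (actA σ) (h0 σ)) := by
    refine h.sub (QuotientAddGroup.kerLift Φ) (QuotientAddGroup.kerLift_injective Φ) ?_
    intro σ m
    obtain ⟨a, rfl⟩ := QuotientAddGroup.mk_surjective m
    rw [QuotientAddGroup.map_mk, QuotientAddGroup.kerLift_mk, QuotientAddGroup.kerLift_mk, hΦact]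
  refine hN.quotient (QuotientAddGroup.lift Φ.ker Ψ (fun a ha => hker a ha)) ?_ ?_
  · intro w
    obtain ⟨a, rfl⟩ := hΨ w
    exact ⟨a, rfl⟩
  · intro σ m
    obtain ⟨a, rfl⟩ := QuotientAddGroup.mk_surjective m
    exact hΨact σ a

section Main

variable {p : ℕ} {N : ℕ} [NeZero N] {S : Finset ℕ}
  {𝒪 : Type} [CommRing 𝒪] [IsDomain 𝒪] [IsDiscreteValuationRing 𝒪]
  [IsAdicComplete (IsLocalRing.maximalIdeal 𝒪) 𝒪]
  {θ : CuspForm.heckeAlgebra N 2 (↑S : Set ℕ) →+* IsLocalRing.ResidueField 𝒪}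
  {T : Type} [CommRing T] [IsLocalRing T] [IsNoetherianRing T]
  [IsAdicComplete (IsLocalRing.maximalIdeal T) T] [Algebra 𝒪 T] [IsLocalHom (algebraMap 𝒪 T)]
  [Module.Finite 𝒪 T] [Module.Free 𝒪 T]
  {J : Type*} [AddCommGroup J] [Module HeckeAlg J] [DistribMulAction Fermat.Agent.H31.GQ J]
  [SMulCommClass Fermat.Agent.H31.GQ HeckeAlg J]

/-- The action of polynomials in good Hecke operators on the torsion. -/
def alphaHecke (N : ℕ) (S : Set ℕ) (p n : ℕ) (J : Type*) [AddCommGroup J] [Module HeckeAlg J] :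
    MvPolynomial (GoodPrimes N S) ℤ →+*
      Module.End HeckeAlg (Submodule.torsionBy HeckeAlg J ((p : HeckeAlg) ^ n)) :=
  (algebraMap HeckeAlg _).comp (inclHecke N S).toRingHom

omit [DistribMulAction Fermat.Agent.H31.GQ J] [SMulCommClass Fermat.Agent.H31.GQ HeckeAlg J] in
theorem alphaHecke_apply (N : ℕ) (S : Set ℕ) (n : ℕ) (P : MvPolynomial (GoodPrimes N S) ℤ)
    (x : Submodule.torsionBy HeckeAlg J ((p : HeckeAlg) ^ n)) :
    alphaHecke N S p n J P x = inclHecke N S P • x := rfl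

/-- Good approximations of the trace and the determinant. -/
theorem exists_trace_det
    (hp : p.Prime) (hpS : p ∈ S) (hNS : ∀ q : ℕ, q.Prime → q ∣ N → q ∈ S)
    (H : CuspForm.HeckeGaloisRepDatum N (↑S : Set ℕ) 𝒪 θ T)
    (hF : FrobeniusQuadratic (K := ℚ) (L := AlgebraicClosure ℚ) N p J)
    (hfin : FiniteLevel p J) (n k : ℕ) (ζ : AlgebraicClosure ℚ)
    (hζ : IsPrimitiveRoot ζ (p ^ n)) (g : Fermat.Agent.H31.GQ) :
    ∃ (t : MvPolynomial (GoodPrimes N (↑S : Set ℕ)) ℤ) (d : ℕ),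
      torsEnd p n J g * torsEnd p n J g - alphaHecke N (↑S : Set ℕ) p n J t * torsEnd p n J g +
        alphaHecke N (↑S : Set ℕ) p n J (d : MvPolynomial (GoodPrimes N (↑S : Set ℕ)) ℤ) = 0 ∧
      g ζ = ζ ^ d ∧
      H.π (evHecke N (↑S : Set ℕ) t) - LinearMap.trace T H.ρ.V (H.ρ.ρ g) ∈
        IsLocalRing.maximalIdeal T ^ k ∧
      (d : T) - LinearMap.det (H.ρ.ρ g) ∈ IsLocalRing.maximalIdeal T ^ k := by
  obtain ⟨L₁, hL₁, hL₁'⟩ := hfin n
  obtain ⟨L₃, hL₃, hL₃'⟩ := H.ρ.isAdicContinuous k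
  have hpn : 0 < p ^ n := pow_pos hp.pos n
  set L₂ : IntermediateField ℚ (AlgebraicClosure ℚ) := IntermediateField.adjoin ℚ {ζ} with hL₂
  have halg : Algebra.IsAlgebraic ℚ (AlgebraicClosure ℚ) := AlgebraicClosure.isAlgebraic ℚ
  have hfd₂ : FiniteDimensional ℚ L₂ :=
    IntermediateField.adjoin.finiteDimensional (Algebra.IsAlgebraic.isAlgebraic (R := ℚ) ζ).isIntegral
  have hζL : ζ ∈ L₂ := IntermediateField.subset_adjoin ℚ _ (Set.mem_singleton ζ)
  obtain ⟨ℓ, hℓ, hℓS, A, hA, φ, hφ, j, hj⟩ :=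
    weakFrobeniusDensity (L₁ ⊔ L₂ ⊔ L₃) inferInstance S g
  have hle₁ : L₁ ≤ L₁ ⊔ L₂ ⊔ L₃ := le_sup_left.trans le_sup_left
  have hle₂ : L₂ ≤ L₁ ⊔ L₂ ⊔ L₃ := le_sup_right.trans le_sup_left
  have hle₃ : L₃ ≤ L₁ ⊔ L₂ ⊔ L₃ := le_sup_right
  have hℓN : ¬ ℓ ∣ N := fun h => hℓS (hNS ℓ hℓ h)
  have hℓS' : ℓ ∉ (↑S : Set ℕ) := by simpa using hℓS
  have hpℓ : ℓ ≠ p := by rintro rfl; exact hℓS hpS
  have hgood : ¬ ℓ ∣ N * p := by
    intro h
    rcases hℓ.dvd_mul.mp h with h | h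
    · exact hℓN h
    · exact hpℓ ((Nat.prime_dvd_prime_iff_eq hℓ hp).mp h)
  have hcop : Nat.Coprime ℓ (p ^ n) := Nat.Coprime.pow_right n ((Nat.coprime_primes hℓ hp).mpr hpℓ)
  let ℓ₁ : GoodPrimes N (↑S : Set ℕ) := ⟨⟨ℓ, hℓ⟩, hℓN, hℓS'⟩
  refine ⟨luc (MvPolynomial.X ℓ₁) (ℓ : MvPolynomial (GoodPrimes N (↑S : Set ℕ)) ℤ) j, ℓ ^ j,
    ?_, ?_, ?_, ?_⟩
  · have q1 := quadratic_pow (heckeGen ⟨ℓ, hℓ⟩) (ℓ : HeckeAlg) (torsEnd p n J φ)
      (frobenius_quadratic_torsEnd hF n hℓ hgood hA hφ) j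
    have g1 : torsEnd p n J g = torsEnd p n J φ ^ j := by
      rw [← map_pow]
      exact torsEnd_eq_of_agree hL₁' _ _ (fun x hx => hj x (hle₁ hx))
    rw [← g1] at q1
    have a1 := map_luc (inclHecke N (↑S : Set ℕ)).toRingHom (MvPolynomial.X ℓ₁)
      (ℓ : MvPolynomial (GoodPrimes N (↑S : Set ℕ)) ℤ) j
    simp only [AlgHom.toRingHom_eq_coe, RingHom.coe_coe, inclHecke_X, map_natCast] at a1
    have e1 : alphaHecke N (↑S : Set ℕ) p n J (luc (MvPolynomial.X ℓ₁)
        (ℓ : MvPolynomial (GoodPrimes N (↑S : Set ℕ)) ℤ) j) =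
        algebraMap HeckeAlg _ (luc (heckeGen ⟨ℓ, hℓ⟩) (ℓ : HeckeAlg) j) :=
      congrArg (algebraMap HeckeAlg (Module.End HeckeAlg
        (Submodule.torsionBy HeckeAlg J ((p : HeckeAlg) ^ n)))) a1
    have e2 : alphaHecke N (↑S : Set ℕ) p n J
        ((ℓ ^ j : ℕ) : MvPolynomial (GoodPrimes N (↑S : Set ℕ)) ℤ) =
        algebraMap HeckeAlg _ ((ℓ : HeckeAlg) ^ j) := by
      rw [map_natCast, map_pow, map_natCast, Nat.cast_pow]
    rw [e1, e2]
    exact q1
  · have hfrob : ∀ i : ℕ, (φ ^ i) ζ = ζ ^ (ℓ ^ i) := by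
      intro i
      induction i with
      | zero => simp
      | succ i ih =>
        rw [pow_succ, AlgEquiv.mul_apply,
          frobenius_apply_rootOfUnity A hA hcop hpn hφ hζ.pow_eq_one, map_pow, ih,
          ← pow_mul, ← pow_succ]
    rw [hj ζ (hle₂ hζL), hfrob]
  · have h1 := trace_sub_mem_of_agree H.ρ k L₃ hL₃' (φ ^ j) g (fun x hx => (hj x (hle₃ hx)).symm)
    have h2 := trace_pow_of_charpoly H.ρ.finrank_eq (H.ρ.ρ φ) _ _
      (H.charpoly_frob ℓ hℓ hℓN hℓS' A hA φ hφ) j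
    rw [map_pow, h2] at h1
    have h3 : H.π (evHecke N (↑S : Set ℕ) (luc (MvPolynomial.X ℓ₁)
        (ℓ : MvPolynomial (GoodPrimes N (↑S : Set ℕ)) ℤ) j)) =
        luc (H.π (heckeAlgebra.T hℓ hℓN hℓS')) (ℓ : T) j := by
      rw [map_luc, map_luc, evHecke_X, map_natCast, map_natCast]
    rw [h3]
    exact h1
  · let b := Module.finBasisOfFinrankEq T H.ρ.V H.ρ.finrank_eq
    have h1 := det_sub_mem b (IsLocalRing.maximalIdeal T ^ k) (H.ρ.ρ (φ ^ j)) (H.ρ.ρ g)
      (fun v => sub_mem_of_agree H.ρ k L₃ hL₃' (φ ^ j) g (fun x hx => (hj x (hle₃ hx)).symm) v)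
    rw [map_pow, map_pow, det_eq_of_charpoly H.ρ.finrank_eq (H.ρ.ρ φ) _ _
      (H.charpoly_frob ℓ hℓ hℓN hℓS' A hA φ hφ)] at h1
    rw [Nat.cast_pow]
    exact h1

variable (N S p J) in
/-- The `n`-th torsion. -/
abbrev Tors (n : ℕ) : Type _ := Submodule.torsionBy HeckeAlg J ((p : HeckeAlg) ^ n)

set_option maxHeartbeats 1000000 in
/-- Relations between Galois elements on the torsion are satisfied by `ρ mod 𝔪 ^ k`. -/
theorem exists_level_relations
    (hp : p.Prime) (hp𝒪 : (p : 𝒪) ∈ IsLocalRing.maximalIdeal 𝒪)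
    (hpS : p ∈ S) (hNS : ∀ q : ℕ, q.Prime → q ∣ N → q ∈ S)
    (H : CuspForm.HeckeGaloisRepDatum N (↑S : Set ℕ) 𝒪 θ T)
    (hF : FrobeniusQuadratic (K := ℚ) (L := AlgebraicClosure ℚ) N p J)
    (hfin : FiniteLevel p J) (hfaith : HeckeFaithful N (↑S : Set ℕ) p J) (k : ℕ) :
    ∃ n : ℕ, ∀ z : Fermat.Agent.H31.GQ →₀ MvPolynomial (GoodPrimes N (↑S : Set ℕ)) ℤ,
      z.sum (fun g a => alphaHecke N (↑S : Set ℕ) p n J a * torsEnd p n J g) = 0 →
      ∀ v : H.ρ.V, z.sum (fun g a => H.π (evHecke N (↑S : Set ℕ) a) • H.ρ.ρ g v) ∈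
        IsLocalRing.maximalIdeal T ^ k • (⊤ : Submodule T H.ρ.V) := by
  obtain ⟨c, u, hu, hfaith⟩ := hfaith
  refine ⟨k + c, fun z hz v => ?_⟩
  set n := k + c with hn
  have hpn : 0 < p ^ n := pow_pos hp.pos n
  have : NeZero (p ^ n) := ⟨hpn.ne'⟩
  obtain ⟨ζ, hζ⟩ := HasEnoughRootsOfUnity.exists_primitiveRoot (AlgebraicClosure ℚ) (p ^ n)
  choose t d hQ hd ht hdet using
    fun g => exists_trace_det hp hpS hNS H hF hfin n k ζ hζ g
  -- the prime `p` in `T`
  have hpT : (p : T) ∈ IsLocalRing.maximalIdeal T := by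
    have h1 : algebraMap 𝒪 T (p : 𝒪) ∈ IsLocalRing.maximalIdeal T := by
      rw [IsLocalRing.mem_maximalIdeal, mem_nonunits_iff] at hp𝒪 ⊢
      exact fun h => hp𝒪 (isUnit_of_map_unit (algebraMap 𝒪 T) _ h)
    rwa [map_natCast] at h1
  have huT : IsUnit (u : T) := by
    by_contra h
    have h1 : (u : T) ∈ IsLocalRing.maximalIdeal T := by
      rwa [IsLocalRing.mem_maximalIdeal, mem_nonunits_iff]
    have h2 : IsCoprime (u : ℤ) (p : ℤ) := by
      rw [Nat.isCoprime_iff_coprime]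
      exact ((Nat.Prime.coprime_iff_not_dvd hp).mpr hu).symm
    obtain ⟨x, y, hxy⟩ := h2
    have h3 : (x : T) * (u : T) + (y : T) * (p : T) = 1 := by exact_mod_cast congrArg (Int.cast : ℤ → T) hxy
    have h4 : (1 : T) ∈ IsLocalRing.maximalIdeal T := by
      rw [← h3]
      exact Ideal.add_mem _ (Ideal.mul_mem_left _ _ h1) (Ideal.mul_mem_left _ _ hpT)
    exact (Ideal.ne_top_iff_one _).mp (IsLocalRing.maximalIdeal.isMaximal T).ne_top h4
  -- algebra structure
  let R := MvPolynomial (GoodPrimes N (↑S : Set ℕ)) ℤ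
  let E := Module.End HeckeAlg (Submodule.torsionBy HeckeAlg J ((p : HeckeAlg) ^ n))
  let algE : Algebra R E := (alphaHecke N (↑S : Set ℕ) p n J).toAlgebra' (by
    intro r x
    exact Algebra.commutes (inclHecke N (↑S : Set ℕ) r) x)
  have halg : ∀ r : R, algebraMap R E r = alphaHecke N (↑S : Set ℕ) p n J r := fun r => rfl
  -- p ^ n kills everything
  have hkill : ∀ a b : ℕ, a ≡ b [MOD p ^ n] → algebraMap R E (a : R) = algebraMap R E (b : R) := by
    intro a b hab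
    rw [halg, halg, map_natCast, map_natCast]
    have hpz : ((p ^ n : ℕ) : E) = 0 := by
      refine LinearMap.ext fun x => Subtype.ext ?_
      rw [Module.End.natCast_apply]
      exact nsmul_eq_zero_of_mem x
    have key : ∀ a : ℕ, (a : E) = ((a % p ^ n : ℕ) : E) := by
      intro a
      conv_lhs => rw [← Nat.mod_add_div a (p ^ n)]
      rw [Nat.cast_add, Nat.cast_mul, hpz, zero_mul, add_zero]
    rw [key a, key b, hab]
  have hζmod : ∀ a b : ℕ, ζ ^ a = ζ ^ b → a ≡ b [MOD p ^ n] := by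
    intro a b hab
    have hζ0 : ζ ≠ 0 := hζ.ne_zero hpn.ne'
    rw [hζ.eq_orderOf, ← Units.val_mk0 hζ0, orderOf_units]
    refine (pow_eq_pow_iff_modEq).mp (Units.ext ?_)
    simpa using hab
  obtain ⟨x₀, y₀, hxy⟩ := exists_isUnit_det_commutator H.ρ H.residual_absIrr
  let b := Module.finBasisOfFinrankEq T H.ρ.V H.ρ.finrank_eq
  have hD1 : algebraMap R E (d 1 : R) = 1 := by
    have h1 : d 1 ≡ 1 [MOD p ^ n] := hζmod _ _ (by rw [← hd 1, pow_one]; rfl)
    rw [hkill _ _ h1, Nat.cast_one, map_one]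
  have hD2 : ∀ g h : Fermat.Agent.H31.GQ, algebraMap R E (d (g * h) : R) =
      algebraMap R E (d g : R) * algebraMap R E (d h : R) := by
    intro g h
    rw [← map_mul, ← Nat.cast_mul]
    refine hkill _ _ (hζmod _ _ ?_)
    rw [← hd (g * h), AlgEquiv.mul_apply, hd h, map_pow, hd g, ← pow_mul]
  have hF' : ∀ P : R, algebraMap R E P = 0 →
      (H.π.comp (evHecke N (↑S : Set ℕ))) P ∈ IsLocalRing.maximalIdeal T ^ k := by
    intro P hP
    obtain ⟨y, hy⟩ := hfaith n P (by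
      intro x hx
      have hxm : x ∈ Submodule.torsionBy HeckeAlg J ((p : HeckeAlg) ^ n) := by
        rw [Submodule.mem_torsionBy_iff]
        have e : ((p ^ n : ℕ) : HeckeAlg) = ((p : HeckeAlg) ^ n) := by push_cast; rfl
        rw [← e, Nat.cast_smul_eq_nsmul]
        exact hx
      have h2 := LinearMap.congr_fun hP ⟨x, hxm⟩
      exact congrArg Subtype.val h2)
    have h1 := congrArg H.π hy
    rw [map_mul, map_natCast, map_mul, map_pow, map_natCast, hn, Nat.add_sub_cancel] at h1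
    have h2 : (u : T) * H.π (evHecke N (↑S : Set ℕ) P) ∈ IsLocalRing.maximalIdeal T ^ k := by
      rw [h1]
      exact Ideal.mul_mem_right _ _ (Ideal.pow_mem_pow hpT k)
    exact (Ideal.unit_mul_mem_iff_mem _ huT).mp h2
  have hdet' : ∀ g, (H.π.comp (evHecke N (↑S : Set ℕ))) (d g : R) - LinearMap.det (H.ρ.ρ g) ∈
      IsLocalRing.maximalIdeal T ^ k := by
    intro g
    have h1 := hdet g
    rw [map_natCast]
    exact h1
  let μ : Fermat.Agent.H31.GQ →* E := torsEnd p n J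
  have hQ' : ∀ g, μ g * μ g - algebraMap R E (t g) * μ g + algebraMap R E (d g : R) = 0 := hQ
  have hz' : ∑ g ∈ z.support, algebraMap R E (z g) * μ g = 0 := hz
  exact sum_apply_mem_of_sum_eq_zero (R := R) (E := E) (G := Fermat.Agent.H31.GQ) b H.ρ.ρ
    (span_range_eq_top H.ρ H.residual_absIrr) x₀ y₀ hxy
    (IsLocalRing.maximalIdeal T ^ k) (H.π.comp (evHecke N (↑S : Set ℕ))) μ t
    (fun g => (d g : R)) hQ' hD1 hD2 ht hdet' hF' z.support z hz' v

omit [IsNoetherianRing T] [IsAdicComplete (IsLocalRing.maximalIdeal T) T] in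
theorem exists_span_vector (ρ : GaloisRepAdic T) (h : ρ.residual.IsAbsolutelyIrreducible) :
    ∃ v₀ : ρ.V, Submodule.span T (Set.range fun g => ρ.ρ g v₀) = ⊤ := by
  let b := Module.finBasisOfFinrankEq T ρ.V ρ.finrank_eq
  refine ⟨b 0, ?_⟩
  rw [eq_top_iff]
  intro v _
  let y : Module.End T ρ.V := b.constr T (fun _ => v)
  have hy : y (b 0) = v := by simp [y]
  have hmem : y ∈ Submodule.span T (Set.range ρ.ρ) := by
    rw [span_range_eq_top ρ h]; trivial
  have h1 := Submodule.mem_map_of_mem (f := LinearMap.applyₗ (b 0)) hmem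
  rw [Submodule.map_span, ← Set.range_comp] at h1
  have h2 : (LinearMap.applyₗ (b 0)) y = v := hy
  rw [h2] at h1
  exact h1

/-- The Hecke Galois representation is flat if the torsion of the Galois-Hecke module is. -/
theorem isFlatAt_of_module [Finite (IsLocalRing.ResidueField 𝒪)]
    (hp : p.Prime) (hp𝒪 : (p : 𝒪) ∈ IsLocalRing.maximalIdeal 𝒪)
    (hpS : p ∈ S) (hNS : ∀ q : ℕ, q.Prime → q ∣ N → q ∈ S)
    (H : CuspForm.HeckeGaloisRepDatum N (↑S : Set ℕ) 𝒪 θ T)
    (hF : FrobeniusQuadratic (K := ℚ) (L := AlgebraicClosure ℚ) N p J)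
    (hfaith : HeckeFaithful N (↑S : Set ℕ) p J)
    (hflat : ∀ n : ℕ, HasFlatOrder p (Submodule.torsionBy HeckeAlg J ((p : HeckeAlg) ^ n))
      (fun σ m => torsEnd p n J σ m)) :
    H.ρ.IsFlatAt p := by
  have : Fact p.Prime := ⟨hp⟩
  have hfin : FiniteLevel p J := by
    intro n
    obtain ⟨L, hL, h1⟩ := (hflat n).exists_finite_level
    refine ⟨L, hL, fun σ hσ x hx => ?_⟩
    have hxm : x ∈ Submodule.torsionBy HeckeAlg J ((p : HeckeAlg) ^ n) := by
      rw [Submodule.mem_torsionBy_iff]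
      have e : ((p ^ n : ℕ) : HeckeAlg) = ((p : HeckeAlg) ^ n) := by push_cast; rfl
      rw [← e, Nat.cast_smul_eq_nsmul]
      exact hx
    exact congrArg Subtype.val (h1 σ hσ ⟨x, hxm⟩)
  refine ⟨?_, ?_⟩
  · refine Finite.of_surjective (IsLocalRing.ResidueField.map (algebraMap 𝒪 T)) ?_
    intro x
    obtain ⟨y, hy⟩ := H.residue_surjective x
    exact ⟨IsLocalRing.residue 𝒪 y, by rw [IsLocalRing.ResidueField.map_residue]; exact hy⟩
  intro I hI
  obtain ⟨k, hk⟩ := IsLocalRing.exists_maximalIdeal_pow_le_of_isArtinianRing_quotient I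
  obtain ⟨n, hn⟩ := exists_level_relations hp hp𝒪 hpS hNS H hF hfin hfaith k
  obtain ⟨v₀, hv₀⟩ := exists_span_vector H.ρ H.residual_absIrr
  let R := MvPolynomial (GoodPrimes N (↑S : Set ℕ)) ℤ
  let M := Submodule.torsionBy HeckeAlg J ((p : HeckeAlg) ^ n)
  let W := H.ρ.V ⧸ (I • (⊤ : Submodule T H.ρ.V))
  let s : T ⧸ I → T := Function.surjInv Ideal.Quotient.mk_surjective
  have hs : ∀ i, Ideal.Quotient.mk I (s i) = i := Function.surjInv_eq Ideal.Quotient.mk_surjective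
  have := Fintype.ofFinite (T ⧸ I)
  -- the group-ring maps
  let Φ₀ : (GQ →₀ R) →+ Module.End HeckeAlg M :=
    Finsupp.liftAddHom fun g =>
      (AddMonoidHom.mulRight (torsEnd p n J g)).comp
        (alphaHecke N (↑S : Set ℕ) p n J).toAddMonoidHom
  let Ψ₀ : (GQ →₀ R) →+ H.ρ.V :=
    Finsupp.liftAddHom fun g =>
      ((LinearMap.toSpanSingleton T H.ρ.V (H.ρ.ρ g v₀)).toAddMonoidHom).comp
        (H.π.comp (evHecke N (↑S : Set ℕ))).toAddMonoidHom
  have hΦ₀ : ∀ z, Φ₀ z = z.sum (fun g a => alphaHecke N (↑S : Set ℕ) p n J a * torsEnd p n J g) :=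
    fun z => rfl
  have hΨ₀ : ∀ z, Ψ₀ z = z.sum (fun g a => H.π (evHecke N (↑S : Set ℕ) a) • H.ρ.ρ g v₀) :=
    fun z => rfl
  have hker₀ : ∀ z, Φ₀ z = 0 → Ψ₀ z ∈ I • (⊤ : Submodule T H.ρ.V) := fun z hz =>
    Submodule.smul_mono_left hk (hn z hz v₀)
  let τ : GQ → (GQ →₀ R) →+ (GQ →₀ R) := fun σ => Finsupp.mapDomain.addMonoidHom (fun g => σ * g)
  have hΦτ : ∀ σ z, Φ₀ (τ σ z) = torsEnd p n J σ * Φ₀ z := by
    intro σ z
    induction z using Finsupp.induction_linear with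
    | zero => rw [map_zero, map_zero, mul_zero]
    | add f g hf hg => rw [map_add, map_add, map_add, hf, hg, mul_add]
    | single g a =>
      have e1 : τ σ (Finsupp.single g a) = Finsupp.single (σ * g) a := Finsupp.mapDomain_single
      rw [e1, hΦ₀, hΦ₀, Finsupp.sum_single_index (by rw [map_zero, zero_mul]),
        Finsupp.sum_single_index (by rw [map_zero, zero_mul]), map_mul, ← mul_assoc, ← mul_assoc]
      congr 1
      exact Algebra.commutes (inclHecke N (↑S : Set ℕ) a) (torsEnd p n J σ)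
  have hΨτ : ∀ σ z, Ψ₀ (τ σ z) = H.ρ.ρ σ (Ψ₀ z) := by
    intro σ z
    induction z using Finsupp.induction_linear with
    | zero => rw [map_zero, map_zero, map_zero]
    | add f g hf hg => rw [map_add, map_add, map_add, hf, hg, map_add]
    | single g a =>
      have e1 : τ σ (Finsupp.single g a) = Finsupp.single (σ * g) a := Finsupp.mapDomain_single
      rw [e1, hΨ₀, hΨ₀, Finsupp.sum_single_index (by rw [map_zero, map_zero, zero_smul]),
        Finsupp.sum_single_index (by rw [map_zero, map_zero, zero_smul]), map_mul, map_smul,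
        Module.End.mul_apply]
  have hfinM : Finite M := (hflat n).1
  have hflat' : HasFlatOrder p (T ⧸ I → M → M)
      (fun σ x i j => torsEnd p n J σ (x i j)) := ((hflat n).pi M).pi (T ⧸ I)
  let Φ : (T ⧸ I → (GQ →₀ R)) →+ (T ⧸ I → M → M) :=
    { toFun := fun f i m => Φ₀ (f i) m
      map_zero' := by
        funext i m
        rw [Pi.zero_apply, map_zero]; rfl
      map_add' := fun f g => by
        funext i m
        rw [Pi.add_apply, map_add]; rfl }
  let Ψ : (T ⧸ I → (GQ →₀ R)) →+ W :=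
    { toFun := fun f => ∑ i, s i • (Submodule.Quotient.mk (Ψ₀ (f i)) : W)
      map_zero' := by
        refine Finset.sum_eq_zero fun i _ => ?_
        rw [Pi.zero_apply, map_zero, Submodule.Quotient.mk_zero, smul_zero]
      map_add' := fun f g => by
        rw [← Finset.sum_add_distrib]
        refine Finset.sum_congr rfl fun i _ => ?_
        rw [Pi.add_apply, map_add, Submodule.Quotient.mk_add, smul_add] }
  have hΦ : ∀ f i m, Φ f i m = Φ₀ (f i) m := fun _ _ _ => rfl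
  have hΨ : ∀ f, Ψ f = ∑ i, s i • (Submodule.Quotient.mk (Ψ₀ (f i)) : W) := fun _ => rfl
  let actA : GQ → (T ⧸ I → (GQ →₀ R)) →+ (T ⧸ I → (GQ →₀ R)) := fun σ =>
    { toFun := fun f i => τ σ (f i)
      map_zero' := by funext i; rw [Pi.zero_apply, map_zero]
      map_add' := fun f g => by funext i; rw [Pi.add_apply, map_add, Pi.add_apply] }
  have hactA : ∀ σ f i, actA σ f i = τ σ (f i) := fun _ _ _ => rfl
  have hW : HasFlatOrder p W (fun σ w => H.ρ.levelAction I σ w) := by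
    refine hflat'.subquotient actA Φ Ψ ?_ ?_ ?_ ?_
    · -- surjectivity
      intro w
      obtain ⟨v, rfl⟩ := Submodule.Quotient.mk_surjective _ w
      have hv : v ∈ Submodule.span T (Set.range fun g => H.ρ.ρ g v₀) := by rw [hv₀]; trivial
      refine Submodule.closure_induction
        (p := fun v _ => ∃ f, Ψ f = (Submodule.Quotient.mk v : W)) ?_ ?_ ?_ hv
      · exact ⟨0, by rw [map_zero, Submodule.Quotient.mk_zero]⟩
      · rintro x y _ _ ⟨f, hf⟩ ⟨g, hg⟩
        exact ⟨f + g, by rw [map_add, hf, hg, Submodule.Quotient.mk_add]⟩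
      · rintro r _ ⟨g, rfl⟩
        classical
        refine ⟨Pi.single (Ideal.Quotient.mk I r) (Finsupp.single g 1), ?_⟩
        rw [hΨ, Finset.sum_eq_single (Ideal.Quotient.mk I r)]
        · rw [Pi.single_eq_same, hΨ₀, Finsupp.sum_single_index (by rw [map_zero, map_zero, zero_smul]),
            map_one, map_one, one_smul, ← Submodule.Quotient.mk_smul, Submodule.Quotient.eq,
            ← sub_smul]
          refine Submodule.smul_mem_smul ?_ Submodule.mem_top
          rw [← Ideal.Quotient.eq, hs]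
        · intro i _ hi
          rw [Pi.single_eq_of_ne hi, map_zero, Submodule.Quotient.mk_zero, smul_zero]
        · intro h
          exact absurd (Finset.mem_univ _) h
    · -- kernel
      intro f hf
      rw [hΨ]
      refine Finset.sum_eq_zero fun i _ => ?_
      have h1 : Φ₀ (f i) = 0 := by
        refine LinearMap.ext fun m => ?_
        rw [← hΦ, hf]; rfl
      rw [(Submodule.Quotient.mk_eq_zero _).mpr (hker₀ _ h1), smul_zero]
    · intro σ f
      funext i m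
      rw [hΦ, hactA, hΦτ, Module.End.mul_apply, hΦ]
    · intro σ f
      rw [hΨ, hΨ, map_sum]
      refine Finset.sum_congr rfl fun i _ => ?_
      rw [hactA, hΨτ, map_smul]
      rfl
  exact hW.hasFlatModel

end Main

end Fermat.Agent.H32
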