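import Fermat.Agent.H33CaseD

/-!
# Case C: classes killed by `T_p` and fixed by `I ∩ Stab(ζ)` (helper33)
-/

set_option autoImplicit false

open ModularCurve AlgebraicCurve

namespace Fermat.Agent.H33

section Lead

variable {K : Type*} [Field K]

theorem lc_pow (f : LaurentSeries K) (n : ℕ) : (f ^ n).leadingCoeff = f.leadingCoeff ^ n := by
  induction n with
  | zero => rw [pow_zero, pow_zero, HahnSeries.leadingCoeff_one]
  | succ n ih => rw [pow_succ, pow_succ, HahnSeries.leadingCoeff_mul, ih]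

theorem lc_cst (c : K) : (cst c : LaurentSeries K).leadingCoeff = c := by
  rw [cst_eq, HahnSeries.leadingCoeff_of_single]

theorem lc_prod {ι : Type*} (s : Finset ι) (f : ι → LaurentSeries K) :
    (∏ i ∈ s, f i).leadingCoeff = ∏ i ∈ s, (f i).leadingCoeff := by
  classical
  induction s using Finset.induction_on with
  | empty => simp
  | insert a s ha ih =>
    rw [Finset.prod_insert ha, Finset.prod_insert ha, HahnSeries.leadingCoeff_mul, ih]

theorem order_eq_of {f : LaurentSeries K} {n : ℤ} (h1 : f.coeff n ≠ 0)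
    (h2 : ∀ m, f.coeff m ≠ 0 → n ≤ m) : f.order = n := by
  have hne : f ≠ 0 := by rintro rfl; simp at h1
  apply le_antisymm
  · exact HahnSeries.order_le_of_coeff_ne_zero h1
  · exact h2 _ (HahnSeries.coeff_order_eq_zero.not.mpr hne)

theorem le_of_coeff_ne {f : LaurentSeries K} {m : ℤ} (h : f.coeff m ≠ 0) : f.order ≤ m :=
  HahnSeries.order_le_of_coeff_ne_zero h

theorem order_coeffMap {K' : Type*} [Field K'] (σ : K →+* K') (f : LaurentSeries K) :
    (coeffMap σ f).order = f.order := by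
  rcases eq_or_ne f 0 with rfl | hf
  · simp
  apply order_eq_of
  · rw [coeffMap_coeff]
    exact (map_ne_zero σ).mpr (HahnSeries.coeff_order_eq_zero.not.mpr hf)
  · intro m hm
    rw [coeffMap_coeff] at hm
    exact le_of_coeff_ne ((map_ne_zero σ).mp hm)

theorem lc_coeffMap {K' : Type*} [Field K'] (σ : K →+* K') (f : LaurentSeries K) :
    (coeffMap σ f).leadingCoeff = σ f.leadingCoeff := by
  rw [HahnSeries.leadingCoeff_eq, HahnSeries.leadingCoeff_eq, order_coeffMap, coeffMap_coeff]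

theorem order_twist (u : Kˣ) (f : LaurentSeries K) : (H60.twist u f).order = f.order := by
  rcases eq_or_ne f 0 with rfl | hf
  · simp
  apply order_eq_of
  · rw [H60.twist_coeff]
    exact mul_ne_zero (Units.ne_zero _) (HahnSeries.coeff_order_eq_zero.not.mpr hf)
  · intro m hm
    rw [H60.twist_coeff] at hm
    exact le_of_coeff_ne (right_ne_zero_of_mul hm)

theorem lc_twist (u : Kˣ) (f : LaurentSeries K) :
    (H60.twist u f).leadingCoeff = ((u ^ f.order : Kˣ) : K) * f.leadingCoeff := by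
  rw [HahnSeries.leadingCoeff_eq, HahnSeries.leadingCoeff_eq, order_twist, H60.twist_coeff]

theorem order_qExpand (n : ℕ) [NeZero n] (f : LaurentSeries K) :
    (qExpand K n f).order = n * f.order := by
  rcases eq_or_ne f 0 with rfl | hf
  · simp
  apply order_eq_of
  · rw [qExpand_coeff_mul]
    exact HahnSeries.coeff_order_eq_zero.not.mpr hf
  · intro m hm
    by_cases hd : (n : ℤ) ∣ m
    · obtain ⟨m, rfl⟩ := hd
      rw [qExpand_coeff_mul] at hm
      have := le_of_coeff_ne hm
      have hn : (0 : ℤ) < n := by exact_mod_cast Nat.pos_of_ne_zero (NeZero.ne n)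
      exact mul_le_mul_of_nonneg_left this hn.le
    · exact absurd (qExpand_coeff_of_not_dvd n _ hd) hm

theorem lc_qExpand (n : ℕ) [NeZero n] (f : LaurentSeries K) :
    (qExpand K n f).leadingCoeff = f.leadingCoeff := by
  rw [HahnSeries.leadingCoeff_eq, HahnSeries.leadingCoeff_eq, order_qExpand, qExpand_coeff_mul]

/-- leading coefficient of the norm operator, `p` odd -/
theorem lc_normOp {p : ℕ} [NeZero p] (hp : Odd p) {ζ : Kˣ} (hζ : IsPrimitiveRoot ζ p)
    (f : LaurentSeries K) : (normOp p ζ f).leadingCoeff = f.leadingCoeff ^ p := by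
  have h1 := congrArg HahnSeries.leadingCoeff (qExpand_normOp p hζ f)
  rw [lc_qExpand, prodTwist, lc_prod] at h1
  rw [h1]
  simp only [lc_twist, Finset.prod_mul_distrib, Finset.prod_const, Finset.card_range]
  have h2 : ∏ i ∈ Finset.range p, (((ζ ^ i) ^ f.order : Kˣ) : K) = 1 := by
    rw [← Units.coe_prod]
    have h3 : ∏ i ∈ Finset.range p, (ζ ^ i) ^ f.order = 1 := by
      rw [Finset.prod_zpow, Finset.prod_pow_eq_pow_sum, Finset.sum_range_id]
      obtain ⟨m, hm⟩ := hp
      have h4 : p * (p - 1) / 2 = p * m := by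
        rw [hm]
        have : (2 * m + 1) * (2 * m + 1 - 1) = (2 * m + 1) * m * 2 := by
          rw [Nat.add_sub_cancel]; ring
        rw [this, Nat.mul_div_cancel _ (by norm_num)]
      rw [h4, pow_mul, hζ.pow_eq_one, one_pow, one_zpow]
    rw [h3, Units.val_one]
  rw [h2, one_mul]

/-- `p`-th powers determine monic series. -/
theorem eq_of_pow_eq_of_lc {p : ℕ} [NeZero p] {ζ : K} (hζ : IsPrimitiveRoot ζ p)
    {f g : LaurentSeries K} (hg : g ≠ 0) (h : f ^ p = g ^ p)
    (hlc : f.leadingCoeff = g.leadingCoeff) : f = g := by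
  have h1 : (f / g) ^ p = 1 := by rw [div_pow, h, div_self (pow_ne_zero p hg)]
  have hζ' : IsPrimitiveRoot (cst ζ : LaurentSeries K) p :=
    hζ.map_of_injective (algebraMap K (LaurentSeries K)).injective
  obtain ⟨i, -, hi⟩ := hζ'.eq_pow_of_pow_eq_one h1
  have h2 : f = cst (ζ ^ i) * g := by
    rw [cst_pow, hi, div_mul_cancel₀ _ hg]
  have h3 := congrArg HahnSeries.leadingCoeff h2
  rw [HahnSeries.leadingCoeff_mul, lc_cst, hlc] at h3
  have h4 : g.leadingCoeff ≠ 0 := HahnSeries.leadingCoeff_ne_zero.mpr hg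
  have h5 : ζ ^ i = 1 := by
    have := mul_right_cancel₀ h4 ((one_mul _).trans h3)
    exact this.symm
  rw [h2, h5, cst_one, one_mul]

end Lead

local notation "Qb" => AlgebraicClosure ℚ
local notation "Gq" => AlgebraicClosure ℚ ≃ₐ[ℚ] AlgebraicClosure ℚ

section Descent

variable {p : ℕ} [Fact p.Prime] [NeZero p] {M : ℕ} [NeZero M]

/-- unique monic `p`-th root of `τ G / G` -/
theorem exists_monic_root {ζ : Qb} (hζ : IsPrimitiveRoot ζ p) {x : JZero M} {G : H99.FX Qb M}
    (hG : IsKum p x G) (hG1 : (G : LaurentSeries Qb).leadingCoeff = 1) {τ : Gq} (hτ : τ • x = x) :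
    ∃ h : H99.FX Qb M, (h : LaurentSeries Qb).leadingCoeff = 1 ∧
      coeffMap (τ : Qb →+* Qb) (G : LaurentSeries Qb) =
        (G : LaurentSeries Qb) * (h : LaurentSeries Qb) ^ p := by
  have hp : p.Prime := Fact.out
  have hFX : H94.FunField Qb (H99.FX Qb M) := funFieldFX M
  have h1 : IsKum p x (arithmeticGalois (modularFunctionFieldFull M) τ • G) := by
    have := hG.smul (arithmeticGalois (modularFunctionFieldFull M) τ)
    have h2 : arithmeticGalois (modularFunctionFieldFull M) τ • x = x := hτ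
    rwa [h2] at this
  obtain ⟨h, hh0, hh⟩ := h1.unique hp.ne_zero hG
  have hL : coeffMap (τ : Qb →+* Qb) (G : LaurentSeries Qb) =
      (G : LaurentSeries Qb) * (h : LaurentSeries Qb) ^ p := congrArg Subtype.val hh
  have hlc := congrArg HahnSeries.leadingCoeff hL
  rw [HahnSeries.leadingCoeff_mul, lc_coeffMap, hG1, lc_pow, map_one, one_mul] at hlc
  set c := (h : LaurentSeries Qb).leadingCoeff with hc
  have hc0 : c ≠ 0 := by
    intro h0
    rw [h0, zero_pow hp.ne_zero] at hlc
    exact one_ne_zero hlc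
  refine ⟨algebraMap Qb (H99.FX Qb M) c⁻¹ * h, ?_, ?_⟩
  · rw [coe_const_mul, HahnSeries.leadingCoeff_mul, lc_cst, ← hc, inv_mul_cancel₀ hc0]
  · rw [coe_const_mul, hL, mul_pow, ← cst_pow, inv_pow, ← hlc, inv_one, cst_one, one_mul]

/-- **Descent**: a class fixed by `I'` has a monic Kummer function fixed by `I'`. -/
theorem exists_fixed_kummer {ζ : Qb} (hζ : IsPrimitiveRoot ζ p) {x : JZero M} (hpx : p • x = 0)
    (I' : Subgroup Gq) (hI' : ∀ τ ∈ I', τ • x = x) :
    ∃ G : H99.FX Qb M, IsKum p x G ∧ (G : LaurentSeries Qb).leadingCoeff = 1 ∧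
      ∀ τ ∈ I', coeffMap (τ : Qb →+* Qb) (G : LaurentSeries Qb) = G := by
  classical
  have hp : p.Prime := Fact.out
  have hPD : HasPrincipalDivisors Qb (H99.FX Qb M) := hasPrincipalDivisors_FX M
  obtain ⟨G₀, hG₀⟩ := IsKum.exists_of_nsmul hpx
  have hG₀L : (G₀ : LaurentSeries Qb) ≠ 0 := fun h => hG₀.ne_zero (Subtype.ext h)
  set c₀ := (G₀ : LaurentSeries Qb).leadingCoeff with hc₀
  have hc₀0 : c₀ ≠ 0 := HahnSeries.leadingCoeff_ne_zero.mpr hG₀L
  -- monic Kummer function
  obtain ⟨G, hG, hG1⟩ : ∃ G : H99.FX Qb M, IsKum p x G ∧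
      (G : LaurentSeries Qb).leadingCoeff = 1 := by
    refine ⟨algebraMap Qb (H99.FX Qb M) c₀⁻¹ * G₀, hG₀.const_mul (inv_ne_zero hc₀0), ?_⟩
    rw [coe_const_mul, HahnSeries.leadingCoeff_mul, lc_cst, ← hc₀, inv_mul_cancel₀ hc₀0]
  have hGL : (G : LaurentSeries Qb) ≠ 0 := fun h => hG.ne_zero (Subtype.ext h)
  choose H hH1 hH using fun τ : I' => exists_monic_root hζ hG hG1 (hI' τ τ.2)
  have hHL : ∀ τ, (H τ : LaurentSeries Qb) ≠ 0 := fun τ => by
    rw [← HahnSeries.leadingCoeff_ne_zero, hH1]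
    exact one_ne_zero
  -- cocycle relation
  have hcoc : ∀ σ τ : I', (H (σ * τ) : LaurentSeries Qb) =
      coeffMap ((σ : Gq) : Qb →+* Qb) (H τ : LaurentSeries Qb) * (H σ : LaurentSeries Qb) := by
    intro σ τ
    have hne : coeffMap ((σ : Gq) : Qb →+* Qb) (H τ : LaurentSeries Qb) ≠ 0 :=
      (map_ne_zero _).mpr (hHL τ)
    apply eq_of_pow_eq_of_lc hζ (mul_ne_zero hne (hHL σ))
    · apply mul_left_cancel₀ hGL
      rw [← hH (σ * τ), mul_pow, ← map_pow]
      have h1 : coeffMap (((σ * τ : I') : Gq) : Qb →+* Qb) (G : LaurentSeries Qb) =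
          coeffMap ((σ : Gq) : Qb →+* Qb) (coeffMap ((τ : Gq) : Qb →+* Qb) (G : LaurentSeries Qb)) := by
        rw [coeffMap_coeffMap]
        rfl
      rw [h1, hH τ, map_mul, hH σ]
      ring
    · rw [hH1, HahnSeries.leadingCoeff_mul, lc_coeffMap, hH1, hH1, map_one, one_mul]
  -- open subgroup fixing `G`
  obtain ⟨K', hK', hfix⟩ : H31.Openly
      (fun σ : Gq => coeffMap (σ : Qb →+* Qb) (G : LaurentSeries Qb) = G) := by
    have : Algebra.IsAlgebraic ℚ Qb := AlgebraicClosure.isAlgebraic ℚ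
    exact H31.openly_coeffMap G.2
  have hfin : K'.fixingSubgroup.FiniteIndex := by
    have : Algebra.IsAlgebraic ℚ Qb := AlgebraicClosure.isAlgebraic ℚ
    have : IsAlgClosure ℚ Qb := ⟨inferInstance, inferInstance⟩
    have : Normal ℚ Qb := IsAlgClosure.normal ℚ Qb
    have : IsGalois ℚ Qb := ⟨⟩
    have h1 := IntermediateField.finrank_eq_fixingSubgroup_index (F := ℚ) Qb K'
    refine ⟨?_⟩
    rw [← h1]
    exact Module.finrank_pos.ne'
  set U : Subgroup I' := K'.fixingSubgroup.subgroupOf I' with hU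
  have hUfin : U.FiniteIndex := inferInstance
  have hHU : ∀ τ ∈ U, (H τ : LaurentSeries Qb) = 1 := by
    intro τ hτ
    apply eq_of_pow_eq_of_lc hζ one_ne_zero
    · have h1 := hH τ
      rw [hfix τ fun a ha => (IntermediateField.mem_fixingSubgroup_iff K' _).mp
        (Subgroup.mem_subgroupOf.mp hτ) a ha] at h1
      rw [one_pow]
      exact (mul_left_cancel₀ hGL ((mul_one _).trans h1)).symm
    · rw [hH1, HahnSeries.leadingCoeff_one]
  have hHcoset : ∀ σ τ : I', τ ∈ U → (H (σ * τ) : LaurentSeries Qb) = H σ := by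
    intro σ τ hτ
    rw [hcoc, hHU τ hτ, map_one, one_mul]
  have hHquot : ∀ σ τ : I', (QuotientGroup.mk σ : I' ⧸ U) = QuotientGroup.mk τ →
      (H σ : LaurentSeries Qb) = H τ := by
    intro σ τ h
    rw [QuotientGroup.eq] at h
    have := hHcoset σ _ h
    rw [mul_inv_cancel_left] at this
    exact this.symm
  have hfinq : Finite (I' ⧸ U) := Subgroup.finite_quotient_of_finiteIndex
  cases nonempty_fintype (I' ⧸ U)
  set B : H99.FX Qb M := ∑ q : I' ⧸ U, H q.out with hB
  have hBL : (B : LaurentSeries Qb) = ∑ q : I' ⧸ U, (H q.out : LaurentSeries Qb) := by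
    rw [hB]
    exact map_sum (algebraMap (H99.FX Qb M) (LaurentSeries Qb)) _ _
  have hσB : ∀ σ : I', coeffMap ((σ : Gq) : Qb →+* Qb) (B : LaurentSeries Qb) *
      (H σ : LaurentSeries Qb) = B := by
    intro σ
    rw [hBL, map_sum, Finset.sum_mul]
    rw [← Equiv.sum_comp (MulAction.toPerm σ : Equiv.Perm (I' ⧸ U))
      (fun q => (H q.out : LaurentSeries Qb))]
    refine Finset.sum_congr rfl fun q _ => ?_
    rw [← hcoc]
    apply hHquot
    rw [QuotientGroup.out_eq', MulAction.toPerm_apply]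
    conv_rhs => rw [← QuotientGroup.out_eq' q]
    rfl
  have hord : ∀ τ : I', (H τ : LaurentSeries Qb).order = 0 := by
    intro τ
    have h1 := congrArg HahnSeries.order (hH τ)
    rw [order_coeffMap, HahnSeries.order_mul hGL (pow_ne_zero p (hHL τ)), HahnSeries.order_pow] at h1
    have h2 : p • (H τ : LaurentSeries Qb).order = 0 := by linarith
    rw [nsmul_eq_mul] at h2
    exact (mul_eq_zero.mp h2).resolve_left (by exact_mod_cast hp.ne_zero)
  have hB0 : (B : LaurentSeries Qb) ≠ 0 := by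
    intro h0
    have h1 := congrArg (fun z : LaurentSeries Qb => z.coeff 0) h0
    simp only [hBL, HahnSeries.coeff_sum, HahnSeries.coeff_zero] at h1
    have h2 : ∀ q : I' ⧸ U, (H q.out : LaurentSeries Qb).coeff 0 = 1 := by
      intro q
      have := hH1 q.out
      rwa [HahnSeries.leadingCoeff_eq, hord] at this
    rw [Finset.sum_congr rfl fun q _ => h2 q, Finset.sum_const, nsmul_eq_mul, mul_one] at h1
    have h3 : (Finset.univ : Finset (I' ⧸ U)).card ≠ 0 := by
      rw [Finset.card_univ]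
      exact Fintype.card_ne_zero
    exact h3 (by exact_mod_cast h1)
  have hBne : B ≠ 0 := fun h => hB0 (by rw [h]; rfl)
  -- the fixed function
  have hfixed : ∀ σ : I', coeffMap ((σ : Gq) : Qb →+* Qb)
      ((G : LaurentSeries Qb) * (B : LaurentSeries Qb) ^ p) =
      (G : LaurentSeries Qb) * (B : LaurentSeries Qb) ^ p := by
    intro σ
    rw [map_mul, hH σ, map_pow]
    conv_rhs => rw [← hσB σ]
    ring
  set c := (B : LaurentSeries Qb).leadingCoeff ^ p with hc
  have hcσ : ∀ σ : I', ((σ : Gq) : Qb →+* Qb) c = c := by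
    intro σ
    have h1 := congrArg HahnSeries.leadingCoeff (hfixed σ)
    rw [lc_coeffMap, HahnSeries.leadingCoeff_mul, lc_pow, hG1, one_mul] at h1
    exact h1
  have hc0 : c ≠ 0 := pow_ne_zero p (HahnSeries.leadingCoeff_ne_zero.mpr hB0)
  refine ⟨algebraMap Qb (H99.FX Qb M) c⁻¹ * (G * B ^ p),
    (hG.mul_pow hBne).const_mul (inv_ne_zero hc0), ?_, ?_⟩
  · rw [coe_const_mul, HahnSeries.leadingCoeff_mul, lc_cst]
    have : ((G * B ^ p : H99.FX Qb M) : LaurentSeries Qb) =
      (G : LaurentSeries Qb) * (B : LaurentSeries Qb) ^ p := rfl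
    rw [this, HahnSeries.leadingCoeff_mul, lc_pow, hG1, one_mul, ← hc, inv_mul_cancel₀ hc0]
  · intro τ hτ
    have : ((G * B ^ p : H99.FX Qb M) : LaurentSeries Qb) =
      (G : LaurentSeries Qb) * (B : LaurentSeries Qb) ^ p := rfl
    rw [coe_const_mul, this, map_mul, hfixed ⟨τ, hτ⟩]
    have h2 : coeffMap (τ : Qb →+* Qb) (cst c⁻¹) = cst c⁻¹ := by
      have h3 : coeffMap (τ : Qb →+* Qb) (cst c⁻¹) = cst ((τ : Qb →+* Qb) c⁻¹) :=
        coeffMap_algebraMap _ _
      rw [h3, map_inv₀, hcσ ⟨τ, hτ⟩]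
    rw [h2]

end Descent

end Fermat.Agent.H33
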