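import Fermat.Agent.H33CaseC

/-!
# Case C: classes killed by `T_p` and fixed by `I ∩ Stab(ζ)` (helper33)
-/

set_option autoImplicit false
set_option linter.unusedSectionVars false

open ModularCurve AlgebraicCurve

namespace Fermat.Agent.H33

local notation "Qb" => AlgebraicClosure ℚ
local notation "Gq" => AlgebraicClosure ℚ ≃ₐ[ℚ] AlgebraicClosure ℚ

section

variable {p : ℕ} {M : ℕ} {A : ValuationSubring Qb}

theorem closeAt_of_eq {f y : H99.FX Qb M} (hy : y ≠ 0) {lam : Qb} (hlam : lam ≠ 0)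
    {w : LaurentSeries Qb} (hw : w ∈ valRing A (IsLocalRing.residue A))
    (hw0 : valRes A (IsLocalRing.residue A) ⟨w, hw⟩ = 0)
    (heq : (f : LaurentSeries Qb) * (y : LaurentSeries Qb) ^ p = 1 + cst (lam ^ p) * w) :
    CloseAt (H34.Two.gC A (IsLocalRing.residue A) M) p lam f := by
  set X : H99.FX Qb M := f * y ^ p with hX
  have hXL : (X : LaurentSeries Qb) = 1 + cst (lam ^ p) * w := heq
  set z : H99.FX Qb M := algebraMap Qb (H99.FX Qb M) ((lam ^ p)⁻¹) * (X - 1) with hz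
  have hzL : (z : LaurentSeries Qb) = w := by
    have e1 : (z : LaurentSeries Qb) = cst ((lam ^ p)⁻¹) * ((X : LaurentSeries Qb) - 1) := rfl
    rw [e1, hXL, add_sub_cancel_left, ← mul_assoc, ← cst_mul,
      inv_mul_cancel₀ (pow_ne_zero p hlam), cst_one, one_mul]
  have hzV : (z : LaurentSeries Qb) ∈ valRing A (IsLocalRing.residue A) := by rw [hzL]; exact hw
  refine ⟨y, z, hy, mem_gC_iff.mpr hzV, ?_, ?_⟩
  · rw [red_gC_eq hzV]
    have e2 : (⟨z, hzV⟩ : valRing A (IsLocalRing.residue A)) = ⟨w, hw⟩ := Subtype.ext hzL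
    rw [e2, hw0]
  · apply Subtype.ext
    have e1 : (((1 : H99.FX Qb M) + algebraMap Qb (H99.FX Qb M) (lam ^ p) * z :
        H99.FX Qb M) : LaurentSeries Qb) = 1 + cst (lam ^ p) * (z : LaurentSeries Qb) := rfl
    rw [e1, hzL, ← hXL]

end

variable {p : ℕ} [Fact p.Prime] [NeZero p] {M : ℕ} [NeZero M] {A : ValuationSubring Qb}

theorem mem_fieldE_of_fixed' {H' : Subgroup Gq} {f : H99.FX Qb M}
    (h : ∀ σ ∈ A.inertiaSubgroupIn ℚ, σ ∈ H' →
      coeffMap (σ : Qb →+* Qb) (f : LaurentSeries Qb) = f) :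
    (f : LaurentSeries Qb) ∈ fieldE (fixL A H') M := by
  rw [mem_fieldE_iff]
  refine ⟨?_, fun n => ?_⟩
  · rw [← H99.FX_eq]
    exact f.2
  · rw [mem_fixL]
    intro σ hσ1 hσ2
    have := congrArg (fun z : LaurentSeries Qb => z.coeff n) (h σ hσ1 hσ2)
    exact this

theorem coeffMap_eq_of_mem_fieldE {H' : Subgroup Gq} {f : LaurentSeries Qb}
    (hf : f ∈ fieldE (fixL A H') M) {σ : Gq} (hσ : σ ∈ A.inertiaSubgroupIn ℚ) (hσ' : σ ∈ H') :
    coeffMap (σ : Qb →+* Qb) f = f := by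
  ext n
  rw [coeffMap_coeff]
  exact mem_fixL.mp (coeff_mem_of_mem hf n) σ hσ hσ'

/-- **Case C.** -/
theorem case_C (hp2 : 2 < p) (hA : A.LiesOverPrime p) (F : InertiaFacts p A) (hpM : ¬ p ∣ M)
    (hCL : CLp p M A) {ζ : Qb} (hζ : IsPrimitiveRoot ζ p) {x : JZero M}
    (hpx : p • x = 0) (hT : heckeOperatorAlong Qb M p x = 0)
    (hfix : ∀ σ ∈ A.inertiaSubgroupIn ℚ, σ ζ = ζ → σ • x = x) : x = 0 := by
  classical
  have hp : p.Prime := Fact.out
  obtain ⟨ζA, hζA, hζ', hζ1⟩ := exists_unit_of_root hA hζ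
  have : CharP (IsLocalRing.ResidueField A) p := H60.charP_residue hp hA
  have : IsAlgClosed (IsLocalRing.ResidueField A) := H18.isAlgClosed_residueField A
  have hFX : H94.FunField Qb (H99.FX Qb M) := funFieldFX M
  have hπ := IsLocalRing.residue_surjective (R := A)
  obtain ⟨hlA, hl0⟩ := sub_one_mem hA hζ
  have hlam0 : ζ - 1 ≠ 0 := sub_ne_zero.mpr (hζ.ne_one hp.one_lt)
  have hodd : Odd p := hp.odd_of_ne_two (by omega)
  obtain ⟨G, hG, hG1, hGfix⟩ := exists_fixed_kummer hζ hpx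
    (A.inertiaSubgroupIn ℚ ⊓ MulAction.stabilizer Gq ζ) (fun τ hτ => hfix τ hτ.1 hτ.2)
  have hGL : (G : LaurentSeries Qb) ≠ 0 := fun h => hG.ne_zero (Subtype.ext h)
  obtain ⟨g, hg, hgq⟩ := isKum_hecke hpM hζ' hG
  rw [hT] at hg
  obtain ⟨h₀, hh₀, hgh⟩ := hg.unique hp.ne_zero (IsKum.one Qb)
  rw [one_mul] at hgh
  have hghL : (g : LaurentSeries Qb) = (h₀ : LaurentSeries Qb) ^ p := congrArg Subtype.val hgh
  have hglc : (g : LaurentSeries Qb).leadingCoeff = 1 := by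
    rw [hgq, HahnSeries.leadingCoeff_mul, lc_qExpand, lc_normOp hodd hζ', hG1, one_pow, mul_one]
  set c := (h₀ : LaurentSeries Qb).leadingCoeff with hc
  have hcp : c ^ p = 1 := by rw [hc, ← lc_pow, ← hghL, hglc]
  have hc0 : c ≠ 0 := by
    intro h0
    rw [h0, zero_pow hp.ne_zero] at hcp
    exact zero_ne_one hcp
  set h : H99.FX Qb M := algebraMap Qb (H99.FX Qb M) c⁻¹ * h₀ with hh
  have hhL : (h : LaurentSeries Qb) = cst c⁻¹ * (h₀ : LaurentSeries Qb) := coe_const_mul _ _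
  have hhlc : (h : LaurentSeries Qb).leadingCoeff = 1 := by
    rw [hhL, HahnSeries.leadingCoeff_mul, lc_cst, ← hc, inv_mul_cancel₀ hc0]
  have hh0 : (h : LaurentSeries Qb) ≠ 0 := by
    rw [← HahnSeries.leadingCoeff_ne_zero, hhlc]
    exact one_ne_zero
  have hgh' : (g : LaurentSeries Qb) = (h : LaurentSeries Qb) ^ p := by
    rw [hhL, mul_pow, ← cst_pow, inv_pow, hcp, inv_one, cst_one, one_mul, hghL]
  -- the discretely valued field
  have D := discFld_zeta F hζ hlA hl0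
  have hζL : ζ ∈ fixL A (MulAction.stabilizer Gq ζ) := mem_fixL.mpr fun σ _ hσ => hσ
  obtain ⟨ε, hε, hpε⟩ := exists_eps A (IsLocalRing.residue A) hp hζ hlA hl0 hπ
  set DC := discCtx (M := M) hp2 hpM hζ' hζ1 hπ D (by rw [hζA]; exact hζL) 1 one_pos
    (ε : Qb) (SetLike.coe_mem ε) (by rw [mul_one]; exact hpε) with hDC
  have hGE : (G : LaurentSeries Qb) ∈ DC.E :=
    mem_fieldE_of_fixed' fun σ hσ hσ' => hGfix σ ⟨hσ, hσ'⟩
  have hgE : (g : LaurentSeries Qb) ∈ DC.E := by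
    rw [hgq]
    exact DC.T_mem _ hGE
  have hhE : (h : LaurentSeries Qb) ∈ DC.E := by
    refine mem_fieldE_of_fixed' fun σ hσ hσ' => ?_
    apply eq_of_pow_eq_of_lc hζ hh0
    · rw [← map_pow, ← hgh']
      exact coeffMap_eq_of_mem_fieldE hgE hσ hσ'
    · rw [lc_coeffMap, hhlc, map_one]
  have hεr : (locCtx (π := IsLocalRing.residue A) hζ' hζ1).res (cst (ε : Qb)) = -1 := by
    rw [LocCtx.res_eq _ (cst_mem (SetLike.coe_mem ε))]
    have h := valRes_cst (π := IsLocalRing.residue A) ε (cst_mem (SetLike.coe_mem ε))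
    refine h.trans ?_
    rw [hε, map_neg, map_one]
  obtain ⟨U, hU, hU0, c, ⟨c', hc'L, rfl⟩, hc0, u, hu, heq⟩ :=
    DC.close_of_T (G := (G : LaurentSeries Qb)) (H := (h : LaurentSeries Qb)) (c₀ := 1) rfl hεr
      hGE hGL hhE hh0 (one_mem _) one_ne_zero (by
        rw [one_mul, ← hgh', hgq]
        rfl)
  have hUF : U ∈ H99.FX Qb M := by
    rw [H99.FX_eq]
    exact fieldE_le hU
  have hc'0 : c' ≠ 0 := fun h => hc0 (by rw [h]; exact map_zero _)
  obtain ⟨d, hd⟩ := IsAlgClosed.exists_pow_nat_eq c' hp.pos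
  have hd0 : d ≠ 0 := by
    rintro rfl
    rw [zero_pow hp.ne_zero] at hd
    exact hc'0 hd.symm
  set U' : H99.FX Qb M := ⟨U, hUF⟩ with hU'
  have hU'0 : U' ≠ 0 := fun h => hU0 (congrArg Subtype.val h)
  set y : H99.FX Qb M := algebraMap Qb (H99.FX Qb M) d * U' with hy
  have hy0 : y ≠ 0 := mul_ne_zero ((map_ne_zero _).mpr hd0) hU'0
  have hlamV : cst (ζ - 1) * u ∈ valRing A (IsLocalRing.residue A) :=
    mul_mem (cst_mem hlA) hu
  have hlam : valRes A (IsLocalRing.residue A) ⟨cst (ζ - 1) * u, hlamV⟩ = 0 := by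
    have e1 : (⟨cst (ζ - 1) * u, hlamV⟩ : valRing A (IsLocalRing.residue A)) =
      ⟨cst (ζ - 1), cst_mem hlA⟩ * ⟨u, hu⟩ := rfl
    have h := valRes_cst (π := IsLocalRing.residue A) (⟨ζ - 1, hlA⟩ : A) (cst_mem hlA)
    rw [e1, map_mul]
    have h' : valRes A (IsLocalRing.residue A) ⟨cst (ζ - 1), cst_mem hlA⟩ = 0 := by
      refine h.trans ?_
      rw [hl0, map_zero]
    rw [h', zero_mul]
  have hclose : CloseAt (H34.Two.gC A (IsLocalRing.residue A) M) p (ζ - 1) G := by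
    refine closeAt_of_eq hy0 hlam0 hlamV hlam ?_
    have e1 : (y : LaurentSeries Qb) = cst d * U := coe_const_mul _ _
    have e2 : DC.ϖ ^ (p + 1) = cst ((ζ - 1) ^ p) * cst (ζ - 1) := by
      show (cst (ζ - 1) : LaurentSeries Qb) ^ (p + 1) = _
      rw [pow_succ, cst_pow]
    rw [e1, mul_pow, ← cst_pow, hd, ← mul_assoc, ← mul_assoc, ← e2]
    rw [mul_comm (G : LaurentSeries Qb)]
    exact heq
  obtain ⟨b, hb⟩ := hCL ζ hζ _ hG.ne_zero (fun v => by
    obtain ⟨-, E, -, hE⟩ := hG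
    exact ⟨_, (hE v).symm⟩) hclose
  exact hG.eq_zero hp.ne_zero (c := 1) (h := b) (by rw [map_one, one_mul, hb])

end Fermat.Agent.H33
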