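import Fermat.Agent.H33Start
import Fermat.Agent.H33CaseC2

/-!
# Case N: the new part at `p` (helper33)
-/

set_option autoImplicit false
set_option linter.unusedSectionVars false

open ModularCurve AlgebraicCurve

namespace Fermat.Agent.H33

local notation "Qb" => AlgebraicClosure ℚ
local notation "Gq" => AlgebraicClosure ℚ ≃ₐ[ℚ] AlgebraicClosure ℚ

section Gcd

variable {K : Type*} [Field K] {A : ValuationSubring K} {k : Type*} [Field k] {π : A →+* k}

theorem exists_common_dvd {ι : Type*} (s : Finset ι) (c : ι → A) (h0 : ∀ i ∈ s, c i ≠ 0)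
    (h1 : ∀ i ∈ s, π (c i) = 0) (μ₀ : A) (hμ₀ : μ₀ ≠ 0) (hμ₀' : π μ₀ = 0) :
    ∃ μ : A, μ ≠ 0 ∧ π μ = 0 ∧ μ ∣ μ₀ ∧ ∀ i ∈ s, μ ∣ c i := by
  classical
  induction s using Finset.induction_on with
  | empty => exact ⟨μ₀, hμ₀, hμ₀', dvd_rfl, fun i hi => absurd hi (Finset.notMem_empty i)⟩
  | insert a s ha ih =>
    obtain ⟨μ, hμ0, hμ, hd, hds⟩ := ih (fun i hi => h0 i (Finset.mem_insert_of_mem hi))
      (fun i hi => h1 i (Finset.mem_insert_of_mem hi))
    rcases ValuationRing.dvd_total μ (c a) with h | h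
    · refine ⟨μ, hμ0, hμ, hd, fun i hi => ?_⟩
      rcases Finset.mem_insert.mp hi with rfl | hi
      · exact h
      · exact hds i hi
    · refine ⟨c a, h0 a (Finset.mem_insert_self a s), h1 a (Finset.mem_insert_self a s),
        h.trans hd, fun i hi => ?_⟩
      rcases Finset.mem_insert.mp hi with rfl | hi
      · exact dvd_rfl
      · exact h.trans (hds i hi)

end Gcd

variable {p : ℕ} [Fact p.Prime] [NeZero p] {M : ℕ} [NeZero M] {A : ValuationSubring Qb}

theorem CloseAt.gC2 (w : H99.AL Qb M p) {lam : Qb} {f : H99.FX Qb (M * p)}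
    (h : CloseAt (H34.Two.gC A (IsLocalRing.residue A) (M * p)) p lam (w.W f)) :
    CloseAt (H34.Two.gC2 A (IsLocalRing.residue A) w) p lam f := by
  obtain ⟨y, z, hy, hz, hz0, heq⟩ := h
  refine ⟨w.W y, w.W z, ?_, ?_, ?_, ?_⟩
  · intro h0
    exact hy (w.W.injective (by rw [h0, map_zero]))
  · rw [H34.Two.mem_gC2, w.invol]
    exact hz
  · rw [H34.Two.red_gC2, w.invol]
    exact hz0
  · have h1 := congrArg w.W heq
    rw [map_mul, w.invol, map_pow, map_add, map_one, map_mul, AlgEquiv.commutes] at h1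
    exact h1

theorem CloseAt.mul_pow {F κ k : Type*} [Field F] [Algebra Qb F] [Field k] [Field κ]
    [Algebra k κ] {π : A →+* k} {C : H84.Comp A π F κ} {lam : Qb} {f h : F} (hh : h ≠ 0)
    (hf : CloseAt C p lam f) : CloseAt C p lam (f * h ^ p) := by
  obtain ⟨y, z, hy, hz, hz0, heq⟩ := hf
  refine ⟨y / h, z, div_ne_zero hy hh, hz, hz0, ?_⟩
  rw [div_pow, ← heq]
  have := pow_ne_zero p hh
  field_simp

/-- **Case N.** -/
theorem case_N (hA : A.LiesOverPrime p) (hpM : ¬ p ∣ M) (w : H99.AL Qb M p)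
    (hSS : SS2p p M A w) {W : AddSubgroup (JZero (M * p))} (hfin : Finite W)
    (hpW : ∀ x ∈ W, p • x = 0) (hI : ∀ σ ∈ A.inertiaSubgroupIn ℚ, ∀ x ∈ W, σ • x ∈ W)
    (hw : ∀ x ∈ W, H67.pushP w.W.toAlgHom x ∈ W)
    (hα : ∀ x ∈ W, H67.pushP (heckeAlphaBar Qb M p) x = 0)
    (hred : ∀ x ∈ W, ∀ f : H99.FX Qb (M * p), IsKum p x f →
      ∃ ω, Red A (IsLocalRing.residue A) (f : LaurentSeries Qb) (ω ^ p))
    {ζ : Qb} (hζ : IsPrimitiveRoot ζ p) {σ : Gq} (hσ : σ ∈ A.inertiaSubgroupIn ℚ) {a : ℕ}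
    (hσζ : σ ζ = ζ ^ a) {x : JZero (M * p)} (hx : x ∈ W) : σ • x = a • x := by
  classical
  have hp : p.Prime := Fact.out
  obtain ⟨ζA, hζA, hζ', hζ1⟩ := exists_unit_of_root hA hζ
  have : CharP (IsLocalRing.ResidueField A) p := H60.charP_residue hp hA
  have : IsAlgClosed (IsLocalRing.ResidueField A) := H18.isAlgClosed_residueField A
  have hFX : H94.FunField Qb (H99.FX Qb M) := funFieldFX M
  have hFX' : H94.FunField Qb (H99.FX Qb (M * p)) := funFieldFX (M * p)
  have hπ := IsLocalRing.residue_surjective (R := A)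
  obtain ⟨hlA, hl0⟩ := sub_one_mem hA hζ
  have hlam0 : ζ - 1 ≠ 0 := sub_ne_zero.mpr (hζ.ne_one hp.one_lt)
  -- Kummer functions
  choose G hG using fun x : W => IsKum.exists_of_nsmul (hpW x x.2)
  have hG0 : ∀ x, (G x : LaurentSeries Qb) ≠ 0 := fun x h => (hG x).ne_zero (Subtype.ext h)
  let wW : W → W := fun x => ⟨H67.pushP w.W.toAlgHom x, hw x x.2⟩
  have hWG : ∀ x, IsKum p (wW x : JZero (M * p)) (w.W (G x)) := fun x => (hG x).atkin w
  choose h hh0 hh using fun x => (hWG x).unique hp.ne_zero (hG (wW x))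
  have hnorm : ∀ x : W, IsKum p (0 : JZero M) (H60.normAlong (heckeAlphaBar Qb M p) (G x)) := by
    intro x
    have h1 := (hG x).pushP (heckeAlphaBar Qb M p)
    rwa [hα x x.2] at h1
  choose b hb0 hb using fun x => (hnorm x).unique hp.ne_zero (IsKum.one Qb)
  set N := normOp p (Units.map (A.subtype : A →* Qb) ζA) with hN
  have hNmul : ∀ f g, N (f * g) = N f * N g := fun f g => normOp_mul p hζ' f g
  have hNone : N 1 = 1 := normOp_one p hζ'
  have hNpow : ∀ f (n : ℕ), N (f ^ n) = N f ^ n := fun f n => by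
    induction n with
    | zero => rw [pow_zero, pow_zero, hNone]
    | succ n ih => rw [pow_succ, pow_succ, hNmul, ih]
  have hNne : ∀ f, f ≠ 0 → N f ≠ 0 := fun f hf h0 => by
    have h1 : N f * N f⁻¹ = 1 := by rw [← hNmul, mul_inv_cancel₀ hf, hNone]
    rw [h0, zero_mul] at h1
    exact zero_ne_one h1
  set B : W → LaurentSeries Qb := fun x => (b x : LaurentSeries Qb) *
    (N (h x : LaurentSeries Qb))⁻¹ with hB
  have hhL : ∀ x, (h x : LaurentSeries Qb) ≠ 0 := fun x h1 => hh0 x (Subtype.ext h1)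
  have hbL : ∀ x, (b x : LaurentSeries Qb) ≠ 0 := fun x h1 => hb0 x (Subtype.ext h1)
  have hrel : ∀ x, (G x : LaurentSeries Qb) =
      B x ^ p * (N (G (wW x) : LaurentSeries Qb))⁻¹ := by
    intro x
    have h1 := coe_normAlong_alpha w hpM hζ' (G x)
    have h2 : ((H60.normAlong (heckeAlphaBar Qb M p) (G x) : H99.FX Qb M) : LaurentSeries Qb) =
        (b x : LaurentSeries Qb) ^ p := by
      rw [hb x, one_mul]; rfl
    have h3 : (w.W (G x) : LaurentSeries Qb) =
        (G (wW x) : LaurentSeries Qb) * (h x : LaurentSeries Qb) ^ p := by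
      rw [hh x]; rfl
    rw [h2, h3] at h1
    have h4 : (b x : LaurentSeries Qb) ^ p = (G x : LaurentSeries Qb) *
        (N (G (wW x) : LaurentSeries Qb) * N (h x : LaurentSeries Qb) ^ p) := by
      rw [← hNpow, ← hNmul]; exact h1
    have h5 := hNne _ (hG0 (wW x))
    have h6 := hNne _ (hhL x)
    rw [hB]
    simp only [mul_pow, inv_pow]
    rw [h4]
    field_simp
  have hBF : ∀ x, B x ∈ (H99.FX Qb (M * p)).toSubfield := by
    intro x
    refine mul_mem ?_ (inv_mem (normOp_mem hpM hζ' (h x).2))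
    have h4 := (heckeAlphaBar Qb M p (b x)).2
    rw [coe_heckeAlphaBar] at h4
    exact h4
  have hB0 : ∀ x, B x ≠ 0 := fun x => mul_ne_zero (hbL x) (inv_ne_zero (hNne _ (hhL x)))
  -- start
  choose ω hω using fun x : W => hred x x.2 (G x) (hG x)
  choose U₀ hU₀F hU₀ c hc0 hcr u₀ hu₀ hst using fun x => exists_start hA hpM w (hω x)
  cases nonempty_fintype W
  obtain ⟨μ, hμ0, hμr, hμlam, hμc⟩ := exists_common_dvd (π := IsLocalRing.residue A)
    (Finset.univ : Finset W) c (fun i _ => hc0 i) (fun i _ => hcr i) ⟨ζ - 1, hlA⟩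
    (fun h => hlam0 (congrArg Subtype.val h)) hl0
  have hμV : cst (μ : Qb) ∈ valRing A (IsLocalRing.residue A) := cst_mem μ.2
  set C := locCtx (π := IsLocalRing.residue A) hζ' hζ1 with hC
  have hμres : C.res (cst (μ : Qb)) = 0 := by
    rw [C.res_eq hμV]
    have h := valRes_cst (π := IsLocalRing.residue A) μ hμV
    refine h.trans ?_
    rw [hμr, map_zero]
  have hNcong : ∀ i : ℕ, 0 < i → ∀ u ∈ C.𝓥, ∃ v ∈ C.𝓥,
      C.N (1 + (cst (μ : Qb)) ^ i * u) = 1 + (cst (μ : Qb)) ^ (i + 1) * v := by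
    intro i hi u hu
    have hd1 : μ ^ (i + 1) ∣ ((ζA : A) - 1) * μ ^ i := by
      rw [pow_succ']
      refine mul_dvd_mul ?_ dvd_rfl
      have : (ζA : A) - 1 = ⟨ζ - 1, hlA⟩ := Subtype.ext (by
        show ((ζA : A) : Qb) - 1 = ζ - 1
        rw [hζA])
      rw [this]
      exact hμlam
    have hd2 : μ ^ (i + 1) ∣ (μ ^ i) ^ p := by
      rw [← pow_mul]
      refine pow_dvd_pow _ ?_
      have := hp.two_le
      nlinarith
    obtain ⟨v, hv, he⟩ := normHom_one_add (π := IsLocalRing.residue A) hζ' hζ1 (μ := μ ^ i)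
      (μ' := μ ^ (i + 1)) (pow_ne_zero _ hμ0) hd1 hd2 (u := u) hu
    refine ⟨v, hv, ?_⟩
    have e1 : (cst (μ : Qb) : LaurentSeries Qb) ^ i = cst ((μ ^ i : A) : Qb) := by
      rw [← cst_pow]; rfl
    have e2 : (cst (μ : Qb) : LaurentSeries Qb) ^ (i + 1) = cst ((μ ^ (i + 1) : A) : Qb) := by
      rw [← cst_pow]; rfl
    rw [e1, e2]
    exact he
  have hclose := C.close_new (H99.FX Qb (M * p)).toSubfield
    (fun f hf => normOp_mem hpM hζ' hf) (cst (μ : Qb)) hμV hμres hNcong wW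
    (fun x => (G x : LaurentSeries Qb)) B hBF hB0 hrel (fun x => by
      obtain ⟨e, he⟩ := hμc x (Finset.mem_univ x)
      refine ⟨U₀ x, hU₀F x, hU₀ x, cst (e : Qb) * u₀ x, mul_mem (cst_mem e.2) (hu₀ x), ?_⟩
      rw [hst x, ← mul_assoc, ← cst_mul, he]
      rfl)
  -- a large power of `μ`
  have harch := H34.Two.arch_Qbar hp hA
  obtain ⟨n, t, ht⟩ := harch μ (⟨ζ - 1, hlA⟩ ^ p * μ) (by
    intro hu
    have := hu.map (IsLocalRing.residue A)
    rw [hμr] at this
    exact not_isUnit_zero this) (mul_ne_zero (pow_ne_zero p fun h =>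
      hlam0 (congrArg Subtype.val h)) hμ0)
  have hCA : ∀ y : W, CloseAt (H34.Two.gC A (IsLocalRing.residue A) (M * p)) p (ζ - 1) (G y) := by
    intro y
    obtain ⟨U, hUF, hU0, u, hu, heq⟩ := hclose (n + 1) (by omega) y
    have e1 : (cst (μ : Qb) : LaurentSeries Qb) ^ (n + 1) * u =
        cst ((ζ - 1) ^ p) * (cst (μ : Qb) * (cst ((t * μ : A) : Qb) * u)) := by
      rw [← mul_assoc, ← mul_assoc, ← cst_mul, ← cst_mul, ← cst_pow]
      congr 2
      have h2 := congrArg (fun z : A => (z : Qb)) ht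
      simp only [SubmonoidClass.coe_pow, MulMemClass.coe_mul] at h2 ⊢
      rw [pow_succ, h2]
      ring
    have hwV : cst (μ : Qb) * (cst ((t * μ : A) : Qb) * u) ∈ valRing A (IsLocalRing.residue A) :=
      mul_mem hμV (mul_mem (cst_mem (t * μ).2) hu)
    refine closeAt_of_eq (y := ⟨U, hUF⟩) (fun h => hU0 (congrArg Subtype.val h)) hlam0 hwV ?_ ?_
    · have e2 : (⟨_, hwV⟩ : valRing A (IsLocalRing.residue A)) =
        ⟨cst (μ : Qb), hμV⟩ * ⟨_, mul_mem (cst_mem (t * μ).2) hu⟩ := rfl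
      have h3 : valRes A (IsLocalRing.residue A) ⟨cst (μ : Qb), hμV⟩ = 0 := by
        have h := valRes_cst (π := IsLocalRing.residue A) μ hμV
        refine h.trans ?_
        rw [hμr, map_zero]
      rw [e2, map_mul, h3, zero_mul]
    · rw [← e1]
      exact heq
  refine hSS ζ hζ W hfin hpW hI (fun y hy => ?_) σ hσ a hσζ x hx
  refine ⟨G ⟨y, hy⟩, hG _, hCA _, CloseAt.gC2 w ?_⟩
  rw [hh]
  exact (hCA _).mul_pow (hh0 _)

end Fermat.Agent.H33
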