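import Mathlib.RingTheory.LocalRing.Module
import Mathlib.RingTheory.LocalRing.ResidueField.Ideal
import Mathlib.RingTheory.DiscreteValuationRing.Basic
import Mathlib.RingTheory.IntegralClosure.IntegralRestrict
import Mathlib.FieldTheory.Minpoly.Basic
import Fermat.Prelude.Def_GaloisRep_Adic
import Fermat.Agent.H91Inertia

/-!
# Coinvariants under inertia at a point (helper33)
-/

set_option autoImplicit false
set_option linter.style.haveILetI false

open scoped TensorProduct
open Polynomial

namespace Fermat.Agent.H33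

/-- a finite module which vanishes over the field `K` is killed by an element not in the kernel -/
theorem exists_smul_eq_zero_of_subsingleton {T : Type*} [CommRing T] {K : Type*} [Field K]
    [Algebra T K] {M : Type*} [AddCommGroup M] [Module T M] [Module.Finite T M]
    (h : Subsingleton (K ⊗[T] M)) :
    ∃ t : T, algebraMap T K t ≠ 0 ∧ ∀ m : M, t • m = 0 := by
  set I : Ideal T := RingHom.ker (algebraMap T K) with hI
  have hIp : I.IsPrime := RingHom.ker_isPrime _
  let f : I.ResidueField →ₐ[T] K := Ideal.ResidueField.liftₐ I (Algebra.ofId T K) (by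
    intro x hx; exact hx) (by
    intro x hx
    exact IsUnit.mk0 _ fun h0 => hx h0)
  letI : Algebra I.ResidueField K := f.toRingHom.toAlgebra
  haveI : IsScalarTower T I.ResidueField K := IsScalarTower.of_algebraMap_eq fun x => by
    exact (f.commutes x).symm
  have e := TensorProduct.AlgebraTensorModule.cancelBaseChange T I.ResidueField K K M
  have h1 : Subsingleton (K ⊗[I.ResidueField] (I.ResidueField ⊗[T] M)) := e.toEquiv.subsingleton
  have h2 : Subsingleton (I.ResidueField ⊗[T] M) := by
    have hinj : Function.Injective (fun x : I.ResidueField ⊗[T] M =>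
        (1 : K) ⊗ₜ[I.ResidueField] x) := by
      have := Module.Flat.rTensor_preserves_injective_linearMap (M := I.ResidueField ⊗[T] M)
        (Algebra.linearMap I.ResidueField K) (algebraMap I.ResidueField K).injective
      intro x y hxy
      have h3 : (Algebra.linearMap I.ResidueField K).rTensor (I.ResidueField ⊗[T] M)
          ((1 : I.ResidueField) ⊗ₜ x) =
          (Algebra.linearMap I.ResidueField K).rTensor (I.ResidueField ⊗[T] M)
          ((1 : I.ResidueField) ⊗ₜ y) := by
        rw [LinearMap.rTensor_tmul, LinearMap.rTensor_tmul, Algebra.linearMap_apply, map_one]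
        exact hxy
      have h4 := this h3
      have h5 := congrArg (TensorProduct.lid I.ResidueField (I.ResidueField ⊗[T] M)) h4
      simpa using h5
    exact hinj.subsingleton
  have h3 : (⟨I, hIp⟩ : PrimeSpectrum T) ∉ Module.support T M := by
    rw [Module.mem_support_iff_nontrivial_residueField_tensorProduct,
      not_nontrivial_iff_subsingleton]
    exact h2
  rw [Module.mem_support_iff_of_finite] at h3
  obtain ⟨t, ht, htI⟩ := Set.not_subset.mp h3
  exact ⟨t, fun h0 => htI h0, fun m => Module.mem_annihilator.mp ht m⟩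

local notation "Qb" => AlgebraicClosure ℚ
local notation "Gq" => AlgebraicClosure ℚ ≃ₐ[ℚ] AlgebraicClosure ℚ

section Rep

variable {T : Type} [CommRing T] [IsLocalRing T] (ρ : GaloisRepAdic T) (A : ValuationSubring Qb)

/-- the span of the `σ v - v`, `σ` in inertia -/
def diffSub : Submodule T ρ.V :=
  Submodule.span T {x | ∃ σ ∈ A.inertiaSubgroupIn ℚ, ∃ v, x = ρ.ρ σ v - v}

/-- If there is no inertia-invariant functional at the point `T → K` then `t V` is contained in
the span of the `σ v - v`, for some `t` not in the kernel. -/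
theorem exists_smul_mem_diffSub {K : Type} [Field K] [Algebra T K]
    (hno : ¬ ∃ (W : Type) (_ : AddCommGroup W) (_ : Module K W) (f : K ⊗[T] ρ.V →ₗ[K] W),
      f ≠ 0 ∧ ∀ σ ∈ A.inertiaSubgroupIn ℚ, ∀ v, f ((ρ.ρ σ).baseChange K v) = f v) :
    ∃ t : T, algebraMap T K t ≠ 0 ∧ ∀ v, t • v ∈ diffSub ρ A := by
  set D := diffSub ρ A with hD
  have hsub : Subsingleton (K ⊗[T] (ρ.V ⧸ D)) := by
    by_contra hns
    rw [not_subsingleton_iff_nontrivial] at hns
    apply hno
    refine ⟨K ⊗[T] (ρ.V ⧸ D), inferInstance, inferInstance, D.mkQ.baseChange K, ?_, ?_⟩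
    · intro h0
      obtain ⟨y, hy⟩ := exists_ne (0 : K ⊗[T] (ρ.V ⧸ D))
      apply hy
      have hs : Function.Surjective (D.mkQ.baseChange K) :=
        LinearMap.lTensor_surjective K (Submodule.mkQ_surjective D)
      obtain ⟨x, rfl⟩ := hs y
      rw [h0]
      rfl
    · intro σ hσ v
      induction v using TensorProduct.induction_on with
      | zero => simp
      | add x y hx hy => rw [map_add, map_add, map_add, hx, hy]
      | tmul c v =>
        rw [LinearMap.baseChange_tmul, LinearMap.baseChange_tmul, LinearMap.baseChange_tmul]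
        congr 1
        rw [← sub_eq_zero, ← map_sub, Submodule.mkQ_apply, Submodule.Quotient.mk_eq_zero]
        exact Submodule.subset_span ⟨σ, hσ, v, rfl⟩
  obtain ⟨t, ht, htm⟩ := exists_smul_eq_zero_of_subsingleton hsub
  refine ⟨t, ht, fun v => ?_⟩
  have h1 := htm (Submodule.Quotient.mk v)
  rwa [← Submodule.Quotient.mk_smul, Submodule.Quotient.mk_eq_zero] at h1

/-- elements of `diffSub` are finite sums of `σ v - v`. -/
theorem exists_sum_of_mem_diffSub {x : ρ.V} (hx : x ∈ diffSub ρ A) :
    ∃ (ι : Type) (_ : Fintype ι) (σ : ι → Gq) (v : ι → ρ.V),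
      (∀ i, σ i ∈ A.inertiaSubgroupIn ℚ) ∧ x = ∑ i, (ρ.ρ (σ i) (v i) - v i) := by
  induction hx using Submodule.span_induction with
  | mem x hx =>
    obtain ⟨σ, hσ, v, rfl⟩ := hx
    exact ⟨Unit, inferInstance, fun _ => σ, fun _ => v, fun _ => hσ, by simp⟩
  | zero => exact ⟨Empty, inferInstance, fun i => i.elim, fun i => i.elim, fun i => i.elim, by simp⟩
  | add x y _ _ hx hy =>
    obtain ⟨ι, _, σ, v, hσ, rfl⟩ := hx
    obtain ⟨ι', _, σ', v', hσ', rfl⟩ := hy
    refine ⟨ι ⊕ ι', inferInstance, Sum.elim σ σ', Sum.elim v v', ?_, ?_⟩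
    · rintro (i | i)
      · exact hσ i
      · exact hσ' i
    · rw [Fintype.sum_sum_type]
      rfl
  | smul c x _ hx =>
    obtain ⟨ι, _, σ, v, hσ, rfl⟩ := hx
    refine ⟨ι, inferInstance, σ, fun i => c • v i, hσ, ?_⟩
    rw [Finset.smul_sum]
    refine Finset.sum_congr rfl fun i _ => ?_
    rw [map_smul, smul_sub]

end Rep

section Integral

variable {𝒪 : Type} [CommRing 𝒪] [IsDomain 𝒪] [IsDiscreteValuationRing 𝒪]
  {T : Type} [CommRing T] [Algebra 𝒪 T] [Module.Finite 𝒪 T]
  {K : Type} [Field K] [Algebra 𝒪 K] [FaithfulSMul 𝒪 K]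

/-- modulo the kernel of a point, `p^m` is a multiple of any element not in the kernel -/
theorem exists_mul_sub_pow {p : ℕ} (hp𝒪 : (p : 𝒪) ∈ IsLocalRing.maximalIdeal 𝒪)
    (ψ : T →ₐ[𝒪] K) {t : T} (ht : ψ t ≠ 0) :
    ∃ (m : ℕ) (c : T), ψ (c * t - (p : T) ^ m) = 0 := by
  have hint : IsIntegral 𝒪 (ψ t) := (Algebra.IsIntegral.isIntegral (R := 𝒪) t).map ψ
  set P := minpoly 𝒪 (ψ t) with hP
  have hmon : P.Monic := minpoly.monic hint
  have h0 : P.coeff 0 ≠ 0 := by
    intro h
    have h1 : P = X * P.divX := by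
      conv_lhs => rw [← Polynomial.X_mul_divX_add P, h, C_0, add_zero]
    have h2 : P.divX.Monic := Polynomial.Monic.of_mul_monic_left monic_X (by rw [← h1]; exact hmon)
    have h3 : aeval (ψ t) P.divX = 0 := by
      have h4 : aeval (ψ t) P = 0 := minpoly.aeval _ _
      rw [h1, map_mul, aeval_X] at h4
      exact (mul_eq_zero.mp h4).resolve_left ht
    have h4 := minpoly.min 𝒪 (ψ t) h2 h3
    have h5 : P.natDegree ≤ P.divX.natDegree := Polynomial.natDegree_le_natDegree h4
    have h6 : P.natDegree = P.divX.natDegree + 1 := by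
      conv_lhs => rw [h1, Polynomial.natDegree_X_mul h2.ne_zero]
    omega
  obtain ⟨m, b, hb⟩ : ∃ m : ℕ, P.coeff 0 ∣ (p : 𝒪) ^ m := by
    obtain ⟨ϖ, hϖ⟩ := IsDiscreteValuationRing.exists_irreducible 𝒪
    obtain ⟨n, u, hu⟩ := IsDiscreteValuationRing.eq_unit_mul_pow_irreducible h0 hϖ
    refine ⟨n, ?_⟩
    have h1 : ϖ ∣ (p : 𝒪) := by
      rw [hϖ.maximalIdeal_eq] at hp𝒪
      exact Ideal.mem_span_singleton.mp hp𝒪
    rw [hu]
    exact (Units.mul_left_dvd.mpr (pow_dvd_pow_of_dvd h1 n))
  refine ⟨m, -(algebraMap 𝒪 T b * aeval t P.divX), ?_⟩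
  have h1 : ψ (aeval t P) = 0 := by
    rw [← Polynomial.aeval_algHom_apply, hP, minpoly.aeval]
  have h2 : aeval t P = t * aeval t P.divX + algebraMap 𝒪 T (P.coeff 0) := by
    have h := congrArg (aeval t) (Polynomial.X_mul_divX_add P)
    rw [map_add, map_mul, aeval_X, aeval_C] at h
    exact h.symm
  have h3 : (p : T) ^ m = algebraMap 𝒪 T b * algebraMap 𝒪 T (P.coeff 0) := by
    rw [← map_mul, mul_comm b, ← hb, map_pow, map_natCast]
  have h4 : -(algebraMap 𝒪 T b * aeval t P.divX) * t - (p : T) ^ m =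
      -(algebraMap 𝒪 T b * aeval t P) := by
    rw [h2, h3]; ring
  rw [h4, map_neg, map_mul, h1, mul_zero, neg_zero]

end Integral

end Fermat.Agent.H33
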