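import Fermat.Agent.H33DChiF

/-!
# Finiteness of ray classes (helper33, block (D) of S47)

Congruence `OneMod m κ`: `κ ≡ 1` modulo `m` in the multiplicative sense. Finitely many classes of
fractional ideals prime to `m` modulo the principal ideals `(κ)`, `OneMod m κ`.
-/

set_option autoImplicit false

open IsDedekindDomain FractionalIdeal
open scoped nonZeroDivisors

namespace Fermat.Agent.H33D

variable {R : Type*} [CommRing R] [IsDedekindDomain R] {K : Type*} [Field K] [Algebra R K]
  [IsFractionRing R K]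

/-- `x ≡ 1` modulo `m` -/
def OneMod (m : Ideal R) (x : K) : Prop :=
  ∀ v : HeightOneSpectrum R, m ≤ v.asIdeal → v.valuation K x = 1 ∧
    v.valuation K (x - 1) ≤ WithZero.exp (-(multiplicity v.asIdeal m : ℤ))

/-- `J` is prime to `m` -/
def Cop (m : Ideal R) (J : FractionalIdeal R⁰ K) : Prop :=
  J ≠ 0 ∧ ∀ v : HeightOneSpectrum R, m ≤ v.asIdeal → count K v J = 0

theorem Cop.one (m : Ideal R) : Cop m (1 : FractionalIdeal R⁰ K) :=
  ⟨one_ne_zero, fun v _ => count_one K v⟩

theorem Cop.mul {m : Ideal R} {J J' : FractionalIdeal R⁰ K} (h : Cop m J) (h' : Cop m J') :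
    Cop m (J * J') :=
  ⟨mul_ne_zero h.1 h'.1, fun v hv => by rw [count_mul K v h.1 h'.1, h.2 v hv, h'.2 v hv, add_zero]⟩

theorem Cop.inv {m : Ideal R} {J : FractionalIdeal R⁰ K} (h : Cop m J) : Cop m J⁻¹ :=
  ⟨inv_ne_zero h.1, fun v hv => by rw [count_inv, h.2 v hv, neg_zero]⟩

theorem cop_spanSingleton {m : Ideal R} {x : K} (hx : x ≠ 0)
    (h : ∀ v : HeightOneSpectrum R, m ≤ v.asIdeal → v.valuation K x = 1) :
    Cop m (spanSingleton R⁰ x) := by
  refine ⟨by rwa [Ne, spanSingleton_eq_zero_iff], fun v hv => ?_⟩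
  have := h v hv
  rw [count_spanSingleton v hx, ← WithZero.exp_zero, WithZero.exp_inj] at this
  omega

theorem valuation_eq_one_of_cop {m : Ideal R} {x : K} (hx : x ≠ 0)
    (h : Cop m (spanSingleton R⁰ x)) {v : HeightOneSpectrum R} (hv : m ≤ v.asIdeal) :
    v.valuation K x = 1 := by
  rw [count_spanSingleton v hx, h.2 v hv, neg_zero, WithZero.exp_zero]

theorem valuation_le_of_mem {m : Ideal R} {a : R} (ha : a ∈ m) (v : HeightOneSpectrum R) :
    v.valuation K (algebraMap R K a) ≤ WithZero.exp (-(multiplicity v.asIdeal m : ℤ)) := by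
  rw [HeightOneSpectrum.valuation_of_algebraMap, HeightOneSpectrum.intValuation_le_pow_iff_mem]
  exact Ideal.le_of_dvd (pow_multiplicity_dvd _ _) ha

theorem multiplicity_pos_of_le {m : Ideal R} (hm : m ≠ 0) {v : HeightOneSpectrum R}
    (hv : m ≤ v.asIdeal) : 1 ≤ multiplicity v.asIdeal m := by
  have h := count_pos_of_le (K := FractionRing R) hm hv
  rw [count_coe_eq hm] at h
  omega

theorem valuation_eq_one_of_sub_mem {m : Ideal R} (hm : m ≠ 0) {b : R} (hb : b - 1 ∈ m)
    {v : HeightOneSpectrum R} (hv : m ≤ v.asIdeal) : v.valuation K (algebraMap R K b) = 1 := by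
  have h1 := valuation_le_of_mem (K := K) hb v
  have h2 : v.valuation K (algebraMap R K (b - 1)) < v.valuation K (1 : K) := by
    rw [map_one, ← WithZero.exp_zero]
    refine h1.trans_lt ?_
    rw [WithZero.exp_lt_exp]
    have := multiplicity_pos_of_le hm hv
    omega
  have h3 := Valuation.map_add_eq_of_lt_right (v.valuation K) h2
  rwa [map_sub, map_one, sub_add_cancel, map_one] at h3

/-- **Finiteness of ray classes.** -/
theorem exists_finite_classes [Finite (ClassGroup R)] {m : Ideal R} (hm : m ≠ 0)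
    [Finite (R ⧸ m)] :
    ∃ cl : FractionalIdeal R⁰ K → ClassGroup R × (R ⧸ m), ∀ d d' : FractionalIdeal R⁰ K,
      Cop m d → Cop m d' → cl d = cl d' →
      ∃ κ : Kˣ, OneMod m (κ : K) ∧ d' = spanSingleton R⁰ (κ : K) * d := by
  classical
  let cg : FractionalIdeal R⁰ K → ClassGroup R := fun d =>
    if h : d ≠ 0 then ClassGroup.mk K (Units.mk0 d h) else 1
  -- a reference ideal in each class
  have href : ∀ c : ClassGroup R, ∃ dc : FractionalIdeal R⁰ K,
      ∀ d : FractionalIdeal R⁰ K, Cop m d → cg d = c → Cop m dc ∧ cg dc = c := by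
    intro c
    by_cases h : ∃ d : FractionalIdeal R⁰ K, Cop m d ∧ cg d = c
    · obtain ⟨d, hd, hc⟩ := h
      exact ⟨d, fun _ _ _ => ⟨hd, hc⟩⟩
    · exact ⟨1, fun d hd hc => absurd ⟨d, hd, hc⟩ h⟩
  choose ref href using href
  -- `d = (y) ref`
  have hy : ∀ d : FractionalIdeal R⁰ K, ∃ (y : K) (b a : R), Cop m d →
      y ≠ 0 ∧ d = spanSingleton R⁰ y * ref (cg d) ∧
      (∀ v : HeightOneSpectrum R, m ≤ v.asIdeal → v.valuation K y = 1) ∧
      b - 1 ∈ m ∧ algebraMap R K b * y = algebraMap R K a := by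
    intro d
    by_cases hd : Cop m d
    · obtain ⟨h1, h2⟩ := href (cg d) d hd rfl
      have h3 : ClassGroup.mk K (Units.mk0 d hd.1 * (Units.mk0 (ref (cg d)) h1.1)⁻¹) = 1 := by
        have h4 : cg (ref (cg d)) = ClassGroup.mk K (Units.mk0 (ref (cg d)) h1.1) := by
          simp only [cg, dif_pos h1.1]
        have h5 : cg d = ClassGroup.mk K (Units.mk0 d hd.1) := by
          simp only [cg, dif_pos hd.1]
        rw [map_mul, map_inv, ← h4, ← h5, h2, mul_inv_cancel]
      rw [H47.mk_eq_one_iff_mem_range] at h3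
      obtain ⟨y, hy⟩ := h3
      have hy1 : spanSingleton R⁰ (y : K) = d * (ref (cg d))⁻¹ := by
        have h6 := congrArg Units.val hy
        rw [coe_toPrincipalIdeal] at h6
        rw [h6, Units.val_mul, Units.val_inv_eq_inv_val]
        rfl
      have hy2 : Cop m (spanSingleton R⁰ (y : K)) := by
        rw [hy1]
        exact hd.mul h1.inv
      obtain ⟨b, a, hb, hab⟩ := exists_denom (m := m) y.ne_zero (fun v hv => (hy2.2 v hv).ge)
      refine ⟨y, b, a, fun _ => ⟨y.ne_zero, ?_, fun v hv => valuation_eq_one_of_cop y.ne_zero hy2 hv,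
        hb, hab⟩⟩
      rw [hy1, mul_assoc, inv_mul_cancel₀ h1.1, mul_one]
    · exact ⟨1, 1, 1, fun h => absurd h hd⟩
  choose y b a hy using hy
  refine ⟨fun d => (cg d, Ideal.Quotient.mk m (a d)), fun d d' hd hd' heq => ?_⟩
  rw [Prod.mk.injEq, Ideal.Quotient.mk_eq_mk_iff_sub_mem] at heq
  obtain ⟨hc, ha⟩ := heq
  obtain ⟨h1, h2, h3, h4, h5⟩ := hy d hd
  obtain ⟨h1', h2', h3', h4', h5'⟩ := hy d' hd'
  refine ⟨Units.mk0 (y d' / y d) (div_ne_zero h1' h1), fun v hv => ⟨?_, ?_⟩, ?_⟩
  · rw [Units.val_mk0, map_div₀, h3 v hv, h3' v hv, _root_.div_one]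
  · have hb1 : v.valuation K (algebraMap R K (b d)) = 1 := valuation_eq_one_of_sub_mem hm h4 hv
    have hb1' : v.valuation K (algebraMap R K (b d')) = 1 := valuation_eq_one_of_sub_mem hm h4' hv
    have ha1 : v.valuation K (algebraMap R K (a d)) = 1 := by
      rw [← h5, map_mul, hb1, h3 v hv, one_mul]
    have hb0 : algebraMap R K (b d) ≠ 0 := by
      intro h; rw [h, map_zero] at hb1; exact zero_ne_one hb1
    have hb0' : algebraMap R K (b d') ≠ 0 := by
      intro h; rw [h, map_zero] at hb1'; exact zero_ne_one hb1'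
    have ha0 : algebraMap R K (a d) ≠ 0 := by
      intro h; rw [h, map_zero] at ha1; exact zero_ne_one ha1
    have e1 : y d = algebraMap R K (a d) / algebraMap R K (b d) := by
      rw [← h5]; field_simp
    have e2 : y d' = algebraMap R K (a d') / algebraMap R K (b d') := by
      rw [← h5']; field_simp
    have e3 : y d' / y d - 1 = algebraMap R K (a d' * b d - a d * b d') *
        (algebraMap R K (a d) * algebraMap R K (b d'))⁻¹ := by
      rw [e1, e2, map_sub, map_mul, map_mul]
      field_simp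
    rw [Units.val_mk0, e3, map_mul, map_inv₀, map_mul, ha1, hb1', one_mul, inv_one, mul_one]
    refine valuation_le_of_mem ?_ v
    have e4 : a d' * b d - a d * b d' = -((a d - a d') * b d) + a d * ((b d - 1) - (b d' - 1)) := by
      ring
    rw [e4]
    exact m.add_mem (m.neg_mem (m.mul_mem_right _ ha)) (m.mul_mem_left _ (m.sub_mem h4 h4'))
  · rw [Units.val_mk0]
    calc d' = spanSingleton R⁰ (y d') * ref (cg d) := by rw [hc]; exact h2'
      _ = spanSingleton R⁰ (y d' / y d) * (spanSingleton R⁰ (y d) * ref (cg d)) := by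
        rw [← mul_assoc, spanSingleton_mul_spanSingleton, div_mul_cancel₀ _ h1]
      _ = spanSingleton R⁰ (y d' / y d) * d := by rw [← h2]

end Fermat.Agent.H33D
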