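import Fermat.Agent.H33Hyp
import Fermat.Agent.H33Red
import Fermat.Agent.H33Inertia
import Fermat.Agent.H18Res
import Fermat.Agent.H60Bridge
import Fermat.Agent.H90Field

/-!
# From closeness to the action of inertia (helper33)
-/

set_option autoImplicit false

open ModularCurve AlgebraicCurve

namespace Fermat.Agent.H33

local notation "Qb" => AlgebraicClosure ℚ
local notation "Gq" => AlgebraicClosure ℚ ≃ₐ[ℚ] AlgebraicClosure ℚ

section Conv

variable {L : Type*} [Field L] [Algebra ℚ L] {A : ValuationSubring L} {k : Type*} [Field k]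
  {π : A →+* k}

theorem mem_gC_iff {M : ℕ} {z : H99.FX L M} :
    z ∈ (H34.Two.gC A π M).V ↔ (z : LaurentSeries L) ∈ valRing A π := by
  have h1 : z ∈ (H34.Two.gC A π M).V ↔ (z : LaurentSeries L) ∈ H34.Two.locL A π := Iff.rfl
  rw [h1, H34.Two.mem_locL_iff]
  constructor
  · rintro ⟨y, z', h, h'⟩
    exact ⟨y, z', h, h'⟩
  · rintro ⟨y, z', h, h'⟩
    exact ⟨y, z', h, h'⟩

theorem red_gC_eq {M : ℕ} {z : H99.FX L M} (h : (z : LaurentSeries L) ∈ valRing A π) :
    (H34.Two.gC A π M).red z = valRes A π ⟨z, h⟩ := by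
  obtain ⟨y, z', h1, h2⟩ := id h
  have h3 : IsRep A π (z : LaurentSeries L) y z' := ⟨h1, h2⟩
  have h4 := H34.Two.red_gaussComp_mul A π (H34.Two.isQuot_FX M) h1 h2
  rw [valRes_eq h3 h, eq_div_iff h1]
  exact h4

end Conv

section Main

variable {p : ℕ} [Fact p.Prime] [NeZero p] {A : ValuationSubring Qb}

/-- primitive roots of unity lie in `A` and reduce to `1` -/
theorem exists_unit_of_root (hA : A.LiesOverPrime p) {ζ : Qb} (hζ : IsPrimitiveRoot ζ p) :
    ∃ ζA : Aˣ, ((ζA : A) : Qb) = ζ ∧ IsPrimitiveRoot (Units.map (A.subtype : A →* Qb) ζA) p ∧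
      Units.map (IsLocalRing.residue A : A →* IsLocalRing.ResidueField A) ζA = 1 := by
  have hp : p.Prime := Fact.out
  have hzmem : ζ ∈ A := H54.integral_mem A ⟨ζ, hζ.isIntegral hp.pos⟩
  have hz1 : (⟨ζ, hzmem⟩ : A) ^ p = 1 := Subtype.ext (by
    show ζ ^ p = 1
    exact hζ.pow_eq_one)
  let ζA : Aˣ := Units.ofPowEqOne ⟨ζ, hzmem⟩ p hz1 hp.ne_zero
  have hζval : ((Units.map (A.subtype : A →* Qb) ζA : Qbˣ) : Qb) = ζ := rfl
  refine ⟨ζA, rfl, ?_, ?_⟩
  · rw [← IsPrimitiveRoot.coe_units_iff, hζval]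
    exact hζ
  · have : CharP (IsLocalRing.ResidueField A) p := H60.charP_residue hp hA
    have h1 : (IsLocalRing.residue A ⟨ζ, hzmem⟩) ^ p = 1 := by
      rw [← map_pow, hz1, map_one]
    have h2 : (IsLocalRing.residue A ⟨ζ, hzmem⟩ - 1) ^ p = 0 := by
      rw [sub_pow_char, h1, one_pow, sub_self]
    have h3 : IsLocalRing.residue A ⟨ζ, hzmem⟩ - 1 = 0 := pow_eq_zero_iff hp.ne_zero |>.mp h2
    exact Units.ext (sub_eq_zero.mp h3)

theorem sub_one_mem (hA : A.LiesOverPrime p) {ζ : Qb} (hζ : IsPrimitiveRoot ζ p) :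
    ∃ h : ζ - 1 ∈ A, IsLocalRing.residue A ⟨ζ - 1, h⟩ = 0 := by
  obtain ⟨ζA, rfl, -, h1⟩ := exists_unit_of_root hA hζ
  refine ⟨sub_mem (SetLike.coe_mem _) (one_mem _), ?_⟩
  have h2 : (⟨((ζA : A) : Qb) - 1, sub_mem (SetLike.coe_mem _) (one_mem _)⟩ : A) = (ζA : A) - 1 :=
    rfl
  have h3 : IsLocalRing.residue A (ζA : A) = 1 := congrArg Units.val h1
  rw [h2, map_sub, h3, map_one, sub_self]

/-- Inertia acts on functions congruent to `1` modulo `λ^p` through the cyclotomic character. -/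
theorem galois_one_add' (hA : A.LiesOverPrime p) {ζ : Qb} (hζ : IsPrimitiveRoot ζ p)
    {σ : Gq} (hσ : σ ∈ A.inertiaSubgroupIn ℚ) {a : ℕ} (hσζ : σ ζ = ζ ^ a)
    {u : LaurentSeries Qb} (hu : u ∈ valRing A (IsLocalRing.residue A)) :
    ∃ (w : LaurentSeries Qb) (hw : w ∈ valRing A (IsLocalRing.residue A)),
      valRes A (IsLocalRing.residue A) ⟨w, hw⟩ = 0 ∧
      coeffMap (σ : Qb →+* Qb) (1 + cst ((ζ - 1) ^ p) * u) * ((1 + cst ((ζ - 1) ^ p) * u) ^ a)⁻¹ =
        1 + cst ((ζ - 1) ^ p) * w := by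
  have hp : p.Prime := Fact.out
  obtain ⟨ζA, hζA, hζ', hζ1⟩ := exists_unit_of_root hA hζ
  have : CharP (IsLocalRing.ResidueField A) p := H60.charP_residue hp hA
  have : IsAlgClosed (IsLocalRing.ResidueField A) := H18.isAlgClosed_residueField A
  let C := locCtx (π := IsLocalRing.residue A) hζ' hζ1
  obtain ⟨hlA, hl0⟩ := sub_one_mem hA hζ
  have hlam0 : ζ - 1 ≠ 0 := sub_ne_zero.mpr (hζ.ne_one hp.one_lt)
  -- `σ λ = α λ`
  have hαeq : σ (ζ - 1) = (∑ i ∈ Finset.range a, ζ ^ i) * (ζ - 1) := by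
    rw [map_sub, map_one, hσζ]
    exact (geom_sum_mul ζ a).symm
  have hζmem : ζ ∈ A := by rw [← hζA]; exact SetLike.coe_mem _
  have hαA : (∑ i ∈ Finset.range a, ζ ^ i) ∈ A := sum_mem fun i _ => pow_mem hζmem i
  have hα : (⟨∑ i ∈ Finset.range a, ζ ^ i, hαA⟩ : A) = ∑ i ∈ Finset.range a, (ζA : A) ^ i := by
    apply Subtype.ext
    show ∑ i ∈ Finset.range a, ζ ^ i = ((∑ i ∈ Finset.range a, (ζA : A) ^ i : A) : Qb)
    rw [← hζA]
    push_cast
    rfl
  have hαr : IsLocalRing.residue A ⟨∑ i ∈ Finset.range a, ζ ^ i, hαA⟩ = a := by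
    have h3 : IsLocalRing.residue A (ζA : A) = 1 := congrArg Units.val hζ1
    rw [hα, map_sum]
    simp [h3]
  have hlamV : cst (ζ - 1) ∈ C.𝓥 := cst_mem hlA
  have hlamres : C.res (cst (ζ - 1)) = 0 := by
    rw [C.res_eq hlamV]
    have h := valRes_cst (π := IsLocalRing.residue A) (⟨ζ - 1, hlA⟩ : A) (cst_mem hlA)
    refine h.trans ?_
    rw [hl0, map_zero]
  have hαV : cst (∑ i ∈ Finset.range a, ζ ^ i) ∈ C.𝓥 := cst_mem hαA
  have hαres : C.res (cst (∑ i ∈ Finset.range a, ζ ^ i)) = a := by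
    rw [C.res_eq hαV]
    have h := valRes_cst (π := IsLocalRing.residue A)
      (⟨∑ i ∈ Finset.range a, ζ ^ i, hαA⟩ : A) (cst_mem hαA)
    refine h.trans ?_
    rw [hαr, map_natCast]
  have hτ := fun f (hf : f ∈ valRing A (IsLocalRing.residue A)) =>
    map_mem_valRing (τ := (σ : Qb →+* Qb)) (fun a ha => inertia_mem hσ ha) (inertia_res hσ) hf
  obtain ⟨w, hw, hw0, heq⟩ := C.galois_one_add (τ := coeffMap (σ : Qb →+* Qb))
    (fun f hf => (hτ f hf).1)
    (fun f hf => by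
      obtain ⟨h1, h2⟩ := hτ f hf
      rw [C.res_eq hf, C.res_eq h1]
      exact h2) (lam := cst (ζ - 1)) hlamV hlamres hαV a hαres (by
      rw [← cst_mul]
      show coeffMap (σ : Qb →+* Qb) (algebraMap Qb (LaurentSeries Qb) (ζ - 1)) = _
      rw [coeffMap_algebraMap]
      exact congrArg cst hαeq) hu
  refine ⟨w, hw, ?_, ?_⟩
  · exact (C.res_eq hw).symm.trans hw0
  · rw [cst_pow]
    exact heq

theorem coe_const_mul {M : ℕ} (c : Qb) (f : H99.FX Qb M) :
    ((algebraMap Qb (H99.FX Qb M) c * f : H99.FX Qb M) : LaurentSeries Qb) =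
      cst c * (f : LaurentSeries Qb) := rfl

/-- the closeness of `f` implies the closeness of `σ f / f^a`, one power better. -/
theorem closeAt_galois (hA : A.LiesOverPrime p) {ζ : Qb} (hζ : IsPrimitiveRoot ζ p)
    {σ : Gq} (hσ : σ ∈ A.inertiaSubgroupIn ℚ) {a : ℕ} (hσζ : σ ζ = ζ ^ a) {M : ℕ}
    {f U : H99.FX Qb M} (hf : f ≠ 0) (hU : U ≠ 0) {c : Qb} (hc : c ≠ 0) {u : LaurentSeries Qb}
    (hu : u ∈ valRing A (IsLocalRing.residue A))
    (heq : cst c * (f : LaurentSeries Qb) * (U : LaurentSeries Qb) ^ p =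
      1 + cst ((ζ - 1) ^ p) * u) :
    CloseAt (H34.Two.gC A (IsLocalRing.residue A) M) p (ζ - 1)
      (arithmeticGalois (modularFunctionFieldFull M) σ • f / f ^ a) := by
  have hp : p.Prime := Fact.out
  obtain ⟨w, hw, hw0, hwe⟩ := galois_one_add' hA hζ hσ hσζ hu
  have hlam0 : ζ - 1 ≠ 0 := sub_ne_zero.mpr (hζ.ne_one hp.one_lt)
  obtain ⟨d, hd⟩ := IsAlgClosed.exists_pow_nat_eq (σ c / c ^ a) hp.pos
  have hσc : σ c ≠ 0 := (map_ne_zero σ).mpr hc
  have hd0 : d ≠ 0 := by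
    rintro rfl
    rw [zero_pow hp.ne_zero] at hd
    exact div_ne_zero hσc (pow_ne_zero a hc) hd.symm
  set g := arithmeticGalois (modularFunctionFieldFull M) σ with hg
  have hgU : g • U ≠ 0 := by
    intro h
    apply hU
    have h1 : g⁻¹ • (g • U) = 0 := by rw [h, smul_zero]
    rwa [inv_smul_smul] at h1
  -- the function
  set y : H99.FX Qb M := algebraMap Qb (H99.FX Qb M) d * (g • U / U ^ a) with hy
  have hy0 : y ≠ 0 := mul_ne_zero ((map_ne_zero _).mpr hd0) (div_ne_zero hgU (pow_ne_zero a hU))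
  set X := g • f / f ^ a * y ^ p with hX
  have hfL : (f : LaurentSeries Qb) ≠ 0 := fun h => hf (Subtype.ext h)
  have hUL : (U : LaurentSeries Qb) ≠ 0 := fun h => hU (Subtype.ext h)
  have hXL : (X : LaurentSeries Qb) = 1 + cst ((ζ - 1) ^ p) * w := by
    rw [← hwe, ← heq]
    have e1 : (X : LaurentSeries Qb) = coeffMap (σ : Qb →+* Qb) (f : LaurentSeries Qb) /
        (f : LaurentSeries Qb) ^ a * (cst d * (coeffMap (σ : Qb →+* Qb) (U : LaurentSeries Qb) /
          (U : LaurentSeries Qb) ^ a)) ^ p := rfl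
    have e2 : coeffMap (σ : Qb →+* Qb) (cst c) = cst (σ c) := coeffMap_algebraMap _ _
    have e3 : cst d ^ p = (cst (σ c) / cst c ^ a : LaurentSeries Qb) := by
      rw [← cst_pow, ← cst_pow, ← cst_div, hd]
    rw [e1, map_mul, map_mul, map_pow, e2, mul_pow, e3, div_pow, mul_pow, mul_pow]
    have := cst_ne_zero (K := Qb) hc
    field_simp
    try ring
  set z : H99.FX Qb M := algebraMap Qb (H99.FX Qb M) (((ζ - 1) ^ p)⁻¹) * (X - 1) with hz
  have hzL : (z : LaurentSeries Qb) = w := by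
    have e1 : (z : LaurentSeries Qb) = cst (((ζ - 1) ^ p)⁻¹) * ((X : LaurentSeries Qb) - 1) := rfl
    rw [e1, hXL, add_sub_cancel_left, ← mul_assoc, ← cst_mul,
      inv_mul_cancel₀ (pow_ne_zero p hlam0), cst_one, one_mul]
  have hzV : (z : LaurentSeries Qb) ∈ valRing A (IsLocalRing.residue A) := by rw [hzL]; exact hw
  refine ⟨y, z, hy0, mem_gC_iff.mpr hzV, ?_, ?_⟩
  · rw [red_gC_eq hzV]
    have e2 : (⟨z, hzV⟩ : valRing A (IsLocalRing.residue A)) = ⟨w, hw⟩ := Subtype.ext hzL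
    rw [e2, hw0]
  · apply Subtype.ext
    have e1 : (((1 : H99.FX Qb M) + algebraMap Qb (H99.FX Qb M) ((ζ - 1) ^ p) * z :
        H99.FX Qb M) : LaurentSeries Qb) = 1 + cst ((ζ - 1) ^ p) * (z : LaurentSeries Qb) := rfl
    rw [e1, hzL, ← hXL]

instance funFieldFX (M : ℕ) [NeZero M] : H94.FunField Qb (H99.FX Qb M) := H60.funField_bar M

theorem hasPrincipalDivisors_FX (M : ℕ) [NeZero M] : HasPrincipalDivisors Qb (H99.FX Qb M) :=
  H60.hasPrincipalDivisors_bar M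

/-- **Good reduction**: closeness at the Gauss valuation gives the action of inertia. -/
theorem smul_eq_of_close (hA : A.LiesOverPrime p) {M : ℕ} [NeZero M] (hCL : CLp p M A)
    {ζ : Qb} (hζ : IsPrimitiveRoot ζ p)
    {σ : Gq} (hσ : σ ∈ A.inertiaSubgroupIn ℚ) {a : ℕ} (hσζ : σ ζ = ζ ^ a) {x : JZero M}
    {f U : H99.FX Qb M} (hf : IsKum p x f) (hU : U ≠ 0) {c : Qb} (hc : c ≠ 0)
    {u : LaurentSeries Qb} (hu : u ∈ valRing A (IsLocalRing.residue A))
    (heq : cst c * (f : LaurentSeries Qb) * (U : LaurentSeries Qb) ^ p =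
      1 + cst ((ζ - 1) ^ p) * u) : σ • x = a • x := by
  have hp : p.Prime := Fact.out
  have h1 := closeAt_galois hA hζ hσ hσζ hf.ne_zero hU hc hu heq
  have h2 : IsKum p (σ • x - a • x)
      (arithmeticGalois (modularFunctionFieldFull M) σ • f / f ^ a) :=
    (hf.smul (arithmeticGalois (modularFunctionFieldFull M) σ)).div (hf.pow a)
  obtain ⟨h, hh⟩ := hCL ζ hζ _ h2.ne_zero (fun v => by
    obtain ⟨-, D, -, hD⟩ := h2
    exact ⟨_, (hD v).symm⟩) h1
  have h3 := h2.eq_zero hp.ne_zero (c := 1) (h := h) (by rw [map_one, one_mul, hh])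
  exact sub_eq_zero.mp h3

end Main

end Fermat.Agent.H33
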