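import Fermat.Agent.H33Glue
import Fermat.Agent.H91Inertia

/-!
# Case C, abstract version (helper33)
-/

set_option autoImplicit false
set_option linter.unusedSectionVars false

open scoped TensorProduct

namespace Fermat.Agent.H33

local notation "Qb" => AlgebraicClosure ℚ
local notation "Gq" => AlgebraicClosure ℚ ≃ₐ[ℚ] AlgebraicClosure ℚ

variable {T : Type} [CommRing T] [IsLocalRing T] (ρ : GaloisRepAdic T)

/-- the ordinary line of the residual representation lifts to a vector fixed up to `𝔪 V` by all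
elements of inertia with residually trivial determinant -/
theorem exists_line_vector {p : ℕ}
    (hres : (GaloisRepAdic.ofResidualGaloisRep ρ.residual).IsOrdinaryAt p)
    {A : ValuationSubring Qb} (hA : A.LiesOverPrime p) :
    ∃ v : ρ.V, (1 : IsLocalRing.ResidueField T) ⊗ₜ[T] v ≠ 0 ∧
      ∀ σ ∈ A.inertiaSubgroupIn ℚ, IsLocalRing.residue T (LinearMap.det (ρ.ρ σ)) = 1 →
        (1 : IsLocalRing.ResidueField T) ⊗ₜ[T] (ρ.ρ σ v - v) = 0 := by
  obtain ⟨b, hdec, hin⟩ : ∃ b : Module.Basis (Fin 2) (IsLocalRing.ResidueField T)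
      (IsLocalRing.ResidueField T ⊗[T] ρ.V),
      (∀ σ ∈ A.inertiaSubgroupIn ℚ, (ρ.ρ σ).baseChange (IsLocalRing.ResidueField T) (b 0) ∈
        Submodule.span (IsLocalRing.ResidueField T) {b 0}) ∧
      (∀ σ ∈ A.inertiaSubgroupIn ℚ, (ρ.ρ σ).baseChange (IsLocalRing.ResidueField T) (b 1) - b 1 ∈
        Submodule.span (IsLocalRing.ResidueField T) {b 0}) := by
    obtain ⟨L, ⟨b, hb⟩, hdec, hin⟩ := hres A hA
    refine ⟨b, fun σ hσ => ?_, fun σ hσ => ?_⟩
    · have h1 := hdec σ ((H91.mem_inertiaSubgroupIn_iff A σ).mp hσ).1 (b 0) (by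
        rw [hb]; exact Submodule.mem_span_singleton_self _)
      rw [hb] at h1
      exact h1
    · have h1 := hin σ hσ (b 1)
      rw [hb] at h1
      exact h1
  obtain ⟨v, hv⟩ : ∃ v : ρ.V, (1 : IsLocalRing.ResidueField T) ⊗ₜ[T] v = b 0 := by
    have h1 : Function.Surjective (fun v : ρ.V => (1 : IsLocalRing.ResidueField T) ⊗ₜ[T] v) := by
      intro y
      induction y using TensorProduct.induction_on with
      | zero => exact ⟨0, TensorProduct.tmul_zero _ _⟩
      | add x y hx hy =>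
        obtain ⟨a, rfl⟩ := hx
        obtain ⟨b, rfl⟩ := hy
        exact ⟨a + b, TensorProduct.tmul_add _ _ _⟩
      | tmul c v =>
        obtain ⟨c, rfl⟩ := IsLocalRing.residue_surjective c
        refine ⟨c • v, ?_⟩
        show (1 : IsLocalRing.ResidueField T) ⊗ₜ[T] (c • v) = _
        rw [← TensorProduct.smul_tmul, Algebra.smul_def, mul_one]
        rfl
    exact h1 _
  refine ⟨v, ?_, fun σ hσ hdet => ?_⟩
  · rw [hv]
    exact b.ne_zero 0
  · rw [TensorProduct.tmul_sub, hv]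
    set s : Module.End (IsLocalRing.ResidueField T) (IsLocalRing.ResidueField T ⊗[T] ρ.V) :=
      (ρ.ρ σ).baseChange (IsLocalRing.ResidueField T) with hs
    have e1 : (1 : IsLocalRing.ResidueField T) ⊗ₜ[T] (ρ.ρ σ v) = s (b 0) := by
      rw [hs, ← hv, LinearMap.baseChange_tmul]
    rw [e1]
    obtain ⟨α, hα⟩ := Submodule.mem_span_singleton.mp (hdec σ hσ)
    obtain ⟨β, hβ⟩ := Submodule.mem_span_singleton.mp (hin σ hσ)
    have hdets : LinearMap.det s = 1 := by
      rw [hs, LinearMap.det_baseChange]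
      exact hdet
    have hdet2 : LinearMap.det s = α := by
      have hα' : s (b 0) = α • b 0 := hα.symm
      have hβ' : s (b 1) = b 1 + β • b 0 := by
        rw [hβ]; abel
      rw [← LinearMap.det_toMatrix b, Matrix.det_fin_two]
      simp only [LinearMap.toMatrix_apply, hα', hβ', map_smul, map_add, Finsupp.smul_apply,
        Finsupp.add_apply, Module.Basis.repr_self, Finsupp.single_apply, smul_eq_mul]
      simp
    have hα1 : α = 1 := by rw [← hdet2, hdets]
    rw [← hα, hα1, one_smul, sub_self]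

variable {J : Type*} [AddCommGroup J] [DistribMulAction Gq J]

theorem false_of_kernel {p : ℕ} (hp : p.Prime)
    (h : ρ.residual.IsAbsolutelyIrreducible) (hdet : ρ.DetIsCyclotomic p)
    (hres : (GaloisRepAdic.ofResidualGaloisRep ρ.residual).IsOrdinaryAt p)
    (hnil : ∃ n : ℕ, IsLocalRing.maximalIdeal T ^ n ≤ Ideal.span {(p : T)})
    {A : ValuationSubring Qb} (hA : A.LiesOverPrime p) (s : ρ.V →+ J) (hs : s ≠ 0)
    (hps : ∀ v, p • s v = 0)
    (hsG : ∀ σ v, s (ρ.ρ σ v) = σ • s v) {ζ : Qb} (hζ : IsPrimitiveRoot ζ p)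
    (hC : ∀ v, (∀ σ ∈ A.inertiaSubgroupIn ℚ, σ ζ = ζ → σ • s v = s v) → s v = 0) :
    False := by
  classical
  have : NeZero p := ⟨hp.ne_zero⟩
  set κ := IsLocalRing.ResidueField T
  set P : ℕ → Prop := fun k => ∀ u ∈ IsLocalRing.maximalIdeal T ^ k, ∀ v, s (u • v) = 0 with hP
  have hex : ∃ k, P k := by
    obtain ⟨n, hn⟩ := hnil
    refine ⟨n, fun u hu v => ?_⟩
    obtain ⟨c, rfl⟩ := Ideal.mem_span_singleton.mp (hn hu)
    rw [mul_smul, Nat.cast_smul_eq_nsmul, map_nsmul, hps]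
  have hk0 : Nat.find hex ≠ 0 := by
    intro h0
    have h1 := Nat.find_spec hex
    rw [h0] at h1
    apply hs
    ext v
    have := h1 1 (by rw [pow_zero, Ideal.one_eq_top]; trivial) v
    rwa [one_smul] at this
  obtain ⟨j, hj⟩ := Nat.exists_eq_succ_of_ne_zero hk0
  have hPj : ¬ P j := Nat.find_min hex (by rw [hj]; exact Nat.lt_succ_self j)
  have hPk : P (j + 1) := by have := Nat.find_spec hex; rwa [hj] at this
  rw [hP] at hPj
  push Not at hPj
  obtain ⟨t, ht, v₀, hv₀⟩ := hPj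
  -- `s' v = s (t v)`
  let s' : ρ.V →+ J := s.comp (DistribSMul.toAddMonoidHom ρ.V t)
  have hs'v : ∀ v, s' v = s (t • v) := fun v => rfl
  have hs'0 : s' ≠ 0 := fun h0 => hv₀ (by rw [← hs'v, h0]; rfl)
  have hs'G : ∀ σ v, s' (ρ.ρ σ v) = σ • s' v := fun σ v => by
    rw [hs'v, ← map_smul, hsG, hs'v]
  have hs'm : ∀ u ∈ IsLocalRing.maximalIdeal T, ∀ v, s' (u • v) = 0 := fun u hu v => by
    rw [hs'v, smul_smul]
    exact hPk _ (by rw [pow_succ]; exact Ideal.mul_mem_mul ht hu) v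
  have hs'κ : ∀ x : ρ.V, (1 : κ) ⊗ₜ[T] x = 0 → s' x = 0 := by
    intro x hx
    let b := Module.Free.chooseBasis T ρ.V
    rw [← b.sum_repr x, map_sum]
    refine Finset.sum_eq_zero fun i _ => ?_
    exact hs'm _ (coord_mem_of_tmul_eq_zero ρ b hx i) _
  obtain ⟨v, hv, hfix⟩ := exists_line_vector ρ hres hA
  obtain ⟨u, hu⟩ := exists_smul_ne ρ h s' hs'0 hs'G hv
  apply hu
  rw [hs'v]
  apply hC
  intro σ hσ hσζ
  have hd : IsLocalRing.residue T (LinearMap.det (ρ.ρ σ)) = 1 := by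
    have hdetσ := hdet.2 1 σ 1 (fun μ hμ => by
      rw [pow_one] at hμ
      obtain ⟨i, -, rfl⟩ := hζ.eq_pow_of_pow_eq_one hμ
      rw [map_pow, hσζ, pow_one])
    rw [Nat.cast_one, pow_one] at hdetσ
    rw [← sub_eq_zero, ← map_one (IsLocalRing.residue T), ← map_sub,
      IsLocalRing.residue_eq_zero_iff]
    exact (Ideal.span_singleton_le_iff_mem _).mpr hdet.1 hdetσ
  have h1 := hfix σ hσ hd
  have h2 : (1 : κ) ⊗ₜ[T] (ρ.ρ σ (u • v) - u • v) = 0 := by
    rw [map_smul, ← smul_sub, TensorProduct.tmul_smul, h1, smul_zero]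
  have h3 := hs'κ _ h2
  rw [map_sub, hs'G, sub_eq_zero] at h3
  exact h3

end Fermat.Agent.H33
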