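import Fermat.Prelude.Def_AlgebraicCurve_Correspondence
import Fermat.Agent.H60Hecke
import Fermat.Agent.H18Div

/-!
# Kummer functions of torsion classes (helper33)

`IsKum n x f` : `f` is a function with divisor `n D` where `D` is a divisor of degree `0` in the
class `x`.
-/

set_option autoImplicit false
set_option linter.style.haveILetI false

open AlgebraicCurve

namespace Fermat.Agent.H33

section Basic

variable {K F : Type*} [Field K] [Field F] [Algebra K F]

/-- `f` is a Kummer function of level `n` for the class `x` -/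
def IsKum (n : ℕ) (x : Pic0 K F) (f : F) : Prop :=
  f ≠ 0 ∧ ∃ D : Divisor.degZero (K := K) (F := F), Pic0.mk D = x ∧
    ∀ v, (n : ℤ) * (D : Divisor K F) v = v.ord f

theorem mk_eq_zero_iff (D : Divisor.degZero (K := K) (F := F)) :
    Pic0.mk D = 0 ↔ Divisor.IsPrincipal (D : Divisor K F) := by
  rw [Pic0.mk]
  exact (QuotientAddGroup.eq_zero_iff D).trans Iff.rfl

theorem mk_sub (D E : Divisor.degZero (K := K) (F := F)) :
    Pic0.mk (D - E) = Pic0.mk D - Pic0.mk E := rfl

theorem mk_nsmul (n : ℕ) (D : Divisor.degZero (K := K) (F := F)) :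
    Pic0.mk (n • D) = n • Pic0.mk D := rfl

theorem mk_neg (D : Divisor.degZero (K := K) (F := F)) :
    Pic0.mk (-D) = - Pic0.mk D := rfl

namespace IsKum

variable {n : ℕ} {x y : Pic0 K F} {f g : F}

theorem ne_zero (h : IsKum n x f) : f ≠ 0 := h.1

theorem exists_of_nsmul (h : n • x = 0) : ∃ f, IsKum n x f := by
  obtain ⟨D, rfl⟩ := Pic0.mk_surjective x
  rw [← mk_nsmul, mk_eq_zero_iff] at h
  obtain ⟨f, hf, hD⟩ := h
  refine ⟨f, hf, D, rfl, fun v => ?_⟩
  rw [← hD v]
  simp

theorem nsmul_eq_zero (h : IsKum n x f) : n • x = 0 := by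
  obtain ⟨hf, D, rfl, hD⟩ := h
  rw [← mk_nsmul, mk_eq_zero_iff]
  exact ⟨f, hf, fun v => by rw [← hD v]; simp⟩

theorem mul (hf : IsKum n x f) (hg : IsKum n y g) : IsKum n (x + y) (f * g) := by
  obtain ⟨hf0, D, rfl, hD⟩ := hf
  obtain ⟨hg0, E, rfl, hE⟩ := hg
  refine ⟨mul_ne_zero hf0 hg0, D + E, rfl, fun v => ?_⟩
  rw [v.ord_mul hf0 hg0, ← hD, ← hE]
  simp [mul_add]

theorem inv (hf : IsKum n x f) : IsKum n (-x) f⁻¹ := by
  obtain ⟨hf0, D, rfl, hD⟩ := hf
  refine ⟨inv_ne_zero hf0, -D, rfl, fun v => ?_⟩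
  rw [v.ord_inv, ← hD]
  simp

theorem div (hf : IsKum n x f) (hg : IsKum n y g) : IsKum n (x - y) (f / g) := by
  rw [sub_eq_add_neg, div_eq_mul_inv]
  exact hf.mul hg.inv

variable (K) in
theorem one : IsKum n (0 : Pic0 K F) (1 : F) :=
  ⟨one_ne_zero, 0, rfl, fun v => by simp⟩

theorem pow (hf : IsKum n x f) (m : ℕ) : IsKum n (m • x) (f ^ m) := by
  induction m with
  | zero => rw [zero_nsmul, pow_zero]; exact one K
  | succ m ih => rw [succ_nsmul, pow_succ]; exact ih.mul hf

theorem prod {ι : Type*} (s : Finset ι) {x : ι → Pic0 K F} {f : ι → F}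
    (h : ∀ i ∈ s, IsKum n (x i) (f i)) : IsKum n (∑ i ∈ s, x i) (∏ i ∈ s, f i) := by
  classical
  induction s using Finset.induction_on with
  | empty => simpa using one K
  | insert a s ha ih =>
    rw [Finset.sum_insert ha, Finset.prod_insert ha]
    exact (h a (Finset.mem_insert_self a s)).mul
      (ih fun i hi => h i (Finset.mem_insert_of_mem hi))

/-- change of level -/
theorem level {m : ℕ} (hf : IsKum (n * m) x f) : IsKum n (m • x) f := by
  obtain ⟨hf0, D, rfl, hD⟩ := hf
  refine ⟨hf0, m • D, rfl, fun v => ?_⟩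
  rw [← hD]
  simp [mul_assoc]

theorem zero_pow [HasPrincipalDivisors K F] {h : F} (hh : h ≠ 0) :
    IsKum n (0 : Pic0 K F) (h ^ n) := by
  obtain ⟨D, hD, hD0⟩ := HasPrincipalDivisors.exists_divisor (K := K) h hh
  refine ⟨pow_ne_zero n hh, ⟨D, hD0⟩, ?_, fun v => ?_⟩
  · rw [mk_eq_zero_iff]
    exact ⟨h, hh, hD⟩
  · rw [← zpow_natCast, v.ord_zpow, ← hD]

theorem mul_pow [HasPrincipalDivisors K F] (hf : IsKum n x f) {h : F} (hh : h ≠ 0) :
    IsKum n x (f * h ^ n) := by
  have := hf.mul (zero_pow (K := K) (n := n) hh)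
  rwa [add_zero] at this

theorem ord_algebraMap {c : K} (v : Place K F) : v.ord (algebraMap K F c) = 0 := by
  rcases eq_or_ne c 0 with rfl | hc
  · simp
  have h1 : IsUnit (algebraMap K v.toValuationSubring c) :=
    (Ne.isUnit hc).map (algebraMap K v.toValuationSubring)
  obtain ⟨u, hu⟩ := h1
  have := v.ord_coe_unit u
  rw [hu] at this
  exact this

theorem const {c : K} (hc : c ≠ 0) : IsKum n (0 : Pic0 K F) (algebraMap K F c) :=
  ⟨(map_ne_zero _).mpr hc, 0, rfl, fun v => by simp [ord_algebraMap]⟩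

theorem const_mul (hf : IsKum n x f) {c : K} (hc : c ≠ 0) : IsKum n x (algebraMap K F c * f) := by
  have := (const (F := F) (n := n) hc).mul hf
  rwa [zero_add] at this

/-- A Kummer function which is an `n`-th power up to a constant belongs to the trivial class. -/
theorem eq_zero (hn : n ≠ 0) (hf : IsKum n x f) {c : K} {h : F} (hfh : f = algebraMap K F c * h ^ n) :
    x = 0 := by
  obtain ⟨hf0, D, rfl, hD⟩ := hf
  have hh : h ≠ 0 := by
    rintro rfl
    rw [_root_.zero_pow hn, mul_zero] at hfh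
    exact hf0 hfh
  have hc : algebraMap K F c ≠ 0 := by
    intro h0
    rw [h0, zero_mul] at hfh
    exact hf0 hfh
  rw [mk_eq_zero_iff]
  refine ⟨h, hh, fun v => ?_⟩
  have h1 := hD v
  rw [hfh, v.ord_mul hc (pow_ne_zero n hh), ord_algebraMap, zero_add, ← zpow_natCast,
    v.ord_zpow] at h1
  exact mul_left_cancel₀ (by exact_mod_cast hn) h1

end IsKum

end Basic

section Unique

variable {K F : Type*} [Field K] [Field F] [Algebra K F] [IsAlgClosed K] [H94.FunField K F]
  {n : ℕ} {x y : Pic0 K F} {f g : F}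

theorem IsKum.unique (hn : n ≠ 0) (hf : IsKum n x f) (hg : IsKum n x g) :
    ∃ h : F, h ≠ 0 ∧ f = g * h ^ n := by
  obtain ⟨hf0, D, hDx, hD⟩ := hf
  obtain ⟨hg0, E, rfl, hE⟩ := hg
  have h0 : Pic0.mk (D - E) = 0 := by rw [mk_sub, hDx, sub_self]
  rw [mk_eq_zero_iff] at h0
  obtain ⟨h, hh, hDE⟩ := h0
  have hc : ∀ v : Place K F, v.ord (f / (g * h ^ n)) = 0 := by
    intro v
    have h1 := hDE v
    rw [AddSubgroup.coe_sub, Finsupp.sub_apply] at h1
    rw [div_eq_mul_inv, v.ord_mul hf0 (inv_ne_zero (mul_ne_zero hg0 (pow_ne_zero n hh))), v.ord_inv,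
      v.ord_mul hg0 (pow_ne_zero n hh), ← hD, ← hE, ← zpow_natCast, v.ord_zpow, ← h1]
    ring
  obtain ⟨c, hc⟩ := H18.exists_eq_algebraMap_of_forall_ord_eq_zero hc
  obtain ⟨d, hd⟩ := IsAlgClosed.exists_pow_nat_eq c (Nat.pos_of_ne_zero hn)
  have hf' : f = g * (algebraMap K F d * h) ^ n := by
    rw [_root_.mul_pow, ← map_pow, hd, ← hc]
    have := pow_ne_zero n hh
    field_simp
  refine ⟨algebraMap K F d * h, ?_, hf'⟩
  intro h0
  rw [h0, _root_.zero_pow hn, mul_zero] at hf'
  exact hf0 hf'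

end Unique

section Galois

variable {K F : Type*} [Field K] [Field F] [Algebra K F] {n : ℕ} {x : Pic0 K F} {f : F}

theorem IsKum.smul (hf : IsKum n x f) (τ : SemilinearAut K F) : IsKum n (τ • x) (τ • f) := by
  obtain ⟨hf0, D, rfl, hD⟩ := hf
  refine ⟨?_, SemilinearAut.degZeroSMulHom τ D, (SemilinearAut.pic0_smul_mk τ D).symm, fun v => ?_⟩
  · intro h
    apply hf0
    have h1 : τ⁻¹ • (τ • f) = 0 := by rw [h, smul_zero]
    rwa [inv_smul_smul] at h1
  · rw [SemilinearAut.coe_degZeroSMulHom, SemilinearAut.divisor_smul_apply, hD]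
    have h := SemilinearAut.ord_smul τ (τ⁻¹ • v) f
    rw [smul_inv_smul] at h
    exact h.symm

end Galois

section Push

variable {K F F' : Type*} [Field K] [Field F] [Field F'] [Algebra K F] [Algebra K F']
  (φ : F →ₐ[K] F') (hφ : φ.toRingHom.IsIntegral)

/-- pushforward of divisor classes along an embedding -/
noncomputable def pushAlong (hfin : FiniteAlong K φ) (hN : NormFormulaAlong K φ hfin) :
    Pic0 K F' →+ Pic0 K F :=
  QuotientAddGroup.map _ _
    (((Divisor.pushforwardAlong φ hφ).domRestrict (Divisor.degZero (K := K) (F := F'))).codRestrict _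
      (fun D => Divisor.pushforwardAlong_mem_degZero φ hφ D.2)) (by
    rintro ⟨D, hD0⟩ hD
    simp only [AddSubgroup.mem_addSubgroupOf] at hD ⊢
    exact Divisor.isPrincipal_pushforwardAlong φ hφ hfin hN hD)

variable {φ hφ} {hfin : FiniteAlong K φ} {hN : NormFormulaAlong K φ hfin}

theorem IsKum.push {n : ℕ} {x : Pic0 K F'} {f : F'} (hf : IsKum n x f) :
    IsKum n (pushAlong φ hφ hfin hN x) (H60.normAlong φ f) := by
  obtain ⟨hf0, D, rfl, hD⟩ := hf
  refine ⟨?_, ⟨_, Divisor.pushforwardAlong_mem_degZero φ hφ D.2⟩, rfl, fun v => ?_⟩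
  · letI := algebraAlong φ
    haveI : Module.Finite F F' := hfin
    exact Algebra.norm_ne_zero_iff.mpr hf0
  · letI := algebraAlong φ
    haveI := isScalarTower_along φ
    haveI : Module.Finite F F' := hfin
    have h1 := hN f hf0 (n • (D : Divisor K F')) (fun w => by
      rw [← hD w]; simp) v
    rw [map_nsmul, Finsupp.smul_apply] at h1
    show (n : ℤ) * (Divisor.pushforward F (D : Divisor K F')) v = v.ord (Algebra.norm F f)
    rw [← h1]
    simp

end Push

section Hecke

variable {K F F' : Type*} [Field K] [Field F] [Field F'] [Algebra K F] [Algebra K F']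
  [HasPrincipalDivisors K F'] (φ ψ : F →ₐ[K] F') (hφ : φ.toRingHom.IsIntegral)
  (hψ : ψ.toRingHom.IsIntegral) (hFI : FundamentalIdentityAlong K φ hφ)
  (hfin : FiniteAlong K ψ) (hN : NormFormulaAlong K ψ hfin)

theorem IsKum.correspondence {n : ℕ} {x : Pic0 K F} {f : F} (hf : IsKum n x f) :
    IsKum n (Pic0.correspondence φ ψ hφ hψ hFI hfin hN x) (H60.normAlong ψ (φ f)) := by
  obtain ⟨hf0, D, rfl, hD⟩ := hf
  refine ⟨?_, Pic0.degZeroCorrespondence φ ψ hφ hψ hFI D, rfl, fun v => ?_⟩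
  · letI := algebraAlong ψ
    haveI : Module.Finite F F' := hfin
    have hne : φ f ≠ 0 := by
      intro h
      exact hf0 (φ.toRingHom.injective (by rw [map_zero]; exact h))
    exact Algebra.norm_ne_zero_iff.mpr hne
  · have h1 := H60.correspondence_apply_eq_ord φ ψ hφ hψ hfin hN hf0
      (D := n • (D : Divisor K F)) (fun w => by rw [← hD w]; simp) v
    rw [← h1, map_nsmul, Pic0.coe_degZeroCorrespondence]
    simp

end Hecke

end Fermat.Agent.H33
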