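import Fermat.Agent.H33Coinv
import Fermat.Agent.H33GlueC
import Fermat.Agent.H33CaseN
import Fermat.Agent.H33Delta
import Fermat.Agent.H35S35
import Fermat.Agent.H90Exist

/-!
# The main argument for S33 (helper33)
-/

set_option autoImplicit false
set_option linter.unusedSectionVars false

open scoped TensorProduct
open ModularCurve AlgebraicCurve Fermat.Agent.H30

namespace Fermat.Agent.H33

local notation "Qb" => AlgebraicClosure ℚ
local notation "Gq" => AlgebraicClosure ℚ ≃ₐ[ℚ] AlgebraicClosure ℚ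

section Hom

variable {T : Type} [CommRing T] [IsLocalRing T] (ρ : GaloisRepAdic T) (I : Ideal T)
  {p : ℕ} [Fact p.Prime] {J J₁ : Type*} [AddCommGroup J] [DistribMulAction Gq J]
  [AddCommGroup J₁] [DistribMulAction Gq J₁]

/-- equivariant maps to a Tate module killing `I V` -/
structure IsRealHom (h : ρ.V →+ TateMod p J) : Prop where
  gal : ∀ σ v, h (ρ.ρ σ v) = galTate p J σ (h v)
  ker : ∀ t ∈ I, ∀ v, h (t • v) = 0

variable {ρ I}

theorem IsRealHom.comp {h : ρ.V →+ TateMod p J} (hh : IsRealHom ρ I h) (f : J →+ J₁)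
    (hf : ∀ (σ : Gq) (x : J), f (σ • x) = σ • f x) :
    IsRealHom ρ I ((H35.tateMap (p := p) f).toAddMonoidHom.comp h) where
  gal σ v := by
    show H35.tateMap f (h (ρ.ρ σ v)) = galTate p J₁ σ (H35.tateMap f (h v))
    rw [hh.gal]
    ext n
    rw [H35.proj_tateMap, proj_galTate, proj_galTate, H35.proj_tateMap, hf]
  ker t ht v := by
    show H35.tateMap f (h (t • v)) = 0
    rw [hh.ker t ht, map_zero]

/-- saturation -/
theorem IsRealHom.saturate {h : ρ.V →+ TateMod p J} (hh : IsRealHom ρ I h) (h0 : h ≠ 0) :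
    ∃ h' : ρ.V →+ TateMod p J, IsRealHom ρ I h' ∧ ∃ v, TateMod.proj 1 (h' v) ≠ 0 := by
  classical
  have hex : ∃ n : ℕ, ∃ v, TateMod.proj n (h v) ≠ 0 := by
    by_contra hcon
    push Not at hcon
    apply h0
    ext v n
    rw [hcon n v]
    simp
  have hn0 : Nat.find hex ≠ 0 := by
    intro h1
    obtain ⟨v, hv⟩ := Nat.find_spec hex
    rw [h1] at hv
    exact hv (TateMod.proj_zero _)
  obtain ⟨k, hk⟩ := Nat.exists_eq_succ_of_ne_zero hn0
  have hkk : ∀ v, TateMod.proj k (h v) = 0 := by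
    have := Nat.find_min hex (m := k) (by rw [hk]; exact Nat.lt_succ_self k)
    push Not at this
    exact this
  obtain ⟨v₀, hv₀⟩ := Nat.find_spec hex
  rw [hk] at hv₀
  have hdiv : ∀ v, ∃ y : TateMod p J, (p : ℤ_[p]) ^ k • y = h v := fun v => by
    obtain ⟨y, hy⟩ := (TateMod.mem_pow_smul_iff k (h v)).mpr (hkk v)
    exact ⟨y, hy.symm⟩
  choose y hy using hdiv
  have hinj : ∀ a b : TateMod p J, (p : ℤ_[p]) ^ k • a = (p : ℤ_[p]) ^ k • b → a = b := by
    intro a b hab
    rw [← sub_eq_zero, ← smul_sub] at hab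
    exact sub_eq_zero.mp (TateMod.pow_smul_injective k hab)
  let h' : ρ.V →+ TateMod p J :=
    { toFun := y
      map_zero' := by
        apply hinj
        rw [hy, map_zero, smul_zero]
      map_add' := fun a b => by
        apply hinj
        rw [smul_add, hy, hy, hy, map_add] }
  have hh' : ∀ v, (p : ℤ_[p]) ^ k • h' v = h v := hy
  refine ⟨h', ⟨fun σ v => ?_, fun t ht v => ?_⟩, v₀, ?_⟩
  · apply hinj
    rw [hh', hh.gal, ← map_smul, hh']
  · apply hinj
    rw [hh', hh.ker t ht, smul_zero]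
  · intro h1
    apply hv₀
    have h2 : TateMod.proj (k + 1) (h v₀) = TateMod.proj 1 (h' v₀) := by
      rw [← hh' v₀]
      have h3 : (p : ℤ_[p]) ^ k • h' v₀ = p ^ k • h' v₀ := by
        rw [← Nat.cast_pow, TateMod.natCast_smul]
      rw [h3, map_nsmul, add_comm k 1]
      exact TateMod.pow_smul_proj_add (h' v₀) 1 k
    exact h2.trans h1

/-- multiplication by `p^m` maps the image of `h` to sums of `σ y - y` -/
theorem IsRealHom.exists_sum {h : ρ.V →+ TateMod p J} (hh : IsRealHom ρ I h)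
    {A : ValuationSubring Qb} {m : ℕ} {c : T} (hc : c - (p : T) ^ m ∈ I)
    (hD : ∀ v, c • v ∈ diffSub ρ A) (v : ρ.V) :
    ∃ (ι : Type) (_ : Fintype ι) (σ : ι → Gq) (Y : ι → TateMod p J),
      (∀ i, σ i ∈ A.inertiaSubgroupIn ℚ) ∧
      p ^ m • h v = ∑ i, (galTate p J (σ i) (Y i) - Y i) := by
  obtain ⟨ι, _, σ, w, hσ, hw⟩ := exists_sum_of_mem_diffSub ρ A (hD v)
  refine ⟨ι, inferInstance, σ, fun i => h (w i), hσ, ?_⟩
  have h1 : h (c • v) = p ^ m • h v := by
    have h2 := hh.ker _ hc v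
    rw [sub_smul, map_sub, sub_eq_zero] at h2
    rw [h2, ← Nat.cast_pow, Nat.cast_smul_eq_nsmul, map_nsmul]
  rw [← h1, hw, map_sum]
  refine Finset.sum_congr rfl fun i _ => ?_
  rw [map_sub, hh.gal]

theorem IsRealHom.good {N : ℕ} [NeZero N] [NeZero p] {h : ρ.V →+ TateMod p (JZero N)}
    (hh : IsRealHom ρ I h)
    {A : ValuationSubring Qb} (hA : A.LiesOverPrime p) {m : ℕ} {c : T}
    (hc : c - (p : T) ^ m ∈ I)
    (hD : ∀ v, c • v ∈ diffSub ρ A) (v : ρ.V) : Good A p (TateMod.proj 1 (h v)) := by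
  obtain ⟨ι, _, σ, Y, hσ, hY⟩ := hh.exists_sum hc hD v
  exact good_of_tate hA Finset.univ σ (fun i _ => hσ i) Y hY

end Hom

section False

variable {T : Type} [CommRing T] [IsLocalRing T] {ρ : GaloisRepAdic T} {I : Ideal T}
  {p : ℕ} [Fact p.Prime] [NeZero p] {M : ℕ} [NeZero M] {A : ValuationSubring Qb}

/-- projection of a real homomorphism to the `p`-torsion -/
noncomputable def bar {J : Type*} [AddCommGroup J] (h : ρ.V →+ TateMod p J) : ρ.V →+ J :=
  (TateMod.proj 1).comp h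

theorem bar_apply {J : Type*} [AddCommGroup J] (h : ρ.V →+ TateMod p J) (v : ρ.V) :
    bar h v = TateMod.proj 1 (h v) := rfl

theorem bar_gal {J : Type*} [AddCommGroup J] [DistribMulAction Gq J] {h : ρ.V →+ TateMod p J}
    (hh : IsRealHom ρ I h) (σ : Gq) (v : ρ.V) : bar h (ρ.ρ σ v) = σ • bar h v := by
  rw [bar_apply, hh.gal, proj_galTate, bar_apply]

theorem nsmul_bar {J : Type*} [AddCommGroup J] (h : ρ.V →+ TateMod p J) (v : ρ.V) :
    p • bar h v = 0 := by
  rw [bar_apply]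
  simpa using TateMod.pow_smul_proj (h v) 1

/-- **New case** leads to a contradiction. -/
theorem false_of_new (hp2 : p ≠ 2) (hA : A.LiesOverPrime p) (hpM : ¬ p ∣ M)
    (hSS : ∀ w, SS2p p M A w) (hirr : ρ.residual.IsAbsolutelyIrreducible)
    (hdet : ρ.DetIsCyclotomic p) {m : ℕ} {c : T} (hc : c - (p : T) ^ m ∈ I)
    (hD : ∀ v, c • v ∈ diffSub ρ A) {h : ρ.V →+ TateMod p (JZero (M * p))}
    (hh : IsRealHom ρ I h) (h0 : h ≠ 0)
    (hall : ∀ h : ρ.V →+ TateMod p (JZero (M * p)), IsRealHom ρ I h →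
      ∀ v, H67.pushP (heckeAlphaBar Qb M p) (bar h v) = 0) : False := by
  classical
  have hp : p.Prime := Fact.out
  obtain ⟨w⟩ : Nonempty (H99.AL Qb M p) :=
    H99.nonempty_AL H67.embQbar ((Nat.Prime.coprime_iff_not_dvd hp).2 hpM).symm
  obtain ⟨ζ, hζ⟩ : ∃ ζ : Qb, IsPrimitiveRoot ζ p := by
    have : NeZero (p : Qb) := ⟨by exact_mod_cast hp.ne_zero⟩
    exact HasEnoughRootsOfUnity.exists_primitiveRoot Qb p
  set G : Set (JZero (M * p)) := {x | ∃ h : ρ.V →+ TateMod p (JZero (M * p)),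
    IsRealHom ρ I h ∧ ∃ v, x = bar h v} with hG
  set W : AddSubgroup (JZero (M * p)) := AddSubgroup.closure G with hW
  have hwG : ∀ (σ : Gq) (x : JZero (M * p)), H67.pushP w.W.toAlgHom (σ • x) =
      σ • H67.pushP w.W.toAlgHom x := (H34.Two.isAL w hp hpM).pushP_smul
  have hgood : ∀ x ∈ W, Good A p x := by
    intro x hx
    induction hx using AddSubgroup.closure_induction with
    | mem x hx =>
      obtain ⟨h, hh, v, rfl⟩ := hx
      exact hh.good hA hc hD v
    | zero => exact Good.zero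
    | add x y _ _ hx hy => exact hx.add hy
    | neg x _ hx => exact hx.neg
  have hstab : ∀ f : JZero (M * p) →+ JZero (M * p), (∀ x ∈ G, f x ∈ G) → ∀ x ∈ W, f x ∈ W := by
    intro f hf x hx
    induction hx using AddSubgroup.closure_induction with
    | mem x hx => exact AddSubgroup.subset_closure (hf x hx)
    | zero => rw [map_zero]; exact W.zero_mem
    | add x y _ _ hx hy => rw [map_add]; exact W.add_mem hx hy
    | neg x _ hx => rw [map_neg]; exact W.neg_mem hx
  have hfinW : Finite W := by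
    have h1 : (W : Set (JZero (M * p))).Finite :=
      (H90.finite_jzero (N := M * p) hp.ne_zero).subset fun x hx => (hgood x hx).1
    exact h1.to_subtype
  obtain ⟨h', hh', v₀, hv₀⟩ := hh.saturate h0
  refine false_of_scalar ρ hp hp2 hirr hdet hA (bar h') (fun h1 => hv₀ ?_) (bar_gal hh') hζ ?_
  · rw [← bar_apply, h1]; rfl
  · intro σ hσ a hσζ v
    refine case_N hA hpM w (hSS w) hfinW (fun x hx => (hgood x hx).1) ?_ ?_ ?_
      (fun x hx => (hgood x hx).2) hζ hσ hσζ (AddSubgroup.subset_closure ⟨h', hh', v, rfl⟩)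
    · intro τ _ x hx
      refine hstab (DistribSMul.toAddMonoidHom _ τ) ?_ x hx
      rintro _ ⟨h, hh, v, rfl⟩
      exact ⟨h, hh, ρ.ρ τ v, (bar_gal hh τ v).symm⟩
    · refine hstab (H67.pushP w.W.toAlgHom) ?_
      rintro _ ⟨h, hh, v, rfl⟩
      exact ⟨_, hh.comp _ hwG, v, rfl⟩
    · intro x hx
      induction hx using AddSubgroup.closure_induction with
      | mem x hx =>
        obtain ⟨h, hh, v, rfl⟩ := hx
        exact hall h hh v
      | zero => exact map_zero _
      | add x y _ _ hx hy => rw [map_add, hx, hy, add_zero]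
      | neg x _ hx => rw [map_neg, hx, neg_zero]

section Perm

variable {J : Type*} [AddCommGroup J] [DistribMulAction Gq J]

variable (ρ I p J) in
/-- the set of the projections to `J[p]` of real homomorphisms -/
def barSet : Set (ρ.V →+ J) := {s | ∃ h : ρ.V →+ TateMod p J, IsRealHom ρ I h ∧ s = bar h}

variable (ρ I p J) in
/-- the set of values of the projections to `J[p]` of real homomorphisms -/
def valSet : Set J := {x | ∃ s ∈ barSet ρ I p J, ∃ v, x = s v}

theorem nsmul_of_mem_barSet {s : ρ.V →+ J} (hs : s ∈ barSet ρ I p J) (v : ρ.V) : p • s v = 0 := by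
  obtain ⟨h, -, rfl⟩ := hs
  exact nsmul_bar h v

theorem finite_barSet (hJ : {x : J | p • x = 0}.Finite)
    (hQ : Finite (ρ.V ⧸ (Ideal.span {(p : T)} • (⊤ : Submodule T ρ.V)))) :
    Finite (barSet ρ I p J) := by
  have hJ' : Finite {x : J | p • x = 0} := hJ.to_subtype
  let Φ : barSet ρ I p J → (ρ.V ⧸ (Ideal.span {(p : T)} • (⊤ : Submodule T ρ.V)) →
      {x : J | p • x = 0}) := fun s q =>
    ⟨(s : ρ.V →+ J) (Quotient.out q), nsmul_of_mem_barSet s.2 _⟩
  refine Finite.of_injective Φ ?_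
  rintro ⟨s, hs⟩ ⟨s', hs'⟩ hss
  apply Subtype.ext
  ext v
  have key : ∀ t ∈ barSet ρ I p J, t v = t (Quotient.out (Submodule.Quotient.mk v :
      ρ.V ⧸ (Ideal.span {(p : T)} • (⊤ : Submodule T ρ.V)))) := by
    intro t ht
    rw [← sub_eq_zero, ← map_sub]
    have h1 : v - Quotient.out (Submodule.Quotient.mk v :
        ρ.V ⧸ (Ideal.span {(p : T)} • (⊤ : Submodule T ρ.V))) ∈
        Ideal.span {(p : T)} • (⊤ : Submodule T ρ.V) := by
      rw [← Submodule.Quotient.mk_eq_zero, Submodule.Quotient.mk_sub, sub_eq_zero]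
      exact (Quotient.out_eq' _).symm
    generalize v - Quotient.out (Submodule.Quotient.mk v :
        ρ.V ⧸ (Ideal.span {(p : T)} • (⊤ : Submodule T ρ.V))) = y at h1 ⊢
    rw [Submodule.ideal_span_singleton_smul] at h1
    obtain ⟨z, -, hz⟩ := (Submodule.mem_smul_pointwise_iff_exists _ _ _).mp h1
    rw [← hz, Nat.cast_smul_eq_nsmul, map_nsmul]
    exact nsmul_of_mem_barSet ht z
  have h2 := congrFun hss (Submodule.Quotient.mk v)
  have h3 := congrArg Subtype.val h2
  rw [key s hs, key s' hs']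
  exact h3

theorem comp_mem_barSet (f : J →+ J) (hf : ∀ (σ : Gq) (x : J), f (σ • x) = σ • f x)
    {s : ρ.V →+ J} (hs : s ∈ barSet ρ I p J) : f.comp s ∈ barSet ρ I p J := by
  obtain ⟨h, hh, rfl⟩ := hs
  exact ⟨_, hh.comp f hf, rfl⟩

theorem sub_mem_barSet {s s' : ρ.V →+ J} (hs : s ∈ barSet ρ I p J) (hs' : s' ∈ barSet ρ I p J) :
    s - s' ∈ barSet ρ I p J := by
  obtain ⟨g, hg, rfl⟩ := hs
  obtain ⟨g', hg', rfl⟩ := hs'
  refine ⟨g - g', ⟨fun σ v => ?_, fun t ht v => ?_⟩, ?_⟩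
  · rw [AddMonoidHom.sub_apply, AddMonoidHom.sub_apply, hg.gal, hg'.gal, map_sub]
  · rw [AddMonoidHom.sub_apply, hg.ker t ht, hg'.ker t ht, sub_zero]
  · ext v
    rw [bar_apply, AddMonoidHom.sub_apply, AddMonoidHom.sub_apply, map_sub]
    rfl

theorem perm_or_kernel (hJ : {x : J | p • x = 0}.Finite)
    (hQ : Finite (ρ.V ⧸ (Ideal.span {(p : T)} • (⊤ : Submodule T ρ.V))))
    (f : J →+ J) (hf : ∀ (σ : Gq) (x : J), f (σ • x) = σ • f x) :
    (∃ s ∈ barSet ρ I p J, s ≠ 0 ∧ ∀ v, f (s v) = 0) ∨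
    ∃ TW : valSet ρ I p J ≃ valSet ρ I p J, ∀ x, (TW x : J) = f x := by
  classical
  by_cases hker : ∃ s ∈ barSet ρ I p J, s ≠ 0 ∧ ∀ v, f (s v) = 0
  · exact Or.inl hker
  right
  have hSfin : Finite (barSet ρ I p J) := finite_barSet hJ hQ
  let TS : barSet ρ I p J → barSet ρ I p J := fun s => ⟨f.comp s, comp_mem_barSet f hf s.2⟩
  have hTSinj : Function.Injective TS := by
    rintro ⟨s, hs⟩ ⟨s', hs'⟩ hss
    apply Subtype.ext
    show s = s'
    by_contra hne
    apply hker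
    refine ⟨s - s', sub_mem_barSet hs hs', sub_ne_zero.mpr hne, fun v => ?_⟩
    rw [AddMonoidHom.sub_apply, map_sub, sub_eq_zero]
    have h1 : f.comp s = f.comp s' := congrArg Subtype.val hss
    exact DFunLike.congr_fun h1 v
  have hTSsurj : Function.Surjective TS := Finite.surjective_of_injective hTSinj
  have hWfin : Finite (valSet ρ I p J) := by
    refine (hJ.subset ?_).to_subtype
    rintro x ⟨s, hs, v, rfl⟩
    exact nsmul_of_mem_barSet hs v
  let TW : valSet ρ I p J → valSet ρ I p J := fun x => ⟨f x, by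
    obtain ⟨s, hs, v, hx⟩ := x.2
    exact ⟨_, comp_mem_barSet f hf hs, v, by rw [hx]; rfl⟩⟩
  have hTWsurj : Function.Surjective TW := by
    rintro ⟨x, s, hs, v, rfl⟩
    obtain ⟨⟨s', hs'⟩, hs's⟩ := hTSsurj ⟨s, hs⟩
    refine ⟨⟨s' v, s', hs', v, rfl⟩, ?_⟩
    apply Subtype.ext
    have h1 : f.comp s' = s := congrArg Subtype.val hs's
    exact DFunLike.congr_fun h1 v
  have hTWbij : Function.Bijective TW :=
    ⟨Finite.injective_iff_surjective.mpr hTWsurj, hTWsurj⟩
  exact ⟨Equiv.ofBijective TW hTWbij, fun x => rfl⟩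

end Perm

/-- **Old case** leads to a contradiction. -/
theorem false_of_old (hp2 : 2 < p) (hA : A.LiesOverPrime p) (F : InertiaFacts p A)
    (hpM : ¬ p ∣ M) (hCL : CLp p M A) (hirr : ρ.residual.IsAbsolutelyIrreducible)
    (hdet : ρ.DetIsCyclotomic p)
    (hres : (GaloisRepAdic.ofResidualGaloisRep ρ.residual).IsOrdinaryAt p)
    (hnil : ∃ n : ℕ, IsLocalRing.maximalIdeal T ^ n ≤ Ideal.span {(p : T)})
    (hQ : Finite (ρ.V ⧸ (Ideal.span {(p : T)} • (⊤ : Submodule T ρ.V))))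
    {m : ℕ} {c : T} (hc : c - (p : T) ^ m ∈ I)
    (hD : ∀ v, c • v ∈ diffSub ρ A) {h : ρ.V →+ TateMod p (JZero M)}
    (hh : IsRealHom ρ I h) (h0 : h ≠ 0) : False := by
  have hp : p.Prime := Fact.out
  have hp2' : p ≠ 2 := by omega
  obtain ⟨ζ, hζ⟩ : ∃ ζ : Qb, IsPrimitiveRoot ζ p := by
    have : NeZero (p : Qb) := ⟨by exact_mod_cast hp.ne_zero⟩
    exact HasEnoughRootsOfUnity.exists_primitiveRoot Qb p
  have hTpG : ∀ (σ : Gq) (x : JZero M), heckeOperatorAlong Qb M p (σ • x) =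
      σ • heckeOperatorAlong Qb M p x := H67.heckeOperatorAlong_smul (L := Qb) M p
  have hJ : {x : JZero M | p • x = 0}.Finite := H90.finite_jzero (N := M) hp.ne_zero
  obtain ⟨h', hh', v₀, hv₀⟩ := hh.saturate h0
  have hbar0 : bar h' ≠ 0 := fun h1 => hv₀ (by rw [← bar_apply, h1]; rfl)
  rcases perm_or_kernel (ρ := ρ) (I := I) (p := p) hJ hQ (heckeOperatorAlong Qb M p) hTpG with
    ⟨s, ⟨g, hg, rfl⟩, hs0, hker⟩ | ⟨TW, hTW⟩
  · exact false_of_kernel ρ hp hirr hdet hres hnil hA (bar g) hs0 (nsmul_bar g) (bar_gal hg) hζ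
      (fun v hv => case_C hp2 hA F hpM hCL hζ (nsmul_bar g v) (hker v) hv)
  · have hWfin : Finite (valSet ρ I p (JZero M)) := by
      refine (hJ.subset ?_).to_subtype
      rintro x ⟨s, hs, v, rfl⟩
      exact nsmul_of_mem_barSet hs v
    have hred : ∀ x : valSet ρ I p (JZero M), ∀ f : H99.FX Qb M, IsKum p (x : JZero M) f →
        ∃ ω, Red A (IsLocalRing.residue A) (f : LaurentSeries Qb) (ω ^ p) := by
      rintro ⟨x, s, ⟨g, hg, rfl⟩, u, rfl⟩
      exact (hg.good hA hc hD u).2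
    refine false_of_scalar ρ hp hp2' hirr hdet hA (bar h') hbar0 (bar_gal hh') hζ ?_
    intro σ hσ a hσζ v
    exact case_D hp2 hA F hpM hCL TW (fun x : valSet ρ I p (JZero M) => (x : JZero M))
      (fun x => (hTW x).symm) (fun x => by
        obtain ⟨x, s, hs, v, rfl⟩ := x
        exact nsmul_of_mem_barSet hs v) hred hζ hσ hσζ
      ⟨bar h' v, bar h', ⟨h', hh', rfl⟩, v, rfl⟩

end False

end Fermat.Agent.H33
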