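import Fermat.Prelude.Def_GaloisRep_LocalConditions
import Mathlib.LinearAlgebra.Charpoly.ToMatrix
import Mathlib.LinearAlgebra.Projection
import Mathlib.RingTheory.LocalRing.Module
import Mathlib.LinearAlgebra.Trace
import Fermat.Agent.H91Inertia

/-!
# Patching ordinarity over a local coefficient ring (helper33, for S33)
-/

set_option autoImplicit false

open scoped TensorProduct Pointwise
open Polynomial

namespace Fermat.Agent.H33

section Rank2

variable {T : Type} [CommRing T] [IsLocalRing T] {V : Type} [AddCommGroup V] [Module T V]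
  [Module.Free T V] [Module.Finite T V]

/-- If `s` acts on a free rank two module over a local ring, `(s - d)(s - 1) = 0` with
`d = det s` and `d - 1` a unit, then `ker (s - d)` is a rank one direct summand. -/
theorem exists_basis_of_split (hV : Module.finrank T V = 2) (s : Module.End T V)
    (hd : IsUnit (LinearMap.det s)) (hd1 : IsUnit (LinearMap.det s - 1))
    (hs : ∀ v, s (s v - v) = LinearMap.det s • (s v - v)) :
    ∃ b : Module.Basis (Fin 2) T V,
      ∀ v : V, v ∈ Submodule.span T {b 0} ↔ s v = LinearMap.det s • v := by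
  set d := LinearMap.det s with hd_def
  obtain ⟨u, hu⟩ := hd1
  -- the projector
  set e : Module.End T V := (↑u⁻¹ : T) • (s - 1) with he
  have hsub : (s - 1) * (s - 1) = (d - 1) • (s - 1) := by
    ext v
    simp only [Module.End.mul_apply, LinearMap.sub_apply, Module.End.one_apply,
      LinearMap.smul_apply, hs v, sub_smul, one_smul]
  have hee : e * e = e := by
    rw [he, smul_mul_smul_comm, hsub, smul_smul, ← hu]
    congr 1
    rw [mul_assoc, Units.inv_mul, mul_one]
  have hproj : IsIdempotentElem e := hee
  -- eigen characterization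
  have hmem : ∀ v : V, v ∈ LinearMap.range e ↔ s v = d • v := by
    intro v
    constructor
    · rintro ⟨w, rfl⟩
      have : e w = (↑u⁻¹ : T) • (s w - w) := rfl
      rw [this, map_smul, hs w, smul_comm]
    · intro hv
      refine ⟨v, ?_⟩
      have : e v = (↑u⁻¹ : T) • (s v - v) := rfl
      rw [this, hv, show d • v - v = (d - 1) • v by rw [sub_smul, one_smul], smul_smul, ← hu,
        Units.inv_mul, one_smul]
  have hker : ∀ v : V, v ∈ LinearMap.ker e ↔ s v = v := by
    intro v
    have hev : e v = (↑u⁻¹ : T) • (s v - v) := rfl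
    rw [LinearMap.mem_ker, hev]
    constructor
    · intro h
      have h2 := congrArg (fun w => (u : T) • w) h
      simp only [smul_smul, Units.mul_inv, one_smul, smul_zero] at h2
      exact sub_eq_zero.mp h2
    · intro h
      rw [h, sub_self, smul_zero]
  -- both summands are free
  have hcompl : IsCompl (LinearMap.range e) (LinearMap.ker e) :=
    LinearMap.IsIdempotentElem.isCompl hproj
  let E := Submodule.prodEquivOfIsCompl _ _ hcompl
  have : Module.Finite T (LinearMap.range e) := inferInstance
  have hfr : Module.Projective T (LinearMap.range e) := by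
    refine Module.Projective.of_split (M := V) (LinearMap.range e).subtype
      (e.rangeRestrict) ?_
    ext ⟨v, hv⟩
    obtain ⟨w, rfl⟩ := hv
    simp only [LinearMap.comp_apply, Submodule.subtype_apply, LinearMap.id_apply]
    exact congrArg (fun f : Module.End T V => f w) hee
  have hfk : Module.Projective T (LinearMap.ker e) := by
    refine Module.Projective.of_split (M := V) (LinearMap.ker e).subtype
      ((LinearMap.codRestrict (LinearMap.ker e) (1 - e) ?_)) ?_
    · intro v
      rw [LinearMap.mem_ker]
      have := congrArg (fun f : Module.End T V => f v) hee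
      simp only [Module.End.mul_apply] at this
      simp [this]
    · ext ⟨v, hv⟩
      rw [LinearMap.mem_ker] at hv
      simp [hv]
  have : Module.Finite T (LinearMap.ker e) := by
    refine Module.Finite.of_surjective (LinearMap.codRestrict (LinearMap.ker e) (1 - e) ?_) ?_
    · intro v
      rw [LinearMap.mem_ker]
      have := congrArg (fun f : Module.End T V => f v) hee
      simp only [Module.End.mul_apply] at this
      simp [this]
    · rintro ⟨v, hv⟩
      refine ⟨v, ?_⟩
      rw [LinearMap.mem_ker] at hv
      ext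
      simp [hv]
  have : Module.Free T (LinearMap.range e) := Module.free_of_flat_of_isLocalRing
  have : Module.Free T (LinearMap.ker e) := Module.free_of_flat_of_isLocalRing
  have hsum : Module.finrank T (LinearMap.range e) + Module.finrank T (LinearMap.ker e) = 2 := by
    rw [← Module.finrank_prod, ← hV]
    exact LinearEquiv.finrank_eq E
  have hne0 : Module.finrank T (LinearMap.range e) ≠ 0 := by
    intro h0
    have hbot : ∀ v : V, e v = 0 := by
      intro v
      have : Subsingleton (LinearMap.range e) := (Module.finrank_eq_zero_iff_of_free T _).mp h0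
      have : (⟨e v, v, rfl⟩ : LinearMap.range e) = 0 := Subsingleton.elim _ _
      exact congrArg Subtype.val this
    have hs1 : s = 1 := by
      ext v
      exact (hker v).mp (LinearMap.mem_ker.mpr (hbot v))
    have : d - 1 = 0 := by rw [hd_def, hs1, map_one, sub_self]
    exact not_isUnit_zero (this ▸ hu ▸ u.isUnit)
  have hne0' : Module.finrank T (LinearMap.ker e) ≠ 0 := by
    intro h0
    have : Subsingleton (LinearMap.ker e) := (Module.finrank_eq_zero_iff_of_free T _).mp h0
    have htop : ∀ v : V, s v = d • v := by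
      intro v
      rw [← hmem]
      refine ⟨v, ?_⟩
      have hm : v - e v ∈ LinearMap.ker e := by
        rw [LinearMap.mem_ker, map_sub]
        have := congrArg (fun f : Module.End T V => f v) hee
        simp only [Module.End.mul_apply] at this
        rw [this, sub_self]
      have : (⟨v - e v, hm⟩ : LinearMap.ker e) = 0 := Subsingleton.elim _ _
      exact (sub_eq_zero.mp (congrArg Subtype.val this)).symm
    have hsd : s = d • (1 : Module.End T V) := by
      ext v
      exact htop v
    have hdd : d = d ^ 2 := by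
      conv_lhs => rw [hd_def, hsd, LinearMap.det_smul, hV, map_one, mul_one]
    have : d * (d - 1) = 0 := by linear_combination -hdd
    rw [hd.mul_right_eq_zero] at this
    exact not_isUnit_zero (this ▸ hu ▸ u.isUnit)
  have hr1 : Module.finrank T (LinearMap.range e) = 1 := by omega
  have hk1 : Module.finrank T (LinearMap.ker e) = 1 := by omega
  let b₁ : Module.Basis (Fin 1) T (LinearMap.range e) := Module.finBasisOfFinrankEq T _ hr1
  let b₂ : Module.Basis (Fin 1) T (LinearMap.ker e) := Module.finBasisOfFinrankEq T _ hk1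
  let B : Module.Basis (Fin 2) T V := ((b₁.prod b₂).map E).reindex finSumFinEquiv
  have hB0 : B 0 = (b₁ 0 : V) := by
    have h0 : (finSumFinEquiv (m := 1) (n := 1)).symm 0 = Sum.inl 0 := rfl
    simp only [B, Module.Basis.reindex_apply, Module.Basis.map_apply, h0, E]
    simp
  refine ⟨B, fun v => ?_⟩
  rw [← hmem, hB0, Submodule.mem_span_singleton]
  constructor
  · rintro ⟨a, rfl⟩
    exact Submodule.smul_mem _ _ (b₁ 0).2
  · intro hv
    refine ⟨b₁.repr ⟨v, hv⟩ 0, ?_⟩
    have := b₁.sum_repr ⟨v, hv⟩
    simp only [Fin.sum_univ_one] at this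
    exact congrArg Subtype.val this

end Rank2

section Adic

variable {T : Type} [CommRing T] [IsLocalRing T]

local notation "Qb" => AlgebraicClosure ℚ

/-- Ordinarity from the weak identity `(ρ τ - det ρ τ)(ρ σ - 1) = 0` on inertia, and one inertia
element whose determinant is not `1` residually. -/
theorem isOrdinaryAt_of_weak (ρ : GaloisRepAdic T) (p : ℕ)
    (h1 : ∀ P : ValuationSubring Qb, P.LiesOverPrime p →
      ∀ σ ∈ P.inertiaSubgroupIn ℚ, ∀ τ ∈ P.inertiaSubgroupIn ℚ, ∀ v : ρ.V,
        ρ.ρ τ (ρ.ρ σ v - v) = LinearMap.det (ρ.ρ τ) • (ρ.ρ σ v - v))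
    (h2 : ∀ P : ValuationSubring Qb, P.LiesOverPrime p →
      ∃ σ ∈ P.inertiaSubgroupIn ℚ, IsUnit (LinearMap.det (ρ.ρ σ) - 1)) :
    ρ.IsOrdinaryAt p := by
  intro P hP
  obtain ⟨s, hs, hs1⟩ := h2 P hP
  have hunit : ∀ σ, IsUnit (LinearMap.det (ρ.ρ σ)) := fun σ => by
    have : IsUnit (ρ.ρ σ) := (Group.isUnit σ).map ρ.ρ
    exact this.map LinearMap.det
  obtain ⟨b, hb⟩ := exists_basis_of_split ρ.finrank_eq (ρ.ρ s) (hunit s) hs1
    (fun v => h1 P hP s hs s hs v)
  refine ⟨Submodule.span T {b 0}, ⟨b, rfl⟩, ?_, ?_⟩
  · intro δ hδ v hv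
    rw [hb] at hv
    obtain ⟨u, hu⟩ := hs1
    -- `v = ρ s w - w`
    have hv' : v = ρ.ρ s ((↑u⁻¹ : T) • v) - (↑u⁻¹ : T) • v := by
      rw [map_smul, hv, ← smul_sub]
      have : LinearMap.det (ρ.ρ s) • v - v = (u : T) • v := by rw [hu, sub_smul, one_smul]
      rw [this, smul_smul, Units.inv_mul, one_smul]
    set w := (↑u⁻¹ : T) • v with hw
    have hconj : δ * s * δ⁻¹ ∈ P.inertiaSubgroupIn ℚ := by
      have h := Fermat.Agent.H91.conj_mem_inertia hs δ
      have hδ' : δ • P = P := hδ
      rwa [hδ'] at h
    have h3 : ρ.ρ δ v = ρ.ρ (δ * s * δ⁻¹) (ρ.ρ δ w) - ρ.ρ δ w := by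
      conv_lhs => rw [hv']
      rw [map_sub, ← Module.End.mul_apply, ← map_mul, ← Module.End.mul_apply, ← map_mul,
        inv_mul_cancel_right]
    rw [hb, h3]
    exact h1 P hP _ hconj s hs _
  · intro σ hσ v
    rw [hb]
    exact h1 P hP σ hσ s hs v

omit [IsLocalRing T] in
/-- Elements of `V` that vanish after all base changes of a jointly injective family are
zero. -/
theorem eq_zero_of_baseChange {V : Type} [AddCommGroup V] [Module T V] [Module.Free T V]
    {ι : Type*} (E : ι → Type) [∀ i, CommRing (E i)] [∀ i, Algebra T (E i)]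
    (hE : ∀ t : T, (∀ i, algebraMap T (E i) t = 0) → t = 0)
    (x : V) (hx : ∀ i, (1 : E i) ⊗ₜ[T] x = 0) : x = 0 := by
  let b := Module.Free.chooseBasis T V
  apply b.ext_elem
  intro j
  rw [map_zero, Finsupp.zero_apply]
  apply hE
  intro i
  have := congrArg (fun y => (b.baseChange (E i)).repr y j) (hx i)
  simp only [map_zero, Finsupp.zero_apply] at this
  rw [Module.Basis.baseChange_repr_tmul] at this
  rw [← this, Algebra.smul_def, mul_one]

end Adic

section Pointwise

variable {T : Type} [CommRing T]

/-- A two-dimensional space with a functional fixed by `s` and `t`: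
`(t - det t)(s - 1) = 0`. -/
theorem weak_of_functional {K : Type*} [Field K] {V : Type*} [AddCommGroup V] [Module K V]
    (hV : Module.finrank K V = 2) {W : Type*} [AddCommGroup W] [Module K W] (f : V →ₗ[K] W)
    (hf : f ≠ 0) (s t : Module.End K V) (hs : ∀ v, f (s v) = f v) (ht : ∀ v, f (t v) = f v)
    (v : V) : t (s v - v) = LinearMap.det t • (s v - v) := by
  have : FiniteDimensional K V := Module.finite_of_finrank_eq_succ hV
  set l := s v - v with hl
  have hfl : f l = 0 := by rw [hl, map_sub, hs, sub_self]
  by_cases hl0 : l = 0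
  · rw [hl0, map_zero, smul_zero]
  -- pick `m` with `f m ≠ 0`
  obtain ⟨m, hm⟩ : ∃ m, f m ≠ 0 := by
    by_contra h
    push Not at h
    exact hf (LinearMap.ext h)
  have hli : LinearIndependent K ![l, m] := by
    rw [LinearIndependent.pair_iff]
    intro a c hac
    have h1 := congrArg f hac
    rw [map_add, map_smul, map_smul, hfl, smul_zero, zero_add, map_zero] at h1
    have hc : c = 0 := (smul_eq_zero.mp h1).resolve_right hm
    rw [hc, zero_smul, add_zero] at hac
    exact ⟨(smul_eq_zero.mp hac).resolve_right hl0, hc⟩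
  let b : Module.Basis (Fin 2) K V := basisOfLinearIndependentOfCardEqFinrank hli (by
    rw [hV]; rfl)
  have hb0 : b 0 = l := by simp [b]
  have hb1 : b 1 = m := by simp [b]
  -- the kernel of `f` is the line spanned by `l`
  have hker : ∀ x, f x = 0 → ∃ c : K, x = c • l := by
    intro x hx
    have h1 := b.sum_repr x
    rw [Fin.sum_univ_two, hb0, hb1] at h1
    have h2 := congrArg f h1
    rw [map_add, map_smul, map_smul, hfl, smul_zero, zero_add, hx] at h2
    have h3 : b.repr x 1 = 0 := (smul_eq_zero.mp h2).resolve_right hm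
    rw [h3, zero_smul, add_zero] at h1
    exact ⟨_, h1.symm⟩
  obtain ⟨c, hc⟩ := hker (t l) (by rw [ht, hfl])
  obtain ⟨c', hc'⟩ := hker (t m - m) (by rw [map_sub, ht, sub_self])
  have hdet : LinearMap.det t = c := by
    rw [← LinearMap.det_toMatrix b, Matrix.det_fin_two]
    have e0 : t (b 0) = c • b 0 := by rw [hb0, hc]
    have e1 : t (b 1) = c' • b 0 + b 1 := by rw [hb0, hb1, ← hc', sub_add_cancel]
    simp only [LinearMap.toMatrix_apply, e0, e1, map_smul, map_add, Module.Basis.repr_self,
      Finsupp.smul_apply, Finsupp.add_apply]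
    simp
  rw [hdet, hc]

end Pointwise

section Final

variable {T : Type} [CommRing T] [IsLocalRing T]

local notation "Qb" => AlgebraicClosure ℚ

/-- **Patching**: if for a jointly injective family of points `T → E i` (`E i` fields) the base
change `E i ⊗ V` carries a nonzero functional invariant under inertia at `p`, and the determinant
is residually nontrivial on inertia, then `ρ` is ordinary at `p`. -/
theorem isOrdinaryAt_of_functional (ρ : GaloisRepAdic T) (p : ℕ)
    {ι : Type*} (E : ι → Type) [∀ i, Field (E i)] [∀ i, Algebra T (E i)]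
    (hE : ∀ t : T, (∀ i, algebraMap T (E i) t = 0) → t = 0)
    (h1 : ∀ P : ValuationSubring Qb, P.LiesOverPrime p → ∀ i,
      ∃ (W : Type) (_ : AddCommGroup W) (_ : Module (E i) W) (f : E i ⊗[T] ρ.V →ₗ[E i] W),
        f ≠ 0 ∧ ∀ σ ∈ P.inertiaSubgroupIn ℚ, ∀ v, f ((ρ.ρ σ).baseChange (E i) v) = f v)
    (h2 : ∀ P : ValuationSubring Qb, P.LiesOverPrime p →
      ∃ σ ∈ P.inertiaSubgroupIn ℚ, IsUnit (LinearMap.det (ρ.ρ σ) - 1)) :
    ρ.IsOrdinaryAt p := by
  refine isOrdinaryAt_of_weak ρ p (fun P hP σ hσ τ hτ v => ?_) h2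
  rw [← sub_eq_zero]
  refine eq_zero_of_baseChange E hE _ fun i => ?_
  obtain ⟨W, _, _, f, hf, hfI⟩ := h1 P hP i
  have hfr : Module.finrank (E i) (E i ⊗[T] ρ.V) = 2 := by
    rw [Module.finrank_baseChange, ρ.finrank_eq]
  have h := weak_of_functional hfr f hf ((ρ.ρ σ).baseChange (E i)) ((ρ.ρ τ).baseChange (E i))
    (hfI σ hσ) (hfI τ hτ) (1 ⊗ₜ[T] v)
  rw [LinearMap.det_baseChange] at h
  rw [LinearMap.baseChange_tmul, ← TensorProduct.tmul_sub, LinearMap.baseChange_tmul,
    ← sub_eq_zero, algebraMap_smul, ← TensorProduct.tmul_smul, ← TensorProduct.tmul_sub] at h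
  exact h

end Final

end Fermat.Agent.H33
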