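import Fermat.Agent.H33NormN
import Fermat.Agent.H34Arch

/-!
# Starting closeness at level `Mp` (helper33)
-/

set_option autoImplicit false
set_option linter.unusedSectionVars false

open ModularCurve AlgebraicCurve

namespace Fermat.Agent.H33

local notation "Qb" => AlgebraicClosure ℚ
local notation "Gq" => AlgebraicClosure ℚ ≃ₐ[ℚ] AlgebraicClosure ℚ

variable {p : ℕ} [Fact p.Prime] [NeZero p] {M : ℕ} [NeZero M] {A : ValuationSubring Qb}

/-- elements of the maximal ideal of the Gauss ring are divisible by constants -/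
theorem exists_const_dvd {N : ℕ} {r : LaurentSeries Qb} (hr : r ∈ H99.FX Qb N) (hr0 : r ≠ 0)
    (hrV : r ∈ valRing A (IsLocalRing.residue A))
    (hres : valRes A (IsLocalRing.residue A) ⟨r, hrV⟩ = 0) :
    ∃ c : A, c ≠ 0 ∧ IsLocalRing.residue A c = 0 ∧ ∃ u ∈ valRing A (IsLocalRing.residue A),
      r = cst (c : Qb) * u := by
  have hπ := IsLocalRing.residue_surjective (R := A)
  rw [H99.FX_eq] at hr
  obtain ⟨s, hs, c₁, hc₁, hm, hms⟩ := exists_red (A := A) hπ N hr hr0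
  have hne : cst c₁ * r ≠ 0 := mul_ne_zero (cst_ne_zero hc₁) hr0
  have hinv : (cst c₁ * r)⁻¹ ∈ valRing A (IsLocalRing.residue A) :=
    inv_mem_valRing hm (by rw [hms]; exact hs)
  have he : cst c₁⁻¹ = r * (cst c₁ * r)⁻¹ := by
    rw [cst_inv, mul_inv, mul_comm (cst c₁)⁻¹, ← mul_assoc, mul_inv_cancel₀ hr0, one_mul]
  have hmem : cst c₁⁻¹ ∈ valRing A (IsLocalRing.residue A) := by
    rw [he]; exact mul_mem hrV hinv
  have hcA : c₁⁻¹ ∈ A := mem_of_cst_mem hπ hmem
  refine ⟨⟨c₁⁻¹, hcA⟩, ?_, ?_, cst c₁ * r, hm, ?_⟩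
  · intro h
    exact inv_ne_zero hc₁ (congrArg Subtype.val h)
  · have h1 := valRes_cst (π := IsLocalRing.residue A) (⟨c₁⁻¹, hcA⟩ : A) hmem
    have h2 : (⟨cst c₁⁻¹, hmem⟩ : valRing A (IsLocalRing.residue A)) = ⟨r, hrV⟩ * ⟨_, hinv⟩ :=
      Subtype.ext he
    rw [h2, map_mul, hres, zero_mul] at h1
    have h3 : algebraMap (IsLocalRing.ResidueField A) (LaurentSeries (IsLocalRing.ResidueField A))
        (IsLocalRing.residue A ⟨c₁⁻¹, hcA⟩) = 0 := h1.symm
    exact (map_eq_zero _).mp h3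
  · show r = cst c₁⁻¹ * (cst c₁ * r)
    rw [← mul_assoc, ← cst_mul, inv_mul_cancel₀ hc₁, cst_one, one_mul]

theorem residue_p (hA : A.LiesOverPrime p) : IsLocalRing.residue A (p : A) = 0 := by
  have : CharP (IsLocalRing.ResidueField A) p := H60.charP_residue Fact.out hA
  rw [map_natCast]
  exact CharP.cast_eq_zero _ p

/-- functions of level `Mp` whose reduction is a `p`-th power -/
theorem exists_start (hA : A.LiesOverPrime p) (hpM : ¬ p ∣ M) (w : H99.AL Qb M p)
    {f : H99.FX Qb (M * p)} {ω : LaurentSeries (IsLocalRing.ResidueField A)}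
    (hf : Red A (IsLocalRing.residue A) (f : LaurentSeries Qb) (ω ^ p)) :
    ∃ U ∈ H99.FX Qb (M * p), U ≠ 0 ∧ ∃ c : A, c ≠ 0 ∧ IsLocalRing.residue A c = 0 ∧
      ∃ u ∈ valRing A (IsLocalRing.residue A),
        (f : LaurentSeries Qb) * U ^ p = 1 + cst (c : Qb) * u := by
  have hp : p.Prime := Fact.out
  have : CharP (IsLocalRing.ResidueField A) p := H60.charP_residue hp hA
  have : IsAlgClosed (IsLocalRing.ResidueField A) := H18.isAlgClosed_residueField A
  have hπ := IsLocalRing.residue_surjective (R := A)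
  have hMk : (M : IsLocalRing.ResidueField A) ≠ 0 := H34.Two.cast_ne_zero_of_not_dvd _ hpM
  obtain ⟨hω0, c₀, hc₀, hm, hms⟩ := id hf
  set F₀ : H99.FX Qb (M * p) := algebraMap Qb (H99.FX Qb (M * p)) c₀ * f with hF₀
  have hF₀L : (F₀ : LaurentSeries Qb) = cst c₀ * f := coe_const_mul _ _
  have hF₀V : (F₀ : LaurentSeries Qb) ∈ valRing A (IsLocalRing.residue A) := by
    rw [hF₀L]; exact hm
  have hF₀r : (H34.Two.gC A (IsLocalRing.residue A) (M * p)).red F₀ = ω ^ p := by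
    rw [red_gC_eq hF₀V, ← hms]
    congr 1
  have h1 := (H34.Two.red_mem_full w hπ (H42.degreeFact Qb)
    (H42.degLE_of Qb (IsLocalRing.ResidueField A) M hMk) hpM F₀).1
  rw [hF₀r] at h1
  have h2 : ω ∈ modularFunctionFieldFullC (IsLocalRing.ResidueField A) M :=
    fullC_sat p M hMk ω h1
  obtain ⟨g, hgV, hgr⟩ := H34.Two.mem_image_gC A (IsLocalRing.residue A) hπ (NeZero.ne M) h2
  have hω : ω ≠ 0 := by
    rintro rfl
    rw [zero_pow hp.ne_zero] at hω0
    exact hω0 rfl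
  have hgV' := mem_gC_iff.mp hgV
  rw [red_gC_eq hgV'] at hgr
  have hginv : (g : LaurentSeries Qb)⁻¹ ∈ valRing A (IsLocalRing.residue A) :=
    inv_mem_valRing hgV' (by rw [hgr]; exact hω)
  have hg0 : (g : LaurentSeries Qb) ≠ 0 := by
    intro h0
    apply hω
    rw [← hgr]
    have : (⟨(g : LaurentSeries Qb), hgV'⟩ : valRing A (IsLocalRing.residue A)) = 0 :=
      Subtype.ext h0
    rw [this, map_zero]
  have hginvr : valRes A (IsLocalRing.residue A) ⟨_, hginv⟩ = ω⁻¹ := by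
    have h3 : (⟨_, hginv⟩ : valRing A (IsLocalRing.residue A)) * ⟨_, hgV'⟩ = 1 :=
      Subtype.ext (inv_mul_cancel₀ hg0)
    have h4 := congrArg (valRes A (IsLocalRing.residue A)) h3
    rw [map_mul, map_one, hgr] at h4
    exact eq_inv_of_mul_eq_one_left h4
  have hgF : (g : LaurentSeries Qb) ∈ H99.FX Qb (M * p) := by
    have h4 := (heckeAlphaBar Qb M p g).2
    rwa [coe_heckeAlphaBar] at h4
  obtain ⟨d, hd⟩ := IsAlgClosed.exists_pow_nat_eq c₀ hp.pos
  have hd0 : d ≠ 0 := by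
    rintro rfl
    rw [zero_pow hp.ne_zero] at hd
    exact hc₀ hd.symm
  set U : LaurentSeries Qb := cst d * (g : LaurentSeries Qb)⁻¹ with hU
  have hUF : U ∈ H99.FX Qb (M * p) :=
    mul_mem (IntermediateField.algebraMap_mem _ d) (inv_mem hgF)
  have hU0 : U ≠ 0 := mul_ne_zero (cst_ne_zero hd0) (inv_ne_zero hg0)
  set X : LaurentSeries Qb := (f : LaurentSeries Qb) * U ^ p with hX
  have hXe : X = cst c₀ * f * (g : LaurentSeries Qb)⁻¹ ^ p := by
    rw [hX, hU, mul_pow, ← cst_pow, hd]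
    ring
  have hXV : X ∈ valRing A (IsLocalRing.residue A) := by
    rw [hXe]; exact mul_mem hm (pow_mem hginv p)
  have hXr : valRes A (IsLocalRing.residue A) ⟨X, hXV⟩ = 1 := by
    have h3 : (⟨X, hXV⟩ : valRing A (IsLocalRing.residue A)) = ⟨_, hm⟩ * ⟨_, hginv⟩ ^ p :=
      Subtype.ext hXe
    rw [h3, map_mul, map_pow, hms, hginvr, inv_pow, mul_inv_cancel₀ hω0]
  have hXF : X ∈ H99.FX Qb (M * p) := mul_mem f.2 (pow_mem hUF p)
  have hrV : X - 1 ∈ valRing A (IsLocalRing.residue A) := sub_mem hXV (one_mem _)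
  have hrr : valRes A (IsLocalRing.residue A) ⟨X - 1, hrV⟩ = 0 := by
    have h3 : (⟨X - 1, hrV⟩ : valRing A (IsLocalRing.residue A)) = ⟨X, hXV⟩ - 1 := rfl
    rw [h3, map_sub, hXr, map_one, sub_self]
  refine ⟨U, hUF, hU0, ?_⟩
  by_cases hX1 : X - 1 = 0
  · refine ⟨(p : A), ?_, residue_p hA, 0, zero_mem _, ?_⟩
    · intro h
      have h3 : (p : Qb) = 0 := by
        have := congrArg (fun z : A => (z : Qb)) h
        simpa using this
      exact hp.ne_zero (by exact_mod_cast h3)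
    · rw [mul_zero, add_zero, ← sub_eq_zero, ← hX1]
  · obtain ⟨c, hc0, hc, u, hu, he⟩ := exists_const_dvd (A := A) (N := M * p)
      (sub_mem hXF (one_mem _)) hX1 hrV hrr
    refine ⟨c, hc0, hc, u, hu, ?_⟩
    rw [← he]
    ring

end Fermat.Agent.H33
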