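import Mathlib
import Fermat.Agent.H40Pole
import Fermat.Agent.H3RR_Special
import Fermat.Agent.H3RR_Bridge

/-!
# Good reduction: injectivity on torsion prime to the residue characteristic (helper34)

`R : ReductionData K F k E` is helper40's Gauss type reduction, `r : Place K F → Place k E` any
map on places compatible with divisors of integral functions (`DivCompat`).

Main results: `GR.torsion_injective`, `GR.kummer_injective`.
-/

set_option autoImplicit false

noncomputable section

open AlgebraicCurve WithZero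

namespace Fermat.Agent.H34

namespace GR

open Fermat.Agent.H40

variable {K F k E : Type*} [Field K] [Field F] [Algebra K F] [Field k] [Field E] [Algebra k E]

/-! ### Elementary facts on places -/

theorem ord_neg' (P : Place K F) (f : F) : P.ord (-f) = P.ord f := by
  simp [Place.ord, Valuation.map_neg]

theorem ord_const_mul (P : Place K F) {c : K} (hc : c ≠ 0) (f : F) :
    P.ord (algebraMap K F c * f) = P.ord f := by
  rcases eq_or_ne f 0 with rfl | hf
  · rw [mul_zero]
  rw [P.ord_mul (by simpa using hc) hf, H40.ord_algebraMap, zero_add]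

theorem ord_npow (P : Place K F) {f : F} (n : ℕ) : P.ord (f ^ n) = n * P.ord f := by
  rcases eq_or_ne f 0 with rfl | hf
  · rcases Nat.eq_zero_or_pos n with rfl | hn
    · simp
    · rw [zero_pow hn.ne']; simp
  induction n with
  | zero => simp
  | succ n ih =>
    rw [pow_succ, P.ord_mul (pow_ne_zero n hf) hf, ih]
    push_cast; ring

/-- For a place of degree one every regular function takes a value in `K`. -/
theorem exists_value' (P : Place K F) (hP : P.deg = 1) {f : F} (hf : 0 ≤ P.ord f) :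
    ∃ c : K, f - algebraMap K F c = 0 ∨ 1 ≤ P.ord (f - algebraMap K F c) := by
  have hf : f ∈ P.toValuationSubring := by
    by_cases hf0 : f = 0
    · subst hf0; exact P.toValuationSubring.zero_mem
    obtain ⟨π, hπ⟩ := IsDiscreteValuationRing.exists_irreducible P.toValuationSubring
    obtain ⟨u, hu⟩ := P.exists_unit_mul_zpow hf0 hπ
    rw [hu]
    refine mul_mem (u : P.toValuationSubring).2 ?_
    lift P.ord f to ℕ using hf with n hn
    rw [zpow_natCast]
    exact pow_mem π.2 n
  have hfin : Module.finrank K P.ResidueField = 1 := hP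
  have : Module.Finite K P.ResidueField := Module.finite_of_finrank_eq_succ hfin
  have hsurj : Function.Surjective (algebraMap K P.ResidueField) := by
    intro x
    obtain ⟨c, hc⟩ := (finrank_eq_one_iff_of_nonzero' (1 : P.ResidueField) one_ne_zero).mp hfin x
    exact ⟨c, by rw [Algebra.algebraMap_eq_smul_one, hc]⟩
  obtain ⟨c, hc⟩ := hsurj (IsLocalRing.residue _ ⟨f, hf⟩)
  refine ⟨c, ?_⟩
  by_cases h0 : f - algebraMap K F c = 0
  · exact Or.inl h0
  right
  have hmem : f - algebraMap K F c ∈ P.toValuationSubring :=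
    sub_mem hf (P.algebraMap_mem' c)
  have hres : IsLocalRing.residue _ (⟨f - algebraMap K F c, hmem⟩ : P.toValuationSubring) = 0 := by
    have : (⟨f - algebraMap K F c, hmem⟩ : P.toValuationSubring) =
        ⟨f, hf⟩ - algebraMap K P.toValuationSubring c := rfl
    rw [this, map_sub, sub_eq_zero, ← hc]
    rfl
  have hnu : ¬ IsUnit (⟨f - algebraMap K F c, hmem⟩ : P.toValuationSubring) := by
    rw [IsLocalRing.residue_eq_zero_iff, IsLocalRing.mem_maximalIdeal] at hres
    exact hres
  have h1 : 0 ≤ P.ord (f - algebraMap K F c) := by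
    rcases P.adicValuation_le_one_iff.mp (P.adicValuation_le_one_of_mem hmem) with h | h
    · exact absurd h h0
    · exact h
  have h2 : P.ord (f - algebraMap K F c) ≠ 0 := by
    intro h
    apply hnu
    rw [← P.adicValuation_coe_eq_one_iff]
    show P.adicValuation (f - algebraMap K F c) = 1
    rw [P.adicValuation_eq_exp_neg_ord h0, h]
    simp
  omega

/-! ### Compatible maps on places -/

/-- `r` is compatible with divisors of integral functions. -/
def DivCompat (R : ReductionData K F k E) (r : Place K F → Place k E) : Prop :=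
  ∀ x : R.B, R.ρ x ≠ 0 → ∀ Δ : Divisor K F, (∀ v, Δ v = v.ord (x : F)) →
    ∀ w, Finsupp.mapDomain r Δ w = w.ord (R.ρ x)

variable {R : ReductionData K F k E} {r : Place K F → Place k E}

theorem mapDomain_nonneg_at {D : Divisor K F} {Q : Place k E}
    (h : ∀ P : Place K F, r P = Q → 0 ≤ D P) : 0 ≤ Finsupp.mapDomain r D Q := by
  classical
  rw [Finsupp.mapDomain, Finsupp.sum_apply, Finsupp.sum]
  refine Finset.sum_nonneg ?_
  intro P _
  rw [Finsupp.single_apply]
  split_ifs with h'
  · exact h P h'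
  · exact le_rfl

variable [HasPrincipalDivisors K F]

/-- Comparison of orders on a residue disc. -/
theorem le_ord_red (hr : DivCompat R r) {x z : R.B} (hx : R.ρ x ≠ 0) (hz : R.ρ z ≠ 0)
    {Q : Place k E} (m : ℕ)
    (H : ∀ P : Place K F, r P = Q → m * P.ord (z : F) ≤ P.ord (x : F)) :
    m * Q.ord (R.ρ z) ≤ Q.ord (R.ρ x) := by
  obtain ⟨Δx, hΔx, -⟩ := exists_div (K := K) (R.ne_zero_of_ρ_ne_zero hx)
  obtain ⟨Δz, hΔz, -⟩ := exists_div (K := K) (R.ne_zero_of_ρ_ne_zero hz)
  have h1 : 0 ≤ Finsupp.mapDomain r (Δx - (m : ℤ) • Δz) Q := mapDomain_nonneg_at fun P hP => by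
    have := H P hP
    rw [Finsupp.sub_apply, Finsupp.smul_apply, hΔx, hΔz, smul_eq_mul]
    omega
  have h2 : Finsupp.mapDomain r (Δx - (m : ℤ) • Δz) =
      Finsupp.mapDomain r Δx - (m : ℤ) • Finsupp.mapDomain r Δz := by
    rw [← Finsupp.mapDomain.addMonoidHom_apply, map_sub, map_zsmul]
    rfl
  rw [h2, Finsupp.sub_apply, Finsupp.smul_apply, hr x hx Δx hΔx, hr z hz Δz hΔz,
    smul_eq_mul] at h1
  omega

theorem ord_red_nonneg (hr : DivCompat R r) {x : R.B} (hx : R.ρ x ≠ 0)
    {Q : Place k E} (H : ∀ P : Place K F, r P = Q → 0 ≤ P.ord (x : F)) :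
    0 ≤ Q.ord (R.ρ x) := by
  have h := le_ord_red (z := 1) hr hx (by rw [map_one]; exact one_ne_zero) (Q := Q) 0
    (fun P hP => by simpa using H P hP)
  simpa using h

/-- two zeros in a disc -/
theorem sum_ord_le_ord_red (hr : DivCompat R r) {x : R.B} (hx : R.ρ x ≠ 0)
    {Q : Place k E} (H : ∀ P : Place K F, r P = Q → 0 ≤ P.ord (x : F))
    (s : Finset (Place K F)) (hs : ∀ P ∈ s, r P = Q) :
    ∑ P ∈ s, P.ord (x : F) ≤ Q.ord (R.ρ x) := by
  classical
  obtain ⟨D, hD, -⟩ := exists_div (K := K) (R.ne_zero_of_ρ_ne_zero hx)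
  rw [← hr x hx D hD Q, Finsupp.mapDomain, Finsupp.sum_apply, Finsupp.sum]
  have hterm : ∀ P ∈ D.support, (0 : ℤ) ≤ (Finsupp.single (r P) (D P)) Q := by
    intro P _
    rw [Finsupp.single_apply]
    split_ifs with h
    · rw [hD]; exact H P h
    · exact le_rfl
  calc ∑ P ∈ s, P.ord (x : F) = ∑ P ∈ s.filter (fun P => P ∈ D.support), P.ord (x : F) := by
        rw [Finset.sum_filter]
        refine Finset.sum_congr rfl fun P _ => ?_
        split_ifs with h
        · rfl
        · rw [← hD]; exact Finsupp.notMem_support_iff.mp h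
    _ = ∑ P ∈ s.filter (fun P => P ∈ D.support), (Finsupp.single (r P) (D P)) Q := by
        refine Finset.sum_congr rfl fun P hP => ?_
        rw [hs P (Finset.mem_filter.mp hP).1, Finsupp.single_eq_same, hD]
    _ ≤ _ := Finset.sum_le_sum_of_subset_of_nonneg
          (fun P hP => (Finset.mem_filter.mp hP).2) (fun P hP _ => hterm P hP)

/-! ### Constants -/

omit [HasPrincipalDivisors K F] in
theorem π_ne_zero_iff (R : ReductionData K F k E) (a : R.A) : R.π a ≠ 0 ↔ IsUnit a := by
  have := R.π_eq_zero a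
  tauto

omit [HasPrincipalDivisors K F] in
/-- a constant outside `A` has its inverse in the maximal ideal of `A` -/
theorem inv_mem_of_not_mem (R : ReductionData K F k E) {c : K} (hc : c ∉ R.A) :
    ∃ a : R.A, (a : K) = c⁻¹ ∧ R.π a = 0 := by
  have h := (R.A.mem_or_inv_mem c).resolve_left hc
  refine ⟨⟨c⁻¹, h⟩, rfl, ?_⟩
  rw [R.π_eq_zero]
  intro hu
  obtain ⟨b, hb⟩ := hu.exists_right_inv
  have hb' : c⁻¹ * (b : K) = 1 := congrArg Subtype.val hb
  have hc0 : c ≠ 0 := fun h => hc (h ▸ R.A.zero_mem)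
  have : (b : K) = c := by field_simp at hb'; exact hb'
  exact hc (this ▸ b.2)

omit [HasPrincipalDivisors K F] in
/-- A constant integral function is a constant of `A`. -/
theorem mem_A_of_mem_B (R : ReductionData K F k E) {c : K} (hc : algebraMap K F c ∈ R.B) :
    c ∈ R.A := by
  have hb : LinearIndependent k fun _ : Fin 1 => R.ρ (1 : R.B) := by
    rw [map_one]
    exact LinearIndependent.of_subsingleton 0 one_ne_zero
  exact R.coeff_mem (b := fun _ : Fin 1 => (1 : R.B)) hb (c := fun _ => c) (by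
    simp only [Finset.univ_unique, Finset.sum_singleton, Subring.coe_one]
    rw [Algebra.smul_def, mul_one]
    exact hc) 0

/-- If `t` has no poles on the disc and its reduction is a uniformizer, then the value of `t` at `P` is in the maximal ideal and `t - t(P)` has exactly
one zero in the disc, at `P`. -/
theorem exists_coord (hr : DivCompat R r) (hdF : ∀ v : Place K F, v.deg = 1)
    {Q : Place k E} {t : R.B} (htQ : Q.ord (R.ρ t) = 1)
    (htreg : ∀ P : Place K F, r P = Q → 0 ≤ P.ord (t : F))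
    {P : Place K F} (hP : r P = Q) :
    ∃ a : R.A, R.π a = 0 ∧ P.ord ((t - R.const a : R.B) : F) = 1 ∧
      ∀ P' : Place K F, r P' = Q → P' ≠ P → P'.ord ((t - R.const a : R.B) : F) = 0 := by
  classical
  have hρt : R.ρ t ≠ 0 := by
    intro h; rw [h] at htQ; simp at htQ
  obtain ⟨c, hc⟩ := exists_value' P (hdF P) (htreg P hP)
  -- `c` lies in `A`
  have hcA : c ∈ R.A := by
    by_contra hcA
    obtain ⟨a, ha, ha0⟩ := inv_mem_of_not_mem R hcA
    have hc0 : c ≠ 0 := fun h => hcA (h ▸ R.A.zero_mem)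
    have ha0' : (a : K) ≠ 0 := by rw [ha]; exact inv_ne_zero hc0
    set z : R.B := R.const a * t - 1 with hz
    have hρz : R.ρ z = -1 := by
      rw [hz, map_sub, map_mul, R.ρ_const, ha0, map_zero, zero_mul, map_one, zero_sub]
    have hρz0 : R.ρ z ≠ 0 := by rw [hρz]; exact neg_ne_zero.mpr one_ne_zero
    have hzt : (z : F) = algebraMap K F a * ((t : F) - algebraMap K F c) := by
      rw [hz]
      show algebraMap K F a * (t : F) - 1 = _
      rw [mul_sub, ← map_mul, ha, inv_mul_cancel₀ hc0, map_one]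
    have hz0 : (z : F) ≠ 0 := R.ne_zero_of_ρ_ne_zero hρz0
    have hzP : 1 ≤ P.ord (z : F) := by
      rw [hzt, ord_const_mul P ha0']
      rcases hc with h | h
      · exfalso; apply hz0; rw [hzt, h, mul_zero]
      · exact h
    have hreg : ∀ P' : Place K F, r P' = Q → 0 ≤ P'.ord (z : F) := by
      intro P' hP'
      have h1 : (z : F) = algebraMap K F a * (t : F) + (-1) := by
        rw [hz]; show algebraMap K F a * (t : F) - 1 = _; ring
      rw [h1] at hz0 ⊢
      refine ord_add_ge P' hz0 (Or.inr ?_) (Or.inr ?_)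
      · rw [ord_const_mul P' ha0']; exact htreg P' hP'
      · rw [ord_neg', P'.ord_one]
    have h2 := sum_ord_le_ord_red hr hρz0 hreg {P} (by simpa using hP)
    rw [Finset.sum_singleton, hρz, ord_neg', Q.ord_one] at h2
    omega
  -- integral functions `t - a`
  have hreg : ∀ P' : Place K F, r P' = Q →
      (((t - R.const ⟨c, hcA⟩ : R.B) : F) = 0 ∨ 0 ≤ P'.ord ((t - R.const ⟨c, hcA⟩ : R.B) : F)) := by
    intro P' hP'
    by_cases h0 : ((t - R.const ⟨c, hcA⟩ : R.B) : F) = 0
    · exact Or.inl h0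
    right
    have h1 : ((t - R.const ⟨c, hcA⟩ : R.B) : F) = (t : F) + (-(algebraMap K F c)) := by
      show (t : F) - algebraMap K F c = _; ring
    rw [h1] at h0 ⊢
    refine ord_add_ge P' h0 (Or.inr (htreg P' hP')) (Or.inr ?_)
    rw [ord_neg', H40.ord_algebraMap]
  have hρ : R.ρ (t - R.const ⟨c, hcA⟩) = R.ρ t - algebraMap k E (R.π ⟨c, hcA⟩) := by
    rw [map_sub, R.ρ_const]
  have hπ : R.π ⟨c, hcA⟩ = 0 := by
    by_contra hne
    have hne' : algebraMap k E (R.π ⟨c, hcA⟩) ≠ 0 := by simpa using hne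
    have hord : Q.ord (R.ρ (t - R.const ⟨c, hcA⟩)) = 0 ∧ R.ρ (t - R.const ⟨c, hcA⟩) ≠ 0 := by
      have h1 : R.ρ (t - R.const ⟨c, hcA⟩) ≠ 0 := by
        rw [hρ]
        intro h
        rw [sub_eq_zero] at h
        rw [h, H40.ord_algebraMap] at htQ
        omega
      refine ⟨?_, h1⟩
      by_contra hne0
      have h2 : 0 ≤ Q.ord (R.ρ (t - R.const ⟨c, hcA⟩)) := by
        rw [hρ, sub_eq_add_neg]
        rw [hρ, sub_eq_add_neg] at h1
        refine ord_add_ge Q h1 (Or.inr (by omega)) (Or.inr ?_)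
        rw [ord_neg', H40.ord_algebraMap]
      have h3 : (1 : ℤ) ≤ Q.ord (algebraMap k E (R.π ⟨c, hcA⟩)) := by
        have h4 : algebraMap k E (R.π ⟨c, hcA⟩) =
            R.ρ t + (-(R.ρ (t - R.const ⟨c, hcA⟩))) := by rw [hρ]; ring
        rw [h4] at hne' ⊢
        refine ord_add_ge Q hne' (Or.inr (by omega)) (Or.inr ?_)
        rw [ord_neg']; omega
      rw [H40.ord_algebraMap] at h3
      omega
    have h0 : ((t - R.const ⟨c, hcA⟩ : R.B) : F) ≠ 0 := R.ne_zero_of_ρ_ne_zero hord.2
    have h2 := sum_ord_le_ord_red hr hord.2 (Q := Q)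
      (fun P' hP' => (hreg P' hP').resolve_left h0) {P} (by simpa using hP)
    rw [Finset.sum_singleton, hord.1] at h2
    have h3 : 1 ≤ P.ord ((t - R.const ⟨c, hcA⟩ : R.B) : F) := hc.resolve_left h0
    omega
  have hρt' : R.ρ (t - R.const ⟨c, hcA⟩) = R.ρ t := by rw [hρ, hπ, map_zero, sub_zero]
  have h0 : ((t - R.const ⟨c, hcA⟩ : R.B) : F) ≠ 0 :=
    R.ne_zero_of_ρ_ne_zero (by rw [hρt']; exact hρt)
  have hPge : 1 ≤ P.ord ((t - R.const ⟨c, hcA⟩ : R.B) : F) := hc.resolve_left h0
  refine ⟨⟨c, hcA⟩, hπ, ?_, ?_⟩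
  · have h2 := sum_ord_le_ord_red hr (by rw [hρt']; exact hρt) (Q := Q)
      (fun P' hP' => (hreg P' hP').resolve_left h0) {P} (by simpa using hP)
    rw [Finset.sum_singleton, hρt', htQ] at h2
    omega
  · intro P' hP' hne
    have h2 := sum_ord_le_ord_red hr (by rw [hρt']; exact hρt) (Q := Q)
      (fun P' hP' => (hreg P' hP').resolve_left h0) {P, P'} (by
        intro P'' hP''
        rw [Finset.mem_insert, Finset.mem_singleton] at hP''
        rcases hP'' with rfl | rfl
        · exact hP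
        · exact hP')
    rw [Finset.sum_pair (Ne.symm hne), hρt', htQ] at h2
    have h3 := (hreg P' hP').resolve_left h0
    omega

/-! ### The local step -/

/-- **Local step.** `h = 1 + c b` has divisor `m (P - P₀)` on the residue disc of `Q = r P₀`; then
the reduction of `b` has at most a simple pole at `Q`. -/
theorem local_step (hr : DivCompat R r) (hdF : ∀ v : Place K F, v.deg = 1)
    {m : ℕ} (hm : (m : k) ≠ 0) {Q : Place k E} {P₀ P : Place K F} (hP₀ : r P₀ = Q)
    (hP : r P = Q) {t : R.B} (htQ : Q.ord (R.ρ t) = 1)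
    (htreg : ∀ P : Place K F, r P = Q → 0 ≤ P.ord (t : F)) (ht0 : 1 ≤ P₀.ord (t : F))
    {h : F} (hh0 : h ≠ 0)
    (hh : ∀ P' : Place K F, r P' = Q →
      P'.ord h = m * (Finsupp.single P (1 : ℤ) P' - Finsupp.single P₀ (1 : ℤ) P'))
    {c : R.A} (hc0 : (c : K) ≠ 0) {b : R.B}
    (hhb : h = 1 + algebraMap K F c * b) (hb : R.ρ b ≠ 0) :
    -1 ≤ Q.ord (R.ρ b) := by
  classical
  obtain ⟨a, ha0, haP, haP'⟩ := exists_coord hr hdF htQ htreg hP
  have hm0 : m ≠ 0 := by rintro rfl; simp at hm
  have hm1 : 1 ≤ m := Nat.one_le_iff_ne_zero.mpr hm0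
  have hρt : R.ρ t ≠ 0 := by
    intro h; rw [h] at htQ; simp at htQ
  have ht00 : (t : F) ≠ 0 := R.ne_zero_of_ρ_ne_zero hρt
  have hρta : R.ρ (t - R.const a) = R.ρ t := by
    rw [map_sub, R.ρ_const, ha0, map_zero, sub_zero]
  have hta0 : ((t - R.const a : R.B) : F) ≠ 0 :=
    R.ne_zero_of_ρ_ne_zero (by rw [hρta]; exact hρt)
  -- orders of `t` in the disc
  have htP₀ : P₀.ord (t : F) = 1 := by
    have h2 := sum_ord_le_ord_red hr hρt (Q := Q) htreg {P₀} (by simpa using hP₀)
    rw [Finset.sum_singleton, htQ] at h2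
    omega
  have htP' : ∀ P' : Place K F, r P' = Q → P' ≠ P₀ → P'.ord (t : F) = 0 := by
    intro P' hP' hne
    have h2 := sum_ord_le_ord_red hr hρt (Q := Q) htreg {P₀, P'} (by
        intro P'' hP''
        rw [Finset.mem_insert, Finset.mem_singleton] at hP''
        rcases hP'' with rfl | rfl
        · exact hP₀
        · exact hP')
    rw [Finset.sum_pair (Ne.symm hne), htQ] at h2
    have h3 := htreg P' hP'
    omega
  have ht_single : ∀ P' : Place K F, r P' = Q → P'.ord (t : F) = Finsupp.single P₀ (1 : ℤ) P' := by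
    intro P' hP'
    by_cases hne : P' = P₀
    · subst hne; rw [Finsupp.single_eq_same, htP₀]
    · rw [htP' P' hP' hne, Finsupp.single_eq_of_ne hne]
  have hta_single : ∀ P' : Place K F, r P' = Q →
      P'.ord ((t - R.const a : R.B) : F) = Finsupp.single P (1 : ℤ) P' := by
    intro P' hP'
    by_cases hne : P' = P
    · subst hne; rw [Finsupp.single_eq_same, haP]
    · rw [haP' P' hP' hne, Finsupp.single_eq_of_ne hne]
  -- the binomial expansion
  obtain ⟨s, hs⟩ := Polynomial.powAddExpansion t (-(R.const a)) m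
  have hexp : ((t - R.const a : R.B)) ^ m =
      t ^ m - m * t ^ (m - 1) * R.const a + s * R.const a ^ 2 := by
    rw [sub_eq_add_neg, hs]; ring
  -- key order estimate
  have hkey : ∀ P' : Place K F, r P' = Q →
      (h * (t : F) ^ m - ((t - R.const a : R.B) : F) ^ m) = 0 ∨
      m * P'.ord ((t - R.const a : R.B) : F) ≤
        P'.ord (h * (t : F) ^ m - ((t - R.const a : R.B) : F) ^ m) := by
    intro P' hP'
    by_cases h0 : (h * (t : F) ^ m - ((t - R.const a : R.B) : F) ^ m) = 0
    · exact Or.inl h0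
    right
    have hsub : h * (t : F) ^ m - ((t - R.const a : R.B) : F) ^ m =
      h * (t : F) ^ m + (-((t - R.const a : R.B) : F) ^ m) := sub_eq_add_neg _ _
    rw [hsub] at h0 ⊢
    refine ord_add_ge P' h0 (Or.inr ?_) (Or.inr ?_)
    · rw [P'.ord_mul hh0 (pow_ne_zero _ ht00), hh P' hP', ord_npow, hta_single P' hP',
        ht_single P' hP']
      apply le_of_eq; ring
    · rw [ord_neg', ord_npow]
  set N : F := h * (t : F) ^ m - ((t - R.const a : R.B) : F) ^ m with hN
  have hN' : N = algebraMap K F c * (b : F) * (t : F) ^ m +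
      algebraMap K F a * (m * (t : F) ^ (m - 1)) - algebraMap K F a ^ 2 * (s : F) := by
    have h1 := congrArg (Subtype.val) hexp
    have h2 : ((t - R.const a : R.B) : F) ^ m = (t : F) ^ m - m * (t : F) ^ (m - 1) *
      algebraMap K F a + (s : F) * algebraMap K F a ^ 2 := by
      have h3 : (((t - R.const a : R.B) ^ m : R.B) : F) = ((t - R.const a : R.B) : F) ^ m := rfl
      rw [← h3, hexp]
      push_cast
      simp
    rw [hN, h2, hhb]; ring
  have htm : (t : F) ^ m = (t : F) ^ (m - 1) * t := by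
    rw [← pow_succ]; congr 1; omega
  by_cases hcase : ∃ κ : R.A, (a : K) = c * κ
  · obtain ⟨κ, hκ⟩ := hcase
    set n : R.B := b * t ^ m + R.const κ * (m * t ^ (m - 1)) - R.const κ * R.const a * s with hn
    have hnN : N = algebraMap K F c * (n : F) := by
      rw [hN', hn]
      push_cast
      simp only [R.coe_const]
      rw [hκ, map_mul]; ring
    have hρn : R.ρ n = R.ρ t ^ (m - 1) * (R.ρ b * R.ρ t + algebraMap k E (m * R.π κ)) := by
      rw [hn]
      simp only [map_sub, map_add, map_mul, map_pow, R.ρ_const, ha0, map_zero, mul_zero, zero_mul,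
        sub_zero, map_natCast]
      have : R.ρ t ^ m = R.ρ t ^ (m - 1) * R.ρ t := by rw [← pow_succ]; congr 1; omega
      rw [this]; ring
    by_cases hz : R.ρ b * R.ρ t + algebraMap k E (m * R.π κ) = 0
    · -- `ρ b = - m κ / t`
      have h1 : R.ρ b * R.ρ t = -algebraMap k E (m * R.π κ) := eq_neg_of_add_eq_zero_left hz
      have h2 := congrArg Q.ord h1
      rw [Q.ord_mul hb hρt, ord_neg', H40.ord_algebraMap, htQ] at h2
      omega
    · have hρn0 : R.ρ n ≠ 0 := by
        rw [hρn]; exact mul_ne_zero (pow_ne_zero _ hρt) hz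
      have h1 := le_ord_red hr hρn0 (z := t - R.const a) (by rw [hρta]; exact hρt) (Q := Q) m (by
        intro P' hP'
        have h2 := (hkey P' hP').resolve_left (by
          rw [hnN]
          exact mul_ne_zero (by simpa using hc0) (R.ne_zero_of_ρ_ne_zero hρn0))
        rw [hnN, ord_const_mul P' hc0] at h2
        exact h2)
      rw [hρta, htQ, hρn, Q.ord_mul (pow_ne_zero _ hρt) hz, ord_npow, htQ] at h1
      have h2 : (1 : ℤ) ≤ Q.ord (R.ρ b * R.ρ t + algebraMap k E (m * R.π κ)) := by
        rw [Nat.cast_sub hm1] at h1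
        push_cast at h1 ⊢
        linarith
      have h3 : (0 : ℤ) ≤ Q.ord (R.ρ b * R.ρ t) := by
        have h4 : R.ρ b * R.ρ t = (R.ρ b * R.ρ t + algebraMap k E (m * R.π κ)) +
          (-(algebraMap k E (m * R.π κ))) := by ring
        have h5 : R.ρ b * R.ρ t ≠ 0 := mul_ne_zero hb hρt
        rw [h4] at h5 ⊢
        refine ord_add_ge Q h5 (Or.inr (by omega)) (Or.inr ?_)
        rw [ord_neg', H40.ord_algebraMap]
      rw [Q.ord_mul hb hρt, htQ] at h3
      omega
  · -- `c / a` is in the maximal ideal: contradiction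
    exfalso
    have ha00 : (a : K) ≠ 0 := by
      intro h; apply hcase; exact ⟨0, by simp [h]⟩
    have hca : (a : K) / c ∉ R.A := by
      intro hmem; apply hcase
      exact ⟨⟨_, hmem⟩, by simp only []; field_simp⟩
    obtain ⟨ε, hε, hε0⟩ := inv_mem_of_not_mem R hca
    rw [inv_div] at hε
    have hc' : (c : K) = a * ε := by rw [hε]; field_simp
    set n : R.B := R.const ε * b * t ^ m + m * t ^ (m - 1) - R.const a * s with hn
    have hnN : N = algebraMap K F a * (n : F) := by
      rw [hN', hn]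
      push_cast
      simp only [R.coe_const]
      rw [hc', map_mul]; ring
    have hρn : R.ρ n = algebraMap k E m * R.ρ t ^ (m - 1) := by
      rw [hn]
      simp only [map_sub, map_add, map_mul, map_pow, R.ρ_const, ha0, hε0, map_zero, zero_mul,
        sub_zero, map_natCast, zero_add]
    have hρn0 : R.ρ n ≠ 0 := by
      rw [hρn]
      exact mul_ne_zero (by rw [Ne, map_eq_zero]; exact hm) (pow_ne_zero _ hρt)
    have h1 := le_ord_red hr hρn0 (z := t - R.const a) (by rw [hρta]; exact hρt) (Q := Q) m (by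
      intro P' hP'
      have h2 := (hkey P' hP').resolve_left (by
        rw [hnN]
        exact mul_ne_zero (by simpa using ha00) (R.ne_zero_of_ρ_ne_zero hρn0))
      rw [hnN, ord_const_mul P' ha00] at h2
      exact h2)
    rw [hρta, htQ, hρn, ord_const_mul Q hm, ord_npow, htQ] at h1
    push_cast [Nat.cast_sub hm1] at h1
    linarith

/-! ### The core theorem -/

omit [HasPrincipalDivisors K F] in
/-- If `h` is integral with reduction `1` and not constant, then `h = u (1 + c b)` with `u` a unit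
of `A` and `ρ b` not constant. -/
theorem exists_expansion {h : R.B} (hh1 : R.ρ h = 1) (hconst : ∀ c : K, algebraMap K F c ≠ (h : F)) :
    ∃ (u c : R.A) (b : R.B), (u : K) ≠ 0 ∧ (c : K) ≠ 0 ∧
      (h : F) = algebraMap K F u * (1 + algebraMap K F c * b) ∧
      ∀ α : k, algebraMap k E α ≠ R.ρ b := by
  classical
  -- a basis of `span (1, h)` with independent reductions
  have hfd : FiniteDimensional K (Submodule.span K ({(1 : F), (h : F)} : Set F)) :=
    FiniteDimensional.span_of_finite K (by simp)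
  obtain ⟨n, bb, hspan, hind⟩ := R.exists_basis _ hfd
  have hKind : LinearIndependent K ![(1 : F), (h : F)] := by
    rw [LinearIndependent.pair_iff]
    intro s t hst
    have ht : t = 0 := by
      by_contra ht
      apply hconst (-(s / t))
      rw [Algebra.smul_def, Algebra.smul_def, mul_one] at hst
      rw [map_neg, map_div₀, neg_eq_iff_eq_neg, div_eq_iff (by simpa using ht)]
      linear_combination hst
    subst ht
    rw [zero_smul, add_zero, smul_eq_zero] at hst
    exact ⟨hst.resolve_right one_ne_zero, rfl⟩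
  have hn : n = 2 := by
    have h1 := finrank_span_eq_card (R.linearIndependent_lift hind)
    have h2 := finrank_span_eq_card hKind
    rw [Matrix.range_cons, Matrix.range_cons, Matrix.range_empty, Set.union_empty,
      Set.singleton_union] at h2
    rw [hspan, h2] at h1
    simpa using h1.symm
  subst hn
  -- some basis vector has nonconstant reduction
  have hex : ∃ i : Fin 2, ∀ α : k, algebraMap k E α ≠ R.ρ (bb i) := by
    by_contra hcon
    push Not at hcon
    obtain ⟨α, hα⟩ := hcon 0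
    obtain ⟨β, hβ⟩ := hcon 1
    have h1 := Fintype.linearIndependent_iff.mp hind ![β, -α] (by
      rw [Fin.sum_univ_two]
      simp only [Matrix.cons_val_zero, Matrix.cons_val_one]
      rw [← hα, ← hβ, Algebra.smul_def, Algebra.smul_def, ← map_mul, ← map_mul, ← map_add]
      rw [show β * α + -α * β = 0 by ring, map_zero])
    have h2 := h1 0
    simp only [Matrix.cons_val_zero] at h2
    rw [h2, map_zero] at hβ
    exact hind.ne_zero 1 hβ.symm
  obtain ⟨i, hi⟩ := hex
  have hmem : (bb i : F) ∈ Submodule.span K ({(1 : F), (h : F)} : Set F) := by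
    rw [← hspan]; exact Submodule.subset_span ⟨i, rfl⟩
  obtain ⟨α, β, hαβ⟩ := Submodule.mem_span_pair.mp hmem
  rw [Algebra.smul_def, Algebra.smul_def, mul_one] at hαβ
  -- `β ∉ A`
  have hβ : β ∉ R.A := by
    intro hβ
    have hα : α ∈ R.A := mem_A_of_mem_B R (by
      have : algebraMap K F α = ((bb i - R.const ⟨β, hβ⟩ * h : R.B) : F) := by
        show _ = (bb i : F) - algebraMap K F β * (h : F)
        rw [← hαβ]; ring
      rw [this]; exact (bb i - R.const ⟨β, hβ⟩ * h).2)
    apply hi (R.π ⟨α, hα⟩ + R.π ⟨β, hβ⟩)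
    have : bb i = R.const ⟨α, hα⟩ + R.const ⟨β, hβ⟩ * h := Subtype.ext hαβ.symm
    rw [this, map_add R.ρ, map_mul R.ρ, R.ρ_const, R.ρ_const, hh1, mul_one,
      map_add (algebraMap k E)]
  have hβ0 : β ≠ 0 := fun h => hβ (h ▸ R.A.zero_mem)
  obtain ⟨c, hc, hc0⟩ := inv_mem_of_not_mem R hβ
  have hcβ : (c : K) * β = 1 := by rw [hc]; exact inv_mul_cancel₀ hβ0
  have hc00 : (c : K) ≠ 0 := by rw [hc]; exact inv_ne_zero hβ0
  -- `u = - α c`
  have huA : -(α * c) ∈ R.A := mem_A_of_mem_B R (by
    have : algebraMap K F (-(α * c)) = ((h - R.const c * bb i : R.B) : F) := by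
      show _ = (h : F) - algebraMap K F c * (bb i : F)
      rw [← hαβ, map_neg, map_mul]
      have h2 : algebraMap K F c * algebraMap K F β = 1 := by rw [← map_mul, hcβ, map_one]
      linear_combination (h : F) * h2
    rw [this]; exact (h - R.const c * bb i).2)
  have hh : h = R.const ⟨_, huA⟩ + R.const c * bb i := Subtype.ext (by
    show (h : F) = algebraMap K F (-(α * c)) + algebraMap K F c * (bb i : F)
    rw [← hαβ, map_neg, map_mul]
    have h2 : algebraMap K F c * algebraMap K F β = 1 := by rw [← map_mul, hcβ, map_one]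
    linear_combination (-(h : F)) * h2)
  have hu1 : R.π ⟨_, huA⟩ = 1 := by
    have h1 := congrArg R.ρ hh
    rw [map_add, map_mul, R.ρ_const, R.ρ_const, hc0, map_zero, zero_mul, add_zero, hh1,
      ← map_one (algebraMap k E)] at h1
    exact ((algebraMap k E).injective h1).symm
  have huu : IsUnit (⟨_, huA⟩ : R.A) := by
    rw [← π_ne_zero_iff]
    rw [hu1]; exact one_ne_zero
  obtain ⟨v, hv⟩ := huu.exists_right_inv
  have hv' : -(α * c) * (v : K) = 1 := congrArg Subtype.val hv
  have hv1 : R.π v = 1 := by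
    have := congrArg R.π hv
    rw [map_mul, hu1, one_mul, map_one] at this
    exact this
  have hu0 : -(α * (c : K)) ≠ 0 := by
    intro h0; rw [h0, zero_mul] at hv'; exact zero_ne_one hv'
  refine ⟨⟨_, huA⟩, c, R.const v * bb i, hu0, hc00, ?_, ?_⟩
  · have h1 := congrArg Subtype.val hh
    have h2 : algebraMap K F (-(α * c)) * algebraMap K F v = 1 := by
      rw [← map_mul, hv', map_one]
    have h3 : (h : F) = algebraMap K F (-(α * c)) + algebraMap K F c * (bb i : F) := h1
    have h4 : ((R.const v * bb i : R.B) : F) = algebraMap K F v * (bb i : F) := rfl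
    rw [h4, h3]
    linear_combination (-(algebraMap K F c * (bb i : F))) * h2
  · intro γ
    rw [map_mul, R.ρ_const, hv1, map_one, one_mul]
    exact hi γ

/-- **Core theorem.** `P i`, `P₀ i` in the same residue discs (pairwise distinct), the reduced
divisor `∑ Q i` has only constant functions; if `h` has divisor `m ∑ (P i - P₀ i)` with `m`
invertible in the residue field, then `h` is constant. -/
theorem core (hr : DivCompat R r) (hdF : ∀ v : Place K F, v.deg = 1)
    {m : ℕ} (hm : (m : k) ≠ 0) {ι : Type*} [Fintype ι] (P₀ P : ι → Place K F)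
    (hP : ∀ i, r (P i) = r (P₀ i)) (hinj : Function.Injective fun i => r (P₀ i))
    (t : ι → R.B) (htQ : ∀ i, (r (P₀ i)).ord (R.ρ (t i)) = 1)
    (htreg : ∀ i, ∀ P' : Place K F, r P' = r (P₀ i) → 0 ≤ P'.ord (t i : F))
    (ht0 : ∀ i, 1 ≤ (P₀ i).ord (t i : F))
    (hL : ∀ e : E, (∀ Q : Place k E, e = 0 ∨
      -(∑ i, Finsupp.single (r (P₀ i)) (1 : ℤ)) Q ≤ Q.ord e) → ∃ α : k, algebraMap k E α = e)
    {h : F} (hh0 : h ≠ 0)
    (hh : ∀ v : Place K F, v.ord h =
      m * (∑ i, (Finsupp.single (P i) (1 : ℤ) - Finsupp.single (P₀ i) (1 : ℤ))) v) :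
    ∃ c : K, algebraMap K F c = h := by
  classical
  -- scale `h` to be integral with reduction one
  obtain ⟨c₀, hc₀, x, hx, hρx⟩ := R.exists_scale hh0
  have hx0 : (x : F) ≠ 0 := R.ne_zero_of_ρ_ne_zero hρx
  have hxord : ∀ v : Place K F, v.ord (x : F) = v.ord h := fun v => by
    rw [hx, Algebra.smul_def, ord_const_mul v hc₀]
  obtain ⟨Δ, hΔ, -⟩ := exists_div (K := K) hx0
  have hΔ' : Δ = (m : ℤ) • ∑ i, (Finsupp.single (P i) (1 : ℤ) - Finsupp.single (P₀ i) (1 : ℤ)) := by
    ext v
    rw [hΔ, hxord, hh, Finsupp.smul_apply, smul_eq_mul]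
  have hmap : Finsupp.mapDomain r Δ = 0 := by
    rw [hΔ', ← Finsupp.mapDomain.addMonoidHom_apply, map_zsmul, map_sum]
    simp only [map_sub, Finsupp.mapDomain.addMonoidHom_apply, Finsupp.mapDomain_single, hP, sub_self,
      Finset.sum_const_zero, smul_zero]
  have hρxord : ∀ Q : Place k E, Q.ord (R.ρ x) = 0 := fun Q => by
    rw [← hr x hρx Δ hΔ Q, hmap]; rfl
  have hsum0 : ∀ Q : Place k E, 0 ≤ (∑ i, Finsupp.single (r (P₀ i)) (1 : ℤ)) Q := fun Q => by
    rw [Finsupp.finsetSum_apply]
    refine Finset.sum_nonneg fun i _ => ?_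
    rw [Finsupp.single_apply]; split_ifs <;> norm_num
  obtain ⟨α, hα⟩ := hL (R.ρ x) fun Q => Or.inr (by
    have := hsum0 Q
    rw [hρxord Q]; omega)
  have hα0 : α ≠ 0 := by
    rintro rfl; rw [map_zero] at hα; exact hρx hα.symm
  obtain ⟨a, ha⟩ := R.π_surj α
  have hau : IsUnit a := by rw [← π_ne_zero_iff, ha]; exact hα0
  obtain ⟨a', ha'⟩ := hau.exists_right_inv
  have haa' : (a : K) * a' = 1 := congrArg Subtype.val ha'
  have ha'0 : (a' : K) ≠ 0 := by
    intro h0; rw [h0, mul_zero] at haa'; exact zero_ne_one haa'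
  set y : R.B := R.const a' * x with hy
  have hρy : R.ρ y = 1 := by
    rw [hy, map_mul, R.ρ_const, ← hα, ← map_mul, ← ha, ← map_mul, mul_comm, ha', map_one, map_one]
  have hyh : (y : F) = algebraMap K F (a' * c₀) * h := by
    rw [hy]
    show algebraMap K F a' * (x : F) = _
    rw [hx, Algebra.smul_def, map_mul, mul_assoc]
  have hac0 : (a' : K) * c₀ ≠ 0 := mul_ne_zero ha'0 hc₀
  by_contra hcon
  push Not at hcon
  have hconst : ∀ c : K, algebraMap K F c ≠ (y : F) := by
    intro c hc
    apply hcon (c / (a' * c₀))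
    rw [hyh] at hc
    have hne : algebraMap K F (a' * c₀) ≠ 0 := by rw [Ne, map_eq_zero]; exact hac0
    rw [map_div₀, hc, mul_div_assoc, mul_comm, div_mul_cancel₀ h hne]
  obtain ⟨u, c, b, hu0, hc0, hyub, hb⟩ := exists_expansion hρy hconst
  have hb0 : R.ρ b ≠ 0 := fun h0 => hb 0 (by rw [map_zero, h0])
  set h' : F := 1 + algebraMap K F c * b with hh'
  have hh'ord : ∀ v : Place K F, v.ord h' =
      m * (∑ i, (Finsupp.single (P i) (1 : ℤ) - Finsupp.single (P₀ i) (1 : ℤ))) v := by
    intro v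
    rw [← hh v, ← ord_const_mul v hac0 h, ← hyh, hyub, ord_const_mul v hu0]
  have hh'0 : h' ≠ 0 := by
    intro h0
    rw [h0, mul_zero] at hyub
    exact R.ne_zero_of_ρ_ne_zero (by rw [hρy]; exact one_ne_zero) hyub
  have hdisc : ∀ i j, ∀ P' : Place K F, r P' = r (P₀ i) → j ≠ i →
      (Finsupp.single (P j) (1 : ℤ) - Finsupp.single (P₀ j) (1 : ℤ)) P' = 0 := by
    intro i j P' hP' hji
    have h1 : P' ≠ P j := by
      rintro rfl; rw [hP] at hP'; exact hji (hinj hP')
    have h2 : P' ≠ P₀ j := by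
      rintro rfl; exact hji (hinj hP')
    rw [Finsupp.sub_apply, Finsupp.single_eq_of_ne h1, Finsupp.single_eq_of_ne h2, sub_zero]
  obtain ⟨β, hβ⟩ := hL (R.ρ b) fun Q => Or.inr (by
    by_cases hQ : ∃ i, r (P₀ i) = Q
    · obtain ⟨i, rfl⟩ := hQ
      have h1 : (∑ j, Finsupp.single (r (P₀ j)) (1 : ℤ)) (r (P₀ i)) = 1 := by
        rw [Finsupp.finsetSum_apply, Finset.sum_eq_single i]
        · exact Finsupp.single_eq_same
        · intro j _ hji
          exact Finsupp.single_eq_of_ne (fun h0 => hji (hinj h0.symm))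
        · intro h0; exact absurd (Finset.mem_univ i) h0
      rw [h1]
      refine local_step hr hdF hm (P₀ := P₀ i) (P := P i) rfl (hP i) (htQ i) (htreg i) (ht0 i)
        hh'0 ?_ hc0 hh' hb0
      intro P' hP'
      rw [hh'ord P', Finsupp.finsetSum_apply, Finset.sum_eq_single i, Finsupp.sub_apply]
      · intro j _ hji
        exact hdisc i j P' hP' hji
      · intro h0; exact absurd (Finset.mem_univ i) h0
    · push Not at hQ
      have h1 : (∑ j, Finsupp.single (r (P₀ j)) (1 : ℤ)) Q = 0 := by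
        rw [Finsupp.finsetSum_apply]
        exact Finset.sum_eq_zero fun j _ => Finsupp.single_eq_of_ne (fun h0 => hQ j h0.symm)
      rw [h1, neg_zero]
      refine ord_red_nonneg hr hb0 fun P' hP' => ?_
      have h2 : (0 : ℤ) ≤ P'.ord h' := by
        rw [hh'ord P', Finsupp.finsetSum_apply]
        have : ∀ j, (0 : ℤ) ≤
            (Finsupp.single (P j) (1 : ℤ) - Finsupp.single (P₀ j) (1 : ℤ)) P' := fun j => by
          have h3 : P' ≠ P₀ j := by rintro rfl; exact hQ j hP'
          rw [Finsupp.sub_apply, Finsupp.single_eq_of_ne h3, sub_zero, Finsupp.single_apply]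
          split_ifs <;> norm_num
        exact mul_nonneg (Int.natCast_nonneg m) (Finset.sum_nonneg fun j _ => this j)
      have h3 : algebraMap K F c * (b : F) = h' + (-1) := by rw [hh']; ring
      have h4 : algebraMap K F c * (b : F) ≠ 0 :=
        mul_ne_zero (by rw [Ne, map_eq_zero]; exact hc0) (R.ne_zero_of_ρ_ne_zero hb0)
      rw [← ord_const_mul P' hc0]
      rw [h3] at h4 ⊢
      exact ord_add_ge P' h4 (Or.inr h2) (Or.inr (by rw [ord_neg', P'.ord_one])))
  exact hb β hβ

/-! ### Main theorems -/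

theorem genusFF_eq {K F : Type*} [Field K] [Field F] [Algebra K F] [IsAlgClosed K]
    [H3RR.IsFF K F] {g c : ℤ} (hF : RiemannFor K F g c) : g = genusFF K F := by
  obtain ⟨D₀, hD₀⟩ := H3RR.exists_H1_subsingleton K F
  obtain ⟨P⟩ : Nonempty (Place K F) := inferInstance
  have h0 : H3RR.h1 D₀ = 0 := by
    rw [H3RR.h1]; exact Module.finrank_zero_of_subsingleton
  set D : Divisor K F := D₀ + Finsupp.single P (max 0 (c - Divisor.degree D₀)) with hD
  have hle : D₀ ≤ D := by
    rw [hD]
    exact le_add_of_nonneg_right (Finsupp.single_nonneg.mpr (le_max_left _ _))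
  have hdeg : c ≤ Divisor.degree D := by
    rw [hD, map_add, Divisor.degree_single, H3RR.deg_eq_one]
    have := le_max_right 0 (c - Divisor.degree D₀)
    push_cast
    omega
  have h1 : H3RR.h1 D = 0 := by
    have := H3RR.h1_anti hle
    omega
  have h2 := H3RR.riemann_roch_weak D
  have h3 := (hF D hdeg).2
  rw [h1] at h2
  rw [H3RR.ell] at h2
  push_cast at h2
  omega

variable [IsAlgClosed K] [IsAlgClosed k] [H3RR.IsFF K F] [H3RR.IsFF k E]

omit [HasPrincipalDivisors K F] [IsAlgClosed k] [H3RR.IsFF k E] in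
theorem surjective_of_divCompat (hr : DivCompat R r) : Function.Surjective r := by
  classical
  intro Q
  obtain ⟨π, hπ⟩ := IsDiscreteValuationRing.exists_irreducible Q.toValuationSubring
  obtain ⟨x, y, hy, hxy⟩ := R.frac (π : E)
  have hπ0 : (π : E) ≠ 0 := fun h => hπ.ne_zero (Subtype.ext h)
  have hordπ : Q.ord (π : E) ≠ 0 := by
    intro h
    have h1 : Q.adicValuation (π : E) = 1 := by
      rw [Q.adicValuation_eq_exp_neg_ord hπ0, h]; simp
    exact hπ.not_isUnit ((Q.adicValuation_coe_eq_one_iff π).mp h1)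
  have hx : R.ρ x ≠ 0 := by rw [← hxy]; exact mul_ne_zero hπ0 hy
  have h1 : Q.ord (R.ρ x) ≠ 0 ∨ Q.ord (R.ρ y) ≠ 0 := by
    by_contra hcon
    push Not at hcon
    have := congrArg Q.ord hxy
    rw [Q.ord_mul hπ0 hy, hcon.1, hcon.2] at this
    omega
  have key : ∀ z : R.B, R.ρ z ≠ 0 → Q.ord (R.ρ z) ≠ 0 → ∃ P, r P = Q := by
    intro z hz hzQ
    obtain ⟨Δ, hΔ, -⟩ := exists_div (K := K) (R.ne_zero_of_ρ_ne_zero hz)
    rw [← hr z hz Δ hΔ Q] at hzQ
    by_contra hcon
    push Not at hcon
    apply hzQ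
    rw [Finsupp.mapDomain, Finsupp.sum_apply, Finsupp.sum]
    exact Finset.sum_eq_zero fun P _ => Finsupp.single_eq_of_ne (fun h => hcon P h.symm)
  rcases h1 with h1 | h1
  · exact key x hx h1
  · exact key y hy h1

omit [HasPrincipalDivisors K F] in
/-- An effective divisor whose image under `r` is a reduced divisor is a sum of lifts. -/
theorem exists_lift_of_mapDomain {D : Divisor K F} (hD : 0 ≤ D) (T : Finset (Place k E))
    (h : Finsupp.mapDomain r D = ∑ Q ∈ T, Finsupp.single Q (1 : ℤ)) :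
    ∃ P : T → Place K F, (∀ Q, r (P Q) = Q) ∧
      D = ∑ Q : T, Finsupp.single (P Q) (1 : ℤ) := by
  classical
  have hex : ∀ Q : T, ∃ P : Place K F, r P = Q ∧ 1 ≤ D P := by
    intro Q
    by_contra hcon
    push Not at hcon
    have h1 : Finsupp.mapDomain r D Q = 0 := by
      rw [Finsupp.mapDomain, Finsupp.sum_apply, Finsupp.sum]
      refine Finset.sum_eq_zero fun P hP => ?_
      rw [Finsupp.single_apply]
      split_ifs with h'
      · have := hcon P h'
        have := Finsupp.le_def.mp hD P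
        simp only [Finsupp.coe_zero, Pi.zero_apply] at this
        omega
      · rfl
    rw [h, Finsupp.finsetSum_apply, Finset.sum_eq_single Q.1] at h1
    · rw [Finsupp.single_eq_same] at h1
      exact one_ne_zero h1
    · intro Q' _ hne
      exact Finsupp.single_eq_of_ne (Ne.symm hne)
    · intro h0; exact absurd Q.2 h0
  choose P hP hDP using hex
  refine ⟨P, hP, ?_⟩
  have hPinj : Function.Injective P := fun Q Q' hQ => Subtype.ext (by
    rw [← hP Q, ← hP Q', hQ])
  have hle : ∑ Q : T, Finsupp.single (P Q) (1 : ℤ) ≤ D := by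
    rw [Finsupp.le_def]
    intro v
    rw [Finsupp.finsetSum_apply]
    by_cases hv : ∃ Q, P Q = v
    · obtain ⟨Q, rfl⟩ := hv
      rw [Finset.sum_eq_single Q, Finsupp.single_eq_same]
      · exact hDP Q
      · intro Q' _ hne
        exact Finsupp.single_eq_of_ne (fun h0 => hne (hPinj h0.symm))
      · intro h0; exact absurd (Finset.mem_univ Q) h0
    · push Not at hv
      rw [Finset.sum_eq_zero]
      · have := Finsupp.le_def.mp hD v
        simpa using this
      · intro Q _
        exact Finsupp.single_eq_of_ne (fun h0 => hv Q h0.symm)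
  symm
  refine eq_of_le_of_degree_le (fun v => H3RR.deg_eq_one v) hle ?_
  rw [map_sum]
  simp only [Divisor.degree_single, H3RR.deg_eq_one, Nat.cast_one, mul_one]
  have h1 : Divisor.degree D = Divisor.degree (Finsupp.mapDomain r D) := by
    rw [degree_eq_sum (fun v => H3RR.deg_eq_one v), degree_eq_sum (fun v => H3RR.deg_eq_one v),
      Finsupp.sum_mapDomain_index (by simp) (by simp)]
  rw [h1, h, map_sum]
  simp only [Divisor.degree_single, H3RR.deg_eq_one, Nat.cast_one, mul_one, Finset.sum_const]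
  simp

/-- **Injectivity of the reduction map on torsion prime to the residue characteristic.** -/
theorem torsion_injective {g c : ℤ} (hF : RiemannFor K F g c) (hE : RiemannFor k E g c)
    (hr1 : ∀ D : Divisor K F, c < Divisor.degree D → R.IsRed D (Finsupp.mapDomain r D))
    (hr : DivCompat R r) {m : ℕ} (hm : (m : k) ≠ 0) {D : Divisor K F}
    (hD : Divisor.degree D = 0) (hmD : Divisor.IsPrincipal (m • D))
    (hrD : Divisor.IsPrincipal (Finsupp.mapDomain r D)) : Divisor.IsPrincipal D := by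
  classical
  have hdF : ∀ v : Place K F, v.deg = 1 := fun v => H3RR.deg_eq_one v
  have hdE : ∀ v : Place k E, v.deg = 1 := fun v => H3RR.deg_eq_one v
  have hm0 : m ≠ 0 := by rintro rfl; simp at hm
  have hgF := genusFF_eq hF
  have hgE := genusFF_eq hE
  have hsurj := surjective_of_divCompat hr
  -- a nonspecial system downstairs
  obtain ⟨T, hTcard, -, -, hTell⟩ := H3RR.exists_nonspecial (K := k) (F := E) ∅
  have hL : ∀ e : E, e ∈ riemannRochSpace (H3RR.redDiv T) → ∃ α : k, algebraMap k E α = e :=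
    fun e he => H3RR.exists_const_of_mem_L (H3RR.redDiv_nonneg T) hTell he
  choose P₀ hP₀ using fun Q : T => hsurj (Q : Place k E)
  -- a place at infinity
  obtain ⟨Qi, hQi⟩ := Infinite.exists_notMem_finset T
  obtain ⟨Pinf, hPi⟩ := hsurj Qi
  -- coordinates
  have hcoord : ∀ Q : T, ∃ t : R.B, (Q : Place k E).ord (R.ρ t) = 1 ∧
      (∀ P' : Place K F, r P' = Q → 0 ≤ P'.ord (t : F)) ∧ 1 ≤ (P₀ Q).ord (t : F) := by
    intro Q
    have hQne : (Q : Place k E) ≠ Qi := fun h => hQi (h ▸ Q.2)
    set n : ℤ := max c 0 + 2 with hn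
    have hn1 : c + 1 < n := by have := le_max_left c 0; omega
    obtain ⟨f, hfL, hf0, hfQ⟩ := exists_ord_eq hE hdE
      (D := Finsupp.single Qi n - Finsupp.single (Q : Place k E) 1) (by
        rw [map_sub, Divisor.degree_single, Divisor.degree_single, hdE, hdE]
        push_cast; omega) (Q : Place k E)
    have hfQ1 : (Q : Place k E).ord f = 1 := by
      rw [hfQ, Finsupp.sub_apply, Finsupp.single_eq_of_ne hQne, Finsupp.single_eq_same]
      ring
    have hfL' : f ∈ riemannRochSpace (Finsupp.single Qi n) := by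
      refine L_mono ?_ hfL
      rw [sub_le_self_iff]
      exact Finsupp.single_nonneg.mpr zero_le_one
    have hred := hr1 (Finsupp.single Pinf n) (by
      rw [Divisor.degree_single, hdF]; push_cast; omega)
    rw [Finsupp.mapDomain_single, hPi] at hred
    rw [← hred.2] at hfL'
    obtain ⟨x, hxL, hxf⟩ := hfL'
    have hρx : R.ρ x ≠ 0 := by rw [hxf]; exact hf0
    have hx0 := R.ne_zero_of_ρ_ne_zero hρx
    have hxreg : ∀ P' : Place K F, r P' = Q → 0 ≤ P'.ord (x : F) := by
      intro P' hP'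
      have h1 := (mem_L hx0).mp hxL P'
      rw [Finsupp.single_eq_of_ne (by
        rintro rfl; rw [hPi] at hP'; exact hQne hP'.symm)] at h1
      omega
    obtain ⟨a, ha0, haP, haP'⟩ := exists_coord hr hdF (t := x) (by rw [hxf]; exact hfQ1) hxreg
      (hP₀ Q)
    refine ⟨x - R.const a, ?_, ?_, haP.ge⟩
    · rw [map_sub, R.ρ_const, ha0, map_zero, sub_zero, hxf, hfQ1]
    · intro P' hP'
      by_cases hne : P' = P₀ Q
      · rw [hne, haP]; exact zero_le_one
      · rw [haP' P' hP' hne]
  choose t htQ htreg ht0 using hcoord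
  -- moving `D`
  set R₀ : Divisor K F := ∑ Q : T, Finsupp.single (P₀ Q) (1 : ℤ) with hR₀
  have hdegR₀ : Divisor.degree R₀ = g := by
    rw [hR₀, map_sum]
    simp only [Divisor.degree_single, hdF, Nat.cast_one, mul_one]
    simp [hTcard, ← hgE]
  obtain ⟨f, hf0, hfeff⟩ := H3RR.exists_effective (D := D + R₀) (by
    rw [map_add, hD, hdegR₀, ← hgF]; omega)
  set DP : Divisor K F := D + R₀ + H3RR.divOf f with hDP
  have hmapR₀ : Finsupp.mapDomain r R₀ = H3RR.redDiv T := by
    rw [hR₀, ← Finsupp.mapDomain.addMonoidHom_apply, map_sum]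
    simp only [Finsupp.mapDomain.addMonoidHom_apply, Finsupp.mapDomain_single, hP₀]
    rw [H3RR.redDiv, Finset.sum_coe_sort T (fun Q => Finsupp.single Q (1 : ℤ))]
  have hmapf : Divisor.IsPrincipal (Finsupp.mapDomain r (H3RR.divOf f : Divisor K F)) := by
    obtain ⟨c₀, hc₀, x, hx, hρx⟩ := R.exists_scale hf0
    refine ⟨R.ρ x, hρx, fun w => hr x hρx _ (fun v => ?_) w⟩
    rw [H3RR.divOf_apply hf0, hx, Algebra.smul_def, ord_const_mul v hc₀]
  obtain ⟨e, he0, he⟩ : Divisor.IsPrincipal
      (Finsupp.mapDomain r D + Finsupp.mapDomain r (H3RR.divOf f : Divisor K F)) :=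
    Divisor.principal.add_mem hrD hmapf
  have hmapDP : Finsupp.mapDomain r DP = H3RR.redDiv T +
      (Finsupp.mapDomain r D + Finsupp.mapDomain r (H3RR.divOf f : Divisor K F)) := by
    rw [hDP, Finsupp.mapDomain_add, Finsupp.mapDomain_add, hmapR₀]; abel
  have hnn : 0 ≤ Finsupp.mapDomain r DP := by
    rw [Finsupp.le_def]
    intro Q
    exact mapDomain_nonneg_at fun P _ => Finsupp.le_def.mp hfeff P
  have heL : e ∈ riemannRochSpace (H3RR.redDiv T) := by
    rw [mem_L he0]
    intro Q
    have h1 := Finsupp.le_def.mp hnn Q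
    rw [hmapDP, Finsupp.add_apply (H3RR.redDiv T), he Q] at h1
    simp only [Finsupp.coe_zero, Pi.zero_apply] at h1
    omega
  obtain ⟨ε, hε⟩ := hL e heL
  have hmapDP' : Finsupp.mapDomain r DP = H3RR.redDiv T := by
    ext Q
    rw [hmapDP, Finsupp.add_apply (H3RR.redDiv T), he Q, ← hε, H40.ord_algebraMap, add_zero]
  obtain ⟨P, hP, hDPP⟩ := exists_lift_of_mapDomain hfeff T hmapDP'
  -- the function `h`
  obtain ⟨w, hw0, hw⟩ := hmD
  have hh : ∀ v : Place K F, v.ord (w * f ^ m) =
      m * (∑ Q : T, (Finsupp.single (P Q) (1 : ℤ) - Finsupp.single (P₀ Q) (1 : ℤ))) v := by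
    intro v
    rw [Finset.sum_sub_distrib, ← hDPP, ← hR₀, v.ord_mul hw0 (pow_ne_zero m hf0), ord_npow,
      ← hw v, hDP, ← H3RR.divOf_apply (K := K) hf0 v]
    simp only [Finsupp.sub_apply, Finsupp.add_apply, Finsupp.smul_apply, nsmul_eq_mul]
    ring
  have hh0 : w * f ^ m ≠ 0 := mul_ne_zero hw0 (pow_ne_zero m hf0)
  obtain ⟨γ, hγ⟩ := core hr hdF hm P₀ P (fun Q => by rw [hP, hP₀])
    (fun Q Q' hQ => Subtype.ext (by simpa [hP₀] using hQ)) t
    (fun Q => by rw [hP₀]; exact htQ Q) (fun Q P' hP' => htreg Q P' (by rw [hP', hP₀])) ht0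
    (fun e he => hL e (by
      rw [mem_riemannRochSpace_iff]
      intro Q
      have h1 := he Q
      simp only [hP₀] at h1
      rw [Finset.sum_coe_sort T (fun Q => Finsupp.single Q (1 : ℤ))] at h1
      exact h1)) hh0 hh
  -- conclusion
  refine ⟨f⁻¹, inv_ne_zero hf0, fun v => ?_⟩
  have h1 := hh v
  rw [← hγ, H40.ord_algebraMap, Finset.sum_sub_distrib, ← hDPP, ← hR₀, hDP] at h1
  have h2 : (D + R₀ + H3RR.divOf f - R₀ : Divisor K F) v = 0 := by
    rcases mul_eq_zero.mp h1.symm with h3 | h3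
    · exact absurd (by exact_mod_cast h3) hm0
    · exact h3
  simp only [Finsupp.sub_apply, Finsupp.add_apply, H3RR.divOf_apply hf0] at h2
  rw [v.ord_inv]
  omega

/-- **Kummer injectivity**: a function with divisor divisible by `m` and reduction one is an
`m`-th power (`m` prime to the residue characteristic). -/
theorem kummer_injective {g c : ℤ} (hF : RiemannFor K F g c) (hE : RiemannFor k E g c)
    (hr1 : ∀ D : Divisor K F, c < Divisor.degree D → R.IsRed D (Finsupp.mapDomain r D))
    (hr : DivCompat R r) {m : ℕ} (hm : (m : k) ≠ 0) {w : F}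
    (hw : ∀ v : Place K F, (m : ℤ) ∣ v.ord w) {x y : R.B} (hy : R.ρ y ≠ 0)
    (hxy : R.ρ x = R.ρ y) (hwxy : w * y = x) : ∃ h : F, w = h ^ m := by
  classical
  have hm0 : m ≠ 0 := by rintro rfl; simp at hm
  have hx : R.ρ x ≠ 0 := by rw [hxy]; exact hy
  have hx0 := R.ne_zero_of_ρ_ne_zero hx
  have hy0 := R.ne_zero_of_ρ_ne_zero hy
  have hw0 : w ≠ 0 := by rintro rfl; rw [zero_mul] at hwxy; exact hx0 hwxy.symm
  choose q hq using hw
  have hmz : (m : ℤ) ≠ 0 := by exact_mod_cast hm0
  set D : Divisor K F := Finsupp.onFinset (H3RR.divOf w : Divisor K F).support q (fun v hv => by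
    rw [Finsupp.mem_support_iff, H3RR.divOf_apply hw0, hq v]
    exact mul_ne_zero hmz hv) with hD
  have hDv : ∀ v, m * D v = v.ord w := fun v => by rw [hD, Finsupp.onFinset_apply, ← hq v]
  have hmD : m • D = H3RR.divOf w := by
    ext v
    rw [Finsupp.smul_apply, nsmul_eq_mul, hDv, H3RR.divOf_apply hw0]
  have hdeg : Divisor.degree D = 0 := by
    have h1 := congrArg Divisor.degree hmD
    rw [map_nsmul, H3RR.degree_divOf hw0, nsmul_eq_mul] at h1
    exact (mul_eq_zero.mp h1).resolve_left hmz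
  have hmap : Finsupp.mapDomain r D = 0 := by
    have h1 : (m : ℤ) • Finsupp.mapDomain r D = 0 := by
      have h2 : (m : ℤ) • Finsupp.mapDomain r D = Finsupp.mapDomain r (m • D) := by
        rw [← Finsupp.mapDomain.addMonoidHom_apply, ← Finsupp.mapDomain.addMonoidHom_apply,
          map_nsmul, natCast_zsmul]
      have h3 : (m • D : Divisor K F) = H3RR.divOf (x : F) - H3RR.divOf (y : F) := by
        rw [hmD, ← hwxy, H3RR.divOf_mul hw0 hy0, add_sub_cancel_right]
      rw [h2, h3, ← Finsupp.mapDomain.addMonoidHom_apply, map_sub,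
        Finsupp.mapDomain.addMonoidHom_apply, Finsupp.mapDomain.addMonoidHom_apply, sub_eq_zero]
      ext Q
      rw [hr x hx _ (fun v => H3RR.divOf_apply hx0 v), hr y hy _ (fun v => H3RR.divOf_apply hy0 v),
        hxy]
    ext Q
    have h2 := congrArg (fun D : Divisor k E => D Q) h1
    simp only [Finsupp.smul_apply, smul_eq_mul, Finsupp.coe_zero, Pi.zero_apply] at h2
    exact (mul_eq_zero.mp h2).resolve_left hmz
  obtain ⟨f, hf0, hf⟩ := torsion_injective hF hE hr1 hr hm hdeg
    ⟨w, hw0, fun v => by rw [Finsupp.smul_apply, nsmul_eq_mul, hDv]⟩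
    (by rw [hmap]; exact Divisor.principal.zero_mem)
  have hfm0 : f ^ m ≠ 0 := pow_ne_zero m hf0
  have hord : ∀ v : Place K F, v.ord (w / f ^ m) = 0 := fun v => by
    rw [div_eq_mul_inv, v.ord_mul hw0 (inv_ne_zero hfm0), v.ord_inv, ord_npow, ← hf v, hDv]
    ring
  obtain ⟨γ, hγ⟩ := H3RR.exists_const_of_mem_L (K := K) (D := 0) (f := w / f ^ m) le_rfl
    (H3RR.finite_and_ell_zero (K := K) (F := F)).2 (by
      rw [mem_riemannRochSpace_iff]
      intro v
      right
      rw [hord v]; simp)
  obtain ⟨δ, hδ⟩ := IsAlgClosed.exists_pow_nat_eq γ (Nat.pos_of_ne_zero hm0)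
  refine ⟨algebraMap K F δ * f, ?_⟩
  rw [mul_pow, ← map_pow, hδ, hγ, div_mul_cancel₀ w hfm0]

end GR

end Fermat.Agent.H34
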