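import Mathlib
import Fermat.Prelude.Def_AlgebraicCurve_Repartitions
import Fermat.Prelude.Def_AlgebraicCurve_IsCurveOver

/-!
# Abstract good reduction: the reduction map is injective on torsion prime to the
residue characteristic.

`RedData` packages a valuation subring `V` of a function field `F/K` extending a valuation
subring `A` of `K`, its residue map onto (a subfield of) a function field `Fs/k`,
and a compatible map `r` on places.
-/

set_option autoImplicit false

noncomputable section

open AlgebraicCurve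

namespace Fermat.Agent.H34

section PlaceLemmas

variable {K F : Type*} [Field K] [Field F] [Algebra K F]

theorem mem_iff_ord (P : Place K F) {f : F} :
    f ∈ P.toValuationSubring ↔ f = 0 ∨ 0 ≤ P.ord f := by
  rw [← P.adicValuation_le_one_iff]
  constructor
  · exact P.adicValuation_le_one_of_mem
  · intro h
    rcases P.adicValuation_le_one_iff.mp h with rfl | h0
    · exact P.toValuationSubring.zero_mem
    · by_cases hf : f = 0
      · subst hf; exact P.toValuationSubring.zero_mem
      obtain ⟨π, hπ⟩ := IsDiscreteValuationRing.exists_irreducible P.toValuationSubring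
      obtain ⟨u, hu⟩ := P.exists_unit_mul_zpow hf hπ
      rw [hu]
      refine mul_mem (u : P.toValuationSubring).2 ?_
      lift P.ord f to ℕ using h0 with n hn
      rw [zpow_natCast]
      exact pow_mem π.2 n

theorem ord_nonneg_of_mem (P : Place K F) {f : F} (h : f ∈ P.toValuationSubring) :
    0 ≤ P.ord f := by
  rcases (mem_iff_ord P).mp h with rfl | h
  · simp
  · exact h

theorem mem_of_ord_nonneg (P : Place K F) {f : F} (h : 0 ≤ P.ord f) :
    f ∈ P.toValuationSubring := (mem_iff_ord P).mpr (Or.inr h)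

theorem ord_algebraMap (P : Place K F) (c : K) : P.ord (algebraMap K F c) = 0 := by
  by_cases hc : c = 0
  · subst hc; simp
  have h1 : 0 ≤ P.ord (algebraMap K F c) := ord_nonneg_of_mem P (P.algebraMap_mem' c)
  have h2 : 0 ≤ P.ord (algebraMap K F c)⁻¹ := by
    rw [← map_inv₀]; exact ord_nonneg_of_mem P (P.algebraMap_mem' _)
  rw [P.ord_inv] at h2
  omega

theorem ord_neg (P : Place K F) (f : F) : P.ord (-f) = P.ord f := by
  simp [Place.ord, Valuation.map_neg]

/-- `n ≤ ord f` or `f = 0`, as a valuation inequality -/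
theorem val_le_iff (P : Place K F) {f : F} {n : ℤ} :
    P.adicValuation f ≤ WithZero.exp (-n) ↔ f = 0 ∨ n ≤ P.ord f := by
  rw [P.adicValuation_le_exp_iff, neg_neg]

theorem le_ord_add (P : Place K F) {f g : F} {n : ℤ} (hf : f = 0 ∨ n ≤ P.ord f)
    (hg : g = 0 ∨ n ≤ P.ord g) : f + g = 0 ∨ n ≤ P.ord (f + g) := by
  rw [← val_le_iff] at *
  exact (Valuation.map_add _ _ _).trans (max_le hf hg)

theorem le_ord_sub (P : Place K F) {f g : F} {n : ℤ} (hf : f = 0 ∨ n ≤ P.ord f)
    (hg : g = 0 ∨ n ≤ P.ord g) : f - g = 0 ∨ n ≤ P.ord (f - g) := by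
  rw [sub_eq_add_neg]
  refine le_ord_add P hf ?_
  rw [neg_eq_zero, ord_neg]
  exact hg

/-- For a place of degree one every regular function takes a value in `K`. -/
theorem exists_value (P : Place K F) (hP : P.deg = 1) {f : F} (hf : f ∈ P.toValuationSubring) :
    ∃ c : K, f - algebraMap K F c = 0 ∨ 1 ≤ P.ord (f - algebraMap K F c) := by
  have hfin : Module.finrank K P.ResidueField = 1 := hP
  have : Module.Finite K P.ResidueField := Module.finite_of_finrank_eq_succ hfin
  have hsurj : Function.Surjective (algebraMap K P.ResidueField) := by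
    intro x
    obtain ⟨c, hc⟩ := (finrank_eq_one_iff_of_nonzero' (1 : P.ResidueField) one_ne_zero).mp hfin x
    exact ⟨c, by rw [Algebra.algebraMap_eq_smul_one, hc]⟩
  obtain ⟨c, hc⟩ := hsurj (IsLocalRing.residue _ ⟨f, hf⟩)
  refine ⟨c, ?_⟩
  by_cases h0 : f - algebraMap K F c = 0
  · exact Or.inl h0
  right
  have hmem : f - algebraMap K F c ∈ P.toValuationSubring :=
    sub_mem hf (P.algebraMap_mem' c)
  have hres : IsLocalRing.residue _ (⟨f - algebraMap K F c, hmem⟩ : P.toValuationSubring) = 0 := by
    have : (⟨f - algebraMap K F c, hmem⟩ : P.toValuationSubring) =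
        ⟨f, hf⟩ - algebraMap K P.toValuationSubring c := rfl
    rw [this, map_sub, sub_eq_zero, ← hc]
    rfl
  have hnu : ¬ IsUnit (⟨f - algebraMap K F c, hmem⟩ : P.toValuationSubring) := by
    rw [IsLocalRing.residue_eq_zero_iff, IsLocalRing.mem_maximalIdeal] at hres
    exact hres
  have h1 : 0 ≤ P.ord (f - algebraMap K F c) := ord_nonneg_of_mem P hmem
  have h2 : P.ord (f - algebraMap K F c) ≠ 0 := by
    intro h
    apply hnu
    rw [← P.adicValuation_coe_eq_one_iff]
    show P.adicValuation (f - algebraMap K F c) = 1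
    rw [P.adicValuation_eq_exp_neg_ord h0, h]
    simp
  omega

end PlaceLemmas

/-- Reduction data between two function fields. -/
structure RedData (K F k Fs : Type*) [Field K] [Field F] [Algebra K F]
    [Field k] [Field Fs] [Algebra k Fs] where
  /-- valuation ring of constants -/
  A : ValuationSubring K
  /-- residue map of constants -/
  π : A →+* k
  isUnit_of_ne : ∀ a : A, π a ≠ 0 → IsUnit a
  /-- valuation ring of integral functions -/
  V : Subring F
  /-- reduction of functions -/
  red : V →+* Fs
  alg_mem : ∀ a : A, algebraMap K F (a : K) ∈ V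
  red_alg : ∀ a : A, red ⟨algebraMap K F (a : K), alg_mem a⟩ = algebraMap k Fs (π a)
  scale : ∀ f : F, f ≠ 0 → ∃ c : K, c ≠ 0 ∧ ∃ h : algebraMap K F c * f ∈ V, red ⟨_, h⟩ ≠ 0
  /-- reduction of places -/
  r : Place K F → Place k Fs
  div_compat : ∀ (u : V), red u ≠ 0 → ∀ D : Divisor K F, (∀ P, D P = P.ord (u : F)) →
    ∀ Q, Finsupp.mapDomain r D Q = Q.ord (red u)

namespace RedData

variable {K F k Fs : Type*} [Field K] [Field F] [Algebra K F] [Field k] [Field Fs] [Algebra k Fs]
variable (R : RedData K F k Fs)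

theorem π_eq_zero_iff (a : R.A) : R.π a = 0 ↔ ¬ IsUnit a := by
  constructor
  · intro h hu
    have := hu.map R.π
    rw [h] at this
    exact not_isUnit_zero this
  · intro h
    by_contra h0
    exact h (R.isUnit_of_ne a h0)

/-- a constant outside `A` has its inverse in the maximal ideal of `A` -/
theorem inv_mem_of_not_mem {c : K} (hc : c ∉ R.A) :
    ∃ a : R.A, (a : K) = c⁻¹ ∧ R.π a = 0 := by
  have hc0 : c ≠ 0 := fun h => hc (h ▸ R.A.zero_mem)
  have h := (R.A.mem_or_inv_mem c).resolve_left hc
  refine ⟨⟨c⁻¹, h⟩, rfl, ?_⟩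
  rw [π_eq_zero_iff]
  intro hu
  obtain ⟨b, hb⟩ := hu.exists_right_inv
  have hb' : c⁻¹ * (b : K) = 1 := congrArg Subtype.val hb
  have : (b : K) = c := by field_simp at hb'; exact hb'
  exact hc (this ▸ b.2)

/-- the constant function as an element of `V` -/
def const (a : R.A) : R.V := ⟨algebraMap K F (a : K), R.alg_mem a⟩

@[simp] theorem coe_const (a : R.A) : ((R.const a : R.V) : F) = algebraMap K F (a : K) := rfl

@[simp] theorem red_const (a : R.A) : R.red (R.const a) = algebraMap k Fs (R.π a) := R.red_alg a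

/-- units: an integral function with nonzero reduction is invertible in `V`. -/
theorem isUnit_of_red_ne_zero (u : R.V) (hu : R.red u ≠ 0) : IsUnit u := by
  have hu0 : (u : F) ≠ 0 := by
    intro h
    apply hu
    have : u = 0 := Subtype.ext h
    rw [this, map_zero]
  obtain ⟨c, hc0, hc, hcr⟩ := R.scale (u : F)⁻¹ (inv_ne_zero hu0)
  set w : R.V := ⟨_, hc⟩ with hw
  have hwu : ((w * u : R.V) : F) = algebraMap K F c := by
    show algebraMap K F c * (u : F)⁻¹ * (u : F) = _
    rw [mul_assoc, inv_mul_cancel₀ hu0, mul_one]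
  by_cases hcA : c ∈ R.A
  · have h1 : w * u = R.const ⟨c, hcA⟩ := Subtype.ext hwu
    have h2 : algebraMap k Fs (R.π ⟨c, hcA⟩) ≠ 0 := by
      rw [← R.red_const, ← h1, map_mul]
      exact mul_ne_zero hcr hu
    have h3 : IsUnit (⟨c, hcA⟩ : R.A) := R.isUnit_of_ne _ fun h => h2 (by rw [h, map_zero])
    obtain ⟨b, hb⟩ := h3.exists_right_inv
    refine IsUnit.of_mul_eq_one (w * R.const b) ?_
    rw [← mul_assoc, mul_comm u w, h1]
    refine Subtype.ext ?_
    show algebraMap K F c * algebraMap K F (b : K) = 1
    rw [← map_mul]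
    have : c * (b : K) = 1 := congrArg Subtype.val hb
    rw [this, map_one]
  · exfalso
    obtain ⟨a, ha, ha0⟩ := R.inv_mem_of_not_mem hcA
    have h1 : R.const a * (w * u) = 1 := by
      refine Subtype.ext ?_
      show algebraMap K F (a : K) * ((w * u : R.V) : F) = 1
      rw [hwu, ha, ← map_mul, inv_mul_cancel₀ hc0, map_one]
    have h2 := congrArg R.red h1
    rw [map_mul, R.red_const, ha0, map_zero, zero_mul, map_one] at h2
    exact zero_ne_one h2

theorem coe_ne_zero_of_red {u : R.V} (hu : R.red u ≠ 0) : (u : F) ≠ 0 := by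
  intro h
  apply hu
  have : u = 0 := Subtype.ext h
  rw [this, map_zero]

variable [HasPrincipalDivisors K F]

/-- If `u` has no pole in the residue disc of `Q`, its reduction has no pole at `Q`, and
the order of any zero of `u` in the disc is at most the order of the reduction. -/
theorem ord_le_ord_red (u : R.V) (hu : R.red u ≠ 0) (P₀ : Place K F)
    (hreg : ∀ P : Place K F, R.r P = R.r P₀ → 0 ≤ P.ord (u : F)) :
    P₀.ord (u : F) ≤ (R.r P₀).ord (R.red u) := by
  classical
  obtain ⟨D, hD, -⟩ := HasPrincipalDivisors.exists_divisor (K := K) (F := F) (u : F)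
    (R.coe_ne_zero_of_red hu)
  rw [← R.div_compat u hu D hD (R.r P₀)]
  rw [Finsupp.mapDomain, Finsupp.sum_apply, Finsupp.sum]
  have hterm : ∀ P ∈ D.support, (0 : ℤ) ≤ (Finsupp.single (R.r P) (D P)) (R.r P₀) := by
    intro P _
    rw [Finsupp.single_apply]
    split_ifs with h
    · rw [hD]; exact hreg P h
    · exact le_rfl
  by_cases h0 : P₀ ∈ D.support
  · calc P₀.ord (u : F) = (Finsupp.single (R.r P₀) (D P₀)) (R.r P₀) := by
          rw [Finsupp.single_eq_same, hD]
      _ ≤ _ := Finset.single_le_sum hterm h0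
  · have : P₀.ord (u : F) = 0 := by
      rw [← hD]; exact Finsupp.notMem_support_iff.mp h0
    rw [this]
    exact Finset.sum_nonneg hterm

theorem two_ord_le_ord_red (u : R.V) (hu : R.red u ≠ 0) (P₀ P₁ : Place K F) (hne : P₁ ≠ P₀)
    (h01 : R.r P₁ = R.r P₀)
    (hreg : ∀ P : Place K F, R.r P = R.r P₀ → 0 ≤ P.ord (u : F)) :
    P₀.ord (u : F) + P₁.ord (u : F) ≤ (R.r P₀).ord (R.red u) := by
  classical
  obtain ⟨D, hD, -⟩ := HasPrincipalDivisors.exists_divisor (K := K) (F := F) (u : F)
    (R.coe_ne_zero_of_red hu)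
  by_cases h0 : P₀ ∈ D.support
  · by_cases h1 : P₁ ∈ D.support
    · rw [← R.div_compat u hu D hD (R.r P₀)]
      rw [Finsupp.mapDomain, Finsupp.sum_apply, Finsupp.sum]
      have hterm : ∀ P ∈ D.support, (0 : ℤ) ≤ (Finsupp.single (R.r P) (D P)) (R.r P₀) := by
        intro P _
        rw [Finsupp.single_apply]
        split_ifs with h
        · rw [hD]; exact hreg P h
        · exact le_rfl
      calc P₀.ord (u : F) + P₁.ord (u : F)
          = ∑ P ∈ ({P₀, P₁} : Finset (Place K F)),
              (Finsupp.single (R.r P) (D P)) (R.r P₀) := by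
            rw [Finset.sum_pair (Ne.symm hne), Finsupp.single_eq_same, h01,
              Finsupp.single_eq_same, hD, hD]
        _ ≤ _ := Finset.sum_le_sum_of_subset_of_nonneg
              (by
                intro P hP
                rw [Finset.mem_insert, Finset.mem_singleton] at hP
                rcases hP with rfl | rfl
                · exact h0
                · exact h1)
              (fun P hP _ => hterm P hP)
    · have : P₁.ord (u : F) = 0 := by
        rw [← hD]; exact Finsupp.notMem_support_iff.mp h1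
      rw [this, add_zero]
      exact R.ord_le_ord_red u hu P₀ hreg
  · have : P₀.ord (u : F) = 0 := by
      rw [← hD]; exact Finsupp.notMem_support_iff.mp h0
    rw [this, zero_add, ← h01]
    exact R.ord_le_ord_red u hu P₁ (by rw [h01]; exact hreg)

/-- no poles in the disc ⇒ reduction has no pole, for an arbitrary place `Q` downstairs -/
theorem ord_red_nonneg (u : R.V) (hu : R.red u ≠ 0) (Q : Place k Fs)
    (hreg : ∀ P : Place K F, R.r P = Q → 0 ≤ P.ord (u : F)) :
    0 ≤ Q.ord (R.red u) := by
  classical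
  obtain ⟨D, hD, -⟩ := HasPrincipalDivisors.exists_divisor (K := K) (F := F) (u : F)
    (R.coe_ne_zero_of_red hu)
  rw [← R.div_compat u hu D hD Q]
  rw [Finsupp.mapDomain, Finsupp.sum_apply, Finsupp.sum]
  refine Finset.sum_nonneg ?_
  intro P _
  rw [Finsupp.single_apply]
  split_ifs with h
  · rw [hD]; exact hreg P h
  · exact le_rfl

/-- a zero of the reduction lifts -/
theorem exists_ord_pos_of_red (u : R.V) (hu : R.red u ≠ 0) (Q : Place k Fs)
    (hQ : 0 < Q.ord (R.red u)) : ∃ P : Place K F, R.r P = Q ∧ 0 < P.ord (u : F) := by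
  classical
  by_contra hcon
  push Not at hcon
  obtain ⟨D, hD, -⟩ := HasPrincipalDivisors.exists_divisor (K := K) (F := F) (u : F)
    (R.coe_ne_zero_of_red hu)
  rw [← R.div_compat u hu D hD Q] at hQ
  rw [Finsupp.mapDomain, Finsupp.sum_apply, Finsupp.sum] at hQ
  have : ∑ P ∈ D.support, (Finsupp.single (R.r P) (D P)) Q ≤ 0 := by
    refine Finset.sum_nonpos ?_
    intro P _
    rw [Finsupp.single_apply]
    split_ifs with h
    · rw [hD]; exact hcon P h
    · exact le_rfl
  omega

end RedData

end Fermat.Agent.H34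

end
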