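/-
H34S34: `S34` (unipotent inertia at `q ∥ N`) from a faithful Galois-Hecke module on whose `p`-power
torsion the inertia groups at `q` act unipotently of level two.
-/
import Fermat.Prelude.Def_GaloisRep_LocalConditions
import Fermat.Agent.H31JZero

set_option autoImplicit false

noncomputable section

namespace Fermat.Agent.H34

open Polynomial CuspForm ModularCurve Fermat.Agent.H31

/-- `(σ - 1)² = 0` on `p`-power torsion for all `σ` in inertia groups at `q`. -/
def InertiaSquareZero (p q : ℕ) (J : Type*) [AddCommGroup J] [DistribMulAction GQ J] : Prop :=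
  ∀ B : ValuationSubring (AlgebraicClosure ℚ), B.LiesOverPrime q → ∀ τ ∈ B.inertiaSubgroupIn ℚ,
    ∀ x : J, (∃ n : ℕ, p ^ n • x = 0) → τ • (τ • x - x) = τ • x - x

section

variable {T : Type*} [CommRing T] [Nontrivial T] {V : Type*} [AddCommGroup V] [Module T V]
  [Module.Free T V] [Module.Finite T V]

/-- The characteristic polynomial of an endomorphism of a free module of rank two. -/
theorem charpoly_eq_of_finrank_eq_two (hr : Module.finrank T V = 2) (f : Module.End T V) :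
    LinearMap.charpoly f = X ^ 2 - C (LinearMap.trace T V f) * X + C (LinearMap.det f) := by
  let b := Module.finBasisOfFinrankEq T V hr
  rw [← LinearMap.charpoly_toMatrix f b, Matrix.charpoly_fin_two,
    LinearMap.trace_eq_matrix_trace T b, ← LinearMap.det_toMatrix b]

end

section

variable {p : ℕ} {J : Type*} [AddCommGroup J] [Module HeckeAlg J] [DistribMulAction GQ J]
  [SMulCommClass GQ HeckeAlg J]

theorem natCast_isUnit_of_not_dvd {T : Type*} [CommRing T] [IsLocalRing T] (hp : p.Prime)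
    (hpT : (p : T) ∈ IsLocalRing.maximalIdeal T) {u : ℕ} (hu : ¬ p ∣ u) : IsUnit (u : T) := by
  have hcop : Nat.Coprime p u := (Nat.Prime.coprime_iff_not_dvd hp).mpr hu
  by_contra hnu
  have hu' : (u : T) ∈ IsLocalRing.maximalIdeal T := by
    rwa [IsLocalRing.mem_maximalIdeal, mem_nonunits_iff]
  have hbez := Nat.isCoprime_iff_coprime.mpr hcop
  obtain ⟨a, b, hab⟩ := hbez
  have h1 : (1 : T) ∈ IsLocalRing.maximalIdeal T := by
    have : (1 : T) = (a : T) * (p : T) + (b : T) * (u : T) := by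
      have := congrArg (Int.cast : ℤ → T) hab
      push_cast at this
      exact this.symm
    rw [this]
    exact Ideal.add_mem _ (Ideal.mul_mem_left _ _ hpT) (Ideal.mul_mem_left _ _ hu')
  exact (Ideal.ne_top_iff_one _).mp (IsLocalRing.maximalIdeal.isMaximal T).ne_top h1

/-- **S34 from a faithful Galois-Hecke module.** -/
theorem isUnipotentOnInertiaAt_of_module
    {N : ℕ} [NeZero N] {S : Finset ℕ}
    {𝒪 : Type} [CommRing 𝒪] [IsDomain 𝒪] [IsDiscreteValuationRing 𝒪]
    [IsAdicComplete (IsLocalRing.maximalIdeal 𝒪) 𝒪]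
    {θ : CuspForm.heckeAlgebra N 2 (↑S : Set ℕ) →+* IsLocalRing.ResidueField 𝒪}
    {T : Type} [CommRing T] [IsLocalRing T] [IsNoetherianRing T]
    [IsAdicComplete (IsLocalRing.maximalIdeal T) T] [Algebra 𝒪 T] [IsLocalHom (algebraMap 𝒪 T)]
    [Module.Finite 𝒪 T] [Module.Free 𝒪 T]
    (hp : p.Prime)
    (hp𝒪 : (p : 𝒪) ∈ IsLocalRing.maximalIdeal 𝒪) (hpS : p ∈ S)
    (hNS : ∀ q : ℕ, q.Prime → q ∣ N → q ∈ S)
    (H : CuspForm.HeckeGaloisRepDatum N (↑S : Set ℕ) 𝒪 θ T)
    (q : ℕ) (hq : q.Prime) (hqp : q ≠ p)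
    (hI : InertiaSquareZero p q J)
    (hF : FrobeniusQuadratic (K := ℚ) (L := AlgebraicClosure ℚ) N p J)
    (hfin : FiniteLevel p J) (hfaith : HeckeFaithful N (↑S : Set ℕ) p J) :
    H.ρ.IsUnipotentOnInertiaAt q := by
  intro B hB τ hτ
  have hpT : (p : T) ∈ IsLocalRing.maximalIdeal T := by
    have h1 : algebraMap 𝒪 T (p : 𝒪) ∈ IsLocalRing.maximalIdeal T := by
      rw [IsLocalRing.mem_maximalIdeal] at hp𝒪 ⊢
      exact map_mem_nonunits_iff (algebraMap 𝒪 T) _ |>.mpr hp𝒪
    rwa [map_natCast] at h1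
  set M := IsLocalRing.maximalIdeal T with hM
  obtain ⟨c, u, hu, hfaith⟩ := hfaith
  -- the key congruences
  have key : ∀ n : ℕ, LinearMap.trace T H.ρ.V (H.ρ.ρ τ) - 2 ∈ M ^ n ∧
      LinearMap.det (H.ρ.ρ τ) - 1 ∈ M ^ n := by
    intro n
    set m := n + c with hm
    obtain ⟨L₀, hL₀, hL₀'⟩ := H.ρ.isAdicContinuous n
    obtain ⟨L₁, hL₁, hL₁'⟩ := hfin m
    have hpm : 0 < p ^ m := pow_pos hp.pos m
    have : NeZero (p ^ m) := ⟨hpm.ne'⟩
    obtain ⟨ζ, hζ⟩ := HasEnoughRootsOfUnity.exists_primitiveRoot (AlgebraicClosure ℚ) (p ^ m)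
    set L₂ : IntermediateField ℚ (AlgebraicClosure ℚ) := IntermediateField.adjoin ℚ {ζ} with hL₂
    have halg : Algebra.IsAlgebraic ℚ (AlgebraicClosure ℚ) := AlgebraicClosure.isAlgebraic ℚ
    have hfd₂ : FiniteDimensional ℚ L₂ :=
      IntermediateField.adjoin.finiteDimensional
        (Algebra.IsAlgebraic.isAlgebraic (R := ℚ) ζ).isIntegral
    have := hL₀
    have := hL₁
    obtain ⟨ℓ, hℓ, hℓS, A, hA, φ, hφ, j, hj⟩ :=
      weakFrobeniusDensity (L₀ ⊔ (L₁ ⊔ L₂)) inferInstance S τ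
    have hℓN : ¬ ℓ ∣ N := fun h => hℓS (hNS ℓ hℓ h)
    have hℓS2 : ℓ ∉ (↑S : Set ℕ) := by simpa using hℓS
    have hℓp : ℓ ≠ p := by rintro rfl; exact hℓS hpS
    have hℓNp : ¬ ℓ ∣ N * p := by
      intro h
      rcases hℓ.dvd_mul.mp h with h | h
      · exact hℓN h
      · exact hℓp ((Nat.prime_dvd_prime_iff_eq hℓ hp).mp h)
    have hle₀ : L₀ ≤ L₀ ⊔ (L₁ ⊔ L₂) := le_sup_left
    have hle₁ : L₁ ≤ L₀ ⊔ (L₁ ⊔ L₂) := le_sup_left.trans le_sup_right
    have hle₂ : L₂ ≤ L₀ ⊔ (L₁ ⊔ L₂) := le_sup_right.trans le_sup_right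
    have hζL : ζ ∈ L₂ := IntermediateField.subset_adjoin ℚ _ (Set.mem_singleton ζ)
    have hℓcop : Nat.Coprime ℓ (p ^ m) :=
      Nat.Coprime.pow_right m ((Nat.coprime_primes hℓ hp).mpr hℓp)
    have hqcop : Nat.Coprime q (p ^ m) :=
      Nat.Coprime.pow_right m ((Nat.coprime_primes hq hp).mpr hqp)
    have hfrob : ∀ i : ℕ, (φ ^ i) ζ = ζ ^ (ℓ ^ i) := by
      intro i
      induction i with
      | zero => simp
      | succ i ih =>
        rw [pow_succ, AlgEquiv.mul_apply,
          frobenius_apply_rootOfUnity A hA hℓcop hpm hφ hζ.pow_eq_one, map_pow, ih,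
          ← pow_mul, ← pow_succ]
    have hdet : ζ ^ (ℓ ^ j) = ζ ^ 1 := by
      rw [← hfrob j, ← hj ζ (hle₂ hζL), inertia_apply_rootOfUnity B hB hqcop hpm hτ hζ.pow_eq_one,
        pow_one]
    have hmod : ((p ^ m : ℕ) : ℤ) ∣ (ℓ : ℤ) ^ j - 1 := by
      have h2 : ℓ ^ j ≡ 1 [MOD p ^ m] := by
        have hζ0 : ζ ≠ 0 := hζ.ne_zero hpm.ne'
        rw [hζ.eq_orderOf, ← Units.val_mk0 hζ0, orderOf_units]
        refine (pow_eq_pow_iff_modEq).mp (Units.ext ?_)
        simpa using hdet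
      have h3 := (Nat.modEq_iff_dvd.mp h2.symm)
      push_cast at h3 ⊢
      exact h3
    have hmodT : (ℓ : T) ^ j - 1 ∈ M ^ n := by
      obtain ⟨k, hk⟩ := hmod
      have h1 : (ℓ : T) ^ j - 1 = (k : T) * (p : T) ^ m := by
        have := congrArg (Int.cast : ℤ → T) hk
        push_cast at this
        rw [this, mul_comm]
      rw [h1]
      refine Ideal.mul_mem_left _ _ (Ideal.pow_le_pow_right ?_ (Ideal.pow_mem_pow hpT m))
      omega
    -- quadratic relation of `τ` on the torsion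
    let E := Module.End HeckeAlg (Submodule.torsionBy HeckeAlg J ((p : HeckeAlg) ^ m))
    let P := luc (heckeGen ⟨ℓ, hℓ⟩) (ℓ : HeckeAlg) j
    have q1 := quadratic_pow (heckeGen ⟨ℓ, hℓ⟩) (ℓ : HeckeAlg) (torsEnd p m J φ)
      (frobenius_quadratic_torsEnd hF m hℓ hℓNp hA hφ) j
    have g1 : torsEnd p m J τ = torsEnd p m J φ ^ j := by
      rw [← map_pow]
      exact torsEnd_eq_of_agree hL₁' _ _ (fun x hx => hj x (hle₁ hx))
    rw [← g1] at q1
    have q4 : algebraMap HeckeAlg E ((ℓ : HeckeAlg) ^ j - 1) = 0 := by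
      obtain ⟨k, hk⟩ := hmod
      have h1 : ((ℓ : HeckeAlg) ^ j - 1) = (k : HeckeAlg) * (p : HeckeAlg) ^ m := by
        have := congrArg (Int.cast : ℤ → HeckeAlg) hk
        push_cast at this
        rw [this, mul_comm]
      rw [h1]
      refine LinearMap.ext fun x => ?_
      rw [Module.algebraMap_end_apply, mul_smul, Submodule.smul_torsionBy, smul_zero]
      rfl
    have q2 : torsEnd p m J τ * torsEnd p m J τ -
        algebraMap HeckeAlg (Module.End HeckeAlg
          (Submodule.torsionBy HeckeAlg J ((p : HeckeAlg) ^ m))) 2 * torsEnd p m J τ +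
        algebraMap HeckeAlg (Module.End HeckeAlg
          (Submodule.torsionBy HeckeAlg J ((p : HeckeAlg) ^ m))) 1 = 0 := by
      refine LinearMap.ext fun x => Subtype.ext ?_
      have h := hI B hB τ hτ (x : J) ⟨m, nsmul_eq_zero_of_mem x⟩
      rw [map_one]
      simp only [LinearMap.add_apply, LinearMap.sub_apply, Module.End.mul_apply,
        Module.algebraMap_end_apply, Submodule.coe_add, Submodule.coe_sub, Submodule.coe_smul,
        coe_torsEnd_apply, LinearMap.zero_apply, Submodule.coe_zero, Module.End.one_apply]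
      rw [smul_sub] at h
      rw [ofNat_smul_eq_nsmul, two_smul]
      rw [sub_eq_iff_eq_add] at h
      rw [h]; abel
    have q3 : algebraMap HeckeAlg E (P - 2) * torsEnd p m J τ =
        algebraMap HeckeAlg E ((ℓ : HeckeAlg) ^ j - 1) :=
      sub_mul_eq_of_quadratic P 2 _ _ _ q1 q2
    have q5 : algebraMap HeckeAlg E (P - 2) = 0 := by
      have hinv : torsEnd p m J τ * torsEnd p m J τ⁻¹ = 1 := by
        rw [← map_mul, mul_inv_cancel, map_one]
      rw [← mul_one (algebraMap HeckeAlg E (P - 2)), ← hinv, ← mul_assoc, q3, q4, zero_mul]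
    -- faithfulness
    let ℓ₁ : GoodPrimes N (↑S : Set ℕ) := ⟨⟨ℓ, hℓ⟩, hℓN, hℓS2⟩
    obtain ⟨y, hy⟩ := hfaith m
      (luc (MvPolynomial.X ℓ₁) (ℓ : MvPolynomial (GoodPrimes N (↑S : Set ℕ)) ℤ) j - 2) (by
        intro x hx
        have h1 : inclHecke N (↑S : Set ℕ)
            (luc (MvPolynomial.X ℓ₁) (ℓ : MvPolynomial (GoodPrimes N (↑S : Set ℕ)) ℤ) j - 2) =
            P - 2 := by
          rw [map_sub, map_ofNat]
          have a1 := map_luc (inclHecke N (↑S : Set ℕ)).toRingHom (MvPolynomial.X ℓ₁)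
            (ℓ : MvPolynomial (GoodPrimes N (↑S : Set ℕ)) ℤ) j
          simp only [AlgHom.toRingHom_eq_coe, RingHom.coe_coe, inclHecke_X, map_natCast] at a1
          rw [a1]
        rw [h1]
        have hxm : x ∈ Submodule.torsionBy HeckeAlg J ((p : HeckeAlg) ^ m) := by
          rw [Submodule.mem_torsionBy_iff]
          have e : ((p ^ m : ℕ) : HeckeAlg) = ((p : HeckeAlg) ^ m) := by push_cast; rfl
          rw [← e, Nat.cast_smul_eq_nsmul]
          exact hx
        have h2 := LinearMap.congr_fun q5 ⟨x, hxm⟩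
        exact congrArg Subtype.val h2)
    rw [map_sub, map_luc, evHecke_X, map_natCast, map_ofNat, hm, Nat.add_sub_cancel] at hy
    have e1 := trace_sub_mem_of_agree H.ρ n L₀ hL₀' τ (φ ^ j) (fun x hx => hj x (hle₀ hx))
    have c1 := H.charpoly_frob ℓ hℓ hℓN hℓS2 A hA φ hφ
    have t1 := trace_pow_of_charpoly H.ρ.finrank_eq (H.ρ.ρ φ) _ _ c1 j
    rw [← map_pow] at t1
    rw [t1] at e1
    have key1 : luc (H.π (heckeAlgebra.T hℓ hℓN hℓS2)) (ℓ : T) j - 2 ∈ M ^ n := by
      have h1 := congrArg H.π hy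
      rw [map_mul, map_sub, map_luc, map_natCast, map_natCast, map_ofNat, map_mul, map_pow,
        map_natCast] at h1
      have h2 : (p : T) ^ n * H.π y ∈ M ^ n :=
        Ideal.mul_mem_right _ _ (Ideal.pow_mem_pow hpT n)
      rw [← h1] at h2
      exact (Ideal.unit_mul_mem_iff_mem _ (natCast_isUnit_of_not_dvd hp hpT hu)).mp h2
    refine ⟨?_, ?_⟩
    · have := Ideal.add_mem _ e1 key1
      rwa [sub_add_sub_cancel] at this
    · -- determinants
      have d1 : LinearMap.det (H.ρ.ρ (φ ^ j)) = (ℓ : T) ^ j := by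
        rw [map_pow, map_pow, det_eq_of_charpoly H.ρ.finrank_eq (H.ρ.ρ φ) _ _ c1]
      have d2 : LinearMap.det (H.ρ.ρ τ) - LinearMap.det (H.ρ.ρ (φ ^ j)) ∈ M ^ n := by
        -- `det x - det y = ` difference of `(tr² - tr(x²))/2`, so use matrices instead
        let b := Module.finBasisOfFinrankEq T H.ρ.V H.ρ.finrank_eq
        have hval := sub_mem_of_agree H.ρ n L₀ hL₀' τ (φ ^ j) (fun x hx => hj x (hle₀ hx))
        have hrepr : ∀ v ∈ M ^ n • (⊤ : Submodule T H.ρ.V), ∀ i, b.repr v i ∈ M ^ n := by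
          intro v hv i
          refine Submodule.smul_induction_on (p := fun v => b.repr v i ∈ M ^ n) hv ?_ ?_
          · intro r hr n _
            rw [map_smul, Finsupp.smul_apply, smul_eq_mul]
            exact Ideal.mul_mem_right _ _ hr
          · intro x y hx hy
            rw [map_add, Finsupp.add_apply]
            exact Ideal.add_mem _ hx hy
        have hent : ∀ i k, LinearMap.toMatrix b b (H.ρ.ρ τ) i k -
            LinearMap.toMatrix b b (H.ρ.ρ (φ ^ j)) i k ∈ M ^ n := by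
          intro i k
          rw [LinearMap.toMatrix_apply, LinearMap.toMatrix_apply, ← Finsupp.sub_apply, ← map_sub,
            ← LinearMap.sub_apply]
          exact hrepr _ (hval _) i
        rw [← LinearMap.det_toMatrix b, ← LinearMap.det_toMatrix b, Matrix.det_fin_two,
          Matrix.det_fin_two]
        set x := LinearMap.toMatrix b b (H.ρ.ρ τ)
        set z := LinearMap.toMatrix b b (H.ρ.ρ (φ ^ j))
        have : x 0 0 * x 1 1 - x 0 1 * x 1 0 - (z 0 0 * z 1 1 - z 0 1 * z 1 0) =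
            x 1 1 * (x 0 0 - z 0 0) + z 0 0 * (x 1 1 - z 1 1) -
            (x 1 0 * (x 0 1 - z 0 1) + z 0 1 * (x 1 0 - z 1 0)) := by ring
        rw [this]
        exact Ideal.sub_mem _
          (Ideal.add_mem _ (Ideal.mul_mem_left _ _ (hent 0 0)) (Ideal.mul_mem_left _ _ (hent 1 1)))
          (Ideal.add_mem _ (Ideal.mul_mem_left _ _ (hent 0 1)) (Ideal.mul_mem_left _ _ (hent 1 0)))
      rw [d1] at d2
      have := Ideal.add_mem _ d2 hmodT
      rwa [sub_add_sub_cancel] at this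
  have htr : LinearMap.trace T H.ρ.V (H.ρ.ρ τ) = 2 := by
    rw [← sub_eq_zero]
    apply IsHausdorff.haus (I := M) inferInstance
    intro n
    rw [SModEq.zero, smul_eq_mul, Ideal.mul_top]
    exact (key n).1
  have hdet : LinearMap.det (H.ρ.ρ τ) = 1 := by
    rw [← sub_eq_zero]
    apply IsHausdorff.haus (I := M) inferInstance
    intro n
    rw [SModEq.zero, smul_eq_mul, Ideal.mul_top]
    exact (key n).2
  rw [charpoly_eq_of_finrank_eq_two H.ρ.finrank_eq, htr, hdet, map_one, map_ofNat]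
  ring

end

/-- `S34` from the properties of `JZero N`. -/
theorem S34_of_JZero
    {p N : ℕ} [NeZero N] {S : Finset ℕ}
    {𝒪 : Type} [CommRing 𝒪] [IsDomain 𝒪] [IsDiscreteValuationRing 𝒪]
    [IsAdicComplete (IsLocalRing.maximalIdeal 𝒪) 𝒪]
    {θ : CuspForm.heckeAlgebra N 2 (↑S : Set ℕ) →+* IsLocalRing.ResidueField 𝒪}
    {T : Type} [CommRing T] [IsLocalRing T] [IsNoetherianRing T]
    [IsAdicComplete (IsLocalRing.maximalIdeal T) T] [Algebra 𝒪 T] [IsLocalHom (algebraMap 𝒪 T)]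
    [Module.Finite 𝒪 T] [Module.Free 𝒪 T]
    (hp : p.Prime)
    (hp𝒪 : (p : 𝒪) ∈ IsLocalRing.maximalIdeal 𝒪) (hpS : p ∈ S)
    (hNS : ∀ q : ℕ, q.Prime → q ∣ N → q ∈ S)
    (H : CuspForm.HeckeGaloisRepDatum N (↑S : Set ℕ) 𝒪 θ T)
    (q : ℕ) (hq : q.Prime) (hqp : q ≠ p)
    [hPD : AlgebraicCurve.HasPrincipalDivisors (AlgebraicClosure ℚ) (modularFunctionFieldBar N)]
    (hfin : ∀ n : ℕ, {x : JZero N | p ^ n • x = 0}.Finite)
    (hcommG : letI := heckeModuleBar N; SMulCommClass GQ HeckeAlg (JZero N))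
    (hFQ : letI := heckeModuleBar N; haveI := hcommG;
      FrobeniusQuadratic (K := ℚ) (L := AlgebraicClosure ℚ) N p (JZero N))
    (hfaith : letI := heckeModuleBar N; HeckeFaithful N (↑S : Set ℕ) p (JZero N))
    (hI : InertiaSquareZero p q (JZero N)) :
    H.ρ.IsUnipotentOnInertiaAt q := by
  letI := heckeModuleBar N
  haveI := hcommG
  exact isUnipotentOnInertiaAt_of_module hp hp𝒪 hpS hNS H q hq hqp hI hFQ
    (finiteLevel_JZero N p hfin) hfaith

end Fermat.Agent.H34
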