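import Mathlib

/-!
# Cut-off integrals over quotients: independence, and symmetry of invariant kernels (helper34, S47 T2d)

`G` countable, acting on `X` preserving a measure.  A cut-off is a function `χ ≥ 0` with
`∑ g, χ (g • x) = 1` for all `x`; `∫ χ f` plays the role of `∫_{G \ X} f`.
-/

set_option autoImplicit false
set_option linter.unusedSectionVars false

open MeasureTheory
open scoped ENNReal

noncomputable section

namespace Fermat.Agent.H34T

/-- `χ : X → ℝ` is a cut-off function for the action of `G`. -/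
structure IsCut (G : Type*) {X : Type*} [SMul G X] [MeasurableSpace X] (χ : X → ℝ) : Prop where
  meas : Measurable χ
  nonneg : ∀ x, 0 ≤ χ x
  hasSum : ∀ x, HasSum (fun g : G => χ (g • x)) 1

variable {G X : Type*} [Group G] [Countable G] [MeasurableSpace X] [MulAction G X]
  [MeasurableConstSMul G X] {μ : Measure X} [SMulInvariantMeasure G X μ]
  {E : Type*} [NormedAddCommGroup E] [NormedSpace ℝ E]

theorem IsCut.tsum_ofReal {χ : X → ℝ} (h : IsCut G χ) (x : X) :
    ∑' g : G, ENNReal.ofReal (χ (g • x)) = 1 := by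
  rw [← ENNReal.ofReal_tsum_of_nonneg (fun g => h.nonneg _) (h.hasSum x).summable,
    (h.hasSum x).tsum_eq, ENNReal.ofReal_one]

theorem IsCut.tsum_ofReal_inv {χ : X → ℝ} (h : IsCut G χ) (x : X) :
    ∑' g : G, ENNReal.ofReal (χ (g⁻¹ • x)) = 1 := by
  rw [← h.tsum_ofReal x]
  exact (Equiv.inv G).tsum_eq (fun g => ENNReal.ofReal (χ (g • x)))

theorem IsCut.hasSum_inv {χ : X → ℝ} (h : IsCut G χ) (x : X) :
    HasSum (fun g : G => χ (g⁻¹ • x)) 1 :=
  (Equiv.inv G).hasSum_iff.mpr (h.hasSum x)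

theorem lintegral_smul' (g : G) (F : X → ℝ≥0∞) :
    ∫⁻ x, F (g • x) ∂μ = ∫⁻ x, F x ∂μ :=
  (measurePreserving_smul g μ).lintegral_comp_emb (measurableEmbedding_const_smul g) F

/-- Two cut-offs give the same integrals of nonnegative invariant functions. -/
theorem lintegral_cut_eq {χ χ' : X → ℝ} (h : IsCut G χ) (h' : IsCut G χ') {f : X → ℝ≥0∞}
    (hf : AEMeasurable f μ) (hinv : ∀ (g : G) x, f (g • x) = f x) :
    ∫⁻ x, ENNReal.ofReal (χ x) * f x ∂μ = ∫⁻ x, ENNReal.ofReal (χ' x) * f x ∂μ := by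
  have hm : ∀ g : G, Measurable fun x => ENNReal.ofReal (χ' (g • x)) := fun g =>
    ENNReal.measurable_ofReal.comp (h'.meas.comp (measurable_const_smul g))
  have hm' : ∀ g : G, Measurable fun x => ENNReal.ofReal (χ (g⁻¹ • x)) := fun g =>
    ENNReal.measurable_ofReal.comp (h.meas.comp (measurable_const_smul _))
  have hχ : Measurable fun x => ENNReal.ofReal (χ x) := ENNReal.measurable_ofReal.comp h.meas
  have hχ' : Measurable fun x => ENNReal.ofReal (χ' x) := ENNReal.measurable_ofReal.comp h'.meas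
  calc ∫⁻ x, ENNReal.ofReal (χ x) * f x ∂μ
      = ∫⁻ x, ∑' g : G, ENNReal.ofReal (χ' (g • x)) * (ENNReal.ofReal (χ x) * f x) ∂μ := by
        refine lintegral_congr fun x => ?_
        rw [ENNReal.tsum_mul_right, h'.tsum_ofReal, one_mul]
    _ = ∑' g : G, ∫⁻ x, ENNReal.ofReal (χ' (g • x)) * (ENNReal.ofReal (χ x) * f x) ∂μ := by
        refine lintegral_tsum fun g => ?_
        exact (hm g).aemeasurable.mul (hχ.aemeasurable.mul hf)
    _ = ∑' g : G, ∫⁻ x, ENNReal.ofReal (χ' x) * (ENNReal.ofReal (χ (g⁻¹ • x)) * f x) ∂μ := by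
        refine tsum_congr fun g => ?_
        rw [← lintegral_smul' (μ := μ) g (fun x => ENNReal.ofReal (χ' x) *
          (ENNReal.ofReal (χ (g⁻¹ • x)) * f x))]
        refine lintegral_congr fun x => ?_
        rw [inv_smul_smul, hinv]
    _ = ∫⁻ x, ∑' g : G, ENNReal.ofReal (χ' x) * (ENNReal.ofReal (χ (g⁻¹ • x)) * f x) ∂μ := by
        refine (lintegral_tsum fun g => ?_).symm
        exact hχ'.aemeasurable.mul ((hm' g).aemeasurable.mul hf)
    _ = ∫⁻ x, ENNReal.ofReal (χ' x) * f x ∂μ := by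
        refine lintegral_congr fun x => ?_
        rw [ENNReal.tsum_mul_left, ENNReal.tsum_mul_right, h.tsum_ofReal_inv, one_mul]

theorem enorm_smul_cut {χ : X → ℝ} (h : IsCut G χ) (f : X → E) (x : X) :
    ‖χ x • f x‖ₑ = ENNReal.ofReal (χ x) * ‖f x‖ₑ := by
  rw [enorm_smul, Real.enorm_of_nonneg (h.nonneg x)]

/-- Integrability does not depend on the cut-off. -/
theorem integrable_cut_iff {χ χ' : X → ℝ} (h : IsCut G χ) (h' : IsCut G χ') {f : X → E}
    (hf : AEStronglyMeasurable f μ) (hinv : ∀ (g : G) x, f (g • x) = f x) :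
    Integrable (fun x => χ x • f x) μ ↔ Integrable (fun x => χ' x • f x) μ := by
  have key : ∀ {χ₁ χ₂ : X → ℝ}, IsCut G χ₁ → IsCut G χ₂ → Integrable (fun x => χ₁ x • f x) μ →
      Integrable (fun x => χ₂ x • f x) μ := by
    intro χ₁ χ₂ h₁ h₂ hi
    refine ⟨h₂.meas.aestronglyMeasurable.smul hf, ?_⟩
    rw [hasFiniteIntegral_iff_enorm]
    have := hi.2
    rw [hasFiniteIntegral_iff_enorm] at this
    simp only [enorm_smul_cut h₁] at this
    simp only [enorm_smul_cut h₂]
    rwa [lintegral_cut_eq h₂ h₁ hf.enorm fun g x => by rw [hinv]]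
  exact ⟨key h h', key h' h⟩

/-- **Independence of the cut-off.** -/
theorem integral_cut_eq {χ χ' : X → ℝ} (h : IsCut G χ) (h' : IsCut G χ') {f : X → E}
    (hf : AEStronglyMeasurable f μ) (hinv : ∀ (g : G) x, f (g • x) = f x)
    (hi : Integrable (fun x => χ x • f x) μ) :
    ∫ x, χ x • f x ∂μ = ∫ x, χ' x • f x ∂μ := by
  have hfin : ∫⁻ x, ENNReal.ofReal (χ x) * ‖f x‖ₑ ∂μ ≠ ⊤ := by
    have := hi.2
    rw [hasFiniteIntegral_iff_enorm] at this
    simpa only [enorm_smul_cut h] using this.ne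
  have hm : ∀ g : G, Measurable fun x => χ' (g • x) := fun g =>
    h'.meas.comp (measurable_const_smul g)
  have hm' : ∀ g : G, Measurable fun x => χ (g⁻¹ • x) := fun g =>
    h.meas.comp (measurable_const_smul _)
  have hA : ∀ g : G, AEStronglyMeasurable (fun x => χ' (g • x) • χ x • f x) μ := fun g =>
    (hm g).aestronglyMeasurable.smul (h.meas.aestronglyMeasurable.smul hf)
  have hB : ∀ g : G, AEStronglyMeasurable (fun x => χ' x • χ (g⁻¹ • x) • f x) μ := fun g =>
    h'.meas.aestronglyMeasurable.smul ((hm' g).aestronglyMeasurable.smul hf)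
  have hsA : ∑' g : G, ∫⁻ x, ‖χ' (g • x) • χ x • f x‖ₑ ∂μ ≠ ⊤ := by
    rw [← lintegral_tsum fun g => (hA g).enorm]
    refine ne_of_eq_of_ne (lintegral_congr fun x => ?_) hfin
    simp only [enorm_smul, Real.enorm_of_nonneg (h.nonneg x), Real.enorm_of_nonneg (h'.nonneg _)]
    rw [ENNReal.tsum_mul_right, h'.tsum_ofReal, one_mul]
  have hAB : ∀ g : G, ∫ x, χ' (g • x) • χ x • f x ∂μ = ∫ x, χ' x • χ (g⁻¹ • x) • f x ∂μ := by
    intro g
    rw [← integral_smul_eq_self (μ := μ) (g := g) (fun x => χ' x • χ (g⁻¹ • x) • f x)]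
    refine integral_congr_ae (Filter.Eventually.of_forall fun x => ?_)
    simp only [inv_smul_smul, hinv]
  have hsB : ∑' g : G, ∫⁻ x, ‖χ' x • χ (g⁻¹ • x) • f x‖ₑ ∂μ ≠ ⊤ := by
    refine ne_of_eq_of_ne (tsum_congr fun g => ?_) hsA
    rw [← lintegral_smul' (μ := μ) g (fun x => ‖χ' x • χ (g⁻¹ • x) • f x‖ₑ)]
    refine lintegral_congr fun x => ?_
    rw [inv_smul_smul, hinv]
  calc ∫ x, χ x • f x ∂μ = ∫ x, ∑' g : G, χ' (g • x) • χ x • f x ∂μ := by
        refine integral_congr_ae (Filter.Eventually.of_forall fun x => ?_)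
        have := ((h'.hasSum x).smul_const (χ x • f x)).tsum_eq
        simpa using this.symm
    _ = ∑' g : G, ∫ x, χ' (g • x) • χ x • f x ∂μ := integral_tsum hA hsA
    _ = ∑' g : G, ∫ x, χ' x • χ (g⁻¹ • x) • f x ∂μ := tsum_congr hAB
    _ = ∫ x, ∑' g : G, χ' x • χ (g⁻¹ • x) • f x ∂μ := (integral_tsum hB hsB).symm
    _ = ∫ x, χ' x • f x ∂μ := by
        refine integral_congr_ae (Filter.Eventually.of_forall fun x => ?_)
        have h1 := (((h.hasSum_inv x).smul_const (f x)).const_smul (χ' x)).tsum_eq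
        simpa using h1

end Fermat.Agent.H34T
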