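import Fermat.Agent.H23TI
import Fermat.Agent.H34T5

/-!
# Decay of the theta integrals: the part `q ≠ 0` and the part `x = 0` (helper34, S47 T2e)

`M = count × ν` on `Lat × H3` (`ν` finite), `A = φ F`, `q = qn n`, `m = mn n` (helper23's shape).

* `aniso` : the part `qL x ≠ 0` of `∫ A Φ(q, m, τ)` is `O(√v e^{-c v})` for `v ≥ 1/2`;
* `zero_part` : the part `x = 0` is `φ 0 Φ(0, 0, τ) ∫ F dν`;
* `decay_of_iso` : if `∫ F dν = 0` and the part `x ≠ 0, qL x = 0` vanishes, then `gT`, `xiT` are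
  `O(√v e^{-c v})` for `v ≥ 1/2`.
-/

set_option autoImplicit false

noncomputable section

open Complex MeasureTheory Set
open scoped ComplexConjugate Real ENNReal

namespace Fermat.Agent.H34T

open Fermat.Agent.S47T Fermat.Agent.H8T Fermat.Agent.H47.Red Fermat.Agent.H23T

/-- the isotropic nonzero indices -/
def isoS : Set (S47T.Lat × H3) := {p | p.1 ≠ 0 ∧ qL p.1 = 0}

/-- the anisotropic indices -/
def anisoS : Set (S47T.Lat × H3) := {p | qL p.1 ≠ 0}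

/-- the index zero -/
def zeroS : Set (S47T.Lat × H3) := {p | p.1 = 0}

theorem measurableSet_fst {P : S47T.Lat → Prop} : MeasurableSet {p : S47T.Lat × H3 | P p.1} :=
  measurable_fst (show MeasurableSet {x | P x} from MeasurableSet.of_discrete)

theorem measurableSet_isoS : MeasurableSet isoS :=
  measurableSet_fst (P := fun x => x ≠ 0 ∧ qL x = 0)

theorem measurableSet_anisoS : MeasurableSet anisoS := measurableSet_fst (P := fun x => qL x ≠ 0)

theorem measurableSet_zeroS : MeasurableSet zeroS := measurableSet_fst (P := fun x => x = 0)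

theorem qL_zero : qL 0 = 0 := by
  simp [qL, hQ]

theorem pL_zero (w : H3) : pL 0 w = 0 := by
  simp [pL, pair]

/-- the bound used for the decay -/
def Dec (Φ : ℝ → ℝ → ℂ → ℂ) : Prop := ∃ K : ℝ, 0 ≤ K ∧ ∀ (q m : ℝ) (τ : ℂ), |q| ≤ m →
  1 / 2 ≤ τ.im → ‖Φ q m τ‖ ≤ K * (√τ.im * Real.exp (-(π * τ.im * m)))

theorem dec_th : Dec H98T.th := by
  refine ⟨1, zero_le_one, fun q m τ hq hv => ?_⟩
  have hm : 0 ≤ m := (abs_nonneg q).trans hq
  have hpi := Real.pi_pos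
  rw [H98T.norm_th, one_mul]
  refine mul_le_mul_of_nonneg_left ?_ (Real.sqrt_nonneg _)
  rw [Real.exp_le_exp]
  nlinarith [mul_nonneg (mul_nonneg hpi.le (by linarith : (0 : ℝ) ≤ τ.im)) hm]

theorem dec_xt : Dec H98T.xt := by
  refine ⟨3, by norm_num, fun q m τ hq hv => ?_⟩
  have hm : 0 ≤ m := (abs_nonneg q).trans hq
  have hpi := Real.pi_pos
  have hv0 : (0 : ℝ) ≤ τ.im := by linarith
  have ht : 0 ≤ π * τ.im * m := by positivity
  rw [H98T.xt, norm_mul, norm_mul, H98T.norm_th]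
  have h1 : ‖(I / 2 : ℂ)‖ = 1 / 2 := by simp
  have h2 : ‖(1 / 2 - 2 * π * τ.im * (m - q) : ℂ)‖ ≤ 1 / 2 + 4 * (π * τ.im * m) := by
    have h3 : (1 / 2 - 2 * π * τ.im * (m - q) : ℂ) =
        ((1 / 2 - 2 * π * τ.im * (m - q) : ℝ) : ℂ) := by push_cast; ring
    rw [h3, Complex.norm_real, Real.norm_eq_abs]
    have h4 := abs_le.mp hq
    have h5 : 0 ≤ π * τ.im := by positivity
    rw [abs_le]
    constructor <;> nlinarith [mul_nonneg h5 (by linarith [h4.1, h4.2] : (0 : ℝ) ≤ m + q),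
      mul_nonneg h5 (by linarith [h4.1, h4.2] : (0 : ℝ) ≤ m - q)]
  have h3 : (1 / 2 + 4 * (π * τ.im * m)) * Real.exp (-(2 * π * τ.im * m)) ≤
      5 * Real.exp (-(π * τ.im * m)) := by
    have h4 : Real.exp (-(2 * π * τ.im * m)) = Real.exp (-(π * τ.im * m)) *
        Real.exp (-(π * τ.im * m)) := by
      rw [← Real.exp_add]; congr 1; ring
    have h5 : (π * τ.im * m) * Real.exp (-(π * τ.im * m)) ≤ 1 := by
      have h6 := Real.add_one_le_exp (π * τ.im * m)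
      have h7 := Real.exp_pos (-(π * τ.im * m))
      calc (π * τ.im * m) * Real.exp (-(π * τ.im * m)) ≤
            Real.exp (π * τ.im * m) * Real.exp (-(π * τ.im * m)) := by
            exact mul_le_mul_of_nonneg_right (by linarith) h7.le
        _ = 1 := by rw [← Real.exp_add, add_neg_cancel, Real.exp_zero]
    have h6 : Real.exp (-(π * τ.im * m)) ≤ 1 := Real.exp_le_one_iff.mpr (by linarith)
    have h7 := Real.exp_pos (-(π * τ.im * m))
    rw [h4, ← mul_assoc]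
    refine mul_le_mul_of_nonneg_right ?_ h7.le
    nlinarith
  rw [h1]
  have h4 := Real.sqrt_nonneg τ.im
  have h5 := Real.exp_pos (-(2 * π * τ.im * m))
  have h6 := Real.exp_pos (-(π * τ.im * m))
  calc 1 / 2 * ‖(1 / 2 - 2 * π * τ.im * (m - q) : ℂ)‖ *
        (√τ.im * Real.exp (-(2 * π * τ.im * m)))
      ≤ 1 / 2 * (1 / 2 + 4 * (π * τ.im * m)) * (√τ.im * Real.exp (-(2 * π * τ.im * m))) := by
        refine mul_le_mul_of_nonneg_right ?_ (by positivity)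
        linarith
    _ = 1 / 2 * √τ.im * ((1 / 2 + 4 * (π * τ.im * m)) * Real.exp (-(2 * π * τ.im * m))) := by ring
    _ ≤ 1 / 2 * √τ.im * (5 * Real.exp (-(π * τ.im * m))) :=
        mul_le_mul_of_nonneg_left h3 (by positivity)
    _ ≤ 3 * (√τ.im * Real.exp (-(π * τ.im * m))) := by
        nlinarith [mul_nonneg h4 h6.le]

/-- the values of `qL` are in `(1/3) ℤ` -/
theorem qL_ge {x : S47T.Lat} (h : qL x ≠ 0) : 1 / 3 ≤ |qL x| := by
  obtain ⟨a, b, d⟩ := x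
  obtain ⟨⟨k, l⟩, rfl⟩ := eisEquiv.surjective b
  have h1 : qL (a, eisEquiv (k, l), d) = ((k ^ 2 - k * l + l ^ 2 - 3 * (a * d) : ℤ) : ℝ) / 3 := by
    rw [qL, hQ, Complex.normSq_div, coe_eisEquiv, normSq_eis]
    have h2 : Complex.normSq sq3 = 3 := by
      rw [sq3, map_mul, Complex.normSq_I, Complex.normSq_ofReal, Real.mul_self_sqrt (by norm_num)]
      norm_num
    rw [h2]
    push_cast
    ring
  rw [h1] at h ⊢
  have h3 : (k ^ 2 - k * l + l ^ 2 - 3 * (a * d) : ℤ) ≠ 0 := by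
    intro h0
    rw [h0] at h
    simp at h
  have h4 : (1 : ℝ) ≤ |((k ^ 2 - k * l + l ^ 2 - 3 * (a * d) : ℤ) : ℝ)| := by
    rw [← Int.cast_abs]
    exact_mod_cast Int.one_le_abs h3
  rw [abs_div, abs_of_pos (by norm_num : (0 : ℝ) < 3)]
  linarith

section Bound

variable {F : H3 → ℂ} {ν : Measure H3} {n : ℕ} {φ : S47T.Lat → ℂ}

theorem aniso_pt {C c : ℝ} (hc : 0 < c) (hC : 0 ≤ C)
    (hF : ∀ w, ‖F w‖ ≤ C * Real.exp (-(c * ht Eis w))) (hn : 0 < n) {Cφ : ℝ}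
    (hφ : ∀ x, ‖φ x‖ ≤ Cφ) {Φ : ℝ → ℝ → ℂ → ℂ} (hΦ : Dec Φ) :
    ∃ B c' : ℝ, 0 ≤ B ∧ 0 < c' ∧ ∀ τ : ℂ, 1 / 2 ≤ τ.im → ∀ w : H3,
      ∑' x : S47T.Lat, ‖(if qL x ≠ 0 then φ x * F w * Φ (qn n x) (mn n x w) τ else 0 : ℂ)‖ₑ ≤
        ENNReal.ofReal (B * (√τ.im * Real.exp (-(c' * τ.im)))) := by
  obtain ⟨K, hK, hb⟩ := hΦ
  have hn' : (0 : ℝ) < n := by exact_mod_cast hn
  have hpi := Real.pi_pos
  have hε : 0 < π / 4 / (n : ℝ) ^ 2 := by positivity
  obtain ⟨C₁, hC₁, h₁⟩ := maj_ht eucOrder_Eis 0 hε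
  obtain ⟨C₂, hC₂, h₂⟩ := ht_pow_mul_exp_le eucOrder_Eis 8 hc
  have hCφ : 0 ≤ Cφ := (norm_nonneg _).trans (hφ 0)
  refine ⟨Cφ * K * C * C₁ * C₂, π / 2 * (1 / (3 * (n : ℝ) ^ 2)), by positivity, by positivity,
    fun τ hτ w => ?_⟩
  have hv0 : 0 ≤ τ.im := by linarith
  have hs := summable_QW 0 hε w
  simp only [pow_zero, one_mul] at hs h₁
  set D : ℝ := √τ.im * Real.exp (-(π / 2 * (1 / (3 * (n : ℝ) ^ 2)) * τ.im)) with hD
  have hD0 : 0 ≤ D := by positivity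
  have h2 : ∀ x, ‖(if qL x ≠ 0 then φ x * F w * Φ (qn n x) (mn n x w) τ else 0 : ℂ)‖ₑ ≤
      ENNReal.ofReal (Cφ * ‖F w‖ * (K * D) * Real.exp (-(π / 4 / (n : ℝ) ^ 2 * QW x w))) := by
    intro x
    split_ifs with hx
    · rw [← ofReal_norm]
      refine ENNReal.ofReal_le_ofReal ?_
      rw [norm_mul, norm_mul, mul_assoc (Cφ * ‖F w‖)]
      refine mul_le_mul (mul_le_mul_of_nonneg_right (hφ x) (norm_nonneg _)) ?_ (norm_nonneg _)
        (by positivity)
      refine (hb _ _ _ (abs_qn_le n x w) hτ).trans ?_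
      rw [mul_assoc K]
      refine mul_le_mul_of_nonneg_left ?_ hK
      rw [hD, mul_assoc (√τ.im)]
      refine mul_le_mul_of_nonneg_left ?_ (Real.sqrt_nonneg _)
      rw [← Real.exp_add, Real.exp_le_exp]
      have h3 : 1 / (3 * (n : ℝ) ^ 2) ≤ mn n x w := by
        refine le_trans ?_ (abs_qn_le n x w)
        rw [qn, abs_div, abs_of_nonneg (by positivity : (0 : ℝ) ≤ (n : ℝ) ^ 2)]
        have := qL_ge hx
        rw [div_le_div_iff₀ (by positivity) (by positivity)]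
        nlinarith [pow_pos hn' 2]
      have h4 : π / 4 / (n : ℝ) ^ 2 * QW x w = π / 4 * mn n x w := by
        rw [mn_eq]; ring
      rw [h4]
      have h5 := mn_nonneg n x w
      have h6 : π / 2 * τ.im * (1 / (3 * (n : ℝ) ^ 2)) ≤ π / 2 * τ.im * mn n x w :=
        mul_le_mul_of_nonneg_left h3 (by positivity)
      have h7 : π / 4 * mn n x w ≤ π / 2 * τ.im * mn n x w :=
        mul_le_mul_of_nonneg_right (by nlinarith) h5
      nlinarith
    · rw [enorm_zero]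
      exact bot_le
  refine (ENNReal.tsum_le_tsum h2).trans ?_
  rw [← ENNReal.ofReal_tsum_of_nonneg (fun x => by positivity) (hs.mul_left _), tsum_mul_left]
  refine ENNReal.ofReal_le_ofReal ?_
  have h4 : ‖F w‖ * ∑' x : S47T.Lat, Real.exp (-(π / 4 / (n : ℝ) ^ 2 * QW x w)) ≤
      C * C₁ * C₂ := by
    have hht := eucOrder_Eis.ht_pos w
    calc ‖F w‖ * ∑' x : S47T.Lat, Real.exp (-(π / 4 / (n : ℝ) ^ 2 * QW x w))
        ≤ (C * Real.exp (-(c * ht Eis w))) * (C₁ * ht Eis w ^ 8) :=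
          mul_le_mul (hF w) (h₁ w) (tsum_nonneg fun _ => (Real.exp_pos _).le) (by positivity)
      _ = C * C₁ * (ht Eis w ^ 8 * Real.exp (-(c * ht Eis w))) := by ring
      _ ≤ C * C₁ * C₂ := mul_le_mul_of_nonneg_left (h₂ w) (by positivity)
  calc Cφ * ‖F w‖ * (K * D) * ∑' x : S47T.Lat, Real.exp (-(π / 4 / (n : ℝ) ^ 2 * QW x w))
      = Cφ * K * D * (‖F w‖ * ∑' x : S47T.Lat, Real.exp (-(π / 4 / (n : ℝ) ^ 2 * QW x w))) := by
        ring
    _ ≤ Cφ * K * D * (C * C₁ * C₂) := mul_le_mul_of_nonneg_left h4 (by positivity)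
    _ = Cφ * K * C * C₁ * C₂ * D := by ring

end Bound

section Parts

variable {Γ : Subgroup (GL (Fin 2) ℂ)} {χ : H3 → ℝ} {F : H3 → ℂ} {n : ℕ} {φ : S47T.Lat → ℂ}

/-- **The anisotropic part decays.** -/
theorem aniso (h : TData Γ χ F n φ) {Φ : ℝ → ℝ → ℂ → ℂ} (hA : H98T.Adm Φ) (hΦ : Dec Φ) :
    ∃ B c' : ℝ, 0 ≤ B ∧ 0 < c' ∧ ∀ τ : ℂ, 1 / 2 ≤ τ.im →
      ‖∫ y in anisoS, AF φ F y * Φ (qn n y.1) (mn n y.1 y.2) τ ∂(MC χ)‖ ≤
        B * (√τ.im * Real.exp (-(c' * τ.im))) := by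
  obtain ⟨C, c, hC, hc, hF⟩ := h.decay
  obtain ⟨Cφ, hφ⟩ := h.bdd
  obtain ⟨B, c', hB, hc', hb⟩ := aniso_pt hc hC.le hF h.npos hφ hΦ
  refine ⟨B * (nuC χ univ).toReal, c', by positivity, hc', fun τ hτ => ?_⟩
  have hτ0 : 0 < τ.im := by linarith
  have hint := h.dat.integrable hA hτ0
  set G : S47T.Lat × H3 → ℂ := anisoS.indicator
    (fun y => AF φ F y * Φ (qn n y.1) (mn n y.1 y.2) τ) with hG
  have hGm : AEStronglyMeasurable G (MC χ) := hint.aestronglyMeasurable.indicator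
    measurableSet_anisoS
  rw [← integral_indicator measurableSet_anisoS]
  have h1 : ∫⁻ y, ‖G y‖ₑ ∂(MC χ) ≤
      ENNReal.ofReal (B * (√τ.im * Real.exp (-(c' * τ.im)))) * nuC χ univ := by
    rw [MC, lintegral_prod_symm _ hGm.enorm, ← lintegral_const]
    refine lintegral_mono fun w => ?_
    rw [lintegral_count]
    refine le_trans (le_of_eq (tsum_congr fun x => ?_)) (hb τ hτ w)
    simp only [hG, indicator, anisoS, mem_ofPred_eq, AF]
  have hD : 0 ≤ B * (√τ.im * Real.exp (-(c' * τ.im))) := by positivity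
  have h2 : ‖∫ y, G y ∂(MC χ)‖ₑ ≤
      ENNReal.ofReal (B * (nuC χ univ).toReal * (√τ.im * Real.exp (-(c' * τ.im)))) := by
    refine (enorm_integral_le_lintegral_enorm _).trans (h1.trans (le_of_eq ?_))
    rw [show B * (nuC χ univ).toReal * (√τ.im * Real.exp (-(c' * τ.im))) =
      B * (√τ.im * Real.exp (-(c' * τ.im))) * (nuC χ univ).toReal by ring,
      ENNReal.ofReal_mul hD, ENNReal.ofReal_toReal h.nu_lt_top.ne]
  rw [← ofReal_norm] at h2
  exact (ENNReal.ofReal_le_ofReal_iff (by positivity)).mp h2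

theorem qn_zero (n : ℕ) : qn n 0 = 0 := by rw [qn, qL_zero, zero_div]

theorem mn_zero (n : ℕ) (w : H3) : mn n 0 w = 0 := by
  rw [mn, qL_zero, pL_zero]
  simp

/-- **The part `x = 0` vanishes.** -/
theorem zero_part [Countable Γ] (h : TData Γ χ F n φ) {Φ : ℝ → ℝ → ℂ → ℂ} (hA : H98T.Adm Φ)
    {τ : ℂ} (hτ : 0 < τ.im) :
    ∫ y in zeroS, AF φ F y * Φ (qn n y.1) (mn n y.1 y.2) τ ∂(MC χ) = 0 := by
  have hint := h.dat.integrable hA hτ
  rw [← integral_indicator measurableSet_zeroS]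
  have hint' := hint.indicator measurableSet_zeroS
  rw [MC] at hint' ⊢
  rw [integral_prod_symm _ hint']
  have h1 : ∀ w : H3, ∫ x : S47T.Lat, zeroS.indicator
      (fun y => AF φ F y * Φ (qn n y.1) (mn n y.1 y.2) τ) (x, w) ∂(Measure.count) =
      φ 0 * Φ 0 0 τ * F w := by
    intro w
    rw [integral_count_eq, tsum_eq_single 0]
    · rw [indicator_of_mem (show ((0 : S47T.Lat), w) ∈ zeroS from rfl), qn_zero, mn_zero, AF]
      ring
    · intro x hx
      exact indicator_of_notMem (show (x, w) ∉ zeroS from hx) _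
  simp only [h1]
  have h2 := qint_eq_zero_of_eig h.cut h.cont.aestronglyMeasurable h.inv h.eig
  rw [integral_const_mul, integral_nuC h.cut.meas h.cut.nonneg]
  rw [S47T.qint] at h2
  rw [h2, mul_zero]

theorem split_parts (h : TData Γ χ F n φ) {Φ : ℝ → ℝ → ℂ → ℂ} (hA : H98T.Adm Φ)
    {τ : ℂ} (hτ : 0 < τ.im) :
    ∫ y, AF φ F y * Φ (qn n y.1) (mn n y.1 y.2) τ ∂(MC χ) =
      ∫ y in anisoS, AF φ F y * Φ (qn n y.1) (mn n y.1 y.2) τ ∂(MC χ) +
      (∫ y in isoS, AF φ F y * Φ (qn n y.1) (mn n y.1 y.2) τ ∂(MC χ) +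
        ∫ y in zeroS, AF φ F y * Φ (qn n y.1) (mn n y.1 y.2) τ ∂(MC χ)) := by
  have hint := h.dat.integrable hA hτ
  have hc : anisoSᶜ = isoS ∪ zeroS := by
    ext ⟨x, w⟩
    simp only [anisoS, isoS, zeroS, mem_compl_iff, mem_ofPred_eq, mem_union, not_not]
    constructor
    · intro h0
      by_cases hx : x = 0
      · exact Or.inr hx
      · exact Or.inl ⟨hx, h0⟩
    · rintro (⟨_, h0⟩ | h0)
      · exact h0
      · rw [h0, qL_zero]
  have hd : Disjoint isoS zeroS := by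
    rw [Set.disjoint_left]
    intro p h1 h2
    exact h1.1 h2
  rw [← integral_add_compl measurableSet_anisoS hint, hc,
    setIntegral_union hd measurableSet_zeroS hint.integrableOn hint.integrableOn]

/-- **Decay of the lift** (T2e), given the vanishing of the isotropic part. -/
theorem decay_of_iso [Countable Γ] (h : TData Γ χ F n φ)
    (h1 : ∀ τ : ℂ, 0 < τ.im →
      ∫ y in isoS, AF φ F y * H98T.th (qn n y.1) (mn n y.1 y.2) τ ∂(MC χ) = 0)
    (h2 : ∀ τ : ℂ, 0 < τ.im →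
      ∫ y in isoS, AF φ F y * H98T.xt (qn n y.1) (mn n y.1 y.2) τ ∂(MC χ) = 0) :
    ∃ C c : ℝ, 0 < c ∧ ∀ τ : ℂ, 1 / 2 ≤ τ.im →
      ‖H98T.gT (MC χ) (AF φ F) (fun y => qn n y.1) (fun y => mn n y.1 y.2) τ‖ ≤
        C * (√τ.im * Real.exp (-(c * τ.im))) ∧
      ‖H98T.xiT (MC χ) (AF φ F) (fun y => qn n y.1) (fun y => mn n y.1 y.2) τ‖ ≤
        C * (√τ.im * Real.exp (-(c * τ.im))) := by
  obtain ⟨B₁, c₁, hB₁, hc₁, hb₁⟩ := aniso h H98T.adm_th dec_th
  obtain ⟨B₂, c₂, hB₂, hc₂, hb₂⟩ := aniso h H98T.adm_xt dec_xt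
  refine ⟨max B₁ B₂, min c₁ c₂, lt_min hc₁ hc₂, fun τ hτ => ?_⟩
  have hτ0 : 0 < τ.im := by linarith
  constructor
  · rw [H98T.gT, split_parts h H98T.adm_th hτ0, h1 τ hτ0, zero_part h H98T.adm_th hτ0, add_zero,
      add_zero]
    refine (hb₁ τ hτ).trans (mul_le_mul (le_max_left _ _) (mul_le_mul_of_nonneg_left ?_
      (Real.sqrt_nonneg _)) (by positivity) (le_max_of_le_left hB₁))
    rw [Real.exp_le_exp, neg_le_neg_iff]
    exact mul_le_mul_of_nonneg_right (min_le_left _ _) hτ0.le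
  · rw [H98T.xiT, split_parts h H98T.adm_xt hτ0, h2 τ hτ0, zero_part h H98T.adm_xt hτ0, add_zero,
      add_zero]
    refine (hb₂ τ hτ).trans (mul_le_mul (le_max_right _ _) (mul_le_mul_of_nonneg_left ?_
      (Real.sqrt_nonneg _)) (by positivity) (le_max_of_le_right hB₂))
    rw [Real.exp_le_exp, neg_le_neg_iff]
    exact mul_le_mul_of_nonneg_right (min_le_right _ _) hτ0.le

end Parts

end Fermat.Agent.H34T
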