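import Mathlib
import Fermat.Agent.H60Norm

/-!
# Trace formula for `F_{Nℓ} / F_N` in terms of `q`-expansions (helper34)
-/

set_option autoImplicit false

noncomputable section

open AlgebraicCurve ModularCurve IntermediateField HahnSeries Fermat.Agent.H60

namespace Fermat.Agent.H34.Two

/-- The trace as a sum over a family of distinct embeddings of the right cardinality. -/
theorem map_trace_eq_sum {F F' E : Type*} [Field F] [Field F'] [Field E] [Algebra F F']
    [FiniteDimensional F F'] [Algebra.IsSeparable F F'] (j : F →+* E) {ι : Type*} [Fintype ι]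
    (σ : ι → (F' →+* E)) (hj : ∀ i x, σ i (algebraMap F F' x) = j x)
    (hσ : Function.Injective σ)
    (hcard : Module.finrank F F' ≤ Fintype.card ι) (z : F') :
    j (Algebra.trace F F' z) = ∑ i, σ i z := by
  classical
  let _ : Algebra F E := j.toAlgebra
  let s : ι → (F' →ₐ[F] E) := fun i => { σ i with commutes' := fun x => hj i x }
  have hs : Function.Injective s := by
    intro i i' h
    apply hσ
    ext x
    exact DFunLike.congr_fun h x
  let Ω := AlgebraicClosure E
  let e0 : E →ₐ[F] Ω := IsScalarTower.toAlgHom F E Ω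
  have he0 : Function.Injective e0 := e0.toRingHom.injective
  apply he0
  let e : ι → (F' →ₐ[F] Ω) := fun i => e0.comp (s i)
  have he : Function.Injective e := by
    intro i i' h
    apply hs
    ext x
    exact he0 (DFunLike.congr_fun h x)
  have hcard' : Fintype.card (F' →ₐ[F] Ω) = Module.finrank F F' := AlgHom.card F F' Ω
  have hbij : Function.Bijective e := by
    rw [Fintype.bijective_iff_injective_and_card]
    refine ⟨he, le_antisymm (Fintype.card_le_of_injective e he) ?_⟩
    rw [hcard']; exact hcard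
  have h1 : e0 (j (Algebra.trace F F' z)) = algebraMap F Ω (Algebra.trace F F' z) :=
    (IsScalarTower.algebraMap_apply F E Ω (Algebra.trace F F' z)).symm
  rw [h1, trace_eq_sum_embeddings Ω, map_sum]
  exact (hbij.sum_comp (fun τ : F' →ₐ[F] Ω => τ z)).symm

section HeckeTrace

variable {L : Type*} [Field L] [Algebra ℚ L] {N ℓ : ℕ} [NeZero N] [NeZero ℓ]

/-- Trace along `φ : F →ₐ F'`. -/
def traceAlong {K F F' : Type*} [Field K] [Field F] [Field F'] [Algebra K F] [Algebra K F']
    (φ : F →ₐ[K] F') (z : F') : F :=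
  letI := algebraAlong φ
  Algebra.trace F F' z

variable {w : laurentBaseChange L (modularFunctionFieldFull (N * ℓ)) →+* LaurentSeries L}

/-- **The trace formula in terms of `q`-expansions.** -/
theorem qExpand_traceAlong [CharZero L] (hw : IsSwap w) (hℓ : 1 < ℓ) {ζ : Lˣ}
    (hζ : IsPrimitiveRoot ζ ℓ)
    (hfin : FiniteAlong L (heckeAlphaBar L N ℓ))
    (hdeg : finrankAlong L (heckeAlphaBar L N ℓ) ≤ ℓ + 1)
    (x : laurentBaseChange L (modularFunctionFieldFull (N * ℓ))) :
    qExpand L ℓ ((traceAlong (heckeAlphaBar L N ℓ) x :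
        laurentBaseChange L (modularFunctionFieldFull N)) : LaurentSeries L) =
      qExpand L ℓ (x : LaurentSeries L) + ∑ i : Fin ℓ, twist (ζ ^ (i : ℕ)) (w x) := by
  letI := algebraAlong (heckeAlphaBar L N ℓ)
  haveI : FiniteDimensional (laurentBaseChange L (modularFunctionFieldFull N))
    (laurentBaseChange L (modularFunctionFieldFull (N * ℓ))) := hfin
  haveI : CharZero (laurentBaseChange L (modularFunctionFieldFull N)) :=
    charZero_of_injective_algebraMap
      (algebraMap L (laurentBaseChange L (modularFunctionFieldFull N))).injective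
  have h := map_trace_eq_sum
    (F := laurentBaseChange L (modularFunctionFieldFull N))
    (F' := laurentBaseChange L (modularFunctionFieldFull (N * ℓ)))
    (E := LaurentSeries L)
    ((qExpand L ℓ).comp (algebraMap (laurentBaseChange L (modularFunctionFieldFull N))
      (LaurentSeries L)))
    (heckeEmb w ζ)
    (fun o x => heckeEmb_alpha hw hζ.pow_eq_one o x)
    (heckeEmb_injective hw hℓ hζ)
    (by
      rw [Fintype.card_option, Fintype.card_fin]
      exact hdeg)
    x
  have h2 : qExpand L ℓ ((traceAlong (heckeAlphaBar L N ℓ) x :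
        laurentBaseChange L (modularFunctionFieldFull N)) : LaurentSeries L) =
      ∑ i, heckeEmb w ζ i x := h
  rw [h2, Fintype.sum_option, heckeEmb_none]
  rfl

/-- **The trace formula, coefficientwise**: `Tr x = x + ℓ U_ℓ (w x)`. -/
theorem coeff_traceAlong [CharZero L] [IsAlgClosed L] (hw : IsSwap w) (hℓ : 1 < ℓ)
    (hfin : FiniteAlong L (heckeAlphaBar L N ℓ))
    (hdeg : finrankAlong L (heckeAlphaBar L N ℓ) ≤ ℓ + 1)
    (x : laurentBaseChange L (modularFunctionFieldFull (N * ℓ))) (n : ℤ) :
    ((traceAlong (heckeAlphaBar L N ℓ) x :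
        laurentBaseChange L (modularFunctionFieldFull N)) : LaurentSeries L).coeff n =
      (x : LaurentSeries L).coeff n + ℓ * (w x).coeff (ℓ * n) := by
  obtain ⟨z, hz⟩ := HasEnoughRootsOfUnity.exists_primitiveRoot L ℓ
  obtain ⟨ζ, hζz⟩ : IsUnit z := hz.isUnit (NeZero.ne ℓ)
  have hζ : IsPrimitiveRoot ζ ℓ := by
    rw [← IsPrimitiveRoot.coe_units_iff, hζz]; exact hz
  have h := congrArg (fun y => HahnSeries.coeff y ((ℓ : ℤ) * n))
    (qExpand_traceAlong hw hℓ hζ hfin hdeg x)
  simp only [HahnSeries.coeff_add, qExpand_coeff_mul, HahnSeries.coeff_sum] at h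
  rw [h]
  congr 1
  have h1 : ∀ i : Fin ℓ, (twist (ζ ^ (i : ℕ)) (w x)).coeff ((ℓ : ℤ) * n) =
      (w x).coeff (ℓ * n) := by
    intro i
    rw [twist_coeff]
    have h2 : (ζ ^ (i : ℕ)) ^ ((ℓ : ℤ) * n) = 1 := by
      rw [zpow_mul, zpow_natCast, ← pow_mul, mul_comm, pow_mul, hζ.pow_eq_one, one_pow, one_zpow]
    rw [h2, Units.val_one, one_mul]
  simp only [h1, Finset.sum_const, Finset.card_univ, Fintype.card_fin, nsmul_eq_mul]

end HeckeTrace

end Fermat.Agent.H34.Two
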