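import Fermat.Agent.H89HU2
import Fermat.Agent.H34Two4
import Fermat.Agent.H89Arch
import Fermat.Agent.H35Fin
import Fermat.Agent.H42Inputs
import Fermat.Agent.H3RR_Bridge

/-!
# `J₀(mq)`, `q ∤ m`: unipotence of inertia and the Steinberg relation from the two-component data
-/

set_option autoImplicit false
set_option linter.style.haveILetI false

noncomputable section

open AlgebraicCurve ModularCurve IntermediateField HahnSeries Fermat.Agent.H60
  Fermat.Agent.H34.Two Fermat.Agent.H67 Fermat.Agent.H89HU Fermat.Agent.H89SS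

namespace Fermat.Agent.H89J

local notation "Qb" => AlgebraicClosure ℚ
local notation "GQ" => AlgebraicClosure ℚ ≃ₐ[ℚ] AlgebraicClosure ℚ

/-- The two-component data of `X_0(mq)` at the place `A`. -/
structure ModTwo (m q : ℕ) [NeZero m] [NeZero q] [NeZero (m * q)]
    (A : ValuationSubring (AlgebraicClosure ℚ)) (k : Type*) [Field k] (π : A →+* k) where
  /-- the two components -/
  T : TwoComp Qb (FF Qb (m * q)) k (modularFunctionFieldFullC k m) A π q
  V₁_mem : ∀ f : FF Qb (m * q), f ∈ T.V₁ ↔ (f : LaurentSeries Qb) ∈ locL A π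
  ρ₁_eq : ∀ (f : FF Qb (m * q)) (h : f ∈ T.V₁),
    ((T.ρ₁ ⟨f, h⟩ : modularFunctionFieldFullC k m) : LaurentSeries k) =
      resL A π ⟨f, (V₁_mem f).mp h⟩
  fr_eq : ∀ (a : modularFunctionFieldFullC k m) (n : ℤ),
    ((T.fr • a : modularFunctionFieldFullC k m) : LaurentSeries k).coeff n =
      (a : LaurentSeries k).coeff n ^ q
  swap : ∀ W : FF Qb (m * q) ≃ₐ[Qb] FF Qb (m * q), IsAL m q W → T.Swap W
  inertia : ∀ σ ∈ A.inertiaSubgroupIn ℚ,
    T.Compat (arithmeticGalois (modularFunctionFieldFull (m * q)) σ) 1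
  frobenius : ∀ σ : GQ, A.IsFrobeniusAt σ q →
    T.Compat (arithmeticGalois (modularFunctionFieldFull (m * q)) σ) T.fr

variable {m q p : ℕ}

theorem pow_ne_zero_residue {A : ValuationSubring (AlgebraicClosure ℚ)} (hq : q.Prime)
    (hA : A.LiesOverPrime q) (hp : p.Prime) (hpq : p ≠ q) (n : ℕ) :
    ((p ^ n : ℕ) : IsLocalRing.ResidueField A) ≠ 0 := by
  have := H05.charP_residueField hq hA
  rw [Ne, CharP.cast_eq_zero_iff (IsLocalRing.ResidueField A) q]
  intro h
  have h1 := hq.dvd_of_dvd_pow h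
  exact hpq ((Nat.prime_dvd_prime_iff_eq hq hp).mp h1).symm

variable [NeZero (m * q)]

theorem frobenius_smul_ofAlgAut {W : FF Qb (m * q) ≃ₐ[Qb] FF Qb (m * q)} (hW : IsAL m q W)
    (σ : GQ) (f : FF Qb (m * q)) :
    arithmeticGalois (modularFunctionFieldFull (m * q)) σ • (W f) =
      W (arithmeticGalois (modularFunctionFieldFull (m * q)) σ • f) :=
  (hW.galois σ f).symm

variable [NeZero m] [NeZero q]

section Generic

variable {A : ValuationSubring (AlgebraicClosure ℚ)} {k : Type*} [Field k] {π : A →+* k}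

theorem inertia_aux [Fact q.Prime] [CharP k q] [IsAlgClosed k] [IsLocalHom π]
    (hπ : Function.Surjective π) (arch : ∀ a b : A, π a = 0 → b ≠ 0 → ∃ n, b ∣ a ^ n)
    (hFF : H94.FunField k (modularFunctionFieldFullC k m)) (D : ModTwo m q A k π)
    {d : ℕ} (hd : (d : k) ≠ 0) {σ : GQ} (hσ : σ ∈ A.inertiaSubgroupIn ℚ)
    (x : JZero (m * q)) (hx : d • x = 0) : σ • (σ • x - x) = σ • x - x := by
  haveI := hFF
  exact D.T.inertia_sq hπ arch hd (D.inertia σ hσ) (D.inertia σ hσ) x hx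

theorem star_aux [Fact q.Prime] [CharP k q] [IsAlgClosed k] [IsLocalHom π]
    (hπ : Function.Surjective π) (arch : ∀ a b : A, π a = 0 → b ≠ 0 → ∃ n, b ∣ a ^ n)
    (hFF : H94.FunField k (modularFunctionFieldFullC k m)) (D : ModTwo m q A k π)
    {d : ℕ} (hd : (d : k) ≠ 0) {σ : GQ} (hσ : A.IsFrobeniusAt σ q)
    {W : FF Qb (m * q) ≃ₐ[Qb] FF Qb (m * q)} (hW : IsAL m q W)
    {α β : FF Qb m →ₐ[Qb] FF Qb (m * q)} (hα' : heckeAlphaBar Qb m q = α)
    (hβ' : heckeBetaBar Qb m q = β) (hα : ∀ x, W (α x) = β x) (hβ : ∀ x, W (β x) = α x)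
    (hinv : ∀ f, W (W f) = f)
    (hdeg : finrankAlong Qb (heckeAlphaBar Qb m q) ≤ q + 1)
    (x : Pic0 Qb (FF Qb (m * q))) (hx : d • x = 0)
    (hx1 : pullP β (pushP α x) = 0) (hx2 : pullP β (pushP α (pushP W.toAlgHom x)) = 0) :
    arithmeticGalois (modularFunctionFieldFull (m * q)) σ •
      (arithmeticGalois (modularFunctionFieldFull (m * q)) σ • x) +
    arithmeticGalois (modularFunctionFieldFull (m * q)) σ • (pushP W.toAlgHom x) +
    q • (pushP W.toAlgHom (arithmeticGalois (modularFunctionFieldFull (m * q)) σ • x)) +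
    q • x = 0 := by
  haveI := hFF
  subst hα' hβ'
  refine steinberg_push D.T hπ arch hd hinv (D.swap W hW) (D.frobenius σ hσ)
    (frobenius_smul_ofAlgAut hW σ) hβ ?_ x hx hx1 hx2
  intro f h h0
  have h3 : resL A π ⟨_, (D.V₁_mem f).mp h⟩ ≠ 0 := by
    rw [← D.ρ₁_eq f h]
    intro h4
    exact h0 (Subtype.ext h4)
  obtain ⟨h5, h6⟩ := resL_uFun (π := π) (isQuot_FX (m * q)) hα hβ hinv
    (finiteAlong_FB Qb _) hdeg ((D.V₁_mem f).mp h) h3
  refine ⟨(D.V₁_mem _).mpr h5, ?_⟩
  apply Subtype.ext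
  rw [D.ρ₁_eq]
  refine h6.trans ?_
  ext n
  rw [coeffMap_coeff, D.fr_eq, D.ρ₁_eq]
  rfl

end Generic

/-- **S34 input.** -/
theorem unipotentTorsion (hq : q.Prime) (hqm : ¬ q ∣ m) (hp : p.Prime) (hpq : p ≠ q)
    (H : ∀ A : ValuationSubring (AlgebraicClosure ℚ), A.LiesOverPrime q →
      Nonempty (ModTwo m q A (IsLocalRing.ResidueField A) (IsLocalRing.residue A))) :
    H35.UnipotentTorsion p q (JZero (m * q)) := by
  intro A hA σ hσ x hx
  obtain ⟨n, hn⟩ := hx
  obtain ⟨D⟩ := H A hA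
  haveI : Fact q.Prime := ⟨hq⟩
  haveI : CharP (IsLocalRing.ResidueField A) q := H05.charP_residueField hq hA
  haveI : IsAlgClosed (IsLocalRing.ResidueField A) := H18.isAlgClosed_residueField A
  exact inertia_aux IsLocalRing.residue_surjective (H89Arch.arch' hq hA)
    (H42.funField_res hq hA hqm) D
    (pow_ne_zero_residue hq hA hp hpq n) hσ x hn

/-- **S35 input.** -/
theorem starInput (hq : q.Prime) (hqm : ¬ q ∣ m) (hp : p.Prime) (hpq : p ≠ q)
    (H : ∀ A : ValuationSubring (AlgebraicClosure ℚ), A.LiesOverPrime q →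
      Nonempty (ModTwo m q A (IsLocalRing.ResidueField A) (IsLocalRing.residue A))) :
    H35.StarInput p q m := by
  intro hc A hA σ hσ x hx hx1 hx2
  obtain ⟨n, hn⟩ := hx
  obtain ⟨D⟩ := H A hA
  haveI : Fact q.Prime := ⟨hq⟩
  haveI : CharP (IsLocalRing.ResidueField A) q := H05.charP_residueField hq hA
  haveI : IsAlgClosed (IsLocalRing.ResidueField A) := H18.isAlgClosed_residueField A
  have hW : IsAL m q (atkin (L := Qb) embQbar m q rfl hc) := isAL_atkin embQbar m q rfl hc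
  have hdeg : finrankAlong Qb (heckeAlphaBar Qb m q) ≤ q + 1 := by
    rw [alpha_eq_dg, finrank_dg_prime embQbar hq 1 _ rfl, cdeg, if_neg hqm]
  exact star_aux IsLocalRing.residue_surjective (H89Arch.arch' hq hA)
    (H42.funField_res hq hA hqm) D (pow_ne_zero_residue hq hA hp hpq n) hσ hW
    (alpha_eq_dg m q) (beta_eq_dg m q)
    (AlgHom.congr_fun (hW.comp_dg_one hc (by simp) (dvd_refl _)))
    (AlgHom.congr_fun (hW.comp_dg_Q hc (by simp) (dvd_refl _)))
    (hW.involutive rfl hc) hdeg x hn hx1 hx2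

end Fermat.Agent.H89J
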