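import Fermat.Agent.H62P1
import Fermat.Agent.H89J

/-!
# The Hecke operator `T_ℓ` on modular functions: reduction of `q`-expansions
-/

set_option autoImplicit false
set_option linter.style.haveILetI false
set_option linter.unusedSectionVars false

noncomputable section

open AlgebraicCurve ModularCurve IntermediateField HahnSeries Fermat.Agent.H67
open Fermat.Agent.H34.Two (locL resL mem_locL_iff resL_mul_eq)
open Fermat.Agent.H9 (Tmul)

namespace Fermat.Agent.H62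

local notation "Qb" => AlgebraicClosure ℚ
local notation "GQ" => AlgebraicClosure ℚ ≃ₐ[ℚ] AlgebraicClosure ℚ

section Root

variable {L : Type*} [Field L] [IsAlgClosed L] [CharZero L] {A : ValuationSubring L} {k : Type*}
  [Field k] {π : A →+* k}

theorem mem_of_pow_eq_one {ℓ : ℕ} (hℓ : ℓ ≠ 0) {y : L} (hy : y ^ ℓ = 1) : y ∈ A := by
  rcases A.mem_or_inv_mem y with h | h
  · exact h
  · have h1 : y = y⁻¹ ^ (ℓ - 1) := by
      have hy0 : y ≠ 0 := by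
        rintro rfl
        rw [zero_pow hℓ] at hy
        exact zero_ne_one hy
      rw [inv_pow]
      apply eq_inv_of_mul_eq_one_left
      rw [← pow_succ', Nat.sub_add_cancel (Nat.one_le_iff_ne_zero.mpr hℓ), hy]
    rw [h1]
    exact pow_mem h _

/-- A primitive `ℓ`-th root of unity whose reduction is primitive, `ℓ ≠ 0` in `k`. -/
theorem exists_zeta (π : A →+* k) (ℓ : ℕ) [Fact ℓ.Prime] (hk : (ℓ : k) ≠ 0) : ∃ ζ : Aˣ,
    IsPrimitiveRoot (Units.map (A.subtype : A →* L) ζ) ℓ ∧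
    IsPrimitiveRoot (Units.map (π : A →* k) ζ) ℓ := by
  have hℓ : ℓ.Prime := Fact.out
  haveI : NeZero (ℓ : L) := ⟨Nat.cast_ne_zero.mpr hℓ.ne_zero⟩
  haveI : NeZero (ℓ : k) := ⟨hk⟩
  obtain ⟨z, hz⟩ := HasEnoughRootsOfUnity.exists_primitiveRoot L ℓ
  have hz1 : z ^ ℓ = 1 := hz.pow_eq_one
  have hzinv : z⁻¹ ^ ℓ = 1 := by rw [inv_pow, hz1, inv_one]
  have hz0 : z ≠ 0 := hz.ne_zero hℓ.ne_zero
  let ζ : Aˣ := ⟨⟨z, mem_of_pow_eq_one hℓ.ne_zero hz1⟩, ⟨z⁻¹, mem_of_pow_eq_one hℓ.ne_zero hzinv⟩,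
    Subtype.ext (mul_inv_cancel₀ hz0), Subtype.ext (inv_mul_cancel₀ hz0)⟩
  refine ⟨ζ, ?_, ?_⟩
  · rw [← IsPrimitiveRoot.coe_units_iff]
    exact hz
  · rw [← IsPrimitiveRoot.coe_units_iff, ← Polynomial.isRoot_cyclotomic_iff,
      ← Polynomial.map_cyclotomic ℓ π]
    have h1 : (Polynomial.cyclotomic ℓ A).IsRoot (ζ : A) := by
      have h2 : ((Polynomial.cyclotomic ℓ A).map A.subtype).IsRoot (A.subtype (ζ : A)) := by
        rw [Polynomial.map_cyclotomic, Polynomial.isRoot_cyclotomic_iff]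
        exact hz
      rw [Polynomial.IsRoot, Polynomial.eval_map_apply] at h2
      exact Subtype.ext h2
    exact h1.map

end Root

section Reduction

variable {L : Type*} [Field L] {A : ValuationSubring L} {k : Type*} [Field k] {π : A →+* k}

/-- **Reduction of `T_ℓ u`.** -/
theorem Tmul_mem_locL {ℓ : ℕ} [NeZero ℓ] {ζ : Aˣ}
    (h1 : IsPrimitiveRoot (Units.map (A.subtype : A →* L) ζ) ℓ)
    (h2 : IsPrimitiveRoot (Units.map (π : A →* k) ζ) ℓ) {f : LaurentSeries L}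
    (hf : f ∈ locL A π) :
    ∃ h : Tmul ℓ (Units.map (A.subtype : A →* L) ζ) f ∈ locL A π,
      resL A π ⟨_, h⟩ = Tmul ℓ (Units.map (π : A →* k) ζ) (resL A π ⟨f, hf⟩) := by
  obtain ⟨y, z, hz, h⟩ := (mem_locL_iff A π).mp hf
  have h3 := congrArg (Tmul ℓ (Units.map (A.subtype : A →* L) ζ)) h
  rw [Tmul_mul ℓ h1] at h3
  have h4 : ∀ x : LaurentSeries A, Tmul ℓ (Units.map (A.subtype : A →* L) ζ)
      (coeffMap A.subtype x) = coeffMap A.subtype (Tmul ℓ ζ x) :=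
    fun x => (coeffMap_Tmul ℓ A.subtype ζ x).symm
  rw [h4, h4] at h3
  have h5 : ∀ x : LaurentSeries A, coeffMap π (Tmul ℓ ζ x) =
      Tmul ℓ (Units.map (π : A →* k) ζ) (coeffMap π x) := fun x => coeffMap_Tmul ℓ π ζ x
  have hz' : coeffMap π (Tmul ℓ ζ z) ≠ 0 := by
    rw [h5]
    exact Tmul_ne_zero ℓ h2 hz
  have hmem : Tmul ℓ (Units.map (A.subtype : A →* L) ζ) f ∈ locL A π :=
    (mem_locL_iff A π).mpr ⟨_, _, hz', h3⟩
  refine ⟨hmem, ?_⟩
  have h6 := resL_mul_eq A π hmem hz' h3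
  have h7 := congrArg (Tmul ℓ (Units.map (π : A →* k) ζ)) (resL_mul_eq A π hf hz h)
  rw [Tmul_mul ℓ h2, ← h5, ← h5, ← h6] at h7
  exact (mul_right_cancel₀ hz' h7).symm

end Reduction

section Fun

variable {N ℓ : ℕ} [NeZero N] [NeZero ℓ] [hℓ : Fact ℓ.Prime] {A : ValuationSubring Qb}
  {k : Type*} [Field k] {π : A →+* k}

/-- **Reduction of `T_ℓ u` on the first component.** -/
theorem hf_mem_locL (hℓN : ¬ ℓ ∣ N) {ζ : Aˣ}
    (h1 : IsPrimitiveRoot (Units.map (A.subtype : A →* Qb) ζ) ℓ)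
    (h2 : IsPrimitiveRoot (Units.map (π : A →* k) ζ) ℓ) {u : FB Qb N}
    (hu : (u : LaurentSeries Qb) ∈ locL A π) :
    ∃ h : ((hf N ℓ u : FB Qb N) : LaurentSeries Qb) ∈ locL A π,
      resL A π ⟨_, h⟩ = Tmul ℓ (Units.map (π : A →* k) ζ) (resL A π ⟨_, hu⟩) := by
  obtain ⟨h3, h4⟩ := Tmul_mem_locL h1 h2 hu
  have h5 := coe_hf hℓN h1 u
  have h6 : ((hf N ℓ u : FB Qb N) : LaurentSeries Qb) ∈ locL A π := by rw [h5]; exact h3
  refine ⟨h6, ?_⟩
  rw [← h4]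
  congr 1
  exact Subtype.ext h5

end Fun

section Valuation

variable {N ℓ : ℕ} [NeZero N] [NeZero ℓ] [hℓ : Fact ℓ.Prime]

/-- If `v` is a valuation on modular functions for which `T_ℓ` preserves the functions of value
`1` then `v (T_ℓ u) = v u ^ (ℓ + 1)`. -/
theorem val_hf {Γ : Type*} [LinearOrderedCommGroupWithZero Γ] (hℓN : ¬ ℓ ∣ N)
    (v : Valuation (FB Qb N) Γ) (h1 : ∀ f : FB Qb N, v f = 1 → v (hf N ℓ f) = 1)
    {u : FB Qb N} {c : Qb} (hc : c ≠ 0) (hcu : v (algebraMap Qb (FB Qb N) c * u) = 1) :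
    v (hf N ℓ u) = v u ^ (ℓ + 1) := by
  have hc' : algebraMap Qb (FB Qb N) c ≠ 0 := (map_ne_zero _).mpr hc
  have h2 := h1 _ hcu
  rw [hf_mul, hf_algebraMap hℓN, map_mul, map_pow, map_pow] at h2
  rw [map_mul] at hcu
  have h3 : v (algebraMap Qb (FB Qb N) c) ≠ 0 := (Valuation.ne_zero_iff _).mpr hc'
  have h4 : v u = (v (algebraMap Qb (FB Qb N) c))⁻¹ := eq_inv_of_mul_eq_one_right hcu
  have h5 : v (hf N ℓ u) = (v (algebraMap Qb (FB Qb N) c) ^ (ℓ + 1))⁻¹ :=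
    eq_inv_of_mul_eq_one_right h2
  rw [h5, h4, inv_pow]

end Valuation

end Fermat.Agent.H62
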