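import Fermat.Agent.H97MdG
import Fermat.Agent.H34Two6

/-!
# Gauss valuations and norms along the degeneracy map
-/

set_option autoImplicit false
set_option linter.unusedSectionVars false
set_option linter.style.haveILetI false

open AlgebraicCurve ModularCurve IntermediateField

namespace Fermat.Agent.H97

section HasG

variable {L : Type*} [Field L] {A : ValuationSubring L} {k : Type*} [Field k] (π : A →+* k)

/-- `f = c g` with `g` a Gauss unit reducing to `r`. -/
def HasG (f : LaurentSeries L) (c : L) (r : LaurentSeries k) : Prop :=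
  ∃ y z : LaurentSeries A, coeffMap π y ≠ 0 ∧ coeffMap π z ≠ 0 ∧
    f * coeffMap A.subtype z = algebraMap L (LaurentSeries L) c * coeffMap A.subtype y ∧
    r * coeffMap π z = coeffMap π y

variable {π}

theorem HasG.ne_zero {f : LaurentSeries L} {c : L} {r : LaurentSeries k} (h : HasG π f c r) :
    r ≠ 0 := by
  obtain ⟨y, z, hy, hz, -, h2⟩ := h
  rintro rfl
  rw [zero_mul] at h2
  exact hy h2.symm

theorem HasG.one : HasG π (1 : LaurentSeries L) 1 1 :=
  ⟨1, 1, by rw [map_one]; exact one_ne_zero, by rw [map_one]; exact one_ne_zero,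
    by rw [map_one, map_one], by rw [map_one, mul_one]⟩

theorem HasG.mul {f g : LaurentSeries L} {c d : L} {r s : LaurentSeries k}
    (hf : HasG π f c r) (hg : HasG π g d s) : HasG π (f * g) (c * d) (r * s) := by
  obtain ⟨y, z, hy, hz, h1, h2⟩ := hf
  obtain ⟨y', z', hy', hz', h1', h2'⟩ := hg
  refine ⟨y * y', z * z', by rw [map_mul]; exact mul_ne_zero hy hy',
    by rw [map_mul]; exact mul_ne_zero hz hz', ?_, ?_⟩
  · rw [map_mul, map_mul, map_mul, mul_mul_mul_comm, h1, h1', mul_mul_mul_comm]
  · rw [map_mul, map_mul, mul_mul_mul_comm, h2, h2']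

theorem HasG.prod {ι : Type*} (s : Finset ι) {f : ι → LaurentSeries L} {c : ι → L}
    {r : ι → LaurentSeries k} (h : ∀ i ∈ s, HasG π (f i) (c i) (r i)) :
    HasG π (∏ i ∈ s, f i) (∏ i ∈ s, c i) (∏ i ∈ s, r i) := by
  classical
  induction s using Finset.induction_on with
  | empty => simpa using HasG.one
  | insert a s ha ih =>
    rw [Finset.prod_insert ha, Finset.prod_insert ha, Finset.prod_insert ha]
    exact (h a (Finset.mem_insert_self a s)).mul (ih fun i hi => h i (Finset.mem_insert_of_mem hi))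

theorem qExpand_algebraMap {R : Type*} [Field R] (n : ℕ) [NeZero n] (c : R) :
    qExpand R n (algebraMap R (LaurentSeries R) c) = algebraMap R (LaurentSeries R) c := by
  rw [algebraMap_laurentSeries_eq_single, qExpand_single, mul_zero]

theorem HasG.qExpand {f : LaurentSeries L} {c : L} {r : LaurentSeries k} (h : HasG π f c r)
    (n : ℕ) [NeZero n] : HasG π (qExpand L n f) c (qExpand k n r) := by
  obtain ⟨y, z, hy, hz, h1, h2⟩ := h
  refine ⟨ModularCurve.qExpand A n y, ModularCurve.qExpand A n z, ?_, ?_, ?_, ?_⟩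
  · rw [H60.coeffMap_qExpand_H60]
    exact (map_ne_zero_iff _ (H34.Two.qExpand_injective' n)).mpr hy
  · rw [H60.coeffMap_qExpand_H60]
    exact (map_ne_zero_iff _ (H34.Two.qExpand_injective' n)).mpr hz
  · rw [H60.coeffMap_qExpand_H60, H60.coeffMap_qExpand_H60, ← map_mul, h1, map_mul,
      qExpand_algebraMap]
  · rw [H60.coeffMap_qExpand_H60, H60.coeffMap_qExpand_H60, ← map_mul, h2]

theorem HasG.twist {f : LaurentSeries L} {c : L} {r : LaurentSeries k} (h : HasG π f c r)
    {ζ : Lˣ} {ξ : Aˣ} (hξ : ((ξ : A) : L) = ζ) (hξ1 : π ξ = 1) :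
    HasG π (H60.twist ζ f) c r := by
  obtain ⟨y, z, hy, hz, h1, h2⟩ := h
  have e1 : Units.map ((A.subtype : A →+* L) : A →* L) ξ = ζ := Units.ext hξ
  have e2 : Units.map ((π : A →+* k) : A →* k) ξ = 1 := Units.ext hξ1
  have h3 : ∀ y : LaurentSeries A, coeffMap A.subtype (H60.twist ξ y) =
      H60.twist ζ (coeffMap A.subtype y) := fun y => by
    rw [H60.coeffMap_twist, e1]
  have h4 : ∀ y : LaurentSeries A, coeffMap π (H60.twist ξ y) = coeffMap π y := fun y => by
    rw [H60.coeffMap_twist, e2, H60.twist_one]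
  refine ⟨H60.twist ξ y, H60.twist ξ z, by rwa [h4], by rwa [h4], ?_, by rw [h4, h4, h2]⟩
  rw [h3, h3, ← map_mul, h1, map_mul, algebraMap_laurentSeries_eq_single, H60.twist_single,
    zpow_zero, Units.val_one, one_mul]

theorem algebraMap_eq_coeffMap (a : A) : algebraMap L (LaurentSeries L) (a : L) =
    coeffMap A.subtype (HahnSeries.single 0 a) := by
  rw [algebraMap_laurentSeries_eq_single, coeffMap_single]
  rfl

theorem coeffMap_algebraMap' (a : A) : coeffMap π (HahnSeries.single 0 a) =
    algebraMap k (LaurentSeries k) (π a) := by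
  rw [coeffMap_single, algebraMap_laurentSeries_eq_single]

theorem coeffMap_subtype_injective : Function.Injective (coeffMap A.subtype) := by
  intro x y h
  ext i
  have := congrArg (fun w => HahnSeries.coeff w i) h
  simp only [coeffMap_coeff] at this
  exact this

/-- Comparison of two representations. -/
theorem HasG.unique_aux {f : LaurentSeries L} {c d : L} (hd : d ≠ 0)
    {r s : LaurentSeries k} (hf : HasG π f c r) (hg : HasG π f d s) {u : A} (hu : (u : L) = c / d) :
    s = algebraMap k (LaurentSeries k) (π u) * r := by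
  obtain ⟨y, z, hy, hz, h1, h2⟩ := hf
  obtain ⟨y', z', hy', hz', h1', h2'⟩ := hg
  have hdL : algebraMap L (LaurentSeries L) d ≠ 0 := (_root_.map_ne_zero _).mpr hd
  have h3 : (HahnSeries.single 0 u : LaurentSeries A) * (y * z') = y' * z := by
    apply coeffMap_subtype_injective
    rw [map_mul, ← algebraMap_eq_coeffMap, hu, map_div₀, map_mul, map_mul, div_mul_eq_mul_div,
      div_eq_iff hdL, ← mul_assoc, ← h1, mul_right_comm, mul_right_comm _ _
      (algebraMap L (LaurentSeries L) d), mul_comm _ (algebraMap L (LaurentSeries L) d), ← h1']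
  have h4 := congrArg (coeffMap π) h3
  rw [map_mul, coeffMap_algebraMap', map_mul, map_mul, ← h2, ← h2'] at h4
  have h5 : (algebraMap k (LaurentSeries k) (π u) * r) * (coeffMap π z * coeffMap π z') =
      s * (coeffMap π z * coeffMap π z') := by
    linear_combination h4
  exact (mul_right_cancel₀ (mul_ne_zero hz hz') h5).symm

theorem HasG.unique {f : LaurentSeries L} {c : L} (hc : c ≠ 0)
    {r s : LaurentSeries k} (hf : HasG π f c r) (hg : HasG π f c s) : s = r := by
  have := hf.unique_aux hc hg (u := 1) (by rw [div_self hc]; rfl)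
  rwa [map_one, map_one, one_mul] at this

theorem HasG.val_le [IsLocalHom π] {f : LaurentSeries L} {c d : L} (hc : c ≠ 0) (hd : d ≠ 0)
    {r s : LaurentSeries k} (hf : HasG π f c r) (hg : HasG π f d s) (h : A.valuation c ≤ A.valuation d) :
    A.valuation c = A.valuation d := by
  have hd0 : A.valuation d ≠ 0 := (Valuation.ne_zero_iff _).mpr hd
  have h1 : c / d ∈ A := by
    rw [← A.valuation_le_one_iff, map_div₀]
    exact (div_le_one₀ (zero_lt_iff.mpr hd0)).mpr h
  have h2 := hf.unique_aux hd hg (u := ⟨c / d, h1⟩) rfl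
  have h3 : π ⟨c / d, h1⟩ ≠ 0 := by
    intro h0
    rw [h0, map_zero, zero_mul] at h2
    exact hg.ne_zero h2
  have h4 : IsUnit (⟨c / d, h1⟩ : A) := (isUnit_map_iff π _).mp (isUnit_iff_ne_zero.mpr h3)
  have h5 := (A.valuation_eq_one_iff _).mp h4
  change A.valuation (c / d) = 1 at h5
  rw [map_div₀] at h5
  exact (div_eq_one_iff_eq hd0).mp h5

theorem HasG.val_eq [IsLocalHom π] {f : LaurentSeries L} {c d : L} (hc : c ≠ 0) (hd : d ≠ 0)
    {r s : LaurentSeries k} (hf : HasG π f c r) (hg : HasG π f d s) :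
    A.valuation c = A.valuation d := by
  rcases le_total (A.valuation c) (A.valuation d) with h | h
  · exact hf.val_le hc hd hg h
  · exact (hg.val_le hd hc hf h).symm

end HasG

section Comp

variable {L : Type*} [Field L] [Algebra ℚ L] (A : ValuationSubring L) {k : Type*} [Field k]
  (π : A →+* k) {M : ℕ}

theorem hasG_of_red {f : H99.FX L M} {c : L} (hc : c ≠ 0)
    (h : (H34.Two.gC A π M).red (algebraMap L _ c * f) ≠ 0) :
    HasG π (f : LaurentSeries L) c⁻¹ ((H34.Two.gC A π M).red (algebraMap L _ c * f)) := by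
  have h1 := (H34.Two.gC A π M).mem_of_red_ne_zero h
  obtain ⟨y, z, hz, h2⟩ := (H34.Two.mem_locL_iff A π).mp h1
  have h3 := H34.Two.red_gaussComp_mul A π (H34.Two.isQuot_FX M) hz h2
  refine ⟨y, z, ?_, hz, ?_, h3⟩
  · intro hy
    rw [hy] at h3
    exact (mul_ne_zero h hz) h3
  · rw [← h2]
    have h4 : ((algebraMap L (H99.FX L M) c * f : H99.FX L M) : LaurentSeries L) =
        algebraMap L (LaurentSeries L) c * (f : LaurentSeries L) := rfl
    rw [h4, map_inv₀, mul_assoc, ← mul_assoc, inv_mul_cancel₀ ((_root_.map_ne_zero _).mpr hc),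
      one_mul]

theorem red_of_hasG {f : H99.FX L M} {c : L} (hc : c ≠ 0) {r : LaurentSeries k}
    (h : HasG π (f : LaurentSeries L) c r) :
    (H34.Two.gC A π M).red (algebraMap L _ c⁻¹ * f) = r := by
  obtain ⟨y, z, hy, hz, h1, h2⟩ := h
  have h3 := H34.Two.red_gaussComp_mul A π (H34.Two.isQuot_FX M) (f := algebraMap L _ c⁻¹ * f) hz
    (y := y) (by
      have h4 : ((algebraMap L (H99.FX L M) c⁻¹ * f : H99.FX L M) : LaurentSeries L) =
        algebraMap L (LaurentSeries L) c⁻¹ * (f : LaurentSeries L) := rfl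
      rw [h4, mul_assoc, h1, ← mul_assoc, ← map_mul, inv_mul_cancel₀ hc, map_one, one_mul])
  rw [← h2] at h3
  exact mul_right_cancel₀ hz h3

end Comp

end Fermat.Agent.H97
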