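import Fermat.Agent.H35LTInput
import Fermat.Agent.H38MzRep
import Fermat.Agent.H1InvFinal
import Fermat.Agent.H62P1R
import Fermat.Agent.H97MdH
import Fermat.Agent.H89Inst
import Fermat.Agent.H33Red

/-!
# Mazur's principle: functions attached to torsion points fixed by inertia

`IsU A d N u`: `u ≠ 0` is fixed by inertia and `d ∣ div u`; `Cls d N u x`: the class of `div u / d`
is `x`.
-/

set_option autoImplicit false
set_option linter.unusedSectionVars false
set_option linter.style.haveILetI false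

noncomputable section

open AlgebraicCurve ModularCurve IntermediateField HahnSeries Fermat.Agent.H67

namespace Fermat.Agent.H35.Geo

local notation "Qb" => AlgebraicClosure ℚ
local notation "GQ" => AlgebraicClosure ℚ ≃ₐ[ℚ] AlgebraicClosure ℚ

/-- `u ≠ 0` is fixed by inertia and its divisor is divisible by `d`. -/
structure IsU (A : ValuationSubring Qb) (d N : ℕ) (u : FB Qb N) : Prop where
  ne : u ≠ 0
  fix : ∀ σ ∈ A.inertiaSubgroupIn ℚ, arithmeticGalois (modularFunctionFieldFull N) σ • u = u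
  div : ∀ v : Place Qb (FB Qb N), (d : ℤ) ∣ v.ord u

/-- The class of `div u / d` is `x`. -/
def Cls (d N : ℕ) (u : FB Qb N) (x : JZero N) : Prop :=
  ∃ D : Divisor.degZero (K := Qb) (F := FB Qb N), Pic0.mk D = x ∧
    ∀ v : Place Qb (FB Qb N), v.ord u = d * (D : Divisor Qb (FB Qb N)) v

variable {A : ValuationSubring Qb} {d N : ℕ} [NeZero N] {u u' : FB Qb N} {x x' : JZero N}

theorem ord_pow (v : Place Qb (FB Qb N)) (u : FB Qb N) (n : ℕ) : v.ord (u ^ n) = n * v.ord u := by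
  have := v.ord_zpow u n
  rwa [zpow_natCast] at this

theorem Cls.mul (hu : u ≠ 0) (hu' : u' ≠ 0) (h : Cls d N u x) (h' : Cls d N u' x') :
    Cls d N (u * u') (x + x') := by
  obtain ⟨D, rfl, hD⟩ := h
  obtain ⟨D', rfl, hD'⟩ := h'
  refine ⟨D + D', rfl, fun v => ?_⟩
  rw [v.ord_mul hu hu', hD, hD']
  show _ = (d : ℤ) * ((D : Divisor Qb (FB Qb N)) v + (D' : Divisor Qb (FB Qb N)) v)
  ring

theorem Cls.inv (h : Cls d N u x) : Cls d N u⁻¹ (-x) := by
  obtain ⟨D, rfl, hD⟩ := h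
  refine ⟨-D, rfl, fun v => ?_⟩
  rw [v.ord_inv, hD]
  show _ = (d : ℤ) * (-((D : Divisor Qb (FB Qb N)) v))
  ring

theorem Cls.one : Cls d N (1 : FB Qb N) 0 :=
  ⟨0, rfl, fun v => by
    rw [v.ord_one]
    show (0 : ℤ) = d * 0
    ring⟩

theorem Cls.pow (hu : u ≠ 0) (h : Cls d N u x) (n : ℕ) : Cls d N (u ^ n) (n • x) := by
  induction n with
  | zero => rw [pow_zero, zero_nsmul]; exact Cls.one
  | succ n ih => rw [pow_succ, succ_nsmul]; exact Cls.mul (pow_ne_zero _ hu) hu ih h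

theorem Cls.unique (hd : d ≠ 0) (h : Cls d N u x) (h' : Cls d N u x') : x = x' := by
  obtain ⟨D, rfl, hD⟩ := h
  obtain ⟨D', rfl, hD'⟩ := h'
  congr 1
  apply Subtype.ext
  ext v
  have := (hD v).symm.trans (hD' v)
  exact mul_left_cancel₀ (by exact_mod_cast hd) this

/-- Changing the function by a `d`-th power. -/
theorem Cls.pow_self {h : FB Qb N} (hh : h ≠ 0) : Cls d N (h ^ d) 0 := by
  have hdeg : Divisor.degree (H3RR.divOf h : Divisor Qb (FB Qb N)) = 0 := H3RR.degree_divOf hh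
  refine ⟨⟨H3RR.divOf h, hdeg⟩, ?_, fun v => ?_⟩
  · rw [H89SS.mk_eq_zero]
    exact ⟨h, hh, fun v => H3RR.divOf_apply hh v⟩
  · rw [ord_pow]
    show _ = (d : ℤ) * (H3RR.divOf h : Divisor Qb (FB Qb N)) v
    rw [H3RR.divOf_apply hh]

theorem Cls.exists_root (hd : d ≠ 0) (hu : u ≠ 0) (h : Cls d N u 0) :
    ∃ g : FB Qb N, g ≠ 0 ∧ u = g ^ d := by
  obtain ⟨D, hD0, hD⟩ := h
  rw [H89SS.mk_eq_zero] at hD0
  exact H89SS.exists_eq_pow hd hu hD0 hD

theorem Cls.nsmul (hu : u ≠ 0) (h : Cls d N u x) : d • x = 0 := by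
  obtain ⟨D, rfl, hD⟩ := h
  have h1 : Pic0.mk (d • D) = 0 := by
    rw [H89SS.mk_eq_zero]
    refine ⟨u, hu, fun v => ?_⟩
    rw [hD v]
    show ((d • (D : Divisor Qb (FB Qb N)) : Divisor Qb (FB Qb N))) v = _
    rw [Finsupp.smul_apply, nsmul_eq_mul]
  exact h1

/-- Every torsion class comes from a function. -/
theorem exists_cls (d : ℕ) (x : JZero N) (hx : d • x = 0) :
    ∃ u : FB Qb N, u ≠ 0 ∧ Cls d N u x := by
  obtain ⟨D, rfl⟩ := Pic0.mk_surjective x
  have hxD : Pic0.mk (d • D) = 0 := hx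
  rw [H89SS.mk_eq_zero] at hxD
  obtain ⟨f, hf, hfD⟩ := hxD
  refine ⟨f, hf, D, rfl, fun v => ?_⟩
  rw [← hfD v]
  show ((d • (D : Divisor Qb (FB Qb N)) : Divisor Qb (FB Qb N))) v = _
  rw [Finsupp.smul_apply, nsmul_eq_mul]

/-- A function with divisor divisible by `d` has a class. -/
theorem exists_cls_of_dvd (hd : d ≠ 0) (hu : u ≠ 0)
    (hdiv : ∀ v : Place Qb (FB Qb N), (d : ℤ) ∣ v.ord u) : ∃ x : JZero N, Cls d N u x := by
  classical
  let D : Divisor Qb (FB Qb N) := (H3RR.divOf u : Divisor Qb (FB Qb N)).mapRange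
    (fun n : ℤ => n / d) (by simp)
  have hD : ∀ v : Place Qb (FB Qb N), v.ord u = d * D v := fun v => by
    show _ = (d : ℤ) * ((H3RR.divOf u : Divisor Qb (FB Qb N)) v / d)
    rw [H3RR.divOf_apply hu, Int.mul_ediv_cancel' (hdiv v)]
  have hdeg : Divisor.degree D = 0 := by
    have h1 : (H3RR.divOf u : Divisor Qb (FB Qb N)) = (d : ℤ) • D := by
      ext v
      rw [H3RR.divOf_apply hu, hD v, Finsupp.smul_apply, smul_eq_mul]
    have h2 : Divisor.degree (H3RR.divOf u : Divisor Qb (FB Qb N)) = 0 := H3RR.degree_divOf hu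
    rw [h1, map_zsmul, smul_eq_mul] at h2
    exact (mul_eq_zero.mp h2).resolve_left (by exact_mod_cast hd)
  exact ⟨Pic0.mk ⟨D, hdeg⟩, ⟨D, hdeg⟩, rfl, hD⟩

/-- Hecke operators. -/
theorem Cls.hecke (hu : u ≠ 0) (h : Cls d N u x) (ℓ : Nat.Primes) [NeZero (ℓ : ℕ)] :
    Cls d N (H62.hf N ℓ u) (heckeOperatorBar N ℓ x) := by
  obtain ⟨D, rfl, hD⟩ := h
  refine ⟨⟨H62.heckeD N ℓ D, H62.degree_heckeD D.2⟩, ?_, H62.ord_hf hu hD⟩
  rw [heckeOperatorBar_apply]
  exact (H62.heckeOperatorAlong_mk D).symm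

theorem IsU.hecke (h : IsU A d N u) (ℓ : ℕ) [Fact ℓ.Prime] [NeZero ℓ] (hℓ : ¬ ℓ ∣ N) :
    IsU A d N (H62.hf N ℓ u) := by
  refine ⟨H62.hf_ne_zero h.ne, fun σ hσ => ?_, ?_⟩
  · rw [H62.smul_hf hℓ, h.fix σ hσ]
  · choose D hD using h.div
    by_cases hd : d = 0
    · subst hd
      intro v
      have h1 : (H3RR.divOf u : Divisor Qb (FB Qb N)) = 0 := by
        ext v
        rw [H3RR.divOf_apply h.ne, hD v]
        simp
      have h2 := H62.ord_hf (ℓ := ℓ) h.ne (d := 0) (D := 0) (fun v => by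
        rw [hD v]; simp) v
      rw [h2]
      simp
    · obtain ⟨x, hx⟩ := exists_cls_of_dvd hd h.ne h.div
      obtain ⟨D, -, hD⟩ := hx
      intro v
      rw [H62.ord_hf h.ne hD v]
      exact dvd_mul_right _ _

theorem IsU.mul (h : IsU A d N u) (h' : IsU A d N u') : IsU A d N (u * u') :=
  ⟨mul_ne_zero h.ne h'.ne, fun σ hσ => by rw [smul_mul', h.fix σ hσ, h'.fix σ hσ], fun v => by
    rw [v.ord_mul h.ne h'.ne]; exact dvd_add (h.div v) (h'.div v)⟩

theorem IsU.inv (h : IsU A d N u) : IsU A d N u⁻¹ :=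
  ⟨inv_ne_zero h.ne, fun σ hσ => by rw [smul_inv'', h.fix σ hσ], fun v => by
    rw [v.ord_inv]; exact (dvd_neg).mpr (h.div v)⟩

theorem IsU.one : IsU A d N (1 : FB Qb N) :=
  ⟨one_ne_zero, fun σ _ => smul_one _, fun v => by rw [v.ord_one]; exact dvd_zero _⟩

/-- Every torsion class fixed by inertia comes from a function fixed by inertia. -/
theorem exists_isU (x : JZero N) (hx : x ∈ fixTors A d (JZero N)) :
    ∃ u : FB Qb N, IsU A d N u ∧ Cls d N u x ∧ (u : LaurentSeries Qb).leadingCoeff = 1 := by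
  obtain ⟨D, u, hD, hu0, hu, hlead, hfix⟩ := H38.Mz.exists_fixed_repr
    (F₀ := modularFunctionFieldFull N) (H1.exists_order_one (L := AlgebraicClosure ℚ) N) x d hx.1
  exact ⟨u, ⟨hu0, fun σ hσ => (hfix σ (hx.2 σ hσ)).1, fun v => ⟨_, hu v⟩⟩, ⟨D, hD, hu⟩, hlead⟩

/-- The class of a function fixed by inertia is fixed by inertia. -/
theorem Cls.mem_fixTors (hd : d ≠ 0) (hu : IsU A d N u) (h : Cls d N u x) :
    x ∈ fixTors A d (JZero N) := by
  refine ⟨h.nsmul hu.ne, fun σ hσ => ?_⟩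
  have h0 := h
  obtain ⟨D, rfl, hD⟩ := h
  refine Cls.unique hd (u := u) (N := N) ?_ h0
  have hD0 : Divisor.degree (D : Divisor Qb (FB Qb N)) = 0 := D.2
  refine ⟨⟨arithmeticGalois (modularFunctionFieldFull N) σ • (D : Divisor Qb (FB Qb N)), ?_⟩,
    ?_, fun v => ?_⟩
  · show Divisor.degree _ = 0
    rw [SemilinearAut.degree_smul, hD0]
  · exact (SemilinearAut.pic0_smul_mk _ _).symm
  · show _ = (d : ℤ) * (arithmeticGalois (modularFunctionFieldFull N) σ •
      (D : Divisor Qb (FB Qb N))) v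
    rw [SemilinearAut.divisor_smul_apply, ← hD]
    have h1 := SemilinearAut.ord_smul (arithmeticGalois (L := Qb) (modularFunctionFieldFull N) σ)
      ((arithmeticGalois (modularFunctionFieldFull N) σ)⁻¹ • v) u
    rwa [smul_inv_smul, hu.fix σ hσ] at h1

section W

variable {M q : ℕ} [NeZero (M * q)] (hc : M.Coprime q)

/-- Atkin–Lehner involution `w_q`. -/
theorem Cls.atkin {u : FB Qb (M * q)} {x : JZero (M * q)} (h : Cls d (M * q) u x) :
    Cls d (M * q) (atkin (L := Qb) embQbar M q rfl hc u) (wJ M q rfl hc x) := by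
  obtain ⟨D, rfl, hD⟩ := h
  have hinv := (isAL_atkin (L := Qb) embQbar M q rfl hc).involutive rfl hc
  set W := H67.atkin (L := Qb) embQbar M q rfl hc with hWdef
  have e1 : wJ M q rfl hc (Pic0.mk D) = SemilinearAut.ofAlgAut W • Pic0.mk D :=
    H89HU.pushP_eq_smul hinv _
  have hD0 : Divisor.degree (D : Divisor Qb (FB Qb (M * q))) = 0 := D.2
  refine ⟨⟨SemilinearAut.ofAlgAut W • (D : Divisor Qb (FB Qb (M * q))), ?_⟩, ?_, fun v => ?_⟩
  · show Divisor.degree _ = 0
    rw [SemilinearAut.degree_smul, hD0]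
  · rw [e1]
    exact (SemilinearAut.pic0_smul_mk _ _).symm
  · show _ = (d : ℤ) * (SemilinearAut.ofAlgAut W • (D : Divisor Qb (FB Qb (M * q)))) v
    rw [SemilinearAut.divisor_smul_apply, ← hD]
    have h1 := SemilinearAut.ord_smul (SemilinearAut.ofAlgAut W)
      ((SemilinearAut.ofAlgAut W)⁻¹ • v) u
    rwa [smul_inv_smul] at h1

theorem IsU.atkin {u : FB Qb (M * q)} (h : IsU A d (M * q) u) :
    IsU A d (M * q) (atkin (L := Qb) embQbar M q rfl hc u) := by
  refine ⟨(map_ne_zero _).mpr h.ne, fun σ hσ => ?_, fun v => ?_⟩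
  · rw [← (isAL_atkin (L := Qb) embQbar M q rfl hc).galois σ, h.fix σ hσ]
  · set W := H67.atkin (L := Qb) embQbar M q rfl hc with hWdef
    have h1 := SemilinearAut.ord_smul (SemilinearAut.ofAlgAut W)
      ((SemilinearAut.ofAlgAut W)⁻¹ • v) u
    rw [smul_inv_smul] at h1
    have h2 : SemilinearAut.ofAlgAut W • u = W u := rfl
    rw [h2] at h1
    rw [h1]
    exact h.div _

end W

/-- **The node formula with loss `c`** (input P2): if `u` is fixed by inertia, `d ∣ div u`,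
`v₁(u) = |q|^a`, `v₂(u) = v₁(w u) = |q|^b` and `d ∣ b - a` then `d ∣ c * div (u mod v₁)`. -/
def NodeInput (d c q M : ℕ) [NeZero M] [NeZero (M * q)] (A : ValuationSubring Qb) {k : Type}
    [Field k] (π : A →+* k) : Prop :=
  ∀ hc : M.Coprime q, ∀ u : FB Qb (M * q), IsU A d (M * q) u → ∀ (a b : ℤ) (r s : LaurentSeries k),
    H97.HasG π (u : LaurentSeries Qb) ((q : Qb) ^ a) r →
    H97.HasG π ((atkin (L := Qb) embQbar M q rfl hc u : FB Qb (M * q)) : LaurentSeries Qb)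
      ((q : Qb) ^ b) s → (d : ℤ) ∣ b - a →
    ∀ (r' : modularFunctionFieldFullC k M), (r' : LaurentSeries k) = r →
      ∀ P : Place k (modularFunctionFieldFullC k M), (d : ℤ) ∣ c * P.ord r'

/-- **Lifting of torsion classes** (input P3, existence). -/
def LiftInput (d M : ℕ) (A : ValuationSubring Qb) {k : Type} [Field k] (π : A →+* k) : Prop :=
  ∀ r : modularFunctionFieldFullC k M, r ≠ 0 →
    (∀ P : Place k (modularFunctionFieldFullC k M), (d : ℤ) ∣ P.ord r) →
    ∃ g : FB Qb M, g ≠ 0 ∧ (∀ v : Place Qb (FB Qb M), (d : ℤ) ∣ v.ord g) ∧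
      ∃ c : modularFunctionFieldFullC k M, c ≠ 0 ∧
        H33.Red A π (g : LaurentSeries Qb) ((r * c ^ d : modularFunctionFieldFullC k M) :
          LaurentSeries k)

/-- **Injectivity of reduction on torsion** (input P3, injectivity). -/
def InjInput (d M : ℕ) (A : ValuationSubring Qb) {k : Type} [Field k] (π : A →+* k) : Prop :=
  ∀ g : FB Qb M, g ≠ 0 → (∀ v : Place Qb (FB Qb M), (d : ℤ) ∣ v.ord g) →
    ∀ c : modularFunctionFieldFullC k M,
      H33.Red A π (g : LaurentSeries Qb) ((c ^ d : modularFunctionFieldFullC k M) :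
        LaurentSeries k) → ∃ h : FB Qb M, g = h ^ d

end Fermat.Agent.H35.Geo
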