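import Fermat.Agent.H35Geo0
import Fermat.Agent.H31Scale

/-!
# Mazur's principle: reductions of functions
-/

set_option autoImplicit false
set_option linter.unusedSectionVars false
set_option linter.style.haveILetI false

noncomputable section

open AlgebraicCurve ModularCurve IntermediateField HahnSeries Fermat.Agent.H67
open Fermat.Agent.H34.Two (locL resL mem_locL_iff resL_mul_eq)
open Fermat.Agent.H9 (Tmul)
open Fermat.Agent.H33 (cst incl valRing valRes IsRep valRes_eq Red)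

namespace Fermat.Agent.H35.Geo

local notation "Qb" => AlgebraicClosure ℚ
local notation "GQ" => AlgebraicClosure ℚ ≃ₐ[ℚ] AlgebraicClosure ℚ

section Gen

variable {L : Type*} [Field L] {A : ValuationSubring L} {k : Type*} [Field k] {π : A →+* k}
  {f : LaurentSeries L} {r s : LaurentSeries k}

theorem mem_valRing_iff : f ∈ valRing A π ↔ f ∈ locL A π := by
  rw [mem_locL_iff]
  rfl

theorem valRes_eq_resL (h : f ∈ valRing A π) (h' : f ∈ locL A π) :
    valRes A π ⟨f, h⟩ = resL A π ⟨f, h'⟩ := by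
  obtain ⟨y, z, hz, he⟩ := (mem_locL_iff A π).mp h'
  have h1 := valRes_eq (A := A) (π := π) (f := f) (g := y) (h := z) ⟨hz, he⟩ h
  have h2 := resL_mul_eq A π h' hz he
  rw [h1, ← h2, mul_div_cancel_right₀ _ hz]

theorem red_of_locL (h : f ∈ locL A π) (hr : resL A π ⟨f, h⟩ ≠ 0) :
    Red A π f (resL A π ⟨f, h⟩) :=
  Red.of_mem (mem_valRing_iff.mpr h) (valRes_eq_resL _ _) hr

theorem red_iff_locL : Red A π f r ↔ r ≠ 0 ∧ ∃ c : L, c ≠ 0 ∧
    ∃ h : cst c * f ∈ locL A π, resL A π ⟨_, h⟩ = r := by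
  constructor
  · rintro ⟨hr, c, hc, h, rfl⟩
    exact ⟨hr, c, hc, mem_valRing_iff.mp h, (valRes_eq_resL _ _).symm⟩
  · rintro ⟨hr, c, hc, h, rfl⟩
    exact ⟨hr, c, hc, mem_valRing_iff.mpr h, valRes_eq_resL _ _⟩

theorem red_of_hasG {c : L} (hc : c ≠ 0) (h : H97.HasG π f c r) : Red A π f r := by
  obtain ⟨y, z, hy, hz, h1, h2⟩ := h
  have hrep : IsRep A π (cst c⁻¹ * f) y z := by
    refine ⟨hz, ?_⟩
    rw [mul_assoc]
    show cst c⁻¹ * (f * coeffMap A.subtype z) = coeffMap A.subtype y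
    rw [h1]
    show cst c⁻¹ * (cst c * coeffMap A.subtype y) = coeffMap A.subtype y
    rw [← mul_assoc, ← H33.cst_mul, inv_mul_cancel₀ hc, H33.cst_one, one_mul]
  have hm : cst c⁻¹ * f ∈ valRing A π := ⟨_, _, hrep⟩
  have hr : r = coeffMap π y / coeffMap π z := by rw [← h2, mul_div_cancel_right₀ _ hz]
  refine ⟨?_, c⁻¹, inv_ne_zero hc, hm, ?_⟩
  · rw [hr]; exact div_ne_zero hy hz
  · rw [valRes_eq hrep hm, hr]

theorem exists_hasG (h : Red A π f r) : ∃ c : L, c ≠ 0 ∧ H97.HasG π f c r := by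
  obtain ⟨hr, c, hc, hm, h2⟩ := h
  obtain ⟨y, z, hrep⟩ := id hm
  rw [valRes_eq hrep hm] at h2
  obtain ⟨hz, h1⟩ := hrep
  refine ⟨c⁻¹, inv_ne_zero hc, y, z, ?_, hz, ?_, ?_⟩
  · intro h0
    rw [h0, zero_div] at h2
    exact hr h2.symm
  · show f * incl A z = cst c⁻¹ * incl A y
    rw [← h1, mul_assoc (cst c), ← mul_assoc (cst c⁻¹), ← H33.cst_mul, inv_mul_cancel₀ hc,
      H33.cst_one, one_mul]
  · rw [← h2, div_mul_cancel₀ _ hz]

theorem red_iff : Red A π f r ↔ ∃ c : L, c ≠ 0 ∧ H97.HasG π f c r :=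
  ⟨exists_hasG, fun ⟨_, hc, h⟩ => red_of_hasG hc h⟩

/-- Changing the reduction by a constant. -/
theorem red_cst_right (hπ : Function.Surjective π) (h : Red A π f r) {e : k} (he : e ≠ 0) :
    Red A π f (cst e * r) := by
  obtain ⟨a, rfl⟩ := hπ e
  have ha : (a : L) ≠ 0 := by
    intro h0
    apply he
    rw [show a = 0 from Subtype.ext h0, map_zero]
  rw [red_iff_locL] at h ⊢
  obtain ⟨hr, c, hc, hm, hres⟩ := h
  have e1 : cst ((a : L) * c) * f = coeffMap A.subtype (HahnSeries.single 0 a) * (cst c * f) := by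
    rw [H33.cst_mul, ← H97.algebraMap_eq_coeffMap, mul_assoc]
  have hm' : cst ((a : L) * c) * f ∈ locL A π := by
    rw [e1]
    exact mul_mem (H34.Two.coeffMap_mem_locL A π _) hm
  refine ⟨mul_ne_zero (H33.cst_ne_zero he) hr, _, mul_ne_zero ha hc, hm', ?_⟩
  have e2 : (⟨_, hm'⟩ : locL A π) = ⟨_, H34.Two.coeffMap_mem_locL A π (HahnSeries.single 0 a)⟩ *
      ⟨_, hm⟩ := Subtype.ext e1
  rw [e2, map_mul, H34.Two.resL_coeffMap, hres, H97.coeffMap_algebraMap']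

/-- `T_ℓ` and reductions. -/
theorem red_Tmul {ℓ : ℕ} [NeZero ℓ] {ζ : Aˣ}
    (h1 : IsPrimitiveRoot (Units.map (A.subtype : A →* L) ζ) ℓ)
    (h2 : IsPrimitiveRoot (Units.map (π : A →* k) ζ) ℓ) (h : Red A π f r) :
    Red A π (Tmul ℓ (Units.map (A.subtype : A →* L) ζ) f)
      (Tmul ℓ (Units.map (π : A →* k) ζ) r) := by
  rw [red_iff_locL] at h ⊢
  obtain ⟨hr, c, hc, hm, rfl⟩ := h
  obtain ⟨h3, h4⟩ := H62.Tmul_mem_locL h1 h2 hm
  have e1 : Tmul ℓ (Units.map (A.subtype : A →* L) ζ) (cst c * f) =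
      cst (c ^ (ℓ + 1)) * Tmul ℓ (Units.map (A.subtype : A →* L) ζ) f := by
    rw [H62.Tmul_mul ℓ h1]
    congr 1
    show Tmul ℓ _ (algebraMap L (LaurentSeries L) c) = algebraMap L (LaurentSeries L) _
    have h : ∀ c : L, algebraMap L (LaurentSeries L) c = HahnSeries.C c := fun c => by
      rw [algebraMap_laurentSeries_eq_single, HahnSeries.C_apply]
    rw [h, h]
    exact H62.Tmul_C ℓ h1 c
  have h5 : cst (c ^ (ℓ + 1)) * Tmul ℓ (Units.map (A.subtype : A →* L) ζ) f ∈ locL A π := by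
    rw [← e1]; exact h3
  refine ⟨H62.Tmul_ne_zero ℓ h2 hr, c ^ (ℓ + 1), pow_ne_zero _ hc, h5, ?_⟩
  rw [← h4]
  congr 1
  exact Subtype.ext e1.symm

end Gen

section Mod

variable {M q d d' : ℕ} [NeZero M] [NeZero (M * q)] {A : ValuationSubring Qb}
  {k : Type} [Field k] {π : A →+* k}

/-- Reductions of functions of level `Mq` are of level `M`. -/
theorem red_mem [NeZero q] (D : H89J.ModTwo M q A k π) {u : FB Qb (M * q)} {r : LaurentSeries k}
    (h : Red A π (u : LaurentSeries Qb) r) : r ∈ modularFunctionFieldFullC k M := by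
  rw [red_iff_locL] at h
  obtain ⟨hr, c, hc, hm, rfl⟩ := h
  have hm' : algebraMap Qb (FB Qb (M * q)) c * u ∈ D.T.V₁ := (D.V₁_mem _).mpr hm
  have h1 := D.ρ₁_eq _ hm'
  have h2 : resL A π ⟨_, hm⟩ = resL A π ⟨_, (D.V₁_mem _).mp hm'⟩ := rfl
  rw [h2, ← h1]
  exact (D.T.ρ₁ ⟨_, hm'⟩).2

theorem coe_const_mul {N : ℕ} (c : Qb) (u : FB Qb N) :
    ((algebraMap Qb (FB Qb N) c * u : FB Qb N) : LaurentSeries Qb) = cst c * (u : LaurentSeries Qb) :=
  rfl

/-- Reductions in terms of the two-component data. -/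
theorem red_of_V₁ [NeZero q] (D : H89J.ModTwo M q A k π) {f : FB Qb (M * q)} (hf : f ∈ D.T.V₁)
    (h : D.T.ρ₁ ⟨f, hf⟩ ≠ 0) :
    Red A π (f : LaurentSeries Qb) ((D.T.ρ₁ ⟨f, hf⟩ : modularFunctionFieldFullC k M) :
      LaurentSeries k) := by
  have h0 : ((D.T.ρ₁ ⟨f, hf⟩ : modularFunctionFieldFullC k M) : LaurentSeries k) ≠ 0 := by
    intro h'
    exact h (Subtype.ext h')
  have h1 := D.ρ₁_eq _ hf
  rw [h1] at h0
  rw [h1]
  exact red_of_locL _ h0

theorem red_const_mul_iff {N : ℕ} {f : FB Qb N} {c : Qb} (hc : c ≠ 0) {r : LaurentSeries k}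
    (h : Red A π ((algebraMap Qb (FB Qb N) c * f : FB Qb N) : LaurentSeries Qb) r) :
    Red A π (f : LaurentSeries Qb) r := by
  rw [coe_const_mul] at h
  have h3 := h.const_mul (inv_ne_zero hc)
  rwa [← mul_assoc, ← H33.cst_mul, inv_mul_cancel₀ hc, H33.cst_one, one_mul] at h3

theorem exists_red [NeZero q] (D : H89J.ModTwo M q A k π) {u : FB Qb (M * q)} (hu : u ≠ 0) :
    ∃ r : modularFunctionFieldFullC k M, r ≠ 0 ∧
      Red A π (u : LaurentSeries Qb) (r : LaurentSeries k) := by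
  obtain ⟨c, hc, hm, hρ⟩ := D.T.scale₁ u hu
  exact ⟨_, hρ, red_const_mul_iff hc (red_of_V₁ D hm hρ)⟩

/-- Functions with a given reduction are, up to a constant, in `V₁` with the same reduction. -/
theorem exists_V₁ [NeZero q] (D : H89J.ModTwo M q A k π) {u : FB Qb (M * q)}
    {r : modularFunctionFieldFullC k M} (h : Red A π (u : LaurentSeries Qb) (r : LaurentSeries k)) :
    ∃ c : Qb, c ≠ 0 ∧ ∃ hm : algebraMap Qb (FB Qb (M * q)) c * u ∈ D.T.V₁,
      D.T.ρ₁ ⟨_, hm⟩ = r := by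
  rw [red_iff_locL] at h
  obtain ⟨hr, c, hc, hm, hres⟩ := h
  have hm' : algebraMap Qb (FB Qb (M * q)) c * u ∈ D.T.V₁ := (D.V₁_mem _).mpr hm
  refine ⟨c, hc, hm', ?_⟩
  apply Subtype.ext
  rw [D.ρ₁_eq _ hm']
  exact hres

/-- The reduction relation between `x ∈ J_0(Mq)[d]^I` and `y ∈ J_0(M)[d']`. -/
def RelD (π : A →+* k) (d d' M q : ℕ) [NeZero M] [NeZero (M * q)] (x : JZero (M * q))
    (y : JZero M) : Prop :=
  ∃ (u : FB Qb (M * q)) (r : modularFunctionFieldFullC k M) (g : FB Qb M)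
    (s : modularFunctionFieldFullC k M),
    IsU A d (M * q) u ∧ Cls d (M * q) u x ∧
    Red A π (u : LaurentSeries Qb) (r : LaurentSeries k) ∧
    g ≠ 0 ∧ Cls d' M g y ∧ s ≠ 0 ∧
    Red A π (g : LaurentSeries Qb) ((r * s ^ d' : modularFunctionFieldFullC k M) : LaurentSeries k)

theorem RelD.add {x x' : JZero (M * q)} {y y' : JZero M} (h : RelD π d d' M q x y)
    (h' : RelD π d d' M q x' y') : RelD π d d' M q (x + x') (y + y') := by
  obtain ⟨u, r, g, s, hu, hx, hr, hg, hy, hs, hg2⟩ := h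
  obtain ⟨u', r', g', s', hu', hx', hr', hg', hy', hs', hg2'⟩ := h'
  refine ⟨u * u', r * r', g * g', s * s', hu.mul hu', hx.mul hu.ne hu'.ne hx', hr.mul hr',
    mul_ne_zero hg hg', hy.mul hg hg' hy', mul_ne_zero hs hs', ?_⟩
  have h1 := hg2.mul hg2'
  have h2 : ((r * r' * (s * s') ^ d' : modularFunctionFieldFullC k M) : LaurentSeries k) =
      ((r * s ^ d' : modularFunctionFieldFullC k M) : LaurentSeries k) *
      ((r' * s' ^ d' : modularFunctionFieldFullC k M) : LaurentSeries k) := by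
    rw [← IntermediateField.coe_mul]
    congr 1
    rw [mul_pow]
    ring
  rw [h2]
  exact h1

theorem RelD.neg {x : JZero (M * q)} {y : JZero M} (h : RelD π d d' M q x y) :
    RelD π d d' M q (-x) (-y) := by
  obtain ⟨u, r, g, s, hu, hx, hr, hg, hy, hs, hg2⟩ := h
  refine ⟨u⁻¹, r⁻¹, g⁻¹, s⁻¹, hu.inv, hx.inv, ?_, inv_ne_zero hg, hy.inv, inv_ne_zero hs, ?_⟩
  · exact hr.inv
  · have h1 := hg2.inv
    have h2 : ((r⁻¹ * s⁻¹ ^ d' : modularFunctionFieldFullC k M) : LaurentSeries k) =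
        (((r * s ^ d' : modularFunctionFieldFullC k M)) : LaurentSeries k)⁻¹ := by
      rw [← IntermediateField.coe_inv]
      congr 1
      rw [mul_inv, inv_pow]
    rw [h2]
    exact h1

/-- A function with reduction a `d`-th power up to constants. -/
theorem exists_const_root [IsAlgClosed k] (hd : d' ≠ 0) {e : k} (he : e ≠ 0) :
    ∃ a : k, a ≠ 0 ∧ a ^ d' = e := by
  obtain ⟨a, ha⟩ := IsAlgClosed.exists_pow_nat_eq e (Nat.pos_of_ne_zero hd)
  refine ⟨a, ?_, ha⟩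
  rintro rfl
  rw [zero_pow hd] at ha
  exact he ha.symm

/-- If `f = h^n` then a reduction of `f` is an `n`-th power. -/
theorem exists_pow_of_red [NeZero q] [IsAlgClosed k] (hπ : Function.Surjective π)
    (D : H89J.ModTwo M q A k π) {n : ℕ} (hn : n ≠ 0) {f h : FB Qb (M * q)} (hh : h ≠ 0)
    (hf : f = h ^ n) {r : modularFunctionFieldFullC k M}
    (hr : Red A π (f : LaurentSeries Qb) (r : LaurentSeries k)) :
    ∃ t : modularFunctionFieldFullC k M, t ≠ 0 ∧ r = t ^ n := by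
  obtain ⟨t, ht, hht⟩ := exists_red D hh
  have h1 : Red A π (f : LaurentSeries Qb) ((t : LaurentSeries k) ^ n) := by
    rw [hf]
    exact hht.pow n
  obtain ⟨c, hc, hcr⟩ := h1.unique hπ hr
  obtain ⟨a, ha, ha'⟩ := exists_const_root hn hc
  refine ⟨algebraMap k _ a * t, mul_ne_zero ((map_ne_zero _).mpr ha) ht, ?_⟩
  apply Subtype.ext
  rw [hcr, mul_pow, ← map_pow, ha']
  rfl

/-- Uniqueness. -/
theorem RelD.eq_zero [NeZero q] [IsAlgClosed k] (hπ : Function.Surjective π)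
    (D : H89J.ModTwo M q A k π) {c : ℕ} (hd : d = c * d') (hd0 : d ≠ 0)
    (Hinj : InjInput d' M A π) {y : JZero M} (h : RelD π d d' M q 0 y) : y = 0 := by
  obtain ⟨u, r, g, s, hu, hx, hr, hg, hy, hs, hg2⟩ := h
  have hd'0 : d' ≠ 0 := fun h => hd0 (by rw [hd, h, mul_zero])
  obtain ⟨h, hh, huh⟩ := hx.exists_root hd0 hu.ne
  obtain ⟨t, ht, hrt⟩ := exists_pow_of_red hπ D hd0 hh huh hr
  have h1 : r * s ^ d' = (t ^ c * s) ^ d' := by
    rw [hrt, hd, pow_mul, mul_pow]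
  rw [h1] at hg2
  have hdiv : ∀ v : Place Qb (FB Qb M), (d' : ℤ) ∣ v.ord g := by
    obtain ⟨D', -, hD'⟩ := hy
    exact fun v => ⟨_, hD' v⟩
  obtain ⟨h', hh'⟩ := Hinj g hg hdiv _ hg2
  have hh'0 : h' ≠ 0 := by
    rintro rfl
    rw [zero_pow hd'0] at hh'
    exact hg hh'
  have h2 : Cls d' M g 0 := by
    rw [hh']
    exact Cls.pow_self hh'0
  exact hy.unique hd'0 h2

/-- Existence. -/
theorem exists_relD [NeZero q] [IsAlgClosed k] (D : H89J.ModTwo M q A k π)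
    (hd'0 : d' ≠ 0)
    (Hlift : LiftInput d' M A π) {x : JZero (M * q)} (hx : x ∈ fixTors A d (JZero (M * q)))
    (H : ∀ u : FB Qb (M * q), IsU A d (M * q) u → Cls d (M * q) u x →
      ∀ r : modularFunctionFieldFullC k M, Red A π (u : LaurentSeries Qb) (r : LaurentSeries k) →
        ∀ P : Place k (modularFunctionFieldFullC k M), (d' : ℤ) ∣ P.ord r) :
    ∃ y, RelD π d d' M q x y := by
  obtain ⟨u, hu, hux, -⟩ := exists_isU x hx
  obtain ⟨r, hr0, hr⟩ := exists_red D hu.ne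
  obtain ⟨g, hg, hgd, s, hs, hgs⟩ := Hlift r hr0 (H u hu hux r hr)
  obtain ⟨y, hy⟩ := exists_cls_of_dvd hd'0 hg hgd
  exact ⟨y, u, r, g, s, hu, hux, hr, hg, hy, hs, hgs⟩

/-- Hecke operators preserve the residue field of `F_M`. -/
theorem Tmul_mem [NeZero q] (D : H89J.ModTwo M q A k π) {ℓ : ℕ} [NeZero ℓ] [Fact ℓ.Prime]
    (hℓ : ¬ ℓ ∣ M * q) {ζ : Aˣ}
    (h1 : IsPrimitiveRoot (Units.map (A.subtype : A →* Qb) ζ) ℓ)
    (h2 : IsPrimitiveRoot (Units.map (π : A →* k) ζ) ℓ)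
    (Hs : ∀ r : modularFunctionFieldFullC k M, r ≠ 0 → ∃ u : FB Qb (M * q),
      Red A π (u : LaurentSeries Qb) (r : LaurentSeries k))
    {r : modularFunctionFieldFullC k M} (hr : r ≠ 0) :
    Tmul ℓ (Units.map (π : A →* k) ζ) (r : LaurentSeries k) ∈ modularFunctionFieldFullC k M := by
  obtain ⟨u, hu⟩ := Hs r hr
  have h3 := red_Tmul h1 h2 hu
  rw [← H62.coe_hf hℓ h1] at h3
  exact red_mem D h3

theorem RelD.hecke [NeZero q] (D : H89J.ModTwo M q A k π)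
    (ℓ : Nat.Primes) (hℓ : ¬ (ℓ : ℕ) ∣ M * q) (hk : ((ℓ : ℕ) : k) ≠ 0)
    (Hs : ∀ r : modularFunctionFieldFullC k M, r ≠ 0 → ∃ u : FB Qb (M * q),
      Red A π (u : LaurentSeries Qb) (r : LaurentSeries k))
    {x : JZero (M * q)} {y : JZero M} (h : RelD π d d' M q x y) :
    RelD π d d' M q (heckeOperatorBar (M * q) ℓ x) (heckeOperatorBar M ℓ y) := by
  obtain ⟨u, r, g, s, hu, hx, hr, hg, hy, hs, hg2⟩ := h
  haveI : Fact (ℓ : ℕ).Prime := ⟨ℓ.2⟩
  haveI : NeZero (ℓ : ℕ) := ⟨ℓ.2.ne_zero⟩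
  have hℓM : ¬ (ℓ : ℕ) ∣ M := fun h => hℓ (h.trans (dvd_mul_right _ _))
  obtain ⟨ζ, h1, h2⟩ := H62.exists_zeta (L := Qb) π (ℓ : ℕ) hk
  have hr0 : r ≠ 0 := by
    rintro rfl
    exact hr.res_ne rfl
  have hTr := Tmul_mem D hℓ h1 h2 Hs hr0
  have hTs := Tmul_mem D hℓ h1 h2 Hs hs
  refine ⟨H62.hf (M * q) ℓ u, ⟨_, hTr⟩, H62.hf M ℓ g, ⟨_, hTs⟩, hu.hecke ℓ hℓ, hx.hecke hu.ne ℓ,
    ?_, H62.hf_ne_zero hg, hy.hecke hg ℓ, ?_, ?_⟩
  · rw [H62.coe_hf hℓ h1]
    exact red_Tmul h1 h2 hr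
  · intro h0
    have := congrArg Subtype.val h0
    exact H62.Tmul_ne_zero (ℓ : ℕ) h2 (fun h => hs (Subtype.ext h)) this
  · have h3 := red_Tmul h1 h2 hg2
    rw [← H62.coe_hf hℓM h1] at h3
    have h4 : ((⟨_, hTr⟩ * ⟨_, hTs⟩ ^ d' : modularFunctionFieldFullC k M) : LaurentSeries k) =
        Tmul (ℓ : ℕ) (Units.map (π : A →* k) ζ)
          ((r * s ^ d' : modularFunctionFieldFullC k M) : LaurentSeries k) := by
      rw [IntermediateField.coe_mul, IntermediateField.coe_mul, IntermediateField.coe_pow,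
        IntermediateField.coe_pow, H62.Tmul_mul _ h2, H62.Tmul_pow _ h2]
    rw [h4]
    exact h3

end Mod

end Fermat.Agent.H35.Geo
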