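import Fermat.Agent.H35Geo1

/-!
# Mazur's principle: the kernel of the two reductions
-/

set_option autoImplicit false
set_option linter.unusedSectionVars false
set_option linter.style.haveILetI false

noncomputable section

open AlgebraicCurve ModularCurve IntermediateField HahnSeries Fermat.Agent.H67
open Fermat.Agent.H34.Two (locL resL mem_locL_iff resL_mul_eq)
open Fermat.Agent.H33 (cst Red)

namespace Fermat.Agent.H35.Geo

local notation "Qb" => AlgebraicClosure ℚ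
local notation "GQ" => AlgebraicClosure ℚ ≃ₐ[ℚ] AlgebraicClosure ℚ

variable {M q d d' : ℕ} [NeZero M] [NeZero q] [NeZero (M * q)] {A : ValuationSubring Qb}
  {k : Type} [Field k] {π : A →+* k}

theorem exists_root_of_relD [IsAlgClosed k] (hπ : Function.Surjective π)
    (D : H89J.ModTwo M q A k π) (hd'0 : d' ≠ 0) {x : JZero (M * q)} (h : RelD π d d' M q x 0) :
    ∃ (u : FB Qb (M * q)) (e : modularFunctionFieldFullC k M), u ≠ 0 ∧ Cls d (M * q) u x ∧
      e ≠ 0 ∧ Red A π (u : LaurentSeries Qb) ((e ^ d' : modularFunctionFieldFullC k M) :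
        LaurentSeries k) := by
  obtain ⟨u, r, g, s, hu, hx, hr, hg, hy, hs, hg2⟩ := h
  obtain ⟨h, hh, hgh⟩ := hy.exists_root hd'0 hg
  have h1 : heckeAlphaBar Qb M q g = heckeAlphaBar Qb M q h ^ d' := by rw [hgh, map_pow]
  obtain ⟨t, ht, hrt⟩ := exists_pow_of_red hπ D hd'0 (f := heckeAlphaBar Qb M q g)
    (h := heckeAlphaBar Qb M q h) ((map_ne_zero _).mpr hh) h1 (r := r * s ^ d')
    (by rw [coe_heckeAlphaBar]; exact hg2)
  have h2 : r = (t * s⁻¹) ^ d' := by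
    rw [mul_pow, ← hrt, inv_pow, mul_assoc, mul_inv_cancel₀ (pow_ne_zero _ hs), mul_one]
  refine ⟨u, t * s⁻¹, hu.ne, hx, mul_ne_zero ht (inv_ne_zero hs), ?_⟩
  rw [← h2]
  exact hr

theorem exists_pair [IsAlgClosed k] (hπ : Function.Surjective π) (hc : M.Coprime q)
    (D : H89J.ModTwo M q A k π) {c : ℕ} (hd : d = c * d') (hd0 : d ≠ 0) {x : JZero (M * q)}
    (h : RelD π d d' M q x 0) (h' : RelD π d d' M q (wJ M q rfl hc x) 0) :
    ∃ (u : FB Qb (M * q)) (e e' : modularFunctionFieldFullC k M), u ≠ 0 ∧ Cls d (M * q) u x ∧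
      e ≠ 0 ∧ e' ≠ 0 ∧
      Red A π (u : LaurentSeries Qb) ((e ^ d' : modularFunctionFieldFullC k M) :
        LaurentSeries k) ∧
      Red A π ((atkin (L := Qb) embQbar M q rfl hc u : FB Qb (M * q)) : LaurentSeries Qb)
        ((e' ^ d' : modularFunctionFieldFullC k M) : LaurentSeries k) := by
  have hd'0 : d' ≠ 0 := fun h => hd0 (by rw [hd, h, mul_zero])
  obtain ⟨u, e, hu, hux, he, hue⟩ := exists_root_of_relD hπ D hd'0 h
  obtain ⟨u', e', hu', hux', he', hue'⟩ := exists_root_of_relD hπ D hd'0 h'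
  set W := atkin (L := Qb) embQbar M q rfl hc with hW
  have hWu : W u ≠ 0 := (map_ne_zero _).mpr hu
  have h1 : Cls d (M * q) (W u * u'⁻¹) 0 := by
    have := Cls.mul hWu (inv_ne_zero hu') (hux.atkin hc) hux'.inv
    rwa [add_neg_cancel] at this
  obtain ⟨g, hg, hgu⟩ := h1.exists_root hd0 (mul_ne_zero hWu (inv_ne_zero hu'))
  obtain ⟨t, ht, hgt⟩ := exists_red D hg
  refine ⟨u, e, e' * t ^ c, hu, hux, he, mul_ne_zero he' (pow_ne_zero _ ht), hue, ?_⟩
  have h2 : W u = u' * g ^ d := by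
    rw [← hgu]
    field_simp
  have h3 := hue'.mul (hgt.pow d)
  have h4 : (((e' * t ^ c) ^ d' : modularFunctionFieldFullC k M) : LaurentSeries k) =
      ((e' ^ d' : modularFunctionFieldFullC k M) : LaurentSeries k) * (t : LaurentSeries k) ^ d := by
    rw [hd, pow_mul, mul_pow]
    rfl
  rw [h4, h2]
  exact h3

/-- One component: a function with reduction a `d'`-th power is, up to `d'`-th powers, `≡ 1`. -/
theorem exists_eq1 (D : H89J.ModTwo M q A k π) (hd'0 : d' ≠ 0)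
    (Hs : ∀ r : modularFunctionFieldFullC k M, r ≠ 0 → ∃ u : FB Qb (M * q),
      Red A π (u : LaurentSeries Qb) (r : LaurentSeries k))
    {u : FB Qb (M * q)} {e : modularFunctionFieldFullC k M} (he : e ≠ 0)
    (h : Red A π (u : LaurentSeries Qb) ((e ^ d' : modularFunctionFieldFullC k M) :
        LaurentSeries k)) :
    ∃ h₁ : FB Qb (M * q), h₁ ≠ 0 ∧ D.T.Eq1 (u * h₁ ^ d') := by
  obtain ⟨g, hg⟩ := Hs e he
  have hg0 : g ≠ 0 := by
    rintro rfl
    exact hg.ne_zero rfl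
  have h1 : Red A π ((u * g⁻¹ ^ d' : FB Qb (M * q)) : LaurentSeries Qb)
      ((1 : modularFunctionFieldFullC k M) : LaurentSeries k) := by
    have h2 := h.mul (hg.inv.pow d')
    have h3 : ((e ^ d' : modularFunctionFieldFullC k M) : LaurentSeries k) *
        ((e : LaurentSeries k)⁻¹) ^ d' = ((1 : modularFunctionFieldFullC k M) :
          LaurentSeries k) := by
      have h4 : e ^ d' * e⁻¹ ^ d' = 1 := by
        rw [← mul_pow, mul_inv_cancel₀ he, one_pow]
      rw [← h4]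
      rfl
    rw [h3] at h2
    exact h2
  obtain ⟨c, hc, hm, hρ⟩ := exists_V₁ D h1
  obtain ⟨b, hb⟩ := IsAlgClosed.exists_pow_nat_eq c (Nat.pos_of_ne_zero hd'0)
  have hb0 : b ≠ 0 := by
    rintro rfl
    rw [zero_pow hd'0] at hb
    exact hc hb.symm
  have e1 : algebraMap Qb (FB Qb (M * q)) c * (u * g⁻¹ ^ d') =
      u * (algebraMap Qb (FB Qb (M * q)) b * g⁻¹) ^ d' := by
    rw [mul_pow, ← map_pow, hb]
    ring
  refine ⟨algebraMap Qb (FB Qb (M * q)) b * g⁻¹,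
    mul_ne_zero ((map_ne_zero _).mpr hb0) (inv_ne_zero hg0), ?_⟩
  rw [← e1]
  exact ⟨hm, hρ⟩

section Abs

open Fermat.Agent.H3RR

/-- The Frobenius relation for a function which is a `d'`-th power modulo both components. -/
theorem frobenius_class {K F k κ : Type*} [Field K] [Field F] [Algebra K F] [Field k] [Field κ]
    [Algebra k κ] {A : ValuationSubring K} {π : A →+* k} {q : ℕ}
    {T : H89SS.TwoComp K F k κ A π q}
    (hπ : Function.Surjective π) [IsAlgClosed K] [IsFF K F] [IsAlgClosed k] [IsFF k κ]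
    [IsLocalHom π] [CharZero K] [Fact q.Prime] [CharP k q]
    (arch : ∀ a b : A, π a = 0 → b ≠ 0 → ∃ n, b ∣ a ^ n)
    {d' c : ℕ} (hd : (d' : k) ≠ 0) {w : F ≃ₐ[K] F} (hw : T.Swap w) {φ : SemilinearAut K F}
    (hφ : T.Compat φ T.fr) {u h₁ h₂ : F} (hu : u ≠ 0) (hh₁ : h₁ ≠ 0) (hh₂ : h₂ ≠ 0)
    (heq₁ : T.Eq1 (u * h₁ ^ d')) (heq₂ : T.Eq1 (w u * h₂ ^ d'))
    (E₀ : Divisor.degZero (K := K) (F := F))
    (hE₀ : ∀ v : Place K F, v.ord u = (c * d' : ℕ) * (E₀ : Divisor K F) v) :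
    φ • (c • Pic0.mk E₀) + q • (SemilinearAut.ofAlgAut w • (c • Pic0.mk E₀)) = 0 := by
  have heq₂' : T.Eq2 (u * (w h₂) ^ d') := by
    obtain ⟨hm, hρ⟩ := heq₂
    have e1 : w (w u * h₂ ^ d') = u * (w h₂) ^ d' := by
      rw [map_mul, hw.invol, map_pow]
    rw [← e1]
    exact ⟨hw.mem _ hm, (hw.ρ _ hm _).trans hρ⟩
  have hE₀0 : Divisor.degree (E₀ : Divisor K F) = 0 := E₀.2
  have hq2 : 2 ≤ q := (Fact.out : q.Prime).two_le
  obtain ⟨E, f', hE, hEE⟩ := T.exists_unitPair hπ hq2 arch (d := d')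
    (E₀ := c • (E₀ : Divisor K F)) (f₀ := u)
    (by rw [map_nsmul, hE₀0, smul_zero]) hu
    (fun v => by
      rw [hE₀, Finsupp.smul_apply, nsmul_eq_mul]
      push_cast
      ring) hh₁ ((map_ne_zero w).mpr hh₂) heq₁ heq₂'
  have hfr := hE.frobenius hπ arch hd hw hφ
  have hmkE : Pic0.mk ⟨E, hE.degree⟩ = c • Pic0.mk E₀ := by
    have h1 : c • Pic0.mk E₀ = Pic0.mk (c • E₀) := rfl
    rw [h1, H89SS.mk_eq_mk]
    exact hEE
  rw [← hmkE, SemilinearAut.pic0_smul_mk, SemilinearAut.pic0_smul_mk]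
  have h6 : Pic0.mk (SemilinearAut.degZeroSMulHom φ ⟨E, hE.degree⟩) +
      q • Pic0.mk (SemilinearAut.degZeroSMulHom (SemilinearAut.ofAlgAut w) ⟨E, hE.degree⟩) =
      Pic0.mk (SemilinearAut.degZeroSMulHom φ ⟨E, hE.degree⟩ +
        q • SemilinearAut.degZeroSMulHom (SemilinearAut.ofAlgAut w) ⟨E, hE.degree⟩) := rfl
  rw [h6, H89SS.mk_eq_zero]
  exact hfr

end Abs

theorem kernel_rel [Fact q.Prime] [CharP k q] [IsAlgClosed k] [IsLocalHom π]
    (hπ : Function.Surjective π) (arch : ∀ a b : A, π a = 0 → b ≠ 0 → ∃ n, b ∣ a ^ n)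
    (hFF : H94.FunField k (modularFunctionFieldFullC k M)) (hc : M.Coprime q)
    (D : H89J.ModTwo M q A k π) {c : ℕ} (hd : d = c * d') (hdk : (d : k) ≠ 0)
    (Hs : ∀ r : modularFunctionFieldFullC k M, r ≠ 0 → ∃ u : FB Qb (M * q),
      Red A π (u : LaurentSeries Qb) (r : LaurentSeries k))
    {x : JZero (M * q)}
    (h : RelD π d d' M q x 0) (h' : RelD π d d' M q (wJ M q rfl hc x) 0)
    {φ : GQ} (hφ : A.IsFrobeniusAt φ q) :
    φ • (c • x) + q • wJ M q rfl hc (c • x) = 0 := by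
  haveI := hFF
  have hd0 : d ≠ 0 := by
    rintro rfl
    exact hdk (by simp)
  have hd'k : (d' : k) ≠ 0 := by
    intro h0
    apply hdk
    rw [hd, Nat.cast_mul, h0, mul_zero]
  have hd'0 : d' ≠ 0 := fun h => hd0 (by rw [hd, h, mul_zero])
  obtain ⟨u, e, e', hu, hux, he, he', hue, hue'⟩ := exists_pair hπ hc D hd hd0 h h'
  obtain ⟨h₁, hh₁, heq₁⟩ := exists_eq1 D hd'0 Hs he hue
  obtain ⟨h₂, hh₂, heq₂⟩ := exists_eq1 D hd'0 Hs he' hue'
  have hAL : IsAL M q (atkin (L := Qb) embQbar M q rfl hc) := isAL_atkin embQbar M q rfl hc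
  have hinv : ∀ f, atkin (L := Qb) embQbar M q rfl hc (atkin (L := Qb) embQbar M q rfl hc f) = f :=
    hAL.involutive rfl hc
  obtain ⟨E₀, rfl, hE₀⟩ := hux
  subst hd
  have key := frobenius_class hπ arch hd'k (D.swap _ hAL) (D.frobenius φ hφ) hu hh₁ hh₂ heq₁ heq₂
    E₀ hE₀
  have e2 : wJ M q rfl hc (c • Pic0.mk E₀) =
      SemilinearAut.ofAlgAut (atkin (L := Qb) embQbar M q rfl hc) •
        (c • Pic0.mk E₀ : JZero (M * q)) :=
    H89HU.pushP_eq_smul hinv _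
  rw [e2]
  exact key

end Fermat.Agent.H35.Geo
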