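import Fermat.Agent.H35Geo2
import Fermat.Agent.H33Inertia
import Fermat.Agent.H42Inputs
import Fermat.Agent.H35LTMain

/-!
# Mazur's principle: assembly of `MazurInput`
-/

set_option autoImplicit false
set_option linter.unusedSectionVars false
set_option linter.style.haveILetI false

noncomputable section

open AlgebraicCurve ModularCurve IntermediateField HahnSeries Fermat.Agent.H67
open Fermat.Agent.H33 (cst Red)

namespace Fermat.Agent.H35.Geo

local notation "Qb" => AlgebraicClosure ℚ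
local notation "GQ" => AlgebraicClosure ℚ ≃ₐ[ℚ] AlgebraicClosure ℚ

/-- A homomorphism from a relation. -/
theorem exists_hom_of_rel {X Y : Type*} [AddCommGroup X] [AddCommGroup Y] (R : X → Y → Prop)
    (tot : ∀ x, ∃ y, R x y) (add : ∀ x x' y y', R x y → R x' y' → R (x + x') (y + y'))
    (neg : ∀ x y, R x y → R (-x) (-y)) (uniq : ∀ y, R 0 y → y = 0) :
    ∃ f : X →+ Y, ∀ x y, R x y ↔ f x = y := by
  have huniq : ∀ x y y', R x y → R x y' → y = y' := by
    intro x y y' h h'
    have h1 := add _ _ _ _ h (neg _ _ h')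
    rw [add_neg_cancel] at h1
    have h2 := uniq _ h1
    rwa [add_neg_eq_zero] at h2
  choose f hf using tot
  refine ⟨AddMonoidHom.mk' f fun x x' => huniq _ _ _ (hf _) (add _ _ _ _ (hf x) (hf x')),
    fun x y => ⟨fun h => huniq _ _ _ (hf x) h, ?_⟩⟩
  rintro rfl
  exact hf x

/-- Input P4a, values: functions fixed by inertia have value a power of `q`. -/
def ValInput (q N : ℕ) (A : ValuationSubring Qb) {k : Type} [Field k] (π : A →+* k) : Prop :=
  ∀ u : FB Qb N, u ≠ 0 →
    (∀ σ ∈ A.inertiaSubgroupIn ℚ, arithmeticGalois (modularFunctionFieldFull N) σ • u = u) →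
    ∃ (a : ℤ) (r : LaurentSeries k), H97.HasG π (u : LaurentSeries Qb) ((q : Qb) ^ a) r

/-- Input P4a, the component group coordinate. -/
def NInput (d M q : ℕ) [NeZero M] [NeZero (M * q)] (A : ValuationSubring Qb) {k : Type} [Field k]
    (π : A →+* k) : Prop :=
  ∀ hc : M.Coprime q, ∃ n : fixTors A d (JZero (M * q)) →+ ZMod d,
    (∀ (x : fixTors A d (JZero (M * q))) (u : FB Qb (M * q)) (a b : ℤ) (r s : LaurentSeries k),
      IsU A d (M * q) u → Cls d (M * q) u (x : JZero (M * q)) →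
      H97.HasG π (u : LaurentSeries Qb) ((q : Qb) ^ a) r →
      H97.HasG π ((atkin (L := Qb) embQbar M q rfl hc u : FB Qb (M * q)) : LaurentSeries Qb)
        ((q : Qb) ^ b) s → n x = ((b - a : ℤ) : ZMod d)) ∧
    (∀ ℓ : Nat.Primes, ¬ (ℓ : ℕ) ∣ M * q → ∀ x x' : fixTors A d (JZero (M * q)),
      (x' : JZero (M * q)) = heckeOperatorBar (M * q) ℓ (x : JZero (M * q)) →
      n x' = ((ℓ : ℕ) + 1 : ZMod d) * n x) ∧
    (∀ x x' : fixTors A d (JZero (M * q)),
      (x' : JZero (M * q)) = wJ M q rfl hc (x : JZero (M * q)) → n x' = - n x)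

section Abstract

variable {d c q R : ℕ} {A : ValuationSubring Qb} {φ : H53.GQ} {J J₁ : Type*} [AddCommGroup J]
  [Module HeckeAlg J] [DistribMulAction H53.GQ J] [AddCommGroup J₁] [Module HeckeAlg J₁]
  {w : J →+ J}

/-- `w` on inertia invariant torsion points. -/
def wFix (A : ValuationSubring Qb) (d : ℕ) (w : J →+ J)
    (hwG : ∀ (σ : H53.GQ) (x : J), w (σ • x) = σ • w x) :
    fixTors A d J →+ fixTors A d J where
  toFun x := ⟨w x, by
    refine ⟨?_, fun σ hσ => ?_⟩
    · rw [← map_nsmul, x.2.1, map_zero]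
    · rw [← hwG, x.2.2 σ hσ]⟩
  map_zero' := Subtype.ext (map_zero _)
  map_add' x y := Subtype.ext (map_add _ _ _)

/-- `w` on the kernel of `n`. -/
def wKer (hwG : ∀ (σ : H53.GQ) (x : J), w (σ • x) = σ • w x) (n : fixTors A d J →+ ZMod d)
    (hw : ∀ x x' : fixTors A d J, (x' : J) = w (x : J) → n x' = - n x) :
    n.ker →+ n.ker where
  toFun x := ⟨wFix A d w hwG x, by
    rw [AddMonoidHom.mem_ker, hw x _ rfl, (AddMonoidHom.mem_ker).mp x.2, neg_zero]⟩
  map_zero' := Subtype.ext (map_zero _)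
  map_add' x y := Subtype.ext (map_add _ _ _)

theorem coe_wKer (hwG : ∀ (σ : H53.GQ) (x : J), w (σ • x) = σ • w x)
    (n : fixTors A d J →+ ZMod d)
    (hw : ∀ x x' : fixTors A d J, (x' : J) = w (x : J) → n x' = - n x) (x : n.ker) :
    (((wKer hwG n hw x : n.ker) : fixTors A d J) : J) = w ((x : fixTors A d J) : J) := rfl

theorem mazurData_mk (T : Nat.Primes → J → J) (T₁ : Nat.Primes → J₁ → J₁)
    (hT : ∀ ℓ x, (heckeGen ℓ : HeckeAlg) • x = T ℓ x)
    (hT₁ : ∀ ℓ x, (heckeGen ℓ : HeckeAlg) • x = T₁ ℓ x)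
    (hwT : ∀ ℓ : Nat.Primes, ¬ (ℓ : ℕ) ∣ R → ∀ x, w (T ℓ x) = T ℓ (w x))
    (hwG : ∀ (σ : H53.GQ) (x : J), w (σ • x) = σ • w x)
    (n : fixTors A d J →+ ZMod d)
    (hn : ∀ ℓ : Nat.Primes, ¬ (ℓ : ℕ) ∣ R → ∀ x x' : fixTors A d J, (x' : J) = T ℓ (x : J) →
      n x' = ((ℓ : ℕ) + 1 : ZMod d) * n x)
    (hw : ∀ x x' : fixTors A d J, (x' : J) = w (x : J) → n x' = - n x)
    (δ : n.ker →+ J₁)
    (hδ : ∀ ℓ : Nat.Primes, ¬ (ℓ : ℕ) ∣ R → ∀ x x' : n.ker,
      ((x' : fixTors A d J) : J) = T ℓ ((x : fixTors A d J) : J) → δ x' = T₁ ℓ (δ x))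
    (hker : ∀ x y : n.ker, ((y : fixTors A d J) : J) = w ((x : fixTors A d J) : J) → δ x = 0 →
      δ y = 0 → φ • (c • ((x : fixTors A d J) : J)) + q • w (c • ((x : fixTors A d J) : J)) = 0) :
    Nonempty (MazurData d c q R A φ J J₁ w) :=
  ⟨{
    n := n
    δ := fun i => cond i (δ.comp (wKer hwG n hw)) δ
    n_hecke := fun ℓ hℓ x x' hx => hn ℓ hℓ x x' (hx.trans (hT ℓ _))
    δ_hecke := by
      intro i ℓ hℓ x x' hx
      rw [hT] at hx
      cases i
      · show δ x' = heckeGen ℓ • δ x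
        rw [hT₁]
        exact hδ ℓ hℓ x x' hx
      · show δ (wKer hwG n hw x') = heckeGen ℓ • δ (wKer hwG n hw x)
        rw [hT₁]
        refine hδ ℓ hℓ _ _ ?_
        rw [coe_wKer, coe_wKer, hx]
        exact hwT ℓ hℓ _
    ker := fun x hx => hker x (wKer hwG n hw x) (coe_wKer hwG n hw x) (hx false) (hx true) }⟩

/-- The case `d ∣ c` is trivial. -/
theorem mazurData_of_dvd (h : d ∣ c) : Nonempty (MazurData d c q R A φ J J₁ w) := by
  refine ⟨{
    n := 0
    δ := fun _ => 0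
    n_hecke := fun ℓ _ x x' _ => by
      rw [AddMonoidHom.zero_apply, AddMonoidHom.zero_apply, mul_zero]
    δ_hecke := fun i ℓ _ x x' _ => by
      rw [AddMonoidHom.zero_apply, AddMonoidHom.zero_apply, smul_zero]
    ker := ?_ }⟩
  intro x _
  obtain ⟨e, rfl⟩ := h
  have h1 : (d * e) • ((x : fixTors A d J) : J) = 0 := by
    rw [mul_comm, mul_smul, (x : fixTors A d J).2.1, smul_zero]
  rw [h1, smul_zero, map_zero, smul_zero, add_zero]

end Abstract

section Lift

variable {M q : ℕ} [NeZero M] [NeZero (M * q)] {A : ValuationSubring Qb}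

/-- Every function in characteristic `q` lifts. -/
theorem exists_lift (hq : q.Prime) (hA : A.LiesOverPrime q)
    (r : modularFunctionFieldFullC (IsLocalRing.ResidueField A) M) (hr : r ≠ 0) :
    ∃ u : FB Qb M, Red A (IsLocalRing.residue A) (u : LaurentSeries Qb)
      (r : LaurentSeries (IsLocalRing.ResidueField A)) := by
  haveI : Fact q.Prime := ⟨hq⟩
  obtain ⟨ϖ, D⟩ := H33.exists_discFld (H' := (⊤ : Subgroup GQ)) (H31.In.inertiaFacts hA) hA hq
  obtain ⟨f, hf, hm, hres⟩ := D.exists_lift M r.2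
  have hf' : f ∈ FB Qb M := by
    show f ∈ laurentBaseChange Qb (modularFunctionFieldFull M)
    rw [H42.laurentBaseChange_full Qb M]
    exact H33.fieldE_le hf
  exact ⟨⟨f, hf'⟩, Red.of_mem hm hres fun h => hr (Subtype.ext h)⟩

theorem exists_lift' (hq : q.Prime) (hA : A.LiesOverPrime q)
    (r : modularFunctionFieldFullC (IsLocalRing.ResidueField A) M) (hr : r ≠ 0) :
    ∃ u : FB Qb (M * q), Red A (IsLocalRing.residue A) (u : LaurentSeries Qb)
      (r : LaurentSeries (IsLocalRing.ResidueField A)) := by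
  haveI : NeZero q := ⟨hq.ne_zero⟩
  obtain ⟨u, hu⟩ := exists_lift hq hA r hr
  refine ⟨heckeAlphaBar Qb M q u, ?_⟩
  rw [coe_heckeAlphaBar]
  exact hu

end Lift

section Main

variable {M q c d d' : ℕ} [NeZero M] [NeZero q] [NeZero (M * q)] {A : ValuationSubring Qb}

theorem ord_eq_of_red {k : Type} [Field k] {A : ValuationSubring Qb} {π : A →+* k}
    [IsAlgClosed k] [H3RR.IsFF k (modularFunctionFieldFullC k M)]
    (hπ : Function.Surjective π) {f : LaurentSeries Qb} {r r' : modularFunctionFieldFullC k M}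
    (h : Red A π f (r : LaurentSeries k)) (h' : Red A π f (r' : LaurentSeries k))
    (P : Place k (modularFunctionFieldFullC k M)) : P.ord r' = P.ord r := by
  obtain ⟨e, he, h1⟩ := h.unique hπ h'
  have h2 : r' = algebraMap k _ e * r := Subtype.ext h1
  have hr : r ≠ 0 := by
    rintro rfl
    exact h.res_ne rfl
  rw [h2, P.ord_mul ((map_ne_zero _).mpr he) hr, H89SS.ord_const, zero_add]

/-- The coordinates `δ`. -/
theorem exists_delta (hq : q.Prime) (hA : A.LiesOverPrime q) (hqM : ¬ q ∣ M)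
    (hcM : M.Coprime q) (hd : d = c * d') (hd0 : d ≠ 0)
    (hV : ValInput q (M * q) A (IsLocalRing.residue A))
    (hnode : NodeInput d c q M A (IsLocalRing.residue A))
    (hlift : LiftInput d' M A (IsLocalRing.residue A))
    (hinj : InjInput d' M A (IsLocalRing.residue A))
    (n : fixTors A d (JZero (M * q)) →+ ZMod d)
    (hn : ∀ (x : fixTors A d (JZero (M * q))) (u : FB Qb (M * q)) (a b : ℤ)
      (r s : LaurentSeries (IsLocalRing.ResidueField A)),
      IsU A d (M * q) u → Cls d (M * q) u (x : JZero (M * q)) →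
      H97.HasG (IsLocalRing.residue A) (u : LaurentSeries Qb) ((q : Qb) ^ a) r →
      H97.HasG (IsLocalRing.residue A)
        ((atkin (L := Qb) embQbar M q rfl hcM u : FB Qb (M * q)) : LaurentSeries Qb)
        ((q : Qb) ^ b) s → n x = ((b - a : ℤ) : ZMod d)) :
    ∃ δ : n.ker →+ JZero M, ∀ (x : n.ker) (y : JZero M),
      RelD (IsLocalRing.residue A) d d' M q ((x : fixTors A d (JZero (M * q))) : JZero (M * q)) y ↔
        δ x = y := by
  haveI : Fact q.Prime := ⟨hq⟩
  haveI : CharP (IsLocalRing.ResidueField A) q := H05.charP_residueField hq hA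
  haveI : IsAlgClosed (IsLocalRing.ResidueField A) := H18.isAlgClosed_residueField A
  haveI := H42.funField_res hq hA hqM
  obtain ⟨D⟩ := H89J.nonempty_modTwo hq hqM A hA
  have hπ : Function.Surjective (IsLocalRing.residue A) := IsLocalRing.residue_surjective
  have hd'0 : d' ≠ 0 := fun h => hd0 (by rw [hd, h, mul_zero])
  have hc0 : c ≠ 0 := fun h => hd0 (by rw [hd, h, zero_mul])
  have hqQ : (q : Qb) ≠ 0 := Nat.cast_ne_zero.mpr hq.ne_zero
  refine exists_hom_of_rel (fun (x : n.ker) (y : JZero M) =>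
    RelD (IsLocalRing.residue A) d d' M q ((x : fixTors A d (JZero (M * q))) : JZero (M * q)) y)
    ?_ ?_ ?_ ?_
  · intro x
    refine exists_relD D hd'0 hlift (x : fixTors A d (JZero (M * q))).2 ?_
    intro u hu hux r hr P
    obtain ⟨a, r₀, hr₀⟩ := hV u hu.ne hu.fix
    obtain ⟨b, s₀, hs₀⟩ := hV _ (hu.atkin hcM).ne (hu.atkin hcM).fix
    have h1 := hn x u a b r₀ s₀ hu hux hr₀ hs₀
    have hx0 : n (x : fixTors A d (JZero (M * q))) = 0 := x.2
    rw [hx0] at h1
    have h2 : (d : ℤ) ∣ b - a := (ZMod.intCast_zmod_eq_zero_iff_dvd _ _).mp h1.symm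
    have hred := red_of_hasG (zpow_ne_zero a hqQ) hr₀
    have hmem := red_mem D hred
    have h3 := hnode hcM u hu a b r₀ s₀ hr₀ hs₀ h2 ⟨r₀, hmem⟩ rfl P
    rw [ord_eq_of_red (r := ⟨r₀, hmem⟩) hπ hred hr P]
    rw [hd] at h3
    push_cast at h3
    exact (mul_dvd_mul_iff_left (by exact_mod_cast hc0)).mp h3
  · intro x x' y y' h h'
    exact h.add h'
  · intro x y h
    exact h.neg
  · intro y h
    exact RelD.eq_zero hπ D hd hd0 hinj h

/-- **Assembly of the geometric input of Mazur's principle.** -/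
theorem mazurInput_of (hq : q.Prime) (hqM : ¬ q ∣ M) (hd : d = c * d') (hdq : ¬ q ∣ d)
    (hN : ∀ A : ValuationSubring Qb, A.LiesOverPrime q → NInput d M q A (IsLocalRing.residue A))
    (hV : ∀ A : ValuationSubring Qb, A.LiesOverPrime q →
      ValInput q (M * q) A (IsLocalRing.residue A))
    (hnode : ∀ A : ValuationSubring Qb, A.LiesOverPrime q →
      NodeInput d c q M A (IsLocalRing.residue A))
    (hlift : ∀ A : ValuationSubring Qb, A.LiesOverPrime q →
      LiftInput d' M A (IsLocalRing.residue A))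
    (hinj : ∀ A : ValuationSubring Qb, A.LiesOverPrime q →
      InjInput d' M A (IsLocalRing.residue A)) :
    MazurInput d c q M := by
  intro hc A hA φ hφ
  have hd0 : d ≠ 0 := by
    rintro rfl
    exact hdq (dvd_zero q)
  haveI : Fact q.Prime := ⟨hq⟩
  haveI : CharP (IsLocalRing.ResidueField A) q := H05.charP_residueField hq hA
  haveI : IsAlgClosed (IsLocalRing.ResidueField A) := H18.isAlgClosed_residueField A
  have hFF := H42.funField_res hq hA hqM
  obtain ⟨D⟩ := H89J.nonempty_modTwo hq hqM A hA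
  have hπ : Function.Surjective (IsLocalRing.residue A) := IsLocalRing.residue_surjective
  have hdk : (d : IsLocalRing.ResidueField A) ≠ 0 := by
    rw [Ne, CharP.cast_eq_zero_iff (IsLocalRing.ResidueField A) q]
    exact hdq
  obtain ⟨n, hn, hnh, hw⟩ := hN A hA hc
  obtain ⟨δ, hδ⟩ := exists_delta hq hA hqM hc hd hd0 (hV A hA) (hnode A hA) (hlift A hA)
    (hinj A hA) n hn
  refine @mazurData_mk d c q (M * q) A φ (JZero (M * q)) (JZero M) _ (heckeModuleBar (M * q)) _ _
    (heckeModuleBar M) (wJ M q rfl hc) (fun ℓ x => heckeOperatorBar (M * q) ℓ x)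
    (fun ℓ x => heckeOperatorBar M ℓ x)
    (fun ℓ x => heckeModuleBar_heckeGen_smul (heckeOperatorsCommuteBar (M * q)) ℓ x)
    (fun ℓ x => heckeModuleBar_heckeGen_smul (heckeOperatorsCommuteBar M) ℓ x)
    (fun ℓ hℓ x => wJ_hecke rfl hc ℓ
      ((Nat.Prime.coprime_iff_not_dvd ℓ.2).mpr fun h => hℓ (h.trans (dvd_mul_left _ _))) x)
    (fun σ x => wJ_galois rfl hc σ x) n hnh hw δ ?_ ?_
  · intro ℓ hℓ x x' hx
    have hℓk : ((ℓ : ℕ) : IsLocalRing.ResidueField A) ≠ 0 := by
      rw [Ne, CharP.cast_eq_zero_iff (IsLocalRing.ResidueField A) q]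
      intro h
      apply hℓ
      rw [← (Nat.prime_dvd_prime_iff_eq hq ℓ.2).mp h]
      exact dvd_mul_left _ _
    have h1 := RelD.hecke D ℓ hℓ hℓk (exists_lift' hq hA) ((hδ x (δ x)).mpr rfl)
    rw [← hx] at h1
    exact (hδ x' _).mp h1
  · intro x y hxy hx hy
    have h1 := (hδ x 0).mpr hx
    have h2 := (hδ y 0).mpr hy
    rw [hxy] at h2
    exact kernel_rel hπ (H89Arch.arch' hq hA) hFF hc D hd hdk (exists_lift' hq hA) h1 h2 hφ

/-- The case `d ∣ c` is trivial. -/
theorem mazurInput_of_dvd (h : d ∣ c) : MazurInput d c q M := by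
  intro hc A hA φ hφ
  exact @mazurData_of_dvd d c q (M * q) A φ (JZero (M * q)) (JZero M) _ (heckeModuleBar (M * q)) _ _
    (heckeModuleBar M) (wJ M q rfl hc) h

/-- `MazurTwo` from the inputs at `2`-power torsion (loss `2`). -/
theorem mazurTwo_of
    (H : ∀ (q M m : ℕ) [NeZero q] [NeZero M] [NeZero (M * q)], q.Prime → q ≠ 2 → 2 ∣ M → ¬ q ∣ M →
      ∀ A : ValuationSubring Qb, A.LiesOverPrime q →
        NInput (2 * 2 ^ m) M q A (IsLocalRing.residue A) ∧
        ValInput q (M * q) A (IsLocalRing.residue A) ∧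
        NodeInput (2 * 2 ^ m) 2 q M A (IsLocalRing.residue A) ∧
        LiftInput (2 ^ m) M A (IsLocalRing.residue A) ∧
        InjInput (2 ^ m) M A (IsLocalRing.residue A)) : MazurTwo := by
  refine ⟨1, ?_⟩
  intro q M m _ _ _ hq hq2 h2M hqM
  cases m with
  | zero => exact mazurInput_of_dvd (by norm_num)
  | succ m =>
    have hdq : ¬ q ∣ 2 ^ (m + 1) := fun h =>
      hq2 ((Nat.prime_dvd_prime_iff_eq hq Nat.prime_two).mp (hq.dvd_of_dvd_pow h))
    have hd : 2 ^ (m + 1) = 2 ^ 1 * 2 ^ m := by rw [pow_succ]; ring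
    have e : 2 ^ (m + 1) = 2 * 2 ^ m := by rw [pow_succ]; ring
    refine mazurInput_of hq hqM hd hdq ?_ ?_ ?_ ?_ ?_
    · intro A hA; rw [e]; exact (H q M m hq hq2 h2M hqM A hA).1
    · intro A hA; exact (H q M m hq hq2 h2M hqM A hA).2.1
    · intro A hA; rw [e, pow_one]; exact (H q M m hq hq2 h2M hqM A hA).2.2.1
    · intro A hA; exact (H q M m hq hq2 h2M hqM A hA).2.2.2.1
    · intro A hA; exact (H q M m hq hq2 h2M hqM A hA).2.2.2.2

end Main

end Fermat.Agent.H35.Geo
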