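import Fermat.Agent.H59LL1

/-!
# Vanishing at levels at which the representation is not modular
-/

set_option autoImplicit false
set_option linter.style.haveILetI false
set_option linter.unusedSectionVars false

noncomputable section

open Polynomial IsLocalRing CuspForm
open Fermat.Agent.H70.Coh Fermat.Agent.H70.Mod Fermat.Agent.H37.Rank

namespace Fermat.Agent.H59

variable {W : WeierstrassCurve ℤ} (hΔ : W.Δ ≠ 0) {p : ℕ} [hp : Fact p.Prime]
  {O : Type} [CommRing O] [IsDomain O] [IsLocalRing O] [CharZero O] [CharP (ResidueField O) p]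

include hΔ in
/-- **Vanishing.** If `W` is not residually modular of level `M`, the corresponding summand of the
cohomology vanishes. -/
theorem finrank_loc_eq_zero (h29 : H96.StatementS29) {M : ℕ} [NeZero M] {S : Finset ℕ}
    (hS : Adm (↑S : Set ℕ) M) (hg : Good M O) (hnot : ¬ W.IsResiduallyModularOfLevel p M)
    {θ : MvPolynomial (Pr (↑S : Set ℕ)) O →+* ResidueField O}
    (hθ : ∀ i, θ (MvPolynomial.X i) = ((W.apOfModel i.1 : ℤ) : ResidueField O))
    {e : MvPolynomial (Pr (↑S : Set ℕ)) O} (he : IsLocIdem (TT O hS) (TT_comm hS) θ e)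
    (i₀ : Pr (↑S : Set ℕ)) (hi₀1 : (M : ℤ) ∣ (i₀.1 : ℤ) - 1)
    (hi₀ : θ (MvPolynomial.X i₀) ≠ 1 + (i₀.1 : ResidueField O)) :
    Module.finrank O (Loc (TT O hS) (TT_comm hS) e) = 0 := by
  by_contra hne
  apply hnot
  let K := FractionRing O
  have he' : IsLocIdem (tw (R := O) (one_dvd M) hS 1 1) (tw_comm (one_dvd M) hS 1 1) θ e :=
    (isLocIdem_HH (one_dvd M) hS).mpr he
  obtain ⟨h1, h2⟩ := loc_free (one_dvd M) hS (1 : (ZMod 1)ˣ →* Oˣ) 1 hg rfl he' ResTriv.one
    ResTriv.one i₀ hi₀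
  have h4 := (free_finrank_map (R' := K) (one_dvd M) hS (1 : (ZMod 1)ˣ →* Oˣ) 1 hg rfl he'
    (algebraMap O K) (fun a => rfl)).2.2
  have h5 := isLocIdem_bc (R' := K) (one_dvd M) hS (1 : (ZMod 1)ˣ →* Oˣ) 1 hg rfl
    (algebraMap O K) (fun a => rfl) he'
  rw [psiMap_one] at h4 h5
  rw [finrank_mlocHH_alg hS, finrank_mlocHH_alg hS] at h4
  have h6 : IsLocIdem (TT K hS) (TT_comm hS) θ e :=
    isLocIdem_equiv (hT := tw_comm (R := K) (one_dvd M) hS 1 1)
      (hT' := TT_comm (O := K) hS) (hhLev (O := K) (one_dvd M))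
      (hhLev_tw (O := K) (one_dvd M) hS) h5
  have h7 : Loc (TT K hS) (TT_comm hS) e ≠ ⊥ := by
    intro h0
    apply hne
    rw [← h4, h0, finrank_bot]
  obtain ⟨χ, hχ⟩ := exists_char_of_loc hS h6 i₀ hi₀1 hi₀ h7
  obtain ⟨θ', hθ', -⟩ := exists_zmod_char hS (p := p) χ (fun i => W.apOfModel i.1)
    (fun i => by rw [hχ, hθ])
  exact isResiduallyModularOfLevel_of_char hΔ h29 hS θ' hθ'

end Fermat.Agent.H59
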