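import Fermat.Agent.H70Lev7

/-!
# Points at level `M q` are new at `q` if the residual eigensystem does not occur at level `M`
-/

set_option autoImplicit false
set_option linter.style.haveILetI false
set_option linter.unusedSectionVars false

open Matrix CongruenceSubgroup IsLocalRing CuspForm
open scoped MatrixGroups TensorProduct

namespace Fermat.Agent.H73.PNew

open Fermat.Agent.H70.Coh Fermat.Agent.H70.Mod Fermat.Agent.H59 Fermat.Agent.H37.Rank
  Fermat.Agent.H30

section Act

variable {N M : ℕ} (hM : N ∣ M) {S : Set ℕ} (hS : Away M S) {O : Type} [CommRing O]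
  {O' : Type} [CommRing O'] [Algebra O O'] (η : (ZMod N)ˣ →* O'ˣ)

/-- polynomials in the operators act on eigenclasses through the values of the eigensystem -/
theorem act_of_eigen {mu : Idx S → O'} {x : H1 (gam N M hM) (psiRep (η ^ 2) O')}
    (hx : ∀ i, tw hM hS (η ^ 2) η i x = mu i • x) (P : MvPolynomial (Idx S) O) :
    act (tw hM hS (η ^ 2) η) (tw_comm hM hS (η ^ 2) η) P x =
      MvPolynomial.aeval (R := O) mu P • x := by
  induction P using MvPolynomial.induction_on with
  | C a =>
    rw [act_C, algebraMap_end_apply, ← MvPolynomial.algebraMap_eq, AlgHom.commutes,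
      algebraMap_smul]
  | add P Q hP hQ => rw [map_add, map_add, LinearMap.add_apply, hP, hQ, add_smul]
  | mul_X P i hP =>
    rw [map_mul, map_mul, act_X, Module.End.mul_apply, hx, map_smul, hP, smul_smul,
      MvPolynomial.aeval_X, mul_comm]

end Act

section Main

variable {O : Type} [CommRing O] [IsDomain O] [IsDiscreteValuationRing O]
  [IsAdicComplete (maximalIdeal O) O] [Finite (ResidueField O)] [CharZero O]
  {L : ℕ} [NeZero L] {S : Set ℕ} (hSL : ∀ q : ℕ, q.Prime → q ∣ L → q ∈ S)
  {θ : heckeAlgebra L 2 S →+* ResidueField O}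
  {O' : Type} [CommRing O'] [IsDomain O'] [IsLocalRing O'] [Algebra O O']

/-- the local idempotent acts as the identity on the points -/
theorem act_idem_of_isPt {N M : ℕ} (hM : N ∣ M) (hS : Away M S) {η : (ZMod N)ˣ →* O'ˣ}
    (lam : heckeLocal L S O θ →ₐ[O] O') {x : H1 (gam N M hM) (psiRep (η ^ 2) O')}
    (hx : IsPt hM hS η (fun i => lam (heckeLocal.π L S O θ (TIdx L S hSL i))) x)
    {e : MvPolynomial (Idx S) O}
    (he : IsLocIdem (tw hM hS (η ^ 2) η) (tw_comm hM hS (η ^ 2) η) (thetaPoly L S hSL O θ) e) :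
    act (tw hM hS (η ^ 2) η) (tw_comm hM hS (η ^ 2) η) e x = x := by
  have h1 : ∀ P : MvPolynomial (Idx S) O,
      MvPolynomial.aeval (R := O) (fun i => lam (heckeLocal.π L S O θ (TIdx L S hSL i))) P =
        lam (toLocal L S hSL O θ P) := by
    intro P
    have h2 : MvPolynomial.aeval (R := O)
        (fun i => lam (heckeLocal.π L S O θ (TIdx L S hSL i))) =
        lam.comp (toLocal L S hSL O θ) := by
      apply MvPolynomial.algHom_ext
      intro i
      rw [MvPolynomial.aeval_X, AlgHom.comp_apply, toLocal_X]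
    rw [h2]
    rfl
  have h2 : ∀ P, act (tw hM hS (η ^ 2) η) (tw_comm hM hS (η ^ 2) η) P x =
      lam (toLocal L S hSL O θ P) • x := fun P => by
    rw [act_of_eigen hM hS η hx.eigen, h1]
  have hu : IsUnit (toLocal L S hSL O θ e) := by
    have h3 := residue_toLocal L S hSL O θ e
    rw [he.residue, map_one] at h3
    by_contra hcon
    have h4 : toLocal L S hSL O θ e ∈ maximalIdeal (heckeLocal L S O θ) := hcon
    rw [← residue_eq_zero_iff, h3] at h4
    exact one_ne_zero h4
  have hu' : IsUnit (lam (toLocal L S hSL O θ e)) := hu.map lam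
  have h5 : act (tw hM hS (η ^ 2) η) (tw_comm hM hS (η ^ 2) η) e
      (act (tw hM hS (η ^ 2) η) (tw_comm hM hS (η ^ 2) η) e x) =
        act (tw hM hS (η ^ 2) η) (tw_comm hM hS (η ^ 2) η) e x :=
    LinearMap.congr_fun he.idem x
  rw [h2, map_smul, h2, smul_smul, ← sub_eq_zero, ← sub_smul] at h5
  have h6 : lam (toLocal L S hSL O θ e) * lam (toLocal L S hSL O θ e) -
      lam (toLocal L S hSL O θ e) = 0 := by
    by_contra hne
    exact hx.smul_ne _ hne h5
  have h7 : lam (toLocal L S hSL O θ e) = 1 := by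
    have h8 : lam (toLocal L S hSL O θ e) * (lam (toLocal L S hSL O θ e) - 1) = 0 := by
      rw [mul_sub, mul_one]; exact h6
    rcases mul_eq_zero.mp h8 with h | h
    · exact absurd h hu'.ne_zero
    · exact sub_eq_zero.mp h
  rw [h2, h7, one_smul]

/-- **Points are `q`-new if the eigensystem does not occur at lower level.** -/
theorem traces_eq_zero_of_vanish [Module.Finite O O'] {p : ℕ} (hp : p.Prime)
    (hpO' : (p : O') ∈ maximalIdeal O')
    {N M q : ℕ} [NeZero M] [NeZero q] [NeZero (M * q)] (hM : N ∣ M) (hS : Away (M * q) S)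
    (hq : q.Prime) (hqM : ¬ q ∣ M)
    (hgO : Good M O) (hgO' : Good M O') (hgO'q : Good (M * q) O')
    (i₀ : Idx S) (hi₀ : θ (TIdx L S hSL i₀) ≠ 1 + (i₀.1 : ResidueField O))
    (h0 : ∀ e : MvPolynomial (Idx S) O,
      IsLocIdem (TT O hS.left) (TT_comm hS.left) (thetaPoly L S hSL O θ) e →
        Module.finrank O (Loc (TT O hS.left) (TT_comm hS.left) e) = 0)
    {η : (ZMod N)ˣ →* O'ˣ} {k : ℕ} (hη : η ^ p ^ k = 1)
    (lam : heckeLocal L S O θ →ₐ[O] O')
    {x : H1 (gam N (M * q) (hM.mul_right q)) (psiRep (η ^ 2) O')}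
    (hx : IsPt (hM.mul_right q) hS η
      (fun i => lam (heckeLocal.π L S O θ (TIdx L S hSL i))) x) :
    (trFam hM).opH (psiRep (η ^ 2) O') x = 0 ∧ (nuFam hM hq).opH (psiRep (η ^ 2) O') x = 0 := by
  have hη2 : (η ^ 2) (-1) = 1 := sq_neg_one η
  obtain ⟨e, h1, h2, h3⟩ := exists_common_idem₂ (hM.mul_right q) hM hS hS.left hgO'q hgO'
    (thetaPoly L S hSL O θ) (fun x => by
      obtain ⟨a, ha⟩ := residue_surjective (R := O) x
      exact ⟨a, by rw [thetaPoly_C, ha]⟩) (L := M * q) hS
    (fun _ => η ^ 2) (fun _ => η) (fun _ => hη2) (η ^ 2) η hη2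
  have hx1 := act_idem_of_isPt hSL (hM.mul_right q) hS lam hx (h1 true)
  have hTT := h2 M hS.left (Dvd.intro q rfl)
  have hfin : Module.finrank O (MLoc (R := O) hM hS.left 1 1 e) = 0 := by
    rw [finrank_mlocHH hM hS.left e]
    exact h0 e hTT
  have hrt : ResTriv η := resTriv_of_pow hp hpO' hη
  have hbot := mloc_eq_bot hM hS.left i₀ (by rw [thetaPoly_X]; exact hi₀) (η ^ 2) η hgO hgO' hη2
    ((isLocIdem_HH hM hS.left).mpr hTT) h3 (hrt.pow 2) hrt hfin
  exact traces_eq_zero hM hS hq hqM (η ^ 2) η hbot x hx1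

end Main

end Fermat.Agent.H73.PNew
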