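import Fermat.Agent.H75R5
import Fermat.Agent.H73PNew
import Fermat.Agent.H35Rk
import Fermat.Agent.H59LL4
import Fermat.Agent.H69Red
import Fermat.Agent.H86InFa
import Fermat.Agent.H21MLvl

/-!
# Case `Pβ`: the mark `t` at `p` vanishes at all points of levels divisible by `p`
-/

set_option autoImplicit false
set_option linter.style.haveILetI false
set_option linter.unusedSectionVars false

noncomputable section

open IsLocalRing Polynomial GaloisRep CuspForm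

namespace Fermat.Agent.H35.InB

open Fermat.Agent.H59 Fermat.Agent.H37.Rank Fermat.Agent.H37.NN Fermat.Agent.H70.Coh
  Fermat.Agent.H70.Mod Fermat.Agent.H30 Fermat.Agent.H86.In Fermat.Agent.H21M

section Zero

variable {W : WeierstrassCurve ℤ} (hΔ : W.Δ ≠ 0) {p : ℕ} [hp : Fact p.Prime]
  {O : Type} [CommRing O] [IsDomain O] [IsDiscreteValuationRing O]
  [IsAdicComplete (maximalIdeal O) O] [Finite (ResidueField O)] [CharZero O]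
  [CharP (ResidueField O) p]

include hΔ in
/-- **Vanishing** at the levels `M ∏ Q`, `W` not residually modular of level `M` and `Q`
Taylor–Wiles primes. -/
theorem finrank_eq_zero_of_not (h29 : H96.StatementS29) (hp2 : p ≠ 2)
    (hpO : (p : O) ∈ maximalIdeal O) {S : Finset ℕ} (hpS : p ∈ S)
    {θ : MvPolynomial (Pr (↑S : Set ℕ)) O →+* ResidueField O}
    (hθC : ∀ a : O, θ (MvPolynomial.C a) = residue O a)
    (hθX : ∀ i, θ (MvPolynomial.X i) = ((W.apOfModel i.1 : ℤ) : ResidueField O))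
    (ρbar : ResidualGaloisRep (ResidueField O)) (hirr : ρbar.IsIrreducible)
    (hfr : IsAtt S θ ρbar) {M : ℕ} [NeZero M] (hg : Good M O)
    (hnot : ¬ W.IsResiduallyModularOfLevel p M)
    (i₀ : Pr (↑S : Set ℕ)) (hi₀1 : (M : ℤ) ∣ (i₀.1 : ℤ) - 1)
    (hi₀ : θ (MvPolynomial.X i₀) ≠ 1 + (i₀.1 : ResidueField O))
    {r : ℕ} (Q : Fin r → ℕ) (hQ : ∀ i, (Q i).Prime) (hQM : ∀ i, ¬ Q i ∣ M)
    (hQinj : Function.Injective Q) (hQ1 : ∀ i, p ∣ Q i - 1) (hdist : ∀ i, FrobDist ρbar (Q i))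
    {X : ℕ} (hX : X = M * ∏ i, Q i) (hS : Adm (↑S : Set ℕ) X)
    {e : MvPolynomial (Pr (↑S : Set ℕ)) O} (he : IsLocIdem (TT O hS) (TT_comm hS) θ e) :
    Module.finrank O (Loc (TT O hS) (TT_comm hS) e) = 0 := by
  have hMX : M ∣ X := hX ▸ Dvd.intro _ rfl
  haveI : NeZero X := ⟨by
    rw [hX]
    exact mul_ne_zero (NeZero.ne M) (Finset.prod_ne_zero_iff.mpr fun i _ => (hQ i).ne_zero)⟩
  have hS' : Adm (↑S : Set ℕ) M := hS.of_dvd hMX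
  have he' : IsLocIdem (TT O hS') (TT_comm hS') θ e := isLocIdem_of_dvd hMX hS he
  have h0 := H59.finrank_loc_eq_zero hΔ h29 hS' hg hnot hθX he' i₀ hi₀1 hi₀
  exact H35.Rk.finrank_eq_zero hp2 hpO hpS hθC ρbar hirr hfr Q hQ hQM hQinj hQ1 hdist dvd_rfl hX
    hS he hS' h0

end Zero

section Level

open Fermat.Agent.H55 Fermat.Agent.H56 Fermat.Agent.H64 Fermat.Agent.H53 Fermat.Agent.H68.Tw
open Fermat.Agent.H75P (OrdMark MarkElts OrdI cj DetC UU)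

variable {𝒪 : Type} [CommRing 𝒪] [IsDomain 𝒪] [IsDiscreteValuationRing 𝒪]
    [IsAdicComplete (maximalIdeal 𝒪) 𝒪] [Finite (ResidueField 𝒪)] [CharZero 𝒪]
  {p : ℕ} [hp : Fact p.Prime] (hp2 : p ≠ 2) {ρbar : ResidualGaloisRep (ResidueField 𝒪)}
  {b : Module.Basis (Fin 2) (ResidueField 𝒪) ρbar.V}
  (hdet : (GaloisRepAdic.ofResidualGaloisRep ρbar).DetIsCyclotomic p)
  (hord : (GaloisRepAdic.ofResidualGaloisRep ρbar).IsOrdinaryAt p)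
  {φ σ₀ : GQ} (hm : MarkElts p φ σ₀) (hr0 : toMat ρbar.ρ b σ₀ = 1) (w : ℤ) (hw : w ^ 2 = 1)
  {g₀ : (M2 (ResidueField 𝒪))ˣ} (hg₀ : OrdI p (cj g₀ (toMat ρbar.ρ b)))
  (hu : cj g₀ (toMat ρbar.ρ b) φ 1 1 = (w : ResidueField 𝒪))
  {A : Finset ℕ}
  {τ ι : Type} [Fintype τ] [Fintype ι] {qT : τ → ℕ} {pl : ∀ t, PlaceData p (qT t)} {u : τ → 𝒪}
  {qB : ι → ℕ} {plB : ∀ i, PlaceData p (qB i)} {uB : ι → 𝒪} {k n : ℕ} {S₀ : Finset ℕ}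
  (E : GalLevelB p ρbar b (PData.ord hp2 ρbar b hdet hord hm hr0 w hw hg₀ hu) A qT pl u qB plB uB
    k n S₀)
  {L : ℕ} [NeZero L] {S : Finset ℕ} (hpS : p ∈ S) (hLS : ∀ q : ℕ, q.Prime → q ∣ L → q ∈ S)
  {θ : heckeAlgebra L 2 (↑S : Set ℕ) →+* ResidueField 𝒪}
  (π : E.D.R →ₐ[𝒪] heckeLocal L (↑S : Set ℕ) 𝒪 θ) (hπ : Function.Surjective π)
  {H : HeckeGaloisRepDatum L (↑S : Set ℕ) 𝒪 θ (heckeLocal L (↑S : Set ℕ) 𝒪 θ)}
  (hH : H.π = heckeLocal.π L (↑S : Set ℕ) 𝒪 θ)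
  (b₂ : Module.Basis (Fin 2) (heckeLocal L (↑S : Set ℕ) 𝒪 θ) H.ρ.V)
  (hb₂ : toMat H.ρ.ρ b₂ =
    mapMat (π : E.D.R →+* heckeLocal L (↑S : Set ℕ) 𝒪 θ) (toMat E.D.ρ.ρ E.b₁))

/-- the third mark -/
theorem vanishAt_z (X : ℕ) : VanishAt p hLS π X (E.mB (Sum.inr ()) 2) := by
  intro O' _ _ _ _ _ _ _ _ _ _ N hN hpN hS lam η x hη hx
  exact H75R.lam_z_eq_zero hp2 hdet hord hm hr0 w hw hg₀ hu E π lam

include hπ hH hb₂ hpS in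
/-- **The mark `t`** vanishes at the points of level `M₁ p` if `θ` does not occur at level `M₁`. -/
theorem vanishAt_t {M₁ : ℕ} [NeZero M₁] (hsq : Squarefree (M₁ * p))
    (h0 : ∀ (hS : Adm (↑S : Set ℕ) M₁) (e : MvPolynomial (Idx (↑S : Set ℕ)) 𝒪),
      IsLocIdem (TT 𝒪 hS) (TT_comm hS) (thetaPoly L (↑S : Set ℕ) hLS 𝒪 θ) e →
        Module.finrank 𝒪 (Loc (TT 𝒪 hS) (TT_comm hS) e) = 0)
    (hg : Good M₁ 𝒪) (hg' : Good (M₁ * p) 𝒪) (i₀ : Idx (↑S : Set ℕ))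
    (hi₀ : θ (TIdx L (↑S : Set ℕ) hLS i₀) ≠ 1 + (i₀.1 : ResidueField 𝒪)) :
    VanishAt p hLS π (M₁ * p) (E.mB (Sum.inr ()) 0) := by
  intro O' _ _ _ _ _ _ _ _ _ hinj N hN hpN hS lam η x hη hx
  have hpM : ¬ p ∣ M₁ := fun h => hp.out.not_isUnit (hsq p (Nat.mul_dvd_mul_right h p))
  have hN' : N ∣ M₁ :=
    ((Nat.Prime.coprime_iff_not_dvd hp.out).mpr hpN).symm.dvd_of_dvd_mul_right hN
  haveI : NeZero p := ⟨hp.out.ne_zero⟩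
  haveI : NeZero (M₁ * p) := ⟨mul_ne_zero (NeZero.ne M₁) hp.out.ne_zero⟩
  have hf := H75R.isLocalHom_compB hp2 hdet hord hm hr0 w hw hg₀ hu E π hπ lam
  have hpO' : (p : O') ∈ maximalIdeal O' := by
    have := E.pt_mem (lam.comp π) hf E.p_mem
    rwa [map_natCast] at this
  obtain ⟨k', hk'⟩ := hη
  have hS₁ : Away M₁ (↑S : Set ℕ) := hS.left
  obtain ⟨h1, h2⟩ := H73.PNew.traces_eq_zero_of_vanish hLS hp.out hpO' hN' hS hp.out hpM hg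
    (good_map (algebraMap 𝒪 O') hg) (good_map (algebraMap 𝒪 O') hg') i₀ hi₀ (h0 _) hk' lam hx
  exact H75R.lam_t_eq_zero hp2 hdet hord hm hr0 w hw hg₀ hu E hpS hLS π hπ hH b₂ hb₂ rfl
    (hsq.squarefree_of_dvd hN)
    (fun r hr _ h => hr.not_isUnit ((hsq.squarefree_of_dvd (Dvd.intro p rfl)) r h)) hN' hS hp.out
    hpM lam η x (H75R.exists_odd_of_pow hp2 ⟨k', hk'⟩) hx h1 h2

end Level

section Arith

variable {A T B : Finset ℕ}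

lemma lvl_eq_prod (M : ℕ) (b : ℕ → ℕ) (i : ℕ) : lvl M b i = M * ∏ j ∈ Finset.range i, b j := by
  induction i with
  | zero => simp
  | succ i ih => rw [lvl_succ, ih, Finset.prod_range_succ, mul_assoc]

/-- the levels of the chain as products over subsets of `B` -/
lemma exists_lvl_eq {N₀ p q : ℕ} (b : ℕ → ℕ) {s : ℕ} (hb : ∀ i, i < s → b i ∈ B)
    (hinj : ∀ i, i < s → ∀ j, j < i → b i ≠ b j) {i : ℕ} (hi : i ≤ s) :
    ∃ B' ⊆ B, lvl (N₀ * p * q) b i = N₀ * (∏ r ∈ B', r) * q * p := by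
  classical
  refine ⟨(Finset.range i).image b, ?_, ?_⟩
  · intro r hr
    obtain ⟨j, hj, rfl⟩ := Finset.mem_image.mp hr
    exact hb j ((Finset.mem_range.mp hj).trans_le hi)
  · rw [lvl_eq_prod, Finset.prod_image]
    · ring
    · intro j hj j' hj' h
      have h1 := (Finset.mem_range.mp (Finset.mem_coe.mp hj)).trans_le hi
      have h2 := (Finset.mem_range.mp (Finset.mem_coe.mp hj')).trans_le hi
      rcases lt_trichotomy j j' with h3 | h3 | h3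
      · exact absurd h.symm (hinj j' h2 j h3)
      · exact h3
      · exact absurd h (hinj j h1 j' h3)

end Arith

section Beta

open Fermat.Agent.H55 Fermat.Agent.H56 Fermat.Agent.H64 Fermat.Agent.H53 Fermat.Agent.H68.Tw
open Fermat.Agent.H75P (OrdMark MarkElts OrdI cj DetC UU)
open Fermat.Agent.H69.Red

variable {W : WeierstrassCurve ℤ} {hΔ : W.Δ ≠ 0}
  {𝒪 : Type} [CommRing 𝒪] [IsDomain 𝒪] [IsDiscreteValuationRing 𝒪]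
    [IsAdicComplete (maximalIdeal 𝒪) 𝒪] [Finite (ResidueField 𝒪)] [CharZero 𝒪]
  {p : ℕ} [hp : Fact p.Prime] [CharP (ResidueField 𝒪) p]
  (hp2 : p ≠ 2) {ρbar : ResidualGaloisRep (ResidueField 𝒪)}
  {b : Module.Basis (Fin 2) (ResidueField 𝒪) ρbar.V}
  (hdet : (GaloisRepAdic.ofResidualGaloisRep ρbar).DetIsCyclotomic p)
  (hord : (GaloisRepAdic.ofResidualGaloisRep ρbar).IsOrdinaryAt p)
  {φ σ₀ : GQ} (hm : MarkElts p φ σ₀) (hr0 : toMat ρbar.ρ b σ₀ = 1) (w : ℤ) (hw : w ^ 2 = 1)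
  {g₀ : (M2 (ResidueField 𝒪))ˣ} (hg₀ : OrdI p (cj g₀ (toMat ρbar.ρ b)))
  (hu : cj g₀ (toMat ρbar.ρ b) φ 1 1 = (w : ResidueField 𝒪))
  {A : Finset ℕ}
  {τ ι : Type} [Fintype τ] [Fintype ι] {qT : τ → ℕ} {pl : ∀ t, PlaceData p (qT t)} {u : τ → 𝒪}
  {qB : ι → ℕ} {plB : ∀ i, PlaceData p (qB i)} {uB : ι → 𝒪} {k n : ℕ} {S₀ : Finset ℕ}
  (E : GalLevelB p ρbar b (PData.ord hp2 ρbar b hdet hord hm hr0 w hw hg₀ hu) A qT pl u qB plB uB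
    k n S₀)
  {L : ℕ} [NeZero L] {S : Finset ℕ} (hpS : p ∈ S) (hLS : ∀ q : ℕ, q.Prime → q ∣ L → q ∈ S)
  {θ : heckeAlgebra L 2 (↑S : Set ℕ) →+* ResidueField 𝒪}
  (π : E.D.R →ₐ[𝒪] heckeLocal L (↑S : Set ℕ) 𝒪 θ) (hπ : Function.Surjective π)
  {H : HeckeGaloisRepDatum L (↑S : Set ℕ) 𝒪 θ (heckeLocal L (↑S : Set ℕ) 𝒪 θ)}
  (hH : H.π = heckeLocal.π L (↑S : Set ℕ) 𝒪 θ)
  (b₂ : Module.Basis (Fin 2) (heckeLocal L (↑S : Set ℕ) 𝒪 θ) H.ρ.V)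
  (hb₂ : toMat H.ρ.ρ b₂ =
    mapMat (π : E.D.R →+* heckeLocal L (↑S : Set ℕ) 𝒪 θ) (toMat E.D.ρ.ρ E.b₁))

include hΔ hπ hH hb₂ hpS in
/-- **The elements killing all modules in case `Pβ`** (the `U`-facts of the core). -/
theorem vanish_beta (h29 : H96.StatementS29) (hirr : ρbar.IsIrreducible)
    (hθ : ∀ i : Idx (↑S : Set ℕ), θ (TIdx L (↑S : Set ℕ) hLS i) =
      ((W.apOfModel i.1 : ℤ) : ResidueField 𝒪))
    (hfr : IsAtt S (thetaPoly L (↑S : Set ℕ) hLS 𝒪 θ) ρbar)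
    (hNE2 : ∀ D : ℕ, D ≠ 0 → ∃ i : Idx (↑S : Set ℕ), (D : ℤ) ∣ (i.1 : ℤ) - 1 ∧
      θ (TIdx L (↑S : Set ℕ) hLS i) ≠ (i.1 : ResidueField 𝒪) + 1)
    {N₀ : ℕ} (hN₀ : N₀ ≠ 0) (hg : ∀ M' : ℕ, N₀ ∣ M' → Good M' 𝒪) {B : Finset ℕ}
    (hB0 : ∀ q ∈ B, q ≠ 0)
    (hno : ∀ B' ⊆ B, ¬ W.IsResiduallyModularOfLevel p (N₀ * ∏ q ∈ B', q))
    (hQN : ∀ j, ∀ B' ⊆ B, ¬ E.qv j ∣ N₀ * ∏ q ∈ B', q)
    {s : ℕ} (bf : ℕ → ℕ) (hbf : ∀ i, i < s → bf i ∈ B)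
    (hinj : ∀ i, i < s → ∀ j, j < i → bf i ≠ bf j)
    (hsq : Squarefree (lvl (N₀ * p * ∏ j, E.qv j) bf s)) {a : E.D.R}
    (ha : a ∈ ({E.mB (Sum.inr ()) 0, E.mB (Sum.inr ()) 2} : Set E.D.R)) {i : ℕ} (hi : i ≤ s) :
    VanishAt p hLS π (lvl (N₀ * p * ∏ j, E.qv j) bf i) a := by
  rcases ha with rfl | rfl
  · obtain ⟨B', hB', hlv⟩ := exists_lvl_eq (N₀ := N₀) (p := p) (q := ∏ j, E.qv j) bf hbf hinj hi
    have hsqi : Squarefree (lvl (N₀ * p * ∏ j, E.qv j) bf i) :=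
      hsq.squarefree_of_dvd (lvl_dvd_lvl hi)
    rw [hlv] at hsqi ⊢
    have hM' : N₀ * ∏ q ∈ B', q ≠ 0 :=
      mul_ne_zero hN₀ (Finset.prod_ne_zero_iff.mpr fun q hq => hB0 q (hB' hq))
    haveI : NeZero (N₀ * ∏ q ∈ B', q) := ⟨hM'⟩
    haveI : NeZero (N₀ * (∏ q ∈ B', q) * ∏ j, E.qv j) :=
      ⟨mul_ne_zero hM' (Finset.prod_ne_zero_iff.mpr fun j _ => (E.prime j).ne_zero)⟩
    obtain ⟨i₀, h1, h2⟩ := hNE2 (N₀ * ∏ q ∈ B', q) hM'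
    have h2' : θ (TIdx L (↑S : Set ℕ) hLS i₀) ≠ 1 + (i₀.1 : ResidueField 𝒪) := by
      rwa [add_comm]
    have hpO : (p : 𝒪) ∈ maximalIdeal 𝒪 := by
      rw [← residue_eq_zero_iff, map_natCast, CharP.cast_eq_zero]
    refine vanishAt_t hp2 hdet hord hm hr0 w hw hg₀ hu E hpS hLS π hπ hH b₂ hb₂ hsqi ?_
      (hg _ ⟨(∏ q ∈ B', q) * ∏ j, E.qv j, by ring⟩)
      (hg _ ⟨(∏ q ∈ B', q) * (∏ j, E.qv j) * p, by ring⟩) i₀ h2'
    intro hS e he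
    exact finrank_eq_zero_of_not hΔ h29 hp2 hpO hpS (fun a => thetaPoly_C _ _ _ _ _ a)
      (fun i => by rw [thetaPoly_X, hθ]) ρbar hirr hfr (hg _ ⟨∏ q ∈ B', q, rfl⟩) (hno B' hB')
      i₀ h1 (by rw [thetaPoly_X]; exact h2') E.qv E.prime (fun j => hQN j B' hB') E.inj
      (H35.Rk.dvd_sub_one E) (H35.Rk.frobDist E) rfl hS he
  · exact vanishAt_z hp2 hdet hord hm hr0 w hw hg₀ hu E hLS π _

end Beta

end Fermat.Agent.H35.InB
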