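import Fermat.Agent.H35InB2
import Fermat.Agent.H86In1
import Fermat.Agent.H21MLvl

/-!
# The rank hypotheses of the core of the composition of the levels of S59
-/

set_option autoImplicit false
set_option linter.style.haveILetI false
set_option linter.unusedSectionVars false

noncomputable section

open IsLocalRing Polynomial GaloisRep CuspForm
open Fermat.Agent.H87.Glue (resZ)
open Fermat.Agent.H87.S58 (tO)
open Fermat.Agent.H59 (Tset thetaW thetaW_X thetaW_C IsLocIdem Loc)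
open Fermat.Agent.H70.Mod (Idx)
open Fermat.Agent.H37.Rank Fermat.Agent.H37.NN Fermat.Agent.H30 Fermat.Agent.H86.In
open Fermat.Agent.H53 (GQ M2 MCont toMat mapMat PlaceData PData GalLevelB)
open Fermat.Agent.H69.Red Fermat.Agent.H21M

namespace Fermat.Agent.H35.InR

section Arith

/-- the levels of the chain are divisors of the last one, times the Taylor–Wiles primes -/
lemma exists_lvl_eq {N₀ R : ℕ} {s' : ℕ} (bb : Fin s' → ℕ) {i : ℕ} (hi : i ≤ s') :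
    ∃ M', N₀ ∣ M' ∧ M' ∣ N₀ * ∏ j, bb j ∧ lvl (N₀ * R) (bfun bb) i = M' * R := by
  classical
  refine ⟨N₀ * ∏ j ∈ Finset.range i, bfun bb j, Dvd.intro _ rfl, ?_, ?_⟩
  · refine Nat.mul_dvd_mul_left _ ?_
    have h1 : ∏ j, bb j = ∏ j ∈ Finset.range s', bfun bb j := by
      rw [Finset.prod_range]
      exact Finset.prod_congr rfl fun j _ => (bfun_fin bb j).symm
    rw [h1]
    exact Finset.prod_dvd_prod_of_subset _ _ _ (Finset.range_subset_range.mpr hi)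
  · rw [H35.InB.lvl_eq_prod]
    ring

end Arith

section Theta

variable {W : WeierstrassCurve ℤ}
  {O : Type} [CommRing O] [IsDomain O] [IsDiscreteValuationRing O]
  [IsAdicComplete (maximalIdeal O) O]
  {L : ℕ} [NeZero L] {S : Set ℕ} (hSL : ∀ q : ℕ, q.Prime → q ∣ L → q ∈ S)
  {θ : heckeAlgebra L 2 S →+* ResidueField O}

/-- the character of the polynomial ring is the one of the curve -/
lemma thetaPoly_eq (hθ : ∀ i : Pr S, θ (TIdx L S hSL i) =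
      ((W.apOfModel i.1 : ℤ) : ResidueField O)) :
    thetaPoly L S hSL O θ = thetaW W S O := by
  apply MvPolynomial.ringHom_ext
  · intro a
    rw [thetaPoly_C, thetaW_C]
  · intro i
    rw [thetaPoly_X, hθ, thetaW_X]

end Theta

section Main

variable {W : WeierstrassCurve ℤ} {hΔ : W.Δ ≠ 0} {p : ℕ} [hp : Fact p.Prime]
  {O : Type} [CommRing O] [IsDomain O] [IsDiscreteValuationRing O]
  [IsAdicComplete (maximalIdeal O) O] [CharZero O] [Finite (ResidueField O)]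
  [Algebra (ZMod p) (ResidueField O)] (hpO : (p : O) ∈ maximalIdeal O) [CharP (ResidueField O) p]
  {b : Module.Basis (Fin 2) (ResidueField O) ((resZ W hΔ p).baseChange (ResidueField O)).V}
  {pd : PData p ((resZ W hΔ p).baseChange (ResidueField O)) b}
  {A T B : Finset ℕ}
  {pl : ∀ t : Tset T, PlaceData p t.1} {u : Tset T → O} {plB : ∀ i : Tset B, PlaceData p i.1}
  {k n : ℕ} {S₀ : Finset ℕ} (G : GLev hΔ pd A pl u plB k n S₀)

include hpO in
/-- **The rank hypotheses** (`hrk` of `H86.In.core`), with a bound which does not depend on the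
level `n`. -/
theorem hrk (hp2 : p ≠ 2) (hirr : W.ModRepIsIrreducible p)
    (hirrk : ((resZ W hΔ p).baseChange (ResidueField O)).IsIrreducible)
    {L : ℕ} [NeZero L] {S : Finset ℕ}
    (hpS : p ∈ S) (hLS : ∀ q : ℕ, q.Prime → q ∣ L → q ∈ (↑S : Set ℕ))
    (hSW : ∀ ℓ : ℕ, ℓ.Prime → ℓ ∉ S → W.IsGoodPrimeFor ℓ)
    {θ : heckeAlgebra L 2 (↑S : Set ℕ) →+* ResidueField O}
    (hθ : ∀ i : Pr (↑S : Set ℕ), θ (TIdx L (↑S : Set ℕ) hLS i) =
      ((W.apOfModel i.1 : ℤ) : ResidueField O))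
    {N₀ : ℕ} (hN₀ : N₀ ≠ 0) (hmod : W.IsResiduallyModularOfLevel p N₀)
    (hg : ∀ M' : ℕ, N₀ ∣ M' → H70.Coh.Good M' O) (hQN₀ : ∀ j, ¬ G.qv j ∣ N₀)
    {s' : ℕ} (bb : Fin s' → ℕ) (hbb : ∀ i, (bb i).Prime) (hbQ : ∀ i j, bb i ≠ G.qv j)
    (hL : lvl (N₀ * ∏ j, G.qv j) (bfun bb) s' ∣ L) :
    ∀ e : MvPolynomial (Idx (↑S : Set ℕ)) O,
      (∀ (L' : ℕ) (hL' : Adm (↑S : Set ℕ) L'), L' ∣ L →
        IsLocIdem (TT O hL') (TT_comm hL') (thetaPoly L (↑S : Set ℕ) hLS O θ) e) →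
      (∀ h : Adm (↑S : Set ℕ) (N₀ * ∏ j, G.qv j),
        0 < Module.finrank O (Loc (TT O h) (TT_comm h) e)) ∧
      ∀ i, i ≤ s' → ∀ h : Adm (↑S : Set ℕ) (lvl (N₀ * ∏ j, G.qv j) (bfun bb) i),
        Module.finrank O (Loc (TT O h) (TT_comm h) e) ≤
          H35.Rk.bnd O (H53.numB (Tset T) (Tset B) pd.ε k) (N₀ * ∏ i, bb i) := by
  classical
  intro e he
  have hbpos : ∏ i, bb i ≠ 0 := Finset.prod_ne_zero_iff.mpr fun i _ => (hbb i).ne_zero
  haveI : NeZero N₀ := ⟨hN₀⟩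
  haveI : NeZero (N₀ * ∏ i, bb i) := ⟨mul_ne_zero hN₀ hbpos⟩
  haveI : NeZero (N₀ * ∏ j, G.qv j) :=
    ⟨mul_ne_zero hN₀ (Finset.prod_ne_zero_iff.mpr fun j _ => (G.prime j).ne_zero)⟩
  have hSW' : ∀ ℓ : ℕ, ℓ.Prime → ℓ ∉ (↑S : Set ℕ) → W.IsGoodPrimeFor ℓ ∧ ℓ ≠ p :=
    fun ℓ hℓ hℓS => ⟨hSW ℓ hℓ (by exact_mod_cast hℓS),
      fun h => hℓS (by rw [h]; exact_mod_cast hpS)⟩
  have hfr : IsAtt S (thetaPoly L (↑S : Set ℕ) hLS O θ)
      ((resZ W hΔ p).baseChange (ResidueField O)) := by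
    intro ℓ hℓ hℓS P' hP' ψ hψ
    rw [thetaPoly_eq hLS hθ]
    exact H30.S59.isAtt_thetaW hΔ hpO (H30.S59.tO_residual_baseChange hΔ hpO) S hSW' ℓ hℓ hℓS P'
      hP' ψ hψ
  refine ⟨fun h => ?_, fun i hi h => ?_⟩
  · obtain ⟨i₀, -, hi₀⟩ := H10.NE.exists_i0 hΔ hp2 hirr S (ResidueField O)
      (θ := thetaW W (↑S : Set ℕ) O) (fun i => thetaW_X W (↑S : Set ℕ) i) 1 one_ne_zero
    have he' := he _ h ((lvl_dvd_lvl (M₀ := N₀ * ∏ j, G.qv j) (b := bfun bb)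
      (Nat.zero_le s')).trans hL)
    rw [thetaPoly_eq hLS hθ] at he'
    exact H35.Rk.finrank_pos hmod (Dvd.intro _ rfl) h hSW' (hg _ (Dvd.intro _ rfl)) he' i₀ hi₀
  · obtain ⟨M', hM₁, hM₂, hlv⟩ := exists_lvl_eq (N₀ := N₀) (R := ∏ j, G.qv j) bb hi
    have he' := he _ h ((lvl_dvd_lvl hi).trans hL)
    exact H35.Rk.finrank_le_bnd hp2 hpO hpS (fun a => thetaPoly_C _ _ _ _ _ a) _ hirrk hfr G.qv
      G.prime (fun j hj => by
        rcases (G.prime j).dvd_mul.mp hj with h1 | h1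
        · exact hQN₀ j h1
        · obtain ⟨i, hi'⟩ := prime_dvd_prod hbb (G.prime j) h1
          exact hbQ i j hi') G.inj (H35.Rk.dvd_sub_one G) (H35.Rk.frobDist G) hM₂ hlv h he'

end Main

end Fermat.Agent.H35.InR
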