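import Fermat.Agent.H67J

/-!
# Push forward along an automorphism is the action of its inverse
-/

set_option autoImplicit false

noncomputable section

open AlgebraicCurve
open scoped Pointwise

namespace Fermat.Agent.H35

variable {K : Type*} [Field K] [IsAlgClosed K] [CharZero K]
variable {F : Type*} [Field F] [Algebra K F] [H94.FunField K F]

theorem res_eq_smul (W : F ≃ₐ[K] F) (v : Place K F) :
    H67.res W.toAlgHom v = (SemilinearAut.ofAlgAut W)⁻¹ • v := by
  ext x
  rw [H67.mem_res, SemilinearAut.smul_toValuationSubring,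
    ValuationSubring.mem_pointwise_smul_iff_inv_smul_mem, inv_inv, SemilinearAut.ofAlgAut_smul]
  rfl

theorem pushD_eq_smul (W : F ≃ₐ[K] F) (D : Divisor K F) :
    H67.pushD W.toAlgHom D = (SemilinearAut.ofAlgAut W)⁻¹ • D := by
  rw [H67.pushD_eq, SemilinearAut.divisor_smul_def]
  congr 1
  funext v
  exact res_eq_smul W v

theorem pushP_eq_smul (W : F ≃ₐ[K] F) (x : Pic0 K F) :
    H67.pushP W.toAlgHom x = (SemilinearAut.ofAlgAut W)⁻¹ • x := by
  obtain ⟨D, rfl⟩ := Pic0.mk_surjective x
  rw [SemilinearAut.pic0_smul_mk, H67.pushP_mk]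
  exact H67.mk_congr (pushD_eq_smul W D.1)

/-- For an involution. -/
theorem pushP_eq_smul_of_invol (W : F ≃ₐ[K] F) (hW : ∀ f, W (W f) = f) (x : Pic0 K F) :
    H67.pushP W.toAlgHom x = SemilinearAut.ofAlgAut W • x := by
  rw [pushP_eq_smul]
  congr 1
  rw [inv_eq_iff_mul_eq_one, ← map_mul]
  have h : W * W = 1 := AlgEquiv.ext hW
  rw [h, map_one]

end Fermat.Agent.H35
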