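import Mathlib
import Fermat.Agent.H18LiftK
import Fermat.Agent.H3RR_Duality
import Fermat.Agent.H67Norm

/-!
# Constant field extensions are unramified (CARAYOL C7)
-/

set_option autoImplicit false
set_option linter.unusedSectionVars false
set_option linter.style.haveILetI false

noncomputable section

open AlgebraicCurve IntermediateField Fermat.Agent.H3RR WithZero Polynomial

namespace Fermat.Agent.H36

lemma adic_le_iff {K F : Type*} [Field K] [Field F] [Algebra K F] (v : Place K F) {f : F}
    (hf : f ≠ 0) {n : ℤ} : v.adicValuation f ≤ exp n ↔ -n ≤ v.ord f := by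
  have h2 := v.adicValuation_ne_zero hf
  rw [← WithZero.log_le_iff_le_exp h2, Place.ord]
  omega

lemma adic_lt_one_iff {K F : Type*} [Field K] [Field F] [Algebra K F] (v : Place K F) {f : F}
    (hf : f ≠ 0) : v.adicValuation f < 1 ↔ 0 < v.ord f := by
  have h2 := v.adicValuation_ne_zero hf
  rw [Place.ord, ← WithZero.exp_zero, ← WithZero.log_lt_iff_lt_exp h2]
  omega

lemma ord_zpow_eq {K F : Type*} [Field K] [Field F] [Algebra K F] (v : Place K F) {f : F}
    (n : ℤ) : v.ord (f ^ n) = n * v.ord f := by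
  rw [Place.ord, Place.ord, map_zpow₀, WithZero.log_zpow]
  simp

section CE

variable {K L FK FL : Type*} [Field K] [Field L] [Field FK] [Field FL] [Algebra K L]
  [Algebra K FK] [Algebra L FL] [IsAlgClosed L] [IsFF L FL] [Algebra.IsAlgebraic K L]
  (ι : FK →+* FL) (hι : ∀ a : K, ι (algebraMap K FK a) = algebraMap L FL (algebraMap K L a))

include hι in
lemma iota_aeval (x : FK) (p : K[X]) :
    ι (aeval x p) = aeval (ι x) (p.map (algebraMap K L)) := by
  rw [aeval_def, hom_eval₂, aeval_def, eval₂_map]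
  congr 1
  exact RingHom.ext hι

variable {I : Type*} (c : I → FL →ₗ[L] L) (hc : ∀ y : FL, (∀ i, c i y = 0) → y = 0)
  (τ : (L ≃ₐ[K] L) → SemilinearAut L FL) (hτ : ∀ σ y i, c i (τ σ • y) = σ (c i y))
  (hιc : ∀ f i, ∃ a : K, algebraMap K L a = c i (ι f))
  (hrat : ∀ y : FL, (∀ i, ∃ a : K, algebraMap K L a = c i y) → ∃ f, ι f = y)
  (hfix : ∀ z : L, (∀ σ : L ≃ₐ[K] L, σ z = z) → ∃ a : K, algebraMap K L a = z)

include hc hτ hιc in
lemma tau_iota (σ : L ≃ₐ[K] L) (f : FK) : τ σ • ι f = ι f := by
  rw [← sub_eq_zero]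
  apply hc
  intro i
  rw [map_sub, hτ]
  obtain ⟨a, ha⟩ := hιc f i
  rw [← ha, AlgEquiv.commutes, sub_self]

include hc hτ hιc hrat hfix in
/-- every place of `FL` has a uniformizer in `FK` -/
theorem exists_ord_one {x0 : FK} (hx0 : Transcendental L (ι x0))
    (w : Place L FL) (hι' : ∀ a : K, ι (algebraMap K FK a) = algebraMap L FL (algebraMap K L a)) :
    ∃ f : FK, w.ord (ι f) = 1 := by
  classical
  -- choose `x` regular at `w`
  obtain ⟨x, hx, hwx⟩ : ∃ x : FK, Transcendental L (ι x) ∧ w.adicValuation (ι x) ≤ 1 := by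
    by_cases h : w.adicValuation (ι x0) ≤ 1
    · exact ⟨x0, hx0, h⟩
    · refine ⟨x0⁻¹, ?_, ?_⟩
      · rw [map_inv₀]; exact transcendental_inv hx0
      · rw [map_inv₀, map_inv₀]
        exact inv_le_one_of_one_le₀ (not_le.1 h).le
  have hιx0 : ι x ≠ 0 := transcendental_ne_zero hx
  obtain ⟨c0, hc0⟩ := exists_const_sub_lt_one w hwx
  set g := (minpoly K c0).map (algebraMap K L) with hg
  have hgroot : g.eval c0 = 0 := by
    rw [hg, eval_map_algebraMap, minpoly.aeval]
  obtain ⟨h, hh⟩ := dvd_iff_isRoot.2 (show g.IsRoot c0 from hgroot)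
  have hg0 : g ≠ 0 := by
    rw [hg, Ne, Polynomial.map_eq_zero]
    exact minpoly.ne_zero (Algebra.IsIntegral.isIntegral c0)
  set f0 := aeval x (minpoly K c0) with hf0
  have hιf0 : ι f0 = aeval (ι x) g := iota_aeval ι hι' x _
  have hιf00 : ι f0 ≠ 0 := by
    intro h0
    rw [hιf0] at h0
    exact hx ⟨g, hg0, h0⟩
  have hval : ∀ p : L[X], w.adicValuation (aeval (ι x) p) ≤ 1 := by
    intro p
    induction p using Polynomial.induction_on' with
    | add p q hp hq =>
      rw [map_add]
      exact (Valuation.map_add _ _ _).trans (max_le hp hq)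
    | monomial n a =>
      rw [aeval_monomial, map_mul, map_pow]
      exact mul_le_one' (w.adicValuation_algebraMap_le_one a) (pow_le_one' hwx n)
  have hwf0 : w.adicValuation (ι f0) < 1 := by
    rw [hιf0, hh, map_mul, map_mul]
    have h1 : w.adicValuation (aeval (ι x) (X - C c0)) < 1 := by
      simpa using hc0
    exact mul_lt_one_of_lt_of_le h1 (hval h)
  -- the zeros of `f0`
  set Z : Finset (Place L FL) := (divOf (ι f0) : Divisor L FL).support.filter
    (fun v => v.adicValuation (ι f0) < 1) with hZ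
  have hlt : ∀ v : Place L FL, v.adicValuation (ι f0) < 1 → v.ord (ι f0) ≠ 0 := by
    intro v hv h0
    rw [Place.ord, neg_eq_zero] at h0
    have h1 := v.adicValuation_ne_zero hιf00
    have h2 : v.adicValuation (ι f0) = 1 := by
      rw [← WithZero.exp_log h1, h0, WithZero.exp_zero]
    exact hv.ne h2
  have hmemZ : ∀ v, v ∈ Z ↔ v.adicValuation (ι f0) < 1 := by
    intro v
    rw [hZ, Finset.mem_filter, Finsupp.mem_support_iff, divOf_apply hιf00]
    exact ⟨fun h => h.2, fun h => ⟨hlt v h, h⟩⟩
  have hwZ : w ∈ Z := (hmemZ w).2 hwf0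
  set DZ : Divisor L FL := ∑ v ∈ Z, Finsupp.single v 1 with hDZ
  have hDZa : ∀ v, DZ v = if v ∈ Z then 1 else 0 := by
    intro v
    rw [hDZ, Finsupp.finsetSum_apply]
    simp [Finsupp.single_apply]
  -- a large multiple of the pole divisor
  have hpole : 1 ≤ Divisor.degree (poleDiv (ι x) : Divisor L FL) := by
    rw [degree_poleDiv hx]
    haveI : FiniteDimensional L⟮ι x⟯ FL :=
      IsFF.finiteDimensional hx
    have : 0 < Module.finrank L⟮ι x⟯ FL := Module.finrank_pos
    exact_mod_cast this
  obtain ⟨M, hM⟩ : ∃ M : ℕ, 2 * (genusFF L FL : ℤ) - 2 + Divisor.degree DZ + 1 <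
      M * Divisor.degree (poleDiv (ι x) : Divisor L FL) := by
    refine ⟨(2 * (genusFF L FL : ℤ) - 2 + Divisor.degree DZ + 2).toNat, ?_⟩
    have h1 := Int.self_le_toNat (2 * (genusFF L FL : ℤ) - 2 + Divisor.degree DZ + 2)
    nlinarith
  set E : Divisor L FL := M • (poleDiv (ι x) : Divisor L FL) - DZ with hE
  have hEdeg : Divisor.degree E = M * Divisor.degree (poleDiv (ι x) : Divisor L FL) -
      Divisor.degree DZ := by
    rw [hE, map_sub, map_nsmul, nsmul_eq_mul]
  have hEw : E w = -1 := by
    rw [hE, Finsupp.sub_apply, Finsupp.smul_apply, hDZa, if_pos hwZ, poleDiv_apply hιx0]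
    have : 0 ≤ w.ord (ι x) := by
      rw [Place.ord]
      have h1 := w.adicValuation_ne_zero hιx0
      have h2 : WithZero.log (w.adicValuation (ι x)) ≤ 0 := by
        rw [WithZero.log_le_iff_le_exp h1, WithZero.exp_zero]
        exact hwx
      omega
    rw [max_eq_right (by omega)]
    simp
  -- `V = L(E)` is not contained in `L(E - w)`
  have hell : ell E = ell (E - Finsupp.single w 1) + 1 := by
    have h1 := ell_of_degree_gt (D := E) (by rw [hEdeg]; omega)
    have h2 := ell_of_degree_gt (D := E - Finsupp.single w 1) (by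
      rw [map_sub, hEdeg, Divisor.degree_single, deg_eq_one]; push_cast; omega)
    rw [map_sub, Divisor.degree_single, deg_eq_one] at h2
    push_cast at h2
    omega
  set V := riemannRochSpace E with hV
  have hspan := H18.descent_gen (K := K) (L := L) hfix (W := V)
    (fun i => (c i).comp V.subtype) (fun y hy => by
      apply Subtype.ext
      exact hc _ hy) (by
      intro σ y
      refine ⟨⟨τ σ • (y : FL), ?_⟩, fun i => hτ σ _ i⟩
      intro v
      by_cases hy0 : (y : FL) = 0
      · rw [hy0, smul_zero, map_zero]; exact zero_le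
      have hy0' : τ σ • (y : FL) ≠ 0 := by
        rw [SemilinearAut.smul_def, Ne, map_eq_zero_iff _ (RingEquiv.injective _)]
        exact hy0
      have hinv : ∀ z : FK, (τ σ • ((τ σ)⁻¹ • v)).ord (ι z) = ((τ σ)⁻¹ • v).ord (ι z) := by
        intro z
        conv_lhs => rw [← tau_iota ι c hc τ hτ hιc σ z]
        exact SemilinearAut.ord_smul _ _ _
      have hE' : E v = E ((τ σ)⁻¹ • v) := by
        have hz1 : v ∈ Z ↔ (τ σ)⁻¹ • v ∈ Z := by
          rw [hmemZ, hmemZ, adic_lt_one_iff _ hιf00, adic_lt_one_iff _ hιf00, ← hinv f0,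
            smul_inv_smul]
        rw [hE, Finsupp.sub_apply, Finsupp.sub_apply, Finsupp.smul_apply, Finsupp.smul_apply,
          hDZa, hDZa, poleDiv_apply hιx0, poleDiv_apply hιx0, ← hinv x, smul_inv_smul]
        simp only [hz1]
      rw [adic_le_iff _ hy0', hE']
      have h1 := y.2 ((τ σ)⁻¹ • v)
      rw [adic_le_iff _ hy0] at h1
      have h2 : (τ σ • ((τ σ)⁻¹ • v)).ord (τ σ • (y : FL)) = ((τ σ)⁻¹ • v).ord (y : FL) :=
        SemilinearAut.ord_smul _ _ _
      rw [smul_inv_smul] at h2
      rw [h2]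
      exact h1)
  by_contra hcon
  push Not at hcon
  have hsub : ∀ y : V, (y : FL) ∈ riemannRochSpace (E - Finsupp.single w 1) := by
    intro y
    have hy : y ∈ Submodule.span L {w : V | ∀ i, ∃ a : K, algebraMap K L a =
      ((c i).comp V.subtype) w} := by rw [hspan]; trivial
    induction hy using Submodule.span_induction with
    | mem z hz =>
      obtain ⟨f, hf⟩ := hrat (z : FL) hz
      intro v
      by_cases hvw : v = w
      · subst hvw
        rw [Finsupp.sub_apply, hEw, Finsupp.single_eq_same]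
        have h1 := z.2 v
        rw [hEw] at h1
        by_cases hz0 : (z : FL) = 0
        · rw [hz0, map_zero]; exact zero_le
        have h2 := v.adicValuation_ne_zero hz0
        have h3 : v.ord (z : FL) ≠ 1 := by rw [← hf]; exact hcon f
        rw [Place.ord] at h3
        rw [← WithZero.log_le_iff_le_exp h2] at h1 ⊢
        omega
      · have h1 := z.2 v
        rw [Finsupp.sub_apply, Finsupp.single_eq_of_ne hvw, sub_zero]
        exact h1
    | zero => exact zero_mem _
    | add a b _ _ ha hb => exact add_mem ha hb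
    | smul r a _ ha => exact Submodule.smul_mem _ r ha
  have hle : ell E ≤ ell (E - Finsupp.single w 1) := by
    refine LinearMap.finrank_le_finrank_of_injective
      (f := (V.subtype).codRestrict (riemannRochSpace (E - Finsupp.single w 1)) hsub) ?_
    intro a b hab
    apply Subtype.ext
    exact congrArg (fun z : riemannRochSpace (E - Finsupp.single w 1) => (z : FL)) hab
  omega

include hc hτ hιc hrat hfix in
/-- **Constant field extensions are unramified**: every place of `FK` is the restriction of a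
place of `FL` with the same order function. -/
theorem exists_place_above {x0 : FK} (hx0 : Transcendental L (ι x0)) (P : Place K FK)
    (hι' : ∀ a : K, ι (algebraMap K FK a) = algebraMap L FL (algebraMap K L a)) :
    ∃ w : Place L FL, ∀ f : FK, w.ord (ι f) = P.ord f := by
  classical
  -- the image of the valuation ring
  set A : Subring FL := P.toValuationSubring.toSubring.map ι with hA
  let φ : P.toValuationSubring →+* A :=
    (ι.comp P.toValuationSubring.subtype).codRestrict A (fun z => ⟨z, z.2, rfl⟩)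
  have hφ : ∀ z, ((φ z : A) : FL) = ι z := fun _ => rfl
  have hφi : Function.Injective φ := by
    intro a b hab
    apply Subtype.ext
    apply ι.injective
    exact congrArg (fun z : A => (z : FL)) hab
  have hφs : Function.Surjective φ := by
    rintro ⟨z, ⟨y, hy, rfl⟩⟩
    exact ⟨⟨y, hy⟩, rfl⟩
  set m := (IsLocalRing.maximalIdeal P.toValuationSubring).map φ with hm
  have hmtop : m ≠ ⊤ := by
    intro h
    have h1 := Ideal.comap_map_of_bijective φ ⟨hφi, hφs⟩
      (I := IsLocalRing.maximalIdeal P.toValuationSubring)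
    rw [← hm, h, Ideal.comap_top] at h1
    exact (IsLocalRing.maximalIdeal.isMaximal _).ne_top h1.symm
  obtain ⟨B, hAB, hmB⟩ := Ideal.image_subset_nonunits_valuationSubring m hmtop
  have hPB : ∀ f : FK, f ∈ P.toValuationSubring → ι f ∈ B := fun f hf => hAB ⟨f, hf, rfl⟩
  have hPB' : ∀ f : P.toValuationSubring, f ∈ IsLocalRing.maximalIdeal P.toValuationSubring →
      ι (f : FK) ∈ B.nonunits := fun f hf => hmB ⟨φ f, Ideal.mem_map_of_mem _ hf, rfl⟩
  have hLB : ∀ a : L, algebraMap L FL a ∈ B := by
    intro a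
    have h1 : IsIntegral K a := Algebra.IsIntegral.isIntegral a
    have h2 : IsIntegral B (algebraMap L FL a) := by
      have h3 : ∀ b : K, ι (algebraMap K FK b) ∈ B := fun b => hPB _ (P.algebraMap_mem' b)
      refine h1.map_of_comp_eq ((ι.comp (algebraMap K FK)).codRestrict B.toSubring h3)
        (algebraMap L FL) ?_
      refine RingHom.ext fun b => ?_
      exact hι' b
    obtain ⟨z, hz⟩ := (IsIntegrallyClosed.isIntegral_iff (R := B) (K := FL)).1 h2
    rw [← hz]
    exact z.2
  -- comparison with `P`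
  have hiff : ∀ f : FK, ι f ∈ B ↔ f ∈ P.toValuationSubring := by
    intro f
    refine ⟨fun h => ?_, hPB f⟩
    by_contra hf
    have hf0 : f ≠ 0 := by rintro rfl; exact hf (zero_mem _)
    have hfi : f⁻¹ ∈ P.toValuationSubring := (P.toValuationSubring.mem_or_inv_mem f).resolve_left hf
    have hmax : (⟨f⁻¹, hfi⟩ : P.toValuationSubring) ∈
        IsLocalRing.maximalIdeal P.toValuationSubring := by
      rw [IsLocalRing.mem_maximalIdeal, mem_nonunits_iff]
      intro hu
      apply hf
      obtain ⟨u, hu⟩ := hu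
      have h1 : ((u⁻¹ : P.toValuationSubringˣ) : P.toValuationSubring) * ⟨f⁻¹, hfi⟩ = 1 := by
        rw [← hu, Units.inv_mul]
      have h2 := congrArg (fun z : P.toValuationSubring => (z : FK)) h1
      have h3 : (((u⁻¹ : P.toValuationSubringˣ) : P.toValuationSubring) : FK) * f⁻¹ = 1 := h2
      have h4 : f = (((u⁻¹ : P.toValuationSubringˣ) : P.toValuationSubring) : FK) := by
        field_simp at h3
        exact h3.symm
      rw [h4]
      exact (((u⁻¹ : P.toValuationSubringˣ) : P.toValuationSubring)).2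
    have h1 := hPB' _ hmax
    have h2 : ι f⁻¹ ∈ B.nonunits := h1
    rw [map_inv₀] at h2
    rcases B.mem_nonunits_iff_or.mp h2 with h3 | h3
    · rw [inv_eq_zero, map_eq_zero] at h3
      exact hf0 h3
    · rw [inv_inv] at h3
      exact h3 h
  obtain ⟨π, hπ⟩ := IsDiscreteValuationRing.exists_irreducible P.toValuationSubring
  have hπ0 : (π : FK) ≠ 0 := fun h => hπ.ne_zero (Subtype.ext h)
  have htop : B ≠ ⊤ := by
    rintro rfl
    have h1 := hPB' π (by
      rw [hπ.maximalIdeal_eq]; exact Ideal.mem_span_singleton_self _)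
    rcases (⊤ : ValuationSubring FL).mem_nonunits_iff_or.mp h1 with h | h
    · rw [map_eq_zero] at h
      exact hπ0 h
    · exact h trivial
  set w : Place L FL := placeOf B hLB htop with hw
  refine ⟨w, ?_⟩
  have hwmem : ∀ f : FK, f ≠ 0 → (0 ≤ w.ord (ι f) ↔ 0 ≤ P.ord f) := by
    intro f hf
    rw [← H67.mem_iff_ord_nonneg P hf, ← hiff f]
    have hιf : ι f ≠ 0 := by rwa [Ne, map_eq_zero]
    rw [← H67.mem_iff_ord_nonneg w hιf]
    rfl
  obtain ⟨g, hg⟩ := exists_ord_one ι c hc τ hτ hιc hrat hfix hx0 w hι'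
  have hg0 : g ≠ 0 := by
    rintro rfl
    rw [map_zero, Place.ord_zero] at hg
    exact zero_ne_one hg
  have hιg0 : ι g ≠ 0 := by rwa [Ne, map_eq_zero]
  have key : ∀ f : FK, f ≠ 0 → P.ord f = w.ord (ι f) * P.ord g := by
    intro f hf
    have hιf : ι f ≠ 0 := by rwa [Ne, map_eq_zero]
    set n := w.ord (ι f) with hn
    set z := f * g ^ (-n) with hz
    have hz0 : z ≠ 0 := mul_ne_zero hf (zpow_ne_zero _ hg0)
    have h1 : w.ord (ι z) = 0 := by
      rw [hz, map_mul, map_zpow₀, Place.ord_mul _ hιf (zpow_ne_zero _ hιg0), ord_zpow_eq w, hg, ← hn]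
      ring
    have h2 : 0 ≤ P.ord z := (hwmem z hz0).1 h1.ge
    have h3 : 0 ≤ P.ord z⁻¹ := (hwmem _ (inv_ne_zero hz0)).1 (by
      rw [map_inv₀, Place.ord_inv, h1, neg_zero])
    rw [Place.ord_inv] at h3
    have h4 : P.ord z = 0 := by omega
    rw [hz, Place.ord_mul _ hf (zpow_ne_zero _ hg0), ord_zpow_eq P] at h4
    linarith
  have hgpos : 0 < P.ord g := by
    have h1 : 0 ≤ P.ord g := (hwmem g hg0).1 (by rw [hg]; exact zero_le_one)
    rcases h1.lt_or_eq with h | h
    · exact h
    · exfalso
      have h2 := (hwmem _ (inv_ne_zero hg0)).2 (by rw [Place.ord_inv, ← h, neg_zero])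
      rw [map_inv₀, Place.ord_inv, hg] at h2
      norm_num at h2
  have hg1 : P.ord g = 1 := by
    have h1 := key _ hπ0
    rw [P.ord_coe_irreducible hπ] at h1
    have h2 : P.ord g ∣ 1 := ⟨_, by rw [mul_comm]; exact h1⟩
    exact Int.eq_one_of_dvd_one hgpos.le h2
  intro f
  by_cases hf : f = 0
  · rw [hf, map_zero, Place.ord_zero, Place.ord_zero]
  · rw [key f hf, hg1, mul_one]

end CE

end Fermat.Agent.H36
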