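import Mathlib

/-!
# Charts of a normal arithmetic surface, elementary version (helper36)

`O` is a discrete valuation ring, `F` a field containing `O`, `t : F`.
* `chart O t`  : elements of `F` integral over `O[t]`;
* `gs O t`     : the integral closure of the Gauss ring `O[t]_(ϖ)` (elements `x` such that `p(t) x`
  is integral over `O[t]` for a primitive polynomial `p`); symmetric in `t ↔ t⁻¹`;
* `InP t ϖ x`  : `x ∈ ϖ • gs O t`;
* `mem_chart_of_gs_of_chartK` : `gs O t ∩ chart K t = chart O t`.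
-/

set_option autoImplicit false
set_option linter.style.haveILetI false
set_option linter.unusedSectionVars false
set_option linter.unnecessarySimpa false
open Polynomial

namespace Fermat.Agent.H36

section UFDInt

variable {A F : Type*} [CommRing A] [IsDomain A] [UniqueFactorizationMonoid A] [Field F]
  [Algebra A F] [FaithfulSMul A F]

/-- An element of the fraction field whose products with powers of two coprime elements are
integral is integral. -/
lemma isInteger_of_relPrime {E : Type*} [Field E] [Algebra A E] [IsFractionRing A E]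
    {c1 c2 : A} (hc : IsRelPrime c1 c2) (z : E) (k : ℕ)
    (h1 : ∃ a, algebraMap A E a = z * algebraMap A E c1 ^ k)
    (h2 : ∃ a, algebraMap A E a = z * algebraMap A E c2 ^ k) :
    ∃ a, algebraMap A E a = z := by
  have key : ∀ c : A, (∃ a, algebraMap A E a = z * algebraMap A E c ^ k) →
      (IsFractionRing.den A z : A) ∣ c ^ k := by
    rintro c ⟨a, ha⟩
    have hz := IsFractionRing.mk'_num_den' A z
    have hden : algebraMap A E (IsFractionRing.den A z : A) ≠ 0 := by
      have := IsFractionRing.to_map_ne_zero_of_mem_nonZeroDivisors (K := E)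
        (IsFractionRing.den A z).2
      exact this
    have h3 : (IsFractionRing.num A z) * c ^ k = (IsFractionRing.den A z : A) * a := by
      apply IsFractionRing.injective A E
      rw [map_mul, map_mul, map_pow, ha, (div_eq_iff hden).1 hz]
      ring
    have h4 : (IsFractionRing.den A z : A) ∣ (IsFractionRing.num A z) * c ^ k := ⟨a, h3⟩
    have h5 := IsFractionRing.num_den_reduced A z
    exact (h5.symm).dvd_of_dvd_mul_left h4
  have hu : IsUnit (IsFractionRing.den A z : A) :=
    (hc.pow : IsRelPrime (c1 ^ k) (c2 ^ k)) (key c1 h1) (key c2 h2)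
  obtain ⟨a, ha⟩ := IsFractionRing.isInteger_of_isUnit_den hu
  exact ⟨a, ha⟩

theorem isIntegral_of_relPrime {c1 c2 : A} (hc : IsRelPrime c1 c2) {x : F}
    (h1 : IsIntegral A (c1 • x)) (h2 : IsIntegral A (c2 • x)) (hc1 : c1 ≠ 0) (hc2 : c2 ≠ 0) :
    IsIntegral A x := by
  classical
  let E := FractionRing A
  let _ : Algebra E F := FractionRing.liftAlgebra A F
  have key : ∀ c : A, c ≠ 0 → IsIntegral A (c • x) → IsIntegral E x ∧
      ∀ i, ∃ a, algebraMap A E a = (minpoly E x).coeff i *
        algebraMap A E c ^ ((minpoly E x).natDegree - i) := by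
    intro c hc h
    have hE : IsIntegral E (c • x) := h.tower_top
    have hc' : algebraMap A E c ≠ 0 := by
      simpa using (FaithfulSMul.algebraMap_injective A E).ne hc
    have hx : IsIntegral E x := by
      have : x = (algebraMap A E c)⁻¹ • (c • x) := by
        rw [← algebraMap_smul E c x, smul_smul, inv_mul_cancel₀ hc', one_smul]
      rw [this]
      exact hE.smul _
    refine ⟨hx, fun i => ?_⟩
    have e1 : minpoly E (c • x) = (minpoly A (c • x)).map (algebraMap A E) :=
      minpoly.isIntegrallyClosed_eq_field_fractions' E h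
    have e2 : minpoly E ((algebraMap A E c) • x) = (minpoly E x).scaleRoots (algebraMap A E c) :=
      IsIntegrallyClosed.minpoly_smul hc' hx
    rw [algebraMap_smul] at e2
    refine ⟨(minpoly A (c • x)).coeff i, ?_⟩
    rw [← coeff_map, ← e1, e2, coeff_scaleRoots]
  obtain ⟨hx, k1⟩ := key c1 hc1 h1
  obtain ⟨_, k2⟩ := key c2 hc2 h2
  have hco : ∀ i, ∃ a, algebraMap A E a = (minpoly E x).coeff i := fun i =>
    isInteger_of_relPrime hc _ _ (k1 i) (k2 i)
  have hlift : minpoly E x ∈ Polynomial.lifts (algebraMap A E) := by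
    rw [Polynomial.lifts_iff_coeff_lifts]
    intro i
    obtain ⟨a, ha⟩ := hco i
    exact ⟨a, ha⟩
  obtain ⟨p, hp, _, hpm⟩ := Polynomial.lifts_and_degree_eq_and_monic hlift (minpoly.monic hx)
  refine ⟨p, hpm, ?_⟩
  have := minpoly.aeval E x
  rw [← hp, aeval_map_algebraMap] at this
  exact this

end UFDInt

section Chart

variable (O : Type*) [CommRing O] {F : Type*} [Field F] [Algebra O F]

/-- Evaluation `O[X] → F`, `X ↦ t`. -/
noncomputable def evt (t : F) : O[X] →+* F := (Polynomial.aeval t : O[X] →ₐ[O] F).toRingHom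

lemma evt_apply (t : F) (p : O[X]) : evt O t p = aeval t p := rfl

/-- The `O[X]`-algebra structure on `F` given by `X ↦ t`. -/
noncomputable abbrev algT (t : F) : Algebra O[X] F := (evt O t).toAlgebra

/-- The subring of `F` of elements integral over `O[t]`. -/
noncomputable def chart (t : F) : Subring F :=
  letI := algT O t
  (integralClosure O[X] F).toSubring

lemma mem_chart_iff {t x : F} : x ∈ chart O t ↔ (evt O t).IsIntegralElem x := Iff.rfl

lemma evt_mem_chart (t : F) (p : O[X]) : aeval t p ∈ chart O t :=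
  (evt O t).isIntegralElem_map

lemma self_mem_chart (t : F) : t ∈ chart O t := by
  simpa using evt_mem_chart O t X

lemma algebraMap_mem_chart (t : F) (c : O) : algebraMap O F c ∈ chart O t := by
  simpa using evt_mem_chart O t (C c)

end Chart

section Gauss

variable (O : Type*) [CommRing O] [IsDomain O] [IsDiscreteValuationRing O]
  {F : Type*} [Field F] [Algebra O F]

/-- `p` is primitive, i.e. nonzero modulo the maximal ideal. -/
def Prim (p : O[X]) : Prop := p.map (IsLocalRing.residue O) ≠ 0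

variable {O}

lemma Prim.mul {p q : O[X]} (hp : Prim O p) (hq : Prim O q) : Prim O (p * q) := by
  unfold Prim at *
  rw [Polynomial.map_mul]
  exact mul_ne_zero hp hq

lemma Prim.pow {p : O[X]} (hp : Prim O p) (n : ℕ) : Prim O (p ^ n) := by
  unfold Prim at *
  rw [Polynomial.map_pow]
  exact pow_ne_zero _ hp

lemma prim_one : Prim O (1 : O[X]) := by
  unfold Prim
  simp

lemma prim_X : Prim O (X : O[X]) := by
  unfold Prim
  simp

lemma Prim.ne_zero {p : O[X]} (hp : Prim O p) : p ≠ 0 := by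
  rintro rfl
  exact hp (by simp)

lemma prim_prod {ι : Type*} (s : Finset ι) (f : ι → O[X]) (h : ∀ i ∈ s, Prim O (f i)) :
    Prim O (∏ i ∈ s, f i) := by
  classical
  induction s using Finset.induction_on with
  | empty => simpa using prim_one
  | insert a s ha ih =>
    rw [Finset.prod_insert ha]
    exact (h a (by simp)).mul (ih fun i hi => h i (by simp [hi]))

lemma residue_eq_zero_iff_dvd {ϖ : O} (hϖ : Irreducible ϖ) (x : O) :
    IsLocalRing.residue O x = 0 ↔ ϖ ∣ x := by
  rw [IsLocalRing.residue_eq_zero_iff, hϖ.maximalIdeal_eq, Ideal.mem_span_singleton]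

lemma not_prim_iff {ϖ : O} (hϖ : Irreducible ϖ) (p : O[X]) : ¬ Prim O p ↔ C ϖ ∣ p := by
  unfold Prim
  rw [not_not, Polynomial.ext_iff]
  constructor
  · intro h
    rw [Polynomial.C_dvd_iff_dvd_coeff]
    intro i
    rw [← residue_eq_zero_iff_dvd hϖ]
    simpa using h i
  · intro h i
    rw [Polynomial.C_dvd_iff_dvd_coeff] at h
    simpa using (residue_eq_zero_iff_dvd hϖ _).2 (h i)

lemma irreducible_C {ϖ : O} (hϖ : Irreducible ϖ) : Irreducible (C ϖ : O[X]) :=
  (Polynomial.prime_C_iff.2 hϖ.prime).irreducible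

lemma Prim.isRelPrime {ϖ : O} (hϖ : Irreducible ϖ) {p : O[X]} (hp : Prim O p) (n : ℕ) :
    IsRelPrime (C ϖ ^ n) p := by
  apply IsRelPrime.pow_left
  rw [(irreducible_C hϖ).isRelPrime_iff_not_dvd, ← not_prim_iff hϖ, not_not]
  exact hp

lemma exists_eq_pow_mul_prim {ϖ : O} (hϖ : Irreducible ϖ) {p : O[X]} (hp : p ≠ 0) :
    ∃ (n : ℕ) (q : O[X]), Prim O q ∧ p = C ϖ ^ n * q := by
  obtain ⟨n, q, hq, h⟩ := WfDvdMonoid.max_power_factor hp (irreducible_C hϖ)
  exact ⟨n, q, by_contra fun hc => hq ((not_prim_iff hϖ q).1 hc), h⟩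

variable (O) in
/-- The integral closure of the Gauss ring `O[t]_(ϖ)` in `F`. -/
noncomputable def gs (t : F) : Subring F where
  carrier := {x | ∃ p : O[X], Prim O p ∧ aeval t p * x ∈ chart O t}
  mul_mem' := by
    rintro x y ⟨p, hp, hx⟩ ⟨q, hq, hy⟩
    refine ⟨p * q, hp.mul hq, ?_⟩
    have := mul_mem hx hy
    rw [map_mul]
    convert this using 1
    ring
  one_mem' := ⟨1, prim_one, by simpa using one_mem _⟩
  add_mem' := by
    rintro x y ⟨p, hp, hx⟩ ⟨q, hq, hy⟩
    refine ⟨p * q, hp.mul hq, ?_⟩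
    have h1 := mul_mem (evt_mem_chart O t q) hx
    have h2 := mul_mem (evt_mem_chart O t p) hy
    have := add_mem h1 h2
    rw [map_mul]
    convert this using 1
    ring
  zero_mem' := ⟨1, prim_one, by simpa using zero_mem _⟩
  neg_mem' := by
    rintro x ⟨p, hp, hx⟩
    exact ⟨p, hp, by simpa using hx⟩

lemma mem_gs_iff {t x : F} : x ∈ gs O t ↔ ∃ p : O[X], Prim O p ∧ aeval t p * x ∈ chart O t :=
  Iff.rfl

lemma chart_le_gs (t : F) : chart O t ≤ gs O t := fun x hx => ⟨1, prim_one, by simpa using hx⟩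

lemma mem_gs_of_prim_mul {t x : F} {p : O[X]} (hp : Prim O p) (h : aeval t p * x ∈ gs O t) :
    x ∈ gs O t := by
  obtain ⟨q, hq, h'⟩ := h
  refine ⟨q * p, hq.mul hp, ?_⟩
  rw [map_mul, mul_assoc]
  exact h'

end Gauss

section FracGen

variable {O : Type*} [CommRing O] [IsDomain O]
  {K : Type*} [Field K] [Algebra O K] [IsFractionRing O K]
  {F : Type*} [Field F] [Algebra O F] [Algebra K F] [IsScalarTower O K F]

open IntermediateField

variable (K) in
omit [IsDomain O] in
lemma evt_injective {t : F} (ht : Transcendental K t) : Function.Injective (evt O t) := by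
  have h1 : (evt O t) = ((aeval t : K[X] →ₐ[K] F).toRingHom).comp
      (Polynomial.mapRingHom (algebraMap O K)) := by
    ext x
    · simp [evt_apply, ← IsScalarTower.algebraMap_apply]
    · simp [evt_apply]
  rw [h1]
  exact (transcendental_iff_injective.1 ht).comp
    (Polynomial.map_injective _ (IsFractionRing.injective O K))

variable (O K) in
/-- The `O[X]`-algebra structure on `K(t)`. -/
noncomputable abbrev algE (t : F) : Algebra O[X] K⟮t⟯ :=
  ((aeval (AdjoinSimple.gen K t) : O[X] →ₐ[O] K⟮t⟯).toRingHom).toAlgebra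

lemma exists_clear (p : K[X]) : ∃ (c : O) (q : O[X]), c ≠ 0 ∧
    q.map (algebraMap O K) = C (algebraMap O K c) * p := by
  classical
  obtain ⟨⟨c, hc⟩, h⟩ := IsLocalization.exist_integer_multiples_of_finset (nonZeroDivisors O)
    p.coeffs
  refine ⟨c, ?_⟩
  have h2 : C (algebraMap O K c) * p ∈ Polynomial.lifts (algebraMap O K) := by
    rw [Polynomial.lifts_iff_coeff_lifts]
    intro i
    by_cases hi : p.coeff i = 0
    · exact ⟨0, by simp [hi]⟩
    · obtain ⟨a, ha⟩ := h (p.coeff i) (by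
        rw [Polynomial.mem_coeffs_iff]
        exact ⟨i, by rwa [Polynomial.mem_support_iff], rfl⟩)
      refine ⟨a, ?_⟩
      rw [coeff_C_mul, ha]
      simp [Algebra.smul_def]
  obtain ⟨q, hq⟩ := (Polynomial.mem_lifts _).1 h2
  exact ⟨q, nonZeroDivisors.ne_zero hc, hq⟩

omit [IsDomain O] in
lemma algebraMap_injective_OF (O K F : Type*) [CommRing O] [Field K] [Field F] [Algebra O K]
    [IsFractionRing O K] [Algebra O F] [Algebra K F] [IsScalarTower O K F] :
    Function.Injective (algebraMap O F) := by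
  rw [IsScalarTower.algebraMap_eq O K F]
  exact (algebraMap K F).injective.comp (IsFractionRing.injective O K)

omit [IsDomain O] in
lemma algE_apply (t : F) (p : O[X]) :
    letI := algE O K t
    ((algebraMap O[X] K⟮t⟯ p : K⟮t⟯) : F) = aeval t p := by
  letI := algE O K t
  haveI : IsScalarTower O K⟮t⟯ F := IsScalarTower.of_algebraMap_eq fun x => rfl
  change ((aeval (AdjoinSimple.gen K t) p : K⟮t⟯) : F) = _
  have : ((aeval (AdjoinSimple.gen K t) p : K⟮t⟯) : F) =
      (IsScalarTower.toAlgHom O K⟮t⟯ F) (aeval (AdjoinSimple.gen K t) p) := rfl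
  rw [this, ← Polynomial.aeval_algHom_apply]
  simp

lemma isFractionRing_adjoin {t : F} (ht : Transcendental K t) :
    letI := algE O K t
    IsFractionRing O[X] K⟮t⟯ := by
  letI := algE O K t
  have hval : ∀ p : O[X], ((algebraMap O[X] K⟮t⟯ p : K⟮t⟯) : F) = aeval t p := algE_apply t
  haveI : FaithfulSMul O[X] K⟮t⟯ := by
    rw [faithfulSMul_iff_algebraMap_injective]
    intro p q hpq
    apply evt_injective K ht
    rw [evt_apply, evt_apply, ← hval, ← hval, hpq]
  refine IsFractionRing.of_field _ _ fun z => ?_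
  obtain ⟨r, s, hz⟩ := (IntermediateField.mem_adjoin_simple_iff K (z : F)).1 z.2
  obtain ⟨c, r', hc, hr⟩ := exists_clear (O := O) r
  obtain ⟨d, s', hd, hs⟩ := exists_clear (O := O) s
  refine ⟨C d * r', C c * s', ?_⟩
  have hr2 : aeval t r' = algebraMap O F c * aeval t r := by
    have := congrArg (aeval t) hr
    rw [aeval_map_algebraMap, map_mul, aeval_C, ← IsScalarTower.algebraMap_apply] at this
    exact this
  have hs2 : aeval t s' = algebraMap O F d * aeval t s := by
    have := congrArg (aeval t) hs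
    rw [aeval_map_algebraMap, map_mul, aeval_C, ← IsScalarTower.algebraMap_apply] at this
    exact this
  have hinj : Function.Injective (algebraMap O F) := algebraMap_injective_OF O K F
  have hc' : algebraMap O F c ≠ 0 := by
    rw [Ne, map_eq_zero_iff _ hinj]; exact hc
  have hd' : algebraMap O F d ≠ 0 := by
    rw [Ne, map_eq_zero_iff _ hinj]; exact hd
  apply Subtype.ext
  have : ((algebraMap O[X] K⟮t⟯ (C d * r') / algebraMap O[X] K⟮t⟯ (C c * s') : K⟮t⟯) : F) =
      (algebraMap O[X] K⟮t⟯ (C d * r') : K⟮t⟯) / ((algebraMap O[X] K⟮t⟯ (C c * s') : K⟮t⟯) : F) := rfl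
  rw [this, hval, hval, map_mul, map_mul, aeval_C, aeval_C, hr2, hs2, hz]
  by_cases h0 : aeval t s = 0
  · simp [h0]
  · field_simp

omit [IsDomain O] in
lemma isScalarTower_algE (t : F) :
    letI := algE O K t
    letI := algT O t
    IsScalarTower O[X] K⟮t⟯ F := by
  letI := algE O K t
  letI := algT O t
  refine IsScalarTower.of_algebraMap_eq fun p => ?_
  exact (algE_apply t p).symm

end FracGen

section Frac

variable {O : Type*} [CommRing O] [IsDomain O] [IsDiscreteValuationRing O]
  {K : Type*} [Field K] [Algebra O K] [IsFractionRing O K]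
  {F : Type*} [Field F] [Algebra O F] [Algebra K F] [IsScalarTower O K F]

variable (K) in
/-- Regularity: `O[t]`-integrality from Gauss integrality and `ϖ`-integrality. -/
lemma mem_chart_of_gs_of_pow {ϖ : O} (hϖ : Irreducible ϖ) {t x : F} (ht : Transcendental K t)
    (hx : x ∈ gs O t) {n : ℕ} (hn : algebraMap O F ϖ ^ n * x ∈ chart O t) : x ∈ chart O t := by
  obtain ⟨p, hp, h⟩ := hx
  letI := algT O t
  haveI : FaithfulSMul O[X] F := (faithfulSMul_iff_algebraMap_injective _ _).2 (evt_injective K ht)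
  have h1 : IsIntegral O[X] ((C ϖ ^ n) • x) := by
    rw [Algebra.smul_def]
    have : algebraMap O[X] F (C ϖ ^ n) = algebraMap O F ϖ ^ n := by
      change aeval t (C ϖ ^ n) = _
      simp
    rw [this]
    exact hn
  have h2 : IsIntegral O[X] (p • x) := by
    rw [Algebra.smul_def]
    exact h
  exact isIntegral_of_relPrime (hp.isRelPrime hϖ n) h1 h2
    (pow_ne_zero _ (by simpa using hϖ.ne_zero)) hp.ne_zero


variable (K) in
attribute [local instance] Polynomial.algebra in
lemma exists_pow_mul_mem_chart {ϖ : O} (hϖ : Irreducible ϖ) {t x : F}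
    (hx : x ∈ chart K t) : ∃ n : ℕ, algebraMap O F ϖ ^ n * x ∈ chart O t := by
  letI := algT O t
  letI := algT K t
  haveI : IsScalarTower O[X] K[X] F := by
    refine IsScalarTower.of_algebraMap_eq fun p => ?_
    change aeval t p = aeval t (p.map (algebraMap O K))
    simp
  haveI : IsLocalization ((nonZeroDivisors O).map (C : O →+* O[X])) K[X] :=
    Polynomial.isLocalization _ _
  obtain ⟨⟨_, ⟨c, hc, rfl⟩⟩, h⟩ := IsIntegral.exists_multiple_integral_of_isLocalization
    ((nonZeroDivisors O).map (C : O →+* O[X])) (Rₘ := K[X]) x hx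
  obtain ⟨n, u, rfl⟩ := IsDiscreteValuationRing.eq_unit_mul_pow_irreducible
    (nonZeroDivisors.ne_zero hc) hϖ
  refine ⟨n, ?_⟩
  have h1 : algebraMap O F (u * ϖ ^ n) * x ∈ chart O t := by
    have h3 : IsIntegral O[X] (algebraMap O[X] F (C ((u : O) * ϖ ^ n)) * x) := by
      rw [← Algebra.smul_def]; exact h
    have h4 : algebraMap O[X] F (C ((u : O) * ϖ ^ n)) = algebraMap O F (u * ϖ ^ n) := by
      change aeval t (C ((u : O) * ϖ ^ n)) = _
      rw [aeval_C]
    rw [h4] at h3
    exact h3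
  have h2 := mul_mem (algebraMap_mem_chart O t ((u⁻¹ : Oˣ) : O)) h1
  rw [← mul_assoc, ← map_mul, ← mul_assoc, Units.inv_mul, one_mul, map_pow] at h2
  exact h2

variable (K) in
/-- Regularity on the affine chart: Gauss integral and integral over `K[t]` implies integral
over `O[t]`. -/
theorem mem_chart_of_gs_of_chartK {t x : F} (ht : Transcendental K t)
    (hx : x ∈ gs O t) (hx' : x ∈ chart K t) : x ∈ chart O t := by
  obtain ⟨ϖ, hϖ⟩ := IsDiscreteValuationRing.exists_irreducible O
  obtain ⟨n, hn⟩ := exists_pow_mul_mem_chart K hϖ hx'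
  exact mem_chart_of_gs_of_pow K hϖ ht hx hn

end Frac

section Inv

variable {R : Type*} [CommRing R] {F : Type*} [Field F] [Algebra R F]

lemma exists_inv_pow_mul_mem_chart {t x : F} (ht : t ≠ 0) (hx : x ∈ chart R t) :
    ∃ n : ℕ, t⁻¹ ^ n * x ∈ chart R t⁻¹ := by
  obtain ⟨p, hp, hpx⟩ := hx
  -- degree bound
  obtain ⟨c, hc⟩ : ∃ c, ∀ i, (p.coeff i).natDegree ≤ c := by
    refine ⟨p.support.sup (fun i => (p.coeff i).natDegree), fun i => ?_⟩
    by_cases hi : i ∈ p.support
    · exact Finset.le_sup (f := fun i => (p.coeff i).natDegree) hi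
    · simp_all
  refine ⟨c, ?_⟩
  set N := p.natDegree with hN
  let q : R[X][X] := X ^ N + ∑ i : Fin N, C (reflect (c * (N - i)) (p.coeff i)) * X ^ (i : ℕ)
  refine ⟨q, monic_X_pow_add (degree_sum_fin_lt _), ?_⟩
  have key : ∀ i : Fin N, evt R t⁻¹ (reflect (c * (N - i)) (p.coeff i)) =
      t⁻¹ ^ (c * (N - i)) * evt R t (p.coeff i) := by
    intro i
    letI : Invertible t := invertibleOfNonzero ht
    have h1 := eval₂_reflect_mul_pow (algebraMap R F) t (c * (N - i)) (p.coeff i)
      ((hc i).trans (Nat.le_mul_of_pos_right _ (by omega)))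
    rw [invOf_eq_inv] at h1
    rw [evt_apply, evt_apply, aeval_def, aeval_def, ← h1, ← mul_assoc, mul_right_comm, ← mul_pow,
      inv_mul_cancel₀ ht, one_pow, one_mul]
  have hpx' : x ^ N + ∑ i : Fin N, evt R t (p.coeff i) * x ^ (i : ℕ) = 0 := by
    rw [eval₂_eq_sum_range, Finset.sum_range_succ, ← hN] at hpx
    have h2 : p.coeff N = 1 := by rw [hN]; exact hp
    rw [h2, map_one, one_mul, add_comm, Finset.sum_range] at hpx
    exact hpx
  simp only [q, eval₂_add, eval₂_pow, eval₂_X, eval₂_finsetSum, eval₂_mul, eval₂_C]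
  have h3 : (t⁻¹ ^ c * x) ^ N + ∑ i : Fin N, evt R t⁻¹ (reflect (c * (N - i)) (p.coeff i)) *
      (t⁻¹ ^ c * x) ^ (i : ℕ) = t⁻¹ ^ (c * N) *
        (x ^ N + ∑ i : Fin N, evt R t (p.coeff i) * x ^ (i : ℕ)) := by
    rw [mul_add, Finset.mul_sum, mul_pow, ← pow_mul]
    congr 1
    refine Finset.sum_congr rfl fun i _ => ?_
    rw [key i, mul_pow, ← pow_mul]
    have h4 : c * N = c * (N - i) + c * i := by
      rw [← mul_add]
      congr 1
      have := i.2
      omega
    rw [h4, pow_add]
    ring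
  rw [hpx', mul_zero] at h3
  exact h3

end Inv

section GaussInv

variable {O : Type*} [CommRing O] [IsDomain O] [IsDiscreteValuationRing O]
  {F : Type*} [Field F] [Algebra O F]

lemma aeval_reflect {R : Type*} [CommRing R] [Algebra R F] {t : F} (ht : t ≠ 0) {N : ℕ} {f : R[X]}
    (hf : f.natDegree ≤ N) : aeval t⁻¹ (reflect N f) = t⁻¹ ^ N * aeval t f := by
  letI : Invertible t := invertibleOfNonzero ht
  have h1 := eval₂_reflect_mul_pow (algebraMap R F) t N f hf
  rw [invOf_eq_inv] at h1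
  rw [aeval_def, aeval_def, ← h1, ← mul_assoc, mul_right_comm, ← mul_pow,
      inv_mul_cancel₀ ht, one_pow, one_mul]

lemma Prim.reflect {p : O[X]} (hp : Prim O p) (N : ℕ) : Prim O (reflect N p) := by
  unfold Prim at *
  rw [← reflect_map]
  intro h
  exact hp (by simpa using h)

lemma gs_le_gs_inv {t : F} (ht : t ≠ 0) : gs O t ≤ gs O t⁻¹ := by
  rintro x ⟨p, hp, h⟩
  obtain ⟨c, hc⟩ := exists_inv_pow_mul_mem_chart ht h
  refine ⟨reflect (p.natDegree + c) p, hp.reflect _, ?_⟩
  rw [aeval_reflect ht (by omega)]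
  have h2 := mul_mem (pow_mem (self_mem_chart O t⁻¹) p.natDegree) hc
  convert h2 using 1
  rw [pow_add]
  ring

lemma gs_inv {t : F} (ht : t ≠ 0) : gs O t⁻¹ = gs O t := by
  apply le_antisymm
  · have := gs_le_gs_inv (O := O) (inv_ne_zero ht)
    rwa [inv_inv] at this
  · exact gs_le_gs_inv ht

lemma self_mem_gs (t : F) : t ∈ gs O t := chart_le_gs t (self_mem_chart O t)

lemma algebraMap_mem_gs (t : F) (c : O) : algebraMap O F c ∈ gs O t :=
  chart_le_gs t (algebraMap_mem_chart O t c)

lemma aeval_mem_gs (t : F) (p : O[X]) : aeval t p ∈ gs O t :=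
  chart_le_gs t (evt_mem_chart O t p)

lemma inv_mem_gs {t : F} (ht : t ≠ 0) : t⁻¹ ∈ gs O t := by
  rw [← gs_inv ht]
  exact self_mem_gs _

/-- `x ∈ ϖ S`, with `S` the Gauss ring closure. -/
def InP (t : F) (ϖ : O) (x : F) : Prop := (algebraMap O F ϖ)⁻¹ * x ∈ gs O t

lemma InP.add {t : F} {ϖ : O} {x y : F} (hx : InP t ϖ x) (hy : InP t ϖ y) : InP t ϖ (x + y) := by
  unfold InP at *
  rw [mul_add]
  exact add_mem hx hy

lemma InP.sub {t : F} {ϖ : O} {x y : F} (hx : InP t ϖ x) (hy : InP t ϖ y) : InP t ϖ (x - y) := by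
  unfold InP at *
  rw [mul_sub]
  exact sub_mem hx hy

lemma InP.neg {t : F} {ϖ : O} {x : F} (hx : InP t ϖ x) : InP t ϖ (-x) := by
  unfold InP at *
  rw [mul_neg]
  exact neg_mem hx

lemma inP_zero (t : F) (ϖ : O) : InP t ϖ 0 := by
  unfold InP
  rw [mul_zero]
  exact zero_mem _

lemma InP.mul_left {t : F} {ϖ : O} {x s : F} (hs : s ∈ gs O t) (hx : InP t ϖ x) :
    InP t ϖ (s * x) := by
  unfold InP at *
  rw [mul_left_comm]
  exact mul_mem hs hx

lemma InP.mul_right {t : F} {ϖ : O} {x s : F} (hs : s ∈ gs O t) (hx : InP t ϖ x) :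
    InP t ϖ (x * s) := by
  rw [mul_comm]
  exact hx.mul_left hs

lemma InP.sum {t : F} {ϖ : O} {ι : Type*} (s : Finset ι) (f : ι → F)
    (h : ∀ i ∈ s, InP t ϖ (f i)) : InP t ϖ (∑ i ∈ s, f i) := by
  classical
  induction s using Finset.induction_on with
  | empty => simpa using inP_zero t ϖ
  | insert a s ha ih =>
    rw [Finset.sum_insert ha]
    exact (h a (by simp)).add (ih fun i hi => h i (by simp [hi]))

lemma InP.of_prim_mul {t : F} {ϖ : O} {x : F} {p : O[X]} (hp : Prim O p)
    (h : InP t ϖ (aeval t p * x)) : InP t ϖ x := by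
  unfold InP at *
  rw [mul_left_comm] at h
  exact mem_gs_of_prim_mul hp h

lemma inP_pi_mul {t : F} {ϖ : O} (h0 : algebraMap O F ϖ ≠ 0) {x : F} (hx : x ∈ gs O t) :
    InP t ϖ (algebraMap O F ϖ * x) := by
  unfold InP
  rwa [← mul_assoc, inv_mul_cancel₀ h0, one_mul]

lemma InP.mem {t : F} {ϖ : O} (h0 : algebraMap O F ϖ ≠ 0) {x : F} (hx : InP t ϖ x) :
    x ∈ gs O t := by
  have := mul_mem (algebraMap_mem_gs t ϖ) hx
  rwa [← mul_assoc, mul_inv_cancel₀ h0, one_mul] at this

lemma inP_of_not_prim {t : F} {ϖ : O} (hϖ : Irreducible ϖ) (h0 : algebraMap O F ϖ ≠ 0) {p : O[X]}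
    (hp : ¬ Prim O p) {x : F} (hx : x ∈ gs O t) : InP t ϖ (aeval t p * x) := by
  obtain ⟨q, rfl⟩ := (not_prim_iff hϖ p).1 hp
  rw [map_mul, aeval_C, mul_assoc]
  exact inP_pi_mul h0 (mul_mem (aeval_mem_gs t q) hx)

lemma InP.inv {t : F} {ϖ : O} (ht : t ≠ 0) {x : F} (hx : InP t ϖ x) : InP t⁻¹ ϖ x := by
  unfold InP at *
  rwa [gs_inv ht]

/-- `s` is linearly independent modulo `ϖ` over `k(t)`. -/
def Indep (t : F) (ϖ : O) {ι : Type*} [Fintype ι] (s : ι → F) : Prop :=
  ∀ p : ι → O[X], InP t ϖ (∑ i, aeval t (p i) * s i) → ∀ i, ¬ Prim O (p i)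

/-- `s` generates the Gauss closure modulo `ϖ` over `k(t)`. -/
def Gen (t : F) (ϖ : O) {ι : Type*} [Fintype ι] (s : ι → F) : Prop :=
  ∀ x ∈ gs O t, ∃ (q : O[X]) (p : ι → O[X]), Prim O q ∧
    InP t ϖ (aeval t q * x - ∑ i, aeval t (p i) * s i)

lemma exists_bound {ι : Type*} [Fintype ι] (p : ι → O[X]) : ∃ N, ∀ i, (p i).natDegree ≤ N :=
  ⟨Finset.univ.sup (fun i => (p i).natDegree),
    fun i => Finset.le_sup (f := fun i => (p i).natDegree) (Finset.mem_univ i)⟩

lemma Gen.inv {t : F} {ϖ : O} (ht : t ≠ 0) {ι : Type*} [Fintype ι] {s : ι → F}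
    (hs : Gen t ϖ s) : Gen t⁻¹ ϖ s := by
  intro x hx
  rw [gs_inv ht] at hx
  obtain ⟨q, p, hq, h⟩ := hs x hx
  obtain ⟨N, hN⟩ := exists_bound p
  refine ⟨reflect (q.natDegree + N) q, fun i => reflect (q.natDegree + N) (p i), hq.reflect _, ?_⟩
  rw [aeval_reflect ht (by omega)]
  have h1 : ∀ i, aeval t⁻¹ (reflect (q.natDegree + N) (p i)) =
      t⁻¹ ^ (q.natDegree + N) * aeval t (p i) := fun i =>
    aeval_reflect ht ((hN i).trans (by omega))
  simp_rw [h1]
  have h2 := (h.mul_left (pow_mem (inv_mem_gs ht) (q.natDegree + N))).inv ht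
  convert h2 using 1
  rw [mul_sub, Finset.mul_sum]
  congr 1
  · ring
  · exact Finset.sum_congr rfl fun i _ => by ring

/-- Degree bound for the coordinates of functions with bounded poles. -/
lemma degree_bound {t : F} {ϖ : O} (ht : t ≠ 0)
    {ι : Type*} [Fintype ι] {s : ι → F}
    (hs : Indep t ϖ s) {Δ Δ' : O[X]} (hΔ' : Prim O Δ')
    {n : ℕ} {x x' : F} (hx' : InP t ϖ (t⁻¹ ^ n * x - x'))
    {p q : ι → O[X]} (hp : InP t ϖ (aeval t Δ * x - ∑ i, aeval t (p i) * s i))
    (hq : InP t ϖ (aeval t⁻¹ Δ' * x' - ∑ i, aeval t⁻¹ (q i) * s i)) (i : ι) :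
    ((p i).map (IsLocalRing.residue O)).natDegree ≤ n + Δ'.natDegree + Δ.natDegree := by
  obtain ⟨f, hf⟩ := exists_bound q
  set e := Δ'.natDegree with he
  have ht' : t⁻¹ ≠ 0 := inv_ne_zero ht
  have hR : aeval t (reflect e Δ') = t ^ e * aeval t⁻¹ Δ' := by
    have := aeval_reflect ht' (N := e) (f := Δ') le_rfl
    simpa using this
  have hQ : ∀ i, aeval t (reflect f (q i)) = t ^ f * aeval t⁻¹ (q i) := by
    intro i
    have := aeval_reflect ht' (N := f) (f := q i) (hf i)
    simpa using this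
  have hmem : ∀ m : ℕ, t ^ m ∈ gs O t := fun m => pow_mem (self_mem_gs t) m
  have hRm : aeval t (reflect e Δ') ∈ gs O t := aeval_mem_gs t _
  have hΔm : aeval t Δ ∈ gs O t := aeval_mem_gs t _
  -- main relation
  have h1 : InP t ϖ (∑ i, aeval t (X ^ f * reflect e Δ' * p i - X ^ (n + e) * Δ * reflect f (q i))
      * s i) := by
    have a1 := hp.mul_left (mul_mem (hmem f) hRm)
    have a2 := hq.mul_left (mul_mem (hmem (n + e + f)) hΔm)
    have a3 := hx'.mul_left (mul_mem (mul_mem (hmem (n + f)) hΔm) hRm)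
    have a4 := (a2.sub a1).add a3
    have hti : t ^ n * t⁻¹ ^ n = 1 := by rw [← mul_pow, mul_inv_cancel₀ ht, one_pow]
    convert a4 using 1
    have e1 : ∑ i, aeval t (X ^ f * reflect e Δ' * p i - X ^ (n + e) * Δ * reflect f (q i)) * s i
        = t ^ f * aeval t (reflect e Δ') * (∑ i, aeval t (p i) * s i) -
          t ^ (n + e + f) * aeval t Δ * ∑ i, aeval t⁻¹ (q i) * s i := by
      rw [Finset.mul_sum, Finset.mul_sum, ← Finset.sum_sub_distrib]
      refine Finset.sum_congr rfl fun i _ => ?_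
      rw [map_sub, map_mul, map_mul, map_mul, map_mul, hQ i, map_pow, map_pow, aeval_X]
      ring
    rw [e1, hR]
    have e2 : t ^ (n + f) * aeval t Δ * (t ^ e * aeval t⁻¹ Δ') * (t⁻¹ ^ n * x - x') =
        (t ^ n * t⁻¹ ^ n) * (t ^ f * aeval t Δ * (t ^ e * aeval t⁻¹ Δ') * x) -
        t ^ (n + f) * aeval t Δ * (t ^ e * aeval t⁻¹ Δ') * x' := by
      rw [pow_add]; ring
    rw [e2, hti]
    ring
  have h2 := hs _ h1 i
  unfold Prim at h2
  rw [not_not] at h2
  rw [Polynomial.map_sub, Polynomial.map_mul, Polynomial.map_mul, Polynomial.map_mul,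
    Polynomial.map_mul, Polynomial.map_pow, Polynomial.map_pow, map_X, sub_eq_zero,
    ← reflect_map, ← reflect_map] at h2
  set r := IsLocalRing.residue O
  by_cases hpi : (p i).map r = 0
  · rw [hpi]; simp
  have hR0 : reflect e (Δ'.map r) ≠ 0 := by
    have := hΔ'.reflect e
    unfold Prim at this
    rwa [← reflect_map] at this
  have hL : (X ^ f * reflect e (Δ'.map r) * (p i).map r).natDegree =
      f + (reflect e (Δ'.map r)).natDegree + ((p i).map r).natDegree := by
    rw [natDegree_mul (mul_ne_zero (pow_ne_zero _ X_ne_zero) hR0) hpi,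
      natDegree_mul (pow_ne_zero _ X_ne_zero) hR0, natDegree_X_pow]
  have hQd : (reflect f ((q i).map r)).natDegree ≤ f := by
    refine (natDegree_reflect_le).trans ?_
    exact max_le le_rfl ((natDegree_map_le).trans (hf i))
  have hRt : (X ^ (n + e) * Δ.map r * reflect f ((q i).map r)).natDegree ≤
      n + e + Δ.natDegree + f := by
    refine (natDegree_mul_le).trans ?_
    refine add_le_add ((natDegree_mul_le).trans ?_) hQd
    rw [natDegree_X_pow]
    exact add_le_add le_rfl natDegree_map_le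
  rw [← h2, hL] at hRt
  omega

/-- Pigeonhole: too many elements with bounded coordinates are dependent modulo `ϖ`. -/
lemma exists_relation {t : F} {ϖ : O} (hϖ : Irreducible ϖ) (h0 : algebraMap O F ϖ ≠ 0)
    {ι : Type*} [Fintype ι] {s : ι → F} (hsm : ∀ i, s i ∈ gs O t)
    {Δ : O[X]} (hΔ : Prim O Δ) {N : ℕ} {κ : Type*} [Fintype κ] (x : κ → F)
    (p : κ → ι → O[X]) (hp : ∀ l, InP t ϖ (aeval t Δ * x l - ∑ i, aeval t (p l i) * s i))
    (hN : ∀ l i, ((p l i).map (IsLocalRing.residue O)).natDegree ≤ N)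
    (hcard : Fintype.card ι * (N + 1) < Fintype.card κ) :
    ∃ c : κ → O, (∃ l, ¬ ϖ ∣ c l) ∧ InP t ϖ (∑ l, algebraMap O F (c l) * x l) := by
  classical
  set k := IsLocalRing.ResidueField O
  set r := IsLocalRing.residue O
  let v : κ → (ι → Polynomial.degreeLT k (N + 1)) := fun l i =>
    ⟨(p l i).map r, by
      rw [mem_degreeLT]
      exact lt_of_le_of_lt degree_le_natDegree (by exact_mod_cast Nat.lt_succ_of_le (hN l i))⟩
  have hfr : Module.finrank k (ι → Polynomial.degreeLT k (N + 1)) =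
      Fintype.card ι * (N + 1) := by
    rw [Module.finrank_pi_fintype]
    simp [(Polynomial.degreeLTEquiv k (N + 1)).finrank_eq]
  have hnot : ¬ LinearIndependent k v := by
    intro hli
    haveI : Module.Finite k (Polynomial.degreeLT k (N + 1)) :=
      Module.Finite.equiv (Polynomial.degreeLTEquiv k (N + 1)).symm
    have := hli.fintype_card_le_finrank
    omega
  rw [Fintype.not_linearIndependent_iff] at hnot
  obtain ⟨g, hg, l0, hl0⟩ := hnot
  choose c hc using fun l => IsLocalRing.residue_surjective (R := O) (g l)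
  refine ⟨c, ⟨l0, fun hd => hl0 ?_⟩, ?_⟩
  · rw [← hc l0]
    exact (residue_eq_zero_iff_dvd hϖ _).2 hd
  · apply InP.of_prim_mul hΔ
    have h1 : ∀ i, ¬ Prim O (∑ l, C (c l) * p l i) := by
      intro i
      unfold Prim
      rw [not_not, Polynomial.map_sum]
      have h2 := congrArg (fun w => ((w i : Polynomial.degreeLT k (N + 1)) : k[X])) hg
      simp only [Finset.sum_apply, Pi.smul_apply, Pi.zero_apply, v] at h2
      rw [AddSubmonoidClass.coe_finsetSum] at h2
      simp only [Submodule.coe_smul, ZeroMemClass.coe_zero] at h2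
      rw [← h2]
      refine Finset.sum_congr rfl fun l _ => ?_
      rw [Polynomial.map_mul, map_C, hc l, smul_eq_C_mul]
    have h3 : InP t ϖ (∑ i, aeval t (∑ l, C (c l) * p l i) * s i) :=
      InP.sum _ _ fun i _ => inP_of_not_prim hϖ h0 (h1 i) (hsm i)
    have h4 : InP t ϖ (∑ l, algebraMap O F (c l) *
        (aeval t Δ * x l - ∑ i, aeval t (p l i) * s i)) :=
      InP.sum _ _ fun l _ => (hp l).mul_left (algebraMap_mem_gs t _)
    convert h4.add h3 using 1
    simp only [map_sum, map_mul, aeval_C, mul_sub, Finset.sum_sub_distrib, Finset.mul_sum,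
      Finset.sum_mul]
    rw [Finset.sum_comm (γ := κ)]
    simp only [mul_assoc]
    rw [sub_add_cancel]
    exact Finset.sum_congr rfl fun l _ => by ring

end GaussInv

end Fermat.Agent.H36
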