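import Fermat.Agent.H36ConnB

set_option autoImplicit false
set_option linter.style.haveILetI false
set_option linter.unusedSectionVars false
set_option linter.unnecessarySimpa false
open Polynomial

namespace Fermat.Agent.H36

section Idem

variable {O : Type*} [CommRing O] [IsDomain O] [IsDiscreteValuationRing O]
  {F : Type*} [Field F] [Algebra O F]

lemma exists_add_pow {R : Type*} [CommRing R] (S : Subring R) {x y : R} (hx : x ∈ S) (hy : y ∈ S) :
    ∀ N a : ℕ, ∃ u v : R, u ∈ S ∧ v ∈ S ∧ (x + y) ^ (N + a) = x ^ N * u + y ^ a * v := by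
  intro N
  induction N with
  | zero => intro a; exact ⟨(x + y) ^ a, 0, pow_mem (add_mem hx hy) a, zero_mem _, by simp⟩
  | succ N ihN =>
    intro a
    induction a with
    | zero => exact ⟨0, (x + y) ^ (N + 1), zero_mem _, pow_mem (add_mem hx hy) _, by simp⟩
    | succ a iha =>
      obtain ⟨u1, v1, hu1, hv1, h1⟩ := ihN (a + 1)
      obtain ⟨u2, v2, hu2, hv2, h2⟩ := iha
      refine ⟨u1 + y * u2, x * v1 + v2, add_mem hu1 (mul_mem hy hu2),
        add_mem (mul_mem hx hv1) hv2, ?_⟩
      have e : (x + y) ^ (N + 1 + (a + 1)) = x * (x + y) ^ (N + (a + 1)) +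
          y * (x + y) ^ (N + 1 + a) := by ring
      rw [e, h1, h2]
      ring

/-- Changing `b` modulo `ϖ` does not change the good elements. -/
lemma Good.swap {t : F} {ϖ : O} (h0 : algebraMap O F ϖ ≠ 0) {b b' x : F} (hb : b ∈ gs O t)
    (hbb : InP t ϖ (b' - b)) (hx : Good O t b x) {n : ℕ}
    (hn : algebraMap O F ϖ ^ n * x ∈ gs O t) : Good O t b' x := by
  obtain ⟨N, hN⟩ := hx
  set π := algebraMap O F ϖ
  set s := π⁻¹ * (b' - b) with hs
  have hsm : s ∈ gs O t := hbb
  have hb' : b' = b + π * s := by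
    rw [hs, ← mul_assoc, mul_inv_cancel₀ h0, one_mul]; ring
  obtain ⟨u, v, hu, hv, h⟩ := exists_add_pow (gs O t) hb
    (mul_mem (algebraMap_mem_gs t ϖ) hsm) N n
  refine ⟨N + n, ?_⟩
  rw [hb', h, mul_pow]
  have h1 := mul_mem hu hN
  have h2 := mul_mem (mul_mem (pow_mem hsm n) hv) hn
  convert add_mem h1 h2 using 1
  ring

/-- `b ^ (j+1) z ≡ b z` for `b` idempotent modulo `ϖ`. -/
lemma idem_pow {t : F} {ϖ : O} {b : F} (hb : b ∈ gs O t) (hi : InP t ϖ (b ^ 2 - b)) (j : ℕ) :
    InP t ϖ (b ^ (j + 1) - b) := by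
  induction j with
  | zero => simpa using inP_zero t ϖ
  | succ j ih =>
    have := (ih.mul_left hb).add hi
    convert this using 1
    ring

lemma pow_congr {t : F} {ϖ : O} {b b' : F} (hb : b ∈ gs O t) (hb' : b' ∈ gs O t)
    (h : InP t ϖ (b - b')) (n : ℕ) : InP t ϖ (b ^ n - b' ^ n) := by
  induction n with
  | zero => simpa using inP_zero t ϖ
  | succ n ih =>
    have h1 := (ih.mul_left hb).add (h.mul_left (pow_mem hb' n))
    convert h1 using 1
    ring

lemma pow_mul_congr {t : F} {ϖ : O} {b b' x : F} (hb : b ∈ gs O t) (hb' : b' ∈ gs O t)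
    (hi : InP t ϖ (b ^ 2 - b)) (h : InP t ϖ (b - b')) {N : ℕ} (hx : b ^ N * x ∈ gs O t)
    (hx' : b' ^ N * x ∈ gs O t) : InP t ϖ (b ^ (N + 1) * x - b' ^ (N + 1) * x) := by
  -- `X = b^(N+1) x`, `Y = b'^(N+1) x`
  have hX : b ^ (N + 1) * x ∈ gs O t := Good.mono hb (Nat.le_succ N) hx
  have hY : b' ^ (N + 1) * x ∈ gs O t := Good.mono hb' (Nat.le_succ N) hx'
  -- b^(N+1) X ≡ X
  have h1 : InP t ϖ (b ^ (N + 1) * (b ^ (N + 1) * x) - b ^ (N + 1) * x) := by
    have := (idem_pow hb hi (N + 1)).mul_right hx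
    convert this using 1
    ring
  have h2 : InP t ϖ (b ^ (N + 1) * (b ^ (N + 1) * x) - b' ^ (N + 1) * (b ^ (N + 1) * x)) := by
    have := (pow_congr hb hb' h (N + 1)).mul_right hX
    convert this using 1
    ring
  -- b^(N+1) Y ≡ Y
  have h3 : InP t ϖ (b ^ (N + 1) * (b' ^ (N + 1) * x) - b' ^ (N + 1) * x) := by
    have e1 := (h.mul_left (pow_mem hb (N + 1))).mul_right hx'
    have e2 := (idem_pow hb hi (N + 1)).mul_right hx'
    have e3 := h.mul_right hx'
    have e4 := (e2.sub e1).add e3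
    convert e4 using 1
    ring
  have h4 := (h3.sub h1).add h2
  convert h4 using 1
  ring

end Idem

section Adjoin

variable {K : Type*} [Field K] {F : Type*} [Field F] [Algebra K F]

open IntermediateField

lemma adjoin_inv (t : F) : K⟮t⁻¹⟯ = K⟮t⟯ := by
  apply le_antisymm
  · rw [adjoin_simple_le_iff]
    exact inv_mem (mem_adjoin_simple_self K t)
  · rw [adjoin_simple_le_iff]
    have := inv_mem (mem_adjoin_simple_self K t⁻¹)
    rwa [inv_inv] at this

lemma transcendental_inv {t : F} (ht : Transcendental K t) : Transcendental K t⁻¹ := fun h =>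
  ht (IsAlgebraic.inv_iff.1 h)

lemma linearIndependent_gen_pow {t : F} (ht : Transcendental K t) (n : ℕ) :
    LinearIndependent K (fun j : Fin n => (AdjoinSimple.gen K t) ^ (j : ℕ)) := by
  rw [Fintype.linearIndependent_iff]
  intro g hg i
  set P : K[X] := ∑ j : Fin n, C (g j) * X ^ (j : ℕ) with hP
  have h1 : aeval t P = 0 := by
    rw [hP, map_sum]
    have := congrArg (fun z : K⟮t⟯ => (z : F)) hg
    simp only [ZeroMemClass.coe_zero] at this
    rw [← this]
    push_cast
    refine Finset.sum_congr rfl fun j _ => ?_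
    rw [map_mul, aeval_C, map_pow, aeval_X, Algebra.smul_def]
    simp
  have h2 : P = 0 := by
    by_contra h
    exact ht ⟨P, h, h1⟩
  have h3 : P.coeff i = g i := by
    rw [hP, finsetSum_coeff]
    simp only [coeff_C_mul, coeff_X_pow]
    rw [Finset.sum_eq_single i]
    · simp
    · intro j _ hj
      have : (i : ℕ) ≠ j := fun h => hj (Fin.ext h.symm)
      simp [this]
    · simp
  rw [← h3, h2, coeff_zero]

end Adjoin

section Main

variable {O : Type*} [CommRing O] [IsDomain O] [IsDiscreteValuationRing O]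
  {K : Type*} [Field K] [Algebra O K] [IsFractionRing O K]
  {F : Type*} [Field F] [Algebra O F] [Algebra K F] [IsScalarTower O K F]

open IntermediateField

lemma inP_inv_iff {t : F} {ϖ : O} (ht : t ≠ 0) {x : F} : InP t⁻¹ ϖ x ↔ InP t ϖ x := by
  unfold InP
  rw [gs_inv ht]

lemma good_inv_iff {t b x : F} (ht : t ≠ 0) : Good O t⁻¹ b x ↔ Good O t b x := by
  unfold Good
  rw [gs_inv ht]

/-- Connectedness of the special fibre, main step. -/
theorem conn_aux [CharZero K] {t : F} (ht : Transcendental K t) [FiniteDimensional K⟮t⟯ F]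
    (p : RatPoint K t⁻¹) {ϖ : O} (hϖ : Irreducible ϖ) {b b' : F} (hb : b ∈ chart O t)
    (hb' : b' ∈ chart O t⁻¹) (hi : InP t ϖ (b ^ 2 - b)) (hbb : InP t ϖ (b - b')) {u : O}
    (hu : algebraMap O K u = p.ev b') (hu' : IsUnit u) : InP t ϖ (1 - b) := by
  classical
  have ht0 : t ≠ 0 := fun h => by subst h; exact (ht ⟨X, X_ne_zero, by simp⟩)
  have hτ0 : t⁻¹ ≠ 0 := inv_ne_zero ht0
  have hτ : Transcendental K t⁻¹ := transcendental_inv ht
  haveI : FiniteDimensional K⟮t⁻¹⟯ F := by rw [adjoin_inv]; infer_instance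
  have h0 : algebraMap O F ϖ ≠ 0 := by
    rw [Ne, map_eq_zero_iff _ (algebraMap_injective_OF O K F)]; exact hϖ.ne_zero
  have hbS : b ∈ gs O t := chart_le_gs t hb
  have hb'S' : b' ∈ gs O t⁻¹ := chart_le_gs _ hb'
  have hb'S : b' ∈ gs O t := by rw [← gs_inv ht0]; exact hb'S'
  by_contra hnot
  obtain ⟨m, s, hm, hs, hind, hg⟩ := exists_basis_mod K hϖ ht
  obtain ⟨Δ, hΔ, hΔx⟩ := exists_delta K ht hg
  obtain ⟨Δ', hΔ', hΔx'⟩ := exists_delta K hτ (hg.inv ht0)
  set r := Module.finrank K⟮t⟯ F with hr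
  let w0 : Module.Basis (Fin r) K⟮t⟯ F := Module.finBasis K⟮t⟯ F
  -- scaled basis
  have hsc : ∀ i, ∃ c : K⟮t⟯, c ≠ 0 ∧ ((c : F) * w0 i) ∈ chart O t := by
    intro i
    obtain ⟨n, q, hq, hmem⟩ := exists_pow_mul_mem_gs hϖ ht (w0 i)
    letI := algE O K t
    refine ⟨algebraMap O[X] K⟮t⟯ (q * C ϖ ^ n), ?_, ?_⟩
    · intro h
      have h1 := congrArg (fun z : K⟮t⟯ => (z : F)) h
      simp only [ZeroMemClass.coe_zero] at h1
      rw [algE_apply] at h1
      have h2 : q * C ϖ ^ n ≠ 0 := mul_ne_zero hq.ne_zero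
        (pow_ne_zero _ (by simpa using hϖ.ne_zero))
      exact h2 (evt_injective K ht (by rw [evt_apply, h1, map_zero]))
    · rw [algE_apply, map_mul, map_pow, aeval_C, mul_assoc]
      exact hmem
  choose c hc0 hc using hsc
  let w : Fin r → F := fun i => c i • w0 i
  have hwli : LinearIndependent K⟮t⟯ w :=
    w0.linearIndependent.units_smul (fun i => Units.mk0 (c i) (hc0 i))
  have hwmem : ∀ i, w i ∈ chart O t := fun i => hc i
  obtain ⟨c1, hc1⟩ : ∃ c1, ∀ i, t⁻¹ ^ c1 * w i ∈ chart O t⁻¹ := by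
    choose d hd using fun i => exists_inv_pow_mul_mem_chart ht0 (hwmem i)
    refine ⟨Finset.univ.sup d, fun i => ?_⟩
    obtain ⟨k, hk⟩ := Nat.exists_eq_add_of_le (Finset.le_sup (f := d) (Finset.mem_univ i))
    rw [hk, pow_add, mul_comm (t⁻¹ ^ d i), mul_assoc]
    exact mul_mem (pow_mem (self_mem_chart O _) k) (hd i)
  set n := r * (c1 + Δ.natDegree + Δ'.natDegree) with hn
  let v : Fin (n + 1) × Fin r → F := fun ij => (AdjoinSimple.gen K t) ^ (ij.1 : ℕ) • w ij.2
  have hv : LinearIndependent K v := linearIndependent_smul (linearIndependent_gen_pow ht (n + 1)) hwli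
  have hvval : ∀ ij, v ij = t ^ (ij.1 : ℕ) * w ij.2 := by
    intro ij
    simp only [v, Algebra.smul_def]
    rfl
  let W : Submodule K F := Submodule.span K (Set.range v)
  have hvW : ∀ ij, v ij ∈ W := fun ij => Submodule.subset_span ⟨ij, rfl⟩
  have hWchart : ∀ x ∈ W, x ∈ chart K t := by
    intro x hx
    induction hx using Submodule.span_induction with
    | mem x hx =>
      obtain ⟨ij, rfl⟩ := hx
      rw [hvval]
      exact chart_le_chartK O K t (mul_mem (pow_mem (self_mem_chart O t) _) (hwmem _))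
    | zero => exact zero_mem _
    | add x y _ _ hx hy => exact add_mem hx hy
    | smul a x _ hx =>
      rw [Algebra.smul_def]
      exact mul_mem (algebraMap_mem_chart K t a) hx
  have hWchart' : ∀ x ∈ W, t⁻¹ ^ (n + c1) * x ∈ chart K t⁻¹ := by
    intro x hx
    induction hx using Submodule.span_induction with
    | mem x hx =>
      obtain ⟨ij, rfl⟩ := hx
      rw [hvval]
      have hj : (ij.1 : ℕ) ≤ n := by have := ij.1.2; omega
      have e : t⁻¹ ^ (n + c1) * (t ^ (ij.1 : ℕ) * w ij.2) =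
          t⁻¹ ^ (n - (ij.1 : ℕ)) * (t⁻¹ ^ c1 * w ij.2) := by
        have e1 : n + c1 = (n - (ij.1 : ℕ)) + c1 + (ij.1 : ℕ) := by omega
        rw [e1, pow_add, pow_add]
        have e2 : t⁻¹ ^ (ij.1 : ℕ) * t ^ (ij.1 : ℕ) = 1 := by
          rw [← mul_pow, inv_mul_cancel₀ ht0, one_pow]
        calc _ = t⁻¹ ^ (n - (ij.1 : ℕ)) * t⁻¹ ^ c1 * (t⁻¹ ^ (ij.1 : ℕ) * t ^ (ij.1 : ℕ)) * w ij.2 := by
              ring
          _ = _ := by rw [e2]; ring
      rw [e]
      exact chart_le_chartK O K _ (mul_mem (pow_mem (self_mem_chart O _) _) (hc1 _))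
    | zero => rw [mul_zero]; exact zero_mem _
    | add x y _ _ hx hy => rw [mul_add]; exact add_mem hx hy
    | smul a x _ hx =>
      rw [Algebra.smul_def, mul_left_comm]
      exact mul_mem (algebraMap_mem_chart K _ a) hx
  haveI : FiniteDimensional K W := FiniteDimensional.span_of_finite K (Set.finite_range v)
  let W' : Submodule K F := W.map (LinearMap.mulLeft K (t⁻¹ ^ (n + c1)))
  haveI : FiniteDimensional K W' := inferInstance
  have hW' : ∀ x ∈ W', x ∈ chart K t⁻¹ := by
    rintro _ ⟨x, hx, rfl⟩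
    exact hWchart' x hx
  haveI hfin' := p.finite_goodSub hτ hb' hu hu' W' hW'
  let M : Submodule O F := goodSub O (K := K) t⁻¹ hb'S' W
  let M' : Submodule O F := goodSub O (K := K) t⁻¹ hb'S' W'
  haveI : Module.Finite O M' := hfin'
  have hMM' : ∀ x : M, t⁻¹ ^ (n + c1) * (x : F) ∈ M' := by
    rintro ⟨x, hx, N, hN⟩
    refine ⟨⟨x, hx, rfl⟩, N, ?_⟩
    rw [mul_left_comm]
    exact mul_mem (pow_mem (self_mem_gs _) _) hN
  let g : M →ₗ[O] M' := LinearMap.codRestrict M'
    ((LinearMap.mulLeft O (t⁻¹ ^ (n + c1))).comp M.subtype) hMM'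
  have hginj : Function.Injective g := by
    intro x y hxy
    have h1 := congrArg (fun z : M' => (z : F)) hxy
    have h2 : t⁻¹ ^ (n + c1) * (x : F) = t⁻¹ ^ (n + c1) * (y : F) := h1
    exact Subtype.ext (mul_left_cancel₀ (pow_ne_zero _ hτ0) h2)
  haveI : Module.Finite O M := Module.Finite.of_injective g hginj
  haveI : FaithfulSMul O F := (faithfulSMul_iff_algebraMap_injective O F).2
    (algebraMap_injective_OF O K F)
  haveI : Module.Free O M := inferInstance
  let h := Module.finBasis O M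
  set D := Module.finrank O M with hD
  -- lower bound for the rank
  have hDge : r * (n + 1) ≤ D := by
    choose a ha using fun ij => exists_pow_mul_mem_gs (K := K) hϖ ht (v ij)
    let z : Fin (n + 1) × Fin r → M := fun ij => ⟨algebraMap O F ϖ ^ a ij * v ij, by
      refine ⟨?_, 0, ?_⟩
      · have : algebraMap O F ϖ ^ a ij * v ij = (algebraMap O K ϖ ^ a ij) • v ij := by
          rw [Algebra.smul_def, map_pow, ← IsScalarTower.algebraMap_apply]
        rw [this]
        exact W.smul_mem _ (hvW ij)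
      · rw [pow_zero, one_mul, gs_inv ht0]
        exact ha ij⟩
    have hϖK : algebraMap O K ϖ ≠ 0 := by
      rw [Ne, IsFractionRing.to_map_eq_zero_iff]; exact hϖ.ne_zero
    have hz1 : LinearIndependent K (fun ij => (z ij : F)) := by
      have := hv.units_smul (fun ij => Units.mk0 (algebraMap O K ϖ ^ a ij) (pow_ne_zero _ hϖK))
      convert this using 1
      ext ij
      simp only [z, Pi.smul_apply', Units.smul_def, Units.val_mk0]
      rw [Algebra.smul_def, map_pow, ← IsScalarTower.algebraMap_apply]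
    have hz2 : LinearIndependent O (fun ij => (z ij : F)) :=
      hz1.restrict_scalars (by
        intro x y hxy
        have hxy' : algebraMap O K x = algebraMap O K y := by
          simpa [Algebra.smul_def] using hxy
        exact IsFractionRing.injective O K hxy')
    have hz3 : LinearIndependent O z := LinearIndependent.of_comp M.subtype hz2
    have := hz3.fintype_card_le_finrank
    simp only [Fintype.card_prod, Fintype.card_fin] at this
    rw [mul_comm] at this
    exact this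
  -- a common exponent
  obtain ⟨N, hN⟩ : ∃ N, ∀ l, b ^ N * (h l : F) ∈ gs O t ∧ b' ^ N * (h l : F) ∈ gs O t := by
    have h1 : ∀ l, Good O t b' (h l : F) := fun l => (good_inv_iff ht0).1 (h l).2.2
    have h2 : ∀ l, Good O t b (h l : F) := fun l => by
      obtain ⟨k, hk⟩ := exists_pow_mul_mem_gs (K := K) hϖ ht (h l : F)
      exact (h1 l).swap h0 hb'S hbb hk
    choose N1 hN1 using h1
    choose N2 hN2 using h2
    refine ⟨Finset.univ.sup N1 + Finset.univ.sup N2, fun l => ⟨?_, ?_⟩⟩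
    · exact Good.mono hbS ((Finset.le_sup (f := N2) (Finset.mem_univ l)).trans
        (Nat.le_add_left _ _)) (hN2 l)
    · exact Good.mono hb'S ((Finset.le_sup (f := N1) (Finset.mem_univ l)).trans
        (Nat.le_add_right _ _)) (hN1 l)
  -- bounded coordinates
  set Nb := (n + c1) + Δ'.natDegree + Δ.natDegree with hNb
  have hcoord : ∀ y y' : F, y ∈ chart O t → y' ∈ chart O t⁻¹ →
      InP t ϖ (t⁻¹ ^ (n + c1) * y - y') → ∃ P : Fin m → O[X],
        InP t ϖ (aeval t Δ * y - ∑ i, aeval t (P i) * s i) ∧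
        ∀ i, ((P i).map (IsLocalRing.residue O)).natDegree ≤ Nb := by
    intro y y' hy hy' hyy
    obtain ⟨P, hP⟩ := hΔx y hy
    obtain ⟨Q, hQ⟩ := hΔx' y' hy'
    exact ⟨P, hP, fun i => degree_bound ht0 hind hΔ' hyy hP ((inP_inv_iff ht0).1 hQ) i⟩
  let x1 : Fin D → F := fun l => b ^ (N + 1) * (h l : F)
  let y1 : Fin (n + 1) → F := fun j => (1 - b) * t ^ (j : ℕ)
  have hx1S : ∀ l, x1 l ∈ gs O t := fun l => Good.mono hbS (Nat.le_succ N) (hN l).1
  have hx1 : ∀ l, ∃ P : Fin m → O[X],
        InP t ϖ (aeval t Δ * x1 l - ∑ i, aeval t (P i) * s i) ∧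
        ∀ i, ((P i).map (IsLocalRing.residue O)).natDegree ≤ Nb := by
    intro l
    refine hcoord (x1 l) (b' ^ (N + 1) * (t⁻¹ ^ (n + c1) * (h l : F))) ?_ ?_ ?_
    · exact mem_chart_of_gs_of_chartK K ht (hx1S l)
        (mul_mem (pow_mem (chart_le_chartK O K t hb) _) (hWchart _ (h l).2.1))
    · refine mem_chart_of_gs_of_chartK K hτ ?_
        (mul_mem (pow_mem (chart_le_chartK O K _ hb') _) (hWchart' _ (h l).2.1))
      rw [mul_left_comm]
      refine mul_mem (pow_mem (self_mem_gs _) _) ?_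
      rw [gs_inv ht0]
      exact Good.mono hb'S (Nat.le_succ N) (hN l).2
    · have h1 := (pow_mul_congr hbS hb'S hi hbb (hN l).1 (hN l).2).mul_left
        (pow_mem (inv_mem_gs ht0) (n + c1))
      convert h1 using 1
      simp only [x1]
      ring
  have hy1 : ∀ j, ∃ P : Fin m → O[X],
        InP t ϖ (aeval t Δ * y1 j - ∑ i, aeval t (P i) * s i) ∧
        ∀ i, ((P i).map (IsLocalRing.residue O)).natDegree ≤ Nb := by
    intro j
    refine hcoord (y1 j) ((1 - b') * t⁻¹ ^ (n + c1 - (j : ℕ))) ?_ ?_ ?_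
    · exact mul_mem (sub_mem (one_mem _) hb) (pow_mem (self_mem_chart O t) _)
    · exact mul_mem (sub_mem (one_mem _) hb') (pow_mem (self_mem_chart O _) _)
    · have hj : (j : ℕ) ≤ n + c1 := by have := j.2; omega
      have e1 : t⁻¹ ^ (n + c1) = t⁻¹ ^ (n + c1 - (j : ℕ)) * t⁻¹ ^ (j : ℕ) := by
        rw [← pow_add, Nat.sub_add_cancel hj]
      have e2 : t⁻¹ ^ (j : ℕ) * t ^ (j : ℕ) = 1 := by
        rw [← mul_pow, inv_mul_cancel₀ ht0, one_pow]
      have h1 := (hbb.neg).mul_left (pow_mem (inv_mem_gs (O := O) ht0) (n + c1 - (j : ℕ)))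
      convert h1 using 1
      simp only [y1]
      calc _ = t⁻¹ ^ (n + c1 - (j : ℕ)) * ((t⁻¹ ^ (j : ℕ) * t ^ (j : ℕ)) * (1 - b)) -
              (1 - b') * t⁻¹ ^ (n + c1 - (j : ℕ)) := by rw [e1]; ring
        _ = _ := by rw [e2]; ring
  choose P1 hP1 hP1' using hx1
  choose P2 hP2 hP2' using hy1
  obtain ⟨cc, hcc, hrel⟩ := exists_relation hϖ h0 hs hΔ (N := Nb) (κ := Fin D ⊕ Fin (n + 1))
    (Sum.elim x1 y1) (Sum.elim P1 P2) (by rintro (l | j); exacts [hP1 l, hP2 j])
    (by rintro (l | j) i; exacts [hP1' l i, hP2' j i]) (by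
      simp only [Fintype.card_fin, Fintype.card_sum]
      calc m * (Nb + 1) ≤ r * (Nb + 1) := Nat.mul_le_mul_right _ hm
        _ = r * (n + 1) + n := by rw [hNb, hn]; ring
        _ < D + (n + 1) := by omega)
  rw [Fintype.sum_sum_type] at hrel
  simp only [Sum.elim_inl, Sum.elim_inr] at hrel
  -- the first part
  have hBb : InP t ϖ (b * ∑ j, algebraMap O F (cc (Sum.inr j)) * y1 j) := by
    have h1 : b * ∑ j, algebraMap O F (cc (Sum.inr j)) * y1 j =
        (∑ j : Fin (n + 1), algebraMap O F (cc (Sum.inr j)) * t ^ (j : ℕ)) * -(b ^ 2 - b) := by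
      rw [Finset.mul_sum, Finset.sum_mul]
      refine Finset.sum_congr rfl fun j _ => ?_
      simp only [y1]
      ring
    rw [h1]
    exact hi.neg.mul_left (sum_mem fun j _ => mul_mem (algebraMap_mem_gs t _)
      (pow_mem (self_mem_gs t) _))
  have hAb : InP t ϖ (b * ∑ l, algebraMap O F (cc (Sum.inl l)) * x1 l) := by
    have h1 := (hrel.mul_left hbS).sub hBb
    rwa [mul_add, add_sub_cancel_right] at h1
  have hdiv : ∀ l, ϖ ∣ cc (Sum.inl l) := by
    set hh : F := (algebraMap O F ϖ)⁻¹ * ∑ l, algebraMap O F (cc (Sum.inl l)) * (h l : F) with hhh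
    have hhW : hh ∈ W := by
      have h1 : hh = (algebraMap O K ϖ)⁻¹ • ∑ l, (algebraMap O K (cc (Sum.inl l))) • (h l : F) := by
        rw [hhh, Algebra.smul_def, map_inv₀, ← IsScalarTower.algebraMap_apply]
        congr 1
        refine Finset.sum_congr rfl fun l _ => ?_
        rw [Algebra.smul_def, ← IsScalarTower.algebraMap_apply]
      rw [h1]
      exact W.smul_mem _ (W.sum_mem fun l _ => W.smul_mem _ (h l).2.1)
    have hhb : Good O t b hh := by
      refine ⟨N + 2, ?_⟩
      have h1 : b ^ (N + 2) * hh = (algebraMap O F ϖ)⁻¹ *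
          (b * ∑ l, algebraMap O F (cc (Sum.inl l)) * x1 l) := by
        have h2 : b ^ (N + 2) * ∑ l, algebraMap O F (cc (Sum.inl l)) * (h l : F) =
            b * ∑ l, algebraMap O F (cc (Sum.inl l)) * x1 l := by
          rw [Finset.mul_sum, Finset.mul_sum]
          refine Finset.sum_congr rfl fun l _ => ?_
          simp only [x1]
          ring
        rw [hhh, mul_left_comm, h2]
      rw [h1]
      exact hAb
    have hhM : hh ∈ M := by
      refine ⟨hhW, (good_inv_iff ht0).2 ?_⟩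
      obtain ⟨k, hk⟩ := exists_pow_mul_mem_gs (K := K) hϖ ht hh
      refine hhb.swap h0 hbS ?_ hk
      have := hbb.neg
      rwa [neg_sub] at this
    have h2 : ϖ • (⟨hh, hhM⟩ : M) = ∑ l, cc (Sum.inl l) • h l := by
      apply Subtype.ext
      push_cast
      rw [Algebra.smul_def, hhh, ← mul_assoc, mul_inv_cancel₀ h0, one_mul]
      refine Finset.sum_congr rfl fun l _ => ?_
      rw [Algebra.smul_def]
    intro l
    have h3 := congrArg (fun z => h.repr z l) h2
    simp only [map_smul, map_sum, Finsupp.smul_apply, smul_eq_mul] at h3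
    rw [Finsupp.finsetSum_apply] at h3
    simp only [Finsupp.smul_apply, Module.Basis.repr_self, smul_eq_mul, Finsupp.single_apply] at h3
    rw [Finset.sum_eq_single l (fun i _ hil => by simp [hil]) (by simp)] at h3
    simp only [if_true, mul_one] at h3
    exact ⟨_, h3.symm⟩
  have hA : InP t ϖ (∑ l, algebraMap O F (cc (Sum.inl l)) * x1 l) := by
    refine InP.sum _ _ fun l _ => ?_
    obtain ⟨a, ha⟩ := hdiv l
    rw [ha, map_mul, mul_assoc]
    exact inP_pi_mul h0 (mul_mem (algebraMap_mem_gs t _) (hx1S l))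
  have hB : InP t ϖ (∑ j, algebraMap O F (cc (Sum.inr j)) * y1 j) := by
    have h1 := hrel.sub hA
    rwa [add_sub_cancel_left] at h1
  set P : O[X] := ∑ j : Fin (n + 1), C (cc (Sum.inr j)) * X ^ (j : ℕ) with hPdef
  have hBP : ∑ j, algebraMap O F (cc (Sum.inr j)) * y1 j = aeval t P * (1 - b) := by
    rw [hPdef, map_sum, Finset.sum_mul]
    refine Finset.sum_congr rfl fun j _ => ?_
    simp only [y1, map_mul, aeval_C, map_pow, aeval_X]
    ring
  rw [hBP] at hB
  by_cases hPp : Prim O P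
  · exact hnot (hB.of_prim_mul hPp)
  · rw [not_prim_iff hϖ, Polynomial.C_dvd_iff_dvd_coeff] at hPp
    obtain ⟨l | j, hlj⟩ := hcc
    · exact hlj (hdiv l)
    · apply hlj
      have h1 := hPp j
      rw [hPdef, finsetSum_coeff] at h1
      simp only [coeff_C_mul, coeff_X_pow] at h1
      rw [Finset.sum_eq_single j] at h1
      · simpa using h1
      · intro i _ hij
        have : (j : ℕ) ≠ i := fun h => hij (Fin.ext h.symm)
        simp [this]
      · simp

/-- **Connectedness of the special fibre of a normal model** (multiplicities allowed). -/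
theorem conn [CharZero K] {t : F} (ht : Transcendental K t) [FiniteDimensional K⟮t⟯ F]
    (p : RatPoint K t⁻¹) {ϖ : O} (hϖ : Irreducible ϖ) {b b' : F} (hb : b ∈ chart O t)
    (hb' : b' ∈ chart O t⁻¹) (hi : InP t ϖ (b ^ 2 - b)) (hbb : InP t ϖ (b - b')) :
    InP t ϖ b ∨ InP t ϖ (1 - b) := by
  have ht0 : t ≠ 0 := fun h => by subst h; exact (ht ⟨X, X_ne_zero, by simp⟩)
  have hτ : Transcendental K t⁻¹ := transcendental_inv ht
  have h0 : algebraMap O F ϖ ≠ 0 := by
    rw [Ne, map_eq_zero_iff _ (algebraMap_injective_OF O K F)]; exact hϖ.ne_zero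
  have hbS : b ∈ gs O t := chart_le_gs t hb
  have hb'S : b' ∈ gs O t := by rw [← gs_inv ht0]; exact chart_le_gs _ hb'
  -- the value of `b'` is `0` or `1` modulo `ϖ`
  obtain ⟨β, hβ⟩ := p.ev_mem_range hb'
  have h1 : InP t ϖ (b' ^ 2 - b') := by
    have h2 := hi.sub (hbb.mul_left (sub_mem (add_mem hbS hb'S) (one_mem _)))
    convert h2 using 1
    ring
  have h2 : (algebraMap O F ϖ)⁻¹ * (b' ^ 2 - b') ∈ chart O t⁻¹ := by
    refine mem_chart_of_gs_of_chartK K hτ (by rw [gs_inv ht0]; exact h1) ?_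
    have h3 : (algebraMap O F ϖ)⁻¹ = algebraMap K F (algebraMap O K ϖ)⁻¹ := by
      rw [map_inv₀, ← IsScalarTower.algebraMap_apply]
    rw [h3]
    have hb'K := chart_le_chartK O K _ hb'
    exact mul_mem (algebraMap_mem_chart K _ _) (sub_mem (pow_mem hb'K 2) hb'K)
  obtain ⟨γ, hγ⟩ := p.ev_mem_range h2
  have hb'K := chart_le_chartK O K _ hb'
  have h3 : β ^ 2 - β = ϖ * γ := by
    apply IsFractionRing.injective O K
    rw [map_sub, map_pow, map_mul, hβ, hγ]
    have h4 : (algebraMap O F ϖ)⁻¹ = algebraMap K F (algebraMap O K ϖ)⁻¹ := by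
      rw [map_inv₀, ← IsScalarTower.algebraMap_apply]
    rw [h4, p.ev_mul (algebraMap_mem_chart K _ _) (sub_mem (pow_mem hb'K 2) hb'K),
      p.ev_algebraMap, p.ev_sub, p.ev_pow hb'K, ← mul_assoc, mul_inv_cancel₀, one_mul]
    rw [Ne, IsFractionRing.to_map_eq_zero_iff]; exact hϖ.ne_zero
  by_cases hu : IsUnit β
  · exact Or.inr (conn_aux ht p hϖ hb hb' hi hbb hβ hu)
  · left
    have hu' : IsUnit (1 - β) := by
      have h5 : β ∈ IsLocalRing.maximalIdeal O := hu
      by_contra h6
      have h7 : (1 - β) ∈ IsLocalRing.maximalIdeal O := h6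
      have := add_mem h5 h7
      rw [add_sub_cancel] at this
      exact (IsLocalRing.maximalIdeal.isMaximal O).ne_top ((Ideal.eq_top_iff_one _).2 this)
    have := conn_aux ht p hϖ (b := 1 - b) (b' := 1 - b') (sub_mem (one_mem _) hb)
      (sub_mem (one_mem _) hb') (by convert hi using 1; ring)
      (by have := hbb.neg; convert this using 1; ring) (u := 1 - β)
      (by rw [map_sub, map_one, hβ, p.ev_sub, p.ev_one]) hu'
    rwa [sub_sub_cancel] at this

end Main

end Fermat.Agent.H36
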