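import Fermat.Agent.H36Chart

set_option autoImplicit false
set_option linter.style.haveILetI false
set_option linter.unusedSectionVars false
set_option linter.unnecessarySimpa false
open Polynomial

namespace Fermat.Agent.H36

section Fin

variable {O : Type*} [CommRing O] [IsDomain O] [IsDiscreteValuationRing O]
  {K : Type*} [Field K] [Algebra O K] [IsFractionRing O K]
  {F : Type*} [Field F] [Algebra O F] [Algebra K F] [IsScalarTower O K F]

open IntermediateField

variable (K) in
/-- More elements than the degree are dependent, with a primitive relation. -/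
lemma exists_prim_relation {ϖ : O} (hϖ : Irreducible ϖ) {t : F} (ht : Transcendental K t)
    [FiniteDimensional K⟮t⟯ F] {ι : Type*} [Fintype ι] (s : ι → F)
    (hcard : Module.finrank K⟮t⟯ F < Fintype.card ι) :
    ∃ p : ι → O[X], (∃ i, Prim O (p i)) ∧ ∑ i, aeval t (p i) * s i = 0 := by
  classical
  letI := algE O K t
  letI := algT O t
  haveI := isScalarTower_algE (O := O) (K := K) t
  haveI := isFractionRing_adjoin (O := O) ht
  have h1 : ¬ LinearIndependent O[X] s := by
    rw [LinearIndependent.iff_fractionRing O[X] K⟮t⟯]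
    intro hli
    have := hli.fintype_card_le_finrank
    omega
  rw [Fintype.not_linearIndependent_iff] at h1
  obtain ⟨g, hg, i0, hi0⟩ := h1
  -- divide by the content
  obtain ⟨n0, q0, hq0, hgi0⟩ := exists_eq_pow_mul_prim hϖ hi0
  let P : ℕ → Prop := fun n => ∀ i, C ϖ ^ n ∣ g i
  have hP0 : P 0 := fun i => by simp
  have hbound : ∀ n, P n → n ≤ n0 := by
    intro n hn
    by_contra hc
    push Not at hc
    have h2 := (pow_dvd_pow (C ϖ : O[X]) (Nat.succ_le_of_lt hc)).trans (hn i0)
    rw [hgi0, Nat.succ_eq_add_one, pow_succ] at h2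
    have h3 := (mul_dvd_mul_iff_left (pow_ne_zero n0 (by simpa using hϖ.ne_zero))).1 h2
    exact (not_prim_iff hϖ q0).2 h3 hq0
  set n := Nat.findGreatest P n0 with hn
  have hPn : P n := Nat.findGreatest_spec (Nat.zero_le _) hP0
  have hPn1 : ¬ P (n + 1) := fun h => by
    have := Nat.le_findGreatest (hbound _ h) h
    omega
  choose p hp using hPn
  refine ⟨p, ?_, ?_⟩
  · by_contra hc
    push Not at hc
    apply hPn1
    intro i
    rw [hp i, pow_succ]
    exact mul_dvd_mul_left _ ((not_prim_iff hϖ _).1 (hc i))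
  · have h0 : algebraMap O F ϖ ≠ 0 := by
      rw [Ne, map_eq_zero_iff _ (algebraMap_injective_OF O K F)]; exact hϖ.ne_zero
    have h2 : algebraMap O F ϖ ^ n * ∑ i, aeval t (p i) * s i = 0 := by
      rw [Finset.mul_sum, ← hg]
      refine Finset.sum_congr rfl fun i _ => ?_
      rw [hp i, Algebra.smul_def]
      change _ = aeval t (C ϖ ^ n * p i) * s i
      rw [map_mul, map_pow, aeval_C]
      ring
    exact (mul_eq_zero.1 h2).resolve_left (pow_ne_zero _ h0)

variable (K) in
/-- A maximal independent family modulo `ϖ`. -/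
lemma exists_basis_mod {ϖ : O} (hϖ : Irreducible ϖ) {t : F} (ht : Transcendental K t)
    [FiniteDimensional K⟮t⟯ F] :
    ∃ (m : ℕ) (s : Fin m → F), m ≤ Module.finrank K⟮t⟯ F ∧ (∀ i, s i ∈ gs O t) ∧
      Indep t ϖ s ∧ Gen t ϖ s := by
  classical
  have h0 : algebraMap O F ϖ ≠ 0 := by
    rw [Ne, map_eq_zero_iff _ (algebraMap_injective_OF O K F)]; exact hϖ.ne_zero
  let P : ℕ → Prop := fun m => ∃ s : Fin m → F, (∀ i, s i ∈ gs O t) ∧ Indep t ϖ s
  have hP0 : P 0 := ⟨Fin.elim0, fun i => i.elim0, fun p _ i => i.elim0⟩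
  have hbound : ∀ m, P m → m ≤ Module.finrank K⟮t⟯ F := by
    rintro m ⟨s, _, hi⟩
    by_contra hc
    push Not at hc
    obtain ⟨p, ⟨i, hi'⟩, hp⟩ := exists_prim_relation K hϖ ht s (by simpa using hc)
    exact hi p (by rw [hp]; exact inP_zero _ _) i hi'
  set m := Nat.findGreatest P (Module.finrank K⟮t⟯ F) with hm
  obtain ⟨s, hs, hi⟩ : P m := Nat.findGreatest_spec (Nat.zero_le _) hP0
  refine ⟨m, s, Nat.findGreatest_le _, hs, hi, ?_⟩
  intro x hx
  have hnot : ¬ P (m + 1) := fun h => by
    have := Nat.le_findGreatest (hbound _ h) h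
    omega
  have h1 : ¬ Indep t ϖ (Fin.snoc s x : Fin (m + 1) → F) := by
    intro h
    refine hnot ⟨Fin.snoc s x, fun i => ?_, h⟩
    induction i using Fin.lastCases with
    | last => simpa using hx
    | cast i => simpa using hs i
  unfold Indep at h1
  push Not at h1
  obtain ⟨p, hp, j, hj⟩ := h1
  rw [Fin.sum_univ_castSucc] at hp
  simp only [Fin.snoc_castSucc, Fin.snoc_last] at hp
  by_cases hlast : Prim O (p (Fin.last m))
  · refine ⟨p (Fin.last m), fun i => -p i.castSucc, hlast, ?_⟩
    convert hp using 1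
    simp only [map_neg, neg_mul, Finset.sum_neg_distrib]
    ring
  · exfalso
    have h2 := hp.sub (inP_of_not_prim hϖ h0 hlast hx)
    rw [add_sub_cancel_right] at h2
    have h3 := hi _ h2
    induction j using Fin.lastCases with
    | last => exact hlast hj
    | cast j => exact h3 j hj

variable (K) in
/-- Bounded denominators on a chart. -/
lemma exists_delta {ϖ : O} {t : F} (ht : Transcendental K t) [CharZero K]
    [FiniteDimensional K⟮t⟯ F] {ι : Type*} [Fintype ι] {s : ι → F} (hg : Gen t ϖ s) :
    ∃ Δ : O[X], Prim O Δ ∧ ∀ x ∈ chart O t, ∃ p : ι → O[X],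
      InP t ϖ (aeval t Δ * x - ∑ i, aeval t (p i) * s i) := by
  classical
  letI := algE O K t
  letI := algT O t
  haveI := isScalarTower_algE (O := O) (K := K) t
  haveI := isFractionRing_adjoin (O := O) ht
  haveI : CharZero K⟮t⟯ := charZero_of_injective_algebraMap (algebraMap K K⟮t⟯).injective
  haveI : Module.Finite O[X] (integralClosure O[X] F) :=
    IsIntegralClosure.finite O[X] K⟮t⟯ F (integralClosure O[X] F)
  obtain ⟨G, hG⟩ := (inferInstance : Module.Finite O[X] (integralClosure O[X] F)).fg_top
  have hmem : ∀ g : integralClosure O[X] F, (g : F) ∈ gs O t := fun g => chart_le_gs t g.2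
  choose q p hq hp using fun g : integralClosure O[X] F => hg (g : F) (hmem g)
  refine ⟨∏ g ∈ G, q g, prim_prod _ _ fun g _ => hq g, fun x hx => ?_⟩
  have hxG : (⟨x, hx⟩ : integralClosure O[X] F) ∈ Submodule.span O[X] (G : Set _) := by
    rw [hG]; trivial
  have key : ∀ y : integralClosure O[X] F, y ∈ Submodule.span O[X] (G : Set _) →
      ∃ p : ι → O[X], InP t ϖ (aeval t (∏ g ∈ G, q g) * (y : F) - ∑ i, aeval t (p i) * s i) := by
    intro y hy
    induction hy using Submodule.span_induction with
    | mem g hgG =>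
      refine ⟨fun i => (∏ g' ∈ G.erase g, q g') * p g i, ?_⟩
      have h1 := (hp g).mul_left (aeval_mem_gs t (∏ g' ∈ G.erase g, q g'))
      convert h1 using 1
      rw [← Finset.mul_prod_erase G q hgG, map_mul, mul_sub, Finset.mul_sum]
      congr 1
      · ring
      · refine Finset.sum_congr rfl fun i _ => ?_
        rw [map_mul, mul_assoc]
    | zero => exact ⟨fun _ => 0, by simpa using inP_zero t ϖ⟩
    | add y z _ _ hy hz =>
      obtain ⟨p1, h1⟩ := hy
      obtain ⟨p2, h2⟩ := hz
      refine ⟨fun i => p1 i + p2 i, ?_⟩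
      convert h1.add h2 using 1
      simp only [map_add, add_mul, Finset.sum_add_distrib]
      push_cast
      ring
    | smul a y _ hy =>
      obtain ⟨p1, h1⟩ := hy
      refine ⟨fun i => a * p1 i, ?_⟩
      convert h1.mul_left (aeval_mem_gs t a) using 1
      have : ((a • y : integralClosure O[X] F) : F) = aeval t a * (y : F) := by
        rw [show ((a • y : integralClosure O[X] F) : F) = a • (y : F) from rfl, Algebra.smul_def]
        rfl
      rw [this, mul_sub, Finset.mul_sum]
      congr 1
      · ring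
      · refine Finset.sum_congr rfl fun i _ => ?_
        rw [map_mul, mul_assoc]
  exact key _ hxG

end Fin

end Fermat.Agent.H36
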