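import Fermat.Agent.H36ConnA

set_option autoImplicit false
set_option linter.style.haveILetI false
set_option linter.unusedSectionVars false
set_option linter.unnecessarySimpa false
open Polynomial

namespace Fermat.Agent.H36

section Tower

variable {O : Type*} [CommRing O] {K : Type*} [Field K] [Algebra O K]
  {F : Type*} [Field F] [Algebra O F] [Algebra K F] [IsScalarTower O K F]

variable (O K) in
lemma evt_comp_map (t : F) :
    (evt K t).comp (Polynomial.mapRingHom (algebraMap O K)) = evt O t := by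
  ext c
  · simp only [RingHom.coe_comp, Function.comp_apply, coe_mapRingHom, map_C, evt_apply, aeval_C]
    exact (IsScalarTower.algebraMap_apply O K F c).symm
  · simp only [RingHom.coe_comp, Function.comp_apply, coe_mapRingHom, map_X, evt_apply, aeval_X]

variable (O K) in
lemma chart_le_chartK (t : F) : chart O t ≤ chart K t := by
  rintro y ⟨f, hf, hfy⟩
  refine ⟨f.map (Polynomial.mapRingHom (algebraMap O K)), hf.map _, ?_⟩
  rw [eval₂_map]
  change eval₂ ((evt K t).comp (Polynomial.mapRingHom (algebraMap O K))) y f = 0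
  rw [evt_comp_map O K t]
  exact hfy

end Tower

section GoodSec

variable {K : Type*} [Field K] {F : Type*} [Field F] [Algebra K F] {τ : F}
variable {O : Type*} [CommRing O] [IsDomain O] [IsDiscreteValuationRing O] [Algebra O K]
    [IsFractionRing O K] [Algebra O F] [IsScalarTower O K F]

/-- Elements that become Gauss integral after multiplication with a power of `b`. -/
def Good (O : Type*) [CommRing O] [IsDomain O] [IsDiscreteValuationRing O] {F : Type*} [Field F]
    [Algebra O F] (τ b x : F) : Prop := ∃ N : ℕ, b ^ N * x ∈ gs O τ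

lemma Good.mono {b x : F} (hb : b ∈ gs O τ) {N M : ℕ} (h : N ≤ M) (hx : b ^ N * x ∈ gs O τ) :
    b ^ M * x ∈ gs O τ := by
  obtain ⟨k, rfl⟩ := Nat.exists_eq_add_of_le h
  have := mul_mem (pow_mem hb k) hx
  convert this using 1
  rw [pow_add]; ring

lemma exists_pow_mul_mem_gs {ϖ : O} (hϖ : Irreducible ϖ) (hτ : Transcendental K τ)
    [FiniteDimensional (IntermediateField.adjoin K {τ}) F] (x : F) :
    ∃ n : ℕ, algebraMap O F ϖ ^ n * x ∈ gs O τ := by
  letI := algE O K τ
  letI := algT O τ
  haveI := isScalarTower_algE (O := O) (K := K) τ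
  haveI := isFractionRing_adjoin (O := O) hτ
  have hx : IsAlgebraic (IntermediateField.adjoin K {τ}) x := Algebra.IsAlgebraic.isAlgebraic x
  have hx' : IsAlgebraic O[X] x := (IsFractionRing.isAlgebraic_iff O[X] _ F).2 hx
  obtain ⟨y, hy0, hy⟩ := hx'.exists_integral_multiple
  obtain ⟨n, q, hq, rfl⟩ := exists_eq_pow_mul_prim hϖ hy0
  refine ⟨n, q, hq, ?_⟩
  have h1 : (C ϖ ^ n * q) • x = aeval τ q * (algebraMap O F ϖ ^ n * x) := by
    rw [Algebra.smul_def]
    change aeval τ (C ϖ ^ n * q) * x = _
    rw [map_mul, map_pow, aeval_C]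
    ring
  rw [h1] at hy
  exact hy

/-- The `O`-module of elements of `W` which are `b`-Gauss integral. -/
def goodSub (O : Type*) [CommRing O] [IsDomain O] [IsDiscreteValuationRing O] {K : Type*} [Field K]
    {F : Type*} [Field F] [Algebra O F] [Algebra K F] [Algebra O K] [IsScalarTower O K F]
    (τ : F) {b : F} (hb : b ∈ gs O τ) (W : Submodule K F) : Submodule O F where
  carrier := {x | x ∈ W ∧ Good O τ b x}
  add_mem' := by
    rintro x y ⟨hx, N, hN⟩ ⟨hy, M, hM⟩
    refine ⟨add_mem hx hy, max N M, ?_⟩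
    rw [mul_add]
    exact add_mem (Good.mono hb (le_max_left _ _) hN) (Good.mono hb (le_max_right _ _) hM)
  zero_mem' := ⟨zero_mem _, 0, by simpa using zero_mem _⟩
  smul_mem' := by
    rintro c x ⟨hx, N, hN⟩
    refine ⟨?_, N, ?_⟩
    · rw [← algebraMap_smul K c x]
      exact W.smul_mem _ hx
    · rw [Algebra.smul_def, mul_left_comm]
      exact mul_mem (algebraMap_mem_gs τ c) hN

end GoodSec

section Point

variable {K : Type*} [Field K] {F : Type*} [Field F] [Algebra K F]

/-- Data of a `K`-rational point: an embedding into Laurent series over `K` such that `τ` is a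
uniformiser. -/
structure RatPoint (K : Type*) [Field K] {F : Type*} [Field F] [Algebra K F] (τ : F) where
  e : F →+* LaurentSeries K
  he : ∀ c : K, e (algebraMap K F c) = HahnSeries.C c
  P : PowerSeries K
  hP : e τ = (P : LaurentSeries K)
  hP0 : PowerSeries.coeff 0 P = 0
  hP1 : PowerSeries.coeff 1 P ≠ 0

namespace RatPoint

variable {τ : F} (p : RatPoint K τ)

lemma exists_powerSeries {x : F} (hx : x ∈ chart K τ) :
    ∃ Q : PowerSeries K, p.e x = (Q : LaurentSeries K) := by
  let φ : K[X] →+* PowerSeries K := (Polynomial.aeval p.P : K[X] →ₐ[K] PowerSeries K).toRingHom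
  have h1 : p.e.comp (evt K τ) = (algebraMap (PowerSeries K) (LaurentSeries K)).comp φ := by
    refine Polynomial.ringHom_ext (fun c => ?_) ?_
    · simp only [RingHom.coe_comp, Function.comp_apply, evt_apply, aeval_C, φ,
        AlgHom.toRingHom_eq_coe, RingHom.coe_coe]
      rw [p.he]
      rw [PowerSeries.algebraMap_apply, Algebra.algebraMap_self_apply]
      exact (HahnSeries.ofPowerSeries_C (Γ := ℤ) c).symm
    · simp only [RingHom.coe_comp, Function.comp_apply, evt_apply, aeval_X, φ,
        AlgHom.toRingHom_eq_coe, RingHom.coe_coe]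
      rw [p.hP]
      rfl
  obtain ⟨f, hf, hfx⟩ := hx
  have h2 : IsIntegral (PowerSeries K) (p.e x) := by
    refine ⟨f.map φ, hf.map _, ?_⟩
    rw [eval₂_map, ← h1, ← hom_eval₂]
    have : eval₂ (evt K τ) x f = 0 := hfx
    rw [this, map_zero]
  obtain ⟨Q, hQ⟩ := (IsIntegrallyClosed.isIntegral_iff).1 h2
  exact ⟨Q, hQ.symm⟩

/-- Constant term at the point. -/
noncomputable def ev (x : F) : K := (p.e x).coeff 0

lemma ev_eq {x : F} {Q : PowerSeries K} (h : p.e x = (Q : LaurentSeries K)) :
    p.ev x = PowerSeries.coeff 0 Q := by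
  unfold ev
  rw [h]
  have := PowerSeries.coeff_coe Q 0
  simpa using this

lemma ev_mul {x y : F} (hx : x ∈ chart K τ) (hy : y ∈ chart K τ) :
    p.ev (x * y) = p.ev x * p.ev y := by
  obtain ⟨Q, hQ⟩ := p.exists_powerSeries hx
  obtain ⟨R, hR⟩ := p.exists_powerSeries hy
  rw [p.ev_eq hQ, p.ev_eq hR, p.ev_eq (Q := Q * R)]
  · simp
  · rw [map_mul, hQ, hR, PowerSeries.coe_mul]

lemma ev_add (x y : F) : p.ev (x + y) = p.ev x + p.ev y := by
  simp [ev]

lemma ev_sub (x y : F) : p.ev (x - y) = p.ev x - p.ev y := by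
  simp [ev]

lemma ev_algebraMap (c : K) : p.ev (algebraMap K F c) = c := by
  simp [ev, p.he]

lemma ev_one : p.ev 1 = 1 := by
  have := p.ev_algebraMap 1
  rwa [map_one] at this

lemma ev_zero : p.ev 0 = 0 := by
  simp [ev]

lemma ev_smul (c : K) (x : F) : p.ev (c • x) = c * p.ev x := by
  rw [Algebra.smul_def]
  unfold ev
  rw [map_mul, p.he]
  simp

lemma ev_tau : p.ev τ = 0 := by
  rw [p.ev_eq p.hP, p.hP0]

lemma ev_pow {x : F} (hx : x ∈ chart K τ) (n : ℕ) : p.ev (x ^ n) = p.ev x ^ n := by
  induction n with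
  | zero => simpa using p.ev_one
  | succ n ih => rw [pow_succ, p.ev_mul (pow_mem hx n) hx, ih, pow_succ]

/-- Evaluation as a ring homomorphism on the chart. -/
noncomputable def evHom : chart K τ →+* K where
  toFun x := p.ev x
  map_one' := p.ev_one
  map_mul' x y := p.ev_mul x.2 y.2
  map_zero' := p.ev_zero
  map_add' _ _ := p.ev_add _ _

lemma algebraMap_mem (c : K) : algebraMap K F c ∈ chart K τ := algebraMap_mem_chart K τ c

/-- The values of integral functions are integral. -/
lemma ev_mem_range {O : Type*} [CommRing O] [IsDomain O] [IsIntegrallyClosed O] [Algebra O K]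
    [IsFractionRing O K] [Algebra O F] [IsScalarTower O K F] {x : F} (hx : x ∈ chart O τ) :
    ∃ a : O, algebraMap O K a = p.ev x := by
  have hxK : x ∈ chart K τ := chart_le_chartK O K τ hx
  obtain ⟨f, hf, hfx⟩ := hx
  -- constant term hom
  have h1 : IsIntegral O (p.ev x) := by
    refine ⟨f.map (Polynomial.constantCoeff), hf.map _, ?_⟩
    rw [eval₂_map]
    have h2 : ((algebraMap O K).comp (Polynomial.constantCoeff : O[X] →+* O)) =
        (p.evHom).comp ((evt K τ).codRestrict (chart K τ)
          (fun q => evt_mem_chart K τ q) |>.comp (Polynomial.mapRingHom (algebraMap O K))) := by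
      ext c
      · simp only [RingHom.coe_comp, Function.comp_apply]
        change algebraMap O K (coeff (C c) 0) =
          p.ev (aeval τ (Polynomial.map (algebraMap O K) (C c)))
        rw [map_C, aeval_C, ev_algebraMap, coeff_C_zero]
      · simp only [RingHom.coe_comp, Function.comp_apply]
        change _ = p.ev (aeval τ (Polynomial.map (algebraMap O K) X))
        rw [map_X, aeval_X, p.ev_tau]
        simp
    rw [h2]
    have h3 : p.ev x = p.evHom ⟨x, hxK⟩ := rfl
    rw [h3, ← hom_eval₂]
    have h4 : eval₂ (((evt K τ).codRestrict (chart K τ) (fun q => evt_mem_chart K τ q)).comp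
        (Polynomial.mapRingHom (algebraMap O K))) ⟨x, hxK⟩ f = 0 := by
      apply Subtype.ext
      change (chart K τ).subtype _ = _
      rw [hom_eval₂]
      have h5 : ((chart K τ).subtype).comp (((evt K τ).codRestrict (chart K τ)
          (fun q => evt_mem_chart K τ q)).comp (Polynomial.mapRingHom (algebraMap O K))) =
          evt O τ := by
        rw [← evt_comp_map O K τ]
        rfl
      rw [h5]
      exact hfx
    rw [h4, map_zero]
  exact (IsIntegrallyClosed.isIntegral_iff).1 h1

lemma exists_a [CharZero K] (hτ : Transcendental K τ)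
    [FiniteDimensional (IntermediateField.adjoin K {τ}) F] :
    ∃ a ∈ chart K τ, p.ev a ≠ 0 ∧ ∀ x ∈ chart K τ, p.ev x = 0 → a * x * τ⁻¹ ∈ chart K τ := by
  letI := algE K K τ
  letI := algT K τ
  haveI := isScalarTower_algE (O := K) (K := K) τ
  haveI := isFractionRing_adjoin (O := K) hτ
  haveI : CharZero (IntermediateField.adjoin K {τ}) :=
    charZero_of_injective_algebraMap (algebraMap K (IntermediateField.adjoin K {τ})).injective
  haveI : IsDedekindDomain (integralClosure K[X] F) :=
    integralClosure.isDedekindDomain K[X] (IntermediateField.adjoin K {τ}) F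
  let D := integralClosure K[X] F
  let q : Ideal D :=
    { carrier := {x | p.ev (x : F) = 0}
      add_mem' := by
        intro x y hx hy
        simp only [Set.mem_ofPred_eq] at *
        push_cast
        rw [p.ev_add, hx, hy, add_zero]
      zero_mem' := by simpa using p.ev_zero
      smul_mem' := by
        intro c x hx
        simp only [Set.mem_ofPred_eq, smul_eq_mul] at *
        push_cast
        rw [p.ev_mul c.2 x.2, hx, mul_zero] }
  have hτD : τ ∈ chart K τ := self_mem_chart K τ
  let τ' : D := ⟨τ, hτD⟩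
  have h1 : Ideal.span {τ'} ≤ q := by
    rw [Ideal.span_singleton_le_iff_mem]
    exact p.ev_tau
  obtain ⟨r, hr⟩ := Ideal.dvd_iff_le.2 h1
  -- elements of `q * q` have vanishing first coefficient
  have h2 : ∀ x ∈ q * q, (p.e (x : F)).coeff 1 = 0 := by
    intro x hx
    refine Submodule.mul_induction_on hx ?_ ?_
    · intro y hy z hz
      obtain ⟨Q, hQ⟩ := p.exists_powerSeries y.2
      obtain ⟨R, hR⟩ := p.exists_powerSeries z.2
      have hQ0 : PowerSeries.coeff 0 Q = 0 := by rw [← p.ev_eq hQ]; exact hy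
      have hR0 : PowerSeries.coeff 0 R = 0 := by rw [← p.ev_eq hR]; exact hz
      push_cast
      rw [map_mul, hQ, hR, ← PowerSeries.coe_mul]
      have h3 := PowerSeries.coeff_coe (Q * R) 1
      have h4 : PowerSeries.coeff 1 (Q * R) = 0 := by
        rw [PowerSeries.coeff_mul]
        rw [Finset.Nat.antidiagonal_succ]
        simp [hQ0, hR0]
      simpa [h4] using h3
    · intro y z hy hz
      push_cast
      rw [map_add, HahnSeries.coeff_add, hy, hz, add_zero]
  have h3 : ¬ r ≤ q := by
    intro hrq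
    have h4 : τ' ∈ q * q := by
      have : Ideal.span {τ'} ≤ q * q := by
        rw [hr]; exact Ideal.mul_mono_right hrq
      exact this (Ideal.mem_span_singleton_self _)
    have h5 := h2 _ h4
    rw [p.hP] at h5
    have h6 := PowerSeries.coeff_coe p.P 1
    rw [h5] at h6
    exact p.hP1 (by simpa using h6.symm)
  obtain ⟨a, har, haq⟩ := SetLike.not_le_iff_exists.1 h3
  refine ⟨a, a.2, haq, fun x hx hx0 => ?_⟩
  have h7 : a * (⟨x, hx⟩ : D) ∈ Ideal.span {τ'} := by
    rw [hr, mul_comm q r]
    exact Ideal.mul_mem_mul har hx0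
  obtain ⟨y, hy⟩ := Ideal.mem_span_singleton'.1 h7
  have hτ0 : τ ≠ 0 := fun h => by
    subst h
    exact (hτ ⟨X, X_ne_zero, by simp⟩)
  have h8 : (y : F) * τ = (a : F) * x := by
    have := congrArg (fun z : D => (z : F)) hy
    simpa [τ'] using this
  rw [← h8, mul_inv_cancel_right₀ hτ0]
  exact y.2

/-- The constant term as a linear functional. -/
noncomputable def evLin : F →ₗ[K] K where
  toFun := p.ev
  map_add' := p.ev_add
  map_smul' c x := by simpa using p.ev_smul c x

/-- The shift operator `x ↦ a (x - x(p)) / τ`. -/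
noncomputable def T (a : F) : F →ₗ[K] F :=
  (LinearMap.mulLeft K (a * τ⁻¹)).comp (LinearMap.id - (Algebra.linearMap K F).comp p.evLin)

lemma T_apply (a x : F) : p.T a x = a * (x - algebraMap K F (p.ev x)) * τ⁻¹ := by
  simp only [T, LinearMap.comp_apply, LinearMap.sub_apply, LinearMap.id_apply,
    LinearMap.mulLeft_apply, Algebra.linearMap_apply]
  change a * τ⁻¹ * (x - algebraMap K F (p.ev x)) = _
  ring

/-- The functionals `x ↦ (T^k x)(p)`. -/
noncomputable def L (a : F) (k : ℕ) : F →ₗ[K] K := p.evLin.comp ((p.T a) ^ k)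

lemma L_zero (a x : F) : p.L a 0 x = p.ev x := rfl

lemma L_succ (a : F) (k : ℕ) (x : F) : p.L a (k + 1) x = p.L a k (p.T a x) := by
  unfold L
  rw [pow_succ]
  rfl

lemma T_mem {a : F} (ha' : ∀ x ∈ chart K τ, p.ev x = 0 → a * x * τ⁻¹ ∈ chart K τ) {x : F}
    (hx : x ∈ chart K τ) : p.T a x ∈ chart K τ := by
  rw [p.T_apply]
  apply ha' _ (sub_mem hx (algebraMap_mem_chart K τ _))
  rw [p.ev_sub, p.ev_algebraMap, sub_self]

lemma exists_L_ne_zero {a : F} (ha : a ∈ chart K τ) (ha0 : p.ev a ≠ 0)
    (ha' : ∀ x ∈ chart K τ, p.ev x = 0 → a * x * τ⁻¹ ∈ chart K τ) {x : F}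
    (hx : x ∈ chart K τ) (hx0 : x ≠ 0) : ∃ k, p.L a k x ≠ 0 := by
  have hτ0 : τ ≠ 0 := by
    rintro rfl
    have h1 := p.hP
    rw [map_zero] at h1
    have h2 := PowerSeries.coeff_coe p.P 1
    rw [← h1] at h2
    exact p.hP1 (by simpa using h2.symm)
  have hP : p.P.order = 1 := by
    have := (PowerSeries.order_eq_nat (φ := p.P) (n := 1)).2 ⟨p.hP1, fun i hi => by
      obtain rfl : i = 0 := by omega
      exact p.hP0⟩
    simpa using this
  obtain ⟨A, hA⟩ := p.exists_powerSeries ha
  have hA0 : A.order = 0 := by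
    have := (PowerSeries.order_eq_nat (φ := A) (n := 0)).2 ⟨by rwa [← p.ev_eq hA],
      fun i hi => absurd hi (by omega)⟩
    simpa using this
  have key : ∀ n : ℕ, ∀ x ∈ chart K τ, ∀ Q : PowerSeries K, p.e x = (Q : LaurentSeries K) →
      Q.order = n → ∃ k, p.L a k x ≠ 0 := by
    intro n
    induction n with
    | zero =>
      intro x hx Q hQ hord
      refine ⟨0, ?_⟩
      rw [L_zero, p.ev_eq hQ]
      exact ((PowerSeries.order_eq_nat (φ := Q) (n := 0)).1 (by simpa using hord)).1
    | succ n ih =>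
      intro x hx Q hQ hord
      have hQ0 : PowerSeries.coeff 0 Q = 0 :=
        ((PowerSeries.order_eq_nat (φ := Q) (n := n + 1)).1 (by exact_mod_cast hord)).2 0
          (by omega)
      have hev : p.ev x = 0 := by rw [p.ev_eq hQ, hQ0]
      have hTx := p.T_mem ha' hx
      obtain ⟨R, hR⟩ := p.exists_powerSeries hTx
      have h1 : R * p.P = A * Q := by
        have h2 : p.T a x * τ = a * x := by
          rw [p.T_apply, hev, map_zero, sub_zero, inv_mul_cancel_right₀ hτ0]
        have h3 := congrArg p.e h2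
        rw [map_mul, map_mul, hR, hA, hQ, p.hP, ← PowerSeries.coe_mul, ← PowerSeries.coe_mul] at h3
        exact HahnSeries.ofPowerSeries_injective h3
      have h4 := congrArg PowerSeries.order h1
      rw [PowerSeries.order_mul, PowerSeries.order_mul, hP, hA0, hord, zero_add] at h4
      have h5 : R.order = n := by
        have h6 : R.order + 1 = (n : ℕ∞) + 1 := by rw [h4]; norm_cast
        exact ENat.add_left_injective_of_ne_top (ENat.natCast_ne_top 1) h6
      obtain ⟨k, hk⟩ := ih _ hTx R hR h5
      exact ⟨k + 1, by rwa [L_succ]⟩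
  obtain ⟨Q, hQ⟩ := p.exists_powerSeries hx
  have hQ0 : Q ≠ 0 := by
    rintro rfl
    apply hx0
    apply p.e.injective
    rw [hQ, map_zero]
    simp
  obtain ⟨n, hn⟩ := ENat.ne_top_iff_exists.1 ((PowerSeries.order_eq_top (φ := Q)).not.2 hQ0)
  exact key n x hx Q hQ hn.symm

section Lattice

variable {O : Type*} [CommRing O] [IsDomain O] [IsDiscreteValuationRing O] [Algebra O K]
    [IsFractionRing O K] [Algebra O F] [IsScalarTower O K F]

lemma L_mem {b : F} (hτ : Transcendental K τ) (hb : b ∈ chart O τ) {u : O}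
    (hu : algebraMap O K u = p.ev b) (hu' : IsUnit u) {a : F} (ha : a ∈ gs O τ) (hτ0 : τ ≠ 0)
    (ha' : ∀ x ∈ chart K τ, p.ev x = 0 → a * x * τ⁻¹ ∈ chart K τ) (k : ℕ) :
    ∀ x ∈ chart K τ, Good O τ b x → ∃ c : O, algebraMap O K c = p.L a k x := by
  have hev : ∀ x ∈ chart K τ, Good O τ b x → ∃ c : O, algebraMap O K c = p.ev x := by
    rintro x hx ⟨N, hN⟩
    have hbK : b ∈ chart K τ := chart_le_chartK O K τ hb
    have h1 : b ^ N * x ∈ chart O τ :=
      mem_chart_of_gs_of_chartK K hτ hN (mul_mem (pow_mem hbK N) hx)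
    obtain ⟨c, hc⟩ := p.ev_mem_range h1
    rw [p.ev_mul (pow_mem hbK N) hx, p.ev_pow hbK, ← hu, ← map_pow] at hc
    obtain ⟨v, hv⟩ := hu'.pow N
    refine ⟨(v⁻¹ : Oˣ) * c, ?_⟩
    rw [map_mul, hc, ← hv, ← mul_assoc, ← map_mul, Units.inv_mul, map_one, one_mul]
  induction k with
  | zero => exact hev
  | succ k ih =>
    intro x hx hg
    rw [L_succ]
    apply ih _ (p.T_mem ha' hx)
    obtain ⟨c, hc⟩ := hev x hx hg
    obtain ⟨N, hN⟩ := hg
    refine ⟨N, ?_⟩
    rw [p.T_apply, ← hc, ← IsScalarTower.algebraMap_apply]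
    have h1 : τ⁻¹ ∈ gs O τ := inv_mem_gs hτ0
    have h2 := mul_mem (mul_mem ha h1) (sub_mem hN (mul_mem (pow_mem (chart_le_gs τ hb) N)
      (algebraMap_mem_gs τ c)))
    convert h2 using 1
    ring

/-- Finite generation of the lattice of `b`-Gauss integral elements. -/
theorem finite_goodSub [CharZero K] {b : F} (hτ : Transcendental K τ)
    [FiniteDimensional (IntermediateField.adjoin K {τ}) F] (hb : b ∈ chart O τ) {u : O}
    (hu : algebraMap O K u = p.ev b) (hu' : IsUnit u) (W : Submodule K F) [FiniteDimensional K W]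
    (hW : ∀ x ∈ W, x ∈ chart K τ) :
    Module.Finite O (goodSub O (K := K) τ (chart_le_gs τ hb) W) := by
  classical
  obtain ⟨ϖ, hϖ⟩ := IsDiscreteValuationRing.exists_irreducible O
  have hτ0 : τ ≠ 0 := fun h => by
    subst h
    exact (hτ ⟨X, X_ne_zero, by simp⟩)
  obtain ⟨a₀, ha₀, ha₀0, ha₀'⟩ := p.exists_a hτ
  obtain ⟨n, hn⟩ := exists_pow_mul_mem_gs hϖ hτ a₀
  set a := algebraMap O F ϖ ^ n * a₀ with ha_def
  have haeq : a = algebraMap K F (algebraMap O K ϖ ^ n) * a₀ := by
    rw [ha_def, map_pow, ← IsScalarTower.algebraMap_apply]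
  have hϖK : algebraMap O K ϖ ≠ 0 := by
    rw [Ne, IsFractionRing.to_map_eq_zero_iff]; exact hϖ.ne_zero
  have ha : a ∈ chart K τ := by
    rw [haeq]; exact mul_mem (algebraMap_mem_chart K τ _) ha₀
  have ha0 : p.ev a ≠ 0 := by
    rw [haeq, p.ev_mul (algebraMap_mem_chart K τ _) ha₀, p.ev_algebraMap]
    exact mul_ne_zero (pow_ne_zero _ hϖK) ha₀0
  have ha' : ∀ x ∈ chart K τ, p.ev x = 0 → a * x * τ⁻¹ ∈ chart K τ := by
    intro x hx hx0
    have := mul_mem (algebraMap_mem_chart K τ (algebraMap O K ϖ ^ n)) (ha₀' x hx hx0)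
    rw [haeq]
    convert this using 1
    ring
  -- the decreasing chain of common kernels
  let V : ℕ → Submodule K W := fun k => ⨅ j : Fin k, LinearMap.ker ((p.L a j).comp W.subtype)
  have hVanti : Antitone V := by
    intro i j hij
    refine le_iInf fun l => ?_
    exact iInf_le (fun j' : Fin j => LinearMap.ker ((p.L a j').comp W.subtype)) ⟨l, by omega⟩
  obtain ⟨k0, hk0⟩ := (monotone_stabilizes_iff_artinian.2
    (inferInstance : IsArtinian K W)) ⟨fun k => OrderDual.toDual (V k), fun i j h => hVanti h⟩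
  have hVbot : V k0 = ⊥ := by
    rw [eq_bot_iff]
    intro x hx
    by_contra hx0
    have hx0' : (x : F) ≠ 0 := fun h => hx0 (by
      have : x = 0 := Subtype.ext h
      simpa using this)
    obtain ⟨k, hk⟩ := p.exists_L_ne_zero ha ha0 ha' (hW x x.2) hx0'
    have h1 : x ∈ V (max k0 (k + 1)) := by
      have := hk0 (max k0 (k + 1)) (le_max_left _ _)
      have h2 : V k0 = V (max k0 (k + 1)) := this
      rwa [← h2]
    have h2 : x ∈ LinearMap.ker ((p.L a k).comp W.subtype) := by
      have := (Submodule.mem_iInf _).1 h1 ⟨k, lt_of_lt_of_le (Nat.lt_succ_self k) (le_max_right _ _)⟩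
      exact this
    exact hk h2
  -- the injection
  let M := goodSub O (K := K) τ (chart_le_gs τ hb) W
  let R : Submodule O (Fin k0 → K) :=
    LinearMap.range (LinearMap.pi (fun i : Fin k0 => (Algebra.linearMap O K).comp
      (LinearMap.proj i : (Fin k0 → O) →ₗ[O] O)))
  haveI hRfin : Module.Finite O R := inferInstance
  let f : M →ₗ[O] (Fin k0 → K) := LinearMap.pi fun i =>
    ((p.L a i).restrictScalars O).comp M.subtype
  have hfR : ∀ x, f x ∈ R := by
    intro x
    have h1 : ∀ i : Fin k0, ∃ c : O, algebraMap O K c = p.L a i x := fun i =>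
      p.L_mem hτ hb hu hu' hn hτ0 ha' i x (hW _ x.2.1) x.2.2
    choose c hc using h1
    refine ⟨c, ?_⟩
    ext i
    simp [f, hc]
  let g : M →ₗ[O] R := f.codRestrict R hfR
  have hg : Function.Injective g := by
    rw [injective_iff_map_eq_zero]
    intro x hx
    have h1 : ∀ i : Fin k0, p.L a i x = 0 := by
      intro i
      have := congrArg (fun z : R => (z : Fin k0 → K) i) hx
      simpa [g, f] using this
    have h2 : (⟨x, x.2.1⟩ : W) ∈ V k0 := by
      refine (Submodule.mem_iInf _).2 fun i => ?_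
      exact h1 i
    rw [hVbot] at h2
    have h3 : (⟨x, x.2.1⟩ : W) = 0 := by simpa using h2
    apply Subtype.ext
    have h4 := congrArg (fun z : W => (z : F)) h3
    simpa using h4
  exact Module.Finite.of_injective g hg

end Lattice

end RatPoint

end Point

end Fermat.Agent.H36
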