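import Fermat.Agent.H36MaxB

set_option autoImplicit false
set_option linter.style.haveILetI false
set_option linter.unusedSectionVars false
set_option linter.unnecessarySimpa false
open Polynomial

namespace Fermat.Agent.H36

/-- Local condition for `f` at the maximal ideals of `B` lying on the special fibre: `f` is a unit
times a `d`-th power of `h`, and the values at `m` of the residues of `h` along all the components
through `m` are the same scalar (`c⁻¹`). -/
def LocCond {O : Type*} [CommRing O] {F : Type*} [Field F] [Algebra O F] {ι : Type*}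
    (V : ι → ValuationSubring F) (ϖ : O) (f : F) (d : ℕ) (B : Subring F) : Prop :=
  ∀ m : Ideal B, m.IsMaximal → (∀ z : B, (z : F) = algebraMap O F ϖ → z ∈ m) →
    ∃ (h : F) (a b : B) (c : O) (c' : B), h ≠ 0 ∧ a ∉ m ∧ b ∉ m ∧ f * b = h ^ d * a ∧
      (c' : F) = algebraMap O F c ∧
      ∀ i, (∀ z : B, (V i).valuation (z : F) < 1 → z ∈ m) →
        ∃ x s : B, s ∉ m ∧ (V i).valuation ((x : F) * h - s) < 1 ∧ x - c' * s ∈ m

section Pow

variable {O : Type*} [CommRing O] {F : Type*} [Field F] [Algebra O F]

lemma mem_chart_of_pow {t x : F} {n : ℕ} (hn : 0 < n) (h : x ^ n ∈ chart O t) : x ∈ chart O t := by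
  letI := algT O t
  exact IsIntegral.of_pow (R := O[X]) hn h

lemma mem_gs_of_pow {O : Type*} [CommRing O] [IsDomain O] [IsDiscreteValuationRing O] {F : Type*}
    [Field F] [Algebra O F] {t x : F} {n : ℕ} (hn : 0 < n) (h : x ^ n ∈ gs O t) : x ∈ gs O t := by
  obtain ⟨p, hp, h1⟩ := h
  refine ⟨p, hp, mem_chart_of_pow hn ?_⟩
  rw [mul_pow]
  obtain ⟨k, rfl⟩ : ∃ k, n = k + 1 := ⟨n - 1, by omega⟩
  rw [pow_succ (aeval t p), mul_assoc]
  exact mul_mem (pow_mem (evt_mem_chart O t p) k) h1

end Pow

section Local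

variable {O : Type*} [CommRing O] [IsDomain O] [IsDiscreteValuationRing O]
  {K : Type*} [Field K] [Algebra O K] [IsFractionRing O K]
  {F : Type*} [Field F] [Algebra O F] [Algebra K F] [IsScalarTower O K F]
  {F' : Type*} [Field F'] [Algebra O F'] [Algebra K F'] [Algebra F F'] [IsScalarTower O F F']
  [IsScalarTower O K F']

open IntermediateField

/-- the inclusion of the chart in the Gauss closure -/
noncomputable def toGs (O : Type*) [CommRing O] [IsDomain O] [IsDiscreteValuationRing O]
    {F : Type*} [Field F] [Algebra O F] (t : F) : chart O t →+* gs O t :=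
  Subring.inclusion (chart_le_gs t)

lemma coe_toGs (t : F) (x : chart O t) : ((toGs O t x : gs O t) : F) = x := rfl

lemma isUnit_one_sub {ζ : O} {d : ℕ} (hd : IsUnit (d : O)) (hζ : ζ ^ d = 1) (h1 : ζ ≠ 1) :
    IsUnit (1 - ζ) := by
  by_contra hc
  have h2 : 1 - ζ ∈ IsLocalRing.maximalIdeal O := hc
  have h3 : (∑ i ∈ Finset.range d, ζ ^ i) * (ζ - 1) = 0 := by
    rw [geom_sum_mul, hζ, sub_self]
  have h4 : (∑ i ∈ Finset.range d, ζ ^ i) = 0 := by
    rcases mul_eq_zero.1 h3 with h | h
    · exact h
    · exact absurd (sub_eq_zero.1 h) h1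
  have h5 := congrArg (IsLocalRing.residue O) h4
  have h6 : IsLocalRing.residue O ζ = 1 := by
    have := (IsLocalRing.residue_eq_zero_iff (1 - ζ)).2 h2
    rw [map_sub, map_one] at this
    exact (sub_eq_zero.1 this).symm
  rw [map_sum, map_zero] at h5
  simp only [map_pow, h6, one_pow, Finset.sum_const, Finset.card_range, nsmul_eq_mul, mul_one] at h5
  have h7 : IsLocalRing.residue O (d : O) = 0 := by rw [map_natCast]; exact h5
  exact (IsLocalRing.residue_eq_zero_iff _).1 h7 hd

lemma local_claim {t : F} {ι : Type*} [Finite ι] (V : ι → ValuationSubring F)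
    (hS : ∀ x, x ∈ gs O t ↔ ∀ i, x ∈ V i)
    (hR : ∀ i (g z : F), (V i).valuation g < 1 → ∃ N : ℕ, g ^ N * z ∈ V i)
    {f : F} {d : ℕ} (hd0 : d ≠ 0)
    (hf : ∀ i, (V i).valuation (f - 1) < 1)
    {y : gs O (algebraMap F F' t)} (m' : Ideal (chart O (algebraMap F F' t))) (hm' : m'.IsMaximal)
    (P : Ideal (gs O (algebraMap F F' t))) {i : ι}
    (hi : ∀ x : gs O t, gsMap O t x ∈ P ↔ (V i).valuation (x : F) < 1)
    (hPm : P.comap (toGs O _) ≤ m') {ζ : O}
    (hζ : y - ⟨algebraMap O F' ζ, algebraMap_mem_gs _ ζ⟩ ∈ P)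
    {h : F} (h0 : h ≠ 0) {a b : chart O t} (ha : chartMap O t a ∉ m') (hb : chartMap O t b ∉ m')
    (hfab : f * b = h ^ d * a) {c' : chart O t}
    (hloc : ∀ i, (∀ z : chart O t, (V i).valuation (z : F) < 1 → chartMap O t z ∈ m') →
        ∃ x s : chart O t, chartMap O t s ∉ m' ∧ (V i).valuation ((x : F) * h - s) < 1 ∧
          chartMap O t (x - c' * s) ∈ m')
    {T : chart O (algebraMap F F' t)} (hT : (T : F') * algebraMap F F' h = algebraMap F F' b * y) :
    T - ⟨algebraMap O F' ζ, algebraMap_mem_chart O _ ζ⟩ * chartMap O t (b * c') ∈ m' := by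
  classical
  cases nonempty_fintype ι
  haveI := hm'.isPrime
  have hBV : ∀ (z : chart O t) j, (z : F) ∈ V j := fun z j => (hS _).1 (chart_le_gs t z.2) j
  have hle : ∀ {j : ι} {z : F}, z ∈ V j → (V j).valuation z ≤ 1 := fun h =>
    ((V _).valuation_le_one_iff _).2 h
  have hfv : ∀ j, (V j).valuation f = 1 := by
    intro j
    have := (V j).valuation.map_add_eq_of_lt_right (x := f - 1) (y := 1) (by rw [map_one]; exact hf j)
    rw [sub_add_cancel, map_one] at this
    exact this
  -- multipliers
  have hg : ∀ j, ∃ g : chart O t, chartMap O t g ∉ m' ∧ (g : F) * h ∈ V j := by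
    intro j
    by_cases hj : ∀ z : chart O t, (V j).valuation (z : F) < 1 → chartMap O t z ∈ m'
    · refine ⟨1, by rw [map_one]; exact fun h1 => hm'.ne_top ((Ideal.eq_top_iff_one _).2 h1), ?_⟩
      have hav : (V j).valuation (a : F) = 1 := le_antisymm (hle (hBV a j))
        (not_lt.1 fun h1 => ha (hj a h1))
      have hbv : (V j).valuation (b : F) = 1 := le_antisymm (hle (hBV b j))
        (not_lt.1 fun h1 => hb (hj b h1))
      have h1 := congrArg (V j).valuation hfab
      rw [map_mul, map_mul, hfv, hav, hbv, mul_one, mul_one, map_pow] at h1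
      have h2 : (V j).valuation h = 1 := (pow_left_inj₀ zero_le zero_le hd0).1 (by rw [one_pow]; exact h1.symm)
      rw [Subring.coe_one, one_mul, ← (V j).valuation_le_one_iff, h2]
    · push Not at hj
      obtain ⟨z, hz1, hz2⟩ := hj
      obtain ⟨N, hN⟩ := hR j z h hz1
      refine ⟨z ^ N, ?_, by rw [Subring.coe_pow]; exact hN⟩
      rw [map_pow]
      exact fun h1 => hz2 (hm'.isPrime.mem_of_pow_mem _ h1)
  choose g hgm hgh using hg
  set G : chart O t := ∏ j, g j with hG
  have hGm : chartMap O t G ∉ m' := by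
    rw [hG, map_prod]
    intro h1
    obtain ⟨j, -, hj⟩ := (hm'.isPrime.prod_mem_iff).1 h1
    exact hgm j hj
  have hGh : (G : F) * h ∈ gs O t := by
    rw [hS]
    intro j
    have h1 : G = (∏ k ∈ Finset.univ.erase j, g k) * g j := by
      rw [hG]; exact (Finset.prod_erase_mul _ _ (Finset.mem_univ j)).symm
    rw [h1, Subring.coe_mul, mul_assoc]
    exact mul_mem (hBV _ j) (hgh j)
  set H : gs O t := ⟨_, hGh⟩ with hH
  obtain ⟨x, s, hs, hxs, hxc⟩ := hloc i (by
    intro z hz
    apply hPm
    rw [Ideal.mem_comap]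
    have h1 : toGs O _ (chartMap O t z) = gsMap O (F' := F') t (toGs O t z) := rfl
    rw [h1, hi]
    exact hz)
  -- mod `P`
  have h1 : gsMap O t (toGs O t x * H - toGs O t s * toGs O t G) ∈ P := by
    rw [hi]
    have h2 : ((toGs O t x * H - toGs O t s * toGs O t G : gs O t) : F) =
        (G : F) * ((x : F) * h - s) := by
      push_cast
      rw [coe_toGs, coe_toGs, coe_toGs]
      ring
    rw [h2, map_mul]
    exact lt_of_le_of_lt (mul_le_mul_left (hle (hBV G i)) _) (by rwa [one_mul])
  set tm := toGs O (algebraMap F F' t) with htm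
  set ζc : chart O (algebraMap F F' t) := ⟨algebraMap O F' ζ, algebraMap_mem_chart O _ ζ⟩ with hζc
  have h3 : tm (chartMap O t G * (T * chartMap O t s - ζc * chartMap O t (b * x))) ∈ P := by
    have e : tm (chartMap O t G * (T * chartMap O t s - ζc * chartMap O t (b * x))) =
        -(tm T * gsMap O t (toGs O t x * H - toGs O t s * toGs O t G)) +
        (tm (chartMap O t (b * x * G))) * (y - ⟨algebraMap O F' ζ, algebraMap_mem_gs _ ζ⟩) := by
      apply Subtype.ext
      have e1 : (T : F') * algebraMap F F' (x : F) * (algebraMap F F' G * algebraMap F F' h) =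
          algebraMap F F' b * algebraMap F F' x * algebraMap F F' G * y := by
        calc _ = ((T : F') * algebraMap F F' h) * algebraMap F F' (x : F) * algebraMap F F' G := by
              ring
          _ = _ := by rw [hT]; ring
      push_cast
      rw [htm]
      simp only [coe_toGs, coe_gsMap, coe_chartMap, map_mul, map_sub, hH, hζc,
        Subring.coe_mul, AddSubgroupClass.coe_sub]
      linear_combination e1
    rw [e]
    exact add_mem (neg_mem (P.mul_mem_left _ h1)) (P.mul_mem_left _ hζ)
  have h4 : chartMap O t G * (T * chartMap O t s - ζc * chartMap O t (b * x)) ∈ m' := hPm h3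
  have h5 := (hm'.isPrime.mem_or_mem h4).resolve_left hGm
  have h6 : chartMap O t s * (T - ζc * chartMap O t (b * c')) ∈ m' := by
    have e : chartMap O t s * (T - ζc * chartMap O t (b * c')) =
        (T * chartMap O t s - ζc * chartMap O t (b * x)) +
          ζc * chartMap O t b * chartMap O t (x - c' * s) := by
      simp only [map_mul, map_sub]
      ring
    rw [e]
    exact add_mem h5 (m'.mul_mem_left _ hxc)
  exact (hm'.isPrime.mem_or_mem h6).resolve_left hs

end Local

end Fermat.Agent.H36
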