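import Fermat.Agent.H36InjA

set_option autoImplicit false
set_option linter.style.haveILetI false
set_option linter.unusedSectionVars false
set_option linter.unnecessarySimpa false
open Polynomial

namespace Fermat.Agent.H36

section Local

variable {O : Type*} [CommRing O] [IsDomain O] [IsDiscreteValuationRing O]
  {K : Type*} [Field K] [Algebra O K] [IsFractionRing O K]
  {F : Type*} [Field F] [Algebra O F] [Algebra K F] [IsScalarTower O K F]
  {F' : Type*} [Field F'] [Algebra O F'] [Algebra K F'] [Algebra F F'] [IsScalarTower O F F']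
  [IsScalarTower O K F']

open IntermediateField

/-- roots of unity -/
lemma exists_root_mem {R : Type*} [CommRing R] [Algebra O R] (P : Ideal R) (hP : P.IsPrime) {d : ℕ}
    (hd : 0 < d) {ζ : O} (hζ : IsPrimitiveRoot ζ d) {y : R} (hy : y ^ d - 1 ∈ P) :
    ∃ ζ' : O, ζ' ^ d = 1 ∧ y - algebraMap O R ζ' ∈ P := by
  classical
  have h1 := congrArg (Polynomial.aeval y) (X_pow_sub_one_eq_prod hd hζ)
  rw [map_sub, map_pow, aeval_X, map_one, map_prod] at h1
  rw [h1] at hy
  obtain ⟨ζ', hζ', h2⟩ := (hP.prod_mem_iff).1 hy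
  refine ⟨ζ', (mem_nthRootsFinset hd _).1 hζ', ?_⟩
  simpa using h2

lemma exists_b0 (K : Type*) [Field K] [Algebra O K] [IsFractionRing O K] [Algebra K F]
    [IsScalarTower O K F] [Algebra K F'] [IsScalarTower O K F']
    {t : F} (ht : Transcendental K t) (ht' : Transcendental K (algebraMap F F' t))
    [FiniteDimensional K⟮algebraMap F F' t⟯ F']
    {ι : Type*} [Finite ι] [Nonempty ι] (V : ι → ValuationSubring F)
    (hS : ∀ x, x ∈ gs O t ↔ ∀ i, x ∈ V i)
    (hR : ∀ i (g z : F), (V i).valuation g < 1 → ∃ N : ℕ, g ^ N * z ∈ V i)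
    {f : F} {d : ℕ} (hd : IsUnit (d : O)) {ζ : O} (hζ : IsPrimitiveRoot ζ d)
    (hf : ∀ i, (V i).valuation (f - 1) < 1) {ϖ : O} (hϖ : Irreducible ϖ)
    (hloc : LocCond V ϖ f d (chart O t))
    {y : gs O (algebraMap F F' t)} (hy : (y : F') ^ d = algebraMap F F' f) :
    ∃ b : gs O (algebraMap F F' t), (b : F') ∈ chart O (algebraMap F F' t) ∧
      ∀ P : Ideal (gs O (algebraMap F F' t)), P.IsMaximal →
        (y - 1 ∈ P → 1 - b ∈ P) ∧ (y - 1 ∉ P → b ∈ P) := by
  classical
  have hd0 : d ≠ 0 := by
    rintro rfl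
    rw [Nat.cast_zero, isUnit_zero_iff] at hd
    exact zero_ne_one hd
  have hfin := finite_maximal (O := O) K ht'
  set M : Finset (Ideal (gs O (algebraMap F F' t))) := hfin.toFinset with hM
  have hMm : ∀ P, P ∈ M ↔ P.IsMaximal := fun P => by rw [hM, Set.Finite.mem_toFinset]; rfl
  set tm := toGs O (algebraMap F F' t) with htm
  set I : Ideal (chart O (algebraMap F F' t)) :=
    (M.filter (fun P => y - 1 ∈ P)).inf (fun P => P.comap tm) with hI
  set I' : Ideal (chart O (algebraMap F F' t)) :=
    (M.filter (fun P => y - 1 ∉ P)).inf (fun P => P.comap tm) with hI'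
  have hcop : I ⊔ I' = ⊤ := by
    by_contra hne
    obtain ⟨m', hm', hle⟩ := Ideal.exists_le_maximal _ hne
    haveI := hm'.isPrime
    obtain ⟨P, hPM, hPm⟩ := (Ideal.IsPrime.inf_le' hm'.isPrime).1 (le_trans le_sup_left hle)
    obtain ⟨P', hPM', hPm'⟩ := (Ideal.IsPrime.inf_le' hm'.isPrime).1 (le_trans le_sup_right hle)
    rw [Finset.mem_filter, hMm] at hPM hPM'
    -- the maximal ideal below
    have hmm : (m'.comap (chartMap O (F' := F') t)).IsMaximal :=
      Ideal.isMaximal_comap_of_isIntegral_of_isMaximal' _ (chartMap_isIntegral t) m'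
    obtain ⟨h, a, b, c, c', h0, ha, hb, hfab, hc', hcomp⟩ := hloc _ hmm (by
      intro z hz
      rw [Ideal.mem_comap]
      apply hPm
      rw [Ideal.mem_comap]
      have h1 : tm (chartMap O t z) = piS (algebraMap F F' t) ϖ := by
        apply Subtype.ext
        change algebraMap F F' (z : F) = algebraMap O F' ϖ
        rw [hz, ← IsScalarTower.algebraMap_apply]
      rw [h1]
      exact piS_mem K hϖ ht' P hPM.1)
    have hval : ∀ Q : Ideal (gs O (algebraMap F F' t)), Q.IsMaximal →
        ∃ i, ∀ x : gs O t, gsMap O t x ∈ Q ↔ (V i).valuation (x : F) < 1 := by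
      intro Q hQ
      have h1 : (Q.comap (gsMap O (F' := F') t)).IsMaximal := by
        haveI := hQ
        refine Ideal.isMaximal_comap_of_isIntegral_of_isMaximal' _ (gsMap_isIntegral ?_) Q
        intro p hp h2
        exact hp.ne_zero (evt_injective K ht (by rw [evt_apply, h2, map_zero]))
      exact exists_valuation V hS _ h1
    have hroot : ∀ Q : Ideal (gs O (algebraMap F F' t)), Q.IsMaximal →
        ∃ ζ' : O, ζ' ^ d = 1 ∧ y - ⟨algebraMap O F' ζ', algebraMap_mem_gs _ ζ'⟩ ∈ Q := by
      intro Q hQ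
      obtain ⟨i, hi⟩ := hval Q hQ
      letI : Algebra O (gs O (algebraMap F F' t)) :=
        ((algebraMap O F').codRestrict (gs O (algebraMap F F' t))
          (fun c => algebraMap_mem_gs _ c)).toAlgebra
      have hfS : f ∈ gs O t := by
        rw [hS]
        intro j
        have h1 : f - 1 ∈ V j := by
          rw [← (V j).valuation_le_one_iff]; exact (hf j).le
        simpa using add_mem h1 (one_mem (V j))
      obtain ⟨ζ', h1, h2⟩ := exists_root_mem Q hQ.isPrime (Nat.pos_of_ne_zero hd0) hζ (y := y) (by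
        have h3 : y ^ d - 1 = gsMap O t (⟨f, hfS⟩ - 1) := by
          apply Subtype.ext
          push_cast
          rw [hy, map_sub, map_one]
          push_cast
          rw [coe_gsMap]
        rw [h3, hi]
        exact hf i)
      exact ⟨ζ', h1, h2⟩
    -- the element `T`
    have hbF : algebraMap F F' h ≠ 0 := by simpa using h0
    have hTd : (algebraMap F F' b * y / algebraMap F F' h) ^ d =
        algebraMap F F' ((b ^ (d - 1) * a : chart O t) : F) := by
      rw [div_pow, mul_pow, hy, div_eq_iff (pow_ne_zero _ hbF)]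
      have h2 : (b : F) ^ d = (b : F) ^ (d - 1) * b := by
        rw [← pow_succ]; congr 1; omega
      rw [← map_pow, ← map_pow, ← map_mul, ← map_mul, h2]
      congr 1
      push_cast
      linear_combination (b : F) ^ (d - 1) * hfab
    have hTm : algebraMap F F' b * y / algebraMap F F' h ∈ chart O (algebraMap F F' t) := by
      refine mem_chart_of_pow (Nat.pos_of_ne_zero hd0) ?_
      rw [hTd]
      exact map_mem_chart F' (b ^ (d - 1) * a : chart O t).2
    set T : chart O (algebraMap F F' t) := ⟨_, hTm⟩ with hT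
    have hTh : (T : F') * algebraMap F F' h = algebraMap F F' b * y := by
      rw [hT]
      exact div_mul_cancel₀ _ hbF
    have key : ∀ Q : Ideal (gs O (algebraMap F F' t)), Q.IsMaximal → Q.comap tm ≤ m' →
        ∀ ζ' : O, y - ⟨algebraMap O F' ζ', algebraMap_mem_gs _ ζ'⟩ ∈ Q →
        T - ⟨algebraMap O F' ζ', algebraMap_mem_chart O _ ζ'⟩ * chartMap O t (b * c') ∈ m' := by
      intro Q hQ hQm ζ' hζ'
      obtain ⟨i, hi⟩ := hval Q hQ
      exact local_claim V hS hR hd0 hf m' hm' Q hi hQm hζ' h0 ha hb hfab hcomp hTh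
    obtain ⟨ζ2, hζ2, hζ2'⟩ := hroot P' hPM'.1
    have h1 := key P hPM.1 hPm 1 (by
      have : (⟨algebraMap O F' 1, algebraMap_mem_gs _ 1⟩ : gs O (algebraMap F F' t)) = 1 := by
        apply Subtype.ext
        simp
      rw [this]
      exact hPM.2)
    have h2 := key P' hPM'.1 hPm' ζ2 hζ2'
    have hne1 : ζ2 ≠ 1 := by
      rintro rfl
      apply hPM'.2
      have : (⟨algebraMap O F' 1, algebraMap_mem_gs _ 1⟩ : gs O (algebraMap F F' t)) = 1 := by
        apply Subtype.ext
        simp
      rwa [this] at hζ2'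
    obtain ⟨u, hu⟩ := isUnit_one_sub hd hζ2 hne1
    have h3 := sub_mem h2 h1
    have h4 : chartMap O t (b * c') ∈ m' := by
      have e : chartMap O t (b * c') =
          ⟨algebraMap O F' (u⁻¹ : Oˣ), algebraMap_mem_chart O _ _⟩ *
          (T - ⟨algebraMap O F' ζ2, algebraMap_mem_chart O _ ζ2⟩ * chartMap O t (b * c') -
          (T - ⟨algebraMap O F' 1, algebraMap_mem_chart O _ 1⟩ * chartMap O t (b * c'))) := by
        apply Subtype.ext
        push_cast
        have e1 : algebraMap O F' (u⁻¹ : Oˣ) * (algebraMap O F' 1 - algebraMap O F' ζ2) = 1 := by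
          rw [← map_sub, ← hu, ← map_mul, Units.inv_mul, map_one]
        rw [map_one] at e1
        linear_combination -((chartMap O t (b * c') : chart O (algebraMap F F' t)) : F') * e1
      rw [e]
      exact m'.mul_mem_left _ h3
    rw [map_mul] at h4
    have h5 : chartMap O t c' ∈ m' := (hm'.isPrime.mem_or_mem h4).resolve_left hb
    have h6 : T ∈ m' := by
      have := add_mem h1 (m'.mul_mem_left
        (⟨algebraMap O F' 1, algebraMap_mem_chart O _ 1⟩ * chartMap O t b) h5)
      rw [map_mul] at this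
      convert this using 1
      ring
    have h7 : T ^ d ∈ m' := m'.pow_mem_of_mem h6 d (Nat.pos_of_ne_zero hd0)
    have h8 : T ^ d = chartMap O t (b ^ (d - 1) * a) := by
      apply Subtype.ext
      push_cast
      rw [hT, coe_chartMap]
      exact hTd
    rw [h8, map_mul, map_pow] at h7
    rcases hm'.isPrime.mem_or_mem h7 with h9 | h9
    · exact hb (hm'.isPrime.mem_of_pow_mem _ h9)
    · exact ha h9
  obtain ⟨u, hu, v, hv, huv⟩ := Submodule.mem_sup.1 ((Ideal.eq_top_iff_one _).1 hcop)
  refine ⟨tm v, v.2, fun P hP => ⟨fun h => ?_, fun h => ?_⟩⟩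
  · have h1 : (1 : gs O (algebraMap F F' t)) - tm v = tm u := by
      rw [← map_one tm, ← huv, map_add, add_sub_cancel_right]
    rw [h1]
    have h2 : I ≤ P.comap tm := Finset.inf_le (Finset.mem_filter.2 ⟨(hMm P).2 hP, h⟩)
    exact h2 hu
  · have h2 : I' ≤ P.comap tm := Finset.inf_le (Finset.mem_filter.2 ⟨(hMm P).2 hP, h⟩)
    exact h2 hv

end Local

end Fermat.Agent.H36
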