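import Fermat.Agent.H36InjB

set_option autoImplicit false
set_option linter.style.haveILetI false
set_option linter.unusedSectionVars false
set_option linter.unnecessarySimpa false
open Polynomial

namespace Fermat.Agent.H36

section Root

variable {O : Type*} [CommRing O] [IsDomain O] [IsDiscreteValuationRing O]
  {F : Type*} [Field F] [Algebra O F]
  {F' : Type*} [Field F'] [Algebra O F'] [Algebra F F'] [IsScalarTower O F F']

open IntermediateField

/-- `b ≡ 1` at the maximal ideals where `y ≡ 1`, and `b ≡ 0` at the others. -/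
def Sep (S : Subring F') (y b : F') : Prop :=
  ∀ (P : Ideal S), P.IsMaximal → ∀ (hy : y ∈ S) (hb : b ∈ S),
    ((⟨y, hy⟩ - 1 : S) ∈ P → (1 - ⟨b, hb⟩ : S) ∈ P) ∧
    ((⟨y, hy⟩ - 1 : S) ∉ P → (⟨b, hb⟩ : S) ∈ P)

/-- `f` is everywhere locally a `d`-th power with trivial winding: the `d`-th root of `f` is
congruent to a root of unity. -/
theorem exists_root_congr (K : Type*) [Field K] [CharZero K] [Algebra O K] [IsFractionRing O K]
    [Algebra K F] [IsScalarTower O K F] [Algebra K F'] [IsScalarTower O K F']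
    {t : F} (ht : Transcendental K t) (ht' : Transcendental K (algebraMap F F' t))
    [FiniteDimensional K⟮algebraMap F F' t⟯ F']
    (p : RatPoint K (algebraMap F F' t)⁻¹)
    {ι : Type*} [Finite ι] [Nonempty ι] (V : ι → ValuationSubring F)
    (hS : ∀ x, x ∈ gs O t ↔ ∀ i, x ∈ V i)
    (hR : ∀ i (g z : F), (V i).valuation g < 1 → ∃ N : ℕ, g ^ N * z ∈ V i)
    {f : F} {d : ℕ} (hd : IsUnit (d : O)) {ζ : O} (hζ : IsPrimitiveRoot ζ d)
    (hf : ∀ i, (V i).valuation (f - 1) < 1) {ϖ : O} (hϖ : Irreducible ϖ)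
    (hloc : LocCond V ϖ f d (chart O t)) (hloc' : LocCond V ϖ f d (chart O t⁻¹))
    {y : F'} (hy : y ^ d = algebraMap F F' f) :
    ∃ (ζ' : O) (y' : gs O (algebraMap F F' t)), ζ' ^ d = 1 ∧ y = algebraMap O F' ζ' * y' ∧
      ∀ P : Ideal (gs O (algebraMap F F' t)), P.IsMaximal → y' - 1 ∈ P := by
  classical
  have hd0 : d ≠ 0 := by
    rintro rfl
    rw [Nat.cast_zero, isUnit_zero_iff] at hd
    exact zero_ne_one hd
  have ht0 : t ≠ 0 := by
    rintro rfl
    exact ht (isAlgebraic_zero)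
  have ht0' : algebraMap F F' t ≠ 0 := by simpa using ht0
  have hfS : f ∈ gs O t := by
    rw [hS]
    intro j
    have h1 : f - 1 ∈ V j := by
      rw [← (V j).valuation_le_one_iff]; exact (hf j).le
    simpa using add_mem h1 (one_mem (V j))
  have hyS : y ∈ gs O (algebraMap F F' t) := by
    refine mem_gs_of_pow (Nat.pos_of_ne_zero hd0) ?_
    rw [hy]
    exact map_mem_gs F' hfS
  obtain ⟨P0, hP0⟩ := Ideal.exists_maximal (gs O (algebraMap F F' t))
  have hval : ∀ Q : Ideal (gs O (algebraMap F F' t)), Q.IsMaximal →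
      ∃ i, ∀ x : gs O t, gsMap O t x ∈ Q ↔ (V i).valuation (x : F) < 1 := by
    intro Q hQ
    have h1 : (Q.comap (gsMap O (F' := F') t)).IsMaximal := by
      haveI := hQ
      refine Ideal.isMaximal_comap_of_isIntegral_of_isMaximal' _ (gsMap_isIntegral ?_) Q
      intro p hp h2
      exact hp.ne_zero (evt_injective K ht (by rw [evt_apply, h2, map_zero]))
    exact exists_valuation V hS _ h1
  have hroot : ∀ Q : Ideal (gs O (algebraMap F F' t)), Q.IsMaximal →
      ∃ ζ' : O, ζ' ^ d = 1 ∧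
        (⟨y, hyS⟩ : gs O (algebraMap F F' t)) - ⟨algebraMap O F' ζ', algebraMap_mem_gs _ ζ'⟩ ∈ Q := by
    intro Q hQ
    obtain ⟨i, hi⟩ := hval Q hQ
    letI : Algebra O (gs O (algebraMap F F' t)) :=
      ((algebraMap O F').codRestrict (gs O (algebraMap F F' t))
        (fun c => algebraMap_mem_gs _ c)).toAlgebra
    obtain ⟨ζ', h1, h2⟩ := exists_root_mem Q hQ.isPrime (Nat.pos_of_ne_zero hd0) hζ
      (y := ⟨y, hyS⟩) (by
      have h3 : (⟨y, hyS⟩ : gs O (algebraMap F F' t)) ^ d - 1 = gsMap O t (⟨f, hfS⟩ - 1) := by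
        apply Subtype.ext
        push_cast
        rw [hy, map_sub, map_one]
        push_cast
        rw [coe_gsMap]
      rw [h3, hi]
      exact hf i)
    exact ⟨ζ', h1, h2⟩
  obtain ⟨ζ0, hζ0, hζ0'⟩ := hroot P0 hP0
  have hζ0u : IsUnit ζ0 := IsUnit.of_pow_eq_one hζ0 hd0
  obtain ⟨u, hu⟩ := hζ0u
  -- replace `y` by `ζ0⁻¹ y`
  have hy1S : algebraMap O F' (u⁻¹ : Oˣ) * y ∈ gs O (algebraMap F F' t) :=
    mul_mem (algebraMap_mem_gs _ _) hyS
  have hu1 : algebraMap O F' (u⁻¹ : Oˣ) * algebraMap O F' ζ0 = 1 := by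
    rw [← map_mul, ← hu, Units.inv_mul, map_one]
  have hu2 : (algebraMap O F' (u⁻¹ : Oˣ)) ^ d = 1 := by
    have : ((u⁻¹ : Oˣ) : O) ^ d = 1 := by
      rw [← Units.val_pow_eq_pow_val, inv_pow]
      have h1 : u ^ d = 1 := Units.ext (by rw [Units.val_pow_eq_pow_val, hu, hζ0, Units.val_one])
      rw [h1, inv_one, Units.val_one]
    rw [← map_pow, this, map_one]
  set y1 : F' := algebraMap O F' (u⁻¹ : Oˣ) * y with hy1
  have hy1d : y1 ^ d = algebraMap F F' f := by rw [hy1, mul_pow, hu2, one_mul, hy]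
  have hy10 : (⟨y1, hy1S⟩ : gs O (algebraMap F F' t)) - 1 ∈ P0 := by
    have := P0.mul_mem_left (⟨algebraMap O F' (u⁻¹ : Oˣ), algebraMap_mem_gs _ _⟩) hζ0'
    convert this using 1
    apply Subtype.ext
    push_cast
    linear_combination hu1
  have hS' : ∀ x, x ∈ gs O t⁻¹ ↔ ∀ i, x ∈ V i := by
    rw [gs_inv ht0]; exact hS
  have hfd : ∀ z : F', z = (algebraMap F F' t)⁻¹ → FiniteDimensional K⟮z⟯ F' := by
    rintro _ rfl
    rw [adjoin_inv]
    infer_instance
  haveI : FiniteDimensional K⟮algebraMap F F' t⁻¹⟯ F' := hfd _ (map_inv₀ _ _)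
  -- the two separating functions
  obtain ⟨b, hb, hbS⟩ : ∃ b, b ∈ chart O (algebraMap F F' t) ∧
      Sep (gs O (algebraMap F F' t)) y1 b := by
    obtain ⟨b, hb, h⟩ := exists_b0 K ht ht' V hS hR hd hζ hf hϖ hloc (y := ⟨y1, hy1S⟩) hy1d
    exact ⟨b, hb, fun P hP _ _ => h P hP⟩
  obtain ⟨c, hc, hcS⟩ : ∃ b, b ∈ chart O (algebraMap F F' t)⁻¹ ∧
      Sep (gs O (algebraMap F F' t)) y1 b := by
    have e1 : gs O (algebraMap F F' t⁻¹) = gs O (algebraMap F F' t) := by
      rw [map_inv₀, gs_inv ht0']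
    have hy1S' : y1 ∈ gs O (algebraMap F F' t⁻¹) := by rw [e1]; exact hy1S
    obtain ⟨b, hb, h2⟩ : ∃ b : F', b ∈ chart O (algebraMap F F' t⁻¹) ∧
        Sep (gs O (algebraMap F F' t⁻¹)) y1 b := by
      obtain ⟨b, hb, h⟩ := exists_b0 K (transcendental_inv ht)
        (by rw [map_inv₀]; exact transcendental_inv ht') V hS' hR hd hζ hf hϖ hloc'
        (y := ⟨y1, hy1S'⟩) hy1d
      exact ⟨b, hb, fun P hP _ _ => h P hP⟩
    rw [e1] at h2
    rw [map_inv₀] at hb
    exact ⟨b, hb, h2⟩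
  have hbg : b ∈ gs O (algebraMap F F' t) := chart_le_gs _ hb
  have hcg : c ∈ gs O (algebraMap F F' t) := (gs_inv ht0').le (chart_le_gs _ hc)
  have hcm := conn_max ht' p (b := ⟨b, hbg⟩) (c := ⟨c, hcg⟩) hb hc
    (by
      intro P hP
      by_cases h : (⟨y1, hy1S⟩ : gs O (algebraMap F F' t)) - 1 ∈ P
      · exact Or.inr ((hbS P hP hy1S hbg).1 h)
      · exact Or.inl ((hbS P hP hy1S hbg).2 h))
    (by
      intro P hP
      by_cases h : (⟨y1, hy1S⟩ : gs O (algebraMap F F' t)) - 1 ∈ P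
      · have := sub_mem ((hcS P hP hy1S hcg).1 h) ((hbS P hP hy1S hbg).1 h)
        rwa [sub_sub_sub_cancel_left] at this
      · exact sub_mem ((hbS P hP hy1S hbg).2 h) ((hcS P hP hy1S hcg).2 h))
  refine ⟨ζ0, ⟨y1, hy1S⟩, hζ0, ?_, ?_⟩
  · change y = algebraMap O F' ζ0 * (algebraMap O F' (u⁻¹ : Oˣ) * y)
    linear_combination -y * hu1
  · rcases hcm with h | h
    · exfalso
      have h1 := add_mem (h P0 hP0) ((hbS P0 hP0 hy1S hbg).1 hy10)
      rw [add_sub_cancel] at h1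
      exact hP0.ne_top ((Ideal.eq_top_iff_one _).2 h1)
    · intro P hP
      by_contra hc
      have h1 := add_mem ((hbS P hP hy1S hbg).2 hc) (h P hP)
      rw [add_sub_cancel] at h1
      exact hP.ne_top ((Ideal.eq_top_iff_one _).2 h1)

end Root

end Fermat.Agent.H36
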