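import Fermat.Agent.H36Conn

set_option autoImplicit false
set_option linter.style.haveILetI false
set_option linter.unusedSectionVars false
set_option linter.unnecessarySimpa false
open Polynomial

namespace Fermat.Agent.H36

section MaxIdeals

variable {O : Type*} [CommRing O] [IsDomain O] [IsDiscreteValuationRing O]
  {K : Type*} [Field K] [Algebra O K] [IsFractionRing O K]
  {F : Type*} [Field F] [Algebra O F] [Algebra K F] [IsScalarTower O K F]

open IntermediateField

variable (K) in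
lemma not_inP_one {ϖ : O} (hϖ : Irreducible ϖ) {t : F} (ht : Transcendental K t) :
    ¬ InP t ϖ (1 : F) := by
  intro h
  obtain ⟨p, hp, h1⟩ := h
  have h0 : algebraMap O F ϖ ≠ 0 := by
    rw [Ne, map_eq_zero_iff _ (algebraMap_injective_OF O K F)]; exact hϖ.ne_zero
  letI := algE O K t
  letI := algT O t
  haveI := isScalarTower_algE (O := O) (K := K) t
  haveI := isFractionRing_adjoin (O := O) ht
  -- the element lies in `K(t)`
  let z : K⟮t⟯ := algebraMap O[X] K⟮t⟯ p * (algebraMap O[X] K⟮t⟯ (C ϖ))⁻¹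
  have hz : algebraMap K⟮t⟯ F z = aeval t p * ((algebraMap O F ϖ)⁻¹ * 1) := by
    simp only [z, map_mul, map_inv₀, mul_one]
    rw [← IsScalarTower.algebraMap_apply O[X] K⟮t⟯ F, ← IsScalarTower.algebraMap_apply O[X] K⟮t⟯ F]
    change aeval t p * (aeval t (C ϖ))⁻¹ = _
    rw [aeval_C]
  have h2 : IsIntegral O[X] (algebraMap K⟮t⟯ F z) := by rw [hz]; exact h1
  have h3 : IsIntegral O[X] z := (isIntegral_algebraMap_iff (algebraMap K⟮t⟯ F).injective).1 h2
  obtain ⟨q, hq⟩ := (IsIntegrallyClosed.isIntegral_iff).1 h3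
  have h4 : aeval t (C ϖ * q) = aeval t p := by
    have h5 := congrArg (algebraMap K⟮t⟯ F) hq
    rw [hz, ← IsScalarTower.algebraMap_apply O[X] K⟮t⟯ F] at h5
    have h6 : aeval t q = aeval t p * ((algebraMap O F ϖ)⁻¹ * 1) := h5
    rw [map_mul, aeval_C, h6]
    field_simp
  have h5 : C ϖ * q = p := evt_injective K ht h4
  exact (not_prim_iff hϖ p).2 ⟨q, h5.symm⟩ hp

/-- `ϖ` as an element of `gs O t`. -/
noncomputable def piS (t : F) (ϖ : O) : gs O t := ⟨algebraMap O F ϖ, algebraMap_mem_gs t ϖ⟩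

variable (K) in
lemma piS_mem {ϖ : O} (hϖ : Irreducible ϖ) {t : F} (ht : Transcendental K t)
    [FiniteDimensional K⟮t⟯ F] (P : Ideal (gs O t)) (hP : P.IsMaximal) : piS t ϖ ∈ P := by
  by_contra hc
  have h0 : algebraMap O F ϖ ≠ 0 := by
    rw [Ne, map_eq_zero_iff _ (algebraMap_injective_OF O K F)]; exact hϖ.ne_zero
  have hbot : ∀ x ∈ P, x = 0 := by
    intro x hx
    by_contra hx0
    have hx0' : (x : F) ≠ 0 := fun h => hx0 (Subtype.ext h)
    obtain ⟨n, hn⟩ := exists_pow_mul_mem_gs (K := K) hϖ ht ((x : F)⁻¹)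
    apply hc
    refine hP.isPrime.mem_of_pow_mem n ?_
    have h1 : piS t ϖ ^ n = ⟨_, hn⟩ * x := by
      apply Subtype.ext
      push_cast
      rw [mul_assoc, inv_mul_cancel₀ hx0', mul_one]
      rfl
    rw [h1]
    exact P.mul_mem_left _ hx
  -- then `piS` is a unit
  have hPbot : P = ⊥ := by
    rw [eq_bot_iff]
    intro x hx
    rw [hbot x hx]
    exact zero_mem _
  have hne : Ideal.span {piS t ϖ} = ⊤ := by
    subst hPbot
    have := hP.eq_of_le (J := Ideal.span {piS t ϖ})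
    by_contra hne
    have h2 := this hne bot_le
    apply hc
    rw [h2]
    exact Ideal.mem_span_singleton_self _
  obtain ⟨y, hy⟩ := Ideal.mem_span_singleton'.1 ((Ideal.eq_top_iff_one _).1 hne)
  apply not_inP_one K hϖ ht
  unfold InP
  rw [mul_one]
  have : (algebraMap O F ϖ)⁻¹ = (y : F) := by
    have h3 := congrArg (fun z : gs O t => (z : F)) hy
    simp only [Subring.coe_mul, Subring.coe_one] at h3
    have h4 : (y : F) * algebraMap O F ϖ = 1 := h3
    exact (eq_inv_of_mul_eq_one_left h4).symm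
  rw [this]
  exact y.2

variable (K) in
lemma mem_of_inP {ϖ : O} (hϖ : Irreducible ϖ) {t : F} (ht : Transcendental K t)
    [FiniteDimensional K⟮t⟯ F] (P : Ideal (gs O t)) (hP : P.IsMaximal) {x : gs O t}
    (hx : InP t ϖ (x : F)) : x ∈ P := by
  have h0 : algebraMap O F ϖ ≠ 0 := by
    rw [Ne, map_eq_zero_iff _ (algebraMap_injective_OF O K F)]; exact hϖ.ne_zero
  have h1 : x = piS t ϖ * ⟨_, hx⟩ := by
    apply Subtype.ext
    push_cast
    change (x : F) = algebraMap O F ϖ * _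
    rw [← mul_assoc, mul_inv_cancel₀ h0, one_mul]
  rw [h1]
  exact P.mul_mem_right _ (piS_mem K hϖ ht P hP)

variable (K) in
lemma prim_not_mem {t : F} (ht : Transcendental K t) {p : O[X]} (hp : Prim O p)
    (P : Ideal (gs O t)) (hP : P.IsMaximal) :
    (⟨aeval t p, aeval_mem_gs t p⟩ : gs O t) ∉ P := by
  intro h
  have h1 : aeval t p ≠ 0 := by
    intro h2
    exact hp.ne_zero (evt_injective K ht (by rw [evt_apply, h2, map_zero]))
  have h2 : (aeval t p)⁻¹ ∈ gs O t := by
    refine ⟨p, hp, ?_⟩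
    rw [mul_inv_cancel₀ h1]
    exact one_mem _
  apply hP.ne_top
  rw [Ideal.eq_top_iff_one]
  have h3 : (1 : gs O t) = ⟨_, h2⟩ * ⟨aeval t p, aeval_mem_gs t p⟩ := by
    apply Subtype.ext
    push_cast
    rw [inv_mul_cancel₀ h1]
  rw [h3]
  exact P.mul_mem_left _ h

variable (K) in
lemma finite_maximal {t : F} (ht : Transcendental K t) [FiniteDimensional K⟮t⟯ F] :
    {P : Ideal (gs O t) | P.IsMaximal}.Finite := by
  classical
  obtain ⟨ϖ, hϖ⟩ := IsDiscreteValuationRing.exists_irreducible O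
  by_contra hinf
  obtain ⟨T, hT, hcard⟩ := Set.Infinite.exists_subset_card_eq hinf (Module.finrank K⟮t⟯ F + 1)
  have hmax : ∀ P : T, (P : Ideal (gs O t)).IsMaximal := fun P => hT P.2
  have hcop : Pairwise fun P Q : T => IsCoprime (P : Ideal (gs O t)) (Q : Ideal (gs O t)) := by
    intro P Q hPQ
    exact Ideal.isCoprime_of_isMaximal (fun h => hPQ (Subtype.ext h))
  have hcrt : ∀ P : T, ∃ e : gs O t, ∀ Q : T, e - (if P = Q then 1 else 0) ∈ (Q : Ideal (gs O t)) :=
    fun P => Ideal.exists_forall_sub_mem_ideal (I := fun Q : T => (Q : Ideal (gs O t)))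
      (fun i j hij => hcop hij) (fun Q => if P = Q then 1 else 0)
  choose e he using hcrt
  obtain ⟨p, ⟨P0, hP0⟩, hrel⟩ := exists_prim_relation K hϖ ht (fun P : T => (e P : F))
    (by rw [Fintype.card_coe, hcard]; omega)
  have h1 : ∑ P : T, (⟨aeval t (p P), aeval_mem_gs t (p P)⟩ : gs O t) * e P = 0 := by
    apply Subtype.ext
    push_cast
    exact hrel
  have hother : ∀ P ∈ Finset.univ.erase P0,
      (⟨aeval t (p P), aeval_mem_gs t (p P)⟩ : gs O t) * e P ∈ (P0 : Ideal (gs O t)) := by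
    intro P hP
    have := he P P0
    rw [if_neg (Finset.ne_of_mem_erase hP), sub_zero] at this
    exact Ideal.mul_mem_left _ _ this
  rw [← Finset.add_sum_erase _ _ (Finset.mem_univ P0)] at h1
  have h2 : (⟨aeval t (p P0), aeval_mem_gs t (p P0)⟩ : gs O t) * e P0 ∈ (P0 : Ideal (gs O t)) := by
    rw [eq_neg_of_add_eq_zero_left h1]
    exact neg_mem (Ideal.sum_mem _ hother)
  have h3 := he P0 P0
  rw [if_pos rfl] at h3
  have h4 : (⟨aeval t (p P0), aeval_mem_gs t (p P0)⟩ : gs O t) ∈ (P0 : Ideal (gs O t)) := by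
    have h5 := sub_mem h2 (Ideal.mul_mem_left (P0 : Ideal (gs O t))
      (⟨aeval t (p P0), aeval_mem_gs t (p P0)⟩ : gs O t) h3)
    have h6 : (⟨aeval t (p P0), aeval_mem_gs t (p P0)⟩ : gs O t) * e P0 -
        (⟨aeval t (p P0), aeval_mem_gs t (p P0)⟩ : gs O t) * (e P0 - 1) =
        ⟨aeval t (p P0), aeval_mem_gs t (p P0)⟩ := by ring
    rwa [h6] at h5
  exact prim_not_mem K ht hP0 _ (hmax P0) h4

variable (K) in
/-- Elements of all maximal ideals are nilpotent modulo `ϖ`. -/
lemma exists_pow_inP {ϖ : O} (hϖ : Irreducible ϖ) {t : F} (ht : Transcendental K t)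
    [FiniteDimensional K⟮t⟯ F] {x : gs O t}
    (hx : ∀ P : Ideal (gs O t), P.IsMaximal → x ∈ P) : ∃ M : ℕ, InP t ϖ ((x : F) ^ M) := by
  classical
  have h0 : algebraMap O F ϖ ≠ 0 := by
    rw [Ne, map_eq_zero_iff _ (algebraMap_injective_OF O K F)]; exact hϖ.ne_zero
  set r := Module.finrank K⟮t⟯ F with hr
  obtain ⟨p, ⟨i1, hi1⟩, hrel⟩ := exists_prim_relation K hϖ ht (fun i : Fin (r + 1) => (x : F) ^ (i : ℕ))
    (by simp [hr])
  -- pass to a function on `ℕ`
  let p' : ℕ → O[X] := fun i => if h : i < r + 1 then p ⟨i, h⟩ else 0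
  have hp' : ∀ i : Fin (r + 1), p' i = p i := fun i => dif_pos i.2
  have hrel' : ∑ i ∈ Finset.range (r + 1), aeval t (p' i) * (x : F) ^ i = 0 := by
    rw [Finset.sum_range]
    rw [← hrel]
    refine Finset.sum_congr rfl fun i _ => ?_
    rw [hp']
  have hex : ∃ i, Prim O (p' i) := ⟨i1, by rw [hp']; exact hi1⟩
  set i0 := Nat.find hex with hi0
  have hi0p : Prim O (p' i0) := Nat.find_spec hex
  have hi0lt : i0 < r + 1 := by
    by_contra hc
    have : p' i0 = 0 := dif_neg hc
    exact hi0p.ne_zero this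
  have hsmall : InP t ϖ (∑ i ∈ Finset.range i0, aeval t (p' i) * (x : F) ^ i) :=
    InP.sum _ _ fun i hi => inP_of_not_prim hϖ h0 (Nat.find_min hex (Finset.mem_range.1 hi))
      (pow_mem x.2 i)
  obtain ⟨k, hk⟩ := Nat.exists_eq_add_of_lt hi0lt
  -- the tail
  set y : F := ∑ j ∈ Finset.range k, aeval t (p' (i0 + 1 + j)) * (x : F) ^ j with hy
  have hyS : y ∈ gs O t := sum_mem fun j _ => mul_mem (aeval_mem_gs t _) (pow_mem x.2 j)
  have htail : InP t ϖ ((x : F) ^ i0 * (aeval t (p' i0) + (x : F) * y)) := by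
    have h1 : ∑ i ∈ Finset.range (r + 1), aeval t (p' i) * (x : F) ^ i =
        (∑ i ∈ Finset.range i0, aeval t (p' i) * (x : F) ^ i) +
          (x : F) ^ i0 * (aeval t (p' i0) + (x : F) * y) := by
      have e1 : r + 1 = (i0 + 1) + k := by omega
      rw [e1, Finset.sum_range_add, Finset.sum_range_succ, add_assoc]
      congr 1
      rw [mul_add, hy, Finset.mul_sum, Finset.mul_sum]
      congr 1
      · ring
      · refine Finset.sum_congr rfl fun j _ => ?_
        ring
    rw [hrel'] at h1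
    have h2 := hsmall.neg
    convert h2 using 1
    linear_combination -h1
  -- the second factor is a unit
  have hunit : IsUnit (⟨aeval t (p' i0), aeval_mem_gs t _⟩ + x * ⟨y, hyS⟩ : gs O t) := by
    by_contra hc
    obtain ⟨P, hP, hPm⟩ := exists_max_ideal_of_mem_nonunits hc
    have h1 : (⟨aeval t (p' i0), aeval_mem_gs t _⟩ : gs O t) ∈ P := by
      have := sub_mem hPm (P.mul_mem_right ⟨y, hyS⟩ (hx P hP))
      rwa [add_sub_cancel_right] at this
    exact prim_not_mem K ht hi0p P hP h1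
  obtain ⟨u, hu⟩ := hunit
  refine ⟨i0, ?_⟩
  have h3 := htail.mul_right (s := (((u⁻¹ : (gs O t)ˣ) : gs O t) : F)) (u⁻¹ : (gs O t)ˣ).1.2
  have h4 : (aeval t (p' i0) + (x : F) * y) * (((u⁻¹ : (gs O t)ˣ) : gs O t) : F) = 1 := by
    have h5 : (((u : gs O t) : F)) = aeval t (p' i0) + (x : F) * y := by
      rw [hu]; rfl
    rw [← h5, ← Subring.coe_mul, Units.mul_inv, Subring.coe_one]
  rwa [mul_assoc, h4, mul_one] at h3

end MaxIdeals

end Fermat.Agent.H36
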