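import Fermat.Agent.H36Max

set_option autoImplicit false
set_option linter.style.haveILetI false
set_option linter.unusedSectionVars false
set_option linter.unnecessarySimpa false
open Polynomial

namespace Fermat.Agent.H36

section ConnMax

variable {O : Type*} [CommRing O] [IsDomain O] [IsDiscreteValuationRing O]
  {K : Type*} [Field K] [Algebra O K] [IsFractionRing O K]
  {F : Type*} [Field F] [Algebra O F] [Algebra K F] [IsScalarTower O K F]

open IntermediateField

/-- the idempotent polynomial -/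
def idp {R : Type*} [CommRing R] (M : ℕ) (z : R) : R := 1 - (1 - z ^ M) ^ M

lemma dvd_idp {R : Type*} [CommRing R] (M : ℕ) (z : R) : z ^ M ∣ idp M z := by
  have := sub_dvd_pow_sub_pow 1 (1 - z ^ M) M
  rw [one_pow, sub_sub_cancel] at this
  exact this

lemma dvd_one_sub_idp {R : Type*} [CommRing R] (M : ℕ) (z : R) : (1 - z) ^ M ∣ 1 - idp M z := by
  unfold idp
  rw [sub_sub_cancel]
  apply pow_dvd_pow_of_dvd
  have := sub_dvd_pow_sub_pow 1 z M
  rwa [one_pow] at this

lemma dvd_idp_sq {R : Type*} [CommRing R] (M : ℕ) (z : R) :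
    (z * (1 - z)) ^ M ∣ idp M z * (1 - idp M z) := by
  rw [mul_pow]
  exact mul_dvd_mul (dvd_idp M z) (dvd_one_sub_idp M z)

lemma idp_sub_mem {R : Type*} [CommRing R] (P : Ideal R) {M : ℕ} (hM : M ≠ 0) {z : R}
    (hz : z ∈ P ∨ 1 - z ∈ P) : idp M z - z ∈ P := by
  rcases hz with hz | hz
  · exact sub_mem (P.mem_of_dvd (dvd_idp M z) (P.pow_mem_of_mem hz M (Nat.pos_of_ne_zero hM))) hz
  · have h1 := P.mem_of_dvd (dvd_one_sub_idp M z) (P.pow_mem_of_mem hz M (Nat.pos_of_ne_zero hM))
    have h2 := sub_mem hz h1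
    have : (1 - z) - (1 - idp M z) = idp M z - z := by ring
    rwa [this] at h2

lemma InP.of_dvd {t : F} {ϖ : O} {x y : gs O t} (h : x ∣ y) (hx : InP t ϖ (x : F)) :
    InP t ϖ (y : F) := by
  obtain ⟨z, rfl⟩ := h
  exact hx.mul_right z.2

/-- Connectedness, in terms of the maximal ideals of the Gauss closure. -/
theorem conn_max [CharZero K] {t : F} (ht : Transcendental K t) [FiniteDimensional K⟮t⟯ F]
    (p : RatPoint K t⁻¹) {b c : gs O t} (hb : (b : F) ∈ chart O t) (hc : (c : F) ∈ chart O t⁻¹)
    (h1 : ∀ P : Ideal (gs O t), P.IsMaximal → b ∈ P ∨ 1 - b ∈ P)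
    (h2 : ∀ P : Ideal (gs O t), P.IsMaximal → b - c ∈ P) :
    (∀ P : Ideal (gs O t), P.IsMaximal → b ∈ P) ∨
      (∀ P : Ideal (gs O t), P.IsMaximal → 1 - b ∈ P) := by
  obtain ⟨ϖ, hϖ⟩ := IsDiscreteValuationRing.exists_irreducible O
  have h1' : ∀ P : Ideal (gs O t), P.IsMaximal → c ∈ P ∨ 1 - c ∈ P := by
    intro P hP
    rcases h1 P hP with h | h
    · left
      have := sub_mem h (h2 P hP)
      rwa [sub_sub_cancel] at this
    · right
      have := add_mem h (h2 P hP)
      rwa [sub_add_sub_cancel] at this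
  have hz : ∀ z : gs O t, (∀ P : Ideal (gs O t), P.IsMaximal → z ∈ P ∨ 1 - z ∈ P) →
      ∃ M : ℕ, InP t ϖ (((z * (1 - z) : gs O t) : F) ^ M) := by
    intro z hz
    refine exists_pow_inP K hϖ ht fun P hP => ?_
    rcases hz P hP with h | h
    · exact P.mul_mem_right _ h
    · exact P.mul_mem_left _ h
  obtain ⟨M1, hM1⟩ := hz b h1
  obtain ⟨M2, hM2⟩ := hz c h1'
  set M := M1 + M2 + 1 with hM
  have hM0 : M ≠ 0 := by omega
  have hbI : InP t ϖ (((idp M b * (1 - idp M b) : gs O t) : F)) := by
    refine InP.of_dvd (x := (b * (1 - b)) ^ M1) ((pow_dvd_pow _ (by omega)).trans (dvd_idp_sq M b)) ?_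
    push_cast
    push_cast at hM1
    exact hM1
  have hcI : InP t ϖ (((idp M c * (1 - idp M c) : gs O t) : F)) := by
    refine InP.of_dvd (x := (c * (1 - c)) ^ M2) ((pow_dvd_pow _ (by omega)).trans (dvd_idp_sq M c)) ?_
    push_cast
    push_cast at hM2
    exact hM2
  set b' := idp M b with hb'
  set c' := idp M c with hc'
  have hb'b : ∀ P : Ideal (gs O t), P.IsMaximal → b' - b ∈ P := fun P hP =>
    idp_sub_mem P hM0 (h1 P hP)
  have hc'c : ∀ P : Ideal (gs O t), P.IsMaximal → c' - c ∈ P := fun P hP =>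
    idp_sub_mem P hM0 (h1' P hP)
  have hw : ∀ P : Ideal (gs O t), P.IsMaximal → b' - c' ∈ P := by
    intro P hP
    have := add_mem (sub_mem (hb'b P hP) (hc'c P hP)) (h2 P hP)
    have e : b' - b - (c' - c) + (b - c) = b' - c' := by ring
    rwa [e] at this
  -- `b' - c' ∈ ϖ S`
  have hwI : InP t ϖ ((b' - c' : gs O t) : F) := by
    have hu : IsUnit ((b' - c') ^ 2 - 1 : gs O t) := by
      by_contra hcu
      obtain ⟨P, hP, hPm⟩ := exists_max_ideal_of_mem_nonunits hcu
      have h3 := sub_mem (P.pow_mem_of_mem (hw P hP) 2 (by norm_num)) hPm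
      rw [sub_sub_cancel] at h3
      exact hP.ne_top ((Ideal.eq_top_iff_one _).2 h3)
    obtain ⟨u, hu⟩ := hu
    have h3 : InP t ϖ (((b' - c') * ((b' - c') ^ 2 - 1) : gs O t) : F) := by
      have e : (((b' - c') * ((b' - c') ^ 2 - 1) : gs O t) : F) =
          (-((b' : F) + 1) + 3 * (c' : F)) * ((b' * (1 - b') : gs O t) : F) +
          (((c' : F) + 1) - 3 * (b' : F)) * ((c' * (1 - c') : gs O t) : F) := by
        push_cast
        ring
      rw [e]
      refine (hbI.mul_left ?_).add (hcI.mul_left ?_)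
      · have : (-((b' : F) + 1) + 3 * (c' : F)) = ((-(b' + 1) + 3 * c' : gs O t) : F) := by
          push_cast; rfl
        rw [this]; exact (-(b' + 1) + 3 * c' : gs O t).2
      · have : (((c' : F) + 1) - 3 * (b' : F)) = (((c' + 1) - 3 * b' : gs O t) : F) := by
          push_cast; rfl
        rw [this]; exact ((c' + 1) - 3 * b' : gs O t).2
    rw [← hu] at h3
    have h4 := h3.mul_right (s := (((u⁻¹ : (gs O t)ˣ) : gs O t) : F)) (u⁻¹ : (gs O t)ˣ).1.2
    rwa [← Subring.coe_mul, mul_assoc, Units.mul_inv, mul_one] at h4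
  have hconn := conn ht p hϖ (b := (b' : F)) (b' := (c' : F))
    (by
      have : (b' : F) = 1 - (1 - (b : F) ^ M) ^ M := by rw [hb']; unfold idp; push_cast; rfl
      rw [this]
      exact sub_mem (one_mem _) (pow_mem (sub_mem (one_mem _) (pow_mem hb _)) _))
    (by
      have : (c' : F) = 1 - (1 - (c : F) ^ M) ^ M := by rw [hc']; unfold idp; push_cast; rfl
      rw [this]
      exact sub_mem (one_mem _) (pow_mem (sub_mem (one_mem _) (pow_mem hc _)) _))
    (by
      have := hbI.neg
      push_cast at this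
      convert this using 1
      ring)
    (by
      have := hwI
      push_cast at this
      exact this)
  rcases hconn with h | h
  · left
    intro P hP
    have h3 : b' ∈ P := mem_of_inP K hϖ ht P hP h
    have := sub_mem h3 (hb'b P hP)
    rwa [sub_sub_cancel] at this
  · right
    intro P hP
    have h3 : 1 - b' ∈ P := mem_of_inP K hϖ ht P hP (by push_cast; exact h)
    have := add_mem h3 (hb'b P hP)
    rwa [sub_add_sub_cancel] at this

end ConnMax

section Maps

variable {O : Type*} [CommRing O] {F : Type*} [Field F] [Algebra O F]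
  {F' : Type*} [Field F'] [Algebra O F'] [Algebra F F'] [IsScalarTower O F F']

variable (F') in
lemma algebraMap_aeval (t : F) (p : O[X]) :
    algebraMap F F' (aeval t p) = aeval (algebraMap F F' t) p := by
  rw [aeval_algebraMap_apply]

variable (F') in
lemma map_mem_chart {t x : F} (hx : x ∈ chart O t) :
    algebraMap F F' x ∈ chart O (algebraMap F F' t) := by
  obtain ⟨f, hf, hfx⟩ := hx
  refine ⟨f, hf, ?_⟩
  have h1 : evt O (algebraMap F F' t) = (algebraMap F F').comp (evt O t) := by
    refine RingHom.ext fun p => ?_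
    rw [RingHom.comp_apply, evt_apply, evt_apply, algebraMap_aeval]
  change eval₂ (evt O (algebraMap F F' t)) _ f = 0
  rw [h1, ← hom_eval₂]
  have : eval₂ (evt O t) x f = 0 := hfx
  rw [this, map_zero]

variable (F') in
/-- The inclusion of charts. -/
noncomputable def chartMap (O : Type*) [CommRing O] {F : Type*} [Field F] [Algebra O F]
    {F' : Type*} [Field F'] [Algebra O F'] [Algebra F F'] [IsScalarTower O F F'] (t : F) :
    chart O t →+* chart O (algebraMap F F' t) :=
  ((algebraMap F F').comp (chart O t).subtype).codRestrict _ fun x => map_mem_chart F' x.2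

lemma coe_chartMap (t : F) (x : chart O t) :
    ((chartMap O (F' := F') t x : chart O (algebraMap F F' t)) : F') = algebraMap F F' x := rfl

lemma chartMap_isIntegral (t : F) : (chartMap O (F' := F') t).IsIntegral := by
  rintro ⟨x, hx⟩
  obtain ⟨f, hf, hfx⟩ := hx
  let ψ : O[X] →+* chart O t := (evt O t).codRestrict (chart O t) (fun q => evt_mem_chart O t q)
  refine ⟨f.map ψ, hf.map _, ?_⟩
  rw [eval₂_map]
  apply Subtype.ext
  change (chart O (algebraMap F F' t)).subtype _ = _
  rw [hom_eval₂]
  have h5 : ((chart O (algebraMap F F' t)).subtype).comp ((chartMap O (F' := F') t).comp ψ) =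
      evt O (algebraMap F F' t) := by
    refine RingHom.ext fun p => ?_
    change algebraMap F F' (aeval t p) = _
    rw [algebraMap_aeval]
    rfl
  rw [h5]
  exact hfx

end Maps

section MapsGs

variable {O : Type*} [CommRing O] [IsDomain O] [IsDiscreteValuationRing O]
  {F : Type*} [Field F] [Algebra O F]
  {F' : Type*} [Field F'] [Algebra O F'] [Algebra F F'] [IsScalarTower O F F']

variable (F') in
lemma map_mem_gs {t x : F} (hx : x ∈ gs O t) : algebraMap F F' x ∈ gs O (algebraMap F F' t) := by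
  obtain ⟨p, hp, h⟩ := hx
  refine ⟨p, hp, ?_⟩
  have := map_mem_chart F' h
  rwa [map_mul, algebraMap_aeval] at this

/-- The inclusion of Gauss closures. -/
noncomputable def gsMap (O : Type*) [CommRing O] [IsDomain O] [IsDiscreteValuationRing O]
    {F : Type*} [Field F] [Algebra O F]
    {F' : Type*} [Field F'] [Algebra O F'] [Algebra F F'] [IsScalarTower O F F'] (t : F) :
    gs O t →+* gs O (algebraMap F F' t) :=
  ((algebraMap F F').comp (gs O t).subtype).codRestrict _ fun x => map_mem_gs F' x.2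

lemma coe_gsMap (t : F) (x : gs O t) :
    ((gsMap O (F' := F') t x : gs O (algebraMap F F' t)) : F') = algebraMap F F' x := rfl

lemma gsMap_isIntegral {t : F} (ht : ∀ p : O[X], Prim O p → aeval t p ≠ 0) :
    (gsMap O (F' := F') t).IsIntegral := by
  rintro ⟨x, hx⟩
  obtain ⟨p, hp, h⟩ := id hx
  have h0 := ht p hp
  have hv : (aeval t p)⁻¹ ∈ gs O t := by
    refine ⟨p, hp, ?_⟩
    rw [mul_inv_cancel₀ h0]
    exact one_mem _
  -- integrality of `p(t) x`
  have h1 : (gsMap O (F' := F') t).IsIntegralElem ⟨aeval (algebraMap F F' t) p * x,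
      chart_le_gs _ h⟩ := by
    obtain ⟨f, hf, hfx⟩ := h
    let ψ : O[X] →+* gs O t := (evt O t).codRestrict (gs O t) (fun q => aeval_mem_gs t q)
    refine ⟨f.map ψ, hf.map _, ?_⟩
    rw [eval₂_map]
    apply Subtype.ext
    change (gs O (algebraMap F F' t)).subtype _ = _
    rw [hom_eval₂]
    have h5 : ((gs O (algebraMap F F' t)).subtype).comp ((gsMap O (F' := F') t).comp ψ) =
        evt O (algebraMap F F' t) := by
      refine RingHom.ext fun p => ?_
      change algebraMap F F' (aeval t p) = _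
      rw [algebraMap_aeval]
      rfl
    rw [h5]
    exact hfx
  have h2 := (gsMap O (F' := F') t).isIntegralElem_map (x := ⟨_, hv⟩)
  have h3 := RingHom.IsIntegralElem.mul _ h2 h1
  have e : (⟨x, hx⟩ : gs O (algebraMap F F' t)) = gsMap O (F' := F') t ⟨_, hv⟩ *
      ⟨aeval (algebraMap F F' t) p * x, chart_le_gs _ h⟩ := by
    apply Subtype.ext
    change x = algebraMap F F' (aeval t p)⁻¹ * (aeval (algebraMap F F' t) p * x)
    rw [map_inv₀, algebraMap_aeval, ← mul_assoc, inv_mul_cancel₀, one_mul]
    rw [← algebraMap_aeval]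
    simpa using h0
  rw [e]
  exact h3

/-- Maximal ideals of the Gauss closure are centres of the given valuation rings. -/
lemma exists_valuation {t : F} {ι : Type*} [Finite ι] [Nonempty ι] (V : ι → ValuationSubring F)
    (hS : ∀ x, x ∈ gs O t ↔ ∀ i, x ∈ V i) (P : Ideal (gs O t)) (hP : P.IsMaximal) :
    ∃ i, ∀ x : gs O t, x ∈ P ↔ (V i).valuation (x : F) < 1 := by
  classical
  cases nonempty_fintype ι
  let Q : ι → Ideal (gs O t) := fun i =>
    { carrier := {x | (V i).valuation (x : F) < 1}
      add_mem' := by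
        intro x y hx hy
        exact lt_of_le_of_lt ((V i).valuation.map_add _ _) (max_lt hx hy)
      zero_mem' := by simp
      smul_mem' := by
        intro c x hx
        have hc : (V i).valuation (c : F) ≤ 1 := ((V i).valuation_le_one_iff _).2 ((hS _).1 c.2 i)
        change (V i).valuation ((c : F) * (x : F)) < 1
        rw [map_mul]
        exact lt_of_le_of_lt (mul_le_mul_left hc _) (by rwa [one_mul]) }
  have hQ : ∀ i, ∀ x : gs O t, x ∈ Q i ↔ (V i).valuation (x : F) < 1 := fun i x => Iff.rfl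
  have hQp : ∀ i, (Q i).IsPrime := by
    intro i
    refine ⟨fun h => ?_, fun {x y} h => ?_⟩
    · have : (1 : gs O t) ∈ Q i := by rw [h]; trivial
      rw [hQ] at this
      simp at this
    · rw [hQ] at h ⊢
      rw [hQ]
      have hx : (V i).valuation (x : F) ≤ 1 := ((V i).valuation_le_one_iff _).2 ((hS _).1 x.2 i)
      have hy : (V i).valuation (y : F) ≤ 1 := ((V i).valuation_le_one_iff _).2 ((hS _).1 y.2 i)
      by_contra hc
      push Not at hc
      have h1 := le_antisymm hx hc.1
      have h2 := le_antisymm hy hc.2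
      push_cast at h
      rw [map_mul, h1, h2, one_mul] at h
      exact lt_irrefl _ h
  have hsub : (P : Set (gs O t)) ⊆ ⋃ i ∈ (Finset.univ : Finset ι), (Q i : Set (gs O t)) := by
    intro x hx
    by_contra hc
    simp only [Finset.mem_univ, Set.iUnion_true, Set.mem_iUnion, SetLike.mem_coe, not_exists] at hc
    have hc' : ∀ i, (V i).valuation (x : F) = 1 := fun i =>
      le_antisymm (((V i).valuation_le_one_iff _).2 ((hS _).1 x.2 i)) (not_lt.1 (fun h => hc i h))
    obtain ⟨i⟩ := ‹Nonempty ι›
    have hx0 : (x : F) ≠ 0 := by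
      intro h0
      have := hc' i
      rw [h0, map_zero] at this
      exact zero_ne_one this
    have hinv : (x : F)⁻¹ ∈ gs O t := by
      rw [hS]
      intro j
      rw [← (V j).valuation_le_one_iff, map_inv₀, hc' j, inv_one]
    apply hP.ne_top
    rw [Ideal.eq_top_iff_one]
    have : (1 : gs O t) = ⟨_, hinv⟩ * x := by
      apply Subtype.ext
      push_cast
      rw [inv_mul_cancel₀ hx0]
    rw [this]
    exact P.mul_mem_left _ hx
  obtain ⟨i, -, hi⟩ := (Ideal.subset_union_prime (Classical.arbitrary ι)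
    (Classical.arbitrary ι) (fun i _ _ _ => hQp i)).1 hsub
  have : P = Q i := hP.eq_of_le (hQp i).ne_top hi
  refine ⟨i, fun x => ?_⟩
  rw [this, hQ]

end MapsGs

end Fermat.Agent.H36
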