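import Fermat.Agent.H66Degree
import Fermat.Agent.H67Comm
import Fermat.Agent.H60Norm

/-!
# The middle embeddings of the function field of `X_0(q² m)`

`q` prime, `q ∤ m`.  The field `F_{mqq}` has exactly `q` embeddings in `L((t))` extending the
inclusion of `F_{mq}`: the inclusion itself and, for each primitive `q`-th root of unity `v`, an
embedding sending `j(q² τ)` to `j(v t)`.
-/

set_option autoImplicit false
set_option linter.unusedSectionVars false

noncomputable section

open ModularCurve Polynomial IntermediateField AlgebraicCurve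

namespace Fermat.Agent.H99

section General

variable {K E : Type*} [Field K] [Field E] [Algebra K E]

/-- an algebra homomorphism on a simple extension inside a common field -/
theorem exists_algHom_of_gen {A B : IntermediateField K E} (h : A ≤ B) {x : E} (hx : x ∈ B)
    (hgen : ∀ F : IntermediateField K E, A ≤ F → x ∈ F → B ≤ F) (hint : IsIntegral A x)
    (y : E) (hy : aeval y (minpoly A x) = 0) :
    ∃ σ : B →ₐ[K] E, (∀ a : A, σ (IntermediateField.inclusion h a) = (a : E)) ∧ σ ⟨x, hx⟩ = y := by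
  have hB : extendScalars h = A⟮x⟯ := H66.extendScalars_eq_adjoin h hx hgen
  set pb := IntermediateField.adjoin.powerBasis hint with hpb
  have hmin : minpoly A pb.gen = minpoly A x := by
    rw [hpb, adjoin.powerBasis_gen]
    exact minpoly_gen A x
  let σ₀ : A⟮x⟯ →ₐ[A] E := pb.lift y (by rw [hmin]; exact hy)
  have hσ₀ : σ₀ (AdjoinSimple.gen A x) = y := by
    have hg : pb.gen = AdjoinSimple.gen A x := adjoin.powerBasis_gen hint
    rw [← hg]
    exact pb.lift_gen y (by rw [hmin]; exact hy)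
  have hBmem : ∀ z : B, (z : E) ∈ A⟮x⟯ := fun z => by
    rw [← hB]
    exact z.2
  let ι : B →+* A⟮x⟯ :=
    { toFun := fun z => ⟨z, hBmem z⟩
      map_one' := rfl
      map_mul' := fun _ _ => rfl
      map_zero' := rfl
      map_add' := fun _ _ => rfl }
  refine ⟨{ (σ₀.toRingHom.comp ι) with commutes' := fun r => ?_ }, fun a => ?_, ?_⟩
  · show σ₀ (ι (algebraMap K B r)) = algebraMap K E r
    have h1 : ι (algebraMap K B r) = algebraMap A A⟮x⟯ (algebraMap K A r) := rfl
    rw [h1, AlgHom.commutes]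
    rfl
  · show σ₀ (ι (IntermediateField.inclusion h a)) = _
    have h1 : ι (IntermediateField.inclusion h a) = algebraMap A A⟮x⟯ a := rfl
    rw [h1, AlgHom.commutes]
    rfl
  · show σ₀ (ι ⟨x, hx⟩) = y
    have h1 : ι ⟨x, hx⟩ = AdjoinSimple.gen A x := rfl
    rw [h1, hσ₀]

end General

section Minpoly

variable {K : Type*} [Field K]

open H66

/-- The minimal polynomial of `j(q² τ)` over a field containing `j(τ)`, `j(q τ)` over which it has
degree `q`. -/
theorem root_minpoly {p : ℕ} [Fact p.Prime] {u : Kˣ} {Φ : K[X][X]} (hmon : Φ.Monic)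
    (hΦ : phiAt K Φ (J K p) = ∏ a, (X - C (jf K p u a)))
    (F : IntermediateField K (LaurentSeries K)) (hJ1 : J K 1 ∈ F) (hJp : J K p ∈ F)
    (hd : p ≤ (minpoly F (J K (p * p))).natDegree) (a : Option (Fin p)) (ha : a ≠ some 0) :
    aeval (jf K p u a) (minpoly F (J K (p * p))) = 0 := by
  classical
  have hp : p.Prime := Fact.out
  set x := J K (p * p) with hx
  have hroot : (phiAt K Φ (J K p)).eval x = 0 := eval_root1 hΦ p
  have hint : IsIntegral F x := isIntegral_of_root hmon F hJp hroot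
  have hdvd := minpoly_dvd_phiAt hmon F hJp hroot
  set f := (minpoly F x).map (algebraMap F (LaurentSeries K)) with hf
  have hfm : f.Monic := (minpoly.monic hint).map _
  rw [hΦ] at hdvd
  obtain ⟨T, hT⟩ := exists_finset_of_dvd_prod _ hfm hdvd
  have hcard : (minpoly F x).natDegree = T.card := by
    rw [← natDegree_prod_X_sub_C' T (jf K p u), ← hT, hf, natDegree_map]
  have h0 : some 0 ∉ T := by
    intro h0
    have h1 : f.eval (J K 1) = 0 := by
      rw [hT, eval_prod]
      refine Finset.prod_eq_zero h0 ?_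
      rw [jf_some_zero, J_one, eval_sub, eval_X, eval_C, sub_self]
    have h2 : (minpoly F x).IsRoot ⟨J K 1, hJ1⟩ := by
      rw [IsRoot.def]
      apply (algebraMap F (LaurentSeries K)).injective
      rw [map_zero, ← eval_map_apply]
      exact h1
    have h3 : (minpoly F x).natDegree = 1 := natDegree_eq_of_degree_eq_some
      (degree_eq_one_of_irreducible_of_root (minpoly.irreducible hint) h2)
    have := hp.two_le
    omega
  have hTe : T = Finset.univ.erase (some 0) := by
    apply Finset.eq_of_subset_of_card_le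
    · intro b hb
      rw [Finset.mem_erase]
      exact ⟨fun h => h0 (h ▸ hb), Finset.mem_univ _⟩
    · rw [Finset.card_erase_of_mem (Finset.mem_univ _), Finset.card_univ, Fintype.card_option,
        Fintype.card_fin]
      omega
  rw [← Polynomial.eval_map_algebraMap, ← hf, hT, eval_prod]
  refine Finset.prod_eq_zero (i := a) ?_ ?_
  · rw [hTe, Finset.mem_erase]
    exact ⟨ha, Finset.mem_univ _⟩
  · rw [eval_sub, eval_X, eval_C, sub_self]

end Minpoly

section MidEmb

open H66 H60

theorem tw_eq_twist {R : Type*} [CommRing R] (u : Rˣ) (x : LaurentSeries R) :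
    tw u x = twist u x := by
  ext n
  rw [tw_coeff, twist_coeff]

variable {L : Type*} [Field L] [Algebra ℚ L]

/-- the function field of `X_0(m)` over `L` -/
abbrev FX (L : Type*) [Field L] [Algebra ℚ L] (m : ℕ) : IntermediateField L (LaurentSeries L) :=
  laurentBaseChange L (modularFunctionFieldFull m)

theorem FX_eq (N : ℕ) : FX L N = modularFunctionFieldFullC L N := H67.laurentBaseChange_full L N

theorem FX_mono {N M : ℕ} (hN : N ≠ 0) (hM : M ≠ 0) (h : N ∣ M) : FX L N ≤ FX L M := by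
  rw [FX_eq, FX_eq]
  exact full_mono L hN hM h

theorem J_mem_FX {N d : ℕ} (hN : N ≠ 0) (h : d ∣ N) : J L d ∈ FX L N := by
  rw [FX_eq]
  exact J_mem hN h

instance factHasRoots_of_isAlgClosed {L : Type*} [Field L] [IsAlgClosed L] : Fact (HasRoots L) :=
  ⟨hasRoots_of_isAlgClosed L⟩

/-- the degree theorem over a field with enough roots of unity -/
theorem degreeFact_of_hasRoots {L : Type*} [Field L] [CharZero L] [hL : Fact (HasRoots L)] :
    H67.DegreeFact L := fun M _ =>
  (relfinrank_full_of_hasRoots hL.out M (Nat.cast_ne_zero.mpr (NeZero.ne M))).1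

variable [hL : Fact (HasRoots L)] [CharZero L]

variable (m q : ℕ) [NeZero m] [NeZero q]

variable {m q}

/-- generation of `F_{m q^{a+1}}` over `F_{m q^a}` -/
theorem FX_le_of (hq : q.Prime) (hqm : ¬ q ∣ m) (a : ℕ) (F : IntermediateField L (LaurentSeries L))
    (hF : FX L (q ^ a * m) ≤ F) (hJ : J L (q ^ (a + 1)) ∈ F) : FX L (q ^ (a + 1) * m) ≤ F := by
  have : Fact q.Prime := ⟨hq⟩
  rw [FX_eq] at hF ⊢
  exact J_mem_of hL.out F hqm (Nat.cast_ne_zero.mpr (NeZero.ne m))
    (Nat.cast_ne_zero.mpr hq.ne_zero) hF hJ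

/-- The middle embeddings, first version. -/
theorem exists_midEmb_aux (hq : q.Prime) (hqm : ¬ q ∣ m) {v : Lˣ} (hv : IsPrimitiveRoot v q) :
    ∃ σ : FX L (m * q * q) →ₐ[L] LaurentSeries L,
      (∀ x : FX L (m * q), σ (heckeAlphaBar L (m * q) q x) = (x : LaurentSeries L)) ∧
      σ ⟨J L (q * q), J_mem_FX (mul_ne_zero (mul_ne_zero (NeZero.ne m) (NeZero.ne q)) (NeZero.ne q))
        ⟨m, by ring⟩⟩ = tw v (J L 1) := by
  have : Fact q.Prime := ⟨hq⟩
  have hmq : m * q ≠ 0 := mul_ne_zero (NeZero.ne m) (NeZero.ne q)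
  have hmqq : m * q * q ≠ 0 := mul_ne_zero hmq (NeZero.ne q)
  have hle : FX L (m * q) ≤ FX L (m * q * q) := FX_mono hmq hmqq (dvd_mul_right _ _)
  have hx : J L (q * q) ∈ FX L (m * q * q) := J_mem_FX hmqq ⟨m, by ring⟩
  have hmod := modEq_field L q v hv
  obtain ⟨Φ, hmon, hdeg, hΦ⟩ := exists_poly _ hmod.phi
  have hJ1 : J L 1 ∈ FX L (m * q) := J_mem_FX hmq (one_dvd _)
  have hJq : J L q ∈ FX L (m * q) := J_mem_FX hmq (dvd_mul_left _ _)
  have hroot : (phiAt L Φ (J L q)).eval (J L (q * q)) = 0 := eval_root1 hΦ q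
  have hint : IsIntegral (FX L (m * q)) (J L (q * q)) := isIntegral_of_root hmon _ hJq hroot
  have hgen : ∀ F : IntermediateField L (LaurentSeries L), FX L (m * q) ≤ F → J L (q * q) ∈ F →
      FX L (m * q * q) ≤ F := by
    intro F h1 h2
    have h3 := FX_le_of hq hqm 1 F (by rwa [pow_one, mul_comm q m]) (by rwa [← pow_two] at h2)
    rwa [show q ^ (1 + 1) * m = m * q * q by ring] at h3
  have hdegree : (minpoly (FX L (m * q)) (J L (q * q))).natDegree = q := by
    rw [← relfinrank_eq_natDegree hle hx hgen hint, FX_eq, FX_eq,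
      H67.relfinrank_prime degreeFact_of_hasRoots (m * q) q hq, if_pos (dvd_mul_left _ _)]
  have hqq : 1 < q := hq.one_lt
  have hroot2 := root_minpoly hmon hΦ (FX L (m * q)) hJ1 hJq hdegree.ge (some ⟨1, hqq⟩) (by
    intro h
    have := Fin.mk.inj_iff.1 (Option.some.inj h)
    simp at this)
  have hjf : jf L q v (some ⟨1, hqq⟩) = tw v (J L 1) := by
    rw [jf, fam_some, J_one]
    simp
  rw [hjf] at hroot2
  obtain ⟨σ, hσ1, hσ2⟩ := exists_algHom_of_gen hle hx hgen hint _ hroot2
  exact ⟨σ, fun a => hσ1 a, hσ2⟩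

/-- **The middle embedding** attached to a primitive `q`-th root of unity `v`. -/
theorem exists_midEmb (hq : q.Prime) (hqm : ¬ q ∣ m) {v : Lˣ} (hv : IsPrimitiveRoot v q)
    (W : FX L (m * q) →ₐ[L] FX L (m * q))
    (hα : ∀ x, W (heckeAlphaBar L m q x) = heckeBetaBar L m q x)
    (hβ : ∀ x, W (heckeBetaBar L m q x) = heckeAlphaBar L m q x) :
    ∃ σ : FX L (m * q * q) →ₐ[L] LaurentSeries L,
      (∀ x : FX L (m * q), σ (heckeAlphaBar L (m * q) q x) = (x : LaurentSeries L)) ∧
      (∀ x : FX L (m * q), σ (heckeBetaBar L (m * q) q x) = twist v (W x : LaurentSeries L)) := by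
  have : Fact q.Prime := ⟨hq⟩
  obtain ⟨σ, h1, h2⟩ := exists_midEmb_aux hq hqm hv
  refine ⟨σ, h1, ?_⟩
  have hmq : m * q ≠ 0 := mul_ne_zero (NeZero.ne m) (NeZero.ne q)
  have hmqq : m * q * q ≠ 0 := mul_ne_zero hmq (NeZero.ne q)
  -- two homomorphisms on `F_{mq}`
  let φ₁ : FX L (m * q) →ₐ[L] LaurentSeries L := σ.comp (heckeBetaBar L (m * q) q)
  let tv : LaurentSeries L →ₐ[L] LaurentSeries L :=
    { twist v with
      commutes' := fun c => by
        show twist v (algebraMap L (LaurentSeries L) c) = algebraMap L (LaurentSeries L) c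
        rw [algebraMap_laurentSeries_eq_single, twist_single]
        simp }
  let φ₂ : FX L (m * q) →ₐ[L] LaurentSeries L := tv.comp ((FX L (m * q)).val.comp W)
  suffices h : φ₁ = φ₂ by
    intro x
    exact DFunLike.congr_fun h x
  -- the equalizer
  let Q : IntermediateField L (FX L (m * q)) := AlgHom.equalizer φ₁ φ₂ |>.toIntermediateField (by
    intro x hx
    rw [AlgHom.mem_equalizer] at hx ⊢
    rw [map_inv₀, map_inv₀, hx])
  have hQ : ∀ x : FX L (m * q), x ∈ Q ↔ φ₁ x = φ₂ x := fun x => Iff.rfl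
  let F : IntermediateField L (LaurentSeries L) := Q.map (FX L (m * q)).val
  have hF : ∀ x : FX L (m * q), (x : LaurentSeries L) ∈ F ↔ φ₁ x = φ₂ x := by
    intro x
    rw [← hQ]
    constructor
    · rintro ⟨y, hy, hyx⟩
      have : y = x := Subtype.ext hyx
      rwa [← this]
    · intro hx
      exact ⟨x, hx, rfl⟩
  have hFm : FX L (q ^ 0 * m) ≤ F := by
    intro y hy
    rw [pow_zero, one_mul] at hy
    have h3 := (hF (heckeAlphaBar L m q ⟨y, hy⟩)).2 (by
      show σ (heckeBetaBar L (m * q) q (heckeAlphaBar L m q ⟨y, hy⟩)) =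
        twist v ((W (heckeAlphaBar L m q ⟨y, hy⟩) : FX L (m * q)) : LaurentSeries L)
      have e1 : heckeBetaBar L (m * q) q (heckeAlphaBar L m q ⟨y, hy⟩) =
          heckeAlphaBar L (m * q) q (heckeBetaBar L m q ⟨y, hy⟩) := by
        apply Subtype.ext
        rw [coe_heckeBetaBar, coe_heckeAlphaBar, coe_heckeAlphaBar, coe_heckeBetaBar]
      rw [e1, h1, hα, coe_heckeBetaBar, twist_qExpand_of_pow_eq_one hv.pow_eq_one])
    rwa [coe_heckeAlphaBar] at h3
  have hJF : J L (q ^ (0 + 1)) ∈ F := by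
    rw [zero_add, pow_one]
    have hJq : J L q ∈ FX L (m * q) := J_mem_FX hmq (dvd_mul_left _ _)
    refine (hF ⟨J L q, hJq⟩).2 ?_
    show σ (heckeBetaBar L (m * q) q ⟨J L q, hJq⟩) =
        twist v ((W ⟨J L q, hJq⟩ : FX L (m * q)) : LaurentSeries L)
    have hJ1m : J L 1 ∈ FX L m := J_mem_FX (NeZero.ne m) (one_dvd _)
    have e1 : (⟨J L q, hJq⟩ : FX L (m * q)) = heckeBetaBar L m q ⟨J L 1, hJ1m⟩ := by
      apply Subtype.ext
      rw [coe_heckeBetaBar, qExpand_J, mul_one]
    have e2 : heckeBetaBar L (m * q) q ⟨J L q, hJq⟩ = ⟨J L (q * q), J_mem_FX hmqq ⟨m, by ring⟩⟩ := by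
      apply Subtype.ext
      rw [coe_heckeBetaBar, qExpand_J]
    rw [e2, h2, e1, hβ, coe_heckeAlphaBar, tw_eq_twist]
  have hall : FX L (m * q) ≤ F := by
    have := FX_le_of hq hqm 0 F hFm hJF
    rwa [zero_add, pow_one, mul_comm q m] at this
  exact AlgHom.ext fun x => (hF x).1 (hall x.2)

end MidEmb

end Fermat.Agent.H99
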