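import Fermat.Agent.H99Gauss
import Fermat.Agent.H99Emb1

/-!
# Valuation rings of function fields from embeddings in `K((t))`
-/

set_option autoImplicit false
set_option linter.unusedSectionVars false

noncomputable section

open ModularCurve Fermat.Agent.H42 Fermat.Agent.H60 Fermat.Agent.H66

namespace Fermat.Agent.H99

section Functor

variable {K : Type*} [Field K] {A : ValuationSubring K} {k : Type*} [Field k] {π : A →+* k}
variable {K' : Type*} [Field K'] {A' : ValuationSubring K'} {k' : Type*} [Field k'] {π' : A' →+* k'}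

/-- a homomorphism `K((t)) → K'((t))` compatible with the integral structures and reductions -/
structure SeriesHom (A : ValuationSubring K) (π : A →+* k) (A' : ValuationSubring K')
    (π' : A' →+* k') where
  /-- generic -/
  g : LaurentSeries K →+* LaurentSeries K'
  /-- integral -/
  gA : LaurentSeries A →+* LaurentSeries A'
  /-- special -/
  gk : LaurentSeries k →+* LaurentSeries k'
  comm : ∀ y, g (coeffMap A.subtype y) = coeffMap A'.subtype (gA y)
  comm' : ∀ y, gk (coeffMap π y) = coeffMap π' (gA y)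

theorem SeriesHom.mem (G : SeriesHom A π A' π') {x : LaurentSeries K} (hx : x ∈ GR A π) :
    G.g x ∈ GR A' π' := by
  obtain ⟨y, z, hz, h⟩ := gr_mem_iff.1 hx
  refine gr_mem_iff.2 ⟨G.gA y, G.gA z, ?_, ?_⟩
  · rw [← G.comm', ne_eq, map_eq_zero]
    exact hz
  · rw [← G.comm, ← G.comm, ← h, map_mul]

theorem SeriesHom.gres (G : SeriesHom A π A' π') {x : LaurentSeries K} (hx : x ∈ GR A π) :
    gres A' π' (G.g x) = G.gk (gres A π x) := by
  obtain ⟨y, z, hz, h⟩ := gr_mem_iff.1 hx
  have h1 := gres_mul_eq hz h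
  have h2 : G.g x * coeffMap A'.subtype (G.gA z) = coeffMap A'.subtype (G.gA y) := by
    rw [← G.comm, ← G.comm, ← h, map_mul]
  have h3 : coeffMap π' (G.gA z) ≠ 0 := by
    rw [← G.comm', ne_eq, map_eq_zero]
    exact hz
  have h4 := gres_mul_eq h3 h2
  apply mul_right_cancel₀ h3
  rw [h4, ← G.comm', ← h1, map_mul, ← G.comm']

/-- `t ↦ t^d` -/
def SeriesHom.expand (A : ValuationSubring K) (π : A →+* k) (d : ℕ) [NeZero d] :
    SeriesHom A π A π where
  g := qExpand K d
  gA := qExpand A d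
  gk := qExpand k d
  comm _ := (coeffMap_qExpand_H60 _ _ _).symm
  comm' _ := (coeffMap_qExpand_H60 _ _ _).symm

theorem expand_mem (d : ℕ) [NeZero d] {x : LaurentSeries K} (hx : x ∈ GR A π) :
    qExpand K d x ∈ GR A π := (SeriesHom.expand A π d).mem hx

theorem gres_expand (d : ℕ) [NeZero d] {x : LaurentSeries K} (hx : x ∈ GR A π) :
    Fermat.Agent.H99.gres A π (qExpand K d x) = qExpand k d (Fermat.Agent.H99.gres A π x) :=
  (SeriesHom.expand A π d).gres hx

/-- `t ↦ u t`, `u ≡ 1` -/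
def SeriesHom.twist (A : ValuationSubring K) (π : A →+* k) (u : Aˣ) (hu : π u = 1) :
    SeriesHom A π A π where
  g := H60.twist (Units.map (A.subtype : A →* K) u)
  gA := H60.twist u
  gk := RingHom.id _
  comm y := (coeffMap_twist A.subtype u y).symm
  comm' y := by
    have h1 : Units.map (π : A →* k) u = 1 := Units.ext hu
    rw [coeffMap_twist π u y, h1, twist_one, RingHom.id_apply]

theorem twist_mem (u : Aˣ) (hu : π u = 1) {v : Kˣ} (hv : (v : K) = u) {x : LaurentSeries K}
    (hx : x ∈ GR A π) : H60.twist v x ∈ GR A π := by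
  have : v = Units.map (A.subtype : A →* K) u := Units.ext hv
  rw [this]
  exact (SeriesHom.twist A π u hu).mem hx

theorem gres_twist (u : Aˣ) (hu : π u = 1) {v : Kˣ} (hv : (v : K) = u) {x : LaurentSeries K}
    (hx : x ∈ GR A π) : gres A π (H60.twist v x) = gres A π x := by
  have : v = Units.map (A.subtype : A →* K) u := Units.ext hv
  rw [this]
  exact (SeriesHom.twist A π u hu).gres hx

/-- coefficient extension -/
def SeriesHom.coeff (f : K →+* K') (fA : A →+* A') (fk : k →+* k')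
    (h : ∀ a : A, f a = fA a) (h' : ∀ a : A, fk (π a) = π' (fA a)) :
    SeriesHom A π A' π' where
  g := coeffMap f
  gA := coeffMap fA
  gk := coeffMap fk
  comm y := by
    ext n
    simp only [coeffMap_coeff]
    exact h _
  comm' y := by
    ext n
    simp only [coeffMap_coeff]
    exact h' _

end Functor

section Int

variable {K : Type*} [Field K] {A : ValuationSubring K} {k : Type*} [Field k] {π : A →+* k}

theorem coeffMap_int_eq (R : Type*) [CommRing R] {S : Type*} [CommRing S] (f : R →+* S)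
    (y : LaurentSeries ℤ) : coeffMap f (coeffMap (Int.castRingHom R) y) =
      coeffMap (Int.castRingHom S) y := by
  ext n
  simp only [coeffMap_coeff, eq_intCast, map_intCast]

theorem intSeries_mem (y : LaurentSeries ℤ) : coeffMap (Int.castRingHom K) y ∈ GR A π := by
  rw [← coeffMap_int_eq A A.subtype]
  exact int_mem _

theorem gres_intSeries (y : LaurentSeries ℤ) :
    gres A π (coeffMap (Int.castRingHom K) y) = coeffMap (Int.castRingHom k) y := by
  rw [← coeffMap_int_eq A A.subtype, gres_int, coeffMap_int_eq]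

theorem J_eq_intSeries (R : Type*) [Field R] (d : ℕ) :
    ∃ y : LaurentSeries ℤ, ∀ (R : Type*) [Field R], J R d = coeffMap (Int.castRingHom R) y := by
  by_cases hd : d = 0
  · exact ⟨0, fun R _ => by rw [J, dif_pos hd, map_zero]⟩
  · have : NeZero d := ⟨hd⟩
    refine ⟨qExpand ℤ d (jqModC ℤ), fun R _ => ?_⟩
    rw [J_eq, coeffMap_qExpand_H60, coeffMap_jqModC]

theorem J_mem_GR (d : ℕ) : J K d ∈ GR A π := by
  obtain ⟨y, hy⟩ := J_eq_intSeries K d
  rw [hy K]
  exact intSeries_mem y

theorem gres_J (d : ℕ) : gres A π (J K d) = J k d := by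
  by_cases hd : d = 0
  · rw [J, dif_pos hd, J, dif_pos hd, gres_zero]
  · have : NeZero d := ⟨hd⟩
    rw [J_eq, J_eq, ← coeffMap_jqModC (Int.castRingHom K), gres_expand d (intSeries_mem _),
      gres_intSeries, coeffMap_jqModC]

end Int

section Bdd

variable {K : Type*} [Field K] (A : ValuationSubring K) {k : Type*} [Field k] {π : A →+* k}

theorem const_mem_bddRing (c : K) : algebraMap K (LaurentSeries K) c ∈ bddRing A := by
  by_cases hc : c = 0
  · rw [hc, map_zero]
    exact zero_mem _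
  · refine ⟨c⁻¹, 1, inv_ne_zero hc, ?_⟩
    rw [← map_mul, inv_mul_cancel₀ hc, map_one, map_one]

theorem int_mem_bddRing (y : LaurentSeries A) : coeffMap A.subtype y ∈ bddRing A :=
  ⟨1, y, one_ne_zero, by rw [map_one, one_mul]⟩

/-- The field of quotients of series with bounded denominators. -/
def Bdd : IntermediateField K (LaurentSeries K) :=
  (Subfield.closure (bddRing A : Set (LaurentSeries K))).toIntermediateField
    (fun c => Subfield.subset_closure (const_mem_bddRing A c))

theorem mem_Bdd_iff {x : LaurentSeries K} :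
    x ∈ Bdd A ↔ ∃ y ∈ bddRing A, ∃ z ∈ bddRing A, x = y / z := by
  have h1 : x ∈ Bdd A ↔ x ∈ Subfield.closure (bddRing A : Set (LaurentSeries K)) := Iff.rfl
  rw [h1, Subfield.mem_closure_iff]
  simp only [Subring.closure_eq]
  constructor
  · rintro ⟨y, hy, z, hz, h⟩
    exact ⟨y, hy, z, hz, h.symm⟩
  · rintro ⟨y, hy, z, hz, h⟩
    exact ⟨y, hy, z, hz, h.symm⟩

theorem mem_Bdd_of_mem {x : LaurentSeries K} (hx : x ∈ bddRing A) : x ∈ Bdd A :=
  Subfield.subset_closure hx

theorem J_mem_Bdd (d : ℕ) : J K d ∈ Bdd A := by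
  obtain ⟨y, hy⟩ := J_eq_intSeries K d
  rw [hy K, ← coeffMap_int_eq A A.subtype]
  exact mem_Bdd_of_mem A (int_mem_bddRing A _)

theorem FX_le_Bdd [Algebra ℚ K] (N : ℕ) (hN : N ≠ 0) : FX K N ≤ Bdd A := by
  rw [FX_eq, full_le_iff hN]
  intro d _
  exact J_mem_Bdd A d

/-- a homomorphism compatible with integral structures maps bounded series to bounded series -/
theorem bddRing_twist {v : Kˣ} (u : Aˣ) (hv : (v : K) = u) {x : LaurentSeries K}
    (hx : x ∈ bddRing A) : H60.twist v x ∈ bddRing A := by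
  obtain ⟨c, y, hc, h⟩ := hx
  refine ⟨c, H60.twist u y, hc, ?_⟩
  have h1 : v = Units.map (A.subtype : A →* K) u := Units.ext hv
  have h2 : coeffMap A.subtype (H60.twist u y) = H60.twist v (coeffMap A.subtype y) := by
    rw [coeffMap_twist, h1]
  rw [h2, ← h, map_mul]
  congr 1
  rw [algebraMap_laurentSeries_eq_single, twist_single]
  simp

theorem Bdd_twist {v : Kˣ} (u : Aˣ) (hv : (v : K) = u) {x : LaurentSeries K}
    (hx : x ∈ Bdd A) : H60.twist v x ∈ Bdd A := by
  rw [mem_Bdd_iff] at hx ⊢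
  obtain ⟨y, hy, z, hz, rfl⟩ := hx
  exact ⟨_, bddRing_twist A u hv hy, _, bddRing_twist A u hv hz, map_div₀ _ _ _⟩

theorem bddRing_expand (d : ℕ) [NeZero d] {x : LaurentSeries K}
    (hx : x ∈ bddRing A) : qExpand K d x ∈ bddRing A := by
  obtain ⟨c, y, hc, h⟩ := hx
  refine ⟨c, qExpand A d y, hc, ?_⟩
  rw [coeffMap_qExpand_H60, ← h, map_mul]
  congr 1
  rw [algebraMap_laurentSeries_eq_single, qExpand_single, mul_zero]

theorem Bdd_expand (d : ℕ) [NeZero d] {x : LaurentSeries K}
    (hx : x ∈ Bdd A) : qExpand K d x ∈ Bdd A := by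
  rw [mem_Bdd_iff] at hx ⊢
  obtain ⟨y, hy, z, hz, rfl⟩ := hx
  exact ⟨_, bddRing_expand A d hy, _, bddRing_expand A d hz, map_div₀ _ _ _⟩

variable {A} {ϖ : A} (hϖ : Unif A π ϖ)

include hϖ

theorem exists_eq_of_mem_Bdd {x : LaurentSeries K} (hx : x ∈ Bdd A) (hx0 : x ≠ 0) :
    ∃ (n : ℤ) (y z : LaurentSeries A), coeffMap π y ≠ 0 ∧ coeffMap π z ≠ 0 ∧
      x * coeffMap A.subtype z =
        algebraMap K (LaurentSeries K) ((ϖ : K) ^ n) * coeffMap A.subtype y := by
  have hϖ0 : (ϖ : K) ≠ 0 := fun h => hϖ.ne_zero (Subtype.ext h)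
  obtain ⟨y, hy, z, hz, rfl⟩ := (mem_Bdd_iff A).1 hx
  have hy0 : y ≠ 0 := by
    rintro rfl
    exact hx0 (zero_div _)
  have hz0 : z ≠ 0 := by
    rintro rfl
    exact hx0 (div_zero _)
  obtain ⟨n, y', hy', hey⟩ := exists_content hϖ hy hy0
  obtain ⟨m, z', hz', hez⟩ := exists_content hϖ hz hz0
  refine ⟨n - m, y', z', hy', hz', ?_⟩
  have h1 : algebraMap K (LaurentSeries K) ((ϖ : K) ^ m) ≠ 0 := by
    rw [ne_eq, map_eq_zero]
    exact zpow_ne_zero _ hϖ0
  have h2 : coeffMap A.subtype z' ≠ 0 := by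
    intro h
    rw [h, mul_zero] at hez
    exact hz0 hez
  rw [hey, hez, zpow_sub₀ hϖ0, map_div₀]
  field_simp

/-- On `Bdd` the Gauss ring is a valuation ring. -/
theorem mem_or_inv {x : LaurentSeries K} (hx : x ∈ Bdd A) :
    x ∈ GR A π ∨ (x⁻¹ ∈ GR A π ∧ gres A π x⁻¹ = 0) := by
  by_cases hx0 : x = 0
  · rw [hx0]
    exact Or.inl (zero_mem _)
  obtain ⟨n, y, z, hy, hz, h⟩ := exists_eq_of_mem_Bdd hϖ hx hx0
  rcases le_or_gt 0 n with hn | hn
  · left
    lift n to ℕ using hn
    refine gr_mem_iff.2 ⟨HahnSeries.single 0 (ϖ ^ n) * y, z, hz, ?_⟩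
    rw [h, map_mul, coeffMap_single_eq]
    norm_num
  · right
    obtain ⟨m, rfl⟩ : ∃ m : ℕ, n = -(m + 1 : ℕ) := ⟨(-n - 1).toNat, by omega⟩
    have hϖ0 : (ϖ : K) ≠ 0 := fun h => hϖ.ne_zero (Subtype.ext h)
    have hc0 : algebraMap K (LaurentSeries K) ((ϖ : K) ^ (m + 1)) ≠ 0 := by
      rw [ne_eq, map_eq_zero]
      exact pow_ne_zero _ hϖ0
    have h1 : x⁻¹ * coeffMap A.subtype y =
        coeffMap A.subtype (HahnSeries.single 0 (ϖ ^ (m + 1)) * z) := by
      rw [map_mul, coeffMap_single_eq, inv_mul_eq_iff_eq_mul₀ hx0, mul_left_comm, h, zpow_neg,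
        map_inv₀, zpow_natCast, SubmonoidClass.coe_pow, mul_inv_cancel_left₀ hc0]
    refine ⟨gr_mem_iff.2 ⟨_, y, hy, h1⟩, ?_⟩
    rw [gres_eq_div hy h1, map_mul, coeffMap_single, map_pow, hϖ.map,
      zero_pow (Nat.succ_ne_zero m), HahnSeries.single_eq_zero, zero_mul, zero_div]

/-- comparison of Gauss rings under a compatible homomorphism -/
theorem SeriesHom.mem_iff {K' : Type*} [Field K'] {A' : ValuationSubring K'} {k' : Type*}
    [Field k'] {π' : A' →+* k'} (G : SeriesHom A π A' π') {x : LaurentSeries K} (hx : x ∈ Bdd A) :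
    G.g x ∈ GR A' π' ↔ x ∈ GR A π := by
  refine ⟨fun h => ?_, fun h => G.mem h⟩
  rcases mem_or_inv hϖ hx with h1 | ⟨h1, h2⟩
  · exact h1
  · by_cases hx0 : x = 0
    · rw [hx0]
      exact zero_mem _
    exfalso
    have h3 := G.gres h1
    rw [h2, map_zero] at h3
    have h4 := gres_mul h (G.mem h1)
    rw [← map_mul, mul_inv_cancel₀ hx0, map_one, gres_one, h3, mul_zero] at h4
    exact one_ne_zero h4

end Bdd

section Val

variable {K : Type*} [Field K] {A : ValuationSubring K} {k : Type*} [Field k] {π : A →+* k}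
  {ϖ : A} (hϖ : Unif A π ϖ)
variable {F : Type*} [Field F] (e : F →+* LaurentSeries K) (he : ∀ x, e x ∈ Bdd A)

include hϖ in
/-- the Gauss valuation ring of a field embedded in `K((t))` -/
def gV : ValuationSubring F where
  __ := (GR A π).comap e
  mem_or_inv_mem' x := by
    rcases mem_or_inv hϖ (he x) with h | h
    · exact Or.inl h
    · right
      show e x⁻¹ ∈ GR A π
      rw [map_inv₀]
      exact h.1

@[simp] theorem mem_gV {x : F} : x ∈ gV hϖ e he ↔ e x ∈ GR A π := Iff.rfl

/-- the residue map -/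
def gρ : gV hϖ e he →+* LaurentSeries k where
  toFun x := gres A π (e x)
  map_one' := by
    show gres A π (e 1) = 1
    rw [map_one, gres_one]
  map_zero' := by
    show gres A π (e 0) = 0
    rw [map_zero, gres_zero]
  map_add' x y := by
    show gres A π (e (x + y)) = _
    rw [map_add, gres_add x.2 y.2]
  map_mul' x y := by
    show gres A π (e (x * y)) = _
    rw [map_mul, gres_mul x.2 y.2]

@[simp] theorem gρ_apply (x : gV hϖ e he) : gρ hϖ e he x = gres A π (e x) := rfl

theorem gρ_unit (x : gV hϖ e he) (h : gρ hϖ e he x ≠ 0) : IsUnit x := by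
  have hx0 : (x : F) ≠ 0 := by
    intro h0
    apply h
    rw [gρ_apply, h0, map_zero, gres_zero]
  refine IsUnit.of_mul_eq_one ⟨(x : F)⁻¹, ?_⟩ (Subtype.ext (mul_inv_cancel₀ hx0))
  rw [mem_gV, map_inv₀]
  exact inv_mem_gr h

include hϖ in
theorem pow_div_mem {n : ℕ} {c : F} (hc : ∃ u : A, algebraMap K (LaurentSeries K) ((ϖ : K) ^ n) =
    e c * algebraMap K (LaurentSeries K) u) {x : F} (hx : e x ∈ GR A π) (h0 : gres A π (e x) = 0) :
    e (x ^ n / c) ∈ GR A π := by
  obtain ⟨u, hu⟩ := hc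
  have h1 := div_mem_of_gres_eq_zero hϖ hx h0
  have hϖ0 : algebraMap K (LaurentSeries K) (ϖ : K) ≠ 0 := by
    rw [ne_eq, map_eq_zero]
    exact fun h => hϖ.ne_zero (Subtype.ext h)
  have hc0 : e c ≠ 0 := by
    intro h
    rw [h, zero_mul, map_eq_zero] at hu
    exact pow_ne_zero n (fun h => hϖ.ne_zero (Subtype.ext h)) hu
  have h2 : e (x ^ n / c) =
      (e x / algebraMap K (LaurentSeries K) ϖ) ^ n * algebraMap K (LaurentSeries K) u := by
    rw [map_div₀, map_pow, div_pow, ← map_pow (algebraMap K (LaurentSeries K)), hu]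
    have hu0 : algebraMap K (LaurentSeries K) (u : K) ≠ 0 := by
      intro h
      rw [h, mul_zero, map_eq_zero] at hu
      exact pow_ne_zero n (fun h => hϖ.ne_zero (Subtype.ext h)) hu
    field_simp
  rw [h2]
  exact mul_mem (pow_mem h1 n) (const_mem u)

end Val

end Fermat.Agent.H99

end
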