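import Fermat.Agent.H68Int
import Fermat.Agent.H68Deriv
import Fermat.Agent.H99Gauss2
import Fermat.Agent.H99Emb3
import Fermat.Agent.H83Def
import Fermat.Agent.H18ResData
import Fermat.Agent.H84Int

/-!
# CARAYOL C3: the chart ring and the two components at level `m q`

`FX K N` the function field of `X_0(N)` over `K`, `hor K N` the integral closure of `K[j]`,
`emb w i : FX K (m q) → K((t))` the two embeddings (`q`-expansion at `∞`, and its composite with
`w_q`); `twoSys` the resulting `CompSys`.
-/

set_option autoImplicit false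
set_option linter.unusedSectionVars false

noncomputable section

open Polynomial ModularCurve Fermat.Agent.H99 Fermat.Agent.H66

namespace Fermat.Agent.H68

section Closed

theorem isIntegral_of_isIntegral_closure {R F : Type*} [CommRing R] [CommRing F] [Algebra R F]
    (x : F) (hx : IsIntegral (integralClosure R F).toSubring x) : IsIntegral R x := by
  obtain ⟨p, hp, h⟩ := hx
  let g : (integralClosure R F).toSubring →+* integralClosure R F :=
    { toFun := fun y => ⟨y, y.2⟩
      map_one' := rfl
      map_mul' := fun _ _ => rfl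
      map_zero' := rfl
      map_add' := fun _ _ => rfl }
  refine isIntegral_trans (A := integralClosure R F) x ⟨p.map g, hp.map g, ?_⟩
  rw [eval₂_map]
  exact h

end Closed

section Hor

variable (K : Type*) [Field K] [Algebra ℚ K] (N : ℕ) [NeZero N]

variable {N} in
/-- `j(d z)` as a function of level `N` -/
def JF (d : ℕ) (h : d ∣ N) : FX K N := ⟨J K d, J_mem_FX (NeZero.ne N) h⟩

variable {N} in
@[simp] theorem coe_JF (d : ℕ) (h : d ∣ N) : (JF K d h : LaurentSeries K) = J K d := rfl

/-- `j` as a function of level `N` -/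
def jF : FX K N := JF K 1 (one_dvd N)

@[simp] theorem coe_jF : (jF K N : LaurentSeries K) = jqModC K := J_one K

/-- the ring of functions of level `N` regular outside the cusps: the integral closure of
`K[j]` -/
def hor : Subring (FX K N) := (integralClosure (Algebra.adjoin K {jF K N}) (FX K N)).toSubring

variable {K N}

theorem mem_hor' {x : FX K N} : x ∈ hor K N ↔ IsIntegral (Algebra.adjoin K {jF K N}) x := Iff.rfl

theorem mem_hor {x : FX K N} :
    x ∈ hor K N ↔ IsIntegral (Algebra.adjoin K {jqModC K}) (x : LaurentSeries K) := by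
  rw [mem_hor', ← H18.isIntegral_adjoin_iff (FX K N).val (jF K N) x]
  have h1 : (FX K N).val (jF K N) = jqModC K := coe_jF K N
  rw [h1]
  rfl

theorem hor_closed (x : FX K N) (hx : IsIntegral (hor K N) x) : x ∈ hor K N :=
  isIntegral_of_isIntegral_closure x hx

theorem algebraMap_mem_hor (c : K) : algebraMap K (FX K N) c ∈ hor K N := by
  rw [mem_hor']
  exact isIntegral_algebraMap (x := algebraMap K (Algebra.adjoin K {jF K N}) c)

theorem jF_mem_hor : jF K N ∈ hor K N :=
  isIntegral_algebraMap (x := (⟨jF K N, Algebra.self_mem_adjoin_singleton K _⟩ :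
    Algebra.adjoin K {jF K N}))

theorem JF_mem_hor [CharZero K] (d : ℕ) (h : d ∣ N) : JF K d h ∈ hor K N := by
  rw [mem_hor]
  refine (isIntegral_J K d ?_).1
  rintro rfl
  exact NeZero.ne N (Nat.eq_zero_of_zero_dvd h)

/-- A homomorphism with `φ j ∈ hor` preserves `hor`. -/
theorem map_mem_hor {M : ℕ} [NeZero M] (φ : FX K N →ₐ[K] FX K M) (hφ : φ (jF K N) ∈ hor K M)
    {x : FX K N} (hx : x ∈ hor K N) : φ x ∈ hor K M := by
  rw [mem_hor'] at hx hφ ⊢
  exact isIntegral_adjoin_trans
    (isIntegral_adjoin_map (RingHom.id K) (φ : FX K N →+* FX K M) (fun c => φ.commutes c) hx) hφ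

end Hor

section Series

variable {K : Type*} [Field K] {A : ValuationSubring K} {k : Type*} [Field k] {π : A →+* k}

/-- `j(q z)` reduces to `j̄^q` -/
theorem J_prime_eq_pow (k : Type*) [Field k] (q : ℕ) [Fact q.Prime] [CharP k q] :
    J k q = jqModC k ^ q := by
  have : NeZero q := ⟨(Fact.out : q.Prime).ne_zero⟩
  rw [H60.laurent_pow_char q, coeffMap_jqModC, J_eq]

end Series

section Two

variable {K : Type*} [Field K] [Algebra ℚ K] {m q : ℕ} [NeZero m] [NeZero q]
variable {A : ValuationSubring K} {k : Type*} [Field k] {π : A →+* k}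

/-- the two embeddings of the function field of level `m q` in the Laurent series -/
def emb (w : AL K m q) : Fin 2 → (FX K (m * q) →+* LaurentSeries K)
  | 0 => (FX K (m * q)).val
  | 1 => ((FX K (m * q)).val : FX K (m * q) →+* LaurentSeries K).comp (w.W : FX K (m * q) →+* _)

@[simp] theorem emb_zero (w : AL K m q) (x : FX K (m * q)) : emb w 0 x = (x : LaurentSeries K) :=
  rfl

@[simp] theorem emb_one (w : AL K m q) (x : FX K (m * q)) :
    emb w 1 x = (w.W x : LaurentSeries K) := rfl

theorem emb_algebraMap (w : AL K m q) (i : Fin 2) (c : K) :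
    emb w i (algebraMap K (FX K (m * q)) c) = algebraMap K (LaurentSeries K) c := by
  fin_cases i
  · rfl
  · show ((w.W (algebraMap K _ c) : FX K (m * q)) : LaurentSeries K) = _
    rw [AlgEquiv.commutes]
    rfl

variable (A) in
theorem emb_mem (w : AL K m q) (i : Fin 2) (x : FX K (m * q)) : emb w i x ∈ Bdd A := by
  have h : ∀ y : FX K (m * q), (y : LaurentSeries K) ∈ Bdd A := fun y =>
    FX_le_Bdd A (m * q) (NeZero.ne _) y.2
  fin_cases i
  · exact h x
  · exact h (w.W x)

variable (w : AL K m q) (hϖ : Unif A π (q : A))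

theorem emb_div_q (i : Fin 2) (x : FX K (m * q)) :
    emb w i (x / (q : FX K (m * q))) = emb w i x / algebraMap K (LaurentSeries K) ((q : A) : K) := by
  rw [map_div₀, map_natCast]
  congr 1
  simp

/-- The system of the two components. -/
def twoSys [CharZero K] [CharP k q] : H83.CompSys (FX K (m * q)) (LaurentSeries k) q (Fin 2) where
  hor := hor K (m * q)
  hor_closed := hor_closed
  V i := gV hϖ (emb w i) (emb_mem A w i)
  ρ i := gρ hϖ (emb w i) (emb_mem A w i)
  ρ_unit i x h := gρ_unit hϖ (emb w i) (emb_mem A w i) x h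
  q_ne := by
    have : CharZero (FX K (m * q)) :=
      charZero_of_injective_algebraMap (algebraMap K (FX K (m * q))).injective
    exact Nat.cast_ne_zero.mpr (NeZero.ne q)
  qinv_mem := by
    have h := algebraMap_mem_hor (K := K) (N := m * q) ((q : K)⁻¹)
    rwa [map_inv₀, map_natCast] at h
  ρ_q i := by
    rw [map_natCast]
    have : (q : k) = 0 := CharP.cast_eq_zero k q
    have h2 : ((q : k) : k) = 0 := this
    rw [← map_natCast (algebraMap k (LaurentSeries k)), h2, map_zero]
  e _ := 1
  pow_div i x hx := by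
    rw [pow_one, mem_gV, emb_div_q (A := A)]
    exact div_mem_of_gres_eq_zero hϖ x.2 hx

variable [CharZero K] [CharP k q]

theorem mem_twoSys_V {i : Fin 2} {x : FX K (m * q)} :
    x ∈ (twoSys (k := k) w hϖ).V i ↔ emb w i x ∈ GR A π := Iff.rfl

theorem twoSys_res (i : Fin 2) (x : FX K (m * q)) :
    (twoSys (k := k) w hϖ).res i x = gres A π (emb w i x) := by
  by_cases h : x ∈ (twoSys (k := k) w hϖ).V i
  · rw [H83.CompSys.res_of_mem _ h]
    rfl
  · rw [H83.CompSys.res, dif_neg h]
    by_contra hne
    exact h (mem_of_gres_ne_zero (Ne.symm hne))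

theorem twoSys_r (i : Fin 2) (b : (twoSys (k := k) w hϖ).B) :
    (twoSys (k := k) w hϖ).r i b = gres A π (emb w i b) := rfl

/-- the two components, in the form of helper84 -/
def comp (i : Fin 2) : H84.Comp A π (FX K (m * q)) (LaurentSeries k) where
  V := (twoSys (k := k) w hϖ).V i
  ρ := (twoSys (k := k) w hϖ).ρ i
  loc := (twoSys (k := k) w hϖ).ρ_unit i
  mem a := by
    rw [mem_twoSys_V, emb_algebraMap]
    exact const_mem a
  ρ_mem a := by
    show gres A π (emb w i _) = _
    rw [emb_algebraMap]
    exact gres_const a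

theorem comp_red (i : Fin 2) (x : FX K (m * q)) :
    (comp (k := k) w hϖ i).red x = gres A π (emb w i x) := by
  by_cases h : x ∈ (comp (k := k) w hϖ i).V
  · rw [H84.Comp.red_of_mem _ h]
    rfl
  · rw [H84.Comp.red_of_notMem _ h]
    by_contra hne
    exact h (mem_of_gres_ne_zero (Ne.symm hne))

end Two

end Fermat.Agent.H68
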