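import Fermat.Agent.H36ConnB
import Fermat.Agent.H68TwoBase
import Fermat.Agent.H1QPlace

/-!
# The rational point at the cusp infinity
-/

set_option autoImplicit false
set_option linter.unusedSectionVars false

noncomputable section

open AlgebraicCurve ModularCurve

namespace Fermat.Agent.H36

/-- `1/j` as a power series. -/
def invJ (K : Type*) [Field K] : PowerSeries K :=
  PowerSeries.X * ((jqModC K)⁻¹).powerSeriesPart

theorem order_jqModC_inv (K : Type*) [Field K] : ((jqModC K)⁻¹).order = 1 := by
  rw [H1.order_inv_laurent]
  have h1 : (jqModC K).order = -1 := by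
    have hc : (jqModC K).coeff (-1) ≠ 0 := by
      have := ModularCurve.coeff_jqModC_pow_self (K := K) 1
      rw [pow_one, Nat.cast_one] at this
      rw [this]
      exact one_ne_zero
    apply le_antisymm
    · exact HahnSeries.order_le_of_coeff_ne_zero hc
    · by_contra hlt
      push Not at hlt
      have h2 := ModularCurve.coeff_jqModC_of_lt (R := K) hlt
      rw [HahnSeries.coeff_order_eq_zero] at h2
      exact hc (by rw [h2]; rfl)
  rw [h1]
  norm_num

theorem coe_invJ (K : Type*) [Field K] : ((invJ K : PowerSeries K) : LaurentSeries K) =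
    (jqModC K)⁻¹ := by
  rw [invJ, PowerSeries.coe_mul, PowerSeries.coe_X]
  have := ((jqModC K)⁻¹).single_order_mul_powerSeriesPart
  rw [order_jqModC_inv] at this
  exact this

/-- The cusp `∞` as a rational point of `X_0(N)` over `K`. -/
def ratPointJ (K : Type*) [Field K] [Algebra ℚ K] (N : ℕ) [NeZero N] :
    RatPoint K (H68.jF K N)⁻¹ where
  e := (Fermat.Agent.H99.FX K N).val.toRingHom
  he := fun c => by
    change algebraMap K (LaurentSeries K) c = _
    rw [algebraMap_laurentSeries_eq_single]
    rfl
  P := invJ K
  hP := by
    rw [coe_invJ, ← H68.coe_jF K N]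
    rfl
  hP0 := by simp [invJ]
  hP1 := by
    have h0 : (jqModC K)⁻¹ ≠ 0 := by
      intro h
      have := order_jqModC_inv K
      rw [h, HahnSeries.order_zero] at this
      exact zero_ne_one this
    have h1 : PowerSeries.coeff 1 (invJ K) = ((jqModC K)⁻¹).coeff 1 := by
      rw [← coe_invJ]
      have := PowerSeries.coeff_coe (invJ K) 1
      simpa using this.symm
    rw [h1]
    have h2 := HahnSeries.coeff_order_eq_zero.not.mpr h0
    rwa [order_jqModC_inv] at h2

end Fermat.Agent.H36
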