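import Mathlib
import Fermat.Agent.H40Deuring

/-!
# Gaussian elimination over a valuation ring (helper37)
-/

set_option autoImplicit false

noncomputable section

open Polynomial

namespace Fermat.Agent.H37

variable {K : Type*} [Field K] (A : ValuationSubring K) {k : Type*} [Field k] (π : A →+* k)

/-! ### Gaussian elimination over a valuation ring -/

section Elim

variable {A}

/-- Scaling of a finite family of elements, not all zero. -/
theorem exists_scale {ι : Type*} (s : Finset ι) (a : ι → K) (h : ∃ i ∈ s, a i ≠ 0) :
    ∃ c : K, c ≠ 0 ∧ (∀ i ∈ s, c * a i ∈ A) ∧ ∃ i ∈ s, c * a i = 1 := by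
  obtain ⟨i0, hi0, hai0⟩ := h
  obtain ⟨j, hjs, hj⟩ := Finset.exists_max_image s (fun i => A.valuation (a i)) ⟨i0, hi0⟩
  have haj : a j ≠ 0 := by
    intro h0
    have h1 := hj i0 hi0
    rw [h0, map_zero, le_zero_iff, Valuation.zero_iff] at h1
    exact hai0 h1
  refine ⟨(a j)⁻¹, inv_ne_zero haj, fun i hi => ?_, j, hjs, inv_mul_cancel₀ haj⟩
  rw [← A.valuation_le_one_iff, map_mul, map_inv₀, mul_comm, ← div_eq_mul_inv]
  exact div_le_one_of_le₀ (hj i hi) zero_le

theorem exists_good_basis {ι : Type*} [Finite ι] (V : Submodule K (ι → K)) :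
    ∃ (n : ℕ) (b : Fin n → ι → A),
      Submodule.span K (Set.range fun i => fun t => (b i t : K)) = V ∧
        LinearIndependent k (fun i => fun t => π (b i t)) := by
  classical
  cases nonempty_fintype ι
  induction hd : Module.finrank K V using Nat.strong_induction_on generalizing V with
  | _ d ih =>
    rcases eq_or_ne V ⊥ with rfl | hV
    · exact ⟨0, Fin.elim0, by simp, linearIndependent_empty_type⟩
    · obtain ⟨v, hvV, hv0⟩ := Submodule.exists_mem_ne_zero_of_ne_bot hV
      obtain ⟨t0, ht0⟩ := Function.ne_iff.mp hv0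
      obtain ⟨c, hc0, hcA, j, -, hj⟩ := exists_scale (A := A) Finset.univ v ⟨t0, Finset.mem_univ _, ht0⟩
      -- the hyperplane
      let W : Submodule K (ι → K) := V ⊓ LinearMap.ker (LinearMap.proj j : (ι → K) →ₗ[K] K)
      have hWV : W < V := by
        refine lt_of_le_of_ne inf_le_left fun h => ?_
        have h1 : v ∈ W := by rw [h]; exact hvV
        have h2 : v j = 0 := (Submodule.mem_inf.mp h1).2
        rw [h2, mul_zero] at hj
        exact zero_ne_one hj
      obtain ⟨n, b, hb, hli⟩ := ih (Module.finrank K W)
        (by rw [← hd]; exact Submodule.finrank_lt_finrank_of_lt hWV) W rfl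
      have hbW : ∀ i, (fun t => (b i t : K)) ∈ W := fun i => by
        rw [← hb]; exact Submodule.subset_span ⟨i, rfl⟩
      have hbj : ∀ i, b i j = 0 := fun i => Subtype.ext (Submodule.mem_inf.mp (hbW i)).2
      let w : ι → A := fun t => ⟨c * v t, hcA t (Finset.mem_univ t)⟩
      have hwj : w j = 1 := Subtype.ext hj
      have hwV : (fun t => (w t : K)) ∈ V := by
        have : (fun t => (w t : K)) = c • v := by ext t; simp [w]
        rw [this]; exact V.smul_mem _ hvV
      refine ⟨n + 1, Fin.cons w b, ?_, ?_⟩
      · apply le_antisymm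
        · rw [Submodule.span_le]
          rintro _ ⟨i, rfl⟩
          refine Fin.cases ?_ (fun i => ?_) i
          · simpa using hwV
          · simpa using inf_le_left (a := V) (hbW i)
        · intro u hu
          have h1 : u - u j • (fun t => (w t : K)) ∈ W := by
            refine Submodule.mem_inf.mpr ⟨V.sub_mem hu (V.smul_mem _ hwV), ?_⟩
            simp [LinearMap.mem_ker, hwj]
          rw [← hb] at h1
          have h2 : Submodule.span K (Set.range fun i => fun t => (b i t : K)) ≤
              Submodule.span K (Set.range fun i : Fin (n + 1) =>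
                fun t => (((Fin.cons w b : Fin (n + 1) → ι → A) i t : A) : K)) := by
            apply Submodule.span_mono
            rintro _ ⟨i, rfl⟩
            exact ⟨i.succ, by simp⟩
          have h3 := h2 h1
          have h4 : (fun t => (w t : K)) ∈
              Submodule.span K (Set.range fun i : Fin (n + 1) =>
                fun t => (((Fin.cons w b : Fin (n + 1) → ι → A) i t : A) : K)) :=
            Submodule.subset_span ⟨0, by simp⟩
          have h5 := Submodule.add_mem _ h3 (Submodule.smul_mem _ (u j) h4)
          simpa using h5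
      · rw [Fintype.linearIndependent_iff] at hli ⊢
        intro g hg
        rw [Fin.sum_univ_succ] at hg
        simp only [Fin.cons_zero, Fin.cons_succ] at hg
        have h0 : g 0 = 0 := by
          have := congrFun hg j
          simpa [hwj, hbj] using this
        rw [h0, zero_smul, zero_add] at hg
        have h1 := hli (fun i => g i.succ) hg
        intro i
        refine Fin.cases h0 h1 i

end Elim

/-- scaling of a family of polynomials -/
theorem exists_scale_poly {A : ValuationSubring K} (π : A →+* k) {κ : Type*} [Fintype κ]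
    (p : κ → K[X]) (h : ∃ i, p i ≠ 0) :
    ∃ c : K, c ≠ 0 ∧ ∃ q : κ → A[X], (∀ i, (q i).map A.subtype = C c * p i) ∧
      ∃ i, (q i).map π ≠ 0 := by
  classical
  obtain ⟨i0, hi0⟩ := h
  set N := (Finset.univ.sup fun i => (p i).natDegree) + 1 with hN
  have hdegN : ∀ i, (p i).natDegree < N := fun i =>
    Nat.lt_succ_of_le (Finset.le_sup (f := fun i => (p i).natDegree) (Finset.mem_univ i))
  obtain ⟨n0, hn0⟩ : ∃ n, (p i0).coeff n ≠ 0 := by
    by_contra hcon
    push Not at hcon
    exact hi0 (Polynomial.ext hcon)
  have hn0N : n0 < N := lt_of_le_of_lt (le_natDegree_of_ne_zero hn0) (hdegN i0)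
  obtain ⟨c, hc0, hcA, ⟨j, m⟩, hjm, hjm1⟩ := exists_scale (A := A)
    ((Finset.univ : Finset κ) ×ˢ Finset.range N) (fun t => (p t.1).coeff t.2)
    ⟨(i0, n0), by simpa using hn0N, hn0⟩
  have hcA' : ∀ i n, c * (p i).coeff n ∈ A := fun i n => by
    by_cases hn : n < N
    · exact hcA (i, n) (by simpa using hn)
    · rw [coeff_eq_zero_of_natDegree_lt (by have := hdegN i; omega), mul_zero]
      exact A.zero_mem
  refine ⟨c, hc0, fun i => ∑ n ∈ Finset.range N, monomial n (⟨_, hcA' i n⟩ : A), fun i => ?_,
    j, fun h0 => ?_⟩
  · ext n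
    rw [coeff_map, finsetSum_coeff, coeff_C_mul]
    simp only [coeff_monomial, Finset.sum_ite_eq', Finset.mem_range]
    split_ifs with hn
    · rfl
    · rw [map_zero, coeff_eq_zero_of_natDegree_lt (by have := hdegN i; omega), mul_zero]
  · have h5 := congrArg (fun t => Polynomial.coeff t m) h0
    have hm : m < N := by
      have := (Finset.mem_product.mp hjm).2
      simpa using this
    simp only [coeff_map, finsetSum_coeff, coeff_monomial, coeff_zero] at h5
    rw [Finset.sum_ite_eq' (Finset.range N) m, if_pos (Finset.mem_range.mpr hm)] at h5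
    have h6 : (⟨c * (p j).coeff m, hcA' j m⟩ : A) = 1 := Subtype.ext hjm1
    rw [h6, map_one] at h5
    exact one_ne_zero h5

end Fermat.Agent.H37
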