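import Fermat.Agent.H37NIct
import Fermat.Agent.H91ZICT
import Fermat.Agent.H91ZIdeal

/-!
# `N4`: `hL` of `AsaiData.unbounded` for `l n = ∑_{I ∈ fib Eis n} cI c I ^ 2`
-/

set_option autoImplicit false

open scoped Real

noncomputable section

namespace Fermat.Agent.H37N

open Fermat.Agent.S47T Fermat.Agent.H91.Z

theorem normSq_generator {n : ℕ} {I : Ideal Eis} (hI : I ∈ fib Eis n) :
    Complex.normSq ((Submodule.IsPrincipal.generator I : Eis) : ℂ) = n := by
  rw [← absNorm_span_Eis, Ideal.span_singleton_generator, mem_fib.1 hI]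

/-- **`hL`** for the ideals of `ℤ[ω]`. -/
theorem ict_hL {N : ℕ} {c : Eis → ℝ} {F : H3 → ℂ} (h : ICT N c F) :
    ∃ CL : ℝ, ∀ s : ℝ, 1 < s → s ≤ 2 →
      Summable (fun n : ℕ => (∑ I ∈ fib Eis n, cI c I ^ 2) * (n : ℝ) ^ (-s)) ∧
      ∑' n : ℕ, (∑ I ∈ fib Eis n, cI c I ^ 2) * (n : ℝ) ^ (-s) ≤ CL / (s - 1) := by
  classical
  have hsum : ∀ n : ℕ, ∑ I ∈ fib Eis n, cI c I ^ 2 =
      ∑ α ∈ (fib Eis n).image fun I : Ideal Eis => (Submodule.IsPrincipal.generator I : Eis),
        c α ^ 2 := by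
    intro n
    rw [Finset.sum_image]
    · rfl
    · intro I _ J _ hIJ
      rw [← Ideal.span_singleton_generator I, ← Ideal.span_singleton_generator J]
      exact congrArg (fun x : Eis => Ideal.span {x}) hIJ
  refine ict_dirichlet h (l := fun n => ∑ I ∈ fib Eis n, cI c I ^ 2)
    (fun n => Finset.sum_nonneg fun I _ => sq_nonneg _) ?_
    (fun n => (fib Eis n).image fun I : Ideal Eis => (Submodule.IsPrincipal.generator I : Eis))
    (fun n α hα => ?_) fun n _ => (hsum n).le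
  · refine Finset.sum_eq_zero fun I hI => ?_
    have h0 : I = ⊥ := Ideal.absNorm_eq_zero_iff.1 (mem_fib.1 hI)
    rw [h0, cI_bot h]
    ring
  · rw [Finset.mem_image] at hα
    obtain ⟨I, hI, rfl⟩ := hα
    exact normSq_generator hI

end Fermat.Agent.H37N
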