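import Mathlib

/-!
# Bessel's inequality for absolutely convergent double Fourier series
-/

set_option autoImplicit false

open MeasureTheory Complex Set
open scoped Real ComplexConjugate

noncomputable section

namespace Fermat.Agent.H37N

/-- the characters of the two-dimensional torus -/
def E (m : ℤ × ℤ) (p : ℝ × ℝ) : ℂ := cexp (2 * π * I * (m.1 * p.1 + m.2 * p.2))

lemma E_eq (m : ℤ × ℤ) (p : ℝ × ℝ) : E m p = cexp ((2 * π * (m.1 * p.1 + m.2 * p.2) : ℝ) * I) := by
  rw [E]
  congr 1
  push_cast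
  ring

@[simp] lemma norm_E (m : ℤ × ℤ) (p : ℝ × ℝ) : ‖E m p‖ = 1 := by
  rw [E_eq, norm_exp_ofReal_mul_I]

lemma E_mul_conj (m k : ℤ × ℤ) (p : ℝ × ℝ) : E m p * conj (E k p) = E (m - k) p := by
  have h : conj (E k p) = cexp (-(2 * π * I * (k.1 * p.1 + k.2 * p.2))) := by
    rw [E_eq, ← Complex.exp_conj]
    congr 1
    rw [map_mul, conj_ofReal, conj_I]
    push_cast
    ring
  rw [h, E, ← Complex.exp_add, E]
  congr 1
  simp only [Prod.fst_sub, Prod.snd_sub]
  push_cast
  ring

lemma E_prod (m : ℤ × ℤ) (p : ℝ × ℝ) :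
    E m p = cexp (2 * π * I * m.1 * p.1) * cexp (2 * π * I * m.2 * p.2) := by
  rw [E, ← Complex.exp_add]
  congr 1
  ring

lemma continuous_E (m : ℤ × ℤ) : Continuous (E m) := by
  unfold E
  fun_prop

/-- the probability measure on the unit square -/
def sq : Measure (ℝ × ℝ) := (volume.restrict (Ioc (0 : ℝ) 1)).prod (volume.restrict (Ioc (0 : ℝ) 1))

instance : IsProbabilityMeasure (volume.restrict (Ioc (0 : ℝ) 1)) :=
  ⟨by rw [Measure.restrict_apply_univ, Real.volume_Ioc]; simp⟩

instance : IsProbabilityMeasure sq := by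
  unfold sq
  infer_instance

lemma integral_char (n : ℤ) :
    ∫ x in Ioc (0 : ℝ) 1, cexp (2 * π * I * n * x) = if n = 0 then 1 else 0 := by
  split_ifs with h
  · subst h
    simp
  · have hc : 2 * π * I * n ≠ 0 := by
      have hn : (n : ℂ) ≠ 0 := by exact_mod_cast h
      exact mul_ne_zero two_pi_I_ne_zero hn
    rw [← intervalIntegral.integral_of_le zero_le_one, integral_exp_mul_complex hc]
    have h1 : cexp (2 * π * I * n * (1 : ℝ)) = 1 := by
      rw [ofReal_one, mul_one, mul_comm]
      exact Complex.exp_int_mul_two_pi_mul_I n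
    rw [h1]
    simp

lemma integral_E (m : ℤ × ℤ) : ∫ p, E m p ∂sq = if m = 0 then 1 else 0 := by
  unfold sq
  have h1 : ∀ p : ℝ × ℝ, E m p =
      cexp (2 * π * I * m.1 * p.1) * cexp (2 * π * I * m.2 * p.2) := E_prod m
  simp_rw [h1]
  rw [integral_prod_mul (fun x : ℝ => cexp (2 * π * I * m.1 * x))
    (fun y : ℝ => cexp (2 * π * I * m.2 * y)), integral_char, integral_char]
  by_cases h2 : m.1 = 0 <;> by_cases h3 : m.2 = 0 <;> simp [h2, h3, Prod.ext_iff]

lemma integrable_of_bound {g : ℝ × ℝ → ℂ} (hg : AEStronglyMeasurable g sq) {C : ℝ}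
    (hC : ∀ p, ‖g p‖ ≤ C) : Integrable g sq :=
  Integrable.of_bound hg C (ae_of_all _ hC)

/-- **Bessel's inequality** for an absolutely convergent double Fourier series
`∑ a i exp(2πi <e i, p>)`, `e i` pairwise distinct in `ℤ²`. -/
theorem bessel {ι : Type*} {e : ι → ℤ × ℤ} (he : Function.Injective e) {a : ι → ℂ}
    (ha : Summable fun m => ‖a m‖) {B : ℝ}
    (hB : ∀ p : ℝ × ℝ, ‖∑' m : ι, a m * E (e m) p‖ ≤ B) (S : Finset ι) :
    ∑ m ∈ S, ‖a m‖ ^ 2 ≤ B ^ 2 := by
  classical
  -- the index type is countable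
  have : Countable ι := he.countable
  let f : ℝ × ℝ → ℂ := fun p => ∑' m : ι, a m * E (e m) p
  let P : ℝ × ℝ → ℂ := fun p => ∑ m ∈ S, a m * E (e m) p
  have hf : Continuous f :=
    continuous_tsum (fun m => continuous_const.mul (continuous_E (e m))) ha fun m p => by
      rw [norm_mul, norm_E, mul_one]
  have hP : Continuous P := continuous_finsetSum _ fun m _ =>
    continuous_const.mul (continuous_E (e m))
  have hne : ∀ {m k : ι}, m ≠ k → e m - e k ≠ 0 := fun h h0 => h (he (sub_eq_zero.mp h0))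
  -- the coefficients of a product
  have hcoef : ∀ k : ι, ∫ p, f p * conj (E (e k) p) ∂sq = a k := by
    intro k
    have h1 : ∀ p, f p * conj (E (e k) p) = ∑' m : ι, a m * E (e m - e k) p := by
      intro p
      rw [← tsum_mul_right]
      exact tsum_congr fun m => by rw [mul_assoc, E_mul_conj]
    simp_rw [h1]
    rw [← integral_tsum_of_summable_integral_norm]
    · rw [tsum_eq_single k]
      · rw [integral_const_mul, integral_E, if_pos (sub_self _), mul_one]
      · intro m hm
        rw [integral_const_mul, integral_E, if_neg (hne hm), mul_zero]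
    · intro m
      exact integrable_of_bound (C := ‖a m‖)
        (continuous_const.mul (continuous_E _)).aestronglyMeasurable fun p => by
          rw [norm_mul, norm_E, mul_one]
    · refine ha.congr fun m => ?_
      have h2 : ∀ p : ℝ × ℝ, ‖a m * E (e m - e k) p‖ = ‖a m‖ := fun p => by
        rw [norm_mul, norm_E, mul_one]
      simp_rw [h2]
      rw [integral_const]
      simp
  have hint : ∀ k : ι, Integrable (fun p => f p * conj (E (e k) p)) sq := fun k =>
    integrable_of_bound (C := B)
      (hf.mul (continuous_conj.comp (continuous_E (e k)))).aestronglyMeasurable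
      fun p => by rw [norm_mul, RCLike.norm_conj, norm_E, mul_one]; exact hB p
  -- the two integrals
  have h1 : ∫ p, f p * conj (P p) ∂sq = ((∑ m ∈ S, ‖a m‖ ^ 2 : ℝ) : ℂ) := by
    have h2 : ∀ p, f p * conj (P p) = ∑ m ∈ S, conj (a m) * (f p * conj (E (e m) p)) := by
      intro p
      change f p * conj (∑ m ∈ S, a m * E (e m) p) = _
      rw [map_sum, Finset.mul_sum]
      exact Finset.sum_congr rfl fun m _ => by rw [map_mul]; ring
    simp_rw [h2]
    rw [integral_finsetSum _ fun m _ => (hint m).const_mul _]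
    rw [ofReal_sum]
    refine Finset.sum_congr rfl fun m _ => ?_
    rw [integral_const_mul, hcoef m, ← normSq_eq_conj_mul_self, normSq_eq_norm_sq]
  have h3 : ∫ p, P p * conj (P p) ∂sq = ((∑ m ∈ S, ‖a m‖ ^ 2 : ℝ) : ℂ) := by
    have h2 : ∀ p, P p * conj (P p) =
        ∑ k ∈ S, ∑ m ∈ S, a m * conj (a k) * E (e m - e k) p := by
      intro p
      change P p * conj (∑ k ∈ S, a k * E (e k) p) = _
      rw [map_sum, Finset.mul_sum]
      refine Finset.sum_congr rfl fun k _ => ?_
      change (∑ m ∈ S, a m * E (e m) p) * _ = _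
      rw [Finset.sum_mul]
      refine Finset.sum_congr rfl fun m _ => ?_
      rw [map_mul, ← E_mul_conj]
      ring
    have hi : ∀ (m k : ι), Integrable (fun p => a m * conj (a k) * E (e m - e k) p) sq :=
      fun m k => integrable_of_bound (C := ‖a m * conj (a k)‖)
        (continuous_const.mul (continuous_E _)).aestronglyMeasurable fun p => by
          rw [norm_mul _ (E _ _), norm_E, mul_one]
    simp_rw [h2]
    rw [integral_finsetSum _ fun k _ => integrable_finsetSum _ fun m _ => hi m k]
    rw [ofReal_sum]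
    refine Finset.sum_congr rfl fun k hk => ?_
    rw [integral_finsetSum _ fun m _ => hi m k, Finset.sum_eq_single k]
    · rw [integral_const_mul, integral_E, if_pos (sub_self _), mul_one, mul_conj,
        normSq_eq_norm_sq]
    · intro m _ hm
      rw [integral_const_mul, integral_E, if_neg (hne hm), mul_zero]
    · intro h
      exact absurd hk h
  set T : ℝ := ∑ m ∈ S, ‖a m‖ ^ 2 with hT
  have hT0 : 0 ≤ T := Finset.sum_nonneg fun m _ => by positivity
  have hPint : Integrable (fun p => ‖P p‖ ^ 2) sq := by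
    refine Integrable.of_bound (C := (∑ m ∈ S, ‖a m‖) ^ 2)
      ((hP.norm.pow 2).aestronglyMeasurable) (ae_of_all _ fun p => ?_)
    rw [norm_pow, norm_norm]
    refine pow_le_pow_left₀ (norm_nonneg _) ?_ 2
    refine (norm_sum_le _ _).trans (Finset.sum_le_sum fun m _ => ?_)
    rw [norm_mul, norm_E, mul_one]
  have h4 : ∫ p, ‖P p‖ ^ 2 ∂sq = T := by
    have h5 : ∀ p, ((‖P p‖ ^ 2 : ℝ) : ℂ) = P p * conj (P p) := fun p => by
      rw [mul_conj, normSq_eq_norm_sq]
    have h6 : ((∫ p, ‖P p‖ ^ 2 ∂sq : ℝ) : ℂ) = (T : ℂ) := by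
      rw [← h3]
      exact (integral_ofReal (𝕜 := ℂ) (μ := sq) (f := fun p => ‖P p‖ ^ 2)).symm.trans
        (integral_congr_ae (ae_of_all _ fun p => h5 p))
    exact Complex.ofReal_injective h6
  have h7 : T ≤ (B ^ 2 + T) / 2 := by
    calc T = ‖(T : ℂ)‖ := by rw [norm_real, Real.norm_of_nonneg hT0]
      _ = ‖∫ p, f p * conj (P p) ∂sq‖ := by rw [h1]
      _ ≤ ∫ p, ‖f p * conj (P p)‖ ∂sq := norm_integral_le_integral_norm _
      _ ≤ ∫ p, (B ^ 2 + ‖P p‖ ^ 2) / 2 ∂sq := by
        refine integral_mono_of_nonneg (ae_of_all _ fun p => norm_nonneg _)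
          (((integrable_const _).add hPint).div_const 2) (ae_of_all _ fun p => ?_)
        change ‖f p * conj (P p)‖ ≤ _
        rw [norm_mul, RCLike.norm_conj]
        have h8 := hB p
        have h9 : ‖f p‖ ≤ B := h8
        nlinarith [norm_nonneg (P p), norm_nonneg (f p), sq_nonneg (B - ‖P p‖)]
      _ = (B ^ 2 + T) / 2 := by
        rw [integral_div, integral_add (integrable_const _) hPint, h4, integral_const]
        simp
  linarith

end Fermat.Agent.H37N
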