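import Fermat.Agent.H37NBessel

/-!
# The mean square bound for the Fourier coefficients of a bounded function on hyperbolic 3-space

`F(z, y) = ∑_α c α · (y · K (κ |α| y)) · exp (4 π i Im (α z) / √3)`, `α` running through (a set of
indices mapping injectively to) `ℤ[ω]`, `|F| ≤ B`, `K` positive and `K κ ≤ K x` on `(0, κ]`:
`∑_{|α|² ≤ X} |c α|² ≤ (B / K κ)² X`.
-/

set_option autoImplicit false

open Complex Set
open scoped Real ComplexConjugate

noncomputable section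

namespace Fermat.Agent.H37N

/-- `ω = (-1 + √-3)/2` -/
def w3 : ℂ := ⟨-1 / 2, √3 / 2⟩

/-- the phase `exp (4 π i Im (α z) / √3) = e (Tr (α z / √-3))` in coordinates -/
lemma phase_eq (a b : ℤ) (x1 x2 : ℝ) :
    cexp ((4 * π * (((a : ℂ) + b * w3) * (x1 + x2 * w3)).im / √3 : ℝ) * I) =
      E (b, a - b) (x1, x2) := by
  rw [E_eq]
  congr 2
  have h3 : √3 * √3 = 3 := Real.mul_self_sqrt (by norm_num)
  have h3' : √3 ≠ 0 := by positivity
  congr 1
  have him : (((a : ℂ) + b * w3) * (x1 + x2 * w3)).im = √3 / 2 * (a * x2 + b * x1 - b * x2) := by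
    simp only [w3, mul_im, add_re, add_im, mul_re, ofReal_re, ofReal_im, intCast_re, intCast_im]
    ring
  rw [him]
  push_cast
  field_simp
  ring

/-- `ℤ²`-coordinates of the torus character attached to `α` -/
def dual (m : ℤ × ℤ) : ℤ × ℤ := (m.2, m.1 - m.2)

lemma dual_injective : Function.Injective dual := by
  rintro ⟨a, b⟩ ⟨c, d⟩ h
  simp only [dual, Prod.mk.injEq] at h
  obtain ⟨h1, h2⟩ := h
  rw [Prod.mk.injEq]
  constructor <;> omega

/-- **Mean square bound.** -/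
theorem mean_square {O : Type*} (v : O → ℂ) (hv : Function.Injective v)
    (hr : ∀ α, ∃ a b : ℤ, v α = a + b * w3) (c : O → ℂ) {K : ℝ → ℝ} {κ B : ℝ} (hκ : 0 < κ)
    (hK : 0 < K κ) (hKanti : ∀ x, 0 < x → x ≤ κ → K κ ≤ K x)
    (hsum : ∀ y : ℝ, 0 < y → Summable fun α => ‖c α * (y * K (κ * ‖v α‖ * y) : ℝ)‖)
    (hB : ∀ (z : ℂ) (y : ℝ), 0 < y →
      ‖∑' α, c α * (y * K (κ * ‖v α‖ * y) : ℝ) *
        cexp ((4 * π * (v α * z).im / √3 : ℝ) * I)‖ ≤ B)
    {X : ℝ} (hX : 0 < X) (S : Finset O) (hS0 : ∀ α ∈ S, v α ≠ 0) (hS : ∀ α ∈ S, ‖v α‖ ^ 2 ≤ X) :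
    ∑ α ∈ S, ‖c α‖ ^ 2 ≤ (B / K κ) ^ 2 * X := by
  choose a b hab using hr
  have he : Function.Injective fun α => dual (a α, b α) := by
    refine dual_injective.comp fun α β h => hv ?_
    simp only [Prod.mk.injEq] at h
    rw [hab α, hab β, h.1, h.2]
  set y : ℝ := (√X)⁻¹ with hy
  have hX' : 0 < √X := Real.sqrt_pos.mpr hX
  have hy0 : 0 < y := inv_pos.mpr hX'
  have hyX : y ^ 2 * X = 1 := by
    rw [hy, inv_pow, Real.sq_sqrt hX.le, inv_mul_cancel₀ hX.ne']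
  have h1 := bessel he (a := fun α => c α * (y * K (κ * ‖v α‖ * y) : ℝ)) (hsum y hy0) (B := B)
    (fun p => by
      refine le_of_eq_of_le ?_ (hB (p.1 + p.2 * w3) y hy0)
      congr 1
      refine tsum_congr fun α => ?_
      congr 1
      have h2 := phase_eq (a α) (b α) p.1 p.2
      rw [← hab α] at h2
      exact h2.symm) S
  have h3 : ∀ α ∈ S, (y * K κ) ^ 2 * ‖c α‖ ^ 2 ≤
      ‖c α * (y * K (κ * ‖v α‖ * y) : ℝ)‖ ^ 2 := by
    intro α hα
    have h4 : 0 < ‖v α‖ := norm_pos_iff.mpr (hS0 α hα)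
    have h5 : ‖v α‖ * y ≤ 1 := by
      rw [hy, ← div_eq_mul_inv, div_le_one hX']
      exact Real.le_sqrt_of_sq_le (hS α hα)
    have h6 : K κ ≤ K (κ * ‖v α‖ * y) := hKanti _ (by positivity) (by
      rw [mul_assoc]
      exact mul_le_of_le_one_right hκ.le h5)
    rw [norm_mul, mul_pow ‖c α‖, mul_comm (‖c α‖ ^ 2)]
    refine mul_le_mul_of_nonneg_right ?_ (sq_nonneg _)
    rw [norm_real, Real.norm_eq_abs, sq_abs]
    refine pow_le_pow_left₀ (by positivity) ?_ 2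
    exact mul_le_mul_of_nonneg_left h6 hy0.le
  have h7 : (y * K κ) ^ 2 * ∑ α ∈ S, ‖c α‖ ^ 2 ≤ B ^ 2 := by
    rw [Finset.mul_sum]
    exact (Finset.sum_le_sum h3).trans h1
  have h8 : (B / K κ) ^ 2 * X = B ^ 2 / (y * K κ) ^ 2 := by
    have h9 : X = (y ^ 2)⁻¹ := by
      rw [eq_comm, inv_eq_iff_eq_inv, eq_comm, inv_eq_iff_eq_inv]
      field_simp
      nlinarith
    rw [h9]
    field_simp
  rw [h8, le_div_iff₀ (by positivity), mul_comm]
  exact h7

end Fermat.Agent.H37N
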