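import Fermat.Agent.H37Rank
import Fermat.Agent.H37TrEq

/-!
# Bounded rank of `H¹(Γ₀(N Q), O)_𝔪` at Taylor–Wiles levels
-/

set_option autoImplicit false

open CongruenceSubgroup Matrix.SpecialLinearGroup
open scoped MatrixGroups

noncomputable section

namespace Fermat.Agent.H37.Rank

open Fermat.Agent.H59 Fermat.Agent.H70.Coh Fermat.Agent.H37.Tr TensorProduct

section Triv

variable {M : ℕ} (R : Type*) [CommRing R]

/-- cohomology of `Γ₀(M)` with trivial coefficients -/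
abbrev HH (M : ℕ) := H1 (gam 1 M (one_dvd M)) (psiRep (1 : (ZMod 1)ˣ →* Rˣ) R)

variable {R}

lemma slash_triv (s : DN 1) (r : R) : slash (psiRep (1 : (ZMod 1)ˣ →* Rˣ) R) s r = r := by
  rw [slash_psiRep]
  simp

lemma scalTriv {q : ℕ} (hq : 0 < q) :
    ScalTriv (psiRep (1 : (ZMod 1)ˣ →* Rˣ) R) hq (Nat.coprime_one_right q) :=
  fun r => slash_triv _ r

lemma cob_triv (r : R) : cob (gam 1 M (one_dvd M)) (psiRep (1 : (ZMod 1)ˣ →* Rˣ) R) r = 0 := by
  apply Subtype.ext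
  funext γ
  rw [cob_apply, slash_triv, sub_self]
  rfl

lemma B1_triv : B1 (gam 1 M (one_dvd M)) (psiRep (1 : (ZMod 1)ˣ →* Rˣ) R) = ⊥ := by
  rw [eq_bot_iff]
  rintro _ ⟨r, rfl⟩
  rw [cob_triv]
  exact Submodule.zero_mem _

/-- `H¹ = Z¹` -/
def hhEquiv : HH R M ≃ₗ[R] Z1 (gam 1 M (one_dvd M)) (psiRep (1 : (ZMod 1)ˣ →* Rˣ) R) :=
  Submodule.quotEquivOfEqBot _ B1_triv

lemma hhEquiv_mk (c : Z1 (gam 1 M (one_dvd M)) (psiRep (1 : (ZMod 1)ˣ →* Rˣ) R)) :
    (hhEquiv (R := R) (M := M)) (H1.mk (gam 1 M (one_dvd M))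
      (psiRep (1 : (ZMod 1)ˣ →* Rˣ) R) c) = c := rfl

variable {O : Type} [CommRing O]

instance finite_HH [NeZero M] [IsNoetherianRing O] : Module.Finite O (HH O M) := by
  have h1 : Module.Finite O (UD (chi (one_dvd M) (1 : (ZMod 1)ˣ →* Oˣ))) := ud_finite _
  obtain ⟨n, f, hf⟩ := Module.Finite.exists_fin' O (UD (chi (one_dvd M) (1 : (ZMod 1)ˣ →* Oˣ)))
  have h2 : Module.Finite O (UD (chi (one_dvd M) (1 : (ZMod 1)ˣ →* Oˣ)) →ₗ[O] O) := by
    let i : (UD (chi (one_dvd M) (1 : (ZMod 1)ˣ →* Oˣ)) →ₗ[O] O) →ₗ[O] ((Fin n → O) →ₗ[O] O) :=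
      LinearMap.lcomp O O f
    have hi : Function.Injective i := by
      intro a b hab
      apply LinearMap.ext
      intro x
      obtain ⟨y, rfl⟩ := hf x
      exact LinearMap.congr_fun hab y
    exact Module.Finite.of_injective i hi
  have h3 : Module.Finite O (Z1 (gam 1 M (one_dvd M)) (psiRep (1 : (ZMod 1)ˣ →* Oˣ) O)) :=
    Module.Finite.equiv (z1Equiv (one_dvd M) (1 : (ZMod 1)ˣ →* Oˣ) O).symm
  exact Module.Finite.equiv hhEquiv.symm

instance torsionFree_HH [IsDomain O] : Module.IsTorsionFree O (HH O M) := by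
  have h1 : Module.IsTorsionFree O
      (Z1 (gam 1 M (one_dvd M)) (psiRep (1 : (ZMod 1)ˣ →* Oˣ) O)) := inferInstance
  exact Function.Injective.moduleIsTorsionFree _ hhEquiv.injective (fun _ _ => map_smul _ _ _)

end Triv

variable {O : Type} [CommRing O]

/-- the index set of the Hecke operators -/
abbrev Pr (S : Set ℕ) : Type := {ℓ : ℕ // ℓ.Prime ∧ ℓ ∉ S}

/-- all prime divisors of `M` are in `S` -/
def Adm (S : Set ℕ) (M : ℕ) : Prop := ∀ ℓ : ℕ, ℓ.Prime → ℓ ∣ M → ℓ ∈ S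

/-- the Hecke operators `T_ℓ`, `ℓ ∉ S`, on `H¹(Γ₀(M), O)` -/
def TT (O : Type) [CommRing O] {S : Set ℕ} {M : ℕ} (hS : Adm S M) (ℓ : Pr S) :
    Module.End O (HH O M) :=
  tH (one_dvd M) (1 : (ZMod 1)ˣ →* Oˣ) ℓ.2.1 (fun h => ℓ.2.2 (hS _ ℓ.2.1 h)) O

lemma TT_comm {S : Set ℕ} {M : ℕ} (hS : Adm S M) (i j : Pr S) :
    TT O hS i * TT O hS j = TT O hS j * TT O hS i := by
  apply LinearMap.ext
  intro x
  change TT O hS i (TT O hS j x) = TT O hS j (TT O hS i x)
  unfold TT tH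
  rw [← HFam.opH_comp, ← HFam.opH_comp, tFam_comm]

variable {S : Set ℕ}

/-- the trace -/
def tr1 (O : Type) [CommRing O] (M q : ℕ) [NeZero M] [NeZero q] : HH O (M * q) →ₗ[O] HH O M :=
  (Fermat.Agent.H70.Coh.trFam (q := q) (one_dvd M)).opH (psiRep (1 : (ZMod 1)ˣ →* Oˣ) O)

/-- the second trace -/
def tr2 (O : Type) [CommRing O] (M : ℕ) {q : ℕ} [NeZero q] (hq : q.Prime) :
    HH O (M * q) →ₗ[O] HH O M :=
  (nuFam (one_dvd M) hq).opH (psiRep (1 : (ZMod 1)ˣ →* Oˣ) O)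

lemma Adm.of_dvd {M M' : ℕ} (h : Adm S M') (hd : M ∣ M') : Adm S M :=
  fun ℓ hℓ h1 => h ℓ hℓ (h1.trans hd)

lemma tr1_TT {M q : ℕ} [NeZero M] [NeZero q] (hq : q.Prime) (hqM : ¬ q ∣ M)
    (hS : Adm S (M * q)) (i : Pr S) (x : HH O (M * q)) :
    tr1 O M q (TT O hS i x) = TT O (hS.of_dvd (Dvd.intro q rfl)) i (tr1 O M q x) :=
  tFam_trFam' (one_dvd M) hq hqM i.2.1 _ x

lemma tr2_TT {M q : ℕ} [NeZero q] (hq : q.Prime) (hqM : ¬ q ∣ M)
    (hS : Adm S (M * q)) (i : Pr S) (x : HH O (M * q)) :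
    tr2 O M hq (TT O hS i x) = TT O (hS.of_dvd (Dvd.intro q rfl)) i (tr2 O M hq x) :=
  tFam_nuFam (one_dvd M) hq hqM i.2.1 _ x

variable {K : Type} [Field K] [Algebra O K]

/-- There is no eigenvector of level `M q` in the `e`-part which is killed by both traces. -/
def NoNew (K : Type) [Field K] [Algebra O K] (S : Set ℕ) (e : MvPolynomial (Pr S) O) (M q : ℕ)
    [NeZero M] [NeZero q] : Prop :=
  ∀ (hq : q.Prime) (_ : ¬ q ∣ M) (hS : Adm S (M * q)) (lam : Pr S → K) (v : K ⊗[O] HH O (M * q)),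
    v ≠ 0 → (∀ i, (TT O hS i).baseChange K v = lam i • v) → MvPolynomial.aeval lam e = 1 →
    (tr1 O M q).baseChange K v = 0 → (tr2 O M hq).baseChange K v = 0 → False

variable [IsDomain O] [IsPrincipalIdealRing O] [IsAlgClosed K] [FaithfulSMul O K]

/-- **One step.** -/
theorem finrank_step {M q : ℕ} [NeZero M] [NeZero q] (hq : q.Prime) (hqM : ¬ q ∣ M)
    (hS : Adm S (M * q)) (e : MvPolynomial (Pr S) O)
    (he : act (TT O hS) (TT_comm hS) e * act (TT O hS) (TT_comm hS) e =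
      act (TT O hS) (TT_comm hS) e)
    (h : NoNew K S e M q) :
    Module.finrank O (Loc (TT O hS) (TT_comm hS) e) ≤
      2 * Module.finrank O (Loc (TT O (hS.of_dvd (Dvd.intro q rfl)))
        (TT_comm (hS.of_dvd (Dvd.intro q rfl))) e) := by
  have : NeZero (M * q) := ⟨mul_ne_zero (NeZero.ne M) (NeZero.ne q)⟩
  exact finrank_loc_le_two_mul (K := K) _ _ (TT O hS) (TT_comm hS) (tr1 O M q) (tr2 O M hq)
    (tr1_TT hq hqM hS) (tr2_TT hq hqM hS) e he
    (fun lam v hv heig hlam h1 h2 => h hq hqM hS lam v hv heig hlam h1 h2)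

/-- **Iteration.** -/
theorem finrank_le_pow (e : MvPolynomial (Pr S) O) {M : ℕ} [NeZero M]
    (r : ℕ) : ∀ (Q : Fin r → ℕ) (_ : ∀ i, (Q i).Prime) (_ : ∀ i, ¬ Q i ∣ M)
      (_ : Function.Injective Q)
      (_ : ∀ (L : ℕ) (hL : Adm S L), M ∣ L → L ∣ M * ∏ i, Q i →
        act (TT O hL) (TT_comm hL) e * act (TT O hL) (TT_comm hL) e =
          act (TT O hL) (TT_comm hL) e)
      (_ : ∀ (L q : ℕ) [NeZero L] [NeZero q], M ∣ L → L * q ∣ M * ∏ i, Q i → NoNew K S e L q)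
      (hS : Adm S (M * ∏ i, Q i)),
      Module.finrank O (Loc (TT O hS) (TT_comm hS) e) ≤
        2 ^ r * Module.finrank O (Loc (TT O (hS.of_dvd (Dvd.intro _ rfl)))
          (TT_comm (hS.of_dvd (Dvd.intro _ rfl))) e) := by
  induction r with
  | zero =>
    intro Q _ _ _ _ _ hS
    have key : ∀ (L : ℕ) (hL : Adm S L) (_ : L = M),
        Module.finrank O (Loc (TT O hL) (TT_comm hL) e) =
        Module.finrank O (Loc (TT O (S := S) (M := M) (hS.of_dvd (Dvd.intro _ rfl)))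
          (TT_comm (hS.of_dvd (Dvd.intro _ rfl))) e) := by
      intro L hL h
      subst h
      rfl
    rw [key _ hS (by simp), pow_zero, one_mul]
  | succ r ih =>
    intro Q hQ hQM hinj he hnew hS
    set P : ℕ := ∏ i : Fin r, Q i.castSucc with hP
    set q : ℕ := Q (Fin.last r) with hq
    have hprod : M * ∏ i, Q i = M * P * q := by
      rw [Fin.prod_univ_castSucc, ← hP, ← hq, mul_assoc]
    have hP0 : P ≠ 0 := Finset.prod_ne_zero_iff.mpr fun i _ => (hQ _).ne_zero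
    have i1 : NeZero (M * P) := ⟨mul_ne_zero (NeZero.ne M) hP0⟩
    have i2 : NeZero q := ⟨(hQ _).ne_zero⟩
    have hqMP : ¬ q ∣ M * P := by
      intro h
      rcases (hQ (Fin.last r)).dvd_mul.mp h with h1 | h1
      · exact hQM _ h1
      · rw [hP, (hQ (Fin.last r)).prime.dvd_finsetProd_iff] at h1
        obtain ⟨i, -, hi⟩ := h1
        have h2 := (Nat.prime_dvd_prime_iff_eq (hQ _) (hQ _)).mp hi
        exact absurd (hinj h2) (Fin.castSucc_lt_last i).ne'
    have key : ∀ (L : ℕ) (hL : Adm S L) (_ : L = M * P * q),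
        Module.finrank O (Loc (TT O hL) (TT_comm hL) e) ≤
        2 ^ (r + 1) * Module.finrank O (Loc (TT O (S := S) (M := M) (hS.of_dvd (Dvd.intro _ rfl)))
          (TT_comm (hS.of_dvd (Dvd.intro _ rfl))) e) := by
      intro L hL h
      subst h
      refine (finrank_step (K := K) (hQ (Fin.last r)) hqMP hL e
        (he _ hL ⟨P * q, by ring⟩ (by rw [hprod]))
        (hnew (M * P) q (Dvd.intro P rfl) (by rw [hprod]))).trans ?_
      have h1 := ih (fun i => Q i.castSucc) (fun i => hQ _) (fun i => hQM _)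
        (fun i j hij => Fin.castSucc_injective r (hinj hij))
        (fun L' hL' h1 h2 => he L' hL' h1 (h2.trans (by rw [hprod]; exact Dvd.intro q rfl)))
        (fun L q' _ _ hL hLq => hnew L q' hL (hLq.trans (by rw [hprod]; exact Dvd.intro q rfl)))
        (hL.of_dvd (Dvd.intro q rfl))
      calc 2 * _ ≤ 2 * (2 ^ r * _) := Nat.mul_le_mul_left 2 h1
        _ = 2 ^ (r + 1) * _ := by rw [← mul_assoc, pow_succ, mul_comm (2 ^ r) 2]
    exact key _ hS hprod

end Fermat.Agent.H37.Rank
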