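import Fermat.Agent.H70Free

/-!
# Base change for `H¹(Γ₀(M), R_ψ)`

* `Z1.mapS`, `H1.mapS` : functoriality for semilinear maps of coefficients, commutes with all
  Hecke families (`op_mapS`, `opH_mapS`).
* `z1S`, `h1S` : the maps `H¹(Γ₀(M), R_ψ) → H¹(Γ₀(M), R'_{fψ})` for a ring homomorphism `f`.
* `z1BC_bijective`, `h1BC_bijective` : `R' ⊗_R H¹(Γ₀(M), R_ψ) ≃ H¹(Γ₀(M), R'_{fψ})` for every
  `R`-algebra `R'` (`Good M R`).
* `h1S_surjective`, `h1S_eq_zero_iff` : for surjective `f`, the kernel is `(ker f) • ⊤`.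
* `chars_separate` ...: `K ⊗_O H¹(Γ₀(M), O[Δ]_ψ)` injects into the product of the
  `H¹(Γ₀(M), K_{xψ})` over the characters `x` of `Δ`.
-/

set_option autoImplicit false
set_option linter.style.haveILetI false

open Matrix CongruenceSubgroup
open scoped MatrixGroups TensorProduct

namespace Fermat.Agent.H70.Coh

section Semi

variable {S : Type*} [Monoid S] {R R' : Type*} [CommRing R] [CommRing R'] (f : R →+* R')
  {V V' : Type*} [AddCommGroup V] [Module R V] [AddCommGroup V'] [Module R' V']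
  {Γ Γ' : Type*} [Group Γ] [Group Γ'] {ι : Γ →* S} {ι' : Γ' →* S}
  {ρ : S →* (Module.End R V)ᵐᵒᵖ} {ρ' : S →* (Module.End R' V')ᵐᵒᵖ}

variable {f}

/-- functoriality of cocycles in the coefficients, semilinear form -/
def Z1.mapS (g : V →ₛₗ[f] V') (hg : ∀ s v, g (slash ρ s v) = slash ρ' s (g v)) :
    Z1 ι ρ →ₛₗ[f] Z1 ι ρ' where
  toFun c := ⟨fun γ => g (c.1 γ), fun γ δ => by
    change g (c.1 (γ * δ)) = slash ρ' (ι δ) (g (c.1 γ)) + g (c.1 δ)
    rw [c.2, map_add, hg]⟩
  map_add' a b := by apply Subtype.ext; funext γ; exact map_add g _ _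
  map_smul' r a := by apply Subtype.ext; funext γ; exact map_smulₛₗ g _ _

lemma Z1.mapS_apply (g : V →ₛₗ[f] V') (hg : ∀ s v, g (slash ρ s v) = slash ρ' s (g v))
    (c : Z1 ι ρ) (γ : Γ) : (Z1.mapS g hg c).1 γ = g (c.1 γ) := rfl

lemma Z1.mapS_cob (g : V →ₛₗ[f] V') (hg : ∀ s v, g (slash ρ s v) = slash ρ' s (g v)) (v : V) :
    Z1.mapS (ι := ι) g hg (cob ι ρ v) = cob ι ρ' (g v) := by
  apply Subtype.ext
  funext γ
  change g (slash ρ (ι γ) v - v) = slash ρ' (ι γ) (g v) - g v
  rw [map_sub, hg]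

/-- functoriality of `H¹` in the coefficients, semilinear form -/
def H1.mapS (g : V →ₛₗ[f] V') (hg : ∀ s v, g (slash ρ s v) = slash ρ' s (g v)) :
    H1 ι ρ →ₛₗ[f] H1 ι ρ' :=
  Submodule.mapQ _ _ (Z1.mapS g hg) (by
    rintro _ ⟨v, rfl⟩
    rw [Submodule.mem_comap, Z1.mapS_cob]
    exact ⟨_, rfl⟩)

lemma H1.mapS_mk (g : V →ₛₗ[f] V') (hg : ∀ s v, g (slash ρ s v) = slash ρ' s (g v))
    (c : Z1 ι ρ) :
    H1.mapS (ι := ι) g hg (H1.mk ι ρ c) = H1.mk ι ρ' (Z1.mapS g hg c) := rfl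

lemma op_mapS [HFam.IsFreeOn ι] (h : HFam ι ι') (g : V →ₛₗ[f] V')
    (hg : ∀ s v, g (slash ρ s v) = slash ρ' s (g v)) (c : Z1 ι ρ) :
    h.op ρ' (Z1.mapS g hg c) = Z1.mapS g hg (h.op ρ c) := by
  apply Subtype.ext
  funext γ'
  rw [HFam.op_apply, Z1.mapS_apply, HFam.op_apply, map_sum]
  refine Finset.sum_congr rfl fun i _ => ?_
  rw [hg, Z1.mapS_apply]

lemma opH_mapS [HFam.IsFreeOn ι] (h : HFam ι ι') (g : V →ₛₗ[f] V')
    (hg : ∀ s v, g (slash ρ s v) = slash ρ' s (g v)) (x : H1 ι ρ) :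
    h.opH ρ' (H1.mapS g hg x) = H1.mapS g hg (h.opH ρ x) := by
  obtain ⟨c, rfl⟩ := Submodule.mkQ_surjective _ x
  change H1.mk ι' ρ' (h.op ρ' (Z1.mapS g hg c)) = H1.mk ι' ρ' (Z1.mapS g hg (h.op ρ c))
  rw [op_mapS]

end Semi

section Psi

variable {N M : ℕ} (hM : N ∣ M) {R : Type*} [CommRing R] (ψ : (ZMod N)ˣ →* Rˣ)
  {R' : Type*} [CommRing R']

/-- the composite character -/
def psiMap (f : R →+* R') (ψ : (ZMod N)ˣ →* Rˣ) : (ZMod N)ˣ →* R'ˣ :=
  (Units.map (f : R →* R')).comp ψ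

lemma psiMap_apply (f : R →+* R') (u : (ZMod N)ˣ) :
    ((psiMap f ψ u : R'ˣ) : R') = f ((ψ u : Rˣ) : R) := rfl

lemma psiMap_comp {R'' : Type*} [CommRing R''] (f : R →+* R') (g : R' →+* R'') :
    psiMap g (psiMap f ψ) = psiMap (g.comp f) ψ := rfl

lemma psiRep_compatS {W W' : Type*} [AddCommGroup W] [Module R W] [AddCommGroup W'] [Module R' W']
    {f : R →+* R'} (g : W →ₛₗ[f] W') (s : DN N) (v : W) :
    g (slash (psiRep ψ W) s v) = slash (psiRep (psiMap f ψ) W') s (g v) := by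
  rw [slash_psiRep, slash_psiRep, map_smulₛₗ]
  rfl

/-- a ring homomorphism as a semilinear map -/
def semi (f : R →+* R') : R →ₛₗ[f] R' where
  toFun := f
  map_add' := map_add f
  map_smul' r x := by rw [smul_eq_mul, map_mul, smul_eq_mul]

lemma semi_apply (f : R →+* R') (x : R) : semi f x = f x := rfl

/-- change of rings for cocycles -/
noncomputable def z1S (f : R →+* R') :
    Z1 (gam N M hM) (psiRep ψ R) →ₛₗ[f] Z1 (gam N M hM) (psiRep (psiMap f ψ) R') :=
  Z1.mapS (semi f) (psiRep_compatS ψ (semi f))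

/-- change of rings for `H¹` -/
noncomputable def h1S (f : R →+* R') :
    H1 (gam N M hM) (psiRep ψ R) →ₛₗ[f] H1 (gam N M hM) (psiRep (psiMap f ψ) R') :=
  H1.mapS (semi f) (psiRep_compatS ψ (semi f))

lemma z1S_apply (f : R →+* R') (c : Z1 (gam N M hM) (psiRep ψ R)) (γ : Gamma0 M) :
    (z1S hM ψ f c).1 γ = f (c.1 γ) := rfl

lemma h1S_mk (f : R →+* R') (c : Z1 (gam N M hM) (psiRep ψ R)) :
    h1S hM ψ f (H1.mk (gam N M hM) (psiRep ψ R) c) =
      H1.mk (gam N M hM) (psiRep (psiMap f ψ) R') (z1S hM ψ f c) := rfl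

lemma z1S_cob (f : R →+* R') (r : R) :
    z1S hM ψ f (cob (gam N M hM) (psiRep ψ R) r) =
      cob (gam N M hM) (psiRep (psiMap f ψ) R') (f r) :=
  Z1.mapS_cob (semi f) (psiRep_compatS ψ (semi f)) r

/-- **Change of rings commutes with all Hecke families.** -/
lemma opH_h1S {M' : ℕ} {hM' : N ∣ M'} [HFam.IsFreeOn (gam N M hM)]
    (h : HFam (gam N M hM) (gam N M' hM')) (f : R →+* R')
    (x : H1 (gam N M hM) (psiRep ψ R)) :
    h.opH (psiRep (psiMap f ψ) R') (h1S hM ψ f x) = h1S hM' ψ f (h.opH (psiRep ψ R) x) :=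
  opH_mapS h (semi f) (psiRep_compatS ψ (semi f)) x

section Alg

variable (R') [Algebra R R']

/-- change of rings as a linear map -/
noncomputable def z1L : Z1 (gam N M hM) (psiRep ψ R) →ₗ[R]
    Z1 (gam N M hM) (psiRep (psiMap (algebraMap R R') ψ) R') where
  toFun c := z1S hM ψ (algebraMap R R') c
  map_add' a b := map_add _ a b
  map_smul' r a := by
    rw [map_smulₛₗ, RingHom.id_apply, algebraMap_smul]

/-- change of rings as a linear map -/
noncomputable def h1L : H1 (gam N M hM) (psiRep ψ R) →ₗ[R]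
    H1 (gam N M hM) (psiRep (psiMap (algebraMap R R') ψ) R') where
  toFun c := h1S hM ψ (algebraMap R R') c
  map_add' a b := map_add _ a b
  map_smul' r a := by
    rw [map_smulₛₗ, RingHom.id_apply, algebraMap_smul]

lemma z1L_apply (c : Z1 (gam N M hM) (psiRep ψ R)) :
    z1L hM ψ R' c = z1S hM ψ (algebraMap R R') c := rfl

lemma h1L_apply (c : H1 (gam N M hM) (psiRep ψ R)) :
    h1L hM ψ R' c = h1S hM ψ (algebraMap R R') c := rfl

/-- base change map for cocycles -/
noncomputable def z1BC : R' ⊗[R] Z1 (gam N M hM) (psiRep ψ R) →ₗ[R']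
    Z1 (gam N M hM) (psiRep (psiMap (algebraMap R R') ψ) R') :=
  LinearMap.liftBaseChange R' (z1L hM ψ R')

/-- base change map for `H¹` -/
noncomputable def h1BC : R' ⊗[R] H1 (gam N M hM) (psiRep ψ R) →ₗ[R']
    H1 (gam N M hM) (psiRep (psiMap (algebraMap R R') ψ) R') :=
  LinearMap.liftBaseChange R' (h1L hM ψ R')

lemma z1BC_tmul (r : R') (c : Z1 (gam N M hM) (psiRep ψ R)) :
    z1BC hM ψ R' (r ⊗ₜ c) = r • z1S hM ψ (algebraMap R R') c :=
  LinearMap.liftBaseChange_tmul ..

lemma h1BC_tmul (r : R') (c : H1 (gam N M hM) (psiRep ψ R)) :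
    h1BC hM ψ R' (r ⊗ₜ c) = r • h1S hM ψ (algebraMap R R') c :=
  LinearMap.liftBaseChange_tmul ..

variable {R'} (hg : Good M R) (hψ : ψ (-1) = 1)

/-- a cocycle with values in `R'` as a homomorphism on the universal module of `R` -/
noncomputable def hatR (c : Z1 (gam N M hM) (psiRep (psiMap (algebraMap R R') ψ) R')) :
    UD (chi hM ψ) →ₗ[R] R' :=
  udLift (chi hM ψ) c.1 (by
    intro γ δ
    have h := c.2 γ δ
    rw [slash_psiRep, psiMap_apply, algebraMap_smul] at h
    exact h)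

lemma hatR_ud (c : Z1 (gam N M hM) (psiRep (psiMap (algebraMap R R') ψ) R')) (γ : Gamma0 M) :
    hatR hM ψ c (ud (chi hM ψ) γ) = c.1 γ := udLift_ud _ _ _ _

lemma hatR_add (c d : Z1 (gam N M hM) (psiRep (psiMap (algebraMap R R') ψ) R')) :
    hatR hM ψ (c + d) = hatR hM ψ c + hatR hM ψ d := by
  apply ud_hom_ext
  intro γ
  rw [LinearMap.add_apply, hatR_ud, hatR_ud, hatR_ud]
  rfl

lemma hatR_smul_z1S (r : R') (c : Z1 (gam N M hM) (psiRep ψ R)) (u : UD (chi hM ψ)) :
    hatR hM ψ (r • z1S hM ψ (algebraMap R R') c) u =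
      r * algebraMap R R' (z1Equiv hM ψ R c u) := by
  have h : hatR hM ψ (r • z1S hM ψ (algebraMap R R') c) =
      (LinearMap.mulLeft R r) ∘ₗ (Algebra.linearMap R R') ∘ₗ (z1Equiv hM ψ R c) := by
    apply ud_hom_ext
    intro γ
    rw [hatR_ud]
    change r * algebraMap R R' (c.1 γ) = r * algebraMap R R' (z1Equiv hM ψ R c (ud (chi hM ψ) γ))
    rw [z1Equiv_apply]
  rw [h]
  rfl

include hg hψ in
/-- **Base change for cocycles.** -/
theorem z1BC_bijective [NeZero M] : Function.Bijective (z1BC hM ψ R') := by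
  obtain ⟨w⟩ := hg.weight
  have h1 : Module.Projective R (UD (chi hM ψ)) :=
    ud_projective (neg_one_mem_Gamma0 M) w hg.two (chi hM ψ) (chi_neg_one hM ψ hψ)
  have h2 : Module.Finite R (UD (chi hM ψ)) := ud_finite _
  obtain ⟨n, f, hf⟩ := Module.Finite.exists_fin' R (UD (chi hM ψ))
  obtain ⟨s, hs⟩ := Module.projective_lifting_property f LinearMap.id hf
  have hfs : ∀ u, u = ∑ i, (s u i) • f (Pi.single i 1) := by
    intro u
    conv_lhs => rw [← LinearMap.id_apply (R := R) u, ← hs, LinearMap.comp_apply,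
      ← Finset.univ_sum_single (s u), map_sum]
    refine Finset.sum_congr rfl fun i _ => ?_
    rw [← map_smul]
    congr 1
    rw [← Pi.single_smul, smul_eq_mul, mul_one]
  let c : Fin n → Z1 (gam N M hM) (psiRep ψ R) := fun i =>
    (z1Equiv hM ψ R).symm (LinearMap.proj i ∘ₗ s)
  have hc : ∀ i γ, (c i).1 γ = s (ud (chi hM ψ) γ) i := fun i γ => z1Equiv_symm_apply ..
  let inv : Z1 (gam N M hM) (psiRep (psiMap (algebraMap R R') ψ) R') →+
      R' ⊗[R] Z1 (gam N M hM) (psiRep ψ R) :=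
    { toFun := fun c' => ∑ i, (hatR hM ψ c' (f (Pi.single i 1))) ⊗ₜ c i
      map_zero' := by
        refine Finset.sum_eq_zero fun i _ => ?_
        have h0 : hatR hM ψ (0 : Z1 (gam N M hM) (psiRep (psiMap (algebraMap R R') ψ) R')) = 0 := by
          apply ud_hom_ext
          intro γ
          rw [hatR_ud]
          rfl
        rw [h0, LinearMap.zero_apply, TensorProduct.zero_tmul]
      map_add' := by
        intro a b
        rw [← Finset.sum_add_distrib]
        refine Finset.sum_congr rfl fun i _ => ?_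
        rw [hatR_add, LinearMap.add_apply, TensorProduct.add_tmul] }
  have hinv : ∀ c', inv c' = ∑ i, (hatR hM ψ c' (f (Pi.single i 1))) ⊗ₜ c i := fun _ => rfl
  have hleft : ∀ v, inv (z1BC hM ψ R' v) = v := by
    intro v
    induction v using TensorProduct.induction_on with
    | zero => rw [map_zero, map_zero]
    | add x y hx hy => rw [map_add, map_add, hx, hy]
    | tmul r d =>
      rw [z1BC_tmul, hinv]
      have h3 : ∀ i, (hatR hM ψ (r • z1S hM ψ (algebraMap R R') d) (f (Pi.single i 1))) ⊗ₜ c i =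
          r ⊗ₜ[R] (z1Equiv hM ψ R d (f (Pi.single i 1)) • c i) := by
        intro i
        rw [hatR_smul_z1S, ← TensorProduct.smul_tmul, Algebra.smul_def, mul_comm]
      rw [Finset.sum_congr rfl fun i _ => h3 i, ← TensorProduct.tmul_sum]
      congr 1
      apply Subtype.ext
      funext γ
      have h4 : (∑ i, z1Equiv hM ψ R d (f (Pi.single i 1)) • c i : Z1 (gam N M hM) (psiRep ψ R)).1 γ
          = ∑ i, z1Equiv hM ψ R d (f (Pi.single i 1)) * (c i).1 γ := by
        rw [AddSubmonoidClass.coe_finsetSum, Finset.sum_apply]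
        rfl
      rw [h4, ← z1Equiv_apply hM ψ d γ]
      conv_rhs => rw [hfs (ud (chi hM ψ) γ), map_sum]
      refine Finset.sum_congr rfl fun i _ => ?_
      rw [map_smul, hc, smul_eq_mul, mul_comm]
  have hright : ∀ c', z1BC hM ψ R' (inv c') = c' := by
    intro c'
    rw [hinv, map_sum]
    apply Subtype.ext
    funext γ
    rw [AddSubmonoidClass.coe_finsetSum, Finset.sum_apply]
    rw [← hatR_ud hM ψ c' γ]
    conv_rhs => rw [hfs (ud (chi hM ψ) γ), map_sum]
    refine Finset.sum_congr rfl fun i _ => ?_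
    rw [z1BC_tmul, map_smul, Algebra.smul_def, ← hc]
    change hatR hM ψ c' (f (Pi.single i 1)) * algebraMap R R' ((c i).1 γ) = _
    rw [mul_comm]
  exact ⟨Function.LeftInverse.injective hleft, fun c' => ⟨inv c', hright c'⟩⟩

include hg hψ in
/-- **Base change for `H¹`.** -/
theorem h1BC_bijective [NeZero M] : Function.Bijective (h1BC hM ψ R') := by
  have hZ := z1BC_bijective (R' := R') hM ψ hg hψ
  have hcomp : ∀ v, h1BC hM ψ R' ((H1.mk (gam N M hM) (psiRep ψ R)).baseChange R' v) =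
      H1.mk (gam N M hM) (psiRep (psiMap (algebraMap R R') ψ) R') (z1BC hM ψ R' v) := by
    intro v
    induction v using TensorProduct.induction_on with
    | zero => simp only [map_zero]
    | add x y hx hy => rw [map_add, map_add, hx, hy, map_add, map_add]
    | tmul r d =>
      rw [LinearMap.baseChange_tmul, h1BC_tmul, h1S_mk, z1BC_tmul, map_smul]
  have hsurj : Function.Surjective ((H1.mk (gam N M hM) (psiRep ψ R)).baseChange R') := by
    exact LinearMap.lTensor_surjective _ (Submodule.mkQ_surjective _)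
  constructor
  · rw [injective_iff_map_eq_zero]
    intro v hv
    obtain ⟨z, rfl⟩ := hsurj v
    rw [hcomp, Submodule.mkQ_apply, Submodule.Quotient.mk_eq_zero] at hv
    obtain ⟨r, hr⟩ := hv
    have h1 : z1BC hM ψ R' (r ⊗ₜ cob (gam N M hM) (psiRep ψ R) 1) = z1BC hM ψ R' z := by
      rw [z1BC_tmul, z1S_cob, ← map_smul, map_one, smul_eq_mul, mul_one, hr]
    rw [← hZ.1 h1, LinearMap.baseChange_tmul]
    have h2 : H1.mk (gam N M hM) (psiRep ψ R) (cob (gam N M hM) (psiRep ψ R) 1) = 0 := by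
      rw [Submodule.mkQ_apply, Submodule.Quotient.mk_eq_zero]
      exact ⟨_, rfl⟩
    rw [h2, TensorProduct.tmul_zero]
  · intro y
    obtain ⟨c, rfl⟩ := Submodule.mkQ_surjective _ y
    obtain ⟨z, rfl⟩ := hZ.2 c
    exact ⟨_, hcomp z⟩

end Alg

section Quot

variable (hg : Good M R) (hψ : ψ (-1) = 1) (f : R →+* R') (hf : Function.Surjective f)

include hg hψ hf in
theorem h1S_surjective [NeZero M] : Function.Surjective (h1S hM ψ f) := by
  letI := f.toAlgebra
  intro y
  obtain ⟨v, rfl⟩ := (h1BC_bijective (R' := R') hM ψ hg hψ).2 y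
  induction v using TensorProduct.induction_on with
  | zero => exact ⟨0, by rw [map_zero, map_zero]⟩
  | add x y hx hy =>
    obtain ⟨a, ha⟩ := hx
    obtain ⟨b, hb⟩ := hy
    exact ⟨a + b, by rw [map_add, map_add, ha, hb]⟩
  | tmul r d =>
    obtain ⟨r, rfl⟩ := hf r
    exact ⟨r • d, by rw [map_smulₛₗ, h1BC_tmul]; rfl⟩

include hg hψ hf in
/-- the kernel of `H¹(R_ψ) → H¹((R/I)_ψ)` is `I • H¹(R_ψ)` -/
theorem h1S_eq_zero_iff [NeZero M] (x : H1 (gam N M hM) (psiRep ψ R)) :
    h1S hM ψ f x = 0 ↔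
      x ∈ (RingHom.ker f • ⊤ : Submodule R (H1 (gam N M hM) (psiRep ψ R))) := by
  constructor
  · intro hx
    letI := f.toAlgebra
    have h1 : h1BC hM ψ R' (1 ⊗ₜ x) = 0 := by
      rw [h1BC_tmul, one_smul]
      exact hx
    have h2 : (1 : R') ⊗ₜ[R] x = 0 := (h1BC_bijective (R' := R') hM ψ hg hψ).1
      (h1.trans (map_zero _).symm)
    -- map `R' ⊗ H → H / (ker f) H`
    set K := (RingHom.ker f • ⊤ : Submodule R (H1 (gam N M hM) (psiRep ψ R))) with hK
    have hlin : ∀ (a b : R) (y : H1 (gam N M hM) (psiRep ψ R)), f a = f b →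
        K.mkQ (a • y) = K.mkQ (b • y) := by
      intro a b y hab
      rw [← sub_eq_zero, ← map_sub, ← sub_smul, Submodule.mkQ_apply,
        Submodule.Quotient.mk_eq_zero]
      refine Submodule.smul_mem_smul ?_ trivial
      rw [RingHom.mem_ker, map_sub, hab, sub_self]
    let B : R' →ₗ[R] H1 (gam N M hM) (psiRep ψ R) →ₗ[R]
        (H1 (gam N M hM) (psiRep ψ R)) ⧸ K :=
      LinearMap.mk₂ R (fun r' y => K.mkQ ((hf r').choose • y))
        (by
          intro a b y
          rw [← map_add, ← add_smul]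
          apply hlin
          rw [(hf _).choose_spec, map_add, (hf _).choose_spec, (hf _).choose_spec])
        (by
          intro c a y
          rw [← map_smul, smul_smul]
          apply hlin
          rw [(hf _).choose_spec, map_mul, (hf _).choose_spec]
          rfl)
        (by intro a x y; rw [smul_add, map_add])
        (by intro c a y; rw [← map_smul, smul_comm])
    have h3 : TensorProduct.lift B ((1 : R') ⊗ₜ[R] x) = K.mkQ x := by
      rw [TensorProduct.lift.tmul]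
      change K.mkQ ((hf 1).choose • x) = K.mkQ x
      conv_rhs => rw [← one_smul R x]
      apply hlin
      rw [(hf _).choose_spec, map_one]
    rw [h2, map_zero] at h3
    exact (Submodule.Quotient.mk_eq_zero _).mp h3.symm
  · intro hx
    refine Submodule.smul_induction_on hx (fun r hr y _ => ?_) fun x y hx hy => ?_
    · rw [map_smulₛₗ, RingHom.mem_ker.mp hr, zero_smul]
    · rw [map_add, hx, hy, add_zero]

end Quot

end Psi

end Fermat.Agent.H70.Coh
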