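import Fermat.Agent.H59Eigen
import Fermat.Agent.H35VChi
import Fermat.Agent.H37RankTW
import Fermat.Agent.H70Base

/-!
# Eigenvectors killed by a map: passage to lattices; base change of `HH`
-/

set_option autoImplicit false
set_option linter.style.haveILetI false
set_option linter.unusedSectionVars false

open CongruenceSubgroup IsLocalRing TensorProduct

noncomputable section

namespace Fermat.Agent.H37.NN

open Fermat.Agent.H59 Fermat.Agent.H35 Fermat.Agent.H37.Rank Fermat.Agent.H70.Coh

section Ker

variable {O : Type} [CommRing O] [IsDomain O] [IsDiscreteValuationRing O]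
  [IsAdicComplete (maximalIdeal O) O] [Finite (ResidueField O)] [CharZero O]
  {ι H H₂ : Type} [AddCommGroup H] [Module O H] [Module.Finite O H] [Module.IsTorsionFree O H]
  [AddCommGroup H₂] [Module O H₂] [Module.Free O H₂]
  (K : Type) [Field K] [Algebra O K] [IsFractionRing O K]
  {Kb : Type} [Field Kb] [Algebra K Kb] [Algebra O Kb] [IsScalarTower O K Kb]

include K in
/-- **Descent of eigenvectors killed by an equivariant map.** -/
theorem exists_lattice_eigen_ker (T : ι → Module.End O H) (hT : ∀ i j, T i * T j = T j * T i)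
    (f : H →ₗ[O] H₂) (T₂ : ι → Module.End O H₂) (hf : ∀ i x, f (T i x) = T₂ i (f x))
    (lam : ι → Kb) (v : Kb ⊗[O] H) (hv0 : v ≠ 0)
    (hv : ∀ i, (T i).baseChange Kb v = lam i • v) (hfv : f.baseChange Kb v = 0) :
    ∃ (O' : Type) (_ : CommRing O') (_ : IsDomain O') (_ : IsDiscreteValuationRing O')
      (_ : IsAdicComplete (maximalIdeal O') O') (_ : Finite (ResidueField O')) (_ : CharZero O')
      (_ : Algebra O O') (_ : Module.Finite O O') (_ : IsLocalHom (algebraMap O O'))
      (j : O' →ₐ[O] Kb) (mu : ι → O') (x : O' ⊗[O] H),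
      Function.Injective (algebraMap O O') ∧ Function.Injective j ∧ x ≠ 0 ∧
      (∀ i, j (mu i) = lam i) ∧ (∀ i, (T i).baseChange O' x = mu i • x) ∧
      f.baseChange O' x = 0 := by
  classical
  have hOKb : Function.Injective (algebraMap O Kb) := by
    rw [IsScalarTower.algebraMap_eq O K Kb]
    exact (algebraMap K Kb).injective.comp (IsFractionRing.injective O K)
  haveI : FaithfulSMul O Kb := (faithfulSMul_iff_algebraMap_injective O Kb).mpr hOKb
  haveI : Module.IsTorsionFree O Kb := inferInstance
  haveI : Module.Flat O Kb := inferInstance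
  let Y : Submodule O H := LinearMap.ker f
  haveI : Module.Free O Y := Module.free_of_finite_type_torsion_free'
  haveI : Module.Finite O Y := inferInstance
  have hst : ∀ i, ∀ x ∈ Y, T i x ∈ Y := by
    intro i x hx
    rw [LinearMap.mem_ker] at hx ⊢
    rw [hf, hx, map_zero]
  let TY : ι → Module.End O Y := fun i => (T i).restrict (hst i)
  have hTY : ∀ i j, TY i * TY j = TY j * TY i := by
    intro i j
    apply LinearMap.ext
    intro x
    apply Subtype.ext
    exact LinearMap.congr_fun (hT i j) x.1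
  have hcomp : ∀ i, T i ∘ₗ Y.subtype = Y.subtype ∘ₗ TY i := fun i => LinearMap.ext fun x => rfl
  -- the vector in `Kb ⊗ Y`
  have hinjb : Function.Injective (Y.subtype.baseChange Kb) :=
    Module.Flat.lTensor_preserves_injective_linearMap (M := Kb) Y.subtype
      (Submodule.injective_subtype Y)
  obtain ⟨n, ev, xv, hev, hvx⟩ := exists_split hOKb v
  have hxv : ∀ k, f (xv k) = 0 := apply_eq_zero_of_split hev hvx f hfv
  let w : Kb ⊗[O] Y := ∑ k, ev k ⊗ₜ (⟨xv k, LinearMap.mem_ker.mpr (hxv k)⟩ : Y)
  have hw : Y.subtype.baseChange Kb w = v := by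
    rw [hvx, map_sum]
    rfl
  have hw0 : w ≠ 0 := fun h => hv0 (by rw [← hw, h, map_zero])
  have hwT : ∀ i, (TY i).baseChange Kb w = lam i • w := by
    intro i
    apply hinjb
    rw [map_smul, hw, ← hv i, ← hw, ← LinearMap.comp_apply, ← LinearMap.comp_apply,
      ← LinearMap.baseChange_comp, ← LinearMap.baseChange_comp, hcomp]
  -- the algebra
  let Kr : Ideal (MvPolynomial ι O) := RingHom.ker (act (O := O) TY hTY).toRingHom
  let A := MvPolynomial ι O ⧸ Kr
  let Φ : A →ₐ[O] Module.End O Y :=
    Ideal.Quotient.liftₐ Kr (act TY hTY) (fun P hP => RingHom.mem_ker.mp hP)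
  have hΦ : ∀ P, Φ (Ideal.Quotient.mk Kr P) = act TY hTY P := fun P => rfl
  have hΦinj : Function.Injective Φ := by
    rw [injective_iff_map_eq_zero]
    intro x hx
    obtain ⟨P, rfl⟩ := Ideal.Quotient.mk_surjective x
    rw [hΦ] at hx
    exact Ideal.Quotient.eq_zero_iff_mem.mpr (RingHom.mem_ker.mpr hx)
  haveI : IsNoetherian O (Module.End O Y) := isNoetherian_of_isNoetherianRing_of_finite O _
  haveI : Module.Finite O A := Module.Finite.of_injective Φ.toLinearMap hΦinj
  have hμ0 : ∀ t : A, ∃ c : Kb, (Φ t).baseChange Kb w = c • w := by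
    intro t
    obtain ⟨P, rfl⟩ := Ideal.Quotient.mk_surjective t
    exact ⟨_, by rw [hΦ]; exact baseChange_act_eigen TY hTY lam w hwT P⟩
  choose μ hμ using hμ0
  obtain ⟨O', i1, i2, i3, i4, i5, i6, i7, i8, i9, j, lam', x, hinj, hj, hx0, hjl, hx⟩ :=
    exists_lattice_eigen K Φ w hw0 μ hμ
  haveI : FaithfulSMul O O' := (faithfulSMul_iff_algebraMap_injective O O').mpr hinj
  haveI : Module.IsTorsionFree O O' := inferInstance
  haveI : Module.Flat O O' := inferInstance
  have hinj' : Function.Injective (Y.subtype.baseChange O') :=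
    Module.Flat.lTensor_preserves_injective_linearMap (M := O') Y.subtype
      (Submodule.injective_subtype Y)
  refine ⟨O', i1, i2, i3, i4, i5, i6, i7, i8, i9, j,
    fun i => lam' (Ideal.Quotient.mk Kr (MvPolynomial.X i)), Y.subtype.baseChange O' x, hinj, hj,
    ?_, ?_, ?_, ?_⟩
  · intro h
    exact hx0 (hinj' (h.trans (map_zero _).symm))
  · intro i
    rw [hjl]
    have h1 := hμ (Ideal.Quotient.mk Kr (MvPolynomial.X i))
    rw [hΦ, act_X, hwT] at h1
    exact (smul_left_injective Kb hw0 h1).symm
  · intro i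
    have h1 := hx (Ideal.Quotient.mk Kr (MvPolynomial.X i))
    rw [hΦ, act_X] at h1
    rw [← map_smul, ← h1, ← LinearMap.comp_apply, ← LinearMap.comp_apply,
      ← LinearMap.baseChange_comp, ← LinearMap.baseChange_comp, hcomp]
  · have h2 : f ∘ₗ Y.subtype = 0 := LinearMap.ext fun x => x.2
    rw [← LinearMap.comp_apply, ← LinearMap.baseChange_comp, h2, LinearMap.baseChange_zero,
      LinearMap.zero_apply]

end Ker

section BC

variable {R R' : Type*} [CommRing R] [CommRing R'] (f : R →+* R') {M M' : ℕ}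

/-- change of coefficients for `H¹(Γ₀(M), R)` -/
def hhS : HH R M →ₛₗ[f] HH R' M :=
  H1.mapS (semi f) (fun s v => by rw [slash_triv, slash_triv])

lemma opH_hhS (h : HFam (gam 1 M (one_dvd M)) (gam 1 M' (one_dvd M'))) (x : HH R M) :
    h.opH (psiRep (1 : (ZMod 1)ˣ →* R'ˣ) R') (hhS f x) =
      hhS f (h.opH (psiRep (1 : (ZMod 1)ˣ →* Rˣ) R) x) :=
  opH_mapS h (semi f) (fun s v => by rw [slash_triv, slash_triv]) x

lemma hhEquiv_hhS (x : HH R M) (γ : Gamma0 M) :
    (hhEquiv (R := R') (M := M) (hhS f x)).1 γ = f ((hhEquiv (R := R) (M := M) x).1 γ) := by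
  obtain ⟨c, rfl⟩ := Submodule.mkQ_surjective _ x
  rfl

variable {O O' K : Type} [CommRing O] [IsDomain O] [IsPrincipalIdealRing O] [CommRing O']
  [IsDomain O'] [Field K] [Algebra O O']
  [Algebra O' K] [Algebra O K] [IsScalarTower O O' K]

variable (M K) in
/-- the `O`-linear change of coefficients -/
def hhL (O : Type) [CommRing O] [Algebra O K] : HH O M →ₗ[O] HH K M where
  toFun := hhS (algebraMap O K)
  map_add' a b := map_add _ a b
  map_smul' r a := by
    rw [map_smulₛₗ, RingHom.id_apply, algebraMap_smul]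

variable (M K O O') in
/-- base change to the field -/
def hhBC : O' ⊗[O] HH O M →ₗ[O'] HH K M :=
  LinearMap.liftBaseChange O' (hhL M K O)

lemma hhBC_tmul (r : O') (x : HH O M) :
    hhBC M O O' K (r ⊗ₜ x) = r • hhS (algebraMap O K) x :=
  LinearMap.liftBaseChange_tmul ..

lemma hhBC_opH (h : HFam (gam 1 M (one_dvd M)) (gam 1 M' (one_dvd M'))) (x : O' ⊗[O] HH O M) :
    hhBC M' O O' K ((h.opH (psiRep (1 : (ZMod 1)ˣ →* Oˣ) O)).baseChange O' x) =
      h.opH (psiRep (1 : (ZMod 1)ˣ →* Kˣ) K) (hhBC M O O' K x) := by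
  induction x using TensorProduct.induction_on with
  | zero => simp only [map_zero]
  | add x y hx hy => rw [map_add, map_add, hx, hy, map_add, map_add]
  | tmul r x =>
    rw [LinearMap.baseChange_tmul, hhBC_tmul, hhBC_tmul, ← opH_hhS,
      ← algebraMap_smul K r (hhS (algebraMap O K) x), map_smul, algebraMap_smul]

theorem hhBC_injective (hinj : Function.Injective (algebraMap O O'))
    (hinj' : Function.Injective (algebraMap O' K)) :
    Function.Injective (hhBC M O O' K) := by
  rw [injective_iff_map_eq_zero]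
  intro x hx
  obtain ⟨n, e, y, he, hxe⟩ := exists_split hinj x
  have key : ∀ k, y k = 0 := by
    have h1 : ∀ γ : Gamma0 M, ∑ k, (hhEquiv (R := O) (M := M) (y k)).1 γ • e k = 0 := by
      intro γ
      apply hinj'
      rw [map_zero, map_sum]
      have h2 : (hhEquiv (R := K) (M := M) (hhBC M O O' K x)).1 γ = 0 := by rw [hx, map_zero]; rfl
      rw [hxe, map_sum, map_sum, AddSubmonoidClass.coe_finsetSum, Finset.sum_apply] at h2
      rw [← h2]
      refine Finset.sum_congr rfl fun k _ => ?_
      have h4 : hhBC M O O' K (e k ⊗ₜ y k) =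
          algebraMap O' K (e k) • hhS (algebraMap O K) (y k) := by
        rw [hhBC_tmul, algebraMap_smul]
      have h5 := (hhEquiv (R := K) (M := M)).map_smul (algebraMap O' K (e k))
        (hhS (algebraMap O K) (y k))
      rw [h4, h5]
      have h6 : (algebraMap O' K (e k) • hhEquiv (R := K) (M := M)
          (hhS (algebraMap O K) (y k))).1 γ =
          algebraMap O' K (e k) * (hhEquiv (R := K) (M := M) (hhS (algebraMap O K) (y k))).1 γ :=
        rfl
      rw [h6, hhEquiv_hhS, Algebra.smul_def, map_mul, ← IsScalarTower.algebraMap_apply, mul_comm]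
    intro k
    apply (hhEquiv (R := O) (M := M)).injective
    rw [map_zero]
    apply Subtype.ext
    funext γ
    exact (Fintype.linearIndependent_iff.mp he) _ (h1 γ) k
  rw [hxe]
  exact Finset.sum_eq_zero fun k _ => by rw [key k, TensorProduct.tmul_zero]

end BC

end Fermat.Agent.H37.NN
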