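import Fermat.Agent.H37RankTW

/-!
# A local idempotent for the level `M'` is a local idempotent for every level `M ∣ M'`
-/

set_option autoImplicit false
set_option linter.unusedSectionVars false

open CongruenceSubgroup Matrix.SpecialLinearGroup
open scoped MatrixGroups

noncomputable section

namespace Fermat.Agent.H37.NN

open Fermat.Agent.H59 Fermat.Agent.H37.Rank Fermat.Agent.H70.Coh Fermat.Agent.H37.Tr

section Inj

variable {O ι H H' κ : Type} [CommRing O] [AddCommGroup H] [Module O H] [AddCommGroup H']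
  [Module O H'] [Field κ]

/-- passing to a submodule -/
theorem isLocIdem_of_injective (T : ι → Module.End O H) (hT : ∀ i j, T i * T j = T j * T i)
    (T' : ι → Module.End O H') (hT' : ∀ i j, T' i * T' j = T' j * T' i)
    (f : H →ₗ[O] H') (hf : Function.Injective f) (h : ∀ i x, f (T i x) = T' i (f x))
    {θ : MvPolynomial ι O →+* κ} {e : MvPolynomial ι O} (he : IsLocIdem T' hT' θ e) :
    IsLocIdem T hT θ e where
  residue := he.residue
  idem := by
    apply LinearMap.ext
    intro x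
    apply hf
    have key : ∀ P x, f (act T hT P x) = act T' hT' P (f x) := fun P x =>
      map_act_apply (Λ := O) (Λ' := O) f.toAddMonoidHom (fun a x => map_smul f a x) h P x
    rw [Module.End.mul_apply, key, key]
    exact LinearMap.congr_fun he.idem (f x)
  inv s hs := by
    have key : ∀ P x, f (act T hT P x) = act T' hT' P (f x) := fun P x =>
      map_act_apply (Λ := O) (Λ' := O) f.toAddMonoidHom (fun a x => map_smul f a x) h P x
    obtain ⟨s', hs'⟩ := he.inv s hs
    refine ⟨s', LinearMap.ext fun x => hf ?_⟩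
    rw [key, key]
    exact LinearMap.congr_fun hs' (f x)

end Inj

section Res

variable {O : Type} [CommRing O] {M M' : ℕ}

/-- restriction -/
def resHH (O : Type) [CommRing O] (h : M ∣ M') : HH O M →ₗ[O] HH O M' :=
  (Fermat.Agent.H37.Tr.resFam (one_dvd M) h).opH (psiRep (1 : (ZMod 1)ˣ →* Oˣ) O)

lemma gamma0_le (h : M ∣ M') (γ : Gamma0 M') : (γ : SL(2, ℤ)) ∈ Gamma0 M := by
  rw [Gamma0_mem, ZMod.intCast_zmod_eq_zero_iff_dvd]
  exact (Int.natCast_dvd_natCast.mpr h).trans (gamma0_dvd γ)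

lemma hhEquiv_resHH (h : M ∣ M') (x : HH O M) (γ : Gamma0 M') :
    (hhEquiv (R := O) (M := M') (resHH O h x)).1 γ =
      (hhEquiv (R := O) (M := M) x).1 ⟨γ, gamma0_le h γ⟩ := by
  obtain ⟨c, rfl⟩ := Submodule.mkQ_surjective _ x
  change ((Fermat.Agent.H37.Tr.resFam (one_dvd M) h).op (psiRep (1 : (ZMod 1)ˣ →* Oˣ) O) c).1 γ =
    c.1 ⟨γ, gamma0_le h γ⟩
  rw [HFam.op_apply_of_eq (Fermat.Agent.H37.Tr.resFam (one_dvd M) h) _ γ 1
    (fun _ => ⟨γ, gamma0_le h γ⟩) (fun i => by
      apply dn_ext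
      change 1 * _ = _ * 1
      rw [one_mul, mul_one]
      rfl)]
  simp only [slash_triv]
  exact Fintype.sum_unique (ι := Unit) (fun _ => c.1 ⟨γ, gamma0_le h γ⟩)

lemma resHH_injective [IsDomain O] [CharZero O] [NeZero M'] (h : M ∣ M') :
    Function.Injective (resHH O h) := by
  rw [injective_iff_map_eq_zero]
  intro x hx
  apply (hhEquiv (R := O) (M := M)).injective
  rw [map_zero]
  apply Subtype.ext
  funext γ
  set c := hhEquiv (R := O) (M := M) x with hc
  have hpow : ∀ n : ℕ, c.1 (γ ^ n) = n * c.1 γ := by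
    intro n
    induction n with
    | zero =>
      have h1 := c.2 1 1
      rw [slash_triv, mul_one] at h1
      rw [pow_zero, Nat.cast_zero, zero_mul]
      exact left_eq_add.mp h1
    | succ n ih =>
      have h1 := c.2 (γ ^ n) γ
      rw [slash_triv] at h1
      rw [pow_succ, h1, ih]
      push_cast
      ring
  obtain ⟨n, hn, -, hmem⟩ := Subgroup.exists_pow_mem_of_index_ne_zero
    (H := Gamma0 M') Subgroup.FiniteIndex.index_ne_zero (γ : SL(2, ℤ))
  have h2 := hhEquiv_resHH h x ⟨_, hmem⟩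
  rw [hx, map_zero] at h2
  have h3 : (⟨(γ : SL(2, ℤ)) ^ n, gamma0_le h ⟨_, hmem⟩⟩ : Gamma0 M) = γ ^ n := by
    apply Subtype.ext
    rfl
  rw [h3, ← hc, hpow] at h2
  have h4 : (0 : O) = n * c.1 γ := h2
  rcases mul_eq_zero.mp h4.symm with h5 | h5
  · exact absurd h5 (Nat.cast_ne_zero.mpr hn.ne')
  · exact h5

lemma resHH_TT {S : Set ℕ} (h : M ∣ M') (hS : Adm S M') (i : Pr S) (x : HH O M) :
    resHH O h (TT O (hS.of_dvd h) i x) = TT O hS i (resHH O h x) :=
  tFam_resFam (one_dvd M) h i.2.1 _ x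

/-- **Local idempotents for lower levels.** -/
theorem isLocIdem_of_dvd [IsDomain O] [CharZero O] [NeZero M'] {S : Set ℕ} {κ : Type} [Field κ]
    {θ : MvPolynomial (Pr S) O →+* κ} {e : MvPolynomial (Pr S) O} (h : M ∣ M') (hS : Adm S M')
    (he : IsLocIdem (TT O hS) (TT_comm hS) θ e) :
    IsLocIdem (TT O (hS.of_dvd h)) (TT_comm (hS.of_dvd h)) θ e :=
  isLocIdem_of_injective _ _ _ _ (resHH O h) (resHH_injective h) (resHH_TT h hS) he

end Res

end Fermat.Agent.H37.NN
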