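import Mathlib

/-!
# Partial summation: `∑_{n ≤ X} l n ≤ C X` implies `∑ l n / n ^ s ≤ 2 C / (s - 1)`
-/

set_option autoImplicit false

open Finset

namespace Fermat.Agent.H37N

/-- **Abel's inequality** for a non-increasing weight: if the partial sums of `l` are at most
`C * N`, then `∑ l n w n ≤ C ∑ w n`. -/
theorem sum_mul_le_of_partial {l w : ℕ → ℝ} {C : ℝ} (hw : ∀ n, 1 ≤ n → w (n + 1) ≤ w n)
    (hw0 : ∀ n, 1 ≤ n → 0 ≤ w n)
    (hl : ∀ N : ℕ, ∑ n ∈ Icc 1 N, l n ≤ C * N) (N : ℕ) :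
    ∑ n ∈ Icc 1 N, l n * w n ≤ C * ∑ n ∈ Icc 1 N, w n := by
  have key : ∀ N : ℕ, (C * (N + 1 : ℕ) - ∑ n ∈ Icc 1 (N + 1), l n) * w (N + 1) ≤
      ∑ n ∈ Icc 1 (N + 1), (C - l n) * w n := by
    intro N
    induction N with
    | zero => simp
    | succ N ih =>
      rw [sum_Icc_succ_top (by omega : 1 ≤ N + 1 + 1), sum_Icc_succ_top (by omega : 1 ≤ N + 1 + 1)]
      have h1 := hl (N + 1)
      have h2 := hw (N + 1) (by omega)
      have h3 : (C * (N + 1 : ℕ) - ∑ n ∈ Icc 1 (N + 1), l n) * w (N + 1 + 1) ≤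
          (C * (N + 1 : ℕ) - ∑ n ∈ Icc 1 (N + 1), l n) * w (N + 1) :=
        mul_le_mul_of_nonneg_left h2 (by linarith)
      push_cast at h3 ih ⊢
      nlinarith
  rcases Nat.eq_zero_or_pos N with rfl | hN
  · simp
  · obtain ⟨M, rfl⟩ : ∃ M, N = M + 1 := ⟨N - 1, by omega⟩
    have h1 := key M
    have h2 : 0 ≤ (C * (M + 1 : ℕ) - ∑ n ∈ Icc 1 (M + 1), l n) * w (M + 1) :=
      mul_nonneg (by linarith [hl (M + 1)]) (hw0 _ (by omega))
    have h3 : ∑ n ∈ Icc 1 (M + 1), (C - l n) * w n =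
        C * ∑ n ∈ Icc 1 (M + 1), w n - ∑ n ∈ Icc 1 (M + 1), l n * w n := by
      rw [mul_sum, ← sum_sub_distrib]
      exact sum_congr rfl fun _ _ => by ring
    linarith

/-- `∑_{n ≤ N} n ^ (-s) ≤ s / (s - 1)` for `s > 1`. -/
theorem sum_rpow_le {s : ℝ} (hs : 1 < s) (N : ℕ) :
    ∑ n ∈ Icc 1 N, (n : ℝ) ^ (-s) ≤ s / (s - 1) := by
  have hs1 : 0 < s - 1 := by linarith
  -- the step
  have step : ∀ n : ℕ, 1 ≤ n → (s - 1) * ((n + 1 : ℕ) : ℝ) ^ (-s) ≤
      (n : ℝ) ^ (1 - s) - ((n + 1 : ℕ) : ℝ) ^ (1 - s) := by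
    intro n hn
    have hn0 : (0 : ℝ) < n := by exact_mod_cast hn
    -- convexity of `x ↦ x ^ (1 - s)`: tangent line at `n + 1`
    have hx : (0 : ℝ) < (n : ℝ) / (n + 1) := by positivity
    have h1 : 1 + (1 - s) * ((n : ℝ) / (n + 1) - 1) ≤ ((n : ℝ) / (n + 1)) ^ (1 - s) := by
      rw [Real.rpow_def_of_pos hx]
      have h2 := Real.add_one_le_exp (Real.log ((n : ℝ) / (n + 1)) * (1 - s))
      have h3 := Real.log_le_sub_one_of_pos hx
      nlinarith
    have h4 : ((n : ℝ) / (n + 1)) ^ (1 - s) =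
        (n : ℝ) ^ (1 - s) / ((n : ℝ) + 1) ^ (1 - s) :=
      Real.div_rpow hn0.le (by positivity) _
    have h5 : (0 : ℝ) < ((n : ℝ) + 1) ^ (1 - s) := Real.rpow_pos_of_pos (by positivity) _
    rw [h4, le_div_iff₀ h5] at h1
    have h6 : ((n : ℝ) + 1) ^ (1 - s) = ((n : ℝ) + 1) * ((n : ℝ) + 1) ^ (-s) := by
      rw [show (1 : ℝ) - s = 1 + -s by ring, Real.rpow_add (by positivity), Real.rpow_one]
    push_cast
    have h7 : (1 + (1 - s) * ((n : ℝ) / (n + 1) - 1)) * ((n : ℝ) + 1) ^ (1 - s) =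
        ((n : ℝ) + 1) ^ (1 - s) + (s - 1) * ((n : ℝ) + 1) ^ (-s) := by
      rw [h6]
      have h8 : (n : ℝ) + 1 ≠ 0 := by positivity
      field_simp
      ring
    rw [h7] at h1
    linarith
  have key : ∀ N : ℕ, (s - 1) * ∑ n ∈ Icc 1 (N + 1), (n : ℝ) ^ (-s) ≤
      s - ((N + 1 : ℕ) : ℝ) ^ (1 - s) := by
    intro N
    induction N with
    | zero => simp
    | succ N ih =>
      rw [sum_Icc_succ_top (by omega : 1 ≤ N + 1 + 1), mul_add]
      have := step (N + 1) (by omega)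
      linarith
  rw [le_div_iff₀ hs1, mul_comm]
  rcases Nat.eq_zero_or_pos N with rfl | hN
  · simp; linarith
  · obtain ⟨M, rfl⟩ : ∃ M, N = M + 1 := ⟨N - 1, by omega⟩
    have h1 := key M
    have h2 : (0 : ℝ) ≤ ((M + 1 : ℕ) : ℝ) ^ (1 - s) := Real.rpow_nonneg (by positivity) _
    linarith

/-- **Partial summation.** Non-negative coefficients with partial sums `≤ C X` have a Dirichlet
series `≤ 2 C / (s - 1)` for `1 < s ≤ 2`. -/
theorem summable_and_le {l : ℕ → ℝ} {C : ℝ} (hl0 : ∀ n, 0 ≤ l n) (hC : 0 ≤ C)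
    (hl : ∀ N : ℕ, ∑ n ∈ Icc 1 N, l n ≤ C * N) {s : ℝ} (hs : 1 < s) (hs2 : s ≤ 2) :
    Summable (fun n : ℕ => l n / (n : ℝ) ^ s) ∧
      ∑' n : ℕ, l n / (n : ℝ) ^ s ≤ 2 * C / (s - 1) := by
  have hs1 : 0 < s - 1 := by linarith
  have hterm : ∀ n : ℕ, 0 ≤ l n / (n : ℝ) ^ s := fun n =>
    div_nonneg (hl0 n) (Real.rpow_nonneg (Nat.cast_nonneg n) _)
  have hbound : ∀ N : ℕ, ∑ n ∈ range N, l n / (n : ℝ) ^ s ≤ 2 * C / (s - 1) := by
    intro N
    have h1 : ∑ n ∈ range N, l n / (n : ℝ) ^ s ≤ ∑ n ∈ Icc 1 N, l n * (n : ℝ) ^ (-s) := by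
      rw [← sum_filter_add_sum_filter_not (range N) (fun n => n = 0)]
      have h2 : ∑ n ∈ (range N).filter (fun n => n = 0), l n / (n : ℝ) ^ s = 0 := by
        refine sum_eq_zero fun n hn => ?_
        rw [(mem_filter.mp hn).2]
        rw [Nat.cast_zero, Real.zero_rpow (by linarith), div_zero]
      rw [h2, zero_add]
      have h3 : ∀ n ∈ (range N).filter (fun n => ¬ n = 0), l n / (n : ℝ) ^ s =
          l n * (n : ℝ) ^ (-s) := by
        intro n _
        rw [Real.rpow_neg (Nat.cast_nonneg n), div_eq_mul_inv]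
      rw [sum_congr rfl h3]
      refine sum_le_sum_of_subset_of_nonneg (fun n hn => ?_) fun n _ _ =>
        mul_nonneg (hl0 n) (Real.rpow_nonneg (Nat.cast_nonneg n) _)
      rw [mem_filter, mem_range] at hn
      rw [mem_Icc]
      omega
    have h4 := sum_mul_le_of_partial (l := l) (w := fun n => (n : ℝ) ^ (-s)) (C := C)
      (fun n hn => by
        refine Real.rpow_le_rpow_of_nonpos (by exact_mod_cast hn) ?_ (by linarith)
        push_cast
        linarith)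
      (fun n _ => Real.rpow_nonneg (Nat.cast_nonneg n) _) hl N
    have h5 := mul_le_mul_of_nonneg_left (sum_rpow_le hs N) hC
    have h6 : C * (s / (s - 1)) ≤ 2 * C / (s - 1) := by
      rw [← mul_div_assoc]
      refine div_le_div_of_nonneg_right ?_ hs1.le
      nlinarith
    linarith
  exact ⟨summable_of_sum_range_le hterm hbound, Real.tsum_le_of_sum_range_le hterm hbound⟩

end Fermat.Agent.H37N
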