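import Fermat.Agent.H37NPartial
import Fermat.Agent.H37NLattice
import Fermat.Agent.H22ZK0

/-!
# `N4`: from the mean square bound to the Dirichlet series bound
-/

set_option autoImplicit false

open Complex Set
open scoped Real

noncomputable section

namespace Fermat.Agent.H37N

/-- `summable_and_le` with the weights written `l n * n ^ (-s)`. -/
theorem summable_and_le' {l : ℕ → ℝ} {C : ℝ} (hl0 : ∀ n, 0 ≤ l n) (hC : 0 ≤ C)
    (hl : ∀ N : ℕ, ∑ n ∈ Finset.Icc 1 N, l n ≤ C * N) {s : ℝ} (hs : 1 < s) (hs2 : s ≤ 2) :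
    Summable (fun n : ℕ => l n * (n : ℝ) ^ (-s)) ∧
      ∑' n : ℕ, l n * (n : ℝ) ^ (-s) ≤ 2 * C / (s - 1) := by
  have h := summable_and_le hl0 hC hl hs hs2
  have he : (fun n : ℕ => l n * (n : ℝ) ^ (-s)) = fun n : ℕ => l n / (n : ℝ) ^ s := by
    funext n
    rw [Real.rpow_neg (Nat.cast_nonneg n), div_eq_mul_inv]
  rw [he]
  exact h

/-- The purely real lemma of block (N): partial sums `≤ C (X + 1)` give `hL`. -/
theorem exists_dirichlet_bound {l : ℕ → ℝ} (hl0 : ∀ n, 0 ≤ l n) {C : ℝ}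
    (hl : ∀ X : ℕ, ∑ n ∈ Finset.range (X + 1), l n ≤ C * (X + 1)) :
    ∃ CL : ℝ, ∀ s : ℝ, 1 < s → s ≤ 2 → Summable (fun n : ℕ => l n * (n : ℝ) ^ (-s)) ∧
      ∑' n : ℕ, l n * (n : ℝ) ^ (-s) ≤ CL / (s - 1) := by
  have hC : 0 ≤ C := by
    have h := hl 0
    simp only [zero_add, Finset.sum_range_one, Nat.cast_zero, mul_one] at h
    exact (hl0 0).trans h
  refine ⟨2 * (2 * C), fun s hs hs2 => summable_and_le' hl0 (by positivity) (fun N => ?_) hs hs2⟩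
  rcases Nat.eq_zero_or_pos N with rfl | hN
  · simp
  · have h1 : ∑ n ∈ Finset.Icc 1 N, l n ≤ ∑ n ∈ Finset.range (N + 1), l n :=
      Finset.sum_le_sum_of_subset_of_nonneg (fun n hn => by
        rw [Finset.mem_Icc] at hn
        rw [Finset.mem_range]
        omega) fun n _ _ => hl0 n
    have h2 := hl N
    have h3 : (1 : ℝ) ≤ N := by exact_mod_cast hN
    nlinarith

/-- `4 π / √3` -/
def kap : ℝ := 4 * π / √3

lemma kap_pos : 0 < kap := by
  unfold kap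
  positivity

open Fermat.Agent.H22Z in
/-- **Mean square bound, Bessel form.** `F (z, y) = ∑ c α (y K₀ (4π|α|y/√3)) e(Tr(αz/√-3))`
bounded by `B` for one value of `y` and all `z`, `X = y⁻²`. -/
theorem mean_square_K0 {O : Type*} (v : O → ℂ) (hv : Function.Injective v)
    (hr : ∀ α, ∃ a b : ℤ, v α = a + b * w3) (c : O → ℂ) {B : ℝ}
    (hsum : ∀ y : ℝ, 0 < y → Summable fun α => ‖c α * (y * K0 (kap * ‖v α‖ * y) : ℝ)‖)
    (hB : ∀ (z : ℂ) (y : ℝ), 0 < y →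
      ‖∑' α, c α * (y * K0 (kap * ‖v α‖ * y) : ℝ) *
        cexp ((4 * π * (v α * z).im / √3 : ℝ) * I)‖ ≤ B)
    {X : ℝ} (hX : 0 < X) (S : Finset O) (hS0 : ∀ α ∈ S, v α ≠ 0) (hS : ∀ α ∈ S, ‖v α‖ ^ 2 ≤ X) :
    ∑ α ∈ S, ‖c α‖ ^ 2 ≤ (B / K0 kap) ^ 2 * X :=
  mean_square v hv hr c kap_pos (K0_pos kap_pos) (fun _ hx hxk => K0_le_of_le hx hxk)
    hsum hB hX S hS0 hS

end Fermat.Agent.H37N
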