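import Fermat.Agent.H37NNLat
import Fermat.Agent.H37NNGal
import Fermat.Agent.H37NNRes
import Fermat.Agent.H70HH

/-!
# No newforms at Taylor–Wiles primes; bounded rank; vanishing
-/

set_option autoImplicit false
set_option linter.style.haveILetI false
set_option linter.unusedSectionVars false

open CongruenceSubgroup IsLocalRing TensorProduct

noncomputable section

namespace Fermat.Agent.H37.NN

open Fermat.Agent.H59 Fermat.Agent.H35 Fermat.Agent.H37.Rank Fermat.Agent.H70.Coh

local notation "Qb" => AlgebraicClosure ℚ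
local notation "Gq" => (AlgebraicClosure ℚ ≃ₐ[ℚ] AlgebraicClosure ℚ)

section Residue

variable {O : Type} [CommRing O] {ι H : Type} [AddCommGroup H] [Module O H]

/-- a polynomial in operators acts on a common eigenvector by the value of the polynomial -/
lemma baseChange_act_eigen' {O' : Type} [CommRing O'] [Algebra O O'] (T : ι → Module.End O H)
    (hT : ∀ i j, T i * T j = T j * T i)
    (lam : ι → O') (v : O' ⊗[O] H) (hv : ∀ i, (T i).baseChange O' v = lam i • v)
    (P : MvPolynomial ι O) :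
    (act (O := O) T hT P).baseChange O' v = MvPolynomial.aeval lam P • v := by
  induction P using MvPolynomial.induction_on with
  | C a =>
    rw [act_C, MvPolynomial.aeval_C, Module.algebraMap_end_eq_smul_id, LinearMap.baseChange_smul,
      LinearMap.smul_apply, LinearMap.baseChange_id, LinearMap.id_apply, algebraMap_smul]
  | add P Q hP hQ => rw [map_add, LinearMap.baseChange_add, LinearMap.add_apply, hP, hQ, map_add,
      add_smul]
  | mul_X P i hP =>
    rw [map_mul, act_X, Module.End.mul_eq_comp, LinearMap.baseChange_comp, LinearMap.comp_apply, hv,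
      map_smul, hP, map_mul, MvPolynomial.aeval_X, smul_smul, mul_comm]

variable [IsLocalRing O]

/-- **The residual eigensystem of an eigenvector in the localised module.** -/
theorem residue_aeval_eq (T : ι → Module.End O H) (hT : ∀ i j, T i * T j = T j * T i)
    {θ : MvPolynomial ι O →+* ResidueField O} (hθ : ∀ a : O, θ (MvPolynomial.C a) = residue O a)
    {e : MvPolynomial ι O} (he : IsLocIdem T hT θ e)
    {O' : Type} [CommRing O'] [IsLocalRing O'] [Finite (ResidueField O')]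
    [Algebra O O'] [IsLocalHom (algebraMap O O')]
    (mu : ι → O') {x : O' ⊗[O] H} (hcancel : ∀ c : O', c • x = x → c = 1)
    (hx : ∀ i, (T i).baseChange O' x = mu i • x) (hmu : MvPolynomial.aeval mu e = 1)
    (P : MvPolynomial ι O) :
    residue O' (MvPolynomial.aeval mu P) = ResidueField.map (algebraMap O O') (θ P) := by
  let φ : MvPolynomial ι O →+* ResidueField O' :=
    (residue O').comp (MvPolynomial.aeval mu : MvPolynomial ι O →ₐ[O] O').toRingHom
  have hφ : ∀ P, φ P = residue O' (MvPolynomial.aeval mu P) := fun P => rfl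
  have h1 : ∀ P, θ P ≠ 0 → φ P ≠ 0 := by
    intro P hP
    obtain ⟨s', hs'⟩ := he.inv P hP
    have h2 : (act T hT (P * s' * e)).baseChange O' x = (act T hT e).baseChange O' x := by
      rw [hs']
    rw [baseChange_act_eigen' T hT mu x hx, baseChange_act_eigen' T hT mu x hx, map_mul, map_mul,
      hmu, mul_one, one_smul] at h2
    have h3 := hcancel _ h2
    have h4 : φ P * residue O' (MvPolynomial.aeval mu s') = 1 := by
      rw [hφ, ← map_mul, h3, map_one]
    intro h0
    rw [h0, zero_mul] at h4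
    exact zero_ne_one h4
  have h2 : ∀ P, θ P = 0 → φ P = 0 := by
    intro P hP
    by_contra hne
    haveI : Fintype (ResidueField O') := Fintype.ofFinite _
    have h3 : φ P ^ (Fintype.card (ResidueField O') - 1) = 1 :=
      FiniteField.pow_card_sub_one_eq_one _ hne
    have hc : Fintype.card (ResidueField O') - 1 ≠ 0 := by
      have := Fintype.one_lt_card (α := ResidueField O')
      omega
    refine h1 (1 - P ^ (Fintype.card (ResidueField O') - 1)) ?_ ?_
    · rw [map_sub, map_one, map_pow, hP, zero_pow hc, sub_zero]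
      exact one_ne_zero
    · rw [map_sub, map_one, map_pow, h3, sub_self]
  obtain ⟨a, ha⟩ := residue_surjective (θ P)
  have h3 := h2 (P - MvPolynomial.C a) (by rw [map_sub, hθ, ha, sub_self])
  rw [map_sub, sub_eq_zero] at h3
  rw [← hφ, h3, hφ, MvPolynomial.aeval_C, ← ha, ResidueField.map_residue]

end Residue

section NoNew

variable {O : Type} [CommRing O] [IsDomain O] [IsDiscreteValuationRing O]
  [IsAdicComplete (maximalIdeal O) O] [Finite (ResidueField O)] [CharZero O]
  (K : Type) [Field K] [Algebra O K] [IsFractionRing O K]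
  {Kb : Type} [Field Kb] [Algebra K Kb] [Algebra O Kb] [IsScalarTower O K Kb]
  {p : ℕ} [Fact p.Prime] {S : Finset ℕ}

/-- `ρbar` is attached to the residual eigensystem `θ`. -/
def IsAtt (S : Finset ℕ) (θ : MvPolynomial (Pr (↑S : Set ℕ)) O →+* ResidueField O)
    (ρbar : ResidualGaloisRep (ResidueField O)) : Prop :=
  ∀ (ℓ : ℕ) (hℓ : ℓ.Prime) (hℓS : ℓ ∉ (↑S : Set ℕ)) (A : ValuationSubring Qb),
    A.LiesOverPrime ℓ → ∀ φ : Gq, A.IsFrobeniusAt φ ℓ →
      LinearMap.charpoly (ρbar.ρ φ) = Polynomial.X ^ 2 -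
        Polynomial.C (θ (MvPolynomial.X ⟨ℓ, hℓ, hℓS⟩)) * Polynomial.X +
          Polynomial.C ((ℓ : ResidueField O))

/-- Frobenius at `q` has distinct eigenvalues. -/
def FrobDist {k : Type} [Field k] (ρbar : ResidualGaloisRep k) (q : ℕ) : Prop :=
  ∃ A : ValuationSubring Qb, A.LiesOverPrime q ∧ ∃ φ : Gq, A.IsFrobeniusAt φ q ∧
    ∃ α β : k, α ≠ β ∧ LinearMap.charpoly (ρbar.ρ φ) =
      (Polynomial.X - Polynomial.C α) * (Polynomial.X - Polynomial.C β)

include K in
/-- **No new eigenvectors at Taylor–Wiles primes.** -/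
theorem noNew (hp2 : p ≠ 2) (hpO : (p : O) ∈ maximalIdeal O) (hpS : p ∈ S)
    {θ : MvPolynomial (Pr (↑S : Set ℕ)) O →+* ResidueField O}
    (hθ : ∀ a : O, θ (MvPolynomial.C a) = residue O a)
    (ρbar : ResidualGaloisRep (ResidueField O)) (hirr : ρbar.IsIrreducible)
    (hfr : IsAtt S θ ρbar) {e : MvPolynomial (Pr (↑S : Set ℕ)) O} {M q : ℕ} [NeZero M] [NeZero q]
    (hq1 : q.Prime → p ∣ q - 1) (hdist : q.Prime → FrobDist ρbar q)
    (he : ∀ hS : Adm (↑S : Set ℕ) (M * q), IsLocIdem (TT O hS) (TT_comm hS) θ e) :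
    NoNew Kb (↑S : Set ℕ) e M q := by
  intro hq hqM hS lam v hv0 hv hlam h1 h2
  haveI : NeZero (M * q) := ⟨mul_ne_zero (NeZero.ne M) (NeZero.ne q)⟩
  haveI : Module.Free O (HH O M) := Module.free_of_finite_type_torsion_free'
  haveI : Module.Free O (HH O (M * q)) := Module.free_of_finite_type_torsion_free'
  have hS' : Adm (↑S : Set ℕ) M := hS.of_dvd (Dvd.intro q rfl)
  obtain ⟨O', i1, i2, i3, i4, i5, i6, i7, i8, i9, j, mu, x, hinj, hj, hx0, hjl, hx, hfx⟩ :=
    exists_lattice_eigen_ker K (TT O hS) (TT_comm hS) ((tr1 O M q).prod (tr2 O M hq))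
      (fun i => (TT O hS' i).prodMap (TT O hS' i)) (fun i x => by
        rw [LinearMap.prod_apply, LinearMap.prod_apply]
        exact Prod.ext (tr1_TT hq hqM hS i x) (tr2_TT hq hqM hS i x)) lam v hv0 hv
      (H62.baseChange_prod_eq_zero h1 h2)
  have hfx1 : (tr1 O M q).baseChange O' x = 0 := by
    have h3 : tr1 O M q = LinearMap.fst O (HH O M) (HH O M) ∘ₗ
        ((tr1 O M q).prod (tr2 O M hq)) := (LinearMap.fst_prod _ _).symm
    rw [h3, LinearMap.baseChange_comp, LinearMap.comp_apply, hfx, map_zero]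
  have hfx2 : (tr2 O M hq).baseChange O' x = 0 := by
    have h3 : tr2 O M hq = LinearMap.snd O (HH O M) (HH O M) ∘ₗ
        ((tr1 O M q).prod (tr2 O M hq)) := (LinearMap.snd_prod _ _).symm
    rw [h3, LinearMap.baseChange_comp, LinearMap.comp_apply, hfx, map_zero]
  have hmu : MvPolynomial.aeval mu e = 1 := by
    apply hj
    rw [map_one, ← hlam, MvPolynomial.comp_aeval_apply]
    congr 2
    funext i
    exact hjl i
  have hcancel : ∀ c : O', c • x = x → c = 1 := by
    intro c hc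
    have h6 : c • x - (1 : O') • x = 0 := by rw [one_smul, hc, sub_self]
    have h5 : (c - 1) • x = 0 := (sub_smul c (1 : O') x).trans h6
    exact sub_eq_zero.mp ((smul_eq_zero.mp h5).resolve_right hx0)
  have hres := residue_aeval_eq (TT O hS) (TT_comm hS) hθ (he hS) mu hcancel hx hmu
  let K1 := FractionRing O'
  have hinj' : Function.Injective (algebraMap O' K1) := IsFractionRing.injective O' K1
  let y : HH K1 (M * q) := hhBC (M * q) O O' K1 x
  have hy0 : y ≠ 0 := fun h => hx0 (hhBC_injective hinj hinj' (h.trans (map_zero _).symm))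
  classical
  let lam' : ℕ → O' := fun ℓ => if h : ℓ.Prime ∧ ℓ ∉ (↑S : Set ℕ) then mu ⟨ℓ, h⟩ else 0
  have hlam' : ∀ i : Pr (↑S : Set ℕ), lam' i.1 = mu i := fun i => dif_pos i.2
  have hp' : (p : O') ∈ maximalIdeal O' := by
    have := map_nonunit (algebraMap O O') _ hpO
    rwa [map_natCast] at this
  refine no_new_point (p := p) (S := S) (𝒪' := O') hp2 hpS hp' (M := M) (q := q) hq hqM
    (fun r hr hrd => hS r hr hrd) (hq1 hq) (k := ResidueField O)
    (ResidueField.map (algebraMap O O'))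
    (a := fun ℓ hℓ hℓS => θ (MvPolynomial.X ⟨ℓ, hℓ, fun h => hℓS h⟩)) ρbar hirr
    (fun ℓ hℓ hℓS => hfr ℓ hℓ (fun h => hℓS h)) (hdist hq) (lam := lam') ?_ (K := K1)
    (N₀ := 1) (one_dvd M) (y := y) hy0 ?_ ?_ ?_
  · intro ℓ hℓ hℓS
    have h3 := hres (MvPolynomial.X ⟨ℓ, hℓ, fun h => hℓS h⟩)
    rw [MvPolynomial.aeval_X] at h3
    rw [← h3]
    congr 1
    exact hlam' ⟨ℓ, hℓ, fun h => hℓS h⟩
  · intro ℓ hℓ hℓN hℓS
    have h3 := hx ⟨ℓ, hℓ, fun h => hℓS h⟩
    have h4 := hhBC_opH (K := K1) (O' := O') (O := O) (tFam (one_dvd (M * q)) hℓ hℓN) x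
    have h5 := congrArg (hhBC (M * q) O O' K1) h3
    rw [map_smul] at h5
    refine h4.symm.trans (h5.trans ?_)
    rw [← hlam' ⟨ℓ, hℓ, fun h => hℓS h⟩, algebraMap_smul]
  · have h4 := hhBC_opH (K := K1) (O' := O') (O := O) (trFam (q := q) (one_dvd M)) x
    have h5 := congrArg (hhBC M O O' K1) hfx1
    rw [map_zero] at h5
    exact h4.symm.trans h5
  · have h4 := hhBC_opH (K := K1) (O' := O') (O := O) (nuFam (one_dvd M) hq) x
    have h5 := congrArg (hhBC M O O' K1) hfx2
    rw [map_zero] at h5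
    exact h4.symm.trans h5

end NoNew

section TW

variable {O : Type} [CommRing O] [IsDomain O] [IsDiscreteValuationRing O]
  [IsAdicComplete (maximalIdeal O) O] [Finite (ResidueField O)] [CharZero O]
  {p : ℕ} [Fact p.Prime] {S : Finset ℕ}
  (hp2 : p ≠ 2) (hpO : (p : O) ∈ maximalIdeal O) (hpS : p ∈ S)
  {θ : MvPolynomial (Pr (↑S : Set ℕ)) O →+* ResidueField O}
  (hθ : ∀ a : O, θ (MvPolynomial.C a) = residue O a)
  (ρbar : ResidualGaloisRep (ResidueField O)) (hirr : ρbar.IsIrreducible)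
  (hfr : IsAtt S θ ρbar) {e : MvPolynomial (Pr (↑S : Set ℕ)) O}
  {M : ℕ} [NeZero M] {r : ℕ} (Q : Fin r → ℕ) (hQ : ∀ i, (Q i).Prime) (hQM : ∀ i, ¬ Q i ∣ M)
  (hQinj : Function.Injective Q) (hQ1 : ∀ i, p ∣ Q i - 1) (hdist : ∀ i, FrobDist ρbar (Q i))
  (hS : Adm (↑S : Set ℕ) (M * ∏ i, Q i))
  (he : IsLocIdem (TT O hS) (TT_comm hS) θ e)

include hp2 hpO hpS hθ hirr hfr hQ hQM hQinj hQ1 hdist he

/-- **Bounded rank at Taylor–Wiles levels.** -/
theorem finrank_le_pow_TW :
    Module.finrank O (Loc (TT O hS) (TT_comm hS) e) ≤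
      2 ^ r * Module.finrank O (Loc (TT O (hS.of_dvd (Dvd.intro _ rfl)))
        (TT_comm (hS.of_dvd (Dvd.intro _ rfl))) e) := by
  let K := FractionRing O
  let Kb := AlgebraicClosure K
  have hOKb : Function.Injective (algebraMap O Kb) := by
    rw [IsScalarTower.algebraMap_eq O K Kb]
    exact (algebraMap K Kb).injective.comp (IsFractionRing.injective O K)
  haveI : FaithfulSMul O Kb := (faithfulSMul_iff_algebraMap_injective O Kb).mpr hOKb
  haveI : NeZero (M * ∏ i, Q i) :=
    ⟨mul_ne_zero (NeZero.ne M) (Finset.prod_ne_zero_iff.mpr fun i _ => (hQ i).ne_zero)⟩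
  refine finrank_le_pow (K := Kb) e r Q hQ hQM hQinj
    (fun L hL _ h2 => (isLocIdem_of_dvd h2 hS he).idem) ?_ hS
  intro L q _ _ hML hLq
  by_cases hq : q.Prime
  · have hqQ : ∃ i, Q i = q := by
      obtain ⟨L', rfl⟩ := hML
      have h1 : L' * q ∣ ∏ i, Q i := by
        rw [mul_assoc] at hLq
        exact Nat.dvd_of_mul_dvd_mul_left (Nat.pos_of_ne_zero (NeZero.ne M)) hLq
      have h2 : q ∣ ∏ i, Q i := (Dvd.intro_left L' rfl).trans h1
      rw [hq.prime.dvd_finsetProd_iff] at h2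
      obtain ⟨i, -, hi⟩ := h2
      exact ⟨i, ((Nat.prime_dvd_prime_iff_eq hq (hQ i)).mp hi).symm⟩
    obtain ⟨i, rfl⟩ := hqQ
    exact noNew K hp2 hpO hpS hθ ρbar hirr hfr (fun _ => hQ1 i) (fun _ => hdist i)
      (fun _ => isLocIdem_of_dvd hLq hS he)
  · intro hq'
    exact absurd hq' hq

/-- **Bounded rank at Taylor–Wiles levels**, by a bound not depending on the Hecke operators. -/
theorem finrank_le_pow_TW' :
    Module.finrank O (Loc (TT O hS) (TT_comm hS) e) ≤ 2 ^ r * Module.finrank O (HH O M) := by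
  refine (finrank_le_pow_TW hp2 hpO hpS hθ ρbar hirr hfr Q hQ hQM hQinj hQ1 hdist hS he).trans ?_
  exact Nat.mul_le_mul_left _ (Submodule.finrank_le _)

/-- **Vanishing at Taylor–Wiles levels.** -/
theorem finrank_eq_zero_TW
    (h0 : Module.finrank O (Loc (TT O (S := (↑S : Set ℕ)) (M := M)
      (hS.of_dvd (Dvd.intro _ rfl))) (TT_comm (hS.of_dvd (Dvd.intro _ rfl))) e) = 0) :
    Module.finrank O (Loc (TT O hS) (TT_comm hS) e) = 0 := by
  have h := finrank_le_pow_TW hp2 hpO hpS hθ ρbar hirr hfr Q hQ hQM hQinj hQ1 hdist hS he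
  rw [h0, mul_zero] at h
  exact Nat.le_zero.mp h

/-- **Vanishing at Taylor–Wiles levels.** -/
theorem loc_eq_bot_TW
    (h0 : Loc (TT O (S := (↑S : Set ℕ)) (M := M)
      (hS.of_dvd (Dvd.intro _ rfl))) (TT_comm (hS.of_dvd (Dvd.intro _ rfl))) e = ⊥) :
    Loc (TT O hS) (TT_comm hS) e = ⊥ := by
  haveI : NeZero (M * ∏ i, Q i) :=
    ⟨mul_ne_zero (NeZero.ne M) (Finset.prod_ne_zero_iff.mpr fun i _ => (hQ i).ne_zero)⟩
  have h := finrank_eq_zero_TW hp2 hpO hpS hθ ρbar hirr hfr Q hQ hQM hQinj hQ1 hdist hS he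
    (by rw [h0]; exact finrank_bot O _)
  haveI : Module.Free O (Loc (TT O hS) (TT_comm hS) e) := Module.free_of_finite_type_torsion_free'
  rw [Module.finrank_eq_zero_iff_of_free] at h
  rw [Submodule.eq_bot_iff]
  intro x hx
  exact congrArg Subtype.val (h.elim ⟨x, hx⟩ 0)

end TW

end Fermat.Agent.H37.NN
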