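import Mathlib
import Fermat.Agent.H37Elim

/-!
# Gauss type reduction data from an integral model (helper37)

`GaussDatum A π S F E`: a ring `S` (integral functions) with an injective map to `F` and a map to
`E`, and a finite family which is a basis on both sides over the rational function fields.
-/

set_option autoImplicit false

noncomputable section

open Polynomial

namespace Fermat.Agent.H37

/-- Input for the construction of a Gauss type reduction. -/
structure GaussDatum {K k : Type*} [Field K] [Field k] (A : ValuationSubring K) (π : A →+* k)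
    (S F E : Type*) [CommRing S] [Algebra A S] [Field F] [Algebra K F] [Field E] [Algebra k E]
    where
  π_surj : Function.Surjective π
  π_eq_zero : ∀ a : A, π a = 0 ↔ ¬ IsUnit a
  /-- characteristic zero realisation -/
  α : S →+* F
  /-- reduction -/
  β : S →+* E
  α_algebraMap : ∀ a : A, α (algebraMap A S a) = algebraMap K F a
  β_algebraMap : ∀ a : A, β (algebraMap A S a) = algebraMap k E (π a)
  α_inj : Function.Injective α
  /-- index of the basis -/
  ι : Type
  fin : Fintype ι
  /-- the transcendental element -/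
  x : S
  /-- the basis -/
  m : ι → S
  tr : Transcendental k (β x)
  spanF : ∀ f : F, ∃ (d : K[X]) (p : ι → K[X]), d ≠ 0 ∧
    f * aeval (α x) d = ∑ i, aeval (α x) (p i) * α (m i)
  spanE : ∀ e : E, ∃ (d : k[X]) (p : ι → k[X]), d ≠ 0 ∧
    e * aeval (β x) d = ∑ i, aeval (β x) (p i) * β (m i)
  indep : ∀ p : ι → k[X], ∑ i, aeval (β x) (p i) * β (m i) = 0 → ∀ i, p i = 0

namespace GaussDatum

variable {K k : Type*} [Field K] [Field k] {A : ValuationSubring K} {π : A →+* k}
    {S F E : Type*} [CommRing S] [Algebra A S] [Field F] [Algebra K F] [Field E] [Algebra k E]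
  (R : GaussDatum A π S F E)

attribute [instance] GaussDatum.fin

/-- evaluation of integral polynomials at `x` -/
def ev (p : A[X]) : S := aeval R.x p

theorem α_ev (p : A[X]) : R.α (R.ev p) = aeval (R.α R.x) (p.map A.subtype) := by
  rw [ev]
  induction p using Polynomial.induction_on' with
  | add p q hp hq => simp only [map_add, hp, hq, Polynomial.map_add]
  | monomial n a =>
    rw [aeval_monomial, map_monomial, aeval_monomial, map_mul, map_pow, R.α_algebraMap]
    rfl

theorem β_ev (p : A[X]) : R.β (R.ev p) = aeval (R.β R.x) (p.map π) := by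
  rw [ev]
  induction p using Polynomial.induction_on' with
  | add p q hp hq => simp only [map_add, hp, hq, Polynomial.map_add]
  | monomial n a =>
    rw [aeval_monomial, map_monomial, aeval_monomial, map_mul, map_pow, R.β_algebraMap]

theorem α_ne_zero {s : S} (h : R.β s ≠ 0) : R.α s ≠ 0 := by
  intro h0
  apply h
  rw [(map_eq_zero_iff _ R.α_inj).mp h0, map_zero]

theorem β_ev_ne {p : A[X]} (hp : p.map π ≠ 0) : R.β (R.ev p) ≠ 0 := by
  rw [β_ev]
  exact fun h => hp ((transcendental_iff.mp R.tr) _ h)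

theorem ev_mul (p q : A[X]) : R.ev (p * q) = R.ev p * R.ev q := map_mul _ _ _

/-- Integral numerators. -/
def nm (p : R.ι → A[X]) : S := ∑ i, R.ev (p i) * R.m i

theorem α_nm (p : R.ι → A[X]) : R.α (R.nm p) =
    ∑ i, aeval (R.α R.x) ((p i).map A.subtype) * R.α (R.m i) := by
  rw [nm, map_sum]
  exact Finset.sum_congr rfl fun i _ => by rw [map_mul, α_ev]

theorem β_nm (p : R.ι → A[X]) : R.β (R.nm p) =
    ∑ i, aeval (R.β R.x) ((p i).map π) * R.β (R.m i) := by
  rw [nm, map_sum]
  exact Finset.sum_congr rfl fun i _ => by rw [map_mul, β_ev]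

theorem β_nm_ne {p : R.ι → A[X]} (hp : ∃ i, (p i).map π ≠ 0) : R.β (R.nm p) ≠ 0 := by
  obtain ⟨i, hi⟩ := hp
  rw [β_nm]
  exact fun h => hi (R.indep _ h i)

/-- a denominator with nonzero reduction -/
theorem exists_den (f : F) :
    ∃ d : A[X], d.map π ≠ 0 ∧ ∃ p : R.ι → K[X],
      f * R.α (R.ev d) = ∑ i, aeval (R.α R.x) (p i) * R.α (R.m i) := by
  obtain ⟨d, p, hd, h⟩ := R.spanF f
  obtain ⟨c, hc, q, hq, ⟨_, hq0⟩⟩ := exists_scale_poly (A := A) π (fun _ : Unit => d) ⟨(), hd⟩
  refine ⟨q (), hq0, fun i => C c * p i, ?_⟩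
  rw [α_ev, hq, map_mul, aeval_C, mul_left_comm, h, Finset.mul_sum]
  refine Finset.sum_congr rfl fun i _ => ?_
  rw [map_mul, aeval_C, mul_assoc]

/-- Every nonzero element of `F` is a constant times a quotient of integral elements with
nonzero reduction. -/
theorem exists_quot {f : F} (hf0 : f ≠ 0) :
    ∃ (c : K) (P D : S), c ≠ 0 ∧ R.β P ≠ 0 ∧ R.β D ≠ 0 ∧
      algebraMap K F c * f * R.α D = R.α P := by
  obtain ⟨d, hd, p, h⟩ := R.exists_den f
  have hp : ∃ i, p i ≠ 0 := by
    by_contra hcon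
    push Not at hcon
    simp only [hcon, map_zero, zero_mul, Finset.sum_const_zero] at h
    rcases mul_eq_zero.mp h with h0 | h0
    · exact hf0 h0
    · exact R.α_ne_zero (R.β_ev_ne hd) h0
  obtain ⟨c, hc, q, hq, hq0⟩ := exists_scale_poly (A := A) π p hp
  refine ⟨c, R.nm q, R.ev d, hc, R.β_nm_ne hq0, R.β_ev_ne hd, ?_⟩
  rw [mul_assoc, h, α_nm, Finset.mul_sum]
  refine Finset.sum_congr rfl fun i _ => ?_
  rw [hq, map_mul, aeval_C, mul_assoc]

/-! ### the Gauss ring -/

/-- The ring of quotients `α y / α z` with `y, z ∈ S`, `β z ≠ 0`. -/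
def B : Subring F where
  carrier := {f | ∃ y z : S, R.β z ≠ 0 ∧ f * R.α z = R.α y}
  mul_mem' := by
    rintro f g ⟨y, z, hz, h⟩ ⟨y', z', hz', h'⟩
    refine ⟨y * y', z * z', by rw [map_mul]; exact mul_ne_zero hz hz', ?_⟩
    rw [map_mul, map_mul, ← h, ← h']; ring
  one_mem' := ⟨1, 1, by rw [map_one]; exact one_ne_zero, by simp⟩
  add_mem' := by
    rintro f g ⟨y, z, hz, h⟩ ⟨y', z', hz', h'⟩
    refine ⟨y * z' + y' * z, z * z', by rw [map_mul]; exact mul_ne_zero hz hz', ?_⟩
    rw [map_mul, map_add, map_mul, map_mul, ← h, ← h']; ring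
  zero_mem' := ⟨0, 1, by rw [map_one]; exact one_ne_zero, by simp⟩
  neg_mem' := by
    rintro f ⟨y, z, hz, h⟩
    exact ⟨-y, z, hz, by rw [map_neg, ← h]; ring⟩

theorem mem_B {f : F} : f ∈ R.B ↔ ∃ y z : S, R.β z ≠ 0 ∧ f * R.α z = R.α y := Iff.rfl

theorem α_mem_B (y : S) : R.α y ∈ R.B :=
  ⟨y, 1, by rw [map_one]; exact one_ne_zero, by simp⟩

theorem wd {f : F} {y z y' z' : S} (hz : R.β z ≠ 0)
    (h : f * R.α z = R.α y) (hz' : R.β z' ≠ 0) (h' : f * R.α z' = R.α y') :
    R.β y / R.β z = R.β y' / R.β z' := by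
  rw [div_eq_div_iff hz hz', ← map_mul, ← map_mul]
  congr 1
  apply R.α_inj
  rw [map_mul, map_mul, ← h, ← h']; ring

/-- a numerator -/
def gnum (f : R.B) : S := f.2.choose

/-- a denominator -/
def gden (f : R.B) : S := f.2.choose_spec.choose

theorem gden_ne (f : R.B) : R.β (R.gden f) ≠ 0 :=
  f.2.choose_spec.choose_spec.1

theorem mul_gden (f : R.B) : (f : F) * R.α (R.gden f) = R.α (R.gnum f) :=
  f.2.choose_spec.choose_spec.2

/-- The reduction map. -/
def ρ : R.B →+* E where
  toFun f := R.β (R.gnum f) / R.β (R.gden f)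
  map_one' := by
    rw [R.wd (R.gden_ne _) (R.mul_gden _) (y' := 1) (z' := 1)
      (by rw [map_one]; exact one_ne_zero) (by simp)]
    simp
  map_zero' := by
    rw [R.wd (R.gden_ne _) (R.mul_gden _) (y' := 0) (z' := 1)
      (by rw [map_one]; exact one_ne_zero) (by simp)]
    simp
  map_mul' f g := by
    rw [div_mul_div_comm, ← map_mul, ← map_mul]
    refine R.wd (R.gden_ne _) (R.mul_gden _)
      (by rw [map_mul]; exact mul_ne_zero (R.gden_ne _) (R.gden_ne _)) ?_
    rw [map_mul, map_mul, ← mul_gden, ← mul_gden, Subring.coe_mul]; ring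
  map_add' f g := by
    rw [div_add_div _ _ (R.gden_ne _) (R.gden_ne _), ← map_mul, ← map_mul, ← map_mul, ← map_add]
    refine R.wd (R.gden_ne _) (R.mul_gden _)
      (by rw [map_mul]; exact mul_ne_zero (R.gden_ne _) (R.gden_ne _)) ?_
    rw [map_mul, map_add, map_mul, map_mul, ← mul_gden, ← mul_gden, Subring.coe_add]; ring

theorem ρ_eq (f : R.B) {y z : S} (hz : R.β z ≠ 0) (h : (f : F) * R.α z = R.α y) :
    R.ρ f = R.β y / R.β z :=
  R.wd (R.gden_ne _) (R.mul_gden _) hz h

theorem ρ_α (y : S) (h : R.α y ∈ R.B) : R.ρ ⟨R.α y, h⟩ = R.β y := by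
  rw [R.ρ_eq _ (y := y) (z := 1) (by rw [map_one]; exact one_ne_zero) (by simp)]
  simp

/-! ### good bases -/

/-- the family spanning the integral numerators of degree less than `J` -/
def fam (J : ℕ) (t : R.ι × Fin J) : S := R.x ^ (t.2 : ℕ) * R.m t.1

theorem fam_independent (J : ℕ) : LinearIndependent k fun t => R.β (R.fam J t) := by
  classical
  rw [Fintype.linearIndependent_iff]
  intro c hc
  have h1 : ∑ i, aeval (R.β R.x) (∑ j : Fin J, monomial (j : ℕ) (c (i, j))) *
      R.β (R.m i) = 0 := by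
    rw [← hc, Fintype.sum_prod_type]
    refine Finset.sum_congr rfl fun i _ => ?_
    rw [map_sum, Finset.sum_mul]
    refine Finset.sum_congr rfl fun j _ => ?_
    rw [aeval_monomial, fam, map_mul, map_pow, Algebra.smul_def, mul_assoc]
  have h2 := R.indep _ h1
  rintro ⟨i, j⟩
  have h3 := congrArg (fun p => coeff p (j : ℕ)) (h2 i)
  simp only [finsetSum_coeff, coeff_monomial, coeff_zero] at h3
  rw [Finset.sum_eq_single j] at h3
  · simpa using h3
  · intro b _ hb
    rw [if_neg (fun h => hb (Fin.ext h))]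
  · simp

theorem exists_common_den (s : Finset F) :
    ∃ d : A[X], d.map π ≠ 0 ∧ ∀ f ∈ s, ∃ p : R.ι → K[X],
      f * R.α (R.ev d) = ∑ i, aeval (R.α R.x) (p i) * R.α (R.m i) := by
  classical
  induction s using Finset.induction_on with
  | empty => exact ⟨1, by simp, by simp⟩
  | insert f s hf ih =>
    obtain ⟨d, hd, h⟩ := ih
    obtain ⟨d', hd', p', h'⟩ := R.exists_den f
    refine ⟨d * d', by rw [Polynomial.map_mul]; exact mul_ne_zero hd hd', fun g hg => ?_⟩
    rcases Finset.mem_insert.mp hg with rfl | hg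
    · refine ⟨fun i => d.map A.subtype * p' i, ?_⟩
      rw [ev_mul, map_mul, mul_left_comm, h', Finset.mul_sum, α_ev]
      exact Finset.sum_congr rfl fun i _ => by rw [map_mul, mul_assoc]
    · obtain ⟨p, hp⟩ := h g hg
      refine ⟨fun i => d'.map A.subtype * p i, ?_⟩
      rw [ev_mul, map_mul, ← mul_assoc, hp, mul_comm, Finset.mul_sum, α_ev R d']
      exact Finset.sum_congr rfl fun i _ => by rw [map_mul, mul_assoc]

theorem aeval_mem_range {J : ℕ} {p : R.ι → K[X]} (hp : ∀ i, (p i).natDegree < J) :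
    ∑ i, aeval (R.α R.x) (p i) * R.α (R.m i) ∈
      LinearMap.range (Fintype.linearCombination K fun t => R.α (R.fam J t)) := by
  refine ⟨fun t => (p t.1).coeff t.2, ?_⟩
  rw [Fintype.linearCombination_apply, Fintype.sum_prod_type]
  refine Finset.sum_congr rfl fun i _ => ?_
  rw [aeval_eq_sum_range' (hp i), Finset.sum_mul, Finset.sum_range]
  refine Finset.sum_congr rfl fun j _ => ?_
  rw [fam, map_mul, map_pow, smul_mul_assoc]

theorem exists_bound (V : Submodule K F) (hV : FiniteDimensional K V) :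
    ∃ d : A[X], d.map π ≠ 0 ∧ ∃ J : ℕ,
      V.map (LinearMap.mulRight K (R.α (R.ev d))) ≤
        LinearMap.range (Fintype.linearCombination K fun t => R.α (R.fam J t)) := by
  classical
  have hfg : V.FG := Module.Finite.iff_fg.mp hV
  obtain ⟨s, hsfin, hs⟩ := Submodule.fg_def.mp hfg
  obtain ⟨d, hd, h⟩ := R.exists_common_den hsfin.toFinset
  choose! p hp using h
  refine ⟨d, hd, (hsfin.toFinset.sup fun f => Finset.univ.sup fun i => (p f i).natDegree) + 1, ?_⟩
  rw [← hs, Submodule.map_span, Submodule.span_le]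
  rintro _ ⟨f, hf, rfl⟩
  have hf' : f ∈ hsfin.toFinset := hsfin.mem_toFinset.mpr hf
  rw [LinearMap.mulRight_apply, hp f hf']
  refine R.aeval_mem_range fun i => Nat.lt_succ_of_le ?_
  refine le_trans ?_ (Finset.le_sup (f := fun f => Finset.univ.sup fun i => (p f i).natDegree) hf')
  exact Finset.le_sup (f := fun i => (p f i).natDegree) (Finset.mem_univ i)

theorem exists_basis (V : Submodule K F) (hV : FiniteDimensional K V) :
    ∃ (n : ℕ) (b : Fin n → R.B),
      Submodule.span K (Set.range fun i => (b i : F)) = V ∧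
      LinearIndependent k (fun i => R.ρ (b i)) := by
  classical
  obtain ⟨d, hd, J, hJ⟩ := R.exists_bound V hV
  have hd0 : R.β (R.ev d) ≠ 0 := R.β_ev_ne hd
  have hd1 : R.α (R.ev d) ≠ 0 := R.α_ne_zero hd0
  set T := Fintype.linearCombination K fun t => R.α (R.fam J t) with hT
  set L := LinearMap.mulRight K (R.α (R.ev d)) with hL
  have hLi : Function.Injective L := fun f g h => mul_right_cancel₀ hd1 h
  obtain ⟨n, b, hb, hli⟩ := exists_good_basis (A := A) π ((V.map L).comap T)
  have hmap : ((V.map L).comap T).map T = V.map L := by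
    rw [Submodule.map_comap_eq, inf_eq_right.mpr hJ]
  -- integral numerators
  let N : Fin n → S := fun i => ∑ t, algebraMap A S (b i t) * R.fam J t
  have hαN : ∀ i, R.α (N i) = T fun t => (b i t : K) := fun i => by
    simp only [N]
    rw [map_sum, hT, Fintype.linearCombination_apply]
    exact Finset.sum_congr rfl fun t _ => by rw [map_mul, R.α_algebraMap, Algebra.smul_def]
  have hβN : ∀ i, R.β (N i) = ∑ t, π (b i t) • R.β (R.fam J t) := fun i => by
    simp only [N]
    rw [map_sum]
    exact Finset.sum_congr rfl fun t _ => by rw [map_mul, R.β_algebraMap, Algebra.smul_def]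
  have hbV : ∀ i, ∃ f : F, f ∈ V ∧ f * R.α (R.ev d) = R.α (N i) := by
    intro i
    have h1 : (fun t => (b i t : K)) ∈ (V.map L).comap T := by
      rw [← hb]; exact Submodule.subset_span ⟨i, rfl⟩
    obtain ⟨f, hf, hfe⟩ := Submodule.mem_comap.mp h1
    exact ⟨f, hf, by rw [hαN]; exact hfe⟩
  choose f hfV hfe using hbV
  have hfB : ∀ i, f i ∈ R.B := fun i => ⟨_, _, hd0, hfe i⟩
  refine ⟨n, fun i => ⟨f i, hfB i⟩, ?_, ?_⟩
  · apply Submodule.map_injective_of_injective hLi
    rw [Submodule.map_span, ← hmap, ← hb, Submodule.map_span, ← Set.range_comp, ← Set.range_comp]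
    congr 1
    apply congrArg Set.range
    funext i
    change f i * _ = T _
    rw [hfe i, hαN]
  · have hρ : ∀ i, R.ρ ⟨f i, hfB i⟩ * R.β (R.ev d) = ∑ t, π (b i t) • R.β (R.fam J t) := fun i => by
      rw [R.ρ_eq _ hd0 (hfe i), div_mul_cancel₀ _ hd0, hβN]
    rw [Fintype.linearIndependent_iff] at hli ⊢
    intro g hg
    refine hli g ?_
    have h1 := congrArg (fun e : E => e * R.β (R.ev d)) hg
    simp only [zero_mul, Finset.sum_mul, smul_mul_assoc, hρ, Finset.smul_sum, smul_smul] at h1
    rw [Finset.sum_comm] at h1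
    simp only [← Finset.sum_smul] at h1
    have h2 := Fintype.linearIndependent_iff.mp (R.fam_independent J) _ h1
    ext t
    rw [Finset.sum_apply]
    simpa using h2 t

/-- The Gauss type reduction attached to a `GaussDatum`. -/
def toReductionData : H40.ReductionData K F k E where
  A := A
  π := π
  π_surj := R.π_surj
  π_eq_zero := R.π_eq_zero
  B := R.B
  ρ := R.ρ
  mem_B a := by
    rw [← R.α_algebraMap]
    exact R.α_mem_B _
  ρ_algebraMap a := by
    rw [R.ρ_eq _ (y := algebraMap A S a) (z := 1)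
      (by rw [map_one]; exact one_ne_zero)
      (by rw [map_one, mul_one]; exact (R.α_algebraMap a).symm)]
    rw [map_one, div_one, R.β_algebraMap]
  exists_basis V hV := R.exists_basis V hV
  frac e := by
    obtain ⟨d, p, hd, h⟩ := R.spanE e
    have hlift : ∀ p : k[X], ∃ q : A[X], q.map π = p := fun p =>
      Polynomial.map_surjective π R.π_surj p
    obtain ⟨d', hd'⟩ := hlift d
    choose q hq using fun i => hlift (p i)
    refine ⟨⟨_, R.α_mem_B (R.nm q)⟩, ⟨_, R.α_mem_B (R.ev d')⟩, ?_, ?_⟩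
    · rw [ρ_α]
      exact R.β_ev_ne (by rw [hd']; exact hd)
    · rw [ρ_α, ρ_α, β_ev, β_nm, hd', h]
      exact Finset.sum_congr rfl fun i _ => by rw [hq]

end GaussDatum

end Fermat.Agent.H37
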