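import Mathlib
import Fermat.Agent.H37RedData
import Fermat.Agent.H3RR_FF

/-!
# Gauss data from a degree equality (helper37)
-/

set_option autoImplicit false

noncomputable section

open Polynomial IntermediateField

namespace Fermat.Agent.H37

section Adjoin

variable {K F : Type*} [Field K] [Field F] [Algebra K F]

open scoped IntermediateField.algebraAdjoinAdjoin in
/-- common denominators in `K(x)` -/
theorem exists_common_den_adjoin (x : F) {ι : Type*} [Finite ι] (r : ι → K⟮x⟯) :
    ∃ d : K[X], aeval x d ≠ 0 ∧ ∃ p : ι → K[X], ∀ i, aeval x d * (r i : F) = aeval x (p i) := by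
  obtain ⟨b, hb⟩ := IsLocalization.exist_integer_multiples_of_finite
    (nonZeroDivisors (Algebra.adjoin K {x})) r
  have hex : ∀ a : Algebra.adjoin K {x}, ∃ p : K[X], aeval x p = (a : F) := fun a =>
    (Algebra.adjoin_singleton_eq_range_aeval K x).le a.2
  obtain ⟨d, hd⟩ := hex b
  have hint : ∀ i, ∃ p : K[X], aeval x d * (r i : F) = aeval x p := by
    intro i
    obtain ⟨a, ha⟩ := hb i
    obtain ⟨p, hp⟩ := hex a
    refine ⟨p, ?_⟩
    rw [hp, hd]
    have h1 := congrArg (algebraMap K⟮x⟯ F) ha
    rw [Algebra.smul_def, map_mul] at h1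
    exact h1.symm
  choose p hp using hint
  refine ⟨d, ?_, p, hp⟩
  rw [hd]
  intro h0
  exact nonZeroDivisors.coe_ne_zero b (Subtype.ext h0)

/-- Elements of the span over `K(x)` of a finite family. -/
theorem exists_poly_rep {x : F} {ι : Type*} [Fintype ι] (z : ι → F)
    (hz : Submodule.span K⟮x⟯ (Set.range z) = ⊤) (f : F) :
    ∃ (d : K[X]) (p : ι → K[X]), d ≠ 0 ∧ f * aeval x d = ∑ i, aeval x (p i) * z i := by
  have hf : f ∈ Submodule.span K⟮x⟯ (Set.range z) := by rw [hz]; trivial
  obtain ⟨r, hr⟩ := (Submodule.mem_span_range_iff_exists_fun _).mp hf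
  obtain ⟨d, hd, p, hp⟩ := exists_common_den_adjoin x r
  refine ⟨d, p, fun h => hd (by rw [h, map_zero]), ?_⟩
  rw [← hr, mul_comm, Finset.mul_sum]
  refine Finset.sum_congr rfl fun i _ => ?_
  rw [← hp i, Algebra.smul_def, ← mul_assoc]
  rfl

/-- Polynomial relations from independence over `K(x)`. -/
theorem poly_indep {x : F} (hx : Transcendental K x) {ι : Type*} [Fintype ι] {z : ι → F}
    (hz : LinearIndependent K⟮x⟯ z) (p : ι → K[X]) (h : ∑ i, aeval x (p i) * z i = 0) (i : ι) :
    p i = 0 := by
  have h2 := Fintype.linearIndependent_iff.mp hz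
    (fun i => aeval (AdjoinSimple.gen K x) (p i)) (by
      rw [← h]
      refine Finset.sum_congr rfl fun i _ => ?_
      rw [Algebra.smul_def]
      have h0 : (algebraMap K⟮x⟯ F) (aeval (AdjoinSimple.gen K x) (p i)) =
          aeval x (p i) := AdjoinSimple.coe_aeval_gen_apply K _ (p i)
      rw [h0]) i
  have h3 : aeval x (p i) = 0 := by
    rw [← AdjoinSimple.coe_aeval_gen_apply, h2]; rfl
  exact (transcendental_iff.mp hx) _ h3

/-- If `F` is generated over `K` by the image of `G`, and is finite over `K(x)`, then there is a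
basis of `F` over `K(x)` consisting of products of elements of `G`. -/
theorem exists_monomial_basis {S : Type*} [CommMonoid S] (β : S →* F) (G : Set S)
    (hG : IntermediateField.adjoin K (β '' G) = ⊤) (x : F) [FiniteDimensional K⟮x⟯ F] :
    ∃ m : Fin (Module.finrank K⟮x⟯ F) → S, (∀ i, m i ∈ Submonoid.closure G) ∧
      LinearIndependent K⟮x⟯ (fun i => β (m i)) ∧
      Submodule.span K⟮x⟯ (Set.range fun i => β (m i)) = ⊤ := by
  have h1 : IntermediateField.adjoin K⟮x⟯ (β '' G) = ⊤ := by
    rw [← IntermediateField.restrictScalars_eq_top_iff (K := K), eq_top_iff, ← hG,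
      IntermediateField.adjoin_le_iff]
    intro y hy
    exact IntermediateField.subset_adjoin K⟮x⟯ _ hy
  have h2 : Submodule.span K⟮x⟯ (β '' (Submonoid.closure G : Set S)) = ⊤ := by
    have h3 := adjoin_toSubalgebra_of_isAlgebraic
      (F := K⟮x⟯) (S := β '' G) fun y _ => Algebra.IsAlgebraic.isAlgebraic y
    rw [h1, IntermediateField.top_toSubalgebra] at h3
    have h4 := Algebra.adjoin_eq_span K⟮x⟯ (β '' G)
    rw [← h3, ← MonoidHom.map_mclosure, Algebra.top_toSubmodule] at h4
    exact h4.symm
  obtain ⟨f, hf, hfs, hfi⟩ := Submodule.exists_fun_fin_finrank_span_eq K⟮x⟯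
    (β '' (Submonoid.closure G : Set S))
  have hfs := hfs.trans h2
  have h5 : Module.finrank K⟮x⟯ (Submodule.span K⟮x⟯ (β '' (Submonoid.closure G : Set S))) =
      Module.finrank K⟮x⟯ F := by rw [h2, finrank_top]
  choose m hm hmf using hf
  refine ⟨fun i => m (Fin.cast h5.symm i), fun i => hm _, ?_, ?_⟩
  · have : (fun i => β (m (Fin.cast h5.symm i))) = fun i => f (Fin.cast h5.symm i) := by
      funext i; exact hmf _
    rw [this]
    exact hfi.comp _ (Fin.cast_injective _)
  · have : (fun i => β (m (Fin.cast h5.symm i))) = f ∘ Fin.cast h5.symm := by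
      funext i; exact hmf _
    have h6 : Set.range (f ∘ Fin.cast h5.symm) = Set.range f :=
      (finCongr h5.symm).surjective.range_comp f
    rw [this, h6, hfs]

end Adjoin

theorem map_aeval_compat {R R' S S' : Type*} [CommRing R] [CommRing R'] [CommRing S] [CommRing S']
    [Algebra R S] [Algebra R' S'] (φ : S →+* S') (σ : R →+* R')
    (h : ∀ a, φ (algebraMap R S a) = algebraMap R' S' (σ a)) (x : S) (p : R[X]) :
    φ (aeval x p) = aeval (φ x) (p.map σ) := by
  induction p using Polynomial.induction_on' with
  | add p q hp hq => simp only [map_add, hp, hq, Polynomial.map_add]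
  | monomial n a =>
    rw [aeval_monomial, map_monomial, aeval_monomial, map_mul, map_pow, h]

section OfDegree

variable {K k : Type*} [Field K] [Field k] {A : ValuationSubring K} {π : A →+* k}
    {S F E : Type*} [CommRing S] [Algebra A S] [Field F] [Algebra K F] [Field E] [Algebra k E]
    (α : S →+* F) (β : S →+* E)
    (α_algebraMap : ∀ a : A, α (algebraMap A S a) = algebraMap K F a)
    (β_algebraMap : ∀ a : A, β (algebraMap A S a) = algebraMap k E (π a))
    (α_inj : Function.Injective α) (x : S) (tr : Transcendental k (β x))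

include α_algebraMap β_algebraMap α_inj tr in
/-- Lifts of independent elements are independent, polynomial version. -/
theorem lift_indep {ι : Type*} [Fintype ι] {m : ι → S}
    (hm : LinearIndependent k⟮β x⟯ fun i => β (m i)) (p : ι → K[X])
    (h : ∑ i, aeval (α x) (p i) * α (m i) = 0) (hp : ∃ i, p i ≠ 0) : False := by
  obtain ⟨c, hc, q, hq, ⟨i, hi⟩⟩ := exists_scale_poly (A := A) π p hp
  have h1 : ∑ i, aeval x (q i) * m i = 0 := by
    apply α_inj
    rw [map_sum, map_zero]
    have : ∀ i, α (aeval x (q i) * m i) =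
        algebraMap K F c * (aeval (α x) (p i) * α (m i)) := fun i => by
      rw [map_mul, map_aeval_compat α A.subtype α_algebraMap, hq, map_mul, aeval_C, mul_assoc]
    simp only [this]
    rw [← Finset.mul_sum, h, mul_zero]
  have h2 := congrArg β h1
  rw [map_sum, map_zero] at h2
  refine hi (poly_indep tr hm (fun i => (q i).map π) ?_ i)
  rw [← h2]
  exact Finset.sum_congr rfl fun i _ => by
    rw [map_mul, map_aeval_compat β π β_algebraMap]

include α_algebraMap β_algebraMap α_inj tr in
theorem lift_transcendental : Transcendental K (α x) := by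
  rw [transcendental_iff]
  intro p hp
  by_contra hp0
  refine lift_indep (ι := Unit) α β α_algebraMap β_algebraMap α_inj x tr (m := fun _ => 1) ?_
    (fun _ => p) ?_ ⟨(), hp0⟩
  · rw [map_one]
    exact LinearIndependent.of_subsingleton () one_ne_zero
  · simp [hp]

include α_algebraMap β_algebraMap α_inj tr in
theorem lift_linearIndependent {ι : Type*} [Fintype ι] {m : ι → S}
    (hm : LinearIndependent k⟮β x⟯ fun i => β (m i)) :
    LinearIndependent K⟮α x⟯ fun i => α (m i) := by
  apply H3RR.linearIndependent_of_poly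
    (lift_transcendental α β α_algebraMap β_algebraMap α_inj x tr)
  intro p hp ⟨i, hi⟩
  exact lift_indep α β α_algebraMap β_algebraMap α_inj x tr hm p hp
    ⟨i, fun h => hi (by rw [h, coeff_zero])⟩

/-- Gauss data from a degree equality. -/
def GaussDatum.ofDegree (π_surj : Function.Surjective π) (π_eq_zero : ∀ a : A, π a = 0 ↔ ¬ IsUnit a)
    (G : Set S) (hG : IntermediateField.adjoin k (β '' G) = ⊤)
    (hfinE : FiniteDimensional k⟮β x⟯ E) (hfinF : FiniteDimensional K⟮α x⟯ F)
    (hdeg : Module.finrank K⟮α x⟯ F ≤ Module.finrank k⟮β x⟯ E) : GaussDatum A π S F E where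
  π_surj := π_surj
  π_eq_zero := π_eq_zero
  α := α
  β := β
  α_algebraMap := α_algebraMap
  β_algebraMap := β_algebraMap
  α_inj := α_inj
  ι := Fin (Module.finrank k⟮β x⟯ E)
  fin := inferInstance
  x := x
  m := (exists_monomial_basis (K := k) (β : S →* E) G hG (β x)).choose
  tr := tr
  spanF f := by
    have hm := (exists_monomial_basis (K := k) (β : S →* E) G hG (β x)).choose_spec
    set m := (exists_monomial_basis (K := k) (β : S →* E) G hG (β x)).choose
    have hli := lift_linearIndependent α β α_algebraMap β_algebraMap α_inj x tr hm.2.1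
    refine exists_poly_rep _ ?_ f
    apply hli.span_eq_top_of_card_eq_finrank'
    apply le_antisymm
    · exact hli.fintype_card_le_finrank
    · rw [Fintype.card_fin]; exact hdeg
  spanE e := exists_poly_rep _
    (exists_monomial_basis (K := k) (β : S →* E) G hG (β x)).choose_spec.2.2 e
  indep p := poly_indep tr
    (exists_monomial_basis (K := k) (β : S →* E) G hG (β x)).choose_spec.2.1 p

end OfDegree

end Fermat.Agent.H37
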