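import Fermat.Agent.H59Norm
import Fermat.Agent.H59Loc

/-!
# Rank bound for localised modules
-/

set_option autoImplicit false

namespace Fermat.Agent.H37.Rank

open Fermat.Agent.H59 TensorProduct

section

variable {O ι H K : Type} [CommRing O] [AddCommGroup H] [Module O H] [Field K] [Algebra O K]

/-- a polynomial in operators acts on a common eigenvector by the value of the polynomial -/
lemma baseChange_act_eigen (T : ι → Module.End O H) (hT : ∀ i j, T i * T j = T j * T i)
    (lam : ι → K) (v : K ⊗[O] H) (hv : ∀ i, (T i).baseChange K v = lam i • v)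
    (P : MvPolynomial ι O) :
    (act (O := O) T hT P).baseChange K v = MvPolynomial.aeval lam P • v := by
  induction P using MvPolynomial.induction_on with
  | C a =>
    rw [act_C, MvPolynomial.aeval_C, Module.algebraMap_end_eq_smul_id, LinearMap.baseChange_smul,
      LinearMap.smul_apply, LinearMap.baseChange_id, LinearMap.id_apply, algebraMap_smul]
  | add P Q hP hQ => rw [map_add, LinearMap.baseChange_add, LinearMap.add_apply, hP, hQ, map_add,
      add_smul]
  | mul_X P i hP =>
    rw [map_mul, act_X, Module.End.mul_eq_comp, LinearMap.baseChange_comp, LinearMap.comp_apply, hv,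
      map_smul, hP, map_mul, MvPolynomial.aeval_X, smul_smul, mul_comm]

end

lemma eq_one_of_smul {K V : Type*} [Field K] [AddCommGroup V] [Module K V] {c : K} {v : V}
    (hv : v ≠ 0) (h : c • v = v) : c = 1 := by
  have h5 : (c - 1) • v = 0 := by rw [sub_smul, one_smul, h, sub_self]
  rcases smul_eq_zero.mp h5 with h6 | h6
  · exact sub_eq_zero.mp h6
  · exact absurd h6 hv

variable {O ι H H' K : Type} [CommRing O] [IsDomain O] [IsPrincipalIdealRing O]
  [AddCommGroup H] [Module O H] [AddCommGroup H'] [Module O H']
  [Field K] [IsAlgClosed K] [Algebra O K] [FaithfulSMul O K]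

/-- **Rank bound.** Let `f₁, f₂ : H' → H` be equivariant.  If no eigenvector in the `e`-part of
`K ⊗ H'` is killed by both, then the rank of the `e`-part of `H'` is at most twice the rank of the
`e`-part of `H`. -/
theorem finrank_loc_le_two_mul [Module.Finite O H] [Module.IsTorsionFree O H]
    [Module.Finite O H'] [Module.IsTorsionFree O H']
    (T : ι → Module.End O H) (hT : ∀ i j, T i * T j = T j * T i)
    (T' : ι → Module.End O H') (hT' : ∀ i j, T' i * T' j = T' j * T' i)
    (f₁ f₂ : H' →ₗ[O] H) (h₁ : ∀ i x, f₁ (T' i x) = T i (f₁ x))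
    (h₂ : ∀ i x, f₂ (T' i x) = T i (f₂ x)) (e : MvPolynomial ι O)
    (he' : act T' hT' e * act T' hT' e = act T' hT' e)
    (hE : ∀ (lam : ι → K) (v : K ⊗[O] H'), v ≠ 0 → (∀ i, (T' i).baseChange K v = lam i • v) →
      MvPolynomial.aeval lam e = 1 → f₁.baseChange K v = 0 → f₂.baseChange K v = 0 → False) :
    Module.finrank O (Loc T' hT' e) ≤ 2 * Module.finrank O (Loc T hT e) := by
  classical
  -- the common kernel
  let Y : Submodule O H' := Loc T' hT' e ⊓ (LinearMap.ker f₁ ⊓ LinearMap.ker f₂)
  have hYmem : ∀ x, x ∈ Y ↔ x ∈ Loc T' hT' e ∧ f₁ x = 0 ∧ f₂ x = 0 := fun x => Iff.rfl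
  have hY0 : Y = ⊥ := by
    by_contra hne
    have hfree : Module.Free O Y := Module.free_of_finite_type_torsion_free'
    have hfin : Module.Finite O Y := inferInstance
    have hnt : Nontrivial Y := (Submodule.nontrivial_iff_ne_bot).mpr hne
    have hpos : 0 < Module.finrank O Y := Module.finrank_pos
    -- operators on `Y`
    have hst : ∀ i, ∀ x ∈ Y, T' i x ∈ Y := by
      intro i x hx
      obtain ⟨hx1, hx2, hx3⟩ := (hYmem x).mp hx
      refine (hYmem _).mpr ⟨?_, ?_, ?_⟩
      · have := act_mem_loc (MvPolynomial.X i) hx1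
        rwa [act_X] at this
      · rw [h₁, hx2, map_zero]
      · rw [h₂, hx3, map_zero]
    let TY : ι → Module.End O Y := fun i => (T' i).restrict (hst i)
    have hTY : ∀ i x, ((TY i x : Y) : H') = T' i x := fun i x => rfl
    -- common eigenvector in `K ⊗ Y`
    have hfK : FiniteDimensional K (K ⊗[O] Y) := inferInstance
    have hposK : 0 < Module.finrank K (K ⊗[O] Y) := by
      rw [Module.finrank_baseChange]
      exact hpos
    have hcomm : ∀ f ∈ Set.range (fun i => (TY i).baseChange K),
        ∀ g ∈ Set.range (fun i => (TY i).baseChange K), f * g = g * f := by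
      rintro _ ⟨i, rfl⟩ _ ⟨j, rfl⟩
      change (TY i).baseChange K ∘ₗ (TY j).baseChange K = (TY j).baseChange K ∘ₗ (TY i).baseChange K
      rw [← LinearMap.baseChange_comp, ← LinearMap.baseChange_comp]
      congr 1
      apply LinearMap.ext
      intro x
      apply Subtype.ext
      change T' i (T' j x.1) = T' j (T' i x.1)
      exact LinearMap.congr_fun (hT' i j) x.1
    have htop : (⊤ : Submodule K (K ⊗[O] Y)) ≠ ⊥ := by
      intro h
      have h1 : Module.finrank K (⊤ : Submodule K (K ⊗[O] Y)) = 0 := by
        rw [h]; exact finrank_bot K _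
      rw [finrank_top] at h1
      omega
    obtain ⟨w, -, hw0, hw⟩ := exists_common_eigen (Set.range (fun i => (TY i).baseChange K)) hcomm
      (Module.finrank K (⊤ : Submodule K (K ⊗[O] Y))) ⊤ rfl htop (fun _ _ _ _ => trivial)
    choose μ hμ using fun i => hw _ ⟨i, rfl⟩
    -- push forward to `K ⊗ H'`
    have hflat : Module.Flat O K := inferInstance
    have hinj : Function.Injective (Y.subtype.baseChange K) := by
      have := Module.Flat.lTensor_preserves_injective_linearMap (M := K) Y.subtype
        (Submodule.injective_subtype Y)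
      exact this
    set v := Y.subtype.baseChange K w with hv
    have hv0 : v ≠ 0 := fun h => hw0 (hinj (by rw [← hv, h, map_zero]))
    have hveig : ∀ i, (T' i).baseChange K v = μ i • v := by
      intro i
      have h3 : (T' i).baseChange K v = ((T' i) ∘ₗ Y.subtype).baseChange K w := by
        rw [LinearMap.baseChange_comp]; rfl
      have h4 : (T' i) ∘ₗ Y.subtype = Y.subtype ∘ₗ TY i := by
        apply LinearMap.ext
        intro x
        rfl
      rw [h3, h4, LinearMap.baseChange_comp, LinearMap.comp_apply, hμ, map_smul]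
    have hev : (act T' hT' e).baseChange K v = v := by
      have h4 : (act T' hT' e) ∘ₗ Y.subtype = Y.subtype := by
        apply LinearMap.ext
        intro x
        exact (mem_loc he').mp ((hYmem x.1).mp x.2).1
      have h3 : (act T' hT' e).baseChange K v = ((act T' hT' e) ∘ₗ Y.subtype).baseChange K w := by
        rw [LinearMap.baseChange_comp]; rfl
      rw [h3, h4]
    have hlam : MvPolynomial.aeval μ e = 1 := by
      rw [baseChange_act_eigen T' hT' μ v hveig] at hev
      exact eq_one_of_smul hv0 hev
    have hz : ∀ f : H' →ₗ[O] H, (∀ x ∈ Y, f x = 0) → f.baseChange K v = 0 := by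
      intro f hf
      have h3 : f.baseChange K v = (f ∘ₗ Y.subtype).baseChange K w := by
        rw [LinearMap.baseChange_comp]; rfl
      have h4 : f ∘ₗ Y.subtype = 0 := by
        apply LinearMap.ext
        intro x
        exact hf x.1 x.2
      rw [h3, h4, LinearMap.baseChange_zero, LinearMap.zero_apply]
    exact hE μ v hv0 hveig hlam (hz f₁ fun x hx => ((hYmem x).mp hx).2.1)
      (hz f₂ fun x hx => ((hYmem x).mp hx).2.2)
  -- the map to `Loc × Loc`
  have hmap₁ : ∀ x ∈ Loc T' hT' e, f₁ x ∈ Loc T hT e := fun x hx =>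
    map_mem_loc (T := T') (hT := hT') (T' := T) (hT' := hT) f₁.toAddMonoidHom
      (fun a x => map_smul f₁ a x) h₁ hx
  have hmap₂ : ∀ x ∈ Loc T' hT' e, f₂ x ∈ Loc T hT e := fun x hx =>
    map_mem_loc (T := T') (hT := hT') (T' := T) (hT' := hT) f₂.toAddMonoidHom
      (fun a x => map_smul f₂ a x) h₂ hx
  let g : Loc T' hT' e →ₗ[O] (Loc T hT e × Loc T hT e) :=
    (f₁.restrict hmap₁).prod (f₂.restrict hmap₂)
  have hginj : Function.Injective g := by
    rw [injective_iff_map_eq_zero]
    intro x hx
    have hx1 : f₁ x.1 = 0 := congrArg Subtype.val (Prod.ext_iff.mp hx).1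
    have hx2 : f₂ x.1 = 0 := congrArg Subtype.val (Prod.ext_iff.mp hx).2
    have hx3 : x.1 ∈ Y := (hYmem _).mpr ⟨x.2, hx1, hx2⟩
    rw [hY0] at hx3
    exact Subtype.ext ((Submodule.mem_bot O).mp hx3)
  have hfreeL : Module.Free O (Loc T hT e) := Module.free_of_finite_type_torsion_free'
  have hfinL : Module.Finite O (Loc T hT e) := inferInstance
  calc Module.finrank O (Loc T' hT' e) ≤ Module.finrank O (Loc T hT e × Loc T hT e) :=
        LinearMap.finrank_le_finrank_of_injective hginj
    _ = 2 * Module.finrank O (Loc T hT e) := by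
        rw [Module.finrank_prod]; ring

end Fermat.Agent.H37.Rank
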