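import Fermat.Agent.H70HeckeAbs

/-!
# Hecke families : constructors, sums, identity
-/

set_option autoImplicit false

namespace Fermat.Agent.H37.Tr

open Fermat.Agent.H70.Coh

variable {S : Type*} [Monoid S] {R : Type*} [CommRing R] {V : Type*} [AddCommGroup V] [Module R V]
  {Γ Γ' Γ'' : Type*} [Group Γ] [Group Γ'] [Group Γ''] {ι : Γ →* S} {ι' : Γ' →* S}
  {ι'' : Γ'' →* S}

/-- The members of the family lie in distinct classes. -/
def Irr (h : HFam ι ι') : Prop := ∀ (i i' : h.J) (γ : Γ), h.α i = ι γ * h.α i' → i = i'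

/-- `s` lies in one of the classes of the family. -/
def Mem (h : HFam ι ι') (s : S) : Prop := ∃ (j : h.J) (γ : Γ), s = ι γ * h.α j

/-- Construction of a Hecke family from an irredundant stable family. -/
def ofCover (J : Type) [Fintype J] (α : J → S)
    (irr : ∀ (i i' : J) (γ : Γ), α i = ι γ * α i' → i = i')
    (cov : ∀ (γ' : Γ') (i : J), ∃ (k : J) (δ : Γ), α i * ι' γ' = ι δ * α k) : HFam ι ι' where
  J := J
  fin := inferInstance
  α := α
  inv := by
    intro γ'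
    choose s d hsd using cov γ'
    have hinj : Function.Injective s := by
      intro i i' h
      refine irr i i' (d i * (d i')⁻¹) ?_
      have h1 := hsd i
      have h2 := hsd i'
      rw [h] at h1
      have h3 : α (s i') = ι (d i')⁻¹ * (α i' * ι' γ') := by
        rw [h2, ← mul_assoc, ← map_mul, inv_mul_cancel, map_one, one_mul]
      rw [h3] at h1
      have h4 := congrArg (· * ι' γ'⁻¹) h1
      have h5 : ∀ s : S, s * ι' γ' * ι' γ'⁻¹ = s := by
        intro s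
        rw [mul_assoc, ← map_mul, mul_inv_cancel, map_one, mul_one]
      have h6 : α i * ι' γ' * ι' γ'⁻¹ = (ι (d i) * (ι (d i')⁻¹ * α i')) * ι' γ' * ι' γ'⁻¹ := by
        rw [h1]
        simp only [mul_assoc]
      rw [h5, h5] at h6
      rw [h6, map_mul, mul_assoc]
    exact ⟨Equiv.ofBijective s (Finite.injective_iff_bijective.mp hinj), d, hsd⟩

lemma ofCover_irr (J : Type) [Fintype J] (α : J → S)
    (irr : ∀ (i i' : J) (γ : Γ), α i = ι γ * α i' → i = i')
    (cov : ∀ (γ' : Γ') (i : J), ∃ (k : J) (δ : Γ), α i * ι' γ' = ι δ * α k) :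
    Irr (ofCover J α irr cov) := irr

lemma ofCover_α (J : Type) [Fintype J] (α : J → S)
    (irr : ∀ (i i' : J) (γ : Γ), α i = ι γ * α i' → i = i')
    (cov : ∀ (γ' : Γ') (i : J), ∃ (k : J) (δ : Γ), α i * ι' γ' = ι δ * α k) (j : J) :
    (ofCover J α irr cov).α j = α j := rfl

/-- the identity family -/
def idFam (ι : Γ →* S) : HFam ι ι where
  J := Unit
  fin := inferInstance
  α := fun _ => 1
  inv := fun γ => ⟨1, fun _ => γ, fun _ => by rw [one_mul, mul_one]⟩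

/-- the sum of two families -/
def addFam (h₁ h₂ : HFam ι ι') : HFam ι ι' where
  J := h₁.J ⊕ h₂.J
  fin := inferInstance
  α := Sum.elim h₁.α h₂.α
  inv := by
    intro γ'
    obtain ⟨σ₁, δ₁, h1⟩ := h₁.inv γ'
    obtain ⟨σ₂, δ₂, h2⟩ := h₂.inv γ'
    refine ⟨Equiv.sumCongr σ₁ σ₂, Sum.elim δ₁ δ₂, ?_⟩
    rintro (i | i)
    · exact h1 i
    · exact h2 i

variable [HFam.IsFreeOn ι] {ρ : S →* (Module.End R V)ᵐᵒᵖ}

/-- Support criterion for the equality of Hecke operators. -/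
theorem opH_congr_of_supp (h₁ h₂ : HFam ι ι') (hi₁ : Irr h₁) (hi₂ : Irr h₂)
    (h12 : ∀ i, Mem h₂ (h₁.α i)) (h21 : ∀ j, Mem h₁ (h₂.α j)) : h₁.opH ρ = h₂.opH ρ := by
  choose e g he using h12
  have hinj : Function.Injective e := by
    intro i i' hii'
    refine hi₁ i i' (g i * (g i')⁻¹) ?_
    rw [he i, hii', he i', map_mul, ← mul_assoc, mul_assoc (ι (g i)), ← map_mul ι (g i')⁻¹,
      inv_mul_cancel, map_one, mul_one]
  have hsurj : Function.Surjective e := by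
    intro j
    obtain ⟨i, γ, hγ⟩ := h21 j
    refine ⟨i, ?_⟩
    refine (hi₂ j (e i) (γ * g i) ?_).symm
    rw [hγ, he i, map_mul, mul_assoc]
  exact HFam.opH_congr h₁ h₂ (Equiv.ofBijective e ⟨hinj, hsurj⟩) fun i => ⟨g i, he i⟩

theorem idFam_opH (x : H1 ι ρ) : (idFam ι).opH ρ x = x := by
  obtain ⟨c, rfl⟩ := Submodule.mkQ_surjective _ x
  change H1.mk ι ρ ((idFam ι).op ρ c) = H1.mk ι ρ c
  congr 1
  apply Subtype.ext
  funext γ
  rw [HFam.op_apply_of_eq (idFam ι) c γ 1 (fun _ => γ) (fun _ => by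
    change (1 : S) * ι γ = ι γ * 1
    rw [one_mul, mul_one])]
  change ∑ i : Unit, slash ρ (1 : S) (c.1 γ) = c.1 γ
  rw [slash_one]
  simp

theorem addFam_opH (h₁ h₂ : HFam ι ι') (x : H1 ι ρ) :
    (addFam h₁ h₂).opH ρ x = h₁.opH ρ x + h₂.opH ρ x := by
  obtain ⟨c, rfl⟩ := Submodule.mkQ_surjective _ x
  change H1.mk ι' ρ ((addFam h₁ h₂).op ρ c) = H1.mk ι' ρ (h₁.op ρ c) + H1.mk ι' ρ (h₂.op ρ c)
  rw [← map_add]
  congr 1
  apply Subtype.ext
  funext γ'
  obtain ⟨σ₁, δ₁, h1⟩ := h₁.inv γ'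
  obtain ⟨σ₂, δ₂, h2⟩ := h₂.inv γ'
  change _ = (h₁.op ρ c).1 γ' + (h₂.op ρ c).1 γ'
  rw [HFam.op_apply_of_eq (addFam h₁ h₂) c γ' (Equiv.sumCongr σ₁ σ₂) (Sum.elim δ₁ δ₂) (by
    rintro (i | i)
    · exact h1 i
    · exact h2 i), HFam.op_apply_of_eq h₁ c γ' σ₁ δ₁ h1, HFam.op_apply_of_eq h₂ c γ' σ₂ δ₂ h2]
  exact Fintype.sum_sum_type _

/-- A family equivalent to `id` (a single class, the class of `1`). -/
theorem opH_eq_self (h : HFam ι ι) (e : h.J ≃ Unit) (he : ∀ i, ∃ γ : Γ, h.α i = ι γ)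
    (x : H1 ι ρ) : h.opH ρ x = x := by
  have : h.opH ρ = (idFam ι).opH ρ := by
    refine HFam.opH_congr h (idFam ι) e fun i => ?_
    obtain ⟨γ, hγ⟩ := he i
    exact ⟨γ, by rw [hγ]; exact (mul_one _).symm⟩
  rw [this, idFam_opH]

end Fermat.Agent.H37.Tr
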