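import Fermat.Agent.H70HeckeRel
import Fermat.Agent.H37TrAbs

/-!
# Restriction, trace and Atkin-Lehner families for `Γ₀(M)`, `Γ₀(M q)`
-/

set_option autoImplicit false

open CongruenceSubgroup Matrix.SpecialLinearGroup
open scoped MatrixGroups

namespace Fermat.Agent.H37.Tr

open Fermat.Agent.H70.Coh

variable {N M : ℕ}

lemma dn_ext {A B : DN N} (h : A.1 = B.1) : A = B := Subtype.ext h

lemma gam_congr {M' : ℕ} (hM : N ∣ M) (hM' : N ∣ M') (γ : Gamma0 M) (γ' : Gamma0 M')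
    (h : (γ : SL(2, ℤ)) = (γ' : SL(2, ℤ))) : gam N M hM γ = gam N M' hM' γ' := by
  apply dn_ext
  rw [gam_val, gam_val, h]

/-- right cancellation of matrices of nonzero determinant -/
lemma mul_right_cancel' {A B C : Matrix (Fin 2) (Fin 2) ℤ} (hC : C.det ≠ 0)
    (h : A * C = B * C) : A = B := by
  have h4 := congrArg (fun m => m * C.adjugate) h
  simp only [mul_assoc, Matrix.mul_adjugate] at h4
  rw [mul_smul_comm, mul_one, mul_smul_comm, mul_one] at h4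
  ext i j
  have h5 := congrFun (congrFun h4 i) j
  simp only [Matrix.smul_apply, smul_eq_mul] at h5
  exact mul_left_cancel₀ hC h5

/-- left cancellation of matrices of nonzero determinant -/
lemma mul_left_cancel' {A B C : Matrix (Fin 2) (Fin 2) ℤ} (hC : C.det ≠ 0)
    (h : C * A = C * B) : A = B := by
  have h4 := congrArg (fun m => C.adjugate * m) h
  simp only [← mul_assoc, Matrix.adjugate_mul] at h4
  rw [smul_mul_assoc, one_mul, smul_mul_assoc, one_mul] at h4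
  ext i j
  have h5 := congrFun (congrFun h4 i) j
  simp only [Matrix.smul_apply, smul_eq_mul] at h5
  exact mul_left_cancel₀ hC h5

lemma dn_mul_right_cancel {A B C : DN N} (h : A * C = B * C) : A = B :=
  dn_ext (mul_right_cancel' C.2.1.ne' (congrArg Subtype.val h))

lemma dn_mul_left_cancel {A B C : DN N} (h : C * A = C * B) : A = B :=
  dn_ext (mul_left_cancel' C.2.1.ne' (congrArg Subtype.val h))

lemma irr_of_isUT {Γ' : Type*} [Group Γ'] {hM : N ∣ M} {ι' : Γ' →* DN N}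
    {h₁ : HFam (gam N M hM) ι'} {a₁ b₁ d₁ : h₁.J → ℤ} (H₁ : IsUT h₁ a₁ b₁ d₁)
    (hinj : ∀ i i', a₁ i = a₁ i' → d₁ i = d₁ i' → d₁ i' ∣ b₁ i - b₁ i' → i = i') :
    Irr h₁ := by
  intro i i' γ hγ
  have h1 := congrArg Subtype.val hγ
  change (h₁.α i).1 = (gam N M hM γ).1 * (h₁.α i').1 at h1
  rw [H₁.eq, H₁.eq, gam_val] at h1
  set g : Matrix (Fin 2) (Fin 2) ℤ := ((γ : SL(2, ℤ)) : Matrix (Fin 2) (Fin 2) ℤ) with hg
  have hdet : g.det = 1 := (γ : SL(2, ℤ)).det_coe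
  rw [Matrix.det_fin_two] at hdet
  have e00 := congrFun (congrFun h1 0) 0
  have e01 := congrFun (congrFun h1 0) 1
  have e10 := congrFun (congrFun h1 1) 0
  have e11 := congrFun (congrFun h1 1) 1
  simp [Matrix.mul_apply, Fin.sum_univ_two] at e00 e01 e10 e11
  have hpi := H₁.pos i
  have hpi' := H₁.pos i'
  have hg10 : g 1 0 = 0 := by
    rcases e10 with h | h
    · exact h
    · omega
  rw [hg10] at hdet e11
  have hg00 : 0 < g 0 0 := by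
    by_contra hneg
    push Not at hneg
    nlinarith
  have hgg : g 0 0 = 1 ∧ g 1 1 = 1 := by
    have h2 : g 0 0 * g 1 1 = 1 := by linarith
    have h3 : 0 < g 1 1 := by
      by_contra hneg
      push Not at hneg
      nlinarith
    constructor <;> nlinarith
  rw [hgg.1, one_mul] at e00 e01
  rw [hgg.2, one_mul, zero_mul, zero_add] at e11
  exact hinj i i' e00 e11 ⟨g 0 1, by rw [e01]; ring⟩

lemma irr_tFam {hM : N ∣ M} {ℓ : ℕ} (hℓ : ℓ.Prime) (hℓM : ¬ ℓ ∣ M) : Irr (tFam hM hℓ hℓM) := by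
  refine irr_of_isUT (isUT_tFam hℓ hℓM) ?_
  have h1 : (1 : ℤ) < ℓ := by exact_mod_cast hℓ.one_lt
  have i1 : NeZero ℓ := ⟨hℓ.ne_zero⟩
  rintro (_ | j) (_ | j') ha hd hb
  · rfl
  · exact absurd ha (by change (ℓ : ℤ) ≠ 1; omega)
  · exact absurd ha (by change (1 : ℤ) ≠ ℓ; omega)
  · have : j = j' := val_eq_of_dvd hb
    rw [this]

lemma irr_uFam {hM : N ∣ M} {q : ℕ} (hq : 0 < q) (hqM : q ∣ M) : Irr (uFam hM hq hqM) := by
  refine irr_of_isUT (isUT_uFam hq hqM) ?_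
  have i1 : NeZero q := ⟨hq.ne'⟩
  intro j j' ha hd hb
  exact val_eq_of_dvd hb

/-- Decomposition of integral matrices of determinant `ℓ`. -/
lemma exists_decomp (hM : N ∣ M) {ℓ : ℕ} (hℓ : ℓ.Prime) (hℓM : ¬ ℓ ∣ M)
    (A : Matrix (Fin 2) (Fin 2) ℤ) (hdet : A.det = ℓ) (hc : (M : ℤ) ∣ A 1 0) :
    ∃ (i : OnePoint (ZMod ℓ)) (γ : Gamma0 M),
      A = ((γ : SL(2, ℤ)) : Matrix (Fin 2) (Fin 2) ℤ) * (tRep hM hℓ hℓM i).1 := by
  have i1 : Fact ℓ.Prime := ⟨hℓ⟩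
  have hℓ0 : (ℓ : ℤ) ≠ 0 := by exact_mod_cast hℓ.ne_zero
  have hcop : IsCoprime (M : ℤ) (ℓ : ℤ) :=
    Nat.isCoprime_iff_coprime.mpr ((Nat.Prime.coprime_iff_not_dvd hℓ).mpr hℓM).symm
  rw [Matrix.det_fin_two] at hdet
  by_cases h : (ℓ : ℤ) ∣ A 0 0 ∧ (ℓ : ℤ) ∣ A 1 0
  · obtain ⟨⟨a, ha⟩, ⟨c, hc'⟩⟩ := h
    have hMc : (M : ℤ) ∣ c := by
      refine hcop.dvd_of_dvd_mul_left ?_
      rw [← hc']; exact hc
    refine ⟨none, ⟨⟨!![a, A 0 1; c, A 1 1], ?_⟩, ?_⟩, ?_⟩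
    · rw [Matrix.det_fin_two_of]
      rw [ha, hc'] at hdet
      have h1 : (ℓ : ℤ) * (a * A 1 1 - A 0 1 * c) = ℓ * 1 := by linear_combination hdet
      exact mul_left_cancel₀ hℓ0 h1
    · exact Gamma0_mem.mpr ((ZMod.intCast_zmod_eq_zero_iff_dvd _ _).mpr hMc)
    · change A = !![a, A 0 1; c, A 1 1] * !![(ℓ : ℤ), 0; 0, ((1 : ℕ) : ℤ)]
      ext i j
      fin_cases i <;> fin_cases j <;> simp [Matrix.mul_apply, Fin.sum_univ_two, ha, hc', mul_comm]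
  · -- there is `j` with `ℓ ∣ b - a j` and `ℓ ∣ d - c j`
    have key : ∃ j : ZMod ℓ, ((A 0 1 : ℤ) : ZMod ℓ) = (A 0 0 : ℤ) * j ∧
        ((A 1 1 : ℤ) : ZMod ℓ) = (A 1 0 : ℤ) * j := by
      have h0 : ((A 0 0 : ℤ) : ZMod ℓ) * ((A 1 1 : ℤ) : ZMod ℓ) =
          ((A 0 1 : ℤ) : ZMod ℓ) * ((A 1 0 : ℤ) : ZMod ℓ) := by
        have h1 := congrArg (Int.cast : ℤ → ZMod ℓ) hdet
        push_cast at h1
        rw [ZMod.natCast_self] at h1
        exact sub_eq_zero.mp h1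
      by_cases ha : ((A 0 0 : ℤ) : ZMod ℓ) = 0
      · have hc0 : ((A 1 0 : ℤ) : ZMod ℓ) ≠ 0 := by
          intro hc0
          exact h ⟨(ZMod.intCast_zmod_eq_zero_iff_dvd _ _).mp ha,
            (ZMod.intCast_zmod_eq_zero_iff_dvd _ _).mp hc0⟩
        refine ⟨((A 1 1 : ℤ) : ZMod ℓ) / ((A 1 0 : ℤ) : ZMod ℓ), ?_, ?_⟩
        · rw [ha, zero_mul]
          rw [ha, zero_mul] at h0
          rcases mul_eq_zero.mp h0.symm with h1 | h1
          · exact h1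
          · exact absurd h1 hc0
        · field_simp
      · refine ⟨((A 0 1 : ℤ) : ZMod ℓ) / ((A 0 0 : ℤ) : ZMod ℓ), ?_, ?_⟩
        · field_simp
        · field_simp
          rw [mul_comm, h0]
          ring
    obtain ⟨j, hj1, hj2⟩ := key
    have hjv : ((j.val : ℤ) : ZMod ℓ) = j := by
      push_cast
      exact ZMod.natCast_zmod_val j
    obtain ⟨b', hb'⟩ : (ℓ : ℤ) ∣ A 0 1 - A 0 0 * (j.val : ℤ) := by
      rw [← ZMod.intCast_zmod_eq_zero_iff_dvd]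
      rw [Int.cast_sub, Int.cast_mul, hjv, hj1, sub_self]
    obtain ⟨d', hd'⟩ : (ℓ : ℤ) ∣ A 1 1 - A 1 0 * (j.val : ℤ) := by
      rw [← ZMod.intCast_zmod_eq_zero_iff_dvd]
      rw [Int.cast_sub, Int.cast_mul, hjv, hj2, sub_self]
    refine ⟨some j, ⟨⟨!![A 0 0, b'; A 1 0, d'], ?_⟩, ?_⟩, ?_⟩
    · rw [Matrix.det_fin_two_of]
      have h1 : (ℓ : ℤ) * (A 0 0 * d' - b' * A 1 0) = ℓ * 1 := by
        linear_combination hdet - A 0 0 * hd' + A 1 0 * hb'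
      exact mul_left_cancel₀ hℓ0 h1
    · exact Gamma0_mem.mpr ((ZMod.intCast_zmod_eq_zero_iff_dvd _ _).mpr hc)
    · change A = !![A 0 0, b'; A 1 0, d'] * !![((1 : ℕ) : ℤ), (j.val : ℤ); 0, (ℓ : ℤ)]
      generalize (j.val : ℤ) = v at hb' hd' ⊢
      ext i k
      fin_cases i <;> fin_cases k <;> simp [Matrix.mul_apply, Fin.sum_univ_two]
      · linear_combination hb'
      · linear_combination hd'

/-- Decomposition of integral matrices of determinant `p ∣ M` with `p ∤ a`. -/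
lemma exists_decomp_u (hM : N ∣ M) {p : ℕ} (hp : p.Prime) (_hpM : p ∣ M)
    (A : Matrix (Fin 2) (Fin 2) ℤ) (hdet : A.det = p) (hc : (M : ℤ) ∣ A 1 0)
    (ha : ¬ (p : ℤ) ∣ A 0 0) :
    ∃ (j : ZMod p) (γ : Gamma0 M),
      A = ((γ : SL(2, ℤ)) : Matrix (Fin 2) (Fin 2) ℤ) * (uRep N hp.pos j).1 := by
  have i1 : Fact p.Prime := ⟨hp⟩
  have hℓ0 : (p : ℤ) ≠ 0 := by exact_mod_cast hp.ne_zero
  rw [Matrix.det_fin_two] at hdet
  have h0 : ((A 0 0 : ℤ) : ZMod p) * ((A 1 1 : ℤ) : ZMod p) =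
      ((A 0 1 : ℤ) : ZMod p) * ((A 1 0 : ℤ) : ZMod p) := by
    have h1 := congrArg (Int.cast : ℤ → ZMod p) hdet
    push_cast at h1
    rw [ZMod.natCast_self] at h1
    exact sub_eq_zero.mp h1
  have ha : ((A 0 0 : ℤ) : ZMod p) ≠ 0 := by
    intro h
    exact ha ((ZMod.intCast_zmod_eq_zero_iff_dvd _ _).mp h)
  obtain ⟨j, hj1, hj2⟩ : ∃ j : ZMod p, ((A 0 1 : ℤ) : ZMod p) = (A 0 0 : ℤ) * j ∧
      ((A 1 1 : ℤ) : ZMod p) = (A 1 0 : ℤ) * j := by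
    refine ⟨((A 0 1 : ℤ) : ZMod p) / ((A 0 0 : ℤ) : ZMod p), ?_, ?_⟩
    · field_simp
    · field_simp
      rw [mul_comm, h0]
      ring
  have hjv : ((j.val : ℤ) : ZMod p) = j := by
    push_cast
    exact ZMod.natCast_zmod_val j
  obtain ⟨b', hb'⟩ : (p : ℤ) ∣ A 0 1 - A 0 0 * (j.val : ℤ) := by
    rw [← ZMod.intCast_zmod_eq_zero_iff_dvd]
    rw [Int.cast_sub, Int.cast_mul, hjv, hj1, sub_self]
  obtain ⟨d', hd'⟩ : (p : ℤ) ∣ A 1 1 - A 1 0 * (j.val : ℤ) := by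
    rw [← ZMod.intCast_zmod_eq_zero_iff_dvd]
    rw [Int.cast_sub, Int.cast_mul, hjv, hj2, sub_self]
  refine ⟨j, ⟨⟨!![A 0 0, b'; A 1 0, d'], ?_⟩, ?_⟩, ?_⟩
  · rw [Matrix.det_fin_two_of]
    have h1 : (p : ℤ) * (A 0 0 * d' - b' * A 1 0) = p * 1 := by
      linear_combination hdet - A 0 0 * hd' + A 1 0 * hb'
    exact mul_left_cancel₀ hℓ0 h1
  · exact Gamma0_mem.mpr ((ZMod.intCast_zmod_eq_zero_iff_dvd _ _).mpr hc)
  · change A = !![A 0 0, b'; A 1 0, d'] * !![((1 : ℕ) : ℤ), (j.val : ℤ); 0, (p : ℤ)]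
    generalize (j.val : ℤ) = v at hb' hd' ⊢
    ext i k
    fin_cases i <;> fin_cases k <;> simp [Matrix.mul_apply, Fin.sum_univ_two]
    · linear_combination hb'
    · linear_combination hd'

end Fermat.Agent.H37.Tr
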