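import Fermat.Agent.H37Tr

/-!
# The families `resFam`, `trFam`, `wFam`, `scalFam`
-/

set_option autoImplicit false

open CongruenceSubgroup Matrix.SpecialLinearGroup
open scoped MatrixGroups

namespace Fermat.Agent.H37.Tr

open Fermat.Agent.H70.Coh

variable {N M q : ℕ}

/-- Bezout data for the Atkin-Lehner matrix `(q x, y; M q z, q t)` of determinant `q`. -/
structure AL (M q : ℕ) where
  /-- entry -/
  x : ℤ
  /-- entry -/
  y : ℤ
  /-- entry -/
  z : ℤ
  /-- entry -/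
  t : ℤ
  /-- determinant -/
  eq : q * x * t - M * y * z = 1

lemma nonempty_AL (h : q.Coprime M) : Nonempty (AL M q) := by
  have h1 : (q : ℤ) * Nat.gcdA q M + M * Nat.gcdB q M = 1 := by
    have := Nat.gcd_eq_gcd_ab q M
    rw [h.gcd_eq_one] at this
    exact_mod_cast this.symm
  exact ⟨⟨1, - Nat.gcdB q M, 1, Nat.gcdA q M, by linear_combination h1⟩⟩

namespace AL

variable (w : AL M q)

/-- the adjugate Atkin-Lehner data -/
def adj : AL M q := ⟨w.t, -w.y, -w.z, w.x, by linear_combination w.eq⟩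

/-- the Atkin-Lehner matrix as an element of the Hecke semigroup -/
def mat (hNM : N ∣ M) (hq : 0 < q) : DN N :=
  ⟨!![q * w.x, w.y; M * q * w.z, q * w.t], by
    refine ⟨?_, ?_, ?_⟩
    · rw [Matrix.det_fin_two_of]
      have h1 : (q : ℤ) * w.x * (q * w.t) - w.y * (M * q * w.z) = q := by
        linear_combination (q : ℤ) * w.eq
      rw [h1]
      exact_mod_cast hq
    · change (N : ℤ) ∣ M * q * w.z
      exact ((Int.natCast_dvd_natCast.mpr hNM).mul_right _).mul_right _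
    · change IsCoprime ((q : ℤ) * w.x) (N : ℤ)
      obtain ⟨k, hk⟩ := hNM
      refine ⟨w.t, -(k * w.y * w.z), ?_⟩
      have h1 := w.eq
      have hk' : (M : ℤ) = N * k := by exact_mod_cast hk
      linear_combination h1 + w.y * w.z * hk'⟩

lemma mat_val (hNM : N ∣ M) (hq : 0 < q) :
    (w.mat hNM hq).1 = !![q * w.x, w.y; M * q * w.z, q * w.t] := rfl

/-- the matrix `(x, y; M z, q t) ∈ Γ₀(M)` -/
def g0 : Gamma0 M :=
  ⟨⟨!![w.x, w.y; M * w.z, q * w.t], by
    rw [Matrix.det_fin_two_of]; linear_combination w.eq⟩, Gamma0_mem.mpr (by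
    change (((M : ℤ) * w.z : ℤ) : ZMod M) = 0
    simp)⟩

lemma g0_val : ((w.g0 : SL(2, ℤ)) : Matrix (Fin 2) (Fin 2) ℤ) =
    !![w.x, w.y; M * w.z, q * w.t] := rfl

end AL

lemma gamma0_dvd {L : ℕ} (γ : Gamma0 L) : (L : ℤ) ∣ (γ : SL(2, ℤ)) 1 0 :=
  (ZMod.intCast_zmod_eq_zero_iff_dvd _ _).mp (Gamma0_mem.mp γ.2)

lemma gamma0_det {L : ℕ} (γ : Gamma0 L) : (γ : SL(2, ℤ)) 0 0 * (γ : SL(2, ℤ)) 1 1 -
    (γ : SL(2, ℤ)) 0 1 * (γ : SL(2, ℤ)) 1 0 = 1 := by
  have h1 : ((γ : SL(2, ℤ)) : Matrix (Fin 2) (Fin 2) ℤ).det = 1 := (γ : SL(2, ℤ)).det_coe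
  rw [Matrix.det_fin_two] at h1
  exact h1

/-- conjugation by the Atkin-Lehner matrix -/
lemma al_conj (hNM : N ∣ M) (hq : 0 < q) (w : AL M q) (γ : Gamma0 (M * q)) :
    ∃ γ' : Gamma0 (M * q), w.mat hNM hq * gam N (M * q) (hNM.mul_right q) γ =
      gam N (M * q) (hNM.mul_right q) γ' * w.mat hNM hq := by
  obtain ⟨c, hc⟩ := gamma0_dvd γ
  have hdet := gamma0_det γ
  set a := (γ : SL(2, ℤ)) 0 0 with ha
  set b := (γ : SL(2, ℤ)) 0 1 with hb
  set d := (γ : SL(2, ℤ)) 1 1 with hd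
  push_cast at hc
  rw [hc] at hdet
  have hw := w.eq
  have hγ : ((γ : SL(2, ℤ)) : Matrix (Fin 2) (Fin 2) ℤ) = !![a, b; M * q * c, d] := by
    ext i j
    fin_cases i <;> fin_cases j
    · rfl
    · rfl
    · exact hc
    · rfl
  obtain ⟨x, y, z, t, hw⟩ := w
  simp only at hw
  refine ⟨⟨⟨!![q * (x * a + y * M * c) * t - (q * x * b + y * d) * M * z,
      q * x ^ 2 * b - M * y ^ 2 * c + x * y * (d - a);
      M * q * (z * t * (a - d) + q * t ^ 2 * c - M * z ^ 2 * b),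
      -M * (z * a + q * t * c) * y + q * (M * z * b + t * d) * x], ?_⟩, ?_⟩, ?_⟩
  · rw [Matrix.det_fin_two_of]
    have e : (q * (x * a + y * M * c) * t - (q * x * b + y * d) * M * z) *
        (-M * (z * a + q * t * c) * y + q * (M * z * b + t * d) * x) -
        (q * x ^ 2 * b - M * y ^ 2 * c + x * y * (d - a)) *
        (M * q * (z * t * (a - d) + q * t ^ 2 * c - M * z ^ 2 * b)) =
        (q * x * t - M * y * z) ^ 2 * (a * d - b * (M * q * c)) := by ring
    rw [e, hw, hdet]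
    ring
  · refine Gamma0_mem.mpr ((ZMod.intCast_zmod_eq_zero_iff_dvd _ _).mpr ?_)
    change ((M * q : ℕ) : ℤ) ∣ (M : ℤ) * q * _
    push_cast
    exact dvd_mul_right _ _
  · apply dn_ext
    change !![(q : ℤ) * x, y; M * q * z, q * t] *
      ((γ : SL(2, ℤ)) : Matrix (Fin 2) (Fin 2) ℤ) = _ * !![(q : ℤ) * x, y; M * q * z, q * t]
    rw [hγ]
    change _ = !![q * (x * a + y * M * c) * t - (q * x * b + y * d) * M * z,
      q * x ^ 2 * b - M * y ^ 2 * c + x * y * (d - a);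
      M * q * (z * t * (a - d) + q * t ^ 2 * c - M * z ^ 2 * b),
      -M * (z * a + q * t * c) * y + q * (M * z * b + t * d) * x] *
      !![(q : ℤ) * x, y; M * q * z, q * t]
    ext i j
    fin_cases i <;> fin_cases j <;> simp [Matrix.mul_apply, Fin.sum_univ_two]
    · linear_combination (-(q : ℤ) * (x * a + y * M * c)) * hw
    · linear_combination (-(q * x * b + y * d)) * hw
    · linear_combination (-(q : ℤ) * M * (z * a + q * t * c)) * hw
    · linear_combination (-(q : ℤ) * (M * z * b + t * d)) * hw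

/-- conjugation by the Atkin-Lehner matrix, other side -/
lemma al_conj' (hNM : N ∣ M) (hq : 0 < q) (w : AL M q) (γ : Gamma0 (M * q)) :
    ∃ γ' : Gamma0 (M * q), gam N (M * q) (hNM.mul_right q) γ * w.mat hNM hq =
      w.mat hNM hq * gam N (M * q) (hNM.mul_right q) γ' := by
  obtain ⟨γ', h⟩ := al_conj hNM hq w.adj γ
  refine ⟨γ', ?_⟩
  have hadj : (w.mat hNM hq).1 * (w.adj.mat hNM hq).1 = (q : ℤ) • 1 := by
    rw [AL.mat_val, AL.mat_val]
    change !![(q : ℤ) * w.x, w.y; M * q * w.z, q * w.t] *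
      !![(q : ℤ) * w.t, -w.y; M * q * (-w.z), q * w.x] = _
    have := w.eq
    ext i j
    fin_cases i <;> fin_cases j <;> simp [Matrix.mul_apply, Fin.sum_univ_two]
    · linear_combination (q : ℤ) * this
    · ring
    · ring
    · linear_combination (q : ℤ) * this
  have hadj' : (w.adj.mat hNM hq).1 * (w.mat hNM hq).1 = (q : ℤ) • 1 := by
    rw [AL.mat_val, AL.mat_val]
    change !![(q : ℤ) * w.t, -w.y; M * q * (-w.z), q * w.x] *
      !![(q : ℤ) * w.x, w.y; M * q * w.z, q * w.t] = _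
    have := w.eq
    ext i j
    fin_cases i <;> fin_cases j <;> simp [Matrix.mul_apply, Fin.sum_univ_two]
    · linear_combination (q : ℤ) * this
    · ring
    · ring
    · linear_combination (q : ℤ) * this
  have h1 := congrArg Subtype.val h
  change (w.adj.mat hNM hq).1 * (gam N (M * q) (hNM.mul_right q) γ).1 =
    (gam N (M * q) (hNM.mul_right q) γ').1 * (w.adj.mat hNM hq).1 at h1
  apply dn_ext
  change (gam N (M * q) (hNM.mul_right q) γ).1 * (w.mat hNM hq).1 =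
    (w.mat hNM hq).1 * (gam N (M * q) (hNM.mul_right q) γ').1
  have hq0 : ((q : ℤ)) ≠ 0 := by exact_mod_cast hq.ne'
  have hd : (w.adj.mat hNM hq).1.det ≠ 0 := (w.adj.mat hNM hq).2.1.ne'
  apply mul_left_cancel' hd
  rw [← mul_assoc, h1, mul_assoc, hadj', ← mul_assoc, hadj', mul_smul_comm, smul_mul_assoc,
    mul_one, one_mul]

/-- The Atkin-Lehner family on `Γ₀(M q)`. -/
def wFam (hNM : N ∣ M) (hq : 0 < q) (w : AL M q) :
    HFam (gam N (M * q) (hNM.mul_right q)) (gam N (M * q) (hNM.mul_right q)) where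
  J := Unit
  fin := inferInstance
  α := fun _ => w.mat hNM hq
  inv := by
    intro γ
    obtain ⟨γ', h⟩ := al_conj hNM hq w γ
    exact ⟨1, fun _ => γ', fun _ => h⟩

/-- Restriction from `Γ₀(M)` to `Γ₀(M')`, `M ∣ M'`. -/
def resFam {M' : ℕ} (hNM : N ∣ M) (hMM' : M ∣ M') :
    HFam (gam N M hNM) (gam N M' (hNM.trans hMM')) where
  J := Unit
  fin := inferInstance
  α := fun _ => 1
  inv := by
    intro γ
    refine ⟨1, fun _ => ⟨(γ : SL(2, ℤ)), ?_⟩, fun _ => ?_⟩
    · rw [Gamma0_mem, ZMod.intCast_zmod_eq_zero_iff_dvd]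
      exact (Int.natCast_dvd_natCast.mpr hMM').trans (gamma0_dvd γ)
    · apply dn_ext
      change 1 * _ = _ * 1
      rw [one_mul, mul_one]
      rfl

/-- the scalar matrix `n` -/
def scal (N : ℕ) {n : ℕ} (hn : 0 < n) (hnN : n.Coprime N) : DN N :=
  ut N n 0 n hn hn hnN

lemma scal_val {n : ℕ} (hn : 0 < n) (hnN : n.Coprime N) :
    (scal N hn hnN).1 = (n : ℤ) • (1 : Matrix (Fin 2) (Fin 2) ℤ) := by
  change !![(n : ℤ), 0; 0, (n : ℤ)] = _
  ext i j
  fin_cases i <;> fin_cases j <;> simp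

lemma scal_comm {n : ℕ} (hn : 0 < n) (hnN : n.Coprime N) (s : DN N) :
    scal N hn hnN * s = s * scal N hn hnN := by
  apply dn_ext
  change (scal N hn hnN).1 * s.1 = s.1 * (scal N hn hnN).1
  rw [scal_val, mul_smul_comm, smul_mul_assoc, mul_one, one_mul]

/-- The scalar family. -/
def scalFam {n : ℕ} (hNM : N ∣ M) (hn : 0 < n) (hnN : n.Coprime N) :
    HFam (gam N M hNM) (gam N M hNM) where
  J := Unit
  fin := inferInstance
  α := fun _ => scal N hn hnN
  inv := fun γ => ⟨1, fun _ => γ, fun _ => scal_comm hn hnN _⟩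

section Trace

variable (w : AL M q)

/-- coset representatives of `Γ₀(M q) \ Γ₀(M)` -/
def trRep : Option (ZMod q) → Gamma0 M
  | none => 1
  | some j => w.g0 * tpow M (j.val : ℤ)

lemma trRep_some_val (j : ZMod q) : ((trRep w (some j) : SL(2, ℤ)) : Matrix (Fin 2) (Fin 2) ℤ) =
    !![w.x, w.x * j.val + w.y; M * w.z, M * w.z * j.val + q * w.t] := by
  change ((w.g0 : SL(2, ℤ)) : Matrix (Fin 2) (Fin 2) ℤ) *
    ((tpow M (j.val : ℤ) : SL(2, ℤ)) : Matrix (Fin 2) (Fin 2) ℤ) = _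
  rw [AL.g0_val]
  have : ((tpow M (j.val : ℤ) : SL(2, ℤ)) : Matrix (Fin 2) (Fin 2) ℤ) = !![1, (j.val : ℤ); 0, 1] :=
    ModularGroup.coe_T_zpow _
  rw [this]
  generalize (j.val : ℤ) = v
  ext i k
  fin_cases i <;> fin_cases k <;> simp [Matrix.mul_apply, Fin.sum_univ_two]

include w in
lemma al_not_dvd (hq : q.Prime) : ¬ (q : ℤ) ∣ M * w.z := by
  intro h
  have h1 : (q : ℤ) ∣ 1 := by
    have h2 := w.eq
    rw [← h2]
    refine dvd_sub ?_ ?_
    · rw [mul_assoc]; exact dvd_mul_right _ _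
    · rw [show (M : ℤ) * w.y * w.z = M * w.z * w.y by ring]
      exact h.mul_right _
  have h3 := Int.eq_one_of_dvd_one (by positivity) h1
  exact hq.one_lt.ne' (by exact_mod_cast h3)

/-- the entry `c` of `A r⁻¹` is divisible by `M q` for a suitable representative `r` -/
lemma exists_rep (hq : q.Prime) (hqM : ¬ q ∣ M) (A : Matrix (Fin 2) (Fin 2) ℤ)
    (hM : (M : ℤ) ∣ A 1 0) :
    ∃ i, ((M * q : ℕ) : ℤ) ∣
      (A * (((trRep w i)⁻¹ : Gamma0 M) : SL(2, ℤ)) : Matrix (Fin 2) (Fin 2) ℤ) 1 0 := by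
  have i1 : Fact q.Prime := ⟨hq⟩
  have hcop : IsCoprime (M : ℤ) (q : ℤ) :=
    Nat.isCoprime_iff_coprime.mpr ((Nat.Prime.coprime_iff_not_dvd hq).mpr hqM).symm
  have hdv : ∀ a : ℤ, (M : ℤ) ∣ a → (q : ℤ) ∣ a → ((M * q : ℕ) : ℤ) ∣ a := by
    intro a h1 h2
    push_cast
    exact hcop.mul_dvd h1 h2
  by_cases h : (q : ℤ) ∣ A 1 0
  · refine ⟨none, ?_⟩
    have : (((trRep w none)⁻¹ : Gamma0 M) : SL(2, ℤ)) = 1 := by
      change (((1 : Gamma0 M)⁻¹ : Gamma0 M) : SL(2, ℤ)) = 1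
      simp
    rw [this]
    simp only [Matrix.SpecialLinearGroup.coe_one, mul_one]
    exact hdv _ hM h
  · have hc : ((A 1 0 : ℤ) : ZMod q) ≠ 0 := fun h' =>
      h ((ZMod.intCast_zmod_eq_zero_iff_dvd _ _).mp h')
    refine ⟨some (((A 1 1 : ℤ) : ZMod q) / ((A 1 0 : ℤ) : ZMod q)), ?_⟩
    set j : ZMod q := ((A 1 1 : ℤ) : ZMod q) / ((A 1 0 : ℤ) : ZMod q) with hj
    have hinv : ((((trRep w (some j))⁻¹ : Gamma0 M) : SL(2, ℤ)) : Matrix (Fin 2) (Fin 2) ℤ) =
        !![M * w.z * j.val + q * w.t, -(w.x * j.val + w.y); -(M * w.z), w.x] := by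
      have h1 : (((trRep w (some j))⁻¹ : Gamma0 M) : SL(2, ℤ)) =
        ((trRep w (some j) : Gamma0 M) : SL(2, ℤ))⁻¹ := rfl
      rw [h1, Matrix.SpecialLinearGroup.SL2_inv_expl]
      change !![((trRep w (some j) : SL(2, ℤ)) : Matrix (Fin 2) (Fin 2) ℤ) 1 1, _; _, _] = _
      rw [trRep_some_val]
      ext i k
      fin_cases i <;> fin_cases k <;> simp
    rw [hinv]
    have hval : (A * !![M * w.z * (j.val : ℤ) + q * w.t, -(w.x * (j.val : ℤ) + w.y);
        -(M * w.z), w.x]) 1 0 = M * w.z * (A 1 0 * j.val - A 1 1) + A 1 0 * (q * w.t) := by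
      generalize (j.val : ℤ) = v
      simp [Matrix.mul_apply, Fin.sum_univ_two]
      ring
    rw [hval]
    refine hdv _ ?_ ?_
    · exact dvd_add ((dvd_mul_right _ _).mul_right _) (hM.mul_right _)
    · refine dvd_add (Dvd.dvd.mul_left ?_ _) (Dvd.dvd.mul_left (dvd_mul_right _ _) _)
      rw [← ZMod.intCast_zmod_eq_zero_iff_dvd]
      push_cast
      rw [ZMod.natCast_zmod_val, hj]
      field_simp
      ring

lemma trRep_irr (hq : q.Prime) (i i' : Option (ZMod q)) (γ : Gamma0 (M * q))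
    (h : (trRep w i : SL(2, ℤ)) = (γ : SL(2, ℤ)) * (trRep w i' : SL(2, ℤ))) : i = i' := by
  have i1 : Fact q.Prime := ⟨hq⟩
  have i2 : NeZero q := ⟨hq.ne_zero⟩
  have hMz : (((M : ℤ) * w.z : ℤ) : ZMod q) ≠ 0 := fun h' =>
    al_not_dvd w hq ((ZMod.intCast_zmod_eq_zero_iff_dvd _ _).mp h')
  have hc : (((γ : SL(2, ℤ)) 1 0 : ℤ) : ZMod q) = 0 := by
    rw [ZMod.intCast_zmod_eq_zero_iff_dvd]
    exact (Int.natCast_dvd_natCast.mpr (dvd_mul_left q M)).trans (gamma0_dvd γ)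
  have hmat := congrArg (fun g : SL(2, ℤ) => (g : Matrix (Fin 2) (Fin 2) ℤ)) h
  simp only [Matrix.SpecialLinearGroup.coe_mul] at hmat
  have e0 := congrArg (Int.cast : ℤ → ZMod q) (congrFun (congrFun hmat 1) 0)
  have e1 := congrArg (Int.cast : ℤ → ZMod q) (congrFun (congrFun hmat 1) 1)
  rw [Matrix.mul_apply, Fin.sum_univ_two] at e0 e1
  push_cast at e0 e1
  change _ = (((γ : SL(2, ℤ)) 1 0 : ℤ) : ZMod q) * _ + (((γ : SL(2, ℤ)) 1 1 : ℤ) : ZMod q) * _
    at e0 e1
  rw [hc, zero_mul, zero_add] at e0 e1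
  set D := (((γ : SL(2, ℤ)) 1 1 : ℤ) : ZMod q) with hD
  rcases i with _ | j <;> rcases i' with _ | j'
  · rfl
  · exfalso
    rw [trRep_some_val] at e0 e1
    simp only [trRep, OneMemClass.coe_one, Matrix.SpecialLinearGroup.coe_one, Matrix.one_apply,
      Matrix.of_apply, Matrix.cons_val', Matrix.cons_val_zero, Matrix.cons_val_one,
      Matrix.cons_val_fin_one] at e0 e1
    simp at e0 e1
    rcases e0 with h0 | h0
    · rw [h0] at e1
      simp at e1
    · apply hMz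
      push_cast
      rcases h0 with h0 | h0 <;> simp [h0]
  · exfalso
    rw [trRep_some_val] at e0 e1
    simp only [trRep, OneMemClass.coe_one, Matrix.SpecialLinearGroup.coe_one, Matrix.one_apply,
      Matrix.of_apply, Matrix.cons_val', Matrix.cons_val_zero, Matrix.cons_val_one,
      Matrix.cons_val_fin_one] at e0 e1
    simp at e0 e1
    apply hMz
    push_cast
    rcases e0 with h0 | h0 <;> simp [h0]
  · rw [trRep_some_val, trRep_some_val] at e0 e1
    simp only [Matrix.of_apply, Matrix.cons_val', Matrix.cons_val_zero, Matrix.cons_val_one,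
      Matrix.cons_val_fin_one] at e0 e1
    push_cast at e0 e1 hMz
    rw [ZMod.natCast_zmod_val, ZMod.natCast_zmod_val, ZMod.natCast_self] at e1
    have hD1 : D = 1 := by
      have h1 : (D - 1) * ((M : ZMod q) * (w.z : ZMod q)) = 0 := by linear_combination -e0
      rcases mul_eq_zero.mp h1 with h2 | h2
      · exact sub_eq_zero.mp h2
      · exact absurd h2 hMz
    rw [hD1] at e1
    have h3 : ((M : ZMod q) * (w.z : ZMod q)) * (j - j') = 0 := by linear_combination e1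
    rcases mul_eq_zero.mp h3 with h4 | h4
    · exact absurd h4 hMz
    · rw [sub_eq_zero.mp h4]

/-- **The trace family** `Γ₀(M q) → Γ₀(M)`. -/
def trFam (hNM : N ∣ M) (hq : q.Prime) (hqM : ¬ q ∣ M) :
    HFam (gam N (M * q) (hNM.mul_right q)) (gam N M hNM) :=
  haveI : NeZero q := ⟨hq.ne_zero⟩
  ofCover (Option (ZMod q)) (fun i => gam N M hNM (trRep w i))
    (by
      intro i i' γ h
      refine trRep_irr w hq i i' γ ?_
      have h1 := congrArg Subtype.val h
      change (gam N M hNM (trRep w i)).1 =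
        (gam N (M * q) (hNM.mul_right q) γ).1 * (gam N M hNM (trRep w i')).1 at h1
      rw [gam_val, gam_val, gam_val] at h1
      apply Subtype.ext
      rw [h1]
      rfl)
    (by
      intro γ' i
      obtain ⟨k, hk⟩ := exists_rep w hq hqM
        (((trRep w i * γ' : Gamma0 M) : SL(2, ℤ)) : Matrix (Fin 2) (Fin 2) ℤ)
        (gamma0_dvd _)
      refine ⟨k, ⟨((trRep w i * γ' * (trRep w k)⁻¹ : Gamma0 M) : SL(2, ℤ)), ?_⟩, ?_⟩
      · rw [Gamma0_mem, ZMod.intCast_zmod_eq_zero_iff_dvd]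
        exact hk
      · rw [← map_mul, gam_congr (hNM.mul_right q) hNM _ (trRep w i * γ' * (trRep w k)⁻¹) rfl,
          ← map_mul, inv_mul_cancel_right])

lemma trFam_irr (hNM : N ∣ M) (hq : q.Prime) (hqM : ¬ q ∣ M) : Irr (trFam w hNM hq hqM) := by
  have : NeZero q := ⟨hq.ne_zero⟩
  exact ofCover_irr _ _ _ _

end Trace

end Fermat.Agent.H37.Tr
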