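import Fermat.Agent.H45NdA
import Fermat.Agent.H97MdL
import Fermat.Agent.H1HauptFinal
import Fermat.Agent.H68Int

/-!
# Node parameters: derivations in characteristic zero (helper45)
-/

set_option autoImplicit false
set_option linter.unusedSectionVars false
set_option linter.style.haveILetI false

open AlgebraicCurve ModularCurve WithZero IntermediateField Fermat.Agent.H34.Two

namespace Fermat.Agent.H45.Nd

section Transport

variable {K F : Type*} [Field K] [Field F] [Algebra K F] [CharZero K] [H94.FunField K F]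

/-- Transport of `d/dx` by an automorphism. -/
theorem map_dd (W : F ≃ₐ[K] F) {x y : F} (hx : Transcendental K x) (hy : Transcendental K y)
    (hxy : W x = y) (f : F) : W (H94.dd hx f) = H94.dd hy (W f) := by
  have := H94.FunField.finiteDimensional (F := F) hx
  have hsep := H94.isSeparable_adjoin (K := K) (x := x)
  let D1 : Derivation K F F := Derivation.mk'
    { toFun := fun f => W.symm (H94.dd hy (W f))
      map_add' := fun f g => by rw [map_add, map_add, map_add]
      map_smul' := fun a f => by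
        rw [RingHom.id_apply, map_smul, Derivation.map_smul, map_smul] }
    (fun f g => by
      show W.symm (H94.dd hy (W (f * g))) = f • W.symm (H94.dd hy (W g)) +
        g • W.symm (H94.dd hy (W f))
      rw [map_mul, Derivation.leibniz, smul_eq_mul, smul_eq_mul, map_add, map_mul, map_mul,
        W.symm_apply_apply, W.symm_apply_apply, smul_eq_mul, smul_eq_mul])
  have h0 : D1 - H94.dd hx = 0 := by
    apply H94.derivation_eq_zero (x := x)
    show W.symm (H94.dd hy (W x)) - H94.dd hx x = 0
    subst hxy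
    rw [H94.dd_self, H94.dd_self, map_one, sub_self]
  have h1 := DFunLike.congr_fun h0 f
  have h2 : W.symm (H94.dd hy (W f)) - H94.dd hx f = 0 := h1
  rw [← sub_eq_zero.mp h2, W.apply_symm_apply]

end Transport

section Char0

variable {L : Type*} [Field L] [Algebra ℚ L] [IsAlgClosed L] [CharZero L] (ι : L →+* ℂ)
  {c : ℕ}

/-- The Hauptmodul at level `M`. -/
noncomputable def XF (L : Type*) [Field L] [Algebra ℚ L] {c : ℕ} (M : ℕ) [NeZero M]
    (hc : c = 4 ∨ c = 9) (hcM : c ∣ M) : H99.FX L M :=
  ⟨H1.Xc c L, H1.Xc_mem_baseChange L hc (NeZero.ne M) hcM⟩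

include ι in
/-- `d/dX` preserves regularity at the non-cuspidal places. -/
theorem derX_reg {M : ℕ} [NeZero M] (hc : c = 4 ∨ c = 9) (hcM : c ∣ M)
    {j : H99.FX L M} (hj : (j : LaurentSeries L) = jqModC L)
    (v : Place L (H99.FX L M)) (hjv : j ∈ v.toValuationSubring) {f : H99.FX L M}
    (hf : f ∈ v.toValuationSubring) : H1.derX ι hc hcM f ∈ v.toValuationSubring := by
  let _ : Algebra L ℂ := ι.toAlgebra
  haveI : H94.FunField L (H99.FX L M) := H67.funField_of_degreeFact (H42.degreeFact L) M
  have D : H94.X0PlaceData L (H99.FX L M) M j :=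
    H94.x0PlaceData_of_eq (H24.laurentBaseChange_full L M) hj
  let φ : H99.FX L M →ₐ[L] LaurentSeries L := (H99.FX L M).val
  let C : H1.Coord L (H99.FX L M) j (XF L M hc hcM) := H1.coordC φ.toRingHom hj hc rfl
  have htr := C.transcendental D
  obtain ⟨a, ha⟩ := C.exists_uniformizer D v hjv
  have ht := H94.transcendental_of_ord_eq_one ha
  have h1 : H94.dd htr (XF L M hc hcM - algebraMap L _ a) = 1 := by
    rw [map_sub, H94.dd_self, Derivation.map_algebraMap, sub_zero]
  have h2 := H94.dd_mul_dd htr ht f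
  rw [h1, mul_one] at h2
  have h3 : H94.dd htr f = H1.derX ι hc hcM f := Subtype.ext (H1.map_dd_eq φ htr c rfl f)
  rw [← h3, ← h2]
  exact H94.dd_mem v ha hf

include ι in
theorem XF_transcendental {M : ℕ} [NeZero M] (hc : c = 4 ∨ c = 9) (hcM : c ∣ M) :
    Transcendental L (XF L M hc hcM) := by
  let _ : Algebra L ℂ := ι.toAlgebra
  haveI : H94.FunField L (H99.FX L M) := H67.funField_of_degreeFact (H42.degreeFact L) M
  have hj : (jqModC L) ∈ H99.FX L M := by
    rw [← H66.J_one]; exact H99.J_mem_FX (NeZero.ne M) (one_dvd M)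
  have D : H94.X0PlaceData L (H99.FX L M) M ⟨jqModC L, hj⟩ :=
    H94.x0PlaceData_of_eq (H24.laurentBaseChange_full L M) rfl
  let φ : H99.FX L M →ₐ[L] LaurentSeries L := (H99.FX L M).val
  let C : H1.Coord L (H99.FX L M) ⟨jqModC L, hj⟩ (XF L M hc hcM) :=
    H1.coordC φ.toRingHom rfl hc rfl
  exact C.transcendental D

include ι in
theorem dd_eq_derX {M : ℕ} [NeZero M] (hc : c = 4 ∨ c = 9) (hcM : c ∣ M)
    [H94.FunField L (H99.FX L M)]
    (hX : Transcendental L (XF L M hc hcM)) (f : H99.FX L M) :
    H94.dd hX f = H1.derX ι hc hcM f :=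
  Subtype.ext (H1.map_dd_eq (H99.FX L M).val hX c rfl f)

/-- functions integral over `L[j]` are regular at the non-cuspidal places -/
theorem mem_of_intJ {M : ℕ} [NeZero M] {j f : H99.FX L M} (hj : (j : LaurentSeries L) = jqModC L)
    (h : H1.IntJ L (jqModC L) (f : LaurentSeries L))
    (v : Place L (H99.FX L M)) (hjv : j ∈ v.toValuationSubring) : f ∈ v.toValuationSubring := by
  haveI : H94.FunField L (H99.FX L M) := H67.funField_of_degreeFact (H42.degreeFact L) M
  rw [← hj] at h
  have h1 := H1.intJ_iff.mpr (H1.intJ_val.mp h)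
  exact H1.isIntegral_iff_places.mp h1 v hjv

section Two

variable {m q : ℕ} [NeZero m] [NeZero q] [hq : Fact q.Prime] (w : H99.AL L m q) (hc : c = 4 ∨ c = 9) (hcm : c ∣ m)

theorem alpha_XF : heckeAlphaBar L m q (XF L m hc hcm) = XF L (m * q) hc (hcm.mul_right q) := by
  apply Subtype.ext
  rw [coe_heckeAlphaBar]
  rfl

variable (L q) in
/-- `X(t^q)` -/
noncomputable def YF : H99.FX L (m * q) := heckeBetaBar L m q (XF L m hc hcm)

theorem coe_YF : (YF L q hc hcm : LaurentSeries L) = qExpand L q (H1.Xc c L) := by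
  rw [YF, coe_heckeBetaBar]
  rfl

theorem W_XF : w.W (XF L (m * q) hc (hcm.mul_right q)) = YF L q hc hcm := by
  rw [← alpha_XF, w.alpha, YF]

theorem W_YF : w.W (YF L q hc hcm) = XF L (m * q) hc (hcm.mul_right q) := by
  rw [YF, w.beta, alpha_XF]

theorem coe_derX_YF : (H1.derX ι hc (hcm.mul_right q) (YF L q hc hcm) : LaurentSeries L) =
    q * (H1.thInv c L * qExpand L q (H1.thetaL L (H1.Xc c L))) := by
  rw [H1.coe_derX, coe_YF, H1.dX_qExpand_Xc]

include ι w in
theorem YF_transcendental : Transcendental L (YF L q hc hcm) := by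
  rw [← W_XF w hc hcm]
  intro h
  exact XF_transcendental (M := m * q) ι hc (hcm.mul_right q)
    ((isAlgebraic_algHom_iff (w.W : H99.FX L (m * q) →ₐ[L] H99.FX L (m * q))
      w.W.injective).mp h)

/-- `W (dY/dX) = dX/dY` -/
theorem W_derX_YF_mul : w.W (H1.derX ι hc (hcm.mul_right q) (YF L q hc hcm)) *
    H1.derX ι hc (hcm.mul_right q) (YF L q hc hcm) = 1 := by
  haveI : H94.FunField L (H99.FX L (m * q)) :=
    H67.funField_of_degreeFact (H42.degreeFact L) (m * q)
  have hX := XF_transcendental (M := m * q) ι hc (hcm.mul_right q)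
  have hY := YF_transcendental ι w hc hcm
  rw [← dd_eq_derX ι hc (hcm.mul_right q) hX, map_dd w.W hX hY (W_XF w hc hcm), W_YF,
    H94.dd_mul_dd hX hY, H94.dd_self]

/-- `dX/dY` is regular at the non-cuspidal places -/
theorem W_derX_YF_reg (v : Place L (H99.FX L (m * q))) (hv : jmq L m q ∈ v.toValuationSubring) :
    w.W (H1.derX ι hc (hcm.mul_right q) (YF L q hc hcm)) ∈ v.toValuationSubring := by
  haveI : H94.FunField L (H99.FX L (m * q)) :=
    H67.funField_of_degreeFact (H42.degreeFact L) (m * q)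
  obtain ⟨v', hv'⟩ := H97.exists_comap_place w.W v
  have key : ∀ f, f ∈ v'.toValuationSubring ↔ w.W f ∈ v.toValuationSubring := by
    intro f
    rcases eq_or_ne f 0 with rfl | hf
    · simp
    · rw [H94.mem_iff_ord_nonneg v' hf,
        H94.mem_iff_ord_nonneg v ((map_ne_zero_iff _ w.W.injective).mpr hf), hv']
  rw [← key]
  apply derX_reg ι hc (hcm.mul_right q) (coe_jmq (L := L) (m := m) (q := q)) v'
  · rw [key]
    refine mem_of_intJ coe_jmq ?_ v hv
    have e : ((w.W (jmq L m q) : H99.FX L (m * q)) : LaurentSeries L) = H66.J L q := by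
      rw [jmq, w.alpha, coe_heckeBetaBar, coe_jm, H66.J_one, H66.J_eq]
    rw [e]
    exact H1.intJ_iff.mp (H68.isIntegral_J L q (NeZero.ne q)).1
  · rw [key, W_YF]
    exact mem_of_intJ coe_jmq (H1.Xc_intJ L hc) v hv

end Two

end Char0

end Fermat.Agent.H45.Nd
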