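import Fermat.Agent.H9Unit
import Fermat.Agent.H45NdB
import Fermat.Agent.H61NdB
import Fermat.Agent.H39DerMod

/-!
# The modular unit `Δ(t^q)/Δ(t)` on `X_0(mq)` and the Atkin–Lehner involution (helper38)
-/

set_option autoImplicit false
set_option linter.unusedSectionVars false
set_option linter.style.haveILetI false

noncomputable section

open AlgebraicCurve ModularCurve IntermediateField Polynomial
open Fermat.Agent.H61 Fermat.Agent.H28 Fermat.Agent.H66

namespace Fermat.Agent.H38.Dv

section Unit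

variable {K : Type*} [Field K] [IsAlgClosed K] {p : ℕ} [Fact p.Prime]
  {F : IntermediateField K (LaurentSeries K)} [H94.FunField K F]

/-- `Δ(t^p)/Δ(t)` is a unit at the non-cuspidal places. -/
theorem ord_unit (hp0 : (p : K) ≠ 0) (v : Place K F) {J₀ V : F}
    (hJ : (J₀ : LaurentSeries K) = jqModC K) (hV : (V : LaurentSeries K) = H9.deltaRatio K p)
    (hv : 0 ≤ v.ord J₀) : v.ord V = 0 := by
  have hp : p.Prime := Fact.out
  have hV0 : V ≠ 0 := by
    rintro rfl
    exact H9.deltaRatio_ne_zero (K := K) p hV.symm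
  obtain ⟨H, c, hH, hc, h0, hroot⟩ := H9.exists_poly_vv hp0
    (hasRoots_of_isAlgClosed K p Fact.out hp0).choose_spec
  have hvv : H66.vv K p = ((algebraMap K F (p ^ 12) * V) ^ p : F) := by
    show _ = (algebraMap K (LaurentSeries K) (p ^ 12) * (V : LaurentSeries K)) ^ p
    rw [H66.vv, algebraMap_eq_C, hV, H9.deltaRatio, mul_assoc]
  have hx : J₀ ∈ v.toValuationSubring := H94.mem_of_ord_nonneg _ hv
  obtain ⟨z, hz⟩ := H9.exists_unit_of_root (K := K) (O := v.toValuationSubring)
    (F := F) H hH hc h0 ⟨J₀, hx⟩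
    (y := (algebraMap K F (p ^ 12) * V) ^ p) (by
      have h1 : (phiAt K H (J K 1)) = ((H.map (aeval (⟨J₀, hx⟩ : v.toValuationSubring) :
          K[X] →ₐ[K] v.toValuationSubring).toRingHom).map
          (algebraMap v.toValuationSubring F)).map
          (algebraMap F (LaurentSeries K)) := by
        rw [phiAt, Polynomial.map_map, Polynomial.map_map]
        congr 1
        refine Polynomial.ringHom_ext (fun a => ?_) ?_
        · show aeval (J K 1) (C a) = algebraMap F (LaurentSeries K)
            (algebraMap v.toValuationSubring F (aeval _ (C a)))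
          rw [aeval_C, aeval_C]
          rfl
        · show aeval (J K 1) X = algebraMap F (LaurentSeries K)
            (algebraMap v.toValuationSubring F (aeval _ X))
          rw [aeval_X, aeval_X, J_one]
          exact hJ.symm
      rw [h1, hvv] at hroot
      apply (algebraMap F (LaurentSeries K)).injective
      rw [map_zero, ← hroot, ← Polynomial.eval_map]
      exact (Polynomial.eval_map_apply _ _).symm)
  have h2 := v.ord_coe_unit z
  have h3 : ((z : v.toValuationSubring) : F) = (algebraMap K F (p ^ 12) * V) ^ p := hz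
  rw [h3, ← zpow_natCast, v.ord_zpow, v.ord_mul ((_root_.map_ne_zero _).mpr (pow_ne_zero _ hp0))
    hV0, H94.ord_algebraMap, zero_add] at h2
  rcases mul_eq_zero.mp h2 with h4 | h4
  · exact absurd h4 (by exact_mod_cast hp.ne_zero)
  · exact h4

end Unit

section W

variable {L : Type*} [Field L] [Algebra ℚ L] [IsAlgClosed L] [CharZero L]
  {m q : ℕ} [NeZero m] [NeZero q] [hq : Fact q.Prime] (w : H99.AL L m q)

open Fermat.Agent.H34.Two Fermat.Agent.H61.Nd

theorem coe_jmq' : (jmq L m q : LaurentSeries L) = jqModC L := coe_jmq (L := L) (m := m) (q := q)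

theorem W_jmq : w.W (jmq L m q) = jmb L m q := by rw [jmq, w.alpha, jmb]

theorem W_jmb : w.W (jmb L m q) = jmq L m q := by rw [jmb, w.beta, jmq]

theorem transcendental_jmq : Transcendental L (jmq L m q) := by
  have h := H42.transcendental_jqModC L
  intro h1
  apply h
  rw [← coe_jmq' (L := L) (m := m) (q := q)]
  exact (isAlgebraic_algHom_iff (H99.FX L (m * q)).val Subtype.val_injective).mpr h1

include w in
theorem transcendental_jmb : Transcendental L (jmb L m q) := by
  rw [← W_jmq w]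
  intro h
  exact transcendental_jmq (L := L) (m := m) (q := q)
    ((isAlgebraic_algHom_iff (w.W : H99.FX L (m * q) →ₐ[L] H99.FX L (m * q))
      w.W.injective).mp h)

theorem funField_FX (M : ℕ) [NeZero M] : H94.FunField L (H99.FX L M) :=
  H67.funField_of_degreeFact (H42.degreeFact L) M

/-- There is an element with expansion `Δ(t^q)/Δ(t)`, and `W v = q^{-12} v^{-1}`. -/
theorem exists_unit (w : H99.AL L m q) :
    ∃ V : H99.FX L (m * q), (V : LaurentSeries L) = H9.deltaRatio L q ∧
      V * w.W V = algebraMap L _ ((q : L) ^ 12)⁻¹ := by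
  haveI : H94.FunField L (H99.FX L (m * q)) := funField_FX (m * q)
  have hJ := transcendental_jmq (L := L) (m := m) (q := q)
  have hY := transcendental_jmb (m := m) w
  set J₀ := jmq L m q with hJ₀
  set Y₀ := jmb L m q with hY₀
  have hWJ : w.W J₀ = Y₀ := W_jmq w
  have hWY : w.W Y₀ = J₀ := W_jmb w
  set δ := H94.dd hJ Y₀ with hδ
  have hWδ : w.W δ * δ = 1 := by
    rw [hδ, H45.Nd.map_dd w.W hJ hY hWJ, hWY, H94.dd_mul_dd hJ hY, H94.dd_self]
  have hqL : (q : L) ≠ 0 := Nat.cast_ne_zero.mpr hq.out.ne_zero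
  have hδ0 : δ ≠ 0 := right_ne_zero_of_mul (hWδ ▸ one_ne_zero)
  -- nonvanishing
  have hcJ : (J₀ : LaurentSeries L) = J L 1 := by rw [coe_jmq', J_one]
  have hcY : (Y₀ : LaurentSeries L) = J L q := by
    rw [hY₀, coe_jmb, H66.J_eq]
  have h1 : J₀ ≠ 0 := H3RR.transcendental_ne_zero hJ
  have h2 : Y₀ ≠ 0 := H3RR.transcendental_ne_zero hY
  have h3 : J₀ - 1728 ≠ 0 := by
    intro h
    apply H9.J_sub_ne_zero (K := L) 1
    have := congrArg Subtype.val h
    rw [← hcJ]
    exact this
  have h4 : Y₀ - 1728 ≠ 0 := by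
    intro h
    apply H9.J_sub_ne_zero (K := L) q
    have := congrArg Subtype.val h
    rw [← hcY]
    exact this
  set c : H99.FX L (m * q) := algebraMap L _ (q : L)⁻¹ with hc
  refine ⟨(c * δ) ^ 6 * (J₀ ^ 4 * (J₀ - 1728) ^ 3 / (Y₀ ^ 4 * (Y₀ - 1728) ^ 3)), ?_, ?_⟩
  · have e1 : (δ : LaurentSeries L) = theta (Y₀ : LaurentSeries L) / theta (jqModC L) :=
      H39.coe_dd coe_jmq' hJ Y₀
    have e2 : (Y₀ : LaurentSeries L) = qExpand L q (jqModC L) := coe_jmb
    have e3 := H9.theta_jqModC_pow_six (R := L)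
    have e4 := congrArg (qExpand L q) e3
    have hθ : theta (jqModC L) ≠ 0 := H9.theta_jqModC_ne_zero
    have hqS : (q : LaurentSeries L) ≠ 0 := by
      rw [← map_natCast (algebraMap L (LaurentSeries L))]
      exact (_root_.map_ne_zero _).mpr hqL
    have hcS : (c : LaurentSeries L) = (q : LaurentSeries L)⁻¹ := by
      show algebraMap L (LaurentSeries L) (q : L)⁻¹ = _
      rw [map_inv₀, map_natCast]
    have e5 : (((c * δ) ^ 6 * (J₀ ^ 4 * (J₀ - 1728) ^ 3 / (Y₀ ^ 4 * (Y₀ - 1728) ^ 3)) :
        H99.FX L (m * q)) : LaurentSeries L) =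
        ((c : LaurentSeries L) * (δ : LaurentSeries L)) ^ 6 *
          ((J₀ : LaurentSeries L) ^ 4 * ((J₀ : LaurentSeries L) - 1728) ^ 3 /
            ((Y₀ : LaurentSeries L) ^ 4 * ((Y₀ : LaurentSeries L) - 1728) ^ 3)) := rfl
    rw [e5, hcS, e1, e2, coe_jmq', H9.theta_qExpand, H9.deltaRatio_eq_div]
    rw [map_pow, map_mul, map_mul, map_pow, map_pow, map_sub, map_ofNat] at e4
    have n1 : jqModC L ≠ 0 := by rw [← coe_jmq' (L := L) (m := m) (q := q)]; exact fun h => h1 (Subtype.ext h)
    have n2 : jqModC L - 1728 ≠ 0 := by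
      rw [← J_one]; exact H9.J_sub_ne_zero (K := L) 1
    have n3 : qExpand L q (jqModC L) ≠ 0 := by rw [← e2]; exact fun h => h2 (Subtype.ext h)
    have n4 : qExpand L q (jqModC L) - 1728 ≠ 0 := by
      rw [← H66.J_eq]; exact H9.J_sub_ne_zero (K := L) q
    have n5 : deltaL L ≠ 0 := H9.deltaL_ne_zero
    have e6 : ((q : LaurentSeries L)⁻¹ * ((q : LaurentSeries L) * qExpand L q (theta (jqModC L)) /
        theta (jqModC L))) ^ 6 = (qExpand L q (theta (jqModC L))) ^ 6 /
          theta (jqModC L) ^ 6 := by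
      rw [← mul_div_assoc, ← mul_assoc, inv_mul_cancel₀ hqS, one_mul, div_pow]
    rw [e6, e4, e3]
    field_simp
  · have hWc : w.W c = c := w.W.commutes _
    rw [map_mul, map_pow, map_mul, hWc, map_div₀, map_mul, map_mul, map_pow, map_pow, map_pow,
      map_pow, map_sub, map_sub, hWJ, hWY, map_ofNat]
    have e1 : w.W δ = δ⁻¹ := eq_inv_of_mul_eq_one_left hWδ
    have e2 : algebraMap L (H99.FX L (m * q)) ((q : L) ^ 12)⁻¹ = c ^ 12 := by
      rw [hc, ← map_pow, inv_pow]
    have k1 : J₀ - 1728 ≠ 0 := h3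
    rw [e1, e2]
    field_simp

end W

end Fermat.Agent.H38.Dv
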