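import Fermat.Agent.H38DvA
import Fermat.Agent.H45NdG
import Fermat.Agent.H60Series

/-!
# The orders of `Δ̄^{q-1}` on the special fibre of `X_0(m)` (helper38)
-/

set_option autoImplicit false
set_option linter.unusedSectionVars false

noncomputable section

open AlgebraicCurve ModularCurve IntermediateField WithZero
open Fermat.Agent.H97 Fermat.Agent.H97.Sheets

namespace Fermat.Agent.H38.Dv

section Abs

variable {K F₀ F k κ Γ : Type*} [Field K] [Field F₀] [Field F] [Algebra K F₀] [Algebra K F]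
    [Field k] [Field κ] [Algebra k κ] [LinearOrderedCommGroupWithZero Γ] {q : ℕ}
    (S : Sheets K F₀ F k κ Γ q)

variable [IsAlgClosed K] [CharZero K] [H3RR.IsFF K F₀] [H3RR.IsFF K F]
  [IsAlgClosed k] [H3RR.IsFF k κ] [H94.FunField K F₀] [H94.FunField K F]

/-- The order at a node of the reduction of a unit on the node class. -/
theorem ord_node {x : Place k κ} {z z' u : F} (h : H31.Eq.NodePar S x z z' u) (hq : q ≠ 0)
    {V : F} {n : ℤ} (hV1 : S.v false V = 1) (hV2 : S.v true V = S.vK q ^ n)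
    (hord : ∀ P, S.red P = x → P.ord V = 0) : x.ord (S.ρ false V) = n := by
  have Cf := S.comp false
  have hqK : (q : K) ≠ 0 := by exact_mod_cast hq
  have hvq : S.vK (q : K) ≠ 0 := (Valuation.ne_zero_iff _).mpr hqK
  have hV0 : V ≠ 0 := by rintro rfl; simp at hV1
  have hz0 := h.z_ne
  have hzn0 : z ^ n ≠ 0 := zpow_ne_zero _ hz0
  set g := V / z ^ n with hg
  have hg0 : g ≠ 0 := div_ne_zero hV0 hzn0
  have hvz : S.v false (z ^ n) = 1 := by rw [map_zpow₀, h.v_z, one_zpow]
  have hvg : ∀ i, S.v i g = 1 := by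
    intro i
    cases i with
    | false => rw [hg, map_div₀, hV1, hvz, div_one]
    | true => rw [hg, map_div₀, hV2, map_zpow₀, h.v_true_z hq, div_self (zpow_ne_zero _ hvq)]
  have hordg : ∀ P, S.red P = x → P.ord g = 0 := by
    intro P hP
    rw [hg, H31.MP.ord_div P hV0 hzn0, P.ord_zpow, h.ord_z_zero hq hP, hord P hP]
    ring
  have hR : S.InR x g := ⟨fun i => (hvg i).le, fun P hP =>
    (P.adicValuation_le_one_iff).mpr (Or.inr (hordg P hP).ge)⟩
  have hR' : S.InR x g⁻¹ := ⟨fun i => by rw [map_inv₀, hvg, inv_one], fun P hP =>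
    (P.adicValuation_le_one_iff).mpr (Or.inr (by rw [P.ord_inv, hordg P hP, neg_zero]))⟩
  have hρ0 : S.ρ false g ≠ 0 := Cf.ρ_ne_zero (hvg false)
  have h1 : (x).adicValuation (S.ρ false g) ≤ 1 := S.reg hR false
  have h2 : (x).adicValuation (S.ρ false g⁻¹) ≤ 1 := S.reg hR' false
  rw [Cf.ρ_inv (hvg false)] at h2
  have h3 := ((x.adicValuation_le_one_iff).mp h1).resolve_left hρ0
  have h4 := ((x.adicValuation_le_one_iff).mp h2).resolve_left (inv_ne_zero hρ0)
  rw [x.ord_inv] at h4
  have h5 : x.ord (S.ρ false g) = 0 := by omega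
  have hρz : S.ρ false (z ^ n) = (S.ρ false z) ^ n := by
    cases n with
    | ofNat n => rw [Int.ofNat_eq_natCast, zpow_natCast, zpow_natCast, Cf.ρ_pow h.v_z.le]
    | negSucc n =>
      rw [zpow_negSucc, zpow_negSucc, Cf.ρ_inv (by rw [map_pow, h.v_z, one_pow]),
        Cf.ρ_pow h.v_z.le]
  rw [hg, Cf.ρ_div hV1.le hvz, H31.MP.ord_div x (Cf.ρ_ne_zero hV1) (Cf.ρ_ne_zero hvz), hρz,
    x.ord_zpow, h.ord_z] at h5
  omega

variable [hqF : Fact q.Prime] [CharP k q]

/-- The order at a smooth point. -/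
theorem ord_smooth {x : Place k κ} (hx : ¬ S.Node x) {V : F} (hV1 : S.v false V = 1)
    (hord : ∀ P, S.red P = x → P.ord V = 0) : x.ord (S.ρ false V) = 0 := by
  have hV0 : V ≠ 0 := by rintro rfl; simp at hV1
  have h1 := S.deg_smooth hx false hV1 (D := H3RR.divOf V) (H3RR.divOf_apply hV0)
  change _ = x.ord (S.ρ false V) at h1
  rw [← h1]
  have h2 : H97.cls S.sp (H3RR.divOf V : Divisor K F) (Sum.inl (false, S.pt false x)) =
      H97.cls S.sp (0 : Divisor K F) (Sum.inl (false, S.pt false x)) := by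
    refine H97.cls_congr S.sp fun P hP => ?_
    rw [H3RR.divOf_apply hV0, hord P ((S.sp_eq_inl hx).mp hP).1]
    rfl
  rw [h2, H97.cls, Finsupp.mapDomain_zero]
  rfl

end Abs

end Fermat.Agent.H38.Dv
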