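import Fermat.Agent.H38DvB

/-!
# The orders of `Δ̄^{q-1}` on the special fibre of `X_0(m)`: concrete form (helper38)
-/

set_option autoImplicit false
set_option linter.unusedSectionVars false
set_option maxHeartbeats 1000000

noncomputable section

open AlgebraicCurve ModularCurve IntermediateField WithZero
open Fermat.Agent.H97 Fermat.Agent.H97.Sheets Fermat.Agent.H34.Two Fermat.Agent.H61.Nd
open Fermat.Agent.H28 Fermat.Agent.H66

namespace Fermat.Agent.H38.Dv

/-- In characteristic `q`, `Δ(t^q)/Δ(t) = Δ(t)^{q-1}`. -/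
theorem deltaRatio_char (k : Type*) [Field k] (q : ℕ) [hq : Fact q.Prime] [NeZero q] [CharP k q] :
    H9.deltaRatio k q = deltaL k ^ (q - 1) := by
  have h1 := H60.laurent_pow_char (R := k) q (deltaL k)
  rw [H66.coeffMap_deltaL] at h1
  rw [H9.deltaRatio_eq_div, ← h1]
  have h2 : deltaL k ≠ 0 := H9.deltaL_ne_zero
  rw [div_eq_iff h2, ← pow_succ, Nat.sub_add_cancel hq.out.one_le]

theorem coe_deltaRatio_int (K : Type*) [Field K] (q : ℕ) [NeZero q] :
    H9.deltaRatio K q = coeffMap (Int.castRingHom K) (qExpand ℤ q (deltaL ℤ) * deltaInvL ℤ) := by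
  rw [H9.deltaRatio, map_mul, coeffMap_qExpand, H66.coeffMap_deltaL, H66.coeffMap_deltaInvL]

section Inst

variable {L : Type*} [Field L] [Algebra ℚ L] {A : ValuationSubring L} {k : Type*} [Field k]
  {π : A →+* k} {m q : ℕ} [NeZero m] [NeZero q] [hq : Fact q.Prime]
  [CharP k q] [IsAlgClosed k] [Infinite k] (w : H99.AL L m q)
  (hπ : Function.Surjective π)
  (hdeg : H42.DegLE L k m) (hqm : ¬ q ∣ m)
  [IsAlgClosed L] [CharZero L] [IsLocalHom π]
  (ι : L →+* ℂ) {e : ℕ} (he : e = 4 ∨ e = 9) (hem : e ∣ m)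
  (arch : Arch A)
  (r : Place L (H99.FX L m) → Place k (modularFunctionFieldFullC k m))
  {c : ℕ}
  (hr1 : ∀ D : Divisor L (H99.FX L m), (c : ℤ) < Divisor.degree D →
    (H42.modReductionData A π m hπ hdeg).IsRed D (Finsupp.mapDomain r D))
  (hr2 : H34.GR.DivCompat (H42.modReductionData A π m hπ hdeg) r)
  [H3RR.IsFF L (H99.FX L m)] [H3RR.IsFF L (H99.FX L (m * q))]
  [H3RR.IsFF k (modularFunctionFieldFullC k m)] [H94.FunField L (H99.FX L m)]
  [H94.FunField L (H99.FX L (m * q))]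

/-- The unit `Δ(t^q)/Δ(t)` and its values. -/
theorem exists_V : ∃ V : H99.FX L (m * q),
    (sheets w hπ hdeg hqm arch r hr1 hr2).v false V = 1 ∧
    (sheets w hπ hdeg hqm arch r hr1 hr2).v true V =
      (sheets w hπ hdeg hqm arch r hr1 hr2).vK q ^ (-12 : ℤ) ∧
    ((sheets w hπ hdeg hqm arch r hr1 hr2).ρ false V : LaurentSeries k) = deltaL k ^ (q - 1) ∧
    ∀ P : Place L (H99.FX L (m * q)), 0 ≤ P.ord (jmq L m q) → P.ord V = 0 := by
  obtain ⟨V, hV, hW⟩ := exists_unit (m := m) w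
  have hqL : (q : L) ≠ 0 := Nat.cast_ne_zero.mpr hq.out.ne_zero
  have h1 := H45.Nd.red1_int (A := A) (π := π) w hπ hdeg hqm (f := V)
    (hV.trans (coe_deltaRatio_int L q))
  have hred : ((comp1 A π w hπ (H42.degreeFact L) hdeg hqm).red V : LaurentSeries k) =
      deltaL k ^ (q - 1) := by
    rw [h1.2, ← coe_deltaRatio_int, deltaRatio_char]
  have hv1 : v1 A π w hπ (H42.degreeFact L) hdeg hqm V = 1 := by
    rw [v1, compVal_eq_one_iff]
    intro h0
    rw [h0] at hred
    exact pow_ne_zero (q - 1) (H9.deltaL_ne_zero (K := k)) hred.symm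
  refine ⟨V, hv1, ?_, hred, fun P hP => ?_⟩
  · show v2 A π w hπ (H42.degreeFact L) hdeg hqm V = A.valuation (q : L) ^ (-12 : ℤ)
    rw [v2_eq]
    have h2 := congrArg (v1 A π w hπ (H42.degreeFact L) hdeg hqm) hW
    rw [map_mul, hv1, one_mul] at h2
    rw [h2]
    have h3 := vv_alg w hπ hdeg hqm false ((q : L) ^ 12)⁻¹
    change v1 A π w hπ (H42.degreeFact L) hdeg hqm _ = _ at h3
    rw [h3, map_inv₀, map_pow, zpow_neg]
    rfl
  · exact ord_unit hqL P coe_jmq' hV hP

include w hqm hr1 hr2 arch in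
theorem ord_jmq_of_red {x : Place k (modularFunctionFieldFullC k m)} (hx : 0 ≤ x.ord (jk k m))
    {P : Place L (H99.FX L (m * q))}
    (hP : (sheets w hπ hdeg hqm arch r hr1 hr2).red P = x) : 0 ≤ P.ord (jmq L m q) := by
  have h1 := (ord_jm_of_jk w hπ hdeg hqm arch r hr1 hr2
    (H67.res (heckeAlphaBar L m q) P)).1 (by
      have h2 : r (H67.res (heckeAlphaBar L m q) P) = x := hP
      rw [h2]; exact hx)
  have h2 : (H67.res (heckeAlphaBar L m q) P).adicValuation (jm L m) ≤ 1 :=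
    (Place.adicValuation_le_one_iff _).mpr (Or.inr h1)
  have h3 : P.adicValuation (jmq L m q) ≤ 1 := by
    rw [jmq, ← H3RR.mem_iff_adicValuation_le_one, ← H67.mem_res,
      H3RR.mem_iff_adicValuation_le_one]
    exact h2
  exact ((P.adicValuation_le_one_iff).mp h3).resolve_left
    (H3RR.transcendental_ne_zero transcendental_jmq)

include ι he hem in
/-- **`Δ̄^{q-1}` has order `-12` at the nodes.** -/
theorem ord_ubar_node {x : Place k (modularFunctionFieldFullC k m)}
    (hx : (sheets w hπ hdeg hqm arch r hr1 hr2).Node x) {ub : modularFunctionFieldFullC k m}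
    (hub : (ub : LaurentSeries k) = deltaL k ^ (q - 1)) : x.ord ub = -12 := by
  obtain ⟨V, hV1, hV2, hV3, hV4⟩ := exists_V w hπ hdeg hqm arch r hr1 hr2
  have h1 := ord_node _ (H45.Nd.nodePar w hπ hdeg hqm ι he hem arch r hr1 hr2 hx)
    hq.out.ne_zero hV1 hV2 (fun P hP => hV4 P (ord_jmq_of_red w hπ hdeg hqm arch r hr1 hr2
      (node_ord_jk w hπ hdeg hqm arch r hr1 hr2 hx) hP))
  have h2 : (sheets w hπ hdeg hqm arch r hr1 hr2).ρ false V = ub :=
    Subtype.ext (hV3.trans hub.symm)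
  rwa [h2] at h1

/-- **`Δ̄^{q-1}` has order `0` at the other non-cuspidal points.** -/
theorem ord_ubar_smooth {x : Place k (modularFunctionFieldFullC k m)}
    (hx : ¬ (sheets w hπ hdeg hqm arch r hr1 hr2).Node x) (hj : 0 ≤ x.ord (jk k m))
    {ub : modularFunctionFieldFullC k m}
    (hub : (ub : LaurentSeries k) = deltaL k ^ (q - 1)) : x.ord ub = 0 := by
  obtain ⟨V, hV1, hV2, hV3, hV4⟩ := exists_V w hπ hdeg hqm arch r hr1 hr2
  have h1 := ord_smooth _ hx hV1
    (fun P hP => hV4 P (ord_jmq_of_red w hπ hdeg hqm arch r hr1 hr2 hj hP))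
  have h2 : (sheets w hπ hdeg hqm arch r hr1 hr2).ρ false V = ub :=
    Subtype.ext (hV3.trans hub.symm)
  rwa [h2] at h1

include w hπ hdeg hqm arch hr1 hr2 in
/-- `Δ̄^{q-1}` is a modular function in characteristic `q` (`q ∤ m`). -/
theorem exists_ubar : ∃ ub : modularFunctionFieldFullC k m,
    (ub : LaurentSeries k) = deltaL k ^ (q - 1) := by
  obtain ⟨V, -, -, hV3, -⟩ := exists_V w hπ hdeg hqm arch r hr1 hr2
  exact ⟨_, hV3⟩

include ι he hem in
/-- **[DV2]** The divisor of the reduction of a Kummer function modulo `q`, away from the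
cusps, is a multiple of the divisor of `Δ̄^{q-1}`. -/
theorem exists_dvd_ord {g : modularFunctionFieldFullC k m}
    (hnode : ∀ s s', (sheets w hπ hdeg hqm arch r hr1 hr2).Node s →
      (sheets w hπ hdeg hqm arch r hr1 hr2).Node s' → (q : ℤ) ∣ s.ord g - s'.ord g)
    (hsm : ∀ s, ¬ (sheets w hπ hdeg hqm arch r hr1 hr2).Node s → (q : ℤ) ∣ s.ord g)
    {ub : modularFunctionFieldFullC k m}
    (hub : (ub : LaurentSeries k) = deltaL k ^ (q - 1)) :
    ∃ n : ℤ, ∀ x : Place k (modularFunctionFieldFullC k m), 0 ≤ x.ord (jk k m) →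
      (q : ℤ) ∣ 12 * x.ord g + n * x.ord ub := by
  by_cases hne : ∃ s, (sheets w hπ hdeg hqm arch r hr1 hr2).Node s
  · obtain ⟨s₀, hs₀⟩ := hne
    refine ⟨s₀.ord g, fun x hx => ?_⟩
    by_cases hN : (sheets w hπ hdeg hqm arch r hr1 hr2).Node x
    · rw [ord_ubar_node w hπ hdeg hqm ι he hem arch r hr1 hr2 hN hub]
      obtain ⟨t, ht⟩ := hnode x s₀ hN hs₀
      exact ⟨12 * t, by linear_combination 12 * ht⟩
    · rw [ord_ubar_smooth w hπ hdeg hqm arch r hr1 hr2 hN hx hub, mul_zero, add_zero]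
      exact (hsm x hN).mul_left 12
  · refine ⟨0, fun x _ => ?_⟩
    rw [zero_mul, add_zero]
    exact (hsm x (fun h => hne ⟨x, h⟩)).mul_left 12

end Inst

end Fermat.Agent.H38.Dv
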