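import Fermat.Agent.H38MzTors
import Fermat.Agent.H38MzTheta
import Fermat.Agent.H34Two5
import Fermat.Agent.H88GenusEq
import Fermat.Agent.H19GoodRed

/-!
# Comparison of levels: Hecke eigenclasses from the reduction of a function

If `u` is the function of an eigenclass `x ∈ J₀(Mq)[p]` whose Gauss reduction `f̄` (a function on
`X₀(M)_k`) has all orders divisible by `p`, then the class `y ∈ J₀(M)[p]` lifting `(1/p) div f̄`
is an eigenclass with the same eigenvalues.
-/

set_option autoImplicit false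
set_option linter.unusedSectionVars false
set_option linter.style.haveILetI false

noncomputable section

open AlgebraicCurve IntermediateField HahnSeries ModularCurve
open Fermat.Agent.H67 Fermat.Agent.H34.Two

namespace Fermat.Agent.H38.Mz

local notation "Qb" => AlgebraicClosure ℚ

section Gen

variable {A : ValuationSubring Qb} {k : Type*} [Field k] {π : A →+* k} {N : ℕ} [NeZero N]

theorem red_of_mem {f : FB Qb N} (hf : f ∈ (gC A π N).V) :
    Red A π (f : LaurentSeries Qb) ((gC A π N).red f) := by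
  obtain ⟨y, z, hz, h⟩ := (mem_locL_iff A π).mp hf
  exact ⟨y, z, hz, h, red_gaussComp_mul A π (isQuot_FX N) hz h⟩

theorem mem_of_red {f : FB Qb N} {fb : LaurentSeries k} (h : Red A π (f : LaurentSeries Qb) fb) :
    f ∈ (gC A π N).V := by
  obtain ⟨y, z, hz, h1, -⟩ := h
  exact (mem_locL_iff A π).mpr ⟨y, z, hz, h1⟩

theorem Red.red_eq {f : FB Qb N} {fb : LaurentSeries k}
    (h : Red A π (f : LaurentSeries Qb) fb) : (gC A π N).red f = fb :=
  (red_of_mem (mem_of_red h)).unique h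

theorem coe_algebraMap_mul (c : Qb) (f : FB Qb N) :
    ((algebraMap Qb (FB Qb N) c * f : FB Qb N) : LaurentSeries Qb) =
      algebraMap Qb (LaurentSeries Qb) c * (f : LaurentSeries Qb) := rfl

theorem exists_scale_red {f : FB Qb N} (hf : f ≠ 0) :
    ∃ (c : Qb) (fb : LaurentSeries k), c ≠ 0 ∧ fb ≠ 0 ∧
      Red A π (algebraMap Qb (LaurentSeries Qb) c * (f : LaurentSeries Qb)) fb := by
  obtain ⟨c, hc, h⟩ := gC_scalable A π N f hf
  have h1 : algebraMap Qb (FB Qb N) c * f ∈ (gC A π N).V := by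
    by_contra h0
    exact h ((gC A π N).red_of_notMem h0)
  have h2 := red_of_mem (A := A) (π := π) h1
  rw [coe_algebraMap_mul] at h2
  exact ⟨c, _, hc, h, h2⟩

variable [IsLocalHom π]

/-- If `h^n` reduces, so does `h`. -/
theorem red_of_pow {h : FB Qb N} {n : ℕ} (hn : n ≠ 0) {s : LaurentSeries k} (hs : s ≠ 0)
    (hr : Red A π ((h : LaurentSeries Qb) ^ n) s) :
    ∃ hb : LaurentSeries k, Red A π (h : LaurentSeries Qb) hb ∧ hb ^ n = s := by
  have hh0 : h ≠ 0 := by
    rintro rfl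
    have h1 : ((0 : FB Qb N) : LaurentSeries Qb) ^ n = 0 := by
      show (0 : LaurentSeries Qb) ^ n = 0
      exact zero_pow hn
    rw [h1] at hr
    exact hs (hr.unique Red.zero)
  obtain ⟨c, t, hc, ht, hct⟩ := exists_scale_red (A := A) (π := π) hh0
  have h1 := hct.pow n
  rw [mul_pow, ← map_pow] at h1
  have htn : t ^ n ≠ 0 := pow_ne_zero _ ht
  have hmem := hr.mem_of_smul hs h1
  have hu := isUnit_of_smul hr hs h1 htn
  have hcA : c ∈ A := by
    rcases A.mem_or_inv_mem c with h2 | h2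
    · exact h2
    · -- `c⁻¹ ∈ A` with `c^n ∈ A^×`
      obtain ⟨m, rfl⟩ : ∃ m, n = m + 1 := ⟨n - 1, by omega⟩
      have h3 : c = c ^ (m + 1) * (c⁻¹) ^ m := by
        rw [pow_succ', inv_pow, mul_assoc, mul_inv_cancel₀ (pow_ne_zero _ hc), mul_one]
      rw [h3]
      exact A.mul_mem _ _ hmem (pow_mem h2 m)
  have hcu : IsUnit (⟨c, hcA⟩ : A) := by
    have h4 : (⟨c ^ n, hmem⟩ : A) = ⟨c, hcA⟩ ^ n := rfl
    rw [h4] at hu
    exact (isUnit_pow_iff hn).mp hu
  obtain ⟨cu, hcu⟩ := hcu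
  set ci : A := ((cu⁻¹ : Aˣ) : A) with hci
  have h5 : (ci : Qb) * c = 1 := by
    have h6 : ci * (cu : A) = 1 := Units.inv_mul cu
    rw [hcu] at h6
    exact congrArg Subtype.val h6
  have h7 := (Red.const (π := π) ci).mul hct
  have h8 : algebraMap Qb (LaurentSeries Qb) (ci : Qb) *
      (algebraMap Qb (LaurentSeries Qb) c * (h : LaurentSeries Qb)) = h := by
    rw [← mul_assoc, ← map_mul, h5, map_one, one_mul]
  rw [h8] at h7
  exact ⟨_, h7, (h7.pow n).unique hr⟩

/-- The reduction of the Hecke transform. -/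
theorem red_Th {ℓ : ℕ} [NeZero ℓ] (hℓ : ℓ.Prime) (hℓN : ¬ ℓ ∣ N) {ζ : Aˣ}
    (hζ : IsPrimitiveRoot (Units.map (A.subtype : A →* Qb) ζ) ℓ) {f : FB Qb N}
    {fb : LaurentSeries k} (hfb : fb ≠ 0) (hf : Red A π (f : LaurentSeries Qb) fb) :
    ∃ tb : LaurentSeries k, tb ≠ 0 ∧ Red A π ((Th N ℓ f : FB Qb N) : LaurentSeries Qb) tb ∧
      qExpand k ℓ tb = H60.normSeries ℓ (Units.map (π : A →* k) ζ) fb := by
  have hf0 : f ≠ 0 := by
    rintro rfl
    exact hf.ne_zero hfb rfl
  have hT0 : Th N ℓ f ≠ 0 := Th_ne_zero hf0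
  obtain ⟨c, t, hc, ht, hct⟩ := exists_scale_red (A := A) (π := π) hT0
  have h1 := hct.qExpand ℓ
  rw [map_mul, qExpand_algebraMap', qExpand_Th hℓ hℓN hζ] at h1
  have h2 := hf.normSeries ℓ ζ
  have hnz : H60.normSeries ℓ (Units.map (π : A →* k) ζ) fb ≠ 0 := normSeries_ne_zero ℓ _ hfb
  have htz : qExpand k ℓ t ≠ 0 := by
    intro h
    exact ht (qExpand_inj ℓ (h.trans (map_zero _).symm))
  have hcA := h2.mem_of_smul hnz h1
  obtain ⟨cu, hcu⟩ := isUnit_of_smul h2 hnz h1 htz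
  set ci : A := ((cu⁻¹ : Aˣ) : A) with hci
  have h5 : (ci : Qb) * c = 1 := by
    have h6 : ci * (cu : A) = 1 := Units.inv_mul cu
    rw [hcu] at h6
    exact congrArg Subtype.val h6
  have h7 := (Red.const (π := π) ci).mul hct
  have h8 : algebraMap Qb (LaurentSeries Qb) (ci : Qb) *
      (algebraMap Qb (LaurentSeries Qb) c * ((Th N ℓ f : FB Qb N) : LaurentSeries Qb)) =
      (Th N ℓ f : FB Qb N) := by
    rw [← mul_assoc, ← map_mul, h5, map_one, one_mul]
  rw [h8] at h7
  have h9 := h7.qExpand ℓ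
  rw [qExpand_Th hℓ hℓN hζ] at h9
  have h10 := h9.unique h2
  refine ⟨_, ?_, h7, h10⟩
  intro h0
  rw [h0, map_zero] at h10
  exact hnz h10.symm

theorem exists_zeta_unit (A : ValuationSubring Qb) (ℓ : ℕ) (hℓ : ℓ.Prime) :
    ∃ ζ : Aˣ, IsPrimitiveRoot (Units.map (A.subtype : A →* Qb) ζ) ℓ := by
  have : NeZero ℓ := ⟨hℓ.ne_zero⟩
  have : NeZero ((ℓ : ℕ) : Qb) := ⟨by exact_mod_cast hℓ.ne_zero⟩
  obtain ⟨z, hz⟩ := HasEnoughRootsOfUnity.exists_primitiveRoot Qb ℓ
  have hzmem : z ∈ A := by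
    have hint : IsIntegral ℤ z := hz.isIntegral hℓ.pos
    exact Fermat.Agent.H54.integral_mem A ⟨z, hint⟩
  have hz1 : (⟨z, hzmem⟩ : A) ^ ℓ = 1 := Subtype.ext (by
    show z ^ ℓ = 1
    exact hz.pow_eq_one)
  let ζ : Aˣ := Units.ofPowEqOne ⟨z, hzmem⟩ ℓ hz1 hℓ.ne_zero
  have hζval : ((Units.map (A.subtype : A →* Qb) ζ : Qbˣ) : Qb) = z := rfl
  refine ⟨ζ, ?_⟩
  rw [← IsPrimitiveRoot.coe_units_iff, hζval]
  exact hz

end Gen

section ModRed

variable {A : ValuationSubring Qb} {N : ℕ}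

theorem red_modRed (hdeg : H42.DegLE Qb (IsLocalRing.ResidueField A) N)
    (x : (H42.modRed hdeg).B) :
    Red A (IsLocalRing.residue A) ((x : modularFunctionFieldBar N) : LaurentSeries Qb)
      ((H42.modRed hdeg).ρ x : LaurentSeries (IsLocalRing.ResidueField A)) := by
  set π := IsLocalRing.residue A with hπ
  obtain ⟨y, z, hz, hxz⟩ := x.2
  have hρ : (H42.modRed hdeg).ρ x *
      (H42.modGauss A π N IsLocalRing.residue_surjective hdeg).ρ z =
      (H42.modGauss A π N IsLocalRing.residue_surjective hdeg).ρ y :=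
    (H42.modGauss A π N IsLocalRing.residue_surjective hdeg).res_mul_eq x hz hxz
  obtain ⟨⟨g, hg⟩, y0, hyg⟩ := y
  obtain ⟨⟨g', hg'⟩, z0, hzg⟩ := z
  obtain rfl : coeffMap A.subtype y0 = g := hyg
  obtain rfl : coeffMap A.subtype z0 = g' := hzg
  have ey := H42.coe_modGauss_ρ A π N IsLocalRing.residue_surjective hdeg y0 hg
  have ez := H42.coe_modGauss_ρ A π N IsLocalRing.residue_surjective hdeg z0 hg'
  have hz' : coeffMap π z0 ≠ 0 := by
    intro h0
    apply hz
    apply Subtype.ext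
    exact ez.trans h0
  refine ⟨y0, z0, hz', congrArg Subtype.val hxz, ?_⟩
  have h1 := congrArg (Subtype.val) hρ
  rw [← ey, ← ez]
  exact h1

theorem red_modGoodRed [NeZero N] (hdeg : H42.DegLE Qb (IsLocalRing.ResidueField A) N)
    (hg : H42.GenusEq N A) (x : (H19.modGoodRed hdeg hg).B) :
    Red A (IsLocalRing.residue A) ((x : modularFunctionFieldBar N) : LaurentSeries Qb)
      ((H19.modGoodRed hdeg hg).ρ x : LaurentSeries (IsLocalRing.ResidueField A)) := by
  have key : ∀ R : H40.ReductionData Qb (modularFunctionFieldBar N) (IsLocalRing.ResidueField A)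
      (modularFunctionFieldFullC (IsLocalRing.ResidueField A) N), R = H42.modRed hdeg →
      ∀ x : R.B, Red A (IsLocalRing.residue A)
        ((x : modularFunctionFieldBar N) : LaurentSeries Qb)
        (R.ρ x : LaurentSeries (IsLocalRing.ResidueField A)) := by
    rintro R rfl x
    exact red_modRed hdeg x
  exact key _ (H19.modGoodRed_toReductionData hdeg hg) x

end ModRed

end Fermat.Agent.H38.Mz
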