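import Fermat.Agent.H38MzComp
import Fermat.Agent.H89SS10

/-!
# Comparison of levels, II: the eigenclass of level `M`
-/

set_option autoImplicit false
set_option linter.unusedSectionVars false
set_option linter.style.haveILetI false

noncomputable section

open AlgebraicCurve IntermediateField HahnSeries ModularCurve
open Fermat.Agent.H67 Fermat.Agent.H34.Two

namespace Fermat.Agent.H38.Mz

local notation "Qb" => AlgebraicClosure ℚ

section Level

variable {M q : ℕ} [NeZero M] [hq : Fact q.Prime] (hqM : ¬ q ∣ M) {A : ValuationSubring Qb}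
  (hA : A.LiesOverPrime q)

local notation "kA" => IsLocalRing.ResidueField A
local notation "πA" => IsLocalRing.residue A

include hqM hA

theorem mem_full_of_red {f : FB Qb (M * q)} {fb : LaurentSeries kA}
    (h : Red A πA (f : LaurentSeries Qb) fb) : fb ∈ modularFunctionFieldFullC kA M := by
  have hk : IsAlgClosed kA := H18.isAlgClosed_residueField A
  have hc : CharP kA q := H60.charP_residue hq.out hA
  have hi : Infinite kA := IsAlgClosed.instInfinite
  have hcop : M.Coprime q := ((Nat.Prime.coprime_iff_not_dvd hq.out).mpr hqM).symm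
  obtain ⟨w⟩ := H99.nonempty_AL (L := Qb) embQbar hcop
  have h1 := (red_mem_full w IsLocalRing.residue_surjective (H42.degreeFact Qb)
    (H18.degLE_of_not_dvd M hqM A hA) hqM f).1
  rwa [h.red_eq] at h1

theorem mem_full_of_red' {f : FB Qb M} {fb : LaurentSeries kA}
    (h : Red A πA (f : LaurentSeries Qb) fb) : fb ∈ modularFunctionFieldFullC kA M := by
  have h1 : ((heckeAlphaBar Qb M q f : FB Qb (M * q)) : LaurentSeries Qb) =
      (f : LaurentSeries Qb) := coe_heckeAlphaBar M q f
  apply mem_full_of_red hqM hA (f := heckeAlphaBar Qb M q f)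
  rw [h1]
  exact h

omit hqM hA in
theorem exists_red_eq (M : ℕ) [NeZero M] (A : ValuationSubring Qb)
    {e : LaurentSeries (IsLocalRing.ResidueField A)}
    (he : e ∈ modularFunctionFieldFullC (IsLocalRing.ResidueField A) M) :
    ∃ f : FB Qb M, Red A (IsLocalRing.residue A) (f : LaurentSeries Qb) e := by
  obtain ⟨f, hf, hfe⟩ := mem_image_gC A (IsLocalRing.residue A)
    IsLocalRing.residue_surjective (NeZero.ne M) he
  refine ⟨f, ?_⟩
  have := red_of_mem (A := A) (π := IsLocalRing.residue A) hf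
  rwa [hfe] at this

/-- The good reduction data at level `M`. -/
def goodRed (hqM : ¬ q ∣ M) {A : ValuationSubring Qb} (hA : A.LiesOverPrime q) :
    H19.GoodRed Qb (modularFunctionFieldBar M) (IsLocalRing.ResidueField A)
      (modularFunctionFieldFullC (IsLocalRing.ResidueField A) M) :=
  H19.modGoodRed (H18.degLE_of_not_dvd M hqM A hA) (H88.genusFFEq M hqM A hA)

omit hqM hA in
theorem red_goodRed (hqM : ¬ q ∣ M) {A : ValuationSubring Qb} (hA : A.LiesOverPrime q)
    (x : (goodRed hqM hA).B) :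
    Red A (IsLocalRing.residue A) ((x : modularFunctionFieldBar M) : LaurentSeries Qb)
      ((goodRed hqM hA).ρ x : LaurentSeries (IsLocalRing.ResidueField A)) :=
  red_modGoodRed _ _ x

omit hqM hA in
theorem goodRed_arch (hqM : ¬ q ∣ M) {A : ValuationSubring Qb} (hA : A.LiesOverPrime q) :
    ∀ a b : (goodRed hqM hA).A, a ≠ 0 → ¬ IsUnit b → ∃ n : ℕ, a ∣ b ^ n :=
  H18.dvd_pow_of_algebraicClosure _

theorem exists_frob_pow (c : kA) : ∃ m, 0 < m ∧ c ^ q ^ m = c := by
  have h0 : @Algebra.IsAlgebraic ℚ (AlgebraicClosure ℚ) _ _ DivisionRing.toRatAlgebra := by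
    have h1 : @Algebra.IsAlgebraic ℚ (AlgebraicClosure ℚ) _ _
      (AlgebraicClosure.instAlgebra (k := ℚ)) := AlgebraicClosure.isAlgebraic ℚ
    convert h1
    exact Subsingleton.elim _ _
  exact exists_pow_q_pow A hA πA IsLocalRing.residue_surjective c

/-- **Lifting** of functions with orders divisible by `p^n`. -/
theorem exists_lift_level (p : ℕ) [hp : Fact p.Prime] (hpq : p ≠ q) (n : ℕ)
    {f : modularFunctionFieldFullC kA M} (hf : f ≠ 0)
    (hdvd : ∀ w : Place kA (modularFunctionFieldFullC kA M), ((p ^ n : ℕ) : ℤ) ∣ w.ord f) :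
    ∃ (E : Divisor.degZero (K := Qb) (F := FB Qb M)) (g : FB Qb M)
      (c : modularFunctionFieldFullC kA M), g ≠ 0 ∧ c ≠ 0 ∧
      (∀ v : Place Qb (FB Qb M), v.ord g = ((p ^ n : ℕ) : ℤ) * (E : Divisor Qb (FB Qb M)) v) ∧
      Red A πA (g : LaurentSeries Qb)
        ((f : LaurentSeries kA) * (c : LaurentSeries kA) ^ (p ^ n)) := by
  have hk : IsAlgClosed kA := H18.isAlgClosed_residueField A
  have hc : CharP kA q := H60.charP_residue hq.out hA
  have hff := H42.funField_left (k := kA) (L := Qb) M (H18.degLE_of_not_dvd M hqM A hA)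
  have hffk := H42.funField_right (L := Qb) (k := kA) M (H18.degLE_of_not_dvd M hqM A hA)
  obtain ⟨E, g, c, hg, hc0, hord, hρ⟩ := exists_lift_of_dvd (goodRed hqM hA) q
    (exists_frob_pow hqM hA) (goodRed_arch hqM hA) p hpq n hf hdvd
  refine ⟨E, (g : modularFunctionFieldBar M), c, hg, hc0, hord, ?_⟩
  have h1 := red_goodRed hqM hA g
  rw [hρ] at h1
  exact h1

/-- **Injectivity**: a `p^n`-torsion class of level `M` whose function reduces to a `p^n`-th power
is trivial. -/
theorem mk_eq_zero_of_red (p : ℕ) [hp : Fact p.Prime] (hpq : p ≠ q) (n : ℕ)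
    {X : Divisor.degZero (K := Qb) (F := FB Qb M)} {G : FB Qb M} (hG : G ≠ 0)
    (hord : ∀ v : Place Qb (FB Qb M), v.ord G = ((p ^ n : ℕ) : ℤ) * (X : Divisor Qb (FB Qb M)) v)
    {s : modularFunctionFieldFullC kA M} (hs : s ≠ 0)
    (hred : Red A πA (G : LaurentSeries Qb) ((s : LaurentSeries kA) ^ (p ^ n))) :
    Pic0.mk X = 0 := by
  have hk : IsAlgClosed kA := H18.isAlgClosed_residueField A
  have hc : CharP kA q := H60.charP_residue hq.out hA
  have hff := H42.funField_left (k := kA) (L := Qb) M (H18.degLE_of_not_dvd M hqM A hA)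
  have hffk := H42.funField_right (L := Qb) (k := kA) M (H18.degLE_of_not_dvd M hqM A hA)
  set S := goodRed hqM hA with hS
  set d : ℕ := p ^ n with hd
  have hdpos : 0 < d := pow_pos hp.out.pos _
  have hdk : ((d : ℕ) : kA) ≠ 0 := by
    rw [hd, Nat.cast_pow]
    apply pow_ne_zero
    intro h
    rw [CharP.cast_eq_zero_iff kA q] at h
    exact hpq ((Nat.prime_dvd_prime_iff_eq hq.out hp.out).mp h).symm
  obtain ⟨a, ha, x, hx, hρ, hdiv⟩ := H23.exists_scale_div S hG
  -- the reduction of `x` is a constant times `s ^ d`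
  have h1 := red_goodRed hqM hA x
  have h2 : ((x : modularFunctionFieldBar M) : LaurentSeries Qb) =
      algebraMap Qb (LaurentSeries Qb) a * (G : LaurentSeries Qb) := by
    rw [← coe_algebraMap_mul, ← Algebra.smul_def]
    exact congrArg Subtype.val hx
  rw [h2] at h1
  have hs0 : (s : LaurentSeries kA) ≠ 0 := fun h => hs (Subtype.ext h)
  have h3 := hred.smul_eq (pow_ne_zero _ hs0) h1
  set b : kA := πA ⟨a, hred.mem_of_smul (pow_ne_zero _ hs0) h1⟩ with hb
  have h4 : S.ρ x = algebraMap kA _ b * s ^ d := Subtype.ext h3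
  have hb0 : b ≠ 0 := by
    intro h0
    apply hρ
    rw [h4, h0, map_zero, zero_mul]
  have h5 : ∀ w : Place kA (modularFunctionFieldFullC kA M),
      Finsupp.mapDomain S.r (X : Divisor Qb (FB Qb M)) w = w.ord s := by
    intro w
    have h6 := hdiv (d • (X : Divisor Qb (FB Qb M))) (fun v => by
      rw [Finsupp.smul_apply, nsmul_eq_mul]
      exact (hord v).symm) w
    have h7 : Finsupp.mapDomain S.r (d • (X : Divisor Qb (FB Qb M))) =
        d • Finsupp.mapDomain S.r (X : Divisor Qb (FB Qb M)) := by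
      rw [← Finsupp.mapDomain.addMonoidHom_apply, map_nsmul]
      rfl
    have h8 : w.ord (S.ρ x) = (d : ℤ) * w.ord s := by
      rw [h4, w.ord_mul ((_root_.map_ne_zero _).mpr hb0) (pow_ne_zero _ hs),
        H40.ord_algebraMap, zero_add, ← zpow_natCast, w.ord_zpow]
    rw [h7, Finsupp.smul_apply, nsmul_eq_mul, h8] at h6
    have hd0 : (d : ℤ) ≠ 0 := by exact_mod_cast hdpos.ne'
    exact mul_left_cancel₀ hd0 h6
  have h9 : H23.redPic0 S (Pic0.mk X) = 0 := by
    rw [H23.redPic0_mk, Pic0.mk, QuotientAddGroup.eq_zero_iff, AddSubgroup.mem_addSubgroupOf,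
      Divisor.mem_principal]
    exact ⟨s, hs, h5⟩
  have h10 : d • Pic0.mk X = 0 := by
    have : d • Pic0.mk X = Pic0.mk (d • X) := rfl
    rw [this, Pic0.mk, QuotientAddGroup.eq_zero_iff, AddSubgroup.mem_addSubgroupOf,
      AddSubgroup.coe_nsmul, Divisor.mem_principal]
    refine ⟨G, hG, fun v => ?_⟩
    rw [Finsupp.smul_apply, nsmul_eq_mul]
    exact (hord v).symm
  exact redPic0_injective_torsion S (goodRed_arch hqM hA) hdk h10 h9

end Level

end Fermat.Agent.H38.Mz
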