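import Fermat.Agent.H97MdE
import Fermat.Agent.H84Two
import Fermat.Agent.H3RR_Bridge

/-!
# From valuation rings with residue maps to valuations: `H84.Comp` gives `H97.Comp`
-/

set_option autoImplicit false
set_option linter.unusedSectionVars false

open AlgebraicCurve IntermediateField

namespace Fermat.Agent.H97

section Conv

variable {K k : Type*} [Field K] [Field k] {A : ValuationSubring K} {π : A →+* k}
  {F κ : Type*} [Field F] [Algebra K F] [Field κ] [Algebra k κ]

open Classical in
/-- The residue map of constants, extended by zero. -/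
noncomputable def resK (π : A →+* k) (c : K) : k := if h : c ∈ A then π ⟨c, h⟩ else 0

theorem resK_of_mem {c : K} (h : c ∈ A) : resK π c = π ⟨c, h⟩ := dif_pos h

theorem resK_surj (hπ : Function.Surjective π) (e : k) :
    ∃ c : K, A.valuation c ≤ 1 ∧ resK π c = e := by
  obtain ⟨⟨c, hc⟩, rfl⟩ := hπ e
  exact ⟨c, (A.valuation_le_one_iff c).mpr hc, resK_of_mem hc⟩

section CompVal

variable (C : H84.Comp A π F κ)

theorem compVal_const_le (hπ : Function.Surjective π) (a b : K) :
    C.V.valuation (algebraMap K F a) ≤ C.V.valuation (algebraMap K F b) ↔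
      A.valuation a ≤ A.valuation b := by
  by_cases hb : b = 0
  · subst hb
    rw [map_zero, map_zero, map_zero, le_zero_iff, le_zero_iff, Valuation.zero_iff,
      Valuation.zero_iff, _root_.map_eq_zero]
  · have h1 : A.valuation b ≠ 0 := (Valuation.ne_zero_iff _).mpr hb
    have h2 : C.V.valuation (algebraMap K F b) ≠ 0 :=
      (Valuation.ne_zero_iff _).mpr ((_root_.map_ne_zero _).mpr hb)
    rw [← div_le_one₀ (zero_lt_iff.mpr h1), ← div_le_one₀ (zero_lt_iff.mpr h2), ← map_div₀,
      ← map_div₀, ← map_div₀, A.valuation_le_one_iff, C.V.valuation_le_one_iff,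
      C.algebraMap_mem_iff hπ]

theorem exists_compVal (hC : C.Scalable) (f : F) :
    ∃ c : K, C.V.valuation f = C.V.valuation (algebraMap K F c) := by
  by_cases hf : f = 0
  · exact ⟨0, by rw [hf, map_zero (algebraMap K F)]⟩
  · obtain ⟨c, hc, h⟩ := hC f hf
    rw [C.red_ne_zero_iff_valuation, map_mul] at h
    refine ⟨c⁻¹, ?_⟩
    rw [map_inv₀, map_inv₀]
    exact (inv_eq_of_mul_eq_one_right h).symm

/-- A constant with the same value. -/
noncomputable def cst (hC : C.Scalable) (f : F) : K := (exists_compVal C hC f).choose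

theorem cst_spec (hC : C.Scalable) (f : F) :
    C.V.valuation f = C.V.valuation (algebraMap K F (cst C hC f)) :=
  (exists_compVal C hC f).choose_spec

theorem le_cst_iff (hπ : Function.Surjective π) (hC : C.Scalable) (f : F) (c : K) :
    A.valuation (cst C hC f) ≤ A.valuation c ↔ C.V.valuation f ≤ C.V.valuation (algebraMap K F c) := by
  rw [cst_spec C hC f, compVal_const_le C hπ]

theorem cst_eq_iff (hπ : Function.Surjective π) (hC : C.Scalable) (f : F) (c : K) :
    A.valuation (cst C hC f) = A.valuation c ↔
      C.V.valuation f = C.V.valuation (algebraMap K F c) := by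
  rw [le_antisymm_iff, le_antisymm_iff, cst_spec C hC f, compVal_const_le C hπ,
    compVal_const_le C hπ]

theorem cst_le_cst_iff (hπ : Function.Surjective π) (hC : C.Scalable) (f g : F) :
    A.valuation (cst C hC f) ≤ A.valuation (cst C hC g) ↔ C.V.valuation f ≤ C.V.valuation g := by
  rw [cst_spec C hC f, cst_spec C hC g, compVal_const_le C hπ]

/-- The valuation of a scalable component, with values in the value group of the constants. -/
noncomputable def compVal (hπ : Function.Surjective π) (hC : C.Scalable) :
    Valuation F A.ValueGroup where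
  toFun f := A.valuation (cst C hC f)
  map_zero' := by
    rw [← map_zero A.valuation, cst_eq_iff C hπ, map_zero (algebraMap K F)]
  map_one' := by
    rw [← map_one A.valuation, cst_eq_iff C hπ, map_one (algebraMap K F)]
  map_mul' f g := by
    rw [← map_mul, cst_eq_iff C hπ, map_mul, map_mul, map_mul, ← cst_spec, ← cst_spec]
  map_add_le_max' f g := by
    rcases le_total (C.V.valuation f) (C.V.valuation g) with h | h
    · refine le_max_of_le_right ((cst_le_cst_iff C hπ hC _ _).mpr ?_)
      exact (Valuation.map_add _ _ _).trans (max_le h le_rfl)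
    · refine le_max_of_le_left ((cst_le_cst_iff C hπ hC _ _).mpr ?_)
      exact (Valuation.map_add _ _ _).trans (max_le le_rfl h)

variable {C} (hπ : Function.Surjective π) (hC : C.Scalable)

theorem compVal_apply (f : F) : compVal C hπ hC f = A.valuation (cst C hC f) := rfl

theorem compVal_eq_iff (f : F) (c : K) : compVal C hπ hC f = A.valuation c ↔
    C.V.valuation f = C.V.valuation (algebraMap K F c) := cst_eq_iff C hπ hC f c

theorem compVal_le_iff (f g : F) : compVal C hπ hC f ≤ compVal C hπ hC g ↔
    C.V.valuation f ≤ C.V.valuation g := cst_le_cst_iff C hπ hC f g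

theorem compVal_lt_iff (f g : F) : compVal C hπ hC f < compVal C hπ hC g ↔
    C.V.valuation f < C.V.valuation g := by
  rw [← not_le, ← not_le, compVal_le_iff]

theorem compVal_algebraMap (c : K) : compVal C hπ hC (algebraMap K F c) = A.valuation c :=
  (compVal_eq_iff hπ hC _ _).mpr rfl

theorem compVal_le_one_iff {f : F} : compVal C hπ hC f ≤ 1 ↔ f ∈ C.V := by
  rw [← map_one (compVal C hπ hC), compVal_le_iff, map_one, C.V.valuation_le_one_iff]

theorem compVal_eq_one_iff {f : F} : compVal C hπ hC f = 1 ↔ C.red f ≠ 0 := by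
  rw [C.red_ne_zero_iff_valuation, ← map_one A.valuation, compVal_eq_iff, map_one, map_one]

theorem red_eq_zero_iff {f : F} (hf : compVal C hπ hC f ≤ 1) :
    C.red f = 0 ↔ compVal C hπ hC f < 1 := by
  rw [lt_iff_le_and_ne, Ne, compVal_eq_one_iff, not_not]
  exact ⟨fun h => ⟨hf, h⟩, fun h => h.2⟩

/-- Characterisation of the valuation by scaling. -/
theorem compVal_of_scale {f : F} {c : K} (hc : c ≠ 0) (h : C.red (algebraMap K F c * f) ≠ 0) :
    compVal C hπ hC f = (A.valuation c)⁻¹ := by
  rw [← compVal_eq_one_iff hπ hC, map_mul, compVal_algebraMap] at h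
  exact (inv_eq_of_mul_eq_one_right h).symm

/-- **`H84.Comp` gives `H97.Comp`.** -/
theorem comp_of_H84 [IsAlgClosed K] [CharZero K] [H3RR.IsFF K F] {x : F} (hx : x ∈ C.V)
    (hxt : Transcendental k (C.red x)) :
    Comp A.valuation (resK π) (compVal C hπ hC) C.red where
  v_alg := compVal_algebraMap hπ hC
  ρ_one := C.red_one
  ρ_add x y hx hy := C.red_add ((compVal_le_one_iff hπ hC).mp hx) ((compVal_le_one_iff hπ hC).mp hy)
  ρ_mul x y hx hy := C.red_mul ((compVal_le_one_iff hπ hC).mp hx) ((compVal_le_one_iff hπ hC).mp hy)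
  ρ_eq_zero x hx := red_eq_zero_iff hπ hC hx
  ρ_alg c hc := by
    have h := (A.valuation_le_one_iff c).mp hc
    rw [C.red_algebraMap' h, resK_of_mem h]
  scale f hf := by
    obtain ⟨c, hc, h⟩ := hC f hf
    exact ⟨c⁻¹, inv_ne_zero hc, by rw [compVal_of_scale hπ hC hc h, map_inv₀]⟩
  opt w hw := by
    have hwt : Transcendental K w := by
      intro halg
      obtain ⟨c, hc⟩ := H3RR.exists_const_of_isAlgebraic halg
      exact hw c hc.symm
    have := H3RR.IsFF.finiteDimensional (K := K) hwt
    obtain ⟨a, c, ha, h⟩ := hC.exists_translate hx hxt hwt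
    have ha' : algebraMap K F a ≠ 0 := (_root_.map_ne_zero _).mpr ha
    refine ⟨c, a⁻¹, inv_ne_zero ha, ?_, fun e he => h ⟨e, ?_⟩⟩
    · have h1 : C.red (algebraMap K F a * (w - algebraMap K F c)) ≠ 0 := by
        intro h0
        exact h ⟨0, by rw [map_zero, h0]⟩
      rw [compVal_of_scale hπ hC ha h1, map_inv₀]
    · rw [← he, map_inv₀, div_inv_eq_mul, mul_comm]

end CompVal

end Conv

end Fermat.Agent.H97
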