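import Fermat.Agent.H38MzHecke
import Fermat.Agent.H38MzRep
import Fermat.Agent.H31Scale
import Fermat.Agent.H97MdF

/-!
# The Eisenstein step: Gauss norms of the Hecke transform
-/

set_option autoImplicit false
set_option linter.unusedSectionVars false
set_option linter.style.haveILetI false

noncomputable section

open AlgebraicCurve IntermediateField HahnSeries ModularCurve
open Fermat.Agent.H67 Fermat.Agent.H34.Two

namespace Fermat.Agent.H38.Mz

local notation "Qb" => AlgebraicClosure ℚ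

section GV

variable {A : ValuationSubring Qb} {N : ℕ} [NeZero N]

local notation "kA" => IsLocalRing.ResidueField A
local notation "πA" => IsLocalRing.residue A

/-- `f` is fixed by the inertia group. -/
def FixI (A : ValuationSubring Qb) (f : FB Qb N) : Prop :=
  ∀ σ ∈ A.inertiaSubgroupIn ℚ, arithmeticGalois (modularFunctionFieldFull N) σ • f = f

variable (A N) in
/-- The Gauss valuation. -/
def gv : Valuation (FB Qb N) A.ValueGroup :=
  H97.compVal (gC A πA N) IsLocalRing.residue_surjective (gC_scalable A πA N)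

theorem gv_algebraMap (c : Qb) : gv A N (algebraMap Qb (FB Qb N) c) = A.valuation c :=
  H97.compVal_algebraMap _ _ c

theorem gv_eq_one_of_red {f : FB Qb N} {fb : LaurentSeries kA} (h0 : fb ≠ 0)
    (h : Red A πA (f : LaurentSeries Qb) fb) : gv A N f = 1 := by
  refine (H97.compVal_eq_one_iff _ _).mpr ?_
  rw [h.red_eq]
  exact h0

theorem gv_le_one_of_red {f : FB Qb N} {fb : LaurentSeries kA}
    (h : Red A πA (f : LaurentSeries Qb) fb) : gv A N f ≤ 1 :=
  (H97.compVal_le_one_iff _ _).mpr (mem_of_red h)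

theorem red_of_gv_le {f : FB Qb N} (h : gv A N f ≤ 1) :
    Red A πA (f : LaurentSeries Qb) ((gC A πA N).red f) :=
  red_of_mem ((H97.compVal_le_one_iff _ _).mp h)

theorem red_ne_zero_of_gv {f : FB Qb N} (h : gv A N f = 1) : (gC A πA N).red f ≠ 0 :=
  (H97.compVal_eq_one_iff _ _).mp h

theorem exists_red_of_gv {f : FB Qb N} (h : gv A N f = 1) :
    ∃ fb : LaurentSeries kA, fb ≠ 0 ∧ Red A πA (f : LaurentSeries Qb) fb :=
  ⟨_, red_ne_zero_of_gv h, red_of_gv_le h.le⟩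

theorem gv_scale {f : FB Qb N} (hf : f ≠ 0) : ∃ c : Qb, c ≠ 0 ∧ gv A N f = A.valuation c := by
  obtain ⟨c, hc, h⟩ := gC_scalable A πA N f hf
  refine ⟨c⁻¹, inv_ne_zero hc, ?_⟩
  rw [map_inv₀]
  exact H97.compVal_of_scale _ _ hc h

theorem Th_algebraMap {ℓ : ℕ} [NeZero ℓ] (hℓ : ℓ.Prime) (hℓN : ¬ ℓ ∣ N) (c : Qb) :
    Th N ℓ (algebraMap Qb (FB Qb N) c) = algebraMap Qb (FB Qb N) (c ^ (ℓ + 1)) := by
  obtain ⟨ζ, hζ⟩ := exists_zeta_unit ⊤ ℓ hℓ
  apply Subtype.ext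
  apply qExpand_inj ℓ
  rw [qExpand_Th hℓ hℓN hζ]
  have h1 : ∀ b : Qb, ((algebraMap Qb (FB Qb N) b : FB Qb N) : LaurentSeries Qb) =
    algebraMap Qb (LaurentSeries Qb) b := fun b => rfl
  rw [h1, h1, normSeries_algebraMap, qExpand_algebraMap']

/-- The Gauss norm of the Hecke transform. -/
theorem gv_Th {ℓ : ℕ} [NeZero ℓ] (hℓ : ℓ.Prime) (hℓN : ¬ ℓ ∣ N) (f : FB Qb N) :
    gv A N (Th N ℓ f) = gv A N f ^ (ℓ + 1) := by
  rcases eq_or_ne f 0 with rfl | hf
  · have h1 := Th_algebraMap (N := N) hℓ hℓN 0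
    rw [zero_pow (Nat.succ_ne_zero ℓ), map_zero] at h1
    rw [h1, map_zero, zero_pow (Nat.succ_ne_zero ℓ)]
  obtain ⟨ζ, hζ⟩ := exists_zeta_unit A ℓ hℓ
  obtain ⟨c, hc, hv⟩ := gv_scale (A := A) hf
  have hcF : algebraMap Qb (FB Qb N) c ≠ 0 := (_root_.map_ne_zero _).mpr hc
  set g : FB Qb N := algebraMap Qb (FB Qb N) c⁻¹ * f with hg
  have hfg : f = algebraMap Qb (FB Qb N) c * g := by
    rw [hg, ← mul_assoc, ← map_mul, mul_inv_cancel₀ hc, map_one, one_mul]
  have hvg : gv A N g = 1 := by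
    rw [hg, map_mul, gv_algebraMap, map_inv₀, hv, inv_mul_cancel₀]
    exact (Valuation.ne_zero_iff _).mpr hc
  obtain ⟨gb, hgb, hred⟩ := exists_red_of_gv hvg
  obtain ⟨tb, htb, hTred, -⟩ := red_Th hℓ hℓN hζ hgb hred
  have h1 : gv A N (Th N ℓ g) = 1 := gv_eq_one_of_red htb hTred
  rw [hfg, Th_mul, Th_algebraMap hℓ hℓN, map_mul, map_mul, h1, hvg, gv_algebraMap,
    gv_algebraMap, map_pow, mul_one, mul_one]

variable {q : ℕ} [hq : Fact q.Prime] (hA : A.LiesOverPrime q)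

omit [NeZero N] in
theorem arch_A : H97.Arch A := by
  intro a b ha hb
  exact H18.dvd_pow_of_algebraicClosure A b a hb ha

include hA in
/-- The Gauss norm of a function fixed by inertia. -/
theorem gv_fixed {f : FB Qb N} (hf0 : f ≠ 0) (hf : FixI A f) :
    ∃ n : ℤ, gv A N f = A.valuation (q : Qb) ^ n := by
  have hk : IsAlgClosed kA := H18.isAlgClosed_residueField A
  have hj : jqModC Qb ∈ laurentBaseChange Qb (modularFunctionFieldFull N) := by
    rw [H42.laurentBaseChange_full]; exact jqModC_mem_full Qb N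
  obtain ⟨P₀, hP₀⟩ := H97.exists_isInf (H97.FF Qb N) hj
  obtain ⟨c, hc0, hcH, hvc⟩ := H31.In.exists_fixed_scale (π := πA) arch_A hP₀ (gv A N)
    (fun f hf => gv_scale hf) gv_algebraMap
    (fun f hf => by
      obtain ⟨y, z, hz, h1, -⟩ := red_of_gv_le hf
      exact ⟨y, z, hz, h1⟩)
    (fun f y hy hf h0 => by
      have h1 := red_of_gv_le hf.le
      rw [← hy] at h1
      have h2 := h1.unique (Red.coe y)
      exact red_ne_zero_of_gv hf (h2.trans h0))
    (H := A.inertiaSubgroupIn ℚ) hf0 hf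
  obtain ⟨n, hn⟩ := H44E.exists_valuation_eq_zpow hq.out hA hc0 hcH
  exact ⟨n, by rw [hvc, hn]⟩

end GV

section Fixed

variable {A : ValuationSubring Qb} {N : ℕ} [NeZero N]

theorem FixI.mul {f g : FB Qb N} (hf : FixI A f) (hg : FixI A g) : FixI A (f * g) :=
  fun σ hσ => by rw [smul_mul', hf σ hσ, hg σ hσ]

theorem FixI.inv {f : FB Qb N} (hf : FixI A f) : FixI A f⁻¹ :=
  fun σ hσ => by rw [smul_inv'', hf σ hσ]

theorem FixI.pow {f : FB Qb N} (hf : FixI A f) (n : ℕ) : FixI A (f ^ n) :=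
  fun σ hσ => by rw [smul_pow', hf σ hσ]

theorem FixI.zpow {f : FB Qb N} (hf : FixI A f) (n : ℤ) : FixI A (f ^ n) := by
  cases n with
  | ofNat n => rw [Int.ofNat_eq_natCast, zpow_natCast]; exact hf.pow n
  | negSucc n => rw [zpow_negSucc]; exact (hf.pow _).inv

theorem FixI.Th {ℓ : ℕ} [NeZero ℓ] {f : FB Qb N} (hf : FixI A f) : FixI A (Mz.Th N ℓ f) :=
  fun σ hσ => by rw [Th_galois, hf σ hσ]

theorem FixI.AL {f : FB Qb N} (hf : FixI A f) {B Q : ℕ} {W : FB Qb N ≃ₐ[Qb] FB Qb N}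
    (hW : IsAL B Q W) : FixI A (W f) :=
  fun σ hσ => by rw [← hW.galois, hf σ hσ]

theorem leadingCoeff_pow' {K : Type*} [Field K] (x : LaurentSeries K) (n : ℕ) :
    (x ^ n).leadingCoeff = x.leadingCoeff ^ n := by
  induction n with
  | zero =>
    rw [pow_zero, pow_zero, ← map_one (algebraMap K (LaurentSeries K)), leadingCoeff_algebraMap]
  | succ n ih => rw [pow_succ, pow_succ, HahnSeries.leadingCoeff_mul, ih]

/-- Roots of fixed functions: `t = h₀^d` is fixed, then `h₀ = b h` with `h` and `b^d` fixed. -/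
theorem exists_fixed_root {d : ℕ} (hd : d ≠ 0) {t h₀ : FB Qb N} (ht : FixI A t) (h0 : h₀ ≠ 0)
    (hh : t = h₀ ^ d) : ∃ (b : Qb) (h : FB Qb N), b ≠ 0 ∧ h ≠ 0 ∧ FixI A h ∧
      (∀ σ ∈ A.inertiaSubgroupIn ℚ, σ (b ^ d) = b ^ d) ∧
      h₀ = algebraMap Qb (FB Qb N) b * h := by
  have h0' : (h₀ : LaurentSeries Qb) ≠ 0 := fun h => h0 (Subtype.ext h)
  set b := (h₀ : LaurentSeries Qb).leadingCoeff with hb
  have hb0 : b ≠ 0 := HahnSeries.leadingCoeff_ne_zero.mpr h0'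
  have hbF : algebraMap Qb (FB Qb N) b ≠ 0 := (_root_.map_ne_zero _).mpr hb0
  have hlt : (t : LaurentSeries Qb).leadingCoeff = b ^ d := by
    rw [hh, coe_pow_FB]
    exact leadingCoeff_pow' _ _
  have hbfix : ∀ σ ∈ A.inertiaSubgroupIn ℚ, σ (b ^ d) = b ^ d := by
    intro σ hσ
    have h1 := ht σ hσ
    have h2 : ((arithmeticGalois (modularFunctionFieldFull N) σ • t : FB Qb N) :
        LaurentSeries Qb).leadingCoeff = (t : LaurentSeries Qb).leadingCoeff := by rw [h1]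
    rw [coe_arithmeticGalois_smul, leadingCoeff_coeffMap, hlt] at h2
    exact h2
  set h : FB Qb N := algebraMap Qb (FB Qb N) b⁻¹ * h₀ with hhdef
  have hh₀ : h₀ = algebraMap Qb (FB Qb N) b * h := by
    rw [hhdef, ← mul_assoc, ← map_mul, mul_inv_cancel₀ hb0, map_one, one_mul]
  have hne : h ≠ 0 := by
    rintro h1
    rw [h1, mul_zero] at hh₀
    exact h0 hh₀
  have hlead : (h : LaurentSeries Qb).leadingCoeff = 1 := by
    rw [hhdef, coe_algebraMap_mul, HahnSeries.leadingCoeff_mul, leadingCoeff_algebraMap, ← hb,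
      inv_mul_cancel₀ hb0]
  refine ⟨b, h, hb0, hne, ?_, hbfix, hh₀⟩
  intro σ hσ
  set g := arithmeticGalois (modularFunctionFieldFull N) σ with hg
  -- `(g h)^d = h^d`
  have h1 : h ^ d = algebraMap Qb (FB Qb N) (b ^ d)⁻¹ * t := by
    rw [hhdef, hh, mul_pow, ← map_pow, inv_pow]
  have h2 : (g • h) ^ d = h ^ d := by
    rw [← smul_pow', h1, smul_mul', ht σ hσ]
    congr 1
    rw [SemilinearAut.smul_algebraMap]
    congr 1
    have h3 : SemilinearAut.baseAut g (b ^ d)⁻¹ = σ (b ^ d)⁻¹ := by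
      rw [hg, baseAut_arithmeticGalois]
      rfl
    rw [h3, map_inv₀, hbfix σ hσ]
  have hgh0 : g • h ≠ 0 := by simpa using hne
  -- so `g h = c h` with `c` a constant
  obtain ⟨c, hc0, hc⟩ := H89SS.exists_const_mul (K := Qb) hgh0 hne (fun v => by
    have h3 := congrArg v.ord h2
    have h4 : ∀ x : FB Qb N, v.ord (x ^ d) = d * v.ord x := by
      intro x
      have := v.ord_zpow x d
      rwa [zpow_natCast] at this
    rw [h4, h4] at h3
    exact mul_left_cancel₀ (by exact_mod_cast hd) h3)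
  have h5 : ((g • h : FB Qb N) : LaurentSeries Qb).leadingCoeff =
      ((algebraMap Qb (FB Qb N) c * h : FB Qb N) : LaurentSeries Qb).leadingCoeff := by rw [hc]
  rw [hg, coe_arithmeticGalois_smul, leadingCoeff_coeffMap, hlead, map_one,
    coe_algebraMap_mul, HahnSeries.leadingCoeff_mul, hlead, mul_one, leadingCoeff_algebraMap] at h5
  rw [hc, ← h5, map_one, one_mul]

end Fixed

section Main

variable {M q : ℕ} [NeZero M] [hq : Fact q.Prime] (hqM : ¬ q ∣ M) {A : ValuationSubring Qb}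
  (hA : A.LiesOverPrime q)

include hqM hA in
/-- **The Eisenstein step.** -/
theorem eisenstein_step {d : ℕ} (hd0 : d ≠ 0) {ℓ : ℕ} (hℓ : ℓ.Prime)
    (hℓN : ¬ ℓ ∣ M * q) {a : ℤ} {W : FB Qb (M * q) ≃ₐ[Qb] FB Qb (M * q)} (hW : IsAL M q W)
    {D : Divisor.degZero (K := Qb) (F := FB Qb (M * q))} {u : FB Qb (M * q)} (hu : u ≠ 0)
    (hord : ∀ v : Place Qb (FB Qb (M * q)),
      v.ord u = (d : ℤ) * (D : Divisor Qb (FB Qb (M * q))) v)
    (hT : heckeOperatorBar (M * q) ⟨ℓ, hℓ⟩ (Pic0.mk D) = a • (Pic0.mk D : Pic0 Qb (FB Qb (M * q))))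
    (hfix : FixI A u) {n₁ n₂ : ℤ} (h1 : gv A (M * q) u = A.valuation (q : Qb) ^ n₁)
    (h2 : gv A (M * q) (W u) = A.valuation (q : Qb) ^ n₂) :
    (d : ℤ) ∣ ((ℓ : ℤ) + 1 - a) * (n₂ - n₁) := by
  haveI : NeZero ℓ := ⟨hℓ.ne_zero⟩
  have hcop : M.Coprime q := ((Nat.Prime.coprime_iff_not_dvd hq.out).mpr hqM).symm
  have hℓq : ℓ.Coprime q := by
    rw [Nat.coprime_primes hℓ hq.out]
    rintro rfl
    exact hℓN (dvd_mul_left _ _)
  obtain ⟨D', hD', hordT⟩ := exists_div_Th (ℓ := ℓ) hℓ hu hord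
  have hmk : Pic0.mk D' = a • (Pic0.mk D : Pic0 Qb (FB Qb (M * q))) := hD'.trans hT
  have hprin := mk_eq_zsmul_iff.mp hmk
  have hTu0 : Th (M * q) ℓ u ≠ 0 := Th_ne_zero hu
  obtain ⟨h, hh0, hh⟩ := H89SS.exists_eq_pow (K := Qb) hd0
    (mul_ne_zero hTu0 (zpow_ne_zero (-a) hu)) hprin
    (ord_mul_zpow_neg hu hTu0 hord hordT a)
  have hfixt : FixI A (Th (M * q) ℓ u * u ^ (-a)) := hfix.Th.mul (hfix.zpow _)
  obtain ⟨b, g, hb0, hg0, hgfix, hbfix, hhg⟩ := exists_fixed_root hd0 hfixt hh0 hh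
  obtain ⟨m₁, hm₁⟩ := gv_fixed hA hg0 hgfix
  have hWg0 : W g ≠ 0 := (_root_.map_ne_zero W).mpr hg0
  obtain ⟨m₂, hm₂⟩ := gv_fixed hA hWg0 (hgfix.AL hW)
  obtain ⟨t, ht⟩ := H44E.exists_valuation_eq_zpow hq.out hA (pow_ne_zero d hb0) hbfix
  have hq0 : A.valuation (q : Qb) ≠ 0 :=
    (Valuation.ne_zero_iff _).mpr (by exact_mod_cast hq.out.ne_zero)
  have hq1 : A.valuation (q : Qb) ≠ 1 := by
    intro h1
    have h3 : (q : Qb) ∈ A.nonunits := hA
    rw [ValuationSubring.mem_nonunits_iff] at h3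
    exact (ne_of_lt h3) h1
  have hinj : Function.Injective (fun n : ℤ => A.valuation (q : Qb) ^ n) :=
    zpow_right_injective₀ (zero_lt_iff.mpr hq0) hq1
  have hkey : Th (M * q) ℓ u * u ^ (-a) = algebraMap Qb (FB Qb (M * q)) (b ^ d) * g ^ d := by
    rw [hh, hhg, mul_pow, map_pow]
  -- first component
  have e1 := congrArg (gv A (M * q)) hkey
  rw [map_mul, map_mul, gv_Th hℓ hℓN, map_zpow₀, h1, gv_algebraMap, ht, map_pow, hm₁,
    ← zpow_natCast, ← zpow_natCast, ← zpow_mul, ← zpow_mul, ← zpow_mul, ← zpow_add₀ hq0,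
    ← zpow_add₀ hq0] at e1
  have e1' := hinj e1
  -- second component
  have hkey2 : Th (M * q) ℓ (W u) * (W u) ^ (-a) =
      algebraMap Qb (FB Qb (M * q)) (b ^ d) * (W g) ^ d := by
    have h3 := congrArg W hkey
    have h4 : W (algebraMap Qb (FB Qb (M * q)) (b ^ d)) = algebraMap Qb (FB Qb (M * q)) (b ^ d) :=
      W.commutes _
    rw [map_mul, map_mul, Th_AL hW rfl hcop hℓq, map_zpow₀, h4, map_pow W g d] at h3
    exact h3
  have e2 := congrArg (gv A (M * q)) hkey2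
  rw [map_mul, map_mul, gv_Th hℓ hℓN, map_zpow₀, h2, gv_algebraMap, ht, map_pow, hm₂,
    ← zpow_natCast, ← zpow_natCast, ← zpow_mul, ← zpow_mul, ← zpow_mul, ← zpow_add₀ hq0,
    ← zpow_add₀ hq0] at e2
  have e2' := hinj e2
  refine ⟨m₂ - m₁, ?_⟩
  push_cast at e1' e2'
  linear_combination e2' - e1'

end Main

end Fermat.Agent.H38.Mz
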