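import Fermat.Agent.H95S27
import Fermat.Agent.H23RedPic
import Fermat.Agent.H18S18
import Fermat.Agent.H1Inertia

/-!
# Torsion of the class group of a curve over an algebraic closure of a finite field

`Pic⁰(F)[ℓ^k]` has `ℓ^(2gk)` elements (`ℓ ≠ p`), for a function field `F` over an algebraically
closed field `K` which is algebraic over `𝔽_p`.
-/

set_option autoImplicit false
set_option linter.unusedSectionVars false
open AlgebraicCurve WithZero Polynomial IntermediateField IsDedekindDomain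
open scoped nonZeroDivisors
open scoped IntermediateField.algebraAdjoinAdjoin
open Fermat.Agent.H3RR

namespace Fermat.Agent.H38.Mz

section Sep

variable {K F : Type*} [Field K] [Field F] [Algebra K F] [IsAlgClosed K] [IsFF K F]

/-- A function with a single pole, of given large order. -/
theorem exists_pole_order (P : Place K F) (n : ℕ) (hn : 2 * genusFF K F + 1 ≤ n) :
    ∃ x : F, Transcendental K x ∧ P.ord x = -(n : ℤ) ∧
      ∀ v : Place K F, v ≠ P → v.adicValuation x ≤ 1 := by
  classical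
  have h2 := ell_of_degree_gt (D := (Finsupp.single P (n : ℤ) : Divisor K F)) (by
    rw [Divisor.degree_single, deg_eq_one]; push_cast; omega)
  rw [Divisor.degree_single, deg_eq_one] at h2
  have h3 := ell_of_degree_gt (D := (Finsupp.single P ((n : ℤ) - 1) : Divisor K F)) (by
    rw [Divisor.degree_single, deg_eq_one]; push_cast; omega)
  rw [Divisor.degree_single, deg_eq_one] at h3
  have hlt : ¬ riemannRochSpace (Finsupp.single P (n : ℤ) : Divisor K F) ≤
      riemannRochSpace (Finsupp.single P ((n : ℤ) - 1) : Divisor K F) := by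
    intro h
    have h4 : ell (Finsupp.single P (n : ℤ) : Divisor K F) ≤
        ell (Finsupp.single P ((n : ℤ) - 1) : Divisor K F) :=
      LinearMap.finrank_le_finrank_of_injective (f := Submodule.inclusion h)
        (Submodule.inclusion_injective _)
    push_cast at h2 h3
    omega
  obtain ⟨x, hx, hx0⟩ := SetLike.not_le_iff_exists.mp hlt
  have hx' : ∀ v : Place K F, v.adicValuation x ≤
    exp ((Finsupp.single P (n : ℤ) : Divisor K F) v) := hx
  have hne : ∀ v : Place K F, v ≠ P → v.adicValuation x ≤ 1 := by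
    intro v hv
    have := hx' v
    rwa [Finsupp.single_eq_of_ne hv, exp_zero] at this
  have hxne : x ≠ 0 := by
    rintro rfl
    exact hx0 (Submodule.zero_mem _)
  have h5 : P.adicValuation x ≤ exp (n : ℤ) := by
    have := hx' P
    rwa [Finsupp.single_eq_same] at this
  have h6 : ¬ P.adicValuation x ≤ exp ((n : ℤ) - 1) := by
    intro hcon
    apply hx0
    show ∀ v : Place K F, v.adicValuation x ≤
      exp ((Finsupp.single P ((n : ℤ) - 1) : Divisor K F) v)
    intro v
    by_cases hv : v = P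
    · subst hv; rwa [Finsupp.single_eq_same]
    · rw [Finsupp.single_eq_of_ne hv, exp_zero]
      exact hne v hv
  rw [P.adicValuation_eq_exp_neg_ord hxne, exp_le_exp] at h5 h6
  have hord : P.ord x = -(n : ℤ) := by omega
  refine ⟨x, ?_, hord, hne⟩
  intro halg
  obtain ⟨c, rfl⟩ := exists_const_of_isAlgebraic halg
  have := P.adicValuation_algebraMap_le_one c
  rw [P.adicValuation_eq_exp_neg_ord hxne, ← exp_zero, exp_le_exp] at this
  omega

theorem finrank_of_pole {P : Place K F} {n : ℕ} {x : F} (hx : Transcendental K x)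
    (hn : P.ord x = -(n : ℤ)) (hne : ∀ v : Place K F, v ≠ P → v.adicValuation x ≤ 1) :
    Module.finrank K⟮x⟯ F = n := by
  classical
  have h0 : x ≠ 0 := transcendental_ne_zero hx
  have h1 := degree_poleDiv hx
  have h2 : (poleDiv x : Divisor K F) = Finsupp.single P (n : ℤ) := by
    ext v
    rw [poleDiv_apply h0]
    by_cases hv : v = P
    · subst hv
      rw [Finsupp.single_eq_same, hn]
      omega
    · rw [Finsupp.single_eq_of_ne hv]
      have := hne v hv
      rw [v.adicValuation_eq_exp_neg_ord h0, ← exp_zero, exp_le_exp] at this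
      omega
  rw [h2, Divisor.degree_single, deg_eq_one] at h1
  push_cast at h1
  omega

theorem isSeparable_of_coprime (p : ℕ) [Fact p.Prime] [CharP K p] {x : F}
    [FiniteDimensional K⟮x⟯ F] (hp : ¬ p ∣ Module.finrank K⟮x⟯ F) :
    Algebra.IsSeparable K⟮x⟯ F := by
  have : CharP K⟮x⟯ p := charP_of_injective_algebraMap (algebraMap K K⟮x⟯).injective p
  have : ExpChar K⟮x⟯ p := ExpChar.prime Fact.out
  rw [isSeparable_iff_finInsepDegree_eq_one]
  obtain ⟨m, hm⟩ := finInsepDegree_eq_pow K⟮x⟯ F p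
  have h1 := Field.finSepDegree_mul_finInsepDegree K⟮x⟯ F
  rcases Nat.eq_zero_or_pos m with rfl | hpos
  · rw [hm, pow_zero]
  · exfalso
    apply hp
    rw [← h1, hm]
    exact dvd_mul_of_dvd_right (dvd_pow_self p hpos.ne') _

/-- `isDedekindDomain_intRing` for a separating element. -/
theorem isDedekindDomain_intRing' {x : F} [FiniteDimensional K⟮x⟯ F] [Algebra.IsSeparable K⟮x⟯ F]
    (hx : Transcendental K x) : IsDedekindDomain (H94.IntRing K x) := by
  have := H94.isPrincipalIdealRing_adjoin hx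
  exact integralClosure.isDedekindDomain (Algebra.adjoin K {x}) K⟮x⟯ F

theorem isAffineRing_intRing' (P : Place K F) {x : F} (hx : Transcendental K x)
    [Algebra.IsSeparable K⟮x⟯ F]
    (hP : 1 < P.adicValuation x) (hne : ∀ v : Place K F, v ≠ P → v.adicValuation x ≤ 1) :
    H3S27.IsAffineRing P (H94.IntRing K x) where
  inj := Subtype.coe_injective
  mem_iff f := by
    have hfd := IsFF.finiteDimensional (F := F) hx
    have hded := isDedekindDomain_intRing' (F := F) hx
    have hfrac := H94.isFractionRing_intRing (K := K) (F := F) (x := x)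
    constructor
    · rintro ⟨b, rfl⟩ v hv
      apply v.adicValuation_le_one_of_mem
      exact H94.mem_of_intRing (mem_of_adicValuation_le_one v (hne v hv)) b
    · intro h
      refine HeightOneSpectrum.mem_integers_of_valuation_le_one (R := H94.IntRing K x) F f ?_
      intro w
      set v : Place K F := Place.ofHeightOneSpectrum w with hv
      have hvP : v ≠ P := by
        intro h0
        have hmem : algebraMap (H94.IntRing K x) F
            (algebraMap (Algebra.adjoin K {x}) (H94.IntRing K x)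
              ⟨x, Algebra.self_mem_adjoin_singleton K x⟩) ∈ v.toValuationSubring :=
          H94.algebraMap_mem_ofHeightOneSpectrum w _
        have h1 : P.adicValuation x ≤ 1 := by
          rw [← h0]
          exact v.adicValuation_le_one_of_mem hmem
        exact absurd h1 (not_le.mpr hP)
      have h2 := mem_of_adicValuation_le_one v (h v hvP)
      rw [hv, Place.ofHeightOneSpectrum_toValuationSubring,
        Valuation.mem_valuationSubring_iff] at h2
      exact h2

end Sep

section Main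

open Fermat.Agent.H95

/-- **T1**: the torsion count in characteristic `p`. -/
theorem card_torsion_charP (K F : Type*) [Field K] [Field F] [Algebra K F] [IsAlgClosed K]
    [IsFF K F] (p : ℕ) [Fact p.Prime] [CharP K p]
    (hK : ∀ c : K, ∃ m, 0 < m ∧ c ^ p ^ m = c) (ℓ : ℕ) [Fact ℓ.Prime] (hℓ : ℓ ≠ p) (k : ℕ) :
    Nat.card (Pic0.torsion K F (ℓ ^ k)) = ℓ ^ (2 * genusFF K F * k) := by
  obtain ⟨P⟩ : Nonempty (Place K F) := inferInstance
  set n : ℕ := (2 * genusFF K F + 1) * p + 1 with hn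
  have hp2 : 2 ≤ p := (Fact.out : p.Prime).two_le
  have hn1 : 2 * genusFF K F + 1 ≤ n := by nlinarith
  have hpn : ¬ p ∣ n := by
    intro h
    have h1 : p ∣ 1 := (Nat.dvd_add_right (Dvd.intro_left _ rfl)).mp h
    have := Nat.le_of_dvd one_pos h1
    omega
  obtain ⟨x, hx, hord, hne⟩ := exists_pole_order P n hn1
  have hfd := IsFF.finiteDimensional (F := F) hx
  have hsep : Algebra.IsSeparable K⟮x⟯ F := isSeparable_of_coprime p (by
    rwa [finrank_of_pole hx hord hne])
  have hx0 : x ≠ 0 := transcendental_ne_zero hx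
  have hP : 1 < P.adicValuation x := by
    rw [P.adicValuation_eq_exp_neg_ord hx0, ← exp_zero, exp_lt_exp]
    omega
  have hded := isDedekindDomain_intRing' (F := F) hx
  have hfrac := H94.isFractionRing_intRing (K := K) (F := F) (x := x)
  have hB := isAffineRing_intRing' P hx hP hne
  obtain ⟨s, c, x', y, hm⟩ := H77.M.exists_table (H3S27.isWeight hB)
  have key := card_torsion_classGroup p hK hm ℓ hℓ k
  have hgen : s.g = genusFF K F := by
    rw [← H77.M.genus_eq hm]
    exact H3S27.genus_eq hB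
  rw [hgen] at key
  obtain ⟨E⟩ := H3S27.nonempty_equiv hB
  rw [← key]
  refine Nat.card_congr (Equiv.subtypeEquiv (Multiplicative.ofAdd.trans E.toEquiv) ?_)
  intro z
  rw [Pic0.mem_torsion]
  simp only [Equiv.trans_apply, MulEquiv.toEquiv_eq_coe, EquivLike.coe_coe]
  rw [← map_pow, ← ofAdd_nsmul, natCast_zsmul]
  constructor
  · intro h
    rw [h, ofAdd_zero, map_one]
  · intro h
    rw [map_eq_one_iff _ E.injective] at h
    exact h

/-- The torsion count in characteristic `0` (for function fields in the sense of `IsFF`). -/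
theorem card_torsion_char0 (K F : Type*) [Field K] [Field F] [Algebra K F] [IsAlgClosed K]
    [CharZero K] [IsFF K F] (ℓ : ℕ) [Fact ℓ.Prime] (k : ℕ) :
    Nat.card (Pic0.torsion K F (ℓ ^ k)) = ℓ ^ (2 * genusFF K F * k) := by
  obtain ⟨P⟩ : Nonempty (Place K F) := inferInstance
  obtain ⟨x, hx, hP, hne⟩ := H3S27.exists_only_pole P
  have hB := H3S27.isAffineRing_intRing P hx hP hne
  have hfd := IsFF.finiteDimensional (F := F) hx
  have hded := H94.isDedekindDomain_intRing (F := F) hx
  have hfrac := H94.isFractionRing_intRing (K := K) (F := F) (x := x)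
  have key := card_torsion_of_charZero (H3S27.isWeight hB) ℓ k
  rw [H3S27.genus_eq hB] at key
  obtain ⟨E⟩ := H3S27.nonempty_equiv hB
  rw [← key]
  refine Nat.card_congr (Equiv.subtypeEquiv (Multiplicative.ofAdd.trans E.toEquiv) ?_)
  intro z
  rw [Pic0.mem_torsion]
  simp only [Equiv.trans_apply, MulEquiv.toEquiv_eq_coe, EquivLike.coe_coe]
  rw [← map_pow, ← ofAdd_nsmul, natCast_zsmul]
  constructor
  · intro h
    rw [h, ofAdd_zero, map_one]
  · intro h
    rw [map_eq_one_iff _ E.injective] at h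
    exact h

end Main

section Red

open Fermat.Agent.H19 Fermat.Agent.H23

variable {K F k E : Type*} [Field K] [Field F] [Algebra K F] [Field k] [Field E] [Algebra k E]
variable [IsAlgClosed K] [IsAlgClosed k] [H94.FunField K F] [H94.FunField k E]
variable (S : GoodRed K F k E)

theorem redPic0_injective_torsion
    (hA : ∀ a b : S.A, a ≠ 0 → ¬ IsUnit b → ∃ n : ℕ, a ∣ b ^ n)
    {m : ℕ} (hm : (m : k) ≠ 0) {x : Pic0 K F} (hx : m • x = 0) (h0 : redPic0 S x = 0) : x = 0 := by
  have hPD : HasPrincipalDivisors K F := S.pdF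
  have hPDk : HasPrincipalDivisors k E := S.pdE
  obtain ⟨D, rfl⟩ := Pic0.mk_surjective x
  have h1 : Divisor.IsPrincipal (m • (D : Divisor K F)) := by
    have h2 : Pic0.mk (m • D) = 0 := hx
    rw [Pic0.mk, QuotientAddGroup.eq_zero_iff, AddSubgroup.mem_addSubgroupOf,
      AddSubgroup.coe_nsmul] at h2
    exact h2
  have h2 : Divisor.IsPrincipal (Finsupp.mapDomain S.r (D : Divisor K F)) := by
    rw [redPic0_mk, Pic0.mk, QuotientAddGroup.eq_zero_iff, AddSubgroup.mem_addSubgroupOf] at h0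
    exact h0
  have h3 := H18.isPrincipal_of_mapDomain (R := S.toReductionData) S.riemF S.riemE
    H94.deg_eq_one H94.deg_eq_one S.div_red hA (fun e he0 he =>
      H18.exists_eq_algebraMap_of_forall_ord_eq_zero he) hm _ h1 h2
  rw [Pic0.mk, QuotientAddGroup.eq_zero_iff, AddSubgroup.mem_addSubgroupOf]
  exact h3

include S in
theorem genusFF_eq_genusFF : genusFF K F = genusFF k E := by
  have h1 := genusFF_eq_of_riemannFor S.riemF
  have h2 := genusFF_eq_of_riemannFor S.riemE
  omega

/-- **T2**: reduction is bijective on the `ℓ^n`-torsion. -/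
theorem redPic0_surjective_torsion [CharZero K] (q : ℕ) [Fact q.Prime] [CharP k q]
    (hk : ∀ c : k, ∃ m, 0 < m ∧ c ^ q ^ m = c)
    (hA : ∀ a b : S.A, a ≠ 0 → ¬ IsUnit b → ∃ n : ℕ, a ∣ b ^ n)
    (ℓ : ℕ) [Fact ℓ.Prime] (hℓ : ℓ ≠ q) (n : ℕ) {y : Pic0 k E} (hy : ℓ ^ n • y = 0) :
    ∃ x : Pic0 K F, ℓ ^ n • x = 0 ∧ redPic0 S x = y := by
  have hℓk : ((ℓ ^ n : ℕ) : k) ≠ 0 := by
    rw [Nat.cast_pow]
    apply pow_ne_zero
    intro h
    rw [CharP.cast_eq_zero_iff k q] at h
    exact hℓ ((Nat.prime_dvd_prime_iff_eq Fact.out Fact.out).mp h).symm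
  let f : Pic0.torsion K F (ℓ ^ n) → Pic0.torsion k E (ℓ ^ n) := fun x =>
    ⟨redPic0 S x, by
      have h1 := x.2
      rw [Pic0.mem_torsion, natCast_zsmul] at h1
      rw [Pic0.mem_torsion, natCast_zsmul, ← map_nsmul, h1, map_zero]⟩
  have hinj : Function.Injective f := by
    intro x x' hxx
    have h1 : redPic0 S (x : Pic0 K F) = redPic0 S (x' : Pic0 K F) := congrArg Subtype.val hxx
    have h2 := x.2
    have h3 := x'.2
    rw [Pic0.mem_torsion, natCast_zsmul] at h2 h3
    apply Subtype.ext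
    rw [← sub_eq_zero]
    apply redPic0_injective_torsion S hA hℓk
    · rw [nsmul_sub, h2, h3, sub_zero]
    · rw [map_sub, h1, sub_self]
  have hc1 := card_torsion_char0 K F ℓ n
  have hc2 := card_torsion_charP k E q hk ℓ hℓ n
  rw [genusFF_eq_genusFF S] at hc1
  have hpos : 0 < ℓ ^ (2 * genusFF k E * n) := pow_pos (Fact.out : ℓ.Prime).pos _
  have hfin1 : Finite (Pic0.torsion K F (ℓ ^ n)) := Nat.finite_of_card_ne_zero (by omega)
  have hfin2 : Finite (Pic0.torsion k E (ℓ ^ n)) := Nat.finite_of_card_ne_zero (by omega)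
  have hbij : Function.Bijective f :=
    (Nat.bijective_iff_injective_and_card f).mpr ⟨hinj, by rw [hc1, hc2]⟩
  obtain ⟨x, hx⟩ := hbij.2 ⟨y, by rw [Pic0.mem_torsion, natCast_zsmul, hy]⟩
  refine ⟨x, ?_, congrArg Subtype.val hx⟩
  have h2 := x.2
  rwa [Pic0.mem_torsion, natCast_zsmul] at h2

/-- **T2, function form**. -/
theorem exists_lift_of_dvd [CharZero K] (q : ℕ) [Fact q.Prime] [CharP k q]
    (hk : ∀ c : k, ∃ m, 0 < m ∧ c ^ q ^ m = c)
    (hA : ∀ a b : S.A, a ≠ 0 → ¬ IsUnit b → ∃ n : ℕ, a ∣ b ^ n)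
    (ℓ : ℕ) [Fact ℓ.Prime] (hℓ : ℓ ≠ q) (n : ℕ) {f : E} (hf : f ≠ 0)
    (hdvd : ∀ w : Place k E, ((ℓ ^ n : ℕ) : ℤ) ∣ w.ord f) :
    ∃ (D : Divisor.degZero (K := K) (F := F)) (g : S.B) (c : E), (g : F) ≠ 0 ∧ c ≠ 0 ∧
      (∀ v : Place K F, v.ord (g : F) = ((ℓ ^ n : ℕ) : ℤ) * (D : Divisor K F) v) ∧
      S.ρ g = f * c ^ (ℓ ^ n) := by
  classical
  set d : ℕ := ℓ ^ n with hd
  have hdpos : 0 < d := pow_pos (Fact.out : ℓ.Prime).pos _
  obtain ⟨Δ, hΔ, hΔ0⟩ := S.pdE.exists_divisor f hf
  -- the divisor `Δ / d`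
  have hq : ∀ w, ((d : ℕ) : ℤ) * (Δ w / d) = Δ w := fun w =>
    Int.mul_ediv_cancel' (by rw [hΔ w]; exact hdvd w)
  let D₀ : Divisor k E := Finsupp.mapRange (fun z : ℤ => z / d) (by simp) Δ
  have hD₀ : ∀ w, ((d : ℕ) : ℤ) * D₀ w = w.ord f := by
    intro w
    rw [← hΔ w, ← hq w]
    simp [D₀, Finsupp.mapRange_apply]
  have hdD₀ : (d : ℕ) • D₀ = Δ := by
    ext w
    rw [Finsupp.smul_apply, nsmul_eq_mul, hD₀, hΔ]
  have hdeg : Divisor.degree D₀ = 0 := by
    have h1 : Divisor.degree ((d : ℕ) • D₀) = 0 := by rw [hdD₀]; exact hΔ0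
    rw [map_nsmul, nsmul_eq_mul] at h1
    rcases mul_eq_zero.mp h1 with h | h
    · exfalso
      have : d = 0 := by exact_mod_cast h
      omega
    · exact h
  let D₁ : Divisor.degZero (K := k) (F := E) := ⟨D₀, by rw [Divisor.mem_degZero]; exact hdeg⟩
  have hy : d • Pic0.mk D₁ = 0 := by
    have : d • Pic0.mk D₁ = Pic0.mk (d • D₁) := rfl
    rw [this, Pic0.mk, QuotientAddGroup.eq_zero_iff, AddSubgroup.mem_addSubgroupOf,
      AddSubgroup.coe_nsmul]
    show d • D₀ ∈ _
    rw [hdD₀, Divisor.mem_principal]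
    exact ⟨f, hf, hΔ⟩
  obtain ⟨x, hx, hxy⟩ := redPic0_surjective_torsion S q hk hA ℓ hℓ n hy
  obtain ⟨D, rfl⟩ := Pic0.mk_surjective x
  -- the function of `D`
  have h1 : Divisor.IsPrincipal (d • (D : Divisor K F)) := by
    have h2 : Pic0.mk (d • D) = 0 := hx
    rw [Pic0.mk, QuotientAddGroup.eq_zero_iff, AddSubgroup.mem_addSubgroupOf,
      AddSubgroup.coe_nsmul] at h2
    exact h2
  obtain ⟨g₀, hg₀, hdiv⟩ := h1
  obtain ⟨a, ha, g, hg, hρ, hred⟩ := exists_scale_div S hg₀
  have hgF : (g : F) ≠ 0 := S.ne_zero_of_ρ_ne_zero hρ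
  have hgord : ∀ v : Place K F, v.ord (g : F) = ((d : ℕ) : ℤ) * (D : Divisor K F) v := by
    intro v
    rw [hg, Algebra.smul_def, v.ord_mul (by simpa using ha) hg₀, H40.ord_algebraMap, zero_add,
      ← hdiv v, Finsupp.smul_apply, nsmul_eq_mul]
  -- compare classes
  rw [redPic0_mk, Pic0_mk_eq_mk_iff, coe_redDegZero] at hxy
  obtain ⟨e, he, hediv⟩ := hxy
  have hred' : ∀ w : Place k E, w.ord (S.ρ g) = ((d : ℕ) : ℤ) *
      (Finsupp.mapDomain S.r (D : Divisor K F)) w := by
    intro w
    rw [← hred (d • (D : Divisor K F)) (fun v => hdiv v) w]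
    have : Finsupp.mapDomain S.r (d • (D : Divisor K F)) =
        d • Finsupp.mapDomain S.r (D : Divisor K F) := by
      rw [← Finsupp.mapDomain.addMonoidHom_apply, map_nsmul]
      rfl
    rw [this, Finsupp.smul_apply, nsmul_eq_mul]
  have h5 : ∀ w : Place k E, w.ord (S.ρ g * (f * (e⁻¹) ^ d)⁻¹) = 0 := by
    intro w
    have h6 : D₀ w - (Finsupp.mapDomain S.r (D : Divisor K F)) w = w.ord e := hediv w
    have he' : e⁻¹ ^ d ≠ 0 := pow_ne_zero _ (inv_ne_zero he)
    rw [w.ord_mul hρ (inv_ne_zero (mul_ne_zero hf he')), w.ord_inv, w.ord_mul hf he',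
      ← zpow_natCast (e⁻¹) d, w.ord_zpow, w.ord_inv, hred' w, ← hD₀ w, ← h6]
    ring
  obtain ⟨b, hb⟩ := H18.exists_eq_algebraMap_of_forall_ord_eq_zero h5
  have hb0 : b ≠ 0 := by
    rintro rfl
    rw [map_zero, mul_eq_zero] at hb
    rcases hb with h | h
    · exact hρ h
    · exact inv_ne_zero (mul_ne_zero hf (pow_ne_zero _ (inv_ne_zero he))) h
  obtain ⟨z, hz⟩ := IsAlgClosed.exists_pow_nat_eq b hdpos
  have hz0 : z ≠ 0 := by
    rintro rfl
    rw [zero_pow hdpos.ne'] at hz
    exact hb0 hz.symm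
  refine ⟨D, g, algebraMap k E z * e⁻¹, hgF, mul_ne_zero (by simpa using hz0) (inv_ne_zero he),
    hgord, ?_⟩
  have h7 : S.ρ g = algebraMap k E b * (f * (e⁻¹) ^ d) := by
    rw [← hb, mul_assoc, inv_mul_cancel₀ (mul_ne_zero hf (pow_ne_zero _ (inv_ne_zero he))),
      mul_one]
  rw [h7, ← hz, map_pow]
  ring

end Red

section Residue

/-- Elements of the residue field at a place over `q` are fixed by a power of Frobenius. -/
theorem exists_pow_q_pow {L : Type*} [Field L] [Algebra ℚ L] [Algebra.IsAlgebraic ℚ L]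
    (A : ValuationSubring L) {q : ℕ} [Fact q.Prime] (hA : A.LiesOverPrime q)
    {k : Type*} [Field k] (π : A →+* k) [IsLocalHom π] (hπ : Function.Surjective π) (c : k) :
    ∃ m, 0 < m ∧ c ^ q ^ m = c := by
  rcases eq_or_ne c 0 with rfl | hc
  · exact ⟨1, one_pos, by rw [zero_pow (pow_ne_zero _ (Fact.out : q.Prime).ne_zero)]⟩
  obtain ⟨n, hn, hcop, h1⟩ := H1.exists_pow_eq_one_residue A hA π hπ c hc
  have hn1 : 1 ≤ n := hn
  refine ⟨n.totient, Nat.totient_pos.mpr hn, ?_⟩
  have h2 := Nat.ModEq.pow_totient hcop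
  have h3 : n ∣ q ^ n.totient - 1 :=
    (Nat.modEq_iff_dvd' (Nat.one_le_pow _ _ (Fact.out : q.Prime).pos)).mp h2.symm
  obtain ⟨m, hm⟩ := h3
  have h4 : q ^ n.totient = n * m + 1 := by
    have := Nat.one_le_pow n.totient q (Fact.out : q.Prime).pos
    omega
  rw [h4, pow_succ, pow_mul, h1, one_pow, one_mul]

end Residue

end Fermat.Agent.H38.Mz
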