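import Mathlib
import Fermat.Agent.H61Valence

set_option autoImplicit false

namespace Fermat.Agent.H38

open UpperHalfPlane hiding I
open ModularForm Complex Real Filter Topology MatrixGroups EisensteinSeries Derivative
open scoped Manifold ModularForm Topology
open Fermat.Agent.H61

local notation "𝕢" => Function.Periodic.qParam

/-- The function `D E₂ - E₂² / 12`. -/
noncomputable def e2Aux : ℍ → ℂ := fun τ => normalizedDerivOfComplex E2 τ - (12 : ℂ)⁻¹ * E2 τ ^ 2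

/-- the factor `c / (c z + d)` -/
noncomputable def uAux (γ : SL(2, ℤ)) : ℍ → ℂ := fun z => (γ 1 0 : ℂ) / denom γ z

lemma hasDerivAt_uAux (γ : SL(2, ℤ)) (z : ℍ) :
    HasDerivAt (uAux γ ∘ ofComplex) (-(uAux γ z) ^ 2) (z : ℂ) := by
  have h := (hasDerivAt_denom_zpow (γ : GL (Fin 2) ℝ) (-1) z).const_mul (γ 1 0 : ℂ)
  have h2 : (uAux γ ∘ ofComplex) =ᶠ[𝓝 (z : ℂ)]
      fun w : ℂ => (γ 1 0 : ℂ) * (denom (γ : GL (Fin 2) ℝ) w) ^ (-1 : ℤ) := by
    filter_upwards [isOpen_upperHalfPlaneSet.mem_nhds z.im_pos] with w hw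
    simp only [Function.comp_apply, uAux]
    rw [ofComplex_apply_of_im_pos hw, zpow_neg_one]
    rfl
  refine (h.congr_of_eventuallyEq h2).congr_deriv ?_
  have hz := denom_ne_zero (γ : GL (Fin 2) ℝ) z
  have h10 : (((γ : GL (Fin 2) ℝ) 1 0 : ℝ) : ℂ) = ((γ 1 0 : ℤ) : ℂ) := by simp
  rw [h10]
  simp only [uAux]
  rw [show (-1 : ℤ) - 1 = -2 by norm_num, zpow_neg]
  push_cast
  field_simp

lemma mdiff_uAux (γ : SL(2, ℤ)) : MDiff (uAux γ) := by
  intro z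
  rw [UpperHalfPlane.mdifferentiableAt_iff]
  exact (hasDerivAt_uAux γ z).differentiableAt

lemma deriv_uAux (γ : SL(2, ℤ)) (z : ℍ) :
    normalizedDerivOfComplex (uAux γ) z = -(2 * π * I)⁻¹ * (uAux γ z) ^ 2 := by
  rw [normalizedDerivOfComplex, (hasDerivAt_uAux γ z).deriv]
  ring

lemma E2_slash_eq (γ : SL(2, ℤ)) :
    (E2 ∣[(2 : ℤ)] γ) = E2 + (12 * (2 * π * I)⁻¹) • uAux γ := by
  ext z
  have hpi : (π : ℂ) ≠ 0 := by exact_mod_cast Real.pi_ne_zero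
  rw [E2_slash_action]
  simp only [Pi.sub_apply, Pi.smul_apply, Pi.add_apply, smul_eq_mul, uAux, D2, riemannZeta_two]
  have hz := denom_ne_zero (γ : GL (Fin 2) ℝ) z
  field_simp
  linear_combination (-12 * ((γ 1 0 : ℤ) : ℂ)) * Complex.I_sq

lemma e2Aux_slash (γ : SL(2, ℤ)) : e2Aux ∣[(4 : ℤ)] γ = e2Aux := by
  ext z
  have h1 := congrFun (normalizedDerivOfComplex_SL_slash (k := 2) E2_mdifferentiable (γ := γ)) z
  rw [E2_slash_eq, normalizedDerivOfComplex_add _ _ E2_mdifferentiable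
    ((mdiff_uAux γ).const_smul _), normalizedDerivOfComplex_smul _ _ (mdiff_uAux γ)] at h1
  have hsq : (E2 ^ 2 : ℍ → ℂ) ∣[(4 : ℤ)] γ = (E2 ∣[(2 : ℤ)] γ) ^ 2 := by
    have := mul_slash_SL2 2 2 γ E2 E2
    rw [pow_two, pow_two, ← this]
    rfl
  have h2 : e2Aux = normalizedDerivOfComplex E2 - (12 : ℂ)⁻¹ • (E2 ^ 2 : ℍ → ℂ) := by
    ext z; simp [e2Aux]
  rw [h2, sub_eq_add_neg, SlashAction.add_slash, SlashAction.neg_slash, SL_smul_slash, hsq,
    E2_slash_eq]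
  simp only [Pi.add_apply, Pi.sub_apply, Pi.neg_apply, Pi.smul_apply, Pi.pow_apply, smul_eq_mul,
    deriv_uAux] at h1 ⊢
  have h3 : ((2 : ℤ) + 2) = 4 := by norm_num
  rw [h3] at h1
  have h4 : ((γ 1 0 : ℤ) : ℂ) / denom γ z = uAux γ z := rfl
  rw [h4] at h1
  push_cast at h1
  linear_combination (-1 : ℂ) * h1

lemma e2Aux_eq : e2Aux = normalizedDerivOfComplex E2 - (12 : ℂ)⁻¹ • (E2 ^ 2 : ℍ → ℂ) := by
  ext z; simp [e2Aux]

lemma e2Aux_mdiff : MDiff e2Aux := by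
  rw [e2Aux_eq]
  exact (normalizedDerivOfComplex_mdifferentiable E2_mdifferentiable).sub
    ((E2_mdifferentiable.pow 2).const_smul _)

lemma tendsto_e2Aux : Tendsto e2Aux atImInfty (𝓝 (-(12 : ℂ)⁻¹)) := by
  have h1 := tendsto_normalizedDeriv_atImInfty E2_periodic E2_mdifferentiable isBoundedAtImInfty_E2
  have h2 := h1.sub ((tendsto_E2.pow 2).const_mul ((12 : ℂ)⁻¹))
  have h3 : (0 : ℂ) - 12⁻¹ * 1 ^ 2 = -(12 : ℂ)⁻¹ := by norm_num
  rw [h3] at h2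
  exact h2

/-- `D E₂ - E₂² / 12` as a level one modular form of weight `4`. -/
noncomputable def e2Form : ModularForm 𝒮ℒ 4 where
  toFun := e2Aux
  slash_action_eq' := by
    rintro _ ⟨γ, rfl⟩
    exact e2Aux_slash γ
  holo' := e2Aux_mdiff
  bdd_at_cusps' {c} hc := by
    rw [Subgroup.IsArithmetic.isCusp_iff_isCusp_SL2Z] at hc
    rw [OnePoint.isBoundedAt_iff_forall_SL2Z hc]
    intro γ _
    change IsBoundedAtImInfty (e2Aux ∣[(4 : ℤ)] γ)
    rw [e2Aux_slash]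
    exact tendsto_e2Aux.isBigO_one ℝ

/-- Ramanujan's identity `D E₂ = (E₂² - E₄) / 12`. -/
theorem deriv_E2 (τ : ℍ) : normalizedDerivOfComplex E2 τ = (E2 τ ^ 2 - E₄ τ) / 12 := by
  have h := eq_smul_of_rank_one finrank_four E₄ e2Form tendsto_E₄ tendsto_e2Aux τ
  have h2 : e2Form τ = normalizedDerivOfComplex E2 τ - (12 : ℂ)⁻¹ * E2 τ ^ 2 := rfl
  rw [h2] at h
  linear_combination h

end Fermat.Agent.H38
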