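import Fermat.Agent.H33Kummer
import Fermat.Agent.H38DvC
import Fermat.Agent.H38DvD
import Fermat.Agent.H39Core
import Fermat.Agent.H61L5C
import Fermat.Agent.H62NE

/-!
# Row 38: from the node analysis to residual modularity (helper38)
-/

set_option autoImplicit false
set_option linter.unusedSectionVars false
set_option maxHeartbeats 1000000
set_option synthInstance.maxHeartbeats 200000

noncomputable section

open AlgebraicCurve ModularCurve IntermediateField WithZero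
open Fermat.Agent.H97 Fermat.Agent.H97.Sheets Fermat.Agent.H34.Two Fermat.Agent.H61.Nd
open Fermat.Agent.H28 Fermat.Agent.H61.L5

namespace Fermat.Agent.H38.S44

local notation "Qb" => AlgebraicClosure ℚ

variable {A : ValuationSubring Qb}


theorem exists_deg {p M₀ M : ℕ} (hp : p.Prime) (hp5 : 5 ≤ p) [NeZero M₀] (h : M₀ ∣ M)
    (h4 : M ∣ 4 * M₀) : ∃ d, dedekindPsi M = d * dedekindPsi M₀ ∧ ¬ p ∣ d := by
  have hM₀ : M₀ ≠ 0 := NeZero.ne M₀
  obtain ⟨d, hd⟩ : ∃ d, dedekindPsi M = d * dedekindPsi M₀ := by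
    obtain ⟨t, rfl⟩ := h
    have ht : t ∣ 4 := by
      rw [mul_comm 4] at h4
      exact Nat.dvd_of_mul_dvd_mul_left (Nat.pos_of_ne_zero hM₀) h4
    have ht' : t ∈ Nat.divisors 4 := Nat.mem_divisors.mpr ⟨ht, by norm_num⟩
    have h4' : Nat.divisors 4 = {1, 2, 4} := by decide
    rw [h4'] at ht'
    simp only [Finset.mem_insert, Finset.mem_singleton] at ht'
    rcases ht' with rfl | rfl | rfl
    · exact ⟨1, by rw [mul_one, one_mul]⟩
    · exact ⟨_, H67.dedekindPsi_mul_prime hM₀ Nat.prime_two⟩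
    · have e4 : M₀ * 4 = M₀ * 2 * 2 := by ring
      rw [e4, H67.dedekindPsi_mul_prime (mul_ne_zero hM₀ two_ne_zero) Nat.prime_two,
        H67.dedekindPsi_mul_prime hM₀ Nat.prime_two, ← mul_assoc]
      exact ⟨_, rfl⟩
  refine ⟨d, hd, ?_⟩
  exact Dv.not_dvd_of_psi hp hp5 h h4 d (by rw [hd, mul_comm])

section Red

variable {m q : ℕ} [NeZero m] [NeZero q] [hq : Fact q.Prime]
  [CharP (IsLocalRing.ResidueField A) q] [IsAlgClosed (IsLocalRing.ResidueField A)] [Infinite (IsLocalRing.ResidueField A)] (w : H99.AL Qb m q)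
  (hπ : Function.Surjective (IsLocalRing.residue A))
  (hdeg : H42.DegLE Qb (IsLocalRing.ResidueField A) m) (hqm : ¬ q ∣ m)

/-- The reduction on the first component is the reduction of the expansion. -/
theorem red_of_v1 {f : H99.FX Qb (m * q)}
    (hf : v1 A (IsLocalRing.residue A) w hπ (H42.degreeFact Qb) hdeg hqm f ≤ 1) :
    H38.Mz.Red A (IsLocalRing.residue A) (f : LaurentSeries Qb)
      (((comp1 A (IsLocalRing.residue A) w hπ (H42.degreeFact Qb) hdeg hqm).red f : modularFunctionFieldFullC (IsLocalRing.ResidueField A) m) :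
        LaurentSeries (IsLocalRing.ResidueField A)) := by
  have hV := (compVal_le_one_iff hπ _).mp hf
  rw [comp1_V] at hV
  obtain ⟨y, z, hz, hyz⟩ := (mem_locL_iff A (IsLocalRing.residue A)).mp hV
  refine ⟨y, z, hz, hyz, ?_⟩
  rw [coe_red1]
  exact red_gaussComp_mul A (IsLocalRing.residue A) (isQuot_FX (m * q)) hz hyz

end Red

/-- **Row 38, glue.** -/
theorem resModular_of_core {W : WeierstrassCurve ℤ} {p : Nat.Primes} [hp : Fact (p : ℕ).Prime]
    [NeZero (p : ℕ)] (hp5 : 5 ≤ (p : ℕ)) (hA : A.LiesOverPrime p)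
    (hΔ : W.Δ ≠ 0) (hirr : W.ModRepIsIrreducible p)
    {M₀ M : ℕ} [NeZero M₀] [NeZero M] [NeZero (M₀ * p)] [NeZero (M * p)]
    (hM₀ : Squarefree M₀) (hdvd : M₀ ∣ M) (h4 : M ∣ 4 * M₀) (h4M : 4 ∣ M) (hpM : ¬ (p : ℕ) ∣ M)
    {S : Set ℕ}
    (hS : ∀ ℓ : ℕ, ℓ.Prime → W.IsGoodPrimeFor ℓ → ¬ ℓ ∣ M₀ → ℓ ≠ p → ℓ ∉ S)
    (E₀ : NewEmb W p M₀ S)
    [CharP (IsLocalRing.ResidueField A) p] [IsAlgClosed (IsLocalRing.ResidueField A)] [Infinite (IsLocalRing.ResidueField A)] (w : H99.AL Qb M p)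
    (hπ : Function.Surjective (IsLocalRing.residue A)) (hdeg : H42.DegLE Qb (IsLocalRing.ResidueField A) M) (arch : Arch A)
    (r : Place Qb (H99.FX Qb M) → Place (IsLocalRing.ResidueField A) (modularFunctionFieldFullC (IsLocalRing.ResidueField A) M))
    {c : ℕ}
    (hr1 : ∀ D : Divisor Qb (H99.FX Qb M), (c : ℤ) < Divisor.degree D →
      (H42.modReductionData A (IsLocalRing.residue A) M hπ hdeg).IsRed D (Finsupp.mapDomain r D))
    (hr2 : H34.GR.DivCompat (H42.modReductionData A (IsLocalRing.residue A) M hπ hdeg) r)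
    [H3RR.IsFF Qb (H99.FX Qb M)] [H3RR.IsFF Qb (H99.FX Qb (M * p))]
    [H3RR.IsFF (IsLocalRing.ResidueField A) (modularFunctionFieldFullC (IsLocalRing.ResidueField A) M)] [H94.FunField Qb (H99.FX Qb M)]
    [H94.FunField Qb (H99.FX Qb (M * p))]
    {z : H39.Tor W p} {u₀ : H99.FX Qb (M₀ * p)} (hu₀ : H33.IsKum p (E₀.ι z) u₀) {a : Qb}
    {u : H99.FX Qb (M * p)}
    (hu : (u : LaurentSeries Qb) = algebraMap Qb (LaurentSeries Qb) a * (u₀ : LaurentSeries Qb))
    (hv : (sheets w hπ hdeg hpM arch r hr1 hr2).v false u = 1)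
    (hnode : ∀ s s', (sheets w hπ hdeg hpM arch r hr1 hr2).Node s →
      (sheets w hπ hdeg hpM arch r hr1 hr2).Node s' →
        ((p : ℕ) : ℤ) ∣ s.ord ((sheets w hπ hdeg hpM arch r hr1 hr2).ρ false u) -
          s'.ord ((sheets w hπ hdeg hpM arch r hr1 hr2).ρ false u))
    (hsm : ∀ s, ¬ (sheets w hπ hdeg hpM arch r hr1 hr2).Node s →
      ((p : ℕ) : ℤ) ∣ s.ord ((sheets w hπ hdeg hpM arch r hr1 hr2).ρ false u))
    (hpow : ∀ h : modularFunctionFieldFullC (IsLocalRing.ResidueField A) M,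
      (sheets w hπ hdeg hpM arch r hr1 hr2).ρ false u ≠ h ^ (p : ℕ)) :
    W.IsResiduallyModularOfLevel p M₀ := by
  obtain ⟨hu₀0, D, hD, hord⟩ := hu₀
  obtain ⟨ub, hub⟩ := Dv.exists_ubar w hπ hdeg hpM arch r hr1 hr2
  obtain ⟨n, hn⟩ := Dv.exists_dvd_ord w hπ hdeg hpM H67.embQbar (Or.inl rfl) h4M arch r hr1 hr2
    hnode hsm hub
  obtain ⟨d, hd, hpd⟩ := exists_deg (p := p) p.2 hp5 hdvd h4
  have hred := red_of_v1 w hπ hdeg hpM (f := u) (le_of_eq hv)
  rw [hu] at hred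
  have hρ0 : (sheets w hπ hdeg hpM arch r hr1 hr2).ρ false u ≠ 0 :=
    ((sheets w hπ hdeg hpM arch r hr1 hr2).comp false).ρ_ne_zero hv
  obtain ⟨ℓ, hℓ, hgood, hℓM, hℓp, -, hne⟩ := H62.ne2 hΔ (p := p) (by omega) hirr
    (B := M₀) (Nat.pos_of_ne_zero (NeZero.ne M₀)) (M := 1) one_pos
  refine H39.isResiduallyModularOfLevel_of_gbar (p := p) hA hM₀ hdvd hpM hd hpd (D := D)
    (u := u₀) hu₀0 (fun v => (hord v).symm) (fun ℓ hℓ hg hℓM hℓp => ?_) (c := a)
    (gb := (sheets w hπ hdeg hpM arch r hr1 hr2).ρ false u) hρ0 hred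
    (fun h hh => hpow h hh.symm) hub (a := 12) (b := n) ?_ hn
    ⟨ℓ, hℓ, hgood, hℓM, hℓp, hne⟩
  · have h1 := E₀.hecke ⟨ℓ, hℓ⟩ (hS ℓ hℓ hg hℓM hℓp) z
    rw [← hD] at h1
    exact h1
  · intro h12
    have h1 : (p : ℕ) ∣ 12 := by exact_mod_cast h12
    have h2 : (12 : ℕ) = 2 ^ 2 * 3 := by norm_num
    rw [h2] at h1
    rcases (p.2.dvd_mul).mp h1 with h3 | h3
    · have := Nat.le_of_dvd (by norm_num) (p.2.dvd_of_dvd_pow h3)
      omega
    · have := Nat.le_of_dvd (by norm_num) h3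
      omega

end Fermat.Agent.H38.S44
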