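import Mathlib
import Fermat.Agent.H38Ramanujan
import Fermat.Agent.H28Jq
import Fermat.Prelude.Def_ModularCurve_LaurentCoeff

/-!
# The derivation `θ = q d/dq` on Laurent series and Ramanujan's identities with integral
coefficients
-/

set_option autoImplicit false

noncomputable section

open UpperHalfPlane hiding I
open ModularCurve Complex HahnSeries

namespace Fermat.Agent.H38

open Fermat.Agent.H28

local notation "𝕢" => Function.Periodic.qParam

section Theta

variable (R : Type*) [CommRing R]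

/-- coefficientwise multiplication by the exponent -/
def thetaFun (f : LaurentSeries R) : LaurentSeries R where
  coeff n := n • f.coeff n
  isPWO_support' := f.isPWO_support.mono fun n hn => by
    simp only [Function.mem_support, ne_eq] at hn
    simp only [HahnSeries.mem_support]
    intro h
    rw [h, smul_zero] at hn
    exact hn rfl

/-- The derivation `θ = q d/dq` on Laurent series. -/
def theta : LaurentSeries R →+ LaurentSeries R where
  toFun := thetaFun R
  map_zero' := by
    ext n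
    simp [thetaFun]
  map_add' x y := by
    ext n
    simp [thetaFun]

@[simp]
theorem theta_coeff (f : LaurentSeries R) (n : ℤ) : (theta R f).coeff n = (n : R) * f.coeff n := by
  have : (theta R f).coeff n = (thetaFun R f).coeff n := rfl
  rw [this]
  simp [thetaFun]

theorem theta_mul (x y : LaurentSeries R) :
    theta R (x * y) = x * theta R y + y * theta R x := by
  have hx : (theta R x).support ⊆ x.support := fun n hn => by
    simp only [HahnSeries.mem_support, theta_coeff] at hn ⊢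
    intro h
    rw [h, mul_zero] at hn
    exact hn rfl
  have hy : (theta R y).support ⊆ y.support := fun n hn => by
    simp only [HahnSeries.mem_support, theta_coeff] at hn ⊢
    intro h
    rw [h, mul_zero] at hn
    exact hn rfl
  ext n
  rw [mul_comm y (theta R x), HahnSeries.coeff_add,
    HahnSeries.coeff_mul_right' y.isPWO_support hy,
    HahnSeries.coeff_mul_left' x.isPWO_support hx, theta_coeff, HahnSeries.coeff_mul,
    Finset.mul_sum, ← Finset.sum_add_distrib]
  refine Finset.sum_congr rfl fun ij hij => ?_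
  rw [Finset.mem_antidiagonal] at hij
  obtain ⟨_, _, h⟩ := hij
  simp only [theta_coeff, ← h]
  push_cast
  ring

@[simp]
theorem theta_C (r : R) : theta R (HahnSeries.C r) = 0 := by
  ext n
  rw [theta_coeff, HahnSeries.C_apply, HahnSeries.coeff_single]
  split_ifs with h
  · simp [h]
  · simp

@[simp]
theorem theta_one : theta R 1 = 0 := by
  rw [← HahnSeries.C_one]
  exact theta_C R 1

theorem theta_pow (x : LaurentSeries R) (n : ℕ) :
    theta R (x ^ (n + 1)) = (n + 1) * x ^ n * theta R x := by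
  induction n with
  | zero => simp
  | succ n ih =>
    rw [pow_succ, theta_mul, ih]
    push_cast
    ring

theorem theta_eval₂ (P : Polynomial R) (x : LaurentSeries R) :
    theta R (P.eval₂ HahnSeries.C x) = P.derivative.eval₂ HahnSeries.C x * theta R x := by
  induction P using Polynomial.induction_on' with
  | add p q hp hq => rw [Polynomial.eval₂_add, map_add, hp, hq, Polynomial.derivative_add,
      Polynomial.eval₂_add, add_mul]
  | monomial n a =>
    rw [Polynomial.eval₂_monomial, theta_mul, theta_C, mul_zero, add_zero,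
      Polynomial.derivative_monomial, Polynomial.eval₂_monomial]
    cases n with
    | zero => simp
    | succ n =>
      rw [theta_pow, Nat.add_sub_cancel, map_mul, map_natCast]
      push_cast
      ring

variable {R}

theorem theta_coeffMap {S : Type*} [CommRing S] (φ : R →+* S) (f : LaurentSeries R) :
    theta S (coeffMap φ f) = coeffMap φ (theta R f) := by
  ext n
  simp

end Theta

section Analytic

open Derivative

theorem HasExp.deriv {f : ℍ → ℂ} {a : LaurentSeries ℂ} (ha : HasExp 1 f a) :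
    HasExp 1 (normalizedDerivOfComplex f) (theta ℂ a) := by
  intro τ
  have hy : 0 < τ.im := τ.im_pos
  set U : Set ℂ := {z : ℂ | τ.im / 2 < z.im ∧ z.im < 2 * τ.im} with hU
  have hUo : IsOpen U := (isOpen_lt continuous_const Complex.continuous_im).inter
    (isOpen_lt Complex.continuous_im continuous_const)
  have hτU : (τ : ℂ) ∈ U := ⟨by simpa using half_lt_self hy, by
    show τ.im < 2 * τ.im
    linarith⟩
  set F : ℤ → ℂ → ℂ := fun n z => a.coeff n * (𝕢 1 z) ^ n with hF
  let z1 : ℍ := ⟨⟨0, τ.im / 2⟩, by simpa using hy⟩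
  let z2 : ℍ := ⟨⟨0, 2 * τ.im⟩, by simpa using hy⟩
  have hnorm : ∀ z : ℂ, ‖𝕢 1 z‖ = Real.exp (-2 * Real.pi * z.im) := by
    intro z
    rw [Function.Periodic.norm_qParam]
    simp
  set u : ℤ → ℝ := fun n => ‖a.coeff n * (𝕢 1 z1) ^ n‖ + ‖a.coeff n * (𝕢 1 z2) ^ n‖ with hu
  have hus : Summable u := (ha z1).summable.norm.add (ha z2).summable.norm
  have hd : ∀ n : ℤ, ∀ z : ℂ, HasDerivAt (F n) (a.coeff n * (n * (2 * Real.pi * I) *
      (𝕢 1 z) ^ n)) z := by
    intro n z
    have h1 : HasDerivAt (fun z : ℂ => 𝕢 1 z) (2 * Real.pi * Complex.I * 𝕢 1 z) z := by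
      have : HasDerivAt (fun z : ℂ => Complex.exp (2 * Real.pi * Complex.I * z))
          (Complex.exp (2 * Real.pi * Complex.I * z) * (2 * Real.pi * Complex.I)) (z : ℂ) := by
        simpa using ((hasDerivAt_id (z : ℂ)).const_mul (2 * Real.pi * Complex.I)).cexp
      simpa [Function.Periodic.qParam, mul_comm] using this
    have h2 := (hasDerivAt_zpow n (𝕢 1 z) (Or.inl (qParam_ne_zero' 1 z))).comp z h1
    refine (h2.const_mul (a.coeff n)).congr_deriv ?_
    rw [zpow_sub_one₀ (qParam_ne_zero' 1 z)]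
    field_simp [qParam_ne_zero' 1 z]
  have hle : ∀ (n : ℤ) (w : ℂ), w ∈ U → ‖F n w‖ ≤ u n := by
    intro n w hw
    have key : ‖(𝕢 1 w) ^ n‖ ≤ ‖(𝕢 1 z1) ^ n‖ + ‖(𝕢 1 z2) ^ n‖ := by
      have e1 : ∀ z : ℂ, ‖(𝕢 1 z) ^ n‖ = Real.exp (n * (-2 * Real.pi * z.im)) := by
        intro z
        rw [norm_zpow, hnorm, ← Real.rpow_intCast, ← Real.exp_mul, mul_comm]
      rw [e1, e1, e1]
      have hz1 : (z1 : ℂ).im = τ.im / 2 := rfl
      have hz2 : (z2 : ℂ).im = 2 * τ.im := rfl
      rw [hz1, hz2]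
      have hpi := Real.pi_pos
      rcases le_total 0 n with hn | hn
      · have hn' : (0 : ℝ) ≤ n := by exact_mod_cast hn
        refine le_add_of_le_of_nonneg (Real.exp_le_exp.2 ?_) (Real.exp_pos _).le
        have := mul_nonneg hn' hpi.le
        nlinarith [hw.1]
      · have hn' : (n : ℝ) ≤ 0 := by exact_mod_cast hn
        refine le_add_of_nonneg_of_le (Real.exp_pos _).le (Real.exp_le_exp.2 ?_)
        have := mul_nonneg (neg_nonneg.2 hn') hpi.le
        nlinarith [hw.2]
    simp only [hF, hu, norm_mul]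
    rw [← mul_add]
    exact mul_le_mul_of_nonneg_left key (norm_nonneg _)
  have h := hasSum_deriv_of_summable_norm hus
    (fun n z _ => (hd n z).differentiableAt.differentiableWithinAt) hUo hle hτU
  have heq : (f ∘ ofComplex) =ᶠ[nhds (τ : ℂ)] fun w : ℂ => ∑' n : ℤ, F n w := by
    filter_upwards [hUo.mem_nhds hτU] with w hw
    have hw0 : 0 < w.im := lt_trans (half_pos hy) hw.1
    rw [Function.comp_apply, ofComplex_apply_of_im_pos hw0]
    exact ((ha ⟨w, hw0⟩).tsum_eq).symm
  show HasSum (fun n : ℤ => (theta ℂ a).coeff n * (𝕢 1 τ) ^ n) _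
  rw [normalizedDerivOfComplex, heq.deriv_eq]
  have h3 := h.mul_left ((2 * Real.pi * I : ℂ)⁻¹)
  have h4 : (fun n : ℤ => (theta ℂ a).coeff n * (𝕢 1 τ) ^ n) =
      fun n : ℤ => (2 * Real.pi * I : ℂ)⁻¹ * _root_.deriv (F n) τ := by
    funext n
    rw [(hd n τ).deriv, theta_coeff]
    have hpi : (Real.pi : ℂ) ≠ 0 := by exact_mod_cast Real.pi_ne_zero
    field_simp
  rw [h4]
  exact h3

theorem ofPowerSeries_coeff_natCast {R : Type*} [CommRing R] (p : PowerSeries R) (n : ℕ) :
    (HahnSeries.ofPowerSeries ℤ R p).coeff (n : ℤ) = p.coeff n :=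
  HahnSeries.ofPowerSeries_apply_coeff p n

/-- the integral power series of `E₆` -/
def eisenstein6 : PowerSeries ℤ :=
  PowerSeries.mk fun n => if n = 0 then 1 else -504 * ∑ d ∈ n.divisors, (d : ℤ) ^ 5

/-- the integral power series of `E₂` -/
def eisenstein2 : PowerSeries ℤ :=
  PowerSeries.mk fun n => if n = 0 then 1 else -24 * ∑ d ∈ n.divisors, (d : ℤ)

open ArithmeticFunction EisensteinSeries ModularForm

theorem hasExp_E₆ :
    HasExp 1 (E₆ : ℍ → ℂ) (HahnSeries.ofPowerSeries ℤ ℂ (eisenstein6.map (Int.castRingHom ℂ))) := by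
  intro τ
  rw [LSum.ofPowerSeries]
  have h := ModularForm.hasSum_qExpansion (f := E₆) (k := 6) one_pos one_mem_strictPeriods_SL τ
  have h2 : ∀ n : ℕ, (UpperHalfPlane.qExpansion 1 E₆).coeff n =
      (eisenstein6.map (Int.castRingHom ℂ)).coeff n := by
    intro n
    rw [E_qExpansion_coeff _ ⟨3, rfl⟩]
    simp only [eisenstein6, PowerSeries.coeff_map, PowerSeries.coeff_mk,
      show bernoulli 6 = 1 / 42 by decide +kernel]
    split_ifs with hn
    · simp
    · simp only [sigma_apply]
      push_cast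
      norm_num
  simpa [h2] using h

theorem hasExp_E2 :
    HasExp 1 E2 (HahnSeries.ofPowerSeries ℤ ℂ (eisenstein2.map (Int.castRingHom ℂ))) := by
  intro τ
  rw [LSum.ofPowerSeries]
  have h := hasSum_qExpansion_E2 (z := τ)
  have h2 : ∀ n : ℕ, (if n = 0 then 1 else -24 * ArithmeticFunction.sigma 1 n : ℂ) =
      (eisenstein2.map (Int.castRingHom ℂ)).coeff n := by
    intro n
    simp only [eisenstein2, PowerSeries.coeff_map, PowerSeries.coeff_mk]
    split_ifs with hn
    · simp
    · simp only [sigma_apply]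
      push_cast
      norm_num
  have h3 : (fun n : ℕ => (eisenstein2.map (Int.castRingHom ℂ)).coeff n * (𝕢 1 τ) ^ n) =
      fun n : ℕ => (if n = 0 then 1 else -24 * ArithmeticFunction.sigma 1 n : ℂ) •
        cexp (2 * Real.pi * I * τ) ^ n := by
    funext n
    rw [← h2 n]
    simp only [smul_eq_mul, Function.Periodic.qParam]
    norm_num
  rw [h3]
  exact h

end Analytic

section Integral

open Derivative EisensteinSeries ModularForm

variable (R : Type*) [CommRing R]

/-- `E₄` as a Laurent series over `R` -/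
def E4L : LaurentSeries R := HahnSeries.ofPowerSeries ℤ R (eisenstein4.map (Int.castRingHom R))

/-- `E₆` as a Laurent series over `R` -/
def E6L : LaurentSeries R := HahnSeries.ofPowerSeries ℤ R (eisenstein6.map (Int.castRingHom R))

/-- `E₂` as a Laurent series over `R` -/
def E2L : LaurentSeries R := HahnSeries.ofPowerSeries ℤ R (eisenstein2.map (Int.castRingHom R))

variable {R}

theorem coeffMap_ofPowerSeries_map {S : Type*} [CommRing S] (φ : R →+* S) (p : PowerSeries ℤ) :
    coeffMap φ (HahnSeries.ofPowerSeries ℤ R (p.map (Int.castRingHom R))) =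
      HahnSeries.ofPowerSeries ℤ S (p.map (Int.castRingHom S)) := by
  ext k
  rw [coeffMap_coeff]
  rcases le_or_gt 0 k with hk | hk
  · lift k to ℕ using hk
    rw [ofPowerSeries_coeff_natCast, ofPowerSeries_coeff_natCast, PowerSeries.coeff_map,
      PowerSeries.coeff_map]
    simp
  · rw [ofPowerSeries_coeff_of_neg _ hk, ofPowerSeries_coeff_of_neg _ hk, map_zero]

@[simp]
theorem coeffMap_E4L {S : Type*} [CommRing S] (φ : R →+* S) : coeffMap φ (E4L R) = E4L S :=
  coeffMap_ofPowerSeries_map φ _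

@[simp]
theorem coeffMap_E6L {S : Type*} [CommRing S] (φ : R →+* S) : coeffMap φ (E6L R) = E6L S :=
  coeffMap_ofPowerSeries_map φ _

@[simp]
theorem coeffMap_E2L {S : Type*} [CommRing S] (φ : R →+* S) : coeffMap φ (E2L R) = E2L S :=
  coeffMap_ofPowerSeries_map φ _

@[simp]
theorem coeffMap_deltaL {S : Type*} [CommRing S] (φ : R →+* S) :
    coeffMap φ (deltaL R) = deltaL S := by
  rw [deltaL, deltaL, map_mul, coeffMap_single, map_one, coeffMap_ofPowerSeries_map]

@[simp]
theorem coeffMap_deltaInvL {S : Type*} [CommRing S] (φ : R →+* S) :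
    coeffMap φ (deltaInvL R) = deltaInvL S := by
  rw [deltaInvL, deltaInvL, map_mul, coeffMap_single, map_one, coeffMap_ofPowerSeries_map]

theorem coeffMap_injective {S : Type*} [CommRing S] (φ : R →+* S) (hφ : Function.Injective φ) :
    Function.Injective (coeffMap φ) := by
  intro x y h
  ext n
  apply hφ
  have := congrArg (fun z : LaurentSeries S => z.coeff n) h
  simpa using this

theorem jqModC_eq : jqModC R = E4L R ^ 3 * deltaInvL R := by
  rw [E4L, deltaInvL, jqModC, jNum, map_mul, map_mul, map_pow, map_pow]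
  ring

theorem theta_E4L_complex : 3 * theta ℂ (E4L ℂ) = E2L ℂ * E4L ℂ - E6L ℂ := by
  have h1 := HasExp.deriv hasExp_E₄
  have h2 : HasExp 1 ((3 : ℍ → ℂ) * normalizedDerivOfComplex E₄) (3 * theta ℂ (E4L ℂ)) := by
    have := (HasExp.const 3).mul h1
    exact this
  have h3 : HasExp 1 (E2 * (E₄ : ℍ → ℂ) - (E₆ : ℍ → ℂ)) (E2L ℂ * E4L ℂ - E6L ℂ) :=
    (hasExp_E2.mul hasExp_E₄).sub hasExp_E₆
  have h4 : ((3 : ℍ → ℂ) * normalizedDerivOfComplex E₄) = (E2 * (E₄ : ℍ → ℂ) - (E₆ : ℍ → ℂ)) := by
    funext τ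
    simp only [Pi.mul_apply, Pi.sub_apply, Fermat.Agent.H61.deriv_E₄]
    show 3 * _ = _
    ring
  rw [h4] at h2
  exact HasExp.unique one_pos h2 h3

theorem theta_E6L_complex : 2 * theta ℂ (E6L ℂ) = E2L ℂ * E6L ℂ - E4L ℂ ^ 2 := by
  have h1 := HasExp.deriv hasExp_E₆
  have h2 : HasExp 1 ((2 : ℍ → ℂ) * normalizedDerivOfComplex E₆) (2 * theta ℂ (E6L ℂ)) :=
    (HasExp.const 2).mul h1
  have h3 : HasExp 1 (E2 * (E₆ : ℍ → ℂ) - (E₄ : ℍ → ℂ) ^ 2) (E2L ℂ * E6L ℂ - E4L ℂ ^ 2) :=
    (hasExp_E2.mul hasExp_E₆).sub (hasExp_E₄.pow 2)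
  have h4 : ((2 : ℍ → ℂ) * normalizedDerivOfComplex E₆) =
      (E2 * (E₆ : ℍ → ℂ) - (E₄ : ℍ → ℂ) ^ 2) := by
    funext τ
    simp only [Pi.mul_apply, Pi.sub_apply, Pi.pow_apply, Fermat.Agent.H61.deriv_E₆]
    show 2 * _ = _
    ring
  rw [h4] at h2
  exact HasExp.unique one_pos h2 h3

theorem theta_E2L_complex : 12 * theta ℂ (E2L ℂ) = E2L ℂ ^ 2 - E4L ℂ := by
  have h1 := HasExp.deriv hasExp_E2
  have h2 : HasExp 1 ((12 : ℍ → ℂ) * normalizedDerivOfComplex E2) (12 * theta ℂ (E2L ℂ)) :=
    (HasExp.const 12).mul h1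
  have h3 : HasExp 1 (E2 ^ 2 - (E₄ : ℍ → ℂ)) (E2L ℂ ^ 2 - E4L ℂ) :=
    (hasExp_E2.pow 2).sub hasExp_E₄
  have h4 : ((12 : ℍ → ℂ) * normalizedDerivOfComplex E2) = (E2 ^ 2 - (E₄ : ℍ → ℂ)) := by
    funext τ
    simp only [Pi.mul_apply, Pi.sub_apply, Pi.pow_apply, deriv_E2]
    show 12 * _ = _
    ring
  rw [h4] at h2
  exact HasExp.unique one_pos h2 h3

theorem theta_deltaL_complex : theta ℂ (deltaL ℂ) = E2L ℂ * deltaL ℂ := by
  have h1 := HasExp.deriv hasExp_discriminant
  have h3 : HasExp 1 (E2 * discriminant) (E2L ℂ * deltaL ℂ) := hasExp_E2.mul hasExp_discriminant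
  have h4 : normalizedDerivOfComplex discriminant = E2 * discriminant := by
    funext τ
    simp only [Pi.mul_apply, Fermat.Agent.H61.deriv_disc]
  rw [h4] at h1
  exact HasExp.unique one_pos h1 h3

theorem E4L_cube_complex : E4L ℂ ^ 3 - E6L ℂ ^ 2 = 1728 * deltaL ℂ := by
  have h2 : HasExp 1 ((E₄ : ℍ → ℂ) ^ 3 - (E₆ : ℍ → ℂ) ^ 2) (E4L ℂ ^ 3 - E6L ℂ ^ 2) :=
    (hasExp_E₄.pow 3).sub (hasExp_E₆.pow 2)
  have h3 : HasExp 1 ((1728 : ℍ → ℂ) * discriminant) (1728 * deltaL ℂ) :=
    (HasExp.const 1728).mul hasExp_discriminant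
  have h4 : (E₄ : ℍ → ℂ) ^ 3 - (E₆ : ℍ → ℂ) ^ 2 = (1728 : ℍ → ℂ) * discriminant := by
    funext τ
    simp only [Pi.mul_apply, Pi.sub_apply, Pi.pow_apply, discriminant_eq_E₄_cube_sub_E₆_sq]
    show _ = 1728 * _
    ring
  rw [h4] at h2
  exact HasExp.unique one_pos h2 h3

variable (R)

theorem theta_E4L : 3 * theta R (E4L R) = E2L R * E4L R - E6L R := by
  have hZ : 3 * theta ℤ (E4L ℤ) = E2L ℤ * E4L ℤ - E6L ℤ := by
    apply coeffMap_injective (Int.castRingHom ℂ) Int.cast_injective
    simp only [map_mul, map_sub, ← theta_coeffMap, coeffMap_E4L, coeffMap_E6L, coeffMap_E2L]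
    rw [map_ofNat]
    exact theta_E4L_complex
  have := congrArg (coeffMap (Int.castRingHom R)) hZ
  simp only [map_mul, map_sub, ← theta_coeffMap, coeffMap_E4L, coeffMap_E6L, coeffMap_E2L] at this
  rw [map_ofNat] at this
  exact this

theorem theta_E6L : 2 * theta R (E6L R) = E2L R * E6L R - E4L R ^ 2 := by
  have hZ : 2 * theta ℤ (E6L ℤ) = E2L ℤ * E6L ℤ - E4L ℤ ^ 2 := by
    apply coeffMap_injective (Int.castRingHom ℂ) Int.cast_injective
    simp only [map_mul, map_sub, map_pow, ← theta_coeffMap, coeffMap_E4L, coeffMap_E6L,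
      coeffMap_E2L]
    rw [map_ofNat]
    exact theta_E6L_complex
  have := congrArg (coeffMap (Int.castRingHom R)) hZ
  simp only [map_mul, map_sub, map_pow, ← theta_coeffMap, coeffMap_E4L, coeffMap_E6L,
    coeffMap_E2L] at this
  rw [map_ofNat] at this
  exact this

theorem theta_E2L : 12 * theta R (E2L R) = E2L R ^ 2 - E4L R := by
  have hZ : 12 * theta ℤ (E2L ℤ) = E2L ℤ ^ 2 - E4L ℤ := by
    apply coeffMap_injective (Int.castRingHom ℂ) Int.cast_injective
    simp only [map_mul, map_sub, map_pow, ← theta_coeffMap, coeffMap_E4L, coeffMap_E2L]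
    rw [map_ofNat]
    exact theta_E2L_complex
  have := congrArg (coeffMap (Int.castRingHom R)) hZ
  simp only [map_mul, map_sub, map_pow, ← theta_coeffMap, coeffMap_E4L, coeffMap_E2L] at this
  rw [map_ofNat] at this
  exact this

theorem theta_deltaL : theta R (deltaL R) = E2L R * deltaL R := by
  have hZ : theta ℤ (deltaL ℤ) = E2L ℤ * deltaL ℤ := by
    apply coeffMap_injective (Int.castRingHom ℂ) Int.cast_injective
    simp only [map_mul, ← theta_coeffMap, coeffMap_deltaL, coeffMap_E2L]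
    exact theta_deltaL_complex
  have := congrArg (coeffMap (Int.castRingHom R)) hZ
  simp only [map_mul, ← theta_coeffMap, coeffMap_deltaL, coeffMap_E2L] at this
  exact this

theorem E4L_cube : E4L R ^ 3 - E6L R ^ 2 = 1728 * deltaL R := by
  have hZ : E4L ℤ ^ 3 - E6L ℤ ^ 2 = 1728 * deltaL ℤ := by
    apply coeffMap_injective (Int.castRingHom ℂ) Int.cast_injective
    simp only [map_mul, map_sub, map_pow, coeffMap_deltaL, coeffMap_E4L, coeffMap_E6L]
    rw [map_ofNat]
    exact E4L_cube_complex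
  have := congrArg (coeffMap (Int.castRingHom R)) hZ
  simp only [map_mul, map_sub, map_pow, coeffMap_deltaL, coeffMap_E4L, coeffMap_E6L] at this
  rw [map_ofNat] at this
  exact this

/-- `Δ j = E₄³` -/
theorem deltaL_mul_jqModC : deltaL R * jqModC R = E4L R ^ 3 := by
  rw [jqModC_eq, mul_left_comm, deltaL_mul_deltaInvL, mul_one]

/-- `Δ (j - 1728) = E₆²` -/
theorem deltaL_mul_jqModC_sub : deltaL R * (jqModC R - 1728) = E6L R ^ 2 := by
  rw [mul_sub, deltaL_mul_jqModC]
  linear_combination E4L_cube R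

/-- `θ j = - E₄² E₆ / Δ`. -/
theorem theta_jqModC : theta R (jqModC R) = - (E4L R ^ 2 * E6L R * deltaInvL R) := by
  have h1 := congrArg (theta R) (deltaL_mul_jqModC R)
  rw [theta_mul, theta_deltaL, theta_pow, show (2 : ℕ) = 1 + 1 by rfl] at h1
  have h2 := theta_E4L R
  have h3 := deltaL_mul_deltaInvL R
  have h4 := jqModC_eq (R := R)
  push_cast at h1
  calc theta R (jqModC R) = deltaInvL R * (deltaL R * theta R (jqModC R)) := by
        linear_combination (- theta R (jqModC R)) * h3
    _ = - (E4L R ^ 2 * E6L R * deltaInvL R) := by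
        linear_combination deltaInvL R * h1 + deltaInvL R * E4L R ^ 2 * h2 -
          (E2L R * jqModC R) * h3 + (-E2L R) * h4

end Integral

end Fermat.Agent.H38
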