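/-
H39C8a: cusp forms of weight two divided by `θ(j)` are differentials which are regular at the
cusps (strict version of the bounds of `H45FormFun`).
-/
import Fermat.Agent.H45FormFun

set_option autoImplicit false

noncomputable section

namespace Fermat.Agent.H39

open UpperHalfPlane hiding I
open Complex MatrixGroups ModularGroup ModularCurve Fermat.Agent.H24 Fermat.Agent.H94 Fermat.Agent.H61
open Fermat.Agent.H90 Fermat.Agent.H96 Fermat.Agent.H28 Fermat.Agent.H45.FF
open CongruenceSubgroup AlgebraicCurve Filter Topology ModularForm EisensteinSeries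
open scoped Manifold

local notation "𝕢" => Function.Periodic.qParam

/-- A convergent Laurent series which tends to zero at `0` has positive order. -/
theorem order_pos_of_small {F : LaurentSeries ℂ} (hF : IsConv F) (hF0 : F ≠ 0)
    (hb : ∀ δ : ℝ, 0 < δ → ∃ ε : ℝ, 0 < ε ∧ ∀ w : ℂ, w ≠ 0 → ‖w‖ < ε → ‖evalAt w F‖ ≤ δ) :
    0 < F.order := by
  obtain ⟨ε₁, hε₁, h1⟩ := hb 1 one_pos
  have hnn : 0 ≤ F.order := order_nonneg_of_bounded hF hε₁ h1
  rcases hnn.lt_or_eq with h | h
  · exact h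
  exfalso
  set c := F.coeff 0 with hc
  have hc0 : c ≠ 0 := by
    have := HahnSeries.coeff_order_eq_zero.not.mpr hF0
    rwa [← h] at this
  set H : LaurentSeries ℂ := F * HahnSeries.single (-1 : ℤ) 1 - HahnSeries.single (-1) c with hH
  have hHc : IsConv H := by
    have h1 : IsConv (-HahnSeries.single (-1 : ℤ) c : LaurentSeries ℂ) := by
      rw [← HahnSeries.single_neg]
      exact isConv_single _ _
    rw [hH, sub_eq_add_neg]
    exact (hF.mul (isConv_single _ _)).add h1
  have hH0 : ∀ n < (0 : ℤ), H.coeff n = 0 := by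
    intro n hn
    have h1 : (F * HahnSeries.single (-1 : ℤ) 1).coeff n = F.coeff (n + 1) := by
      rw [mul_comm, HahnSeries.coeff_single_mul, one_mul]
      congr 1
    rw [hH, HahnSeries.coeff_sub, h1]
    rcases eq_or_ne n (-1) with rfl | hn1
    · rw [HahnSeries.coeff_single_same, hc]
      norm_num
    · rw [HahnSeries.coeff_single_of_ne hn1, sub_zero]
      apply HahnSeries.coeff_eq_zero_of_lt_order
      omega
  have hev : ∀ w : ℂ, w ≠ 0 → ‖w‖ < 1 → evalAt w F = w * evalAt w H + c := by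
    intro w hw0 hw1
    have h1 : F * HahnSeries.single (-1 : ℤ) 1 = H + HahnSeries.single (-1) c := by
      rw [hH, sub_add_cancel]
    have h2 := congrArg (evalAt w) h1
    rw [evalAt_mul hF (isConv_single _ _) hw0 hw1, evalAt_add hHc (isConv_single _ _) hw0 hw1,
      evalAt_single, evalAt_single, one_mul, zpow_neg_one] at h2
    field_simp at h2
    rw [h2]
  set M := ∑' n : ℤ, ‖H.coeff n‖ * (1 / 2 : ℝ) ^ n with hM
  have hM0 : 0 ≤ M := tsum_nonneg fun n => by positivity
  have hcpos : 0 < ‖c‖ := norm_pos_iff.mpr hc0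
  obtain ⟨ε, hε, hb'⟩ := hb (‖c‖ / 4) (by positivity)
  have hpos : 0 < M + 1 := by linarith
  set t := min (min (ε / 2) (1 / 2)) (‖c‖ / (2 * (M + 1))) with ht
  have ht0 : 0 < t := by rw [ht]; positivity
  have htε : t < ε :=
    lt_of_le_of_lt ((min_le_left _ _).trans (min_le_left _ _)) (half_lt_self hε)
  have ht2 : t ≤ 1 / 2 := (min_le_left _ _).trans (min_le_right _ _)
  have hw0 : ((t : ℝ) : ℂ) ≠ 0 := by exact_mod_cast ht0.ne'
  have hnt : ‖((t : ℝ) : ℂ)‖ = t := by rw [Complex.norm_real, Real.norm_of_nonneg ht0.le]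
  have h2 := hev t hw0 (by rw [hnt]; linarith)
  have h3 : c = evalAt (t : ℂ) F - (t : ℂ) * evalAt (t : ℂ) H := by rw [h2]; ring
  have h4 : ‖c‖ ≤ ‖c‖ / 4 + t * M := by
    calc ‖c‖ = ‖evalAt (t : ℂ) F - (t : ℂ) * evalAt (t : ℂ) H‖ := by rw [← h3]
      _ ≤ ‖evalAt (t : ℂ) F‖ + ‖(t : ℂ) * evalAt (t : ℂ) H‖ := norm_sub_le _ _
      _ ≤ ‖c‖ / 4 + t * M := by
        refine add_le_add (hb' _ hw0 (by rw [hnt]; exact htε)) ?_
        rw [norm_mul, hnt]
        exact mul_le_mul_of_nonneg_left (norm_evalAt_le hHc hH0 hw0 (by rw [hnt]; exact ht2)) ht0.le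
  have h5 : t * M ≤ ‖c‖ / 2 := by
    have h6 : t ≤ ‖c‖ / (2 * (M + 1)) := min_le_right _ _
    calc t * M ≤ t * (M + 1) := mul_le_mul_of_nonneg_left (by linarith) ht0.le
      _ ≤ ‖c‖ / (2 * (M + 1)) * (M + 1) := mul_le_mul_of_nonneg_right h6 hpos.le
      _ = ‖c‖ / 2 := by field_simp
  linarith

section

variable {K : Type*} [Field K] [Algebra K ℂ] {N : ℕ} [NeZero N] {A : ℍ → ℂ}

/-- decay at the cusps -/
theorem zero_div_of_wt12 (hz : ∀ γ : SL(2, ℤ), IsZeroAtImInfty fun τ => A (γ • τ) / denom γ τ ^ 12)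
    (γ : SL(2, ℤ)) : IsZeroAtImInfty fun τ : ℍ =>
    A (γ • τ) / ModularForm.discriminant (γ • τ) * 𝕢 (N : ℝ) τ ^ N := by
  have hN : (N : ℂ) ≠ 0 := Nat.cast_ne_zero.mpr (NeZero.ne N)
  obtain ⟨C, B, hB⟩ := isBoundedAtImInfty_iff.mp isBounded_q_div_disc
  rw [isZeroAtImInfty_iff]
  intro δ hδ
  obtain ⟨B', hB'⟩ := isZeroAtImInfty_iff.mp (hz γ) (δ / (|C| + 1)) (by positivity)
  refine ⟨max B B', fun τ hτ => ?_⟩
  have h1 := hB τ ((le_max_left _ _).trans hτ)
  have h2 := hB' τ ((le_max_right _ _).trans hτ)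
  have hq : 𝕢 (N : ℝ) τ ^ N = 𝕢 (1 : ℝ) τ := by
    simp only [Function.Periodic.qParam]
    rw [← Complex.exp_nat_mul]
    congr 1
    push_cast
    field_simp
  have h3 : denom γ τ ≠ 0 := denom_ne_zero _ _
  have h4 := ModularForm.discriminant_ne_zero τ
  have h5 : A (γ • τ) / ModularForm.discriminant (γ • τ) * 𝕢 (N : ℝ) τ ^ N =
      (A (γ • τ) / denom γ τ ^ 12) * (𝕢 (1 : ℝ) τ / ModularForm.discriminant τ) := by
    rw [disc_smul, hq]
    field_simp
  rw [h5, norm_mul]
  calc ‖A (γ • τ) / denom γ τ ^ 12‖ * ‖𝕢 (1 : ℝ) τ / ModularForm.discriminant τ‖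
      ≤ (δ / (|C| + 1)) * (|C| + 1) := by
        refine mul_le_mul h2 (h1.trans ?_) (norm_nonneg _) (by positivity)
        exact (le_abs_self C).trans (by linarith)
    _ = δ := by field_simp

/-- **The pole order of `A / Δ` at the cusps, `A` vanishing at the cusps.** -/
theorem wt12_ord_lt [IsAlgClosed K] (hA : Wt12 N A)
    (hz : ∀ γ : SL(2, ℤ), IsZeroAtImInfty fun τ => A (γ • τ) / denom γ τ ^ 12)
    {a : LaurentSeries K}
    (ha : IsConv (incl K a)) (hev : ev K a = A) (x : modularFunctionFieldFullC K N)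
    (hx : (x : LaurentSeries K) = a * deltaInvL K) (v : Place K (modularFunctionFieldFullC K N))
    (hj : v.ord (jF K N) < 0) (hx0 : x ≠ 0) : v.ord (jF K N) < v.ord x := by
  have hN0 : (0 : ℤ) < N := by exact_mod_cast Nat.pos_of_ne_zero (NeZero.ne N)
  obtain ⟨hg, hval⟩ := hA.good ha hev
  obtain ⟨γ, m, hm, hch⟩ := cusp_chart v hj
  obtain ⟨X, hX, hXo⟩ := hch x (by rw [hx]; exact hg)
  have hjg : Good K N ((jF K N : modularFunctionFieldFullC K N) : LaurentSeries K) :=
    good_of_mem K (jA K N).2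
  obtain ⟨J, hJ, hJo⟩ := hch (jF K N) hjg
  have hchart := chart_qParam N
  -- the order of `j`
  have hJ' : J = qExpand ℂ N (jqModC ℂ) := by
    refine hJ.unique hchart ⟨isConv_qExpand N isConv_jqModC, fun τ _ => ?_⟩
    rw [evalAt_qExpand_J isConv_jqModC evalAt_jqModC N τ, compHom_apply]
    have h1 : ev K (jqModC K) (γ • τ) = jInv (γ • τ) := by
      rw [ev, incl, H61.coeffMap_jqModC, evalAt_jqModC]
    exact ((congrFun (show ev K ((jF K N : modularFunctionFieldFullC K N) : LaurentSeries K) =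
      ev K (jqModC K) from rfl) (γ • τ)).trans (h1.trans (jInv_smul γ τ))).symm
  have hJord : J.order = -(N : ℤ) := by
    rw [hJ', order_qExpand, order_jqModC]; ring
  -- the order of `X`
  have hX0 : X ≠ 0 := by
    intro h0
    rw [h0, HahnSeries.order_zero] at hXo
    apply hx0
    apply Subtype.ext
    have h1 : ev K (x : LaurentSeries K) = ev K (0 : LaurentSeries K) := by
      ext τ
      have h2 := hX.2 (γ⁻¹ • τ) (Function.Periodic.qParam_ne_zero _)
      rw [h0, compHom_apply, ← mul_smul, mul_inv_cancel, one_smul] at h2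
      rw [← h2, ev, map_zero]
      simp [evalAt]
    refine ev_injective_of_conv K (by rw [hx]; exact hg.conv) ?_ h1
    rw [ZeroMemClass.coe_zero, map_zero]
    simpa using isConv_single 0 0
  have hs0 : (HahnSeries.single (N : ℤ) (1 : ℂ)) ≠ 0 := by
    rw [ne_eq, HahnSeries.single_eq_zero_iff]; exact one_ne_zero
  have hNr : (0 : ℝ) < N := by exact_mod_cast Nat.pos_of_ne_zero (NeZero.ne N)
  have hXN : 0 < (X * HahnSeries.single (N : ℤ) 1).order := by
    refine order_pos_of_small (hX.1.mul (isConv_single _ _)) (mul_ne_zero hX0 hs0) ?_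
    intro δ hδ
    obtain ⟨B, hB⟩ := isZeroAtImInfty_iff.mp (zero_div_of_wt12 (N := N) hz γ) δ hδ
    refine ⟨min (Real.exp (-2 * Real.pi * B / N)) 1, lt_min (Real.exp_pos _) one_pos,
      fun w hw0 hw => ?_⟩
    have hw1 : ‖w‖ < 1 := lt_of_lt_of_le hw (min_le_right _ _)
    replace hw := lt_of_lt_of_le hw (min_le_left _ _)
    obtain ⟨τ, rfl⟩ := hchart.surj w hw0 hw1
    rw [evalAt_mul hX.1 (isConv_single _ _) hw0 hw1, evalAt_single, one_mul, zpow_natCast,
      hX.2 τ hw0]
    have h3 : B ≤ τ.im := by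
      rw [Function.Periodic.norm_qParam, Real.exp_lt_exp, div_lt_div_iff_of_pos_right hNr] at hw
      have hpi := Real.pi_pos
      change -2 * Real.pi * τ.im < _ at hw
      nlinarith
    have h4 := hB τ h3
    have h5 : compHom γ (ev K (x : LaurentSeries K)) τ =
        A (γ • τ) / ModularForm.discriminant (γ • τ) := by
      rw [compHom_apply, hx, hval]
    rw [h5]
    exact h4
  rw [HahnSeries.order_mul hX0 hs0, HahnSeries.order_single one_ne_zero, hXo] at hXN
  rw [hJord] at hJo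
  have hm' : (0 : ℤ) < m := by exact_mod_cast hm
  nlinarith

end

/-- `F E₄ E₆` vanishes at the cusps if `F` is a cusp form. -/
theorem wt12_mul_zero {N : ℕ} [NeZero N] (F : CuspForm (Gamma0 N) 2) (γ : SL(2, ℤ)) :
    IsZeroAtImInfty fun τ : ℍ =>
      ((CuspForm.toModularFormₗ F : ModularForm (Gamma0 N) 2) (γ • τ) * E₄ (γ • τ) * E₆ (γ • τ)) /
        denom γ τ ^ 12 := by
  have h4 : IsBoundedAtImInfty (E₄ : ℍ → ℂ) := ModularFormClass.bdd_at_infty E₄
  have h6 : IsBoundedAtImInfty (E₆ : ℍ → ℂ) := ModularFormClass.bdd_at_infty E₆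
  obtain ⟨C, B, hB⟩ := isBoundedAtImInfty_iff.mp (h4.mul h6)
  have hF : IsZeroAtImInfty fun τ : ℍ => F (γ • τ) / denom γ τ ^ 2 := by
    have h := CuspFormClass.zero_at_infty_slash (k := 2) F γ
    have e : (fun τ : ℍ => F (γ • τ) / denom γ τ ^ 2) = ((F : ℍ → ℂ) ∣[(2 : ℤ)] γ) := by
      funext τ
      rw [SL_slash_apply, zpow_neg, div_eq_mul_inv]
      norm_cast
    rw [e]
    exact h
  rw [isZeroAtImInfty_iff] at hF ⊢
  intro δ hδ
  obtain ⟨B', hB'⟩ := hF (δ / (|C| + 1)) (by positivity)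
  refine ⟨max B B', fun τ hτ => ?_⟩
  have h1 := hB τ ((le_max_left _ _).trans hτ)
  have h2 := hB' τ ((le_max_right _ _).trans hτ)
  have h3 : denom γ τ ≠ 0 := denom_ne_zero _ _
  have h5 : ((CuspForm.toModularFormₗ F : ModularForm (Gamma0 N) 2) (γ • τ) * E₄ (γ • τ) *
      E₆ (γ • τ)) / denom γ τ ^ 12 = (F (γ • τ) / denom γ τ ^ 2) * ((E₄ : ℍ → ℂ) * E₆) τ := by
    rw [E₄_smul, E₆_smul]
    have h6 : (CuspForm.toModularFormₗ F : ModularForm (Gamma0 N) 2) (γ • τ) = F (γ • τ) := rfl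
    rw [h6]
    simp only [Pi.mul_apply]
    field_simp
  rw [h5, norm_mul]
  calc ‖F (γ • τ) / denom γ τ ^ 2‖ * ‖((E₄ : ℍ → ℂ) * E₆) τ‖
      ≤ (δ / (|C| + 1)) * (|C| + 1) := by
        refine mul_le_mul h2 (h1.trans ?_) (norm_nonneg _) (by positivity)
        exact (le_abs_self C).trans (by linarith)
    _ = δ := by field_simp

section Main

variable {K : Type*} [Field K] [Algebra K ℂ] [IsAlgClosed K] {N : ℕ} [NeZero N]

/-- **Weight two cusp forms are regular differentials.** -/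
theorem exists_function_of_cuspForm (F : CuspForm (Gamma0 N) 2) (X : LaurentSeries K)
    (hX : ∀ n : ℕ, algebraMap K ℂ (X.coeff n) = ModularFormClass.qCoeff F n)
    (hneg : ∀ n < (0 : ℤ), X.coeff n = 0) :
    ∃ x : modularFunctionFieldFullC K N,
      (x : LaurentSeries K) * theta (jqModC K) = X ∧
      (x ≠ 0 →
        (∀ v : Place K (modularFunctionFieldFullC K N), v.ord (jF K N) < 0 →
          1 - v.ord (jF K N) ≤ v.ord x) ∧
        (∀ (v : Place K (modularFunctionFieldFullC K N)) (c : K),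
          0 < v.ord (jF K N - algebraMap K _ c) →
            1 - v.ord (jF K N - algebraMap K _ c) ≤ v.ord x)) := by
  have : CharZero K := charZero_of_algebra
  set F' : ModularForm (Gamma0 N) 2 := CuspForm.toModularFormₗ F with hF'
  have hX' : ∀ n : ℕ, algebraMap K ℂ (X.coeff n) = ModularFormClass.qCoeff F' n := hX
  obtain ⟨x, hx, hxv⟩ := exists_function_of_form (K := K) (N := N) F' X hX' hneg
  refine ⟨x, hx, fun hx0 => ⟨fun v hv => ?_, (hxv hx0).2⟩⟩
  have hXe : HasExp 1 F' (incl K X) := hasExp_form F' hX' fun n hn => by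
    rw [incl_coeff, hneg n hn, map_zero]
  have hE4 : HasExp 1 (E₄ : ℍ → ℂ) (incl K (E4L K)) := by
    rw [incl, coeffMap_E4L]; exact hasExp_E₄'
  have hE6 : HasExp 1 (E₆ : ℍ → ℂ) (incl K (E6L K)) := by
    rw [incl, coeffMap_E6L]; exact hasExp_E₆
  have hay : HasExp 1 (fun τ => F' τ * E₄ τ * E₆ τ) (incl K (X * E4L K * E6L K)) := by
    rw [map_mul, map_mul]
    exact (hXe.mul hE4).mul hE6
  obtain ⟨hyg, -⟩ := (wt12_mul F').good (K := K) (a := X * E4L K * E6L K) (isConv_of_hasExp hay)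
    (funext fun τ => evalAt_of_hasExp hay τ)
  set y : modularFunctionFieldFullC K N := ⟨_, mem_full_of_good hyg⟩ with hy
  have hyv : (y : LaurentSeries K) = X * E4L K * E6L K * deltaInvL K := rfl
  have hJ0 : jF K N ≠ 0 := fun h => (transcendental_jF (K := K) (N := N)) (h ▸ isAlgebraic_zero)
  have hJ1 := jF_sub_ne_zero (K := K) (N := N) 1728
  set J := jF K N with hJ
  set J' := jF K N - algebraMap K (modularFunctionFieldFullC K N) 1728 with hJ'
  have hJv : (J : LaurentSeries K) = E4L K ^ 3 * deltaInvL K := by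
    rw [← jqModC_mul_deltaL, mul_assoc, deltaL_mul_deltaInvL, mul_one]
    rfl
  have hJ'v : (J' : LaurentSeries K) = E6L K ^ 2 * deltaInvL K := by
    rw [← jqModC_sub_mul_deltaL, mul_assoc, deltaL_mul_deltaInvL, mul_one]
    have h1 : (((algebraMap K (modularFunctionFieldFullC K N) 1728 :
        modularFunctionFieldFullC K N)) : LaurentSeries K) = 1728 := by
      rw [map_ofNat]
      rfl
    rw [← h1]
    rfl
  have hθ : theta (jqModC K) = -(E4L K ^ 2 * E6L K) * deltaInvL K := by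
    rw [← theta_jqModC_mul_deltaL, mul_assoc, deltaL_mul_deltaInvL, mul_one]
  have hrel : y = -(x * (J * J')) := by
    apply Subtype.ext
    push_cast
    rw [hyv, hJv, hJ'v, ← hx, hθ]
    ring
  have hy0 : y ≠ 0 := by
    rw [hrel, neg_ne_zero]
    exact mul_ne_zero hx0 (mul_ne_zero hJ0 hJ1)
  have hneg1 : v.ord (-(x * (J * J'))) = v.ord (x * (J * J')) := by
    have h2 : -(x * (J * J')) = algebraMap K _ (-1) * (x * (J * J')) := by
      rw [map_neg, map_one, neg_one_mul]
    rw [h2, v.ord_mul (by rw [map_neg, map_one]; exact neg_ne_zero.mpr one_ne_zero)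
      (mul_ne_zero hx0 (mul_ne_zero hJ0 hJ1)), ord_const, zero_add]
  have hyo : v.ord y = v.ord x + (v.ord J + v.ord J') := by
    rw [hrel, hneg1, v.ord_mul hx0 (mul_ne_zero hJ0 hJ1), v.ord_mul hJ0 hJ1]
  have h1 := wt12_ord_lt (wt12_mul F') (wt12_mul_zero F) (K := K) (a := X * E4L K * E6L K)
    (isConv_of_hasExp hay) (funext fun τ => evalAt_of_hasExp hay τ) y hyv v hv hy0
  have h2 := ord_sub_le v hv 1728
  change v.ord J' ≤ v.ord J at h2
  change v.ord J < v.ord y at h1
  omega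

end Main

end Fermat.Agent.H39
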