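/-
H39C8b: logarithmic derivatives of functions on the special fibre of `X₀(N)` whose divisor is
divisible by `p` are reductions of cusp forms of weight two (any level `N` prime to `p`).
-/
import Fermat.Agent.H39C8a
import Fermat.Agent.H39Span

set_option autoImplicit false

noncomputable section

open AlgebraicCurve ModularCurve Fermat.Agent.H61 KaehlerDifferential
open ModularFormClass CongruenceSubgroup

namespace Fermat.Agent.H39

local notation "Qb" => AlgebraicClosure ℚ

section Forms

variable (N : ℕ) [NeZero N]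

/-- transport of `exists_function_of_cuspForm` -/
theorem exists_function_bar_cusp (F0 : CuspForm (CongruenceSubgroup.Gamma0 N) 2)
    (X : LaurentSeries Qb)
    (hX : ∀ n : ℕ, H24.embBar (X.coeff n) = ModularFormClass.qCoeff F0 n)
    (hneg : ∀ n < (0 : ℤ), X.coeff n = 0) :
    ∃ x : modularFunctionFieldBar N,
      (x : LaurentSeries Qb) * theta (jqModC Qb) = X ∧
      (x ≠ 0 →
        (∀ v : Place Qb (modularFunctionFieldBar N), v.ord (H94.jBar N) < 0 →
          1 - (v.ord (H94.jBar N)) ≤ v.ord x) ∧
        (∀ (v : Place Qb (modularFunctionFieldBar N)) (c : Qb),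
          0 < v.ord (H94.jBar N - algebraMap Qb _ c) →
            1 - v.ord (H94.jBar N - algebraMap Qb _ c) ≤ v.ord x)) := by
  let : Algebra Qb ℂ := H24.embBar.toAlgebra
  have key : ∀ (F : IntermediateField Qb (LaurentSeries Qb))
      (_ : F = modularFunctionFieldFullC Qb N) (j : F) (_ : (j : LaurentSeries Qb) = jqModC Qb),
      ∃ x : F, (x : LaurentSeries Qb) * theta (jqModC Qb) = X ∧
      (x ≠ 0 →
        (∀ v : Place Qb F, v.ord j < 0 → 1 - (v.ord j) ≤ v.ord x) ∧
        (∀ (v : Place Qb F) (c : Qb), 0 < v.ord (j - algebraMap Qb _ c) →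
            1 - v.ord (j - algebraMap Qb _ c) ≤ v.ord x)) := by
    rintro F rfl j hj
    obtain rfl : j = H24.jF Qb N := Subtype.ext hj
    exact exists_function_of_cuspForm F0 X hX hneg
  exact key _ (H24.laurentBaseChange_full Qb N) _ rfl

/-- integral cusp forms as elements of `L(div(dj))` -/
theorem exists_function_seq_cusp {c : ℕ → ℤ} (hc : c ∈ seqLat (S2 N)) :
    ∃ x : modularFunctionFieldBar N, (x : LaurentSeries Qb) * theta (jqModC Qb) = ser Qb c ∧
      x ∈ riemannRochSpace (divDj N) := by
  obtain ⟨F0, hF0⟩ := (mem_S2 N).mp hc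
  obtain ⟨x, hx, hxv⟩ := exists_function_bar_cusp N F0 (ser Qb c) (fun n => by
    rw [coeff_ser, map_intCast, hF0 n]) (fun n hn => coeff_ser_neg Qb c hn)
  refine ⟨x, hx, ?_⟩
  by_cases hx0 : x = 0
  · rw [hx0]
    exact Submodule.zero_mem _
  obtain ⟨h1, h2⟩ := hxv hx0
  rw [H40.mem_L hx0]
  intro v
  by_cases hv : v.ord (H94.jBar N) < 0
  · have := h1 v hv
    rw [divDj_apply, H94.ordDifferential_D v (ne_of_lt hv)]
    omega
  · obtain ⟨a, ha⟩ := H94.exists_sub_ord_pos (transc_jBar N) v (not_lt.mp hv)
    have := h2 v a ha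
    rw [divDj_apply, H94.ordDifferential_D_sub v (ne_of_gt ha)]
    omega

theorem finrank_S2 : Module.finrank ℂ (S2 N) = Module.finrank ℂ (CuspForm (Gamma0 N) 2) := by
  have hinj : Function.Injective ((qCoeffLin N).comp
      (CuspForm.toModularFormₗ : CuspForm (Gamma0 N) 2 →ₗ[ℂ] ModularForm (Gamma0 N) 2)) := by
    rw [← LinearMap.ker_eq_bot, LinearMap.ker_eq_bot']
    intro f hf
    have h1 : CuspForm.toModularFormₗ f = (0 : ModularForm (Gamma0 N) 2) :=
      eq_zero_of_qCoeffLin N hf
    ext τ
    exact congrFun (congrArg (fun g : ModularForm (Gamma0 N) 2 => (g : UpperHalfPlane → ℂ)) h1) τ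
  rw [S2, LinearMap.finrank_range_of_inj hinj]

instance finiteDimensional_S2 : FiniteDimensional ℂ (S2 N) := by
  haveI : FiniteDimensional ℂ (CuspForm (Gamma0 N) 2) := Fermat.Agent.H49.finiteDimensional_cuspForm N 2
  unfold S2
  infer_instance

/-- the integral structure -/
theorem S2_integral : ∀ v ∈ S2 N,
    v ∈ Submodule.span ℂ ((fun c : ℕ → ℤ => fun n => (c n : ℂ)) '' (seqLat (S2 N))) := by
  intro v hv
  obtain ⟨f, hf⟩ := (mem_S2 N).mp hv
  have hf' : f ∈ Submodule.span ℂ ((CuspForm.intLattice N 2 : Submodule ℤ _) :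
      Set (CuspForm (Gamma0 N) 2)) := by
    have := H23.hasIntegralStructure N 2
    rw [CuspForm.HasIntegralStructure] at this
    rw [this]
    trivial
  let L : CuspForm (Gamma0 N) 2 →ₗ[ℂ] (ℕ → ℂ) := (qCoeffLin N).comp CuspForm.toModularFormₗ
  have hL : v = L f := (funext hf).symm
  rw [hL]
  have h1 : L f ∈ Submodule.map L (Submodule.span ℂ ((CuspForm.intLattice N 2 : Submodule ℤ _) :
      Set (CuspForm (Gamma0 N) 2))) := Submodule.mem_map_of_mem hf'
  rw [Submodule.map_span] at h1
  refine Submodule.span_le.mpr ?_ h1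
  rintro _ ⟨g, hg, rfl⟩
  refine Submodule.span_induction (p := fun g _ => L g ∈ Submodule.span ℂ
    ((fun c : ℕ → ℤ => fun n => (c n : ℂ)) '' (seqLat (S2 N)))) ?_ ?_ ?_ ?_ hg
  · intro g hg
    choose c hc using hg
    have hgc : L g = fun n => (c n : ℂ) := funext hc
    rw [hgc]
    refine Submodule.subset_span ⟨c, ?_, rfl⟩
    show (fun n => (c n : ℂ)) ∈ S2 N
    rw [← hgc]
    exact ⟨g, rfl⟩
  · rw [map_zero]
    exact Submodule.zero_mem _
  · intro a b _ _ ha hb
    rw [map_add]
    exact Submodule.add_mem _ ha hb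
  · intro m a _ ha
    have : L (m • a) = (m : ℂ) • L a := by rw [← map_smul, Int.cast_smul_eq_zsmul]
    rw [this]
    exact Submodule.smul_mem _ _ ha

end Forms

section

variable (A : ValuationSubring Qb) {k : Type} [Field k] [IsAlgClosed k]
  (π : A →+* k) (N : ℕ) [NeZero N] (hπ : Function.Surjective π) [IsLocalHom π]
  (hdeg : H42.DegLE Qb k N)
  (hg : genusFF Qb (modularFunctionFieldBar N) = genusFF k (modularFunctionFieldFullC k N))

include hg hπ hdeg in
/-- **Logarithmic derivatives of functions with divisor divisible by `p`.** -/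
theorem exists_span_of_log_reg {p : ℕ} [Fact p.Prime] [CharP k p]
    {g : modularFunctionFieldFullC k N} (hg0 : g ≠ 0)
    (hdiv : ∀ w : Place k (modularFunctionFieldFullC k N), (p : ℤ) ∣ w.ord g) :
    ∃ (r : ℕ) (b : Fin r → ℕ → ℤ) (lam : Fin r → k), (∀ i, b i ∈ seqLat (S2 N)) ∧
      ∀ n : ℕ, (theta (g : LaurentSeries k) / (g : LaurentSeries k)).coeff (n : ℤ) =
        ∑ i, lam i * (b i n : k) := by
  classical
  obtain ⟨r, hred, hcompat⟩ := exists_red_map A π N hπ hdeg hg
  have := H42.funField_left (k := k) (L := Qb) N hdeg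
  have := H42.funField_right (L := Qb) N hdeg
  have : HasPrincipalDivisors Qb (modularFunctionFieldBar N) := H18.hasPrincipalDivisors _ _
  have : HasPrincipalDivisors k (modularFunctionFieldFullC k N) := H18.hasPrincipalDivisors _ _
  have hdF : ∀ v : Place Qb (modularFunctionFieldBar N), v.deg = 1 := H94.deg_eq_one
  have hdE : ∀ v : Place k (modularFunctionFieldFullC k N), v.deg = 1 := H94.deg_eq_one
  -- the derivations
  have hF : ∀ f ∈ laurentBaseChange Qb (modularFunctionFieldFull N),
      theta f / theta (jqModC Qb) ∈ laurentBaseChange Qb (modularFunctionFieldFull N) :=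
    theta_div_mem (F := modularFunctionFieldBar N) (j := H94.jBar N) rfl (transc_jBar N)
  have hE := theta_div_mem_red A π N hπ hdeg hF
  have hδ := exists_der_modReductionData A π N hπ hdeg hF hE
  have hD0 : ∀ (P : Place Qb (modularFunctionFieldBar N)) (x : modularFunctionFieldBar N),
      x ≠ 0 → 0 ≤ P.ord x → thetaDerOn _ hF x = 0 ∨ -divDj N P ≤ P.ord (thetaDerOn _ hF x) := by
    intro P x hx0 hx
    rw [divDj_apply]
    exact ord_thetaDerOn_ge (j := H94.jBar N) rfl (transc_jBar N) hF P hx0 hx
  -- two places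
  have hw : ∃ w w' : Place k (modularFunctionFieldFullC k N), w ≠ w' := by
    have hx := H42.transcendental_jFull k N
    obtain ⟨v, hv⟩ := H18.exists_ord_pos hx
    obtain ⟨v', hv'⟩ := H18.exists_ord_neg hx
    refine ⟨v, v', ?_⟩
    rintro rfl
    omega
  -- the logarithmic derivative lies in `L(r_* div(dj))`
  set DDk := Finsupp.mapDomain r (divDj N) with hDDk
  have hω : thetaDerOn _ hE g / g ∈ riemannRochSpace DDk := by
    by_cases hz : thetaDerOn _ hE g = 0
    · rw [hz, zero_div]
      exact Submodule.zero_mem _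
    rw [H40.mem_L (div_ne_zero hz hg0)]
    intro w
    have hlog := ord_logDer_ge (H42.modReductionData A π N hπ hdeg) r hred hcompat hdF
      (thetaDerOn _ hF) (thetaDerOn _ hE) hδ (divDj N) hD0 hw w hg0
    have h1 : ((w.ord g : ℤ) : modularFunctionFieldFullC k N) = 0 := by
      have h2 : ((w.ord g : ℤ) : k) = 0 := (CharP.intCast_eq_zero_iff k p _).mpr (hdiv w)
      have h3 := congrArg (algebraMap k (modularFunctionFieldFullC k N)) h2
      rwa [map_intCast, map_zero] at h3
    rcases hlog.2 h1 with h | h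
    · exact absurd h hz
    · exact h
  -- the basis
  obtain ⟨m, b, hm, hb, -, hbind⟩ := exists_good_basis (S2 N) (S2_integral N) p
  have hbind' := hbind k
  obtain ⟨u, hu⟩ := exists_inv_theta_j A
  have huL : coeffMap A.subtype u * theta (jqModC Qb) = 1 := by
    have := congrArg (coeffMap A.subtype) hu
    rwa [map_mul, H18.coeffMap_theta, map_one, H61.coeffMap_jqModC] at this
  have huk : coeffMap π u * theta (jqModC k) = 1 := by
    have := congrArg (coeffMap π) hu
    rwa [map_mul, H18.coeffMap_theta, map_one, H61.coeffMap_jqModC] at this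
  have hβ : ∀ i, ∃ β : (H42.modReductionData A π N hπ hdeg).B,
      (β : modularFunctionFieldBar N) ∈ riemannRochSpace (divDj N) ∧
      (((H42.modReductionData A π N hπ hdeg).ρ β : modularFunctionFieldFullC k N) :
        LaurentSeries k) * theta (jqModC k) = ser k (b i) := by
    intro i
    obtain ⟨x, hx, hxL⟩ := exists_function_seq_cusp N (hb i)
    have hx' : coeffMap A.subtype (ser A (b i) * u) = (x : LaurentSeries Qb) := by
      rw [map_mul, coeffMap_ser, ← hx, mul_assoc, mul_comm (theta (jqModC Qb)), huL, mul_one]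
    obtain ⟨β, h1, h2⟩ := H18.exists_mem_B A π N hπ hdeg (ser A (b i) * u) (by
      rw [hx']
      exact x.2)
    have h3 : (β : modularFunctionFieldBar N) = x := Subtype.ext (h1.trans hx')
    refine ⟨β, h3 ▸ hxL, ?_⟩
    rw [h2, map_mul, coeffMap_ser, mul_assoc, huk, mul_one]
  choose β hβL hβs using hβ
  have hρL : ∀ i, (H42.modReductionData A π N hπ hdeg).ρ (β i) ∈ riemannRochSpace DDk := by
    intro i
    by_cases hz : (H42.modReductionData A π N hπ hdeg).ρ (β i) = 0
    · rw [hz]
      exact Submodule.zero_mem _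
    have hβ0 := H40.ReductionData.ne_zero_of_ρ_ne_zero _ hz
    obtain ⟨Δ, hΔ, -⟩ := H40.exists_div (K := Qb) hβ0
    rw [H40.mem_L hz]
    intro w
    rw [← hcompat (β i) hz Δ hΔ w]
    have h1 : 0 ≤ Finsupp.mapDomain r (Δ + divDj N) w := by
      refine mapDomain_nonneg r fun P _ => ?_
      have := (H40.mem_L hβ0).mp (hβL i) P
      rw [Finsupp.add_apply, hΔ P]
      omega
    rw [Finsupp.mapDomain_add, Finsupp.add_apply, ← hDDk] at h1
    omega
  have hind : LinearIndependent k
      (fun i => (H42.modReductionData A π N hπ hdeg).ρ (β i)) := by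
    apply LinearIndependent.of_comp (coefLin k N)
    convert hbind' using 1
    funext i n
    show ((((H42.modReductionData A π N hπ hdeg).ρ (β i) : modularFunctionFieldFullC k N) :
        LaurentSeries k) * theta (jqModC k)).coeff (n : ℤ) = _
    rw [hβs i, coeff_ser]
  -- dimension of `L(r_* div(dj))`
  have hdegD : Divisor.degree DDk = 2 * (genusFF Qb (modularFunctionFieldBar N) : ℤ) - 2 := by
    rw [← degree_divDj N, hDDk]
    exact degree_mapDomain_of_deg_eq (fun P => by rw [hdF, hdE]) _
  obtain ⟨w₀, -, -⟩ := hw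
  set D' : Divisor k (modularFunctionFieldFullC k N) := DDk + Finsupp.single w₀ 1 with hD'
  have hdegD' : Divisor.degree D' = 2 * (genusFF Qb (modularFunctionFieldBar N) : ℤ) - 1 := by
    rw [hD', map_add, hdegD, Divisor.degree_single, hdE]
    push_cast
    ring
  have hell : (Module.finrank k (riemannRochSpace D') : ℤ) =
      Divisor.degree D' + 1 - genusFF k (modularFunctionFieldFullC k N) :=
    H3RR.ell_of_degree_gt (by rw [hdegD', ← hg]; omega)
  have hfinL : Module.Finite k (riemannRochSpace DDk) := H3RR.finite_L DDk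
  have hfinL' : Module.Finite k (riemannRochSpace D') := H3RR.finite_L D'
  have hle : riemannRochSpace DDk ≤ riemannRochSpace D' := by
    intro x hx
    by_cases hx0 : x = 0
    · rw [hx0]
      exact Submodule.zero_mem _
    rw [H40.mem_L hx0] at hx ⊢
    intro w
    have h1 := hx w
    have h2 : 0 ≤ Finsupp.single w₀ (1 : ℤ) w := by
      rw [Finsupp.single_apply]
      split_ifs <;> norm_num
    rw [hD', Finsupp.add_apply]
    omega
  have hrank : Module.finrank k (riemannRochSpace DDk) ≤ m := by
    have h1 := finrank_S2 N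
    have h2 := genus_eq N
    have h3 := Submodule.finrank_mono hle
    rw [hdegD', ← hg] at hell
    omega
  let v : Fin m → riemannRochSpace DDk := fun i => ⟨_, hρL i⟩
  have hvind : LinearIndependent k v := LinearIndependent.of_comp (Submodule.subtype _) hind
  have hspan : Submodule.span k (Set.range v) = ⊤ := by
    apply hvind.span_eq_top_of_card_eq_finrank'
    rw [Fintype.card_fin]
    have := hvind.fintype_card_le_finrank
    rw [Fintype.card_fin] at this
    omega
  have hmem : (⟨_, hω⟩ : riemannRochSpace DDk) ∈ Submodule.span k (Set.range v) := by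
    rw [hspan]
    trivial
  rw [Submodule.mem_span_range_iff_exists_fun] at hmem
  obtain ⟨lam, hlam⟩ := hmem
  refine ⟨m, b, lam, hb, fun n => ?_⟩
  have h1 := congrArg (fun e : riemannRochSpace DDk => coefLin k N (e : _) n) hlam
  simp only [AddSubmonoidClass.coe_finsetSum, SetLike.val_smul, map_sum, map_smul,
    Finset.sum_apply, Pi.smul_apply, smul_eq_mul] at h1
  have h2 : ∀ i, coefLin k N (v i : modularFunctionFieldFullC k N) n = (b i n : k) := by
    intro i
    show ((((H42.modReductionData A π N hπ hdeg).ρ (β i) : modularFunctionFieldFullC k N) :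
        LaurentSeries k) * theta (jqModC k)).coeff (n : ℤ) = _
    rw [hβs i, coeff_ser]
  simp only [h2] at h1
  rw [h1]
  show _ = (((theta (g : LaurentSeries k) / theta (jqModC k)) / (g : LaurentSeries k)) *
    theta (jqModC k)).coeff (n : ℤ)
  congr 1
  have h3 := theta_j_ne_zero k
  field_simp

end

end Fermat.Agent.H39
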