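/-
H39C8: residual modularity of level `M₀` (any level prime to `p`, `p` any prime) from the Gauss
reduction of the function of an eigenclass of level `p M₀`, when the divisor of the reduction is
divisible by `p`.
-/
import Fermat.Agent.H39C8b
import Fermat.Agent.H39Core

set_option autoImplicit false

noncomputable section

open AlgebraicCurve ModularCurve HahnSeries IntermediateField Fermat.Agent.H61 Fermat.Agent.H28

namespace Fermat.Agent.H39

local notation "Qb" => AlgebraicClosure ℚ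

open Fermat.Agent.H67 Fermat.Agent.H38.Mz

variable {p : ℕ} [hp : Fact p.Prime] {A : ValuationSubring Qb} (hA : A.LiesOverPrime p)

local notation "kA" => IsLocalRing.ResidueField A
local notation "πA" => IsLocalRing.residue A

include hA in
/-- **Step 8' (logarithmic derivatives).** `u` is a function on `X₀(M₀ p)` with divisor `p D`,
`D` an eigenclass with eigenvalues `a_ℓ(W)`; its Gauss reduction `gb`, a function on `X₀(M₀)` in
characteristic `p`, is not a `p`-th power and its divisor is divisible by `p`. Then `W` is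
residually modular of level `M₀`. -/
theorem isResiduallyModularOfLevel_of_gbar_reg {W : WeierstrassCurve ℤ} {M₀ : ℕ} [NeZero M₀]
    (hpM₀ : ¬ p ∣ M₀)
    {D : Divisor.degZero (K := Qb) (F := FB Qb (M₀ * p))} {u : FB Qb (M₀ * p)} (hu : u ≠ 0)
    (hord : ∀ v : Place Qb (FB Qb (M₀ * p)),
      v.ord u = (p : ℤ) * (D : Divisor Qb (FB Qb (M₀ * p))) v)
    (hT : ∀ (ℓ : ℕ) (hℓ : ℓ.Prime), W.IsGoodPrimeFor ℓ → ¬ ℓ ∣ M₀ → ℓ ≠ p →
      heckeOperatorBar (M₀ * p) ⟨ℓ, hℓ⟩ (Pic0.mk D) =
        W.apOfModel ℓ • (Pic0.mk D : Pic0 Qb (FB Qb (M₀ * p))))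
    {c : Qb} {gb : modularFunctionFieldFullC kA M₀} (hgb : gb ≠ 0)
    (hred : Red A πA (algebraMap Qb (LaurentSeries Qb) c * (u : LaurentSeries Qb))
      (gb : LaurentSeries kA))
    (hpow : ∀ h : modularFunctionFieldFullC kA M₀, h ^ p ≠ gb)
    (hdiv : ∀ w : Place kA (modularFunctionFieldFullC kA M₀), (p : ℤ) ∣ w.ord gb) :
    W.IsResiduallyModularOfLevel p M₀ := by
  classical
  haveI : CharP kA p := H60.charP_residue hp.out hA
  haveI : NeZero p := ⟨hp.out.ne_zero⟩
  haveI : IsAlgClosed kA := H18.isAlgClosed_residueField A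
  have hdeg₀ : H42.DegLE Qb kA M₀ := H18.degLE_of_not_dvd M₀ hpM₀ A hA
  haveI : H94.FunField kA (modularFunctionFieldFullC kA M₀) :=
    H42.funField_right (L := Qb) M₀ hdeg₀
  haveI : H3RR.IsFF kA (modularFunctionFieldFullC kA M₀) := inferInstance
  -- the function at level `M₀`
  have hc : c ≠ 0 := by
    rintro rfl
    rw [map_zero, zero_mul] at hred
    exact hgb (Subtype.ext (hred.unique Red.zero))
  have hcF : algebraMap Qb (FB Qb (M₀ * p)) c ≠ 0 := (_root_.map_ne_zero _).mpr hc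
  have hu' : algebraMap Qb (FB Qb (M₀ * p)) c * u ≠ 0 := mul_ne_zero hcF hu
  have hord' : ∀ v : Place Qb (FB Qb (M₀ * p)), v.ord (algebraMap Qb (FB Qb (M₀ * p)) c * u) =
      (p : ℤ) * (D : Divisor Qb (FB Qb (M₀ * p))) v := by
    intro v
    rw [v.ord_mul hcF hu, H94.ord_algebraMap, zero_add, hord]
  have hgbL : (gb : LaurentSeries kA) ≠ 0 := fun h => hgb (Subtype.ext h)
  obtain ⟨r, bb, lam, hbb, hsum⟩ := exists_span_of_log_reg A πA M₀
    IsLocalRing.residue_surjective hdeg₀ (H88.genusFFEq M₀ hpM₀ A hA) (p := p) hgb hdiv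
  refine isResiduallyModularOfLevel_of_field bb hbb lam
    (fun n : ℕ => (dl (gb : LaurentSeries kA)).coeff (n : ℤ)) hsum ?_ ?_
  · -- nonzero
    by_contra hcon
    push Not at hcon
    have h1 : dl (gb : LaurentSeries kA) = 0 := by
      ext n
      rcases lt_or_ge n 0 with hn | hn
      · rw [coeff_dl_of_neg hn]; rfl
      · lift n to ℕ using hn
        rw [hcon n]; rfl
    have h2 : theta (gb : LaurentSeries kA) = 0 := by
      rw [dl, div_eq_zero_iff] at h1
      exact h1.resolve_right hgbL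
    have hjt : Transcendental kA (jE kA M₀) := H42.transcendental_jFull kA M₀
    haveI : FiniteDimensional kA⟮jE kA M₀⟯ (modularFunctionFieldFullC kA M₀) :=
      H94.FunField.finiteDimensional hjt
    obtain ⟨h, hh⟩ := exists_pow_of_theta_eq_zero (modularFunctionFieldFullC kA M₀) p hjt
      (theta_j_ne_zero kA) h2
    exact hpow h hh
  · intro ℓ hℓ hgood hℓM hℓp n
    have hℓN : ¬ ℓ ∣ M₀ * p := by
      intro h
      rcases hℓ.dvd_mul.mp h with h1 | h1
      · exact hℓM h1
      · exact hℓp ((Nat.prime_dvd_prime_iff_eq hℓ hp.out).mp h1)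
    exact heckeCoeffTwo_dl_red (p := p) hℓ hℓN hℓM hℓp hu' hord' (hT ℓ hℓ hgood hℓM hℓp) hgbL
      hred n

include hA in
/-- **Step 8' with an auxiliary level `M`** of index prime to `p`. -/
theorem isResiduallyModularOfLevel_of_gbar_aux {W : WeierstrassCurve ℤ} {M₀ M : ℕ} [NeZero M₀]
    [NeZero M] (hdvd : M₀ ∣ M) (hpM : ¬ p ∣ M) {d : ℕ}
    (hd : dedekindPsi M = d * dedekindPsi M₀) (hpd : ¬ p ∣ d)
    {D : Divisor.degZero (K := Qb) (F := FB Qb (M₀ * p))} {u : FB Qb (M₀ * p)} (hu : u ≠ 0)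
    (hord : ∀ v : Place Qb (FB Qb (M₀ * p)),
      v.ord u = (p : ℤ) * (D : Divisor Qb (FB Qb (M₀ * p))) v)
    (hT : ∀ (ℓ : ℕ) (hℓ : ℓ.Prime), W.IsGoodPrimeFor ℓ → ¬ ℓ ∣ M₀ → ℓ ≠ p →
      heckeOperatorBar (M₀ * p) ⟨ℓ, hℓ⟩ (Pic0.mk D) =
        W.apOfModel ℓ • (Pic0.mk D : Pic0 Qb (FB Qb (M₀ * p))))
    {c : Qb} {gb : modularFunctionFieldFullC kA M} (hgb : gb ≠ 0)
    (hred : Red A πA (algebraMap Qb (LaurentSeries Qb) c * (u : LaurentSeries Qb))
      (gb : LaurentSeries kA))
    (hpow : ∀ h : modularFunctionFieldFullC kA M, h ^ p ≠ gb)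
    (hdiv : ∀ w : Place kA (modularFunctionFieldFullC kA M), (p : ℤ) ∣ w.ord gb) :
    W.IsResiduallyModularOfLevel p M₀ := by
  classical
  haveI : CharP kA p := H60.charP_residue hp.out hA
  haveI : NeZero p := ⟨hp.out.ne_zero⟩
  haveI : IsAlgClosed kA := H18.isAlgClosed_residueField A
  have hpM₀ : ¬ p ∣ M₀ := fun h => hpM (h.trans hdvd)
  have hdeg₀ : H42.DegLE Qb kA M₀ := H18.degLE_of_not_dvd M₀ hpM₀ A hA
  have hdeg : H42.DegLE Qb kA M := H18.degLE_of_not_dvd M hpM A hA
  haveI : H94.FunField kA (modularFunctionFieldFullC kA M₀) :=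
    H42.funField_right (L := Qb) M₀ hdeg₀
  haveI : H94.FunField kA (modularFunctionFieldFullC kA M) :=
    H42.funField_right (L := Qb) M hdeg
  haveI : H3RR.IsFF kA (modularFunctionFieldFullC kA M₀) := inferInstance
  haveI : H3RR.IsFF kA (modularFunctionFieldFullC kA M) := inferInstance
  have hMk : (M : kA) ≠ 0 := H18.natCast_residueField_ne_zero A hp.out hA hpM
  have hM₀k : (M₀ : kA) ≠ 0 := H18.natCast_residueField_ne_zero A hp.out hA hpM₀
  have hc : c ≠ 0 := by
    rintro rfl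
    rw [map_zero, zero_mul] at hred
    exact hgb (Subtype.ext (hred.unique Red.zero))
  have hmem : (gb : LaurentSeries kA) ∈ modularFunctionFieldFullC kA M₀ :=
    mem_full_of_red hpM₀ hA (f := algebraMap Qb (FB Qb (M₀ * p)) c * u) hred
  set g₀ : modularFunctionFieldFullC kA M₀ := ⟨gb, hmem⟩ with hg₀
  have hgbL : (gb : LaurentSeries kA) ≠ 0 := fun h => hgb (Subtype.ext h)
  have hg₀0 : g₀ ≠ 0 := fun h => hgbL (congrArg Subtype.val h)
  have hle : modularFunctionFieldFullC kA M₀ ≤ modularFunctionFieldFullC kA M :=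
    H66.full_mono kA (NeZero.ne M₀) (NeZero.ne M) hdvd
  have hjle : kA⟮jqModC kA⟯ ≤ modularFunctionFieldFullC kA M₀ := by
    rw [adjoin_simple_le_iff]
    exact jqModC_mem_full kA M₀
  have hrel : relfinrank (modularFunctionFieldFullC kA M₀) (modularFunctionFieldFullC kA M) = d := by
    have h1 := relfinrank_mul_relfinrank hjle hle
    rw [H66.relfinrank_full kA M₀ hM₀k, H66.relfinrank_full kA M hMk, hd, mul_comm] at h1
    exact Nat.eq_of_mul_eq_mul_right (dedekindPsi_pos M₀) h1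
  have hd0 : d ≠ 0 := by
    rintro rfl
    exact hpd (dvd_zero p)
  have hpZ : Prime (p : ℤ) := Nat.prime_iff_prime_int.mp hp.out
  refine isResiduallyModularOfLevel_of_gbar_reg hA hpM₀ hu hord hT (gb := g₀) hg₀0 hred ?_ ?_
  · intro h hh
    have h1 : (h : LaurentSeries kA) ^ p = (gb : LaurentSeries kA) := congrArg Subtype.val hh
    exact hpow ⟨h, hle h.2⟩ (Subtype.ext h1)
  · intro w
    obtain ⟨w', e, hpe, he, h⟩ := exists_place_over hle hrel hd0 hpd w
    have h2 := h g₀ gb rfl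
    have h4 := hdiv w'
    rw [h2] at h4
    rcases hpZ.dvd_or_dvd h4 with h6 | h6
    · exact absurd (Int.natCast_dvd_natCast.mp h6) hpe
    · exact h6

end Fermat.Agent.H39
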