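/-
H39C9: the last step of the level lowering at `p` from step 7' (all the orders of the reduction of
the Kummer function at the auxiliary level are divisible by `p`).
-/
import Fermat.Agent.H31C1
import Fermat.Agent.H39C8

set_option autoImplicit false
set_option linter.unusedSectionVars false
set_option linter.style.haveILetI false
set_option maxHeartbeats 2000000
set_option synthInstance.maxHeartbeats 200000

noncomputable section

open AlgebraicCurve ModularCurve IntermediateField WithZero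
open Fermat.Agent.H97 Fermat.Agent.H34.Two Fermat.Agent.H31.In Fermat.Agent.H31
open Fermat.Agent.H61.L5 Fermat.Agent.H28

namespace Fermat.Agent.H39

local notation "Qb" => AlgebraicClosure ℚ

section Step8

variable {W : WeierstrassCurve ℤ} {A : ValuationSubring Qb} {p : Nat.Primes}
  [hp : Fact (p : ℕ).Prime] [NeZero (p : ℕ)] (hA : A.LiesOverPrime p)
  {M₀ M : ℕ} [NeZero M₀] [NeZero M] [NeZero (M₀ * p)] [NeZero (M * p)]
  (hpM : ¬ (p : ℕ) ∣ M) {S : Set ℕ}
  (hS : ∀ ℓ : ℕ, ℓ.Prime → W.IsGoodPrimeFor ℓ → ¬ ℓ ∣ M₀ → ℓ ≠ p → ℓ ∉ S)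
  (E₀ : NewEmb W p M₀ S)
  [CharP (IsLocalRing.ResidueField A) p] [IsAlgClosed (IsLocalRing.ResidueField A)]
  [Infinite (IsLocalRing.ResidueField A)] (w : H99.AL Qb M p)
  (hπ : Function.Surjective (IsLocalRing.residue A))
  (hdeg : H42.DegLE Qb (IsLocalRing.ResidueField A) M) (arch : Arch A)
  (r : Place Qb (H99.FX Qb M) → Place (IsLocalRing.ResidueField A)
    (modularFunctionFieldFullC (IsLocalRing.ResidueField A) M))
  {c : ℕ}
  (hr1 : ∀ D : Divisor Qb (H99.FX Qb M), (c : ℤ) < Divisor.degree D →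
    (H42.modReductionData A (IsLocalRing.residue A) M hπ hdeg).IsRed D (Finsupp.mapDomain r D))
  (hr2 : H34.GR.DivCompat (H42.modReductionData A (IsLocalRing.residue A) M hπ hdeg) r)
  [H3RR.IsFF Qb (H99.FX Qb M)] [H3RR.IsFF Qb (H99.FX Qb (M * p))]
  [H3RR.IsFF (IsLocalRing.ResidueField A)
    (modularFunctionFieldFullC (IsLocalRing.ResidueField A) M)] [H94.FunField Qb (H99.FX Qb M)]
  [H94.FunField Qb (H99.FX Qb (M * p))]
  {z : H39.Tor W p} {u₀ : H99.FX Qb (M₀ * p)} (hu₀ : H33.IsKum p (E₀.ι z) u₀) {a : Qb}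
  {u : H99.FX Qb (M * p)}
  (hu : (u : LaurentSeries Qb) = algebraMap Qb (LaurentSeries Qb) a * (u₀ : LaurentSeries Qb))
  (hv : (sheets w hπ hdeg hpM arch r hr1 hr2).v false u = 1)

include hA hpM hS hu₀ hu hv in
/-- **Step 8' in the binders of the node analysis, level `M`.** -/
theorem resModular_of_dvd_ord (hdvd : M₀ ∣ M)
    (hd : ∃ d, dedekindPsi M = d * dedekindPsi M₀ ∧ ¬ (p : ℕ) ∣ d)
    (hpow : ∀ h : modularFunctionFieldFullC (IsLocalRing.ResidueField A) M,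
      (sheets w hπ hdeg hpM arch r hr1 hr2).ρ false u ≠ h ^ (p : ℕ))
    (hord : ∀ s : Place (IsLocalRing.ResidueField A)
      (modularFunctionFieldFullC (IsLocalRing.ResidueField A) M),
      ((p : ℕ) : ℤ) ∣ s.ord ((sheets w hπ hdeg hpM arch r hr1 hr2).ρ false u)) :
    W.IsResiduallyModularOfLevel p M₀ := by
  obtain ⟨hu₀0, D, hD, hordD⟩ := hu₀
  obtain ⟨d, hd, hpd⟩ := hd
  have hred := H38.S44.red_of_v1 w hπ hdeg hpM (f := u) (le_of_eq hv)
  rw [hu] at hred
  have hρ0 : (sheets w hπ hdeg hpM arch r hr1 hr2).ρ false u ≠ 0 :=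
    ((sheets w hπ hdeg hpM arch r hr1 hr2).comp false).ρ_ne_zero hv
  refine H39.isResiduallyModularOfLevel_of_gbar_aux (p := p) hA hdvd hpM hd hpd (D := D)
    (u := u₀) hu₀0 (fun v => (hordD v).symm) (fun ℓ hℓ hg hℓM hℓp => ?_) (c := a)
    (gb := (sheets w hπ hdeg hpM arch r hr1 hr2).ρ false u) hρ0 hred
    (fun h hh => hpow h hh.symm) hord
  have h1 := E₀.hecke ⟨ℓ, hℓ⟩ (hS ℓ hℓ hg hℓM hℓp) z
  rw [← hD] at h1
  exact h1

include hA hpM hS hu₀ hu hv in
/-- **Step 8' in the binders of the node analysis, level `M₀`**: the reduction of the Kummer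
function as a function of level `M₀`; no condition on the index of `Γ₀(M)`. -/
theorem resModular_of_dvd_ord_base (hpM₀ : ¬ (p : ℕ) ∣ M₀)
    {g₀ : modularFunctionFieldFullC (IsLocalRing.ResidueField A) M₀}
    (hg₀ : (g₀ : LaurentSeries (IsLocalRing.ResidueField A)) =
      ((sheets w hπ hdeg hpM arch r hr1 hr2).ρ false u :
        modularFunctionFieldFullC (IsLocalRing.ResidueField A) M))
    (hpow : ∀ h : modularFunctionFieldFullC (IsLocalRing.ResidueField A) M₀, h ^ (p : ℕ) ≠ g₀)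
    (hord : ∀ s : Place (IsLocalRing.ResidueField A)
      (modularFunctionFieldFullC (IsLocalRing.ResidueField A) M₀), ((p : ℕ) : ℤ) ∣ s.ord g₀) :
    W.IsResiduallyModularOfLevel p M₀ := by
  obtain ⟨hu₀0, D, hD, hordD⟩ := hu₀
  have hred := H38.S44.red_of_v1 w hπ hdeg hpM (f := u) (le_of_eq hv)
  rw [hu] at hred
  have hρ0 : (sheets w hπ hdeg hpM arch r hr1 hr2).ρ false u ≠ 0 :=
    ((sheets w hπ hdeg hpM arch r hr1 hr2).comp false).ρ_ne_zero hv
  have hred' : H38.Mz.Red A (IsLocalRing.residue A)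
      (algebraMap Qb (LaurentSeries Qb) a * (u₀ : LaurentSeries Qb))
      (g₀ : LaurentSeries (IsLocalRing.ResidueField A)) := by
    rw [hg₀]
    exact hred
  have hg₀0 : g₀ ≠ 0 := by
    rintro rfl
    exact hρ0 (Subtype.ext hg₀.symm)
  refine H39.isResiduallyModularOfLevel_of_gbar_reg (p := p) hA hpM₀ (D := D)
    (u := u₀) hu₀0 (fun v => (hordD v).symm) (fun ℓ hℓ hg hℓM hℓp => ?_) (c := a)
    (gb := g₀) hg₀0 hred' hpow hord
  have h1 := E₀.hecke ⟨ℓ, hℓ⟩ (hS ℓ hℓ hg hℓM hℓp) z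
  rw [← hD] at h1
  exact h1

end Step8

/-- **Step 7'**: the orders of the reduction of the Kummer function are divisible by `p` at all
the places of the auxiliary level `M`. Same binders as `H31C.CoreStep`, without any condition on
the index of `Γ₀(M)`. -/
def Step7 (p : Nat.Primes) [NeZero (p : ℕ)] : Prop :=
  ∀ {W : WeierstrassCurve ℤ} {A : ValuationSubring Qb} [Fact (p : ℕ).Prime]
    (_hA : A.LiesOverPrime p) (_hΔ : W.Δ ≠ 0) (_hirr : W.ModRepIsIrreducible p)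
    {M₀ M : ℕ} [NeZero M₀] [NeZero M] [NeZero (M₀ * p)] [NeZero (M * p)]
    (_hdvd : M₀ ∣ M) (_h4M : 4 ∣ M) (hpM : ¬ (p : ℕ) ∣ M)
    {S : Set ℕ}
    (_hS : ∀ ℓ : ℕ, ℓ.Prime → W.IsGoodPrimeFor ℓ → ¬ ℓ ∣ M₀ → ℓ ≠ p → ℓ ∉ S)
    (E₀ : NewEmb W p M₀ S)
    [CharP (IsLocalRing.ResidueField A) p] [IsAlgClosed (IsLocalRing.ResidueField A)]
    [Infinite (IsLocalRing.ResidueField A)] (w : H99.AL Qb M p)
    (hπ : Function.Surjective (IsLocalRing.residue A))
    (hdeg : H42.DegLE Qb (IsLocalRing.ResidueField A) M) (arch : Arch A)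
    (r : Place Qb (H99.FX Qb M) → Place (IsLocalRing.ResidueField A)
      (modularFunctionFieldFullC (IsLocalRing.ResidueField A) M))
    {c : ℕ}
    (hr1 : ∀ D : Divisor Qb (H99.FX Qb M), (c : ℤ) < Divisor.degree D →
      (H42.modReductionData A (IsLocalRing.residue A) M hπ hdeg).IsRed D (Finsupp.mapDomain r D))
    (hr2 : H34.GR.DivCompat (H42.modReductionData A (IsLocalRing.residue A) M hπ hdeg) r)
    [H3RR.IsFF Qb (H99.FX Qb M)] [H3RR.IsFF Qb (H99.FX Qb (M * p))]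
    [H3RR.IsFF (IsLocalRing.ResidueField A)
      (modularFunctionFieldFullC (IsLocalRing.ResidueField A) M)] [H94.FunField Qb (H99.FX Qb M)]
    [H94.FunField Qb (H99.FX Qb (M * p))]
    {z : H39.Tor W p} {u₀ : H99.FX Qb (M₀ * p)} (_hu₀ : H33.IsKum p (E₀.ι z) u₀) {a : Qb}
    {u : H99.FX Qb (M * p)}
    (_hu : (u : LaurentSeries Qb) = algebraMap Qb (LaurentSeries Qb) a * (u₀ : LaurentSeries Qb))
    (_hv : (sheets w hπ hdeg hpM arch r hr1 hr2).v false u = 1)
    (_hnode : ∀ s s', (sheets w hπ hdeg hpM arch r hr1 hr2).Node s →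
      (sheets w hπ hdeg hpM arch r hr1 hr2).Node s' →
        ((p : ℕ) : ℤ) ∣ s.ord ((sheets w hπ hdeg hpM arch r hr1 hr2).ρ false u) -
          s'.ord ((sheets w hπ hdeg hpM arch r hr1 hr2).ρ false u))
    (_hsm : ∀ s, ¬ (sheets w hπ hdeg hpM arch r hr1 hr2).Node s →
      ((p : ℕ) : ℤ) ∣ s.ord ((sheets w hπ hdeg hpM arch r hr1 hr2).ρ false u)),
    ∀ s : Place (IsLocalRing.ResidueField A)
      (modularFunctionFieldFullC (IsLocalRing.ResidueField A) M),
      ((p : ℕ) : ℤ) ∣ s.ord ((sheets w hπ hdeg hpM arch r hr1 hr2).ρ false u)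

/-- **Step 7' gives the last step.** -/
theorem coreStep_of_step7 {p : Nat.Primes} [NeZero (p : ℕ)] (h7 : Step7 p) :
    H31C.CoreStep p := by
  intro W A _ hA hΔ hirr M₀ M _ _ _ _ hdvd hd h4M hpM S hS E₀ _ _ _ w hπ hdeg arch r c hr1 hr2
    _ _ _ _ _ z u₀ hu₀ a u hu hv hnode hsm hpow
  exact resModular_of_dvd_ord hA hpM hS E₀ w hπ hdeg arch r hr1 hr2 hu₀ hu hv hdvd hd hpow
    (h7 hA hΔ hirr hdvd h4M hpM hS E₀ w hπ hdeg arch r hr1 hr2 hu₀ hu hv hnode hsm)

end Fermat.Agent.H39
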