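/-
H39Unit: the modular unit `Δ(pτ)/Δ(τ)` and the Atkin–Lehner involution.
-/
import Fermat.Agent.H39Core
import Fermat.Agent.H99Emb2

set_option autoImplicit false

noncomputable section

open AlgebraicCurve ModularCurve HahnSeries IntermediateField Fermat.Agent.H61 Fermat.Agent.H28
open Fermat.Agent.H66 (J)

namespace Fermat.Agent.H39

local notation "Qb" => AlgebraicClosure ℚ

section Transport

variable {K F : Type*} [Field K] [CharZero K] [IsAlgClosed K] [Field F] [Algebra K F]
  [H94.FunField K F]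

/-- Derivations of a function field of one variable are proportional. -/
theorem der_mul_eq (d d' : Derivation K F F) (x y : F) : d x * d' y = d' x * d y := by
  by_cases hx : IsAlgebraic K x
  · obtain ⟨c, rfl⟩ := H3RR.exists_const_of_isAlgebraic hx
    rw [d.map_algebraMap, d'.map_algebraMap, zero_mul, zero_mul]
  · have hx' : Transcendental K x := hx
    have := H94.FunField.finiteDimensional (F := F) hx'
    have hsep := H94.isSeparable_adjoin (K := K) (x := x)
    have h := H94.derivation_eq_zero (x := x) (d x • d' - d' x • d) (by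
      rw [Derivation.sub_apply, Derivation.smul_apply, Derivation.smul_apply, smul_eq_mul,
        smul_eq_mul, mul_comm, sub_self])
    have h1 := DFunLike.congr_fun h y
    rw [Derivation.sub_apply, Derivation.smul_apply, Derivation.smul_apply, smul_eq_mul,
        smul_eq_mul] at h1
    exact sub_eq_zero.mp h1

/-- Transport of quotients of derivatives by an automorphism. -/
theorem aut_der (D : Derivation K F F) (W : F ≃ₐ[K] F) (x y : F) :
    W (D x) * D (W y) = D (W x) * W (D y) := by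
  let D' : Derivation K F F := Derivation.mk'
    (W.symm.toLinearMap.comp ((D : F →ₗ[K] F).comp W.toLinearMap)) (fun a b => by
      show W.symm (D (W (a * b))) = a • W.symm (D (W b)) + b • W.symm (D (W a))
      rw [map_mul, Derivation.leibniz, map_add, smul_eq_mul, smul_eq_mul, smul_eq_mul,
        smul_eq_mul, map_mul, map_mul, W.symm_apply_apply, W.symm_apply_apply])
  have h1 := der_mul_eq D D' x y
  have h2 : ∀ z, D' z = W.symm (D (W z)) := fun z => rfl
  rw [h2, h2] at h1
  have h3 := congrArg W h1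
  rw [map_mul, map_mul, W.apply_symm_apply, W.apply_symm_apply] at h3
  exact h3

end Transport

section Unit

variable {M p : ℕ} [NeZero M] [hp : Fact p.Prime] [NeZero p]

theorem deltaRatio_mem_FX (M p : ℕ) [NeZero M] [hp : Fact p.Prime] [NeZero p] :
    H9.deltaRatio Qb p ∈ H99.FX Qb (M * p) := by
  rw [H99.FX_eq]
  exact H66.full_mono Qb hp.out.ne_zero (NeZero.ne (M * p)) (dvd_mul_left p M)
    (H9.ratio Qb p (Nat.cast_ne_zero.mpr hp.out.ne_zero)).2

variable (M p) in
/-- `Δ(pτ)/Δ(τ)` at level `M p`. -/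
def ratioX : H99.FX Qb (M * p) := ⟨H9.deltaRatio Qb p, deltaRatio_mem_FX M p⟩

theorem ratioX_ne_zero : ratioX M p ≠ 0 := fun h =>
  H9.deltaRatio_ne_zero (K := Qb) p (congrArg Subtype.val h)

/-- **The Atkin–Lehner involution and `Δ(pτ)/Δ(τ)`.** -/
theorem W_ratioX (w : H99.AL Qb M p) :
    algebraMap Qb (H99.FX Qb (M * p)) ((p : Qb) ^ 12) * (ratioX M p * w.W (ratioX M p)) = 1 := by
  have hp0 : (p : Qb) ≠ 0 := Nat.cast_ne_zero.mpr hp.out.ne_zero
  set F := H99.FX Qb (M * p) with hF
  haveI : H94.FunField Qb F := H42.funField_bar (M * p)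
  have htr : Transcendental Qb (H94.jBar (M * p)) := transc_jBar (M * p)
  have hθ : ∀ f ∈ F, theta f / theta (jqModC Qb) ∈ F :=
    theta_div_mem (F := modularFunctionFieldBar (M * p)) (j := H94.jBar (M * p)) rfl htr
  -- `j` and `j_p`
  have hjm : jqModC Qb ∈ H99.FX Qb M := by
    rw [H99.FX_eq]; exact jqModC_mem_full Qb M
  set x : F := heckeAlphaBar Qb M p ⟨jqModC Qb, hjm⟩ with hx
  set y : F := heckeBetaBar Qb M p ⟨jqModC Qb, hjm⟩ with hy
  have hxL : (x : LaurentSeries Qb) = jqModC Qb := coe_heckeAlphaBar _ _ _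
  have hyL : (y : LaurentSeries Qb) = qExpand Qb p (jqModC Qb) := coe_heckeBetaBar _ _ _
  have hWx : w.W x = y := w.alpha _
  have hWy : w.W y = x := w.beta _
  set D := thetaDerOn F hθ with hD
  have hDx : D x = 1 := by
    apply Subtype.ext
    rw [hD, coe_thetaDerOn, hxL, div_self (theta_j_ne_zero Qb)]
    rfl
  set z : F := D y with hz
  have hzL : (z : LaurentSeries Qb) = theta (qExpand Qb p (jqModC Qb)) / theta (jqModC Qb) := by
    rw [hz, hD, coe_thetaDerOn, hyL]
  have hzW : w.W z * z = 1 := by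
    have h := aut_der D w.W y x
    rw [hWx, hWy, hDx, map_one, mul_one] at h
    rw [hz]
    exact h
  -- the relation
  have h1 := H9.theta_jqModC_pow_six (R := Qb)
  have h2 := congrArg (qExpand Qb p) h1
  rw [map_pow, map_mul, map_mul, map_pow, map_pow, map_sub, map_ofNat] at h2
  have h3 := H9.theta_qExpand p (jqModC Qb)
  have hθ0 := theta_j_ne_zero Qb
  have hpL : (p : LaurentSeries Qb) ≠ 0 := by
    have : (p : LaurentSeries Qb) = HahnSeries.C (p : Qb) := by simp
    rw [this]
    exact (_root_.map_ne_zero HahnSeries.C).mpr hp0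
  have hrel : z ^ 6 * (x ^ 4 * (x - 1728) ^ 3) =
      (p : F) ^ 6 * (y ^ 4 * (y - 1728) ^ 3) * ratioX M p := by
    apply Subtype.ext
    show (z : LaurentSeries Qb) ^ 6 * ((x : LaurentSeries Qb) ^ 4 *
        ((x : LaurentSeries Qb) - ((1728 : F) : LaurentSeries Qb)) ^ 3) =
      ((p : F) : LaurentSeries Qb) ^ 6 * ((y : LaurentSeries Qb) ^ 4 *
        ((y : LaurentSeries Qb) - ((1728 : F) : LaurentSeries Qb)) ^ 3) * H9.deltaRatio Qb p
    have e1 : ((1728 : F) : LaurentSeries Qb) = 1728 := rfl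
    have e2 : ((p : F) : LaurentSeries Qb) = (p : LaurentSeries Qb) := by
      exact SubringClass.coe_natCast F p
    rw [e1, e2, hxL, hyL, hzL, h3, H9.deltaRatio_eq_div, div_pow, mul_pow, h2, h1]
    have hΔ := H9.deltaL_ne_zero (K := Qb)
    have hj6 : jqModC Qb ^ 4 * (jqModC Qb - 1728) ^ 3 * deltaL Qb ≠ 0 := by
      rw [← h1]; exact pow_ne_zero _ hθ0
    have hj4 : jqModC Qb ^ 4 * (jqModC Qb - 1728) ^ 3 ≠ 0 := left_ne_zero_of_mul hj6
    rw [div_mul_eq_mul_div, mul_comm (_ * _) (jqModC Qb ^ 4 * (jqModC Qb - 1728) ^ 3),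
      mul_div_mul_left _ _ hj4]
    ring
  have hrelW := congrArg w.W hrel
  simp only [map_mul, map_pow, map_sub, map_natCast, map_ofNat, hWx, hWy] at hrelW
  -- nonvanishing
  have hx0 : x ^ 4 * (x - 1728) ^ 3 ≠ 0 := by
    intro h
    have hj6 : jqModC Qb ^ 4 * (jqModC Qb - 1728) ^ 3 * deltaL Qb ≠ 0 := by
      rw [← h1]; exact pow_ne_zero _ hθ0
    apply left_ne_zero_of_mul hj6
    rw [← hxL]
    exact congrArg Subtype.val h
  have hy0 : y ^ 4 * (y - 1728) ^ 3 ≠ 0 := by
    intro h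
    apply hx0
    have := congrArg w.W h
    simpa only [map_mul, map_pow, map_sub, map_ofNat, hWy, map_zero] using this
  have hpF : algebraMap Qb F ((p : Qb) ^ 12) = (p : F) ^ 12 := by
    rw [map_pow, map_natCast]
  rw [hpF]
  have h5 : (x ^ 4 * (x - 1728) ^ 3) * (y ^ 4 * (y - 1728) ^ 3) ≠ 0 := mul_ne_zero hx0 hy0
  apply mul_right_cancel₀ h5
  have h6 : (w.W z * z) ^ 6 * ((x ^ 4 * (x - 1728) ^ 3) * (y ^ 4 * (y - 1728) ^ 3)) =
      (z ^ 6 * (x ^ 4 * (x - 1728) ^ 3)) * (w.W z ^ 6 * (y ^ 4 * (y - 1728) ^ 3)) := by ring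
  rw [hzW, one_pow, hrel, hrelW] at h6
  rw [h6]
  ring

/-- `Δ(pτ)/Δ(τ)` has no zeros and poles where `j` is regular. -/
theorem ord_ratioX (P : Place Qb (H99.FX Qb (M * p))) {x : H99.FX Qb (M * p)}
    (hx : (x : LaurentSeries Qb) = jqModC Qb) (hP : 0 ≤ P.ord x) : P.ord (ratioX M p) = 0 := by
  have hp0 : (p : Qb) ≠ 0 := Nat.cast_ne_zero.mpr hp.out.ne_zero
  have hle : modularFunctionFieldFullC Qb p ≤ H99.FX Qb (M * p) := by
    rw [H99.FX_eq]
    exact H66.full_mono Qb hp.out.ne_zero (NeZero.ne (M * p)) (dvd_mul_left p M)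
  haveI : H94.FunField Qb (H99.FX Qb (M * p)) := H42.funField_bar (M * p)
  haveI : H94.FunField Qb (modularFunctionFieldFullC Qb p) := by
    have h := H42.funField_bar p
    rw [← H67.laurentBaseChange_full]
    exact h
  let φ : modularFunctionFieldFullC Qb p →ₐ[Qb] H99.FX Qb (M * p) :=
    IntermediateField.inclusion hle
  have h1 : φ (H9.j₁ Qb p) = x := Subtype.ext ((H66.J_one (K := Qb)).trans hx.symm)
  have h2 : φ (H9.ratio Qb p hp0) = ratioX M p := rfl
  have h3 := H67.ord_res φ P (H9.j₁ Qb p)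
  rw [h1] at h3
  have h4 : 0 ≤ (H67.res φ P).ord (H9.j₁ Qb p) := by
    have h5 := H67.ram_pos φ P
    by_contra hneg
    push Not at hneg
    have : (H67.ram φ P : ℤ) * (H67.res φ P).ord (H9.j₁ Qb p) < 0 :=
      mul_neg_of_pos_of_neg (by exact_mod_cast h5) hneg
    omega
  rw [← h2, H67.ord_res, H9.ord_ratio_of_nonneg Qb p hp0 h4, mul_zero]

end Unit

end Fermat.Agent.H39
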