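/-
H39Fin: final step of level lowering at `p`, from the two-component data of `X₀(pM)`.
-/
import Fermat.Agent.H39Unit
import Fermat.Agent.H31MPNode

set_option autoImplicit false

noncomputable section

open AlgebraicCurve ModularCurve HahnSeries IntermediateField Fermat.Agent.H61 Fermat.Agent.H28
open Fermat.Agent.H67 Fermat.Agent.H38.Mz Fermat.Agent.H31.MP

namespace Fermat.Agent.H39

local notation "Qb" => AlgebraicClosure ℚ

section Psi

theorem not_dvd_twelve {p : ℕ} (hp : p.Prime) (h5 : 5 ≤ p) : ¬ p ∣ 12 := by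
  intro h
  have h1 : p ∣ 2 ^ 2 * 3 := h
  rcases hp.dvd_mul.mp h1 with h2 | h2
  · have h3 := Nat.le_of_dvd (by norm_num) (hp.dvd_of_dvd_pow h2)
    omega
  · have h3 := Nat.le_of_dvd (by norm_num) h2
    omega

/-- the degrees of the auxiliary coverings -/
theorem exists_psi {M₀ M : ℕ} [NeZero M₀] (h1 : M₀ ∣ M) (h2 : M ∣ 4 * M₀) :
    ∃ d : ℕ, dedekindPsi M = d * dedekindPsi M₀ ∧ d ∣ 12 := by
  obtain ⟨e, rfl⟩ := h1
  have he : e ∣ 4 := by
    rw [mul_comm 4 M₀] at h2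
    exact Nat.dvd_of_mul_dvd_mul_left (Nat.pos_of_ne_zero (NeZero.ne M₀)) h2
  have he' : e = 1 ∨ e = 2 ∨ e = 4 := by
    have h3 := Nat.le_of_dvd (by norm_num) he
    interval_cases e <;> simp_all
  have hM₀ := NeZero.ne M₀
  have h4 := dedekindPsi_mul_prime hM₀ Nat.prime_two
  rw [cdeg] at h4
  rcases he' with rfl | rfl | rfl
  · exact ⟨1, by rw [mul_one, one_mul], by norm_num⟩
  · rw [h4]
    split_ifs
    · exact ⟨2, rfl, by norm_num⟩
    · exact ⟨3, rfl, by norm_num⟩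
  · have h5 := dedekindPsi_mul_prime (N := M₀ * 2) (mul_ne_zero hM₀ two_ne_zero) Nat.prime_two
    rw [cdeg, if_pos (dvd_mul_left 2 M₀), h4] at h5
    have h6 : M₀ * 4 = M₀ * 2 * 2 := by ring
    rw [h6, h5]
    split_ifs
    · exact ⟨4, by ring, by norm_num⟩
    · exact ⟨6, by ring, by norm_num⟩

end Psi

section Gauss

variable {p : ℕ} [hp : Fact p.Prime] [NeZero p] {A : ValuationSubring Qb} {M : ℕ} [NeZero M]

local notation "kA" => IsLocalRing.ResidueField A
local notation "πA" => IsLocalRing.residue A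

theorem jqModC_mem_FX (N : ℕ) [NeZero N] : jqModC Qb ∈ H99.FX Qb N := by
  rw [H99.FX_eq]; exact jqModC_mem_full Qb N

/-- `j` in the function field of `X₀(N)`. -/
def jX (N : ℕ) [NeZero N] : H99.FX Qb N := ⟨jqModC Qb, jqModC_mem_FX N⟩

variable {Γ ν G : Type*} [LinearOrderedCommGroupWithZero Γ] [Group G] [MulSemiringAction G Qb]
  [MulSemiringAction G (H99.FX Qb (M * p))]

/-- The two-component data `D` is the one given by the Gauss valuation of `q`-expansions and its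
transform under the Atkin–Lehner involution. -/
structure IsGauss
    (D : H31.MP.Data Qb (H99.FX Qb (M * p)) kA (modularFunctionFieldFullC kA M) Γ ν G p)
    (W : H99.FX Qb (M * p) ≃ₐ[Qb] H99.FX Qb (M * p)) : Prop where
  vK : ∀ c : Qb, D.M.vK c ≤ 1 ↔ c ∈ A
  red : ∀ f, D.M.v false f ≤ 1 →
    Red A πA (f : LaurentSeries Qb) (D.M.ρ false f : LaurentSeries kA)
  v_true : ∀ f, D.M.v true f = D.M.v false (W f)
  node : ∀ P n, D.M.sp P = Sum.inr n → 0 ≤ P.ord (jX (M * p))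
  smooth : ∀ P x, D.M.sp P = Sum.inl (false, x) → 0 ≤ x.ord (jE kA M) →
    0 ≤ P.ord (jX (M * p))

theorem IsGauss.vK_eq_one
    {D : H31.MP.Data Qb (H99.FX Qb (M * p)) kA (modularFunctionFieldFullC kA M) Γ ν G p}
    {W : H99.FX Qb (M * p) ≃ₐ[Qb] H99.FX Qb (M * p)} (h : IsGauss D W)
    {c : Qb} (hc : c ∈ A) (hu : IsUnit (⟨c, hc⟩ : A)) : D.M.vK c = 1 := by
  obtain ⟨u, hu⟩ := hu
  have h1 : D.M.vK c ≤ 1 := (h.vK c).mpr hc
  have h2 : D.M.vK c⁻¹ ≤ 1 := by
    rw [h.vK]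
    have h3 : ((u⁻¹ : Aˣ) : A) * (u : A) = 1 := Units.inv_mul u
    rw [hu] at h3
    have h4 : (((u⁻¹ : Aˣ) : A) : Qb) * c = 1 := congrArg Subtype.val h3
    rw [← eq_inv_of_mul_eq_one_left h4]
    exact ((u⁻¹ : Aˣ) : A).2
  have hc0 : c ≠ 0 := by
    rintro rfl
    have h3 : ((u⁻¹ : Aˣ) : A) * (u : A) = 1 := Units.inv_mul u
    rw [hu] at h3
    have h4 : (((u⁻¹ : Aˣ) : A) : Qb) * 0 = 1 := congrArg Subtype.val h3
    rw [mul_zero] at h4
    exact zero_ne_one h4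
  rw [map_inv₀] at h2
  have h5 : 0 < D.M.vK c := zero_lt_iff.mpr ((Valuation.ne_zero_iff _).mpr hc0)
  exact le_antisymm h1 ((inv_le_one₀ h5).mp h2)

variable (hA : A.LiesOverPrime p)

include hA in
/-- the orders of `Δ^(p-1)` on the special fibre -/
theorem IsGauss.ord_ubar
    {D : H31.MP.Data Qb (H99.FX Qb (M * p)) kA (modularFunctionFieldFullC kA M) Γ ν G p}
    (w : H99.AL Qb M p) (h : IsGauss D w.W) (hpM : ¬ p ∣ M)
    {ub : modularFunctionFieldFullC kA M}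
    (hub : (ub : LaurentSeries kA) = (deltaL kA) ^ (p - 1)) :
    (∀ n, (D.pt false n).ord ub = -12) ∧
      ∀ x : Place kA (modularFunctionFieldFullC kA M), 0 ≤ x.ord (jE kA M) →
        (∀ n, (false, x) ∉ D.M.br n) → x.ord ub = 0 := by
  haveI : CharP kA p := H60.charP_residue hp.out hA
  haveI : IsAlgClosed kA := H18.isAlgClosed_residueField A
  have hdeg : H42.DegLE Qb kA M := H18.degLE_of_not_dvd M hpM A hA
  haveI : H94.FunField kA (modularFunctionFieldFullC kA M) :=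
    H42.funField_right (L := Qb) M hdeg
  haveI : H3RR.IsFF kA (modularFunctionFieldFullC kA M) := inferInstance
  haveI : H94.FunField Qb (H99.FX Qb (M * p)) := H42.funField_bar (M * p)
  haveI : H3RR.IsFF Qb (H99.FX Qb (M * p)) := inferInstance
  set R := ratioX M p with hR
  have hR0 : R ≠ 0 := ratioX_ne_zero
  have hub0 : (ub : LaurentSeries kA) ≠ 0 := by
    rw [hub]; exact pow_ne_zero _ H9.deltaL_ne_zero
  have hRred : Red A πA (R : LaurentSeries Qb) (ub : LaurentSeries kA) := by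
    rw [hub]; exact red_deltaRatio p
  -- the Gauss valuation of `R` is one
  obtain ⟨c, hc0, -, hvc⟩ := D.scale ⊥ false R (by
    intro σ hσ
    rw [Subgroup.mem_bot] at hσ
    rw [hσ, one_smul]) hR0
  have hcF : algebraMap Qb (H99.FX Qb (M * p)) c ≠ 0 := (_root_.map_ne_zero _).mpr hc0
  have C := D.comp false
  have hv1 : D.M.v false (R / algebraMap Qb (H99.FX Qb (M * p)) c) = 1 := by
    rw [map_div₀, C.v_alg, hvc, div_self]
    exact (Valuation.ne_zero_iff _).mpr hc0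
  have hred1 := h.red _ hv1.le
  have hcoe : ((R / algebraMap Qb (H99.FX Qb (M * p)) c : H99.FX Qb (M * p)) :
      LaurentSeries Qb) = algebraMap Qb (LaurentSeries Qb) c⁻¹ * (R : LaurentSeries Qb) := by
    rw [map_inv₀, ← div_eq_inv_mul]
    rfl
  rw [hcoe] at hred1
  have hne1 : ((D.M.ρ false (R / algebraMap Qb (H99.FX Qb (M * p)) c) :
      modularFunctionFieldFullC kA M) : LaurentSeries kA) ≠ 0 := fun h0 =>
    C.ρ_ne_zero hv1 (Subtype.ext h0)
  have hcu := h.vK_eq_one _ (isUnit_of_smul hRred hub0 hred1 hne1)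
  have hvR : D.M.v false R = 1 := by
    rw [hvc]
    rw [map_inv₀, inv_eq_one] at hcu
    exact hcu
  have hρR : D.M.ρ false R = ub := by
    apply Subtype.ext
    exact (h.red R hvR.le).unique hRred
  -- the other valuation
  have hp0 : (p : Qb) ≠ 0 := Nat.cast_ne_zero.mpr hp.out.ne_zero
  have hvp0 : D.M.vK (p : Qb) ≠ 0 := (Valuation.ne_zero_iff _).mpr hp0
  have hvp1 : D.M.vK (p : Qb) < 1 := by
    have hA' : (p : Qb) ∈ A.nonunits := hA
    have h1 : A.valuation (p : Qb) < 1 := hA'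
    by_contra hcon
    push Not at hcon
    have h2 : D.M.vK (p : Qb)⁻¹ ≤ 1 := by
      rw [map_inv₀]
      exact inv_le_one_of_one_le₀ hcon
    rw [h.vK, ← A.valuation_le_one_iff, map_inv₀] at h2
    have h3 : 0 < A.valuation (p : Qb) := zero_lt_iff.mpr ((Valuation.ne_zero_iff _).mpr hp0)
    rw [inv_le_one₀ h3] at h2
    exact absurd h1 (not_lt.mpr h2)
  have hvtrue : D.M.v true R = D.M.vK (p : Qb) ^ (-12 : ℤ) := by
    rw [h.v_true]
    have h1 := congrArg (D.M.v false) (W_ratioX (M := M) (p := p) w)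
    rw [map_one, map_mul, map_mul, ← hR, hvR, one_mul, C.v_alg, map_pow] at h1
    rw [zpow_neg, zpow_ofNat]
    exact (eq_inv_of_mul_eq_one_right h1)
  refine ⟨fun n => ?_, fun x hx hbr => ?_⟩
  · -- nodes
    rw [← hρR]
    set r := (D.pt false n).ord (D.M.ρ false R) with hr
    have hz0 := D.z_ne n
    have hzr0 : D.z n ^ r ≠ 0 := zpow_ne_zero _ hz0
    have hvz : D.M.v false (D.z n ^ r) = 1 := by rw [map_zpow₀, D.z_false, one_zpow]
    have h1 := D.node_compare (e := 1) (n := n) (u := R / D.z n ^ r) (g := 1)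
      (div_ne_zero hR0 hzr0) one_ne_zero
      (fun P hP => by
        rw [H31.MP.ord_div P hR0 hzr0, P.ord_zpow, D.z_unit n P hP, mul_zero, sub_zero,
          ord_ratioX P (x := jX (M * p)) rfl (h.node P n hP), Place.ord_one, mul_zero])
      (by rw [map_div₀, hvR, hvz, div_one]) (map_one _)
      (by
        rw [C.ρ_div hvR.le hvz, H31.MP.ord_div _ (C.ρ_ne_zero hvR) (C.ρ_ne_zero hvz),
          D.ρ_zpow (D.z_false n), Place.ord_zpow, D.z_ord, C.ρ_one, Place.ord_one, ← hr]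
        ring)
    rw [map_one, one_pow, map_div₀, map_zpow₀, D.z_true, hvtrue,
      div_eq_one_iff_eq (zpow_ne_zero _ hvp0)] at h1
    exact (zpow_right_injective₀ (zero_lt_iff.mpr hvp0) (ne_of_lt hvp1) h1).symm
  · -- smooth points
    rw [← hρR]
    have h1 := D.M.smooth_deg (false, x) hbr R hR0 hvR (H3RR.divOf R) (H3RR.divOf_apply hR0)
    rw [← h1]
    have h2 : H97.cls D.M.sp (H3RR.divOf R : Divisor Qb (H99.FX Qb (M * p)))
        (Sum.inl (false, x)) = H97.cls D.M.sp 0 (Sum.inl (false, x)) :=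
      H97.cls_congr D.M.sp fun P hP => by
        rw [H3RR.divOf_apply hR0, ord_ratioX P (x := jX (M * p)) rfl (h.smooth P x hP hx)]
        rfl
    rw [h2]
    simp [H97.cls]

include hA in
/-- **Final step of level lowering at `p`.** -/
theorem IsGauss.isResiduallyModular
    {D : H31.MP.Data Qb (H99.FX Qb (M * p)) kA (modularFunctionFieldFullC kA M) Γ ν G p}
    (w : H99.AL Qb M p) (h : IsGauss D w.W) (hp5 : 5 ≤ p)
    {W : WeierstrassCurve ℤ} {M₀ : ℕ} [NeZero M₀] (hM₀ : Squarefree M₀) (hdvd : M₀ ∣ M)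
    (hdvd' : M ∣ 4 * M₀) (hpM : ¬ p ∣ M)
    {E : Divisor.degZero (K := Qb) (F := FB Qb (M₀ * p))} {u : FB Qb (M₀ * p)} (hu : u ≠ 0)
    (hord : ∀ v : Place Qb (FB Qb (M₀ * p)),
      v.ord u = (p : ℤ) * (E : Divisor Qb (FB Qb (M₀ * p))) v)
    (hT : ∀ (ℓ : ℕ) (hℓ : ℓ.Prime), W.IsGoodPrimeFor ℓ → ¬ ℓ ∣ M₀ → ℓ ≠ p →
      heckeOperatorBar (M₀ * p) ⟨ℓ, hℓ⟩ (Pic0.mk E) =
        W.apOfModel ℓ • (Pic0.mk E : Pic0 Qb (FB Qb (M₀ * p))))
    {U : H99.FX Qb (M * p)} (hU : (U : LaurentSeries Qb) = (u : LaurentSeries Qb))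
    {c : Qb} (hc : D.M.v false (U / algebraMap Qb (H99.FX Qb (M * p)) c) = 1)
    (hsmooth : ∀ x, (∀ n, (false, x) ∉ D.M.br n) →
      (p : ℤ) ∣ x.ord (D.M.ρ false (U / algebraMap Qb (H99.FX Qb (M * p)) c)))
    (hnode : ∀ s s' : ν,
      (p : ℤ) ∣ (D.pt false s).ord (D.M.ρ false (U / algebraMap Qb (H99.FX Qb (M * p)) c)) -
        (D.pt false s').ord (D.M.ρ false (U / algebraMap Qb (H99.FX Qb (M * p)) c)))
    (hpow : ∀ g, D.M.ρ false (U / algebraMap Qb (H99.FX Qb (M * p)) c) ≠ g ^ p)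
    (hE : ∃ ℓ : ℕ, ℓ.Prime ∧ W.IsGoodPrimeFor ℓ ∧ ¬ ℓ ∣ M₀ ∧ ℓ ≠ p ∧
      (W.apOfModel ℓ : ZMod p) ≠ (ℓ : ZMod p) + 1) :
    W.IsResiduallyModularOfLevel p M₀ := by
  classical
  haveI : IsAlgClosed kA := H18.isAlgClosed_residueField A
  have hdeg : H42.DegLE Qb kA M := H18.degLE_of_not_dvd M hpM A hA
  haveI : H94.FunField kA (modularFunctionFieldFullC kA M) :=
    H42.funField_right (L := Qb) M hdeg
  haveI : H3RR.IsFF kA (modularFunctionFieldFullC kA M) := inferInstance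
  set gb := D.M.ρ false (U / algebraMap Qb (H99.FX Qb (M * p)) c) with hgb
  have hgb0 : gb ≠ 0 := (D.comp false).ρ_ne_zero hc
  have hred := h.red _ hc.le
  have hcoe : ((U / algebraMap Qb (H99.FX Qb (M * p)) c : H99.FX Qb (M * p)) :
      LaurentSeries Qb) = algebraMap Qb (LaurentSeries Qb) c⁻¹ * (u : LaurentSeries Qb) := by
    rw [map_inv₀, ← div_eq_inv_mul, ← hU]
    rfl
  rw [hcoe, ← hgb] at hred
  set ub : modularFunctionFieldFullC kA M := ⟨_, ubar_mem hA M hpM⟩ with hub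
  obtain ⟨hn, hs⟩ := h.ord_ubar hA w hpM (ub := ub) rfl
  obtain ⟨m, hm⟩ : ∃ m : ℤ, ∀ s : ν, (p : ℤ) ∣ (D.pt false s).ord gb - m := by
    by_cases hne : Nonempty ν
    · obtain ⟨s₀⟩ := hne
      exact ⟨(D.pt false s₀).ord gb, fun s => hnode s s₀⟩
    · exact ⟨0, fun s => absurd ⟨s⟩ hne⟩
  obtain ⟨d, hd, hd12⟩ := exists_psi hdvd hdvd'
  have hp12 : ¬ p ∣ 12 := not_dvd_twelve hp.out hp5
  refine isResiduallyModularOfLevel_of_gbar hA hM₀ hdvd hpM hd
    (fun h1 => hp12 (h1.trans hd12)) hu hord hT hgb0 hred (fun g hg => hpow g hg.symm) (ub := ub)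
    rfl (a := 12) (b := m) (fun h1 => hp12 (by exact_mod_cast h1)) (fun x hx => ?_) hE
  by_cases hx' : ∀ n, (false, x) ∉ D.M.br n
  · rw [hs x hx hx', mul_zero, add_zero]
    exact Dvd.dvd.mul_left (hsmooth x hx') _
  · push Not at hx'
    obtain ⟨n, hn'⟩ := hx'
    rw [D.mem_br] at hn'
    have hx2 : x = D.pt false n := by
      rcases hn' with h1 | h1
      · exact congrArg Prod.snd h1
      · exact absurd (congrArg Prod.fst h1) (by simp)
    rw [hx2, hn n]
    have h3 : (12 : ℤ) * (D.pt false n).ord gb + m * -12 = 12 * ((D.pt false n).ord gb - m) := by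
      ring
    rw [h3]
    exact Dvd.dvd.mul_left (hm n) _

end Gauss

end Fermat.Agent.H39
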