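import Mathlib

set_option autoImplicit false

open WeierstrassCurve WeierstrassCurve.Affine Polynomial
open scoped nonZeroDivisors Polynomial.Bivariate

noncomputable section

namespace Fermat.Agent.H39

universe u

variable {F : Type u} [Field F] {W : Affine F}

/-! ### Evaluation -/

/-- evaluation of the coordinate ring at an affine point -/
def evalPt {x y : F} (h : W.Equation x y) : W.CoordinateRing →+* F :=
  AdjoinRoot.lift (Polynomial.evalRingHom x) y (by
    have := h
    rw [WeierstrassCurve.Affine.Equation] at this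
    rw [Polynomial.eval₂_evalRingHom]
    exact this)

lemma evalPt_mk {x y : F} (h : W.Equation x y) (p : F[X][Y]) :
    evalPt h (CoordinateRing.mk W p) = p.evalEval x y := by
  rw [evalPt, CoordinateRing.mk, AdjoinRoot.lift_mk, Polynomial.eval₂_evalRingHom]

lemma evalPt_smul_basis {x y : F} (h : W.Equation x y) (p q : F[X]) :
    evalPt h (p • (1 : W.CoordinateRing) + q • CoordinateRing.mk W Y) =
      p.eval x + q.eval x * y := by
  rw [CoordinateRing.smul, CoordinateRing.smul, mul_one, map_add, map_mul, evalPt_mk, evalPt_mk,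
    evalPt_mk]
  simp [Polynomial.evalEval]

lemma evalPt_algebraMap {x y : F} (h : W.Equation x y) (c : F) :
    evalPt h (algebraMap F W.CoordinateRing c) = c := by
  have : algebraMap F W.CoordinateRing c = CoordinateRing.mk W (C (C c)) := rfl
  rw [this, evalPt_mk]
  simp [Polynomial.evalEval]

lemma evalPt_algebraMap_poly {x y : F} (h : W.Equation x y) (p : F[X]) :
    evalPt h (algebraMap F[X] W.CoordinateRing p) = p.eval x := by
  have : algebraMap F[X] W.CoordinateRing p = CoordinateRing.mk W (C p) := rfl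
  rw [this, evalPt_mk]
  simp [Polynomial.evalEval]

/-! ### Conjugation -/

variable (W) in
/-- the automorphism of the coordinate ring induced by `P ↦ -P` -/
def conj : W.CoordinateRing →+* W.CoordinateRing :=
  AdjoinRoot.lift (AdjoinRoot.of W.polynomial) (CoordinateRing.mk W W.negPolynomial) (by
    have h : (W.polynomial).eval₂ (AdjoinRoot.of W.polynomial)
        (CoordinateRing.mk W W.negPolynomial) =
        CoordinateRing.mk W ((W.polynomial).eval₂ C W.negPolynomial) := by
      rw [Polynomial.hom_eval₂]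
      rfl
    rw [h]
    refine AdjoinRoot.mk_eq_zero.mpr ⟨1, ?_⟩
    simp only [WeierstrassCurve.Affine.polynomial, WeierstrassCurve.Affine.negPolynomial,
      Polynomial.eval₂_sub, Polynomial.eval₂_add, Polynomial.eval₂_mul, Polynomial.eval₂_pow,
      Polynomial.eval₂_X, Polynomial.eval₂_C, mul_one]
    ring1)

lemma conj_mk (p : F[X][Y]) :
    conj W (CoordinateRing.mk W p) = CoordinateRing.mk W (p.eval₂ C W.negPolynomial) := by
  rw [conj, AdjoinRoot.lift_mk, Polynomial.hom_eval₂]
  rfl

lemma conj_smul_basis (p q : F[X]) :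
    conj W (p • (1 : W.CoordinateRing) + q • CoordinateRing.mk W Y) =
      CoordinateRing.mk W (C p + C q * (-(Y : F[X][Y]) - C (C W.a₁ * X + C W.a₃))) := by
  rw [CoordinateRing.smul, CoordinateRing.smul, mul_one, map_add, map_mul, conj_mk, conj_mk,
    conj_mk, map_add, map_mul]
  simp [WeierstrassCurve.Affine.negPolynomial]

lemma coe_norm (r : W.CoordinateRing) :
    algebraMap F[X] W.CoordinateRing (Algebra.norm F[X] r) = r * conj W r := by
  obtain ⟨p, q, rfl⟩ := CoordinateRing.exists_smul_basis_eq r
  rw [conj_smul_basis]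
  have h := CoordinateRing.coe_norm_smul_basis (W' := W) p q
  have h2 : algebraMap F[X] W.CoordinateRing
      (Algebra.norm F[X] (p • (1 : W.CoordinateRing) + q • CoordinateRing.mk W Y)) =
      ((Algebra.norm F[X] (p • 1 + q • CoordinateRing.mk W Y) : F[X]) : W.CoordinateRing) := rfl
  rw [h2, h, map_mul]
  congr 1
  rw [CoordinateRing.smul, CoordinateRing.smul, mul_one, ← map_mul, ← map_add]

lemma conj_conj (r : W.CoordinateRing) : conj W (conj W r) = r := by
  obtain ⟨p, q, rfl⟩ := CoordinateRing.exists_smul_basis_eq r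
  rw [conj_smul_basis, conj_mk]
  rw [CoordinateRing.smul, CoordinateRing.smul, mul_one, ← map_mul, ← map_add]
  congr 1
  simp only [WeierstrassCurve.Affine.negPolynomial,
      Polynomial.eval₂_sub, Polynomial.eval₂_add, Polynomial.eval₂_mul, Polynomial.eval₂_neg,
      Polynomial.eval₂_X, Polynomial.eval₂_C]
  ring

lemma evalPt_conj {x y : F} (h : W.Equation x y) (h' : W.Equation x (W.negY x y))
    (r : W.CoordinateRing) : evalPt h (conj W r) = evalPt h' r := by
  obtain ⟨p, q, rfl⟩ := CoordinateRing.exists_smul_basis_eq r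
  rw [conj_smul_basis, evalPt_mk, evalPt_smul_basis]
  simp only [evalEval_add, evalEval_mul, evalEval_C, evalEval_sub, evalEval_neg, evalEval_X,
    WeierstrassCurve.Affine.negY, eval_add, eval_mul, eval_C, eval_X]
  ring

lemma norm_conj (r : W.CoordinateRing) :
    Algebra.norm F[X] (conj W r) = Algebra.norm F[X] r := by
  apply FaithfulSMul.algebraMap_injective F[X] W.CoordinateRing
  rw [coe_norm, coe_norm, conj_conj, mul_comm]

/-! ### Degree -/

/-- the degree (pole order at infinity) of an element of the coordinate ring -/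
def deg (r : W.CoordinateRing) : ℕ := (Algebra.norm F[X] r).natDegree

lemma norm_ne_zero {r : W.CoordinateRing} (hr : r ≠ 0) : Algebra.norm F[X] r ≠ 0 :=
  Algebra.norm_ne_zero_iff_of_basis (CoordinateRing.basis W) |>.mpr hr

lemma deg_mul {r s : W.CoordinateRing} (hr : r ≠ 0) (hs : s ≠ 0) :
    deg (r * s) = deg r + deg s := by
  rw [deg, map_mul, Polynomial.natDegree_mul (norm_ne_zero hr) (norm_ne_zero hs)]; rfl

lemma deg_pow (r : W.CoordinateRing) (k : ℕ) :
    deg (r ^ k) = k * deg r := by
  rw [deg, map_pow, Polynomial.natDegree_pow]; rfl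

lemma deg_conj (r : W.CoordinateRing) : deg (conj W r) = deg r := by
  rw [deg, norm_conj, deg]


lemma norm_degree_smul_basis (p q : F[X]) :
    (Algebra.norm F[X] (p • (1 : W.CoordinateRing) + q • CoordinateRing.mk W Y)).degree =
      max (2 • p.degree) (2 • q.degree + 3) :=
  CoordinateRing.degree_norm_smul_basis p q

variable (W) in
/-- elements of the coordinate ring with pole order at most `n` at infinity -/
def Ldeg (n : ℕ) : Submodule F W.CoordinateRing where
  carrier := {r | (Algebra.norm F[X] r).degree ≤ n}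
  zero_mem' := by
    have h0 : (0 : W.CoordinateRing) = (0 : F[X]) • (1 : W.CoordinateRing) +
      (0 : F[X]) • CoordinateRing.mk W Y := by simp
    rw [Set.mem_ofPred_eq, h0, norm_degree_smul_basis]
    simp
  add_mem' := by
    intro a b ha hb
    obtain ⟨p, q, rfl⟩ := CoordinateRing.exists_smul_basis_eq a
    obtain ⟨p', q', rfl⟩ := CoordinateRing.exists_smul_basis_eq b
    have h0 : p • (1 : W.CoordinateRing) + q • CoordinateRing.mk W Y +
      (p' • (1 : W.CoordinateRing) + q' • CoordinateRing.mk W Y) =
      (p + p') • (1 : W.CoordinateRing) + (q + q') • CoordinateRing.mk W Y := by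
      rw [add_smul, add_smul]; ring
    rw [Set.mem_ofPred_eq] at ha hb ⊢
    rw [h0]
    rw [norm_degree_smul_basis] at ha hb ⊢
    rw [max_le_iff] at ha hb ⊢
    constructor
    · rcases le_total p.degree p'.degree with h | h
      · exact (nsmul_le_nsmul_right ((degree_add_le _ _).trans (max_le h le_rfl)) 2).trans hb.1
      · exact (nsmul_le_nsmul_right ((degree_add_le _ _).trans (max_le le_rfl h)) 2).trans ha.1
    · rcases le_total q.degree q'.degree with h | h
      · exact (add_le_add_left (nsmul_le_nsmul_right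
          ((degree_add_le _ _).trans (max_le h le_rfl)) 2) 3).trans hb.2
      · exact (add_le_add_left (nsmul_le_nsmul_right
          ((degree_add_le _ _).trans (max_le le_rfl h)) 2) 3).trans ha.2
  smul_mem' := by
    intro c a ha
    rw [Set.mem_ofPred_eq] at ha ⊢
    have h1 : algebraMap F W.CoordinateRing c = algebraMap F[X] W.CoordinateRing (C c) := rfl
    rw [Algebra.smul_def, map_mul, h1, Algebra.norm_algebraMap_of_basis (CoordinateRing.basis W),
      ← C_pow]
    exact (degree_mul_le _ _).trans (by
      calc _ ≤ (0 : WithBot ℕ) + _ := by gcongr; exact degree_C_le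
        _ ≤ _ := by simpa using ha)

lemma mem_Ldeg_iff_degree {n : ℕ} {r : W.CoordinateRing} :
    r ∈ Ldeg W n ↔ (Algebra.norm F[X] r).degree ≤ n := Iff.rfl

lemma mem_Ldeg_iff {n : ℕ} {r : W.CoordinateRing} : r ∈ Ldeg W n ↔ deg r ≤ n := by
  rw [mem_Ldeg_iff_degree, deg, natDegree_le_iff_degree_le]

lemma smul_basis_mem_Ldeg_iff {n : ℕ} (p q : F[X]) :
    p • (1 : W.CoordinateRing) + q • CoordinateRing.mk W Y ∈ Ldeg W n ↔
      2 • p.degree ≤ n ∧ 2 • q.degree + 3 ≤ n := by
  rw [mem_Ldeg_iff_degree, norm_degree_smul_basis, max_le_iff]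

lemma Ldeg_mono {m n : ℕ} (h : m ≤ n) : Ldeg W m ≤ Ldeg W n := by
  intro r hr
  rw [mem_Ldeg_iff] at hr ⊢
  exact hr.trans h

lemma mul_mem_Ldeg {m n : ℕ} {r s : W.CoordinateRing} (hr : r ∈ Ldeg W m) (hs : s ∈ Ldeg W n) :
    r * s ∈ Ldeg W (m + n) := by
  by_cases hr0 : r = 0
  · rw [hr0, zero_mul]; exact Submodule.zero_mem _
  by_cases hs0 : s = 0
  · rw [hs0, mul_zero]; exact Submodule.zero_mem _
  rw [mem_Ldeg_iff] at hr hs ⊢
  rw [deg_mul hr0 hs0]
  exact add_le_add hr hs

lemma pow_mem_Ldeg {m : ℕ} {r : W.CoordinateRing} (hr : r ∈ Ldeg W m) (k : ℕ) :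
    r ^ k ∈ Ldeg W (k * m) := by
  rw [mem_Ldeg_iff] at hr ⊢
  rw [deg_pow]
  exact Nat.mul_le_mul_left k hr

lemma algebraMap_mem_Ldeg (c : F) (n : ℕ) : algebraMap F W.CoordinateRing c ∈ Ldeg W n := by
  have h1 : algebraMap F W.CoordinateRing c = algebraMap F[X] W.CoordinateRing (C c) := rfl
  rw [mem_Ldeg_iff, deg, h1, Algebra.norm_algebraMap_of_basis (CoordinateRing.basis W),
      ← C_pow, natDegree_C]
  exact Nat.zero_le _

lemma one_mem_Ldeg (n : ℕ) : (1 : W.CoordinateRing) ∈ Ldeg W n := by
  have := algebraMap_mem_Ldeg (W := W) 1 n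
  rwa [map_one] at this

lemma eq_algebraMap_of_deg_eq_zero {r : W.CoordinateRing} (hr : deg r = 0) :
    ∃ c : F, r = algebraMap F W.CoordinateRing c := by
  obtain ⟨p, q, rfl⟩ := CoordinateRing.exists_smul_basis_eq r
  have h : p • (1 : W.CoordinateRing) + q • CoordinateRing.mk W Y ∈ Ldeg W 0 := by
    rw [mem_Ldeg_iff, hr]
  rw [smul_basis_mem_Ldeg_iff] at h
  obtain ⟨h1, h2⟩ := h
  have hq : q = 0 := by
    by_contra hq
    rw [degree_eq_natDegree hq] at h2
    have : 2 • (q.natDegree : WithBot ℕ) + 3 = ((2 * q.natDegree + 3 : ℕ) : WithBot ℕ) := by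
      push_cast; rw [nsmul_eq_mul]; rfl
    rw [this] at h2
    have h3 : 2 * q.natDegree + 3 ≤ 0 := by exact_mod_cast h2
    omega
  have hp : p.degree ≤ 0 := by
    by_cases hp : p = 0
    · rw [hp, degree_zero]; exact bot_le
    rw [degree_eq_natDegree hp] at h1 ⊢
    have : 2 • (p.natDegree : WithBot ℕ) = ((2 * p.natDegree : ℕ) : WithBot ℕ) := by
      push_cast; rw [nsmul_eq_mul]; rfl
    rw [this] at h1
    have h2 : 2 * p.natDegree ≤ 0 := by exact_mod_cast h1
    have h3 : p.natDegree = 0 := by omega
    rw [h3]; exact le_rfl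
  refine ⟨p.coeff 0, ?_⟩
  rw [hq, zero_smul, add_zero, eq_C_of_degree_le_zero hp, CoordinateRing.smul, mul_one, coeff_C_zero]
  rfl

instance Ldeg_finite (n : ℕ) : Module.Finite F (Ldeg W n) := by
  have hfd : FiniteDimensional F (degreeLE F n) := by
    classical
    rw [degreeLE_eq_span_X_pow]
    exact FiniteDimensional.span_finset F _
  let g : (degreeLE F n) × (degreeLE F n) →ₗ[F] W.CoordinateRing :=
    LinearMap.coprod
      (((LinearMap.toSpanSingleton F[X] W.CoordinateRing 1).restrictScalars F).comp
        (degreeLE F n).subtype)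
      (((LinearMap.toSpanSingleton F[X] W.CoordinateRing (CoordinateRing.mk W Y)).restrictScalars
        F).comp (degreeLE F n).subtype)
  have hle : Ldeg W n ≤ LinearMap.range g := by
    intro r hr
    obtain ⟨p, q, rfl⟩ := CoordinateRing.exists_smul_basis_eq r
    rw [smul_basis_mem_Ldeg_iff] at hr
    have hp : p ∈ degreeLE F n := by
      rw [mem_degreeLE]
      refine le_trans ?_ hr.1
      by_cases hp : p = 0
      · rw [hp, degree_zero]; exact bot_le
      rw [degree_eq_natDegree hp, two_nsmul]
      exact_mod_cast Nat.le_add_left _ _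
    have hq : q ∈ degreeLE F n := by
      rw [mem_degreeLE]
      refine le_trans ?_ hr.2
      by_cases hp : q = 0
      · rw [hp, degree_zero]; exact bot_le
      rw [degree_eq_natDegree hp, two_nsmul]
      exact_mod_cast (by omega : q.natDegree ≤ q.natDegree + q.natDegree + 3)
    exact ⟨(⟨p, hp⟩, ⟨q, hq⟩), by simp [g]⟩
  exact Submodule.finiteDimensional_of_le hle

/-! ### Functions on points -/

/-- the function on points attached to an element of the coordinate ring (junk value 0 at infinity) -/
def fn (r : W.CoordinateRing) : W.Point → F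
  | .zero => 0
  | .some _ _ h => evalPt h.1 r

@[simp] lemma fn_zero_pt (r : W.CoordinateRing) : fn r (0 : W.Point) = 0 := rfl

@[simp] lemma fn_some (r : W.CoordinateRing) {x y : F} (h : W.Nonsingular x y) :
    fn r (Point.some x y h) = evalPt h.1 r := rfl

variable (W) in
/-- `fn` as a linear map -/
def fnLin : W.CoordinateRing →ₗ[F] (W.Point → F) where
  toFun := fn
  map_add' r s := by
    funext P
    rcases P with _ | ⟨x, y, h⟩
    · simp [fn]
    · simp [fn]
  map_smul' c r := by
    funext P
    rcases P with _ | ⟨x, y, h⟩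
    · simp [fn]
    · simp [fn, Algebra.smul_def, evalPt_algebraMap]

@[simp] lemma fnLin_apply (r : W.CoordinateRing) : fnLin W r = fn r := rfl

lemma fn_mul (r s : W.CoordinateRing) (P : W.Point) : fn (r * s) P = fn r P * fn s P := by
  rcases P with _ | ⟨x, y, h⟩
  · simp [fn]
  · simp [fn]

lemma fn_pow (r : W.CoordinateRing) (k : ℕ) {P : W.Point} (hP : P ≠ 0) :
    fn (r ^ k) P = fn r P ^ k := by
  rcases P with _ | ⟨x, y, h⟩
  · exact absurd rfl hP
  · simp [fn]

lemma fn_add (r s : W.CoordinateRing) (P : W.Point) : fn (r + s) P = fn r P + fn s P := by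
  rcases P with _ | ⟨x, y, h⟩
  · simp [fn]
  · simp [fn]

lemma fn_sub (r s : W.CoordinateRing) (P : W.Point) : fn (r - s) P = fn r P - fn s P := by
  rcases P with _ | ⟨x, y, h⟩
  · simp [fn]
  · simp [fn]

lemma fn_neg_pt (r : W.CoordinateRing) (P : W.Point) : fn r (-P) = fn (conj W r) P := by
  rcases P with _ | ⟨x, y, h⟩
  · rfl
  · rw [Point.neg_some, fn_some, fn_some, evalPt_conj]

lemma fn_algebraMap (c : F) {P : W.Point} (hP : P ≠ 0) :
    fn (algebraMap F W.CoordinateRing c) P = c := by
  rcases P with _ | ⟨x, y, h⟩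
  · exact absurd rfl hP
  · simp [fn, evalPt_algebraMap]

lemma fn_one {P : W.Point} (hP : P ≠ 0) : fn (1 : W.CoordinateRing) P = 1 := by
  rcases P with _ | ⟨x, y, h⟩
  · exact absurd rfl hP
  · simp [fn]

/-- evaluation as an algebra hom -/
def evalAlg {x y : F} (h : W.Equation x y) : W.CoordinateRing →ₐ[F] F :=
  { evalPt h with commutes' := evalPt_algebraMap h }

lemma evalAlg_apply {x y : F} (h : W.Equation x y) (r : W.CoordinateRing) :
    evalAlg h r = evalPt h r := rfl

lemma evalPt_X {x y : F} (h : W.Equation x y) :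
    evalPt h (CoordinateRing.mk W (C X)) = x := by
  rw [evalPt_mk]; simp [Polynomial.evalEval]

lemma evalPt_Y {x y : F} (h : W.Equation x y) :
    evalPt h (CoordinateRing.mk W Y) = y := by
  rw [evalPt_mk]; simp [Polynomial.evalEval]

/-- the number of zeros of a nonzero function is at most its degree -/
theorem card_zeros_le [DecidableEq F] {r : W.CoordinateRing} (hr : r ≠ 0) (s : Finset W.Point)
    (hs : ∀ P ∈ s, P ≠ 0 ∧ fn r P = 0) : s.card ≤ deg r := by
  classical
  by_cases hd : deg r = 0
  · obtain ⟨c, rfl⟩ := eq_algebraMap_of_deg_eq_zero hd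
    rw [Nat.le_iff_lt_or_eq]; right
    rw [hd, Finset.card_eq_zero, Finset.eq_empty_iff_forall_notMem]
    intro P hP
    obtain ⟨hP0, h1⟩ := hs P hP
    rw [fn_algebraMap c hP0] at h1
    rw [h1, map_zero] at hr
    exact hr rfl
  · have hfr : Module.finrank F (W.CoordinateRing ⧸ Ideal.span {r}) = deg r :=
      finrank_quotient_span_eq_natDegree_norm (CoordinateRing.basis W) hr
    have hfin : Module.Finite F (W.CoordinateRing ⧸ Ideal.span {r}) :=
      Module.finite_of_finrank_pos (by rw [hfr]; exact Nat.pos_of_ne_zero hd)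
    -- algebra homs
    have hli := linearIndependent_algHom_toLinearMap F (W.CoordinateRing ⧸ Ideal.span {r}) F
    have hx : ∀ P : s, ∃ (x y : F) (h : W.Nonsingular x y), (P : W.Point) = Point.some x y h ∧
        evalPt h.1 r = 0 := by
      rintro ⟨P, hP⟩
      obtain ⟨h0, h1⟩ := hs P hP
      rcases P with _ | ⟨x, y, h⟩
      · exact absurd rfl h0
      · exact ⟨x, y, h, rfl, h1⟩
    choose x y h hPe hz using hx
    let g : s → ((W.CoordinateRing ⧸ Ideal.span {r}) →ₐ[F] F) := fun P =>
      Ideal.Quotient.liftₐ (Ideal.span {r}) (evalAlg (h P).1) (by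
        intro a ha
        rw [Ideal.mem_span_singleton'] at ha
        obtain ⟨b, rfl⟩ := ha
        rw [map_mul, evalAlg_apply (h P).1 r, hz P, mul_zero])
    have hg : Function.Injective g := by
      intro P Q hPQ
      have hX : evalPt (h P).1 (CoordinateRing.mk W (C X)) =
          evalPt (h Q).1 (CoordinateRing.mk W (C X)) := by
        exact DFunLike.congr_fun hPQ (Ideal.Quotient.mk _ (CoordinateRing.mk W (C X)))
      have hY : evalPt (h P).1 (CoordinateRing.mk W Y) =
          evalPt (h Q).1 (CoordinateRing.mk W Y) := by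
        exact DFunLike.congr_fun hPQ (Ideal.Quotient.mk _ (CoordinateRing.mk W Y))
      rw [evalPt_X, evalPt_X] at hX
      rw [evalPt_Y, evalPt_Y] at hY
      apply Subtype.ext
      rw [hPe P, hPe Q]
      simp only [hX, hY]
    have hli2 := hli.comp g hg
    have h3 := hli2.fintype_card_le_finrank
    rw [Fintype.card_coe] at h3
    refine h3.trans ?_
    have h4 : Module.finrank F ((W.CoordinateRing ⧸ Ideal.span {r}) →ₗ[F] F) =
        Module.finrank F (W.CoordinateRing ⧸ Ideal.span {r}) := Subspace.dual_finrank_eq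
    rw [h4, hfr]

lemma finite_zeros {r : W.CoordinateRing} (hr : r ≠ 0) :
    {P : W.Point | P ≠ 0 ∧ fn r P = 0}.Finite := by
  classical
  by_contra h
  obtain ⟨s, hs, hc⟩ := Set.Infinite.exists_subset_card_eq h (deg r + 1)
  have := card_zeros_le hr s (fun P hP => hs hP)
  omega

lemma eventually_ne_zero {r : W.CoordinateRing} (hr : r ≠ 0) :
    ∀ᶠ P : W.Point in Filter.cofinite, P ≠ 0 ∧ fn r P ≠ 0 := by
  rw [Filter.eventually_cofinite]
  refine ((Set.finite_singleton (0 : W.Point)).union (finite_zeros hr)).subset ?_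
  intro P hP
  simp only [Set.mem_ofPred_eq, not_and_or, not_not] at hP
  rcases hP with h | h
  · left; exact h
  · by_cases h0 : P = 0
    · left; exact h0
    · right; exact ⟨h0, h⟩

/-- an affine curve over an algebraically closed field has infinitely many points -/
lemma infinite_point [IsAlgClosed F] [W.IsElliptic] : Infinite W.Point := by
  have hx : ∀ x : F, ∃ y : F, W.Equation x y := by
    intro x
    have hd : ((W.polynomial).map (Polynomial.evalRingHom x)).degree ≠ 0 := by
      rw [Polynomial.Monic.degree_map WeierstrassCurve.Affine.monic_polynomial,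
        WeierstrassCurve.Affine.degree_polynomial]
      norm_num
    obtain ⟨y, hy⟩ := IsAlgClosed.exists_root _ hd
    refine ⟨y, ?_⟩
    rw [WeierstrassCurve.Affine.Equation, ← Polynomial.eval₂_evalRingHom, ← Polynomial.eval_map]
    exact hy
  choose y hy using hx
  haveI : Infinite F := IsAlgClosed.instInfinite
  exact Infinite.of_injective (fun x : F => (Point.mk (hy x) : W.Point)) (by
    intro a b hab
    simp only [Point.mk, Point.some.injEq] at hab
    exact hab.1)

/-- functions in the coordinate ring that agree at almost all points are equal -/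
lemma eq_of_eventually_eq [IsAlgClosed F] [W.IsElliptic] {r s : W.CoordinateRing}
    (h : ∀ᶠ P : W.Point in Filter.cofinite, fn r P = fn s P) : r = s := by
  haveI := infinite_point (W := W)
  by_contra hne
  have h1 := eventually_ne_zero (W := W) (sub_ne_zero.mpr hne)
  obtain ⟨P, hP1, hP2⟩ := (h.and h1).exists
  apply hP2.2
  rw [fn_sub, hP1, sub_self]

lemma fnLin_injective [IsAlgClosed F] [W.IsElliptic] : Function.Injective (fnLin W) := by
  intro r s h
  exact eq_of_eventually_eq (Filter.Eventually.of_forall fun P => congrFun h P)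

end Fermat.Agent.H39
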