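import Fermat.Agent.H39WeilMain
import Fermat.Prelude.Def_FreyPackage_DetCyclotomic

set_option autoImplicit false
set_option linter.unusedSectionVars false
set_option linter.style.haveILetI false

open WeierstrassCurve WeierstrassCurve.Affine
open scoped WeierstrassCurve.Affine

noncomputable section

namespace Fermat.Agent.H39

universe r s v

variable {R : Type r} {S : Type s} {K : Type v} [CommRing R] [CommRing S] [Field K]
  [DecidableEq K] [Algebra R S] [Algebra R K] [Algebra S K]
  [IsScalarTower R S K]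

/-- the Galois action on points as an additive equivalence -/
def galAddEquiv (W' : Affine R) (σ : K ≃ₐ[S] K) : (W'⁄K).Point ≃+ (W'⁄K).Point where
  toFun P := σ • P
  invFun P := σ⁻¹ • P
  left_inv P := inv_smul_smul σ P
  right_inv P := smul_inv_smul σ P
  map_add' P Q := smul_add σ P Q

lemma galAddEquiv_some (W' : Affine R) (σ : K ≃ₐ[S] K) (x y : K)
    (h : (W'⁄K).Nonsingular x y) :
    ∃ h', galAddEquiv W' σ (Point.some x y h) = Point.some ((σ : K ≃+* K) x) ((σ : K ≃+* K) y) h' :=
  ⟨_, rfl⟩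

lemma nsmul_coe_torsionBy {W' : Affine R} {n : ℕ}
    (P : Submodule.torsionBy ℤ (W'⁄K).Point n) : n • (P : (W'⁄K).Point) = 0 := by
  have := P.2
  rw [Submodule.mem_torsionBy_iff] at this
  rw [← natCast_zsmul]
  exact this

variable [IsAlgClosed K] (W' : Affine R) [WeierstrassCurve.IsElliptic (W'⁄K)]

/-- The Weil pairing on `E[n]`, as a function on the `n`-torsion submodule. -/
def weilTors (n : ℕ) (P Q : Submodule.torsionBy ℤ (W'⁄K).Point n) : K :=
  weil n (P : (W'⁄K).Point) (Q : (W'⁄K).Point)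

variable {W'} {n : ℕ}

theorem weilTors_add_left (P P' Q : Submodule.torsionBy ℤ (W'⁄K).Point n) :
    weilTors W' n (P + P') Q = weilTors W' n P Q * weilTors W' n P' Q :=
  weil_add_left (nsmul_coe_torsionBy P) (nsmul_coe_torsionBy P') (nsmul_coe_torsionBy Q)

theorem weilTors_add_right (P Q Q' : Submodule.torsionBy ℤ (W'⁄K).Point n) :
    weilTors W' n P (Q + Q') = weilTors W' n P Q * weilTors W' n P Q' :=
  weil_add_right (nsmul_coe_torsionBy P) (nsmul_coe_torsionBy Q) (nsmul_coe_torsionBy Q')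

theorem weilTors_self (P : Submodule.torsionBy ℤ (W'⁄K).Point n) : weilTors W' n P P = 1 :=
  weil_self (nsmul_coe_torsionBy P)

theorem weilTors_pow (P Q : Submodule.torsionBy ℤ (W'⁄K).Point n) :
    weilTors W' n P Q ^ n = 1 :=
  weil_pow_eq_one (nsmul_coe_torsionBy P) (nsmul_coe_torsionBy Q)

theorem weilTors_ne_zero (P Q : Submodule.torsionBy ℤ (W'⁄K).Point n) :
    weilTors W' n P Q ≠ 0 :=
  weil_ne_zero (nsmul_coe_torsionBy P) (nsmul_coe_torsionBy Q)

theorem weilTors_smul (σ : K ≃ₐ[S] K) (P Q : Submodule.torsionBy ℤ (W'⁄K).Point n) :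
    weilTors W' n (σ • P) (σ • Q) = σ (weilTors W' n P Q) :=
  weil_equivariant (σ : K ≃+* K) (galAddEquiv W' σ) (galAddEquiv_some W' σ)
    (nsmul_coe_torsionBy P) (nsmul_coe_torsionBy Q)

/-- if `P, Q` is a basis of `E[n]` (`n ≥ 3`) then `e(P,Q)` is a primitive `n`-th root of unity -/
theorem isPrimitiveRoot_weilTors (hn : 3 ≤ n) (P Q : Submodule.torsionBy ℤ (W'⁄K).Point n)
    (hinj : ∀ i j i' j' : ℕ, i < n → j < n → i' < n → j' < n →
      i • P + j • Q = i' • P + j' • Q → i = i' ∧ j = j') :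
    IsPrimitiveRoot (weilTors W' n P Q) n :=
  isPrimitiveRoot_weil hn (nsmul_coe_torsionBy P) (nsmul_coe_torsionBy Q) (by
    intro i j i' j' hi hj hi' hj' h
    apply hinj i j i' j' hi hj hi' hj'
    apply Subtype.ext
    simpa using h)

/-- if `E[n]` is free of rank two over `ZMod n` (`n ≥ 3`) with basis `b`, then `e(b 0, b 1)` is a
primitive `n`-th root of unity -/
theorem isPrimitiveRoot_weilTors_basis (hn : 3 ≤ n)
    (b : Module.Basis (Fin 2) (ZMod n) (Submodule.torsionBy ℤ (W'⁄K).Point n)) :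
    IsPrimitiveRoot (weilTors W' n (b 0) (b 1)) n := by
  apply isPrimitiveRoot_weilTors hn
  intro i j i' j' hi hj hi' hj' h
  have hcast : ∀ (k : ℕ) (P : Submodule.torsionBy ℤ (W'⁄K).Point n), k • P = (k : ZMod n) • P := by
    intro k P
    rw [Nat.cast_smul_eq_nsmul]
  rw [hcast, hcast, hcast, hcast] at h
  have h0 := congrArg (fun x => b.repr x 0) h
  have h1 := congrArg (fun x => b.repr x 1) h
  simp at h0 h1
  haveI : NeZero n := ⟨by omega⟩
  constructor
  · have := congrArg ZMod.val h0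
    rwa [ZMod.val_cast_of_lt hi, ZMod.val_cast_of_lt hi'] at this
  · have := congrArg ZMod.val h1
    rwa [ZMod.val_cast_of_lt hj, ZMod.val_cast_of_lt hj'] at this

end Fermat.Agent.H39
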