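import Fermat.Agent.H39WeilTranslate

set_option autoImplicit false

open WeierstrassCurve WeierstrassCurve.Affine Polynomial
open scoped nonZeroDivisors Polynomial.Bivariate

noncomputable section

namespace Fermat.Agent.H39

universe u

variable {F : Type u} [Field F] {W : Affine F}

lemma XClass_ne_zero' (xs : F) : CoordinateRing.XClass W xs ≠ 0 :=
  CoordinateRing.XClass_ne_zero xs

lemma deg_XClass (xs : F) : deg (CoordinateRing.XClass W xs) = 2 := by
  have : CoordinateRing.XClass W xs = (X - C xs) • (1 : W.CoordinateRing) +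
      (0 : F[X]) • CoordinateRing.mk W Y := by
    rw [zero_smul, add_zero, CoordinateRing.smul, mul_one]; rfl
  rw [this, deg, CoordinateRing.norm_smul_basis]
  have : (X - C xs) ^ 2 - (X - C xs) * 0 * (C W.a₁ * X + C W.a₃) -
      0 ^ 2 * (X ^ 3 + C W.a₂ * X ^ 2 + C W.a₄ * X + C W.a₆) = (X - C xs) ^ 2 := by ring
  rw [this, natDegree_pow, natDegree_X_sub_C]

lemma deg_eq_zero_of_isUnit {u : W.CoordinateRing} (hu : IsUnit u) : deg u = 0 := by
  obtain ⟨v, hv⟩ := hu.exists_right_inv
  have hu0 : u ≠ 0 := hu.ne_zero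
  have hv0 : v ≠ 0 := right_ne_zero_of_mul_eq_one hv
  have h := deg_mul hu0 hv0
  have h1 : deg (1 : W.CoordinateRing) = 0 := by
    rw [deg, map_one, natDegree_one]
  rw [hv, h1] at h
  omega

lemma deg_eq_of_span_eq {a b : W.CoordinateRing} (hb : b ≠ 0)
    (h : Ideal.span {a} = Ideal.span {b}) : deg a = deg b := by
  rw [Ideal.span_singleton_eq_span_singleton] at h
  obtain ⟨u, rfl⟩ := h.symm
  rw [deg_mul hb u.ne_zero, deg_eq_zero_of_isUnit u.isUnit, add_zero]

lemma conj_XClass (x : F) : conj W (CoordinateRing.XClass W x) = CoordinateRing.XClass W x := by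
  rw [CoordinateRing.XClass, conj_mk, eval₂_C]

lemma conj_YClass (x y : F) : conj W (CoordinateRing.YClass W (C y)) =
    - CoordinateRing.YClass W (C (W.negY x y)) -
      CoordinateRing.mk W (C (C W.a₁)) * CoordinateRing.XClass W x := by
  rw [CoordinateRing.YClass, CoordinateRing.YClass, CoordinateRing.XClass, conj_mk, ← map_neg,
    ← map_mul, ← map_sub]
  congr 1
  simp only [eval₂_sub, eval₂_X, eval₂_C, negPolynomial, negY, C_neg, C_sub, C_mul, C_add]
  ring

lemma map_conj_XYIdeal (x y : F) : (CoordinateRing.XYIdeal W x (C y)).map (conj W) =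
    CoordinateRing.XYIdeal W x (C (W.negY x y)) := by
  rw [CoordinateRing.XYIdeal, Ideal.map_span, Set.image_pair, conj_XClass, conj_YClass x y,
    CoordinateRing.XYIdeal]
  apply le_antisymm
  · rw [Ideal.span_le]
    rintro z (rfl | rfl)
    · exact Ideal.subset_span (by simp)
    · exact Ideal.sub_mem _ (Ideal.neg_mem_iff _ |>.mpr (Ideal.subset_span (by simp)))
        (Ideal.mul_mem_left _ _ (Ideal.subset_span (by simp)))
  · rw [Ideal.span_le]
    have hx : CoordinateRing.XClass W x ∈ Ideal.span {CoordinateRing.XClass W x,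
      - CoordinateRing.YClass W (C (W.negY x y)) -
      CoordinateRing.mk W (C (C W.a₁)) * CoordinateRing.XClass W x} :=
      Ideal.subset_span (by simp)
    have h2 : (- CoordinateRing.YClass W (C (W.negY x y)) -
        CoordinateRing.mk W (C (C W.a₁)) * CoordinateRing.XClass W x) ∈
        Ideal.span {CoordinateRing.XClass W x,
      - CoordinateRing.YClass W (C (W.negY x y)) -
      CoordinateRing.mk W (C (C W.a₁)) * CoordinateRing.XClass W x} :=
        Ideal.subset_span (by simp)
    generalize Ideal.span {CoordinateRing.XClass W x,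
      - CoordinateRing.YClass W (C (W.negY x y)) -
      CoordinateRing.mk W (C (C W.a₁)) * CoordinateRing.XClass W x} = J at hx h2 ⊢
    rintro z (rfl | rfl)
    · exact hx
    · have h3 := Ideal.sub_mem _ (Ideal.neg_mem_iff _ |>.mpr h2)
        (Ideal.mul_mem_left _ (CoordinateRing.mk W (C (C W.a₁))) hx)
      have h4 : CoordinateRing.YClass W (C (W.negY x y)) =
        -(- CoordinateRing.YClass W (C (W.negY x y)) -
        CoordinateRing.mk W (C (C W.a₁)) * CoordinateRing.XClass W x) -
        CoordinateRing.mk W (C (C W.a₁)) * CoordinateRing.XClass W x := by ring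
      rw [SetLike.mem_coe, h4]
      exact h3

lemma XYIdeal_pow_mul {x y : F} (h : W.Nonsingular x y) (n : ℕ) :
    CoordinateRing.XYIdeal W x (C (W.negY x y)) ^ n * CoordinateRing.XYIdeal W x (C y) ^ n =
      Ideal.span {CoordinateRing.XClass W x ^ n} := by
  rw [← mul_pow, CoordinateRing.XYIdeal_neg_mul h, CoordinateRing.XIdeal,
    Ideal.span_singleton_pow]

lemma exists_generator [DecidableEq F] {x y : F} (h : W.Nonsingular x y) {n : ℕ}
    (hn : n • Point.some x y h = 0) :
    ∃ f : W.CoordinateRing, f ≠ 0 ∧ CoordinateRing.XYIdeal W x (C y) ^ n = Ideal.span {f} ∧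
      deg f = n ∧ ∀ (x' y' : F) (h' : W.Nonsingular x' y'),
        Point.some x' y' h' ≠ Point.some x y h → evalPt h'.1 f ≠ 0 := by
  have h1 : Point.toClass (n • Point.some x y h) = 0 := by rw [hn, map_zero]
  rw [map_nsmul, Point.toClass_some] at h1
  have h2 : ClassGroup.mk W.FunctionField (CoordinateRing.XYIdeal' (W := W) h ^ n) = 1 := by
    rw [map_pow]; exact h1
  have h3 : ((CoordinateRing.XYIdeal' (W := W) h ^ n :
      (FractionalIdeal W.CoordinateRing⁰ W.FunctionField)ˣ) :
      FractionalIdeal W.CoordinateRing⁰ W.FunctionField) =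
      ((CoordinateRing.XYIdeal W x (C y) ^ n : Ideal W.CoordinateRing) :
        FractionalIdeal W.CoordinateRing⁰ W.FunctionField) := by
    rw [Units.val_pow_eq_pow_val, CoordinateRing.XYIdeal'_eq, FractionalIdeal.coeIdeal_pow]
  obtain ⟨f, hf0, hf⟩ := (ClassGroup.mk_eq_one_of_coe_ideal h3).mp h2
  refine ⟨f, hf0, hf, ?_, ?_⟩
  swap
  · intro x' y' h' hne h0
    apply hne
    have hz : ∀ z ∈ CoordinateRing.XYIdeal W x (C y), evalPt h'.1 z = 0 := by
      intro z hz
      have h1 : z ^ n ∈ Ideal.span {f} := by rw [← hf]; exact Ideal.pow_mem_pow hz n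
      rw [Ideal.mem_span_singleton'] at h1
      obtain ⟨g, hg⟩ := h1
      have h2 := congrArg (evalPt h'.1) hg
      rw [map_mul, h0, mul_zero, map_pow] at h2
      exact eq_zero_of_pow_eq_zero h2.symm
    have hzx := hz _ (XClass_mem x y)
    have hzy := hz _ (YClass_mem x y)
    rw [CoordinateRing.XClass, evalPt_mk] at hzx
    rw [CoordinateRing.YClass, evalPt_mk] at hzy
    simp only [evalEval_C, evalEval_sub, evalEval_X, eval_sub, eval_X, eval_C] at hzx hzy
    rw [sub_eq_zero] at hzx hzy
    subst hzx hzy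
    rfl
  have h4 : CoordinateRing.XYIdeal W x (C (W.negY x y)) ^ n = Ideal.span {conj W f} := by
    rw [← map_conj_XYIdeal, ← Ideal.map_pow, hf, Ideal.map_span, Set.image_singleton]
  have h5 := XYIdeal_pow_mul h n
  rw [hf, h4, Ideal.span_singleton_mul_span_singleton] at h5
  have hc0 : conj W f ≠ 0 := by
    intro h0
    apply hf0
    have := conj_conj f
    rw [h0, map_zero] at this
    exact this.symm
  have h6 := deg_eq_of_span_eq (pow_ne_zero n (XClass_ne_zero' x)) h5
  rw [deg_mul hc0 hf0, deg_conj, deg_pow, deg_XClass] at h6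
  omega

/-- key existence statement: the multiplier function of a torsion point -/
theorem exists_multiplier [DecidableEq F] {xs ys : F} (hS : W.Nonsingular xs ys) {n : ℕ}
    (hn : n • Point.some xs ys hS = 0) :
    ∃ f : W.CoordinateRing, f ≠ 0 ∧ deg f = n ∧ (∀ (x' y' : F) (h' : W.Nonsingular x' y'),
        Point.some x' y' h' ≠ -Point.some xs ys hS → evalPt h'.1 f ≠ 0) ∧
      ∀ φ ∈ Ldeg W n, ∃ ψ ∈ Ldeg W n, ∀ (x y : F) (h : W.Nonsingular x y), x ≠ xs →
        evalPt h.1 ψ = evalPt h.1 f * fn φ (Point.some x y h + Point.some xs ys hS) := by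
  have hneg : n • Point.some xs (W.negY xs ys) ((nonsingular_neg ..).mpr hS) = 0 := by
    rw [← Point.neg_some hS, smul_neg, hn, neg_zero]
  obtain ⟨f, hf0, hf, hfd, hfn⟩ := exists_generator _ hneg
  refine ⟨f, hf0, hfd, ?_, ?_⟩
  · intro x' y' h' hne
    exact hfn x' y' h' (by rwa [Point.neg_some] at hne)
  intro φ hφ
  obtain ⟨s, hs1, hs2, hs3⟩ := Ldeg_le_Tr hS n hφ
  have h1 : f * s ∈ Ideal.span {CoordinateRing.XClass W xs ^ n} := by
    rw [← XYIdeal_pow_mul hS n]
    refine Ideal.mul_mem_mul ?_ hs1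
    rw [hf]
    exact Ideal.mem_span_singleton_self f
  rw [Ideal.mem_span_singleton'] at h1
  obtain ⟨ψ, hψ⟩ := h1
  have hX0 : CoordinateRing.XClass W xs ^ n ≠ 0 := pow_ne_zero n (XClass_ne_zero' xs)
  refine ⟨ψ, ?_, ?_⟩
  · by_cases hψ0 : ψ = 0
    · rw [hψ0]; exact Submodule.zero_mem _
    have hs0 : s ≠ 0 := by
      rintro rfl
      rw [mul_zero] at hψ
      exact (mul_ne_zero hψ0 hX0) hψ
    have h2 := congrArg deg hψ
    rw [deg_mul hψ0 hX0, deg_mul hf0 hs0, hfd, deg_pow, deg_XClass] at h2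
    rw [mem_Ldeg_iff] at hs2 ⊢
    omega
  · intro x y h hx
    have h2 := congrArg (evalPt h.1) hψ
    rw [map_mul, map_mul, map_pow, evalPt_XClass, hs3 x y h hx] at h2
    have h3 : (x - xs) ^ n ≠ 0 := pow_ne_zero n (sub_ne_zero.mpr hx)
    apply mul_right_cancel₀ h3
    rw [h2]
    ring

end Fermat.Agent.H39
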