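import Fermat.Agent.H39WeilNondeg

set_option autoImplicit false
set_option linter.unusedSectionVars false
set_option linter.style.haveILetI false

open WeierstrassCurve WeierstrassCurve.Affine Polynomial Filter
open scoped nonZeroDivisors Polynomial.Bivariate

noncomputable section

namespace Fermat.Agent.H39

universe u

variable {F : Type u} [Field F] [DecidableEq F] [IsAlgClosed F] {W : Affine F} [W.IsElliptic]

variable {n : ℕ} {S T : W.Point} {A B : LL W n →ₗ[F] LL W n}

/-! ### Semilinear automorphisms -/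

section semilinear

variable (σ : F ≃+* F) (s : W.Point ≃+ W.Point)

/-- transport of functions -/
def conjFun (φ : W.Point → F) : W.Point → F := fun P => σ (φ (s.symm P))

variable {σ s}

lemma conjFun_mem (hs : ∀ (x y : F) (h : W.Nonsingular x y),
    ∃ h', s (Point.some x y h) = Point.some (σ x) (σ y) h')
    {φ : W.Point → F} (hφ : φ ∈ LL W n) : conjFun σ s φ ∈ LL W n := by
  obtain ⟨r, hr, rfl⟩ := hφ
  obtain ⟨p, q, rfl⟩ := CoordinateRing.exists_smul_basis_eq r
  refine ⟨p.map (σ : F →+* F) • (1 : W.CoordinateRing) +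
    q.map (σ : F →+* F) • CoordinateRing.mk W Y, ?_, ?_⟩
  · have hr' := (smul_basis_mem_Ldeg_iff p q).mp hr
    refine (smul_basis_mem_Ldeg_iff _ _).mpr ?_
    rwa [degree_map, degree_map]
  · funext P
    rw [fnLin_apply, fnLin_apply]
    have h1 : P = s (s.symm P) := (s.apply_symm_apply P).symm
    generalize hQ : s.symm P = Q at h1
    rw [conjFun, hQ]
    subst h1
    rcases Q with _ | ⟨x, y, h⟩
    · have : s (Point.zero : W.Point) = 0 := s.map_zero
      rw [this, fn_zero_pt]
      exact (map_zero σ).symm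
    · obtain ⟨h', e⟩ := hs x y h
      rw [e, fn_some, fn_some, evalPt_smul_basis, evalPt_smul_basis, map_add, map_mul]
      have e1 : (p.map (σ : F →+* F)).eval (σ x) = σ (p.eval x) := by
        rw [eval_map]; exact (Polynomial.hom_eval₂ p (RingHom.id F) (σ : F →+* F) x).symm
      have e2 : (q.map (σ : F →+* F)).eval (σ x) = σ (q.eval x) := by
        rw [eval_map]; exact (Polynomial.hom_eval₂ q (RingHom.id F) (σ : F →+* F) x).symm
      rw [e1, e2]

variable (hs : ∀ (x y : F) (h : W.Nonsingular x y),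
    ∃ h', s (Point.some x y h) = Point.some (σ x) (σ y) h')

include hs in
lemma symm_compat : ∀ (x y : F) (h : W.Nonsingular x y),
    ∃ h', s.symm (Point.some x y h) = Point.some (σ.symm x) (σ.symm y) h' := by
  intro x y h
  have h1 := s.apply_symm_apply (Point.some x y h)
  rcases h2 : s.symm (Point.some x y h) with _ | ⟨x', y', h'⟩
  · rw [h2] at h1
    have : s (Point.zero : W.Point) = 0 := s.map_zero
    rw [this] at h1
    exact absurd h1.symm (Point.some_ne_zero _)
  · obtain ⟨h3, e⟩ := hs x' y' h'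
    rw [h2, e] at h1
    simp only [Point.some.injEq] at h1
    obtain ⟨rfl, rfl⟩ := h1
    simp only [RingEquiv.symm_apply_apply]
    exact ⟨h', trivial⟩

/-- conjugation of operators -/
def conjOp (A : LL W n →ₗ[F] LL W n) : LL W n →ₗ[F] LL W n where
  toFun φ := ⟨conjFun σ s (A ⟨conjFun σ.symm s.symm φ.1, conjFun_mem (symm_compat hs) φ.2⟩).1,
    conjFun_mem hs (A _).2⟩
  map_add' φ ψ := by
    have h1 : (⟨conjFun σ.symm s.symm (φ + ψ).1, conjFun_mem (symm_compat hs) (φ + ψ).2⟩ :
        LL W n) = ⟨conjFun σ.symm s.symm φ.1, conjFun_mem (symm_compat hs) φ.2⟩ +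
        ⟨conjFun σ.symm s.symm ψ.1, conjFun_mem (symm_compat hs) ψ.2⟩ := by
      apply Subtype.ext
      funext P
      simp [conjFun]
    apply Subtype.ext
    funext P
    simp only [h1, map_add]
    simp [conjFun]
  map_smul' c φ := by
    have h1 : (⟨conjFun σ.symm s.symm (c • φ).1, conjFun_mem (symm_compat hs) (c • φ).2⟩ :
        LL W n) = σ.symm c • ⟨conjFun σ.symm s.symm φ.1, conjFun_mem (symm_compat hs) φ.2⟩ := by
      apply Subtype.ext
      funext P
      simp [conjFun]
    apply Subtype.ext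
    funext P
    simp only [h1, map_smul]
    simp [conjFun]

lemma conjOp_apply (A : LL W n →ₗ[F] LL W n) (φ : LL W n) (P : W.Point) :
    (conjOp hs A φ).1 P = σ ((A ⟨conjFun σ.symm s.symm φ.1,
      conjFun_mem (symm_compat hs) φ.2⟩).1 (s.symm P)) := rfl

lemma conjFun_one : (⟨conjFun σ.symm s.symm (oneLL n : LL W n).1,
    conjFun_mem (symm_compat hs) (oneLL n : LL W n).2⟩ : LL W n) = oneLL n := by
  apply LL_ext
  filter_upwards [eventually_ne_zero_pt (W := W)] with P hP
  rw [oneLL_apply n hP]
  change σ.symm ((oneLL n : LL W n).1 (s.symm.symm P)) = 1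
  rw [oneLL_apply n (by simpa using hP), map_one]

lemma eventually_conj {p : W.Point → Prop} (h : ∀ᶠ P in cofinite, p P) :
    ∀ᶠ P in cofinite, p (s.symm P) :=
  s.symm.injective.tendsto_cofinite.eventually h

lemma conjOp_comp (A B : LL W n →ₗ[F] LL W n) :
    (conjOp hs A) ∘ₗ (conjOp hs B) = conjOp hs (A ∘ₗ B) := by
  ext1 φ
  apply Subtype.ext
  funext P
  have key : (⟨conjFun σ.symm s.symm (conjOp hs B φ).1,
      conjFun_mem (symm_compat hs) (conjOp hs B φ).2⟩ : LL W n) =
      B ⟨conjFun σ.symm s.symm φ.1, conjFun_mem (symm_compat hs) φ.2⟩ := by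
    apply Subtype.ext
    funext Q
    simp [conjFun, conjOp]
  rw [LinearMap.comp_apply, conjOp_apply, conjOp_apply, LinearMap.comp_apply, key]

lemma conjOp_smul (c : F) (A : LL W n →ₗ[F] LL W n) :
    conjOp hs (c • A) = σ c • conjOp hs A := by
  ext1 φ
  apply Subtype.ext
  funext P
  rw [LinearMap.smul_apply, Submodule.coe_smul, Pi.smul_apply, conjOp_apply, conjOp_apply,
    LinearMap.smul_apply, Submodule.coe_smul, Pi.smul_apply, smul_eq_mul, smul_eq_mul, map_mul]

lemma IsLift.conj (hA : IsLift n S A) : IsLift n (s S) (conjOp hs A) := by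
  haveI := infinite_point (W := W)
  constructor
  · intro h0
    have h1 := eventually_LL_ne_zero hA.one_ne_zero
    obtain ⟨P, hP⟩ := h1.exists
    have h2 := conjOp_apply hs A (oneLL n) (s P)
    rw [h0, conjFun_one hs, s.symm_apply_apply] at h2
    apply hP
    have h3 : σ ((A (oneLL n)).1 P) = 0 := h2.symm
    exact (map_eq_zero σ).mp h3
  · intro φ
    have h1 := hA.2 ⟨conjFun σ.symm s.symm φ.1, conjFun_mem (symm_compat hs) φ.2⟩
    filter_upwards [eventually_conj (s := s) h1] with P hP
    rw [conjOp_apply, conjOp_apply, conjFun_one hs, hP, map_mul]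
    congr 1
    simp [conjFun]

include hs in
lemma WeilRel.conj {c : F} (h : WeilRel n S T c) : WeilRel n (s S) (s T) (σ c) := by
  obtain ⟨A, B, hA, hB, e⟩ := h
  refine ⟨conjOp hs A, conjOp hs B, hA.conj hs, hB.conj hs, ?_⟩
  rw [conjOp_comp, conjOp_comp, e, conjOp_smul]

end semilinear

open scoped Classical in
/-- the Weil pairing on `E[n]` (junk outside the `n`-torsion) -/
def weil (n : ℕ) (S T : W.Point) : F := if h : ∃ c, WeilRel n S T c then h.choose else 1

lemma weilRel_weil (hS : n • S = 0) (hT : n • T = 0) : WeilRel n S T (weil n S T) := by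
  have h : ∃ c, WeilRel n S T c := exists_weilRel hS hT
  rw [weil, dif_pos h]
  exact h.choose_spec

lemma weil_eq_iff {c : F} (hS : n • S = 0) (hT : n • T = 0) :
    weil n S T = c ↔ WeilRel n S T c := by
  constructor
  · rintro rfl; exact weilRel_weil hS hT
  · intro h; exact (weilRel_weil hS hT).unique h

theorem weil_add_left {S' : W.Point} (hS : n • S = 0) (hS' : n • S' = 0) (hT : n • T = 0) :
    weil n (S + S') T = weil n S T * weil n S' T :=
  (weil_eq_iff (by rw [smul_add, hS, hS', add_zero]) hT).mpr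
    ((weilRel_weil hS hT).add_left (weilRel_weil hS' hT))

theorem weil_add_right {T' : W.Point} (hS : n • S = 0) (hT : n • T = 0) (hT' : n • T' = 0) :
    weil n S (T + T') = weil n S T * weil n S T' :=
  (weil_eq_iff hS (by rw [smul_add, hT, hT', add_zero])).mpr
    ((weilRel_weil hS hT).add_right (weilRel_weil hS hT'))

theorem weil_self (hS : n • S = 0) : weil n S S = 1 :=
  (weil_eq_iff hS hS).mpr (weilRel_self hS)

theorem weil_ne_zero (hS : n • S = 0) (hT : n • T = 0) : weil n S T ≠ 0 :=
  (weilRel_weil hS hT).ne_zero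

theorem weil_pow_eq_one (hS : n • S = 0) (hT : n • T = 0) : weil n S T ^ n = 1 :=
  (weilRel_weil hS hT).pow_eq_one hS hT

theorem weil_zero_left (hT : n • T = 0) : weil n (0 : W.Point) T = 1 :=
  (weil_eq_iff (smul_zero n) hT).mpr (weilRel_zero_left hT)

theorem weil_symm (hS : n • S = 0) (hT : n • T = 0) : weil n T S = (weil n S T)⁻¹ :=
  (weil_eq_iff hT hS).mpr (weilRel_weil hS hT).symm

theorem weil_nsmul_right (hS : n • S = 0) (hT : n • T = 0) (k : ℕ) :
    weil n S (k • T) = weil n S T ^ k := by
  have hkT : n • (k • T) = 0 := by rw [smul_comm, hT, smul_zero]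
  rw [weil_eq_iff hS hkT]
  have h := ((weilRel_weil hT hS).nsmul_left hS k).symm
  rwa [weil_symm hS hT, inv_pow, inv_inv] at h

/-- equivariance of the Weil pairing under semilinear automorphisms -/
theorem weil_equivariant (σ : F ≃+* F) (s : W.Point ≃+ W.Point)
    (hs : ∀ (x y : F) (h : W.Nonsingular x y),
    ∃ h', s (Point.some x y h) = Point.some (σ x) (σ y) h') (hS : n • S = 0) (hT : n • T = 0) :
    weil n (s S) (s T) = σ (weil n S T) :=
  (weil_eq_iff (by rw [← map_nsmul, hS, map_zero]) (by rw [← map_nsmul, hT, map_zero])).mpr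
    (WeilRel.conj hs (weilRel_weil hS hT))

/-- the value of the Weil pairing on a basis of `E[n]` is a primitive `n`-th root of unity -/
theorem isPrimitiveRoot_weil (hn : 3 ≤ n) (hS : n • S = 0) (hT : n • T = 0)
    (hinj : ∀ i j i' j' : ℕ, i < n → j < n → i' < n → j' < n →
      i • S + j • T = i' • S + j' • T → i = i' ∧ j = j') :
    IsPrimitiveRoot (weil n S T) n := by
  have hpow := weil_pow_eq_one hS hT
  have hd : orderOf (weil n S T) ∣ n := orderOf_dvd_of_pow_eq_one hpow
  have hd0 : 0 < orderOf (weil n S T) := Nat.pos_of_dvd_of_pos hd (by omega)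
  by_cases hdn : orderOf (weil n S T) = n
  · rw [IsPrimitiveRoot.iff_orderOf]; exact hdn
  exfalso
  set d := orderOf (weil n S T) with hddef
  obtain ⟨m, hm⟩ := hd
  have hm2 : 2 ≤ m := by
    rcases m with _ | _ | m
    · omega
    · rw [zero_add, mul_one] at hm; exact absurd hm.symm hdn
    · omega
  have hT' : n • (d • T) = 0 := by rw [smul_comm, hT, smul_zero]
  have h1 : WeilRel n S (d • T) 1 := by
    rw [← weil_eq_iff hS hT', weil_nsmul_right hS hT, hddef, pow_orderOf_eq_one]
  have hS0 : S ≠ 0 := by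
    rintro rfl
    have := hinj 1 0 0 0 (by omega) (by omega) (by omega) (by omega) (by simp)
    omega
  have h2 := card_le_of_weilRel_one (by omega) hS hT' h1 (Or.inl hS0)
    ((Finset.range n ×ˢ Finset.range m).image (fun ij => ij.1 • S + ij.2 • (d • T))) (by
      intro P hP
      rw [Finset.mem_image] at hP
      obtain ⟨ij, -, rfl⟩ := hP
      exact ⟨ij.1, ij.2, rfl⟩)
  rw [Finset.card_image_of_injOn, Finset.card_product, Finset.card_range, Finset.card_range] at h2
  · have h3 : n * 2 ≤ n * m := Nat.mul_le_mul_left n hm2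
    omega
  · rintro ⟨i, j⟩ hij ⟨i', j'⟩ hij' he
    simp only [Finset.coe_product, Finset.coe_range, Set.mem_prod, Set.mem_Iio] at hij hij'
    simp only [smul_smul] at he
    have hjd : ∀ j : ℕ, j < m → j * d < n := by
      intro j hj
      rw [hm, mul_comm d m]
      exact Nat.mul_lt_mul_of_pos_right hj hd0
    have := hinj i (j * d) i' (j' * d) hij.1 (hjd j hij.2) hij'.1 (hjd j' hij'.2) he
    have h4 : j = j' := Nat.eq_of_mul_eq_mul_right hd0 this.2
    rw [this.1, h4]

end Fermat.Agent.H39
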