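import Fermat.Agent.H39WeilPairing

set_option autoImplicit false
set_option linter.unusedSectionVars false
set_option linter.style.haveILetI false

open WeierstrassCurve WeierstrassCurve.Affine Polynomial Filter
open scoped nonZeroDivisors Polynomial.Bivariate

noncomputable section

namespace Fermat.Agent.H39

universe u

variable {F : Type u} [Field F] [DecidableEq F] [IsAlgClosed F] {W : Affine F} [W.IsElliptic]

variable {n : ℕ} {S T : W.Point} {A B : LL W n →ₗ[F] LL W n}

lemma oneLL_ne_zero (n : ℕ) : (oneLL n : LL W n) ≠ 0 := by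
  haveI := infinite_point (W := W)
  intro h1
  obtain ⟨P, hP⟩ := (eventually_ne_zero_pt (W := W)).exists
  have h2 := oneLL_apply n hP
  rw [h1] at h2
  exact zero_ne_one h2

/-- two commuting lifts have a common eigenvector -/
lemma exists_common_eigenvector (h : A ∘ₗ B = B ∘ₗ A) :
    ∃ φ : LL W n, φ ≠ 0 ∧ ∃ a b : F, A φ = a • φ ∧ B φ = b • φ := by
  haveI : Nontrivial (LL W n) := ⟨_, _, oneLL_ne_zero n⟩
  obtain ⟨a, ha⟩ := Module.End.exists_eigenvalue (K := F) (V := LL W n) A
  have hmap : ∀ v ∈ Module.End.eigenspace A a, B v ∈ Module.End.eigenspace A a := by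
    intro v hv
    rw [Module.End.mem_eigenspace_iff] at hv ⊢
    have := LinearMap.congr_fun h v
    rw [LinearMap.comp_apply, LinearMap.comp_apply, hv, map_smul] at this
    exact this
  obtain ⟨v, hv, hv0⟩ := ha.exists_hasEigenvector
  haveI : Nontrivial (Module.End.eigenspace A a) := ⟨⟨v, hv⟩, 0, fun h => hv0 (by
    have := congrArg Subtype.val h
    simpa using this)⟩
  obtain ⟨b, hb⟩ := Module.End.exists_eigenvalue (K := F) (V := Module.End.eigenspace A a)
    (B.restrict hmap)
  obtain ⟨w, hw, hw0⟩ := hb.exists_hasEigenvector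
  refine ⟨w, fun h0 => hw0 (Subtype.ext h0), a, b, ?_, ?_⟩
  · exact Module.End.mem_eigenspace_iff.mp w.2
  · have := Module.End.mem_eigenspace_iff.mp hw
    have h2 := congrArg Subtype.val this
    simpa using h2

lemma IsLift.pow (hA : IsLift n S A) (k : ℕ) : IsLift n (k • S) (A ^ k) := by
  induction k with
  | zero => rw [zero_smul, pow_zero]; exact isLift_id
  | succ k ih => rw [succ_nsmul, pow_succ]; exact ih.comp hA

/-- main counting argument -/
theorem card_le_of_weilRel_one (hn : 1 ≤ n) (hS : n • S = 0) (hT : n • T = 0)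
    (h : WeilRel n S T 1) (hne : S ≠ 0 ∨ T ≠ 0) (s : Finset W.Point)
    (hs : ∀ P ∈ s, ∃ i j : ℕ, P = i • S + j • T) : s.card ≤ n + 2 := by
  haveI := infinite_point (W := W)
  obtain ⟨A, B, hA, hB, e⟩ := h
  rw [one_smul] at e
  obtain ⟨φ, hφ, a, b, ha, hb⟩ := exists_common_eigenvector e
  have hab : ∀ i j : ℕ, ((A ^ i) ∘ₗ (B ^ j)) φ = (a ^ i * b ^ j) • φ := by
    have hAi : ∀ i : ℕ, (A ^ i) φ = a ^ i • φ := by
      intro i
      induction i with
      | zero => simp
      | succ i ih => rw [pow_succ, Module.End.mul_apply, ha, map_smul, ih, smul_smul, pow_succ,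
          mul_comm]
    have hBj : ∀ i : ℕ, (B ^ i) φ = b ^ i • φ := by
      intro i
      induction i with
      | zero => simp
      | succ i ih => rw [pow_succ, Module.End.mul_apply, hb, map_smul, ih, smul_smul, pow_succ,
          mul_comm]
    intro i j
    rw [LinearMap.comp_apply, hBj, map_smul, hAi, smul_smul, mul_comm]
  -- every lift of an element of the subgroup has `φ` as an eigenvector
  have heig : ∀ (i j : ℕ) (C : LL W n →ₗ[F] LL W n), IsLift n (i • S + j • T) C →
      ∃ c : F, c ≠ 0 ∧ C φ = c • φ := by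
    intro i j C hC
    have h1 : IsLift n (i • S + j • T) ((A ^ i) ∘ₗ (B ^ j)) := (hA.pow i).comp (hB.pow j)
    obtain ⟨c, hc, rfl⟩ := h1.unique hC
    refine ⟨c * (a ^ i * b ^ j), ?_, ?_⟩
    · intro h0
      have h2 : (c • ((A ^ i) ∘ₗ (B ^ j))) φ = 0 := by
        rw [LinearMap.smul_apply, hab, smul_smul, h0, zero_smul]
      exact hφ (hC.injective (by rw [h2, map_zero]))
    · rw [LinearMap.smul_apply, hab, smul_smul]
  obtain ⟨r, hr, hr2⟩ := exists_rep φ
  have hr0 : r ≠ 0 := by
    rintro rfl
    apply hφ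
    apply Subtype.ext
    rw [← hr2]
    exact (fnLin W).map_zero
  have hcof : ∀ R : W.Point, ∀ᶠ P : W.Point in cofinite, P ≠ 0 ∧ P ≠ R ∧
      P ≠ -R := by
    intro R
    rw [eventually_cofinite]
    refine (Set.toFinite {(0 : W.Point), R, -R}).subset ?_
    intro P hP
    simp only [Set.mem_ofPred_eq, not_and_or, not_not] at hP
    simp only [Set.mem_insert_iff, Set.mem_singleton_iff]
    exact hP
  -- `r` has an affine zero
  have hzero : ∃ P₀ : W.Point, P₀ ≠ 0 ∧ fn r P₀ = 0 := by
    by_contra hno
    push Not at hno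
    -- then `r` is constant
    have hdr : deg r = 0 := by
      by_contra hd
      have hd2 : (Algebra.norm F[X] r).degree ≠ 0 := by
        intro h0
        exact hd (natDegree_eq_of_degree_eq_some h0)
      obtain ⟨x, hx⟩ := IsAlgClosed.exists_root _ hd2
      have hde : ((W.polynomial).map (Polynomial.evalRingHom x)).degree ≠ 0 := by
        rw [Polynomial.Monic.degree_map WeierstrassCurve.Affine.monic_polynomial,
          WeierstrassCurve.Affine.degree_polynomial]
        norm_num
      obtain ⟨y, hy⟩ := IsAlgClosed.exists_root _ hde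
      have hxy : W.Equation x y := by
        rw [WeierstrassCurve.Affine.Equation, ← Polynomial.eval₂_evalRingHom,
          ← Polynomial.eval_map]
        exact hy
      have hns : W.Nonsingular x y := equation_iff_nonsingular.mp hxy
      have h1 := congrArg (evalPt hxy) (coe_norm r)
      rw [map_mul, evalPt_algebraMap_poly, hx.eq_zero] at h1
      rcases mul_eq_zero.mp h1.symm with h2 | h2
      · exact hno (Point.some x y hns) (Point.some_ne_zero _) h2
      · have h3 : fn r (-(Point.some x y hns)) = 0 := by rw [fn_neg_pt]; exact h2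
        exact hno (-(Point.some x y hns)) (neg_ne_zero.mpr (Point.some_ne_zero _)) h3
    obtain ⟨c, rfl⟩ := eq_algebraMap_of_deg_eq_zero hdr
    have hc0 : c ≠ 0 := by
      rintro rfl
      exact hr0 (map_zero _)
    -- a nonzero element of the subgroup
    obtain ⟨R, hR0, hRn, i, j, hRij⟩ : ∃ R : W.Point, R ≠ 0 ∧ n • R = 0 ∧
        ∃ i j : ℕ, R = i • S + j • T := by
      rcases hne with h1 | h1
      · exact ⟨S, h1, hS, 1, 0, by simp⟩
      · exact ⟨T, h1, hT, 0, 1, by simp⟩
    obtain ⟨C, hC, f, hf0, hfd, hfn, hf⟩ := exists_lift_exact hRn hR0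
    obtain ⟨d, hd, hCd⟩ := heig i j C (by rw [← hRij]; exact hC)
    have h1 : f = algebraMap F W.CoordinateRing d := by
      apply eq_of_eventually_eq (W := W)
      filter_upwards [hcof R] with P hP
      have h2 := hf φ P hP.1 hP.2.1 hP.2.2
      have h3 : P + R ≠ 0 := fun h => hP.2.2 (eq_neg_of_add_eq_zero_left h)
      rw [hCd, Submodule.coe_smul, Pi.smul_apply, smul_eq_mul, ← hr2, fn_algebraMap c hP.1,
        fn_algebraMap c h3] at h2
      rw [fn_algebraMap d hP.1]
      exact (mul_right_cancel₀ hc0 h2).symm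
    have h2 : deg f = 0 := by
      have := mem_Ldeg_iff.mp (algebraMap_mem_Ldeg (W := W) d 0)
      rw [h1]; omega
    omega
  obtain ⟨P₀, hP₀, hz⟩ := hzero
  have hz' : φ.1 P₀ = 0 := by rw [← hr2]; exact hz
  -- translate the zero
  have htrans : ∀ R ∈ s, P₀ ≠ R → P₀ ≠ -R → φ.1 (P₀ + R) = 0 := by
    intro R hR h1 h2
    by_cases hR0 : R = 0
    · rw [hR0, add_zero]; exact hz'
    obtain ⟨i, j, hij⟩ := hs R hR
    have hRn : n • R = 0 := by
      rw [hij, smul_add, smul_comm n i, smul_comm n j, hS, hT, smul_zero, smul_zero, add_zero]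
    obtain ⟨C, hC, f, hf0, hfd, hfn, hf⟩ := exists_lift_exact hRn hR0
    obtain ⟨d, hd, hCd⟩ := heig i j C (by rw [← hij]; exact hC)
    have h3 := hf φ P₀ hP₀ h1 h2
    rw [hCd, Submodule.coe_smul, Pi.smul_apply, smul_eq_mul, hz', mul_zero] at h3
    exact (mul_eq_zero.mp h3.symm).resolve_left (hfn P₀ hP₀ h2)
  -- count
  classical
  let s' := (s.erase P₀).erase (-P₀)
  have hs' : s.card ≤ s'.card + 2 := by
    change s.card ≤ ((s.erase P₀).erase (-P₀)).card + 2
    have h1 := Finset.pred_card_le_card_erase (s := s) (a := P₀)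
    have h2 := Finset.pred_card_le_card_erase (s := s.erase P₀) (a := -P₀)
    omega
  have h4 : (s'.image (fun R => P₀ + R)).card = s'.card :=
    Finset.card_image_of_injective _ (add_right_injective P₀)
  have h5 := card_zeros_le hr0 (s'.image (fun R => P₀ + R)) (by
    intro Q hQ
    rw [Finset.mem_image] at hQ
    obtain ⟨R, hR, rfl⟩ := hQ
    rw [Finset.mem_erase, Finset.mem_erase] at hR
    obtain ⟨h6, h7, h8⟩ := hR
    constructor
    · intro h9
      exact h6 (eq_neg_of_add_eq_zero_right h9)
    · rw [hr2]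
      exact htrans R h8 (fun h => h7 h.symm) (fun h => h6 (by rw [h, neg_neg])))
  have h6 := mem_Ldeg_iff.mp hr
  omega

end Fermat.Agent.H39
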