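import Fermat.Agent.H39WeilLift

set_option autoImplicit false
set_option linter.unusedSectionVars false
set_option linter.style.haveILetI false

open WeierstrassCurve WeierstrassCurve.Affine Polynomial Filter
open scoped nonZeroDivisors Polynomial.Bivariate

noncomputable section

namespace Fermat.Agent.H39

universe u

variable {F : Type u} [Field F] [DecidableEq F] [IsAlgClosed F] {W : Affine F} [W.IsElliptic]

variable (W) in
/-- the space `L(n·O)` as functions on points (value `0` at infinity) -/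
def LL (n : ℕ) : Submodule F (W.Point → F) := (Ldeg W n).map (fnLin W)

instance LL_finite (n : ℕ) : Module.Finite F (LL W n) :=
  Module.Finite.map (Ldeg W n) (fnLin W)

lemma mem_LL_iff {n : ℕ} {φ : W.Point → F} : φ ∈ LL W n ↔ ∃ r ∈ Ldeg W n, fn r = φ := Iff.rfl

lemma exists_rep {n : ℕ} (φ : LL W n) : ∃ r ∈ Ldeg W n, fn r = (φ : W.Point → F) := φ.2

/-- the constant function one -/
def oneLL (n : ℕ) : LL W n := ⟨fn 1, ⟨1, one_mem_Ldeg n, rfl⟩⟩

lemma LL_ext {n : ℕ} {φ ψ : LL W n}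
    (h : ∀ᶠ P in cofinite, (φ : W.Point → F) P = (ψ : W.Point → F) P) : φ = ψ := by
  obtain ⟨r, hr, hr2⟩ := exists_rep φ
  obtain ⟨s, hs, hs2⟩ := exists_rep ψ
  apply Subtype.ext
  rw [← hr2, ← hs2] at h ⊢
  rw [eq_of_eventually_eq h]

lemma eventually_ne_zero_pt : ∀ᶠ P : W.Point in cofinite, P ≠ 0 := by
  rw [eventually_cofinite]
  simp

lemma oneLL_apply (n : ℕ) {P : W.Point} (hP : P ≠ 0) :
    (oneLL n : LL W n).1 P = 1 := fn_one hP

lemma eventually_translate {p : W.Point → Prop} (S : W.Point) (h : ∀ᶠ P in cofinite, p P) :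
    ∀ᶠ P in cofinite, p (P + S) :=
  (add_left_injective S).tendsto_cofinite.eventually h

lemma eventually_LL_ne_zero {n : ℕ} {φ : LL W n} (hφ : φ ≠ 0) :
    ∀ᶠ P in cofinite, (φ : W.Point → F) P ≠ 0 := by
  obtain ⟨r, hr, hr2⟩ := exists_rep φ
  have hr0 : r ≠ 0 := by
    rintro rfl
    apply hφ
    apply Subtype.ext
    rw [← hr2]
    exact (fnLin W).map_zero
  filter_upwards [eventually_ne_zero (W := W) hr0] with P hP
  rw [← hr2]
  exact hP.2

/-- `A` is a lift of translation by `S` to an operator on `L(n·O)` -/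
def IsLift (n : ℕ) (S : W.Point) (A : LL W n →ₗ[F] LL W n) : Prop :=
  A ≠ 0 ∧ ∀ φ : LL W n, ∀ᶠ P in cofinite,
    (A φ).1 P = (A (oneLL n)).1 P * φ.1 (P + S)

variable {n : ℕ} {S T : W.Point} {A B : LL W n →ₗ[F] LL W n}

lemma IsLift.one_ne_zero (hA : IsLift n S A) : A (oneLL n) ≠ 0 := by
  intro h0
  apply hA.1
  ext1 φ
  apply LL_ext
  filter_upwards [hA.2 φ] with P hP
  rw [hP, h0]
  simp

lemma IsLift.injective (hA : IsLift n S A) : Function.Injective A := by
  rw [← LinearMap.ker_eq_bot, LinearMap.ker_eq_bot']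
  intro φ hφ
  apply LL_ext
  have h1 : ∀ᶠ P in cofinite, φ.1 (P + S) = 0 := by
    filter_upwards [hA.2 φ, eventually_LL_ne_zero hA.one_ne_zero] with P hP hP2
    rw [hφ] at hP
    exact (mul_eq_zero.mp hP.symm).resolve_left hP2
  filter_upwards [eventually_translate (-S) h1] with P hP
  rw [neg_add_cancel_right] at hP
  rw [hP]; rfl

lemma IsLift.comp (hA : IsLift n S A) (hB : IsLift n T B) : IsLift n (S + T) (A ∘ₗ B) := by
  constructor
  · intro h0
    apply hB.one_ne_zero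
    apply hA.injective
    rw [map_zero, ← LinearMap.comp_apply, h0]; rfl
  · intro φ
    filter_upwards [hA.2 (B φ), hA.2 (B (oneLL n)), eventually_translate S (hB.2 φ)]
      with P h1 h2 h3
    rw [LinearMap.comp_apply, LinearMap.comp_apply, h1, h2, h3, add_assoc]
    ring

lemma IsLift.smul (hA : IsLift n S A) {c : F} (hc : c ≠ 0) : IsLift n S (c • A) := by
  constructor
  · exact smul_ne_zero hc hA.1
  · intro φ
    filter_upwards [hA.2 φ] with P hP
    simp only [LinearMap.smul_apply, Submodule.coe_smul, Pi.smul_apply, smul_eq_mul, hP]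
    ring

lemma isLift_id : IsLift n (0 : W.Point) (LinearMap.id : LL W n →ₗ[F] LL W n) := by
  haveI := infinite_point (W := W)
  constructor
  · intro h0
    have h1 : (oneLL n : LL W n) = 0 := by
      have := LinearMap.congr_fun h0 (oneLL n)
      simpa using this
    obtain ⟨P, hP⟩ := (eventually_ne_zero_pt (W := W)).exists
    have h2 := oneLL_apply n hP
    rw [h1] at h2
    exact zero_ne_one h2
  · intro φ
    filter_upwards [eventually_ne_zero_pt (W := W)] with P hP
    rw [LinearMap.id_apply, LinearMap.id_apply, oneLL_apply n hP, one_mul, add_zero]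

/-- lifts are unique up to scalars -/
theorem IsLift.unique (hA : IsLift n S A) (hB : IsLift n S B) : ∃ c : F, c ≠ 0 ∧ B = c • A := by
  obtain ⟨α, hα, hα2⟩ := exists_rep (A (oneLL n))
  obtain ⟨β, hβ, hβ2⟩ := exists_rep (B (oneLL n))
  have hα0 : α ≠ 0 := by
    rintro rfl
    apply hA.one_ne_zero
    apply Subtype.ext
    rw [← hα2]
    exact (fnLin W).map_zero
  have hβ0 : β ≠ 0 := by
    rintro rfl
    apply hB.one_ne_zero
    apply Subtype.ext
    rw [← hβ2]
    exact (fnLin W).map_zero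
  let e := LinearEquiv.ofInjectiveEndo A hA.injective
  have he : ∀ ψ, A (e.symm ψ) = ψ := fun ψ => by
    have := e.apply_symm_apply ψ
    exact this
  let C : LL W n →ₗ[F] LL W n := B ∘ₗ e.symm.toLinearMap
  have hC : ∀ ψ : LL W n, ∀ᶠ P in cofinite, fn α P * (C ψ).1 P = fn β P * ψ.1 P := by
    intro ψ
    filter_upwards [hA.2 (e.symm ψ), hB.2 (e.symm ψ)] with P h1 h2
    have h3 : C ψ = B (e.symm ψ) := rfl
    rw [he] at h1
    rw [h3, h2, h1, hα2, hβ2]
    ring
  have hCinj : Function.Injective C := hB.injective.comp e.symm.injective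
  have hpow : ∀ k : ℕ, ∀ᶠ P in cofinite, fn α P ^ k * ((C ^ k) (oneLL n)).1 P = fn β P ^ k := by
    intro k
    induction k with
    | zero =>
      filter_upwards [eventually_ne_zero_pt (W := W)] with P hP
      rw [pow_zero, pow_zero, one_mul, pow_zero, Module.End.one_apply, oneLL_apply n hP]
    | succ k ih =>
      filter_upwards [ih, hC ((C ^ k) (oneLL n))] with P h1 h2
      rw [pow_succ' (fn α P), pow_succ' (fn β P), pow_succ' C, Module.End.mul_apply, ← h1]
      calc fn α P * fn α P ^ k * (C ((C ^ k) (oneLL n))).1 P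
          = fn α P ^ k * (fn α P * (C ((C ^ k) (oneLL n))).1 P) := by ring
        _ = _ := by rw [h2]; ring
  have hdeg : ∀ k : ℕ, ∃ γ : W.CoordinateRing, γ ∈ Ldeg W n ∧ γ ≠ 0 ∧
      fn γ = ((C ^ k) (oneLL n)).1 ∧ α ^ k * γ = β ^ k := by
    intro k
    obtain ⟨γ, hγ, hγ2⟩ := exists_rep ((C ^ k) (oneLL n))
    have h1 : α ^ k * γ = β ^ k := by
      apply eq_of_eventually_eq (W := W)
      filter_upwards [hpow k, eventually_ne_zero_pt (W := W)] with P h1 hP
      rw [fn_mul, fn_pow α k hP, fn_pow β k hP, hγ2, h1]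
    refine ⟨γ, hγ, ?_, hγ2, h1⟩
    rintro rfl
    rw [mul_zero] at h1
    exact pow_ne_zero k hβ0 h1.symm
  have hdeg2 : ∀ k : ℕ, ∃ d ≤ n, k * deg α + d = k * deg β := by
    intro k
    obtain ⟨γ, hγ, hγ0, -, h⟩ := hdeg k
    refine ⟨deg γ, mem_Ldeg_iff.mp hγ, ?_⟩
    have := congrArg deg h
    rwa [deg_mul (pow_ne_zero k hα0) hγ0, deg_pow, deg_pow] at this
  have hdd : deg α = deg β := by
    obtain ⟨d, hd, h⟩ := hdeg2 (n + 1)
    rcases lt_trichotomy (deg α) (deg β) with h1 | h1 | h1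
    · have : (n + 1) * (deg α + 1) ≤ (n + 1) * deg β := Nat.mul_le_mul_left _ h1
      rw [mul_add] at this
      omega
    · exact h1
    · have : (n + 1) * (deg β + 1) ≤ (n + 1) * deg α := Nat.mul_le_mul_left _ h1
      rw [mul_add] at this
      omega
  obtain ⟨γ, hγ, hγ0, hγ2, h⟩ := hdeg 1
  rw [pow_one, pow_one] at h
  have hγd : deg γ = 0 := by
    have := congrArg deg h
    rw [deg_mul hα0 hγ0] at this
    omega
  obtain ⟨c, rfl⟩ := eq_algebraMap_of_deg_eq_zero hγd
  have hc0 : c ≠ 0 := by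
    rintro rfl
    exact hγ0 (map_zero _)
  refine ⟨c, hc0, ?_⟩
  ext1 φ
  apply LL_ext
  filter_upwards [hA.2 φ, hB.2 φ, eventually_ne_zero_pt (W := W)] with P h1 h2 hP
  rw [h2, ← hβ2, ← h, fn_mul, fn_algebraMap c hP, LinearMap.smul_apply, Submodule.coe_smul,
    Pi.smul_apply, smul_eq_mul, h1, hα2]
  ring

/-- existence of lifts for `n`-torsion points, with an exact relation at all points `P` with
`x(P) ≠ x(S)` -/
theorem exists_lift_exact (hn : n • S = 0) (hS : S ≠ 0) :
    ∃ A : LL W n →ₗ[F] LL W n, IsLift n S A ∧ ∃ f : W.CoordinateRing, f ≠ 0 ∧ deg f = n ∧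
      (∀ P : W.Point, P ≠ 0 → P ≠ -S → fn f P ≠ 0) ∧
      ∀ φ : LL W n, ∀ P : W.Point, P ≠ 0 → P ≠ S → P ≠ -S →
        (A φ).1 P = fn f P * φ.1 (P + S) := by
  rcases S with _ | ⟨xs, ys, hs⟩
  · exact absurd rfl hS
  obtain ⟨f, hf0, hfd, hfn, hf⟩ := exists_multiplier hs hn
  have hx : ∀ (x y : F) (h : W.Nonsingular x y), Point.some x y h ≠ Point.some xs ys hs →
      Point.some x y h ≠ -Point.some xs ys hs → x ≠ xs := by
    intro x y h h1 h2 h3
    rcases (Point.X_eq_iff (h₁ := h) (h₂ := hs)).mp h3 with h4 | h4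
    · exact h1 h4
    · exact h2 h4
  have hex : ∀ φ : LL W n, ∃ ψ : LL W n, ∀ P : W.Point, P ≠ 0 → P ≠ Point.some xs ys hs →
      P ≠ -Point.some xs ys hs → ψ.1 P = fn f P * φ.1 (P + Point.some xs ys hs) := by
    intro φ
    obtain ⟨r, hr, hr2⟩ := exists_rep φ
    obtain ⟨ψ, hψ, h⟩ := hf r hr
    refine ⟨⟨fn ψ, ⟨ψ, hψ, rfl⟩⟩, ?_⟩
    intro P hP0 hP1 hP2
    rcases P with _ | ⟨x, y, hxy⟩
    · exact absurd rfl hP0
    · rw [← hr2]
      exact h x y hxy (hx x y hxy hP1 hP2)
  choose A hA using hex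
  have hcof : ∀ᶠ P : W.Point in cofinite, P ≠ 0 ∧ P ≠ Point.some xs ys hs ∧
      P ≠ -Point.some xs ys hs := by
    rw [eventually_cofinite]
    refine (Set.toFinite {(0 : W.Point), Point.some xs ys hs, -Point.some xs ys hs}).subset ?_
    intro P hP
    simp only [Set.mem_ofPred_eq, not_and_or, not_not] at hP
    simp only [Set.mem_insert_iff, Set.mem_singleton_iff]
    exact hP
  let A' : LL W n →ₗ[F] LL W n :=
    { toFun := A
      map_add' := by
        intro φ ψ
        apply LL_ext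
        filter_upwards [hcof] with P hP
        have e1 := hA (φ + ψ) P hP.1 hP.2.1 hP.2.2
        have e2 := hA φ P hP.1 hP.2.1 hP.2.2
        have e3 := hA ψ P hP.1 hP.2.1 hP.2.2
        rw [e1, Submodule.coe_add, Submodule.coe_add, Pi.add_apply, Pi.add_apply, e2, e3]
        ring
      map_smul' := by
        intro c φ
        apply LL_ext
        filter_upwards [hcof] with P hP
        have e1 := hA (c • φ) P hP.1 hP.2.1 hP.2.2
        have e2 := hA φ P hP.1 hP.2.1 hP.2.2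
        rw [e1, RingHom.id_apply, Submodule.coe_smul, Submodule.coe_smul, Pi.smul_apply,
          Pi.smul_apply, e2, smul_eq_mul, smul_eq_mul]
        ring }
  have hA'1 : ∀ P : W.Point, P ≠ 0 → P ≠ Point.some xs ys hs → P ≠ -Point.some xs ys hs →
      (A' (oneLL n)).1 P = fn f P := by
    intro P h0 h1 h2
    have e1 := hA (oneLL n) P h0 h1 h2
    have h3 : P + Point.some xs ys hs ≠ 0 := fun h => h2 (eq_neg_of_add_eq_zero_left h)
    rw [oneLL_apply n h3, mul_one] at e1
    exact e1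
  haveI := infinite_point (W := W)
  have hfn' : ∀ P : W.Point, P ≠ 0 → P ≠ -Point.some xs ys hs → fn f P ≠ 0 := by
    intro P h0 h1
    rcases P with _ | ⟨x, y, hxy⟩
    · exact absurd rfl h0
    · exact hfn x y hxy h1
  refine ⟨A', ⟨?_, ?_⟩, f, hf0, hfd, hfn', fun φ P h0 h1 h2 => hA φ P h0 h1 h2⟩
  · intro h0
    have h1 : ∀ᶠ P : W.Point in cofinite, fn f P = 0 := by
      filter_upwards [hcof] with P hP
      rw [← hA'1 P hP.1 hP.2.1 hP.2.2, h0]
      rfl
    obtain ⟨P, hP1, hP2⟩ := (h1.and (eventually_ne_zero (W := W) hf0)).exists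
    exact hP2.2 hP1
  · intro φ
    filter_upwards [hcof] with P hP
    rw [hA'1 P hP.1 hP.2.1 hP.2.2]
    exact hA φ P hP.1 hP.2.1 hP.2.2

theorem exists_lift (hn : n • S = 0) : ∃ A : LL W n →ₗ[F] LL W n, IsLift n S A := by
  by_cases hS : S = 0
  · rw [hS]; exact ⟨_, isLift_id⟩
  · obtain ⟨A, hA, -⟩ := exists_lift_exact hn hS
    exact ⟨A, hA⟩

/-- the Weil pairing as a relation -/
def WeilRel (n : ℕ) (S T : W.Point) (c : F) : Prop :=
  ∃ A B : LL W n →ₗ[F] LL W n, IsLift n S A ∧ IsLift n T B ∧ A ∘ₗ B = c • (B ∘ₗ A)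

lemma comm_smul_smul {A B : LL W n →ₗ[F] LL W n} {a b c : F} (h : A ∘ₗ B = c • (B ∘ₗ A)) :
    (a • A) ∘ₗ (b • B) = c • ((b • B) ∘ₗ (a • A)) := by
  rw [LinearMap.smul_comp, LinearMap.comp_smul, LinearMap.smul_comp, LinearMap.comp_smul, h,
    smul_smul, smul_smul, smul_smul, smul_smul]
  congr 1
  ring

lemma WeilRel.of_lifts {c : F} (h : WeilRel n S T c) (hA : IsLift n S A) (hB : IsLift n T B) :
    A ∘ₗ B = c • (B ∘ₗ A) := by
  obtain ⟨A', B', hA', hB', h⟩ := h
  obtain ⟨a, -, rfl⟩ := hA'.unique hA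
  obtain ⟨b, -, rfl⟩ := hB'.unique hB
  exact comm_smul_smul h

lemma WeilRel.unique {c d : F} (h : WeilRel n S T c) (h' : WeilRel n S T d) : c = d := by
  obtain ⟨A, B, hA, hB, e⟩ := h
  have e' := h'.of_lifts hA hB
  rw [e] at e'
  haveI := infinite_point (W := W)
  obtain ⟨P, hP⟩ := (eventually_LL_ne_zero (hB.comp hA).one_ne_zero).exists
  have h1 := congrArg (fun (C : LL W n →ₗ[F] LL W n) => (C (oneLL n)).1 P) e'
  simp only [LinearMap.smul_apply, Submodule.coe_smul, Pi.smul_apply, smul_eq_mul] at h1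
  exact mul_right_cancel₀ hP h1

lemma exists_weilRel (hS : n • S = 0) (hT : n • T = 0) : ∃ c : F, WeilRel n S T c := by
  obtain ⟨A, hA⟩ := exists_lift (W := W) hS
  obtain ⟨B, hB⟩ := exists_lift (W := W) hT
  have h1 := hA.comp hB
  have h2 := hB.comp hA
  rw [add_comm] at h2
  obtain ⟨c, -, hc⟩ := h2.unique h1
  exact ⟨c, A, B, hA, hB, hc⟩

lemma WeilRel.ne_zero {c : F} (h : WeilRel n S T c) : c ≠ 0 := by
  obtain ⟨A, B, hA, hB, e⟩ := h
  rintro rfl
  rw [zero_smul] at e
  exact (hA.comp hB).1 e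

lemma weilRel_self (hS : n • S = 0) : WeilRel n S S 1 := by
  obtain ⟨A, hA⟩ := exists_lift (W := W) hS
  exact ⟨A, A, hA, hA, by rw [one_smul]⟩

lemma WeilRel.symm {c : F} (h : WeilRel n S T c) : WeilRel n T S c⁻¹ := by
  have hc := h.ne_zero
  obtain ⟨A, B, hA, hB, e⟩ := h
  refine ⟨B, A, hB, hA, ?_⟩
  rw [e, smul_smul, inv_mul_cancel₀ hc, one_smul]

lemma WeilRel.add_left {S' : W.Point} {c d : F} (h : WeilRel n S T c) (h' : WeilRel n S' T d) :
    WeilRel n (S + S') T (c * d) := by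
  obtain ⟨A, B, hA, hB, e⟩ := h
  obtain ⟨A', B', hA', hB', e'⟩ := h'
  have e2 := WeilRel.of_lifts ⟨A', B', hA', hB', e'⟩ hA' hB
  refine ⟨A ∘ₗ A', B, hA.comp hA', hB, ?_⟩
  rw [LinearMap.comp_assoc, e2, LinearMap.comp_smul, ← LinearMap.comp_assoc, e,
    LinearMap.smul_comp, smul_smul, LinearMap.comp_assoc, mul_comm]

lemma WeilRel.add_right {T' : W.Point} {c d : F} (h : WeilRel n S T c) (h' : WeilRel n S T' d) :
    WeilRel n S (T + T') (c * d) := by
  have h1 := (h.symm.add_left h'.symm).symm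
  rwa [mul_inv, inv_inv, inv_inv] at h1

lemma weilRel_zero_left (hT : n • T = 0) : WeilRel n (0 : W.Point) T 1 := by
  obtain ⟨B, hB⟩ := exists_lift (W := W) hT
  exact ⟨LinearMap.id, B, isLift_id, hB, by rw [one_smul, LinearMap.comp_id, LinearMap.id_comp]⟩

lemma WeilRel.nsmul_left {c : F} (hT : n • T = 0) (h : WeilRel n S T c) (k : ℕ) :
    WeilRel n (k • S) T (c ^ k) := by
  induction k with
  | zero => rw [zero_smul, pow_zero]; exact weilRel_zero_left hT
  | succ k ih => rw [succ_nsmul, pow_succ]; exact ih.add_left h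

lemma WeilRel.pow_eq_one {c : F} (hS : n • S = 0) (hT : n • T = 0) (h : WeilRel n S T c) :
    c ^ n = 1 := by
  have h1 := h.nsmul_left hT n
  rw [hS] at h1
  exact h1.unique (weilRel_zero_left hT)

end Fermat.Agent.H39
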