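import Fermat.Agent.H39WeilBasic

set_option autoImplicit false

open WeierstrassCurve WeierstrassCurve.Affine Polynomial
open scoped nonZeroDivisors Polynomial.Bivariate

noncomputable section

namespace Fermat.Agent.H39

universe u

variable {F : Type u} [Field F] {W : Affine F}

local macro "C_simp" : tactic =>
  `(tactic| simp only [map_ofNat, C_0, C_1, C_neg, C_add, C_sub, C_mul, C_pow])

variable (W) in
/-- numerator of `x(P + S)` -/
def rxP (xs ys : F) : F[X][Y] :=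
  (Y - C (C ys)) ^ 2 + C (C W.a₁) * (Y - C (C ys)) * C (X - C xs)
    - C (C W.a₂ + X + C xs) * C (X - C xs) ^ 2

variable (W) in
/-- numerator of `y(P + S)` -/
def ryP (xs ys : F) : F[X][Y] :=
  -((Y - C (C ys)) * (rxP W xs ys - C X * C (X - C xs) ^ 2) + Y * C (X - C xs) ^ 3)
    - C (C W.a₁) * rxP W xs ys * C (X - C xs) - C (C W.a₃) * C (X - C xs) ^ 3

lemma mk_rxP (xs ys : F) : CoordinateRing.mk W (rxP W xs ys) =
    (C xs * X ^ 2 + C (W.a₄ - W.a₁ * ys + xs ^ 2 + 2 * W.a₂ * xs) * X +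
      C (W.a₆ + ys ^ 2 + W.a₁ * xs * ys - xs ^ 3 - W.a₂ * xs ^ 2)) • (1 : W.CoordinateRing) +
    (C (-(2 * ys + W.a₁ * xs + W.a₃))) • CoordinateRing.mk W Y := by
  rw [CoordinateRing.smul, CoordinateRing.smul, mul_one, ← map_mul, ← map_add]
  refine AdjoinRoot.mk_eq_mk.mpr ⟨1, ?_⟩
  rw [WeierstrassCurve.Affine.polynomial, rxP]
  C_simp
  ring1

lemma mk_ryP (xs ys : F) : CoordinateRing.mk W (ryP W xs ys) =
    (C (2 * ys + W.a₁ * xs + W.a₃) * (X ^ 3 + C W.a₂ * X ^ 2 + C W.a₄ * X + C W.a₆)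
      - (C W.a₁ * X - C (W.a₁ * xs + ys)) *
        (C xs * X ^ 2 + C (W.a₄ - W.a₁ * ys + xs ^ 2 + 2 * W.a₂ * xs) * X +
      C (W.a₆ + ys ^ 2 + W.a₁ * xs * ys - xs ^ 3 - W.a₂ * xs ^ 2))
      - C ys * X * (X - C xs) ^ 2 - C W.a₃ * (X - C xs) ^ 3) • (1 : W.CoordinateRing) +
    (C (-((W.a₄ - W.a₁ * ys + xs ^ 2 + 2 * W.a₂ * xs) + 2 * xs ^ 2)) * X +
      C (-(W.a₆ + ys ^ 2 + W.a₁ * xs * ys - xs ^ 3 - W.a₂ * xs ^ 2)
        - (2 * ys + W.a₁ * xs + W.a₃) * (W.a₁ * xs + ys + W.a₃) + xs ^ 3)) •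
        CoordinateRing.mk W Y := by
  rw [CoordinateRing.smul, CoordinateRing.smul, mul_one, ← map_mul, ← map_add]
  refine AdjoinRoot.mk_eq_mk.mpr ⟨-(Y + C (C W.a₁ * X - C (W.a₁ * xs + ys))) +
    C (C (2 * ys + W.a₁ * xs + W.a₃)), ?_⟩
  rw [WeierstrassCurve.Affine.polynomial, ryP, rxP]
  C_simp
  ring1

lemma two_nsmul_degree_le {p : F[X]} {m n : ℕ} (hp : p.natDegree ≤ m) (h : 2 * m ≤ n) :
    2 • p.degree ≤ (n : WithBot ℕ) := by
  refine (nsmul_le_nsmul_right (degree_le_of_natDegree_le hp) 2).trans ?_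
  rw [nsmul_eq_mul]
  exact_mod_cast h

lemma two_nsmul_degree_add_le {p : F[X]} {m n : ℕ} (hp : p.natDegree ≤ m) (h : 2 * m + 3 ≤ n) :
    2 • p.degree + 3 ≤ (n : WithBot ℕ) := by
  refine (add_le_add_left (nsmul_le_nsmul_right (degree_le_of_natDegree_le hp) 2) 3).trans ?_
  rw [nsmul_eq_mul]
  exact_mod_cast h

lemma mk_rxP_mem (xs ys : F) : CoordinateRing.mk W (rxP W xs ys) ∈ Ldeg W 4 := by
  rw [mk_rxP, smul_basis_mem_Ldeg_iff]
  refine ⟨two_nsmul_degree_le (m := 2) (by compute_degree) (by norm_num),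
    two_nsmul_degree_add_le (m := 0) (by compute_degree) (by norm_num)⟩

lemma mk_ryP_mem (xs ys : F) : CoordinateRing.mk W (ryP W xs ys) ∈ Ldeg W 6 := by
  rw [mk_ryP, smul_basis_mem_Ldeg_iff]
  refine ⟨two_nsmul_degree_le (m := 3) (by compute_degree) (by norm_num),
    two_nsmul_degree_add_le (m := 1) (by compute_degree) (by norm_num)⟩

lemma XClass_mem_Ldeg (xs : F) : CoordinateRing.XClass W xs ∈ Ldeg W 2 := by
  have : CoordinateRing.XClass W xs = (X - C xs) • (1 : W.CoordinateRing) +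
      (0 : F[X]) • CoordinateRing.mk W Y := by
    rw [zero_smul, add_zero, CoordinateRing.smul, mul_one]; rfl
  rw [this, smul_basis_mem_Ldeg_iff]
  refine ⟨two_nsmul_degree_le (m := 1) (by compute_degree) (by norm_num), ?_⟩
  simp

lemma XClass_mem (xs ys : F) :
    CoordinateRing.XClass W xs ∈ CoordinateRing.XYIdeal W xs (C ys) :=
  Ideal.subset_span (by simp)

lemma YClass_mem (xs ys : F) :
    CoordinateRing.YClass W (C ys) ∈ CoordinateRing.XYIdeal W xs (C ys) :=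
  Ideal.subset_span (by simp)

lemma mk_rxP_mem_ideal (xs ys : F) :
    CoordinateRing.mk W (rxP W xs ys) ∈ CoordinateRing.XYIdeal W xs (C ys) ^ 2 := by
  set I := CoordinateRing.XYIdeal W xs (C ys) with hI
  have hx := XClass_mem (W := W) xs ys
  have hy := YClass_mem (W := W) xs ys
  have h : CoordinateRing.mk W (rxP W xs ys) =
      CoordinateRing.YClass W (C ys) ^ 2 +
      CoordinateRing.mk W (C (C W.a₁)) * (CoordinateRing.YClass W (C ys) *
        CoordinateRing.XClass W xs)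
      - CoordinateRing.mk W (C (C W.a₂ + X + C xs)) * CoordinateRing.XClass W xs ^ 2 := by
    simp only [rxP, CoordinateRing.XClass, CoordinateRing.YClass, map_add, map_sub, map_mul,
      map_pow]
    ring
  rw [h]
  refine Ideal.sub_mem _ (Ideal.add_mem _ (Ideal.pow_mem_pow hy 2) (Ideal.mul_mem_left _ _ ?_))
    (Ideal.mul_mem_left _ _ (Ideal.pow_mem_pow hx 2))
  rw [pow_two]
  exact Ideal.mul_mem_mul hy hx

lemma mk_ryP_mem_ideal (xs ys : F) :
    CoordinateRing.mk W (ryP W xs ys) ∈ CoordinateRing.XYIdeal W xs (C ys) ^ 3 := by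
  set I := CoordinateRing.XYIdeal W xs (C ys) with hI
  have hx := XClass_mem (W := W) xs ys
  have hy := YClass_mem (W := W) xs ys
  have hr := mk_rxP_mem_ideal (W := W) xs ys
  rw [← hI] at hx hy hr
  have h : CoordinateRing.mk W (ryP W xs ys) =
      -(CoordinateRing.YClass W (C ys) * CoordinateRing.mk W (rxP W xs ys) -
        CoordinateRing.mk W (C X) *
          (CoordinateRing.YClass W (C ys) * CoordinateRing.XClass W xs ^ 2) +
        CoordinateRing.mk W Y * CoordinateRing.XClass W xs ^ 3)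
      - CoordinateRing.mk W (C (C W.a₁)) *
        (CoordinateRing.mk W (rxP W xs ys) * CoordinateRing.XClass W xs)
      - CoordinateRing.mk W (C (C W.a₃)) * CoordinateRing.XClass W xs ^ 3 := by
    simp only [ryP, CoordinateRing.XClass, CoordinateRing.YClass, map_add, map_sub, map_mul,
      map_pow, map_neg]
    ring
  rw [h]
  have e1 : CoordinateRing.YClass W (C ys) * CoordinateRing.mk W (rxP W xs ys) ∈ I ^ 3 := by
    rw [pow_succ']; exact Ideal.mul_mem_mul hy hr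
  have e2 : CoordinateRing.YClass W (C ys) * CoordinateRing.XClass W xs ^ 2 ∈ I ^ 3 := by
    rw [pow_succ']; exact Ideal.mul_mem_mul hy (Ideal.pow_mem_pow hx 2)
  have e3 : CoordinateRing.XClass W xs ^ 3 ∈ I ^ 3 := Ideal.pow_mem_pow hx 3
  have e4 : CoordinateRing.mk W (rxP W xs ys) * CoordinateRing.XClass W xs ∈ I ^ 3 := by
    rw [pow_succ]; exact Ideal.mul_mem_mul hr hx
  exact Ideal.sub_mem _ (Ideal.sub_mem _ (Ideal.neg_mem_iff _ |>.mpr (Ideal.add_mem _
    (Ideal.sub_mem _ e1 (Ideal.mul_mem_left _ _ e2)) (Ideal.mul_mem_left _ _ e3)))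
    (Ideal.mul_mem_left _ _ e4)) (Ideal.mul_mem_left _ _ e3)

section translate

variable [DecidableEq F] {xs ys : F} (hS : W.Nonsingular xs ys)

lemma add_eq_some {x y : F} (h : W.Nonsingular x y) (hx : x ≠ xs) :
    ∃ (h' : W.Nonsingular (W.addX x xs ((y - ys) / (x - xs)))
      (W.addY x xs y ((y - ys) / (x - xs)))),
    Point.some x y h + Point.some xs ys hS = Point.some _ _ h' := by
  have e := Point.add_of_X_ne (h₁ := h) (h₂ := hS) hx
  have hs : W.slope x xs y ys = (y - ys) / (x - xs) := slope_of_X_ne hx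
  simp only [hs] at e
  exact ⟨_, e⟩

lemma evalPt_rxP {x y : F} (h : W.Nonsingular x y) (hx : x ≠ xs) :
    evalPt h.1 (CoordinateRing.mk W (rxP W xs ys)) =
      (x - xs) ^ 2 * fn (CoordinateRing.mk W (C X)) (Point.some x y h + Point.some xs ys hS) := by
  obtain ⟨h', e⟩ := add_eq_some hS h hx
  rw [e, fn_some, evalPt_X, evalPt_mk]
  have hne : x - xs ≠ 0 := sub_ne_zero.mpr hx
  simp only [rxP, evalEval_add, evalEval_mul, evalEval_C, evalEval_sub, evalEval_X,
    evalEval_pow, eval_add, eval_C, eval_X, eval_sub,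
    WeierstrassCurve.Affine.addX]
  field_simp
  ring

lemma evalPt_ryP {x y : F} (h : W.Nonsingular x y) (hx : x ≠ xs) :
    evalPt h.1 (CoordinateRing.mk W (ryP W xs ys)) =
      (x - xs) ^ 3 * fn (CoordinateRing.mk W Y) (Point.some x y h + Point.some xs ys hS) := by
  obtain ⟨h', e⟩ := add_eq_some hS h hx
  rw [e, fn_some, evalPt_Y, evalPt_mk]
  have hne : x - xs ≠ 0 := sub_ne_zero.mpr hx
  simp only [ryP, rxP, evalEval_add, evalEval_mul, evalEval_C, evalEval_sub, evalEval_neg,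
    evalEval_X,
    evalEval_pow, eval_add, eval_C, eval_X, eval_sub,
    WeierstrassCurve.Affine.addX, WeierstrassCurve.Affine.addY, WeierstrassCurve.Affine.negAddY,
    WeierstrassCurve.Affine.negY]
  field_simp
  ring

/-- functions `φ` such that `(x - xs)^n φ(P + S)` lies in the `n`-th power of the ideal of `S`
and has degree at most `2n` -/
def Tr (n : ℕ) : Submodule F W.CoordinateRing where
  carrier := {φ | ∃ s : W.CoordinateRing, s ∈ CoordinateRing.XYIdeal W xs (C ys) ^ n ∧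
    s ∈ Ldeg W (2 * n) ∧ ∀ (x y : F) (h : W.Nonsingular x y), x ≠ xs →
      evalPt h.1 s = (x - xs) ^ n * fn φ (Point.some x y h + Point.some xs ys hS)}
  zero_mem' := ⟨0, Ideal.zero_mem _, Submodule.zero_mem _, by
    intro x y h hx
    have h0 := (fnLin W).map_zero
    rw [fnLin_apply] at h0
    rw [map_zero, h0, Pi.zero_apply, mul_zero]⟩
  add_mem' := by
    rintro a b ⟨s, hs1, hs2, hs3⟩ ⟨t, ht1, ht2, ht3⟩
    refine ⟨s + t, Ideal.add_mem _ hs1 ht1, Submodule.add_mem _ hs2 ht2, ?_⟩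
    intro x y h hx
    rw [map_add, hs3 x y h hx, ht3 x y h hx, fn_add, mul_add]
  smul_mem' := by
    rintro c a ⟨s, hs1, hs2, hs3⟩
    refine ⟨c • s, ?_, Submodule.smul_mem _ _ hs2, ?_⟩
    · rw [Algebra.smul_def]; exact Ideal.mul_mem_left _ _ hs1
    · intro x y h hx
      have h0 := (fnLin W).map_smul c a
      rw [fnLin_apply, fnLin_apply] at h0
      rw [Algebra.smul_def, map_mul, evalPt_algebraMap, hs3 x y h hx, h0, Pi.smul_apply,
        smul_eq_mul]
      ring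

lemma mul_mem_Tr {m n : ℕ} {a b : W.CoordinateRing} (ha : a ∈ Tr hS m) (hb : b ∈ Tr hS n) :
    a * b ∈ Tr hS (m + n) := by
  obtain ⟨s, hs1, hs2, hs3⟩ := ha
  obtain ⟨t, ht1, ht2, ht3⟩ := hb
  refine ⟨s * t, ?_, ?_, ?_⟩
  · rw [pow_add]; exact Ideal.mul_mem_mul hs1 ht1
  · rw [mul_add]; exact mul_mem_Ldeg hs2 ht2
  · intro x y h hx
    rw [map_mul, hs3 x y h hx, ht3 x y h hx, fn_mul]
    ring

lemma add_ne_zero_of_X_ne {x y : F} (h : W.Nonsingular x y) (hx : x ≠ xs) :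
    Point.some x y h + Point.some xs ys hS ≠ 0 := by
  obtain ⟨h', e⟩ := add_eq_some hS h hx
  rw [e]
  exact Point.some_ne_zero _

lemma one_mem_Tr_zero : (1 : W.CoordinateRing) ∈ Tr hS 0 := by
  refine ⟨1, by simp, one_mem_Ldeg _, ?_⟩
  intro x y h hx
  rw [map_one, pow_zero, one_mul, fn_one (add_ne_zero_of_X_ne hS h hx)]

omit [DecidableEq F] in
lemma evalPt_XClass {x y : F} (h : W.Equation x y) (xs : F) :
    evalPt h (CoordinateRing.XClass W xs) = x - xs := by
  rw [CoordinateRing.XClass, evalPt_mk]; simp [Polynomial.evalEval]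

lemma one_mem_Tr_one : (1 : W.CoordinateRing) ∈ Tr hS 1 := by
  refine ⟨CoordinateRing.XClass W xs, by rw [pow_one]; exact XClass_mem xs ys,
    XClass_mem_Ldeg xs, ?_⟩
  intro x y h hx
  rw [evalPt_XClass, pow_one, fn_one (add_ne_zero_of_X_ne hS h hx), mul_one]

lemma one_mem_Tr (n : ℕ) : (1 : W.CoordinateRing) ∈ Tr hS n := by
  induction n with
  | zero => exact one_mem_Tr_zero hS
  | succ n ih =>
    have := mul_mem_Tr hS ih (one_mem_Tr_one hS)
    rwa [mul_one] at this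

lemma Tr_mono {m n : ℕ} (h : m ≤ n) : Tr hS m ≤ Tr hS n := by
  intro r hr
  have := mul_mem_Tr hS hr (one_mem_Tr hS (n - m))
  rwa [mul_one, Nat.add_sub_cancel' h] at this

lemma X_mem_Tr : CoordinateRing.mk W (C X) ∈ Tr hS 2 :=
  ⟨_, mk_rxP_mem_ideal xs ys, mk_rxP_mem xs ys, fun _ _ h hx => evalPt_rxP hS h hx⟩

lemma Y_mem_Tr : CoordinateRing.mk W Y ∈ Tr hS 3 :=
  ⟨_, mk_ryP_mem_ideal xs ys, mk_ryP_mem xs ys, fun _ _ h hx => evalPt_ryP hS h hx⟩

lemma X_pow_mem_Tr (k : ℕ) : CoordinateRing.mk W (C X) ^ k ∈ Tr hS (2 * k) := by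
  induction k with
  | zero => rw [pow_zero]; exact one_mem_Tr hS 0
  | succ k ih =>
    rw [pow_succ, mul_add]
    exact mul_mem_Tr hS ih (X_mem_Tr hS)

lemma poly_mem_Tr (p : F[X]) (n : ℕ) (hp : 2 • p.degree ≤ (n : WithBot ℕ)) :
    CoordinateRing.mk W (C p) ∈ Tr hS n := by
  have h1 : CoordinateRing.mk W (C p) =
      ∑ i ∈ Finset.range (p.natDegree + 1), p.coeff i • CoordinateRing.mk W (C X) ^ i := by
    conv_lhs => rw [p.as_sum_range_C_mul_X_pow]
    rw [map_sum, map_sum]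
    refine Finset.sum_congr rfl fun i _ => ?_
    rw [Algebra.smul_def, C_mul, C_pow, map_mul, map_pow]
    rfl
  by_cases hp0 : p = 0
  · rw [hp0, C_0, map_zero]; exact Submodule.zero_mem _
  rw [h1]
  refine Submodule.sum_mem _ fun i hi => Submodule.smul_mem _ _ ?_
  refine Tr_mono hS ?_ (X_pow_mem_Tr hS i)
  rw [Finset.mem_range] at hi
  rw [degree_eq_natDegree hp0, nsmul_eq_mul] at hp
  have h2 : 2 * p.natDegree ≤ n := by exact_mod_cast hp
  omega

lemma Ldeg_le_Tr (n : ℕ) : Ldeg W n ≤ Tr hS n := by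
  intro r hr
  obtain ⟨p, q, rfl⟩ := CoordinateRing.exists_smul_basis_eq r
  rw [smul_basis_mem_Ldeg_iff] at hr
  obtain ⟨h1, h2⟩ := hr
  refine Submodule.add_mem _ ?_ ?_
  · rw [CoordinateRing.smul, mul_one]
    exact poly_mem_Tr hS p n h1
  · by_cases hq : q = 0
    · rw [hq, zero_smul]; exact Submodule.zero_mem _
    · rw [degree_eq_natDegree hq, nsmul_eq_mul] at h2
      have h3 : 2 * q.natDegree + 3 ≤ n := by exact_mod_cast h2
      rw [CoordinateRing.smul]
      have h4 := mul_mem_Tr hS (poly_mem_Tr hS q (n - 3) (two_nsmul_degree_le le_rfl (by omega)))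
        (Y_mem_Tr hS)
      rwa [Nat.sub_add_cancel (by omega)] at h4

end translate

end Fermat.Agent.H39
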