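import Fermat.Agent.H80Al

/-!
# Commutative groups acting on functions, and the aleph polynomial (helper39, S47 C5)

`trop : Γ × ℂˣ →* Module.End ℂ (Ω → ℂ)`, `(g, c)` acts by `F ↦ (ω ↦ c * F (g • ω))`;
`opP x : MvPolynomial A ℤ →+* Module.End ℂ (Ω → ℂ)`, `X a ↦ trop (x a) + trop (x a)⁻¹`;
`opP_kill`: `opP x P ψ = 0` if `P` is the aleph polynomial and `∏ x a` fixes `ψ`.
-/

set_option autoImplicit false
set_option linter.unusedSectionVars false

noncomputable section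

open MvPolynomial

namespace Fermat.Agent.H39Z

open Fermat.Agent.H80Al

variable {A : Type} [Fintype A] [DecidableEq A] {Γ : Type*} [CommGroup Γ] {Ω : Type*}
  [MulAction Γ Ω]

/-- twisted translation operators -/
def trop : Γ × ℂˣ →* Module.End ℂ (Ω → ℂ) where
  toFun x :=
    { toFun := fun F ω => (x.2 : ℂ) * F (x.1 • ω)
      map_add' := fun F G => funext fun ω => mul_add _ _ _
      map_smul' := fun c F => funext fun ω => by
        simp only [Pi.smul_apply, smul_eq_mul, RingHom.id_apply]; ring }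
  map_one' := by
    ext F ω
    simp
  map_mul' x y := by
    ext F ω
    show ((x.2 * y.2 : ℂˣ) : ℂ) * F ((x.1 * y.1) • ω) = (x.2 : ℂ) * ((y.2 : ℂ) * F (y.1 • x.1 • ω))
    rw [← mul_smul, mul_comm y.1 x.1, Units.val_mul, mul_assoc]

@[simp] theorem trop_apply (x : Γ × ℂˣ) (F : Ω → ℂ) (ω : Ω) :
    trop x F ω = (x.2 : ℂ) * F (x.1 • ω) := rfl

/-- the homomorphism from the free commutative group -/
def grp (x : A → Γ × ℂˣ) : (A → Multiplicative ℤ) →* Γ × ℂˣ where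
  toFun n := ∏ a, x a ^ (Multiplicative.toAdd (n a))
  map_one' := by simp
  map_mul' n n' := by
    rw [← Finset.prod_mul_distrib]
    refine Finset.prod_congr rfl fun a _ => ?_
    rw [Pi.mul_apply, toAdd_mul, zpow_add]

theorem grp_mulSingle (x : A → Γ × ℂˣ) (a : A) (n : Multiplicative ℤ) :
    grp x (Pi.mulSingle a n) = x a ^ (Multiplicative.toAdd n) := by
  show ∏ b, x b ^ (Multiplicative.toAdd ((Pi.mulSingle a n : A → Multiplicative ℤ) b)) = _
  rw [Finset.prod_eq_single a]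
  · rw [Pi.mulSingle_eq_same]
  · intro b _ hb
    rw [Pi.mulSingle_eq_of_ne hb, toAdd_one, zpow_zero]
  · intro h
    exact absurd (Finset.mem_univ a) h

/-- the algebra homomorphism -/
def algL (x : A → Γ × ℂˣ) :
    MonoidAlgebra ℂ (A → Multiplicative ℤ) →ₐ[ℂ] Module.End ℂ (Ω → ℂ) :=
  MonoidAlgebra.lift ℂ (Module.End ℂ (Ω → ℂ)) (A → Multiplicative ℤ) (trop.comp (grp x))

/-- the variables -/
def vv (a : A) : (MonoidAlgebra ℂ (A → Multiplicative ℤ))ˣ :=
  Units.map (MonoidAlgebra.of ℂ (A → Multiplicative ℤ))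
    (toUnits (Pi.mulSingle a (Multiplicative.ofAdd (1 : ℤ)) : A → Multiplicative ℤ))

theorem algL_of (x : A → Γ × ℂˣ) (n : A → Multiplicative ℤ) :
    (algL x (MonoidAlgebra.of ℂ (A → Multiplicative ℤ) n) : Module.End ℂ (Ω → ℂ)) =
      trop (grp x n) := by
  rw [algL, MonoidAlgebra.lift_of]
  rfl

theorem algL_vv (x : A → Γ × ℂˣ) (a : A) :
    (algL x (vv a : MonoidAlgebra ℂ (A → Multiplicative ℤ)) : Module.End ℂ (Ω → ℂ)) =
      trop (x a) := by
  have h : ((vv a : (MonoidAlgebra ℂ (A → Multiplicative ℤ))ˣ) :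
      MonoidAlgebra ℂ (A → Multiplicative ℤ)) = MonoidAlgebra.of ℂ (A → Multiplicative ℤ)
        (Pi.mulSingle a (Multiplicative.ofAdd (1 : ℤ))) := rfl
  rw [h, algL_of, grp_mulSingle]
  simp

theorem algL_vv_inv (x : A → Γ × ℂˣ) (a : A) :
    (algL x ((vv a)⁻¹ : (MonoidAlgebra ℂ (A → Multiplicative ℤ))ˣ) : Module.End ℂ (Ω → ℂ)) =
      trop (x a)⁻¹ := by
  have h : (((vv a)⁻¹ : (MonoidAlgebra ℂ (A → Multiplicative ℤ))ˣ) :
      MonoidAlgebra ℂ (A → Multiplicative ℤ)) = MonoidAlgebra.of ℂ (A → Multiplicative ℤ)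
        (Pi.mulSingle a (Multiplicative.ofAdd (1 : ℤ)))⁻¹ := rfl
  rw [h, algL_of, map_inv, grp_mulSingle]
  simp

/-- evaluation of integral polynomials at `trop (x a) + trop (x a)⁻¹`. -/
def opP (x : A → Γ × ℂˣ) : MvPolynomial A ℤ →+* Module.End ℂ (Ω → ℂ) :=
  ((algL x : MonoidAlgebra ℂ (A → Multiplicative ℤ) →ₐ[ℂ] Module.End ℂ (Ω → ℂ)) :
    MonoidAlgebra ℂ (A → Multiplicative ℤ) →+* Module.End ℂ (Ω → ℂ)).comp
    (eval₂Hom (Int.castRingHom (MonoidAlgebra ℂ (A → Multiplicative ℤ)))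
      (fun a => ((vv a : (MonoidAlgebra ℂ (A → Multiplicative ℤ))ˣ) :
      MonoidAlgebra ℂ (A → Multiplicative ℤ)) + ((vv a)⁻¹ :
        (MonoidAlgebra ℂ (A → Multiplicative ℤ))ˣ)))

theorem opP_apply (x : A → Γ × ℂˣ) (P : MvPolynomial A ℤ) :
    (opP x P : Module.End ℂ (Ω → ℂ)) = algL x (eval₂Hom
      (Int.castRingHom (MonoidAlgebra ℂ (A → Multiplicative ℤ))) (fun a =>
      ((vv a : (MonoidAlgebra ℂ (A → Multiplicative ℤ))ˣ) :
      MonoidAlgebra ℂ (A → Multiplicative ℤ)) + ((vv a)⁻¹ :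
        (MonoidAlgebra ℂ (A → Multiplicative ℤ))ˣ)) P) := rfl

theorem opP_X (x : A → Γ × ℂˣ) (a : A) :
    (opP x (X a) : Module.End ℂ (Ω → ℂ)) = trop (x a) + trop (x a)⁻¹ := by
  rw [opP_apply, eval₂Hom_X', map_add, algL_vv, algL_vv_inv]

theorem opP_monomial_zero (x : A → Γ × ℂˣ) :
    (opP x (monomial 0 1) : Module.End ℂ (Ω → ℂ)) = 1 := by
  have : (monomial (0 : A →₀ ℕ) (1 : ℤ)) = 1 := rfl
  rw [this, map_one]

theorem opP_monomial_add (x : A → Γ × ℂˣ) (m : A →₀ ℕ) (a : A) (F : Ω → ℂ) :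
    (opP x (monomial (m + Finsupp.single a 1) 1) : Module.End ℂ (Ω → ℂ)) F =
      opP x (monomial m 1) (trop (x a) F + trop (x a)⁻¹ F) := by
  have h : (monomial (m + Finsupp.single a 1) (1 : ℤ)) = monomial m 1 * X a := by
    rw [X, monomial_mul, one_mul]
  rw [h, map_mul, Module.End.mul_apply, opP_X, LinearMap.add_apply]

theorem opP_eq_sum (x : A → Γ × ℂˣ) (P : MvPolynomial A ℤ) (F : Ω → ℂ) :
    (opP x P : Module.End ℂ (Ω → ℂ)) F =
      ∑ m ∈ P.support, ((coeff m P : ℤ) : ℂ) • opP x (monomial m 1) F := by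
  conv_lhs => rw [P.as_sum, map_sum]
  rw [LinearMap.sum_apply]
  refine Finset.sum_congr rfl fun m _ => ?_
  have h : monomial m (coeff m P) = (coeff m P : ℤ) • monomial m (1 : ℤ) := by
    rw [smul_monomial, smul_eq_mul, mul_one]
  rw [h, map_zsmul, LinearMap.smul_apply, Int.cast_smul_eq_zsmul]

/-- **Killing.** -/
theorem opP_kill {P : MvPolynomial A ℤ} (hP : IsAleph P) (x : A → Γ × ℂˣ) (F : Ω → ℂ)
    (h : trop (∏ a, x a) F = F) : (opP x P : Module.End ℂ (Ω → ℂ)) F = 0 := by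
  have h1 : eval₂ (Int.castRingHom (MonoidAlgebra ℂ (A → Multiplicative ℤ)))
      (fun a => ((vv a : (MonoidAlgebra ℂ (A → Multiplicative ℤ))ˣ) :
      MonoidAlgebra ℂ (A → Multiplicative ℤ)) + ((vv a)⁻¹ :
        (MonoidAlgebra ℂ (A → Multiplicative ℤ))ˣ)) P =
      ∏ T : Finset A, (1 - ∏ a, ((Fermat.Agent.H39Z.flip T vv a :
      (MonoidAlgebra ℂ (A → Multiplicative ℤ))ˣ) : MonoidAlgebra ℂ (A → Multiplicative ℤ))) := by
    have h0 := hP (MonoidAlgebra ℂ (A → Multiplicative ℤ)) vv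
    rw [aeval_def] at h0
    rw [← h0]
    congr 1
  rw [opP_apply, coe_eval₂Hom, h1, ← Finset.mul_prod_erase Finset.univ _ (Finset.mem_univ (∅ : Finset A)),
    mul_comm, map_mul, Module.End.mul_apply]
  have h2 : (algL x (1 - ∏ a, ((Fermat.Agent.H39Z.flip ∅ vv a :
      (MonoidAlgebra ℂ (A → Multiplicative ℤ))ˣ) : MonoidAlgebra ℂ (A → Multiplicative ℤ))) :
      Module.End ℂ (Ω → ℂ)) F = 0 := by
    rw [flip_empty, map_sub, map_one, LinearMap.sub_apply, Module.End.one_apply]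
    have h3 : (∏ a, ((vv a : (MonoidAlgebra ℂ (A → Multiplicative ℤ))ˣ) :
        MonoidAlgebra ℂ (A → Multiplicative ℤ))) = MonoidAlgebra.of ℂ (A → Multiplicative ℤ)
          (∏ a, Pi.mulSingle a (Multiplicative.ofAdd (1 : ℤ))) := by
      rw [map_prod]
      rfl
    rw [h3, algL_of, map_prod]
    simp only [grp_mulSingle, toAdd_ofAdd, zpow_one]
    rw [h, sub_self]
  rw [h2, map_zero]

end Fermat.Agent.H39Z
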