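import Fermat.Agent.H39ZFin
import Fermat.Agent.H86B2
import Fermat.Agent.H59K3

/-!
# Constant terms of the automorphic kernel of `C_1` (helper39, S47 C5)

`cuspAll_fk`: the constant terms of the automorphic kernel of the smoothed `C_1` vanish, in the
shape `H86B.CuspAll` for the finite families `H59K.fk`.
-/

set_option autoImplicit false
set_option linter.unusedSectionVars false
set_option linter.style.haveILetI false

open IsDedekindDomain HeightOneSpectrum WithZero NumberField MeasureTheory Module Matrix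
open scoped MatrixGroups

noncomputable section

open scoped Classical

namespace Fermat.Agent.H39Z

open Fermat.Agent.H59XF Fermat.Agent.H59D Fermat.Agent.H12TW
open Fermat.Agent.H7.Z (borP Bor)
open Fermat.Agent.H51Z (lop gop gs gmul single gone mem_gs gop_def gop_gmul gop_single gop_gone
  gone_k)
open Fermat.Agent.H56Z (IsRC IsLB abel conv conv_apply conv_comm)
open Fermat.Agent.H5Z (Rk tr tr_tr emb emb_add chv)
open Fermat.Agent.H80Al (IsAleph)
open Fermat.Agent.H86B (TK actJ isoM pdM CuspAll K_eq_sum K_locBdd measurable_K exists_mem_D D_mono)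
open Fermat.Agent.H59K (fk)

section TKs

variable {J : Type*} [Fintype J] {Y : Type*} {G : Type*} [Group G] [MulAction G (J → H3)]
  [MulAction G Y]

/-- compact sets are contained in boxes -/
theorem exists_subset_D {S : Set (J → H3)} (hS : IsCompact S) : ∃ R, S ⊆ H86B.D J R := by
  have h1 : ∀ j, ∃ C : ℝ, ∀ v ∈ S, ‖(v j).z‖ ≤ C ∧ (v j).y ≤ C ∧ 1 / (v j).y ≤ C := by
    intro j
    have hz : Continuous fun v : J → H3 => (v j).z := H3.continuous_z.comp (continuous_apply j)
    have hy : Continuous fun v : J → H3 => (v j).y := H3.continuous_y.comp (continuous_apply j)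
    have hy' : Continuous fun v : J → H3 => 1 / (v j).y :=
      continuous_const.div hy fun v => (v j).pos.ne'
    obtain ⟨C1, hC1⟩ := hS.exists_bound_of_continuousOn hz.continuousOn
    obtain ⟨C2, hC2⟩ := hS.exists_bound_of_continuousOn hy.continuousOn
    obtain ⟨C3, hC3⟩ := hS.exists_bound_of_continuousOn hy'.continuousOn
    refine ⟨max C1 (max C2 C3), fun v hv => ⟨(hC1 v hv).trans (le_max_left _ _), ?_, ?_⟩⟩
    · exact ((le_abs_self _).trans (hC2 v hv)).trans ((le_max_left _ _).trans (le_max_right _ _))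
    · exact ((le_abs_self _).trans (hC3 v hv)).trans ((le_max_right _ _).trans (le_max_right _ _))
  choose C hC using h1
  refine ⟨∑ j, |C j|, fun v hv j => ?_⟩
  obtain ⟨h1, h2, h3⟩ := hC j v hv
  have h4 : C j ≤ ∑ j, |C j| := (le_abs_self _).trans
    (Finset.single_le_sum (f := fun j => |C j|) (fun _ _ => abs_nonneg _) (Finset.mem_univ j))
  refine ⟨h1.trans h4, h2.trans h4, ?_⟩
  have h5 := h3.trans h4
  rwa [div_le_iff₀ (v j).pos] at h5

theorem LB_K (hP : H86B.PD G J Y) {c : (J → H3) × Y → (J → H3) × Y → ℂ} (hc : TK G c) (η : Y)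
    (y : (J → H3) × Y) : LB fun v => H86B.K G c (v, η) y := by
  refine ⟨measurable_K hP hc η y, fun S hS => ?_⟩
  obtain ⟨R, hR⟩ := exists_subset_D hS
  obtain ⟨C, -, hC⟩ := K_locBdd hP hc R η y
  exact ⟨C, fun v hv => hC v (hR hv)⟩

theorem LB_c {c : (J → H3) × Y → (J → H3) × Y → ℂ} (hc : TK G c) (η : Y)
    (y : (J → H3) × Y) : LB fun v => c (v, η) y := by
  obtain ⟨C, -, hC⟩ := hc.bdd
  exact ⟨hc.meas η y, fun S _ => ⟨C, fun v _ => hC _ _⟩⟩

/-- `R(κ)` of the automorphic kernel is the sum of the `R(κ)`. -/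
theorem Rk_K (hP : H86B.PD G J Y) {c : (J → H3) × Y → (J → H3) × Y → ℂ} (hc : TK G c)
    {κ : (J → ℝ) → ℂ} (hκ : IsRC κ) (η : Y) (y : (J → H3) × Y) (x : J → H3) :
    Summable (fun g : G => Rk κ (fun v => c (v, η) (g • y)) x) ∧
      ∑' g : G, Rk κ (fun v => c (v, η) (g • y)) x = Rk κ (fun v => H86B.K G c (v, η) y) x := by
  obtain ⟨R, M, hR1, hM0, hM, hR⟩ := hκ.exists_bounds
  obtain ⟨R', hR'⟩ := exists_subset_D (H56Z.isCompact_Bl R x)
  set S := (hc.finite_supp hP R' η y).toFinset with hS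
  have h0 : ∀ g ∉ S, Rk κ (fun v => c (v, η) (g • y)) x = 0 := by
    intro g hg
    unfold H5Z.Rk
    refine integral_eq_zero_of_ae (Filter.Eventually.of_forall fun v => ?_)
    show κ (chv x v) * c (v, η) (g • y) = 0
    by_cases hv : v ∈ H5Z.Bl R x
    · have h2 : c (v, η) (g • y) = 0 := by
        by_contra h3
        exact hg ((Set.Finite.mem_toFinset _).mpr ⟨v, hR' hv, h3⟩)
      rw [h2, mul_zero]
    · rw [IsRC.eq_zero_of_notMem hR hv, zero_mul]
  refine ⟨summable_of_ne_finset_zero h0, ?_⟩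
  rw [tsum_eq_sum h0]
  have h1 : Rk κ (fun v => H86B.K G c (v, η) y) x =
      ∫ v, ∑ g ∈ S, κ (chv x v) * c (v, η) (g • y) := by
    unfold H5Z.Rk
    congr 1
    funext v
    by_cases hv : v ∈ H5Z.Bl R x
    · show κ (chv x v) * H86B.K G c (v, η) y = _
      rw [K_eq_sum hP hc R' η y (hR' hv), Finset.mul_sum]
    · rw [IsRC.eq_zero_of_notMem hR hv]
      simp
  rw [h1, integral_finsetSum]
  · rfl
  · intro g _
    exact (LB_c hc η (g • y)).isLB.integrable_Rk hκ x

end TKs

/-! ### On the model -/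

variable {K : Type*} [Field K] [NumberField K] {J : Type*} [Fintype J] {m : Model K J}

/-- the kernel `a ⊗ 1` -/
def kz (m : Model K J) (a : (J → ℝ) → ℂ) : m.X → m.X → ℂ := m.ker a (gone : GlobKer m.L.fam).k

theorem kz_apply (a : (J → ℝ) → ℂ) (v : J → H3) (η : XF m.L.fam) (y : m.X) :
    kz m a (v, η) y = a (chv v y.1) * if η = y.2 then 1 else 0 := by
  show a (chv v y.1) * (gone : GlobKer m.L.fam).k η y.2 = _
  rw [gone_k]

theorem kz_smul (a : (J → ℝ) → ℂ) (g : PGL(2, K)) (x y : m.X) :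
    kz m a (g • x) (g • y) = kz m a x y :=
  m.ker_smul a _ (fun g x y => (gone : GlobKer m.L.fam).k_smul g x y) g x y

theorem TK_kz {a : (J → ℝ) → ℂ} (ha : IsRC a) :
    @TK J (XF m.L.fam) PGL(2, K) _ (actJ m) _ (kz m a) := by
  obtain ⟨R, M, hR1, hM0, hM, hR⟩ := ha.exists_bounds
  refine TK.ofRange (Tc := R) (Bc := M) ⟨?_, ?_, ?_⟩ (kz_smul a) ?_
  · rintro ⟨v, η⟩ y
    rw [kz_apply, norm_mul]
    refine (mul_le_mul (hM _) (?_ : _ ≤ (1 : ℝ)) (norm_nonneg _) hM0).trans (mul_one M).le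
    split_ifs <;> simp
  · rintro ⟨v, η⟩ y hne j
    rw [kz_apply] at hne
    by_contra hcon
    exact left_ne_zero_of_mul hne (hR _ ⟨j, not_le.1 hcon⟩)
  · intro η
    refine (Set.finite_singleton η).subset ?_
    rintro η' ⟨w, w', hne⟩
    rw [kz_apply] at hne
    by_contra hcon
    exact right_ne_zero_of_mul hne (if_neg fun h => hcon h.symm)
  · intro η y
    have e : (fun v => kz m a (v, η) y) = fun v => a (chv v y.1) * if η = y.2 then 1 else 0 :=
      funext fun v => kz_apply a v η y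
    rw [e]
    refine Measurable.mul_const ?_ _
    exact (ha.cont.comp (H5Z.continuous_chv.comp
      (continuous_id.prodMk continuous_const))).measurable

/-- the automorphic function attached to `a ⊗ 1` -/
def Fz (m : Model K J) (a : (J → ℝ) → ℂ) (x' : m.X) (y : XF m.L.fam) (v : J → H3) : ℂ :=
  H32Z.CutOff.autK PGL(2, K) (kz m a) ((v, y) : m.X) x'

theorem AF_Fz {a : (J → ℝ) → ℂ} (ha : IsRC a) (x' : m.X) : AF m (Fz m a x') :=
  AF.of_inv (Φ := fun x => H32Z.CutOff.autK PGL(2, K) (kz m a) x x')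
    (fun g p => H32Z.CutOff.autK_smul_left (kz_smul a) p x' g)
    fun y => by
      letI := actJ m
      exact LB_K (pdM (m := m)) (TK_kz ha) y x'

/-- `R(κ) (Fz a)` as a sum over the group -/
theorem Rk_Fz {a : (J → ℝ) → ℂ} (ha : IsRC a) (x' : m.X) {κ : (J → ℝ) → ℂ} (hκ : IsRC κ)
    (y : XF m.L.fam) (v : J → H3) :
    Summable (fun g : PGL(2, K) => conv κ a (chv v (g • x').1) *
        if y = (g • x').2 then 1 else 0) ∧
    ∑' g : PGL(2, K), (conv κ a (chv v (g • x').1) * if y = (g • x').2 then 1 else 0) =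
      Rk κ (Fz m a x' y) v := by
  letI := actJ m
  have h1 := Rk_K (pdM (m := m)) (TK_kz (m := m) ha) hκ y x' v
  have e : ∀ g : PGL(2, K), Rk κ (fun v => kz m a (v, y) (g • x')) v =
      conv κ a (chv v (g • x').1) * if y = (g • x').2 then 1 else 0 := by
    intro g
    rw [conv_apply, ← integral_mul_const]
    unfold H5Z.Rk
    congr 1
    funext v'
    have h3 := kz_apply (m := m) a v' y (g • x')
    show κ (chv v v') * kz m a ((v', y) : m.X) (g • x') = _
    rw [h3]
    exact (mul_assoc _ _ _).symm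
  have h2 : (fun g : PGL(2, K) => Rk κ (fun v => kz m a (v, y) (g • x')) v) =
      fun g => conv κ a (chv v (g • x').1) * if y = (g • x').2 then 1 else 0 := funext e
  refine ⟨?_, ?_⟩
  · rw [← h2]
    exact h1.1
  · rw [← h2]
    exact h1.2

/-- **The automorphic kernel of the smoothed family** as an operator applied to `Fz`. -/
theorem autK_fk {I : Type*} (s : Finset I) {κs : I → (J → ℝ) → ℂ} (hκ : ∀ i ∈ s, IsRC (κs i))
    (f : I → GlobKer m.L.fam) {a : (J → ℝ) → ℂ} (ha : IsRC a) (x' : m.X) (v : J → H3)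
    (y : XF m.L.fam) :
    H32Z.CutOff.autK PGL(2, K) (fk m s (fun i => conv a (κs i)) f) ((v, y) : m.X) x' =
      ∑ i ∈ s, ∑ y' ∈ gs (f i) y, (f i).k y y' * Rk (κs i) (Fz m a x' y') v := by
  have h1 : ∀ g : PGL(2, K), fk m s (fun i => conv a (κs i)) f ((v, y) : m.X) (g • x') =
      ∑ i ∈ s, ∑ y' ∈ gs (f i) y, (f i).k y y' *
        (conv (κs i) a (chv v (g • x').1) * if y' = (g • x').2 then 1 else 0) := by
    intro g
    show ∑ i ∈ s, conv a (κs i) (chv v (g • x').1) * (f i).k y (g • x').2 = _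
    refine Finset.sum_congr rfl fun i _ => ?_
    rw [conv_comm a]
    by_cases hg : (g • x').2 ∈ gs (f i) y
    · rw [Finset.sum_eq_single (g • x').2]
      · rw [if_pos rfl]; ring
      · intro y' _ hne
        rw [if_neg hne]; ring
      · intro h; exact absurd hg h
    · have h0 : (f i).k y (g • x').2 = 0 := by
        by_contra h
        exact hg (mem_gs.2 h)
      rw [h0, mul_zero]
      symm
      refine Finset.sum_eq_zero fun y' hy' => ?_
      rw [if_neg fun h : y' = (g • x').2 => hg (h ▸ hy')]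
      ring
  unfold H32Z.CutOff.autK
  simp only [h1]
  have hs : ∀ i ∈ s, ∀ y' ∈ gs (f i) y, Summable fun g : PGL(2, K) => (f i).k y y' *
        (conv (κs i) a (chv v (g • x').1) * if y' = (g • x').2 then 1 else 0) :=
    fun i hi y' _ => (Rk_Fz ha x' (hκ i hi) y' v).1.mul_left _
  rw [Summable.tsum_finsetSum fun i hi => summable_sum fun y' hy' => hs i hi y' hy']
  refine Finset.sum_congr rfl fun i hi => ?_
  rw [Summable.tsum_finsetSum fun y' hy' => hs i hi y' hy']
  refine Finset.sum_congr rfl fun y' hy' => ?_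
  rw [tsum_mul_left, (Rk_Fz ha x' (hκ i hi) y' v).2]

theorem Rk_const_mul' (κ : (J → ℝ) → ℂ) (c : ℂ) (f : (J → H3) → ℂ) (x : J → H3) :
    Rk (fun t => c * κ t) f x = c * Rk κ f x := by
  unfold H5Z.Rk
  rw [← integral_const_mul]
  congr 1
  funext v
  ring

section final

variable {ι κ : Type} [Fintype ι] [DecidableEq ι] [Fintype κ] [DecidableEq κ]

/-- **The constant terms of the automorphic kernel of the smoothed `C_1` vanish.** -/
theorem cuspAll_C1 {P : MvPolynomial (ι ⊕ κ) ℤ} (hP : IsAleph P)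
    {w : ι → HeightOneSpectrum (𝓞 K)} {a : Kˣ} {q : ι → ℕ} {T : ∀ i, LocKer (m.L.fam.U (w i))}
    {f : (ι → ℕ) → GlobKer m.L.fam} (hD : FinData (J := J) w a q T f) {Lv : κ → J → ℝ}
    {kk : (κ → ℕ) → (J → ℝ) → ℂ} (hR : RadData Lv kk) {r : ℕ}
    (hr : ∀ i, (Finset.univ.filter fun i' => w i' = w i).card = r)
    (ha : ∀ v, (∀ i, w i ≠ v) → v.valuation K (a : K) = 1 ∧ ∃ n : ℕ, Gam v n ≤ m.L.U v ∧
      v.valuation K ((a : K) - 1) ≤ exp (-(n : ℤ)))
    (hL : ∀ j, ∑ k, Lv k j = Real.log ‖m.e j ((a ^ r : Kˣ) : K)‖)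
    (hq : ∏ i, (sqU q hD.qpos i : ℂ) = ((∏ j, ‖m.e j ((a ^ r : Kˣ) : K)‖ : ℝ) : ℂ))
    {κs : (ι ⊕ κ →₀ ℕ) → (J → ℝ) → ℂ}
    (hκs : ∀ n, κs n = fun t => ((MvPolynomial.coeff n P : ℤ) : ℂ) *
      nf q hD.qpos (fun i => n (Sum.inl i)) * kk (fun k => n (Sum.inr k)) t)
    {a0 : (J → ℝ) → ℂ} (ha0 : IsRC a0) :
    CuspAll m (fk m P.support (fun n => conv a0 (κs n)) (fun n => f fun i => n (Sum.inl i))) := by
  intro η
  obtain ⟨d, b, hb⟩ := H5Z.exists_basis m
  have hb' : ∀ v : J → ℂ, v ∈ Submodule.span ℤ (Set.range b) → ∃ x : 𝓞 K, v = emb m (x : K) :=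
    fun v hv => (hb v).1 hv
  obtain ⟨N, hN, hfix⟩ := H5Z.exists_fix m η
  obtain ⟨δ, hδ⟩ := (ZSpan.fundamentalDomain_isBounded (sb b hN)).exists_norm_le
  refine ⟨δ, fun x' => ⟨ZSpan.fundamentalDomain (sb b hN),
    ZSpan.fundamentalDomain_measurableSet (sb b hN),
    pos_iff_ne_zero.2 (ZSpan.measure_fundamentalDomain_ne_zero _),
    fun u hu j => (norm_le_pi_norm u j).trans (hδ u hu), fun w' => ?_⟩⟩
  have hΦ : AF m (Fz m a0 x') := AF_Fz ha0 x'
  have hrc : ∀ n ∈ P.support, IsRC (κs n) := fun n _ => by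
    rw [hκs]
    exact (hR.rc _).const_mul _
  set Ψ : XF m.L.fam → (J → H3) → ℂ := fun y v => H32Z.CutOff.autK PGL(2, K)
    (fk m P.support (fun n => conv a0 (κs n)) (fun n => f fun i => n (Sum.inl i)))
    ((v, y) : m.X) x' with hΨdef
  have hC : ∀ y, Ψ y = C1 P q hD.qpos f kk (Fz m a0 x') y := by
    intro y
    funext v
    rw [hΨdef]
    simp only
    rw [autK_fk P.support hrc _ ha0 x' v y, C1]
    refine Finset.sum_congr rfl fun n _ => ?_
    rw [Finset.mul_sum, Finset.mul_sum]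
    refine Finset.sum_congr rfl fun y' _ => ?_
    rw [hκs n, Rk_const_mul']
    ring
  have hlb : ∀ y, LB (Ψ y) := by
    intro y
    rw [hC y]
    unfold C1
    exact LB.sum _ fun n _ => ((LB.sum _ fun y' _ =>
      (((hΦ.lb y').Rk (hR.rc _)).const_mul _)).const_mul _).const_mul _
  have hΨ : AF m Ψ := AF.of_inv (Φ := fun x => H32Z.CutOff.autK PGL(2, K)
    (fk m P.support (fun n => conv a0 (κs n)) (fun n => f fun i => n (Sum.inl i))) x x')
    (fun g p => H32Z.CutOff.autK_smul_left (fun g x y => H59K.fk_smul g x y) p x' g) hlb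
  have h1 := hΦ.ct0_C1 hb' hP hD hR hr ha hL hq η w'
  rw [← hC η, ct0_eq (hlb η) hN (hΨ.nper hb' hfix w'), lm_eq_zero_iff] at h1
  exact h1

end final

end Fermat.Agent.H39Z
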