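import Fermat.Agent.H56ZAbel

/-!
# Abel transform: convolutions, injectivity, characters (helper56)
-/

set_option autoImplicit false

noncomputable section

open MeasureTheory Set
open scoped Real ENNReal Topology ContDiff

namespace Fermat.Agent.H56Z

open H5Z

variable {J : Type*} [Fintype J]

/-! ### Linearity -/

theorem integrableOn_regU {κ : (J → ℝ) → ℂ} (hκ : IsRC κ) (u : J → ℝ) :
    IntegrableOn κ (regU u) volume := by
  obtain ⟨R, M, hR1, hM0, hM, hR⟩ := hκ.exists_bounds
  set B1 : Set (J → ℝ) := Set.pi univ fun _ : J => Icc 0 R with hB1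
  have hB1m : MeasurableSet B1 := MeasurableSet.univ_pi fun _ => measurableSet_Icc
  have hB1c : IsCompact B1 := isCompact_univ_pi fun _ => isCompact_Icc
  have h1 : Integrable (B1.indicator fun _ => M) (volume : Measure (J → ℝ)) := by
    rw [integrable_indicator_iff hB1m]
    exact integrableOn_const hB1c.measure_lt_top.ne
  rw [← integrable_indicator_iff (measurableSet_regU u)]
  refine h1.mono' (hκ.cont.aestronglyMeasurable.indicator (measurableSet_regU u))
    (Filter.Eventually.of_forall fun t => ?_)
  by_cases ht : t ∈ regU u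
  · rw [indicator_of_mem ht]
    by_cases h4 : ∃ j, R < t j
    · rw [hR _ h4, norm_zero]
      exact indicator_nonneg (fun _ _ => hM0) _
    · push Not at h4
      rw [indicator_of_mem (show t ∈ B1 from fun j _ =>
        ⟨(Real.cosh_pos (u j)).le.trans (ht j).le, h4 j⟩)]
      exact hM t
  · rw [indicator_of_notMem ht, norm_zero]
    exact indicator_nonneg (fun _ _ => hM0) _

theorem abel_add {κ κ' : (J → ℝ) → ℂ} (hκ : IsRC κ) (hκ' : IsRC κ') :
    abel (κ + κ') = abel κ + abel κ' := by
  funext u
  simp only [abel, Pi.add_apply]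
  rw [integral_add (integrableOn_regU hκ u) (integrableOn_regU hκ' u), mul_add]

theorem abel_const_mul (κ : (J → ℝ) → ℂ) (c : ℂ) :
    abel (fun u => c * κ u) = fun u => c * abel κ u := by
  funext u
  simp only [abel]
  rw [integral_const_mul]
  ring

theorem abel_sub {κ κ' : (J → ℝ) → ℂ} (hκ : IsRC κ) (hκ' : IsRC κ') :
    abel (κ - κ') = abel κ - abel κ' := by
  funext u
  simp only [abel, Pi.sub_apply]
  rw [integral_sub (integrableOn_regU hκ u) (integrableOn_regU hκ' u), mul_sub]

/-! ### Injectivity -/

theorem eq_zero_of_abel_eq_zero {κ : (J → ℝ) → ℂ} (hκ : IsRC κ) (h : ∀ u, abel κ u = 0)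
    {t : J → ℝ} (ht : ∀ j, 1 ≤ t j) : κ t = 0 := by
  have h0 : ∀ s : J → ℝ, (∀ j, 1 ≤ s j) → ∫ t in Set.pi univ fun j => Ioi (s j), κ t = 0 := by
    intro s hs
    have h1 := h fun j => Real.arcosh (s j)
    rw [abel] at h1
    have h2 : (2 * π : ℂ) ^ Fintype.card J ≠ 0 := by
      refine pow_ne_zero _ ?_
      exact mul_ne_zero two_ne_zero (by exact_mod_cast Real.pi_ne_zero)
    have h3 : regU (fun j => Real.arcosh (s j)) = Set.pi univ fun j => Ioi (s j) := by
      ext t
      simp only [regU, mem_pi, mem_univ, mem_Ioi, forall_const, mem_ofPred_eq]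
      refine forall_congr' fun j => ?_
      rw [Real.cosh_arcosh (hs j)]
    rw [h3] at h1
    exact (mul_eq_zero.mp h1).resolve_left h2
  set Q : Set (J → ℝ) := Set.pi univ fun _ : J => Ioi 1 with hQ
  have hQm : MeasurableSet Q := MeasurableSet.univ_pi fun _ => measurableSet_Ioi
  have hQo : IsOpen Q := isOpen_set_pi finite_univ fun _ _ => isOpen_Ioi
  have hint : Integrable κ (volume.restrict Q) := by
    have h1 := integrableOn_regU hκ (fun _ : J => 0)
    have h2 : regU (fun _ : J => (0 : ℝ)) = Q := by
      ext t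
      simp [regU, hQ]
    rw [h2] at h1
    exact h1
  have htot : ∫ x, κ x ∂(volume.restrict Q) = 0 := h0 (fun _ => 1) fun _ => le_rfl
  have hset : ∀ s : Set (J → ℝ), MeasurableSet s → ∫ x in s, κ x ∂(volume.restrict Q) = 0 := by
    have hgen : (inferInstance : MeasurableSpace (J → ℝ)) = MeasurableSpace.generateFrom
        (pi univ '' pi univ fun _ : J => range (Ioi : ℝ → Set ℝ)) := by
      refine (generateFrom_eq_pi (fun i => ?_) fun i => ?_).symm
      · rw [← borel_eq_generateFrom_Ioi]
        exact (BorelSpace.measurable_eq (α := ℝ)).symm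
      · refine ⟨fun n : ℕ => Ioi (-(n : ℝ)), fun n => mem_range_self _, ?_⟩
        rw [eq_univ_iff_forall]
        intro x
        obtain ⟨n, hn⟩ := exists_nat_gt (-x)
        exact mem_iUnion.mpr ⟨n, by
          rw [mem_Ioi]
          linarith⟩
    intro s hs
    induction s, hs using MeasurableSpace.induction_on_inter hgen
      (IsPiSystem.pi fun _ => isPiSystem_Ioi) with
    | empty => simp
    | basic s hs =>
      obtain ⟨A, hA, rfl⟩ := hs
      choose a ha using fun j => hA j (mem_univ j)
      have h1 : Set.pi univ A ∩ Q = Set.pi univ fun j => Ioi (max (a j) 1) := by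
        rw [hQ, ← pi_inter_distrib]
        congr 1
        funext j
        rw [← ha j, Ioi_inter_Ioi]
      rw [Measure.restrict_restrict (MeasurableSet.univ_pi fun j => by
        rw [← ha j]
        exact measurableSet_Ioi), h1]
      exact h0 _ fun j => le_max_right _ _
    | compl s hs ih =>
      have h1 := integral_add_compl hs hint
      rw [ih, zero_add, htot] at h1
      exact h1
    | iUnion f hd hf ih =>
      rw [integral_iUnion hf hd hint.integrableOn]
      simp [ih]
  have hae : κ =ᵐ[volume.restrict Q] 0 :=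
    hint.ae_eq_zero_of_forall_setIntegral_eq_zero fun s hs _ => hset s hs
  have hQ0 : EqOn κ 0 Q := Measure.eqOn_open_of_ae_eq hae hQo hκ.cont.continuousOn
    continuousOn_const
  have hcl := hQ0.closure hκ.cont continuous_zero
  have hmem : t ∈ closure Q := by
    rw [hQ, closure_pi_set]
    intro j _
    simp only [closure_Ioi]
    exact ht j
  exact hcl hmem

/-- **Injectivity of the Abel transform.** -/
theorem eq_of_abel_eq {κ κ' : (J → ℝ) → ℂ} (hκ : IsRC κ) (hκ' : IsRC κ') (h : abel κ = abel κ')
    {t : J → ℝ} (ht : ∀ j, 1 ≤ t j) : κ t = κ' t := by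
  have h1 := eq_zero_of_abel_eq_zero (hκ.sub hκ') (by
    intro u
    rw [abel_sub hκ hκ', h, sub_self, Pi.zero_apply]) ht
  rw [Pi.sub_apply] at h1
  exact sub_eq_zero.mp h1

/-! ### Points with given heights -/

/-- The point with log-heights `s` over `0`. -/
def hpt (s : J → ℝ) : J → H3 := fun j => ⟨0, Real.exp (s j), Real.exp_pos _⟩

omit [Fintype J] in
theorem lh_hpt (s : J → ℝ) : lh (hpt s) = s := funext fun j => Real.log_exp (s j)

omit [Fintype J] in
theorem continuous_hpt : Continuous (hpt : (J → ℝ) → J → H3) :=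
  continuous_pi fun j => H3.continuous_mk continuous_const
    (Real.continuous_exp.comp (continuous_apply j))

omit [Fintype J] in
theorem lh_baseJ : lh (baseJ J) = 0 := by
  funext j
  simp [lh, baseJ]

/-- The operator on functions of the log-heights. -/
def RA (κ : (J → ℝ) → ℂ) (f : (J → ℝ) → ℂ) (s : J → ℝ) : ℂ :=
  ∫ u, f (s + u) * (Real.exp (-∑ j, u j) : ℂ) * abel κ u

theorem Rk_lh {κ : (J → ℝ) → ℂ} (hκ : IsRC κ) {f : (J → ℝ) → ℂ} (hf : Continuous f) :
    Rk κ (fun w' => f (lh w')) = fun w => RA κ f (lh w) :=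
  funext fun w => Rk_height hκ hf.locallyIntegrable w

theorem continuous_RA {κ : (J → ℝ) → ℂ} (hκ : IsRC κ) {f : (J → ℝ) → ℂ} (hf : Continuous f) :
    Continuous (RA κ f) := by
  have h1 : RA κ f = fun s => Rk κ (fun w' => f (lh w')) (hpt s) := by
    funext s
    rw [Rk_lh hκ hf]
    simp only [lh_hpt]
  rw [h1]
  exact (continuous_Rk hκ (IsLB.of_continuous (hf.comp continuous_lh))).comp continuous_hpt

theorem RA_conv {κ κ' : (J → ℝ) → ℂ} (hκ : IsRC κ) (hκ' : IsRC κ') {f : (J → ℝ) → ℂ}
    (hf : Continuous f) : RA (conv κ κ') f = RA κ (RA κ' f) := by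
  funext s
  have h1 := congrFun (Rk_conv hκ hκ' (IsLB.of_continuous (hf.comp continuous_lh))) (hpt s)
  have h2 : (f ∘ lh : (J → H3) → ℂ) = fun w' => f (lh w') := rfl
  rw [h2, Rk_lh (hκ.conv hκ') hf, Rk_lh hκ' hf, Rk_lh hκ (continuous_RA hκ' hf)] at h1
  simpa only [lh_hpt] using h1

/-- The Abel transform of a convolution is the convolution of the Abel transforms. -/
theorem abel_conv {κ κ' : (J → ℝ) → ℂ} (hκ : IsRC κ) (hκ' : IsRC κ') (v : J → ℝ) :
    abel (conv κ κ') v = ∫ u, abel κ u * abel κ' (v - u) := by
  set A := abel κ with hA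
  set A' := abel κ' with hA'
  have hAc : Continuous A := continuous_abel hκ
  have hAc' : Continuous A' := continuous_abel hκ'
  have hAs : HasCompactSupport A := hasCompactSupport_abel hκ
  have hcc : Continuous fun v : J → ℝ => ∫ u, A u * A' (v - u) := by
    have e : (fun v : J → ℝ => ∫ u, A u * A' (v - u)) =
        fun v => ∫ u in tsupport A, A u * A' (v - u) := by
      funext v
      refine (setIntegral_eq_integral_of_forall_compl_eq_zero fun u hu => ?_).symm
      rw [image_eq_zero_of_notMem_tsupport hu, zero_mul]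
    rw [e]
    refine continuous_parametric_integral_of_continuous ?_ hAs
    exact (hAc.comp continuous_snd).mul
      (hAc'.comp (continuous_fst.sub continuous_snd))
  set E : (J → ℝ) → ℂ := fun v => (Real.exp (-∑ j, v j) : ℂ) with hE
  have hEc : Continuous E := by
    rw [hE]
    fun_prop
  have hE0 : ∀ v, E v ≠ 0 := fun v => by
    simp only [hE]
    exact_mod_cast (Real.exp_pos _).ne'
  have hEadd : ∀ u v, E (u + v) = E u * E v := by
    intro u v
    simp only [hE, Pi.add_apply, Finset.sum_add_distrib, neg_add, Real.exp_add]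
    push_cast
    ring
  have hcl : Continuous fun v => E v * abel (conv κ κ') v :=
    hEc.mul (continuous_abel (hκ.conv hκ'))
  have hcr : Continuous fun v => E v * ∫ u, A u * A' (v - u) := hEc.mul hcc
  have hae := ae_eq_of_integral_contDiff_smul_eq (μ := (volume : Measure (J → ℝ)))
    hcl.locallyIntegrable hcr.locallyIntegrable ?_
  · have h1 := (hcl.ae_eq_iff_eq volume hcr).mp hae
    exact mul_left_cancel₀ (hE0 v) (congrFun h1 v)
  intro g hg hgs
  set f : (J → ℝ) → ℂ := fun v => (g v : ℂ) with hf
  have hfc : Continuous f := Complex.continuous_ofReal.comp hg.continuous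
  have h1 := congrFun (RA_conv hκ hκ' hfc) 0
  simp only [RA, zero_add] at h1
  have h2 : ∫ x, g x • (E x * abel (conv κ κ') x) =
      ∫ u, f u * (Real.exp (-∑ j, u j) : ℂ) * abel (conv κ κ') u := by
    refine integral_congr_ae (Filter.Eventually.of_forall fun x => ?_)
    simp only [Complex.real_smul, hf, hE]
    ring
  rw [h2, h1]
  have h3 : ∀ u : J → ℝ, (∫ w, f (u + w) * (Real.exp (-∑ j, w j) : ℂ) * abel κ' w) *
      (Real.exp (-∑ j, u j) : ℂ) * abel κ u = ∫ v, f v * E v * (A u * A' (v - u)) := by
    intro u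
    rw [← integral_add_left_eq_self (fun v => f v * E v * (A u * A' (v - u))) u, mul_assoc,
      ← integral_mul_const]
    refine integral_congr_ae (Filter.Eventually.of_forall fun w => ?_)
    simp only [add_sub_cancel_left]
    rw [hEadd]
    simp only [hE, hA, hA']
    ring
  simp only [h3]
  rw [integral_integral_swap]
  · refine integral_congr_ae (Filter.Eventually.of_forall fun x => ?_)
    simp only [Complex.real_smul, hf]
    rw [integral_const_mul]
    ring
  · have hc2 : Continuous (Function.uncurry fun u v : J → ℝ => f v * E v * (A u * A' (v - u))) :=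
      ((hfc.comp continuous_snd).mul (hEc.comp continuous_snd)).mul
        ((hAc.comp continuous_fst).mul (hAc'.comp (continuous_snd.sub continuous_fst)))
    refine hc2.integrable_of_hasCompactSupport ?_
    have hfs : HasCompactSupport f := hgs.comp_left (g := fun x : ℝ => (x : ℂ)) (by simp)
    refine HasCompactSupport.intro (hAs.isCompact.prod hfs.isCompact) fun p hp => ?_
    simp only [Function.uncurry]
    by_cases h1 : p.1 ∈ tsupport A
    · by_cases h2 : p.2 ∈ tsupport f
      · exact absurd ⟨h1, h2⟩ hp
      · rw [image_eq_zero_of_notMem_tsupport h2, zero_mul, zero_mul]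
    · rw [image_eq_zero_of_notMem_tsupport h1, zero_mul, mul_zero]

end Fermat.Agent.H56Z
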