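import Fermat.Agent.H39ZAct
import Fermat.Agent.H39ZCT
import Fermat.Agent.H12TW
import Fermat.Agent.H56ZAbel2

/-!
# The aleph operator on functions on `(J → ℝ) × X_f` (helper39, S47 C5)

`Om L w J = (J → ℝ) × XF L.fam` with the action of `Multiplicative (J → ℝ) × (ι → Kˣ)`
(translations and coordinatewise diagonal matrices).
-/

set_option autoImplicit false
set_option linter.unusedSectionVars false
set_option linter.style.haveILetI false

open IsDedekindDomain HeightOneSpectrum WithZero NumberField MeasureTheory Module Matrix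
open scoped MatrixGroups

noncomputable section

open scoped Classical

namespace Fermat.Agent.H39Z

open Fermat.Agent.H59XF Fermat.Agent.H59D Fermat.Agent.H12TW
open Fermat.Agent.H7.Z (borP Bor exists_borel_rep')
open Fermat.Agent.H51Z (lop gop gs gmul single gone mem_gs gop_def gop_gmul gop_single gop_gone)
open Fermat.Agent.H56Z (IsRC abel continuous_abel hasCompactSupport_abel)
open Fermat.Agent.H80Al (IsAleph)

section diag

variable {K : Type*} [Field K] [NumberField K] {L : Level (𝓞 K) K} {ι : Type} [Fintype ι]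
  [DecidableEq ι] (w : ι → HeightOneSpectrum (𝓞 K))

/-- the diagonal element at the place `v` -/
def dv (δ : ι → Kˣ) (v : HeightOneSpectrum (𝓞 K)) : Kˣ := ∏ i, if w i = v then δ i else 1

theorem dv_one (v : HeightOneSpectrum (𝓞 K)) : dv w (1 : ι → Kˣ) v = 1 := by
  simp [dv]

theorem dv_mul (δ δ' : ι → Kˣ) (v : HeightOneSpectrum (𝓞 K)) :
    dv w (δ * δ') v = dv w δ v * dv w δ' v := by
  rw [dv, dv, dv, ← Finset.prod_mul_distrib]
  refine Finset.prod_congr rfl fun i _ => ?_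
  split_ifs <;> simp

theorem dv_of_notMem (δ : ι → Kˣ) {v : HeightOneSpectrum (𝓞 K)} (hv : ∀ i, w i ≠ v) :
    dv w δ v = 1 := by
  rw [dv]
  exact Finset.prod_eq_one fun i _ => if_neg (hv i)

theorem dv_mulSingle_same (i : ι) (a : Kˣ) : dv w (Pi.mulSingle i a) (w i) = a := by
  rw [dv, Finset.prod_eq_single i]
  · simp
  · intro j _ hj
    rw [Pi.mulSingle_eq_of_ne hj, ite_self]
  · intro h; exact absurd (Finset.mem_univ i) h

theorem dv_mulSingle_ne (i : ι) (a : Kˣ) {v : HeightOneSpectrum (𝓞 K)} (hv : v ≠ w i) :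
    dv w (Pi.mulSingle i a) v = 1 := by
  rw [dv]
  refine Finset.prod_eq_one fun j _ => ?_
  by_cases hj : j = i
  · subst hj
    rw [if_neg fun h => hv h.symm]
  · rw [Pi.mulSingle_eq_of_ne hj, ite_self]

/-- coordinatewise action of diagonal matrices -/
def dW (δ : ι → Kˣ) (y : XF L.fam) : XF L.fam :=
  ⟨fun v => (borP K).d (dv w δ v) • y v, by
    refine (y.fin.union (Set.finite_range w)).subset ?_
    intro v hv
    by_contra hcon
    simp only [Set.mem_union, Set.mem_ofPred_eq, not_or, not_not, Set.mem_range,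
      not_exists] at hcon
    apply hv
    rw [dv_of_notMem w δ hcon.2, (borP K).d_one, one_smul]
    exact hcon.1⟩

theorem dW_apply (δ : ι → Kˣ) (y : XF L.fam) (v : HeightOneSpectrum (𝓞 K)) :
    dW w δ y v = (borP K).d (dv w δ v) • y v := rfl

theorem dW_one (y : XF L.fam) : dW w (1 : ι → Kˣ) y = y := by
  apply XF.ext; intro v
  rw [dW_apply, dv_one, (borP K).d_one, one_smul]

theorem dW_mul (δ δ' : ι → Kˣ) (y : XF L.fam) : dW w (δ * δ') y = dW w δ (dW w δ' y) := by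
  apply XF.ext; intro v
  rw [dW_apply, dW_apply, dW_apply, dv_mul, (borP K).d_mul, mul_smul]

theorem dW_mulSingle (i : ι) (a : Kˣ) (y : XF L.fam) :
    dW w (Pi.mulSingle i a) y = XF.upd y (w i) ((borP K).d a • y (w i)) := by
  apply XF.ext; intro v
  rw [dW_apply]
  by_cases hv : v = w i
  · subst hv
    rw [dv_mulSingle_same, XF.upd_same]
  · rw [dv_mulSingle_ne w i a hv, (borP K).d_one, one_smul, XF.upd_ne _ hv]

theorem dW_mulSingle_inv (i : ι) (a : Kˣ) (y : XF L.fam) :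
    dW w (Pi.mulSingle i a)⁻¹ y = XF.upd y (w i) (((borP K).d a)⁻¹ • y (w i)) := by
  rw [← Pi.mulSingle_inv, dW_mulSingle, (borP K).d_inv]

/-- `N`-invariance is preserved by coordinatewise diagonal matrices -/
theorem ninv_dW {E : Type*} {f : XF L.fam → E} (hf : NInv f) (δ : ι → Kˣ) :
    NInv (fun y => f (dW w δ y)) := by
  intro b y
  apply hf.congr
  intro v
  refine ⟨(dv w δ v : K) * b, ?_⟩
  rw [dW_apply, dW_apply, XF.smul_apply, ← mul_smul, ← mul_smul, (borP K).conj]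

/-- the space `(J → ℝ) × XF L.fam` -/
def Om (L : Level (𝓞 K) K) (_w : ι → HeightOneSpectrum (𝓞 K)) (J : Type*) : Type _ :=
  (J → ℝ) × XF L.fam

variable {w} {J : Type*} [Fintype J]

instance : MulAction (Multiplicative (J → ℝ) × (ι → Kˣ)) (Om L w J) where
  smul g ω := ((ω.1 + Multiplicative.toAdd g.1, dW w g.2 ω.2) : (J → ℝ) × XF L.fam)
  one_smul ω := by
    show ((ω.1 + 0, dW w 1 ω.2) : (J → ℝ) × XF L.fam) = ω
    rw [add_zero, dW_one]
    rfl
  mul_smul g h ω := by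
    show ((ω.1 + (Multiplicative.toAdd g.1 + Multiplicative.toAdd h.1), dW w (g.2 * h.2) ω.2) :
      (J → ℝ) × XF L.fam) = ((ω.1 + Multiplicative.toAdd h.1) + Multiplicative.toAdd g.1,
        dW w g.2 (dW w h.2 ω.2))
    rw [dW_mul, add_assoc, add_comm (Multiplicative.toAdd g.1)]

/-- points -/
def om (w : ι → HeightOneSpectrum (𝓞 K)) (u : J → ℝ) (y : XF L.fam) : Om L w J := (u, y)

theorem smul_om (g : Multiplicative (J → ℝ) × (ι → Kˣ)) (u : J → ℝ) (y : XF L.fam) :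
    g • om w u y = om w (u + Multiplicative.toAdd g.1) (dW w g.2 y) := rfl

/-- curried form -/
def cu (ψ : Om L w J → ℂ) (y : XF L.fam) (u : J → ℝ) : ℂ := ψ (u, y)

/-- uncurried form -/
def uc (w : ι → HeightOneSpectrum (𝓞 K)) (F : XF L.fam → (J → ℝ) → ℂ) (ω : Om L w J) : ℂ :=
  F ω.2 ω.1

@[simp] theorem cu_uc (F : XF L.fam → (J → ℝ) → ℂ) : cu (uc w F) = F := rfl

/-- the class of functions that we consider -/
structure Good (F : XF L.fam → (J → ℝ) → ℂ) : Prop where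
  ninv : NInv F
  lb : ∀ y, LB (F y)

theorem LB.add {X : Type*} [TopologicalSpace X] [MeasurableSpace X] {f g : X → ℂ}
    (hf : LB f) (hg : LB g) : LB fun x => f x + g x := by
  refine ⟨hf.1.add hg.1, fun K hK => ?_⟩
  obtain ⟨C, hC⟩ := hf.2 K hK
  obtain ⟨C', hC'⟩ := hg.2 K hK
  exact ⟨C + C', fun x hx => (norm_add_le _ _).trans (add_le_add (hC x hx) (hC' x hx))⟩

theorem Good.add {F G : XF L.fam → (J → ℝ) → ℂ} (hF : Good F) (hG : Good G) : Good (F + G) where
  ninv b y := by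
    show F ((borP K).n b • y) + G ((borP K).n b • y) = F y + G y
    rw [hF.ninv, hG.ninv]
  lb y := (hF.lb y).add (hG.lb y)

theorem Good.trop {ψ : Om L w J → ℂ} (h : Good (cu ψ))
    (x : (Multiplicative (J → ℝ) × (ι → Kˣ)) × ℂˣ) : Good (cu (trop x ψ)) where
  ninv b y := by
    funext u
    show (x.2 : ℂ) * cu ψ (dW w x.1.2 ((borP K).n b • y)) (u + Multiplicative.toAdd x.1.1) =
      (x.2 : ℂ) * cu ψ (dW w x.1.2 y) (u + Multiplicative.toAdd x.1.1)
    have h1 := ninv_dW w h.ninv x.1.2 b y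
    simp only at h1
    rw [h1]
  lb y := ((h.lb (dW w x.1.2 y)).comp (continuous_id.add
    (continuous_const (y := Multiplicative.toAdd x.1.1)))).const_mul _

theorem Good.opP {A : Type} [Fintype A] [DecidableEq A]
    (x : A → (Multiplicative (J → ℝ) × (ι → Kˣ)) × ℂˣ) (m : A →₀ ℕ) :
    ∀ ψ : Om L w J → ℂ, Good (cu ψ) → Good (cu (opP x (MvPolynomial.monomial m 1) ψ)) := by
  induction hN : m.degree generalizing m with
  | zero =>
    intro ψ h
    rw [Finsupp.degree_eq_zero_iff] at hN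
    subst hN
    rw [opP_monomial_zero]
    exact h
  | succ N ih =>
    intro ψ h
    have hm : m ≠ 0 := by
      rintro rfl
      simp at hN
    obtain ⟨a, ha⟩ := Finsupp.ne_iff.mp hm
    have e : m = (m - Finsupp.single a 1) + Finsupp.single a 1 := by
      rw [tsub_add_cancel_of_le]
      rw [Finsupp.single_le_iff]
      exact Nat.one_le_iff_ne_zero.mpr ha
    have hN' : (m - Finsupp.single a 1).degree = N := by
      rw [e, map_add, Finsupp.degree_single] at hN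
      omega
    rw [e, opP_monomial_add]
    exact ih _ hN' _ ((h.trop (x a)).add (h.trop (x a)⁻¹))

/-! ### Integration against the Abel transform -/

theorem LB.locallyIntegrable {g : (J → ℝ) → ℂ} (hg : LB g) :
    LocallyIntegrable g (volume : Measure (J → ℝ)) := by
  rw [locallyIntegrable_iff]
  exact fun k hk => hg.integrableOn volume hk

theorem integrable_JJ {A g : (J → ℝ) → ℂ} (hA : Continuous A) (hA' : HasCompactSupport A)
    (hg : LB g) : Integrable (fun v => g v * A v) (volume : Measure (J → ℝ)) := by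
  have := hg.locallyIntegrable.integrable_smul_left_of_hasCompactSupport hA hA'
  refine this.congr (Filter.Eventually.of_forall fun v => ?_)
  simp only [smul_eq_mul]
  ring

/-- the operator of a radial kernel in terms of its Abel transform `A` -/
def JJ (A : (J → ℝ) → ℂ) (F : XF L.fam → (J → ℝ) → ℂ) (y : XF L.fam) (u : J → ℝ) : ℂ :=
  ∫ v, F y (u + v) * A v

theorem JJ_add {A : (J → ℝ) → ℂ} (hA : Continuous A) (hA' : HasCompactSupport A)
    {F G : XF L.fam → (J → ℝ) → ℂ} (hF : Good F) (hG : Good G) :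
    JJ A (F + G) = JJ A F + JJ A G := by
  funext y u
  have h1 : ∀ {F : XF L.fam → (J → ℝ) → ℂ}, Good F →
      Integrable (fun v => F y (u + v) * A v) (volume : Measure (J → ℝ)) := fun hF =>
    integrable_JJ hA hA' ((hF.lb y).comp (continuous_const.add continuous_id))
  show ∫ v, (F y (u + v) + G y (u + v)) * A v = (∫ v, F y (u + v) * A v) +
    ∫ v, G y (u + v) * A v
  rw [← integral_add (h1 hF) (h1 hG)]
  simp only [add_mul]

theorem JJ_const_mul (A : (J → ℝ) → ℂ) (c : ℂ) (F : XF L.fam → (J → ℝ) → ℂ) :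
    JJ A (c • F) = c • JJ A F := by
  funext y u
  show ∫ v, (c * F y (u + v)) * A v = c * ∫ v, F y (u + v) * A v
  rw [← integral_const_mul]
  simp only [mul_assoc]

theorem JJ_ninv (A : (J → ℝ) → ℂ) {F : XF L.fam → (J → ℝ) → ℂ} (h : NInv F) :
    NInv (JJ A F) := by
  intro b y
  funext u
  show ∫ v, F ((borP K).n b • y) (u + v) * A v = ∫ v, F y (u + v) * A v
  rw [h]

/-- the parameters of the operator: `w i` places, `a` the element, `q i` numbers, `Lv k` vectors -/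
def xx {κ : Type} (a : Kˣ) (sq : ι → ℂˣ) (Lv : κ → J → ℝ) :
    ι ⊕ κ → (Multiplicative (J → ℝ) × (ι → Kˣ)) × ℂˣ :=
  Sum.elim (fun i => ((1, Pi.mulSingle i a), sq i)) (fun k => ((Multiplicative.ofAdd (Lv k), 1), 1))

variable {κ : Type} [Fintype κ] [DecidableEq κ]

theorem cu_trop_inl (a : Kˣ) (sq : ι → ℂˣ) (Lv : κ → J → ℝ) (i : ι) (ψ : Om L w J → ℂ)
    (y : XF L.fam) (u : J → ℝ) : cu (trop (xx a sq Lv (Sum.inl i)) ψ) y u =
      (sq i : ℂ) * cu ψ (XF.upd y (w i) ((borP K).d a • y (w i))) u := by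
  rw [← dW_mulSingle]
  show (sq i : ℂ) * ψ (u + 0, dW w (Pi.mulSingle i a) y) = _
  rw [add_zero]
  rfl

theorem cu_trop_inl_inv (a : Kˣ) (sq : ι → ℂˣ) (Lv : κ → J → ℝ) (i : ι) (ψ : Om L w J → ℂ)
    (y : XF L.fam) (u : J → ℝ) : cu (trop (xx a sq Lv (Sum.inl i))⁻¹ ψ) y u =
      (sq i : ℂ)⁻¹ * cu ψ (XF.upd y (w i) (((borP K).d a)⁻¹ • y (w i))) u := by
  rw [← dW_mulSingle_inv]
  show (((sq i)⁻¹ : ℂˣ) : ℂ) * ψ (u + -0, dW w (Pi.mulSingle i a)⁻¹ y) = _
  rw [neg_zero, add_zero, Units.val_inv_eq_inv_val]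
  rfl

theorem cu_trop_inr (a : Kˣ) (sq : ι → ℂˣ) (Lv : κ → J → ℝ) (k : κ) (ψ : Om L w J → ℂ)
    (y : XF L.fam) (u : J → ℝ) : cu (trop (xx a sq Lv (Sum.inr k)) ψ) y u =
      cu ψ y (u + Lv k) := by
  show ((1 : ℂˣ) : ℂ) * ψ (u + Lv k, dW w 1 y) = _
  rw [dW_one, Units.val_one, one_mul]
  rfl

theorem cu_trop_inr_inv (a : Kˣ) (sq : ι → ℂˣ) (Lv : κ → J → ℝ) (k : κ) (ψ : Om L w J → ℂ)
    (y : XF L.fam) (u : J → ℝ) : cu (trop (xx a sq Lv (Sum.inr k))⁻¹ ψ) y u =
      cu ψ y (u - Lv k) := by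
  show (((1 : ℂˣ)⁻¹ : ℂˣ) : ℂ) * ψ (u + -Lv k, dW w (1 : ι → Kˣ)⁻¹ y) = _
  rw [inv_one, inv_one, dW_one, Units.val_one, one_mul, ← sub_eq_add_neg]
  rfl

/-- hypotheses on the finite part of the operator -/
structure FinData (w : ι → HeightOneSpectrum (𝓞 K)) (a : Kˣ) (q : ι → ℕ)
    (T : ∀ i, LocKer (L.fam.U (w i))) (f : (ι → ℕ) → GlobKer L.fam) : Prop where
  max : ∀ i, L.U (w i) = U0 (w i)
  qpos : ∀ i, 0 < q i
  hT : ∀ i, ∃ R : Finset K, R.card = q i ∧ ∀ (F : XF L.fam → (J → ℝ) → ℂ) (y : XF L.fam)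
    (g : PGL(2, K)), y (w i) = (g : PGL(2, K) ⧸ L.fam.U (w i)) →
      lop (w i) (T i) F y = ∑ b ∈ R, F (XF.upd y (w i)
          ((g * (borP K).n b * (borP K).d a : PGL(2, K)) : PGL(2, K) ⧸ L.fam.U (w i))) +
        F (XF.upd y (w i) ((g * ((borP K).d a)⁻¹ : PGL(2, K)) : PGL(2, K) ⧸ L.fam.U (w i)))
  hf : ∀ (n : ι → ℕ) i, f (n + Pi.single i 1) = gmul (f n) (single (w i) (T i))

/-- hypotheses on the radial kernels -/
structure RadData (Lv : κ → J → ℝ) (kk : (κ → ℕ) → (J → ℝ) → ℂ) : Prop where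
  rc : ∀ n, IsRC (kk n)
  step : ∀ n k u, abel (kk (n + Pi.single k 1)) u =
    abel (kk n) (u + Lv k) + abel (kk n) (u - Lv k)

/-- `√q` as a unit -/
def sqU (q : ι → ℕ) (hq : ∀ i, 0 < q i) (i : ι) : ℂˣ :=
  Units.mk0 ((Real.sqrt (q i) : ℝ) : ℂ) (by
    have := hq i
    exact_mod_cast (Real.sqrt_pos.2 (by exact_mod_cast this)).ne')

theorem sqU_mul_self (q : ι → ℕ) (hq : ∀ i, 0 < q i) (i : ι) :
    (sqU q hq i : ℂ) * (sqU q hq i : ℂ) = q i := by
  show ((Real.sqrt (q i) : ℝ) : ℂ) * ((Real.sqrt (q i) : ℝ) : ℂ) = q i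
  rw [← Complex.ofReal_mul, Real.mul_self_sqrt (Nat.cast_nonneg _)]
  simp

theorem ind_step_inl {a : Kˣ} {q : ι → ℕ} {T : ∀ i, LocKer (L.fam.U (w i))}
    {f : (ι → ℕ) → GlobKer L.fam} (hD : FinData (J := J) w a q T f) (Lv : κ → J → ℝ)
    {A : (J → ℝ) → ℂ} (hA : Continuous A) (hA' : HasCompactSupport A) (n : ι → ℕ) (i : ι)
    {ψ : Om L w J → ℂ} (h : Good (cu ψ)) :
    gop (f (n + Pi.single i 1)) (JJ A (cu ψ)) = (sqU q hD.qpos i : ℂ) • gop (f n)
      (JJ A (cu (trop (xx a (sqU q hD.qpos) Lv (Sum.inl i)) ψ +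
        trop (xx a (sqU q hD.qpos) Lv (Sum.inl i))⁻¹ ψ))) := by
  rw [hD.hf, gop_gmul, gop_single, ← H51Z.gop_smul_const]
  congr 1
  obtain ⟨R, hR, hT⟩ := hD.hT i
  funext y
  rw [NInv.lop (hD.max i) a R (T i) hT (JJ_ninv A h.ninv) y, hR]
  funext u
  show (q i : ℂ) * JJ A (cu ψ) _ u + JJ A (cu ψ) _ u = (sqU q hD.qpos i : ℂ) *
    JJ A (cu (trop (xx a (sqU q hD.qpos) Lv (Sum.inl i)) ψ) +
      cu (trop (xx a (sqU q hD.qpos) Lv (Sum.inl i))⁻¹ ψ)) y u
  rw [JJ_add hA hA' (h.trop _) (h.trop _)]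
  show _ = (sqU q hD.qpos i : ℂ) *
    ((∫ v, cu (trop (xx a (sqU q hD.qpos) Lv (Sum.inl i)) ψ) y (u + v) * A v) +
      ∫ v, cu (trop (xx a (sqU q hD.qpos) Lv (Sum.inl i))⁻¹ ψ) y (u + v) * A v)
  simp only [cu_trop_inl, cu_trop_inl_inv]
  have e1 : ∀ (c : ℂ) (y' : XF L.fam), ∫ v, c * cu ψ y' (u + v) * A v = c * JJ A (cu ψ) y' u := by
    intro c y'
    rw [JJ, ← integral_const_mul]
    simp only [mul_assoc]
  rw [e1, e1, mul_add, ← mul_assoc, ← mul_assoc, sqU_mul_self, mul_inv_cancel₀ (Units.ne_zero _),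
    one_mul]

theorem ind_step_inr {Lv : κ → J → ℝ} {kk : (κ → ℕ) → (J → ℝ) → ℂ} (hR : RadData Lv kk)
    (a : Kˣ) (sq : ι → ℂˣ) (n : κ → ℕ) (k : κ) {ψ : Om L w J → ℂ} (h : Good (cu ψ)) :
    JJ (abel (kk (n + Pi.single k 1))) (cu ψ) = JJ (abel (kk n))
      (cu (trop (xx a sq Lv (Sum.inr k)) ψ + trop (xx a sq Lv (Sum.inr k))⁻¹ ψ)) := by
  have hA := continuous_abel (hR.rc n)
  have hA' := hasCompactSupport_abel (hR.rc n)
  funext y u
  show _ = JJ (abel (kk n)) (cu (trop (xx a sq Lv (Sum.inr k)) ψ) +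
      cu (trop (xx a sq Lv (Sum.inr k))⁻¹ ψ)) y u
  rw [JJ_add hA hA' (h.trop _) (h.trop _)]
  show (∫ v, cu ψ y (u + v) * abel (kk (n + Pi.single k 1)) v) =
    (∫ v, cu (trop (xx a sq Lv (Sum.inr k)) ψ) y (u + v) * abel (kk n) v) +
      ∫ v, cu (trop (xx a sq Lv (Sum.inr k))⁻¹ ψ) y (u + v) * abel (kk n) v
  simp only [cu_trop_inr, cu_trop_inr_inv, hR.step, mul_add]
  have hc1 : Continuous fun v : J → ℝ => abel (kk n) (v + Lv k) :=
    hA.comp (continuous_id.add continuous_const)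
  have hc2 : Continuous fun v : J → ℝ => abel (kk n) (v - Lv k) :=
    hA.comp (continuous_id.sub continuous_const)
  have hs1 : HasCompactSupport fun v : J → ℝ => abel (kk n) (v + Lv k) :=
    hA'.comp_homeomorph (Homeomorph.addRight (Lv k))
  have hs2 : HasCompactSupport fun v : J → ℝ => abel (kk n) (v - Lv k) :=
    hA'.comp_homeomorph (Homeomorph.subRight (Lv k))
  have hlb : LB fun v : J → ℝ => cu ψ y (u + v) :=
    (h.lb y).comp (continuous_const.add continuous_id)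
  rw [integral_add (integrable_JJ hc1 hs1 hlb) (integrable_JJ hc2 hs2 hlb), add_comm]
  congr 1
  · rw [← integral_sub_right_eq_self (fun v => cu ψ y (u + v + Lv k) * abel (kk n) v) (Lv k)]
    refine integral_congr_ae (Filter.Eventually.of_forall fun v => ?_)
    simp only
    congr 2
    abel
  · rw [← integral_add_right_eq_self (fun v => cu ψ y (u + v - Lv k) * abel (kk n) v) (Lv k)]
    refine integral_congr_ae (Filter.Eventually.of_forall fun v => ?_)
    simp only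
    congr 2
    abel

/-- the normalising factor -/
def nf (q : ι → ℕ) (hq : ∀ i, 0 < q i) (n : ι → ℕ) : ℂ := ∏ i, ((sqU q hq i : ℂ)⁻¹) ^ (n i)

theorem nf_zero (q : ι → ℕ) (hq : ∀ i, 0 < q i) : nf q hq 0 = 1 := by simp [nf]

theorem nf_add_single (q : ι → ℕ) (hq : ∀ i, 0 < q i) (n : ι → ℕ) (i : ι) :
    nf q hq (n + Pi.single i 1) = nf q hq n * (sqU q hq i : ℂ)⁻¹ := by
  rw [nf, nf]
  simp only [Pi.add_apply, pow_add, Finset.prod_mul_distrib]
  congr 1
  rw [Finset.prod_eq_single i]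
  · simp
  · intro j _ hj
    rw [Pi.single_eq_of_ne hj, pow_zero]
  · intro h; exact absurd (Finset.mem_univ i) h

theorem restr_inl (m : ι ⊕ κ →₀ ℕ) (i : ι) :
    (fun i' => (m + Finsupp.single (Sum.inl i) 1 : ι ⊕ κ →₀ ℕ) (Sum.inl i')) =
      (fun i' => m (Sum.inl i')) + Pi.single i 1 := by
  funext i'
  rw [Finsupp.add_apply, Pi.add_apply]
  congr 1
  by_cases h : i' = i
  · subst h; simp
  · rw [Pi.single_eq_of_ne h, Finsupp.single_eq_of_ne]
    simpa using h

theorem restr_inl' (m : ι ⊕ κ →₀ ℕ) (k : κ) :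
    (fun i' : ι => (m + Finsupp.single (Sum.inr k) 1 : ι ⊕ κ →₀ ℕ) (Sum.inl i')) =
      (fun i' => m (Sum.inl i')) := by
  funext i'
  rw [Finsupp.add_apply, Finsupp.single_eq_of_ne (by simp), add_zero]

theorem restr_inr (m : ι ⊕ κ →₀ ℕ) (k : κ) :
    (fun k' => (m + Finsupp.single (Sum.inr k) 1 : ι ⊕ κ →₀ ℕ) (Sum.inr k')) =
      (fun k' => m (Sum.inr k')) + Pi.single k 1 := by
  funext k'
  rw [Finsupp.add_apply, Pi.add_apply]
  congr 1
  by_cases h : k' = k
  · subst h; simp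
  · rw [Pi.single_eq_of_ne h, Finsupp.single_eq_of_ne]
    simpa using h

theorem restr_inr' (m : ι ⊕ κ →₀ ℕ) (i : ι) :
    (fun k' : κ => (m + Finsupp.single (Sum.inl i) 1 : ι ⊕ κ →₀ ℕ) (Sum.inr k')) =
      (fun k' => m (Sum.inr k')) := by
  funext k'
  rw [Finsupp.add_apply, Finsupp.single_eq_of_ne (by simp), add_zero]

theorem ind_main {a : Kˣ} {q : ι → ℕ} {T : ∀ i, LocKer (L.fam.U (w i))}
    {f : (ι → ℕ) → GlobKer L.fam} (hD : FinData (J := J) w a q T f) {Lv : κ → J → ℝ}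
    {kk : (κ → ℕ) → (J → ℝ) → ℂ} (hR : RadData Lv kk) (m : ι ⊕ κ →₀ ℕ) :
    ∀ ψ : Om L w J → ℂ, Good (cu ψ) →
      nf q hD.qpos (fun i => m (Sum.inl i)) • gop (f (fun i => m (Sum.inl i)))
        (JJ (abel (kk (fun k => m (Sum.inr k)))) (cu ψ)) =
      gop (f 0) (JJ (abel (kk 0)) (cu (Fermat.Agent.H39Z.opP (xx a (sqU q hD.qpos) Lv)
        (MvPolynomial.monomial m 1) ψ))) := by
  induction hN : m.degree generalizing m with
  | zero =>
    intro ψ h
    rw [Finsupp.degree_eq_zero_iff] at hN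
    subst hN
    rw [opP_monomial_zero]
    show nf q hD.qpos 0 • gop (f 0) (JJ (abel (kk 0)) (cu ψ)) = _
    rw [nf_zero, one_smul]
    rfl
  | succ N ih =>
    intro ψ h
    have hm : m ≠ 0 := by
      rintro rfl
      simp at hN
    obtain ⟨a', ha⟩ := Finsupp.ne_iff.mp hm
    have e : m = (m - Finsupp.single a' 1) + Finsupp.single a' 1 := by
      rw [tsub_add_cancel_of_le]
      rw [Finsupp.single_le_iff]
      exact Nat.one_le_iff_ne_zero.mpr ha
    have hN' : (m - Finsupp.single a' 1).degree = N := by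
      rw [e, map_add, Finsupp.degree_single] at hN
      omega
    set m' := m - Finsupp.single a' 1 with hm'
    rw [e, opP_monomial_add, ← ih m' hN' (Fermat.Agent.H39Z.trop (xx a (sqU q hD.qpos) Lv a') ψ +
      Fermat.Agent.H39Z.trop (xx a (sqU q hD.qpos) Lv a')⁻¹ ψ) ((h.trop _).add (h.trop _))]
    cases a' with
    | inl i =>
      rw [restr_inl, restr_inr', nf_add_single, ind_step_inl hD Lv (continuous_abel (hR.rc _))
        (hasCompactSupport_abel (hR.rc _)) _ i h, smul_smul, mul_assoc,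
        inv_mul_cancel₀ (Units.ne_zero _), mul_one]
    | inr k =>
      rw [restr_inl', restr_inr, ind_step_inr hR a (sqU q hD.qpos) _ k h]

theorem JJ_sum {A : (J → ℝ) → ℂ} (hA : Continuous A) (hA' : HasCompactSupport A) {α : Type*}
    (s : Finset α) {F : α → XF L.fam → (J → ℝ) → ℂ} (hF : ∀ i ∈ s, Good (F i)) (y : XF L.fam)
    (u : J → ℝ) : JJ A (fun y u => ∑ i ∈ s, F i y u) y u = ∑ i ∈ s, JJ A (F i) y u := by
  unfold JJ
  rw [← integral_finsetSum]
  · simp only [Finset.sum_mul]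
  · intro i hi
    exact integrable_JJ hA hA' (((hF i hi).lb y).comp (continuous_const.add continuous_id))

theorem Good.const_mul {F : XF L.fam → (J → ℝ) → ℂ} (hF : Good F) (c : ℂ) :
    Good (fun y u => c * F y u) where
  ninv b y := by
    funext u
    show c * F ((borP K).n b • y) u = c * F y u
    rw [hF.ninv]
  lb y := (hF.lb y).const_mul c

/-- **The aleph operator kills every good function fixed by the product of the parameters.** -/
theorem sum_eq_zero {P : MvPolynomial (ι ⊕ κ) ℤ} (hP : IsAleph P) {a : Kˣ} {q : ι → ℕ}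
    {T : ∀ i, LocKer (L.fam.U (w i))}
    {f : (ι → ℕ) → GlobKer L.fam} (hD : FinData (J := J) w a q T f) {Lv : κ → J → ℝ}
    {kk : (κ → ℕ) → (J → ℝ) → ℂ} (hR : RadData Lv kk) (ψ : Om L w J → ℂ) (h : Good (cu ψ))
    (hfix : trop (∏ s, xx a (sqU q hD.qpos) Lv s) ψ = ψ) (y : XF L.fam) (u : J → ℝ) :
    ∑ m ∈ P.support, ((MvPolynomial.coeff m P : ℤ) : ℂ) *
      (nf q hD.qpos (fun i => m (Sum.inl i)) * gop (f (fun i => m (Sum.inl i)))
        (JJ (abel (kk (fun k => m (Sum.inr k)))) (cu ψ)) y u) = 0 := by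
  have h1 : ∀ m : ι ⊕ κ →₀ ℕ, nf q hD.qpos (fun i => m (Sum.inl i)) *
      gop (f (fun i => m (Sum.inl i))) (JJ (abel (kk (fun k => m (Sum.inr k)))) (cu ψ)) y u =
      gop (f 0) (JJ (abel (kk 0)) (cu (Fermat.Agent.H39Z.opP (xx a (sqU q hD.qpos) Lv)
        (MvPolynomial.monomial m 1) ψ))) y u := by
    intro m
    rw [← ind_main hD hR m ψ h]
    rfl
  simp only [h1]
  have hA := continuous_abel (hR.rc 0)
  have hA' := hasCompactSupport_abel (hR.rc 0)
  have h2 : ∀ y u, ∑ m ∈ P.support, ((MvPolynomial.coeff m P : ℤ) : ℂ) *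
      JJ (abel (kk 0)) (cu (Fermat.Agent.H39Z.opP (xx a (sqU q hD.qpos) Lv)
        (MvPolynomial.monomial m 1) ψ)) y u = 0 := by
    intro y u
    have h3 : ∀ m, ((MvPolynomial.coeff m P : ℤ) : ℂ) *
      JJ (abel (kk 0)) (cu (Fermat.Agent.H39Z.opP (xx a (sqU q hD.qpos) Lv)
        (MvPolynomial.monomial m 1) ψ)) y u = JJ (abel (kk 0)) (fun y u =>
          ((MvPolynomial.coeff m P : ℤ) : ℂ) *
          cu (Fermat.Agent.H39Z.opP (xx a (sqU q hD.qpos) Lv)
        (MvPolynomial.monomial m 1) ψ) y u) y u := by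
      intro m
      have := JJ_const_mul (abel (kk 0)) ((MvPolynomial.coeff m P : ℤ) : ℂ)
        (cu (Fermat.Agent.H39Z.opP (xx a (sqU q hD.qpos) Lv) (MvPolynomial.monomial m 1) ψ))
      exact (congrFun (congrFun this y) u).symm
    simp only [h3]
    rw [← JJ_sum hA hA' P.support fun m _ => (Good.opP _ m ψ h).const_mul _]
    have h4 : (fun (y : XF L.fam) (u : J → ℝ) => ∑ m ∈ P.support,
        ((MvPolynomial.coeff m P : ℤ) : ℂ) *
        cu (Fermat.Agent.H39Z.opP (xx a (sqU q hD.qpos) Lv) (MvPolynomial.monomial m 1) ψ) y u) =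
        cu (Fermat.Agent.H39Z.opP (xx a (sqU q hD.qpos) Lv) P ψ) := by
      rw [opP_eq_sum]
      funext y u
      show _ = (∑ m ∈ P.support, ((MvPolynomial.coeff m P : ℤ) : ℂ) •
        (Fermat.Agent.H39Z.opP (xx a (sqU q hD.qpos) Lv) (MvPolynomial.monomial m 1) ψ)) (u, y)
      rw [Finset.sum_apply]
      rfl
    rw [h4, opP_kill hP _ ψ hfix]
    show ∫ v, (0 : ℂ) * abel (kk 0) v = 0
    simp
  -- exchange the two finite sums
  simp only [gop_def, Finset.sum_apply, Pi.smul_apply, smul_eq_mul, Finset.mul_sum]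
  rw [Finset.sum_comm]
  refine Finset.sum_eq_zero fun y' _ => ?_
  have h5 := h2 y' u
  have h6 := congrArg (fun t => (f 0).k y y' * t) h5
  simp only [mul_zero, Finset.mul_sum] at h6
  rw [← h6]
  refine Finset.sum_congr rfl fun m _ => ?_
  ring

end diag

end Fermat.Agent.H39Z
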