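import Mathlib

/-!
# Means of periodic functions over a lattice and over its multiples (helper39, S47 C5)
-/

set_option autoImplicit false
set_option linter.unusedSectionVars false
set_option linter.style.haveILetI false

noncomputable section

open MeasureTheory Set Module
open scoped Pointwise

namespace Fermat.Agent.H39Z

variable {E : Type*} {ι : Type*} [NormedAddCommGroup E] [NormedSpace ℝ E]
  [Fintype ι] [FiniteDimensional ℝ E] [MeasurableSpace E] [BorelSpace E]
  (μ : Measure E) [μ.IsAddHaarMeasure]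

/-- mean of `f` over the torus `E / n L`, `L` spanned by `b`. -/
def lmean (b : Basis ι ℝ E) (n : ℕ) (f : E → ℂ) : ℂ :=
  ((μ.real (ZSpan.fundamentalDomain b))⁻¹ : ℝ) •
    ∫ z in ZSpan.fundamentalDomain b, f ((n : ℝ) • z) ∂μ

theorem mem_smul_fundamentalDomain (b : Basis ι ℝ E) {m : ℕ} (hm : 0 < m) (x : E) :
    x ∈ (m : ℝ) • ZSpan.fundamentalDomain b ↔ ∀ i, b.repr x i ∈ Ico (0 : ℝ) m := by
  have hm' : (0 : ℝ) < m := by exact_mod_cast hm
  rw [Set.mem_smul_set_iff_inv_smul_mem₀ hm'.ne', ZSpan.mem_fundamentalDomain]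
  refine forall_congr' fun i => ?_
  rw [map_smul, Finsupp.smul_apply, smul_eq_mul, mem_Ico, mem_Ico, inv_mul_lt_iff₀ hm', mul_one]
  refine and_congr_left fun _ => ?_
  constructor
  · intro h
    have := mul_nonneg hm'.le h
    rwa [mul_inv_cancel_left₀ hm'.ne'] at this
  · intro h
    positivity

/-- the translation vector -/
def tvec (b : Basis ι ℝ E) {m : ℕ} (c : ι → Fin m) : E := ∑ i, ((c i : ℕ) : ℝ) • b i

theorem tvec_mem (b : Basis ι ℝ E) {m : ℕ} (c : ι → Fin m) :
    tvec b c ∈ Submodule.span ℤ (Set.range b) := by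
  refine Submodule.sum_mem _ fun i _ => ?_
  have h : ((c i : ℕ) : ℝ) • b i = ((c i : ℕ) : ℤ) • b i := by
    rw [← Int.cast_smul_eq_zsmul ℝ, Int.cast_natCast]
  rw [h]
  exact Submodule.smul_mem _ _ (Submodule.subset_span ⟨i, rfl⟩)

theorem repr_tvec (b : Basis ι ℝ E) {m : ℕ} (c : ι → Fin m) (i : ι) :
    b.repr (tvec b c) i = (c i : ℕ) := by
  classical
  rw [tvec, map_sum, Finsupp.finsetSum_apply, Finset.sum_eq_single i]
  · simp
  · intro j _ hj
    simp [hj]
  · intro h
    exact absurd (Finset.mem_univ i) h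

theorem mem_vadd_fundamentalDomain (b : Basis ι ℝ E) {m : ℕ} (c : ι → Fin m) (x : E) :
    x ∈ tvec b c +ᵥ ZSpan.fundamentalDomain b ↔ ∀ i, ⌊b.repr x i⌋ = ((c i : ℕ) : ℤ) := by
  rw [Set.mem_vadd_set_iff_neg_vadd_mem, ZSpan.mem_fundamentalDomain]
  refine forall_congr' fun i => ?_
  rw [vadd_eq_add, map_add, map_neg, Finsupp.add_apply, Finsupp.neg_apply, repr_tvec,
    Int.floor_eq_iff, mem_Ico, Int.cast_natCast]
  constructor
  · rintro ⟨h1, h2⟩
    constructor <;> linarith
  · rintro ⟨h1, h2⟩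
    constructor <;> linarith

theorem smul_fundamentalDomain_eq (b : Basis ι ℝ E) {m : ℕ} (hm : 0 < m) :
    (m : ℝ) • ZSpan.fundamentalDomain b =
      ⋃ c : ι → Fin m, (tvec b c +ᵥ ZSpan.fundamentalDomain b) := by
  ext x
  rw [mem_smul_fundamentalDomain b hm, mem_iUnion]
  constructor
  · intro h
    have h1 : ∀ i, ∃ k : Fin m, ⌊b.repr x i⌋ = ((k : ℕ) : ℤ) := by
      intro i
      obtain ⟨h0, h2⟩ := h i
      have h3 : 0 ≤ ⌊b.repr x i⌋ := Int.floor_nonneg.mpr h0
      have h4 : ⌊b.repr x i⌋ < (m : ℤ) := Int.floor_lt.mpr (by exact_mod_cast h2)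
      refine ⟨⟨⌊b.repr x i⌋.toNat, by omega⟩, ?_⟩
      simp only
      omega
    choose c hc using h1
    exact ⟨c, (mem_vadd_fundamentalDomain b c x).mpr hc⟩
  · rintro ⟨c, hc⟩ i
    rw [mem_vadd_fundamentalDomain] at hc
    have h1 := hc i
    have h2 := (c i).2
    rw [Int.floor_eq_iff] at h1
    constructor
    · refine le_trans ?_ h1.1
      positivity
    · refine lt_of_lt_of_le h1.2 ?_
      rw [Int.cast_natCast]
      exact_mod_cast h2

theorem pairwise_disjoint_vadd (b : Basis ι ℝ E) {m : ℕ} :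
    Pairwise (Function.onFun Disjoint
      fun c : ι → Fin m => (tvec b c +ᵥ ZSpan.fundamentalDomain b)) := by
  intro c c' hcc
  rw [Function.onFun, Set.disjoint_left]
  intro x hx hx'
  rw [mem_vadd_fundamentalDomain] at hx hx'
  refine hcc (funext fun i => Fin.ext ?_)
  have := (hx i).symm.trans (hx' i)
  exact_mod_cast this

theorem setIntegral_vadd (b : Basis ι ℝ E) {f : E → ℂ}
    (hper : ∀ x, ∀ v ∈ Submodule.span ℤ (Set.range b), f (x + v) = f x) {m : ℕ}
    (c : ι → Fin m) :
    ∫ x in tvec b c +ᵥ ZSpan.fundamentalDomain b, f x ∂μ =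
      ∫ x in ZSpan.fundamentalDomain b, f x ∂μ := by
  have := (measurePreserving_vadd (tvec b c) μ).setIntegral_image_emb
    (measurableEmbedding_const_vadd _) f (ZSpan.fundamentalDomain b)
  rw [← Set.image_vadd, this]
  refine integral_congr_ae (Filter.Eventually.of_forall fun x => ?_)
  simp only [vadd_eq_add]
  rw [add_comm]
  exact hper x _ (tvec_mem b c)

theorem integrableOn_vadd (b : Basis ι ℝ E) {f : E → ℂ}
    (hper : ∀ x, ∀ v ∈ Submodule.span ℤ (Set.range b), f (x + v) = f x)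
    (hf : IntegrableOn f (ZSpan.fundamentalDomain b) μ) {m : ℕ} (c : ι → Fin m) :
    IntegrableOn f (tvec b c +ᵥ ZSpan.fundamentalDomain b) μ := by
  rw [← Set.image_vadd, (measurePreserving_vadd (tvec b c) μ).integrableOn_image
    (measurableEmbedding_const_vadd _)]
  refine hf.congr_fun (fun x _ => ?_) (ZSpan.fundamentalDomain_measurableSet b)
  simp only [Function.comp_apply, vadd_eq_add]
  rw [add_comm]
  exact (hper x _ (tvec_mem b c)).symm

/-- **The mean over the multiple of a lattice.** -/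
theorem setIntegral_comp_nsmul (b : Basis ι ℝ E) {f : E → ℂ}
    (hper : ∀ x, ∀ v ∈ Submodule.span ℤ (Set.range b), f (x + v) = f x)
    (hf : IntegrableOn f (ZSpan.fundamentalDomain b) μ) {m : ℕ} (hm : 0 < m) :
    ∫ z in ZSpan.fundamentalDomain b, f ((m : ℝ) • z) ∂μ =
      ∫ z in ZSpan.fundamentalDomain b, f z ∂μ := by
  classical
  have hm' : (0 : ℝ) < m := by exact_mod_cast hm
  rw [Measure.setIntegral_comp_smul_of_pos μ f _ hm', smul_fundamentalDomain_eq b hm,
    integral_iUnion_fintype]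
  · rw [Finset.sum_congr rfl fun c _ => setIntegral_vadd μ b hper c, Finset.sum_const,
      Finset.card_univ, Fintype.card_fun, Fintype.card_fin, finrank_eq_card_basis b,
      ← Nat.cast_smul_eq_nsmul ℝ, smul_smul]
    push_cast
    rw [inv_mul_cancel₀ (by positivity), one_smul]
  · intro c
    exact (ZSpan.fundamentalDomain_measurableSet b).const_vadd _
  · exact pairwise_disjoint_vadd b
  · exact fun c => integrableOn_vadd μ b hper hf c

/-- periodicity under the lattice `n L` -/
def NPer (b : Basis ι ℝ E) (n : ℕ) (f : E → ℂ) : Prop :=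
  ∀ x, ∀ v ∈ Submodule.span ℤ (Set.range b), f (x + (n : ℝ) • v) = f x

theorem NPer.mul {b : Basis ι ℝ E} {n : ℕ} {f : E → ℂ} (h : NPer b n f) (m : ℕ) :
    NPer b (n * m) f := by
  intro x v hv
  have h1 : ((n * m : ℕ) : ℝ) • v = (n : ℝ) • ((m : ℤ) • v) := by
    rw [← Int.cast_smul_eq_zsmul ℝ, smul_smul]
    push_cast
    rfl
  rw [h1]
  exact h x _ (Submodule.smul_mem _ _ hv)

/-- measurable, bounded on compact sets -/
def LB {X : Type*} [TopologicalSpace X] [MeasurableSpace X] (f : X → ℂ) : Prop :=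
  Measurable f ∧ ∀ K : Set X, IsCompact K → ∃ C, ∀ x ∈ K, ‖f x‖ ≤ C

theorem LB.comp {X Y : Type*} [TopologicalSpace X] [MeasurableSpace X] [TopologicalSpace Y]
    [MeasurableSpace Y] [BorelSpace X] [BorelSpace Y] {f : Y → ℂ} (hf : LB f) {g : X → Y}
    (hg : Continuous g) : LB (fun x => f (g x)) := by
  refine ⟨hf.1.comp hg.measurable, fun K hK => ?_⟩
  obtain ⟨C, hC⟩ := hf.2 _ (hK.image hg)
  exact ⟨C, fun x hx => hC _ (Set.mem_image_of_mem g hx)⟩

omit [NormedSpace ℝ E] [FiniteDimensional ℝ E] in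
theorem LB.integrableOn {X : Type*} [TopologicalSpace X] [MeasurableSpace X]
    [OpensMeasurableSpace X] [T2Space X]
    (ν : Measure X) [IsFiniteMeasureOnCompacts ν] {f : X → ℂ} (hf : LB f) {K : Set X}
    (hK : IsCompact K) : IntegrableOn f K ν := by
  obtain ⟨C, hC⟩ := hf.2 K hK
  haveI : IsFiniteMeasure (ν.restrict K) := ⟨by
    rw [Measure.restrict_apply_univ]
    exact hK.measure_lt_top⟩
  refine Measure.integrableOn_of_bounded hK.measure_ne_top hf.1.aestronglyMeasurable (M := C) ?_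
  exact (ae_restrict_iff' hK.measurableSet).mpr (Filter.Eventually.of_forall hC)

theorem lmean_mul (b : Basis ι ℝ E) {n : ℕ} (hn : 0 < n) {f : E → ℂ} (hper : NPer b n f)
    (hf : LB f) {m : ℕ} (hm : 0 < m) :
    lmean μ b (n * m) f = lmean μ b n f := by
  have hn' : (0 : ℝ) < n := by exact_mod_cast hn
  have h := setIntegral_comp_nsmul μ b (f := fun z => f ((n : ℝ) • z)) ?_ ?_ hm
  · rw [lmean, lmean, ← h]
    congr 2
    funext z
    rw [smul_smul]
    push_cast
    rfl
  · intro x v hv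
    simp only [smul_add]
    exact hper _ v hv
  · have hK : IsCompact (closure (ZSpan.fundamentalDomain b)) :=
      (ZSpan.fundamentalDomain_isBounded b).isCompact_closure
    exact ((hf.comp (continuous_const_smul (n : ℝ))).integrableOn μ hK).mono_set subset_closure

end Fermat.Agent.H39Z
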