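import Fermat.Agent.H39ZMean
import Fermat.Agent.H5ZLat

/-!
# The mean of a function which is periodic for some lattice (helper39, S47 C5)

* `lm μ b f`: mean over the fundamental domain of the lattice basis `b`;
* `lm_eq`: if `f` is periodic for both lattices then the two means agree;
* `cmean μ f`: the mean with respect to any lattice of periods.
-/

set_option autoImplicit false
set_option linter.unusedSectionVars false
set_option linter.style.haveILetI false

noncomputable section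

open MeasureTheory Set Module
open scoped Pointwise

namespace Fermat.Agent.H39Z

open Fermat.Agent.H5Z (Per)

variable {E : Type*} [NormedAddCommGroup E] [NormedSpace ℝ E]
  [FiniteDimensional ℝ E] [MeasurableSpace E] [BorelSpace E]
  (μ : Measure E) [μ.IsAddHaarMeasure] {ι ι' : Type*} [Fintype ι] [Fintype ι']

/-- the mean over the fundamental domain of `b` -/
def lm (b : Basis ι ℝ E) (f : E → ℂ) : ℂ :=
  ((μ.real (ZSpan.fundamentalDomain b))⁻¹ : ℝ) • ∫ z in ZSpan.fundamentalDomain b, f z ∂μ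

theorem fd_lt_top (b : Basis ι ℝ E) : μ (ZSpan.fundamentalDomain b) < ⊤ :=
  (ZSpan.fundamentalDomain_isBounded b).measure_lt_top

theorem fd_pos (b : Basis ι ℝ E) : 0 < μ.real (ZSpan.fundamentalDomain b) := by
  rw [Measure.real, ENNReal.toReal_pos_iff]
  exact ⟨pos_iff_ne_zero.2 (ZSpan.measure_fundamentalDomain_ne_zero b), fd_lt_top μ b⟩

theorem finite_fd (b : Basis ι ℝ E) : IsFiniteMeasure (μ.restrict (ZSpan.fundamentalDomain b)) :=
  ⟨by rw [Measure.restrict_apply_univ]; exact fd_lt_top μ b⟩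

theorem lm_eq_zero_iff (b : Basis ι ℝ E) (f : E → ℂ) :
    lm μ b f = 0 ↔ ∫ z in ZSpan.fundamentalDomain b, f z ∂μ = 0 := by
  rw [lm, smul_eq_zero]
  constructor
  · rintro (h | h)
    · exact absurd h (inv_ne_zero (fd_pos μ b).ne')
    · exact h
  · exact fun h => Or.inr h

theorem lm_const (b : Basis ι ℝ E) (c : ℂ) : lm μ b (fun _ => c) = c := by
  rw [lm, setIntegral_const, smul_smul, inv_mul_cancel₀ (fd_pos μ b).ne', one_smul]

theorem lm_comp_add {b : Basis ι ℝ E} {f : E → ℂ} (h : Per b f) (w : E) :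
    lm μ b (fun z => f (z + w)) = lm μ b f := by
  rw [lm, lm, h.setIntegral_comp_add μ w]

theorem isCompact_fd (b : Basis ι ℝ E) : IsCompact (closure (ZSpan.fundamentalDomain b)) :=
  (ZSpan.fundamentalDomain_isBounded b).isCompact_closure

theorem LB.integrableOn_fd {f : E → ℂ} (hf : LB f) (b : Basis ι ℝ E) :
    IntegrableOn f (ZSpan.fundamentalDomain b) μ :=
  (hf.integrableOn μ (isCompact_fd b)).mono_set subset_closure

/-- **Independence of the lattice.** -/
theorem lm_eq {b : Basis ι ℝ E} {b' : Basis ι' ℝ E} {f : E → ℂ} (hf : LB f) (h : Per b f)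
    (h' : Per b' f) : lm μ b f = lm μ b' f := by
  haveI := finite_fd μ b
  haveI := finite_fd μ b'
  set D := ZSpan.fundamentalDomain b with hD
  set D' := ZSpan.fundamentalDomain b' with hD'
  have hDm : MeasurableSet D := ZSpan.fundamentalDomain_measurableSet b
  have hDm' : MeasurableSet D' := ZSpan.fundamentalDomain_measurableSet b'
  have hint : Integrable (Function.uncurry fun z w : E => f (z + w))
      ((μ.restrict D).prod (μ.restrict D')) := by
    have hK : IsCompact (closure D ×ˢ closure D') := (isCompact_fd b).prod (isCompact_fd b')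
    obtain ⟨C, hC⟩ := hf.2 _ (hK.image (continuous_fst.add continuous_snd))
    have hm : Measurable (Function.uncurry fun z w : E => f (z + w)) :=
      hf.1.comp (continuous_fst.add continuous_snd).measurable
    refine Integrable.of_bound hm.aestronglyMeasurable C ?_
    rw [Measure.prod_restrict]
    refine (ae_restrict_iff' (hDm.prod hDm')).mpr (Filter.Eventually.of_forall ?_)
    rintro ⟨z, w⟩ ⟨hz, hw⟩
    exact hC _ ⟨(z, w), ⟨subset_closure hz, subset_closure hw⟩, rfl⟩
  have hswap := integral_integral_swap hint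
  have h1 : ∀ z : E, ∫ w in D', f (z + w) ∂μ = ∫ w in D', f w ∂μ := by
    intro z
    simp_rw [add_comm z]
    exact h'.setIntegral_comp_add μ z
  have h2 : ∀ w : E, ∫ z in D, f (z + w) ∂μ = ∫ z in D, f z ∂μ := fun w =>
    h.setIntegral_comp_add μ w
  simp_rw [h1, h2] at hswap
  rw [setIntegral_const, setIntegral_const] at hswap
  have hp := fd_pos μ b
  have hp' := fd_pos μ b'
  rw [lm, lm, ← hD, ← hD']
  have e1 : ((μ.real D)⁻¹ : ℝ) • ∫ z in D, f z ∂μ =
      ((μ.real D)⁻¹ * (μ.real D')⁻¹ : ℝ) • (μ.real D' • ∫ z in D, f z ∂μ) := by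
    rw [smul_smul, mul_assoc, inv_mul_cancel₀ hp'.ne', mul_one]
  rw [e1, ← hswap, smul_smul]
  congr 1
  rw [mul_comm (μ.real D)⁻¹, mul_assoc, inv_mul_cancel₀ hp.ne', mul_one]

/-- **Linear change of variables.** -/
theorem lm_comp_linear (b : Basis ι ℝ E) (A : E ≃ₗ[ℝ] E) (f : E → ℂ) :
    lm μ b (fun z => f (A z)) = lm μ (b.map A) f := by
  have hdet : LinearMap.det (A : E →ₗ[ℝ] E) ≠ 0 := (LinearEquiv.isUnit_det' A).ne_zero
  have hfd : ZSpan.fundamentalDomain (b.map A) = A '' ZSpan.fundamentalDomain b := by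
    ext x
    rw [ZSpan.mem_fundamentalDomain, mem_image]
    constructor
    · intro h
      refine ⟨A.symm x, ?_, by simp⟩
      rw [ZSpan.mem_fundamentalDomain]
      exact h
    · rintro ⟨y, hy, rfl⟩
      rw [ZSpan.mem_fundamentalDomain] at hy
      intro i
      simpa using hy i
  have hcont : Continuous (A : E → E) := LinearMap.continuous_of_finiteDimensional (A : E →ₗ[ℝ] E)
  have hcont' : Continuous (A.symm : E → E) :=
    LinearMap.continuous_of_finiteDimensional (A.symm : E →ₗ[ℝ] E)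
  let e : E ≃ₜ E := ⟨A.toEquiv, hcont, hcont'⟩
  have hemb : MeasurableEmbedding (A : E → E) := e.measurableEmbedding
  have hmap := Measure.map_linearMap_addHaar_eq_smul_addHaar μ hdet
  have hvol : μ (A '' ZSpan.fundamentalDomain b) =
      ENNReal.ofReal |LinearMap.det (A : E →ₗ[ℝ] E)| * μ (ZSpan.fundamentalDomain b) :=
    Measure.addHaar_image_linearMap μ (A : E →ₗ[ℝ] E) _
  set d := LinearMap.det (A : E →ₗ[ℝ] E) with hd
  have hint : ∫ z in ZSpan.fundamentalDomain b, f (A z) ∂μ =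
      (|d|⁻¹ : ℝ) • ∫ z in A '' ZSpan.fundamentalDomain b, f z ∂μ := by
    have h1 := hemb.setIntegral_map (μ := μ) f (A '' ZSpan.fundamentalDomain b)
    rw [A.injective.preimage_image] at h1
    rw [← h1]
    have h2 : Measure.map (A : E → E) μ = ENNReal.ofReal |d⁻¹| • μ := hmap
    rw [h2, Measure.restrict_smul, integral_smul_measure, ENNReal.toReal_ofReal (abs_nonneg _),
      abs_inv]
  rw [lm, lm, hfd, hint, Measure.real, Measure.real, hvol, ENNReal.toReal_mul,
    ENNReal.toReal_ofReal (abs_nonneg _), smul_smul, mul_inv]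
  congr 1
  ring

theorem lm_add (b : Basis ι ℝ E) {f g : E → ℂ} (hf : LB f) (hg : LB g) :
    lm μ b (fun z => f z + g z) = lm μ b f + lm μ b g := by
  rw [lm, integral_add (hf.integrableOn_fd μ b) (hg.integrableOn_fd μ b), smul_add, lm, lm]

theorem lm_const_mul (b : Basis ι ℝ E) (c : ℂ) (f : E → ℂ) :
    lm μ b (fun z => c * f z) = c * lm μ b f := by
  rw [lm, lm, integral_const_mul, mul_smul_comm]

theorem lm_sum {κ : Type*} (b : Basis ι ℝ E) (s : Finset κ) {f : κ → E → ℂ}
    (hf : ∀ i ∈ s, LB (f i)) :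
    lm μ b (fun z => ∑ i ∈ s, f i z) = ∑ i ∈ s, lm μ b (f i) := by
  rw [lm, integral_finsetSum _ fun i hi => (hf i hi).integrableOn_fd μ b, Finset.smul_sum]
  rfl

/-! ### Multiples of a lattice basis -/

/-- The basis `n b`. -/
def sb (b : Basis ι ℝ E) {n : ℕ} (hn : 0 < n) : Basis ι ℝ E :=
  b.map (LinearEquiv.smulOfNeZero ℝ E (n : ℝ) (by exact_mod_cast hn.ne'))

@[simp] theorem sb_apply (b : Basis ι ℝ E) {n : ℕ} (hn : 0 < n) (i : ι) :
    sb b hn i = (n : ℝ) • b i := rfl

theorem NPer.per {b : Basis ι ℝ E} {n : ℕ} (hn : 0 < n) {f : E → ℂ} (h : NPer b n f) :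
    Per (sb b hn) f := by
  intro x v hv
  have h1 : Submodule.span ℤ (Set.range (sb b hn)) ≤
      (Submodule.span ℤ (Set.range b)).map
        ((LinearMap.lsmul ℝ E (n : ℝ)).restrictScalars ℤ) := by
    rw [Submodule.span_le]
    rintro _ ⟨i, rfl⟩
    exact ⟨b i, Submodule.subset_span ⟨i, rfl⟩, rfl⟩
  obtain ⟨w, hw, rfl⟩ := h1 hv
  exact h x w hw

theorem NPer.of_dvd {b : Basis ι ℝ E} {n n' : ℕ} {f : E → ℂ} (h : NPer b n f) (hd : n ∣ n') :
    NPer b n' f := by
  obtain ⟨m, rfl⟩ := hd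
  exact h.mul m

/-- periodicity under some multiple of the lattice -/
def SPer (b : Basis ι ℝ E) (f : E → ℂ) : Prop := ∃ n : ℕ, 0 < n ∧ NPer b n f

theorem SPer.exists_common {κ : Type*} {b : Basis ι ℝ E} (s : Finset κ) {f : κ → E → ℂ}
    (h : ∀ i ∈ s, SPer b (f i)) : ∃ n : ℕ, 0 < n ∧ ∀ i ∈ s, NPer b n (f i) := by
  classical
  induction s using Finset.induction_on with
  | empty => exact ⟨1, one_pos, fun i hi => absurd hi (Finset.notMem_empty i)⟩
  | insert a s ha ih =>
    obtain ⟨n, hn, h1⟩ := ih fun i hi => h i (Finset.mem_insert_of_mem hi)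
    obtain ⟨n', hn', h2⟩ := h a (Finset.mem_insert_self a s)
    refine ⟨n * n', Nat.mul_pos hn hn', fun i hi => ?_⟩
    rcases Finset.mem_insert.mp hi with rfl | hi
    · exact h2.of_dvd (Dvd.intro_left n rfl)
    · exact (h1 i hi).of_dvd (Dvd.intro n' rfl)

/-! ### The canonical mean -/

open Classical in
/-- The mean with respect to any lattice of periods. -/
def cmean (f : E → ℂ) : ℂ :=
  if h : ∃ b : Basis (Fin (finrank ℝ E)) ℝ E, Per b f then lm μ h.choose f else 0

theorem cmean_eq {b : Basis ι ℝ E} {f : E → ℂ} (hf : LB f) (h : Per b f) :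
    cmean μ f = lm μ b f := by
  have hex : ∃ b : Basis (Fin (finrank ℝ E)) ℝ E, Per b f := by
    refine ⟨b.reindex ((Fintype.equivFin ι).trans (finCongr (finrank_eq_card_basis b).symm)), ?_⟩
    intro x v hv
    rw [Basis.range_reindex] at hv
    exact h x v hv
  rw [cmean, dif_pos hex]
  exact lm_eq μ hf hex.choose_spec h

theorem SPer.cmean_eq {b : Basis ι ℝ E} {f : E → ℂ} (hf : LB f) {n : ℕ} (hn : 0 < n)
    (h : NPer b n f) : cmean μ f = lm μ (sb b hn) f :=
  Fermat.Agent.H39Z.cmean_eq μ hf (h.per hn)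

theorem cmean_const [Nonempty (Basis (Fin (finrank ℝ E)) ℝ E)] (c : ℂ) :
    cmean μ (fun _ => c) = c := by
  obtain ⟨b⟩ := ‹Nonempty (Basis (Fin (finrank ℝ E)) ℝ E)›
  rw [cmean_eq μ (b := b) ⟨measurable_const, fun K _ => ⟨‖c‖, fun _ _ => le_rfl⟩⟩
    (fun _ _ _ => rfl), lm_const]

theorem cmean_comp_add {b : Basis ι ℝ E} {f : E → ℂ} (hf : LB f) (h : Per b f) (w : E) :
    cmean μ (fun z => f (z + w)) = cmean μ f := by
  have h1 : LB fun z => f (z + w) := hf.comp (continuous_id.add continuous_const)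
  rw [cmean_eq μ hf h, cmean_eq μ h1 (h.comp_add_right w)]
  exact lm_comp_add μ h w

theorem cmean_comp_linear {b : Basis ι ℝ E} {f : E → ℂ} (hf : LB f) (h : Per b f)
    (A : E ≃ₗ[ℝ] E) : cmean μ (fun z => f (A z)) = cmean μ f := by
  have hcont : Continuous (A : E → E) := LinearMap.continuous_of_finiteDimensional (A : E →ₗ[ℝ] E)
  have h1 : Per (b.map A.symm) (fun z => f (A z)) := by
    intro x v hv
    have h2 : A v ∈ Submodule.span ℤ (Set.range b) := by
      have h3 : Submodule.span ℤ (Set.range (b.map A.symm)) ≤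
          (Submodule.span ℤ (Set.range b)).comap ((A : E →ₗ[ℝ] E).restrictScalars ℤ) := by
        rw [Submodule.span_le]
        rintro _ ⟨i, rfl⟩
        show A (b.map A.symm i) ∈ Submodule.span ℤ (Set.range b)
        rw [Basis.map_apply, A.apply_symm_apply]
        exact Submodule.subset_span ⟨i, rfl⟩
      exact h3 hv
    show f (A (x + v)) = f (A x)
    rw [map_add]
    exact h _ _ h2
  rw [cmean_eq μ (hf.comp hcont) h1, cmean_eq μ hf h, lm_comp_linear]
  congr 1
  ext i
  simp

theorem cmean_const_mul {b : Basis ι ℝ E} {f : E → ℂ} (hf : LB f) (h : Per b f) (c : ℂ) :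
    cmean μ (fun z => c * f z) = c * cmean μ f := by
  have h1 : LB fun z => c * f z := by
    refine ⟨measurable_const.mul hf.1, fun K hK => ?_⟩
    obtain ⟨C, hC⟩ := hf.2 K hK
    refine ⟨‖c‖ * C, fun x hx => ?_⟩
    rw [norm_mul]
    exact mul_le_mul_of_nonneg_left (hC x hx) (norm_nonneg _)
  rw [cmean_eq μ hf h, cmean_eq μ (b := b) h1 (fun x v hv => by rw [h x v hv]), lm_const_mul]

theorem LB.sum {X : Type*} [TopologicalSpace X] [MeasurableSpace X] {κ : Type*} (s : Finset κ)
    {f : κ → X → ℂ} (hf : ∀ i ∈ s, LB (f i)) : LB fun x => ∑ i ∈ s, f i x := by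
  refine ⟨Finset.measurable_sum _ fun i hi => (hf i hi).1, fun K hK => ?_⟩
  choose! C hC using fun i (hi : i ∈ s) => (hf i hi).2 K hK
  exact ⟨∑ i ∈ s, C i, fun x hx => (norm_sum_le _ _).trans
    (Finset.sum_le_sum fun i hi => hC i hi x hx)⟩

theorem LB.const_mul {X : Type*} [TopologicalSpace X] [MeasurableSpace X] {f : X → ℂ}
    (hf : LB f) (c : ℂ) : LB fun x => c * f x := by
  refine ⟨measurable_const.mul hf.1, fun K hK => ?_⟩
  obtain ⟨C, hC⟩ := hf.2 K hK
  refine ⟨‖c‖ * C, fun x hx => ?_⟩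
  rw [norm_mul]
  exact mul_le_mul_of_nonneg_left (hC x hx) (norm_nonneg _)

theorem cmean_sum {κ : Type*} {b : Basis ι ℝ E} (s : Finset κ) {f : κ → E → ℂ}
    (hf : ∀ i ∈ s, LB (f i)) (h : ∀ i ∈ s, SPer b (f i)) :
    cmean μ (fun z => ∑ i ∈ s, f i z) = ∑ i ∈ s, cmean μ (f i) := by
  obtain ⟨n, hn, h1⟩ := SPer.exists_common s h
  have h2 : Per (sb b hn) (fun z => ∑ i ∈ s, f i z) := by
    intro x v hv
    exact Finset.sum_congr rfl fun i hi => (h1 i hi).per hn x v hv
  rw [cmean_eq μ (LB.sum s hf) h2, lm_sum μ _ s hf]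
  exact Finset.sum_congr rfl fun i hi => (cmean_eq μ (hf i hi) ((h1 i hi).per hn)).symm

end Fermat.Agent.H39Z
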