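import Fermat.Agent.H39ZC5
import Fermat.Agent.H59K5

/-!
# C5 on a `CSetup` (helper39, S47 C5)

The statements `final_E`, `final_F` for the data `PW C a` of helper59.
-/

set_option autoImplicit false
set_option linter.unusedSectionVars false

open IsDedekindDomain HeightOneSpectrum WithZero NumberField MeasureTheory

noncomputable section

namespace Fermat.Agent.H39Z

open Fermat.Agent.H59XF Fermat.Agent.H59D Fermat.Agent.H79S
open Fermat.Agent.H56Z (IsRC abel)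
open Fermat.Agent.H86B (CuspAll)
open Fermat.Agent.H59K (fk ixs kE kF nE it k1 IsK1 PW)

variable {F E : Type} [Field F] [NumberField F] [Field E] [NumberField E] [Algebra F E]
  {C : CSetup F E} {a : HeightOneSpectrum (𝓞 E) → ℝ}

theorem out_of_unit {K : Type*} [Field K] [NumberField K] {u : HeightOneSpectrum (𝓞 K)} {x : K}
    {p : ℕ} (hx : x = -(p : K)) {L : HeightOneSpectrum (𝓞 K) → Subgroup (Matrix.ProjGenLinGroup (Fin 2) K)}
    (h : u.valuation K x = 1 ∧ ∃ n : ℕ, Gam u n ≤ L u ∧ u.valuation K (x - 1) ≤ exp (-(n : ℤ))) :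
    u.valuation K (p : K) = 1 ∧ ∃ n : ℕ, Gam u n ≤ L u ∧
      u.valuation K ((p : K) + 1) ≤ exp (-(n : ℤ)) := by
  obtain ⟨h1, n, h2, h3⟩ := h
  subst hx
  refine ⟨by rwa [Valuation.map_neg] at h1, n, h2, ?_⟩
  have e : -(p : K) - 1 = -((p : K) + 1) := by ring
  rwa [e, Valuation.map_neg] at h3

theorem pdata_E (P : PW C a) : PData C.mE C.SE C.w0 P.w P.p where
  pos := P.prime.pos
  good i := ⟨P.w_SE i, P.w_ne i⟩
  nrm := P.nE
  val i := by
    have h := P.valE i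
    rwa [P.uE_eq, Valuation.map_neg] at h
  out u hu := out_of_unit P.uE_eq (L := C.mE.L.U) (P.farE u hu)

theorem pdata_F (P : PW C a) : PData C.mF C.SF C.v0 (fun _ => P.v) P.p where
  pos := P.prime.pos
  good i := ⟨P.v_SF, P.v_ne⟩
  nrm _ := P.nF
  val _ := by
    have h := P.valF
    rwa [P.uF_eq, Valuation.map_neg] at h
  out u hu := out_of_unit P.uF_eq (L := C.mF.L.U) (P.farF u (hu 0))

/-- **C5 over `E`.** -/
theorem setup_E (P : PW C a) {k : ℕ → ℝ → ℝ} (hk : ∀ i, IsK1 (k i))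
    (hs : ∀ n (u : Fin 1 → ℝ), abel (k1 (k (n + 1))) u =
      abel (k1 (k n)) (u + fun _ => Real.log P.p) + abel (k1 (k n)) (u - fun _ => Real.log P.p)) :
    H17S.C5 C.mE ixs (kE ((P.p : ℝ) ^ 2) k) (fun n => C.kE.D.mono (nE P.w n) 0) ∧
      ∀ a0 : (Fin 3 → ℝ) → ℂ, IsRC a0 →
        CuspAll C.mE (fk C.mE ixs (fun n => it a0 1 (kE ((P.p : ℝ) ^ 2) k n))
          (fun n => C.kE.D.mono (nE P.w n) 0)) :=
  final_E C.kE P.w_inj (pdata_E P) rfl hk hs

/-- **C5 over `F`.** -/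
theorem setup_F (P : PW C a) {k : ℕ → ℝ → ℝ} (hk : ∀ i, IsK1 (k i))
    (hs : ∀ n (u : Fin 1 → ℝ), abel (k1 (k (n + 1))) u =
      abel (k1 (k n)) (u + fun _ => Real.log P.p) + abel (k1 (k n)) (u - fun _ => Real.log P.p)) :
    H17S.C5 C.mF ixs (kF ((P.p : ℝ) ^ 2) k) (fun n => C.kF.D.mono (nE (fun _ => P.v) n) 0) ∧
      ∀ a0 : (Fin 1 → ℝ) → ℂ, IsRC a0 →
        CuspAll C.mF (fk C.mF ixs (fun n => it a0 1 (kF ((P.p : ℝ) ^ 2) k n))
          (fun n => C.kF.D.mono (nE (fun _ => P.v) n) 0)) :=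
  final_F C.kF (pdata_F P) rfl hk hs

end Fermat.Agent.H39Z
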