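import Mathlib

/-!
# The universal polynomial of the operator `aleph` (helper39, S47 C5)

For commuting units `v a` there is one polynomial `P` with integer coefficients such that
`P (v a + (v a)⁻¹) = ∏ over all sign patterns of (f (v a ^ ±1))`.
-/

set_option autoImplicit false
set_option linter.unusedSectionVars false

noncomputable section

open MvPolynomial

namespace Fermat.Agent.H39Z

variable {ι : Type} [DecidableEq ι]

/-- invert the units with indices in `T` -/
def flip {R : Type*} [CommRing R] (T : Finset ι) (v : ι → Rˣ) : ι → Rˣ :=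
  fun a => if a ∈ T then (v a)⁻¹ else v a

/-- the assignment: `v a + (v a)⁻¹` for `a ∈ S`, `v a` otherwise -/
def asg {R : Type*} [CommRing R] (S : Finset ι) (v : ι → Rˣ) : ι → R :=
  fun a => if a ∈ S then (v a : R) + ((v a)⁻¹ : Rˣ) else v a

theorem asg_flip_of_subset {R : Type*} [CommRing R] {S T : Finset ι} (hT : T ⊆ S) (v : ι → Rˣ) :
    asg S (flip T v) = asg S v := by
  funext a
  unfold asg flip
  split_ifs with h1 h2 h2
  · rw [inv_inv, add_comm]
  · rfl
  · exact absurd (hT h2) h1
  · rfl

theorem flip_flip_insert {R : Type*} [CommRing R] {T : Finset ι} {i : ι} (hi : i ∉ T)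
    (v : ι → Rˣ) : flip T (flip {i} v) = flip (insert i T) v := by
  funext a
  unfold flip
  by_cases ha : a = i
  · subst ha
    simp [hi]
  · by_cases haT : a ∈ T <;> simp [ha, haT]

theorem flip_empty {R : Type*} [CommRing R] (v : ι → Rˣ) : flip ∅ v = v := by
  funext a
  simp [flip]

/-- reduction of one variable: `F = a + b v i`. -/
theorem exists_linear (S : Finset ι) {i : ι} (hi : i ∉ S) (F : MvPolynomial ι ℤ) :
    ∃ a b : MvPolynomial ι ℤ, ∀ (R : Type) [CommRing R] (v : ι → Rˣ),
      aeval (asg S v) F = aeval (asg (insert i S) v) a + (v i : R) * aeval (asg (insert i S) v) b := by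
  induction F using MvPolynomial.induction_on with
  | C n =>
    refine ⟨C n, 0, fun R _ v => ?_⟩
    simp
  | add p q hp hq =>
    obtain ⟨a, b, hab⟩ := hp
    obtain ⟨a', b', hab'⟩ := hq
    refine ⟨a + a', b + b', fun R _ v => ?_⟩
    rw [map_add, map_add, map_add, hab, hab']
    ring
  | mul_X p j hp =>
    obtain ⟨a, b, hab⟩ := hp
    by_cases hj : j = i
    · subst hj
      refine ⟨-b, a + b * X j, fun R _ v => ?_⟩
      rw [map_mul, hab, aeval_X, map_neg, map_add, map_mul, aeval_X]
      have h1 : asg S v j = (v j : R) := by simp [asg, hi]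
      have h2 : asg (insert j S) v j = (v j : R) + ((v j)⁻¹ : Rˣ) := by simp [asg]
      have h3 : (v j : R) * ((v j)⁻¹ : Rˣ) = 1 := Units.mul_inv _
      rw [h1, h2]
      linear_combination (-(aeval (asg (insert j S) v)) b) * h3
    · refine ⟨a * X j, b * X j, fun R _ v => ?_⟩
      rw [map_mul, hab, aeval_X, map_mul, map_mul, aeval_X]
      have h1 : asg (insert i S) v j = asg S v j := by simp [asg, hj]
      rw [h1]
      ring

/-- one step of the norm -/
theorem exists_norm_step (S : Finset ι) {i : ι} (hi : i ∉ S) (F : MvPolynomial ι ℤ) :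
    ∃ G : MvPolynomial ι ℤ, ∀ (R : Type) [CommRing R] (v : ι → Rˣ),
      aeval (asg (insert i S) v) G = aeval (asg S v) F * aeval (asg S (flip {i} v)) F := by
  obtain ⟨a, b, hab⟩ := exists_linear S hi F
  refine ⟨a ^ 2 + a * b * X i + b ^ 2, fun R _ v => ?_⟩
  have h0 : asg (insert i S) (flip {i} v) = asg (insert i S) v :=
    asg_flip_of_subset (Finset.singleton_subset_iff.mpr (Finset.mem_insert_self i S)) v
  rw [hab R v, hab R (flip {i} v), h0]
  have h1 : ((flip {i} v i : Rˣ) : R) = ((v i)⁻¹ : Rˣ) := by simp [flip]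
  have h2 : asg (insert i S) v i = (v i : R) + ((v i)⁻¹ : Rˣ) := by simp [asg]
  have h3 : (v i : R) * ((v i)⁻¹ : Rˣ) = 1 := Units.mul_inv _
  rw [h1, map_add, map_add, map_mul, map_mul, aeval_X, map_pow, map_pow, h2]
  linear_combination (-(aeval (asg (insert i S) v)) b ^ 2) * h3

/-- **The norm polynomial.** -/
theorem exists_norm (S : Finset ι) (f : MvPolynomial ι ℤ) :
    ∃ P : MvPolynomial ι ℤ, ∀ (R : Type) [CommRing R] (v : ι → Rˣ),
      aeval (asg S v) P = ∏ T ∈ S.powerset, aeval (fun a => ((flip T v a : Rˣ) : R)) f := by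
  induction S using Finset.induction_on with
  | empty =>
    refine ⟨f, fun R _ v => ?_⟩
    rw [Finset.powerset_empty, Finset.prod_singleton, flip_empty]
    congr 1
  | insert i S hi ih =>
    obtain ⟨F, hF⟩ := ih
    obtain ⟨G, hG⟩ := exists_norm_step S hi F
    refine ⟨G, fun R _ v => ?_⟩
    rw [hG R v, hF R v, hF R (flip {i} v), Finset.prod_powerset_insert hi]
    congr 1
    refine Finset.prod_congr rfl fun T hT => ?_
    rw [flip_flip_insert (fun h => hi (Finset.mem_powerset.mp hT h))]

/-- **The aleph polynomial**: `P (v + v⁻¹) = ∏_T (1 - ∏ a, (flip T v) a)`. -/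
theorem exists_aleph (ι : Type) [Fintype ι] [DecidableEq ι] : ∃ P : MvPolynomial ι ℤ,
    ∀ (R : Type) [CommRing R] (v : ι → Rˣ),
      aeval (fun a => (v a : R) + ((v a)⁻¹ : Rˣ)) P =
        ∏ T : Finset ι, (1 - ∏ a, ((flip T v a : Rˣ) : R)) := by
  obtain ⟨P, hP⟩ := exists_norm (Finset.univ : Finset ι) (1 - ∏ a, X a)
  refine ⟨P, fun R _ v => ?_⟩
  have h := hP R v
  have h1 : asg Finset.univ v = fun a => (v a : R) + ((v a)⁻¹ : Rˣ) := by
    funext a
    simp [asg]
  rw [h1, Finset.powerset_univ] at h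
  rw [h]
  refine Finset.prod_congr rfl fun T _ => ?_
  simp

end Fermat.Agent.H39Z
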