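import Fermat.Agent.H3S17Det

/-!
# The unit ideal certificate (helper3, S17-E7, algebraic part)

`B` is a Dedekind domain over an algebraically closed field `K`, free of finite rank over `K[X]`
through `X ↦ x`. For `y ∈ B` let `χ_y ∈ K[X][Y]` be its characteristic polynomial over `K[X]`.

* `map_chi`   : `χ_y(a, Y) = ∏ (Y - y(P))`, the product over the fibre of `x` over `a`;
* `psi`, `G`  : `χ_y(T, y) = (T - x) G_y(T)` in `B[T]`;
* `span_G_eq_top` : if `W` generates `B`, the `G_y`, `y ∈ W`, generate the unit ideal of `B[T]`.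
-/

set_option autoImplicit false

open Polynomial

namespace Fermat.Agent.H3S17

section NSS

variable {K C : Type*} [Field K] [IsAlgClosed K] [CommRing C] [Algebra K C]

/-- weak Nullstellensatz -/
theorem exists_algHom_of_ne_top [Algebra.FiniteType K C] {I : Ideal C} (hI : I ≠ ⊤) :
    ∃ φ : C →ₐ[K] K, I ≤ RingHom.ker φ := by
  obtain ⟨m, hm, hle⟩ := Ideal.exists_le_maximal I hI
  let _ : Field (C ⧸ m) := Ideal.Quotient.field m
  have h1 : Algebra.FiniteType K (C ⧸ m) :=
    Algebra.FiniteType.of_surjective (Ideal.Quotient.mkₐ K m) Ideal.Quotient.mk_surjective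
  have h2 : Module.Finite K (C ⧸ m) := finite_of_finite_type_of_isJacobsonRing K (C ⧸ m)
  have h3 : Algebra.IsIntegral K (C ⧸ m) := Algebra.IsIntegral.of_finite K _
  have hbij : Function.Bijective (algebraMap K (C ⧸ m)) :=
    IsAlgClosed.algebraMap_bijective_of_isIntegral
  let e : K ≃ₐ[K] (C ⧸ m) := AlgEquiv.ofBijective (Algebra.ofId K (C ⧸ m)) hbij
  refine ⟨(e.symm : (C ⧸ m) →ₐ[K] K).comp (Ideal.Quotient.mkₐ K m), ?_⟩
  intro b hb
  rw [RingHom.mem_ker]
  show e.symm (Ideal.Quotient.mk m b) = 0
  rw [EmbeddingLike.map_eq_zero_iff, Ideal.Quotient.eq_zero_iff_mem]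
  exact hle hb

theorem exists_algHom_ker_eq [Algebra.FiniteType K C] {m : Ideal C} (hm : m.IsMaximal) :
    ∃ φ : C →ₐ[K] K, RingHom.ker φ = m := by
  obtain ⟨φ, hφ⟩ := exists_algHom_of_ne_top (K := K) hm.ne_top
  have hne : RingHom.ker φ ≠ ⊤ := (RingHom.ker_isMaximal_of_surjective φ fun c =>
    ⟨algebraMap K C c, φ.commutes c⟩).ne_top
  exact ⟨φ, (hm.eq_of_le hne hφ).symm⟩

theorem exists_multiset_ker [IsDedekindDomain C] [Algebra.FiniteType K C] {I : Ideal C}
    (hI : I ≠ ⊥) : ∃ A : Multiset (C →ₐ[K] K), (A.map fun ρ => RingHom.ker ρ).prod = I := by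
  induction I using UniqueFactorizationMonoid.induction_on_prime with
  | h₁ => exact absurd rfl hI
  | h₂ I hu =>
    refine ⟨0, ?_⟩
    rw [Multiset.map_zero, Multiset.prod_zero]
    exact (Ideal.one_eq_top.trans (Ideal.isUnit_iff.mp hu).symm)
  | h₃ I P hI0 hP ih =>
    have hIbot : I ≠ ⊥ := hI0
    obtain ⟨A, hA⟩ := ih hIbot
    have hPprime : P.IsPrime := Ideal.isPrime_of_prime hP
    have hPmax : P.IsMaximal := hPprime.isMaximal hP.ne_zero
    obtain ⟨ρ, hρ⟩ := exists_algHom_ker_eq (K := K) hPmax
    refine ⟨ρ ::ₘ A, ?_⟩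
    rw [Multiset.map_cons, Multiset.prod_cons, hA, hρ]

end NSS

section Union

variable {K V : Type*} [Field K] [Infinite K] [AddCommGroup V] [Module K V]

/-- A subspace covered by finitely many subspaces is contained in one of them. -/
theorem exists_le_of_forall_exists {ι : Type*} (S : Finset ι) (U : ι → Submodule K V)
    (W : Submodule K V) (h : ∀ w ∈ W, ∃ i ∈ S, w ∈ U i) : ∃ i ∈ S, W ≤ U i := by
  obtain ⟨i, hi⟩ := Subspace.exists_eq_top_of_iUnion_eq_univ
    (p := fun i : S => (U i).comap W.subtype) (by
      rw [Set.eq_univ_iff_forall]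
      intro w
      obtain ⟨i, hi, hw⟩ := h w w.2
      exact Set.mem_iUnion.mpr ⟨⟨i, hi⟩, hw⟩)
  refine ⟨i, i.2, fun w hw => ?_⟩
  have : (⟨w, hw⟩ : W) ∈ (U i).comap W.subtype := by
    rw [hi]; exact Submodule.mem_top
  exact this

end Union

section Cert

variable {K B : Type*} [Field K] [CommRing B] [Algebra K B] (x : B)
  {ι : Type*} [Fintype ι] [DecidableEq ι]

/-- `B` as an algebra over `K[X]` through `x`. -/
@[reducible] noncomputable def polyAlg (x : B) : Algebra K[X] B :=
  (aeval x : K[X] →ₐ[K] B).toRingHom.toAlgebra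

variable (b : letI := polyAlg (K := K) x; Module.Basis ι K[X] B)

/-- matrix of multiplication -/
noncomputable def mat (y : B) : Matrix ι ι K[X] :=
  letI := polyAlg (K := K) x
  Algebra.leftMulMatrix b y

/-- the characteristic polynomial of `y` over `K[X]`. -/
noncomputable def chi (y : B) : K[X][X] := (mat x b y).charpoly

theorem chi_monic (y : B) : (chi x b y).Monic := Matrix.charpoly_monic _

theorem natDegree_chi [Nontrivial B] (y : B) : (chi x b y).natDegree = Fintype.card ι := by
  exact Matrix.charpoly_natDegree_eq_dim _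

/-- Cayley-Hamilton -/
theorem eval₂_chi (y : B) : (chi x b y).eval₂ (aeval x : K[X] →ₐ[K] B).toRingHom y = 0 := by
  let _ := polyAlg (K := K) x
  have h1 : aeval (Algebra.leftMulMatrix b y) (Algebra.leftMulMatrix b y).charpoly = 0 :=
    Matrix.aeval_self_charpoly _
  rw [Polynomial.aeval_algHom_apply] at h1
  have h2 := Algebra.leftMulMatrix_injective b (h1.trans (map_zero _).symm)
  exact h2

theorem mat_sub (a : K) (y : B) :
    (mat x b (algebraMap K B a - y)) = Matrix.scalar ι (C a) - mat x b y := by
  let _ := polyAlg (K := K) x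
  have : IsScalarTower K K[X] B := IsScalarTower.of_algebraMap_eq fun c => by
    show _ = aeval x (C c)
    rw [aeval_C]
  show Algebra.leftMulMatrix b _ = _
  rw [map_sub]
  congr 1
  have h1 : algebraMap K B a = algebraMap K[X] B (C a) := by
    show _ = aeval x (C a)
    rw [aeval_C]
  rw [h1, AlgHom.commutes]
  rfl

/-- specialisation of the characteristic polynomial -/
theorem map_chi [IsAlgClosed K] [IsDedekindDomain B] (a : K) (A : Multiset (B →ₐ[K] K))
    (hA : (A.map fun ρ => RingHom.ker ρ).prod = Ideal.span {x - algebraMap K B a})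
    (hxa : x - algebraMap K B a ≠ 0) (y : B) :
    (chi x b y).map (evalRingHom a) = (A.map fun ρ => (X - C (ρ y))).prod := by
  classical
  let _ := polyAlg (K := K) x
  have : IsScalarTower K K[X] B := IsScalarTower.of_algebraMap_eq fun c => by
    show _ = aeval x (C c)
    rw [aeval_C]
  have hbot : ∀ ρ ∈ A, RingHom.ker ρ ≠ ⊥ := by
    intro ρ hρ h0
    apply hxa
    rw [← Ideal.span_singleton_eq_bot, ← hA]
    have : RingHom.ker ρ ∈ A.map fun ρ => RingHom.ker ρ := Multiset.mem_map_of_mem _ hρ
    rw [h0] at this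
    exact Multiset.prod_eq_zero this
  have key : ∀ y : B, ((mat x b y).map (evalRingHom a)).det = (A.map fun ρ => ρ y).prod := by
    intro y
    rw [← (dt_prod A hbot y).2, hA]
    have h1 : x - algebraMap K B a = algebraMap K[X] B (X - C a) := by
      show _ = aeval x (X - C a)
      rw [map_sub, aeval_X, aeval_C]
    rw [h1, dt_span_eq b (aeval a : K[X] →ₐ[K] K) (X - C a) (fun p => ?_) y]
    · rfl
    · rw [Polynomial.coe_aeval_eq_eval, ← IsRoot.def, ← dvd_iff_isRoot]
      rfl
  apply Polynomial.funext
  intro c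
  rw [eval_multiset_prod, Multiset.map_map]
  have h1 : ((chi x b y).map (evalRingHom a)).eval c =
      ((mat x b (algebraMap K B c - y)).map (evalRingHom a)).det := by
    rw [mat_sub, chi, ← Matrix.charpoly_map, Matrix.eval_charpoly]
    congr 1
    ext i j
    by_cases hij : i = j
    · subst hij
      simp
    · simp [Matrix.scalar_apply, Matrix.diagonal_apply_ne _ hij]
  rw [h1, key]
  congr 1
  refine Multiset.map_congr rfl fun ρ _ => ?_
  rw [Function.comp_apply, map_sub, ρ.commutes, eval_sub, eval_X, eval_C]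
  rfl

/-- `χ_y(T, y) ∈ B[T]` -/
noncomputable def psi (y : B) : B[X] := (chi x b y).eval₂ (mapRingHom (algebraMap K B)) (C y)

theorem eval_psi_self (y : B) : (psi x b y).eval x = 0 := by
  have h1 := eval₂_chi x b y
  rw [psi, ← Polynomial.coe_evalRingHom, Polynomial.hom_eval₂, ← h1]
  congr 1
  · ext c <;> simp
  · simp

theorem eval_psi_algebraMap (a : K) (y : B) : (psi x b y).eval (algebraMap K B a) =
    aeval y ((chi x b y).map (evalRingHom a)) := by
  rw [psi, ← Polynomial.coe_evalRingHom, Polynomial.hom_eval₂, aeval_def, eval₂_map]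
  congr 1
  · ext c <;> simp
  · simp

/-- `G_y = χ_y(T, y) / (T - x)` -/
noncomputable def G (y : B) : B[X] := psi x b y /ₘ (X - C x)

theorem mul_G (y : B) : (X - C x) * G x b y = psi x b y :=
  mul_divByMonic_eq_iff_isRoot.mpr (eval_psi_self x b y)

omit [DecidableEq ι] in
include b in
theorem finiteType_of_basis : Algebra.FiniteType K B := by
  let _ := polyAlg (K := K) x
  have : IsScalarTower K K[X] B := IsScalarTower.of_algebraMap_eq fun c => by
    show _ = aeval x (C c)
    rw [aeval_C]
  have h1 : Module.Finite K[X] B := Module.Finite.of_basis b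
  have h2 : Algebra.FiniteType K[X] B := inferInstance
  exact Algebra.FiniteType.trans (S := K[X]) inferInstance h2

theorem span_G_eq_top [IsAlgClosed K] [IsDedekindDomain B] (hx : Transcendental K x)
    (W : Submodule K B) (hW : Algebra.adjoin K (W : Set B) = ⊤) :
    Ideal.span (Set.range fun y : W => G x b (y : B)) = ⊤ := by
  classical
  by_contra hne
  have hft : Algebra.FiniteType K B := finiteType_of_basis x b
  have hftX : Algebra.FiniteType K B[X] := Algebra.FiniteType.trans (S := B) hft inferInstance
  obtain ⟨φ, hφ⟩ := exists_algHom_of_ne_top (K := K) hne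
  have hGφ : ∀ y ∈ W, φ (G x b y) = 0 := fun y hy =>
    RingHom.mem_ker.mp (hφ (Ideal.subset_span ⟨⟨y, hy⟩, rfl⟩))
  let ρ : B →ₐ[K] K := φ.comp (IsScalarTower.toAlgHom K B B[X])
  have hρ : ∀ f : B, ρ f = φ (C f) := fun f => rfl
  set b₀ : K := φ X with hb₀
  have hφp : ∀ p : B[X], φ p = ρ (p.eval (algebraMap K B b₀)) := by
    intro p
    induction p using Polynomial.induction_on with
    | C a => rw [eval_C, hρ]
    | add p q hp hq => rw [map_add, eval_add, map_add, hp, hq]
    | monomial n a _ =>
      rw [map_mul, map_pow, ← hb₀, eval_mul, eval_C, eval_pow, eval_X, map_mul, map_pow,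
        ρ.commutes, hρ]
      rfl
  set m : Ideal B := RingHom.ker ρ with hm
  have hmax : m.IsMaximal := RingHom.ker_isMaximal_of_surjective ρ fun c =>
    ⟨algebraMap K B c, ρ.commutes c⟩
  have hmbot : m ≠ ⊥ := by
    intro h0
    apply hx
    have h1 : x - algebraMap K B (ρ x) ∈ m := by
      rw [hm, RingHom.mem_ker, map_sub, ρ.commutes]
      show ρ x - ρ x = 0
      rw [sub_self]
    rw [h0, Ideal.mem_bot, sub_eq_zero] at h1
    rw [h1]
    exact isAlgebraic_algebraMap _
  have hxa : x - algebraMap K B b₀ ≠ 0 := by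
    intro h
    apply hx
    rw [sub_eq_zero.mp h]
    exact isAlgebraic_algebraMap _
  obtain ⟨A, hA⟩ := exists_multiset_ker (K := K) (C := B) (I := Ideal.span {x - algebraMap K B b₀})
    (by rwa [ne_eq, Ideal.span_singleton_eq_bot])
  -- the subspaces
  let U : Option (B →ₐ[K] K) → Submodule K B := fun o => match o with
    | none =>
      { carrier := {y | y - algebraMap K B (ρ y) ∈ m ^ 2}
        zero_mem' := by
          show (0 : B) - algebraMap K B (ρ 0) ∈ m ^ 2
          rw [map_zero, map_zero, sub_zero]
          exact zero_mem _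
        add_mem' := fun {y z} hy hz => by
          show (y + z) - algebraMap K B (ρ (y + z)) ∈ m ^ 2
          have : (y + z) - algebraMap K B (ρ (y + z)) =
            (y - algebraMap K B (ρ y)) + (z - algebraMap K B (ρ z)) := by
              rw [map_add, map_add]; ring
          rw [this]
          exact add_mem hy hz
        smul_mem' := fun c y hy => by
          show c • y - algebraMap K B (ρ (c • y)) ∈ m ^ 2
          have : c • y - algebraMap K B (ρ (c • y)) =
            algebraMap K B c * (y - algebraMap K B (ρ y)) := by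
              rw [map_smul, smul_eq_mul, map_mul, Algebra.smul_def]; ring
          rw [this]
          exact Ideal.mul_mem_left _ _ hy }
    | some σ => LinearMap.ker (σ.toLinearMap - ρ.toLinearMap)
  let S : Finset (Option (B →ₐ[K] K)) :=
    insert none ((A.toFinset.filter fun σ => σ ≠ ρ).image some)
  have hcov : ∀ y ∈ W, ∃ i ∈ S, y ∈ U i := by
    intro y hy
    by_contra hcon
    push Not at hcon
    have h1 : y - algebraMap K B (ρ y) ∉ m ^ 2 := hcon none (Finset.mem_insert_self _ _)
    have h2 : ∀ σ ∈ A, σ ≠ ρ → σ y ≠ ρ y := by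
      intro σ hσ hσρ h
      apply hcon (some σ)
      · refine Finset.mem_insert_of_mem (Finset.mem_image_of_mem _ ?_)
        rw [Finset.mem_filter, Multiset.mem_toFinset]
        exact ⟨hσ, hσρ⟩
      · show y ∈ LinearMap.ker (σ.toLinearMap - ρ.toLinearMap)
        rw [LinearMap.mem_ker, LinearMap.sub_apply]
        show σ y - ρ y = 0
        rw [h, sub_self]
    let w : IsDedekindDomain.HeightOneSpectrum B := ⟨m, hmax.isPrime, hmbot⟩
    set e := A.count ρ with he
    have hsplit : A = Multiset.replicate e ρ + A.filter (fun σ => ¬ (σ = ρ)) := by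
      have h0 := Multiset.filter_add_not (fun σ => σ = ρ) A
      have h0' : A.filter (fun σ => σ = ρ) = Multiset.replicate e ρ := by
        rw [he]
        convert Multiset.filter_eq' A ρ
      rw [h0'] at h0
      exact h0.symm
    have h3 : psi x b y = (X - C x) * G x b y := (mul_G x b y).symm
    have h4 := congrArg (Polynomial.eval (algebraMap K B b₀)) h3
    rw [eval_psi_algebraMap, map_chi x b b₀ A hA hxa, eval_mul, eval_sub, eval_X, eval_C,
      map_multiset_prod, Multiset.map_map] at h4
    have h5 : (A.map ((aeval y : K[X] →ₐ[K] B) ∘ fun σ : B →ₐ[K] K => X - C (σ y))).prod =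
        (A.map fun σ => y - algebraMap K B (σ y)).prod := by
      congr 1
      refine Multiset.map_congr rfl fun σ _ => ?_
      rw [Function.comp_apply, map_sub, aeval_X, aeval_C]
    rw [h5] at h4
    have h6 : (A.map fun σ => y - algebraMap K B (σ y)).prod =
        (y - algebraMap K B (ρ y)) ^ e *
          ((A.filter (fun σ => ¬ (σ = ρ))).map fun σ => y - algebraMap K B (σ y)).prod := by
      conv_lhs => rw [hsplit]
      rw [Multiset.map_add, Multiset.prod_add, Multiset.map_replicate, Multiset.prod_replicate]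
    have h7 : ((A.filter (fun σ => ¬ (σ = ρ))).map fun σ => y - algebraMap K B (σ y)).prod ∉ m := by
      intro h
      have hp := hmax.isPrime
      obtain ⟨z, hz, hzm⟩ := (Ideal.IsPrime.multiset_prod_mem_iff_exists_mem hp _).mp h
      obtain ⟨σ, hσ, rfl⟩ := Multiset.mem_map.mp hz
      rw [Multiset.mem_filter] at hσ
      rw [hm, RingHom.mem_ker, map_sub, ρ.commutes] at hzm
      have h8 : ρ y - σ y = 0 := hzm
      exact h2 σ hσ.1 hσ.2 (sub_eq_zero.mp h8).symm
    have h8 : x - algebraMap K B b₀ ∈ m ^ e := by
      have h9 : Ideal.span {x - algebraMap K B b₀} ≤ m ^ e := by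
        rw [← hA]
        conv_lhs => rw [hsplit]
        rw [Multiset.map_add, Multiset.prod_add, Multiset.map_replicate, Multiset.prod_replicate]
        exact Ideal.mul_le_left
      exact h9 (Ideal.mem_span_singleton_self _)
    have h9 : (algebraMap K B b₀ - x) * (G x b y).eval (algebraMap K B b₀) ∈ m ^ (e + 1) := by
      rw [pow_succ]
      refine Ideal.mul_mem_mul ?_ ?_
      · rw [← neg_sub]
        exact neg_mem h8
      · rw [hm, RingHom.mem_ker]
        have := hGφ y hy
        rw [hφp] at this
        exact this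
    rw [← h4, h6] at h9
    have h10 : w.intValuation ((y - algebraMap K B (ρ y)) ^ e *
          ((A.filter (fun σ => ¬ (σ = ρ))).map fun σ => y - algebraMap K B (σ y)).prod) ≤
        WithZero.exp (-((e + 1 : ℕ) : ℤ)) :=
      (w.intValuation_le_pow_iff_mem _ _).mpr h9
    have h11 : w.intValuation (((A.filter (fun σ => ¬ (σ = ρ))).map
        fun σ => y - algebraMap K B (σ y)).prod) = 1 :=
      (w.intValuation_eq_one_iff).mpr h7
    have hym : y - algebraMap K B (ρ y) ∈ m := by
      rw [hm, RingHom.mem_ker, map_sub, ρ.commutes]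
      show ρ y - ρ y = 0
      rw [sub_self]
    have hy0 : y - algebraMap K B (ρ y) ≠ 0 := fun h => h1 (h ▸ zero_mem _)
    have h12 : w.intValuation (y - algebraMap K B (ρ y)) = WithZero.exp (-1 : ℤ) := by
      have h13 : w.intValuation (y - algebraMap K B (ρ y)) ≤ WithZero.exp (-((1 : ℕ) : ℤ)) :=
        (w.intValuation_le_pow_iff_mem _ _).mpr (by rwa [pow_one])
      have h14 : ¬ w.intValuation (y - algebraMap K B (ρ y)) ≤ WithZero.exp (-((2 : ℕ) : ℤ)) :=
        fun h => h1 ((w.intValuation_le_pow_iff_mem _ _).mp h)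
      have h15 : w.intValuation (y - algebraMap K B (ρ y)) ≠ 0 := w.intValuation_ne_zero _ hy0
      rw [← WithZero.exp_log h15, WithZero.exp_le_exp] at h13 h14
      rw [← WithZero.exp_log h15]
      congr 1
      push_cast at h13 h14
      omega
    rw [map_mul, map_pow, h11, h12, mul_one, ← WithZero.exp_nsmul, WithZero.exp_le_exp] at h10
    push_cast at h10
    simp only [nsmul_eq_mul] at h10
    omega
  obtain ⟨i, hi, hWi⟩ := exists_le_of_forall_exists S U W hcov
  rcases Finset.mem_insert.mp hi with rfl | hi
  · -- `W ⊆ K + m²`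
    have hWi' : ∀ y ∈ W, y - algebraMap K B (ρ y) ∈ m ^ 2 := fun y hy => hWi hy
    let SA : Subalgebra K B :=
      { carrier := {y | y - algebraMap K B (ρ y) ∈ m ^ 2}
        mul_mem' := fun {y z} hy hz => by
          show y * z - algebraMap K B (ρ (y * z)) ∈ m ^ 2
          have : y * z - algebraMap K B (ρ (y * z)) =
            (y - algebraMap K B (ρ y)) * z + algebraMap K B (ρ y) * (z - algebraMap K B (ρ z)) := by
              rw [map_mul, map_mul]; ring
          rw [this]
          exact add_mem (Ideal.mul_mem_right _ _ hy) (Ideal.mul_mem_left _ _ hz)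
        add_mem' := fun {y z} hy hz => by
          show (y + z) - algebraMap K B (ρ (y + z)) ∈ m ^ 2
          have : (y + z) - algebraMap K B (ρ (y + z)) =
            (y - algebraMap K B (ρ y)) + (z - algebraMap K B (ρ z)) := by
              rw [map_add, map_add]; ring
          rw [this]
          exact add_mem hy hz
        algebraMap_mem' := fun c => by
          show algebraMap K B c - algebraMap K B (ρ (algebraMap K B c)) ∈ m ^ 2
          rw [ρ.commutes]
          show algebraMap K B c - algebraMap K B c ∈ m ^ 2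
          rw [sub_self]
          exact zero_mem _ }
    have hSA : (⊤ : Subalgebra K B) ≤ SA := by
      rw [← hW]
      exact Algebra.adjoin_le hWi'
    have hle : m ≤ m ^ 2 := by
      intro y hy
      have h1 : y - algebraMap K B (ρ y) ∈ m ^ 2 := hSA (Algebra.mem_top (x := y))
      rwa [RingHom.mem_ker.mp hy, map_zero, sub_zero] at h1
    have hlt : m ^ 2 < m := by
      have := Ideal.pow_right_strictAnti m hmbot hmax.ne_top (show 1 < 2 by norm_num)
      simpa using this
    exact absurd hle (not_le_of_gt hlt)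
  · obtain ⟨σ, hσ, rfl⟩ := Finset.mem_image.mp hi
    rw [Finset.mem_filter] at hσ
    apply hσ.2
    have h1 : (⊤ : Subalgebra K B) ≤ AlgHom.equalizer σ ρ := by
      rw [← hW]
      refine Algebra.adjoin_le fun y hy => ?_
      have h2 : y ∈ LinearMap.ker (σ.toLinearMap - ρ.toLinearMap) := hWi hy
      rw [LinearMap.mem_ker, LinearMap.sub_apply, sub_eq_zero] at h2
      exact h2
    ext y
    exact h1 (Algebra.mem_top (x := y))

end Cert

end Fermat.Agent.H3S17
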