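import Mathlib

/-!
# Determinant of multiplication on quotients of Dedekind domains (helper3)

For a Dedekind `K`-algebra `B` and an ideal `I = ∏ 𝔭_j` with all residue fields equal to `K`, the
determinant of multiplication by `f` on `B ⧸ I` is `∏ f(𝔭_j)`.
-/

set_option autoImplicit false

open Polynomial

namespace Fermat.Agent.H3S17

section Det

variable {K B : Type*} [Field K] [CommRing B] [Algebra K B]

variable (K) in
/-- multiplication by `f` on `B ⧸ I` as a `K`-linear map. -/
noncomputable def mulQ (I : Ideal B) (f : B) :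
    (B ⧸ I.restrictScalars K) →ₗ[K] (B ⧸ I.restrictScalars K) :=
  (I.restrictScalars K).mapQ (I.restrictScalars K) (LinearMap.mulLeft K f)
    (fun _ hb => I.mul_mem_left f hb)

theorem mulQ_mk (I : Ideal B) (f b : B) :
    mulQ K I f (Submodule.Quotient.mk b) = Submodule.Quotient.mk (f * b) := rfl

variable (K) in
/-- determinant of multiplication by `f` on `B ⧸ I` -/
noncomputable def dt (I : Ideal B) (f : B) : K := LinearMap.det (mulQ K I f)

theorem finite_top : Module.Finite K (B ⧸ (⊤ : Ideal B).restrictScalars K) := by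
  have : Subsingleton (B ⧸ (⊤ : Ideal B).restrictScalars K) := by
    rw [Submodule.Quotient.subsingleton_iff]
    rfl
  infer_instance

theorem dt_top (f : B) : dt K (⊤ : Ideal B) f = 1 := by
  have : Subsingleton (B ⧸ (⊤ : Ideal B).restrictScalars K) := by
    rw [Submodule.Quotient.subsingleton_iff]
    rfl
  rw [dt, LinearMap.det_eq_one_of_subsingleton]

/-- one step -/
theorem dt_step [IsDedekindDomain B] (ρ : B →ₐ[K] K) {J : Ideal B} (hJ : J ≠ ⊥)
    (hfin : Module.Finite K (B ⧸ J.restrictScalars K)) (f : B) :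
    Module.Finite K (B ⧸ (RingHom.ker ρ * J).restrictScalars K) ∧
      dt K (RingHom.ker ρ * J) f = ρ f * dt K J f := by
  classical
  set P : Ideal B := RingHom.ker ρ with hP
  have hmax : P.IsMaximal := RingHom.ker_isMaximal_of_surjective ρ fun c =>
    ⟨algebraMap K B c, ρ.commutes c⟩
  have hmemP : ∀ b : B, b - algebraMap K B (ρ b) ∈ P := by
    intro b
    rw [hP, RingHom.mem_ker, map_sub, ρ.commutes]
    show ρ b - ρ b = 0
    rw [sub_self]
  have hle : P * J ≤ J := Ideal.mul_le_right
  -- `J = K u + P J`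
  obtain ⟨u, huJ, huPJ⟩ : ∃ u ∈ J, u ∉ P * J := by
    by_contra hcon
    push Not at hcon
    have h1 : P * J = J := le_antisymm hle hcon
    have h2 : P * J = 1 * J := by rw [h1, one_mul]
    have h3 : P = 1 := mul_right_cancel₀ hJ h2
    exact hmax.ne_top (h3.trans Ideal.one_eq_top)
  have hgen : J = Ideal.span {u} ⊔ P * J := by
    have h1 : Ideal.span {u} ⊔ P * J ≤ J :=
      sup_le ((Ideal.span_singleton_le_iff_mem _).mpr huJ) hle
    obtain ⟨M, hM⟩ := Ideal.dvd_iff_le.mpr h1
    have h2 : P ≤ M := by
      have h3 : J * M ∣ J * P := by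
        rw [Ideal.dvd_iff_le, ← hM, mul_comm J P]
        exact le_sup_right
      exact Ideal.dvd_iff_le.mp ((mul_dvd_mul_iff_left hJ).mp h3)
    have h4 : M = ⊤ := by
      by_contra hne
      have h5 : P = M := hmax.eq_of_le hne h2
      apply huPJ
      have h6 : u ∈ Ideal.span {u} ⊔ P * J :=
        Ideal.mem_sup_left (Ideal.mem_span_singleton_self u)
      rwa [hM, ← h5, mul_comm] at h6
    rw [h4, Ideal.mul_top] at hM
    exact hM.symm
  set S : Submodule K B := (P * J).restrictScalars K with hS
  set T : Submodule K B := J.restrictScalars K with hT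
  have hST : S ≤ T := hle
  set W : Submodule K (B ⧸ S) := T.map S.mkQ with hW
  have hWspan : W = Submodule.span K {S.mkQ u} := by
    apply le_antisymm
    · rintro _ ⟨b, hb, rfl⟩
      have hb' : b ∈ Ideal.span {u} ⊔ P * J := hgen ▸ hb
      obtain ⟨b1, hb1, b2, hb2, rfl⟩ := Submodule.mem_sup.mp hb'
      obtain ⟨c, rfl⟩ := Ideal.mem_span_singleton'.mp hb1
      rw [Submodule.mem_span_singleton]
      refine ⟨ρ c, ?_⟩
      rw [← map_smul]
      refine (Submodule.Quotient.eq S).mpr ?_
      have h1 : ρ c • u - (c * u + b2) = -((c - algebraMap K B (ρ c)) * u) - b2 := by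
        rw [Algebra.smul_def]; ring
      rw [h1]
      exact sub_mem (neg_mem (Ideal.mul_mem_mul (hmemP c) huJ)) hb2
    · rw [Submodule.span_singleton_le_iff_mem]
      exact ⟨u, huJ, rfl⟩
  have hWfin : Module.Finite K W := by
    rw [hWspan]
    infer_instance
  have hune : S.mkQ u ≠ 0 := by
    intro h
    exact huPJ ((Submodule.Quotient.mk_eq_zero S).mp h)
  have hWrank : Module.finrank K W = 1 := by
    rw [hWspan]
    exact finrank_span_singleton hune
  let e : ((B ⧸ S) ⧸ W) ≃ₗ[K] (B ⧸ T) := Submodule.quotientQuotientEquivQuotient S T hST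
  have hQfin : Module.Finite K ((B ⧸ S) ⧸ W) := Module.Finite.equiv e.symm
  have hVfin : Module.Finite K (B ⧸ S) := Module.Finite.of_submodule_quotient W
  refine ⟨hVfin, ?_⟩
  have hWinv : W ≤ W.comap (mulQ K (P * J) f) := by
    rintro _ ⟨b, hb, rfl⟩
    exact ⟨f * b, J.mul_mem_left f hb, rfl⟩
  have hdet := LinearMap.det_eq_det_mul_det W (mulQ K (P * J) f) hWinv
  have h1 : (mulQ K (P * J) f).restrict (p := W) (q := W) (fun x hx => hWinv hx) =
      ρ f • LinearMap.id := by
    ext ⟨b, hb⟩
    obtain ⟨b, hb', rfl⟩ := hb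
    show S.mkQ (f * b) = ρ f • S.mkQ b
    rw [← map_smul]
    refine (Submodule.Quotient.eq S).mpr ?_
    have h2 : f * b - ρ f • b = (f - algebraMap K B (ρ f)) * b := by
      rw [Algebra.smul_def]; ring
    rw [h2]
    exact Ideal.mul_mem_mul (hmemP f) hb'
  have h2 : LinearMap.det (W.mapQ W (mulQ K (P * J) f) hWinv) = dt K J f := by
    rw [dt, ← LinearMap.det_conj (W.mapQ W (mulQ K (P * J) f) hWinv) e]
    congr 1
    ext b
    rfl
  rw [dt, hdet, h1, h2, LinearMap.det_smul, hWrank, pow_one, LinearMap.det_id, mul_one]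

/-- The determinant formula for a product of ideals with residue field `K`. -/
theorem dt_prod [IsDedekindDomain B] (A : Multiset (B →ₐ[K] K)) (hbot : ∀ ρ ∈ A, RingHom.ker ρ ≠ ⊥)
    (f : B) :
    Module.Finite K (B ⧸ ((A.map fun ρ => RingHom.ker ρ).prod : Ideal B).restrictScalars K) ∧
      dt K (A.map fun ρ => RingHom.ker ρ).prod f = (A.map fun ρ => ρ f).prod := by
  have key : (A.map fun ρ => RingHom.ker ρ).prod ≠ (⊥ : Ideal B) ∧
    Module.Finite K (B ⧸ ((A.map fun ρ => RingHom.ker ρ).prod : Ideal B).restrictScalars K) ∧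
      dt K (A.map fun ρ => RingHom.ker ρ).prod f = (A.map fun ρ => ρ f).prod := by
    induction A using Multiset.induction_on with
    | empty =>
      refine ⟨?_, ?_, ?_⟩
      · rw [Multiset.map_zero, Multiset.prod_zero]
        exact one_ne_zero
      · rw [Multiset.map_zero, Multiset.prod_zero, Ideal.one_eq_top]
        exact finite_top
      · rw [Multiset.map_zero, Multiset.prod_zero, Ideal.one_eq_top, dt_top, Multiset.map_zero,
          Multiset.prod_zero]
    | cons ρ A ih =>
      obtain ⟨h1, h2, h3⟩ := ih fun σ hσ => hbot σ (Multiset.mem_cons_of_mem hσ)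
      have h4 := hbot ρ (Multiset.mem_cons_self ρ A)
      obtain ⟨h5, h6⟩ := dt_step ρ h1 h2 f
      rw [Multiset.map_cons, Multiset.prod_cons, Multiset.map_cons, Multiset.prod_cons]
      refine ⟨?_, h5, ?_⟩
      · rw [ne_eq, Ideal.mul_eq_bot]
        tauto
      · rw [h6, h3]
  exact key.2

end Det

section Basis

variable {K B A : Type*} [Field K] [CommRing B] [Algebra K B] [CommRing A] [Algebra A B]
  [Algebra K A] [IsScalarTower K A B] {ι : Type*} [Fintype ι] [DecidableEq ι]

/-- The determinant of multiplication on `B ⧸ tB` computed with a basis of `B` over `A`,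
where `A ⧸ tA = K`. -/
theorem dt_span_eq (b : Module.Basis ι A B) (ε : A →ₐ[K] K) (t : A)
    (hε : ∀ a : A, ε a = 0 ↔ ∃ a', a = t * a') (f : B) :
    dt K (Ideal.span {algebraMap A B t}) f = ((Algebra.leftMulMatrix b f).map ε).det := by
  classical
  set I : Ideal B := Ideal.span {algebraMap A B t} with hI
  set S : Submodule K B := I.restrictScalars K with hS
  have hεt : ε t = 0 := (hε t).mpr ⟨1, (mul_one t).symm⟩
  have hsub : ∀ a : A, ∃ a', a - algebraMap K A (ε a) = t * a' := by
    intro a
    rw [← hε, map_sub, ε.commutes]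
    show ε a - ε a = 0
    rw [sub_self]
  have hmemS : ∀ a : A, ∀ y : B, a • y - ε a • y ∈ S := by
    intro a y
    obtain ⟨a', ha'⟩ := hsub a
    have h1 : a • y - ε a • y = algebraMap A B t * (algebraMap A B a' * y) := by
      rw [← mul_assoc, ← map_mul, ← ha', map_sub, sub_mul, Algebra.smul_def, Algebra.smul_def,
        IsScalarTower.algebraMap_apply K A B]
    rw [h1]
    exact Ideal.mul_mem_right _ _ (Ideal.mem_span_singleton_self _)
  let bb : ι → B ⧸ S := fun i => Submodule.Quotient.mk (b i)
  have hli : LinearIndependent K bb := by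
    rw [Fintype.linearIndependent_iff]
    intro c hc i
    have h1 : S.mkQ (∑ i, c i • b i) = 0 := by
      rw [map_sum]
      simp only [map_smul]
      exact hc
    have h2 : (∑ i, c i • b i) ∈ S := (Submodule.Quotient.mk_eq_zero S).mp h1
    obtain ⟨y, hy⟩ := Ideal.mem_span_singleton'.mp (show (∑ i, c i • b i) ∈ I from h2)
    have h3 : ∑ j, algebraMap K A (c j) • b j = ∑ j, (t * b.repr y j) • b j := by
      have e1 : ∑ j, algebraMap K A (c j) • b j = ∑ j, c j • b j :=
        Finset.sum_congr rfl fun j _ => algebraMap_smul A (c j) (b j)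
      rw [e1, ← hy]
      conv_lhs => rw [← b.sum_repr y]
      rw [mul_comm, Finset.mul_sum]
      refine Finset.sum_congr rfl fun j _ => ?_
      rw [mul_smul, Algebra.smul_def t]
    have h4 : algebraMap K A (c i) = t * b.repr y i := by
      have h5 := congrArg (fun z => (b.repr z : ι → A) i) h3
      simpa only [b.repr_sum_self] using h5
    have h6 := congrArg ε h4
    rw [map_mul, hεt, zero_mul, ε.commutes] at h6
    exact h6
  have hsp : ⊤ ≤ Submodule.span K (Set.range bb) := by
    intro z _
    obtain ⟨y, rfl⟩ := Submodule.Quotient.mk_surjective _ z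
    have h1 : (Submodule.Quotient.mk y : B ⧸ S) = ∑ i, ε (b.repr y i) • bb i := by
      have h2 : S.mkQ (y - ∑ i, ε (b.repr y i) • b i) = 0 := by
        refine (Submodule.Quotient.mk_eq_zero S).mpr ?_
        have h3 : y - ∑ i, ε (b.repr y i) • b i =
            ∑ i, (b.repr y i • b i - ε (b.repr y i) • b i) := by
          rw [Finset.sum_sub_distrib, b.sum_repr]
        rw [h3]
        exact sum_mem fun i _ => hmemS _ _
      rw [map_sub, sub_eq_zero, map_sum] at h2
      simp only [map_smul] at h2
      exact h2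
    rw [h1]
    exact sum_mem fun i _ => Submodule.smul_mem _ _ (Submodule.subset_span ⟨i, rfl⟩)
  let β : Module.Basis ι K (B ⧸ S) := Module.Basis.mk hli hsp
  rw [dt, ← LinearMap.det_toMatrix β]
  congr 1
  ext i j
  rw [LinearMap.toMatrix_apply, Matrix.map_apply]
  have h1 : mulQ K I f (β j) = ∑ i, ε (Algebra.leftMulMatrix b f i j) • β i := by
    have h2 : β j = Submodule.Quotient.mk (b j) := by
      rw [Module.Basis.mk_apply]
    have h3 : f * b j = ∑ i, Algebra.leftMulMatrix b f i j • b i := by
      conv_lhs => rw [← b.sum_repr (f * b j)]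
      refine Finset.sum_congr rfl fun i _ => ?_
      rw [Algebra.leftMulMatrix_eq_repr_mul]
    rw [h2, mulQ_mk, h3]
    have h4 : S.mkQ (∑ i, Algebra.leftMulMatrix b f i j • b i) =
        S.mkQ (∑ i, ε (Algebra.leftMulMatrix b f i j) • b i) := by
      refine (Submodule.Quotient.eq S).mpr ?_
      rw [← Finset.sum_sub_distrib]
      exact sum_mem fun i _ => hmemS _ _
    refine h4.trans ?_
    rw [map_sum]
    refine Finset.sum_congr rfl fun i _ => ?_
    rw [map_smul, Module.Basis.mk_apply]
    rfl
  rw [h1, map_sum, Finsupp.finsetSum_apply, Finset.sum_eq_single i]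
  · rw [map_smul, Finsupp.smul_apply, β.repr_self, Finsupp.single_eq_same, smul_eq_mul, mul_one]
  · intro k _ hk
    rw [map_smul, Finsupp.smul_apply, β.repr_self, Finsupp.single_eq_of_ne (Ne.symm hk), smul_zero]
  · intro hi
    exact absurd (Finset.mem_univ i) hi

end Basis

end Fermat.Agent.H3S17
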