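import Fermat.Agent.H95Defs
import Fermat.Agent.H3RR_Special

/-!
# The affine ring of a curve minus a point is a weighted algebra (helper3)
-/

set_option autoImplicit false
set_option linter.unusedSectionVars false

open AlgebraicCurve WithZero Polynomial IntermediateField IsDedekindDomain
open Fermat.Agent.H3RR Fermat.Agent.H95

namespace Fermat.Agent.H3S27

variable {K F : Type*} [Field K] [Field F] [Algebra K F]

theorem map_ne_zero' {B : Type*} [CommRing B] [Algebra B F]
    (hinj : Function.Injective (algebraMap B F)) {b : B} (hb : b ≠ 0) :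
    algebraMap B F b ≠ 0 := fun h => hb (hinj (by rw [h, map_zero]))

/-- `B` is the ring of functions regular outside the place `P`. -/
structure IsAffineRing (P : Place K F) (B : Type*) [CommRing B] [Algebra B F] [Algebra K B]
    [IsScalarTower K B F] : Prop where
  inj : Function.Injective (algebraMap B F)
  mem_iff : ∀ f : F, (∃ b : B, algebraMap B F b = f) ↔ ∀ v : Place K F, v ≠ P → v.adicValuation f ≤ 1

open Classical in
/-- pole order at `P` -/
noncomputable def wt (P : Place K F) {B : Type*} [CommRing B] [Algebra B F] (b : B) : WithBot ℕ :=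
  if b = 0 then ⊥ else ((-(P.ord (algebraMap B F b))).toNat : WithBot ℕ)

section

variable {P : Place K F} {B : Type*} [CommRing B] [Algebra B F] [Algebra K B]
    [IsScalarTower K B F] (hB : IsAffineRing P B)

theorem wt_zero : wt P (0 : B) = ⊥ := by simp [wt]

theorem wt_of_ne {b : B} (hb : b ≠ 0) :
    wt P b = ((-(P.ord (algebraMap B F b))).toNat : WithBot ℕ) := by simp [wt, hb]

theorem exists_wt_eq {b : B} (hb : b ≠ 0) :
    ∃ n : ℕ, wt P b = (n : WithBot ℕ) := ⟨_, wt_of_ne hb⟩

include hB

theorem le_one_of_ne (b : B) {v : Place K F} (hv : v ≠ P) :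
    v.adicValuation (algebraMap B F b) ≤ 1 := (hB.mem_iff _).mp ⟨b, rfl⟩ v hv

theorem ord_nonpos [IsAlgClosed K] [IsFF K F] {b : B} (hb : b ≠ 0) :
    P.ord (algebraMap B F b) ≤ 0 := by
  by_contra hcon
  have hb' := map_ne_zero' hB.inj hb
  push Not at hcon
  have hle : ∀ v : Place K F, v.adicValuation (algebraMap B F b) ≤ 1 := by
    intro v
    by_cases hv : v = P
    · subst hv
      rw [v.adicValuation_le_one_iff]
      exact Or.inr hcon.le
    · exact le_one_of_ne hB b hv
  obtain ⟨c, hc⟩ := exists_const_of_forall_le_one hle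
  have hc0 : c ≠ 0 := by
    rintro rfl
    rw [map_zero] at hc
    exact hb' hc.symm
  have h1 := adicValuation_algebraMap P hc0
  rw [hc, P.adicValuation_eq_exp_neg_ord hb', ← exp_zero] at h1
  have := exp_injective h1
  omega

theorem wt_eq_coe_iff [IsAlgClosed K] [IsFF K F] {b : B} {n : ℕ} :
    wt P b = (n : WithBot ℕ) ↔ b ≠ 0 ∧ P.ord (algebraMap B F b) = -(n : ℤ) := by
  by_cases hb : b = 0
  · subst hb
    simp [wt_zero]
  · rw [wt_of_ne hb]
    have h1 := ord_nonpos hB hb
    constructor
    · intro h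
      have h2 : (-(P.ord (algebraMap B F b))).toNat = n := by exact_mod_cast h
      exact ⟨hb, by omega⟩
    · rintro ⟨-, h⟩
      rw [h, neg_neg, Int.toNat_natCast]

theorem wt_eq_coe_iff' [IsAlgClosed K] [IsFF K F] {b : B} {n : ℕ} :
    wt P b = (n : WithBot ℕ) ↔ P.adicValuation (algebraMap B F b) = exp (n : ℤ) := by
  rw [wt_eq_coe_iff hB]
  constructor
  · rintro ⟨hb, h⟩
    rw [P.adicValuation_eq_exp_neg_ord (map_ne_zero' hB.inj hb), h, neg_neg]
  · intro h
    have hb : b ≠ 0 := by
      rintro rfl
      rw [map_zero, map_zero] at h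
      exact exp_ne_zero h.symm
    refine ⟨hb, ?_⟩
    rw [P.adicValuation_eq_exp_neg_ord (map_ne_zero' hB.inj hb)] at h
    have := exp_injective h
    omega

/-- `wt ≤ n` in terms of the valuation -/
theorem wt_le_coe_iff [IsAlgClosed K] [IsFF K F] {b : B} {n : ℕ} :
    wt P b ≤ (n : WithBot ℕ) ↔ P.adicValuation (algebraMap B F b) ≤ exp (n : ℤ) := by
  by_cases hb : b = 0
  · subst hb
    simp [wt_zero]
  · rw [wt_of_ne hb, P.adicValuation_eq_exp_neg_ord (map_ne_zero' hB.inj hb), exp_le_exp]
    have h1 := ord_nonpos hB hb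
    constructor
    · intro h
      have h2 : (-(P.ord (algebraMap B F b))).toNat ≤ n := by exact_mod_cast h
      omega
    · intro h
      have h2 : (-(P.ord (algebraMap B F b))).toNat ≤ n := by omega
      exact_mod_cast h2

theorem wt_lt_coe_iff [IsAlgClosed K] [IsFF K F] {b : B} {n : ℕ} :
    wt P b < (n : WithBot ℕ) ↔ P.adicValuation (algebraMap B F b) < exp (n : ℤ) := by
  rw [lt_iff_le_and_ne, lt_iff_le_and_ne, wt_le_coe_iff hB, ne_eq, wt_eq_coe_iff' hB]

/-- the Riemann-Roch spaces -/
theorem mem_L_iff {f : F} {n : ℕ} :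
    f ∈ riemannRochSpace (Finsupp.single P (n : ℤ) : Divisor K F) ↔
      ∃ b : B, algebraMap B F b = f ∧ P.adicValuation f ≤ exp (n : ℤ) := by
  classical
  have hdef : f ∈ riemannRochSpace (Finsupp.single P (n : ℤ) : Divisor K F) ↔
      ∀ v : Place K F, v.adicValuation f ≤ exp ((Finsupp.single P (n : ℤ) : Divisor K F) v) :=
    Iff.rfl
  rw [hdef]
  constructor
  · intro h
    have h1 : ∃ b : B, algebraMap B F b = f := (hB.mem_iff f).mpr (fun v hv => by
      have := h v
      rwa [Finsupp.single_eq_of_ne hv, exp_zero] at this)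
    obtain ⟨b, hb⟩ := h1
    refine ⟨b, hb, ?_⟩
    have := h P
    rwa [Finsupp.single_eq_same] at this
  · rintro ⟨b, rfl, h⟩ v
    by_cases hv : v = P
    · subst hv
      rwa [Finsupp.single_eq_same]
    · rw [Finsupp.single_eq_of_ne hv, exp_zero]
      exact le_one_of_ne hB b hv

theorem wt_one [IsAlgClosed K] [IsFF K F] : wt P (1 : B) = ((0 : ℕ) : WithBot ℕ) := by
  rw [wt_eq_coe_iff' hB]
  simp

theorem ell_single [IsAlgClosed K] [IsFF K F] (n : ℕ) :
    ell (Finsupp.single P (n : ℤ) : Divisor K F) =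
      (wts (wt P (B := B)) Set.univ ∩ Set.Iic n).ncard := by
  induction n with
  | zero =>
    have h1 : (Finsupp.single P ((0 : ℕ) : ℤ) : Divisor K F) = 0 := by simp
    have h2 : wts (wt P (B := B)) Set.univ ∩ Set.Iic 0 = {0} := by
      ext n
      simp only [Set.mem_inter_iff, Set.mem_Iic, Nat.le_zero, Set.mem_singleton_iff]
      constructor
      · exact fun h => h.2
      · rintro rfl
        exact ⟨⟨1, Set.mem_univ _, wt_one hB⟩, rfl⟩
    rw [h1, finite_and_ell_zero.2, h2, Set.ncard_singleton]
  | succ n ih =>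
    have hle : (Finsupp.single P (n : ℤ) : Divisor K F) ≤ Finsupp.single P ((n + 1 : ℕ) : ℤ) := by
      rw [Finsupp.single_le_single]
      push_cast
      omega
    have hsub := ell_sub_le hle
    rw [Divisor.degree_single, Divisor.degree_single, deg_eq_one] at hsub
    by_cases hn : (n + 1) ∈ wts (wt P (B := B)) Set.univ
    · have h1 : wts (wt P (B := B)) Set.univ ∩ Set.Iic (n + 1) =
          insert (n + 1) (wts (wt P (B := B)) Set.univ ∩ Set.Iic n) := by
        ext m
        simp only [Set.mem_inter_iff, Set.mem_Iic, Set.mem_insert_iff]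
        constructor
        · rintro ⟨h1, h2⟩
          rcases Nat.lt_or_ge n m with h | h
          · left; omega
          · right; exact ⟨h1, h⟩
        · rintro (rfl | ⟨h1, h2⟩)
          · exact ⟨hn, le_rfl⟩
          · exact ⟨h1, by omega⟩
      rw [h1, Set.ncard_insert_of_notMem (by simp) ((Set.finite_Iic n).inter_of_right _), ← ih]
      obtain ⟨b, -, hb⟩ := hn
      rw [wt_eq_coe_iff' hB] at hb
      have hlt : riemannRochSpace (Finsupp.single P (n : ℤ) : Divisor K F) <
          riemannRochSpace (Finsupp.single P ((n + 1 : ℕ) : ℤ) : Divisor K F) := by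
        refine lt_of_le_of_ne (L_mono hle) fun heq => ?_
        have h2 : algebraMap B F b ∈
            riemannRochSpace (Finsupp.single P ((n + 1 : ℕ) : ℤ) : Divisor K F) :=
          (mem_L_iff hB).mpr ⟨b, rfl, hb.le⟩
        rw [← heq, mem_L_iff hB] at h2
        obtain ⟨-, -, h3⟩ := h2
        rw [hb, exp_le_exp] at h3
        push_cast at h3
        omega
      have h4 := Submodule.finrank_lt_finrank_of_lt hlt
      have h5 : ell (Finsupp.single P (n : ℤ) : Divisor K F) <
        ell (Finsupp.single P ((n + 1 : ℕ) : ℤ) : Divisor K F) := h4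
      push_cast at hsub h5 ⊢
      omega
    · have h1 : wts (wt P (B := B)) Set.univ ∩ Set.Iic (n + 1) =
          (wts (wt P (B := B)) Set.univ ∩ Set.Iic n) := by
        ext m
        simp only [Set.mem_inter_iff, Set.mem_Iic]
        constructor
        · rintro ⟨h1, h2⟩
          refine ⟨h1, ?_⟩
          by_contra h3
          have : m = n + 1 := by omega
          exact hn (this ▸ h1)
        · rintro ⟨h1, h2⟩
          exact ⟨h1, by omega⟩
      rw [h1, ← ih]
      have heq : riemannRochSpace (Finsupp.single P ((n + 1 : ℕ) : ℤ) : Divisor K F) =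
          riemannRochSpace (Finsupp.single P (n : ℤ) : Divisor K F) := by
        refine le_antisymm ?_ (L_mono hle)
        intro f hf
        rw [mem_L_iff hB] at hf ⊢
        obtain ⟨b, rfl, hb⟩ := hf
        refine ⟨b, rfl, ?_⟩
        by_contra h2
        push Not at h2
        apply hn
        refine ⟨b, Set.mem_univ _, ?_⟩
        rw [wt_eq_coe_iff' hB]
        have hb0 : algebraMap B F b ≠ 0 := by
          intro h0
          rw [h0, map_zero] at h2
          exact not_lt_zero h2
        rw [P.adicValuation_eq_exp_neg_ord hb0] at hb h2 ⊢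
        rw [exp_le_exp] at hb
        rw [exp_lt_exp] at h2
        congr 1
        push_cast at hb h2 ⊢
        omega
      rw [ell, ell, heq]

theorem mem_wts_of_le [IsAlgClosed K] [IsFF K F] {n : ℕ} (hn : 2 * genusFF K F ≤ n) :
    n ∈ wts (wt P (B := B)) Set.univ := by
  rcases Nat.eq_zero_or_pos n with rfl | hpos
  · exact ⟨1, Set.mem_univ _, wt_one hB⟩
  obtain ⟨m, rfl⟩ : ∃ m, n = m + 1 := ⟨n - 1, by omega⟩
  by_contra hcon
  have h1 := ell_single hB (m + 1)
  have h2 := ell_single hB m
  have h3 : wts (wt P (B := B)) Set.univ ∩ Set.Iic (m + 1) =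
      (wts (wt P (B := B)) Set.univ ∩ Set.Iic m) := by
    ext k
    simp only [Set.mem_inter_iff, Set.mem_Iic]
    constructor
    · rintro ⟨h1, h2⟩
      refine ⟨h1, ?_⟩
      by_contra h3
      have : k = m + 1 := by omega
      exact hcon (this ▸ h1)
    · rintro ⟨h1, h2⟩
      exact ⟨h1, by omega⟩
  rw [h3, ← h2] at h1
  have h4 := ell_of_degree_gt (D := (Finsupp.single P ((m + 1 : ℕ) : ℤ) : Divisor K F)) (by
    rw [Divisor.degree_single, deg_eq_one]; push_cast; omega)
  have h5 := ell_of_degree_gt (D := (Finsupp.single P (m : ℤ) : Divisor K F)) (by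
    rw [Divisor.degree_single, deg_eq_one]; push_cast; omega)
  rw [Divisor.degree_single, deg_eq_one] at h4 h5
  push_cast at h1 h4 h5
  rw [h1] at h4
  omega

theorem compl_subset [IsAlgClosed K] [IsFF K F] :
    (wts (wt P (B := B)) Set.univ)ᶜ ⊆ Set.Iic (2 * genusFF K F) := by
  intro n hn
  by_contra h
  rw [Set.mem_Iic, not_le] at h
  exact hn (mem_wts_of_le hB h.le)

theorem genus_eq [IsAlgClosed K] [IsFF K F] : genus (wt P (B := B)) = genusFF K F := by
  set g := genusFF K F with hg
  have h1 := ell_single hB (2 * g)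
  have h2 := ell_of_degree_gt (D := (Finsupp.single P ((2 * g : ℕ) : ℤ) : Divisor K F)) (by
    rw [Divisor.degree_single, deg_eq_one]; push_cast; omega)
  rw [Divisor.degree_single, deg_eq_one, h1] at h2
  have hfin : (Set.Iic (2 * g)).Finite := Set.finite_Iic _
  have h3 : (Set.Iic (2 * g)).ncard = 2 * g + 1 := by
    rw [← Finset.coe_Iic, Set.ncard_coe_finset, Nat.card_Iic]
  have h4 : Set.Iic (2 * g) = (wts (wt P (B := B)) Set.univ ∩ Set.Iic (2 * g)) ∪
      (wts (wt P (B := B)) Set.univ)ᶜ := by
    ext n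
    simp only [Set.mem_union, Set.mem_inter_iff, Set.mem_compl_iff]
    constructor
    · intro h
      by_cases hn : n ∈ wts (wt P (B := B)) Set.univ
      · exact Or.inl ⟨hn, h⟩
      · exact Or.inr hn
    · rintro (h | h)
      · exact h.2
      · exact compl_subset hB h
  have h5 : Disjoint (wts (wt P (B := B)) Set.univ ∩ Set.Iic (2 * g))
      (wts (wt P (B := B)) Set.univ)ᶜ :=
    Set.disjoint_left.mpr fun n hn hn' => hn' hn.1
  have h6 := Set.ncard_union_eq h5 (hfin.inter_of_right _) (hfin.subset (compl_subset hB))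
  rw [← h4, h3] at h6
  show ((wts (wt P (B := B)) Set.univ)ᶜ).ncard = g
  push_cast at h2
  omega

theorem isWeight [IsAlgClosed K] [IsFF K F] : IsWeight K (wt P (B := B)) where
  eq_bot_iff b := by
    constructor
    · intro h
      by_contra hb
      rw [wt_of_ne hb] at h
      exact WithBot.coe_ne_bot h
    · rintro rfl
      exact wt_zero
  mul b c := by
    by_cases hb : b = 0
    · subst hb; simp [wt_zero]
    by_cases hc : c = 0
    · subst hc; simp [wt_zero]
    obtain ⟨n, hn⟩ := exists_wt_eq (P := P) hb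
    obtain ⟨m, hm⟩ := exists_wt_eq (P := P) hc
    rw [hn, hm]
    have : ((n : WithBot ℕ) + (m : WithBot ℕ)) = ((n + m : ℕ) : WithBot ℕ) := by push_cast; rfl
    rw [this, wt_eq_coe_iff' hB, map_mul, map_mul, (wt_eq_coe_iff' hB).mp hn,
      (wt_eq_coe_iff' hB).mp hm, ← exp_add]
    push_cast
    rfl
  add_le b c := by
    by_cases hb : b = 0
    · subst hb; simp [wt_zero]
    by_cases hc : c = 0
    · subst hc; simp [wt_zero]
    obtain ⟨n, hn⟩ := exists_wt_eq (P := P) hb
    obtain ⟨m, hm⟩ := exists_wt_eq (P := P) hc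
    rw [hn, hm]
    have : max (n : WithBot ℕ) (m : WithBot ℕ) = ((max n m : ℕ) : WithBot ℕ) := rfl
    rw [this, wt_le_coe_iff hB, map_add]
    refine (P.adicValuation.map_add _ _).trans (max_le ?_ ?_)
    · rw [(wt_eq_coe_iff' hB).mp hn, exp_le_exp]
      push_cast
      exact le_max_left _ _
    · rw [(wt_eq_coe_iff' hB).mp hm, exp_le_exp]
      push_cast
      exact le_max_right _ _
  algebraMap c hc := by
    have : (0 : WithBot ℕ) = ((0 : ℕ) : WithBot ℕ) := rfl
    rw [this, wt_eq_coe_iff' hB, ← IsScalarTower.algebraMap_apply K B F,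
      adicValuation_algebraMap P hc]
    simp
  exists_sub_lt b c hb hbc := by
    obtain ⟨n, hn⟩ := exists_wt_eq (P := P) hb
    have hc := hbc.symm.trans hn
    have hc0 : c ≠ 0 := ((wt_eq_coe_iff hB).mp hc).1
    have hcF := map_ne_zero' hB.inj hc0
    have hbF := map_ne_zero' hB.inj hb
    have h1 : P.adicValuation (algebraMap B F b / algebraMap B F c) ≤ 1 := by
      rw [map_div₀, (wt_eq_coe_iff' hB).mp hn, (wt_eq_coe_iff' hB).mp hc,
        div_self exp_ne_zero]
    obtain ⟨a, ha⟩ := exists_const_sub_lt_one P h1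
    refine ⟨a, ?_⟩
    rw [hn, wt_lt_coe_iff hB]
    have h2 : algebraMap B F (b - a • c) =
        (algebraMap B F b / algebraMap B F c - algebraMap K F a) * algebraMap B F c := by
      rw [sub_mul, div_mul_cancel₀ _ hcF, map_sub, Algebra.smul_def, map_mul,
        ← IsScalarTower.algebraMap_apply K B F]
    rw [h2, map_mul, (wt_eq_coe_iff' hB).mp hc]
    calc _ < 1 * exp (n : ℤ) := by
          gcongr
          exact exp_pos
      _ = exp (n : ℤ) := one_mul _
  finite_gaps := by
    refine (Set.finite_Iic (2 * genusFF K F)).subset ?_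
    intro n hn
    apply compl_subset hB
    rintro ⟨b, -, hb⟩
    exact hn b hb

end

end Fermat.Agent.H3S27
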