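import Fermat.Agent.H40LemA

/-!
# Discreteness of finite index fixed fields (helper40)
-/

set_option autoImplicit false
set_option linter.unusedSectionVars false

open AlgebraicCurve WithZero Fermat.Agent

namespace Fermat.Agent.H40

open Fermat.Agent.H31.MP Fermat.Agent.H97

variable {K F k Fb Γ ν G : Type*} [Field K] [Field F] [Algebra K F] [Field k] [Field Fb]
    [Algebra k Fb] [LinearOrderedCommGroupWithZero Γ] [Group G] [MulSemiringAction G K]
    [MulSemiringAction G F] {p : ℕ} (D : Data K F k Fb Γ ν G p)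

local notation "vK" => D.M.vK

/-- The norm to the field fixed by `G`. -/
theorem exists_norm {H : Subgroup G} [H.FiniteIndex] {c : K} (hc : Fix H c) :
    ∃ n : K, Fix (⊤ : Subgroup G) n ∧ (c ≠ 0 → n ≠ 0) ∧ vK n = vK c ^ H.index := by
  classical
  let f : G ⧸ H → K := fun q => Quotient.liftOn' q (fun g => g • c) (fun a b hab => by
    rw [QuotientGroup.leftRel_apply] at hab
    have h1 := hc _ hab
    rw [mul_smul, inv_smul_eq_iff] at h1
    exact h1.symm)
  have hf : ∀ g : G, f (g : G ⧸ H) = g • c := fun g => rfl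
  have : Fintype (G ⧸ H) := Fintype.ofFinite _
  have hfσ : ∀ (σ : G) (x : G ⧸ H), f (σ • x) = σ • f x := by
    intro σ x
    induction x using QuotientGroup.induction_on with
    | H g =>
      rw [MulAction.Quotient.smul_coe, hf, hf, smul_eq_mul, mul_smul]
  refine ⟨∏ x : G ⧸ H, f x, fun σ _ => ?_, fun hc0 => ?_, ?_⟩
  · rw [Finset.smul_prod']
    rw [← Equiv.prod_comp (MulAction.toPerm σ) f]
    exact Finset.prod_congr rfl fun x _ => (hfσ σ x).symm
  · refine Finset.prod_ne_zero_iff.mpr fun x _ => ?_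
    induction x using QuotientGroup.induction_on with
    | H g => rw [hf]; rwa [smul_ne_zero_iff_ne]
  · rw [map_prod]
    have : ∀ x : G ⧸ H, vK (f x) = vK c := by
      intro x
      induction x using QuotientGroup.induction_on with
      | H g => rw [hf, D.vK_smul]
    rw [Finset.prod_congr rfl fun x _ => this x, Finset.prod_const, Finset.card_univ,
      Subgroup.index, Nat.card_eq_fintype_card]

variable {D}

theorem pow_inj' {a b : Γ} {n : ℕ} (hn : n ≠ 0) (h : a ^ n = b ^ n) : a = b :=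
  (pow_left_inj₀ zero_le zero_le hn).mp h

/-- The fixed field of a subgroup of finite index is discretely valued. -/
theorem disc_of_finiteIndex {π : K} (hd : D.Disc (⊤ : Subgroup G) π) (H : Subgroup G)
    [H.FiniteIndex] : ∃ ϖ : K, D.Disc H ϖ := by
  classical
  set m := H.index with hm
  have hm0 : m ≠ 0 := Subgroup.FiniteIndex.index_ne_zero
  have hπ := hd.pos
  have hπ0 : vK π ≠ 0 := hπ.ne'
  let S : AddSubgroup ℤ :=
    { carrier := {n | ∃ c : K, c ≠ 0 ∧ Fix H c ∧ vK c ^ m = vK π ^ n}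
      zero_mem' := ⟨1, one_ne_zero, Fix.one, by rw [map_one, one_pow, zpow_zero]⟩
      add_mem' := by
        rintro a b ⟨c, hc0, hc, h1⟩ ⟨c', hc'0, hc', h2⟩
        exact ⟨c * c', mul_ne_zero hc0 hc'0, hc.mul hc', by
          rw [map_mul, mul_pow, h1, h2, zpow_add₀ hπ0]⟩
      neg_mem' := by
        rintro a ⟨c, hc0, hc, h1⟩
        exact ⟨c⁻¹, inv_ne_zero hc0, hc.inv, by
          rw [map_inv₀, inv_pow, h1, zpow_neg]⟩ }
  have hS : ∀ n, n ∈ S ↔ ∃ c : K, c ≠ 0 ∧ Fix H c ∧ vK c ^ m = vK π ^ n := fun n => Iff.rfl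
  have hmS : (m : ℤ) ∈ S := ⟨π, hd.ne, hd.fix.mono le_top, by rw [zpow_natCast]⟩
  obtain ⟨g, hg⟩ := Int.subgroup_cyclic S
  have hg0 : g ≠ 0 := by
    rintro rfl
    rw [hg, AddSubgroup.mem_closure_singleton] at hmS
    obtain ⟨t, ht⟩ := hmS
    rw [smul_zero] at ht
    exact hm0 (by exact_mod_cast ht.symm)
  -- positive generator
  have hgS : |g| ∈ S := by
    have h1 : g ∈ S := by rw [hg]; exact AddSubgroup.mem_closure_singleton_self g
    rcases abs_choice g with h | h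
    · rw [h]; exact h1
    · rw [h]; exact S.neg_mem h1
  obtain ⟨ϖ, hϖ0, hϖ, hϖg⟩ := hgS
  have hϖpos : 0 < vK ϖ := zero_lt_iff.mpr ((Valuation.ne_zero_iff _).mpr hϖ0)
  refine ⟨ϖ, hϖ0, hϖ, ?_, fun c hc0 hc => ?_⟩
  · by_contra hcon
    rw [not_lt] at hcon
    have h1 : (1 : Γ) ≤ vK ϖ ^ m := one_le_pow₀ hcon
    rw [hϖg] at h1
    have h2 : vK π ^ |g| < 1 := by
      have h3 : 0 < |g| := abs_pos.mpr hg0
      have h4 := (zpow_lt_zpow_iff_right_of_lt_one₀ hπ hd.lt (m := |g|) (n := 0)).mpr h3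
      rwa [zpow_zero] at h4
    exact absurd h1 (not_le.mpr h2)
  · obtain ⟨n, hn, hn0, hvn⟩ := exists_norm D hc
    obtain ⟨t, ht⟩ := hd.gen n (hn0 hc0) hn
    have htS : t ∈ S := ⟨c, hc0, hc, by rw [← ht, hvn]⟩
    rw [hg, AddSubgroup.mem_closure_singleton] at htS
    obtain ⟨r, hr⟩ := htS
    obtain ⟨r', hr'⟩ : ∃ r' : ℤ, t = |g| * r' := by
      rcases abs_choice g with h | h
      · exact ⟨r, by rw [h, ← hr, smul_eq_mul, mul_comm]⟩
      · exact ⟨-r, by rw [h, ← hr, smul_eq_mul]; ring⟩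
    refine ⟨r', pow_inj' hm0 ?_⟩
    rw [← hvn, ht, hr', zpow_mul, ← hϖg, ← zpow_natCast, ← zpow_natCast, ← zpow_mul, ← zpow_mul,
      mul_comm]

theorem exists_nat_pow {H : Subgroup G} {ϖ : K} (hd : D.Disc H ϖ) {c : K} (hc0 : c ≠ 0)
    (hc : Fix H c) (hlt : vK c < 1) : ∃ d : ℕ, vK c = vK ϖ ^ d ∧ 1 ≤ d := by
  obtain ⟨n, hn⟩ := hd.gen c hc0 hc
  rw [hn] at hlt
  have h1 : 0 < n := by
    by_contra hcon
    rw [not_lt] at hcon
    have := (zpow_le_zpow_iff_right_of_lt_one₀ hd.pos hd.lt (m := 0) (n := n)).mpr hcon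
    rw [zpow_zero] at this
    exact absurd hlt (not_lt.mpr this)
  refine ⟨n.toNat, ?_, by omega⟩
  rw [hn, ← zpow_natCast, Int.toNat_of_nonneg h1.le]

end Fermat.Agent.H40
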