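import Fermat.Agent.H97Inj

/-!
# Injectivity for torsion exponent equal to the residue characteristic (helper40)

`w ∈ F` with `div w = p • D`, and local generators of `D` congruent to `1` modulo `λ 𝔪`
(`λ = ζ_p - 1`) everywhere: then `D` is principal.
-/

set_option autoImplicit false
set_option linter.unusedSectionVars false

open AlgebraicCurve WithZero IntermediateField

namespace Fermat.Agent.H40

open Fermat.Agent.H97

section Pow

variable {F Γ : Type*} [Field F] [LinearOrderedCommGroupWithZero Γ] (v : Valuation F Γ)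

/-- `(1+y)^p = 1 + y^p + p y r` with `r ≡ 1 mod y`. -/
theorem one_add_pow_prime' {p : ℕ} (hp : p.Prime) {y : F} (hy : v y ≤ 1) :
    ∃ r : F, v (r - 1) ≤ v y ∧ (1 + y) ^ p = 1 + y ^ p + p * y * r := by
  have h1 : (1 : ℕ) ∈ Finset.Ioo 0 p := Finset.mem_Ioo.mpr ⟨one_pos, hp.one_lt⟩
  refine ⟨∑ m ∈ Finset.Ioo 0 p, y ^ (m - 1) * ((p.choose m / p : ℕ) : F), ?_, ?_⟩
  · rw [← Finset.add_sum_erase _ _ h1]
    have h2 : y ^ (1 - 1) * ((p.choose 1 / p : ℕ) : F) = 1 := by
      rw [Nat.sub_self, pow_zero, one_mul, Nat.choose_one_right, Nat.div_self hp.pos, Nat.cast_one]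
    rw [h2, add_sub_cancel_left]
    refine Valuation.map_sum_le _ fun m hm => ?_
    rw [Finset.mem_erase, Finset.mem_Ioo] at hm
    obtain ⟨n, rfl⟩ : ∃ n, m = n + 2 := ⟨m - 2, by omega⟩
    rw [map_mul, map_pow, show n + 2 - 1 = n + 1 by omega, pow_succ]
    calc v y ^ n * v y * v ((p.choose (n + 2) / p : ℕ) : F) ≤ 1 * v y * 1 := by
          gcongr
          · exact pow_le_one' hy _
          · exact v_natCast_le _
      _ = v y := by rw [one_mul, mul_one]
  · rw [add_comm 1 y, add_pow_prime_eq hp y 1, one_pow, add_comm (y ^ p) 1, mul_assoc,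
      add_right_inj]
    simp only [one_pow, mul_one, one_mul, mul_assoc]

/-- For `v y < v λ`, `v λ ^ (p - 1) = v p`: `(1+y)^p = 1 + p y u` with `u ≡ 1`. -/
theorem one_add_pow_small {p : ℕ} (hp : p.Prime) {y : F} {q : Γ} (hq0 : q ≠ 0) (hq1 : q ≤ 1)
    (hq : q ^ (p - 1) = v (p : F)) (hy : v y < q) :
    ∃ u : F, v (u - 1) < 1 ∧ (1 + y) ^ p = 1 + p * y * u := by
  obtain ⟨r, hr, h⟩ := one_add_pow_prime' v hp (hy.le.trans hq1)
  have hp0 : v (p : F) ≠ 0 := by rw [← hq]; exact pow_ne_zero _ hq0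
  have hpF : (p : F) ≠ 0 := (Valuation.ne_zero_iff _).mp hp0
  refine ⟨r + y ^ (p - 1) / p, ?_, ?_⟩
  · have e1 : r + y ^ (p - 1) / p - 1 = (r - 1) + y ^ (p - 1) / p := by ring
    rw [e1]
    refine (Valuation.map_add _ _ _).trans_lt (max_lt (hr.trans_lt (hy.trans_le hq1)) ?_)
    rw [map_div₀, map_pow, ← hq, div_lt_one₀ (pow_pos (zero_lt_iff.mpr hq0) _)]
    refine pow_lt_pow_left₀ hy zero_le ?_
    have := hp.two_le
    omega
  · rw [h]
    have e1 : y ^ p = y * y ^ (p - 1) := by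
      conv_lhs => rw [show p = (p - 1) + 1 from (Nat.sub_add_cancel hp.one_le).symm]
      rw [pow_succ, mul_comm]
    rw [e1]
    field_simp
    ring

end Pow

variable {K F k Fb Γ ι ν : Type*} [Field K] [Field F] [Algebra K F] [Field k] [Field Fb]
    [Algebra k Fb] [LinearOrderedCommGroupWithZero Γ] (M : Model K F k Fb Γ ι ν)

/-- `c` is an optimal constant approximation of `w` at distance `l`. -/
structure Opt (w : F) (c l : K) : Prop where
  ne : l ≠ 0
  le : ∀ i, M.v i (w - algebraMap K F c) ≤ M.vK l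
  not : ¬ ∃ e : k, ∀ i, M.ρ i ((w - algebraMap K F c) / algebraMap K F l) = algebraMap k Fb e

variable {M} in
theorem Opt.exists_le [Nonempty ι] {w : F} {c l : K} (h : Opt M w c l) (c' : K) :
    ∃ i, M.vK l ≤ M.v i (w - algebraMap K F c') := by
  by_contra hcon
  push Not at hcon
  obtain ⟨i₀⟩ := ‹Nonempty ι›
  have hl0 : 0 < M.vK l := zero_lt_iff.mpr ((Valuation.ne_zero_iff _).mpr h.ne)
  have hlF : algebraMap K F l ≠ 0 := (_root_.map_ne_zero _).mpr h.ne
  have h1 : M.vK ((c' - c) / l) ≤ 1 := by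
    rw [map_div₀, div_le_one₀ hl0, ← (M.comp i₀).v_alg]
    have e1 : algebraMap K F (c' - c) = (w - algebraMap K F c) - (w - algebraMap K F c') := by
      rw [map_sub]; ring
    rw [e1]
    exact (Valuation.map_sub _ _ _).trans (max_le (h.le i₀) (hcon i₀).le)
  refine h.not ⟨M.res ((c' - c) / l), fun i => ?_⟩
  have C := M.comp i
  have h2 : M.v i ((w - algebraMap K F c') / algebraMap K F l) < 1 := by
    rw [map_div₀, C.v_alg, div_lt_one₀ hl0]
    exact hcon i
  have e1 : (w - algebraMap K F c) / algebraMap K F l =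
      (w - algebraMap K F c') / algebraMap K F l + algebraMap K F ((c' - c) / l) := by
    rw [map_div₀, map_sub]
    field_simp
    ring
  rw [e1, C.ρ_add _ _ h2.le (by rw [C.v_alg]; exact h1), (C.ρ_eq_zero _ h2.le).mpr h2, zero_add,
    C.ρ_alg _ h1]

theorem exists_opt_all [Finite ι] [Nonempty ι] {w : F} (hw : ∀ c : K, w ≠ algebraMap K F c) :
    ∃ c l : K, Opt M w c l := by
  choose c l hl hopt using fun i => (M.comp i).exists_opt w hw
  obtain ⟨i₀⟩ := ‹Nonempty ι›
  have := Fintype.ofFinite ι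
  set c₀ := c i₀ with hc₀
  obtain ⟨i₂, hi₂⟩ : ∃ i₂, ∀ i, M.v i (w - algebraMap K F c₀) ≤
      M.v i₂ (w - algebraMap K F c₀) := by
    have : Nonempty ι := ⟨i₀⟩
    exact Finite.exists_max _
  have hmin : ∀ c' : K, ∃ i, M.v i₂ (w - algebraMap K F c₀) ≤ M.v i (w - algebraMap K F c') := by
    intro c'
    have h1 := (hopt i₂ c₀).2.2
    rcases le_total (M.vK (c₀ - c i₂)) (M.vK (l i₂)) with h2 | h2
    · rw [max_eq_right h2] at h1
      exact ⟨i₂, h1.trans (hopt i₂ c').1⟩
    · rw [max_eq_left h2] at h1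
      have h3 : M.vK (c₀ - c i₂) ≤ max (M.vK (c' - c₀)) (M.vK (c' - c i₂)) := by
        have : c₀ - c i₂ = (c' - c i₂) - (c' - c₀) := by ring
        rw [this]
        exact (Valuation.map_sub _ _ _).trans (max_comm _ _).le
      rcases le_total (M.vK (c' - c₀)) (M.vK (c' - c i₂)) with h4 | h4
      · rw [max_eq_right h4] at h3
        exact ⟨i₂, h1.trans (h3.trans (hopt i₂ c').2.1)⟩
      · rw [max_eq_left h4] at h3
        exact ⟨i₀, h1.trans (h3.trans (hopt i₀ c').2.1)⟩
  obtain ⟨l₀, hl₀, hvl₀⟩ := (M.comp i₂).scale (w - algebraMap K F c₀)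
    (sub_ne_zero.mpr (hw c₀))
  have hl₀F : algebraMap K F l₀ ≠ 0 := (_root_.map_ne_zero _).mpr hl₀
  have hl₀0 : 0 < M.vK l₀ := zero_lt_iff.mpr ((Valuation.ne_zero_iff _).mpr hl₀)
  rw [hvl₀] at hmin hi₂
  refine ⟨c₀, l₀, hl₀, hi₂, ?_⟩
  rintro ⟨e, he⟩
  obtain ⟨a₃, ha₃, ha₃c⟩ := M.res_surj e
  set b := (w - algebraMap K F c₀) / algebraMap K F l₀ with hb
  have hvb : ∀ i, M.v i b ≤ 1 := fun i => by
    rw [hb, map_div₀, (M.comp i).v_alg]
    exact (div_le_one₀ hl₀0).mpr (hi₂ i)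
  have hlt : ∀ i, M.v i (b - algebraMap K F a₃) < 1 := by
    intro i
    have h1 : M.v i (algebraMap K F a₃) ≤ 1 := by rw [(M.comp i).v_alg]; exact ha₃
    have h2 : M.v i (b - algebraMap K F a₃) ≤ 1 :=
      (Valuation.map_sub _ _ _).trans (max_le (hvb i) h1)
    rw [← (M.comp i).ρ_eq_zero _ h2, (M.comp i).ρ_sub (hvb i) h1, he i,
      (M.comp i).ρ_alg _ ha₃, ha₃c, sub_self]
  obtain ⟨i₃, hi₃⟩ := hmin (c₀ + l₀ * a₃)
  have h1 : w - algebraMap K F (c₀ + l₀ * a₃) = algebraMap K F l₀ * (b - algebraMap K F a₃) := by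
    rw [hb, map_add, map_mul]
    field_simp
    ring
  rw [h1, map_mul, (M.comp i₃).v_alg] at hi₃
  have h2 : M.vK l₀ * M.v i₃ (b - algebraMap K F a₃) < M.vK l₀ * 1 :=
    mul_lt_mul_of_pos_left (hlt i₃) hl₀0
  rw [mul_one] at h2
  exact absurd hi₃ (not_le.mpr h2)

variable [IsAlgClosed K] [H3RR.IsFF K F] [IsAlgClosed k] [H3RR.IsFF k Fb]

/-- The value of a parameter at a point of its residue class. -/
theorem param_value {x : ι × Place k Fb} (hx : ∀ s, x ∉ M.br s) {P Q : Place K F}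
    (hP : M.sp P = Sum.inl x) (hQ : M.sp Q = Sum.inl x) {h : F} (hh : M.IsParam x P h) :
    ∃ a : K, M.vK a < 1 ∧ M.v x.1 (h - algebraMap K F a) = 1 ∧
      (∀ R, M.sp R = Sum.inl x → R.ord h = (Finsupp.single P (1 : ℤ) : Divisor K F) R) ∧
      (∀ R, M.sp R = Sum.inl x →
        R.ord (h - algebraMap K F a) = (Finsupp.single Q (1 : ℤ) : Divisor K F) R) := by
  classical
  obtain ⟨hv, hPh, hreg, hord⟩ := hh
  set v := M.v x.1 with hvdef
  set ρ := M.ρ x.1 with hρdef
  have C : Comp M.vK M.res v ρ := M.comp x.1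
  have hh0 : h ≠ 0 := by rintro rfl; simp at hv
  have hρh0 : ρ h ≠ 0 := C.ρ_ne_zero hv
  -- value of `h` at `Q`
  obtain ⟨a, ha⟩ := H3RR.exists_const_sub_lt_one Q (hreg Q hQ)
  -- `vK a < 1`
  have hρhlt : x.2.adicValuation (ρ h) < 1 := by
    rw [x.2.adicValuation_eq_exp_neg_ord hρh0, hord, ← exp_zero, exp_lt_exp]; norm_num
  have ha1 : M.vK a < 1 := by
    by_contra hcon
    rw [not_lt] at hcon
    have ha0 : a ≠ 0 := by rintro rfl; simp at hcon
    have haF : algebraMap K F a ≠ 0 := (_root_.map_ne_zero _).mpr ha0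
    -- consider `u = h / a - 1`
    set u := h / algebraMap K F a - 1 with hu
    have hva : v (algebraMap K F a) = M.vK a := C.v_alg a
    have h1 : v (h / algebraMap K F a) ≤ 1 := by
      rw [map_div₀, hv, hva, one_div]
      exact inv_le_one_of_one_le₀ hcon
    have hu1 : v u ≤ 1 := (Valuation.map_sub _ _ _).trans (max_le h1 (by simp))
    have hρu : ρ u = ρ (h / algebraMap K F a) - 1 := by
      rw [hu, C.ρ_sub h1 (by simp), C.ρ_one]
    have hval : x.2.adicValuation (ρ (h / algebraMap K F a)) < 1 := by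
      rcases hcon.lt_or_eq with hlt | heq
      · have : ρ (h / algebraMap K F a) = 0 := by
          rw [C.ρ_eq_zero _ h1, map_div₀, hv, hva, one_div]
          exact inv_lt_one_of_one_lt₀ hlt
        rw [this, map_zero]; exact zero_lt_one
      · have hva1 : v (algebraMap K F a) = 1 := by rw [hva, ← heq]
        rw [C.ρ_div hv.le hva1, C.ρ_alg a heq.symm.le, map_div₀]
        have hres : M.res a ≠ 0 := by
          intro h0
          have := C.ρ_ne_zero hva1
          rw [C.ρ_alg a heq.symm.le, h0, map_zero] at this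
          exact this rfl
        rw [H3RR.adicValuation_algebraMap _ hres, div_one]
        exact hρhlt
    have hρu1 : x.2.adicValuation (ρ u) = 1 := by
      rw [hρu, Valuation.map_sub_eq_of_lt_right _ (by simpa using hval), map_one]
    have hρu0 : ρ u ≠ 0 := by
      intro h0
      rw [h0, map_zero] at hρu1
      exact zero_ne_one hρu1
    have hvu : v u = 1 := C.v_eq_one hu1 hρu0
    have hu0 : u ≠ 0 := by rintro h0; rw [h0] at hvu; simp at hvu
    have h2 := M.smooth_deg x hx u hu0 hvu (H3RR.divOf u) (H3RR.divOf_apply hu0)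
    have h3 : x.2.ord (ρ u) = 0 := by
      rw [x.2.adicValuation_eq_exp_neg_ord hρu0, ← exp_zero, exp_inj] at hρu1
      omega
    rw [← hρdef, h3] at h2
    have huval : ∀ R, M.sp R = Sum.inl x → R.adicValuation u ≤ 1 := by
      intro R hR
      refine (Valuation.map_sub _ _ _).trans (max_le ?_ (by simp))
      rw [map_div₀, H3RR.adicValuation_algebraMap _ ha0, div_one]
      exact hreg R hR
    have h4 : ∀ R, M.sp R = Sum.inl x → 0 ≤ (H3RR.divOf u : Divisor K F) R := by
      intro R hR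
      rw [H3RR.divOf_apply hu0]
      exact ((R.adicValuation_le_one_iff).mp (huval R hR)).resolve_left hu0
    have h5 := eq_zero_of_cls_eq_zero M.sp h4 h2 hQ
    rw [H3RR.divOf_apply hu0] at h5
    have h6 : Q.adicValuation u < 1 := by
      have : u = (h - algebraMap K F a) / algebraMap K F a := by
        rw [hu, sub_div, div_self haF]
      rw [this, map_div₀, H3RR.adicValuation_algebraMap _ ha0, div_one]
      exact ha
    have h7 := H3RR.ord_pos_of_lt_one hu0 h6
    omega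
  -- divisor of `h`
  have hdivh : cls M.sp (H3RR.divOf h) (Sum.inl x) = 1 := by
    rw [M.smooth_deg x hx h hh0 hv (H3RR.divOf h) (H3RR.divOf_apply hh0)]
    exact hord
  have hnonneg : ∀ R, M.sp R = Sum.inl x → 0 ≤ (H3RR.divOf h : Divisor K F) R := by
    intro R hR
    rw [H3RR.divOf_apply hh0]
    exact ((R.adicValuation_le_one_iff).mp (hreg R hR)).resolve_left hh0
  have hhord : ∀ R, M.sp R = Sum.inl x → R.ord h = (Finsupp.single P (1 : ℤ) : Divisor K F) R := by
    obtain ⟨h1, h2⟩ := eq_one_of_cls_eq_one M.sp hnonneg hdivh hP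
      (by rw [H3RR.divOf_apply hh0]; exact H3RR.ord_pos_of_lt_one hh0 hPh)
    intro R hR
    by_cases hRP : R = P
    · subst hRP
      rw [Finsupp.single_eq_same, ← H3RR.divOf_apply hh0, h1]
    · rw [Finsupp.single_apply, if_neg (Ne.symm hRP), ← H3RR.divOf_apply hh0, h2 R hR hRP]
  -- divisor of `h - a`
  set h' := h - algebraMap K F a with hh'
  have hva : v (algebraMap K F a) < 1 := by rw [C.v_alg]; exact ha1
  have hvh' : v h' = 1 := by
    rw [hh', Valuation.map_sub_eq_of_lt_left _ (by rw [hv]; exact hva), hv]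
  have hh'0 : h' ≠ 0 := by intro h0; rw [h0] at hvh'; simp at hvh'
  have hρa : ρ (algebraMap K F a) = 0 := (C.ρ_eq_zero _ hva.le).mpr hva
  have hρh' : ρ h' = ρ h := by rw [hh', C.ρ_sub hv.le hva.le, hρa, sub_zero]
  have hdivh' : cls M.sp (H3RR.divOf h') (Sum.inl x) = 1 := by
    rw [M.smooth_deg x hx h' hh'0 hvh' (H3RR.divOf h') (H3RR.divOf_apply hh'0), ← hρdef, hρh']
    exact hord
  have hreg' : ∀ R, M.sp R = Sum.inl x → R.adicValuation h' ≤ 1 := by
    intro R hR
    exact (Valuation.map_sub _ _ _).trans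
      (max_le (hreg R hR) (R.adicValuation_algebraMap_le_one a))
  have hnonneg' : ∀ R, M.sp R = Sum.inl x → 0 ≤ (H3RR.divOf h' : Divisor K F) R := by
    intro R hR
    rw [H3RR.divOf_apply hh'0]
    exact ((R.adicValuation_le_one_iff).mp (hreg' R hR)).resolve_left hh'0
  refine ⟨a, ha1, hvh', hhord, ?_⟩
  obtain ⟨h1, h2⟩ := eq_one_of_cls_eq_one M.sp hnonneg' hdivh' hQ
    (by rw [H3RR.divOf_apply hh'0]; exact H3RR.ord_pos_of_lt_one hh'0 ha)
  intro R hR
  by_cases hRQ : R = Q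
  · subst hRQ
    rw [Finsupp.single_eq_same, ← H3RR.divOf_apply hh'0, h1]
  · rw [Finsupp.single_apply, if_neg (Ne.symm hRQ), ← H3RR.divOf_apply hh'0, h2 R hR hRQ]

/-- **Local estimate.** `W` has divisor `n (Q - P)` on the class `x`, `(1 - a/h)^n = 1 - μ (a/h) u`
with `u ≡ 1`. Then `|μ a|` is at most the distance of `W` to constants of absolute value `1`, and
the deviation from such a constant has at most a simple pole. -/
theorem local_estimate {x : ι × Place k Fb} (hx : ∀ s, x ∉ M.br s) {P Q : Place K F}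
    {h : F} (hh : M.IsParam x P h) {a : K} (ha1 : M.vK a < 1)
    (hvh' : M.v x.1 (h - algebraMap K F a) = 1)
    (hhord : ∀ R, M.sp R = Sum.inl x → R.ord h = (Finsupp.single P (1 : ℤ) : Divisor K F) R)
    (hh'ord : ∀ R, M.sp R = Sum.inl x →
        R.ord (h - algebraMap K F a) = (Finsupp.single Q (1 : ℤ) : Divisor K F) R)
    {n : ℕ} {W u : F} {μ c l : K} (hW0 : W ≠ 0)
    (hWord : ∀ R, M.sp R = Sum.inl x →
      R.ord W = n * ((Finsupp.single Q (1 : ℤ) - Finsupp.single P 1 : Divisor K F) R))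
    (hu : M.v x.1 (u - 1) < 1) (hμ : M.vK μ ≤ 1)
    (hpow : (1 - algebraMap K F a / h) ^ n = 1 - algebraMap K F (μ * a) / h * u)
    (hc : M.vK c = 1) (hl0 : l ≠ 0) (hl : M.v x.1 (W - algebraMap K F c) ≤ M.vK l) :
    M.vK (μ * a) ≤ M.v x.1 (W - algebraMap K F c) ∧
      x.2.adicValuation (M.ρ x.1 ((W - algebraMap K F c) / algebraMap K F l)) ≤ exp 1 := by
  obtain ⟨hv, hPh, hreg, hord⟩ := hh
  set v := M.v x.1 with hvdef
  set ρ := M.ρ x.1 with hρdef
  have C : Comp M.vK M.res v ρ := M.comp x.1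
  set h' := h - algebraMap K F a with hh'
  have hh0 : h ≠ 0 := by rintro rfl; simp at hv
  have hh'0 : h' ≠ 0 := by intro h0; rw [h0] at hvh'; simp at hvh'
  have hρh0 : ρ h ≠ 0 := C.ρ_ne_zero hv
  have hc0 : c ≠ 0 := by rintro rfl; simp at hc
  have hcF : algebraMap K F c ≠ 0 := (_root_.map_ne_zero _).mpr hc0
  have hva : v (algebraMap K F a) < 1 := by rw [C.v_alg]; exact ha1
  have hy1 : 1 - algebraMap K F a / h = h' / h := by rw [hh', sub_div, div_self hh0]
  have hvu : v u = 1 := by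
    have e1 : u = 1 + (u - 1) := by ring
    rw [e1, Valuation.map_add_eq_of_lt_left _ (by rwa [map_one]), map_one]
  have hρu : ρ u = 1 := by
    have e1 : u = 1 + (u - 1) := by ring
    rw [e1, C.ρ_add _ _ (by simp) hu.le, C.ρ_one, (C.ρ_eq_zero _ hu.le).mpr hu, add_zero]
  have hv1y : v (1 - algebraMap K F a / h) = 1 := by rw [hy1, map_div₀, hv, hvh', div_one]
  have hρh' : ρ h' = ρ h := by
    rw [hh', C.ρ_sub hv.le hva.le, (C.ρ_eq_zero _ hva.le).mpr hva, sub_zero]
  have hρ1y : ρ (1 - algebraMap K F a / h) = 1 := by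
    rw [hy1, C.ρ_div hvh'.le hv, hρh', div_self hρh0]
  set Z := (1 - algebraMap K F a / h) ^ n with hZ
  have hvZ : v Z = 1 := by rw [hZ, map_pow, hv1y, one_pow]
  have hρZ : ρ Z = 1 := by rw [hZ, C.ρ_pow hv1y.le, hρ1y, one_pow]
  have hZ0 : Z ≠ 0 := by intro h0; rw [h0] at hvZ; simp at hvZ
  set ε := W / Z with hε
  have hε0 : ε ≠ 0 := div_ne_zero hW0 hZ0
  have hεreg : ∀ R, M.sp R = Sum.inl x → ∀ d : K, d ≠ 0 →
      R.adicValuation ((ε - algebraMap K F c) / algebraMap K F d) ≤ 1 := by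
    intro R hR d hd
    have h1 : R.ord ε = 0 := by
      rw [hε, div_eq_mul_inv, R.ord_mul hW0 (inv_ne_zero hZ0), R.ord_inv, hWord R hR, hZ]
      have h2 : R.ord ((1 - algebraMap K F a / h) ^ n) = n * (R.ord h' - R.ord h) := by
        have := R.ord_zpow (1 - algebraMap K F a / h) n
        rw [zpow_natCast] at this
        rw [this, hy1, div_eq_mul_inv, R.ord_mul hh'0 (inv_ne_zero hh0), R.ord_inv,
          sub_eq_add_neg]
      rw [h2, hhord R hR, hh'ord R hR, Finsupp.sub_apply]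
      ring
    have h3 : R.adicValuation ε = 1 := by
      rw [R.adicValuation_eq_exp_neg_ord hε0, h1, neg_zero, exp_zero]
    rw [map_div₀, H3RR.adicValuation_algebraMap _ hd, div_one]
    exact (Valuation.map_sub _ _ _).trans (max_le h3.le (R.adicValuation_algebraMap_le_one _))
  have hinvord : x.2.adicValuation (ρ h)⁻¹ = exp 1 := by
    rw [map_inv₀, x.2.adicValuation_eq_exp_neg_ord hρh0, hord, ← exp_neg, neg_neg]
  -- the expansion
  have hdiv : ∀ d : K, d ≠ 0 → v (W - algebraMap K F c) ≤ M.vK d → M.vK (μ * a) ≤ M.vK d →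
      v ((ε - algebraMap K F c) / algebraMap K F d) ≤ 1 ∧
      ρ ((ε - algebraMap K F c) / algebraMap K F d) =
        ρ ((W - algebraMap K F c) / algebraMap K F d) +
          algebraMap k Fb (M.res (c * (μ * a / d))) * (ρ h)⁻¹ := by
    intro d hd h1 h2
    have hdF : algebraMap K F d ≠ 0 := (_root_.map_ne_zero _).mpr hd
    have hd0 : 0 < M.vK d := zero_lt_iff.mpr ((Valuation.ne_zero_iff _).mpr hd)
    have b1 : v ((W - algebraMap K F c) / algebraMap K F d) ≤ 1 := by
      rw [map_div₀, C.v_alg, div_le_one₀ hd0]; exact h1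
    have b2 : M.vK (c * (μ * a / d)) ≤ 1 := by
      rw [map_mul, hc, one_mul, map_div₀, div_le_one₀ hd0]; exact h2
    have b3 : v h⁻¹ = 1 := by rw [map_inv₀, hv, inv_one]
    have b4 : v (h⁻¹ * u) ≤ 1 := by rw [map_mul, b3, hvu, one_mul]
    have b5 : v (algebraMap K F (c * (μ * a / d)) * (h⁻¹ * u)) ≤ 1 := by
      rw [map_mul, C.v_alg]; exact mul_le_one' b2 b4
    have b6 : v ((W - algebraMap K F c) / algebraMap K F d +
        algebraMap K F (c * (μ * a / d)) * (h⁻¹ * u)) ≤ 1 :=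
      (Valuation.map_add _ _ _).trans (max_le b1 b5)
    have e1 : (ε - algebraMap K F c) / algebraMap K F d =
        ((W - algebraMap K F c) / algebraMap K F d +
          algebraMap K F (c * (μ * a / d)) * (h⁻¹ * u)) / Z := by
      rw [hε, div_sub' hZ0, hpow]
      simp only [map_mul, map_div₀]
      field_simp
      ring
    rw [e1]
    refine ⟨by rw [map_div₀, hvZ, div_one]; exact b6, ?_⟩
    rw [C.ρ_div b6 hvZ, hρZ, div_one, C.ρ_add _ _ b1 b5,
      C.ρ_mul _ _ (by rw [C.v_alg]; exact b2) b4, C.ρ_mul _ _ b3.le hvu.le, C.ρ_inv hv, hρu,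
      mul_one, C.ρ_alg _ b2]
  have hcore : M.vK (μ * a) ≤ v (W - algebraMap K F c) := by
    by_contra hcon
    rw [not_le] at hcon
    have hμa0 : μ * a ≠ 0 := by
      intro h0
      rw [h0, map_zero] at hcon
      exact absurd hcon (not_lt.mpr zero_le)
    obtain ⟨h1, h2⟩ := hdiv (μ * a) hμa0 hcon.le le_rfl
    have h3 := M.reg hx h1 (fun R hR => hεreg R hR _ hμa0)
    have h4 : v ((W - algebraMap K F c) / algebraMap K F (μ * a)) < 1 := by
      rw [map_div₀, C.v_alg, div_lt_one₀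
        (zero_lt_iff.mpr ((Valuation.ne_zero_iff _).mpr hμa0))]
      exact hcon
    rw [← hρdef, h2, (C.ρ_eq_zero _ h4.le).mpr h4, zero_add, div_self hμa0, mul_one, map_mul,
      hinvord] at h3
    have hres : M.res c ≠ 0 := by
      intro h0
      have h5 := C.ρ_ne_zero (x := algebraMap K F c) (by rw [C.v_alg]; exact hc)
      rw [C.ρ_alg _ hc.le, h0, map_zero] at h5
      exact h5 rfl
    rw [H3RR.adicValuation_algebraMap _ hres, one_mul, ← exp_zero, exp_le_exp] at h3
    omega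
  refine ⟨hcore, ?_⟩
  obtain ⟨h1, h2⟩ := hdiv l hl0 hl (hcore.trans hl)
  have h3 := M.reg hx h1 (fun R hR => hεreg R hR _ hl0)
  rw [← hρdef] at h3
  have h4 : ρ ((W - algebraMap K F c) / algebraMap K F l) =
      ρ ((ε - algebraMap K F c) / algebraMap K F l) -
        algebraMap k Fb (M.res (c * (μ * a / l))) * (ρ h)⁻¹ := by rw [h2]; ring
  rw [h4]
  refine (Valuation.map_sub _ _ _).trans (max_le (h3.trans ?_) ?_)
  · rw [← exp_zero, exp_le_exp]; norm_num
  · rw [map_mul, hinvord]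
    exact mul_le_of_le_one_left' (x.2.adicValuation_algebraMap_le_one _)

end Fermat.Agent.H40
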