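import Fermat.Agent.H40Inj

/-!
# The injectivity theorem for exponent equal to the residue characteristic (helper40)
-/

set_option autoImplicit false
set_option linter.unusedSectionVars false

open AlgebraicCurve WithZero IntermediateField

namespace Fermat.Agent.H40

open Fermat.Agent.H97

variable {K F k Fb Γ ι ν : Type*} [Field K] [Field F] [Algebra K F] [Field k] [Field Fb]
    [Algebra k Fb] [LinearOrderedCommGroupWithZero Γ] (M : Model K F k Fb Γ ι ν)

/-- Local generators of `D` on all classes, closer to `1` than `r`. -/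
structure GenClose (D : Divisor K F) (r : Γ) : Prop where
  smooth : ∀ x : ι × Place k Fb, (∀ s, x ∉ M.br s) → ∃ g : F, g ≠ 0 ∧
    (∀ P, M.sp P = Sum.inl x → P.ord g = D P) ∧ M.v x.1 (g - 1) < r
  node : ∀ s, ∃ g : F, g ≠ 0 ∧ (∀ P, M.sp P = Sum.inr s → P.ord g = D P) ∧
    ∀ i, M.v i (g - 1) < r

section Basic

theorem v_eq_one_of_sub {i : ι} {f : F} (h : M.v i (f - 1) < 1) : M.v i f = 1 ∧ M.ρ i f = 1 := by
  have C := M.comp i
  have h1 : f = 1 + (f - 1) := by ring
  have hv : M.v i f = 1 := by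
    rw [h1, Valuation.map_add_eq_of_lt_left _ (by rwa [map_one]), map_one]
  refine ⟨hv, ?_⟩
  rw [h1, C.ρ_add _ _ (by simp) h.le, C.ρ_one,
    (C.ρ_eq_zero _ h.le).mpr h, add_zero]

end Basic

variable [IsAlgClosed K] [H3RR.IsFF K F] [IsAlgClosed k] [H3RR.IsFF k Fb]

theorem ord_algebraMap' (P : Place K F) {c : K} (hc : c ≠ 0) : P.ord (algebraMap K F c) = 0 := by
  have h1 := H3RR.adicValuation_algebraMap P hc
  rw [P.adicValuation_eq_exp_neg_ord ((_root_.map_ne_zero _).mpr hc), ← exp_zero, exp_inj] at h1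
  omega

theorem ord_div_algebraMap (P : Place K F) {f : F} {c : K} (hf : f ≠ 0) (hc : c ≠ 0) :
    P.ord (f / algebraMap K F c) = P.ord f := by
  rw [div_eq_mul_inv, P.ord_mul hf (inv_ne_zero ((_root_.map_ne_zero _).mpr hc)), P.ord_inv,
    ord_algebraMap' P hc, neg_zero, add_zero]

theorem ord_pow' {K F : Type*} [Field K] [Field F] [Algebra K F] (P : Place K F) (f : F) (n : ℕ) :
    P.ord (f ^ n) = n * P.ord f := by
  have := P.ord_zpow f n
  rwa [zpow_natCast] at this

/-- A set of points `pl x` over `S`. -/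
structure Base (S : Finset (ι × Place k Fb)) (pl : ι × Place k Fb → Place K F)
    (E : Divisor K F) : Prop where
  sp : ∀ x ∈ S, M.sp (pl x) = Sum.inl x
  param : ∀ x ∈ S, ∃ h, M.IsParam x (pl x) h
  nonneg : ∀ P, 0 ≤ E P
  node : ∀ s P, M.sp P = Sum.inr s → E P = 0
  inS : ∀ x ∈ S, ∀ P, M.sp P = Sum.inl x → E P = (Finsupp.single (pl x) (1 : ℤ) : Divisor K F) P
  out : ∀ x, x ∉ S → ∀ P, M.sp P = Sum.inl x → E P = 0
  cls : ∀ x : ι × Place k Fb, x ∈ S → H97.cls M.sp E (Sum.inl x) = 1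
  deg : Divisor.degree E = S.card

theorem exists_base {S : Finset (ι × Place k Fb)} (hS : M.Nonspecial S) :
    ∃ pl E, Base M S pl E := by
  classical
  have hP : Nonempty (Place K F) ∨ S = ∅ := by
    rcases S.eq_empty_or_nonempty with h | ⟨x, hx⟩
    · exact Or.inr h
    · obtain ⟨P, -⟩ := hS.lift x hx
      exact Or.inl ⟨P⟩
  have hchoice : ∃ pl : ι × Place k Fb → Place K F, ∀ x ∈ S, M.sp (pl x) = Sum.inl x ∧
      ∃ h, M.IsParam x (pl x) h := by
    rcases hP with hP | rfl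
    · choose! pl h1 h2 using hS.lift
      exact ⟨pl, fun x hx => ⟨h1 x hx, h2 x hx⟩⟩
    · obtain ⟨P⟩ : Nonempty (Place K F) := inferInstance
      exact ⟨fun _ => P, fun x hx => absurd hx (Finset.notMem_empty x)⟩
  obtain ⟨pl, hpl⟩ := hchoice
  have hplsp : ∀ x ∈ S, M.sp (pl x) = Sum.inl x := fun x hx => (hpl x hx).1
  set E : Divisor K F := ∑ x ∈ S, Finsupp.single (pl x) 1 with hE
  have hEapp : ∀ P, E P = ∑ x ∈ S, (Finsupp.single (pl x) (1 : ℤ)) P := fun P => by
    rw [hE, Finsupp.finsetSum_apply]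
  refine ⟨pl, E, hplsp, fun x hx => (hpl x hx).2, fun P => ?_, fun s P hP => ?_,
    fun x hx P hP => ?_, fun x hx P hP => ?_, fun x hx => ?_, ?_⟩
  · rw [hEapp]
    refine Finset.sum_nonneg fun x _ => ?_
    rw [Finsupp.single_apply]
    split_ifs <;> norm_num
  · rw [hEapp]
    refine Finset.sum_eq_zero fun x hx => ?_
    rw [Finsupp.single_apply, if_neg]
    rintro rfl
    rw [hplsp x hx] at hP
    cases hP
  · rw [hEapp, Finset.sum_eq_single x]
    · intro y hy hyx
      rw [Finsupp.single_apply, if_neg]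
      rintro rfl
      rw [hplsp y hy, Sum.inl.injEq] at hP
      exact hyx hP
    · exact fun h => absurd hx h
  · rw [hEapp]
    refine Finset.sum_eq_zero fun y hy => ?_
    rw [Finsupp.single_apply, if_neg]
    rintro rfl
    rw [hplsp y hy, Sum.inl.injEq] at hP
    exact hx (hP ▸ hy)
  · have h1 : E.mapDomain M.sp = ∑ y ∈ S, Finsupp.single (Sum.inl y) (1 : ℤ) := by
      rw [hE, Finsupp.mapDomain_finsetSum]
      refine Finset.sum_congr rfl fun y hy => ?_
      rw [Finsupp.mapDomain_single, hplsp y hy]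
    rw [H97.cls, h1, Finsupp.finsetSum_apply]
    simp only [Finsupp.single_apply, Sum.inl.injEq]
    rw [Finset.sum_ite_eq' S x (fun _ => (1 : ℤ)), if_pos hx]
  · rw [hE, map_sum]
    simp [Divisor.degree_single, H3RR.deg_eq_one]

/-- Behaviour of the deviation from a constant of a section of `L(D + E)` when the distance is at
least the precision `r` of the local generators. -/
theorem dev_const {S : Finset (ι × Place k Fb)} (hS : M.Nonspecial S) {pl E}
    (hE : Base M S pl E) {D : Divisor K F} {r : Γ} (hr1 : r ≤ 1) (hg : GenClose M D r)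
    {φ : F} (hφ : ∀ P : Place K F, 0 ≤ D P + E P + P.ord φ) (hφ0 : φ ≠ 0)
    (hφ1 : ∀ i, M.v i φ ≤ 1) {c l : K} (hl0 : l ≠ 0) (hrl : r ≤ M.vK l)
    (hle : ∀ i, M.v i (φ - algebraMap K F c) ≤ M.vK l) :
    ∃ e : k, ∀ i, M.ρ i ((φ - algebraMap K F c) / algebraMap K F l) = algebraMap k Fb e := by
  have hlF : algebraMap K F l ≠ 0 := (_root_.map_ne_zero _).mpr hl0
  have hvl : 0 < M.vK l := zero_lt_iff.mpr ((Valuation.ne_zero_iff _).mpr hl0)
  set b := (φ - algebraMap K F c) / algebraMap K F l with hb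
  have hvb : ∀ i, M.v i b ≤ 1 := fun i => by
    rw [hb, map_div₀, (M.comp i).v_alg]
    exact (div_le_one₀ hvl).mpr (hle i)
  -- replacement by a regular function
  have hrepl : ∀ (i : ι) (g : F), M.v i (g - 1) < r →
      M.v i ((φ * g - algebraMap K F c) / algebraMap K F l) ≤ 1 ∧
      M.ρ i ((φ * g - algebraMap K F c) / algebraMap K F l) = M.ρ i b := by
    intro i g hgi
    have C := M.comp i
    have h1 : M.v i (φ * (g - 1) / algebraMap K F l) < 1 := by
      rw [map_div₀, C.v_alg, div_lt_one₀ hvl, map_mul]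
      exact (mul_le_of_le_one_left' (hφ1 i)).trans_lt (hgi.trans_le hrl)
    have e1 : (φ * g - algebraMap K F c) / algebraMap K F l =
        b + φ * (g - 1) / algebraMap K F l := by
      rw [hb]; field_simp; ring
    rw [e1]
    refine ⟨(Valuation.map_add _ _ _).trans (max_le (hvb i) h1.le), ?_⟩
    rw [C.ρ_add _ _ (hvb i) h1.le, (C.ρ_eq_zero _ h1.le).mpr h1, add_zero]
  have hregP : ∀ (P : Place K F) (g : F), g ≠ 0 → P.ord g = D P → E P = 0 →
      P.adicValuation ((φ * g - algebraMap K F c) / algebraMap K F l) ≤ 1 := by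
    intro P g hg0 hgP hEP
    rw [map_div₀, H3RR.adicValuation_algebraMap _ hl0, div_one]
    refine (Valuation.map_sub _ _ _).trans (max_le ?_ (P.adicValuation_algebraMap_le_one _))
    rw [P.adicValuation_le_one_iff]
    right
    rw [P.ord_mul hφ0 hg0, hgP]
    have := hφ P
    omega
  refine Model.Nonspecial.const M hS b hvb (fun x hx hxS => ?_) (fun x hxS => ?_) (fun s => ?_)
  · obtain ⟨g, hg0, hgord, hg1⟩ := hg.smooth x hx
    obtain ⟨h1, h2⟩ := hrepl x.1 g hg1
    rw [← h2]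
    exact M.reg hx h1 fun P hP => hregP P g hg0 (hgord P hP) (hE.out x hxS P hP)
  · have hx := hS.smooth x hxS
    have C := M.comp x.1
    obtain ⟨g, hg0, hgord, hg1⟩ := hg.smooth x hx
    obtain ⟨h1, h2⟩ := hrepl x.1 g hg1
    obtain ⟨t, ht⟩ := hE.param x hxS
    obtain ⟨a, -, -, htord, -⟩ := param_value M hx (hE.sp x hxS) (hE.sp x hxS) ht
    obtain ⟨htv, htP, htreg, htρ⟩ := ht
    have ht0 : t ≠ 0 := by rintro rfl; simp at htv
    have h3 : M.v x.1 (t * ((φ * g - algebraMap K F c) / algebraMap K F l)) ≤ 1 := by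
      rw [map_mul, htv, one_mul]; exact h1
    have h4 := M.reg hx h3 (fun P hP => by
      rw [← mul_div_assoc, map_div₀, H3RR.adicValuation_algebraMap _ hl0, div_one, mul_sub]
      refine (Valuation.map_sub _ _ _).trans (max_le ?_ ?_)
      · rw [P.adicValuation_le_one_iff]
        right
        rw [P.ord_mul ht0 (mul_ne_zero hφ0 hg0), P.ord_mul hφ0 hg0, hgord P hP, htord P hP,
          ← hE.inS x hxS P hP]
        have := hφ P
        omega
      · rw [map_mul]
        exact mul_le_one' (htreg P hP) (P.adicValuation_algebraMap_le_one _))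
    rw [C.ρ_mul _ _ htv.le h1, h2, map_mul,
      x.2.adicValuation_eq_exp_neg_ord (C.ρ_ne_zero htv), htρ] at h4
    have h5 : x.2.adicValuation (M.ρ x.1 b) = exp 1 * (exp (-1) * x.2.adicValuation (M.ρ x.1 b)) := by
      rw [← mul_assoc, ← exp_add]
      simp
    rw [h5]
    exact mul_le_of_le_one_right' h4
  · obtain ⟨g, hg0, hgord, hg1⟩ := hg.node s
    obtain ⟨e, he⟩ := M.node_val s ((φ * g - algebraMap K F c) / algebraMap K F l)
      (fun i => (hrepl i g (hg1 i)).1)
      (fun P hP => hregP P g hg0 (hgord P hP) (hE.node s P hP))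
    exact ⟨e, fun x hx => by rw [← (hrepl x.1 g (hg1 x.1)).2]; exact he x hx⟩

/-- **Injectivity for exponent `p` = residue characteristic.** -/
theorem exists_of_genClose [Finite ι] [Nonempty ι] {S : Finset (ι × Place k Fb)}
    (hS : M.Nonspecial S) {p : ℕ} (hp : p.Prime) {lam : K} (hlam0 : lam ≠ 0)
    (hlam1 : M.vK lam < 1) (hlamp : M.vK lam ^ (p - 1) = M.vK (p : K))
    {w : F} {D : Divisor K F} (hw0 : w ≠ 0)
    (hD : ∀ P, P.ord w = p * D P) (hw1 : ∀ i, M.v i (w - 1) < M.vK lam ^ p)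
    (hg : GenClose M D (M.vK lam)) :
    ∃ φ : F, φ ≠ 0 ∧ ∀ P : Place K F, P.ord φ = D P := by
  classical
  have hp0 : p ≠ 0 := hp.ne_zero
  obtain ⟨i₀⟩ := ‹Nonempty ι›
  have hNι : Nonempty ι := ⟨i₀⟩
  have hlampos : 0 < M.vK lam := zero_lt_iff.mpr ((Valuation.ne_zero_iff _).mpr hlam0)
  obtain ⟨pl, E, hE⟩ := exists_base M hS
  -- `D` has degree zero
  have hnD : (p : ℤ) • D = H3RR.divOf w := by
    ext P
    rw [Finsupp.smul_apply, H3RR.divOf_apply hw0, hD P, smul_eq_mul]
  have hdegD : Divisor.degree D = 0 := by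
    have h1 := H3RR.degree_divOf (K := K) hw0
    rw [← hnD, map_zsmul, smul_eq_mul] at h1
    rcases mul_eq_zero.mp h1 with h2 | h2
    · exact absurd (by exact_mod_cast h2) hp0
    · exact h2
  -- a function in `L(D + E)`
  obtain ⟨f₁, hf₁, hf₁E⟩ := H3RR.exists_effective (D := D + E) (by
    rw [map_add, hdegD, hE.deg, zero_add]
    exact_mod_cast hS.card)
  -- normalise it
  have := Fintype.ofFinite ι
  obtain ⟨i₁, hi₁⟩ : ∃ i₁, ∀ i, M.v i f₁ ≤ M.v i₁ f₁ := Finite.exists_max _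
  obtain ⟨c₁, hc₁, hvc₁⟩ := (M.comp i₁).scale f₁ hf₁
  have hc₁F : algebraMap K F c₁ ≠ 0 := (_root_.map_ne_zero _).mpr hc₁
  have hc₁0 : 0 < M.vK c₁ := zero_lt_iff.mpr ((Valuation.ne_zero_iff _).mpr hc₁)
  set f₂ := f₁ / algebraMap K F c₁ with hf₂
  have hf₂0 : f₂ ≠ 0 := div_ne_zero hf₁ hc₁F
  have hvf₂ : ∀ i, M.v i f₂ ≤ 1 := by
    intro i
    rw [hf₂, map_div₀, (M.comp i).v_alg]
    exact (div_le_one₀ hc₁0).mpr (hvc₁ ▸ hi₁ i)
  have hvf₂1 : M.v i₁ f₂ = 1 := by
    rw [hf₂, map_div₀, (M.comp i₁).v_alg, hvc₁, div_self hc₁0.ne']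
  have hE'₂ : ∀ P : Place K F, 0 ≤ D P + E P + P.ord f₂ := by
    intro P
    rw [hf₂, ord_div_algebraMap P hf₁ hc₁]
    have h1 := hf₁E P
    simpa [H3RR.divOf_apply hf₁] using h1
  -- `f₂` is close to a constant
  obtain ⟨c₂, hc₂⟩ : ∃ c₂ : K, ∀ i, M.v i (f₂ - algebraMap K F c₂) < M.vK lam := by
    by_cases hconst : ∃ c : K, f₂ = algebraMap K F c
    · obtain ⟨c, hc⟩ := hconst
      exact ⟨c, fun i => by rw [hc, sub_self, map_zero]; exact hlampos⟩
    · push Not at hconst
      obtain ⟨c, l, hopt⟩ := exists_opt_all M hconst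
      refine ⟨c, fun i => (hopt.le i).trans_lt ?_⟩
      by_contra hcon
      rw [not_lt] at hcon
      exact hopt.not (dev_const M hS hE hlam1.le hg hE'₂ hf₂0 hvf₂ hopt.ne hcon hopt.le)
  have hvc₂ : M.vK c₂ = 1 := by
    rw [← (M.comp i₁).v_alg]
    have e1 : algebraMap K F c₂ = f₂ - (f₂ - algebraMap K F c₂) := by ring
    rw [e1, Valuation.map_sub_eq_of_lt_left _ (by rw [hvf₂1]; exact (hc₂ i₁).trans hlam1), hvf₂1]
  have hc₂0 : c₂ ≠ 0 := by rintro rfl; simp at hvc₂
  have hc₂F : algebraMap K F c₂ ≠ 0 := (_root_.map_ne_zero _).mpr hc₂0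
  set f := f₂ / algebraMap K F c₂ with hf
  have hf0 : f ≠ 0 := div_ne_zero hf₂0 hc₂F
  have hf1 : ∀ i, M.v i (f - 1) < M.vK lam := by
    intro i
    rw [hf, div_sub_one hc₂F, map_div₀, (M.comp i).v_alg, hvc₂, div_one]
    exact hc₂ i
  have hfv : ∀ i, M.v i f = 1 := fun i => (v_eq_one_of_sub M ((hf1 i).trans hlam1)).1
  have hfρ : ∀ i, M.ρ i f = 1 := fun i => (v_eq_one_of_sub M ((hf1 i).trans hlam1)).2
  have hordf : ∀ P : Place K F, P.ord f = P.ord f₂ := fun P => ord_div_algebraMap P hf₂0 hc₂0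
  set E' : Divisor K F := D + E + H3RR.divOf f with hE'
  have hE'app : ∀ P, E' P = D P + E P + P.ord f := fun P => by
    rw [hE', Finsupp.add_apply, Finsupp.add_apply, H3RR.divOf_apply hf0]
  have hE'0 : ∀ P, 0 ≤ E' P := fun P => by rw [hE'app, hordf]; exact hE'₂ P
  -- classes of `E'`
  have hclsE' : ∀ x : ι × Place k Fb, (∀ s, x ∉ M.br s) →
      cls M.sp E' (Sum.inl x) = cls M.sp E (Sum.inl x) := by
    intro x hx
    obtain ⟨g, hg0, hgord, hg1⟩ := hg.smooth x hx
    obtain ⟨hvg, hρg⟩ := v_eq_one_of_sub M (hg1.trans hlam1)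
    have hfg0 : f * g ≠ 0 := mul_ne_zero hf0 hg0
    have h1 : cls M.sp E' (Sum.inl x) = cls M.sp (E + H3RR.divOf (f * g)) (Sum.inl x) := by
      refine cls_congr M.sp fun P hP => ?_
      rw [hE'app, Finsupp.add_apply, H3RR.divOf_apply hfg0, P.ord_mul hf0 hg0, hgord P hP]
      ring
    rw [h1, cls_add, M.smooth_deg x hx (f * g) hfg0 (by rw [map_mul, hfv, hvg, one_mul]) _
      (H3RR.divOf_apply hfg0), (M.comp x.1).ρ_mul _ _ (hfv x.1).le hvg.le, hfρ, hρg, one_mul,
      x.2.ord_one, add_zero]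
  have hE'node : ∀ s P, M.sp P = Sum.inr s → E' P = 0 := by
    intro s P hP
    obtain ⟨g, hg0, hgord, hg1⟩ := hg.node s
    have hvg : ∀ i, M.v i g = 1 := fun i => (v_eq_one_of_sub M ((hg1 i).trans hlam1)).1
    have hρg : ∀ i, M.ρ i g = 1 := fun i => (v_eq_one_of_sub M ((hg1 i).trans hlam1)).2
    have hfg0 : f * g ≠ 0 := mul_ne_zero hf0 hg0
    refine eq_zero_of_cls_eq_zero M.sp (a := Sum.inr s) (fun Q _ => hE'0 Q) ?_ hP
    have h1 : cls M.sp E' (Sum.inr s) = cls M.sp (H3RR.divOf (f * g)) (Sum.inr s) := by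
      refine cls_congr M.sp fun Q hQ => ?_
      rw [hE'app, hE.node s Q hQ, H3RR.divOf_apply hfg0, Q.ord_mul hf0 hg0, hgord Q hQ]
      ring
    rw [h1, M.node_deg s (f * g) hfg0 (fun i => by rw [map_mul, hfv, hvg, one_mul]) _
      (H3RR.divOf_apply hfg0)]
    refine Finset.sum_eq_zero fun x hx => ?_
    rw [(M.comp x.1).ρ_mul _ _ (hfv x.1).le (hvg x.1).le, hfρ, hρg, one_mul, x.2.ord_one]
  have hclsout : ∀ x, x ∉ S → cls M.sp E (Sum.inl x) = 0 := by
    intro x hx
    rw [cls_eq_sum]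
    refine Finset.sum_eq_zero fun P hP => hE.out x hx P (Finset.mem_filter.mp hP).2
  have hE'out : ∀ x, x ∉ S → ∀ P, M.sp P = Sum.inl x → E' P = 0 := by
    intro x hx P hP
    refine eq_zero_of_cls_eq_zero M.sp (a := Sum.inl x) (fun Q _ => hE'0 Q) ?_ hP
    rw [hclsE' x (M.sp_smooth P x hP), hclsout x hx]
  -- the function `W`
  set W := w * f ^ p with hW
  have hfp0 : f ^ p ≠ 0 := pow_ne_zero _ hf0
  have hW0 : W ≠ 0 := mul_ne_zero hw0 hfp0
  have hordW : ∀ P : Place K F, P.ord W = p * (E' P - E P) := by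
    intro P
    rw [hW, P.ord_mul hw0 hfp0, hD P, ord_pow', hE'app]
    ring
  have hvp : ∀ i, M.v i (p : F) = M.vK lam ^ (p - 1) := fun i => by
    rw [hlamp, ← (M.comp i).v_alg, map_natCast (algebraMap K F) p]
  have hpow1 : p - 1 + 1 = p := Nat.sub_add_cancel hp.one_le
  have hfp1 : ∀ i, M.v i (f ^ p - 1) < M.vK lam ^ p := by
    intro i
    obtain ⟨u, hu, hexp⟩ := one_add_pow_small (M.v i) hp (y := f - 1) (q := M.vK lam)
      hlampos.ne' hlam1.le (hvp i).symm (hf1 i)
    have e1 : f ^ p - 1 = p * (f - 1) * u := by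
      have : f = 1 + (f - 1) := by ring
      conv_lhs => rw [this, hexp]
      ring
    have hvu : M.v i u = 1 := (v_eq_one_of_sub M hu).1
    rw [e1, map_mul, map_mul, hvu, mul_one, hvp]
    calc M.vK lam ^ (p - 1) * M.v i (f - 1) < M.vK lam ^ (p - 1) * M.vK lam :=
          mul_lt_mul_of_pos_left (hf1 i) (pow_pos hlampos _)
      _ = M.vK lam ^ p := by rw [← pow_succ, hpow1]
  have hvw : ∀ i, M.v i w = 1 := fun i =>
    (v_eq_one_of_sub M ((hw1 i).trans_le (pow_le_one' hlam1.le _))).1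
  have hW1 : ∀ i, M.v i (W - 1) < M.vK lam ^ p := by
    intro i
    have e1 : W - 1 = w * (f ^ p - 1) + (w - 1) := by rw [hW]; ring
    rw [e1]
    refine (Valuation.map_add _ _ _).trans_lt (max_lt ?_ (hw1 i))
    rw [map_mul, hvw, one_mul]
    exact hfp1 i
  by_cases hconst : ∃ c : K, W = algebraMap K F c
  · obtain ⟨c, hc⟩ := hconst
    have hc0 : c ≠ 0 := by rintro rfl; rw [map_zero] at hc; exact hW0 hc
    refine ⟨f⁻¹, inv_ne_zero hf0, fun P => ?_⟩
    have h1 := hordW P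
    rw [hc, ord_algebraMap' P hc0, hE'app] at h1
    rcases mul_eq_zero.mp h1.symm with h2 | h2
    · exact absurd (by exact_mod_cast h2) hp0
    · rw [P.ord_inv]
      omega
  exfalso
  push Not at hconst
  obtain ⟨c₀, l₀, hopt⟩ := exists_opt_all M hconst
  have hl₀ := hopt.ne
  have hl₀lt : M.vK l₀ < M.vK lam ^ p := by
    obtain ⟨i, hi⟩ := hopt.exists_le 1
    rw [map_one] at hi
    exact hi.trans_lt (hW1 i)
  have hl₀1 : M.vK l₀ < 1 := hl₀lt.trans_le (pow_le_one' hlam1.le _)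
  have hvW : ∀ i, M.v i W = 1 := fun i => by
    rw [hW, map_mul, map_pow, hvw, hfv, one_pow, one_mul]
  have hc₀1 : M.vK c₀ = 1 := by
    rw [← (M.comp i₀).v_alg]
    have e1 : algebraMap K F c₀ = W - (W - algebraMap K F c₀) := by ring
    rw [e1, Valuation.map_sub_eq_of_lt_left _ (by rw [hvW]; exact (hopt.le i₀).trans_lt hl₀1),
      hvW]
  set b := (W - algebraMap K F c₀) / algebraMap K F l₀ with hb
  have hl₀pos : 0 < M.vK l₀ := zero_lt_iff.mpr ((Valuation.ne_zero_iff _).mpr hl₀)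
  have hvb : ∀ i, M.v i b ≤ 1 := fun i => by
    rw [hb, map_div₀, (M.comp i).v_alg]
    exact (div_le_one₀ hl₀pos).mpr (hopt.le i)
  have hregb : ∀ P : Place K F, E' P = 0 → E P = 0 → P.adicValuation b ≤ 1 := by
    intro P h1 h2
    have h3 : P.adicValuation W = 1 := by
      rw [P.adicValuation_eq_exp_neg_ord hW0, hordW P, h1, h2, sub_zero, mul_zero, neg_zero,
        exp_zero]
    rw [hb, map_div₀, H3RR.adicValuation_algebraMap _ hl₀, div_one]
    exact (Valuation.map_sub _ _ _).trans (max_le h3.le (P.adicValuation_algebraMap_le_one _))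
  refine hopt.not (Model.Nonspecial.const M hS b hvb (fun x hx hxS => ?_) (fun x hxS => ?_)
    (fun s => ?_))
  · exact M.reg hx (hvb x.1) fun P hP => hregb P (hE'out x hxS P hP) (hE.out x hxS P hP)
  · have hx := hS.smooth x hxS
    have C := M.comp x.1
    obtain ⟨Q, hQ, hQ1, hQ2⟩ := exists_of_cls_eq_one M.sp (D := E') (a := Sum.inl x)
      (fun P _ => hE'0 P) (by rw [hclsE' x hx, hE.cls x hxS])
    obtain ⟨t, ht⟩ := hE.param x hxS
    obtain ⟨a, ha1, hvt', htord, ht'ord⟩ := param_value M hx (hE.sp x hxS) hQ ht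
    have hE'x : ∀ R, M.sp R = Sum.inl x → E' R - E R =
        (Finsupp.single Q (1 : ℤ) - Finsupp.single (pl x) 1 : Divisor K F) R := by
      intro R hR
      rw [Finsupp.sub_apply, ← hE.inS x hxS R hR]
      congr 1
      rw [Finsupp.single_apply]
      split_ifs with hQR
      · rw [← hQR, hQ1]
      · exact hQ2 R hR (Ne.symm hQR)
    have htv := ht.1
    have ht0 : t ≠ 0 := by rintro rfl; simp at htv
    -- first step: `|a| < |λ|`
    have ha : M.vK a < M.vK lam := by
      obtain ⟨g, hg0, hgord, hg1⟩ := hg.smooth x hx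
      have hfg0 : f * g ≠ 0 := mul_ne_zero hf0 hg0
      have hfg1 : M.v x.1 (f * g - algebraMap K F 1) < M.vK lam := by
        have e1 : f * g - algebraMap K F 1 = f * (g - 1) + (f - 1) := by rw [map_one]; ring
        rw [e1]
        refine (Valuation.map_add _ _ _).trans_lt (max_lt ?_ (hf1 x.1))
        rw [map_mul, hfv, one_mul]
        exact hg1
      have h1 := (local_estimate M hx ht ha1 hvt' htord ht'ord (n := 1) (W := f * g) (u := 1)
        (μ := 1) (c := 1) (l := lam) hfg0 (fun R hR => by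
          rw [← hE'x R hR, R.ord_mul hf0 hg0, hgord R hR, hE'app]
          ring) (by rw [sub_self, map_zero]; exact zero_lt_one) (by rw [map_one])
          (by rw [pow_one, one_mul, mul_one]) (map_one _) hlam0 hfg1.le).1
      rw [one_mul] at h1
      exact h1.trans_lt hfg1
    -- second step
    have hvy : M.v x.1 (-(algebraMap K F a / t)) < M.vK lam := by
      rw [Valuation.map_neg, map_div₀, htv, div_one, C.v_alg]
      exact ha
    obtain ⟨u, hu, hexp⟩ := one_add_pow_small (M.v x.1) hp hlampos.ne' hlam1.le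
      (hvp x.1).symm hvy
    exact (local_estimate M hx ht ha1 hvt' htord ht'ord (n := p) (W := W) (u := u)
      (μ := (p : K)) (c := c₀) (l := l₀) hW0 (fun R hR => by rw [hordW R, hE'x R hR]) hu
      (by rw [← hlamp]; exact pow_le_one' hlam1.le _)
      (by rw [sub_eq_add_neg, hexp, map_mul, map_natCast]; ring) hc₀1 hl₀ (hopt.le x.1)).2
  · exact M.node_val s b hvb fun P hP => hregb P (hE'node s P hP) (hE.node s P hP)

end Fermat.Agent.H40
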