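import Fermat.Agent.H31Hyp3

/-!
# S47, package C21: depletion of a function on `H3` at one prime (helper40)

`O : Subring ℂ` a ring of complex numbers, `δ : ℂ`, `χ x = exp (2πi · 2 Re (x / δ))`, trivial on `O`
and such that `x ∈ O` as soon as `χ` is trivial on `x O`.  If `f` is invariant under `Γ₀(N)` and has an
expansion `∑ a(α) W(α, y) χ(α z)`, then the additive twist
`f - q⁻¹ ∑_{r mod π} f(n(r/π) ·)` is invariant under `Γ₀(N π²)` and has the coefficients
`a(α) 1[π ∤ α]`.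
-/

set_option autoImplicit false

noncomputable section

open Matrix MeasureTheory
open scoped ComplexConjugate Real

namespace Fermat.Agent.H40K

open Fermat.Agent

/-- The additive character `x ↦ exp (2πi Tr (x / δ))`. -/
def chr (δ x : ℂ) : ℂ := Complex.exp (2 * π * Complex.I * ((2 * (x / δ).re : ℝ) : ℂ))

theorem chr_add (δ x x' : ℂ) : chr δ (x + x') = chr δ x * chr δ x' := by
  rw [chr, chr, chr, ← Complex.exp_add, add_div, Complex.add_re]
  congr 1
  push_cast
  ring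

theorem chr_zero (δ : ℂ) : chr δ 0 = 1 := by simp [chr]

theorem norm_chr (δ x : ℂ) : ‖chr δ x‖ = 1 := by
  have h : (2 * π * Complex.I * ((2 * (x / δ).re : ℝ) : ℂ) : ℂ) =
      ((2 * π * (2 * (x / δ).re) : ℝ) : ℂ) * Complex.I := by
    push_cast
    ring
  rw [chr, h, Complex.norm_exp_ofReal_mul_I]

/-- The group `Γ₀(N)` of matrices of determinant one with entries in `O` and lower left entry in
`N O`. -/
structure IsGam (O : Subring ℂ) (N : ℂ) (g : GL (Fin 2) ℂ) : Prop where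
  det : (g : Matrix (Fin 2) (Fin 2) ℂ).det = 1
  mem : ∀ i j, (g : Matrix (Fin 2) (Fin 2) ℂ) i j ∈ O
  low : ∃ t ∈ O, (g : Matrix (Fin 2) (Fin 2) ℂ) 1 0 = N * t

/-- `R` is a system of representatives of `O` modulo `q`. -/
structure IsReps (O : Subring ℂ) (q : ℂ) (R : Finset ℂ) : Prop where
  mem : ∀ r ∈ R, r ∈ O
  ex : ∀ x ∈ O, ∃ r ∈ R, ∃ t ∈ O, x = r + q * t
  uniq : ∀ r ∈ R, ∀ r' ∈ R, (∃ t ∈ O, r = r' + q * t) → r = r'

/-- The twisted function `∑ g(r) f(n(r/q) ·)`. -/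
def dep (q : ℂ) (R : Finset ℂ) (g : ℂ → ℂ) (f : H3 → ℂ) (w : H3) : ℂ :=
  ∑ r ∈ R, g r * f (H3.nMat (r / q) • w)

theorem nMat_coe (b : ℂ) : ((H3.nMat b : GL (Fin 2) ℂ) : Matrix (Fin 2) (Fin 2) ℂ) = !![1, b; 0, 1] :=
  rfl

theorem nMat_mul (b c : ℂ) : H3.nMat b * H3.nMat c = H3.nMat (b + c) := by
  apply Units.ext
  rw [Units.val_mul, nMat_coe, nMat_coe, nMat_coe, Matrix.mul_fin_two]
  ext i j
  fin_cases i <;> fin_cases j <;> simp [add_comm]

/-- Invariance of the twisted function: the weight `G` on the representatives is invariant under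
squares of units modulo `q`. -/
theorem dep_inv {O : Subring ℂ} {N q : ℂ} (hq : q ∈ O) (hN : N ∈ O) (hq0 : q ≠ 0) {R : Finset ℂ}
    (hR : IsReps O q R) {f : H3 → ℂ}
    (hf : ∀ g : GL (Fin 2) ℂ, IsGam O N g → ∀ w, f (g • w) = f w) {G : ℂ → ℂ}
    (hG : ∀ a ∈ O, ∀ d ∈ O, (∃ t ∈ O, a * d = 1 + q * t) → ∀ r ∈ R, ∀ r' ∈ R,
      (∃ t ∈ O, d ^ 2 * r = r' + q * t) → G r = G r')
    {g : GL (Fin 2) ℂ} (hg : IsGam O (N * q ^ 2) g) (w : H3) :
    dep q R G f (g • w) = dep q R G f w := by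
  classical
  obtain ⟨t0, ht0, hc⟩ := hg.low
  set A : Matrix (Fin 2) (Fin 2) ℂ := (g : Matrix (Fin 2) (Fin 2) ℂ) with hA
  set a := A 0 0 with ha
  set b := A 0 1 with hb
  set c := A 1 0 with hcdef
  set d := A 1 1 with hd
  have hamem : a ∈ O := hg.mem 0 0
  have hbmem : b ∈ O := hg.mem 0 1
  have hcmem : c ∈ O := hg.mem 1 0
  have hdmem : d ∈ O := hg.mem 1 1
  have hdet : a * d - b * c = 1 := by
    have := hg.det
    rwa [Matrix.det_fin_two] at this
  have hg' : IsGam O N g := ⟨hg.det, hg.mem, ⟨q ^ 2 * t0, O.mul_mem (O.pow_mem hq 2) ht0, by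
    show c = _
    rw [hc]; ring⟩⟩
  -- the permutation of the representatives
  have hex : ∀ r ∈ R, ∃ r' ∈ R, ∃ t ∈ O, d ^ 2 * r = r' + q * t := fun r hr =>
    hR.ex _ (O.mul_mem (O.pow_mem hdmem 2) (hR.mem r hr))
  choose! σ hσ1 hσ2 using hex
  have hinj : ∀ r ∈ R, ∀ r' ∈ R, σ r = σ r' → r = r' := by
    intro r hr r' hr' h
    obtain ⟨t, ht, e⟩ := hσ2 r hr
    obtain ⟨t', ht', e'⟩ := hσ2 r' hr'
    apply hR.uniq r hr r' hr'
    -- `a² d² = (1 + bc)² = 1 + q² (...)`
    refine ⟨a ^ 2 * (t - t') - (q * N * t0 * b) * (2 + b * c) * (r - r'), ?_, ?_⟩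
    · have h1 : a ^ 2 * (t - t') ∈ O := O.mul_mem (O.pow_mem hamem 2) (O.sub_mem ht ht')
      have h2 : (q * N * t0 * b) * (2 + b * c) * (r - r') ∈ O :=
        O.mul_mem (O.mul_mem (O.mul_mem (O.mul_mem (O.mul_mem hq hN) ht0) hbmem)
          (O.add_mem (ofNat_mem O 2) (O.mul_mem hbmem hcmem)))
          (O.sub_mem (hR.mem r hr) (hR.mem r' hr'))
      exact O.sub_mem h1 h2
    · have h1 : a * d = 1 + b * c := by linear_combination hdet
      have h2 : d ^ 2 * (r - r') = q * (t - t') := by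
        rw [h] at e
        linear_combination e - e'
      have h3 : (a * d) ^ 2 * (r - r') = q * (a ^ 2 * (t - t')) := by
        linear_combination a ^ 2 * h2
      rw [h1] at h3
      have h4 : (1 + b * c) ^ 2 = 1 + q * ((q * N * t0 * b) * (2 + b * c)) := by
        have : b * c = q * (q * N * t0 * b) := by rw [hc]; ring
        linear_combination (2 + b * c) * this
      rw [h4] at h3
      linear_combination h3
  have hsurj : ∀ r' ∈ R, ∃ r ∈ R, σ r = r' := by
    have : Set.SurjOn σ R R := Finset.surjOn_of_injOn_of_card_le σ (fun r hr => hσ1 r hr)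
      (fun r hr r' hr' h => hinj r hr r' hr' h) le_rfl
    intro r' hr'
    obtain ⟨r, hr, h⟩ := this hr'
    exact ⟨r, hr, h⟩
  have hterm : ∀ r ∈ R, G r * f (H3.nMat (r / q) • g • w) =
      G (σ r) * f (H3.nMat (σ r / q) • w) := by
    intro r hr
    obtain ⟨t, ht, e⟩ := hσ2 r hr
    have hGr : G r = G (σ r) := by
      refine hG a hamem d hdmem ⟨q * N * t0 * b, O.mul_mem (O.mul_mem (O.mul_mem hq hN) ht0) hbmem,
        ?_⟩ r hr (σ r) (hσ1 r hr) ⟨t, ht, e⟩
      have h1 : b * c = q * (q * N * t0 * b) := by rw [hc]; ring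
      linear_combination hdet + h1
    rw [hGr]
    congr 1
    have hrm := hR.mem r hr
    have hσm := hR.mem _ (hσ1 r hr)
    -- `n(r/q) g n(-σ r/q)`
    set h : GL (Fin 2) ℂ := H3.nMat (r / q) * g * H3.nMat (-(σ r / q)) with hh
    have hcoe : (h : Matrix (Fin 2) (Fin 2) ℂ) =
        !![a + r / q * c, b + r / q * d - (a + r / q * c) * (σ r / q); c, d - c * (σ r / q)] := by
      rw [hh, Units.val_mul, Units.val_mul, nMat_coe, nMat_coe, Matrix.eta_fin_two (g : Matrix (Fin 2) (Fin 2) ℂ),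
        Matrix.mul_fin_two, Matrix.mul_fin_two]
      ext i j
      fin_cases i <;> fin_cases j
      · simp [← hA, ← ha, ← hcdef]
      · simp [← hA, ← ha, ← hcdef, ← hb, ← hd]
        ring
      · simp [← hA, ← hcdef]
      · simp [← hA, ← hcdef, ← hd]
        ring
    have hcq : c / q = q * N * t0 := by
      rw [hc]
      field_simp
    have hcq2 : c / q ^ 2 = N * t0 := by
      rw [hc]
      field_simp
    have hgam : IsGam O N h := by
      refine ⟨?_, ?_, ?_⟩
      · rw [hcoe, Matrix.det_fin_two_of]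
        linear_combination hdet
      · have h00 : a + r / q * c ∈ O := by
          have : a + r / q * c = a + r * (q * N * t0) := by rw [← hcq]; ring
          rw [this]
          exact O.add_mem hamem (O.mul_mem hrm (O.mul_mem (O.mul_mem hq hN) ht0))
        have h11 : d - c * (σ r / q) ∈ O := by
          have : d - c * (σ r / q) = d - (q * N * t0) * σ r := by rw [← hcq]; ring
          rw [this]
          exact O.sub_mem hdmem (O.mul_mem (O.mul_mem (O.mul_mem hq hN) ht0) hσm)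
        have h01 : b + r / q * d - (a + r / q * c) * (σ r / q) ∈ O := by
          -- `r d - a σ r = r d - a (d² r - q t) = r d (1 - a d) + a q t = - r d b c + a q t`
          have e' : σ r = d ^ 2 * r - q * t := by linear_combination -e
          have : b + r / q * d - (a + r / q * c) * (σ r / q) =
              b - r * d * b * (q * N * t0) + a * t - r * (N * t0) * σ r := by
            rw [← hcq, ← hcq2]
            have h1 : r / q * d - a * (σ r / q) = - r * d * b * (c / q) + a * t := by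
              rw [e']
              field_simp
              linear_combination (-(r * d)) * hdet
            linear_combination h1
          rw [this]
          exact O.sub_mem (O.add_mem (O.sub_mem hbmem (O.mul_mem (O.mul_mem (O.mul_mem hrm hdmem)
            hbmem) (O.mul_mem (O.mul_mem hq hN) ht0))) (O.mul_mem hamem ht))
            (O.mul_mem (O.mul_mem hrm (O.mul_mem hN ht0)) hσm)
        intro i j
        rw [hcoe]
        fin_cases i <;> fin_cases j
        · exact h00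
        · exact h01
        · exact hcmem
        · exact h11
      · exact ⟨q ^ 2 * t0, O.mul_mem (O.pow_mem hq 2) ht0, by
          rw [hcoe]
          show c = _
          rw [hc]; ring⟩
    have heq : H3.nMat (r / q) * g = h * H3.nMat (σ r / q) := by
      rw [hh, mul_assoc (H3.nMat (r / q) * g), nMat_mul, neg_add_cancel]
      have : H3.nMat 0 = 1 := by
        apply Units.ext
        rw [nMat_coe]
        ext i j
        fin_cases i <;> fin_cases j <;> simp
      rw [this, mul_one]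
    rw [← mul_smul, heq, mul_smul, hf h hgam]
  rw [dep, dep, Finset.sum_congr rfl hterm]
  exact Finset.sum_bij (fun r _ => σ r) (fun r hr => hσ1 r hr) (fun r hr r' hr' h => hinj r hr r' hr' h)
    (fun r' hr' => by
      obtain ⟨r, hr, h⟩ := hsurj r' hr'
      exact ⟨r, hr, h⟩) (fun r hr => rfl)

/-- Orthogonality. -/
theorem sum_chr {O : Subring ℂ} {δ q : ℂ} (hq0 : q ≠ 0) {R : Finset ℂ}
    (hR : IsReps O q R) (h1 : ∀ x ∈ O, chr δ x = 1)
    (h2 : ∀ x : ℂ, (∀ b ∈ O, chr δ (x * b) = 1) → x ∈ O) {α : ℂ} (hα : α ∈ O) :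
    ((∃ t ∈ O, α = q * t) → ∑ r ∈ R, chr δ (α * (r / q)) = R.card) ∧
    ((¬ ∃ t ∈ O, α = q * t) → ∑ r ∈ R, chr δ (α * (r / q)) = 0) := by
  classical
  constructor
  · rintro ⟨t, ht, e⟩
    rw [Finset.sum_congr rfl (g := fun _ => (1 : ℂ)), Finset.sum_const, nsmul_eq_mul, mul_one]
    intro r hr
    have : α * (r / q) = t * r := by
      rw [e]
      field_simp
    rw [this]
    exact h1 _ (O.mul_mem ht (hR.mem r hr))
  · intro hn
    -- there is `b` with `chr (α b / q) ≠ 1`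
    have hb : ∃ b ∈ O, chr δ (α / q * b) ≠ 1 := by
      by_contra hcon
      push Not at hcon
      apply hn
      refine ⟨α / q, h2 _ hcon, ?_⟩
      field_simp
    obtain ⟨b, hbO, hb⟩ := hb
    have hex : ∀ r ∈ R, ∃ r' ∈ R, ∃ t ∈ O, r + b = r' + q * t := fun r hr =>
      hR.ex _ (O.add_mem (hR.mem r hr) hbO)
    choose! σ hσ1 hσ2 using hex
    have hinj : ∀ r ∈ R, ∀ r' ∈ R, σ r = σ r' → r = r' := by
      intro r hr r' hr' h
      obtain ⟨t, ht, e⟩ := hσ2 r hr
      obtain ⟨t', ht', e'⟩ := hσ2 r' hr'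
      refine hR.uniq r hr r' hr' ⟨t - t', O.sub_mem ht ht', ?_⟩
      rw [h] at e
      linear_combination e - e'
    have hsurj : ∀ r' ∈ R, ∃ r ∈ R, σ r = r' := by
      have : Set.SurjOn σ R R := Finset.surjOn_of_injOn_of_card_le σ (fun r hr => hσ1 r hr)
        (fun r hr r' hr' h => hinj r hr r' hr' h) le_rfl
      intro r' hr'
      obtain ⟨r, hr, h⟩ := this hr'
      exact ⟨r, hr, h⟩
    set S := ∑ r ∈ R, chr δ (α * (r / q)) with hS
    have hkey : chr δ (α / q * b) * S = S := by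
      rw [hS, Finset.mul_sum]
      refine Finset.sum_bij (fun r _ => σ r) (fun r hr => hσ1 r hr)
        (fun r hr r' hr' h => hinj r hr r' hr' h)
        (fun r' hr' => by
          obtain ⟨r, hr, h⟩ := hsurj r' hr'
          exact ⟨r, hr, h⟩) ?_
      intro r hr
      obtain ⟨t, ht, e⟩ := hσ2 r hr
      rw [← chr_add]
      have : α / q * b + α * (r / q) = α * (σ r / q) + α * t := by
        have e' : σ r = r + b - q * t := by linear_combination -e
        rw [e']
        field_simp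
        ring
      rw [this, chr_add, h1 _ (O.mul_mem hα ht), mul_one]
    have : (chr δ (α / q * b) - 1) * S = 0 := by linear_combination hkey
    rcases mul_eq_zero.mp this with h | h
    · exact absurd (sub_eq_zero.mp h) hb
    · exact h

/-- The expansion of the twisted function. -/
theorem dep_hasSum {O : Subring ℂ} {δ q : ℂ} {R : Finset ℂ} (G : ℂ → ℂ)
    {f : H3 → ℂ} {a : O → ℂ} {W : O → ℝ → ℂ}
    (hf : ∀ w : H3, HasSum (fun α : O => a α * W α w.y * chr δ (α * w.z)) (f w)) (w : H3) :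
    HasSum (fun α : O => (a α * ∑ r ∈ R, G r * chr δ (α * (r / q))) * W α w.y * chr δ (α * w.z))
      (dep q R G f w) := by
  have hs : HasSum (fun α : O => ∑ r ∈ R, G r * (a α * W α w.y * chr δ (α * (w.z + r / q))))
      (∑ r ∈ R, G r * f (H3.nMat (r / q) • w)) := by
    refine hasSum_sum fun r _ => ?_
    rw [H3.nMat_smul]
    exact (hf ⟨w.z + r / q, w.y, w.pos⟩).mul_left (G r)
  refine hs.congr_fun ?_
  intro α
  rw [Finset.mul_sum, Finset.sum_mul, Finset.sum_mul]
  refine Finset.sum_congr rfl fun r _ => ?_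
  rw [mul_add, chr_add]
  ring

/-- The weight whose Fourier transform is the indicator function of the units modulo `q`. -/
def uw (O : Subring ℂ) (δ q : ℂ) (R : Finset ℂ) (r : ℂ) : ℂ :=
  haveI := Classical.decPred fun u : ℂ => ∃ v ∈ O, ∃ t ∈ O, u * v = 1 + q * t
  (R.card : ℂ)⁻¹ * ∑ u ∈ R.filter (fun u : ℂ => ∃ v ∈ O, ∃ t ∈ O, u * v = 1 + q * t),
    chr δ (-(u * (r / q)))

theorem sum_uw {O : Subring ℂ} {δ q : ℂ} (hq0 : q ≠ 0) {R : Finset ℂ}
    (hR : IsReps O q R) (h1 : ∀ x ∈ O, chr δ x = 1)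
    (h2 : ∀ x : ℂ, (∀ b ∈ O, chr δ (x * b) = 1) → x ∈ O) {α : ℂ} (hα : α ∈ O) :
    ((∃ v ∈ O, ∃ t ∈ O, α * v = 1 + q * t) →
      ∑ r ∈ R, uw O δ q R r * chr δ (α * (r / q)) = 1) ∧
    ((¬ ∃ v ∈ O, ∃ t ∈ O, α * v = 1 + q * t) →
      ∑ r ∈ R, uw O δ q R r * chr δ (α * (r / q)) = 0) := by
  classical
  have hcard : (R.card : ℂ) ≠ 0 := by
    obtain ⟨r, hr, -⟩ := hR.ex 0 O.zero_mem
    exact_mod_cast (Finset.card_pos.mpr ⟨r, hr⟩).ne'
  set P : ℂ → Prop := fun u : ℂ => ∃ v ∈ O, ∃ t ∈ O, u * v = 1 + q * t with hP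
  have hsum : ∑ r ∈ R, uw O δ q R r * chr δ (α * (r / q)) =
      (R.card : ℂ)⁻¹ * ∑ u ∈ R.filter P, ∑ r ∈ R, chr δ ((α - u) * (r / q)) := by
    rw [Finset.sum_comm, Finset.mul_sum]
    refine Finset.sum_congr rfl fun r _ => ?_
    rw [uw, mul_assoc, Finset.sum_mul]
    congr 1
    refine Finset.sum_congr (by congr) fun u _ => ?_
    rw [← chr_add]
    congr 1
    ring
  obtain ⟨r0, hr0, t0, ht0, e0⟩ := hR.ex α hα
  have hval : ∀ u ∈ R, (∑ r ∈ R, chr δ ((α - u) * (r / q))) = if u = r0 then (R.card : ℂ) else 0 := by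
    intro u hu
    obtain ⟨ho1, ho2⟩ := sum_chr hq0 hR h1 h2 (O.sub_mem hα (hR.mem u hu))
    split_ifs with h
    · refine ho1 ⟨t0, ht0, ?_⟩
      rw [h, e0]
      ring
    · refine ho2 ?_
      rintro ⟨t, ht, e⟩
      apply h
      refine (hR.uniq r0 hr0 u hu ⟨t - t0, O.sub_mem ht ht0, ?_⟩).symm
      linear_combination e - e0
  have hPr : P r0 ↔ P α := by
    constructor
    · rintro ⟨v, hv, t, ht, e⟩
      refine ⟨v, hv, t + t0 * v, O.add_mem ht (O.mul_mem ht0 hv), ?_⟩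
      rw [e0]
      linear_combination e
    · rintro ⟨v, hv, t, ht, e⟩
      refine ⟨v, hv, t - t0 * v, O.sub_mem ht (O.mul_mem ht0 hv), ?_⟩
      rw [e0] at e
      linear_combination e
  rw [hsum]
  have h3 : ∑ u ∈ R.filter P, ∑ r ∈ R, chr δ ((α - u) * (r / q)) =
      ∑ u ∈ R.filter P, if u = r0 then (R.card : ℂ) else 0 :=
    Finset.sum_congr rfl fun u hu => hval u (Finset.mem_filter.mp hu).1
  rw [h3, Finset.sum_ite_eq']
  constructor
  · intro h
    rw [if_pos (Finset.mem_filter.mpr ⟨hr0, hPr.mpr h⟩)]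
    field_simp
  · intro h
    rw [if_neg (fun hm => h (hPr.mp (Finset.mem_filter.mp hm).2)), mul_zero]

theorem uw_inv {O : Subring ℂ} {δ q : ℂ} (hq : q ∈ O) (hq0 : q ≠ 0) {R : Finset ℂ}
    (hR : IsReps O q R) (h1 : ∀ x ∈ O, chr δ x = 1) :
    ∀ a ∈ O, ∀ d ∈ O, (∃ t ∈ O, a * d = 1 + q * t) → ∀ r ∈ R, ∀ r' ∈ R,
      (∃ t ∈ O, d ^ 2 * r = r' + q * t) → uw O δ q R r = uw O δ q R r' := by
  classical
  rintro a ha d hd ⟨s, hs, e⟩ r hr r' hr' ⟨t, ht, e'⟩
  set P : ℂ → Prop := fun u : ℂ => ∃ v ∈ O, ∃ t ∈ O, u * v = 1 + q * t with hP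
  rw [uw, uw]
  congr 1
  -- `u ↦ a² u`
  have hex : ∀ u ∈ R, ∃ u' ∈ R, ∃ t ∈ O, a ^ 2 * u = u' + q * t := fun u hu =>
    hR.ex _ (O.mul_mem (O.pow_mem ha 2) (hR.mem u hu))
  choose! σ hσ1 hσ2 using hex
  have hd2a2 : ∃ x ∈ O, d ^ 2 * a ^ 2 = 1 + q * x :=
    ⟨s * (2 + q * s), O.mul_mem hs (O.add_mem (ofNat_mem O 2) (O.mul_mem hq hs)), by
      linear_combination (a * d + 1 + q * s) * e⟩
  obtain ⟨x, hx, ex⟩ := hd2a2
  have hinj : ∀ u ∈ R, ∀ u' ∈ R, σ u = σ u' → u = u' := by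
    intro u hu u' hu' h
    obtain ⟨t, ht, e1⟩ := hσ2 u hu
    obtain ⟨t', ht', e1'⟩ := hσ2 u' hu'
    rw [h] at e1
    have h4 : a ^ 2 * (u - u') = q * (t - t') := by linear_combination e1 - e1'
    refine hR.uniq u hu u' hu' ⟨d ^ 2 * (t - t') - x * (u - u'),
      O.sub_mem (O.mul_mem (O.pow_mem hd 2) (O.sub_mem ht ht')) (O.mul_mem hx
        (O.sub_mem (hR.mem u hu) (hR.mem u' hu'))), ?_⟩
    linear_combination (d ^ 2) * h4 - (u - u') * ex
  have hsurj : ∀ u' ∈ R, ∃ u ∈ R, σ u = u' := by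
    have : Set.SurjOn σ R R := Finset.surjOn_of_injOn_of_card_le σ (fun r hr => hσ1 r hr)
      (fun r hr r' hr' h => hinj r hr r' hr' h) le_rfl
    intro r' hr'
    obtain ⟨r, hr, h⟩ := this hr'
    exact ⟨r, hr, h⟩
  -- units go to units
  have hPσ : ∀ u ∈ R, P u ↔ P (σ u) := by
    intro u hu
    obtain ⟨t1, ht1, e1⟩ := hσ2 u hu
    constructor
    · rintro ⟨v, hv, t2, ht2, e2⟩
      refine ⟨d ^ 2 * v, O.mul_mem (O.pow_mem hd 2) hv,
        x * (u * v) + t2 - t1 * (d ^ 2 * v), ?_, ?_⟩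
      · exact O.sub_mem (O.add_mem (O.mul_mem hx (O.mul_mem (hR.mem u hu) hv)) ht2)
          (O.mul_mem ht1 (O.mul_mem (O.pow_mem hd 2) hv))
      · have : σ u = a ^ 2 * u - q * t1 := by linear_combination -e1
        rw [this]
        linear_combination (u * v) * ex + e2
    · rintro ⟨v, hv, t2, ht2, e2⟩
      refine ⟨a ^ 2 * v, O.mul_mem (O.pow_mem ha 2) hv, t2 + t1 * v,
        O.add_mem ht2 (O.mul_mem ht1 hv), ?_⟩
      linear_combination v * e1 + e2
  -- `σ u * r' = a² u d² r = u r` modulo `q`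
  refine Finset.sum_bij (fun u _ => σ u) ?_ ?_ ?_ ?_
  · intro u hu
    rw [Finset.mem_filter] at hu ⊢
    exact ⟨hσ1 u hu.1, (hPσ u hu.1).mp hu.2⟩
  · intro u hu u' hu' h
    exact hinj u (Finset.mem_filter.mp hu).1 u' (Finset.mem_filter.mp hu').1 h
  · intro u' hu'
    rw [Finset.mem_filter] at hu'
    obtain ⟨u, hu, h⟩ := hsurj u' hu'.1
    exact ⟨u, Finset.mem_filter.mpr ⟨hu, (hPσ u hu).mpr (h ▸ hu'.2)⟩, h⟩
  · intro u hu
    rw [Finset.mem_filter] at hu
    obtain ⟨t1, ht1, e1⟩ := hσ2 u hu.1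
    have hu' := hR.mem u hu.1
    have hr1 := hR.mem r hr
    have hr1' := hR.mem r' hr'
    have hy : x * (u * r) - t * (a ^ 2 * u) - t1 * r' ∈ O :=
      O.sub_mem (O.sub_mem (O.mul_mem hx (O.mul_mem hu' hr1))
        (O.mul_mem ht (O.mul_mem (O.pow_mem ha 2) hu'))) (O.mul_mem ht1 hr1')
    have hkey : -(σ u * (r' / q)) = -(u * (r / q)) +
        -(x * (u * r) - t * (a ^ 2 * u) - t1 * r') := by
      have e2 : σ u = a ^ 2 * u - q * t1 := by linear_combination -e1
      have e3 : r' = d ^ 2 * r - q * t := by linear_combination -e'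
      have e4 : σ u * r' = u * r + q * (x * (u * r) - t * (a ^ 2 * u) - t1 * r') := by
        rw [e2]
        linear_combination (a ^ 2 * u) * e3 + (u * r) * ex
      field_simp
      linear_combination -e4
    rw [hkey, chr_add, h1 _ (O.neg_mem hy), mul_one]

end Fermat.Agent.H40K
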