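import Fermat.Agent.H40K1
import Fermat.Agent.H9ZRad
import Fermat.Agent.H91ZICT

/-!
# S47, package C21: from a function with a multiplicative expansion to `ICT` (helper40)

`PreICT N lam a f`: `f` is invariant under `Γ₀(N)`, bounded, a `K₀`-eigenfunction with coefficients
`a`, which satisfy the Hecke recursions with real eigenvalues `lam ϖ` at the primes `ϖ` prime to `N`.
Then the depletion of `f` at the primes dividing `N` satisfies `ICT (N ^ 3)`.
-/

set_option autoImplicit false

noncomputable section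

open Matrix MeasureTheory
open scoped ComplexConjugate Real

namespace Fermat.Agent.H40K

open Fermat.Agent Fermat.Agent.S47T

/-! ### Coefficients -/

section coeff

variable {R : Type*} [CommRing R] [IsDomain R] [IsPrincipalIdealRing R]

omit [IsDomain R] [IsPrincipalIdealRing R] in
theorem not_isCoprime_of_prime {p N x : R} (hpN : ¬ IsCoprime p N) {i : ℕ}
    (hi : i ≠ 0) : ¬ IsCoprime (p ^ i * x) N := by
  intro h
  apply hpN
  have h1 := IsCoprime.of_mul_left_left h
  exact (IsCoprime.pow_left_iff (Nat.pos_of_ne_zero hi)).mp h1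

/-- Multiplicativity from the recursions. -/
theorem coeff_mul {N : R} {a : R → ℂ} (h0 : a 0 = 0) (h1 : a 1 = 1)
    (hu : ∀ u x, IsUnit u → a (u * x) = a x) (hsupp : ∀ x, ¬ IsCoprime x N → a x = 0)
    {lam : R → ℂ}
    (hrec : ∀ ϖ, Prime ϖ → IsCoprime ϖ N → ∀ x, a (ϖ * (ϖ * x)) = lam ϖ * a (ϖ * x) - a x)
    (hrec0 : ∀ ϖ, Prime ϖ → IsCoprime ϖ N → ∀ x, ¬ ϖ ∣ x → a (ϖ * x) = lam ϖ * a x) (x : R) :
    ∀ y, IsCoprime x y → a (x * y) = a x * a y := by
  refine UniqueFactorizationMonoid.induction_on_coprime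
    (P := fun x => ∀ y, IsCoprime x y → a (x * y) = a x * a y) x ?_ ?_ ?_ ?_
  · intro y _
    rw [zero_mul, h0, zero_mul]
  · intro u huu y _
    have h2 := hu u 1 huu
    rw [mul_one] at h2
    rw [hu u y huu, h2, h1, one_mul]
  · intro p i hp y hy
    rcases Nat.eq_zero_or_pos i with hi | hi
    · subst hi
      rw [pow_zero, one_mul, h1, one_mul]
    by_cases hpN : IsCoprime p N
    · have hpy : ¬ p ∣ y := by
        intro hd
        have h2 : IsCoprime p y := (IsCoprime.pow_left_iff hi).mp hy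
        exact hp.not_isUnit (h2.isUnit_of_dvd' dvd_rfl hd)
      have hap : a p = lam p := by
        have h2 := hrec0 p hp hpN 1 (fun hd => hp.not_isUnit (isUnit_of_dvd_one hd))
        rwa [mul_one, h1, mul_one] at h2
      have key : ∀ k : ℕ, a (p ^ k * y) = a (p ^ k) * a y ∧
          a (p ^ (k + 1) * y) = a (p ^ (k + 1)) * a y := by
        intro k
        induction k with
        | zero =>
          refine ⟨by rw [pow_zero, one_mul, h1, one_mul], ?_⟩
          rw [zero_add, pow_one, hrec0 p hp hpN y hpy, hap]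
        | succ k ih =>
          refine ⟨ih.2, ?_⟩
          have e1 := hrec p hp hpN (p ^ k * y)
          have e2 := hrec p hp hpN (p ^ k)
          have e3 : p ^ (k + 1 + 1) * y = p * (p * (p ^ k * y)) := by ring
          have e4 : p ^ (k + 1 + 1) = p * (p * p ^ k) := by ring
          have e5 : p * (p ^ k * y) = p ^ (k + 1) * y := by ring
          have e6 : p * p ^ k = p ^ (k + 1) := by ring
          rw [e3, e1, e4, e2, e5, e6, ih.1, ih.2]
          ring
      exact (key i).1
    · rw [hsupp _ (not_isCoprime_of_prime hpN hi.ne'), hsupp (p ^ i), zero_mul]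
      have := not_isCoprime_of_prime (x := 1) hpN hi.ne'
      rwa [mul_one] at this
  · intro x y hxy hx hy z hz
    have h2 : IsCoprime x y := isRelPrime_iff_isCoprime.mp hxy
    have h3 : IsCoprime x z := IsCoprime.of_mul_left_left hz
    have h4 : IsCoprime y z := IsCoprime.of_mul_left_right hz
    rw [mul_assoc, hx _ (h2.mul_right h3), hy z h4, hx y h2, mul_assoc]

/-- Reality from the recursions. -/
theorem coeff_real {N : R} {a : R → ℂ} (h0 : a 0 = 0) (h1 : a 1 = 1)
    (hu : ∀ u x, IsUnit u → a (u * x) = a x) (hsupp : ∀ x, ¬ IsCoprime x N → a x = 0)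
    {lam : R → ℝ}
    (hrec : ∀ ϖ, Prime ϖ → IsCoprime ϖ N → ∀ x, a (ϖ * (ϖ * x)) = (lam ϖ : ℂ) * a (ϖ * x) - a x)
    (hrec0 : ∀ ϖ, Prime ϖ → IsCoprime ϖ N → ∀ x, ¬ ϖ ∣ x → a (ϖ * x) = (lam ϖ : ℂ) * a x)
    (x : R) : conj (a x) = a x := by
  refine UniqueFactorizationMonoid.induction_on_coprime (P := fun x => conj (a x) = a x) x
    ?_ ?_ ?_ ?_
  · rw [h0, map_zero]
  · intro u huu
    have h2 := hu u 1 huu
    rw [mul_one] at h2
    rw [h2, h1, map_one]
  · intro p i hp
    rcases Nat.eq_zero_or_pos i with hi | hi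
    · subst hi
      rw [pow_zero, h1, map_one]
    by_cases hpN : IsCoprime p N
    · have hap : a p = lam p := by
        have h2 := hrec0 p hp hpN 1 (fun hd => hp.not_isUnit (isUnit_of_dvd_one hd))
        rwa [mul_one, h1, mul_one] at h2
      have key : ∀ k : ℕ, conj (a (p ^ k)) = a (p ^ k) ∧
          conj (a (p ^ (k + 1))) = a (p ^ (k + 1)) := by
        intro k
        induction k with
        | zero =>
          refine ⟨by rw [pow_zero, h1, map_one], ?_⟩
          rw [zero_add, pow_one, hap, Complex.conj_ofReal]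
        | succ k ih =>
          refine ⟨ih.2, ?_⟩
          have e2 := hrec p hp hpN (p ^ k)
          have e4 : p ^ (k + 1 + 1) = p * (p * p ^ k) := by ring
          have e6 : p * p ^ k = p ^ (k + 1) := by ring
          rw [e4, e2, e6, map_sub, map_mul, Complex.conj_ofReal, ih.1, ih.2]
      exact (key i).1
    · have := not_isCoprime_of_prime (x := 1) hpN hi.ne'
      rw [mul_one] at this
      rw [hsupp (p ^ i) this, map_zero]
  · intro x y hxy hx hy
    have h2 : IsCoprime x y := isRelPrime_iff_isCoprime.mp hxy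
    rw [coeff_mul h0 h1 hu hsupp hrec hrec0 x y h2, map_mul, hx, hy]

end coeff

/-! ### `ℤ[ω]` -/

theorem sq3_re : sq3.re = 0 := by simp [sq3]

theorem sq3_im : sq3.im = Real.sqrt 3 := by simp [sq3]

theorem sqrt3_pos : (0 : ℝ) < Real.sqrt 3 := Real.sqrt_pos.mpr (by norm_num)

theorem sqrt3_mul : Real.sqrt 3 * Real.sqrt 3 = 3 := Real.mul_self_sqrt (by norm_num)

theorem div_sq3_re (x : ℂ) : (x / sq3).re = x.im / Real.sqrt 3 := by
  have h : x / sq3 = -(x * sq3) / 3 := by
    rw [div_eq_div_iff sq3_ne_zero (by norm_num)]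
    linear_combination x * sq3_mul_sq3
  have h3 : Real.sqrt 3 ≠ 0 := sqrt3_pos.ne'
  rw [h]
  have : (-(x * sq3) / 3).re = (x.im * Real.sqrt 3) / 3 := by
    rw [show (-(x * sq3) / 3 : ℂ) = ((1 / 3 : ℝ) : ℂ) * (-(x * sq3)) by push_cast; ring,
      Complex.re_ofReal_mul, Complex.neg_re, Complex.mul_re, sq3_re, sq3_im]
    ring
  rw [this, div_eq_div_iff (by norm_num) h3]
  linear_combination x.im * sqrt3_mul

theorem om_re : om.re = -1 / 2 := by
  rw [om, show ((-1 + sq3) / 2 : ℂ) = ((1 / 2 : ℝ) : ℂ) * (-1 + sq3) by push_cast; ring,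
    Complex.re_ofReal_mul, Complex.add_re, sq3_re]
  simp
  norm_num

theorem om_im : om.im = Real.sqrt 3 / 2 := by
  rw [om, show ((-1 + sq3) / 2 : ℂ) = ((1 / 2 : ℝ) : ℂ) * (-1 + sq3) by push_cast; ring,
    Complex.im_ofReal_mul, Complex.add_im, sq3_im]
  simp
  ring

theorem chr_sq3_eq_one_iff (x : ℂ) : chr sq3 x = 1 ↔ ∃ n : ℤ, 2 * x.im / Real.sqrt 3 = n := by
  rw [chr, Complex.exp_eq_one_iff, div_sq3_re]
  have h2 : (2 * (π : ℂ) * Complex.I) ≠ 0 := Complex.two_pi_I_ne_zero
  constructor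
  · rintro ⟨n, hn⟩
    refine ⟨n, ?_⟩
    rw [mul_comm (n : ℂ)] at hn
    have h3 := mul_left_cancel₀ h2 hn
    have h4 : (2 * (x.im / Real.sqrt 3) : ℝ) = n := by exact_mod_cast h3
    rw [← h4]
    ring
  · rintro ⟨n, hn⟩
    refine ⟨n, ?_⟩
    have h4 : (2 * (x.im / Real.sqrt 3) : ℝ) = n := by rw [← hn]; ring
    rw [h4]
    push_cast
    ring

theorem chr_sq3_of_mem {x : ℂ} (hx : x ∈ Eis) : chr sq3 x = 1 := by
  obtain ⟨a, b, rfl⟩ := hx
  rw [chr_sq3_eq_one_iff]
  refine ⟨b, ?_⟩
  have h3 : Real.sqrt 3 ≠ 0 := sqrt3_pos.ne'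
  rw [Complex.add_im, Complex.intCast_im, Complex.mul_im, Complex.intCast_im, Complex.intCast_re,
    om_im]
  field_simp
  ring

theorem mem_of_chr_sq3 {x : ℂ} (hx : ∀ b ∈ Eis, chr sq3 (x * b) = 1) : x ∈ Eis := by
  obtain ⟨m, hm⟩ := (chr_sq3_eq_one_iff _).mp (hx 1 Eis.one_mem)
  obtain ⟨n, hn⟩ := (chr_sq3_eq_one_iff _).mp (hx om om_mem)
  rw [mul_one] at hm
  rw [Complex.mul_im, om_re, om_im] at hn
  have h3 : Real.sqrt 3 ≠ 0 := sqrt3_pos.ne'
  have h1 : x.im = m * Real.sqrt 3 / 2 := by
    field_simp at hm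
    linarith
  have h2 : x.re = n + m / 2 := by
    rw [h1] at hn
    field_simp at hn
    linarith
  refine ⟨n + m, m, ?_⟩
  apply Complex.ext
  · rw [h2]
    simp [om_re]
    ring
  · rw [h1]
    simp [om_im]
    ring

/-- Representatives modulo a natural number. -/
theorem exists_isReps {N : ℕ} (hN : 0 < N) : ∃ R : Finset ℂ, IsReps Eis (N : ℂ) R := by
  classical
  have hN' : (0 : ℤ) < N := by exact_mod_cast hN
  refine ⟨(Finset.range N ×ˢ Finset.range N).image fun p : ℕ × ℕ => (p.1 : ℂ) + p.2 * om, ?_, ?_,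
    ?_⟩
  · intro r hr
    obtain ⟨p, -, rfl⟩ := Finset.mem_image.mp hr
    exact ⟨p.1, p.2, by push_cast; rfl⟩
  · rintro x ⟨a, b, rfl⟩
    refine ⟨((a % N : ℤ) : ℂ) + ((b % N : ℤ) : ℂ) * om, Finset.mem_image.mpr ?_,
      ((a / N : ℤ) : ℂ) + ((b / N : ℤ) : ℂ) * om, ⟨a / N, b / N, rfl⟩, ?_⟩
    · refine ⟨((a % N).toNat, (b % N).toNat), Finset.mem_product.mpr ⟨?_, ?_⟩, ?_⟩
      · rw [Finset.mem_range]
        have := Int.emod_lt_of_pos a hN'
        have := Int.emod_nonneg a hN'.ne'
        omega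
      · rw [Finset.mem_range]
        have := Int.emod_lt_of_pos b hN'
        have := Int.emod_nonneg b hN'.ne'
        omega
      · have h1 : (((a % N).toNat : ℤ)) = a % N := Int.toNat_of_nonneg (Int.emod_nonneg a hN'.ne')
        have h2 : (((b % N).toNat : ℤ)) = b % N := Int.toNat_of_nonneg (Int.emod_nonneg b hN'.ne')
        show ((a % N).toNat : ℂ) + ((b % N).toNat : ℂ) * om = _
        rw [← h1, ← h2]
        push_cast
        rfl
    · have h1 : (a : ℂ) = ((a % N : ℤ) : ℂ) + (N : ℂ) * ((a / N : ℤ) : ℂ) := by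
        exact_mod_cast (Int.emod_add_mul_ediv a N).symm
      have h2 : (b : ℂ) = ((b % N : ℤ) : ℂ) + (N : ℂ) * ((b / N : ℤ) : ℂ) := by
        exact_mod_cast (Int.emod_add_mul_ediv b N).symm
      rw [h1, h2]
      ring_nf
  · intro r hr r' hr' h
    obtain ⟨p, hp, rfl⟩ := Finset.mem_image.mp hr
    obtain ⟨p', hp', rfl⟩ := Finset.mem_image.mp hr'
    obtain ⟨t, ⟨s, s', rfl⟩, e⟩ := h
    rw [Finset.mem_product, Finset.mem_range, Finset.mem_range] at hp hp'
    have e1 := om_indep (a := p.1 - p'.1 - N * s) (b := p.2 - p'.2 - N * s') (by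
      push_cast
      linear_combination e)
    have h1 : (p.1 : ℤ) = p'.1 := by
      have e2 : (p.1 : ℤ) - p'.1 = N * s := by linarith [e1.1]
      have h5 : s = 0 := by
        by_contra hs
        rcases lt_or_gt_of_ne hs with h | h
        · have : (N : ℤ) * s ≤ -N := by nlinarith
          have := hp.1
          have := hp'.1
          omega
        · have : (N : ℤ) * s ≥ N := by nlinarith
          have := hp.1
          have := hp'.1
          omega
      rw [h5, mul_zero] at e2
      linarith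
    have h2 : (p.2 : ℤ) = p'.2 := by
      have e2 : (p.2 : ℤ) - p'.2 = N * s' := by linarith [e1.2]
      have h5 : s' = 0 := by
        by_contra hs
        rcases lt_or_gt_of_ne hs with h | h
        · have : (N : ℤ) * s' ≤ -N := by nlinarith
          have := hp.2
          have := hp'.2
          omega
        · have : (N : ℤ) * s' ≥ N := by nlinarith
          have := hp.2
          have := hp'.2
          omega
      rw [h5, mul_zero] at e2
      linarith
    have h3 : p.1 = p'.1 := by exact_mod_cast h1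
    have h4 : p.2 = p'.2 := by exact_mod_cast h2
    rw [h3, h4]

end Fermat.Agent.H40K
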