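import Fermat.Agent.H9ZRad
import Fermat.Agent.H56ZRad4
import Fermat.Agent.H96TDef

/-!
# The analytic fields of the interface (I-CT) (package C21, part A4)

* `hat1_ofReal`: the value `hat1` of a real radial kernel is `S47T.kap0`;
* `EigSm f`: all smooth compactly supported radial kernels act on `f` by `kap0`;
* stability of `EigSm` under linear combinations and isometries; continuity of bounded
  measurable functions with `EigSm`;
* passage from `J → H3` with one element index set `J` to `H3`.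
-/

set_option autoImplicit false
set_option linter.unusedSectionVars false

noncomputable section

open MeasureTheory Set Filter Topology
open scoped Real ENNReal

namespace Fermat.Agent.H69I

open Fermat.Agent.H5Z (chv Rk continuous_chv)
open Fermat.Agent.H9Z (R1 hat1 Ker1 Eig1)
open Fermat.Agent.S47T (kap0)

/-! ### The volume of open sets -/

instance isOpenPosMeasure_H3 : (volume : Measure H3).IsOpenPosMeasure := by
  constructor
  intro U hU hne h0
  have h1 : (volume : Measure (ℂ × ℝ)) (H3.coord '' U) = 0 := by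
    have h2 := H3.measurePreserving_coord_symm.measure_preimage hU.measurableSet.nullMeasurableSet
    rw [← H3.coord.symm.image_symm, Homeomorph.symm_symm] at h2
    rw [h2, h0]
  have h3 : IsOpen (H3.coord '' U) := H3.coord.isOpenMap U hU
  exact (h3.measure_pos volume (hne.image _)).ne' h1

/-! ### `hat1` and `kap0` -/

/-- the integrand in horospherical coordinates -/
def GG (κ : ℝ → ℝ) (p : ℝ × ℝ) : ℝ := κ p.1 * Real.exp p.2

theorem integral_ch_mul_y (κ : ℝ → ℝ) (hκ : Continuous κ) (hs : ∃ T, ∀ t, T < t → κ t = 0) :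
    ∫ u : H3, κ (H3.ch H3.base u) * u.y = kap0 κ := by
  obtain ⟨T, hT⟩ := hs
  have hG : Continuous (GG κ) := by
    unfold GG
    fun_prop
  have h1 : ∫ u : H3, κ (H3.ch H3.base u) * u.y = ∫ p, GG κ p ∂H56Z.rho := by
    rw [← (H56Z.measurePreserving_chl H3.base).map_eq, integral_map
      (H56Z.measurable_chl _).aemeasurable hG.aestronglyMeasurable]
    refine integral_congr_ae (Eventually.of_forall fun u => ?_)
    simp only [GG, H56Z.chl, H3.base_y, Real.log_one, sub_zero]
    rw [Real.exp_log u.pos]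
  set S : Set (ℝ × ℝ) := {p : ℝ × ℝ | Real.cosh p.2 < p.1} with hS
  have hSm : MeasurableSet S := H56Z.measurableSet_cosh_lt
  have h2 : ∫ p, GG κ p ∂H56Z.rho = ∫ p in S, 2 * π * κ p.1 := by
    have hd : Measurable fun p : ℝ × ℝ => ENNReal.ofReal (2 * π * Real.exp (-p.2)) := by fun_prop
    rw [H56Z.rho, integral_withDensity_eq_integral_toReal_smul hd
      (Eventually.of_forall fun _ => ENNReal.ofReal_lt_top)]
    refine integral_congr_ae (Eventually.of_forall fun p => ?_)
    simp only [GG, smul_eq_mul]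
    rw [ENNReal.toReal_ofReal (by positivity)]
    have : Real.exp (-p.2) * Real.exp p.2 = 1 := by rw [← Real.exp_add]; simp
    linear_combination (2 * π * κ p.1) * this
  -- integrability
  have hbox : ∀ p ∈ S, p.1 ≤ T → p ∈ Icc (0 : ℝ) T ×ˢ Icc (-T) T := by
    rintro ⟨t, s⟩ h ht
    have h1 : Real.cosh s < t := h
    have h2 : 1 ≤ Real.cosh s := Real.one_le_cosh s
    have h3 : |s| ≤ Real.cosh s := by
      rw [← Real.cosh_abs s, Real.cosh_eq]
      have h4 := Real.add_one_le_exp |s|
      have h5 := Real.exp_pos (-|s|)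
      have h6 : Real.exp |s| ≥ 1 + |s| + |s| ^ 2 / 2 := by
        have := Real.quadratic_le_exp_of_nonneg (abs_nonneg s)
        linarith
      have h7 : Real.exp (-|s|) ≥ 1 - |s| := by
        have := Real.add_one_le_exp (-|s|)
        linarith
      nlinarith [sq_nonneg (|s| - 2)]
    have ht' : t ≤ T := ht
    have h4 : |s| ≤ T := by linarith
    exact ⟨⟨by simp only; linarith, ht'⟩, abs_le.mp h4⟩
  have hcont : Continuous fun p : ℝ × ℝ => 2 * π * κ p.1 := by fun_prop
  have hint : Integrable (S.indicator fun p : ℝ × ℝ => 2 * π * κ p.1) := by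
    have hK : IsCompact (Icc (0 : ℝ) T ×ˢ Icc (-T) T) := isCompact_Icc.prod isCompact_Icc
    have h3 : Integrable ((Icc (0 : ℝ) T ×ˢ Icc (-T) T).indicator
        (S.indicator fun p : ℝ × ℝ => 2 * π * κ p.1)) := by
      rw [indicator_indicator, integrable_indicator_iff (hK.measurableSet.inter hSm)]
      exact (hcont.continuousOn.integrableOn_compact hK).mono_set inter_subset_left
    refine h3.congr (Eventually.of_forall fun p => ?_)
    by_cases hp : p ∈ Icc (0 : ℝ) T ×ˢ Icc (-T) T
    · exact indicator_of_mem hp _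
    · rw [indicator_of_notMem hp]
      by_cases hpS : p ∈ S
      · have h4 : T < p.1 := by
          by_contra h5
          exact hp (hbox p hpS (not_lt.mp h5))
        rw [indicator_of_mem hpS, hT _ h4, mul_zero]
      · rw [indicator_of_notMem hpS]
  have h3 : ∫ p in S, 2 * π * κ p.1 = ∫ s : ℝ, 2 * π * ∫ t in Ioi (Real.cosh s), κ t := by
    rw [← integral_indicator hSm, Measure.volume_eq_prod,
      integral_prod_symm _ (by rwa [← Measure.volume_eq_prod])]
    refine integral_congr_ae (Eventually.of_forall fun s => ?_)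
    simp only
    rw [← integral_const_mul, ← integral_indicator measurableSet_Ioi]
    refine integral_congr_ae (Eventually.of_forall fun t => ?_)
    simp only
    by_cases h : Real.cosh s < t
    · rw [indicator_of_mem (show (t, s) ∈ S from h), indicator_of_mem (show t ∈ Ioi _ from h)]
    · rw [indicator_of_notMem (show (t, s) ∉ S from h),
        indicator_of_notMem (show t ∉ Ioi _ from h)]
  rw [h1, h2, h3, kap0, ← integral_comp_abs (f := fun s => 2 * π * ∫ t in Ioi (Real.cosh s), κ t)]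
  refine integral_congr_ae (Eventually.of_forall fun s => ?_)
  simp only [Real.cosh_abs]

theorem hat1_ofReal (κ : ℝ → ℝ) (hκ : Continuous κ) (hs : ∃ T, ∀ t, T < t → κ t = 0) :
    hat1 (fun t => (κ t : ℂ)) = (kap0 κ : ℂ) := by
  rw [← integral_ch_mul_y κ hκ hs, hat1, R1, ← integral_complex_ofReal]
  refine integral_congr_ae (Eventually.of_forall fun u => ?_)
  simp

/-! ### The eigenfunction property for smooth compactly supported kernels -/

/-- every smooth compactly supported radial kernel acts by `kap0` (field `eig` of `ICT`) -/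
def EigSm (f : H3 → ℂ) : Prop := ∀ κ : ℝ → ℝ, ContDiff ℝ ((⊤ : ℕ∞) : WithTop ℕ∞) κ →
  HasCompactSupport κ → ∀ w, ∫ w', (κ (H3.ch w w') : ℂ) * f w' = kap0 κ * f w

theorem exists_bound_of_compactSupport {κ : ℝ → ℝ} (hs : HasCompactSupport κ) :
    ∃ T, ∀ t, T < t → κ t = 0 := by
  obtain ⟨T, hT⟩ := hs.isCompact.bddAbove
  refine ⟨T, fun t ht => image_eq_zero_of_notMem_tsupport fun h => ?_⟩
  exact absurd (hT h) (not_le.mpr ht)

theorem ker1_of_smooth {κ : ℝ → ℝ} (hκ : Continuous κ) (hs : HasCompactSupport κ) :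
    Ker1 (fun t => (κ t : ℂ)) := by
  obtain ⟨T, hT⟩ := exists_bound_of_compactSupport hs
  refine ⟨(Complex.continuous_ofReal.comp hκ).continuousOn, T, fun t _ ht => ?_⟩
  rw [hT t ht, Complex.ofReal_zero]

theorem eigSm_of_eig1 {f : H3 → ℂ} (hf : Eig1 f) : EigSm f := by
  intro κ hκ hs w
  have h1 := hf _ (ker1_of_smooth hκ.continuous hs) w
  rw [hat1_ofReal κ hκ.continuous (exists_bound_of_compactSupport hs)] at h1
  exact h1

theorem EigSm.const_mul {f : H3 → ℂ} (hf : EigSm f) (c : ℂ) : EigSm (fun w => c * f w) := by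
  intro κ hκ hs w
  have h1 := hf κ hκ hs w
  have h2 : ∀ w', (κ (H3.ch w w') : ℂ) * (c * f w') = c * ((κ (H3.ch w w') : ℂ) * f w') :=
    fun w' => by ring
  simp only [h2]
  rw [integral_const_mul, h1]
  ring

theorem EigSm.sum {I : Type*} (s : Finset I) {f : I → H3 → ℂ}
    (hf : ∀ i ∈ s, EigSm (f i)) (hl : ∀ i ∈ s, LocallyIntegrable (f i)) :
    EigSm (fun w => ∑ i ∈ s, f i w) := by
  intro κ hκ hs w
  have h2 : ∀ w', (κ (H3.ch w w') : ℂ) * (∑ i ∈ s, f i w') =
      ∑ i ∈ s, (κ (H3.ch w w') : ℂ) * f i w' := fun w' => Finset.mul_sum _ _ _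
  simp only [h2]
  rw [integral_finsetSum _ fun i hi => (ker1_of_smooth hκ.continuous hs).integrable w (hl i hi),
    Finset.mul_sum]
  exact Finset.sum_congr rfl fun i hi => hf i hi κ hκ hs w

/-- invariance under isometries -/
theorem EigSm.comp_smul {f : H3 → ℂ} (hf : EigSm f) (g : GL (Fin 2) ℂ) :
    EigSm (fun w => f (g • w)) := by
  intro κ hκ hs w
  have h1 := hf κ hκ hs (g • w)
  rw [← (H3.measurePreserving_smul g).integral_comp (Homeomorph.smul g).measurableEmbedding] at h1
  rw [← h1]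
  refine integral_congr_ae (Eventually.of_forall fun w' => ?_)
  simp only
  rw [H3.ch_smul]

/-! ### A kernel with nonzero value -/

theorem kap0_pos {κ : ℝ → ℝ} (hκ : Continuous κ) (hs : HasCompactSupport κ)
    (h0 : ∀ t, 0 ≤ κ t) {t₀ : ℝ} (ht₀ : 1 ≤ t₀) (h1 : κ t₀ ≠ 0) : 0 < kap0 κ := by
  obtain ⟨T, hT⟩ := exists_bound_of_compactSupport hs
  rw [← integral_ch_mul_y κ hκ ⟨T, hT⟩]
  have hc : Continuous fun u : H3 => κ (H3.ch H3.base u) * u.y := by
    refine Continuous.mul (hκ.comp ?_) H3.continuous_y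
    exact H3.continuous_ch.comp (continuous_const.prodMk continuous_id)
  refine hc.integral_pos_of_hasCompactSupport_nonneg_nonzero ?_ (fun u => ?_)
    (x := H56Z.ax t₀) ?_
  · refine HasCompactSupport.intro (H9Z.isCompact_ball H3.base T) fun u hu => ?_
    rw [hT _ (not_le.mp hu), zero_mul]
  · exact mul_nonneg (h0 _) u.pos.le
  · rw [H56Z.ch_base_ax, max_eq_left ht₀]
    exact mul_ne_zero h1 (H56Z.ax t₀).pos.ne'

theorem exists_kernel : ∃ κ : ℝ → ℝ, ContDiff ℝ ((⊤ : ℕ∞) : WithTop ℕ∞) κ ∧
    HasCompactSupport κ ∧ 0 < kap0 κ := by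
  let φ : ContDiffBump (2 : ℝ) := ⟨1 / 2, 1, by norm_num, by norm_num⟩
  refine ⟨φ, φ.contDiff, φ.hasCompactSupport, ?_⟩
  refine kap0_pos φ.continuous φ.hasCompactSupport (fun t => φ.nonneg) (t₀ := 2) (by norm_num) ?_
  rw [φ.one_of_mem_closedBall (Metric.mem_closedBall_self φ.rIn_pos.le)]
  exact one_ne_zero

/-! ### One element index sets -/

section Uniq

variable {J : Type*} [Fintype J] [Unique J]

/-- a one variable kernel as a kernel on `J → H3` -/
def toJ (κ : ℝ → ℂ) (u : J → ℝ) : ℂ := κ (u default)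

theorem integral_funUnique (g : (J → H3) → ℂ) : ∫ w, g w = ∫ u : H3, g (fun _ => u) := by
  have h : MeasurePreserving (MeasurableEquiv.funUnique J H3).symm (volume : Measure H3)
      (volume : Measure (J → H3)) := by
    convert (volume_preserving_funUnique J H3).symm
  rw [← h.integral_comp (MeasurableEquiv.funUnique J H3).symm.measurableEmbedding g]
  refine integral_congr_ae (Eventually.of_forall fun u => ?_)
  simp only
  congr 1

theorem Rk_toJ (κ : ℝ → ℂ) (g : (J → H3) → ℂ) (w : J → H3) :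
    Rk (toJ κ) g w = ∫ u : H3, κ (H3.ch (w default) u) * g (fun _ => u) :=
  integral_funUnique _

theorem Rk_toJ_const (κ : ℝ → ℂ) (g : (J → H3) → ℂ) (w : H3) :
    Rk (toJ κ) g (fun _ => w) = ∫ u : H3, κ (H3.ch w u) * g (fun _ => u) :=
  Rk_toJ κ g _

theorem hat_toJ (κ : ℝ → ℂ) : H9Z.hat (toJ κ : (J → ℝ) → ℂ) = hat1 κ := by
  rw [H9Z.hat, Rk_toJ, hat1, R1]
  refine integral_congr_ae (Eventually.of_forall fun u => ?_)
  simp

/-- the eigenfunction property on `J → H3` gives `EigSm` -/
theorem eigSm_of_Rk {Φ : (J → H3) → ℂ}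
    (hΦ : ∀ κ : ℝ → ℝ, ContDiff ℝ ((⊤ : ℕ∞) : WithTop ℕ∞) κ → HasCompactSupport κ → ∀ w,
      Rk (toJ fun t => (κ t : ℂ)) Φ w = H9Z.hat (toJ (fun t => (κ t : ℂ)) : (J → ℝ) → ℂ) * Φ w) :
    EigSm fun u => Φ fun _ => u := by
  intro κ hκ hs w
  have h1 := hΦ κ hκ hs fun _ => w
  rw [Rk_toJ_const, hat_toJ,
    hat1_ofReal κ hκ.continuous (exists_bound_of_compactSupport hs)] at h1
  exact h1

theorem isRC_toJ {κ : ℝ → ℝ} (hκ : Continuous κ) (hs : HasCompactSupport κ) :
    H56Z.IsRC (toJ (fun t => (κ t : ℂ)) : (J → ℝ) → ℂ) := by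
  obtain ⟨T, hT⟩ := exists_bound_of_compactSupport hs
  obtain ⟨M, hM⟩ := hκ.bounded_above_of_compact_support hs
  refine ⟨Complex.continuous_ofReal.comp (hκ.comp (continuous_apply _)), ⟨M, fun u => ?_⟩, T,
    fun u hu => ?_⟩
  · rw [toJ, Complex.norm_real]
    exact hM _
  · obtain ⟨j, hj⟩ := hu
    rw [Unique.eq_default j] at hj
    rw [toJ, hT _ hj, Complex.ofReal_zero]

end Uniq

/-- bounded measurable functions with the eigenfunction property are continuous -/
theorem EigSm.continuous {f : H3 → ℂ} (hf : EigSm f) (hm : Measurable f) {C : ℝ}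
    (hC : ∀ w, ‖f w‖ ≤ C) : Continuous f := by
  obtain ⟨κ, hκ, hs, h0⟩ := exists_kernel
  set g : (Unit → H3) → ℂ := fun w => f (w ()) with hg
  have hgm : Measurable g := hm.comp (measurable_pi_apply ())
  have hLB : H56Z.IsLB g := H56Z.IsLB.of_bounded hgm.aestronglyMeasurable fun w => hC _
  have h1 := H56Z.continuous_Rk (isRC_toJ (J := Unit) hκ.continuous hs) hLB
  have h2 : f = fun w => (kap0 κ : ℂ)⁻¹ * Rk (toJ fun t => (κ t : ℂ)) g (fun _ => w) := by
    funext w
    rw [Rk_toJ_const]
    have h3 : ∫ u : H3, (κ (H3.ch w u) : ℂ) * g (fun _ => u) = kap0 κ * f w := hf κ hκ hs w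
    rw [h3, ← mul_assoc, inv_mul_cancel₀ (Complex.ofReal_ne_zero.mpr h0.ne'), one_mul]
  rw [h2]
  exact continuous_const.mul (h1.comp (continuous_pi fun _ => continuous_id))

end Fermat.Agent.H69I
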