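import Fermat.Agent.H85I2
import Fermat.Agent.H79SDef
import Fermat.Agent.H69I1

/-!
# S47, package C21: from the output of block (C) to the classical function (helper85)

* `levelOK_of` : the level of the output of block (C) satisfies `LevelOK`;
* `f1_continuous`, `f1_bdd`, `f1_eig` : the analytic fields of `PreICT`;
* `exists_fields` : all of them together with the invariance under `Gam N₀`.
-/

set_option autoImplicit false
set_option linter.unusedSectionVars false
set_option linter.unusedVariables false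

noncomputable section

open IsDedekindDomain HeightOneSpectrum WithZero NumberField Matrix MeasureTheory
open scoped MatrixGroups

namespace Fermat.Agent.H85I

open Fermat.Agent.H59XF Fermat.Agent.H59D Fermat.Agent.H7.Z Fermat.Agent.S47T
open Fermat.Agent.H83Z Fermat.Agent.H76U Fermat.Agent.H69I Fermat.Agent.H79S

variable {K : Type*} [Field K] [NumberField K] [IsCyclotomicExtension {3} ℚ K]
  {J : Type*} [Fintype J] [Unique J]

/-- The level of the output of block (C) satisfies `LevelOK`. -/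
theorem levelOK_of {m : Model K J} {S : Finset (HeightOneSpectrum (𝓞 K))}
    {v0 : HeightOneSpectrum (𝓞 K)} {T : HeightOneSpectrum (𝓞 K) → TD K} (hv0 : v0 ∉ S)
    (hS : ∀ v ∈ S, m.L.U v = (T v).U) (h0 : m.L.U v0 = H83Z.Iw v0)
    (hg : ∀ v ∉ S, v ≠ v0 → m.L.U v = H59D.U0 v) (hur : ∀ v ∉ S, H7.Z.Unram v)
    (hpsi : ∀ v ∈ S, ∀ x, (T v).psi x = H7.Z.psi v x)
    (hlow : ∀ v ∈ S, (∀ b : K, (∀ r : K, v.valuation K r ≤ 1 → H7.Z.psi v (b * r) = 1) →
      b ∈ (T v).B) ∧ ∃ k : ℕ, ∀ c : K, v.valuation K c ≤ exp (-(k : ℤ)) → c ∈ (T v).C) :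
    LevelOK m.L ((sqO (m.e default) : 𝓞 K) : K) := by
  intro v
  by_cases hv : v ∈ S
  · right
    obtain ⟨hB, k, hC⟩ := hlow v hv
    refine ⟨k, fun b c hb hc g hgm => ?_⟩
    have hbB : b ∈ (T v).B := hB b hb
    have hcC : c ∈ (T v).C := hC c hc
    have e00 : g 0 0 = 1 := by
      rw [hgm]; rfl
    have e01 : g 0 1 = b := by
      rw [hgm]; rfl
    have e10 : g 1 0 = c := by
      rw [hgm]; rfl
    have e11 : g 1 1 = 1 := by
      rw [hgm]; rfl
    have hGH : g ∈ (T v).GH := by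
      rw [TD.mem_GH, e00, e01, e10, e11, sub_self]
      exact ⟨(T v).A.zero_mem, hbB, hcC, (T v).A.zero_mem⟩
    rw [hS v hv, TD.mem_U]
    refine ⟨⟨g, hGH, rfl⟩, ?_⟩
    rw [TD.chi_of_mem _ hGH, e01, hpsi v hv]
    have := hb 1 (by simp)
    rwa [mul_one] at this
  · by_cases hv' : v = v0
    · right
      subst hv'
      refine ⟨1, fun b c hb hc g hgm => ?_⟩
      have hb1 : v.valuation K b ≤ 1 := hur v hv b hb
      have hc1 : v.valuation K c ≤ exp (-(1 : ℤ)) := by simpa using hc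
      have hexp : (exp (-(1 : ℤ)) : WithZero (Multiplicative ℤ)) < 1 := by
        rw [← exp_zero, exp_lt_exp]; norm_num
      rw [h0]
      refine ⟨g, ⟨⟨?_, ?_⟩, ?_⟩, rfl⟩
      · intro i j
        change v.valuation K ((g : Matrix (Fin 2) (Fin 2) K) i j) ≤ 1
        rw [hgm]
        fin_cases i <;> fin_cases j
        · simp
        · exact hb1
        · exact hc1.trans hexp.le
        · simp
      · rw [hgm, Matrix.det_fin_two_of, one_mul, sub_eq_add_neg]
        apply (v.valuation K).map_one_add_of_lt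
        rw [Valuation.map_neg, map_mul]
        exact lt_of_le_of_lt (mul_le_of_le_one_left' hb1) (hc1.trans_lt hexp)
      · change v.valuation K ((g : Matrix (Fin 2) (Fin 2) K) 1 0) ≤ exp (-1 : ℤ)
        rw [hgm]
        exact hc1
    · left
      refine ⟨hg v hv hv', ?_⟩
      have hs0 := sqO_ne_zero (K := K) (m.e default)
      have hs0' : ((sqO (m.e default) : 𝓞 K) : K) ≠ 0 := by exact_mod_cast hs0
      have h1 : v.valuation K (((sqO (m.e default) : 𝓞 K) : K)⁻¹) ≤ 1 := by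
        apply hur v hv
        intro r hr
        apply psi_of_dual hs0 (trace_sqO m)
        have : ((sqO (m.e default) : 𝓞 K) : K)⁻¹ * r * (sqO (m.e default) : 𝓞 K) = r := by
          field_simp
        rw [this]
        exact hr
      refine le_antisymm (val_le_one v _) ?_
      rw [map_inv₀] at h1
      exact (inv_le_one₀ (zero_lt_iff.mpr ((Valuation.ne_zero_iff _).mpr hs0'))).mp h1

section Analytic

variable {m : Model K J} {S : Finset (HeightOneSpectrum (𝓞 K))} {v0 : HeightOneSpectrum (𝓞 K)}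
  {T : HeightOneSpectrum (𝓞 K) → TD K} {a : HeightOneSpectrum (𝓞 K) → ℝ} {Φ : m.X → ℂ}

theorem cont_term (h : IsMForm m S v0 T a Φ) (y : XF m.L.fam) :
    Continuous fun w : H3 => Φ (ptX m (dl • w) y) :=
  (h.cont y).comp (continuous_pi fun _ => continuous_const_smul dl)

theorem eig_term (h : IsMForm m S v0 T a Φ) (y : XF m.L.fam) :
    EigSm fun w : H3 => Φ (ptX m (dl • w) y) := by
  have h1 : EigSm fun w : H3 => Φ (ptX m w y) := by
    refine eigSm_of_Rk (Φ := fun τ => Φ (τ, y)) fun κ hκ hs w => ?_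
    refine h.rad _ ⟨?_, ?_⟩ y w
    · exact (Complex.continuous_ofReal.comp (hκ.continuous.comp (continuous_apply _))).continuousOn
    · obtain ⟨R, hR⟩ := exists_bound_of_compactSupport hs
      refine ⟨R, fun t _ ht => ?_⟩
      obtain ⟨j, hj⟩ := ht
      rw [Unique.eq_default j] at hj
      rw [toJ, hR _ hj, Complex.ofReal_zero]
  exact h1.comp_smul dl

theorem f1_continuous {s : K} (hL : LevelOK m.L s) (h : IsMForm m S v0 T a Φ) :
    Continuous (f1 m Φ) := by
  have h1 : f1 m Φ = fun w => ∑ y ∈ (finite_UD hL).toFinset, Φ (ptX m (dl • w) y) :=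
    funext fun w => f1_eq_sum hL Φ w
  rw [h1]
  exact continuous_finsetSum _ fun y _ => cont_term h y

theorem f1_bdd {s : K} (hL : LevelOK m.L s) (h : IsMForm m S v0 T a Φ) :
    ∃ C, ∀ w, ‖f1 m Φ w‖ ≤ C := by
  obtain ⟨M, hM⟩ := h.bdd
  refine ⟨∑ y ∈ (finite_UD hL).toFinset, M, fun w => ?_⟩
  rw [f1_eq_sum hL]
  exact (norm_sum_le _ _).trans (Finset.sum_le_sum fun y _ => hM _)

theorem f1_eig {s : K} (hL : LevelOK m.L s) (h : IsMForm m S v0 T a Φ) : EigSm (f1 m Φ) := by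
  have h1 : f1 m Φ = fun w => ∑ y ∈ (finite_UD hL).toFinset, Φ (ptX m (dl • w) y) :=
    funext fun w => f1_eq_sum hL Φ w
  rw [h1]
  exact EigSm.sum _ (fun y _ => eig_term h y) fun y _ => (cont_term h y).locallyIntegrable

/-- **All the analytic fields of `PreICT`.** -/
theorem exists_fields (hv0 : v0 ∉ S)
    (hS : ∀ v ∈ S, m.L.U v = (T v).U) (h0 : m.L.U v0 = H83Z.Iw v0)
    (hg : ∀ v ∉ S, v ≠ v0 → m.L.U v = H59D.U0 v) (hur : ∀ v ∉ S, H7.Z.Unram v)
    (hpsi : ∀ v ∈ S, ∀ x, (T v).psi x = H7.Z.psi v x)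
    (hlow : ∀ v ∈ S, (∀ b : K, (∀ r : K, v.valuation K r ≤ 1 → H7.Z.psi v (b * r) = 1) →
      b ∈ (T v).B) ∧ ∃ k : ℕ, ∀ c : K, v.valuation K c ≤ exp (-(k : ℤ)) → c ∈ (T v).C)
    (h : IsMForm m S v0 T a Φ) (q : ℕ) (hq : 0 < q) :
    ∃ N₀ : ℕ, 0 < N₀ ∧ q ∣ N₀ ∧ Continuous (f1 m Φ) ∧ (∃ C, ∀ w, ‖f1 m Φ w‖ ≤ C) ∧
      (∀ g ∈ Gam N₀, ∀ w, f1 m Φ (g • w) = f1 m Φ w) ∧ EigSm (f1 m Φ) := by
  have hL := levelOK_of hv0 hS h0 hg hur hpsi hlow
  obtain ⟨N₀, hN0, hqN, hinv⟩ := exists_Gam_inv m hL q hq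
  exact ⟨N₀, hN0, hqN, f1_continuous hL h, f1_bdd hL h, hinv Φ h.inv, f1_eig hL h⟩

end Analytic

end Fermat.Agent.H85I
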