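import Fermat.Agent.H40K4
import Fermat.Agent.H72RB
import Fermat.Agent.H7ZX
import Fermat.Agent.H85I3
import Fermat.Agent.H37NIct
import Fermat.Agent.H83ZEis2

/-!
# S47, package C21: the coefficients of the averaged form, arithmetic side (helper40)

`M = ℚ(ω)`, `m : Model M J`, `J` with one element, `κ` the Whittaker function of `Φ`.
The sum `f₁` of `Φ` over the unit diagonal points has the expansion required in `PreICT`.
-/

set_option autoImplicit false
set_option linter.unusedSectionVars false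

open IsDedekindDomain HeightOneSpectrum WithZero NumberField Matrix
open scoped MatrixGroups Real

noncomputable section

namespace Fermat.Agent.H40K

open Fermat.Agent.H59XF Fermat.Agent.H59D Fermat.Agent.H7.Z Fermat.Agent.H72R Fermat.Agent.S47T

theorem norm_one_div_sq3 : ‖(1 : ℂ) / sq3‖ = 1 / Real.sqrt 3 := by
  rw [norm_div, norm_one, sq3, norm_mul, Complex.norm_I, one_mul, Complex.norm_real,
    Real.norm_of_nonneg (Real.sqrt_nonneg 3)]

theorem dl_smul (w : H3) : (H85I.dl • w).z = 1 / sq3 * w.z ∧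
    (H85I.dl • w).y = 1 / Real.sqrt 3 * w.y := by
  have h0 : (1 : ℂ) / sq3 ≠ 0 := one_div_ne_zero sq3_ne_zero
  have h1 : H85I.dl • w = H3.dMat (1 / sq3) h0 • w := rfl
  rw [h1, H3.dMat_smul]
  refine ⟨rfl, ?_⟩
  change ‖(1 : ℂ) / sq3‖ * w.y = _
  rw [norm_one_div_sq3]

section Coeff

variable {M : Type*} [Field M] [NumberField M] {J : Type*} [Fintype J] [Unique J] {m : Model M J}
  {κ : XF m.L.fam → ℂ}

/-- The sum of the values of `κ`. -/
def ksum (hE : EF (m.e default)) (κ : XF m.L.fam → ℂ) (P : Finset (XF m.L.fam)) (α : Eis) : ℂ :=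
  ∑ y ∈ P, H19W.coef (dY (borP M) m.L.fam) κ y ((hE.eO.symm α : 𝓞 M) : M)

/-- The coefficients of the classical form. -/
def aco (hE : EF (m.e default)) (κ : XF m.L.fam → ℂ) (P : Finset (XF m.L.fam)) (α : Eis) : ℂ :=
  ((‖(α : ℂ)‖ / Real.sqrt 3 : ℝ) : ℂ) * ksum hE κ P α

/-- An element of `ℤ[ω]` as a unit of `M`. -/
def liftU (hE : EF (m.e default)) (α : Eis) (hα : α ≠ 0) : Mˣ :=
  Units.mk0 ((hE.eO.symm α : 𝓞 M) : M) (by
    have := hE.symm_ne_zero hα
    exact_mod_cast this)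

theorem ksum_of_ne (hE : EF (m.e default)) {P : Finset (XF m.L.fam)} {α : Eis} (hα : α ≠ 0) :
    ksum hE κ P α = ∑ y ∈ P, κ ((borP M).d (liftU hE α hα) • y) := by
  refine Finset.sum_congr rfl fun y _ => ?_
  exact H19W.coef_unit (dY (borP M) m.L.fam) κ y (liftU hE α hα)

theorem ksum_zero (hE : EF (m.e default)) {P : Finset (XF m.L.fam)} : ksum hE κ P 0 = 0 := by
  refine Finset.sum_eq_zero fun y _ => ?_
  rw [map_zero]
  exact H19W.coef_zero _ κ y

variable [DecidableEq (HeightOneSpectrum (𝓞 M))] {S : Finset (HeightOneSpectrum (𝓞 M))}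
  {w0 : HeightOneSpectrum (𝓞 M)} {lam : HeightOneSpectrum (𝓞 M) → ℝ} {Φ : m.X → ℂ}

/-- **The expansion.** -/
theorem expn_f1 (hE : EF (m.e default))
    (hW : H19W.IsWM m (fun u => H22Z.K0 (4 * Real.pi * u)) Φ κ) (hC : CoefData m.L κ S w0 lam)
    (hdu : ∀ w ∈ S, ∀ t : Mˣ, (borP M).d t ∈ m.L.U w → w.valuation M (t : M) = 1)
    (hfin : (UD m.L).Finite) (w : H3) :
    HasSum (fun α : Eis => aco hE κ hfin.toFinset α *
      ((w.y * K0 (4 * π * ‖(α : ℂ)‖ * w.y / Real.sqrt 3) : ℝ) : ℂ) *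
      S47T.ee ((2 * ((α : ℂ) * w.z / sq3).re : ℝ)))
      (∑ y ∈ hfin.toFinset, Φ (H85I.ptX m (H85I.dl • w) y)) := by
  set x : J → H3 := fun _ => H85I.dl • w with hx
  have h1 : ∀ y ∈ hfin.toFinset, HasSum (fun α : M => H19W.coef (dY (borP M) m.L.fam) κ y α *
      H19W.wt m.e (fun u => u * H22Z.K0 (4 * Real.pi * u)) α x *
      H19W.chi m.e α (fun j => (x j).z)) (Φ (H85I.ptX m (H85I.dl • w) y)) := fun y _ =>
    ((isW_of hW) y).sum x
  have h2 := hasSum_sum h1
  have hinj : Function.Injective fun α : Eis => ((hE.eO.symm α : 𝓞 M) : M) := by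
    intro α β hαβ
    have h3 : (hE.eO.symm α : 𝓞 M) = hE.eO.symm β := Subtype.ext hαβ
    exact hE.eO.symm.injective h3
  rw [← hinj.hasSum_iff] at h2
  · convert h2 using 2 with α
    simp only [Function.comp]
    rw [← Finset.sum_mul, ← Finset.sum_mul]
    have e1 : H19W.wt m.e (fun u => u * H22Z.K0 (4 * Real.pi * u)) ((hE.eO.symm α : 𝓞 M) : M) x =
        ‖(α : ℂ)‖ / Real.sqrt 3 * (w.y * K0 (4 * π * ‖(α : ℂ)‖ * w.y / Real.sqrt 3)) := by
      rw [H19W.wt, Fintype.prod_unique, hE.e_symm, hx]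
      simp only
      rw [(dl_smul w).2, H37N.K0_eq]
      have e2 : 4 * Real.pi * (‖(α : ℂ)‖ * (1 / Real.sqrt 3 * w.y)) =
          4 * π * ‖(α : ℂ)‖ * w.y / Real.sqrt 3 := by ring
      rw [e2]
      ring
    have e3 : H19W.chi m.e ((hE.eO.symm α : 𝓞 M) : M) (fun j => (x j).z) =
        S47T.ee ((2 * ((α : ℂ) * w.z / sq3).re : ℝ)) := by
      rw [H19W.chi, H19W.pair, Fintype.sum_unique, hE.e_symm, hx, S47T.ee]
      simp only
      rw [(dl_smul w).1]
      have e4 : (α : ℂ) * (1 / sq3 * w.z) = (α : ℂ) * w.z / sq3 := by ring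
      rw [e4]
    rw [e1, e3, aco, ksum]
    push_cast
    ring
  · intro α hα
    rw [← Finset.sum_mul, ← Finset.sum_mul]
    have h3 : ¬ ∀ w : HeightOneSpectrum (𝓞 M), w.valuation M α ≤ 1 := by
      intro h
      obtain ⟨β, hβ⟩ := hE.exists_eq_of_integral h
      exact hα ⟨β, hβ⟩
    have h4 : α ≠ 0 := by
      rintro rfl
      apply h3
      intro w
      rw [map_zero]
      exact zero_le
    have h5 : ∑ y ∈ hfin.toFinset, H19W.coef (dY (borP M) m.L.fam) κ y α = 0 := by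
      refine Finset.sum_eq_zero fun y hy => ?_
      have h6 := H19W.coef_unit (dY (borP M) m.L.fam) κ y (Units.mk0 α h4)
      rw [Units.val_mk0] at h6
      rw [h6]
      exact hC.eq_zero_of_not hdu ((Set.Finite.mem_toFinset _).mp hy) fun h => h3 h.2
    rw [h5, zero_mul, zero_mul]

/-- The value at an element prime to the bad places. -/
theorem ksum_unit (hE : EF (m.e default)) (hC : CoefData m.L κ S w0 lam) (hfin : (UD m.L).Finite)
    {α : Eis} (hα : α ≠ 0)
    (hS : ∀ w ∈ S, w.valuation M ((hE.eO.symm α : 𝓞 M) : M) = 1) :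
    ksum hE κ hfin.toFinset α = κ (zpt m.L S (liftU hE α hα)) := by
  rw [ksum_of_ne hE hα]
  exact hC.sum_UD hfin hS

theorem ksum_eq_zero (hE : EF (m.e default)) (hC : CoefData m.L κ S w0 lam)
    (hdu : ∀ w ∈ S, ∀ t : Mˣ, (borP M).d t ∈ m.L.U w → w.valuation M (t : M) = 1)
    (hfin : (UD m.L).Finite) {α : Eis}
    (hS : ¬ ∀ w ∈ S, w.valuation M ((hE.eO.symm α : 𝓞 M) : M) = 1) :
    ksum hE κ hfin.toFinset α = 0 := by
  by_cases hα : α = 0
  · rw [hα, ksum_zero]
  rw [ksum_of_ne hE hα]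
  refine Finset.sum_eq_zero fun y hy => ?_
  exact hC.eq_zero_of_not hdu ((Set.Finite.mem_toFinset _).mp hy) fun h => hS h.1

theorem liftU_mul (hE : EF (m.e default)) {α β : Eis} (hα : α ≠ 0) (hβ : β ≠ 0)
    (h : α * β ≠ 0) : liftU hE (α * β) h = liftU hE α hα * liftU hE β hβ := by
  apply Units.ext
  rw [Units.val_mul]
  change ((hE.eO.symm (α * β) : 𝓞 M) : M) = _
  rw [map_mul]
  rfl

theorem liftU_one (hE : EF (m.e default)) : liftU hE 1 one_ne_zero = 1 := by
  apply Units.ext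
  change ((hE.eO.symm 1 : 𝓞 M) : M) = 1
  rw [map_one]
  rfl

theorem val_unit (hE : EF (m.e default)) {u : Eis} (hu : IsUnit u)
    (w : HeightOneSpectrum (𝓞 M)) : w.valuation M ((hE.eO.symm u : 𝓞 M) : M) = 1 := by
  obtain ⟨v, hv⟩ := hu.exists_left_inv
  have h1 : w.valuation M ((hE.eO.symm v : 𝓞 M) : M) * w.valuation M ((hE.eO.symm u : 𝓞 M) : M) =
      1 := by
    rw [← map_mul]
    have : ((hE.eO.symm v : 𝓞 M) : M) * ((hE.eO.symm u : 𝓞 M) : M) = 1 := by
      have h2 : (hE.eO.symm v : 𝓞 M) * hE.eO.symm u = 1 := by rw [← map_mul, hv, map_one]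
      exact_mod_cast congrArg (fun z : 𝓞 M => (z : M)) h2
    rw [this, map_one]
  refine le_antisymm (hE.val_le_one w u) ?_
  rw [← h1]
  exact mul_le_of_le_one_left' (hE.val_le_one w v)

theorem norm_unit {u : Eis} (hu : IsUnit u) : ‖(u : ℂ)‖ = 1 := by
  have h1 := H83Z.normSq_eq_one_of_isUnit hu
  rw [Complex.normSq_eq_norm_sq] at h1
  nlinarith [norm_nonneg (u : ℂ)]

theorem aco_unit (hE : EF (m.e default)) (hC : CoefData m.L κ S w0 lam)
    (hdu : ∀ w ∈ S, ∀ t : Mˣ, (borP M).d t ∈ m.L.U w → w.valuation M (t : M) = 1)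
    (hfin : (UD m.L).Finite) (u α : Eis) (hu : IsUnit u) :
    aco hE κ hfin.toFinset (u * α) = aco hE κ hfin.toFinset α := by
  by_cases hα : α = 0
  · rw [hα, mul_zero]
  have hu0 : u ≠ 0 := hu.ne_zero
  have hv : ∀ w : HeightOneSpectrum (𝓞 M),
      w.valuation M ((hE.eO.symm (u * α) : 𝓞 M) : M) =
        w.valuation M ((hE.eO.symm α : 𝓞 M) : M) := by
    intro w
    have : ((hE.eO.symm (u * α) : 𝓞 M) : M) =
        ((hE.eO.symm u : 𝓞 M) : M) * ((hE.eO.symm α : 𝓞 M) : M) := by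
      rw [map_mul]; rfl
    rw [this, map_mul, val_unit hE hu, one_mul]
  have hn : ‖((u * α : Eis) : ℂ)‖ = ‖(α : ℂ)‖ := by
    rw [Subring.coe_mul, norm_mul, norm_unit hu, one_mul]
  rw [aco, aco, hn]
  congr 1
  by_cases hS : ∀ w ∈ S, w.valuation M ((hE.eO.symm α : 𝓞 M) : M) = 1
  · rw [ksum_unit hE hC hfin hα hS, ksum_unit hE hC hfin (mul_ne_zero hu0 hα)
      fun w hw => (hv w).trans (hS w hw), liftU_mul hE hu0 hα, hC.zpt_unit]
    exact fun w _ => val_unit hE hu w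
  · rw [ksum_eq_zero hE hC hdu hfin hS, ksum_eq_zero hE hC hdu hfin fun h => hS fun w hw => ?_]
    rw [← hv w]
    exact h w hw

theorem aco_one (hE : EF (m.e default)) (hC : CoefData m.L κ S w0 lam)
    (hfin : (UD m.L).Finite) : aco hE κ hfin.toFinset 1 ≠ 0 := by
  rw [aco, ksum_unit hE hC hfin one_ne_zero fun w _ => val_unit hE isUnit_one w, liftU_one,
    CoefData.zpt_one]
  refine mul_ne_zero ?_ hC.base
  rw [Complex.ofReal_ne_zero, Subring.coe_one, norm_one]
  exact one_div_ne_zero (Real.sqrt_ne_zero'.mpr (by norm_num))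

end Coeff

end Fermat.Agent.H40K
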