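import Fermat.Agent.H40K5

/-!
# S47, package C21: recursion and the final theorem (helper40)
-/

set_option autoImplicit false
set_option linter.unusedSectionVars false

open IsDedekindDomain HeightOneSpectrum WithZero NumberField Matrix
open scoped MatrixGroups Real

noncomputable section

namespace Fermat.Agent.H40K

open Fermat.Agent.H59XF Fermat.Agent.H59D Fermat.Agent.H7.Z Fermat.Agent.H72R Fermat.Agent.S47T

section Rec

variable {M : Type*} [Field M] [NumberField M] {J : Type*} [Fintype J] [Unique J] {m : Model M J}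
  {κ : XF m.L.fam → ℂ}
  [DecidableEq (HeightOneSpectrum (𝓞 M))] {S : Finset (HeightOneSpectrum (𝓞 M))}
  {w0 : HeightOneSpectrum (𝓞 M)} {lam : HeightOneSpectrum (𝓞 M) → ℝ} {Φ : m.X → ℂ}

/-- The eigenvalues as a function of the prime element. -/
def lamE (hE : EF (m.e default)) (lam : HeightOneSpectrum (𝓞 M) → ℝ) (ϖ : Eis) : ℝ :=
  haveI := Classical.propDecidable
  if h : Prime ϖ then lam (hE.place ϖ h) else 0

theorem lamE_of (hE : EF (m.e default)) {ϖ : Eis} (h : Prime ϖ) :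
    lamE hE lam ϖ = lam (hE.place ϖ h) := dif_pos h

theorem val_ne_place (hE : EF (m.e default)) {ϖ : Eis} (h : Prime ϖ)
    {w' : HeightOneSpectrum (𝓞 M)} (hw : w' ≠ hE.place ϖ h) :
    w'.valuation M ((hE.eO.symm ϖ : 𝓞 M) : M) = 1 := by
  refine le_antisymm (hE.val_le_one w' ϖ) ?_
  by_contra hcon
  apply hw
  rw [not_le, show ((hE.eO.symm ϖ : 𝓞 M) : M) = algebraMap (𝓞 M) M (hE.eO.symm ϖ) from rfl,
    HeightOneSpectrum.valuation_lt_one_iff_mem] at hcon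
  apply HeightOneSpectrum.ext
  symm
  refine (hE.place ϖ h).isMaximal.eq_of_le w'.isPrime.ne_top ?_
  rw [hE.place_asIdeal, EF.id, Ideal.span_singleton_le_iff_mem]
  exact hcon

theorem norm_sq_place (hE : EF (m.e default)) {ϖ : Eis} (h : Prime ϖ) :
    ((Ideal.absNorm (hE.place ϖ h).asIdeal : ℕ) : ℝ) = ‖(ϖ : ℂ)‖ ^ 2 := by
  rw [hE.absNorm_place, Complex.normSq_eq_norm_sq]

theorem sqrt_norm_place (hE : EF (m.e default)) {ϖ : Eis} (h : Prime ϖ) :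
    Real.sqrt ((Ideal.absNorm (hE.place ϖ h).asIdeal : ℕ) : ℝ) = ‖(ϖ : ℂ)‖ := by
  rw [norm_sq_place, Real.sqrt_sq (norm_nonneg _)]

theorem not_mem_of_coprime (hE : EF (m.e default)) {N : ℕ} {ϖ : Eis} (h : Prime ϖ)
    (hc : IsCoprime ϖ (N : Eis)) : (N : 𝓞 M) ∉ (hE.place ϖ h).asIdeal := by
  rw [hE.natCast_mem_iff]
  exact fun hd => h.not_isUnit (hc.isUnit_of_dvd' dvd_rfl hd)

/-- The data for the recursion. -/
theorem rec_data (hE : EF (m.e default)) (hC : CoefData m.L κ S w0 lam) (hfin : (UD m.L).Finite)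
    {N : ℕ} (hN0 : N ≠ 0) (hNS : ∀ w ∈ S, (N : 𝓞 M) ∈ w.asIdeal)
    (hNw : (N : 𝓞 M) ∈ w0.asIdeal) {ϖ : Eis} (hϖ : Prime ϖ) (hc : IsCoprime ϖ (N : Eis))
    {α : Eis} (hα : α ≠ 0) (hαc : IsCoprime α (N : Eis)) :
    ((‖(ϖ : ℂ)‖ * lamE hE lam ϖ : ℝ) : ℂ) * ksum hE κ hfin.toFinset α =
      ((‖(ϖ : ℂ)‖ ^ 2 : ℝ) : ℂ) * ksum hE κ hfin.toFinset (ϖ * α) +
        κ (zpt m.L S ((liftU hE ϖ hϖ.ne_zero)⁻¹ * liftU hE α hα)) := by
  have hwS : hE.place ϖ hϖ ∉ S := fun h => not_mem_of_coprime hE hϖ hc (hNS _ h)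
  have hw0 : hE.place ϖ hϖ ≠ w0 := fun h => not_mem_of_coprime hE hϖ hc (h ▸ hNw)
  have h1 : ∀ {β : Eis}, IsCoprime β (N : Eis) → ∀ w ∈ S,
      w.valuation M ((hE.eO.symm β : 𝓞 M) : M) = 1 := fun hβ w hw =>
    (hE.isCoprime_natCast_iff hN0 _).mp hβ w (hNS w hw)
  rw [ksum_unit hE hC hfin hα (h1 hαc), ksum_unit hE hC hfin (mul_ne_zero hϖ.ne_zero hα)
    (h1 (hc.mul_left hαc)), liftU_mul hE hϖ.ne_zero hα]
  have h2 := hC.zpt_rec hwS hw0 (ϖ := liftU hE ϖ hϖ.ne_zero) (α := liftU hE α hα)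
    (hE.val_gen ϖ hϖ) (fun w' _ hne => val_ne_place hE hϖ hne) (hE.val_le_one _ α)
  rw [sqrt_norm_place, ← lamE_of (lam := lam) hE hϖ] at h2
  rw [h2]
  congr 2
  rw [← norm_sq_place hE hϖ]
  norm_cast

theorem aco_rec (hE : EF (m.e default)) (hC : CoefData m.L κ S w0 lam) (hfin : (UD m.L).Finite)
    {N : ℕ} (hN0 : N ≠ 0) (hNS : ∀ w ∈ S, (N : 𝓞 M) ∈ w.asIdeal)
    (hNw : (N : 𝓞 M) ∈ w0.asIdeal) (ϖ : Eis) (hϖ : Prime ϖ) (hc : IsCoprime ϖ (N : Eis))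
    (α : Eis) (hαc : IsCoprime α (N : Eis)) :
    aco hE κ hfin.toFinset (ϖ * (ϖ * α)) =
      lamE hE lam ϖ * aco hE κ hfin.toFinset (ϖ * α) - aco hE κ hfin.toFinset α := by
  by_cases hα : α = 0
  · rw [hα, mul_zero, mul_zero, aco, ksum_zero]
    ring
  have h1 := rec_data hE hC hfin hN0 hNS hNw hϖ hc (mul_ne_zero hϖ.ne_zero hα) (hc.mul_left hαc)
  rw [liftU_mul hE hϖ.ne_zero hα, inv_mul_cancel_left,
    ← ksum_unit hE hC hfin hα fun w hw => (hE.isCoprime_natCast_iff hN0 _).mp hαc w (hNS w hw)] at h1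
  rw [aco, aco, aco, Subring.coe_mul, Subring.coe_mul, norm_mul, norm_mul]
  push_cast at h1 ⊢
  linear_combination (-(‖(α : ℂ)‖ : ℂ) / (Real.sqrt 3 : ℂ)) * h1

theorem aco_rec0 (hE : EF (m.e default)) (hC : CoefData m.L κ S w0 lam) (hfin : (UD m.L).Finite)
    {N : ℕ} (hN0 : N ≠ 0) (hNS : ∀ w ∈ S, (N : 𝓞 M) ∈ w.asIdeal)
    (hNw : (N : 𝓞 M) ∈ w0.asIdeal) (ϖ : Eis) (hϖ : Prime ϖ) (hc : IsCoprime ϖ (N : Eis))
    (α : Eis) (hαc : IsCoprime α (N : Eis)) (hd : ¬ ϖ ∣ α) :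
    aco hE κ hfin.toFinset (ϖ * α) = lamE hE lam ϖ * aco hE κ hfin.toFinset α := by
  have hα : α ≠ 0 := by
    rintro rfl
    exact hd (dvd_zero _)
  have hwS : hE.place ϖ hϖ ∉ S := fun h => not_mem_of_coprime hE hϖ hc (hNS _ h)
  have h1 := rec_data hE hC hfin hN0 hNS hNw hϖ hc hα hαc
  have h2 : κ (zpt m.L S ((liftU hE ϖ hϖ.ne_zero)⁻¹ * liftU hE α hα)) = 0 := by
    refine hC.zpt_vanish hwS fun h => ?_
    rw [Units.val_mul, map_mul, Units.val_inv_eq_inv_val, map_inv₀] at h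
    have h3 : (hE.place ϖ hϖ).valuation M (liftU hE ϖ hϖ.ne_zero : M) = exp (-(1 : ℤ)) :=
      hE.val_gen ϖ hϖ
    have h4 : (hE.place ϖ hϖ).valuation M (liftU hE α hα : M) = 1 := hE.val_of_not_dvd ϖ hϖ hd
    rw [h3, h4, mul_one, ← WithZero.exp_neg, neg_neg, ← exp_zero, exp_le_exp] at h
    norm_num at h
  rw [h2, add_zero] at h1
  have hne : ((‖(ϖ : ℂ)‖ : ℝ) : ℂ) ≠ 0 := by
    rw [Complex.ofReal_ne_zero, norm_ne_zero_iff]
    intro h0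
    exact hϖ.ne_zero (Subtype.ext h0)
  rw [aco, aco, Subring.coe_mul, norm_mul]
  apply mul_left_cancel₀ hne
  push_cast at h1 ⊢
  linear_combination (-(‖(α : ℂ)‖ : ℂ) / (Real.sqrt 3 : ℂ)) * h1

end Rec

end Fermat.Agent.H40K
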