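import Fermat.Agent.H40SS

/-!
# Lemma A in the setting of `MP.Data`: contraction of the norm operator (helper40)
-/

set_option autoImplicit false
set_option linter.unusedSectionVars false

open AlgebraicCurve WithZero Fermat.Agent

namespace Fermat.Agent.H40

open Fermat.Agent.H31.MP Fermat.Agent.H97

variable {K F k Fb Γ ν G : Type*} [Field K] [Field F] [Algebra K F] [Field k] [Field Fb]
    [Algebra k Fb] [LinearOrderedCommGroupWithZero Γ] [Group G] [MulSemiringAction G K]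
    [MulSemiringAction G F] {p : ℕ} (D : Data K F k Fb Γ ν G p)

local notation "vv" => D.M.v
local notation "ρρ" => D.M.ρ
local notation "vK" => D.M.vK

/-- The Atkin--Lehner involution `W` and the norm operator `N f (q) = ∏ f (ζ^i q^(1/p))`. -/
structure NOp (W : F ≃ₐ[K] F) (N : F →* F) : Prop where
  W_v : ∀ f, D.M.v true f = D.M.v false (W f)
  W_W : ∀ f, W (W f) = f
  W_smul : ∀ (σ : G) (f : F), σ • W f = W (σ • f)
  N_smul : ∀ (σ : G) (f : F), σ • N f = N (σ • f)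
  N_close : ∀ (f : F) (r : Γ), 0 < r → r < 1 → D.M.v false (f - 1) ≤ r →
    D.M.v false (N f - 1) < r

/-- Functions separating the two components. -/
structure Sep (z z' : F) : Prop where
  fix : Fix (⊤ : Subgroup G) z
  fix' : Fix (⊤ : Subgroup G) z'
  v_false : D.M.v false z = 1
  v_true : D.M.v true z < 1
  v_false' : D.M.v false z' < 1
  v_true' : D.M.v true z' = 1

variable {D}

theorem _root_.Fermat.Agent.H31.MP.Data.Disc.exists_zpow {H : Subgroup G} {ϖ : K}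
    (hd : D.Disc H ϖ) {f : F} (hf : Fix H f) (hf0 : f ≠ 0) (i : Bool) :
    ∃ n : ℤ, vv i f = vK ϖ ^ n := by
  obtain ⟨c, hc0, hcf, hc⟩ := D.scale H i f hf hf0
  obtain ⟨n, hn⟩ := hd.gen c hc0 hcf
  exact ⟨n, by rw [hc, hn]⟩

/-- Weak approximation for `H`-fixed functions. -/
theorem exists_approx {z z' : F} (hz : Sep D z z') {H : Subgroup G} {ϖ : K} (hd : D.Disc H ϖ)
    {U₁ U₂ : F} (h1 : Fix H U₁) (h2 : Fix H U₂) (m : ℕ) :
    ∃ h : F, Fix H h ∧ vv false (h - U₁) ≤ vK ϖ ^ m ∧ vv true (h - U₂) ≤ vK ϖ ^ m := by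
  have hq := hd.pos
  have hq1 := hd.lt
  have hz0 : z ≠ 0 := by
    have := hz.v_false
    rintro rfl
    simp at this
  have hz'0 : z' ≠ 0 := by
    have := hz.v_true'
    rintro rfl
    simp at this
  -- bound for the difference
  obtain ⟨c, hc⟩ : ∃ c : ℕ, ∀ i, vv i (U₂ - U₁) ≤ (vK ϖ)⁻¹ ^ c := by
    have hex : ∀ i, ∃ c : ℕ, vv i (U₂ - U₁) ≤ (vK ϖ)⁻¹ ^ c := by
      intro i
      rcases eq_or_ne (U₂ - U₁) 0 with h0 | h0
      · exact ⟨0, by rw [h0, map_zero]; exact zero_le⟩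
      · obtain ⟨n, hn⟩ := hd.exists_zpow (h2.sub h1) h0 i
        refine ⟨n.natAbs, ?_⟩
        rw [hn, ← zpow_natCast, inv_zpow, ← zpow_neg]
        rw [zpow_le_zpow_iff_right_of_lt_one₀ hq hq1]
        omega
    choose c hc using hex
    refine ⟨max (c false) (c true), fun i => (hc i).trans ?_⟩
    refine pow_le_pow_right₀ ((one_le_inv₀ hq).mpr hq1.le) ?_
    cases i
    · exact le_max_left _ _
    · exact le_max_right _ _
  set j := m + c + 1 with hj
  have hj0 : j ≠ 0 := by omega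
  -- the denominators
  have hzf : vv false (z ^ j) = 1 := by rw [map_pow, hz.v_false, one_pow]
  have hzt' : vv true (z' ^ j) = 1 := by rw [map_pow, hz.v_true', one_pow]
  have hle : ∀ (i : Bool) (y : F), Fix (⊤ : Subgroup G) y → vv i y < 1 →
      vv i (y ^ j) ≤ vK ϖ ^ j := by
    intro i y hy hy1
    rw [map_pow]
    exact pow_le_pow_left₀ zero_le (hd.le_of_lt_one hy.of_top hy1) _
  have hzt : vv true (z ^ j) ≤ vK ϖ ^ j := hle true z hz.fix hz.v_true
  have hzf' : vv false (z' ^ j) ≤ vK ϖ ^ j := hle false z' hz.fix' hz.v_false'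
  have hϖj : vK ϖ ^ j < 1 := pow_lt_one₀ hq.le hq1 hj0
  set S := z ^ j + z' ^ j with hS
  have hSf : vv false S = 1 := by
    rw [hS, Valuation.map_add_eq_of_lt_left _ (by rw [hzf]; exact hzf'.trans_lt hϖj), hzf]
  have hSt : vv true S = 1 := by
    rw [hS, Valuation.map_add_eq_of_lt_right _ (by rw [hzt']; exact hzt.trans_lt hϖj), hzt']
  have hS0 : S ≠ 0 := by
    intro h
    rw [h] at hSf
    simp at hSf
  have hSfix : Fix H S := ((hz.fix.pow j).add (hz.fix'.pow j)).of_top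
  have hfin : ∀ (i : Bool) (y : F), vv i y ≤ vK ϖ ^ j → vv i S = 1 →
      vv i (y / S * (U₂ - U₁)) ≤ vK ϖ ^ m := by
    intro i y hy hSi
    rw [map_mul, map_div₀, hSi, div_one]
    calc vv i y * vv i (U₂ - U₁) ≤ vK ϖ ^ j * (vK ϖ)⁻¹ ^ c := mul_le_mul' hy (hc i)
      _ = vK ϖ ^ (m + 1) := by
          rw [hj, show m + c + 1 = (m + 1) + c by ring, pow_add, mul_assoc, ← mul_pow,
            mul_inv_cancel₀ hq.ne', one_pow, mul_one]
      _ ≤ vK ϖ ^ m := by
          rw [pow_succ]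
          exact mul_le_of_le_one_right' hq1.le
  refine ⟨z ^ j / S * U₁ + z' ^ j / S * U₂, ?_, ?_, ?_⟩
  · exact (((hz.fix.pow j).of_top.div hSfix).mul h1).add
      (((hz.fix'.pow j).of_top.div hSfix).mul h2)
  · have e1 : z ^ j / S * U₁ + z' ^ j / S * U₂ - U₁ = z' ^ j / S * (U₂ - U₁) := by
      field_simp
      rw [hS]
      ring
    rw [e1]
    exact hfin false _ hzf' hSf
  · have e1 : z ^ j / S * U₁ + z' ^ j / S * U₂ - U₂ = -(z ^ j / S * (U₂ - U₁)) := by
      field_simp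
      rw [hS]
      ring
    rw [e1, Valuation.map_neg]
    exact hfin true _ hzt hSt

variable [IsAlgClosed K] [H3RR.IsFF K F] [IsAlgClosed k] [H3RR.IsFF k Fb]
variable [Fact p.Prime] [CharP k p] [CharP Fb p]

/-- The contraction: closeness to `1` on the first component for `u` and `W u`. -/
theorem close_pair {W : F ≃ₐ[K] F} {N : F →* F} (hN : NOp D W N) {H : Subgroup G} {ϖ : K}
    (hd : D.Disc H ϖ) (Gx : Bool → F) (hG : ∀ b, Fix H (Gx b)) (B : Bool → F)
    (hB : ∀ b, Fix H (B b)) (hB0 : ∀ b, B b ≠ 0)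
    (hrel : ∀ b, Gx b * N (Gx (!b)) = B b ^ p)
    (h1 : ∀ b, ∃ U, Fix H U ∧ U ≠ 0 ∧ vv false (Gx b * U ^ p - 1) < 1) (m : ℕ) :
    ∀ b, ∃ U, Fix H U ∧ U ≠ 0 ∧ vv false (Gx b * U ^ p - 1) ≤ vK ϖ ^ (m + 1) := by
  have hp : p.Prime := Fact.out
  have hq := hd.pos
  have hq1 := hd.lt
  induction m with
  | zero =>
    intro b
    obtain ⟨U, hU, hU0, h⟩ := h1 b
    refine ⟨U, hU, hU0, ?_⟩
    rw [zero_add, pow_one]
    exact hd.le_of_lt_one (((hG b).mul (hU.pow p)).sub Fix.one) h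
  | succ m ih =>
    intro b
    obtain ⟨U, hU, hU0, h⟩ := ih (!b)
    have h2 := hN.N_close _ _ (pow_pos hq (m + 1)) (pow_lt_one₀ hq.le hq1 (by omega)) h
    have hNfix : ∀ {f : F}, Fix H f → Fix H (N f) := fun {f} hf σ hσ => by
      rw [hN.N_smul, hf σ hσ]
    have hN0 : ∀ {f : F}, f ≠ 0 → N f ≠ 0 := fun {f} hf h0 => by
      have h3 : N f * N f⁻¹ = 1 := by rw [← map_mul, mul_inv_cancel₀ hf, map_one]
      rw [h0, zero_mul] at h3
      exact zero_ne_one h3
    set X := N (Gx (!b) * U ^ p) with hX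
    have hXe : X = N (Gx (!b)) * N U ^ p := by rw [hX, map_mul, map_pow]
    have hXfix : Fix H X := hNfix ((hG _).mul (hU.pow p))
    have hX1 : vv false (X - 1) < 1 := h2.trans (pow_lt_one₀ hq.le hq1 (by omega))
    obtain ⟨hvX, -⟩ := D.one_of_sub hX1
    have hX0 : X ≠ 0 := by
      intro h0
      rw [h0] at hvX
      simp at hvX
    have h3 : vv false (X - 1) ≤ vK ϖ ^ (m + 1 + 1) :=
      hd.le_pow_succ (hXfix.sub Fix.one) h2
    refine ⟨(B b)⁻¹ * (N U)⁻¹, (hB b).inv.mul (hNfix hU).inv,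
      mul_ne_zero (inv_ne_zero (hB0 b)) (inv_ne_zero (hN0 hU0)), ?_⟩
    have h4 : Gx b * ((B b)⁻¹ * (N U)⁻¹) ^ p = X⁻¹ := by
      have hBp : B b ^ p ≠ 0 := pow_ne_zero _ (hB0 b)
      have hNUp : N U ^ p ≠ 0 := pow_ne_zero _ (hN0 hU0)
      have hNG : N (Gx (!b)) ≠ 0 := by
        intro h0
        have := hrel b
        rw [h0, mul_zero] at this
        exact hBp this.symm
      rw [mul_pow, inv_pow, inv_pow, ← hrel b, hXe]
      have hG0 : Gx b ≠ 0 := by
        intro h0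
        have := hrel b
        rw [h0, zero_mul] at this
        exact hBp this.symm
      field_simp
    have h5 : X⁻¹ - 1 = -(X - 1) * X⁻¹ := by
      field_simp
      ring
    rw [h4, h5, map_mul, Valuation.map_neg, map_inv₀, hvX, inv_one, mul_one]
    exact h3

/-- **Lemma A.** -/
theorem lemA {W : F ≃ₐ[K] F} {N : F →* F} (hN : NOp D W N) {z z' : F} (hz : Sep D z z')
    {H : Subgroup G} {ϖ : K} (hd : D.Disc H ϖ) {u B B' : F} (hu : Fix H u)
    (hB : Fix H B) (hB' : Fix H B') (hB0 : B ≠ 0) (hB'0 : B' ≠ 0)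
    (hrel : u * N (W u) = B ^ p) (hrel' : W u * N u = B' ^ p)
    (h1 : ∃ U, Fix H U ∧ U ≠ 0 ∧ vv false (u * U ^ p - 1) < 1)
    (h1' : ∃ U, Fix H U ∧ U ≠ 0 ∧ vv false (W u * U ^ p - 1) < 1) (m : ℕ) :
    ∃ h, Fix H h ∧ h ≠ 0 ∧ ∀ i, vv i (u * h ^ p - 1) ≤ vK ϖ ^ m := by
  have hp : p.Prime := Fact.out
  have hq := hd.pos
  have hq1 := hd.lt
  have hWfix : ∀ {f : F}, Fix H f → Fix H (W f) := fun {f} hf σ hσ => by
    rw [hN.W_smul, hf σ hσ]
  have key := close_pair hN hd (fun b => if b then W u else u)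
    (fun b => by cases b; exacts [hu, hWfix hu]) (fun b => if b then B' else B)
    (fun b => by cases b; exacts [hB, hB']) (fun b => by cases b; exacts [hB0, hB'0])
    (fun b => by cases b; exacts [hrel, hrel']) (fun b => by cases b; exacts [h1, h1'])
  have hu0 : u ≠ 0 := by
    rintro rfl
    rw [zero_mul] at hrel
    exact pow_ne_zero _ hB0 hrel.symm
  obtain ⟨U₁, hU₁, hU₁0, hc₁⟩ := key m false
  obtain ⟨U₂', hU₂', hU₂'0, hc₂'⟩ := key m true
  simp only [Bool.false_eq_true, if_false, if_true] at hc₁ hc₂'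
  set U₂ := W U₂' with hU₂def
  have hU₂ : Fix H U₂ := hWfix hU₂'
  have hU₂0 : U₂ ≠ 0 := by rw [hU₂def, ne_eq, map_eq_zero]; exact hU₂'0
  have hc₂ : vv true (u * U₂ ^ p - 1) ≤ vK ϖ ^ (m + 1) := by
    rw [hN.W_v, map_sub, map_mul, map_pow, map_one, hU₂def, hN.W_W]
    exact hc₂'
  -- approximation
  have hexn : ∃ n : ℕ, ∀ i, vK ϖ ^ n ≤ vK ϖ ^ (m + 1) *
      vv i (if i then U₂ else U₁) := by
    have hex : ∀ i : Bool, ∃ n : ℕ, vK ϖ ^ n ≤ vK ϖ ^ (m + 1) * vv i (if i then U₂ else U₁) := by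
      intro i
      obtain ⟨n, hn⟩ := hd.exists_zpow (f := if i then U₂ else U₁)
        (by cases i; exacts [hU₁, hU₂]) (by cases i; exacts [hU₁0, hU₂0]) i
      refine ⟨m + 1 + n.natAbs, ?_⟩
      rw [hn, pow_add]
      refine mul_le_mul' le_rfl ?_
      rw [← zpow_natCast, zpow_le_zpow_iff_right_of_lt_one₀ hq hq1]
      omega
    choose n hn using hex
    refine ⟨max (n false) (n true), fun i => le_trans ?_ (hn i)⟩
    refine pow_le_pow_right_of_le_one' hq1.le ?_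
    cases i
    · exact le_max_left _ _
    · exact le_max_right _ _
  obtain ⟨n, hn⟩ := hexn
  obtain ⟨h, hhf, hhfalse, hhtrue⟩ := exists_approx hz hd hU₁ hU₂ n
  -- general estimate
  have hgen : ∀ (i : Bool) (U : F), U ≠ 0 → vv i (u * U ^ p - 1) ≤ vK ϖ ^ (m + 1) →
      vv i (h - U) ≤ vK ϖ ^ (m + 1) * vv i U → h ≠ 0 ∧ vv i (u * h ^ p - 1) ≤ vK ϖ ^ (m + 1) := by
    intro i U hU0 hcl hhU
    have C := D.comp i
    have hvU : vv i U ≠ 0 := (Valuation.ne_zero_iff _).mpr hU0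
    have hsm : vK ϖ ^ (m + 1) < 1 := pow_lt_one₀ hq.le hq1 (by omega)
    set t := (h - U) / U with ht
    have hvt : vv i t ≤ vK ϖ ^ (m + 1) := by
      rw [ht, map_div₀]
      exact (div_le_iff₀ (zero_lt_iff.mpr hvU)).mpr hhU
    have hh : h = U * (1 + t) := by rw [ht]; field_simp; ring
    have hvt1 : vv i t < 1 := hvt.trans_lt hsm
    obtain ⟨hv1, -⟩ := D.one_of_sub (i := i) (f := 1 + t) (by rwa [add_sub_cancel_left])
    refine ⟨?_, ?_⟩
    · rw [hh]
      refine mul_ne_zero hU0 ?_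
      intro h0
      rw [h0] at hv1
      simp at hv1
    · obtain ⟨r, hr, hexp⟩ := one_add_pow (vv i) hvt1.le p
      have hX1 : vv i (u * U ^ p - 1) < 1 := hcl.trans_lt hsm
      obtain ⟨hvX, -⟩ := D.one_of_sub hX1
      have e1 : u * h ^ p - 1 = (u * U ^ p) * (p * t + t ^ 2 * r) + (u * U ^ p - 1) := by
        rw [hh, mul_pow, hexp]
        ring
      rw [e1]
      refine (Valuation.map_add _ _ _).trans (max_le ?_ hcl)
      rw [map_mul, hvX, one_mul]
      refine (Valuation.map_add _ _ _).trans (max_le ?_ ?_)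
      · rw [map_mul]
        exact (mul_le_of_le_one_left' (v_natCast_le p)).trans hvt
      · rw [map_mul, pow_two, map_mul]
        calc vv i t * vv i t * vv i r ≤ 1 * vv i t * 1 := by gcongr
          _ = vv i t := by rw [one_mul, mul_one]
          _ ≤ _ := hvt
  have hf := hgen false U₁ hU₁0 hc₁ (hhfalse.trans (by simpa using hn false))
  have ht := hgen true U₂ hU₂0 hc₂ (hhtrue.trans (by simpa using hn true))
  refine ⟨h, hhf, hf.1, fun i => ?_⟩
  refine le_trans ?_ (pow_le_pow_right_of_le_one' hq1.le (Nat.le_succ m))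
  cases i
  · exact hf.2
  · exact ht.2

/-- **Splitting.** A class with trivial reduction: inertia acts through the cyclotomic
character. -/
theorem split_class (L : D.Lifts) {S : Finset (Bool × Place k Fb)} (hS : D.M.Nonspecial S)
    {W : F ≃ₐ[K] F} {N : F →* F} (hN : NOp D W N) {z z' : F} (hz : Sep D z z')
    {H : Subgroup G} {ϖ ζ : K} (hd : D.Disc H ϖ) {d : ℕ}
    (hd1 : 1 ≤ d) (hζ : Zeta D H ζ) (hζϖ : vK (ζ - 1) = vK ϖ ^ d)
    {u B B' : F} (hu : Fix H u) (hdiv : ∀ P : Place K F, (p : ℤ) ∣ P.ord u)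
    (hB : Fix H B) (hB' : Fix H B') (hB0 : B ≠ 0) (hB'0 : B' ≠ 0)
    (hrel : u * N (W u) = B ^ p) (hrel' : W u * N u = B' ^ p)
    (h1 : ∃ U, Fix H U ∧ U ≠ 0 ∧ vv false (u * U ^ p - 1) < 1)
    (h1' : ∃ U, Fix H U ∧ U ≠ 0 ∧ vv false (W u * U ^ p - 1) < 1)
    {σ : G} {a : ℕ} (hσ : σ • ζ = ζ ^ a) :
    ∃ φ : F, φ ≠ 0 ∧ σ • u = u ^ a * φ ^ p := by
  have hp : p.Prime := Fact.out
  have hq := hd.pos
  have hq1 := hd.lt
  obtain ⟨h, hhf, hh0, hc⟩ := lemA hN hz hd hu hB hB' hB0 hB'0 hrel hrel' h1 h1' (d * p + 1)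
  have hu0 : u ≠ 0 := by
    rintro rfl
    rw [zero_mul] at hrel
    exact pow_ne_zero _ hB0 hrel.symm
  have hhp0 : h ^ p ≠ 0 := pow_ne_zero _ hh0
  obtain ⟨φ, hφ0, hφ⟩ := ss2 D L hS hd hd1 hζ hζϖ (w := u * h ^ p) (hu.mul (hhf.pow p))
    (mul_ne_zero hu0 hhp0) (fun P => by
      rw [P.ord_mul hu0 hhp0, ord_pow]
      exact dvd_add (hdiv P) (Dvd.intro _ rfl)) (fun i => by
      refine (hc i).trans_lt ?_
      rw [hζϖ, ← pow_mul, pow_succ]
      exact mul_lt_of_lt_one_right (pow_pos hq _) hq1) hσ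
  have hσh0 : σ • h ≠ 0 := by rwa [smul_ne_zero_iff_ne]
  refine ⟨h ^ a * φ / (σ • h), div_ne_zero (mul_ne_zero (pow_ne_zero _ hh0) hφ0) hσh0, ?_⟩
  rw [smul_mul', smul_pow'] at hφ
  have hσhp0 : (σ • h) ^ p ≠ 0 := pow_ne_zero _ hσh0
  rw [div_pow, mul_pow, mul_div_assoc', eq_div_iff hσhp0, hφ]
  ring

end Fermat.Agent.H40
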