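import Mathlib.RingTheory.UniqueFactorizationDomain.Kaplansky
import Mathlib.Tactic.FieldSimp
import Mathlib.Tactic.LinearCombination
import Mathlib.Tactic.Ring
import Mathlib.RingTheory.Nakayama
import Mathlib.RingTheory.LocalRing.Basic
import Mathlib.RingTheory.LocalRing.MaximalIdeal.Basic
import Mathlib.RingTheory.Localization.NumDen
import Mathlib.RingTheory.Jacobson.Ideal
import Mathlib.RingTheory.Localization.FractionRing
import Mathlib.RingTheory.UniqueFactorizationDomain.Multiplicity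
import Mathlib.RingTheory.Noetherian.Basic
import Mathlib.RingTheory.Ideal.Quotient.Operations

/-!
# Two-dimensional regular local rings in disguise

A noetherian local domain `R` with a prime element `x` such that `R ⧸ x` is a principal
ideal ring is a unique factorization domain.
-/

set_option autoImplicit false

namespace Fermat.Agent.H40

open Ideal

section UFD

variable {R : Type*} [CommRing R] [IsDomain R] [IsNoetherianRing R] [IsLocalRing R]

omit [IsDomain R] in
theorem isPrincipal_of_prime_notMem {x : R} (hx : Prime x)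
    (hP : IsPrincipalIdealRing (R ⧸ Ideal.span {x})) (Q : Ideal R) [hQ : Q.IsPrime]
    (hxQ : x ∉ Q) : ∃ q : R, Q = Ideal.span {q} := by
  obtain ⟨a, ha⟩ :=
    (IsPrincipalIdealRing.principal (Q.map (Ideal.Quotient.mk (Ideal.span {x})))).principal
  have ha' : a ∈ Q.map (Ideal.Quotient.mk (Ideal.span {x})) := by
    rw [ha]; exact Submodule.mem_span_singleton_self a
  obtain ⟨q, hq, rfl⟩ :=
    (Ideal.mem_map_iff_of_surjective _ Ideal.Quotient.mk_surjective).1 ha'
  refine ⟨q, le_antisymm ?_ ((Ideal.span_singleton_le_iff_mem _).2 hq)⟩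
  have hxm : x ∈ IsLocalRing.maximalIdeal R := (IsLocalRing.mem_maximalIdeal _).2 hx.not_isUnit
  refine Submodule.le_of_le_smul_of_le_jacobson_bot (I := Ideal.span {x})
    (IsNoetherian.noetherian Q) ?_ ?_
  · rw [IsLocalRing.jacobson_eq_maximalIdeal ⊥ bot_ne_top]
    exact (Ideal.span_singleton_le_iff_mem _).2 hxm
  · intro y hy
    have hy' : (Ideal.Quotient.mk (Ideal.span {x})) y ∈
        Q.map (Ideal.Quotient.mk (Ideal.span {x})) := Ideal.mem_map_of_mem _ hy
    rw [ha] at hy'
    obtain ⟨c, hc⟩ := Submodule.mem_span_singleton.1 hy'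
    obtain ⟨r, rfl⟩ := Ideal.Quotient.mk_surjective c
    have h1 : y - r * q ∈ Ideal.span {x} := by
      rw [← Ideal.Quotient.eq, ← hc, map_mul]; rfl
    obtain ⟨t, ht⟩ := Ideal.mem_span_singleton'.1 h1
    have htQ : t ∈ Q := by
      have : t * x ∈ Q := by
        rw [ht]; exact Q.sub_mem hy (Q.mul_mem_left _ hq)
      exact (hQ.mem_or_mem this).resolve_right hxQ
    have : y = r * q + t * x := by rw [ht]; ring
    rw [this]
    refine Submodule.add_mem_sup (Ideal.mem_span_singleton'.2 ⟨r, rfl⟩) ?_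
    rw [mul_comm]
    exact Submodule.smul_mem_smul (Ideal.mem_span_singleton_self x) htQ

/-- A noetherian local domain with a prime element `x` such that `R ⧸ x` is a principal
ideal ring is a unique factorization domain. -/
theorem ufd_of_prime {x : R} (hx : Prime x)
    (hP : IsPrincipalIdealRing (R ⧸ Ideal.span {x})) : UniqueFactorizationMonoid R := by
  refine UniqueFactorizationMonoid.iff_exists_prime_mem_of_isPrime.2 fun Q hQ0 hQ => ?_
  by_cases hxQ : x ∈ Q
  · exact ⟨x, hxQ, hx⟩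
  · obtain ⟨q, hq⟩ := isPrincipal_of_prime_notMem hx hP Q hxQ
    refine ⟨q, by rw [hq]; exact Ideal.mem_span_singleton_self q, ?_⟩
    have hq0 : q ≠ 0 := by
      rintro rfl
      exact hQ0 (by rw [hq]; simp)
    rw [← Ideal.span_singleton_prime hq0, ← hq]
    exact hQ

omit [IsDomain R] [IsNoetherianRing R] in
/-- If `z` maps to an irreducible element of `R ⧸ x` then `z` is irreducible. -/
theorem irreducible_of_quotient {x z : R} (hx : Prime x)
    (hz : Irreducible (Ideal.Quotient.mk (Ideal.span {x}) z)) : Irreducible z := by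
  have hloc : ∀ a : R, IsUnit (Ideal.Quotient.mk (Ideal.span {x}) a) → IsUnit a := by
    intro a ha
    by_contra hna
    have hxm : x ∈ IsLocalRing.maximalIdeal R := (IsLocalRing.mem_maximalIdeal _).2 hx.not_isUnit
    obtain ⟨b, hb⟩ := ha.exists_right_inv
    obtain ⟨b, rfl⟩ := Ideal.Quotient.mk_surjective b
    have h1 : a * b - 1 ∈ Ideal.span {x} := by
      rw [← Ideal.Quotient.eq, map_mul, map_one]; exact hb
    have h2 : a * b - 1 ∈ IsLocalRing.maximalIdeal R :=
      (Ideal.span_singleton_le_iff_mem _).2 hxm h1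
    have h3 : a * b ∈ IsLocalRing.maximalIdeal R :=
      Ideal.mul_mem_right _ _ ((IsLocalRing.mem_maximalIdeal _).2 hna)
    have h4 : (1 : R) ∈ IsLocalRing.maximalIdeal R := by
      have := Ideal.sub_mem _ h3 h2
      rwa [sub_sub_cancel] at this
    exact (Ideal.ne_top_iff_one _).1 (IsLocalRing.maximalIdeal.isMaximal R).ne_top h4
  refine ⟨fun h => hz.not_isUnit (h.map _), fun a b hab => ?_⟩
  have := hz.isUnit_or_isUnit (a := Ideal.Quotient.mk _ a) (b := Ideal.Quotient.mk _ b)
    (by rw [← map_mul, hab])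
  exact this.imp (hloc a) (hloc b)

end UFD

section Fact

variable {R : Type*} [CommRing R] [IsDomain R] [UniqueFactorizationMonoid R]

/-- The multiplicity of `π` in `a` is divisible by `p`. -/
def PMult (p : ℕ) (π a : R) : Prop := ∃ n : ℕ, ∃ b : R, a = π ^ (p * n) * b ∧ ¬ π ∣ b

omit [UniqueFactorizationMonoid R] in
theorem PMult.of_mul {p : ℕ} {π a c : R} (hπ : Prime π) (hc : ¬ π ∣ c) (h : PMult p π (c * a)) :
    PMult p π a := by
  obtain ⟨n, b, hab, hb⟩ := h
  have h1 : π ^ (p * n) ∣ a := hπ.pow_dvd_of_dvd_mul_left _ hc ⟨b, hab⟩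
  obtain ⟨a', rfl⟩ := h1
  refine ⟨n, a', rfl, fun hd => hb ?_⟩
  have h2 : π ^ (p * n) * b = π ^ (p * n) * (c * a') := by rw [← hab]; ring
  have h3 := mul_left_cancel₀ (pow_ne_zero _ hπ.ne_zero) h2
  rw [h3]; exact hd.mul_left _

/-- In a UFD, an element all of whose prime multiplicities are divisible by `p` is associated
to a `p`-th power. -/
theorem exists_associated_pow {p : ℕ} (hp : p ≠ 0) (a : R) (ha : a ≠ 0)
    (h : ∀ π : R, Prime π → PMult p π a) :
    ∃ c : R, Associated a (c ^ p) := by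
  induction a using (wellFounded_dvdNotUnit (α := R)).induction with
  | _ a ih =>
    by_cases hu : IsUnit a
    · exact ⟨1, by rw [one_pow]; exact associated_one_iff_isUnit.2 hu⟩
    obtain ⟨π, hπi, hdvd⟩ := WfDvdMonoid.exists_irreducible_factor hu ha
    have hπ : Prime π := UniqueFactorizationMonoid.irreducible_iff_prime.1 hπi
    obtain ⟨n, b, hab, hb⟩ := h π hπ
    have hn : n ≠ 0 := by
      rintro rfl
      rw [mul_zero, pow_zero, one_mul] at hab
      exact hb (hab ▸ hdvd)
    have hb0 : b ≠ 0 := by rintro rfl; exact ha (by rw [hab, mul_zero])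
    have hlt : DvdNotUnit b a := ⟨hb0, π ^ (p * n), by
      intro hunit
      exact hπ.not_isUnit (isUnit_of_dvd_unit (dvd_pow_self π (Nat.mul_ne_zero hp hn)) hunit), by
      rw [hab, mul_comm]⟩
    obtain ⟨c, hc⟩ := ih b hlt hb0 (by
      intro ρ hρ
      by_cases hass : Associated ρ π
      · refine ⟨0, b, by simp, fun hρb => hb (hass.symm.dvd.trans hρb)⟩
      · have hnd : ¬ ρ ∣ π ^ (p * n) := fun hdv =>
          hass ((hρ.dvd_prime_iff_associated hπ).1 (hρ.dvd_of_dvd_pow hdv))
        exact PMult.of_mul hρ hnd (hab ▸ h ρ hρ))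
    refine ⟨π ^ n * c, ?_⟩
    rw [hab, mul_pow, ← pow_mul, mul_comm n p]
    exact hc.mul_left _

/-- Factorisation with respect to two primes `z, z'` and `p`-th powers. -/
theorem exists_factorization {K : Type*} [Field K] [Algebra R K] [IsFractionRing R K] {p : ℕ}
    (hp : p ≠ 0) {z z' : R} (hz : Prime z) (hz' : Prime z') (f : K) (hf : f ≠ 0)
    (h : ∀ π : R, Prime π → ¬ Associated π z → ¬ Associated π z' →
      ∃ n : ℤ, ∃ a b : R, ¬ π ∣ a ∧ ¬ π ∣ b ∧
        f = (algebraMap R K π) ^ ((p : ℤ) * n) * (algebraMap R K a / algebraMap R K b)) :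
    ∃ (ε : Rˣ) (i j : ℤ) (g : K), g ≠ 0 ∧
      f = algebraMap R K ε * (algebraMap R K z) ^ i * (algebraMap R K z') ^ j * g ^ p := by
  have hinj := IsFractionRing.injective R K
  have h0 : ∀ x : R, x ≠ 0 → algebraMap R K x ≠ 0 := fun x hx =>
    (map_ne_zero_iff _ hinj).2 hx
  set N : R := IsFractionRing.num R f with hN
  set D : R := (IsFractionRing.den R f : R) with hD
  have hD0 : D ≠ 0 := nonZeroDivisors.ne_zero (IsFractionRing.den R f).2
  have hfND : f = algebraMap R K N / algebraMap R K D :=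
    (IsFractionRing.mk'_num_den' R f).symm
  have hN0 : N ≠ 0 := by
    intro hN0
    apply hf; rw [hfND, hN0, map_zero, zero_div]
  have hcop : ∀ π : R, Prime π → π ∣ N → ¬ π ∣ D := by
    intro π hπ h1 h2
    exact hπ.not_isUnit (IsFractionRing.num_den_reduced R f h1 h2)
  -- multiplicities
  have key : ∀ π : R, Prime π → ¬ Associated π z → ¬ Associated π z' →
      PMult p π N ∧ PMult p π D := by
    intro π hπ h1 h2
    obtain ⟨n, a, b, ha, hb, hab⟩ := h π hπ h1 h2
    have ha0 : a ≠ 0 := by rintro rfl; exact ha (dvd_zero _)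
    have hb0 : b ≠ 0 := by rintro rfl; exact hb (dvd_zero _)
    obtain ⟨m, hm | hm⟩ := Int.eq_nat_or_neg n
    · subst hm
      have hE : N * b = π ^ (p * m) * a * D := by
        apply hinj
        have e1 : algebraMap R K N / algebraMap R K D =
          (algebraMap R K π) ^ (p * m) * (algebraMap R K a / algebraMap R K b) := by
          rw [← hfND, hab]; norm_cast
        field_simp [h0 _ hD0, h0 _ hb0] at e1
        simp only [map_mul, map_pow]
        linear_combination e1
      have hND : π ^ (p * m) ∣ N :=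
        hπ.pow_dvd_of_dvd_mul_right _ hb ⟨a * D, by rw [hE]; ring⟩
      obtain ⟨N', hN'⟩ := hND
      have hE' : N' * b = a * D := by
        apply mul_left_cancel₀ (pow_ne_zero (p * m) hπ.ne_zero)
        rw [← mul_assoc, ← hN', hE]; ring
      have hN'' : ¬ π ∣ N' := by
        intro hd
        have h3 : π ∣ a * D := hE' ▸ hd.mul_right _
        exact hcop π hπ (hN' ▸ hd.mul_left _) ((hπ.dvd_or_dvd h3).resolve_left ha)
      have hD'' : ¬ π ∣ D := by
        intro hd
        have h3 : π ∣ N' * b := hE' ▸ hd.mul_left _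
        exact hN'' ((hπ.dvd_or_dvd h3).resolve_right hb)
      exact ⟨⟨m, N', hN', hN''⟩, ⟨0, D, by simp, hD''⟩⟩
    · subst hm
      have hE : π ^ (p * m) * (N * b) = a * D := by
        apply hinj
        have e1 : algebraMap R K N / algebraMap R K D =
          ((algebraMap R K π) ^ (p * m))⁻¹ * (algebraMap R K a / algebraMap R K b) := by
          rw [← hfND, hab, mul_neg, zpow_neg]; norm_cast
        have hπ0 := h0 _ hπ.ne_zero
        field_simp [h0 _ hD0, h0 _ hb0] at e1
        simp only [map_mul, map_pow]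
        linear_combination e1
      have hND : π ^ (p * m) ∣ D :=
        hπ.pow_dvd_of_dvd_mul_left _ ha ⟨N * b, hE.symm⟩
      obtain ⟨D', hD'⟩ := hND
      have hE' : N * b = a * D' := by
        apply mul_left_cancel₀ (pow_ne_zero (p * m) hπ.ne_zero)
        rw [hE, hD']; ring
      have hD'' : ¬ π ∣ D' := by
        intro hd
        have h3 : π ∣ N * b := hE' ▸ hd.mul_left _
        exact hcop π hπ ((hπ.dvd_or_dvd h3).resolve_right hb) (hD' ▸ hd.mul_left _)
      have hN'' : ¬ π ∣ N := by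
        intro hd
        have h3 : π ∣ a * D' := hE' ▸ hd.mul_right _
        exact hD'' ((hπ.dvd_or_dvd h3).resolve_left ha)
      exact ⟨⟨0, N, by simp, hN''⟩, ⟨m, D', hD', hD''⟩⟩
  -- strip off z and z'
  have strip : ∀ X : R, X ≠ 0 →
      (∀ π : R, Prime π → ¬ Associated π z → ¬ Associated π z' → PMult p π X) →
      ∃ (ε : Rˣ) (i j : ℕ) (c : R), X = ε * z ^ i * z' ^ j * c ^ p := by
    intro X hX hmult
    obtain ⟨i, X₁, hzX₁, hX₁⟩ := WfDvdMonoid.max_power_factor hX hz.irreducible
    have hX₁0 : X₁ ≠ 0 := by rintro rfl; exact hzX₁ (dvd_zero _)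
    obtain ⟨j, X₂, hzX₂, hX₂⟩ := WfDvdMonoid.max_power_factor hX₁0 hz'.irreducible
    have hX₂0 : X₂ ≠ 0 := by rintro rfl; exact hzX₂ (dvd_zero _)
    obtain ⟨c, hc⟩ := exists_associated_pow hp X₂ hX₂0 (by
      intro π hπ
      by_cases h1 : Associated π z
      · refine ⟨0, X₂, by simp, fun hd => hzX₁ ?_⟩
        rw [hX₂]; exact (h1.symm.dvd.trans hd).mul_left _
      by_cases h2 : Associated π z'
      · exact ⟨0, X₂, by simp, fun hd => hzX₂ (h2.symm.dvd.trans hd)⟩
      have h3 := hmult π hπ h1 h2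
      rw [hX₁, hX₂, ← mul_assoc] at h3
      refine PMult.of_mul hπ (fun hd => ?_) h3
      rcases hπ.dvd_or_dvd hd with h4 | h4
      · exact h1 ((hπ.dvd_prime_iff_associated hz).1 (hπ.dvd_of_dvd_pow h4))
      · exact h2 ((hπ.dvd_prime_iff_associated hz').1 (hπ.dvd_of_dvd_pow h4)))
    obtain ⟨ε, hε⟩ := hc.symm
    exact ⟨ε, i, j, c, by rw [hX₁, hX₂, ← hε]; ring⟩
  obtain ⟨ε₁, i₁, j₁, c₁, e₁⟩ := strip N hN0 fun π h1 h2 h3 => (key π h1 h2 h3).1
  obtain ⟨ε₂, i₂, j₂, c₂, e₂⟩ := strip D hD0 fun π h1 h2 h3 => (key π h1 h2 h3).2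
  have hc₁ : c₁ ≠ 0 := by
    rintro rfl; exact hN0 (by rw [e₁, zero_pow hp, mul_zero])
  have hc₂ : c₂ ≠ 0 := by
    rintro rfl; exact hD0 (by rw [e₂, zero_pow hp, mul_zero])
  refine ⟨ε₁ * ε₂⁻¹, (i₁ : ℤ) - i₂, (j₁ : ℤ) - j₂, algebraMap R K c₁ / algebraMap R K c₂,
    div_ne_zero (h0 _ hc₁) (h0 _ hc₂), ?_⟩
  have hz0 := h0 _ hz.ne_zero
  have hz'0 := h0 _ hz'.ne_zero
  have hε₂ : algebraMap R K (ε₂ : R) ≠ 0 := h0 _ ε₂.ne_zero
  have hε₂' : algebraMap R K ((ε₂⁻¹ : Rˣ) : R) = (algebraMap R K (ε₂ : R))⁻¹ := by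
    refine eq_inv_of_mul_eq_one_left ?_
    rw [← map_mul]; simp
  rw [hfND, e₁, e₂]
  simp only [map_mul, map_pow, Units.val_mul, hε₂']
  rw [zpow_sub₀ hz0, zpow_sub₀ hz'0, zpow_natCast, zpow_natCast, zpow_natCast, zpow_natCast]
  have hc₂' := h0 _ hc₂
  rw [div_pow]
  field_simp

end Fact

end Fermat.Agent.H40
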