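import Mathlib.RingTheory.Invariant.Basic
import Mathlib.RingTheory.Valuation.ValuationSubring
import Mathlib.RingTheory.Valuation.LocalSubring
import Mathlib.RingTheory.Localization.AtPrime.Basic
import Mathlib.RingTheory.Localization.Submodule
import Mathlib.RingTheory.DedekindDomain.IntegralClosure
import Mathlib.RingTheory.Localization.AsSubring
import Mathlib.RingTheory.IntegralClosure.IntegrallyClosed
import Fermat.Agent.H40Reg

/-!
# A Galois cover of a regular surface germ, sheet by sheet
-/

set_option autoImplicit false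

namespace Fermat.Agent.H40

open Polynomial

section Charpoly

variable {G E : Type*} [Field E] [Group G] [Fintype G] [MulSemiringAction G E]

theorem coeff_charpoly_mem (T : Subring E) (y : E) (h : ∀ g : G, g • y ∈ T) (n : ℕ) :
    (MulSemiringAction.charpoly G y).coeff n ∈ T := by
  have h1 : MulSemiringAction.charpoly G y ∈ Polynomial.lifts T.subtype := by
    rw [MulSemiringAction.charpoly_eq]
    refine prod_mem fun g _ => ?_
    have : (X - C (g • y) : E[X]) = X + C (T.subtype (-⟨g • y, h g⟩)) := by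
      simp [sub_eq_add_neg]
    rw [this]
    exact add_mem (Polynomial.X_mem_lifts _) (Polynomial.C_mem_lifts _ _)
  obtain ⟨x, hx⟩ := (Polynomial.lifts_iff_coeff_lifts _).1 h1 n
  rw [← hx]
  exact x.2

end Charpoly

section Away

variable {B E : Type*} [CommRing B] [Field E] [Algebra B E]

/-- Elements which become integral after multiplication by a power of `z`. -/
def awayIntegral (B : Type*) {E : Type*} [CommRing B] [Field E] [Algebra B E] (z : B) :
    Subring E where
  carrier := {x | ∃ k : ℕ, IsIntegral B (z ^ k • x)}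
  mul_mem' := by
    rintro x y ⟨k, hk⟩ ⟨l, hl⟩
    refine ⟨k + l, ?_⟩
    have : z ^ (k + l) • (x * y) = (z ^ k • x) * (z ^ l • y) := by
      rw [pow_add, smul_mul_smul_comm]
    rw [this]; exact hk.mul hl
  one_mem' := ⟨0, by simpa using isIntegral_one⟩
  add_mem' := by
    rintro x y ⟨k, hk⟩ ⟨l, hl⟩
    refine ⟨k + l, ?_⟩
    have : z ^ (k + l) • (x + y) = z ^ l • (z ^ k • x) + z ^ k • (z ^ l • y) := by
      rw [smul_add, smul_smul, smul_smul, ← pow_add, ← pow_add, add_comm l k]
    rw [this]; exact (hk.smul _).add (hl.smul _)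
  zero_mem' := ⟨0, by simpa using isIntegral_zero⟩
  neg_mem' := by
    rintro x ⟨k, hk⟩
    exact ⟨k, by rw [smul_neg]; exact hk.neg⟩

theorem mem_awayIntegral {z : B} {x : E} :
    x ∈ awayIntegral B z ↔ ∃ k : ℕ, IsIntegral B (z ^ k • x) := Iff.rfl

end Away

section Descend

variable {F E : Type*} [Field F] [Field E] [Algebra F E]
variable {B : Type*} [CommRing B] [IsDomain B] [IsIntegrallyClosed B] [Algebra B F]
  [IsFractionRing B F] [Algebra B E] [IsScalarTower B F E]

/-- An element of `F` which is integral after inverting the prime `z` and lies in the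
valuation ring `B_(z)` lies in `B`. -/
theorem mem_of_awayIntegral {z : B} (hz : Prime z) {x : F}
    (h1 : algebraMap F E x ∈ awayIntegral B z)
    (h2 : ∃ a b : B, ¬ z ∣ b ∧ x * algebraMap B F b = algebraMap B F a) :
    ∃ c : B, algebraMap B F c = x := by
  obtain ⟨k, hk⟩ := h1
  obtain ⟨a, b, hb, hab⟩ := h2
  have hk' : IsIntegral B (z ^ k • x) := by
    have : z ^ k • algebraMap F E x = algebraMap F E (z ^ k • x) := by
      rw [Algebra.smul_def, Algebra.smul_def, map_mul, ← IsScalarTower.algebraMap_apply]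
    rw [this] at hk
    exact (isIntegral_algebraMap_iff (algebraMap F E).injective).1 hk
  obtain ⟨d, hd⟩ := IsIntegrallyClosed.isIntegral_iff.1 hk'
  have hinj := IsFractionRing.injective B F
  have e1 : z ^ k * a = b * d := by
    apply hinj
    rw [map_mul, map_mul, hd, ← hab, Algebra.smul_def, map_pow]
    ring
  have e2 : z ^ k ∣ d := hz.pow_dvd_of_dvd_mul_left _ hb ⟨a, e1.symm⟩
  obtain ⟨c, rfl⟩ := e2
  refine ⟨c, ?_⟩
  rw [map_mul, Algebra.smul_def] at hd
  exact mul_left_cancel₀ ((map_ne_zero_iff _ hinj).2 (pow_ne_zero _ hz.ne_zero)) hd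

variable {G : Type*} [Group G] [Fintype G] [MulSemiringAction G E] [Algebra.IsInvariant F E G]

/-- Integrality over `B` can be tested after inverting the prime `z`, and at the sheets
above `z`. -/
theorem isIntegral_of_sheets {z : B} (hz : Prime z) (W : ValuationSubring E)
    (hW : ∀ x : F, algebraMap F E x ∈ W →
      ∃ a b : B, ¬ z ∣ b ∧ x * algebraMap B F b = algebraMap B F a)
    (hG : ∀ (g : G) (y : E), IsIntegral B y → IsIntegral B (g • y))
    (hGz : ∀ (g : G) (b : B) (y : E), g • (b • y) = b • (g • y))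
    {y : E} (hy : ∃ k : ℕ, IsIntegral B (z ^ k • y)) (hyW : ∀ g : G, g • y ∈ W) :
    IsIntegral B y := by
  have h1 : ∀ n, (MulSemiringAction.charpoly G y).coeff n ∈ W := fun n =>
    coeff_charpoly_mem W.toSubring y hyW n
  have h2 : ∀ n, (MulSemiringAction.charpoly G y).coeff n ∈ awayIntegral B z := fun n =>
    coeff_charpoly_mem (awayIntegral B z) y (fun g => by
      obtain ⟨k, hk⟩ := hy
      exact ⟨k, by rw [← hGz]; exact hG g _ hk⟩) n
  have h3 : MulSemiringAction.charpoly G y ∈ Polynomial.lifts (algebraMap B E) := by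
    rw [Polynomial.lifts_iff_coeff_lifts]
    intro n
    obtain ⟨x, hx⟩ := Algebra.IsInvariant.isInvariant (A := F) (G := G)
      ((MulSemiringAction.charpoly G y).coeff n) (MulSemiringAction.smul_coeff_charpoly y n)
    obtain ⟨c, hc⟩ := mem_of_awayIntegral (E := E) hz (x := x) (by rw [hx]; exact h2 n)
      (hW x (by rw [hx]; exact h1 n))
    exact ⟨c, by rw [← hx, ← hc, ← IsScalarTower.algebraMap_apply]⟩
  obtain ⟨Q, hQ, -, hmonic⟩ := Polynomial.lifts_and_natDegree_eq_and_monic h3
    (MulSemiringAction.monic_charpoly G y)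
  refine ⟨Q, hmonic, ?_⟩
  rw [← Polynomial.eval_map, hQ]
  exact MulSemiringAction.eval_charpoly G y

end Descend

section LocalUFD

variable {S D R : Type*} [CommRing S] [IsDomain S] [IsNoetherianRing S] [CommRing D] [IsDomain D]
  [IsLocalRing D] [IsPrincipalIdealRing D] [CommRing R] [Algebra S R]

/-- The localisation of `S` at the preimage of the maximal ideal of `D`. -/
theorem exists_local_surjection (ψ : S →+* D) (hψ : Function.Surjective ψ)
    [IsLocalization ((IsLocalRing.maximalIdeal D).comap ψ).primeCompl R] (s : S) (hs : s ≠ 0)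
    (hψs : ψ s = 0)
    (hker : ∀ a : S, ψ a = 0 → ∃ c : S, IsUnit (ψ c) ∧ ∃ y : S, c * a = s * y) :
    IsDomain R ∧ IsLocalRing R ∧ IsNoetherianRing R ∧ UniqueFactorizationMonoid R ∧
    Prime (algebraMap S R s) ∧
    (∃ ψR : R →+* D, (∀ a, ψR (algebraMap S R a) = ψ a) ∧ Function.Surjective ψR ∧
      RingHom.ker ψR = Ideal.span {algebraMap S R s} ∧ (∀ x, IsUnit (ψR x) → IsUnit x)) ∧
    (∀ t : S, Irreducible (ψ t) → Prime (algebraMap S R t)) := by
  set P := (IsLocalRing.maximalIdeal D).comap ψ with hP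
  have hle : P.primeCompl ≤ nonZeroDivisors S := P.primeCompl_le_nonZeroDivisors
  have hdom : IsDomain R := IsLocalization.isDomain_of_le_nonZeroDivisors R hle
  have hloc : IsLocalRing R := IsLocalization.AtPrime.isLocalRing R P
  have hnoeth : IsNoetherianRing R := IsLocalization.isNoetherianRing P.primeCompl R inferInstance
  have hunit : ∀ y : P.primeCompl, IsUnit (ψ y) := by
    intro y
    by_contra hy
    exact y.2 ((IsLocalRing.mem_maximalIdeal _).2 hy)
  let ψR : R →+* D := IsLocalization.lift hunit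
  have hψR : ∀ a, ψR (algebraMap S R a) = ψ a := fun a => IsLocalization.lift_eq hunit a
  have hsurj : Function.Surjective ψR := fun d => by
    obtain ⟨a, rfl⟩ := hψ d
    exact ⟨_, hψR a⟩
  have hinj : Function.Injective (algebraMap S R) := IsLocalization.injective R hle
  have hmem : ∀ c : S, IsUnit (ψ c) → c ∈ P.primeCompl := by
    intro c hc hcP
    exact (IsLocalRing.mem_maximalIdeal _).1 hcP hc
  have hunitR : ∀ c : S, IsUnit (ψ c) → IsUnit (algebraMap S R c) := fun c hc =>
    IsLocalization.map_units R (⟨c, hmem c hc⟩ : P.primeCompl)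
  have hker' : RingHom.ker ψR = Ideal.span {algebraMap S R s} := by
    apply le_antisymm
    · intro x hx
      rw [RingHom.mem_ker] at hx
      obtain ⟨a, b, hab⟩ := IsLocalization.exists_mk'_eq P.primeCompl x
      have hb := IsLocalization.mk'_spec R a b
      rw [hab] at hb
      have ha : ψ a = 0 := by
        rw [← hψR a, ← hb, map_mul, hx, zero_mul]
      obtain ⟨c, hc, y, hcy⟩ := hker a ha
      have hcU := hunitR c hc
      have hbU : IsUnit (algebraMap S R b) := IsLocalization.map_units R b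
      have : (algebraMap S R c * algebraMap S R b) * x ∈ Ideal.span {algebraMap S R s} := by
        rw [Ideal.mem_span_singleton]
        refine ⟨algebraMap S R y, ?_⟩
        rw [← map_mul (algebraMap S R) s y, ← hcy, map_mul, ← hb]; ring
      exact (Ideal.unit_mul_mem_iff_mem _ (hcU.mul hbU)).1 this
    · rw [Ideal.span_singleton_le_iff_mem, RingHom.mem_ker, hψR, hψs]
  have hprime : Prime (algebraMap S R s) := by
    rw [← Ideal.span_singleton_prime ((map_ne_zero_iff _ hinj).2 hs), ← hker']
    exact RingHom.ker_isPrime ψR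
  have hunit_of : ∀ x, IsUnit (ψR x) → IsUnit x := by
    intro x hx
    by_contra hnx
    obtain ⟨d, hd⟩ := hx.exists_right_inv
    obtain ⟨y, rfl⟩ := hsurj d
    have h1 : x * y - 1 ∈ RingHom.ker ψR := by
      rw [RingHom.mem_ker, map_sub, map_mul, hd, map_one, sub_self]
    rw [hker'] at h1
    have h2 : Ideal.span {algebraMap S R s} ≤ IsLocalRing.maximalIdeal R := by
      rw [Ideal.span_singleton_le_iff_mem]
      exact (IsLocalRing.mem_maximalIdeal _).2 hprime.not_isUnit
    have h3 : x * y ∈ IsLocalRing.maximalIdeal R :=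
      Ideal.mul_mem_right _ _ ((IsLocalRing.mem_maximalIdeal _).2 hnx)
    have h4 := Ideal.sub_mem _ h3 (h2 h1)
    rw [sub_sub_cancel] at h4
    exact (Ideal.ne_top_iff_one _).1 (IsLocalRing.maximalIdeal.isMaximal R).ne_top h4
  let e : R ⧸ Ideal.span {algebraMap S R s} ≃+* D :=
    (Ideal.quotEquivOfEq hker'.symm).trans (RingHom.quotientKerEquivOfSurjective hsurj)
  have he : ∀ x, e (Ideal.Quotient.mk _ x) = ψR x := fun x => rfl
  have hpir : IsPrincipalIdealRing (R ⧸ Ideal.span {algebraMap S R s}) :=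
    IsPrincipalIdealRing.of_surjective (e.symm : D →+* _) e.symm.surjective
  have hufd := ufd_of_prime hprime hpir
  refine ⟨hdom, hloc, hnoeth, hufd, hprime, ⟨ψR, hψR, hsurj, hker', hunit_of⟩, fun t ht => ?_⟩
  rw [← UniqueFactorizationMonoid.irreducible_iff_prime]
  apply irreducible_of_quotient hprime
  rw [← MulEquiv.irreducible_iff e, he, hψR]
  exact ht

end LocalUFD

section Red

variable {E κ : Type*} [Field E] [Field κ] {W : ValuationSubring E}

/-- `x` lies in the valuation ring `W` and reduces to `t`. -/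
def Red (ρ : W →+* κ) (x : E) (t : κ) : Prop := ∃ h : x ∈ W, ρ ⟨x, h⟩ = t

variable {ρ : W →+* κ}

theorem Red.mem {x : E} {t : κ} (h : Red ρ x t) : x ∈ W := h.1

theorem Red.unique {x : E} {t t' : κ} (h : Red ρ x t) (h' : Red ρ x t') : t = t' := by
  obtain ⟨_, rfl⟩ := h; obtain ⟨_, rfl⟩ := h'; rfl

theorem Red.mul {x y : E} {t u : κ} (h : Red ρ x t) (h' : Red ρ y u) :
    Red ρ (x * y) (t * u) := by
  obtain ⟨hx, rfl⟩ := h; obtain ⟨hy, rfl⟩ := h'
  exact ⟨mul_mem hx hy, by rw [← map_mul]; rfl⟩

theorem Red.add {x y : E} {t u : κ} (h : Red ρ x t) (h' : Red ρ y u) :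
    Red ρ (x + y) (t + u) := by
  obtain ⟨hx, rfl⟩ := h; obtain ⟨hy, rfl⟩ := h'
  exact ⟨add_mem hx hy, by rw [← map_add]; rfl⟩

theorem Red.one : Red ρ (1 : E) 1 := ⟨one_mem _, map_one ρ⟩

theorem Red.zero : Red ρ (0 : E) 0 := ⟨zero_mem _, map_zero ρ⟩

theorem Red.neg {x : E} {t : κ} (h : Red ρ x t) : Red ρ (-x) (-t) := by
  obtain ⟨hx, rfl⟩ := h
  exact ⟨neg_mem hx, by rw [← map_neg]; rfl⟩

theorem Red.sub {x y : E} {t u : κ} (h : Red ρ x t) (h' : Red ρ y u) :
    Red ρ (x - y) (t - u) := by
  rw [sub_eq_add_neg, sub_eq_add_neg]; exact h.add h'.neg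

theorem Red.pow {x : E} {t : κ} (h : Red ρ x t) (n : ℕ) : Red ρ (x ^ n) (t ^ n) := by
  induction n with
  | zero => simpa using Red.one
  | succ n ih => rw [pow_succ, pow_succ]; exact ih.mul h

theorem Red.inv {x : E} {t : κ} (h : Red ρ x t) (hx : x⁻¹ ∈ W) : Red ρ x⁻¹ t⁻¹ := by
  by_cases h0 : x = 0
  · subst h0
    have := h.unique Red.zero
    subst this
    simpa using Red.zero
  obtain ⟨hx', rfl⟩ := h
  refine ⟨hx, ?_⟩
  have h1 : (⟨x, hx'⟩ : W) * ⟨x⁻¹, hx⟩ = 1 := by ext; exact mul_inv_cancel₀ h0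
  have h2 := congrArg ρ h1
  rw [map_mul, map_one] at h2
  exact eq_inv_of_mul_eq_one_right h2

theorem Red.zpow {x : E} {t : κ} (h : Red ρ x t) (hx : x⁻¹ ∈ W) (n : ℤ) :
    Red ρ (x ^ n) (t ^ n) := by
  obtain ⟨m, rfl | rfl⟩ := Int.eq_nat_or_neg n
  · simpa using h.pow m
  · simpa using (h.inv hx).pow m

end Red

/-- A sheet `(W, ρ)` of a Galois cover `E / F` above the component `z' = 0` of the germ `B`,
separated from the other sheets at the closed point. -/
structure Sheet (F : Type*) {E κ : Type*} [Field F] [Field E] [Field κ] [Algebra F E]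
    (G : Type*) [Group G] [MulSemiringAction G E] {B : Type*} [CommRing B] [Algebra B F]
    [Algebra B E] {W : ValuationSubring E} (ρ : W →+* κ) (z' : B) : Prop where
  mem : ∀ b : B, algebraMap B E b ∈ W
  prime : Prime z'
  pid : IsPrincipalIdealRing (B ⧸ Ideal.span {z'})
  dvd_of_red : ∀ b : B, Red ρ (algebraMap B E b) 0 → z' ∣ b
  base : ∀ x : F, algebraMap F E x ∈ W →
    ∃ a b : B, ¬ z' ∣ b ∧ x * algebraMap B F b = algebraMap B F a
  red_zero : Red ρ (algebraMap B E z') 0
  ker : ∀ x : E, Red ρ x 0 → ∃ y ∈ W, x = z' • y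
  inv_mem : ∀ (x : E) (t : κ), Red ρ x t → t ≠ 0 → x⁻¹ ∈ W
  closed : ∀ x : E, IsIntegral B x → ∀ t, Red ρ x t → ∃ b : B, Red ρ (algebraMap B E b) t
  sep : ∃ c : E, IsIntegral B c ∧ (∃ (b : B) (t : κ), IsUnit b ∧ Red ρ (algebraMap B E b) t ∧
    Red ρ c t) ∧ ∀ g : G, g ≠ 1 → Red ρ (g • c) 0

namespace Sheet

variable {F E κ : Type*} [Field F] [Field E] [Field κ] [Algebra F E]
  {G : Type*} [Group G] [MulSemiringAction G E] {B : Type*} [CommRing B] [Algebra B F]
  [Algebra B E] {W : ValuationSubring E} {ρ : W →+* κ} {z' : B}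

theorem mem_of_isIntegral (h : Sheet F G ρ z') {x : E} (hx : IsIntegral B x) : x ∈ W := by
  let φ : B →+* W := (algebraMap B E).codRestrict W.toSubring h.mem
  let _ : Algebra B W := φ.toAlgebra
  have : IsScalarTower B W E := IsScalarTower.of_algebraMap_eq fun b => rfl
  have h1 : IsIntegral W x := hx.tower_top
  obtain ⟨y, hy⟩ := IsIntegrallyClosed.isIntegral_iff.1 h1
  rw [← hy]; exact y.2

/-- Reduction on the integral closure. -/
noncomputable def redS (h : Sheet F G ρ z') : integralClosure B E →+* κ :=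
  ρ.comp ((integralClosure B E).toSubring.subtype.codRestrict W.toSubring
    fun x => h.mem_of_isIntegral x.2)

theorem red_redS (h : Sheet F G ρ z') (x : integralClosure B E) : Red ρ (x : E) (h.redS x) :=
  ⟨h.mem_of_isIntegral x.2, rfl⟩

/-- Reduction of `B`. -/
noncomputable def redB (h : Sheet F G ρ z') : B →+* κ :=
  ρ.comp ((algebraMap B E).codRestrict W.toSubring h.mem)

theorem red_redB (h : Sheet F G ρ z') (b : B) : Red ρ (algebraMap B E b) (h.redB b) :=
  ⟨h.mem b, rfl⟩

theorem redB_eq_zero (h : Sheet F G ρ z') (b : B) : h.redB b = 0 ↔ b ∈ Ideal.span {z'} := by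
  rw [Ideal.mem_span_singleton]
  constructor
  · intro hb
    exact h.dvd_of_red b (hb ▸ h.red_redB b)
  · rintro ⟨c, rfl⟩
    rw [map_mul, (h.red_redB z').unique h.red_zero, zero_mul]

/-- The curve `z' = 0` inside the residue field of the sheet. -/
noncomputable def inc (h : Sheet F G ρ z') : B ⧸ Ideal.span {z'} →+* κ :=
  Ideal.Quotient.lift _ h.redB fun b hb => (h.redB_eq_zero b).2 hb

@[simp] theorem inc_mk (h : Sheet F G ρ z') (b : B) :
    h.inc (Ideal.Quotient.mk _ b) = h.redB b := rfl

theorem inc_injective (h : Sheet F G ρ z') : Function.Injective h.inc := by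
  rw [injective_iff_map_eq_zero]
  intro x hx
  obtain ⟨b, rfl⟩ := Ideal.Quotient.mk_surjective x
  rw [inc_mk, redB_eq_zero] at hx
  exact Ideal.Quotient.eq_zero_iff_mem.2 hx

theorem redS_mem_range (h : Sheet F G ρ z') (x : integralClosure B E) :
    h.redS x ∈ h.inc.range := by
  obtain ⟨b, hb⟩ := h.closed x x.2 _ (h.red_redS x)
  exact ⟨Ideal.Quotient.mk _ b, by rw [inc_mk]; exact (h.red_redB b).unique hb⟩

/-- The reduction from the integral closure onto the curve `z' = 0`. -/
noncomputable def psi (h : Sheet F G ρ z') : integralClosure B E →+* B ⧸ Ideal.span {z'} :=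
  (RingEquiv.ofBijective h.inc.rangeRestrict
    ⟨fun _ _ hxy => h.inc_injective (congrArg Subtype.val hxy),
      h.inc.rangeRestrict_surjective⟩).symm.toRingHom.comp
    (h.redS.codRestrict h.inc.range h.redS_mem_range)

theorem inc_psi (h : Sheet F G ρ z') (x : integralClosure B E) : h.inc (h.psi x) = h.redS x := by
  have := (RingEquiv.ofBijective h.inc.rangeRestrict
    ⟨fun x y hxy => h.inc_injective (congrArg Subtype.val hxy),
      h.inc.rangeRestrict_surjective⟩).apply_symm_apply
      (h.redS.codRestrict h.inc.range h.redS_mem_range x)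
  exact congrArg Subtype.val this

theorem psi_algebraMap (h : Sheet F G ρ z') (b : B) :
    h.psi (algebraMap B _ b) = Ideal.Quotient.mk _ b := by
  apply h.inc_injective
  rw [inc_psi, inc_mk]
  exact (h.red_redS _).unique (h.red_redB b)

theorem psi_surjective (h : Sheet F G ρ z') : Function.Surjective h.psi := fun x => by
  obtain ⟨b, rfl⟩ := Ideal.Quotient.mk_surjective x
  exact ⟨_, h.psi_algebraMap b⟩

section Clear

variable [IsDomain B] [IsIntegrallyClosed B] [IsFractionRing B F] [IsScalarTower B F E]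
  [Fintype G] [Algebra.IsInvariant F E G] [SMulCommClass G B E]

omit [IsDomain B] [IsIntegrallyClosed B] [IsFractionRing B F] [IsScalarTower B F E] [Fintype G]
  [Algebra.IsInvariant F E G] in
theorem isIntegral_smul (g : G) {y : E} (hy : IsIntegral B y) : IsIntegral B (g • y) :=
  hy.map (MulSemiringAction.toAlgHom B E g)

theorem exists_clear (h : Sheet F G ρ z') (a : integralClosure B E) (ha : h.psi a = 0) :
    ∃ c : integralClosure B E, IsUnit (h.psi c) ∧
      ∃ y : integralClosure B E, c * a = algebraMap B _ z' * y := by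
  obtain ⟨c, hc, ⟨b, t, hb, hbt, hct⟩, hg⟩ := h.sep
  have hz0 : algebraMap B E z' ≠ 0 := by
    rw [IsScalarTower.algebraMap_apply B F E]
    exact (map_ne_zero_iff _ (algebraMap F E).injective).2
      ((map_ne_zero_iff _ (IsFractionRing.injective B F)).2 h.prime.ne_zero)
  have ha0 : Red ρ (a : E) 0 := by
    have := h.red_redS a
    rwa [← h.inc_psi, ha, map_zero] at this
  refine ⟨⟨c, hc⟩, ?_, ?_⟩
  · have : h.psi ⟨c, hc⟩ = Ideal.Quotient.mk _ b := by
      apply h.inc_injective
      rw [inc_psi, inc_mk]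
      rw [(h.red_redS ⟨c, hc⟩).unique hct, (h.red_redB b).unique hbt]
    rw [this]; exact hb.map _
  · set y : E := (algebraMap B E z')⁻¹ * (c * a) with hy
    have hzy : algebraMap B E z' * y = c * a := by
      rw [hy, ← mul_assoc, mul_inv_cancel₀ hz0, one_mul]
    have hyint : IsIntegral B y := by
      refine isIntegral_of_sheets (F := F) (G := G) h.prime W h.base
        (fun g y hy => isIntegral_smul g hy) (fun g b y => smul_comm g b y) ⟨1, ?_⟩ ?_
      · rw [pow_one, Algebra.smul_def, hzy]
        exact hc.mul a.2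
      · intro g
        have hred : Red ρ (g • (c * (a : E))) 0 := by
          rw [smul_mul']
          by_cases hg1 : g = 1
          · subst hg1
            rw [one_smul, one_smul, ← mul_zero t]
            exact hct.mul ha0
          · have := (hg g hg1).mul (h.red_redS ⟨g • (a : E), isIntegral_smul g a.2⟩)
            rwa [zero_mul] at this
        obtain ⟨w, hw, hw'⟩ := h.ker _ hred
        have h1 : g • (algebraMap B E z' * y) = algebraMap B E z' * (g • y) := by
          rw [← Algebra.smul_def, ← Algebra.smul_def, smul_comm]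
        rw [← hzy, h1, Algebra.smul_def] at hw'
        rw [mul_left_cancel₀ hz0 hw']
        exact hw
    exact ⟨⟨y, hyint⟩, Subtype.ext hzy.symm⟩

end Clear

end Sheet

end Fermat.Agent.H40
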