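import Fermat.Agent.H31MPNodeConst
import Fermat.Agent.H40InjP
import Fermat.Agent.H90Descent

/-!
# Split classes: inertia acts through the cyclotomic character (helper40)

(SS2_p) in the setting of `MP.Data`.
-/

set_option autoImplicit false
set_option linter.unusedSectionVars false

open AlgebraicCurve WithZero Fermat.Agent

namespace Fermat.Agent.H40

open Fermat.Agent.H31.MP Fermat.Agent.H97

section Zeta

variable {K Γ : Type*} [Field K] [LinearOrderedCommGroupWithZero Γ] (v : Valuation K Γ)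

/-- For a primitive `p`-th root of unity `ζ` with `|ζ - 1| < 1`:
`|ζ - 1|^(p-1) = |p|` and `p / (ζ-1)^(p-1) ≡ -1`. -/
theorem zeta_rel {p : ℕ} (hp : p.Prime) {ζ : K} (hζ : ζ ^ p = 1) (hζ1 : ζ ≠ 1)
    (hlt : v (ζ - 1) < 1) (hp0 : (p : K) ≠ 0) :
    v (ζ - 1) ^ (p - 1) = v (p : K) ∧ v (p / (ζ - 1) ^ (p - 1) + 1) < 1 := by
  set l := ζ - 1 with hl
  have hl0 : l ≠ 0 := sub_ne_zero.mpr hζ1
  have hz : ζ = 1 + l := by rw [hl]; ring
  obtain ⟨r, hr, h⟩ := one_add_pow_prime' v hp (y := l) hlt.le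
  rw [← hz, hζ] at h
  have hpp : l ^ p = l * l ^ (p - 1) := by
    conv_lhs => rw [show p = (p - 1) + 1 from (Nat.sub_add_cancel hp.one_le).symm]
    rw [pow_succ, mul_comm]
  have h1 : l * (l ^ (p - 1) + p * r) = 0 := by
    rw [hpp] at h
    linear_combination -h
  have h2 : l ^ (p - 1) = -(p * r) := by
    rcases mul_eq_zero.mp h1 with h3 | h3
    · exact absurd h3 hl0
    · linear_combination h3
  have hr1 : v (r - 1) < 1 := hr.trans_lt hlt
  have hvr : v r = 1 := by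
    have e1 : r = 1 + (r - 1) := by ring
    rw [e1, Valuation.map_add_eq_of_lt_left _ (by rwa [map_one]), map_one]
  have hr0 : r ≠ 0 := by rintro rfl; simp at hvr
  refine ⟨by rw [← map_pow, h2, Valuation.map_neg, map_mul, hvr, mul_one], ?_⟩
  have e1 : (p : K) / l ^ (p - 1) + 1 = (r - 1) / r := by
    rw [h2]
    field_simp
    ring
  rw [e1, map_div₀, hvr, div_one]
  exact hr1

end Zeta

theorem adic_le_one_of_AS {k Fb : Type*} [Field k] [Field Fb] [Algebra k Fb] {p : ℕ}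
    (hp : p.Prime) {s : Place k Fb} {a : Fb}
    (h : s.adicValuation (a ^ p - a) ≤ 1) : s.adicValuation a ≤ 1 := by
  by_contra hcon
  rw [not_le] at hcon
  have h1 : s.adicValuation a < s.adicValuation (a ^ p) := by
    rw [map_pow]
    exact lt_self_pow₀ hcon hp.one_lt
  rw [Valuation.map_sub_eq_of_lt_left _ h1, map_pow] at h
  exact absurd h (not_le.mpr (one_lt_pow₀ hcon hp.ne_zero))

/-- Values at places of the special fibre. -/
theorem exists_value_of_le {k Fb : Type*} [Field k] [IsAlgClosed k] [Field Fb]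
    [Algebra k Fb] [H3RR.IsFF k Fb] {s : Place k Fb} {a : Fb} (h : s.adicValuation a ≤ 1) :
    ∃ γ : k, s.adicValuation (a - algebraMap k Fb γ) < 1 :=
  H3RR.exists_const_sub_lt_one s h

theorem const_eq_of_lt {k Fb : Type*} [Field k] [IsAlgClosed k] [Field Fb]
    [Algebra k Fb] [H3RR.IsFF k Fb] {s : Place k Fb} {c : k}
    (h : s.adicValuation (algebraMap k Fb c) < 1) : c = 0 := by
  by_contra hc
  rw [H3RR.adicValuation_algebraMap _ hc] at h
  exact lt_irrefl _ h

variable {K F k Fb Γ ν G : Type*} [Field K] [Field F] [Algebra K F] [Field k] [Field Fb]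
    [Algebra k Fb] [LinearOrderedCommGroupWithZero Γ] [Group G] [MulSemiringAction G K]
    [MulSemiringAction G F] {p : ℕ} (D : Data K F k Fb Γ ν G p)

local notation "vv" => D.M.v
local notation "ρρ" => D.M.ρ
local notation "vK" => D.M.vK

variable [IsAlgClosed K] [H3RR.IsFF K F] [IsAlgClosed k] [H3RR.IsFF k Fb]
variable [Fact p.Prime] [CharP k p] [CharP Fb p]

/-- A `p`-th root of unity in `K`, fixed by `H`, with `|ζ-1| < 1`. -/
structure Zeta (H : Subgroup G) (ζ : K) : Prop where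
  pow : ζ ^ p = 1
  ne : ζ ≠ 1
  fix : Fix H ζ
  lt : D.M.vK (ζ - 1) < 1
  p_ne : (p : K) ≠ 0

section AS

variable {D} {H : Subgroup G} {ζ : K} (hζ : Zeta D H ζ)

include hζ

theorem Zeta.lam_ne : ζ - 1 ≠ 0 := sub_ne_zero.mpr hζ.ne

theorem Zeta.pos : 0 < D.M.vK (ζ - 1) :=
  zero_lt_iff.mpr ((Valuation.ne_zero_iff _).mpr hζ.lam_ne)

theorem Zeta.v_lam (i : Bool) : vv i (algebraMap K F (ζ - 1)) = vK (ζ - 1) := (D.comp i).v_alg _

theorem Zeta.lamF_ne : algebraMap K F (ζ - 1) ≠ 0 := (_root_.map_ne_zero _).mpr hζ.lam_ne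

/-- The Artin--Schreier reduction of `w / g^p`. -/
theorem AS_step {i : Bool} {w g : F} (hw : vv i (w - 1) < vK (ζ - 1) ^ p)
    (hg : vv i (g - 1) ≤ vK (ζ - 1)) :
    vv i ((g - 1) / algebraMap K F (ζ - 1)) ≤ 1 ∧
    vv i ((w / g ^ p - 1) / algebraMap K F ((ζ - 1) ^ p)) ≤ 1 ∧
    ρρ i ((w / g ^ p - 1) / algebraMap K F ((ζ - 1) ^ p)) =
      -((ρρ i ((g - 1) / algebraMap K F (ζ - 1))) ^ p -
        ρρ i ((g - 1) / algebraMap K F (ζ - 1))) := by
  have hp : p.Prime := Fact.out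
  have C := D.comp i
  set l := ζ - 1 with hl
  have hl0 : l ≠ 0 := hζ.lam_ne
  have hlF : algebraMap K F l ≠ 0 := hζ.lamF_ne
  have hlpos := hζ.pos
  have hvl : vv i (algebraMap K F l) = vK l := hζ.v_lam i
  obtain ⟨hlp, hcong⟩ := zeta_rel D.M.vK hp hζ.pow hζ.ne hζ.lt hζ.p_ne
  set B := (g - 1) / algebraMap K F l with hB
  have hvB : vv i B ≤ 1 := by rw [hB, map_div₀, hvl, div_le_one₀ hlpos]; exact hg
  have hg1 : g = 1 + algebraMap K F l * B := by rw [hB, mul_div_cancel₀ _ hlF]; ring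
  have hlB : vv i (algebraMap K F l * B) < 1 := by
    rw [map_mul, hvl]; exact mul_lt_one_of_lt_of_le hζ.lt hvB
  have hvg : vv i g = 1 ∧ ρρ i g = 1 := D.one_of_sub (by rw [hg1, add_sub_cancel_left]; exact hlB)
  have hg0 : g ≠ 0 := by rintro rfl; simpa using hvg.1
  have hvgp : vv i (g ^ p) = 1 := by rw [map_pow, hvg.1, one_pow]
  have hρgp : ρρ i (g ^ p) = 1 := by rw [C.ρ_pow hvg.1.le, hvg.2, one_pow]
  obtain ⟨r, hr, hexp⟩ := one_add_pow_prime' (vv i) hp hlB.le
  have hvr : vv i r = 1 ∧ ρρ i r = 1 := D.one_of_sub (hr.trans_lt hlB)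
  -- the constant
  set q : K := p / l ^ (p - 1) with hq
  have hvq : vK (q + 1) < 1 := hcong
  have hvq1 : vK q ≤ 1 := by
    have e1 : q = (q + 1) - 1 := by ring
    rw [e1]
    exact (Valuation.map_sub _ _ _).trans (max_le hvq.le (by simp))
  have hρq : ρρ i (algebraMap K F q) = -1 := by
    have h1 : ρρ i (algebraMap K F (q + 1)) = 0 :=
      (C.ρ_eq_zero _ (by rw [C.v_alg]; exact hvq.le)).mpr (by rw [C.v_alg]; exact hvq)
    rw [map_add, map_one, C.ρ_add _ _ (by rw [C.v_alg]; exact hvq1) (by simp), C.ρ_one] at h1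
    exact eq_neg_of_add_eq_zero_left h1
  have hpp : l ^ p = l * l ^ (p - 1) := by
    conv_lhs => rw [show p = (p - 1) + 1 from (Nat.sub_add_cancel hp.one_le).symm]
    rw [pow_succ, mul_comm]
  have hlp0 : l ^ (p - 1) ≠ 0 := pow_ne_zero _ hl0
  have e1 : (w / g ^ p - 1) / algebraMap K F (l ^ p) =
      ((w - 1) / algebraMap K F (l ^ p) - (B ^ p + algebraMap K F q * (B * r))) / g ^ p := by
    have h1 : g ^ p = 1 + algebraMap K F (l ^ p) * (B ^ p + algebraMap K F q * (B * r)) := by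
      conv_lhs => rw [hg1, hexp]
      have h2 : algebraMap K F (l ^ p) * (algebraMap K F q * (B * r)) =
          p * (algebraMap K F l * B) * r := by
        rw [← mul_assoc, ← map_mul]
        have h3 : l ^ p * q = p * l := by rw [hpp, hq]; field_simp
        rw [h3, map_mul, map_natCast]
        ring
      rw [mul_add, h2, map_pow]
      ring_nf
    have hlpF : algebraMap K F (l ^ p) ≠ 0 := (_root_.map_ne_zero _).mpr (pow_ne_zero _ hl0)
    rw [div_eq_iff hlpF, div_mul_eq_mul_div, eq_div_iff (pow_ne_zero _ hg0), sub_mul,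
      div_mul_cancel₀ _ (pow_ne_zero _ hg0), sub_mul, div_mul_cancel₀ _ hlpF]
    linear_combination -h1
  have hA : vv i ((w - 1) / algebraMap K F (l ^ p)) < 1 := by
    rw [map_div₀, C.v_alg, map_pow, div_lt_one₀ (pow_pos hlpos _)]
    exact hw
  have hBp : vv i (B ^ p) ≤ 1 := by rw [map_pow]; exact pow_le_one' hvB _
  have hBr : vv i (B * r) ≤ 1 := by rw [map_mul, hvr.1, mul_one]; exact hvB
  have hqBr : vv i (algebraMap K F q * (B * r)) ≤ 1 := by
    rw [map_mul, C.v_alg]; exact mul_le_one' hvq1 hBr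
  have hsum : vv i (B ^ p + algebraMap K F q * (B * r)) ≤ 1 :=
    (Valuation.map_add _ _ _).trans (max_le hBp hqBr)
  have hall : vv i ((w - 1) / algebraMap K F (l ^ p) -
      (B ^ p + algebraMap K F q * (B * r))) ≤ 1 :=
    (Valuation.map_sub _ _ _).trans (max_le hA.le hsum)
  rw [e1]
  refine ⟨hvB, by rw [map_div₀, hvgp, div_one]; exact hall, ?_⟩
  rw [C.ρ_div hall hvgp, hρgp, div_one, C.ρ_sub hA.le hsum, (C.ρ_eq_zero _ hA.le).mpr hA,
    C.ρ_add _ _ hBp hqBr, C.ρ_pow hvB, C.ρ_mul _ _ (by rw [C.v_alg]; exact hvq1) hBr, hρq,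
    C.ρ_mul _ _ hvB hvr.1.le, hvr.2]
  ring

/-- Dividing by `1 + λ b`. -/
theorem div_step {i : Bool} {g b : F} {e : ℕ} (hg : vv i (g - 1) ≤ vK (ζ - 1))
    (hb : vv i b ≤ 1)
    (hρ : ρρ i ((g - 1) / algebraMap K F (ζ - 1)) = ρρ i b + e) :
    vv i (1 + algebraMap K F (ζ - 1) * b) = 1 ∧ ρρ i (1 + algebraMap K F (ζ - 1) * b) = 1 ∧
    vv i (g / (1 + algebraMap K F (ζ - 1) * b) - algebraMap K F (ζ ^ e)) < vK (ζ - 1) := by
  have C := D.comp i
  set l := ζ - 1 with hl
  have hlF : algebraMap K F l ≠ 0 := hζ.lamF_ne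
  have hlpos := hζ.pos
  have hvl : vv i (algebraMap K F l) = vK l := hζ.v_lam i
  have h1 : vv i (algebraMap K F l * b) < 1 := by
    rw [map_mul, hvl]; exact mul_lt_one_of_lt_of_le hζ.lt hb
  obtain ⟨h2, h3⟩ := D.one_of_sub (i := i) (f := 1 + algebraMap K F l * b)
    (by rwa [add_sub_cancel_left])
  refine ⟨h2, h3, ?_⟩
  have h20 : (1 + algebraMap K F l * b) ≠ 0 := by
    intro h; rw [h] at h2; simp at h2
  set B := (g - 1) / algebraMap K F l with hB
  have hvB : vv i B ≤ 1 := by rw [hB, map_div₀, hvl, div_le_one₀ hlpos]; exact hg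
  have hg1 : g = 1 + algebraMap K F l * B := by rw [hB, mul_div_cancel₀ _ hlF]; ring
  -- `ζ ^ e = 1 + e l + l² s`
  obtain ⟨s, hs, hζe⟩ := one_add_pow (vv i) (y := algebraMap K F l) (by rw [hvl]; exact hζ.lt.le) e
  have hζe' : algebraMap K F (ζ ^ e) = 1 + e * algebraMap K F l + algebraMap K F l ^ 2 * s := by
    rw [← hζe, map_pow]
    congr 1
    rw [hl, map_sub, map_one]
    ring
  have e1 : g / (1 + algebraMap K F l * b) - algebraMap K F (ζ ^ e) =
      algebraMap K F l * ((B - (b + e)) - algebraMap K F l * (e * b + s + algebraMap K F l * s * b)) /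
        (1 + algebraMap K F l * b) := by
    rw [div_sub' h20, hζe']
    congr 1
    conv_lhs => rw [hg1]
    ring
  have hbe : vv i (b + e) ≤ 1 := (Valuation.map_add _ _ _).trans (max_le hb (v_natCast_le e))
  have h4 : vv i (B - (b + e)) < 1 := by
    apply D.sub_lt_of_ρ hvB hbe
    rw [hρ, C.ρ_add _ _ hb (v_natCast_le e), C.ρ_natCast]
  have h5 : vv i (algebraMap K F l * (e * b + s + algebraMap K F l * s * b)) < 1 := by
    rw [map_mul]
    refine mul_lt_one_of_lt_of_le (by rw [hvl]; exact hζ.lt) ?_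
    refine (Valuation.map_add _ _ _).trans (max_le ((Valuation.map_add _ _ _).trans
      (max_le ?_ hs)) ?_)
    · rw [map_mul]; exact mul_le_one' (v_natCast_le e) hb
    · rw [map_mul, map_mul, hvl]; exact mul_le_one' (mul_le_one' hζ.lt.le hs) hb
  rw [e1, map_div₀, h2, div_one, map_mul, hvl]
  exact mul_lt_of_lt_one_right hlpos ((Valuation.map_sub _ _ _).trans_lt (max_lt h4 h5))

end AS

/-- Local generators at smooth classes, closer to `1` than `λ`. -/
theorem gen_smooth_close (L : D.Lifts) {H : Subgroup G} {ϖ ζ : K} (hd : D.Disc H ϖ) {d : ℕ}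
    (hd1 : 1 ≤ d) (hζ : Zeta D H ζ) (hζϖ : vK (ζ - 1) = vK ϖ ^ d)
    {x : Bool × Place k Fb} (hx : ∀ n, x ∉ D.M.br n)
    {w : F} (hw : Fix H w) (hw0 : w ≠ 0) (hdiv : ∀ P : Place K F, (p : ℤ) ∣ P.ord w)
    (hw1 : vv x.1 (w - 1) < vK (ζ - 1) ^ p) :
    ∃ g : F, g ≠ 0 ∧ Fix H g ∧ (∀ P, D.M.sp P = Sum.inl x → P.ord w = p * P.ord g) ∧
      vv x.1 (g - 1) < vK (ζ - 1) := by
  have hp : p.Prime := Fact.out
  have C := D.comp x.1
  obtain ⟨hlp, -⟩ := zeta_rel D.M.vK hp hζ.pow hζ.ne hζ.lt hζ.p_ne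
  have hlpos := hζ.pos
  obtain ⟨g, hg0, hgf, hgord, hg1⟩ := D.gen_smooth L hd (d := d)
    (by rw [← hlp, hζϖ, ← pow_mul, mul_comm]) hx hw hw0 hdiv
    (n := p * d) (Nat.mul_pos hp.pos hd1) le_rfl
    (by rw [mul_comm, pow_mul, ← hζϖ]; exact hw1.le)
    (d - 1) (Nat.mul_lt_mul_of_pos_left (by omega) hp.pos)
  rw [Nat.sub_add_cancel hd1, ← hζϖ] at hg1
  obtain ⟨hvB, h1, h2⟩ := AS_step hζ hw1 hg1
  have hreg := D.M.reg hx h1 (fun P hP => by
    rw [map_div₀, H3RR.adicValuation_algebraMap _ (pow_ne_zero _ hζ.lam_ne), div_one]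
    refine (Valuation.map_sub _ _ _).trans (max_le (adic_le_one_of_ord ?_) (by simp))
    rw [ord_div P hw0 (pow_ne_zero _ hg0), ord_pow, hgord P hP, sub_self])
  rw [h2, Valuation.map_neg] at hreg
  have hreg' := adic_le_one_of_AS hp hreg
  obtain ⟨b, hbf, hb1, hbreg, hbρ⟩ := L.lift_smooth x hx _ hreg'
  obtain ⟨h4, h5, h6⟩ := div_step hζ (i := x.1) (g := g) (b := b) (e := 0) hg1 hb1
    (by rw [hbρ, Nat.cast_zero, add_zero])
  set W := 1 + algebraMap K F (ζ - 1) * b with hW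
  have hW0 : W ≠ 0 := by intro h; rw [h] at h4; simp at h4
  have hWord := D.unit_smooth hx h4 (fun P hP => by
    refine (Valuation.map_add _ _ _).trans (max_le (by simp) ?_)
    rw [map_mul]
    exact mul_le_one' (P.adicValuation_algebraMap_le_one _) (hbreg P hP))
    (by rw [h5, x.2.ord_one])
  refine ⟨g / W, div_ne_zero hg0 hW0, hgf.div (Fix.one.add ((D.fix_alg
    (hζ.fix.sub Fix.one)).mul hbf.of_top)), fun P hP => ?_, ?_⟩
  · rw [hgord P hP, ord_div P hg0 hW0, hWord P hP, sub_zero]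
  · rw [pow_zero, map_one] at h6
    exact h6

omit [IsAlgClosed k] in
/-- In characteristic `p`: `a ^ p = a` implies `a` is a natural number. -/
theorem exists_nat_of_pow_eq {a : k} (h : a ^ p = a) : ∃ j : ℕ, a = j := by
  have h1 := (Subfield.mem_bot_iff_pow_eq_self k p).mpr h
  rw [← ZMod.fieldRange_castHom_eq_bot p] at h1
  obtain ⟨c, hc⟩ := h1
  refine ⟨c.val, ?_⟩
  rw [← hc]
  conv_lhs => rw [← ZMod.natCast_zmod_val c]
  rw [map_natCast]

/-- Local generators at nodes: close to `1` on one component, to `ζ ^ j` on the other. -/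
theorem gen_node_close (L : D.Lifts) {H : Subgroup G} {ϖ ζ : K} (hd : D.Disc H ϖ) {d : ℕ}
    (hd1 : 1 ≤ d) (hζ : Zeta D H ζ) (hζϖ : vK (ζ - 1) = vK ϖ ^ d) (s : ν)
    {w : F} (hw : Fix H w) (hw0 : w ≠ 0) (hdiv : ∀ P : Place K F, (p : ℤ) ∣ P.ord w)
    (hw1 : ∀ i, vv i (w - 1) < vK (ζ - 1) ^ p) :
    ∃ (g : F) (j : Bool → ℕ), g ≠ 0 ∧ Fix H g ∧
      (∀ P, D.M.sp P = Sum.inr s → P.ord w = p * P.ord g) ∧
      ∀ i, vv i (g - algebraMap K F (ζ ^ j i)) < vK (ζ - 1) := by
  have hp : p.Prime := Fact.out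
  obtain ⟨hlp, -⟩ := zeta_rel D.M.vK hp hζ.pow hζ.ne hζ.lt hζ.p_ne
  have hlpos := hζ.pos
  obtain ⟨g, hg0, hgf, hgord, hg1⟩ := D.gen_node L hd (d := d)
    (by rw [← hlp, hζϖ, ← pow_mul, mul_comm]) s hw hw0 hdiv
    (n := p * d) (Nat.mul_pos hp.pos hd1) le_rfl
    (fun i => by rw [mul_comm, pow_mul, ← hζϖ]; exact (hw1 i).le)
    (d - 1) (Nat.mul_lt_mul_of_pos_left (by omega) hp.pos)
  rw [Nat.sub_add_cancel hd1, ← hζϖ] at hg1
  have hAS := fun i => AS_step hζ (hw1 i) (hg1 i)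
  obtain ⟨c, hc⟩ := D.node_val' (n := s)
    (f := (w / g ^ p - 1) / algebraMap K F ((ζ - 1) ^ p)) (fun i => (hAS i).2.1)
    (fun P hP => by
      rw [map_div₀, H3RR.adicValuation_algebraMap _ (pow_ne_zero _ hζ.lam_ne), div_one]
      refine (Valuation.map_sub _ _ _).trans (max_le (adic_le_one_of_ord ?_) (by simp))
      rw [ord_div P hw0 (pow_ne_zero _ hg0), ord_pow, hgord P hP, sub_self])
  set β : Bool → Fb := fun i => ρρ i ((g - 1) / algebraMap K F (ζ - 1)) with hβ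
  have hβval : ∀ i, ∃ γ : k, (D.pt i s).adicValuation (β i - algebraMap k Fb γ) < 1 := by
    intro i
    apply exists_value_of_le
    apply adic_le_one_of_AS hp
    have h1 := hc i
    rw [(hAS i).2.2] at h1
    have h2 : (β i) ^ p - β i = -((-((β i) ^ p - β i) - algebraMap k Fb c)) - algebraMap k Fb c := by
      ring
    rw [h2]
    refine (Valuation.map_sub _ _ _).trans (max_le ?_ ((D.pt i s).adicValuation_algebraMap_le_one _))
    rw [Valuation.map_neg]
    exact h1.le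
  choose γ hγ using hβval
  have hγc : ∀ i, γ i ^ p - γ i = -c := by
    intro i
    have h1 := hc i
    rw [(hAS i).2.2] at h1
    have hβ1 : (D.pt i s).adicValuation (β i) ≤ 1 := by
      have e1 : β i = (β i - algebraMap k Fb (γ i)) + algebraMap k Fb (γ i) := by ring
      rw [e1]
      exact (Valuation.map_add _ _ _).trans
        (max_le (hγ i).le ((D.pt i s).adicValuation_algebraMap_le_one _))
    have h2 : (D.pt i s).adicValuation ((β i) ^ p - algebraMap k Fb (γ i ^ p)) < 1 := by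
      rw [map_pow, ← sub_pow_char, map_pow]
      exact pow_lt_one₀ zero_le (hγ i) hp.ne_zero
    have h3 : (D.pt i s).adicValuation (algebraMap k Fb (γ i ^ p - γ i + c)) < 1 := by
      have e1 : algebraMap k Fb (γ i ^ p - γ i + c) =
          -((β i) ^ p - algebraMap k Fb (γ i ^ p)) + (β i - algebraMap k Fb (γ i)) -
            (-((β i) ^ p - β i) - algebraMap k Fb c) := by
        rw [map_add, map_sub]; ring
      rw [e1]
      refine (Valuation.map_sub _ _ _).trans_lt (max_lt ((Valuation.map_add _ _ _).trans_lt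
        (max_lt ?_ (hγ i))) h1)
      rw [Valuation.map_neg]
      exact h2
    exact eq_neg_of_add_eq_zero_left (const_eq_of_lt h3)
  -- the difference is in the prime field
  obtain ⟨j, hj⟩ : ∃ j : ℕ, γ true - γ false = j := by
    apply exists_nat_of_pow_eq (p := p)
    rw [sub_pow_char]
    have h1 := hγc true
    have h2 := hγc false
    linear_combination h1 - h2
  set e : Bool → ℕ := fun i => if i then j else 0 with he
  have hγe : ∀ i, γ i = γ false + e i := by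
    intro i
    cases i
    · simp [he]
    · simp only [he, if_true]
      rw [← hj]; ring
  obtain ⟨b, hbf, hb1, hbreg, hbρ⟩ := L.lift_node s (fun i => β i - e i) (γ false) (fun i => by
    have h1 := hγ i
    rw [hγe i, map_add, map_natCast] at h1
    have e1 : β i - (e i : Fb) - algebraMap k Fb (γ false) =
      β i - (algebraMap k Fb (γ false) + e i) := by ring
    rw [e1]
    exact h1)
  have hst := fun i => div_step hζ (i := i) (g := g) (b := b) (e := e i) (hg1 i) (hb1 i)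
    (by rw [hbρ]; simp [hβ])
  set W := 1 + algebraMap K F (ζ - 1) * b with hW
  have hW0 : W ≠ 0 := by
    intro h
    have := (hst false).1
    rw [h] at this
    simp at this
  have hWord := D.unit_node (n := s) (fun i => (hst i).1) (fun P hP => by
    refine (Valuation.map_add _ _ _).trans (max_le (by simp) ?_)
    rw [map_mul]
    exact mul_le_one' (P.adicValuation_algebraMap_le_one _) (hbreg P hP))
    (fun i => by rw [(hst i).2.1, Place.ord_one])
  refine ⟨g / W, e, div_ne_zero hg0 hW0, hgf.div (Fix.one.add ((D.fix_alg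
    (hζ.fix.sub Fix.one)).mul hbf.of_top)), fun P hP => ?_, fun i => (hst i).2.2⟩
  rw [hgord P hP, ord_div P hg0 hW0, hWord P hP, sub_zero]

/-- `σ g / g ^ a` is close to `1` if `g` is close to `ζ ^ j` and `σ ζ = ζ ^ a`. -/
theorem twist_close {i : Bool} {ζ : K} {σ : G} {a j : ℕ} {g : F} {r : Γ} (hr : r ≤ 1)
    (hζ : ζ ^ p = 1) (hσ : σ • ζ = ζ ^ a) (hg : vv i (g - algebraMap K F (ζ ^ j)) < r) :
    vv i ((σ • g) / g ^ a - 1) < r := by
  have hp : p.Prime := Fact.out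
  have C := D.comp i
  have hvζ : vK ζ = 1 := (pow_eq_one_iff_of_nonneg zero_le hp.ne_zero).mp (by
    rw [← map_pow, hζ, map_one])
  set z := algebraMap K F (ζ ^ j) with hz
  have hvz : vv i z = 1 := by rw [hz, C.v_alg, map_pow, hvζ, one_pow]
  have hvg : vv i g = 1 := by
    have e1 : g = z + (g - z) := by ring
    rw [e1, Valuation.map_add_eq_of_lt_left _ (by rw [hvz]; exact hg.trans_le hr), hvz]
  have hg0 : g ≠ 0 := by rintro rfl; simp at hvg
  have hσz : σ • z = z ^ a := by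
    rw [hz, D.smul_alg, smul_pow', hσ, ← map_pow, ← pow_mul, ← pow_mul, mul_comm]
  have h1 : vv i (σ • g - z ^ a) < r := by
    rw [← hσz, ← smul_sub, D.v_smul]
    exact hg
  have h2 : vv i (g ^ a - z ^ a) < r := by
    have h3 : g ^ a - z ^ a = (g - z) * ∑ m ∈ Finset.range a, g ^ m * z ^ (a - 1 - m) := by
      rw [mul_comm]
      exact (Commute.all g z).geom_sum₂_mul a |>.symm
    rw [h3, map_mul]
    refine (mul_le_of_le_one_right' ?_).trans_lt hg
    refine Valuation.map_sum_le _ fun m _ => ?_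
    rw [map_mul, map_pow, map_pow, hvg, hvz, one_pow, one_pow, one_mul]
  have e1 : (σ • g) / g ^ a - 1 = ((σ • g - z ^ a) - (g ^ a - z ^ a)) / g ^ a := by
    rw [div_sub_one (pow_ne_zero _ hg0)]
    congr 1
    ring
  rw [e1, map_div₀, map_pow, hvg, one_pow, div_one]
  exact (Valuation.map_sub _ _ _).trans_lt (max_lt h1 h2)

/-- **(SS2_p)** A class which is split on both components: inertia acts through the cyclotomic
character. -/
theorem ss2 (L : D.Lifts) {S : Finset (Bool × Place k Fb)} (hS : D.M.Nonspecial S)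
    {H : Subgroup G} {ϖ ζ : K} (hd : D.Disc H ϖ) {d : ℕ}
    (hd1 : 1 ≤ d) (hζ : Zeta D H ζ) (hζϖ : vK (ζ - 1) = vK ϖ ^ d)
    {w : F} (hw : Fix H w) (hw0 : w ≠ 0) (hdiv : ∀ P : Place K F, (p : ℤ) ∣ P.ord w)
    (hw1 : ∀ i, vv i (w - 1) < vK (ζ - 1) ^ p)
    {σ : G} {a : ℕ} (hσ : σ • ζ = ζ ^ a) :
    ∃ φ : F, φ ≠ 0 ∧ σ • w = w ^ a * φ ^ p := by
  have hp : p.Prime := Fact.out
  obtain ⟨hlp, -⟩ := zeta_rel D.M.vK hp hζ.pow hζ.ne hζ.lt hζ.p_ne
  have hlpos := hζ.pos
  have hσw0 : σ • w ≠ 0 := by rwa [smul_ne_zero_iff_ne]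
  have hwa0 : w ^ a ≠ 0 := pow_ne_zero _ hw0
  set w' := (σ • w) / w ^ a with hw'
  have hw'0 : w' ≠ 0 := div_ne_zero hσw0 hwa0
  have hordw' : ∀ P : Place K F, P.ord w' = P.ord (σ • w) - a * P.ord w := fun P => by
    rw [hw', ord_div P hσw0 hwa0, ord_pow]
  have hdvd : ∀ P : Place K F, (p : ℤ) ∣ P.ord w' := by
    intro P
    rw [hordw']
    obtain ⟨P', -, h'⟩ := D.place σ P
    rw [h']
    exact dvd_sub (hdiv P') (Dvd.dvd.mul_left (hdiv P) _)
  obtain ⟨D', hD', -⟩ := H90.exists_div_divisor hp.pos hw'0 hdvd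
  have hpz : (p : ℤ) ≠ 0 := by exact_mod_cast hp.ne_zero
  have hgen : ∀ (c : (Bool × Place k Fb) ⊕ ν) (g : F), g ≠ 0 →
      (∀ P, D.M.sp P = c → P.ord w = p * P.ord g) →
      ∀ P, D.M.sp P = c → P.ord ((σ • g) / g ^ a) = D' P := by
    intro c g hg0 hg P hP
    have hσg0 : σ • g ≠ 0 := by rwa [smul_ne_zero_iff_ne]
    have h1 := D.ord_smul_eq (σ := σ) (m := p) hg P hP
    have h2 := hD' P
    rw [hordw', h1, hg P hP] at h2
    rw [ord_div P hσg0 (pow_ne_zero _ hg0), ord_pow]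
    have h3 : (p : ℤ) * (P.ord (σ • g) - a * P.ord g) = p * D' P := by
      rw [← h2]; ring
    exact mul_left_cancel₀ hpz h3
  have hclose : GenClose D.M D' (vK (ζ - 1)) := by
    refine ⟨fun x hx => ?_, fun s => ?_⟩
    · obtain ⟨g, hg0, -, hgord, hg1⟩ := gen_smooth_close D L hd hd1 hζ hζϖ hx hw hw0 hdiv
        (hw1 x.1)
      have hσg0 : σ • g ≠ 0 := by rwa [smul_ne_zero_iff_ne]
      exact ⟨(σ • g) / g ^ a, div_ne_zero hσg0 (pow_ne_zero _ hg0), hgen _ g hg0 hgord,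
        twist_close D hζ.lt.le hζ.pow hσ (j := 0) (by rw [pow_zero, map_one]; exact hg1)⟩
    · obtain ⟨g, j, hg0, -, hgord, hg1⟩ := gen_node_close D L hd hd1 hζ hζϖ s hw hw0 hdiv hw1
      have hσg0 : σ • g ≠ 0 := by rwa [smul_ne_zero_iff_ne]
      exact ⟨(σ • g) / g ^ a, div_ne_zero hσg0 (pow_ne_zero _ hg0), hgen _ g hg0 hgord,
        fun i => twist_close D hζ.lt.le hζ.pow hσ (hg1 i)⟩
  obtain ⟨φ, hφ0, hφ⟩ := exists_of_genClose D.M hS hp hζ.lam_ne hζ.lt hlp hw'0 hD'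
    (fun i => twist_close D (pow_le_one' hζ.lt.le _) hζ.pow hσ (j := 0)
      (by rw [pow_zero, map_one]; exact hw1 i)) hclose
  -- `w' / φ ^ p` is constant
  have hφp0 : φ ^ p ≠ 0 := pow_ne_zero _ hφ0
  obtain ⟨P₀⟩ : Nonempty (Place K F) := inferInstance
  obtain ⟨c, hc⟩ := H90.exists_const_of_ord_eq_zero (H90.isRational_of_isFF P₀)
    (by rw [H90.deg_eq_one_of_isFF P₀]; exact one_pos) (f := w' / φ ^ p) (fun P => by
      rw [ord_div P hw'0 hφp0, ord_pow, hφ, hD' P, sub_self])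
  obtain ⟨γ, hγ⟩ := IsAlgClosed.exists_pow_nat_eq c hp.pos
  have hcc : w' = algebraMap K F c * φ ^ p := by
    rw [← hc, div_mul_cancel₀ _ hφp0]
  have hγ0 : algebraMap K F γ * φ ≠ 0 := by
    refine mul_ne_zero ?_ hφ0
    rw [ne_eq, map_eq_zero]
    rintro rfl
    rw [zero_pow hp.ne_zero] at hγ
    rw [← hγ, map_zero, zero_mul] at hcc
    exact hw'0 hcc
  refine ⟨algebraMap K F γ * φ, hγ0, ?_⟩
  rw [mul_pow, ← map_pow, hγ, ← hcc, hw', mul_div_cancel₀ _ hwa0]

end Fermat.Agent.H40
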