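import Fermat.Agent.H40RegCover
import Mathlib.RingTheory.DiscreteValuationRing.Basic

/-!
# The slope congruence on a Galois cover of a regular surface germ
-/

set_option autoImplicit false

namespace Fermat.Agent.H40

section PrimeVal

variable {R K : Type*} [CommRing R] [IsDomain R] [UniqueFactorizationMonoid R] [Field K]
  [Algebra R K] [IsFractionRing R K]

theorem exists_prime_zpow (π : R) (hπ : Prime π) (x : K) (hx : x ≠ 0) :
    ∃ (n : ℤ) (a b : R), ¬ π ∣ a ∧ ¬ π ∣ b ∧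
      x = (algebraMap R K π) ^ n * (algebraMap R K a / algebraMap R K b) := by
  have hinj := IsFractionRing.injective R K
  have h0 : ∀ x : R, x ≠ 0 → algebraMap R K x ≠ 0 := fun x hx =>
    (map_ne_zero_iff _ hinj).2 hx
  obtain ⟨N, D, hD, rfl⟩ := IsFractionRing.div_surjective (A := R) x
  have hD0 : D ≠ 0 := nonZeroDivisors.ne_zero hD
  have hN0 : N ≠ 0 := by rintro rfl; apply hx; rw [map_zero, zero_div]
  obtain ⟨i, a, ha, hNa⟩ := WfDvdMonoid.max_power_factor hN0 hπ.irreducible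
  obtain ⟨j, b, hb, hDb⟩ := WfDvdMonoid.max_power_factor hD0 hπ.irreducible
  refine ⟨(i : ℤ) - j, a, b, ha, hb, ?_⟩
  have hπ0 := h0 _ hπ.ne_zero
  rw [hNa, hDb, map_mul, map_mul, map_pow, map_pow, zpow_sub₀ hπ0, zpow_natCast, zpow_natCast]
  rw [div_mul_div_comm]

/-- The valuation ring of a prime element of a UFD. -/
def primeVal (K : Type*) [Field K] [Algebra R K] [IsFractionRing R K] (π : R) (hπ : Prime π) :
    ValuationSubring K where
  carrier := {x | ∃ a b : R, ¬ π ∣ b ∧ x = algebraMap R K a / algebraMap R K b}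
  mul_mem' := by
    rintro _ _ ⟨a, b, hb, rfl⟩ ⟨c, d, hd, rfl⟩
    refine ⟨a * c, b * d, fun h => (hπ.dvd_or_dvd h).elim hb hd, ?_⟩
    rw [map_mul, map_mul, div_mul_div_comm]
  one_mem' := ⟨1, 1, fun h => hπ.not_isUnit (isUnit_of_dvd_one h), by simp⟩
  add_mem' := by
    rintro _ _ ⟨a, b, hb, rfl⟩ ⟨c, d, hd, rfl⟩
    have hinj := IsFractionRing.injective R K
    have hb0 : algebraMap R K b ≠ 0 := (map_ne_zero_iff _ hinj).2
      (by rintro rfl; exact hb (dvd_zero _))
    have hd0 : algebraMap R K d ≠ 0 := (map_ne_zero_iff _ hinj).2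
      (by rintro rfl; exact hd (dvd_zero _))
    refine ⟨a * d + b * c, b * d, fun h => (hπ.dvd_or_dvd h).elim hb hd, ?_⟩
    rw [div_add_div _ _ hb0 hd0]; simp
  zero_mem' := ⟨0, 1, fun h => hπ.not_isUnit (isUnit_of_dvd_one h), by simp⟩
  neg_mem' := by
    rintro _ ⟨a, b, hb, rfl⟩
    exact ⟨-a, b, hb, by rw [map_neg, neg_div]⟩
  mem_or_inv_mem' := by
    intro x
    by_cases hx : x = 0
    · left; subst hx
      exact ⟨0, 1, fun h => hπ.not_isUnit (isUnit_of_dvd_one h), by simp⟩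
    obtain ⟨n, a, b, ha, hb, rfl⟩ := exists_prime_zpow π hπ x hx
    obtain ⟨m, rfl | rfl⟩ := Int.eq_nat_or_neg n
    · left
      refine ⟨π ^ m * a, b, hb, ?_⟩
      rw [zpow_natCast, map_mul, map_pow, mul_div_assoc]
    · right
      refine ⟨π ^ m * b, a, ha, ?_⟩
      rw [zpow_neg, mul_inv, inv_inv, inv_div, zpow_natCast, map_mul, map_pow, mul_div_assoc]

theorem mem_primeVal {π : R} {hπ : Prime π} {x : K} :
    x ∈ primeVal K π hπ ↔ ∃ a b : R, ¬ π ∣ b ∧ x = algebraMap R K a / algebraMap R K b := Iff.rfl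

theorem algebraMap_mem_primeVal {π : R} {hπ : Prime π} (a : R) :
    algebraMap R K a ∈ primeVal K π hπ :=
  ⟨a, 1, fun h => hπ.not_isUnit (isUnit_of_dvd_one h), by simp⟩

theorem inv_mem_primeVal {π : R} {hπ : Prime π} (a : R) (ha : ¬ π ∣ a) :
    (algebraMap R K a)⁻¹ ∈ primeVal K π hπ :=
  ⟨1, a, ha, by simp⟩

theorem inv_notMem_primeVal {π : R} {hπ : Prime π} : (algebraMap R K π)⁻¹ ∉ primeVal K π hπ := by
  rintro ⟨a, b, hb, h⟩
  have hinj := IsFractionRing.injective R K
  have hb0 : algebraMap R K b ≠ 0 := (map_ne_zero_iff _ hinj).2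
    (by rintro rfl; exact hb (dvd_zero _))
  have hπ0 : algebraMap R K π ≠ 0 := (map_ne_zero_iff _ hinj).2 hπ.ne_zero
  apply hb
  refine ⟨a, ?_⟩
  apply hinj
  rw [map_mul]
  rw [eq_div_iff hb0] at h
  rw [← h, ← mul_assoc, mul_inv_cancel₀ hπ0, one_mul]

/-- If `z` lies in the maximal ideal of `V`, then no nonzero power of `z` is a unit. -/
theorem zpow_eq_zero {V : ValuationSubring K} {z : K} (hz0 : z ≠ 0) (hz : z ∈ V)
    (hz' : z⁻¹ ∉ V) {k : ℤ} (h1 : z ^ k ∈ V) (h2 : (z ^ k)⁻¹ ∈ V) : k = 0 := by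
  by_contra hk
  obtain ⟨m, rfl | rfl⟩ := Int.eq_nat_or_neg k
  · obtain ⟨l, rfl⟩ : ∃ l, m = l + 1 := Nat.exists_eq_succ_of_ne_zero (by rintro rfl; simp at hk)
    apply hz'
    have : z⁻¹ = z ^ l * (z ^ ((l + 1 : ℕ) : ℤ))⁻¹ := by
      rw [zpow_natCast, pow_succ]; field_simp
    rw [this]
    exact mul_mem (pow_mem hz l) h2
  · obtain ⟨l, rfl⟩ : ∃ l, m = l + 1 := Nat.exists_eq_succ_of_ne_zero (by rintro rfl; simp at hk)
    apply hz'
    have : z⁻¹ = z ^ l * (z ^ (-((l + 1 : ℕ) : ℤ))) := by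
      rw [zpow_neg, zpow_natCast, pow_succ]; field_simp
    rw [this]
    exact mul_mem (pow_mem hz l) h1

/-- `x` is a unit of the valuation ring `V`. -/
def IsU (V : ValuationSubring K) (x : K) : Prop := x ≠ 0 ∧ x ∈ V ∧ x⁻¹ ∈ V

theorem IsU.ne_zero {V : ValuationSubring K} {x : K} (h : IsU V x) : x ≠ 0 := h.1

theorem IsU.mul {V : ValuationSubring K} {x y : K} (h : IsU V x) (h' : IsU V y) :
    IsU V (x * y) :=
  ⟨mul_ne_zero h.1 h'.1, mul_mem h.2.1 h'.2.1, by rw [mul_inv]; exact mul_mem h.2.2 h'.2.2⟩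

theorem IsU.inv {V : ValuationSubring K} {x : K} (h : IsU V x) : IsU V x⁻¹ :=
  ⟨inv_ne_zero h.1, h.2.2, by rw [inv_inv]; exact h.2.1⟩

theorem IsU.div {V : ValuationSubring K} {x y : K} (h : IsU V x) (h' : IsU V y) :
    IsU V (x / y) := by rw [div_eq_mul_inv]; exact h.mul h'.inv

theorem IsU.pow {V : ValuationSubring K} {x : K} (h : IsU V x) (n : ℕ) : IsU V (x ^ n) :=
  ⟨pow_ne_zero _ h.1, pow_mem h.2.1 n, by rw [← inv_pow]; exact pow_mem h.2.2 n⟩

theorem IsU.zpow {V : ValuationSubring K} {x : K} (h : IsU V x) (n : ℤ) : IsU V (x ^ n) := by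
  obtain ⟨m, rfl | rfl⟩ := Int.eq_nat_or_neg n
  · rw [zpow_natCast]; exact h.pow m
  · rw [zpow_neg, zpow_natCast]; exact (h.pow m).inv

theorem exists_unit_primeVal (π : R) (hπ : Prime π) (x : K) (hx0 : x ≠ 0)
    (hx : x ∈ primeVal K π hπ) (hx' : x⁻¹ ∈ primeVal K π hπ) :
    ∃ a b : R, ¬ π ∣ a ∧ ¬ π ∣ b ∧ x = algebraMap R K a / algebraMap R K b := by
  have hinj := IsFractionRing.injective R K
  have h0 : ∀ x : R, x ≠ 0 → algebraMap R K x ≠ 0 := fun x hx =>
    (map_ne_zero_iff _ hinj).2 hx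
  obtain ⟨n, a, b, ha, hb, hxe⟩ := exists_prime_zpow π hπ x hx0
  have ha0 : algebraMap R K a ≠ 0 := h0 _ (by rintro rfl; exact ha (dvd_zero _))
  have hb0 : algebraMap R K b ≠ 0 := h0 _ (by rintro rfl; exact hb (dvd_zero _))
  have e1 : (algebraMap R K π) ^ n = x * (algebraMap R K b * (algebraMap R K a)⁻¹) := by
    rw [hxe]; field_simp
  have e2 : ((algebraMap R K π) ^ n)⁻¹ = x⁻¹ * (algebraMap R K a * (algebraMap R K b)⁻¹) := by
    rw [e1, mul_inv, mul_inv, inv_inv, mul_comm (algebraMap R K b)⁻¹]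
  have hn : n = 0 := by
    apply zpow_eq_zero (V := primeVal K π hπ) (h0 _ hπ.ne_zero) (algebraMap_mem_primeVal π)
      inv_notMem_primeVal
    · rw [e1]; exact mul_mem hx (mul_mem (algebraMap_mem_primeVal b) (inv_mem_primeVal a ha))
    · rw [e2]; exact mul_mem hx' (mul_mem (algebraMap_mem_primeVal a) (inv_mem_primeVal b hb))
  exact ⟨a, b, ha, hb, by rw [hxe, hn, zpow_zero, one_mul]⟩

theorem isDVR_primeVal (π : R) (hπ : Prime π) :
    IsDiscreteValuationRing (primeVal K π hπ) := by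
  have hinj := IsFractionRing.injective R K
  have hπ0 : algebraMap R K π ≠ 0 := (map_ne_zero_iff _ hinj).2 hπ.ne_zero
  set V := primeVal K π hπ with hV
  let p : V := ⟨algebraMap R K π, algebraMap_mem_primeVal π⟩
  have hp0 : p ≠ 0 := fun h => hπ0 (congrArg Subtype.val h)
  have hpn : ¬ IsUnit p := by
    rintro ⟨u, hu⟩
    apply inv_notMem_primeVal (K := K) (hπ := hπ)
    have h1 : (algebraMap R K π) * ((u⁻¹ : Vˣ) : V) = 1 := by
      have := congrArg Subtype.val u.mul_inv
      rw [hu] at this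
      exact this
    rw [← eq_inv_of_mul_eq_one_right h1]
    exact ((u⁻¹ : Vˣ) : V).2
  have key : ∀ x : V, x ≠ 0 → ∃ n : ℕ, Associated (p ^ n) x := by
    rintro ⟨x, hx⟩ hx0
    have hx0' : x ≠ 0 := fun h => hx0 (Subtype.ext h)
    obtain ⟨a, b, hb, rfl⟩ := hx
    have ha0 : a ≠ 0 := by rintro rfl; apply hx0'; rw [map_zero, zero_div]
    have hb0 : algebraMap R K b ≠ 0 := (map_ne_zero_iff _ hinj).2
      (by rintro rfl; exact hb (dvd_zero _))
    obtain ⟨i, a', ha', hNa⟩ := WfDvdMonoid.max_power_factor ha0 hπ.irreducible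
    have ha'0 : algebraMap R K a' ≠ 0 := (map_ne_zero_iff _ hinj).2
      (by rintro rfl; exact ha' (dvd_zero _))
    let u : Vˣ :=
      { val := ⟨algebraMap R K a' / algebraMap R K b, ⟨a', b, hb, rfl⟩⟩
        inv := ⟨algebraMap R K b / algebraMap R K a', ⟨b, a', ha', rfl⟩⟩
        val_inv := by ext; change _ / _ * (_ / _) = _; field_simp; rfl
        inv_val := by ext; change _ / _ * (_ / _) = _; field_simp; rfl }
    refine ⟨i, u, ?_⟩
    ext
    change (algebraMap R K π) ^ i * (algebraMap R K a' / algebraMap R K b) =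
      algebraMap R K a / algebraMap R K b
    rw [hNa, map_mul, map_pow, mul_div_assoc]
  refine IsDiscreteValuationRing.ofHasUnitMulPowIrreducibleFactorization ⟨p, ⟨hpn, ?_⟩, ?_⟩
  · intro a b hab
    have ha0 : a ≠ 0 := by rintro rfl; rw [zero_mul] at hab; exact hp0 hab
    have hb0 : b ≠ 0 := by rintro rfl; rw [mul_zero] at hab; exact hp0 hab
    obtain ⟨m, hm⟩ := key a ha0
    obtain ⟨n, hn⟩ := key b hb0
    have h1 : Associated (p ^ (m + n)) p := by
      rw [pow_add]
      exact hab ▸ hm.mul_mul hn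
    by_contra hcon
    push Not at hcon
    have hm0 : m ≠ 0 := by
      rintro rfl
      rw [pow_zero] at hm
      exact hcon.1 (associated_one_iff_isUnit.1 hm.symm)
    have hn0 : n ≠ 0 := by
      rintro rfl
      rw [pow_zero] at hn
      exact hcon.2 (associated_one_iff_isUnit.1 hn.symm)
    obtain ⟨l, hl⟩ : ∃ l, m + n = l + 1 + 1 := ⟨m + n - 2, by omega⟩
    obtain ⟨u, hu⟩ := h1
    rw [hl, pow_succ' p (l + 1), mul_assoc] at hu
    have h2 : p * (p ^ (l + 1) * u) = p * 1 := by rw [hu, mul_one]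
    have h3 := mul_left_cancel₀ hp0 h2
    rw [pow_succ', mul_assoc] at h3
    exact hpn (IsUnit.of_mul_eq_one _ h3)
  · intro x hx
    exact key x hx

end PrimeVal

section Slope

variable {F E κ : Type*} [Field F] [Field E] [Field κ] [Algebra F E]
  {G : Type*} [Group G] [MulSemiringAction G E] {B : Type*} [CommRing B] [Algebra B F]
  [Algebra B E] {W : ValuationSubring E} {ρ : W →+* κ} {z' : B}
  [IsDomain B] [IsLocalRing B] [IsNoetherianRing B] [IsIntegrallyClosed B] [IsFractionRing B F]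
  [IsScalarTower B F E] [FiniteDimensional F E] [Algebra.IsSeparable F E]
  [Fintype G] [Algebra.IsInvariant F E G] [SMulCommClass G B E]

omit [IsFractionRing B F] [IsNoetherianRing B] [IsIntegrallyClosed B] [IsScalarTower B F E]
  [FiniteDimensional F E] [Algebra.IsSeparable F E] [Fintype G] [Algebra.IsInvariant F E G]
  [SMulCommClass G B E] [IsDomain B] in
theorem Sheet.isUnit_of_mk (h : Sheet F G ρ z') (b : B)
    (hb : IsUnit (Ideal.Quotient.mk (Ideal.span {z'}) b)) : IsUnit b := by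
  by_contra hna
  have hxm : z' ∈ IsLocalRing.maximalIdeal B :=
    (IsLocalRing.mem_maximalIdeal _).2 h.prime.not_isUnit
  obtain ⟨c, hc⟩ := hb.exists_right_inv
  obtain ⟨c, rfl⟩ := Ideal.Quotient.mk_surjective c
  have h1 : b * c - 1 ∈ Ideal.span {z'} := by
    rw [← Ideal.Quotient.eq, map_mul, map_one]; exact hc
  have h2 : b * c - 1 ∈ IsLocalRing.maximalIdeal B :=
    (Ideal.span_singleton_le_iff_mem _).2 hxm h1
  have h3 : b * c ∈ IsLocalRing.maximalIdeal B :=
    Ideal.mul_mem_right _ _ ((IsLocalRing.mem_maximalIdeal _).2 hna)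
  have h4 := Ideal.sub_mem _ h3 h2
  rw [sub_sub_cancel] at h4
  exact (Ideal.ne_top_iff_one _).1 (IsLocalRing.maximalIdeal.isMaximal B).ne_top h4

set_option maxHeartbeats 2000000 in
/-- **Slope congruence.**  Let `f` be a function on a Galois cover of the regular germ `B`
with `ϖ = v z z'`, whose horizontal divisor is divisible by `p`.  If `f / ϖ ^ n₁` reduces to
`t ≠ 0` on the sheet `(W, ρ)` above `z' = 0` and `f / ϖ ^ n₂` is a unit on the sheet `W₂` above
`z = 0` which meets it, then `t` is, up to units at the point and `p`-th powers, the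
`(n₂ - n₁)`-th power of the uniformiser `z`. -/
theorem Sheet.slope_congr (h : Sheet F G ρ z')
    {z : B} (hz : Irreducible (Ideal.Quotient.mk (Ideal.span {z'}) z)) (v : Bˣ)
    (W₂ : ValuationSubring E) (hB₂ : ∀ b : B, algebraMap B E b ∈ W₂)
    (hW₂ : ∀ x : E, IsIntegral B x → ∀ b : B, IsUnit b → Red ρ x (h.redB b) → x⁻¹ ∈ W₂)
    (hz₂ : (algebraMap B E z)⁻¹ ∉ W₂) (hz'₂ : (algebraMap B E z')⁻¹ ∈ W₂)
    {p : ℕ} (hp : p ≠ 0) {f : E} (hf0 : f ≠ 0)
    (hf : ∀ V : ValuationSubring E, IsDiscreteValuationRing V →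
      (∀ b : B, algebraMap B E b ∈ V) → (algebraMap B E (v * z * z'))⁻¹ ∈ V →
      ∃ g : E, g ≠ 0 ∧ f / g ^ p ∈ V ∧ (f / g ^ p)⁻¹ ∈ V)
    {n₁ n₂ : ℤ} {t : κ} (ht : t ≠ 0)
    (h1 : Red ρ (f * (algebraMap B E (v * z * z')) ^ (-n₁)) t)
    (h2 : f * (algebraMap B E (v * z * z')) ^ (-n₂) ∈ W₂)
    (h2' : (f * (algebraMap B E (v * z * z')) ^ (-n₂))⁻¹ ∈ W₂) :
    ∃ (b : B) (g : κ), IsUnit b ∧ g ≠ 0 ∧
      t = h.redB b * (h.redB z) ^ (n₂ - n₁) * g ^ p := by
  classical
  -- the residue curve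
  have hD1 : IsDomain (B ⧸ Ideal.span {z'}) :=
    (Ideal.Quotient.isDomain_iff_prime _).2
      ((Ideal.span_singleton_prime h.prime.ne_zero).2 h.prime)
  have hD2 : IsPrincipalIdealRing (B ⧸ Ideal.span {z'}) := h.pid
  have hD3 : IsLocalRing (B ⧸ Ideal.span {z'}) :=
    IsLocalRing.of_surjective' _ (Ideal.Quotient.mk_surjective)
  -- the integral closure
  set S := integralClosure B E with hS
  have hBE : Function.Injective (algebraMap B E) := by
    rw [IsScalarTower.algebraMap_eq B F E]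
    exact (algebraMap F E).injective.comp (IsFractionRing.injective B F)
  have hSfrac : IsFractionRing S E := integralClosure.isFractionRing_of_finite_extension F E
  have hSnoeth : IsNoetherianRing S := IsIntegralClosure.isNoetherianRing B F E S
  set P := (IsLocalRing.maximalIdeal (B ⧸ Ideal.span {z'})).comap h.psi with hP
  have hle : P.primeCompl ≤ nonZeroDivisors S := P.primeCompl_le_nonZeroDivisors
  let R := Localization.subalgebra.ofField E P.primeCompl hle
  have hRloc : IsLocalization P.primeCompl R := inferInstance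
  have hRfrac : IsFractionRing R E := inferInstance
  have hRE : ∀ a : S, algebraMap R E (algebraMap S R a) = (a : E) := fun a => rfl
  have hs0 : (algebraMap B S z') ≠ 0 := by
    intro h0
    exact h.prime.ne_zero (hBE (by rw [map_zero]; exact congrArg Subtype.val h0))
  obtain ⟨-, hloc, hnoeth, hufd, hprime', ⟨ψR, hψR, hsurj, hker, hunit_of⟩, hprime⟩ :=
    exists_local_surjection (R := R) h.psi h.psi_surjective (algebraMap B S z') hs0
      (by rw [h.psi_algebraMap, Ideal.Quotient.eq_zero_iff_mem]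
          exact Ideal.mem_span_singleton_self z')
      h.exists_clear
  have hzR : Prime (algebraMap S R (algebraMap B S z)) :=
    hprime _ (by rw [h.psi_algebraMap]; exact hz)
  set zR : R := algebraMap S R (algebraMap B S z) with hzRdef
  set zR' : R := algebraMap S R (algebraMap B S z') with hzR'def
  have hzRE : algebraMap R E zR = algebraMap B E z := rfl
  have hzR'E : algebraMap R E zR' = algebraMap B E z' := rfl
  have hinjR := IsFractionRing.injective R E
  have hR0 : ∀ x : R, x ≠ 0 → algebraMap R E x ≠ 0 := fun x hx => (map_ne_zero_iff _ hinjR).2 hx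
  -- reduction on `R`
  have hredR : ∀ x : R, Red ρ (algebraMap R E x) (h.inc (ψR x)) := by
    intro x
    obtain ⟨a, b, hab⟩ := IsLocalization.exists_mk'_eq P.primeCompl x
    have hb := IsLocalization.mk'_spec R a b
    rw [hab] at hb
    have hbU : IsUnit (h.psi b) := by
      by_contra hy
      exact b.2 ((IsLocalRing.mem_maximalIdeal _).2 hy)
    have hb1 := h.red_redS b
    have hb0 : h.redS b ≠ 0 := by
      rw [← h.inc_psi]
      exact (map_ne_zero_iff _ h.inc_injective).2 hbU.ne_zero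
    have hbinv := h.inv_mem _ _ hb1 hb0
    have hbE0 : ((b : S) : E) ≠ 0 := by
      intro h0
      have hb1' := hb1
      rw [h0] at hb1'
      exact hb0 (hb1'.unique Red.zero)
    have hxE : algebraMap R E x = ((a : E)) * ((b : S) : E)⁻¹ := by
      rw [eq_mul_inv_iff_mul_eq₀ hbE0]
      exact congrArg (algebraMap R E) hb
    rw [hxE]
    have := (h.red_redS a).mul (hb1.inv hbinv)
    convert this using 1
    rw [eq_mul_inv_iff_mul_eq₀ hb0, ← h.inc_psi, ← h.inc_psi, ← map_mul, ← hψR, ← hψR, ← map_mul,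
      hb]
  -- `R ⊆ W₂`
  have hW₂R : ∀ x : R, algebraMap R E x ∈ W₂ := by
    intro x
    obtain ⟨a, b, hab⟩ := IsLocalization.exists_mk'_eq P.primeCompl x
    have hb := IsLocalization.mk'_spec R a b
    rw [hab] at hb
    have hbU : IsUnit (h.psi b) := by
      by_contra hy
      exact b.2 ((IsLocalRing.mem_maximalIdeal _).2 hy)
    obtain ⟨b₀, hb₀⟩ := Ideal.Quotient.mk_surjective (h.psi b)
    have hb₀U : IsUnit b₀ := h.isUnit_of_mk b₀ (hb₀ ▸ hbU)
    have hred : Red ρ ((b : S) : E) (h.redB b₀) := by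
      rw [← h.inc_mk, hb₀, h.inc_psi]
      exact h.red_redS b
    have hbinv := hW₂ _ (b : S).2 b₀ hb₀U hred
    have hbE0 : ((b : S) : E) ≠ 0 := by
      intro h0
      have h3 := h.red_redS b
      rw [h0] at h3
      have h4 : h.redS b = 0 := h3.unique Red.zero
      rw [← h.inc_psi] at h4
      exact hbU.ne_zero ((map_eq_zero_iff _ h.inc_injective).1 h4)
    have hxE : algebraMap R E x = ((a : E)) * ((b : S) : E)⁻¹ := by
      rw [eq_mul_inv_iff_mul_eq₀ hbE0]
      exact congrArg (algebraMap R E) hb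
    rw [hxE]
    refine mul_mem ?_ hbinv
    -- integral elements lie in `W₂`
    let φ : B →+* W₂ := (algebraMap B E).codRestrict W₂.toSubring hB₂
    let _ : Algebra B W₂ := φ.toAlgebra
    have : IsScalarTower B W₂ E := IsScalarTower.of_algebraMap_eq fun b => rfl
    have h1 : IsIntegral W₂ (a : E) := (a.2 : IsIntegral B (a : E)).tower_top
    obtain ⟨y, hy⟩ := IsIntegrallyClosed.isIntegral_iff.1 h1
    rw [← hy]; exact y.2
  -- the centre of `W₂` on `R` is `(z)`
  have hcent : ∀ x : R, ¬ zR ∣ x → (algebraMap R E x)⁻¹ ∈ W₂ := by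
    let j : R →+* W₂ := (algebraMap R E).codRestrict W₂.toSubring hW₂R
    set Q : Ideal R := (IsLocalRing.maximalIdeal W₂).comap j with hQ
    have hmemQ : ∀ x : R, x ∉ Q → (algebraMap R E x)⁻¹ ∈ W₂ := by
      intro x hx
      have hu : IsUnit (j x) := by
        by_contra hnu
        exact hx ((IsLocalRing.mem_maximalIdeal _).2 hnu)
      obtain ⟨u, hu⟩ := hu
      have h3 : (algebraMap R E x) * (((u⁻¹ : W₂ˣ) : W₂) : E) = 1 := by
        have := congrArg Subtype.val u.mul_inv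
        rw [hu] at this
        exact this
      rw [← eq_inv_of_mul_eq_one_right h3]
      exact ((u⁻¹ : W₂ˣ) : W₂).2
    have hz'Q : zR' ∉ Q := by
      intro hq
      have hnu := (IsLocalRing.mem_maximalIdeal _).1 hq
      apply hnu
      refine IsUnit.of_mul_eq_one ⟨(algebraMap B E z')⁻¹, hz'₂⟩ ?_
      ext
      exact mul_inv_cancel₀ (hR0 _ hprime'.ne_zero)
    have hzQ : zR ∈ Q := by
      by_contra hq
      exact hz₂ (hmemQ _ hq)
    have hpirR : IsPrincipalIdealRing (R ⧸ Ideal.span {zR'}) := by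
      let e : R ⧸ Ideal.span {zR'} ≃+* B ⧸ Ideal.span {z'} :=
        (Ideal.quotEquivOfEq hker.symm).trans (RingHom.quotientKerEquivOfSurjective hsurj)
      exact IsPrincipalIdealRing.of_surjective (e.symm : (B ⧸ Ideal.span {z'}) →+* _)
        e.symm.surjective
    obtain ⟨q, hq⟩ := isPrincipal_of_prime_notMem hprime' hpirR Q hz'Q
    have hqz : q ∣ zR := by
      rw [← Ideal.mem_span_singleton, ← hq]; exact hzQ
    have hqn : ¬ IsUnit q := by
      intro hu
      have : Q = ⊤ := by rw [hq, Ideal.span_singleton_eq_top]; exact hu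
      exact (inferInstance : Q.IsPrime).ne_top this
    obtain ⟨r, hr⟩ := hqz
    have hru : IsUnit r := by
      rcases hzR.irreducible.isUnit_or_isUnit hr with h3 | h3
      · exact absurd h3 hqn
      · exact h3
    intro x hx
    apply hmemQ
    intro hxQ
    rw [hq, Ideal.mem_span_singleton] at hxQ
    apply hx
    obtain ⟨u, rfl⟩ := hru
    rw [hr]
    exact Units.mul_right_dvd.2 hxQ
  -- primes of `R` away from the special fibre
  have hvR : IsUnit (algebraMap S R (algebraMap B S v)) := v.isUnit.map ((algebraMap S R).comp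
    (algebraMap B S))
  obtain ⟨ε, i, j, g, hg0, hfe⟩ := exists_factorization (K := E) hp hzR hprime' f hf0 (by
    intro π hπ hπz hπz'
    have hnd : ¬ π ∣ algebraMap S R (algebraMap B S (v * z * z')) := by
      rw [map_mul, map_mul, map_mul, map_mul]
      intro hd
      rcases hπ.dvd_or_dvd hd with h3 | h3
      · rcases hπ.dvd_or_dvd h3 with h4 | h4
        · exact hπ.not_isUnit (isUnit_of_dvd_unit h4 hvR)
        · exact hπz ((hπ.dvd_prime_iff_associated hzR).1 h4)
      · exact hπz' ((hπ.dvd_prime_iff_associated hprime').1 h3)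
    obtain ⟨g, hg0, hg1, hg2⟩ := hf (primeVal E π hπ) (isDVR_primeVal π hπ)
      (fun b => algebraMap_mem_primeVal (algebraMap S R (algebraMap B S b)))
      (inv_mem_primeVal (K := E) _ hnd)
    obtain ⟨m, a, b, ha, hb, hgm⟩ := exists_prime_zpow π hπ g hg0
    obtain ⟨c, d, hc, hd, hcd⟩ := exists_unit_primeVal π hπ (f / g ^ p)
      (div_ne_zero hf0 (pow_ne_zero _ hg0)) hg1 hg2
    have hb0 : algebraMap R E b ≠ 0 := hR0 _ (by rintro rfl; exact hb (dvd_zero _))
    have hd0 : algebraMap R E d ≠ 0 := hR0 _ (by rintro rfl; exact hd (dvd_zero _))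
    refine ⟨m, a ^ p * c, b ^ p * d, ?_, ?_, ?_⟩
    · intro h3
      rcases hπ.dvd_or_dvd h3 with h4 | h4
      · exact ha (hπ.dvd_of_dvd_pow h4)
      · exact hc h4
    · intro h3
      rcases hπ.dvd_or_dvd h3 with h4 | h4
      · exact hb (hπ.dvd_of_dvd_pow h4)
      · exact hd h4
    · have h3 : f = g ^ p * (algebraMap R E c / algebraMap R E d) := by
        rw [← hcd]; field_simp
      rw [h3, hgm, mul_pow, div_pow, mul_comm (p : ℤ) m, zpow_mul, zpow_natCast, map_mul, map_mul,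
        map_pow, map_pow]
      field_simp)
  obtain ⟨m, a, b, ha, hb, hgm⟩ := exists_prime_zpow zR hzR g hg0
  obtain ⟨m', a', b', ha', hb', hgm'⟩ := exists_prime_zpow zR' hprime' g hg0
  have hzE0 : algebraMap B E z ≠ 0 := hR0 _ hzR.ne_zero
  have hz'E0 : algebraMap B E z' ≠ 0 := hR0 _ hprime'.ne_zero
  have hvE0 : algebraMap B E v ≠ 0 := hR0 _ hvR.ne_zero
  have hεE0 : algebraMap R E ε ≠ 0 := hR0 _ ε.ne_zero
  have haE0 : algebraMap R E a ≠ 0 := hR0 _ (by rintro rfl; exact ha (dvd_zero _))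
  have hbE0 : algebraMap R E b ≠ 0 := hR0 _ (by rintro rfl; exact hb (dvd_zero _))
  have ha'E0 : algebraMap R E a' ≠ 0 := hR0 _ (by rintro rfl; exact ha' (dvd_zero _))
  have hb'E0 : algebraMap R E b' ≠ 0 := hR0 _ (by rintro rfl; exact hb' (dvd_zero _))
  rw [hzRE, hzR'E] at hfe
  rw [hzRE] at hgm
  rw [hzR'E] at hgm'
  have hbE : algebraMap R E b ≠ 0 := hbE0
  have hmul : algebraMap B E (v * z * z') = algebraMap B E v * algebraMap B E z *
      algebraMap B E z' := by rw [map_mul, map_mul]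
  -- the sheet `W₂`
  have hk₂ : i + p * m - n₂ = 0 := by
    have e1 : f * (algebraMap B E (v * z * z')) ^ (-n₂) = (algebraMap B E z) ^ (i + p * m - n₂) *
        ((algebraMap B E v) ^ (-n₂) * algebraMap R E ε * (algebraMap B E z') ^ (j - n₂) *
          (algebraMap R E a / algebraMap R E b) ^ p) := by
      rw [hfe, hgm, hmul, mul_zpow, mul_zpow, mul_pow, ← zpow_natCast (_ ^ m) p, ← zpow_mul,
        sub_eq_add_neg, sub_eq_add_neg, zpow_add₀ hzE0, zpow_add₀ hzE0, zpow_add₀ hz'E0,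
        mul_comm m (p : ℤ)]
      ring
    have hv : IsU W₂ (algebraMap B E v) := by
      refine ⟨hvE0, hB₂ v, ?_⟩
      have : (algebraMap B E v)⁻¹ = algebraMap B E ((v⁻¹ : Bˣ) : B) :=
        (eq_inv_of_mul_eq_one_right (by rw [← map_mul]; simp)).symm
      rw [this]; exact hB₂ _
    have hε : IsU W₂ (algebraMap R E ε) := by
      refine ⟨hεE0, hW₂R _, hcent _ fun hd => hzR.not_isUnit (isUnit_of_dvd_unit hd ε.isUnit)⟩
    have hz' : IsU W₂ (algebraMap B E z') := ⟨hz'E0, hB₂ _, hz'₂⟩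
    have haU : IsU W₂ (algebraMap R E a) := ⟨haE0, hW₂R _, hcent _ ha⟩
    have hbU : IsU W₂ (algebraMap R E b) := ⟨hbE0, hW₂R _, hcent _ hb⟩
    have hY := ((hv.zpow (-n₂)).mul hε).mul (hz'.zpow (j - n₂)) |>.mul ((haU.div hbU).pow p)
    have hX : IsU W₂ (f * (algebraMap B E (v * z * z')) ^ (-n₂)) :=
      ⟨mul_ne_zero hf0 (zpow_ne_zero _ (by rw [hmul]; exact mul_ne_zero (mul_ne_zero hvE0 hzE0) hz'E0)), h2, h2'⟩
    have hZ : IsU W₂ ((algebraMap B E z) ^ (i + p * m - n₂)) := by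
      have : (algebraMap B E z) ^ (i + p * m - n₂) = (f * (algebraMap B E (v * z * z')) ^ (-n₂)) /
        ((algebraMap B E v) ^ (-n₂) * algebraMap R E ε * (algebraMap B E z') ^ (j - n₂) *
          (algebraMap R E a / algebraMap R E b) ^ p) := by
        rw [eq_div_iff hY.ne_zero, e1]
      rw [this]; exact hX.div hY
    exact zpow_eq_zero hzE0 (hB₂ z) hz₂ hZ.2.1 hZ.2.2
  -- the sheet `W`
  have hzmk : Ideal.Quotient.mk (Ideal.span {z'}) z ≠ 0 := hz.ne_zero
  have hzred0 : h.redB z ≠ 0 := by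
    rw [← h.inc_mk]; exact (map_ne_zero_iff _ h.inc_injective).2 hzmk
  have hψ0 : ∀ x : R, ¬ zR' ∣ x → h.inc (ψR x) ≠ 0 := by
    intro x hx h0
    apply hx
    rw [← Ideal.mem_span_singleton, ← hker, RingHom.mem_ker]
    exact (map_eq_zero_iff _ h.inc_injective).1 h0
  have hUof : ∀ x : R, ¬ zR' ∣ x → IsU W (algebraMap R E x) := by
    intro x hx
    exact ⟨hR0 _ (by rintro rfl; exact hx (dvd_zero _)), (hredR x).mem,
      h.inv_mem _ _ (hredR x) (hψ0 x hx)⟩
  have hvx : ¬ zR' ∣ algebraMap S R (algebraMap B S v) := fun hd =>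
    hprime'.not_isUnit (isUnit_of_dvd_unit hd hvR)
  have hεx : ¬ zR' ∣ (ε : R) := fun hd =>
    hprime'.not_isUnit (isUnit_of_dvd_unit hd ε.isUnit)
  have hzx : ¬ zR' ∣ zR := by
    intro hd
    rw [← Ideal.mem_span_singleton, ← hker, RingHom.mem_ker, hψR, h.psi_algebraMap] at hd
    exact hzmk hd
  have hvU : IsU W (algebraMap B E v) := hUof _ hvx
  have hzU : IsU W (algebraMap B E z) := hUof _ hzx
  have hz'W : (algebraMap B E z')⁻¹ ∉ W := by
    intro hcon
    have h3 := h.red_zero.mul (⟨hcon, rfl⟩ : Red ρ _ (ρ ⟨_, hcon⟩))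
    rw [mul_inv_cancel₀ hz'E0, zero_mul] at h3
    exact one_ne_zero (Red.one.unique h3)
  have e1 : f * (algebraMap B E (v * z * z')) ^ (-n₁) = (algebraMap B E z') ^ (j + p * m' - n₁) *
      ((algebraMap B E v) ^ (-n₁) * algebraMap R E ε * (algebraMap B E z) ^ (i - n₁) *
        (algebraMap R E a' / algebraMap R E b') ^ p) := by
    rw [hfe, hgm', hmul, mul_zpow, mul_zpow, mul_pow, ← zpow_natCast (_ ^ m') p, ← zpow_mul,
      sub_eq_add_neg, sub_eq_add_neg, zpow_add₀ hz'E0, zpow_add₀ hz'E0, zpow_add₀ hzE0,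
      mul_comm m' (p : ℤ)]
    ring
  have hY := ((hvU.zpow (-n₁)).mul (hUof _ hεx)).mul (hzU.zpow (i - n₁)) |>.mul
    (((hUof _ ha').div (hUof _ hb')).pow p)
  have hk₁ : j + p * m' - n₁ = 0 := by
    have hX : IsU W (f * (algebraMap B E (v * z * z')) ^ (-n₁)) :=
      ⟨mul_ne_zero hf0 (zpow_ne_zero _ (by rw [hmul]; exact mul_ne_zero (mul_ne_zero hvE0 hzE0) hz'E0)), h1.mem,
        h.inv_mem _ _ h1 ht⟩
    have hZ : IsU W ((algebraMap B E z') ^ (j + p * m' - n₁)) := by
      have : (algebraMap B E z') ^ (j + p * m' - n₁) =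
        (f * (algebraMap B E (v * z * z')) ^ (-n₁)) /
        ((algebraMap B E v) ^ (-n₁) * algebraMap R E ε * (algebraMap B E z) ^ (i - n₁) *
          (algebraMap R E a' / algebraMap R E b') ^ p) := by
        rw [eq_div_iff hY.ne_zero, e1]
      rw [this]; exact hX.div hY
    exact zpow_eq_zero hz'E0 (h.mem z') hz'W hZ.2.1 hZ.2.2
  rw [hk₁, zpow_zero, one_mul] at e1
  -- compute the reduction
  set e : Rˣ := (hvR.unit) ^ (-n₁) * ε with he
  have heE : algebraMap R E e = (algebraMap B E v) ^ (-n₁) * algebraMap R E ε := by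
    rw [he, Units.val_mul, map_mul]
    congr 1
    have : ((hvR.unit ^ (-n₁) : Rˣ) : R) = ((hvR.unit ^ (-n₁) : Rˣ) : R) := rfl
    have h3 : Units.map (algebraMap R E : R →* E) (hvR.unit ^ (-n₁)) =
      (Units.map (algebraMap R E : R →* E) hvR.unit) ^ (-n₁) := map_zpow _ _ _
    have h4 := congrArg Units.val h3
    rw [Units.val_zpow_eq_zpow_val] at h4
    exact h4
  have hered := hredR (e : R)
  have heU : IsUnit (ψR e) := e.isUnit.map ψR
  obtain ⟨b₀, hb₀⟩ := Ideal.Quotient.mk_surjective (ψR e)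
  have hb₀U : IsUnit b₀ := h.isUnit_of_mk b₀ (hb₀ ▸ heU)
  rw [← hb₀, h.inc_mk, heE] at hered
  have hzred : Red ρ ((algebraMap B E z) ^ (i - n₁)) ((h.redB z) ^ (i - n₁)) :=
    (h.red_redB z).zpow hzU.2.2 _
  have habred : Red ρ ((algebraMap R E a' / algebraMap R E b') ^ p)
      ((h.inc (ψR a') / h.inc (ψR b')) ^ p) := by
    apply Red.pow
    rw [div_eq_mul_inv, div_eq_mul_inv]
    exact (hredR a').mul ((hredR b').inv (hUof _ hb').2.2)
  have htot := (hered.mul hzred).mul habred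
  rw [e1] at h1
  have ht' := h1.unique htot
  refine ⟨b₀, (h.redB z) ^ (-m) * (h.inc (ψR a') / h.inc (ψR b')), hb₀U,
    mul_ne_zero (zpow_ne_zero _ hzred0) (div_ne_zero (hψ0 _ ha') (hψ0 _ hb')), ?_⟩
  rw [ht', mul_pow, ← zpow_natCast ((h.redB z) ^ (-m)) p, ← zpow_mul]
  have hexp : i - n₁ = (n₂ - n₁) + (-m * (p : ℤ)) := by linear_combination hk₂
  rw [hexp, zpow_add₀ hzred0]
  ring

end Slope

end Fermat.Agent.H40
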