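import Mathlib

/-!
# Characteristic polynomials: semilinear comparison, idempotents (helper41, MZ-J9)
-/

set_option autoImplicit false

noncomputable section

namespace Fermat.Agent.H41

open Polynomial

section Semi

variable {R K M V ι : Type*} [CommRing R] [CommRing K] [AddCommGroup M] [Module R M]
  [AddCommGroup V] [Module K V] [Fintype ι] [DecidableEq ι]

lemma repr_semilinear (φ : R →+* K) (b : Module.Basis ι R M) (v : Module.Basis ι K V) (π : M →+ V)
    (hπ : ∀ (r : R) (m : M), π (r • m) = φ r • π m) (hb : ∀ i, π (b i) = v i) (m : M) (i : ι) :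
    v.repr (π m) i = φ (b.repr m i) := by
  conv_lhs => rw [← b.sum_repr m]
  rw [map_sum, map_sum, Finsupp.finsetSum_apply, Finset.sum_eq_single i]
  · rw [hπ, hb, map_smul, Finsupp.smul_apply, Module.Basis.repr_self, Finsupp.single_eq_same,
      smul_eq_mul, mul_one]
  · intro j _ hj
    rw [hπ, hb, map_smul, Finsupp.smul_apply, Module.Basis.repr_self,
      Finsupp.single_eq_of_ne (Ne.symm hj), smul_zero]
  · intro h
    exact absurd (Finset.mem_univ i) h

/-- comparison of characteristic polynomials under a semilinear map respecting bases -/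
theorem charpoly_of_semilinear (φ : R →+* K) (b : Module.Basis ι R M) (v : Module.Basis ι K V)
    (π : M →+ V) (hπ : ∀ (r : R) (m : M), π (r • m) = φ r • π m) (hb : ∀ i, π (b i) = v i)
    [Module.Finite R M] [Module.Free R M] [Module.Finite K V] [Module.Free K V]
    (f : Module.End R M) (g : Module.End K V) (h : ∀ m, π (f m) = g (π m)) :
    g.charpoly = f.charpoly.map φ := by
  rw [← LinearMap.charpoly_toMatrix g v, ← LinearMap.charpoly_toMatrix f b, ← Matrix.charpoly_map]
  congr 1
  ext i j
  rw [LinearMap.toMatrix_apply, Matrix.map_apply, LinearMap.toMatrix_apply, ← hb j, ← h,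
    repr_semilinear φ b v π hπ hb]

end Semi

section Idem

variable {K V : Type*} [Field K] [AddCommGroup V] [Module K V] [FiniteDimensional K V]

/-- characteristic polynomial of an idempotent -/
theorem charpoly_idem (e : Module.End K V) (he : e * e = e) :
    e.charpoly = (X - 1) ^ Module.finrank K (LinearMap.range e) *
      X ^ Module.finrank K (LinearMap.ker e) := by
  have hc : IsCompl (LinearMap.range e) (LinearMap.ker e) := by
    have hee : ∀ x, e (e x) = e x := fun x => congrArg (fun f : Module.End K V => f x) he
    constructor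
    · rw [disjoint_iff, eq_bot_iff]
      rintro _ ⟨⟨x, rfl⟩, hx⟩
      have : e (e x) = 0 := hx
      rw [hee] at this
      rw [this]
      exact Submodule.zero_mem _
    · rw [codisjoint_iff, eq_top_iff]
      intro x _
      refine Submodule.mem_sup.mpr ⟨e x, ⟨x, rfl⟩, x - e x, ?_, by abel⟩
      rw [LinearMap.mem_ker, map_sub, hee, sub_self]
  let E := Submodule.prodEquivOfIsCompl _ _ hc
  have h1 : E.symm.conj e = LinearMap.prodMap (1 : Module.End K (LinearMap.range e))
      (0 : Module.End K (LinearMap.ker e)) := by
    apply LinearMap.ext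
    rintro ⟨⟨_, x, rfl⟩, ⟨y, hy⟩⟩
    rw [LinearEquiv.conj_apply_apply, LinearEquiv.symm_symm, LinearEquiv.symm_apply_eq]
    have hee : e (e x) = e x := congrArg (fun f : Module.End K V => f x) he
    simp only [E, Submodule.coe_prodEquivOfIsCompl', LinearMap.prodMap_apply, map_add, hee,
      LinearMap.mem_ker.mp hy, Module.End.one_apply, LinearMap.zero_apply, ZeroMemClass.coe_zero,
      add_zero]
  rw [← LinearEquiv.charpoly_conj E.symm e, h1, LinearMap.charpoly_prodMap]
  congr 1
  · rw [LinearMap.charpoly_one]
  · rw [LinearMap.charpoly_zero]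

end Idem

end Fermat.Agent.H41
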