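import Mathlib
import Fermat.Agent.H41Charpoly
import Fermat.Agent.H30Mid

/-!
# `J[r]` and the Tate module (helper41, MZ-J9)
-/

set_option autoImplicit false

noncomputable section

namespace Fermat.Agent.H41

open Fermat.Agent.H30 Fermat.Agent.H31 ModularCurve

section Tor

variable (r : ℕ) (J : Type) [AddCommGroup J]

/-- the `r`-torsion -/
def Tor : AddSubgroup J := (nsmulAddMonoidHom r : J →+ J).ker

variable {r J}

lemma mem_Tor {x : J} : x ∈ Tor r J ↔ r • x = 0 := Iff.rfl

lemma nsmul_Tor (x : Tor r J) : r • x = 0 := Subtype.ext x.2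

instance : Module (ZMod r) (Tor r J) := AddCommGroup.zmodModule nsmul_Tor

lemma finite_Tor (hfin : {x : J | r • x = 0}.Finite) : Finite (Tor r J) :=
  hfin.to_subtype

variable [hr : Fact r.Prime]

/-- first layer of the Tate module -/
def prT : TateMod r J →+ Tor r J where
  toFun x := ⟨TateMod.proj 1 x, by
    have := TateMod.pow_smul_proj x 1
    rwa [pow_one] at this⟩
  map_zero' := Subtype.ext (map_zero _)
  map_add' x y := Subtype.ext (map_add _ x y)

omit hr in
lemma coe_prT (x : TateMod r J) : ((prT x : Tor r J) : J) = TateMod.proj 1 x := rfl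

lemma prT_smul (a : ℤ_[r]) (x : TateMod r J) : prT (a • x) = PadicInt.toZMod a • prT x := by
  have h1 := PadicInt.toZMod_spec a
  rw [PadicInt.maximalIdeal_eq_span_p, Ideal.mem_span_singleton'] at h1
  obtain ⟨b, hb⟩ := h1
  have h2 : a = ((PadicInt.toZMod a).val : ℤ_[r]) + (r : ℤ_[r]) * b := by
    rw [mul_comm, hb, ← ZMod.natCast_val]
    ring
  have h3 : PadicInt.toZMod a • (prT x : Tor r J) = (PadicInt.toZMod a).val • prT x := by
    conv_lhs => rw [← ZMod.natCast_zmod_val (PadicInt.toZMod a)]
    rw [Nat.cast_smul_eq_nsmul]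
  rw [h3]
  conv_lhs => rw [h2]
  rw [add_smul, mul_smul, TateMod.natCast_smul, TateMod.natCast_smul, map_add, map_nsmul,
    map_nsmul, nsmul_Tor, add_zero]

/-- A basis of `J[r]` from a basis of the Tate module. -/
def torBasis {n : ℕ} (hdiv : ∀ x : J, ∃ y, r • y = x) (b : Module.Basis (Fin n) ℤ_[r] (TateMod r J)) :
    Module.Basis (Fin n) (ZMod r) (Tor r J) :=
  Module.Basis.mk (v := fun i => prT (b i))
    (by
      rw [Fintype.linearIndependent_iff]
      intro c hc i
      have h1 : prT (∑ j, ((c j).val : ℤ_[r]) • b j) = 0 := by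
        rw [map_sum, ← hc]
        refine Finset.sum_congr rfl fun j _ => ?_
        rw [prT_smul, map_natCast, ZMod.natCast_zmod_val]
      have h2 : TateMod.proj 1 (∑ j, ((c j).val : ℤ_[r]) • b j) = 0 := congrArg Subtype.val h1
      obtain ⟨y, hy⟩ := (TateMod.mem_pow_smul_iff 1 _).mpr h2
      have h3 := congrArg (fun z => b.repr z i) hy
      simp only [map_sum, map_smul, Module.Basis.repr_self, Finsupp.smul_single, smul_eq_mul,
        mul_one, Finsupp.finsetSum_apply, Finsupp.smul_apply, pow_one] at h3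
      rw [Finset.sum_eq_single i (fun j _ hj => Finsupp.single_eq_of_ne (Ne.symm hj))
        (fun h => absurd (Finset.mem_univ i) h), Finsupp.single_eq_same] at h3
      have h4 := congrArg (PadicInt.toZMod (p := r)) h3
      rw [map_natCast, ZMod.natCast_zmod_val, map_mul, map_natCast, ZMod.natCast_self,
        zero_mul] at h4
      exact h4)
    (by
      rintro x -
      obtain ⟨t, ht⟩ := TateMod.exists_of_divisible (p := r) (Set.univ : Set J)
        (fun x _ => by obtain ⟨y, hy⟩ := hdiv x; exact ⟨y, trivial, hy⟩) 1 x.1 trivial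
        (by rw [pow_one]; exact x.2)
      have h1 : x = prT t := Subtype.ext ht.symm
      rw [h1, ← b.sum_repr t, map_sum]
      refine Submodule.sum_mem _ fun i _ => ?_
      rw [prT_smul]
      exact Submodule.smul_mem _ _ (Submodule.subset_span ⟨i, rfl⟩))

lemma torBasis_apply {n : ℕ} (hdiv : ∀ x : J, ∃ y, r • y = x)
    (b : Module.Basis (Fin n) ℤ_[r] (TateMod r J)) (i : Fin n) :
    torBasis hdiv b i = prT (b i) := by
  rw [torBasis, Module.Basis.mk_apply]

variable (r J)

/-- Hecke action on the `r`-torsion -/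
def actTor [Module HeckeAlg J] (N : ℕ) :
    MvPolynomial (GoodPrimes N ∅) ℤ →+* Module.End (ZMod r) (Tor r J) where
  toFun P := AddMonoidHom.toZModLinearMap r
    { toFun := fun x => ⟨inclHecke N ∅ P • (x : J), by
        rw [mem_Tor, smul_comm, mem_Tor.mp x.2, smul_zero]⟩
      map_zero' := Subtype.ext (smul_zero _)
      map_add' := fun x y => Subtype.ext (smul_add _ (x : J) (y : J)) }
  map_one' := by
    refine LinearMap.ext fun x => Subtype.ext ?_
    show inclHecke N ∅ 1 • (x : J) = x
    rw [map_one, one_smul]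
  map_zero' := by
    refine LinearMap.ext fun x => Subtype.ext ?_
    show inclHecke N ∅ 0 • (x : J) = 0
    rw [map_zero, zero_smul]
  map_mul' P Q := by
    refine LinearMap.ext fun x => Subtype.ext ?_
    show inclHecke N ∅ (P * Q) • (x : J) = inclHecke N ∅ P • inclHecke N ∅ Q • (x : J)
    rw [map_mul, mul_smul]
  map_add' P Q := by
    refine LinearMap.ext fun x => Subtype.ext ?_
    show inclHecke N ∅ (P + Q) • (x : J) = inclHecke N ∅ P • (x : J) + inclHecke N ∅ Q • (x : J)
    rw [map_add, add_smul]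

variable {r J}

lemma coe_actTor [Module HeckeAlg J] (N : ℕ) (P : MvPolynomial (GoodPrimes N ∅) ℤ)
    (x : Tor r J) : ((actTor r J N P x : Tor r J) : J) = inclHecke N ∅ P • (x : J) := rfl

lemma prT_actTate [Module HeckeAlg J] (N : ℕ) (P : MvPolynomial (GoodPrimes N ∅) ℤ)
    (x : TateMod r J) : prT (actTate r J N ∅ P x) = actTor r J N P (prT x) := rfl

end Tor

end Fermat.Agent.H41
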