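import Mathlib

/-!
# Fitting idempotents and naturality of polynomial actions (helper41, MZ-J9)
-/

set_option autoImplicit false

noncomputable section

namespace Fermat.Agent.H41

theorem exists_fit {R : Type*} [CommRing R] (I₀ P : Ideal R) [Finite (R ⧸ I₀)] :
    ∃ (e : R) (n : ℕ), (∀ t ∈ P ^ n, e * t ∈ I₀) ∧ (∀ m, ∃ t ∈ P ^ m, 1 - e - t ∈ I₀) ∧
      e * e - e ∈ I₀ := by
  let A := R ⧸ I₀
  let mk : R →+* A := Ideal.Quotient.mk I₀
  have hmk : Function.Surjective mk := Ideal.Quotient.mk_surjective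
  let J : Ideal A := P.map mk
  obtain ⟨n, hn⟩ : ∃ n, ∀ m, n ≤ m → J ^ n = J ^ m := by
    obtain ⟨n, hn⟩ := IsArtinian.monotone_stabilizes (R := A) (M := A)
      ⟨fun n : ℕ => OrderDual.toDual (J ^ n), fun a b hab => Ideal.pow_le_pow_right hab⟩
    exact ⟨n, fun m hm => hn m hm⟩
  have hid : IsIdempotentElem (J ^ n) := by
    show J ^ n * J ^ n = J ^ n
    rw [← pow_add, ← hn (n + n) (Nat.le_add_left n n)]
  have hfg : (J ^ n).FG := IsNoetherian.noetherian _
  obtain ⟨f, hf, hJf⟩ := (Ideal.isIdempotentElem_iff_of_fg (J ^ n) hfg).mp hid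
  obtain ⟨e₀, he₀⟩ := hmk f
  refine ⟨1 - e₀, n, ?_, ?_, ?_⟩
  · intro t ht
    have h1 : mk t ∈ J ^ n := by
      rw [← Ideal.map_pow]
      exact Ideal.mem_map_of_mem _ ht
    rw [hJf] at h1
    obtain ⟨c, hc⟩ := Ideal.mem_span_singleton'.mp h1
    rw [← Ideal.Quotient.eq_zero_iff_mem]
    show mk ((1 - e₀) * t) = 0
    rw [map_mul, map_sub, map_one, he₀, ← hc]
    have hf' : f * f = f := hf
    linear_combination -c * hf'
  · intro m
    have h1 : f ∈ J ^ m := by
      have h2 : f ∈ J ^ n := by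
        rw [hJf]
        exact Ideal.mem_span_singleton_self f
      rcases le_total m n with h | h
      · exact Ideal.pow_le_pow_right h h2
      · rwa [← hn m h]
    rw [← Ideal.map_pow, Ideal.mem_map_iff_of_surjective mk hmk] at h1
    obtain ⟨t, ht, htf⟩ := h1
    refine ⟨t, ht, ?_⟩
    rw [← Ideal.Quotient.eq_zero_iff_mem]
    show mk (1 - (1 - e₀) - t) = 0
    rw [map_sub, map_sub, map_sub, map_one, he₀, htf]
    ring
  · rw [← Ideal.Quotient.eq_zero_iff_mem]
    show mk ((1 - e₀) * (1 - e₀) - (1 - e₀)) = 0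
    rw [map_sub, map_mul, map_sub, map_one, he₀]
    have hf' : f * f = f := hf
    linear_combination hf'

section Nat

variable {ι R₁ R₂ H₁ H₂ : Type*} [CommRing R₁] [CommRing R₂] [AddCommGroup H₁] [Module R₁ H₁]
  [AddCommGroup H₂] [Module R₂ H₂]

theorem nat_act (A₁ : MvPolynomial ι ℤ →+* Module.End R₁ H₁)
    (A₂ : MvPolynomial ι ℤ →+* Module.End R₂ H₂) (f : H₁ →+ H₂)
    (h : ∀ a x, f (A₁ (MvPolynomial.X a) x) = A₂ (MvPolynomial.X a) (f x))
    (P : MvPolynomial ι ℤ) (x : H₁) : f (A₁ P x) = A₂ P (f x) := by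
  induction P using MvPolynomial.induction_on generalizing x with
  | C n =>
    have h1 : (MvPolynomial.C n : MvPolynomial ι ℤ) = (n : MvPolynomial ι ℤ) := by simp
    rw [h1, map_intCast, map_intCast, Module.End.intCast_apply, Module.End.intCast_apply,
      map_zsmul]
  | add P Q hP hQ => rw [map_add, map_add, LinearMap.add_apply, LinearMap.add_apply, map_add,
      hP, hQ]
  | mul_X P i hP =>
    rw [map_mul, map_mul, Module.End.mul_apply, Module.End.mul_apply, hP, h]

end Nat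

end Fermat.Agent.H41
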