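import Mathlib
import Fermat.Agent.H15Defs
import Fermat.Agent.H49HeckeBasic
import Fermat.Agent.H71S49Ideal
import Fermat.Agent.H23Main
import Fermat.Agent.H41Charpoly
import Fermat.Prelude.Thm_ModularFormClass_qCoeff_heckeT
import Fermat.Prelude.Def_CuspForm_HeckeLocal

/-!
# The integral lattice of cusp forms and mod `r` forms (helper41, MZ-J9)
-/

set_option autoImplicit false

noncomputable section

namespace Fermat.Agent.H41

open CongruenceSubgroup ModularFormClass
open scoped MatrixGroups

variable {N : ℕ} [NeZero N]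

/-- integral `q`-expansions -/
def qz (N : ℕ) [NeZero N] : CuspForm.intLattice N 2 →+ PowerSeries ℤ where
  toFun f := PowerSeries.mk fun n => ((Fermat.Agent.H71.mem_intLattice_iff f.1).mp f.2 n).choose
  map_zero' := by
    ext n
    rw [PowerSeries.coeff_mk, map_zero]
    have h := ((Fermat.Agent.H71.mem_intLattice_iff
      (0 : CuspForm.intLattice N 2).1).mp (0 : CuspForm.intLattice N 2).2 n).choose_spec
    have h0 : qCoeff ((0 : CuspForm.intLattice N 2).1) n = 0 := Fermat.Agent.H49.qCoeff_zero n
    have h2 := h0.symm.trans h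
    exact_mod_cast h2.symm
  map_add' f g := by
    ext n
    rw [map_add, PowerSeries.coeff_mk, PowerSeries.coeff_mk, PowerSeries.coeff_mk]
    have h1 := ((Fermat.Agent.H71.mem_intLattice_iff f.1).mp f.2 n).choose_spec
    have h2 := ((Fermat.Agent.H71.mem_intLattice_iff g.1).mp g.2 n).choose_spec
    have h3 := ((Fermat.Agent.H71.mem_intLattice_iff (f + g).1).mp (f + g).2 n).choose_spec
    have h4 : qCoeff ((f + g).1) n = qCoeff f.1 n + qCoeff g.1 n :=
      Fermat.Agent.H49.qCoeff_add f.1 g.1 n
    have h5 := h3.symm.trans (h4.trans (congrArg₂ (· + ·) h1 h2))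
    exact_mod_cast h5

lemma qz_spec (f : CuspForm.intLattice N 2) (n : ℕ) :
    ((PowerSeries.coeff n (qz N f) : ℤ) : ℂ) = qCoeff f.1 n := by
  show (((PowerSeries.coeff n (PowerSeries.mk fun n =>
    ((Fermat.Agent.H71.mem_intLattice_iff f.1).mp f.2 n).choose) : ℤ)) : ℂ) = _
  rw [PowerSeries.coeff_mk]
  exact ((Fermat.Agent.H71.mem_intLattice_iff f.1).mp f.2 n).choose_spec.symm

lemma qz_injective : Function.Injective (qz N) := by
  rw [injective_iff_map_eq_zero]
  intro f hf
  apply Subtype.ext
  refine Fermat.Agent.H49.eq_zero_of_forall_qCoeff f.1 fun n => ?_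
  rw [← qz_spec, hf, map_zero, Int.cast_zero]

/-- reduction of integral forms -/
def qk (N : ℕ) [NeZero N] (k : Type) [Field k] : CuspForm.intLattice N 2 →+ H15.S2 N k where
  toFun f := ⟨(qz N f).map (Int.castRingHom k), Submodule.subset_span
    ⟨f.1, qz N f, fun n => (qz_spec f n).symm, rfl⟩⟩
  map_zero' := by
    apply Subtype.ext
    show (qz N 0).map (Int.castRingHom k) = 0
    rw [map_zero, map_zero]
  map_add' f g := by
    apply Subtype.ext
    show (qz N (f + g)).map (Int.castRingHom k) = _
    rw [map_add, map_add]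
    rfl

lemma coe_qk (k : Type) [Field k] (f : CuspForm.intLattice N 2) :
    (qk N k f).1 = (qz N f).map (Int.castRingHom k) := rfl

/-- a basis of the integral lattice -/
def bL (N : ℕ) [NeZero N] :
    haveI := CuspForm.intLattice.moduleFree N
    Module.Basis (Fin (Module.finrank ℤ (CuspForm.intLattice N 2))) ℤ (CuspForm.intLattice N 2) :=
  haveI := CuspForm.intLattice.moduleFree N
  haveI := CuspForm.intLattice.moduleFinite N
  Module.finBasis ℤ (CuspForm.intLattice N 2)

lemma linearIndependent_qk {r : ℕ} (hr : r.Prime) (k : Type) [Field k] [CharP k r] :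
    LinearIndependent k fun i => qk N k (bL N i) := by
  haveI := CuspForm.intLattice.moduleFree N
  haveI := CuspForm.intLattice.moduleFinite N
  haveI : Fact r.Prime := ⟨hr⟩
  letI : Algebra (ZMod r) k := ZMod.algebra k r
  rw [Fintype.linearIndependent_iff]
  intro lam hlam i
  by_contra hne
  obtain ⟨φ, hφ⟩ := Module.Projective.exists_dual_ne_zero (ZMod r) hne
  apply hφ
  -- integral lifts
  let m : Fin (Module.finrank ℤ (CuspForm.intLattice N 2)) → ℤ := fun j => ((φ (lam j)).val : ℤ)
  have hm : ∀ j, ((m j : ℤ) : ZMod r) = φ (lam j) := fun j => by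
    simp only [m, Int.cast_natCast, ZMod.natCast_zmod_val]
  have hcoef : ∀ n : ℕ, ∑ j, lam j * ((PowerSeries.coeff n (qz N (bL N j)) : ℤ) : k) = 0 := by
    intro n
    have h1 := congrArg (fun f : H15.S2 N k => PowerSeries.coeff n f.1) hlam
    simp only [AddSubmonoidClass.coe_finsetSum, SetLike.val_smul, map_sum, map_smul,
      smul_eq_mul, ZeroMemClass.coe_zero, map_zero, coe_qk, PowerSeries.coeff_map,
      eq_intCast] at h1
    exact h1
  have hmod : ∀ n : ℕ, (r : ℤ) ∣ PowerSeries.coeff n (qz N (∑ j, m j • bL N j)) := by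
    intro n
    rw [← ZMod.intCast_zmod_eq_zero_iff_dvd, map_sum, map_sum, Int.cast_sum]
    have h2 := congrArg φ (hcoef n)
    rw [map_sum, map_zero] at h2
    rw [← h2]
    refine Finset.sum_congr rfl fun j _ => ?_
    rw [map_zsmul, map_zsmul, smul_eq_mul, Int.cast_mul, hm]
    have h3 : lam j * ((PowerSeries.coeff n (qz N (bL N j)) : ℤ) : k) =
        ((PowerSeries.coeff n (qz N (bL N j)) : ℤ) : ZMod r) • lam j := by
      rw [Algebra.smul_def, map_intCast, mul_comm]
    rw [h3, map_smul, smul_eq_mul, mul_comm]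
  obtain ⟨g, hg, hgeq⟩ := Fermat.Agent.H71.exists_eq_smul_of_forall_dvd (N := N) (k := 2)
    (p := (r : ℤ)) (by exact_mod_cast hr.ne_zero) (∑ j, m j • bL N j : CuspForm.intLattice N 2).1
    (fun n => by
      obtain ⟨c, hc⟩ := hmod n
      exact ⟨c, by rw [← qz_spec, hc]⟩)
  have h4 : (∑ j, m j • bL N j : CuspForm.intLattice N 2) = (r : ℤ) • ⟨g, hg⟩ := Subtype.ext hgeq
  have h5 := congrArg (fun x => (bL N).repr x i) h4
  simp only [map_sum, map_smul, Module.Basis.repr_self, Finsupp.smul_single, smul_eq_mul, mul_one,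
    Finsupp.finsetSum_apply, Finsupp.smul_apply] at h5
  rw [Finset.sum_eq_single i (fun j _ hj => Finsupp.single_eq_of_ne (Ne.symm hj))
    (fun h => absurd (Finset.mem_univ i) h), Finsupp.single_eq_same] at h5
  rw [← hm i, h5, Int.cast_mul]
  simp

lemma span_qk (k : Type) [Field k] : ⊤ ≤ Submodule.span k (Set.range fun i => qk N k (bL N i)) := by
  haveI := CuspForm.intLattice.moduleFree N
  haveI := CuspForm.intLattice.moduleFinite N
  rintro ⟨x, hx⟩ -
  have key : ∀ f : CuspForm.intLattice N 2,
      qk N k f ∈ Submodule.span k (Set.range fun i => qk N k (bL N i)) := by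
    intro f
    rw [← (bL N).sum_repr f, map_sum]
    refine Submodule.sum_mem _ fun i _ => ?_
    rw [map_zsmul, ← Int.cast_smul_eq_zsmul k]
    exact Submodule.smul_mem _ _ (Submodule.subset_span ⟨i, rfl⟩)
  have h2 : ∀ y (hy : y ∈ H15.S2 N k), (⟨y, hy⟩ : H15.S2 N k) ∈
      Submodule.span k (Set.range fun i => qk N k (bL N i)) := by
    intro y hy
    have hy' := hy
    unfold H15.S2 at hy'
    induction hy' using Submodule.span_induction with
    | mem y h =>
      obtain ⟨F, G, hFG, rfl⟩ := h
      have hF : F ∈ CuspForm.intLattice N 2 :=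
        (Fermat.Agent.H71.mem_intLattice_iff F).mpr fun n => ⟨_, hFG n⟩
      have hG : G = qz N ⟨F, hF⟩ := by
        ext n
        have h1 := (hFG n).symm.trans (qz_spec ⟨F, hF⟩ n).symm
        exact_mod_cast h1
      convert key ⟨F, hF⟩ using 1
      apply Subtype.ext
      rw [coe_qk, ← hG]
    | zero => exact Submodule.zero_mem _
    | add a b ha hb iha ihb =>
      have ha' : a ∈ H15.S2 N k := ha
      have hb' : b ∈ H15.S2 N k := hb
      exact Submodule.add_mem _ (iha ha') (ihb hb')
    | smul c a ha iha =>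
      have ha' : a ∈ H15.S2 N k := ha
      exact Submodule.smul_mem _ c (iha ha')
  exact h2 x hx

/-- the basis of `S2 N k` -/
def bk (N : ℕ) [NeZero N] {r : ℕ} (hr : r.Prime) (k : Type) [Field k] [CharP k r] :
    Module.Basis (Fin (Module.finrank ℤ (CuspForm.intLattice N 2))) k (H15.S2 N k) :=
  Module.Basis.mk (linearIndependent_qk hr k) (span_qk k)

lemma bk_apply {r : ℕ} (hr : r.Prime) (k : Type) [Field k] [CharP k r] (i) :
    bk N hr k i = qk N k (bL N i) := by
  rw [bk, Module.Basis.mk_apply]

section C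

lemma linearIndependent_C : LinearIndependent ℂ fun i => (bL N i : CuspForm (Gamma0 N) 2) := by
  haveI := CuspForm.intLattice.moduleFree N
  haveI := CuspForm.intLattice.moduleFinite N
  -- independence of the coefficient vectors over `ℤ`, then `ℚ`
  let w : Fin (Module.finrank ℤ (CuspForm.intLattice N 2)) → (ℕ → ℚ) := fun i n =>
    ((PowerSeries.coeff n (qz N (bL N i)) : ℤ) : ℚ)
  have hw : LinearIndependent ℤ w := by
    let g : CuspForm.intLattice N 2 →ₗ[ℤ] (ℕ → ℚ) :=
      { toFun := fun f n => ((PowerSeries.coeff n (qz N f) : ℤ) : ℚ)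
        map_add' := fun f g => by
          funext n
          rw [map_add, map_add, Int.cast_add]
          rfl
        map_smul' := fun c f => by
          funext n
          rw [map_zsmul, map_zsmul, smul_eq_mul, Int.cast_mul]
          simp }
    have hg : LinearMap.ker g = ⊥ := by
      rw [LinearMap.ker_eq_bot']
      intro f hf
      apply qz_injective
      rw [map_zero]
      ext n
      have h1 : ((PowerSeries.coeff n (qz N f) : ℤ) : ℚ) = 0 := congrFun hf n
      rw [map_zero]
      exact_mod_cast h1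
    exact (bL N).linearIndependent.map' g hg
  have hw2 : LinearIndependent ℚ w := (LinearIndependent.iff_fractionRing ℤ ℚ).mp hw
  rw [Fintype.linearIndependent_iff]
  intro lam hlam i
  by_contra hne
  obtain ⟨φ, hφ⟩ := Module.Projective.exists_dual_ne_zero ℚ hne
  apply hφ
  have hcoef : ∀ n : ℕ, ∑ j, lam j * ((PowerSeries.coeff n (qz N (bL N j)) : ℤ) : ℂ) = 0 := by
    intro n
    have h1 := congrArg (Fermat.Agent.H49.qCoeffLin N 2 n) hlam
    rw [map_sum, map_zero] at h1
    rw [← h1]
    refine Finset.sum_congr rfl fun j _ => ?_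
    rw [map_smul, qz_spec]
    rfl
  have h2 : ∑ j, φ (lam j) • w j = 0 := by
    funext n
    have h3 := congrArg φ (hcoef n)
    rw [map_sum, map_zero] at h3
    rw [Finset.sum_apply, Pi.zero_apply, ← h3]
    refine Finset.sum_congr rfl fun j _ => ?_
    have h4 : lam j * ((PowerSeries.coeff n (qz N (bL N j)) : ℤ) : ℂ) =
        ((PowerSeries.coeff n (qz N (bL N j)) : ℤ) : ℚ) • lam j := by
      rw [Algebra.smul_def, mul_comm]
      simp
    rw [h4, map_smul, Pi.smul_apply, smul_eq_mul, smul_eq_mul, mul_comm]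
  exact Fintype.linearIndependent_iff.mp hw2 _ h2 i

lemma span_C : ⊤ ≤ Submodule.span ℂ (Set.range fun i => (bL N i : CuspForm (Gamma0 N) 2)) := by
  haveI := CuspForm.intLattice.moduleFree N
  haveI := CuspForm.intLattice.moduleFinite N
  have h1 : Submodule.span ℂ ((CuspForm.intLattice N 2 : Submodule ℤ (CuspForm (Gamma0 N) 2)) :
      Set (CuspForm (Gamma0 N) 2)) = ⊤ := Fermat.Agent.H23.hasIntegralStructure N 2
  rw [← h1, Submodule.span_le]
  intro f hf
  have h2 : (f : CuspForm (Gamma0 N) 2) = ∑ i, ((bL N).repr ⟨f, hf⟩ i) • (bL N i : CuspForm (Gamma0 N) 2) := by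
    have := congrArg Subtype.val ((bL N).sum_repr ⟨f, hf⟩)
    rw [AddSubmonoidClass.coe_finsetSum] at this
    exact this.symm
  rw [h2]
  refine Submodule.sum_mem _ fun i _ => ?_
  rw [← Int.cast_smul_eq_zsmul ℂ]
  exact Submodule.smul_mem _ _ (Submodule.subset_span ⟨i, rfl⟩)

/-- the basis of `S₂` -/
def bC (N : ℕ) [NeZero N] :
    Module.Basis (Fin (Module.finrank ℤ (CuspForm.intLattice N 2))) ℂ (CuspForm (Gamma0 N) 2) :=
  Module.Basis.mk linearIndependent_C span_C

lemma bC_apply (i) : bC N i = (bL N i : CuspForm (Gamma0 N) 2) := by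
  rw [bC, Module.Basis.mk_apply]

end C

end Fermat.Agent.H41
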