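import Mathlib
import Fermat.Prelude.Def_ModularForm_HeckeOperator
import Fermat.Prelude.Thm_ModularForm_heckeT_slash_eq_self_of_mem_Gamma0
import Fermat.Prelude.Def_ModularCurve_PeriodMap

set_option autoImplicit false

/-!
# Hecke operators on `Hom(Γ₀(N), A)` by transfer (helper4, KummerBridge)

For a prime `ℓ ∤ N` and an abelian group `A` we define
`Fermat.Agent.H4.heckeHom hℓN : (Additive (Gamma0 N) →+ A) →+ (Additive (Gamma0 N) →+ A)`.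
It is natural in `A` (`heckeHom_comp`), and if `F (γ • τ) = F τ + φ γ` then
`G τ = ∑ x, F (rep x • τ)` satisfies `G (γ • τ) = G τ + heckeHom φ γ`.
-/

open CongruenceSubgroup UpperHalfPlane Matrix.SpecialLinearGroup
open scoped MatrixGroups

namespace Fermat.Agent.H4

noncomputable section

/-- Hecke representatives, indexed by the projective line over `ZMod ℓ`. -/
abbrev rep (ℓ : ℕ) (x : OnePoint (ZMod ℓ)) : GL (Fin 2) ℝ :=
  P2MW.S_ModularForm_heckeT_slash_eq_self_of_mem_Gamma0.ModularForm.HeckeSlashInvariance.heckeRep ℓ x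

abbrev redMat (ℓ : ℕ) [Fact ℓ.Prime] (g : SL(2, ℤ)) : GL (Fin 2) (ZMod ℓ) :=
  P2MW.S_ModularForm_heckeT_slash_eq_self_of_mem_Gamma0.ModularForm.HeckeSlashInvariance.redMatrix
    ℓ g

lemma rep_infty (ℓ : ℕ) : rep ℓ OnePoint.infty = ModularForm.heckeDiagMatrix ℓ := rfl

lemma rep_coe (ℓ : ℕ) (j : ZMod ℓ) : rep ℓ (j : OnePoint (ZMod ℓ)) = ModularForm.heckeMatrix ℓ j.val := rfl

variable {N ℓ : ℕ} [Fact ℓ.Prime]

lemma redMat_mul (g h : SL(2, ℤ)) : redMat ℓ (g * h) = redMat ℓ h * redMat ℓ g := by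
  ext i j
  fin_cases i <;> fin_cases j <;>
    simp [P2MW.S_ModularForm_heckeT_slash_eq_self_of_mem_Gamma0.ModularForm.HeckeSlashInvariance.redMatrix,
      Matrix.mul_apply, Fin.sum_univ_two] <;> ring

lemma redMat_one : redMat ℓ 1 = 1 := by
  ext i j
  fin_cases i <;> fin_cases j <;>
    simp [P2MW.S_ModularForm_heckeT_slash_eq_self_of_mem_Gamma0.ModularForm.HeckeSlashInvariance.redMatrix]

/-- The right action of `Γ₀(N)` on the index set. -/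
def act (g : SL(2, ℤ)) : Equiv.Perm (OnePoint (ZMod ℓ)) := MulAction.toPerm (redMat ℓ g)

lemma act_apply (g : SL(2, ℤ)) (x : OnePoint (ZMod ℓ)) : act g x = redMat ℓ g • x := rfl

lemma act_mul (g h : SL(2, ℤ)) (x : OnePoint (ZMod ℓ)) : act (g * h) x = act h (act g x) := by
  rw [act_apply, act_apply, act_apply, redMat_mul, mul_smul]

lemma act_one (x : OnePoint (ZMod ℓ)) : act 1 x = x := by
  rw [act_apply, redMat_one, one_smul]

lemma exists_cocycle (hℓN : ¬ ℓ ∣ N) (γ : Gamma0 N) (x : OnePoint (ZMod ℓ)) :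
    ∃ δ : Gamma0 N, rep ℓ x * mapGL ℝ (γ : SL(2, ℤ)) =
      mapGL ℝ (δ : SL(2, ℤ)) * rep ℓ (act (γ : SL(2, ℤ)) x) := by
  have hc : (N : ℤ) ∣ (γ : SL(2, ℤ)) 1 0 :=
    (ZMod.intCast_zmod_eq_zero_iff_dvd _ _).mp (Gamma0_mem.mp γ.2)
  obtain ⟨g', hg', h⟩ :=
    P2MW.S_ModularForm_heckeT_slash_eq_self_of_mem_Gamma0.ModularForm.HeckeSlashInvariance.heckeRep_mul
      hℓN (γ : SL(2, ℤ)) hc x
  exact ⟨⟨g', Gamma0_mem.mpr ((ZMod.intCast_zmod_eq_zero_iff_dvd _ _).mpr hg')⟩, h⟩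

/-- The element `δ ∈ Γ₀(N)` with `α_x γ = δ α_{x·γ}`. -/
def coc (hℓN : ¬ ℓ ∣ N) (γ : Gamma0 N) (x : OnePoint (ZMod ℓ)) : Gamma0 N :=
  (exists_cocycle hℓN γ x).choose

lemma coc_spec (hℓN : ¬ ℓ ∣ N) (γ : Gamma0 N) (x : OnePoint (ZMod ℓ)) :
    rep ℓ x * mapGL ℝ (γ : SL(2, ℤ)) =
      mapGL ℝ (coc hℓN γ x : SL(2, ℤ)) * rep ℓ (act (γ : SL(2, ℤ)) x) :=
  (exists_cocycle hℓN γ x).choose_spec

lemma mapGL_gamma0_injective {a b : Gamma0 N}
    (h : (mapGL ℝ (a : SL(2, ℤ)) : GL (Fin 2) ℝ) = mapGL ℝ (b : SL(2, ℤ))) : a = b := by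
  apply Subtype.ext
  exact mapGL_injective h

lemma coc_unique (hℓN : ¬ ℓ ∣ N) (γ : Gamma0 N) (x : OnePoint (ZMod ℓ)) {δ : Gamma0 N}
    (h : rep ℓ x * mapGL ℝ (γ : SL(2, ℤ)) =
      mapGL ℝ (δ : SL(2, ℤ)) * rep ℓ (act (γ : SL(2, ℤ)) x)) : δ = coc hℓN γ x := by
  apply mapGL_gamma0_injective
  rw [coc_spec hℓN γ x] at h
  exact (mul_right_cancel h).symm

lemma coc_mul (hℓN : ¬ ℓ ∣ N) (γ γ' : Gamma0 N) (x : OnePoint (ZMod ℓ)) :
    coc hℓN (γ * γ') x = coc hℓN γ x * coc hℓN γ' (act (γ : SL(2, ℤ)) x) := by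
  symm
  apply coc_unique
  have h1 := coc_spec hℓN γ x
  have h2 := coc_spec hℓN γ' (act (γ : SL(2, ℤ)) x)
  push_cast
  rw [map_mul, ← mul_assoc, h1, mul_assoc, h2, ← mul_assoc, map_mul, act_mul]

/-- The Hecke operator `T_ℓ` on `Hom(Γ₀(N), A)` for `ℓ ∤ N`. -/
def heckeHom {A : Type*} [AddCommGroup A] (hℓN : ¬ ℓ ∣ N) :
    (Additive (Gamma0 N) →+ A) →+ (Additive (Gamma0 N) →+ A) where
  toFun φ :=
    AddMonoidHom.mk' (fun γ => ∑ x : OnePoint (ZMod ℓ), φ (Additive.ofMul (coc hℓN γ.toMul x))) (by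
      intro a b
      rw [← Equiv.sum_comp (act (a.toMul : SL(2, ℤ)))
        (fun x => φ (Additive.ofMul (coc hℓN b.toMul x))), ← Finset.sum_add_distrib]
      refine Finset.sum_congr rfl fun x _ => ?_
      rw [toMul_add, coc_mul, ofMul_mul, map_add])
  map_zero' := by ext; simp
  map_add' φ ψ := by
    ext γ
    simp [Finset.sum_add_distrib]

variable {A B : Type*} [AddCommGroup A] [AddCommGroup B]

lemma heckeHom_apply (hℓN : ¬ ℓ ∣ N) (φ : Additive (Gamma0 N) →+ A) (γ : Additive (Gamma0 N)) :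
    heckeHom hℓN φ γ = ∑ x : OnePoint (ZMod ℓ), φ (Additive.ofMul (coc hℓN γ.toMul x)) := rfl

/-- Naturality in the coefficients. -/
lemma heckeHom_comp (hℓN : ¬ ℓ ∣ N) (φ : Additive (Gamma0 N) →+ A) (f : A →+ B) :
    heckeHom hℓN (f.comp φ) = f.comp (heckeHom hℓN φ) := by
  ext γ
  simp [heckeHom_apply]

/-- `T_ℓ` is linear over any ring of scalars. -/
lemma heckeHom_smul {R : Type*} [Semiring R] [Module R A] (hℓN : ¬ ℓ ∣ N) (c : R)
    (φ : Additive (Gamma0 N) →+ A) : heckeHom hℓN (c • φ) = c • heckeHom hℓN φ := by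
  ext γ
  simp [heckeHom_apply, Finset.smul_sum]

/-- `T_ℓ` as a linear map. -/
def heckeLin (R : Type*) [Semiring R] [Module R A] (hℓN : ¬ ℓ ∣ N) :
    (Additive (Gamma0 N) →+ A) →ₗ[R] (Additive (Gamma0 N) →+ A) where
  toFun := heckeHom hℓN
  map_add' := map_add _
  map_smul' c φ := heckeHom_smul hℓN c φ

lemma sl_smul_eq (g : SL(2, ℤ)) (τ : ℍ) : g • τ = (mapGL ℝ g : GL (Fin 2) ℝ) • τ := rfl

/-- additive version of the compatibility with primitives -/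
theorem sum_rep_smul (hℓN : ¬ ℓ ∣ N) (F : ℍ → A) (φ : Additive (Gamma0 N) →+ A)
    (hF : ∀ (γ : Gamma0 N) (τ : ℍ), F ((γ : SL(2, ℤ)) • τ) = F τ + φ (Additive.ofMul γ))
    (γ : Gamma0 N) (τ : ℍ) :
    ∑ x : OnePoint (ZMod ℓ), F (rep ℓ x • ((γ : SL(2, ℤ)) • τ)) =
      (∑ x : OnePoint (ZMod ℓ), F (rep ℓ x • τ)) + heckeHom hℓN φ (Additive.ofMul γ) := by
  rw [heckeHom_apply, ← Equiv.sum_comp (act (γ : SL(2, ℤ))) (fun x => F (rep ℓ x • τ)),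
    ← Finset.sum_add_distrib]
  refine Finset.sum_congr rfl fun x _ => ?_
  have h : rep ℓ x • ((γ : SL(2, ℤ)) • τ) =
      (coc hℓN γ x : SL(2, ℤ)) • (rep ℓ (act (γ : SL(2, ℤ)) x) • τ) := by
    rw [sl_smul_eq, sl_smul_eq, ← mul_smul, ← mul_smul]
    congr 1
    exact coc_spec hℓN γ x
  rw [h, hF]
  rfl

/-- multiplicative version of the compatibility -/
theorem prod_rep_smul (hℓN : ¬ ℓ ∣ N) (h : ℍ → ℂ) (χ : Additive (Gamma0 N) →+ Additive ℂˣ)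
    (hF : ∀ (γ : Gamma0 N) (τ : ℍ), h ((γ : SL(2, ℤ)) • τ) =
      ((χ (Additive.ofMul γ)).toMul : ℂ) * h τ)
    (γ : Gamma0 N) (τ : ℍ) :
    ∏ x : OnePoint (ZMod ℓ), h (rep ℓ x • ((γ : SL(2, ℤ)) • τ)) =
      ((heckeHom hℓN χ (Additive.ofMul γ)).toMul : ℂ) * ∏ x : OnePoint (ZMod ℓ), h (rep ℓ x • τ) := by
  rw [heckeHom_apply, ← Equiv.prod_comp (act (γ : SL(2, ℤ))) (fun x => h (rep ℓ x • τ)),
    toMul_sum, Units.coe_prod, ← Finset.prod_mul_distrib]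
  refine Finset.prod_congr rfl fun x _ => ?_
  have h' : rep ℓ x • ((γ : SL(2, ℤ)) • τ) =
      (coc hℓN γ x : SL(2, ℤ)) • (rep ℓ (act (γ : SL(2, ℤ)) x) • τ) := by
    rw [sl_smul_eq, sl_smul_eq, ← mul_smul, ← mul_smul]
    congr 1
    exact coc_spec hℓN γ x
  rw [h', hF]
  rfl

end

end Fermat.Agent.H4
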