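import Mathlib
import Fermat.Agent.H4Transfer
import Fermat.Agent.H41Parab

/-!
# Dictionary between `heckeHom` (helper4) and `hT` on invariant symbols (helper41)

For `m : inv R X A (G0 N)` and a base point `o`, `perA o m : Additive (Gamma0 N) →+ A` is
`γ ↦ m (γ o) o`. We have `perA o (T_ℓ m) = heckeHom (perA o m)`, and every homomorphism comes from a
symbol on `PG`.
-/

set_option autoImplicit false

namespace Fermat.Agent.H41

open Matrix Matrix.SpecialLinearGroup CongruenceSubgroup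
open scoped MatrixGroups

noncomputable section

/-- base change to `ℝ` -/
abbrev gR : GL (Fin 2) ℚ →* GL (Fin 2) ℝ := Matrix.GeneralLinearGroup.map (algebraMap ℚ ℝ)

lemma gR_injective : Function.Injective gR := by
  intro a b h
  ext i j
  have h1 := congrArg (fun g : GL (Fin 2) ℝ => (g : Matrix (Fin 2) (Fin 2) ℝ) i j) h
  simp only [Matrix.GeneralLinearGroup.map_apply] at h1
  exact (algebraMap ℚ ℝ).injective h1

lemma gR_mapGL (g : SL(2, ℤ)) : gR (mapGL ℚ g) = (mapGL ℝ g : GL (Fin 2) ℝ) := by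
  ext i j
  simp

lemma gR_hrep {ℓ : ℕ} (hℓ : ℓ ≠ 0) (x : OnePoint (ZMod ℓ)) :
    gR (hrep ℓ x) = Fermat.Agent.H4.rep ℓ x := by
  induction x using OnePoint.rec with
  | infty =>
    rw [Fermat.Agent.H4.rep_infty, hrep_infty]
    ext i j
    rw [ModularForm.val_heckeDiagMatrix hℓ, hd_eq hℓ]
    fin_cases i <;> fin_cases j <;> simp [Matrix.GeneralLinearGroup.map_apply]
  | coe j =>
    rw [Fermat.Agent.H4.rep_coe, hrep_coe]
    ext i k
    rw [ModularForm.val_heckeMatrix hℓ, hm_eq hℓ]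
    fin_cases i <;> fin_cases k <;> simp [Matrix.GeneralLinearGroup.map_apply]

variable {N ℓ : ℕ} [hℓp : Fact ℓ.Prime]

lemma hrep_mul_coc (hℓN : ¬ ℓ ∣ N) (γ : Gamma0 N) (x : OnePoint (ZMod ℓ)) :
    hrep ℓ x * mapGL ℚ (γ : SL(2, ℤ)) =
      mapGL ℚ (Fermat.Agent.H4.coc hℓN γ x : SL(2, ℤ)) *
        hrep ℓ (Fermat.Agent.H4.act (γ : SL(2, ℤ)) x) := by
  have hℓ := hℓp.out.ne_zero
  apply gR_injective
  rw [map_mul, map_mul, gR_mapGL, gR_mapGL, gR_hrep hℓ, gR_hrep hℓ]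
  exact Fermat.Agent.H4.coc_spec hℓN γ x

variable {R : Type*} {X : Type*} {A : Type*}
  [CommRing R] [AddCommGroup A] [Module R A] [MulAction (GL (Fin 2) ℚ) X]

/-- The period homomorphism of an invariant symbol. -/
def perA (o : X) : inv R X A (G0 N) →+ (Additive (Gamma0 N) →+ A) where
  toFun m := AddMonoidHom.mk'
    (fun γ => m.1.1 ((mapGL ℚ ((Additive.toMul γ : Gamma0 N) : SL(2, ℤ)) : GL (Fin 2) ℚ) • o) o) (by
      intro γ δ
      have h := per_mul m.2 (g := mapGL ℚ ((Additive.toMul γ : Gamma0 N) : SL(2, ℤ)))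
        (h := mapGL ℚ ((Additive.toMul δ : Gamma0 N) : SL(2, ℤ)))
        (Subgroup.mem_map_of_mem _ (Additive.toMul γ).2) o
      rw [← map_mul] at h
      exact h)
  map_zero' := rfl
  map_add' m n := rfl

lemma perA_apply (o : X) (m : inv R X A (G0 N)) (γ : Gamma0 N) :
    perA o m (Additive.ofMul γ) = m.1.1 ((mapGL ℚ (γ : SL(2, ℤ)) : GL (Fin 2) ℚ) • o) o := rfl

/-- independence of the base point -/
lemma perA_apply' (o x : X) (m : inv R X A (G0 N)) (γ : Gamma0 N) :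
    perA o m (Additive.ofMul γ) = m.1.1 ((mapGL ℚ (γ : SL(2, ℤ)) : GL (Fin 2) ℚ) • x) x :=
  per_indep m.2 (Subgroup.mem_map_of_mem _ γ.2) _ _

/-- **Periods of `T_ℓ m`.** -/
theorem per_hT (hℓN : ¬ ℓ ∣ N) {m : Symb R X A} (hm : m ∈ inv R X A (G0 N)) (o : X)
    (γ : Gamma0 N) :
    (hT ℓ m).1 ((mapGL ℚ (γ : SL(2, ℤ)) : GL (Fin 2) ℚ) • o) o =
      ∑ x : OnePoint (ZMod ℓ), m.1 ((mapGL ℚ (Fermat.Agent.H4.coc hℓN γ x : SL(2, ℤ)) :
        GL (Fin 2) ℚ) • o) o := by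
  have : NeZero ℓ := ⟨hℓp.out.ne_zero⟩
  set g : GL (Fin 2) ℚ := mapGL ℚ (γ : SL(2, ℤ)) with hg
  have h1 : ∀ x : OnePoint (ZMod ℓ), (slash (hrep ℓ x) m).1 (g • o) o =
      m.1 ((mapGL ℚ (Fermat.Agent.H4.coc hℓN γ x : SL(2, ℤ)) : GL (Fin 2) ℚ) • o) o +
      (m.1 (hrep ℓ (Fermat.Agent.H4.act (γ : SL(2, ℤ)) x) • o) o - m.1 (hrep ℓ x • o) o) := by
    intro x
    have hmem : (mapGL ℚ (Fermat.Agent.H4.coc hℓN γ x : SL(2, ℤ)) : GL (Fin 2) ℚ) ∈ G0 N :=
      Subgroup.mem_map_of_mem _ (Fermat.Agent.H4.coc hℓN γ x).2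
    rw [slash_apply, ← mul_smul, hg, hrep_mul_coc hℓN γ x, mul_smul,
      ← Symb.add m _ (hrep ℓ (Fermat.Agent.H4.act (γ : SL(2, ℤ)) x) • o) _,
      per_indep hm hmem (hrep ℓ (Fermat.Agent.H4.act (γ : SL(2, ℤ)) x) • o) o,
      ← Symb.add m (hrep ℓ (Fermat.Agent.H4.act (γ : SL(2, ℤ)) x) • o) o (hrep ℓ x • o),
      Symb.symm m o (hrep ℓ x • o), sub_eq_add_neg]
  rw [hT_eq_sum]
  have h2 : (∑ x : OnePoint (ZMod ℓ), slash (hrep ℓ x) m : Symb R X A).1 (g • o) o =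
      ∑ x : OnePoint (ZMod ℓ), (slash (hrep ℓ x) m).1 (g • o) o := by
    rw [AddSubmonoidClass.coe_finsetSum, Finset.sum_apply, Finset.sum_apply]
  rw [h2, Finset.sum_congr rfl fun x _ => h1 x, Finset.sum_add_distrib, Finset.sum_sub_distrib,
    Equiv.sum_comp (Fermat.Agent.H4.act (γ : SL(2, ℤ))) (fun x => m.1 (hrep ℓ x • o) o), sub_self,
    add_zero]

/-- **The dictionary**: `perA (T_ℓ m) = heckeHom (perA m)`. -/
theorem perA_hT (hℓN : ¬ ℓ ∣ N) (o : X) (m m' : inv R X A (G0 N)) (h : m'.1 = hT ℓ m.1) :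
    perA o m' = Fermat.Agent.H4.heckeHom hℓN (perA o m) := by
  refine AddMonoidHom.ext fun γ => ?_
  obtain ⟨γ, rfl⟩ := Additive.ofMul.surjective γ
  rw [perA_apply, h, per_hT hℓN m.2 o γ, Fermat.Agent.H4.heckeHom_apply]
  rfl

/-- Every homomorphism which kills `-1` is a period homomorphism for `PG`. -/
theorem exists_perA (R : Type*) [CommRing R] [Module R A] (φ : Additive (Gamma0 N) →+ A) (o : PG)
    (h1 : ∀ γ : Gamma0 N, (γ : SL(2, ℤ)) = -1 → φ (Additive.ofMul γ) = 0) :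
    ∃ m : inv R PG A (G0 N), perA o m = φ := by
  classical
  -- the homomorphism on `G0 N`
  have hinj : Function.Injective (mapGL ℚ : SL(2, ℤ) →* GL (Fin 2) ℚ) := mapGL_injective
  let ψ : GL (Fin 2) ℚ → A := fun g =>
    if h : g ∈ G0 N then φ (Additive.ofMul ⟨h.choose, h.choose_spec.1⟩) else 0
  have hψ : ∀ γ : Gamma0 N, ψ (mapGL ℚ (γ : SL(2, ℤ))) = φ (Additive.ofMul γ) := by
    intro γ
    have h : (mapGL ℚ (γ : SL(2, ℤ)) : GL (Fin 2) ℚ) ∈ G0 N := Subgroup.mem_map_of_mem _ γ.2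
    have h2 : h.choose = (γ : SL(2, ℤ)) := hinj h.choose_spec.2
    simp only [ψ, dif_pos h]
    congr 2
    exact Subtype.ext h2
  obtain ⟨m, hm, hmφ⟩ := exists_symb_of_hom (X := PG) R (G0 N) ψ (by
      rintro _ ⟨γ, hγ, rfl⟩ _ ⟨δ, hδ, rfl⟩
      rw [← map_mul]
      have := hψ (⟨γ, hγ⟩ * ⟨δ, hδ⟩)
      rw [hψ ⟨γ, hγ⟩, hψ ⟨δ, hδ⟩, ← map_add]
      exact this) (by
      rintro _ ⟨γ, hγ, rfl⟩ x hx
      rw [hψ ⟨γ, hγ⟩]
      -- `γ` is central, hence `±1`
      have hc : (mapGL ℚ γ : GL (Fin 2) ℚ) ∈ Subgroup.center (GL (Fin 2) ℚ) := by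
        induction x using QuotientGroup.induction_on with
        | H y =>
          have h2 : ((mapGL ℚ γ * y : GL (Fin 2) ℚ) : PG) = (y : PG) := hx
          rw [QuotientGroup.eq] at h2
          have h3 := Subgroup.inv_mem _ h2
          have h4 : ((mapGL ℚ γ * y)⁻¹ * y)⁻¹ = y⁻¹ * mapGL ℚ γ * y := by group
          rw [h4] at h3
          have h5 := (Subgroup.mem_center_iff.mp h3) y
          have h6 : (mapGL ℚ γ : GL (Fin 2) ℚ) = y⁻¹ * mapGL ℚ γ * y := by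
            have h7 : y * (y⁻¹ * mapGL ℚ γ * y) = mapGL ℚ γ * y := by group
            rw [h7] at h5
            exact mul_right_cancel h5
          rw [h6]
          exact h3
      have hcom := fun M => (Subgroup.mem_center_iff.mp hc) M
      have e1 := hcom (mapGL ℚ (sl 1 1 0 1 (by ring)))
      have e2 := hcom (mapGL ℚ (sl 1 0 1 1 (by ring)))
      rw [← map_mul, ← map_mul] at e1 e2
      have e1' := hinj e1
      have e2' := hinj e2
      have f1 := congrArg (fun g : SL(2, ℤ) => g 0 0) e1'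
      have f2 := congrArg (fun g : SL(2, ℤ) => g 0 0) e2'
      have f3 := congrArg (fun g : SL(2, ℤ) => g 0 1) e1'
      simp [Matrix.mul_apply, Fin.sum_univ_two] at f1 f2 f3
      have hd := sl_det γ
      rw [f1, f2, mul_zero, sub_zero] at hd
      have hγ1 : γ = 1 ∨ γ = -1 := by
        rcases Int.mul_eq_one_iff_eq_one_or_neg_one.mp hd with ⟨ha, hd'⟩ | ⟨ha, hd'⟩
        · left
          ext i j
          fin_cases i <;> fin_cases j <;> simp [f1, f2, ha, hd']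
        · right
          ext i j
          fin_cases i <;> fin_cases j <;> simp [f1, f2, ha, hd']
      rcases hγ1 with h | h
      · subst h
        have : (⟨1, hγ⟩ : Gamma0 N) = 1 := rfl
        rw [this, ofMul_one, map_zero]
      · exact h1 ⟨γ, hγ⟩ h)
  refine ⟨⟨m, hm⟩, AddMonoidHom.ext fun γ => ?_⟩
  obtain ⟨γ, rfl⟩ := Additive.ofMul.surjective γ
  rw [perA_apply, ← hψ]
  exact hmφ _ (Subgroup.mem_map_of_mem _ γ.2) o

end

end Fermat.Agent.H41
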