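import Fermat.Agent.H94BRAL
import Fermat.Agent.H35S35

/-!
# `T_p J₀(N) ≃ Hom_PE(Γ₀(N), ℤ_p)`, compatibly with all realised correspondences
-/

set_option autoImplicit false
set_option linter.unusedSectionVars false

noncomputable section

namespace Fermat.Agent.H94.BR

open Fermat.Agent.H70.Coh CongruenceSubgroup ModularCurve Fermat.Agent.H24 Fermat.Agent.H61
open AlgebraicCurve Fermat.Agent.H90 Fermat.Agent.H4 Fermat.Agent.H67
open Fermat.Agent.H30 Fermat.Agent.H35
open UpperHalfPlane hiding I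
open scoped MatrixGroups Manifold

/-! ### roots of unity -/

/-- the standard primitive `p ^ n`-th root of unity -/
def zt (p n : ℕ) : ℂˣ := Units.mk0 (Complex.exp (2 * Real.pi * Complex.I / ((p ^ n : ℕ) : ℂ)))
  (Complex.exp_ne_zero _)

theorem zt_pow (p n : ℕ) [NeZero p] : zt p (n + 1) ^ p = zt p n := by
  apply Units.ext
  rw [Units.val_pow_eq_pow_val, zt, zt, Units.val_mk0, Units.val_mk0, ← Complex.exp_nat_mul]
  congr 1
  have h1 : (p : ℂ) ≠ 0 := by exact_mod_cast NeZero.ne p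
  push_cast
  rw [pow_succ]
  field_simp

theorem isPrimitiveRoot_zt (p n : ℕ) [NeZero p] : IsPrimitiveRoot (zt p n) (p ^ n) := by
  have h := Complex.isPrimitiveRoot_exp (p ^ n) (pow_ne_zero n (NeZero.ne p))
  rw [← IsPrimitiveRoot.coe_units_iff]
  exact h

theorem zt_pow_pow (p n : ℕ) [NeZero p] : zt p n ^ (p ^ n) = 1 :=
  (isPrimitiveRoot_zt p n).pow_eq_one

/-- the embedding `ℤ/p^n → Mu` -/
def muEmb (p n : ℕ) [NeZero p] : ZMod (p ^ n) →+ Mu :=
  ZMod.lift (p ^ n) ⟨zmultiplesHom Mu (Mu.of (zt p n)), by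
    rw [zmultiplesHom_apply, natCast_zsmul]
    apply Mu.eq_zero
    rw [Mu.val_nsmul, Mu.val_of, ← Units.val_pow_eq_pow_val, zt_pow_pow, Units.val_one]⟩

theorem muEmb_natCast (p n : ℕ) [NeZero p] (k : ℕ) :
    muEmb p n (k : ZMod (p ^ n)) = k • Mu.of (zt p n) := by
  have h1 := ZMod.lift_coe (p ^ n) (⟨zmultiplesHom Mu (Mu.of (zt p n)), by
    rw [zmultiplesHom_apply, natCast_zsmul]
    apply Mu.eq_zero
    rw [Mu.val_nsmul, Mu.val_of, ← Units.val_pow_eq_pow_val, zt_pow_pow, Units.val_one]⟩ :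
      { f : ℤ →+ Mu // f (p ^ n : ℕ) = 0 }) (k : ℤ)
  rw [Int.cast_natCast] at h1
  rw [muEmb, h1, zmultiplesHom_apply, natCast_zsmul]

theorem muEmb_injective (p n : ℕ) [NeZero p] : Function.Injective (muEmb p n) := by
  rw [injective_iff_map_eq_zero]
  intro a ha
  have : NeZero (p ^ n) := ⟨pow_ne_zero n (NeZero.ne p)⟩
  rw [← ZMod.natCast_zmod_val a, muEmb_natCast] at ha
  have h1 := congrArg Mu.val ha
  rw [Mu.val_nsmul, Mu.val_of, Mu.val_zero, ← Units.val_pow_eq_pow_val] at h1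
  have h2 : zt p n ^ a.val = 1 := Units.ext h1
  have h3 := (isPrimitiveRoot_zt p n).dvd_of_pow_eq_one _ h2
  rw [← ZMod.natCast_zmod_val a]
  exact (ZMod.natCast_eq_zero_iff _ _).mpr h3

theorem exists_muEmb_eq (p n : ℕ) [NeZero p] {m : Mu} (hm : p ^ n • m = 0) :
    ∃ a, muEmb p n a = m := by
  have : NeZero (p ^ n) := ⟨pow_ne_zero n (NeZero.ne p)⟩
  have h1 := congrArg Mu.val hm
  rw [Mu.val_nsmul, Mu.val_zero] at h1
  have hr : IsPrimitiveRoot ((zt p n : ℂˣ) : ℂ) (p ^ n) :=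
    IsPrimitiveRoot.coe_units_iff.mpr (isPrimitiveRoot_zt p n)
  obtain ⟨i, hi, hi2⟩ := hr.eq_pow_of_pow_eq_one h1
  refine ⟨(i : ZMod (p ^ n)), ?_⟩
  rw [muEmb_natCast]
  apply Mu.ext
  rw [Mu.val_nsmul, Mu.val_of, hi2]

theorem muEmb_succ (p n : ℕ) [NeZero p] (k : ℕ) :
    p • muEmb p (n + 1) (k : ZMod (p ^ (n + 1))) = muEmb p n (k : ZMod (p ^ n)) := by
  rw [muEmb_natCast, muEmb_natCast, smul_comm]
  congr 1
  apply Mu.ext
  rw [Mu.val_nsmul, Mu.val_of, Mu.val_of]
  have h1 := congrArg Units.val (zt_pow p n)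
  rwa [Units.val_pow_eq_pow_val] at h1

/-! ### change of exponent in the Kummer relation -/

variable {K : Type*} [Field K] [Algebra K ℂ] [IsAlgClosed K] [CharZero K] [Algebra ℚ K]
variable {N : ℕ} [NeZero N]

theorem rel_of_mul {n m : ℕ} {c : Pic0 K (FX K N)} {χ : Additive (Gamma0 N) →+ Mu}
    (h : Rel (m * n) c χ) : Rel n (m • c) (m • χ) := by
  obtain ⟨D, a, f, hD, ha, hg, hord, hf, hfn, hχ⟩ := h
  refine ⟨m • D, a, f ^ m, ?_, ha, hg, fun v => ?_, Hol.pow_mem hf m, ?_, fun γ τ => ?_⟩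
  · rw [← hD]; rfl
  · rw [hord]
    have h1 : ((m • D : Divisor.degZero (K := K) (F := FX K N)) : Divisor K (FX K N)) v =
        m * (D : Divisor K (FX K N)) v := by
      show (m • (D : Divisor K (FX K N))) v = _
      rw [Finsupp.smul_apply, nsmul_eq_mul]
    rw [h1]
    push_cast
    ring
  · rw [← pow_mul, hfn]
  · rw [Pi.pow_apply, Pi.pow_apply, hχ, mul_pow, AddMonoidHom.nsmul_apply, Mu.val_nsmul]

/-! ### p-adic characters -/

section padic

variable {p : ℕ} [hp : Fact p.Prime]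

instance : NeZero p := ⟨hp.out.ne_zero⟩

theorem exists_padic {a : ∀ n : ℕ, ZMod (p ^ n)}
    (ha : ∀ n, (ZMod.castHom (pow_dvd_pow p (Nat.le_succ n)) (ZMod (p ^ n))) (a (n + 1)) = a n) :
    ∃ x : ℤ_[p], ∀ n, PadicInt.toZModPow n x = a n := by
  have key : ∀ i, (p : ℤ) ^ i ∣ ((a (i + 1)).val : ℤ) - ((a i).val : ℤ) := by
    intro i
    have h1 := ha i
    have : NeZero (p ^ (i + 1)) := ⟨pow_ne_zero _ (NeZero.ne p)⟩
    have : NeZero (p ^ i) := ⟨pow_ne_zero _ (NeZero.ne p)⟩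
    have h2 : (((a (i + 1)).val : ℕ) : ZMod (p ^ i)) = (((a i).val : ℕ) : ZMod (p ^ i)) := by
      rw [ZMod.natCast_zmod_val, ← h1, ZMod.castHom_apply, ZMod.natCast_val]
    have h3 := (ZMod.natCast_eq_natCast_iff _ _ _).mp h2
    have h4 := Nat.modEq_iff_dvd.mp h3.symm
    push_cast at h4
    exact h4
  refine ⟨PadicInt.ofIntSeq _ (PadicInt.isCauSeq_padicNorm_of_pow_dvd_sub
    (fun i => ((a i).val : ℤ)) p key), fun n => ?_⟩
  have : NeZero (p ^ n) := ⟨pow_ne_zero _ (NeZero.ne p)⟩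
  rw [PadicInt.toZModPow_ofIntSeq_of_pow_dvd_sub (fun i => ((a i).val : ℤ)) p key n]
  push_cast
  rw [ZMod.natCast_zmod_val]

variable (p) in
/-- reduction modulo `p ^ n` followed by the embedding in the roots of unity -/
def red (n : ℕ) : ℤ_[p] →+ Mu := (muEmb p n).comp (PadicInt.toZModPow n).toAddMonoidHom

theorem red_apply (n : ℕ) (x : ℤ_[p]) : red p n x = muEmb p n (PadicInt.toZModPow n x) := rfl

theorem toZModPow_natCast_val (n : ℕ) (x : ℤ_[p]) :
    (((PadicInt.toZModPow (n + 1) x).val : ℕ) : ZMod (p ^ n)) = PadicInt.toZModPow n x := by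
  have : NeZero (p ^ (n + 1)) := ⟨pow_ne_zero _ (NeZero.ne p)⟩
  rw [ZMod.natCast_val, PadicInt.cast_toZModPow _ _ (Nat.le_succ n)]

theorem smul_red_succ (n : ℕ) (x : ℤ_[p]) : p • red p (n + 1) x = red p n x := by
  have : NeZero (p ^ (n + 1)) := ⟨pow_ne_zero _ (NeZero.ne p)⟩
  rw [red_apply, red_apply, ← ZMod.natCast_zmod_val (PadicInt.toZModPow (n + 1) x), muEmb_succ,
    toZModPow_natCast_val]

theorem pow_smul_red (n : ℕ) (x : ℤ_[p]) : p ^ n • red p n x = 0 := by
  rw [red_apply, ← map_nsmul, nsmul_eq_mul]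
  have : ((p ^ n : ℕ) : ZMod (p ^ n)) = 0 := ZMod.natCast_self _
  rw [this, zero_mul, map_zero]

theorem red_smul (n : ℕ) (a x : ℤ_[p]) :
    red p n (a • x) = (PadicInt.toZModPow n a).val • red p n x := by
  have : NeZero (p ^ n) := ⟨pow_ne_zero _ (NeZero.ne p)⟩
  rw [red_apply, red_apply, ← map_nsmul, nsmul_eq_mul, ZMod.natCast_zmod_val, smul_eq_mul, map_mul]

theorem padic_ext {x y : ℤ_[p]} (h : ∀ n, red p n x = red p n y) : x = y :=
  PadicInt.ext_of_toZModPow.mp fun n => muEmb_injective p n (h n)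

/-- **The Kummer relation for Tate modules.** -/
def TRel (x : TateMod p (Pic0 K (FX K N))) (φ : Additive (Gamma0 N) →+ ℤ_[p]) : Prop :=
  ∀ n, Rel (p ^ n) (TateMod.proj n x) ((red p n).comp φ)

variable {x y : TateMod p (Pic0 K (FX K N))} {φ ψ : Additive (Gamma0 N) →+ ℤ_[p]}

theorem TRel.add (h : TRel x φ) (h' : TRel y ψ) : TRel (x + y) (φ + ψ) := by
  intro n
  rw [map_add, AddMonoidHom.comp_add]
  exact (h n).add (h' n)

theorem TRel.smul (h : TRel x φ) (a : ℤ_[p]) : TRel (a • x) (a • φ) := by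
  intro n
  have h1 : (red p n).comp (a • φ) = (PadicInt.toZModPow n a).val • (red p n).comp φ := by
    refine AddMonoidHom.ext fun γ => ?_
    rw [AddMonoidHom.comp_apply, AddMonoidHom.smul_apply, red_smul]
    rfl
  rw [h1, TateMod.proj_smul]
  exact (h n).nsmul _

theorem TRel.right_unique (h : TRel x φ) (h' : TRel x ψ) : φ = ψ := by
  refine AddMonoidHom.ext fun γ => padic_ext fun n => ?_
  have h1 := (h n).char_eq (h' n) (pow_ne_zero n (NeZero.ne p))
  exact DFunLike.congr_fun h1 γ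

theorem TRel.left_unique (h : TRel x φ) (h' : TRel y φ) : x = y :=
  TateMod.ext fun n => (h n).inj (h' n) (pow_ne_zero n (NeZero.ne p))

theorem red_eq_zero {z : ℤ_[p]} (h : ∀ n, red p n z = 0) : z = 0 :=
  padic_ext fun n => by rw [h, map_zero]

theorem TRel.isPE (h : TRel x φ) : IsPE φ := by
  intro γ hγ
  refine red_eq_zero fun n => ?_
  exact (h n).isPE (pow_ne_zero n (NeZero.ne p)) γ hγ

theorem exists_tRel (x : TateMod p (Pic0 K (FX K N))) : ∃ φ, TRel x φ := by
  have hn : ∀ n, p ^ n ≠ 0 := fun n => pow_ne_zero n (NeZero.ne p)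
  choose χ hχ using fun n => exists_rel (K := K) (N := N) (hn n) (c := TateMod.proj n x)
    (TateMod.pow_smul_proj x n)
  have htor : ∀ n, p ^ n • χ n = 0 := fun n => (hχ n).char_torsion (hn n)
  choose f hf using fun (n : ℕ) (γ : Additive (Gamma0 N)) => exists_muEmb_eq p n (m := χ n γ) (by
    have := DFunLike.congr_fun (htor n) γ
    exact this)
  have hcomp : ∀ n γ, (ZMod.castHom (pow_dvd_pow p (Nat.le_succ n)) (ZMod (p ^ n)))
      (f (n + 1) γ) = f n γ := by
    intro n γ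
    have h1 : Rel (p ^ n) (TateMod.proj n x) (p • χ (n + 1)) := by
      have h2 := hχ (n + 1)
      rw [pow_succ'] at h2
      have h3 := rel_of_mul h2
      rwa [TateMod.smul_proj_succ] at h3
    have h2 := DFunLike.congr_fun ((hχ n).char_eq h1 (hn n)) γ
    rw [AddMonoidHom.nsmul_apply, ← hf, ← hf] at h2
    have : NeZero (p ^ (n + 1)) := ⟨pow_ne_zero _ (NeZero.ne p)⟩
    rw [← ZMod.natCast_zmod_val (f (n + 1) γ), muEmb_succ] at h2
    have h3 := muEmb_injective p n h2
    rw [h3, ZMod.castHom_apply, ← ZMod.natCast_val]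
  choose g hg using fun γ => exists_padic (p := p) (a := fun n => f n γ) (fun n => hcomp n γ)
  have hred : ∀ n γ, red p n (g γ) = χ n γ := fun n γ => by rw [red_apply, hg, hf]
  refine ⟨AddMonoidHom.mk' g fun a b => padic_ext fun n => ?_, fun n => ?_⟩
  · rw [map_add, hred, hred, hred, map_add]
  · have : (red p n).comp (AddMonoidHom.mk' g fun a b => padic_ext fun n => by
      rw [map_add, hred, hred, hred, map_add]) = χ n := AddMonoidHom.ext fun γ => hred n γ
    rw [this]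
    exact hχ n

theorem exists_tRel_of_isPE (hφ : IsPE φ) : ∃ x : TateMod p (Pic0 K (FX K N)), TRel x φ := by
  have hn : ∀ n, p ^ n ≠ 0 := fun n => pow_ne_zero n (NeZero.ne p)
  choose c hc using fun n => exists_rel_of_isPE (K := K) (N := N) (hn n) ((red p n).comp φ)
    (fun γ hγ => by
      rw [AddMonoidHom.comp_apply, hφ γ hγ, map_zero])
    (AddMonoidHom.ext fun γ => by
      rw [AddMonoidHom.nsmul_apply, AddMonoidHom.comp_apply, pow_smul_red]
      rfl)
  refine ⟨TateMod.mk c ?_ fun n => ?_, hc⟩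
  · have := (hc 0).torsion
    rwa [pow_zero, one_smul] at this
  · have h2 := hc (n + 1)
    rw [pow_succ'] at h2
    have h3 := rel_of_mul h2
    have h4 : p • (red p (n + 1)).comp φ = (red p n).comp φ := AddMonoidHom.ext fun γ => by
      rw [AddMonoidHom.nsmul_apply, AddMonoidHom.comp_apply, smul_red_succ]
      rfl
    rw [h4] at h3
    exact h3.inj (hc n) (hn n)

/-- **Compatibility of the Kummer relation for Tate modules with realised correspondences.** -/
theorem TRel.map {M : ℕ} [NeZero M] {T : Pic0 K (FX K N) →+ Pic0 K (FX K M)}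
    {h : HFam (gm N) (gm M)} (H : Realizes K T h) (hx : TRel x φ) :
    TRel (tateMap T x) (homOp ℤ_[p] h φ) := by
  intro n
  rw [proj_tateMap, ← homOp_map]
  exact H.rel (hx n)

variable (p N) in
/-- Homomorphisms `Γ₀(N) → A` killing parabolic and elliptic elements. -/
def PES (R A : Type*) [Semiring R] [AddCommGroup A] [Module R A] :
    Submodule R (Additive (Gamma0 N) →+ A) where
  carrier := {φ | IsPE φ}
  zero_mem' := fun _ _ => rfl
  add_mem' {φ ψ} hφ hψ := fun γ hγ => by rw [AddMonoidHom.add_apply, hφ γ hγ, hψ γ hγ, add_zero]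
  smul_mem' r φ hφ := fun γ hγ => by rw [AddMonoidHom.smul_apply, hφ γ hγ, smul_zero]

theorem mem_PES {R A : Type*} [Semiring R] [AddCommGroup A] [Module R A]
    {φ : Additive (Gamma0 N) →+ A} : φ ∈ PES N R A ↔ IsPE φ := Iff.rfl

variable (K N p) in
/-- the underlying linear map of `Theta` -/
def thetaLin : TateMod p (Pic0 K (FX K N)) →ₗ[ℤ_[p]] ↥(PES N ℤ_[p] ℤ_[p]) where
  toFun x := (⟨(exists_tRel x).choose, (exists_tRel x).choose_spec.isPE⟩ : ↥(PES N ℤ_[p] ℤ_[p]))
  map_add' x y := Subtype.ext <|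
    (exists_tRel (x + y)).choose_spec.right_unique
      ((exists_tRel x).choose_spec.add (exists_tRel y).choose_spec)
  map_smul' a x := Subtype.ext <|
    (exists_tRel (a • x)).choose_spec.right_unique ((exists_tRel x).choose_spec.smul a)

variable (K N p) in
/-- **`T_p J₀(N) ≃ Hom_PE(Γ₀(N), ℤ_p)`.** -/
def Theta : TateMod p (Pic0 K (FX K N)) ≃ₗ[ℤ_[p]] ↥(PES N ℤ_[p] ℤ_[p]) :=
  LinearEquiv.ofBijective (thetaLin K N p)
    ⟨fun x y h => by
      have h1 : (exists_tRel x).choose = (exists_tRel y).choose := congrArg Subtype.val h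
      have h2 := (exists_tRel x).choose_spec
      rw [h1] at h2
      exact h2.left_unique (exists_tRel y).choose_spec,
    fun φ => by
      obtain ⟨x, hx⟩ := exists_tRel_of_isPE (K := K) (N := N) (p := p) (φ := φ.1) φ.2
      exact ⟨x, Subtype.ext ((exists_tRel x).choose_spec.right_unique hx)⟩⟩

theorem tRel_theta (x : TateMod p (Pic0 K (FX K N))) : TRel x (Theta K N p x).1 :=
  (exists_tRel x).choose_spec

theorem theta_eq (h : TRel x φ) : (Theta K N p x).1 = φ := (tRel_theta x).right_unique h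

theorem theta_symm (φ : PES N ℤ_[p] ℤ_[p]) : TRel ((Theta K N p).symm φ) φ.1 := by
  have h := tRel_theta (K := K) ((Theta K N p).symm φ)
  rwa [LinearEquiv.apply_symm_apply] at h

/-- **`Theta` is compatible with all realised correspondences.** -/
theorem theta_tateMap {M : ℕ} [NeZero M] {T : Pic0 K (FX K N) →+ Pic0 K (FX K M)}
    {h : HFam (gm N) (gm M)} (H : Realizes K T h) (x : TateMod p (Pic0 K (FX K N))) :
    (Theta K M p (tateMap T x)).1 = homOp ℤ_[p] h (Theta K N p x).1 :=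
  theta_eq ((tRel_theta x).map H)

end padic

end Fermat.Agent.H94.BR
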