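import Mathlib
import Fermat.Agent.H4Lattice
import Fermat.Agent.H94BRTate
import Fermat.Agent.H41Charpoly

/-!
# Structure of `Hom_PE(Γ₀(N), R)` for torsion free `R` (helper41, MZ-J9)
-/

set_option autoImplicit false

noncomputable section

namespace Fermat.Agent.H41

open Matrix.SpecialLinearGroup CongruenceSubgroup
open scoped MatrixGroups
open Fermat.Agent.H4 Fermat.Agent.H94.BR

section Dual

variable (N : ℕ) [NeZero N]

/-- A dual system for homomorphisms to torsion free groups killing parabolic and elliptic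
elements. -/
theorem exists_dual_system : ∃ (n : ℕ) (γ : Fin n → Additive (Gamma0 N))
    (φ : Fin n → (Additive (Gamma0 N) →+ ℤ)), (∀ i, IsPE (φ i)) ∧
    (∀ i j, φ i (γ j) = if i = j then 1 else 0) ∧
    ∀ (A : Type) [AddCommGroup A] [IsAddTorsionFree A] (f : Additive (Gamma0 N) →+ A), IsPE f →
      ∀ x, f x = ∑ i, φ i x • f (γ i) := by
  -- the abelianization
  let M := Additive (Abelianization (Gamma0 N))
  have hfg : AddGroup.FG M := by
    have h1 : Group.FG (Abelianization (Gamma0 N)) :=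
      Group.fg_of_surjective (f := (Abelianization.of : Gamma0 N →* _))
        (QuotientGroup.mk_surjective)
    exact GroupFG.iff_add_fg.1 h1
  have hM : Module.Finite ℤ M := Module.Finite.iff_addGroup_fg.2 hfg
  let ab : Additive (Gamma0 N) →+ M := MonoidHom.toAdditive Abelianization.of
  let W : Submodule ℤ M := Submodule.span ℤ {x | ∃ γ : Gamma0 N,
    ((γ : SL(2, ℤ)) : Matrix (Fin 2) (Fin 2) ℤ).trace ^ 2 ≤ 4 ∧ x = ab (Additive.ofMul γ)}
  let Q := M ⧸ W
  let T : Submodule ℤ Q := Submodule.torsion ℤ Q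
  let F := Q ⧸ T
  let toF : Additive (Gamma0 N) →+ F :=
    (T.mkQ.toAddMonoidHom.comp W.mkQ.toAddMonoidHom).comp ab
  have hab : Function.Surjective ab := fun x => by
    obtain ⟨y, hy⟩ := QuotientGroup.mk_surjective (Additive.toMul x : Abelianization (Gamma0 N))
    exact ⟨Additive.ofMul y, hy⟩
  have htoF : Function.Surjective toF :=
    (T.mkQ_surjective.comp W.mkQ_surjective).comp hab
  have hPE : IsPE toF := by
    intro γ hγ
    have h1 : W.mkQ (ab (Additive.ofMul γ)) = 0 := by
      rw [Submodule.mkQ_apply, Submodule.Quotient.mk_eq_zero]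
      exact Submodule.subset_span ⟨γ, hγ, rfl⟩
    show T.mkQ (W.mkQ (ab (Additive.ofMul γ))) = 0
    rw [h1, map_zero]
  -- universal property
  have huniv : ∀ (A : Type) [AddCommGroup A] [IsAddTorsionFree A]
      (f : Additive (Gamma0 N) →+ A), IsPE f → ∃ g : F →+ A, ∀ x, f x = g (toF x) := by
    intro A _ _ f hf
    let f1 : M →+ A :=
      MonoidHom.toAdditiveLeft (Abelianization.lift (AddMonoidHom.toMultiplicativeRight f))
    have hf1 : ∀ x, f1 (ab x) = f x := fun x => rfl
    let f1' : M →ₗ[ℤ] A := f1.toIntLinearMap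
    have hW : W ≤ LinearMap.ker f1' := by
      refine Submodule.span_le.mpr ?_
      rintro _ ⟨γ, hγ, rfl⟩
      exact (hf1 _).trans (hf γ hγ)
    let f2 : Q →ₗ[ℤ] A := W.liftQ f1' hW
    have hT : T ≤ LinearMap.ker f2 := by
      intro x hx
      obtain ⟨⟨a, ha⟩, hax⟩ := hx
      have ha0 : a ≠ 0 := nonZeroDivisors.ne_zero ha
      have h1 : a • f2 x = 0 := by
        rw [← map_smul]
        have : a • x = 0 := hax
        rw [this, map_zero]
      rw [LinearMap.mem_ker]
      have hAtf : Module.IsTorsionFree ℤ A := inferInstance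
      exact (smul_eq_zero.mp h1).resolve_left ha0
    refine ⟨(T.liftQ f2 hT).toAddMonoidHom, fun x => ?_⟩
    rfl
  have hFtf : Module.IsTorsionFree ℤ F := inferInstance
  have hFfree : Module.Free ℤ F := inferInstance
  let b := Module.finBasis ℤ F
  choose γ hγ using fun i => htoF (b i)
  refine ⟨Module.finrank ℤ F, γ, fun i => (b.coord i).toAddMonoidHom.comp toF, ?_, ?_, ?_⟩
  · intro i g hg
    show b.coord i (toF (Additive.ofMul g)) = 0
    rw [hPE g hg, map_zero]
  · intro i j
    show b.coord i (toF (γ j)) = _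
    rw [hγ, Module.Basis.coord_apply, Module.Basis.repr_self, Finsupp.single_apply]
    simp only [eq_comm]
  · intro A _ _ f hf x
    obtain ⟨g, hg⟩ := huniv A f hf
    rw [hg, ← b.sum_repr (toF x), map_sum]
    refine Finset.sum_congr rfl fun i _ => ?_
    rw [map_zsmul, hg (γ i), hγ]
    rfl

end Dual

/-- A dual system, as a structure. -/
structure DualSys (N : ℕ) [NeZero N] where
  n : ℕ
  γ : Fin n → Additive (Gamma0 N)
  φ : Fin n → (Additive (Gamma0 N) →+ ℤ)
  pe : ∀ i, IsPE (φ i)
  dual : ∀ i j, φ i (γ j) = if i = j then 1 else 0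
  univ : ∀ (A : Type) [AddCommGroup A] [IsAddTorsionFree A] (f : Additive (Gamma0 N) →+ A),
    IsPE f → ∀ x, f x = ∑ i, φ i x • f (γ i)

theorem nonempty_dualSys (N : ℕ) [NeZero N] : Nonempty (DualSys N) := by
  obtain ⟨n, γ, φ, h1, h2, h3⟩ := exists_dual_system N
  exact ⟨⟨n, γ, φ, h1, h2, h3⟩⟩

section Basis

variable {N : ℕ} [NeZero N]

/-- cast of integral homomorphisms -/
def castP (N : ℕ) (R : Type) [CommRing R] : PES N ℤ ℤ →+ PES N R R where
  toFun f := ⟨(Int.castAddHom R).comp f.1, fun γ hγ => by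
    rw [AddMonoidHom.comp_apply, f.2 γ hγ, map_zero]⟩
  map_zero' := Subtype.ext (AddMonoidHom.ext fun _ => Int.cast_zero)
  map_add' f g := Subtype.ext (AddMonoidHom.ext fun _ => Int.cast_add _ _)

lemma castP_apply (R : Type) [CommRing R] (f : PES N ℤ ℤ) (x : Additive (Gamma0 N)) :
    (castP N R f).1 x = ((f.1 x : ℤ) : R) := rfl

/-- coordinates on `Hom_PE(Γ₀(N), R)` -/
def pesEquiv (D : DualSys N) (R : Type) [CommRing R] [IsAddTorsionFree R] :
    PES N R R ≃ₗ[R] (Fin D.n → R) where
  toFun f i := f.1 (D.γ i)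
  map_add' _ _ := rfl
  map_smul' _ _ := rfl
  invFun x := ∑ i, x i • castP N R ⟨D.φ i, D.pe i⟩
  left_inv f := by
    apply Subtype.ext
    refine AddMonoidHom.ext fun x => ?_
    rw [D.univ R f.1 f.2 x, AddSubmonoidClass.coe_finsetSum, AddMonoidHom.finsetSum_apply]
    refine Finset.sum_congr rfl fun i _ => ?_
    show f.1 (D.γ i) • (((D.φ i x : ℤ)) : R) = D.φ i x • f.1 (D.γ i)
    rw [zsmul_eq_mul, smul_eq_mul, mul_comm]
  right_inv x := by
    funext j
    show (∑ i, x i • castP N R ⟨D.φ i, D.pe i⟩ : PES N R R).1 (D.γ j) = x j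
    rw [AddSubmonoidClass.coe_finsetSum, AddMonoidHom.finsetSum_apply,
      Finset.sum_eq_single j]
    · show x j • (((D.φ j (D.γ j) : ℤ)) : R) = x j
      rw [D.dual, if_pos rfl, Int.cast_one, smul_eq_mul, mul_one]
    · intro i _ hij
      show x i • (((D.φ i (D.γ j) : ℤ)) : R) = 0
      rw [D.dual, if_neg hij, Int.cast_zero, smul_zero]
    · intro h
      exact absurd (Finset.mem_univ j) h

/-- the basis of `Hom_PE(Γ₀(N), R)` -/
def pesBasis (D : DualSys N) (R : Type) [CommRing R] [IsAddTorsionFree R] :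
    Module.Basis (Fin D.n) R (PES N R R) := Module.Basis.ofEquivFun (pesEquiv D R)

lemma castP_pesBasis (D : DualSys N) (R : Type) [CommRing R] [IsAddTorsionFree R] (i : Fin D.n) :
    castP N R (pesBasis D ℤ i) = pesBasis D R i := by
  apply (pesEquiv D R).injective
  funext j
  have h1 : ∀ (R' : Type) [CommRing R'] [IsAddTorsionFree R'],
      (pesBasis D R' i).1 (D.γ j) = Pi.single (M := fun _ => R') i (1 : R') j := by
    intro R' _ _
    have h2 : pesEquiv D R' (pesBasis D R' i) = Pi.single i 1 := by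
      rw [pesBasis, Module.Basis.coe_ofEquivFun, LinearEquiv.apply_symm_apply]
    exact congrFun h2 j
  show (castP N R (pesBasis D ℤ i)).1 (D.γ j) = (pesBasis D R i).1 (D.γ j)
  rw [castP_apply, h1, h1]
  by_cases h : i = j
  · subst h; simp
  · rw [Pi.single_eq_of_ne (Ne.symm h), Pi.single_eq_of_ne (Ne.symm h), Int.cast_zero]

/-- the Hecke operator on `Hom_PE` -/
def hP (R : Type) [CommRing R] {ℓ : ℕ} [Fact ℓ.Prime] (hℓN : ¬ ℓ ∣ N) :
    PES N R R →ₗ[R] PES N R R where
  toFun f := ⟨heckeHom hℓN f.1, f.2.heckeHom hℓN⟩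
  map_add' f g := Subtype.ext (map_add _ _ _)
  map_smul' r f := by
    apply Subtype.ext
    refine AddMonoidHom.ext fun γ => ?_
    show heckeHom hℓN (r • f.1) γ = r • heckeHom hℓN f.1 γ
    rw [heckeHom_apply, heckeHom_apply, Finset.smul_sum]
    rfl

lemma coe_hP (R : Type) [CommRing R] {ℓ : ℕ} [Fact ℓ.Prime] (hℓN : ¬ ℓ ∣ N) (f : PES N R R) :
    (hP R hℓN f).1 = heckeHom hℓN f.1 := rfl

lemma castP_hP (R : Type) [CommRing R] {ℓ : ℕ} [Fact ℓ.Prime] (hℓN : ¬ ℓ ∣ N) (f : PES N ℤ ℤ) :
    castP N R (hP ℤ hℓN f) = hP R hℓN (castP N R f) := by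
  apply Subtype.ext
  exact (heckeHom_comp hℓN f.1 (Int.castAddHom R)).symm

lemma castP_injective (R : Type) [CommRing R] [CharZero R] :
    Function.Injective (castP N R) := by
  intro f g h
  apply Subtype.ext
  refine AddMonoidHom.ext fun x => ?_
  have h1 : (castP N R f).1 x = (castP N R g).1 x := by rw [h]
  rw [castP_apply, castP_apply] at h1
  exact Int.cast_injective h1

/-- Characteristic polynomials over `R` come from `ℤ`. -/
theorem charpoly_pes (R : Type) [CommRing R] [IsAddTorsionFree R] (D : DualSys N)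
    (f : Module.End ℤ (PES N ℤ ℤ)) (g : Module.End R (PES N R R))
    (h : ∀ x, castP N R (f x) = g (castP N R x)) :
    haveI := Module.Finite.of_basis (pesBasis D R)
    haveI := Module.Free.of_basis (pesBasis D R)
    haveI := Module.Finite.of_basis (pesBasis D ℤ)
    haveI := Module.Free.of_basis (pesBasis D ℤ)
    g.charpoly = f.charpoly.map (Int.castRingHom R) := by
  haveI := Module.Finite.of_basis (pesBasis D R)
  haveI := Module.Free.of_basis (pesBasis D R)
  haveI := Module.Finite.of_basis (pesBasis D ℤ)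
  haveI := Module.Free.of_basis (pesBasis D ℤ)
  refine charpoly_of_semilinear (Int.castRingHom R) (pesBasis D ℤ) (pesBasis D R) (castP N R) ?_
    (castP_pesBasis D R) f g h
  intro r m
  rw [map_zsmul]
  exact (Int.cast_smul_eq_zsmul R r _).symm

end Basis

end Fermat.Agent.H41
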