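import Mathlib
import Fermat.Agent.H41PES
import Fermat.Agent.H41Conv
import Fermat.Agent.H41Final
import Fermat.Agent.H77BridgeS21
import Fermat.Agent.H4Periods

/-!
# `Hom_PE(Γ₀(N), ℂ) ≃ S₂ × S₂` (helper41, MZ-J9)
-/

set_option autoImplicit false

noncomputable section

namespace Fermat.Agent.H41

open Matrix.SpecialLinearGroup CongruenceSubgroup
open scoped MatrixGroups
open Fermat.Agent.H4 hiding perHom
open Fermat.Agent.H94.BR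
open Fermat.Agent.H77.BR (perHom perHom_mem perHom_surj exists_bridge)

variable {N : ℕ} [NeZero N]

lemma isPE_of_parabolic {A : Type*} [AddCommGroup A] [IsAddTorsionFree A]
    {φ : Additive (Gamma0 N) →+ A}
    (h : ∀ γ : Gamma0 N, ((γ : SL(2, ℤ)) : Matrix (Fin 2) (Fin 2) ℤ).trace ^ 2 = 4 →
      φ (Additive.ofMul γ) = 0) : IsPE φ := by
  intro γ hγ
  rcases hγ.lt_or_eq with h1 | h1
  · have h2 : (γ : SL(2, ℤ)) ^ 12 = 1 := pow_twelve_eq_one _ h1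
    have h3 : γ ^ 12 = 1 := Subtype.ext (by push_cast; exact h2)
    have h4 : 12 • φ (Additive.ofMul γ) = 0 := by
      rw [← map_nsmul, ← ofMul_pow, h3, ofMul_one, map_zero]
    exact (nsmul_eq_zero_iff_right (by norm_num)).mp h4
  · exact h γ h1

lemma isPE_perHom' (m : inv ℂ (OnePoint ℚ) ℂ (G0 N)) : IsPE (perHom N m) :=
  isPE_of_parabolic fun γ hγ => perHom_mem m γ hγ

/-- the period map of invariant symbols -/
def perL (N : ℕ) [NeZero N] : inv ℂ (OnePoint ℚ) ℂ (G0 N) →ₗ[ℂ] PES N ℂ ℂ :=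
  (perHom N).codRestrict _ isPE_perHom'

lemma coe_perL (m : inv ℂ (OnePoint ℚ) ℂ (G0 N)) : (perL N m).1 = perA OnePoint.infty m := rfl

lemma perL_surjective : Function.Surjective (perL N) := by
  intro φ
  obtain ⟨m, hm⟩ := perHom_surj (N := N) (φ := φ.1) (fun γ hγ => φ.2 γ (le_of_eq hγ))
  exact ⟨m, Subtype.ext hm⟩

lemma perL_eq_zero_iff (m : inv ℂ (OnePoint ℚ) ℂ (G0 N)) :
    perL N m = 0 ↔ ∀ γ ∈ G0 N, ∀ x, m.1.1 (γ • x) x = 0 := by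
  constructor
  · rintro h _ ⟨γ, hγ, rfl⟩ x
    have h1 : (perL N m).1 (Additive.ofMul ⟨γ, hγ⟩) = 0 := by rw [h]; rfl
    rw [coe_perL, perA_apply' _ x] at h1
    exact h1
  · intro h
    apply Subtype.ext
    refine AddMonoidHom.ext fun γ => ?_
    exact h _ (Subgroup.mem_map_of_mem _ (Additive.toMul γ).2) _

lemma perL_tOp {ℓ : ℕ} [hℓ : Fact ℓ.Prime] (hℓN : ¬ ℓ ∣ N) (m : inv ℂ (OnePoint ℚ) ℂ (G0 N)) :
    perL N (tOp ℂ ℂ N ℓ hℓ.out hℓN m) = hP ℂ hℓN (perL N m) := by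
  apply Subtype.ext
  rw [coe_hP, coe_perL, coe_perL]
  exact perA_hT hℓN _ m _ rfl

theorem exists_equiv_of_ker_eq {K M V W : Type*} [CommRing K] [AddCommGroup M] [Module K M]
    [AddCommGroup V] [Module K V] [AddCommGroup W] [Module K W] (f : M →ₗ[K] V) (g : M →ₗ[K] W)
    (hf : Function.Surjective f) (hg : Function.Surjective g) (h : ∀ m, f m = 0 ↔ g m = 0) :
    ∃ E : V ≃ₗ[K] W, ∀ m, E (f m) = g m := by
  have hker : LinearMap.ker f = LinearMap.ker g := by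
    ext m
    rw [LinearMap.mem_ker, LinearMap.mem_ker, h]
  refine ⟨(f.quotKerEquivOfSurjective hf).symm ≪≫ₗ (Submodule.quotEquivOfEq _ _ hker) ≪≫ₗ
    (g.quotKerEquivOfSurjective hg), fun m => ?_⟩
  have h1 : (f.quotKerEquivOfSurjective hf).symm (f m) = Submodule.Quotient.mk m := by
    rw [LinearEquiv.symm_apply_eq]
    rfl
  rw [LinearEquiv.trans_apply, LinearEquiv.trans_apply, h1]
  rfl

variable (N) in
/-- **`Hom_PE(Γ₀(N), ℂ) ≃ S₂ × S₂`, Hecke equivariantly.** -/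
theorem exists_Xi : ∃ Ξ : PES N ℂ ℂ ≃ₗ[ℂ] (CuspForm (Gamma0 N) 2 × CuspForm (Gamma0 N) 2),
    ∀ (ℓ : ℕ) [hℓ : Fact ℓ.Prime] (hℓN : ¬ ℓ ∣ N) (f : PES N ℂ ℂ),
      Ξ (hP ℂ hℓN f) = (CuspForm.heckeTLin 2 hℓ.out hℓN (Ξ f).1,
        CuspForm.heckeTLin 2 hℓ.out hℓN (Ξ f).2) := by
  obtain ⟨Φ, hΦs, hΦ0, hΦT, -⟩ := exists_bridge N
  obtain ⟨Ξ, hΞ⟩ := exists_equiv_of_ker_eq (perL N) Φ perL_surjective hΦs
    (fun m => (perL_eq_zero_iff m).trans (hΦ0 m).symm)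
  refine ⟨Ξ, fun ℓ hℓ hℓN f => ?_⟩
  obtain ⟨m, rfl⟩ := perL_surjective f
  rw [← perL_tOp, hΞ, hΞ]
  exact hΦT ℓ hℓ.out hℓN m _ rfl

/-- the Hecke operators on `Hom_PE(Γ₀(N), ℂ)` commute -/
lemma hP_comm_C {ℓ ℓ' : ℕ} [hℓ : Fact ℓ.Prime] [hℓ' : Fact ℓ'.Prime] (hℓN : ¬ ℓ ∣ N)
    (hℓN' : ¬ ℓ' ∣ N) (f : PES N ℂ ℂ) : hP ℂ hℓN (hP ℂ hℓN' f) = hP ℂ hℓN' (hP ℂ hℓN f) := by
  obtain ⟨Ξ, hΞ⟩ := exists_Xi N
  apply Ξ.injective
  have hc : ∀ g : CuspForm (Gamma0 N) 2, CuspForm.heckeTLin 2 hℓ.out hℓN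
      (CuspForm.heckeTLin 2 hℓ'.out hℓN' g) = CuspForm.heckeTLin 2 hℓ'.out hℓN'
      (CuspForm.heckeTLin 2 hℓ.out hℓN g) := by
    intro g
    have h1 := congrArg Subtype.val (mul_comm (CuspForm.heckeAlgebra.T (N := N) (k := 2) (S := ∅)
      hℓ.out hℓN (Set.notMem_empty _)) (CuspForm.heckeAlgebra.T hℓ'.out hℓN' (Set.notMem_empty _)))
    exact congrArg (fun f : Module.End ℂ (CuspForm (Gamma0 N) 2) => f g) h1
  rw [hΞ, hΞ, hΞ, hΞ]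
  exact Prod.ext (hc _) (hc _)

/-- the Hecke operators on `Hom_PE(Γ₀(N), ℤ)` commute -/
lemma hP_comm_Z {ℓ ℓ' : ℕ} [hℓ : Fact ℓ.Prime] [hℓ' : Fact ℓ'.Prime] (hℓN : ¬ ℓ ∣ N)
    (hℓN' : ¬ ℓ' ∣ N) (f : PES N ℤ ℤ) : hP ℤ hℓN (hP ℤ hℓN' f) = hP ℤ hℓN' (hP ℤ hℓN f) := by
  apply castP_injective ℂ
  rw [castP_hP, castP_hP, castP_hP, castP_hP, hP_comm_C]

end Fermat.Agent.H41
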