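import Mathlib
import Fermat.Agent.H41CardJ
import Fermat.Agent.H41PESC
import Fermat.Agent.H41Fit
import Fermat.Agent.H41IntQ
import Fermat.Agent.H59Loc
import Fermat.Agent.H94BRJ
import Fermat.Agent.H17DivMod

/-!
# Comparison of characteristic polynomials (helper41, MZ-J9)
-/

set_option autoImplicit false

noncomputable section

namespace Fermat.Agent.H41

open Matrix.SpecialLinearGroup CongruenceSubgroup ModularCurve AlgebraicCurve
open scoped MatrixGroups
open Fermat.Agent.H30 Fermat.Agent.H31 Fermat.Agent.H94.BR Fermat.Agent.H90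
open Fermat.Agent.H24 Fermat.Agent.H61 Fermat.Agent.H35

attribute [local instance] heckeModuleBar

variable {N : ℕ} [NeZero N]

/-! ### `T_r J₀(N) ≃ Hom_PE(Γ₀(N), ℤ_r)` -/

section Tate

variable {r : ℕ} [hr : Fact r.Prime]

variable (N r) in
/-- `T_r J₀(N) ≃ Hom_PE(Γ₀(N), ℤ_r)` -/
def thetaZ : TateMod r (JZero N) ≃ₗ[ℤ_[r]] ↥(PES N ℤ_[r] ℤ_[r]) :=
  letI := algQbarC
  Theta (AlgebraicClosure ℚ) N r

lemma thetaZ_hecke {ℓ : ℕ} [hℓ : Fact ℓ.Prime] (hℓN : ¬ ℓ ∣ N) (x : TateMod r (JZero N)) :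
    thetaZ N r (tateMap (heckeOperatorBar N ⟨ℓ, hℓ.out⟩).toAddMonoidHom x) =
      hP ℤ_[r] hℓN (thetaZ N r x) := by
  apply Subtype.ext
  rw [coe_hP, ← homOp_tF]
  letI := algQbarC
  exact theta_tateMap (realJ_hecke hℓ.out hℓN) x

instance factGood (a : GoodPrimes N ∅) : Fact (a.1 : ℕ).Prime := ⟨a.1.2⟩

/-- the action of the Hecke polynomial ring on integral classes -/
def actZ (N : ℕ) [NeZero N] : MvPolynomial (GoodPrimes N ∅) ℤ →+* Module.End ℤ (PES N ℤ ℤ) :=
  (H59.act (fun a : GoodPrimes N ∅ => hP ℤ a.2.1)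
    (fun i j => LinearMap.ext fun x => hP_comm_Z i.2.1 j.2.1 x)).toRingHom

lemma actZ_X (a : GoodPrimes N ∅) : actZ N (MvPolynomial.X a) = hP ℤ a.2.1 :=
  H59.act_X _ _ a

/-- `Hom_PE(Γ₀(N), ℤ) → T_r J₀(N)` -/
def pesTate (N r : ℕ) [NeZero N] [Fact r.Prime] : PES N ℤ ℤ →+ TateMod r (JZero N) :=
  ((thetaZ N r).symm.toLinearMap.toAddMonoidHom).comp (castP N ℤ_[r])

lemma pesTate_apply (x : PES N ℤ ℤ) :
    pesTate N r x = (thetaZ N r).symm (castP N ℤ_[r] x) := rfl

lemma pesTate_act (P : MvPolynomial (GoodPrimes N ∅) ℤ) (x : PES N ℤ ℤ) :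
    pesTate N r (actZ N P x) = actTate r (JZero N) N ∅ P (pesTate N r x) := by
  refine nat_act (actZ N) (actTate r (JZero N) N ∅) (pesTate N r) (fun a x => ?_) P x
  rw [actZ_X, actTate_X, pesTate_apply, castP_hP]
  apply (thetaZ N r).injective
  rw [LinearEquiv.apply_symm_apply]
  refine Eq.trans ?_ (thetaZ_hecke (r := r) a.2.1 (pesTate N r x)).symm
  rw [pesTate_apply, LinearEquiv.apply_symm_apply]

lemma jdiv (x : JZero N) : ∃ y, r • y = x := H17.jzero_divisible N hr.out.ne_zero x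

/-- the basis of `J₀(N)[r]` -/
def torB (D : DualSys N) : Module.Basis (Fin D.n) (ZMod r) (Tor r (JZero N)) :=
  torBasis (fun x => jdiv x) ((pesBasis D ℤ_[r]).map (thetaZ N r).symm)

instance : Finite (Tor r (JZero N)) := finite_Tor (finite_jzero N hr.out.ne_zero)

/-- **charpoly on `J₀(N)[r]`** -/
theorem charpoly_actTor (D : DualSys N) (P : MvPolynomial (GoodPrimes N ∅) ℤ) :
    haveI := Module.Finite.of_basis (pesBasis D ℤ)
    haveI := Module.Free.of_basis (pesBasis D ℤ)
    (actTor r (JZero N) N P).charpoly = (actZ N P).charpoly.map (Int.castRingHom (ZMod r)) := by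
  haveI := Module.Finite.of_basis (pesBasis D ℤ)
  haveI := Module.Free.of_basis (pesBasis D ℤ)
  refine charpoly_of_semilinear (Int.castRingHom (ZMod r)) (pesBasis D ℤ) (torB D)
    ((prT : TateMod r (JZero N) →+ Tor r (JZero N)).comp (pesTate N r)) ?_ ?_ _ _ ?_
  · intro m x
    rw [map_zsmul]
    exact (Int.cast_smul_eq_zsmul (ZMod r) m _).symm
  · intro i
    rw [torB, torBasis_apply, AddMonoidHom.comp_apply, pesTate_apply, castP_pesBasis,
      Module.Basis.map_apply]
  · intro x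
    rw [AddMonoidHom.comp_apply, AddMonoidHom.comp_apply, pesTate_act, prT_actTate]

end Tate

/-! ### over the complex numbers -/

section Cplx

/-- action on cusp forms -/
def actS (N : ℕ) [NeZero N] : MvPolynomial (GoodPrimes N ∅) ℤ →+*
    Module.End ℂ (CuspForm (Gamma0 N) 2) :=
  (CuspForm.heckeAlgebra N 2 ∅).toSubring.subtype.comp (evHecke N ∅)

lemma actS_X (a : GoodPrimes N ∅) :
    actS N (MvPolynomial.X a) = CuspForm.heckeTLin 2 a.1.2 a.2.1 := by
  show ((evHecke N ∅ (MvPolynomial.X a) : CuspForm.heckeAlgebra N 2 ∅) :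
    Module.End ℂ (CuspForm (Gamma0 N) 2)) = _
  rw [evHecke_X]
  rfl

/-- action on integral forms -/
def actL (N : ℕ) [NeZero N] : MvPolynomial (GoodPrimes N ∅) ℤ →+*
    Module.End ℤ (CuspForm.intLattice N 2) :=
  (CuspForm.latticeActionHom N ∅).comp (evHecke N ∅)

lemma coe_actL (P : MvPolynomial (GoodPrimes N ∅) ℤ) (f : CuspForm.intLattice N 2) :
    ((actL N P f : CuspForm.intLattice N 2) : CuspForm (Gamma0 N) 2) = actS N P f := rfl

theorem charpoly_actS (P : MvPolynomial (GoodPrimes N ∅) ℤ) :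
    haveI := CuspForm.intLattice.moduleFree N
    haveI := CuspForm.intLattice.moduleFinite N
    haveI := Module.Finite.of_basis (bC N)
    (actS N P).charpoly = (actL N P).charpoly.map (Int.castRingHom ℂ) := by
  haveI := CuspForm.intLattice.moduleFree N
  haveI := CuspForm.intLattice.moduleFinite N
  haveI := Module.Finite.of_basis (bC N)
  refine charpoly_of_semilinear (Int.castRingHom ℂ) (bL N) (bC N)
    (CuspForm.intLattice N 2).subtype.toAddMonoidHom ?_ ?_ _ _ ?_
  · intro m x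
    exact (Int.cast_smul_eq_zsmul ℂ m (x : CuspForm (Gamma0 N) 2)).symm
  · intro i
    exact (bC_apply i).symm
  · intro x
    exact coe_actL P x

theorem charpoly_actZ_C (D : DualSys N) (P : MvPolynomial (GoodPrimes N ∅) ℤ) :
    haveI := Module.Finite.of_basis (pesBasis D ℤ)
    haveI := Module.Free.of_basis (pesBasis D ℤ)
    haveI := Module.Finite.of_basis (bC N)
    (actZ N P).charpoly.map (Int.castRingHom ℂ) = (actS N P).charpoly ^ 2 := by
  haveI := Module.Finite.of_basis (pesBasis D ℤ)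
  haveI := Module.Free.of_basis (pesBasis D ℤ)
  haveI := Module.Finite.of_basis (bC N)
  obtain ⟨Ξ, hΞ⟩ := exists_Xi N
  let A₂ : MvPolynomial (GoodPrimes N ∅) ℤ →+*
      Module.End ℂ (CuspForm (Gamma0 N) 2 × CuspForm (Gamma0 N) 2) :=
    (LinearMap.prodMapRingHom ℂ _ _).comp ((actS N).prod (actS N))
  have hA₂ : ∀ P, A₂ P = (actS N P).prodMap (actS N P) := fun P => rfl
  have h1 : (A₂ P).charpoly = (actZ N P).charpoly.map (Int.castRingHom ℂ) := by
    refine charpoly_of_semilinear (Int.castRingHom ℂ) (pesBasis D ℤ) ((pesBasis D ℂ).map Ξ)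
      (Ξ.toLinearMap.toAddMonoidHom.comp (castP N ℂ)) ?_ ?_ _ _ ?_
    · intro m x
      rw [map_zsmul]
      exact (Int.cast_smul_eq_zsmul ℂ m _).symm
    · intro i
      rw [Module.Basis.map_apply, ← castP_pesBasis D ℂ]
      rfl
    · intro x
      refine nat_act (actZ N) A₂ (Ξ.toLinearMap.toAddMonoidHom.comp (castP N ℂ)) (fun a x => ?_) P x
      rw [hA₂, actS_X, actZ_X]
      show Ξ (castP N ℂ (hP ℤ a.2.1 x)) = _
      rw [castP_hP, hΞ]
      rfl
  rw [← h1, hA₂, LinearMap.charpoly_prodMap, sq]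

/-- **The characteristic polynomial on `Hom_PE(Γ₀(N), ℤ)` is the square of the one on the integral
lattice of cusp forms.** -/
theorem charpoly_actZ (D : DualSys N) (P : MvPolynomial (GoodPrimes N ∅) ℤ) :
    haveI := Module.Finite.of_basis (pesBasis D ℤ)
    haveI := Module.Free.of_basis (pesBasis D ℤ)
    haveI := CuspForm.intLattice.moduleFree N
    haveI := CuspForm.intLattice.moduleFinite N
    (actZ N P).charpoly = (actL N P).charpoly ^ 2 := by
  haveI := Module.Finite.of_basis (pesBasis D ℤ)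
  haveI := Module.Free.of_basis (pesBasis D ℤ)
  haveI := CuspForm.intLattice.moduleFree N
  haveI := CuspForm.intLattice.moduleFinite N
  haveI := Module.Finite.of_basis (bC N)
  apply Polynomial.map_injective (Int.castRingHom ℂ) Int.cast_injective
  rw [charpoly_actZ_C D, charpoly_actS, Polynomial.map_pow]

end Cplx

/-! ### mod `r` forms -/

section ModR

variable (k : Type) [Field k]

lemma qz_hecke (a : GoodPrimes N ∅) (f : CuspForm.intLattice N 2) (n : ℕ) :
    PowerSeries.coeff n (qz N (actL N (MvPolynomial.X a) f)) =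
      PowerSeries.coeff ((a.1 : ℕ) * n) (qz N f) +
        if (a.1 : ℕ) ∣ n then ((a.1 : ℕ) : ℤ) * PowerSeries.coeff (n / (a.1 : ℕ)) (qz N f) else 0 := by
  have h : ((PowerSeries.coeff n (qz N (actL N (MvPolynomial.X a) f)) : ℤ) : ℂ) =
      ((PowerSeries.coeff ((a.1 : ℕ) * n) (qz N f) +
        if (a.1 : ℕ) ∣ n then ((a.1 : ℕ) : ℤ) * PowerSeries.coeff (n / (a.1 : ℕ)) (qz N f) else 0 :
          ℤ) : ℂ) := by
    rw [qz_spec, coe_actL, actS_X, CuspForm.coe_heckeTLin_apply,
      ModularFormClass.qCoeff_heckeT _ (H71.hΓ N) a.1.2.ne_zero, ModularForm.coeffHeckeT_apply]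
    split_ifs with h
    · push_cast
      rw [qz_spec, qz_spec]
      norm_num
      rw [mul_comm n]
    · push_cast
      rw [qz_spec]
      norm_num
      rw [mul_comm n]
  exact_mod_cast h

lemma qk_hecke (a : GoodPrimes N ∅) (f : CuspForm.intLattice N 2) :
    (qk N k (actL N (MvPolynomial.X a) f)).1 = H15.Tq k (a.1 : ℕ) (qk N k f).1 := by
  ext n
  rw [coe_qk, coe_qk, PowerSeries.coeff_map, qz_hecke]
  show _ = PowerSeries.coeff n (PowerSeries.mk fun n =>
    PowerSeries.coeff ((a.1 : ℕ) * n) _ + if (a.1 : ℕ) ∣ n then ((a.1 : ℕ) : k) *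
      PowerSeries.coeff (n / (a.1 : ℕ)) _ else 0)
  rw [PowerSeries.coeff_mk, PowerSeries.coeff_map, PowerSeries.coeff_map, map_add]
  split_ifs
  · rw [map_mul]
    simp
  · rw [map_zero]

lemma Tq_mem (a : GoodPrimes N ∅) {f : PowerSeries k} (hf : f ∈ H15.S2 N k) :
    H15.Tq k (a.1 : ℕ) f ∈ H15.S2 N k := by
  have key : ∀ x : H15.S2 N k, H15.Tq k (a.1 : ℕ) x.1 ∈ H15.S2 N k := by
    intro x
    have hx : x ∈ Submodule.span k (Set.range fun i => qk N k (bL N i)) := span_qk k trivial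
    induction hx using Submodule.span_induction with
    | mem x h =>
      obtain ⟨i, rfl⟩ := h
      rw [← qk_hecke]
      exact (qk N k _).2
    | zero => rw [ZeroMemClass.coe_zero, map_zero]; exact Submodule.zero_mem _
    | add x y hx hy ihx ihy => rw [Submodule.coe_add, map_add]; exact Submodule.add_mem _ ihx ihy
    | smul c x hx ih => rw [Submodule.coe_smul, map_smul]; exact Submodule.smul_mem _ c ih
  exact key ⟨f, hf⟩

/-- Hecke operators on `S2 N k` -/
def tS2 (a : GoodPrimes N ∅) : Module.End k (H15.S2 N k) :=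
  (H15.Tq k (a.1 : ℕ)).restrict fun _ hf => Tq_mem k a hf

lemma coe_tS2 (a : GoodPrimes N ∅) (x : H15.S2 N k) :
    (tS2 k a x).1 = H15.Tq k (a.1 : ℕ) x.1 := rfl

lemma qk_tS2 (a : GoodPrimes N ∅) (f : CuspForm.intLattice N 2) :
    qk N k (actL N (MvPolynomial.X a) f) = tS2 k a (qk N k f) :=
  Subtype.ext (qk_hecke k a f)

lemma ext_qk {f g : Module.End k (H15.S2 N k)}
    (h : ∀ i, f (qk N k (bL N i)) = g (qk N k (bL N i))) : f = g := by
  apply LinearMap.ext_on_range (v := fun i => qk N k (bL N i)) (top_le_iff.mp (span_qk k))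
  exact h

lemma tS2_comm (a b : GoodPrimes N ∅) : tS2 k a * tS2 k b = tS2 k b * tS2 k a := by
  apply ext_qk
  intro i
  rw [Module.End.mul_apply, Module.End.mul_apply, ← qk_tS2, ← qk_tS2, ← qk_tS2, ← qk_tS2,
    ← Module.End.mul_apply, ← Module.End.mul_apply, ← map_mul, ← map_mul, mul_comm]

variable (N) in
/-- action of the Hecke polynomial ring on `S2 N k` -/
def actK : MvPolynomial (GoodPrimes N ∅) ℤ →+* Module.End k (H15.S2 N k) :=
  (H59.act (fun a : GoodPrimes N ∅ => tS2 k a) (tS2_comm k)).toRingHom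

lemma actK_X (a : GoodPrimes N ∅) : actK N k (MvPolynomial.X a) = tS2 k a :=
  H59.act_X _ _ a

lemma qk_act (P : MvPolynomial (GoodPrimes N ∅) ℤ) (f : CuspForm.intLattice N 2) :
    qk N k (actL N P f) = actK N k P (qk N k f) :=
  nat_act (actL N) (actK N k) (qk N k) (fun a x => by rw [actK_X, qk_tS2]) P f

/-- **charpoly on mod `r` forms** -/
theorem charpoly_actK {r : ℕ} (hr : r.Prime) [CharP k r] (P : MvPolynomial (GoodPrimes N ∅) ℤ) :
    haveI := CuspForm.intLattice.moduleFree N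
    haveI := CuspForm.intLattice.moduleFinite N
    haveI := Module.Finite.of_basis (bk N hr k)
    (actK N k P).charpoly = (actL N P).charpoly.map (Int.castRingHom k) := by
  haveI := CuspForm.intLattice.moduleFree N
  haveI := CuspForm.intLattice.moduleFinite N
  haveI := Module.Finite.of_basis (bk N hr k)
  refine charpoly_of_semilinear (Int.castRingHom k) (bL N) (bk N hr k) (qk N k) ?_ ?_ _ _ ?_
  · intro m x
    rw [map_zsmul]
    exact (Int.cast_smul_eq_zsmul k m _).symm
  · intro i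
    exact (bk_apply hr k i).symm
  · intro x
    exact qk_act k P x

/-- vanishing over `𝔽_r` implies vanishing over all fields of characteristic `r` -/
lemma actK_eq_zero {r : ℕ} [CharP k r] [Fact r.Prime] {t : MvPolynomial (GoodPrimes N ∅) ℤ}
    (ht : actK N (ZMod r) t = 0) : actK N k t = 0 := by
  apply ext_qk
  intro i
  rw [← qk_act, LinearMap.zero_apply]
  have h1 : qk N (ZMod r) (actL N t (bL N i)) = 0 := by
    rw [qk_act, ht, LinearMap.zero_apply]
  apply Subtype.ext
  rw [coe_qk]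
  have h2 : (qz N (actL N t (bL N i))).map (Int.castRingHom (ZMod r)) = 0 := congrArg Subtype.val h1
  have h3 : Int.castRingHom k = (ZMod.castHom (dvd_refl r) k).comp (Int.castRingHom (ZMod r)) :=
    RingHom.ext_int _ _
  rw [h3, PowerSeries.map_comp, RingHom.comp_apply, h2, map_zero]
  rfl

end ModR

end Fermat.Agent.H41
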