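import Mathlib
import Fermat.Agent.H41CardP
import Fermat.Agent.H85Fit

/-!
# MZ-J9: `T_cardW` (helper41)
-/

set_option autoImplicit false

noncomputable section

namespace Fermat.Agent.H41

open CongruenceSubgroup ModularCurve AlgebraicCurve
open scoped MatrixGroups
open Fermat.Agent.H31
open Fermat.Agent.H15 (eisP WSub S2 EisPart TEis Tq)

section Gen

variable {S R H : Type*} [CommRing S] [CommRing R] [AddCommGroup H] [Module R H]

lemma mem_range_idem (A : S →+* Module.End R H) (P : Ideal S) (e : S) (n : ℕ)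
    (h1 : ∀ t ∈ P ^ n, A (e * t) = 0) (h2 : ∀ m, ∃ t ∈ P ^ m, A (1 - e - t) = 0) (x : H) :
    x ∈ LinearMap.range (A e) ↔ ∃ m, ∀ t ∈ P ^ m, A t x = 0 := by
  constructor
  · rintro ⟨y, rfl⟩
    refine ⟨n, fun t ht => ?_⟩
    rw [← Module.End.mul_apply, ← map_mul, mul_comm, h1 t ht, LinearMap.zero_apply]
  · rintro ⟨m, hm⟩
    obtain ⟨t, ht, h⟩ := h2 m
    have h3 := congrArg (fun f : Module.End R H => f x) h
    simp only [map_sub, map_one, LinearMap.sub_apply, Module.End.one_apply, hm t ht,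
      LinearMap.zero_apply, sub_zero, sub_eq_zero] at h3
    exact ⟨x, h3.symm⟩

open Polynomial in
lemma rootMultiplicity_idem {K : Type*} [Field K] (a b : ℕ) :
    rootMultiplicity 1 ((X - 1) ^ a * X ^ b : K[X]) = a := by
  have h1 : (X - 1 : K[X]) = X - C 1 := by rw [C_1]
  rw [h1, rootMultiplicity_mul (mul_ne_zero (pow_ne_zero _ (X_sub_C_ne_zero 1))
    (pow_ne_zero _ X_ne_zero)), rootMultiplicity_X_sub_C_pow, rootMultiplicity_eq_zero, add_zero]
  simp [IsRoot]

open Polynomial in
lemma finrank_range_idem {K V : Type*} [Field K] [AddCommGroup V] [Module K V]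
    [FiniteDimensional K V] (e : Module.End K V) (he : e * e = e) :
    Module.finrank K (LinearMap.range e) = rootMultiplicity 1 e.charpoly := by
  rw [charpoly_idem e he, rootMultiplicity_idem]

open Polynomial in
lemma rootMultiplicity_sq {K : Type*} [Field K] {p : K[X]} (hp : p ≠ 0) (x : K) :
    rootMultiplicity x (p ^ 2) = 2 * rootMultiplicity x p := by
  rw [sq, rootMultiplicity_mul (mul_ne_zero hp hp), two_mul]

end Gen

section Eis

/-- the Eisenstein ideal in the polynomial ring -/
def eisQ (N r : ℕ) : Ideal (MvPolynomial (GoodPrimes N ∅) ℤ) :=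
  Ideal.span ({(r : MvPolynomial (GoodPrimes N ∅) ℤ)} ∪
    {t | ∃ a : GoodPrimes N ∅, t = MvPolynomial.X a - MvPolynomial.C (1 + ((a.1 : ℕ) : ℤ))})

lemma map_eisQ {N : ℕ} (hN : N.Prime) (r : ℕ) :
    (eisQ N r).map (inclHecke N ∅).toRingHom = eisP N r := by
  rw [eisQ, eisP, Ideal.map_span, Set.image_union, Set.image_singleton]
  have h1 : (inclHecke N ∅).toRingHom (r : MvPolynomial (GoodPrimes N ∅) ℤ) = (r : HeckeAlg) :=
    map_natCast _ r
  have h2 : ∀ a : GoodPrimes N ∅, (inclHecke N ∅).toRingHom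
      (MvPolynomial.X a - MvPolynomial.C (1 + ((a.1 : ℕ) : ℤ))) =
      heckeGen a.1 - MvPolynomial.C (1 + ((a.1 : ℕ) : ℤ)) := by
    intro a
    rw [map_sub]
    congr 1
    · exact inclHecke_X N ∅ a
    · exact MvPolynomial.rename_C _ _
  rw [h1]
  congr 2
  ext t
  constructor
  · rintro ⟨_, ⟨a, rfl⟩, rfl⟩
    refine ⟨a.1, ?_, h2 a⟩
    intro h
    exact a.2.1 (dvd_of_eq h)
  · rintro ⟨q, hq, rfl⟩
    refine ⟨_, ⟨⟨q, fun h => hq ((Nat.prime_dvd_prime_iff_eq q.2 hN).mp h), Set.notMem_empty _⟩,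
      rfl⟩, h2 _⟩

lemma killed_iff {N : ℕ} (hN : N.Prime) (r : ℕ) {J : Type} [AddCommGroup J] [Module HeckeAlg J]
    (n : ℕ) (x : J) :
    (∀ t ∈ (eisP N r) ^ n, t • x = 0) ↔ ∀ t ∈ (eisQ N r) ^ n, inclHecke N ∅ t • x = 0 := by
  rw [← map_eisQ hN r, ← Ideal.map_pow]
  constructor
  · intro h t ht
    exact h _ (Ideal.mem_map_of_mem _ ht)
  · intro h t ht
    rw [Ideal.map] at ht
    induction ht using Submodule.span_induction with
    | mem t h' =>
      obtain ⟨s, hs, rfl⟩ := h'
      exact h s hs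
    | zero => exact zero_smul _ _
    | add a b _ _ iha ihb => rw [add_smul, iha, ihb, add_zero]
    | smul c a _ ih => rw [smul_eq_mul, mul_smul, ih, smul_zero]

end Eis

section Card

variable {N r : ℕ} {J : Type} [AddCommGroup J] [Module HeckeAlg J]

lemma card_WSub_zero : Nat.card (WSub N r J 0) = 1 := by
  rw [Nat.card_eq_one_iff_unique]
  refine ⟨⟨fun x y => ?_⟩, ⟨0⟩⟩
  have h : ∀ z : WSub N r J 0, z = 0 := by
    rintro ⟨z, hz, -⟩
    apply Subtype.ext
    rwa [pow_zero, one_smul] at hz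
  rw [h x, h y]

lemma card_WSub_succ (hdiv : ∀ x : J, ∃ y : J, r • y = x)
    (hfin : ∀ k : ℕ, {x : J | (r ^ k : ℕ) • x = 0}.Finite) (k : ℕ) :
    Nat.card (WSub N r J (k + 1)) = Nat.card (WSub N r J 1) * Nat.card (WSub N r J k) := by
  let f : WSub N r J (k + 1) →+ WSub N r J k :=
    { toFun := fun x => ⟨r • (x : J), by
        obtain ⟨h1, n, hn⟩ := x.2
        refine ⟨by rw [← mul_smul, ← pow_succ, h1], n, fun t ht => ?_⟩
        rw [smul_comm, hn t ht, smul_zero]⟩
      map_zero' := Subtype.ext (smul_zero _)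
      map_add' := fun x y => Subtype.ext (smul_add _ _ _) }
  have hf : Function.Surjective f := by
    rintro ⟨x, hx⟩
    obtain ⟨y, hy, hyx⟩ := H85.exists_smul_eq hdiv k (hfin _) hx
    exact ⟨⟨y, hy⟩, Subtype.ext hyx⟩
  have h1 := AddSubgroup.card_mul_index f.ker
  rw [AddSubgroup.index_ker, AddMonoidHom.range_eq_top.mpr hf, AddSubgroup.card_top] at h1
  rw [← h1]
  congr 1
  refine Nat.card_congr
    { toFun := fun x => ⟨x.1.1, by
        have h := congrArg Subtype.val x.2
        obtain ⟨-, h2⟩ := x.1.2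
        exact ⟨by rw [pow_one]; exact h, h2⟩⟩
      invFun := fun x => ⟨⟨x.1, H85.WSub_mono (Nat.le_add_left 1 k) x.2⟩, by
        obtain ⟨h, -⟩ := x.2
        rw [pow_one] at h
        exact Subtype.ext h⟩
      left_inv := fun x => rfl
      right_inv := fun x => rfl }

lemma card_WSub (hdiv : ∀ x : J, ∃ y : J, r • y = x)
    (hfin : ∀ k : ℕ, {x : J | (r ^ k : ℕ) • x = 0}.Finite) {w : ℕ}
    (h1 : Nat.card (WSub N r J 1) = r ^ w) (k : ℕ) : Nat.card (WSub N r J k) = r ^ (w * k) := by
  induction k with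
  | zero => rw [card_WSub_zero, mul_zero, pow_zero]
  | succ k ih => rw [card_WSub_succ hdiv hfin, h1, ih, ← pow_add]; congr 1; ring

end Card

section EisPart

variable {N : ℕ} [NeZero N] (k : Type) [Field k]

lemma actK_gen (a : GoodPrimes N ∅) (x : S2 N k) :
    (actK N k (MvPolynomial.X a - MvPolynomial.C (1 + ((a.1 : ℕ) : ℤ))) x).1 =
      TEis k (a.1 : ℕ) x.1 := by
  rw [map_sub, actK_X]
  have h1 : (MvPolynomial.C (1 + ((a.1 : ℕ) : ℤ)) : MvPolynomial (GoodPrimes N ∅) ℤ) =
    ((1 + ((a.1 : ℕ) : ℤ) : ℤ) : MvPolynomial (GoodPrimes N ∅) ℤ) := by simp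
  rw [h1, map_intCast, LinearMap.sub_apply, Module.End.intCast_apply, TEis]
  show Tq k (a.1 : ℕ) x.1 - (((1 + ((a.1 : ℕ) : ℤ) : ℤ) • x : S2 N k) : PowerSeries k) = _
  rw [LinearMap.sub_apply, LinearMap.smul_apply, LinearMap.id_apply,
    ← Int.cast_smul_eq_zsmul k, Submodule.coe_smul]
  push_cast
  rfl

lemma actK_natCast {r : ℕ} [CharP k r] : actK N k (r : MvPolynomial (GoodPrimes N ∅) ℤ) = 0 := by
  rw [map_natCast]
  refine LinearMap.ext fun x => ?_
  rw [Module.End.natCast_apply, ← Nat.cast_smul_eq_nsmul k, CharP.cast_eq_zero, zero_smul,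
    LinearMap.zero_apply]

/-- killed by the words of length `n` implies killed by `eisQ ^ n` -/
lemma killed_of_words {r : ℕ} [CharP k r] (n : ℕ) (x : S2 N k)
    (hx : ∀ l : List ℕ, l.length = n → (∀ q ∈ l, q.Prime ∧ q ≠ N) →
      (l.map (TEis k)).prod x.1 = 0) : ∀ t ∈ (eisQ N r) ^ n, actK N k t x = 0 := by
  induction n generalizing x with
  | zero =>
    intro t _
    have h1 := hx [] rfl (by simp)
    have h2 : x = 0 := Subtype.ext h1
    rw [h2, map_zero]
  | succ n ih =>
    intro t ht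
    rw [pow_succ] at ht
    induction ht using Submodule.mul_induction_on' with
    | mem_mul_mem a ha b hb =>
      rw [eisQ] at hb
      have key : ∀ b ∈ Submodule.span (MvPolynomial (GoodPrimes N ∅) ℤ)
          ({(r : MvPolynomial (GoodPrimes N ∅) ℤ)} ∪
          {t | ∃ a : GoodPrimes N ∅, t = MvPolynomial.X a - MvPolynomial.C (1 + ((a.1 : ℕ) : ℤ))}),
          actK N k a (actK N k b x) = 0 := by
        intro b hb
        induction hb using Submodule.span_induction with
        | mem b h =>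
          rcases h with h | ⟨q, rfl⟩
          · rw [Set.mem_singleton_iff.mp h, actK_natCast, LinearMap.zero_apply, map_zero]
          · refine ih _ (fun l hl hq => ?_) a ha
            rw [actK_gen]
            have h2 := hx (l ++ [(q.1 : ℕ)]) (by rw [List.length_append, hl]; rfl) (by
              intro s hs
              rcases List.mem_append.mp hs with h | h
              · exact hq s h
              · rw [List.mem_singleton.mp h]
                exact ⟨q.1.2, fun h => q.2.1 (dvd_of_eq h)⟩)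
            rw [List.map_append, List.prod_append, Module.End.mul_apply] at h2
            simpa using h2
        | zero => rw [map_zero, LinearMap.zero_apply, map_zero]
        | add b c _ _ hb hc => rw [map_add, LinearMap.add_apply, map_add, hb, hc, add_zero]
        | smul c b _ hb =>
          rw [smul_eq_mul, ← Module.End.mul_apply, ← map_mul, mul_left_comm, map_mul,
            Module.End.mul_apply, map_mul, Module.End.mul_apply, hb, map_zero]
      rw [map_mul, Module.End.mul_apply]
      exact key b hb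
    | add a ha b hb iha ihb => rw [map_add, LinearMap.add_apply, iha, ihb, add_zero]

/-- killed by `eisQ ^ n` implies killed by the words of length `n` -/
lemma words_of_killed (hN : N.Prime) {r : ℕ} (n : ℕ) (x : S2 N k)
    (hx : ∀ t ∈ (eisQ N r) ^ n, actK N k t x = 0) :
    ∀ l : List ℕ, l.length = n → (∀ q ∈ l, q.Prime ∧ q ≠ N) → (l.map (TEis k)).prod x.1 = 0 := by
  have key : ∀ (l : List ℕ), (∀ q ∈ l, q.Prime ∧ q ≠ N) →
      ∃ t ∈ (eisQ N r) ^ l.length, ∀ x : S2 N k, (actK N k t x).1 = (l.map (TEis k)).prod x.1 := by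
    intro l
    induction l with
    | nil =>
      intro _
      exact ⟨1, by rw [List.length_nil, pow_zero, Ideal.one_eq_top]; trivial, fun x => by
        rw [map_one]; rfl⟩
    | cons q l ih =>
      intro h
      obtain ⟨t, ht, htx⟩ := ih fun s hs => h s (List.mem_cons_of_mem q hs)
      obtain ⟨hq, hqN⟩ := h q List.mem_cons_self
      let a : GoodPrimes N ∅ := ⟨⟨q, hq⟩, fun h => hqN ((Nat.prime_dvd_prime_iff_eq hq hN).mp h),
        Set.notMem_empty _⟩
      refine ⟨(MvPolynomial.X a - MvPolynomial.C (1 + ((a.1 : ℕ) : ℤ))) * t, ?_, fun x => ?_⟩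
      · rw [List.length_cons, pow_succ']
        exact Ideal.mul_mem_mul (Ideal.subset_span (Or.inr ⟨a, rfl⟩)) ht
      · rw [map_mul, Module.End.mul_apply, actK_gen, htx, List.map_cons, List.prod_cons,
          Module.End.mul_apply]
  intro l hl hq
  obtain ⟨t, ht, h⟩ := key l hq
  rw [← h, hx t (hl ▸ ht)]
  rfl

end EisPart

section Main

attribute [local instance] heckeModuleBar

variable {N : ℕ} [NeZero N]

/-- the simultaneous Fitting idempotent -/
lemma exists_idem (N r : ℕ) [NeZero N] [hr : Fact r.Prime] :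
    ∃ (e : MvPolynomial (GoodPrimes N ∅) ℤ) (n : ℕ),
      (∀ t ∈ (eisQ N r) ^ n, actTor r (JZero N) N (e * t) = 0 ∧ actK N (ZMod r) (e * t) = 0) ∧
      (∀ m, ∃ t ∈ (eisQ N r) ^ m, actTor r (JZero N) N (1 - e - t) = 0 ∧
        actK N (ZMod r) (1 - e - t) = 0) ∧
      actTor r (JZero N) N (e * e - e) = 0 ∧ actK N (ZMod r) (e * e - e) = 0 := by
  haveI : Module.Finite (ZMod r) (S2 N (ZMod r)) := Module.Finite.of_basis (bk N hr.out (ZMod r))
  haveI : Finite (S2 N (ZMod r)) := Module.finite_of_finite (ZMod r)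
  haveI : Finite (Module.End (ZMod r) (S2 N (ZMod r))) := DFunLike.finite _
  haveI : Finite (Module.End (ZMod r) (Tor r (JZero N))) := DFunLike.finite _
  let F := (actTor r (JZero N) N).prod (actK N (ZMod r))
  haveI : Finite (MvPolynomial (GoodPrimes N ∅) ℤ ⧸ RingHom.ker F) :=
    Finite.of_injective _ (RingHom.kerLift_injective F)
  have hF : ∀ t, t ∈ RingHom.ker F ↔ actTor r (JZero N) N t = 0 ∧ actK N (ZMod r) t = 0 := by
    intro t
    rw [RingHom.mem_ker, RingHom.prod_apply, Prod.mk_eq_zero]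
  obtain ⟨e, n, h1, h2, h3⟩ := exists_fit (RingHom.ker F) (eisQ N r)
  refine ⟨e, n, fun t ht => (hF _).mp (h1 t ht), fun m => ?_, (hF _).mp h3⟩
  obtain ⟨t, ht, h⟩ := h2 m
  exact ⟨t, ht, (hF _).mp h⟩

/-- **MZ-J9.** -/
theorem cardW : Fermat.Agent.H15.T_cardW := by
  intro N _ hN r hr hrN
  haveI : Fact r.Prime := ⟨hr⟩
  obtain ⟨D⟩ := nonempty_dualSys N
  obtain ⟨e, n, h1, h2, h3⟩ := exists_idem N r
  haveI := Module.Finite.of_basis (pesBasis D ℤ)
  haveI := Module.Free.of_basis (pesBasis D ℤ)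
  haveI := CuspForm.intLattice.moduleFree N
  haveI := CuspForm.intLattice.moduleFinite N
  set χ := (actL N e).charpoly with hχ
  -- the dimension of `W[r]`
  have hw : Module.finrank (ZMod r) (LinearMap.range (actTor r (JZero N) N e)) =
      2 * Polynomial.rootMultiplicity 1 (χ.map (Int.castRingHom (ZMod r))) := by
    rw [finrank_range_idem _ (by
      have := h3.1
      rwa [map_sub, map_mul, sub_eq_zero] at this), charpoly_actTor D e, charpoly_actZ D e,
      Polynomial.map_pow, rootMultiplicity_sq]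
    exact ((LinearMap.charpoly_monic _).map _).ne_zero
  refine ⟨Polynomial.rootMultiplicity 1 (χ.map (Int.castRingHom (ZMod r))), ?_, ?_⟩
  · intro k
    refine card_WSub (fun x => jdiv x) (fun k => H90.finite_jzero N (pow_ne_zero k hr.ne_zero)) ?_ k
    rw [← hw]
    have h4 := Module.natCard_eq_pow_finrank (K := ZMod r)
      (V := LinearMap.range (actTor r (JZero N) N e))
    rw [Nat.card_zmod] at h4
    rw [← h4]
    have h5 : ∀ x : Tor r (JZero N), x ∈ LinearMap.range (actTor r (JZero N) N e) ↔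
        ∃ m, ∀ t ∈ (eisQ N r) ^ m, actTor r (JZero N) N t x = 0 :=
      mem_range_idem (actTor r (JZero N) N) (eisQ N r) e n (fun t ht => (h1 t ht).1)
        (fun m => by obtain ⟨t, ht, h⟩ := h2 m; exact ⟨t, ht, h.1⟩)
    have h6 : ∀ (x : Tor r (JZero N)), x ∈ LinearMap.range (actTor r (JZero N) N e) ↔
        (x : JZero N) ∈ WSub N r (JZero N) 1 := by
      intro x
      rw [h5]
      constructor
      · rintro ⟨m, hm⟩
        refine ⟨by rw [pow_one]; exact x.2, m, ?_⟩
        rw [killed_iff hN]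
        exact fun t ht => congrArg Subtype.val (hm t ht)
      · rintro ⟨-, m, hm⟩
        rw [killed_iff hN] at hm
        exact ⟨m, fun t ht => Subtype.ext (hm t ht)⟩
    exact Nat.card_congr
      { toFun := fun x => ⟨⟨x.1, by
          obtain ⟨h, -⟩ := x.2
          rwa [pow_one] at h⟩, (h6 _).mpr x.2⟩
        invFun := fun x => ⟨x.1.1, (h6 _).mp x.2⟩
        left_inv := fun x => rfl
        right_inv := fun x => rfl }
  · intro k _ _
    haveI := Module.Finite.of_basis (bk N hr k)
    have h5 : ∀ x : S2 N k, x ∈ LinearMap.range (actK N k e) ↔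
        ∃ m, ∀ t ∈ (eisQ N r) ^ m, actK N k t x = 0 :=
      mem_range_idem (actK N k) (eisQ N r) e n (fun t ht => actK_eq_zero k (h1 t ht).2)
        (fun m => by obtain ⟨t, ht, h⟩ := h2 m; exact ⟨t, ht, actK_eq_zero k h.2⟩)
    have hle : EisPart N k ≤ S2 N k := fun x hx => hx.1
    have h6 : (EisPart N k).comap (S2 N k).subtype = LinearMap.range (actK N k e) := by
      ext x
      rw [h5, Submodule.mem_comap]
      constructor
      · rintro ⟨-, m, hm⟩
        exact ⟨m, killed_of_words k m x hm⟩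
      · rintro ⟨m, hm⟩
        exact ⟨x.2, m, words_of_killed k hN m x hm⟩
    have h7 : (actK N k e).charpoly = (χ.map (Int.castRingHom (ZMod r))).map
        (ZMod.castHom (dvd_refl r) k) := by
      rw [charpoly_actK k hr, Polynomial.map_map]
      congr 1
      exact RingHom.ext_int _ _
    have h8 := Polynomial.eq_rootMultiplicity_map (p := χ.map (Int.castRingHom (ZMod r)))
      (f := ZMod.castHom (dvd_refl r) k) (RingHom.injective _) 1
    rw [map_one, ← h7] at h8
    rw [h8, ← finrank_range_idem _ (by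
      have := actK_eq_zero k h3.2
      rwa [map_sub, map_mul, sub_eq_zero] at this), ← h6]
    exact (LinearEquiv.finrank_eq (Submodule.comapSubtypeEquivOfLe hle)).symm

end Main

end Fermat.Agent.H41
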