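import Mathlib

/-!
H42S1 (project S47, C20): joint generalised eigenspaces of a commuting family, and the trace of
`A * s` where `s` permutes them and is the identity on the stable ones.
-/

set_option autoImplicit false

open Module Module.End

namespace Fermat.Agent.H42S

variable {K E : Type*} [AddCommGroup E] [Module ℂ E]

/-- joint generalised eigenspace -/
def blk (Y : K → Module.End ℂ E) (χ : K → ℂ) : Submodule ℂ E :=
  ⨅ k, (Y k).maxGenEigenspace (χ k)

theorem mem_blk {Y : K → Module.End ℂ E} {χ : K → ℂ} {v : E} :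
    v ∈ blk Y χ ↔ ∀ k, ∃ n : ℕ, ((Y k - χ k • (1 : Module.End ℂ E)) ^ n) v = 0 :=
  mem_iInf_maxGenEigenspace_iff _ _ _

section Fin

variable [FiniteDimensional ℂ E]

theorem internal_blk [DecidableEq (K → ℂ)] (Y : K → Module.End ℂ E)
    (hY : ∀ i j, Commute (Y i) (Y j)) : DirectSum.IsInternal fun χ : K → ℂ => blk Y χ := by
  apply DirectSum.isInternal_submodule_of_iSupIndep_of_iSup_eq_top
  · exact independent_iInf_maxGenEigenspace_of_forall_mapsTo Y
      fun i j φ => mapsTo_maxGenEigenspace_of_comm (hY j i) φ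
  · exact iSup_iInf_maxGenEigenspace_eq_top_of_iSup_maxGenEigenspace_eq_top_of_commute Y
      (fun i j _ => hY i j) fun i => iSup_maxGenEigenspace_eq_top (Y i)

theorem finite_supp (Y : K → Module.End ℂ E) (hY : ∀ i j, Commute (Y i) (Y j)) :
    {χ : K → ℂ | blk Y χ ≠ ⊥}.Finite :=
  WellFoundedGT.finite_ne_bot_of_iSupIndep
    (independent_iInf_maxGenEigenspace_of_forall_mapsTo Y
      fun i j φ => mapsTo_maxGenEigenspace_of_comm (hY j i) φ)

end Fin

/-- `s` permutes the blocks -/
theorem mapsTo_of_intertwine {Y : K → Module.End ℂ E} {σ : K ≃ K} {s : Module.End ℂ E}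
    (hs : ∀ k, s * Y k = Y (σ k) * s) (χ : K → ℂ) {v : E} (hv : v ∈ blk Y χ) :
    s v ∈ blk Y (χ ∘ σ.symm) := by
  rw [mem_blk] at hv ⊢
  intro k
  obtain ⟨n, hn⟩ := hv (σ.symm k)
  refine ⟨n, ?_⟩
  have h1 : ∀ n : ℕ, (Y k - χ (σ.symm k) • (1 : Module.End ℂ E)) ^ n * s =
      s * (Y (σ.symm k) - χ (σ.symm k) • (1 : Module.End ℂ E)) ^ n := by
    intro n
    induction n with
    | zero => simp
    | succ n ih =>
      have h2 : (Y k - χ (σ.symm k) • (1 : Module.End ℂ E)) * s =
          s * (Y (σ.symm k) - χ (σ.symm k) • (1 : Module.End ℂ E)) := by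
        rw [sub_mul, mul_sub, hs, Equiv.apply_symm_apply, smul_mul_assoc, one_mul,
          mul_smul_comm, mul_one]
      rw [pow_succ, mul_assoc, h2, ← mul_assoc, ih, mul_assoc, ← pow_succ]
  have h3 := congrArg (fun f : Module.End ℂ E => f v) (h1 n)
  simp only [Module.End.mul_apply] at h3
  rw [Function.comp_apply, h3, hn, map_zero]

/-- an operator commuting with the family preserves the blocks -/
theorem mapsTo_of_commute {Y : K → Module.End ℂ E} {A : Module.End ℂ E}
    (hA : ∀ k, Commute A (Y k)) (χ : K → ℂ) {v : E} (hv : v ∈ blk Y χ) : A v ∈ blk Y χ := by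
  have := mapsTo_of_intertwine (σ := Equiv.refl K) (s := A) (fun k => hA k) χ hv
  simpa using this

/-- product of a list of members of the family -/
def lprod (Y : K → Module.End ℂ E) (L : List K) : Module.End ℂ E := (L.map Y).prod

theorem commute_lprod {Y : K → Module.End ℂ E} (hY : ∀ i j, Commute (Y i) (Y j)) (L : List K)
    (k : K) : Commute (lprod Y L) (Y k) := by
  unfold lprod
  apply Commute.symm
  apply Commute.list_prod_right
  intro x hx
  obtain ⟨i, -, rfl⟩ := List.mem_map.mp hx
  exact hY k i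

/-- on a block, `lprod Y L` minus its eigenvalue is nilpotent -/
theorem isNilpotent_of_blk [FiniteDimensional ℂ E] {Y : K → Module.End ℂ E}
    (hY : ∀ i j, Commute (Y i) (Y j)) (L : List K) (χ : K → ℂ)
    (hm : Set.MapsTo (lprod Y L) (blk Y χ) (blk Y χ)) :
    IsNilpotent ((lprod Y L).restrict hm - algebraMap ℂ (Module.End ℂ (blk Y χ))
      (L.map χ).prod) := by
  induction L with
  | nil =>
    refine ⟨1, ?_⟩
    ext v
    simp [lprod]
  | cons k L ih =>
    have hmk : Set.MapsTo (Y k) (blk Y χ) (blk Y χ) :=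
      fun v hv => mapsTo_of_commute (fun j => hY k j) χ hv
    have hmL : Set.MapsTo (lprod Y L) (blk Y χ) (blk Y χ) :=
      fun v hv => mapsTo_of_commute (fun j => commute_lprod hY L j) χ hv
    specialize ih hmL
    -- nilpotency for `Y k`
    have hk : IsNilpotent ((Y k).restrict hmk - algebraMap ℂ (Module.End ℂ (blk Y χ)) (χ k)) := by
      have h1 : ∀ v : blk Y χ, ∃ n : ℕ,
          (((Y k).restrict hmk - algebraMap ℂ (Module.End ℂ (blk Y χ)) (χ k)) ^ n) v = 0 := by
        intro v
        obtain ⟨n, hn⟩ := mem_blk.mp v.2 k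
        refine ⟨n, ?_⟩
        apply Subtype.ext
        have h2 : ∀ n : ℕ, ∀ w : blk Y χ,
            (((((Y k).restrict hmk - algebraMap ℂ (Module.End ℂ (blk Y χ)) (χ k)) ^ n) w :
              blk Y χ) : E) = ((Y k - χ k • (1 : Module.End ℂ E)) ^ n) w := by
          intro n
          induction n with
          | zero => intro w; simp
          | succ n ihn =>
            intro w
            rw [pow_succ, pow_succ, Module.End.mul_apply, Module.End.mul_apply, ihn]
            congr 1
        rw [h2, hn]; rfl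
      exact Module.End.isNilpotent_iff_of_finite.mpr h1
    have hc : Commute ((Y k).restrict hmk) ((lprod Y L).restrict hmL) :=
      LinearMap.restrict_commute (commute_lprod hY L k).symm hmk hmL
    have e : (lprod Y (k :: L)).restrict hm - algebraMap ℂ (Module.End ℂ (blk Y χ))
        ((k :: L).map χ).prod =
        ((Y k).restrict hmk - algebraMap ℂ (Module.End ℂ (blk Y χ)) (χ k)) *
          (lprod Y L).restrict hmL +
        algebraMap ℂ (Module.End ℂ (blk Y χ)) (χ k) *
          ((lprod Y L).restrict hmL - algebraMap ℂ (Module.End ℂ (blk Y χ)) (L.map χ).prod) := by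
      have e1 : (lprod Y (k :: L)).restrict hm = (Y k).restrict hmk * (lprod Y L).restrict hmL := by
        ext v
        simp [lprod]
      rw [e1, List.map_cons, List.prod_cons, map_mul]
      rw [sub_mul, mul_sub]
      abel
    rw [e]
    have hca : Commute ((Y k).restrict hmk - algebraMap ℂ (Module.End ℂ (blk Y χ)) (χ k))
        ((lprod Y L).restrict hmL) :=
      hc.sub_left (Algebra.commutes _ _)
    have hcb : Commute (algebraMap ℂ (Module.End ℂ (blk Y χ)) (χ k))
        ((lprod Y L).restrict hmL - algebraMap ℂ (Module.End ℂ (blk Y χ)) (L.map χ).prod) :=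
      Algebra.commutes _ _
    refine Commute.isNilpotent_add ?_ (hca.isNilpotent_mul_right hk) (hcb.isNilpotent_mul_left ih)
    have h1 : Commute ((Y k).restrict hmk - algebraMap ℂ (Module.End ℂ (blk Y χ)) (χ k))
        ((lprod Y L).restrict hmL - algebraMap ℂ (Module.End ℂ (blk Y χ)) (L.map χ).prod) :=
      hca.sub_right (Algebra.commute_algebraMap_right _ _)
    have h2 : Commute ((lprod Y L).restrict hmL)
        ((lprod Y L).restrict hmL - algebraMap ℂ (Module.End ℂ (blk Y χ)) (L.map χ).prod) :=
      (Commute.refl _).sub_right (Algebra.commute_algebraMap_right _ _)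
    exact (Algebra.commute_algebraMap_right (χ k) _).mul_right (h1.mul_left h2)

theorem mapsTo_lprod {Y : K → Module.End ℂ E} (hY : ∀ i j, Commute (Y i) (Y j)) (L : List K)
    (χ : K → ℂ) : Set.MapsTo (lprod Y L) (blk Y χ) (blk Y χ) :=
  fun _ hv => mapsTo_of_commute (fun j => commute_lprod hY L j) χ hv

theorem trace_restrict_blk [FiniteDimensional ℂ E] {Y : K → Module.End ℂ E}
    (hY : ∀ i j, Commute (Y i) (Y j)) (L : List K) (χ : K → ℂ)
    (hm : Set.MapsTo (lprod Y L) (blk Y χ) (blk Y χ)) :
    LinearMap.trace ℂ (blk Y χ) ((lprod Y L).restrict hm) =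
      (L.map χ).prod * finrank ℂ (blk Y χ) := by
  have h := LinearMap.isNilpotent_trace_of_isNilpotent (isNilpotent_of_blk hY L χ hm)
  have h1 := h.eq_zero
  rw [map_sub, sub_eq_zero, Algebra.algebraMap_eq_smul_one, map_smul, LinearMap.trace_one,
    smul_eq_mul] at h1
  exact h1

/-- **The trace of `A s`** where `A` is a product of members of the family and `s` permutes the
family and is the identity on the stable blocks. -/
theorem trace_mul_perm [FiniteDimensional ℂ E] {Y : K → Module.End ℂ E}
    (hY : ∀ i j, Commute (Y i) (Y j)) {σ : K ≃ K} {s : Module.End ℂ E}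
    (hs : ∀ k, s * Y k = Y (σ k) * s)
    (hpos : ∀ χ : K → ℂ, χ ∘ σ = χ → ∀ v ∈ blk Y χ, s v = v) (L : List K)
    [DecidablePred fun χ : K → ℂ => χ ∘ σ = χ] :
    LinearMap.trace ℂ E (lprod Y L * s) =
      ∑ χ ∈ (finite_supp Y hY).toFinset with χ ∘ σ = χ,
        (L.map χ).prod * finrank ℂ (blk Y χ) := by
  classical
  have hint := internal_blk Y hY
  let ι : Type _ := {χ : K → ℂ // blk Y χ ≠ ⊥}
  have hint' : DirectSum.IsInternal fun i : ι => blk Y i.1 :=
    DirectSum.isInternal_ne_bot_iff.mpr hint
  let _ : Fintype ι := (finite_supp Y hY).fintype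
  let b : (i : ι) → Basis _ ℂ (blk Y i.1) := fun i => Module.Free.chooseBasis ℂ (blk Y i.1)
  let B := hint'.collectedBasis b
  rw [LinearMap.trace_eq_matrix_trace ℂ B, Matrix.trace, Fintype.sum_sigma]
  have key : ∀ i : ι, (∑ k, Matrix.diag (LinearMap.toMatrix B B (lprod Y L * s)) ⟨i, k⟩) =
      if i.1 ∘ σ = i.1 then (L.map i.1).prod * finrank ℂ (blk Y i.1) else 0 := by
    intro i
    split_ifs with hi
    · rw [← trace_restrict_blk hY L i.1 (mapsTo_lprod hY L i.1),
        LinearMap.trace_eq_matrix_trace ℂ (b i), Matrix.trace]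
      refine Finset.sum_congr rfl fun k _ => ?_
      rw [Matrix.diag_apply, Matrix.diag_apply, LinearMap.toMatrix_apply, LinearMap.toMatrix_apply]
      have h1 : B ⟨i, k⟩ = (b i k : E) := by
        change hint'.collectedBasis b ⟨i, k⟩ = _
        rw [DirectSum.IsInternal.collectedBasis_coe]
      rw [h1]
      have h2 : (lprod Y L * s) (b i k : E) = lprod Y L (b i k : E) := by
        rw [Module.End.mul_apply, hpos i.1 hi _ (b i k).2]
      rw [h2]
      have h3 : lprod Y L (b i k : E) ∈ blk Y i.1 := mapsTo_lprod hY L i.1 (b i k).2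
      rw [hint'.collectedBasis_repr_of_mem b (a := k) h3]
      rfl
    · refine Finset.sum_eq_zero fun k _ => ?_
      rw [Matrix.diag_apply, LinearMap.toMatrix_apply]
      have h1 : B ⟨i, k⟩ = (b i k : E) := by
        change hint'.collectedBasis b ⟨i, k⟩ = _
        rw [DirectSum.IsInternal.collectedBasis_coe]
      rw [h1]
      have h3 : (lprod Y L * s) (b i k : E) ∈ blk Y (i.1 ∘ σ.symm) := by
        rw [Module.End.mul_apply]
        exact mapsTo_lprod hY L _ (mapsTo_of_intertwine hs i.1 (b i k).2)
      by_cases hb : blk Y (i.1 ∘ σ.symm) = ⊥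
      · rw [hb, Submodule.mem_bot] at h3
        rw [h3]; simp
      · refine hint'.collectedBasis_repr_of_mem_ne b (i := ⟨i.1 ∘ σ.symm, hb⟩) (j := i) ?_ h3
        intro he
        apply hi
        have h4 : i.1 ∘ σ.symm = i.1 := congrArg Subtype.val he
        conv_lhs => rw [← h4]
        ext x
        simp
  rw [Finset.sum_congr rfl fun i _ => key i, Finset.sum_filter]
  exact (Finset.sum_subtype (finite_supp Y hY).toFinset (fun χ => by simp)
    (fun χ => if χ ∘ σ = χ then (L.map χ).prod * (finrank ℂ (blk Y χ) : ℂ) else 0)).symm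

end Fermat.Agent.H42S
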