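import Fermat.Agent.H69S1

/-!
# Separation of the coordinates (package C11) and the combined statement

`sep_coord`: a summable family of weights at points with bounded real coordinates, all of whose
polynomial moments vanish, has no atoms.

`sep_semigroup`: the combination with `atom_eq_zero` (package C10) for a multiplicatively closed
set of bounded real test functions.

`sep_monomial`: the combination for a countable family of bounded real coordinates, the hypothesis
being known for monomials.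
-/

set_option autoImplicit false
set_option linter.unusedSectionVars false

namespace Fermat.Agent.H69S

open Filter Topology

section Coord

variable {I : Type*} {v : I → ℂ}

lemma summable_mul_bdd (hv : Summable fun i => ‖v i‖) {f : I → ℂ} {B : ℝ}
    (hf : ∀ i, ‖f i‖ ≤ B) : Summable fun i => ‖v i * f i‖ := by
  refine Summable.of_nonneg_of_le (fun i => norm_nonneg _) (fun i => ?_) (hv.mul_right B)
  rw [norm_mul]
  exact mul_le_mul_of_nonneg_left (hf i) (norm_nonneg _)

/-- **Separation of the coordinates** (package C11). -/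
theorem sep_coord (hv : Summable fun i => ‖v i‖) (K : ℕ → I → ℝ)
    (hK : ∀ k, ∃ B, ∀ i, |K k i| ≤ B)
    (h : ∀ P : MvPolynomial ℕ ℝ, ∑' i, v i * ((MvPolynomial.eval (fun k => K k i) P : ℝ) : ℂ) = 0)
    (y : ℕ → ℝ) [∀ i, Decidable (∀ k, K k i = y k)] :
    ∑' i, (if ∀ k, K k i = y k then v i else 0) = 0 := by
  choose B hB using hK
  -- the test polynomials
  set c : ℕ → ℝ := fun k => ((|B k| + |y k| + 1) ^ 2)⁻¹ with hc
  have hD : ∀ k, 0 < |B k| + |y k| + 1 := fun k => by positivity
  have hc0 : ∀ k, 0 < c k := fun k => by rw [hc]; have := hD k; positivity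
  have hle : ∀ k i, c k * (K k i - y k) ^ 2 ≤ 1 := by
    intro k i
    have h1 : |K k i - y k| ≤ |B k| + |y k| + 1 := by
      have h2 : |K k i - y k| ≤ |K k i| + |y k| := abs_sub _ _
      have h3 := (hB k i).trans (le_abs_self _)
      linarith
    have h2 : (K k i - y k) ^ 2 ≤ (|B k| + |y k| + 1) ^ 2 := by
      rw [← sq_abs (K k i - y k)]
      exact pow_le_pow_left₀ (abs_nonneg _) h1 2
    rw [hc]
    dsimp only
    rw [inv_mul_le_iff₀ (by have := hD k; positivity), mul_one]
    exact h2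
  set g : ℕ → I → ℝ := fun k i => 1 - c k * (K k i - y k) ^ 2 with hg
  have hg0 : ∀ k i, 0 ≤ g k i := fun k i => by rw [hg]; dsimp only; linarith [hle k i]
  have hg1 : ∀ k i, g k i ≤ 1 := fun k i => by
    rw [hg]
    dsimp only
    have := mul_nonneg (hc0 k).le (sq_nonneg (K k i - y k))
    linarith
  set G : ℕ → I → ℝ := fun n i => ∏ k ∈ Finset.range n, g k i ^ n with hG
  have hG0 : ∀ n i, 0 ≤ G n i := fun n i => Finset.prod_nonneg fun k _ => pow_nonneg (hg0 k i) n
  have hG1 : ∀ n i, G n i ≤ 1 := fun n i =>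
    Finset.prod_le_one (fun k _ => pow_nonneg (hg0 k i) n)
      fun k _ => pow_le_one₀ (hg0 k i) (hg1 k i)
  have hmom : ∀ n, ∑' i, v i * (G n i : ℂ) = 0 := by
    intro n
    have h1 := h (∏ k ∈ Finset.range n,
      (1 - MvPolynomial.C (c k) * (MvPolynomial.X k - MvPolynomial.C (y k)) ^ 2) ^ n)
    rw [← h1]
    refine tsum_congr fun i => ?_
    congr 2
    simp only [map_prod, map_pow, map_sub, map_mul, map_one, MvPolynomial.eval_C,
      MvPolynomial.eval_X, hG, hg]
  have key : Tendsto (fun n : ℕ => ∑' i, v i * (G n i : ℂ)) atTop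
      (𝓝 (∑' i, (if ∀ k, K k i = y k then v i else 0))) := by
    refine tendsto_tsum_of_dominated_convergence (bound := fun i => ‖v i‖) hv (fun i => ?_) ?_
    · by_cases hi : ∀ k, K k i = y k
      · rw [if_pos hi]
        have h1 : ∀ n, G n i = 1 := by
          intro n
          rw [hG]
          refine Finset.prod_eq_one fun k _ => ?_
          rw [hg]
          dsimp only
          rw [hi k, sub_self]
          simp
        simp only [h1, Complex.ofReal_one, mul_one]
        exact tendsto_const_nhds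
      · rw [if_neg hi]
        push Not at hi
        obtain ⟨k, hk⟩ := hi
        have hlt : g k i < 1 := by
          rw [hg]
          dsimp only
          have h1 : 0 < (K k i - y k) ^ 2 := by
            have : K k i - y k ≠ 0 := sub_ne_zero.mpr hk
            positivity
          have := mul_pos (hc0 k) h1
          linarith
        have h1 : Tendsto (fun n : ℕ => g k i ^ n) atTop (𝓝 0) :=
          tendsto_pow_atTop_nhds_zero_of_lt_one (hg0 k i) hlt
        have h2 : Tendsto (fun n : ℕ => G n i) atTop (𝓝 0) := by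
          refine squeeze_zero' (Eventually.of_forall fun n => hG0 n i) ?_ h1
          filter_upwards [eventually_gt_atTop k] with n hn
          rw [hG]
          dsimp only
          rw [← Finset.mul_prod_erase _ _ (Finset.mem_range.mpr hn)]
          refine mul_le_of_le_one_right (pow_nonneg (hg0 k i) n) ?_
          exact Finset.prod_le_one (fun k _ => pow_nonneg (hg0 k i) n)
            fun k _ => pow_le_one₀ (hg0 k i) (hg1 k i)
        have h3 : Tendsto (fun n : ℕ => v i * (G n i : ℂ)) atTop (𝓝 (v i * ((0 : ℝ) : ℂ))) :=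
          ((Complex.continuous_ofReal.tendsto 0).comp h2).const_mul _
        rw [Complex.ofReal_zero, mul_zero] at h3
        exact h3
    · refine Eventually.of_forall fun n i => ?_
      rw [norm_mul, Complex.norm_real, Real.norm_of_nonneg (hG0 n i)]
      exact mul_le_of_le_one_right (norm_nonneg _) (hG1 n i)
  rw [show (fun n : ℕ => ∑' i, v i * (G n i : ℂ)) = fun _ => 0 from funext hmom] at key
  exact tendsto_nhds_unique key tendsto_const_nhds

/-- linearity: polynomial moments from monomial moments -/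
lemma poly_of_monomial (hv : Summable fun i => ‖v i‖) (K : ℕ → I → ℝ)
    (hK : ∀ k, ∃ B, ∀ i, |K k i| ≤ B)
    (h : ∀ d : ℕ →₀ ℕ, ∑' i, v i * ((∏ k ∈ d.support, K k i ^ d k : ℝ) : ℂ) = 0)
    (P : MvPolynomial ℕ ℝ) :
    ∑' i, v i * ((MvPolynomial.eval (fun k => K k i) P : ℝ) : ℂ) = 0 := by
  choose B hB using hK
  have hs : ∀ d : ℕ →₀ ℕ, Summable fun i => v i * ((∏ k ∈ d.support, K k i ^ d k : ℝ) : ℂ) := by
    intro d
    refine (summable_mul_bdd hv (B := ∏ k ∈ d.support, |B k| ^ d k) fun i => ?_).of_norm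
    rw [Complex.norm_real, Real.norm_eq_abs, Finset.abs_prod]
    refine Finset.prod_le_prod (fun k _ => abs_nonneg _) fun k _ => ?_
    rw [abs_pow]
    exact pow_le_pow_left₀ (abs_nonneg _) ((hB k i).trans (le_abs_self _)) _
  have h1 : ∀ i, v i * ((MvPolynomial.eval (fun k => K k i) P : ℝ) : ℂ) =
      ∑ d ∈ P.support, ((P.coeff d : ℝ) : ℂ) * (v i * ((∏ k ∈ d.support, K k i ^ d k : ℝ) : ℂ)) := by
    intro i
    rw [MvPolynomial.eval_eq, Complex.ofReal_sum, Finset.mul_sum]
    refine Finset.sum_congr rfl fun d _ => ?_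
    rw [Complex.ofReal_mul]
    ring
  rw [tsum_congr h1, Summable.tsum_finsetSum fun d _ => (hs d).mul_left _]
  refine Finset.sum_eq_zero fun d _ => ?_
  rw [tsum_mul_left, h d, mul_zero]

end Coord

section Combined

variable {I : Type*} {w z : I → ℂ} {R : ℝ}

/-- **Separation for a multiplicatively closed set of test functions.** -/
theorem sep_semigroup (hw : Summable fun i => ‖w i‖) (hR : 1 ≤ R)
    (hz : ∀ i, ‖z i‖ = 1 ∨ ((z i).im = 0 ∧ ‖z i‖ ≤ R)) (S : Set (I → ℝ))
    (hmul : ∀ f ∈ S, ∀ g ∈ S, f * g ∈ S) (hbdd : ∀ f ∈ S, ∃ B, ∀ i, |f i| ≤ B)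
    (h : ∀ f ∈ S, ∃ m₀ : ℕ, ∀ m, m₀ ≤ m → ∑' i, w i * (f i : ℂ) * z i ^ m = 0)
    (K : ℕ → I → ℝ) (hK : ∀ k, K k ∈ S) (y : ℕ → ℝ) {z₀ : ℂ} (hz₀ : z₀ ≠ 0)
    {f₀ : I → ℝ} (hf₀ : f₀ ∈ S) [∀ i, Decidable ((∀ k, K k i = y k) ∧ z i = z₀)] :
    ∑' i, (if (∀ k, K k i = y k) ∧ z i = z₀ then w i * (f₀ i : ℂ) else 0) = 0 := by
  classical
  -- step 1: separate the point `z₀`
  have hS : ∀ f ∈ S, ∑' i, (if z i = z₀ then w i * (f i : ℂ) else 0) = 0 := by
    intro f hf
    obtain ⟨B, hB⟩ := hbdd f hf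
    obtain ⟨m₀, hm⟩ := h f hf
    exact atom_eq_zero (summable_mul_bdd hw (B := B) fun i => by
      rw [Complex.norm_real]
      exact hB i) hR hz hm hz₀
  obtain ⟨B₀, hB₀⟩ := hbdd f₀ hf₀
  set v : I → ℂ := fun i => if z i = z₀ then w i * (f₀ i : ℂ) else 0 with hv
  have hvs : Summable fun i => ‖v i‖ :=
    summable_ite_norm (summable_mul_bdd hw (B := B₀) fun i => by
      rw [Complex.norm_real]
      exact hB₀ i) _
  have hmem : ∀ (d : ℕ →₀ ℕ), (fun i => f₀ i * ∏ k ∈ d.support, K k i ^ d k) ∈ S := by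
    intro d
    -- powers and products
    have h1 : ∀ (g : I → ℝ), g ∈ S → ∀ k n, (fun i => g i * K k i ^ n) ∈ S := by
      intro g hg k n
      induction n with
      | zero => simpa using hg
      | succ n ih =>
        have h2 := hmul _ ih _ (hK k)
        refine (congrArg (· ∈ S) (funext fun i => ?_)).mp h2
        change g i * K k i ^ n * K k i = g i * K k i ^ (n + 1)
        rw [pow_succ, mul_assoc]
    have h2 : ∀ s : Finset ℕ, (fun i => f₀ i * ∏ k ∈ s, K k i ^ d k) ∈ S := by
      intro s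
      induction s using Finset.induction_on with
      | empty => simpa using hf₀
      | insert k s hk ih =>
        have h3 := h1 _ ih k (d k)
        refine (congrArg (· ∈ S) (funext fun i => ?_)).mp h3
        rw [Finset.prod_insert hk]
        ring
    exact h2 _
  have hmono : ∀ d : ℕ →₀ ℕ, ∑' i, v i * ((∏ k ∈ d.support, K k i ^ d k : ℝ) : ℂ) = 0 := by
    intro d
    refine (tsum_congr fun i => ?_).trans (hS _ (hmem d))
    rw [hv]
    dsimp only
    by_cases hi : z i = z₀
    · rw [if_pos hi, if_pos hi, Complex.ofReal_mul, mul_assoc]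
    · rw [if_neg hi, if_neg hi, zero_mul]
  have hKb : ∀ k, ∃ B, ∀ i, |K k i| ≤ B := fun k => hbdd _ (hK k)
  have h1 := sep_coord hvs K hKb (poly_of_monomial hvs K hKb hmono) y
  refine (tsum_congr fun i => ?_).trans h1
  by_cases hi : ∀ k, K k i = y k
  · by_cases hi' : z i = z₀
    · have e1 : v i = w i * (f₀ i : ℂ) := if_pos hi'
      rw [if_pos ⟨hi, hi'⟩, if_pos hi, e1]
    · have e1 : v i = 0 := if_neg hi'
      rw [if_neg (fun h => hi' h.2), if_pos hi, e1]
  · rw [if_neg (fun h => hi h.1), if_neg hi]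

/-- **Separation for a countable family of bounded real coordinates.** -/
theorem sep_monomial {κ : Type*} [Countable κ] (hw : Summable fun i => ‖w i‖) (hR : 1 ≤ R)
    (hz : ∀ i, ‖z i‖ = 1 ∨ ((z i).im = 0 ∧ ‖z i‖ ≤ R)) (x : I → κ → ℝ)
    (hx : ∀ k, ∃ B, ∀ i, |x i k| ≤ B)
    (h : ∀ d : κ →₀ ℕ, ∃ m₀ : ℕ, ∀ m, m₀ ≤ m →
      ∑' i, w i * ((∏ k ∈ d.support, x i k ^ d k : ℝ) : ℂ) * z i ^ m = 0)
    (x₀ : κ → ℝ) {z₀ : ℂ} (hz₀ : z₀ ≠ 0) [∀ i, Decidable (x i = x₀ ∧ z i = z₀)] :
    ∑' i, (if x i = x₀ ∧ z i = z₀ then w i else 0) = 0 := by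
  classical
  obtain ⟨e, he⟩ := exists_injective_nat κ
  -- the set of the monomials
  set S : Set (I → ℝ) := Set.range fun d : κ →₀ ℕ => fun i => ∏ k ∈ d.support, x i k ^ d k
    with hS
  have hprod : ∀ (d : κ →₀ ℕ) i, (∏ k ∈ d.support, x i k ^ d k) = d.prod fun k n => x i k ^ n :=
    fun d i => rfl
  have hone : (fun _ : I => (1 : ℝ)) ∈ S := ⟨0, by funext i; simp⟩
  have hX : ∀ k, (fun i => x i k) ∈ S := fun k => ⟨Finsupp.single k 1, by
    funext i
    refine (hprod _ i).trans ?_
    refine (Finsupp.prod_single_index (h := fun k n => x i k ^ n) (pow_zero _)).trans ?_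
    exact pow_one _⟩
  have hmul : ∀ f ∈ S, ∀ g ∈ S, f * g ∈ S := by
    rintro _ ⟨d, rfl⟩ _ ⟨d', rfl⟩
    refine ⟨d + d', ?_⟩
    funext i
    rw [Pi.mul_apply]
    simp only [hprod]
    exact Finsupp.prod_add_index' (fun k => pow_zero _) (fun k m n => pow_add _ _ _)
  have hbdd : ∀ f ∈ S, ∃ B, ∀ i, |f i| ≤ B := by
    rintro _ ⟨d, rfl⟩
    choose B hB using hx
    refine ⟨∏ k ∈ d.support, |B k| ^ d k, fun i => ?_⟩
    dsimp only
    rw [Finset.abs_prod]
    refine Finset.prod_le_prod (fun k _ => abs_nonneg _) fun k _ => ?_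
    rw [abs_pow]
    exact pow_le_pow_left₀ (abs_nonneg _) ((hB k i).trans (le_abs_self _)) _
  have hmom : ∀ f ∈ S, ∃ m₀ : ℕ, ∀ m, m₀ ≤ m → ∑' i, w i * (f i : ℂ) * z i ^ m = 0 := by
    rintro _ ⟨d, rfl⟩
    exact h d
  let K : ℕ → I → ℝ := fun n i => if hn : ∃ k, e k = n then x i hn.choose else 1
  let y : ℕ → ℝ := fun n => if hn : ∃ k, e k = n then x₀ hn.choose else 1
  have hK : ∀ n, K n ∈ S := by
    intro n
    by_cases hn : ∃ k, e k = n
    · have : K n = fun i => x i hn.choose := by
        funext i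
        exact dif_pos hn
      rw [this]
      exact hX _
    · have : K n = fun _ => 1 := by
        funext i
        exact dif_neg hn
      rw [this]
      exact hone
  have hiff : ∀ i, (∀ n, K n i = y n) ↔ x i = x₀ := by
    intro i
    constructor
    · intro hi
      funext k
      have hn : ∃ k', e k' = e k := ⟨k, rfl⟩
      have h1 := hi (e k)
      have h2 : hn.choose = k := he hn.choose_spec
      simp only [K, y, dif_pos hn] at h1
      rw [h2] at h1
      exact h1
    · intro hi n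
      simp only [K, y, hi]
  have h1 := sep_semigroup hw hR hz S hmul hbdd hmom K hK y hz₀ hone
  refine (tsum_congr fun i => ?_).trans h1
  by_cases hi : x i = x₀ ∧ z i = z₀
  · rw [if_pos hi, if_pos ⟨(hiff i).mpr hi.1, hi.2⟩, Complex.ofReal_one, mul_one]
  · rw [if_neg hi, if_neg fun h => hi ⟨(hiff i).mp h.1, h.2⟩]

end Combined

end Fermat.Agent.H69S
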