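import Fermat.Agent.H42S2
import Fermat.Agent.H69S2

/-!
H42S3 (project S47, C20): `SepStatement` from the separation theorem of H69S2 (no countability of
the family of operators).
-/

set_option autoImplicit false

namespace Fermat.Agent.H42S

theorem prod_list_eq {J : Type*} (d : J →₀ ℕ) (f : J → ℝ) :
    ((d.toMultiset.toList).map f).prod = ∏ k ∈ d.support, f k ^ d k := by
  have h1 : (((d.toMultiset.toList).map f : List ℝ) : Multiset ℝ) = d.toMultiset.map f := by
    rw [← Multiset.map_coe, Multiset.coe_toList]
  have h2 : ((d.toMultiset.toList).map f).prod = (d.toMultiset.map f).prod := by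
    rw [← h1, Multiset.prod_coe]
  rw [h2, Finsupp.toMultiset_map, Finsupp.prod_toMultiset]
  classical
  rw [Finsupp.prod_mapDomain_index (by simp) (by intro a m n; exact pow_add _ _ _)]
  rfl

theorem sepStatement : SepStatement := by
  classical
  intro I J a ha x B hB z R hR hz h x₀ z₀ hz₀
  have hz0 : z₀ ≠ 0 := by
    rintro rfl
    simp at hz₀
    linarith
  -- the support of `a` is countable
  have hc : {i | a i ≠ 0}.Countable := by
    have := ha.countable_support
    refine this.mono ?_
    intro i hi
    simpa [Function.mem_support] using hi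
  -- countably many coordinates separate `x₀` on the support
  have hch : ∀ i : I, x i ≠ x₀ → ∃ j, x i j ≠ x₀ j := fun i hi => Function.ne_iff.mp hi
  choose js hjs using hch
  have hcc : Countable {i : I // a i ≠ 0 ∧ x i ≠ x₀} :=
    (hc.mono (fun i (hi : a i ≠ 0 ∧ x i ≠ x₀) => hi.1)).to_subtype
  let J' : Type := (Set.range fun i : {i : I // a i ≠ 0 ∧ x i ≠ x₀} => js i.1 i.2.2 : Set J)
  have : Countable J' := (Set.countable_range _).to_subtype
  have key := Fermat.Agent.H69S.sep_monomial (κ := J') (R := max R 1) ha (le_max_right _ _)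
    (fun i => (hz i).imp id fun h => ⟨h, (hR i).trans (le_max_left _ _)⟩)
    (fun i (k : J') => x i k.1) (fun k => ⟨B k.1, fun i => hB i k.1⟩)
    (by
      intro d
      obtain ⟨m₀, hm₀⟩ := h ((d.toMultiset.toList).map Subtype.val)
      refine ⟨m₀, fun m hm => ?_⟩
      refine Eq.trans (tsum_congr fun i => ?_) (hm₀ m hm)
      rw [List.map_map]
      exact congrArg (fun r : ℝ => a i * (r : ℂ) * z i ^ m)
        (prod_list_eq d fun k : J' => x i k.1).symm)
    (fun k => x₀ k.1) hz0
  rw [← key]
  refine tsum_congr fun i => ?_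
  by_cases hai : a i = 0
  · simp [Set.indicator, hai]
  · rw [Set.indicator]
    have e : ((fun k : J' => x i k.1) = fun k => x₀ k.1) ↔ x i = x₀ := by
      constructor
      · intro h1
        by_contra h2
        exact hjs i h2 (congrFun h1 ⟨js i h2, ⟨i, hai, h2⟩, rfl⟩)
      · rintro rfl; rfl
    simp only [e]
    by_cases h3 : x i = x₀ ∧ z i = z₀
    · rw [if_pos h3, if_pos (show i ∈ {i | x i = x₀ ∧ z i = z₀} from h3)]
    · rw [if_neg h3, if_neg (show i ∉ {i | x i = x₀ ∧ z i = z₀} from h3)]

end Fermat.Agent.H42S
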