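import Fermat.Agent.H42S1
import Mathlib

/-!
# The trace of `A s` for an automorphism `s` permuting a commuting family

`trace_mul_perm_gen`: the version of `H42S.trace_mul_perm` which does not assume that `s` is the
identity on the stable joint generalised eigenspaces.  `norm_bt_le`: if `s ^ 3 = 1` then the traces
of `s` on the stable blocks are bounded by the dimension.
-/

set_option autoImplicit false
set_option linter.unusedSectionVars false

open Module Module.End

namespace Fermat.Agent.H69S

open Fermat.Agent.H42S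

variable {K E : Type*} [AddCommGroup E] [Module ℂ E]

lemma lprod_nil (Y : K → Module.End ℂ E) : lprod Y [] = 1 := rfl

lemma lprod_cons (Y : K → Module.End ℂ E) (k : K) (L : List K) :
    lprod Y (k :: L) = Y k * lprod Y L := by
  simp [lprod]

lemma intertwine_lprod {Y : K → Module.End ℂ E} {σ : K ≃ K} {s : Module.End ℂ E}
    (hs : ∀ k, s * Y k = Y (σ k) * s) (L : List K) :
    s * lprod Y L = lprod Y (L.map σ) * s := by
  induction L with
  | nil => simp [lprod]
  | cons k L ih => rw [lprod_cons, List.map_cons, lprod_cons, ← mul_assoc, hs, mul_assoc, ih,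
      mul_assoc]

lemma commute_lprod_lprod {Y : K → Module.End ℂ E} (hY : ∀ i j, Commute (Y i) (Y j))
    (L L' : List K) : Commute (lprod Y L) (lprod Y L') := by
  induction L' with
  | nil => rw [lprod_nil]; exact Commute.one_right _
  | cons k L' ih => rw [lprod_cons]; exact (commute_lprod hY L k).mul_right ih

/-- if `s` twists the commuting nilpotent elements `Q₀ → Q₁ → Q₂ → Q₀` then `Q₀ s` is nilpotent -/
lemma isNilpotent_mul_twist {R : Type*} [Ring R] {Q₀ Q₁ Q₂ s : R}
    (h01 : Commute Q₀ Q₁) (h02 : Commute Q₀ Q₂)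
    (h1 : s * Q₀ = Q₁ * s) (h2 : s * Q₁ = Q₂ * s) (h3 : s * Q₂ = Q₀ * s)
    (hn : IsNilpotent Q₀) : IsNilpotent (Q₀ * s) := by
  have e : (Q₀ * s) ^ 3 = Q₀ * (Q₁ * Q₂ * (s * s * s)) := by
    have e1 : (Q₀ * s) ^ 3 = Q₀ * (s * Q₀) * (s * Q₀) * s := by
      rw [pow_succ, pow_two]
      simp only [mul_assoc]
    have e2 : s * (Q₁ * s) = Q₂ * (s * s) := by rw [← mul_assoc, h2, mul_assoc]
    rw [e1, h1]
    calc Q₀ * (Q₁ * s) * (Q₁ * s) * s = Q₀ * (Q₁ * (s * (Q₁ * s) * s)) := by
          simp only [mul_assoc]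
      _ = Q₀ * (Q₁ * Q₂ * (s * s * s)) := by rw [e2]; simp only [mul_assoc]
  have h4 : Commute Q₀ (s * s * s) := by
    change Q₀ * (s * s * s) = s * s * s * Q₀
    calc Q₀ * (s * s * s) = (Q₀ * s) * (s * s) := by simp only [mul_assoc]
      _ = s * (Q₂ * s) * s := by rw [← h3]; simp only [mul_assoc]
      _ = s * (s * Q₁) * s := by rw [← h2]
      _ = s * s * (Q₁ * s) := by simp only [mul_assoc]
      _ = s * s * s * Q₀ := by rw [← h1]; simp only [mul_assoc]
  have h5 : Commute Q₀ (Q₁ * Q₂ * (s * s * s)) := (h01.mul_right h02).mul_right h4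
  refine IsNilpotent.of_pow (m := 3) ?_
  rw [e]
  exact h5.isNilpotent_mul_right hn

section Blk

variable [FiniteDimensional ℂ E]

/-- the trace of `s` on a joint generalised eigenspace (zero if it is not stable) -/
noncomputable def bt (Y : K → Module.End ℂ E) (s : Module.End ℂ E) (χ : K → ℂ) : ℂ := by
  classical
  exact if h : Set.MapsTo s (blk Y χ) (blk Y χ) then
    LinearMap.trace ℂ (blk Y χ) (s.restrict h) else 0

lemma bt_eq {Y : K → Module.End ℂ E} {s : Module.End ℂ E} {χ : K → ℂ}
    (h : Set.MapsTo s (blk Y χ) (blk Y χ)) :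
    bt Y s χ = LinearMap.trace ℂ (blk Y χ) (s.restrict h) := by
  classical
  exact dif_pos h

/-- the trace of a product on a stable block -/
lemma trace_blk_mul {Y : K → Module.End ℂ E} (hY : ∀ i j, Commute (Y i) (Y j)) {σ : K ≃ K}
    (hσ : ∀ k, σ (σ (σ k)) = k) {s : Module.End ℂ E} (hs : ∀ k, s * Y k = Y (σ k) * s)
    (L : List K) {χ : K → ℂ} (hχ : χ ∘ σ = χ)
    (hm : Set.MapsTo (lprod Y L) (blk Y χ) (blk Y χ))
    (hms : Set.MapsTo s (blk Y χ) (blk Y χ)) :
    LinearMap.trace ℂ (blk Y χ) ((lprod Y L).restrict hm * s.restrict hms) =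
      (L.map χ).prod * LinearMap.trace ℂ (blk Y χ) (s.restrict hms) := by
  have hL : ∀ L : List K, ((L.map σ).map χ).prod = (L.map χ).prod := by
    intro L
    rw [List.map_map, hχ]
  set P : List K → Module.End ℂ (blk Y χ) := fun L =>
    (lprod Y L).restrict (mapsTo_lprod hY L χ) -
      algebraMap ℂ (Module.End ℂ (blk Y χ)) (L.map χ).prod with hP
  have hPn : ∀ L, IsNilpotent (P L) := fun L => isNilpotent_of_blk hY L χ _
  have hPc : ∀ L L', Commute (P L) (P L') := by
    intro L L'
    have h1 : Commute ((lprod Y L).restrict (mapsTo_lprod hY L χ))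
        ((lprod Y L').restrict (mapsTo_lprod hY L' χ)) :=
      LinearMap.restrict_commute (commute_lprod_lprod hY L L') _ _
    exact (h1.sub_left (Algebra.commutes _ _)).sub_right
      ((Algebra.commute_algebraMap_right _ _).sub_left (Algebra.commute_algebraMap_right _ _))
  have hPs : ∀ L, s.restrict hms * P L = P (L.map σ) * s.restrict hms := by
    intro L
    rw [hP]
    dsimp only
    rw [mul_sub, sub_mul, hL]
    congr 1
    · refine LinearMap.ext fun v => Subtype.ext ?_
      exact congrArg (fun f : Module.End ℂ E => f (v : E)) (intertwine_lprod hs L)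
    · exact (Algebra.commutes _ _).symm
  have hn : IsNilpotent (P L * s.restrict hms) := by
    have e : P (((L.map σ).map σ).map σ) = P L := by
      congr 1
      rw [List.map_map, List.map_map]
      conv_rhs => rw [← List.map_id L]
      refine List.map_congr_left fun k _ => ?_
      exact hσ k
    refine isNilpotent_mul_twist (hPc L (L.map σ)) (hPc L ((L.map σ).map σ)) (hPs L) (hPs _) ?_
      (hPn L)
    rw [hPs, e]
  have h0 : LinearMap.trace ℂ (blk Y χ) (P L * s.restrict hms) = 0 :=
    (LinearMap.isNilpotent_trace_of_isNilpotent hn).eq_zero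
  have e : (lprod Y L).restrict hm * s.restrict hms =
      P L * s.restrict hms + (L.map χ).prod • s.restrict hms := by
    rw [hP]
    dsimp only
    rw [sub_mul, Algebra.algebraMap_eq_smul_one, smul_mul_assoc, one_mul, sub_add_cancel]
  rw [e, map_add, h0, zero_add, map_smul, smul_eq_mul]

/-- **The trace of `A s`**, general form. -/
theorem trace_mul_perm_gen {Y : K → Module.End ℂ E}
    (hY : ∀ i j, Commute (Y i) (Y j)) {σ : K ≃ K} (hσ : ∀ k, σ (σ (σ k)) = k)
    {s : Module.End ℂ E} (hs : ∀ k, s * Y k = Y (σ k) * s) (L : List K)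
    [DecidablePred fun χ : K → ℂ => χ ∘ σ = χ] :
    LinearMap.trace ℂ E (lprod Y L * s) =
      ∑ χ ∈ (finite_supp Y hY).toFinset with χ ∘ σ = χ, (L.map χ).prod * bt Y s χ := by
  classical
  have hint := internal_blk Y hY
  let ι : Type _ := {χ : K → ℂ // blk Y χ ≠ ⊥}
  have hint' : DirectSum.IsInternal fun i : ι => blk Y i.1 :=
    DirectSum.isInternal_ne_bot_iff.mpr hint
  let _ : Fintype ι := (finite_supp Y hY).fintype
  let b : (i : ι) → Basis _ ℂ (blk Y i.1) := fun i => Module.Free.chooseBasis ℂ (blk Y i.1)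
  let B := hint'.collectedBasis b
  rw [LinearMap.trace_eq_matrix_trace ℂ B, Matrix.trace, Fintype.sum_sigma]
  have key : ∀ i : ι, (∑ k, Matrix.diag (LinearMap.toMatrix B B (lprod Y L * s)) ⟨i, k⟩) =
      if i.1 ∘ σ = i.1 then (L.map i.1).prod * bt Y s i.1 else 0 := by
    intro i
    split_ifs with hi
    · have hi' : i.1 ∘ σ.symm = i.1 := by
        conv_lhs => rw [← hi]
        funext x
        simp
      have hms : Set.MapsTo s (blk Y i.1) (blk Y i.1) := fun v hv => by
        have := mapsTo_of_intertwine hs i.1 hv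
        rwa [hi'] at this
      rw [bt_eq hms, ← trace_blk_mul hY hσ hs L hi (mapsTo_lprod hY L i.1) hms,
        LinearMap.trace_eq_matrix_trace ℂ (b i), Matrix.trace]
      refine Finset.sum_congr rfl fun k _ => ?_
      rw [Matrix.diag_apply, Matrix.diag_apply, LinearMap.toMatrix_apply, LinearMap.toMatrix_apply]
      have h1 : B ⟨i, k⟩ = (b i k : E) := by
        change hint'.collectedBasis b ⟨i, k⟩ = _
        rw [DirectSum.IsInternal.collectedBasis_coe]
      rw [h1]
      have h3 : (lprod Y L * s) (b i k : E) ∈ blk Y i.1 := by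
        rw [Module.End.mul_apply]
        exact mapsTo_lprod hY L i.1 (hms (b i k).2)
      rw [hint'.collectedBasis_repr_of_mem b (a := k) h3]
      rfl
    · refine Finset.sum_eq_zero fun k _ => ?_
      rw [Matrix.diag_apply, LinearMap.toMatrix_apply]
      have h1 : B ⟨i, k⟩ = (b i k : E) := by
        change hint'.collectedBasis b ⟨i, k⟩ = _
        rw [DirectSum.IsInternal.collectedBasis_coe]
      rw [h1]
      have h3 : (lprod Y L * s) (b i k : E) ∈ blk Y (i.1 ∘ σ.symm) := by
        rw [Module.End.mul_apply]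
        exact mapsTo_lprod hY L _ (mapsTo_of_intertwine hs i.1 (b i k).2)
      by_cases hb : blk Y (i.1 ∘ σ.symm) = ⊥
      · rw [hb, Submodule.mem_bot] at h3
        rw [h3]; simp
      · refine hint'.collectedBasis_repr_of_mem_ne b (i := ⟨i.1 ∘ σ.symm, hb⟩) (j := i) ?_ h3
        intro he
        apply hi
        have h4 : i.1 ∘ σ.symm = i.1 := congrArg Subtype.val he
        conv_lhs => rw [← h4]
        ext x
        simp
  rw [Finset.sum_congr rfl fun i _ => key i, Finset.sum_filter]
  exact (Finset.sum_subtype (finite_supp Y hY).toFinset (fun χ => by simp)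
    (fun χ => if χ ∘ σ = χ then (L.map χ).prod * bt Y s χ else 0)).symm

omit [FiniteDimensional ℂ E] in
/-- the trace of an endomorphism of order `3` is bounded by the dimension -/
lemma norm_trace_le {V : Type*} [AddCommGroup V] [Module ℂ V] [FiniteDimensional ℂ V]
    {f : Module.End ℂ V} (hf : f ^ 3 = 1) : ‖LinearMap.trace ℂ V f‖ ≤ finrank ℂ V := by
  have hsp : f.charpoly.Splits := IsAlgClosed.splits _
  rw [trace_eq_sum_roots_charpoly_of_splits hsp]
  have hroot : ∀ μ ∈ f.charpoly.roots, ‖μ‖ = 1 := by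
    intro μ hμ
    have h1 : f.HasEigenvalue μ :=
      (hasEigenvalue_iff_isRoot_charpoly f μ).mpr (Polynomial.isRoot_of_mem_roots hμ)
    obtain ⟨v, hv⟩ := h1.exists_hasEigenvector
    have h2 : (f ^ 3) v = μ ^ 3 • v := hv.pow_apply 3
    rw [hf, Module.End.one_apply] at h2
    have h3 : μ ^ 3 = 1 := by
      have h4 : (μ ^ 3 - 1) • v = 0 := by rw [sub_smul, one_smul, ← h2, sub_self]
      exact sub_eq_zero.mp ((smul_eq_zero.mp h4).resolve_right hv.2)
    have h4 : ‖μ‖ ^ 3 = 1 := by rw [← norm_pow, h3, norm_one]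
    exact (pow_eq_one_iff_of_nonneg (norm_nonneg _) (by norm_num)).mp h4
  have hcard : Multiset.card f.charpoly.roots = finrank ℂ V := by
    rw [← LinearMap.charpoly_natDegree f]
    exact (Polynomial.splits_iff_card_roots.mp hsp)
  have h5 : ∀ s : Multiset ℂ, (∀ μ ∈ s, ‖μ‖ = 1) → ‖s.sum‖ ≤ Multiset.card s := by
    intro s
    induction s using Multiset.induction_on with
    | empty => simp
    | cons a s ih =>
      intro h
      rw [Multiset.sum_cons, Multiset.card_cons]
      refine (norm_add_le _ _).trans ?_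
      rw [h a (Multiset.mem_cons_self a s)]
      have := ih fun μ hμ => h μ (Multiset.mem_cons_of_mem hμ)
      push_cast
      linarith
  rw [← hcard]
  exact h5 _ hroot

/-- bound of the block traces -/
lemma norm_bt_le {Y : K → Module.End ℂ E} {s : Module.End ℂ E} (hs3 : s ^ 3 = 1)
    (χ : K → ℂ) : ‖bt Y s χ‖ ≤ finrank ℂ (blk Y χ) := by
  classical
  by_cases h : Set.MapsTo s (blk Y χ) (blk Y χ)
  · rw [bt_eq h]
    refine norm_trace_le ?_
    refine LinearMap.ext fun v => Subtype.ext ?_
    have h1 := congrArg (fun f : Module.End ℂ E => f (v : E)) hs3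
    have h2 : (s.restrict h) ^ 3 = s.restrict h * s.restrict h * s.restrict h := by
      rw [pow_succ, pow_two]
    have h3 : s ^ 3 = s * s * s := by rw [pow_succ, pow_two]
    rw [h2]
    rw [h3] at h1
    exact h1
  · rw [bt, dif_neg h, norm_zero]
    positivity

/-- the block trace if `s` is the identity on the block -/
lemma bt_of_id {Y : K → Module.End ℂ E} {s : Module.End ℂ E} {χ : K → ℂ}
    (h : ∀ v ∈ blk Y χ, s v = v) : bt Y s χ = finrank ℂ (blk Y χ) := by
  have hm : Set.MapsTo s (blk Y χ) (blk Y χ) := fun v hv => by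
    rw [h v hv]
    exact hv
  rw [bt_eq hm]
  have : s.restrict hm = 1 := LinearMap.ext fun v => Subtype.ext (h v v.2)
  rw [this, LinearMap.trace_one]

end Blk

end Fermat.Agent.H69S
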