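import Fermat.Agent.H42S3
import Fermat.Agent.H69S3

/-!
H42S4 (project S47, C20): the abstract end of the comparison of two trace formulas, version with
complex weights: `s` (of order three) need not be the identity on the stable blocks; positivity is
only used at the target coordinates.
-/

set_option autoImplicit false

open Module Module.End

namespace Fermat.Agent.H42S

open Fermat.Agent.H69S

/-- One side of the comparison (complex weights). `E i` = eigenspace of the Hilbert-Schmidt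
operator, `a i` = weight, `Y i` = a commuting family containing the operators `j l` to be separated
and the operator `u`; `s` permutes the family. -/
structure SideC (J : Type) where
  ι : Type
  a : ι → ℝ
  a_nonneg : ∀ i, 0 ≤ a i
  E : ι → Type
  [instE : ∀ i, AddCommGroup (E i)]
  [instM : ∀ i, Module ℂ (E i)]
  [instF : ∀ i, FiniteDimensional ℂ (E i)]
  K : Type
  Y : ∀ i, K → Module.End ℂ (E i)
  comm : ∀ i k l, Commute (Y i k) (Y i l)
  σ : K ≃ K
  σ3 : ∀ k, σ (σ (σ k)) = k
  s : ∀ i, Module.End ℂ (E i)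
  s3 : ∀ i, s i ^ 3 = 1
  s_comm : ∀ i k, s i * Y i k = Y i (σ k) * s i
  summable : Summable fun i => a i * finrank ℂ (E i)
  j : J → K
  u : K
  B : J → ℝ
  R : ℝ
  real : ∀ i (χ : K → ℂ), χ ∘ σ = χ → blk (Y i) χ ≠ ⊥ →
    ∀ l, (χ (j l)).im = 0 ∧ |(χ (j l)).re| ≤ B l
  bound : ∀ i (χ : K → ℂ), χ ∘ σ = χ → blk (Y i) χ ≠ ⊥ →
    ‖χ u‖ ≤ R ∧ (‖χ u‖ = 1 ∨ (χ u).im = 0)

namespace SideC

variable {J : Type} (S : SideC J)

attribute [instance] SideC.instE SideC.instM SideC.instF

/-- the trace of `X_L U^m s`, weighted over all eigenspaces -/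
noncomputable def tr (L : List J) (m : ℕ) : ℂ :=
  ∑' i, (S.a i : ℂ) * LinearMap.trace ℂ (S.E i)
    (lprod (S.Y i) (L.map S.j ++ List.replicate m S.u) * S.s i)

open Classical in
/-- the stable blocks of `E i` -/
noncomputable def supp (i : S.ι) : Finset (S.K → ℂ) :=
  (finite_supp (S.Y i) (S.comm i)).toFinset.filter fun χ => χ ∘ S.σ = χ

theorem mem_supp {i : S.ι} {χ : S.K → ℂ} :
    χ ∈ S.supp i ↔ blk (S.Y i) χ ≠ ⊥ ∧ χ ∘ S.σ = χ := by
  classical
  simp [supp]

/-- the index set -/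
def I : Type := Σ i : S.ι, {χ : S.K → ℂ // χ ∈ S.supp i}

/-- the block -/
def V (p : S.I) : Submodule ℂ (S.E p.1) := blk (S.Y p.1) p.2.1

/-- weight of a block -/
noncomputable def w (p : S.I) : ℂ := S.a p.1 * bt (S.Y p.1) (S.s p.1) p.2.1

/-- bound of the weight -/
noncomputable def w' (p : S.I) : ℝ := S.a p.1 * finrank ℂ (blk (S.Y p.1) p.2.1)

/-- eigenvalues -/
def x (p : S.I) (l : J) : ℝ := (p.2.1 (S.j l)).re

/-- eigenvalue of `U` -/
def z (p : S.I) : ℂ := p.2.1 S.u

theorem w'_nonneg (p : S.I) : 0 ≤ S.w' p := mul_nonneg (S.a_nonneg _) (Nat.cast_nonneg _)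

theorem norm_w_le (p : S.I) : ‖S.w p‖ ≤ S.w' p := by
  rw [w, w', norm_mul, Complex.norm_real, Real.norm_eq_abs, abs_of_nonneg (S.a_nonneg _)]
  exact mul_le_mul_of_nonneg_left (norm_bt_le (S.s3 _) _) (S.a_nonneg _)

theorem ne_bot (p : S.I) : blk (S.Y p.1) p.2.1 ≠ ⊥ := (S.mem_supp.mp p.2.2).1

theorem comp_σ (p : S.I) : p.2.1 ∘ S.σ = p.2.1 := (S.mem_supp.mp p.2.2).2

theorem finrank_pos (p : S.I) : 0 < finrank ℂ (blk (S.Y p.1) p.2.1) := by
  have := Submodule.nontrivial_iff_ne_bot.mpr (S.ne_bot p)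
  exact Module.finrank_pos

theorem x_eq (p : S.I) (l : J) : (S.x p l : ℂ) = p.2.1 (S.j l) := by
  obtain ⟨h1, h2⟩ := S.mem_supp.mp p.2.2
  exact Complex.ext rfl (by simpa [x] using (S.real p.1 p.2.1 h2 h1 l).1.symm)

theorem x_le (p : S.I) (l : J) : |S.x p l| ≤ S.B l := by
  obtain ⟨h1, h2⟩ := S.mem_supp.mp p.2.2
  exact (S.real p.1 p.2.1 h2 h1 l).2

theorem z_le (p : S.I) : ‖S.z p‖ ≤ S.R := by
  obtain ⟨h1, h2⟩ := S.mem_supp.mp p.2.2
  exact (S.bound p.1 p.2.1 h2 h1).1

theorem z_cases (p : S.I) : ‖S.z p‖ = 1 ∨ (S.z p).im = 0 := by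
  obtain ⟨h1, h2⟩ := S.mem_supp.mp p.2.2
  exact (S.bound p.1 p.2.1 h2 h1).2

theorem sum_finrank_le (i : S.ι) :
    ∑ χ ∈ S.supp i, (finrank ℂ (blk (S.Y i) χ) : ℝ) ≤ finrank ℂ (S.E i) := by
  classical
  have h1 := trace_mul_perm (S.comm i) (σ := Equiv.refl _) (s := 1) (fun k => by simp)
    (fun χ _ v _ => rfl) []
  simp only [lprod, List.map_nil, List.prod_nil, mul_one, LinearMap.trace_one, one_mul,
    Equiv.coe_refl, Function.comp_id, Finset.filter_true] at h1
  have h2 : (finrank ℂ (S.E i) : ℝ) =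
      ∑ χ ∈ (finite_supp (S.Y i) (S.comm i)).toFinset, (finrank ℂ (blk (S.Y i) χ) : ℝ) := by
    exact_mod_cast h1
  rw [h2]
  exact Finset.sum_le_sum_of_subset_of_nonneg (Finset.filter_subset _ _)
    fun _ _ _ => Nat.cast_nonneg _

theorem summable_w' : Summable S.w' := by
  refine (summable_sigma_of_nonneg S.w'_nonneg).mpr ⟨fun i => ?_, ?_⟩
  · exact (hasSum_fintype _).summable
  · refine Summable.of_nonneg_of_le (fun i => tsum_nonneg fun _ => S.w'_nonneg _) (fun i => ?_)
      S.summable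
    rw [tsum_fintype]
    have h1 : ∑ b : {χ : S.K → ℂ // χ ∈ S.supp i}, S.w' ⟨i, b⟩ =
        S.a i * ∑ χ ∈ S.supp i, (finrank ℂ (blk (S.Y i) χ) : ℝ) := by
      rw [Finset.mul_sum]
      exact Finset.sum_coe_sort (S.supp i)
        fun χ => S.a i * (finrank ℂ (blk (S.Y i) χ) : ℝ)
    rw [h1]
    exact mul_le_mul_of_nonneg_left (S.sum_finrank_le i) (S.a_nonneg i)

theorem summable_w : Summable fun p => ‖S.w p‖ :=
  Summable.of_nonneg_of_le (fun _ => norm_nonneg _) S.norm_w_le S.summable_w'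

theorem summable_term (L : List J) (m : ℕ) :
    Summable fun p : S.I => S.w p * (((L.map (S.x p)).prod : ℝ) : ℂ) * S.z p ^ m := by
  have h1 : ∀ p : S.I, |(L.map (S.x p)).prod| ≤ (L.map S.B).prod := by
    intro p
    induction L with
    | nil => simp
    | cons l L ih =>
      rw [List.map_cons, List.prod_cons, List.map_cons, List.prod_cons, abs_mul]
      exact mul_le_mul (S.x_le p l) ih (abs_nonneg _) ((abs_nonneg _).trans (S.x_le p l))
  refine Summable.of_norm_bounded (g := fun p => S.w' p * ((L.map S.B).prod * S.R ^ m))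
    (S.summable_w'.mul_right _) fun p => ?_
  rw [norm_mul, norm_mul, Complex.norm_real, norm_pow, Real.norm_eq_abs, mul_assoc]
  refine mul_le_mul (S.norm_w_le p) ?_ (by positivity) (S.w'_nonneg p)
  exact mul_le_mul (h1 p) (pow_le_pow_left₀ (norm_nonneg _) (S.z_le p) m)
    (pow_nonneg (norm_nonneg _) _) ((abs_nonneg _).trans (h1 p))

theorem tr_eq (L : List J) (m : ℕ) :
    S.tr L m = ∑' p : S.I, S.w p * (((L.map (S.x p)).prod : ℝ) : ℂ) * S.z p ^ m := by
  classical
  have h1 := S.summable_term L m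
  have h2 : ∑' p : S.I, S.w p * (((L.map (S.x p)).prod : ℝ) : ℂ) * S.z p ^ m =
      ∑' i, ∑' b : {χ : S.K → ℂ // χ ∈ S.supp i},
        S.w ⟨i, b⟩ * (((L.map (S.x ⟨i, b⟩)).prod : ℝ) : ℂ) * S.z ⟨i, b⟩ ^ m :=
    h1.tsum_sigma' fun i => (hasSum_fintype _).summable
  rw [h2, tr]
  refine tsum_congr fun i => ?_
  rw [tsum_fintype, trace_mul_perm_gen (S.comm i) S.σ3 (S.s_comm i), Finset.mul_sum]
  change ∑ χ ∈ S.supp i, _ = _
  rw [← Finset.sum_coe_sort (S.supp i)]
  refine Finset.sum_congr rfl fun b _ => ?_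
  have e1 : ((L.map S.j ++ List.replicate m S.u).map b.1).prod =
      (((L.map (S.x ⟨i, b⟩)).prod : ℝ) : ℂ) * S.z ⟨i, b⟩ ^ m := by
    rw [List.map_append, List.prod_append, List.map_replicate, List.prod_replicate]
    congr 1
    clear h1 h2
    induction L with
    | nil => simp
    | cons l L ih =>
      rw [List.map_cons, List.map_cons, List.prod_cons, List.map_cons, List.prod_cons, ih,
        Complex.ofReal_mul, S.x_eq ⟨i, b⟩ l]
  rw [e1]
  simp only [w]
  ring

/-- A joint eigenvector of all the operators of the family gives an index. -/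
def mkI {i : S.ι} {χ : S.K → ℂ} {v : S.E i} (hv : v ≠ 0)
    (hχ : ∀ k, S.Y i k v = χ k • v) (hσ : χ ∘ S.σ = χ) : S.I :=
  ⟨i, χ, S.mem_supp.mpr ⟨by
    intro h
    apply hv
    rw [← Submodule.mem_bot ℂ, ← h, mem_blk]
    intro k
    refine ⟨1, ?_⟩
    rw [pow_one, LinearMap.sub_apply, hχ, LinearMap.smul_apply, Module.End.one_apply, sub_self],
    hσ⟩⟩

end SideC

/-- **C20 (abstract), complex weights**: if `s` is the identity on all blocks with the target
coordinates, and there is such a block with positive weight and `|z₀| ≥ 1`, then the target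
coordinates occur on the other side. -/
theorem exists_block_c {J : Type} (S S' : SideC J) (κ : ℂ)
    (TI : ∀ L : List J, ∃ m₀ : ℕ, ∀ m ≥ m₀, S.tr L m = κ * S'.tr L m)
    (p₀ : S.I) (ha : 0 < S.a p₀.1)
    (hpos : ∀ p : S.I, S.x p = S.x p₀ → S.z p = S.z p₀ →
      ∀ v ∈ blk (S.Y p.1) p.2.1, S.s p.1 v = v)
    (hz : 1 ≤ ‖S.z p₀‖) :
    ∃ p : S'.I, S'.x p = S.x p₀ ∧ S'.z p = S.z p₀ := by
  classical
  by_contra hcon
  push Not at hcon
  let I : Type := S.I ⊕ S'.I
  let a : I → ℂ := Sum.elim S.w fun p => -κ * S'.w p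
  let x : I → J → ℝ := Sum.elim S.x S'.x
  let z : I → ℂ := Sum.elim S.z S'.z
  have hsum : Summable fun i => ‖a i‖ := by
    apply Summable.sum
    · exact S.summable_w
    · have : (fun i => ‖a i‖) ∘ Sum.inr = fun p => ‖κ‖ * ‖S'.w p‖ := by
        ext p
        simp [a]
      rw [this]; exact S'.summable_w.mul_left _
  have hzero := sepStatement I J a hsum x (fun l => max (S.B l) (S'.B l))
    (by rintro (p | p) l
        · exact (S.x_le p l).trans (le_max_left _ _)
        · exact (S'.x_le p l).trans (le_max_right _ _)) z (max S.R S'.R)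
    (by rintro (p | p)
        · exact (S.z_le p).trans (le_max_left _ _)
        · exact (S'.z_le p).trans (le_max_right _ _))
    (by rintro (p | p)
        · exact S.z_cases p
        · exact S'.z_cases p)
    (by
      intro L
      obtain ⟨m₀, hm₀⟩ := TI L
      refine ⟨m₀, fun m hm => ?_⟩
      have h1 := (S.summable_term L m).hasSum
      have h2 := ((S'.summable_term L m).hasSum.mul_left (-κ))
      have h3 : HasSum (fun i => a i * (((L.map (x i)).prod : ℝ) : ℂ) * z i ^ m)
          (S.tr L m + -κ * S'.tr L m) := by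
        rw [S.tr_eq, S'.tr_eq]
        refine HasSum.sum h1 ?_
        have h4 : (fun i => a i * (((L.map (x i)).prod : ℝ) : ℂ) * z i ^ m) ∘ Sum.inr =
            fun p => -κ * (S'.w p * (((L.map (S'.x p)).prod : ℝ) : ℂ) * S'.z p ^ m) := by
          funext p
          change (-κ * S'.w p) * (((L.map (S'.x p)).prod : ℝ) : ℂ) * S'.z p ^ m = _
          ring
        rw [h4]
        exact h2
      rw [h3.tsum_eq, hm₀ m hm]
      ring)
    (S.x p₀) (S.z p₀) hz
  -- compute the sum
  have h4 : HasSum (fun i : I => Set.indicator {i | x i = S.x p₀ ∧ z i = S.z p₀} a i)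
      (((∑' p, Set.indicator {p : S.I | S.x p = S.x p₀ ∧ S.z p = S.z p₀} S.w' p : ℝ) : ℂ) +
        0) := by
    refine HasSum.sum ?_ ?_
    · have h5 : (fun i : I => Set.indicator {i | x i = S.x p₀ ∧ z i = S.z p₀} a i) ∘ Sum.inl =
          fun p =>
            ((Set.indicator {p : S.I | S.x p = S.x p₀ ∧ S.z p = S.z p₀} S.w' p : ℝ) : ℂ) := by
        funext p
        simp only [Function.comp_apply, Set.indicator, Set.mem_ofPred_eq, x, z, a, Sum.elim_inl]
        split_ifs with h
        · rw [SideC.w, SideC.w', bt_of_id (hpos p h.1 h.2)]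
          push_cast
          ring
        · simp
      rw [h5]
      exact (Complex.hasSum_ofReal).mpr (S.summable_w'.indicator _).hasSum
    · have h5 : (fun i : I => Set.indicator {i | x i = S.x p₀ ∧ z i = S.z p₀} a i) ∘ Sum.inr =
          fun _ => 0 := by
        funext p
        simp only [Function.comp_apply, Set.indicator, Set.mem_ofPred_eq, x, z, Sum.elim_inr]
        split_ifs with h
        · exact absurd h.2 (hcon p h.1)
        · rfl
      rw [h5]
      exact hasSum_zero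
  have h6 : ∑' p, Set.indicator {p : S.I | S.x p = S.x p₀ ∧ S.z p = S.z p₀} S.w' p = 0 := by
    have := h4.tsum_eq.symm.trans hzero
    rw [add_zero] at this
    exact_mod_cast this
  have h7 : 0 < ∑' p, Set.indicator {p : S.I | S.x p = S.x p₀ ∧ S.z p = S.z p₀} S.w' p := by
    refine (S.summable_w'.indicator _).tsum_pos (fun p => Set.indicator_nonneg
      (fun p _ => S.w'_nonneg p) p) p₀ ?_
    rw [Set.indicator_of_mem]
    · exact mul_pos ha (Nat.cast_pos.mpr (S.finrank_pos p₀))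
    · exact ⟨rfl, rfl⟩
  exact h7.ne' h6

/-- A nonzero joint generalised eigenspace of a commuting family contains a genuine joint
eigenvector. -/
theorem exists_joint {K E : Type*} [AddCommGroup E] [Module ℂ E] [FiniteDimensional ℂ E]
    {Y : K → Module.End ℂ E} (hY : ∀ i j, Commute (Y i) (Y j)) {χ : K → ℂ}
    (hb : blk Y χ ≠ ⊥) : ∃ v, v ≠ 0 ∧ v ∈ blk Y χ ∧ ∀ k, Y k v = χ k • v := by
  classical
  -- a minimal nonzero stable subspace
  let P : Set (Submodule ℂ E) := {W | W ≠ ⊥ ∧ W ≤ blk Y χ ∧ ∀ k, ∀ v ∈ W, Y k v ∈ W}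
  have hP : P.Nonempty := ⟨blk Y χ, hb, le_rfl, fun k v hv =>
    mapsTo_of_commute (fun j => hY k j) χ hv⟩
  obtain ⟨W, ⟨hW0, hWb, hWs⟩, hmin⟩ := WellFounded.has_min (wellFounded_lt (α := Submodule ℂ E))
    P hP
  have key : ∀ k, ∀ v ∈ W, Y k v = χ k • v := by
    intro k
    -- the kernel of `Y k - χ k` on `W`
    let W' : Submodule ℂ E := W ⊓ LinearMap.ker (Y k - χ k • (1 : Module.End ℂ E))
    have h1 : W' ≠ ⊥ := by
      obtain ⟨v, hv, hv0⟩ := Submodule.exists_mem_ne_zero_of_ne_bot hW0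
      obtain ⟨n, hn⟩ := mem_blk.mp (hWb hv) k
      let Q : ℕ → Prop := fun n => ((Y k - χ k • (1 : Module.End ℂ E)) ^ n) v = 0
      have hQ : ∃ n, Q n := ⟨n, hn⟩
      have hm := Nat.find_spec hQ
      have hm0 : Nat.find hQ ≠ 0 := by
        intro h0
        rw [h0] at hm
        exact hv0 (by simpa [Q] using hm)
      obtain ⟨m, hm'⟩ := Nat.exists_eq_succ_of_ne_zero hm0
      have h2 : ((Y k - χ k • (1 : Module.End ℂ E)) ^ m) v ≠ 0 :=
        Nat.find_min hQ (m := m) (by omega)
      have h3 : ∀ m : ℕ, ((Y k - χ k • (1 : Module.End ℂ E)) ^ m) v ∈ W := by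
        intro m
        induction m with
        | zero => simpa using hv
        | succ m ih =>
          rw [pow_succ', Module.End.mul_apply, LinearMap.sub_apply, LinearMap.smul_apply,
            Module.End.one_apply]
          exact W.sub_mem (hWs k _ ih) (W.smul_mem _ ih)
      intro hbot
      apply h2
      rw [← Submodule.mem_bot ℂ, ← hbot]
      refine ⟨h3 m, ?_⟩
      rw [SetLike.mem_coe, LinearMap.mem_ker, ← Module.End.mul_apply, ← pow_succ', ← Nat.succ_eq_add_one,
        ← hm']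
      exact hm
    have h2 : W' ∈ P := by
      refine ⟨h1, inf_le_left.trans hWb, fun l v hv => ⟨hWs l v hv.1, ?_⟩⟩
      have h3 : (Y k - χ k • (1 : Module.End ℂ E)) v = 0 := hv.2
      rw [SetLike.mem_coe, LinearMap.mem_ker]
      have h4 : Commute (Y k - χ k • (1 : Module.End ℂ E)) (Y l) :=
        (hY k l).sub_left ((Commute.one_left _).smul_left _)
      have h5 := congrArg (fun f : Module.End ℂ E => f v) h4.eq
      simp only [Module.End.mul_apply] at h5
      rw [h5, h3, map_zero]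
    have h3 : ¬ W' < W := hmin W' h2
    have h4 : W' = W := by
      by_contra hne
      exact h3 (lt_of_le_of_ne inf_le_left hne)
    intro v hv
    rw [← h4] at hv
    have h5 : (Y k - χ k • (1 : Module.End ℂ E)) v = 0 := hv.2
    rw [LinearMap.sub_apply, LinearMap.smul_apply, Module.End.one_apply] at h5
    exact sub_eq_zero.mp h5
  obtain ⟨v, hv, hv0⟩ := Submodule.exists_mem_ne_zero_of_ne_bot hW0
  exact ⟨v, hv0, hWb hv, fun k => key k v hv⟩

/-- in an index, a genuine joint eigenvector -/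
theorem SideC.exists_joint {J : Type} (S : SideC J) (p : S.I) :
    ∃ v : S.E p.1, v ≠ 0 ∧ (∀ k, S.Y p.1 k v = p.2.1 k • v) ∧
      (∀ l, S.Y p.1 (S.j l) v = (S.x p l : ℂ) • v) ∧ S.Y p.1 S.u v = S.z p • v := by
  obtain ⟨v, hv, -, h⟩ := Fermat.Agent.H42S.exists_joint (S.comm p.1) (S.ne_bot p)
  refine ⟨v, hv, h, fun l => ?_, h _⟩
  rw [h, S.x_eq]

end Fermat.Agent.H42S
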