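import Fermat.Agent.H42S4

/-!
H42T1 (project S47, (m2)): the trace identity for all words from the comparison of the geometric
sides of pure kernels (combinatorial part).
-/

set_option autoImplicit false

open MeasureTheory

namespace Fermat.Agent.H42T

open Fermat.Agent.H42S

/-- Pure kernels with right multiplication by labels and by the powers of `U`; `val p m` is the
twisted diagonal function `x ↦ ∑ g, (p U ^ m)(x, g • s x)`. -/
structure PureSys (J : Type) (X : Type) where
  P : Type
  mul : P → P → P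
  app : P → J → P
  val : P → ℕ → X → ℂ

namespace PureSys

variable {J X : Type} (A : PureSys J X)

/-- right multiplication by a word -/
def apps (p : A.P) (L : List J) : A.P := L.foldl A.app p

@[simp] theorem apps_nil (p : A.P) : A.apps p [] = p := rfl

@[simp] theorem apps_cons (p : A.P) (l : J) (L : List J) :
    A.apps p (l :: L) = A.apps (A.app p l) L := rfl

end PureSys

/-- a relation between pure kernels stable under products and words -/
structure Matching {J X X' : Type} (A : PureSys J X) (A' : PureSys J X') where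
  R : A.P → A'.P → Prop
  mul : ∀ {p q p' q'}, R p p' → R q q' → R (A.mul p q) (A'.mul p' q')
  app : ∀ {p p'} (l : J), R p p' → R (A.app p l) (A'.app p' l)

theorem Matching.apps {J X X' : Type} {A : PureSys J X} {A' : PureSys J X'} (M : Matching A A')
    (L : List J) {p : A.P} {p' : A'.P} (h : M.R p p') : M.R (A.apps p L) (A'.apps p' L) := by
  induction L generalizing p p' with
  | nil => exact h
  | cons l L ih => exact ih (M.app l h)

/-- **(m2)** Trace identity for all words. `r i` are coefficients (for instance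
`C = ∑ i, r i • t i`), `ρ m` the normalising factor of `U ^ m`. -/
theorem TI {J X X' : Type} {A : PureSys J X} {A' : PureSys J X'} (M : Matching A A')
    [MeasurableSpace X] [MeasurableSpace X'] (ν : Measure X) (ν' : Measure X')
    (geom : ∀ p p', M.R p p' → ∃ m₀, ∀ m ≥ m₀, Integrable (A.val p m) ν ∧
      Integrable (A'.val p' m) ν' ∧ ∫ x, A.val p m x ∂ν = ∫ x, A'.val p' m x ∂ν')
    {ι : Type} [Fintype ι] (t : ι → A.P) (t' : ι → A'.P) (ht : ∀ i, M.R (t i) (t' i))
    (r : ι → ℂ) (ρ : ℕ → ℂ) (S S' : SideC J)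
    (hS : ∀ L m, S.tr L m =
      ρ m * ∫ x, ∑ i, ∑ j, r i * r j * A.val (A.mul (t i) (A.apps (t j) L)) m x ∂ν)
    (hS' : ∀ L m, S'.tr L m =
      ρ m * ∫ x, ∑ i, ∑ j, r i * r j * A'.val (A'.mul (t' i) (A'.apps (t' j) L)) m x ∂ν') :
    ∀ L : List J, ∃ m₀ : ℕ, ∀ m ≥ m₀, S.tr L m = 1 * S'.tr L m := by
  intro L
  have h1 : ∀ i j : ι, ∃ m₀, ∀ m ≥ m₀,
      Integrable (A.val (A.mul (t i) (A.apps (t j) L)) m) ν ∧
      Integrable (A'.val (A'.mul (t' i) (A'.apps (t' j) L)) m) ν' ∧
      ∫ x, A.val (A.mul (t i) (A.apps (t j) L)) m x ∂ν =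
        ∫ x, A'.val (A'.mul (t' i) (A'.apps (t' j) L)) m x ∂ν' := fun i j =>
    geom _ _ (M.mul (ht i) (M.apps L (ht j)))
  choose m₀ hm₀ using h1
  refine ⟨∑ i, ∑ j, m₀ i j, fun m hm => ?_⟩
  have hle : ∀ i j, m₀ i j ≤ m := fun i j =>
    ((Finset.single_le_sum (f := fun j => m₀ i j) (fun _ _ => Nat.zero_le _)
      (Finset.mem_univ j)).trans (Finset.single_le_sum (f := fun i => ∑ j, m₀ i j)
      (fun _ _ => Nat.zero_le _) (Finset.mem_univ i))).trans hm
  have e1 : ∫ x, ∑ i, ∑ j, r i * r j * A.val (A.mul (t i) (A.apps (t j) L)) m x ∂ν =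
      ∑ i, ∑ j, r i * r j * ∫ x, A.val (A.mul (t i) (A.apps (t j) L)) m x ∂ν := by
    rw [integral_finsetSum _ fun i _ => integrable_finsetSum _ fun j _ =>
      ((hm₀ i j m (hle i j)).1.const_mul _)]
    refine Finset.sum_congr rfl fun i _ => ?_
    rw [integral_finsetSum _ fun j _ => ((hm₀ i j m (hle i j)).1.const_mul _)]
    exact Finset.sum_congr rfl fun j _ => integral_const_mul _ _
  have e2 : ∫ x, ∑ i, ∑ j, r i * r j * A'.val (A'.mul (t' i) (A'.apps (t' j) L)) m x ∂ν' =
      ∑ i, ∑ j, r i * r j * ∫ x, A'.val (A'.mul (t' i) (A'.apps (t' j) L)) m x ∂ν' := by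
    rw [integral_finsetSum _ fun i _ => integrable_finsetSum _ fun j _ =>
      ((hm₀ i j m (hle i j)).2.1.const_mul _)]
    refine Finset.sum_congr rfl fun i _ => ?_
    rw [integral_finsetSum _ fun j _ => ((hm₀ i j m (hle i j)).2.1.const_mul _)]
    exact Finset.sum_congr rfl fun j _ => integral_const_mul _ _
  rw [one_mul, hS, hS', e1, e2]
  congr 1
  refine Finset.sum_congr rfl fun i _ => Finset.sum_congr rfl fun j _ => ?_
  rw [(hm₀ i j m (hle i j)).2.2]

end Fermat.Agent.H42T
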