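import Fermat.Agent.H17S2
import Fermat.Agent.H51ZOp
import Fermat.Agent.H59Def2

/-!
H42T3 (project S47, (m2)): right multiplication of kernels on the model by discrete kernels;
boundedness of the automorphic kernel is preserved.
-/

set_option autoImplicit false
set_option linter.unusedSectionVars false

noncomputable section

open MeasureTheory Set
open scoped ENNReal MatrixGroups

namespace Fermat.Agent.H42T

open Fermat.Agent.H17S Fermat.Agent.H59XF Fermat.Agent.H51Z Fermat.Agent.H59D
open Fermat.Agent.H32Z.CutOff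

section Row

variable {G : Type*} [Group G] {ι : Type*} {L : LevelFam G ι}

/-- the kernel of absolute values -/
def labs {H : Subgroup G} (κ : LocKer H) : LocKer H where
  k x y := ((‖κ.k x y‖ : ℝ) : ℂ)
  inv g x y := by rw [κ.inv]
  fin_right x := (κ.fin_right x).subset fun y hy => by
    intro h
    exact hy (by rw [h]; simp)
  fin_left y := (κ.fin_left y).subset fun x hx => by
    intro h
    exact hx (by rw [h]; simp)

@[simp] theorem labs_k {H : Subgroup G} (κ : LocKer H) (x y : G ⧸ H) :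
    (labs κ).k x y = ((‖κ.k x y‖ : ℝ) : ℂ) := rfl

theorem labs_one {H : Subgroup G} : labs (LocKer.one : LocKer H) = LocKer.one := by
  ext x y
  rw [labs_k, LocKer.one_k]
  split_ifs <;> simp

/-- the global kernel of absolute values -/
def gabs (a : GlobKer L) : GlobKer L :=
  ⟨fun i => labs (a.loc i), a.fin.subset (by
    intro i hi h
    exact hi (by rw [h, labs_one]))⟩

theorem gabs_k (a : GlobKer L) (x y : XF L) : (gabs a).k x y = ((‖a.k x y‖ : ℝ) : ℂ) := by
  unfold GlobKer.k
  have h1 := a.mulSupport_finite x y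
  have e1 : ∏ᶠ i, (a.loc i).k (x i) (y i) = ∏ i ∈ h1.toFinset, (a.loc i).k (x i) (y i) :=
    finprod_eq_prod_of_mulSupport_subset _ (by simp)
  have e2 : ∏ᶠ i, ((gabs a).loc i).k (x i) (y i) =
      ∏ i ∈ h1.toFinset, ((gabs a).loc i).k (x i) (y i) := by
    refine finprod_eq_prod_of_mulSupport_subset _ ?_
    intro i hi
    rw [Set.Finite.coe_toFinset]
    intro h0
    apply hi
    change ((‖(a.loc i).k (x i) (y i)‖ : ℝ) : ℂ) = 1
    have h0' : (a.loc i).k (x i) (y i) = 1 := h0
    rw [h0']; simp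
  rw [e1, e2, norm_prod]
  push_cast
  rfl

/-- row sums of a local kernel are constant -/
theorem local_row {H : Subgroup G} (κ : LocKer H) :
    ∃ C : ℂ, ∀ x, ∑ y ∈ ls κ x, κ.k x y = C := by
  refine ⟨∑ y ∈ ls κ ((1 : G) : G ⧸ H), κ.k ((1 : G) : G ⧸ H) y, fun x => ?_⟩
  induction x using QuotientGroup.induction_on with
  | H g =>
    have h1 : ((g : G) : G ⧸ H) = g • ((1 : G) : G ⧸ H) := by
      change _ = (((g * 1 : G)) : G ⧸ H)
      rw [mul_one]
    symm
    refine Finset.sum_bij' (fun y _ => g • y) (fun y _ => g⁻¹ • y) ?_ ?_ ?_ ?_ ?_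
    · intro y hy
      rw [mem_ls] at hy ⊢
      rw [h1, κ.inv]; exact hy
    · intro y hy
      rw [mem_ls] at hy ⊢
      rw [← κ.inv g, smul_inv_smul, ← h1]; exact hy
    · intro y _; exact inv_smul_smul g y
    · intro y _; exact smul_inv_smul g y
    · intro y _
      rw [h1, κ.inv]

/-- row sums of a global kernel are constant -/
theorem global_row (a : GlobKer L) : ∃ C : ℂ, ∀ x, gop a (fun _ => (1 : ℂ)) x = C := by
  classical
  obtain ⟨n, hn⟩ : ∃ n, a.fin.toFinset.card = n := ⟨_, rfl⟩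
  induction n generalizing a with
  | zero =>
    have h1 : a = gone := by
      apply gext
      intro i
      by_contra hne
      have : i ∈ a.fin.toFinset := by simpa using hne
      rw [Finset.card_eq_zero] at hn
      rw [hn] at this
      simp at this
    exact ⟨1, fun x => by rw [h1, gop_gone]⟩
  | succ n ih =>
    obtain ⟨i, hi⟩ : a.fin.toFinset.Nonempty := by
      rw [← Finset.card_pos, hn]; omega
    have hlt : (gset a i LocKer.one).fin.toFinset = a.fin.toFinset.erase i := by
      ext j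
      simp only [Set.Finite.mem_toFinset, Set.mem_ofPred_eq, Finset.mem_erase]
      by_cases hj : j = i
      · subst hj; simp
      · simp [hj]
    obtain ⟨C, hC⟩ := ih (gset a i LocKer.one) (by
      rw [hlt, Finset.card_erase_of_mem hi, hn]; rfl)
    obtain ⟨D, hD⟩ := local_row (a.loc i)
    refine ⟨D * C, fun x => ?_⟩
    rw [gop_split a i, lop_def]
    simp only [hC, smul_eq_mul]
    rw [← Finset.sum_mul, hD]

/-- uniform bound of the row sums of the absolute values -/
theorem exists_row_bound (a : GlobKer L) :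
    ∃ C : ℝ, 0 ≤ C ∧ ∀ x, ∑ y ∈ gs a x, ‖a.k x y‖ ≤ C := by
  obtain ⟨C, hC⟩ := global_row (gabs a)
  refine ⟨‖C‖, norm_nonneg _, fun x => ?_⟩
  have h1 := hC x
  rw [gop_eq_sum (s := gs a x) (gabs a) _ x (by
    intro y hy
    rw [gabs_k] at hy
    rw [mem_gs]
    intro h0
    exact hy (by rw [h0]; simp))] at h1
  rw [← h1]
  simp only [gabs_k, smul_eq_mul, mul_one]
  rw [← Complex.ofReal_sum, Complex.norm_real, Real.norm_eq_abs]
  exact le_abs_self _

end Row

section Rm

variable {K : Type*} [Field K] [NumberField K] {J : Type*} [Fintype J] (m : Model K J)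

/-- right multiplication by a discrete kernel -/
def rmF (k : m.X → m.X → ℂ) (b : GlobKer m.L.fam) (x z : m.X) : ℂ :=
  ∑ y ∈ gs (gtr b) z.2, k x (z.1, y) * b.k y z.2

variable {m} {μ : Measure m.X} {𝒞 : Coarse PGL(2, K) μ}

theorem rmF_smul (k : m.X → m.X → ℂ) (b : GlobKer m.L.fam) (x z : m.X) (g : PGL(2, K)) :
    rmF m k b x (g • z) =
      ∑ y ∈ gs (gtr b) z.2, k x (g • (show m.X from (z.1, y))) * b.k y z.2 := by
  classical
  unfold rmF
  rw [Model.smul_snd, gs_smul, Finset.sum_image fun y _ y' _ h => MulAction.injective g h]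
  refine Finset.sum_congr rfl fun y _ => ?_
  rw [b.k_smul]
  rfl

/-- the automorphic kernel of the right multiplication -/
theorem autK_rmF {k : m.X → m.X → ℂ} (hk : CK 𝒞 k) (b : GlobKer m.L.fam) (x z : m.X) :
    autK PGL(2, K) (rmF m k b) x z =
      ∑ y ∈ gs (gtr b) z.2, autK PGL(2, K) k x (z.1, y) * b.k y z.2 := by
  unfold autK
  simp only [rmF_smul]
  rw [Summable.tsum_finsetSum fun y _ => (hk.summable_autK x (z.1, y)).mul_right _]
  refine Finset.sum_congr rfl fun y _ => ?_
  rw [tsum_mul_right]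

/-- boundedness is preserved -/
theorem Bd_rmF {k : m.X → m.X → ℂ} (hk : CK 𝒞 k) (h : Bd PGL(2, K) k) (b : GlobKer m.L.fam) :
    Bd PGL(2, K) (rmF m k b) := by
  obtain ⟨B, hB, h1⟩ := h
  obtain ⟨C, hC, h2⟩ := exists_row_bound (gtr b)
  refine ⟨B * C, by positivity, fun x z => ?_⟩
  rw [autK_rmF hk]
  refine (norm_sum_le _ _).trans ?_
  calc ∑ y ∈ gs (gtr b) z.2, ‖autK PGL(2, K) k x (z.1, y) * b.k y z.2‖
      ≤ ∑ y ∈ gs (gtr b) z.2, B * ‖(gtr b).k z.2 y‖ := by
        refine Finset.sum_le_sum fun y _ => ?_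
        rw [norm_mul, gtr_k]
        exact mul_le_mul_of_nonneg_right (h1 _ _) (norm_nonneg _)
    _ = B * ∑ y ∈ gs (gtr b) z.2, ‖(gtr b).k z.2 y‖ := by rw [Finset.mul_sum]
    _ ≤ B * C := mul_le_mul_of_nonneg_left (h2 _) hB

/-- right multiplication of a pure kernel -/
theorem rmF_ker (κ : (J → ℝ) → ℂ) (a b : GlobKer m.L.fam) :
    rmF m (m.ker κ a.k) b = m.ker κ (gmul a b).k := by
  funext x z
  unfold rmF Model.ker
  simp only
  rw [gmul_k, finsum_eq_sum_of_support_subset (s := gs (gtr b) z.2) _ (by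
    intro y hy
    rw [Finset.mem_coe, mem_gs, gtr_k]
    rw [Function.mem_support] at hy
    exact right_ne_zero_of_mul hy), Finset.mul_sum]
  refine Finset.sum_congr rfl fun y _ => ?_
  rw [mul_assoc]

theorem rmF_sum {ι : Type*} (s : Finset ι) (k : ι → m.X → m.X → ℂ) (b : GlobKer m.L.fam) :
    rmF m (fun x y => ∑ i ∈ s, k i x y) b = fun x z => ∑ i ∈ s, rmF m (k i) b x z := by
  funext x z
  unfold rmF
  simp only [Finset.sum_mul]
  rw [Finset.sum_comm]

/-- **boundedness of `C b`** for a finite sum `C` of pure kernels and a discrete kernel `b` -/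
theorem Bd_sum_gmul {ι : Type*} (s : Finset ι) (κ : ι → (J → ℝ) → ℂ)
    (a : ι → GlobKer m.L.fam) (b : GlobKer m.L.fam)
    (hk : CK 𝒞 (fun x y => ∑ i ∈ s, m.ker (κ i) (a i).k x y))
    (h : Bd PGL(2, K) (fun x y => ∑ i ∈ s, m.ker (κ i) (a i).k x y)) :
    Bd PGL(2, K) (fun x y => ∑ i ∈ s, m.ker (κ i) (gmul (a i) b).k x y) := by
  have h1 := Bd_rmF hk h b
  rw [rmF_sum] at h1
  simpa only [rmF_ker] using h1

end Rm

end Fermat.Agent.H42T
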