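import Fermat.Agent.H42T1
import Fermat.Agent.H17S2
import Fermat.Agent.H21Z2

/-!
H42T4 (project S47, (m2)): the one-sided trace formula for systems of controlled kernels:
`tr (C² · X_L · U^m · s) = ∫ K_{C C L U^m}(x, s x) dν`.
-/

set_option autoImplicit false
set_option linter.unusedSectionVars false

noncomputable section

open MeasureTheory Set
open scoped ENNReal ComplexConjugate

namespace Fermat.Agent.H42T

open Fermat.Agent.H17S Fermat.Agent.H21Z Fermat.Agent.H42S Fermat.Agent.H32Z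
open Fermat.Agent.H32Z.CutOff

variable {G X : Type} [Group G] [MulAction G X] [MeasurableSpace X] {μ : Measure X} [SFinite μ]
  [Countable G] [MeasurableConstSMul G X] [SMulInvariantMeasure G X μ]

/-- A system of controlled kernels with right multiplication by labels. -/
structure KSys (𝒞 : Coarse G μ) (Λ : Type) where
  P : Type
  ker : P → X → X → ℂ
  ck : ∀ p, CK 𝒞 (ker p)
  mul : P → P → P
  comp_ker : ∀ p q x y, comp μ (ker p) (ker q) x y = ker (mul p q) x y
  app : P → Λ → P
  Y : Λ → Module.End ℂ (BInv G X)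
  act_app : ∀ p l (f : BInv G X) x, act μ (ker (app p l)) f x = act μ (ker p) (Y l f) x
  bd_app : ∀ {ι : Type} (s : Finset ι) (r : ι → ℂ) (p : ι → P) (l : Λ),
    Bd G (fun x y => ∑ i ∈ s, r i * ker (p i) x y) →
    Bd G (fun x y => ∑ i ∈ s, r i * ker (app (p i) l) x y)
  mul_app : ∀ p q l, mul p (app q l) = app (mul p q) l

namespace KSys

variable {𝒞 : Coarse G μ} {Λ : Type} (S : KSys 𝒞 Λ)

/-- right multiplication by a word -/
def apps (p : S.P) (W : List Λ) : S.P := W.foldl S.app p

@[simp] theorem apps_nil (p : S.P) : S.apps p [] = p := rfl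

@[simp] theorem apps_cons (p : S.P) (l : Λ) (W : List Λ) :
    S.apps p (l :: W) = S.apps (S.app p l) W := rfl

theorem apps_append (p : S.P) (W W' : List Λ) : S.apps p (W ++ W') = S.apps (S.apps p W) W' :=
  List.foldl_append

theorem mul_apps (p q : S.P) (W : List Λ) : S.mul p (S.apps q W) = S.apps (S.mul p q) W := by
  induction W generalizing q with
  | nil => rfl
  | cons l W ih => rw [apps_cons, ih, S.mul_app, apps_cons]

theorem lb_inv (f : BInv G X) : LB 𝒞 (f : X → ℂ) := by
  obtain ⟨C, hC⟩ := BInv.bounded f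
  exact LB.of_bounded (BInv.measurable f) hC

theorem act_apps (p : S.P) (W : List Λ) (f : BInv G X) (x : X) :
    act μ (S.ker (S.apps p W)) f x = act μ (S.ker p) (lprod S.Y W f) x := by
  induction W generalizing p with
  | nil => rfl
  | cons l W ih =>
    rw [apps_cons, ih, S.act_app]
    have : lprod S.Y (l :: W) f = S.Y l (lprod S.Y W f) := by
      simp [lprod]
    rw [this]

theorem bd_apps {ι : Type} (s : Finset ι) (r : ι → ℂ) (p : ι → S.P) (W : List Λ)
    (h : Bd G (fun x y => ∑ i ∈ s, r i * S.ker (p i) x y)) :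
    Bd G (fun x y => ∑ i ∈ s, r i * S.ker (S.apps (p i) W) x y) := by
  induction W generalizing p with
  | nil => exact h
  | cons l W ih => exact ih (fun i => S.app (p i) l) (S.bd_app s r p l h)

theorem ck_sum {ι : Type} (s : Finset ι) (r : ι → ℂ) (p : ι → S.P) :
    CK 𝒞 (fun x y => ∑ i ∈ s, r i * S.ker (p i) x y) :=
  CK.sum s fun i _ => (S.ck (p i)).const_mul (r i)

theorem act_sum {ι : Type} (s : Finset ι) (r : ι → ℂ) (p : ι → S.P) {φ : X → ℂ} (hφ : LB 𝒞 φ)
    (x : X) : act μ (fun x y => ∑ i ∈ s, r i * S.ker (p i) x y) φ x =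
      ∑ i ∈ s, r i * act μ (S.ker (p i)) φ x := by
  rw [act_sum_left s (k := fun i x y => r i * S.ker (p i) x y)
    (fun i _ => (S.ck (p i)).const_mul (r i)) hφ]
  exact Finset.sum_congr rfl fun i _ => act_const_mul_left _ _ _

/-- composition of finite sums -/
theorem comp_sum {ι ι' : Type} (s : Finset ι) (s' : Finset ι') (r : ι → ℂ) (r' : ι' → ℂ)
    (p : ι → S.P) (p' : ι' → S.P) (x y : X) :
    comp μ (fun x y => ∑ i ∈ s, r i * S.ker (p i) x y)
      (fun x y => ∑ j ∈ s', r' j * S.ker (p' j) x y) x y =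
      ∑ i ∈ s, ∑ j ∈ s', r i * r' j * S.ker (S.mul (p i) (p' j)) x y := by
  rw [comp_eq_act, S.act_sum s r p ((S.ck_sum s' r' p').lb_left y)]
  refine Finset.sum_congr rfl fun i _ => ?_
  have h1 : act μ (S.ker (p i)) (fun q => ∑ j ∈ s', r' j * S.ker (p' j) q y) x =
      ∑ j ∈ s', r' j * S.ker (S.mul (p i) (p' j)) x y := by
    unfold act
    have h2 : ∀ q, S.ker (p i) x q * ∑ j ∈ s', r' j * S.ker (p' j) q y =
        ∑ j ∈ s', r' j * (S.ker (p i) x q * S.ker (p' j) q y) := by
      intro q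
      rw [Finset.mul_sum]
      exact Finset.sum_congr rfl fun j _ => by ring
    simp only [h2]
    rw [integral_finsetSum s' fun j _ =>
      (((S.ck (p i)).integrable_mul x ((S.ck (p' j)).lb_left y)).const_mul _)]
    refine Finset.sum_congr rfl fun j _ => ?_
    rw [integral_const_mul, ← S.comp_ker]
    rfl
  rw [h1, Finset.mul_sum]
  exact Finset.sum_congr rfl fun j _ => by ring

theorem autK_sum₂ {ι ι' : Type} (s : Finset ι) (s' : Finset ι') (r : ι → ℂ) (r' : ι' → ℂ)
    (p : ι → ι' → S.P) (x y : X) :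
    autK G (fun x y => ∑ i ∈ s, ∑ j ∈ s', r i * r' j * S.ker (p i j) x y) x y =
      ∑ i ∈ s, ∑ j ∈ s', r i * r' j * autK G (S.ker (p i j)) x y := by
  rw [autK_sum s (k := fun i x y => ∑ j ∈ s', r i * r' j * S.ker (p i j) x y)
    (fun i _ => CK.sum s' fun j _ => (S.ck (p i j)).const_mul _)]
  refine Finset.sum_congr rfl fun i _ => ?_
  rw [autK_sum s' (k := fun j x y => r i * r' j * S.ker (p i j) x y)
    (fun j _ => (S.ck (p i j)).const_mul _)]
  exact Finset.sum_congr rfl fun j _ => autK_const_mul _ _ _ _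

/-- **The one-sided trace formula.** -/
theorem side_tr {ι : Type} [Fintype ι] (r : ι → ℂ) (t : ι → S.P)
    (hBd : Bd G (fun x y => ∑ i, r i * S.ker (t i) x y))
    [MeasurableSpace.CountablyGenerated X] (c : CutOff G X) [IsFiniteMeasure (c.ν μ)] (tw : Tw G μ)
    {hK : BK (autK G (fun x y => ∑ i, r i * S.ker (t i) x y))}
    {hG : ∀ (g : G) x y, autK G (fun x y => ∑ i, r i * S.ker (t i) x y) (g • x) y =
      autK G (fun x y => ∑ i, r i * S.ker (t i) x y) x y}
    (hsym : ∀ x y, autK G (fun x y => ∑ i, r i * S.ker (t i) x y) y x =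
      conj (autK G (fun x y => ∑ i, r i * S.ker (t i) x y) x y))
    {J : Type} (D : OpData J hK (c.ν μ) hG) (lab : J → Λ)
    (hlab : ∀ l, D.Y (D.j l) = S.Y (lab l)) (ul : Λ) (ρ : ℂ) (hu : D.Y D.u = ρ • S.Y ul)
    (hs : ∀ (f : BInv G X) x, (D.s f : X → ℂ) x = (f : X → ℂ) (tw.s.symm x))
    (L : List J) (m : ℕ) :
    (D.side hsym).tr L m = ρ ^ m * ∫ x, ∑ i, ∑ j, r i * r j *
      autK G (S.ker (S.apps (S.mul (t i) (S.apps (t j) (L.map lab))) (List.replicate m ul)))
        x (tw.s x) ∂(c.ν μ) := by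
  classical
  set W : List Λ := L.map lab ++ List.replicate m ul with hW
  -- the second kernel
  set k' : X → X → ℂ := fun x y => ∑ j, r j * S.ker (S.apps (t j) W) x y with hk'
  have hck : CK 𝒞 k' := S.ck_sum _ _ _
  have hbd : Bd G k' := S.bd_apps _ r t W hBd
  have hck0 := S.ck_sum Finset.univ r t
  -- words
  have hword : lprod D.Y (L.map D.j ++ List.replicate m D.u) = ρ ^ m • lprod S.Y W := by
    have h1 : lprod D.Y (L.map D.j) = lprod S.Y (L.map lab) := by
      unfold lprod
      rw [List.map_map, List.map_map]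
      congr 1
      exact List.map_congr_left fun l _ => hlab l
    have h2 : lprod D.Y (List.replicate m D.u) = ρ ^ m • lprod S.Y (List.replicate m ul) := by
      unfold lprod
      rw [List.map_replicate, List.map_replicate, List.prod_replicate, List.prod_replicate, hu,
        smul_pow]
    have h3 : ∀ (N : Type) (Y : N → Module.End ℂ (BInv G X)) (A B : List N),
        lprod Y (A ++ B) = lprod Y A * lprod Y B := by
      intro N Y A B
      simp [lprod]
    rw [h3, h1, h2, hW, h3, mul_smul_comm]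
  -- the kernel M
  set M : X → X → ℂ := fun x y => ρ ^ m * autK G k' x (tw.s y) with hM
  have hBKM : BK M := by
    have h1 := tw.BK_autK hck hbd
    obtain ⟨B, hB, h2⟩ := h1.bdd
    refine ⟨measurable_const.mul h1.meas, ⟨‖ρ ^ m‖ * B, by positivity, fun x y => ?_⟩⟩
    rw [hM, norm_mul]
    exact mul_le_mul_of_nonneg_left (h2 x y) (norm_nonneg _)
  have hMf : ∀ (f : BInv G X) (x : X), ∫ y, M x y * (f : X → ℂ) y ∂(c.ν μ) =
      (kop hK (c.ν μ) hG ((lprod D.Y (L.map D.j ++ List.replicate m D.u) * D.s) f) : X → ℂ) x := by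
    intro f x
    have h1 : (fun y => (f : X → ℂ) (tw.s.symm y)) = (D.s f : X → ℂ) :=
      funext fun y => (hs f y).symm
    have h2 : ∫ y, M x y * (f : X → ℂ) y ∂(c.ν μ) = ρ ^ m * act μ k' (D.s f : X → ℂ) x := by
      rw [← h1, ← tw.integral_autK c hck (BInv.measurable f) (BInv.inv f)
        (by rw [h1]; exact lb_inv (𝒞 := 𝒞) (D.s f)), ← integral_const_mul]
      refine integral_congr_ae (Filter.Eventually.of_forall fun y => ?_)
      simp only [hM]
      ring
    rw [h2, kop_apply, hck0.integral_autK c (lb_inv _) (BInv.inv _), hword,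
      S.act_sum _ _ _ (lb_inv _), S.act_sum _ _ _ (lb_inv _), Finset.mul_sum]
    refine Finset.sum_congr rfl fun j _ => ?_
    rw [S.act_apps]
    have h3 : ((((ρ ^ m • lprod S.Y W) * D.s) f : BInv G X) : X → ℂ) =
        fun y => ρ ^ m * ((lprod S.Y W (D.s f) : BInv G X) : X → ℂ) y := by
      rw [smul_mul_assoc]
      rfl
    rw [h3, act_const_mul]
    ring
  rw [D.side_tr hsym L m hBKM hMf]
  have h4 : ∫ x, ∫ y, autK G (fun x y => ∑ i, r i * S.ker (t i) x y) x y * M y x
      ∂(c.ν μ) ∂(c.ν μ) = ρ ^ m * ∫ x, ∫ y, autK G (fun x y => ∑ i, r i * S.ker (t i) x y) x y *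
        autK G k' y (tw.s x) ∂(c.ν μ) ∂(c.ν μ) := by
    rw [← integral_const_mul]
    refine integral_congr_ae (Filter.Eventually.of_forall fun x => ?_)
    simp only
    rw [← integral_const_mul]
    refine integral_congr_ae (Filter.Eventually.of_forall fun y => ?_)
    simp only [hM]
    ring
  rw [h4, tw.trace_integral c hck0 hck]
  congr 1
  refine integral_congr_ae (Filter.Eventually.of_forall fun x => ?_)
  simp only
  have h5 : comp μ (fun x y => ∑ i, r i * S.ker (t i) x y) k' = fun x y =>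
      ∑ i, ∑ j, r i * r j * S.ker (S.mul (t i) (S.apps (t j) W)) x y :=
    funext fun x => funext fun y => S.comp_sum _ _ _ _ _ _ x y
  rw [h5, S.autK_sum₂]
  refine Finset.sum_congr rfl fun i _ => Finset.sum_congr rfl fun j _ => ?_
  rw [hW, S.apps_append, S.mul_apps]

/-- the associated pure system -/
def toPure {J : Type} (lab : J → Λ) (ul : Λ) (s : X → X) : PureSys J X where
  P := S.P
  mul := S.mul
  app p l := S.app p (lab l)
  val p m x := autK G (S.ker (S.apps p (List.replicate m ul))) x (s x)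

theorem toPure_apps {J : Type} (lab : J → Λ) (ul : Λ) (s : X → X) (p : S.P) (L : List J) :
    (S.toPure lab ul s).apps p L = S.apps p (L.map lab) := by
  induction L generalizing p with
  | nil => rfl
  | cons l L ih => exact ih _

end KSys

/-- **(m2), final form**: the trace identity of the two sides for all words, from the comparison of
the geometric sides of matched pure kernels. -/
theorem TI_sides {G' X' : Type} [Group G'] [MulAction G' X'] [MeasurableSpace X']
    {μ' : Measure X'} [SFinite μ'] [Countable G'] [MeasurableConstSMul G' X']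
    [SMulInvariantMeasure G' X' μ'] {𝒞 : Coarse G μ} {𝒞' : Coarse G' μ'} {Λ Λ' : Type}
    (S : KSys 𝒞 Λ) (S' : KSys 𝒞' Λ') {ι : Type} [Fintype ι] (r : ι → ℂ) (t : ι → S.P)
    (t' : ι → S'.P)
    (hBd : Bd G (fun x y => ∑ i, r i * S.ker (t i) x y))
    (hBd' : Bd G' (fun x y => ∑ i, r i * S'.ker (t' i) x y))
    [MeasurableSpace.CountablyGenerated X] [MeasurableSpace.CountablyGenerated X']
    (c : CutOff G X) [IsFiniteMeasure (c.ν μ)] (c' : CutOff G' X') [IsFiniteMeasure (c'.ν μ')]
    (tw : Tw G μ) (tw' : Tw G' μ')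
    {hK : BK (autK G (fun x y => ∑ i, r i * S.ker (t i) x y))}
    {hG : ∀ (g : G) x y, autK G (fun x y => ∑ i, r i * S.ker (t i) x y) (g • x) y =
      autK G (fun x y => ∑ i, r i * S.ker (t i) x y) x y}
    (hsym : ∀ x y, autK G (fun x y => ∑ i, r i * S.ker (t i) x y) y x =
      conj (autK G (fun x y => ∑ i, r i * S.ker (t i) x y) x y))
    {hK' : BK (autK G' (fun x y => ∑ i, r i * S'.ker (t' i) x y))}
    {hG' : ∀ (g : G') x y, autK G' (fun x y => ∑ i, r i * S'.ker (t' i) x y) (g • x) y =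
      autK G' (fun x y => ∑ i, r i * S'.ker (t' i) x y) x y}
    (hsym' : ∀ x y, autK G' (fun x y => ∑ i, r i * S'.ker (t' i) x y) y x =
      conj (autK G' (fun x y => ∑ i, r i * S'.ker (t' i) x y) x y))
    {J : Type} (D : OpData J hK (c.ν μ) hG) (D' : OpData J hK' (c'.ν μ') hG')
    (lab : J → Λ) (hlab : ∀ l, D.Y (D.j l) = S.Y (lab l)) (ul : Λ) (ρ : ℂ)
    (hu : D.Y D.u = ρ • S.Y ul)
    (hs : ∀ (f : BInv G X) x, (D.s f : X → ℂ) x = (f : X → ℂ) (tw.s.symm x))
    (lab' : J → Λ') (hlab' : ∀ l, D'.Y (D'.j l) = S'.Y (lab' l)) (ul' : Λ')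
    (hu' : D'.Y D'.u = ρ • S'.Y ul')
    (hs' : ∀ (f : BInv G' X') x, (D'.s f : X' → ℂ) x = (f : X' → ℂ) (tw'.s.symm x))
    (M : Matching (S.toPure lab ul tw.s) (S'.toPure lab' ul' tw'.s)) (ht : ∀ i, M.R (t i) (t' i))
    (geom : ∀ p p', M.R p p' → ∃ m₀, ∀ m ≥ m₀,
      Integrable (fun x => autK G (S.ker (S.apps p (List.replicate m ul))) x (tw.s x)) (c.ν μ) ∧
      Integrable (fun x => autK G' (S'.ker (S'.apps p' (List.replicate m ul'))) x (tw'.s x))
        (c'.ν μ') ∧
      ∫ x, autK G (S.ker (S.apps p (List.replicate m ul))) x (tw.s x) ∂(c.ν μ) =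
        ∫ x, autK G' (S'.ker (S'.apps p' (List.replicate m ul'))) x (tw'.s x) ∂(c'.ν μ')) :
    ∀ L : List J, ∃ m₀ : ℕ, ∀ m ≥ m₀, (D.side hsym).tr L m = 1 * (D'.side hsym').tr L m := by
  refine TI M (c.ν μ) (c'.ν μ') geom t t' ht r (fun m => ρ ^ m) (D.side hsym) (D'.side hsym')
    (fun L m => ?_) (fun L m => ?_)
  · rw [S.side_tr r t hBd c tw hsym D lab hlab ul ρ hu hs L m]
    simp only [KSys.toPure_apps]
    rfl
  · rw [S'.side_tr r t' hBd' c' tw' hsym' D' lab' hlab' ul' ρ hu' hs' L m]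
    simp only [KSys.toPure_apps]
    rfl

end Fermat.Agent.H42T
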