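import Fermat.Agent.H51ZOp
import Fermat.Agent.H56ZRad4
import Fermat.Agent.H59Def

/-!
# Monomial test kernels (S47, block (C), helper79)

`HData L`: the local kernels used in block (C): a finite set `S` of bad indices with idempotents
`e i`, an index `w0` with the operator `U`, Hecke kernels `T i` elsewhere.
`mono D n m`: the product of the idempotents at `S`, of `U ^ m` at `w0` and of the `T i ^ n i`
elsewhere. `tk`: the pure test kernels on the model.
-/

set_option autoImplicit false

noncomputable section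

open scoped Classical MatrixGroups
open NumberField IsDedekindDomain MeasureTheory

namespace Fermat.Agent.H79S

open Fermat.Agent.H59XF Fermat.Agent.H51Z Fermat.Agent.H59D

/-! ### Powers of local kernels -/

section Loc

variable {G : Type*} [Group G] {H : Subgroup G}

theorem lmul_assoc (a b c : LocKer H) :
    LocKer.mul (LocKer.mul a b) c = LocKer.mul a (LocKer.mul b c) := by
  ext x z
  rw [mul_k_eq_sum a (LocKer.mul b c)]
  have h1 : ∀ y, (LocKer.mul b c).k y z = ∑ u ∈ ls b y, b.k y u * c.k u z := fun y =>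
    mul_k_eq_sum b c y z
  -- a finite set containing all intermediate points
  set s : Finset (G ⧸ H) := (ls a x).biUnion fun y => ls b y with hs
  have h2 : (LocKer.mul (LocKer.mul a b) c).k x z =
      ∑ u ∈ s, (LocKer.mul a b).k x u * c.k u z := by
    rw [mul_k_eq_sum]
    refine Finset.sum_subset ?_ ?_
    · intro u hu
      rw [mem_ls, mul_k_eq_sum] at hu
      by_contra hcon
      apply hu
      refine Finset.sum_eq_zero fun y hy => ?_
      by_contra hne
      apply hcon
      rw [hs, Finset.mem_biUnion]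
      exact ⟨y, hy, mem_ls.2 fun h => hne (by rw [h, mul_zero])⟩
    · intro u _ hu
      rw [mem_ls, not_not] at hu
      rw [hu, zero_mul]
  rw [h2]
  have h3 : ∀ u ∈ s, (LocKer.mul a b).k x u * c.k u z =
      ∑ y ∈ ls a x, a.k x y * b.k y u * c.k u z := by
    intro u _
    rw [mul_k_eq_sum, Finset.sum_mul]
  rw [Finset.sum_congr rfl h3, Finset.sum_comm]
  refine Finset.sum_congr rfl fun y hy => ?_
  rw [h1, Finset.mul_sum]
  symm
  rw [← Finset.sum_subset (s₁ := ls b y) (s₂ := s)]
  · exact Finset.sum_congr rfl fun u _ => by ring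
  · intro u hu
    rw [hs, Finset.mem_biUnion]
    exact ⟨y, hy, hu⟩
  · intro u _ hu
    rw [mem_ls, not_not] at hu
    rw [hu]; ring

/-- Powers of a local kernel. -/
def lpow (κ : LocKer H) : ℕ → LocKer H
  | 0 => LocKer.one
  | n + 1 => LocKer.mul κ (lpow κ n)

@[simp] theorem lpow_zero (κ : LocKer H) : lpow κ 0 = LocKer.one := rfl

theorem lpow_succ (κ : LocKer H) (n : ℕ) : lpow κ (n + 1) = LocKer.mul κ (lpow κ n) := rfl

@[simp] theorem lpow_one (κ : LocKer H) : lpow κ 1 = κ := by
  rw [lpow_succ, lpow_zero, lmul_one]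

theorem lpow_add (κ : LocKer H) (m n : ℕ) :
    lpow κ (m + n) = LocKer.mul (lpow κ m) (lpow κ n) := by
  induction m with
  | zero => rw [Nat.zero_add, lpow_zero, one_lmul]
  | succ m ih => rw [Nat.succ_add, lpow_succ, ih, lpow_succ, lmul_assoc]

end Loc

/-! ### Monomials -/

variable {G : Type*} [Group G] {ι : Type*} {L : LevelFam G ι}

/-- The local kernels of block (C). -/
structure HData (L : LevelFam G ι) where
  S : Finset ι
  w0 : ι
  w0S : w0 ∉ S
  e : ∀ i, LocKer (L.U i)
  e_mul : ∀ i ∈ S, LocKer.mul (e i) (e i) = e i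
  T : ∀ i, LocKer (L.U i)
  U : ∀ i, LocKer (L.U i)

namespace HData

variable (D : HData L)

/-- The local component of the monomial kernel. -/
def loc (n : ι →₀ ℕ) (m : ℕ) (i : ι) : LocKer (L.U i) :=
  if i ∈ D.S then D.e i else if i = D.w0 then lpow (D.U i) m else lpow (D.T i) (n i)

theorem loc_S {n : ι →₀ ℕ} {m : ℕ} {i : ι} (hi : i ∈ D.S) : D.loc n m i = D.e i := by
  rw [loc, if_pos hi]

theorem loc_w0 {n : ι →₀ ℕ} {m : ℕ} : D.loc n m D.w0 = lpow (D.U D.w0) m := by
  rw [loc, if_neg D.w0S, if_pos rfl]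

theorem loc_good {n : ι →₀ ℕ} {m : ℕ} {i : ι} (hi : i ∉ D.S) (h0 : i ≠ D.w0) :
    D.loc n m i = lpow (D.T i) (n i) := by
  rw [loc, if_neg hi, if_neg h0]

/-- The monomial kernel. -/
def mono (n : ι →₀ ℕ) (m : ℕ) : GlobKer L where
  loc := D.loc n m
  fin := by
    refine ((D.S.finite_toSet.union (Set.finite_singleton D.w0)).union n.hasFiniteSupport).subset ?_
    intro i hi
    by_contra hcon
    simp only [Set.mem_union, Set.mem_singleton_iff, Finset.mem_coe, Function.mem_support,
      not_or, not_not] at hcon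
    obtain ⟨⟨h1, h2⟩, h3⟩ := hcon
    apply hi
    rw [D.loc_good h1 h2, h3, lpow_zero]

@[simp] theorem mono_loc (n : ι →₀ ℕ) (m : ℕ) (i : ι) : (D.mono n m).loc i = D.loc n m i := rfl

theorem loc_mul (n n' : ι →₀ ℕ) (m m' : ℕ) (i : ι) :
    LocKer.mul (D.loc n m i) (D.loc n' m' i) = D.loc (n + n') (m + m') i := by
  by_cases hS : i ∈ D.S
  · rw [D.loc_S hS, D.loc_S hS, D.loc_S hS, D.e_mul i hS]
  · by_cases h0 : i = D.w0
    · subst h0
      rw [D.loc_w0, D.loc_w0, D.loc_w0, lpow_add]
    · rw [D.loc_good hS h0, D.loc_good hS h0, D.loc_good hS h0, Finsupp.add_apply, lpow_add]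

theorem mono_mul (n n' : ι →₀ ℕ) (m m' : ℕ) :
    gmul (D.mono n m) (D.mono n' m') = D.mono (n + n') (m + m') :=
  gext fun i => D.loc_mul n n' m m' i

theorem mono_comm (n n' : ι →₀ ℕ) (m m' : ℕ) :
    gmul (D.mono n m) (D.mono n' m') = gmul (D.mono n' m') (D.mono n m) := by
  rw [mono_mul, mono_mul, add_comm n, add_comm m]

/-- The product of the idempotents: `mono 0 0`. -/
def eS : GlobKer L := D.mono 0 0

theorem eS_mul_mono (n : ι →₀ ℕ) (m : ℕ) : gmul D.eS (D.mono n m) = D.mono n m := by
  rw [eS, mono_mul, zero_add, zero_add]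

theorem mono_mul_eS (n : ι →₀ ℕ) (m : ℕ) : gmul (D.mono n m) D.eS = D.mono n m := by
  rw [eS, mono_mul, add_zero, add_zero]

theorem gop_eS_mono {A : Type*} [AddCommGroup A] [Module ℂ A] (n : ι →₀ ℕ) (m : ℕ)
    (f : XF L → A) : gop D.eS (gop (D.mono n m) f) = gop (D.mono n m) f := by
  rw [← gop_gmul, eS_mul_mono]

end HData

end Fermat.Agent.H79S
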