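import Fermat.Agent.H42T3
import Fermat.Agent.H42T4
import Fermat.Agent.H17S3
import Fermat.Agent.H79SMono
import Fermat.Agent.H67M5

/-!
H42T5 (project S47, (m2)): the kernel system of monomial test kernels on a model.
-/

set_option autoImplicit false
set_option linter.unusedSectionVars false

noncomputable section

open MeasureTheory Set
open scoped ENNReal ComplexConjugate MatrixGroups

namespace Fermat.Agent.H42T

open Fermat.Agent.H17S Fermat.Agent.H21Z Fermat.Agent.H42S Fermat.Agent.H32Z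
open Fermat.Agent.H32Z.CutOff Fermat.Agent.H59XF Fermat.Agent.H51Z Fermat.Agent.H59D
open Fermat.Agent.H79S Fermat.Agent.H56Z

variable {K : Type} [Field K] [NumberField K] {J : Type} [Fintype J] {m : Model K J}

/-- Operators on bounded invariant functions of the model. -/
structure BOps (m : Model K J) where
  gB : GlobKer m.L.fam → Module.End ℂ (BInv PGL(2, K) m.X)
  gB_apply : ∀ a (f : BInv PGL(2, K) m.X) x, (gB a f : m.X → ℂ) x = gX a (f : m.X → ℂ) x
  rB : {κ : (J → ℝ) → ℂ // IsRC κ} → Module.End ℂ (BInv PGL(2, K) m.X)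
  rB_apply : ∀ κ (f : BInv PGL(2, K) m.X) x, (rB κ f : m.X → ℂ) x = RI κ.1 (f : m.X → ℂ) x

/-- Labels: Hecke operators at good places, radial kernels, `U ^ e`. -/
abbrev Lab (D : HData m.L.fam) : Type :=
  ({w // w ∉ D.S ∧ w ≠ D.w0} ⊕ {κ : (J → ℝ) → ℂ // IsRC κ}) ⊕ Unit

/-- Pure monomial kernels. -/
structure PK (D : HData m.L.fam) where
  κ : (J → ℝ) → ℂ
  rc : IsRC κ
  n : IsDedekindDomain.HeightOneSpectrum (NumberField.RingOfIntegers K) →₀ ℕ
  k : ℕ

namespace PK

variable {D : HData m.L.fam}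

/-- the kernel -/
def ker (p : PK D) : m.X → m.X → ℂ := m.ker p.κ (D.mono p.n p.k).k

/-- the product -/
def mul (p q : PK D) : PK D := ⟨conv p.κ q.κ, p.rc.conv q.rc, p.n + q.n, p.k + q.k⟩

open Classical in
/-- right multiplication by a label -/
def app (e : ℕ) (p : PK D) : Lab D → PK D
  | Sum.inl (Sum.inl w) => ⟨p.κ, p.rc, p.n + Finsupp.single w.1 1, p.k⟩
  | Sum.inl (Sum.inr κ) => ⟨conv p.κ κ.1, p.rc.conv κ.2, p.n, p.k⟩
  | Sum.inr _ => ⟨p.κ, p.rc, p.n, p.k + e⟩

theorem mono_single {w : IsDedekindDomain.HeightOneSpectrum (NumberField.RingOfIntegers K)}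
    (hw : w ∉ D.S) (h0 : w ≠ D.w0) (n : _ →₀ ℕ) (k : ℕ) :
    gmul (D.mono n k) (single w (D.T w)) = D.mono (n + Finsupp.single w 1) k := by
  classical
  apply gext
  intro i
  rw [gmul_loc, HData.mono_loc, HData.mono_loc]
  by_cases hi : i = w
  · subst hi
    rw [single_same, D.loc_good hw h0, D.loc_good hw h0, Finsupp.add_apply,
      Finsupp.single_eq_same, lpow_add, lpow_one]
  · rw [single_ne hi, lmul_one]
    by_cases hS : i ∈ D.S
    · rw [D.loc_S hS, D.loc_S hS]
    · by_cases h0' : i = D.w0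
      · subst h0'
        rw [D.loc_w0, D.loc_w0]
      · rw [D.loc_good hS h0', D.loc_good hS h0', Finsupp.add_apply,
          Finsupp.single_eq_of_ne hi, add_zero]

theorem mono_U (n : IsDedekindDomain.HeightOneSpectrum (NumberField.RingOfIntegers K) →₀ ℕ)
    (k e : ℕ) :
    gmul (D.mono n k) (single D.w0 (lpow (D.U D.w0) e)) = D.mono n (k + e) := by
  classical
  apply gext
  intro i
  rw [gmul_loc, HData.mono_loc, HData.mono_loc]
  by_cases hi : i = D.w0
  · subst hi
    rw [single_same, D.loc_w0, D.loc_w0, lpow_add]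
  · rw [single_ne hi, lmul_one]
    by_cases hS : i ∈ D.S
    · rw [D.loc_S hS, D.loc_S hS]
    · rw [D.loc_good hS hi, D.loc_good hS hi]

end PK

section

variable {D : HData m.L.fam}

theorem Bd_congr {G X : Type*} [Group G] [MulAction G X] {k l : X → X → ℂ} (h : k = l)
    (hk : Bd G k) : Bd G l := h ▸ hk

theorem bd_fin {ι : Type} (s : Finset ι) (r : ι → ℂ) (κ : ι → (J → ℝ) → ℂ)
    (hκ : ∀ i, IsRC (κ i)) (a : ι → GlobKer m.L.fam) (b : GlobKer m.L.fam)
    (h : Bd PGL(2, K) (fun x y => ∑ i ∈ s, r i * m.ker (κ i) (a i).k x y)) :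
    Bd PGL(2, K) (fun x y => ∑ i ∈ s, r i * m.ker (κ i) (gmul (a i) b).k x y) := by
  have hck : CK (coarse m) (fun x y => ∑ i ∈ s, r i * m.ker (κ i) (a i).k x y) :=
    CK.sum s fun i _ => (ck_ker (hκ i) (a i)).const_mul (r i)
  refine Bd_congr ?_ (Bd_rmF hck h b)
  rw [rmF_sum s (fun i x y => r i * m.ker (κ i) (a i).k x y)]
  funext x z
  refine Finset.sum_congr rfl fun i _ => ?_
  have h1 : rmF m (fun x y => r i * m.ker (κ i) (a i).k x y) b x z =
      r i * rmF m (m.ker (κ i) (a i).k) b x z := by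
    unfold rmF
    rw [Finset.mul_sum]
    exact Finset.sum_congr rfl fun y _ => by ring
  rw [h1, rmF_ker]

theorem bd_arch {ι : Type} (s : Finset ι) (r : ι → ℂ) (κ : ι → (J → ℝ) → ℂ)
    (hκ : ∀ i, IsRC (κ i)) (a : ι → GlobKer m.L.fam) {κ₂ : (J → ℝ) → ℂ} (h₂ : IsRC κ₂)
    (h : Bd PGL(2, K) (fun x y => ∑ i ∈ s, r i * m.ker (κ i) (a i).k x y)) :
    Bd PGL(2, K) (fun x y => ∑ i ∈ s, r i * m.ker (conv (κ i) κ₂) (a i).k x y) := by
  have hck : CK (coarse m) (fun x y => ∑ i ∈ s, r i * m.ker (κ i) (a i).k x y) :=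
    CK.sum s fun i _ => (ck_ker (hκ i) (a i)).const_mul (r i)
  have hck2 := ck_ker (m := m) h₂ gone
  refine Bd_congr ?_ (Bd.comp_left hck hck2 h)
  funext x z
  rw [comp_eq_act, act_sum_left s (k := fun i x y => r i * m.ker (κ i) (a i).k x y)
    (fun i _ => (ck_ker (hκ i) (a i)).const_mul (r i)) (hck2.lb_left z)]
  refine Finset.sum_congr rfl fun i _ => ?_
  rw [act_const_mul_left, ← comp_eq_act, comp_ker]
  congr 2
  have : gmul (a i) gone = a i := gext fun j => by rw [gmul_loc, gone_loc, lmul_one]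
  rw [this]

/-- **The kernel system of monomial kernels.** `e = 1` on the side of `E`, `e = 3` on the side of
`F`. -/
def kSys (D : HData m.L.fam) (B : BOps m) (e : ℕ) : KSys (coarse m) (Lab D) where
  P := PK D
  ker := PK.ker
  ck p := ck_ker p.rc _
  mul := PK.mul
  comp_ker p q x y := by
    unfold PK.ker PK.mul
    rw [comp_ker, HData.mono_mul]
  app := PK.app e
  Y l := match l with
    | Sum.inl (Sum.inl w) => B.gB (single w.1 (D.T w.1))
    | Sum.inl (Sum.inr κ) => B.rB κ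
    | Sum.inr _ => B.gB (single D.w0 (lpow (D.U D.w0) e))
  act_app p l f x := by
    have hf : LB (coarse m) (f : m.X → ℂ) := KSys.lb_inv f
    match l with
    | Sum.inl (Sum.inl w) =>
      have hY : (B.gB (single w.1 (D.T w.1)) f : m.X → ℂ) = gX (single w.1 (D.T w.1)) f :=
        funext fun x => B.gB_apply _ _ _
      change act m.μ (m.ker p.κ (D.mono (p.n + Finsupp.single w.1 1) p.k).k) f x =
        act m.μ (m.ker p.κ (D.mono p.n p.k).k) (B.gB (single w.1 (D.T w.1)) f : m.X → ℂ) x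
      rw [hY, act_ker p.rc _ hf, act_ker p.rc _ (LB.gX _ hf), RI_gX p.rc _ hf,
        ← PK.mono_single w.2.1 w.2.2, gX_gmul]
    | Sum.inl (Sum.inr κ) =>
      have hY : (B.rB κ f : m.X → ℂ) = RI κ.1 f := funext fun x => B.rB_apply _ _ _
      change act m.μ (m.ker (conv p.κ κ.1) (D.mono p.n p.k).k) f x =
        act m.μ (m.ker p.κ (D.mono p.n p.k).k) (B.rB κ f : m.X → ℂ) x
      rw [hY, act_ker (p.rc.conv κ.2) _ hf, act_ker p.rc _ (LB.RI κ.2 hf),
        RI_conv p.rc κ.2 hf]
    | Sum.inr _ =>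
      have hY : (B.gB (single D.w0 (lpow (D.U D.w0) e)) f : m.X → ℂ) =
          gX (single D.w0 (lpow (D.U D.w0) e)) f := funext fun x => B.gB_apply _ _ _
      change act m.μ (m.ker p.κ (D.mono p.n (p.k + e)).k) f x =
        act m.μ (m.ker p.κ (D.mono p.n p.k).k)
          (B.gB (single D.w0 (lpow (D.U D.w0) e)) f : m.X → ℂ) x
      rw [hY, act_ker p.rc _ hf, act_ker p.rc _ (LB.gX _ hf), RI_gX p.rc _ hf,
        ← PK.mono_U, gX_gmul]
  bd_app s r p l h := by
    match l with
    | Sum.inl (Sum.inl w) =>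
      refine Bd_congr ?_ (bd_fin s r (fun i => (p i).κ) (fun i => (p i).rc)
        (fun i => D.mono (p i).n (p i).k) (single w.1 (D.T w.1)) h)
      simp only [PK.mono_single w.2.1 w.2.2]
      rfl
    | Sum.inl (Sum.inr κ) =>
      exact bd_arch s r (fun i => (p i).κ) (fun i => (p i).rc)
        (fun i => D.mono (p i).n (p i).k) κ.2 h
    | Sum.inr _ =>
      refine Bd_congr ?_ (bd_fin s r (fun i => (p i).κ) (fun i => (p i).rc)
        (fun i => D.mono (p i).n (p i).k) (single D.w0 (lpow (D.U D.w0) e)) h)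
      simp only [PK.mono_U]
      rfl
  mul_app p q l := by
    match l with
    | Sum.inl (Sum.inl w) => simp only [PK.mul, PK.app, add_assoc]
    | Sum.inl (Sum.inr κ) =>
      simp only [PK.mul, PK.app, conv_assoc p.rc q.rc κ.2]
    | Sum.inr _ => simp only [PK.mul, PK.app, add_assoc]

theorem kSys_apps_u (D : HData m.L.fam) (B : BOps m) (e : ℕ) (p : PK D) (n : ℕ) :
    (kSys D B e).apps p (List.replicate n (Sum.inr ())) = ⟨p.κ, p.rc, p.n, p.k + e * n⟩ := by
  induction n generalizing p with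
  | zero => rfl
  | succ n ih =>
    rw [List.replicate_succ, KSys.apps_cons, ih]
    change (⟨p.κ, p.rc, p.n, p.k + e + e * n⟩ : PK D) = _
    congr 1
    ring

end

end Fermat.Agent.H42T
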