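/-
H42XTwo (project LT-X): 2-adic local analysis of the Hesse pencil at a curve with good reduction at 2,
and Kraus' criterion in the supersingular case.
-/
import Mathlib
import Fermat.Agent.H3LTInt

set_option autoImplicit false

namespace Fermat.Agent.H42X

open WeierstrassCurve Fermat.Agent.H3LT

section Kraus

set_option maxRecDepth 10000 in
theorem kraus27ss : ∀ A B : ZMod 27, 64 * A ^ 3 = B ^ 2 →
    ((B = 0 → A.val % 3 = 0) ∧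
     (B.val % 3 = 1 → B + 12 * A - 4 = 0 ∧ A.val % 3 = 1) ∧
     (B.val % 3 = 2 → B - 12 * A + 4 = 0 ∧ A.val % 3 = 1)) := by
  decide

/-- Kraus' criterion in the supersingular case -/
theorem exists_model_ss (A B Δ : ℤ) (hrel : 27 * Δ = 64 * A ^ 3 - B ^ 2) (h2 : B % 4 = 1)
    (h3 : ¬ (3 : ℤ) ∣ B ∨ (27 : ℤ) ∣ B) :
    ∃ W : WeierstrassCurve ℤ, W.c₄ = 16 * A ∧ W.c₆ = 8 * B ∧ W.Δ = Δ ∧ W.a₁ = 0 ∧ W.a₃ = 1 := by
  have r27 : 64 * (A : ZMod 27) ^ 3 = (B : ZMod 27) ^ 2 := by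
    have := zmod_cast_cases 27 (64 * A ^ 3) (B ^ 2) ⟨Δ, by rw [← hrel]; push_cast; ring⟩
    exact_mod_cast this
  have k27 := kraus27ss (A : ZMod 27) (B : ZMod 27) r27
  have hval : ∀ c : ℤ, ((c : ZMod 27).val % 3 : ℕ) = (c % 3).toNat := by
    intro c
    have h1 : (((c : ZMod 27).val : ℕ) : ℤ) = c % 27 := by
      have := ZMod.val_intCast (n := 27) c
      exact_mod_cast this
    omega
  -- a model from `a₂, a₄, a₆`
  have build : ∀ a2 a4 a6 : ℤ, a2 ^ 2 - 3 * a4 = A →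
      -8 * a2 ^ 3 + 36 * a2 * a4 - 27 * (1 + 4 * a6) = B →
      ∃ W : WeierstrassCurve ℤ, W.c₄ = 16 * A ∧ W.c₆ = 8 * B ∧ W.Δ = Δ ∧ W.a₁ = 0 ∧ W.a₃ = 1 := by
    intro a2 a4 a6 hA hB
    have f4 : (⟨0, a2, 1, a4, a6⟩ : WeierstrassCurve ℤ).c₄ = 16 * A := by
      rw [WeierstrassCurve.c₄, WeierstrassCurve.b₂, WeierstrassCurve.b₄, ← hA]; ring
    have f6 : (⟨0, a2, 1, a4, a6⟩ : WeierstrassCurve ℤ).c₆ = 8 * B := by
      rw [WeierstrassCurve.c₆, WeierstrassCurve.b₂, WeierstrassCurve.b₄, WeierstrassCurve.b₆, ← hB]; ring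
    refine ⟨⟨0, a2, 1, a4, a6⟩, f4, f6, ?_, rfl, rfl⟩
    have h := (⟨0, a2, 1, a4, a6⟩ : WeierstrassCurve ℤ).c_relation
    rw [f4, f6] at h
    have h' : 1728 * (⟨0, a2, 1, a4, a6⟩ : WeierstrassCurve ℤ).Δ = 1728 * Δ := by
      rw [h]; linear_combination -64 * hrel
    exact mul_left_cancel₀ (by norm_num) h'
  have h0 : B % 3 = 0 ∨ B % 3 = 1 ∨ B % 3 = 2 := by omega
  rcases h0 with h0 | h0 | h0
  · have h27 : (27 : ℤ) ∣ B := by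
      rcases h3 with h | h
      · exact absurd (Int.dvd_of_emod_eq_zero h0) h
      · exact h
    have e1 : (B : ZMod 27) = 0 := (ZMod.intCast_zmod_eq_zero_iff_dvd B 27).mpr h27
    have hA := k27.1 e1
    rw [hval] at hA
    obtain ⟨b, hb⟩ := h27
    obtain ⟨a4, ha4⟩ : (3 : ℤ) ∣ A := by omega
    obtain ⟨a6, ha6⟩ : (4 : ℤ) ∣ -b - 1 := by omega
    refine build 0 (-a4) a6 (by rw [ha4]; ring) ?_
    rw [hb]; linear_combination 27 * ha6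
  · obtain ⟨h1, h2'⟩ := k27.2.1 (by rw [hval, h0]; rfl)
    rw [hval] at h2'
    have h27 : (27 : ℤ) ∣ B + 12 * A - 4 := by
      apply (ZMod.intCast_zmod_eq_zero_iff_dvd _ 27).mp
      push_cast
      exact h1
    obtain ⟨b, hb⟩ := h27
    obtain ⟨a4, ha4⟩ : (3 : ℤ) ∣ A - 1 := by omega
    obtain ⟨a6, ha6⟩ : (4 : ℤ) ∣ -b - 1 := by omega
    refine build 1 (-a4) a6 (by linarith) ?_
    linear_combination 27 * ha6 - hb + 12 * ha4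
  · obtain ⟨h1, h2'⟩ := k27.2.2 (by rw [hval, h0]; rfl)
    rw [hval] at h2'
    have h27 : (27 : ℤ) ∣ B - 12 * A + 4 := by
      apply (ZMod.intCast_zmod_eq_zero_iff_dvd _ 27).mp
      push_cast
      exact h1
    obtain ⟨b, hb⟩ := h27
    obtain ⟨a4, ha4⟩ : (3 : ℤ) ∣ A - 1 := by omega
    obtain ⟨a6, ha6⟩ : (4 : ℤ) ∣ -b - 1 := by omega
    refine build (-1) (-a4) a6 (by linarith) ?_
    linear_combination 27 * ha6 - hb - 12 * ha4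

end Kraus

section Two

variable (W : WeierstrassCurve ℤ)

/-- `C4` at the point with coordinate `x` -/
theorem C4_three_mul (x : ℤ) : C4 W (3 * x) 1 =
    81 * (9 * (W.b₆ + 2 * x * W.b₄ + x ^ 2 * W.b₂ + 4 * x ^ 3) ^ 2 -
      8 * (W.b₄ + x * W.b₂ + 6 * x ^ 2) *
        (W.b₈ + 3 * x * W.b₆ + 3 * x ^ 2 * W.b₄ + x ^ 3 * W.b₂ + 3 * x ^ 4)) := by
  have h := W.b_relation
  unfold C4 fC4
  linear_combination (-486 * x ^ 2) * h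

/-- `C6` at the point with coordinate `x` -/
theorem C6_three_mul (x : ℤ) : C6 W (3 * x) 1 =
    729 * (8 * (W.b₂ + 12 * x) *
        (W.b₈ + 3 * x * W.b₆ + 3 * x ^ 2 * W.b₄ + x ^ 3 * W.b₂ + 3 * x ^ 4) ^ 2 -
      36 * (W.b₄ + x * W.b₂ + 6 * x ^ 2) * (W.b₆ + 2 * x * W.b₄ + x ^ 2 * W.b₂ + 4 * x ^ 3) *
        (W.b₈ + 3 * x * W.b₆ + 3 * x ^ 2 * W.b₄ + x ^ 3 * W.b₂ + 3 * x ^ 4) +
      27 * (W.b₆ + 2 * x * W.b₄ + x ^ 2 * W.b₂ + 4 * x ^ 3) ^ 3) := by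
  unfold C6 fC6 b₂ b₄ b₆ b₈
  ring

theorem P_three_mul (x : ℤ) : P W (3 * x) 1 =
    27 * (W.b₈ + 3 * x * W.b₆ + 3 * x ^ 2 * W.b₄ + x ^ 3 * W.b₂ + 3 * x ^ 4) := by
  unfold P fP
  ring

/-- the supersingular member of the pencil at an ordinary curve -/
theorem ord_ss (h1 : W.a₁ % 2 = 1) (hΔ : W.Δ % 2 = 1) :
    C4 W (3 * W.a₃) 1 % 32 = 16 ∧ C6 W (3 * W.a₃) 1 % 32 = 8 ∧ P W (3 * W.a₃) 1 % 2 = 1 := by
  obtain ⟨u, hu⟩ : ∃ u, W.a₁ = 2 * u + 1 := ⟨W.a₁ / 2, by omega⟩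
  -- translated invariants
  set a3 := W.a₃ with ha3
  obtain ⟨c, hc⟩ : ∃ c, W.b₆ + 2 * a3 * W.b₄ + a3 ^ 2 * W.b₂ + 4 * a3 ^ 3 = 4 * c := by
    refine ⟨a3 ^ 2 * (u + 1) ^ 2 + W.a₆ + W.a₄ * a3 + W.a₂ * a3 ^ 2 + a3 ^ 3, ?_⟩
    simp only [WeierstrassCurve.b₂, WeierstrassCurve.b₄, WeierstrassCurve.b₆, ← ha3, hu]
    ring
  obtain ⟨d, hd⟩ : ∃ d, W.b₄ + a3 * W.b₂ + 6 * a3 ^ 2 = 2 * d := by
    refine ⟨W.a₄ + 2 * W.a₂ * a3 + 3 * a3 ^ 2 + a3 * (2 * u + 1) * (u + 1), ?_⟩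
    simp only [WeierstrassCurve.b₂, WeierstrassCurve.b₄, ← ha3, hu]
    ring
  set e := W.b₈ + 3 * a3 * W.b₆ + 3 * a3 ^ 2 * W.b₄ + a3 ^ 3 * W.b₂ + 3 * a3 ^ 4 with he
  set b := W.b₂ + 12 * a3 with hb
  have hb1 : b % 4 = 1 := by
    have : b = 4 * (u ^ 2 + u + W.a₂ + 3 * a3) + 1 := by
      rw [hb, WeierstrassCurve.b₂, hu]; ring
    omega
  have hrel : 4 * e = b * (4 * c) - (2 * d) ^ 2 := by
    rw [← hc, ← hd, he, hb]
    have h := W.b_relation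
    linear_combination h
  have hrel' : e = b * c - d ^ 2 := by linarith
  have hΔ' : W.Δ = -b ^ 2 * e - 8 * (2 * d) ^ 3 - 27 * (4 * c) ^ 2 + 9 * b * (2 * d) * (4 * c) := by
    rw [← hc, ← hd, he, hb]
    unfold WeierstrassCurve.Δ WeierstrassCurve.b₂ WeierstrassCurve.b₄ WeierstrassCurve.b₆ WeierstrassCurve.b₈
    ring
  have he1 : e % 2 = 1 := by
    rcases Int.even_or_odd e with ⟨k, hk⟩ | ⟨k, hk⟩
    · exfalso
      have : W.Δ = 2 * (-b ^ 2 * k - 4 * (2 * d) ^ 3 - 27 * 8 * c ^ 2 + 9 * b * d * (4 * c)) := by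
        rw [hΔ', hk]; ring
      omega
    · omega
  have h4 := C4_three_mul W a3
  have h6 := C6_three_mul W a3
  have hP := P_three_mul W a3
  rw [← he, hc, hd] at h4 h6
  rw [← he] at hP
  rw [← hb] at h6
  obtain ⟨b', hb'⟩ : ∃ b', b = 4 * b' + 1 := ⟨b / 4, by omega⟩
  obtain ⟨e', he'⟩ : ∃ e', e = 2 * e' + 1 := ⟨e / 2, by omega⟩
  have hcd : (c + d) % 2 = 1 := by
    have hsq : (d ^ 2) % 2 = d % 2 := by
      rcases Int.even_or_odd d with ⟨k, hk⟩ | ⟨k, hk⟩ <;> rw [hk] <;> ring_nf <;> omega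
    have : e = 4 * (b' * c) + c - d ^ 2 := by rw [hrel', hb']; ring
    omega
  have hcd2 : (c * d) % 2 = 0 := by
    rcases Int.even_or_odd c with ⟨k, hk⟩ | ⟨k, hk⟩
    · have : c * d = 2 * (k * d) := by rw [hk]; ring
      omega
    · obtain ⟨l, hl⟩ : ∃ l, d = 2 * l := ⟨d / 2, by omega⟩
      have : c * d = 2 * (c * l) := by rw [hl]; ring
      omega
  refine ⟨?_, ?_, ?_⟩
  · rw [h4]
    have hc2 : (c ^ 2) % 2 = c % 2 := by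
      rcases Int.even_or_odd c with ⟨k, hk⟩ | ⟨k, hk⟩ <;> rw [hk] <;> ring_nf <;> omega
    have hde : (d * e) % 2 = d % 2 := by
      have : d * e = 2 * (d * e') + d := by rw [he']; ring
      omega
    have e1 : 81 * (9 * (4 * c) ^ 2 - 8 * (2 * d) * e) = 16 * (729 * c ^ 2 - 81 * (d * e)) := by ring
    rw [e1]
    omega
  · rw [h6]
    obtain ⟨k, hk⟩ : ∃ k, c * d = 2 * k := ⟨c * d / 2, by omega⟩
    have e1 : 729 * (8 * b * e ^ 2 - 36 * (2 * d) * (4 * c) * e + 27 * (4 * c) ^ 3) =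
        8 + 32 * (729 * (b' * e ^ 2 + e' ^ 2 + e' - 18 * k * e + 54 * c ^ 3) + 182) := by
      rw [show 36 * (2 * d) * (4 * c) * e = 288 * (c * d) * e by ring, hk, hb', he']
      ring
    rw [e1]
    omega
  · rw [hP]; omega

/-- the members of the pencil at a supersingular curve -/
theorem ss_mult (h1 : W.a₁ % 2 = 0) (hΔ : W.Δ % 2 = 1) :
    C4 W 0 1 % 2 = 1 ∧ C6 W 0 1 % 4 = 3 ∧ P W 0 1 = 27 * W.b₈ := by
  obtain ⟨u, hu⟩ : ∃ u, W.a₁ = 2 * u := ⟨W.a₁ / 2, by omega⟩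
  have h4 := C4_three_mul W 0
  have h6 := C6_three_mul W 0
  have hP := P_three_mul W 0
  simp only [mul_zero, zero_mul, add_zero, ne_eq, OfNat.ofNat_ne_zero, not_false_eq_true, zero_pow] at h4 h6 hP
  obtain ⟨B, hB⟩ : ∃ B, W.b₂ = 4 * B := ⟨u ^ 2 + W.a₂, by rw [WeierstrassCurve.b₂, hu]; ring⟩
  obtain ⟨D, hD⟩ : ∃ D, W.b₄ = 2 * D := ⟨W.a₄ + u * W.a₃, by rw [WeierstrassCurve.b₄, hu]; ring⟩
  obtain ⟨c, hb6⟩ : ∃ c, W.b₆ = 4 * c + 1 := by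
    have h3 : W.a₃ % 2 = 1 := by
      rcases Int.even_or_odd W.a₃ with ⟨k, hk⟩ | ⟨k, hk⟩
      · exfalso
        have : W.Δ = 2 * (-8 * B ^ 2 * W.b₈ - 4 * (2 * D) ^ 3 - 27 * 8 * (k ^ 2 + W.a₆) ^ 2 +
            9 * 2 * B * (2 * D) * (4 * (k ^ 2 + W.a₆))) := by
          rw [WeierstrassCurve.Δ, hB, hD, WeierstrassCurve.b₆, hk]; ring
        omega
      · omega
    obtain ⟨v, hv⟩ : ∃ v, W.a₃ = 2 * v + 1 := ⟨W.a₃ / 2, by omega⟩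
    exact ⟨v ^ 2 + v + W.a₆, by rw [WeierstrassCurve.b₆, hv]; ring⟩
  refine ⟨?_, ?_, hP⟩
  · rw [h4]
    have : 81 * (9 * W.b₆ ^ 2 - 8 * W.b₄ * W.b₈) =
        2 * (-324 * W.b₄ * W.b₈ + 729 * (8 * c ^ 2 + 4 * c) + 364) + 1 := by rw [hb6]; ring
    omega
  · rw [h6]
    have : 729 * (8 * W.b₂ * W.b₈ ^ 2 - 36 * W.b₄ * W.b₆ * W.b₈ + 27 * W.b₆ ^ 3) =
        4 * (729 * (2 * W.b₂ * W.b₈ ^ 2 - 9 * W.b₄ * W.b₆ * W.b₈ +
          27 * (16 * c ^ 3 + 12 * c ^ 2 + 3 * c)) + 4920) + 3 := by rw [hb6]; ring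
    omega

end Two

end Fermat.Agent.H42X
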