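import Mathlib
import Fermat.Agent.H72Kummer

/-!
# Exact parallelogram law for degrees of x-coordinates over a rational function field

`k` algebraically closed, `L ⊇ k(x)` a quadratic extension with involution; points of `W(L)` that
are sent to their negative by the involution have `x`-coordinate in `k(x)`; the degree of the
`x`-coordinate satisfies the exact parallelogram law.
-/

set_option autoImplicit false

namespace Fermat.Agent.H43

open Polynomial WeierstrassCurve WeierstrassCurve.Affine WeierstrassCurve.Affine.Point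
open Fermat.Agent.H72

section Prim

variable {k : Type*} [Field k] [IsAlgClosed k]

/-- two primitive proportional polynomial vectors differ by a constant -/
lemma prim_unique {ι : Type*} [Fintype ι] (v w : ι → k[X])
    (hv : ∀ t : k, ∃ i, (v i).eval t ≠ 0) (hw : ∀ t : k, ∃ i, (w i).eval t ≠ 0)
    (h : ∀ i j, v i * w j = v j * w i) : ∃ c : k, c ≠ 0 ∧ ∀ i, w i = C c * v i := by
  have htop : (1 : k[X]) ∈ Ideal.span (Set.range v) := by
    obtain ⟨g, hg⟩ := (IsPrincipalIdealRing.principal (Ideal.span (Set.range v))).principal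
    by_cases hdeg : g.degree = 0
    · have hu : IsUnit g := isUnit_iff_degree_eq_zero.mpr hdeg
      rw [hg]
      change (1 : k[X]) ∈ Ideal.span {g}
      rw [Ideal.span_singleton_eq_top.mpr hu]
      trivial
    · obtain ⟨t, ht⟩ := IsAlgClosed.exists_root g hdeg
      obtain ⟨i, hi⟩ := hv t
      exfalso
      apply hi
      have hmem : v i ∈ Ideal.span {g} := by
        have h1 : v i ∈ Ideal.span (Set.range v) := Ideal.subset_span ⟨i, rfl⟩
        rw [hg] at h1
        exact h1
      obtain ⟨r, hr⟩ := Ideal.mem_span_singleton.mp hmem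
      rw [hr, eval_mul, show g.eval t = 0 from ht, zero_mul]
  obtain ⟨a, ha⟩ := (Ideal.mem_span_range_iff_exists_fun).mp htop
  have hw' : ∀ i, w i = (∑ j, a j * w j) * v i := by
    intro i
    calc w i = (∑ j, a j * v j) * w i := by rw [ha, one_mul]
      _ = _ := by
        rw [Finset.sum_mul, Finset.sum_mul]
        refine Finset.sum_congr rfl fun j _ => ?_
        have := h i j
        linear_combination (-a j) * this
  set c0 := ∑ j, a j * w j with hc0
  have hdeg : c0.degree = 0 := by
    by_contra hdeg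
    obtain ⟨t, ht⟩ := IsAlgClosed.exists_root c0 hdeg
    obtain ⟨i, hi⟩ := hw t
    apply hi
    rw [hw' i, eval_mul, show c0.eval t = 0 from ht, zero_mul]
  have hC : c0 = C (c0.coeff 0) := eq_C_of_degree_eq_zero hdeg
  refine ⟨c0.coeff 0, ?_, fun i => ?_⟩
  · intro h0
    rw [h0, C_0] at hC
    rw [hC, degree_zero] at hdeg
    exact absurd hdeg (by simp)
  · rw [← hC]; exact hw' i

end Prim

section Kummer

variable {k : Type*} [Field k]

/-- The three quadratic forms describing `(x(P)x(Q), x(P)+x(Q), 1) ↦ (x(P+Q)x(P-Q), ..)`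
have no common zero when `Δ ≠ 0`. -/
lemma kummerForms_ne_zero (W : WeierstrassCurve k) (hΔ : W.Δ ≠ 0) {s t u : k}
    (h0 : s ^ 2 - W.b₄ * s * u - W.b₆ * t * u - W.b₈ * u ^ 2 = 0)
    (h1 : 2 * t * s + W.b₂ * s * u + W.b₄ * t * u + W.b₆ * u ^ 2 = 0)
    (h2 : t ^ 2 - 4 * s * u = 0) : s = 0 ∧ t = 0 ∧ u = 0 := by
  have : W.IsElliptic := ⟨isUnit_iff_ne_zero.mpr hΔ⟩
  by_contra hne
  have hx : (![s, t, u] : Fin 3 → k) ≠ 0 := by
    intro h
    apply hne
    exact ⟨congrFun h 0, congrFun h 1, congrFun h 2⟩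
  apply addSubMap_ne_zero W hx
  ext i
  fin_cases i
  · simp [addSubMap]; linear_combination h0
  · simp [addSubMap]; linear_combination h1
  · simp [addSubMap]; linear_combination h2

end Kummer


section Degrees

variable {k : Type*} [Field k]

lemma deg_mul_lt {f g : k[X]} {m n : ℕ} (hf : f.degree ≤ m) (hg : g.degree < n) :
    (f * g).degree < ((m + n : ℕ) : WithBot ℕ) := by
  by_cases hf0 : f = 0
  · rw [hf0, zero_mul, degree_zero]; exact WithBot.bot_lt_coe _
  by_cases hg0 : g = 0
  · rw [hg0, mul_zero, degree_zero]; exact WithBot.bot_lt_coe _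
  rw [degree_mul, degree_eq_natDegree hf0, degree_eq_natDegree hg0] at *
  norm_cast at *
  omega

lemma deg_add_lt {f g : k[X]} {n : WithBot ℕ} (hf : f.degree < n) (hg : g.degree < n) :
    (f + g).degree < n := (degree_add_le f g).trans_lt (max_lt hf hg)

lemma deg_sub_lt {f g : k[X]} {n : WithBot ℕ} (hf : f.degree < n) (hg : g.degree < n) :
    (f - g).degree < n := (degree_sub_le f g).trans_lt (max_lt hf hg)

lemma deg_C_mul_lt {c : k} {f : k[X]} {n : WithBot ℕ} (hf : f.degree < n) :
    (C c * f).degree < n := by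
  rw [← smul_eq_C_mul]; exact (degree_smul_le c f).trans_lt hf

/-- degrees of the three Kummer forms evaluated at a polynomial vector whose first component has
strictly largest degree -/
lemma kummer_degrees {s t u : k[X]} {m : ℕ} (hs : s.degree = m) (ht : t.degree < m)
    (hu : u.degree < m) (b₂ b₄ b₆ b₈ : k) :
    (s ^ 2 - C b₄ * s * u - C b₆ * t * u - C b₈ * u ^ 2).degree = ((m + m : ℕ) : WithBot ℕ) ∧
    (2 * t * s + C b₂ * s * u + C b₄ * t * u + C b₆ * u ^ 2).degree < ((m + m : ℕ) : WithBot ℕ) ∧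
    (t ^ 2 - 4 * s * u).degree < ((m + m : ℕ) : WithBot ℕ) := by
  have hs' : s.degree ≤ m := hs.le
  have ht' : t.degree ≤ m := ht.le
  have hu' : u.degree ≤ m := hu.le
  have hsu := deg_mul_lt hs' hu
  have htu := deg_mul_lt ht' hu
  have huu := deg_mul_lt hu' hu
  have hst := deg_mul_lt hs' ht
  have htt := deg_mul_lt ht' ht
  have hss : (s ^ 2).degree = ((m + m : ℕ) : WithBot ℕ) := by
    rw [sq, degree_mul, hs]; norm_cast
  refine ⟨?_, ?_, ?_⟩
  · have e : s ^ 2 - C b₄ * s * u - C b₆ * t * u - C b₈ * u ^ 2 =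
      s ^ 2 - (C b₄ * (s * u) + C b₆ * (t * u) + C b₈ * (u * u)) := by ring
    rw [e, degree_sub_eq_left_of_degree_lt, hss]
    rw [hss]
    exact deg_add_lt (deg_add_lt (deg_C_mul_lt hsu) (deg_C_mul_lt htu)) (deg_C_mul_lt huu)
  · have e : 2 * t * s + C b₂ * s * u + C b₄ * t * u + C b₆ * u ^ 2 =
      C 2 * (s * t) + C b₂ * (s * u) + C b₄ * (t * u) + C b₆ * (u * u) := by
      rw [show (C (2 : k) : k[X]) = 2 from rfl]; ring
    rw [e]
    exact deg_add_lt (deg_add_lt (deg_add_lt (deg_C_mul_lt hst) (deg_C_mul_lt hsu))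
      (deg_C_mul_lt htu)) (deg_C_mul_lt huu)
  · have e : t ^ 2 - 4 * s * u = t * t - C 4 * (s * u) := by
      rw [show (C (4 : k) : k[X]) = 4 from rfl]; ring
    rw [e]
    exact deg_sub_lt htt (deg_C_mul_lt hsu)

/-- If `sym2 (A,B) (A',B')` has strictly dominant first component, so have both pairs. -/
lemma split_degrees {A B A' B' : k[X]} {n : ℕ} (h0 : (A * A').degree = n)
    (h1 : (A * B' + B * A').degree < n) (h2 : (B * B').degree < n) :
    B.degree < A.degree := by
  have hAA : A * A' ≠ 0 := by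
    intro h; rw [h, degree_zero] at h0; exact absurd h0 (by simp)
  have hA : A ≠ 0 := left_ne_zero_of_mul hAA
  have hA' : A' ≠ 0 := right_ne_zero_of_mul hAA
  by_contra hlt
  rw [not_lt] at hlt
  have hB : B ≠ 0 := by
    intro h; rw [h, degree_zero, le_bot_iff, degree_eq_bot] at hlt; exact hA hlt
  have hAn : (A.natDegree : WithBot ℕ) = A.degree := (degree_eq_natDegree hA).symm
  have hnat : A.natDegree + A'.natDegree = n := by
    rw [degree_mul, degree_eq_natDegree hA, degree_eq_natDegree hA'] at h0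
    exact_mod_cast h0
  have hBA : A.natDegree ≤ B.natDegree := by
    rw [degree_eq_natDegree hA, degree_eq_natDegree hB] at hlt
    exact_mod_cast hlt
  have hBA' : ((n : ℕ) : WithBot ℕ) ≤ (B * A').degree := by
    rw [degree_mul, degree_eq_natDegree hB, degree_eq_natDegree hA']
    norm_cast; omega
  have hAB' : (A * B').degree < n := by
    by_cases hB' : B' = 0
    · rw [hB', mul_zero, degree_zero]; exact WithBot.bot_lt_coe _
    · rw [degree_mul, degree_eq_natDegree hB, degree_eq_natDegree hB'] at h2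
      rw [degree_mul, degree_eq_natDegree hA, degree_eq_natDegree hB']
      norm_cast at *
      omega
  rw [degree_add_eq_right_of_degree_lt (hAB'.trans_le hBA')] at h1
  exact absurd h1 (not_lt.mpr hBA')

end Degrees

section GenPt

universe uF uk

variable {F : Type uF} {k L : Type uk} [Field F] [Field k] [Field L] [Algebra F k] [Algebra k L]
  [Algebra F L] [IsScalarTower F k L]

/-- A generic point on `W` with coordinates in `L ⊇ k(x)`, with the hyperelliptic involution. -/
structure GenPt (W : WeierstrassCurve F) (k L : Type uk) [Field k] [Field L] [Algebra F k]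
    [Algebra k L] [Algebra F L] [IsScalarTower F k L] where
  x : L
  y : L
  eqn : (W⁄L).toAffine.Equation x y
  inj : Function.Injective (aeval x : k[X] →ₐ[k] L)
  σ : L →ₐ[k] L
  σx : σ x = x
  σy : σ y = (W⁄L).toAffine.negY x y
  fixed : ∀ z, σ z = z → ∃ A B : k[X], B ≠ 0 ∧ z * aeval x B = aeval x A

variable {W : WeierstrassCurve F} (G : GenPt W k L)

/-- `A / B` is the reduced expression of the `x`-coordinate of `Q`, with `deg B < deg A`. -/
def IsRep (Q : (W⁄L).toAffine.Point) (A B : k[X]) : Prop :=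
  IsCoprime A B ∧ B.degree < A.degree ∧ xN Q * aeval G.x B = xD Q * aeval G.x A

omit [IsScalarTower F k L] in
lemma xN_xD_cases (Q : (W⁄L).toAffine.Point) : (xN Q = 1 ∧ xD Q = 0) ∨ xD Q = 1 := by
  rcases Q with _ | ⟨x, y, h⟩
  · left
    exact ⟨xN_zero, xD_zero⟩
  · right; simp

lemma cross_eq {Q : (W⁄L).toAffine.Point} {A B A' B' : k[X]}
    (h : xN Q * aeval G.x B = xD Q * aeval G.x A)
    (h' : xN Q * aeval G.x B' = xD Q * aeval G.x A') : A * B' = A' * B := by
  apply G.inj
  rw [map_mul, map_mul]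
  rcases xN_xD_cases Q with ⟨h1, h2⟩ | h2
  · rw [h1, h2, one_mul, zero_mul] at h h'
    rw [h, h']; ring
  · rw [h2, one_mul] at h h'
    rw [← h, ← h']; ring

lemma ne_zero_of_degree_lt {A B : k[X]} (h : B.degree < A.degree) : A ≠ 0 := by
  rintro rfl
  rw [degree_zero] at h
  exact not_lt_bot h

lemma natDegree_eq_of_cross {A B A' B' : k[X]} (hc : IsCoprime A B) (hc' : IsCoprime A' B')
    (hA : A ≠ 0) (hA' : A' ≠ 0) (h : A * B' = A' * B) : A.natDegree = A'.natDegree := by
  apply le_antisymm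
  · apply natDegree_le_of_dvd _ hA'
    exact hc.dvd_of_dvd_mul_right (Dvd.intro _ h)
  · apply natDegree_le_of_dvd _ hA
    exact hc'.dvd_of_dvd_mul_right (Dvd.intro _ h.symm)

lemma IsRep.natDegree_eq {Q : (W⁄L).toAffine.Point} {A B A' B' : k[X]} (h : IsRep G Q A B)
    (h' : IsRep G Q A' B') : A.natDegree = A'.natDegree :=
  natDegree_eq_of_cross h.1 h'.1 (ne_zero_of_degree_lt h.2.1) (ne_zero_of_degree_lt h'.2.1)
    (cross_eq G h.2.2 h'.2.2)

variable [DecidableEq L]

/-- the subgroup of points sent to their negative by the involution -/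
noncomputable def odd : AddSubgroup (W⁄L).toAffine.Point where
  carrier := {Q | Point.map (W' := W) G.σ Q = -Q}
  zero_mem' := by
    change Point.map (W' := W) G.σ 0 = -0
    rw [_root_.map_zero, Point.neg_zero]
  add_mem' := by
    intro Q R hQ hR
    change Point.map (W' := W) G.σ (Q + R) = -(Q + R)
    rw [map_add, show Point.map (W' := W) G.σ Q = -Q from hQ,
      show Point.map (W' := W) G.σ R = -R from hR, neg_add]
  neg_mem' := by
    intro Q hQ
    change Point.map (W' := W) G.σ (-Q) = -(-Q)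
    rw [map_neg, show Point.map (W' := W) G.σ Q = -Q from hQ]

lemma mem_odd {Q : (W⁄L).toAffine.Point} : Q ∈ odd G ↔ Point.map (W' := W) G.σ Q = -Q := Iff.rfl

lemma exists_coprime_rep {Q : (W⁄L).toAffine.Point} (hQ : Q ∈ odd G) :
    ∃ A B : k[X], IsCoprime A B ∧ xN Q * aeval G.x B = xD Q * aeval G.x A := by
  rw [mem_odd] at hQ
  rcases Q with _ | ⟨u, v, h⟩
  · exact ⟨1, 0, isCoprime_one_left, by
      change xN (0 : (W⁄L).toAffine.Point) * _ = xD (0 : (W⁄L).toAffine.Point) * _
      simp⟩
  · rw [Point.map_some, Point.neg_some, Point.some.injEq] at hQ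
    obtain ⟨A, B, hB, hAB⟩ := G.fixed u hQ.1
    obtain ⟨A', B', g, hrel, hA', hB'⟩ := UniqueFactorizationMonoid.exists_reduced_factors' A B hB
    have hcop : IsCoprime A' B' := hrel.isCoprime
    refine ⟨A', B', hcop, ?_⟩
    rw [xN_some, xD_some, one_mul]
    have hg : aeval G.x g ≠ 0 := by
      intro h0
      have : g = 0 := G.inj (by rw [h0, _root_.map_zero])
      rw [this, zero_mul] at hB'
      exact hB hB'.symm
    apply mul_left_cancel₀ hg
    rw [← hA', ← hB', map_mul, map_mul] at hAB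
    rw [← hAB]; ring

omit [DecidableEq L] in
/-- scaling relation between `(xN,xD)` and a coprime representation -/
lemma exists_scale {Q : (W⁄L).toAffine.Point} {A B : k[X]} (hc : IsCoprime A B)
    (h : xN Q * aeval G.x B = xD Q * aeval G.x A) :
    ∃ c : L, c ≠ 0 ∧ aeval G.x A = c * xN Q ∧ aeval G.x B = c * xD Q := by
  rcases xN_xD_cases Q with ⟨h1, h2⟩ | h2
  · rw [h1, h2, one_mul, zero_mul] at h
    refine ⟨aeval G.x A, ?_, by rw [h1, mul_one], by rw [h2, mul_zero, h]⟩
    intro h0
    obtain ⟨a, b, hab⟩ := hc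
    have := congrArg (aeval G.x) hab
    rw [map_add, map_mul, map_mul, h0, h, mul_zero, mul_zero, add_zero, map_one] at this
    exact zero_ne_one this
  · rw [h2, one_mul] at h
    refine ⟨aeval G.x B, ?_, by rw [← h]; ring, by rw [h2, mul_one]⟩
    intro h0
    obtain ⟨a, b, hab⟩ := hc
    rw [h0, mul_zero] at h
    have := congrArg (aeval G.x) hab
    rw [map_add, map_mul, map_mul, h0, ← h, mul_zero, mul_zero, add_zero, map_one] at this
    exact zero_ne_one this

omit [DecidableEq L] in
lemma eval_ne_zero_of_isCoprime {A B : k[X]} (h : IsCoprime A B) (t : k) :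
    A.eval t ≠ 0 ∨ B.eval t ≠ 0 := by
  by_contra hcon
  push Not at hcon
  obtain ⟨a, b, hab⟩ := h
  have := congrArg (eval t) hab
  rw [eval_add, eval_mul, eval_mul, hcon.1, hcon.2, mul_zero, mul_zero, add_zero, eval_one] at this
  exact zero_ne_one this

variable [IsAlgClosed k]

omit [DecidableEq L] in
/-- the basic polynomial identity behind the parallelogram law -/
lemma kummer_poly (hΔ : W.Δ ≠ 0) {Q R S D : (W⁄L).toAffine.Point}
    (hK : KummerRel (W⁄L).toAffine Q R S D)
    {A B A' B' P1 P2 P3 P4 : k[X]} (hQ : IsCoprime A B)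
    (hQ' : xN Q * aeval G.x B = xD Q * aeval G.x A)
    (hR : IsCoprime A' B') (hR' : xN R * aeval G.x B' = xD R * aeval G.x A')
    (hS : IsCoprime P1 P2) (hS' : xN S * aeval G.x P2 = xD S * aeval G.x P1)
    (hD : IsCoprime P3 P4) (hD' : xN D * aeval G.x P4 = xD D * aeval G.x P3) :
    ∃ c : k, c ≠ 0 ∧
      (A * A') ^ 2 - C (algebraMap F k W.b₄) * (A * A') * (B * B')
        - C (algebraMap F k W.b₆) * (A * B' + B * A') * (B * B')
        - C (algebraMap F k W.b₈) * (B * B') ^ 2 = C c * (P1 * P3) ∧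
      2 * (A * B' + B * A') * (A * A') + C (algebraMap F k W.b₂) * (A * A') * (B * B')
        + C (algebraMap F k W.b₄) * (A * B' + B * A') * (B * B')
        + C (algebraMap F k W.b₆) * (B * B') ^ 2 = C c * (P1 * P4 + P2 * P3) ∧
      (A * B' + B * A') ^ 2 - 4 * (A * A') * (B * B') = C c * (P2 * P4) := by
  obtain ⟨c, hc, h0, h1, h2⟩ := hK
  obtain ⟨lQ, hlQ, hA, hB⟩ := exists_scale G hQ hQ'
  obtain ⟨lR, hlR, hA', hB'⟩ := exists_scale G hR hR'
  obtain ⟨lS, hlS, hP1, hP2⟩ := exists_scale G hS hS'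
  obtain ⟨lD, hlD, hP3, hP4⟩ := exists_scale G hD hD'
  set v : Fin 3 → k[X] := ![P1 * P3, P1 * P4 + P2 * P3, P2 * P4] with hv
  set w : Fin 3 → k[X] := ![(A * A') ^ 2 - C (algebraMap F k W.b₄) * (A * A') * (B * B')
        - C (algebraMap F k W.b₆) * (A * B' + B * A') * (B * B')
        - C (algebraMap F k W.b₈) * (B * B') ^ 2,
      2 * (A * B' + B * A') * (A * A') + C (algebraMap F k W.b₂) * (A * A') * (B * B')
        + C (algebraMap F k W.b₄) * (A * B' + B * A') * (B * B')
        + C (algebraMap F k W.b₆) * (B * B') ^ 2,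
      (A * B' + B * A') ^ 2 - 4 * (A * A') * (B * B')] with hw
  have hb2 : (W⁄L).b₂ = algebraMap F L W.b₂ := by simp [WeierstrassCurve.baseChange]
  have hb4 : (W⁄L).b₄ = algebraMap F L W.b₄ := by simp [WeierstrassCurve.baseChange]
  have hb6 : (W⁄L).b₆ = algebraMap F L W.b₆ := by simp [WeierstrassCurve.baseChange]
  have hb8 : (W⁄L).b₈ = algebraMap F L W.b₈ := by simp [WeierstrassCurve.baseChange]
  have hC : ∀ a : F, aeval G.x (C (algebraMap F k a)) = algebraMap F L a := by
    intro a
    rw [aeval_C, ← IsScalarTower.algebraMap_apply]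
  have key : ∀ i, aeval G.x (w i) * (lS * lD) = ((lQ * lR) ^ 2 * c) * aeval G.x (v i) := by
    intro i
    fin_cases i
    · simp only [hw, hv, Fin.zero_eta, Matrix.cons_val_zero, map_sub, map_mul, map_pow, map_add,
        hC, hA, hB, hA', hB', hP1, hP3]
      rw [hb4, hb6, hb8] at h0
      linear_combination (-(lS * lD) * (lQ * lR) ^ 2) * h0
    · simp only [hw, hv, Fin.mk_one, Matrix.cons_val_one, Matrix.cons_val_zero, map_mul, map_pow,
        map_add, hC, hA, hB, hA', hB', hP1, hP3, hP2, hP4, map_ofNat]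
      rw [hb2, hb4, hb6] at h1
      linear_combination (-(lS * lD) * (lQ * lR) ^ 2) * h1
    · simp only [hw, hv, Fin.reduceFinMk, Matrix.cons_val, map_sub, map_mul, map_pow,
        map_add, hA, hB, hA', hB', hP2, hP4, map_ofNat]
      linear_combination (-(lS * lD) * (lQ * lR) ^ 2) * h2
  have hlSD : lS * lD ≠ 0 := mul_ne_zero hlS hlD
  have hprop : ∀ i j, v i * w j = v j * w i := by
    intro i j
    apply G.inj
    apply mul_right_cancel₀ hlSD
    rw [map_mul, map_mul]
    linear_combination (aeval G.x (v i)) * key j - (aeval G.x (v j)) * key i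
  have hvt : ∀ t : k, ∃ i, (v i).eval t ≠ 0 := by
    intro t
    by_contra hcon
    push Not at hcon
    have e0 : P1.eval t * P3.eval t = 0 := by simpa [hv] using hcon 0
    have e1 : P1.eval t * P4.eval t + P2.eval t * P3.eval t = 0 := by simpa [hv] using hcon 1
    have e2 : P2.eval t * P4.eval t = 0 := by simpa [hv] using hcon 2
    rcases eval_ne_zero_of_isCoprime hS t with h | h <;>
      rcases eval_ne_zero_of_isCoprime hD t with h' | h'
    · exact mul_ne_zero h h' e0
    · rcases mul_eq_zero.mp e2 with h3 | h3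
      · rw [h3, zero_mul, add_zero] at e1; exact mul_ne_zero h h' e1
      · exact h' h3
    · rcases mul_eq_zero.mp e0 with h3 | h3
      · rw [h3, zero_mul, zero_add] at e1; exact mul_ne_zero h h' e1
      · exact h' h3
    · exact mul_ne_zero h h' e2
  have hwt : ∀ t : k, ∃ i, (w i).eval t ≠ 0 := by
    intro t
    by_contra hcon
    push Not at hcon
    have hΔ' : (W.map (algebraMap F k)).Δ ≠ 0 := by
      rw [WeierstrassCurve.map_Δ]
      exact (_root_.map_ne_zero _).mpr hΔ
    have e0 := hcon 0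
    have e1 := hcon 1
    have e2 := hcon 2
    simp only [hw, Matrix.cons_val_zero, Matrix.cons_val_one, Matrix.cons_val, eval_sub, eval_mul,
      eval_pow, eval_add, eval_C, eval_ofNat] at e0 e1 e2
    obtain ⟨f0, f1, f2⟩ := kummerForms_ne_zero (W.map (algebraMap F k)) hΔ'
      (s := A.eval t * A'.eval t) (t := A.eval t * B'.eval t + B.eval t * A'.eval t)
      (u := B.eval t * B'.eval t)
      (by simp only [WeierstrassCurve.map_b₄, WeierstrassCurve.map_b₆, WeierstrassCurve.map_b₈]
          exact e0)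
      (by simp only [WeierstrassCurve.map_b₂, WeierstrassCurve.map_b₄, WeierstrassCurve.map_b₆]
          exact e1) (by linear_combination e2)
    rcases eval_ne_zero_of_isCoprime hQ t with h | h <;>
      rcases eval_ne_zero_of_isCoprime hR t with h' | h'
    · exact mul_ne_zero h h' f0
    · rcases mul_eq_zero.mp f2 with h3 | h3
      · rw [h3, zero_mul, add_zero] at f1; exact mul_ne_zero h h' f1
      · exact h' h3
    · rcases mul_eq_zero.mp f0 with h3 | h3
      · rw [h3, zero_mul, zero_add] at f1; exact mul_ne_zero h h' f1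
      · exact h' h3
    · exact mul_ne_zero h h' f2
  obtain ⟨c', hc', hcw⟩ := prim_unique v w hvt hwt hprop
  exact ⟨c', hc', hcw 0, hcw 1, hcw 2⟩

/-- `Q, R` have good representations, `Q+R` and `Q-R` are odd: parallelogram law. -/
lemma rep_add_sub (hΔ : W.Δ ≠ 0) {Q R S D : (W⁄L).toAffine.Point}
    (hK : KummerRel (W⁄L).toAffine Q R S D) (hS : S ∈ odd G) (hD : D ∈ odd G)
    {A B A' B' : k[X]} (hQ : IsRep G Q A B) (hR : IsRep G R A' B') :
    ∃ P1 P2 P3 P4 : k[X], IsRep G S P1 P2 ∧ IsRep G D P3 P4 ∧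
      P1.natDegree + P3.natDegree = 2 * (A.natDegree + A'.natDegree) := by
  obtain ⟨P1, P2, hS1, hS2⟩ := exists_coprime_rep G hS
  obtain ⟨P3, P4, hD1, hD2⟩ := exists_coprime_rep G hD
  obtain ⟨c, hc, e0, e1, e2⟩ := kummer_poly G hΔ hK hQ.1 hQ.2.2 hR.1 hR.2.2 hS1 hS2 hD1 hD2
  have hA := ne_zero_of_degree_lt hQ.2.1
  have hA' := ne_zero_of_degree_lt hR.2.1
  have hAd := degree_eq_natDegree hA
  have hA'd := degree_eq_natDegree hA'
  have hs : (A * A').degree = ((A.natDegree + A'.natDegree : ℕ) : WithBot ℕ) := by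
    rw [degree_mul, hAd, hA'd]; norm_cast
  have hB : B.degree < A.natDegree := by rw [← hAd]; exact hQ.2.1
  have hB' : B'.degree < A'.natDegree := by rw [← hA'd]; exact hR.2.1
  have ht : (A * B' + B * A').degree < ((A.natDegree + A'.natDegree : ℕ) : WithBot ℕ) := by
    refine deg_add_lt (deg_mul_lt hAd.le hB') ?_
    rw [mul_comm B A', add_comm A.natDegree]
    exact deg_mul_lt hA'd.le hB
  have hu : (B * B').degree < ((A.natDegree + A'.natDegree : ℕ) : WithBot ℕ) :=
    deg_mul_lt hB.le hB'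
  obtain ⟨d0, d1, d2⟩ := kummer_degrees hs ht hu (algebraMap F k W.b₂) (algebraMap F k W.b₄)
    (algebraMap F k W.b₆) (algebraMap F k W.b₈)
  rw [e0, degree_C_mul hc] at d0
  rw [e1, degree_C_mul hc] at d1
  rw [e2, degree_C_mul hc] at d2
  have s1 := split_degrees d0 d1 d2
  have s2 : P4.degree < P3.degree := by
    apply split_degrees (A' := P1) (B' := P2) (n := A.natDegree + A'.natDegree +
      (A.natDegree + A'.natDegree))
    · rw [mul_comm]; exact d0
    · rw [show P3 * P2 + P4 * P1 = P1 * P4 + P2 * P3 by ring]; exact d1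
    · rw [mul_comm]; exact d2
  refine ⟨P1, P2, P3, P4, ⟨hS1, s1, hS2⟩, ⟨hD1, s2, hD2⟩, ?_⟩
  rw [degree_mul, degree_eq_natDegree (ne_zero_of_degree_lt s1),
    degree_eq_natDegree (ne_zero_of_degree_lt s2)] at d0
  norm_cast at d0
  omega

/-- The group of odd points whose `x`-coordinate is a rational function `A / B` with
`deg B < deg A` (i.e. maps `∞` to the origin). -/
noncomputable def good (hΔ : W.Δ ≠ 0) : AddSubgroup (W⁄L).toAffine.Point where
  carrier := {Q | Q ∈ odd G ∧ ∃ A B : k[X], IsRep G Q A B}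
  zero_mem' := ⟨zero_mem _, 1, 0, isCoprime_one_left, by simp, by simp⟩
  add_mem' := by
    rintro Q R ⟨hQ, A, B, hAB⟩ ⟨hR, A', B', hAB'⟩
    obtain ⟨P1, P2, P3, P4, h1, -, -⟩ := rep_add_sub G hΔ (kummerRel Q R) (add_mem hQ hR)
      (sub_mem hQ hR) hAB hAB'
    exact ⟨add_mem hQ hR, P1, P2, h1⟩
  neg_mem' := by
    rintro Q ⟨hQ, A, B, h1, h2, h3⟩
    exact ⟨neg_mem hQ, A, B, h1, h2, by rw [xN_neg, xD_neg]; exact h3⟩

lemma mem_good {hΔ : W.Δ ≠ 0} {Q : (W⁄L).toAffine.Point} :
    Q ∈ good G hΔ ↔ Q ∈ odd G ∧ ∃ A B : k[X], IsRep G Q A B := Iff.rfl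

open Classical in
/-- degree of the `x`-coordinate of a good point (`0` for other points) -/
noncomputable def dg (Q : (W⁄L).toAffine.Point) : ℤ :=
  if h : ∃ A B : k[X], IsRep G Q A B then (h.choose.natDegree : ℤ) else 0

omit [DecidableEq L] [IsAlgClosed k] in
lemma dg_eq {Q : (W⁄L).toAffine.Point} {A B : k[X]} (h : IsRep G Q A B) :
    dg G Q = A.natDegree := by
  have h' : ∃ A B : k[X], IsRep G Q A B := ⟨A, B, h⟩
  rw [dg, dif_pos h']
  exact congrArg _ (IsRep.natDegree_eq G h'.choose_spec.choose_spec h)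

omit [DecidableEq L] [IsAlgClosed k] in
lemma dg_nonneg (Q : (W⁄L).toAffine.Point) : 0 ≤ dg G Q := by
  rw [dg]; split_ifs
  · exact Int.natCast_nonneg _
  · exact le_rfl

/-- **parallelogram law** -/
theorem dg_add_sub (hΔ : W.Δ ≠ 0) {Q R : (W⁄L).toAffine.Point} (hQ : Q ∈ good G hΔ)
    (hR : R ∈ good G hΔ) : dg G (Q + R) + dg G (Q - R) = 2 * dg G Q + 2 * dg G R := by
  obtain ⟨hQ, A, B, hAB⟩ := hQ
  obtain ⟨hR, A', B', hAB'⟩ := hR
  obtain ⟨P1, P2, P3, P4, h1, h2, h3⟩ := rep_add_sub G hΔ (kummerRel Q R) (add_mem hQ hR)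
      (sub_mem hQ hR) hAB hAB'
  rw [dg_eq G h1, dg_eq G h2, dg_eq G hAB, dg_eq G hAB']
  norm_cast
  rw [h3]; ring

omit [DecidableEq L] [IsAlgClosed k] in
/-- a good point of degree zero is the origin -/
lemma eq_zero_of_dg_eq_zero {Q : (W⁄L).toAffine.Point} {A B : k[X]} (h : IsRep G Q A B)
    (h0 : dg G Q = 0) : Q = 0 := by
  rw [dg_eq G h] at h0
  have hA : A.natDegree = 0 := by exact_mod_cast h0
  have hA0 : A ≠ 0 := ne_zero_of_degree_lt h.2.1
  have hB : B = 0 := by
    by_contra hB
    have := h.2.1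
    rw [degree_eq_natDegree hA0, degree_eq_natDegree hB, hA] at this
    norm_cast at this
  have h3 := h.2.2
  rw [hB, _root_.map_zero, mul_zero] at h3
  have hAx : aeval G.x A ≠ 0 := by
    intro h
    exact hA0 (G.inj (by rw [h, _root_.map_zero]))
  rcases xN_xD_cases Q with h' | h'
  · rcases Q with _ | ⟨u, v, h⟩
    · rfl
    · simp at h'
  · rw [h', one_mul] at h3
    exact absurd h3.symm hAx

end GenPt

section Quad

/-- a function on an abelian group satisfying the parallelogram law: polar form is additive -/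
lemma polar_add_of_parallelogram {M : Type*} [AddCommGroup M] (H : AddSubgroup M) (f : M → ℤ)
    (hf : ∀ x ∈ H, ∀ y ∈ H, f (x + y) + f (x - y) = 2 * f x + 2 * f y) {x y z : M} (hx : x ∈ H)
    (hy : y ∈ H) (hz : z ∈ H) :
    f (x + y + z) = f (x + z) + f (y + z) + f (x + y) - f x - f y - f z := by
  have e1 := hf (x + z) (add_mem hx hz) y hy
  have e2 := hf x hx (z - y) (sub_mem hz hy)
  have e3 := hf (x + y) (add_mem hx hy) z hz
  have e4 := hf z hz y hy
  have a1 : x + z + y = x + y + z := by abel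
  have a2 : x + (z - y) = x + z - y := by abel
  have a3 : x - (z - y) = x + y - z := by abel
  have a4 : y + z = z + y := by abel
  rw [a1] at e1
  rw [a2, a3] at e2
  rw [a4]
  linarith

end Quad

end Fermat.Agent.H43
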