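import Mathlib
import Fermat.Agent.H43Deg

/-!
# The generic point of a Weierstrass curve over its function field
-/

set_option autoImplicit false

namespace Fermat.Agent.H43

open Polynomial WeierstrassCurve WeierstrassCurve.Affine WeierstrassCurve.Affine.Point
open Fermat.Agent.H72

universe uF uk

variable {F : Type uF} {k : Type uk} [Field F] [Field k] [Algebra F k] (W : WeierstrassCurve F)

section Eval

variable {W} {L : Type*} [Field L] [Algebra k L] [Algebra F L] [IsScalarTower F k L]

/-- evaluation of the coordinate ring at an `L`-point -/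
noncomputable def evRing {u v : L} (h : (W⁄L).toAffine.Equation u v) :
    (W⁄k).toAffine.CoordinateRing →ₐ[k] L :=
  AdjoinRoot.liftAlgHom _ (aeval u : k[X] →ₐ[k] L) v (by
    have h' := (equation_iff ..).mp h
    have hC : ∀ a : F, algebraMap k L (algebraMap F k a) = algebraMap F L a := fun a =>
      (IsScalarTower.algebraMap_apply F k L a).symm
    simp only [Affine.polynomial, WeierstrassCurve.baseChange, WeierstrassCurve.map_a₁,
      WeierstrassCurve.map_a₂, WeierstrassCurve.map_a₃, WeierstrassCurve.map_a₄,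
      WeierstrassCurve.map_a₆, eval₂_add, eval₂_sub, eval₂_mul, eval₂_pow, eval₂_X, eval₂_C,
      AlgHom.coe_toRingHom, map_add, map_mul, map_pow, aeval_C, aeval_X, hC] at h' ⊢
    rw [← sub_eq_zero] at h'
    linear_combination h')

lemma evRing_X {u v : L} (h : (W⁄L).toAffine.Equation u v) (p : k[X]) :
    evRing (k := k) h (algebraMap k[X] _ p) = aeval u p := by
  rw [evRing]
  exact AdjoinRoot.liftAlgHom_of ..

lemma evRing_Y {u v : L} (h : (W⁄L).toAffine.Equation u v) :
    evRing (k := k) h (CoordinateRing.mk _ Polynomial.X) = v := by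
  rw [evRing]
  exact AdjoinRoot.liftAlgHom_root ..

instance : Algebra.IsIntegral k[X] (W⁄k).toAffine.CoordinateRing :=
  have : Module.Finite k[X] (W⁄k).toAffine.CoordinateRing :=
    Module.Finite.of_basis (CoordinateRing.basis _)
  Algebra.IsIntegral.of_finite k[X] _

lemma evRing_injective {u v : L} (h : (W⁄L).toAffine.Equation u v)
    (hu : Function.Injective (aeval u : k[X] →ₐ[k] L)) :
    Function.Injective (evRing (k := k) h) := by
  have hker : RingHom.ker (evRing (k := k) h).toRingHom = ⊥ := by
    have : (RingHom.ker (evRing (k := k) h).toRingHom).IsPrime := RingHom.ker_isPrime _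
    apply Ideal.eq_bot_of_comap_eq_bot (R := k[X])
    rw [eq_bot_iff]
    intro p hp
    rw [Ideal.mem_comap, RingHom.mem_ker] at hp
    have hp' : aeval u p = 0 := by rw [← evRing_X h]; exact hp
    have : p = 0 := hu (by rw [hp', _root_.map_zero])
    rw [this]; exact Ideal.zero_mem _
  exact (RingHom.injective_iff_ker_eq_bot _).mpr hker

/-- evaluation of the function field at an `L`-point with transcendental `x`-coordinate -/
noncomputable def evFF {u v : L} (h : (W⁄L).toAffine.Equation u v)
    (hu : Function.Injective (aeval u : k[X] →ₐ[k] L)) :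
    (W⁄k).toAffine.FunctionField →ₐ[k] L :=
  IsFractionRing.liftAlgHom (g := evRing (k := k) h) (evRing_injective h hu)

lemma evFF_algebraMap {u v : L} (h : (W⁄L).toAffine.Equation u v)
    (hu : Function.Injective (aeval u : k[X] →ₐ[k] L)) (r : (W⁄k).toAffine.CoordinateRing) :
    evFF h hu (algebraMap _ _ r) = evRing (k := k) h r := by
  rw [evFF]
  exact IsFractionRing.lift_algebraMap (evRing_injective h hu) r

end Eval

/-- the function field of `W` over `k` -/
abbrev FF (W : WeierstrassCurve F) (k : Type uk) [Field k] [Algebra F k] : Type uk :=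
  (W⁄k).toAffine.FunctionField

/-- the generic `x`-coordinate -/
noncomputable def gx : FF W k :=
  algebraMap (W⁄k).toAffine.CoordinateRing (FF W k) (algebraMap k[X] _ Polynomial.X)

/-- the generic `y`-coordinate -/
noncomputable def gy : FF W k :=
  algebraMap (W⁄k).toAffine.CoordinateRing (FF W k) (CoordinateRing.mk _ Polynomial.X)

section

variable {W} {L : Type*} [Field L] [Algebra k L] [Algebra F L] [IsScalarTower F k L]

lemma evFF_gx {u v : L} (h : (W⁄L).toAffine.Equation u v)
    (hu : Function.Injective (aeval u : k[X] →ₐ[k] L)) : evFF h hu (gx W) = u := by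
  unfold gx
  rw [evFF_algebraMap, evRing_X, aeval_X]

lemma evFF_gy {u v : L} (h : (W⁄L).toAffine.Equation u v)
    (hu : Function.Injective (aeval u : k[X] →ₐ[k] L)) : evFF h hu (gy W) = v := by
  unfold gy
  rw [evFF_algebraMap, evRing_Y]

end

lemma aeval_gx (p : k[X]) : aeval (gx (k := k) W) p =
    algebraMap (W⁄k).toAffine.CoordinateRing (FF W k) (algebraMap k[X] _ p) := by
  rw [gx, aeval_algebraMap_apply, aeval_algebraMap_apply, aeval_X_left_apply]

lemma aeval_gx_injective : Function.Injective (aeval (gx (k := k) W) : k[X] →ₐ[k] FF W k) := by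
  intro p q hpq
  rw [aeval_gx, aeval_gx] at hpq
  have h1 := IsFractionRing.injective (W⁄k).toAffine.CoordinateRing (FF W k) hpq
  exact FaithfulSMul.algebraMap_injective _ _ h1

lemma generic_equation : (W⁄(FF W k)).toAffine.Equation (gx W) (gy W) := by
  rw [equation_iff]
  have h0 : algebraMap (W⁄k).toAffine.CoordinateRing (FF W k)
      (CoordinateRing.mk _ (W⁄k).toAffine.polynomial) = 0 := by
    rw [AdjoinRoot.mk_self, _root_.map_zero]
  have hC : ∀ a : F, algebraMap F (FF W k) a = algebraMap (W⁄k).toAffine.CoordinateRing (FF W k)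
      (CoordinateRing.mk _ (C (C (algebraMap F k a)))) := by
    intro a
    rw [IsScalarTower.algebraMap_apply F k (FF W k),
      IsScalarTower.algebraMap_apply k (W⁄k).toAffine.CoordinateRing (FF W k)]
    rfl
  have hX : gx W = algebraMap (W⁄k).toAffine.CoordinateRing (FF W k)
      (CoordinateRing.mk _ (C Polynomial.X)) := rfl
  simp only [Affine.polynomial, WeierstrassCurve.baseChange, WeierstrassCurve.map_a₁,
      WeierstrassCurve.map_a₂, WeierstrassCurve.map_a₃, WeierstrassCurve.map_a₄,
      WeierstrassCurve.map_a₆, map_add, map_sub, map_mul, map_pow, hC, hX, gy] at h0 ⊢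
  rw [← sub_eq_zero]
  linear_combination h0

lemma generic_equation_neg :
    (W⁄(FF W k)).toAffine.Equation (gx W) ((W⁄(FF W k)).toAffine.negY (gx W) (gy W)) :=
  (equation_neg ..).mpr (generic_equation W)

/-- hyperelliptic involution -/
noncomputable def invol : FF W k →ₐ[k] FF W k :=
  evFF (generic_equation_neg W) (aeval_gx_injective W)

lemma invol_gx : invol W (gx (k := k) W) = gx W := by
  have h := evFF_gx (generic_equation_neg (k := k) W) (aeval_gx_injective W)
  unfold invol
  exact h

lemma invol_gy : invol W (gy (k := k) W) = (W⁄(FF W k)).toAffine.negY (gx W) (gy W) := by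
  have h := evFF_gy (generic_equation_neg (k := k) W) (aeval_gx_injective W)
  unfold invol
  exact h

/-- decomposition of an element of the coordinate ring in the function field -/
lemma exists_pq (r : (W⁄k).toAffine.CoordinateRing) : ∃ p q : k[X],
    algebraMap (W⁄k).toAffine.CoordinateRing (FF W k) r =
      aeval (gx W) p + aeval (gx W) q * gy W := by
  obtain ⟨p, q, rfl⟩ := CoordinateRing.exists_smul_basis_eq r
  refine ⟨p, q, ?_⟩
  rw [aeval_gx, aeval_gx, gy, map_add, CoordinateRing.smul, CoordinateRing.smul, mul_one,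
    map_mul]
  rfl

lemma pq_eq_zero {p q : k[X]} (h : aeval (gx (k := k) W) p + aeval (gx (k := k) W) q * gy W = 0) :
    p = 0 ∧ q = 0 := by
  rw [aeval_gx, aeval_gx, gy, ← map_mul, ← map_add] at h
  have h1 : algebraMap k[X] (W⁄k).toAffine.CoordinateRing p +
      algebraMap k[X] (W⁄k).toAffine.CoordinateRing q * CoordinateRing.mk _ Polynomial.X = 0 :=
    IsFractionRing.injective (W⁄k).toAffine.CoordinateRing (FF W k)
      (by rw [h, _root_.map_zero])
  apply CoordinateRing.smul_basis_eq_zero (W' := (W⁄k).toAffine)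
  rw [CoordinateRing.smul, CoordinateRing.smul, mul_one]
  exact h1

lemma eq_zero_of_mul_two_gy (hΔ : W.Δ ≠ 0) {q : k[X]}
    (h : aeval (gx W) q * (2 * gy W + algebraMap F (FF W k) W.a₁ * gx W
      + algebraMap F (FF W k) W.a₃) = 0) : q = 0 := by
  by_contra hq
  have hq' : aeval (gx (k := k) W) q ≠ 0 := by
    intro h0
    exact hq (aeval_gx_injective W (by rw [h0, _root_.map_zero]))
  have h1 := (mul_eq_zero.mp h).resolve_left hq'
  have h2 : aeval (gx (k := k) W) (C (algebraMap F k W.a₁) * Polynomial.X + C (algebraMap F k W.a₃))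
      + aeval (gx (k := k) W) (C (2 : k)) * gy W = 0 := by
    rw [map_add, map_mul, aeval_C, aeval_C, aeval_C, aeval_X,
      ← IsScalarTower.algebraMap_apply, ← IsScalarTower.algebraMap_apply, map_ofNat]
    linear_combination h1
  obtain ⟨h3, h4⟩ := pq_eq_zero W h2
  have h2k : (2 : k) = 0 := C_eq_zero.mp h4
  have ha1 : algebraMap F k W.a₁ = 0 := by
    have := congrArg (fun p => coeff p 1) h3
    simpa using this
  have ha3 : algebraMap F k W.a₃ = 0 := by
    have := congrArg (fun p => coeff p 0) h3
    simpa using this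
  apply hΔ
  have ha1' : W.a₁ = 0 := (_root_.map_eq_zero (algebraMap F k)).mp ha1
  have ha3' : W.a₃ = 0 := (_root_.map_eq_zero (algebraMap F k)).mp ha3
  have h2F : (2 : F) = 0 := by
    apply (algebraMap F k).injective
    rw [map_ofNat, _root_.map_zero, h2k]
  rw [WeierstrassCurve.Δ, WeierstrassCurve.b₂, WeierstrassCurve.b₄, WeierstrassCurve.b₆,
    WeierstrassCurve.b₈, ha1', ha3']
  linear_combination (-(8 * W.a₂ ^ 2) * (4 * W.a₂ * W.a₆ - W.a₄ ^ 2) - 32 * W.a₄ ^ 3 - 216 * W.a₆ ^ 2
      + 144 * W.a₂ * W.a₄ * W.a₆) * h2F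

lemma invol_aeval (p : k[X]) :
    invol W (aeval (gx (k := k) W) p) = aeval (gx (k := k) W) p := by
  rw [← aeval_algHom_apply, invol_gx]

lemma exists_poly_of_fixed (hΔ : W.Δ ≠ 0) (r : (W⁄k).toAffine.CoordinateRing)
    (h : invol W (algebraMap _ (FF W k) r) = algebraMap _ (FF W k) r) :
    ∃ p : k[X], algebraMap _ (FF W k) r = aeval (gx W) p := by
  obtain ⟨p, q, hpq⟩ := exists_pq W r
  refine ⟨p, ?_⟩
  rw [hpq, map_add, map_mul, invol_aeval, invol_aeval, invol_gy] at h
  have h1 : aeval (gx W) q * (2 * gy W + algebraMap F (FF W k) W.a₁ * gx W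
      + algebraMap F (FF W k) W.a₃) = 0 := by
    rw [negY] at h
    simp only [WeierstrassCurve.baseChange, WeierstrassCurve.map_a₁,
      WeierstrassCurve.map_a₃] at h
    linear_combination -h
  rw [hpq, eq_zero_of_mul_two_gy W hΔ h1, _root_.map_zero, zero_mul, add_zero]

lemma fixed_ff (hΔ : W.Δ ≠ 0) (z : FF W k) (hz : invol W z = z) :
    ∃ A B : k[X], B ≠ 0 ∧ z * aeval (gx W) B = aeval (gx W) A := by
  obtain ⟨r, s, hs, rfl⟩ := IsFractionRing.div_surjective (A := (W⁄k).toAffine.CoordinateRing) z
  have hs0 : s ≠ 0 := nonZeroDivisors.ne_zero hs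
  obtain ⟨p, q, hpq⟩ := exists_pq W s
  -- the conjugate of `s`
  obtain ⟨s', hs'⟩ : ∃ s' : (W⁄k).toAffine.CoordinateRing,
      algebraMap _ (FF W k) s' = invol W (algebraMap _ (FF W k) s) := by
    refine ⟨algebraMap k[X] _ p + algebraMap k[X] _ q * (-(CoordinateRing.mk _ Polynomial.X)
      - algebraMap k[X] _ (C (algebraMap F k W.a₁) * Polynomial.X + C (algebraMap F k W.a₃))), ?_⟩
    rw [hpq, map_add (invol W), map_mul (invol W), invol_aeval, invol_aeval, invol_gy, negY,
      map_add, map_mul, map_sub, map_neg, ← aeval_gx, ← aeval_gx, ← aeval_gx, ← gy]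
    simp only [WeierstrassCurve.baseChange, WeierstrassCurve.map_a₁,
      WeierstrassCurve.map_a₃, map_add, map_mul, aeval_C, aeval_X,
      ← IsScalarTower.algebraMap_apply F k (FF W k)]
    ring
  have hinv : ∀ z : FF W k, invol W (invol W z) = z := by
    intro z
    obtain ⟨a, b, hb, rfl⟩ := IsFractionRing.div_surjective (A := (W⁄k).toAffine.CoordinateRing) z
    have key : ∀ c : (W⁄k).toAffine.CoordinateRing,
        invol W (invol W (algebraMap _ (FF W k) c)) = algebraMap _ (FF W k) c := by
      intro c
      obtain ⟨p, q, hc⟩ := exists_pq W c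
      rw [hc]
      simp only [map_add, map_mul, invol_aeval, invol_gy, negY, map_sub, map_neg, invol_gx]
      simp only [WeierstrassCurve.baseChange, WeierstrassCurve.map_a₁,
        WeierstrassCurve.map_a₃]
      rw [IsScalarTower.algebraMap_apply F k (FF W k), IsScalarTower.algebraMap_apply F k (FF W k),
        AlgHom.commutes, AlgHom.commutes]
      ring
    rw [map_div₀, map_div₀, key, key]
  have hsne : algebraMap _ (FF W k) s ≠ 0 := by
    rw [Ne, FaithfulSMul.algebraMap_eq_zero_iff]; exact hs0
  have hs'ne : algebraMap _ (FF W k) s' ≠ 0 := by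
    rw [hs']; exact (_root_.map_ne_zero _).mpr hsne
  have hN : invol W (algebraMap _ (FF W k) (s * s')) = algebraMap _ (FF W k) (s * s') := by
    rw [map_mul, map_mul, hs', hinv, mul_comm]
  obtain ⟨B, hB⟩ := exists_poly_of_fixed W hΔ _ hN
  have hw : algebraMap _ (FF W k) r / algebraMap _ (FF W k) s * algebraMap _ (FF W k) (s * s') =
      algebraMap _ (FF W k) (r * s') := by
    rw [map_mul, map_mul]; field_simp
  have hA : invol W (algebraMap _ (FF W k) (r * s')) = algebraMap _ (FF W k) (r * s') := by
    rw [← hw, map_mul (invol W), hN, hz]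
  obtain ⟨A, hA⟩ := exists_poly_of_fixed W hΔ _ hA
  refine ⟨A, B, ?_, ?_⟩
  · rintro rfl
    rw [_root_.map_zero, map_mul] at hB
    exact mul_ne_zero hsne hs'ne hB
  · rw [← hB, ← hA, hw]

/-- the generic point -/
noncomputable def genPt (hΔ : W.Δ ≠ 0) : GenPt W k (FF W k) where
  x := gx W
  y := gy W
  eqn := generic_equation W
  inj := aeval_gx_injective W
  σ := invol W
  σx := invol_gx W
  σy := invol_gy W
  fixed := fixed_ff W hΔ

end Fermat.Agent.H43
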