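import Mathlib
import Fermat.Agent.H43Gen

/-!
# Composition of rational functions and degrees; Frobenius
-/

set_option autoImplicit false

namespace Fermat.Agent.H43

open Polynomial WeierstrassCurve WeierstrassCurve.Affine WeierstrassCurve.Affine.Point
open Fermat.Agent.H72

section Hom

variable {k : Type*} [Field k]

/-- homogenised composition `D^n A(C/D)` -/
noncomputable def hcomp (n : ℕ) (A C D : k[X]) : k[X] :=
  ∑ i ∈ Finset.range (n + 1), Polynomial.C (A.coeff i) * C ^ i * D ^ (n - i)

lemma aeval_hcomp {L : Type*} [Field L] [Algebra k L] (x : L) {n : ℕ} {A C D : k[X]}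
    (hA : A.natDegree ≤ n) (hD : aeval x D ≠ 0) :
    aeval x (hcomp n A C D) = aeval (aeval x C / aeval x D) A * (aeval x D) ^ n := by
  rw [hcomp, map_sum]
  conv_rhs => rw [aeval_eq_sum_range' (Nat.lt_succ_of_le hA), Finset.sum_mul]
  refine Finset.sum_congr rfl fun i hi => ?_
  have hi' : i ≤ n := Nat.lt_succ_iff.mp (Finset.mem_range.mp hi)
  rw [map_mul, map_mul, map_pow, map_pow, aeval_C, Algebra.smul_def, div_pow]
  have h1 : (aeval x D) ^ n = (aeval x D) ^ i * (aeval x D) ^ (n - i) := by
    rw [← pow_add, Nat.add_sub_cancel' hi']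
  rw [h1]
  field_simp

lemma eval_hcomp_of_eval_eq_zero {t : k} {n : ℕ} {A C D : k[X]} (hD : D.eval t = 0) :
    (hcomp n A C D).eval t = A.coeff n * (C.eval t) ^ n := by
  rw [hcomp, eval_finsetSum, Finset.sum_eq_single n]
  · simp
  · intro i hi hin
    have hi' : i < n := lt_of_le_of_ne (Nat.lt_succ_iff.mp (Finset.mem_range.mp hi)) hin
    rw [eval_mul, eval_pow (n := n - i), hD, zero_pow (by omega), mul_zero]
  · intro h; exact absurd (Finset.self_mem_range_succ n) h

lemma eval_hcomp {t : k} {n : ℕ} {A C D : k[X]} (hA : A.natDegree ≤ n) (hD : D.eval t ≠ 0) :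
    (hcomp n A C D).eval t = A.eval (C.eval t / D.eval t) * (D.eval t) ^ n := by
  have := aeval_hcomp (L := k) t (n := n) (A := A) (C := C) (D := D) hA (by simpa using hD)
  simpa [coe_aeval_eq_eval] using this

lemma degree_term_lt {C D : k[X]} (hCD : D.degree < C.degree) {i n : ℕ} (hi : i < n) (a : k) :
    (Polynomial.C a * C ^ i * D ^ (n - i)).degree < ((n * C.natDegree : ℕ) : WithBot ℕ) := by
  have hC : C ≠ 0 := ne_zero_of_degree_lt hCD
  by_cases hD : D = 0
  · rw [hD, zero_pow (by omega), mul_zero, degree_zero]; exact WithBot.bot_lt_coe _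
  by_cases ha : a = 0
  · rw [ha, C_0, zero_mul, zero_mul, degree_zero]; exact WithBot.bot_lt_coe _
  rw [degree_mul, degree_mul, degree_C ha, degree_pow, degree_pow, degree_eq_natDegree hC,
    degree_eq_natDegree hD, zero_add]
  have h1 : D.natDegree < C.natDegree := by
    rw [degree_eq_natDegree hC, degree_eq_natDegree hD] at hCD
    exact_mod_cast hCD
  have h2 : n * C.natDegree = i * C.natDegree + (n - i) * C.natDegree := by
    rw [← add_mul, Nat.add_sub_cancel' hi.le]
  have h3 : (n - i) * D.natDegree < (n - i) * C.natDegree :=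
    Nat.mul_lt_mul_of_pos_left h1 (by omega)
  rw [nsmul_eq_mul, nsmul_eq_mul]
  norm_cast
  omega

lemma degree_sum_lt {ι : Type*} (s : Finset ι) (f : ι → k[X]) {n : ℕ}
    (h : ∀ i ∈ s, (f i).degree < n) : (∑ i ∈ s, f i).degree < n := by
  classical
  induction s using Finset.induction_on with
  | empty => rw [Finset.sum_empty, degree_zero]; exact WithBot.bot_lt_coe _
  | insert a s ha ih =>
    rw [Finset.sum_insert ha]
    exact deg_add_lt (h a (Finset.mem_insert_self _ _))
      (ih fun i hi => h i (Finset.mem_insert_of_mem hi))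

lemma degree_hcomp {A C D : k[X]} (hA : A ≠ 0) (hCD : D.degree < C.degree) :
    (hcomp A.natDegree A C D).degree = ((A.natDegree * C.natDegree : ℕ) : WithBot ℕ) := by
  have hC : C ≠ 0 := ne_zero_of_degree_lt hCD
  rw [hcomp, Finset.sum_range_succ, Nat.sub_self, pow_zero, mul_one]
  have h1 : (Polynomial.C (A.coeff A.natDegree) * C ^ A.natDegree).degree =
      ((A.natDegree * C.natDegree : ℕ) : WithBot ℕ) := by
    rw [degree_mul, degree_C (by simpa using hA), zero_add, degree_pow, degree_eq_natDegree hC,
      nsmul_eq_mul]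
    norm_cast
  rw [degree_add_eq_right_of_degree_lt, h1]
  rw [h1]
  exact degree_sum_lt _ _ fun i hi => degree_term_lt hCD (Finset.mem_range.mp hi) _

lemma degree_hcomp_lt {A B C D : k[X]} (hAB : B.degree < A.degree) (hCD : D.degree < C.degree) :
    (hcomp A.natDegree B C D).degree < ((A.natDegree * C.natDegree : ℕ) : WithBot ℕ) := by
  have hA : A ≠ 0 := ne_zero_of_degree_lt hAB
  rw [hcomp, Finset.sum_range_succ, Nat.sub_self, pow_zero, mul_one]
  have h0 : B.coeff A.natDegree = 0 := by
    apply coeff_eq_zero_of_degree_lt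
    rwa [← degree_eq_natDegree hA]
  rw [h0, C_0, zero_mul, add_zero]
  exact degree_sum_lt _ _ fun i hi => degree_term_lt hCD (Finset.mem_range.mp hi) _

lemma isCoprime_hcomp [IsAlgClosed k] {A B C D : k[X]} (hAB : IsCoprime A B)
    (hAB' : B.degree < A.degree) (hCD : IsCoprime C D) :
    IsCoprime (hcomp A.natDegree A C D) (hcomp A.natDegree B C D) := by
  rw [Polynomial.isCoprime_iff_aeval_ne_zero_of_isAlgClosed k k]
  intro t
  rw [coe_aeval_eq_eval]
  have hBn : B.natDegree ≤ A.natDegree := natDegree_le_natDegree hAB'.le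
  by_cases hD : D.eval t = 0
  · left
    rw [eval_hcomp_of_eval_eq_zero hD]
    have hA : A ≠ 0 := ne_zero_of_degree_lt hAB'
    refine mul_ne_zero (by simpa using hA) (pow_ne_zero _ ?_)
    exact (eval_ne_zero_of_isCoprime hCD t).resolve_right (not_not.mpr hD)
  · rw [eval_hcomp le_rfl hD, eval_hcomp hBn hD]
    rcases eval_ne_zero_of_isCoprime hAB (C.eval t / D.eval t) with h | h
    · left; exact mul_ne_zero h (pow_ne_zero _ hD)
    · right; exact mul_ne_zero h (pow_ne_zero _ hD)

end Hom

section Points

universe uF uk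

variable {F : Type uF} {k : Type uk} [Field F] [Field k] [Algebra F k] [IsAlgClosed k]
  {W : WeierstrassCurve F} [DecidableEq (FF W k)]

/-- an element of an extension of an algebraically closed field is either in the base or
transcendental -/
lemma mem_range_or_injective {L : Type*} [Field L] [Algebra k L] (u : L) :
    (∃ c : k, algebraMap k L c = u) ∨ Function.Injective (aeval u : k[X] →ₐ[k] L) := by
  by_cases h : IsAlgebraic k u
  · left
    have h1 : (minpoly k u).degree = 1 :=
      IsAlgClosed.degree_eq_one_of_irreducible k (minpoly.irreducible h.isIntegral)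
    exact minpoly.degree_eq_one_iff.mp h1
  · right
    exact transcendental_iff_injective.mp h

omit [DecidableEq (FF W k)] in
/-- the `x`-coordinate of a good affine point is transcendental -/
lemma injective_aeval_of_rep (G : GenPt W k (FF W k)) {u v : FF W k}
    {h : (W⁄(FF W k)).toAffine.Nonsingular u v}
    {C D : k[X]} (hr : IsRep G (Point.some u v h) C D) :
    Function.Injective (aeval u : k[X] →ₐ[k] FF W k) := by
  rcases mem_range_or_injective (k := k) u with ⟨c, hc⟩ | h'
  · exfalso
    have h1 := hr.2.2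
    rw [xN_some, xD_some, one_mul] at h1
    have h2 : Polynomial.C c * D = C := by
      apply G.inj
      rw [map_mul, aeval_C, hc, h1]
    have h3 := hr.2.1
    rw [← h2] at h3
    rw [← smul_eq_C_mul] at h3
    exact absurd (degree_smul_le c D) (not_le.mpr h3)
  · exact h'

/-- **composition** : if `Q = (u,v)` has representation `C/D` of positive degree, `e` is the
evaluation at `Q`, and `R` has representation `A/B`, then `e R` is represented by the
composition. -/
lemma rep_map (G : GenPt W k (FF W k)) {u v : FF W k}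
    {h : (W⁄(FF W k)).toAffine.Nonsingular u v}
    {C D : k[X]} (hQ : IsRep G (Point.some u v h) C D)
    (e : FF W k →ₐ[k] FF W k) (he : e G.x = u) {R : (W⁄(FF W k)).toAffine.Point} {A B : k[X]}
    (hR : IsRep G R A B) :
    IsRep G (Point.map (W' := W) (e.restrictScalars F) R) (hcomp A.natDegree A C D)
      (hcomp A.natDegree B C D) := by
  have hA : A ≠ 0 := ne_zero_of_degree_lt hR.2.1
  refine ⟨isCoprime_hcomp hR.1 hR.2.1 hQ.1, ?_, ?_⟩
  · rw [degree_hcomp hA hQ.2.1]; exact degree_hcomp_lt hR.2.1 hQ.2.1
  · have h1 := hQ.2.2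
    rw [xN_some, xD_some, one_mul] at h1
    have hD : aeval G.x D ≠ 0 := by
      intro h0
      rw [h0, mul_zero] at h1
      obtain ⟨a, b, hab⟩ := hQ.1
      have := congrArg (aeval G.x) hab
      rw [map_add, map_mul, map_mul, h0, ← h1, mul_zero, mul_zero, add_zero, map_one] at this
      exact zero_ne_one this
    have hu : aeval G.x C / aeval G.x D = u := by rw [← h1]; field_simp
    rw [aeval_hcomp G.x le_rfl hD, aeval_hcomp G.x (natDegree_le_natDegree hR.2.1.le) hD, hu]
    have h2 := congrArg e hR.2.2
    rw [map_mul, map_mul, ← aeval_algHom_apply, ← aeval_algHom_apply, he] at h2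
    have hN : xN (Point.map (W' := W) (e.restrictScalars F) R) = e (xN R) := by
      rcases R with _ | ⟨a, b, hab⟩
      · change xN (0 : (W⁄(FF W k)).toAffine.Point) = e (xN (0 : (W⁄(FF W k)).toAffine.Point))
        rw [xN_zero, map_one]
      · rw [Point.map_some, xN_some, xN_some]; rfl
    have hDD : xD (Point.map (W' := W) (e.restrictScalars F) R) = e (xD R) := by
      rcases R with _ | ⟨a, b, hab⟩
      · change xD (0 : (W⁄(FF W k)).toAffine.Point) = e (xD (0 : (W⁄(FF W k)).toAffine.Point))
        rw [xD_zero, _root_.map_zero]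
      · rw [Point.map_some, xD_some, xD_some, map_one]
    rw [hN, hDD]
    linear_combination (aeval G.x D) ^ A.natDegree * h2

end Points

end Fermat.Agent.H43
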