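import Mathlib
import Fermat.Agent.H43Comp

/-!
# The Frobenius endomorphism satisfies a quadratic equation

`F` finite field with `q` elements, `W / F` a Weierstrass curve with `Δ ≠ 0`.
-/

set_option autoImplicit false

namespace Fermat.Agent.H43

open Polynomial WeierstrassCurve WeierstrassCurve.Affine WeierstrassCurve.Affine.Point
open Fermat.Agent.H72

universe uF uk

section Bilin

variable {M : Type*} [AddCommGroup M] (f : M → ℤ)

/-- the bilinear form attached to a function satisfying the parallelogram law -/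
noncomputable def bil (hf : ∀ x y : M, f (x + y) + f (x - y) = 2 * f x + 2 * f y) :
    M →+ M →+ ℤ :=
  have key : ∀ x y z : M, f (x + y + z) = f (x + z) + f (y + z) + f (x + y) - f x - f y - f z :=
    fun x y z => polar_add_of_parallelogram (⊤ : AddSubgroup M) f (fun x _ y _ => hf x y)
      trivial trivial trivial
  AddMonoidHom.mk' (fun x => AddMonoidHom.mk' (fun y => f (x + y) - f x - f y) (by
    intro y z
    have := key y z x
    rw [show y + z + x = x + (y + z) by abel, show y + x = x + y by abel,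
      show z + x = x + z by abel] at this
    rw [this]; ring)) (by
    intro x y
    ext z
    change f (x + y + z) - f (x + y) - f z = f (x + z) - f x - f z + (f (y + z) - f y - f z)
    rw [key x y z]; ring)

variable {f}

lemma bil_apply (hf : ∀ x y : M, f (x + y) + f (x - y) = 2 * f x + 2 * f y) (x y : M) :
    bil f hf x y = f (x + y) - f x - f y := rfl

lemma two_mul_eq_bil (hf : ∀ x y : M, f (x + y) + f (x - y) = 2 * f x + 2 * f y) (x : M) :
    bil f hf x x = 2 * f x := by
  rw [bil_apply]
  have h0 := hf 0 0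
  rw [add_zero, sub_zero] at h0
  have h1 := hf x x
  rw [sub_self] at h1
  linarith

lemma bil_symm (hf : ∀ x y : M, f (x + y) + f (x - y) = 2 * f x + 2 * f y) (x y : M) :
    bil f hf x y = bil f hf y x := by
  rw [bil_apply, bil_apply, add_comm]; ring

/-- key computation: the quadratic relation has degree zero -/
lemma quad_relation (hf : ∀ x y : M, f (x + y) + f (x - y) = 2 * f x + 2 * f y) {x y z : M}
    {q N : ℤ} (hx : f x = 1) (hy : f y = q) (hz : f z = q ^ 2) (hN : f (x - y) = N)
    (hyz : f (y + z) = q * f (x + y)) (hxz : f (x - z) = f (x - y) * f (x + y)) :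
    f (z - (1 + q - N) • y + q • x) = 0 := by
  have hxy := hf x y
  have hxz' := hf x z
  set b := bil f hf with hb
  have e1 : b x y = 1 + q - N := by rw [hb, bil_apply]; linarith
  have e2 : b y z = q * (1 + q - N) := by
    rw [hb, bil_apply, hyz]
    have : f (x + y) = 2 + 2 * q - N := by linarith
    rw [this, hy, hz]; ring
  have e3 : b x z = (1 + q - N) ^ 2 - 2 * q := by
    rw [hb, bil_apply]
    have h1 : f (x + y) = 2 + 2 * q - N := by linarith
    have h2 : f (x + z) = 2 * 1 + 2 * q ^ 2 - N * (2 + 2 * q - N) := by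
      rw [h1, hN] at hxz; rw [hxz, hx, hz] at hxz'; linarith
    rw [h2, hx, hz]; ring
  have e4 := two_mul_eq_bil hf (z - (1 + q - N) • y + q • x)
  rw [← hb] at e4
  have e5 : b y x = b x y := bil_symm hf y x
  have e6 : b z y = b y z := bil_symm hf z y
  have e7 : b z x = b x z := bil_symm hf z x
  have e8 : b x x = 2 := by rw [hb, two_mul_eq_bil, hx]; rfl
  have e9 : b y y = 2 * q := by rw [hb, two_mul_eq_bil, hy]
  have e10 : b z z = 2 * q ^ 2 := by rw [hb, two_mul_eq_bil, hz]
  simp only [map_add, map_sub, map_zsmul, AddMonoidHom.add_apply, AddMonoidHom.sub_apply,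
    AddMonoidHom.coe_smul, Pi.smul_apply, smul_eq_mul, e5, e6, e7, e8, e9, e10, e1, e2, e3] at e4
  have : 2 * f (z - (1 + q - N) • y + q • x) = 0 := by
    rw [← e4]; ring
  linarith

end Bilin

section Frob

variable {F : Type uF} [Field F] [Fintype F] (W : WeierstrassCurve F)

/-- the `q`-power Frobenius on points -/
noncomputable def frobPt (L : Type*) [Field L] [Algebra F L] [DecidableEq L] :
    (W⁄L).toAffine.Point →+ (W⁄L).toAffine.Point :=
  Point.map (W' := W) (FiniteField.frobeniusAlgHom F L)

variable {W}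

lemma frobPt_zero {L : Type*} [Field L] [Algebra F L] [DecidableEq L] :
    frobPt W L 0 = 0 := _root_.map_zero _

lemma xN_frobPt {L : Type*} [Field L] [Algebra F L] [DecidableEq L]
    (Q : (W⁄L).toAffine.Point) : xN (frobPt W L Q) = xN Q ^ Fintype.card F := by
  rcases Q with _ | ⟨u, v, h⟩
  · change xN (frobPt W L 0) = xN (0 : (W⁄L).toAffine.Point) ^ _
    rw [frobPt_zero, xN_zero, one_pow]
  · rw [frobPt, Point.map_some, xN_some, xN_some]; rfl

lemma xD_frobPt {L : Type*} [Field L] [Algebra F L] [DecidableEq L]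
    (Q : (W⁄L).toAffine.Point) : xD (frobPt W L Q) = xD Q ^ Fintype.card F := by
  rcases Q with _ | ⟨u, v, h⟩
  · change xD (frobPt W L 0) = xD (0 : (W⁄L).toAffine.Point) ^ _
    rw [frobPt_zero, xD_zero, zero_pow Fintype.card_ne_zero]
  · rw [frobPt, Point.map_some, xD_some, xD_some, one_pow]

lemma map_frobPt {k : Type*} [Field k] [Algebra F k] {L L' : Type*} [Field L] [Algebra F L]
    [Algebra k L] [IsScalarTower F k L] [DecidableEq L] [Field L'] [Algebra F L']
    [Algebra k L'] [IsScalarTower F k L'] [DecidableEq L'] (e : L →ₐ[k] L')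
    (Q : (W⁄L).toAffine.Point) : Point.map (W' := W) e (frobPt W L Q) =
      frobPt W L' (Point.map (W' := W) e Q) := by
  rcases Q with _ | ⟨u, v, h⟩
  · rfl
  · rw [frobPt, Point.map_some, Point.map_some, frobPt, Point.map_some, Point.map_some]
    congr 1
    · exact map_pow e u _
    · exact map_pow e v _

variable {k : Type uk} [Field k] [Algebra F k] {L : Type uk} [Field L] [Algebra k L] [Algebra F L]
  [IsScalarTower F k L] [DecidableEq L] (G : GenPt W k L)

lemma frobPt_mem_odd {Q : (W⁄L).toAffine.Point} (hQ : Q ∈ odd G) : frobPt W L Q ∈ odd G := by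
  rw [mem_odd] at hQ ⊢
  rw [map_frobPt, hQ, map_neg]

lemma rep_frobPt {Q : (W⁄L).toAffine.Point} {A B : k[X]} (h : IsRep G Q A B) :
    IsRep G (frobPt W L Q) (A ^ Fintype.card F) (B ^ Fintype.card F) := by
  refine ⟨h.1.pow, ?_, ?_⟩
  · have hA := ne_zero_of_degree_lt h.2.1
    by_cases hB : B = 0
    · rw [hB, zero_pow Fintype.card_ne_zero, degree_zero, bot_lt_iff_ne_bot, Ne, degree_eq_bot]
      exact pow_ne_zero _ hA
    · have h2 := h.2.1
      rw [degree_eq_natDegree hA, degree_eq_natDegree hB] at h2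
      rw [degree_pow, degree_pow, degree_eq_natDegree hA, degree_eq_natDegree hB, nsmul_eq_mul,
        nsmul_eq_mul]
      norm_cast at h2 ⊢
      exact Nat.mul_lt_mul_of_pos_left h2 Fintype.card_pos
  · rw [xN_frobPt, xD_frobPt, map_pow, map_pow, ← mul_pow, ← mul_pow, h.2.2]

lemma dg_frobPt {Q : (W⁄L).toAffine.Point} {A B : k[X]} (h : IsRep G Q A B) :
    dg G (frobPt W L Q) = (Fintype.card F : ℤ) * dg G Q := by
  rw [dg_eq G h, dg_eq G (rep_frobPt G h), natDegree_pow]
  push_cast; ring

/-- the generic point as a point -/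
noncomputable def genP (hΔ : W.Δ ≠ 0) : (W⁄L).toAffine.Point :=
  Point.some G.x G.y ((equation_iff_nonsingular_of_Δ_ne_zero (by
    change (W.map (algebraMap F L)).Δ ≠ 0
    rw [WeierstrassCurve.map_Δ]
    exact (_root_.map_ne_zero _).mpr hΔ)).mp G.eqn)

omit [Fintype F] in
lemma genP_mem_odd (hΔ : W.Δ ≠ 0) : genP G hΔ ∈ odd G := by
  rw [mem_odd, genP, Point.map_some, Point.neg_some]
  congr 1
  · exact G.σx
  · exact G.σy

omit [Fintype F] [DecidableEq L] in
lemma rep_genP (hΔ : W.Δ ≠ 0) : IsRep G (genP G hΔ) Polynomial.X 1 := by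
  refine ⟨isCoprime_one_right, by rw [degree_one, degree_X]; norm_num, ?_⟩
  rw [genP, xN_some, xD_some, map_one, aeval_X]; ring

omit [Fintype F] [DecidableEq L] in
lemma dg_genP (hΔ : W.Δ ≠ 0) : dg G (genP G hΔ) = 1 := by
  rw [dg_eq G (rep_genP G hΔ), natDegree_X]; rfl

variable [IsAlgClosed k]

omit [Fintype F] in
lemma genP_mem_good (hΔ : W.Δ ≠ 0) : genP G hΔ ∈ good G hΔ :=
  ⟨genP_mem_odd G hΔ, _, _, rep_genP G hΔ⟩

lemma frobPt_mem_good {hΔ : W.Δ ≠ 0} {Q : (W⁄L).toAffine.Point} (hQ : Q ∈ good G hΔ) :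
    frobPt W L Q ∈ good G hΔ := by
  obtain ⟨h1, A, B, h2⟩ := hQ
  exact ⟨frobPt_mem_odd G h1, _, _, rep_frobPt G h2⟩

lemma dg_frobPt_of_mem {hΔ : W.Δ ≠ 0} {Q : (W⁄L).toAffine.Point} (hQ : Q ∈ good G hΔ) :
    dg G (frobPt W L Q) = (Fintype.card F : ℤ) * dg G Q := by
  obtain ⟨h1, A, B, h2⟩ := hQ
  exact dg_frobPt G h2

end Frob

section Relation

variable {F : Type uF} [Field F] [Fintype F] {W : WeierstrassCurve F}
  {k : Type uk} [Field k] [Algebra F k] [IsAlgClosed k] [DecidableEq (FF W k)]

omit [Fintype F] in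
/-- composition multiplies degrees, for evaluation at an arbitrary good point `Q ≠ 0` -/
lemma dg_map_ev (hΔ : W.Δ ≠ 0) {Q R : (W⁄(FF W k)).toAffine.Point}
    (hQ : Q ∈ good (genPt (k := k) W hΔ) hΔ) (hQ0 : Q ≠ 0)
    (hR : R ∈ good (genPt (k := k) W hΔ) hΔ) :
    ∃ e : FF W k →ₐ[k] FF W k, Point.map (W' := W) e (genP (genPt W hΔ) hΔ) = Q ∧
      dg (genPt (k := k) W hΔ) (Point.map (W' := W) e R) =
        dg (genPt (k := k) W hΔ) R * dg (genPt (k := k) W hΔ) Q := by
  obtain ⟨-, C, D, hCD⟩ := hQ
  obtain ⟨-, A, B, hAB⟩ := hR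
  rcases Q with _ | ⟨u, v, h⟩
  · exact absurd rfl hQ0
  have hu := injective_aeval_of_rep (genPt (k := k) W hΔ) hCD
  have e1 : evFF h.1 hu (gx W) = u := evFF_gx h.1 hu
  have e2 : evFF h.1 hu (gy W) = v := evFF_gy h.1 hu
  refine ⟨evFF h.1 hu, ?_, ?_⟩
  · rw [genP, Point.map_some]
    congr 1
  · have h3 := rep_map (genPt (k := k) W hΔ) hCD (evFF h.1 hu) e1 hAB
    have h4 : Point.map (W' := W) (evFF h.1 hu) R =
      Point.map (W' := W) ((evFF h.1 hu).restrictScalars F) R := by
      cases R <;> rfl
    rw [h4, dg_eq _ h3, dg_eq _ hAB, dg_eq _ hCD,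
      natDegree_eq_of_degree_eq_some (degree_hcomp (ne_zero_of_degree_lt hAB.2.1) hCD.2.1)]
    push_cast; ring

/-- the quadratic relation for the generic point -/
theorem frob_relation_genP (hΔ : W.Δ ≠ 0) {N : ℤ}
    (hN : dg (genPt (k := k) W hΔ) (genP (genPt W hΔ) hΔ - frobPt W _ (genP (genPt W hΔ) hΔ)) = N) :
    frobPt W _ (frobPt W (FF W k) (genP (genPt W hΔ) hΔ))
      - (1 + (Fintype.card F : ℤ) - N) • frobPt W _ (genP (genPt W hΔ) hΔ)
      + (Fintype.card F : ℤ) • (genP (genPt W hΔ) hΔ) = 0 := by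
  set G := genPt (k := k) W hΔ with hG
  set P := genP G hΔ with hP
  have hPg : P ∈ good G hΔ := genP_mem_good G hΔ
  set x : good G hΔ := ⟨P, hPg⟩ with hx
  set y : good G hΔ := ⟨frobPt W _ P, frobPt_mem_good G hPg⟩ with hy
  set z : good G hΔ := ⟨frobPt W _ (frobPt W _ P), frobPt_mem_good G (frobPt_mem_good G hPg)⟩ with hz
  set f : good G hΔ → ℤ := fun Q => dg G (Q : (W⁄(FF W k)).toAffine.Point) with hf
  have hpar : ∀ a b : good G hΔ, f (a + b) + f (a - b) = 2 * f a + 2 * f b := by
    intro a b
    exact dg_add_sub G hΔ a.2 b.2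
  have h1 : f x = 1 := dg_genP G hΔ
  have h2 : f y = (Fintype.card F : ℤ) := by
    have := dg_frobPt_of_mem G hPg
    change dg G (frobPt W _ P) = _
    rw [this, show dg G P = 1 from h1, mul_one]
  have h3 : f z = (Fintype.card F : ℤ) ^ 2 := by
    have := dg_frobPt_of_mem G (frobPt_mem_good G hPg)
    change dg G (frobPt W _ (frobPt W _ P)) = _
    rw [this, show dg G (frobPt W _ P) = _ from h2, sq]
  have h4 : f (y + z) = (Fintype.card F : ℤ) * f (x + y) := by
    have := dg_frobPt_of_mem G (x + y).2
    change dg G (frobPt W _ P + frobPt W _ (frobPt W _ P)) = _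
    rw [← this, ← map_add]
    rfl
  have h5 : f (x - z) = f (x - y) * f (x + y) := by
    by_cases h0 : x + y = 0
    · have hyx : y = -x := (neg_eq_of_add_eq_zero_right h0).symm
      have hzx : z = x := by
        apply Subtype.ext
        change frobPt W _ (frobPt W _ P) = P
        have hy' : frobPt W _ P = -P := congrArg Subtype.val hyx
        rw [hy', map_neg, hy', neg_neg]
      have hf0 : f 0 = 0 := by
        have := hpar 0 0
        rw [add_zero, sub_zero] at this
        linarith
      rw [hzx, sub_self, h0, hf0, mul_zero]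
    · have h0' : ((x + y : good G hΔ) : (W⁄(FF W k)).toAffine.Point) ≠ 0 := by
        intro h; exact h0 (Subtype.ext h)
      obtain ⟨e, he1, he2⟩ := dg_map_ev hΔ (x + y).2 h0' (x - y).2
      change dg G (P - frobPt W _ (frobPt W _ P)) = _
      have h6 : Point.map (W' := W) e ((x - y : good G hΔ) : (W⁄(FF W k)).toAffine.Point) =
          P - frobPt W _ (frobPt W _ P) := by
        change Point.map (W' := W) e (P - frobPt W _ P) = _
        rw [map_sub, map_frobPt, he1]
        change P + frobPt W _ P - frobPt W _ (P + frobPt W _ P) = _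
        rw [map_add]; abel
      rw [← h6]
      exact he2
  have hfin := quad_relation hpar h1 h2 h3 (show f (x - y) = N from hN) h4 h5
  obtain ⟨-, A, B, hAB⟩ := (z - (1 + (Fintype.card F : ℤ) - N) • y + (Fintype.card F : ℤ) • x).2
  have := eq_zero_of_dg_eq_zero G hAB hfin
  exact this

omit [Fintype F] in
/-- For a constant point `S`, the point `P + S` (with `P` generic) has transcendental
`x`-coordinate, so it is the image of `P` under a `k`-embedding of the function field. -/
lemma exists_ev_add (hΔ : W.Δ ≠ 0) [DecidableEq k] (S : (W⁄k).toAffine.Point) :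
    ∃ e : FF W k →ₐ[k] FF W k, Point.map (W' := W) e (genP (genPt W hΔ) hΔ) =
      genP (genPt W hΔ) hΔ + Point.map (W' := W) (Algebra.ofId k (FF W k)) S := by
  set G := genPt (k := k) W hΔ with hG
  set P := genP G hΔ with hP
  set ι := Point.map (W' := W) (Algebra.ofId k (FF W k)) with hι
  have hconst : ∀ T : (W⁄k).toAffine.Point, ι T ≠ P := by
    intro T hT
    rcases T with _ | ⟨a, b, hab⟩
    · rw [hP, genP] at hT
      exact absurd hT.symm (Point.some_ne_zero _)
    · rw [hι, Point.map_some, hP, genP, Point.some.injEq] at hT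
      have h1 : aeval (gx (k := k) W) (Polynomial.X - Polynomial.C a) = 0 := by
        rw [map_sub, aeval_X, aeval_C, sub_eq_zero]
        exact hT.1.symm
      have h2 : (Polynomial.X - Polynomial.C a : k[X]) = 0 :=
        aeval_gx_injective W (by rw [h1, _root_.map_zero])
      exact X_sub_C_ne_zero a h2
  rcases hQ : P + ι S with _ | ⟨u, v, h⟩
  · exfalso
    apply hconst (-S)
    rw [map_neg]
    exact (eq_neg_of_add_eq_zero_left hQ).symm
  · rcases mem_range_or_injective (k := k) u with ⟨c, hc⟩ | hu
    · exfalso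
      -- `v` is algebraic too
      have hv : ∃ d : k, algebraMap k (FF W k) d = v := by
        rcases mem_range_or_injective (k := k) v with h' | h'
        · exact h'
        · exfalso
          have heq := (equation_iff ..).mp h.1
          set p : k[X] := Polynomial.X ^ 2 + (Polynomial.C (algebraMap F k W.a₁ * c
            + algebraMap F k W.a₃)) * Polynomial.X
            - Polynomial.C (c ^ 3 + algebraMap F k W.a₂ * c ^ 2 + algebraMap F k W.a₄ * c
              + algebraMap F k W.a₆) with hp
          have hp0 : p ≠ 0 := by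
            intro h0
            have h2 := congrArg (fun r : k[X] => r.coeff 2) h0
            simp only [hp, coeff_sub, coeff_add, coeff_X_pow, coeff_C_mul, coeff_X, coeff_C,
              coeff_zero] at h2
            norm_num at h2
          apply hp0
          apply h'
          rw [_root_.map_zero, hp]
          simp only [map_sub, map_add, map_mul, map_pow, aeval_X, aeval_C, hc,
            ← IsScalarTower.algebraMap_apply F k (FF W k)]
          change v ^ 2 + algebraMap F (FF W k) W.a₁ * u * v + algebraMap F (FF W k) W.a₃ * v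
            = u ^ 3 + algebraMap F (FF W k) W.a₂ * u ^ 2 + algebraMap F (FF W k) W.a₄ * u
              + algebraMap F (FF W k) W.a₆ at heq
          linear_combination heq
      obtain ⟨d, hd⟩ := hv
      have hcd : (W⁄k).toAffine.Nonsingular c d := by
        rw [← (W.toAffine.baseChange_nonsingular (Algebra.ofId k (FF W k)).injective c d)]
        change (W⁄(FF W k)).toAffine.Nonsingular (algebraMap k (FF W k) c) (algebraMap k (FF W k) d)
        rw [hc, hd]; exact h
      have h3 : ι (Point.some c d hcd) = P + ι S := by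
        rw [hQ, hι, Point.map_some]
        congr 1
      apply hconst (Point.some c d hcd - S)
      rw [map_sub, h3, add_sub_cancel_right]
    · refine ⟨evFF h.1 hu, ?_⟩
      rw [hP, genP, Point.map_some]
      congr 1
      · exact evFF_gx h.1 hu
      · exact evFF_gy h.1 hu

/-- the quadratic relation for all points over `k` -/
theorem frob_relation_closed (hΔ : W.Δ ≠ 0) [DecidableEq k] {N : ℤ}
    (hN : dg (genPt (k := k) W hΔ) (genP (genPt W hΔ) hΔ - frobPt W _ (genP (genPt W hΔ) hΔ)) = N)
    (S : (W⁄k).toAffine.Point) :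
    frobPt W k (frobPt W k S) - (1 + (Fintype.card F : ℤ) - N) • frobPt W k S
      + (Fintype.card F : ℤ) • S = 0 := by
  obtain ⟨e, he⟩ := exists_ev_add (k := k) hΔ S
  have h1 := frob_relation_genP (k := k) hΔ hN
  have h2 := congrArg (Point.map (W' := W) e) h1
  rw [map_add, map_sub, map_zsmul, map_zsmul, map_frobPt, map_frobPt, he, _root_.map_zero] at h2
  set P := genP (genPt (k := k) W hΔ) hΔ with hP
  apply Point.map_injective (W' := W) (Algebra.ofId k (FF W k))
  rw [map_add, map_sub, map_zsmul, map_zsmul, map_frobPt, map_frobPt, _root_.map_zero]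
  set T := Point.map (W' := W) (Algebra.ofId k (FF W k)) S with hT
  rw [map_add, map_add, smul_add, smul_add] at h2
  rw [← sub_eq_zero.mpr (h2.trans h1.symm)]
  abel

end Relation

end Fermat.Agent.H43
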