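import Mathlib

/-!
# C13, part 1: the fixed point comparison, abstract group form

`G` a group with an endomorphism `s` of order three, `H` a subgroup stable under `s`.
`R b η` means: `η ∈ H` is a norm root of `b ∈ H^s`.
-/

namespace Fermat.Agent.H43Z1

variable {G : Type*} [Group G]

/-- The norm `x ↦ x · s x · s (s x)`. -/
def nm (s : G →* G) (x : G) : G := x * s x * s (s x)

theorem nm_conj (s : G →* G) (hs : ∀ x, s (s (s x)) = x) (x g : G) :
    nm s (g⁻¹ * x * s g) = g⁻¹ * nm s x * g := by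
  simp only [nm, map_mul, map_inv, hs]
  group

theorem nm_coboundary (s : G →* G) (hs : ∀ x, s (s (s x)) = x) (g : G) :
    nm s (g * (s g)⁻¹) = 1 := by
  simp only [nm, map_mul, map_inv, hs]
  group

theorem nm_mul_of_commute (s : G →* G) {x y : G}
    (h1 : Commute (s x) y) (h2 : Commute (s (s x)) y) (h3 : Commute (s (s x)) (s y)) :
    nm s (x * y) = nm s x * nm s y := by
  simp only [nm, map_mul]
  calc x * y * (s x * s y) * (s (s x) * s (s y))
      = x * (y * s x) * (s y * s (s x)) * s (s y) := by group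
    _ = x * (s x * y) * (s (s x) * s y) * s (s y) := by rw [h1.eq.symm, h3.eq.symm]
    _ = x * s x * (y * s (s x)) * s y * s (s y) := by group
    _ = x * s x * (s (s x) * y) * s y * s (s y) := by rw [h2.eq.symm]
    _ = x * s x * s (s x) * (y * s y * s (s y)) := by group

theorem nm_inv_of_commute (s : G →* G) {x : G}
    (d1 : Commute x (s x)) (d2 : Commute x (s (s x))) (d3 : Commute (s x) (s (s x))) :
    nm s x⁻¹ = (nm s x)⁻¹ := by
  simp only [nm, map_inv]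
  have e1 := (d1.inv_left.inv_right).eq
  have e2 := (d2.inv_left.inv_right).eq
  have e3 := (d3.inv_left.inv_right).eq
  rw [mul_inv_rev, mul_inv_rev]
  calc x⁻¹ * (s x)⁻¹ * (s (s x))⁻¹
      = x⁻¹ * ((s x)⁻¹ * (s (s x))⁻¹) := by group
    _ = x⁻¹ * ((s (s x))⁻¹ * (s x)⁻¹) := by rw [e3]
    _ = (x⁻¹ * (s (s x))⁻¹) * (s x)⁻¹ := by group
    _ = ((s (s x))⁻¹ * x⁻¹) * (s x)⁻¹ := by rw [e2]
    _ = (s (s x))⁻¹ * (x⁻¹ * (s x)⁻¹) := by group
    _ = (s (s x))⁻¹ * ((s x)⁻¹ * x⁻¹) := by rw [e1]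

/-- Axioms for the relation "`η` is a norm root of `b`". -/
structure NormRoots (s : G →* G) (H : Subgroup G) (R : G → G → Prop) : Prop where
  s3 : ∀ x, s (s (s x)) = x
  stab : ∀ h ∈ H, s h ∈ H
  memL : ∀ b η, R b η → b ∈ H
  memR : ∀ b η, R b η → η ∈ H
  fixL : ∀ b η, R b η → s b = b
  norm : ∀ b η, R b η → nm s η = b
  comm : ∀ b η, R b η → Commute η b
  exists_root : ∀ b ∈ H, s b = b → ∃ η, R b η
  normal_form : ∀ η ∈ H, ∃ h ∈ H, ∃ b, R b (h⁻¹ * η * s h)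
  equiv : ∀ b η b' η' y, R b η → R b' η' → s y = y → b' = y⁻¹ * b * y →
    ∃ h ∈ H, Commute h b' ∧ η' = h⁻¹ * (y⁻¹ * η * y) * s h

/-- **Fixed point comparison** (abstract form).  `γ` is `s`-fixed, its centraliser is commutative
with trivial first cohomology, `δ` in the centraliser has norm `γ`.  Then there is `t` in the
centraliser such that the `g` with `g⁻¹ δ s(g) ∈ H` are exactly the `t y h` with `y` an
`s`-fixed element with `y⁻¹ γ y ∈ H` and `h ∈ H`; moreover `g⁻¹ δ s(g)` is `s`-conjugate under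
`H` to a norm root of `y⁻¹ γ y`. -/
theorem fixed_points {s : G →* G} {H : Subgroup G} {R : G → G → Prop} (D : NormRoots s H R)
    {γ δ : G} (hγ : s γ = γ)
    (hZ : ∀ x y, Commute x γ → Commute y γ → Commute x y)
    (hH1 : ∀ u, Commute u γ → nm s u = 1 → ∃ t, Commute t γ ∧ u = t * (s t)⁻¹)
    (hδ : Commute δ γ) (hN : nm s δ = γ) :
    ∃ t, Commute t γ ∧
      (∀ y, s y = y → y⁻¹ * γ * y ∈ H → ∀ η, R (y⁻¹ * γ * y) η →
        ∃ h ∈ H, (t * y)⁻¹ * δ * s (t * y) = h * η * (s h)⁻¹) ∧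
      (∀ g, g⁻¹ * δ * s g ∈ H → ∃ y, s y = y ∧ y⁻¹ * γ * y ∈ H ∧ ∃ h ∈ H, g = t * y * h) := by
  classical
  have s3 := D.s3
  -- commuting with `γ` is stable under `s`
  have hsc : ∀ x, Commute x γ → Commute (s x) γ := by
    intro x hx
    have := congrArg s hx.eq
    rw [map_mul, map_mul, hγ] at this
    exact this
  -- step 1: from an element of the first set to an element of the second
  have key : ∀ g, g⁻¹ * δ * s g ∈ H → ∃ t₁ y h η, Commute t₁ γ ∧ s y = y ∧ h ∈ H ∧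
      g * h = t₁ * y ∧ R (y⁻¹ * γ * y) η ∧ t₁⁻¹ * δ * s t₁ = y * η * y⁻¹ := by
    intro g hg
    obtain ⟨h, hh, b, hR⟩ := D.normal_form _ hg
    set g' := g * h with hg'
    have e1 : h⁻¹ * (g⁻¹ * δ * s g) * s h = g'⁻¹ * δ * s g' := by
      simp only [hg', map_mul]; group
    rw [e1] at hR
    have hb : g'⁻¹ * γ * g' = b := by
      rw [← hN, ← nm_conj s s3, D.norm _ _ hR]
    have hbs : s b = b := D.fixL _ _ hR
    have hcom : Commute (g' * (s g')⁻¹) γ := by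
      have h2 : (s g')⁻¹ * γ * s g' = g'⁻¹ * γ * g' := by
        have := congrArg s hb
        rw [map_mul, map_mul, map_inv, hγ, hbs] at this
        rw [this, hb]
      have h3 : γ = (g' * (s g')⁻¹) * γ * (g' * (s g')⁻¹)⁻¹ := by
        calc γ = g' * (g'⁻¹ * γ * g') * g'⁻¹ := by group
          _ = g' * ((s g')⁻¹ * γ * s g') * g'⁻¹ := by rw [h2]
          _ = _ := by group
      have h4 : (g' * (s g')⁻¹) * γ = γ * (g' * (s g')⁻¹) := by
        conv_rhs => rw [h3]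
        group
      exact h4
    obtain ⟨t₁, ht₁, hu⟩ := hH1 _ hcom (nm_coboundary s s3 g')
    set y := t₁⁻¹ * g' with hy
    have hsy : s y = y := by
      have : s g' = s t₁ * t₁⁻¹ * g' := by
        have h5 : (s g')⁻¹ = g'⁻¹ * (t₁ * (s t₁)⁻¹) := by
          rw [← hu]; group
        have h6 := congrArg (·⁻¹) h5
        simp only [inv_inv, mul_inv_rev] at h6
        rw [h6]
      rw [hy, map_mul, map_inv, this]; group
    have hyγ : y⁻¹ * γ * y = b := by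
      rw [← hb, hy]
      have : t₁ * γ * t₁⁻¹ = γ := by rw [ht₁.eq]; group
      calc (t₁⁻¹ * g')⁻¹ * γ * (t₁⁻¹ * g') = g'⁻¹ * (t₁ * γ * t₁⁻¹) * g' := by group
        _ = _ := by rw [this]
    refine ⟨t₁, y, h, g'⁻¹ * δ * s g', ht₁, hsy, hh, ?_, ?_, ?_⟩
    · rw [hy, ← hg']; group
    · rw [hyγ]; exact hR
    · have hg'' : g' = t₁ * y := by rw [hy]; group
      rw [hg'', map_mul, hsy]; group
  by_cases hne : ∃ y₀, s y₀ = y₀ ∧ y₀⁻¹ * γ * y₀ ∈ H
  · obtain ⟨y₀, hy₀, hy₀H⟩ := hne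
    have hfix : ∀ y, s y = y → s (y⁻¹ * γ * y) = y⁻¹ * γ * y := by
      intro y hy; rw [map_mul, map_mul, map_inv, hy, hγ]
    obtain ⟨η₀, hR₀⟩ := D.exists_root _ hy₀H (hfix _ hy₀)
    set δ₀ := y₀ * η₀ * y₀⁻¹ with hδ₀
    have hδ₀c : Commute δ₀ γ := by
      have h1 := (D.comm _ _ hR₀).eq
      show δ₀ * γ = γ * δ₀
      calc δ₀ * γ = y₀ * (η₀ * (y₀⁻¹ * γ * y₀)) * y₀⁻¹ := by rw [hδ₀]; group
        _ = y₀ * ((y₀⁻¹ * γ * y₀) * η₀) * y₀⁻¹ := by rw [h1]
        _ = γ * δ₀ := by rw [hδ₀]; group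
    have hδ₀N : nm s δ₀ = γ := by
      have h1 : δ₀ = (y₀⁻¹)⁻¹ * η₀ * s (y₀⁻¹) := by rw [map_inv, hy₀, hδ₀]; group
      rw [h1, nm_conj s s3, D.norm _ _ hR₀]; group
    -- the element `t`
    have hN1 : nm s (δ * δ₀⁻¹) = 1 := by
      have c1 : Commute (s δ) δ₀⁻¹ := (hZ _ _ (hsc _ hδ) hδ₀c).inv_right
      have c2 : Commute (s (s δ)) δ₀⁻¹ := (hZ _ _ (hsc _ (hsc _ hδ)) hδ₀c).inv_right
      have c3 : Commute (s (s δ)) (s δ₀⁻¹) := by
        rw [map_inv]; exact (hZ _ _ (hsc _ (hsc _ hδ)) (hsc _ hδ₀c)).inv_right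
      rw [nm_mul_of_commute s c1 c2 c3, hN]
      have h2 : nm s δ₀⁻¹ = (nm s δ₀)⁻¹ :=
        nm_inv_of_commute s (hZ _ _ hδ₀c (hsc _ hδ₀c)) (hZ _ _ hδ₀c (hsc _ (hsc _ hδ₀c)))
          (hZ _ _ (hsc _ hδ₀c) (hsc _ (hsc _ hδ₀c)))
      rw [h2, hδ₀N]; group
    have hc1 : Commute (δ * δ₀⁻¹) γ := by
      exact (hδ.mul_left hδ₀c.inv_left)
    obtain ⟨t, ht, htu⟩ := hH1 _ hc1 hN1
    have htδ : t⁻¹ * δ * s t = δ₀ := by
      have h1 : δ = t * (s t)⁻¹ * δ₀ := by rw [← htu]; group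
      have c1 : Commute (s t) δ₀ := hZ _ _ (hsc _ ht) hδ₀c
      have c2 : Commute ((s t)⁻¹) δ₀ := c1.inv_left
      rw [h1]
      calc t⁻¹ * (t * (s t)⁻¹ * δ₀) * s t = ((s t)⁻¹ * δ₀) * s t := by group
        _ = (δ₀ * (s t)⁻¹) * s t := by rw [c2.eq]
        _ = δ₀ := by group
    refine ⟨t, ht, ?_, ?_⟩
    · intro y hy hyH η hRη
      set z := y₀⁻¹ * y with hz
      have hzs : s z = z := by rw [hz, map_mul, map_inv, hy₀, hy]
      have hb : y⁻¹ * γ * y = z⁻¹ * (y₀⁻¹ * γ * y₀) * z := by rw [hz]; group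
      obtain ⟨h, hh, -, hη⟩ := D.equiv _ _ _ _ z hR₀ hRη hzs hb
      refine ⟨h, hh, ?_⟩
      have h1 : (t * y)⁻¹ * δ * s (t * y) = y⁻¹ * (t⁻¹ * δ * s t) * y := by
        rw [map_mul, hy]; group
      rw [h1, htδ, hη, hδ₀, hz]
      group
    · intro g hg
      obtain ⟨t₁, y, h, η, ht₁, hsy, hh, hgh, hRη, ht₁δ⟩ := key g hg
      set z := y₀⁻¹ * y with hz
      have hzs : s z = z := by rw [hz, map_mul, map_inv, hy₀, hsy]
      have hb : y⁻¹ * γ * y = z⁻¹ * (y₀⁻¹ * γ * y₀) * z := by rw [hz]; group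
      obtain ⟨h', hh', hh'c, hη⟩ := D.equiv _ _ _ _ z hR₀ hRη hzs hb
      set k := y * h' * y⁻¹ with hk
      have hkc : Commute k γ := by
        show k * γ = γ * k
        calc k * γ = y * (h' * (y⁻¹ * γ * y)) * y⁻¹ := by rw [hk]; group
          _ = y * ((y⁻¹ * γ * y) * h') * y⁻¹ := by rw [hh'c.eq]
          _ = γ * k := by rw [hk]; group
      have hsk : s k = y * s h' * y⁻¹ := by rw [hk, map_mul, map_mul, map_inv, hsy]
      have h1 : y * η * y⁻¹ = k⁻¹ * δ₀ * s k := by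
        rw [hη, hsk, hk, hδ₀, hz]; group
      -- `t₁⁻¹ δ s t₁ = (t k)⁻¹ δ s (t k)`
      have h2 : t₁⁻¹ * δ * s t₁ = (t * k)⁻¹ * δ * s (t * k) := by
        have e0 : s (t * k) = s t * s k := map_mul _ _ _
        rw [ht₁δ, h1, ← htδ, e0]
        have e1 : ∀ a b c d f : G, a⁻¹ * (b⁻¹ * c * d) * f = (b * a)⁻¹ * c * (d * f) := by
          intro a b c d f; group
        exact e1 _ _ _ _ _
      set τ := (t * k)⁻¹ * t₁ with hτ
      have hτc : Commute τ γ := ((ht.mul_left hkc).inv_left).mul_left ht₁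
      have hτs : s τ = τ := by
        have ctk : Commute (t * k) γ := ht.mul_left hkc
        -- δ commutes with everything in sight
        have d1 : Commute δ t₁ := hZ _ _ hδ ht₁
        have d2 : Commute δ (t * k) := hZ _ _ hδ ctk
        have h3 : t₁⁻¹ * s t₁ = (t * k)⁻¹ * s (t * k) := by
          have e1 : t₁⁻¹ * δ * s t₁ = δ * (t₁⁻¹ * s t₁) := by
            rw [← (d1.inv_right).eq]; group
          have e2 : (t * k)⁻¹ * δ * s (t * k) = δ * ((t * k)⁻¹ * s (t * k)) := by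
            rw [← (d2.inv_right).eq]; group
          rw [e1, e2] at h2
          exact mul_left_cancel h2
        have h4 : s τ = (s (t * k))⁻¹ * s t₁ := by rw [hτ, map_mul, map_inv]
        have h5 : s t₁ = t₁ * ((t * k)⁻¹ * s (t * k)) := by rw [← h3]; group
        have c4 : Commute t₁ ((t * k)⁻¹ * s (t * k)) :=
          hZ _ _ ht₁ ((ctk.inv_left).mul_left (hsc _ ctk))
        have c5 : Commute (s (t * k))⁻¹ ((t * k)⁻¹) :=
          hZ _ _ ((hsc _ ctk).inv_left) (ctk.inv_left)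
        rw [h4, h5, c4.eq]
        calc (s (t * k))⁻¹ * ((t * k)⁻¹ * s (t * k) * t₁)
            = ((s (t * k))⁻¹ * (t * k)⁻¹) * s (t * k) * t₁ := by group
          _ = ((t * k)⁻¹ * (s (t * k))⁻¹) * s (t * k) * t₁ := by rw [c5.eq]
          _ = τ := by rw [hτ]; group
      refine ⟨τ * y, by rw [map_mul, hτs, hsy], ?_, h' * h⁻¹, H.mul_mem hh' (H.inv_mem hh), ?_⟩
      · have : (τ * y)⁻¹ * γ * (τ * y) = y⁻¹ * γ * y := by
          have c : τ⁻¹ * γ * τ = γ := by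
            rw [(hτc.inv_left).eq]; group
          calc (τ * y)⁻¹ * γ * (τ * y) = y⁻¹ * (τ⁻¹ * γ * τ) * y := by group
            _ = _ := by rw [c]
        rw [this]; exact D.memL _ _ hRη
      · have e1 : g = t₁ * y * h⁻¹ := by rw [← hgh]; group
        have e2 : t₁ = t * k * τ := by rw [hτ]; group
        have c6 : Commute k τ := hZ _ _ hkc hτc
        rw [e1, e2]
        calc t * k * τ * y * h⁻¹ = t * (k * τ) * y * h⁻¹ := by group
          _ = t * (τ * k) * y * h⁻¹ := by rw [c6.eq]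
          _ = t * (τ * y) * (h' * h⁻¹) := by rw [hk]; group
  · refine ⟨1, Commute.one_left _, ?_, ?_⟩
    · intro y hy hyH; exact absurd ⟨y, hy, hyH⟩ hne
    · intro g hg
      obtain ⟨t₁, y, h, η, ht₁, hsy, hh, hgh, hRη, ht₁δ⟩ := key g hg
      exact absurd ⟨y, hsy, D.memL _ _ hRη⟩ hne

end Fermat.Agent.H43Z1
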