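import Mathlib

/-!
# C13, part 2: the contraction principle, the normal form and the norm map

`B` a ring with an automorphism `s` of order three, `e` a central element with
`Tr (e s^i e) = δ_{i0}`, `Tr e = 1`, `Q` a `π`-adically complete subgroup of `B^s`,
`P = {x | Tr (s^i e x) ∈ Q}`, `P P ⊆ π P`.
-/

namespace Fermat.Agent.H43Z2

variable {B : Type*} [Ring B]

/-- `x ≡ y` modulo `π ^ n M`. -/
def Cl (π : B) (M : AddSubgroup B) (n : ℕ) (x y : B) : Prop := ∃ z ∈ M, x - y = π ^ n * z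

/-- `M` is complete and separated for the `π`-adic topology. -/
structure Compl (π : B) (M : AddSubgroup B) : Prop where
  piC : ∀ x : B, Commute π x
  reg : ∀ x : B, π * x = 0 → x = 0
  piM : ∀ x ∈ M, π * x ∈ M
  lim : ∀ f : ℕ → B, (∀ n, f n ∈ M) → (∀ n, Cl π M n (f (n + 1)) (f n)) →
    ∃ l ∈ M, ∀ n, Cl π M n l (f n)
  sep : ∀ x ∈ M, (∀ n, ∃ z ∈ M, x = π ^ n * z) → x = 0

theorem pow_reg {π : B} (hreg : ∀ x : B, π * x = 0 → x = 0) (n : ℕ) (x : B)
    (h : π ^ n * x = 0) : x = 0 := by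
  induction n with
  | zero => simpa using h
  | succ n ih => exact ih (hreg _ (by rw [← mul_assoc, ← pow_succ']; exact h))

namespace Compl

variable {π : B} {M : AddSubgroup B} (hM : Compl π M)

include hM

theorem pow_mem (n : ℕ) {x : B} (hx : x ∈ M) : π ^ n * x ∈ M := by
  induction n with
  | zero => simpa using hx
  | succ n ih => rw [pow_succ', mul_assoc]; exact hM.piM _ ih

theorem cl_trans {n : ℕ} {x y z : B} (h1 : Cl π M n x y) (h2 : Cl π M n y z) : Cl π M n x z := by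
  obtain ⟨a, ha, h1⟩ := h1
  obtain ⟨b, hb, h2⟩ := h2
  exact ⟨a + b, M.add_mem ha hb, by rw [mul_add, ← h1, ← h2]; abel⟩

theorem cl_symm {n : ℕ} {x y : B} (h1 : Cl π M n x y) : Cl π M n y x := by
  obtain ⟨a, ha, h1⟩ := h1
  exact ⟨-a, M.neg_mem ha, by rw [mul_neg, ← h1]; abel⟩

theorem cl_mono {n m : ℕ} (hnm : n ≤ m) {x y : B} (h1 : Cl π M m x y) : Cl π M n x y := by
  obtain ⟨a, ha, h1⟩ := h1
  refine ⟨π ^ (m - n) * a, hM.pow_mem _ ha, ?_⟩
  rw [← mul_assoc, ← pow_add, Nat.add_sub_cancel' hnm, h1]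

/-- **Contraction principle.** -/
theorem fix (f : B → B) (hf : ∀ x ∈ M, f x ∈ M)
    (hc : ∀ n, ∀ x ∈ M, ∀ y ∈ M, Cl π M n x y → Cl π M (n + 1) (f x) (f y)) :
    ∃ x ∈ M, f x = x := by
  let g : ℕ → B := fun n => f^[n] 0
  have hg0 : g 0 = 0 := rfl
  have hgs : ∀ n, g (n + 1) = f (g n) := fun n => Function.iterate_succ_apply' f n 0
  have hgM : ∀ n, g n ∈ M := by
    intro n
    induction n with
    | zero => rw [hg0]; exact M.zero_mem
    | succ n ih => rw [hgs]; exact hf _ ih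
  have hgc : ∀ n, Cl π M n (g (n + 1)) (g n) := by
    intro n
    induction n with
    | zero => exact ⟨g 1 - g 0, M.sub_mem (hgM 1) (hgM 0), by simp⟩
    | succ n ih =>
      have := hc n _ (hgM (n + 1)) _ (hgM n) ih
      rwa [← hgs, ← hgs] at this
  obtain ⟨l, hl, hlc⟩ := hM.lim g hgM hgc
  refine ⟨l, hl, ?_⟩
  have hkey : ∀ n, ∃ z ∈ M, f l - l = π ^ n * z := by
    intro n
    have h1 : Cl π M (n + 1) (f l) (f (g n)) := hc n _ hl _ (hgM n) (hlc n)
    have h2 : Cl π M (n + 1) l (f (g n)) := by rw [← hgs]; exact hlc (n + 1)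
    exact hM.cl_mono (Nat.le_succ n) (hM.cl_trans h1 (hM.cl_symm h2))
  exact sub_eq_zero.1 (hM.sep _ (M.sub_mem (hf _ hl) hl) hkey)

/-- uniqueness of the fixed point -/
theorem fix_unique (f : B → B)
    (hc : ∀ n, ∀ x ∈ M, ∀ y ∈ M, Cl π M n x y → Cl π M (n + 1) (f x) (f y))
    {x y : B} (hx : x ∈ M) (hy : y ∈ M) (hfx : f x = x) (hfy : f y = y) : x = y := by
  have hkey : ∀ n, Cl π M n x y := by
    intro n
    induction n with
    | zero => exact ⟨x - y, M.sub_mem hx hy, by simp⟩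
    | succ n ih =>
      have := hc n _ hx _ hy ih
      rwa [hfx, hfy] at this
  exact sub_eq_zero.1 (hM.sep _ (M.sub_mem hx hy) hkey)

end Compl

/-! ## The datum -/

/-- The trace `1 + s + s²`. -/
def tr3 (s : B ≃+* B) (x : B) : B := x + s x + s (s x)

section trace

variable (s : B ≃+* B)

@[simp] theorem tr3_zero : tr3 s 0 = 0 := by simp [tr3]

theorem tr3_add (x y : B) : tr3 s (x + y) = tr3 s x + tr3 s y := by
  simp only [tr3, map_add]; abel

theorem tr3_neg (x : B) : tr3 s (-x) = -tr3 s x := by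
  simp only [tr3, map_neg]; abel

theorem tr3_sub (x y : B) : tr3 s (x - y) = tr3 s x - tr3 s y := by
  rw [sub_eq_add_neg, tr3_add, tr3_neg, ← sub_eq_add_neg]

theorem tr3_mul_fixed {q : B} (hq : s q = q) (x : B) : tr3 s (x * q) = tr3 s x * q := by
  simp only [tr3, map_mul, hq, add_mul]

theorem tr3_fixed_mul {q : B} (hq : s q = q) (x : B) : tr3 s (q * x) = q * tr3 s x := by
  simp only [tr3, map_mul, hq, mul_add]

theorem s_tr3 (hs : ∀ x, s (s (s x)) = x) (x : B) : s (tr3 s x) = tr3 s x := by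
  simp only [tr3, map_add, hs]; abel

theorem tr3_s (hs : ∀ x, s (s (s x)) = x) (x : B) : tr3 s (s x) = tr3 s x := by
  simp only [tr3, hs]; abel

end trace

/-- The datum: automorphism `s`, self-dual normal generator `e`. -/
structure Nb (s : B ≃+* B) (e : B) : Prop where
  s3 : ∀ x, s (s (s x)) = x
  eC : ∀ x, Commute e x
  t0 : e * e + s e * s e + s (s e) * s (s e) = 1
  t1 : e * s e + s e * s (s e) + s (s e) * e = 0
  tr : e + s e + s (s e) = 1

namespace Nb

variable {s : B ≃+* B} {e : B} (N : Nb s e)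

include N

theorem eC1 (x : B) : Commute (s e) x := by
  have h := congrArg s (N.eC (s (s x))).eq
  rw [map_mul, map_mul, N.s3] at h
  exact h

theorem eC2 (x : B) : Commute (s (s e)) x := by
  have h := congrArg s (N.eC1 (s (s x))).eq
  rw [map_mul, map_mul, N.s3] at h
  exact h

/-- `x = ∑ s^i e · Tr (s^i e x)` -/
theorem decomp (x : B) :
    e * tr3 s (e * x) + s e * tr3 s (s e * x) + s (s e) * tr3 s (s (s e) * x) = x := by
  have c01 : s e * e = e * s e := (N.eC (s e)).eq.symm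
  have c02 : e * s (s e) = s (s e) * e := (N.eC _).eq
  have c12 : s (s e) * s e = s e * s (s e) := (N.eC1 (s (s e))).eq.symm
  simp only [tr3, map_mul, N.s3, mul_add, ← mul_assoc]
  have h1 : e * e * x + s e * s e * x + s (s e) * s (s e) * x = x := by
    rw [← add_mul, ← add_mul, N.t0, one_mul]
  have h2 : e * s e * s x + s e * s (s e) * s x + s (s e) * e * s x = 0 := by
    rw [← add_mul, ← add_mul, N.t1, zero_mul]
  have h3 : e * s (s e) * s (s x) + s e * e * s (s x) + s (s e) * s e * s (s x) = 0 := by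
    rw [← add_mul, ← add_mul, c02, c01, c12]
    have := N.t1
    have h4 : s (s e) * e + e * s e + s e * s (s e) = 0 := by rw [← this]; abel
    rw [h4, zero_mul]
  calc _ = (e * e * x + s e * s e * x + s (s e) * s (s e) * x) +
        (e * s e * s x + s e * s (s e) * s x + s (s e) * e * s x) +
        (e * s (s e) * s (s x) + s e * e * s (s x) + s (s e) * s e * s (s x)) := by abel
    _ = x := by rw [h1, h2, h3]; abel

theorem T00 : tr3 s (e * e) = 1 := by
  simp only [tr3, map_mul]; exact N.t0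

theorem T01 : tr3 s (e * s e) = 0 := by
  simp only [tr3, map_mul, N.s3]; exact N.t1

theorem T02 : tr3 s (e * s (s e)) = 0 := by
  have h : e * s (s e) = s (s (e * s e)) := by
    rw [map_mul, map_mul, N.s3]; exact (N.eC _).eq
  rw [h, tr3_s s N.s3, tr3_s s N.s3]; exact N.T01

theorem T10 : tr3 s (s e * e) = 0 := by rw [(N.eC1 e).eq]; exact N.T01
theorem T20 : tr3 s (s (s e) * e) = 0 := by rw [(N.eC2 e).eq]; exact N.T02
theorem T11 : tr3 s (s e * s e) = 1 := by rw [← map_mul, tr3_s s N.s3]; exact N.T00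
theorem T22 : tr3 s (s (s e) * s (s e)) = 1 := by rw [← map_mul, tr3_s s N.s3]; exact N.T11
theorem T12 : tr3 s (s e * s (s e)) = 0 := by rw [← map_mul, tr3_s s N.s3]; exact N.T01
theorem T21 : tr3 s (s (s e) * s e) = 0 := by rw [← map_mul, tr3_s s N.s3]; exact N.T10

theorem Te : tr3 s e = 1 := N.tr
theorem T1 : tr3 s (s e) = 1 := by rw [tr3_s s N.s3]; exact N.tr
theorem T2 : tr3 s (s (s e)) = 1 := by rw [tr3_s s N.s3]; exact N.T1

/-- coordinates of `e a + s e b + s² e c` -/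
theorem coord0 {a b c : B} (ha : s a = a) (hb : s b = b) (hc : s c = c) :
    tr3 s (e * (e * a + s e * b + s (s e) * c)) = a := by
  rw [mul_add, mul_add, tr3_add, tr3_add, ← mul_assoc, ← mul_assoc, ← mul_assoc,
    tr3_mul_fixed s ha, tr3_mul_fixed s hb, tr3_mul_fixed s hc, N.T00, N.T01, N.T02]
  simp

theorem coord1 {a b c : B} (ha : s a = a) (hb : s b = b) (hc : s c = c) :
    tr3 s (s e * (e * a + s e * b + s (s e) * c)) = b := by
  rw [mul_add, mul_add, tr3_add, tr3_add, ← mul_assoc, ← mul_assoc, ← mul_assoc,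
    tr3_mul_fixed s ha, tr3_mul_fixed s hb, tr3_mul_fixed s hc, N.T10, N.T11, N.T12]
  simp

theorem coord2 {a b c : B} (ha : s a = a) (hb : s b = b) (hc : s c = c) :
    tr3 s (s (s e) * (e * a + s e * b + s (s e) * c)) = c := by
  rw [mul_add, mul_add, tr3_add, tr3_add, ← mul_assoc, ← mul_assoc, ← mul_assoc,
    tr3_mul_fixed s ha, tr3_mul_fixed s hb, tr3_mul_fixed s hc, N.T20, N.T21, N.T22]
  simp

/-- the norm of `e`, central and fixed -/
theorem n3_fixed : s (e * s e * s (s e)) = e * s e * s (s e) := by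
  rw [map_mul, map_mul, N.s3, mul_assoc, (N.eC2 e).eq, ← mul_assoc, ← (N.eC (s e)).eq]

theorem n3C (x : B) : Commute (e * s e * s (s e)) x :=
  ((N.eC x).mul_left (N.eC1 x)).mul_left (N.eC2 x)

/-- the norm of `1 + e a` -/
theorem norm_one_add {a : B} (ha : s a = a) :
    (1 + e * a) * s (1 + e * a) * s (s (1 + e * a)) = 1 + (a + e * s e * s (s e) * (a * a * a)) := by
  simp only [map_add, map_mul, map_one, ha]
  have c0 : a * e = e * a := (N.eC a).eq.symm
  have c1 : a * s e = s e * a := (N.eC1 a).eq.symm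
  have c2 : a * s (s e) = s (s e) * a := (N.eC2 a).eq.symm
  have e1 : e * a * (s e * a) = e * s e * (a * a) := by
    rw [mul_assoc, ← mul_assoc a, c1]; simp only [mul_assoc]
  have e2 : s e * a * (s (s e) * a) = s e * s (s e) * (a * a) := by
    rw [mul_assoc, ← mul_assoc a, c2]; simp only [mul_assoc]
  have e3 : e * a * (s (s e) * a) = s (s e) * e * (a * a) := by
    rw [mul_assoc, ← mul_assoc a, c2, ← mul_assoc, ← mul_assoc, (N.eC _).eq]
    simp only [mul_assoc]
  have e4 : e * a * (s e * a) * (s (s e) * a) = e * s e * s (s e) * (a * a * a) := by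
    rw [e1]
    have : (a * a) * (s (s e) * a) = s (s e) * (a * a * a) := by
      rw [← mul_assoc, mul_assoc a a, c2, ← mul_assoc a, c2]; simp only [mul_assoc]
    rw [mul_assoc, this]; simp only [mul_assoc]
  calc (1 + e * a) * (1 + s e * a) * (1 + s (s e) * a)
      = 1 + (e + s e + s (s e)) * a + (e * a * (s e * a) + s e * a * (s (s e) * a) +
          e * a * (s (s e) * a)) + e * a * (s e * a) * (s (s e) * a) := by noncomm_ring
    _ = 1 + (e + s e + s (s e)) * a + (e * s e + s e * s (s e) + s (s e) * e) * (a * a) +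
          e * s e * s (s e) * (a * a * a) := by rw [e4, e1, e2, e3, add_mul _ _ (a * a), add_mul _ _ (a * a)]
    _ = _ := by rw [N.tr, N.t1]; noncomm_ring

end Nb

/-! ## Lattices -/

/-- The elements with coordinates in `Q`. -/
def PP (s : B ≃+* B) (e : B) (Q : AddSubgroup B) : AddSubgroup B where
  carrier := {x | tr3 s (e * x) ∈ Q ∧ tr3 s (s e * x) ∈ Q ∧ tr3 s (s (s e) * x) ∈ Q}
  zero_mem' := by simp [Q.zero_mem]
  add_mem' := by
    rintro x y ⟨h1, h2, h3⟩ ⟨h1', h2', h3'⟩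
    refine ⟨?_, ?_, ?_⟩ <;> rw [mul_add, tr3_add]
    · exact Q.add_mem h1 h1'
    · exact Q.add_mem h2 h2'
    · exact Q.add_mem h3 h3'
  neg_mem' := by
    rintro x ⟨h1, h2, h3⟩
    refine ⟨?_, ?_, ?_⟩ <;> rw [mul_neg, tr3_neg]
    · exact Q.neg_mem h1
    · exact Q.neg_mem h2
    · exact Q.neg_mem h3

/-- The full datum. -/
structure Dat (s : B ≃+* B) (e π : B) (Q : AddSubgroup B) : Prop extends Nb s e where
  sπ : s π = π
  fixQ : ∀ q ∈ Q, s q = q
  cQ : Compl π Q
  mulP : ∀ x ∈ PP s e Q, ∀ y ∈ PP s e Q, ∃ z ∈ PP s e Q, x * y = π * z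

namespace Dat

variable {s : B ≃+* B} {e π : B} {Q : AddSubgroup B} (D : Dat s e π Q)

include D

theorem mem_P {a b c : B} (ha : a ∈ Q) (hb : b ∈ Q) (hc : c ∈ Q) :
    e * a + s e * b + s (s e) * c ∈ PP s e Q := by
  have ha' := D.fixQ a ha
  have hb' := D.fixQ b hb
  have hc' := D.fixQ c hc
  refine ⟨?_, ?_, ?_⟩
  · rw [D.coord0 ha' hb' hc']; exact ha
  · rw [D.coord1 ha' hb' hc']; exact hb
  · rw [D.coord2 ha' hb' hc']; exact hc

theorem e_mem {a : B} (ha : a ∈ Q) : e * a ∈ PP s e Q := by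
  have := D.mem_P ha Q.zero_mem Q.zero_mem
  simpa using this

theorem se_mem {a : B} (ha : a ∈ Q) : s e * a ∈ PP s e Q := by
  have := D.mem_P Q.zero_mem ha Q.zero_mem
  simpa using this

theorem sse_mem {a : B} (ha : a ∈ Q) : s (s e) * a ∈ PP s e Q := by
  have := D.mem_P Q.zero_mem Q.zero_mem ha
  simpa using this

theorem Q_le {a : B} (ha : a ∈ Q) : a ∈ PP s e Q := by
  have h := D.mem_P ha ha ha
  rwa [← add_mul, ← add_mul, D.tr, one_mul] at h

theorem s_mem {x : B} (hx : x ∈ PP s e Q) : s x ∈ PP s e Q := by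
  obtain ⟨h0, h1, h2⟩ := hx
  refine ⟨?_, ?_, ?_⟩
  · have : e * s x = s (s (s e) * x) := by rw [map_mul, D.s3]
    rw [this, tr3_s s D.s3]; exact h2
  · rw [← map_mul, tr3_s s D.s3]; exact h0
  · rw [← map_mul, tr3_s s D.s3]; exact h1

theorem fixed_mem {x : B} (hx : x ∈ PP s e Q) (hs : s x = x) : x ∈ Q := by
  have := hx.1
  rwa [tr3_mul_fixed s hs, D.Te, one_mul] at this

theorem tr_mem {x : B} (hx : x ∈ PP s e Q) : tr3 s x ∈ Q := by
  have h : tr3 s x = tr3 s (e * x) + tr3 s (s e * x) + tr3 s (s (s e) * x) := by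
    rw [← tr3_add, ← tr3_add, ← add_mul, ← add_mul, D.tr, one_mul]
  rw [h]
  exact Q.add_mem (Q.add_mem hx.1 hx.2.1) hx.2.2

theorem spow (n : ℕ) : s (π ^ n) = π ^ n := by rw [map_pow, D.sπ]

theorem powC (n : ℕ) (x : B) : Commute (π ^ n) x := (D.cQ.piC x).pow_left n

theorem coordpow (n : ℕ) (u x : B) : tr3 s (u * (π ^ n * x)) = π ^ n * tr3 s (u * x) := by
  rw [← tr3_fixed_mul s (D.spow n), ← mul_assoc, ← mul_assoc, (D.powC n u).eq]

theorem pi_mem {x : B} (hx : x ∈ PP s e Q) : π * x ∈ PP s e Q := by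
  have h := D.coordpow 1
  simp only [pow_one] at h
  refine ⟨?_, ?_, ?_⟩ <;> rw [h]
  · exact D.cQ.piM _ hx.1
  · exact D.cQ.piM _ hx.2.1
  · exact D.cQ.piM _ hx.2.2

theorem mul_mem {x y : B} (hx : x ∈ PP s e Q) (hy : y ∈ PP s e Q) : x * y ∈ PP s e Q := by
  obtain ⟨z, hz, h⟩ := D.mulP x hx y hy
  rw [h]; exact D.pi_mem hz

/-- `P` is complete. -/
theorem cP : Compl π (PP s e Q) where
  piC := D.cQ.piC
  reg := D.cQ.reg
  piM x hx := D.pi_mem hx
  lim f hf hc := by
    have hcoord : ∀ u : B, (∀ x ∈ PP s e Q, tr3 s (u * x) ∈ Q) →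
        ∃ l ∈ Q, ∀ n, Cl π Q n l (tr3 s (u * f n)) := by
      intro u hu
      refine D.cQ.lim (fun n => tr3 s (u * f n)) (fun n => hu _ (hf n)) ?_
      intro n
      obtain ⟨z, hz, h⟩ := hc n
      refine ⟨tr3 s (u * z), hu _ hz, ?_⟩
      rw [← tr3_sub, ← mul_sub, h, D.coordpow]
    obtain ⟨l0, h0, H0⟩ := hcoord e (fun x hx => hx.1)
    obtain ⟨l1, h1, H1⟩ := hcoord (s e) (fun x hx => hx.2.1)
    obtain ⟨l2, h2, H2⟩ := hcoord (s (s e)) (fun x hx => hx.2.2)
    refine ⟨_, D.mem_P h0 h1 h2, ?_⟩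
    intro n
    obtain ⟨z0, hz0, k0⟩ := H0 n
    obtain ⟨z1, hz1, k1⟩ := H1 n
    obtain ⟨z2, hz2, k2⟩ := H2 n
    refine ⟨_, D.mem_P hz0 hz1 hz2, ?_⟩
    conv_lhs => rw [← D.decomp (f n)]
    have c0 : e * (π ^ n * z0) = π ^ n * (e * z0) := by
      rw [← mul_assoc, ← (D.powC n e).eq, mul_assoc]
    have c1 : s e * (π ^ n * z1) = π ^ n * (s e * z1) := by
      rw [← mul_assoc, ← (D.powC n (s e)).eq, mul_assoc]
    have c2 : s (s e) * (π ^ n * z2) = π ^ n * (s (s e) * z2) := by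
      rw [← mul_assoc, ← (D.powC n (s (s e))).eq, mul_assoc]
    rw [mul_add, mul_add, ← c0, ← c1, ← c2, ← k0, ← k1, ← k2]
    noncomm_ring
  sep x hx h := by
    have hcoord : ∀ u : B, (∀ x ∈ PP s e Q, tr3 s (u * x) ∈ Q) → tr3 s (u * x) = 0 := by
      intro u hu
      refine D.cQ.sep _ (hu x hx) ?_
      intro n
      obtain ⟨z, hz, hxz⟩ := h n
      exact ⟨tr3 s (u * z), hu _ hz, by rw [hxz, D.coordpow]⟩
    rw [← D.decomp x, hcoord e (fun x hx => hx.1), hcoord (s e) (fun x hx => hx.2.1),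
      hcoord (s (s e)) (fun x hx => hx.2.2)]
    simp

/-- inverses -/
theorem exists_inv {x : B} (hx : x ∈ PP s e Q) :
    ∃ z ∈ PP s e Q, (1 + x) * (1 + z) = 1 ∧ (1 + z) * (1 + x) = 1 := by
  have right : ∀ x ∈ PP s e Q, ∃ z ∈ PP s e Q, (1 + x) * (1 + z) = 1 := by
    intro x hx
    obtain ⟨z, hz, h⟩ := D.cP.fix (fun z => -x - x * z)
      (fun z hz => (PP s e Q).sub_mem ((PP s e Q).neg_mem hx) (D.mul_mem hx hz)) (by
        intro n y _ y' _ hyy
        obtain ⟨z, hz, h⟩ := hyy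
        obtain ⟨w, hw, h'⟩ := D.mulP x hx z hz
        refine ⟨-w, (PP s e Q).neg_mem hw, ?_⟩
        have e1 : -x - x * y - (-x - x * y') = -(x * (y - y')) := by noncomm_ring
        rw [e1, h, ← mul_assoc, ← (D.powC n x).eq, mul_assoc, h', pow_succ, mul_neg]
        simp only [mul_assoc])
    refine ⟨z, hz, ?_⟩
    have h2 : x + z + x * z = 0 := by
      have h3 : x + (-x - x * z) + x * z = 0 := by abel
      have h4 : (-x - x * z) = z := h
      rwa [h4] at h3
    calc (1 + x) * (1 + z) = 1 + (x + z + x * z) := by noncomm_ring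
      _ = 1 := by rw [h2, add_zero]
  obtain ⟨z, hz, h⟩ := right x hx
  obtain ⟨z', _, h'⟩ := right z hz
  refine ⟨z, hz, h, ?_⟩
  have : 1 + x = 1 + z' := left_inv_eq_right_inv h h'
  rw [this]; exact h'

/-- **Normal form.** -/
theorem normal_form {x : B} (hx : x ∈ PP s e Q) :
    ∃ h ∈ PP s e Q, ∃ a ∈ Q, (1 + x) * (1 + s h) = (1 + h) * (1 + e * a) := by
  let hh : B → B := fun w => (s e + s (s e)) * tr3 s (s e * w) + s (s e) * tr3 s (s (s e) * w)
  have hh_mem : ∀ w ∈ PP s e Q, hh w ∈ PP s e Q := by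
    intro w hw
    show (s e + s (s e)) * tr3 s (s e * w) + s (s e) * tr3 s (s (s e) * w) ∈ _
    rw [add_mul]
    exact (PP s e Q).add_mem ((PP s e Q).add_mem (D.se_mem hw.2.1) (D.sse_mem hw.2.1))
      (D.sse_mem hw.2.2)
  have hh_id : ∀ w, w = e * tr3 s w - (s (hh w) - hh w) := by
    intro w
    have f1 := s_tr3 s D.s3 (s e * w)
    have f2 := s_tr3 s D.s3 (s (s e) * w)
    have hT : tr3 s w = tr3 s (e * w) + tr3 s (s e * w) + tr3 s (s (s e) * w) := by
      rw [← tr3_add, ← tr3_add, ← add_mul, ← add_mul, D.tr, one_mul]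
    have hs : s (hh w) = (s (s e) + e) * tr3 s (s e * w) + e * tr3 s (s (s e) * w) := by
      show s ((s e + s (s e)) * tr3 s (s e * w) + s (s e) * tr3 s (s (s e) * w)) = _
      rw [map_add, map_mul, map_mul, map_add, f1, f2, D.s3]
    rw [hs, hT]
    show w = e * (tr3 s (e * w) + tr3 s (s e * w) + tr3 s (s (s e) * w)) -
      ((s (s e) + e) * tr3 s (s e * w) + e * tr3 s (s (s e) * w) -
        ((s e + s (s e)) * tr3 s (s e * w) + s (s e) * tr3 s (s (s e) * w)))
    conv_lhs => rw [← D.decomp w]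
    noncomm_ring
  have hh_sub : ∀ w w', hh (w - w') = hh w - hh w' := by
    intro w w'
    show (s e + s (s e)) * tr3 s (s e * (w - w')) + s (s e) * tr3 s (s (s e) * (w - w')) = _
    rw [mul_sub, mul_sub, tr3_sub, tr3_sub]
    show _ = (s e + s (s e)) * tr3 s (s e * w) + s (s e) * tr3 s (s (s e) * w) -
      ((s e + s (s e)) * tr3 s (s e * w') + s (s e) * tr3 s (s (s e) * w'))
    noncomm_ring
  have hh_pow : ∀ n w, hh (π ^ n * w) = π ^ n * hh w := by
    intro n w
    show (s e + s (s e)) * tr3 s (s e * (π ^ n * w)) + s (s e) * tr3 s (s (s e) * (π ^ n * w)) = _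
    rw [D.coordpow, D.coordpow, ← mul_assoc, ← (D.powC n (s e + s (s e))).eq, ← mul_assoc (s (s e)),
      ← (D.powC n (s (s e))).eq, mul_assoc, mul_assoc, ← mul_add]
  obtain ⟨w, hw, hfix⟩ := D.cP.fix
    (fun w => x - hh w * (e * tr3 s w) + x * s (hh w))
    (fun w hw => (PP s e Q).add_mem ((PP s e Q).sub_mem hx
      (D.mul_mem (hh_mem w hw) (D.e_mem (D.tr_mem hw))))
      (D.mul_mem hx (D.s_mem (hh_mem w hw)))) (by
      intro n y hy y' hy' hyy
      obtain ⟨z, hz, h⟩ := hyy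
      have hd : hh y - hh y' = π ^ n * hh z := by rw [← hh_sub, h, hh_pow]
      have ht : e * tr3 s y - e * tr3 s y' = π ^ n * (e * tr3 s z) := by
        rw [← mul_sub, ← tr3_sub, h, tr3_fixed_mul s (D.spow n), ← mul_assoc, ← mul_assoc,
          (D.powC n e).eq]
      obtain ⟨p1, hp1, k1⟩ := D.mulP _ (hh_mem z hz) _ (D.e_mem (D.tr_mem hy))
      obtain ⟨p2, hp2, k2⟩ := D.mulP _ (hh_mem y' hy') _ (D.e_mem (D.tr_mem hz))
      obtain ⟨p3, hp3, k3⟩ := D.mulP _ hx _ (D.s_mem (hh_mem z hz))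
      refine ⟨p3 - p1 - p2, (PP s e Q).sub_mem ((PP s e Q).sub_mem hp3 hp1) hp2, ?_⟩
      have hds : s (hh y) - s (hh y') = π ^ n * s (hh z) := by
        rw [← map_sub, hd, map_mul, D.spow]
      calc x - hh y * (e * tr3 s y) + x * s (hh y) -
            (x - hh y' * (e * tr3 s y') + x * s (hh y'))
          = x * (s (hh y) - s (hh y')) - (hh y - hh y') * (e * tr3 s y)
              - hh y' * (e * tr3 s y - e * tr3 s y') := by noncomm_ring
        _ = x * (π ^ n * s (hh z)) - (π ^ n * hh z) * (e * tr3 s y)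
              - hh y' * (π ^ n * (e * tr3 s z)) := by rw [hd, hds, ht]
        _ = π ^ n * (x * s (hh z)) - π ^ n * (hh z * (e * tr3 s y))
              - π ^ n * (hh y' * (e * tr3 s z)) := by
            rw [← mul_assoc x, ← (D.powC n x).eq, ← mul_assoc (hh y'), ← (D.powC n (hh y')).eq]
            simp only [mul_assoc]
        _ = π ^ (n + 1) * (p3 - p1 - p2) := by
            rw [k1, k2, k3, pow_succ]; noncomm_ring)
  refine ⟨hh w, hh_mem w hw, tr3 s w, D.tr_mem hw, ?_⟩
  have h1 : x - hh w * (e * tr3 s w) + x * s (hh w) = e * tr3 s w - (s (hh w) - hh w) := by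
    rw [← hh_id w]; exact hfix
  have h2 : x + s (hh w) + x * s (hh w) - (hh w + e * tr3 s w + hh w * (e * tr3 s w)) = 0 := by
    have : x + s (hh w) + x * s (hh w) - (hh w + e * tr3 s w + hh w * (e * tr3 s w)) =
      (x - hh w * (e * tr3 s w) + x * s (hh w)) - (e * tr3 s w - (s (hh w) - hh w)) := by abel
    rw [this, h1, sub_self]
  have h3 := sub_eq_zero.1 h2
  calc (1 + x) * (1 + s (hh w)) = 1 + (x + s (hh w) + x * s (hh w)) := by noncomm_ring
    _ = 1 + (hh w + e * tr3 s w + hh w * (e * tr3 s w)) := by rw [h3]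
    _ = _ := by noncomm_ring

/-- the cubic term is divisible by `π` -/
theorem cubic {x y z : B} (hx : x ∈ Q) (hy : y ∈ Q) (hz : z ∈ Q) :
    ∃ q ∈ Q, e * s e * s (s e) * (x * y * z) = π * q := by
  obtain ⟨p, hp, h1⟩ := D.mulP _ (D.e_mem hx) _ (D.se_mem hy)
  obtain ⟨p', hp', h2⟩ := D.mulP _ hp _ (D.sse_mem hz)
  have h3 : e * s e * s (s e) * (x * y * z) = π * (π * p') := by
    rw [← h2, ← mul_assoc π, ← h1]
    have c1 : x * s e = s e * x := (D.eC1 x).eq.symm
    have c2 : x * y * s (s e) = s (s e) * (x * y) := (D.eC2 (x * y)).eq.symm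
    calc e * s e * s (s e) * (x * y * z) = e * s e * (s (s e) * (x * y)) * z := by
            simp only [mul_assoc]
      _ = e * s e * (x * y * s (s e)) * z := by rw [c2]
      _ = e * (s e * x) * y * s (s e) * z := by simp only [mul_assoc]
      _ = e * (x * s e) * y * s (s e) * z := by rw [c1]
      _ = _ := by simp only [mul_assoc]
  have hfix : s (e * s e * s (s e) * (x * y * z)) = e * s e * s (s e) * (x * y * z) := by
    rw [map_mul, D.n3_fixed, map_mul, map_mul, D.fixQ x hx, D.fixQ y hy, D.fixQ z hz]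
  have h4 : s (π * p') = π * p' := by
    have h5 := congrArg s h3
    rw [hfix, map_mul, D.sπ] at h5
    have h6 : π * (π * p' - s (π * p')) = 0 := by
      rw [mul_sub, ← h5, h3, sub_self]
    exact (sub_eq_zero.1 (D.cQ.reg _ h6)).symm
  exact ⟨π * p', D.fixed_mem (D.pi_mem hp') h4, h3⟩

/-- the norm map on normal forms -/
theorem norm_mem {a : B} (ha : a ∈ Q) : a + e * s e * s (s e) * (a * a * a) ∈ Q := by
  obtain ⟨q, hq, h⟩ := D.cubic ha ha ha
  rw [h]
  exact Q.add_mem ha (D.cQ.piM _ hq)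

theorem cubic_contr {n : ℕ} {x y : B} (hx : x ∈ Q) (hy : y ∈ Q) (h : Cl π Q n x y) :
    Cl π Q (n + 1) (e * s e * s (s e) * (x * x * x)) (e * s e * s (s e) * (y * y * y)) := by
  obtain ⟨z, hz, h⟩ := h
  obtain ⟨q1, hq1, k1⟩ := D.cubic hz hx hx
  obtain ⟨q2, hq2, k2⟩ := D.cubic hy hz hx
  obtain ⟨q3, hq3, k3⟩ := D.cubic hy hy hz
  refine ⟨q1 + q2 + q3, Q.add_mem (Q.add_mem hq1 hq2) hq3, ?_⟩
  have e1 : x * x * x - y * y * y = (x - y) * x * x + y * (x - y) * x + y * y * (x - y) := by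
    noncomm_ring
  have e2 : x * x * x - y * y * y = π ^ n * (z * x * x + y * z * x + y * y * z) := by
    have c1 : y * (π ^ n * z) = π ^ n * (y * z) := by
      rw [← mul_assoc, ← (D.powC n y).eq, mul_assoc]
    have c2 : y * y * (π ^ n * z) = π ^ n * (y * y * z) := by
      rw [← mul_assoc, ← (D.powC n (y * y)).eq, mul_assoc]
    rw [e1, h, c1, c2]
    noncomm_ring
  have c3 : e * s e * s (s e) * (π ^ n * (z * x * x + y * z * x + y * y * z)) =
      π ^ n * (e * s e * s (s e) * (z * x * x) + e * s e * s (s e) * (y * z * x) +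
        e * s e * s (s e) * (y * y * z)) := by
    rw [← mul_assoc, ← (D.powC n _).eq, mul_assoc]
    congr 1
    rw [mul_add, mul_add]
  rw [← mul_sub, e2, c3, k1, k2, k3, pow_succ]
  noncomm_ring

theorem exists_root {b : B} (hb : b ∈ Q) :
    ∃ a ∈ Q, a + e * s e * s (s e) * (a * a * a) = b := by
  obtain ⟨a, ha, h⟩ := D.cQ.fix (fun a => b - e * s e * s (s e) * (a * a * a))
    (fun a ha => by
      obtain ⟨q, hq, h⟩ := D.cubic ha ha ha
      show b - e * s e * s (s e) * (a * a * a) ∈ Q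
      rw [h]; exact Q.sub_mem hb (D.cQ.piM _ hq)) (by
      intro n x hx y hy h
      obtain ⟨z, hz, k⟩ := D.cubic_contr hx hy h
      refine ⟨-z, Q.neg_mem hz, ?_⟩
      rw [mul_neg, ← k]; abel)
  refine ⟨a, ha, ?_⟩
  have h' : b - e * s e * s (s e) * (a * a * a) = a := h
  have h2 : (b - e * s e * s (s e) * (a * a * a)) + e * s e * s (s e) * (a * a * a) = b := by abel
  rwa [h'] at h2

end Dat

/-- the approximants of the root -/
def approx (ν b : B) : ℕ → B
  | 0 => 0
  | n + 1 => b - ν * (approx ν b n * approx ν b n * approx ν b n)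

theorem approx_conj {ν : B} (hν : ∀ x, Commute ν x) (b y y' : B) (h : y' * y = 1)
    (h' : y * y' = 1) (n : ℕ) : approx ν (y' * b * y) n = y' * approx ν b n * y := by
  induction n with
  | zero => simp [approx]
  | succ n ih =>
    show y' * b * y - ν * (approx ν (y' * b * y) n * approx ν (y' * b * y) n *
      approx ν (y' * b * y) n) = y' * (b - ν * (approx ν b n * approx ν b n * approx ν b n)) * y
    rw [ih]
    set c := approx ν b n
    have e1 : y' * c * y * (y' * c * y) * (y' * c * y) = y' * (c * c * c) * y := by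
      calc y' * c * y * (y' * c * y) * (y' * c * y)
          = y' * c * (y * y') * c * (y * y') * c * y := by simp only [mul_assoc]
        _ = _ := by rw [h']; simp only [mul_one, mul_assoc]
    rw [e1, mul_sub, sub_mul]
    congr 1
    rw [← mul_assoc, ← mul_assoc, (hν y').eq]
    simp only [mul_assoc]

namespace Dat

variable {s : B ≃+* B} {e π : B} {Q : AddSubgroup B} (D : Dat s e π Q)

include D

theorem approx_spec {a : B} (ha : a ∈ Q) (n : ℕ) :
    approx (e * s e * s (s e)) (a + e * s e * s (s e) * (a * a * a)) n ∈ Q ∧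
      Cl π Q n a (approx (e * s e * s (s e)) (a + e * s e * s (s e) * (a * a * a)) n) := by
  induction n with
  | zero => exact ⟨Q.zero_mem, a, ha, by simp [approx]⟩
  | succ n ih =>
    obtain ⟨h1, h2⟩ := ih
    set ν := e * s e * s (s e) with hν
    set b := a + ν * (a * a * a) with hb
    have hbQ : b ∈ Q := D.norm_mem ha
    have hstep : approx ν b (n + 1) = b - ν * (approx ν b n * approx ν b n * approx ν b n) := rfl
    obtain ⟨q, hq, hk⟩ := D.cubic h1 h1 h1
    refine ⟨?_, ?_⟩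
    · rw [hstep, hk]; exact Q.sub_mem hbQ (D.cQ.piM _ hq)
    · obtain ⟨z, hz, k⟩ := D.cubic_contr ha h1 h2
      refine ⟨-z, Q.neg_mem hz, ?_⟩
      rw [hstep, mul_neg, ← k, hb]
      abel

/-- **Equivariance of the root.** -/
theorem root_conj {a a' y y' : B} (ha : a ∈ Q) (ha' : a' ∈ Q) (h : y' * y = 1) (h' : y * y' = 1)
    (hy : ∃ m : ℕ, ∀ q ∈ Q, π ^ m * (y' * q * y) ∈ Q)
    (heq : a' + e * s e * s (s e) * (a' * a' * a') =
      y' * (a + e * s e * s (s e) * (a * a * a)) * y) : a' = y' * a * y := by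
  obtain ⟨m, hm⟩ := hy
  have key : ∀ n, ∃ z ∈ Q, π ^ m * (a' - y' * a * y) = π ^ n * z := by
    intro n
    obtain ⟨-, z1, hz1, k1⟩ := D.approx_spec ha' n
    obtain ⟨-, z2, hz2, k2⟩ := D.approx_spec ha n
    rw [heq, approx_conj (fun x => D.n3C x) _ _ _ h h'] at k1
    refine ⟨π ^ m * z1 - π ^ m * (y' * z2 * y), Q.sub_mem (D.cQ.pow_mem m hz1) (hm _ hz2), ?_⟩
    have e1 : a' - y' * a * y = (a' - y' * approx (e * s e * s (s e))
        (a + e * s e * s (s e) * (a * a * a)) n * y) -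
        y' * (a - approx (e * s e * s (s e))
        (a + e * s e * s (s e) * (a * a * a)) n) * y := by noncomm_ring
    have c1 : y' * (π ^ n * z2) * y = π ^ n * (y' * z2 * y) := by
      rw [← mul_assoc, ← (D.powC n y').eq]; simp only [mul_assoc]
    rw [e1, k1, k2, c1, ← mul_sub, ← mul_assoc, ((Commute.refl π).pow_pow m n).eq, mul_assoc,
      mul_sub]
  have h0 : π ^ m * (a' - y' * a * y) = 0 := by
    refine D.cQ.sep _ ?_ key
    obtain ⟨z, hz, hk⟩ := key 0
    rw [hk]; simpa using hz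
  exact sub_eq_zero.1 (pow_reg D.cQ.reg m _ h0)

/-- uniqueness of the root -/
theorem root_unique {a a' : B} (ha : a ∈ Q) (ha' : a' ∈ Q)
    (heq : a' + e * s e * s (s e) * (a' * a' * a') =
      a + e * s e * s (s e) * (a * a * a)) : a' = a := by
  have := D.root_conj (y := 1) (y' := 1) ha ha' (by simp) (by simp)
    ⟨0, fun q hq => by simpa using hq⟩ (by rw [heq]; simp)
  simpa using this

/-- The sub-datum of elements commuting with `1 + β`, `β ∈ Q`. -/
theorem sub {β : B} (hβ : β ∈ Q) :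
    Dat s e π (Q ⊓ (Subring.centralizer {β}).toAddSubgroup) := by
  have hmem : ∀ x : B, x ∈ (Subring.centralizer {β}).toAddSubgroup ↔ β * x = x * β := by
    intro x
    show x ∈ Subring.centralizer {β} ↔ _
    rw [Subring.mem_centralizer_iff]
    simp
  have hβs := D.fixQ β hβ
  -- commuting with β passes to the quotient by π ^ n
  have hdiv : ∀ n x z, x = π ^ n * z → β * x = x * β → β * z = z * β := by
    intro n x z hx h
    have h1 : π ^ n * (β * z - z * β) = 0 := by
      rw [mul_sub, ← mul_assoc, (D.powC n β).eq, mul_assoc, ← mul_assoc (π ^ n) z, ← hx, h, sub_self]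
    exact sub_eq_zero.1 (pow_reg D.cQ.reg n _ h1)
  -- elements of the small P
  have hPP : ∀ x, x ∈ PP s e (Q ⊓ (Subring.centralizer {β}).toAddSubgroup) ↔
      x ∈ PP s e Q ∧ β * x = x * β := by
    intro x
    constructor
    · rintro ⟨⟨h0, k0⟩, ⟨h1, k1⟩, ⟨h2, k2⟩⟩
      refine ⟨⟨h0, h1, h2⟩, ?_⟩
      have k0' := (hmem _).1 k0
      have k1' := (hmem _).1 k1
      have k2' := (hmem _).1 k2
      have d := D.decomp x
      calc β * x = β * (e * tr3 s (e * x) + s e * tr3 s (s e * x) +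
              s (s e) * tr3 s (s (s e) * x)) := by rw [d]
        _ = e * (β * tr3 s (e * x)) + s e * (β * tr3 s (s e * x)) +
              s (s e) * (β * tr3 s (s (s e) * x)) := by
            rw [mul_add, mul_add, ← mul_assoc, ← mul_assoc, ← mul_assoc, ← (D.eC β).eq,
              ← (D.eC1 β).eq, ← (D.eC2 β).eq]
            simp only [mul_assoc]
        _ = (e * tr3 s (e * x) + s e * tr3 s (s e * x) + s (s e) * tr3 s (s (s e) * x)) * β := by
            rw [k0', k1', k2']; noncomm_ring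
        _ = x * β := by rw [d]
    · rintro ⟨⟨h0, h1, h2⟩, hc⟩
      have hT : ∀ u, (∀ x, Commute u x) → β * tr3 s (u * x) = tr3 s (u * x) * β := by
        intro u hu
        rw [← tr3_fixed_mul s hβs, ← tr3_mul_fixed s hβs, ← mul_assoc, ← (hu β).eq, mul_assoc, hc,
          mul_assoc]
      exact ⟨⟨h0, (hmem _).2 (hT _ D.eC)⟩, ⟨h1, (hmem _).2 (hT _ D.eC1)⟩,
        ⟨h2, (hmem _).2 (hT _ D.eC2)⟩⟩
  refine { toNb := D.toNb, sπ := D.sπ, fixQ := fun q hq => D.fixQ q hq.1, cQ := ?_, mulP := ?_ }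
  · refine { piC := D.cQ.piC, reg := D.cQ.reg, piM := ?_, lim := ?_, sep := ?_ }
    · rintro x ⟨hx, hxc⟩
      refine ⟨D.cQ.piM _ hx, (hmem _).2 ?_⟩
      rw [← mul_assoc, ← (D.cQ.piC β).eq, mul_assoc, (hmem _).1 hxc, mul_assoc]
    · intro f hf hc
      obtain ⟨l, hl, hlim⟩ := D.cQ.lim f (fun n => (hf n).1) (fun n => by
        obtain ⟨z, hz, h⟩ := hc n
        exact ⟨z, hz.1, h⟩)
      have hlc : β * l = l * β := by
        have hβP := D.Q_le hβ
        have hk : ∀ n, ∃ z ∈ Q, β * l - l * β = π ^ n * z := by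
          intro n
          obtain ⟨z, hz, h⟩ := hlim n
          have hfn := (hmem _).1 (hf n).2
          refine ⟨β * z - z * β, ?_, ?_⟩
          · refine D.fixed_mem ((PP s e Q).sub_mem (D.mul_mem hβP (D.Q_le hz))
              (D.mul_mem (D.Q_le hz) hβP)) ?_
            rw [map_sub, map_mul, map_mul, hβs, D.fixQ z hz]
          · have e1 : l = f n + π ^ n * z := by rw [← h]; abel
            rw [e1, mul_sub, ← mul_assoc (π ^ n) β, (D.powC n β).eq, ← mul_assoc (π ^ n) z]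
            rw [mul_add, add_mul, hfn]
            noncomm_ring
        have hmemQ : β * l - l * β ∈ Q := by
          obtain ⟨z, hz, h⟩ := hk 0
          rw [h]; simpa using hz
        exact sub_eq_zero.1 (D.cQ.sep _ hmemQ hk)
      refine ⟨l, ⟨hl, (hmem _).2 hlc⟩, ?_⟩
      intro n
      obtain ⟨z, hz, h⟩ := hlim n
      refine ⟨z, ⟨hz, (hmem _).2 (hdiv n _ z h ?_)⟩, h⟩
      rw [mul_sub, sub_mul, hlc, (hmem _).1 (hf n).2]
    · intro x hx h
      exact D.cQ.sep x hx.1 fun n => by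
        obtain ⟨z, hz, h'⟩ := h n
        exact ⟨z, hz.1, h'⟩
  · intro x hx y hy
    rw [hPP] at hx hy
    obtain ⟨z, hz, h⟩ := D.mulP x hx.1 y hy.1
    refine ⟨z, (hPP z).2 ⟨hz, ?_⟩, h⟩
    refine hdiv 1 (x * y) z (by rw [pow_one]; exact h) ?_
    rw [← mul_assoc, hx.2, mul_assoc, hy.2, mul_assoc]

/-- elements of `P` with coordinates commuting with `β` -/
theorem mem_sub_P {β x : B} (hβs : s β = β) :
    x ∈ PP s e (Q ⊓ (Subring.centralizer {β}).toAddSubgroup) ↔ x ∈ PP s e Q ∧ Commute β x := by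
  have hmem : ∀ x : B, x ∈ (Subring.centralizer {β}).toAddSubgroup ↔ β * x = x * β := by
    intro x
    show x ∈ Subring.centralizer {β} ↔ _
    rw [Subring.mem_centralizer_iff]
    simp
  constructor
  · rintro ⟨⟨h0, k0⟩, ⟨h1, k1⟩, ⟨h2, k2⟩⟩
    refine ⟨⟨h0, h1, h2⟩, ?_⟩
    have k0' := (hmem _).1 k0
    have k1' := (hmem _).1 k1
    have k2' := (hmem _).1 k2
    have d := D.decomp x
    show β * x = x * β
    calc β * x = β * (e * tr3 s (e * x) + s e * tr3 s (s e * x) +
            s (s e) * tr3 s (s (s e) * x)) := by rw [d]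
      _ = e * (β * tr3 s (e * x)) + s e * (β * tr3 s (s e * x)) +
            s (s e) * (β * tr3 s (s (s e) * x)) := by
          rw [mul_add, mul_add, ← mul_assoc, ← mul_assoc, ← mul_assoc, ← (D.eC β).eq,
            ← (D.eC1 β).eq, ← (D.eC2 β).eq]
          simp only [mul_assoc]
      _ = (e * tr3 s (e * x) + s e * tr3 s (s e * x) + s (s e) * tr3 s (s (s e) * x)) * β := by
          rw [k0', k1', k2']; noncomm_ring
      _ = x * β := by rw [d]
  · rintro ⟨⟨h0, h1, h2⟩, hc⟩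
    have hT : ∀ u, (∀ x, Commute u x) → β * tr3 s (u * x) = tr3 s (u * x) * β := by
      intro u hu
      rw [← tr3_fixed_mul s hβs, ← tr3_mul_fixed s hβs, ← mul_assoc, ← (hu β).eq, mul_assoc, hc.eq,
        mul_assoc]
    exact ⟨⟨h0, (hmem _).2 (hT _ D.eC)⟩, ⟨h1, (hmem _).2 (hT _ D.eC1)⟩,
      ⟨h2, (hmem _).2 (hT _ D.eC2)⟩⟩

end Dat

end Fermat.Agent.H43Z2
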