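import Fermat.Agent.H43Z2

/-!
# C13, part 3: the lattices over a complete valued field

`L` a field with a valuation `v : Valuation L ℤᵐ⁰`, an isometric automorphism `σ` of order three,
a self-dual normal generator `e`.  `Lat r = {x | v (Tr (σ^i e x)) ≤ r}`.
-/

set_option autoImplicit false
set_option linter.unusedSectionVars false

namespace Fermat.Agent.H43Z3

open Fermat.Agent.H43Z2 WithZero

variable {L : Type*} [Field L]

/-- The trace `1 + σ + σ²` on the field. -/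
abbrev tr (σ : L ≃+* L) (x : L) : L := tr3 σ x

/-- The lattice of radius `r`. -/
def Lat (v : Valuation L ℤᵐ⁰) (σ : L ≃+* L) (e : L) (r : ℤᵐ⁰) : AddSubgroup L where
  carrier := {x | v (tr3 σ (e * x)) ≤ r ∧ v (tr3 σ (σ e * x)) ≤ r ∧ v (tr3 σ (σ (σ e) * x)) ≤ r}
  zero_mem' := by simp
  add_mem' := by
    rintro x y ⟨h1, h2, h3⟩ ⟨h1', h2', h3'⟩
    refine ⟨?_, ?_, ?_⟩ <;> rw [mul_add, tr3_add]
    · exact v.map_add_le h1 h1'
    · exact v.map_add_le h2 h2'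
    · exact v.map_add_le h3 h3'
  neg_mem' := by
    rintro x ⟨h1, h2, h3⟩
    refine ⟨?_, ?_, ?_⟩ <;> rw [mul_neg, tr3_neg, Valuation.map_neg]
    · exact h1
    · exact h2
    · exact h3

theorem mem_Lat {v : Valuation L ℤᵐ⁰} {σ : L ≃+* L} {e : L} {r : ℤᵐ⁰} {x : L} :
    x ∈ Lat v σ e r ↔ v (tr3 σ (e * x)) ≤ r ∧ v (tr3 σ (σ e * x)) ≤ r ∧
      v (tr3 σ (σ (σ e) * x)) ≤ r := Iff.rfl

/-- The datum over the complete valued field. -/
structure VD (v : Valuation L ℤᵐ⁰) (σ : L ≃+* L) (e π : L) (κ a b c : ℤᵐ⁰) : Prop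
    extends Nb σ e where
  vσ : ∀ x, v (σ x) = v x
  complete : ∀ f : ℕ → L, (∀ n : ℕ, v (f (n + 1) - f n) ≤ exp (-(n : ℤ))) →
    ∃ l, ∀ n : ℕ, v (l - f n) ≤ exp (-(n : ℤ))
  sπ : σ π = π
  π0 : π ≠ 0
  π1 : v π < 1
  κ1 : 1 ≤ κ
  str : ∀ i j k : ℕ, v (tr3 σ ((σ^[i] e) * (σ^[j] e) * (σ^[k] e))) ≤ κ
  a0 : a ≠ 0
  b0 : b ≠ 0
  c0 : c ≠ 0
  κa : κ * a ≤ v π
  bc : b * c ≤ a * a

theorem le_exp_neg_one {x : ℤᵐ⁰} (hx : x < 1) : x ≤ exp (-1 : ℤ) := by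
  by_cases h0 : x = 0
  · rw [h0]; exact zero_le
  · rw [← exp_log h0] at hx ⊢
    rw [← exp_zero, exp_lt_exp] at hx
    rw [exp_le_exp]; omega

theorem pow_le_exp {x : ℤᵐ⁰} (hx : x ≤ exp (-1 : ℤ)) (n : ℕ) : x ^ n ≤ exp (-(n : ℤ)) := by
  calc x ^ n ≤ (exp (-1 : ℤ)) ^ n := pow_le_pow_left₀ zero_le hx n
    _ = exp (-(n : ℤ)) := by rw [← exp_nsmul]; congr 1; simp

theorem eq_zero_of_forall_le {v : Valuation L ℤᵐ⁰} {x : L} {C : ℤᵐ⁰}
    (h : ∀ n : ℕ, v x ≤ exp (-(n : ℤ)) * C) : x = 0 := by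
  by_contra hx
  have hv : v x ≠ 0 := (Valuation.ne_zero_iff v).2 hx
  have hC : C ≠ 0 := by
    rintro rfl
    have := h 0
    rw [mul_zero] at this
    exact hv (le_antisymm this zero_le)
  rw [← exp_log hv, ← exp_log hC] at h
  have := h ((log C - log (v x)).toNat + 1)
  rw [← exp_add, exp_le_exp] at this
  have h2 := Int.self_le_toNat (log C - log (v x))
  push_cast at this
  omega

namespace VD

variable {v : Valuation L ℤᵐ⁰} {σ : L ≃+* L} {e π : L} {κ a b c : ℤᵐ⁰}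
  (D : VD v σ e π κ a b c)

include D

theorem vπ0 : v π ≠ 0 := (Valuation.ne_zero_iff v).2 D.π0

theorem vpow (n : ℕ) : v π ^ n ≤ exp (-(n : ℤ)) := pow_le_exp (le_exp_neg_one D.π1) n

theorem a1 : a < 1 := by
  have h1 : a ≤ κ * a := by
    calc a = 1 * a := (one_mul a).symm
      _ ≤ κ * a := mul_le_mul' D.κ1 le_rfl
  exact (h1.trans D.κa).trans_lt D.π1

/-- completeness for the scale `v π ^ n * r` -/
theorem lim_scale {r : ℤᵐ⁰} (hr : r ≠ 0) (f : ℕ → L)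
    (hf : ∀ n, v (f (n + 1) - f n) ≤ v π ^ n * r) : ∃ l, ∀ n, v (l - f n) ≤ v π ^ n * r := by
  -- shift
  obtain ⟨N, hN⟩ : ∃ N : ℕ, r ≤ exp (N : ℤ) := by
    refine ⟨(log r).toNat, ?_⟩
    rw [← exp_log hr, exp_le_exp]
    exact Int.self_le_toNat (log r)
  have hstep : ∀ n, v (f (n + N + 1) - f (n + N)) ≤ exp (-(n : ℤ)) := by
    intro n
    refine (hf (n + N)).trans ?_
    calc v π ^ (n + N) * r ≤ exp (-((n + N : ℕ) : ℤ)) * exp (N : ℤ) :=
          mul_le_mul' (D.vpow _) hN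
      _ = exp (-(n : ℤ)) := by rw [← exp_add]; congr 1; push_cast; ring
  obtain ⟨l, hl⟩ := D.complete (fun n => f (n + N)) (fun n => by
    have := hstep n
    have e1 : n + 1 + N = n + N + 1 := by ring
    show v (f (n + 1 + N) - f (n + N)) ≤ _
    rw [e1]; exact this)
  refine ⟨l, fun n => ?_⟩
  -- distance of later terms
  have hd : ∀ m, v (f (n + m) - f n) ≤ v π ^ n * r := by
    intro m
    induction m with
    | zero => simp
    | succ m ih =>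
      have e1 : f (n + (m + 1)) - f n = (f (n + m + 1) - f (n + m)) + (f (n + m) - f n) := by
        rw [← add_assoc]; ring
      rw [e1]
      refine v.map_add_le ((hf (n + m)).trans ?_) ih
      refine mul_le_mul' ?_ le_rfl
      exact pow_le_pow_right_of_le_one' D.π1.le (Nat.le_add_right n m)
  have hpos : v π ^ n * r ≠ 0 := mul_ne_zero (pow_ne_zero _ D.vπ0) hr
  obtain ⟨M, hM⟩ : ∃ M : ℕ, exp (-(M : ℤ)) ≤ v π ^ n * r := by
    refine ⟨(-log (v π ^ n * r)).toNat, ?_⟩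
    conv_rhs => rw [← exp_log hpos]
    rw [exp_le_exp]
    have := Int.self_le_toNat (-log (v π ^ n * r))
    omega
  have h1 : v (l - f (M + n + N)) ≤ v π ^ n * r := by
    refine (hl (M + n)).trans ?_
    refine le_trans ?_ hM
    rw [exp_le_exp]; push_cast; omega
  have h2 : v (f (M + n + N) - f n) ≤ v π ^ n * r := by
    have e1 : M + n + N = n + (M + N) := by ring
    rw [e1]; exact hd _
  have e2 : l - f n = (l - f (M + n + N)) + (f (M + n + N) - f n) := by ring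
  rw [e2]
  exact v.map_add_le h1 h2

theorem tr_le (x : L) {r : ℤᵐ⁰} (h : v x ≤ r) : v (tr3 σ x) ≤ r := by
  have h1 : v (σ x) ≤ r := by rw [D.vσ]; exact h
  have h2 : v (σ (σ x)) ≤ r := by rw [D.vσ, D.vσ]; exact h
  exact v.map_add_le (v.map_add_le h h1) h2

theorem fixed_mem_Lat {q : L} {r : ℤᵐ⁰} (hq : σ q = q) (h : v q ≤ r) : q ∈ Lat v σ e r := by
  refine ⟨?_, ?_, ?_⟩ <;> rw [tr3_mul_fixed σ hq]
  · rw [D.Te, one_mul]; exact h
  · rw [D.T1, one_mul]; exact h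
  · rw [D.T2, one_mul]; exact h

theorem fixed_mem_Lat_iff {q : L} {r : ℤᵐ⁰} (hq : σ q = q) : q ∈ Lat v σ e r ↔ v q ≤ r := by
  refine ⟨fun h => ?_, D.fixed_mem_Lat hq⟩
  have := h.1
  rwa [tr3_mul_fixed σ hq, D.Te, one_mul] at this

theorem Lat_fixed_mul {q x : L} {r : ℤᵐ⁰} (hq : σ q = q) (h : x ∈ Lat v σ e r) :
    q * x ∈ Lat v σ e (v q * r) := by
  have key : ∀ u : L, tr3 σ (u * (q * x)) = q * tr3 σ (u * x) := by
    intro u
    rw [← tr3_fixed_mul σ hq]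
    congr 1; ring
  refine ⟨?_, ?_, ?_⟩ <;> rw [key, map_mul]
  · exact mul_le_mul' le_rfl h.1
  · exact mul_le_mul' le_rfl h.2.1
  · exact mul_le_mul' le_rfl h.2.2

omit D in
theorem Lat_mono {r r' : ℤᵐ⁰} (hr : r ≤ r') : Lat v σ e r ≤ Lat v σ e r' :=
  fun _ h => ⟨h.1.trans hr, h.2.1.trans hr, h.2.2.trans hr⟩

/-- products in the lattices -/
theorem Lat_mul {x y : L} {r r' : ℤᵐ⁰} (hx : x ∈ Lat v σ e r) (hy : y ∈ Lat v σ e r') :
    x * y ∈ Lat v σ e (κ * (r * r')) := by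
  have key : ∀ k : ℕ, v (tr3 σ ((σ^[k] e) * (x * y))) ≤ κ * (r * r') := by
    intro k
    set x0 := tr3 σ (e * x)
    set x1 := tr3 σ (σ e * x)
    set x2 := tr3 σ (σ (σ e) * x)
    set y0 := tr3 σ (e * y)
    set y1 := tr3 σ (σ e * y)
    set y2 := tr3 σ (σ (σ e) * y)
    have hx0 : σ x0 = x0 := s_tr3 σ D.s3 _
    have hx1 : σ x1 = x1 := s_tr3 σ D.s3 _
    have hx2 : σ x2 = x2 := s_tr3 σ D.s3 _
    have hy0 : σ y0 = y0 := s_tr3 σ D.s3 _
    have hy1 : σ y1 = y1 := s_tr3 σ D.s3 _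
    have hy2 : σ y2 = y2 := s_tr3 σ D.s3 _
    have dx : x = e * x0 + σ e * x1 + σ (σ e) * x2 := (D.decomp x).symm
    have dy : y = e * y0 + σ e * y1 + σ (σ e) * y2 := (D.decomp y).symm
    -- one term
    have term : ∀ (i j : ℕ) (p q : L), σ p = p → σ q = q → v p ≤ r → v q ≤ r' →
        v (tr3 σ ((σ^[k] e) * ((σ^[i] e * p) * (σ^[j] e * q)))) ≤ κ * (r * r') := by
      intro i j p q hp hq hvp hvq
      have e1 : (σ^[k] e) * ((σ^[i] e * p) * (σ^[j] e * q)) =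
          ((σ^[k] e) * (σ^[i] e) * (σ^[j] e)) * (p * q) := by ring
      have hpq : σ (p * q) = p * q := by rw [map_mul, hp, hq]
      rw [e1, tr3_mul_fixed σ hpq, map_mul, map_mul]
      exact mul_le_mul' (D.str k i j) (mul_le_mul' hvp hvq)
    have expand : (σ^[k] e) * (x * y) =
        (σ^[k] e) * ((σ^[0] e * x0) * (σ^[0] e * y0)) +
        (σ^[k] e) * ((σ^[0] e * x0) * (σ^[1] e * y1)) +
        (σ^[k] e) * ((σ^[0] e * x0) * (σ^[2] e * y2)) +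
        (σ^[k] e) * ((σ^[1] e * x1) * (σ^[0] e * y0)) +
        (σ^[k] e) * ((σ^[1] e * x1) * (σ^[1] e * y1)) +
        (σ^[k] e) * ((σ^[1] e * x1) * (σ^[2] e * y2)) +
        (σ^[k] e) * ((σ^[2] e * x2) * (σ^[0] e * y0)) +
        (σ^[k] e) * ((σ^[2] e * x2) * (σ^[1] e * y1)) +
        (σ^[k] e) * ((σ^[2] e * x2) * (σ^[2] e * y2)) := by
      conv_lhs => rw [dx, dy]
      simp only [Function.iterate_zero, Function.iterate_succ, Function.comp, id]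
      ring
    rw [expand]
    simp only [tr3_add]
    refine v.map_add_le (v.map_add_le (v.map_add_le (v.map_add_le (v.map_add_le (v.map_add_le
      (v.map_add_le (v.map_add_le ?_ ?_) ?_) ?_) ?_) ?_) ?_) ?_) ?_
    · exact term 0 0 _ _ hx0 hy0 hx.1 hy.1
    · exact term 0 1 _ _ hx0 hy1 hx.1 hy.2.1
    · exact term 0 2 _ _ hx0 hy2 hx.1 hy.2.2
    · exact term 1 0 _ _ hx1 hy0 hx.2.1 hy.1
    · exact term 1 1 _ _ hx1 hy1 hx.2.1 hy.2.1
    · exact term 1 2 _ _ hx1 hy2 hx.2.1 hy.2.2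
    · exact term 2 0 _ _ hx2 hy0 hx.2.2 hy.1
    · exact term 2 1 _ _ hx2 hy1 hx.2.2 hy.2.1
    · exact term 2 2 _ _ hx2 hy2 hx.2.2 hy.2.2
  exact ⟨key 0, key 1, key 2⟩

end VD

/-! ## The datum over `L` -/

/-- fixed elements of radius `r` -/
def QL (v : Valuation L ℤᵐ⁰) (σ : L ≃+* L) (r : ℤᵐ⁰) : AddSubgroup L where
  carrier := {q | σ q = q ∧ v q ≤ r}
  zero_mem' := by simp
  add_mem' := by
    rintro x y ⟨h1, h2⟩ ⟨h1', h2'⟩
    exact ⟨by rw [map_add, h1, h1'], v.map_add_le h2 h2'⟩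
  neg_mem' := by
    rintro x ⟨h1, h2⟩
    exact ⟨by rw [map_neg, h1], by rw [Valuation.map_neg]; exact h2⟩

theorem mem_QL {v : Valuation L ℤᵐ⁰} {σ : L ≃+* L} {r : ℤᵐ⁰} {x : L} :
    x ∈ QL v σ r ↔ σ x = x ∧ v x ≤ r := Iff.rfl

namespace VD

variable {v : Valuation L ℤᵐ⁰} {σ : L ≃+* L} {e π : L} {κ a b c : ℤᵐ⁰}
  (D : VD v σ e π κ a b c)

include D

theorem mem_PP_QL {x : L} {r : ℤᵐ⁰} : x ∈ PP σ e (QL v σ r) ↔ x ∈ Lat v σ e r := by
  constructor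
  · rintro ⟨⟨-, h0⟩, ⟨-, h1⟩, ⟨-, h2⟩⟩
    exact ⟨h0, h1, h2⟩
  · rintro ⟨h0, h1, h2⟩
    exact ⟨⟨s_tr3 σ D.s3 _, h0⟩, ⟨s_tr3 σ D.s3 _, h1⟩, ⟨s_tr3 σ D.s3 _, h2⟩⟩

theorem limit_fixed {l : L} {f : ℕ → L} {r : ℤᵐ⁰} (hf : ∀ n, σ (f n) = f n)
    (hl : ∀ n, v (l - f n) ≤ v π ^ n * r) : σ l = l := by
  have : σ l - l = 0 := by
    refine eq_zero_of_forall_le (v := v) (C := r) fun n => ?_
    have e1 : σ l - l = σ (l - f n) - (l - f n) := by rw [map_sub, hf]; ring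
    rw [e1]
    refine v.map_sub_le ?_ ?_
    · rw [D.vσ]; exact (hl n).trans (mul_le_mul' (D.vpow n) le_rfl)
    · exact (hl n).trans (mul_le_mul' (D.vpow n) le_rfl)
  exact sub_eq_zero.1 this

theorem πpow_ne (n : ℕ) : π ^ n ≠ 0 := pow_ne_zero n D.π0

theorem σπpow (n : ℕ) : σ (π ^ n) = π ^ n := by rw [map_pow, D.sπ]

/-- `QL r` is complete. -/
theorem cQL {r : ℤᵐ⁰} (hr : r ≠ 0) : Compl π (QL v σ r) where
  piC x := Commute.all _ _
  reg x h := by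
    rcases mul_eq_zero.1 h with h | h
    · exact absurd h D.π0
    · exact h
  piM x hx := ⟨by rw [map_mul, D.sπ, hx.1], by
    rw [map_mul]
    calc v π * v x ≤ 1 * r := mul_le_mul' D.π1.le hx.2
      _ = r := one_mul r⟩
  lim f hf hc := by
    obtain ⟨l, hl⟩ := D.lim_scale hr f (fun n => by
      obtain ⟨z, hz, h⟩ := hc n
      rw [h, map_mul, map_pow]
      exact mul_le_mul' le_rfl hz.2)
    have hσl := D.limit_fixed (fun n => (hf n).1) hl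
    have hvl : v l ≤ r := by
      have e1 : l = (l - f 0) + f 0 := by ring
      rw [e1]
      refine v.map_add_le ?_ (hf 0).2
      have := hl 0
      rwa [pow_zero, one_mul] at this
    refine ⟨l, ⟨hσl, hvl⟩, fun n => ⟨(π ^ n)⁻¹ * (l - f n), ⟨?_, ?_⟩, ?_⟩⟩
    · rw [map_mul, map_inv₀, D.σπpow, map_sub, hσl, (hf n).1]
    · rw [map_mul, map_inv₀, map_pow]
      have h0 : v π ^ n ≠ 0 := pow_ne_zero _ D.vπ0
      calc (v π ^ n)⁻¹ * v (l - f n) ≤ (v π ^ n)⁻¹ * (v π ^ n * r) := mul_le_mul' le_rfl (hl n)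
        _ = r := by rw [← mul_assoc, inv_mul_cancel₀ h0, one_mul]
    · rw [← mul_assoc, mul_inv_cancel₀ (D.πpow_ne n), one_mul]
  sep x hx h := by
    refine eq_zero_of_forall_le (v := v) (C := r) fun n => ?_
    obtain ⟨z, hz, h'⟩ := h n
    rw [h', map_mul, map_pow]
    exact mul_le_mul' (D.vpow n) hz.2

/-- division by `π` in the lattices -/
theorem Lat_div {x : L} {r r' : ℤᵐ⁰} (hx : x ∈ Lat v σ e r) (h : r ≤ v π * r') :
    π⁻¹ * x ∈ Lat v σ e r' := by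
  have h1 := D.Lat_fixed_mul (q := π⁻¹) (by rw [map_inv₀, D.sπ]) hx
  refine Lat_mono ?_ h1
  rw [map_inv₀]
  calc (v π)⁻¹ * r ≤ (v π)⁻¹ * (v π * r') := mul_le_mul' le_rfl h
    _ = r' := by rw [← mul_assoc, inv_mul_cancel₀ D.vπ0, one_mul]

/-- The commutative datum. -/
theorem datL : Dat σ e π (QL v σ a) where
  toNb := D.toNb
  sπ := D.sπ
  fixQ q hq := hq.1
  cQ := D.cQL D.a0
  mulP x hx y hy := by
    rw [D.mem_PP_QL] at hx hy
    refine ⟨π⁻¹ * (x * y), D.mem_PP_QL.2 (D.Lat_div (D.Lat_mul hx hy) ?_), ?_⟩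
    · calc κ * (a * a) = (κ * a) * a := by rw [mul_assoc]
        _ ≤ v π * a := mul_le_mul' D.κa le_rfl
    · rw [← mul_assoc, mul_inv_cancel₀ D.π0, one_mul]

end VD

/-! ## Matrices -/

/-- the matrix ring -/
abbrev Mt (L : Type*) := Matrix (Fin 2) (Fin 2) L

/-- the automorphism of the matrix ring -/
abbrev sM (σ : L ≃+* L) : Mt L ≃+* Mt L := σ.mapMatrix

theorem sM_apply (σ : L ≃+* L) (x : Mt L) (i j : Fin 2) : sM σ x i j = σ (x i j) := rfl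

/-- scalar matrices -/
abbrev sc (x : L) : Mt L := algebraMap L (Mt L) x

theorem sc_mul_apply (x : L) (m : Mt L) (i j : Fin 2) : (sc x * m) i j = x * m i j := by
  rw [← Algebra.smul_def]; rfl

theorem sc_apply (x : L) (i j : Fin 2) : (sc x : Mt L) i j = if i = j then x else 0 :=
  Matrix.algebraMap_matrix_apply

theorem sM_sc (σ : L ≃+* L) (x : L) : sM σ (sc x) = sc (σ x) := by
  ext i j
  rw [sM_apply, sc_apply, sc_apply]
  split_ifs <;> simp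

theorem sc_pow (x : L) (n : ℕ) : (sc x : Mt L) ^ n = sc (x ^ n) :=
  (map_pow (algebraMap L (Mt L)) x n).symm

theorem tr3_sc_mul (σ : L ≃+* L) (x : L) (m : Mt L) (i j : Fin 2) :
    tr3 (sM σ) (sc x * m) i j = tr3 σ (x * m i j) := by
  simp only [tr3, Matrix.add_apply, sM_apply, sc_mul_apply]

/-- matrices with entries fixed and bounded by `a, b, c, a` -/
def QM (v : Valuation L ℤᵐ⁰) (σ : L ≃+* L) (a b c : ℤᵐ⁰) : AddSubgroup (Mt L) where
  carrier := {q | q 0 0 ∈ QL v σ a ∧ q 0 1 ∈ QL v σ b ∧ q 1 0 ∈ QL v σ c ∧ q 1 1 ∈ QL v σ a}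
  zero_mem' := ⟨zero_mem _, zero_mem _, zero_mem _, zero_mem _⟩
  add_mem' := by
    rintro x y ⟨h1, h2, h3, h4⟩ ⟨k1, k2, k3, k4⟩
    exact ⟨add_mem h1 k1, add_mem h2 k2, add_mem h3 k3, add_mem h4 k4⟩
  neg_mem' := by
    rintro x ⟨h1, h2, h3, h4⟩
    exact ⟨neg_mem h1, neg_mem h2, neg_mem h3, neg_mem h4⟩

theorem mem_QM {v : Valuation L ℤᵐ⁰} {σ : L ≃+* L} {a b c : ℤᵐ⁰} {q : Mt L} :
    q ∈ QM v σ a b c ↔ q 0 0 ∈ QL v σ a ∧ q 0 1 ∈ QL v σ b ∧ q 1 0 ∈ QL v σ c ∧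
      q 1 1 ∈ QL v σ a := Iff.rfl

theorem sM_fixed_iff {σ : L ≃+* L} {q : Mt L} : sM σ q = q ↔ ∀ i j, σ (q i j) = q i j := by
  constructor
  · intro h i j
    have := congrFun (congrFun h i) j
    rwa [sM_apply] at this
  · intro h
    ext i j
    rw [sM_apply]; exact h i j

theorem QM_fixed {v : Valuation L ℤᵐ⁰} {σ : L ≃+* L} {a b c : ℤᵐ⁰} {q : Mt L}
    (hq : q ∈ QM v σ a b c) : sM σ q = q := by
  rw [sM_fixed_iff]
  intro i j
  fin_cases i <;> fin_cases j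
  · exact hq.1.1
  · exact hq.2.1.1
  · exact hq.2.2.1.1
  · exact hq.2.2.2.1

namespace VD

variable {v : Valuation L ℤᵐ⁰} {σ : L ≃+* L} {e π : L} {κ a b c : ℤᵐ⁰}
  (D : VD v σ e π κ a b c)

include D

theorem nbM : Nb (sM σ) (sc e) where
  s3 x := by
    ext i j
    rw [sM_apply, sM_apply, sM_apply]; exact D.s3 _
  eC x := Algebra.commute_algebraMap_left e x
  t0 := by
    have h := congrArg sc D.t0
    simpa only [map_add, map_mul, map_one, sM_sc] using h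
  t1 := by
    have h := congrArg sc D.t1
    simpa only [map_add, map_mul, map_zero, sM_sc] using h
  tr := by
    have h := congrArg sc D.tr
    simpa only [map_add, map_one, sM_sc] using h

theorem mem_PP_QM {x : Mt L} : x ∈ PP (sM σ) (sc e) (QM v σ a b c) ↔
    x 0 0 ∈ Lat v σ e a ∧ x 0 1 ∈ Lat v σ e b ∧ x 1 0 ∈ Lat v σ e c ∧ x 1 1 ∈ Lat v σ e a := by
  have key : ∀ (y : L), (tr3 (sM σ) (sc y * x) ∈ QM v σ a b c ↔
      v (tr3 σ (y * x 0 0)) ≤ a ∧ v (tr3 σ (y * x 0 1)) ≤ b ∧ v (tr3 σ (y * x 1 0)) ≤ c ∧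
      v (tr3 σ (y * x 1 1)) ≤ a) := by
    intro y
    rw [mem_QM]
    simp only [tr3_sc_mul, mem_QL, s_tr3 σ D.s3, true_and]
  constructor
  · rintro ⟨h0, h1, h2⟩
    rw [sM_sc] at h1
    rw [sM_sc, sM_sc] at h2
    rw [key] at h0 h1 h2
    exact ⟨⟨h0.1, h1.1, h2.1⟩, ⟨h0.2.1, h1.2.1, h2.2.1⟩, ⟨h0.2.2.1, h1.2.2.1, h2.2.2.1⟩,
      ⟨h0.2.2.2, h1.2.2.2, h2.2.2.2⟩⟩
  · rintro ⟨h0, h1, h2, h3⟩
    refine ⟨?_, ?_, ?_⟩
    · rw [key]; exact ⟨h0.1, h1.1, h2.1, h3.1⟩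
    · rw [sM_sc, key]; exact ⟨h0.2.1, h1.2.1, h2.2.1, h3.2.1⟩
    · rw [sM_sc, sM_sc, key]; exact ⟨h0.2.2, h1.2.2, h2.2.2, h3.2.2⟩

theorem cQM : Compl (sc π) (QM v σ a b c) := by
  have ca := D.cQL D.a0
  have cb := D.cQL D.b0
  have cc := D.cQL D.c0
  have hpow : ∀ (n : ℕ) (m : Mt L) (i j : Fin 2), (sc π ^ n * m) i j = π ^ n * m i j := by
    intro n m i j
    rw [sc_pow, sc_mul_apply]
  refine { piC := fun x => Algebra.commute_algebraMap_left π x, reg := ?_, piM := ?_, lim := ?_,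
           sep := ?_ }
  · intro x h
    ext i j
    have := congrFun (congrFun h i) j
    rw [sc_mul_apply] at this
    rcases mul_eq_zero.1 this with h | h
    · exact absurd h D.π0
    · exact h
  · intro x hx
    refine ⟨?_, ?_, ?_, ?_⟩ <;> rw [sc_mul_apply]
    · exact ca.piM _ hx.1
    · exact cb.piM _ hx.2.1
    · exact cc.piM _ hx.2.2.1
    · exact ca.piM _ hx.2.2.2
  · intro f hf hc
    have hcl : ∀ (i j : Fin 2) (M : AddSubgroup L),
        (∀ q ∈ QM v σ a b c, q i j ∈ M) → ∀ n, Cl π M n (f (n + 1) i j) (f n i j) := by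
      intro i j M hM n
      obtain ⟨z, hz, h⟩ := hc n
      refine ⟨z i j, hM z hz, ?_⟩
      rw [← hpow, ← h]; rfl
    obtain ⟨l00, m00, h00⟩ := ca.lim (fun n => f n 0 0) (fun n => (hf n).1)
      (hcl 0 0 _ fun q hq => hq.1)
    obtain ⟨l01, m01, h01⟩ := cb.lim (fun n => f n 0 1) (fun n => (hf n).2.1)
      (hcl 0 1 _ fun q hq => hq.2.1)
    obtain ⟨l10, m10, h10⟩ := cc.lim (fun n => f n 1 0) (fun n => (hf n).2.2.1)
      (hcl 1 0 _ fun q hq => hq.2.2.1)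
    obtain ⟨l11, m11, h11⟩ := ca.lim (fun n => f n 1 1) (fun n => (hf n).2.2.2)
      (hcl 1 1 _ fun q hq => hq.2.2.2)
    refine ⟨!![l00, l01; l10, l11], ⟨m00, m01, m10, m11⟩, ?_⟩
    intro n
    obtain ⟨z00, k00, e00⟩ := h00 n
    obtain ⟨z01, k01, e01⟩ := h01 n
    obtain ⟨z10, k10, e10⟩ := h10 n
    obtain ⟨z11, k11, e11⟩ := h11 n
    refine ⟨!![z00, z01; z10, z11], ⟨k00, k01, k10, k11⟩, ?_⟩
    ext i j
    rw [hpow]
    fin_cases i <;> fin_cases j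
    · exact e00
    · exact e01
    · exact e10
    · exact e11
  · intro x hx h
    have hz : ∀ (i j : Fin 2) (M : AddSubgroup L),
        (∀ q ∈ QM v σ a b c, q i j ∈ M) → ∀ n, ∃ z ∈ M, x i j = π ^ n * z := by
      intro i j M hM n
      obtain ⟨z, hz, h'⟩ := h n
      refine ⟨z i j, hM z hz, ?_⟩
      rw [← hpow, ← h']
    ext i j
    fin_cases i <;> fin_cases j
    · exact ca.sep _ hx.1 (hz 0 0 _ fun q hq => hq.1)
    · exact cb.sep _ hx.2.1 (hz 0 1 _ fun q hq => hq.2.1)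
    · exact cc.sep _ hx.2.2.1 (hz 1 0 _ fun q hq => hq.2.2.1)
    · exact ca.sep _ hx.2.2.2 (hz 1 1 _ fun q hq => hq.2.2.2)

theorem κbc : κ * (b * c) ≤ v π * a := by
  calc κ * (b * c) ≤ κ * (a * a) := mul_le_mul' le_rfl D.bc
    _ = (κ * a) * a := by rw [mul_assoc]
    _ ≤ v π * a := mul_le_mul' D.κa le_rfl

/-- The matrix datum. -/
theorem datM : Dat (sM σ) (sc e) (sc π) (QM v σ a b c) where
  toNb := D.nbM
  sπ := by rw [sM_sc, D.sπ]
  fixQ q hq := QM_fixed hq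
  cQ := D.cQM
  mulP x hx y hy := by
    rw [D.mem_PP_QM] at hx hy
    obtain ⟨x00, x01, x10, x11⟩ := hx
    obtain ⟨y00, y01, y10, y11⟩ := hy
    have kaa : κ * (a * a) ≤ v π * a := by
      rw [← mul_assoc]; exact mul_le_mul' D.κa le_rfl
    have kab : κ * (a * b) ≤ v π * b := by
      rw [← mul_assoc]; exact mul_le_mul' D.κa le_rfl
    have kba : κ * (b * a) ≤ v π * b := by rw [mul_comm b a]; exact kab
    have kca : κ * (c * a) ≤ v π * c := by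
      rw [mul_comm c a, ← mul_assoc]; exact mul_le_mul' D.κa le_rfl
    have kac : κ * (a * c) ≤ v π * c := by
      rw [← mul_assoc]; exact mul_le_mul' D.κa le_rfl
    have kcb : κ * (c * b) ≤ v π * a := by rw [mul_comm c b]; exact D.κbc
    have hprod : ∀ i j, (sc π⁻¹ * (x * y)) i j =
        π⁻¹ * (x i 0 * y 0 j) + π⁻¹ * (x i 1 * y 1 j) := by
      intro i j
      rw [sc_mul_apply, Matrix.mul_apply, Fin.sum_univ_two, mul_add]
    refine ⟨sc π⁻¹ * (x * y), D.mem_PP_QM.2 ⟨?_, ?_, ?_, ?_⟩, ?_⟩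
    · rw [hprod]
      exact add_mem (D.Lat_div (D.Lat_mul x00 y00) kaa) (D.Lat_div (D.Lat_mul x01 y10) D.κbc)
    · rw [hprod]
      exact add_mem (D.Lat_div (D.Lat_mul x00 y01) kab) (D.Lat_div (D.Lat_mul x01 y11) kba)
    · rw [hprod]
      exact add_mem (D.Lat_div (D.Lat_mul x10 y00) kca) (D.Lat_div (D.Lat_mul x11 y10) kac)
    · rw [hprod]
      exact add_mem (D.Lat_div (D.Lat_mul x10 y01) kcb) (D.Lat_div (D.Lat_mul x11 y11) kaa)
    · rw [← mul_assoc, ← map_mul, mul_inv_cancel₀ D.π0, map_one, one_mul]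

end VD

end Fermat.Agent.H43Z3
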