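import Fermat.Agent.H43Z1
import Fermat.Agent.H43Z3
import Fermat.Agent.H20S1

/-!
# C13, part 4: the local theorem in `PGL(2, L)`
-/

set_option autoImplicit false
set_option linter.unusedSectionVars false

namespace Fermat.Agent.H43Z4

open Fermat.Agent.H43Z1 Fermat.Agent.H43Z2 Fermat.Agent.H43Z3 Matrix WithZero
open scoped MatrixGroups

variable {L : Type*} [Field L]

/-- the automorphism of `GL₂` -/
abbrev sG (σ : L ≃+* L) : GL (Fin 2) L →* GL (Fin 2) L := GeneralLinearGroup.map (σ : L →+* L)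

/-- the automorphism of `PGL₂` -/
abbrev sP (σ : L ≃+* L) : PGL(2, L) →* PGL(2, L) := ProjGenLinGroup.map (σ : L →+* L)

theorem coe_sG (σ : L ≃+* L) (g : GL (Fin 2) L) : ((sG σ g : GL (Fin 2) L) : Mt L) = sM σ g := by
  ext i j; rfl

theorem sP_mk (σ : L ≃+* L) (g : GL (Fin 2) L) :
    sP σ (ProjGenLinGroup.mk g) = ProjGenLinGroup.mk (sG σ g) := rfl

theorem coe_scalar' (u : Lˣ) :
    ((GeneralLinearGroup.scalar (Fin 2) u : GL (Fin 2) L) : Mt L) = sc (u : L) := rfl

theorem sc_one : (sc (1 : L) : Mt L) = 1 := map_one (algebraMap L (Mt L))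

theorem sc_mul (x y : L) : (sc (x * y) : Mt L) = sc x * sc y := map_mul (algebraMap L (Mt L)) x y

theorem sc_comm (x : L) (m : Mt L) : sc x * m = m * sc x :=
  (Algebra.commute_algebraMap_left x m).eq

theorem sc_inj {x y : L} (h : (sc x : Mt L) = sc y) : x = y := by
  have h3 := congrFun (congrFun h 0) 0
  rw [sc_apply, sc_apply, if_pos rfl, if_pos rfl] at h3
  exact h3

theorem sG3 {σ : L ≃+* L} (h3 : ∀ x, σ (σ (σ x)) = x) (g : GL (Fin 2) L) :
    sG σ (sG σ (sG σ g)) = g := by
  apply Units.ext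
  rw [coe_sG, coe_sG, coe_sG]
  ext i j
  rw [sM_apply, sM_apply, sM_apply, h3]

theorem sP3 {σ : L ≃+* L} (h3 : ∀ x, σ (σ (σ x)) = x) (g : PGL(2, L)) :
    sP σ (sP σ (sP σ g)) = g := by
  obtain ⟨g, rfl⟩ := ProjGenLinGroup.mk_surjective g
  rw [sP_mk, sP_mk, sP_mk, sG3 h3]

theorem nm_mk (σ : L ≃+* L) (g : GL (Fin 2) L) :
    nm (sP σ) (ProjGenLinGroup.mk g) = ProjGenLinGroup.mk (nm (sG σ) g) := by
  simp only [nm, sP_mk, map_mul]

/-- the norm of a normal form -/
theorem nm_val {σ : L ≃+* L} {E : Mt L} (N : Nb (sM σ) E) {x : Mt L} (hx : sM σ x = x)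
    {η : GL (Fin 2) L} (hη : (η : Mt L) = 1 + E * x) :
    ((nm (sG σ) η : GL (Fin 2) L) : Mt L) =
      1 + (x + E * sM σ E * sM σ (sM σ E) * (x * x * x)) := by
  rw [← N.norm_one_add hx]
  simp only [nm, Units.val_mul, coe_sG, hη]

/-! ## Hilbert 90 -/

/-- Hilbert 90 for the field. -/
theorem h90 {σ : L ≃+* L} {e : L} (N : Nb σ e) {z : L} (hz : z * σ z * σ (σ z) = 1) :
    ∃ u : L, u ≠ 0 ∧ z * σ u = u := by
  let t : L → L := fun b => b + z * σ b + z * σ z * σ (σ b)
  have ht : ∀ b, z * σ (t b) = t b := by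
    intro b
    show z * σ (b + z * σ b + z * σ z * σ (σ b)) = b + z * σ b + z * σ z * σ (σ b)
    simp only [map_add, map_mul, N.s3]
    linear_combination b * hz
  have hsum : e * t e + σ e * t (σ e) + σ (σ e) * t (σ (σ e)) = 1 := by
    show e * (e + z * σ e + z * σ z * σ (σ e)) +
      σ e * (σ e + z * σ (σ e) + z * σ z * σ (σ (σ e))) +
      σ (σ e) * (σ (σ e) + z * σ (σ (σ e)) + z * σ z * σ (σ (σ (σ e)))) = 1
    rw [N.s3]
    linear_combination N.t0 + (z + z * σ z) * N.t1
  by_contra hcon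
  push Not at hcon
  have h0 : ∀ b, t b = 0 := by
    intro b
    by_contra hb
    exact hcon (t b) hb (ht b)
  rw [h0, h0, h0] at hsum
  simp at hsum

theorem det_comb (T0 T1 T2 : Mt L) (x y z : L)
    (h0 : T0.det = 0) (h1 : T1.det = 0) (h2 : T2.det = 0)
    (h01 : (T0 + T1).det = 0) (h12 : (T1 + T2).det = 0) (h02 : (T0 + T2).det = 0) :
    (sc x * T0 + sc y * T1 + sc z * T2).det = 0 := by
  rw [det_fin_two] at *
  simp only [Matrix.add_apply, sc_mul_apply] at *
  linear_combination (x ^ 2 - x * y - x * z) * h0 + (y ^ 2 - x * y - y * z) * h1 +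
    (z ^ 2 - x * z - y * z) * h2 + x * y * h01 + y * z * h12 + x * z * h02

/-- Hilbert 90 for the centraliser of a fixed matrix. -/
theorem h90M {σ : L ≃+* L} {e : L} (NM : Nb (sM σ) (sc e)) {γ : Mt L}
    (hγ : sM σ γ = γ) {u : GL (Fin 2) L} (hu : Commute (u : Mt L) γ)
    (hN : nm (sG σ) u = 1) : ∃ t : GL (Fin 2) L, Commute (t : Mt L) γ ∧ u * sG σ t = t := by
  set s := sM σ with hs
  set U : Mt L := (u : Mt L) with hU
  have hNU : U * s U * s (s U) = 1 := by
    have := congrArg (fun g : GL (Fin 2) L => (g : Mt L)) hN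
    simpa only [nm, Units.val_mul, coe_sG, Units.val_one] using this
  let t : Mt L → Mt L := fun b => b + U * s b + U * s U * s (s b)
  have ht : ∀ b, U * s (t b) = t b := by
    intro b
    show U * s (b + U * s b + U * s U * s (s b)) = b + U * s b + U * s U * s (s b)
    simp only [map_add, map_mul, NM.s3]
    have : U * (s U * s (s U) * b) = b := by
      rw [← mul_assoc, ← mul_assoc, hNU, one_mul]
    rw [mul_add, mul_add, this]
    simp only [mul_assoc]
    abel
  have hsUγ : Commute (s U) γ := by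
    have := congrArg s hu.eq
    rw [map_mul, map_mul, hγ] at this
    exact this
  have htγ : ∀ b, (∀ x, Commute b x) → Commute (t b) γ := by
    intro b hb
    have h1 : Commute (s b) γ := by
      have := congrArg s (hb γ).eq
      rw [map_mul, map_mul, hγ] at this
      exact this
    have h2 : Commute (s (s b)) γ := by
      have := congrArg s h1.eq
      rw [map_mul, map_mul, hγ] at this
      exact this
    exact ((hb γ).add_left (hu.mul_left h1)).add_left ((hu.mul_left hsUγ).mul_left h2)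
  have hsum : sc e * t (sc e) + s (sc e) * t (s (sc e)) + s (s (sc e)) * t (s (s (sc e))) = 1 := by
    show sc e * (sc e + U * s (sc e) + U * s U * s (s (sc e))) +
      s (sc e) * (s (sc e) + U * s (s (sc e)) + U * s U * s (s (s (sc e)))) +
      s (s (sc e)) * (s (s (sc e)) + U * s (s (s (sc e))) + U * s U * s (s (s (s (sc e))))) = 1
    rw [NM.s3]
    set e0 := sc e with he0
    set e1 := s e0 with he1
    set e2 := s e1 with he2
    have c0 : ∀ x, e0 * x = x * e0 := fun x => (NM.eC x).eq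
    have c1 : ∀ x, e1 * x = x * e1 := fun x => (NM.eC1 x).eq
    have c2 : ∀ x, e2 * x = x * e2 := fun x => (NM.eC2 x).eq
    have t0 : e0 * e0 + e1 * e1 + e2 * e2 = 1 := NM.t0
    have t1 : e0 * e1 + e1 * e2 + e2 * e0 = 0 := NM.t1
    calc e0 * (e0 + U * e1 + U * s U * e2) + e1 * (e1 + U * e2 + U * s U * e0) +
          e2 * (e2 + U * e0 + U * s U * e1)
        = (e0 * e0 + e1 * e1 + e2 * e2) + (e0 * (U * e1) + e1 * (U * e2) + e2 * (U * e0)) +
          (e0 * (U * s U * e2) + e1 * (U * s U * e0) + e2 * (U * s U * e1)) := by noncomm_ring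
      _ = 1 + U * (e0 * e1 + e1 * e2 + e2 * e0) + U * s U * (e0 * e1 + e1 * e2 + e2 * e0) := by
          rw [t0, ← mul_assoc e0 U e1, c0 U, ← mul_assoc e1 U e2, c1 U, ← mul_assoc e2 U e0, c2 U,
            ← mul_assoc e0 (U * s U) e2, c0 (U * s U), ← mul_assoc e1 (U * s U) e0, c1 (U * s U),
            ← mul_assoc e2 (U * s U) e1, c2 (U * s U)]
          have k1 : e0 * e2 = e2 * e0 := c0 e2
          have k2 : e1 * e0 = e0 * e1 := c1 e0
          have k3 : e2 * e1 = e1 * e2 := c2 e1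
          simp only [mul_assoc, k1, k2, k3]
          noncomm_ring
      _ = 1 := by rw [t1]; simp
  -- find an invertible combination
  have hex : ∃ T : Mt L, T.det ≠ 0 ∧ U * s T = T ∧ Commute T γ := by
    by_contra hcon
    push Not at hcon
    set T0 := t (sc e)
    set T1 := t (s (sc e))
    set T2 := t (s (s (sc e)))
    have g0 : U * s T0 = T0 := ht _
    have g1 : U * s T1 = T1 := ht _
    have g2 : U * s T2 = T2 := ht _
    have k0 : Commute T0 γ := htγ _ NM.eC
    have k1 : Commute T1 γ := htγ _ NM.eC1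
    have k2 : Commute T2 γ := htγ _ NM.eC2
    have hz : ∀ T, U * s T = T → Commute T γ → T.det = 0 := by
      intro T h1 h2
      by_contra h3
      exact hcon T h3 h1 h2
    have hadd : ∀ S T, U * s S = S → U * s T = T → U * s (S + T) = S + T := by
      intro S T h1 h2
      rw [map_add, mul_add, h1, h2]
    have hdet := det_comb T0 T1 T2 e (σ e) (σ (σ e)) (hz _ g0 k0) (hz _ g1 k1) (hz _ g2 k2)
      (hz _ (hadd _ _ g0 g1) (k0.add_left k1)) (hz _ (hadd _ _ g1 g2) (k1.add_left k2))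
      (hz _ (hadd _ _ g0 g2) (k0.add_left k2))
    rw [← sM_sc, ← sM_sc, ← sM_sc, hsum, det_one] at hdet
    exact one_ne_zero hdet
  obtain ⟨T, hT0, hT1, hT2⟩ := hex
  refine ⟨GeneralLinearGroup.mkOfDetNeZero T hT0, hT2, ?_⟩
  apply Units.ext
  rw [Units.val_mul, coe_sG]
  exact hT1

/-! ## Centralisers -/

/-- a lift of an element with commutative centraliser in `PGL₂` -/
structure Good (γ : GL (Fin 2) L) : Prop where
  nonscalar : ∀ x : L, (γ : Mt L) ≠ x • 1
  tr0 : (γ : Mt L).trace ≠ 0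

theorem commute_lift {γ u : GL (Fin 2) L} (hγ : (γ : Mt L).trace ≠ 0)
    (h : Commute (ProjGenLinGroup.mk u) (ProjGenLinGroup.mk γ)) :
    Commute (u : Mt L) (γ : Mt L) := by
  have h1 : ProjGenLinGroup.mk (u * γ) = ProjGenLinGroup.mk (γ * u) := by
    rw [map_mul, map_mul]; exact h.eq
  rw [ProjGenLinGroup.mk_eq_mk_iff] at h1
  obtain ⟨z, hz⟩ := h1
  have h2 : (u : Mt L) * γ * sc (z : L) = γ * u := by
    have := congrArg (fun g : GL (Fin 2) L => (g : Mt L)) hz
    simpa only [Units.val_mul, coe_scalar'] using this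
  have h3 : (z : L) = 1 := by
    have h4 : (γ : Mt L) * sc (z : L) = (↑u⁻¹ : Mt L) * (γ * u) := by
      rw [← h2, ← mul_assoc, ← mul_assoc, ← Units.val_mul, inv_mul_cancel, Units.val_one, one_mul]
    have h5 := congrArg Matrix.trace h4
    have h6 : ((↑u⁻¹ : Mt L) * (γ * u)).trace = (γ : Mt L).trace := by
      rw [Matrix.trace_mul_comm, mul_assoc, ← Units.val_mul, mul_inv_cancel, Units.val_one,
        mul_one]
    have h7 : ((γ : Mt L) * sc (z : L)).trace = (z : L) * (γ : Mt L).trace := by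
      rw [← (Algebra.commute_algebraMap_left (z : L) (γ : Mt L)).eq, ← Algebra.smul_def,
        Matrix.trace_smul, smul_eq_mul]
    rw [h6, h7] at h5
    exact mul_right_cancel₀ hγ (by rw [h5, one_mul])
  rw [h3, sc_one, mul_one] at h2
  exact h2

theorem good_comm {γ : GL (Fin 2) L} (hγ : Good γ) (x y : PGL(2, L))
    (hx : Commute x (ProjGenLinGroup.mk γ)) (hy : Commute y (ProjGenLinGroup.mk γ)) :
    Commute x y := by
  obtain ⟨x, rfl⟩ := ProjGenLinGroup.mk_surjective x
  obtain ⟨y, rfl⟩ := ProjGenLinGroup.mk_surjective y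
  obtain ⟨a, b, h1⟩ := Fermat.Agent.H20.S47.exists_lin_of_comm hγ.nonscalar
    (commute_lift hγ.tr0 hx).eq
  obtain ⟨a', b', h2⟩ := Fermat.Agent.H20.S47.exists_lin_of_comm hγ.nonscalar
    (commute_lift hγ.tr0 hy).eq
  have h3 : x * y = y * x := by
    apply Units.ext
    rw [Units.val_mul, Units.val_mul, h1, h2]
    simp only [Fermat.Agent.H20.S47.lin, add_mul, mul_add, smul_mul_smul_comm, one_mul, mul_one]
    rw [mul_comm a a', mul_comm a b', mul_comm b a', mul_comm b b']
    abel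
  show _ * _ = _ * _
  rw [← map_mul, ← map_mul, h3]

theorem good_H1 {σ : L ≃+* L} {e : L} (N : Nb σ e) (NM : Nb (sM σ) (sc e)) {γ : GL (Fin 2) L}
    (hγ : Good γ) (hσγ : sG σ γ = γ) (u : PGL(2, L)) (hu : Commute u (ProjGenLinGroup.mk γ))
    (hN : nm (sP σ) u = 1) :
    ∃ t, Commute t (ProjGenLinGroup.mk γ) ∧ u = t * (sP σ t)⁻¹ := by
  obtain ⟨u, rfl⟩ := ProjGenLinGroup.mk_surjective u
  have hc := commute_lift hγ.tr0 hu
  have hγM : sM σ (γ : Mt L) = γ := by rw [← coe_sG, hσγ]
  -- the norm is a scalar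
  rw [nm_mk, ← map_one ProjGenLinGroup.mk, eq_comm, ProjGenLinGroup.mk_eq_mk_iff] at hN
  obtain ⟨c, hc'⟩ := hN
  rw [one_mul] at hc'
  have hcu : ((nm (sG σ) u : GL (Fin 2) L) : Mt L) = sc (c : L) := by rw [← hc', coe_scalar']
  have hNu : (u : Mt L) * sM σ u * sM σ (sM σ u) = sc (c : L) := by
    rw [← hcu]; simp only [nm, Units.val_mul, coe_sG]
  -- c is fixed
  have hcfix : σ (c : L) = c := by
    have h1 : sG σ (nm (sG σ) u) = u⁻¹ * nm (sG σ) u * u := by
      simp only [nm, map_mul, sG3 N.s3]; group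
    have h2 := congrArg (fun g : GL (Fin 2) L => (g : Mt L)) h1
    simp only [coe_sG, Units.val_mul, hcu] at h2
    rw [sM_sc, ← sc_comm, mul_assoc,
      ← Units.val_mul, inv_mul_cancel, Units.val_one, mul_one] at h2
    exact sc_inj h2
  -- determinants
  have hdet : (u : Mt L).det * σ (u : Mt L).det * σ (σ (u : Mt L).det) = (c : L) * c := by
    have h1 := congrArg Matrix.det hNu
    have h2 : ∀ m : Mt L, (sM σ m).det = σ m.det := by
      intro m
      rw [det_fin_two, det_fin_two, sM_apply, sM_apply, sM_apply, sM_apply]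
      simp
    rw [det_mul, det_mul, h2, h2, h2] at h1
    rw [h1, det_fin_two]
    simp [sc_apply]
  have hd0 : (u : Mt L).det ≠ 0 := u.det.ne_zero
  -- adjust by a scalar
  let z : Lˣ := Units.mk0 ((u : Mt L).det / c) (div_ne_zero hd0 c.ne_zero)
  have hz : (z : L) * σ z * σ (σ z) * c = 1 := by
    show (u : Mt L).det / c * σ ((u : Mt L).det / c) * σ (σ ((u : Mt L).det / c)) * c = 1
    have e1 : σ ((u : Mt L).det / c) = σ (u : Mt L).det / c := by rw [map_div₀, hcfix]
    have e2 : σ (σ (u : Mt L).det / c) = σ (σ (u : Mt L).det) / c := by rw [map_div₀, hcfix]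
    rw [e1, e2]
    have hc0 : (c : L) ≠ 0 := c.ne_zero
    field_simp
    linear_combination hdet
  set u' := u * GeneralLinearGroup.scalar (Fin 2) z with hu'
  have hu'val : (u' : Mt L) = sc (z : L) * u := by
    rw [hu', Units.val_mul, coe_scalar', (Algebra.commute_algebraMap_left (z : L) (u : Mt L)).eq]
  have hN' : nm (sG σ) u' = 1 := by
    apply Units.ext
    simp only [nm, Units.val_mul, coe_sG, Units.val_one, hu'val, map_mul, sM_sc]
    have e1 : sc (z : L) * (u : Mt L) * (sc (σ z) * sM σ u) * (sc (σ (σ z)) * sM σ (sM σ u)) =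
        sc ((z : L) * σ z * σ (σ z)) * ((u : Mt L) * sM σ u * sM σ (sM σ u)) := by
      have k1 : (u : Mt L) * sc (σ z) = sc (σ z) * u :=
        (Algebra.commute_algebraMap_left (σ (z : L)) (u : Mt L)).eq.symm
      have k2 : (u : Mt L) * sM σ u * sc (σ (σ z)) = sc (σ (σ z)) * ((u : Mt L) * sM σ u) :=
        (Algebra.commute_algebraMap_left (σ (σ (z : L))) ((u : Mt L) * sM σ u)).eq.symm
      calc sc (z : L) * (u : Mt L) * (sc (σ z) * sM σ u) * (sc (σ (σ z)) * sM σ (sM σ u))
          = sc (z : L) * ((u : Mt L) * sc (σ z)) * sM σ u * sc (σ (σ z)) * sM σ (sM σ u) := by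
            simp only [mul_assoc]
        _ = sc (z : L) * sc (σ z) * ((u : Mt L) * sM σ u * sc (σ (σ z))) * sM σ (sM σ u) := by
            rw [k1]; simp only [mul_assoc]
        _ = _ := by rw [k2, sc_mul, sc_mul]; simp only [mul_assoc]
    rw [e1, hNu, ← sc_mul, hz, sc_one]
  have hcu' : Commute (u' : Mt L) (γ : Mt L) := by
    rw [hu'val]
    exact (Algebra.commute_algebraMap_left (z : L) (γ : Mt L)).mul_left hc
  obtain ⟨t, ht1, ht2⟩ := h90M NM hγM hcu' hN'
  refine ⟨ProjGenLinGroup.mk t, ?_, ?_⟩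
  · show _ * _ = _ * _
    rw [← map_mul, ← map_mul]
    congr 1
    apply Units.ext
    rw [Units.val_mul, Units.val_mul]; exact ht1.eq
  · have : ProjGenLinGroup.mk u' = ProjGenLinGroup.mk u := by
      rw [hu', map_mul, ProjGenLinGroup.mk_scalar, mul_one]
    rw [sP_mk, eq_mul_inv_iff_mul_eq, ← this, ← map_mul, ht2]

/-- an element of `PGL₂` fixed by `σ` has a fixed lift -/
theorem fixed_lift {σ : L ≃+* L} {e : L} (N : Nb σ e) (g : PGL(2, L)) (hg : sP σ g = g) :
    ∃ x : GL (Fin 2) L, ProjGenLinGroup.mk x = g ∧ sG σ x = x := by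
  obtain ⟨x, rfl⟩ := ProjGenLinGroup.mk_surjective g
  rw [sP_mk, eq_comm, ProjGenLinGroup.mk_eq_mk_iff] at hg
  obtain ⟨z, hz⟩ := hg
  -- `x * scalar z = sG σ x`
  have hsc : ∀ w : Lˣ, sG σ (GeneralLinearGroup.scalar (Fin 2) w) =
      GeneralLinearGroup.scalar (Fin 2) (Units.map (σ : L →* L) w) := by
    intro w
    apply Units.ext
    rw [coe_sG, coe_scalar', coe_scalar', sM_sc]; rfl
  have hN : (z : L) * σ z * σ (σ z) = 1 := by
    have a1 : sG σ x = x * GeneralLinearGroup.scalar (Fin 2) z := hz.symm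
    have a2 : sG σ (sG σ x) = x * GeneralLinearGroup.scalar (Fin 2) z *
        GeneralLinearGroup.scalar (Fin 2) (Units.map (σ : L →* L) z) := by
      rw [a1, map_mul, a1, hsc]
    have a3 : sG σ (sG σ (sG σ x)) = x * GeneralLinearGroup.scalar (Fin 2) z *
        GeneralLinearGroup.scalar (Fin 2) (Units.map (σ : L →* L) z) *
        GeneralLinearGroup.scalar (Fin 2) (Units.map (σ : L →* L) (Units.map (σ : L →* L) z)) := by
      rw [a2, map_mul, map_mul, a1, hsc, hsc]
    rw [sG3 N.s3] at a3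
    have a4 : GeneralLinearGroup.scalar (Fin 2) z *
        GeneralLinearGroup.scalar (Fin 2) (Units.map (σ : L →* L) z) *
        GeneralLinearGroup.scalar (Fin 2) (Units.map (σ : L →* L) (Units.map (σ : L →* L) z)) =
        (1 : GL (Fin 2) L) := by
      have a5 : x * 1 = x * (GeneralLinearGroup.scalar (Fin 2) z *
        GeneralLinearGroup.scalar (Fin 2) (Units.map (σ : L →* L) z) *
        GeneralLinearGroup.scalar (Fin 2) (Units.map (σ : L →* L) (Units.map (σ : L →* L) z))) := by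
        rw [mul_one, ← mul_assoc, ← mul_assoc]; exact a3
      exact (mul_left_cancel a5).symm
    have h3 := congrArg (fun g : GL (Fin 2) L => (g : Mt L)) a4
    simp only [Units.val_mul, coe_scalar', Units.val_one] at h3
    rw [← sc_mul, ← sc_mul, ← sc_one] at h3
    exact sc_inj h3
  obtain ⟨w, hw0, hw⟩ := h90 N hN
  let W : Lˣ := Units.mk0 w hw0
  refine ⟨x * GeneralLinearGroup.scalar (Fin 2) W, ?_, ?_⟩
  · rw [map_mul, ProjGenLinGroup.mk_scalar, mul_one]
  · rw [map_mul, hsc, ← hz, mul_assoc, ← map_mul]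
    congr 2
    apply Units.ext
    exact hw

end Fermat.Agent.H43Z4
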