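import Fermat.Agent.H43Z4

/-!
# C13, part 5: norm roots in `PGL(2, L)` and the local theorem
-/

set_option autoImplicit false
set_option linter.unusedSectionVars false

namespace Fermat.Agent.H43Z5

open Fermat.Agent.H43Z1 Fermat.Agent.H43Z2 Fermat.Agent.H43Z3 Fermat.Agent.H43Z4 Matrix WithZero
open scoped MatrixGroups

variable {L : Type*} [Field L] {v : Valuation L ℤᵐ⁰} {σ : L ≃+* L} {e π : L} {κ a b c : ℤᵐ⁰}

/-- the norm of `e`, as a scalar matrix -/
abbrev nu (σ : L ≃+* L) (e : L) : Mt L := sc e * sM σ (sc e) * sM σ (sM σ (sc e))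

/-- `y = 1 + e q` is the norm root of `x = 1 + q + ν q³`. -/
def RG (v : Valuation L ℤᵐ⁰) (σ : L ≃+* L) (e : L) (a b c : ℤᵐ⁰) (x y : GL (Fin 2) L) : Prop :=
  ∃ q ∈ QM v σ a b c, (x : Mt L) = 1 + (q + nu σ e * (q * q * q)) ∧ (y : Mt L) = 1 + sc e * q

/-- the same in `PGL₂` -/
def RP (v : Valuation L ℤᵐ⁰) (σ : L ≃+* L) (e : L) (a b c : ℤᵐ⁰) (x y : PGL(2, L)) : Prop :=
  ∃ x' y', ProjGenLinGroup.mk x' = x ∧ ProjGenLinGroup.mk y' = y ∧ RG v σ e a b c x' y'

/-- The group `1 + P` in `GL₂(L)`. -/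
def GH (D : VD v σ e π κ a b c) : Subgroup (GL (Fin 2) L) where
  carrier := {g | (g : Mt L) - 1 ∈ PP (sM σ) (sc e) (QM v σ a b c)}
  one_mem' := by
    show ((1 : GL (Fin 2) L) : Mt L) - 1 ∈ PP (sM σ) (sc e) (QM v σ a b c)
    rw [Units.val_one, sub_self]; exact zero_mem _
  mul_mem' := by
    intro x y hx hy
    show ((x * y : GL (Fin 2) L) : Mt L) - 1 ∈ PP (sM σ) (sc e) (QM v σ a b c)
    have e1 : ((x * y : GL (Fin 2) L) : Mt L) - 1 =
        ((x : Mt L) - 1) * ((y : Mt L) - 1) + ((x : Mt L) - 1) + ((y : Mt L) - 1) := by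
      rw [Units.val_mul]; noncomm_ring
    rw [e1]
    exact add_mem (add_mem (D.datM.mul_mem hx hy) hx) hy
  inv_mem' := by
    intro x hx
    obtain ⟨z, hz, h1, h2⟩ := D.datM.exists_inv hx
    show ((x⁻¹ : GL (Fin 2) L) : Mt L) - 1 ∈ PP (sM σ) (sc e) (QM v σ a b c)
    have e1 : ((x⁻¹ : GL (Fin 2) L) : Mt L) = 1 + z := by
      have e2 : (x : Mt L) * (1 + z) = 1 := by rwa [add_sub_cancel] at h1
      calc ((x⁻¹ : GL (Fin 2) L) : Mt L) = (↑x⁻¹ : Mt L) * ((x : Mt L) * (1 + z)) := by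
            rw [e2, mul_one]
        _ = 1 + z := by rw [← mul_assoc, ← Units.val_mul, inv_mul_cancel, Units.val_one, one_mul]
    rw [e1, add_sub_cancel_left]; exact hz

theorem mem_GH {D : VD v σ e π κ a b c} {g : GL (Fin 2) L} :
    g ∈ GH D ↔ (g : Mt L) - 1 ∈ PP (sM σ) (sc e) (QM v σ a b c) := Iff.rfl

theorem mem_GH_iff {D : VD v σ e π κ a b c} {g : GL (Fin 2) L} :
    g ∈ GH D ↔ g 0 0 - 1 ∈ Lat v σ e a ∧ g 0 1 ∈ Lat v σ e b ∧ g 1 0 ∈ Lat v σ e c ∧
      g 1 1 - 1 ∈ Lat v σ e a := by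
  rw [mem_GH, D.mem_PP_QM]
  simp only [Matrix.sub_apply, Matrix.one_apply_eq,
    Matrix.one_apply_ne (show (0 : Fin 2) ≠ 1 by decide),
    Matrix.one_apply_ne (show (1 : Fin 2) ≠ 0 by decide), sub_zero]

/-- The group in `PGL₂(L)`. -/
def HP (D : VD v σ e π κ a b c) : Subgroup PGL(2, L) := (GH D).map ProjGenLinGroup.mk

theorem exists_unit (D : VD v σ e π κ a b c) {p : Mt L}
    (hp : p ∈ PP (sM σ) (sc e) (QM v σ a b c)) : ∃ u : GL (Fin 2) L, (u : Mt L) = 1 + p := by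
  obtain ⟨z, -, h1, h2⟩ := D.datM.exists_inv hp
  exact ⟨⟨1 + p, 1 + z, h1, h2⟩, rfl⟩

theorem sG_mem {D : VD v σ e π κ a b c} {g : GL (Fin 2) L} (hg : g ∈ GH D) : sG σ g ∈ GH D := by
  show ((sG σ g : GL (Fin 2) L) : Mt L) - 1 ∈ PP (sM σ) (sc e) (QM v σ a b c)
  have : ((sG σ g : GL (Fin 2) L) : Mt L) - 1 = sM σ ((g : Mt L) - 1) := by
    rw [coe_sG, map_sub, map_one]
  rw [this]
  exact D.datM.s_mem hg

theorem scalar_mem {D : VD v σ e π κ a b c} {w : Lˣ} (hw : (w : L) - 1 ∈ Lat v σ e a) :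
    GeneralLinearGroup.scalar (Fin 2) w ∈ GH D := by
  rw [mem_GH_iff]
  have h : ∀ i j, (GeneralLinearGroup.scalar (Fin 2) w : GL (Fin 2) L) i j =
      if i = j then (w : L) else 0 := by
    intro i j
    show ((GeneralLinearGroup.scalar (Fin 2) w : GL (Fin 2) L) : Mt L) i j = _
    rw [coe_scalar', sc_apply]
  rw [h, h, h, h]
  simp only [if_true, if_neg (show (0 : Fin 2) ≠ 1 by decide),
    if_neg (show (1 : Fin 2) ≠ 0 by decide)]
  exact ⟨hw, zero_mem _, zero_mem _, hw⟩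

theorem scalar_mem_iff {D : VD v σ e π κ a b c} {w : Lˣ} :
    GeneralLinearGroup.scalar (Fin 2) w ∈ GH D ↔ (w : L) - 1 ∈ Lat v σ e a := by
  refine ⟨fun h => ?_, scalar_mem⟩
  have h1 := (mem_GH_iff.1 h).1
  have h2 : (GeneralLinearGroup.scalar (Fin 2) w : GL (Fin 2) L) 0 0 = (w : L) := by
    show ((GeneralLinearGroup.scalar (Fin 2) w : GL (Fin 2) L) : Mt L) 0 0 = _
    rw [coe_scalar', sc_apply, if_pos rfl]
  rwa [h2] at h1

theorem sG_scalar (w : Lˣ) : sG σ (GeneralLinearGroup.scalar (Fin 2) w) =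
    GeneralLinearGroup.scalar (Fin 2) (Units.map (σ : L →* L) w) := by
  apply Units.ext
  rw [coe_sG, coe_scalar', coe_scalar', sM_sc]; rfl

theorem scalar_inj {u w : Lˣ}
    (h : (GeneralLinearGroup.scalar (Fin 2) u : GL (Fin 2) L) = GeneralLinearGroup.scalar (Fin 2) w) :
    (u : L) = w := by
  have := congrArg (fun g : GL (Fin 2) L => (g : Mt L)) h
  simp only [coe_scalar'] at this
  exact sc_inj this

/-- a scalar cocycle has norm one -/
theorem scalar_norm_one (h3 : ∀ x, σ (σ (σ x)) = x) {x : GL (Fin 2) L} {z : Lˣ}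
    (hz : x * GeneralLinearGroup.scalar (Fin 2) z = sG σ x) : (z : L) * σ z * σ (σ z) = 1 := by
  have a1 : sG σ x = x * GeneralLinearGroup.scalar (Fin 2) z := hz.symm
  have a2 : sG σ (sG σ x) = x * GeneralLinearGroup.scalar (Fin 2) z *
      GeneralLinearGroup.scalar (Fin 2) (Units.map (σ : L →* L) z) := by
    rw [a1, map_mul, a1, sG_scalar]
  have a3 : sG σ (sG σ (sG σ x)) = x * GeneralLinearGroup.scalar (Fin 2) z *
      GeneralLinearGroup.scalar (Fin 2) (Units.map (σ : L →* L) z) *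
      GeneralLinearGroup.scalar (Fin 2) (Units.map (σ : L →* L) (Units.map (σ : L →* L) z)) := by
    rw [a2, map_mul, map_mul, a1, sG_scalar, sG_scalar]
  rw [sG3 h3] at a3
  have a5 : x * 1 = x * (GeneralLinearGroup.scalar (Fin 2) z *
    GeneralLinearGroup.scalar (Fin 2) (Units.map (σ : L →* L) z) *
    GeneralLinearGroup.scalar (Fin 2) (Units.map (σ : L →* L) (Units.map (σ : L →* L) z))) := by
    rw [mul_one, ← mul_assoc, ← mul_assoc]; exact a3
  have h3 := congrArg (fun g : GL (Fin 2) L => (g : Mt L)) (mul_left_cancel a5).symm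
  simp only [Units.val_mul, coe_scalar', Units.val_one] at h3
  rw [← sc_mul, ← sc_mul, ← sc_one] at h3
  exact sc_inj h3

/-- a small scalar cocycle is a small coboundary -/
theorem scalar_cocycle (D : VD v σ e π κ a b c) {u : L} (hu : u - 1 ∈ Lat v σ e a)
    (hN : u * σ u * σ (σ u) = 1) : ∃ w : L, w ≠ 0 ∧ w - 1 ∈ Lat v σ e a ∧ u * σ w = w := by
  obtain ⟨h, hh, x0, hx0, heq⟩ := D.datL.normal_form (D.mem_PP_QL.2 hu)
  obtain ⟨z, -, hz, -⟩ := D.datL.exists_inv hh
  set w := 1 + h with hw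
  have hw0 : w ≠ 0 := left_ne_zero_of_mul_eq_one hz
  have e1 : u * σ w = w * (1 + e * x0) := by
    rw [hw, map_add, map_one, ← heq]; ring
  -- norms
  have e2 : (1 + e * x0) * σ (1 + e * x0) * σ (σ (1 + e * x0)) = 1 := by
    have f1 := congrArg σ e1
    have f2 := congrArg σ f1
    simp only [map_mul, D.s3] at f1 f2
    have hσw : σ w ≠ 0 := (map_ne_zero σ).2 hw0
    have hσσw : σ (σ w) ≠ 0 := (map_ne_zero σ).2 hσw
    have hprod : w * σ w * σ (σ w) ≠ 0 := mul_ne_zero (mul_ne_zero hw0 hσw) hσσw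
    apply mul_left_cancel₀ hprod
    calc w * σ w * σ (σ w) * ((1 + e * x0) * σ (1 + e * x0) * σ (σ (1 + e * x0)))
        = (w * (1 + e * x0)) * (σ w * σ (1 + e * x0)) * (σ (σ w) * σ (σ (1 + e * x0))) := by ring
      _ = (u * σ w) * (σ u * σ (σ w)) * (σ (σ u) * w) := by rw [e1, f1, f2]
      _ = (u * σ u * σ (σ u)) * (w * σ w * σ (σ w)) := by ring
      _ = w * σ w * σ (σ w) * 1 := by rw [hN]; ring
  rw [D.norm_one_add hx0.1] at e2
  have e3 : x0 + e * σ e * σ (σ e) * (x0 * x0 * x0) =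
      (0 : L) + e * σ e * σ (σ e) * (0 * 0 * 0) := by
    rw [mul_zero, mul_zero, add_zero]
    exact add_left_cancel (a := (1 : L)) (by rw [e2, add_zero])
  have e4 : x0 = 0 := D.datL.root_unique (zero_mem _) hx0 e3
  refine ⟨w, hw0, ?_, ?_⟩
  · rw [hw, add_sub_cancel_left]; exact D.mem_PP_QL.1 hh
  · rw [e1, e4, mul_zero, add_zero, mul_one]

/-! ## Integrality of scalars -/

theorem QM_entries {q : Mt L} (hq : q ∈ QM v σ a b c) :
    v (q 0 0) ≤ a ∧ v (q 0 1) ≤ b ∧ v (q 1 0) ≤ c ∧ v (q 1 1) ≤ a :=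
  ⟨hq.1.2, hq.2.1.2, hq.2.2.1.2, hq.2.2.2.2⟩

theorem det_le (D : VD v σ e π κ a b c) {q : Mt L} (hq : q ∈ QM v σ a b c) :
    v q.det ≤ a * a := by
  obtain ⟨h1, h2, h3, h4⟩ := QM_entries hq
  rw [det_fin_two]
  refine v.map_sub_le ?_ ?_
  · rw [map_mul]; exact mul_le_mul' h1 h4
  · rw [map_mul]; exact (mul_le_mul' h2 h3).trans D.bc

theorem scalar_bound (D : VD v σ e π κ a b c) {x1 x2 Y : GL (Fin 2) L} {u : Lˣ}
    (h1 : (x1 : Mt L) - 1 ∈ QM v σ a b c) (h2 : (x2 : Mt L) - 1 ∈ QM v σ a b c)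
    (h : x2 * GeneralLinearGroup.scalar (Fin 2) u = Y⁻¹ * x1 * Y) : v ((u : L) - 1) ≤ a := by
  have hM : sc (u : L) * (x2 : Mt L) - 1 = (↑Y⁻¹ : Mt L) * ((x1 : Mt L) - 1) * Y := by
    have := congrArg (fun g : GL (Fin 2) L => (g : Mt L)) h
    simp only [Units.val_mul, coe_scalar'] at this
    rw [mul_sub, sub_mul, mul_one, ← this, ← Units.val_mul, inv_mul_cancel, Units.val_one,
      sc_comm]
  have hdet : (sc (u : L) * (x2 : Mt L) - 1).det = ((x1 : Mt L) - 1).det := by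
    rw [hM, det_mul, det_mul, mul_comm, ← mul_assoc, ← det_mul, ← Units.val_mul, mul_inv_cancel,
      Units.val_one, det_one, one_mul]
  obtain ⟨k1, k2, k3, k4⟩ := QM_entries h2
  have hd1 := det_le D h1
  have hd2 := det_le D h2
  set p := ((x2 : Mt L) - 1) 0 0 with hp
  set q := ((x2 : Mt L) - 1) 0 1 with hq
  set r := ((x2 : Mt L) - 1) 1 0 with hr
  set t := ((x2 : Mt L) - 1) 1 1 with ht
  have g00 : (x2 : Mt L) 0 0 = 1 + p := by rw [hp, Matrix.sub_apply, Matrix.one_apply_eq]; ring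
  have g01 : (x2 : Mt L) 0 1 = q := by
    rw [hq, Matrix.sub_apply, Matrix.one_apply_ne (by decide), sub_zero]
  have g10 : (x2 : Mt L) 1 0 = r := by
    rw [hr, Matrix.sub_apply, Matrix.one_apply_ne (by decide), sub_zero]
  have g11 : (x2 : Mt L) 1 1 = 1 + t := by rw [ht, Matrix.sub_apply, Matrix.one_apply_eq]; ring
  by_contra hcon
  push Not at hcon
  set k := (u : L) - 1 with hk
  have hu : (u : L) = 1 + k := by rw [hk]; ring
  have hD : (p * t - q * r) = ((x2 : Mt L) - 1).det := by rw [det_fin_two]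
  have hpt : v (p + t) ≤ a := v.map_add_le k1 k4
  have hD' : v (p * t - q * r) ≤ a * a := by rw [hD]; exact hd2
  have ha1 : a < 1 := D.a1
  have haa : a * a ≤ a := by
    calc a * a ≤ 1 * a := mul_le_mul' ha1.le le_rfl
      _ = a := one_mul a
  have hU : v (1 + ((p + t) + (p * t - q * r))) = 1 := by
    apply Valuation.map_one_add_of_lt
    exact (v.map_add_le hpt (hD'.trans haa)).trans_lt ha1
  have hkey : k * k * (1 + ((p + t) + (p * t - q * r))) =
      ((x1 : Mt L) - 1).det - (k * ((p + t) + ((p * t - q * r) + (p * t - q * r))) +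
        (p * t - q * r)) := by
    rw [← hdet, det_fin_two]
    simp only [Matrix.sub_apply, sc_mul_apply, Matrix.one_apply_eq,
      Matrix.one_apply_ne (show (0 : Fin 2) ≠ 1 by decide),
      Matrix.one_apply_ne (show (1 : Fin 2) ≠ 0 by decide), g00, g01, g10, g11, hu]
    ring
  have hvk : v k ≠ 0 := by
    intro h0
    rw [h0] at hcon
    exact absurd zero_le (not_le.2 hcon)
  have hlt1 : a * a < v k * v k := by
    calc a * a ≤ v k * a := mul_le_mul' hcon.le le_rfl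
      _ < v k * v k := (mul_lt_mul_iff_right₀ (zero_lt_iff.2 hvk)).2 hcon
  have hlt2 : v k * a < v k * v k := (mul_lt_mul_iff_right₀ (zero_lt_iff.2 hvk)).2 hcon
  have hR : v (((x1 : Mt L) - 1).det - (k * ((p + t) + ((p * t - q * r) + (p * t - q * r))) +
        (p * t - q * r))) < v k * v k := by
    refine v.map_sub_lt (hd1.trans_lt hlt1) (v.map_add_lt ?_ (hD'.trans_lt hlt1))
    rw [map_mul]
    refine (mul_le_mul' le_rfl ?_).trans_lt hlt2
    exact v.map_add_le hpt (v.map_add_le (hD'.trans haa) (hD'.trans haa))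
  rw [← hkey, map_mul, map_mul, hU, mul_one] at hR
  exact lt_irrefl _ hR

/-! ## Commensurability -/

theorem exists_pow_mul_le (D : VD v σ e π κ a b c) (K : ℤᵐ⁰) {μ : ℤᵐ⁰} (hμ : μ ≠ 0) :
    ∃ m : ℕ, v π ^ m * K ≤ μ := by
  by_cases hK : K = 0
  · exact ⟨0, by rw [hK, mul_zero]; exact zero_le⟩
  · refine ⟨(log K - log μ).toNat, ?_⟩
    have h1 := Int.self_le_toNat (log K - log μ)
    calc v π ^ (log K - log μ).toNat * K ≤ exp (-(((log K - log μ).toNat : ℕ) : ℤ)) * K :=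
          mul_le_mul' (D.vpow _) le_rfl
      _ = exp (-(((log K - log μ).toNat : ℕ) : ℤ)) * exp (log K) := by rw [exp_log hK]
      _ = exp (-(((log K - log μ).toNat : ℕ) : ℤ) + log K) := by rw [exp_add]
      _ ≤ exp (log μ) := by rw [exp_le_exp]; omega
      _ = μ := exp_log hμ

theorem comm_bound (D : VD v σ e π κ a b c) {Y : GL (Fin 2) L} (hY : sG σ Y = Y) :
    ∃ m : ℕ, ∀ q ∈ QM v σ a b c, sc π ^ m * ((↑Y⁻¹ : Mt L) * q * (Y : Mt L)) ∈ QM v σ a b c := by
  have hYi : sG σ Y⁻¹ = Y⁻¹ := by rw [map_inv, hY]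
  have hYM : sM σ (Y : Mt L) = Y := by rw [← coe_sG, hY]
  have hYiM : sM σ (↑Y⁻¹ : Mt L) = ↑Y⁻¹ := by rw [← coe_sG, hYi]
  obtain ⟨C, hC, hC'⟩ : ∃ C : ℤᵐ⁰, (∀ i j, v ((Y : Mt L) i j) ≤ C) ∧
      ∀ i j, v ((↑Y⁻¹ : Mt L) i j) ≤ C := by
    refine ⟨(Finset.univ.sup fun i => Finset.univ.sup fun j => v ((Y : Mt L) i j)) ⊔
      (Finset.univ.sup fun i => Finset.univ.sup fun j => v ((↑Y⁻¹ : Mt L) i j)), ?_, ?_⟩
    · intro i j
      refine le_trans ?_ le_sup_left
      exact (Finset.le_sup (f := fun j => v ((Y : Mt L) i j)) (Finset.mem_univ j)).trans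
        (Finset.le_sup (f := fun i => Finset.univ.sup fun j => v ((Y : Mt L) i j))
          (Finset.mem_univ i))
    · intro i j
      refine le_trans ?_ le_sup_right
      exact (Finset.le_sup (f := fun j => v ((↑Y⁻¹ : Mt L) i j)) (Finset.mem_univ j)).trans
        (Finset.le_sup (f := fun i => Finset.univ.sup fun j => v ((↑Y⁻¹ : Mt L) i j))
          (Finset.mem_univ i))
  set r := max a (max b c) with hr
  set μ := min a (min b c) with hμ
  have hμ0 : μ ≠ 0 := by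
    have : 0 < μ := lt_min (zero_lt_iff.2 D.a0) (lt_min (zero_lt_iff.2 D.b0) (zero_lt_iff.2 D.c0))
    exact this.ne'
  obtain ⟨m, hm⟩ := exists_pow_mul_le D (C * r * C) hμ0
  refine ⟨m, fun q hq => ?_⟩
  obtain ⟨h1, h2, h3, h4⟩ := QM_entries hq
  have hqr : ∀ i j, v (q i j) ≤ r := by
    intro i j
    fin_cases i <;> fin_cases j
    · exact h1.trans (le_max_left _ _)
    · exact h2.trans ((le_max_left _ _).trans (le_max_right _ _))
    · exact h3.trans ((le_max_right _ _).trans (le_max_right _ _))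
    · exact h4.trans (le_max_left _ _)
  have hent : ∀ i j, v (((↑Y⁻¹ : Mt L) * q * (Y : Mt L)) i j) ≤ C * r * C := by
    intro i j
    rw [Matrix.mul_apply]
    refine Valuation.map_sum_le _ fun k _ => ?_
    rw [map_mul]
    refine mul_le_mul' ?_ (hC k j)
    rw [Matrix.mul_apply]
    refine Valuation.map_sum_le _ fun l _ => ?_
    rw [map_mul]
    exact mul_le_mul' (hC' i l) (hqr l k)
  have hfix : sM σ (sc π ^ m * ((↑Y⁻¹ : Mt L) * q * (Y : Mt L))) =
      sc π ^ m * ((↑Y⁻¹ : Mt L) * q * (Y : Mt L)) := by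
    rw [map_mul, map_pow, sM_sc, D.sπ, map_mul, map_mul, hYM, hYiM, QM_fixed hq]
  have hfin : ∀ i j, v ((sc π ^ m * ((↑Y⁻¹ : Mt L) * q * (Y : Mt L))) i j) ≤ μ := by
    intro i j
    rw [sc_pow, sc_mul_apply, map_mul, map_pow]
    exact (mul_le_mul' le_rfl (hent i j)).trans hm
  rw [sM_fixed_iff] at hfix
  exact ⟨⟨hfix _ _, (hfin _ _).trans (min_le_left _ _)⟩,
    ⟨hfix _ _, (hfin _ _).trans ((min_le_right _ _).trans (min_le_left _ _))⟩,
    ⟨hfix _ _, (hfin _ _).trans ((min_le_right _ _).trans (min_le_right _ _))⟩,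
    ⟨hfix _ _, (hfin _ _).trans (min_le_left _ _)⟩⟩

/-! ## The norm roots -/

theorem RG_mem1 (D : VD v σ e π κ a b c) {x y : GL (Fin 2) L} (h : RG v σ e a b c x y) :
    (x : Mt L) - 1 ∈ QM v σ a b c := by
  obtain ⟨q, hq, hx, -⟩ := h
  rw [hx, add_sub_cancel_left]
  exact D.datM.norm_mem hq

theorem RG_memL (D : VD v σ e π κ a b c) {x y : GL (Fin 2) L} (h : RG v σ e a b c x y) :
    x ∈ GH D := D.datM.Q_le (RG_mem1 D h)

theorem RG_memR (D : VD v σ e π κ a b c) {x y : GL (Fin 2) L} (h : RG v σ e a b c x y) :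
    y ∈ GH D := by
  obtain ⟨q, hq, -, hy⟩ := h
  show (y : Mt L) - 1 ∈ PP (sM σ) (sc e) (QM v σ a b c)
  rw [hy, add_sub_cancel_left]
  exact D.datM.e_mem hq

theorem fixed_of_mem {x : GL (Fin 2) L} (h : (x : Mt L) - 1 ∈ QM v σ a b c) : sG σ x = x := by
  apply Units.ext
  rw [coe_sG]
  have h1 := QM_fixed h
  rw [map_sub, map_one] at h1
  exact sub_left_injective h1

theorem RG_norm (D : VD v σ e π κ a b c) {x y : GL (Fin 2) L} (h : RG v σ e a b c x y) :
    nm (sG σ) y = x := by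
  obtain ⟨q, hq, hx, hy⟩ := h
  apply Units.ext
  rw [nm_val D.nbM (QM_fixed hq) hy, hx]

theorem nuC (D : VD v σ e π κ a b c) (m : Mt L) : Commute (nu σ e) m := D.nbM.n3C m

theorem poly_comm (D : VD v σ e π κ a b c) (q : Mt L) :
    Commute (1 + sc e * q) (1 + (q + nu σ e * (q * q * q))) := by
  have h1 : Commute (sc e * q) q := (Algebra.commute_algebraMap_left e q).mul_left (Commute.refl q)
  have h2 : Commute (sc e * q) (q * q * q) := (h1.mul_right h1).mul_right h1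
  have h3 : Commute (sc e * q) (nu σ e * (q * q * q)) := (nuC D _).symm.mul_right h2
  exact ((Commute.one_left _).add_left ((Commute.one_right _).add_right (h1.add_right h3)))

theorem normRoots (D : VD v σ e π κ a b c) :
    NormRoots (sP σ) (HP D) (RP v σ e a b c) where
  s3 := sP3 D.s3
  stab := by
    rintro _ ⟨g, hg, rfl⟩
    exact ⟨sG σ g, sG_mem hg, rfl⟩
  memL := by
    rintro _ _ ⟨x, y, rfl, rfl, h⟩
    exact ⟨x, RG_memL D h, rfl⟩
  memR := by
    rintro _ _ ⟨x, y, rfl, rfl, h⟩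
    exact ⟨y, RG_memR D h, rfl⟩
  fixL := by
    rintro _ _ ⟨x, y, rfl, rfl, h⟩
    rw [sP_mk, fixed_of_mem (RG_mem1 D h)]
  norm := by
    rintro _ _ ⟨x, y, rfl, rfl, h⟩
    rw [nm_mk, RG_norm D h]
  comm := by
    rintro _ _ ⟨x, y, rfl, rfl, q, hq, hx, hy⟩
    have h1 : y * x = x * y := by
      apply Units.ext
      rw [Units.val_mul, Units.val_mul, hx, hy]
      exact (poly_comm D q).eq
    show _ * _ = _ * _
    rw [← map_mul, ← map_mul, h1]
  exists_root := by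
    rintro _ ⟨g, hg, rfl⟩ hfix
    rw [sP_mk, eq_comm, ProjGenLinGroup.mk_eq_mk_iff] at hfix
    obtain ⟨u, hu⟩ := hfix
    have hN := scalar_norm_one D.s3 hu
    have hu1 : GeneralLinearGroup.scalar (Fin 2) u ∈ GH D := by
      have : GeneralLinearGroup.scalar (Fin 2) u = g⁻¹ * sG σ g := by rw [← hu]; group
      rw [this]
      exact (GH D).mul_mem ((GH D).inv_mem hg) (sG_mem hg)
    obtain ⟨w, hw0, hw1, hw⟩ := scalar_cocycle D (scalar_mem_iff.1 hu1) hN
    set x := g * GeneralLinearGroup.scalar (Fin 2) (Units.mk0 w hw0) with hx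
    have hxm : x ∈ GH D := (GH D).mul_mem hg (scalar_mem (by exact hw1))
    have hxf : sG σ x = x := by
      rw [hx, map_mul, sG_scalar, ← hu, mul_assoc, ← map_mul]
      congr 2
      apply Units.ext
      exact hw
    have hxQ : (x : Mt L) - 1 ∈ QM v σ a b c := by
      refine D.datM.fixed_mem hxm ?_
      rw [map_sub, map_one, ← coe_sG, hxf]
    obtain ⟨q, hq, hroot⟩ := D.datM.exists_root hxQ
    obtain ⟨y, hy⟩ := exists_unit D (D.datM.e_mem hq)
    refine ⟨ProjGenLinGroup.mk y, x, y, ?_, rfl, q, hq, ?_, hy⟩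
    · rw [hx, map_mul, ProjGenLinGroup.mk_scalar, mul_one]
    · rw [hroot, add_sub_cancel]
  normal_form := by
    rintro _ ⟨g, hg, rfl⟩
    obtain ⟨h, hh, q, hq, heq⟩ := D.datM.normal_form (mem_GH.1 hg)
    rw [add_sub_cancel] at heq
    obtain ⟨H1, hH1⟩ := exists_unit D hh
    obtain ⟨y, hy⟩ := exists_unit D (D.datM.e_mem hq)
    have h1 : g * sG σ H1 = H1 * y := by
      apply Units.ext
      rw [Units.val_mul, Units.val_mul, coe_sG, hH1, hy, map_add, map_one]
      exact heq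
    refine ⟨ProjGenLinGroup.mk H1, ⟨H1, ?_, rfl⟩, ProjGenLinGroup.mk (nm (sG σ) y),
      nm (sG σ) y, y, rfl, ?_, q, hq, nm_val D.nbM (QM_fixed hq) hy, hy⟩
    · show (H1 : Mt L) - 1 ∈ PP (sM σ) (sc e) (QM v σ a b c)
      rw [hH1, add_sub_cancel_left]; exact hh
    · rw [sP_mk, ← map_inv, ← map_mul, ← map_mul]
      congr 1
      rw [mul_assoc, h1]; group
  equiv := by
    rintro _ _ _ _ y ⟨x1, y1, rfl, rfl, hR1⟩ ⟨x2, y2, rfl, rfl, hR2⟩ hy hbb
    obtain ⟨Y, rfl, hYf⟩ := fixed_lift D.toNb y hy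
    have hm1 := RG_mem1 D hR1
    have hm2 := RG_mem1 D hR2
    rw [← map_inv, ← map_mul, ← map_mul, ProjGenLinGroup.mk_eq_mk_iff] at hbb
    obtain ⟨u, hu⟩ := hbb
    have hub := scalar_bound D hm1 hm2 hu
    have huf : σ (u : L) = u := by
      have h1 := congrArg (sG σ) hu
      simp only [map_mul, map_inv, sG_scalar, fixed_of_mem hm1, fixed_of_mem hm2, hYf] at h1
      rw [← hu] at h1
      exact scalar_inj (mul_left_cancel h1)
    -- root of the scalar
    obtain ⟨q0, hq0, hr0⟩ := D.datL.exists_root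
      (b := (u : L) - 1) ⟨by rw [map_sub, huf, map_one], hub⟩
    obtain ⟨z0, -, hz0, -⟩ := D.datL.exists_inv (D.datL.e_mem hq0)
    have hw0 : (1 : L) + e * q0 ≠ 0 := left_ne_zero_of_mul_eq_one hz0
    set w : Lˣ := Units.mk0 (1 + e * q0) hw0 with hw
    set W : GL (Fin 2) L := GeneralLinearGroup.scalar (Fin 2) w with hW
    have hWm : W ∈ GH D := by
      refine scalar_mem ?_
      show (1 : L) + e * q0 - 1 ∈ Lat v σ e a
      rw [add_sub_cancel_left]
      exact D.mem_PP_QL.1 (D.datL.e_mem hq0)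
    have hWN : nm (sG σ) W = GeneralLinearGroup.scalar (Fin 2) u := by
      apply Units.ext
      simp only [nm, Units.val_mul, coe_sG, hW, coe_scalar', sM_sc]
      rw [← sc_mul, ← sc_mul]
      congr 1
      show (1 + e * q0) * σ (1 + e * q0) * σ (σ (1 + e * q0)) = u
      rw [D.norm_one_add hq0.1, hr0, add_sub_cancel]
    have hWc : ∀ g : GL (Fin 2) L, Commute W g := by
      intro g
      apply Units.ext
      rw [Units.val_mul, Units.val_mul, hW, coe_scalar']
      exact sc_comm _ _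
    -- the element to be normalised
    obtain ⟨q2, hq2, hx2, hy2⟩ := hR2
    obtain ⟨q1, hq1, hx1, hy1⟩ := hR1
    have hR1' : RG v σ e a b c x1 y1 := ⟨q1, hq1, hx1, hy1⟩
    have hR2' : RG v σ e a b c x2 y2 := ⟨q2, hq2, hx2, hy2⟩
    have hpm : ((y2 * W : GL (Fin 2) L) : Mt L) - 1 ∈ PP (sM σ) (sc e) (QM v σ a b c) :=
      (GH D).mul_mem (RG_memR D hR2') hWm
    have hpc : Commute ((x2 : Mt L) - 1) (((y2 * W : GL (Fin 2) L) : Mt L) - 1) := by
      have c1 : Commute (x2 : Mt L) ((y2 * W : GL (Fin 2) L) : Mt L) := by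
        rw [Units.val_mul]
        refine Commute.mul_right ?_ ?_
        · rw [hx2, hy2]; exact (poly_comm D q2).symm
        · show _ * _ = _ * _
          rw [hW, coe_scalar']; exact (sc_comm _ _).symm
      exact (c1.sub_left (Commute.one_left _)).sub_right
        ((Commute.one_right _))
    have D' := D.datM.sub hm2
    have hp' := (D.datM.mem_sub_P (QM_fixed hm2)).2 ⟨hpm, hpc⟩
    obtain ⟨h, hh, q3, hq3, heq⟩ := D'.normal_form hp'
    obtain ⟨hhP, hhc⟩ := (D.datM.mem_sub_P (QM_fixed hm2)).1 hh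
    rw [add_sub_cancel] at heq
    obtain ⟨H1, hH1⟩ := exists_unit D hhP
    obtain ⟨y3, hy3⟩ := exists_unit D (D.datM.e_mem hq3.1)
    have hH1m : H1 ∈ GH D := by
      show (H1 : Mt L) - 1 ∈ PP (sM σ) (sc e) (QM v σ a b c)
      rw [hH1, add_sub_cancel_left]; exact hhP
    have hH1c : Commute H1 x2 := by
      apply Units.ext
      rw [Units.val_mul, Units.val_mul, hH1]
      have c1 : Commute (1 + h) ((x2 : Mt L) - 1 + 1) :=
        ((Commute.one_left _).add_left hhc.symm).add_right (Commute.one_right _)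
      rw [sub_add_cancel] at c1
      exact c1.eq
    have h1 : y2 * W * sG σ H1 = H1 * y3 := by
      apply Units.ext
      rw [Units.val_mul, Units.val_mul H1, coe_sG, hH1, hy3, map_add, map_one]
      exact heq
    -- norms
    have hnm3 : nm (sG σ) y3 = x2 * GeneralLinearGroup.scalar (Fin 2) u := by
      have e1 : y3 = H1⁻¹ * (y2 * W) * sG σ H1 := by rw [mul_assoc, h1]; group
      rw [e1, nm_conj (sG σ) (sG3 D.s3)]
      have e2 : nm (sG σ) (y2 * W) = x2 * GeneralLinearGroup.scalar (Fin 2) u := by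
        have hWc' : ∀ g : GL (Fin 2) L, Commute g (sG σ W) := by
          intro g
          have : sG σ W = GeneralLinearGroup.scalar (Fin 2) (Units.map (σ : L →* L) w) := by
            rw [hW, sG_scalar]
          rw [this]
          apply Units.ext
          rw [Units.val_mul, Units.val_mul, coe_scalar']
          exact (sc_comm _ _).symm
        rw [nm_mul_of_commute (sG σ) (hWc _).symm (hWc _).symm (hWc' _), RG_norm D hR2', hWN]
      have hsc : Commute (GeneralLinearGroup.scalar (Fin 2) u : GL (Fin 2) L) H1 := by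
        apply Units.ext
        rw [Units.val_mul, Units.val_mul, coe_scalar']
        exact sc_comm _ _
      have c2 : Commute H1 (x2 * GeneralLinearGroup.scalar (Fin 2) u) :=
        hH1c.mul_right hsc.symm
      rw [e2, mul_assoc, ← c2.eq]; group
    have hq3eq : q3 = (↑Y⁻¹ : Mt L) * q1 * (Y : Mt L) := by
      refine D.datM.root_conj (y := (Y : Mt L)) (y' := (↑Y⁻¹ : Mt L)) hq1 hq3.1 ?_ ?_
        (comm_bound D hYf) ?_
      · rw [← Units.val_mul, inv_mul_cancel, Units.val_one]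
      · rw [← Units.val_mul, mul_inv_cancel, Units.val_one]
      · have e1 := congrArg (fun g : GL (Fin 2) L => (g : Mt L)) hnm3
        rw [nm_val D.nbM (QM_fixed hq3.1) hy3, hu, Units.val_mul, Units.val_mul, hx1, mul_add,
          add_mul, mul_one, ← Units.val_mul, inv_mul_cancel, Units.val_one] at e1
        exact add_left_cancel e1
    have hy3eq : y3 = Y⁻¹ * y1 * Y := by
      apply Units.ext
      rw [hy3, Units.val_mul, Units.val_mul, hy1, hq3eq, mul_add, add_mul, mul_one,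
        ← Units.val_mul, inv_mul_cancel, Units.val_one, ← mul_assoc (↑Y⁻¹ : Mt L), ← sc_comm]
      simp only [mul_assoc]
    refine ⟨ProjGenLinGroup.mk H1⁻¹, ⟨H1⁻¹, (GH D).inv_mem hH1m, rfl⟩, ?_, ?_⟩
    · show _ * _ = _ * _
      rw [← map_mul, ← map_mul, (hH1c.inv_left).eq]
    · rw [sP_mk, ← map_inv, ← map_inv, ← map_mul, ← map_mul, ← map_mul, ← map_mul, ← hy3eq]
      have e1 : H1⁻¹⁻¹ * y3 * sG σ H1⁻¹ = y2 * W := by
        rw [inv_inv, ← h1, map_inv]; group
      rw [e1, map_mul, hW, ProjGenLinGroup.mk_scalar, mul_one]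

/-- **The local theorem.** -/
theorem local_fixed (D : VD v σ e π κ a b c) {γ : GL (Fin 2) L} (hγ : Good γ)
    (hσγ : sG σ γ = γ) {δ : PGL(2, L)} (hδ : Commute δ (ProjGenLinGroup.mk γ))
    (hN : nm (sP σ) δ = ProjGenLinGroup.mk γ) :
    ∃ t, Commute t (ProjGenLinGroup.mk γ) ∧
      (∀ y, sP σ y = y → y⁻¹ * ProjGenLinGroup.mk γ * y ∈ HP D →
        ∀ η, RP v σ e a b c (y⁻¹ * ProjGenLinGroup.mk γ * y) η →
        ∃ h ∈ HP D, (t * y)⁻¹ * δ * sP σ (t * y) = h * η * (sP σ h)⁻¹) ∧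
      (∀ g, g⁻¹ * δ * sP σ g ∈ HP D →
        ∃ y, sP σ y = y ∧ y⁻¹ * ProjGenLinGroup.mk γ * y ∈ HP D ∧
          ∃ h ∈ HP D, g = t * y * h) :=
  fixed_points (normRoots D) (by rw [sP_mk, hσγ]) (good_comm hγ) (good_H1 D.toNb D.nbM hγ hσγ)
    hδ hN

end Fermat.Agent.H43Z5
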