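import Fermat.Agent.H65S8
import Fermat.Agent.H57CDict
import Fermat.Agent.H79SDef

/-!
# H65S9: the `F` side of the local matching at a bad nonsplit place

`Tf T` = the function `χ⁻¹` on `H`, zero outside; `Tpsi T γ` the weight `y ↦ Tf (y⁻¹ γ y)` on
`PGL(2, F) ⧸ H`; `locF`: the idempotent of the type matches with it.
-/

set_option autoImplicit false

noncomputable section

namespace Fermat.Agent.H65.S47

open Fermat.Agent.H57C Fermat.Agent.H76U Fermat.Agent.H59XF Fermat.Agent.H79S Matrix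
open IsDedekindDomain NumberField
open scoped MatrixGroups

variable {K : Type*} [Field K] (T : TD K)

theorem chi_ne_zero {x : PGL(2, K)} (hx : x ∈ T.H) : T.chi x ≠ 0 := by
  intro h
  have h1 := T.chi_mul hx (T.H.inv_mem hx)
  rw [mul_inv_cancel, T.chi_one, h, zero_mul] at h1
  exact one_ne_zero h1

open Classical in
/-- The function of the type. -/
def Tf (x : PGL(2, K)) : ℂ := if x ∈ T.H then (T.chi x)⁻¹ else 0

theorem Tf_of_mem {x : PGL(2, K)} (hx : x ∈ T.H) : Tf T x = (T.chi x)⁻¹ := if_pos hx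

theorem Tf_of_notMem {x : PGL(2, K)} (hx : x ∉ T.H) : Tf T x = 0 := if_neg hx

theorem Tf_ne_zero (x : PGL(2, K)) : Tf T x ≠ 0 ↔ x ∈ T.H := by
  constructor
  · intro h
    by_contra hx
    exact h (Tf_of_notMem T hx)
  · intro hx
    rw [Tf_of_mem T hx]
    exact inv_ne_zero (chi_ne_zero T hx)

/-- twisted invariance -/
theorem Tf_twist {s : PGL(2, K) → PGL(2, K)} (hs : ∀ h ∈ T.H, s h ∈ T.H)
    (hchi : ∀ h ∈ T.H, T.chi (s h) = T.chi h) (x h : PGL(2, K)) (hh : h ∈ T.H) :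
    Tf T (h⁻¹ * x * s h) = Tf T x := by
  by_cases hx : x ∈ T.H
  · have h1 : h⁻¹ * x ∈ T.H := T.H.mul_mem (T.H.inv_mem hh) hx
    rw [Tf_of_mem T hx, Tf_of_mem T (T.H.mul_mem h1 (hs h hh)), T.chi_mul h1 (hs h hh),
      T.chi_mul (T.H.inv_mem hh) hx, hchi h hh]
    have h2 := T.chi_mul (T.H.inv_mem hh) hh
    rw [inv_mul_cancel, T.chi_one] at h2
    congr 1
    calc T.chi h⁻¹ * T.chi x * T.chi h = (T.chi h⁻¹ * T.chi h) * T.chi x := by ring
      _ = T.chi x := by rw [← h2, one_mul]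
  · have h1 : h⁻¹ * x * s h ∉ T.H := by
      intro h2
      apply hx
      have h3 : x = h * (h⁻¹ * x * s h) * (s h)⁻¹ := by group
      rw [h3]
      exact T.H.mul_mem (T.H.mul_mem hh h2) (T.H.inv_mem (hs h hh))
    rw [Tf_of_notMem T hx, Tf_of_notMem T h1]

theorem Tf_conj (x h : PGL(2, K)) (hh : h ∈ T.H) : Tf T (h⁻¹ * x * h) = Tf T x :=
  Tf_twist T (s := id) (fun _ h => h) (fun _ _ => rfl) x h hh

/-- The weight on `PGL(2, F) ⧸ H`. -/
def Tpsi (γ : PGL(2, K)) (y : PGL(2, K) ⧸ T.H) : ℂ :=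
  Quotient.liftOn' y (fun y => Tf T (y⁻¹ * γ * y)) (by
    intro a b hab
    have h1 : a⁻¹ * b ∈ T.H := QuotientGroup.leftRel_apply.mp hab
    show Tf T (a⁻¹ * γ * a) = Tf T (b⁻¹ * γ * b)
    have h2 : b⁻¹ * γ * b = (a⁻¹ * b)⁻¹ * (a⁻¹ * γ * a) * (a⁻¹ * b) := by group
    rw [h2, Tf_conj T _ _ h1])

theorem Tpsi_mk (γ y : PGL(2, K)) :
    Tpsi T γ (y : PGL(2, K) ⧸ T.H) = Tf T (y⁻¹ * γ * y) := rfl

/-- the values of the idempotent of a type -/
theorem typ_k {U : Subgroup PGL(2, K)} {κ : LocKer U} (h : IsTyp κ T.H T.chi)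
    (g g' : PGL(2, K)) : κ.k (g : PGL(2, K) ⧸ U) (g' : PGL(2, K) ⧸ U) =
      ((U.relIndex T.H : ℕ) : ℂ)⁻¹ * Tf T (g⁻¹ * g') := by
  by_cases hg : g⁻¹ * g' ∈ T.H
  · rw [(h g g').1 hg, Tf_of_mem T hg, div_eq_inv_mul]
    rfl
  · rw [(h g g').2 hg, Tf_of_notMem T hg, mul_zero]

/-- **The `F` side.** -/
theorem typ_locMatch {U : Subgroup PGL(2, K)} (hU : U ≤ T.H)
    (hfin : (U.subgroupOf T.H).index ≠ 0) {κ : LocKer U} (h : IsTyp κ T.H T.chi)
    (γ : PGL(2, K)) {A : Type*} (a : A → PGL(2, K)) :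
    ∃ β : PGL(2, K) ⧸ U → PGL(2, K) ⧸ T.H,
      LocMatch (fun c x => a c • x) (fun c y => a c • y) (fun y => κ.k y (γ • y))
        (Tpsi T γ) β := by
  refine ⟨_, locMatch_F hU ⟨hfin⟩ (F' := Tf T) (Tf_conj T) (Tf_ne_zero T) (γ := γ) ?_
    (fun y => Tpsi_mk T γ y)⟩
  intro g
  show κ.k (g : PGL(2, K) ⧸ U) ((γ * g : PGL(2, K)) : PGL(2, K) ⧸ U) = _
  rw [typ_k T h, mul_assoc]

end Fermat.Agent.H65.S47
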