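import Fermat.Agent.H92T4
import Fermat.Agent.H59Def

/-!
# S47, package C-TR (helper92), part 5: level groups and additive characters in the completion

* `map_mk_eq_comap` : level groups given by matrices.
* `GLcong_eq_comap`, `Gam_eq_comap`, `U0_eq_comap` : the standard groups of `H59D`.
* `exists_char_hat` : extension of locally constant additive characters.
-/

set_option autoImplicit false

namespace Fermat.Agent.H92T

open WithZero Matrix IsDedekindDomain
open scoped MatrixGroups

section Groups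

variable {K L : Type*} [Field K] [Field L] {j : K →+* L} {v : Valuation L ℤᵐ⁰}

/-- A level group of `PGL₂(K)` given by matrices is the trace of the corresponding group of the
completion. -/
theorem map_mk_eq_comap (hD : DenseHom v j) {n : ℕ} {Hh : Subgroup (GL (Fin 2) L)}
    (hH : Gam v (n + 1) ≤ Hh) {H : Subgroup (GL (Fin 2) K)}
    (h : ∀ g, g ∈ H ↔ GeneralLinearGroup.map j g ∈ Hh) :
    H.map ProjGenLinGroup.mk =
      (Hh.map ProjGenLinGroup.mk).comap (ProjGenLinGroup.map (n := Fin 2) j) := by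
  rw [comap_map_mk hD hH]
  congr 1
  ext g
  rw [h]
  rfl

theorem PGam_le_map {n : ℕ} {Hh : Subgroup (GL (Fin 2) L)} (hH : Gam v n ≤ Hh) :
    PGam v n ≤ Hh.map ProjGenLinGroup.mk :=
  Subgroup.map_mono hH

theorem Gam_mono {n m : ℕ} (h : n ≤ m) : Gam v m ≤ Gam v n := by
  intro g hg
  refine ⟨fun i k => (hg.1 i k).trans ?_, fun i k => (hg.2 i k).trans ?_⟩ <;>
  · rw [exp_le_exp]
    have : (n : ℤ) ≤ m := by exact_mod_cast h
    linarith

theorem one_sub_entry {g : GL (Fin 2) K} (i k : Fin 2) :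
    (GeneralLinearGroup.map j g).1 i k - (1 : Matrix (Fin 2) (Fin 2) L) i k =
      j (g.1 i k - (1 : Matrix (Fin 2) (Fin 2) K) i k) := by
  rw [map_sub]
  congr 1
  rw [Matrix.one_apply, Matrix.one_apply]
  split_ifs <;> simp

end Groups

section Adic

variable {R : Type*} [CommRing R] [IsDedekindDomain R] {K : Type*} [Field K] [Algebra R K]
  [IsFractionRing R K] (w : HeightOneSpectrum R)
  {L : Type*} [Field L] {j : K →+* L} {v : Valuation L ℤᵐ⁰}

/-- entries of `g` and `g⁻¹` near `1` are the same thing as being in `GLcong`. -/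
theorem mem_GLcong_iff (hv : ∀ x, v (j x) = w.valuation K x) {n : ℕ} {g : GL (Fin 2) K} :
    g ∈ H59D.GLcong w n ↔ GeneralLinearGroup.map j g ∈ Gam v n := by
  have key : ∀ g : GL (Fin 2) K, (∀ i k, w.valuation K (g.1 i k -
      (1 : Matrix (Fin 2) (Fin 2) K) i k) ≤ exp (-(n : ℤ))) ↔
      (∀ i k, v ((GeneralLinearGroup.map j g).1 i k - (1 : Matrix (Fin 2) (Fin 2) L) i k) ≤
        exp (-(n : ℤ))) := by
    intro g
    simp only [one_sub_entry, hv]
  constructor
  · intro hg
    refine ⟨(key g).1 hg.2, ?_⟩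
    rw [← map_inv]
    exact (key g⁻¹).1 (inv_mem hg).2
  · intro hg
    have h1 := (key g).2 hg.1
    have h2 : ∀ i k, w.valuation K ((g⁻¹).1 i k -
      (1 : Matrix (Fin 2) (Fin 2) K) i k) ≤ exp (-(n : ℤ)) := (key g⁻¹).2 (by
        rw [map_inv]; exact hg.2)
    have hle : exp (-(n : ℤ)) ≤ (1 : ℤᵐ⁰) := by
      rw [← exp_zero, exp_le_exp]
      have := Int.natCast_nonneg n
      linarith
    have h3 : ∀ (g : GL (Fin 2) K), (∀ i k, w.valuation K (g.1 i k -
      (1 : Matrix (Fin 2) (Fin 2) K) i k) ≤ exp (-(n : ℤ))) →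
        (∀ i k, w.valuation K (g.1 i k) ≤ 1) := by
      intro g hg i k
      have e : g.1 i k = (g.1 i k - (1 : Matrix (Fin 2) (Fin 2) K) i k) +
        (1 : Matrix (Fin 2) (Fin 2) K) i k := by ring
      rw [e]
      refine (Valuation.map_add _ _ _).trans (max_le ((hg i k).trans hle) ?_)
      rw [Matrix.one_apply]
      split_ifs <;> simp
    have hdet : ∀ (g : GL (Fin 2) K), (∀ i k, w.valuation K (g.1 i k) ≤ 1) →
        w.valuation K g.1.det ≤ 1 := by
      intro g hg
      rw [Matrix.det_fin_two]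
      refine (Valuation.map_sub _ _ _).trans (max_le ?_ ?_) <;>
      · rw [map_mul]
        exact mul_le_one' (hg _ _) (hg _ _)
    refine ⟨⟨h3 g h1, le_antisymm (hdet g (h3 g h1)) ?_⟩, h1⟩
    have h4 := hdet g⁻¹ (h3 _ h2)
    have h5 : (g⁻¹).1.det = g.1.det⁻¹ := by
      rw [Matrix.coe_units_inv, Matrix.det_nonsing_inv, Ring.inverse_eq_inv']
    rw [h5, map_inv₀] at h4
    have h6 : w.valuation K g.1.det ≠ 0 := (Valuation.ne_zero_iff _).2 g.det.ne_zero
    exact (inv_le_one₀ (zero_lt_iff.2 h6)).1 h4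

theorem Gam_eq_comap (hD : DenseHom v j) (hv : ∀ x, v (j x) = w.valuation K x) (n : ℕ) :
    H59D.Gam (K := K) w n = (PGam v n).comap (ProjGenLinGroup.map (n := Fin 2) j) :=
  map_mk_eq_comap hD (Gam_mono (Nat.le_succ n)) fun _ => mem_GLcong_iff w hv

theorem GLw_eq_GLcong_zero : (H59D.GLw w : Subgroup (GL (Fin 2) K)) = H59D.GLcong w 0 := by
  refine le_antisymm ?_ (H59D.GLcong_le w 0)
  intro g hg
  refine ⟨hg, fun i k => ?_⟩
  refine (Valuation.map_sub _ _ _).trans (max_le ?_ ?_)
  · simpa using hg.1 i k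
  · rw [Matrix.one_apply]
    split_ifs <;> simp

theorem U0_eq_comap (hD : DenseHom v j) (hv : ∀ x, v (j x) = w.valuation K x) :
    H59D.U0 (K := K) w = (PGam v 0).comap (ProjGenLinGroup.map (n := Fin 2) j) := by
  rw [H59D.U0, GLw_eq_GLcong_zero, ← Gam_eq_comap w hD hv 0]
  rfl

end Adic

section Char

variable {K L : Type*} [Field K] [Field L] {j : K →+* L} {v : Valuation L ℤᵐ⁰}

/-- **Extension of locally constant additive characters** to the completion. -/
theorem exists_char_hat (hD : DenseHom v j) {M : Type*} [CommMonoid M] (ψ : AddChar K M) (n : ℤ)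
    (hψ : ∀ x, v (j x) ≤ exp n → ψ x = 1) :
    ∃ ψh : AddChar L M, (∀ x, ψh (j x) = ψ x) ∧ ∀ x, v x ≤ exp n → ψh x = 1 := by
  have hn : ∀ x : L, ∃ k : K, v (x - j k) ≤ exp n := by
    intro x
    obtain ⟨k, hk⟩ := hD x (-n).toNat
    refine ⟨k, hk.trans ?_⟩
    rw [exp_le_exp]
    have := Int.self_le_toNat (-n)
    linarith
  choose f hf using hn
  have key : ∀ (x : L) (k : K), v (x - j k) ≤ exp n → ψ (f x) = ψ k := by
    intro x k hk
    have h1 : ψ (f x - k) = 1 := by
      apply hψ
      have e : j (f x - k) = (x - j k) - (x - j (f x)) := by rw [map_sub]; ring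
      rw [e]
      exact (Valuation.map_sub _ _ _).trans (max_le hk (hf x))
    have h2 : ψ (f x) = ψ (f x - k) * ψ k := by
      rw [← AddChar.map_add_eq_mul, sub_add_cancel]
    rw [h2, h1, one_mul]
  refine ⟨⟨fun x => ψ (f x), ?_, ?_⟩, ?_, ?_⟩
  · rw [key 0 0 (by simp), AddChar.map_zero_eq_one]
  · intro x y
    rw [key (x + y) (f x + f y), AddChar.map_add_eq_mul]
    have e : x + y - j (f x + f y) = (x - j (f x)) + (y - j (f y)) := by rw [map_add]; ring
    rw [e]
    exact (Valuation.map_add _ _ _).trans (max_le (hf x) (hf y))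
  · intro x
    exact key (j x) x (by simp)
  · intro x hx
    show ψ (f x) = 1
    rw [key x 0 (by simpa using hx), AddChar.map_zero_eq_one]

end Char

end Fermat.Agent.H92T
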