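import Fermat.Agent.H43Z5
import Fermat.Agent.H43ZDef
import Fermat.Agent.H65S9
import Fermat.Agent.H92T5

/-!
# C13, part 6: the coset bijection over the completion
-/

set_option autoImplicit false
set_option linter.unusedSectionVars false

namespace Fermat.Agent.H43Z6

open Fermat.Agent.H43Z1 Fermat.Agent.H43Z2 Fermat.Agent.H43Z3 Fermat.Agent.H43Z4
  Fermat.Agent.H43Z5 Fermat.Agent.H76U Fermat.Agent.H92T Fermat.Agent.H65.S47 Matrix WithZero
open scoped MatrixGroups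

/-! ## The completed types -/

variable {L : Type*} [Field L] {v : Valuation L ℤᵐ⁰} {σ : L ≃+* L} {e π : L} {κ a b c : ℤᵐ⁰}

/-- The types over the completion and its fixed field. -/
structure TT (v : Valuation L ℤᵐ⁰) (σ : L ≃+* L) (e : L) (a b c : ℤᵐ⁰) (TE : TD L)
    (TF : TD (fixF σ)) : Prop where
  A : ∀ x, x ∈ TE.A ↔ x ∈ H43Z3.Lat v σ e a
  B : ∀ x, x ∈ TE.B ↔ x ∈ H43Z3.Lat v σ e b
  C : ∀ x, x ∈ TE.C ↔ x ∈ H43Z3.Lat v σ e c
  A' : ∀ x : fixF σ, x ∈ TF.A ↔ v (x : L) ≤ a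
  B' : ∀ x : fixF σ, x ∈ TF.B ↔ v (x : L) ≤ b
  C' : ∀ x : fixF σ, x ∈ TF.C ↔ v (x : L) ≤ c
  psi_tr : ∀ (x : L) (y : fixF σ), (y : L) = tr3 σ x → TE.psi x = TF.psi y
  psi1 : ∀ x : fixF σ, v (x : L) ≤ a * b → TF.psi x = 1
  nu1 : v (e * σ e * σ (σ e)) * a ≤ 1

namespace TT

variable {TE : TD L} {TF : TD (fixF σ)}

theorem GH_eq (D : VD v σ e π κ a b c) (h : TT v σ e a b c TE TF) : TE.GH = GH D := by
  ext g
  rw [mem_GH_iff, TD.mem_GH, h.A, h.B, h.C, h.A]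

theorem H_eq (D : VD v σ e π κ a b c) (h : TT v σ e a b c TE TF) : TE.H = HP D := by
  rw [TD.H, h.GH_eq D]; rfl

/-- the trace in the fixed field -/
def trF (D : VD v σ e π κ a b c) (x : L) : fixF σ := ⟨tr3 σ x, s_tr3 σ D.s3 x⟩

theorem chi_sP (D : VD v σ e π κ a b c) (h : TT v σ e a b c TE TF) {x : PGL(2, L)}
    (hx : x ∈ TE.H) : sP σ x ∈ TE.H ∧ TE.chi (sP σ x) = TE.chi x := by
  obtain ⟨g, hg, rfl⟩ := hx
  have hg' : sG σ g ∈ TE.GH := by
    rw [h.GH_eq D] at hg ⊢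
    exact sG_mem hg
  refine ⟨⟨sG σ g, hg', rfl⟩, ?_⟩
  show TE.chi (ProjGenLinGroup.mk (sG σ g)) = TE.chi (ProjGenLinGroup.mk g)
  rw [TE.chi_of_mem hg', TE.chi_of_mem hg]
  rw [h.psi_tr (g 0 1) (trF D (g 0 1)) rfl, h.psi_tr _ (trF D (g 0 1))]
  show tr3 σ (g 0 1) = tr3 σ (σ (g 0 1))
  rw [tr3_s σ D.s3]

/-- `ι` maps the small group to the big group. -/
theorem le (D : VD v σ e π κ a b c) (h : TT v σ e a b c TE TF) {y : PGL(2, fixF σ)}
    (hy : y ∈ TF.H) : ProjGenLinGroup.map (fixF σ).subtype y ∈ TE.H := by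
  obtain ⟨g, hg, rfl⟩ := hy
  refine ⟨GeneralLinearGroup.map (fixF σ).subtype g, ?_, rfl⟩
  have e1 : ∀ i j, (GeneralLinearGroup.map (fixF σ).subtype g) i j = ((g i j : fixF σ) : L) :=
    fun i j => rfl
  obtain ⟨h1, h2, h3, h4⟩ := hg
  rw [h.A'] at h1 h4
  rw [h.B'] at h2
  rw [h.C'] at h3
  show GeneralLinearGroup.map (fixF σ).subtype g ∈ TE.GH
  rw [TD.mem_GH, h.A, h.B, h.C, h.A]
  simp only [e1]
  refine ⟨?_, ?_, ?_, ?_⟩
  · have : ((g 0 0 : fixF σ) : L) - 1 = ((g 0 0 - 1 : fixF σ) : L) := by simp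
    rw [this]
    exact D.fixed_mem_Lat (g 0 0 - 1).2 h1
  · exact D.fixed_mem_Lat (g 0 1).2 h2
  · exact D.fixed_mem_Lat (g 1 0).2 h3
  · have : ((g 1 1 : fixF σ) : L) - 1 = ((g 1 1 - 1 : fixF σ) : L) := by simp
    rw [this]
    exact D.fixed_mem_Lat (g 1 1 - 1).2 h4

/-- a fixed matrix descends -/
theorem descend {g : GL (Fin 2) L} (hg : sG σ g = g) :
    ∃ g' : GL (Fin 2) (fixF σ), GeneralLinearGroup.map (fixF σ).subtype g' = g := by
  have hfix : ∀ i j, σ ((g : Mt L) i j) = (g : Mt L) i j := by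
    intro i j
    have h1 := congrArg (fun g : GL (Fin 2) L => (g : Mt L) i j) hg
    exact h1
  let M : Matrix (Fin 2) (Fin 2) (fixF σ) := fun i j => ⟨(g : Mt L) i j, hfix i j⟩
  have hM : (fixF σ).subtype M.det = (g : Mt L).det := by
    rw [det_fin_two, det_fin_two, map_sub, map_mul, map_mul]
    rfl
  have hM0 : M.det ≠ 0 := by
    intro h0
    rw [h0, map_zero] at hM
    exact g.det.ne_zero hM.symm
  refine ⟨GeneralLinearGroup.mkOfDetNeZero M hM0, ?_⟩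
  ext i j
  rfl

/-- An element of the big group coming from the fixed field is in the small group, with a norm
root. -/
theorem root (D : VD v σ e π κ a b c) (h : TT v σ e a b c TE TF) {y : PGL(2, fixF σ)}
    (hy : ProjGenLinGroup.map (fixF σ).subtype y ∈ TE.H) :
    y ∈ TF.H ∧ ∃ η, RP v σ e a b c (ProjGenLinGroup.map (fixF σ).subtype y) η ∧
      TE.chi η = TF.chi y := by
  have hfix : sP σ (ProjGenLinGroup.map (fixF σ).subtype y) =
      ProjGenLinGroup.map (fixF σ).subtype y := H10T.map_sigma_fix y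
  rw [h.H_eq D] at hy
  obtain ⟨η, hη⟩ := (normRoots D).exists_root _ hy hfix
  obtain ⟨x', y', hx', hy', hR⟩ := hη
  have hm1 := RG_mem1 D hR
  obtain ⟨g', hg'⟩ := descend (fixed_of_mem hm1)
  have hyg : y = ProjGenLinGroup.mk g' := by
    apply H10T.pgl_map_injective (fixF σ).subtype
    rw [← hx', ProjGenLinGroup.map_mk, hg']
  have hval : ∀ i j, ((g' i j : fixF σ) : L) = (x' : Mt L) i j := by
    intro i j
    rw [← hg']; rfl
  obtain ⟨h1, h2, h3, h4⟩ := QM_entries hm1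
  simp only [Matrix.sub_apply, Matrix.one_apply_eq,
    Matrix.one_apply_ne (show (0 : Fin 2) ≠ 1 by decide),
    Matrix.one_apply_ne (show (1 : Fin 2) ≠ 0 by decide), sub_zero] at h1 h2 h3 h4
  have hgm : g' ∈ TF.GH := by
    rw [TD.mem_GH, h.A', h.B', h.C', h.A']
    refine ⟨?_, ?_, ?_, ?_⟩
    · have : ((g' 0 0 - 1 : fixF σ) : L) = (x' : Mt L) 0 0 - 1 := by
        rw [← hval]; simp
      rw [this]; exact h1
    · rw [hval]; exact h2
    · rw [hval]; exact h3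
    · have : ((g' 1 1 - 1 : fixF σ) : L) = (x' : Mt L) 1 1 - 1 := by
        rw [← hval]; simp
      rw [this]; exact h4
  refine ⟨⟨g', hgm, hyg.symm⟩, η, ⟨x', y', hx', hy', hR⟩, ?_⟩
  have hym : y' ∈ TE.GH := by rw [h.GH_eq D]; exact RG_memR D hR
  rw [← hy', hyg, TE.chi_of_mem hym, TF.chi_of_mem hgm]
  obtain ⟨q, hq, hx, hy⟩ := hR
  have hq01 : σ (q 0 1) = q 0 1 := hq.2.1.1
  have e1 : y' 0 1 = e * q 0 1 := by
    show (y' : Mt L) 0 1 = _
    rw [hy, Matrix.add_apply, Matrix.one_apply_ne (by decide), zero_add, sc_mul_apply]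
  have e2 : TE.psi (y' 0 1) = TF.psi ⟨q 0 1, hq01⟩ := by
    apply h.psi_tr
    rw [e1, tr3_mul_fixed σ hq01]
    show q 0 1 = (e + σ e + σ (σ e)) * q 0 1
    rw [D.tr, one_mul]
  rw [e2]
  -- the cubic term
  obtain ⟨k1, k2, k3, k4⟩ := QM_entries hq
  have hnu : nu σ e = sc (e * σ e * σ (σ e)) := by
    simp only [nu, sM_sc]
    rw [sc_mul, sc_mul]
  set ν := e * σ e * σ (σ e) with hν
  have e3 : ((g' 0 1 : fixF σ) : L) = q 0 1 + ν * (q * q * q) 0 1 := by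
    rw [hval, hx, Matrix.add_apply, Matrix.one_apply_ne (by decide), zero_add, Matrix.add_apply,
      hnu, sc_mul_apply]
  have hq2 : ∀ i j, (q * q) i j = q i 0 * q 0 j + q i 1 * q 1 j := by
    intro i j
    rw [Matrix.mul_apply, Fin.sum_univ_two]
  have hqqq : v ((q * q * q) 0 1) ≤ a * (a * b) := by
    rw [Matrix.mul_apply, Fin.sum_univ_two, hq2, hq2]
    have f1 : v (q 0 0 * q 0 0 + q 0 1 * q 1 0) ≤ a * a := by
      refine v.map_add_le ?_ ?_
      · rw [map_mul]; exact mul_le_mul' k1 k1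
      · rw [map_mul]; exact (mul_le_mul' k2 k3).trans D.bc
    have f2 : v (q 0 0 * q 0 1 + q 0 1 * q 1 1) ≤ a * b := by
      refine v.map_add_le ?_ ?_
      · rw [map_mul]; exact mul_le_mul' k1 k2
      · rw [map_mul, mul_comm]; exact mul_le_mul' k4 k2
    refine v.map_add_le ?_ ?_
    · rw [map_mul, ← mul_assoc]; exact mul_le_mul' f1 k2
    · rw [map_mul, mul_comm]; exact mul_le_mul' k4 f2
  have hsmall : v (ν * (q * q * q) 0 1) ≤ a * b := by
    rw [map_mul]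
    calc v ν * v ((q * q * q) 0 1) ≤ v ν * (a * (a * b)) := mul_le_mul' le_rfl hqqq
      _ = (v ν * a) * (a * b) := by rw [mul_assoc]
      _ ≤ 1 * (a * b) := mul_le_mul' h.nu1 le_rfl
      _ = a * b := one_mul _
  have hdiff : TF.psi (g' 0 1 - ⟨q 0 1, hq01⟩) = 1 := by
    apply h.psi1
    have : ((g' 0 1 - ⟨q 0 1, hq01⟩ : fixF σ) : L) = ν * (q * q * q) 0 1 := by
      push_cast
      rw [e3]; ring
    rw [this]
    exact hsmall
  have e4 : (g' 0 1 : fixF σ) = (g' 0 1 - ⟨q 0 1, hq01⟩) + ⟨q 0 1, hq01⟩ := by ring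
  rw [e4, AddChar.map_add_eq_mul, hdiff, one_mul]

/-- **The coset bijection.** -/
theorem cosetBij (D : VD v σ e π κ a b c) (hσ : ∃ x, σ x ≠ x) (h : TT v σ e a b c TE TF)
    {γ : GL (Fin 2) (fixF σ)}
    (hγ : Good (GeneralLinearGroup.map (fixF σ).subtype γ)) {δ : PGL(2, L)}
    (hN : nm (sP σ) δ = ProjGenLinGroup.map (fixF σ).subtype (ProjGenLinGroup.mk γ)) :
    ∃ τ : PGL(2, L), Commute τ (ProjGenLinGroup.map (fixF σ).subtype (ProjGenLinGroup.mk γ)) ∧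
      CosetBij (ProjGenLinGroup.map (fixF σ).subtype) (sP σ) TE.H TF.H (Tf TE) (Tf TF) δ
        (ProjGenLinGroup.mk γ) τ := by
  set g := GeneralLinearGroup.map (fixF σ).subtype γ with hg
  have hι : ProjGenLinGroup.map (fixF σ).subtype (ProjGenLinGroup.mk γ) =
      ProjGenLinGroup.mk g := rfl
  rw [hι] at hN ⊢
  have hσg : sG σ g = g := by
    ext i j
    exact (γ i j).2
  have hδ : Commute δ (ProjGenLinGroup.mk g) := by
    refine H10T.comm_of_norm (sP σ) (sP3 D.s3) ?_ hN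
    rw [sP_mk, hσg]
  obtain ⟨τ, hτ, h1, h2⟩ := local_fixed D hγ hσg hδ hN
  have hfix : ∀ y : PGL(2, fixF σ), sP σ (ProjGenLinGroup.map (fixF σ).subtype y) =
      ProjGenLinGroup.map (fixF σ).subtype y := fun y => H10T.map_sigma_fix y
  have hconj : ∀ y : PGL(2, fixF σ), (ProjGenLinGroup.map (fixF σ).subtype y)⁻¹ *
      ProjGenLinGroup.mk g * ProjGenLinGroup.map (fixF σ).subtype y =
      ProjGenLinGroup.map (fixF σ).subtype (y⁻¹ * ProjGenLinGroup.mk γ * y) := by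
    intro y
    rw [map_mul, map_mul, map_inv]; rfl
  have hinj : ∀ y : PGL(2, fixF σ), ProjGenLinGroup.map (fixF σ).subtype y ∈ TE.H → y ∈ TF.H :=
    fun y hy => (h.root D hy).1
  have hinv : ∀ x h', h' ∈ TE.H → Tf TE (h'⁻¹ * x * sP σ h') = Tf TE x := fun x h' hh' =>
    Tf_twist TE (fun y hy => (h.chi_sP D hy).1) (fun y hy => (h.chi_sP D hy).2) x h' hh'
  refine ⟨τ, hτ, ⟨?_, ?_, hinj, fun y hy => h.le D hy, hinv, Tf_conj TF,
    fun x hx => (Tf_ne_zero TE x).1 hx, Tf_ne_zero TF⟩⟩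
  · -- values
    intro y hy
    have hy' : ProjGenLinGroup.map (fixF σ).subtype (y⁻¹ * ProjGenLinGroup.mk γ * y) ∈ TE.H :=
      h.le D hy
    obtain ⟨-, η, hη, hχ⟩ := h.root D hy'
    have hmem : (ProjGenLinGroup.map (fixF σ).subtype y)⁻¹ * ProjGenLinGroup.mk g *
        ProjGenLinGroup.map (fixF σ).subtype y ∈ HP D := by
      rw [hconj, ← h.H_eq D]; exact hy'
    obtain ⟨h', hh', heq⟩ := h1 _ (hfix y) hmem η (by rw [hconj]; exact hη)
    rw [heq]
    rw [← h.H_eq D] at hh'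
    have e1 : h' * η * (sP σ h')⁻¹ = (h'⁻¹)⁻¹ * η * sP σ h'⁻¹ := by rw [inv_inv, map_inv]
    rw [e1, hinv η h'⁻¹ (TE.H.inv_mem hh')]
    have hηm : η ∈ TE.H := by rw [h.H_eq D]; exact (normRoots D).memR _ _ hη
    rw [Tf_of_mem TE hηm, Tf_of_mem TF hy, hχ]
  · -- surjectivity
    intro x hx
    rw [h.H_eq D] at hx
    obtain ⟨y, hy, hyH, h', hh', hxy⟩ := h2 x hx
    obtain ⟨y0, rfl⟩ := H10T.descend_PGL D.s3 hσ y hy
    refine ⟨y0, ?_, ?_⟩
    · apply hinj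
      rw [← hconj, h.H_eq D]
      exact hyH
    · rw [hxy, h.H_eq D]
      have e1 : (τ * ProjGenLinGroup.map (fixF σ).subtype y0 * h')⁻¹ *
          (τ * ProjGenLinGroup.map (fixF σ).subtype y0) = h'⁻¹ := by group
      rw [e1]
      exact (HP D).inv_mem hh'

end TT

end Fermat.Agent.H43Z6
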