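import Fermat.Agent.H43Z6

/-!
# C13, part 7: types over a field and over its completion
-/

set_option autoImplicit false
set_option linter.unusedSectionVars false

namespace Fermat.Agent.H43Z7

open Fermat.Agent.H76U Fermat.Agent.H92T Fermat.Agent.H65.S47 Matrix WithZero
open scoped MatrixGroups

/-! ### Indices -/

theorem relIndex_hat {G Gh : Type*} [Group G] [Group Gh] {j : G →* Gh} {Uh Hh : Subgroup Gh}
    (hUH : Uh ≤ Hh) (hA : Approx j Uh) :
    (Uh.comap j).relIndex (Hh.comap j) = Uh.relIndex Hh := by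
  have hA' : Approx (j.subgroupComap Hh) (Uh.subgroupOf Hh) := by
    intro g
    obtain ⟨x, hx⟩ := hA (g : Gh)
    have hjx : j x ∈ Hh := by
      have : j x = g * ((g : Gh)⁻¹ * j x) := by group
      rw [this]
      exact Hh.mul_mem g.2 (hUH hx)
    refine ⟨⟨x, hjx⟩, ?_⟩
    rw [Subgroup.mem_subgroupOf]
    exact hx
  exact Nat.card_congr (cosetEquiv hA')

/-! ### Compatible types -/

section Comp

variable {K L : Type*} [Field K] [Field L] {j : K →+* L} {v : Valuation L ℤᵐ⁰}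

/-- `T` is the trace on `K` of the type `Th` over `L`. -/
structure CompT (j : K →+* L) (T : TD K) (Th : TD L) : Prop where
  A : ∀ x, x ∈ T.A ↔ j x ∈ Th.A
  B : ∀ x, x ∈ T.B ↔ j x ∈ Th.B
  C : ∀ x, x ∈ T.C ↔ j x ∈ Th.C
  psi : ∀ x, T.psi x = Th.psi (j x)

namespace CompT

variable {T : TD K} {Th : TD L} (h : CompT j T Th)

include h

theorem mem_GH (g : GL (Fin 2) K) : g ∈ T.GH ↔ GeneralLinearGroup.map j g ∈ Th.GH := by
  rw [TD.mem_GH, TD.mem_GH, h.A, h.B, h.C, h.A, map_sub, map_sub, map_one]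
  rfl

theorem chi (x : PGL(2, K)) : T.chi x = Th.chi (ProjGenLinGroup.map j x) := by
  obtain ⟨g, rfl⟩ := ProjGenLinGroup.mk_surjective x
  rw [ProjGenLinGroup.map_mk, TD.chi_mk, TD.chi_mk, h.psi, map_div₀]
  rfl

theorem H_eq (hD : DenseHom v j) {n : ℕ} (hG : H92T.Gam v (n + 1) ≤ Th.GH) :
    T.H = Th.H.comap (ProjGenLinGroup.map (n := Fin 2) j) :=
  map_mk_eq_comap hD hG h.mem_GH

theorem U_eq (hD : DenseHom v j) {n : ℕ} (hG : H92T.Gam v (n + 1) ≤ Th.GH) :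
    T.U = Th.U.comap (ProjGenLinGroup.map (n := Fin 2) j) := by
  ext x
  rw [Subgroup.mem_comap, TD.mem_U, TD.mem_U, h.H_eq hD hG, Subgroup.mem_comap, h.chi]

theorem Tf_eq (hD : DenseHom v j) {n : ℕ} (hG : H92T.Gam v (n + 1) ≤ Th.GH) (x : PGL(2, K)) :
    Tf T x = Tf Th (ProjGenLinGroup.map j x) := by
  have hH := h.H_eq hD hG
  by_cases hx : x ∈ T.H
  · have hx' : ProjGenLinGroup.map j x ∈ Th.H := by rw [hH] at hx; exact hx
    rw [Tf_of_mem T hx, Tf_of_mem Th hx', h.chi]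
  · have hx' : ProjGenLinGroup.map j x ∉ Th.H := fun h' => hx (by rw [hH]; exact h')
    rw [Tf_of_notMem T hx, Tf_of_notMem Th hx']

end CompT

/-- Level groups of types over `L` are open. -/
theorem gam_le_hat {T : TD L} {n : ℕ} (h : ∀ x, v x ≤ exp (-(n : ℤ)) →
    x ∈ T.A ∧ x ∈ T.B ∧ x ∈ T.C ∧ T.psi x = 1) :
    H92T.Gam v n ≤ T.GH ∧ PGam v n ≤ T.U := by
  have key : ∀ x ∈ H92T.Gam v n, x ∈ T.GH ∧ T.psi (x 0 1) = 1 := by
    intro x hx
    have h00 := h _ (hx.1 0 0)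
    have h01 := h _ (hx.1 0 1)
    have h10 := h _ (hx.1 1 0)
    have h11 := h _ (hx.1 1 1)
    simp only [Matrix.one_apply, if_true, Fin.zero_eq_one_iff, OfNat.ofNat_ne_one, if_false,
      Fin.one_eq_zero_iff, sub_zero] at h00 h01 h10 h11
    exact ⟨⟨h00.1, h01.2.1, h10.2.2.1, h11.1⟩, h01.2.2.2⟩
  refine ⟨fun x hx => (key x hx).1, ?_⟩
  rintro _ ⟨x, hx, rfl⟩
  obtain ⟨h1, h2⟩ := key x hx
  refine ⟨⟨x, h1, rfl⟩, ?_⟩
  show T.chi (ProjGenLinGroup.mk x) = 1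
  rw [T.chi_of_mem h1]
  exact h2

end Comp

theorem exists_exp_le {x : ℤᵐ⁰} (hx : x ≠ 0) : ∃ n : ℕ, exp (-(n : ℤ)) ≤ x := by
  refine ⟨(-log x).toNat, ?_⟩
  conv_rhs => rw [← exp_log hx]
  rw [exp_le_exp]
  have := Int.self_le_toNat (-log x)
  omega

end Fermat.Agent.H43Z7
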