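import Fermat.Agent.H43Z7
import Fermat.Agent.H57CSet
import Fermat.Agent.H92Psi

/-!
# C13, part 8: local matching at the nonsplit bad places
-/

set_option autoImplicit false
set_option linter.unusedSectionVars false

namespace Fermat.Agent.H43Z8

open Fermat.Agent.H43Z Fermat.Agent.H43Z1 Fermat.Agent.H43Z2 Fermat.Agent.H43Z3
  Fermat.Agent.H43Z4 Fermat.Agent.H43Z5 Fermat.Agent.H43Z6 Fermat.Agent.H43Z7
  Fermat.Agent.H76U Fermat.Agent.H92T Fermat.Agent.H65.S47 Matrix WithZero IsDedekindDomain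
  NumberField
open scoped MatrixGroups

variable {F E : Type*} [Field F] [NumberField F] [Field E] [NumberField E] [Algebra F E]
  {s : E ≃ₐ[F] E} {w : HeightOneSpectrum (𝓞 E)} {v : HeightOneSpectrum (𝓞 F)}
  {TE : TD E} {TF : TD F} {D : SD E} {κ : ℤᵐ⁰} {π al be ga : F}
  {L : Type*} [Field L] {j : E →+* L} {vh : Valuation L ℤᵐ⁰} {σ : L ≃+* L}

/-- `SD.Lat` and the lattices of `H43Z3`. -/
theorem mem_SD_Lat {K : Type*} [Field K] (D : SD K) (v : Valuation K ℤᵐ⁰) {r : ℤᵐ⁰} {x : K} :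
    x ∈ D.Lat v r ↔ x ∈ H43Z3.Lat v D.s D.e r := by
  rw [SD.mem_Lat, H43Z3.mem_Lat]
  have h : ∀ y, D.T (x * y) = tr3 D.s (y * x) := fun y => by
    rw [mul_comm]; rfl
  constructor
  · intro hx
    have h0 := hx 0
    have h1 := hx 1
    have h2 := hx 2
    rw [h] at h0 h1 h2
    exact ⟨h0, h1, h2⟩
  · rintro ⟨h0, h1, h2⟩ i
    rw [h]
    fin_cases i
    · exact h0
    · exact h1
    · exact h2

theorem b_mem_one {K : Type*} [Field K] (D : SD K) (v : Valuation K ℤᵐ⁰) (i : Fin 3) :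
    D.b i ∈ D.Lat v 1 := by
  have h1 := D.sum_sq
  have h2 := D.e_zero
  have key : ∀ k : Fin 3, D.T (D.b i * D.b k) = 1 ∨ D.T (D.b i * D.b k) = 0 := by
    intro k
    fin_cases i <;> fin_cases k
    · left; show D.T (D.e * D.e) = 1
      simp only [SD.T, map_mul]; linear_combination h1
    · right; show D.T (D.e * D.s D.e) = 0
      simp only [SD.T, map_mul, D.s3]; linear_combination h2
    · right; show D.T (D.e * D.s (D.s D.e)) = 0
      simp only [SD.T, map_mul, D.s3]; linear_combination h2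
    · right; show D.T (D.s D.e * D.e) = 0
      simp only [SD.T, map_mul, D.s3]; linear_combination h2
    · left; show D.T (D.s D.e * D.s D.e) = 1
      simp only [SD.T, map_mul, D.s3]; linear_combination h1
    · right; show D.T (D.s D.e * D.s (D.s D.e)) = 0
      simp only [SD.T, map_mul, D.s3]; linear_combination h2
    · right; show D.T (D.s (D.s D.e) * D.e) = 0
      simp only [SD.T, map_mul, D.s3]; linear_combination h2
    · right; show D.T (D.s (D.s D.e) * D.s D.e) = 0
      simp only [SD.T, map_mul, D.s3]; linear_combination h2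
    · left; show D.T (D.s (D.s D.e) * D.s (D.s D.e)) = 1
      simp only [SD.T, map_mul, D.s3]; linear_combination h1
  intro k
  rcases key k with hk | hk
  · rw [hk, map_one]
  · rw [hk, map_zero]; exact zero_le

/-- The self-dual basis over the completion. -/
def hatSD (H : Hat j vh s.toRingEquiv σ (algebraMap F E)) (h : NS s w v TE TF D κ π al be ga) :
    SD L :=
  have h1 : σ (j D.e) = j (D.s D.e) := by
    rw [H.sh_j, h.s_eq]; rfl
  have h2 : σ (σ (j D.e)) = j (D.s (D.s D.e)) := by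
    rw [h1, H.sh_j, h.s_eq (D.s D.e)]; rfl
  { s := σ
    s3 := H.sh3
    e := j D.e
    e_one := by
      have := congrArg j D.e_one
      rw [h2, h1]
      simpa only [map_add, map_one] using this
    e_zero := by
      have := congrArg j D.e_zero
      rw [h2, h1]
      simpa only [map_add, map_mul, map_zero] using this }

section

variable (H : Hat j vh s.toRingEquiv σ (algebraMap F E)) (h : NS s w v TE TF D κ π al be ga)

@[simp] theorem hatSD_s : (hatSD H h).s = σ := rfl

@[simp] theorem hatSD_e : (hatSD H h).e = j D.e := rfl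

include H h in
theorem σ_j (x : E) : σ (j x) = j (D.s x) := by
  rw [H.sh_j, h.s_eq]; rfl

theorem hatSD_b (i : Fin 3) : (hatSD H h).b i = j (D.b i) := by
  fin_cases i
  · rfl
  · exact σ_j H h _
  · show σ (σ (j D.e)) = j (D.s (D.s D.e))
    rw [σ_j H h, σ_j H h]

theorem hatSD_T (x : E) : (hatSD H h).T (j x) = j (D.T x) := by
  show j x + σ (j x) + σ (σ (j x)) = j (x + D.s x + D.s (D.s x))
  rw [σ_j H h, σ_j H h, map_add, map_add]

theorem j_mem_Lat (hv : ∀ x, vh (j x) = w.valuation E x) {r : ℤᵐ⁰} {x : E} :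
    j x ∈ (hatSD H h).Lat vh r ↔ x ∈ D.Lat (w.valuation E) r := by
  rw [SD.mem_Lat, SD.mem_Lat]
  refine forall_congr' fun i => ?_
  rw [hatSD_b, ← map_mul, hatSD_T, hv]

theorem str_hat (hv : ∀ x, vh (j x) = w.valuation E x) (i k : Fin 3) :
    (hatSD H h).b i * (hatSD H h).b k ∈ (hatSD H h).Lat vh κ := by
  rw [hatSD_b, hatSD_b, ← map_mul, j_mem_Lat H h hv]
  exact h.str i k

/-- the iterates of the basis element -/
theorem iterate_b {K : Type*} [Field K] (D : SD K) (n : ℕ) : ∃ i : Fin 3, D.s^[n] D.e = D.b i := by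
  induction n with
  | zero => exact ⟨0, rfl⟩
  | succ n ih =>
    obtain ⟨i, hi⟩ := ih
    rw [Function.iterate_succ', Function.comp, hi]
    fin_cases i
    · exact ⟨1, rfl⟩
    · exact ⟨2, rfl⟩
    · exact ⟨0, D.s3 _⟩

theorem wne {x : F} (hx : x ≠ 0) : w.valuation E (algebraMap F E x) ≠ 0 := by
  rw [Valuation.ne_zero_iff]
  exact (map_ne_zero _).2 hx

include H h in
/-- The datum over the completion. -/
theorem hatVD (hv : ∀ x, vh (j x) = w.valuation E x) :
    VD vh σ (j D.e) (j (algebraMap F E π)) κ (w.valuation E (algebraMap F E al))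
      (w.valuation E (algebraMap F E be)) (w.valuation E (algebraMap F E ga)) where
  s3 := H.sh3
  eC x := Commute.all _ _
  t0 := (hatSD H h).sum_sq
  t1 := (hatSD H h).e_zero
  tr := (hatSD H h).e_one
  vσ := H.sh_v
  complete := H.compl
  sπ := H.fix_j π
  π0 := (map_ne_zero _).2 ((map_ne_zero _).2 h.π0)
  π1 := by rw [hv]; exact h.π1
  κ1 := h.κ1
  str i k l := by
    obtain ⟨i', hi⟩ := iterate_b (hatSD H h) i
    obtain ⟨k', hk⟩ := iterate_b (hatSD H h) k
    obtain ⟨l', hl⟩ := iterate_b (hatSD H h) l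
    rw [hatSD_s, hatSD_e] at hi hk hl
    rw [hi, hk, hl]
    exact str_hat H h hv i' k' l'
  a0 := wne h.al0
  b0 := wne h.be0
  c0 := wne h.ga0
  κa := by rw [hv]; exact h.κa
  bc := h.bc


/-! ### The types over the completion -/

section types

/-- the radii -/
noncomputable abbrev rd (w : HeightOneSpectrum (𝓞 E)) (x : F) : ℤᵐ⁰ := w.valuation E (algebraMap F E x)

include h in
theorem a_lt_one : rd w al < 1 := by
  have h1 : rd w al ≤ κ * rd w al := by
    calc rd w al = 1 * rd w al := (one_mul _).symm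
      _ ≤ κ * rd w al := mul_le_mul' h.κ1 le_rfl
  exact (h1.trans h.κa).trans_lt h.π1

include h in
theorem aκ_le : rd w al * κ ≤ 1 := by
  rw [mul_comm]
  exact h.κa.trans h.π1.le

include h in
theorem bcκ_le : rd w be * rd w ga * κ ≤ rd w al := by
  calc rd w be * rd w ga * κ ≤ rd w al * rd w al * κ := mul_le_mul' h.bc le_rfl
    _ = rd w al * (rd w al * κ) := by rw [mul_assoc]
    _ ≤ rd w al * 1 := mul_le_mul' le_rfl (aκ_le h)
    _ = rd w al := mul_one _

include h in
theorem bc_le : rd w be * rd w ga ≤ rd w al := by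
  calc rd w be * rd w ga ≤ rd w al * rd w al := h.bc
    _ ≤ rd w al * 1 := mul_le_mul' le_rfl (a_lt_one h).le
    _ = rd w al := mul_one _

/-- The additive character of the completion. -/
def psiE (H : Hat j vh s.toRingEquiv σ (algebraMap F E)) (ψ : AddChar (fixF σ) ℂ) :
    AddChar L ℂ where
  toFun x := ψ ⟨tr3 σ x, s_tr3 σ H.sh3 x⟩
  map_zero_eq_one' := by
    have : (⟨tr3 σ 0, s_tr3 σ H.sh3 0⟩ : fixF σ) = 0 := by
      apply Subtype.ext
      show tr3 σ 0 = 0
      simp
    rw [this, AddChar.map_zero_eq_one]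
  map_add_eq_mul' x y := by
    have : (⟨tr3 σ (x + y), s_tr3 σ H.sh3 _⟩ : fixF σ) =
        ⟨tr3 σ x, s_tr3 σ H.sh3 _⟩ + ⟨tr3 σ y, s_tr3 σ H.sh3 _⟩ := by
      apply Subtype.ext
      show tr3 σ (x + y) = tr3 σ x + tr3 σ y
      rw [tr3_add]
    rw [this, AddChar.map_add_eq_mul]

/-- The type over the completion. -/
noncomputable def hatTE (hv : ∀ x, vh (j x) = w.valuation E x) (ψ : AddChar (fixF σ) ℂ)
    (hψ : ∀ x : fixF σ, vh (x : L) ≤ rd w al * rd w be → ψ x = 1) : TD L :=
  (hatSD H h).td vh (str_hat H h hv) (a_lt_one h) (aκ_le h) (bcκ_le h) (psiE H ψ)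
    (fun _ hx => hψ _ hx)

/-- The type over the fixed field. -/
noncomputable def hatTF (ψ : AddChar (fixF σ) ℂ)
    (hψ : ∀ x : fixF σ, vh (x : L) ≤ rd w al * rd w be → ψ x = 1) : TD (fixF σ) :=
  TD.std (Hat.vF vh σ) (rd w al) (rd w be) (rd w ga) (a_lt_one h) (bc_le h) ψ hψ

theorem hatTT (hv : ∀ x, vh (j x) = w.valuation E x) (ψ : AddChar (fixF σ) ℂ)
    (hψ : ∀ x : fixF σ, vh (x : L) ≤ rd w al * rd w be → ψ x = 1) :
    TT vh σ (j D.e) (rd w al) (rd w be) (rd w ga) (hatTE H h hv ψ hψ) (hatTF h ψ hψ) where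
  A _ := mem_SD_Lat _ _
  B _ := mem_SD_Lat _ _
  C _ := mem_SD_Lat _ _
  A' _ := Iff.rfl
  B' _ := Iff.rfl
  C' _ := Iff.rfl
  psi_tr x y hy := by
    show ψ _ = ψ y
    congr 1
    exact Subtype.ext hy.symm
  psi1 x hx := hψ x hx
  nu1 := by
    -- `ν ∈ Lat (κ * κ)`
    have hb : ∀ i, (hatSD H h).b i ∈ (hatSD H h).Lat vh 1 := b_mem_one _ vh
    have h1 : j D.e * σ (j D.e) ∈ (hatSD H h).Lat vh κ := str_hat H h hv 0 1
    have h2 : j D.e * σ (j D.e) * σ (σ (j D.e)) ∈ (hatSD H h).Lat vh (κ * 1 * κ) :=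
      (hatSD H h).mul_mem vh (str_hat H h hv) h1 (hb 2)
    have h3 : σ (j D.e * σ (j D.e) * σ (σ (j D.e))) = j D.e * σ (j D.e) * σ (σ (j D.e)) := by
      rw [map_mul, map_mul, H.sh3]; ring
    have h4 := ((hatSD H h).mem_Lat_fixed vh h3).1 h2
    rw [mul_one] at h4
    exact (mul_le_mul' h4 le_rfl).trans h.κκ

/-- compatibility over `E` -/
theorem compE (hv : ∀ x, vh (j x) = w.valuation E x) (ψ : AddChar (fixF σ) ℂ)
    (hψ : ∀ x : fixF σ, vh (x : L) ≤ rd w al * rd w be → ψ x = 1)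
    (hψj : ∀ x : F, ψ (H.jF x) = TF.psi x)
    (psi_tr : ∀ x, TE.psi x = TF.psi (Algebra.trace F E x))
    (htr : ∀ x : E, algebraMap F E (Algebra.trace F E x) = x + s x + s (s x)) :
    CompT j TE (hatTE H h hv ψ hψ) where
  A x := by rw [h.A]; exact (j_mem_Lat H h hv).symm
  B x := by rw [h.B]; exact (j_mem_Lat H h hv).symm
  C x := by rw [h.C]; exact (j_mem_Lat H h hv).symm
  psi x := by
    rw [psi_tr, ← hψj]
    show ψ _ = ψ _
    congr 1
    apply Subtype.ext
    show j (algebraMap F E (Algebra.trace F E x)) = tr3 σ (j x)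
    rw [htr, map_add, map_add]
    show j x + j (s x) + j (s (s x)) = j x + σ (j x) + σ (σ (j x))
    rw [σ_j H h, σ_j H h, h.s_eq, h.s_eq]

include h in
theorem val_iff (hwv : w ∈ H82.above E v) (x y : F) :
    w.valuation E (algebraMap F E x) ≤ w.valuation E (algebraMap F E y) ↔
      v.valuation F x ≤ v.valuation F y := by
  rw [H82.valuation_above hwv, H82.valuation_above hwv]
  exact pow_le_pow_iff_left₀ zero_le zero_le (H82.ramificationIdx'_ne_zero hwv)

/-- compatibility over `F` -/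
theorem compF (hv : ∀ x, vh (j x) = w.valuation E x) (hwv : w ∈ H82.above E v)
    (ψ : AddChar (fixF σ) ℂ)
    (hψ : ∀ x : fixF σ, vh (x : L) ≤ rd w al * rd w be → ψ x = 1)
    (hψj : ∀ x : F, ψ (H.jF x) = TF.psi x) : CompT H.jF TF (hatTF h ψ hψ) where
  A x := by
    rw [h.A', mem_ball, ← val_iff h hwv, ← hv]
    rfl
  B x := by
    rw [h.B', mem_ball, ← val_iff h hwv, ← hv]
    rfl
  C x := by
    rw [h.C', mem_ball, ← val_iff h hwv, ← hv]
    rfl
  psi x := (hψj x).symm

include h in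
/-- The character of `F` extends. -/
theorem exists_psi (hv : ∀ x, vh (j x) = w.valuation E x) (hwv : w ∈ H82.above E v) :
    ∃ ψ : AddChar (fixF σ) ℂ, (∀ x : fixF σ, vh (x : L) ≤ rd w al * rd w be → ψ x = 1) ∧
      ∀ x : F, ψ (H.jF x) = TF.psi x := by
  have h0 : rd w al * rd w be ≠ 0 := mul_ne_zero (wne h.al0) (wne h.be0)
  obtain ⟨ψ, h1, h2⟩ := exists_char_hat H.denseF TF.psi (log (rd w al * rd w be)) (by
    intro x hx
    rw [exp_log h0] at hx
    have h3 : w.valuation E (algebraMap F E x) ≤ w.valuation E (algebraMap F E (al * be)) := by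
      rw [map_mul, map_mul, ← hv (algebraMap F E x)]
      exact hx
    rw [val_iff h hwv] at h3
    have h4 : x = al * (al⁻¹ * x) := by rw [← mul_assoc, mul_inv_cancel₀ h.al0, one_mul]
    rw [h4]
    refine TF.psi_AB _ ?_ _ ?_
    · rw [h.A', mem_ball]
    · rw [h.B', mem_ball, map_mul, map_inv₀]
      have h5 : v.valuation F al ≠ 0 := (Valuation.ne_zero_iff _).2 h.al0
      calc (v.valuation F al)⁻¹ * v.valuation F x
          ≤ (v.valuation F al)⁻¹ * v.valuation F (al * be) := mul_le_mul' le_rfl h3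
        _ = v.valuation F be := by rw [map_mul, ← mul_assoc, inv_mul_cancel₀ h5, one_mul])
  refine ⟨ψ, fun x hx => h2 x ?_, h1⟩
  rw [exp_log h0]
  exact hx

/-- The level over the completion is open. -/
theorem open_E (hv : ∀ x, vh (j x) = w.valuation E x) (ψ : AddChar (fixF σ) ℂ)
    (hψ : ∀ x : fixF σ, vh (x : L) ≤ rd w al * rd w be → ψ x = 1) :
    ∃ n : ℕ, H92T.Gam vh (n + 1) ≤ (hatTE H h hv ψ hψ).GH ∧
      PGam vh (n + 1) ≤ (hatTE H h hv ψ hψ).U := by
  set β : ℤᵐ⁰ := max 1 (max (vh ((hatSD H h).b 0)) (max (vh ((hatSD H h).b 1))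
    (vh ((hatSD H h).b 2)))) with hβ
  have hβ0 : β ≠ 0 := (lt_of_lt_of_le zero_lt_one (le_max_left _ _)).ne'
  have hb : ∀ i, vh ((hatSD H h).b i) ≤ β := by
    intro i
    fin_cases i
    · exact (le_max_left _ _).trans (le_max_right _ _)
    · exact (le_max_left _ _).trans ((le_max_right _ _).trans (le_max_right _ _))
    · exact (le_max_right _ _).trans ((le_max_right _ _).trans (le_max_right _ _))
  set m : ℤᵐ⁰ := min (rd w al) (min (rd w be) (min (rd w ga) (rd w al * rd w be))) with hm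
  have hm0 : m ≠ 0 := by
    have : 0 < m := lt_min (zero_lt_iff.2 (wne h.al0)) (lt_min (zero_lt_iff.2 (wne h.be0))
      (lt_min (zero_lt_iff.2 (wne h.ga0))
        (zero_lt_iff.2 (mul_ne_zero (wne h.al0) (wne h.be0)))))
    exact this.ne'
  obtain ⟨n, hn⟩ := exists_exp_le (mul_ne_zero hm0 (inv_ne_zero hβ0))
  have hn' : exp (-((n + 1 : ℕ) : ℤ)) ≤ m * β⁻¹ := by
    refine le_trans ?_ hn
    rw [exp_le_exp]; push_cast; omega
  have hx1 : ∀ x, vh x ≤ exp (-((n + 1 : ℕ) : ℤ)) → vh x * β ≤ m := by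
    intro x hx
    calc vh x * β ≤ m * β⁻¹ * β := mul_le_mul' (hx.trans hn') le_rfl
      _ = m := by rw [mul_assoc, inv_mul_cancel₀ hβ0, mul_one]
  have hx2 : ∀ x, vh x ≤ exp (-((n + 1 : ℕ) : ℤ)) → vh x ≤ m := by
    intro x hx
    refine le_trans ?_ (hx1 x hx)
    calc vh x = vh x * 1 := (mul_one _).symm
      _ ≤ vh x * β := mul_le_mul' le_rfl (le_max_left _ _)
  have hmem : ∀ (r : ℤᵐ⁰), m ≤ r → ∀ x, vh x ≤ exp (-((n + 1 : ℕ) : ℤ)) →
      x ∈ (hatSD H h).Lat vh r := by
    intro r hr x hx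
    exact (hatSD H h).mem_of_val_le vh H.sh_v hb ((hx1 x hx).trans hr)
  refine ⟨n, gam_le_hat fun x hx => ⟨hmem _ (min_le_left _ _) x hx,
    hmem _ ((min_le_right _ _).trans (min_le_left _ _)) x hx,
    hmem _ ((min_le_right _ _).trans ((min_le_right _ _).trans (min_le_left _ _))) x hx, ?_⟩⟩
  refine hψ _ ?_
  show vh (tr3 σ x) ≤ _
  exact ((hatVD H h hv).tr_le x (hx2 x hx)).trans ((min_le_right _ _).trans
    ((min_le_right _ _).trans (min_le_right _ _)))

theorem open_F (ψ : AddChar (fixF σ) ℂ)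
    (hψ : ∀ x : fixF σ, vh (x : L) ≤ rd w al * rd w be → ψ x = 1) :
    ∃ n : ℕ, H92T.Gam (Hat.vF vh σ) (n + 1) ≤ (hatTF h ψ hψ).GH ∧
      PGam (Hat.vF vh σ) (n + 1) ≤ (hatTF h ψ hψ).U := by
  set m : ℤᵐ⁰ := min (rd w al) (min (rd w be) (min (rd w ga) (rd w al * rd w be))) with hm
  have hm0 : m ≠ 0 := by
    have : 0 < m := lt_min (zero_lt_iff.2 (wne h.al0)) (lt_min (zero_lt_iff.2 (wne h.be0))
      (lt_min (zero_lt_iff.2 (wne h.ga0))
        (zero_lt_iff.2 (mul_ne_zero (wne h.al0) (wne h.be0)))))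
    exact this.ne'
  obtain ⟨n, hn⟩ := exists_exp_le hm0
  have hn' : exp (-((n + 1 : ℕ) : ℤ)) ≤ m := by
    refine le_trans ?_ hn
    rw [exp_le_exp]; push_cast; omega
  refine ⟨n, gam_le_hat fun x hx => ⟨(hx.trans hn').trans (min_le_left _ _),
    (hx.trans hn').trans ((min_le_right _ _).trans (min_le_left _ _)),
    (hx.trans hn').trans ((min_le_right _ _).trans ((min_le_right _ _).trans (min_le_left _ _))),
    hψ x ((hx.trans hn').trans ((min_le_right _ _).trans
      ((min_le_right _ _).trans (min_le_right _ _))))⟩⟩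

end types

end

/-! ### The theorem -/

theorem exists_desc {G : Type*} [Group G] {U : Subgroup G} (f : G → ℂ)
    (hf : ∀ g, ∀ u ∈ U, f (g * u) = f g) : ∃ φ : G ⧸ U → ℂ, ∀ g : G, φ (g : G ⧸ U) = f g := by
  refine ⟨fun x => Quotient.liftOn' x f ?_, fun g => rfl⟩
  intro a b hab
  have h1 : a⁻¹ * b ∈ U := QuotientGroup.leftRel_apply.mp hab
  have h2 := hf a _ h1
  rw [mul_inv_cancel_left] at h2
  exact h2.symm

open H59XF H57C H79S in
/-- **Local matching at a nonsplit bad place.** -/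
theorem pm_ns [IsGalois F E] (h3 : Module.finrank F E = 3) (hs : s ≠ 1)
    {LE : LevelFam PGL(2, E) (HeightOneSpectrum (𝓞 E))}
    {LF : LevelFam PGL(2, F) (HeightOneSpectrum (𝓞 F))} (t : Twist LE)
    (hts : ∀ g, t.s g = H20.S47.sP s g)
    (p : HeightOneSpectrum (𝓞 E) → HeightOneSpectrum (𝓞 F)) (hp : ∀ i, p (t.σ i) = p i)
    (hpw : ∀ i, p i = v ↔ i = w) (hσw : t.σ w = w) (hwv : w ∈ H82.above E v)
    (hsw : ∀ x, w.valuation E (s x) = w.valuation E x)
    (a : GlobKer LE) (b : GlobKer LF) (hUE : LE.U w = TE.U) (hUF : LF.U v = TF.U)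
    (h : NS s w v TE TF D κ π al be ga)
    (psi_tr : ∀ x, TE.psi x = TF.psi (Algebra.trace F E x))
    (hE : IsTyp (a.loc w) TE.H TE.chi) (hiE : (TE.U.subgroupOf TE.H).index ≠ 0)
    (hF : IsTyp (b.loc v) TF.H TF.chi) (hiF : (TF.U.subgroupOf TF.H).index ≠ 0) :
    PM s t p hp a b TF.H v := by
  have hs3 : ∀ x, s (s (s x)) = x := H83Z.s_app_three h3 s
  have hne : ∃ x, s x ≠ x := by
    by_contra hcon
    push Not at hcon
    exact hs (AlgEquiv.ext hcon)
  have hex : ∀ x, s x = x → ∃ f, algebraMap F E f = x := fun x hx =>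
    H83Z.fixed_of_s h3 s hs hx
  have htr := H92P.trace_cubic h3 s hs
  intro γ hγ
  refine ⟨Tpsi TF γ, fun d hd => ⟨?_, ?_⟩⟩
  · -- the `E` side
    obtain ⟨σ, H⟩ := exists_Hat w s.toRingEquiv (algebraMap F E) hsw hs3 hne
      (fun f => s.commutes f) hex (by norm_num)
    have hv : ∀ x, (Valued.v : Valuation (w.adicCompletion E) ℤᵐ⁰)
        (algebraMap E (w.adicCompletion E) x) = w.valuation E x := adic_val w
    obtain ⟨ψ, hψ, hψj⟩ := exists_psi H h hv hwv
    have V := hatVD H h hv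
    have T := hatTT H h hv ψ hψ
    have cE := compE H h hv ψ hψ hψj psi_tr htr
    have cF := compF H h hv hwv ψ hψ hψj
    obtain ⟨n, hn1, hn2⟩ := open_E H h hv ψ hψ
    obtain ⟨m, hm1, hm2⟩ := open_F (vh := Valued.v) (σ := σ) h ψ hψ
    set Te := hatTE H h hv ψ hψ with hTe
    set Tf' := hatTF h ψ hψ with hTf'
    obtain ⟨g0, hg0, hEll, htr0⟩ := id hγ
    have hgood : Good (GeneralLinearGroup.map (fixF σ).subtype
        (GeneralLinearGroup.map H.jF g0)) := by
      constructor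
      · intro x hx
        set f : F →+* w.adicCompletion E := (fixF σ).subtype.comp H.jF with hf
        have hent : ∀ i k, f (g0 i k) = (x • (1 : Mt (w.adicCompletion E))) i k := by
          intro i k
          rw [← hx]; rfl
        have h01 : g0 0 1 = 0 := by
          apply f.injective
          rw [hent, map_zero]; simp
        have h10 : g0 1 0 = 0 := by
          apply f.injective
          rw [hent, map_zero]; simp
        have h11 : g0 1 1 = g0 0 0 := by
          apply f.injective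
          rw [hent, hent]; simp
        apply hEll.nonscalar (g0 0 0)
        ext i k
        fin_cases i <;> fin_cases k
        · simp
        · simpa using h01
        · simpa using h10
        · simpa using h11
      · exact H10T.map_trace_ne _ (H10T.map_trace_ne _ htr0)
    have hN : nm (Fermat.Agent.H43Z4.sP σ) (ProjGenLinGroup.map (algebraMap E (w.adicCompletion E)) d) =
        ProjGenLinGroup.map (fixF σ).subtype (ProjGenLinGroup.mk
          (GeneralLinearGroup.map H.jF g0)) := by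
      have h1 := H.norm_hat (d := d) (γ := γ) hd.norm
      rw [← hg0] at h1
      exact h1
    obtain ⟨τ, hτ, hCB⟩ := T.cosetBij V H.ne_hat hgood hN
    -- indices
    have hUle : Te.U ≤ Te.H := fun _ hx => hx.1
    have hidx : TE.U.relIndex TE.H = Te.U.relIndex Te.H := by
      rw [cE.U_eq H.dense hn1, cE.H_eq H.dense hn1]
      exact relIndex_hat hUle (H.approx hn2)
    have hfin : (Te.U.subgroupOf Te.H).FiniteIndex := by
      refine ⟨?_⟩
      have h1 : TE.U.relIndex TE.H ≠ 0 := hiE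
      rw [hidx] at h1
      exact h1
    set δ := ProjGenLinGroup.map (algebraMap E (w.adicCompletion E)) d with hδ
    set γh := ProjGenLinGroup.map (n := Fin 2) H.jF γ with hγh
    have hγ0 : ProjGenLinGroup.mk (GeneralLinearGroup.map H.jF g0) = γh := by
      rw [hγh, ← hg0]; rfl
    rw [hγ0] at hτ hCB
    -- the weight
    obtain ⟨φ, hφ⟩ := exists_desc (U := Te.U)
      (fun g => ((Te.U.relIndex Te.H : ℕ) : ℂ)⁻¹ * Tf Te (g⁻¹ * δ * Fermat.Agent.H43Z4.sP σ g))
      (by
        intro g u hu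
        have h1 : (g * u)⁻¹ * δ * Fermat.Agent.H43Z4.sP σ (g * u) =
            u⁻¹ * (g⁻¹ * δ * Fermat.Agent.H43Z4.sP σ g) * Fermat.Agent.H43Z4.sP σ u := by
          rw [map_mul]; group
        simp only [h1, hCB.inv _ u (hUle hu)])
    have ha : ∀ c : Subgroup.centralizer ({γh} : Set PGL(2, fixF σ)),
        ProjGenLinGroup.map (fixF σ).subtype (c : PGL(2, fixF σ)) * τ =
          τ * ProjGenLinGroup.map (fixF σ).subtype (c : PGL(2, fixF σ)) := by
      intro c
      have hc := Subgroup.mem_centralizer_singleton_iff.1 c.2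
      have hc' : Commute (ProjGenLinGroup.map (fixF σ).subtype (c : PGL(2, fixF σ)))
          (ProjGenLinGroup.map (fixF σ).subtype γh) := by
        show _ * _ = _ * _
        rw [← map_mul, ← map_mul, hc]
      have hgm : ProjGenLinGroup.map (fixF σ).subtype γh = ProjGenLinGroup.mk
          (GeneralLinearGroup.map (fixF σ).subtype (GeneralLinearGroup.map H.jF g0)) := by
        rw [← hγ0]; rfl
      rw [hgm] at hc' hτ
      exact (good_comm hgood _ _ hc' hτ).eq
    have LM := hCB.locMatch hUle hfin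
      (a := fun c : Subgroup.centralizer ({γh} : Set PGL(2, fixF σ)) => (c : PGL(2, fixF σ))) ha
      hφ (ζ := Tpsi Tf' γh) (fun y => Tpsi_mk Tf' γh y)
    obtain ⟨β, hβ⟩ := H.locMatch t p hp hpw hσw a d γ hn2
      (by rw [hUE]; exact cE.U_eq H.dense hn1) (hm2.trans fun _ hx => hx.1)
      (cF.H_eq H.denseF hm1) LM
      (by
        intro g
        have hE' := typ_k TE hE g (d * t.s g)
        rw [hE', hφ, hUE, hidx, cE.Tf_eq H.dense hn1, map_mul, map_mul, map_inv, hts]
        congr 2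
        rw [mul_assoc]
        congr 2
        exact (H.map_sh g).symm)
      (ζ := Tpsi TF γ)
      (by
        intro g
        rw [Tpsi_mk, Tpsi_mk, cF.Tf_eq H.denseF hm1, map_mul, map_mul, map_inv])
    exact ⟨β, hβ, fun h => h.elim⟩
  · -- the `F` side
    have hU : LF.U v ≤ TF.H := by rw [hUF]; exact fun _ hx => hx.1
    have hi : ((LF.U v).subgroupOf TF.H).index ≠ 0 := by rw [hUF]; exact hiF
    obtain ⟨β, hβ⟩ := typ_locMatch TF hU hi hF γ
      (fun c : Subgroup.centralizer ({γ} : Set PGL(2, F)) => (c : PGL(2, F)))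
    exact ⟨β, hβ, fun h => h.elim⟩

end Fermat.Agent.H43Z8
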