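import Fermat.Agent.H44BVal

/-!
# The counting argument at the nodes

Abstract core of the "monodromy" step in Mazur's principle at `p`: pure dimension counting on the
function field `κ/k` of the special fibre of `X_0(M)`.
-/

set_option autoImplicit false

open AlgebraicCurve WithZero Fermat.Agent.H3RR

namespace Fermat.Agent.H44B

section FDiv

variable {k κ : Type*} [Field k] [Field κ] [Algebra k κ]

/-- coefficientwise `⌊D / p⌋` -/
noncomputable def fdiv (p : ℕ) (D : Divisor k κ) : Divisor k κ :=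
  D.mapRange (fun x : ℤ => x / (p : ℤ)) (by simp)

theorem fdiv_apply (p : ℕ) (D : Divisor k κ) (P : Place k κ) : fdiv p D P = D P / (p : ℤ) := by
  rw [fdiv, Finsupp.mapRange_apply]

variable [IsAlgClosed k] [IsFF k κ]

theorem degree_eq_sum_of_subset (D : Divisor k κ) (S : Finset (Place k κ)) (h : D.support ⊆ S) :
    Divisor.degree D = ∑ P ∈ S, D P := by
  rw [degree_eq_sum]
  exact Finset.sum_subset h (fun P _ hP => Finsupp.notMem_support_iff.mp hP)

omit [IsAlgClosed k] [IsFF k κ] in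
theorem support_fdiv_subset (p : ℕ) (D : Divisor k κ) : (fdiv p D).support ⊆ D.support := by
  intro P hP
  rw [Finsupp.mem_support_iff, fdiv_apply] at hP
  rw [Finsupp.mem_support_iff]
  intro h
  rw [h] at hP
  simp at hP

theorem ediv_add_ediv_neg {p : ℤ} (hp : 0 < p) (x e : ℤ) :
    x / p + (-x - p * e) / p = (if p ∣ x then 0 else -1) - e := by
  have h1 : (-x - p * e) / p = (-x) / p - e := by
    rw [sub_eq_add_neg, ← mul_neg, Int.add_mul_ediv_left _ _ hp.ne', sub_eq_add_neg]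
  rw [h1]
  split_ifs with h
  · obtain ⟨y, rfl⟩ := h
    rw [← mul_neg, Int.mul_ediv_cancel_left _ hp.ne', Int.mul_ediv_cancel_left _ hp.ne']
    ring
  · have h2 := Int.mul_ediv_add_emod x p
    have h3 := Int.emod_nonneg x hp.ne'
    have h4 := Int.emod_lt_of_pos x hp
    have h5 : x % p ≠ 0 := fun h5 => h (Int.dvd_of_emod_eq_zero h5)
    have h6 : (-x) / p = -(x / p) - 1 := by
      have h7 : -x = (p - x % p) + p * (-(x / p) - 1) := by
        have : p * (-(x / p) - 1) = -(p * (x / p)) - p := by ring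
        rw [this]; omega
      rw [h7, Int.add_mul_ediv_left _ _ hp.ne', Int.ediv_eq_zero_of_lt (by omega) (by omega)]
      ring
    rw [h6]; ring

/-- the number of places where `D` is not divisible by `p` -/
theorem degree_fdiv_add (p : ℕ) (hp : 0 < p) (D E D' : Divisor k κ) (hD' : D' = -D - p • E)
    (S : Finset (Place k κ)) (hD : D.support ⊆ S) (hE : E.support ⊆ S) :
    Divisor.degree (fdiv p D) + Divisor.degree (fdiv p D') =
      -((S.filter (fun P => ¬ (p : ℤ) ∣ D P)).card : ℤ) - Divisor.degree E := by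
  have hpz : (0 : ℤ) < p := by exact_mod_cast hp
  have hD'S : D'.support ⊆ S := by
    rw [hD']
    intro P hP
    by_contra hPS
    have h1 : D P = 0 := by
      by_contra h; exact hPS (hD (Finsupp.mem_support_iff.mpr h))
    have h2 : E P = 0 := by
      by_contra h; exact hPS (hE (Finsupp.mem_support_iff.mpr h))
    rw [Finsupp.mem_support_iff] at hP
    apply hP
    simp [h1, h2]
  rw [degree_eq_sum_of_subset _ S ((support_fdiv_subset p D).trans hD),
    degree_eq_sum_of_subset _ S ((support_fdiv_subset p D').trans hD'S),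
    degree_eq_sum_of_subset _ S hE, ← Finset.sum_add_distrib, Finset.card_filter]
  push_cast
  rw [← Finset.sum_neg_distrib, ← Finset.sum_sub_distrib]
  refine Finset.sum_congr rfl fun P _ => ?_
  rw [fdiv_apply, fdiv_apply, hD']
  have h1 : (-D - p • E) P = -(D P) - p * E P := by simp
  rw [h1, ediv_add_ediv_neg hpz]
  by_cases h : (p : ℤ) ∣ D P
  · simp [h]
  · simp [h]

theorem exists_exact (G : Divisor k κ) (S : Finset (Place k κ)) (P : Place k κ) (hP : P ∉ S)
    (hdeg : 2 * (genusFF k κ : ℤ) - 2 < Divisor.degree G - S.card - 1) :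
    ∃ a : riemannRochSpace G, P.adicValuation (a : κ) = exp (G P) ∧
      ∀ Q ∈ S, Q.adicValuation (a : κ) ≤ exp (G Q - 1) := by
  classical
  set D : Divisor k κ := G - redDiv S with hD
  have hdD : Divisor.degree D = Divisor.degree G - S.card := by
    rw [hD, map_sub, degree_redDiv]
  have hdD' : Divisor.degree (D - Finsupp.single P 1) = Divisor.degree G - S.card - 1 := by
    rw [map_sub, hdD, Divisor.degree_single, deg_eq_one]; simp
  have h1 : (ell D : ℤ) = Divisor.degree D + 1 - genusFF k κ := ell_of_degree_gt (by omega)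
  have h2 : (ell (D - Finsupp.single P 1) : ℤ) =
      Divisor.degree (D - Finsupp.single P 1) + 1 - genusFF k κ := ell_of_degree_gt (by omega)
  have hle : riemannRochSpace (D - Finsupp.single P 1) ≤ riemannRochSpace D := by
    apply L_mono
    rw [sub_le_self_iff, Finsupp.single_nonneg]
    norm_num
  have hne : ¬ riemannRochSpace D ≤ riemannRochSpace (D - Finsupp.single P 1) := by
    intro hle'
    have := le_antisymm hle hle'
    rw [ell, this] at h2
    rw [ell] at h1
    omega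
  obtain ⟨a, haD, haD'⟩ := SetLike.not_le_iff_exists.mp hne
  have hDQ : ∀ Q, D Q ≤ G Q := fun Q => by
    have h0 := redDiv_nonneg S
    have := Finsupp.le_def.mp h0 Q
    rw [hD, Finsupp.sub_apply]
    simp only [Finsupp.coe_zero, Pi.zero_apply] at this
    omega
  refine ⟨⟨a, fun Q => (haD Q).trans (exp_le_exp.mpr (hDQ Q))⟩, ?_, ?_⟩
  · -- exact order at `P`
    have hDP : D P = G P := by
      rw [hD, Finsupp.sub_apply, redDiv_apply_of_notMem hP, sub_zero]
    have h3 : ¬ P.adicValuation a ≤ exp (G P - 1) := by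
      intro h3
      apply haD'
      intro Q
      by_cases hQ : Q = P
      · subst hQ
        rw [Finsupp.sub_apply, Finsupp.single_eq_same, hDP]
        exact h3
      · rw [Finsupp.sub_apply, Finsupp.single_eq_of_ne hQ, sub_zero]
        exact haD Q
    have ha0 : a ≠ 0 := by
      rintro rfl
      apply h3
      simp
    have h4 : P.adicValuation a ≤ exp (G P) := by
      have := haD P
      rwa [hDP] at this
    show P.adicValuation a = exp (G P)
    rw [adicValuation_eq_exp P ha0] at h3 h4 ⊢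
    rw [exp_le_exp] at h3 h4
    congr 1
    omega
  · intro Q hQ
    have h3 := haD Q
    rw [hD, Finsupp.sub_apply, redDiv_apply_of_mem hQ] at h3
    exact h3

end FDiv

/-- The nodes: pairs `(P, φ P)`, with test functions `b` (simple poles) and `z` (simple zeros). -/
structure Nodes (k κ : Type*) [Field k] [Field κ] [Algebra k κ] where
  SS : Finset (Place k κ)
  φ : Place k κ → Place k κ
  inj : Set.InjOn φ SS
  Pinf : Place k κ
  hPinf : Pinf ∉ SS
  hPinf' : ∀ P ∈ SS, φ P ≠ Pinf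
  b : κ
  z : κ
  hb : b ≠ 0
  hz : z ≠ 0
  ord_b : ∀ P ∈ SS, P.ord b = -1
  ord_z : ∀ P ∈ SS, (φ P).ord z = 1

namespace Nodes

variable {k κ : Type*} [Field k] [Field κ] [Algebra k κ] (N : Nodes k κ)

open Classical in
/-- the nodes on the second component -/
noncomputable def SS' : Finset (Place k κ) := N.SS.image N.φ

theorem mem_SS' {Q : Place k κ} : Q ∈ N.SS' ↔ ∃ P ∈ N.SS, N.φ P = Q := by
  classical
  rw [SS']
  convert Finset.mem_image

theorem card_SS' : N.SS'.card = N.SS.card := by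
  classical
  rw [SS']
  convert Finset.card_image_of_injOn N.inj

/-- The constraints satisfied by the reductions `(x, y)` at the two components of a function
`w ∈ L (m D_∞)` with `v₁ w ≥ 0`, `v₂ w ≥ i`. -/
structure Cst (i m : ℕ) (x y : κ) : Prop where
  left : x ∈ riemannRochSpace (Finsupp.single N.Pinf (m : ℤ) - i • redDiv N.SS : Divisor k κ)
  right : y ∈ riemannRochSpace (Finsupp.single N.Pinf (m : ℤ) + i • redDiv N.SS' : Divisor k κ)
  node : ∀ P ∈ N.SS, ∃ c : k, HasVal P (x * N.b ^ i) c ∧ HasVal (N.φ P) (y * N.z ^ i) c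

end Nodes

section Key

variable {k κ : Type*} [Field k] [Field κ] [Algebra k κ] [IsAlgClosed k] [IsFF k κ]

/-- membership in `L(G)` from membership of `α ^ p * f` -/
theorem mem_of_pow_mul {p : ℕ} (hp : 0 < p) {f α : κ} (hf : f ≠ 0) {E D : Divisor k κ}
    {P₀ : Place k κ} {n : ℤ}
    (hD : D = divOf f + E)
    (h : α ^ p * f ∈ riemannRochSpace (Finsupp.single P₀ ((p : ℤ) * n) + E : Divisor k κ)) :
    α ∈ riemannRochSpace (Finsupp.single P₀ n + fdiv p D : Divisor k κ) := by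
  classical
  have hpz : (0 : ℤ) < p := by exact_mod_cast hp
  rw [mem_riemannRochSpace_iff] at h ⊢
  intro Q
  by_cases hα : α = 0
  · exact Or.inl hα
  right
  have h1 := (h Q).resolve_left (mul_ne_zero (pow_ne_zero p hα) hf)
  rw [Q.ord_mul (pow_ne_zero p hα) hf, ord_pow, Finsupp.add_apply] at h1
  rw [Finsupp.add_apply, fdiv_apply, hD, Finsupp.add_apply, divOf_apply hf]
  have h2 : (Finsupp.single P₀ ((p : ℤ) * n) : Place k κ →₀ ℤ) Q
      = p * (Finsupp.single P₀ n : Place k κ →₀ ℤ) Q := by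
    rw [Finsupp.single_apply, Finsupp.single_apply]
    split_ifs <;> simp
  rw [h2] at h1
  set s := (Finsupp.single P₀ n : Place k κ →₀ ℤ) Q
  have h3 : -Q.ord α - s ≤ (Q.ord f + E Q) / p := by
    rw [Int.le_ediv_iff_mul_le hpz]
    nlinarith
  omega

variable {p : ℕ} [Fact p.Prime] [CharP k p]

open Classical in
/-- **Key lemma**: a big enough space of pairs satisfying the constraints contains all pairs
with the prescribed orders. -/
theorem key (N : Nodes k κ) {f₁ f₂ : κ} (h₁ : f₁ ≠ 0) (h₂ : f₂ ≠ 0) (i n : ℕ)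
    {D₁ D₂ : Divisor k κ} (hD₁ : D₁ = divOf f₁ - i • redDiv N.SS)
    (hD₂ : D₂ = divOf f₂ + i • redDiv N.SS')
    (hn₁ : 2 * (genusFF k κ : ℤ) - 2 < n + Divisor.degree (fdiv p D₁) - N.SS.card - 1)
    (hn₂ : 2 * (genusFF k κ : ℤ) - 2 < n + Divisor.degree (fdiv p D₂) - N.SS.card - 1)
    (𝒩 : Submodule k (κ × κ))
    (hdim : (2 * n + 2 : ℤ) ≤ Module.finrank k 𝒩 + 2 * genusFF k κ + N.SS.card)
    (hC : ∀ x ∈ 𝒩, N.Cst i (p * n) (x.1 ^ p * f₁) (x.2 ^ p * f₂)) :
    let T := N.SS.filter fun P => (p : ℤ) ∣ P.ord f₁ - i ∨ (p : ℤ) ∣ (N.φ P).ord f₂ + i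
    (T.card : ℤ) ≤ N.SS.card + Divisor.degree (fdiv p D₁) + Divisor.degree (fdiv p D₂) ∧
    ((T.card : ℤ) = N.SS.card + Divisor.degree (fdiv p D₁) + Divisor.degree (fdiv p D₂) →
      (∀ P₀ ∉ N.SS, ∃ α : κ, ((α, 0) : κ × κ) ∈ 𝒩 ∧
        P₀.adicValuation α = exp ((Finsupp.single N.Pinf (n : ℤ) + fdiv p D₁ : Divisor k κ) P₀)) ∧
      (∀ Q₀ ∉ N.SS', ∃ β : κ, ((0, β) : κ × κ) ∈ 𝒩 ∧
        Q₀.adicValuation β = exp ((Finsupp.single N.Pinf (n : ℤ) + fdiv p D₂ : Divisor k κ) Q₀)) ∧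
      (∀ P₀ ∈ N.SS, (p : ℤ) ∣ P₀.ord f₁ - i → (p : ℤ) ∣ (N.φ P₀).ord f₂ + i →
        ∃ α β : κ, ((α, β) : κ × κ) ∈ 𝒩 ∧
          HasVal P₀ (α ^ p * f₁ * N.b ^ i) 1 ∧ HasVal (N.φ P₀) (β ^ p * f₂ * N.z ^ i) 1)) := by
  intro T
  have hp : 0 < p := (Fact.out : p.Prime).pos
  set G₁ : Divisor k κ := Finsupp.single N.Pinf (n : ℤ) + fdiv p D₁ with hG₁
  set G₂ : Divisor k κ := Finsupp.single N.Pinf (n : ℤ) + fdiv p D₂ with hG₂
  have hdegG₁ : Divisor.degree G₁ = n + Divisor.degree (fdiv p D₁) := by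
    rw [hG₁, map_add, Divisor.degree_single, deg_eq_one]; simp
  have hdegG₂ : Divisor.degree G₂ = n + Divisor.degree (fdiv p D₂) := by
    rw [hG₂, map_add, Divisor.degree_single, deg_eq_one]; simp
  have hordb : ∀ P ∈ N.SS, P.ord (f₁ * N.b ^ i) = P.ord f₁ - i := by
    intro P hP
    rw [P.ord_mul h₁ (pow_ne_zero _ N.hb), ord_pow, N.ord_b P hP]; ring
  have hordz : ∀ P ∈ N.SS, (N.φ P).ord (f₂ * N.z ^ i) = (N.φ P).ord f₂ + i := by
    intro P hP
    rw [(N.φ P).ord_mul h₂ (pow_ne_zero _ N.hz), ord_pow, N.ord_z P hP]; ring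
  have hG₁P : ∀ P ∈ N.SS, G₁ P = P.ord (f₁ * N.b ^ i) / (p : ℤ) := by
    intro P hP
    have hne : P ≠ N.Pinf := by rintro rfl; exact N.hPinf hP
    rw [hordb P hP, hG₁, Finsupp.add_apply, Finsupp.single_eq_of_ne hne, zero_add, fdiv_apply,
      hD₁, Finsupp.sub_apply, divOf_apply h₁, Finsupp.smul_apply, redDiv_apply_of_mem hP]
    simp
  have hmem' : ∀ P ∈ N.SS, N.φ P ∈ N.SS' := fun P hP => N.mem_SS'.mpr ⟨P, hP, rfl⟩
  have hG₂P : ∀ P ∈ N.SS, G₂ (N.φ P) = (N.φ P).ord (f₂ * N.z ^ i) / (p : ℤ) := by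
    intro P hP
    rw [hordz P hP, hG₂, Finsupp.add_apply, Finsupp.single_eq_of_ne (N.hPinf' P hP), zero_add,
      fdiv_apply, hD₂, Finsupp.add_apply, divOf_apply h₂, Finsupp.smul_apply,
      redDiv_apply_of_mem (hmem' P hP)]
    simp
  choose! lam hlam1 hlam2 hlam3 hlam4 using fun (P : Place k κ) (hP : P ∈ N.SS) =>
    exists_lam hp P (mul_ne_zero h₁ (pow_ne_zero i N.hb)) G₁ (hG₁P P hP)
  choose! mu hmu1 hmu2 hmu3 hmu4 using fun (P : Place k κ) (hP : P ∈ N.SS) =>
    exists_lam hp (N.φ P) (mul_ne_zero h₂ (pow_ne_zero i N.hz)) G₂ (hG₂P P hP)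
  have hTSS : ∀ P ∈ T, P ∈ N.SS := fun P hP => (Finset.mem_filter.mp hP).1
  -- the map of conditions
  let Ψ : (riemannRochSpace G₁ × riemannRochSpace G₂) →ₗ[k] (T → k) :=
    LinearMap.pi fun P => (lam P).comp (LinearMap.fst k _ _) - (mu P).comp (LinearMap.snd k _ _)
  have hΨ : ∀ x P, Ψ x P = lam P x.1 - mu P x.2 := fun x P => rfl
  -- exact elements
  have hexA : ∀ P₀ ∈ N.SS, (p : ℤ) ∣ P₀.ord f₁ - i → ∃ a : riemannRochSpace G₁,
      lam P₀ a = 1 ∧ ∀ P ∈ N.SS, P ≠ P₀ → lam P a = 0 := by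
    intro P₀ hP₀ hdvd
    obtain ⟨a, ha1, ha2⟩ := exists_exact G₁ (N.SS.erase P₀) P₀ (Finset.notMem_erase _ _) (by
      have := Finset.card_erase_le (s := N.SS) (a := P₀)
      omega)
    have h3 : lam P₀ a ≠ 0 := by
      intro h0
      have := hlam2 P₀ hP₀ (by rwa [hordb P₀ hP₀]) a h0
      rw [ha1, exp_le_exp] at this
      omega
    refine ⟨(lam P₀ a)⁻¹ • a, ?_, ?_⟩
    · rw [map_smul, smul_eq_mul, inv_mul_cancel₀ h3]
    · intro P hP hne
      rw [map_smul, hlam4 P hP a (ha2 P (Finset.mem_erase.mpr ⟨hne, hP⟩)), smul_zero]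
  have hexB : ∀ P₀ ∈ N.SS, (p : ℤ) ∣ (N.φ P₀).ord f₂ + i → ∃ b : riemannRochSpace G₂,
      mu P₀ b = 1 ∧ ∀ P ∈ N.SS, P ≠ P₀ → mu P b = 0 := by
    intro P₀ hP₀ hdvd
    obtain ⟨a, ha1, ha2⟩ := exists_exact G₂ (N.SS'.erase (N.φ P₀)) (N.φ P₀)
      (Finset.notMem_erase _ _) (by
      have := Finset.card_erase_le (s := N.SS') (a := N.φ P₀)
      rw [N.card_SS'] at this
      omega)
    have h3 : mu P₀ a ≠ 0 := by
      intro h0
      have := hmu2 P₀ hP₀ (by rwa [hordz P₀ hP₀]) a h0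
      rw [ha1, exp_le_exp] at this
      omega
    refine ⟨(mu P₀ a)⁻¹ • a, ?_, ?_⟩
    · rw [map_smul, smul_eq_mul, inv_mul_cancel₀ h3]
    · intro P hP hne
      rw [map_smul, hmu4 P hP a (ha2 _ (Finset.mem_erase.mpr
        ⟨fun h => hne (N.inj hP hP₀ h), hmem' P hP⟩)), smul_zero]
  -- surjectivity
  have hsurj : LinearMap.range Ψ = ⊤ := by
    rw [eq_top_iff]
    intro y _
    have hy : y = ∑ P : T, y P • (Pi.single P (1 : k) : T → k) := by
      funext Q
      rw [Finset.sum_apply, Finset.sum_eq_single Q]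
      · simp
      · intro P _ hne
        simp [Pi.single_eq_of_ne (Ne.symm hne)]
      · intro h; exact absurd (Finset.mem_univ _) h
    rw [hy]
    refine Submodule.sum_mem _ fun P _ => Submodule.smul_mem _ _ ?_
    have hPT := Finset.mem_filter.mp P.2
    rcases hPT.2 with hd | hd
    · obtain ⟨a, ha1, ha2⟩ := hexA P hPT.1 hd
      refine ⟨(a, 0), ?_⟩
      funext Q
      rw [hΨ]
      simp only [map_zero, sub_zero]
      by_cases hQ : Q = P
      · subst hQ; rw [ha1, Pi.single_eq_same]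
      · rw [ha2 Q (hTSS Q Q.2) (fun h => hQ (Subtype.ext h)), Pi.single_eq_of_ne hQ]
    · obtain ⟨a, ha1, ha2⟩ := hexB P hPT.1 hd
      refine ⟨(0, -a), ?_⟩
      funext Q
      rw [hΨ]
      simp only [map_zero, zero_sub, map_neg, neg_neg]
      by_cases hQ : Q = P
      · subst hQ; rw [ha1, Pi.single_eq_same]
      · rw [ha2 Q (hTSS Q Q.2) (fun h => hQ (Subtype.ext h)), Pi.single_eq_of_ne hQ]
  have hrank : Module.finrank k (LinearMap.ker Ψ) + T.card = ell G₁ + ell G₂ := by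
    have := LinearMap.finrank_range_add_finrank_ker Ψ
    rw [hsurj, finrank_top, Module.finrank_pi, Fintype.card_coe, Module.finrank_prod] at this
    rw [ell, ell]
    omega
  have hell₁ : (ell G₁ : ℤ) = Divisor.degree G₁ + 1 - genusFF k κ := ell_of_degree_gt (by omega)
  have hell₂ : (ell G₂ : ℤ) = Divisor.degree G₂ + 1 - genusFF k κ := ell_of_degree_gt (by omega)
  -- comparison with `𝒩`
  let ι : (riemannRochSpace G₁ × riemannRochSpace G₂) →ₗ[k] κ × κ :=
    LinearMap.prodMap (riemannRochSpace G₁).subtype (riemannRochSpace G₂).subtype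
  have hι : Function.Injective ι := by
    intro x y hxy
    have h1 := congrArg Prod.fst hxy
    have h2 := congrArg Prod.snd hxy
    exact Prod.ext (Subtype.ext h1) (Subtype.ext h2)
  set W : Submodule k (κ × κ) := (LinearMap.ker Ψ).map ι with hW
  have hWfin : Module.finrank k W = Module.finrank k (LinearMap.ker Ψ) :=
    (Submodule.equivMapOfInjective ι hι _).finrank_eq.symm
  have hWfd : Module.Finite k W := by rw [hW]; infer_instance
  have hle : 𝒩 ≤ W := by
    intro x hx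
    have hc := hC x hx
    have hx1 : x.1 ∈ riemannRochSpace G₁ := by
      refine mem_of_pow_mul hp h₁ (E := -(i • redDiv N.SS)) (by rw [hD₁, sub_eq_add_neg]) ?_
      have := hc.left
      rw [sub_eq_add_neg] at this
      push_cast at this
      exact this
    have hx2 : x.2 ∈ riemannRochSpace G₂ := by
      refine mem_of_pow_mul hp h₂ (E := (i • redDiv N.SS')) hD₂ ?_
      have := hc.right
      push_cast at this
      exact this
    refine ⟨(⟨x.1, hx1⟩, ⟨x.2, hx2⟩), ?_, rfl⟩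
    rw [SetLike.mem_coe, LinearMap.mem_ker]
    funext P
    rw [hΨ]
    obtain ⟨c, hc1, hc2⟩ := hc.node P (hTSS P P.2)
    have h3 := hlam1 P (hTSS P P.2) ⟨x.1, hx1⟩
    have h4 := hmu1 P (hTSS P P.2) ⟨x.2, hx2⟩
    rw [← mul_assoc] at h3 h4
    have h5 := h3.unique hc1
    have h6 := h4.unique hc2
    have h7 := frobenius_inj k p (h5.trans h6.symm)
    show lam P ⟨x.1, hx1⟩ - mu P ⟨x.2, hx2⟩ = 0
    rw [h7, sub_self]
  have hle' : Module.finrank k 𝒩 ≤ Module.finrank k W := Submodule.finrank_mono hle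
  refine ⟨by omega, fun heq => ?_⟩
  have hEq : 𝒩 = W := Submodule.eq_of_le_of_finrank_le hle (by omega)
  have hmemW : ∀ (a : riemannRochSpace G₁) (b : riemannRochSpace G₂),
      (∀ P ∈ T, lam P a = mu P b) → (((a : κ), (b : κ)) : κ × κ) ∈ 𝒩 := by
    intro a b hab
    rw [hEq]
    refine ⟨(a, b), ?_, rfl⟩
    rw [SetLike.mem_coe, LinearMap.mem_ker]
    funext P
    rw [hΨ]
    show lam P a - mu P b = 0
    rw [hab P P.2, sub_self]
  refine ⟨?_, ?_, ?_⟩
  · intro P₀ hP₀
    obtain ⟨a, ha1, ha2⟩ := exists_exact G₁ N.SS P₀ hP₀ (by omega)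
    refine ⟨a, ?_, ha1⟩
    have := hmemW a 0 (fun P hP => by
      rw [map_zero]
      exact hlam4 P (hTSS P hP) a (ha2 P (hTSS P hP)))
    exact this
  · intro Q₀ hQ₀
    obtain ⟨a, ha1, ha2⟩ := exists_exact G₂ N.SS' Q₀ hQ₀ (by rw [N.card_SS']; omega)
    refine ⟨a, ?_, ha1⟩
    have := hmemW 0 a (fun P hP => by
      rw [map_zero]
      exact (hmu4 P (hTSS P hP) a (ha2 _ (hmem' P (hTSS P hP)))).symm)
    exact this
  · intro P₀ hP₀ hd1 hd2
    obtain ⟨a, ha1, ha2⟩ := hexA P₀ hP₀ hd1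
    obtain ⟨b, hb1, hb2⟩ := hexB P₀ hP₀ hd2
    refine ⟨a, b, hmemW a b (fun P hP => ?_), ?_, ?_⟩
    · by_cases hne : P = P₀
      · subst hne; rw [ha1, hb1]
      · rw [ha2 P (hTSS P hP) hne, hb2 P (hTSS P hP) hne]
    · have := hlam1 P₀ hP₀ a
      rw [ha1, one_pow, ← mul_assoc] at this
      exact this
    · have := hmu1 P₀ hP₀ b
      rw [hb1, one_pow, ← mul_assoc] at this
      exact this

end Key

end Fermat.Agent.H44B
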