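import Fermat.Agent.H44BCore

/-!
# Theorem B: the residues at the nodes are constant

Let `f₁, f₂` be the reductions at the two components of a function `f` on `X_0(pM)` with divisor
divisible by `p`, defined over a ramified extension with uniformiser `s`,
`s ^ p = p (b₀ + b₁ s + …)`, and `r₁, r₂` the "logarithmic `s`-derivatives" at the two components.
Then `r₁, r₂` are constants and `r₁ - r₂ = ord_P f₁ * (b₁ / b₀)` for *every* node `P`.
-/

set_option autoImplicit false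

open AlgebraicCurve WithZero Fermat.Agent.H3RR

namespace Fermat.Agent.H44B

section Main

variable {k κ : Type*} [Field k] [Field κ] [Algebra k κ]

/-- `f₁, f₂` are the reductions of a function whose divisor is divisible by `p`: the counting
part. -/
structure Fam₀ (N : Nodes k κ) (p : ℕ) (f₁ f₂ : κ) : Prop where
  ex : ∀ i : ℕ, ∃ n₀ : ℕ, ∀ n ≥ n₀, ∃ 𝒩 : Submodule k (κ × κ),
    (2 * n + 2 : ℤ) ≤ Module.finrank k 𝒩 + 2 * genusFF k κ + N.SS.card ∧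
    ∀ x ∈ 𝒩, N.Cst i (p * n) (x.1 ^ p * f₁) (x.2 ^ p * f₂)

/-- The counting part together with the first order expansion. -/
structure Fam (N : Nodes k κ) (p : ℕ) (f₁ f₂ r₁ r₂ : κ) (c : k) : Prop where
  ex : ∀ i : ℕ, ∃ n₀ : ℕ, ∀ n ≥ n₀, ∃ 𝒩 : Submodule k (κ × κ),
    (2 * n + 2 : ℤ) ≤ Module.finrank k 𝒩 + 2 * genusFF k κ + N.SS.card ∧
    ∀ x ∈ 𝒩, N.Cst i (p * n) (x.1 ^ p * f₁) (x.2 ^ p * f₂) ∧
      N.Cst i (p * n) (r₁ * (x.1 ^ p * f₁)) ((r₂ + algebraMap k κ (i * c)) * (x.2 ^ p * f₂))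

theorem Fam.fam₀ {N : Nodes k κ} {p : ℕ} {f₁ f₂ r₁ r₂ : κ} {c : k} (H : Fam N p f₁ f₂ r₁ r₂ c) :
    Fam₀ N p f₁ f₂ where
  ex i := by
    obtain ⟨n₀, h⟩ := H.ex i
    refine ⟨n₀, fun n hn => ?_⟩
    obtain ⟨𝒩, h1, h2⟩ := h n hn
    exact ⟨𝒩, h1, fun x hx => (h2 x hx).1⟩

/-- divide by a function with value `1` -/
theorem HasVal.of_mul {P : Place k κ} {h x : κ} {c : k} (H : HasVal P (h * x) c)
    (Hx : HasVal P x 1) (hx1 : P.adicValuation x = 1) : HasVal P h c := by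
  have hx0 : x ≠ 0 := by
    rintro rfl
    simp at hx1
  have h1 : h - algebraMap k κ c =
      ((h * x - algebraMap k κ c) - algebraMap k κ c * (x - algebraMap k κ 1)) * x⁻¹ := by
    rw [map_one]
    field_simp
    ring
  rw [HasVal, h1, map_mul, map_inv₀, hx1, inv_one, mul_one]
  refine lt_of_le_of_lt (Valuation.map_sub _ _ _) (max_lt H ?_)
  rw [map_mul]
  exact lt_of_le_of_lt (mul_le_of_le_one_left' (P.adicValuation_algebraMap_le_one c)) Hx

variable [IsAlgClosed k] [IsFF k κ] {p : ℕ} [Fact p.Prime] [CharP k p]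

open Classical in
/-- Counting: divisibility and sharpness. -/
theorem count (N : Nodes k κ) {f₁ f₂ : κ} (h₁ : f₁ ≠ 0) (h₂ : f₂ ≠ 0)
    (H : Fam₀ N p f₁ f₂) (H' : Fam₀ N p f₁⁻¹ f₂⁻¹) (i : ℕ) :
    (∀ P, P ∉ N.SS → (p : ℤ) ∣ P.ord f₁) ∧ (∀ Q, Q ∉ N.SS' → (p : ℤ) ∣ Q.ord f₂) ∧
    (∀ P ∈ N.SS, (p : ℤ) ∣ P.ord f₁ - i ↔ (p : ℤ) ∣ (N.φ P).ord f₂ + i) ∧
    ((N.SS.filter fun P => (p : ℤ) ∣ P.ord f₁ - i ∨ (p : ℤ) ∣ (N.φ P).ord f₂ + i).card : ℤ) =
      N.SS.card + Divisor.degree (fdiv p (divOf f₁ - i • redDiv N.SS : Divisor k κ)) +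
        Divisor.degree (fdiv p (divOf f₂ + i • redDiv N.SS' : Divisor k κ)) := by
  have hp : 0 < p := (Fact.out : p.Prime).pos
  have h₁' : f₁⁻¹ ≠ 0 := inv_ne_zero h₁
  have h₂' : f₂⁻¹ ≠ 0 := inv_ne_zero h₂
  set D₁ : Divisor k κ := divOf f₁ - i • redDiv N.SS with hD₁
  set D₂ : Divisor k κ := divOf f₂ + i • redDiv N.SS' with hD₂
  set i' : ℕ := (p - 1) * i with hi'
  have hi'z : (i' : ℤ) = (p - 1) * i := by
    rw [hi']; push_cast [Nat.cast_sub (show 1 ≤ p from hp)]; ring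
  set D₁' : Divisor k κ := divOf f₁⁻¹ - i' • redDiv N.SS with hD₁'
  set D₂' : Divisor k κ := divOf f₂⁻¹ + i' • redDiv N.SS' with hD₂'
  -- large n
  obtain ⟨n₀, hn₀⟩ := H.ex i
  obtain ⟨n₁, hn₁⟩ := H'.ex i'
  obtain ⟨m₁, hm₁⟩ : ∃ m : ℕ, 2 * (genusFF k κ : ℤ) - 2 <
      m + Divisor.degree (fdiv p D₁) - N.SS.card - 1 :=
    ⟨(2 * (genusFF k κ : ℤ) - Divisor.degree (fdiv p D₁) + N.SS.card + 1).toNat, by omega⟩
  obtain ⟨m₂, hm₂⟩ : ∃ m : ℕ, 2 * (genusFF k κ : ℤ) - 2 <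
      m + Divisor.degree (fdiv p D₂) - N.SS.card - 1 :=
    ⟨(2 * (genusFF k κ : ℤ) - Divisor.degree (fdiv p D₂) + N.SS.card + 1).toNat, by omega⟩
  obtain ⟨m₃, hm₃⟩ : ∃ m : ℕ, 2 * (genusFF k κ : ℤ) - 2 <
      m + Divisor.degree (fdiv p D₁') - N.SS.card - 1 :=
    ⟨(2 * (genusFF k κ : ℤ) - Divisor.degree (fdiv p D₁') + N.SS.card + 1).toNat, by omega⟩
  obtain ⟨m₄, hm₄⟩ : ∃ m : ℕ, 2 * (genusFF k κ : ℤ) - 2 <
      m + Divisor.degree (fdiv p D₂') - N.SS.card - 1 :=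
    ⟨(2 * (genusFF k κ : ℤ) - Divisor.degree (fdiv p D₂') + N.SS.card + 1).toNat, by omega⟩
  set n := n₀ + n₁ + m₁ + m₂ + m₃ + m₄ with hn
  obtain ⟨𝒩, hd, hC⟩ := hn₀ n (by omega)
  obtain ⟨𝒩', hd', hC'⟩ := hn₁ n (by omega)
  have k1 := (key (p := p) N h₁ h₂ i n hD₁ hD₂ (by omega) (by omega) 𝒩 hd hC).1
  have k2 := (key (p := p) N h₁' h₂' i' n hD₁' hD₂' (by omega) (by omega) 𝒩' hd' hC').1
  set T := N.SS.filter fun P => (p : ℤ) ∣ P.ord f₁ - i ∨ (p : ℤ) ∣ (N.φ P).ord f₂ + i with hT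
  have hTT : (N.SS.filter fun P => (p : ℤ) ∣ P.ord f₁⁻¹ - i' ∨
      (p : ℤ) ∣ (N.φ P).ord f₂⁻¹ + i') = T := by
    rw [hT]
    apply Finset.filter_congr
    intro P _
    have e1 : P.ord f₁⁻¹ - (i' : ℤ) = -(P.ord f₁ - i) - p * i := by
      rw [P.ord_inv, hi'z]; ring
    have e2 : (N.φ P).ord f₂⁻¹ + (i' : ℤ) = -((N.φ P).ord f₂ + i) + p * i := by
      rw [(N.φ P).ord_inv, hi'z]; ring
    rw [e1, e2, dvd_sub_left (dvd_mul_right _ _), dvd_neg, dvd_add_left (dvd_mul_right _ _),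
      dvd_neg]
  rw [hTT] at k2
  -- degrees
  set S : Finset (Place k κ) := (divOf f₁ : Divisor k κ).support ∪ (divOf f₂ : Divisor k κ).support
    ∪ N.SS ∪ N.SS' with hS
  have hsup : ∀ (D E : Divisor k κ), D.support ⊆ S → E.support ⊆ S → (D + E).support ⊆ S :=
    fun D E h h' => Finsupp.support_add.trans (Finset.union_subset h h')
  have hsupr : ∀ (R : Finset (Place k κ)) (j : ℕ), R ⊆ S →
      (j • redDiv R : Divisor k κ).support ⊆ S := by
    intro R j hR P hP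
    by_contra hPS
    rw [Finsupp.mem_support_iff, Finsupp.smul_apply, redDiv_apply_of_notMem
      (fun h => hPS (hR h))] at hP
    exact hP (smul_zero _)
  have hsupn : ∀ (E : Divisor k κ), E.support ⊆ S → (-E).support ⊆ S := by
    intro E h
    rwa [Finsupp.support_neg]
  have hSS : N.SS ⊆ S := fun P hP => by simp [hS, hP]
  have hSS' : N.SS' ⊆ S := fun P hP => by simp [hS, hP]
  have hs1 : D₁.support ⊆ S := by
    rw [hD₁, sub_eq_add_neg]
    refine hsup _ _ (fun P hP => ?_) (hsupn _ (hsupr _ _ hSS))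
    simp only [hS, Finset.mem_union]; tauto
  have hs2 : D₂.support ⊆ S := by
    rw [hD₂]
    refine hsup _ _ (fun P hP => ?_) (hsupr _ _ hSS')
    simp only [hS, Finset.mem_union]; tauto
  have d1 := degree_fdiv_add p hp D₁ (i • redDiv N.SS) D₁' (by
    rw [hD₁', hD₁, divOf_inv h₁]
    ext P
    simp only [Finsupp.sub_apply, Finsupp.neg_apply, Finsupp.smul_apply, nsmul_eq_mul, hi'z]
    ring) S hs1 (hsupr _ _ hSS)
  have d2 := degree_fdiv_add p hp D₂ (-(i • redDiv N.SS')) D₂' (by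
    rw [hD₂', hD₂, divOf_inv h₂]
    ext P
    simp only [Finsupp.sub_apply, Finsupp.neg_apply, Finsupp.smul_apply, nsmul_eq_mul, hi'z,
      Finsupp.add_apply]
    ring) S hs2 (hsupn _ (hsupr _ _ hSS'))
  rw [map_neg] at d2
  rw [map_nsmul, degree_redDiv] at d1 d2
  rw [N.card_SS'] at d2
  set B₁ := S.filter fun P => ¬ (p : ℤ) ∣ D₁ P with hB₁
  set B₂ := S.filter fun P => ¬ (p : ℤ) ∣ D₂ P with hB₂
  have k3 : (2 * T.card + B₁.card + B₂.card : ℤ) ≤ 2 * N.SS.card := by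
    simp only [nsmul_eq_mul] at d1 d2
    linarith
  have hD₁P : ∀ P ∈ N.SS, D₁ P = P.ord f₁ - i := fun P hP => by
    rw [hD₁, Finsupp.sub_apply, divOf_apply h₁, Finsupp.smul_apply, redDiv_apply_of_mem hP]; simp
  have hD₁P' : ∀ P ∉ N.SS, D₁ P = P.ord f₁ := fun P hP => by
    rw [hD₁, Finsupp.sub_apply, divOf_apply h₁, Finsupp.smul_apply, redDiv_apply_of_notMem hP]
    simp
  have hD₂P : ∀ P ∈ N.SS, D₂ (N.φ P) = (N.φ P).ord f₂ + i := fun P hP => by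
    rw [hD₂, Finsupp.add_apply, divOf_apply h₂, Finsupp.smul_apply, redDiv_apply_of_mem
      (N.mem_SS'.mpr ⟨P, hP, rfl⟩)]; simp
  have hD₂P' : ∀ P ∉ N.SS', D₂ P = P.ord f₂ := fun P hP => by
    rw [hD₂, Finsupp.add_apply, divOf_apply h₂, Finsupp.smul_apply, redDiv_apply_of_notMem hP]
    simp
  set A := N.SS.filter fun P => (p : ℤ) ∣ P.ord f₁ - i with hA
  set B := N.SS.filter fun P => (p : ℤ) ∣ (N.φ P).ord f₂ + i with hB
  set A' := N.SS.filter fun P => ¬ (p : ℤ) ∣ P.ord f₁ - i with hA'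
  set B' := N.SS.filter fun P => ¬ (p : ℤ) ∣ (N.φ P).ord f₂ + i with hB'
  have hAA' : A.card + A'.card = N.SS.card := Finset.card_filter_add_card_filter_not _
  have hBB' : B.card + B'.card = N.SS.card := Finset.card_filter_add_card_filter_not _
  have hAT : A ⊆ T := fun P hP => by
    rw [hA, Finset.mem_filter] at hP
    rw [hT, Finset.mem_filter]; tauto
  have hBT : B ⊆ T := fun P hP => by
    rw [hB, Finset.mem_filter] at hP
    rw [hT, Finset.mem_filter]; tauto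
  have hA'B₁ : A' ⊆ B₁ := fun P hP => by
    rw [hA', Finset.mem_filter] at hP
    rw [hB₁, Finset.mem_filter, hD₁P P hP.1]
    exact ⟨hSS hP.1, hP.2⟩
  have hB'inj : (B'.image N.φ).card = B'.card :=
    Finset.card_image_of_injOn (N.inj.mono (fun P hP => (Finset.mem_filter.mp hP).1))
  have hB'B₂ : B'.image N.φ ⊆ B₂ := fun Q hQ => by
    obtain ⟨P, hP, rfl⟩ := Finset.mem_image.mp hQ
    rw [hB', Finset.mem_filter] at hP
    rw [hB₂, Finset.mem_filter, hD₂P P hP.1]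
    exact ⟨hSS' (N.mem_SS'.mpr ⟨P, hP.1, rfl⟩), hP.2⟩
  have c1 := Finset.card_le_card hAT
  have c2 := Finset.card_le_card hBT
  have c3 := Finset.card_le_card hA'B₁
  have c4 := Finset.card_le_card hB'B₂
  rw [hB'inj] at c4
  have eA : A = T := Finset.eq_of_subset_of_card_le hAT (by omega)
  have eB : B = T := Finset.eq_of_subset_of_card_le hBT (by omega)
  have eB₁ : A' = B₁ := Finset.eq_of_subset_of_card_le hA'B₁ (by omega)
  have eB₂ : B'.image N.φ = B₂ := Finset.eq_of_subset_of_card_le hB'B₂ (by omega)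
  refine ⟨?_, ?_, ?_, ?_⟩
  · intro P hP
    by_contra hnd
    rw [← hD₁P' P hP] at hnd
    have hPS : P ∈ S := by
      by_contra hPS
      apply hnd
      have : D₁ P = 0 := by
        by_contra h
        exact hPS (hs1 (Finsupp.mem_support_iff.mpr h))
      rw [this]; exact dvd_zero _
    have : P ∈ B₁ := by rw [hB₁, Finset.mem_filter]; exact ⟨hPS, hnd⟩
    rw [← eB₁, hA', Finset.mem_filter] at this
    exact hP this.1
  · intro P hP
    by_contra hnd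
    rw [← hD₂P' P hP] at hnd
    have hPS : P ∈ S := by
      by_contra hPS
      apply hnd
      have : D₂ P = 0 := by
        by_contra h
        exact hPS (hs2 (Finsupp.mem_support_iff.mpr h))
      rw [this]; exact dvd_zero _
    have : P ∈ B₂ := by rw [hB₂, Finset.mem_filter]; exact ⟨hPS, hnd⟩
    rw [← eB₂, Finset.mem_image] at this
    obtain ⟨R, hR, rfl⟩ := this
    exact hP (N.mem_SS'.mpr ⟨R, (Finset.mem_filter.mp hR).1, rfl⟩)
  · intro P hP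
    constructor
    · intro h
      have : P ∈ A := by rw [hA, Finset.mem_filter]; exact ⟨hP, h⟩
      rw [eA, ← eB, hB, Finset.mem_filter] at this
      exact this.2
    · intro h
      have : P ∈ B := by rw [hB, Finset.mem_filter]; exact ⟨hP, h⟩
      rw [eB, ← eA, hA, Finset.mem_filter] at this
      exact this.2
  · have hTA : T.card = A.card := by rw [eA]
    have hTB : T.card = B.card := by rw [eB]
    have hb1 : A'.card = B₁.card := by rw [eB₁]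
    have hb2 : B'.card = B₂.card := by rw [← eB₂, hB'inj]
    simp only [nsmul_eq_mul] at d1 d2
    have q1 : (T.card : ℤ) = A.card := by exact_mod_cast hTA
    have q2 : (T.card : ℤ) = B.card := by exact_mod_cast hTB
    have q3 : (A'.card : ℤ) = B₁.card := by exact_mod_cast hb1
    have q4 : (B'.card : ℤ) = B₂.card := by exact_mod_cast hb2
    have q5 : (A.card : ℤ) + A'.card = N.SS.card := by exact_mod_cast hAA'
    have q6 : (B.card : ℤ) + B'.card = N.SS.card := by exact_mod_cast hBB'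
    apply le_antisymm k1
    linarith

theorem exists_big (g d c : ℤ) : ∃ m : ℕ, ∀ n : ℕ, m ≤ n → 2 * g - 2 < n + d - c - 1 :=
  ⟨(2 * g - d + c + 1).toNat, fun n hn => by omega⟩

/-- **Theorem B.** -/
theorem main (N : Nodes k κ) {f₁ f₂ r₁ r₂ : κ} {c : k} (h₁ : f₁ ≠ 0) (h₂ : f₂ ≠ 0)
    (H : Fam N p f₁ f₂ r₁ r₂ c) (H' : Fam₀ N p f₁⁻¹ f₂⁻¹) :
    (∀ P, P ∉ N.SS → (p : ℤ) ∣ P.ord f₁) ∧ (∀ Q, Q ∉ N.SS' → (p : ℤ) ∣ Q.ord f₂) ∧
    (∀ P ∈ N.SS, (p : ℤ) ∣ P.ord f₁ + (N.φ P).ord f₂) ∧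
    ∃ ρ₁ ρ₂ : k, r₁ = algebraMap k κ ρ₁ ∧ r₂ = algebraMap k κ ρ₂ ∧
      ∀ P ∈ N.SS, ρ₁ - ρ₂ = (P.ord f₁ : k) * c := by
  classical
  have hp : 0 < p := (Fact.out : p.Prime).pos
  have hpz : (0 : ℤ) < p := by exact_mod_cast hp
  obtain ⟨cA, cB, -, -⟩ := count N h₁ h₂ H.fam₀ H' 0
  -- what `key` gives for each `i`
  have hkey : ∀ i : ℕ, ∃ (n : ℕ) (𝒩 : Submodule k (κ × κ)),
      (∀ x ∈ 𝒩, N.Cst i (p * n) (x.1 ^ p * f₁) (x.2 ^ p * f₂) ∧
        N.Cst i (p * n) (r₁ * (x.1 ^ p * f₁))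
          ((r₂ + algebraMap k κ (i * c)) * (x.2 ^ p * f₂))) ∧
      (∀ P₀ ∉ N.SS, ∃ α : κ, ((α, 0) : κ × κ) ∈ 𝒩 ∧
        P₀.adicValuation α = exp ((Finsupp.single N.Pinf (n : ℤ) +
          fdiv p (divOf f₁ - i • redDiv N.SS) : Divisor k κ) P₀)) ∧
      (∀ Q₀ ∉ N.SS', ∃ β : κ, ((0, β) : κ × κ) ∈ 𝒩 ∧
        Q₀.adicValuation β = exp ((Finsupp.single N.Pinf (n : ℤ) +
          fdiv p (divOf f₂ + i • redDiv N.SS') : Divisor k κ) Q₀)) ∧
      (∀ P₀ ∈ N.SS, (p : ℤ) ∣ P₀.ord f₁ - i → (p : ℤ) ∣ (N.φ P₀).ord f₂ + i →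
        ∃ α β : κ, ((α, β) : κ × κ) ∈ 𝒩 ∧
          HasVal P₀ (α ^ p * f₁ * N.b ^ i) 1 ∧ HasVal (N.φ P₀) (β ^ p * f₂ * N.z ^ i) 1) := by
    intro i
    obtain ⟨n₀, hn₀⟩ := H.ex i
    obtain ⟨m₁, hm₁⟩ := exists_big (genusFF k κ)
      (Divisor.degree (fdiv p (divOf f₁ - i • redDiv N.SS : Divisor k κ))) N.SS.card
    obtain ⟨m₂, hm₂⟩ := exists_big (genusFF k κ)
      (Divisor.degree (fdiv p (divOf f₂ + i • redDiv N.SS' : Divisor k κ))) N.SS.card
    set n := n₀ + m₁ + m₂ with hn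
    obtain ⟨𝒩, hd, hC⟩ := hn₀ n (by omega)
    have k1 := (key (p := p) N h₁ h₂ i n rfl rfl (hm₁ n (by omega)) (hm₂ n (by omega)) 𝒩 hd
      (fun x hx => (hC x hx).1)).2 (count N h₁ h₂ H.fam₀ H' i).2.2.2
    exact ⟨n, 𝒩, hC, k1⟩
  -- regularity of `r₁` off the nodes
  have hoff₁ : ∀ P, P ∉ N.SS → P.adicValuation r₁ ≤ 1 := by
    intro P hP
    obtain ⟨n, 𝒩, hC, h3, -, -⟩ := hkey 0
    obtain ⟨α, hα, hαv⟩ := h3 P hP
    have h4 := (hC _ hα).2.left P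
    simp only [zero_smul, sub_zero, map_mul, map_pow] at h4
    rw [hαv] at h4
    have h5 : ((Finsupp.single N.Pinf (n : ℤ) +
        fdiv p (divOf f₁ - 0 • redDiv N.SS) : Divisor k κ) P) =
        (Finsupp.single N.Pinf (n : ℤ) : Place k κ →₀ ℤ) P + P.ord f₁ / p := by
      rw [Finsupp.add_apply, fdiv_apply, zero_smul, sub_zero, divOf_apply h₁]
    have h6 : (Finsupp.single N.Pinf ((p * n : ℕ) : ℤ) : Place k κ →₀ ℤ) P =
        p * (Finsupp.single N.Pinf (n : ℤ) : Place k κ →₀ ℤ) P := by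
      rw [Finsupp.single_apply, Finsupp.single_apply]
      split_ifs <;> simp
    rw [h5, h6, adicValuation_eq_exp P h₁, ← exp_nsmul, ← exp_add] at h4
    have h7 : (p • ((Finsupp.single N.Pinf (n : ℤ) : Place k κ →₀ ℤ) P + P.ord f₁ / (p : ℤ)) +
        -P.ord f₁ : ℤ) = p * (Finsupp.single N.Pinf (n : ℤ) : Place k κ →₀ ℤ) P := by
      rw [nsmul_eq_mul, mul_add, Int.mul_ediv_cancel' (cA P hP)]; ring
    rw [h7] at h4
    exact (mul_le_iff_le_one_left (by simp [zero_lt_iff])).mp h4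
  have hoff₂ : ∀ Q, Q ∉ N.SS' → Q.adicValuation r₂ ≤ 1 := by
    intro P hP
    obtain ⟨n, 𝒩, hC, -, h3, -⟩ := hkey 0
    obtain ⟨α, hα, hαv⟩ := h3 P hP
    have h4 := (hC _ hα).2.right P
    simp only [zero_smul, add_zero, map_mul, map_pow, Nat.cast_zero, zero_mul, map_zero] at h4
    rw [hαv] at h4
    have h5 : ((Finsupp.single N.Pinf (n : ℤ) +
        fdiv p (divOf f₂ + 0 • redDiv N.SS') : Divisor k κ) P) =
        (Finsupp.single N.Pinf (n : ℤ) : Place k κ →₀ ℤ) P + P.ord f₂ / p := by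
      rw [Finsupp.add_apply, fdiv_apply, zero_smul, add_zero, divOf_apply h₂]
    have h6 : (Finsupp.single N.Pinf ((p * n : ℕ) : ℤ) : Place k κ →₀ ℤ) P =
        p * (Finsupp.single N.Pinf (n : ℤ) : Place k κ →₀ ℤ) P := by
      rw [Finsupp.single_apply, Finsupp.single_apply]
      split_ifs <;> simp
    rw [h5, h6, adicValuation_eq_exp P h₂, ← exp_nsmul, ← exp_add] at h4
    have h7 : (p • ((Finsupp.single N.Pinf (n : ℤ) : Place k κ →₀ ℤ) P + P.ord f₂ / (p : ℤ)) +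
        -P.ord f₂ : ℤ) = p * (Finsupp.single N.Pinf (n : ℤ) : Place k κ →₀ ℤ) P := by
      rw [nsmul_eq_mul, mul_add, Int.mul_ediv_cancel' (cB P hP)]; ring
    rw [h7] at h4
    exact (mul_le_iff_le_one_left (by simp [zero_lt_iff])).mp h4
  -- values at the nodes
  have hnode : ∀ P ∈ N.SS, ∃ d : k, HasVal P r₁ d ∧
      HasVal (N.φ P) r₂ (d - (P.ord f₁ : k) * c) := by
    intro P hP
    set i : ℕ := (P.ord f₁ % p).toNat with hi
    have hiz : (i : ℤ) = P.ord f₁ % p := by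
      rw [hi, Int.toNat_of_nonneg (Int.emod_nonneg _ hpz.ne')]
    have hd1 : (p : ℤ) ∣ P.ord f₁ - i := by
      rw [hiz]; exact Int.dvd_self_sub_emod
    have hd2 := ((count N h₁ h₂ H.fam₀ H' i).2.2.1 P hP).mp hd1
    obtain ⟨n, 𝒩, hC, -, -, h3⟩ := hkey i
    obtain ⟨α, β, hαβ, hα, hβ⟩ := h3 P hP hd1 hd2
    obtain ⟨d, hd3, hd4⟩ := (hC _ hαβ).2.node P hP
    have e1 : r₁ * (α ^ p * f₁) * N.b ^ i = r₁ * (α ^ p * f₁ * N.b ^ i) := by ring
    have e2 : (r₂ + algebraMap k κ (i * c)) * (β ^ p * f₂) * N.z ^ i =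
        (r₂ + algebraMap k κ (i * c)) * (β ^ p * f₂ * N.z ^ i) := by ring
    simp only at hd3 hd4
    rw [e1] at hd3
    rw [e2] at hd4
    have hd5 := hd3.of_mul hα (hα.eq_one one_ne_zero)
    have hd6 := hd4.of_mul hβ (hβ.eq_one one_ne_zero)
    refine ⟨d, hd5, ?_⟩
    have hd7 := hd6.sub (HasVal.const (N.φ P) (i * c))
    rw [add_sub_cancel_right] at hd7
    have hcast : (P.ord f₁ : k) = (i : k) := by
      obtain ⟨e, he⟩ := hd1
      have : P.ord f₁ = i + p * e := by omega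
      rw [this]
      push_cast
      rw [CharP.cast_eq_zero k p, zero_mul, add_zero]
    rw [hcast]
    exact hd7
  have hall₁ : ∀ P : Place k κ, P.adicValuation r₁ ≤ 1 := by
    intro P
    by_cases hP : P ∈ N.SS
    · obtain ⟨d, hd, -⟩ := hnode P hP
      exact hd.le_one
    · exact hoff₁ P hP
  have hall₂ : ∀ P : Place k κ, P.adicValuation r₂ ≤ 1 := by
    intro Q
    by_cases hQ : Q ∈ N.SS'
    · obtain ⟨P, hP, rfl⟩ := N.mem_SS'.mp hQ
      obtain ⟨d, -, hd⟩ := hnode P hP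
      exact hd.le_one
    · exact hoff₂ Q hQ
  obtain ⟨ρ₁, hρ₁⟩ := exists_const_of_forall_le_one hall₁
  obtain ⟨ρ₂, hρ₂⟩ := exists_const_of_forall_le_one hall₂
  refine ⟨cA, cB, ?_, ρ₁, ρ₂, hρ₁.symm, hρ₂.symm, ?_⟩
  · intro P hP
    set i : ℕ := (P.ord f₁ % p).toNat with hi
    have hiz : (i : ℤ) = P.ord f₁ % p := by
      rw [hi, Int.toNat_of_nonneg (Int.emod_nonneg _ hpz.ne')]
    have hd1 : (p : ℤ) ∣ P.ord f₁ - i := by
      rw [hiz]; exact Int.dvd_self_sub_emod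
    have hd2 := ((count N h₁ h₂ H.fam₀ H' i).2.2.1 P hP).mp hd1
    have := dvd_add hd1 hd2
    rwa [show P.ord f₁ - (i : ℤ) + ((N.φ P).ord f₂ + i) = P.ord f₁ + (N.φ P).ord f₂ by ring]
      at this
  · intro P hP
    obtain ⟨d, hd1, hd2⟩ := hnode P hP
    rw [← hρ₁] at hd1
    rw [← hρ₂] at hd2
    have e1 := (HasVal.const P ρ₁).unique hd1
    have e2 := (HasVal.const (N.φ P) ρ₂).unique hd2
    rw [e1, e2]; ring

end Main

end Fermat.Agent.H44B
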