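import Fermat.Agent.H3RR_Special

/-!
# Values at places, leading functionals

`HasVal P h c` : the function `h` is regular at the place `P` with value `c`.
-/

set_option autoImplicit false

open AlgebraicCurve WithZero Fermat.Agent.H3RR

namespace Fermat.Agent.H44B

section Basic

variable {k κ : Type*} [Field k] [Field κ] [Algebra k κ]

/-- `h` is regular at `P` and takes the value `c`. -/
def HasVal (P : Place k κ) (h : κ) (c : k) : Prop := P.adicValuation (h - algebraMap k κ c) < 1

variable {P : Place k κ} {h h' : κ} {c c' : k}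

theorem HasVal.le_one (H : HasVal P h c) : P.adicValuation h ≤ 1 := by
  have h1 : h = (h - algebraMap k κ c) + algebraMap k κ c := by ring
  rw [h1]
  exact (Valuation.map_add _ _ _).trans (max_le H.le (P.adicValuation_algebraMap_le_one c))

theorem HasVal.add (H : HasVal P h c) (H' : HasVal P h' c') : HasVal P (h + h') (c + c') := by
  have h1 : h + h' - algebraMap k κ (c + c') =
      (h - algebraMap k κ c) + (h' - algebraMap k κ c') := by rw [map_add]; ring
  rw [HasVal, h1]
  exact lt_of_le_of_lt (Valuation.map_add _ _ _) (max_lt H H')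

theorem HasVal.neg (H : HasVal P h c) : HasVal P (-h) (-c) := by
  have h1 : -h - algebraMap k κ (-c) = -(h - algebraMap k κ c) := by rw [map_neg]; ring
  rw [HasVal, h1, Valuation.map_neg]
  exact H

theorem HasVal.sub (H : HasVal P h c) (H' : HasVal P h' c') : HasVal P (h - h') (c - c') := by
  rw [sub_eq_add_neg, sub_eq_add_neg]
  exact H.add H'.neg

theorem HasVal.mul (H : HasVal P h c) (H' : HasVal P h' c') : HasVal P (h * h') (c * c') := by
  have h1 : h * h' - algebraMap k κ (c * c') =
      (h - algebraMap k κ c) * h' + algebraMap k κ c * (h' - algebraMap k κ c') := by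
    rw [map_mul]; ring
  rw [HasVal, h1]
  refine lt_of_le_of_lt (Valuation.map_add _ _ _) (max_lt ?_ ?_)
  · rw [map_mul]
    exact lt_of_le_of_lt (mul_le_of_le_one_right' H'.le_one) H
  · rw [map_mul]
    exact lt_of_le_of_lt (mul_le_of_le_one_left' (P.adicValuation_algebraMap_le_one c)) H'

theorem HasVal.const (P : Place k κ) (c : k) : HasVal P (algebraMap k κ c) c := by
  rw [HasVal, sub_self, map_zero]
  exact zero_lt_one

theorem HasVal.one (P : Place k κ) : HasVal P 1 1 := by
  have := HasVal.const P (1 : k)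
  rwa [map_one] at this

theorem HasVal.pow (H : HasVal P h c) (n : ℕ) : HasVal P (h ^ n) (c ^ n) := by
  induction n with
  | zero => simpa using HasVal.one P
  | succ n ih => rw [pow_succ, pow_succ]; exact ih.mul H

theorem hasVal_zero_iff : HasVal P h 0 ↔ P.adicValuation h < 1 := by
  rw [HasVal, map_zero, sub_zero]

end Basic

section Closed

variable {k κ : Type*} [Field k] [Field κ] [Algebra k κ] [IsAlgClosed k] [IsFF k κ]
  {P : Place k κ} {h h' : κ} {c c' : k}

theorem exists_hasVal (hh : P.adicValuation h ≤ 1) : ∃ c : k, HasVal P h c :=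
  exists_const_sub_lt_one P hh

theorem HasVal.unique (H : HasVal P h c) (H' : HasVal P h c') : c = c' := by
  by_contra hne
  have h1 : P.adicValuation (algebraMap k κ (c - c')) < 1 := by
    have h2 : algebraMap k κ (c - c') = (h - algebraMap k κ c') - (h - algebraMap k κ c) := by
      rw [map_sub]; ring
    rw [h2]
    exact lt_of_le_of_lt (Valuation.map_sub _ _ _) (max_lt H' H)
  rw [adicValuation_algebraMap P (sub_ne_zero.mpr hne)] at h1
  exact lt_irrefl _ h1

theorem HasVal.eq_one (H : HasVal P h c) (hc : c ≠ 0) : P.adicValuation h = 1 := by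
  refine le_antisymm H.le_one ?_
  by_contra hlt
  rw [not_le] at hlt
  exact hc (H.unique (hasVal_zero_iff.mpr hlt))

theorem HasVal.ne_zero (H : HasVal P h c) (hc : c ≠ 0) : h ≠ 0 := by
  rintro rfl
  have := H.eq_one hc
  simp at this

theorem HasVal.ord_eq_zero (H : HasVal P h c) (hc : c ≠ 0) : P.ord h = 0 := by
  rw [Place.ord, H.eq_one hc]
  simp

omit [IsAlgClosed k] [IsFF k κ] in
theorem hasVal_ne_zero_of_ord (hh : h ≠ 0) (h0 : P.ord h = 0) (H : HasVal P h c) : c ≠ 0 := by
  rintro rfl
  rw [hasVal_zero_iff] at H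
  have h1 : P.adicValuation h = exp (-P.ord h) := by
    rw [Place.ord, neg_neg, WithZero.exp_log (P.adicValuation_ne_zero hh)]
  rw [h1, h0] at H
  simp at H

end Closed

section Ord

variable {k κ : Type*} [Field k] [Field κ] [Algebra k κ]

theorem adicValuation_eq_exp (P : Place k κ) {h : κ} (hh : h ≠ 0) :
    P.adicValuation h = exp (-P.ord h) := by
  rw [Place.ord, neg_neg, WithZero.exp_log (P.adicValuation_ne_zero hh)]

theorem ord_pow (P : Place k κ) (h : κ) (n : ℕ) : P.ord (h ^ n) = n * P.ord h := by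
  have := P.ord_zpow h (n : ℤ)
  rwa [zpow_natCast] at this

end Ord

section Lam

variable {k κ : Type*} [Field k] [Field κ] [Algebra k κ] [IsAlgClosed k] [IsFF k κ]

/-- normalised leading coefficient as a `k`-linear functional on `{v ≤ exp n}` -/
theorem exists_lc (P : Place k κ) (n : ℤ) : ∃ l : vLe P n →ₗ[k] k,
    ∀ a : vLe P n, HasVal P ((a : κ) / unif P n) (l a) := by
  let e : k ≃ₗ[k] P.ResidueField :=
    LinearEquiv.ofBijective (Algebra.linearMap k P.ResidueField) (residue_bijective P)
  refine ⟨e.symm.toLinearMap ∘ₗ leadCoeff P n, fun a => ?_⟩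
  have h1 : e (e.symm (leadCoeff P n a)) = leadCoeff P n a := e.apply_symm_apply _
  set c := e.symm (leadCoeff P n a) with hc
  have h2 : algebraMap k P.ResidueField c =
      IsLocalRing.residue P.toValuationSubring ⟨(a : κ) / unif P n, div_unif_mem a.2⟩ := h1
  have h3 : algebraMap k P.ResidueField c =
    IsLocalRing.residue P.toValuationSubring (algebraMap k _ c) := rfl
  rw [h3, eq_comm, ← sub_eq_zero, ← map_sub, residue_eq_zero_iff'] at h2
  exact h2

/-- For `α ∈ L(G)` the value at `P` of `α ^ p * h` is the `p`-th power of a linear functional. -/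
theorem exists_lam {p : ℕ} (hp : 0 < p) (P : Place k κ) {h : κ} (hh : h ≠ 0) (G : Divisor k κ)
    (hG : G P = P.ord h / (p : ℤ)) :
    ∃ l : riemannRochSpace G →ₗ[k] k,
      (∀ a : riemannRochSpace G, HasVal P ((a : κ) ^ p * h) (l a ^ p)) ∧
      ((p : ℤ) ∣ P.ord h → ∀ a : riemannRochSpace G, l a = 0 →
        P.adicValuation (a : κ) ≤ exp (G P - 1)) ∧
      (¬ (p : ℤ) ∣ P.ord h → l = 0) ∧
      (∀ a : riemannRochSpace G, P.adicValuation (a : κ) ≤ exp (G P - 1) → l a = 0) := by
  suffices H : ∃ l : riemannRochSpace G →ₗ[k] k,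
      (∀ a : riemannRochSpace G, HasVal P ((a : κ) ^ p * h) (l a ^ p)) ∧
      ((p : ℤ) ∣ P.ord h → ∀ a : riemannRochSpace G, l a = 0 →
        P.adicValuation (a : κ) ≤ exp (G P - 1)) ∧
      (¬ (p : ℤ) ∣ P.ord h → l = 0) by
    obtain ⟨l, h1, h2, h3⟩ := H
    refine ⟨l, h1, h2, h3, fun a ha => ?_⟩
    have h4 : HasVal P ((a : κ) ^ p * h) 0 := by
      rw [hasVal_zero_iff, map_mul, map_pow, adicValuation_eq_exp P hh]
      have h5 : P.adicValuation (a : κ) ^ p ≤ exp (p • (G P - 1)) := by
        rw [exp_nsmul]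
        exact pow_le_pow_left' ha p
      calc P.adicValuation (a : κ) ^ p * exp (-P.ord h)
          ≤ exp (p • (G P - 1)) * exp (-P.ord h) := mul_le_mul_left h5 _
        _ = exp (p • (G P - 1) - P.ord h) := by rw [← exp_add]; rfl
        _ < 1 := by
          rw [← exp_zero, exp_lt_exp, nsmul_eq_mul, hG]
          have hpz : (0 : ℤ) < p := by exact_mod_cast hp
          have h5 := Int.mul_ediv_add_emod (P.ord h) p
          have h6 := Int.emod_nonneg (P.ord h) hpz.ne'
          rw [mul_sub]
          omega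
    have h6 := (h1 a).unique h4
    exact pow_eq_zero_iff hp.ne' |>.mp h6
  obtain ⟨l₀, hl₀⟩ := exists_lc P (G P)
  have hpz : (0 : ℤ) < p := by exact_mod_cast hp
  by_cases hdvd : (p : ℤ) ∣ P.ord h
  · -- the function `u ^ p * h` is a unit
    have hu : unif P (G P) ≠ 0 := unif_ne_zero P (G P)
    have h1 : P.adicValuation (unif P (G P) ^ p * h) = 1 := by
      rw [map_mul, map_pow, adicValuation_unif, adicValuation_eq_exp P hh, ← exp_nsmul, ← exp_add]
      have : (p • G P : ℤ) + -P.ord h = 0 := by
        rw [nsmul_eq_mul, hG, Int.mul_ediv_cancel' hdvd]; ring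
      rw [this]; simp
    obtain ⟨c, hc⟩ := exists_hasVal h1.le
    have hc0 : c ≠ 0 := by
      rintro rfl
      rw [hasVal_zero_iff, h1] at hc
      exact lt_irrefl _ hc
    obtain ⟨d, hd⟩ := IsAlgClosed.exists_pow_nat_eq c hp
    have hd0 : d ≠ 0 := by
      rintro rfl
      rw [zero_pow hp.ne'] at hd
      exact hc0 hd.symm
    refine ⟨d • (l₀ ∘ₗ evalL G P), ?_, ?_, fun hn => absurd hdvd hn⟩
    · intro a
      have h2 := (hl₀ (evalL G P a)).pow p |>.mul hc
      have h3 : (((evalL G P a : vLe P (G P)) : κ) / unif P (G P)) ^ p *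
          (unif P (G P) ^ p * h) = (a : κ) ^ p * h := by
        have : ((evalL G P a : vLe P (G P)) : κ) = a := rfl
        rw [this, div_pow]
        field_simp
      rw [h3] at h2
      have h4 : (d • (l₀ ∘ₗ evalL G P)) a ^ p = l₀ (evalL G P a) ^ p * c := by
        rw [LinearMap.smul_apply, LinearMap.comp_apply, smul_eq_mul, mul_pow, hd, mul_comm]
      rw [h4]
      exact h2
    · intro _ a ha
      have h2 : l₀ (evalL G P a) = 0 := by
        rw [LinearMap.smul_apply, LinearMap.comp_apply, smul_eq_mul] at ha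
        exact (mul_eq_zero.mp ha).resolve_left hd0
      have h3 := hl₀ (evalL G P a)
      rw [h2, hasVal_zero_iff, adicValuation_lt_one_iff, map_div₀, adicValuation_unif,
        div_le_iff₀ (by simp [zero_lt_iff]), ← exp_add] at h3
      have : ((evalL G P a : vLe P (G P)) : κ) = a := rfl
      rw [this] at h3
      rwa [show (-1 : ℤ) + G P = G P - 1 by ring] at h3
  · refine ⟨0, ?_, fun h' => absurd h' hdvd, fun _ => rfl⟩
    intro a
    rw [LinearMap.zero_apply, zero_pow hp.ne', hasVal_zero_iff, map_mul, map_pow,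
      adicValuation_eq_exp P hh]
    have h1 : P.adicValuation (a : κ) ≤ exp (G P) := a.2 P
    have h2 : P.adicValuation (a : κ) ^ p ≤ exp (p • G P) := by
      rw [exp_nsmul]
      exact pow_le_pow_left' h1 p
    calc P.adicValuation (a : κ) ^ p * exp (-P.ord h) ≤ exp (p • G P) * exp (-P.ord h) :=
          mul_le_mul_left h2 _
      _ = exp (p • G P - P.ord h) := by rw [← exp_add]; rfl
      _ < 1 := by
          rw [← exp_zero, exp_lt_exp, nsmul_eq_mul, hG]
          have h4 : (p : ℤ) * (P.ord h / p) ≠ P.ord h := fun h5 => hdvd ⟨_, h5.symm⟩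
          have h5 := Int.mul_ediv_add_emod (P.ord h) p
          have h6 := Int.emod_nonneg (P.ord h) hpz.ne'
          have h7 : (P.ord h) % (p : ℤ) ≠ 0 := fun h7 => hdvd (Int.dvd_of_emod_eq_zero h7)
          omega

end Lam

end Fermat.Agent.H44B
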