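import Fermat.Agent.H73GeoX
import Fermat.Agent.H44Kum
import Fermat.Agent.H44ESide
import Fermat.Agent.H40Node

/-!
# The core of Mazur's principle at `p` for `X₀(Mp)` (helper44)
-/

set_option autoImplicit false
set_option linter.unusedSectionVars false
set_option linter.style.haveILetI false
set_option maxHeartbeats 2000000
set_option synthInstance.maxHeartbeats 200000

noncomputable section

open AlgebraicCurve ModularCurve IntermediateField WithZero Fermat.Agent.H97
  Fermat.Agent.H34.Two Fermat.Agent.H31.In Fermat.Agent.H31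

namespace Fermat.Agent.H44K

open Fermat.Agent.H33 (IsKum)
open Fermat.Agent.H61.L5 (NewEmb)
open Fermat.Agent.H39 (Tor GQb)

section Abs

variable {K F k Fb Γ ν G : Type*} [Field K] [Field F] [Algebra K F] [Field k] [Field Fb]
    [Algebra k Fb] [LinearOrderedCommGroupWithZero Γ] [Group G] [MulSemiringAction G K]
    [MulSemiringAction G F] {p : ℕ} {D : MP.Data K F k Fb Γ ν G p}
variable [IsAlgClosed K] [H3RR.IsFF K F] [IsAlgClosed k] [H3RR.IsFF k Fb]
variable [Fact p.Prime] [CharP k p] [CharP Fb p]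
variable {W : F ≃ₐ[K] F} {N : F →* F} {ζ : K}
    {V : Type*} [AddCommGroup V] [DistribMulAction G V]

/-- The output of the Galois bookkeeping. -/
theorem core_abs (R : H40.Geo D W N ζ) (Q : H40.Kum K G p V W N)
    (E : H40.ESide (G := G) D.M.vK p V ζ) :
    ∃ c : K, c ≠ 0 ∧ D.M.v false (Q.U E.z / algebraMap K F c) = 1 ∧
      (∀ s s' : ν, (p : ℤ) ∣ (D.pt false s).ord (D.M.ρ false (Q.U E.z / algebraMap K F c)) -
        (D.pt false s').ord (D.M.ρ false (Q.U E.z / algebraMap K F c))) ∧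
      (∀ P : Place k Fb, (∀ n, (false, P) ∉ D.M.br n) →
        (p : ℤ) ∣ P.ord (D.M.ρ false (Q.U E.z / algebraMap K F c))) ∧
      ∀ g : Fb, D.M.ρ false (Q.U E.z / algebraMap K F c) ≠ g ^ p := by
  obtain ⟨c, hc0, -, hvc⟩ := D.scale ⊥ false (Q.U E.z) (by
    intro σ hσ
    rw [Subgroup.mem_bot] at hσ
    rw [hσ, one_smul]) (Q.ne E.z)
  have hcF : algebraMap K F c ≠ 0 := (_root_.map_ne_zero _).mpr hc0
  have hc : D.M.v false (Q.U E.z / algebraMap K F c) = 1 := by
    rw [map_div₀, (D.comp false).v_alg, hvc, div_self]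
    exact (Valuation.ne_zero_iff _).mpr hc0
  refine ⟨c, hc0, hc, fun s s' => H40.node_congr R Q E hc s s', fun P hP => ?_,
    fun g => H40.ne_pow R Q E hc g⟩
  refine H40.dvd_ord_smooth (div_ne_zero (Q.ne _) hcF) (fun P' => ?_) hc hP
  have h1 : P'.ord (Q.U E.z / algebraMap K F c) = P'.ord (Q.U E.z) := by
    have h2 : Q.U E.z = Q.U E.z / algebraMap K F c * algebraMap K F c :=
      (div_mul_cancel₀ _ hcF).symm
    conv_rhs => rw [h2]
    rw [P'.ord_mul (div_ne_zero (Q.ne _) hcF) hcF, H33.IsKum.ord_algebraMap, add_zero]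
  rw [h1]
  exact Q.dvd _ P'

end Abs

section Qbar

local notation "Qb" => AlgebraicClosure ℚ
local notation "GQ" => (AlgebraicClosure ℚ ≃ₐ[ℚ] AlgebraicClosure ℚ)

variable {p : Nat.Primes} {M₀ M : ℕ} [NeZero M₀] [NeZero M] [NeZero (p : ℕ)]
  [NeZero (M₀ * p)] [NeZero (M * p)] [hq : Fact (p : ℕ).Prime] {A : ValuationSubring Qb}
  [CharP (IsLocalRing.ResidueField A) p] [IsAlgClosed (IsLocalRing.ResidueField A)]
  [Infinite (IsLocalRing.ResidueField A)] (w : H99.AL Qb M p)
  (hdeg : H42.DegLE Qb (IsLocalRing.ResidueField A) M) (hqm : ¬ (p : ℕ) ∣ M)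
  (ι : Qb →+* ℂ) {e : ℕ} (he : e = 4 ∨ e = 9) (hem : e ∣ M)
  (arch : Arch A)
  (r : Place Qb (H99.FX Qb M) → Place (IsLocalRing.ResidueField A)
    (modularFunctionFieldFullC (IsLocalRing.ResidueField A) M))
  {c₀ : ℕ}
  (hr1 : ∀ D : Divisor Qb (H99.FX Qb M), (c₀ : ℤ) < Divisor.degree D →
    (H42.modReductionData A (IsLocalRing.residue A) M IsLocalRing.residue_surjective hdeg).IsRed D
      (Finsupp.mapDomain r D))
  (hr2 : H34.GR.DivCompat (H42.modReductionData A (IsLocalRing.residue A) M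
    IsLocalRing.residue_surjective hdeg) r)
  [H3RR.IsFF Qb (H99.FX Qb M)] [H3RR.IsFF Qb (H99.FX Qb (M * p))]
  [H3RR.IsFF (IsLocalRing.ResidueField A)
    (modularFunctionFieldFullC (IsLocalRing.ResidueField A) M)]
  [H94.FunField Qb (H99.FX Qb M)] [H94.FunField Qb (H99.FX Qb (M * p))]

/-- **Core of Mazur's principle at `p`.** -/
theorem core (hA : A.LiesOverPrime p) {P₀ : Place Qb (H99.FX Qb M)} (hP₀ : IsInf P₀)
    (htors : Eq.Equi.Tors (sheets w IsLocalRing.residue_surjective hdeg hqm arch r hr1 hr2))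
    {W : WeierstrassCurve ℤ} {S₀ S : Set ℕ} (E₀ : NewEmb W p M₀ S₀) (E : NewEmb W p M S)
    (h : M₀ * p * 1 ∣ M * p) (hE : ∀ x, E.ι x = H67.degPull 1 h (E₀.ι x))
    (hES : ∀ ζ : Qb, IsPrimitiveRoot ζ (p : ℕ) → Nonempty
      (H40.ESide (G := A.inertiaSubgroupIn ℚ) A.valuation (p : ℕ) (Tor W p) ζ)) :
    ∃ (z : Tor W p) (u₀ : H99.FX Qb (M₀ * p)) (c : Qb), IsKum p (E₀.ι z) u₀ ∧ c ≠ 0 ∧
      (EqI.dataX w IsLocalRing.residue_surjective hdeg hqm ι he hem arch r hr1 hr2
        (EqI.trivV hA IsLocalRing.residue_surjective) hP₀ htors).M.v false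
          (H67.dg Qb 1 h u₀ / algebraMap Qb (H99.FX Qb (M * p)) c) = 1 ∧
      (∀ s s', ((p : ℕ) : ℤ) ∣
        ((EqI.dataX w IsLocalRing.residue_surjective hdeg hqm ι he hem arch r hr1 hr2
          (EqI.trivV hA IsLocalRing.residue_surjective) hP₀ htors).pt false s).ord
          ((EqI.dataX w IsLocalRing.residue_surjective hdeg hqm ι he hem arch r hr1 hr2
            (EqI.trivV hA IsLocalRing.residue_surjective) hP₀ htors).M.ρ false
              (H67.dg Qb 1 h u₀ / algebraMap Qb (H99.FX Qb (M * p)) c)) -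
        ((EqI.dataX w IsLocalRing.residue_surjective hdeg hqm ι he hem arch r hr1 hr2
          (EqI.trivV hA IsLocalRing.residue_surjective) hP₀ htors).pt false s').ord
          ((EqI.dataX w IsLocalRing.residue_surjective hdeg hqm ι he hem arch r hr1 hr2
            (EqI.trivV hA IsLocalRing.residue_surjective) hP₀ htors).M.ρ false
              (H67.dg Qb 1 h u₀ / algebraMap Qb (H99.FX Qb (M * p)) c))) ∧
      (∀ P : Place (IsLocalRing.ResidueField A)
          (modularFunctionFieldFullC (IsLocalRing.ResidueField A) M),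
        (∀ n, (false, P) ∉ (EqI.dataX w IsLocalRing.residue_surjective hdeg hqm ι he hem arch r
          hr1 hr2 (EqI.trivV hA IsLocalRing.residue_surjective) hP₀ htors).M.br n) →
        ((p : ℕ) : ℤ) ∣ P.ord ((EqI.dataX w IsLocalRing.residue_surjective hdeg hqm ι he hem arch r
          hr1 hr2 (EqI.trivV hA IsLocalRing.residue_surjective) hP₀ htors).M.ρ false
              (H67.dg Qb 1 h u₀ / algebraMap Qb (H99.FX Qb (M * p)) c))) ∧
      ∀ g, (EqI.dataX w IsLocalRing.residue_surjective hdeg hqm ι he hem arch r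
          hr1 hr2 (EqI.trivV hA IsLocalRing.residue_surjective) hP₀ htors).M.ρ false
              (H67.dg Qb 1 h u₀ / algebraMap Qb (H99.FX Qb (M * p)) c) ≠ g ^ (p : ℕ) := by
  haveI : CharP (modularFunctionFieldFullC (IsLocalRing.ResidueField A) M) p :=
    charP_of_injective_algebraMap
      (algebraMap (IsLocalRing.ResidueField A)
        (modularFunctionFieldFullC (IsLocalRing.ResidueField A) M)).injective p
  obtain ⟨ζ, hζ⟩ : ∃ ζ : Qb, IsPrimitiveRoot ζ (p : ℕ) :=
    HasEnoughRootsOfUnity.exists_primitiveRoot Qb (p : ℕ)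
  obtain ⟨ζu, rfl⟩ := hζ.isUnit (NeZero.ne (p : ℕ))
  have hζu : IsPrimitiveRoot ζu (p : ℕ) := IsPrimitiveRoot.coe_units_iff.mp hζ
  obtain ⟨ES⟩ := hES _ hζ
  obtain ⟨U₀, hU₀, hfix⟩ := exists_kum_functions E₀
  have R := H73.GeoX.geoX w hdeg hqm ι he hem arch r hr1 hr2 hA hP₀ htors hζu
  have hN : ∀ f, H40.Nrm.nOp hqm hζu f =
      heckeAlphaBar Qb M p (H60.normAlong (heckeAlphaBar Qb M p) (w.W f)) * (w.W f)⁻¹ := by
    intro f
    by_cases hf : f = 0
    · subst hf
      rw [H40.Nrm.nOp_zero, map_zero w.W, inv_zero, mul_zero]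
    rw [H40.Nrm.alpha_normAlong w hqm hζu, w.invol]
    have hne : w.W f ≠ 0 := (_root_.map_ne_zero w.W).mpr hf
    field_simp
  let Q := kumAux E₀ E h hE w (A := A) (fun σ f => rfl) (H40.Nrm.nOp hqm hζu) hN U₀ hU₀ hfix
  obtain ⟨c, hc0, h1, h2, h3, h4⟩ := core_abs R Q ES
  exact ⟨ES.z, U₀ ES.z, c, hU₀ _, hc0, h1, h2, h3, h4⟩

end Qbar

end Fermat.Agent.H44K
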