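import Mathlib

/-!
# A criterion for a uniformiser in a totally ramified extension of degree `p`

`s i` (`i ∈ ι`, `#ι = p`) are the conjugates of an element `s` of positive valuation of an
extension of a discretely valued field with uniformiser `p`.  If their mutual distances have
`(p-1)`-st power `|p|`, then `|s|^p = |p|`.
-/

set_option autoImplicit false

open Polynomial

namespace Fermat.Agent.H44E

section

variable {L Γ : Type*} [Field L] [LinearOrderedCommGroupWithZero Γ] (v : Valuation L Γ)
  {ι : Type*}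

theorem coeff_prod_le (s : ι → L) (S : Finset ι) (hs : ∀ i ∈ S, v (s i) < 1) :
    (∀ n, v ((∏ i ∈ S, (X - C (s i))).coeff n) ≤ 1) ∧
      ∀ n < S.card, v ((∏ i ∈ S, (X - C (s i))).coeff n) < 1 := by
  classical
  induction S using Finset.induction_on with
  | empty =>
    refine ⟨fun n => ?_, fun n hn => absurd hn (by simp)⟩
    rw [Finset.prod_empty, coeff_one]
    split_ifs <;> simp
  | insert a S ha ih =>
    obtain ⟨h1, h2⟩ := ih (fun i hi => hs i (Finset.mem_insert_of_mem hi))
    have hsa := hs a (Finset.mem_insert_self a S)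
    rw [Finset.prod_insert ha, Finset.card_insert_of_notMem ha]
    set g := ∏ i ∈ S, (X - C (s i)) with hg
    have h3 : ∀ n, v (s a * g.coeff n) < 1 := fun n => by
      rw [map_mul]
      exact (mul_le_of_le_one_right' (h1 n)).trans_lt hsa
    have h4 : ∀ n, ((X - C (s a)) * g).coeff (n + 1) = g.coeff n - s a * g.coeff (n + 1) := by
      intro n
      rw [sub_mul, coeff_sub, coeff_X_mul, coeff_C_mul]
    have h5 : ((X - C (s a)) * g).coeff 0 = - (s a * g.coeff 0) := by
      rw [sub_mul, coeff_sub, coeff_C_mul, mul_coeff_zero, coeff_X_zero, zero_mul, zero_sub]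
    constructor
    · intro n
      cases n with
      | zero => rw [h5, Valuation.map_neg]; exact (h3 0).le
      | succ n => rw [h4]; exact (Valuation.map_sub _ _ _).trans (max_le (h1 n) (h3 _).le)
    · intro n hn
      cases n with
      | zero => rw [h5, Valuation.map_neg]; exact h3 0
      | succ n =>
        rw [h4]
        exact (Valuation.map_sub _ _ _).trans_lt (max_lt (h2 n (by omega)) (h3 _))

theorem v_nat_le (n : ℕ) : v (n : L) ≤ 1 := by
  induction n with
  | zero => simp
  | succ n ih =>
    rw [Nat.cast_succ]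
    exact (Valuation.map_add _ _ _).trans (max_le ih (by simp))

theorem pow_inj {a b : Γ} {n : ℕ} (hn : n ≠ 0) (h : a ^ n = b ^ n) : a = b :=
  (pow_left_inj₀ zero_le zero_le hn).mp h

variable [Fintype ι]

/-- **The uniformiser criterion.** -/
theorem val_pow_eq_of_dist {p : ℕ} (hp3 : 3 ≤ p) (hι : Fintype.card ι = p)
    (hp0 : v (p : L) ≠ 0) (hp1 : v (p : L) < 1) (s : ι → L) (hs : ∀ i, v (s i) < 1)
    (hsv : ∀ i j, v (s i) = v (s j))
    (hss : ∀ i j, i ≠ j → v (s i - s j) ^ (p - 1) = v (p : L))
    (hdisc : ∀ n, (∏ i, (X - C (s i))).coeff n ≠ 0 →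
      ∃ m : ℤ, v ((∏ i, (X - C (s i))).coeff n) = v (p : L) ^ m) (i : ι) :
    v (s i) ^ p = v (p : L) := by
  classical
  set f := ∏ i, (X - C (s i)) with hf
  have hppos : 0 < v (p : L) := zero_lt_iff.mpr hp0
  obtain ⟨-, hc1⟩ := coeff_prod_le v s Finset.univ (fun i _ => hs i)
  rw [Finset.card_univ, hι, ← hf] at hc1
  have hmonic : f.Monic := monic_prod_of_monic _ _ (fun i _ => monic_X_sub_C _)
  have hdeg : f.natDegree = p := by
    rw [hf, natDegree_prod_of_monic _ _ (fun i _ => monic_X_sub_C _)]
    simp [hι]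
  -- small coefficients are divisible by `p`
  have hsmall : ∀ n < p, v (f.coeff n) ≤ v (p : L) := by
    intro n hn
    by_cases h0 : f.coeff n = 0
    · rw [h0, map_zero]; exact hppos.le
    obtain ⟨m, hm⟩ := hdisc n h0
    have h1 := hc1 n hn
    rw [hm] at h1 ⊢
    have h2 : 0 < m := by
      by_contra hcon
      have h3 : m ≤ 0 := by omega
      have h4 : (v (p : L)) ^ (0 : ℤ) ≤ v (p : L) ^ m :=
        (zpow_le_zpow_iff_right_of_lt_one₀ hppos hp1).mpr h3
      rw [zpow_zero] at h4
      exact absurd h1 (not_lt.mpr h4)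
    calc v (p : L) ^ m ≤ v (p : L) ^ (1 : ℤ) :=
          (zpow_le_zpow_iff_right_of_lt_one₀ hppos hp1).mpr (by omega)
      _ = v (p : L) := zpow_one _
  -- the value of the derivative
  have hder : v (f.derivative.eval (s i)) = v (p : L) := by
    have h1 : f = (X - C (s i)) * ∏ j ∈ Finset.univ.erase i, (X - C (s j)) :=
      (Finset.mul_prod_erase _ _ (Finset.mem_univ i)).symm
    have h2 : f.derivative.eval (s i) = ∏ j ∈ Finset.univ.erase i, (s i - s j) := by
      rw [h1, derivative_mul, eval_add, eval_mul, eval_mul, derivative_sub, derivative_X,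
        derivative_C, eval_sub, eval_sub, eval_X, eval_C, sub_self, zero_mul, add_zero, eval_one,
        eval_zero, sub_zero, one_mul, eval_prod]
      simp
    rw [h2, map_prod]
    have hcard : (Finset.univ.erase i).card = p - 1 := by
      rw [Finset.card_erase_of_mem (Finset.mem_univ i), Finset.card_univ, hι]
    obtain ⟨j₀, hj₀⟩ : (Finset.univ.erase i).Nonempty := by
      rw [← Finset.card_pos, hcard]; omega
    have h3 : ∀ j ∈ Finset.univ.erase i, v (s i - s j) = v (s i - s j₀) := by
      intro j hj
      apply pow_inj (n := p - 1) (by omega)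
      rw [hss i j (Finset.ne_of_mem_erase hj).symm, hss i j₀ (Finset.ne_of_mem_erase hj₀).symm]
    rw [Finset.prod_congr rfl h3, Finset.prod_const, hcard,
      hss i j₀ (Finset.ne_of_mem_erase hj₀).symm]
  have hx1 := hs i
  have hx0 : v (s i) ≠ 0 := by
    intro h0
    have hall : ∀ j, s j = 0 := by
      intro j
      have := hsv i j
      rw [h0] at this
      exact (map_eq_zero v).mp this.symm
    obtain ⟨j₀, hj₀⟩ : (Finset.univ.erase i).Nonempty := by
      rw [← Finset.card_pos, Finset.card_erase_of_mem (Finset.mem_univ i), Finset.card_univ, hι]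
      omega
    have := hss i j₀ (Finset.ne_of_mem_erase hj₀).symm
    rw [hall, hall, sub_self, map_zero, zero_pow (by omega)] at this
    exact hp0 this.symm
  have hxpos : 0 < v (s i) := zero_lt_iff.mpr hx0
  -- `a_1`
  have ha1 : v (f.coeff 1) = v (p : L) := by
    have hd2 : f.derivative.natDegree < p := by
      rw [← hdeg]
      exact natDegree_derivative_lt (by rw [hdeg]; omega)
    have h1 := eval_eq_sum_range' hd2 (s i)
    obtain ⟨q, rfl⟩ : ∃ q, p = q + 1 := ⟨p - 1, by omega⟩
    rw [Finset.sum_range_succ', pow_zero, mul_one, coeff_derivative, zero_add, Nat.cast_zero,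
      zero_add, mul_one] at h1
    have h2 : v (∑ k ∈ Finset.range q, f.derivative.coeff (k + 1) * s i ^ (k + 1)) <
        v ((q + 1 : ℕ) : L) := by
      refine Valuation.map_sum_lt _ hp0 fun k hk => ?_
      rw [Finset.mem_range] at hk
      have hlt : v (s i) ^ (k + 1) < 1 := pow_lt_one₀ zero_le hx1 (by omega)
      rw [coeff_derivative, map_mul, map_mul, map_pow]
      rcases Nat.lt_or_ge (k + 1 + 1) (q + 1) with h | h
      · have h3 : v (((k + 1 : ℕ) : L) + 1) ≤ 1 := by
          have : (((k + 1 : ℕ) : L) + 1) = ((k + 2 : ℕ) : L) := by push_cast; ring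
          rw [this]
          exact v_nat_le v _
        calc v (f.coeff (k + 1 + 1)) * v (((k + 1 : ℕ) : L) + 1) * v (s i) ^ (k + 1)
            ≤ v ((q + 1 : ℕ) : L) * 1 * v (s i) ^ (k + 1) := by
              gcongr
              exact hsmall _ h
          _ < v ((q + 1 : ℕ) : L) * 1 * 1 := by
              rw [mul_one]
              exact mul_lt_mul_of_pos_left hlt hppos
          _ = _ := by rw [mul_one, mul_one]
      · have hk2 : k + 1 = q := by omega
        have h4 : f.coeff (k + 1 + 1) = 1 := by
          have := hmonic.coeff_natDegree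
          rw [hdeg] at this
          rw [hk2]; exact this
        have h5 : (((k + 1 : ℕ) : L) + 1) = ((q + 1 : ℕ) : L) := by
          rw [hk2]; push_cast; ring
        rw [h4, map_one, one_mul, h5]
        calc v ((q + 1 : ℕ) : L) * v (s i) ^ (k + 1) < v ((q + 1 : ℕ) : L) * 1 :=
              mul_lt_mul_of_pos_left hlt hppos
          _ = _ := mul_one _
    have h3 : f.coeff 1 = f.derivative.eval (s i) -
        ∑ k ∈ Finset.range q, f.derivative.coeff (k + 1) * s i ^ (k + 1) := by
      rw [h1]; ring
    rw [h3, Valuation.map_sub_eq_of_lt_left _ (by rw [hder]; exact h2), hder]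
  -- the constant coefficient
  have ha0 : v (f.coeff 0) = v (s i) ^ p := by
    have h1 : f.coeff 0 = ∏ j, (- s j) := by
      rw [coeff_zero_eq_eval_zero, hf, eval_prod]
      simp
    rw [h1, map_prod, Finset.prod_congr rfl (fun j _ => by rw [Valuation.map_neg, hsv j i]),
      Finset.prod_const, Finset.card_univ, hι]
  have ha00 : f.coeff 0 ≠ 0 := by
    intro h0
    rw [h0, map_zero] at ha0
    exact pow_ne_zero _ hx0 ha0.symm
  obtain ⟨m, hm⟩ := hdisc 0 ha00
  rw [ha0] at hm
  have hm1 : 1 ≤ m := by
    have h1 : v (s i) ^ p < 1 := pow_lt_one₀ zero_le hx1 (by omega)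
    rw [hm] at h1
    by_contra hcon
    have h4 : (v (p : L)) ^ (0 : ℤ) ≤ v (p : L) ^ m :=
      (zpow_le_zpow_iff_right_of_lt_one₀ hppos hp1).mpr (by omega)
    rw [zpow_zero] at h4
    exact absurd h1 (not_lt.mpr h4)
  rcases eq_or_lt_of_le hm1 with h1 | h2
  · rw [hm, ← h1, zpow_one]
  exfalso
  have hxp : v (s i) ^ p ≤ v (p : L) ^ 2 := by
    rw [hm, ← zpow_natCast]
    exact (zpow_le_zpow_iff_right_of_lt_one₀ hppos hp1).mpr (by push_cast; omega)
  have hxp1 : v (s i) ^ (p - 1) < v (p : L) := by
    refine lt_of_pow_lt_pow_left₀ p zero_le ?_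
    calc (v (s i) ^ (p - 1)) ^ p = (v (s i) ^ p) ^ (p - 1) := by rw [← pow_mul, ← pow_mul, mul_comm]
      _ ≤ (v (p : L) ^ 2) ^ (p - 1) := pow_le_pow_left₀ zero_le hxp _
      _ = v (p : L) ^ (2 * (p - 1)) := by rw [pow_mul]
      _ < v (p : L) ^ p := pow_lt_pow_right_of_lt_one₀ hppos hp1 (by omega)
  have hroot : f.eval (s i) = 0 := by
    rw [hf, eval_prod]
    exact Finset.prod_eq_zero (Finset.mem_univ i) (by simp)
  have hsum := eval_eq_sum_range (p := f) (s i)
  rw [hroot, hdeg] at hsum
  have hlt1 : v (p : L) * v (s i) ^ 1 ≤ v (p : L) * v (s i) := by rw [pow_one]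
  -- all terms except the linear one are small
  have hterm : ∀ n ∈ (Finset.range (p + 1)).erase 1,
      v (f.coeff n * s i ^ n) < v (p : L) * v (s i) := by
    intro n hn
    rw [Finset.mem_erase, Finset.mem_range] at hn
    have hbig : v (s i) ^ p < v (p : L) * v (s i) := by
      calc v (s i) ^ p = v (s i) ^ (p - 1) * v (s i) := by
            rw [← pow_succ]; congr 1; omega
        _ < v (p : L) * v (s i) := mul_lt_mul_of_pos_right hxp1 hxpos
    rcases Nat.eq_zero_or_pos n with rfl | hn0
    · rw [pow_zero, mul_one, ha0]; exact hbig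
    rcases Nat.lt_or_ge n p with h | h
    · rw [map_mul, map_pow]
      calc v (f.coeff n) * v (s i) ^ n ≤ v (p : L) * v (s i) ^ 2 := by
            gcongr ?_ * ?_
            · exact hsmall n h
            · exact pow_le_pow_right_of_le_one' hx1.le (by omega)
        _ < v (p : L) * v (s i) := by
            refine mul_lt_mul_of_pos_left ?_ hppos
            rw [pow_two]
            exact mul_lt_of_lt_one_right hxpos hx1
    · have hnp : n = p := by omega
      have h4 : f.coeff n = 1 := by
        have := hmonic.coeff_natDegree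
        rw [hdeg] at this
        rw [hnp]; exact this
      rw [h4, one_mul, map_pow, hnp]
      exact hbig
  have hne : v (p : L) * v (s i) ≠ 0 := mul_ne_zero hp0 hx0
  have h3 := Valuation.map_sum_lt v hne hterm
  rw [← Finset.add_sum_erase _ _ (Finset.mem_range.mpr (by omega : 1 < p + 1)), pow_one] at hsum
  have h4 : v (f.coeff 1 * s i) = v (∑ n ∈ (Finset.range (p + 1)).erase 1, f.coeff n * s i ^ n) := by
    rw [← Valuation.map_neg]
    congr 1
    linear_combination hsum
  rw [← h4, map_mul, ha1] at h3
  exact lt_irrefl _ h3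

end

end Fermat.Agent.H44E
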