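import Mathlib

/-!
# Constants: the extensions `K^{H_x}` (wildly ramified of degree `p`) and `K^{H_y}` (tame)
-/

set_option autoImplicit false
set_option linter.unusedSectionVars false

namespace Fermat.Agent.H44E

section

variable {K Γ G : Type*} [Field K] [LinearOrderedCommGroupWithZero Γ] [Group G]
  [MulSemiringAction G K] {v : Valuation K Γ}

theorem v_int_le (n : ℤ) : v (n : K) ≤ 1 := by
  have hnat : ∀ n : ℕ, v (n : K) ≤ 1 := by
    intro n
    induction n with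
    | zero => simp
    | succ n ih =>
      rw [Nat.cast_succ]
      exact (Valuation.map_add _ _ _).trans (max_le ih (by simp))
  cases n with
  | ofNat m => rw [Int.ofNat_eq_natCast, Int.cast_natCast]; exact hnat m
  | negSucc m => rw [Int.cast_negSucc, Valuation.map_neg]; exact hnat _

theorem zpow_lt_one_iff' {c : Γ} (hc0 : 0 < c) (hc1 : c < 1) {n : ℤ} (h : c ^ n < 1) : 1 ≤ n := by
  by_contra hcon
  have h4 : c ^ (0 : ℤ) ≤ c ^ n :=
    (zpow_le_zpow_iff_right_of_lt_one₀ hc0 hc1).mpr (by omega)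
  rw [zpow_zero] at h4
  exact absurd h (not_lt.mpr h4)

theorem zpow_le_self {c : Γ} (hc0 : 0 < c) (hc1 : c < 1) {n : ℤ} (h : 1 ≤ n) : c ^ n ≤ c := by
  calc c ^ n ≤ c ^ (1 : ℤ) := (zpow_le_zpow_iff_right_of_lt_one₀ hc0 hc1).mpr h
    _ = c := zpow_one _

/-- The norm from the fixed field of a subgroup of finite index. -/
theorem exists_pow_index_eq (hv : ∀ (σ : G) (c : K), v (σ • c) = v c) {ϖ : K}
    (hdisc : ∀ c : K, c ≠ 0 → (∀ σ : G, σ • c = c) → ∃ n : ℤ, v c = v ϖ ^ n) {H : Subgroup G}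
    (hH : H.index ≠ 0) {a : K} (ha0 : a ≠ 0) (ha : ∀ σ ∈ H, σ • a = a) :
    ∃ n : ℤ, v a ^ H.index = v ϖ ^ n := by
  have hfin : Finite (G ⧸ H) := Nat.finite_of_card_ne_zero hH
  let _ : Fintype (G ⧸ H) := Fintype.ofFinite _
  -- the conjugates
  have hconj : ∀ σ τ : G, (σ : G ⧸ H) = (τ : G ⧸ H) → σ • a = τ • a := by
    intro σ τ h
    rw [QuotientGroup.eq] at h
    have h1 := ha _ h
    rw [mul_smul, inv_smul_eq_iff] at h1
    exact h1.symm
  set N : K := ∏ q : G ⧸ H, (Quotient.out q : G) • a with hN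
  have hN0 : N ≠ 0 := by
    rw [hN, Finset.prod_ne_zero_iff]
    intro q _
    rwa [smul_ne_zero_iff_ne]
  have hNfix : ∀ σ : G, σ • N = N := by
    intro σ
    rw [hN]
    have h1 : σ • ∏ q : G ⧸ H, (Quotient.out q : G) • a = ∏ q : G ⧸ H, σ • (Quotient.out q : G) • a :=
      map_prod (MulSemiringAction.toRingHom G K σ) _ _
    rw [h1]
    refine Fintype.prod_equiv (MulAction.toPerm σ) _ _ fun q => ?_
    rw [← mul_smul]
    apply hconj
    have h2 : ((σ * Quotient.out q : G) : G ⧸ H) = σ • q := by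
      conv_rhs => rw [← QuotientGroup.out_eq' q]
      rfl
    have h3 : ((Quotient.out (σ • q) : G) : G ⧸ H) = σ • q := QuotientGroup.out_eq' _
    rw [h2]
    exact h3.symm
  obtain ⟨n, hn⟩ := hdisc N hN0 hNfix
  refine ⟨n, ?_⟩
  rw [← hn, hN, map_prod, Finset.prod_congr rfl (fun q _ => hv _ a), Finset.prod_const,
    Finset.card_univ, ← Nat.card_eq_fintype_card]
  rfl

/-- **Constants, tame part.** -/
theorem tame_le (hv : ∀ (σ : G) (c : K), v (σ • c) = v c) {ϖ : K} (hϖ0 : v ϖ ≠ 0)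
    (hϖ1 : v ϖ < 1)
    (hdisc : ∀ c : K, c ≠ 0 → (∀ σ : G, σ • c = c) → ∃ n : ℤ, v c = v ϖ ^ n) {H : Subgroup G}
    {d : ℕ} (hH0 : H.index ≠ 0) (hHd : H.index ≤ d) {a : K} (ha : ∀ σ ∈ H, σ • a = a)
    (ha1 : v a < 1) : v a ^ d ≤ v ϖ := by
  have hpos : 0 < v ϖ := zero_lt_iff.mpr hϖ0
  rcases eq_or_ne a 0 with rfl | ha0
  · rw [map_zero, zero_pow (by omega)]; exact hpos.le
  obtain ⟨n, hn⟩ := exists_pow_index_eq hv hdisc hH0 ha0 ha
  have h1 : v a ^ H.index < 1 := pow_lt_one₀ zero_le ha1 hH0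
  calc v a ^ d ≤ v a ^ H.index := pow_le_pow_right_of_le_one' ha1.le hHd
    _ = v ϖ ^ n := hn
    _ ≤ v ϖ := zpow_le_self hpos hϖ1 (zpow_lt_one_iff' hpos hϖ1 (by rwa [← hn]))

/-- **Constants of the wildly ramified extension.** -/
theorem wild_consts {p : ℕ} (hp3 : 3 ≤ p) (hv : ∀ (σ : G) (c : K), v (σ • c) = v c)
    (hp0 : v (p : K) ≠ 0) (hp1 : v (p : K) < 1)
    (hdisc : ∀ c : K, c ≠ 0 → (∀ σ : G, σ • c = c) → ∃ n : ℤ, v c = v (p : K) ^ n)
    {Hx : Subgroup G} (hHx : Hx.index = p)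
    (hres : ∀ a : K, (∀ σ ∈ Hx, σ • a = a) → v a ≤ 1 →
      ∃ c : K, (∀ σ : G, σ • c = c) ∧ v (a - c) < 1)
    {θ : K} (hθ : ∀ σ ∈ Hx, σ • θ = θ) (hθp : v θ ^ p = v (p : K)) {τ : G}
    (hτ : v (τ • θ - θ) ^ (p - 1) = v (p : K)) {ε : K} (hε : ε = τ • θ / θ - 1) :
    ε ≠ 0 ∧ v ε < 1 ∧ (v ε ^ 2) ^ (p * (p - 1)) = v (p : K) ^ 2 ∧
      (∀ a : K, (∀ σ ∈ Hx, σ • a = a) → v a < 1 → v a ≤ v ε ^ 2) ∧
      (∀ a : K, (∀ σ ∈ Hx, σ • a = a) → v a ≤ 1 → v (τ • a - a) ≤ v ε ^ 2) ∧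
      (∀ a : K, a ≠ 0 → (∀ σ ∈ Hx, σ • a = a) →
        ∃ n : ℤ, v a ^ p = v (p : K) ^ n ∧ v ((τ • a) / a - 1 - n * ε) ≤ v ε ^ 2) := by
  have hpos : 0 < v (p : K) := zero_lt_iff.mpr hp0
  have hθ0' : v θ ≠ 0 := by
    intro h0
    rw [h0, zero_pow (by omega)] at hθp
    exact hp0 hθp.symm
  have hθ0 : θ ≠ 0 := (Valuation.ne_zero_iff _).mp hθ0'
  have hθpos : 0 < v θ := zero_lt_iff.mpr hθ0'
  have hvε : v ε ^ (p * (p - 1)) = v (p : K) := by
    have h1 : ε = (τ • θ - θ) / θ := by rw [hε, sub_div, div_self hθ0]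
    rw [h1, map_div₀, div_pow, mul_comm p, pow_mul, hτ, mul_comm (p - 1), pow_mul, hθp]
    rw [div_eq_iff (pow_ne_zero _ hp0)]
    rw [← pow_succ']
    congr 1
    omega
  have hE : (v ε ^ 2) ^ (p * (p - 1)) = v (p : K) ^ 2 := by
    rw [← pow_mul, mul_comm, pow_mul, hvε]
  have hN0 : p * (p - 1) ≠ 0 := Nat.mul_ne_zero (by omega) (by omega)
  have hε0' : v ε ≠ 0 := by
    intro h0
    rw [h0, zero_pow hN0] at hvε
    exact hp0 hvε.symm
  have hε0 : ε ≠ 0 := (Valuation.ne_zero_iff _).mp hε0'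
  have hε1 : v ε < 1 := by
    by_contra hcon
    rw [not_lt] at hcon
    have := one_le_pow₀ hcon (n := p * (p - 1))
    rw [hvε] at this
    exact absurd hp1 (not_lt.mpr this)
  have hθε : v θ ≤ v ε ^ 2 := by
    refine (pow_le_pow_iff_left₀ zero_le zero_le hN0).mp ?_
    rw [hE, pow_mul, hθp]
    exact pow_le_pow_right_of_le_one' hp1.le (by omega)
  -- small elements
  have hsmall : ∀ a : K, (∀ σ ∈ Hx, σ • a = a) → v a < 1 → v a ≤ v ε ^ 2 := by
    intro a ha ha1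
    refine le_trans ?_ hθε
    refine (pow_le_pow_iff_left₀ zero_le zero_le (by omega : p ≠ 0)).mp ?_
    rw [hθp]
    exact tame_le hv hp0 hp1 hdisc (by omega) hHx.le ha ha1
  have hsub : ∀ a : K, (∀ σ ∈ Hx, σ • a = a) → v a ≤ 1 → v (τ • a - a) ≤ v ε ^ 2 := by
    intro a ha ha1
    obtain ⟨c, hc, hac⟩ := hres a ha ha1
    have h1 : v (a - c) ≤ v ε ^ 2 := hsmall _ (fun σ hσ => by rw [smul_sub, ha σ hσ, hc]) hac
    have h2 : τ • a - a = τ • (a - c) - (a - c) := by rw [smul_sub, hc]; ring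
    rw [h2]
    exact (Valuation.map_sub _ _ _).trans (max_le (by rwa [hv]) h1)
  refine ⟨hε0, hε1, hE, hsmall, hsub, ?_⟩
  intro a ha0 ha
  obtain ⟨n, hn⟩ := exists_pow_index_eq hv hdisc (by omega) ha0 ha
  rw [hHx] at hn
  refine ⟨n, hn, ?_⟩
  set E := v ε ^ 2 with hEdef
  have hE1 : E ≤ 1 := pow_le_one' hε1.le 2
  -- `a = θ ^ n * b`
  obtain ⟨b, hb⟩ : ∃ b, b = a / θ ^ n := ⟨_, rfl⟩
  have hθn : θ ^ n ≠ 0 := zpow_ne_zero _ hθ0
  have hbfix : ∀ σ ∈ Hx, σ • b = b := by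
    intro σ hσ
    have h1 : σ • b = (σ • a) / (σ • θ) ^ n := by
      rw [hb]
      exact (map_div₀ (MulSemiringAction.toRingHom G K σ) a (θ ^ n)).trans
        (by rw [map_zpow₀]; rfl)
    rw [h1, ha σ hσ, hθ σ hσ, hb]
  have hvb : v b = 1 := by
    have h1 : v b ^ p = 1 ^ p := by
      rw [hb, map_div₀, map_zpow₀, div_pow, hn, one_pow, ← zpow_natCast (v θ ^ n), ← zpow_mul,
        mul_comm n, zpow_mul, zpow_natCast, hθp]
      exact div_self (zpow_ne_zero _ hp0)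
    exact (pow_left_inj₀ zero_le zero_le (by omega : p ≠ 0)).mp h1
  have hb0 : b ≠ 0 := by
    intro h0
    rw [h0, map_zero] at hvb
    exact zero_ne_one hvb
  have hτb : v ((τ • b) / b - 1) ≤ E := by
    have h1 : (τ • b) / b - 1 = (τ • b - b) / b := by rw [sub_div, div_self hb0]
    rw [h1, map_div₀, hvb, div_one]
    exact hsub b hbfix hvb.le
  -- `(1 + ε) ^ n ≡ 1 + n ε`
  have h1ε : v (1 + ε) = 1 := by
    rw [Valuation.map_add_eq_of_lt_left _ (by rwa [map_one]), map_one]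
  have h1ε0 : (1 + ε) ≠ 0 := by
    intro h0
    rw [h0, map_zero] at h1ε
    exact zero_ne_one h1ε
  have hpow : ∀ m : ℕ, v ((1 + ε) ^ m - 1 - (m : K) * ε) ≤ E := by
    intro m
    induction m with
    | zero => simp
    | succ m ih =>
      have h1 : (1 + ε) ^ (m + 1) - 1 - ((m + 1 : ℕ) : K) * ε =
          ((1 + ε) ^ m - 1 - (m : K) * ε) * (1 + ε) + (m : K) * ε ^ 2 := by
        push_cast; ring
      rw [h1]
      refine (Valuation.map_add _ _ _).trans (max_le ?_ ?_)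
      · rw [map_mul, h1ε, mul_one]; exact ih
      · rw [map_mul, map_pow]
        have h2 := v_int_le (v := v) (m : ℤ)
        rw [Int.cast_natCast] at h2
        exact mul_le_of_le_one_left' h2
  have hzpow : v ((1 + ε) ^ n - 1 - (n : K) * ε) ≤ E := by
    cases n with
    | ofNat m =>
      rw [Int.ofNat_eq_natCast, zpow_natCast, Int.cast_natCast]
      exact hpow m
    | negSucc m =>
      rw [zpow_negSucc, Int.cast_negSucc]
      set q := m + 1 with hq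
      have hq0 : (1 + ε) ^ q ≠ 0 := pow_ne_zero _ h1ε0
      have hvq : v ((1 + ε) ^ q) = 1 := by rw [map_pow, h1ε, one_pow]
      have e : ((1 + ε) ^ q)⁻¹ - 1 - (-(q : K)) * ε =
          (-((1 + ε) ^ q - 1 - (q : K) * ε) * (1 - (q : K) * ε) + (q : K) ^ 2 * ε ^ 2) *
            ((1 + ε) ^ q)⁻¹ := by
        field_simp
        ring
      rw [e, map_mul, map_inv₀, hvq, inv_one, mul_one]
      have hvqn : v (q : K) ≤ 1 := by
        have h2 := v_int_le (v := v) (q : ℤ)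
        rwa [Int.cast_natCast] at h2
      refine (Valuation.map_add _ _ _).trans (max_le ?_ ?_)
      · rw [map_mul, Valuation.map_neg]
        refine (mul_le_of_le_one_right' ?_).trans (hpow q)
        refine (Valuation.map_sub _ _ _).trans (max_le (by rw [map_one]) ?_)
        rw [map_mul]
        exact mul_le_one' hvqn hε1.le
      · rw [map_mul, map_pow, map_pow]
        exact mul_le_of_le_one_left' (pow_le_one' hvqn 2)
  have hτθ : τ • θ = θ * (1 + ε) := by rw [hε]; field_simp; ring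
  have hτa : (τ • a) / a = (1 + ε) ^ n * ((τ • b) / b) := by
    have ha' : a = θ ^ n * b := by rw [hb]; field_simp
    have h1 : τ • a = (τ • θ) ^ n * (τ • b) := by
      rw [ha', smul_mul']
      congr 1
      exact map_zpow₀ (MulSemiringAction.toRingHom G K τ) θ n
    rw [h1, hτθ, mul_zpow]
    conv_lhs => rw [ha']
    field_simp
  have hfin : (τ • a) / a - 1 - (n : K) * ε = ((1 + ε) ^ n - 1 - (n : K) * ε) +
      (1 + ε) ^ n * ((τ • b) / b - 1) := by
    rw [hτa]; ring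
  rw [hfin]
  refine (Valuation.map_add _ _ _).trans (max_le hzpow ?_)
  rw [map_mul, map_zpow₀, h1ε, one_zpow, one_mul]
  exact hτb

/-- Comparison with the tame extension. -/
theorem tame_le_eps {p : ℕ} (hp3 : 3 ≤ p) (hv : ∀ (σ : G) (c : K), v (σ • c) = v c)
    (hp0 : v (p : K) ≠ 0) (hp1 : v (p : K) < 1)
    (hdisc : ∀ c : K, c ≠ 0 → (∀ σ : G, σ • c = c) → ∃ n : ℤ, v c = v (p : K) ^ n)
    {Hy : Subgroup G} (hHy0 : Hy.index ≠ 0) (hHy : Hy.index ≤ p - 1) {r : Γ}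
    (hr : r ^ (p * (p - 1)) = v (p : K) ^ 2) {a : K} (ha : ∀ σ ∈ Hy, σ • a = a)
    (ha1 : v a < 1) : v a ≤ r := by
  have hN0 : p * (p - 1) ≠ 0 := Nat.mul_ne_zero (by omega) (by omega)
  refine (pow_le_pow_iff_left₀ zero_le zero_le hN0).mp ?_
  rw [hr, mul_comm, pow_mul]
  have h1 := tame_le hv hp0 hp1 hdisc hHy0 hHy ha ha1
  calc (v a ^ (p - 1)) ^ p ≤ v (p : K) ^ p := pow_le_pow_left₀ zero_le h1 p
    _ ≤ v (p : K) ^ 2 := pow_le_pow_right_of_le_one' hp1.le (by omega)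

end

end Fermat.Agent.H44E
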