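import Mathlib

/-!
# Affine actions on a line over `𝔽_p`: a fixed point or transitive
-/

set_option autoImplicit false

namespace Fermat.Agent.H44E

theorem exists_nsmul_of_prime_card {M : Type*} [AddCommGroup M] {V : AddSubgroup M} {p : ℕ}
    [Fact p.Prime] (hcard : Nat.card V = p) {T₀ T : M} (hT₀ : T₀ ∈ V) (h0 : T₀ ≠ 0) (hT : T ∈ V) :
    ∃ n : ℕ, T = n • T₀ := by
  have hfin : Finite V := Nat.finite_of_card_ne_zero (by
    rw [hcard]; exact (Fact.out : p.Prime).ne_zero)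
  have h0' : (⟨T₀, hT₀⟩ : V) ≠ 0 := fun h => h0 (congrArg Subtype.val h)
  have h1 : (⟨T, hT⟩ : V) ∈ AddSubgroup.zmultiples (⟨T₀, hT₀⟩ : V) :=
    mem_zmultiples_of_prime_card hcard h0'
  rw [← mem_multiples_iff_mem_zmultiples] at h1
  obtain ⟨n, hn⟩ := h1
  exact ⟨n, (congrArg Subtype.val hn).symm⟩

theorem affine_dichotomy {G M : Type*} [Group G] [AddCommGroup M] [DistribMulAction G M]
    (I : Subgroup G) (V : AddSubgroup M) {p : ℕ} [Fact p.Prime] (hcard : Nat.card V = p)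
    (hV : ∀ σ ∈ I, ∀ T ∈ V, σ • T ∈ V) (x : M) (hx : ∀ σ ∈ I, σ • x - x ∈ V) {σ₀ : G}
    (hσ₀ : σ₀ ∈ I) {T₀ : M} (hT₀ : T₀ ∈ V) (h₀ : σ₀ • T₀ ≠ T₀) :
    (∃ T ∈ V, ∀ σ ∈ I, σ • (x + T) = x + T) ∨ (∀ T ∈ V, ∃ σ ∈ I, σ • x = x + T) := by
  have hfin : Finite V := Nat.finite_of_card_ne_zero (by
    rw [hcard]; exact (Fact.out : p.Prime).ne_zero)
  have hT0 : T₀ ≠ 0 := by
    rintro rfl
    exact h₀ (smul_zero _)
  have hgen : ∀ T ∈ V, ∃ n : ℕ, T = n • T₀ := fun T hT => exists_nsmul_of_prime_card hcard hT₀ hT0 hT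
  have hcomm : ∀ σ ∈ I, ∀ τ ∈ I, σ • τ • T₀ = τ • σ • T₀ := by
    intro σ hσ τ hτ
    obtain ⟨a, ha⟩ := hgen _ (hV σ hσ T₀ hT₀)
    obtain ⟨b, hb⟩ := hgen _ (hV τ hτ T₀ hT₀)
    rw [hb, ha, smul_comm σ b, smul_comm τ a, ha, hb, smul_comm]
  have hfix0 : ∀ T ∈ V, σ₀ • T = T → T = 0 := by
    intro T hT h
    by_contra hne
    obtain ⟨n, hn⟩ := exists_nsmul_of_prime_card hcard hT hne hT₀
    apply h₀
    rw [hn, smul_comm, h]
  by_cases hA : ∃ σ ∈ I, σ • T₀ = T₀ ∧ σ • x ≠ x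
  · right
    obtain ⟨σ, hσ, h1, h2⟩ := hA
    have hy := hx σ hσ
    have hy0 : σ • x - x ≠ 0 := sub_ne_zero.mpr h2
    have hσy : σ • (σ • x - x) = σ • x - x := by
      obtain ⟨n, hn⟩ := hgen _ hy
      rw [hn, smul_comm, h1]
    have hpow : ∀ n : ℕ, (σ ^ n) • x = x + n • (σ • x - x) := by
      intro n
      induction n with
      | zero => simp
      | succ n ih =>
        rw [pow_succ', mul_smul, ih, smul_add, smul_comm σ n, hσy, succ_nsmul]
        abel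
    intro T hT
    obtain ⟨n, hn⟩ := exists_nsmul_of_prime_card hcard hy hy0 hT
    exact ⟨σ ^ n, pow_mem hσ n, by rw [hpow, hn]⟩
  · left
    push Not at hA
    -- surjectivity of `σ₀ - 1`
    have hinj : Function.Injective (fun T : V => (⟨σ₀ • (T : M) - T, V.sub_mem
        (hV σ₀ hσ₀ _ T.2) T.2⟩ : V)) := by
      intro T T' h
      have h1 : σ₀ • (T : M) - T = σ₀ • (T' : M) - T' := congrArg Subtype.val h
      have h2 : σ₀ • ((T : M) - T') = T - T' := by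
        rw [smul_sub]
        rw [sub_eq_sub_iff_add_eq_add] at h1 ⊢
        rw [h1]
        abel
      exact Subtype.ext (sub_eq_zero.mp (hfix0 _ (V.sub_mem T.2 T'.2) h2))
    have hsurj := Finite.surjective_of_injective hinj
    obtain ⟨⟨T', hT'⟩, hT2⟩ := hsurj ⟨-(σ₀ • x - x), V.neg_mem (hx σ₀ hσ₀)⟩
    have hT3 : σ₀ • T' - T' = -(σ₀ • x - x) := congrArg Subtype.val hT2
    have hx' : σ₀ • (x + T') = x + T' := by
      rw [smul_add]
      have : σ₀ • T' = T' - (σ₀ • x - x) := by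
        rw [sub_eq_iff_eq_add] at hT3
        rw [hT3]
        abel
      rw [this]
      abel
    refine ⟨T', hT', fun σ hσ => ?_⟩
    set c : G := (σ₀ * σ)⁻¹ * (σ * σ₀) with hc
    have hcI : c ∈ I := mul_mem (inv_mem (mul_mem hσ₀ hσ)) (mul_mem hσ hσ₀)
    have hcT : c • T₀ = T₀ := by
      rw [hc, mul_smul, inv_smul_eq_iff, mul_smul, mul_smul]
      exact hcomm σ hσ σ₀ hσ₀
    have hcx : c • x = x := hA c hcI hcT
    have hcT' : c • T' = T' := by
      obtain ⟨n, hn⟩ := hgen _ hT'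
      rw [hn, smul_comm, hcT]
    have h1 : σ • σ₀ • (x + T') = σ₀ • σ • (x + T') := by
      have h2 : c • (x + T') = x + T' := by rw [smul_add, hcx, hcT']
      rw [hc, mul_smul, inv_smul_eq_iff, mul_smul, mul_smul] at h2
      exact h2
    rw [hx'] at h1
    have hD : σ • (x + T') - (x + T') ∈ V := by
      have : σ • (x + T') - (x + T') = (σ • x - x) + (σ • T' - T') := by rw [smul_add]; abel
      rw [this]
      exact V.add_mem (hx σ hσ) (V.sub_mem (hV σ hσ _ hT') hT')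
    have hD0 := hfix0 _ hD (by rw [smul_sub, ← h1, hx'])
    exact sub_eq_zero.mp hD0

end Fermat.Agent.H44E
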