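import Fermat.Agent.H44EXi
import Fermat.Agent.H44EGrp
import Fermat.Agent.H1Inertia

/-!
# The local structure of `E[p]` at `p`, multiplicative reduction, `p ∣ v_p(Δ)`

For `x ∈ E[p]` outside the kernel of reduction either some translate of `x` by an element of the
kernel of reduction is fixed by inertia, or inertia acts transitively on the coset and there is an
element `θ` of the field of `x` with `|θ|^p = |p|` and `|τ θ - θ|^(p-1) = |p|` for `τ x ≠ x`.
-/

set_option autoImplicit false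
set_option linter.unusedSectionVars false

open Polynomial WeierstrassCurve WeierstrassCurve.Affine IsLocalRing

namespace Fermat.Agent.H44E

open Fermat.Agent.H72 Fermat.Agent.H13

local notation "Qb" => AlgebraicClosure ℚ
local notation "GQ" => (AlgebraicClosure ℚ ≃ₐ[ℚ] AlgebraicClosure ℚ)

variable {W : WeierstrassCurve ℤ} {p : ℕ} {A : ValuationSubring Qb} {x₀ y₀ α β g : A}

theorem xN_smul (σ : GQ) (P : PtQ W) : xN (σ • P) = σ (xN P) := by
  rcases P with _ | ⟨x, y, h⟩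
  · have h1 : xN (0 : PtQ W) = 1 := xN_zero
    show xN (0 : PtQ W) = σ (xN (0 : PtQ W))
    rw [h1, map_one]
  · obtain ⟨h', hs⟩ := smul_some' σ h
    rw [hs, xN_some, xN_some]

/-- Inertia acts nontrivially on the kernel of reduction. -/
theorem exists_smul_ne (hp : p.Prime) (hp2 : p ≠ 2) (hA : A.LiesOverPrime p) (hΔ : W.Δ ≠ 0)
    (hN : GoodNode (W.map (Int.castRingHom A)) x₀ y₀ α β g) {T : PtQ W} (hT : T ∈ V1 W p A)
    (hT0 : T ≠ 0) : ∃ σ ∈ A.inertiaSubgroupIn ℚ, σ • T ≠ T := by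
  by_contra hcon
  push Not at hcon
  have hw := val_wc hp hp2 hA hΔ hN hT0 hT
  obtain ⟨h1, h2⟩ := wc_lt_of_mem_V1 hT0 hT
  have hz := v_zc_sq (hLQ W A) hT0 h1 h2
  obtain ⟨r, hr⟩ := hp.odd_of_ne_two hp2
  have hpr : (p - 1) / 2 = r := by omega
  rw [hpr, ← hz, ← pow_mul] at hw
  have hfix : ∀ σ ∈ A.inertiaSubgroupIn ℚ, σ (zc T) = zc T := by
    intro σ hσ
    rw [← zc_smul, hcon σ hσ]
  have hr0 : 0 < r := by have := hp.two_le; omega
  have hz0 : zc T ≠ 0 := by
    intro h0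
    rw [h0, _root_.map_zero, zero_pow (by omega)] at hw
    exact valuation_p_ne hp hw.symm
  obtain ⟨n, hn⟩ := exists_valuation_eq_zpow hp hA hz0 hfix
  rw [hn, ← zpow_natCast, ← zpow_mul] at hw
  have hpos : 0 < A.valuation (p : Qb) := zero_lt_iff.mpr (valuation_p_ne hp)
  have hinj := zpow_right_injective₀ hpos (ne_of_lt (valuation_p_lt hA))
  have h3 : n * ((2 * r : ℕ) : ℤ) = 1 := hinj (by
    show A.valuation (p : Qb) ^ (n * ((2 * r : ℕ) : ℤ)) = A.valuation (p : Qb) ^ (1 : ℤ)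
    rw [zpow_one]; exact hw)
  push_cast at h3
  have h4 : (2 : ℤ) ∣ 1 := ⟨n * r, by linear_combination -h3⟩
  omega

/-- **The uniformiser of the field of `x`.** -/
theorem exists_theta (hp : p.Prime) (hp2 : p ≠ 2) (hA : A.LiesOverPrime p) (hΔ : W.Δ ≠ 0)
    (hN : GoodNode (W.map (Int.castRingHom A)) x₀ y₀ α β g) (hdvd : p ∣ padicValInt p W.Δ)
    {x : PtQ W} (hpx : p • x = 0) (hx : x ∉ V1 W p A)
    (htrans : ∀ T ∈ V1 W p A, ∃ σ ∈ A.inertiaSubgroupIn ℚ, σ • x = x + T) :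
    ∃ θ : Qb, (∀ σ ∈ A.inertiaSubgroupIn ℚ, σ • x = x → σ θ = θ) ∧
      A.valuation θ ^ p = A.valuation (p : Qb) ∧
      ∀ τ ∈ A.inertiaSubgroupIn ℚ, τ • x ≠ x →
        A.valuation (τ θ - θ) ^ (p - 1) = A.valuation (p : Qb) := by
  classical
  have halg := H73.isAlgebraic_Qbar
  have hfact := Fact.mk hp
  have hp3 : 3 ≤ p := by
    have := hp.two_le
    omega
  have hcard := natCard_V1 hp hA hΔ hN
  have hfin : Finite (V1 W p A) := Nat.finite_of_card_ne_zero (by rw [hcard]; exact hp.ne_zero)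
  let _ : Fintype (V1 W p A) := Fintype.ofFinite _
  have hcard' : Fintype.card (V1 W p A) = p := by rw [← Nat.card_eq_fintype_card, hcard]
  obtain ⟨m, hm⟩ := val_xi hp hp2 hA hΔ hN hdvd hpx hx
  set v := A.valuation with hv
  have hvp0 : v (p : Qb) ≠ 0 := valuation_p_ne hp
  have hpos : 0 < v (p : Qb) := zero_lt_iff.mpr hvp0
  have hvp1 : v (p : Qb) < 1 := valuation_p_lt hA
  have hQp0 : (p : Qb) ≠ 0 := by exact_mod_cast hp.ne_zero
  have hfixx₀ : ∀ σ ∈ A.inertiaSubgroupIn ℚ, σ (x₀ : Qb) = x₀ := fun σ hσ => (hN.inertia hσ).1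
  have hfixp : ∀ σ : GQ, σ ((p : Qb) ^ m) = (p : Qb) ^ m := fun σ => by
    rw [map_zpow₀, map_natCast]
  set ξ : PtQ W → Qb := fun P => (xN P - x₀) / (p : Qb) ^ m with hξ
  have hξσ : ∀ σ ∈ A.inertiaSubgroupIn ℚ, ∀ P : PtQ W, ξ (σ • P) = σ (ξ P) := by
    intro σ hσ P
    simp only [hξ]
    rw [map_div₀, map_sub, hfixx₀ σ hσ, hfixp, xN_smul]
  have hvξ : ∀ T ∈ V1 W p A, v (ξ (x + T)) = 1 := by
    intro T hT
    obtain ⟨σ, hσ, hσx⟩ := htrans T hT
    rw [← hσx, hξσ σ hσ, valuation_smul hσ]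
    simp only [hξ]
    rw [map_div₀, hm, map_zpow₀, div_self (zpow_ne_zero _ hvp0)]
  have hξ0 : v (ξ x) = 1 := by
    have := hvξ 0 (zero_mem _)
    rwa [add_zero] at this
  -- the constant
  have hξA : ξ x ∈ A := by rw [← A.valuation_le_one_iff]; exact hξ0.le
  obtain ⟨c, hcfix, hc⟩ := H1.exists_const_inertia A hA (residue A) residue_surjective
    (residue A ⟨ξ x, hξA⟩)
  have hc1 : v (ξ x - c) < 1 := by
    have h1 : residue A (⟨ξ x, hξA⟩ - c) = 0 := by rw [map_sub, hc, sub_self]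
    rw [residue_eq_zero_iff] at h1
    exact (ValuationSubring.valuation_lt_one_iff A _).mp h1
  set s : V1 W p A → Qb := fun T => ξ (x + T) - c with hs
  have hsσ : ∀ σ ∈ A.inertiaSubgroupIn ℚ, ∀ P : PtQ W, σ (ξ P - c) = ξ (σ • P) - c := by
    intro σ hσ P
    rw [map_sub, hξσ σ hσ, hcfix σ hσ]
  have hsv : ∀ T, v (s T) = v (ξ x - c) := by
    intro T
    obtain ⟨σ, hσ, hσx⟩ := htrans T T.2
    simp only [hs]
    rw [← hσx, ← hsσ σ hσ, valuation_smul hσ]
  have hs1 : ∀ T, v (s T) < 1 := fun T => by rw [hsv]; exact hc1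
  have hdist : ∀ T T' : PtQ W, T ∈ V1 W p A → T' ∈ V1 W p A → T ≠ T' →
      v (ξ (x + T) - ξ (x + T')) ^ (p - 1) = v (p : Qb) := by
    intro T T' hT hT' hne
    have hx' : x + T' ∉ V1 W p A := fun h => hx (by
      have := (V1 W p A).sub_mem h hT'
      rwa [add_sub_cancel_right] at this)
    have hpx' : p • (x + T') = 0 := by rw [nsmul_add, hpx, hT'.1, add_zero]
    have h1 := val_xi_sub hp hp2 hA hΔ hN hpx' hx' ((V1 W p A).sub_mem hT hT')
      (sub_ne_zero.mpr hne)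
    have e1 : x + T' + (T - T') = x + T := by abel
    rw [e1] at h1
    have h2 : v (xN (x + T') - x₀) = v (p : Qb) ^ m := by
      have := hvξ T' hT'
      simp only [hξ] at this
      rw [map_div₀, map_zpow₀] at this
      exact (div_eq_one_iff_eq (zpow_ne_zero _ hvp0)).mp this
    rw [h2] at h1
    have e2 : ξ (x + T) - ξ (x + T') = (xN (x + T) - xN (x + T')) / (p : Qb) ^ m := by
      simp only [hξ]
      field_simp
      ring
    rw [e2, map_div₀, div_pow, h1, map_zpow₀]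
    field_simp
    rfl
  have hdisc : ∀ n, (∏ T, (X - C (s T))).coeff n ≠ 0 →
      ∃ k : ℤ, v ((∏ T, (X - C (s T))).coeff n) = v (p : Qb) ^ k := by
    intro n hn0
    refine exists_valuation_eq_zpow hp hA hn0 fun σ hσ => ?_
    have hmap : (∏ T, (X - C (s T))).map (σ : Qb →+* Qb) = ∏ T, (X - C (s T)) := by
      rw [Polynomial.map_prod]
      refine Finset.prod_bij (fun T _ => ⟨(σ • x - x) + σ • (T : PtQ W),
        (V1 W p A).add_mem (smul_sub_mem_V1 hp hA hN hσ hpx) (smul_mem_V1 hσ T.2)⟩) ?_ ?_ ?_ ?_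
      · intro T _; exact Finset.mem_univ _
      · intro T _ T' _ h
        have h1 : (σ • x - x) + σ • (T : PtQ W) = (σ • x - x) + σ • (T' : PtQ W) :=
          congrArg Subtype.val h
        exact Subtype.ext (smul_left_cancel σ (add_left_cancel h1))
      · intro T _
        have hσ' : σ⁻¹ ∈ A.inertiaSubgroupIn ℚ := inv_mem hσ
        refine ⟨⟨σ⁻¹ • ((T : PtQ W) - (σ • x - x)), smul_mem_V1 hσ' ((V1 W p A).sub_mem T.2
          (smul_sub_mem_V1 hp hA hN hσ hpx))⟩, Finset.mem_univ _, ?_⟩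
        apply Subtype.ext
        show (σ • x - x) + σ • (σ⁻¹ • ((T : PtQ W) - (σ • x - x))) = T
        rw [smul_inv_smul]
        abel
      · intro T _
        rw [Polynomial.map_sub, map_X, map_C]
        congr 2
        simp only [hs]
        have e : x + ((σ • x - x) + σ • (T : PtQ W)) = σ • (x + T) := by
          have e3 : σ • (x + T) = σ • x + σ • (T : PtQ W) := smul_add σ x (T : PtQ W)
          rw [e3]; abel
        rw [e]
        exact hsσ σ hσ _
    have h2 := congrArg (fun f => f.coeff n) hmap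
    simp only [coeff_map] at h2
    exact h2
  have hmain := val_pow_eq_of_dist v hp3 hcard' hvp0 hvp1 s hs1 (fun i j => by rw [hsv, hsv])
    (fun T T' hne => by
      have h1 := hdist T T' T.2 T'.2 (fun h => hne (Subtype.ext h))
      simp only [hs]
      rw [sub_sub_sub_cancel_right]
      exact h1) hdisc ⟨0, zero_mem _⟩
  refine ⟨ξ x - c, ?_, ?_, ?_⟩
  · intro σ hσ h
    rw [hsσ σ hσ, h]
  · rwa [hsv] at hmain
  · intro τ hτ hne
    have hT := smul_sub_mem_V1 hp hA hN hτ hpx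
    have h1 := hdist (τ • x - x) 0 hT (zero_mem _) (sub_ne_zero.mpr hne)
    rw [add_sub_cancel, add_zero] at h1
    rw [hsσ τ hτ, sub_sub_sub_cancel_right]
    exact h1

/-- **E-side at `p`.** -/
theorem fixed_or_theta (hp : p.Prime) (hp2 : p ≠ 2) (hA : A.LiesOverPrime p) (hΔ : W.Δ ≠ 0)
    (hN : GoodNode (W.map (Int.castRingHom A)) x₀ y₀ α β g) (hdvd : p ∣ padicValInt p W.Δ)
    {x : PtQ W} (hpx : p • x = 0) (hx : x ∉ V1 W p A) :
    (∃ T ∈ V1 W p A, ∀ σ ∈ A.inertiaSubgroupIn ℚ, σ • (x + T) = x + T) ∨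
    ((∀ T ∈ V1 W p A, ∃ σ ∈ A.inertiaSubgroupIn ℚ, σ • x = x + T) ∧
      ∃ θ : Qb, (∀ σ ∈ A.inertiaSubgroupIn ℚ, σ • x = x → σ θ = θ) ∧
        A.valuation θ ^ p = A.valuation (p : Qb) ∧
        ∀ τ ∈ A.inertiaSubgroupIn ℚ, τ • x ≠ x →
          A.valuation (τ θ - θ) ^ (p - 1) = A.valuation (p : Qb)) := by
  have hfact := Fact.mk hp
  have hcard := natCard_V1 hp hA hΔ hN
  obtain ⟨T₀, hT₀, hT00⟩ : ∃ T₀ ∈ V1 W p A, T₀ ≠ 0 := by
    by_contra hcon
    push Not at hcon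
    have h1 : V1 W p A = ⊥ := by
      rw [eq_bot_iff]
      intro T hT
      rw [AddSubgroup.mem_bot]
      exact hcon T hT
    rw [h1, AddSubgroup.card_bot] at hcard
    exact hp.one_lt.ne hcard
  obtain ⟨σ₀, hσ₀, hne⟩ := exists_smul_ne hp hp2 hA hΔ hN hT₀ hT00
  rcases affine_dichotomy (A.inertiaSubgroupIn ℚ) (V1 W p A) hcard
    (fun σ hσ T hT => smul_mem_V1 hσ hT) x (fun σ hσ => smul_sub_mem_V1 hp hA hN hσ hpx) hσ₀
    hT₀ hne with h | h
  · exact Or.inl h
  · exact Or.inr ⟨h, exists_theta hp hp2 hA hΔ hN hdvd hpx hx h⟩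

end Fermat.Agent.H44E
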