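import Fermat.Agent.H72Red
import Fermat.Agent.H87Mul
import Fermat.Agent.H44EAlg

/-!
# The `p`-torsion points in the kernel of reduction, residue characteristic `p`

`|p| ≤ |1/x(Q)|^((p-1)/2)` for `Q` a nonzero `p`-torsion point reducing to zero.
-/

set_option autoImplicit false
set_option linter.unusedSectionVars false

open Polynomial WeierstrassCurve WeierstrassCurve.Affine

namespace Fermat.Agent.H44E

open Fermat.Agent.H72

section

variable {L : Type*} [Field L] [DecidableEq L] {A : ValuationSubring L} {W : WeierstrassCurve A}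
  {EL : Affine L}

theorem map_b_le (hL : W.map A.subtype = EL) : A.valuation EL.b₂ ≤ 1 ∧ A.valuation EL.b₄ ≤ 1 ∧
    A.valuation EL.b₆ ≤ 1 ∧ A.valuation EL.b₈ ≤ 1 := by
  subst hL
  rw [map_b₂, map_b₄, map_b₆, map_b₈]
  exact ⟨A.valuation_le_one _, A.valuation_le_one _, A.valuation_le_one _, A.valuation_le_one _⟩

theorem eq_or_eq_neg_of_wc_eq {P Q : EL.Point} (hP : xN P ≠ 0) (hQ : xN Q ≠ 0)
    (h : wc P = wc Q) : P = Q ∨ P = -Q := by
  rcases P with _ | ⟨x, y, hP'⟩
  · change wc (0 : EL.Point) = wc Q at h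
    rw [wc, xD_zero, zero_div, eq_comm, wc, div_eq_zero_iff] at h
    rcases h with h | h
    · rw [xD_eq_zero] at h
      exact Or.inl h.symm
    · exact absurd h hQ
  · rcases Q with _ | ⟨x', y', hQ'⟩
    · change wc _ = wc (0 : EL.Point) at h
      rw [wc, wc, xD_zero, zero_div, div_eq_zero_iff] at h
      rcases h with h | h
      · rw [xD_eq_zero] at h
        exact Or.inl h
      · exact absurd h hP
    · rw [wc, wc, xD_some, xD_some, xN_some, xN_some, one_div, one_div, inv_inj] at h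
      subst h
      rcases Y_eq_of_X_eq hP'.1 hQ'.1 rfl with h | h
      · left; subst h; rfl
      · right
        rw [Point.neg_some]
        subst h
        rfl

/-- The points `n • Q` for `n` prime to `p`. -/
theorem wc_nsmul_unit (hL : W.map A.subtype = EL) {Q : EL.Point} (hQ0 : Q ≠ 0)
    (nQ : xN Q ≠ 0) (hQ : A.valuation (wc Q) < 1) {n : ℕ} (hn : A.valuation (n : L) = 1) :
    xN (n • Q) ≠ 0 ∧ A.valuation (wc (n • Q)) = A.valuation (wc Q) := by
  obtain ⟨h2, h4, h6, h8⟩ := map_b_le hL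
  obtain ⟨h1, h3⟩ := wc_nsmul h2 h4 h6 h8 hQ0 nQ hQ n
  have w0 : wc Q ≠ 0 := by
    rw [wc]; exact div_ne_zero (fun h => hQ0 (xD_eq_zero.mp h)) nQ
  refine ⟨h1, ?_⟩
  have h5 : A.valuation (wc (n • Q) / wc Q) = 1 := by
    have h7 : wc (n • Q) / wc Q = (n : L) ^ 2 + (wc (n • Q) / wc Q - (n : L) ^ 2) := by ring
    rw [h7, Valuation.map_add_eq_of_lt_left, map_pow, hn, one_pow]
    rw [map_pow, hn, one_pow]
    exact h3
  rw [map_div₀] at h5
  exact (div_eq_one_iff_eq ((Valuation.ne_zero_iff _).mpr w0)).mp h5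

/-- **Upper bound** from the leading coefficient of the division polynomial. -/
theorem valuation_p_le [CharZero L] (hL : W.map A.subtype = EL) {p : ℕ} (hp : p.Prime)
    (hp2 : p ≠ 2)
    (hunit : ∀ n : ℕ, 0 < n → n < p → A.valuation (n : L) = 1) {Q : EL.Point} (hQ0 : Q ≠ 0)
    (nQ : xN Q ≠ 0) (hpQ : p • Q = 0) (hQ : A.valuation (wc Q) < 1) :
    A.valuation (p : L) ≤ A.valuation (wc Q) ^ ((p - 1) / 2) := by
  classical
  have := Fact.mk hp
  have hodd : ¬ Even p := by
    rw [Nat.not_even_iff_odd]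
    exact hp.odd_of_ne_two hp2
  have hle : ∀ n : ℕ, wc (n • Q) ∈ A := by
    intro n
    obtain ⟨h2, h4, h6, h8⟩ := map_b_le hL
    obtain ⟨h1, h3⟩ := wc_nsmul h2 h4 h6 h8 hQ0 nQ hQ n
    have w0 : wc Q ≠ 0 := by
      rw [wc]; exact div_ne_zero (fun h => hQ0 (xD_eq_zero.mp h)) nQ
    rw [← A.valuation_le_one_iff]
    have h5 : wc (n • Q) = ((wc (n • Q) / wc Q - (n : L) ^ 2) + (n : L) ^ 2) * wc Q := by
      field_simp
      ring
    rw [h5, map_mul]
    refine mul_le_one' ?_ hQ.le
    refine (Valuation.map_add _ _ _).trans (max_le h3.le ?_)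
    rw [map_pow]
    exact pow_le_one' (v_nat_le A.valuation n) 2
  set w : ℕ → A := fun n => ⟨wc (n • Q), hle n⟩ with hw
  set N := (p ^ 2 - 1) / 2 with hN
  set f := W.preΨ' p with hf
  have hfdeg : f.natDegree ≤ N := by
    have := W.natDegree_preΨ'_le p
    rwa [if_neg hodd] at this
  have hfcoeff : f.coeff N = (p : A) := by
    have := W.coeff_preΨ' p
    rwa [if_neg hodd, if_neg hodd] at this
  set g := reflect N f with hg
  have hg0 : g.coeff 0 = (p : A) := by
    rw [hg, coeff_reflect, revAt_le (Nat.zero_le _), Nat.sub_zero, hfcoeff]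
  have hgne : g ≠ 0 := by
    intro h0
    rw [h0, coeff_zero] at hg0
    have h1 := congrArg (fun a : A => (a : L)) hg0
    simp only [ZeroMemClass.coe_zero] at h1
    have h2 : ((p : A) : L) = (p : L) := map_natCast A.subtype p
    rw [h2] at h1
    exact hp.ne_zero (by exact_mod_cast h1.symm)
  -- the roots
  have hroot : ∀ n, 0 < n → n < p → g.IsRoot (w n) := by
    intro n hn0 hnp
    have hnQ0 : n • Q ≠ 0 := by
      intro h0
      have h1 : addOrderOf Q = p := addOrderOf_eq_prime hpQ hQ0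
      have h2 := addOrderOf_dvd_of_nsmul_eq_zero h0
      rw [h1] at h2
      exact absurd (Nat.le_of_dvd hn0 h2) (not_le.mpr hnp)
    have hpn : p • (n • Q) = 0 := by rw [smul_comm, hpQ, smul_zero]
    have hne := (wc_nsmul_unit hL hQ0 nQ hQ (hunit n hn0 hnp)).1
    obtain ⟨R, hR⟩ : ∃ R, R = n • Q := ⟨_, rfl⟩
    have hwR : (w n : L) = wc R := by rw [hR]
    rw [← hR] at hnQ0 hpn hne
    rcases R with _ | ⟨x, y, h⟩
    · exact absurd rfl hnQ0
    rw [xN_some] at hne
    have h0 := (H87.nsmul_eq_zero_iff p h).mp hpn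
    rw [WeierstrassCurve.ΨSq, if_neg (by exact_mod_cast hodd), mul_one, eval_pow,
      pow_eq_zero_iff two_ne_zero, WeierstrassCurve.preΨ_ofNat] at h0
    have h1 : eval₂ A.subtype x f = 0 := by
      rw [← eval_map, hf, ← WeierstrassCurve.map_preΨ', hL]
      exact h0
    let _ : Invertible x := invertibleOfNonzero hne
    have h2 := (eval₂_reflect_eq_zero_iff A.subtype x N f hfdeg).mpr h1
    rw [← hg, invOf_eq_inv] at h2
    have h3 : x⁻¹ = A.subtype (w n) := by
      show x⁻¹ = (w n : L)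
      rw [hwR, wc, xD_some, xN_some, one_div]
    rw [h3, eval₂_at_apply] at h2
    exact Subtype.ext (by simpa using h2)
  -- they are distinct
  have hinj : Set.InjOn w (Finset.Icc 1 ((p - 1) / 2) : Finset ℕ) := by
    intro i hi j hj hij
    rw [Finset.coe_Icc, Set.mem_Icc] at hi hj
    have h1 : wc (i • Q) = wc (j • Q) := congrArg (fun a : A => (a : L)) hij
    have hord : addOrderOf Q = p := addOrderOf_eq_prime hpQ hQ0
    have hi' := (wc_nsmul_unit hL hQ0 nQ hQ (hunit i (by omega) (by omega))).1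
    have hj' := (wc_nsmul_unit hL hQ0 nQ hQ (hunit j (by omega) (by omega))).1
    rcases eq_or_eq_neg_of_wc_eq hi' hj' h1 with h | h
    · have h2 : (i : ℤ) • Q = (j : ℤ) • Q := by rw [natCast_zsmul, natCast_zsmul]; exact h
      have h3 : ((i : ℤ) - j) • Q = 0 := by rw [sub_zsmul, h2, add_neg_cancel]
      rw [← addOrderOf_dvd_iff_zsmul_eq_zero, hord] at h3
      have h4 := Int.eq_zero_of_abs_lt_dvd h3 (by rw [abs_lt]; constructor <;> omega)
      omega
    · have h2 : (i : ℤ) • Q = -((j : ℤ) • Q) := by rw [natCast_zsmul, natCast_zsmul]; exact h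
      have h3 : ((i : ℤ) + j) • Q = 0 := by rw [add_zsmul, h2, neg_add_cancel]
      rw [← addOrderOf_dvd_iff_zsmul_eq_zero, hord] at h3
      have h4 := Int.eq_zero_of_abs_lt_dvd h3 (by rw [abs_lt]; constructor <;> omega)
      omega
  set s : Finset A := (Finset.Icc 1 ((p - 1) / 2)).image w with hs
  have hsroots : s.val ≤ g.roots := by
    rw [Multiset.le_iff_subset s.nodup]
    intro a ha
    rw [Finset.mem_val, hs, Finset.mem_image] at ha
    obtain ⟨n, hn, rfl⟩ := ha
    rw [Finset.mem_Icc] at hn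
    rw [mem_roots hgne]
    exact hroot n (by omega) (by have := hp.two_le; omega)
  have hdvd := (Multiset.prod_X_sub_C_dvd_iff_le_roots hgne s.val).mpr hsroots
  obtain ⟨q, hq⟩ := hdvd
  have h1 := congrArg (eval 0) hq
  rw [← coeff_zero_eq_eval_zero, hg0, eval_mul, eval_multiset_prod, Multiset.map_map] at h1
  have h2 : (Multiset.map ((eval 0) ∘ fun a => X - C a) s.val).prod = ∏ a ∈ s, (-a) := by
    rw [Finset.prod]
    congr 1
    refine Multiset.map_congr rfl fun a _ => ?_
    simp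
  rw [h2, hs, Finset.prod_image hinj] at h1
  have h3 := congrArg (fun a : A => A.valuation (a : L)) h1
  simp only [MulMemClass.coe_mul] at h3
  rw [map_mul] at h3
  have h4 : ((p : A) : L) = (p : L) := map_natCast A.subtype p
  rw [h4] at h3
  rw [h3]
  refine (mul_le_of_le_one_right' (A.valuation_le_one _)).trans ?_
  have h5 : ((∏ x ∈ Finset.Icc 1 ((p - 1) / 2), -w x : A) : L) =
      ∏ x ∈ Finset.Icc 1 ((p - 1) / 2), -(w x : L) := by
    simp
  rw [h5, map_prod]
  have h6 : ∀ n ∈ Finset.Icc 1 ((p - 1) / 2), A.valuation (-(w n : L)) = A.valuation (wc Q) := by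
    intro n hn
    rw [Finset.mem_Icc] at hn
    rw [Valuation.map_neg]
    exact (wc_nsmul_unit hL hQ0 nQ hQ (hunit n (by omega) (by have := hp.two_le; omega))).2
  rw [Finset.prod_congr rfl h6, Finset.prod_const, Nat.card_Icc]
  rfl

end

end Fermat.Agent.H44E
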