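import Fermat.Agent.H13EC7
import Fermat.Agent.H44ETor

/-!
# `p`-torsion points near the node: distances
-/

set_option autoImplicit false
set_option linter.unusedSectionVars false

open Polynomial WeierstrassCurve WeierstrassCurve.Affine

namespace Fermat.Agent.H44E

open Fermat.Agent.H72 Fermat.Agent.H13

section alg

variable {K Γ : Type*} [Field K] [LinearOrderedCommGroupWithZero Γ] (v : Valuation K Γ)

theorem v_sub_of_ne {a b : K} (h : v a ≠ v b) : v (a - b) = max (v a) (v b) := by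
  rw [sub_eq_add_neg, Valuation.map_add_of_distinct_val, Valuation.map_neg]
  rwa [Valuation.map_neg]

/-- The key distance computation. -/
theorem dist_aux {δ L M L' M' sR sP tP ξR ξP ξT ξS : K} (hδ : v δ = 1) (h1 : M - L = δ)
    (h2 : M' - L' = δ) (e1 : ξR + ξP + ξT = L * M) (e1' : ξR + ξP + ξS = L' * M')
    (hs : sR + tP = L * (ξR - ξP)) (hs' : sR - sP = L' * (ξR - ξP)) (hR : v ξR ≤ 1)
    (hP : v ξP ≤ 1) (hT : 1 < v ξT) (hS : v ξS ≤ 1) :
    v (sP + tP) ^ 2 = v ξT * v (ξR - ξP) ^ 2 := by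
  have hRP : v (ξR + ξP) ≤ 1 := (Valuation.map_add _ _ _).trans (max_le hR hP)
  have hLM : v L * v M = v ξT := by
    rw [← map_mul, ← e1, Valuation.map_add_eq_of_lt_right _ (hRP.trans_lt hT)]
  have hLeqM : v L = v M := by
    by_contra hne
    have hd : v (M - L) = max (v M) (v L) := v_sub_of_ne v (Ne.symm hne)
    rw [h1, hδ] at hd
    have hM : v M ≤ 1 := (le_max_left _ _).trans hd.symm.le
    have hL : v L ≤ 1 := (le_max_right _ _).trans hd.symm.le
    have := mul_le_one' hL hM
    rw [hLM] at this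
    exact absurd hT (not_lt.mpr this)
  have hL2 : v L ^ 2 = v ξT := by rw [pow_two]; nth_rw 2 [hLeqM]; exact hLM
  have hL1 : 1 < v L := by
    by_contra hcon
    rw [not_lt] at hcon
    have := pow_le_one' hcon 2
    rw [hL2] at this
    exact absurd hT (not_lt.mpr this)
  have hL'1 : v L' ≤ 1 := by
    by_contra hcon
    rw [not_le] at hcon
    have hM' : v M' = v L' := by
      have : M' = L' + δ := by rw [← h2]; ring
      rw [this, Valuation.map_add_eq_of_lt_left _ (by rw [hδ]; exact hcon)]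
    have h3 : v (L' * M') ≤ 1 := by
      rw [← e1']
      exact (Valuation.map_add _ _ _).trans (max_le hRP hS)
    rw [map_mul, hM'] at h3
    exact absurd h3 (not_le.mpr (one_lt_mul_of_lt_of_le hcon hcon.le))
  have h3 : sP + tP = L * (ξR - ξP) - L' * (ξR - ξP) := by rw [← hs, ← hs']; ring
  rcases eq_or_ne (ξR - ξP) 0 with h0 | h0
  · rw [h3, h0]; simp
  · have hpos : 0 < v (ξR - ξP) := zero_lt_iff.mpr ((Valuation.ne_zero_iff _).mpr h0)
    rw [h3, Valuation.map_sub_eq_of_lt_left, map_mul, mul_pow, hL2]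
    rw [map_mul, map_mul]
    exact mul_lt_mul_of_pos_right (hL'1.trans_lt hL1) hpos

/-- Away from the middle component. -/
theorem near_aux {δ g s t ξ : K} {c : Γ} (hδ : v δ = 1) (hg0 : g ≠ 0) (hg : v g < 1)
    (hξ : v ξ < 1) (hts : t - s = δ * ξ) (hst : s * t = ξ ^ 3 + g) (hc : IsC v s t c)
    {p : ℕ} (hp : ¬ Even p) {k : ℤ} (hck : c ^ p = v g ^ k) :
    v (s + t) = v ξ ∧ ∃ k : ℤ, v ξ ^ p = v g ^ k := by
  have hs1 := near_s_lt v hδ hg hξ hts hst
  have ht1 := near_t_lt v hδ hg hξ hts hst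
  have hgpos : 0 < v g := zero_lt_iff.mpr ((Valuation.ne_zero_iff _).mpr hg0)
  have hne : v s ≠ v t := by
    intro heq
    have hξs : v ξ ≤ v s := by
      have : v (δ * ξ) ≤ v s := by
        rw [← hts]
        exact (Valuation.map_sub _ _ _).trans (max_le heq.symm.le le_rfl)
      rwa [map_mul, hδ, one_mul] at this
    have hs0 : v s ≠ 0 := by
      intro h0
      have h1 : v ξ = 0 := le_antisymm (h0 ▸ hξs) zero_le
      have h2 : s = 0 := (map_eq_zero v).mp h0
      have h3 : ξ = 0 := (map_eq_zero v).mp h1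
      rw [h2, h3, zero_mul] at hst
      exact hg0 (by simpa using hst.symm)
    have hspos : 0 < v s := zero_lt_iff.mpr hs0
    have h3 : v (ξ ^ 3) < v (s * t) := by
      rw [map_pow, map_mul, ← heq]
      calc v ξ ^ 3 ≤ v s ^ 3 := pow_le_pow_left₀ zero_le hξs 3
        _ = v s * v s * v s := by rw [pow_succ, pow_two]
        _ < v s * v s * 1 := mul_lt_mul_of_pos_left hs1 (mul_pos hspos hspos)
        _ = _ := mul_one _
    have h4 : v g = v s ^ 2 := by
      have : g = s * t - ξ ^ 3 := by rw [hst]; ring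
      rw [this, Valuation.map_sub_eq_of_lt_left _ h3, map_mul, ← heq, pow_two]
    have h5 : v s ^ (p : ℤ) = v s ^ (2 * k) ∨ v s ^ (-(p : ℤ)) = v s ^ (2 * k) := by
      rw [h4, ← zpow_natCast (v s) 2, ← zpow_mul, Nat.cast_ofNat] at hck
      rcases hc with ⟨-, rfl⟩ | ⟨-, rfl⟩
      · left; rw [zpow_natCast]; exact hck
      · right
        rw [← heq, inv_pow] at hck
        rw [zpow_neg, zpow_natCast]
        exact hck
    have hinj := zpow_right_injective₀ hspos (ne_of_lt hs1)
    rcases h5 with h5 | h5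
    · have := hinj h5
      exact hp ⟨k.toNat, by omega⟩
    · have := hinj h5
      exact hp ⟨(-k).toNat, by omega⟩
  have hmax : v ξ = max (v t) (v s) := by
    rw [← v_sub_of_ne v (Ne.symm hne), hts, map_mul, hδ, one_mul]
  have hsum : v (s + t) = max (v s) (v t) := Valuation.map_add_of_distinct_val _ hne
  refine ⟨by rw [hsum, hmax, max_comm], ?_⟩
  rcases hc with ⟨hle, rfl⟩ | ⟨hle, rfl⟩
  · refine ⟨k, ?_⟩
    rw [hmax, max_eq_right hle, hck]
  · refine ⟨-k, ?_⟩
    rw [hmax, max_eq_left hle, zpow_neg, ← hck, inv_pow, inv_inv]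

end alg

end Fermat.Agent.H44E
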