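import Fermat.Agent.H44EMain
import Fermat.Agent.H44EConst
import Fermat.Agent.H31MPNodeConst

/-!
# E-side at `p`: final statements for the inertia group
-/

set_option autoImplicit false
set_option linter.unusedSectionVars false

open WeierstrassCurve WeierstrassCurve.Affine IsLocalRing

namespace Fermat.Agent.H44E

open Fermat.Agent.H13

local notation "Qb" => AlgebraicClosure ℚ
local notation "GQ" => (AlgebraicClosure ℚ ≃ₐ[ℚ] AlgebraicClosure ℚ)

section concrete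

variable {W : WeierstrassCurve ℤ} {p : ℕ} {A : ValuationSubring Qb} {x₀ y₀ α β g : A}

/-- The fixed field of inertia is discretely valued. -/
theorem disc_inertia (hp : p.Prime) (hA : A.LiesOverPrime p) {c : Qb} (hc0 : c ≠ 0)
    (hfix : ∀ σ : A.inertiaSubgroupIn ℚ, σ • c = c) :
    ∃ n : ℤ, A.valuation c = A.valuation (p : Qb) ^ n :=
  exists_valuation_eq_zpow hp hA hc0 fun σ hσ => hfix ⟨σ, hσ⟩

/-- Residue classes contain elements fixed by inertia. -/
theorem res_inertia (hp : p.Prime) (hA : A.LiesOverPrime p) {a : Qb} (ha : A.valuation a ≤ 1) :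
    ∃ c : Qb, (∀ σ : A.inertiaSubgroupIn ℚ, σ • c = c) ∧ A.valuation (a - c) < 1 := by
  have halg := H73.isAlgebraic_Qbar
  have hfact := Fact.mk hp
  have haA : a ∈ A := by rwa [← A.valuation_le_one_iff]
  obtain ⟨c, hcfix, hc⟩ := H1.exists_const_inertia A hA (residue A) residue_surjective
    (residue A ⟨a, haA⟩)
  refine ⟨c, fun σ => hcfix σ σ.2, ?_⟩
  have h1 : residue A (⟨a, haA⟩ - c) = 0 := by rw [map_sub, hc, sub_self]
  rw [residue_eq_zero_iff] at h1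
  exact (ValuationSubring.valuation_lt_one_iff A _).mp h1

/-- Identification of the kernel of reduction with the line seen on the modular side: a subgroup of
order `p` containing all `σ x - x`. -/
theorem eq_V1_of_line (hp : p.Prime) (hp2 : p ≠ 2) (hA : A.LiesOverPrime p) (hΔ : W.Δ ≠ 0)
    (hN : GoodNode (W.map (Int.castRingHom A)) x₀ y₀ α β g) {L : AddSubgroup (PtQ W)}
    (hL : Nat.card L = p)
    (hLσ : ∀ σ ∈ A.inertiaSubgroupIn ℚ, ∀ x : PtQ W, p • x = 0 → σ • x - x ∈ L) :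
    L = V1 W p A := by
  have hfact := Fact.mk hp
  have hcard := natCard_V1 hp hA hΔ hN
  obtain ⟨T₀, hT₀, hT00⟩ : ∃ T₀ ∈ V1 W p A, T₀ ≠ 0 := by
    by_contra hcon
    push Not at hcon
    have h1 : V1 W p A = ⊥ := by
      rw [eq_bot_iff]
      intro T hT
      rw [AddSubgroup.mem_bot]
      exact hcon T hT
    rw [h1, AddSubgroup.card_bot] at hcard
    exact hp.one_lt.ne hcard
  obtain ⟨σ₀, hσ₀, hne⟩ := exists_smul_ne hp hp2 hA hΔ hN hT₀ hT00
  have h1 : σ₀ • T₀ - T₀ ∈ V1 W p A := (V1 W p A).sub_mem (smul_mem_V1 hσ₀ hT₀) hT₀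
  have h2 : σ₀ • T₀ - T₀ ∈ L := hLσ σ₀ hσ₀ T₀ hT₀.1
  have h3 : σ₀ • T₀ - T₀ ≠ 0 := sub_ne_zero.mpr hne
  apply le_antisymm
  · intro T hT
    obtain ⟨n, rfl⟩ := exists_nsmul_of_prime_card hL h2 h3 hT
    exact AddSubgroup.nsmul_mem _ h1 n
  · intro T hT
    obtain ⟨n, rfl⟩ := exists_nsmul_of_prime_card hcard h1 h3 hT
    exact AddSubgroup.nsmul_mem _ h2 n

/-- The stabiliser of a nonzero element of `V1` in inertia has index `≤ p - 1`. -/
theorem index_stabilizer_V1 (hp : p.Prime) (hA : A.LiesOverPrime p) (hΔ : W.Δ ≠ 0)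
    (hN : GoodNode (W.map (Int.castRingHom A)) x₀ y₀ α β g) {y : PtQ W} (hy : y ∈ V1 W p A)
    (hy0 : y ≠ 0) :
    (MulAction.stabilizer (A.inertiaSubgroupIn ℚ) y).index ≠ 0 ∧
      (MulAction.stabilizer (A.inertiaSubgroupIn ℚ) y).index ≤ p - 1 := by
  classical
  have hcard := natCard_V1 hp hA hΔ hN
  have hfin : Finite (V1 W p A) := Nat.finite_of_card_ne_zero (by rw [hcard]; exact hp.ne_zero)
  have hVfin : (V1 W p A : Set (PtQ W)).Finite := hfin
  rw [MulAction.index_stabilizer]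
  have hsub : MulAction.orbit (A.inertiaSubgroupIn ℚ) y ⊆ (V1 W p A : Set (PtQ W)) \ {0} := by
    rintro _ ⟨σ, rfl⟩
    refine ⟨smul_mem_V1 σ.2 hy, ?_⟩
    intro h0
    have h1 : σ • y = 0 := h0
    apply hy0
    have h2 : σ⁻¹ • σ • y = σ⁻¹ • (0 : PtQ W) := by rw [h1]
    rw [inv_smul_smul] at h2
    rw [h2]; rfl
  have hofin : (MulAction.orbit (A.inertiaSubgroupIn ℚ) y).Finite :=
    (hVfin.sdiff).subset hsub
  constructor
  · exact Set.ncard_ne_zero_of_mem (MulAction.mem_orbit_self y) hofin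
  · have h1 := Set.ncard_le_ncard hsub hVfin.sdiff
    rw [Set.ncard_sdiff_singleton_of_mem (zero_mem (V1 W p A))] at h1
    have h2 : (V1 W p A : Set (PtQ W)).ncard = p := hcard
    rwa [h2] at h1

/-- **E-side at `p`.**  For `x ∈ E[p]` outside the kernel of reduction `V1` such that no translate
`x + T`, `T ∈ V1`, is fixed by inertia: the stabiliser of `x` has index `p` and all hypotheses on
constants of `node_const_wild` hold. -/
theorem wild_E (hp : p.Prime) (hp2 : p ≠ 2) (hA : A.LiesOverPrime p) (hΔ : W.Δ ≠ 0)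
    (hN : GoodNode (W.map (Int.castRingHom A)) x₀ y₀ α β g) (hdvd : p ∣ padicValInt p W.Δ)
    {x : PtQ W} (hpx : p • x = 0) (hx : x ∉ V1 W p A)
    (hnf : ∀ T ∈ V1 W p A, ∃ σ : A.inertiaSubgroupIn ℚ, σ • (x + T) ≠ x + T) :
    (∀ T ∈ V1 W p A, ∃ σ : A.inertiaSubgroupIn ℚ, σ • x = x + T) ∧
    (MulAction.stabilizer (A.inertiaSubgroupIn ℚ) x).index = p ∧
    ∀ τ : A.inertiaSubgroupIn ℚ, τ • x ≠ x → ∃ ε : Qb, ε ≠ 0 ∧ A.valuation ε < 1 ∧
      (∀ a : Qb, (∀ σ ∈ MulAction.stabilizer (A.inertiaSubgroupIn ℚ) x, σ • a = a) →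
        A.valuation a < 1 → A.valuation a ≤ A.valuation ε ^ 2) ∧
      (∀ a : Qb, (∀ σ ∈ MulAction.stabilizer (A.inertiaSubgroupIn ℚ) x, σ • a = a) →
        A.valuation a ≤ 1 → A.valuation (τ • a - a) ≤ A.valuation ε ^ 2) ∧
      (∀ a : Qb, a ≠ 0 → (∀ σ ∈ MulAction.stabilizer (A.inertiaSubgroupIn ℚ) x, σ • a = a) →
        ∃ n : ℤ, A.valuation a ^ p = A.valuation (p : Qb) ^ n ∧
          A.valuation ((τ • a) / a - 1 - n * ε) ≤ A.valuation ε ^ 2) ∧
      (∀ y ∈ V1 W p A, y ≠ 0 → ∀ a : Qb,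
        (∀ σ ∈ MulAction.stabilizer (A.inertiaSubgroupIn ℚ) y, σ • a = a) →
        A.valuation a < 1 → A.valuation a ≤ A.valuation ε ^ 2) := by
  classical
  rcases fixed_or_theta hp hp2 hA hΔ hN hdvd hpx hx with ⟨T, hT, h⟩ | ⟨htr, θ, hθ1, hθ2, hθ3⟩
  · obtain ⟨σ, hσ⟩ := hnf T hT
    exact absurd (h σ σ.2) hσ
  have hp3 : 3 ≤ p := by have := hp.two_le; omega
  have htr' : ∀ T ∈ V1 W p A, ∃ σ : A.inertiaSubgroupIn ℚ, σ • x = x + T := by
    intro T hT
    obtain ⟨σ, hσ, h⟩ := htr T hT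
    exact ⟨⟨σ, hσ⟩, h⟩
  have hcard := natCard_V1 hp hA hΔ hN
  have hindex : (MulAction.stabilizer (A.inertiaSubgroupIn ℚ) x).index = p := by
    rw [MulAction.index_stabilizer]
    have h1 : MulAction.orbit (A.inertiaSubgroupIn ℚ) x =
        (fun T => x + T) '' (V1 W p A : Set (PtQ W)) := by
      ext z
      constructor
      · rintro ⟨σ, rfl⟩
        refine ⟨σ • x - x, smul_sub_mem_V1 hp hA hN σ.2 hpx, ?_⟩
        show x + (σ • x - x) = σ • x
        abel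
      · rintro ⟨T, hT, rfl⟩
        obtain ⟨σ, hσ⟩ := htr' T hT
        exact ⟨σ, hσ⟩
    rw [h1, Set.ncard_image_of_injective _ (add_right_injective x)]
    exact hcard
  have hv : ∀ (σ : A.inertiaSubgroupIn ℚ) (c : Qb), A.valuation (σ • c) = A.valuation c :=
    fun σ c => valuation_smul σ.2 c
  have hp0 : A.valuation (p : Qb) ≠ 0 := valuation_p_ne hp
  have hp1 : A.valuation (p : Qb) < 1 := valuation_p_lt hA
  have hdisc : ∀ c : Qb, c ≠ 0 → (∀ σ : A.inertiaSubgroupIn ℚ, σ • c = c) →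
      ∃ n : ℤ, A.valuation c = A.valuation (p : Qb) ^ n := fun c hc h => disc_inertia hp hA hc h
  refine ⟨htr', hindex, fun τ hτ => ?_⟩
  obtain ⟨h1, h2, h3, h4, h5, h6⟩ := wild_consts (v := A.valuation) hp3 hv hp0 hp1 hdisc hindex
    (fun a _ ha => res_inertia hp hA ha) (θ := θ) (fun σ hσ => hθ1 σ σ.2 hσ) hθ2
    (τ := τ) (hθ3 τ τ.2 hτ) rfl
  refine ⟨_, h1, h2, h4, h5, h6, fun y hy hy0 a ha ha1 => ?_⟩
  obtain ⟨hi0, hi1⟩ := index_stabilizer_V1 hp hA hΔ hN hy hy0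
  exact tame_le_eps hp3 hv hp0 hp1 hdisc hi0 hi1 h3 ha ha1

end concrete

section data

open Fermat.Agent.H31.MP

variable {K F k Fb Γ ν G : Type*} [Field K] [Field F] [Algebra K F] [Field k] [Field Fb]
    [Algebra k Fb] [LinearOrderedCommGroupWithZero Γ] [Group G] [MulSemiringAction G K]
    [MulSemiringAction G F] {p : ℕ} (D : Data K F k Fb Γ ν G p)

/-- From constants to functions: small functions. -/
theorem le_of_const {H : Subgroup G} {E : Γ}
    (hE : ∀ a : K, Fix H a → D.M.vK a < 1 → D.M.vK a ≤ E) (i : Bool) {g : F} (hg : Fix H g)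
    (hg1 : D.M.v i g < 1) : D.M.v i g ≤ E := by
  rcases eq_or_ne g 0 with rfl | hg0
  · rw [map_zero]; exact zero_le
  obtain ⟨c, -, hc, hvc⟩ := D.scale H i g hg hg0
  rw [hvc] at hg1 ⊢
  exact hE c hc hg1

/-- From constants to functions: `hτ`. -/
theorem smul_sub_le_of_const
    (hsurj : ∀ (i : Bool) (a : Fb), ∃ b : F, Fix (⊤ : Subgroup G) b ∧ D.M.v i b ≤ 1 ∧
      D.M.ρ i b = a)
    {H : Subgroup G} {E : Γ} (hE : ∀ a : K, Fix H a → D.M.vK a < 1 → D.M.vK a ≤ E) (τ : G)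
    (i : Bool) {g : F} (hg : Fix H g) (hg1 : D.M.v i g ≤ 1) : D.M.v i (τ • g - g) ≤ E := by
  obtain ⟨b, hb, hb1, hρ⟩ := hsurj i (D.M.ρ i g)
  have h1 : D.M.v i (g - b) < 1 := D.sub_lt_of_ρ hg1 hb1 hρ.symm
  have h2 : D.M.v i (g - b) ≤ E := le_of_const D hE i (hg.sub hb.of_top) h1
  have h3 : τ • g - g = τ • (g - b) - (g - b) := by
    rw [smul_sub, hb τ (Subgroup.mem_top τ)]; ring
  rw [h3]
  exact (Valuation.map_sub _ _ _).trans (max_le (by rwa [D.v_smul]) h2)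

end data

end Fermat.Agent.H44E
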