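import Fermat.Agent.H44EGlob

/-!
# The `x`-coordinates of the `p`-torsion points near the node
-/

set_option autoImplicit false
set_option linter.unusedSectionVars false

open Polynomial WeierstrassCurve WeierstrassCurve.Affine IsLocalRing

namespace Fermat.Agent.H44E

open Fermat.Agent.H72 Fermat.Agent.H13

local notation "Qb" => AlgebraicClosure ℚ
local notation "GQ" => (AlgebraicClosure ℚ ≃ₐ[ℚ] AlgebraicClosure ℚ)

variable {W : WeierstrassCurve ℤ} {p : ℕ} {A : ValuationSubring Qb} {x₀ y₀ α β g : A}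

theorem two_nsmul_not_mem (hp : p.Prime) (hp2 : p ≠ 2) {P : PtQ W} (hpP : p • P = 0)
    (hP : P ∉ V1 W p A) : 2 • P ∉ V1 W p A := by
  intro h
  apply hP
  obtain ⟨r, hr⟩ := hp.odd_of_ne_two hp2
  have h1 : P = (r + 1) • (2 • P) := by
    rw [← mul_nsmul', show (r + 1) * 2 = p + 1 by omega, add_nsmul, hpP, zero_add, one_nsmul]
  rw [h1]
  exact (V1 W p A).nsmul_mem h _

/-- Basic facts on a `p`-torsion point outside `V1`. -/
theorem near_facts (hp : p.Prime) (hp2 : p ≠ 2) (hA : A.LiesOverPrime p)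
    (hN : GoodNode (W.map (Int.castRingHom A)) x₀ y₀ α β g) {P : PtQ W} (hpP : p • P = 0)
    (hP : P ∉ V1 W p A) : ∃ x y h, P = Point.some x y h ∧ A.valuation (x - x₀) < 1 ∧
      A.valuation (sC (x₀ : Qb) y₀ α x y + sC (x₀ : Qb) y₀ β x y) = A.valuation (x - x₀) ∧
      ∃ k : ℤ, A.valuation (x - x₀) ^ p = A.valuation (g : Qb) ^ k := by
  have hnear := near_of_not_mem hp hA hN hpP hP
  obtain ⟨c, hc⟩ := exists_comp x₀ y₀ α β P
  obtain ⟨k, hk⟩ := hc.pow_eq hN (hLQ W A) hpP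
  rcases P with _ | ⟨x, y, h⟩
  · exact absurd hnear id
  refine ⟨x, y, h, rfl, hnear, ?_⟩
  rw [comp_some] at hc
  rcases hc with ⟨h1, -⟩ | ⟨-, hc⟩
  · exact absurd hnear (not_lt.mpr h1)
  have hodd : ¬ Even p := by
    rw [Nat.not_even_iff_odd]
    exact hp.odd_of_ne_two hp2
  exact near_aux A.valuation hN.v_δ hN.g_ne' hN.v_g hnear NodeData.ts
    ((hN.nd' (hLQ W A)).st h.1) hc hodd hk

theorem val_xi (hp : p.Prime) (hp2 : p ≠ 2) (hA : A.LiesOverPrime p) (hΔ : W.Δ ≠ 0)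
    (hN : GoodNode (W.map (Int.castRingHom A)) x₀ y₀ α β g) (hdvd : p ∣ padicValInt p W.Δ)
    {P : PtQ W} (hpP : p • P = 0) (hP : P ∉ V1 W p A) :
    ∃ m : ℤ, A.valuation (xN P - x₀) = A.valuation (p : Qb) ^ m := by
  obtain ⟨x, y, h, rfl, h1, h2, k, hk⟩ := near_facts hp hp2 hA hN hpP hP
  rw [xN_some]
  obtain ⟨n, hn⟩ := hdvd
  refine ⟨n * k, ?_⟩
  apply pow_inj (n := p) hp.ne_zero
  rw [hk, hN.valuation_g hp hA hΔ, hn, ← zpow_natCast, ← zpow_natCast, ← zpow_mul, ← zpow_mul]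
  congr 1
  push_cast
  ring

theorem val_xi_ne (hp : p.Prime) (hp2 : p ≠ 2) (hA : A.LiesOverPrime p) (hΔ : W.Δ ≠ 0)
    (hN : GoodNode (W.map (Int.castRingHom A)) x₀ y₀ α β g) (hdvd : p ∣ padicValInt p W.Δ)
    {P : PtQ W} (hpP : p • P = 0) (hP : P ∉ V1 W p A) :
    A.valuation (xN P - x₀) ≠ 0 := by
  obtain ⟨m, hm⟩ := val_xi hp hp2 hA hΔ hN hdvd hpP hP
  rw [hm]
  exact zpow_ne_zero _ (valuation_p_ne hp)

/-- **The distance formula.** -/
theorem val_xi_sub (hp : p.Prime) (hp2 : p ≠ 2) (hA : A.LiesOverPrime p) (hΔ : W.Δ ≠ 0)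
    (hN : GoodNode (W.map (Int.castRingHom A)) x₀ y₀ α β g) {P : PtQ W} (hpP : p • P = 0)
    (hP : P ∉ V1 W p A) {T : PtQ W} (hT : T ∈ V1 W p A) (hT0 : T ≠ 0) :
    A.valuation (xN (P + T) - xN P) ^ (p - 1) =
      A.valuation (xN P - x₀) ^ (p - 1) * A.valuation (p : Qb) := by
  have hwT := val_wc hp hp2 hA hΔ hN hT0 hT
  have hR : P + T ∉ V1 W p A := fun h => hP (by
    have := (V1 W p A).sub_mem h hT
    rwa [add_sub_cancel_right] at this)
  have hpR : p • (P + T) = 0 := by rw [nsmul_add, hpP, hT.1, add_zero]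
  have hS : (P + T) + P ∉ V1 W p A := fun h => two_nsmul_not_mem hp hp2 hpP hP (by
    have := (V1 W p A).sub_mem h hT
    have e : P + T + P - T = 2 • P := by rw [two_nsmul]; abel
    rwa [e] at this)
  have hpS : p • ((P + T) + P) = 0 := by rw [nsmul_add, hpR, hpP, add_zero]
  obtain ⟨R, hRdef⟩ : ∃ R, R = P + T := ⟨_, rfl⟩
  have hsum1 : R + (-P) + (-T) = 0 := by rw [hRdef]; abel
  rw [← hRdef] at hR hpR hS hpS ⊢
  obtain ⟨S, hSdef⟩ : ∃ S, S = R + P := ⟨_, rfl⟩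
  have hsum2 : R + P + (-S) = 0 := by rw [hSdef]; abel
  rw [← hSdef] at hS hpS
  obtain ⟨x₁, y₁, h₁, rfl, p1, p2, -⟩ := near_facts hp hp2 hA hN hpP hP
  obtain ⟨x₂, y₂, h₂, rfl, r1, -, -⟩ := near_facts hp hp2 hA hN hpR hR
  obtain ⟨x₃, y₃, h₃, rfl, s1, -, -⟩ := near_facts hp hp2 hA hN hpS hS
  rcases T with _ | ⟨xT, yT, hT'⟩
  · exact absurd rfl hT0
  have hxT := (mem_V1_some.mp hT).2
  rw [← A.valuation_le_one_iff, not_le] at hxT
  have hx₀ : A.valuation (x₀ : Qb) ≤ 1 := A.valuation_le_one _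
  have hND := hN.nd' (hLQ W A)
  rw [Point.neg_some, Point.neg_some] at hsum1
  rw [Point.neg_some] at hsum2
  obtain ⟨L, M, ν, hl, sR, -, sP, -, -, -⟩ := hND.exists_lineData hsum1
  obtain ⟨L', M', ν', hl', sR', -, sP', -, -, -⟩ := hND.exists_lineData hsum2
  rw [hND.sC_negY] at sP
  have key := dist_aux A.valuation hN.v_δ hl.dif hl'.dif hl.e₁ hl'.e₁
    (sR := sC (x₀ : Qb) y₀ α x₂ y₂) (tP := sC (x₀ : Qb) y₀ β x₁ y₁)
    (sP := sC (x₀ : Qb) y₀ α x₁ y₁)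
    (by linear_combination sR - sP) (by linear_combination sR' - sP') r1.le p1.le
    (by rw [Valuation.map_sub_eq_of_lt_left _ (hx₀.trans_lt hxT)]; exact hxT) s1.le
  rw [p2, Valuation.map_sub_eq_of_lt_left _ (hx₀.trans_lt hxT)] at key
  rw [xN_some, xN_some]
  have e : x₂ - (x₀ : Qb) - (x₁ - x₀) = x₂ - x₁ := by ring
  rw [e] at key
  obtain ⟨r, hr⟩ := hp.odd_of_ne_two hp2
  have hpr : (p - 1) / 2 = r := by omega
  have hpr2 : p - 1 = 2 * r := by omega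
  rw [wc, xD_some, xN_some, one_div, map_inv₀, hpr, inv_pow] at hwT
  have hxT0 : A.valuation xT ≠ 0 := (lt_trans zero_lt_one hxT).ne'
  rw [hpr2, pow_mul, pow_mul, key, mul_pow, ← hwT]
  field_simp

end Fermat.Agent.H44E
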