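import Fermat.Agent.H31Hyp2
import Fermat.Agent.H5ZH3

/-!
# Matching at infinity (helper67), part 1

For a function `κ : (Fin 3 → ℝ) → E` of three `cosh`-distances put
`bk κ x y = ∫ u, ∫ v, κ ![ch x u, ch u v, ch v y]`.

* `bk_cyclic` : `∫ x₂, ∫ x₃, κ ![ch x₁ (g₁ x₂), ch x₂ (g₂ x₃), ch x₃ (g₃ x₁)] = bk κ x₁ (g₁ g₂ g₃ x₁)`
* `bk_eq_bkr` : `bk κ x y = bkr κ (ch x y)`.
-/

set_option autoImplicit false
set_option linter.unusedSectionVars false

noncomputable section

open MeasureTheory Set Matrix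

namespace Fermat.Agent.H67M

open Fermat.Agent Fermat.Agent.H3

variable {E : Type*} [NormedAddCommGroup E] [NormedSpace ℝ E]

/-! ### substitutions -/

theorem measurableEmbedding_smul (g : GL (Fin 2) ℂ) :
    MeasurableEmbedding (fun w : H3 => g • w) :=
  (Homeomorph.smul g).measurableEmbedding

/-- invariance of the integral, no hypothesis on the function -/
theorem integral_smul_eq (g : GL (Fin 2) ℂ) (f : H3 → E) : ∫ w : H3, f (g • w) = ∫ w, f w :=
  (measurePreserving_smul g).integral_comp (measurableEmbedding_smul g) f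

theorem lintegral_smul_eq (g : GL (Fin 2) ℂ) (f : H3 → ENNReal) :
    ∫⁻ w : H3, f (g • w) = ∫⁻ w, f w :=
  (measurePreserving_smul g).lintegral_comp_emb (measurableEmbedding_smul g) f

/-- the composed kernel -/
def bk (κ : (Fin 3 → ℝ) → E) (x y : H3) : E :=
  ∫ u : H3, ∫ v : H3, κ ![ch x u, ch u v, ch v y]

/-- the composed kernel as a function of `cosh` of the distance -/
def bkr (κ : (Fin 3 → ℝ) → E) (c : ℝ) : E :=
  bk κ base ⟨(√(2 * (c - 1)) : ℝ), 1, one_pos⟩

theorem bk_smul (κ : (Fin 3 → ℝ) → E) (g : GL (Fin 2) ℂ) (x y : H3) :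
    bk κ (g • x) (g • y) = bk κ x y := by
  unfold bk
  rw [← integral_smul_eq g]
  refine integral_congr_ae (Filter.Eventually.of_forall fun u => ?_)
  simp only
  rw [← integral_smul_eq g]
  simp only [ch_smul]

theorem bk_congr (κ : (Fin 3 → ℝ) → E) {x y x' y' : H3} (h : ch x y = ch x' y') :
    bk κ x y = bk κ x' y' := by
  obtain ⟨g, h1, h2⟩ := exists_smul_eq₂ h
  rw [← h1, ← h2, bk_smul]

theorem ch_base_horo (c : ℝ) (hc : 1 ≤ c) :
    ch base ⟨(√(2 * (c - 1)) : ℝ), 1, one_pos⟩ = c := by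
  have h : √(2 * (c - 1)) ^ 2 = 2 * (c - 1) := Real.sq_sqrt (by linarith)
  simp only [ch, base_z, base_y, zero_sub, Complex.normSq_neg, Complex.normSq_ofReal]
  rw [← sq, h]
  ring

/-- **Radiality.** -/
theorem bk_eq_bkr (κ : (Fin 3 → ℝ) → E) (x y : H3) : bk κ x y = bkr κ (ch x y) :=
  bk_congr κ (ch_base_horo _ (one_le_ch x y)).symm

theorem bkr_eq_of_ch {κ : (Fin 3 → ℝ) → E} {x y : H3} {c : ℝ} (h : ch x y = c) :
    bkr κ c = bk κ x y := by
  rw [bk_eq_bkr, h]

theorem bkr_of_le_one (κ : (Fin 3 → ℝ) → E) {c : ℝ} (hc : c ≤ 1) : bkr κ c = bkr κ 1 := by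
  have h : √(2 * (c - 1)) = √(2 * (1 - 1)) := by
    rw [Real.sqrt_eq_zero_of_nonpos (by linarith)]
    simp
  simp only [bkr, h]

theorem bkr_max (κ : (Fin 3 → ℝ) → E) (c : ℝ) : bkr κ (max c 1) = bkr κ c := by
  rcases le_total c 1 with h | h
  · rw [max_eq_right h, bkr_of_le_one κ h]
  · rw [max_eq_left h]

/-- **Matching at infinity**, no hypothesis on the kernel. -/
theorem bk_cyclic (κ : (Fin 3 → ℝ) → E) (g₁ g₂ g₃ : GL (Fin 2) ℂ) (x₁ : H3) :
    ∫ x₂ : H3, ∫ x₃ : H3, κ ![ch x₁ (g₁ • x₂), ch x₂ (g₂ • x₃), ch x₃ (g₃ • x₁)] =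
      bk κ x₁ ((g₁ * g₂ * g₃) • x₁) := by
  unfold bk
  rw [← integral_smul_eq g₁ (fun u => ∫ v : H3, κ ![ch x₁ u, ch u v,
    ch v ((g₁ * g₂ * g₃) • x₁)])]
  refine integral_congr_ae (Filter.Eventually.of_forall fun x₂ => ?_)
  simp only
  rw [← integral_smul_eq (g₁ * g₂) (fun v => κ ![ch x₁ (g₁ • x₂), ch (g₁ • x₂) v,
    ch v ((g₁ * g₂ * g₃) • x₁)])]
  refine integral_congr_ae (Filter.Eventually.of_forall fun x₃ => ?_)
  simp only
  rw [mul_smul (g₁ * g₂) g₃, ch_smul, mul_smul g₁ g₂, ch_smul]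

/-! ### triangle inequality -/

/-- multiplicative triangle inequality for `ch = cosh d` -/
theorem ch_le_two_mul (x u y : H3) : ch x y ≤ 2 * ch x u * ch u y := by
  obtain ⟨g, hg⟩ := exists_smul_eq u base
  rw [← ch_smul g x y, ← ch_smul g x u, ← ch_smul g u y, hg]
  generalize g • x = a
  generalize g • y = b
  have ha := a.pos
  have hb := b.pos
  have h1 : ch a base = (Complex.normSq a.z + a.y ^ 2 + 1) / (2 * a.y) := by
    simp [ch]
  have h2 : ch base b = (Complex.normSq b.z + 1 + b.y ^ 2) / (2 * b.y) := by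
    simp [ch]
  have h3 : Complex.normSq (a.z - b.z) ≤ Complex.normSq a.z + Complex.normSq b.z + 1 +
      Complex.normSq a.z * Complex.normSq b.z := by
    rw [Complex.normSq_sub, ← Complex.normSq_conj b.z, ← Complex.normSq_mul]
    rw [Complex.normSq_conj]
    have h4 := Complex.normSq_apply (a.z * (starRingEnd ℂ) b.z)
    nlinarith [sq_nonneg ((a.z * (starRingEnd ℂ) b.z).re + 1),
      sq_nonneg ((a.z * (starRingEnd ℂ) b.z).im)]
  rw [h1, h2, ch]
  rw [show 2 * ((Complex.normSq a.z + a.y ^ 2 + 1) / (2 * a.y)) *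
      ((Complex.normSq b.z + 1 + b.y ^ 2) / (2 * b.y)) =
      (Complex.normSq a.z + a.y ^ 2 + 1) * (Complex.normSq b.z + 1 + b.y ^ 2) /
        (2 * a.y * b.y) by field_simp]
  refine div_le_div_of_nonneg_right ?_ (by positivity)
  have h5 := Complex.normSq_nonneg a.z
  have h6 := Complex.normSq_nonneg b.z
  nlinarith [mul_nonneg h5 (sq_nonneg b.y), mul_nonneg h6 (sq_nonneg a.y),
    mul_nonneg (sq_nonneg a.y) (sq_nonneg b.y)]

/-- `κ` vanishes as soon as one of the arguments is `> T` -/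
def SuppLe (T : ℝ) {J : Type*} (κ : (J → ℝ) → E) : Prop := ∀ t, (∃ j, T < t j) → κ t = 0

theorem bk_eq_zero {T : ℝ} {κ : (Fin 3 → ℝ) → E} (hT : SuppLe T κ) {x y : H3}
    (h : 4 * T ^ 3 < ch x y) : bk κ x y = 0 := by
  unfold bk
  rw [← integral_zero H3 E]
  refine integral_congr_ae (Filter.Eventually.of_forall fun u => ?_)
  simp only
  rw [← integral_zero H3 E]
  refine integral_congr_ae (Filter.Eventually.of_forall fun v => ?_)
  simp only
  by_contra hne
  have h1 : ch x u ≤ T := by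
    by_contra h0
    exact hne (hT _ ⟨0, by simpa using h0⟩)
  have h2 : ch u v ≤ T := by
    by_contra h0
    exact hne (hT _ ⟨1, by simpa using h0⟩)
  have h3 : ch v y ≤ T := by
    by_contra h0
    exact hne (hT _ ⟨2, by simpa using h0⟩)
  have a1 := one_le_ch x u
  have a2 := one_le_ch u v
  have a3 := one_le_ch v y
  have a4 := one_le_ch u y
  have b1 := ch_le_two_mul x u y
  have b2 := ch_le_two_mul u v y
  have hT0 : 1 ≤ T := a1.trans h1
  have b3 : ch u y ≤ 2 * T * T := b2.trans (by gcongr)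
  have b4 : ch x y ≤ 2 * T * (2 * T * T) := b1.trans (by gcongr)
  nlinarith

theorem bkr_eq_zero {T : ℝ} {κ : (Fin 3 → ℝ) → E} (hT : SuppLe T κ) (hT1 : 1 ≤ T) {c : ℝ}
    (h : 4 * T ^ 3 < c) : bkr κ c = 0 := by
  have hc : 1 ≤ c := by nlinarith [one_le_pow₀ hT1 (n := 3)]
  rw [bkr_eq_of_ch (ch_base_horo c hc)]
  exact bk_eq_zero hT (by rw [ch_base_horo c hc]; exact h)

end Fermat.Agent.H67M
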