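import Fermat.Agent.H74C3c
import Fermat.Agent.H67M1
import Fermat.Agent.H56ZRad4
import Fermat.Agent.H22ZFEe

/-!
# S47, block (C), (m8): extraction of the archimedean eigenvalues (helper44)

* `bkr_cube` : for `κ = k ⊗ k ⊗ k` the matched kernel `bkr κ` is `k * k * k`;
* `Rk_cube` : `R(bkr κ) F = R(k) (R(k) (R(k) F))`;
* `hatv_cube` : `hatv κ = (hatv k) ^ 3`;
* `hat_of_cube` : a function on `(Fin 1 → H3) × Y` on which all `R(bkr κ)` act by `hatv κ` and all
  real `R(k)` act by real scalars is an eigenfunction of `R(k)` with eigenvalue `hatv k`, hence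
  smooth with `Δ F = -F`.
-/

set_option autoImplicit false
set_option linter.unusedSectionVars false

noncomputable section

open MeasureTheory Set Function Matrix
open scoped ContDiff

namespace Fermat.Agent.H44Z

open Fermat.Agent Fermat.Agent.H3
open Fermat.Agent.H5Z (chv Rk Bl)
open Fermat.Agent.H56Z (IsRC conv conv_apply IsLB Rk_conv)
open Fermat.Agent.H67M (bk bkr bk_eq_bkr)
open Fermat.Agent.H74.C3 (hatv hatv_def prodY backward_real UpJ ptv Lap LocInt locInt_of_bounded)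

/-- A kernel in one variable as a kernel on `Fin 1 → H3`. -/
def up1 (k : ℝ → ℂ) : (Fin 1 → ℝ) → ℂ := fun u => k (u 0)

/-- The pure tensor `k ⊗ k ⊗ k`. -/
def cube (k : ℝ → ℂ) : (Fin 3 → ℝ) → ℂ := fun u => k (u 0) * k (u 1) * k (u 2)

/-- The identification `(Fin 1 → H3) ≃ H3` preserves the measure. -/
theorem integral_fin1 {E : Type*} [NormedAddCommGroup E] [NormedSpace ℝ E] (f : (Fin 1 → H3) → E) :
    ∫ v : Fin 1 → H3, f v = ∫ w : H3, f fun _ => w := by
  have h := (volume_preserving_funUnique (Fin 1) H3).symm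
  have h2 := h.integral_comp' (g := f)
  exact h2.symm

/-- `bkr (k ⊗ k ⊗ k) = k * k * k`. -/
theorem bkr_cube (k : ℝ → ℂ) (w w' : Fin 1 → H3) :
    up1 (bkr (cube k)) (chv w w') = conv (up1 k) (conv (up1 k) (up1 k)) (chv w w') := by
  rw [conv_apply, integral_fin1]
  change bkr (cube k) (ch (w 0) (w' 0)) = _
  rw [← bk_eq_bkr, bk]
  refine integral_congr_ae (Filter.Eventually.of_forall fun u => ?_)
  simp only
  rw [conv_apply, integral_fin1, ← integral_const_mul]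
  refine integral_congr_ae (Filter.Eventually.of_forall fun v => ?_)
  simp only [cube, up1, chv, Matrix.cons_val_zero, Matrix.cons_val_one, Matrix.cons_val_two,
    Matrix.head_cons, Matrix.tail_cons]
  ring

/-- `R(bkr (k ⊗ k ⊗ k)) F = R(k) R(k) R(k) F`. -/
theorem Rk_cube {k : ℝ → ℂ} (hk : IsRC (up1 k)) {F : (Fin 1 → H3) → ℂ} (hF : IsLB F) :
    Rk (up1 (bkr (cube k))) F = Rk (up1 k) (Rk (up1 k) (Rk (up1 k) F)) := by
  have h1 : Rk (up1 (bkr (cube k))) F = Rk (conv (up1 k) (conv (up1 k) (up1 k))) F := by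
    funext x
    unfold Rk
    refine integral_congr_ae (Filter.Eventually.of_forall fun w => ?_)
    simp only
    rw [bkr_cube]
  rw [h1, Rk_conv hk (hk.conv hk) hF, Rk_conv hk hk hF]

theorem hatv_up1 (k : ℝ → ℂ) : hatv (up1 k) = ∫ w : H3, k (ch base w) * (w.y : ℂ) := by
  rw [hatv_def, integral_fin1]
  refine integral_congr_ae (Filter.Eventually.of_forall fun u => ?_)
  simp [up1]

/-- `hatv (k ⊗ k ⊗ k) = (hatv k) ^ 3`. -/
theorem hatv_cube (k : ℝ → ℂ) : hatv (cube k) = hatv (up1 k) ^ 3 := by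
  rw [hatv_up1, hatv_def]
  have h := integral_fintype_prod_volume_eq_pow (ι := Fin 3) (E := H3)
    (fun w : H3 => k (ch base w) * (w.y : ℂ))
  rw [Fintype.card_fin] at h
  rw [← h]
  refine integral_congr_ae (Filter.Eventually.of_forall fun x => ?_)
  simp only [cube, Fin.prod_univ_three]
  ring

theorem IsRC_cube {k : ℝ → ℂ} (hk : IsRC (up1 k)) : IsRC (cube k) := by
  have hc : Continuous k := hk.cont.comp (continuous_pi fun _ : Fin 1 => continuous_id)
  obtain ⟨R, M, hR1, hM0, hM, hR⟩ := hk.exists_bounds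
  have hM' : ∀ t, ‖k t‖ ≤ M := fun t => hM fun _ => t
  have hR' : ∀ t, R < t → k t = 0 := fun t ht => hR (fun _ => t) ⟨0, ht⟩
  refine ⟨?_, ⟨M * M * M, fun u => ?_⟩, ⟨R, ?_⟩⟩
  · exact ((hc.comp (continuous_apply 0)).mul (hc.comp (continuous_apply 1))).mul
      (hc.comp (continuous_apply 2))
  · rw [cube, norm_mul, norm_mul]
    exact mul_le_mul (mul_le_mul (hM' _) (hM' _) (norm_nonneg _) hM0) (hM' _) (norm_nonneg _)
      (by positivity)
  · rintro u ⟨j, hj⟩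
    rw [cube]
    have h3 : j = 0 ∨ j = 1 ∨ j = 2 := by fin_cases j <;> simp
    rcases h3 with h | h | h <;> subst h <;> rw [hR' _ hj] <;> ring

theorem hatv_real {J : Type*} [Fintype J] (κ : (J → ℝ) → ℝ) :
    ∃ r : ℝ, hatv (fun u : J → ℝ => (κ u : ℂ)) = r := by
  refine ⟨∫ x : J → H3, κ (fun j => ch base (x j)) * ∏ j, (x j).y, ?_⟩
  rw [hatv_def, ← integral_complex_ofReal]
  refine integral_congr_ae (Filter.Eventually.of_forall fun x => ?_)
  simp only
  push_cast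
  rfl

theorem IsLB.const_mul {J : Type*} [Fintype J] {F : (J → H3) → ℂ} (hF : IsLB F) (c : ℂ) :
    IsLB fun x => c * F x :=
  ⟨hF.meas.const_mul c, fun R x => by
    obtain ⟨G, hG0, hG⟩ := hF.bdd R x
    refine ⟨‖c‖ * G, by positivity, fun w hw => ?_⟩
    rw [norm_mul]
    exact mul_le_mul_of_nonneg_left (hG w hw) (norm_nonneg _)⟩

theorem Rk_const_mul' {J : Type*} [Fintype J] (κ : (J → ℝ) → ℂ) (c : ℂ) (F : (J → H3) → ℂ) :
    Rk κ (fun x => c * F x) = fun x => c * Rk κ F x := by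
  funext x
  unfold Rk
  rw [← integral_const_mul]
  refine integral_congr_ae (Filter.Eventually.of_forall fun w => ?_)
  simp only
  ring

/-- **(m8), archimedean part.** `Ψ` on `(Fin 1 → H3) × Y`; all real kernels `k` act by real
scalars, all matched kernels `bkr κ` by `hatv κ`: then `R(k) Ψ = hatv k • Ψ` for all real `k`. -/
theorem hat_of_cube {Y : Type*} {Ψ : (Fin 1 → H3) → Y → ℂ} (hΨ : ∀ y, IsLB fun x => Ψ x y)
    (hne : ∃ x y, Ψ x y ≠ 0)
    (hlam : ∀ k : ℝ → ℝ, IsRC (up1 fun t => (k t : ℂ)) → ∃ lam : ℝ, ∀ y x,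
      Rk (up1 fun t => (k t : ℂ)) (fun x => Ψ x y) x = lam * Ψ x y)
    (h3 : ∀ κ : (Fin 3 → ℝ) → ℝ, IsRC (fun u => (κ u : ℂ)) → ∀ y x,
      Rk (up1 (bkr fun u => (κ u : ℂ))) (fun x => Ψ x y) x =
        hatv (fun u : Fin 3 → ℝ => (κ u : ℂ)) * Ψ x y)
    (k : ℝ → ℝ) (hk : IsRC (up1 fun t => (k t : ℂ))) (y : Y) (x : Fin 1 → H3) :
    Rk (up1 fun t => (k t : ℂ)) (fun x => Ψ x y) x =
      hatv (up1 fun t => (k t : ℂ)) * Ψ x y := by
  obtain ⟨lam, hl⟩ := hlam k hk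
  obtain ⟨r, hr⟩ := hatv_real (J := Fin 1) fun u => k (u 0)
  have hr' : hatv (up1 fun t => (k t : ℂ)) = r := hr
  -- compute `R(k * k * k)` in two ways
  have hcube : (cube fun t => (k t : ℂ)) = fun u : Fin 3 → ℝ =>
      (((k (u 0) * k (u 1) * k (u 2) : ℝ)) : ℂ) := by
    funext u
    simp [cube]
  have hl' : ∀ y, Rk (up1 fun t => (k t : ℂ)) (fun x => Ψ x y) = fun x => (lam : ℂ) * Ψ x y :=
    fun y => funext (hl y)
  have key : ∀ y x, (lam : ℂ) ^ 3 * Ψ x y = (r : ℂ) ^ 3 * Ψ x y := by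
    intro y x
    have h4 := h3 (fun u => k (u 0) * k (u 1) * k (u 2)) (by
      have := IsRC_cube hk
      rwa [hcube] at this) y x
    rw [← hcube, hatv_cube, hr', congrFun (Rk_cube hk (hΨ y)) x, hl', Rk_const_mul', hl'] at h4
    simp only at h4
    rw [Rk_const_mul'] at h4
    simp only at h4
    rw [Rk_const_mul', hl'] at h4
    rw [← h4]
    ring
  obtain ⟨x0, y0, h0⟩ := hne
  have h5 : (lam : ℂ) ^ 3 = (r : ℂ) ^ 3 := mul_right_cancel₀ h0 (key y0 x0)
  have h6 : lam ^ 3 = r ^ 3 := by exact_mod_cast h5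
  have h7 : lam = r := (Odd.strictMono_pow (by decide : Odd 3)).injective h6
  rw [hl, hr', h7]

/-- Only the values of a kernel on `[1, ∞)` matter. -/
theorem Rk_max (k : ℝ → ℝ) (F : (Fin 1 → H3) → ℂ) (x : Fin 1 → H3) :
    Rk (up1 fun t => (k (max t 1) : ℂ)) F x = Rk (up1 fun t => (k t : ℂ)) F x := by
  unfold Rk
  refine integral_congr_ae (Filter.Eventually.of_forall fun w => ?_)
  simp only [up1, chv]
  rw [max_eq_left (one_le_ch _ _)]

theorem hatv_max (k : ℝ → ℝ) :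
    hatv (up1 fun t => (k (max t 1) : ℂ)) = hatv (up1 fun t => (k t : ℂ)) := Rk_max _ _ _

/-- A continuous kernel vanishing beyond `R`, extended constantly below `1`, is in the class. -/
theorem isRC_max {k : ℝ → ℝ} (hc : Continuous k) {R : ℝ} (hR : ∀ u, R < u → k u = 0) :
    IsRC (up1 fun t => (k (max t 1) : ℂ)) := by
  obtain ⟨M, hM⟩ := (isCompact_Icc (a := (1 : ℝ)) (b := max R 1)).exists_bound_of_continuousOn
    hc.continuousOn
  refine ⟨?_, ⟨max M 0, fun u => ?_⟩, ⟨R, ?_⟩⟩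
  · exact Complex.continuous_ofReal.comp
      (hc.comp ((continuous_apply (0 : Fin 1)).max continuous_const))
  · rw [up1, Complex.norm_real]
    by_cases h : max (u 0) 1 ≤ max R 1
    · exact (hM _ ⟨le_max_right _ _, h⟩).trans (le_max_left _ _)
    · rw [hR _ (lt_of_le_of_lt (le_max_left _ _) (not_le.1 h)), norm_zero]
      exact le_max_right _ _
  · rintro u ⟨j, hj⟩
    obtain rfl : j = 0 := Subsingleton.elim _ _
    rw [up1, hR _ (hj.trans_le (le_max_left _ _)), Complex.ofReal_zero]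

/-- **(m8), smoothness and the Laplace equation.** -/
theorem smooth_of_cube {Y : Type*} {Ψ : (Fin 1 → H3) → Y → ℂ}
    (hm : ∀ y, Measurable fun x => Ψ x y) {C : ℝ} (hb : ∀ x y, ‖Ψ x y‖ ≤ C)
    (hne : ∃ x y, Ψ x y ≠ 0)
    (hlam : ∀ k : ℝ → ℝ, IsRC (up1 fun t => (k t : ℂ)) → ∃ lam : ℝ, ∀ y x,
      Rk (up1 fun t => (k t : ℂ)) (fun x => Ψ x y) x = lam * Ψ x y)
    (h3 : ∀ κ : (Fin 3 → ℝ) → ℝ, IsRC (fun u => (κ u : ℂ)) → ∀ y x,
      Rk (up1 (bkr fun u => (κ u : ℂ))) (fun x => Ψ x y) x =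
        hatv (fun u : Fin 3 → ℝ => (κ u : ℂ)) * Ψ x y) (y : Y) :
    ContDiffOn ℝ ∞ (fun p => Ψ (ptv p) y) (UpJ (Fin 1)) ∧
      ∀ (j : Fin 1) (w : Fin 1 → H3), Lap (fun v => Ψ (update w j v) y) (w j) = -Ψ w y := by
  refine backward_real (F := fun x => Ψ x y)
    (locInt_of_bounded (hm y).aestronglyMeasurable fun w => hb w y) fun κs hs hR w => ?_
  obtain ⟨R, hR⟩ := hR 0
  have hk := isRC_max (hs 0).continuous hR
  have h1 := hat_of_cube (fun y => IsLB.of_bounded (hm y).aestronglyMeasurable fun w => hb w y)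
    hne hlam h3 (fun t => κs 0 (max t 1)) hk y w
  have h2 : (fun u : Fin 1 → ℝ => ((∏ j, κs j (u j) : ℝ) : ℂ)) =
      up1 fun t => (κs 0 t : ℂ) := by
    funext u
    simp [up1]
  rw [h2]
  rw [hatv_max, Rk_max] at h1
  exact h1

/-- The same as the structure `IsEigH` consumed by the Fourier expansion. -/
theorem isEigH_of_cube {Y : Type*} {Ψ : (Fin 1 → H3) → Y → ℂ}
    (hm : ∀ y, Measurable fun x => Ψ x y) {C : ℝ} (hb : ∀ x y, ‖Ψ x y‖ ≤ C)
    (hne : ∃ x y, Ψ x y ≠ 0)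
    (hlam : ∀ k : ℝ → ℝ, IsRC (up1 fun t => (k t : ℂ)) → ∃ lam : ℝ, ∀ y x,
      Rk (up1 fun t => (k t : ℂ)) (fun x => Ψ x y) x = lam * Ψ x y)
    (h3 : ∀ κ : (Fin 3 → ℝ) → ℝ, IsRC (fun u => (κ u : ℂ)) → ∀ y x,
      Rk (up1 (bkr fun u => (κ u : ℂ))) (fun x => Ψ x y) x =
        hatv (fun u : Fin 3 → ℝ => (κ u : ℂ)) * Ψ x y) (y : Y) :
    H22Z.IsEigH (fun x => Ψ x y) C := by
  obtain ⟨h1, h2⟩ := smooth_of_cube hm hb hne hlam h3 y
  refine ⟨h1.of_le ?_, h2, fun w => hb w y⟩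
  exact WithTop.coe_le_coe.mpr (le_top (a := (2 : ℕ∞)))

end Fermat.Agent.H44Z
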