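import Fermat.Agent.H79SDef
import Fermat.Agent.H17S3
import Fermat.Agent.H7ZForm
import Fermat.Agent.H51ZIwEq
import Fermat.Agent.H44ZExt1

/-!
# S47, block (C): from operator equations to `IsMForm` (helper44)

* `rad_of_cube`, `cont_of_cube` : the archimedean fields of `IsMForm`;
* `lop_of_mono`, `lop_U_of_mono`, `lop_e_of_mono` : from the monomial kernels to local kernels;
* `heckeX_of_ops`, `uX_of_ops`, `typ_of_ops` : the finite fields;
* `isMForm_of_ops` : all together.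
-/

set_option autoImplicit false
set_option linter.unusedSectionVars false
set_option linter.unusedVariables false

noncomputable section

open IsDedekindDomain HeightOneSpectrum WithZero NumberField Matrix MeasureTheory
open scoped MatrixGroups Classical

namespace Fermat.Agent.H44Z

open Fermat.Agent.H59XF Fermat.Agent.H51Z Fermat.Agent.H59D Fermat.Agent.H76U Fermat.Agent.H79S
open Fermat.Agent.H17S (RI gX gX_eq_gop gX_gmul)
open Fermat.Agent.H56Z (IsRC)
open Fermat.Agent.H67M (bkr)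

section Loc

variable {G : Type*} [Group G] {ι : Type*} {L : LevelFam G ι} (D : HData L)

theorem lker_ext {H : Subgroup G} {κ κ' : LocKer H}
    (h : ∀ g g' : G, κ.k (g : G ⧸ H) (g' : G ⧸ H) = κ'.k (g : G ⧸ H) (g' : G ⧸ H)) : κ = κ' := by
  ext x y
  induction x using QuotientGroup.induction_on with
  | H x =>
    induction y using QuotientGroup.induction_on with
    | H y => exact h x y

/-- A local kernel with the values of an indicator is the indicator kernel. -/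
theorem eq_lind_of_isInd {H : Subgroup G} {κ : LocKer H} {S : Set G} (h : IsInd κ S)
    (hDC : DC H S) : κ = lind S hDC := by
  refine lker_ext fun g g' => ?_
  rw [lind_k]
  by_cases hm : g⁻¹ * g' ∈ S
  · rw [if_pos hm, (h g g').1 hm]
  · rw [if_neg hm, (h g g').2 hm]

theorem mono_single (i : ι) (hi : i ∉ D.S) (h0 : i ≠ D.w0) :
    D.mono (Finsupp.single i 1) 0 = gmul (single i (D.T i)) (D.mono 0 0) := by
  apply gext
  intro j
  rw [gmul_loc, HData.mono_loc, HData.mono_loc]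
  by_cases h : j = i
  · subst h
    rw [single_same, D.loc_good hi h0, D.loc_good hi h0, Finsupp.single_eq_same, lpow_one,
      Finsupp.coe_zero, Pi.zero_apply, lpow_zero, lmul_one]
  · rw [single_ne h, one_lmul]
    unfold HData.loc
    rw [Finsupp.single_eq_of_ne h]
    rfl

theorem mono_one :
    D.mono 0 1 = gmul (single D.w0 (D.U D.w0)) (D.mono 0 0) := by
  apply gext
  intro j
  rw [gmul_loc, HData.mono_loc, HData.mono_loc]
  by_cases h : j = D.w0
  · subst h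
    rw [single_same, D.loc_w0, D.loc_w0, lpow_one, lpow_zero, lmul_one]
  · rw [single_ne h, one_lmul]
    unfold HData.loc
    rw [if_neg h, if_neg h]

theorem single_e_mul (i : ι) (hi : i ∈ D.S) :
    gmul (single i (D.e i)) (D.mono 0 0) = D.mono 0 0 := by
  apply gext
  intro j
  rw [gmul_loc, HData.mono_loc]
  by_cases h : j = i
  · subst h
    rw [single_same, D.loc_S hi, D.e_mul _ hi]
  · rw [single_ne h, one_lmul]

variable {A : Type*} [AddCommGroup A] [Module ℂ A]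

theorem lop_of_mono {f : XF L → A} (he : gop (D.mono 0 0) f = f) {i : ι} (hi : i ∉ D.S)
    (h0 : i ≠ D.w0) {c : ℂ} (h : gop (D.mono (Finsupp.single i 1) 0) f = c • f) :
    lop i (D.T i) f = c • f := by
  rw [mono_single D i hi h0, gop_gmul, he, gop_single] at h
  exact h

theorem lop_U_of_mono {f : XF L → A} (he : gop (D.mono 0 0) f = f)
    {c : ℂ} (h : gop (D.mono 0 1) f = c • f) : lop D.w0 (D.U D.w0) f = c • f := by
  rw [mono_one D, gop_gmul, he, gop_single] at h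
  exact h

theorem lop_e_of_mono {f : XF L → A} (he : gop (D.mono 0 0) f = f) {i : ι} (hi : i ∈ D.S) :
    lop i (D.e i) f = f := by
  have h1 : gop (gmul (single i (D.e i)) (D.mono 0 0)) f = lop i (D.e i) f := by
    rw [gop_gmul, he, gop_single]
  rw [← h1, single_e_mul D i hi, he]

/-- Functions fixed by the idempotent of a type are typed. -/
theorem typed_of_lop {i : ι} {κ : LocKer (L.U i)} {H : Subgroup G} {χ : G → ℂ}
    (hκ : IsTyp κ H χ) (hχ : ∀ g ∈ H, ∀ h ∈ H, χ (g * h) = χ g * χ h)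
    (hχ0 : ∀ g ∈ H, χ g ≠ 0) {f : XF L → ℂ} (hf : lop i κ f = f) {h : G} (hh : h ∈ H)
    (y : XF L) (g : G) :
    f (XF.upd y i ((g * h : G) : G ⧸ L.U i)) = χ h * f (XF.upd y i ((g : G) : G ⧸ L.U i)) := by
  have key : ∀ z : G ⧸ L.U i, κ.k ((g * h : G) : G ⧸ L.U i) z =
      χ h * κ.k ((g : G) : G ⧸ L.U i) z := by
    intro z
    induction z using QuotientGroup.induction_on with
    | H z =>
      have e : (g * h)⁻¹ * z = h⁻¹ * (g⁻¹ * z) := by group
      by_cases hm : g⁻¹ * z ∈ H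
      · rw [(hκ (g * h) z).1 (by rw [e]; exact H.mul_mem (H.inv_mem hh) hm), (hκ g z).1 hm, e]
        have h1 : χ (g⁻¹ * z) = χ h * χ (h⁻¹ * (g⁻¹ * z)) := by
          rw [← hχ h hh _ (H.mul_mem (H.inv_mem hh) hm)]
          congr 1
          group
        have h2 := hχ0 _ (H.mul_mem (H.inv_mem hh) hm)
        have h3 := hχ0 h hh
        rw [h1, mul_inv]
        field_simp
      · rw [(hκ (g * h) z).2 (by
          rw [e]
          intro hcon
          apply hm
          have := H.mul_mem hh hcon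
          rwa [← mul_assoc, mul_inv_cancel, one_mul] at this), (hκ g z).2 hm, mul_zero]
  have h1 := congrFun hf (XF.upd y i ((g * h : G) : G ⧸ L.U i))
  have h2 := congrFun hf (XF.upd y i ((g : G) : G ⧸ L.U i))
  set s : Finset (G ⧸ L.U i) := ls κ ((g : G) : G ⧸ L.U i) with hs
  rw [← h1, ← h2]
  rw [lop_eq_sum i κ f _ (s := s) (by
      intro z hz
      rw [XF.upd_same, key] at hz
      rw [hs, mem_ls]
      exact right_ne_zero_of_mul hz),
    lop_eq_sum i κ f _ (s := s) (by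
      intro z hz
      rw [XF.upd_same] at hz
      rw [hs, mem_ls]
      exact hz), Finset.mul_sum]
  refine Finset.sum_congr rfl fun z _ => ?_
  rw [XF.upd_same, XF.upd_same, XF.upd_upd, XF.upd_upd, key, smul_eq_mul, smul_eq_mul, mul_assoc]

end Loc

section Form

variable {K : Type*} [Field K] [NumberField K] {J : Type*} [Fintype J] {m : Model K J}
  {S : Finset (HeightOneSpectrum (𝓞 K))} {w0 : HeightOneSpectrum (𝓞 K)}
  {T : HeightOneSpectrum (𝓞 K) → TD K} (kd : KerData m S w0 T) {Ψ : m.X → ℂ}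

/-- The slices of an eigenfunction of `gX`. -/
theorem gop_of_gX {a : GlobKer m.L.fam} {c : ℂ} (h : gX a Ψ = c • Ψ) (τ : J → H3) :
    gop a (fun y => Ψ (τ, y)) = c • fun y => Ψ (τ, y) := by
  funext y
  exact congrFun h (τ, y)

theorem gop_eq_of_gX {a : GlobKer m.L.fam} (h : gX a Ψ = Ψ) (τ : J → H3) :
    gop a (fun y => Ψ (τ, y)) = fun y => Ψ (τ, y) := by
  funext y
  exact congrFun h (τ, y)

/-- The field `hecke` of `IsMForm` at one place. -/
theorem heckeX_of_ops (he : gX (kd.D.mono 0 0) Ψ = Ψ) {w : HeightOneSpectrum (𝓞 K)}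
    (hw : w ∉ S) (h0 : w ≠ w0) {c : ℂ} (h : gX (kd.D.mono (Finsupp.single w 1) 0) Ψ = c • Ψ)
    {ϖ : Kˣ} (hϖ : w.valuation K (ϖ : K) = exp (-(1 : ℤ))) {R : Finset K}
    (hR : IsReps (w.valuation K) 1 R) : H7.Z.HeckeX m Ψ w ϖ R c := by
  intro τ
  have hL : m.L.fam.U w = H51Z.U0 (w.valuation K) := by
    rw [Level.fam_U, kd.lev_good w hw h0, U0_eq]
  have hDC : DC (m.L.fam.U w) (cellT (w.valuation K)) := ((disc_nf w).dcT).of_eq hL
  have h1 : lop w (kd.D.T w) (fun y => Ψ (τ, y)) = c • fun y => Ψ (τ, y) :=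
    lop_of_mono kd.D (gop_eq_of_gX he τ) (by rw [kd.D_S]; exact hw) (by rw [kd.D_w0]; exact h0)
      (gop_of_gX h τ)
  rw [eq_lind_of_isInd (kd.T_ind w hw h0) hDC] at h1
  exact H7.Z.heckeEq_of_lop hDC hL h1 hϖ hR

/-- The field `U` of `IsMForm`. -/
theorem uX_of_ops (he : gX (kd.D.mono 0 0) Ψ = Ψ) {c : ℂ} (h : gX (kd.D.mono 0 1) Ψ = c • Ψ)
    {ϖ : Kˣ} (hϖ : w0.valuation K (ϖ : K) = exp (-(1 : ℤ))) {R : Finset K}
    (hR : IsReps (w0.valuation K) 1 R) : H7.Z.UX m Ψ w0 ϖ R c := by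
  intro τ
  have hL : m.L.fam.U w0 = H51Z.Iw (w0.valuation K) := by
    rw [Level.fam_U, kd.lev_w0, H51Z.Iw_eq]
  have h1 : lop kd.D.w0 (kd.D.U kd.D.w0) (fun y => Ψ (τ, y)) = c • fun y => Ψ (τ, y) :=
    lop_U_of_mono kd.D (gop_eq_of_gX he τ) (gop_of_gX h τ)
  rw [kd.D_w0] at h1
  have h2 : kd.D.U w0 = lcast hL (Uker (disc_nf w0) 1) := by
    refine lker_ext fun g g' => ?_
    rw [lcast_k, Uker_k]
    by_cases hm : g⁻¹ * g' ∈ cellU (w0.valuation K) (exp (-((1 : ℕ) : ℤ)))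
    · rw [if_pos hm, (kd.U_ind g g').1 (by simpa using hm)]
    · rw [if_neg hm, (kd.U_ind g g').2 (by simpa using hm)]
  rw [h2] at h1
  exact H7.Z.uEq_of_lop hL h1 hϖ hR

/-- The field `typ` of `IsMForm`. -/
theorem typ_of_ops (he : gX (kd.D.mono 0 0) Ψ = Ψ) {w : HeightOneSpectrum (𝓞 K)} (hw : w ∈ S)
    {h : PGL(2, K)} (hh : h ∈ (T w).H) (τ : J → H3) (y : XF m.L.fam) (g : PGL(2, K)) :
    Ψ (τ, XF.upd y w ((g * h : PGL(2, K)) : PGL(2, K) ⧸ m.L.fam.U w)) =
      (T w).chi h * Ψ (τ, XF.upd y w ((g : PGL(2, K)) : PGL(2, K) ⧸ m.L.fam.U w)) := by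
  have h1 : lop w (kd.D.e w) (fun y => Ψ (τ, y)) = fun y => Ψ (τ, y) :=
    lop_e_of_mono kd.D (gop_eq_of_gX he τ) (by rw [kd.D_S]; exact hw)
  have h2 := typed_of_lop (kd.e_typ w hw) (fun g hg h hh => (T w).chi_mul hg hh)
    (fun g hg => (T w).typ.chi_ne_zero hg) h1 hh y g
  exact h2

/-- **The output of block (C) from the operator equations.** -/
theorem isMForm_of_ops (a : HeightOneSpectrum (𝓞 K) → ℝ)
    (inv : ∀ (g : PGL(2, K)) (x : m.X), Ψ (g • x) = Ψ x) (bdd : ∃ M : ℝ, ∀ x, ‖Ψ x‖ ≤ M)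
    (cont : ∀ y : XF m.L.fam, Continuous fun τ : J → H3 => Ψ (τ, y))
    (rad : ∀ κ : (J → ℝ) → ℂ, H9Z.Ker κ → ∀ (y : XF m.L.fam) (τ : J → H3),
      H5Z.Rk κ (fun v => Ψ (v, y)) τ = H9Z.hat κ * Ψ (τ, y))
    (he : gX (kd.D.mono 0 0) Ψ = Ψ)
    (hT : ∀ w ∉ S, w ≠ w0 → gX (kd.D.mono (Finsupp.single w 1) 0) Ψ =
      ((Real.sqrt (Ideal.absNorm w.asIdeal) * a w : ℝ) : ℂ) • Ψ)
    {u : ℂ} (hu : u ≠ 0) (hU : gX (kd.D.mono 0 1) Ψ = u • Ψ) (ne : ∃ x, Ψ x ≠ 0) :
    IsMForm m S w0 T a Ψ where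
  inv := inv
  bdd := bdd
  cont := cont
  rad := rad
  hecke w hw h0 ϖ hϖ R hR := heckeX_of_ops kd he hw h0 (hT w hw h0) hϖ hR
  U := ⟨u, hu, fun ϖ hϖ R hR => uX_of_ops kd he hU hϖ hR⟩
  typ w hw h hh τ y g := typ_of_ops kd he hw hh τ y g
  ne := ne

end Form

section Arch

variable {K : Type*} [Field K] [NumberField K] {m : Model K (Fin 1)} {Ψ : m.X → ℂ}

/-- The archimedean fields of `IsMForm` on the side of `F`. -/
theorem arch_of_cube (hm : ∀ y, Measurable fun x : Fin 1 → H3 => Ψ (x, y)) {C : ℝ}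
    (hb : ∀ x, ‖Ψ x‖ ≤ C) (hne : ∃ x, Ψ x ≠ 0)
    (hlam : ∀ k : ℝ → ℝ, IsRC (up1 fun t => (k t : ℂ)) → ∃ lam : ℝ,
      RI (up1 fun t => (k t : ℂ)) Ψ = (lam : ℂ) • Ψ)
    (h3 : ∀ κ : (Fin 3 → ℝ) → ℝ, IsRC (fun u => (κ u : ℂ)) →
      RI (up1 (bkr fun u => (κ u : ℂ))) Ψ = H9Z.hat (fun u : Fin 3 → ℝ => (κ u : ℂ)) • Ψ) :
    (∀ y : XF m.L.fam, Continuous fun τ : Fin 1 → H3 => Ψ (τ, y)) ∧
      ∀ κ : (Fin 1 → ℝ) → ℂ, H9Z.Ker κ → ∀ (y : XF m.L.fam) (τ : Fin 1 → H3),
        H5Z.Rk κ (fun v => Ψ (v, y)) τ = H9Z.hat κ * Ψ (τ, y) := by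
  have key : ∀ y : XF m.L.fam, H9Z.IsEig fun x : Fin 1 → H3 => Ψ (x, y) := by
    intro y
    have h := isEigH_of_cube (Ψ := fun x y => Ψ (x, y)) hm (C := C) (fun x y => hb (x, y))
      (by obtain ⟨⟨x, y⟩, h⟩ := hne; exact ⟨x, y, h⟩)
      (fun k hk => by
        obtain ⟨lam, hl⟩ := hlam k hk
        exact ⟨lam, fun y x => congrFun hl (x, y)⟩)
      (fun κ hκ y x => congrFun (h3 κ hκ) (x, y)) y
    refine H9Z.isEig_of_lap h.smooth fun j w => ?_
    have e : ∀ v : H3, @Function.update (Fin 1) (fun _ => H3)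
        (fun a b => Classical.propDecidable (a = b)) w j v =
        @Function.update (Fin 1) (fun _ => H3) (instDecidableEqFin 1) w j v := fun v => by
      congr 1
      exact Subsingleton.elim _ _
    simp only [e]
    exact h.lap j w
  exact ⟨fun y => (key y).continuous, fun κ hκ y τ => (key y).2 κ hκ τ⟩

end Arch

end Fermat.Agent.H44Z
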