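import Fermat.Agent.H44ZMF
import Fermat.Agent.H79SOut
import Fermat.Agent.H79SFam
import Fermat.Agent.H21Z4
import Fermat.Agent.H89D1

/-!
# S47, block (C): the output of the comparison (helper44)

* `absNorm_eq_of_split` : norms of places above an unramified split place of a cubic extension;
* `out_of_eigen` : a joint eigenfunction on `X(F)` of the matched operators gives `COutE`.
-/

set_option autoImplicit false
set_option linter.unusedSectionVars false
set_option linter.unusedVariables false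

noncomputable section

open IsDedekindDomain HeightOneSpectrum WithZero NumberField Matrix MeasureTheory
open scoped MatrixGroups Classical

namespace Fermat.Agent.H44Z

open Fermat.Agent.H59XF Fermat.Agent.H51Z Fermat.Agent.H59D Fermat.Agent.H76U Fermat.Agent.H79S
open Fermat.Agent.H21Z (BInv gopB gopX rkX rkB gopB_coe rkB_coe)
open Fermat.Agent.H17S (RI gX)

open Fermat.Agent.H56Z (IsRC)
open Fermat.Agent.H67M (bkr bF)

section Norm

variable {F E : Type*} [Field F] [NumberField F] [Field E] [NumberField E] [Algebra F E]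

/-- Norms of places above an unramified split place of a cubic extension. -/
theorem absNorm_eq_of_split [IsGalois F E] (h3 : Module.finrank F E = 3)
    {v : HeightOneSpectrum (𝓞 F)} {w : HeightOneSpectrum (𝓞 E)} (hw : w ∈ H82.above E v)
    (hu : v.asIdeal.ramificationIdx' w.asIdeal = 1) (hs : ¬ H82.NonSplit E v) :
    Ideal.absNorm w.asIdeal = Ideal.absNorm v.asIdeal := by
  have h1 := H89D.ncard_above_mul_card_dec hw
  rw [h3] at h1
  have h2 : Nat.card (H89D.dec F w) = 1 := by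
    have h4 : (H82.above E v).ncard ∣ 3 := ⟨_, h1.symm⟩
    rcases (Nat.dvd_prime Nat.prime_three).1 h4 with h5 | h5
    · exact absurd h5 hs
    · rw [h5] at h1
      omega
  obtain ⟨φ, -, h4, h5⟩ := H89D.exists_frob hw hu
  rw [h4, Nat.card_zpowers, h5] at h2
  have : w.asIdeal.LiesOver v.asIdeal := ⟨hw.symm⟩
  have : v.asIdeal.IsPrime := v.isPrime
  have h6 := Ideal.absNorm_eq_pow_inertiaDeg'_of_liesOver w.asIdeal v.asIdeal v.isPrime v.ne_bot
  rw [h6, h2, pow_one]

end Norm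

variable {F E : Type} [Field F] [NumberField F] [Field E] [NumberField E] [Algebra F E]

/-- **The output of block (C).** A nonzero bounded invariant function on `X(F)` which is a joint
eigenfunction of the monomial kernels and of the archimedean kernels, with the eigenvalues of the
form on `E` for the matched kernels. -/
theorem out_of_eigen (C : CSetup F E) (a : HeightOneSpectrum (𝓞 E) → ℝ)
    {Ψ : BInv PGL(2, F) C.mF.X} (hΨ : Ψ ≠ 0)
    (he : gopB C.mF (C.kF.D.mono 0 0) Ψ = Ψ)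
    (hT : ∀ v ∉ C.SF, v ≠ C.v0 → ∃ μ : ℂ, μ.im = 0 ∧
      gopB C.mF (C.kF.D.mono (Finsupp.single v 1) 0) Ψ = μ • Ψ)
    (hsplit : ∀ w : HeightOneSpectrum (𝓞 E), C.Ok w →
      gopB C.mF (C.kF.D.mono (Finsupp.single (H47.below F w) 1) 0) Ψ = (evT a w : ℂ) • Ψ)
    {u : ℂ} (hu : u ≠ 0) (hU : gopB C.mF (C.kF.D.mono 0 1) Ψ = u • Ψ)
    (hk : ∀ (k : (Fin 1 → ℝ) → ℝ), IsRC (fun t => (k t : ℂ)) → ∃ lam : ℝ,
      rkX C.mF (fun t => (k t : ℂ)) (Ψ : C.mF.X → ℂ) = (lam : ℂ) • (Ψ : C.mF.X → ℂ))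
    (h3 : ∀ κ : (Fin 3 → ℝ) → ℝ, IsRC (fun t => (κ t : ℂ)) →
      rkX C.mF (bF fun t => (κ t : ℂ)) (Ψ : C.mF.X → ℂ) =
        H9Z.hat (fun t : Fin 3 → ℝ => (κ t : ℂ)) • (Ψ : C.mF.X → ℂ)) :
    ∃ mu : HeightOneSpectrum (𝓞 F) → ℝ,
      (∀ v ∉ C.SF, ¬ H82.NonSplit E v → ∀ w ∈ H82.above E v, mu v = a w) ∧
        COutE F (C.mF.e 0) C.SF C.v0 mu := by
  have := C.gal
  obtain ⟨B, hB⟩ := BInv.bounded Ψ
  have hne : ∃ x, (Ψ : C.mF.X → ℂ) x ≠ 0 := by
    by_contra h
    push Not at h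
    apply hΨ
    apply Subtype.ext
    funext x
    exact h x
  have harch := arch_of_cube (Ψ := (Ψ : C.mF.X → ℂ))
    (fun y => (C.mF.measurable_iff _).mp (BInv.measurable Ψ) y) hB hne
    (fun k hk' => hk (fun t => k (t 0)) hk') h3
  -- the eigenvalues
  have hex : ∀ v : HeightOneSpectrum (𝓞 F), ∃ r : ℝ, v ∉ C.SF → v ≠ C.v0 →
      gopB C.mF (C.kF.D.mono (Finsupp.single v 1) 0) Ψ = (r : ℂ) • Ψ := by
    intro v
    by_cases hv : v ∉ C.SF ∧ v ≠ C.v0
    · obtain ⟨μ, hμ, h⟩ := hT v hv.1 hv.2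
      refine ⟨μ.re, fun _ _ => ?_⟩
      rw [h]
      congr 1
      exact Complex.ext rfl (by simp [hμ])
    · exact ⟨0, fun h1 h2 => absurd ⟨h1, h2⟩ hv⟩
  choose r hr using hex
  have hN0 : ∀ v : HeightOneSpectrum (𝓞 F), Real.sqrt (Ideal.absNorm v.asIdeal) ≠ 0 := by
    intro v
    have h0 : Ideal.absNorm v.asIdeal ≠ 0 := by
      rw [Ne, Ideal.absNorm_eq_zero_iff]; exact v.ne_bot
    exact (Real.sqrt_pos.mpr (by exact_mod_cast Nat.pos_of_ne_zero h0)).ne'
  have hv0ns : H82.NonSplit E C.v0 := by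
    unfold H82.NonSplit
    rw [C.above_v0, Set.ncard_singleton]
  refine ⟨fun v => r v / Real.sqrt (Ideal.absNorm v.asIdeal), ?_, ?_⟩
  · intro v hv hs w hw
    have hv0 : v ≠ C.v0 := by
      rintro rfl
      exact hs hv0ns
    have hbel : H47.below F w = v := (H47.eq_below_of_mem_above hw).symm
    have hok : C.Ok w := by
      refine ⟨?_, ?_⟩
      · rw [C.mem_SE, hbel]; exact hv
      · rw [hbel]; exact hs
    have h1 := hsplit w hok
    rw [hbel, hr v hv hv0] at h1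
    obtain ⟨x, hx⟩ := hne
    have h2 : (r v : ℂ) * (Ψ : C.mF.X → ℂ) x = (evT a w : ℂ) * (Ψ : C.mF.X → ℂ) x :=
      congrFun (congrArg Subtype.val h1) x
    have h4 : (r v : ℂ) = (evT a w : ℂ) := mul_right_cancel₀ hx h2
    have h5 : r v = evT a w := by exact_mod_cast h4
    show r v / Real.sqrt (Ideal.absNorm v.asIdeal) = a w
    rw [h5, evT, absNorm_eq_of_split C.h3 hw (C.unr v hv w hw) hs,
      mul_div_cancel_left₀ _ (hN0 v)]
  · refine ⟨C.mF, C.TF, (Ψ : C.mF.X → ℂ), rfl, C.v0S, C.kF.lev_S, C.kF.lev_w0, C.kF.lev_good,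
      C.unramF, C.psiF, C.dualF, C.lowF, ?_⟩
    refine isMForm_of_ops C.kF _ (BInv.inv Ψ) ⟨B, hB⟩ harch.1 harch.2
      (congrArg Subtype.val he) ?_ hu (congrArg Subtype.val hU) hne
    intro v hv hv0
    have h1 : ((Real.sqrt (Ideal.absNorm v.asIdeal) *
        (r v / Real.sqrt (Ideal.absNorm v.asIdeal)) : ℝ) : ℂ) = (r v : ℂ) := by
      rw [mul_div_cancel₀ _ (hN0 v)]
    rw [h1]
    exact congrArg Subtype.val (hr v hv hv0)

end Fermat.Agent.H44Z
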