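import Fermat.Agent.H44ZOut3
import Fermat.Agent.H21Z7

/-!
# S47, block (C): the output of the comparison, part 4 (helper44)

* `out_of_opF` : `out_of_extract` for helper21's operator data `opF f cF` on the side of `F`.
-/

set_option autoImplicit false
set_option linter.unusedSectionVars false
set_option linter.unusedVariables false

noncomputable section

open IsDedekindDomain HeightOneSpectrum WithZero NumberField Matrix MeasureTheory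
open scoped MatrixGroups Classical ComplexConjugate

namespace Fermat.Agent.H44Z

open Fermat.Agent.H59XF Fermat.Agent.H51Z Fermat.Agent.H59D Fermat.Agent.H76U Fermat.Agent.H79S
open Fermat.Agent.H21Z Fermat.Agent.H42S
open Fermat.Agent.H32Z (CutOff BK)
open Fermat.Agent.H42T (JL Lab)
open Fermat.Agent.H56Z (IsRC)
open Fermat.Agent.H67M (bkr bF isRC_bF)

variable {F E : Type} [Field F] [NumberField F] [Field E] [NumberField E] [Algebra F E]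
  {C : CSetup F E} {a : HeightOneSpectrum (𝓞 E) → ℝ} (f : CFam C a)
  (cF : CutOff PGL(2, F) C.mF.X) [IsFiniteMeasure (cF.ν C.mF.μ)]

theorem opF_T : (opF f cF).T =
    (((Real.sqrt ((Ideal.absNorm C.v0.asIdeal : ℕ) : ℝ))⁻¹ : ℝ) : ℂ) •
      gopB C.mF (single C.v0 (C.kF.D.U C.v0)) :=
  opd_T (k := C.kF) cF _ _ _ _ _ _ _ _ _ _ _ _ _

theorem opF_T_comm (l : Lab C.kF.D) : Commute (opF f cF).T ((opF f cF).Y l) :=
  opd_T_comm (k := C.kF) cF _ _ _ _ _ _ _ _ _ _ _ _ _ l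

theorem sqrt_v0_ne : ((((Real.sqrt ((Ideal.absNorm C.v0.asIdeal : ℕ) : ℝ))⁻¹ : ℝ)) : ℂ) ≠ 0 := by
  have h0 : Ideal.absNorm C.v0.asIdeal ≠ 0 := by
    rw [Ne, Ideal.absNorm_eq_zero_iff]; exact C.v0.ne_bot
  have h1 : 0 < Real.sqrt ((Ideal.absNorm C.v0.asIdeal : ℕ) : ℝ) :=
    Real.sqrt_pos.mpr (by exact_mod_cast Nat.pos_of_ne_zero h0)
  exact_mod_cast inv_ne_zero h1.ne'

/-- **The end of the comparison**, for the operator data of helper21. -/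
theorem out_of_opF (S : SideC (JL C)) (κ' : ℂ)
    (TI : ∀ L : List (JL C), ∃ m₀ : ℕ, ∀ m ≥ m₀,
      S.tr L m = κ' * ((opF f cF).side (symF f)).tr L m)
    (p₀ : S.I) (ha : 0 < S.a p₀.1)
    (hpos : ∀ p : S.I, S.x p = S.x p₀ → S.z p = S.z p₀ →
      ∀ v ∈ blk (S.Y p.1) p.2.1, S.s p.1 v = v)
    (hz : 1 ≤ ‖S.z p₀‖)
    (hw : ∀ w : {w : HeightOneSpectrum (𝓞 E) // C.Ok w}, (S.x p₀ (Sum.inl w) : ℂ) = evT a w.1)
    (hk : ∀ κ : {κ : (Fin 3 → ℝ) → ℂ // IsRC κ ∧ ∀ t, conj (κ t) = κ t},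
      (S.x p₀ (Sum.inr κ) : ℂ) = H9Z.hat κ.1) :
    ∃ mu : HeightOneSpectrum (𝓞 F) → ℝ,
      (∀ v ∉ C.SF, ¬ H82.NonSplit E v → ∀ w ∈ H82.above E v, mu v = a w) ∧
        COutE F (C.mF.e 0) C.SF C.v0 mu := by
  let := f.fin
  refine out_of_extract C f.κ f.n cF (hK := bkF f) (hG := invF f) a f.rc S (opF f cF) (symF f)
    ?_ ?_ (opF_T_comm f cF) (sqrt_v0_ne (C := C)) (opF_T f cF) κ' TI p₀ ha hpos hz ?_ ?_
  · intro v hv h0
    exact ⟨Sum.inl (Sum.inl ⟨v, by rw [C.kF.D_S, C.kF.D_w0]; exact ⟨hv, h0⟩⟩), rfl⟩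
  · intro k hk'
    exact ⟨Sum.inl (Sum.inr ⟨fun t => (k t : ℂ), hk'⟩), rfl⟩
  · intro w hw'
    exact ⟨Sum.inl ⟨w, hw'⟩, rfl, by exact_mod_cast hw ⟨w, hw'⟩⟩
  · intro k hk'
    exact ⟨Sum.inr ⟨fun t => (k t : ℂ), hk', fun _ => Complex.conj_ofReal _⟩, rfl, hk _⟩

end Fermat.Agent.H44Z
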