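import Mathlib
import Fermat.Prelude.Def_FLTPrelim_FreyPackage
import Fermat.Prelude.Def_FLTPrelim_GaloisRep
import Fermat.Prelude.Def_FLTPrelim_Modularity
import Fermat.Prelude.Def_FLTPrelim_ModularRep
import Fermat.Prelude.Def_FLTPrelim_Ramification
import Fermat.Prelude.Def_FreyPackage_IsConductorLevel

set_option autoImplicit false
open WeierstrassCurve WeierstrassCurve.Affine WeierstrassCurve.Affine.Point
open CuspForm ModularFormClass UpperHalfPlane

namespace Fermat.Agent.H45

open FreyPackage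

/-- Statement shape of S43 for a fixed package: any odd prime `q ≠ p` of a conductor level at which the
representation is unramified can be removed. -/
def OddStep (P : FreyPackage) : Prop :=
  ∀ {N q : ℕ}, P.IsConductorLevel N → q.Prime → q ≠ 2 → q ≠ P.p → q ∣ N →
    GaloisRepIsIrreducible (K := AlgebraicClosure ℚ) ℚ P.freyCurve P.p →
    P.ModularRepOfLevel N → P.GaloisRepUnramifiedAt q →
    ∃ M : ℕ, M ∣ N ∧ ¬ q ∣ M ∧ P.ModularRepOfLevel M

/-- Statement shape of S44 for a fixed package. -/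
def AtPStep (P : FreyPackage) : Prop :=
  ∀ {N : ℕ}, P.IsConductorLevel N → P.p ∣ N →
    GaloisRepIsIrreducible (K := AlgebraicClosure ℚ) ℚ P.freyCurve P.p →
    P.ModularRepOfLevel N → ∃ M : ℕ, M ∣ N ∧ ¬ P.p ∣ M ∧ P.ModularRepOfLevel M

/-- One lowering step: any conductor level with an odd prime factor can be strictly lowered. -/
theorem exists_dvd_two_level (P : FreyPackage)
    (h05 : ∀ q : ℕ, q.Prime → q ≠ 2 → q ≠ P.p → P.GaloisRepUnramifiedAt q)
    (h43 : OddStep P) (h44 : AtPStep P)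
    (hirr : GaloisRepIsIrreducible (K := AlgebraicClosure ℚ) ℚ P.freyCurve P.p) :
    ∀ N : ℕ, P.IsConductorLevel N → P.ModularRepOfLevel N →
      ∃ M : ℕ, M ∣ 2 ∧ P.ModularRepOfLevel M := by
  intro N
  induction N using Nat.strong_induction_on with
  | _ N ih =>
    intro hcond hmod
    by_cases h2 : N ∣ 2
    · exact ⟨N, h2, hmod⟩
    -- there is an odd prime dividing N
    have hodd : ∃ q : ℕ, q.Prime ∧ q ≠ 2 ∧ q ∣ N := by
      by_contra hno
      push Not at hno
      apply h2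
      have hN0 : N ≠ 0 := hcond.pos.ne'
      have hfac : N.primeFactors ⊆ {2} := by
        intro q hq
        rw [Finset.mem_singleton]
        by_contra hq2
        exact hno q (Nat.prime_of_mem_primeFactors hq) hq2 (Nat.dvd_of_mem_primeFactors hq)
      have hprod := Nat.prod_primeFactors_of_squarefree hcond.squarefree
      rw [← hprod]
      calc ∏ q ∈ N.primeFactors, q ∣ ∏ q ∈ ({2} : Finset ℕ), q :=
            Finset.prod_dvd_prod_of_subset _ _ _ hfac
        _ = 2 := by simp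
    obtain ⟨q, hq, hq2, hqN⟩ := hodd
    obtain ⟨M, hMN, hqM, hM⟩ : ∃ M : ℕ, M ∣ N ∧ ¬ q ∣ M ∧ P.ModularRepOfLevel M := by
      by_cases hqp : q = P.p
      · subst hqp
        exact h44 hcond hqN hirr hmod
      · exact h43 hcond hq hq2 hqp hqN hirr hmod (h05 q hq hq2 hqp)
    have hMpos : 0 < M := Nat.pos_of_dvd_of_pos hMN hcond.pos
    have hne : M ≠ N := fun h => hqM (h ▸ hqN)
    have hlt : M < N := lt_of_le_of_ne (Nat.le_of_dvd hcond.pos hMN) hne
    exact ih M hlt (hcond.of_dvd hMN hMpos) hM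

/-- The glue for S45: from S05, S06, S43, S44 and the vanishing in level one (S08). -/
theorem level_lowering_to_two_of (P : FreyPackage)
    (h05 : ∀ q : ℕ, q.Prime → q ≠ 2 → q ≠ P.p → P.GaloisRepUnramifiedAt q)
    (h06 : ∃ N : ℕ, P.IsConductorLevel N ∧ P.ModularRepOfLevel N)
    (h43 : OddStep P) (h44 : AtPStep P)
    (h08 : ∀ f : CuspForm (CongruenceSubgroup.Gamma0 1) 2, f = 0)
    (hirr : GaloisRepIsIrreducible (K := AlgebraicClosure ℚ) ℚ P.freyCurve P.p) :
    ∃ f : CuspForm (CongruenceSubgroup.Gamma0 2) 2, f ≠ 0 := by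
  obtain ⟨N, hcond, hmod⟩ := h06
  obtain ⟨M, hM2, hM⟩ := exists_dvd_two_level P h05 h43 h44 hirr N hcond hmod
  rcases (Nat.dvd_prime Nat.prime_two).mp hM2 with rfl | rfl
  · obtain ⟨f, W, 𝔪, hf, -⟩ := hM
    exact absurd (h08 f) hf.ne_zero
  · obtain ⟨f, W, 𝔪, hf, -⟩ := hM
    exact ⟨f, hf.ne_zero⟩

end Fermat.Agent.H45
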