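import Fermat.Agent.H31Eq1

/-!
# Node parameters: the criterion (helper45)
-/

set_option autoImplicit false
set_option linter.unusedSectionVars false

open AlgebraicCurve WithZero IntermediateField Fermat.Agent.H97 Fermat.Agent.H97.Sheets

namespace Fermat.Agent.H45.Nd

variable {K F₀ F k κ Γ : Type*} [Field K] [Field F₀] [Field F] [Algebra K F₀] [Algebra K F]
    [Field k] [Field κ] [Algebra k κ] [LinearOrderedCommGroupWithZero Γ] {q : ℕ}
    (S : Sheets K F₀ F k κ Γ q)

variable [IsAlgClosed K] [CharZero K] [H3RR.IsFF K F₀] [H3RR.IsFF K F]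
  [IsAlgClosed k] [H3RR.IsFF k κ] [H94.FunField K F₀] [H94.FunField K F]
  [hqF : Fact q.Prime] [CharP k q]

/-- **Criterion for node parameters.** -/
theorem nodePar_of {x : Place k κ} (hx : S.Node x) {z z' : F}
    (hz : S.InR x z) (hz' : S.InR x z')
    (vz : S.v false z = 1) (vz' : S.v true z' = 1)
    (vzt : S.v true z = S.vK q) (vzf : S.v false z' = S.vK q)
    (oz : x.ord (S.ρ false z) = 1) (oz' : (S.tw x).ord (S.ρ true z') = 1)
    (pf : x.ord (S.ρ false (z' / q)) < 0) (pt : (S.tw x).ord (S.ρ true (z / q)) < 0) :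
    H31.Eq.NodePar S x z z' (z * z' / q) := by
  have hq : q ≠ 0 := hqF.out.ne_zero
  have hqK : (q : K) ≠ 0 := by exact_mod_cast hq
  have hqF : ((q : ℕ) : F) ≠ 0 := by
    rw [← map_natCast (algebraMap K F) q]
    exact (_root_.map_ne_zero _).mpr hqK
  have hvq : S.vK q ≠ 0 := (Valuation.ne_zero_iff _).mpr hqK
  have hvF : ∀ i, S.v i (q : F) = S.vK q := fun i => by
    rw [← map_natCast (algebraMap K F) q, (S.comp i).v_alg]
  have hz0 : z ≠ 0 := by rintro rfl; simp at vz
  have hz'0 : z' ≠ 0 := by rintro rfl; simp at vz'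
  set u : F := z * z' / q with hu
  have hu0 : u ≠ 0 := div_ne_zero (mul_ne_zero hz0 hz'0) hqF
  have hvu : ∀ i, S.v i u = 1 := by
    intro i
    rw [hu, map_div₀, map_mul, hvF]
    cases i with
    | false => rw [vz, vzf, one_mul, div_self hvq]
    | true => rw [vz', vzt, mul_one, div_self hvq]
  have huR : S.InR x u := by
    refine ⟨fun i => (hvu i).le, fun P hP => ?_⟩
    have h1 : P.adicValuation (q : F) = 1 := by
      rw [← map_natCast (algebraMap K F) q, H3RR.adicValuation_algebraMap _ hqK]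
    rw [hu, map_div₀, map_mul, h1, div_one]
    exact mul_le_one' (hz.2 P hP) (hz'.2 P hP)
  -- the degree on the node class
  have hvz'q : S.v false (z' / q) = 1 := by rw [map_div₀, vzf, hvF, div_self hvq]
  have hvzq : S.v true (z / q) = 1 := by rw [map_div₀, vzt, hvF, div_self hvq]
  have of : x.ord (S.ρ false u) < 1 := by
    have e : u = z * (z' / q) := by rw [hu, mul_div_assoc]
    rw [e, (S.comp false).ρ_mul _ _ vz.le hvz'q.le,
      x.ord_mul ((S.comp false).ρ_ne_zero vz) ((S.comp false).ρ_ne_zero hvz'q), oz]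
    omega
  have ot : (S.tw x).ord (S.ρ true u) < 1 := by
    have e : u = z' * (z / q) := by rw [hu, mul_comm z z', mul_div_assoc]
    rw [e, (S.comp true).ρ_mul _ _ vz'.le hvzq.le,
      (S.tw x).ord_mul ((S.comp true).ρ_ne_zero vz') ((S.comp true).ρ_ne_zero hvzq), oz']
    omega
  have hdeg := S.deg_node ⟨x, hx⟩ hu0 hvu (D := H3RR.divOf u) (H3RR.divOf_apply hu0)
  have hle : H97.cls S.sp (H3RR.divOf u : Divisor K F) (Sum.inr ⟨x, hx⟩) ≤ 0 := by
    rw [hdeg]
    change x.ord (S.ρ false u) + (S.tw x).ord (S.ρ true u) ≤ 0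
    omega
  have hsp : ∀ P' : Place K F, S.red P' = x → S.sp P' = Sum.inr ⟨x, hx⟩ := fun P' h' =>
    S.sp_eq_inr.mpr h'
  have hord : ∀ P, S.red P = x → P.ord u = 0 := by
    intro P hP
    have h0 : ∀ Q, S.sp Q = Sum.inr ⟨x, hx⟩ → 0 ≤ (H3RR.divOf u : Divisor K F) Q := fun Q hQ => by
      rw [H3RR.divOf_apply hu0]
      exact ((Q.adicValuation_le_one_iff).mp (huR.2 Q (S.sp_eq_inr.mp hQ))).resolve_left hu0
    have h1 := le_cls S.sp (D := (H3RR.divOf u : Divisor K F)) h0 (hsp P hP)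
    have h2 := h0 P (hsp P hP)
    rw [H3RR.divOf_apply hu0] at h1 h2
    omega
  refine ⟨hz, hz', huR, ⟨fun i => ?_, fun P hP => ?_⟩, ?_, vz, vz', oz, oz'⟩
  · rw [map_inv₀, hvu, inv_one]
  · rw [P.adicValuation_le_one_iff]
    right
    rw [P.ord_inv, hord P hP]
    simp
  · rw [hu, mul_div_cancel₀ _ hqF]

end Fermat.Agent.H45.Nd
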