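import Fermat.Agent.H45NdB

/-!
# Node parameters: reductions (helper45)
-/

set_option autoImplicit false
set_option linter.unusedSectionVars false
set_option linter.style.haveILetI false

open AlgebraicCurve ModularCurve WithZero IntermediateField Fermat.Agent.H34.Two
open Fermat.Agent.H97 Fermat.Agent.H97.Sheets

namespace Fermat.Agent.H45.Nd

section Int

variable {q : ℕ} [NeZero q] [hq : Fact q.Prime]

theorem coeffMap_int_comp {R S : Type*} [CommRing R] [CommRing S] (f : R →+* S)
    (φ : LaurentSeries ℤ) : coeffMap f (coeffMap (Int.castRingHom R) φ) =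
      coeffMap (Int.castRingHom S) φ := by
  rw [coeffMap_coeffMap]
  exact congrArg (fun g => coeffMap g φ) (RingHom.ext_int _ _)

theorem qExpand_int_char (k : Type*) [CommRing k] [CharP k q] (φ : LaurentSeries ℤ) :
    qExpand k q (coeffMap (Int.castRingHom k) φ) = coeffMap (Int.castRingHom k) φ ^ q := by
  rw [H60.laurent_pow_char q, coeffMap_int_comp]

/-- `f(t^q) - f^q` is divisible by `q` -/
theorem exists_beta (φ : LaurentSeries ℤ) :
    ∃ β : LaurentSeries ℤ, (q : LaurentSeries ℤ) * β = qExpand ℤ q φ - φ ^ q := by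
  set h := qExpand ℤ q φ - φ ^ q with hh
  have h0 : coeffMap (Int.castRingHom (ZMod q)) h = 0 := by
    rw [hh, map_sub, H60.coeffMap_qExpand_H60, qExpand_int_char, map_pow, sub_self]
  have hdvd : ∀ n, (q : ℤ) ∣ h.coeff n := by
    intro n
    have h1 := congrArg (fun f => HahnSeries.coeff f n) h0
    simp only [coeffMap_coeff] at h1
    exact (ZMod.intCast_zmod_eq_zero_iff_dvd _ q).mp h1
  refine ⟨⟨fun n => h.coeff n / q, h.isPWO_support.mono fun n hn h1 => hn ?_⟩, ?_⟩
  · show h.coeff n / q = 0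
    rw [show h.coeff n = 0 from h1, Int.zero_ediv]
  · rw [← nsmul_eq_mul]
    ext n
    rw [HahnSeries.coeff_nsmul, Pi.smul_apply]
    show q • (h.coeff n / q) = h.coeff n
    rw [nsmul_eq_mul]
    exact Int.mul_ediv_cancel' (hdvd n)

end Int

section Abs

variable {K F₀ F k κ Γ : Type*} [Field K] [Field F₀] [Field F] [Algebra K F₀] [Algebra K F]
    [Field k] [Field κ] [Algebra k κ] [LinearOrderedCommGroupWithZero Γ] {q : ℕ}
    (S : Sheets K F₀ F k κ Γ q)

variable [IsAlgClosed K] [CharZero K] [H3RR.IsFF K F₀] [H3RR.IsFF K F]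
  [IsAlgClosed k] [H3RR.IsFF k κ] [H94.FunField K F₀] [H94.FunField K F]

/-- At a node a function which vanishes on one component vanishes at the point of the other. -/
theorem lt_of_node {x : Place k κ} (hx : S.Node x) {f : F} (hf : S.InR x f)
    (h : S.v true f < 1) : x.adicValuation (S.ρ false f) < 1 := by
  obtain ⟨d, hd⟩ := hx f hf
  have h1 := hd true
  rw [((S.comp true).ρ_eq_zero f (hf.1 true)).mpr h, zero_sub, Valuation.map_neg] at h1
  have hd0 : d = 0 := by
    by_contra hne
    rw [H3RR.adicValuation_algebraMap _ hne] at h1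
    exact lt_irrefl _ h1
  have h2 := hd false
  rw [hd0, map_zero, sub_zero] at h2
  exact h2

end Abs

section Inst

variable {L : Type*} [Field L] [Algebra ℚ L] {A : ValuationSubring L} {k : Type*} [Field k]
  {π : A →+* k} {m q : ℕ} [NeZero m] [NeZero q] [hq : Fact q.Prime]
  [CharP k q] [IsAlgClosed k] [Infinite k] (w : H99.AL L m q)
  (hπ : Function.Surjective π)
  (hdeg : H42.DegLE L k m) (hqm : ¬ q ∣ m)
  [IsAlgClosed L] [CharZero L] [IsLocalHom π]

theorem eq_sub_of_int {f : LaurentSeries L} {φ : LaurentSeries ℤ}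
    (h : f = coeffMap (Int.castRingHom L) φ) :
    f = coeffMap A.subtype (coeffMap (Int.castRingHom A) φ) := by
  rw [h, coeffMap_int_comp]

/-- functions with integral expansions, level `mq` -/
theorem red1_int {f : H99.FX L (m * q)} {φ : LaurentSeries ℤ}
    (h : (f : LaurentSeries L) = coeffMap (Int.castRingHom L) φ) :
    v1 A π w hπ (H42.degreeFact L) hdeg hqm f ≤ 1 ∧
      ((comp1 A π w hπ (H42.degreeFact L) hdeg hqm).red f : LaurentSeries k) =
        coeffMap (Int.castRingHom k) φ := by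
  have h1 := eq_sub_of_int (A := A) h
  refine ⟨(compVal_le_one_iff hπ _).mpr ?_, ?_⟩
  · rw [comp1_V]
    exact mem_gaussComp_of_eq A π _ h1
  · rw [coe_red1, ← coeffMap_int_comp π φ]
    exact red_gaussComp_of_eq A π _ h1

/-- functions with integral expansions, level `m` -/
theorem red0_int {f : H99.FX L m} {φ : LaurentSeries ℤ}
    (h : (f : LaurentSeries L) = coeffMap (Int.castRingHom L) φ) :
    v0 A π w hπ (H42.degreeFact L) hdeg hqm f ≤ 1 ∧
      ((comp0 A π w hπ (H42.degreeFact L) hdeg hqm).red f : LaurentSeries k) =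
        coeffMap (Int.castRingHom k) φ := by
  have h1 := eq_sub_of_int (A := A) h
  refine ⟨(compVal_le_one_iff hπ _).mpr ?_, ?_⟩
  · rw [comp0_V]
    exact mem_gaussComp_of_eq A π _ h1
  · rw [coe_red0, ← coeffMap_int_comp π φ]
    exact red_gaussComp_of_eq A π _ h1

variable {c : ℕ} (ι : L →+* ℂ) (hc : c = 4 ∨ c = 9) (hcm : c ∣ m)

/-- `d/dX` commutes with the reduction -/
theorem v0_derX {b : H99.FX L m} (hb : v0 A π w hπ (H42.degreeFact L) hdeg hqm b ≤ 1) :
    v0 A π w hπ (H42.degreeFact L) hdeg hqm (H1.derX ι hc hcm b) ≤ 1 ∧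
      ((comp0 A π w hπ (H42.degreeFact L) hdeg hqm).red (H1.derX ι hc hcm b) : LaurentSeries k) =
        H1.dX c k ((comp0 A π w hπ (H42.degreeFact L) hdeg hqm).red b : LaurentSeries k) := by
  have hbV := (compVal_le_one_iff hπ _).mp hb
  rw [comp0_V] at hbV
  obtain ⟨y, z, hz, hyz⟩ := (mem_locL_iff A π).mp hbV
  have hr : ((gC A π m).red b) * coeffMap π z = coeffMap π y :=
    red_gaussComp_mul A π (isQuot_FX m) hz hyz
  set y' : LaurentSeries A := H1.dX c A y * z - y * H1.dX c A z with hy'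
  have hz' : coeffMap π (z * z) ≠ 0 := by rw [map_mul]; exact mul_ne_zero hz hz
  have hD : ((H1.derX ι hc hcm b : H99.FX L m) : LaurentSeries L) * coeffMap A.subtype (z * z) =
      coeffMap A.subtype y' := by
    have h1 := congrArg (H1.dX c L) hyz
    rw [H1.dX_mul] at h1
    rw [H1.coe_derX, hy', map_mul, map_sub, map_mul, map_mul, H1.coeffMap_dX, H1.coeffMap_dX,
      ← h1, ← hyz]
    ring
  have hred : ((gC A π m).red (H1.derX ι hc hcm b)) * coeffMap π (z * z) = coeffMap π y' :=
    red_gaussComp_mul A π (isQuot_FX m) hz' hD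
  refine ⟨(compVal_le_one_iff hπ _).mpr ?_, ?_⟩
  · rw [comp0_V]
    exact (mem_locL_iff A π).mpr ⟨y', z * z, hz', hD⟩
  · rw [coe_red0, coe_red0]
    refine mul_right_cancel₀ hz' (hred.trans ?_)
    have h1 := congrArg (H1.dX c k) hr
    rw [H1.dX_mul] at h1
    rw [hy', map_mul, map_sub, map_mul, map_mul, H1.coeffMap_dX, H1.coeffMap_dX, ← h1, ← hr]
    ring

variable (arch : Arch A)
  (r : Place L (H99.FX L m) → Place k (modularFunctionFieldFullC k m)) {cc : ℕ}
    (hr1 : ∀ D : Divisor L (H99.FX L m), (cc : ℤ) < Divisor.degree D →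
      (H42.modReductionData A π m hπ hdeg).IsRed D (Finsupp.mapDomain r D))
    (hr2 : H34.GR.DivCompat (H42.modReductionData A π m hπ hdeg) r)

variable [H3RR.IsFF L (H99.FX L m)] [H3RR.IsFF L (H99.FX L (m * q))]
  [H3RR.IsFF k (modularFunctionFieldFullC k m)] [H94.FunField L (H99.FX L m)]
  [H94.FunField L (H99.FX L (m * q))]

include ι w hπ hdeg hqm arch hr1 hr2 hc hcm in
/-- `d/dX` preserves the local ring at `x` in characteristic `q` -/
theorem dX_reg {x : Place k (modularFunctionFieldFullC k m)}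
    (hj0 : ∀ P, r P = x → P.adicValuation (jm L m) ≤ 1)
    {h : modularFunctionFieldFullC k m} (hh : x.adicValuation h ≤ 1) :
    ∃ h' : modularFunctionFieldFullC k m,
      (h' : LaurentSeries k) = H1.dX c k (h : LaurentSeries k) ∧ x.adicValuation h' ≤ 1 := by
  set S := H97.sheets w hπ hdeg hqm arch r hr1 hr2
  obtain ⟨b, hb, hreg, hbh⟩ := S.lift₀ x h hh
  obtain ⟨h1, h2⟩ := v0_derX w hπ hdeg hqm ι hc hcm hb
  have hbh' : (comp0 A π w hπ (H42.degreeFact L) hdeg hqm).red b = h := hbh
  rw [hbh'] at h2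
  refine ⟨_, h2, S.reg₀ (b := H1.derX ι hc hcm b) h1 fun P hP => ?_⟩
  rw [← H3RR.mem_iff_adicValuation_le_one]
  refine derX_reg ι hc hcm (j := jm L m) (by rw [coe_jm, H66.J_one]) P ?_ ?_
  · rw [H3RR.mem_iff_adicValuation_le_one]; exact hj0 P hP
  · rw [H3RR.mem_iff_adicValuation_le_one]; exact hreg P hP

end Inst

end Fermat.Agent.H45.Nd
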