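import Fermat.Agent.H45NdC

/-!
# Node parameters for `X_0(mq)` (helper45)
-/

set_option autoImplicit false
set_option linter.unusedSectionVars false
set_option linter.style.haveILetI false

open AlgebraicCurve ModularCurve WithZero IntermediateField Fermat.Agent.H34.Two
open Fermat.Agent.H97 Fermat.Agent.H97.Sheets

namespace Fermat.Agent.H45.Nd

variable {L : Type*} [Field L] [Algebra ℚ L] {A : ValuationSubring L} {k : Type*} [Field k]
  {π : A →+* k} {m q : ℕ} [NeZero m] [NeZero q] [hq : Fact q.Prime]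
  [CharP k q] [IsAlgClosed k] [Infinite k] (w : H99.AL L m q)
  (hπ : Function.Surjective π)
  (hdeg : H42.DegLE L k m) (hqm : ¬ q ∣ m)
  [IsAlgClosed L] [CharZero L] [IsLocalHom π]
  {c : ℕ} (ι : L →+* ℂ) (hc : c = 4 ∨ c = 9) (hcm : c ∣ m)
  (arch : Arch A)
  (r : Place L (H99.FX L m) → Place k (modularFunctionFieldFullC k m)) {cc : ℕ}
    (hr1 : ∀ D : Divisor L (H99.FX L m), (cc : ℤ) < Divisor.degree D →
      (H42.modReductionData A π m hπ hdeg).IsRed D (Finsupp.mapDomain r D))
    (hr2 : H34.GR.DivCompat (H42.modReductionData A π m hπ hdeg) r)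

section Field

variable (k m q) in
/-- invariance of functions with integral expansions -/
theorem sig_int {h : modularFunctionFieldFullC k m} {φ : LaurentSeries ℤ}
    (hh : (h : LaurentSeries k) = coeffMap (Int.castRingHom k) φ) : sig k m q h = h := by
  apply Subtype.ext
  rw [coe_sig, hh, coeffMap_int_comp]

theorem tw_int (x : Place k (modularFunctionFieldFullC k m))
    {h : modularFunctionFieldFullC k m} {φ : LaurentSeries ℤ}
    (hh : (h : LaurentSeries k) = coeffMap (Int.castRingHom k) φ) :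
    (twP k m q x).adicValuation h = x.adicValuation h := by
  rw [← twP_val, sig_int k m q hh]

theorem tw_int_ord (x : Place k (modularFunctionFieldFullC k m))
    {h : modularFunctionFieldFullC k m} {φ : LaurentSeries ℤ}
    (hh : (h : LaurentSeries k) = coeffMap (Int.castRingHom k) φ) :
    (twP k m q x).ord h = x.ord h := by
  rcases eq_or_ne h 0 with rfl | h0
  · simp
  · have h1 := tw_int (q := q) x hh
    rw [Place.adicValuation_eq_exp_neg_ord _ h0, Place.adicValuation_eq_exp_neg_ord _ h0,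
      exp_inj] at h1
    omega

end Field

/-- An element with unit derivative which vanishes at `x` is a uniformizer. -/
theorem ord_eq_one_of_deriv {κ : Type*} [Field κ] [Algebra k κ] [H3RR.IsFF k κ] (x : Place k κ)
    (D : κ → κ → Prop) (hD : ∀ h, x.adicValuation h ≤ 1 → ∃ h', D h h' ∧ x.adicValuation h' ≤ 1)
    (hleib : ∀ a b a' b' u, D a a' → D b b' → D (a * a * b) u → u = 2 * a * a' * b + a * a * b')
    {h : κ} (h1 : D h 1) (hh0 : h ≠ 0) (hh : x.adicValuation h < 1) : x.ord h = 1 := by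
  have hpos : 0 < x.ord h := H3RR.ord_pos_of_lt_one hh0 hh
  by_contra hne
  have h2 : 2 ≤ x.ord h := by omega
  obtain ⟨t, ht0, ht⟩ := H3RR.adicValuation_surjective_exp x (-1)
  have htt : x.ord t = 1 := by
    rw [x.adicValuation_eq_exp_neg_ord ht0, exp_inj] at ht
    omega
  obtain ⟨t', hDt, ht'⟩ := hD t (by rw [ht, ← exp_zero, exp_le_exp]; norm_num)
  have he0 : h / (t * t) ≠ 0 := div_ne_zero hh0 (mul_ne_zero ht0 ht0)
  have he : x.adicValuation (h / (t * t)) ≤ 1 := by
    rw [x.adicValuation_le_one_iff]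
    right
    rw [div_eq_mul_inv, x.ord_mul hh0 (inv_ne_zero (mul_ne_zero ht0 ht0)), x.ord_inv,
      x.ord_mul ht0 ht0, htt]
    omega
  obtain ⟨e', hDe, he'⟩ := hD _ he
  have h3 : t * t * (h / (t * t)) = h := mul_div_cancel₀ _ (mul_ne_zero ht0 ht0)
  have h4 := hleib t (h / (t * t)) t' e' 1 hDt hDe (by rw [h3]; exact h1)
  have h5 : (1 : κ) = t * (2 * (t' * (h / (t * t))) + t * e') := by
    rw [h4]; ring
  have ht1 : x.adicValuation t < 1 := by rw [ht, ← exp_zero, exp_lt_exp]; norm_num
  have h6 : x.adicValuation (2 * (t' * (h / (t * t))) + t * e') ≤ 1 := by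
    refine (Valuation.map_add _ _ _).trans (max_le ?_ ?_)
    · rw [map_mul, map_mul]
      refine mul_le_one' ?_ (mul_le_one' ht' he)
      have : (2 : κ) = algebraMap k κ 2 := (map_ofNat _ 2).symm
      rw [this]
      exact x.adicValuation_algebraMap_le_one 2
    · rw [map_mul]
      exact mul_le_one' ht1.le he'
  have h7 := congrArg x.adicValuation h5
  rw [map_one, map_mul] at h7
  rw [mul_comm] at h7
  exact absurd h7.symm (Sheets.mul_lt_one_aux h6 ht1).ne

variable [H3RR.IsFF L (H99.FX L m)] [H3RR.IsFF L (H99.FX L (m * q))]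
  [H3RR.IsFF k (modularFunctionFieldFullC k m)] [H94.FunField L (H99.FX L m)]
  [H94.FunField L (H99.FX L (m * q))]

include hπ in
theorem val_q_lt : A.valuation (q : L) < 1 := by
  have h1 : ((q : A) : L) = q := by simp
  rw [← h1, ← A.valuation_lt_one_iff]
  by_contra h
  have h2 : IsUnit (q : A) := by
    by_contra h3
    exact h ((IsLocalRing.mem_maximalIdeal _).mpr h3)
  have h3 := h2.map π
  rw [map_natCast, CharP.cast_eq_zero] at h3
  exact not_isUnit_zero h3

variable (L q) in
/-- `(θX)(t^q)/θX` -/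
noncomputable def gF : H99.FX L (m * q) :=
  algebraMap L _ (q : L)⁻¹ * H1.derX ι hc (hcm.mul_right q) (YF L q hc hcm)

theorem coe_gF : (gF L q ι hc hcm : LaurentSeries L) = coeffMap (Int.castRingHom L)
    (H1.thInv c ℤ * qExpand ℤ q (H1.thetaL ℤ (H1.Xc c ℤ))) := by
  have hq0 : (q : LaurentSeries L) ≠ 0 := by
    rw [← map_natCast (algebraMap L (LaurentSeries L)) q]
    exact (_root_.map_ne_zero _).mpr (Nat.cast_ne_zero.mpr hq.out.ne_zero)
  have h1 : (gF L q ι hc hcm : LaurentSeries L) = algebraMap L _ (q : L)⁻¹ *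
      (H1.derX ι hc (hcm.mul_right q) (YF L q hc hcm) : LaurentSeries L) := rfl
  rw [h1, coe_derX_YF, map_inv₀, map_natCast, inv_mul_cancel_left₀ hq0, map_mul,
    H1.coeffMap_thInv, H60.coeffMap_qExpand_H60, H1.coeffMap_thetaL, H1.coeffMap_Xc]

section DXPow

theorem dX_pow {R : Type*} [CommRing R] (f : LaurentSeries R) (n : ℕ) :
    H1.dX c R (f ^ n) = n * f ^ (n - 1) * H1.dX c R f := by
  induction n with
  | zero =>
    have h := H1.dX_C (c := c) (1 : R)
    rw [map_one] at h
    simp [h]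
  | succ n ih =>
    rw [pow_succ, H1.dX_mul, ih]
    rcases n with _ | n
    · simp
    · push_cast
      ring

theorem natCast_laurent_eq_zero {R : Type*} [CommRing R] [CharP R q] :
    (q : LaurentSeries R) = 0 := by
  have h : (HahnSeries.C (q : R) : LaurentSeries R) = (q : LaurentSeries R) := map_natCast _ q
  rw [← h, CharP.cast_eq_zero, map_zero]

theorem dX_beta {β : LaurentSeries ℤ}
    (hβ : (q : LaurentSeries ℤ) * β = qExpand ℤ q (H1.Xc c ℤ) - H1.Xc c ℤ ^ q) :
    H1.dX c ℤ β = H1.thInv c ℤ * qExpand ℤ q (H1.thetaL ℤ (H1.Xc c ℤ)) -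
      H1.Xc c ℤ ^ (q - 1) := by
  have hq0 : (q : LaurentSeries ℤ) ≠ 0 := by
    intro h
    have h1 : (HahnSeries.C (q : ℤ) : LaurentSeries ℤ) = (q : LaurentSeries ℤ) := map_natCast _ q
    rw [← h1] at h
    have h2 := congrArg (fun f => HahnSeries.coeff f 0) h
    simp only [HahnSeries.C_apply, HahnSeries.coeff_single_same, HahnSeries.coeff_zero] at h2
    exact hq.out.ne_zero (by exact_mod_cast h2)
  apply mul_left_cancel₀ hq0
  have h1 := congrArg (H1.dX c ℤ) hβ
  rw [← nsmul_eq_mul, map_nsmul, nsmul_eq_mul, map_sub, H1.dX_qExpand_Xc, dX_pow, H1.dX_Xc] at h1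
  rw [h1]
  ring

end DXPow

end Fermat.Agent.H45.Nd
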