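import Fermat.Agent.H45NdD

/-!
# Node parameters for `X_0(mq)`: the poles (helper45)
-/

set_option autoImplicit false
set_option linter.unusedSectionVars false
set_option linter.style.haveILetI false

open AlgebraicCurve ModularCurve WithZero IntermediateField Fermat.Agent.H34.Two
open Fermat.Agent.H97 Fermat.Agent.H97.Sheets

namespace Fermat.Agent.H45.Nd

variable {L : Type*} [Field L] [Algebra ℚ L] {A : ValuationSubring L} {k : Type*} [Field k]
  {π : A →+* k} {m q : ℕ} [NeZero m] [NeZero q] [hq : Fact q.Prime]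
  [CharP k q] [IsAlgClosed k] [Infinite k] (w : H99.AL L m q)
  (hπ : Function.Surjective π)
  (hdeg : H42.DegLE L k m) (hqm : ¬ q ∣ m)
  [IsAlgClosed L] [CharZero L] [IsLocalHom π]
  {c : ℕ} (ι : L →+* ℂ) (hc : c = 4 ∨ c = 9) (hcm : c ∣ m)
  (arch : Arch A)
  (r : Place L (H99.FX L m) → Place k (modularFunctionFieldFullC k m)) {cc : ℕ}
    (hr1 : ∀ D : Divisor L (H99.FX L m), (cc : ℤ) < Divisor.degree D →
      (H42.modReductionData A π m hπ hdeg).IsRed D (Finsupp.mapDomain r D))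
    (hr2 : H34.GR.DivCompat (H42.modReductionData A π m hπ hdeg) r)

variable [H3RR.IsFF L (H99.FX L m)] [H3RR.IsFF L (H99.FX L (m * q))]
  [H3RR.IsFF k (modularFunctionFieldFullC k m)] [H94.FunField L (H99.FX L m)]
  [H94.FunField L (H99.FX L (m * q))]

theorem coe_XF (M : ℕ) [NeZero M] (hcM : c ∣ M) : (XF L M hc hcM : LaurentSeries L) =
    coeffMap (Int.castRingHom L) (H1.Xc c ℤ) := (H1.coeffMap_Xc c _).symm

theorem coe_YF' : (YF L q hc hcm : LaurentSeries L) =
    coeffMap (Int.castRingHom L) (qExpand ℤ q (H1.Xc c ℤ)) := by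
  rw [coe_YF, H60.coeffMap_qExpand_H60, H1.coeffMap_Xc]

/-- values of `gF` -/
theorem v1_gF : v1 A π w hπ (H42.degreeFact L) hdeg hqm (gF L q ι hc hcm) = 1 := by
  rw [v1, compVal_eq_one_iff]
  intro h0
  have h1 := (red1_int w hπ hdeg hqm (coe_gF ι hc hcm)).2
  rw [h0, map_mul, H1.coeffMap_thInv, H60.coeffMap_qExpand_H60, H1.coeffMap_thetaL,
    H1.coeffMap_Xc] at h1
  have h2 : (H1.thInv c k) ≠ 0 := left_ne_zero_of_mul_eq_one (H1.thInv_mul_theta c k)
  have h3 : H1.thetaL k (H1.Xc c k) ≠ 0 := right_ne_zero_of_mul_eq_one (H1.thInv_mul_theta c k)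
  exact mul_ne_zero h2 ((map_ne_zero_iff _ (qExpand_injective' q)).mpr h3) h1.symm

variable (L q) in
/-- `θX/(θX)(t^q)` -/
noncomputable def fF : H99.FX L (m * q) :=
  algebraMap L _ (q : L) * w.W (H1.derX ι hc (hcm.mul_right q) (YF L q hc hcm))

theorem fF_mul_gF : fF L q w ι hc hcm * gF L q ι hc hcm = 1 := by
  have hq0 : (q : L) ≠ 0 := Nat.cast_ne_zero.mpr hq.out.ne_zero
  have h1 := W_derX_YF_mul ι w hc hcm
  have h2 : algebraMap L (H99.FX L (m * q)) (q : L) * algebraMap L (H99.FX L (m * q)) (q : L)⁻¹ = 1 := by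
    rw [← map_mul, mul_inv_cancel₀ hq0, map_one]
  rw [fF, gF]
  linear_combination h1 + w.W (H1.derX ι hc (hcm.mul_right q) (YF L q hc hcm)) *
    H1.derX ι hc (hcm.mul_right q) (YF L q hc hcm) * h2

theorem v1_fF : v1 A π w hπ (H42.degreeFact L) hdeg hqm (fF L q w ι hc hcm) = 1 := by
  have h1 := congrArg (v1 A π w hπ (H42.degreeFact L) hdeg hqm) (fF_mul_gF w ι hc hcm)
  rw [map_mul, v1_gF w hπ hdeg hqm ι hc hcm, mul_one, map_one] at h1
  exact h1

theorem v2_fF : v2 A π w hπ (H42.degreeFact L) hdeg hqm (fF L q w ι hc hcm) < 1 := by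
  have hq0 : (q : L) ≠ 0 := Nat.cast_ne_zero.mpr hq.out.ne_zero
  have h1 : w.W (fF L q w ι hc hcm) =
      algebraMap L _ ((q : L) * (q : L)) * gF L q ι hc hcm := by
    rw [fF, map_mul, w.W.commutes, w.invol, gF, ← mul_assoc, ← map_mul]
    congr 2
    field_simp
  rw [v2_eq, h1, map_mul, v1_gF w hπ hdeg hqm ι hc hcm, mul_one, v1, compVal_algebraMap, map_mul]
  have h2 := val_q_lt (L := L) (A := A) (k := k) hπ (q := q)
  exact Sheets.mul_lt_one_aux h2.le h2

end Fermat.Agent.H45.Nd
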