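import Fermat.Agent.H45NdE

/-!
# Node parameters for `X_0(mq)`: the theorem (helper45)
-/

set_option autoImplicit false
set_option linter.unusedSectionVars false
set_option linter.style.haveILetI false

open AlgebraicCurve ModularCurve WithZero IntermediateField Fermat.Agent.H34.Two
open Fermat.Agent.H97 Fermat.Agent.H97.Sheets

namespace Fermat.Agent.H45.Nd

variable {L : Type*} [Field L] [Algebra ℚ L] {A : ValuationSubring L} {k : Type*} [Field k]
  {π : A →+* k} {m q : ℕ} [NeZero m] [NeZero q] [hq : Fact q.Prime]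
  [CharP k q] [IsAlgClosed k] [Infinite k] (w : H99.AL L m q)
  (hπ : Function.Surjective π)
  (hdeg : H42.DegLE L k m) (hqm : ¬ q ∣ m)
  [IsAlgClosed L] [CharZero L] [IsLocalHom π]
  {c : ℕ} (ι : L →+* ℂ) (hc : c = 4 ∨ c = 9) (hcm : c ∣ m)
  (arch : Arch A)
  (r : Place L (H99.FX L m) → Place k (modularFunctionFieldFullC k m)) {cc : ℕ}
    (hr1 : ∀ D : Divisor L (H99.FX L m), (cc : ℤ) < Divisor.degree D →
      (H42.modReductionData A π m hπ hdeg).IsRed D (Finsupp.mapDomain r D))
    (hr2 : H34.GR.DivCompat (H42.modReductionData A π m hπ hdeg) r)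

variable [H3RR.IsFF L (H99.FX L m)] [H3RR.IsFF L (H99.FX L (m * q))]
  [H3RR.IsFF k (modularFunctionFieldFullC k m)] [H94.FunField L (H99.FX L m)]
  [H94.FunField L (H99.FX L (m * q))]

section Pole

variable {x : Place k (modularFunctionFieldFullC k m)}

theorem fF_InR
    (hj : ∀ P, (H97.sheets w hπ hdeg hqm arch r hr1 hr2).red P = x →
      P.adicValuation (jmq L m q) ≤ 1) :
    (H97.sheets w hπ hdeg hqm arch r hr1 hr2).InR x (fF L q w ι hc hcm) := by
  refine ⟨fun i => ?_, fun P hP => ?_⟩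
  · cases i with
    | false => exact (v1_fF w hπ hdeg hqm ι hc hcm).le
    | true => exact (v2_fF w hπ hdeg hqm ι hc hcm).le
  · rw [fF, map_mul]
    refine mul_le_one' (P.adicValuation_algebraMap_le_one _) ?_
    rw [← H3RR.mem_iff_adicValuation_le_one]
    refine W_derX_YF_reg ι w hc hcm P ?_
    rw [H3RR.mem_iff_adicValuation_le_one]
    exact hj P hP

/-- The reduction of `(θX)(t^q)/θX` has a pole at a node. -/
theorem one_lt_gF (hx : (H97.sheets w hπ hdeg hqm arch r hr1 hr2).Node x)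
    (hj : ∀ P, (H97.sheets w hπ hdeg hqm arch r hr1 hr2).red P = x →
      P.adicValuation (jmq L m q) ≤ 1) :
    1 < x.adicValuation ((comp1 A π w hπ (H42.degreeFact L) hdeg hqm).red (gF L q ι hc hcm)) := by
  set S := H97.sheets w hπ hdeg hqm arch r hr1 hr2 with hS
  have h1 : x.adicValuation (S.ρ false (fF L q w ι hc hcm)) < 1 :=
    lt_of_node S hx (fF_InR w hπ hdeg hqm ι hc hcm arch r hr1 hr2 hj)
      (v2_fF w hπ hdeg hqm ι hc hcm)
  have h2 : S.ρ false (fF L q w ι hc hcm) * S.ρ false (gF L q ι hc hcm) = 1 := by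
    rw [← (S.comp false).ρ_mul _ _ (v1_fF w hπ hdeg hqm ι hc hcm).le
      (v1_gF w hπ hdeg hqm ι hc hcm).le, fF_mul_gF, (S.comp false).ρ_one]
  have h3 := congrArg x.adicValuation h2
  rw [map_mul, map_one] at h3
  by_contra hcon
  rw [not_lt] at hcon
  rw [mul_comm] at h3
  exact (Sheets.mul_lt_one_aux hcon h1).ne h3

include ι hc hcm in
/-- The reduction of `(X(t^q) - X^q)/q` has a pole at a node. -/
theorem ord_beta_neg (hx : (H97.sheets w hπ hdeg hqm arch r hr1 hr2).Node x)
    (hj0 : ∀ P, r P = x → P.adicValuation (jm L m) ≤ 1)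
    (hj : ∀ P, (H97.sheets w hπ hdeg hqm arch r hr1 hr2).red P = x →
      P.adicValuation (jmq L m q) ≤ 1) {β : LaurentSeries ℤ}
    (hβ : (q : LaurentSeries ℤ) * β = qExpand ℤ q (H1.Xc c ℤ) - H1.Xc c ℤ ^ q)
    {b : modularFunctionFieldFullC k m}
    (hb : (b : LaurentSeries k) = coeffMap (Int.castRingHom k) β) : x.ord b < 0 := by
  set S := H97.sheets w hπ hdeg hqm arch r hr1 hr2 with hS
  have h0 := one_lt_gF w hπ hdeg hqm ι hc hcm arch r hr1 hr2 hx hj
  by_contra hcon
  rw [not_lt] at hcon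
  have hb1 : x.adicValuation b ≤ 1 := (x.adicValuation_le_one_iff).mpr (Or.inr hcon)
  obtain ⟨b', hb', hb'1⟩ := dX_reg w hπ hdeg hqm ι hc hcm arch r hr1 hr2 hj0 hb1
  -- the Hauptmodul
  have hX0 := red0_int w hπ hdeg hqm (coe_XF (L := L) (c := c) hc m hcm)
  have hX1 : x.adicValuation ((comp0 A π w hπ (H42.degreeFact L) hdeg hqm).red
      (XF L m hc hcm)) ≤ 1 := by
    refine S.reg₀ (b := XF L m hc hcm) hX0.1 fun P hP => ?_
    rw [← H3RR.mem_iff_adicValuation_le_one]
    refine mem_of_intJ (j := jm L m) (by rw [coe_jm, H66.J_one]) (H1.Xc_intJ L hc) P ?_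
    rw [H3RR.mem_iff_adicValuation_le_one]
    exact hj0 P hP
  have key : (comp1 A π w hπ (H42.degreeFact L) hdeg hqm).red (gF L q ι hc hcm) =
      b' + (comp0 A π w hπ (H42.degreeFact L) hdeg hqm).red (XF L m hc hcm) ^ (q - 1) := by
    apply Subtype.ext
    rw [(red1_int w hπ hdeg hqm (coe_gF ι hc hcm)).2]
    have h1 : ((b' + (comp0 A π w hπ (H42.degreeFact L) hdeg hqm).red (XF L m hc hcm) ^ (q - 1) :
        modularFunctionFieldFullC k m) : LaurentSeries k) = (b' : LaurentSeries k) +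
        ((comp0 A π w hπ (H42.degreeFact L) hdeg hqm).red (XF L m hc hcm) :
          LaurentSeries k) ^ (q - 1) := rfl
    rw [h1, hb', hX0.2, hb, ← H1.coeffMap_dX, dX_beta hβ, map_sub, map_pow, sub_add_cancel]
  rw [key] at h0
  refine absurd ((Valuation.map_add _ _ _).trans (max_le hb'1 ?_)) (not_le.mpr h0)
  rw [map_pow]
  exact pow_le_one' hX1 _

end Pole

include ι w in
theorem YF_reg (v : Place L (H99.FX L (m * q))) (hv : jmq L m q ∈ v.toValuationSubring) :
    YF L q hc hcm ∈ v.toValuationSubring := by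
  obtain ⟨v', hv'⟩ := H97.exists_comap_place w.W v
  have key : ∀ f, f ∈ v'.toValuationSubring ↔ w.W f ∈ v.toValuationSubring := by
    intro f
    rcases eq_or_ne f 0 with rfl | hf
    · simp
    · rw [H94.mem_iff_ord_nonneg v' hf,
        H94.mem_iff_ord_nonneg v ((map_ne_zero_iff _ w.W.injective).mpr hf), hv']
  rw [← W_XF w hc hcm, ← key]
  refine mem_of_intJ coe_jmq (H1.Xc_intJ L hc) v' ?_
  rw [key]
  refine mem_of_intJ coe_jmq ?_ v hv
  have e : ((w.W (jmq L m q) : H99.FX L (m * q)) : LaurentSeries L) = H66.J L q := by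
    rw [jmq, w.alpha, coe_heckeBetaBar, coe_jm, H66.J_one, H66.J_eq]
  rw [e]
  exact H1.intJ_iff.mp (H68.isIntegral_J L q (NeZero.ne q)).1

variable (L q) in
/-- The node parameter. -/
noncomputable def zF : H99.FX L (m * q) :=
  XF L (m * q) hc (hcm.mul_right q) - YF L q hc hcm ^ q

variable (L q) in
/-- The other node parameter. -/
noncomputable def zF' : H99.FX L (m * q) :=
  YF L q hc hcm - XF L (m * q) hc (hcm.mul_right q) ^ q

theorem W_zF : w.W (zF L q hc hcm) = zF' L q hc hcm := by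
  rw [zF, map_sub, map_pow, W_XF, W_YF, zF']

theorem W_zF' : w.W (zF' L q hc hcm) = zF L q hc hcm := by
  rw [zF', map_sub, map_pow, W_XF, W_YF, zF]

theorem coe_zF : (zF L q hc hcm : LaurentSeries L) = coeffMap (Int.castRingHom L)
    (H1.Xc c ℤ - qExpand ℤ q (H1.Xc c ℤ) ^ q) := by
  have h : (zF L q hc hcm : LaurentSeries L) =
      (XF L (m * q) hc (hcm.mul_right q) : LaurentSeries L) -
        (YF L q hc hcm : LaurentSeries L) ^ q := rfl
  rw [h, coe_XF, coe_YF', map_sub, map_pow]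

theorem coe_zF' : (zF' L q hc hcm : LaurentSeries L) = coeffMap (Int.castRingHom L)
    (qExpand ℤ q (H1.Xc c ℤ) - H1.Xc c ℤ ^ q) := by
  have h : (zF' L q hc hcm : LaurentSeries L) = (YF L q hc hcm : LaurentSeries L) -
      (XF L (m * q) hc (hcm.mul_right q) : LaurentSeries L) ^ q := rfl
  rw [h, coe_XF, coe_YF', map_sub, map_pow]

theorem coe_bF {β : LaurentSeries ℤ}
    (hβ : (q : LaurentSeries ℤ) * β = qExpand ℤ q (H1.Xc c ℤ) - H1.Xc c ℤ ^ q) :
    ((zF' L q hc hcm / (q : H99.FX L (m * q)) : H99.FX L (m * q)) : LaurentSeries L) =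
      coeffMap (Int.castRingHom L) β := by
  have hq0 : (q : LaurentSeries L) ≠ 0 := by
    rw [← map_natCast (algebraMap L (LaurentSeries L)) q]
    exact (_root_.map_ne_zero _).mpr (Nat.cast_ne_zero.mpr hq.out.ne_zero)
  have h : ((zF' L q hc hcm / (q : H99.FX L (m * q)) : H99.FX L (m * q)) : LaurentSeries L) =
      (zF' L q hc hcm : LaurentSeries L) / (q : LaurentSeries L) := rfl
  rw [h, coe_zF', ← hβ, map_mul, map_natCast, mul_div_cancel_left₀ _ hq0]

set_option maxHeartbeats 1600000 in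
include ι in
/-- **The node parameters of `X_0(mq)`**, `4 ∣ m` or `9 ∣ m`. -/
theorem nodePar_aux {x : Place k (modularFunctionFieldFullC k m)}
    (hx : (H97.sheets w hπ hdeg hqm arch r hr1 hr2).Node x)
    (hj0 : ∀ P, r P = x → P.adicValuation (jm L m) ≤ 1)
    (hj : ∀ P, (H97.sheets w hπ hdeg hqm arch r hr1 hr2).red P = x →
      P.adicValuation (jmq L m q) ≤ 1) :
    H31.Eq.NodePar (H97.sheets w hπ hdeg hqm arch r hr1 hr2) x (zF L q hc hcm) (zF' L q hc hcm)
      (zF L q hc hcm * zF' L q hc hcm / (q : H99.FX L (m * q))) := by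
  have hqF : (algebraMap L (H99.FX L (m * q)) (q : L)) = (q : H99.FX L (m * q)) := map_natCast _ _
  have hq0 : (q : H99.FX L (m * q)) ≠ 0 := by
    rw [← hqF]
    exact (_root_.map_ne_zero _).mpr (Nat.cast_ne_zero.mpr hq.out.ne_zero)
  have hq1 := val_q_lt (L := L) (A := A) (k := k) hπ (q := q)
  obtain ⟨β, hβ⟩ := exists_beta (q := q) (H1.Xc c ℤ)
  -- values of the basic functions
  have X1 := red1_int w hπ hdeg hqm (coe_XF (L := L) (c := c) hc (m * q) (hcm.mul_right q))
  have Y1 := red1_int w hπ hdeg hqm (coe_YF' (L := L) (q := q) hc hcm)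
  have Z1 := red1_int w hπ hdeg hqm (coe_zF (L := L) (q := q) hc hcm)
  have B1 := red1_int w hπ hdeg hqm (coe_bF (L := L) (q := q) hc hcm hβ)
  have vq : v1 A π w hπ (H42.degreeFact L) hdeg hqm (q : H99.FX L (m * q)) = A.valuation (q : L) := by
    rw [← hqF, v1, compVal_algebraMap]
  have hz'b : zF' L q hc hcm = (q : H99.FX L (m * q)) * (zF' L q hc hcm / (q : H99.FX L (m * q))) :=
    (mul_div_cancel₀ _ hq0).symm
  set S := H97.sheets w hπ hdeg hqm arch r hr1 hr2 with hS
  set C1 := comp1 A π w hπ (H42.degreeFact L) hdeg hqm with hC1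
  -- the reduction of `z`
  set h := C1.red (zF L q hc hcm) with hh
  set b := C1.red (zF' L q hc hcm / (q : H99.FX L (m * q))) with hb
  have hb_neg : x.ord b < 0 :=
    ord_beta_neg w hπ hdeg hqm ι hc hcm arch r hr1 hr2 hx hj0 hj hβ B1.2
  have hb0 : b ≠ 0 := by
    intro h0; rw [h0, Place.ord_zero] at hb_neg; exact lt_irrefl _ hb_neg
  have vb : v1 A π w hπ (H42.degreeFact L) hdeg hqm
      (zF' L q hc hcm / (q : H99.FX L (m * q))) = 1 := (compVal_eq_one_iff hπ _).mpr hb0
  have vz' : v1 A π w hπ (H42.degreeFact L) hdeg hqm (zF' L q hc hcm) = A.valuation (q : L) := by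
    rw [hz'b, map_mul, vq, vb, mul_one]
  -- the derivative of `h`
  have hDh : H1.dX c k (h : LaurentSeries k) = 1 := by
    rw [Z1.2, map_sub, map_pow, map_sub, H1.coeffMap_Xc, H1.dX_Xc, dX_pow,
      natCast_laurent_eq_zero, zero_mul, zero_mul, sub_zero]
  have hh0 : h ≠ 0 := by
    intro h0
    rw [h0] at hDh
    have h1 : H1.dX c k ((0 : modularFunctionFieldFullC k m) : LaurentSeries k) = 0 :=
      map_zero (H1.dX c k)
    rw [h1] at hDh
    exact zero_ne_one hDh
  have vz : v1 A π w hπ (H42.degreeFact L) hdeg hqm (zF L q hc hcm) = 1 :=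
    (compVal_eq_one_iff hπ _).mpr hh0
  -- regularity
  have hXreg : ∀ P, S.red P = x →
      P.adicValuation (XF L (m * q) hc (hcm.mul_right q)) ≤ 1 := fun P hP => by
    rw [← H3RR.mem_iff_adicValuation_le_one]
    refine mem_of_intJ coe_jmq (H1.Xc_intJ L hc) P ?_
    rw [H3RR.mem_iff_adicValuation_le_one]
    exact hj P hP
  have hYreg : ∀ P, S.red P = x → P.adicValuation (YF L q hc hcm) ≤ 1 := fun P hP => by
    rw [← H3RR.mem_iff_adicValuation_le_one]
    refine YF_reg w ι hc hcm P ?_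
    rw [H3RR.mem_iff_adicValuation_le_one]
    exact hj P hP
  have hXR : S.InR x (XF L (m * q) hc (hcm.mul_right q)) := by
    refine ⟨fun i => ?_, hXreg⟩
    cases i with
    | false => exact X1.1
    | true =>
      show v2 A π w hπ (H42.degreeFact L) hdeg hqm _ ≤ 1
      rw [v2_eq, W_XF]; exact Y1.1
  have hYR : S.InR x (YF L q hc hcm) := by
    refine ⟨fun i => ?_, hYreg⟩
    cases i with
    | false => exact Y1.1
    | true =>
      show v2 A π w hπ (H42.degreeFact L) hdeg hqm _ ≤ 1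
      rw [v2_eq, W_YF]; exact X1.1
  have hzR : S.InR x (zF L q hc hcm) := hXR.sub (hYR.pow q)
  have hz'R : S.InR x (zF' L q hc hcm) := hYR.sub (hXR.pow q)
  have vzt : S.v true (zF L q hc hcm) = A.valuation (q : L) := by
    show v2 A π w hπ (H42.degreeFact L) hdeg hqm _ = _
    rw [v2_eq, W_zF, vz']
  -- `z` vanishes at the node
  have hhx : x.adicValuation h < 1 := lt_of_node S hx hzR (by rw [vzt]; exact hq1)
  have ordh : x.ord h = 1 := by
    refine ord_eq_one_of_deriv x (fun a a' => (a' : LaurentSeries k) = H1.dX c k (a : LaurentSeries k))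
      (fun a ha => dX_reg w hπ hdeg hqm ι hc hcm arch r hr1 hr2 hj0 ha) ?_ ?_ hh0 hhx
    · intro a b a' b' u ha hb hu
      apply Subtype.ext
      rw [hu]
      have h1 : ((a * a * b : modularFunctionFieldFullC k m) : LaurentSeries k) =
        (a : LaurentSeries k) * a * b := rfl
      have h2 : ((2 * a * a' * b + a * a * b' : modularFunctionFieldFullC k m) : LaurentSeries k) =
        2 * (a : LaurentSeries k) * a' * b + (a : LaurentSeries k) * a * b' := rfl
      rw [h1, h2, H1.dX_mul, H1.dX_mul, ha, hb]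
      ring
    · rw [hDh]; rfl
  refine nodePar_of S hx hzR hz'R vz ?_ vzt vz' ordh ?_ hb_neg ?_
  · show v2 A π w hπ (H42.degreeFact L) hdeg hqm _ = 1
    rw [v2_eq, W_zF', vz]
  · show (twP k m q x).ord ((comp2 A π w hπ (H42.degreeFact L) hdeg hqm).red (zF' L q hc hcm)) = 1
    rw [red2_eq, W_zF', tw_int_ord x Z1.2]
    exact ordh
  · show (twP k m q x).ord ((comp2 A π w hπ (H42.degreeFact L) hdeg hqm).red _) < 0
    rw [red2_eq, map_div₀, W_zF, map_natCast, tw_int_ord x B1.2]
    exact hb_neg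

end Fermat.Agent.H45.Nd
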