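import Mathlib
import Fermat.Prelude.Def_ModularCurve_GenusNumerics

set_option autoImplicit false

open CongruenceSubgroup ModularGroup MatrixGroups

namespace Fermat.Agent.H45

/-- The set `SL₂(ℤ)/Γ₀(N) ≃ ℙ¹(ℤ/N)`, with the left translation action of `SL₂(ℤ)`. -/
abbrev P1 (N : ℕ) : Type := SL(2, ℤ) ⧸ Gamma0 N

instance P1.finite (N : ℕ) [NeZero N] : Finite (P1 N) := Subgroup.finite_quotient_of_finiteIndex

/-- The coset of a matrix. -/
abbrev mkP (N : ℕ) (g : SL(2, ℤ)) : P1 N := QuotientGroup.mk g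

theorem mul_entry (g h : SL(2, ℤ)) (i j : Fin 2) :
    (g * h) i j = g i 0 * h 0 j + g i 1 * h 1 j := by
  rw [Matrix.SpecialLinearGroup.coe_mul, Matrix.mul_apply, Fin.sum_univ_two]

theorem inv_one_zero (g : SL(2, ℤ)) : g⁻¹ 1 0 = - g 1 0 := by
  rw [Matrix.SpecialLinearGroup.SL2_inv_expl]; rfl

theorem inv_one_one (g : SL(2, ℤ)) : g⁻¹ 1 1 = g 0 0 := by
  rw [Matrix.SpecialLinearGroup.SL2_inv_expl]; rfl

theorem inv_mul_one_zero (g h : SL(2, ℤ)) :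
    (g⁻¹ * h) 1 0 = g 0 0 * h 1 0 - h 0 0 * g 1 0 := by
  rw [mul_entry, inv_one_zero, inv_one_one]
  ring

/-- Two matrices define the same point of `ℙ¹(ℤ/N)` iff their first columns are proportional. -/
theorem mkP_eq_iff {N : ℕ} (g h : SL(2, ℤ)) :
    mkP N g = mkP N h ↔ (N : ℤ) ∣ g 0 0 * h 1 0 - h 0 0 * g 1 0 := by
  rw [QuotientGroup.eq, Gamma0_mem, inv_mul_one_zero, ZMod.intCast_zmod_eq_zero_iff_dvd]

theorem exists_SL2 {a c : ℤ} (h : IsCoprime a c) : ∃ g : SL(2, ℤ), g 0 0 = a ∧ g 1 0 = c := by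
  obtain ⟨g, h0, h1⟩ := h.exists_SL2_col 0
  exact ⟨g, h0, h1⟩

theorem isCoprime_col (g : SL(2, ℤ)) : IsCoprime (g 0 0) (g 1 0) := g.isCoprime_col 0

theorem smul_mkP (N : ℕ) (m g : SL(2, ℤ)) : m • mkP N g = mkP N (m * g) := rfl

theorem S_mul_zero_zero (g : SL(2, ℤ)) : (S * g) 0 0 = - g 1 0 := by
  rw [mul_entry]; simp [ModularGroup.S]

theorem S_mul_one_zero (g : SL(2, ℤ)) : (S * g) 1 0 = g 0 0 := by
  rw [mul_entry]; simp [ModularGroup.S]

theorem T_zpow_mul_zero_zero (k : ℤ) (g : SL(2, ℤ)) : (T ^ k * g) 0 0 = g 0 0 + k * g 1 0 := by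
  rw [mul_entry, ModularGroup.coe_T_zpow]; simp

theorem T_zpow_mul_one_zero (k : ℤ) (g : SL(2, ℤ)) : (T ^ k * g) 1 0 = g 1 0 := by
  rw [mul_entry, ModularGroup.coe_T_zpow]; simp

theorem T_mul_zero_zero (g : SL(2, ℤ)) : (T * g) 0 0 = g 0 0 + g 1 0 := by
  have := T_zpow_mul_zero_zero 1 g
  rwa [zpow_one, one_mul] at this

theorem T_mul_one_zero (g : SL(2, ℤ)) : (T * g) 1 0 = g 1 0 := by
  have := T_zpow_mul_one_zero 1 g
  rwa [zpow_one] at this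

/-! ### Fixed points of `S` and of `ST` -/

theorem S_smul_eq_iff {N : ℕ} (g : SL(2, ℤ)) :
    S • mkP N g = mkP N g ↔ (N : ℤ) ∣ g 0 0 ^ 2 + g 1 0 ^ 2 := by
  rw [smul_mkP, mkP_eq_iff, S_mul_zero_zero, S_mul_one_zero, ← dvd_neg]
  have : -(-g 1 0 * g 1 0 - g 0 0 * g 0 0) = g 0 0 ^ 2 + g 1 0 ^ 2 := by ring
  rw [this]

theorem ST_smul_eq_iff {N : ℕ} (g : SL(2, ℤ)) :
    (S * T) • mkP N g = mkP N g ↔ (N : ℤ) ∣ g 0 0 ^ 2 + g 0 0 * g 1 0 + g 1 0 ^ 2 := by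
  rw [smul_mkP, mkP_eq_iff, mul_assoc, S_mul_zero_zero, S_mul_one_zero, T_mul_zero_zero,
    T_mul_one_zero, ← dvd_neg]
  have : -(-g 1 0 * g 1 0 - g 0 0 * (g 0 0 + g 1 0)) =
    g 0 0 ^ 2 + g 0 0 * g 1 0 + g 1 0 ^ 2 := by ring
  rw [this]

/-- If `N ∣ a² + t a c + c²` with `a, c` coprime then `c` is prime to `N`. -/
theorem isCoprime_of_dvd_quadratic {N : ℕ} {a c t : ℤ} (h : IsCoprime a c)
    (hN : (N : ℤ) ∣ a ^ 2 + t * (a * c) + c ^ 2) : IsCoprime c (N : ℤ) := by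
  have h1 : IsCoprime c (a ^ 2 + t * (a * c) + c ^ 2) := by
    have h2 : IsCoprime c (a ^ 2) := (h.pow_left (m := 2)).symm
    have h3 := h2.add_mul_left_right (t * a + c)
    have h4 : a ^ 2 + c * (t * a + c) = a ^ 2 + t * (a * c) + c ^ 2 := by ring
    rwa [h4] at h3
  exact h1.of_isCoprime_of_dvd_right hN

/-- General counting lemma for fixed points: cosets with `N ∣ a² + t a c + c²` correspond to roots of
`x² + t x + 1` modulo `N` through `(a : c) ↦ a / c`. -/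
noncomputable def fixedEquiv (N : ℕ) [NeZero N] (t : ℤ) (m : SL(2, ℤ))
    (hm : ∀ g : SL(2, ℤ), m • mkP N g = mkP N g ↔
      (N : ℤ) ∣ g 0 0 ^ 2 + t * (g 0 0 * g 1 0) + g 1 0 ^ 2) :
    {x : ZMod N // x ^ 2 + t * x + 1 = 0} ≃ {x : P1 N // m • x = x} := by
  refine Equiv.ofBijective (fun x => ⟨mkP N (Classical.choose (exists_SL2
    (isCoprime_one_right (x := ((x : ZMod N).val : ℤ))))), ?_⟩) ⟨?_, ?_⟩
  · obtain ⟨h0, h1⟩ := Classical.choose_spec (exists_SL2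
      (isCoprime_one_right (x := ((x : ZMod N).val : ℤ))))
    rw [hm, h0, h1, ← ZMod.intCast_zmod_eq_zero_iff_dvd]
    have hx := x.2
    push_cast
    rw [ZMod.natCast_zmod_val]
    linear_combination hx
  · intro x y hxy
    obtain ⟨h0, h1⟩ := Classical.choose_spec (exists_SL2
      (isCoprime_one_right (x := ((x : ZMod N).val : ℤ))))
    obtain ⟨k0, k1⟩ := Classical.choose_spec (exists_SL2
      (isCoprime_one_right (x := ((y : ZMod N).val : ℤ))))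
    have h := congrArg Subtype.val hxy
    simp only at h
    rw [mkP_eq_iff, h0, h1, k0, k1, ← ZMod.intCast_zmod_eq_zero_iff_dvd] at h
    push_cast at h
    rw [ZMod.natCast_zmod_val, ZMod.natCast_zmod_val, mul_one, mul_one, sub_eq_zero] at h
    exact Subtype.ext h
  · rintro ⟨x, hx⟩
    obtain ⟨g, rfl⟩ := QuotientGroup.mk_surjective x
    rw [hm] at hx
    have hcop := isCoprime_of_dvd_quadratic (isCoprime_col g) hx
    have hunit : IsUnit ((g 1 0 : ℤ) : ZMod N) := by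
      obtain ⟨u, v, huv⟩ := hcop
      have h := congrArg (Int.cast : ℤ → ZMod N) huv
      push_cast at h
      rw [ZMod.natCast_self, mul_zero, add_zero] at h
      exact IsUnit.of_mul_eq_one _ (by rw [mul_comm]; exact h)
    obtain ⟨u, hu⟩ := hunit
    have hx' : ((g 0 0 : ℤ) : ZMod N) ^ 2 + t * (((g 0 0 : ℤ) : ZMod N) * ((g 1 0 : ℤ) : ZMod N))
        + ((g 1 0 : ℤ) : ZMod N) ^ 2 = 0 := by
      have := (ZMod.intCast_zmod_eq_zero_iff_dvd _ N).mpr hx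
      push_cast at this
      exact this
    rw [← hu] at hx'
    have hroot : (((g 0 0 : ℤ) : ZMod N) * (u⁻¹ : (ZMod N)ˣ)) ^ 2 +
        t * (((g 0 0 : ℤ) : ZMod N) * (u⁻¹ : (ZMod N)ˣ)) + 1 = 0 := by
      have h1 : (u : ZMod N) * (u⁻¹ : (ZMod N)ˣ) = 1 := u.mul_inv
      have h2 : (((g 0 0 : ℤ) : ZMod N) * (u⁻¹ : (ZMod N)ˣ)) ^ 2 +
        t * (((g 0 0 : ℤ) : ZMod N) * (u⁻¹ : (ZMod N)ˣ)) + 1 =
          ((u⁻¹ : (ZMod N)ˣ) : ZMod N) ^ 2 * (((g 0 0 : ℤ) : ZMod N) ^ 2 +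
            t * (((g 0 0 : ℤ) : ZMod N) * (u : ZMod N)) + (u : ZMod N) ^ 2) := by
        have h3 : ((u⁻¹ : (ZMod N)ˣ) : ZMod N) ^ 2 * (u : ZMod N) ^ 2 = 1 := by
          rw [← mul_pow, mul_comm, h1, one_pow]
        have h4 : ((u⁻¹ : (ZMod N)ˣ) : ZMod N) ^ 2 * (u : ZMod N) = ((u⁻¹ : (ZMod N)ˣ) : ZMod N) := by
          rw [pow_two, mul_assoc, mul_comm _ (u : ZMod N), h1, mul_one]
        linear_combination (-1 : ZMod N) * h3 - t * ((g 0 0 : ℤ) : ZMod N) * h4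
      rw [h2, hx', mul_zero]
    refine ⟨⟨_, hroot⟩, Subtype.ext ?_⟩
    obtain ⟨h0, h1⟩ := Classical.choose_spec (exists_SL2
      (isCoprime_one_right (x := ((((g 0 0 : ℤ) : ZMod N) * (u⁻¹ : (ZMod N)ˣ) : ZMod N).val : ℤ))))
    simp only
    rw [mkP_eq_iff, h0, h1, ← ZMod.intCast_zmod_eq_zero_iff_dvd]
    push_cast
    rw [ZMod.natCast_zmod_val, ← hu, mul_one, mul_assoc]
    rw [show ((u⁻¹ : (ZMod N)ˣ) : ZMod N) * (u : ZMod N) = 1 from u.inv_mul]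
    ring

/-- The number of fixed points of `S` on `SL₂(ℤ)/Γ₀(N)` is `ν₂(N)`. -/
theorem natCard_fixed_S (N : ℕ) [NeZero N] :
    Nat.card {x : P1 N // S • x = x} = ModularCurve.nuTwo N := by
  have e := fixedEquiv N 0 S (fun g => by rw [S_smul_eq_iff, zero_mul, add_zero])
  rw [← Nat.card_congr e, ModularCurve.nuTwo]
  refine Nat.card_congr (Equiv.subtypeEquivRight fun x => ?_)
  rw [Int.cast_zero, zero_mul, add_zero]

/-- The number of fixed points of `ST` on `SL₂(ℤ)/Γ₀(N)` is `ν₃(N)`. -/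
theorem natCard_fixed_ST (N : ℕ) [NeZero N] :
    Nat.card {x : P1 N // (S * T) • x = x} = ModularCurve.nuThree N := by
  have e := fixedEquiv N 1 (S * T) (fun g => by rw [ST_smul_eq_iff, one_mul])
  rw [← Nat.card_congr e, ModularCurve.nuThree]
  refine Nat.card_congr (Equiv.subtypeEquivRight fun x => ?_)
  rw [Int.cast_one, one_mul]

end Fermat.Agent.H45
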