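import Fermat.Agent.H45P1Basic

set_option autoImplicit false

open CongruenceSubgroup ModularGroup MatrixGroups

namespace Fermat.Agent.H45

/-! ### Orbits of `T` -/

theorem T_zpow_smul_eq_iff {N : ℕ} (k : ℤ) (g h : SL(2, ℤ)) :
    (T ^ k) • mkP N g = mkP N h ↔
      (N : ℤ) ∣ (g 0 0 + k * g 1 0) * h 1 0 - h 0 0 * g 1 0 := by
  rw [smul_mkP, mkP_eq_iff, T_zpow_mul_zero_zero, T_zpow_mul_one_zero]

theorem T_zpow_smul_self_iff {N : ℕ} (k : ℤ) (g : SL(2, ℤ)) :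
    (T ^ k) • mkP N g = mkP N g ↔ (N : ℤ) ∣ k * g 1 0 ^ 2 := by
  rw [T_zpow_smul_eq_iff]
  have : (g 0 0 + k * g 1 0) * g 1 0 - g 0 0 * g 1 0 = k * g 1 0 ^ 2 := by ring
  rw [this]

/-- The divisor `gcd(c, N)` of `N` attached to a matrix. -/
def colGcd (N : ℕ) (g : SL(2, ℤ)) : ℕ := Int.gcd (g 1 0) N

theorem colGcd_dvd (N : ℕ) (g : SL(2, ℤ)) : colGcd N g ∣ N := by
  have := Int.gcd_dvd_right (a := g 1 0) (b := (N : ℤ))
  exact_mod_cast this

theorem colGcd_dvd_of_dvd {N : ℕ} {g h : SL(2, ℤ)}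
    (H : (N : ℤ) ∣ g 0 0 * h 1 0 - h 0 0 * g 1 0) : colGcd N g ∣ colGcd N h := by
  apply Nat.dvd_gcd
  · have h1 : ((colGcd N g : ℕ) : ℤ) ∣ g 1 0 := Int.gcd_dvd_left _ _
    have h2 : ((colGcd N g : ℕ) : ℤ) ∣ (N : ℤ) := Int.gcd_dvd_right _ _
    have h3 : ((colGcd N g : ℕ) : ℤ) ∣ g 0 0 * h 1 0 := by
      have h4 := (h2.trans H).add (h1.mul_left (h 0 0))
      have h5 : g 0 0 * h 1 0 - h 0 0 * g 1 0 + h 0 0 * g 1 0 = g 0 0 * h 1 0 := by ring
      rwa [h5] at h4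
    have h6 : IsCoprime ((colGcd N g : ℕ) : ℤ) (g 0 0) :=
      ((isCoprime_col g).of_isCoprime_of_dvd_right h1).symm
    have h7 := h6.dvd_of_dvd_mul_left h3
    exact Int.natCast_dvd.mp h7
  · simpa using colGcd_dvd N g

theorem colGcd_eq_of_dvd {N : ℕ} {g h : SL(2, ℤ)}
    (H : (N : ℤ) ∣ g 0 0 * h 1 0 - h 0 0 * g 1 0) : colGcd N g = colGcd N h := by
  refine Nat.dvd_antisymm (colGcd_dvd_of_dvd H) (colGcd_dvd_of_dvd ?_)
  rw [← dvd_neg]
  have : -(h 0 0 * g 1 0 - g 0 0 * h 1 0) = g 0 0 * h 1 0 - h 0 0 * g 1 0 := by ring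
  rw [this]; exact H

/-- `gcd(c, N)` as a function on `SL₂(ℤ)/Γ₀(N)`. -/
def cuspDiv (N : ℕ) : P1 N → ℕ :=
  Quotient.lift (colGcd N) (fun g h H => by
    apply colGcd_eq_of_dvd
    have : mkP N g = mkP N h := Quotient.sound H
    rwa [mkP_eq_iff] at this)

theorem cuspDiv_mkP (N : ℕ) (g : SL(2, ℤ)) : cuspDiv N (mkP N g) = colGcd N g := rfl

theorem cuspDiv_dvd (N : ℕ) (x : P1 N) : cuspDiv N x ∣ N := by
  obtain ⟨g, rfl⟩ := QuotientGroup.mk_surjective x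
  exact colGcd_dvd N g

theorem cuspDiv_T_zpow_smul (N : ℕ) (k : ℤ) (x : P1 N) : cuspDiv N ((T ^ k) • x) = cuspDiv N x := by
  obtain ⟨g, rfl⟩ := QuotientGroup.mk_surjective x
  change colGcd N (T ^ k * g) = colGcd N g
  unfold colGcd
  rw [T_zpow_mul_one_zero]

/-- Criterion for two points with the same `gcd(c,N)` to lie in the same `T`-orbit. -/
theorem exists_T_zpow_smul_eq_iff {N : ℕ} [NeZero N] {d : ℕ} {g h : SL(2, ℤ)}
    (hg : colGcd N g = d) (hh : colGcd N h = d) :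
    (∃ k : ℤ, (T ^ k) • mkP N g = mkP N h) ↔
      ((Nat.gcd d (N / d) : ℕ) : ℤ) ∣ g 0 0 * (h 1 0 / d) - h 0 0 * (g 1 0 / d) := by
  have hN : N ≠ 0 := NeZero.ne N
  have hdN : d ∣ N := hg ▸ colGcd_dvd N g
  obtain ⟨N', rfl⟩ := hdN
  have hd : d ≠ 0 := fun h => hN (by rw [h, zero_mul])
  have hdZ : (d : ℤ) ≠ 0 := by exact_mod_cast hd
  have hdiv : d * N' / d = N' := Nat.mul_div_cancel_left N' (Nat.pos_of_ne_zero hd)
  rw [hdiv]
  obtain ⟨c', hc'⟩ : (d : ℤ) ∣ g 1 0 := by rw [← hg]; exact Int.gcd_dvd_left _ _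
  obtain ⟨c'', hc''⟩ : (d : ℤ) ∣ h 1 0 := by rw [← hh]; exact Int.gcd_dvd_left _ _
  have hg' : IsCoprime c' (N' : ℤ) := by
    rw [Int.isCoprime_iff_gcd_eq_one]
    have h1 : Int.gcd (g 1 0) ((d * N' : ℕ) : ℤ) = d := hg
    rw [hc'] at h1
    push_cast at h1
    rw [Int.gcd_mul_left, Int.natAbs_natCast] at h1
    exact Nat.eq_of_mul_eq_mul_left (Nat.pos_of_ne_zero hd) (by rw [h1, mul_one])
  have hh' : IsCoprime c'' (N' : ℤ) := by
    rw [Int.isCoprime_iff_gcd_eq_one]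
    have h1 : Int.gcd (h 1 0) ((d * N' : ℕ) : ℤ) = d := hh
    rw [hc''] at h1
    push_cast at h1
    rw [Int.gcd_mul_left, Int.natAbs_natCast] at h1
    exact Nat.eq_of_mul_eq_mul_left (Nat.pos_of_ne_zero hd) (by rw [h1, mul_one])
  rw [hc', hc'', Int.mul_ediv_cancel_left _ hdZ, Int.mul_ediv_cancel_left _ hdZ]
  have key : ∀ k : ℤ, (T ^ k) • mkP (d * N') g = mkP (d * N') h ↔
      (N' : ℤ) ∣ (g 0 0 * c'' - h 0 0 * c') + k * (d * (c' * c'')) := by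
    intro k
    rw [T_zpow_smul_eq_iff, hc', hc'']
    have h1 : (g 0 0 + k * (↑d * c')) * (↑d * c'') - h 0 0 * (↑d * c') =
      (d : ℤ) * ((g 0 0 * c'' - h 0 0 * c') + k * (d * (c' * c''))) := by ring
    rw [h1]
    push_cast
    exact mul_dvd_mul_iff_left hdZ
  constructor
  · rintro ⟨k, hk⟩
    rw [key] at hk
    have h1 : ((Nat.gcd d N' : ℕ) : ℤ) ∣ (N' : ℤ) := by
      exact_mod_cast Nat.gcd_dvd_right d N'
    have h2 : ((Nat.gcd d N' : ℕ) : ℤ) ∣ (d : ℤ) := by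
      exact_mod_cast Nat.gcd_dvd_left d N'
    have h3 := (h1.trans hk).sub ((h2.mul_right (c' * c'')).mul_left k)
    rwa [add_sub_cancel_right] at h3
  · intro hdvd
    have hcop : IsCoprime (c' * c'') (N' : ℤ) := hg'.mul_left hh'
    obtain ⟨u, v, huv⟩ := hcop
    obtain ⟨r, hr⟩ := hdvd
    have hbez := Nat.gcd_eq_gcd_ab d N'
    set a := Nat.gcdA d N'
    set b := Nat.gcdB d N'
    refine ⟨-(a * u * r), (key _).mpr ⟨(b * u * (c' * c'') + (Nat.gcd d N' : ℕ) * v) * r, ?_⟩⟩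
    rw [hr]
    linear_combination (-(Nat.gcd d N' : ℤ) * r) * huv + (u * (c' * c'') * r) * hbez

/-- The type of `T`-orbits on `SL₂(ℤ)/Γ₀(N)`, i.e. of cusps of `X₀(N)`. -/
abbrev TOrbits (N : ℕ) : Type := MulAction.orbitRel.Quotient (Subgroup.zpowers (T : SL(2, ℤ))) (P1 N)

abbrev mkO (N : ℕ) (x : P1 N) : TOrbits N := Quotient.mk _ x

theorem mkO_eq_iff {N : ℕ} (x y : P1 N) : mkO N x = mkO N y ↔ ∃ k : ℤ, (T ^ k) • x = y := by
  rw [Quotient.eq]
  change x ∈ MulAction.orbit (Subgroup.zpowers (T : SL(2, ℤ))) y ↔ _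
  constructor
  · rintro ⟨⟨m, k, rfl⟩, hm⟩
    refine ⟨-k, ?_⟩
    have hm' : (T ^ k) • y = x := hm
    rw [← hm', zpow_neg, inv_smul_smul]
  · rintro ⟨k, rfl⟩
    refine ⟨⟨T ^ (-k), ⟨-k, rfl⟩⟩, ?_⟩
    change (T ^ (-k)) • (T ^ k) • x = x
    rw [zpow_neg, inv_smul_smul]

/-- `gcd(c, N)` as a function on cusps. -/
def orbDiv (N : ℕ) : TOrbits N → ℕ :=
  Quotient.lift (cuspDiv N) (fun x y H => by
    have h1 : mkO N x = mkO N y := Quotient.sound H
    obtain ⟨k, rfl⟩ := (mkO_eq_iff x y).mp h1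
    rw [cuspDiv_T_zpow_smul])

theorem orbDiv_mkO (N : ℕ) (g : SL(2, ℤ)) : orbDiv N (mkO N (mkP N g)) = colGcd N g := rfl

theorem orbDiv_dvd (N : ℕ) (x : TOrbits N) : orbDiv N x ∣ N := by
  obtain ⟨y, rfl⟩ := Quotient.exists_rep x
  exact cuspDiv_dvd N y

/-- Units modulo a divisor `m` of `d` can be represented by integers prime to `d`. -/
theorem exists_isCoprime_lift {m d : ℕ} (hd : d ≠ 0) (hmd : m ∣ d) (u : (ZMod m)ˣ) :
    ∃ a : ℤ, IsCoprime a (d : ℤ) ∧ ((a : ℤ) : ZMod m) = u := by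
  have : NeZero d := ⟨hd⟩
  obtain ⟨v, hv⟩ := ZMod.unitsMap_surjective hmd u
  refine ⟨((v : ZMod d).val : ℤ), ?_, ?_⟩
  · have h := ZMod.val_coe_unit_coprime v
    exact Nat.isCoprime_iff_coprime.mpr h
  · rw [← hv]
    push_cast
    rw [ZMod.natCast_val]
    rfl

/-- The cusps with given `gcd(c, N) = d` correspond to the units modulo `gcd(d, N/d)`. -/
theorem natCard_orbDiv_eq (N : ℕ) [NeZero N] {d : ℕ} (hdN : d ∣ N) :
    Nat.card {x : TOrbits N // orbDiv N x = d} = Nat.totient (Nat.gcd d (N / d)) := by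
  have hN : N ≠ 0 := NeZero.ne N
  have hd : d ≠ 0 := fun h => hN (Nat.eq_zero_of_zero_dvd (h ▸ hdN))
  have hdZ : (d : ℤ) ≠ 0 := by exact_mod_cast hd
  set m := Nat.gcd d (N / d) with hm
  have hmd : m ∣ d := Nat.gcd_dvd_left _ _
  have hm0 : m ≠ 0 := fun h => hd (Nat.eq_zero_of_zero_dvd (h ▸ hmd))
  have : NeZero m := ⟨hm0⟩
  have hex : ∀ u : (ZMod m)ˣ, ∃ g : SL(2, ℤ), g 1 0 = d ∧ ((g 0 0 : ℤ) : ZMod m) = u := by
    intro u
    obtain ⟨a, ha, hau⟩ := exists_isCoprime_lift hd hmd u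
    obtain ⟨g, h0, h1⟩ := exists_SL2 ha
    exact ⟨g, h1, by rw [h0]; exact hau⟩
  choose G hG1 hG0 using hex
  have hcol : ∀ u, colGcd N (G u) = d := by
    intro u
    unfold colGcd
    rw [hG1 u, Int.gcd_natCast_natCast]
    exact Nat.gcd_eq_left hdN
  let F : (ZMod m)ˣ → {x : TOrbits N // orbDiv N x = d} := fun u =>
    ⟨mkO N (mkP N (G u)), by rw [orbDiv_mkO, hcol]⟩
  have hF : Function.Bijective F := by
    constructor
    · intro u v huv
      have h1 : mkO N (mkP N (G u)) = mkO N (mkP N (G v)) := congrArg Subtype.val huv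
      rw [mkO_eq_iff, exists_T_zpow_smul_eq_iff (hcol u) (hcol v), hG1, hG1, Int.ediv_self hdZ,
        mul_one, mul_one, ← hm, ← ZMod.intCast_zmod_eq_zero_iff_dvd] at h1
      push_cast at h1
      rw [hG0, hG0, sub_eq_zero] at h1
      exact Units.ext h1
    · rintro ⟨x, hx⟩
      obtain ⟨y, rfl⟩ := Quotient.exists_rep x
      obtain ⟨h, rfl⟩ := QuotientGroup.mk_surjective y
      have hh : colGcd N h = d := hx
      obtain ⟨c', hc'⟩ : (d : ℤ) ∣ h 1 0 := by rw [← hh]; exact Int.gcd_dvd_left _ _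
      have hmZ : (m : ℤ) ∣ h 1 0 := (Int.natCast_dvd_natCast.mpr hmd).trans ⟨c', hc'⟩
      have hunit : ∀ {z : ℤ}, IsCoprime z (m : ℤ) → IsUnit ((z : ℤ) : ZMod m) := by
        intro z hz
        obtain ⟨u, v, huv⟩ := hz
        have h := congrArg (Int.cast : ℤ → ZMod m) huv
        push_cast at h
        rw [ZMod.natCast_self, mul_zero, add_zero] at h
        exact IsUnit.of_mul_eq_one _ (by rw [mul_comm]; exact h)
      obtain ⟨ua, hua⟩ := hunit ((isCoprime_col h).of_isCoprime_of_dvd_right hmZ)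
      have hc'cop : IsCoprime c' ((N / d : ℕ) : ℤ) := by
        rw [Int.isCoprime_iff_gcd_eq_one]
        have h1 : Int.gcd (h 1 0) (N : ℤ) = d := hh
        obtain ⟨N', hN'⟩ := hdN
        have h2 : (N : ℤ) = (d : ℤ) * ((N / d : ℕ) : ℤ) := by
          rw [hN', Nat.mul_div_cancel_left N' (Nat.pos_of_ne_zero hd)]; push_cast; ring
        rw [hc', h2, Int.gcd_mul_left, Int.natAbs_natCast] at h1
        exact Nat.eq_of_mul_eq_mul_left (Nat.pos_of_ne_zero hd) (by rw [h1, mul_one])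
      have hmN : (m : ℤ) ∣ ((N / d : ℕ) : ℤ) := Int.natCast_dvd_natCast.mpr (Nat.gcd_dvd_right _ _)
      obtain ⟨uc, huc⟩ := hunit (hc'cop.of_isCoprime_of_dvd_right hmN)
      refine ⟨ua * uc⁻¹, Subtype.ext ?_⟩
      change mkO N (mkP N (G (ua * uc⁻¹))) = mkO N (mkP N h)
      rw [mkO_eq_iff, exists_T_zpow_smul_eq_iff (hcol _) hh, hG1, Int.ediv_self hdZ, mul_one, hc',
        Int.mul_ediv_cancel_left _ hdZ, ← hm, ← ZMod.intCast_zmod_eq_zero_iff_dvd]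
      push_cast
      rw [hG0, ← hua, ← huc, Units.val_mul, mul_assoc, Units.inv_mul, mul_one, sub_self]
  rw [← Nat.card_congr (Equiv.ofBijective F hF), Nat.card_eq_fintype_card,
    ZMod.card_units_eq_totient]

/-- The number of `T`-orbits on `SL₂(ℤ)/Γ₀(N)` is the number of cusps of `X₀(N)`. -/
theorem natCard_TOrbits (N : ℕ) [NeZero N] : Nat.card (TOrbits N) = ModularCurve.cuspCount N := by
  classical
  have : Finite (TOrbits N) := Quotient.finite _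
  have : Fintype (TOrbits N) := Fintype.ofFinite _
  have hN : N ≠ 0 := NeZero.ne N
  rw [Nat.card_eq_fintype_card, ← Finset.card_univ, ModularCurve.cuspCount]
  rw [Finset.card_eq_sum_card_fiberwise (f := orbDiv N) (t := N.divisors)
    (fun x _ => Nat.mem_divisors.mpr ⟨orbDiv_dvd N x, hN⟩)]
  refine Finset.sum_congr rfl fun d hd => ?_
  rw [← natCard_orbDiv_eq N (Nat.dvd_of_mem_divisors hd), Nat.card_eq_fintype_card,
    Fintype.card_subtype]

end Fermat.Agent.H45
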