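import Fermat.Agent.H45Poisson2

/-!
# Theta kernel of signature (3,1), part A: lattices in `ℂ` (S47-T1, helper45)

Poisson summation for a lattice of rank two in `ℂ`, with the pairing `2 Re (x ȳ)`.
-/

set_option autoImplicit false

noncomputable section

namespace Fermat.Agent.H45.TK

open Complex Real Matrix
open Fermat.Agent.H45

local notation "conj" => starRingEnd ℂ

/-- the real linear combination of a family of two complex numbers -/
def emb (e : Fin 2 → ℂ) (x : Fin 2 → ℝ) : ℂ := (x 0 : ℂ) * e 0 + (x 1 : ℂ) * e 1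

/-- the real inner product of signature `2 Re (x ȳ)` -/
def ip (b k : ℂ) : ℝ := 2 * (b * conj k).re

theorem ip_comm (b k : ℂ) : ip b k = ip k b := by
  simp only [ip, mul_re, conj_re, conj_im]
  ring

theorem ip_self (b : ℂ) : ip b b = 2 * ‖b‖ ^ 2 := by
  rw [ip, mul_conj, ofReal_re, normSq_eq_norm_sq]

theorem ip_add_left (a b k : ℂ) : ip (a + b) k = ip a k + ip b k := by
  simp only [ip, add_mul, add_re]
  ring

theorem ip_add_right (a b k : ℂ) : ip a (b + k) = ip a b + ip a k := by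
  rw [ip_comm, ip_add_left, ip_comm b, ip_comm k]

theorem ip_real_mul_left (x : ℝ) (b k : ℂ) : ip ((x : ℂ) * b) k = x * ip b k := by
  simp only [ip, mul_re, mul_im, ofReal_re, ofReal_im, conj_re, conj_im]
  ring

theorem ip_real_mul_right (x : ℝ) (b k : ℂ) : ip b ((x : ℂ) * k) = x * ip b k := by
  rw [ip_comm, ip_real_mul_left, ip_comm]

theorem ip_neg_left (b k : ℂ) : ip (-b) k = -ip b k := by
  simp only [ip, neg_mul, neg_re]
  ring

theorem ip_neg_right (b k : ℂ) : ip b (-k) = -ip b k := by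
  rw [ip_comm, ip_neg_left, ip_comm]

theorem ip_sub_left (a b k : ℂ) : ip (a - b) k = ip a k - ip b k := by
  rw [sub_eq_add_neg, ip_add_left, ip_neg_left]; ring

theorem ip_sub_right (a b k : ℂ) : ip a (b - k) = ip a b - ip a k := by
  rw [sub_eq_add_neg, ip_add_right, ip_neg_right]; ring

/-- A basis of `ℂ` over `ℝ` together with the dual basis for the form `2 Re (x ȳ)`. -/
structure Bin where
  /-- the basis -/
  e : Fin 2 → ℂ
  /-- the dual basis -/
  f : Fin 2 → ℂ
  dual : ∀ i j, ip (e i) (f j) = if i = j then 1 else 0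

namespace Bin

/-- the dual lattice -/
def dualB (B : Bin) : Bin where
  e := B.f
  f := B.e
  dual i j := by
    rw [ip_comm, B.dual]
    simp only [eq_comm]

@[simp] theorem dualB_e (B : Bin) : B.dualB.e = B.f := rfl
@[simp] theorem dualB_f (B : Bin) : B.dualB.f = B.e := rfl

variable (B : Bin)

theorem ip_emb (x y : Fin 2 → ℝ) : ip (emb B.e x) (emb B.f y) = dotProduct x y := by
  have h00 := B.dual 0 0
  have h01 := B.dual 0 1
  have h10 := B.dual 1 0
  have h11 := B.dual 1 1
  simp only [Fin.isValue, if_true, zero_ne_one, one_ne_zero, if_false] at h00 h01 h10 h11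
  rw [emb, emb, ip_add_left, ip_add_right, ip_add_right, ip_real_mul_left, ip_real_mul_left,
    ip_real_mul_left, ip_real_mul_left, ip_real_mul_right, ip_real_mul_right, ip_real_mul_right,
    ip_real_mul_right, h00, h01, h10, h11, dotProduct, Fin.sum_univ_two]
  ring

/-- the coordinates in the basis `e` -/
def co (b : ℂ) : Fin 2 → ℝ := fun i => ip b (B.f i)

theorem linInd : B.e 0 * conj (B.e 1) ≠ conj (B.e 0) * B.e 1 := by
  intro h
  have h00 := B.dual 0 0
  have h01 := B.dual 0 1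
  have h10 := B.dual 1 0
  have h11 := B.dual 1 1
  simp only [Fin.isValue, if_true, zero_ne_one, one_ne_zero, if_false] at h00 h01 h10 h11
  have him : (B.e 0).re * (B.e 1).im = (B.e 0).im * (B.e 1).re := by
    have := congrArg Complex.im h
    simp only [mul_im, conj_re, conj_im] at this
    linarith
  simp only [ip, mul_re, conj_re, conj_im] at h00 h01 h10 h11
  -- determinant
  have hdet : (2 * ((B.e 0).re * (B.f 0).re - (B.e 0).im * -(B.f 0).im)) *
      (2 * ((B.e 1).re * (B.f 1).re - (B.e 1).im * -(B.f 1).im)) -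
      (2 * ((B.e 0).re * (B.f 1).re - (B.e 0).im * -(B.f 1).im)) *
      (2 * ((B.e 1).re * (B.f 0).re - (B.e 1).im * -(B.f 0).im)) =
      4 * ((B.e 0).re * (B.e 1).im - (B.e 0).im * (B.e 1).re) *
        ((B.f 0).re * (B.f 1).im - (B.f 0).im * (B.f 1).re) := by ring
  rw [h00, h01, h10, h11, him] at hdet
  norm_num at hdet

theorem emb_co (b : ℂ) : emb B.e (B.co b) = b := by
  have h00 := B.dual 0 0
  have h01 := B.dual 0 1
  have h10 := B.dual 1 0
  have h11 := B.dual 1 1
  simp only [Fin.isValue, if_true, zero_ne_one, one_ne_zero, if_false] at h00 h01 h10 h11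
  simp only [ip, mul_re, conj_re, conj_im] at h00 h01 h10 h11
  set a := (B.e 0).re
  set b1 := (B.e 0).im
  set c := (B.e 1).re
  set d := (B.e 1).im
  set a' := (B.f 0).re
  set b' := (B.f 0).im
  set c' := (B.f 1).re
  set d' := (B.f 1).im
  -- matrices: 2 [[a,b],[c,d]] [[a',c'],[b',d']] = 1
  have hM : (!![a, b1; c, d] : Matrix (Fin 2) (Fin 2) ℝ) * ((2 : ℝ) • !![a', c'; b', d']) = 1 := by
    ext i j
    fin_cases i <;> fin_cases j <;> simp [Matrix.mul_apply, Fin.sum_univ_two] <;> linarith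
  have hM' := mul_eq_one_comm.mp hM
  have k00 := congrFun (congrFun hM' 0) 0
  have k01 := congrFun (congrFun hM' 0) 1
  have k10 := congrFun (congrFun hM' 1) 0
  have k11 := congrFun (congrFun hM' 1) 1
  simp [Matrix.mul_apply, Fin.sum_univ_two] at k00 k01 k10 k11
  apply Complex.ext
  · simp only [emb, co, ip, add_re, mul_re, ofReal_re, ofReal_im, conj_re, conj_im, zero_mul,
      sub_zero]
    linear_combination b.re * k00 + b.im * k10
  · simp only [emb, co, ip, add_im, mul_im, mul_re, ofReal_re, ofReal_im, conj_re, conj_im,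
      zero_mul, add_zero]
    linear_combination b.re * k01 + b.im * k11

/-- the Gram matrix -/
def gr : Matrix (Fin 2) (Fin 2) ℝ := Matrix.of fun i j => ip (B.e i) (B.e j)

theorem qf_gr (x : Fin 2 → ℝ) : qf B.gr x = 2 * ‖emb B.e x‖ ^ 2 := by
  rw [← ip_self, emb, ip_add_left, ip_add_right, ip_add_right, ip_real_mul_left, ip_real_mul_left,
    ip_real_mul_left, ip_real_mul_left, ip_real_mul_right, ip_real_mul_right, ip_real_mul_right,
    ip_real_mul_right, qf_expand, Fin.sum_univ_two, Fin.sum_univ_two, Fin.sum_univ_two]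
  simp only [gr, Matrix.of_apply]
  ring

theorem emb_eq_zero {x : Fin 2 → ℝ} (h : emb B.e x = 0) : x = 0 := by
  have h1 : ∀ y, dotProduct x y = 0 := fun y => by
    rw [← B.ip_emb x y, h]
    simp [ip]
  exact dotProduct_eq_zero x h1

theorem gr_posDef : B.gr.PosDef := by
  refine Matrix.PosDef.of_dotProduct_mulVec_pos ?_ ?_
  · ext i j
    rw [Matrix.conjTranspose_apply, gr, Matrix.of_apply, Matrix.of_apply, star_trivial, ip_comm]
  · intro x hx
    rw [star_trivial]
    change 0 < qf B.gr x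
    rw [B.qf_gr]
    have h1 : emb B.e x ≠ 0 := fun h => hx (B.emb_eq_zero h)
    have := norm_pos_iff.mpr h1
    positivity

theorem gr_mul : B.gr * B.dualB.gr = 1 := by
  ext i j
  rw [Matrix.mul_apply, Fin.sum_univ_two, gr, gr]
  simp only [Matrix.of_apply, dualB_e]
  have h1 := B.emb_co (B.f j)
  have h2 : ip (B.e i) (B.f j) = ip (B.e i) (emb B.e (B.co (B.f j))) := by rw [h1]
  rw [B.dual, emb, ip_add_right, ip_real_mul_right, ip_real_mul_right] at h2
  simp only [co] at h2
  rw [Matrix.one_apply, h2, ip_comm (B.f j), ip_comm (B.f j)]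
  ring

theorem gr_inv : B.gr⁻¹ = B.dualB.gr := Matrix.inv_eq_right_inv B.gr_mul

/-- the covolume factor `√(det gr)` -/
def vol : ℝ := √B.gr.det

theorem vol_pos : 0 < B.vol := Real.sqrt_pos.mpr B.gr_posDef.det_pos

theorem vol_mul : B.vol * B.dualB.vol = 1 := by
  rw [vol, vol, ← Real.sqrt_mul B.gr_posDef.det_pos.le, ← Matrix.det_mul, B.gr_mul,
    Matrix.det_one, Real.sqrt_one]

/-- the term of the binary theta series -/
def bt (e : Fin 2 → ℂ) (τ β κ : ℂ) (x : Fin 2 → ℤ) : ℂ :=
  cexp (2 * π * I * τ * ((‖emb e (fun i => x i) + β‖ ^ 2 : ℝ) : ℂ) +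
    2 * π * I * ((ip κ (emb e (fun i => x i) + β) : ℝ) : ℂ))

theorem bt_eq_gt (τ β κ : ℂ) (x : Fin 2 → ℤ) :
    bt B.e τ β κ x = gt B.gr (B.co β) (B.dualB.co κ) τ x := by
  have h1 : emb B.e (fun i => (x i : ℝ)) + β = emb B.e (sh (B.co β) x) := by
    conv_lhs => rw [← B.emb_co β]
    simp only [emb, sh]
    push_cast
    ring
  have h2 : ip κ (emb B.e (sh (B.co β) x)) = dotProduct (B.dualB.co κ) (sh (B.co β) x) := by
    conv_lhs => rw [← B.dualB.emb_co κ, ip_comm, dualB_e, B.ip_emb]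
    exact dotProduct_comm _ _
  rw [bt, gt, h1, h2, B.qf_gr]
  congr 1
  push_cast
  ring

theorem summable_bt {τ : ℂ} (hτ : 0 < τ.im) (β κ : ℂ) : Summable (bt B.e τ β κ) := by
  have : bt B.e τ β κ = gt B.gr (B.co β) (B.dualB.co κ) τ := funext fun x => B.bt_eq_gt τ β κ x
  rw [this]
  exact summable_gt _ B.gr_posDef _ _ _ hτ

/-- **Poisson summation** for a lattice in `ℂ`. -/
theorem poisson {τ : ℂ} (hτ : 0 < τ.im) (β κ : ℂ) :
    ∑' x : Fin 2 → ℤ, bt B.e τ β κ x = 1 / (-I * τ) * (1 / (B.vol : ℂ)) *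
      ∑' k : Fin 2 → ℤ, cexp (-(2 * π * I / τ) * ((‖emb B.f (fun i => k i) - κ‖ ^ 2 : ℝ) : ℂ) +
        2 * π * I * ((ip (emb B.f (fun i => k i)) β : ℝ) : ℂ)) := by
  have h1 := poisson_gt τ hτ 2 B.gr B.gr_posDef (B.co β) (B.dualB.co κ)
  rw [tsum_congr (B.bt_eq_gt τ β κ), h1]
  have hI : (-I * τ) ≠ 0 := by
    refine mul_ne_zero (neg_ne_zero.mpr I_ne_zero) ?_
    rintro rfl
    simp at hτ
  have h2 : (1 / (-I * τ) ^ (1 / 2 : ℂ)) ^ 2 = 1 / (-I * τ) := by
    rw [div_pow, one_pow, ← cpow_nat_mul]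
    norm_num
  rw [h2, vol]
  congr 1
  refine tsum_congr fun k => ?_
  have h3 : emb B.f (fun i => (k i : ℝ)) - κ =
      emb B.dualB.e (fun i => (k i : ℝ) - B.dualB.co κ i) := by
    conv_lhs => rw [← B.dualB.emb_co κ]
    simp only [emb, dualB_e]
    push_cast
    ring
  have h4 : ip (emb B.f fun i => (k i : ℝ)) β = dotProduct (fun i => (k i : ℝ)) (B.co β) := by
    conv_lhs => rw [← B.emb_co β, ip_comm, B.ip_emb]
    exact dotProduct_comm _ _
  rw [gt', B.gr_inv, B.dualB.qf_gr, h3, h4]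
  congr 1
  push_cast
  ring

end Bin

end Fermat.Agent.H45.TK
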