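import Fermat.Agent.H45TA

/-!
# Theta kernel of signature (3,1), part B: the kernel and the two partial Poisson summations
(S47-T1, helper45)
-/

set_option autoImplicit false

noncomputable section

namespace Fermat.Agent.H45.TK

open Complex Real Matrix
open Fermat.Agent.H45

local notation "conj" => starRingEnd ℂ

/-- `e(x) = exp (2πix)` -/
def e1 (x : ℝ) : ℂ := cexp (2 * π * I * (x : ℂ))

theorem e1_add (x y : ℝ) : e1 (x + y) = e1 x * e1 y := by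
  rw [e1, e1, e1, ← Complex.exp_add]
  congr 1
  push_cast
  ring

theorem e1_zero : e1 0 = 1 := by simp [e1]

theorem e1_int (n : ℤ) : e1 n = 1 := by
  rw [e1]
  have : (2 * π * I * ((n : ℝ) : ℂ) : ℂ) = n * (2 * π * I) := by push_cast; ring
  rw [this, Complex.exp_int_mul_two_pi_mul_I]

theorem norm_e1 (x : ℝ) : ‖e1 x‖ = 1 := by
  rw [e1, show (2 * π * I * (x : ℂ) : ℂ) = ((2 * π * x : ℝ) : ℂ) * I by push_cast; ring,
    Complex.norm_exp_ofReal_mul_I]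

theorem e1_neg (x : ℝ) : e1 (-x) = (e1 x)⁻¹ := by
  rw [e1, e1, ← Complex.exp_neg]
  congr 1
  push_cast
  ring

/-- the quadratic form `|b|² - ad` -/
def Qv (a : ℝ) (b : ℂ) (d : ℝ) : ℝ := ‖b‖ ^ 2 - a * d

/-- the coordinate along the negative line -/
def tw (z : ℂ) (y : ℝ) (a : ℝ) (b : ℂ) (d : ℝ) : ℝ :=
  (a - 2 * (b * conj z).re + d * (‖z‖ ^ 2 + y ^ 2)) / (2 * y)

/-- the majorant `Q + 2 t²` -/
def Qw (z : ℂ) (y : ℝ) (a : ℝ) (b : ℂ) (d : ℝ) : ℝ := Qv a b d + 2 * tw z y a b d ^ 2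

/-- the Siegel theta kernel: one term -/
def fK (τ z : ℂ) (y : ℝ) (a : ℝ) (b : ℂ) (d : ℝ) : ℂ :=
  ((√τ.im : ℝ) : ℂ) * cexp (2 * π * I * τ * (Qv a b d : ℂ)) *
    cexp (-(4 * π * τ.im * tw z y a b d ^ 2 : ℝ))

/-- the partial Fourier transform of the kernel -/
def gK (τ z : ℂ) (y : ℝ) (c : ℝ) (b : ℂ) (d : ℝ) : ℂ :=
  cexp (-(π * y ^ 2 * ‖(c : ℂ) + d * τ‖ ^ 2 / τ.im : ℝ)) *
    cexp (2 * π * I * τ * ((‖b - d * z‖ ^ 2 : ℝ) : ℂ)) * e1 (c * (d * ‖z‖ ^ 2 - ip b z))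

theorem norm_b_sub (b z : ℂ) (d : ℝ) :
    ‖b - d * z‖ ^ 2 = ‖b‖ ^ 2 - d * ip b z + d ^ 2 * ‖z‖ ^ 2 := by
  rw [ip, ← normSq_eq_norm_sq, ← normSq_eq_norm_sq, ← normSq_eq_norm_sq, normSq_apply,
    normSq_apply, normSq_apply]
  simp only [sub_re, sub_im, mul_re, mul_im, ofReal_re, ofReal_im, conj_re, conj_im, zero_mul,
    sub_zero, add_zero]
  ring

/-- the majorant as a sum of squares -/
theorem Qw_eq {z : ℂ} {y : ℝ} (hy : 0 < y) (a : ℝ) (b : ℂ) (d : ℝ) :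
    Qw z y a b d = ‖b - d * z‖ ^ 2 + (a - ip b z + d * ‖z‖ ^ 2) ^ 2 / (2 * y ^ 2) +
      d ^ 2 * y ^ 2 / 2 := by
  rw [Qw, Qv, tw, norm_b_sub]
  have : ip b z = 2 * (b * conj z).re := rfl
  rw [← this]
  field_simp
  ring

theorem norm_c_add (c d : ℝ) (τ : ℂ) :
    ‖(c : ℂ) + d * τ‖ ^ 2 = (c + d * τ.re) ^ 2 + (d * τ.im) ^ 2 := by
  rw [← normSq_eq_norm_sq, normSq_apply]
  simp only [add_re, add_im, mul_re, mul_im, ofReal_re, ofReal_im, zero_mul, sub_zero, add_zero,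
    zero_add]
  ring

/-- partial Poisson summation in the first variable -/
theorem step1 {α : ℝ} (hα : 0 < α) {τ : ℂ} (hτ : 0 < τ.im) (z : ℂ) {y : ℝ} (hy : 0 < y)
    (a0 c0 : ℝ) (b : ℂ) (d : ℝ) :
    ∑' m : ℤ, fK τ z y (a0 + α * m) b d * e1 (-(a0 + α * m) * c0) =
      ((y / α : ℝ) : ℂ) * ∑' m : ℤ, gK τ z y (c0 + m / α) b d * e1 (a0 * (m / α)) := by
  have hτe : τ = (τ.re : ℂ) + τ.im * I := (Complex.re_add_im τ).symm
  set v := τ.im with hv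
  set u := τ.re with hu
  set s : ℝ := -ip b z + d * ‖z‖ ^ 2 with hs
  set A : ℝ := v * α ^ 2 / y ^ 2 with hA
  set t : ℝ := (a0 + s) / α with ht
  set w : ℝ := -(α * (c0 + d * u)) with hw
  have hA0 : 0 < A := by positivity
  have h := gaussian_one_dim A hA0 I (by simp) t w
  have hIc : (-I * I : ℂ) ^ (1 / 2 : ℂ) = 1 := by simp
  rw [hIc, one_div_one, one_mul] at h
  have hsq : √A = √v * α / y := by
    rw [hA, Real.sqrt_div (by positivity), Real.sqrt_mul hτ.le, Real.sqrt_sq hα.le,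
      Real.sqrt_sq hy.le]
  have hαc : (α : ℂ) ≠ 0 := by exact_mod_cast hα.ne'
  have hyc : (y : ℂ) ≠ 0 := by exact_mod_cast hy.ne'
  have hvc : (v : ℂ) ≠ 0 := by exact_mod_cast hτ.ne'
  have hsv : ((√v : ℝ) : ℂ) ≠ 0 := by exact_mod_cast (Real.sqrt_pos.mpr hτ).ne'
  have hI : (I : ℂ) ^ 2 = -1 := I_sq
  -- the common factor
  set K : ℂ := cexp (2 * π * I * τ * ((‖b - d * z‖ ^ 2 : ℝ) : ℂ)) *
    cexp (-(π * v * d ^ 2 * y ^ 2 : ℝ)) * e1 (s * c0) with hK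
  have hL : ∀ m : ℤ, fK τ z y (a0 + α * m) b d * e1 (-(a0 + α * m) * c0) =
      ((√v : ℝ) : ℂ) * K * cexp (π * I * I * ((A * ((m : ℝ) + t) ^ 2 : ℝ) : ℂ) +
        2 * π * I * ((w * ((m : ℝ) + t) : ℝ) : ℂ)) := by
    intro m
    have h1 : (α * ((m : ℝ) + t)) = a0 + α * m + s := by
      rw [ht]; field_simp; ring
    have h2 : Qv (a0 + α * m) b d = ‖b - d * z‖ ^ 2 - (α * ((m : ℝ) + t)) * d := by
      rw [h1, Qv, norm_b_sub, hs]; ring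
    have h3 : tw z y (a0 + α * m) b d = (α * ((m : ℝ) + t) + d * y ^ 2) / (2 * y) := by
      rw [h1, tw, hs, ip]; ring
    have h4 : -(a0 + α * m) * c0 = s * c0 - (α * ((m : ℝ) + t)) * c0 := by
      rw [h1]; ring
    rw [fK, ← hv, h2, h3, h4, hK, e1, e1]
    simp only [mul_assoc, ← Complex.exp_add]
    congr 2
    rw [hA, hw]
    clear_value u v
    subst hτe
    push_cast
    field_simp
    ring_nf
    rw [hI]
    ring_nf
  have hR : ∀ m : ℤ, gK τ z y (c0 + m / α) b d * e1 (a0 * (m / α)) =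
      K * cexp (-π * I / I * ((((m : ℝ) - w) ^ 2 / A : ℝ) : ℂ) +
        2 * π * I * (((m : ℝ) * t : ℝ) : ℂ)) := by
    intro m
    have h5 : (c0 + (m : ℝ) / α) * (d * ‖z‖ ^ 2 - ip b z) = (c0 + m / α) * s := by
      rw [hs]; ring
    rw [gK, norm_c_add, ← hv, ← hu, h5, hK, e1, e1, e1]
    simp only [mul_assoc, ← Complex.exp_add]
    congr 1
    rw [hA, hw, ht]
    clear_value u v s
    subst hτe
    push_cast
    field_simp
    ring_nf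
  rw [tsum_congr hL, tsum_congr hR, tsum_mul_left, tsum_mul_left, h, hsq]
  generalize ∑' m : ℤ, cexp (-π * I / I * ((((m : ℝ) - w) ^ 2 / A : ℝ) : ℂ) +
    2 * π * I * (((m : ℝ) * t : ℝ) : ℂ)) = T
  push_cast
  field_simp

/-- partial Poisson summation in the second variable -/
theorem step2 (B : Bin) {τ : ℂ} (hτ : 0 < τ.im) (z : ℂ) (y : ℝ) (c d : ℝ) (b0 b1 : ℂ) :
    ∑' x : Fin 2 → ℤ, gK (-1 / τ) z y c (b0 + emb B.e fun i => x i) d *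
        e1 (ip (b0 + emb B.e fun i => x i) b1) =
      (-I * τ / B.vol) * ∑' k : Fin 2 → ℤ, gK τ z y (-d) (b1 + emb B.f fun i => k i) c *
        e1 (-ip b0 (emb B.f fun i => k i)) := by
  have hτ0 : τ ≠ 0 := by rintro rfl; simp at hτ
  have hτ' : 0 < (-1 / τ : ℂ).im := im_neg_one_div_pos hτ
  have h := B.poisson hτ' (b0 - d * z) (b1 - c * z)
  -- the imaginary part of `-1/τ`
  have him : (-1 / τ : ℂ).im = τ.im / ‖τ‖ ^ 2 := by
    rw [neg_div, one_div, neg_im, inv_im, normSq_eq_norm_sq, neg_div, neg_neg]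
  have hexp : y ^ 2 * ‖(c : ℂ) + d * (-1 / τ)‖ ^ 2 / (-1 / τ : ℂ).im =
      y ^ 2 * ‖((-d : ℝ) : ℂ) + c * τ‖ ^ 2 / τ.im := by
    have h1 : (c : ℂ) + d * (-1 / τ) = (((-d : ℝ) : ℂ) + c * τ) / τ := by
      push_cast
      field_simp
      ring
    have h2 : ‖τ‖ ≠ 0 := norm_ne_zero_iff.mpr hτ0
    rw [h1, norm_div, him]
    field_simp
  have hL : ∀ x : Fin 2 → ℤ, gK (-1 / τ) z y c (b0 + emb B.e fun i => x i) d *
        e1 (ip (b0 + emb B.e fun i => x i) b1) =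
      cexp (-(π * (y ^ 2 * ‖((-d : ℝ) : ℂ) + c * τ‖ ^ 2 / τ.im) : ℝ)) *
        e1 (d * ip b1 z - c * d * ‖z‖ ^ 2) * Bin.bt B.e (-1 / τ) (b0 - d * z) (b1 - c * z) x := by
    intro x
    set e := emb B.e fun i => (x i : ℝ) with he
    have h3 : π * y ^ 2 * ‖(c : ℂ) + d * (-1 / τ)‖ ^ 2 / (-1 / τ : ℂ).im =
        π * (y ^ 2 * ‖((-d : ℝ) : ℂ) + c * τ‖ ^ 2 / τ.im) := by
      rw [← hexp]; ring
    have h4 : e + (b0 - d * z) = b0 + e - d * z := by ring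
    rw [gK, Bin.bt, h3, ← he, h4, Complex.exp_add]
    have h5 : cexp (2 * π * I * ((ip (b1 - c * z) (b0 + e - d * z) : ℝ) : ℂ)) =
      e1 (ip (b1 - c * z) (b0 + e - d * z)) := rfl
    rw [h5]
    have h6 : c * (d * ‖z‖ ^ 2 - ip (b0 + e) z) + ip (b0 + e) b1 =
        (d * ip b1 z - c * d * ‖z‖ ^ 2) + ip (b1 - c * z) (b0 + e - d * z) := by
      rw [ip_sub_left, ip_sub_right, ip_sub_right, ip_real_mul_left, ip_real_mul_left,
        ip_real_mul_right, ip_real_mul_right, ip_comm b1 (b0 + e), ip_comm z (b0 + e), ip_self]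
      ring
    have h7 : e1 (c * (d * ‖z‖ ^ 2 - ip (b0 + e) z)) * e1 (ip (b0 + e) b1) =
        e1 (d * ip b1 z - c * d * ‖z‖ ^ 2) * e1 (ip (b1 - c * z) (b0 + e - d * z)) := by
      rw [← e1_add, ← e1_add, h6]
    linear_combination (cexp (-(π * (y ^ 2 * ‖((-d : ℝ) : ℂ) + c * τ‖ ^ 2 / τ.im) : ℝ)) *
      cexp (2 * π * I * (-1 / τ) * ((‖b0 + e - d * z‖ ^ 2 : ℝ) : ℂ))) * h7
  have hR : ∀ k : Fin 2 → ℤ, gK τ z y (-d) (b1 + emb B.f fun i => k i) c *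
        e1 (-ip b0 (emb B.f fun i => k i)) =
      cexp (-(π * (y ^ 2 * ‖((-d : ℝ) : ℂ) + c * τ‖ ^ 2 / τ.im) : ℝ)) *
        e1 (d * ip b1 z - c * d * ‖z‖ ^ 2) *
        cexp (-(2 * π * I / (-1 / τ)) *
          ((‖emb B.f (fun i => ((-k) i : ℤ)) - (b1 - c * z)‖ ^ 2 : ℝ) : ℂ) +
        2 * π * I * ((ip (emb B.f (fun i => ((-k) i : ℤ))) (b0 - d * z) : ℝ) : ℂ)) := by
    intro k
    set f := emb B.f fun i => (k i : ℝ) with hf
    have hf' : emb B.f (fun i => (((-k) i : ℤ) : ℝ)) = -f := by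
      rw [hf, emb, emb]
      push_cast [Pi.neg_apply]
      ring
    have h3 : ‖-f - (b1 - c * z)‖ = ‖b1 + f - c * z‖ := by
      rw [← norm_neg]
      congr 1
      ring
    have h4 : -(2 * π * I / (-1 / τ) : ℂ) = 2 * π * I * τ := by
      field_simp
    rw [gK, hf', h3, h4, Complex.exp_add]
    have h5 : cexp (2 * π * I * ((ip (-f) (b0 - d * z) : ℝ) : ℂ)) = e1 (ip (-f) (b0 - d * z)) := rfl
    rw [h5]
    have h6 : -d * (c * ‖z‖ ^ 2 - ip (b1 + f) z) + -ip b0 f =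
        (d * ip b1 z - c * d * ‖z‖ ^ 2) + ip (-f) (b0 - d * z) := by
      rw [ip_neg_left, ip_sub_right, ip_real_mul_right, ip_add_left, ip_comm b0 f]
      ring
    have h7 : e1 (-d * (c * ‖z‖ ^ 2 - ip (b1 + f) z)) * e1 (-ip b0 f) =
        e1 (d * ip b1 z - c * d * ‖z‖ ^ 2) * e1 (ip (-f) (b0 - d * z)) := by
      rw [← e1_add, ← e1_add, h6]
    have h8 : π * y ^ 2 * ‖((-d : ℝ) : ℂ) + c * τ‖ ^ 2 / τ.im =
        π * (y ^ 2 * ‖((-d : ℝ) : ℂ) + c * τ‖ ^ 2 / τ.im) := by ring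
    rw [h8]
    linear_combination (cexp (-(π * (y ^ 2 * ‖((-d : ℝ) : ℂ) + c * τ‖ ^ 2 / τ.im) : ℝ)) *
      cexp (2 * π * I * τ * ((‖b1 + f - c * z‖ ^ 2 : ℝ) : ℂ))) * h7
  rw [tsum_congr hL, tsum_congr hR, tsum_mul_left, tsum_mul_left, h]
  have hneg : ∑' k : Fin 2 → ℤ, cexp (-(2 * π * I / (-1 / τ)) *
        ((‖emb B.f (fun i => (((-k) i : ℤ) : ℝ)) - (b1 - c * z)‖ ^ 2 : ℝ) : ℂ) +
        2 * π * I * ((ip (emb B.f (fun i => (((-k) i : ℤ) : ℝ))) (b0 - d * z) : ℝ) : ℂ)) =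
      ∑' k : Fin 2 → ℤ, cexp (-(2 * π * I / (-1 / τ)) *
        ((‖emb B.f (fun i => (k i : ℝ)) - (b1 - c * z)‖ ^ 2 : ℝ) : ℂ) +
        2 * π * I * ((ip (emb B.f (fun i => (k i : ℝ))) (b0 - d * z) : ℝ) : ℂ)) :=
    (Equiv.neg (Fin 2 → ℤ)).tsum_eq (fun k : Fin 2 → ℤ => cexp (-(2 * π * I / (-1 / τ)) *
        ((‖emb B.f (fun i => (k i : ℝ)) - (b1 - c * z)‖ ^ 2 : ℝ) : ℂ) +
        2 * π * I * ((ip (emb B.f (fun i => (k i : ℝ))) (b0 - d * z) : ℝ) : ℂ)))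
  rw [hneg]
  have hv0 : (B.vol : ℂ) ≠ 0 := by exact_mod_cast B.vol_pos.ne'
  have hconst : 1 / (-I * (-1 / τ)) * (1 / (B.vol : ℂ)) = -I * τ / B.vol := by
    have hI : (I : ℂ) ≠ 0 := I_ne_zero
    field_simp
    rw [I_sq]
    ring
  rw [hconst]
  ring

end Fermat.Agent.H45.TK
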