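import Fermat.Agent.H45TC
import Fermat.Agent.H96TDef

/-!
# Theta kernel of signature (3,1), part D: the kernel `Theta n φ` over `ℤ[ω]`
(S47-T1, helper45)

Action of `T` and `S` on the space of periodic test functions.
-/

set_option autoImplicit false

noncomputable section

namespace Fermat.Agent.H45.TK

open Complex Real Matrix
open Fermat.Agent.H45
open Fermat.Agent.S47T (Eis om sq3 sq3E omE eisEquiv coe_eisEquiv qL pL hQ pair Theta ee om_rel
  sq3_mul_sq3 sq3_ne_zero conj_om conj_sq3 sq3_eq)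

local notation "conj" => starRingEnd ℂ

/-- one term of the kernel, indexed by `ℤ × ℤ[ω] × ℤ` -/
def fL (n : ℕ) (τ : ℂ) (w : H3) (x : S47T.Lat) : ℂ :=
  fK τ w.z w.y ((x.1 : ℝ) / n) ((x.2.1 : ℂ) / sq3 / n) ((x.2.2 : ℝ) / n)

theorem Qv_eq_hQ (a : ℝ) (b : ℂ) (d : ℝ) : Qv a b d = hQ a b d := by
  rw [Qv, hQ, normSq_eq_norm_sq]

theorem tw_eq_pair (w : H3) (a : ℝ) (b : ℂ) (d : ℝ) : tw w.z w.y a b d = pair a b d w := by
  rw [tw, pair, normSq_eq_norm_sq]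

theorem hQ_div (n : ℕ) (a : ℝ) (b : ℂ) (d : ℝ) :
    hQ (a / n) (b / n) (d / n) = hQ a b d / n ^ 2 := by
  rw [hQ, hQ, normSq_div, normSq_natCast]
  ring

theorem pair_div (n : ℕ) (w : H3) (a : ℝ) (b : ℂ) (d : ℝ) :
    pair (a / n) (b / n) (d / n) w = pair a b d w / n := by
  rw [pair, pair]
  have h : (b / n * conj w.z).re = (b * conj w.z).re / n := by
    rw [div_mul_eq_mul_div, ← ofReal_natCast, div_ofReal_re]
  rw [h]
  ring

theorem fL_eq (n : ℕ) (τ : ℂ) (w : H3) (x : S47T.Lat) :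
    fL n τ w x = ((√τ.im : ℝ) : ℂ) * (ee (τ * (qL x / n ^ 2 : ℝ)) *
      (Real.exp (-4 * π * τ.im * (pL x w / n) ^ 2) : ℝ)) := by
  rw [fL, fK, Qv_eq_hQ, tw_eq_pair, hQ_div, pair_div, mul_assoc, ee, Complex.ofReal_exp]
  congr 2
  · congr 1
    rw [qL]
    ring
  · congr 1
    rw [pL]
    push_cast
    ring

/-- the kernel as a sum of terms -/
theorem Theta_eq (n : ℕ) (φ : S47T.Lat → ℂ) (τ : ℂ) (w : H3) :
    Theta n φ τ w = ∑' x, φ x * fL n τ w x := by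
  rw [Theta, ← tsum_mul_left]
  refine tsum_congr fun x => ?_
  rw [fL_eq]
  ring

/-! ### Index sets -/

/-- the coordinates of `ℤ[ω]` -/
def coE : (Fin 2 → ℤ) ≃ Eis :=
  (finTwoArrowEquiv ℤ).trans eisEquiv

theorem coe_coE (x : Fin 2 → ℤ) : ((coE x : Eis) : ℂ) = (x 0 : ℂ) + x 1 * om := rfl

/-- the coordinates of `ℤ[ω]`, dual version -/
def coE' : (Fin 2 → ℤ) ≃ Eis :=
  ((finTwoArrowEquiv ℤ).trans ((Equiv.prodComm ℤ ℤ).trans ((Equiv.neg ℤ).prodCongr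
    (Equiv.refl ℤ)))).trans eisEquiv

theorem coe_coE' (x : Fin 2 → ℤ) : ((coE' x : Eis) : ℂ) = -(x 1 : ℂ) + x 0 * om := by
  change ((-x 1 : ℤ) : ℂ) + x 0 * om = _
  push_cast
  rfl

/-- the index set of the lattice -/
def ixE : Ix ≃ S47T.Lat := (Equiv.refl ℤ).prodCongr (coE.prodCongr (Equiv.refl ℤ))

/-- the index set of the dual lattice -/
def ixE' : Ix ≃ S47T.Lat := (Equiv.refl ℤ).prodCongr (coE'.prodCongr (Equiv.refl ℤ))

theorem om_mul_om : om * om = -1 - om := by linear_combination om_rel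

theorem om_re : om.re = -1 / 2 := by
  rw [om, sq3]
  simp

theorem sq3_re : sq3.re = 0 := by
  rw [sq3]
  simp

theorem sq3_im : sq3.im = √3 := by
  rw [sq3]
  simp

theorem om_im : om.im = √3 / 2 := by
  rw [om, sq3]
  simp

/-- the trace of an element of the inverse different -/
theorem ip_eq (x y : ℂ) : ((ip x y : ℝ) : ℂ) = x * conj y + conj x * y := by
  have h : (((x * conj y).re : ℝ) : ℂ) = (x * conj y + conj (x * conj y)) / 2 := by
    rw [Complex.re_eq_add_conj]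
  rw [ip]
  push_cast
  rw [h, map_mul, Complex.conj_conj]
  ring

/-- the lattice `n ℤ[ω]` with its dual `n⁻¹ (√-3)⁻¹ ℤ[ω]` -/
def binE (n : ℕ) (hn : 0 < n) : Bin where
  e := ![(n : ℂ), n * om]
  f := ![om / sq3 / n, -1 / sq3 / n]
  dual := by
    have hn0 : (n : ℂ) ≠ 0 := by exact_mod_cast hn.ne'
    have hs := sq3_ne_zero
    have hs2 : sq3 ^ 2 = -3 := by rw [sq, sq3_mul_sq3]
    have hom : om = (-1 + sq3) / 2 := rfl
    intro i j
    have key : ((ip ((![(n : ℂ), n * om] : Fin 2 → ℂ) i)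
        ((![om / sq3 / n, -1 / sq3 / n] : Fin 2 → ℂ) j) : ℝ) : ℂ) =
          ((if i = j then 1 else 0 : ℝ) : ℂ) := by
      rw [ip_eq]
      fin_cases i <;> fin_cases j <;>
        simp only [Fin.zero_eta, Fin.mk_one, Matrix.cons_val_zero, Matrix.cons_val_one,
          map_div₀, map_mul, map_neg, map_one, map_natCast, conj_om, conj_sq3, if_true,
          Fin.isValue, zero_ne_one, one_ne_zero, if_false, ofReal_one, ofReal_zero,
          Matrix.cons_val_fin_one] <;>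
        field_simp <;> (try simp only [hom]) <;> (try ring_nf)
    exact_mod_cast key

theorem emb_binE (n : ℕ) (hn : 0 < n) (x : Fin 2 → ℤ) :
    emb (binE n hn).e (fun i => x i) = n * (coE x : ℂ) := by
  rw [coe_coE, emb, binE]
  simp only [Matrix.cons_val_zero, Matrix.cons_val_one, Matrix.cons_val_fin_one]
  push_cast
  ring

theorem emb_binE' (n : ℕ) (hn : 0 < n) (x : Fin 2 → ℤ) :
    emb (binE n hn).f (fun i => x i) = (coE' x : ℂ) / sq3 / n := by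
  rw [coe_coE', emb, binE]
  simp only [Matrix.cons_val_zero, Matrix.cons_val_one, Matrix.cons_val_fin_one]
  push_cast
  ring

theorem vol_binE (n : ℕ) (hn : 0 < n) : (binE n hn).vol = √3 * n ^ 2 := by
  have h3 : √3 * √3 = (3 : ℝ) := Real.mul_self_sqrt (by norm_num)
  have hdet : (binE n hn).gr.det = 3 * (n ^ 2 : ℝ) ^ 2 := by
    rw [Matrix.det_fin_two]
    simp only [Bin.gr, Matrix.of_apply, binE, Matrix.cons_val_zero, Matrix.cons_val_one,
      Matrix.cons_val_fin_one, ip, mul_re, mul_im, conj_re, conj_im, natCast_re, natCast_im,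
      om_re, om_im]
    ring_nf
    have h4 : √3 ^ 2 = (3 : ℝ) := by rw [sq]; exact h3
    simp only [h4]
  rw [Bin.vol, hdet, Real.sqrt_mul (by norm_num), Real.sqrt_sq (by positivity)]

/-! ### Periodic test functions -/

/-- The map `(a, β, d) ↦ (n² a, n² √-3 β, n² d)`. -/
def mulP (n : ℕ) : S47T.Lat →+ S47T.Lat where
  toFun x := ((n ^ 2 : ℤ) * x.1, (n ^ 2 : ℕ) * sq3E * x.2.1, (n ^ 2 : ℤ) * x.2.2)
  map_zero' := by ext <;> simp
  map_add' x y := by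
    refine Prod.ext ?_ (Prod.ext ?_ ?_) <;> simp [mul_add]

theorem mulP_fst (n : ℕ) (x : S47T.Lat) : (mulP n x).1 = (n ^ 2 : ℤ) * x.1 := rfl
theorem mulP_mid (n : ℕ) (x : S47T.Lat) :
    (((mulP n x).2.1 : Eis) : ℂ) = (n : ℂ) ^ 2 * sq3 * x.2.1 := by
  change (((n ^ 2 : ℕ) : ℂ)) * sq3 * x.2.1 = _
  push_cast
  rfl
theorem mulP_snd (n : ℕ) (x : S47T.Lat) : (mulP n x).2.2 = (n ^ 2 : ℤ) * x.2.2 := rfl

theorem mulP_injective {n : ℕ} (hn : 0 < n) : Function.Injective (mulP n) := by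
  have hnz : (n ^ 2 : ℤ) ≠ 0 := by positivity
  have hnc : ((n : ℂ) ^ 2 * sq3) ≠ 0 :=
    mul_ne_zero (pow_ne_zero 2 (by exact_mod_cast hn.ne')) sq3_ne_zero
  intro x y h
  have h1 := congrArg (fun t : S47T.Lat => t.1) h
  have h2 := congrArg (fun t : S47T.Lat => ((t.2.1 : Eis) : ℂ)) h
  have h3 := congrArg (fun t : S47T.Lat => t.2.2) h
  simp only [mulP_fst, mulP_mid, mulP_snd] at h1 h2 h3
  refine Prod.ext (mul_left_cancel₀ hnz h1) (Prod.ext (Subtype.ext (mul_left_cancel₀ hnc h2))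
    (mul_left_cancel₀ hnz h3))

/-- Periodic test functions. -/
def Per (n : ℕ) (φ : S47T.Lat → ℂ) : Prop := ∀ x y, φ (x + mulP n y) = φ x

/-- the polar form of `qL` -/
def BL (x y : S47T.Lat) : ℝ :=
  ip ((x.2.1 : ℂ) / sq3) ((y.2.1 : ℂ) / sq3) - (x.1 : ℝ) * y.2.2 - (x.2.2 : ℝ) * y.1

theorem qL_add (x y : S47T.Lat) : qL (x + y) = qL x + qL y + BL x y := by
  rw [qL, qL, qL, BL, hQ, hQ, hQ, ip]
  simp only [Prod.fst_add, Prod.snd_add, Subring.coe_add, Int.cast_add, add_div]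
  rw [normSq_add]
  ring

theorem BL_comm (x y : S47T.Lat) : BL x y = BL y x := by
  rw [BL, BL, ip_comm]
  ring

theorem BL_add_right (x y z : S47T.Lat) : BL x (y + z) = BL x y + BL x z := by
  rw [BL, BL, BL]
  simp only [Prod.fst_add, Prod.snd_add, Subring.coe_add, Int.cast_add, add_div]
  rw [ip_add_right]
  ring

/-- the trace form on the inverse different -/
theorem ip_div_sq3 (x y : Eis) : ∃ k : ℤ, ip ((x : ℂ) / sq3) (y : ℂ) = k := by
  obtain ⟨a, b, hx⟩ := x.2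
  obtain ⟨c, d, hy⟩ := y.2
  refine ⟨b * c - a * d, ?_⟩
  have h : ((ip ((x : ℂ) / sq3) (y : ℂ) : ℝ) : ℂ) = (((b * c - a * d : ℤ) : ℝ) : ℂ) := by
    have hs := sq3_ne_zero
    rw [ip_eq, hx, hy]
    simp only [map_div₀, map_add, map_mul, conj_om, conj_sq3, map_intCast]
    have h1 : ((a : ℂ) + b * om) * (c + d * (-1 - om)) - (a + b * (-1 - om)) * (c + d * om) =
        (b * c - a * d) * sq3 := by
      rw [sq3_eq]; ring
    have h2 : ((a : ℂ) + b * om) / sq3 * (c + d * (-1 - om)) +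
        (a + b * (-1 - om)) / -sq3 * (c + d * om) =
        (((a : ℂ) + b * om) * (c + d * (-1 - om)) - (a + b * (-1 - om)) * (c + d * om)) / sq3 := by
      rw [div_neg]
      ring
    rw [h2, h1, mul_div_assoc, div_self hs]
    push_cast
    ring
  exact_mod_cast h

/-- the polar form on the period lattice -/
theorem BL_mulP (n : ℕ) (x y : S47T.Lat) : ∃ k : ℤ, BL x (mulP n y) = n ^ 2 * k := by
  obtain ⟨k, hk⟩ := ip_div_sq3 x.2.1 y.2.1
  refine ⟨k - x.1 * y.2.2 - x.2.2 * y.1, ?_⟩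
  rw [BL, mulP_fst, mulP_mid, mulP_snd]
  have h : (n : ℂ) ^ 2 * sq3 * (y.2.1 : ℂ) / sq3 = (((n : ℝ) ^ 2 : ℝ) : ℂ) * y.2.1 := by
    have hs := sq3_ne_zero
    push_cast
    field_simp
  rw [h, ip_real_mul_right, hk]
  push_cast
  ring

theorem qL_mulP (n : ℕ) (y : S47T.Lat) : ∃ k : ℤ, qL (mulP n y) = n ^ 2 * k := by
  obtain ⟨a, b, hy⟩ := y.2.1.2
  refine ⟨n ^ 2 * ((a ^ 2 - a * b + b ^ 2) - y.1 * y.2.2), ?_⟩
  rw [qL, hQ, mulP_fst, mulP_mid, mulP_snd]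
  have h : (n : ℂ) ^ 2 * sq3 * (y.2.1 : ℂ) / sq3 = (((n : ℝ) ^ 2 : ℝ) : ℂ) * y.2.1 := by
    have hs := sq3_ne_zero
    push_cast
    field_simp
  rw [h, normSq_mul, normSq_ofReal, hy, S47T.normSq_eis]
  push_cast
  ring

/-- the character `x ↦ e(-B(r, x)/n²)` is periodic -/
theorem e1_BL_add_mulP {n : ℕ} (hn : 0 < n) (r x y : S47T.Lat) :
    e1 (-(BL r (x + mulP n y)) / n ^ 2) = e1 (-(BL r x) / n ^ 2) := by
  obtain ⟨k, hk⟩ := BL_mulP n r y
  have hn0 : (n : ℝ) ≠ 0 := by exact_mod_cast hn.ne'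
  have : -(BL r (x + mulP n y)) / n ^ 2 = -(BL r x) / n ^ 2 + ((-k : ℤ) : ℝ) := by
    rw [BL_add_right, hk]
    push_cast
    field_simp
    ring
  rw [this, e1_add, e1_int, mul_one]

theorem e1_qL_add_mulP {n : ℕ} (hn : 0 < n) (x y : S47T.Lat) :
    e1 (qL (x + mulP n y) / n ^ 2) = e1 (qL x / n ^ 2) := by
  obtain ⟨k, hk⟩ := BL_mulP n x y
  obtain ⟨l, hl⟩ := qL_mulP n y
  have hn0 : (n : ℝ) ≠ 0 := by exact_mod_cast hn.ne'
  have : qL (x + mulP n y) / n ^ 2 = qL x / n ^ 2 + ((k + l : ℤ) : ℝ) := by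
    rw [qL_add, hk, hl]
    push_cast
    field_simp
    ring
  rw [this, e1_add, e1_int, mul_one]

/-- **Poisson summation** on the index set. -/
theorem poissonL {n : ℕ} (hn : 0 < n) {τ : ℂ} (hτ : 0 < τ.im) (w : H3) (r : S47T.Lat) :
    ∑' x : S47T.Lat, fL n (-1 / τ) w (r + mulP n x) =
      (-I * τ / (√3 * n ^ 4 : ℝ)) * ∑' x : S47T.Lat, fL n τ w x * e1 (-(BL r x) / n ^ 2) := by
  have hn0 : (n : ℝ) ≠ 0 := by exact_mod_cast hn.ne'
  have hnc : (n : ℂ) ≠ 0 := by exact_mod_cast hn.ne'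
  have hnp : (0 : ℝ) < n := by exact_mod_cast hn
  have hs := sq3_ne_zero
  have h := poissonV (binE n hn) hnp hnp ((r.1 : ℝ) / n) ((r.2.2 : ℝ) / n) 0 0
    ((r.2.1 : ℂ) / sq3 / n) 0 hτ w.z w.pos
  rw [← ixE.tsum_eq, ← ixE'.tsum_eq (fun x => fL n τ w x * e1 (-(BL r x) / n ^ 2))]
  refine Eq.trans (tsum_congr fun p => ?_) (h.trans ?_)
  · have hz : e1 (ip ((r.2.1 : ℂ) / sq3 / n + emb (binE n hn).e fun i => p.2.1 i) 0 -
        ((r.1 : ℝ) / n + n * p.1) * 0 - ((r.2.2 : ℝ) / n + n * p.2.2) * 0) = 1 := by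
      have : ip ((r.2.1 : ℂ) / sq3 / n + emb (binE n hn).e fun i => p.2.1 i) 0 = 0 := by simp [ip]
      rw [this, mul_zero, mul_zero, sub_zero, sub_zero, e1_zero]
    rw [hz, mul_one, fL, emb_binE]
    congr 1
    · change (((r.1 + n ^ 2 * p.1 : ℤ)) : ℝ) / n = _
      push_cast
      field_simp
    · rw [Prod.snd_add, Prod.fst_add, Subring.coe_add, mulP_mid]
      change ((r.2.1 : ℂ) + n ^ 2 * sq3 * (coE p.2.1 : Eis)) / sq3 / n = _
      field_simp
    · change (((r.2.2 + n ^ 2 * p.2.2 : ℤ)) : ℝ) / n = _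
      push_cast
      field_simp
  · have hvol : (n : ℝ) * n * (binE n hn).vol = √3 * n ^ 4 := by rw [vol_binE]; ring
    rw [hvol]
    congr 1
    refine tsum_congr fun p => ?_
    rw [emb_binE', fL, zero_add, zero_add, zero_add]
    change _ = fK τ w.z w.y ((p.1 : ℝ) / n) ((coE' p.2.1 : Eis) / sq3 / n) ((p.2.2 : ℝ) / n) * _
    congr 2
    rw [BL]
    change _ = -(ip ((r.2.1 : ℂ) / sq3) ((coE' p.2.1 : Eis) / sq3) - (r.1 : ℝ) * p.2.2 -
      (r.2.2 : ℝ) * p.1) / n ^ 2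
    have h1 : ip ((r.2.1 : ℂ) / sq3 / n) ((coE' p.2.1 : Eis) / sq3 / n) =
        ip ((r.2.1 : ℂ) / sq3) ((coE' p.2.1 : Eis) / sq3) / n ^ 2 := by
      have e1' : ∀ t : ℂ, t / n = (((n : ℝ)⁻¹ : ℝ) : ℂ) * t := by
        intro t; push_cast; ring
      rw [e1' ((r.2.1 : ℂ) / sq3), e1' ((coE' p.2.1 : Eis) / sq3 : ℂ), ip_real_mul_left,
        ip_real_mul_right]
      field_simp
    rw [h1]
    field_simp

/-- summability of the kernel -/
theorem summable_fL {n : ℕ} (hn : 0 < n) {τ : ℂ} (hτ : 0 < τ.im) (w : H3) {φ : S47T.Lat → ℂ}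
    {M : ℝ} (hφ : ∀ x, ‖φ x‖ ≤ M) : Summable fun x => φ x * fL n τ w x := by
  have hnc : (n : ℂ) ≠ 0 := by exact_mod_cast hn.ne'
  have hnp : (0 : ℝ) < (n : ℝ)⁻¹ := by positivity
  have h := summable_fK (binE n hn).dualB hnp hnp 0 0 0 hτ w.z w.pos (ψ := fun p => φ (ixE' p))
    (fun p => hφ _)
  rw [← ixE'.summable_iff]
  refine h.congr fun p => ?_
  rw [Bin.dualB_e, emb_binE', Function.comp_apply, fL, zero_add, zero_add, zero_add,
    ← div_eq_inv_mul, ← div_eq_inv_mul, mul_comm]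
  rfl

end Fermat.Agent.H45.TK
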