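import Fermat.Agent.H45TD

/-!
# Theta kernel of signature (3,1), part E: `T` and `S` on periodic test functions
(S47-T1, helper45)
-/

set_option autoImplicit false

noncomputable section

namespace Fermat.Agent.H45.TK

open Complex Real Matrix
open Fermat.Agent.H45
open Fermat.Agent.S47T (Eis om sq3 sq3E omE eisEquiv coe_eisEquiv qL pL hQ pair Theta ee om_rel
  sq3_mul_sq3 sq3_ne_zero conj_om conj_sq3 sq3_eq)

local notation "conj" => starRingEnd ℂ

/-- the finite group of classes of the index set -/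
abbrev Cl (n : ℕ) : Type := S47T.Lat ⧸ (mulP n).range

theorem nsmul_fst' (k : ℕ) (x : S47T.Lat) : (k • x).1 = (k : ℤ) * x.1 := by
  rw [Prod.smul_fst, nsmul_eq_mul]

theorem nsmul_mid' (k : ℕ) (x : S47T.Lat) : (((k • x).2.1 : Eis) : ℂ) = (k : ℂ) * x.2.1 := by
  have : (k • x).2.1 = k • x.2.1 := rfl
  rw [this, nsmul_eq_mul]
  simp

theorem nsmul_snd' (k : ℕ) (x : S47T.Lat) : (k • x).2.2 = (k : ℤ) * x.2.2 := by
  rw [Prod.smul_snd, Prod.smul_snd, nsmul_eq_mul]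

theorem smul_mem_range (n : ℕ) (x : S47T.Lat) : (3 * n ^ 2 : ℕ) • x ∈ (mulP n).range := by
  refine ⟨(3 * x.1, -(sq3E * x.2.1), 3 * x.2.2), ?_⟩
  refine Prod.ext ?_ (Prod.ext (Subtype.ext ?_) ?_)
  · rw [mulP_fst, nsmul_fst']
    push_cast
    ring
  · rw [mulP_mid, nsmul_mid']
    change _ * sq3 * (-(sq3 * (x.2.1 : ℂ))) = _
    push_cast
    linear_combination (-(n : ℂ) ^ 2 * x.2.1) * sq3_mul_sq3
  · rw [mulP_snd, nsmul_snd']
    push_cast
    ring

theorem finite_Cl {n : ℕ} (hn : 0 < n) : Finite (Cl n) := by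
  set k : ℕ := 3 * n ^ 2 with hk
  have hkpos : 0 < k := by positivity
  let f : Fin k × (Fin k × Fin k) × Fin k → Cl n := fun p =>
    QuotientAddGroup.mk ((((p.1 : ℕ) : ℤ), eisEquiv (((p.2.1.1 : ℕ) : ℤ), ((p.2.1.2 : ℕ) : ℤ)),
      ((p.2.2 : ℕ) : ℤ)) : S47T.Lat)
  refine Finite.of_surjective f fun y => ?_
  obtain ⟨x, rfl⟩ := QuotientAddGroup.mk_surjective y
  obtain ⟨⟨b, c⟩, hbc⟩ := eisEquiv.surjective x.2.1
  have hkz : (0 : ℤ) < k := by exact_mod_cast hkpos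
  have key : ∀ a : ℤ, ∃ i : Fin k, ∃ q : ℤ, a = ((i : ℕ) : ℤ) + k * q := by
    intro a
    have h0 := Int.emod_nonneg a hkz.ne'
    have h1 := Int.emod_lt_of_pos a hkz
    refine ⟨⟨(a % k).toNat, by omega⟩, a / k, ?_⟩
    simp only [Int.toNat_of_nonneg h0]
    exact (Int.emod_add_mul_ediv a k).symm
  obtain ⟨i1, q1, h1⟩ := key x.1
  obtain ⟨i2, q2, h2⟩ := key b
  obtain ⟨i3, q3, h3⟩ := key c
  obtain ⟨i4, q4, h4⟩ := key x.2.2
  refine ⟨(i1, (i2, i3), i4), ?_⟩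
  rw [QuotientAddGroup.eq]
  have : -((((i1 : ℕ) : ℤ), eisEquiv (((i2 : ℕ) : ℤ), ((i3 : ℕ) : ℤ)), ((i4 : ℕ) : ℤ)) : S47T.Lat) +
      x = k • ((q1, eisEquiv (q2, q3), q4) : S47T.Lat) := by
    refine Prod.ext ?_ (Prod.ext (Subtype.ext ?_) ?_)
    · rw [Prod.fst_add, Prod.fst_neg, nsmul_fst', h1]
      ring
    · rw [nsmul_mid']
      simp only [Prod.snd_add, Prod.snd_neg, Prod.fst_add, Prod.fst_neg]
      rw [← hbc, h2, h3]
      simp only [Subring.coe_add, Subring.coe_neg, coe_eisEquiv]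
      push_cast
      ring
    · rw [Prod.snd_add, Prod.snd_neg, Prod.snd_add, Prod.snd_neg, nsmul_snd', h4]
      ring
  rw [this]
  exact smul_mem_range n _

/-- splitting the index set into classes -/
def clE {n : ℕ} (hn : 0 < n) : Cl n × S47T.Lat ≃ S47T.Lat :=
  Equiv.ofBijective (fun p => p.1.out + mulP n p.2) (by
    constructor
    · rintro ⟨r, x⟩ ⟨r', x'⟩ h
      have h : r.out + mulP n x = r'.out + mulP n x' := h
      have hr : r = r' := by
        rw [← QuotientAddGroup.out_eq' r, ← QuotientAddGroup.out_eq' r', QuotientAddGroup.eq]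
        refine ⟨x - x', ?_⟩
        rw [map_sub]
        have : r'.out = r.out + mulP n x - mulP n x' := by rw [h]; abel
        rw [this]
        abel
      subst hr
      exact Prod.ext rfl (mulP_injective hn (add_left_cancel h))
    · intro y
      have h : (QuotientAddGroup.mk (QuotientAddGroup.mk y : Cl n).out : Cl n) =
        QuotientAddGroup.mk y := QuotientAddGroup.out_eq' _
      rw [QuotientAddGroup.eq] at h
      obtain ⟨x, hx⟩ := h
      refine ⟨(QuotientAddGroup.mk y, x), ?_⟩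
      change (QuotientAddGroup.mk y : Cl n).out + mulP n x = y
      rw [hx]
      abel)

theorem clE_apply {n : ℕ} (hn : 0 < n) (p : Cl n × S47T.Lat) :
    clE hn p = p.1.out + mulP n p.2 := rfl

/-- sum over the index set, class by class -/
theorem tsum_split {n : ℕ} (hn : 0 < n) [Fintype (Cl n)] {F : S47T.Lat → ℂ} (hF : Summable F) :
    ∑' x, F x = ∑ r : Cl n, ∑' x, F (r.out + mulP n x) := by
  rw [← (clE hn).tsum_eq]
  have h := (clE hn).summable_iff.mpr hF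
  have h2 : ∑' p : Cl n × S47T.Lat, F (clE hn p) = ∑' (r : Cl n) (x : S47T.Lat),
    F (clE hn (r, x)) := h.tsum_prod
  rw [h2, tsum_fintype]
  rfl

theorem Per.out {n : ℕ} {φ : S47T.Lat → ℂ} (hφ : Per n φ) (x : S47T.Lat) :
    φ x = φ (QuotientAddGroup.mk x : Cl n).out := by
  have h : (QuotientAddGroup.mk (QuotientAddGroup.mk x : Cl n).out : Cl n) =
        QuotientAddGroup.mk x := QuotientAddGroup.out_eq' _
  rw [QuotientAddGroup.eq] at h
  obtain ⟨y, hy⟩ := h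
  have : x = (QuotientAddGroup.mk x : Cl n).out + mulP n y := by rw [hy]; abel
  conv_lhs => rw [this]
  exact hφ _ _

/-- periodic functions are bounded -/
theorem Per.bdd {n : ℕ} (hn : 0 < n) {φ : S47T.Lat → ℂ} (hφ : Per n φ) :
    ∃ M : ℝ, ∀ x, ‖φ x‖ ≤ M := by
  have := finite_Cl hn
  have := Fintype.ofFinite (Cl n)
  refine ⟨∑ r : Cl n, ‖φ r.out‖, fun x => ?_⟩
  rw [hφ.out x]
  exact Finset.single_le_sum (f := fun r : Cl n => ‖φ r.out‖) (fun r _ => norm_nonneg _)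
    (Finset.mem_univ _)

/-- `τ ↦ τ + 1` for one term -/
theorem fL_add_one (n : ℕ) (τ : ℂ) (w : H3) (x : S47T.Lat) :
    fL n (τ + 1) w x = e1 (qL x / n ^ 2) * fL n τ w x := by
  have him : (τ + 1).im = τ.im := by simp
  rw [fL_eq, fL_eq, him]
  have : ee ((τ + 1) * (qL x / n ^ 2 : ℝ)) = e1 (qL x / n ^ 2) * ee (τ * (qL x / n ^ 2 : ℝ)) := by
    rw [ee, ee, e1, ← Complex.exp_add]
    congr 1
    ring
  rw [this]
  ring

/-- **`T` on test functions** -/
theorem Theta_T {n : ℕ} (hn : 0 < n) {φ : S47T.Lat → ℂ} (hφ : Per n φ) :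
    Per n (fun x => e1 (qL x / n ^ 2) * φ x) ∧
    ∀ τ w, Theta n φ (τ + 1) w = Theta n (fun x => e1 (qL x / n ^ 2) * φ x) τ w := by
  refine ⟨fun x y => ?_, fun τ w => ?_⟩
  · simp only [e1_qL_add_mulP hn, hφ x y]
  · rw [Theta_eq, Theta_eq]
    refine tsum_congr fun x => ?_
    rw [fL_add_one]
    ring

/-- the image of a test function under `S` -/
def phiS (n : ℕ) [Fintype (Cl n)] (φ : S47T.Lat → ℂ) (x : S47T.Lat) : ℂ :=
  (-I / (√3 * n ^ 4 : ℝ)) * ∑ r : Cl n, φ r.out * e1 (-(BL r.out x) / n ^ 2)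

theorem per_phiS {n : ℕ} (hn : 0 < n) [Fintype (Cl n)] (φ : S47T.Lat → ℂ) :
    Per n (phiS n φ) := by
  intro x y
  rw [phiS, phiS]
  simp only [e1_BL_add_mulP hn]

/-- **`S` on test functions** -/
theorem Theta_S {n : ℕ} (hn : 0 < n) [Fintype (Cl n)] {φ : S47T.Lat → ℂ} (hφ : Per n φ) {τ : ℂ}
    (hτ : 0 < τ.im) (w : H3) : Theta n φ (-1 / τ) w = τ * Theta n (phiS n φ) τ w := by
  have hτ' : 0 < (-1 / τ : ℂ).im := im_neg_one_div_pos hτ
  obtain ⟨M, hM⟩ := hφ.bdd hn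
  rw [Theta_eq, tsum_split hn (summable_fL hn hτ' w hM)]
  have h1 : ∀ r : Cl n, ∑' x, φ (r.out + mulP n x) * fL n (-1 / τ) w (r.out + mulP n x) =
      ∑' x, (-I * τ / (√3 * n ^ 4 : ℝ)) * (φ r.out * e1 (-(BL r.out x) / n ^ 2)) *
        fL n τ w x := by
    intro r
    have h2 : ∀ x, φ (r.out + mulP n x) * fL n (-1 / τ) w (r.out + mulP n x) =
        φ r.out * fL n (-1 / τ) w (r.out + mulP n x) := fun x => by rw [hφ]
    rw [tsum_congr h2, tsum_mul_left, poissonL hn hτ, ← tsum_mul_left, ← tsum_mul_left]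
    refine tsum_congr fun x => ?_
    ring
  rw [Finset.sum_congr rfl fun r _ => h1 r, ← Summable.tsum_finsetSum]
  · rw [Theta_eq, ← tsum_mul_left]
    refine tsum_congr fun x => ?_
    rw [← Finset.sum_mul, ← Finset.mul_sum, phiS]
    ring
  · intro r _
    have h3 := summable_fL hn hτ w (φ := fun x => (-I * τ / (√3 * n ^ 4 : ℝ)) *
      (φ r.out * e1 (-(BL r.out x) / n ^ 2))) (M := ‖(-I * τ / (√3 * n ^ 4 : ℝ) : ℂ)‖ * M) (by
        intro x
        rw [norm_mul, norm_mul, norm_e1, mul_one]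
        exact mul_le_mul_of_nonneg_left (hM _) (norm_nonneg _))
    exact h3

/-- **The space of periodic test functions is stable under `S`.** -/
theorem exists_Theta_S {n : ℕ} (hn : 0 < n) {φ : S47T.Lat → ℂ} (hφ : Per n φ) :
    ∃ φ', Per n φ' ∧ ∀ τ w, 0 < τ.im → Theta n φ (-1 / τ) w = τ * Theta n φ' τ w := by
  have := finite_Cl hn
  have := Fintype.ofFinite (Cl n)
  exact ⟨phiS n φ, per_phiS hn φ, fun τ w hτ => Theta_S hn hφ hτ w⟩

/-- **The space of periodic test functions is stable under `T`.** -/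
theorem exists_Theta_T {n : ℕ} (hn : 0 < n) {φ : S47T.Lat → ℂ} (hφ : Per n φ) :
    ∃ φ', Per n φ' ∧ ∀ τ w, Theta n φ (τ + 1) w = Theta n φ' τ w :=
  ⟨_, (Theta_T hn hφ).1, (Theta_T hn hφ).2⟩

/-- and under `T⁻¹` -/
theorem exists_Theta_T' {n : ℕ} (hn : 0 < n) {φ : S47T.Lat → ℂ} (hφ : Per n φ) :
    ∃ φ', Per n φ' ∧ ∀ τ w, Theta n φ (τ - 1) w = Theta n φ' τ w := by
  refine ⟨fun x => (e1 (qL x / n ^ 2))⁻¹ * φ x, fun x y => ?_, fun τ w => ?_⟩
  · simp only [e1_qL_add_mulP hn, hφ x y]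
  · rw [Theta_eq, Theta_eq]
    refine tsum_congr fun x => ?_
    have h := fL_add_one n (τ - 1) w x
    rw [sub_add_cancel] at h
    have h0 : e1 (qL x / n ^ 2) ≠ 0 := by rw [e1]; exact Complex.exp_ne_zero _
    rw [h]
    field_simp

end Fermat.Agent.H45.TK
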