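import Mathlib
set_option autoImplicit false

/-!
Kummer's lemma for the primes 5, 7, 11, 13 (only Dirichlet's unit theorem and explicit
cyclotomic units are used).
-/

namespace Fermat.Agent.H46

open NumberField Polynomial

/-- Abstract core: a group generated by `r` elements, a homomorphism to an `F_p`-vector space
hitting `r` linearly independent vectors; then the kernel consists of `p`-th powers. -/
theorem kummer_core {p : ℕ} [Fact p.Prime] {E A : Type*} [CommGroup E] [AddCommGroup A]
    [Module (ZMod p) A] (L : E →* Multiplicative A) (r : ℕ) (g : Fin r → E)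
    (hg : ∀ u : E, ∃ n : Fin r → ℤ, u = ∏ i, g i ^ n i) (v : Fin r → E)
    (hv : LinearIndependent (ZMod p) (fun i => (L (v i)).toAdd))
    (u : E) (hu : L u = 1) : ∃ w : E, u = w ^ p := by
  classical
  set x : Fin r → A := fun i => (L (g i)).toAdd with hx
  have hLn : ∀ n : Fin r → ℤ, (L (∏ i, g i ^ n i)).toAdd = ∑ i, ((n i : ℤ) : ZMod p) • x i := by
    intro n
    rw [map_prod, toAdd_prod]
    refine Finset.sum_congr rfl fun i _ => ?_
    rw [map_zpow, toAdd_zpow, Int.cast_smul_eq_zsmul]
  have hspan : Submodule.span (ZMod p) (Set.range fun i => (L (v i)).toAdd) ≤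
      Submodule.span (ZMod p) (Set.range x) := by
    rw [Submodule.span_le]
    rintro _ ⟨j, rfl⟩
    obtain ⟨n, hn⟩ := hg (v j)
    simp only [SetLike.mem_coe]
    rw [hn, hLn]
    exact Submodule.sum_mem _ fun i _ =>
      Submodule.smul_mem _ _ (Submodule.subset_span ⟨i, rfl⟩)
  have hcard : Fintype.card (Fin r) ≤ (Set.range x).finrank (ZMod p) := by
    have h1 : Fintype.card (Fin r) =
        (Set.range fun i => (L (v i)).toAdd).finrank (ZMod p) :=
      (linearIndependent_iff_card_eq_finrank_span.mp hv)
    rw [h1]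
    unfold Set.finrank
    haveI : Module.Finite (ZMod p) (Submodule.span (ZMod p) (Set.range x)) :=
      FiniteDimensional.span_of_finite (ZMod p) (Set.finite_range x)
    exact Submodule.finrank_mono hspan
  have hind : LinearIndependent (ZMod p) x := linearIndependent_iff_card_le_finrank_span.mpr hcard
  obtain ⟨n, hn⟩ := hg u
  have h0 : ∑ i, ((n i : ℤ) : ZMod p) • x i = 0 := by
    rw [← hLn, ← hn, hu]; rfl
  have hz := Fintype.linearIndependent_iff.mp hind _ h0
  have hd : ∀ i, (p : ℤ) ∣ n i := fun i => (ZMod.intCast_zmod_eq_zero_iff_dvd _ _).mp (hz i)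
  choose m hm using hd
  refine ⟨∏ i, g i ^ m i, ?_⟩
  rw [hn, ← Finset.prod_pow]
  refine Finset.prod_congr rfl fun i _ => ?_
  rw [hm i, ← zpow_natCast, ← zpow_mul, mul_comm]

end Fermat.Agent.H46
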