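import Fermat.Agent.H46Kummer
set_option autoImplicit false

namespace Fermat.Agent.H46

open NumberField Polynomial

section gens

variable (K : Type*) [Field K] [NumberField K]

theorem exists_gens (r : ℕ) (hr : NumberField.Units.rank K + 1 = r) :
    ∃ g : Fin r → (𝓞 K)ˣ, ∀ u : (𝓞 K)ˣ, ∃ n : Fin r → ℤ, u = ∏ i, g i ^ n i := by
  subst hr
  obtain ⟨t, ht⟩ := IsCyclic.exists_generator (α := NumberField.Units.torsion K)
  refine ⟨Fin.cons (t : (𝓞 K)ˣ) (NumberField.Units.fundSystem K), fun u => ?_⟩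
  obtain ⟨⟨ζ, e⟩, he, -⟩ := NumberField.Units.exist_unique_eq_mul_prod K u
  obtain ⟨m, hm⟩ := Subgroup.mem_zpowers_iff.mp (ht ζ)
  refine ⟨Fin.cons m e, ?_⟩
  rw [Fin.prod_univ_succ]
  simp only [Fin.cons_zero, Fin.cons_succ]
  rw [he, ← hm]
  simp

end gens

section theta

variable {p : ℕ} [hp : Fact p.Prime] {K : Type*} [Field K] [NumberField K]
  [IsCyclotomicExtension {p} ℚ K] {ζ : K} (hζ : IsPrimitiveRoot ζ p)
  {A : Type*} [CommRing A] [Algebra (ZMod p) A] {x : A} (hx : x ^ (p - 2) = 0)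

theorem rank_add_one (hp2 : 2 < p) : NumberField.Units.rank K + 1 = (p - 1) / 2 := by
  have h1 : NumberField.InfinitePlace.nrRealPlaces K = 0 :=
    IsCyclotomicExtension.Rat.nrRealPlaces_eq_zero (n := p) K hp2
  have h2 : NumberField.InfinitePlace.nrComplexPlaces K = p.totient / 2 :=
    IsCyclotomicExtension.Rat.nrComplexPlaces_eq_totient_div_two (n := p) K
  have h3 := NumberField.InfinitePlace.card_eq_nrRealPlaces_add_nrComplexPlaces K
  rw [h1, h2, Nat.totient_prime hp.out] at h3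
  unfold NumberField.Units.rank
  have h4 : 0 < (p - 1) / 2 := by omega
  omega

theorem minpoly_zeta : minpoly ℤ hζ.toInteger = cyclotomic p ℤ := by
  rw [cyclotomic_eq_minpoly hζ hp.out.pos,
    ← minpoly.algebraMap_eq (RingOfIntegers.coe_injective (K := K)) hζ.toInteger]
  rfl

include hx in
theorem aeval_cyclotomic_dual (hp2 : 2 < p) :
    aeval (TrivSqZeroExt.inl (1 + x) + TrivSqZeroExt.inr (1 + x) : DualNumber A)
      (cyclotomic p ℤ) = 0 := by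
  have h1 : cyclotomic p (ZMod p) = (X - 1) ^ (p - 1) := by
    have := cyclotomic_mul_prime_eq_pow_of_not_dvd (ZMod p) (p := p) (n := 1)
      (by simpa using hp.out.one_lt.ne')
    simpa using this
  set y : DualNumber A := TrivSqZeroExt.inl (1 + x) + TrivSqZeroExt.inr (1 + x) with hy
  have h2 : aeval y (cyclotomic p ℤ) = aeval y (cyclotomic p (ZMod p)) := by
    rw [← map_cyclotomic p (Int.castRingHom (ZMod p)), ← algebraMap_int_eq]
    rw [Polynomial.aeval_map_algebraMap]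
  rw [h2, h1]
  simp only [map_pow, map_sub, aeval_X, map_one]
  have h3 : y - 1 = TrivSqZeroExt.inl x + TrivSqZeroExt.inr (1 + x) := by
    rw [hy]
    ext
    · simp
    · simp
  have hx1 : x ^ (p - 1) = 0 := by
    have : p - 1 = (p - 2) + 1 := by omega
    rw [this, pow_succ, hx, zero_mul]
  rw [h3]
  ext
  · simp [hx1]
  · rw [TrivSqZeroExt.snd_pow]
    simp only [TrivSqZeroExt.fst_add, TrivSqZeroExt.fst_inl, TrivSqZeroExt.fst_inr,
      add_zero, TrivSqZeroExt.snd_add, TrivSqZeroExt.snd_inl, TrivSqZeroExt.snd_inr, zero_add]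
    have h4 : p - 1 - 1 = p - 2 := by omega
    simp [h4, hx]

/-- The ring homomorphism `ζ ↦ (1+x)(1+ε)`. -/
noncomputable def theta (hx : x ^ (p - 2) = 0) (hp2 : 2 < p) : 𝓞 K →ₐ[ℤ] DualNumber A :=
  hζ.integralPowerBasis.lift
    (TrivSqZeroExt.inl (1 + x) + TrivSqZeroExt.inr (1 + x) : DualNumber A) (by
      rw [IsPrimitiveRoot.integralPowerBasis_gen, minpoly_zeta hζ]
      exact aeval_cyclotomic_dual hx hp2)

theorem theta_zeta (hx : x ^ (p - 2) = 0) (hp2 : 2 < p) :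
    theta hζ hx hp2 hζ.toInteger = TrivSqZeroExt.inl (1 + x) + TrivSqZeroExt.inr (1 + x) := by
  rw [← IsPrimitiveRoot.integralPowerBasis_gen hζ, theta, PowerBasis.lift_gen]

/-- logarithmic derivative of a unit -/
noncomputable def dlog (hx : x ^ (p - 2) = 0) (hp2 : 2 < p) : (𝓞 K)ˣ →* Multiplicative A where
  toFun u := Multiplicative.ofAdd
    ((theta hζ hx hp2 (u : 𝓞 K)).snd * (theta hζ hx hp2 ((u⁻¹ : (𝓞 K)ˣ) : 𝓞 K)).fst)
  map_one' := by simp
  map_mul' u v := by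
    rw [← ofAdd_add]
    congr 1
    have hu : theta hζ hx hp2 (u : 𝓞 K) * theta hζ hx hp2 ((u⁻¹ : (𝓞 K)ˣ) : 𝓞 K) = 1 := by
      rw [← map_mul, Units.mul_inv, map_one]
    have hv : theta hζ hx hp2 (v : 𝓞 K) * theta hζ hx hp2 ((v⁻¹ : (𝓞 K)ˣ) : 𝓞 K) = 1 := by
      rw [← map_mul, Units.mul_inv, map_one]
    have hu1 := congrArg TrivSqZeroExt.fst hu
    have hv1 := congrArg TrivSqZeroExt.fst hv
    rw [TrivSqZeroExt.fst_mul, TrivSqZeroExt.fst_one] at hu1 hv1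
    rw [mul_inv_rev, Units.val_mul, Units.val_mul, map_mul, map_mul, TrivSqZeroExt.snd_mul,
      TrivSqZeroExt.fst_mul]
    simp only [smul_eq_mul, MulOpposite.smul_eq_mul_unop, MulOpposite.unop_op]
    linear_combination ((theta hζ hx hp2 (v : 𝓞 K)).snd *
      (theta hζ hx hp2 ((v⁻¹ : (𝓞 K)ˣ) : 𝓞 K)).fst) * hu1 +
      ((theta hζ hx hp2 (u : 𝓞 K)).snd *
      (theta hζ hx hp2 ((u⁻¹ : (𝓞 K)ˣ) : 𝓞 K)).fst) * hv1

theorem dlog_apply (hx : x ^ (p - 2) = 0) (hp2 : 2 < p) (u : (𝓞 K)ˣ) :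
    (dlog hζ hx hp2 u).toAdd * (theta hζ hx hp2 (u : 𝓞 K)).fst =
      (theta hζ hx hp2 (u : 𝓞 K)).snd := by
  have hu : theta hζ hx hp2 (u : 𝓞 K) * theta hζ hx hp2 ((u⁻¹ : (𝓞 K)ˣ) : 𝓞 K) = 1 := by
    rw [← map_mul, Units.mul_inv, map_one]
  have hu1 := congrArg TrivSqZeroExt.fst hu
  rw [TrivSqZeroExt.fst_mul, TrivSqZeroExt.fst_one] at hu1
  show (theta hζ hx hp2 (u : 𝓞 K)).snd * (theta hζ hx hp2 ((u⁻¹ : (𝓞 K)ˣ) : 𝓞 K)).fst *
    (theta hζ hx hp2 (u : 𝓞 K)).fst = _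
  linear_combination ((theta hζ hx hp2 (u : 𝓞 K)).snd) * hu1

/-- uniqueness: any `Y` with `Y * fst = snd` is the dlog. -/
theorem dlog_eq (hx : x ^ (p - 2) = 0) (hp2 : 2 < p) (u : (𝓞 K)ˣ) (Y : A)
    (hY : Y * (theta hζ hx hp2 (u : 𝓞 K)).fst = (theta hζ hx hp2 (u : 𝓞 K)).snd) :
    (dlog hζ hx hp2 u).toAdd = Y := by
  have hu : theta hζ hx hp2 (u : 𝓞 K) * theta hζ hx hp2 ((u⁻¹ : (𝓞 K)ˣ) : 𝓞 K) = 1 := by
    rw [← map_mul, Units.mul_inv, map_one]
  have hu1 := congrArg TrivSqZeroExt.fst hu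
  rw [TrivSqZeroExt.fst_mul, TrivSqZeroExt.fst_one] at hu1
  show (theta hζ hx hp2 (u : 𝓞 K)).snd * (theta hζ hx hp2 ((u⁻¹ : (𝓞 K)ˣ) : 𝓞 K)).fst = Y
  rw [← hY]
  linear_combination Y * hu1

/-- units congruent to integers mod p have trivial dlog -/
theorem dlog_eq_one_of_dvd (hx : x ^ (p - 2) = 0) (hp2 : 2 < p) (u : (𝓞 K)ˣ) (n : ℤ)
    (h : (p : 𝓞 K) ∣ (u : 𝓞 K) - n) : dlog hζ hx hp2 u = 1 := by
  obtain ⟨w, hw⟩ := h
  have h1 : (u : 𝓞 K) = n + p * w := by rw [← hw]; ring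
  have h2 : (theta hζ hx hp2 (u : 𝓞 K)).snd = 0 := by
    rw [h1, map_add, map_mul, map_natCast, map_intCast]
    have hpA : (p : A) = 0 := by
      have := congrArg (algebraMap (ZMod p) A) (ZMod.natCast_self p)
      rwa [map_natCast, map_zero] at this
    simp [hpA, TrivSqZeroExt.snd_natCast]
  show Multiplicative.ofAdd
    ((theta hζ hx hp2 (u : 𝓞 K)).snd * (theta hζ hx hp2 ((u⁻¹ : (𝓞 K)ˣ) : 𝓞 K)).fst) = 1
  rw [h2, zero_mul]; rfl

theorem dlog_zeta (hx : x ^ (p - 2) = 0) (hp2 : 2 < p) (u : (𝓞 K)ˣ)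
    (hu : (u : 𝓞 K) = hζ.toInteger) : (dlog hζ hx hp2 u).toAdd = 1 := by
  apply dlog_eq
  rw [hu, theta_zeta]
  simp

/-- dlog of the cyclotomic unit `1 + ζ + ... + ζ^(a-1)` -/
theorem dlog_geom (hx : x ^ (p - 2) = 0) (hp2 : 2 < p) (a : ℕ) (u : (𝓞 K)ˣ)
    (hu : (u : 𝓞 K) = ∑ i ∈ Finset.range a, hζ.toInteger ^ i) (Y : A)
    (hY : Y * ∑ i ∈ Finset.range a, (1 + x) ^ i = ∑ i ∈ Finset.range a, (i : A) * (1 + x) ^ i) :
    (dlog hζ hx hp2 u).toAdd = Y := by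
  apply dlog_eq
  have h1 : theta hζ hx hp2 (u : 𝓞 K) =
      TrivSqZeroExt.inl (∑ i ∈ Finset.range a, (1 + x) ^ i) +
      TrivSqZeroExt.inr (∑ i ∈ Finset.range a, (i : A) * (1 + x) ^ i) := by
    rw [hu, map_sum, TrivSqZeroExt.inl_sum, TrivSqZeroExt.inr_sum, ← Finset.sum_add_distrib]
    refine Finset.sum_congr rfl fun i _ => ?_
    rw [map_pow, theta_zeta]
    ext
    · simp
    · rw [TrivSqZeroExt.snd_pow]
      rcases i with _ | i
      · simp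
      · simp [pow_succ]
  rw [h1]
  simpa using hY

end theta

end Fermat.Agent.H46
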