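import Fermat.Agent.H46KummerB
set_option autoImplicit false

namespace Fermat.Agent.H46

open NumberField Polynomial

/-- Linear independence in `F_p[X]/(X^d)` from a matrix identity. -/
theorem linearIndependent_of_matrix {p : ℕ} [Fact p.Prime] {r d : ℕ}
    (M : Matrix (Fin r) (Fin d) (ZMod p)) (N : Matrix (Fin d) (Fin r) (ZMod p)) (hMN : M * N = 1) :
    LinearIndependent (ZMod p) (fun i : Fin r =>
      (∑ j : Fin d, M i j • (Ideal.Quotient.mk (Ideal.span {(X : (ZMod p)[X]) ^ d}) X) ^ (j : ℕ) :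
        (ZMod p)[X] ⧸ Ideal.span {(X : (ZMod p)[X]) ^ d})) := by
  rw [Fintype.linearIndependent_iff]
  intro c hc
  have hsm : ∀ (a : ZMod p) (y : (ZMod p)[X] ⧸ Ideal.span {(X : (ZMod p)[X]) ^ d}),
      a • y = Ideal.Quotient.mk (Ideal.span {(X : (ZMod p)[X]) ^ d}) (C a) * y :=
    fun a y => Algebra.smul_def a y
  have h1 : (∑ i : Fin r, c i • ∑ j : Fin d, M i j •
      (Ideal.Quotient.mk (Ideal.span {(X : (ZMod p)[X]) ^ d}) X) ^ (j : ℕ)) =
      Ideal.Quotient.mk (Ideal.span {(X : (ZMod p)[X]) ^ d})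
        (∑ j : Fin d, C (Matrix.vecMul c M j) * X ^ (j : ℕ)) := by
    simp only [Finset.smul_sum, smul_smul]
    rw [Finset.sum_comm, map_sum]
    refine Finset.sum_congr rfl fun j _ => ?_
    rw [← Finset.sum_smul, map_mul, map_pow]
    exact hsm _ _
  rw [h1, Ideal.Quotient.eq_zero_iff_mem, Ideal.mem_span_singleton, X_pow_dvd_iff] at hc
  have h2 : Matrix.vecMul c M = 0 := by
    funext j
    have := hc j j.2
    rw [finsetSum_coeff] at this
    simp only [coeff_C_mul, coeff_X_pow] at this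
    rw [Finset.sum_eq_single j] at this
    · simpa using this
    · intro b _ hb
      rw [if_neg, mul_zero]
      exact fun h => hb (Fin.ext h.symm)
    · intro h; exact absurd (Finset.mem_univ _) h
  have h3 : c = 0 := by
    rw [← Matrix.vecMul_one c, ← hMN, ← Matrix.vecMul_vecMul, h2, Matrix.zero_vecMul]
  intro i
  rw [h3]; rfl

theorem kummer_of_data {p : ℕ} [hp : Fact p.Prime] (hp2 : 2 < p) {r d : ℕ}
    (hr : (p - 1) / 2 = r + 1) (hd : p - 2 = d) (Mz : ℕ → ℕ → ℤ)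
    (N : Matrix (Fin d) (Fin (r + 1)) (ZMod p))
    (hMN : (Matrix.of (fun i j => ((Mz i j : ℤ) : ZMod p)) :
      Matrix (Fin (r + 1)) (Fin d) (ZMod p)) * N = 1)
    (hM0 : Mz 0 0 = 1 ∧ ∀ j, j ≠ 0 → Mz 0 j = 0)
    (hM : ∀ {A : Type} [CommRing A] (x : A), x ^ d = 0 → (p : A) = 0 →
      ∀ i : Fin r,
      (∑ j ∈ Finset.range d, ((Mz (i + 1) j : ℤ) : A) * x ^ j) *
        ∑ k ∈ Finset.range (i + 2), (1 + x) ^ k =
        ∑ k ∈ Finset.range (i + 2), (k : A) * (1 + x) ^ k)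
    (K : Type*) [Field K] [NumberField K] [IsCyclotomicExtension {p} ℚ K]
    (u : (𝓞 K)ˣ) (n : ℤ) (h : (p : 𝓞 K) ∣ (u : 𝓞 K) - n) : ∃ w : (𝓞 K)ˣ, u = w ^ p := by
  have hζ := IsCyclotomicExtension.zeta_spec p ℚ K
  have hζi := hζ.toInteger_isPrimitiveRoot
  set A := (ZMod p)[X] ⧸ Ideal.span {(X : (ZMod p)[X]) ^ d} with hA
  set x : A := Ideal.Quotient.mk (Ideal.span {(X : (ZMod p)[X]) ^ d}) X with hxdef
  have hxd : x ^ d = 0 := by
    rw [hxdef, ← map_pow, Ideal.Quotient.eq_zero_iff_mem]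
    exact Ideal.subset_span rfl
  have hx : x ^ (p - 2) = 0 := by rw [hd]; exact hxd
  have hpA : (p : A) = 0 := by
    have := congrArg (algebraMap (ZMod p) A) (ZMod.natCast_self p)
    rwa [map_natCast, map_zero] at this
  obtain ⟨g, hg⟩ := exists_gens K (r + 1) (by rw [rank_add_one (p := p) (K := K) hp2, hr])
  -- the units
  have hu0 : IsUnit hζ.toInteger := hζi.isUnit hp.out.ne_zero
  have hua : ∀ i : Fin r, IsUnit (∑ k ∈ Finset.range (i + 2), hζ.toInteger ^ k) := by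
    intro i
    refine hζi.geom_sum_isUnit (by omega) ?_
    have hi := i.2
    have : (i : ℕ) + 2 < p := by omega
    exact (Nat.coprime_of_lt_prime (by omega) this hp.out).symm
  let v : Fin (r + 1) → (𝓞 K)ˣ := Fin.cons hu0.unit (fun i => (hua i).unit)
  refine kummer_core (dlog hζ hx hp2) (r + 1) g hg v ?_ u (dlog_eq_one_of_dvd hζ hx hp2 u n h)
  have hconv : ∀ i : ℕ, ∑ j : Fin d, ((Mz i j : ℤ) : ZMod p) • x ^ (j : ℕ) =
      ∑ j ∈ Finset.range d, ((Mz i j : ℤ) : A) * x ^ j := by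
    intro i
    rw [Finset.sum_range]
    refine Finset.sum_congr rfl fun j _ => ?_
    rw [Int.cast_smul_eq_zsmul, zsmul_eq_mul]
  have hv : (fun i => (dlog hζ hx hp2 (v i)).toAdd) = fun i =>
      ∑ j : Fin d, (Matrix.of (fun i j => ((Mz i j : ℤ) : ZMod p)) :
      Matrix (Fin (r + 1)) (Fin d) (ZMod p)) i j • x ^ (j : ℕ) := by
    funext i
    refine Fin.cases ?_ (fun i => ?_) i
    · simp only [Matrix.of_apply, Fin.val_zero]
      rw [hconv, Finset.sum_eq_single 0]
      · rw [hM0.1]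
        simp only [Int.cast_one, pow_zero, mul_one]
        exact dlog_zeta hζ hx hp2 _ (by simp [v])
      · intro b _ hb
        rw [hM0.2 b hb, Int.cast_zero, zero_mul]
      · intro h0
        exact absurd (Finset.mem_range.mpr (by omega)) h0
    · simp only [Matrix.of_apply, Fin.val_succ]
      rw [hconv]
      exact dlog_geom hζ hx hp2 (i + 2) _ (by simp [v]) _ (hM x hxd hpA i)
  rw [hv]
  exact linearIndependent_of_matrix _ N hMN

end Fermat.Agent.H46
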