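import Fermat.Agent.H35Geo0
import Fermat.Agent.H31Scale
import Fermat.Agent.H34Arch

/-!
# The component group coordinate of torsion points fixed by inertia

Functions fixed by inertia are `q^a` times Gauss units; `n(x) = b - a` where `a`, `b` are the
exponents of `u` and `w u`, `div u = d x`.
-/

set_option autoImplicit false
set_option linter.unusedSectionVars false
set_option linter.style.haveILetI false

noncomputable section

open AlgebraicCurve ModularCurve IntermediateField HahnSeries Fermat.Agent.H67 Fermat.Agent.H97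
open Fermat.Agent.H9 (Tmul)
open Fermat.Agent.H34.Two (gC gC_scalable mem_locL_iff)

namespace Fermat.Agent.H62

local notation "Qb" => AlgebraicClosure ℚ
local notation "GQ" => AlgebraicClosure ℚ ≃ₐ[ℚ] AlgebraicClosure ℚ

section HasG

variable {L : Type*} [Field L] {A : ValuationSubring L} {k : Type*} [Field k] {π : A →+* k}

theorem hasG_inv {f : LaurentSeries L} {c : L} {r : LaurentSeries k} (hc : c ≠ 0)
    (h : HasG π f c r) : HasG π f⁻¹ c⁻¹ r⁻¹ := by
  obtain ⟨y, z, hy, hz, h1, h2⟩ := h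
  have hcL : algebraMap L (LaurentSeries L) c ≠ 0 := (_root_.map_ne_zero _).mpr hc
  have hy' : coeffMap A.subtype y ≠ 0 := by
    rw [← map_zero (coeffMap A.subtype), Ne, coeffMap_subtype_injective.eq_iff]
    rintro rfl
    exact hy (map_zero _)
  have hz' : coeffMap A.subtype z ≠ 0 := by
    rw [← map_zero (coeffMap A.subtype), Ne, coeffMap_subtype_injective.eq_iff]
    rintro rfl
    exact hz (map_zero _)
  have hr : r ≠ 0 := HasG.ne_zero ⟨y, z, hy, hz, h1, h2⟩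
  have hf : f ≠ 0 := by
    rintro rfl
    rw [zero_mul] at h1
    exact mul_ne_zero hcL hy' h1.symm
  refine ⟨z, y, hz, hy, ?_, ?_⟩
  · rw [map_inv₀, eq_inv_mul_iff_mul_eq₀ hcL, mul_left_comm, ← h1, ← mul_assoc,
      inv_mul_cancel₀ hf, one_mul]
  · rw [← h2, ← mul_assoc, inv_mul_cancel₀ hr, one_mul]

theorem hasG_pow {f : LaurentSeries L} {c : L} {r : LaurentSeries k}
    (h : HasG π f c r) (n : ℕ) : HasG π (f ^ n) (c ^ n) (r ^ n) := by
  induction n with
  | zero => rw [pow_zero, pow_zero, pow_zero]; exact HasG.one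
  | succ n ih => rw [pow_succ, pow_succ, pow_succ]; exact ih.mul h

theorem hasG_const (c : L) : HasG π (algebraMap L (LaurentSeries L) c) c 1 :=
  ⟨1, 1, by rw [map_one]; exact one_ne_zero, by rw [map_one]; exact one_ne_zero,
    by rw [map_one], by rw [map_one, mul_one]⟩

/-- Changing the scaling constant. -/
theorem hasG_congr [IsLocalHom π] {f : LaurentSeries L} {c d : L} {r : LaurentSeries k}
    (hd : d ≠ 0) (h : HasG π f c r) (hv : A.valuation c = A.valuation d) :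
    ∃ e : k, e ≠ 0 ∧ HasG π f d (algebraMap k (LaurentSeries k) e * r) := by
  obtain ⟨y, z, hy, hz, h1, h2⟩ := h
  have hd0 : A.valuation d ≠ 0 := (Valuation.ne_zero_iff _).mpr hd
  have hvu : A.valuation (c / d) = 1 := by rw [map_div₀, hv, div_self hd0]
  have hmem : c / d ∈ A := (A.valuation_le_one_iff _).mp hvu.le
  have hu : IsUnit (⟨c / d, hmem⟩ : A) := (A.valuation_eq_one_iff _).mpr hvu
  have he : π ⟨c / d, hmem⟩ ≠ 0 := (hu.map π).ne_zero
  have hek : algebraMap k (LaurentSeries k) (π ⟨c / d, hmem⟩) ≠ 0 :=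
    (_root_.map_ne_zero _).mpr he
  refine ⟨π ⟨c / d, hmem⟩, he, HahnSeries.single 0 (⟨c / d, hmem⟩ : A) * y, z, ?_, hz, ?_, ?_⟩
  · rw [map_mul, coeffMap_algebraMap']
    exact mul_ne_zero hek hy
  · rw [map_mul, ← algebraMap_eq_coeffMap, h1, ← mul_assoc, ← map_mul, mul_div_cancel₀ _ hd]
  · rw [map_mul, coeffMap_algebraMap', mul_assoc, h2]

theorem hasG_Tmul {f : LaurentSeries L} {c : L} {r : LaurentSeries k} (h : HasG π f c r)
    {ℓ : ℕ} [NeZero ℓ] {ζ : Aˣ}
    (h1 : IsPrimitiveRoot (Units.map (A.subtype : A →* L) ζ) ℓ)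
    (h2 : IsPrimitiveRoot (Units.map (π : A →* k) ζ) ℓ) :
    HasG π (Tmul ℓ (Units.map (A.subtype : A →* L) ζ) f) (c ^ (ℓ + 1))
      (Tmul ℓ (Units.map (π : A →* k) ζ) r) := by
  obtain ⟨y, z, hy, hz, h3, h4⟩ := h
  have e1 : ∀ x : LaurentSeries A, Tmul ℓ (Units.map (A.subtype : A →* L) ζ)
      (coeffMap A.subtype x) = coeffMap A.subtype (Tmul ℓ ζ x) :=
    fun x => (coeffMap_Tmul ℓ A.subtype ζ x).symm
  have e2 : ∀ x : LaurentSeries A, coeffMap π (Tmul ℓ ζ x) =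
      Tmul ℓ (Units.map (π : A →* k) ζ) (coeffMap π x) := fun x => coeffMap_Tmul ℓ π ζ x
  refine ⟨Tmul ℓ ζ y, Tmul ℓ ζ z, ?_, ?_, ?_, ?_⟩
  · rw [e2]; exact Tmul_ne_zero ℓ h2 hy
  · rw [e2]; exact Tmul_ne_zero ℓ h2 hz
  · rw [← e1, ← e1, ← Tmul_mul ℓ h1, h3, Tmul_mul ℓ h1]
    congr 1
    rw [algebraMap_laurentSeries_eq_single, algebraMap_laurentSeries_eq_single]
    exact Tmul_C ℓ h1 c
  · rw [e2, e2, ← Tmul_mul ℓ h2, h4]

end HasG

/-! ### Values of functions fixed by inertia -/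

section Values

variable {q : ℕ} [hq : Fact q.Prime] {A : ValuationSubring Qb} (hA : A.LiesOverPrime q)
  {k : Type*} [Field k] {π : A →+* k} [IsLocalHom π] (hπ : Function.Surjective π)

include hA in
theorem zpow_inj {a b : ℤ} (h : A.valuation ((q : Qb) ^ a) = A.valuation ((q : Qb) ^ b)) :
    a = b := by
  have hq0 : (q : Qb) ≠ 0 := Nat.cast_ne_zero.mpr hq.out.ne_zero
  have h0 : A.valuation (q : Qb) ≠ 0 := (Valuation.ne_zero_iff _).mpr hq0
  have h1 : A.valuation (q : Qb) < 1 := hA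
  rw [map_zpow₀, map_zpow₀] at h
  exact zpow_right_injective₀ (zero_lt_iff.mpr h0) h1.ne h

variable {N : ℕ} [NeZero N]

include hA hπ in
/-- **Functions fixed by inertia are `q^a` times Gauss units.** -/
theorem exists_hasG {u : FB Qb N} (hu0 : u ≠ 0)
    (hu : ∀ σ ∈ A.inertiaSubgroupIn ℚ, arithmeticGalois (modularFunctionFieldFull N) σ • u = u) :
    ∃ (a : ℤ) (r : LaurentSeries k), HasG π (u : LaurentSeries Qb) ((q : Qb) ^ a) r := by
  letI := H31.In.galAct Qb (modularFunctionFieldFull N)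
  obtain ⟨P₀, hP₀⟩ := H97.exists_isInf (H99.FX Qb N) (H97.jqModC_mem_bar Qb N)
  have hscale : ∀ f : H97.FF Qb N, f ≠ 0 → ∃ c : Qb, c ≠ 0 ∧
      compVal _ hπ (gC_scalable A π N) f = A.valuation c := by
    intro f hf
    obtain ⟨c, hc, h⟩ := gC_scalable A π N f hf
    exact ⟨c⁻¹, inv_ne_zero hc, by rw [compVal_of_scale hπ _ hc h, map_inv₀]⟩
  obtain ⟨c, hc0, hcfix, hcv⟩ := H31.In.exists_fixed_scale (L := Qb) (A := A) (π := π) (N := N)
    (H34.Two.arch_Qbar hq.out hA) hP₀ (compVal _ hπ (gC_scalable A π N)) hscale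
    (compVal_algebraMap hπ _) (fun f hf => by
      have h1 := (compVal_le_one_iff hπ _).mp hf
      obtain ⟨y, z, hz, h⟩ := (mem_locL_iff A π).mp h1
      exact ⟨y, z, hz, h⟩) (fun f y hy hv => by
      have h1 := (compVal_eq_one_iff hπ _).mp hv
      have h2 := H34.Two.red_gaussComp_mul A π (H34.Two.isQuot_FX N) (f := f) (y := y) (z := 1)
        (by rw [map_one]; exact one_ne_zero) (by rw [map_one, mul_one]; exact hy.symm)
      rw [map_one, mul_one] at h2
      rw [← h2]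
      exact h1) (H := A.inertiaSubgroupIn ℚ) hu0 hu
  obtain ⟨a, ha⟩ := H44E.exists_valuation_eq_zpow hq.out hA hc0 hcfix
  obtain ⟨c', hc', h'⟩ := gC_scalable A π N u hu0
  have h2 := hasG_of_red A π hc' h'
  have hq0 : (q : Qb) ^ a ≠ 0 := zpow_ne_zero _ (Nat.cast_ne_zero.mpr hq.out.ne_zero)
  obtain ⟨e, -, he⟩ := hasG_congr hq0 h2 (by
    rw [map_zpow₀, ← ha, ← hcv, compVal_of_scale hπ _ hc' h', map_inv₀])
  exact ⟨a, _, he⟩

end Values

/-! ### The coordinate `b - a` -/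

section Const

theorem const_of_isIntegral {K E : Type*} [Field K] [IsAlgClosed K] [Field E] [Algebra K E] {z : E}
    (hz : IsIntegral K z) : ∃ c, algebraMap K E c = z :=
  minpoly.mem_range_of_degree_eq_one K z
    (IsAlgClosed.degree_eq_one_of_irreducible K (minpoly.irreducible hz))

/-- Two functions with the same `d`-th power and the same leading coefficient are equal. -/
theorem eq_of_pow_eq {K : Type*} [Field K] [IsAlgClosed K] {F : IntermediateField K (LaurentSeries K)}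
    {x y : F} {d : ℕ} (hd : d ≠ 0) (hy : y ≠ 0) (h : x ^ d = y ^ d)
    (hlead : (x : LaurentSeries K).leadingCoeff = (y : LaurentSeries K).leadingCoeff) : x = y := by
  have h1 : (x / y) ^ d = 1 := by rw [div_pow, h, div_self (pow_ne_zero _ hy)]
  have h2 : IsIntegral K (x / y) :=
    IsIntegral.of_pow (Nat.pos_of_ne_zero hd) (by rw [h1]; exact isIntegral_one)
  obtain ⟨c, hc⟩ := const_of_isIntegral h2
  have h3 : x = algebraMap K F c * y := by rw [hc, div_mul_cancel₀ _ hy]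
  have h4 : (x : LaurentSeries K) = algebraMap K (LaurentSeries K) c * (y : LaurentSeries K) := by
    rw [h3]; rfl
  have hy' : (y : LaurentSeries K).leadingCoeff ≠ 0 :=
    HahnSeries.leadingCoeff_ne_zero.mpr fun h => hy (Subtype.ext h)
  rw [h4, HahnSeries.leadingCoeff_mul, H38.Mz.leadingCoeff_algebraMap] at hlead
  have h5 : c = 1 := mul_right_cancel₀ hy' (by rw [hlead, one_mul])
  rw [h3, h5, map_one, one_mul]

end Const

section NVal

open Fermat.Agent.H35.Geo Fermat.Agent.H35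

variable {q : ℕ} [hq : Fact q.Prime] {A : ValuationSubring Qb} {k : Type*} [Field k] {π : A →+* k}
  {M : ℕ} [NeZero (M * q)] {hc : M.Coprime q} {d : ℕ}

/-- The coordinate `b - a` of a function: `v₁(u) = |q|^a`, `v₁(w u) = |q|^b`. -/
def NVal (π : A →+* k) (hc : M.Coprime q) (u : FB Qb (M * q)) (t : ℤ) : Prop :=
  ∃ (a b : ℤ) (r s : LaurentSeries k), HasG π (u : LaurentSeries Qb) ((q : Qb) ^ a) r ∧
    HasG π ((atkin (L := Qb) embQbar M q rfl hc u : FB Qb (M * q)) : LaurentSeries Qb)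
      ((q : Qb) ^ b) s ∧ t = b - a

omit hq in
theorem coe_mul' {N : ℕ} (u v : FB Qb N) :
    ((u * v : FB Qb N) : LaurentSeries Qb) = (u : LaurentSeries Qb) * (v : LaurentSeries Qb) := rfl

theorem q_ne : (q : Qb) ≠ 0 := Nat.cast_ne_zero.mpr hq.out.ne_zero

omit hq in
theorem zpow_pow_nat (a : ℤ) (n : ℕ) : ((q : Qb) ^ a) ^ n = (q : Qb) ^ ((n : ℤ) * a) := by
  rw [← zpow_natCast, ← zpow_mul, mul_comm]

theorem NVal.mul {u v : FB Qb (M * q)} {s t : ℤ} (hu : NVal π hc u s) (hv : NVal π hc v t) :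
    NVal π hc (u * v) (s + t) := by
  obtain ⟨a, b, r, r', h1, h2, rfl⟩ := hu
  obtain ⟨a', b', s, s', h3, h4, rfl⟩ := hv
  refine ⟨a + a', b + b', r * s, r' * s', ?_, ?_, by ring⟩
  · rw [zpow_add₀ q_ne, coe_mul']; exact h1.mul h3
  · rw [zpow_add₀ q_ne, map_mul, coe_mul']; exact h2.mul h4

theorem NVal.inv {u : FB Qb (M * q)} {t : ℤ} (hu : NVal π hc u t) :
    NVal π hc u⁻¹ (-t) := by
  obtain ⟨a, b, r, r', h1, h2, rfl⟩ := hu
  refine ⟨-a, -b, r⁻¹, r'⁻¹, ?_, ?_, by ring⟩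
  · rw [zpow_neg]; exact hasG_inv (zpow_ne_zero _ q_ne) h1
  · rw [zpow_neg, map_inv₀]; exact hasG_inv (zpow_ne_zero _ q_ne) h2

theorem NVal.pow {u : FB Qb (M * q)} {t : ℤ} (hu : NVal π hc u t) (n : ℕ) :
    NVal π hc (u ^ n) (n * t) := by
  obtain ⟨a, b, r, r', h1, h2, rfl⟩ := hu
  have h3 := hasG_pow h1 n
  have h4 := hasG_pow h2 n
  rw [zpow_pow_nat] at h3 h4
  refine ⟨n * a, n * b, r ^ n, r' ^ n, h3, ?_, by ring⟩
  rw [map_pow]
  exact h4

theorem NVal.atkin {u : FB Qb (M * q)} {t : ℤ} (hu : NVal π hc u t) :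
    NVal π hc (H67.atkin (L := Qb) embQbar M q rfl hc u) (-t) := by
  obtain ⟨a, b, r, r', h1, h2, rfl⟩ := hu
  refine ⟨b, a, r', r, h2, ?_, by ring⟩
  rw [(isAL_atkin (L := Qb) embQbar M q rfl hc).involutive rfl hc u]
  exact h1

theorem NVal.hf {u : FB Qb (M * q)} {t : ℤ} (hu : NVal π hc u t) {ℓ : ℕ} [Fact ℓ.Prime]
    [NeZero ℓ] (hℓ : ¬ ℓ ∣ M * q) (hk : (ℓ : k) ≠ 0) :
    NVal π hc (H62.hf (M * q) ℓ u) ((ℓ + 1) * t) := by
  obtain ⟨a, b, r, r', h1, h2, rfl⟩ := hu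
  obtain ⟨ζ, hζ1, hζ2⟩ := exists_zeta π ℓ hk
  have h3 := hasG_Tmul h1 hζ1 hζ2
  have h4 := hasG_Tmul h2 hζ1 hζ2
  rw [zpow_pow_nat, ← coe_hf hℓ hζ1] at h3 h4
  rw [← W_hf (isAL_atkin (L := Qb) embQbar M q rfl hc) rfl hc hℓ] at h4
  refine ⟨_, _, _, _, h3, h4, ?_⟩
  push_cast
  ring

variable [IsLocalHom π] (hA : A.LiesOverPrime q) (hπ : Function.Surjective π)

include hA in
theorem NVal.unique {u : FB Qb (M * q)} {s t : ℤ} (h : NVal π hc u s) (h' : NVal π hc u t) :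
    s = t := by
  obtain ⟨a, b, r, r', h1, h2, rfl⟩ := h
  obtain ⟨a', b', s, s', h3, h4, rfl⟩ := h'
  have e1 := zpow_inj hA (h1.val_eq (zpow_ne_zero _ q_ne) (zpow_ne_zero _ q_ne) h3)
  have e2 := zpow_inj hA (h2.val_eq (zpow_ne_zero _ q_ne) (zpow_ne_zero _ q_ne) h4)
  rw [e1, e2]

include hA hπ in
theorem exists_nval {u : FB Qb (M * q)} (hu0 : u ≠ 0) (hu : ∀ σ ∈ A.inertiaSubgroupIn ℚ,
    arithmeticGalois (modularFunctionFieldFull (M * q)) σ • u = u) : ∃ t, NVal π hc u t := by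
  obtain ⟨a, r, h1⟩ := exists_hasG hA hπ hu0 hu
  obtain ⟨b, s, h2⟩ := exists_hasG hA hπ
    ((_root_.map_ne_zero (H67.atkin (L := Qb) embQbar M q rfl hc)).mpr hu0)
    (fun σ hσ => by rw [← (isAL_atkin (L := Qb) embQbar M q rfl hc).galois σ, hu σ hσ])
  exact ⟨b - a, a, b, r, s, h1, h2, rfl⟩

include hA in
/-- Constants have coordinate zero. -/
theorem nval_const {c : Qb} (hc0 : c ≠ 0) (hcfix : ∀ σ ∈ A.inertiaSubgroupIn ℚ, σ c = c) :
    NVal π hc (algebraMap Qb (FB Qb (M * q)) c) 0 := by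
  obtain ⟨e, he⟩ := H44E.exists_valuation_eq_zpow hq.out hA hc0 hcfix
  obtain ⟨e', -, h1⟩ := hasG_congr (d := (q : Qb) ^ e) (zpow_ne_zero _ q_ne)
    (hasG_const (π := π) c) (by rw [he, map_zpow₀])
  have h2 : HasG π ((H67.atkin (L := Qb) embQbar M q rfl hc
      (algebraMap Qb (FB Qb (M * q)) c) : FB Qb (M * q)) : LaurentSeries Qb) ((q : Qb) ^ e)
      (algebraMap k (LaurentSeries k) e' * 1) := by
    rw [AlgEquiv.commutes]
    exact h1
  exact ⟨e, e, _, _, h1, h2, (sub_self e).symm⟩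

include hA hπ in
/-- The coordinate is divisible by `d` on functions with trivial class. -/
theorem NVal.dvd {u : FB Qb (M * q)} {t : ℤ} (hd : d ≠ 0) (hu : IsU A d (M * q) u)
    (hcls : Cls d (M * q) u 0) (ht : NVal π hc u t) : (d : ℤ) ∣ t := by
  obtain ⟨g, hg0, rfl⟩ := Cls.exists_root hd hu.ne hcls
  set c := (g : LaurentSeries Qb).leadingCoeff with hcdef
  have hg' : (g : LaurentSeries Qb) ≠ 0 := fun h => hg0 (Subtype.ext h)
  have hc0 : c ≠ 0 := HahnSeries.leadingCoeff_ne_zero.mpr hg'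
  have hcF : algebraMap Qb (FB Qb (M * q)) c ≠ 0 := (_root_.map_ne_zero _).mpr hc0
  set g₁ : FB Qb (M * q) := algebraMap Qb (FB Qb (M * q)) c⁻¹ * g with hg₁
  have hg₁0 : g₁ ≠ 0 := mul_ne_zero ((_root_.map_ne_zero _).mpr (inv_ne_zero hc0)) hg0
  have hcoe : (g₁ : LaurentSeries Qb) =
      algebraMap Qb (LaurentSeries Qb) c⁻¹ * (g : LaurentSeries Qb) := rfl
  have hlead : (g₁ : LaurentSeries Qb).leadingCoeff = 1 := by
    rw [hcoe, HahnSeries.leadingCoeff_mul, H38.Mz.leadingCoeff_algebraMap, inv_mul_cancel₀ hc0]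
  have hgg : g ^ d = algebraMap Qb (FB Qb (M * q)) (c ^ d) * g₁ ^ d := by
    rw [hg₁, mul_pow, ← mul_assoc, ← map_pow, ← map_mul, ← mul_pow, mul_inv_cancel₀ hc0, one_pow,
      map_one, one_mul]
  -- the constant is fixed
  have hfixc : ∀ σ ∈ A.inertiaSubgroupIn ℚ, σ (c ^ d) = c ^ d := by
    intro σ hσ
    have h1 := congrArg (fun x : FB Qb (M * q) => (x : LaurentSeries Qb).leadingCoeff)
      (hu.fix σ hσ)
    simp only [coe_arithmeticGalois_smul, H38.Mz.leadingCoeff_coeffMap] at h1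
    have h2 : ((g ^ d : FB Qb (M * q)) : LaurentSeries Qb).leadingCoeff = c ^ d := by
      rw [IntermediateField.coe_pow, H97.leadingCoeff_pow']
    rw [h2] at h1
    exact h1
  have hg₁fix : ∀ σ ∈ A.inertiaSubgroupIn ℚ,
      arithmeticGalois (modularFunctionFieldFull (M * q)) σ • g₁ = g₁ := by
    intro σ hσ
    refine eq_of_pow_eq hd hg₁0 ?_ ?_
    · have h1 := hu.fix σ hσ
      rw [hgg, smul_mul', smul_pow'] at h1
      have h2 : arithmeticGalois (modularFunctionFieldFull (M * q)) σ •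
          algebraMap Qb (FB Qb (M * q)) (c ^ d) = algebraMap Qb (FB Qb (M * q)) (c ^ d) := by
        have h3 := SemilinearAut.smul_algebraMap
          (arithmeticGalois (L := Qb) (modularFunctionFieldFull (M * q)) σ) (c ^ d)
        rw [h3]
        congr 1
        exact hfixc σ hσ
      rw [h2] at h1
      exact mul_left_cancel₀ ((_root_.map_ne_zero _).mpr (pow_ne_zero _ hc0)) h1
    · rw [coe_arithmeticGalois_smul, H38.Mz.leadingCoeff_coeffMap, hlead, map_one]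
  obtain ⟨t₁, ht₁⟩ := exists_nval (hc := hc) hA hπ hg₁0 hg₁fix
  have h1 := (nval_const (π := π) (hc := hc) hA (pow_ne_zero d hc0) hfixc).mul (ht₁.pow d)
  rw [← hgg, zero_add] at h1
  exact ⟨t₁, ht.unique hA h1⟩

variable (hc) in
include hA hπ in
/-- **The component group coordinate** (input P4a). -/
theorem exists_n [CharP k q] (hd : d ≠ 0) :
    letI := heckeModuleBar (M * q)
    ∃ n : fixTors A d (JZero (M * q)) →+ ZMod d,
      (∀ (x : fixTors A d (JZero (M * q))) (u : FB Qb (M * q)) (a b : ℤ) (r s : LaurentSeries k),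
        IsU A d (M * q) u → Cls d (M * q) u x → HasG π (u : LaurentSeries Qb) ((q : Qb) ^ a) r →
        HasG π ((H67.atkin (L := Qb) embQbar M q rfl hc u : FB Qb (M * q)) : LaurentSeries Qb)
          ((q : Qb) ^ b) s → n x = ((b - a : ℤ) : ZMod d)) ∧
      (∀ ℓ : Nat.Primes, ¬ (ℓ : ℕ) ∣ M * q → ∀ x x' : fixTors A d (JZero (M * q)),
        (x' : JZero (M * q)) = heckeGen ℓ • (x : JZero (M * q)) →
          n x' = ((ℓ : ℕ) + 1 : ZMod d) * n x) ∧
      (∀ x x' : fixTors A d (JZero (M * q)),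
        (x' : JZero (M * q)) = wJ M q rfl hc (x : JZero (M * q)) → n x' = - n x) := by
  letI := heckeModuleBar (M * q)
  have hex : ∀ x : fixTors A d (JZero (M * q)), ∃ (u : FB Qb (M * q)) (t : ℤ),
      IsU A d (M * q) u ∧ Cls d (M * q) u x ∧ NVal π hc u t := by
    intro x
    obtain ⟨u, h1, h2, -⟩ := exists_isU (x : JZero (M * q)) x.2
    obtain ⟨t, ht⟩ := exists_nval (hc := hc) hA hπ h1.ne h1.fix
    exact ⟨u, t, h1, h2, ht⟩
  choose U T hU hCls hT using hex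
  have key : ∀ (x : fixTors A d (JZero (M * q))) (u : FB Qb (M * q)) (t : ℤ),
      IsU A d (M * q) u → Cls d (M * q) u x → NVal π hc u t → ((T x : ℤ) : ZMod d) = t := by
    intro x u t h1 h2 h3
    have h4 : Cls d (M * q) (u * (U x)⁻¹) 0 := by
      have := h2.mul h1.ne (inv_ne_zero (hU x).ne) (hCls x).inv
      rwa [add_neg_cancel] at this
    have h5 := (h3.mul (hT x).inv).dvd hA hπ hd (h1.mul (hU x).inv) h4
    rw [ZMod.intCast_eq_intCast_iff_dvd_sub]
    rwa [← sub_eq_add_neg] at h5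
  refine ⟨AddMonoidHom.mk' (fun x => ((T x : ℤ) : ZMod d)) ?_, ?_, ?_, ?_⟩
  · intro x y
    have h1 : Cls d (M * q) (U x * U y) ((x + y : fixTors A d (JZero (M * q))) :
        JZero (M * q)) := (hCls x).mul (hU x).ne (hU y).ne (hCls y)
    have := key (x + y) _ _ ((hU x).mul (hU y)) h1 ((hT x).mul (hT y))
    rw [this, Int.cast_add]
  · intro x u a b r s h1 h2 h3 h4
    exact key x u (b - a) h1 h2 ⟨a, b, r, s, h3, h4, rfl⟩
  · intro ℓ hℓ x x' hx'
    haveI : Fact (ℓ : ℕ).Prime := ⟨ℓ.2⟩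
    haveI : NeZero (ℓ : ℕ) := ⟨ℓ.2.ne_zero⟩
    have hk : ((ℓ : ℕ) : k) ≠ 0 := by
      rw [Ne, CharP.cast_eq_zero_iff k q, Nat.prime_dvd_prime_iff_eq hq.out ℓ.2]
      intro h
      exact hℓ (h ▸ dvd_mul_left q M)
    have h1 := (hCls x).hecke (hU x).ne ℓ
    rw [← heckeModuleBar_heckeGen_smul (heckeOperatorsCommuteBar (M * q)) ℓ, ← hx'] at h1
    have h2 := key x' _ _ ((hU x).hecke ℓ hℓ) h1 ((hT x).hf hℓ hk)
    show ((T x' : ℤ) : ZMod d) = _ * ((T x : ℤ) : ZMod d)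
    rw [h2]
    push_cast
    ring
  · intro x x' hx'
    have h1 := (hCls x).atkin hc
    rw [← hx'] at h1
    have h2 := key x' _ _ ((hU x).atkin hc) h1 (hT x).atkin
    show ((T x' : ℤ) : ZMod d) = - ((T x : ℤ) : ZMod d)
    rw [h2, Int.cast_neg]

end NVal

end Fermat.Agent.H62
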