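import Fermat.Agent.H35Geo3
import Fermat.Agent.H62P4A
import Fermat.Agent.H13MzP3

/-!
# Mazur's principle at `2` from the node formula

All inputs of `H35.Geo.mazurTwo_of` other than `NodeInput` are discharged.
-/

set_option autoImplicit false
set_option linter.unusedSectionVars false
set_option linter.style.haveILetI false

noncomputable section

open AlgebraicCurve ModularCurve Fermat.Agent.H67 Fermat.Agent.H35 Fermat.Agent.H35.Geo

namespace Fermat.Agent.H46.Mz

local notation "Qb" => AlgebraicClosure ℚ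

theorem valInput {q : ℕ} (hq : q.Prime) {A : ValuationSubring Qb} (hA : A.LiesOverPrime q)
    (N : ℕ) [NeZero N] : ValInput q N A (IsLocalRing.residue A) := by
  intro u hu hfix
  haveI : Fact q.Prime := ⟨hq⟩
  exact H62.exists_hasG hA IsLocalRing.residue_surjective hu hfix

theorem nInput {q : ℕ} (hq : q.Prime) {A : ValuationSubring Qb} (hA : A.LiesOverPrime q)
    (M : ℕ) [NeZero M] [NeZero (M * q)] {d : ℕ} (hd : d ≠ 0) :
    NInput d M q A (IsLocalRing.residue A) := by
  intro hc
  haveI : Fact q.Prime := ⟨hq⟩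
  haveI : NeZero q := ⟨hq.ne_zero⟩
  haveI : CharP (IsLocalRing.ResidueField A) q := H05.charP_residueField hq hA
  obtain ⟨n, h1, h2, h3⟩ := H62.exists_n (M := M) (q := q) hc hA
    (π := IsLocalRing.residue A) IsLocalRing.residue_surjective (d := d) hd
  refine ⟨n, h1, fun ℓ hℓ x x' hx => h2 ℓ hℓ x x' ?_, h3⟩
  rw [hx]
  exact (heckeModuleBar_heckeGen_smul (heckeOperatorsCommuteBar (M * q)) ℓ _).symm

/-- **`MazurTwo` from the node formula with loss `2`.** -/
theorem mazurTwo_of_node
    (H : ∀ (q M m : ℕ) [NeZero q] [NeZero M] [NeZero (M * q)], q.Prime → q ≠ 2 → 2 ∣ M → ¬ q ∣ M →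
      ∀ A : ValuationSubring Qb, A.LiesOverPrime q →
        NodeInput (2 * 2 ^ m) 2 q M A (IsLocalRing.residue A)) : MazurTwo := by
  refine mazurTwo_of ?_
  intro q M m _ _ _ hq hq2 h2M hqM A hA
  have hq2m : ¬ q ∣ 2 ^ m := fun h =>
    hq2 ((Nat.prime_dvd_prime_iff_eq hq Nat.prime_two).mp (hq.dvd_of_dvd_pow h))
  exact ⟨nInput hq hA M (mul_ne_zero two_ne_zero (pow_ne_zero _ two_ne_zero)),
    valInput hq hA (M * q), H q M m hq hq2 h2M hqM A hA,
    H13.Mz.liftInput hq hA M hqM (pow_ne_zero _ two_ne_zero), H13.Mz.injInput hq hA M hqM hq2m⟩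

end Fermat.Agent.H46.Mz

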