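import Fermat.Agent.H46ZBlocks
import Fermat.Agent.H30G3
import Fermat.Agent.H3G9
import Fermat.Agent.H83ZEis2
import Fermat.Agent.H83ZPrime
import Fermat.Agent.H15S47Fin

/-!
# S47: the left half of the assembly (helper46)

`leftHalf : BlockD → BlockC → LeftHalf`: from the output of block (D) (dihedral form over `E`) and
the output of block (C) (cubic descent) to the input `LeftHalf` of the right half.
The Galois dictionary (`dict`, `ne`, `inertEx`) is proved here from the results of helper3, helper30,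
helper83, helper89.
-/

set_option autoImplicit false
set_option linter.style.haveILetI false

open IsDedekindDomain HeightOneSpectrum WithZero NumberField
open Fermat.Agent.S47T Fermat.Agent.H3G

noncomputable section

namespace Fermat.Agent.H46Z

local notation "Qb" => AlgebraicClosure ℚ
local notation "Γℚ" => (AlgebraicClosure ℚ ≃ₐ[ℚ] AlgebraicClosure ℚ)

variable {D : RD}

/-! ### Bad primes -/

theorem exists_unr (D : RD) : ∃ D₀ : ℕ, 0 < D₀ ∧ ∀ p : ℕ, p.Prime → ¬ p ∣ D₀ → H30G.Unr D p := by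
  haveI : Normal ℚ (fld D.ρ ⊥) := H3G.normal_fld ⊥
  obtain ⟨D₀, h0, h⟩ := H30G.exists_unrK (fld D.ρ ⊥)
  exact ⟨D₀, h0, fun p hp hpD A hA σ hσ => H30G.rho_inertia D.cont (h p hp hpD) hA hσ⟩

/-! ### The eigenvalues -/

theorem awR_eq (w : HeightOneSpectrum (𝓞 D.E)) : awR D w = H30G.aw D w := by
  unfold awR H89D.aw H30G.aw
  split_ifs <;> simp

theorem awR_eq' (w : HeightOneSpectrum (𝓞 D.E)) : awR D w = D.aw w := (D.aw_eq w).symm

/-! ### Places of `M` and `E` over `p` -/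

theorem mem_of_absNorm {K : Type*} [Field K] [NumberField K] {v : HeightOneSpectrum (𝓞 K)}
    {p f : ℕ} (_hp : p.Prime) (h : Ideal.absNorm v.asIdeal = p ^ f) : (p : 𝓞 K) ∈ v.asIdeal := by
  have h1 : ((Ideal.absNorm v.asIdeal : ℕ) : 𝓞 K) ∈ v.asIdeal := Ideal.absNorm_mem _
  rw [h, Nat.cast_pow] at h1
  exact v.isPrime.mem_of_pow_mem f h1

/-- The number of places of `E` above a place `v` of `M` over the unramified prime `p`. -/
theorem ncard_above_E {p : ℕ} (hp : p.Prime) (hunr : H30G.Unr D p)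
    {v : HeightOneSpectrum (𝓞 D.M)} {f : ℕ} (hv : Ideal.absNorm v.asIdeal = p ^ f)
    (hw : ∀ w ∈ H82.above D.E v, Ideal.absNorm w.asIdeal = p ^ f) :
    (H82.above D.E v).ncard = 3 := by
  obtain ⟨w, hwv⟩ := H47.above_nonempty (L := D.E) v
  have hpv : (p : 𝓞 D.M) ∈ v.asIdeal := mem_of_absNorm hp hv
  have hpw : (p : 𝓞 D.E) ∈ w.asIdeal := H30G.mem_of_above hwv hpv
  have h := H30G.ncard_above_mul hwv (hunr.rel hp Q8_le_SL w hpw) (g := 1)
    (by rw [pow_one, hv, hw w hwv])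
  rw [mul_one, D.finrank_ME] at h
  exact h

theorem absNorm_E {p : ℕ} (hp : p.Prime) (hunr : H30G.Unr D p) {A : ValuationSubring Qb}
    (hA : A.LiesOverPrime p) {σ : Γℚ} (hσ : A.IsFrobeniusAt σ p) {f : ℕ}
    {v : HeightOneSpectrum (𝓞 D.M)} (hv : Ideal.absNorm v.asIdeal = p ^ f)
    (h8 : D.ρ (σ ^ f) ∈ Q8) {w : HeightOneSpectrum (𝓞 D.E)} (hw : w ∈ H82.above D.E v) :
    Ideal.absNorm w.asIdeal = p ^ f := by
  have hpv : (p : 𝓞 D.M) ∈ v.asIdeal := mem_of_absNorm hp hv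
  have hpw : (p : 𝓞 D.E) ∈ w.asIdeal := H30G.mem_of_above hw hpv
  obtain ⟨f₁, h1, h2, h3⟩ := H30G.exists_absNorm hp hunr hA hσ SL v hpv
  obtain ⟨f₂, h4, h5, h6⟩ := H30G.exists_absNorm hp hunr hA hσ Q8 w hpw
  have e1 : f₁ = f := Nat.pow_right_injective hp.two_le (h2.symm.trans hv)
  subst e1
  have h7 : f₂ ∣ f₁ := (h6 f₁).2 (by rw [← map_pow]; exact h8)
  have h8' : f₁ ∣ f₂ := (h3 f₂).2 (Q8_le_SL ((h6 f₂).1 dvd_rfl))
  rw [h5, Nat.dvd_antisymm h7 h8']

/-- **The dictionary.** -/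
theorem dict {D₀ : ℕ} (hD₀ : ∀ p : ℕ, p.Prime → ¬ p ∣ D₀ → H30G.Unr D p) : Dict D D₀ := by
  intro p hp hpD A hA σ hσ f v hv h8
  have hunr := hD₀ p hp hpD
  have hw : ∀ w ∈ H82.above D.E v, Ideal.absNorm w.asIdeal = p ^ f := fun w hw =>
    absNorm_E hp hunr hA hσ hv h8 hw
  refine ⟨?_, fun w hwv => ?_⟩
  · rw [H82.NonSplit, ncard_above_E hp hunr hv hw]
    norm_num
  · have hpv : (p : 𝓞 D.M) ∈ v.asIdeal := mem_of_absNorm hp hv
    rw [awR_eq, H30G.aw_eq_val8 hp hunr hA hσ w (H30G.mem_of_above hwv hpv) (hw w hwv), map_pow]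

/-! ### Existence of inert places -/

theorem inertEx {M E : Type*} [Field M] [NumberField M] [Field E] [NumberField E] [Algebra M E]
    [IsGalois M E] (h3 : Module.finrank M E = 3) : InertEx M E := by
  intro n hn
  have hfin := finite_divs M (n := n) hn.ne'
  have hcard : Nat.card (E ≃ₐ[M] E) = 3 := by rw [IsGalois.card_aut_eq_finrank, h3]
  haveI : Fact (Nat.Prime 3) := ⟨Nat.prime_three⟩
  haveI : IsCyclic (E ≃ₐ[M] E) := isCyclic_of_prime_card hcard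
  obtain ⟨s, hs⟩ := IsCyclic.exists_generator (α := E ≃ₐ[M] E)
  obtain ⟨v, hv, Q, hQ, -, hram, hdec⟩ := H89D.exists_place_dec_eq_zpowers s hfin
  refine ⟨v, hv, (H89D.nonSplit_iff hQ).2 fun σ => ?_, hram⟩
  have : σ ∈ H89D.dec M Q := by rw [hdec]; exact hs σ
  exact this

/-! ### The primes for the cuspidal kernel -/

theorem ne (D : RD) : NE D.E (awR D) := by
  intro n hn
  obtain ⟨D₀, hD0, hunr⟩ := exists_unr D
  obtain ⟨p, hp, hpS, hpn, hp3, hA⟩ := H83Z.exists_prime_order_eight D.ρ D.cont D.surj D.det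
    (n := n) hn (Nat.primeFactors (D₀ * n))
  have hnd : ¬ p ∣ D₀ * n := fun h =>
    hpS (Nat.mem_primeFactors.2 ⟨hp, h, (Nat.mul_pos hD0 hn).ne'⟩)
  have hpD : ¬ p ∣ D₀ := fun h => hnd (h.mul_right n)
  have hu := hunr p hp hpD
  obtain ⟨A, σ, hAp, hσ⟩ := H70.exists_place_frobenius hp
  obtain ⟨-, h8⟩ := hA A hAp
  have hord := h8 σ hσ
  have hp33 : ¬ p ∣ 3 := fun h => by
    have := (Nat.prime_dvd_prime_iff_eq hp Nat.prime_three).1 h
    rw [this] at hp3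
    norm_num at hp3
  have hSL : D.ρ σ ∉ SL := by
    intro hmem
    have h1 : Matrix.GeneralLinearGroup.det (D.ρ σ) = 1 := hmem
    have h2 := H15S47.det_frob ⟨D.cont, D.surj, D.det⟩ hp hp33 hAp hσ
    rw [h1, Units.val_one] at h2
    have h4 : ((1 : ℕ) : ZMod 3) = ((p : ℕ) : ZMod 3) := by rw [← h2, Nat.cast_one]
    have h5 : 1 % 3 = p % 3 := (ZMod.natCast_eq_natCast_iff _ _ _).mp h4
    omega
  obtain ⟨hM, hE⟩ := H30G.dict_two hp hu hAp hσ hSL
  -- the place of `M` over `p`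
  have hprime := H83Z.prime_of_inert hp hp3
  set v₀ := H83Z.placeOf D.eM (p : Eis) hprime with hv₀
  have hv0 : v₀.asIdeal = Ideal.span {((p : ℕ) : 𝓞 D.M)} := by
    rw [hv₀, H83Z.placeOf_asIdeal, map_natCast]
  have hset : ((divs D.E p : Finset (HeightOneSpectrum (𝓞 D.E))) :
      Set (HeightOneSpectrum (𝓞 D.E))) = H82.above D.E v₀ := by
    ext w
    rw [Finset.mem_coe, mem_divs hp.ne_zero]
    constructor
    · intro hw
      show w.asIdeal.under (𝓞 D.M) = v₀.asIdeal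
      have h1 : v₀.asIdeal ≤ w.asIdeal.under (𝓞 D.M) := by
        rw [hv0, Ideal.span_singleton_le_iff_mem]
        show algebraMap (𝓞 D.M) (𝓞 D.E) ((p : ℕ) : 𝓞 D.M) ∈ w.asIdeal
        rwa [map_natCast]
      have hpr : (w.asIdeal.under (𝓞 D.M)).IsPrime := Ideal.IsPrime.under (𝓞 D.M) w.asIdeal
      exact (v₀.isMaximal.eq_of_le hpr.ne_top h1).symm
    · intro hw
      exact H30G.mem_of_above hw (by rw [hv0]; exact Ideal.mem_span_singleton_self _)
  refine ⟨p, hp, fun h => hnd (h.mul_left D₀), hpn, hp3, ?_, fun w hw => ?_⟩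
  · rw [← Set.ncard_coe_finset, hset]
    refine ncard_above_E hp hu (f := 2) (hM v₀ (by rw [hv0]; exact Ideal.mem_span_singleton_self _))
      fun w hw => (hE w ?_).1
    exact H30G.mem_of_above hw (by rw [hv0]; exact Ideal.mem_span_singleton_self _)
  · rw [mem_divs hp.ne_zero] at hw
    rw [awR_eq, (hE w hw).2]
    apply val8_of_ne
    · intro h
      have h1 : orderOf (D.ρ σ) ∣ 2 := orderOf_dvd_of_pow_eq_one h
      rw [hord] at h1
      norm_num at h1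
    · intro h
      have h1 : orderOf (D.ρ σ) ∣ 4 := orderOf_dvd_of_pow_eq_one (by
        rw [show (4 : ℕ) = 2 * 2 from rfl, pow_mul, h]
        simp)
      rw [hord] at h1
      norm_num at h1

/-! ### The values of `c` -/

theorem c_eq {N D₀ : ℕ} {c : Eis → ℝ} (hdvd : D₀ ∣ N) (hD : Dict D D₀) (e : D.E →+* ℂ)
    (hc : ∀ v : HeightOneSpectrum (𝓞 D.M), (N : 𝓞 D.M) ∉ v.asIdeal → ¬ H82.NonSplit D.E v →
      ∀ w ∈ H82.above D.E v, ∀ ϖ : Eis,
        v.asIdeal = Ideal.span {(H83Z.eisO (e.comp (algebraMap D.M D.E))).symm ϖ} →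
          c ϖ = awR D w)
    {p : ℕ} (hp : p.Prime) (hpN : ¬ p ∣ N) {A : ValuationSubring Qb} (hA : A.LiesOverPrime p)
    {σ : Γℚ} (hσ : A.IsFrobeniusAt σ p) {f : ℕ} {ϖ : Eis} (hϖ : Prime ϖ)
    (hn : Complex.normSq (ϖ : ℂ) = (p : ℝ) ^ f) (h8 : D.ρ (σ ^ f) ∈ Q8) :
    c ϖ = val8 (D.ρ (σ ^ f)) := by
  set v := H83Z.placeOf (e.comp (algebraMap D.M D.E)) ϖ hϖ with hv
  have hvI : v.asIdeal = Ideal.span {(H83Z.eisO (e.comp (algebraMap D.M D.E))).symm ϖ} := rfl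
  have hnorm : Ideal.absNorm v.asIdeal = p ^ f := by
    have h1 := H83Z.absNorm_eq hvI
    rw [hn] at h1
    exact_mod_cast h1
  have hpv : (p : 𝓞 D.M) ∈ v.asIdeal := mem_of_absNorm hp hnorm
  have hNv : (N : 𝓞 D.M) ∉ v.asIdeal := by
    intro h
    have hcop : IsCoprime ((p : ℕ) : ℤ) ((N : ℕ) : ℤ) :=
      Nat.isCoprime_iff_coprime.2 ((Nat.Prime.coprime_iff_not_dvd hp).2 hpN)
    obtain ⟨a, b, hab⟩ := hcop.map (Int.castRingHom (𝓞 D.M))
    apply v.isPrime.ne_top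
    rw [Ideal.eq_top_iff_one, ← hab]
    refine v.asIdeal.add_mem (Ideal.mul_mem_left _ _ ?_) (Ideal.mul_mem_left _ _ ?_)
    · simpa using hpv
    · simpa using h
  obtain ⟨hns, hw⟩ := hD p hp (fun h => hpN (h.trans hdvd)) A hA σ hσ f v hnorm h8
  obtain ⟨w, hwv⟩ := H47.above_nonempty (L := D.E) v
  rw [hc v hNv hns w hwv ϖ hvI, hw w hwv]

theorem cArith_of {N D₀ : ℕ} {c : Eis → ℝ} (h3 : 3 ∣ N) (hdvd : D₀ ∣ N) (hD : Dict D D₀)
    (e : D.E →+* ℂ)
    (hc : ∀ v : HeightOneSpectrum (𝓞 D.M), (N : 𝓞 D.M) ∉ v.asIdeal → ¬ H82.NonSplit D.E v →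
      ∀ w ∈ H82.above D.E v, ∀ ϖ : Eis,
        v.asIdeal = Ideal.span {(H83Z.eisO (e.comp (algebraMap D.M D.E))).symm ϖ} →
          c ϖ = awR D w) : CArith D.ρ N c := by
  refine ⟨h3, fun p hp hpN A hA σ hσ h8 ϖ hϖ => ?_, fun p hp hpN A hA σ hσ hSL => ?_⟩
  · have h := c_eq hdvd hD e hc hp (fun h => hpN (h.mul_left 3)) hA hσ (f := 1) (ϖ := ϖ)
      (H83Z.prime_of_normSq hp hϖ) (by rw [hϖ, pow_one]) (by rw [pow_one]; exact h8)
    rwa [pow_one] at h
  · have hp33 : ¬ p ∣ 3 := fun h => hpN (h.mul_right N)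
    have hp3 : p % 3 = 2 := by
      have h0 : p % 3 ≠ 0 := fun h => hp33 (by
        have h1 := Nat.dvd_of_mod_eq_zero h
        rw [(Nat.prime_dvd_prime_iff_eq Nat.prime_three hp).1 h1])
      have h1 : p % 3 ≠ 1 := by
        intro h
        apply hSL
        show Matrix.GeneralLinearGroup.det (D.ρ σ) = 1
        have h2 := H15S47.det_frob ⟨D.cont, D.surj, D.det⟩ hp hp33 hA hσ
        apply Units.ext
        rw [h2, Units.val_one, ← Nat.cast_one, ZMod.natCast_eq_natCast_iff]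
        exact h
      omega
    have h := c_eq hdvd hD e hc hp (fun h => hpN (h.mul_left 3)) hA hσ (f := 2) (ϖ := (p : Eis))
      (H83Z.prime_of_inert hp hp3) (H83Z.normSq_natCast p)
      (by rw [map_pow]; exact sq_mem_Q8_of_not_mem_SL hSL)
    rwa [map_pow] at h

theorem left_of_RD (D : RD) (hD : BlockD) (hC : BlockC) :
    ∃ (N : ℕ) (c : Eis → ℝ) (F : H3 → ℂ), 3 ∣ N ∧ ICT N c F ∧ CArith D.ρ N c := by
  obtain ⟨N₁, h1, hDO⟩ := hD D
  obtain ⟨D₀, hD0, hunr⟩ := exists_unr D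
  obtain ⟨N, c, F, h3, hN, hF, hc⟩ := hC D.M D.E D.finrank_ME (D.eE 0) (awR D)
    (fun w => by rw [awR_eq']; exact D.abs_aw_le w)
    (fun s w => by rw [awR_eq', awR_eq']; exact D.aw_smulPlace_rel s w)
    (ne D) (inertEx D.finrank_ME) (N₁ * D₀) (mul_ne_zero h1 hD0.ne')
    (fun N₀ h0 hd => hDO N₀ h0 (dvd_of_mul_right_dvd hd))
  exact ⟨N, c, F, h3, hF, cArith_of h3 (dvd_of_mul_left_dvd hN) (dict hunr) (D.eE 0) hc⟩

/-- **The left half of S47**: from the outputs of the blocks (D) and (C). -/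
theorem leftHalf (hD : BlockD) (hC : BlockC) : H15S47.LeftHalf := fun ρ hR =>
  left_of_RD ⟨ρ, hR.cont, hR.surj, hR.det⟩ hD hC

end Fermat.Agent.H46Z
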