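import Mathlib
import Fermat.Agent.H55Level

/-!
# (C1), abstract part

`G` a group with a fine level structure `𝓛` and a coarse one `𝓢`, `E` a discrete `G`-module,
`p`-divisible, with `E[p] ≅ ℤ/p` with trivial action, Hilbert 90.  We compute the kernel of
`H²(𝓢, ℤ/p) → H²(𝓛, ℤ/p)`.
-/

set_option autoImplicit false

namespace Fermat.Agent.H47

open Fermat.Agent.H55

section

variable {G : Type*} [Group G] {E : Type*} [AddCommGroup E] [DistribMulAction G E] {p : ℕ}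

/-- The axioms of the abstract situation. -/
structure InflData (𝓢 𝓛 : Levels G) (ε : ZMod p →+ E) (W : AddSubgroup E) : Prop where
  le : ∀ V, 𝓢.op V → 𝓛.op V
  inj : Function.Injective ε
  range : ∀ e : E, p • e = 0 → ∃ a, ε a = e
  fix : ∀ (g : G) (a : ZMod p), g • ε a = ε a
  smooth : ∀ e : E, ∃ V, 𝓛.op V ∧ ∀ g ∈ V, g • e = e
  div : ∀ e : E, ∃ e', p • e' = e
  h90 : ∀ V : Subgroup G, 𝓢.op V → ∀ c : V → E, LC1 (𝓛.onSub V) c →
    (∀ g h : V, c (g * h) = (g : G) • c h + c g) → ∃ e, ∀ g : V, c g = (g : G) • e - e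
  memW : ∀ e, e ∈ W ↔ ∃ V, 𝓢.op V ∧ ∀ g ∈ V, g • e = e

/-- the relation between elements of `E` and 2-cochains -/
def Rel (𝓢 : Levels G) (ε : ZMod p →+ E) (W : AddSubgroup E) (z : E) (f : G × G → ZMod p) :
    Prop :=
  ∃ y : G → E, LC1 𝓢 y ∧ (∀ g, y g ∈ W) ∧ (∀ g, p • y g = g • z - z) ∧
    ∀ g h, ε (f (g, h)) = g • y h - y (g * h) + y g

/-- the group of elements of `W` whose class in `W/p` is invariant -/
def ZW (G : Type*) [Group G] {E : Type*} [AddCommGroup E] [DistribMulAction G E] (p : ℕ)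
    (W : AddSubgroup E) : AddSubgroup E where
  carrier := {z | z ∈ W ∧ ∀ g : G, ∃ w ∈ W, p • w = g • z - z}
  zero_mem' := ⟨W.zero_mem, fun g => ⟨0, W.zero_mem, by simp⟩⟩
  add_mem' := by
    rintro a b ⟨ha, ha'⟩ ⟨hb, hb'⟩
    refine ⟨W.add_mem ha hb, fun g => ?_⟩
    obtain ⟨w, hw, h⟩ := ha' g
    obtain ⟨w', hw', h'⟩ := hb' g
    exact ⟨w + w', W.add_mem hw hw', by rw [smul_add, h, h', smul_add]; abel⟩
  neg_mem' := by
    rintro a ⟨ha, ha'⟩
    refine ⟨W.neg_mem ha, fun g => ?_⟩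
    obtain ⟨w, hw, h⟩ := ha' g
    exact ⟨-w, W.neg_mem hw, by rw [smul_neg, h, smul_neg]; abel⟩

theorem mem_ZW {W : AddSubgroup E} {z : E} :
    z ∈ ZW G p W ↔ z ∈ W ∧ ∀ g : G, ∃ w ∈ W, p • w = g • z - z := Iff.rfl

/-- the subgroup `E^G + pW` -/
def BW (G : Type*) [Group G] {E : Type*} [AddCommGroup E] [DistribMulAction G E] (p : ℕ)
    (W : AddSubgroup E) : AddSubgroup E where
  carrier := {z | ∃ e w, (∀ g : G, g • e = e) ∧ w ∈ W ∧ z = e + p • w}
  zero_mem' := ⟨0, 0, by simp, W.zero_mem, by simp⟩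
  add_mem' := by
    rintro a b ⟨e, w, he, hw, rfl⟩ ⟨e', w', he', hw', rfl⟩
    exact ⟨e + e', w + w', fun g => by rw [smul_add, he, he'], W.add_mem hw hw', by
      rw [smul_add]; abel⟩
  neg_mem' := by
    rintro a ⟨e, w, he, hw, rfl⟩
    exact ⟨-e, -w, fun g => by rw [smul_neg, he], W.neg_mem hw, by rw [smul_neg]; abel⟩

theorem mem_BW {W : AddSubgroup E} {z : E} :
    z ∈ BW G p W ↔ ∃ e w, (∀ g : G, g • e = e) ∧ w ∈ W ∧ z = e + p • w := Iff.rfl

variable {𝓢 𝓛 : Levels G} {ε : ZMod p →+ E} {W : AddSubgroup E}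

namespace InflData

variable (D : InflData 𝓢 𝓛 ε W)
include D

theorem smul_mem {e : E} (he : e ∈ W) (g : G) : g • e ∈ W := by
  rw [D.memW] at he ⊢
  obtain ⟨V, hV, h⟩ := he
  obtain ⟨N, hN, hn, hle⟩ := 𝓢.exists_normal hV
  refine ⟨N, hN, fun s hs => ?_⟩
  have h1 : s * g = g * (g⁻¹ * s * g⁻¹⁻¹) := by group
  rw [← mul_smul, h1, mul_smul, h _ (hle (hn.conj_mem s hs g⁻¹))]

theorem mem_of_fixed {e : E} (he : ∀ g : G, g • e = e) : e ∈ W :=
  (D.memW e).2 ⟨⊤, 𝓢.op_top, fun g _ => he g⟩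

theorem BW_le : BW G p W ≤ ZW G p W := by
  rintro _ ⟨e, w, he, hw, rfl⟩
  refine ⟨W.add_mem (D.mem_of_fixed he) (W.nsmul_mem hw p), fun g => ?_⟩
  refine ⟨g • w - w, W.sub_mem (D.smul_mem hw g) hw, ?_⟩
  rw [smul_add, he, smul_sub, smul_comm g p w]
  abel

/-- a level constant cochain with values in `W` is invariant under a small normal subgroup -/
theorem exists_fix {y : G → E} (hy : LC1 𝓢 y) (hW : ∀ g, y g ∈ W) :
    ∃ N : Subgroup G, 𝓢.op N ∧ N.Normal ∧ (∀ g, ∀ s ∈ N, y (g * s) = y g) ∧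
      ∀ g, ∀ s ∈ N, s • y g = y g := by
  have hfin := hy.finite_range
  have h1 : ∀ s : Set E, s.Finite → (∀ e ∈ s, e ∈ W) →
      ∃ V, 𝓢.op V ∧ ∀ g ∈ V, ∀ e ∈ s, g • e = e := by
    intro s hs
    induction s, hs using Set.Finite.induction_on with
    | empty => intro _; exact ⟨⊤, 𝓢.op_top, by simp⟩
    | @insert a s _ _ ih =>
      intro hW'
      obtain ⟨V, hV, h⟩ := ih fun e he => hW' e (Set.mem_insert_of_mem _ he)
      obtain ⟨V', hV', h'⟩ := (D.memW a).1 (hW' a (Set.mem_insert _ _))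
      refine ⟨V ⊓ V', 𝓢.op_inf hV hV', fun g hg e he => ?_⟩
      rcases Set.mem_insert_iff.1 he with rfl | he
      · exact h' g hg.2
      · exact h g hg.1 e he
  obtain ⟨V, hV, hfix⟩ := h1 _ hfin (by rintro _ ⟨g, rfl⟩; exact hW g)
  obtain ⟨V', hV', hc⟩ := hy
  obtain ⟨N, hN, hn, hle⟩ := 𝓢.exists_normal (𝓢.op_inf hV hV')
  exact ⟨N, hN, hn, fun g s hs => hc g s (hle hs).2, fun g s hs => hfix s (hle hs).1 _ ⟨g, rfl⟩⟩

theorem Rel.mem_Z2 {z : E} {f : G × G → ZMod p} (h : Rel 𝓢 ε W z f) :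
    f ∈ Z2 𝓢 (Representation.trivial (ZMod p) G (ZMod p)) := by
  obtain ⟨y, hy, hyW, hyz, hf⟩ := h
  refine ⟨?_, fun g h j => ?_⟩
  · obtain ⟨N, hN, hn, hc, hfix⟩ := D.exists_fix hy hyW
    refine ⟨N, hN, fun g g' s hs s' hs' => D.inj ?_⟩
    have h1 : g * s * (g' * s') = g * g' * (g'⁻¹ * s * g'⁻¹⁻¹ * s') := by group
    rw [hf, hf, h1, hc _ _ (N.mul_mem (hn.conj_mem s hs _) hs'), hc _ _ hs, hc _ _ hs', mul_smul,
      hfix _ _ hs]
  · apply D.inj
    rw [Representation.trivial_apply, map_add, map_add, ← D.fix g (f (h, j)), hf, hf, hf, hf]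
    simp only [smul_add, smul_sub, mul_smul, mul_assoc]
    abel

omit D in
theorem Rel.add {z z' : E} {f f' : G × G → ZMod p} (h : Rel 𝓢 ε W z f) (h' : Rel 𝓢 ε W z' f') :
    Rel 𝓢 ε W (z + z') (f + f') := by
  obtain ⟨y, hy, hyW, hyz, hf⟩ := h
  obtain ⟨y', hy', hyW', hyz', hf'⟩ := h'
  refine ⟨y + y', (hy.pair hy').comp' (fun q => q.1 + q.2), fun g => W.add_mem (hyW g) (hyW' g),
    fun g => ?_, fun g h => ?_⟩
  · rw [Pi.add_apply, smul_add, hyz, hyz', smul_add]; abel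
  · rw [Pi.add_apply, map_add, hf, hf']
    simp only [Pi.add_apply, smul_add]
    abel

omit D in
theorem Rel.neg {z : E} {f : G × G → ZMod p} (h : Rel 𝓢 ε W z f) :
    Rel 𝓢 ε W (-z) (-f) := by
  obtain ⟨y, hy, hyW, hyz, hf⟩ := h
  refine ⟨-y, hy.comp' (fun q => -q), fun g => W.neg_mem (hyW g), fun g => ?_, fun g h => ?_⟩
  · rw [Pi.neg_apply, smul_neg, hyz, smul_neg]; abel
  · rw [Pi.neg_apply, map_neg, hf]
    simp only [Pi.neg_apply, smul_neg]
    abel

theorem exists_rel {z : E} (hz : z ∈ ZW G p W) : ∃ f, Rel 𝓢 ε W z f := by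
  classical
  obtain ⟨hzW, hz⟩ := hz
  -- a choice of `p`-th roots
  let r : E → E := fun e => if h : ∃ w ∈ W, p • w = e then h.choose else 0
  have hr : ∀ e, (∃ w ∈ W, p • w = e) → r e ∈ W ∧ p • r e = e := by
    intro e he
    have : r e = he.choose := dif_pos he
    rw [this]
    exact he.choose_spec
  let y : G → E := fun g => r (g • z - z)
  have hy : LC1 𝓢 y := by
    obtain ⟨V, hV, h⟩ := (D.memW z).1 hzW
    refine ⟨V, hV, fun g s hs => ?_⟩
    simp only [y]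
    rw [mul_smul, h s hs]
  have hyW : ∀ g, y g ∈ W := fun g => (hr _ (hz g)).1
  have hyz : ∀ g, p • y g = g • z - z := fun g => (hr _ (hz g)).2
  have hf : ∀ q : G × G, ∃ a, ε a = q.1 • y q.2 - y (q.1 * q.2) + y q.1 := by
    intro q
    apply D.range
    rw [smul_add, smul_sub, hyz, hyz, smul_comm, hyz, smul_sub, mul_smul]
    abel
  choose f hf using hf
  exact ⟨f, y, hy, hyW, hyz, fun g h => hf (g, h)⟩

theorem Rel.triv_iff {z : E} {f : G × G → ZMod p} (h : Rel 𝓢 ε W z f) :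
    (∃ x, LC1 𝓢 x ∧ d1 (Representation.trivial (ZMod p) G (ZMod p)) x = f) ↔ z ∈ BW G p W := by
  obtain ⟨y, hy, hyW, hyz, hf⟩ := h
  constructor
  · rintro ⟨x, hx, hxf⟩
    have hxf' : ∀ g h, f (g, h) = x h - x (g * h) + x g := by
      intro g h
      rw [← hxf, d1_apply, Representation.trivial_apply]
    -- the difference is a cocycle
    let c : G → E := fun g => y g - ε (x g)
    have hc : LC1 𝓢 c := (hy.pair hx).comp' (fun q => q.1 - ε q.2)
    have hcoc : ∀ g h, c (g * h) = g • c h + c g := by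
      intro g h
      have h1 := hf g h
      rw [hxf', map_add, map_sub] at h1
      simp only [c]
      rw [smul_sub, D.fix]
      have h2 : y (g * h) = g • y h + y g - (ε (x h) - ε (x (g * h)) + ε (x g)) := by
        rw [h1]; abel
      rw [h2]
      abel
    obtain ⟨e, he⟩ := D.h90 ⊤ 𝓢.op_top (fun g => c g) (by
      obtain ⟨V, hV, h⟩ := hc
      exact ⟨V.comap (Subgroup.subtype ⊤), ⟨V, D.le V hV, le_rfl⟩, fun g s hs => h g s hs⟩)
      (fun g h => hcoc g h)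
    have he' : ∀ g, c g = g • e - e := fun g => he ⟨g, Subgroup.mem_top g⟩
    have heW : e ∈ W := by
      rw [D.memW]
      obtain ⟨V, hV, h⟩ := hc
      refine ⟨V, hV, fun s hs => ?_⟩
      have h1 := h 1 s hs
      rw [one_mul, he', he', one_smul, sub_self, sub_eq_zero] at h1
      exact h1
    refine ⟨z - p • e, e, fun g => ?_, heW, by abel⟩
    have h2 : p • y g = p • (g • e - e) := by
      rw [← he']
      simp only [c]
      rw [smul_sub, ← map_nsmul]
      simp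
    rw [hyz, smul_sub, sub_eq_iff_eq_add] at h2
    rw [smul_sub, h2, smul_comm]
    abel
  · rintro ⟨e, w, he, hw, rfl⟩
    -- `y - d w` is `E[p]`-valued
    have h1 : ∀ g, ∃ a, ε a = y g - (g • w - w) := by
      intro g
      apply D.range
      rw [smul_sub, hyz, smul_add, he, smul_sub, smul_comm g p w]
      abel
    choose x hx using h1
    refine ⟨x, ?_, ?_⟩
    · obtain ⟨V, hV, h⟩ := (D.memW w).1 hw
      obtain ⟨V', hV', h'⟩ := hy
      refine ⟨V ⊓ V', 𝓢.op_inf hV hV', fun g s hs => D.inj ?_⟩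
      rw [hx, hx, h' g s hs.2, mul_smul, h s hs.1]
    · funext ⟨g, h⟩
      apply D.inj
      rw [d1_apply, Representation.trivial_apply, map_add, map_sub, hf]
      simp only
      rw [← D.fix g (x h), hx, hx, hx]
      simp only [smul_sub, mul_smul]
      abel

theorem Rel.triv {z : E} {f : G × G → ZMod p} (h : Rel 𝓢 ε W z f) :
    ∃ x, LC1 𝓛 x ∧ d1 (Representation.trivial (ZMod p) G (ZMod p)) x = f := by
  obtain ⟨y, hy, hyW, hyz, hf⟩ := h
  obtain ⟨w, rfl⟩ := D.div z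
  have h1 : ∀ g, ∃ a, ε a = y g - (g • w - w) := by
    intro g
    apply D.range
    rw [smul_sub, hyz, smul_sub, smul_comm g p w]
    abel
  choose x hx using h1
  refine ⟨x, ?_, ?_⟩
  · obtain ⟨V, hV, h⟩ := D.smooth w
    obtain ⟨V', hV', h'⟩ := hy
    refine ⟨V ⊓ V', 𝓛.op_inf hV (D.le _ hV'), fun g s hs => D.inj ?_⟩
    rw [hx, hx, h' g s hs.2, mul_smul, h s hs.1]
  · funext ⟨g, h⟩
    apply D.inj
    rw [d1_apply, Representation.trivial_apply, map_add, map_sub, hf]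
    simp only
    rw [← D.fix g (x h), hx, hx, hx]
    simp only [smul_sub, mul_smul]
    abel

theorem exists_rel_of_triv {f : G × G → ZMod p}
    (hf : f ∈ Z2 𝓢 (Representation.trivial (ZMod p) G (ZMod p)))
    (ht : ∃ x, LC1 𝓛 x ∧ d1 (Representation.trivial (ZMod p) G (ZMod p)) x = f) :
    ∃ z ∈ ZW G p W, Rel 𝓢 ε W z f := by
  obtain ⟨c, hc, hcf⟩ := ht
  obtain ⟨⟨V₀, hV₀, hfV₀⟩, hcoc⟩ := hf
  obtain ⟨V, hV, hn, hle⟩ := 𝓢.exists_normal hV₀
  have hfV : ∀ g g', ∀ s ∈ V, ∀ s' ∈ V, f (g * s, g' * s') = f (g, g') :=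
    fun g g' s hs s' hs' => hfV₀ g g' s (hle hs) s' (hle hs')
  have hcf' : ∀ g h, f (g, h) = c h - c (g * h) + c g := by
    intro g h
    rw [← hcf, d1_apply, Representation.trivial_apply]
  have hf1 : ∀ g, f (g, 1) = c 1 := by
    intro g
    rw [hcf', mul_one]; abel
  have hcV : ∀ g, ∀ s ∈ V, c (g * s) = c g + (c s - c 1) := by
    intro g s hs
    have h1 := hfV g 1 1 V.one_mem s hs
    rw [mul_one, one_mul, hf1, hcf'] at h1
    linear_combination -h1
  -- the Kummer element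
  obtain ⟨e, he⟩ := D.h90 V hV (fun s => ε (c s - c 1)) (by
      obtain ⟨V', hV', h⟩ := hc
      exact ⟨V'.comap V.subtype, ⟨V', hV', le_rfl⟩, fun g s hs => by
        have h1 : c ((g : G) * (s : G)) = c g := h g s hs
        show ε (c ((g : G) * (s : G)) - c 1) = _
        rw [h1]⟩)
    (fun g h => by
      have h1 : c ((g : G) * (h : G)) = c g + (c h - c 1) := hcV g h h.2
      show ε (c ((g : G) * (h : G)) - c 1) = _
      rw [h1, D.fix, ← map_add]
      congr 1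
      ring)
  have he' : ∀ s ∈ V, s • e = e + ε (c s - c 1) := by
    intro s hs
    rw [he ⟨s, hs⟩]
    abel
  let y : G → E := fun g => ε (c g) - (g • e - e)
  have hyr : ∀ g, ∀ s ∈ V, y (g * s) = y g := by
    intro g s hs
    simp only [y]
    rw [hcV g s hs, mul_smul, he' s hs, smul_add, D.fix, map_add]
    abel
  have hyl : ∀ g, ∀ s ∈ V, s • y g = y g := by
    intro g s hs
    have h1 : y (s * g) = y g := by
      have h2 : s * g = g * (g⁻¹ * s * g⁻¹⁻¹) := by group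
      rw [h2]
      exact hyr g _ (hn.conj_mem s hs g⁻¹)
    -- c (s * g) = c g + (c s - c 1)
    have h3 : c (s * g) = c g + (c s - c 1) := by
      have h4 := hfV 1 g s hs 1 V.one_mem
      rw [mul_one, one_mul, hcf', hcf', one_mul] at h4
      linear_combination -h4
    have h5 : s • y g = ε (c g) - (s • (g • e) - s • e) := by
      simp only [y]
      rw [smul_sub, smul_sub, D.fix]
    have h6 : y (s * g) = ε (c (s * g)) - (s • (g • e) - e) := by
      simp only [y]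
      rw [mul_smul]
    rw [h5, ← h1, h6, h3, he' s hs, map_add]
    abel
  have hyW : ∀ g, y g ∈ W := fun g => (D.memW _).2 ⟨V, hV, hyl g⟩
  have hpε : ∀ a : ZMod p, p • ε a = 0 := by
    intro a
    rw [← map_nsmul]; simp
  have hyp : ∀ g, p • y g = g • (-(p • e)) - (-(p • e)) := by
    intro g
    simp only [y]
    rw [smul_sub, hpε, smul_sub, smul_neg, smul_comm g p e]
    abel
  have hzW : -(p • e) ∈ W := by
    apply W.neg_mem
    rw [D.memW]
    refine ⟨V, hV, fun s hs => ?_⟩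
    rw [smul_comm, he' s hs, smul_add, hpε, add_zero]
  refine ⟨-(p • e), ⟨hzW, fun g => ⟨y g, hyW g, hyp g⟩⟩, y, ⟨V, hV, hyr⟩, hyW, hyp, fun g h => ?_⟩
  simp only [y]
  rw [hcf', map_add, map_sub, smul_sub, D.fix, smul_sub, mul_smul]
  abel

local notation "triv" => Representation.trivial (ZMod p) G (ZMod p)

theorem Rel.class_eq {z : E} {f f' : G × G → ZMod p} (h : Rel 𝓢 ε W z f)
    (h' : Rel 𝓢 ε W z f') :
    H2π 𝓢 triv ⟨f, Rel.mem_Z2 D h⟩ = H2π 𝓢 triv ⟨f', Rel.mem_Z2 D h'⟩ := by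
  rw [← sub_eq_zero, ← map_sub, H2π_eq_zero_iff]
  have h1 : Rel 𝓢 ε W (z + -z) (f + -f') := Rel.add h (Rel.neg h')
  have h2 := (Rel.triv_iff D h1).2 (by rw [add_neg_cancel]; exact (BW G p W).zero_mem)
  rw [← sub_eq_add_neg] at h2
  exact h2

/-- the map from `(W/p)^G` to `H²` -/
noncomputable def psi : ZW G p W →+ H2 𝓢 triv where
  toFun z := H2π 𝓢 triv ⟨(D.exists_rel z.2).choose, Rel.mem_Z2 D (D.exists_rel z.2).choose_spec⟩
  map_zero' := by
    have h0 : Rel 𝓢 ε W ((0 : ZW G p W) : E) 0 :=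
      ⟨fun _ => 0, LC1.const 0, fun _ => W.zero_mem, fun g => by simp, fun g h => by simp⟩
    rw [Rel.class_eq D (D.exists_rel (0 : ZW G p W).2).choose_spec h0]
    exact map_zero _
  map_add' z z' := by
    rw [← map_add]
    exact Rel.class_eq D (D.exists_rel (z + z').2).choose_spec
      (Rel.add (D.exists_rel z.2).choose_spec (D.exists_rel z'.2).choose_spec)

theorem psi_eq (z : ZW G p W) {f : G × G → ZMod p} (h : Rel 𝓢 ε W (z : E) f) :
    D.psi z = H2π 𝓢 triv ⟨f, Rel.mem_Z2 D h⟩ :=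
  Rel.class_eq D (D.exists_rel z.2).choose_spec h

theorem psi_ker : D.psi.ker = (BW G p W).addSubgroupOf (ZW G p W) := by
  ext z
  rw [AddMonoidHom.mem_ker, AddSubgroup.mem_addSubgroupOf]
  obtain ⟨f, hf⟩ := D.exists_rel z.2
  rw [D.psi_eq z hf, H2π_eq_zero_iff]
  exact Rel.triv_iff D hf

theorem cont : Levels.Cont 𝓛 𝓢 (MonoidHom.id G) := fun U hU => by
  have : U.comap (MonoidHom.id G) = U := by ext; rfl
  rw [this]
  exact D.le U hU

theorem psi_mem_range_iff (x : H2 𝓢 triv) :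
    x ∈ D.psi.range ↔ x ∈ LinearMap.ker (H2map (ρA := triv) (ρB := triv) (φ := LinearMap.id)
      D.cont (fun _ _ => rfl)) := by
  obtain ⟨⟨f, hf⟩, rfl⟩ := H2π_surjective 𝓢 triv x
  have key : H2π 𝓢 triv ⟨f, hf⟩ ∈ LinearMap.ker (H2map (ρA := triv) (ρB := triv)
      (φ := LinearMap.id) D.cont (fun _ _ => rfl)) ↔
      ∃ x, LC1 𝓛 x ∧ d1 triv x = f := by
    rw [LinearMap.mem_ker, H2map_mk, H2π_eq_zero_iff]
    rfl
  rw [key]
  constructor
  · rintro ⟨z, hz⟩
    obtain ⟨f', hf'⟩ := D.exists_rel z.2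
    rw [D.psi_eq z hf', ← sub_eq_zero, ← map_sub, H2π_eq_zero_iff] at hz
    obtain ⟨x, hx, hxf⟩ := hz
    obtain ⟨x', hx', hxf'⟩ := Rel.triv D hf'
    refine ⟨x' - x, (hx'.pair ((hx.precomp D.cont :))).comp' (fun q => q.1 - q.2), ?_⟩
    rw [map_sub, hxf, hxf']
    simp
  · intro ht
    obtain ⟨z, hz, h⟩ := D.exists_rel_of_triv hf ht
    exact ⟨⟨z, hz⟩, D.psi_eq ⟨z, hz⟩ h⟩

/-- `(W/p)^G / E^G ≃ ker (H²(𝓢) → H²(𝓛))` -/
noncomputable def kerEquiv : (ZW G p W ⧸ (BW G p W).addSubgroupOf (ZW G p W)) ≃+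
    ↥(LinearMap.ker (H2map (ρA := triv) (ρB := triv) (φ := LinearMap.id)
      D.cont (fun _ _ => rfl))) :=
  ((QuotientAddGroup.quotientAddEquivOfEq D.psi_ker.symm).trans
    (QuotientAddGroup.quotientKerEquivRange D.psi)).trans
    { toFun := fun x => ⟨x, (D.psi_mem_range_iff _).1 x.2⟩
      invFun := fun x => ⟨x, (D.psi_mem_range_iff _).2 x.2⟩
      left_inv := fun _ => rfl
      right_inv := fun _ => rfl
      map_add' := fun _ _ => rfl }

theorem card_ker : Nat.card ↥(LinearMap.ker (H2map (ρA := triv) (ρB := triv)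
      (φ := LinearMap.id) D.cont (fun _ _ => rfl))) =
      (BW G p W).relIndex (ZW G p W) := by
  rw [← Nat.card_congr D.kerEquiv.toEquiv]
  rfl

end InflData

end

end Fermat.Agent.H47
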