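import Fermat.Agent.H91Units
import Fermat.Agent.H55Fam
import Fermat.Agent.H64Kummer
import Fermat.Agent.H47C1Abs

/-!
# (C1): the concrete situation
-/

set_option autoImplicit false

namespace Fermat.Agent.H47

open Fermat.Agent.H55 Fermat.Agent.H91 groupCohomology NumberField

local notation "Ω" => AlgebraicClosure ℚ
local notation "Γ" => (AlgebraicClosure ℚ ≃ₐ[ℚ] AlgebraicClosure ℚ)

/-- the elements of `ℚ̄` unramified outside `S` -/
def unrW (S : Finset Nat.Primes) : AddSubgroup (Additive Ωˣ) where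
  carrier := {e | ∀ q : Nat.Primes, q ∉ S → ∀ A : ValuationSubring Ω, A.LiesOverPrime (q : ℕ) →
      ∀ σ ∈ A.inertiaSubgroupIn ℚ, σ (uval e) = uval e}
  zero_mem' := by
    intro q _ A _ σ _
    rw [uval_zero, map_one]
  add_mem' := by
    intro a b ha hb q hq A hA σ hσ
    rw [uval_add, map_mul, ha q hq A hA σ hσ, hb q hq A hA σ hσ]
  neg_mem' := by
    intro a ha q hq A hA σ hσ
    rw [uval_neg, map_inv₀, ha q hq A hA σ hσ]

theorem mem_unrW {S : Finset Nat.Primes} {e : Additive Ωˣ} : e ∈ unrW S ↔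
    ∀ q : Nat.Primes, q ∉ S → ∀ A : ValuationSubring Ω, A.LiesOverPrime (q : ℕ) →
      ∀ σ ∈ A.inertiaSubgroupIn ℚ, σ (uval e) = uval e := Iff.rfl

variable {p : ℕ} {ζ : Ω}

/-- the embedding `ℤ/p → ℚ̄ˣ` given by a root of unity -/
noncomputable def muEmb (hζ : IsPrimitiveRoot ζ p) (hp : p ≠ 0) : ZMod p →+ Additive Ωˣ :=
  ZMod.lift p ⟨zmultiplesHom _ (umk ζ (hζ.ne_zero hp)), by
    rw [zmultiplesHom_apply, natCast_zsmul]
    apply uval_injective
    rw [uval_nsmul, uval_umk, hζ.pow_eq_one, uval_zero]⟩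

theorem muEmb_natCast (hζ : IsPrimitiveRoot ζ p) (hp : p ≠ 0) (n : ℕ) :
    uval (muEmb hζ hp (n : ZMod p)) = ζ ^ n := by
  have h : ((n : ℤ) : ZMod p) = (n : ZMod p) := by push_cast; rfl
  rw [muEmb, ← h, ZMod.lift_coe]
  show uval (zmultiplesHom _ (umk ζ (hζ.ne_zero hp)) (n : ℤ)) = _
  rw [zmultiplesHom_apply, natCast_zsmul, uval_nsmul, uval_umk]

theorem muEmb_apply (hζ : IsPrimitiveRoot ζ p) (hp : p ≠ 0) (a : ZMod p) :
    uval (muEmb hζ hp a) = ζ ^ a.val := by
  have : NeZero p := ⟨hp⟩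
  conv_lhs => rw [← ZMod.natCast_zmod_val a]
  exact muEmb_natCast hζ hp _

theorem exists_eq_fixingSubgroup_sup (K : IntermediateField ℚ Ω) {S : Finset Nat.Primes}
    {V : Subgroup K.fixingSubgroup} (hK : K.IsUnramifiedOutside S)
    (hV : ((ramLevels S).onSub K.fixingSubgroup).op V) :
    ∃ F : IntermediateField ℚ Ω, F.IsUnramifiedOutside S ∧ K ≤ F ∧
      ∀ g : K.fixingSubgroup, (g : Γ) ∈ F.fixingSubgroup → g ∈ V := by
  obtain ⟨W, ⟨_, ⟨F, hF, rfl⟩, hle⟩, hle'⟩ := hV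
  refine ⟨K ⊔ F, hK.sup hF, le_sup_left, fun g hg => hle' ?_⟩
  exact hle (IntermediateField.fixingSubgroup_antitone le_sup_right hg)

theorem mem_unrW_iff (K : IntermediateField ℚ Ω) {S : Finset Nat.Primes}
    (hK : K.IsUnramifiedOutside S) (e : Additive Ωˣ) :
    e ∈ unrW S ↔ ∃ V : Subgroup K.fixingSubgroup, ((ramLevels S).onSub K.fixingSubgroup).op V ∧
      ∀ g ∈ V, g • e = e := by
  constructor
  · intro he
    have : FiniteDimensional ℚ K := hK.1
    have : NumberField K := H64.numberField_of_finiteDimensional K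
    have h1 := H64.adjoin_unramified hK (y := uval e) he
    refine ⟨(K ⊔ IntermediateField.adjoin ℚ {uval e}).fixingSubgroup.subgroupOf K.fixingSubgroup,
      ⟨_, ⟨_, ⟨_, h1, rfl⟩, le_rfl⟩, le_rfl⟩, fun g hg => ?_⟩
    have h2 : (g : Γ) ∈ (K ⊔ IntermediateField.adjoin ℚ {uval e}).fixingSubgroup := hg
    rw [IntermediateField.mem_fixingSubgroup_iff] at h2
    apply uval_injective
    exact h2 _ (le_sup_right (a := K) (IntermediateField.mem_adjoin_simple_self ℚ (uval e)))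
  · rintro ⟨V, hV, h⟩
    obtain ⟨F, hF, hKF, hFV⟩ := exists_eq_fixingSubgroup_sup K hK hV
    intro q hq A hA σ hσ
    have h1 : σ ∈ F.fixingSubgroup := hF.2 q hq A hA hσ
    have h2 : σ ∈ K.fixingSubgroup := hK.2 q hq A hA hσ
    have h3 := h ⟨σ, h2⟩ (hFV ⟨σ, h2⟩ h1)
    exact congrArg uval h3

theorem h90_onSub (U : Subgroup Γ) (V : Subgroup U) (c : V → Additive Ωˣ)
    (hc : LC1 ((krullLevels.onSub U).onSub V) c)
    (hcoc : ∀ g h : V, c (g * h) = (g : U) • c h + c g) :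
    ∃ e, ∀ g : V, c g = (g : U) • e - e := by
  have h1 : ((krullFam.restrict U).restrict V).IsConst₁ c := by
    rw [← lc1_ofFam_iff, ofFam_comap, ofFam_comap]
    exact hc
  have h2 := ((faithfulOn_krullFam.restrict U).restrict V).h90
  exact h2 c hcoc h1

/-- the concrete data for (C1) -/
theorem inflData (hp : p ≠ 0) (hζ : IsPrimitiveRoot ζ p) {K : IntermediateField ℚ Ω}
    (hζK : ζ ∈ K) {S : Finset Nat.Primes} (hK : K.IsUnramifiedOutside S) :
    InflData ((ramLevels S).onSub K.fixingSubgroup) (krullLevels.onSub K.fixingSubgroup)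
      (muEmb hζ hp) (unrW S) where
  le := by
    rintro V ⟨W, hW, hle⟩
    exact ⟨W, ramLevels_le_krullLevels S hW, hle⟩
  inj := by
    have : NeZero p := ⟨hp⟩
    intro a b hab
    have h := congrArg uval hab
    rw [muEmb_apply, muEmb_apply] at h
    exact H64.pow_val_injective hζ h
  range := by
    have : NeZero p := ⟨hp⟩
    intro e he
    have h1 : uval e ^ p = 1 := by
      rw [← uval_nsmul, he, uval_zero]
    obtain ⟨a, ha⟩ := H64.exists_pow_val hζ h1
    exact ⟨a, uval_injective (by rw [muEmb_apply, ha])⟩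
  fix := by
    intro g a
    apply uval_injective
    have h1 : (g : Γ) ζ = ζ := H64.fixes g ⟨ζ, hζK⟩
    show (g : Γ) (uval (muEmb hζ hp a)) = _
    rw [muEmb_apply, map_pow, h1]
  smooth := by
    intro e
    obtain ⟨V, hV, h⟩ := smooth_krullFam e
    exact ⟨V.subgroupOf K.fixingSubgroup, ⟨V, ⟨V, hV, le_rfl⟩, le_rfl⟩, fun g hg => h g hg⟩
  div := fun e => exists_nsmul_eq_units (Nat.pos_of_ne_zero hp) e
  h90 := fun V _ c hc hcoc => h90_onSub _ V c hc hcoc
  memW := mem_unrW_iff K hK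

end Fermat.Agent.H47
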