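import Fermat.Agent.H47C1Val
import Fermat.Agent.H47C1Data
import Fermat.Agent.H64A1

/-!
# (C1): divisors modulo `p`
-/

set_option autoImplicit false

namespace Fermat.Agent.H47

open NumberField IsDedekindDomain Fermat.Agent.H63 Fermat.Agent.H64 Fermat.Agent.H55
  Fermat.Agent.H91 groupCohomology
open scoped Pointwise

local notation "Ω" => AlgebraicClosure ℚ
local notation "Γ" => (AlgebraicClosure ℚ ≃ₐ[ℚ] AlgebraicClosure ℚ)

theorem nsmul_smul_sub {G E : Type*} [Group G] [AddCommGroup E] [DistribMulAction G E] (n : ℕ)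
    (g : G) (d : E) : n • (g • d - d) = g • (n • d) - n • d := by
  rw [smul_sub, smul_comm]

/-- a Galois number field unramified outside `S` containing a given one -/
theorem exists_galois_level {S : Finset Nat.Primes} {F : IntermediateField ℚ Ω}
    (hF : F.IsUnramifiedOutside S) :
    ∃ E : IntermediateField ℚ Ω, F ≤ E ∧ E.IsUnramifiedOutside S ∧ NumberField E ∧
      @IsGalois ℚ _ E _ DivisionRing.toRatAlgebra := by
  obtain ⟨E, hE, hle, hn, -⟩ := H91.exists_normal_levelS hF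
  have hEfd : FiniteDimensional ℚ E := hE.1
  have hEnf : NumberField E := numberField_of_finiteDimensional E
  have hEgal' : IsGalois ℚ E := (InfiniteGalois.normal_iff_isGalois E).1 hn
  exact ⟨E, hle, hE, hEnf, by convert hEgal'⟩

/-- units of `K` as elements of the module of units of `ℚ̄` -/
noncomputable def kEmb (K : IntermediateField ℚ Ω) (k : Kˣ) : Additive Ωˣ :=
  Additive.ofMul (Units.map (algebraMap K Ω : K →* Ω) k)

@[simp] theorem uval_kEmb (K : IntermediateField ℚ Ω) (k : Kˣ) :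
    uval (kEmb K k) = algebraMap K Ω (k : K) := rfl

theorem smul_kEmb (K : IntermediateField ℚ Ω) (g : K.fixingSubgroup) (k : Kˣ) :
    g • kEmb K k = kEmb K k := by
  apply uval_injective
  exact H64.fixes g (k : K)

theorem exists_kEmb {K : IntermediateField ℚ Ω} {e : Additive Ωˣ}
    (he : ∀ g : K.fixingSubgroup, g • e = e) : ∃ k, e = kEmb K k := by
  have hyK : uval e ∈ K := by
    have h1 : uval e ∈ IntermediateField.fixedField K.fixingSubgroup := by
      rw [IntermediateField.mem_fixedField_iff]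
      intro σ hσ'
      exact congrArg uval (he ⟨σ, hσ'⟩)
    rwa [InfiniteGalois.fixedField_fixingSubgroup] at h1
  have h0 : (⟨uval e, hyK⟩ : K) ≠ 0 := by
    intro h
    exact uval_ne_zero e (congrArg Subtype.val h)
  exact ⟨Units.mk0 _ h0, uval_injective rfl⟩

section

variable {S : Finset Nat.Primes} {K : IntermediateField ℚ Ω} [NumberField K]

omit [NumberField K] in
theorem kEmb_mem_unrW (hK : K.IsUnramifiedOutside S) (k : Kˣ) : kEmb K k ∈ unrW S := by
  intro q hq A hA σ hσ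
  exact H64.fixes ⟨σ, hK.2 q hq A hA hσ⟩ (k : K)

/-- Descent: if the `p`-th power of an unramified element has the same valuation as an element of
`K`, the latter has order divisible by `p`. -/
theorem dvd_ordHom_of_valuation_eq (p : ℕ) (hK : K.IsUnramifiedOutside S) {q : Nat.Primes}
    (hq : q ∉ S) {A : ValuationSubring Ω} (hA : A.LiesOverPrime (q : ℕ)) {x : Kˣ}
    {w : Additive Ωˣ} (hw : w ∈ unrW S)
    (h : A.valuation (uval w ^ p) = A.valuation (algebraMap K Ω (x : K))) :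
    (p : ℤ) ∣ ordHom (placeBelow K q.2 hA) (Additive.ofMul x) := by
  have hF := adjoin_unramified hK (y := uval w) hw
  obtain ⟨E, hle, hE, hEnf, hEgal⟩ := exists_galois_level hF
  have hKE : K ≤ E := le_sup_left.trans hle
  have hwE : uval w ∈ E :=
    hle (le_sup_right (a := K) (IntermediateField.mem_adjoin_simple_self ℚ (uval w)))
  let _ : Algebra K E := (IntermediateField.inclusion hKE).toRingHom.toAlgebra
  have : IsScalarTower K E Ω := IsScalarTower.of_algebraMap_eq fun _ => rfl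
  have hI : ∀ σ ∈ A.inertiaSubgroupIn ℚ, ∀ x : E, σ (algebraMap E Ω x) = algebraMap E Ω x := by
    intro σ hσ x
    exact (IntermediateField.mem_fixingSubgroup_iff E _).1 (hE.2 q hq A hA hσ) x x.2
  have hw0 : (⟨uval w, hwE⟩ : E) ≠ 0 := fun h => uval_ne_zero w (congrArg Subtype.val h)
  rw [← ordHom_placeBelow_tower K E q.2 hA hI x]
  have h1 : ordHom (placeBelow E q.2 hA) (Additive.ofMul ((Units.mk0 _ hw0) ^ p)) =
      ordHom (placeBelow E q.2 hA)
        (Additive.ofMul (Units.map (algebraMap K E : K →* E) x)) := by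
    apply ordHom_eq_of_valuation_eq
    rw [Units.val_pow_eq_pow_val, Units.val_mk0, map_pow]
    exact h
  rw [← h1, ofMul_pow, map_nsmul, nsmul_eq_mul]
  exact dvd_mul_right _ _

/-- `z` has divisor `D` modulo `p` away from `S` -/
def DivMod (p : ℕ) (S : Finset Nat.Primes) (K : IntermediateField ℚ Ω) [NumberField K]
    (z : Additive Ωˣ) (D : HeightOneSpectrum (𝓞 K) →₀ ℤ) : Prop :=
  ∀ (q : Nat.Primes) (_ : q ∉ S) (A : ValuationSubring Ω) (hA : A.LiesOverPrime (q : ℕ)),
    ∃ (x : Kˣ) (w : Additive Ωˣ), w ∈ unrW S ∧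
      ordHom (placeBelow K q.2 hA) (Additive.ofMul x) = D (placeBelow K q.2 hA) ∧
      A.valuation (uval z) = A.valuation (algebraMap K Ω (x : K) * uval w ^ p)

variable {p : ℕ}

theorem DivMod.zero : DivMod p S K 0 0 := by
  intro q _ A hA
  exact ⟨1, 0, (unrW S).zero_mem, by simp, by simp⟩

theorem DivMod.add {z z' : Additive Ωˣ} {D D' : HeightOneSpectrum (𝓞 K) →₀ ℤ}
    (h : DivMod p S K z D) (h' : DivMod p S K z' D') : DivMod p S K (z + z') (D + D') := by
  intro q hq A hA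
  obtain ⟨x, w, hw, hx, hv⟩ := h q hq A hA
  obtain ⟨x', w', hw', hx', hv'⟩ := h' q hq A hA
  refine ⟨x * x', w + w', (unrW S).add_mem hw hw', ?_, ?_⟩
  · rw [ofMul_mul, map_add, hx, hx']; rfl
  · rw [uval_add, map_mul, hv, hv', ← map_mul, Units.val_mul, map_mul (algebraMap K Ω), uval_add]
    congr 1
    ring

theorem DivMod.neg {z : Additive Ωˣ} {D : HeightOneSpectrum (𝓞 K) →₀ ℤ}
    (h : DivMod p S K z D) : DivMod p S K (-z) (-D) := by
  intro q hq A hA
  obtain ⟨x, w, hw, hx, hv⟩ := h q hq A hA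
  refine ⟨x⁻¹, -w, (unrW S).neg_mem hw, ?_, ?_⟩
  · rw [ofMul_inv, map_neg, hx]; rfl
  · rw [uval_neg, map_inv₀, hv, ← map_inv₀, Units.val_inv_eq_inv_val, map_inv₀ (algebraMap K Ω),
      uval_neg]
    congr 1
    rw [mul_inv, inv_pow]

/-- the divisor of an element of `K` -/
theorem divMod_kEmb (k : Kˣ) : DivMod p S K (kEmb K k) (divHom (𝓞 K) K (Additive.ofMul k)) := by
  intro q _ A hA
  exact ⟨k, 0, (unrW S).zero_mem, by rw [divHom_apply], by simp⟩

theorem DivMod.dvd (hK : K.IsUnramifiedOutside S) {k : Kˣ} {w : Additive Ωˣ} (hw : w ∈ unrW S)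
    {D : HeightOneSpectrum (𝓞 K) →₀ ℤ} (h : DivMod p S K (kEmb K k + p • w) D)
    {v : HeightOneSpectrum (𝓞 K)} (hv : v ∉ placesS S K) :
    (p : ℤ) ∣ D v - ordHom v (Additive.ofMul k) := by
  obtain ⟨ℓ, hℓ, A, hA, rfl, hmem⟩ := exists_placeBelow_eq v
  have hℓS : (⟨ℓ, hℓ⟩ : Nat.Primes) ∉ S := fun h => hv ⟨_, h, hmem⟩
  obtain ⟨x, w', hw', hx, hval⟩ := h ⟨ℓ, hℓ⟩ hℓS A hA
  have h1 := dvd_ordHom_of_valuation_eq p hK (q := ⟨ℓ, hℓ⟩) hℓS hA (x := x / k) (w := w - w')
    ((unrW S).sub_mem hw hw') (by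
      have hk : algebraMap K Ω (k : K) ≠ 0 := (map_ne_zero _).2 k.ne_zero
      have hw0 : uval w' ^ p ≠ 0 := pow_ne_zero _ (uval_ne_zero w')
      rw [uval_add, uval_kEmb, uval_nsmul, map_mul, map_mul] at hval
      have e1 : A.valuation (algebraMap K Ω (k : K)) ≠ 0 := (Valuation.ne_zero_iff _).2 hk
      have e2 : A.valuation (uval w' ^ p) ≠ 0 := (Valuation.ne_zero_iff _).2 hw0
      rw [uval_sub, div_pow, map_div₀, Units.val_div_eq_div_val, map_div₀ (algebraMap K Ω),
        map_div₀, div_eq_div_iff e2 e1, mul_comm, hval])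
  rw [ofMul_div, map_sub] at h1
  have h2 : ordHom (placeBelow K hℓ hA) (Additive.ofMul x) = D (placeBelow K hℓ hA) := hx
  rw [← h2]
  exact h1

theorem mem_BW_of_divMod [Fact p.Prime] (hpS : ∀ q : Nat.Primes, (q : ℕ) = p → q ∈ S)
    (hK : K.IsUnramifiedOutside S) {z : Additive Ωˣ} (hz : z ∈ unrW S)
    {D : HeightOneSpectrum (𝓞 K) →₀ ℤ} (h : DivMod p S K z D) {k : Kˣ}
    (hk : ∀ v ∉ placesS S K, (p : ℤ) ∣ D v - ordHom v (Additive.ofMul k)) :
    z ∈ BW K.fixingSubgroup p (unrW S) := by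
  have hp : p.Prime := Fact.out
  obtain ⟨u, hu⟩ := exists_nsmul_eq_units hp.pos (z - kEmb K k)
  refine ⟨kEmb K k, u, fun g => smul_kEmb K g k, ?_, by rw [hu]; abel⟩
  intro q hq A hA σ hσ
  have hqp : (q : ℕ) ≠ p := fun h => hq (hpS q h)
  obtain ⟨x, w, hw, hx, hval⟩ := h q hq A hA
  have hvS : placeBelow K q.2 hA ∉ placesS S K := by
    rintro ⟨q', hq', hmem⟩
    exact notMem_placeBelow q.2 q'.2 (fun h => hq (by rwa [Subtype.ext h])) hA hmem
  obtain ⟨n, hn⟩ := hk _ hvS
  obtain ⟨y, hy⟩ := exists_ordHom_eq_int (placeBelow K q.2 hA) n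
  have hσK : ∀ a : K, σ (algebraMap K Ω a) = algebraMap K Ω a := fun a =>
    H64.fixes ⟨σ, hK.2 q hq A hA hσ⟩ a
  have hx' : A.valuation (algebraMap K Ω (x : K)) =
      A.valuation (algebraMap K Ω ((k * y ^ p : Kˣ) : K)) := by
    apply valuation_eq_of_ordHom_eq K q.2 hA
    rw [hx, ofMul_mul, map_add, ofMul_pow, map_nsmul, hy, nsmul_eq_mul, ← hn]
    ring
  have hk0 : algebraMap K Ω (k : K) ≠ 0 := (map_ne_zero _).2 k.ne_zero
  have hy0 : algebraMap K Ω (y : K) ≠ 0 := (map_ne_zero _).2 y.ne_zero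
  have hw0 : uval w ≠ 0 := uval_ne_zero w
  have hup : uval u ^ p = uval z / algebraMap K Ω (k : K) := by
    rw [← uval_nsmul, hu, uval_sub, uval_kEmb]
  set η : Ω := uval u / (algebraMap K Ω (y : K) * uval w) with hη
  have hηp : η ^ p = uval z / (algebraMap K Ω (k : K) * (algebraMap K Ω (y : K) * uval w) ^ p) := by
    rw [hη, div_pow, hup, div_div]
  have hη1 : A.valuation (η ^ p) = 1 := by
    rw [hηp, ← valuation_eq_iff_div A (mul_ne_zero hk0 (pow_ne_zero _ (mul_ne_zero hy0 hw0))), hval,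
      map_mul, hx', ← map_mul]
    congr 1
    rw [Units.val_mul, Units.val_pow_eq_pow_val, map_mul, map_pow]
    ring
  have hη1' : A.valuation η = 1 := by
    rw [map_pow] at hη1
    rcases lt_trichotomy (A.valuation η) 1 with h2 | h2 | h2
    · exact absurd hη1 (pow_lt_one₀ zero_le h2 hp.ne_zero).ne
    · exact h2
    · exact absurd hη1 (one_lt_pow₀ h2 hp.ne_zero).ne'
  have hση : σ (η ^ p) = η ^ p := by
    rw [hηp, map_div₀, map_mul, map_pow, map_mul, hz q hq A hA σ hσ, hw q hq A hA σ hσ, hσK, hσK]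
  have h3 := eq_of_mem_inertia (natCast_notMem_center q.2 hqp hA) hσ hη1' hση
  have h4 : uval u = η * (algebraMap K Ω (y : K) * uval w) := by
    rw [hη, div_mul_cancel₀ _ (mul_ne_zero hy0 hw0)]
  rw [h4, map_mul, h3, map_mul, hσK, hw q hq A hA σ hσ]

omit [NumberField K] in
/-- roots of unity of order a power of `p` are unramified outside `S ∋ p` -/
theorem mem_unrW_of_pow_eq [Fact p.Prime] (hpS : ∀ q : Nat.Primes, (q : ℕ) = p → q ∈ S)
    {e : Additive Ωˣ} (n : ℕ) (he : (p ^ n) • e = 0) : e ∈ unrW S := by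
  have hp : p.Prime := Fact.out
  intro q hq A hA σ hσ
  have hqp : (q : ℕ) ≠ p := fun h => hq (hpS q h)
  have h1 : uval e ^ p ^ n = 1 := by rw [← uval_nsmul, he, uval_zero]
  refine eq_of_mem_inertia (n := p ^ n) ?_ hσ ?_ ?_
  · rw [Nat.cast_pow]
    exact fun h => natCast_notMem_center q.2 hqp hA
      ((inferInstance : (center A).IsPrime).mem_of_pow_mem _ h)
  · have h2 : A.valuation (uval e) ^ p ^ n = 1 := by rw [← map_pow, h1, map_one]
    have h0 : p ^ n ≠ 0 := pow_ne_zero _ hp.ne_zero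
    rcases lt_trichotomy (A.valuation (uval e)) 1 with h3 | h3 | h3
    · exact absurd h2 (pow_lt_one₀ zero_le h3 h0).ne
    · exact h3
    · exact absurd h2 (one_lt_pow₀ h3 h0).ne'
  · rw [h1, map_one]

/-- Capitulation: roots of elements whose divisor is divisible -/
theorem capitulate [Fact p.Prime] (hpS : ∀ q : Nat.Primes, (q : ℕ) = p → q ∈ S)
    (hK : K.IsUnramifiedOutside S) (n : ℕ) {β : Kˣ} {D : HeightOneSpectrum (𝓞 K) →₀ ℤ}
    (hβ : ∀ v ∉ placesS S K, ordHom v (Additive.ofMul β) = (p ^ n : ℕ) * D v)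
    {d : Additive Ωˣ} (hd : (p ^ n) • d = kEmb K β) :
    d ∈ ZW K.fixingSubgroup p (unrW S) ∧ DivMod p S K d D := by
  have hp : p.Prime := Fact.out
  have hdp : uval d ^ p ^ n = algebraMap K Ω (β : K) := by
    rw [← uval_nsmul, hd, uval_kEmb]
  have h0 : p ^ n ≠ 0 := pow_ne_zero _ hp.ne_zero
  -- the local comparison
  have key : ∀ (q : Nat.Primes) (_ : q ∉ S) (A : ValuationSubring Ω)
      (hA : A.LiesOverPrime (q : ℕ)) (x : Kˣ),
      ordHom (placeBelow K q.2 hA) (Additive.ofMul x) = D (placeBelow K q.2 hA) →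
      A.valuation (uval d / algebraMap K Ω (x : K)) = 1 := by
    intro q hq A hA x hx
    have hvS : placeBelow K q.2 hA ∉ placesS S K := by
      rintro ⟨q', hq', hmem⟩
      exact notMem_placeBelow q.2 q'.2 (fun h => hq (by rwa [Subtype.ext h])) hA hmem
    have h1 : A.valuation (algebraMap K Ω (β : K)) =
        A.valuation (algebraMap K Ω ((x ^ p ^ n : Kˣ) : K)) := by
      apply valuation_eq_of_ordHom_eq K q.2 hA
      rw [hβ _ hvS, ofMul_pow, map_nsmul, hx, nsmul_eq_mul]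
    have hx0 : algebraMap K Ω (x : K) ≠ 0 := (map_ne_zero _).2 x.ne_zero
    have h2 : A.valuation (uval d / algebraMap K Ω (x : K)) ^ p ^ n = 1 := by
      rw [← map_pow, div_pow, hdp, ← map_pow, ← Units.val_pow_eq_pow_val,
        ← valuation_eq_iff_div A ((map_ne_zero _).2 (Units.ne_zero _)), h1]
    rcases lt_trichotomy (A.valuation (uval d / algebraMap K Ω (x : K))) 1 with h3 | h3 | h3
    · exact absurd h2 (pow_lt_one₀ zero_le h3 h0).ne
    · exact h3
    · exact absurd h2 (one_lt_pow₀ h3 h0).ne'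
  refine ⟨⟨?_, fun g => ?_⟩, fun q hq A hA => ?_⟩
  · intro q hq A hA σ hσ
    have hqp : (q : ℕ) ≠ p := fun h => hq (hpS q h)
    obtain ⟨x, hx⟩ := exists_ordHom_eq_int (placeBelow K q.2 hA) (D (placeBelow K q.2 hA))
    have hx0 : algebraMap K Ω (x : K) ≠ 0 := (map_ne_zero _).2 x.ne_zero
    have hσK : ∀ a : K, σ (algebraMap K Ω a) = algebraMap K Ω a := fun a =>
      H64.fixes ⟨σ, hK.2 q hq A hA hσ⟩ a
    have h1 : σ (uval d / algebraMap K Ω (x : K)) = uval d / algebraMap K Ω (x : K) := by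
      refine eq_of_mem_inertia (n := p ^ n) ?_ hσ (key q hq A hA x hx) ?_
      · rw [Nat.cast_pow]
        exact fun h => natCast_notMem_center q.2 hqp hA
          ((inferInstance : (center A).IsPrime).mem_of_pow_mem _ h)
      · rw [div_pow, hdp, map_div₀, map_pow, hσK, hσK]
    have h4 : uval d = (uval d / algebraMap K Ω (x : K)) * algebraMap K Ω (x : K) := by
      rw [div_mul_cancel₀ _ hx0]
    rw [h4, map_mul, h1, hσK]
  · obtain ⟨w, hw⟩ := exists_nsmul_eq_units hp.pos (g • d - d)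
    refine ⟨w, ?_, hw⟩
    apply mem_unrW_of_pow_eq hpS (n + 1)
    have h5 : (p ^ n) • (g • d - d) = g • ((p ^ n) • d) - (p ^ n) • d :=
      nsmul_smul_sub _ g d
    have h6 : (p ^ (n + 1)) • w = (p ^ n) • (p • w) := by
      rw [pow_succ, mul_nsmul']
    rw [h6, hw, h5, hd, smul_kEmb, sub_self]
  · obtain ⟨x, hx⟩ := exists_ordHom_eq_int (placeBelow K q.2 hA) (D (placeBelow K q.2 hA))
    have hx0 : algebraMap K Ω (x : K) ≠ 0 := (map_ne_zero _).2 x.ne_zero
    refine ⟨x, 0, (unrW S).zero_mem, hx, ?_⟩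
    rw [uval_zero, one_pow, mul_one, valuation_eq_iff_div A hx0]
    exact key q hq A hA x hx

/-- every element of `(W/p)^G` has a divisor modulo `p` -/
theorem exists_divMod (hK : K.IsUnramifiedOutside S) {z : Additive Ωˣ}
    (hz : z ∈ ZW K.fixingSubgroup p (unrW S)) : ∃ D, DivMod p S K z D := by
  obtain ⟨hzW, hzG⟩ := hz
  have hF := adjoin_unramified hK (y := uval z) hzW
  obtain ⟨E, hle, hE, hEnf, hEgal⟩ := exists_galois_level hF
  have hKE : K ≤ E := le_sup_left.trans hle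
  have hzE : uval z ∈ E :=
    hle (le_sup_right (a := K) (IntermediateField.mem_adjoin_simple_self ℚ (uval z)))
  let _ : Algebra K E := (IntermediateField.inclusion hKE).toRingHom.toAlgebra
  have : IsScalarTower K E Ω := IsScalarTower.of_algebraMap_eq fun _ => rfl
  have hKEgal : IsGalois K E := IsGalois.tower_top_of_isGalois ℚ K E
  have hnormal : Normal K Ω := Normal.tower_top_of_normal ℚ K Ω
  have hI : ∀ q : Nat.Primes, q ∉ S → ∀ A : ValuationSubring Ω, A.LiesOverPrime (q : ℕ) →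
      ∀ σ ∈ A.inertiaSubgroupIn ℚ, ∀ x : E, σ (algebraMap E Ω x) = algebraMap E Ω x := by
    intro q hq A hA σ hσ x
    exact (IntermediateField.mem_fixingSubgroup_iff E _).1 (hE.2 q hq A hA hσ) x x.2
  have hz0 : (⟨uval z, hzE⟩ : E) ≠ 0 := fun h => uval_ne_zero z (congrArg Subtype.val h)
  have hbelow : ∀ {q : ℕ} (hq : q.Prime) {A : ValuationSubring Ω} (hA : A.LiesOverPrime q),
      below K (placeBelow E hq hA) = placeBelow K hq hA := by
    intro q hq A hA
    have htower : (algebraMap (𝓞 E) (𝓞 Ω)).comp (algebraMap (𝓞 K) (𝓞 E)) =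
        algebraMap (𝓞 K) (𝓞 Ω) := by
      ext a
      exact (IsScalarTower.algebraMap_apply K E Ω (a : K)).symm
    apply HeightOneSpectrum.ext
    show ((placeBelow E hq hA).asIdeal).under (𝓞 K) = _
    rw [Ideal.under_def, placeBelow_asIdeal, placeBelow_asIdeal, Ideal.comap_comap, htower]
  choose ℓ hℓ A hA hAv hmem using fun v : HeightOneSpectrum (𝓞 K) => exists_placeBelow_eq v
  let w : HeightOneSpectrum (𝓞 K) → HeightOneSpectrum (𝓞 E) := fun v => placeBelow E (hℓ v) (hA v)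
  have hwv : ∀ v, below K (w v) = v := fun v => (hbelow (hℓ v) (hA v)).trans (hAv v)
  have hwinj : Function.Injective w := fun v v' h => by rw [← hwv v, ← hwv v', h]
  let zE : Eˣ := Units.mk0 _ hz0
  have hfin : {v | ordHom (w v) (Additive.ofMul zE) ≠ 0}.Finite :=
    (finite_ordHom_ne_zero (R := 𝓞 E) (Additive.ofMul zE)).preimage hwinj.injOn
  let D : HeightOneSpectrum (𝓞 K) →₀ ℤ :=
    Finsupp.ofSupportFinite (fun v => ordHom (w v) (Additive.ofMul zE)) hfin
  refine ⟨D, fun q hq B hB => ?_⟩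
  obtain ⟨v, hv⟩ : ∃ v, v = placeBelow K q.2 hB := ⟨_, rfl⟩
  have hw1 : w v ∈ H82.above E v := by
    have := mem_above_below (K := K) (w v)
    rwa [hwv] at this
  have hw2 : placeBelow E q.2 hB ∈ H82.above E v := by
    have := mem_above_below (K := K) (placeBelow E q.2 hB)
    rwa [hbelow, ← hv] at this
  obtain ⟨σ, hσ⟩ := exists_smulPlace_eq hw1 hw2
  let g : Γ := (σ.liftNormal Ω).restrictScalars ℚ
  have hgE : ∀ y : E, g (algebraMap E Ω y) = algebraMap E Ω (σ y) := fun y =>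
    AlgEquiv.liftNormal_commutes σ Ω y
  have hgK : g ∈ K.fixingSubgroup := by
    rw [IntermediateField.mem_fixingSubgroup_iff]
    intro x hx
    exact (σ.liftNormal Ω).commutes (⟨x, hx⟩ : K)
  obtain ⟨u, hu, hgu⟩ := hzG ⟨g, hgK⟩
  obtain ⟨x, hx⟩ := exists_ordHom_eq_int v (D v)
  refine ⟨x, -u, (unrW S).neg_mem hu, by rw [← hv, hx], ?_⟩
  have h1 : ordHom (placeBelow E q.2 hB) (Additive.ofMul (Units.map (σ : E →* E) zE)) = D v := by
    have h2 := ordHom_smulPlace σ (w v) zE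
    rw [hσ] at h2
    exact h2
  have h3 : B.valuation (algebraMap E Ω ((Units.map (σ : E →* E) zE : Eˣ) : E)) =
      B.valuation (algebraMap E Ω ((Units.map (algebraMap K E : K →* E) x : Eˣ) : E)) := by
    apply valuation_eq_of_ordHom_eq E q.2 hB
    rw [h1, ordHom_placeBelow_tower K E q.2 hB (hI q hq B hB), ← hv, hx]
  have h4 : uval u ^ p = g (uval z) / uval z := by
    have := congrArg uval hgu
    rw [uval_nsmul, uval_sub] at this
    exact this
  have h5 : B.valuation (g (uval z)) = B.valuation (algebraMap K Ω (x : K)) := by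
    have h6 : g (uval z) = algebraMap E Ω (σ ⟨uval z, hzE⟩) := hgE ⟨uval z, hzE⟩
    rw [h6]
    exact h3
  have hgz : g (uval z) ≠ 0 := (map_ne_zero _).2 (uval_ne_zero z)
  have e1 : B.valuation (g (uval z)) ≠ 0 := (Valuation.ne_zero_iff _).2 hgz
  rw [uval_neg, inv_pow, h4, map_mul, ← h5, inv_div, map_div₀, mul_div_cancel₀ _ e1]

end

end Fermat.Agent.H47
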