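import Fermat.Agent.H64KumRam
import Fermat.Agent.H47TClass

/-!
# (C1): places of `ℚ̄` and divisors
-/

set_option autoImplicit false

namespace Fermat.Agent.H47

open NumberField IsDedekindDomain Fermat.Agent.H63 Fermat.Agent.H64
open scoped Pointwise

section general

variable {L : Type*} [Field L]

theorem valuation_eq_one_iff_mem (A : ValuationSubring L) {x : L} (hx : x ≠ 0) :
    A.valuation x = 1 ↔ x ∈ A ∧ x⁻¹ ∈ A := by
  rw [← ValuationSubring.valuation_le_one_iff, ← ValuationSubring.valuation_le_one_iff, map_inv₀]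
  have h0 : A.valuation x ≠ 0 := (Valuation.ne_zero_iff _).2 hx
  constructor
  · intro h
    rw [h, inv_one]
    exact ⟨le_rfl, le_rfl⟩
  · rintro ⟨h1, h2⟩
    exact le_antisymm h1 ((inv_le_one₀ (zero_lt_iff.2 h0)).1 h2)

theorem valuation_smul_eq_one_iff {G : Type*} [Group G] [MulSemiringAction G L] (g : G)
    (A : ValuationSubring L) {x : L} (hx : x ≠ 0) :
    (g • A).valuation (g • x) = 1 ↔ A.valuation x = 1 := by
  have hgx : g • x ≠ 0 := by rwa [Ne, smul_eq_zero_iff_eq]
  rw [valuation_eq_one_iff_mem _ hx, valuation_eq_one_iff_mem _ hgx, ← smul_inv'',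
    ValuationSubring.smul_mem_pointwise_smul_iff, ValuationSubring.smul_mem_pointwise_smul_iff]

theorem valuation_eq_iff_div (A : ValuationSubring L) {x y : L} (hy : y ≠ 0) :
    A.valuation x = A.valuation y ↔ A.valuation (x / y) = 1 := by
  have h0 : A.valuation y ≠ 0 := (Valuation.ne_zero_iff _).2 hy
  rw [map_div₀, div_eq_one_iff_eq h0]

theorem valuation_smul_eq_iff {G : Type*} [Group G] [MulSemiringAction G L] (g : G)
    (A : ValuationSubring L) {x y : L} (hx : x ≠ 0) (hy : y ≠ 0) :
    (g • A).valuation (g • x) = (g • A).valuation (g • y) ↔ A.valuation x = A.valuation y := by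
  have hgy : g • y ≠ 0 := by rwa [Ne, smul_eq_zero_iff_eq]
  rw [valuation_eq_iff_div _ hgy, valuation_eq_iff_div _ hy, ← smul_div₀', 
    valuation_smul_eq_one_iff g A (div_ne_zero hx hy)]

variable [CharZero L] [IsGalois ℚ L]

/-- the unit criterion -/
theorem ordHom_placeBelow_eq_zero_iff (K : Type*) [Field K] [NumberField K] [Algebra K L] {q : ℕ}
    (hq : q.Prime) {A : ValuationSubring L} (hA : A.LiesOverPrime q) (x : Kˣ) :
    ordHom (placeBelow K hq hA) (Additive.ofMul x) = 0 ↔
      A.valuation (algebraMap K L x) = 1 := by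
  rw [ordHom_eq_zero_iff]
  constructor
  · exact fun h => valuation_algebraMap_eq_one K hq hA h
  · intro h
    -- if the valuation is `≤ 1` it is `= 1`
    have key : ∀ y : K, y ≠ 0 → A.valuation (algebraMap K L y) = 1 →
        (placeBelow K hq hA).valuation K y ≤ 1 → (placeBelow K hq hA).valuation K y = 1 := by
      intro y hy0 hy hle
      by_contra hne
      have hlt := lt_of_le_of_ne hle hne
      obtain ⟨n, ⟨d, hd⟩, h⟩ := (placeBelow K hq hA).exists_primeCompl_mul_eq_of_integer y hle
      have hd' : d ∉ (placeBelow K hq hA).asIdeal := hd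
      have hd1 : (placeBelow K hq hA).valuation K (algebraMap (𝓞 K) K d) = 1 := by
        have h1 := ((placeBelow K hq hA).valuation_lt_one_iff_mem (K := K) d).not.2 hd'
        exact le_antisymm ((placeBelow K hq hA).valuation_le_one d) (not_lt.1 h1)
      have hn : n ∈ (placeBelow K hq hA).asIdeal := by
        rw [← (placeBelow K hq hA).valuation_lt_one_iff_mem (K := K) n]
        change (placeBelow K hq hA).valuation K (algebraMap (𝓞 K) K n) < 1
        rw [← h]
        change (placeBelow K hq hA).valuation K (y * algebraMap (𝓞 K) K d) < 1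
        rw [map_mul, hd1, mul_one]
        exact hlt
      rw [placeBelow_asIdeal, Ideal.mem_comap, mem_center_iff] at hn hd'
      have h3 : A.valuation (algebraMap K L (algebraMap (𝓞 K) K n)) < 1 :=
        (ValuationSubring.mem_nonunits_iff A).1 hn
      rw [← h, map_mul, map_mul, hy, one_mul] at h3
      exact hd' ((ValuationSubring.mem_nonunits_iff A).2 h3)
    rcases le_total ((placeBelow K hq hA).valuation K (x : K)) 1 with h1 | h1
    · exact key _ x.ne_zero h h1
    · have h2 : (placeBelow K hq hA).valuation K ((x : K)⁻¹) ≤ 1 := by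
        rw [map_inv₀]
        exact inv_le_one_of_one_le₀ h1
      have h3 := key _ (inv_ne_zero x.ne_zero) (by rw [map_inv₀, map_inv₀, h, inv_one]) h2
      rwa [map_inv₀, inv_eq_one] at h3

/-- elements with the same order have the same valuation -/
theorem valuation_eq_of_ordHom_eq (K : Type*) [Field K] [NumberField K] [Algebra K L] {q : ℕ}
    (hq : q.Prime) {A : ValuationSubring L} (hA : A.LiesOverPrime q) {x y : Kˣ}
    (h : ordHom (placeBelow K hq hA) (Additive.ofMul x) =
      ordHom (placeBelow K hq hA) (Additive.ofMul y)) :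
    A.valuation (algebraMap K L x) = A.valuation (algebraMap K L y) := by
  have h1 : ordHom (placeBelow K hq hA) (Additive.ofMul (x / y)) = 0 := by
    rw [ofMul_div, map_sub, h, sub_self]
  rw [ordHom_placeBelow_eq_zero_iff K hq hA] at h1
  have hy : algebraMap K L y ≠ 0 := (map_ne_zero _).2 y.ne_zero
  rw [valuation_eq_iff_div A hy, ← map_div₀, ← Units.val_div_eq_div_val]
  exact h1

theorem ordHom_eq_of_valuation_eq (K : Type*) [Field K] [NumberField K] [Algebra K L] {q : ℕ}
    (hq : q.Prime) {A : ValuationSubring L} (hA : A.LiesOverPrime q) {x y : Kˣ}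
    (h : A.valuation (algebraMap K L x) = A.valuation (algebraMap K L y)) :
    ordHom (placeBelow K hq hA) (Additive.ofMul x) =
      ordHom (placeBelow K hq hA) (Additive.ofMul y) := by
  have hy : algebraMap K L y ≠ 0 := (map_ne_zero _).2 y.ne_zero
  rw [valuation_eq_iff_div A hy, ← map_div₀, ← Units.val_div_eq_div_val,
    ← ordHom_placeBelow_eq_zero_iff K hq hA, ofMul_div, map_sub, sub_eq_zero] at h
  exact h

/-- there are elements of any given order -/
theorem exists_ordHom_eq_int {K : Type*} [Field K] [NumberField K] (v : HeightOneSpectrum (𝓞 K))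
    (n : ℤ) : ∃ x : Kˣ, ordHom v (Additive.ofMul x) = n := by
  obtain ⟨π, hπ⟩ := v.valuation_exists_uniformizer K
  have hπ0 : π ≠ 0 := by
    rintro rfl
    rw [map_zero] at hπ
    exact WithZero.exp_ne_zero hπ.symm
  have h1 : ordHom v (Additive.ofMul (Units.mk0 π hπ0)) = 1 := by
    have := valuation_eq_exp_ordHom v (Units.mk0 π hπ0)
    rw [Units.val_mk0, hπ, WithZero.exp_inj] at this
    linarith
  exact ⟨(Units.mk0 π hπ0) ^ n, by rw [ofMul_zpow, map_zsmul, h1]; simp⟩

theorem placeBelow_smul (K : Type*) [Field K] [NumberField K] [Algebra K L] {q : ℕ}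
    (hq : q.Prime) {A : ValuationSubring L} (hA : A.LiesOverPrime q) (g : L ≃ₐ[ℚ] L)
    (hg : ∀ x : K, g (algebraMap K L x) = algebraMap K L x) :
    placeBelow K hq (liesOverPrime_smul g hA) = placeBelow K hq hA := by
  apply HeightOneSpectrum.ext
  ext x
  rw [placeBelow_asIdeal, placeBelow_asIdeal, Ideal.mem_comap, Ideal.mem_comap, center_smul,
    Ideal.mem_pointwise_smul_iff_inv_smul_mem]
  have h1 : g⁻¹ • (algebraMap (𝓞 K) (𝓞 L) x) = algebraMap (𝓞 K) (𝓞 L) x := by
    rw [inv_smul_eq_iff]
    apply RingOfIntegers.ext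
    exact (hg x).symm
  rw [h1]

/-- comparison of orders in an unramified tower -/
theorem ordHom_placeBelow_tower (K E : Type*) [Field K] [NumberField K] [Field E]
    [NumberField E] [IsGalois ℚ E] [Algebra K E] [Algebra E L] [Algebra K L] [IsScalarTower K E L]
    {q : ℕ} (hq : q.Prime) {A : ValuationSubring L} (hA : A.LiesOverPrime q)
    (hI : ∀ σ ∈ A.inertiaSubgroupIn ℚ, ∀ x : E, σ (algebraMap E L x) = algebraMap E L x)
    (x : Kˣ) : ordHom (placeBelow E hq hA) (Additive.ofMul (Units.map (algebraMap K E : K →* E) x)) =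
      ordHom (placeBelow K hq hA) (Additive.ofMul x) := by
  have h := valuation_placeBelow_tower K E hq hA hI (x : K)
  have h2 : (placeBelow E hq hA).valuation E (algebraMap K E x) =
    (placeBelow E hq hA).valuation E ((Units.map (algebraMap K E : K →* E) x : Eˣ) : E) := rfl
  rw [h2, valuation_eq_exp_ordHom, valuation_eq_exp_ordHom, WithZero.exp_inj, neg_inj] at h
  exact h.symm

/-- inertia fixes units whose `n`-th power is fixed, `n` prime to the residue characteristic -/
theorem eq_of_mem_inertia {A : ValuationSubring L} {n : ℕ} (hn : (n : 𝓞 L) ∉ center A)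
    {σ : L ≃ₐ[ℚ] L} (hσ : σ ∈ A.inertiaSubgroupIn ℚ) {u : L} (hu : A.valuation u = 1)
    (hun : σ (u ^ n) = u ^ n) : σ u = u := by
  have hu0 : u ≠ 0 := by
    rintro rfl
    rw [map_zero] at hu
    exact zero_ne_one hu
  have hn0 : n ≠ 0 := by
    rintro rfl
    exact hn (by simp)
  have huA : u ∈ A := by
    rw [← ValuationSubring.valuation_le_one_iff, hu]
  have hin := ((mem_inertiaSubgroupIn_iff A σ).1 hσ).2 u huA
  have hroot : (σ u / u) ^ n = 1 := by
    rw [div_pow, ← map_pow, hun, div_self (pow_ne_zero _ hu0)]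
  have hint : IsIntegral ℤ (σ u / u) :=
    ⟨Polynomial.X ^ n - 1, Polynomial.monic_X_pow_sub_C 1 hn0, by simp [hroot]⟩
  obtain ⟨t, ht⟩ : ∃ t : 𝓞 L, (t : L) = σ u / u := ⟨⟨σ u / u, hint⟩, rfl⟩
  have h1 : t = 1 := by
    apply eq_of_pow_eq_one_of_sub_mem (center A) hn
    · apply RingOfIntegers.ext
      have : ((t ^ n : 𝓞 L) : L) = (t : L) ^ n := rfl
      rw [this, ht, hroot]
      rfl
    · exact one_pow n
    · rw [mem_center_iff]
      have h2 : ((t - 1 : 𝓞 L) : L) = (σ u - u) / u := by
        rw [sub_div, div_self hu0, ← ht]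
        rfl
      rw [h2, ValuationSubring.mem_nonunits_iff, map_div₀, hu, div_one]
      exact (ValuationSubring.mem_nonunits_iff A).1 hin
  have h4 : σ u / u = 1 := by
    rw [← ht, h1]; rfl
  rwa [div_eq_one_iff_eq hu0] at h4

end general

end Fermat.Agent.H47
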