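import Fermat.Agent.H47ESOrd
import Fermat.Agent.H44ESide
import Fermat.Prelude.Def_WeierstrassCurve_PeuRamifiee

/-!
# E-side at `p`, for every curve with good or multiplicative reduction at `p`

Good reduction: either the kernel of reduction is a line with the properties of
`Fermat.Agent.H44E.LineAtP` (ordinary), or inertia at `p` is transitive on the nonzero `p`-torsion
points (supersingular).  Multiplicative reduction with `p ∣ v_p(Δ)`: a line.
-/

set_option autoImplicit false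
set_option linter.unusedSectionVars false

open WeierstrassCurve WeierstrassCurve.Affine IsLocalRing

namespace Fermat.Agent.H47.ES

open Fermat.Agent.H44E

local notation "Qb" => AlgebraicClosure ℚ
local notation "GQ" => (AlgebraicClosure ℚ ≃ₐ[ℚ] AlgebraicClosure ℚ)

variable {W : WeierstrassCurve ℤ} {p : ℕ} {A : ValuationSubring Qb}

/-- **E-side at `p`, good reduction**, points. -/
theorem lineAtP_or_transitive (hp : p.Prime) (hp2 : p ≠ 2) (hgood : ¬ (p : ℤ) ∣ W.Δ)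
    (hA : A.LiesOverPrime p) : LineAtP p A (PtQ W) (V1 W p A) ∨
      ∀ x y : TorQ W p, x ≠ 0 → y ≠ 0 → ∃ σ ∈ A.inertiaSubgroupIn ℚ, σ • x = y := by
  rcases card_V1_or_transitive hp hp2 hA hgood with h | h
  · exact Or.inl (lineAtP_of_ordinary hp hp2 hA hgood h)
  · exact Or.inr h

/-- From points to `p`-torsion points. -/
theorem exists_lineAtP_torQ {V : AddSubgroup (PtQ W)} (hV : LineAtP p A (PtQ W) V) :
    ∃ V' : AddSubgroup (TorQ W p), LineAtP p A (TorQ W p) V' := by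
  refine ⟨_, hV.comap ((Submodule.torsionBy ℤ (PtQ W) (p : ℤ)).subtype.toAddMonoidHom)
    Subtype.val_injective (fun σ x => rfl) (fun x' hx' => ?_)⟩
  refine ⟨⟨x', ?_⟩, rfl⟩
  rw [Submodule.mem_torsionBy_iff, natCast_zsmul]
  exact hx'

/-- **E-side at `p`, good reduction**, `p`-torsion. -/
theorem exists_lineAtP_or_transitive (hp : p.Prime) (hp2 : p ≠ 2) (hgood : ¬ (p : ℤ) ∣ W.Δ)
    (hA : A.LiesOverPrime p) : (∃ V : AddSubgroup (TorQ W p), LineAtP p A (TorQ W p) V) ∨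
      ∀ x y : TorQ W p, x ≠ 0 → y ≠ 0 → ∃ σ ∈ A.inertiaSubgroupIn ℚ, σ • x = y := by
  rcases lineAtP_or_transitive hp hp2 hgood hA with h | h
  · exact Or.inl (exists_lineAtP_torQ h)
  · exact Or.inr h

theorem dvd_padicValInt_of_peuRamifiee (hfin : (W.map (Int.castRingHom ℚ)).IsPeuRamifieeAt p p) :
    p ∣ padicValInt p W.Δ := by
  have h : (p : ℤ) ∣ padicValRat p (W.map (Int.castRingHom ℚ)).Δ := hfin
  rw [WeierstrassCurve.map_Δ, eq_intCast, padicValRat.of_int] at h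
  exact_mod_cast h

/-- **E-side at `p` for S39**: `W` good or multiplicative at `p` and `p ∣ v_p(Δ)`. -/
theorem exists_lineAtP_or_transitive_of_peuRamifiee (hp : p.Prime) (hp2 : p ≠ 2) (hΔ : W.Δ ≠ 0)
    (hsemi : (p : ℤ) ∣ W.Δ → ¬ (p : ℤ) ∣ W.c₄)
    (hfin : (W.map (Int.castRingHom ℚ)).IsPeuRamifieeAt p p) (hA : A.LiesOverPrime p) :
    (∃ V : AddSubgroup (TorQ W p), LineAtP p A (TorQ W p) V) ∨
      ∀ x y : TorQ W p, x ≠ 0 → y ≠ 0 → ∃ σ ∈ A.inertiaSubgroupIn ℚ, σ • x = y := by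
  by_cases hbad : (p : ℤ) ∣ W.Δ
  · exact Or.inl (exists_lineAtP_torQ (lineAtP_of_multiplicative hp hp2 hbad hΔ (hsemi hbad)
      (dvd_padicValInt_of_peuRamifiee hfin) hA))
  · exact exists_lineAtP_or_transitive hp hp2 hbad hA

/-- The same, with the hypotheses on the E-side of the level lowering argument at `p`
(`H40.ESide`). -/
theorem exists_eSide_or_transitive_of_peuRamifiee (hp : p.Prime) (hp2 : p ≠ 2) (hΔ : W.Δ ≠ 0)
    (hsemi : (p : ℤ) ∣ W.Δ → ¬ (p : ℤ) ∣ W.c₄)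
    (hfin : (W.map (Int.castRingHom ℚ)).IsPeuRamifieeAt p p) (hA : A.LiesOverPrime p)
    {ζ : Qb} (hζ : IsPrimitiveRoot ζ p) :
    (∃ V : AddSubgroup (TorQ W p), LineAtP p A (TorQ W p) V ∧
      ∃ E : H40.ESide (G := A.inertiaSubgroupIn ℚ) A.valuation p (TorQ W p) ζ, E.Vm = V) ∨
      ∀ x y : TorQ W p, x ≠ 0 → y ≠ 0 → ∃ σ ∈ A.inertiaSubgroupIn ℚ, σ • x = y := by
  rcases exists_lineAtP_or_transitive_of_peuRamifiee hp hp2 hΔ hsemi hfin hA with ⟨V, hV⟩ | h
  · exact Or.inl ⟨V, hV, hV.exists_eSide hp hp2 hΔ hζ⟩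
  · exact Or.inr h

end Fermat.Agent.H47.ES
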