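import Fermat.Agent.H47ESProd
import Fermat.Agent.H73FlatVal
import Fermat.Agent.H44EFrey

/-!
# The `p`-torsion at a prime `p` of good reduction: existence of points reducing to zero
-/

set_option autoImplicit false
set_option linter.unusedSectionVars false

open Polynomial WeierstrassCurve WeierstrassCurve.Affine IsLocalRing

namespace Fermat.Agent.H47.ES

open Fermat.Agent.H72 Fermat.Agent.H13 Fermat.Agent.H44E

local notation "Qb" => AlgebraicClosure ℚ
local notation "GQ" => (AlgebraicClosure ℚ ≃ₐ[ℚ] AlgebraicClosure ℚ)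

variable {W : WeierstrassCurve ℤ} {p : ℕ} {A : ValuationSubring Qb}

/-- the special fibre -/
noncomputable abbrev Wk (W : WeierstrassCurve ℤ) (A : ValuationSubring Qb) :
    WeierstrassCurve (ResidueField A) := (W.map (Int.castRingHom A)).map (residue A)

theorem Wk_Δ_ne_zero (hp : p.Prime) (hA : A.LiesOverPrime p) (hgood : ¬ (p : ℤ) ∣ W.Δ) :
    (Wk W A).Δ ≠ 0 := by
  rw [map_Δ, map_Δ]
  have h := H59.intCast_residue_ne_zero hp hA hgood
  rwa [eq_intCast, map_intCast]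

/-- every point reduces -/
theorem exists_red (hp : p.Prime) (hA : A.LiesOverPrime p) (hgood : ¬ (p : ℤ) ∣ W.Δ)
    (P : PtQ W) : ∃ P' : (Wk W A).toAffine.Point, H59.Reduces A (residue A) P P' :=
  H59.exists_reduces_of_Δ_ne_zero (hLQ W A) rfl (Wk_Δ_ne_zero hp hA hgood) P

theorem smul_sub_mem_V1_good (hp : p.Prime) (hA : A.LiesOverPrime p) (hgood : ¬ (p : ℤ) ∣ W.Δ)
    {σ : GQ} (hσ : σ ∈ A.inertiaSubgroupIn ℚ) {P : PtQ W} (hpP : p • P = 0) :
    σ • P - P ∈ V1 W p A := by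
  classical
  refine ⟨?_, ?_⟩
  · rw [nsmul_sub, smul_comm _ σ P, hpP, sub_zero]
    rfl
  · obtain ⟨P', hP'⟩ := exists_red hp hA hgood P
    have h1 := (H59.Reduces.smul_of_inertia hσ hP').sub (hLQ W A) rfl hP'
    rwa [sub_self] at h1

/-- **there are nonzero `p`-torsion points reducing to zero** -/
theorem exists_ne_zero_mem_V1 (hp : p.Prime) (hp2 : p ≠ 2) (hA : A.LiesOverPrime p)
    (hgood : ¬ (p : ℤ) ∣ W.Δ) : ∃ T ∈ V1 W p A, T ≠ 0 := by
  classical
  by_contra hcon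
  push Not at hcon
  have hΔ : W.Δ ≠ 0 := fun h => hgood (h ▸ dvd_zero _)
  have hLE := hLQ W A
  have hodd : ¬ Even p := by
    rw [Nat.not_even_iff_odd]
    exact hp.odd_of_ne_two hp2
  set W' : WeierstrassCurve A := W.map (Int.castRingHom A) with hW'
  set f := W'.preΨ' p with hf
  set F : Qb[X] := f.map A.subtype with hF
  have hFeq : F = ((W.map (Int.castRingHom ℚ))⁄Qb).preΨ' p := by
    rw [hF, hf, ← WeierstrassCurve.map_preΨ', hLE]
  have hpQ : ((p : ℕ) : Qb) ≠ 0 := Nat.cast_ne_zero.mpr hp.ne_zero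
  have hlc : F.leadingCoeff = (p : Qb) := by
    rw [hFeq, WeierstrassCurve.leadingCoeff_preΨ' _ hpQ, if_neg hodd]
  -- all roots are integral
  have hroots : ∀ a ∈ F.roots, a ∈ A := by
    intro a ha
    have hF0 : F ≠ 0 := by
      intro h0
      rw [h0, roots_zero] at ha
      exact absurd ha (Multiset.notMem_zero a)
    rw [mem_roots hF0, IsRoot.def] at ha
    by_contra haA
    -- a point with this x-coordinate
    obtain ⟨y, hy⟩ : ∃ y : Qb, ((W.map (Int.castRingHom ℚ))⁄Qb).toAffine.Equation a y := by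
      have := IsAlgClosed.exists_root (X ^ 2 + C (((W.map (Int.castRingHom ℚ))⁄Qb).a₁ * a +
        ((W.map (Int.castRingHom ℚ))⁄Qb).a₃) * X - C (a ^ 3 +
        ((W.map (Int.castRingHom ℚ))⁄Qb).a₂ * a ^ 2 + ((W.map (Int.castRingHom ℚ))⁄Qb).a₄ * a +
        ((W.map (Int.castRingHom ℚ))⁄Qb).a₆)) (by
          have h2 : (X ^ 2 + C (((W.map (Int.castRingHom ℚ))⁄Qb).a₁ * a +
        ((W.map (Int.castRingHom ℚ))⁄Qb).a₃) * X - C (a ^ 3 +
        ((W.map (Int.castRingHom ℚ))⁄Qb).a₂ * a ^ 2 + ((W.map (Int.castRingHom ℚ))⁄Qb).a₄ * a +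
        ((W.map (Int.castRingHom ℚ))⁄Qb).a₆) : Qb[X]).degree = 2 := by
            compute_degree!
          rw [h2]; decide)
      obtain ⟨y, hy⟩ := this
      refine ⟨y, (equation_iff _ _).mpr ?_⟩
      simp only [IsRoot.def, eval_sub, eval_add, eval_pow, eval_X, eval_mul, eval_C] at hy
      linear_combination hy
    have hΔK : ((W.map (Int.castRingHom ℚ))⁄Qb).Δ ≠ 0 :=
      H42.map_Δ_ne_zero _ (H87.EC.algebraMap_Δ_ne_zero (H87.EC.map_int_Δ_ne_zero hΔ))
    have hns : ((W.map (Int.castRingHom ℚ))⁄Qb).toAffine.Nonsingular a y :=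
      (equation_iff_nonsingular_of_Δ_ne_zero hΔK).mp hy
    have h1 : p • (Point.some a y hns : PtQ W) = 0 := by
      rw [H87.nsmul_eq_zero_iff p hns, WeierstrassCurve.ΨSq, if_neg (by exact_mod_cast hodd),
        mul_one, eval_pow, WeierstrassCurve.preΨ_ofNat, ← hFeq, ha, zero_pow two_ne_zero]
    have h2 : (Point.some a y hns : PtQ W) ∈ V1 W p A := by
      rw [mem_V1_some]
      exact ⟨h1, haA⟩
    exact absurd (hcon _ h2) (by simp)
  -- so `p` divides `f`
  obtain ⟨R, hR⟩ : ∃ R : Multiset A, R.map A.subtype = F.roots := by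
    refine ⟨F.roots.pmap (fun a ha => (⟨a, ha⟩ : A)) hroots, ?_⟩
    rw [Multiset.map_pmap]
    exact (Multiset.pmap_eq_map _ (fun a : Qb => a) F.roots hroots).trans (Multiset.map_id' _)
  have hfac : f = C (p : A) * (R.map fun a => X - C a).prod := by
    apply Polynomial.map_injective A.subtype Subtype.val_injective
    rw [← hF, Polynomial.map_mul, Polynomial.map_C, Polynomial.map_multiset_prod, Multiset.map_map]
    have h1 := (IsAlgClosed.splits F).eq_prod_roots
    rw [h1, hlc, ← hR, Multiset.map_map, map_natCast]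
    congr 2
    refine Multiset.map_congr rfl fun a _ => ?_
    simp only [Function.comp_apply, Polynomial.map_sub, Polynomial.map_X, Polynomial.map_C]
  -- the division polynomial vanishes on the special fibre
  have hzero : (Wk W A).preΨ' p = 0 := by
    rw [Wk, WeierstrassCurve.map_preΨ', ← hW', ← hf, hfac, Polynomial.map_mul, Polynomial.map_C,
      map_natCast, H59.natCast_residue_eq_zero hA, C_0, zero_mul]
  -- a point of order two
  obtain ⟨P, hP0, hP2⟩ : ∃ P : PtQ W, P ≠ 0 ∧ 2 • P = 0 := by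
    have hcard : Nat.card (Submodule.torsionBy ℤ (PtQ W) ((2 : ℕ) : ℤ)) = 2 ^ 2 :=
      H87.EC.natCard_torsionBy_rat _ (H87.EC.map_int_Δ_ne_zero hΔ) two_ne_zero
    have hfin : Finite (Submodule.torsionBy ℤ (PtQ W) ((2 : ℕ) : ℤ)) :=
      Nat.finite_of_card_ne_zero (by rw [hcard]; norm_num)
    have hnt : Nontrivial (Submodule.torsionBy ℤ (PtQ W) ((2 : ℕ) : ℤ)) := by
      rw [← Finite.one_lt_card_iff_nontrivial, hcard]
      norm_num
    obtain ⟨x, hx⟩ := exists_ne (0 : Submodule.torsionBy ℤ (PtQ W) ((2 : ℕ) : ℤ))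
    refine ⟨x, fun h => hx (Subtype.ext h), ?_⟩
    have h1 := x.2
    rw [Submodule.mem_torsionBy_iff, natCast_zsmul] at h1
    exact h1
  obtain ⟨P', hP'⟩ := exists_red hp hA hgood P
  have h2k : ((2 : ℕ) : ResidueField A) ≠ 0 :=
    H59.natCast_residue_ne_zero hp hA (fun h => hp2 ((Nat.prime_dvd_prime_iff_eq hp
      Nat.prime_two).mp h))
  have hP'0 : P' ≠ 0 := by
    rintro rfl
    exact hP0 (H59.eq_zero_of_nsmul_eq_zero (hLQ W A) hP' h2k hP2)
  have hP'2 : 2 • P' = 0 := by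
    have h1 := hP'.nsmul (hLQ W A) rfl 2
    rw [hP2] at h1
    exact (h1.unique (Q := 2 • P') (Q' := 0) trivial)
  have hpP' : p • P' = 0 := by
    rcases P' with _ | ⟨x, y, h⟩
    · exact absurd rfl hP'0
    · rw [H87.nsmul_eq_zero_iff p h, WeierstrassCurve.ΨSq, if_neg (by exact_mod_cast hodd),
        mul_one, eval_pow, WeierstrassCurve.preΨ_ofNat, hzero, eval_zero, zero_pow two_ne_zero]
  obtain ⟨r, hr⟩ := hp.odd_of_ne_two hp2
  apply hP'0
  rw [hr, add_nsmul, mul_comm, mul_nsmul', hP'2, nsmul_zero, zero_add, one_nsmul] at hpP'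
  exact hpP'

/-- The order of `V1` is `p` or `p ^ 2`. -/
theorem card_V1_good (hp : p.Prime) (hp2 : p ≠ 2) (hA : A.LiesOverPrime p)
    (hgood : ¬ (p : ℤ) ∣ W.Δ) : Nat.card (V1 W p A) = p ∨
      (Nat.card (V1 W p A) = p ^ 2 ∧ ∀ P : PtQ W, p • P = 0 → P ∈ V1 W p A) := by
  have hΔ : W.Δ ≠ 0 := fun h => hgood (h ▸ dvd_zero _)
  have hcardT : Nat.card (Submodule.torsionBy ℤ (PtQ W) (p : ℤ)) = p ^ 2 :=
    H87.EC.natCard_torsionBy_rat _ (H87.EC.map_int_Δ_ne_zero hΔ) hp.ne_zero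
  obtain ⟨T, hT⟩ : ∃ T, T = (Submodule.torsionBy ℤ (PtQ W) (p : ℤ)).toAddSubgroup := ⟨_, rfl⟩
  have hTmem : ∀ P : PtQ W, P ∈ T ↔ p • P = 0 := by
    intro P
    rw [hT]
    show P ∈ Submodule.torsionBy ℤ (PtQ W) (p : ℤ) ↔ _
    rw [Submodule.mem_torsionBy_iff, ← natCast_zsmul]
  have hcardT' : Nat.card T = p ^ 2 := by rw [hT]; exact hcardT
  have hTfin : Finite T := Nat.finite_of_card_ne_zero (by rw [hcardT']; exact pow_ne_zero _ hp.ne_zero)
  have hle : V1 W p A ≤ T := fun P hP => (hTmem P).mpr hP.1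
  have hdvd := AddSubgroup.card_dvd_of_le hle
  rw [hcardT', Nat.dvd_prime_pow hp] at hdvd
  obtain ⟨k, hk, hcard⟩ := hdvd
  have hfin : Finite (V1 W p A) := Finite.of_injective _ (AddSubgroup.inclusion_injective hle)
  have hk0 : k ≠ 0 := by
    rintro rfl
    rw [pow_zero, AddSubgroup.card_eq_one] at hcard
    obtain ⟨P, hP, hP0⟩ := exists_ne_zero_mem_V1 hp hp2 hA hgood
    rw [hcard, AddSubgroup.mem_bot] at hP
    exact hP0 hP
  rcases (by omega : k = 1 ∨ k = 2) with rfl | rfl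
  · left
    rw [hcard, pow_one]
  · right
    refine ⟨hcard, fun P hP => ?_⟩
    have h1 : V1 W p A = T := AddSubgroup.eq_of_le_of_card_ge hle (by rw [hcardT', hcard])
    rw [h1]
    exact (hTmem P).mpr hP

/-- **Supersingular case** (`V1` is everything): inertia at `p` is transitive on the nonzero
`p`-torsion points. -/
theorem transitive_of_forall_mem_V1 (hp : p.Prime) (hp2 : p ≠ 2) (hA : A.LiesOverPrime p)
    (hΔ : W.Δ ≠ 0) (hall : ∀ P : PtQ W, p • P = 0 → P ∈ V1 W p A) {x y : TorQ W p} (hx : x ≠ 0)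
    (hy : y ≠ 0) : ∃ σ ∈ A.inertiaSubgroupIn ℚ, σ • x = y := by
  have htor : ∀ x : TorQ W p, p • (x : PtQ W) = 0 := by
    intro x
    have h := x.2
    rwa [Submodule.mem_torsionBy_iff, natCast_zsmul] at h
  obtain ⟨σ, hσ, h⟩ := V1_transitive hp hp2 hA hΔ (hall _ (htor x))
    (fun h => hx (Subtype.ext h)) (hall _ (htor y)) (fun h => hy (Subtype.ext h))
  exact ⟨σ, hσ, Subtype.ext h⟩

/-- **Good reduction at `p`**: ordinary (`#V1 = p`), or inertia at `p` is transitive on the nonzero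
`p`-torsion points. -/
theorem card_V1_or_transitive (hp : p.Prime) (hp2 : p ≠ 2) (hA : A.LiesOverPrime p)
    (hgood : ¬ (p : ℤ) ∣ W.Δ) : Nat.card (V1 W p A) = p ∨
      ∀ x y : TorQ W p, x ≠ 0 → y ≠ 0 → ∃ σ ∈ A.inertiaSubgroupIn ℚ, σ • x = y := by
  rcases card_V1_good hp hp2 hA hgood with h | ⟨-, h⟩
  · exact Or.inl h
  · exact Or.inr fun x y hx hy => transitive_of_forall_mem_V1 hp hp2 hA
      (fun h => hgood (h ▸ dvd_zero _)) h hx hy

end Fermat.Agent.H47.ES
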