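import Fermat.Agent.H47ESGood

/-!
# E-side at `p`, good ordinary reduction

For `x ∈ E[p]` with nonzero reduction the mutual distances of the `x`-coordinates of the points
`x + T`, `T` in the kernel of reduction, have `(p-1)`-st power `|p|`; so either some `x + T` is
fixed by inertia or the `x`-coordinate (minus a constant) is a uniformiser of the field of `x`.
-/

set_option autoImplicit false
set_option linter.unusedSectionVars false

open Polynomial WeierstrassCurve WeierstrassCurve.Affine IsLocalRing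

namespace Fermat.Agent.H47.ES

open Fermat.Agent.H72 Fermat.Agent.H13 Fermat.Agent.H44E

local notation "Qb" => AlgebraicClosure ℚ
local notation "GQ" => (AlgebraicClosure ℚ ≃ₐ[ℚ] AlgebraicClosure ℚ)

variable {W : WeierstrassCurve ℤ} {p : ℕ} {A : ValuationSubring Qb}

/-- The values of `x` and of the `2`-division polynomial at a `p`-torsion point with nonzero
reduction. -/
theorem v_psi (hp : p.Prime) (hp2 : p ≠ 2) (hA : A.LiesOverPrime p) (hgood : ¬ (p : ℤ) ∣ W.Δ)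
    {x y : Qb} {h : ((W.map (Int.castRingHom ℚ))⁄Qb).Nonsingular x y}
    (hpP : p • (Point.some x y h : PtQ W) = 0) (hP : (Point.some x y h : PtQ W) ∉ V1 W p A) :
    A.valuation x ≤ 1 ∧ A.valuation (4 * x ^ 3 + ((W.map (Int.castRingHom ℚ))⁄Qb).b₂ * x ^ 2 +
      2 * ((W.map (Int.castRingHom ℚ))⁄Qb).b₄ * x + ((W.map (Int.castRingHom ℚ))⁄Qb).b₆) = 1 := by
  classical
  obtain ⟨P', hP'⟩ := exists_red hp hA hgood (Point.some x y h : PtQ W)
  rcases P' with _ | ⟨x', y', h'⟩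
  · exact absurd (mem_V1_some.mpr ⟨hpP, hP'⟩) hP
  obtain ⟨P', hPdef⟩ : ∃ P' : (Wk W A).toAffine.Point, P' = Point.some x' y' h' := ⟨_, rfl⟩
  have hpP' : p • P' = 0 := by
    rw [hPdef]
    have h1 := hP'.nsmul (hLQ W A) rfl p
    rw [hpP] at h1
    exact (h1.unique (Q := p • Point.some x' y' h') (Q' := 0) trivial)
  obtain ⟨a, b, rfl, rfl, ha, hb⟩ := hP'
  refine ⟨A.valuation_le_one a, ?_⟩
  have heq := (equation_iff _ _).mp h.1
  have e1 : 4 * (a : Qb) ^ 3 + ((W.map (Int.castRingHom ℚ))⁄Qb).b₂ * (a : Qb) ^ 2 +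
      2 * ((W.map (Int.castRingHom ℚ))⁄Qb).b₄ * a + ((W.map (Int.castRingHom ℚ))⁄Qb).b₆ =
      (2 * (b : Qb) + ((W.map (Int.castRingHom ℚ))⁄Qb).a₁ * a +
        ((W.map (Int.castRingHom ℚ))⁄Qb).a₃) ^ 2 := by
    simp only [WeierstrassCurve.b₂, WeierstrassCurve.b₄, WeierstrassCurve.b₆]
    linear_combination -4 * heq
  rw [e1, map_pow]
  obtain ⟨w, hw⟩ : ∃ w : A, w = 2 * b + (W.map (Int.castRingHom A)).a₁ * a +
    (W.map (Int.castRingHom A)).a₃ := ⟨_, rfl⟩
  have hwQ : (w : Qb) = 2 * (b : Qb) + ((W.map (Int.castRingHom ℚ))⁄Qb).a₁ * a +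
        ((W.map (Int.castRingHom ℚ))⁄Qb).a₃ := by
    rw [hw, ← hLQ W A]
    simp only [map_a₁, map_a₃]
    rfl
  rw [← hwQ]
  have hunit : IsUnit w := by
    by_contra hcon
    have h1 : residue A w = 0 := by
      rw [residue_eq_zero_iff]
      exact hcon
    have h2 : -P' = P' := by
      rw [hPdef, Point.neg_some, Point.some.injEq]
      refine ⟨rfl, ?_⟩
      rw [negY, ← ha, ← hb]
      rw [hw] at h1
      simp only [map_add, map_mul, map_ofNat] at h1
      simp only [map_a₁, map_a₃] at h1 ⊢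
      linear_combination -h1
    have h3 : 2 • P' = 0 := by
      rw [two_nsmul]
      nth_rewrite 1 [← h2]
      exact neg_add_cancel _
    obtain ⟨r, hr⟩ := hp.odd_of_ne_two hp2
    rw [hr, add_nsmul, mul_comm, mul_nsmul', h3, nsmul_zero, zero_add, one_nsmul] at hpP'
    rw [hPdef] at hpP'
    exact Point.some_ne_zero h' hpP'
  rw [(ValuationSubring.valuation_eq_one_iff A w).mp hunit, one_pow]

theorem exists_some {P : PtQ W} (hP : P ∉ V1 W p A) : ∃ x y h, P = Point.some x y h := by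
  rcases P with _ | ⟨x, y, h⟩
  · exact absurd (zero_mem (V1 W p A)) hP
  · exact ⟨x, y, h, rfl⟩

theorem valuation_two (hp : p.Prime) (hp2 : p ≠ 2) (hA : A.LiesOverPrime p) :
    A.valuation (2 : Qb) = 1 := by
  have h := valuation_nat_lt hp hA (n := 2) (by norm_num)
    (by have := hp.two_le; omega)
  exact_mod_cast h

/-- Algebraic part of the distance formula. -/
theorem dist_alg {K Γ : Type*} [Field K] [LinearOrderedCommGroupWithZero Γ] (v : Valuation K Γ)
    {b₂ b₄ b₆ b₈ x₁ x xS xD c : K} (hrel : 4 * b₈ = b₂ * b₆ - b₄ ^ 2) (h2 : v 2 = 1)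
    (hb2 : v b₂ ≤ 1) (hb4 : v b₄ ≤ 1) (hb6 : v b₆ ≤ 1) (hx1 : v x₁ ≤ 1)
    (hψ : v (4 * x₁ ^ 3 + b₂ * x₁ ^ 2 + 2 * b₄ * x₁ + b₆) = 1) (hx : 1 < v x)
    (k0 : c * (xS * xD) = (x₁ * x) ^ 2 - b₄ * (x₁ * x) - b₆ * (x₁ + x) - b₈)
    (k1 : c * (xS + xD) = 2 * (x₁ + x) * (x₁ * x) + b₂ * (x₁ * x) + b₄ * (x₁ + x) + b₆)
    (k2 : c = (x₁ - x) ^ 2) : v (xS - xD) ^ 2 = (v x)⁻¹ := by
  -- the value of the 2-division polynomial at `T`
  have hψT : v (4 * x ^ 3 + b₂ * x ^ 2 + 2 * b₄ * x + b₆) = v x ^ 3 := by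
    have h4 : v (4 * x ^ 3) = v x ^ 3 := by
      rw [map_mul, map_pow, show (4 : K) = 2 * 2 by norm_num, map_mul, h2, one_mul, one_mul]
    have hle : v (b₂ * x ^ 2 + 2 * b₄ * x + b₆) ≤ v x ^ 2 := by
      refine (Valuation.map_add _ _ _).trans (max_le ((Valuation.map_add _ _ _).trans
        (max_le ?_ ?_)) ?_)
      · rw [map_mul, map_pow]
        exact mul_le_of_le_one_left' hb2
      · rw [map_mul, map_mul, h2, one_mul]
        refine (mul_le_of_le_one_left' hb4).trans ?_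
        calc v x = v x ^ 1 := (pow_one _).symm
          _ ≤ v x ^ 2 := pow_le_pow_right₀ hx.le (by norm_num)
      · exact hb6.trans (one_le_pow₀ hx.le)
    have hlt : v (b₂ * x ^ 2 + 2 * b₄ * x + b₆) < v (4 * x ^ 3) := by
      rw [h4]
      exact hle.trans_lt (pow_lt_pow_right₀ hx (by norm_num))
    have e : 4 * x ^ 3 + b₂ * x ^ 2 + 2 * b₄ * x + b₆ =
        4 * x ^ 3 + (b₂ * x ^ 2 + 2 * b₄ * x + b₆) := by ring
    rw [e, Valuation.map_add_eq_of_lt_left _ hlt, h4]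
  have hcv : v c = v x ^ 2 := by
    rw [k2, map_pow, Valuation.map_sub_swap,
      Valuation.map_sub_eq_of_lt_left _ (hx1.trans_lt hx)]
  have key : (c * (xS - xD)) ^ 2 = (4 * x₁ ^ 3 + b₂ * x₁ ^ 2 + 2 * b₄ * x₁ + b₆) *
      (4 * x ^ 3 + b₂ * x ^ 2 + 2 * b₄ * x + b₆) := by
    have e1 : (c * (xS - xD)) ^ 2 = (c * (xS + xD)) ^ 2 - 4 * c * (c * (xS * xD)) := by ring
    rw [e1, k1, k0, k2]
    linear_combination ((x₁ - x) ^ 2) * hrel
  have hkey := congrArg v key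
  rw [map_pow, map_mul, map_mul, hψ, hψT, one_mul, hcv, mul_pow, ← pow_mul] at hkey
  have hx0 : v x ≠ 0 := (lt_trans zero_lt_one hx).ne'
  apply mul_left_cancel₀ (pow_ne_zero (2 * 2) hx0)
  rw [hkey, pow_mul, pow_two (v x ^ 2), mul_assoc, pow_two (v x), mul_assoc, mul_assoc,
    mul_inv_cancel₀ hx0, mul_one, pow_succ, pow_two, mul_assoc]

/-- **The distance formula**, symmetric form. -/
theorem dist_sq (hp : p.Prime) (hp2 : p ≠ 2) (hA : A.LiesOverPrime p) (hgood : ¬ (p : ℤ) ∣ W.Δ)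
    {P T : PtQ W} (hpP : p • P = 0) (hP : P ∉ V1 W p A) (hT : T ∈ V1 W p A) (hT0 : T ≠ 0) :
    A.valuation (xN (P + T) - xN (P - T)) ^ 2 = A.valuation (wc T) := by
  classical
  have hS : P + T ∉ V1 W p A := fun h => hP (by
    have := (V1 W p A).sub_mem h hT
    rwa [add_sub_cancel_right] at this)
  have hD : P - T ∉ V1 W p A := fun h => hP (by
    have := (V1 W p A).add_mem h hT
    rwa [sub_add_cancel] at this)
  obtain ⟨c, hc, k0, k1, k2⟩ := kummerRel P T
  obtain ⟨xS, yS, hS', eS⟩ := exists_some hS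
  obtain ⟨xD', yD', hD', eD⟩ := exists_some hD
  rw [eS, eD] at k0 k1 k2 ⊢
  obtain ⟨x₁, y₁, h₁, rfl⟩ := exists_some hP
  rcases T with _ | ⟨x, y, h⟩
  · exact absurd rfl hT0
  obtain ⟨hx1, hψ⟩ := v_psi hp hp2 hA hgood hpP hP
  have hx := (mem_V1_some.mp hT).2
  rw [← A.valuation_le_one_iff, not_le] at hx
  simp only [xN_some, xD_some, mul_one, one_mul, one_pow] at k0 k1 k2 ⊢
  rw [wc, xD_some, xN_some, one_div, map_inv₀]
  obtain ⟨hb2, hb4, hb6, -⟩ := map_b_le (hLQ W A)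
  exact dist_alg A.valuation (WeierstrassCurve.b_relation _) (valuation_two hp hp2 hA) hb2 hb4 hb6
    hx1 hψ hx k0 k1 k2

/-- **The distance formula.** -/
theorem dist_pow (hp : p.Prime) (hp2 : p ≠ 2) (hA : A.LiesOverPrime p) (hgood : ¬ (p : ℤ) ∣ W.Δ)
    (hcard : Nat.card (V1 W p A) = p) {P T : PtQ W} (hpP : p • P = 0) (hP : P ∉ V1 W p A)
    (hT : T ∈ V1 W p A) (hT0 : T ≠ 0) :
    A.valuation (xN (P + T) - xN P) ^ (p - 1) = A.valuation (p : Qb) := by
  have hΔ : W.Δ ≠ 0 := fun h => hgood (h ▸ dvd_zero _)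
  obtain ⟨r, hr⟩ := hp.odd_of_ne_two hp2
  obtain ⟨T', hT'⟩ : ∃ T', T' = (r + 1) • T := ⟨_, rfl⟩
  have hTT : T' + T' = T := by
    rw [hT', ← two_nsmul, ← mul_nsmul', show 2 * (r + 1) = p + 1 by omega, add_nsmul, hT.1,
      zero_add, one_nsmul]
  have hT'V : T' ∈ V1 W p A := by rw [hT']; exact (V1 W p A).nsmul_mem hT _
  have hT'0 : T' ≠ 0 := by
    intro h0
    rw [h0, add_zero] at hTT
    exact hT0 hTT.symm
  have hR : P + T' ∉ V1 W p A := fun h => hP (by
    have := (V1 W p A).sub_mem h hT'V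
    rwa [add_sub_cancel_right] at this)
  have hpR : p • (P + T') = 0 := by rw [nsmul_add, hpP, hT'V.1, add_zero]
  have h1 := dist_sq hp hp2 hA hgood hpR hR hT'V hT'0
  rw [add_assoc, hTT, add_sub_cancel_right] at h1
  rw [show p - 1 = 2 * r by omega, pow_mul, h1]
  have h2 := val_wc_pow hp hp2 hA hΔ hcard hT'V hT'0
  rwa [show (p - 1) / 2 = r by omega] at h2

/-- **The uniformiser of the field of `x`.** -/
theorem exists_theta_good (hp : p.Prime) (hp2 : p ≠ 2) (hA : A.LiesOverPrime p)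
    (hgood : ¬ (p : ℤ) ∣ W.Δ) (hcard : Nat.card (V1 W p A) = p)
    {x : PtQ W} (hpx : p • x = 0) (hx : x ∉ V1 W p A)
    (htrans : ∀ T ∈ V1 W p A, ∃ σ ∈ A.inertiaSubgroupIn ℚ, σ • x = x + T) :
    ∃ θ : Qb, (∀ σ ∈ A.inertiaSubgroupIn ℚ, σ • x = x → σ θ = θ) ∧
      A.valuation θ ^ p = A.valuation (p : Qb) ∧
      ∀ τ ∈ A.inertiaSubgroupIn ℚ, τ • x ≠ x →
        A.valuation (τ θ - θ) ^ (p - 1) = A.valuation (p : Qb) := by
  classical
  have halg := H73.isAlgebraic_Qbar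
  have hfact := Fact.mk hp
  have hp3 : 3 ≤ p := by
    have := hp.two_le
    omega
  have hfin : Finite (V1 W p A) := Nat.finite_of_card_ne_zero (by rw [hcard]; exact hp.ne_zero)
  let _ : Fintype (V1 W p A) := Fintype.ofFinite _
  have hcard' : Fintype.card (V1 W p A) = p := by rw [← Nat.card_eq_fintype_card, hcard]
  set v := A.valuation with hv
  have hvp0 : v (p : Qb) ≠ 0 := valuation_p_ne hp
  have hvp1 : v (p : Qb) < 1 := valuation_p_lt hA
  -- the constant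
  have hξA : xN x ∈ A := by
    obtain ⟨x₁, y₁, h₁, rfl⟩ := exists_some hx
    rw [xN_some, ← A.valuation_le_one_iff]
    exact (v_psi hp hp2 hA hgood hpx hx).1
  obtain ⟨c, hcfix, hc⟩ := H1.exists_const_inertia A hA (residue A) residue_surjective
    (residue A ⟨xN x, hξA⟩)
  have hc1 : v (xN x - c) < 1 := by
    have h1 : residue A (⟨xN x, hξA⟩ - c) = 0 := by rw [map_sub, hc, sub_self]
    rw [residue_eq_zero_iff] at h1
    exact (ValuationSubring.valuation_lt_one_iff A _).mp h1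
  set s : V1 W p A → Qb := fun T => xN (x + (T : PtQ W) : PtQ W) - (c : Qb) with hs
  have hsσ : ∀ σ ∈ A.inertiaSubgroupIn ℚ, ∀ P : PtQ W, σ (xN P - c) = xN (σ • P) - c := by
    intro σ hσ P
    rw [map_sub, xN_smul, hcfix σ hσ]
  have hsv : ∀ T, v (s T) = v (xN x - c) := by
    intro T
    obtain ⟨σ, hσ, hσx⟩ := htrans T T.2
    simp only [hs]
    rw [← hσx, ← hsσ σ hσ, valuation_smul hσ]
  have hs1 : ∀ T, v (s T) < 1 := fun T => by rw [hsv]; exact hc1
  have hdist : ∀ T T' : PtQ W, T ∈ V1 W p A → T' ∈ V1 W p A → T ≠ T' →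
      v (xN (x + T) - xN (x + T')) ^ (p - 1) = v (p : Qb) := by
    intro T T' hT hT' hne
    have hx' : x + T' ∉ V1 W p A := fun h => hx (by
      have := (V1 W p A).sub_mem h hT'
      rwa [add_sub_cancel_right] at this)
    have hpx' : p • (x + T') = 0 := by rw [nsmul_add, hpx, hT'.1, add_zero]
    have h1 := dist_pow hp hp2 hA hgood hcard hpx' hx' ((V1 W p A).sub_mem hT hT')
      (sub_ne_zero.mpr hne)
    have e1 : x + T' + (T - T') = x + T := by abel
    rwa [e1] at h1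
  have hdisc : ∀ n, (∏ T, (X - C (s T))).coeff n ≠ 0 →
      ∃ k : ℤ, v ((∏ T, (X - C (s T))).coeff n) = v (p : Qb) ^ k := by
    intro n hn0
    refine exists_valuation_eq_zpow hp hA hn0 fun σ hσ => ?_
    have hmap : (∏ T, (X - C (s T))).map (σ : Qb →+* Qb) = ∏ T, (X - C (s T)) := by
      rw [Polynomial.map_prod]
      refine Finset.prod_bij (fun T _ => ⟨(σ • x - x) + σ • (T : PtQ W),
        (V1 W p A).add_mem (smul_sub_mem_V1_good hp hA hgood hσ hpx) (smul_mem_V1 hσ T.2)⟩)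
        ?_ ?_ ?_ ?_
      · intro T _; exact Finset.mem_univ _
      · intro T _ T' _ h
        have h1 : (σ • x - x) + σ • (T : PtQ W) = (σ • x - x) + σ • (T' : PtQ W) :=
          congrArg Subtype.val h
        exact Subtype.ext (smul_left_cancel σ (add_left_cancel h1))
      · intro T _
        have hσ' : σ⁻¹ ∈ A.inertiaSubgroupIn ℚ := inv_mem hσ
        refine ⟨⟨σ⁻¹ • ((T : PtQ W) - (σ • x - x)), smul_mem_V1 hσ' ((V1 W p A).sub_mem T.2
          (smul_sub_mem_V1_good hp hA hgood hσ hpx))⟩, Finset.mem_univ _, ?_⟩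
        apply Subtype.ext
        show (σ • x - x) + σ • (σ⁻¹ • ((T : PtQ W) - (σ • x - x))) = T
        rw [smul_inv_smul]
        abel
      · intro T _
        rw [Polynomial.map_sub, map_X, map_C]
        congr 2
        simp only [hs]
        have e : x + ((σ • x - x) + σ • (T : PtQ W)) = σ • (x + T) := by
          have e3 : σ • (x + T) = σ • x + σ • (T : PtQ W) := smul_add σ x (T : PtQ W)
          rw [e3]; abel
        rw [e]
        exact hsσ σ hσ _
    have h2 := congrArg (fun f => f.coeff n) hmap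
    simp only [coeff_map] at h2
    exact h2
  have hmain := val_pow_eq_of_dist v hp3 hcard' hvp0 hvp1 s hs1 (fun i j => by rw [hsv, hsv])
    (fun T T' hne => by
      have h1 := hdist T T' T.2 T'.2 (fun h => hne (Subtype.ext h))
      simp only [hs]
      rw [sub_sub_sub_cancel_right]
      exact h1) hdisc ⟨0, zero_mem _⟩
  refine ⟨xN x - c, ?_, ?_, ?_⟩
  · intro σ hσ h
    rw [hsσ σ hσ, h]
  · rwa [hsv] at hmain
  · intro τ hτ hne
    have hT := smul_sub_mem_V1_good hp hA hgood hτ hpx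
    have h1 := hdist (τ • x - x) 0 hT (zero_mem _) (sub_ne_zero.mpr hne)
    rw [add_sub_cancel, add_zero] at h1
    rw [hsσ τ hτ, sub_sub_sub_cancel_right]
    exact h1

/-- **E-side at `p`**, good ordinary reduction. -/
theorem fixed_or_theta_good (hp : p.Prime) (hp2 : p ≠ 2) (hA : A.LiesOverPrime p)
    (hgood : ¬ (p : ℤ) ∣ W.Δ) (hcard : Nat.card (V1 W p A) = p)
    {x : PtQ W} (hpx : p • x = 0) (hx : x ∉ V1 W p A) :
    (∃ T ∈ V1 W p A, ∀ σ ∈ A.inertiaSubgroupIn ℚ, σ • (x + T) = x + T) ∨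
    ((∀ T ∈ V1 W p A, ∃ σ ∈ A.inertiaSubgroupIn ℚ, σ • x = x + T) ∧
      ∃ θ : Qb, (∀ σ ∈ A.inertiaSubgroupIn ℚ, σ • x = x → σ θ = θ) ∧
        A.valuation θ ^ p = A.valuation (p : Qb) ∧
        ∀ τ ∈ A.inertiaSubgroupIn ℚ, τ • x ≠ x →
          A.valuation (τ θ - θ) ^ (p - 1) = A.valuation (p : Qb)) := by
  have hfact := Fact.mk hp
  have hΔ : W.Δ ≠ 0 := fun h => hgood (h ▸ dvd_zero _)
  obtain ⟨T₀, hT₀, hT00⟩ := exists_ne_zero_mem_V1 hp hp2 hA hgood
  obtain ⟨σ₀, hσ₀, hne⟩ := exists_smul_ne' hp hp2 hA hΔ hT₀ hT00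
  rcases affine_dichotomy (A.inertiaSubgroupIn ℚ) (V1 W p A) hcard
    (fun σ hσ T hT => smul_mem_V1 hσ hT) x
    (fun σ hσ => smul_sub_mem_V1_good hp hA hgood hσ hpx) hσ₀ hT₀ hne with h | h
  · exact Or.inl h
  · exact Or.inr ⟨h, exists_theta_good hp hp2 hA hgood hcard hpx hx h⟩

/-- The stabiliser of a nonzero element of `V1` in inertia has index `≤ p - 1`. -/
theorem index_stabilizer_of_card (hp : p.Prime) (hcard : Nat.card (V1 W p A) = p) {y : PtQ W}
    (hy : y ∈ V1 W p A) (hy0 : y ≠ 0) :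
    (MulAction.stabilizer (A.inertiaSubgroupIn ℚ) y).index ≠ 0 ∧
      (MulAction.stabilizer (A.inertiaSubgroupIn ℚ) y).index ≤ p - 1 := by
  classical
  have hfin : Finite (V1 W p A) := Nat.finite_of_card_ne_zero (by rw [hcard]; exact hp.ne_zero)
  have hVfin : (V1 W p A : Set (PtQ W)).Finite := hfin
  rw [MulAction.index_stabilizer]
  have hsub : MulAction.orbit (A.inertiaSubgroupIn ℚ) y ⊆ (V1 W p A : Set (PtQ W)) \ {0} := by
    rintro _ ⟨σ, rfl⟩
    refine ⟨smul_mem_V1 σ.2 hy, ?_⟩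
    intro h0
    have h1 : σ • y = 0 := h0
    apply hy0
    have h2 : σ⁻¹ • σ • y = σ⁻¹ • (0 : PtQ W) := by rw [h1]
    rw [inv_smul_smul] at h2
    rw [h2]; rfl
  have hofin : (MulAction.orbit (A.inertiaSubgroupIn ℚ) y).Finite :=
    (hVfin.sdiff).subset hsub
  constructor
  · exact Set.ncard_ne_zero_of_mem (MulAction.mem_orbit_self y) hofin
  · have h1 := Set.ncard_le_ncard hsub hVfin.sdiff
    rw [Set.ncard_sdiff_singleton_of_mem (zero_mem (V1 W p A))] at h1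
    have h2 : (V1 W p A : Set (PtQ W)).ncard = p := hcard
    rwa [h2] at h1

/-- **E-side at `p`**: good ordinary reduction. -/
theorem lineAtP_of_ordinary (hp : p.Prime) (hp2 : p ≠ 2) (hA : A.LiesOverPrime p)
    (hgood : ¬ (p : ℤ) ∣ W.Δ) (hcard : Nat.card (V1 W p A) = p) :
    LineAtP p A (PtQ W) (V1 W p A) := by
  classical
  have hΔ : W.Δ ≠ 0 := fun h => hgood (h ▸ dvd_zero _)
  refine ⟨hcard, fun T hT => hT.1, fun σ T hT => smul_mem_V1 σ.2 hT,
    fun σ x hx => smul_sub_mem_V1_good hp hA hgood σ.2 hx, ?_, ?_, ?_⟩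
  · intro T hT hT0
    obtain ⟨σ, hσ, hne⟩ := exists_smul_ne' hp hp2 hA hΔ hT hT0
    exact ⟨⟨σ, hσ⟩, hne⟩
  · intro y hy hy0
    exact index_stabilizer_of_card hp hcard hy hy0
  · intro x hpx hx hnf
    rcases fixed_or_theta_good hp hp2 hA hgood hcard hpx hx with
      ⟨T, hT, h⟩ | ⟨htr, θ, hθ1, hθ2, hθ3⟩
    · obtain ⟨σ, hσ⟩ := hnf T hT
      exact absurd (h σ σ.2) hσ
    have hp3 : 3 ≤ p := by have := hp.two_le; omega
    have htr' : ∀ T ∈ V1 W p A, ∃ σ : A.inertiaSubgroupIn ℚ, σ • x = x + T := by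
      intro T hT
      obtain ⟨σ, hσ, h⟩ := htr T hT
      exact ⟨⟨σ, hσ⟩, h⟩
    have hindex : (MulAction.stabilizer (A.inertiaSubgroupIn ℚ) x).index = p := by
      rw [MulAction.index_stabilizer]
      have h1 : MulAction.orbit (A.inertiaSubgroupIn ℚ) x =
          (fun T => x + T) '' (V1 W p A : Set (PtQ W)) := by
        ext z
        constructor
        · rintro ⟨σ, rfl⟩
          refine ⟨σ • x - x, smul_sub_mem_V1_good hp hA hgood σ.2 hpx, ?_⟩
          show x + (σ • x - x) = σ • x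
          abel
        · rintro ⟨T, hT, rfl⟩
          obtain ⟨σ, hσ⟩ := htr' T hT
          exact ⟨σ, hσ⟩
      rw [h1, Set.ncard_image_of_injective _ (add_right_injective x)]
      exact hcard
    have hv : ∀ (σ : A.inertiaSubgroupIn ℚ) (c : Qb), A.valuation (σ • c) = A.valuation c :=
      fun σ c => valuation_smul σ.2 c
    have hp0 : A.valuation (p : Qb) ≠ 0 := valuation_p_ne hp
    have hp1 : A.valuation (p : Qb) < 1 := valuation_p_lt hA
    have hdisc : ∀ c : Qb, c ≠ 0 → (∀ σ : A.inertiaSubgroupIn ℚ, σ • c = c) →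
        ∃ n : ℤ, A.valuation c = A.valuation (p : Qb) ^ n := fun c hc h => disc_inertia hp hA hc h
    refine ⟨htr', hindex, fun τ hτ => ?_⟩
    obtain ⟨h1, h2, h3, h4, h5, h6⟩ := wild_consts (v := A.valuation) hp3 hv hp0 hp1 hdisc hindex
      (fun a _ ha => res_inertia hp hA ha) (θ := θ) (fun σ hσ => hθ1 σ σ.2 hσ) hθ2
      (τ := τ) (hθ3 τ τ.2 hτ) rfl
    refine ⟨_, h1, h2, h4, h5, h6, ?_⟩
    rintro H ⟨y, hy, hy0, rfl⟩ a ha ha1
    obtain ⟨hi0, hi1⟩ := index_stabilizer_of_card hp hcard hy hy0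
    exact tame_le_eps hp3 hv hp0 hp1 hdisc hi0 hi1 h3 ha ha1

end Fermat.Agent.H47.ES
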