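import Fermat.Agent.H44EMain

/-!
# The `p`-torsion in the kernel of reduction: inertia is transitive

`W / ℤ` any Weierstrass curve, `p` odd, `A` a place above `p`, `V1` the group of `p`-torsion points
in the kernel of reduction.  The product of the `z(T) = x(T)/y(T)` over `T ≠ 0` in `V1` has the
value of `p`, and the inertia group acts transitively on `V1 \ {0}`.
-/

set_option autoImplicit false
set_option linter.unusedSectionVars false

open Polynomial WeierstrassCurve WeierstrassCurve.Affine IsLocalRing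

namespace Fermat.Agent.H47.ES

open Fermat.Agent.H72 Fermat.Agent.H13 Fermat.Agent.H44E

local notation "Qb" => AlgebraicClosure ℚ
local notation "GQ" => (AlgebraicClosure ℚ ≃ₐ[ℚ] AlgebraicClosure ℚ)

variable {W : WeierstrassCurve ℤ} {p : ℕ} {A : ValuationSubring Qb}

theorem finite_V1 (hp : p.Prime) (hΔ : W.Δ ≠ 0) : Finite (V1 W p A) := by
  have hfinT : Finite (Submodule.torsionBy ℤ (PtQ W) (p : ℤ)) :=
    H87.EC.finite_torsionBy_rat _ (H87.EC.map_int_Δ_ne_zero hΔ) hp.ne_zero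
  refine Finite.of_injective (fun P : V1 W p A =>
    (⟨(P : PtQ W), ?_⟩ : Submodule.torsionBy ℤ (PtQ W) (p : ℤ))) ?_
  · rw [Submodule.mem_torsionBy_iff, natCast_zsmul]
    exact P.2.1
  · intro P Q h
    exact Subtype.ext (congrArg
      (fun x : Submodule.torsionBy ℤ (PtQ W) (p : ℤ) => (x : PtQ W)) h)

theorem V1_finite (hp : p.Prime) (hΔ : W.Δ ≠ 0) : (V1 W p A : Set (PtQ W)).Finite :=
  finite_V1 hp hΔ

/-- the nonzero elements of `V1` -/
noncomputable def V1S (A : ValuationSubring Qb) (hp : p.Prime) (hΔ : W.Δ ≠ 0) :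
    Finset (PtQ W) := by
  classical
  exact (V1_finite (A := A) hp hΔ).toFinset.erase 0

theorem mem_V1S (hp : p.Prime) (hΔ : W.Δ ≠ 0) {T : PtQ W} :
    T ∈ V1S A hp hΔ ↔ T ≠ 0 ∧ T ∈ V1 W p A := by
  classical
  rw [V1S, Finset.mem_erase, Set.Finite.mem_toFinset, SetLike.mem_coe]

theorem card_V1S (hp : p.Prime) (hΔ : W.Δ ≠ 0) :
    (V1S A hp hΔ).card = Nat.card (V1 W p A) - 1 := by
  classical
  rw [V1S, Finset.card_erase_of_mem (by
    rw [Set.Finite.mem_toFinset]; exact zero_mem (V1 W p A))]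
  congr 1
  rw [← Set.ncard_eq_toFinset_card _ (V1_finite (A := A) hp hΔ)]
  rfl

theorem ne_neg (hp : p.Prime) (hp2 : p ≠ 2) {T : PtQ W} (hT : p • T = 0) (hT0 : T ≠ 0) :
    T ≠ -T := by
  intro h
  obtain ⟨r, hr⟩ := hp.odd_of_ne_two hp2
  have h2 : 2 • T = 0 := by
    rw [two_nsmul]
    nth_rewrite 2 [h]
    exact add_neg_cancel T
  apply hT0
  have h3 : (2 * r + 1) • T = 0 := by rw [← hr]; exact hT
  rw [add_nsmul, mul_comm, mul_nsmul', h2, nsmul_zero, zero_add, one_nsmul] at h3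
  exact h3


theorem wc_mem {T : PtQ W} (hT : T ∈ V1 W p A) : wc T ∈ A := by
  by_cases h0 : T = 0
  · rw [h0, wc, xD_zero, zero_div]
    exact A.zero_mem
  · rw [← A.valuation_le_one_iff]
    exact (wc_lt_of_mem_V1 h0 hT).2.le

theorem v_zc_sq' {T : PtQ W} (hT : T ∈ V1 W p A) (hT0 : T ≠ 0) :
    A.valuation (zc T) ^ 2 = A.valuation (wc T) := by
  obtain ⟨h1, h2⟩ := wc_lt_of_mem_V1 hT0 hT
  exact v_zc_sq (hLQ W A) hT0 h1 h2

theorem v_zc_lt {T : PtQ W} (hT : T ∈ V1 W p A) (hT0 : T ≠ 0) : A.valuation (zc T) < 1 := by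
  obtain ⟨h1, h2⟩ := wc_lt_of_mem_V1 hT0 hT
  rw [← v_zc_sq' hT hT0] at h2
  by_contra hcon
  rw [not_lt] at hcon
  exact absurd h2 (not_lt.mpr (one_le_pow₀ hcon))

theorem v_wc_ne {T : PtQ W} (hT : T ∈ V1 W p A) (hT0 : T ≠ 0) : A.valuation (wc T) ≠ 0 := by
  obtain ⟨h1, h2⟩ := wc_lt_of_mem_V1 hT0 hT
  rw [Valuation.ne_zero_iff, wc]
  exact div_ne_zero (fun h => hT0 (xD_eq_zero.mp h)) h1

theorem v_zc_ne {T : PtQ W} (hT : T ∈ V1 W p A) (hT0 : T ≠ 0) : A.valuation (zc T) ≠ 0 := by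
  intro h
  apply v_wc_ne hT hT0
  rw [← v_zc_sq' hT hT0, h, zero_pow two_ne_zero]

theorem wc_neg (T : PtQ W) : wc (-T) = wc T := by
  rcases T with _ | ⟨x, y, h⟩
  · rfl
  · rw [Point.neg_some, wc, wc, xD_some, xD_some, xN_some, xN_some]

/-- **Lower bound** from the leading coefficient of the division polynomial. -/
theorem valuation_p_le_prod (hp : p.Prime) (hp2 : p ≠ 2) (hΔ : W.Δ ≠ 0) :
    A.valuation (p : Qb) ≤ ∏ T ∈ V1S A hp hΔ, A.valuation (zc T) := by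
  classical
  have hLE := hLQ W A
  have hodd : ¬ Even p := by
    rw [Nat.not_even_iff_odd]
    exact hp.odd_of_ne_two hp2
  set W' : WeierstrassCurve A := W.map (Int.castRingHom A) with hW'
  set w : PtQ W → A := fun T => if h : wc T ∈ A then ⟨wc T, h⟩ else 0 with hw
  have hwv : ∀ T ∈ V1S A hp hΔ, (w T : Qb) = wc T := by
    intro T hT
    rw [mem_V1S] at hT
    simp only [hw]
    rw [dif_pos (wc_mem hT.2)]
  set N := (p ^ 2 - 1) / 2 with hN
  set f := W'.preΨ' p with hf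
  have hfdeg : f.natDegree ≤ N := by
    have := W'.natDegree_preΨ'_le p
    rwa [if_neg hodd] at this
  have hfcoeff : f.coeff N = (p : A) := by
    have := W'.coeff_preΨ' p
    rwa [if_neg hodd, if_neg hodd] at this
  set g := reflect N f with hg
  have hg0 : g.coeff 0 = (p : A) := by
    rw [hg, coeff_reflect, revAt_le (Nat.zero_le _), Nat.sub_zero, hfcoeff]
  have hgne : g ≠ 0 := by
    intro h0
    rw [h0, coeff_zero] at hg0
    have h1 := congrArg (fun a : A => (a : Qb)) hg0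
    simp only [ZeroMemClass.coe_zero] at h1
    have h2 : ((p : A) : Qb) = (p : Qb) := map_natCast A.subtype p
    rw [h2] at h1
    exact hp.ne_zero (by exact_mod_cast h1.symm)
  -- the roots
  have hroot : ∀ T ∈ V1S A hp hΔ, g.IsRoot (w T) := by
    intro T hT
    have hwR := hwv T hT
    rw [mem_V1S] at hT
    obtain ⟨hT0, hT1⟩ := hT
    obtain ⟨hne, -⟩ := wc_lt_of_mem_V1 hT0 hT1
    have hpn := hT1.1
    rcases T with _ | ⟨x, y, h⟩
    · exact absurd rfl hT0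
    rw [xN_some] at hne
    have h0 := (H87.nsmul_eq_zero_iff p h).mp hpn
    rw [WeierstrassCurve.ΨSq, if_neg (by exact_mod_cast hodd), mul_one, eval_pow,
      pow_eq_zero_iff two_ne_zero, WeierstrassCurve.preΨ_ofNat] at h0
    have h1 : eval₂ A.subtype x f = 0 := by
      rw [← eval_map, hf, ← WeierstrassCurve.map_preΨ', hLE]
      exact h0
    let _ : Invertible x := invertibleOfNonzero hne
    have h2 := (eval₂_reflect_eq_zero_iff A.subtype x N f hfdeg).mpr h1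
    rw [← hg, invOf_eq_inv] at h2
    have h3 : x⁻¹ = A.subtype (w (Point.some x y h)) := by
      show x⁻¹ = (w (Point.some x y h) : Qb)
      rw [hwR, wc, xD_some, xN_some, one_div]
    rw [h3, eval₂_at_apply] at h2
    exact Subtype.ext (by simpa using h2)
  set s : Finset A := (V1S A hp hΔ).image w with hs
  have hsroots : s.val ≤ g.roots := by
    rw [Multiset.le_iff_subset s.nodup]
    intro a ha
    rw [Finset.mem_val, hs, Finset.mem_image] at ha
    obtain ⟨T, hT, rfl⟩ := ha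
    rw [mem_roots hgne]
    exact hroot T hT
  obtain ⟨q, hq⟩ := (Multiset.prod_X_sub_C_dvd_iff_le_roots hgne s.val).mpr hsroots
  have h1 := congrArg (eval 0) hq
  rw [← coeff_zero_eq_eval_zero, hg0, eval_mul, eval_multiset_prod, Multiset.map_map] at h1
  have h2 : (Multiset.map ((eval 0) ∘ fun a => X - C a) s.val).prod = ∏ a ∈ s, (-a) := by
    rw [Finset.prod]
    congr 1
    refine Multiset.map_congr rfl fun a _ => ?_
    simp
  rw [h2] at h1
  have h3 := congrArg (fun a : A => A.valuation (a : Qb)) h1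
  simp only [MulMemClass.coe_mul] at h3
  rw [map_mul] at h3
  have h4 : ((p : A) : Qb) = (p : Qb) := map_natCast A.subtype p
  rw [h4] at h3
  have h5 : ((∏ a ∈ s, -a : A) : Qb) = ∏ a ∈ s, -(a : Qb) := by simp
  have h6 : A.valuation (p : Qb) ≤ ∏ a ∈ s, A.valuation (a : Qb) := by
    rw [h3]
    refine (mul_le_of_le_one_right' (A.valuation_le_one _)).trans ?_
    rw [h5, map_prod]
    exact (Finset.prod_congr rfl fun a _ => Valuation.map_neg _ _).le
  -- the fibres of `w` have two elements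
  have h7 : (∏ T ∈ V1S A hp hΔ, A.valuation (zc T)) ^ 2 = (∏ a ∈ s, A.valuation (a : Qb)) ^ 2 := by
    have h8 : (∏ T ∈ V1S A hp hΔ, A.valuation (zc T)) ^ 2 =
        ∏ T ∈ V1S A hp hΔ, A.valuation ((w T : A) : Qb) := by
      rw [← Finset.prod_pow]
      refine Finset.prod_congr rfl fun T hT => ?_
      rw [hwv T hT]
      rw [mem_V1S] at hT
      exact v_zc_sq' hT.2 hT.1
    rw [h8, Finset.prod_comp (fun a : A => A.valuation (a : Qb)) w, ← hs, ← Finset.prod_pow]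
    refine Finset.prod_congr rfl fun a ha => ?_
    congr 1
    rw [hs, Finset.mem_image] at ha
    obtain ⟨T, hT, rfl⟩ := ha
    have hT' := hT
    rw [mem_V1S] at hT'
    obtain ⟨hT0, hT1⟩ := hT'
    have h9 : (V1S A hp hΔ).filter (fun T' => w T' = w T) = {T, -T} := by
      ext T'
      rw [Finset.mem_filter, Finset.mem_insert, Finset.mem_singleton]
      constructor
      · rintro ⟨hT', h⟩
        have h10 : wc T' = wc T := by
          rw [← hwv T' hT', ← hwv T hT, h]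
        rw [mem_V1S] at hT'
        exact eq_or_eq_neg_of_wc_eq (wc_lt_of_mem_V1 hT'.1 hT'.2).1
          (wc_lt_of_mem_V1 hT0 hT1).1 h10
      · rintro (rfl | rfl)
        · exact ⟨hT, rfl⟩
        · have h10 : -T ∈ V1S A hp hΔ := by
            rw [mem_V1S]
            exact ⟨neg_ne_zero.mpr hT0, neg_mem hT1⟩
          refine ⟨h10, Subtype.ext ?_⟩
          rw [hwv _ h10, hwv _ hT, wc_neg]
    rw [h9, Finset.card_pair (ne_neg hp hp2 hT1.1 hT0)]
  have h8 := pow_inj (n := 2) two_ne_zero h7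
  rw [h8]
  exact h6

/-- products of `z(T)` over a nonempty inertia-stable set of nonzero points are small -/
theorem prod_zc_le (hp : p.Prime) (hA : A.LiesOverPrime p) (hΔ : W.Δ ≠ 0)
    {O : Finset (PtQ W)} (hO : O ⊆ V1S A hp hΔ) (hne : O.Nonempty)
    (hstab : ∀ σ ∈ A.inertiaSubgroupIn ℚ, ∀ T ∈ O, σ • T ∈ O) :
    ∏ T ∈ O, A.valuation (zc T) ≤ A.valuation (p : Qb) := by
  classical
  rw [← map_prod]
  refine le_of_fixed hp hA (fun σ hσ => ?_) ?_
  · rw [map_prod]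
    refine Finset.prod_bij (fun T _ => σ • T) (fun T hT => hstab σ hσ T hT) ?_ ?_ ?_
    · intro T _ T' _ h
      exact smul_left_cancel σ h
    · intro T hT
      exact ⟨σ⁻¹ • T, hstab σ⁻¹ (inv_mem hσ) T hT, smul_inv_smul σ T⟩
    · intro T _
      exact (zc_smul σ T).symm
  · rw [map_prod]
    obtain ⟨T₀, hT₀⟩ := hne
    rw [← Finset.mul_prod_erase _ _ hT₀]
    have h1 := hO hT₀
    rw [mem_V1S] at h1
    refine mul_lt_one_of_lt_of_le (v_zc_lt h1.2 h1.1) ?_
    refine Finset.prod_le_one' fun T hT => ?_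
    have h2 := hO (Finset.mem_of_mem_erase hT)
    rw [mem_V1S] at h2
    exact (v_zc_lt h2.2 h2.1).le

/-- **Inertia is transitive on the nonzero `p`-torsion points in the kernel of reduction.** -/
theorem V1_transitive (hp : p.Prime) (hp2 : p ≠ 2) (hA : A.LiesOverPrime p) (hΔ : W.Δ ≠ 0)
    {T T' : PtQ W} (hT : T ∈ V1 W p A) (hT0 : T ≠ 0) (hT' : T' ∈ V1 W p A) (hT'0 : T' ≠ 0) :
    ∃ σ ∈ A.inertiaSubgroupIn ℚ, σ • T = T' := by
  classical
  by_contra hcon
  set S := V1S A hp hΔ with hS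
  set O := S.filter (fun R => ∃ σ ∈ A.inertiaSubgroupIn ℚ, σ • T = R) with hO
  have hTS : T ∈ S := by rw [hS, mem_V1S]; exact ⟨hT0, hT⟩
  have hT'S : T' ∈ S := by rw [hS, mem_V1S]; exact ⟨hT'0, hT'⟩
  have hTO : T ∈ O := by
    rw [hO, Finset.mem_filter]
    exact ⟨hTS, 1, one_mem _, one_smul _ _⟩
  have hT'O : T' ∉ O := by
    rw [hO, Finset.mem_filter]
    rintro ⟨-, h⟩
    exact hcon h
  have hstab : ∀ σ ∈ A.inertiaSubgroupIn ℚ, ∀ R ∈ O, σ • R ∈ O := by
    intro σ hσ R hR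
    rw [hO, Finset.mem_filter] at hR ⊢
    obtain ⟨h1, τ, hτ, h2⟩ := hR
    rw [hS, mem_V1S] at h1 ⊢
    refine ⟨⟨fun h => h1.1 ?_, smul_mem_V1 hσ h1.2⟩, σ * τ, mul_mem hσ hτ, ?_⟩
    · have h3 : σ⁻¹ • σ • R = σ⁻¹ • (0 : PtQ W) := by rw [h]
      rw [inv_smul_smul] at h3
      rw [h3]; rfl
    · rw [mul_smul, h2]
  have h1 := prod_zc_le hp hA hΔ (Finset.filter_subset _ _) ⟨T, hTO⟩ hstab
  have h2 := valuation_p_le_prod (A := A) hp hp2 hΔ
  rw [← hS, ← Finset.prod_sdiff (Finset.filter_subset (fun R => ∃ σ ∈ A.inertiaSubgroupIn ℚ,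
    σ • T = R) S), ← hO] at h2
  have hT'D : T' ∈ S \ O := Finset.mem_sdiff.mpr ⟨hT'S, hT'O⟩
  have h3 : ∏ R ∈ S \ O, A.valuation (zc R) < 1 := by
    rw [← Finset.mul_prod_erase _ _ hT'D]
    refine mul_lt_one_of_lt_of_le (v_zc_lt hT' hT'0) ?_
    refine Finset.prod_le_one' fun R hR => ?_
    have h4 := (Finset.mem_sdiff.mp (Finset.mem_of_mem_erase hR)).1
    rw [hS, mem_V1S] at h4
    exact (v_zc_lt h4.2 h4.1).le
  have h4 : 0 < ∏ R ∈ O, A.valuation (zc R) := by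
    refine Finset.prod_pos fun R hR => zero_lt_iff.mpr ?_
    have h5 := Finset.mem_of_mem_filter _ hR
    rw [hS, mem_V1S] at h5
    exact v_zc_ne h5.2 h5.1
  have h5 : (∏ R ∈ S \ O, A.valuation (zc R)) * ∏ R ∈ O, A.valuation (zc R) <
      ∏ R ∈ O, A.valuation (zc R) := mul_lt_of_lt_one_left h4 h3
  exact absurd (h2.trans_lt h5) (not_lt.mpr h1)

/-- The value of `z(T)`. -/
theorem val_zc_pow (hp : p.Prime) (hp2 : p ≠ 2) (hA : A.LiesOverPrime p) (hΔ : W.Δ ≠ 0)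
    {T : PtQ W} (hT : T ∈ V1 W p A) (hT0 : T ≠ 0) :
    A.valuation (zc T) ^ (Nat.card (V1 W p A) - 1) = A.valuation (p : Qb) := by
  classical
  have hTS : T ∈ V1S A hp hΔ := by rw [mem_V1S]; exact ⟨hT0, hT⟩
  have h1 : ∏ R ∈ V1S A hp hΔ, A.valuation (zc R) = A.valuation (p : Qb) := by
    refine le_antisymm (prod_zc_le hp hA hΔ (Finset.Subset.refl _) ⟨T, hTS⟩ ?_)
      (valuation_p_le_prod hp hp2 hΔ)
    intro σ hσ R hR
    rw [mem_V1S] at hR ⊢
    refine ⟨fun h => hR.1 ?_, smul_mem_V1 hσ hR.2⟩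
    have h3 : σ⁻¹ • σ • R = σ⁻¹ • (0 : PtQ W) := by rw [h]
    rw [inv_smul_smul] at h3
    rw [h3]; rfl
  have h2 : ∀ R ∈ V1S A hp hΔ, A.valuation (zc R) = A.valuation (zc T) := by
    intro R hR
    rw [mem_V1S] at hR
    obtain ⟨σ, hσ, h⟩ := V1_transitive hp hp2 hA hΔ hT hT0 hR.2 hR.1
    rw [← h, zc_smul, valuation_smul hσ]
  rw [Finset.prod_congr rfl h2, Finset.prod_const, card_V1S] at h1
  exact h1

/-- The value of `1/x(T)` if `V1` has `p` elements. -/
theorem val_wc_pow (hp : p.Prime) (hp2 : p ≠ 2) (hA : A.LiesOverPrime p) (hΔ : W.Δ ≠ 0)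
    (hcard : Nat.card (V1 W p A) = p) {T : PtQ W} (hT : T ∈ V1 W p A) (hT0 : T ≠ 0) :
    A.valuation (wc T) ^ ((p - 1) / 2) = A.valuation (p : Qb) := by
  obtain ⟨r, hr⟩ := hp.odd_of_ne_two hp2
  have h1 := val_zc_pow hp hp2 hA hΔ hT hT0
  rw [hcard] at h1
  rw [← h1, ← v_zc_sq' hT hT0, ← pow_mul]
  congr 1
  omega

/-- inertia acts nontrivially on `V1` -/
theorem exists_smul_ne' (hp : p.Prime) (hp2 : p ≠ 2) (hA : A.LiesOverPrime p) (hΔ : W.Δ ≠ 0)
    {T : PtQ W} (hT : T ∈ V1 W p A) (hT0 : T ≠ 0) : ∃ σ ∈ A.inertiaSubgroupIn ℚ, σ • T ≠ T := by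
  obtain ⟨σ, hσ, h⟩ := V1_transitive hp hp2 hA hΔ hT hT0 (neg_mem hT) (neg_ne_zero.mpr hT0)
  refine ⟨σ, hσ, ?_⟩
  rw [h]
  exact (ne_neg hp hp2 hT.1 hT0).symm

end Fermat.Agent.H47.ES
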