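import Fermat.Agent.H31Hyp1

/-!
# Reduction theory for `SL₂(O)`, `O` a norm Euclidean discrete subring of `ℂ` (helper47)

`EucOrder O` : `O` is a subring of `ℂ`, `‖a‖ ≥ 1` for `a ≠ 0`, and every complex number is at squared
distance `≤ 1/3` of `O` (for instance `ℤ[ω]`).  `SLO O` is the group `SL₂(O)` inside `GL₂(ℂ)`.
Every orbit of `SLO O` on hyperbolic 3-space meets `S0 = {|z|² ≤ 1/3, |z|² + y² ≥ 1}`, in a point of
maximal height.
-/

set_option autoImplicit false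
set_option linter.unusedSectionVars false

noncomputable section

open MeasureTheory Matrix Complex
open scoped ComplexConjugate Real

namespace Fermat.Agent.H47.Red

/-- Norm Euclidean discrete subrings of `ℂ`. -/
structure EucOrder (O : Subring ℂ) : Prop where
  one_le : ∀ a ∈ O, a ≠ 0 → 1 ≤ normSq a
  cover : ∀ z : ℂ, ∃ a ∈ O, normSq (z - a) ≤ 1 / 3

variable {O : Subring ℂ}

theorem EucOrder.finite_ball (hO : EucOrder O) (R : ℝ) : {a : ℂ | a ∈ O ∧ ‖a‖ ≤ R}.Finite := by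
  have hd : DiscreteTopology O.toAddSubgroup := by
    refine discreteTopology_of_isOpen_singleton_zero ?_
    rw [Metric.isOpen_singleton_iff]
    refine ⟨1, one_pos, fun y hy => ?_⟩
    by_contra hne
    have h1 : (y : ℂ) ≠ 0 := fun h => hne (Subtype.ext h)
    have h2 := hO.one_le y y.2 h1
    have h3 : dist (y : ℂ) 0 < 1 := hy
    rw [dist_zero_right] at h3
    rw [normSq_eq_norm_sq] at h2
    nlinarith [norm_nonneg (y : ℂ)]
  have hcl : IsClosed (O.toAddSubgroup : Set ℂ) := AddSubgroup.isClosed_of_discrete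
  have h := Metric.finite_isBounded_inter_isClosed (K := Metric.closedBall (0 : ℂ) R)
    (s := (O.toAddSubgroup : Set ℂ)) DiscreteTopology.isDiscrete Metric.isBounded_closedBall hcl
  refine h.subset fun a ha => ⟨?_, ha.1⟩
  rw [Metric.mem_closedBall, dist_zero_right]
  exact ha.2

theorem EucOrder.finite_normSq (hO : EucOrder O) (R : ℝ) :
    {a : ℂ | a ∈ O ∧ normSq a ≤ R}.Finite := by
  refine (hO.finite_ball (Real.sqrt R)).subset fun a ha => ⟨ha.1, ?_⟩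
  apply Real.le_sqrt_of_sq_le
  rw [← normSq_eq_norm_sq]
  exact ha.2

/-- A nonzero element of norm `≤ 1` is a unit. -/
theorem EucOrder.exists_inv (hO : EucOrder O) {e : ℂ} (he : e ∈ O) (he0 : e ≠ 0)
    (he1 : normSq e ≤ 1) : ∃ u ∈ O, u * e = 1 := by
  obtain ⟨a, ha, h⟩ := hO.cover e⁻¹
  refine ⟨a, ha, ?_⟩
  by_contra hne
  have h1 : 1 - a * e ∈ O := O.sub_mem O.one_mem (O.mul_mem ha he)
  have h2 : 1 - a * e ≠ 0 := fun h0 => hne (sub_eq_zero.mp h0).symm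
  have h3 := hO.one_le _ h1 h2
  have h4 : 1 - a * e = (e⁻¹ - a) * e := by
    field_simp
  rw [h4, normSq_mul] at h3
  nlinarith [normSq_nonneg e, normSq_nonneg (e⁻¹ - a)]

/-- The ideal generated by two elements is principal. -/
theorem EucOrder.exists_gcd (hO : EucOrder O) {c d : ℂ} (hc : c ∈ O) (hd : d ∈ O)
    (h0 : ¬ (c = 0 ∧ d = 0)) : ∃ e ∈ O, e ≠ 0 ∧ (∃ x ∈ O, ∃ y ∈ O, e = x * c + y * d) ∧
      (∃ c' ∈ O, c = e * c') ∧ ∃ d' ∈ O, d = e * d' := by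
  set I : Set ℂ := {e | e ≠ 0 ∧ ∃ x ∈ O, ∃ y ∈ O, e = x * c + y * d} with hI
  have hIO : ∀ e ∈ I, e ∈ O := by
    rintro e ⟨-, x, hx, y, hy, rfl⟩
    exact O.add_mem (O.mul_mem hx hc) (O.mul_mem hy hd)
  obtain ⟨e₀, he₀⟩ : I.Nonempty := by
    by_cases h1 : c = 0
    · refine ⟨d, fun h2 => h0 ⟨h1, h2⟩, 0, O.zero_mem, 1, O.one_mem, by ring⟩
    · exact ⟨c, h1, 1, O.one_mem, 0, O.zero_mem, by ring⟩
  have hfin : (I ∩ {a | normSq a ≤ normSq e₀}).Finite :=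
    (hO.finite_normSq (normSq e₀)).subset fun a ha => ⟨hIO a ha.1, ha.2⟩
  obtain ⟨e, he, hmin⟩ := Set.exists_min_image _ normSq hfin
    ⟨e₀, he₀, le_refl (normSq e₀)⟩
  have hmin' : ∀ a ∈ I, normSq e ≤ normSq a := by
    intro a ha
    by_cases h1 : normSq a ≤ normSq e₀
    · exact hmin a ⟨ha, h1⟩
    · exact he.2.trans (not_le.mp h1).le
  obtain ⟨⟨hne, x, hx, y, hy, hxy⟩, -⟩ := he
  have hdiv : ∀ f : ℂ, (∃ x ∈ O, ∃ y ∈ O, f = x * c + y * d) → ∃ q ∈ O, f = e * q := by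
    rintro f ⟨x', hx', y', hy', hf⟩
    obtain ⟨q, hq, hq1⟩ := hO.cover (f / e)
    refine ⟨q, hq, ?_⟩
    by_contra hcon
    have h1 : f - e * q ∈ I := by
      refine ⟨fun h => hcon (sub_eq_zero.mp h), x' - q * x, O.sub_mem hx' (O.mul_mem hq hx),
        y' - q * y, O.sub_mem hy' (O.mul_mem hq hy), ?_⟩
      rw [hf, hxy]
      ring
    have h2 := hmin' _ h1
    have h3 : f - e * q = (f / e - q) * e := by
      field_simp
    rw [h3, normSq_mul] at h2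
    have h4 : 0 < normSq e := normSq_pos.mpr hne
    nlinarith [normSq_nonneg (f / e - q)]
  exact ⟨e, hIO e ⟨hne, x, hx, y, hy, hxy⟩, hne, ⟨x, hx, y, hy, hxy⟩,
    hdiv c ⟨1, O.one_mem, 0, O.zero_mem, by ring⟩, hdiv d ⟨0, O.zero_mem, 1, O.one_mem, by ring⟩⟩

/-- The group `SL₂(O)` inside `GL₂(ℂ)`. -/
def SLO (O : Subring ℂ) : Subgroup (GL (Fin 2) ℂ) where
  carrier := {g | (∀ i j, (g : Matrix (Fin 2) (Fin 2) ℂ) i j ∈ O) ∧
    (g : Matrix (Fin 2) (Fin 2) ℂ).det = 1}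
  mul_mem' := by
    rintro g h ⟨hg, hg'⟩ ⟨hh, hh'⟩
    refine ⟨fun i j => ?_, ?_⟩
    · rw [Units.val_mul, Matrix.mul_apply]
      exact sum_mem fun k _ => O.mul_mem (hg i k) (hh k j)
    · rw [Units.val_mul, Matrix.det_mul, hg', hh', mul_one]
  one_mem' := by
    refine ⟨fun i j => ?_, by simp⟩
    rw [Units.val_one, Matrix.one_apply]
    split_ifs
    · exact O.one_mem
    · exact O.zero_mem
  inv_mem' := by
    rintro g ⟨hg, hg'⟩
    have h1 : ((g⁻¹ : GL (Fin 2) ℂ) : Matrix (Fin 2) (Fin 2) ℂ) =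
        (g : Matrix (Fin 2) (Fin 2) ℂ).adjugate := by
      rw [Matrix.coe_units_inv, Matrix.inv_def, hg', Ring.inverse_one, one_smul]
    refine ⟨fun i j => ?_, ?_⟩
    · rw [h1, Matrix.adjugate_fin_two]
      fin_cases i <;> fin_cases j <;> simp [hg, O.neg_mem]
    · rw [h1, Matrix.det_adjugate, hg', one_pow]

theorem mem_SLO {g : GL (Fin 2) ℂ} : g ∈ SLO O ↔
    (∀ i j, (g : Matrix (Fin 2) (Fin 2) ℂ) i j ∈ O) ∧
      (g : Matrix (Fin 2) (Fin 2) ℂ).det = 1 := Iff.rfl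

/-- The element of `SLO O` with given entries. -/
def mk2 (a b c d : ℂ) (h : a * d - b * c = 1) : GL (Fin 2) ℂ :=
  Matrix.GeneralLinearGroup.mkOfDetNeZero !![a, b; c, d]
    (by rw [Matrix.det_fin_two_of, h]; exact one_ne_zero)

@[simp] theorem mk2_val (a b c d : ℂ) (h : a * d - b * c = 1) :
    ((mk2 a b c d h : GL (Fin 2) ℂ) : Matrix (Fin 2) (Fin 2) ℂ) = !![a, b; c, d] := rfl

theorem mk2_mem {a b c d : ℂ} (h : a * d - b * c = 1) (ha : a ∈ O) (hb : b ∈ O) (hc : c ∈ O)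
    (hd : d ∈ O) : mk2 a b c d h ∈ SLO O := by
  refine ⟨fun i j => ?_, ?_⟩
  · rw [mk2_val]
    fin_cases i <;> fin_cases j <;> simpa
  · rw [mk2_val, Matrix.det_fin_two_of, h]

theorem smul_y_of_mem {g : GL (Fin 2) ℂ} (hg : g ∈ SLO O) (w : H3) :
    (g • w).y = w.y / H3.den g w := by
  rw [H3.smul_y, hg.2, norm_one, one_mul]

/-- The quadratic form `|cz + d|² + |c|² y²`. -/
def D (c d : ℂ) (w : H3) : ℝ := normSq (c * w.z + d) + normSq c * w.y ^ 2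

theorem den_eq_D (g : Matrix (Fin 2) (Fin 2) ℂ) (w : H3) : H3.den g w = D (g 1 0) (g 1 1) w := rfl

theorem D_mul (e c d : ℂ) (w : H3) : D (e * c) (e * d) w = normSq e * D c d w := by
  rw [D, D, normSq_mul, mul_assoc e, ← mul_add, normSq_mul]
  ring

theorem D_nonneg (c d : ℂ) (w : H3) : 0 ≤ D c d w := by
  rw [D]
  have := normSq_nonneg (c * w.z + d)
  have := normSq_nonneg c
  positivity

theorem D_pos {c d : ℂ} (h : ¬ (c = 0 ∧ d = 0)) (w : H3) : 0 < D c d w := by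
  rw [D]
  by_cases hc : c = 0
  · subst hc
    have hd : d ≠ 0 := fun hd => h ⟨rfl, hd⟩
    have := normSq_pos.mpr hd
    simpa using this
  · have h1 := normSq_pos.mpr hc
    have h2 := w.pos
    have h3 := normSq_nonneg (c * w.z + d)
    positivity

theorem EucOrder.finite_D (hO : EucOrder O) (w : H3) (K : ℝ) :
    {p : ℂ × ℂ | p.1 ∈ O ∧ p.2 ∈ O ∧ D p.1 p.2 w ≤ K}.Finite := by
  have hy := w.pos
  have hy2 : 0 < w.y ^ 2 := by positivity
  refine ((hO.finite_normSq (K / w.y ^ 2)).prod (hO.finite_ball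
    (Real.sqrt K + Real.sqrt (K / w.y ^ 2) * ‖w.z‖))).subset ?_
  rintro ⟨c, d⟩ ⟨hc, hd, h⟩
  simp only at hc hd h
  rw [D] at h
  have h1 : normSq c ≤ K / w.y ^ 2 := by
    rw [le_div_iff₀ hy2]
    linarith [normSq_nonneg (c * w.z + d)]
  have h2 : normSq (c * w.z + d) ≤ K := by
    have := normSq_nonneg c
    nlinarith
  refine ⟨⟨hc, h1⟩, hd, ?_⟩
  have h3 : ‖c‖ ≤ Real.sqrt (K / w.y ^ 2) := by
    apply Real.le_sqrt_of_sq_le
    rwa [← normSq_eq_norm_sq]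
  have h4 : ‖c * w.z + d‖ ≤ Real.sqrt K := by
    apply Real.le_sqrt_of_sq_le
    rwa [← normSq_eq_norm_sq]
  calc ‖d‖ = ‖(c * w.z + d) - c * w.z‖ := by ring_nf
    _ ≤ ‖c * w.z + d‖ + ‖c * w.z‖ := norm_sub_le _ _
    _ ≤ Real.sqrt K + Real.sqrt (K / w.y ^ 2) * ‖w.z‖ := by
        rw [norm_mul]
        gcongr

/-- There is an element of `SLO O` whose bottom row minimises `D` among all nonzero pairs. -/
theorem EucOrder.exists_min (hO : EucOrder O) (w : H3) : ∃ g ∈ SLO O,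
    ∀ c ∈ O, ∀ d ∈ O, ¬ (c = 0 ∧ d = 0) → H3.den g w ≤ D c d w := by
  have hfin : ({p : ℂ × ℂ | p.1 ∈ O ∧ p.2 ∈ O ∧ D p.1 p.2 w ≤ D 0 1 w} ∩
      {p | ¬ (p.1 = 0 ∧ p.2 = 0)}).Finite := (hO.finite_D w _).subset Set.inter_subset_left
  obtain ⟨⟨c, d⟩, ⟨⟨hc, hd, hle⟩, h0⟩, hmin⟩ := Set.exists_min_image _
    (fun p : ℂ × ℂ => D p.1 p.2 w) hfin
    ⟨(0, 1), ⟨O.zero_mem, O.one_mem, le_refl _⟩, fun h => one_ne_zero h.2⟩
  simp only at hc hd hle h0 hmin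
  have hmin' : ∀ c' ∈ O, ∀ d' ∈ O, ¬ (c' = 0 ∧ d' = 0) → D c d w ≤ D c' d' w := by
    intro c' hc' d' hd' h0'
    by_cases h1 : D c' d' w ≤ D 0 1 w
    · exact hmin (c', d') ⟨⟨hc', hd', h1⟩, h0'⟩
    · exact hle.trans (not_le.mp h1).le
  obtain ⟨e, he, he0, ⟨x, hx, y, hy, hxy⟩, ⟨c', hc', hcc'⟩, d', hd', hdd'⟩ := hO.exists_gcd hc hd h0
  have h0' : ¬ (c' = 0 ∧ d' = 0) := by
    rintro ⟨rfl, rfl⟩
    exact h0 ⟨by rw [hcc', mul_zero], by rw [hdd', mul_zero]⟩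
  have h1 := hmin' c' hc' d' hd' h0'
  rw [hcc', hdd', D_mul] at h1
  have h2 : normSq e ≤ 1 := by
    have := D_pos h0' w
    nlinarith
  obtain ⟨u, hu, hue⟩ := hO.exists_inv he he0 h2
  refine ⟨mk2 (u * y) (-(u * x)) c d ?_, mk2_mem _ (O.mul_mem hu hy)
    (O.neg_mem (O.mul_mem hu hx)) hc hd, ?_⟩
  · rw [← hue, hxy]
    ring
  · intro c' hc' d' hd' h0'
    rw [den_eq_D, mk2_val]
    exact hmin' c' hc' d' hd' h0'

theorem bottom_ne_zero {g : GL (Fin 2) ℂ} (hg : g ∈ SLO O) :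
    ¬ ((g : Matrix (Fin 2) (Fin 2) ℂ) 1 0 = 0 ∧ (g : Matrix (Fin 2) (Fin 2) ℂ) 1 1 = 0) := by
  rintro ⟨h1, h2⟩
  have := hg.2
  rw [Matrix.det_fin_two, h1, h2] at this
  simp at this

/-- The height of `w` is attained. -/
theorem EucOrder.exists_max (hO : EucOrder O) (w : H3) : ∃ g ∈ SLO O,
    ∀ h ∈ SLO O, (h • w).y ≤ (g • w).y := by
  obtain ⟨g, hg, hmin⟩ := hO.exists_min w
  refine ⟨g, hg, fun h hh => ?_⟩
  rw [smul_y_of_mem hg, smul_y_of_mem hh]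
  have h1 := hmin _ (hh.1 1 0) _ (hh.1 1 1) (bottom_ne_zero hh)
  have h2 : 0 < H3.den g w := H3.den_pos (by rw [hg.2]; exact one_ne_zero) w
  exact div_le_div_of_nonneg_left w.pos.le h2 h1

/-- The height: the largest `y`-coordinate in the orbit. -/
def ht (O : Subring ℂ) (w : H3) : ℝ := sSup {y | ∃ g ∈ SLO O, y = (g • w).y}

theorem EucOrder.exists_ht (hO : EucOrder O) (w : H3) : ∃ g ∈ SLO O, (g • w).y = ht O w := by
  obtain ⟨g, hg, hmax⟩ := hO.exists_max w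
  refine ⟨g, hg, ?_⟩
  have : IsGreatest {y | ∃ g ∈ SLO O, y = (g • w).y} (g • w).y := by
    refine ⟨⟨g, hg, rfl⟩, ?_⟩
    rintro _ ⟨h, hh, rfl⟩
    exact hmax h hh
  exact this.csSup_eq.symm

theorem EucOrder.le_ht (hO : EucOrder O) {g : GL (Fin 2) ℂ} (hg : g ∈ SLO O) (w : H3) :
    (g • w).y ≤ ht O w := by
  obtain ⟨g₀, hg₀, hmax⟩ := hO.exists_max w
  refine le_csSup ⟨(g₀ • w).y, ?_⟩ ⟨g, hg, rfl⟩
  rintro _ ⟨h, hh, rfl⟩
  exact hmax h hh

theorem EucOrder.y_le_ht (hO : EucOrder O) (w : H3) : w.y ≤ ht O w := by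
  have := hO.le_ht (SLO O).one_mem w
  rwa [one_smul] at this

theorem ht_smul {g : GL (Fin 2) ℂ} (hg : g ∈ SLO O) (w : H3) : ht O (g • w) = ht O w := by
  unfold ht
  congr 1
  ext y
  constructor
  · rintro ⟨h, hh, rfl⟩
    exact ⟨h * g, (SLO O).mul_mem hh hg, by rw [mul_smul]⟩
  · rintro ⟨h, hh, rfl⟩
    exact ⟨h * g⁻¹, (SLO O).mul_mem hh ((SLO O).inv_mem hg), by
      rw [mul_smul, inv_smul_smul]⟩

/-- translations -/
theorem trans_mem {a : ℂ} (ha : a ∈ O) : mk2 1 a 0 1 (by ring) ∈ SLO O :=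
  mk2_mem _ O.one_mem ha O.zero_mem O.one_mem

theorem trans_smul_z (a : ℂ) (w : H3) : (mk2 1 a 0 1 (by ring) • w).z = w.z + a := by
  rw [H3.smul_z, H3.den]
  simp

theorem trans_smul_y (a : ℂ) (w : H3) : (mk2 1 a 0 1 (by ring) • w).y = w.y := by
  rw [H3.smul_y, H3.den]
  simp

/-- The fundamental set. -/
def S0 : Set H3 := {w | normSq w.z ≤ 1 / 3 ∧ 1 ≤ normSq w.z + w.y ^ 2}

theorem y_sq_of_mem_S0 {w : H3} (hw : w ∈ S0) : 2 / 3 ≤ w.y ^ 2 := by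
  have h1 := hw.1
  have h2 := hw.2
  linarith

/-- **Reduction**: every orbit meets `S0` in a point of maximal height. -/
theorem EucOrder.exists_mem_S0 (hO : EucOrder O) (w : H3) :
    ∃ g ∈ SLO O, g • w ∈ S0 ∧ (g • w).y = ht O w := by
  obtain ⟨g, hg, hgy⟩ := hO.exists_ht w
  obtain ⟨a, ha, ha'⟩ := hO.cover (g • w).z
  refine ⟨mk2 1 (-a) 0 1 (by ring) * g, (SLO O).mul_mem (trans_mem (O.neg_mem ha)) hg, ?_, ?_⟩
  · have hz : ((mk2 1 (-a) 0 1 (by ring) * g) • w).z = (g • w).z - a := by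
      rw [mul_smul, trans_smul_z, sub_eq_add_neg]
    have hy : ((mk2 1 (-a) 0 1 (by ring) * g) • w).y = ht O w := by
      rw [mul_smul, trans_smul_y, hgy]
    obtain ⟨w', hw'⟩ : ∃ w', w' = (mk2 1 (-a) 0 1 (by ring) * g) • w := ⟨_, rfl⟩
    rw [← hw'] at hz hy ⊢
    refine ⟨by rw [hz]; exact ha', ?_⟩
    by_contra hcon
    rw [not_le] at hcon
    -- apply the inversion
    have hS : mk2 0 (-1) 1 0 (by ring) ∈ SLO O :=
      mk2_mem _ O.zero_mem (O.neg_mem O.one_mem) O.one_mem O.zero_mem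
    have h1 := hO.le_ht hS w'
    have h2 : ht O w' = w'.y := by
      rw [hw', ht_smul ((SLO O).mul_mem (trans_mem (O.neg_mem ha)) hg), ← hw', hy]
    rw [h2, smul_y_of_mem hS, den_eq_D, D] at h1
    simp only [mk2_val, Matrix.of_apply, Matrix.cons_val', Matrix.cons_val_one,
      Matrix.cons_val_zero, Matrix.cons_val_fin_one, one_mul, add_zero, map_one] at h1
    have h3 : 0 < normSq w'.z + w'.y ^ 2 := by
      have := w'.pos
      have := normSq_nonneg w'.z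
      positivity
    rw [div_le_iff₀ h3] at h1
    have := w'.pos
    nlinarith
  · rw [mul_smul, trans_smul_y, hgy]

theorem EucOrder.ht_sq_ge (hO : EucOrder O) (w : H3) : 2 / 3 ≤ ht O w ^ 2 := by
  obtain ⟨g, -, h1, h2⟩ := hO.exists_mem_S0 w
  rw [← h2]
  exact y_sq_of_mem_S0 h1

theorem EucOrder.ht_pos (hO : EucOrder O) (w : H3) : 0 < ht O w :=
  lt_of_lt_of_le w.pos (hO.y_le_ht w)

end Fermat.Agent.H47.Red
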