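import Fermat.Agent.H47RSiegel
import Fermat.Agent.H31Hyp2

/-!
# Cut-off integrals for finite index subgroups of `SL₂(O)` on hyperbolic 3-space (helper47)

* `lintegral_Sieg_lt_top` : `∫ y^a` over a Siegel set is finite for `a < 2`;
* `FinIdx O Γ` : `Γ ≤ SLO O` of finite index;
* `exists_cut` : existence of a cut-off `χ ≥ 0`, `∑_{γ ∈ Γ} χ (γ w) = 1`;
* `integrable_cut` : `χ f` is integrable if `‖f‖ ≤ C (ht w)^a`, `a < 2`, for every cut-off `χ`.
-/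

set_option autoImplicit false
set_option linter.unusedSectionVars false

noncomputable section

open MeasureTheory Matrix Complex
open scoped ComplexConjugate Real ENNReal

namespace Fermat.Agent.H47.Red

variable {O : Subring ℂ}

/-! ### Siegel sets have finite volume -/

theorem volume_normSq_le_lt_top (R : ℝ) : (volume : Measure ℂ) {z | normSq z ≤ R} < ∞ := by
  refine (measure_mono (t := Metric.closedBall (0 : ℂ) (Real.sqrt R)) ?_).trans_lt
    (isCompact_closedBall (0 : ℂ) (Real.sqrt R)).measure_lt_top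
  intro z hz
  rw [Metric.mem_closedBall, dist_zero_right]
  apply Real.le_sqrt_of_sq_le
  rw [← normSq_eq_norm_sq]
  exact hz

theorem lintegral_Sieg_lt_top (R : ℝ) {t a : ℝ} (ht : 0 < t) (ha : a < 2) :
    ∫⁻ w in Sieg R t, ENNReal.ofReal (w.y ^ a) < ∞ := by
  have hmz : MeasurableSet {z : ℂ | normSq z ≤ R} :=
    measurableSet_le Complex.continuous_normSq.measurable measurable_const
  have hm1 : Measurable (({z : ℂ | normSq z ≤ R}).indicator (fun _ => (1 : ℝ≥0∞))) :=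
    measurable_const.indicator hmz
  have hm2 : Measurable ((Set.Ici t).indicator (fun y : ℝ => ENNReal.ofReal (y ^ a))) :=
    ((measurable_id.pow_const a).ennreal_ofReal).indicator measurableSet_Ici
  have h1 : ∫⁻ w in Sieg R t, ENNReal.ofReal (w.y ^ a) =
      ∫⁻ w : H3, ({z : ℂ | normSq z ≤ R}).indicator (fun _ => (1 : ℝ≥0∞)) w.z *
        (Set.Ici t).indicator (fun y : ℝ => ENNReal.ofReal (y ^ a)) w.y := by
    rw [← lintegral_indicator (measurableSet_Sieg R t)]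
    refine lintegral_congr fun w => ?_
    by_cases h1 : normSq w.z ≤ R
    · by_cases h2 : t ≤ w.y
      · rw [Set.indicator_of_mem (show w ∈ Sieg R t from ⟨h1, h2⟩),
          Set.indicator_of_mem (show w.z ∈ {z : ℂ | normSq z ≤ R} from h1),
          Set.indicator_of_mem (show w.y ∈ Set.Ici t from h2), one_mul]
      · rw [Set.indicator_of_notMem (fun h => h2 h.2),
          Set.indicator_of_notMem (show w.y ∉ Set.Ici t from h2), mul_zero]
    · rw [Set.indicator_of_notMem (fun h => h1 h.1),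
        Set.indicator_of_notMem (show w.z ∉ {z : ℂ | normSq z ≤ R} from h1), zero_mul]
  rw [h1, H3.lintegral_eq (fun z y => ({z : ℂ | normSq z ≤ R}).indicator (fun _ => (1 : ℝ≥0∞)) z *
        (Set.Ici t).indicator (fun y : ℝ => ENNReal.ofReal (y ^ a)) y)
        ((hm1.comp measurable_fst).mul (hm2.comp measurable_snd))]
  have h2 : ∀ y : ℝ, (∫⁻ z : ℂ, ({z : ℂ | normSq z ≤ R}).indicator (fun _ => (1 : ℝ≥0∞)) z *
        (Set.Ici t).indicator (fun y : ℝ => ENNReal.ofReal (y ^ a)) y) *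
        ENNReal.ofReal ((y ^ 3)⁻¹) = (volume : Measure ℂ) {z | normSq z ≤ R} *
        (Set.Ici t).indicator (fun y : ℝ => ENNReal.ofReal (y ^ (a - 3))) y := by
    intro y
    rw [lintegral_mul_const _ hm1, lintegral_indicator hmz, lintegral_const, one_mul,
      Measure.restrict_apply_univ, mul_assoc]
    congr 1
    by_cases h2 : t ≤ y
    · have hy : 0 < y := ht.trans_le h2
      rw [Set.indicator_of_mem (show y ∈ Set.Ici t from h2),
        Set.indicator_of_mem (show y ∈ Set.Ici t from h2), ← ENNReal.ofReal_mul (by positivity),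
        Real.rpow_sub hy, div_eq_mul_inv]
      norm_cast
    · rw [Set.indicator_of_notMem (show y ∉ Set.Ici t from h2),
        Set.indicator_of_notMem (show y ∉ Set.Ici t from h2), zero_mul]
  rw [lintegral_congr h2, lintegral_const_mul' _ _ (volume_normSq_le_lt_top R).ne]
  refine ENNReal.mul_lt_top (volume_normSq_le_lt_top R) ?_
  refine (setLIntegral_le_lintegral _ _).trans_lt ?_
  rw [lintegral_indicator measurableSet_Ici]
  have h3 : IntegrableOn (fun y : ℝ => y ^ (a - 3)) (Set.Ioi (t / 2)) :=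
    integrableOn_Ioi_rpow_of_lt (by linarith) (by positivity)
  have h4 : IntegrableOn (fun y : ℝ => y ^ (a - 3)) (Set.Ici t) :=
    h3.mono_set fun y hy => by
      have : t ≤ y := hy
      show t / 2 < y
      linarith
  exact h4.lintegral_lt_top

theorem volume_Sieg_lt_top (R : ℝ) {t : ℝ} (ht : 0 < t) :
    (volume : Measure H3) (Sieg R t) < ∞ := by
  have h := lintegral_Sieg_lt_top R ht (a := 0) (by norm_num)
  simpa using h

/-! ### Countability and measurability -/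

theorem EucOrder.countable_O (hO : EucOrder O) : (O : Set ℂ).Countable := by
  have h : (O : Set ℂ) ⊆ ⋃ n : ℕ, {a : ℂ | a ∈ O ∧ ‖a‖ ≤ n} := by
    intro a ha
    obtain ⟨n, hn⟩ := exists_nat_ge ‖a‖
    exact Set.mem_iUnion.mpr ⟨n, ha, hn⟩
  exact (Set.countable_iUnion fun n : ℕ => (hO.finite_ball n).countable).mono h

theorem EucOrder.countable_SLO (hO : EucOrder O) : Countable (SLO O) := by
  have : Countable O := hO.countable_O.to_subtype
  have hinj : Function.Injective (fun (g : SLO O) (i j : Fin 2) =>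
      (⟨((g : GL (Fin 2) ℂ) : Matrix (Fin 2) (Fin 2) ℂ) i j, g.2.1 i j⟩ : O)) := by
    intro g g' h
    apply Subtype.ext
    apply Units.ext
    ext i j
    exact congrArg Subtype.val (congrFun (congrFun h i) j)
  exact hinj.countable

theorem EucOrder.countable_of_le (hO : EucOrder O) {Γ : Subgroup (GL (Fin 2) ℂ)}
    (hΓ : Γ ≤ SLO O) : Countable Γ := by
  have := hO.countable_SLO
  exact (Subgroup.inclusion_injective hΓ).countable

theorem EucOrder.measurable_ht (hO : EucOrder O) : Measurable (ht O) := by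
  have := hO.countable_SLO
  refine measurable_of_Ioi fun c => ?_
  have h : ht O ⁻¹' Set.Ioi c = ⋃ g : SLO O, {w | c < ((g : GL (Fin 2) ℂ) • w).y} := by
    ext w
    simp only [Set.mem_preimage, Set.mem_Ioi, Set.mem_iUnion, Set.mem_ofPred_eq]
    constructor
    · intro h
      obtain ⟨g, hg, hgy⟩ := hO.exists_ht w
      exact ⟨⟨g, hg⟩, by rw [hgy]; exact h⟩
    · rintro ⟨g, hg⟩
      exact hg.trans_le (hO.le_ht g.2 w)
  rw [h]
  refine MeasurableSet.iUnion fun g => ?_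
  exact measurableSet_lt measurable_const (H3.measurable_y.comp
    (continuous_const_smul (g : GL (Fin 2) ℂ)).measurable)

/-! ### Finite index subgroups -/

/-- `Γ` is a subgroup of finite index of `SLO O`. -/
def FinIdx (O : Subring ℂ) (Γ : Subgroup (GL (Fin 2) ℂ)) : Prop :=
  Γ ≤ SLO O ∧ ∃ T : Finset (GL (Fin 2) ℂ), (∀ δ ∈ T, δ ∈ SLO O) ∧
    ∀ g ∈ SLO O, ∃ δ ∈ T, ∃ γ ∈ Γ, g = δ * γ

/-- Cut-offs. -/
structure IsCutoff (Γ : Subgroup (GL (Fin 2) ℂ)) (χ : H3 → ℝ) : Prop where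
  meas : Measurable χ
  nonneg : ∀ w, 0 ≤ χ w
  hasSum : ∀ w, HasSum (fun g : Γ => χ ((g : GL (Fin 2) ℂ) • w)) 1

/-- the union of the translates of `S0` -/
def cutSet (T : Finset (GL (Fin 2) ℂ)) : Set H3 := {w | ∃ δ ∈ T, δ • w ∈ S0}

theorem measurableSet_cutSet (T : Finset (GL (Fin 2) ℂ)) : MeasurableSet (cutSet T) := by
  have h : cutSet T = ⋃ δ ∈ T, (fun w : H3 => δ • w) ⁻¹' S0 := by
    ext w
    simp [cutSet]
  rw [h]
  exact Finset.measurableSet_biUnion _ fun δ _ =>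
    (continuous_const_smul δ).measurable measurableSet_S0

theorem EucOrder.finite_cut (hO : EucOrder O) {Γ : Subgroup (GL (Fin 2) ℂ)} (hΓ : Γ ≤ SLO O)
    {T : Finset (GL (Fin 2) ℂ)} (hT : ∀ δ ∈ T, δ ∈ SLO O) (w : H3) :
    {γ : Γ | (γ : GL (Fin 2) ℂ) • w ∈ cutSet T}.Finite := by
  have h1 : {g : GL (Fin 2) ℂ | g ∈ SLO O ∧ g • w ∈ Sieg (1 / 3) (4 / 5)}.Finite :=
    hO.finite_smul_mem (by norm_num) w
  have h2 : (⋃ δ ∈ T, {γ : Γ | δ * (γ : GL (Fin 2) ℂ) ∈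
      {g : GL (Fin 2) ℂ | g ∈ SLO O ∧ g • w ∈ Sieg (1 / 3) (4 / 5)}}).Finite := by
    refine Set.Finite.biUnion T.finite_toSet fun δ _ => ?_
    refine h1.preimage (Function.Injective.injOn fun γ γ' h => ?_)
    exact Subtype.ext (mul_left_cancel h)
  refine h2.subset ?_
  rintro γ ⟨δ, hδ, h⟩
  refine Set.mem_biUnion hδ ⟨(SLO O).mul_mem (hT δ hδ) (hΓ γ.2), ?_⟩
  rw [mul_smul]
  exact S0_subset h

theorem EucOrder.exists_mem_cutSet (hO : EucOrder O) {Γ : Subgroup (GL (Fin 2) ℂ)}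
    {T : Finset (GL (Fin 2) ℂ)} (hT : ∀ g ∈ SLO O, ∃ δ ∈ T, ∃ γ ∈ Γ, g = δ * γ) (w : H3) :
    ∃ γ : Γ, (γ : GL (Fin 2) ℂ) • w ∈ cutSet T := by
  obtain ⟨g, hg, h1, -⟩ := hO.exists_mem_S0 w
  obtain ⟨δ, hδ, γ, hγ, rfl⟩ := hT g hg
  exact ⟨⟨γ, hγ⟩, δ, hδ, by rwa [mul_smul] at h1⟩

/-- number of `γ ∈ Γ` with `γ w ∈ S` -/
def mult (Γ : Subgroup (GL (Fin 2) ℂ)) (S : Set H3) (w : H3) : ℝ≥0∞ :=
  ∑' γ : Γ, S.indicator (fun _ => (1 : ℝ≥0∞)) ((γ : GL (Fin 2) ℂ) • w)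

theorem measurable_mult {Γ : Subgroup (GL (Fin 2) ℂ)} [Countable Γ] {S : Set H3}
    (hS : MeasurableSet S) : Measurable (mult Γ S) :=
  Measurable.ennreal_tsum fun γ => (measurable_const.indicator hS).comp
    (continuous_const_smul (γ : GL (Fin 2) ℂ)).measurable

theorem mult_smul {Γ : Subgroup (GL (Fin 2) ℂ)} {S : Set H3} (γ : Γ) (w : H3) :
    mult Γ S ((γ : GL (Fin 2) ℂ) • w) = mult Γ S w := by
  rw [mult, mult, ← (Equiv.mulRight γ).tsum_eq (fun γ' : Γ =>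
    S.indicator (fun _ => (1 : ℝ≥0∞)) ((γ' : GL (Fin 2) ℂ) • w))]
  refine tsum_congr fun γ' => ?_
  rw [Equiv.coe_mulRight, Subgroup.coe_mul, mul_smul]

theorem one_le_mult {Γ : Subgroup (GL (Fin 2) ℂ)} {S : Set H3} {w : H3}
    (h : ∃ γ : Γ, (γ : GL (Fin 2) ℂ) • w ∈ S) : 1 ≤ mult Γ S w := by
  obtain ⟨γ, hγ⟩ := h
  refine le_trans ?_ (ENNReal.le_tsum γ)
  rw [Set.indicator_of_mem hγ]

theorem mult_ne_top {Γ : Subgroup (GL (Fin 2) ℂ)} {S : Set H3} {w : H3}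
    (h : {γ : Γ | (γ : GL (Fin 2) ℂ) • w ∈ S}.Finite) : mult Γ S w ≠ ∞ := by
  rw [mult, tsum_eq_sum (s := h.toFinset)]
  · refine ENNReal.sum_ne_top.mpr fun γ _ => ?_
    by_cases h1 : (γ : GL (Fin 2) ℂ) • w ∈ S
    · rw [Set.indicator_of_mem h1]; exact ENNReal.one_ne_top
    · rw [Set.indicator_of_notMem h1]; exact ENNReal.zero_ne_top
  · intro γ hγ
    refine Set.indicator_of_notMem (fun h1 => hγ ?_) _
    rw [Set.Finite.mem_toFinset]
    exact h1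

/-- **Existence of cut-offs** from a measurable set meeting each orbit in finitely many points. -/
theorem exists_cutoff_of_set {Γ : Subgroup (GL (Fin 2) ℂ)} [Countable Γ] {S : Set H3}
    (hS : MeasurableSet S) (h1 : ∀ w, ∃ γ : Γ, (γ : GL (Fin 2) ℂ) • w ∈ S)
    (h2 : ∀ w, {γ : Γ | (γ : GL (Fin 2) ℂ) • w ∈ S}.Finite) :
    ∃ χ : H3 → ℝ, IsCutoff Γ χ ∧ (∀ w, χ w ≤ 1) ∧ ∀ w, w ∉ S → χ w = 0 := by
  refine ⟨fun w => (S.indicator (fun _ => (1 : ℝ≥0∞)) w * (mult Γ S w)⁻¹).toReal, ⟨?_, ?_, ?_⟩,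
    ?_, ?_⟩
  · exact (((measurable_const.indicator hS).mul (measurable_mult hS).inv)).ennreal_toReal
  · exact fun w => ENNReal.toReal_nonneg
  · intro w
    have e0 : mult Γ S w ≠ 0 := (lt_of_lt_of_le one_pos (one_le_mult (h1 w))).ne'
    have e1 : mult Γ S w ≠ ∞ := mult_ne_top (h2 w)
    have e2 : ∀ γ : Γ, S.indicator (fun _ => (1 : ℝ≥0∞)) ((γ : GL (Fin 2) ℂ) • w) *
        (mult Γ S ((γ : GL (Fin 2) ℂ) • w))⁻¹ =
        S.indicator (fun _ => (1 : ℝ≥0∞)) ((γ : GL (Fin 2) ℂ) • w) * (mult Γ S w)⁻¹ := fun γ => by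
      rw [mult_smul]
    have e3 : ∑' γ : Γ, S.indicator (fun _ => (1 : ℝ≥0∞)) ((γ : GL (Fin 2) ℂ) • w) *
        (mult Γ S ((γ : GL (Fin 2) ℂ) • w))⁻¹ = 1 := by
      rw [tsum_congr e2, ENNReal.tsum_mul_right]
      exact ENNReal.mul_inv_cancel e0 e1
    have e4 := ENNReal.hasSum_toReal (by rw [e3]; exact ENNReal.one_ne_top)
    have e5 : ∀ γ : Γ, S.indicator (fun _ => (1 : ℝ≥0∞)) ((γ : GL (Fin 2) ℂ) • w) *
        (mult Γ S ((γ : GL (Fin 2) ℂ) • w))⁻¹ ≠ ∞ := fun γ =>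
      ENNReal.ne_top_of_tsum_ne_top (by rw [e3]; exact ENNReal.one_ne_top) γ
    rwa [← ENNReal.tsum_toReal_eq e5, e3, ENNReal.toReal_one] at e4
  · intro w
    have h3 : S.indicator (fun _ => (1 : ℝ≥0∞)) w * (mult Γ S w)⁻¹ ≤ 1 := by
      have h4 : S.indicator (fun _ => (1 : ℝ≥0∞)) w ≤ 1 := Set.indicator_le_self' (by simp) w
      have h5 : (mult Γ S w)⁻¹ ≤ 1 := ENNReal.inv_le_one.mpr (one_le_mult (h1 w))
      exact mul_le_one' h4 h5
    have := ENNReal.toReal_mono ENNReal.one_ne_top h3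
    simpa using this
  · intro w hw
    show (S.indicator (fun _ => (1 : ℝ≥0∞)) w * (mult Γ S w)⁻¹).toReal = 0
    rw [Set.indicator_of_notMem hw, zero_mul, ENNReal.toReal_zero]

/-- **Existence of cut-offs** for finite index subgroups. -/
theorem EucOrder.exists_cutoff (hO : EucOrder O) {Γ : Subgroup (GL (Fin 2) ℂ)}
    (hΓ : FinIdx O Γ) : ∃ χ : H3 → ℝ, IsCutoff Γ χ ∧ (∀ w, χ w ≤ 1) ∧
      ∃ T : Finset (GL (Fin 2) ℂ), (∀ δ ∈ T, δ ∈ SLO O) ∧ ∀ w, χ w ≠ 0 → ∃ δ ∈ T, δ • w ∈ S0 := by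
  obtain ⟨hle, T, hT, hT'⟩ := hΓ
  have := hO.countable_of_le hle
  obtain ⟨χ, h1, h2, h3⟩ := exists_cutoff_of_set (measurableSet_cutSet T)
    (fun w => hO.exists_mem_cutSet hT' w) (fun w => hO.finite_cut hle hT w)
  refine ⟨χ, h1, h2, T, hT, fun w hw => ?_⟩
  by_contra hcon
  exact hw (h3 w hcon)

/-! ### Integrability -/

theorem IsCutoff.tsum_ofReal {Γ : Subgroup (GL (Fin 2) ℂ)} {χ : H3 → ℝ} (hχ : IsCutoff Γ χ)
    (w : H3) : ∑' g : Γ, ENNReal.ofReal (χ ((g : GL (Fin 2) ℂ) • w)) = 1 := by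
  rw [← ENNReal.ofReal_tsum_of_nonneg (fun g => hχ.nonneg _) (hχ.hasSum w).summable,
    (hχ.hasSum w).tsum_eq, ENNReal.ofReal_one]

theorem IsCutoff.tsum_ofReal_inv {Γ : Subgroup (GL (Fin 2) ℂ)} {χ : H3 → ℝ} (hχ : IsCutoff Γ χ)
    (w : H3) : ∑' g : Γ, ENNReal.ofReal (χ ((g : GL (Fin 2) ℂ)⁻¹ • w)) = 1 := by
  rw [← hχ.tsum_ofReal w, ← (Equiv.inv Γ).tsum_eq (fun g : Γ =>
    ENNReal.ofReal (χ ((g : GL (Fin 2) ℂ) • w)))]
  refine tsum_congr fun g => ?_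
  rw [Equiv.inv_apply, Subgroup.coe_inv]

/-- **Comparison of cut-offs**: if `1 ≤ ∑ ψ (γ w)` then `∫ χ F ≤ ∫ ψ F` for `Γ`-invariant `F ≥ 0`. -/
theorem IsCutoff.lintegral_le {Γ : Subgroup (GL (Fin 2) ℂ)} [Countable Γ] {χ : H3 → ℝ}
    (hχ : IsCutoff Γ χ) {ψ : H3 → ℝ≥0∞} (hψ : Measurable ψ)
    (h1 : ∀ w, 1 ≤ ∑' g : Γ, ψ ((g : GL (Fin 2) ℂ) • w)) {F : H3 → ℝ≥0∞} (hF : Measurable F)
    (hinv : ∀ g ∈ Γ, ∀ w, F (g • w) = F w) :
    ∫⁻ w, ENNReal.ofReal (χ w) * F w ≤ ∫⁻ w, ψ w * F w := by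
  have hχm : Measurable fun w => ENNReal.ofReal (χ w) := hχ.meas.ennreal_ofReal
  calc ∫⁻ w, ENNReal.ofReal (χ w) * F w
      ≤ ∫⁻ w, ∑' g : Γ, ψ ((g : GL (Fin 2) ℂ) • w) * (ENNReal.ofReal (χ w) * F w) := by
        refine lintegral_mono fun w => ?_
        rw [ENNReal.tsum_mul_right]
        exact le_mul_of_one_le_left zero_le (h1 w)
    _ = ∑' g : Γ, ∫⁻ w, ψ ((g : GL (Fin 2) ℂ) • w) * (ENNReal.ofReal (χ w) * F w) :=
        lintegral_tsum fun g => ((hψ.comp (continuous_const_smul (g : GL (Fin 2) ℂ)).measurable).mul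
          (hχm.mul hF)).aemeasurable
    _ = ∑' g : Γ, ∫⁻ w, ψ w * (ENNReal.ofReal (χ ((g : GL (Fin 2) ℂ)⁻¹ • w)) * F w) := by
        refine tsum_congr fun g => ?_
        have h2 := (H3.measurePreserving_smul (g : GL (Fin 2) ℂ)).lintegral_comp
          (f := fun w => ψ w * (ENNReal.ofReal (χ ((g : GL (Fin 2) ℂ)⁻¹ • w)) * F w))
          (hψ.mul ((hχm.comp (continuous_const_smul _).measurable).mul hF))
        rw [← h2]
        refine lintegral_congr fun w => ?_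
        rw [inv_smul_smul, hinv _ g.2]
    _ = ∫⁻ w, ∑' g : Γ, ψ w * (ENNReal.ofReal (χ ((g : GL (Fin 2) ℂ)⁻¹ • w)) * F w) :=
        (lintegral_tsum fun g => (hψ.mul ((hχm.comp
          (continuous_const_smul _).measurable).mul hF)).aemeasurable).symm
    _ = ∫⁻ w, ψ w * F w := by
        refine lintegral_congr fun w => ?_
        rw [ENNReal.tsum_mul_left, ENNReal.tsum_mul_right, hχ.tsum_ofReal_inv, one_mul]

/-- Independence of the cut-off, `F ≥ 0`. -/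
theorem IsCutoff.lintegral_eq {Γ : Subgroup (GL (Fin 2) ℂ)} [Countable Γ] {χ χ' : H3 → ℝ}
    (hχ : IsCutoff Γ χ) (hχ' : IsCutoff Γ χ') {F : H3 → ℝ≥0∞} (hF : Measurable F)
    (hinv : ∀ g ∈ Γ, ∀ w, F (g • w) = F w) :
    ∫⁻ w, ENNReal.ofReal (χ w) * F w = ∫⁻ w, ENNReal.ofReal (χ' w) * F w :=
  le_antisymm
    (hχ.lintegral_le hχ'.meas.ennreal_ofReal (fun w => (hχ'.tsum_ofReal w).ge) hF hinv)
    (hχ'.lintegral_le hχ.meas.ennreal_ofReal (fun w => (hχ.tsum_ofReal w).ge) hF hinv)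

theorem EucOrder.lintegral_cut_le (hO : EucOrder O) {Γ : Subgroup (GL (Fin 2) ℂ)}
    (hΓ : Γ ≤ SLO O) {T : Finset (GL (Fin 2) ℂ)}
    (hT : ∀ g ∈ SLO O, ∃ δ ∈ T, ∃ γ ∈ Γ, g = δ * γ) {χ : H3 → ℝ} (hχ : IsCutoff Γ χ)
    {F : H3 → ℝ≥0∞} (hF : Measurable F) (hinv : ∀ g ∈ Γ, ∀ w, F (g • w) = F w) :
    ∫⁻ w, ENNReal.ofReal (χ w) * F w ≤ ∫⁻ w in cutSet T, F w := by
  have := hO.countable_of_le hΓ
  have h1 := hχ.lintegral_le (ψ := (cutSet T).indicator fun _ => 1)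
    (measurable_const.indicator (measurableSet_cutSet T))
    (fun w => one_le_mult (hO.exists_mem_cutSet hT w)) hF hinv
  refine h1.trans (le_of_eq ?_)
  rw [← lintegral_indicator (measurableSet_cutSet T)]
  refine lintegral_congr fun w => ?_
  by_cases h : w ∈ cutSet T
  · rw [Set.indicator_of_mem h, Set.indicator_of_mem h, one_mul]
  · rw [Set.indicator_of_notMem h, Set.indicator_of_notMem h, zero_mul]

theorem EucOrder.rpow_ht_le (hO : EucOrder O) (a : ℝ) : ∃ K : ℝ, 0 ≤ K ∧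
    ∀ w ∈ Sieg (1 / 3) (4 / 5), ht O w ^ a ≤ K * w.y ^ a := by
  refine ⟨(max 1 (1 / (4 / 5 : ℝ) ^ 2)) ^ |a|, by positivity, fun w hw => ?_⟩
  have h1 := hO.ht_le_of_mem (R := 1 / 3) (t := 4 / 5) (by norm_num) hw
  have h2 := hO.y_le_ht w
  have hy := w.pos
  have hK : (1 : ℝ) ≤ max 1 (1 / (4 / 5 : ℝ) ^ 2) := le_max_left _ _
  rcases le_total 0 a with ha | ha
  · calc ht O w ^ a ≤ (max 1 (1 / (4 / 5 : ℝ) ^ 2) * w.y) ^ a :=
          Real.rpow_le_rpow (hO.ht_pos w).le h1 ha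
      _ = _ := by rw [Real.mul_rpow (by positivity) hy.le, abs_of_nonneg ha]
  · calc ht O w ^ a ≤ w.y ^ a := Real.rpow_le_rpow_of_nonpos hy h2 ha
      _ ≤ _ := le_mul_of_one_le_left (by positivity)
          (Real.one_le_rpow hK (abs_nonneg a))

/-- `∫ ht^a` over the translates of the fundamental set is finite for `a < 2`. -/
theorem EucOrder.lintegral_cutSet_lt_top (hO : EucOrder O) {T : Finset (GL (Fin 2) ℂ)}
    (hT : ∀ δ ∈ T, δ ∈ SLO O) {a : ℝ} (ha : a < 2) :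
    ∫⁻ w in cutSet T, ENNReal.ofReal (ht O w ^ a) < ∞ := by
  have h0 : cutSet T ⊆ ⋃ δ : T, (fun w : H3 => (δ : GL (Fin 2) ℂ) • w) ⁻¹'
      Sieg (1 / 3) (4 / 5) := by
    rintro w ⟨δ, hδ, h⟩
    exact Set.mem_iUnion.mpr ⟨⟨δ, hδ⟩, S0_subset h⟩
  refine (lintegral_mono_set h0).trans_lt ?_
  refine (lintegral_iUnion_le _ _).trans_lt ?_
  rw [tsum_fintype]
  refine ENNReal.sum_lt_top.mpr fun δ' _ => ?_
  obtain ⟨δ, hδ⟩ := δ'
  have hm : Measurable fun w => ENNReal.ofReal (ht O w ^ a) :=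
    (hO.measurable_ht.pow_const a).ennreal_ofReal
  have h1 : ∫⁻ w in (fun w : H3 => δ • w) ⁻¹' Sieg (1 / 3) (4 / 5), ENNReal.ofReal (ht O w ^ a) =
      ∫⁻ w in Sieg (1 / 3) (4 / 5), ENNReal.ofReal (ht O w ^ a) := by
    rw [← (H3.measurePreserving_smul δ).setLIntegral_comp_preimage (measurableSet_Sieg _ _) hm]
    refine lintegral_congr fun w => ?_
    rw [ht_smul (hT δ hδ)]
  rw [h1]
  obtain ⟨K, hK, h2⟩ := hO.rpow_ht_le a
  calc ∫⁻ w in Sieg (1 / 3) (4 / 5), ENNReal.ofReal (ht O w ^ a)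
      ≤ ∫⁻ w in Sieg (1 / 3) (4 / 5), ENNReal.ofReal K * ENNReal.ofReal (w.y ^ a) := by
        refine setLIntegral_mono' (measurableSet_Sieg _ _) fun w hw => ?_
        rw [← ENNReal.ofReal_mul hK]
        exact ENNReal.ofReal_le_ofReal (h2 w hw)
    _ = ENNReal.ofReal K * ∫⁻ w in Sieg (1 / 3) (4 / 5), ENNReal.ofReal (w.y ^ a) :=
        lintegral_const_mul' _ _ ENNReal.ofReal_ne_top
    _ < ∞ := ENNReal.mul_lt_top ENNReal.ofReal_lt_top
        (lintegral_Sieg_lt_top _ (by norm_num) ha)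

theorem EucOrder.lintegral_cut_lt_top (hO : EucOrder O) {Γ : Subgroup (GL (Fin 2) ℂ)}
    (hΓ : FinIdx O Γ) {χ : H3 → ℝ} (hχ : IsCutoff Γ χ) {a : ℝ} (ha : a < 2) :
    ∫⁻ w, ENNReal.ofReal (χ w) * ENNReal.ofReal (ht O w ^ a) < ∞ := by
  obtain ⟨hle, T, hT, hT'⟩ := hΓ
  refine (hO.lintegral_cut_le hle hT' hχ ((hO.measurable_ht.pow_const a).ennreal_ofReal)
    fun g hg w => ?_).trans_lt (hO.lintegral_cutSet_lt_top hT ha)
  rw [ht_smul (hle hg)]

variable {E : Type*} [NormedAddCommGroup E] [NormedSpace ℝ E]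

/-- **Integrability**: `χ f` is integrable for every cut-off `χ` if `‖f‖ ≤ C ht^a`, `a < 2`. -/
theorem EucOrder.integrable_cut (hO : EucOrder O) {Γ : Subgroup (GL (Fin 2) ℂ)}
    (hΓ : FinIdx O Γ) {χ : H3 → ℝ} (hχ : IsCutoff Γ χ) {f : H3 → E}
    (hf : AEStronglyMeasurable f volume) {a C : ℝ} (ha : a < 2)
    (hC : ∀ w, ‖f w‖ ≤ C * ht O w ^ a) : Integrable (fun w => χ w • f w) := by
  have hC0 : 0 ≤ C := by
    have h1 := (norm_nonneg _).trans (hC H3.base)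
    have h2 : 0 < ht O H3.base ^ a := Real.rpow_pos_of_pos (hO.ht_pos _) a
    exact nonneg_of_mul_nonneg_left h1 h2
  refine ⟨hχ.meas.aestronglyMeasurable.smul hf, ?_⟩
  rw [hasFiniteIntegral_iff_norm]
  calc ∫⁻ w, ENNReal.ofReal ‖χ w • f w‖
      ≤ ∫⁻ w, ENNReal.ofReal C * (ENNReal.ofReal (χ w) * ENNReal.ofReal (ht O w ^ a)) := by
        refine lintegral_mono fun w => ?_
        rw [← ENNReal.ofReal_mul (hχ.nonneg w), ← ENNReal.ofReal_mul hC0]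
        refine ENNReal.ofReal_le_ofReal ?_
        rw [norm_smul, Real.norm_of_nonneg (hχ.nonneg w)]
        nlinarith [hC w, hχ.nonneg w]
    _ = ENNReal.ofReal C * ∫⁻ w, ENNReal.ofReal (χ w) * ENNReal.ofReal (ht O w ^ a) :=
        lintegral_const_mul' _ _ ENNReal.ofReal_ne_top
    _ < ∞ := ENNReal.mul_lt_top ENNReal.ofReal_lt_top (hO.lintegral_cut_lt_top hΓ hχ ha)

theorem EucOrder.integrable_cut_one (hO : EucOrder O) {Γ : Subgroup (GL (Fin 2) ℂ)}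
    (hΓ : FinIdx O Γ) {χ : H3 → ℝ} (hχ : IsCutoff Γ χ) : Integrable χ := by
  have h := hO.integrable_cut hΓ hχ (f := fun _ => (1 : ℝ)) aestronglyMeasurable_const
    (a := 0) (C := 1) (by norm_num) (fun w => by simp)
  simpa using h

/-- bounded functions -/
theorem EucOrder.integrable_cut_of_bounded (hO : EucOrder O) {Γ : Subgroup (GL (Fin 2) ℂ)}
    (hΓ : FinIdx O Γ) {χ : H3 → ℝ} (hχ : IsCutoff Γ χ) {f : H3 → E}
    (hf : AEStronglyMeasurable f volume) {C : ℝ} (hC : ∀ w, ‖f w‖ ≤ C) :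
    Integrable (fun w => χ w • f w) :=
  hO.integrable_cut hΓ hχ hf (a := 0) (C := C) (by norm_num) (fun w => by simpa using hC w)

theorem exists_rpow_mul_exp_le (B : ℝ) {c : ℝ} (hc : 0 < c) : ∃ K : ℝ, 0 ≤ K ∧
    ∀ t : ℝ, 4 / 5 ≤ t → t ^ B * Real.exp (-(c * t)) ≤ K := by
  obtain ⟨n, hn⟩ := exists_nat_ge B
  refine ⟨(4 / 5 : ℝ) ^ B * ((5 / 4) ^ n * (n.factorial / c ^ n)), by positivity, fun t ht => ?_⟩
  have ht0 : 0 < t := by linarith
  have h1 : t ^ B = (4 / 5 : ℝ) ^ B * (5 / 4 * t) ^ B := by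
    rw [← Real.mul_rpow (by norm_num) (by positivity)]
    congr 1
    ring
  have h2 : (5 / 4 * t) ^ B ≤ (5 / 4 * t) ^ n := by
    rw [← Real.rpow_natCast]
    exact Real.rpow_le_rpow_of_exponent_le (by linarith) hn
  have h3 : (c * t) ^ n / n.factorial ≤ Real.exp (c * t) :=
    Real.pow_div_factorial_le_exp (c * t) (by positivity) n
  have h4 : t ^ n * Real.exp (-(c * t)) ≤ n.factorial / c ^ n := by
    rw [Real.exp_neg, ← div_eq_mul_inv, div_le_div_iff₀ (Real.exp_pos _) (by positivity)]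
    rw [div_le_iff₀ (by positivity), mul_pow] at h3
    linarith
  have h5 := Real.exp_pos (-(c * t))
  calc t ^ B * Real.exp (-(c * t))
      = (4 / 5 : ℝ) ^ B * ((5 / 4 * t) ^ B * Real.exp (-(c * t))) := by rw [h1]; ring
    _ ≤ (4 / 5 : ℝ) ^ B * ((5 / 4 * t) ^ n * Real.exp (-(c * t))) := by gcongr
    _ = (4 / 5 : ℝ) ^ B * ((5 / 4) ^ n * (t ^ n * Real.exp (-(c * t)))) := by rw [mul_pow]; ring
    _ ≤ _ := by gcongr

theorem EucOrder.four_fifths_le_ht (hO : EucOrder O) (w : H3) : 4 / 5 ≤ ht O w := by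
  have h1 := hO.ht_sq_ge w
  have h2 := hO.ht_pos w
  nlinarith

/-- **Integrability**, rapidly decreasing times polynomial growth. -/
theorem EucOrder.integrable_cut_exp (hO : EucOrder O) {Γ : Subgroup (GL (Fin 2) ℂ)}
    (hΓ : FinIdx O Γ) {χ : H3 → ℝ} (hχ : IsCutoff Γ χ) {f : H3 → E}
    (hf : AEStronglyMeasurable f volume) {B C c : ℝ} (hc : 0 < c) (hC0 : 0 ≤ C)
    (hC : ∀ w, ‖f w‖ ≤ C * (ht O w ^ B * Real.exp (-(c * ht O w)))) :
    Integrable (fun w => χ w • f w) := by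
  obtain ⟨K, hK, h⟩ := exists_rpow_mul_exp_le B hc
  refine hO.integrable_cut_of_bounded hΓ hχ hf (C := C * K) fun w => (hC w).trans ?_
  exact mul_le_mul_of_nonneg_left (h _ (hO.four_fifths_le_ht w)) hC0

/-- **Decay from decay at the cusps.** -/
theorem EucOrder.decay_of_cusps (hO : EucOrder O) {Γ : Subgroup (GL (Fin 2) ℂ)}
    (hΓ : FinIdx O Γ) {F : H3 → E} (hF : ∀ g ∈ Γ, ∀ w, F (g • w) = F w) {φ : ℝ → ℝ}
    (hφ : ∀ y, 0 ≤ φ y)
    (h : ∀ δ ∈ SLO O, ∃ C, ∀ w : H3, 4 / 5 ≤ w.y → ‖F (δ • w)‖ ≤ C * φ w.y) :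
    ∃ C, 0 ≤ C ∧ ∀ w, ‖F w‖ ≤ C * φ (ht O w) := by
  obtain ⟨hle, T, hT, hT'⟩ := hΓ
  choose! C hC using h
  refine ⟨∑ δ ∈ T, |C δ⁻¹|, Finset.sum_nonneg fun _ _ => abs_nonneg _, fun w => ?_⟩
  obtain ⟨g, hg, h1, h2⟩ := hO.exists_mem_S0 w
  obtain ⟨δ, hδ, γ, hγ, rfl⟩ := hT' g hg
  have h3 : F w = F (δ⁻¹ • ((δ * γ) • w)) := by
    rw [mul_smul, inv_smul_smul, hF γ hγ]
  rw [h3, ← h2]
  refine (hC δ⁻¹ ((SLO O).inv_mem (hT δ hδ)) _ (S0_subset h1).2).trans ?_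
  refine mul_le_mul_of_nonneg_right ?_ (hφ _)
  exact (le_abs_self _).trans (Finset.single_le_sum (f := fun δ => |C δ⁻¹|)
    (fun _ _ => abs_nonneg _) hδ)

end Fermat.Agent.H47.Red
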