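import Mathlib

/-!
# Congruence property of theta kernels with two real characteristics

* `Gamma1(3)` is generated by `T` and `U = (1 0; 3 1)`;
* a function of two characteristics which transforms linearly under `T` and `U`
  transforms linearly under `Gamma1(3)`;
* consequence for `Gamma(6 n²)` and torsion characteristics.
-/

set_option autoImplicit false

noncomputable section

open Matrix MatrixGroups ModularGroup UpperHalfPlane CongruenceSubgroup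

namespace Fermat.Agent.H49T

/-- The lower triangular generator. -/
def U3 : SL(2, ℤ) := ⟨!![1, 0; 3, 1], by simp [Matrix.det_fin_two_of]⟩

theorem mul_entry (A B : SL(2, ℤ)) (i j : Fin 2) : (A * B) i j = A i 0 * B 0 j + A i 1 * B 1 j := by
  simp [Matrix.mul_apply, Fin.sum_univ_two]

theorem T_zpow_entry (k : ℤ) : (T ^ k) 0 0 = 1 ∧ (T ^ k) 0 1 = k ∧ (T ^ k) 1 0 = 0 ∧
    (T ^ k) 1 1 = 1 := by
  have h := ModularGroup.coe_T_zpow k
  refine ⟨?_, ?_, ?_, ?_⟩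
  · exact congrFun (congrFun h 0) 0
  · exact congrFun (congrFun h 0) 1
  · exact congrFun (congrFun h 1) 0
  · exact congrFun (congrFun h 1) 1

theorem U3_entry : U3 0 0 = 1 ∧ U3 0 1 = 0 ∧ U3 1 0 = 3 ∧ U3 1 1 = 1 := ⟨rfl, rfl, rfl, rfl⟩

/-- The inverse of `U3`. -/
def V3 : SL(2, ℤ) := ⟨!![1, 0; -3, 1], by simp [Matrix.det_fin_two_of]⟩

theorem U3_mul_V3 : U3 * V3 = 1 := by
  ext i j
  rw [mul_entry]
  fin_cases i <;> fin_cases j <;> simp [U3, V3]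

theorem U3_inv_entry : U3⁻¹ 0 0 = 1 ∧ U3⁻¹ 0 1 = 0 ∧ U3⁻¹ 1 0 = -3 ∧ U3⁻¹ 1 1 = 1 := by
  rw [inv_eq_of_mul_eq_one_right U3_mul_V3]
  exact ⟨rfl, rfl, rfl, rfl⟩

theorem U3_zpow_entry (k : ℤ) : (U3 ^ k) 0 0 = 1 ∧ (U3 ^ k) 0 1 = 0 ∧ (U3 ^ k) 1 0 = 3 * k ∧
    (U3 ^ k) 1 1 = 1 := by
  induction k using Int.induction_on with
  | zero => simp
  | succ n ih =>
    obtain ⟨h1, h2, h3, h4⟩ := ih
    obtain ⟨k1, k2, k3, k4⟩ := U3_entry
    rw [_root_.zpow_add_one]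
    simp only [mul_entry, h1, h2, h3, h4, k1, k2, k3, k4]
    refine ⟨?_, ?_, ?_, ?_⟩ <;> ring
  | pred n ih =>
    obtain ⟨h1, h2, h3, h4⟩ := ih
    obtain ⟨k1, k2, k3, k4⟩ := U3_inv_entry
    rw [_root_.zpow_sub_one]
    simp only [mul_entry, h1, h2, h3, h4, k1, k2, k3, k4]
    refine ⟨?_, ?_, ?_, ?_⟩ <;> ring

/-- Balanced division. -/
theorem exists_small_rem (d c : ℤ) (hc : c ≠ 0) : ∃ k : ℤ, 2 * |d + k * c| ≤ |c| := by
  have hpos : 0 < |c| := abs_pos.mpr hc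
  refine ⟨-(Int.sign c) * ((2 * d + |c|) / (2 * |c|)), ?_⟩
  have h1 : -(Int.sign c) * ((2 * d + |c|) / (2 * |c|)) * c = -(|c| * ((2 * d + |c|) / (2 * |c|))) := by
    have : Int.sign c * c = |c| := Int.sign_mul_self_eq_abs c
    calc -(Int.sign c) * ((2 * d + |c|) / (2 * |c|)) * c
        = -((Int.sign c * c) * ((2 * d + |c|) / (2 * |c|))) := by ring
      _ = _ := by rw [this]
  rw [h1]
  have h2 := Int.emod_add_mul_ediv (2 * d + |c|) (2 * |c|)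
  have h3 := Int.emod_nonneg (2 * d + |c|) (b := 2 * |c|) (by positivity)
  have h4 := Int.emod_lt_of_pos (2 * d + |c|) (b := 2 * |c|) (by positivity)
  have h5 : 2 * |d + -(|c| * ((2 * d + |c|) / (2 * |c|)))| =
      |2 * (d + -(|c| * ((2 * d + |c|) / (2 * |c|))))| := by
    rw [abs_mul]; simp
  rw [h5, abs_le]
  constructor <;> nlinarith [h2, h3, h4]

theorem mem_Gamma1_three {γ : SL(2, ℤ)} : γ ∈ Gamma1 3 ↔
    (3 : ℤ) ∣ γ 0 0 - 1 ∧ (3 : ℤ) ∣ γ 1 1 - 1 ∧ (3 : ℤ) ∣ γ 1 0 := by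
  rw [Gamma1_mem]
  have key : ∀ a b : ℤ, ((a : ZMod 3) = (b : ZMod 3)) ↔ (3 : ℤ) ∣ a - b := by
    intro a b
    rw [eq_comm]
    exact_mod_cast ZMod.intCast_eq_intCast_iff_dvd_sub b a 3
  have k1 := key (γ 0 0) 1
  have k2 := key (γ 1 1) 1
  have k3 := key (γ 1 0) 0
  simp only [Int.cast_one, Int.cast_zero, sub_zero] at k1 k2 k3
  rw [k1, k2, k3]

theorem T_mem_Gamma1_three : T ∈ Gamma1 3 := by
  rw [mem_Gamma1_three]
  simp [ModularGroup.coe_T]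

theorem U3_mem_Gamma1_three : U3 ∈ Gamma1 3 := by
  rw [mem_Gamma1_three]
  simp [U3]

/-- Euclidean algorithm: `Gamma1(3)` is generated by `T` and `U3`. -/
theorem Gamma1_three_le_closure : Gamma1 3 ≤ Subgroup.closure {T, U3} := by
  have hT : T ∈ Subgroup.closure ({T, U3} : Set SL(2, ℤ)) := Subgroup.subset_closure (by simp)
  have hU : U3 ∈ Subgroup.closure ({T, U3} : Set SL(2, ℤ)) := Subgroup.subset_closure (by simp)
  have key : ∀ (n : ℕ) (γ : SL(2, ℤ)), (γ 1 0).natAbs ≤ n → γ ∈ Gamma1 3 →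
      γ ∈ Subgroup.closure ({T, U3} : Set SL(2, ℤ)) := by
    intro n
    induction n using Nat.strong_induction_on with
    | _ n ih =>
      intro γ hn hγ
      by_cases hc : γ 1 0 = 0
      · -- upper triangular
        have hdet : γ 0 0 * γ 1 1 = 1 := by
          have := γ.det_coe
          rw [Matrix.det_fin_two, hc] at this
          simpa using this
        obtain ⟨h1, h2, h3⟩ := mem_Gamma1_three.mp hγ
        have hd : γ 1 1 = 1 := by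
          rcases Int.eq_one_or_neg_one_of_mul_eq_one' hdet with h | h
          · exact h.2
          · exfalso
            rw [h.2] at h2
            omega
        have ha : γ 0 0 = 1 := by rw [hd, mul_one] at hdet; exact hdet
        have : γ = T ^ (γ 0 1) := by
          obtain ⟨t1, t2, t3, t4⟩ := T_zpow_entry (γ 0 1)
          ext i j
          fin_cases i <;> fin_cases j
          · exact ha.trans t1.symm
          · exact t2.symm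
          · exact hc.trans t3.symm
          · exact hd.trans t4.symm
        rw [this]
        exact Subgroup.zpow_mem _ hT _
      · obtain ⟨k, hk⟩ := exists_small_rem (γ 1 1) (γ 1 0) hc
        set γ1 := γ * T ^ k with hγ1
        obtain ⟨t1, t2, t3, t4⟩ := T_zpow_entry k
        have e10 : γ1 1 0 = γ 1 0 := by
          rw [hγ1, mul_entry, t1, t3]
          ring
        have e11 : γ1 1 1 = γ 1 1 + k * γ 1 0 := by
          rw [hγ1, mul_entry, t2, t4]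
          ring
        have hγ1mem : γ1 ∈ Gamma1 3 :=
          Subgroup.mul_mem _ hγ (Subgroup.zpow_mem _ T_mem_Gamma1_three _)
        have hd0 : γ1 1 1 ≠ 0 := by
          intro h0
          have h2 := (mem_Gamma1_three.mp hγ1mem).2.1
          rw [h0] at h2
          omega
        have hd0' : (3 : ℤ) * γ1 1 1 ≠ 0 := mul_ne_zero (by norm_num) hd0
        obtain ⟨m, hm⟩ := exists_small_rem (γ1 1 0) (3 * γ1 1 1) hd0'
        set γ2 := γ1 * U3 ^ m with hγ2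
        obtain ⟨u1, u2, u3, u4⟩ := U3_zpow_entry m
        have f10 : γ2 1 0 = γ1 1 0 + m * (3 * γ1 1 1) := by
          rw [hγ2, mul_entry, u1, u3]
          ring
        have hlt : (γ2 1 0).natAbs < n := by
          have h1 : 2 * |γ2 1 0| ≤ 3 * |γ1 1 1| := by
            rw [f10]
            calc 2 * |γ1 1 0 + m * (3 * γ1 1 1)| ≤ |3 * γ1 1 1| := hm
              _ = 3 * |γ1 1 1| := by rw [abs_mul]; simp
          have h2 : 2 * |γ1 1 1| ≤ |γ 1 0| := by rw [e11]; exact hk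
          have h3 : 0 < |γ 1 0| := abs_pos.mpr hc
          have h4 : |γ2 1 0| < |γ 1 0| := by linarith
          have h5 : (γ2 1 0).natAbs < (γ 1 0).natAbs := by
            rw [Int.abs_eq_natAbs, Int.abs_eq_natAbs] at h4
            exact_mod_cast h4
          exact lt_of_lt_of_le h5 hn
        have hγ2mem : γ2 ∈ Gamma1 3 :=
          Subgroup.mul_mem _ hγ1mem (Subgroup.zpow_mem _ U3_mem_Gamma1_three _)
        have h := ih _ hlt γ2 le_rfl hγ2mem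
        have hγ : γ = γ2 * (U3 ^ m)⁻¹ * (T ^ k)⁻¹ := by
          rw [hγ2, hγ1]; group
        rw [hγ]
        exact Subgroup.mul_mem _ (Subgroup.mul_mem _ h
          (Subgroup.inv_mem _ (Subgroup.zpow_mem _ hU _)))
          (Subgroup.inv_mem _ (Subgroup.zpow_mem _ hT _))
  intro γ hγ
  exact key _ γ le_rfl hγ

/-! ### The automorphy factor -/

/-- The automorphy factor `c τ + d`. -/
def jf (γ : SL(2, ℤ)) (τ : ℍ) : ℂ := (γ 1 0 : ℂ) * τ + (γ 1 1 : ℂ)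

theorem jf_eq_denom (γ : SL(2, ℤ)) (τ : ℍ) : jf γ τ = denom γ τ := by
  rw [jf, ModularGroup.denom_apply]

theorem jf_ne_zero (γ : SL(2, ℤ)) (τ : ℍ) : jf γ τ ≠ 0 := by
  rw [jf_eq_denom]
  exact denom_ne_zero _ _

theorem coe_smul' (γ : SL(2, ℤ)) (τ : ℍ) :
    ((γ • τ : ℍ) : ℂ) = ((γ 0 0 : ℂ) * τ + (γ 0 1 : ℂ)) / jf γ τ := by
  rw [jf, UpperHalfPlane.specialLinearGroup_apply]
  simp

theorem jf_mul (γ γ' : SL(2, ℤ)) (τ : ℍ) : jf (γ * γ') τ = jf γ (γ' • τ) * jf γ' τ := by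
  have h := jf_ne_zero γ' τ
  rw [jf, jf, coe_smul', mul_entry, mul_entry]
  rw [add_mul, mul_assoc, div_mul_cancel₀ _ h, jf]
  push_cast
  ring

theorem jf_one (τ : ℍ) : jf 1 τ = 1 := by simp [jf]

theorem jf_inv (γ : SL(2, ℤ)) (τ : ℍ) : jf γ (γ⁻¹ • τ) * jf γ⁻¹ τ = 1 := by
  rw [← jf_mul, mul_inv_cancel, jf_one]

theorem jf_T (τ : ℍ) : jf T τ = 1 := by simp [jf, ModularGroup.coe_T]

section Linear

variable {V : Type*} [AddCommGroup V]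

/-- Property: `Th` transforms linearly under `γ`. -/
def LinTrans (Th : V → V → ℍ → ℂ) (γ : SL(2, ℤ)) : Prop :=
  ∀ (l m : V) (τ : ℍ), Th l m (γ • τ) =
    jf γ τ * Th (γ 0 0 • l + γ 1 0 • m) (γ 0 1 • l + γ 1 1 • m) τ

theorem linTrans_one (Th : V → V → ℍ → ℂ) : LinTrans Th 1 := by
  intro l m τ
  simp [jf_one]

theorem LinTrans.mul {Th : V → V → ℍ → ℂ} {γ γ' : SL(2, ℤ)} (h : LinTrans Th γ)
    (h' : LinTrans Th γ') : LinTrans Th (γ * γ') := by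
  intro l m τ
  rw [mul_smul, h, h', jf_mul]
  simp only [mul_entry]
  rw [mul_assoc]
  congr 2
  congr 1
  · simp only [smul_add, smul_smul, add_smul]
    rw [mul_comm (γ' 0 0), mul_comm (γ' 0 0), mul_comm (γ' 1 0), mul_comm (γ' 1 0)]
    abel
  · simp only [smul_add, smul_smul, add_smul]
    rw [mul_comm (γ' 0 1), mul_comm (γ' 0 1), mul_comm (γ' 1 1), mul_comm (γ' 1 1)]
    abel

theorem LinTrans.inv {Th : V → V → ℍ → ℂ} {γ : SL(2, ℤ)} (h : LinTrans Th γ) :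
    LinTrans Th γ⁻¹ := by
  intro l m τ
  have h1 := h (γ⁻¹ 0 0 • l + γ⁻¹ 1 0 • m) (γ⁻¹ 0 1 • l + γ⁻¹ 1 1 • m) (γ⁻¹ • τ)
  have e1 : γ 0 0 • (γ⁻¹ 0 0 • l + γ⁻¹ 1 0 • m) + γ 1 0 • (γ⁻¹ 0 1 • l + γ⁻¹ 1 1 • m) = l := by
    have a1 := mul_entry γ⁻¹ γ 0 0
    have a2 := mul_entry γ⁻¹ γ 1 0
    rw [inv_mul_cancel] at a1 a2
    have b1 : (1 : SL(2, ℤ)) 0 0 = 1 := rfl
    have b2 : (1 : SL(2, ℤ)) 1 0 = 0 := rfl
    rw [b1] at a1
    rw [b2] at a2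
    calc γ 0 0 • (γ⁻¹ 0 0 • l + γ⁻¹ 1 0 • m) + γ 1 0 • (γ⁻¹ 0 1 • l + γ⁻¹ 1 1 • m)
        = (γ⁻¹ 0 0 * γ 0 0 + γ⁻¹ 0 1 * γ 1 0) • l + (γ⁻¹ 1 0 * γ 0 0 + γ⁻¹ 1 1 * γ 1 0) • m := by
          simp only [smul_add, smul_smul, add_smul]
          rw [mul_comm (γ 0 0), mul_comm (γ 0 0), mul_comm (γ 1 0), mul_comm (γ 1 0)]
          abel
      _ = l := by rw [← a1, ← a2]; simp
  have e2 : γ 0 1 • (γ⁻¹ 0 0 • l + γ⁻¹ 1 0 • m) + γ 1 1 • (γ⁻¹ 0 1 • l + γ⁻¹ 1 1 • m) = m := by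
    have a1 := mul_entry γ⁻¹ γ 0 1
    have a2 := mul_entry γ⁻¹ γ 1 1
    rw [inv_mul_cancel] at a1 a2
    have b1 : (1 : SL(2, ℤ)) 0 1 = 0 := rfl
    have b2 : (1 : SL(2, ℤ)) 1 1 = 1 := rfl
    rw [b1] at a1
    rw [b2] at a2
    calc γ 0 1 • (γ⁻¹ 0 0 • l + γ⁻¹ 1 0 • m) + γ 1 1 • (γ⁻¹ 0 1 • l + γ⁻¹ 1 1 • m)
        = (γ⁻¹ 0 0 * γ 0 1 + γ⁻¹ 0 1 * γ 1 1) • l + (γ⁻¹ 1 0 * γ 0 1 + γ⁻¹ 1 1 * γ 1 1) • m := by
          simp only [smul_add, smul_smul, add_smul]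
          rw [mul_comm (γ 0 1), mul_comm (γ 0 1), mul_comm (γ 1 1), mul_comm (γ 1 1)]
          abel
      _ = m := by rw [← a1, ← a2]; simp
  rw [e1, e2, smul_inv_smul] at h1
  rw [h1, ← mul_assoc, mul_comm (jf γ⁻¹ τ), jf_inv, one_mul]

/-- Linear transformation law for all of `Gamma1(3)` from the generators. -/
theorem linTrans_Gamma1_three {Th : V → V → ℍ → ℂ} (hT : LinTrans Th T) (hU : LinTrans Th U3)
    {γ : SL(2, ℤ)} (hγ : γ ∈ Gamma1 3) : LinTrans Th γ := by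
  have h := Gamma1_three_le_closure hγ
  clear hγ
  induction h using Subgroup.closure_induction with
  | mem x hx =>
    rcases hx with rfl | hx
    · exact hT
    · rw [Set.mem_singleton_iff] at hx
      rw [hx]
      exact hU
  | one => exact linTrans_one Th
  | mul x y _ _ hx hy => exact hx.mul hy
  | inv x _ hx => exact hx.inv

/-- The linear law for `T` from invariance under `τ ↦ τ + 1`. -/
theorem linTrans_T {Th : V → V → ℍ → ℂ} (hT : ∀ l m τ, Th l m ((1 : ℝ) +ᵥ τ) = Th l (m + l) τ) :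
    LinTrans Th T := by
  intro l m τ
  obtain ⟨t1, t2, t3, t4⟩ := T_zpow_entry 1
  rw [zpow_one] at t1 t2 t3 t4
  rw [jf_T, t1, t2, t3, t4, modular_T_smul, hT]
  simp [add_comm]

theorem U3_eq : U3 = S * (T ^ (-3 : ℤ)) * S⁻¹ := by
  rw [eq_mul_inv_iff_mul_eq]
  obtain ⟨t1, t2, t3, t4⟩ := T_zpow_entry (-3)
  have s1 : S 0 0 = 0 := rfl
  have s2 : S 0 1 = -1 := rfl
  have s3 : S 1 0 = 1 := rfl
  have s4 : S 1 1 = 0 := rfl
  obtain ⟨u1, u2, u3, u4⟩ := U3_entry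
  ext i j
  rw [mul_entry, mul_entry]
  fin_cases i <;> fin_cases j
  · change U3 0 0 * S 0 0 + U3 0 1 * S 1 0 = S 0 0 * (T ^ (-3 : ℤ)) 0 0 + S 0 1 * (T ^ (-3 : ℤ)) 1 0
    rw [s1, s2, s3, u1, u2, t1, t3]; norm_num
  · change U3 0 0 * S 0 1 + U3 0 1 * S 1 1 = S 0 0 * (T ^ (-3 : ℤ)) 0 1 + S 0 1 * (T ^ (-3 : ℤ)) 1 1
    rw [s1, s2, s4, u1, u2, t2, t4]; norm_num
  · change U3 1 0 * S 0 0 + U3 1 1 * S 1 0 = S 1 0 * (T ^ (-3 : ℤ)) 0 0 + S 1 1 * (T ^ (-3 : ℤ)) 1 0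
    rw [s1, s3, s4, u3, u4, t1, t3]; norm_num
  · change U3 1 0 * S 0 1 + U3 1 1 * S 1 1 = S 1 0 * (T ^ (-3 : ℤ)) 0 1 + S 1 1 * (T ^ (-3 : ℤ)) 1 1
    rw [s2, s3, s4, u3, u4, t2, t4]; norm_num

theorem S_smul_S_smul (τ : ℍ) : S • (S • τ) = τ := by
  ext
  rw [modular_S_smul, modular_S_smul]
  simp

/-- The linear law for `U3` from the inversion formulas for a pair of theta functions. -/
theorem linTrans_U3 {Th Th' : V → V → ℍ → ℂ} {c c' : ℂ} (hcc : c * c' = -1)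
    (hS : ∀ l m τ, Th l m (S • τ) = c * τ * Th' m (-l) τ)
    (hS' : ∀ l m τ, Th' l m (S • τ) = c' * τ * Th m (-l) τ)
    (hneg : ∀ l m τ, Th (-l) (-m) τ = Th l m τ)
    (hT3 : ∀ l m τ, Th' l m ((3 : ℝ) +ᵥ τ) = Th' l (m + (3 : ℤ) • l) τ) : LinTrans Th U3 := by
  have hT3' : ∀ l m τ, Th' l m (T ^ (-3 : ℤ) • τ) = Th' l (m - (3 : ℤ) • l) τ := by
    intro l m τ
    have h := hT3 l (m - (3 : ℤ) • l) (T ^ (-3 : ℤ) • τ)
    have e : ((3 : ℝ) +ᵥ (T ^ (-3 : ℤ) • τ) : ℍ) = τ := by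
      rw [modular_T_zpow_smul, vadd_vadd]
      norm_num
    rw [e, sub_add_cancel] at h
    exact h.symm
  have hSS : ∀ τ : ℍ, S⁻¹ • τ = S • τ := by
    intro τ
    rw [inv_smul_eq_iff, S_smul_S_smul]
  intro l m τ
  have h1 : U3 • τ = S • (T ^ (-3 : ℤ) • (S • τ)) := by
    rw [U3_eq, mul_smul, mul_smul, hSS]
  obtain ⟨u1, u2, u3, u4⟩ := U3_entry
  rw [h1, hS, hT3', hS', u1, u2, u3, u4]
  have h2 : ((T ^ (-3 : ℤ) • (S • τ) : ℍ) : ℂ) * τ = -(1 + 3 * τ) := by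
    have hτ : (τ : ℂ) ≠ 0 := τ.ne_zero
    rw [modular_T_zpow_smul, modular_S_smul]
    rw [UpperHalfPlane.coe_vadd]
    field_simp
    push_cast
    ring
  have h3 : jf U3 τ = 1 + 3 * τ := by
    rw [jf, u3, u4]
    push_cast
    ring
  have h4 : Th (-l - (3 : ℤ) • m) (-m) τ = Th (l + (3 : ℤ) • m) m τ := by
    rw [← hneg]
    congr 1
    · abel
    · exact neg_neg m
  rw [h4, h3]
  simp only [one_smul, zero_smul, zero_add]
  calc c * ((T ^ (-3 : ℤ) • (S • τ) : ℍ) : ℂ) * (c' * τ * Th (l + (3 : ℤ) • m) m τ)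
      = (c * c') * (((T ^ (-3 : ℤ) • (S • τ) : ℍ) : ℂ) * τ) * Th (l + (3 : ℤ) • m) m τ := by ring
    _ = (1 + 3 * τ) * Th (l + (3 : ℤ) • m) m τ := by rw [hcc, h2]; ring

/-- `e(x) = exp(2 π i x)`. -/
def ee (x : ℝ) : ℂ := Complex.exp (2 * Real.pi * Complex.I * x)

theorem ee_int (k : ℤ) : ee k = 1 := by
  rw [ee, Complex.exp_eq_one_iff]
  exact ⟨k, by push_cast; ring⟩

theorem Gamma_mem_int {M : ℕ} {γ : SL(2, ℤ)} (hγ : γ ∈ Gamma M) :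
    (∃ k : ℤ, γ 0 0 = 1 + M * k) ∧ (∃ k : ℤ, γ 0 1 = M * k) ∧ (∃ k : ℤ, γ 1 0 = M * k) ∧
      (∃ k : ℤ, γ 1 1 = 1 + M * k) := by
  rw [Gamma_mem] at hγ
  have key : ∀ a b : ℤ, ((a : ZMod M) = (b : ZMod M)) → ∃ k, a = b + M * k := by
    intro a b h
    obtain ⟨k, hk⟩ := (ZMod.intCast_eq_intCast_iff_dvd_sub b a M).mp h.symm
    exact ⟨k, by linarith⟩
  obtain ⟨h1, h2, h3, h4⟩ := hγ
  obtain ⟨k1, hk1⟩ := key (γ 0 0) 1 (by simpa using h1)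
  obtain ⟨k2, hk2⟩ := key (γ 0 1) 0 (by simpa using h2)
  obtain ⟨k3, hk3⟩ := key (γ 1 0) 0 (by simpa using h3)
  obtain ⟨k4, hk4⟩ := key (γ 1 1) 1 (by simpa using h4)
  exact ⟨⟨k1, hk1⟩, ⟨k2, by simpa using hk2⟩, ⟨k3, by simpa using hk3⟩, ⟨k4, hk4⟩⟩

/-- **Torsion characteristics** are fixed by `Gamma(6 n²)`. -/
theorem torsion_automorphy {Th : V → V → ℍ → ℂ} (hlin : ∀ γ ∈ Gamma1 3, LinTrans Th γ)
    (L L' : AddSubgroup V) (B : V →+ V →+ ℝ) (hsymm : ∀ x y, B x y = B y x)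
    (hLL' : ∀ x ∈ L', (3 : ℤ) • x ∈ L) (hB : ∀ x ∈ L, ∀ y ∈ L', ∃ k : ℤ, B x y = k)
    (hq : ∀ Y ∈ L, ∀ l m τ, Th (l + Y) m τ = ee (-(B Y m) / 2) * Th l m τ)
    (hq' : ∀ Y ∈ L', ∀ l m τ, Th l (m + Y) τ = ee (B l Y / 2) * Th l m τ)
    (n : ℕ) {l m : V} (hl : (n : ℤ) • l ∈ L') (hm : (n : ℤ) • m ∈ L')
    {γ : SL(2, ℤ)} (hγ : γ ∈ Gamma (6 * n ^ 2)) (τ : ℍ) :
    Th l m (γ • τ) = jf γ τ * Th l m τ := by
  obtain ⟨⟨a, ha⟩, ⟨b, hb⟩, ⟨c, hc⟩, ⟨d, hd⟩⟩ := Gamma_mem_int hγ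
  have hγ3 : γ ∈ Gamma1 3 := by
    rw [mem_Gamma1_three, ha, hc, hd]
    push_cast
    refine ⟨⟨2 * n ^ 2 * a, by ring⟩, ⟨2 * n ^ 2 * d, by ring⟩, ⟨2 * n ^ 2 * c, by ring⟩⟩
  rw [hlin γ hγ3]
  -- the translations
  set y1 : V := a • ((n : ℤ) • l) + c • ((n : ℤ) • m) with hy1
  set y2 : V := b • ((n : ℤ) • l) + d • ((n : ℤ) • m) with hy2
  have hy1m : y1 ∈ L' := L'.add_mem (L'.zsmul_mem hl _) (L'.zsmul_mem hm _)
  have hy2m : y2 ∈ L' := L'.add_mem (L'.zsmul_mem hl _) (L'.zsmul_mem hm _)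
  have e1 : γ 0 0 • l + γ 1 0 • m = l + (2 * n : ℤ) • ((3 : ℤ) • y1) := by
    rw [ha, hc, hy1]
    push_cast
    module
  have e2 : γ 0 1 • l + γ 1 1 • m = m + (2 * n : ℤ) • ((3 : ℤ) • y2) := by
    rw [hb, hd, hy2]
    push_cast
    module
  have hz1 : (3 : ℤ) • y1 ∈ L := hLL' _ hy1m
  have hz2 : (3 : ℤ) • y2 ∈ L := hLL' _ hy2m
  have hY1 : (2 * n : ℤ) • ((3 : ℤ) • y1) ∈ L := L.zsmul_mem hz1 _
  have hY2 : (2 * n : ℤ) • ((3 : ℤ) • y2) ∈ L' := L'.zsmul_mem (L'.zsmul_mem hy2m _) _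
  rw [e1, e2, hq _ hY1, hq' _ hY2]
  -- the phases
  have p1 : ee (-(B ((2 * n : ℤ) • ((3 : ℤ) • y1)) (m + (2 * n : ℤ) • ((3 : ℤ) • y2))) / 2) = 1 := by
    have hmem : (n : ℤ) • (m + (2 * n : ℤ) • ((3 : ℤ) • y2)) ∈ L' := by
      rw [smul_add]
      exact L'.add_mem hm (L'.zsmul_mem hY2 _)
    obtain ⟨k, hk⟩ := hB _ hz1 _ hmem
    have : -(B ((2 * n : ℤ) • ((3 : ℤ) • y1)) (m + (2 * n : ℤ) • ((3 : ℤ) • y2))) / 2 =
        ((-k : ℤ) : ℝ) := by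
      rw [map_zsmul] at hk
      rw [map_zsmul, AddMonoidHom.zsmul_apply] 
      rw [zsmul_eq_mul] at hk ⊢
      push_cast at hk ⊢
      rw [← hk]
      ring
    rw [this, ee_int]
  have p2 : ee (B l ((2 * n : ℤ) • ((3 : ℤ) • y2)) / 2) = 1 := by
    obtain ⟨k, hk⟩ := hB _ hz2 _ hl
    have : B l ((2 * n : ℤ) • ((3 : ℤ) • y2)) / 2 = ((k : ℤ) : ℝ) := by
      rw [← hk, map_zsmul, hsymm l, map_zsmul (B ((3 : ℤ) • y2))]
      rw [zsmul_eq_mul, zsmul_eq_mul]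
      push_cast
      ring
    rw [this, ee_int]
  rw [p1, p2, one_mul, one_mul]

end Linear

end Fermat.Agent.H49T
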