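import Fermat.Agent.H96TDef
import Fermat.Agent.H49T1

/-!
# Congruence property of the Siegel theta kernel of block (T)
-/

set_option autoImplicit false

noncomputable section

open Matrix MatrixGroups ModularGroup UpperHalfPlane CongruenceSubgroup
open scoped ComplexConjugate Real

namespace Fermat.Agent.H49T

open Fermat.Agent.S47T

/-- The real quadratic space. -/
abbrev VV : Type := ℝ × ℂ × ℝ

/-- The bilinear form. -/
def BB : VV →+ VV →+ ℝ :=
  AddMonoidHom.mk' (fun X => AddMonoidHom.mk'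
    (fun Y => 2 * (X.2.1 * conj Y.2.1).re - X.1 * Y.2.2 - Y.1 * X.2.2) (by
      intro Y Z
      simp only [Prod.fst_add, Prod.snd_add, map_add, mul_add, Complex.add_re]
      ring)) (by
    intro X Y
    ext Z
    simp only [AddMonoidHom.mk'_apply, AddMonoidHom.add_apply, Prod.fst_add, Prod.snd_add,
      add_mul, Complex.add_re]
    ring)

theorem BB_apply (X Y : VV) :
    BB X Y = 2 * (X.2.1 * conj Y.2.1).re - X.1 * Y.2.2 - Y.1 * X.2.2 := rfl

theorem BB_symm (X Y : VV) : BB X Y = BB Y X := by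
  rw [BB_apply, BB_apply]
  have h : (X.2.1 * conj Y.2.1).re = (Y.2.1 * conj X.2.1).re := by
    simp only [Complex.mul_re, Complex.conj_re, Complex.conj_im]
    ring
  rw [h]
  ring

/-- The quadratic form. -/
def QQ (X : VV) : ℝ := hQ X.1 X.2.1 X.2.2

theorem QQ_add (X Y : VV) : QQ (X + Y) = QQ X + BB X Y + QQ Y := by
  simp only [QQ, hQ, BB_apply, Prod.fst_add, Prod.snd_add, Complex.normSq_apply, Complex.add_re,
    Complex.add_im, Complex.mul_re, Complex.conj_re, Complex.conj_im]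
  ring

theorem BB_self (X : VV) : BB X X / 2 = QQ X := by
  simp only [QQ, hQ, BB_apply, Complex.normSq_apply, Complex.mul_re, Complex.conj_re,
    Complex.conj_im]
  ring

/-- The pairing with a point. -/
def PP (X : VV) (w : H3) : ℝ := pair X.1 X.2.1 X.2.2 w

/-- One term of the theta kernel. -/
def ker (τ : ℂ) (w : H3) (X : VV) : ℂ :=
  (Real.sqrt τ.im : ℝ) * (S47T.ee (τ * (QQ X : ℝ)) *
    (Real.exp (-4 * π * τ.im * (PP X w) ^ 2) : ℝ))

/-- The vector with index `x`, scale `n`. -/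
def vec (n : ℕ) (x : S47T.Lat) : VV := ((x.1 : ℝ) / n, ((x.2.1 : ℂ) / sq3) / n, (x.2.2 : ℝ) / n)

theorem QQ_vec (n : ℕ) (x : S47T.Lat) : QQ (vec n x) = qL x / n ^ 2 := by
  rw [QQ, vec, qL, hQ, hQ, Complex.normSq_div _ (n : ℂ), Complex.normSq_natCast]
  by_cases hn : (n : ℝ) = 0
  · rw [hn]; simp
  · field_simp

theorem PP_vec (n : ℕ) (x : S47T.Lat) (w : H3) : PP (vec n x) w = pL x w / n := by
  rw [PP, vec, pL, pair, pair]
  have h : (((x.2.1 : ℂ) / sq3 / n) * conj w.z).re = (((x.2.1 : ℂ) / sq3) * conj w.z).re / n := by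
    rw [div_mul_eq_mul_div, Complex.div_natCast_re]
  rw [h]
  by_cases hn : (n : ℝ) = 0
  · rw [hn]; simp
  · have := w.pos
    field_simp

theorem Theta_eq (n : ℕ) (φ : S47T.Lat → ℂ) (τ : ℂ) (w : H3) :
    Theta n φ τ w = ∑' x : S47T.Lat, φ x * ker τ w (vec n x) := by
  rw [Theta, ← tsum_mul_left]
  refine tsum_congr fun x => ?_
  rw [ker, QQ_vec, PP_vec]
  ring

/-! ### Lattices -/

/-- The index group of the lattices. -/
abbrev PI : Type := ℤ × (Fin 2 → ℤ) × ℤ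

/-- The embedding attached to a pair of complex numbers. -/
def embV (e : Fin 2 → ℂ) : PI →+ VV :=
  AddMonoidHom.mk' (fun p => ((p.1 : ℝ), (p.2.1 0 : ℂ) * e 0 + (p.2.1 1 : ℂ) * e 1, (p.2.2 : ℝ))) (by
    intro p q
    simp only [Prod.fst_add, Prod.snd_add, Pi.add_apply, Int.cast_add, Prod.mk_add_mk]
    refine Prod.ext rfl (Prod.ext ?_ rfl)
    simp only
    ring)

theorem embV_apply (e : Fin 2 → ℂ) (p : PI) :
    embV e p = ((p.1 : ℝ), (p.2.1 0 : ℂ) * e 0 + (p.2.1 1 : ℂ) * e 1, (p.2.2 : ℝ)) := rfl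

/-- The theta function with two real characteristics. -/
def Th (e : Fin 2 → ℂ) (w : H3) (l m : VV) (τ : ℍ) : ℂ :=
  ∑' p : PI, ker τ w (l + embV e p) * ee (BB (embV e p) m + BB l m / 2)

theorem ee_add (x y : ℝ) : ee (x + y) = ee x * ee y := by
  rw [ee, ee, ee, ← Complex.exp_add]
  congr 1
  push_cast
  ring

theorem Th_quasi1 (e : Fin 2 → ℂ) (w : H3) (q : PI) (l m : VV) (τ : ℍ) :
    Th e w (l + embV e q) m τ = ee (-(BB (embV e q) m) / 2) * Th e w l m τ := by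
  rw [Th, Th, ← tsum_mul_left]
  rw [← (Equiv.subRight q).tsum_eq]
  refine tsum_congr fun p => ?_
  rw [Equiv.subRight_apply, map_sub, add_add_sub_cancel, mul_left_comm, ← ee_add]
  congr 2
  rw [map_sub, map_add, AddMonoidHom.sub_apply, AddMonoidHom.add_apply]
  ring

theorem Th_quasi2 (e : Fin 2 → ℂ) (w : H3) {Y : VV} (hY : ∀ p : PI, ∃ k : ℤ, BB (embV e p) Y = k)
    (l m : VV) (τ : ℍ) :
    Th e w l (m + Y) τ = ee (BB l Y / 2) * Th e w l m τ := by
  rw [Th, Th, ← tsum_mul_left]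
  refine tsum_congr fun p => ?_
  obtain ⟨k, hk⟩ := hY p
  rw [mul_left_comm, ← ee_add, map_add, map_add, hk]
  have : BB (embV e p) m + (k : ℝ) + (BB l m + BB l Y) / 2 =
      (k : ℝ) + (BB l Y / 2 + (BB (embV e p) m + BB l m / 2)) := by ring
  rw [this, ee_add, ee_int, one_mul]

theorem ker_add (t : ℤ) (τ : ℍ) (w : H3) (X : VV) :
    ker (((t : ℝ) +ᵥ τ : ℍ) : ℂ) w X = ee (t * QQ X) * ker τ w X := by
  have him : (((t : ℝ) +ᵥ τ : ℍ) : ℂ).im = (τ : ℂ).im := by simp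
  rw [ker, ker, him]
  have h : S47T.ee ((((t : ℝ) +ᵥ τ : ℍ) : ℂ) * (QQ X : ℝ)) =
      ee (t * QQ X) * S47T.ee ((τ : ℂ) * (QQ X : ℝ)) := by
    rw [ee, S47T.ee, S47T.ee, ← Complex.exp_add, UpperHalfPlane.coe_vadd]
    congr 1
    push_cast
    ring
  rw [h]
  ring

theorem Th_T (e : Fin 2 → ℂ) (w : H3) (t : ℤ) (ht : ∀ p : PI, ∃ k : ℤ, t * QQ (embV e p) = k)
    (l m : VV) (τ : ℍ) :
    Th e w l m (((t : ℝ) +ᵥ τ : ℍ)) = Th e w l (m + t • l) τ := by
  rw [Th, Th]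
  refine tsum_congr fun p => ?_
  obtain ⟨k, hk⟩ := ht p
  rw [ker_add, mul_comm (ee _) (ker _ _ _), mul_assoc, ← ee_add]
  congr 1
  have h1 : (t : ℝ) * QQ (l + embV e p) + (BB (embV e p) m + BB l m / 2) =
      (k : ℝ) + (BB (embV e p) (m + t • l) + BB l (m + t • l) / 2) := by
    rw [← hk, QQ_add, map_add, map_add, map_zsmul, map_zsmul, zsmul_eq_mul, zsmul_eq_mul,
      ← BB_self l, BB_symm l (embV e p)]
    ring
  rw [h1, ee_add, ee_int, one_mul]

theorem ker_neg (τ : ℂ) (w : H3) (X : VV) : ker τ w (-X) = ker τ w X := by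
  have h1 : QQ (-X) = QQ X := by simp [QQ, hQ]
  have h2 : PP (-X) w = -PP X w := by
    simp only [PP, pair, Prod.fst_neg, Prod.snd_neg, neg_mul, Complex.neg_re]
    ring
  rw [ker, ker, h1, h2, neg_sq]

theorem Th_neg (e : Fin 2 → ℂ) (w : H3) (l m : VV) (τ : ℍ) : Th e w (-l) (-m) τ = Th e w l m τ := by
  rw [Th, Th, ← (Equiv.neg PI).tsum_eq]
  refine tsum_congr fun p => ?_
  rw [Equiv.neg_apply, map_neg, ← neg_add, ker_neg]
  congr 2
  simp only [map_neg, AddMonoidHom.neg_apply]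
  ring

/-! ### The two lattices -/

/-- Basis of `ℤ[ω]`. -/
def e1 : Fin 2 → ℂ := ![1, om]

/-- Dual basis. -/
def e2 : Fin 2 → ℂ := ![om / sq3, -1 / sq3]

theorem om_eq : om = (-1 / 2 : ℝ) + (Real.sqrt 3 / 2 : ℝ) * Complex.I := by
  rw [om, sq3]
  push_cast
  ring

theorem inv_sq3 : (1 : ℂ) / sq3 = -sq3 / 3 := by
  rw [div_eq_div_iff sq3_ne_zero (by norm_num)]
  linear_combination sq3_mul_sq3

/-- Pairing of the two lattices in coordinates. -/
theorem BB_emb (p q : PI) : BB (embV e1 p) (embV e2 q) =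
    ((p.2.1 0 * q.2.1 0 + p.2.1 1 * q.2.1 1 - p.1 * q.2.2 - q.1 * p.2.2 : ℤ) : ℝ) := by
  rw [BB_apply, embV_apply, embV_apply]
  have h : (2 * ((((p.2.1 0 : ℂ) * e1 0 + (p.2.1 1 : ℂ) * e1 1) *
      conj ((q.2.1 0 : ℂ) * e2 0 + (q.2.1 1 : ℂ) * e2 1)).re) : ℝ) =
      ((p.2.1 0 * q.2.1 0 + p.2.1 1 * q.2.1 1 : ℤ) : ℝ) := by
    have h2 : (((p.2.1 0 : ℂ) * e1 0 + (p.2.1 1 : ℂ) * e1 1) *
      conj ((q.2.1 0 : ℂ) * e2 0 + (q.2.1 1 : ℂ) * e2 1)) =
      ((p.2.1 0 : ℂ) + p.2.1 1 * om) * ((q.2.1 0 : ℂ) * (-1 - om) - q.2.1 1) * (sq3 / 3) := by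
      simp only [e1, e2, Matrix.cons_val_zero, Matrix.cons_val_one, mul_one]
      rw [div_eq_mul_one_div om sq3, div_eq_mul_one_div (-1 : ℂ) sq3, inv_sq3]
      simp only [map_add, map_mul, map_intCast, map_div₀, map_neg, conj_om, conj_sq3, map_ofNat,
        map_one]
      ring
    rw [h2, om_eq, sq3]
    simp only [Complex.mul_re, Complex.mul_im, Complex.add_re, Complex.add_im, Complex.sub_re,
      Complex.sub_im, Complex.neg_re, Complex.neg_im, Complex.intCast_re, Complex.intCast_im,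
      Complex.ofReal_re, Complex.ofReal_im, Complex.I_re, Complex.I_im, Complex.one_re,
      Complex.one_im, Complex.div_ofNat_re, Complex.div_ofNat_im]
    have h3 : Real.sqrt 3 * Real.sqrt 3 = 3 := Real.mul_self_sqrt (by norm_num)
    push_cast
    ring_nf
    have h4 : Real.sqrt 3 ^ 2 = 3 := by rw [sq, h3]
    rw [h4]
    ring
  rw [h]
  push_cast
  ring

theorem three_smul_e2 (p : PI) : (3 : ℤ) • embV e2 p =
    embV e1 (3 * p.1, ![2 * p.2.1 0 + p.2.1 1, p.2.1 0 + 2 * p.2.1 1], 3 * p.2.2) := by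
  rw [embV_apply, embV_apply]
  refine Prod.ext ?_ (Prod.ext ?_ ?_)
  · simp
  · change (3 : ℤ) • ((p.2.1 0 : ℂ) * e2 0 + (p.2.1 1 : ℂ) * e2 1) = _
    simp only [e1, e2, Matrix.cons_val_zero, Matrix.cons_val_one, mul_one, zsmul_eq_mul]
    rw [div_eq_mul_one_div om sq3, div_eq_mul_one_div (-1 : ℂ) sq3, inv_sq3, sq3_eq]
    push_cast
    linear_combination (-2 * (p.2.1 0 : ℂ)) * om_rel
  · simp

theorem QQ_e1 (p : PI) : ∃ k : ℤ, QQ (embV e1 p) = k := by
  refine ⟨(p.2.1 0) ^ 2 - (p.2.1 0) * (p.2.1 1) + (p.2.1 1) ^ 2 - p.1 * p.2.2, ?_⟩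
  rw [QQ, hQ, embV_apply]
  simp only [e1, Matrix.cons_val_zero, Matrix.cons_val_one, mul_one]
  rw [normSq_eis]
  push_cast
  ring

theorem QQ_e2 (p : PI) : ∃ k : ℤ, ((3 : ℤ) : ℝ) * QQ (embV e2 p) = k := by
  refine ⟨(p.2.1 0) ^ 2 + (p.2.1 0) * (p.2.1 1) + (p.2.1 1) ^ 2 - 3 * (p.1 * p.2.2), ?_⟩
  rw [QQ, hQ, embV_apply]
  simp only [e2, Matrix.cons_val_zero, Matrix.cons_val_one]
  have h : ((p.2.1 0 : ℂ) * (om / sq3) + (p.2.1 1 : ℂ) * (-1 / sq3)) =
      (((-(p.2.1 1) : ℤ) : ℂ) + ((p.2.1 0 : ℤ) : ℂ) * om) / sq3 := by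
    push_cast
    ring
  have hs : Complex.normSq sq3 = 3 := by
    have h1 : ((Complex.normSq sq3 : ℝ) : ℂ) = (3 : ℝ) := by
      rw [← Complex.mul_conj, conj_sq3]
      push_cast
      linear_combination -sq3_mul_sq3
    exact_mod_cast h1
  rw [h, Complex.normSq_div, normSq_eis, hs]
  push_cast
  ring

/-- The Poisson formula with two characteristics for the lattice with basis `e` and dual `f`. -/
def PoissonAt (e f : Fin 2 → ℂ) (w : H3) (c : ℂ) : Prop :=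
  ∀ (l m : VV) (τ : ℍ),
    ∑' p : PI, ker ((S • τ : ℍ) : ℂ) w (l + embV e p) * ee (BB (l + embV e p) m) =
      c * τ * ∑' p : PI, ker τ w (m + embV f p) * ee (-(BB l (embV f p)))

theorem Th_S {e f : Fin 2 → ℂ} {w : H3} {c : ℂ} (hP : PoissonAt e f w c) (l m : VV) (τ : ℍ) :
    Th e w l m (S • τ) = c * τ * Th f w m (-l) τ := by
  have h := hP l m τ
  have h1 : Th e w l m (S • τ) = ee (-(BB l m) / 2) *
      ∑' p : PI, ker ((S • τ : ℍ) : ℂ) w (l + embV e p) * ee (BB (l + embV e p) m) := by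
    rw [Th, ← tsum_mul_left]
    refine tsum_congr fun p => ?_
    rw [mul_left_comm, ← ee_add, map_add, AddMonoidHom.add_apply]
    congr 2
    ring
  rw [h1, h, mul_left_comm, Th, ← tsum_mul_left]
  congr 1
  refine tsum_congr fun p => ?_
  rw [mul_left_comm, ← ee_add, map_neg, map_neg, BB_symm l (embV f p), BB_symm m l]
  congr 2
  ring

/-- **Automorphy of torsion theta functions.** -/
theorem Th_automorphy {w : H3} {c c' : ℂ} (hP : PoissonAt e1 e2 w c) (hP' : PoissonAt e2 e1 w c')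
    (hcc : c * c' = -1) (n : ℕ) {l m : VV} (hl : (n : ℤ) • l ∈ (embV e2).range)
    (hm : (n : ℤ) • m ∈ (embV e2).range) {γ : SL(2, ℤ)} (hγ : γ ∈ Gamma (6 * n ^ 2)) (τ : ℍ) :
    Th e1 w l m (γ • τ) = jf γ τ * Th e1 w l m τ := by
  have hT : LinTrans (Th e1 w) T := by
    refine linTrans_T fun l m τ => ?_
    have h := Th_T e1 w 1 (fun p => by simpa using QQ_e1 p) l m τ
    simpa using h
  have hU : LinTrans (Th e1 w) U3 := by
    refine linTrans_U3 hcc (Th_S hP) (Th_S hP') (Th_neg e1 w) fun l m τ => ?_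
    have h := Th_T e2 w 3 (fun p => QQ_e2 p) l m τ
    simpa using h
  refine torsion_automorphy (fun γ hγ => linTrans_Gamma1_three hT hU hγ)
    (embV e1).range (embV e2).range BB BB_symm ?_ ?_ ?_ ?_ n hl hm hγ τ
  · rintro _ ⟨p, rfl⟩
    exact ⟨_, (three_smul_e2 p).symm⟩
  · rintro _ ⟨p, rfl⟩ _ ⟨q, rfl⟩
    exact ⟨_, BB_emb p q⟩
  · rintro _ ⟨p, rfl⟩ l m τ
    exact Th_quasi1 e1 w p l m τ
  · rintro _ ⟨q, rfl⟩ l m τ
    exact Th_quasi2 e1 w (fun p => ⟨_, BB_emb p q⟩) l m τ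

end Fermat.Agent.H49T
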