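import Fermat.Agent.H49T2

/-!
# Congruence property of the Siegel theta kernel of block (T), II

Class sums over `l + n L₁`, and general periodic test functions.
-/

set_option autoImplicit false

noncomputable section

open Matrix MatrixGroups ModularGroup UpperHalfPlane CongruenceSubgroup
open scoped ComplexConjugate Real

namespace Fermat.Agent.H49T

open Fermat.Agent.S47T (sq3 om Eis hQ pair qL pL Theta phiN omE sq3E)

/-! ### Orthogonality -/

theorem ee_zero : ee 0 = 1 := by simpa using ee_int 0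

theorem ee_nat_mul (j : ℕ) (x : ℝ) : ee (j * x) = ee x ^ j := by
  rw [ee, ee, ← Complex.exp_nat_mul]
  congr 1
  push_cast
  ring

theorem ee_eq_one_iff {x : ℝ} : ee x = 1 ↔ ∃ k : ℤ, x = k := by
  constructor
  · intro h
    rw [ee, Complex.exp_eq_one_iff] at h
    obtain ⟨k, hk⟩ := h
    refine ⟨k, ?_⟩
    have h2 : (2 * (π : ℂ) * Complex.I) ≠ 0 := by
      simp [Real.pi_ne_zero]
    have h3 : (x : ℂ) = (k : ℂ) := by
      apply mul_left_cancel₀ h2
      rw [hk]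
      ring
    exact_mod_cast h3
  · rintro ⟨k, rfl⟩
    exact ee_int k

theorem sum_ee (n : ℕ) (hn : 0 < n) (t : ℤ) :
    ∑ j : Fin n, ee ((j : ℕ) * ((t : ℝ) / n)) = if (n : ℤ) ∣ t then (n : ℂ) else 0 := by
  have hn' : (n : ℝ) ≠ 0 := by exact_mod_cast hn.ne'
  simp only [ee_nat_mul]
  rw [Fin.sum_univ_eq_sum_range (fun j => ee ((t : ℝ) / n) ^ j) n]
  split_ifs with h
  · obtain ⟨k, rfl⟩ := h
    have : ee (((n * k : ℤ) : ℝ) / n) = 1 := by
      rw [ee_eq_one_iff]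
      exact ⟨k, by push_cast; field_simp⟩
    rw [this]
    simp
  · have h1 : ee ((t : ℝ) / n) ≠ 1 := by
      intro h1
      obtain ⟨k, hk⟩ := ee_eq_one_iff.mp h1
      apply h
      refine ⟨k, ?_⟩
      rw [div_eq_iff hn'] at hk
      have : (t : ℝ) = ((n * k : ℤ) : ℝ) := by push_cast; linarith
      exact_mod_cast this
    have h2 : ee ((t : ℝ) / n) ^ n = 1 := by
      rw [← ee_nat_mul, mul_div_cancel₀ _ hn', ee_int]
    have h3 := mul_geom_sum (ee ((t : ℝ) / n)) n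
    rw [h2, sub_self] at h3
    exact (mul_eq_zero.mp h3).resolve_left (sub_ne_zero.mpr h1)

/-- The dual box. -/
abbrev Box (n : ℕ) : Type := Fin n × Fin n × Fin n × Fin n

/-- The integral vector with coordinates in the box. -/
def boxI {n : ℕ} (k : Box n) : PI :=
  (-((k.1 : ℕ) : ℤ), ![((k.2.1 : ℕ) : ℤ), ((k.2.2.1 : ℕ) : ℤ)], -((k.2.2.2 : ℕ) : ℤ))

/-- The dual characteristic. -/
def mu (n : ℕ) (k : Box n) : VV := (1 / n : ℝ) • embV e2 (boxI k)

theorem nsmul_mu {n : ℕ} (hn : 0 < n) (k : Box n) : (n : ℤ) • mu n k = embV e2 (boxI k) := by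
  have hn' : (n : ℝ) ≠ 0 := by exact_mod_cast hn.ne'
  rw [mu, ← Int.cast_smul_eq_zsmul ℝ, smul_smul]
  rw [Int.cast_natCast, mul_one_div_cancel hn', one_smul]

theorem BB_smul_right (X Y : VV) (t : ℝ) : BB X (t • Y) = t * BB X Y := by
  simp only [BB_apply, Prod.smul_fst, Prod.smul_snd, smul_eq_mul, Complex.real_smul, map_mul,
    Complex.conj_ofReal]
  have : (X.2.1 * ((t : ℂ) * conj Y.2.1)).re = t * (X.2.1 * conj Y.2.1).re := by
    rw [mul_left_comm, Complex.re_ofReal_mul]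
  rw [this]
  ring

theorem BB_mu {n : ℕ} (p : PI) (k : Box n) : BB (embV e1 p) (mu n k) =
    (k.1 : ℕ) * ((p.2.2 : ℝ) / n) + ((k.2.1 : ℕ) * ((p.2.1 0 : ℝ) / n) +
      ((k.2.2.1 : ℕ) * ((p.2.1 1 : ℝ) / n) + (k.2.2.2 : ℕ) * ((p.1 : ℝ) / n))) := by
  rw [mu, BB_smul_right, BB_emb]
  simp only [boxI, Matrix.cons_val_zero, Matrix.cons_val_one]
  push_cast
  ring

theorem orthogonality {n : ℕ} (hn : 0 < n) (p : PI) :
    ∑ k : Box n, ee (BB (embV e1 p) (mu n k)) =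
      if (n : ℤ) ∣ p.1 ∧ (n : ℤ) ∣ p.2.1 0 ∧ (n : ℤ) ∣ p.2.1 1 ∧ (n : ℤ) ∣ p.2.2 then
        (n : ℂ) ^ 4 else 0 := by
  simp only [BB_mu, ee_add]
  rw [Fintype.sum_prod_type]
  simp only [Fintype.sum_prod_type]
  simp only [← Finset.mul_sum, ← Finset.sum_mul]
  rw [sum_ee n hn, sum_ee n hn, sum_ee n hn, sum_ee n hn]
  by_cases h1 : (n : ℤ) ∣ p.1 <;> by_cases h2 : (n : ℤ) ∣ p.2.1 0 <;>
    by_cases h3 : (n : ℤ) ∣ p.2.1 1 <;> by_cases h4 : (n : ℤ) ∣ p.2.2 <;>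
    simp [h1, h2, h3, h4]
  ring

/-! ### Class sums -/

/-- The class sum over `l + n L₁`. -/
def cls (n : ℕ) (w : H3) (l : VV) (τ : ℍ) : ℂ := ∑' p : PI, ker τ w (l + embV e1 (n • p))

theorem nsmul_injective {n : ℕ} (hn : 0 < n) : Function.Injective (fun p : PI => n • p) := by
  intro p q h
  have h1 := congrArg Prod.fst h
  have h2 := congrArg (fun x : PI => x.2.1) h
  have h3 := congrArg (fun x : PI => x.2.2) h
  simp only [Prod.smul_fst, Prod.smul_snd] at h1 h2 h3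
  refine Prod.ext (smul_right_injective _ hn.ne' h1) (Prod.ext ?_ (smul_right_injective _ hn.ne' h3))
  funext i
  exact smul_right_injective _ hn.ne' (congrFun h2 i)

theorem mem_range_nsmul {n : ℕ} {p : PI} (h : (n : ℤ) ∣ p.1 ∧ (n : ℤ) ∣ p.2.1 0 ∧
    (n : ℤ) ∣ p.2.1 1 ∧ (n : ℤ) ∣ p.2.2) : p ∈ Set.range (fun p : PI => n • p) := by
  obtain ⟨⟨a, ha⟩, ⟨b, hb⟩, ⟨c, hc⟩, ⟨d, hd⟩⟩ := h
  refine ⟨(a, ![b, c], d), ?_⟩
  refine Prod.ext ?_ (Prod.ext ?_ ?_)
  · simp [ha]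
  · funext i
    fin_cases i
    · simp [hb]
    · simp [hc]
  · simp [hd]

theorem cls_eq {n : ℕ} (hn : 0 < n) {w : H3} {l : VV} {τ : ℍ}
    (hsum : Summable fun p : PI => ker τ w (l + embV e1 p)) :
    cls n w l τ = (1 / (n : ℂ) ^ 4) *
      ∑ k : Box n, ee (-(BB l (mu n k)) / 2) * Th e1 w l (mu n k) τ := by
  have hn' : (n : ℂ) ≠ 0 := by exact_mod_cast hn.ne'
  have h1 : ∀ k : Box n, ee (-(BB l (mu n k)) / 2) * Th e1 w l (mu n k) τ =
      ∑' p : PI, ker τ w (l + embV e1 p) * ee (BB (embV e1 p) (mu n k)) := by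
    intro k
    rw [Th, ← tsum_mul_left]
    refine tsum_congr fun p => ?_
    rw [mul_left_comm, ← ee_add]
    congr 2
    ring
  have h2 : ∀ k : Box n, Summable fun p : PI =>
      ker τ w (l + embV e1 p) * ee (BB (embV e1 p) (mu n k)) := by
    intro k
    refine Summable.of_norm ?_
    refine hsum.norm.congr fun p => ?_
    rw [norm_mul]
    have : ‖ee (BB (embV e1 p) (mu n k))‖ = 1 := by
      rw [ee, Complex.norm_exp]
      simp
    rw [this, mul_one]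
  simp only [h1]
  rw [← Summable.tsum_finsetSum fun k _ => h2 k]
  simp only [← Finset.mul_sum, orthogonality hn]
  rw [← tsum_mul_left, cls]
  have h3 : Function.support (fun p : PI => 1 / (n : ℂ) ^ 4 * (ker τ w (l + embV e1 p) *
      if (n : ℤ) ∣ p.1 ∧ (n : ℤ) ∣ p.2.1 0 ∧ (n : ℤ) ∣ p.2.1 1 ∧ (n : ℤ) ∣ p.2.2 then
        (n : ℂ) ^ 4 else 0)) ⊆ Set.range (fun p : PI => n • p) := by
    intro p hp
    by_contra hcon
    apply hp
    have : ¬ ((n : ℤ) ∣ p.1 ∧ (n : ℤ) ∣ p.2.1 0 ∧ (n : ℤ) ∣ p.2.1 1 ∧ (n : ℤ) ∣ p.2.2) :=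
      fun h => hcon (mem_range_nsmul h)
    simp only [if_neg this, mul_zero]
  rw [← (nsmul_injective hn).tsum_eq h3]
  refine tsum_congr fun p => ?_
  rw [if_pos]
  · field_simp
  · refine ⟨⟨p.1, ?_⟩, ⟨p.2.1 0, ?_⟩, ⟨p.2.1 1, ?_⟩, ⟨p.2.2, ?_⟩⟩ <;> simp

theorem cls_automorphy {w : H3} {c c' : ℂ} (hP : PoissonAt e1 e2 w c) (hP' : PoissonAt e2 e1 w c')
    (hcc : c * c' = -1) {n : ℕ} (hn : 0 < n) {l : VV}
    (hsum : ∀ τ : ℍ, Summable fun p : PI => ker τ w (l + embV e1 p))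
    (hl : (n : ℤ) • l ∈ (embV e2).range) {γ : SL(2, ℤ)} (hγ : γ ∈ Gamma (6 * n ^ 2)) (τ : ℍ) :
    cls n w l (γ • τ) = jf γ τ * cls n w l τ := by
  rw [cls_eq hn (hsum _), cls_eq hn (hsum _), mul_left_comm, Finset.mul_sum (a := jf γ τ)]
  congr 1
  refine Finset.sum_congr rfl fun k _ => ?_
  rw [Th_automorphy hP hP' hcc n hl ⟨boxI k, (nsmul_mu hn k).symm⟩ hγ]
  ring

/-! ### Periodic test functions -/

/-- The period lattice. -/
def per (k : ℕ) : PI →+ S47T.Lat :=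
  AddMonoidHom.mk' (fun p => ((k : ℤ) * p.1,
    (k : Eis) * (sq3E * ((p.2.1 0 : Eis) + (p.2.1 1 : Eis) * omE)), (k : ℤ) * p.2.2)) (by
    intro p q
    refine Prod.ext ?_ (Prod.ext ?_ ?_)
    · simp only [Prod.fst_add]
      ring
    · simp only [Prod.snd_add, Prod.fst_add, Pi.add_apply, Int.cast_add]
      ring
    · simp only [Prod.snd_add]
      ring)

theorem per_apply (k : ℕ) (p : PI) : per k p = ((k : ℤ) * p.1,
    (k : Eis) * (sq3E * ((p.2.1 0 : Eis) + (p.2.1 1 : Eis) * omE)), (k : ℤ) * p.2.2) := rfl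

theorem nsmul_entries (n : ℕ) (p : PI) : (n • p).1 = (n : ℤ) * p.1 ∧
    (n • p).2.1 0 = (n : ℤ) * p.2.1 0 ∧ (n • p).2.1 1 = (n : ℤ) * p.2.1 1 ∧
    (n • p).2.2 = (n : ℤ) * p.2.2 := by
  refine ⟨?_, ?_, ?_, ?_⟩
  · rw [Prod.smul_fst, nsmul_eq_mul]
  · rw [Prod.smul_snd, Prod.smul_fst, Pi.smul_apply, nsmul_eq_mul]
  · rw [Prod.smul_snd, Prod.smul_fst, Pi.smul_apply, nsmul_eq_mul]
  · rw [Prod.smul_snd, Prod.smul_snd, nsmul_eq_mul]

theorem vec_add_per {s : ℕ} (hs : 0 < s) (n : ℕ) (x : S47T.Lat) (p : PI) :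
    vec s (x + per (s * n) p) = vec s x + embV e1 (n • p) := by
  have hs' : (s : ℝ) ≠ 0 := by exact_mod_cast hs.ne'
  have hs'' : (s : ℂ) ≠ 0 := by exact_mod_cast hs.ne'
  have h3 := S47T.sq3_ne_zero
  obtain ⟨q1, q2, q3, q4⟩ := nsmul_entries n p
  rw [vec, vec, per_apply, embV_apply, q1, q2, q3, q4]
  refine Prod.ext ?_ (Prod.ext ?_ ?_)
  · simp only [Prod.fst_add, Prod.mk_add_mk]
    push_cast
    field_simp
  · simp only [Prod.snd_add, Prod.fst_add, Prod.mk_add_mk, e1,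
      Matrix.cons_val_zero, Matrix.cons_val_one, mul_one]
    push_cast
    rw [S47T.coe_sq3E, S47T.coe_omE]
    field_simp
  · simp only [Prod.snd_add, Prod.mk_add_mk]
    push_cast
    field_simp

theorem per_injective {k : ℕ} (hk : 0 < k) : Function.Injective (per k) := by
  have hk0 : (k : ℤ) ≠ 0 := by exact_mod_cast hk.ne'
  have hk1 : (k : ℂ) ≠ 0 := by exact_mod_cast hk.ne'
  intro p q h
  rw [per_apply, per_apply] at h
  have h1 := congrArg Prod.fst h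
  have h2 := congrArg (fun x : S47T.Lat => ((x.2.1 : Eis) : ℂ)) h
  have h3 := congrArg (fun x : S47T.Lat => x.2.2) h
  simp only at h1 h2 h3
  push_cast at h2
  rw [S47T.coe_sq3E, S47T.coe_omE] at h2
  have h4 := mul_left_cancel₀ S47T.sq3_ne_zero (mul_left_cancel₀ hk1 h2)
  have h5 := S47T.om_indep (a := p.2.1 0 - q.2.1 0) (b := p.2.1 1 - q.2.1 1)
    (by push_cast; linear_combination h4)
  refine Prod.ext (mul_left_cancel₀ hk0 h1) (Prod.ext ?_ (mul_left_cancel₀ hk0 h3))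
  funext i
  fin_cases i
  · exact sub_eq_zero.mp h5.1
  · exact sub_eq_zero.mp h5.2

/-- Decomposition of the index set into classes. -/
def classEquiv {k : ℕ} (hk : 0 < k) : (S47T.Lat ⧸ (per k).range) × PI ≃ S47T.Lat :=
  Equiv.ofBijective (fun z => Quotient.out z.1 + per k z.2) (by
    constructor
    · rintro ⟨q, p⟩ ⟨q', p'⟩ h
      simp only at h
      have h1 : ∀ (q : S47T.Lat ⧸ (per k).range) (p : PI),
          (QuotientAddGroup.mk (Quotient.out q + per k p) : S47T.Lat ⧸ (per k).range) = q := by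
        intro q p
        have hz : (QuotientAddGroup.mk (per k p) : S47T.Lat ⧸ (per k).range) = 0 :=
          (QuotientAddGroup.eq_zero_iff (per k p)).mpr ⟨p, rfl⟩
        rw [QuotientAddGroup.mk_add, hz, add_zero]
        exact QuotientAddGroup.out_eq' q
      have h2 : q = q' := by rw [← h1 q p, ← h1 q' p', h]
      subst h2
      exact Prod.ext rfl (per_injective hk (add_left_cancel h))
    · intro x
      have h : -(Quotient.out (QuotientAddGroup.mk x : S47T.Lat ⧸ (per k).range)) + x ∈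
          (per k).range := by
        rw [← QuotientAddGroup.eq]
        exact QuotientAddGroup.out_eq' _
      obtain ⟨p, hp⟩ := h
      refine ⟨(QuotientAddGroup.mk x, p), ?_⟩
      simp only [hp]
      abel)

theorem classEquiv_apply {k : ℕ} (hk : 0 < k) (z : (S47T.Lat ⧸ (per k).range) × PI) :
    classEquiv hk z = Quotient.out z.1 + per k z.2 := rfl

theorem norm_ee (x : ℝ) : ‖ee x‖ = 1 := by
  rw [ee, Complex.norm_exp]
  simp

theorem Theta_eq_cls {s n : ℕ} (hs : 0 < s) (hn : 0 < n) {φ : S47T.Lat → ℂ}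
    (hφ : ∀ x p, φ (x + per (s * n) p) = φ x) {w : H3} {τ : ℍ}
    (hsum : Summable fun x : S47T.Lat => φ x * ker τ w (vec s x)) :
    Theta s φ τ w = ∑' q : S47T.Lat ⧸ (per (s * n)).range,
      φ (Quotient.out q) * cls n w (vec s (Quotient.out q)) τ := by
  have hsn : 0 < s * n := Nat.mul_pos hs hn
  rw [Theta_eq, ← (classEquiv hsn).tsum_eq]
  have h1 : Summable fun z : (S47T.Lat ⧸ (per (s * n)).range) × PI =>
      φ (classEquiv hsn z) * ker τ w (vec s (classEquiv hsn z)) :=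
    (classEquiv hsn).summable_iff.mpr hsum
  rw [h1.tsum_prod]
  refine tsum_congr fun q => ?_
  rw [cls, ← tsum_mul_left]
  refine tsum_congr fun p => ?_
  rw [classEquiv_apply, hφ, vec_add_per hs]

/-- `s • vec s x` lies in the dual lattice. -/
theorem zsmul_vec_mem {s : ℕ} (hs : 0 < s) (x : S47T.Lat) {n : ℕ} (hsn : s ∣ n) :
    (n : ℤ) • vec s x ∈ (embV e2).range := by
  obtain ⟨m, rfl⟩ := hsn
  obtain ⟨a, b, hab⟩ := (x.2.1).2
  have hs' : (s : ℝ) ≠ 0 := by exact_mod_cast hs.ne'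
  have hs'' : (s : ℂ) ≠ 0 := by exact_mod_cast hs.ne'
  have h3 := S47T.sq3_ne_zero
  refine ⟨((m : ℤ) * x.1, ![(m : ℤ) * b, -((m : ℤ) * a)], (m : ℤ) * x.2.2), ?_⟩
  rw [embV_apply, vec]
  refine Prod.ext ?_ (Prod.ext ?_ ?_)
  · change _ = ((s * m : ℕ) : ℤ) • ((x.1 : ℝ) / s)
    rw [zsmul_eq_mul]
    push_cast
    field_simp
  · change _ = ((s * m : ℕ) : ℤ) • (((x.2.1 : ℂ) / sq3) / s)
    rw [zsmul_eq_mul, hab]
    simp only [e2, Matrix.cons_val_zero, Matrix.cons_val_one]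
    push_cast
    field_simp
    ring
  · change _ = ((s * m : ℕ) : ℤ) • ((x.2.2 : ℝ) / s)
    rw [zsmul_eq_mul]
    push_cast
    field_simp

/-- **Congruence property of the theta kernel** for every periodic test function. -/
theorem Theta_automorphy {w : H3} {c c' : ℂ} (hP : PoissonAt e1 e2 w c)
    (hP' : PoissonAt e2 e1 w c') (hcc : c * c' = -1)
    (hsum1 : ∀ (l : VV) (τ : ℍ), Summable fun p : PI => ker τ w (l + embV e1 p))
    {s n : ℕ} (hs : 0 < s) (hn : 0 < n) (hsn : s ∣ n)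
    {φ : S47T.Lat → ℂ} (hφ : ∀ x p, φ (x + per (s * n) p) = φ x)
    (hsum : ∀ τ : ℍ, Summable fun x : S47T.Lat => φ x * ker τ w (vec s x))
    {γ : SL(2, ℤ)} (hγ : γ ∈ Gamma (6 * n ^ 2)) (τ : ℍ) :
    Theta s φ ((γ • τ : ℍ) : ℂ) w = jf γ τ * Theta s φ τ w := by
  rw [Theta_eq_cls hs hn hφ (hsum _), Theta_eq_cls hs hn hφ (hsum _), ← tsum_mul_left]
  refine tsum_congr fun q => ?_
  rw [cls_automorphy hP hP' hcc hn (fun τ => hsum1 _ τ) (zsmul_vec_mem hs _ hsn) hγ]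
  ring

end Fermat.Agent.H49T
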