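import Fermat.Agent.H24Ring
import Fermat.Agent.H67Field
import Fermat.Agent.H66Degree
import Fermat.Agent.H4Transfer

set_option autoImplicit false

/-!
# Norms along the degeneracy map `α` and Hecke representatives (helper4, BRIDGE M-F)
-/

open UpperHalfPlane hiding I
open Complex MatrixGroups ModularGroup Fermat.Agent.H61 ModularCurve Fermat.Agent.H24
open scoped Manifold Real Polynomial

namespace Fermat.Agent.H4

noncomputable section

/-- The norm is the product over a complete family of embeddings. -/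
theorem norm_eq_prod_of_embeddings {F F' E ι : Type*} [Field F] [Field F'] [Field E] [Algebra F F']
    [FiniteDimensional F F'] [Algebra.IsSeparable F F'] [Fintype ι] (s0 : F →+* E)
    (s : ι → F' →+* E) (hs : Function.Injective s)
    (hs0 : ∀ i x, s i (algebraMap F F' x) = s0 x)
    (hcard : Module.finrank F F' ≤ Fintype.card ι) (y : F') :
    s0 (Algebra.norm F y) = ∏ i, s i y := by
  classical
  letI : Algebra F E := s0.toAlgebra
  let Ω := AlgebraicClosure E
  let t : ι → (F' →ₐ[F] Ω) := fun i =>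
    { (algebraMap E Ω).comp (s i) with
      commutes' := fun x => by
        show algebraMap E Ω (s i (algebraMap F F' x)) = algebraMap F Ω x
        rw [hs0, IsScalarTower.algebraMap_apply F E Ω]
        rfl }
  have ht : ∀ i x, t i x = algebraMap E Ω (s i x) := fun _ _ => rfl
  have hinj : Function.Injective t := by
    intro i j h
    apply hs
    refine RingHom.ext fun x => ?_
    apply (algebraMap E Ω).injective
    rw [← ht, ← ht, h]
  have hcard' : Fintype.card (F' →ₐ[F] Ω) ≤ Fintype.card ι := by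
    rw [AlgHom.card]; exact hcard
  have hbij : Function.Bijective t :=
    (Fintype.bijective_iff_injective_and_card t).2
      ⟨hinj, le_antisymm (Fintype.card_le_of_injective t hinj) hcard'⟩
  apply (algebraMap E Ω).injective
  have h1 : algebraMap E Ω (s0 (Algebra.norm F y)) = algebraMap F Ω (Algebra.norm F y) := by
    rw [IsScalarTower.algebraMap_apply F E Ω]
    rfl
  rw [h1, Algebra.norm_eq_prod_embeddings, map_prod]
  exact (Fintype.prod_bijective t hbij _ _ fun i => (ht i y).symm).symm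

/-! ### Representatives in `Γ₀(N)` of the projective line -/

section reps

variable {N ℓ : ℕ} [Fact ℓ.Prime]

open Matrix.SpecialLinearGroup

lemma redMat_apply_zero_zero (g : SL(2, ℤ)) : (redMat ℓ g : Matrix (Fin 2) (Fin 2) (ZMod ℓ)) 0 0 =
    ((g 1 1 : ℤ) : ZMod ℓ) := rfl

lemma redMat_apply_one_zero (g : SL(2, ℤ)) : (redMat ℓ g : Matrix (Fin 2) (Fin 2) (ZMod ℓ)) 1 0 =
    ((g 1 0 : ℤ) : ZMod ℓ) := rfl

lemma act_infty_of_mem (g : SL(2, ℤ)) (hg : (ℓ : ℤ) ∣ g 1 0) :
    act g (OnePoint.infty : OnePoint (ZMod ℓ)) = OnePoint.infty := by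
  rw [act_apply, OnePoint.smul_infty_eq_ite, if_pos]
  rw [redMat_apply_one_zero]
  exact (ZMod.intCast_zmod_eq_zero_iff_dvd _ _).2 hg

lemma exists_act_infty (hℓN : ¬ ℓ ∣ N) (x : OnePoint (ZMod ℓ)) :
    ∃ δ : CongruenceSubgroup.Gamma0 N, act (δ : SL(2, ℤ)) (OnePoint.infty : OnePoint (ZMod ℓ)) = x := by
  induction x using OnePoint.rec with
  | infty => exact ⟨1, act_one _⟩
  | coe b =>
    have hℓ : ℓ.Prime := Fact.out
    have hcop : Nat.Coprime N ℓ := ((Nat.Prime.coprime_iff_not_dvd hℓ).2 hℓN).symm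
    -- `d ≡ 1 mod N`, `d ≡ b N mod ℓ`
    obtain ⟨d, hd1, hd2⟩ := Nat.chineseRemainder hcop 1 (b.val * N)
    have hcd : IsCoprime (N : ℤ) (d : ℤ) := by
      rw [Nat.isCoprime_iff_coprime]
      have := hd1.gcd_eq
      rw [Nat.Coprime, Nat.gcd_comm, this]
      simp
    obtain ⟨u, v, huv⟩ := hcd
    let M : Matrix (Fin 2) (Fin 2) ℤ := !![v, -u; (N : ℤ), (d : ℤ)]
    have hM : M.det = 1 := by
      rw [Matrix.det_fin_two_of]; linear_combination huv
    let g : SL(2, ℤ) := ⟨M, hM⟩
    have hg10 : g 1 0 = (N : ℤ) := rfl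
    have hg11 : g 1 1 = (d : ℤ) := rfl
    refine ⟨⟨g, ?_⟩, ?_⟩
    · rw [CongruenceSubgroup.Gamma0_mem, hg10]; simp
    · show act g (OnePoint.infty : OnePoint (ZMod ℓ)) = _
      have hN0 : ((N : ℤ) : ZMod ℓ) ≠ 0 := by
        intro h
        rw [Int.cast_natCast, ZMod.natCast_eq_zero_iff] at h
        exact hℓN h
      rw [act_apply, OnePoint.smul_infty_eq_ite, if_neg]
      · rw [redMat_apply_zero_zero, redMat_apply_one_zero, hg10, hg11]
        congr 1
        rw [div_eq_iff hN0]
        have h3 : ((d : ℕ) : ZMod ℓ) = ((b.val * N : ℕ) : ZMod ℓ) :=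
          (ZMod.natCast_eq_natCast_iff _ _ _).2 hd2
        push_cast at h3 ⊢
        rw [h3, ZMod.natCast_zmod_val]
      · rw [redMat_apply_one_zero, hg10]
        exact hN0

/-- element of `Γ₀(N)` moving `∞` to `x` -/
def del (hℓN : ¬ ℓ ∣ N) (x : OnePoint (ZMod ℓ)) : CongruenceSubgroup.Gamma0 N :=
  (exists_act_infty hℓN x).choose

lemma act_del (hℓN : ¬ ℓ ∣ N) (x : OnePoint (ZMod ℓ)) :
    act (del hℓN x : SL(2, ℤ)) (OnePoint.infty : OnePoint (ZMod ℓ)) = x :=
  (exists_act_infty hℓN x).choose_spec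

lemma rep_infty_smul_del (hℓN : ¬ ℓ ∣ N) (x : OnePoint (ZMod ℓ)) (τ : ℍ) :
    rep ℓ OnePoint.infty • ((del hℓN x : SL(2, ℤ)) • τ) =
      (coc hℓN (del hℓN x) OnePoint.infty : SL(2, ℤ)) • (rep ℓ x • τ) := by
  rw [sl_smul_eq, sl_smul_eq, ← mul_smul, ← mul_smul]
  congr 1
  have := coc_spec hℓN (del hℓN x) OnePoint.infty
  rw [act_del] at this
  exact this

end reps

/-! ### The fraction field of `A K N` -/

section field

variable (K : Type*) [Field K] [Algebra ℚ K]

/-- the function field of `X_0(N)` over `K` -/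
abbrev FN (N : ℕ) : IntermediateField K (LaurentSeries K) :=
  laurentBaseChange K (modularFunctionFieldFull N)

lemma A_le_FN (N : ℕ) : A K N ≤ (FN K N).toSubalgebra := by
  rw [FN, H67.laurentBaseChange_full]
  exact IntermediateField.algebra_adjoin_le_adjoin _ _

lemma mem_FN_of_mem_A {N : ℕ} {x : LaurentSeries K} (hx : x ∈ A K N) : x ∈ FN K N :=
  A_le_FN K N hx

/-- `A K N → F_N` -/
def toF (N : ℕ) : A K N →+* FN K N where
  toFun a := ⟨a.1, mem_FN_of_mem_A K a.2⟩
  map_one' := Subtype.ext rfl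
  map_mul' _ _ := Subtype.ext rfl
  map_zero' := Subtype.ext rfl
  map_add' _ _ := Subtype.ext rfl

lemma coe_toF {N : ℕ} (a : A K N) : ((toF K N a : FN K N) : LaurentSeries K) = a.1 := rfl

lemma toF_injective (N : ℕ) : Function.Injective (toF K N) := by
  intro a b h
  apply Subtype.ext
  rw [← coe_toF, ← coe_toF, h]

lemma exists_eq_div {N : ℕ} (y : FN K N) : ∃ a b : A K N, b ≠ 0 ∧ y = toF K N a / toF K N b := by
  have hy : (y : LaurentSeries K) ∈ modularFunctionFieldFullC K N := by
    rw [← H67.laurentBaseChange_full]; exact y.2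
  obtain ⟨r, hr, s, hs, h⟩ := IntermediateField.mem_adjoin_iff_div.1 hy
  by_cases hs0 : s = 0
  · refine ⟨0, 1, one_ne_zero, ?_⟩
    rw [map_zero, zero_div]
    apply Subtype.ext
    rw [h, hs0, div_zero]; rfl
  · refine ⟨⟨r, hr⟩, ⟨s, hs⟩, fun h0 => hs0 (congrArg Subtype.val h0), ?_⟩
    apply Subtype.ext
    rw [h]; rfl

/-- extension of an embedding of `A K N` to `F_N` -/
def extF {N : ℕ} {E : Type*} [Field E] (φ : A K N →+* E)
    (hφ : Function.Injective φ) : FN K N →+* E :=
  letI := (toF K N).toAlgebra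
  haveI : FaithfulSMul (A K N) (FN K N) := (faithfulSMul_iff_algebraMap_injective _ _).2
    (toF_injective K N)
  haveI : IsFractionRing (A K N) (FN K N) := IsFractionRing.of_field _ _ fun y => by
    obtain ⟨a, b, hb, h⟩ := exists_eq_div K y
    exact ⟨a, b, h⟩
  IsFractionRing.lift hφ

lemma extF_toF {N : ℕ} {E : Type*} [Field E] (φ : A K N →+* E)
    (hφ : Function.Injective φ) (a : A K N) : extF K φ hφ (toF K N a) = φ a := by
  letI := (toF K N).toAlgebra
  haveI : FaithfulSMul (A K N) (FN K N) := (faithfulSMul_iff_algebraMap_injective _ _).2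
    (toF_injective K N)
  haveI : IsFractionRing (A K N) (FN K N) := IsFractionRing.of_field _ _ fun y => by
    obtain ⟨a, b, hb, h⟩ := exists_eq_div K y
    exact ⟨a, b, h⟩
  exact IsFractionRing.lift_algebraMap hφ a

lemma ext_of_toF {N : ℕ} {E : Type*} [Field E] {f g : FN K N →+* E}
    (h : ∀ a : A K N, f (toF K N a) = g (toF K N a)) (y : FN K N) : f y = g y := by
  obtain ⟨a, b, hb, rfl⟩ := exists_eq_div K y
  rw [map_div₀, map_div₀, h, h]

end field

end

end Fermat.Agent.H4
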