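import Fermat.Agent.H4Norm

set_option autoImplicit false

/-!
# The norm of `β u` along `α` (helper4, BRIDGE M-F)
-/

open UpperHalfPlane hiding I
open Complex MatrixGroups ModularGroup Fermat.Agent.H61 ModularCurve Fermat.Agent.H24
open scoped Manifold Real Polynomial

namespace Fermat.Agent.H4

noncomputable section

variable (K : Type*) [Field K]

lemma divisorExpansionsC_mono {N M : ℕ} (h : N ∣ M) :
    divisorExpansionsC K N ⊆ divisorExpansionsC K M := by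
  rintro x ⟨d, hd0, hd, rfl⟩
  exact ⟨d, hd0, hd.trans h, rfl⟩

lemma A_mono {N M : ℕ} (h : N ∣ M) : A K N ≤ A K M :=
  Algebra.adjoin_mono (divisorExpansionsC_mono K h)

/-- `A K N → A K (N ℓ)`, the inclusion -/
def alphaA (N ℓ : ℕ) (a : A K N) : A K (N * ℓ) := ⟨a.1, A_mono K (dvd_mul_right N ℓ) a.2⟩

lemma coe_alphaA {N ℓ : ℕ} (a : A K N) : (alphaA K N ℓ a).1 = a.1 := by rw [alphaA]

lemma qExpand_mem_A {N : ℕ} (ℓ : ℕ) [NeZero ℓ] {x : LaurentSeries K} (hx : x ∈ A K N) :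
    qExpand K ℓ x ∈ A K (N * ℓ) := by
  induction hx using Algebra.adjoin_induction with
  | mem x hx =>
    obtain ⟨d, hd0, hd, rfl⟩ := hx
    haveI := hd0
    apply Algebra.subset_adjoin
    refine ⟨ℓ * d, ⟨Nat.mul_ne_zero (NeZero.ne ℓ) (NeZero.ne d)⟩, ?_, ?_⟩
    · rw [mul_comm ℓ d]; exact Nat.mul_dvd_mul hd dvd_rfl
    · exact qExpand_qExpand ..
  | algebraMap r =>
    have : qExpand K ℓ (algebraMap K (LaurentSeries K) r) = algebraMap K (LaurentSeries K) r := by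
      rw [algebraMap_laurentSeries_eq_single, qExpand_single, mul_zero]
    rw [this]; exact Subalgebra.algebraMap_mem _ r
  | add x y _ _ hx hy => rw [map_add]; exact add_mem hx hy
  | mul x y _ _ hx hy => rw [map_mul]; exact mul_mem hx hy

/-- `q ↦ q ^ ℓ` on `A` -/
def betaA (N ℓ : ℕ) [NeZero ℓ] (a : A K N) : A K (N * ℓ) :=
  ⟨qExpand K ℓ a.1, qExpand_mem_A K ℓ a.2⟩

lemma coe_betaA {N ℓ : ℕ} [NeZero ℓ] (a : A K N) : (betaA K N ℓ a).1 = qExpand K ℓ a.1 := by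
  rw [betaA]

variable [Algebra K ℂ]

lemma incl_qExpand (ℓ : ℕ) [NeZero ℓ] (x : LaurentSeries K) :
    incl K (qExpand K ℓ x) = qExpand ℂ ℓ (incl K x) := by
  rw [incl, coeffMap_qExpand]

lemma ev_qExpand {N : ℕ} [NeZero N] (ℓ : ℕ) [NeZero ℓ] (a : A K N) (τ : ℍ) :
    ev K (qExpand K ℓ a.1) τ = ev K a.1 (scale ℓ τ) := by
  rw [ev, incl_qExpand, evalAt_qExpand ℓ (good_of_mem K a.2).conv (Function.Periodic.qParam_ne_zero _)
    (norm_qParam_one τ), ev]
  congr 1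
  simp only [Function.Periodic.qParam, coe_scale]
  rw [← Complex.exp_nat_mul]
  congr 1
  push_cast
  ring

lemma scale_eq_rep (ℓ : ℕ) [hℓ : Fact ℓ.Prime] (τ : ℍ) :
    haveI : NeZero ℓ := ⟨hℓ.out.ne_zero⟩
    scale ℓ τ = rep ℓ OnePoint.infty • τ := by
  haveI : NeZero ℓ := ⟨hℓ.out.ne_zero⟩
  apply UpperHalfPlane.ext
  rw [coe_scale, rep_infty, ModularForm.coe_heckeDiagMatrix_smul hℓ.out.ne_zero]

/-! ### embeddings -/

section emb

variable [Algebra ℚ K]

/-- the embedding of `F_N` attached to the Cayley chart at `I` and `δ`. -/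
def sF (N : ℕ) [NeZero N] (δ : SL(2, ℤ)) : FN K N →+* LaurentSeries ℂ :=
  extF K (phi (goodChart_cayley K N UpperHalfPlane.I) δ : A K N →+* LaurentSeries ℂ)
    (phi_injective (goodChart_cayley K N UpperHalfPlane.I) δ)

lemma sF_toF {N : ℕ} [NeZero N] (δ : SL(2, ℤ)) (a : A K N) :
    sF K N δ (toF K N a) = phi (goodChart_cayley K N UpperHalfPlane.I) δ a :=
  extF_toF K _ _ a

lemma hasExpC_sF_toF {N : ℕ} [NeZero N] (δ : SL(2, ℤ)) (a : A K N) :
    HasExpC (cayley UpperHalfPlane.I) (fun τ => ev K a.1 (δ • τ)) (sF K N δ (toF K N a)) := by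
  rw [sF_toF]
  exact phi_spec (goodChart_cayley K N UpperHalfPlane.I) δ a

variable {K}

lemma ev_mul_of_good {N : ℕ} [NeZero N] {x y z : LaurentSeries K} (hx : Good K N x)
    (hy : Good K N y) (h : x * y = z) (τ : ℍ) : ev K z τ = ev K x τ * ev K y τ := by
  rw [← h, ev_mul K hx.conv hy.conv]
  rfl

lemma HasExpC.mul' {z f g : ℍ → ℂ} {F G : LaurentSeries ℂ} (hz : Chart z) (hF : HasExpC z f F)
    (hG : HasExpC z g G) : HasExpC z (fun τ => f τ * g τ) (F * G) :=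
  ⟨hF.1.mul hG.1, fun τ h => by rw [evalAt_mul hF.1 hG.1 h (hz.lt τ), hF.2 τ h, hG.2 τ h]⟩

lemma exists_hasExpC {f : ℍ → ℂ} (hf : f ∈ Hol) :
    ∃ F, HasExpC (cayley UpperHalfPlane.I) f F := Hol_le_ExpAlg_cayley UpperHalfPlane.I hf

variable (K)

lemma toF_ne_zero {N : ℕ} {a : A K N} (ha : a ≠ 0) : toF K N a ≠ 0 := by
  intro h
  exact ha (toF_injective K N (h.trans (map_zero _).symm))

/-- restriction along `α` -/
lemma sF_alpha {N ℓ : ℕ} [NeZero N] [NeZero ℓ] (δ : CongruenceSubgroup.Gamma0 N) (y : FN K N) :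
    sF K (N * ℓ) (δ : SL(2, ℤ)) (heckeAlphaBar K N ℓ y) = sF K N 1 y := by
  have h := ext_of_toF K (f := (sF K (N * ℓ) (δ : SL(2, ℤ))).comp
    (heckeAlphaBar K N ℓ : FN K N →+* FN K (N * ℓ))) (g := sF K N 1) (fun a => by
      have h1 : (heckeAlphaBar K N ℓ : FN K N →+* FN K (N * ℓ)) (toF K N a) =
          toF K (N * ℓ) (alphaA K N ℓ a) := by
        apply Subtype.ext
        rw [coe_toF, coe_alphaA]
        exact coe_heckeAlphaBar N ℓ (toF K N a)
      rw [RingHom.comp_apply, h1, sF_toF, sF_toF]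
      apply phi_eq
      have h2 := phi_spec (goodChart_cayley K N UpperHalfPlane.I) 1 a
      convert h2 using 1
      funext τ
      rw [coe_alphaA, one_smul]
      exact congrFun ((good_of_mem K a.2).inv _ δ.2) τ) y
  exact h

end emb

end

end Fermat.Agent.H4
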