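import Fermat.Agent.H4NormEmb
import Fermat.Agent.H67Galois

set_option autoImplicit false

/-!
# The norm formula `ev (N_α (β a)) = ∏ ev a (rep x • τ)` (helper4, BRIDGE M-F)
-/

open UpperHalfPlane hiding I
open Complex MatrixGroups ModularGroup Fermat.Agent.H61 ModularCurve Fermat.Agent.H24 AlgebraicCurve
open scoped Manifold Real Polynomial

namespace Fermat.Agent.H4

noncomputable section

variable (K : Type*) [Field K] [Algebra K ℂ] [Algebra ℚ K]

/-- the norm along `α` -/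
def normAlpha (N ℓ : ℕ) [NeZero N] [NeZero ℓ] (y : FN K (N * ℓ)) : FN K N :=
  letI := algebraAlong (heckeAlphaBar K N ℓ)
  Algebra.norm (FN K N) y

lemma sF_injective_rep {N ℓ : ℕ} [NeZero N] [NeZero ℓ] [Fact ℓ.Prime] (hℓN : ¬ ℓ ∣ N) :
    Function.Injective (fun x : OnePoint (ZMod ℓ) =>
      sF K (N * ℓ) (del hℓN x : SL(2, ℤ))) := by
  intro x x' h
  have h1 : phi (goodChart_cayley K (N * ℓ) UpperHalfPlane.I) (del hℓN x : SL(2, ℤ)) =
      phi (goodChart_cayley K (N * ℓ) UpperHalfPlane.I) (del hℓN x' : SL(2, ℤ)) := by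
    refine AlgHom.ext fun a => ?_
    rw [← sF_toF, ← sF_toF]
    exact RingHom.congr_fun h _
  have h2 := mem_of_phi_eq _ h1
  have h3 : act ((del hℓN x' : SL(2, ℤ)) * (del hℓN x : SL(2, ℤ))⁻¹)
      (OnePoint.infty : OnePoint (ZMod ℓ)) = OnePoint.infty := by
    apply act_infty_of_mem
    rw [CongruenceSubgroup.Gamma0_mem, ZMod.intCast_zmod_eq_zero_iff_dvd] at h2
    exact (Int.natCast_dvd_natCast.2 (dvd_mul_left ℓ N)).trans h2
  have h4 := act_del hℓN x'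
  have h5 : (del hℓN x' : SL(2, ℤ)) =
      ((del hℓN x' : SL(2, ℤ)) * (del hℓN x : SL(2, ℤ))⁻¹) * (del hℓN x : SL(2, ℤ)) := by group
  rw [h5, act_mul, h3, act_del] at h4
  exact h4

theorem sF_normAlpha [IsAlgClosed K] [CharZero K] {N ℓ : ℕ} [NeZero N] [NeZero ℓ] [hℓ : Fact ℓ.Prime]
    (hℓN : ¬ ℓ ∣ N) (y : FN K (N * ℓ)) :
    sF K N 1 (normAlpha K N ℓ y) = ∏ x : OnePoint (ZMod ℓ), sF K (N * ℓ) (del hℓN x : SL(2, ℤ)) y := by
  letI := algebraAlong (heckeAlphaBar K N ℓ)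
  have hfin : FiniteAlong K (heckeAlphaBar K N ℓ) := H67.finiteAlong_FB K (heckeAlphaBar K N ℓ)
  haveI : Module.Finite (FN K N) (FN K (N * ℓ)) := hfin
  haveI : CharZero (FN K N) := charZero_of_injective_algebraMap (algebraMap K (FN K N)).injective
  haveI : Algebra.IsSeparable (FN K N) (FN K (N * ℓ)) := inferInstance
  refine norm_eq_prod_of_embeddings (F := FN K N) (F' := FN K (N * ℓ)) (sF K N 1)
    (fun x => sF K (N * ℓ) (del hℓN x : SL(2, ℤ))) (sF_injective_rep K hℓN)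
    (fun x y => sF_alpha K (del hℓN x) y) ?_ y
  have h1 : finrankAlong K (heckeAlphaBar K N ℓ) = ℓ + 1 := by
    rw [H67.finrank_alpha_prime (H67.degreeFact K) N ℓ hℓ.out, if_neg hℓN]
  have h2 : Fintype.card (OnePoint (ZMod ℓ)) = ℓ + 1 := by
    have : Fintype.card (OnePoint (ZMod ℓ)) = Fintype.card (Option (ZMod ℓ)) :=
      Fintype.card_congr (Equiv.refl _)
    rw [this, Fintype.card_option, ZMod.card]
  rw [h2, ← h1]
  exact le_refl _

variable {K}

lemma mdiff_comp_gl {f : ℍ → ℂ} (hf : f ∈ Hol) (g : GL (Fin 2) ℝ) (hg : 0 < g.val.det) :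
    (fun τ => f (g • τ)) ∈ Hol := by
  have hf' : MDiff f := hf
  exact hf'.comp (UpperHalfPlane.mdifferentiable_smul (g := g) (by
    rw [Matrix.GeneralLinearGroup.val_det_apply]; exact hg))

lemma det_rep_pos' {ℓ : ℕ} (x : OnePoint (ZMod ℓ)) : 0 < (rep ℓ x).val.det := by
  rw [← Matrix.GeneralLinearGroup.val_det_apply]
  induction x using OnePoint.rec with
  | infty => exact ModularForm.det_heckeDiagMatrix_pos ℓ
  | coe j => exact ModularForm.det_heckeMatrix_pos ℓ j.val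

/-- product of conjugates -/
lemma prod_rep_mem_Hol {ℓ : ℕ} [Fact ℓ.Prime] {f : ℍ → ℂ} (hf : f ∈ Hol) :
    (fun τ => ∏ x : OnePoint (ZMod ℓ), f (rep ℓ x • τ)) ∈ Hol := by
  have h1 : (fun τ => ∏ x : OnePoint (ZMod ℓ), f (rep ℓ x • τ)) =
      ∏ x : OnePoint (ZMod ℓ), (fun τ => f (rep ℓ x • τ)) := by
    funext τ; rw [Finset.prod_apply]
  rw [h1]
  exact Subalgebra.prod_mem _ fun x _ => mdiff_comp_gl hf (rep ℓ x) (det_rep_pos' x)

lemma hasExpC_prod {ι : Type*} (s : Finset ι) {z : ℍ → ℂ} (hz : Chart z) {f : ι → ℍ → ℂ}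
    {F : ι → LaurentSeries ℂ} (h : ∀ i ∈ s, HasExpC z (f i) (F i)) :
    HasExpC z (fun τ => ∏ i ∈ s, f i τ) (∏ i ∈ s, F i) := by
  classical
  induction s using Finset.induction_on with
  | empty => exact ⟨by simpa using isConv_one, fun τ _ => by simp [evalAt_one]⟩
  | insert i s hi ih =>
    simp only [Finset.prod_insert hi]
    exact HasExpC.mul' hz (h i (Finset.mem_insert_self i s))
      (ih fun j hj => h j (Finset.mem_insert_of_mem hj))

variable (K)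

lemma ev_beta_del {N ℓ : ℕ} [NeZero N] [NeZero ℓ] [Fact ℓ.Prime] (hℓN : ¬ ℓ ∣ N)
    (a : A K N) (x : OnePoint (ZMod ℓ)) (τ : ℍ) :
    ev K (betaA K N ℓ a).1 ((del hℓN x : SL(2, ℤ)) • τ) = ev K a.1 (rep ℓ x • τ) := by
  rw [coe_betaA, ev_qExpand, scale_eq_rep, rep_infty_smul_del]
  exact congrFun ((good_of_mem K a.2).inv _ (coc hℓN (del hℓN x) OnePoint.infty).2) (rep ℓ x • τ)

lemma heckeBetaBar_toF {N ℓ : ℕ} [NeZero N] [NeZero ℓ] (a : A K N) :
    heckeBetaBar K N ℓ (toF K N a) = toF K (N * ℓ) (betaA K N ℓ a) := by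
  apply Subtype.ext
  rw [coe_toF, coe_betaA]
  exact coe_heckeBetaBar N ℓ (toF K N a)

/-- expansion of a conjugate of `β a` -/
lemma hasExpC_beta {N ℓ : ℕ} [NeZero N] [NeZero ℓ] [Fact ℓ.Prime] (hℓN : ¬ ℓ ∣ N)
    {a : FN K N} (ha : Good K N a.1) (x : OnePoint (ZMod ℓ)) :
    HasExpC (cayley UpperHalfPlane.I) (fun τ => ev K a.1 (rep ℓ x • τ))
      (sF K (N * ℓ) (del hℓN x : SL(2, ℤ)) (heckeBetaBar K N ℓ a)) := by
  obtain ⟨G, hG⟩ := exists_hasExpC (mdiff_comp_gl ha.hol (rep ℓ x) (det_rep_pos' x))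
  obtain ⟨c, d, hd, hcd⟩ := exists_eq_div K a
  have h1 : a * toF K N d = toF K N c := by
    rw [hcd, div_mul_cancel₀ _ (toF_ne_zero K hd)]
  -- function identity
  have h2 : a.1 * d.1 = c.1 := congrArg Subtype.val h1
  have h3 : ∀ τ, ev K c.1 τ = ev K a.1 τ * ev K d.1 τ := fun τ =>
    ev_mul_of_good ha (good_of_mem K d.2) h2 τ
  -- expansions
  have h4 : ∀ e : A K N, HasExpC (cayley UpperHalfPlane.I) (fun τ => ev K e.1 (rep ℓ x • τ))
      (sF K (N * ℓ) (del hℓN x : SL(2, ℤ)) (heckeBetaBar K N ℓ (toF K N e))) := by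
    intro e
    rw [heckeBetaBar_toF]
    have h5 := hasExpC_sF_toF K (N := N * ℓ) (del hℓN x : SL(2, ℤ)) (betaA K N ℓ e)
    convert h5 using 1
    funext τ
    exact (ev_beta_del K hℓN e x τ).symm
  have h5 := HasExpC.mul' (chart_cayley UpperHalfPlane.I) hG (h4 d)
  have h6 : HasExpC (cayley UpperHalfPlane.I) (fun τ => ev K c.1 (rep ℓ x • τ))
      (G * sF K (N * ℓ) (del hℓN x : SL(2, ℤ)) (heckeBetaBar K N ℓ (toF K N d))) := by
    convert h5 using 1
    funext τ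
    exact h3 _
  have h7 := h6.unique (chart_cayley UpperHalfPlane.I) (h4 c)
  rw [← h1, map_mul, map_mul] at h7
  have h8 : sF K (N * ℓ) (del hℓN x : SL(2, ℤ)) (heckeBetaBar K N ℓ (toF K N d)) ≠ 0 := by
    rw [map_ne_zero, map_ne_zero]
    exact toF_ne_zero K hd
  rw [mul_right_cancel₀ h8 h7] at hG
  exact hG

theorem ev_normAlpha_beta [IsAlgClosed K] [CharZero K] {N ℓ : ℕ} [NeZero N] [NeZero ℓ]
    [hℓ : Fact ℓ.Prime] (hℓN : ¬ ℓ ∣ N) {a : FN K N} (ha : Good K N a.1) {c d : A K N}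
    (h : normAlpha K N ℓ (heckeBetaBar K N ℓ a) * toF K N d = toF K N c) (τ : ℍ) :
    ev K c.1 τ = (∏ x : OnePoint (ZMod ℓ), ev K a.1 (rep ℓ x • τ)) * ev K d.1 τ := by
  have h1 := sF_normAlpha K hℓN (heckeBetaBar K N ℓ a)
  have h2 := hasExpC_prod (Finset.univ : Finset (OnePoint (ZMod ℓ)))
    (chart_cayley UpperHalfPlane.I) (fun x _ => hasExpC_beta K hℓN ha x)
  rw [← h1] at h2
  have h3 := hasExpC_sF_toF K (N := N) 1 d
  have h4 := hasExpC_sF_toF K (N := N) 1 c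
  have h5 := HasExpC.mul' (chart_cayley UpperHalfPlane.I) h2 h3
  rw [← map_mul, h] at h5
  -- equality off the centre, then everywhere
  have h6 : (fun τ => ev K c.1 τ) =
      (fun τ => (∏ x : OnePoint (ZMod ℓ), ev K a.1 (rep ℓ x • τ)) * ev K d.1 τ) := by
    refine eq_of_mem_Hol_of_chart (chart_cayley UpperHalfPlane.I) (good_of_mem K c.2).hol
      (Hol.mul_mem (prod_rep_mem_Hol ha.hol) (good_of_mem K d.2).hol) (fun τ hτ => ?_)
    have h7 := h4.2 τ hτ
    have h8 := h5.2 τ hτ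
    simp only [one_smul] at h7 h8
    rw [← h7, h8]
  exact congrFun h6 τ

end

end Fermat.Agent.H4
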