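import Fermat.Agent.H53POrd

/-!
# Marks at `p` and inertia invariant functionals (helper4)
-/

set_option autoImplicit false
set_option linter.unusedSectionVars false

open scoped Pointwise
open IsLocalRing Fermat.Agent.H64
open Fermat.Agent.H53 (M2 toMat mapMat)
open Fermat.Agent.H75P (OrdI OrdMark MarkElts cj)

noncomputable section

namespace Fermat.Agent.H4

variable {p : ℕ} [hp : Fact p.Prime]

/-- in a basis adapted to the distinguished place, the second coordinate is a functional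
multiplied by the unramified quotient character -/
theorem exists_functional {A : Type} [CommRing A] [IsLocalRing A] {ρ : GaloisRepAdic A}
    (b : Module.Basis (Fin 2) A ρ.V) {g : (M2 A)ˣ} (hg : OrdI p (cj g (toMat ρ.ρ b))) :
    ∃ l : ρ.V →ₗ[A] A, l ≠ 0 ∧
      (∀ σ ∈ Dp p, ∀ v, l (ρ.ρ σ v) = cj g (toMat ρ.ρ b) σ 1 1 * l v) ∧
      ∀ σ ∈ Ip p, ∀ v, l (ρ.ρ σ v) = l v := by
  classical
  -- the functional is the second row of `g⁻¹`
  let l : ρ.V →ₗ[A] A :=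
    ((↑g⁻¹ : M2 A) 1 0) • b.coord 0 + ((↑g⁻¹ : M2 A) 1 1) • b.coord 1
  have hl : ∀ v, l v = (↑g⁻¹ : M2 A) 1 0 * b.repr v 0 + (↑g⁻¹ : M2 A) 1 1 * b.repr v 1 :=
    fun v => rfl
  have hlb : ∀ j, l (b j) = (↑g⁻¹ : M2 A) 1 j := by
    intro j
    rw [hl, b.repr_self]
    fin_cases j <;> simp
  have key : ∀ σ ∈ Dp p, ∀ v, l (ρ.ρ σ v) = cj g (toMat ρ.ρ b) σ 1 1 * l v := by
    intro σ hσ v
    have h1 : (cj g (toMat ρ.ρ b) σ) * (↑g⁻¹ : M2 A) = (↑g⁻¹ : M2 A) * toMat ρ.ρ b σ := by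
      rw [H75P.cj_apply, mul_assoc, Units.mul_inv, mul_one]
    have h10 : cj g (toMat ρ.ρ b) σ 1 0 = 0 := hg.1 σ hσ
    have h2 : ∀ j, (∑ i, (↑g⁻¹ : M2 A) 1 i * toMat ρ.ρ b σ i j) =
        cj g (toMat ρ.ρ b) σ 1 1 * (↑g⁻¹ : M2 A) 1 j := by
      intro j
      have h3 := congrFun (congrFun h1 1) j
      rw [Matrix.mul_apply, Matrix.mul_apply, Fin.sum_univ_two, h10, zero_mul, zero_add] at h3
      exact h3.symm
    have h4 : l.comp (ρ.ρ σ) = (cj g (toMat ρ.ρ b) σ 1 1) • l := by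
      refine b.ext fun j => ?_
      rw [LinearMap.comp_apply, LinearMap.smul_apply, smul_eq_mul, hlb, ← h2 j, hl,
        Fin.sum_univ_two, H53.repr_apply_eq, H53.repr_apply_eq, b.repr_self]
      fin_cases j <;> simp
    exact LinearMap.congr_fun h4 v
  refine ⟨l, ?_, key, fun σ hσ v => ?_⟩
  · intro h0
    have h1 : ∀ j, (↑g⁻¹ : M2 A) 1 j = 0 := fun j => by rw [← hlb, h0, LinearMap.zero_apply]
    have h2 : ((↑g⁻¹ : M2 A) * (g : M2 A)) 1 1 = 1 := by rw [Units.inv_mul]; rfl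
    rw [Matrix.mul_apply, Fin.sum_univ_two, h1, h1, zero_mul, zero_mul, add_zero] at h2
    exact zero_ne_one h2
  · rw [key σ (Ip_le_Dp hσ) v, hg.2 σ hσ, one_mul]

end Fermat.Agent.H4
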