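/-
H7PFin: a complete discrete valuation ring of characteristic zero with finite residue field of
characteristic `p` is a finite free `ℤ_p`-module.
-/
import Mathlib
import Fermat.Prelude.Thm_IsAdicComplete_of_module_finite

set_option autoImplicit false
set_option linter.unusedSectionVars false

open IsLocalRing

namespace Fermat.Agent.H7.P

variable {p : ℕ} [Fact p.Prime] {O : Type*} [CommRing O] [IsDomain O] [IsDiscreteValuationRing O]
  [IsAdicComplete (maximalIdeal O) O] [Finite (ResidueField O)] [CharZero O] [Algebra ℤ_[p] O]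

theorem padic_injective : Function.Injective (algebraMap ℤ_[p] O) := by
  rw [injective_iff_map_eq_zero]
  intro x hx
  by_contra hne
  have h1 := PadicInt.unitCoeff_spec hne
  rw [h1, map_mul, map_pow, map_natCast] at hx
  have h2 : IsUnit (algebraMap ℤ_[p] O (PadicInt.unitCoeff hne)) :=
    (PadicInt.unitCoeff hne).isUnit.map _
  have h3 : ((p : O) ^ x.valuation) = 0 := (h2.mul_right_eq_zero).mp hx
  have h4 : (p : O) ≠ 0 := Nat.cast_ne_zero.mpr (Nat.Prime.ne_zero Fact.out)
  exact pow_ne_zero _ h4 h3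

theorem exists_pow_le_span : ∃ e : ℕ, maximalIdeal O ^ e ≤ Ideal.span {(p : O)} := by
  have h4 : (p : O) ≠ 0 := Nat.cast_ne_zero.mpr (Nat.Prime.ne_zero Fact.out)
  obtain ⟨ϖ, hϖ⟩ := IsDiscreteValuationRing.exists_irreducible O
  obtain ⟨n, hn⟩ := IsDiscreteValuationRing.associated_pow_irreducible h4 hϖ
  refine ⟨n, ?_⟩
  rw [hϖ.maximalIdeal_eq, Ideal.span_singleton_pow, Ideal.span_singleton_le_span_singleton]
  exact hn.dvd

variable (p O) in
theorem finite_quotient_p : Finite (O ⧸ Ideal.span {(p : O)}) := by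
  obtain ⟨e, he⟩ := exists_pow_le_span (p := p) (O := O)
  have h1 : Finite (O ⧸ maximalIdeal O) := inferInstanceAs (Finite (ResidueField O))
  have h2 : Finite (O ⧸ maximalIdeal O ^ e) :=
    Ideal.finite_quotient_pow (IsNoetherian.noetherian _) e
  exact Finite.of_surjective _ (Ideal.Quotient.factor_surjective he)

theorem finite_padic (hp : (p : O) ∈ maximalIdeal O) : Module.Finite ℤ_[p] O := by
  classical
  have := finite_quotient_p p O
  obtain ⟨n, ⟨eq⟩⟩ := Finite.exists_equiv_fin (O ⧸ Ideal.span {(p : O)})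
  have hs : ∀ i : Fin n, ∃ s : O, Ideal.Quotient.mk (Ideal.span {(p : O)}) s = eq.symm i := fun i =>
    Ideal.Quotient.mk_surjective _
  choose s hs using hs
  let f : (Fin n → ℤ_[p]) →ₗ[ℤ_[p]] O := Fintype.linearCombination ℤ_[p] s
  have hspan : IsLocalRing.maximalIdeal ℤ_[p] = Ideal.span {(p : ℤ_[p])} :=
    PadicInt.maximalIdeal_eq_span_p
  have hI : IsAdicComplete (Ideal.span {(p : ℤ_[p])}) (Fin n → ℤ_[p]) := by
    rw [← hspan]
    exact IsAdicComplete.of_module_finite _ _
  have hO : IsHausdorff (Ideal.span {(p : ℤ_[p])}) O := by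
    refine ⟨fun x hx => ?_⟩
    refine IsHausdorff.haus (I := maximalIdeal O) inferInstance x fun n => ?_
    have h1 := hx n
    rw [SModEq.zero] at h1 ⊢
    rw [smul_eq_mul, Ideal.mul_top]
    refine Submodule.smul_induction_on h1 ?_ fun a b ha hb => add_mem ha hb
    intro r hr z _
    rw [Ideal.span_singleton_pow, Ideal.mem_span_singleton] at hr
    obtain ⟨c, rfl⟩ := hr
    rw [mul_smul, Algebra.smul_def, map_pow, map_natCast]
    exact Ideal.mul_mem_right _ _ (Ideal.pow_mem_pow hp n)
  refine Module.Finite.of_surjective f ?_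
  refine surjective_of_mkQ_comp_surjective (I := Ideal.span {(p : ℤ_[p])}) ?_
  intro y
  obtain ⟨y, rfl⟩ := Submodule.mkQ_surjective _ y
  refine ⟨Pi.single (eq (Ideal.Quotient.mk _ y)) 1, ?_⟩
  rw [LinearMap.comp_apply, Fintype.linearCombination_apply_single, one_smul,
    ← sub_eq_zero, ← map_sub, Submodule.mkQ_apply, Submodule.Quotient.mk_eq_zero]
  have h1 := hs (eq (Ideal.Quotient.mk _ y))
  rw [Equiv.symm_apply_apply, Ideal.Quotient.eq, Ideal.mem_span_singleton] at h1
  obtain ⟨c, hc⟩ := h1
  rw [hc]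
  have h2 : (p : O) * c = (p : ℤ_[p]) • c := by rw [Algebra.smul_def, map_natCast]
  rw [h2]
  exact Submodule.smul_mem_smul (Ideal.mem_span_singleton_self _) Submodule.mem_top

theorem free_padic (hp : (p : O) ∈ maximalIdeal O) : Module.Free ℤ_[p] O := by
  have h1 := finite_padic hp
  have h2 : Module.IsTorsionFree ℤ_[p] O := by
    rw [Module.isTorsionFree_iff_smul_eq_zero]
    intro r x h
    rw [Algebra.smul_def, mul_eq_zero] at h
    rcases h with h | h
    · left
      exact padic_injective (by rw [h, map_zero])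
    · right
      exact h
  infer_instance

end Fermat.Agent.H7.P
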