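/-
H7PAbs: the unit root relation `ψ(Frob_p)² - a_p ψ(Frob_p) + p = 0` for ordinary representations in the
Tate module of an abelian group with a reduction map satisfying the Eichler–Shimura relation at `p`
(abstract part; helper7, S59 case `b = p`, (P1)).
-/
import Mathlib
import Fermat.Agent.H7PReal
import Fermat.Agent.H7PFin
import Fermat.Agent.H35S35
import Fermat.Agent.H33Cyclo

set_option autoImplicit false
set_option linter.unusedSectionVars false

noncomputable section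

open IsLocalRing Module TensorProduct Fermat.Agent.H30 Fermat.Agent.H35

namespace Fermat.Agent.H7.P

/-! ### evaluation of the coefficients -/

section Ev

variable {p : ℕ} [Fact p.Prime] {O : Type*} [CommRing O] [Algebra ℤ_[p] O]
  {T : Type*} [AddCommGroup T] [Module ℤ_[p] T] {T' : Type*} [AddCommGroup T'] [Module ℤ_[p] T']

/-- `l ⊗ 1 : O ⊗ T → T` -/
def ev (l : O →ₗ[ℤ_[p]] ℤ_[p]) : O ⊗[ℤ_[p]] T →ₗ[ℤ_[p]] T :=
  (TensorProduct.lid ℤ_[p] T).toLinearMap ∘ₗ (LinearMap.rTensor T l)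

theorem ev_tmul (l : O →ₗ[ℤ_[p]] ℤ_[p]) (c : O) (t : T) : ev l (c ⊗ₜ[ℤ_[p]] t) = l c • t := by
  show (TensorProduct.lid ℤ_[p] T) (LinearMap.rTensor T l (c ⊗ₜ[ℤ_[p]] t)) = _
  rw [LinearMap.rTensor_tmul, TensorProduct.lid_tmul]

theorem ev_baseChange (l : O →ₗ[ℤ_[p]] ℤ_[p]) (f : T →ₗ[ℤ_[p]] T') (u : O ⊗[ℤ_[p]] T) :
    ev l (f.baseChange O u) = f (ev l u) := by
  induction u using TensorProduct.induction_on with
  | zero => simp only [map_zero]
  | tmul c t => rw [LinearMap.baseChange_tmul, ev_tmul, ev_tmul, map_smul]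
  | add x y hx hy => rw [map_add, map_add, hx, hy, map_add, map_add]

theorem sum_ev {ι : Type*} [Fintype ι] (e : Module.Basis ι ℤ_[p] O) (u : O ⊗[ℤ_[p]] T) :
    ∑ i, e i ⊗ₜ[ℤ_[p]] ev (e.coord i) u = u := by
  induction u using TensorProduct.induction_on with
  | zero => simp only [map_zero, TensorProduct.tmul_zero, Finset.sum_const_zero]
  | tmul c t =>
    have h1 : ∀ i, e i ⊗ₜ[ℤ_[p]] ev (e.coord i) (c ⊗ₜ[ℤ_[p]] t) =
        (e.repr c i • e i) ⊗ₜ[ℤ_[p]] t := by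
      intro i
      rw [ev_tmul, ← TensorProduct.smul_tmul]
      rfl
    rw [Finset.sum_congr rfl fun i _ => h1 i, ← TensorProduct.sum_tmul, e.sum_repr]
  | add x y hx hy =>
    rw [Finset.sum_congr rfl fun i _ => by rw [map_add, TensorProduct.tmul_add],
      Finset.sum_add_distrib, hx, hy]

theorem exists_smul_of_ev [Module.Free ℤ_[p] O] [Module.Finite ℤ_[p] O] (n : ℕ)
    (u : O ⊗[ℤ_[p]] T) (h : ∀ l : O →ₗ[ℤ_[p]] ℤ_[p], ∃ t, ev l u = (p : ℤ_[p]) ^ n • t) :
    ∃ w, u = (p : O) ^ n • w := by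
  classical
  let e := Module.Free.chooseBasis ℤ_[p] O
  choose t ht using fun i => h (e.coord i)
  refine ⟨∑ i, e i ⊗ₜ[ℤ_[p]] t i, ?_⟩
  conv_lhs => rw [← sum_ev e u]
  rw [Finset.smul_sum]
  refine Finset.sum_congr rfl fun i _ => ?_
  rw [ht, ← TensorProduct.smul_tmul, TensorProduct.smul_tmul', Algebra.smul_def, map_pow,
    map_natCast, smul_eq_mul]

end Ev

/-! ### ordinary representations -/

section Ord

variable {O : Type} [CommRing O] [IsLocalRing O]

/-- inertia at `A` acts trivially on the quotient of `ρ` by the line of `b 0`. -/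
def OrdAt (ρ : GaloisRepAdic O) (A : ValuationSubring (AlgebraicClosure ℚ))
    (b : Module.Basis (Fin 2) O ρ.V) : Prop :=
  ∀ σ ∈ A.inertiaSubgroupIn ℚ, ∀ v : ρ.V, ρ.ρ σ v - v ∈ Submodule.span O {b 0}

variable {ρ : GaloisRepAdic O} {A : ValuationSubring (AlgebraicClosure ℚ)}
  {b : Module.Basis (Fin 2) O ρ.V}

/-- the character on the line -/
def subC (ρ : GaloisRepAdic O) (b : Module.Basis (Fin 2) O ρ.V) (σ : H53.GQ) : O :=
  b.repr (ρ.ρ σ (b 0)) 0

/-- the character on the quotient -/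
def quoC (ρ : GaloisRepAdic O) (b : Module.Basis (Fin 2) O ρ.V) (σ : H53.GQ) : O :=
  b.repr (ρ.ρ σ (b 1)) 1

theorem OrdAt.mem (h : OrdAt ρ A b) {σ : H53.GQ} (hσ : σ ∈ A.inertiaSubgroupIn ℚ) :
    ρ.ρ σ (b 0) ∈ Submodule.span O {b 0} := by
  have h1 := Submodule.add_mem _ (h σ hσ (b 0)) (Submodule.mem_span_singleton_self (b 0))
  rwa [sub_add_cancel] at h1

theorem apply_zero {σ : H53.GQ} (hσ : ρ.ρ σ (b 0) ∈ Submodule.span O {b 0}) :
    ρ.ρ σ (b 0) = subC ρ b σ • b 0 := by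
  obtain ⟨c, hc⟩ := Submodule.mem_span_singleton.mp hσ
  rw [subC, ← hc, map_smul, Module.Basis.repr_self, Finsupp.smul_apply, Finsupp.single_eq_same,
    smul_eq_mul, mul_one]

theorem apply_one (ρ : GaloisRepAdic O) (b : Module.Basis (Fin 2) O ρ.V) (σ : H53.GQ) :
    ρ.ρ σ (b 1) = b.repr (ρ.ρ σ (b 1)) 0 • b 0 + quoC ρ b σ • b 1 := by
  conv_lhs => rw [← b.sum_repr (ρ.ρ σ (b 1))]
  rw [Fin.sum_univ_two]
  rfl

theorem mem_mul {φ σ : H53.GQ} (hφ : ρ.ρ φ (b 0) ∈ Submodule.span O {b 0})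
    (hσ : ρ.ρ σ (b 0) ∈ Submodule.span O {b 0}) :
    ρ.ρ (φ * σ) (b 0) ∈ Submodule.span O {b 0} := by
  rw [map_mul, Module.End.mul_apply, apply_zero hσ, map_smul]
  exact Submodule.smul_mem _ _ hφ

theorem trace_det {σ : H53.GQ} (hσ : ρ.ρ σ (b 0) ∈ Submodule.span O {b 0}) :
    LinearMap.trace O ρ.V (ρ.ρ σ) = subC ρ b σ + quoC ρ b σ ∧
      LinearMap.det (ρ.ρ σ) = subC ρ b σ * quoC ρ b σ := by
  have h10 : b.repr (ρ.ρ σ (b 0)) 1 = 0 := by
    rw [apply_zero hσ, map_smul, Module.Basis.repr_self, Finsupp.smul_apply,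
      Finsupp.single_eq_of_ne (by decide), smul_zero]
  constructor
  · rw [LinearMap.trace_eq_matrix_trace O b, Matrix.trace_fin_two, LinearMap.toMatrix_apply,
      LinearMap.toMatrix_apply]
    rfl
  · rw [← LinearMap.det_toMatrix b, Matrix.det_fin_two]
    simp only [LinearMap.toMatrix_apply]
    rw [h10, mul_zero, sub_zero]
    rfl

theorem OrdAt.quoC_inertia (h : OrdAt ρ A b) {σ : H53.GQ} (hσ : σ ∈ A.inertiaSubgroupIn ℚ) :
    quoC ρ b σ = 1 := by
  obtain ⟨c, hc⟩ := Submodule.mem_span_singleton.mp (h σ hσ (b 1))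
  have h1 : ρ.ρ σ (b 1) = c • b 0 + b 1 := by rw [hc]; abel
  rw [quoC, h1, map_add, map_smul, Module.Basis.repr_self, Module.Basis.repr_self,
    Finsupp.add_apply, Finsupp.smul_apply, Finsupp.single_eq_same,
    Finsupp.single_eq_of_ne (by decide), smul_zero, zero_add]

theorem OrdAt.mul_inertia (h : OrdAt ρ A b) {φ σ : H53.GQ}
    (hφ : ρ.ρ φ (b 0) ∈ Submodule.span O {b 0}) (hσ : σ ∈ A.inertiaSubgroupIn ℚ) :
    subC ρ b (φ * σ) = subC ρ b φ * subC ρ b σ ∧ quoC ρ b (φ * σ) = quoC ρ b φ := by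
  constructor
  · have h1 : ρ.ρ (φ * σ) (b 0) = (subC ρ b φ * subC ρ b σ) • b 0 := by
      rw [map_mul, Module.End.mul_apply, apply_zero (h.mem hσ), map_smul, apply_zero hφ, smul_smul,
        mul_comm]
    rw [subC, h1, map_smul, Module.Basis.repr_self, Finsupp.smul_apply, Finsupp.single_eq_same,
      smul_eq_mul, mul_one]
  · obtain ⟨c, hc⟩ := Submodule.mem_span_singleton.mp (h σ hσ (b 1))
    have h1 : ρ.ρ σ (b 1) = c • b 0 + b 1 := by rw [hc]; abel
    have h2 : ρ.ρ (φ * σ) (b 1) = (c * subC ρ b φ) • b 0 + ρ.ρ φ (b 1) := by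
      rw [map_mul, Module.End.mul_apply, h1, map_add, map_smul, apply_zero hφ, smul_smul]
    rw [quoC, h2, map_add, map_smul, Module.Basis.repr_self, Finsupp.add_apply,
      Finsupp.smul_apply, Finsupp.single_eq_of_ne (by decide), smul_zero, zero_add]
    rfl

end Ord

end Fermat.Agent.H7.P
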