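/-
H7PAbs2: the unit root relation `ψ(Frob_p)² - a_p ψ(Frob_p) + p = 0` for ordinary representations in the
Tate module of an abelian group with a reduction map satisfying the Eichler–Shimura relation at `p`
(abstract part; helper7, S59 case `b = p`, (P1)).
-/
import Mathlib
import Fermat.Agent.H7PAbs

set_option autoImplicit false
set_option linter.unusedSectionVars false

noncomputable section

open IsLocalRing Module TensorProduct Fermat.Agent.H30 Fermat.Agent.H35

namespace Fermat.Agent.H7.P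

variable {p : ℕ} [Fact p.Prime] {O : Type} [CommRing O] [IsDomain O] [IsDiscreteValuationRing O]
  [IsAdicComplete (maximalIdeal O) O] [Finite (ResidueField O)] [CharZero O] [Algebra ℤ_[p] O]
  {J : Type} [AddCommGroup J] [DistribMulAction H31.GQ J]
  {A : ValuationSubring (AlgebraicClosure ℚ)}

theorem smul_cancel' {W : Type*} [AddCommGroup W] [Module O W] [Module.Free O W] {c : O}
    (hc : c ≠ 0) {x y : W} (h : c • x = c • y) : x = y :=
  smul_right_injective W hc h

/-- Elimination: two Eichler–Shimura relations determine the unit root. -/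
theorem unitRoot_alg {W : Type*} [AddCommGroup W] [Module O W] [Module.Free O W]
    {a X Y c q : O} {v w : W} (hv : v ≠ 0) (hX : X ≠ 0) (hc : c ≠ 1)
    (h1 : (X + Y - a) • w = (X * Y - q) • v)
    (h2 : (X * c + Y - a) • w = (X * c * Y - q) • v) : Y ^ 2 - a * Y + q = 0 := by
  have h3 : (X * (c - 1)) • w = (X * (c - 1)) • (Y • v) := by
    rw [smul_smul]
    linear_combination (norm := module) h2 - h1
  have h4 : w = Y • v := smul_cancel' (mul_ne_zero hX (sub_ne_zero.mpr hc)) h3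
  rw [h4] at h1
  have h5 : (Y ^ 2 - a * Y + q) • v = 0 := by
    linear_combination (norm := module) h1
  by_contra hne
  exact hv (smul_cancel' hne (by rw [h5, smul_zero]))

/-- The vectors of the realization, projected to `J[p]`. -/
def xl {V : Type*} [AddCommGroup V] [Module O V] (F : V →ₗ[O] O ⊗[ℤ_[p]] TateMod p J)
    (l : O →ₗ[ℤ_[p]] ℤ_[p]) : V →+ J :=
  (TateMod.proj 1).comp ((ev l : O ⊗[ℤ_[p]] TateMod p J →ₗ[ℤ_[p]] TateMod p J).toAddMonoidHom.comp
    F.toAddMonoidHom)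

section XL

variable {V : Type*} [AddCommGroup V] [Module O V] {F : V →ₗ[O] O ⊗[ℤ_[p]] TateMod p J}
  {l : O →ₗ[ℤ_[p]] ℤ_[p]}

theorem xl_apply (v : V) : xl F l v = TateMod.proj 1 (ev l (F v)) := rfl

theorem p_smul_xl (v : V) : p • xl F l v = 0 := by
  have h := TateMod.pow_smul_proj (p := p) (ev l (F v)) 1
  rwa [pow_one] at h

theorem xl_p_smul (v : V) : xl F l ((p : O) • v) = 0 := by
  have h1 : ((p : O) • v) = p • v := by
    rw [Nat.cast_smul_eq_nsmul]
  rw [h1, map_nsmul, p_smul_xl]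

theorem exists_smul_of_xl [Module.Free ℤ_[p] O] [Module.Finite ℤ_[p] O]
    (hsat : ∀ (c : O) (v : V) (w : O ⊗[ℤ_[p]] TateMod p J), F v = c • w → ∃ v', v = c • v')
    {v : V} (h : ∀ l : O →ₗ[ℤ_[p]] ℤ_[p], xl F l v = 0) : ∃ v', v = (p : O) • v' := by
  obtain ⟨w, hw⟩ := exists_smul_of_ev (p := p) (O := O) 1 (F v) (fun l => by
    exact (TateMod.mem_pow_smul_iff 1 (ev l (F v))).mpr (h l))
  rw [pow_one] at hw
  exact hsat _ _ _ hw

end XL

/-- the exact form of the case of a class killed by `T_p` -/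
def CaseC (p : ℕ) {J : Type} [AddCommGroup J] [DistribMulAction H31.GQ J]
    (A : ValuationSubring (AlgebraicClosure ℚ)) (Tp : J →+ J) : Prop :=
  ∀ ζ : AlgebraicClosure ℚ, IsPrimitiveRoot ζ p → ∀ x : J, p • x = 0 → Tp x = 0 →
    (∀ σ ∈ A.inertiaSubgroupIn ℚ, σ ζ = ζ → σ • x = x) → x = 0

/-- the exact form of the case of a finite set of classes with trivial reduction on which `T_p` is
bijective -/
def CaseD (p : ℕ) {J : Type} [AddCommGroup J] [DistribMulAction H31.GQ J]
    (A : ValuationSubring (AlgebraicClosure ℚ)) (Tp : J →+ J) {M : Type} [AddCommGroup M]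
    (s : J →+ M) : Prop :=
  ∀ (W : Type) [Finite W] (T : W ≃ W) (x : W → J), (∀ w, Tp (x w) = x (T w)) →
    (∀ w, p • x w = 0) → (∀ w, s (x w) = 0) →
    ∀ ζ : AlgebraicClosure ℚ, IsPrimitiveRoot ζ p → ∀ σ ∈ A.inertiaSubgroupIn ℚ, ∀ a : ℕ,
      σ ζ = ζ ^ a → ∀ w, σ • x w = a • x w

variable {ρ : GaloisRepAdic O} {b : Module.Basis (Fin 2) O ρ.V}

theorem OrdAt.subC_inertia (h : OrdAt ρ A b) {σ : H31.GQ} (hσ : σ ∈ A.inertiaSubgroupIn ℚ) :
    subC ρ b σ = LinearMap.det (ρ.ρ σ) := by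
  rw [(trace_det (h.mem hσ)).2, h.quoC_inertia hσ, mul_one]

/-- the determinant of an inertia element fixing `ζ` is `1` modulo `p` -/
theorem det_sub_one_mem (hdet : ρ.DetIsCyclotomic p) {ζ : AlgebraicClosure ℚ}
    (hζ : IsPrimitiveRoot ζ p) {σ : H31.GQ} {a : ℕ} (h : σ ζ = ζ ^ a) :
    ∃ c : O, LinearMap.det (ρ.ρ σ) - a = p * c := by
  have hp : 0 < p := (Fact.out : p.Prime).pos
  have h1 := hdet.2 1 σ a (fun μ hμ => by
    rw [pow_one] at hμ
    have : NeZero p := ⟨hp.ne'⟩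
    obtain ⟨i, -, rfl⟩ := hζ.eq_pow_of_pow_eq_one hμ
    rw [map_pow, h, ← pow_mul, ← pow_mul, mul_comm])
  rw [pow_one] at h1
  exact Ideal.mem_span_singleton.mp h1

theorem two_notMem (hp2 : p ≠ 2) (hpO : (p : O) ∈ maximalIdeal O) : (2 : O) ∉ maximalIdeal O := by
  intro h2
  have hodd : Odd p := (Fact.out : p.Prime).odd_of_ne_two hp2
  obtain ⟨m, hm⟩ := hodd
  have h1 : (1 : O) = p - 2 * m := by
    rw [hm]; push_cast; ring
  have h3 : (1 : O) ∈ maximalIdeal O := by
    rw [h1]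
    exact Ideal.sub_mem _ hpO (Ideal.mul_mem_right _ _ h2)
  exact (Ideal.ne_top_iff_one _).mp (maximalIdeal.isMaximal O).ne_top h3

/-- an inertia element with `det - 2 ∈ p O` -/
theorem exists_inertia_two (hp2 : p ≠ 2) (hA : A.LiesOverPrime p) {ζ : AlgebraicClosure ℚ}
    (hζ : IsPrimitiveRoot ζ p) : ∃ σ ∈ A.inertiaSubgroupIn ℚ, σ ζ = ζ ^ 2 := by
  obtain ⟨σ, hσ, h⟩ := H33.exists_inertia_cyclo (p := p) hA 2 (fun h => by
    have h1 := (Nat.prime_dvd_prime_iff_eq (Fact.out : p.Prime) Nat.prime_two).mp h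
    exact hp2 h1)
  exact ⟨σ, hσ, h ζ hζ.pow_eq_one⟩

section NZ

variable {F : ρ.V →ₗ[O] O ⊗[ℤ_[p]] TateMod p J}

theorem gal_xl {l : O →ₗ[ℤ_[p]] ℤ_[p]}
    (hF : ∀ g v, F (ρ.ρ g v) = (galTate p J g).baseChange O (F v)) (σ : H31.GQ) (v : ρ.V) :
    σ • xl F l v = xl F l (ρ.ρ σ v) := by
  rw [xl_apply, xl_apply, hF, ev_baseChange, proj_galTate]

theorem map_xl {V : Type*} [AddCommGroup V] [Module O V] {F : V →ₗ[O] O ⊗[ℤ_[p]] TateMod p J}
    {l : O →ₗ[ℤ_[p]] ℤ_[p]} {Tp : J →+ J} {a : O}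
    (hTp : ∀ v, (tateMap Tp).baseChange O (F v) = a • F v) (v : V) :
    Tp (xl F l v) = xl F l (a • v) := by
  rw [xl_apply, xl_apply, map_smul, ← hTp, ev_baseChange, proj_tateMap]

/-- If `T_p` acts by a nonunit then case C gives a contradiction. -/
theorem isUnit_of_caseC (hpO : (p : O) ∈ maximalIdeal O)
    (hsat : ∀ (c : O) (v : ρ.V) (w : O ⊗[ℤ_[p]] TateMod p J), F v = c • w → ∃ v', v = c • v')
    (hF : ∀ g v, F (ρ.ρ g v) = (galTate p J g).baseChange O (F v)) {Tp : J →+ J} {a : O}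
    (hTp : ∀ v, (tateMap Tp).baseChange O (F v) = a • F v) (hdet : ρ.DetIsCyclotomic p)
    (hb : OrdAt ρ A b) (hC : CaseC p A Tp) : IsUnit a := by
  by_contra ha
  have hfin : Module.Finite ℤ_[p] O := finite_padic hpO
  have hfree : Module.Free ℤ_[p] O := free_padic hpO
  obtain ⟨ϖ, hϖ⟩ := IsDiscreteValuationRing.exists_irreducible O
  have hm := hϖ.maximalIdeal_eq
  have ha' : a ∈ maximalIdeal O := (mem_maximalIdeal a).mpr ha
  rw [hm, Ideal.mem_span_singleton] at ha' hpO
  obtain ⟨a', rfl⟩ := ha'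
  obtain ⟨c, hc⟩ := hpO
  have hp0 : (p : O) ≠ 0 := Nat.cast_ne_zero.mpr (Nat.Prime.ne_zero Fact.out)
  have hp : 0 < p := (Fact.out : p.Prime).pos
  have : NeZero p := ⟨hp.ne'⟩
  obtain ⟨ζ, hζ⟩ := HasEnoughRootsOfUnity.exists_primitiveRoot (AlgebraicClosure ℚ) p
  have hx : ∀ l : O →ₗ[ℤ_[p]] ℤ_[p], xl F l (c • b 0) = 0 := by
    intro l
    refine hC ζ hζ _ (p_smul_xl _) ?_ ?_
    · rw [map_xl hTp, smul_smul]
      have h1 : ϖ * a' * c = p * a' := by rw [hc]; ring
      rw [h1, mul_smul, xl_p_smul]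
    · intro σ hσ hσζ
      rw [gal_xl hF, map_smul, apply_zero (hb.mem hσ), hb.subC_inertia hσ]
      obtain ⟨d, hd⟩ := det_sub_one_mem (a := 1) hdet hζ (by rw [hσζ, pow_one])
      rw [Nat.cast_one] at hd
      have h1 : LinearMap.det (ρ.ρ σ) = 1 + p * d := by rw [← hd]; ring
      have h2 : c • (LinearMap.det (ρ.ρ σ)) • b 0 = c • b 0 + (p : O) • ((c * d) • b 0) := by
        rw [h1]; module
      rw [h2, map_add, xl_p_smul, add_zero]
  obtain ⟨v', hv'⟩ := exists_smul_of_xl hsat hx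
  have h3 := congrArg (fun v => b.repr v 0) hv'
  simp only [map_smul, Module.Basis.repr_self, Finsupp.smul_apply, Finsupp.single_eq_same,
    smul_eq_mul, mul_one] at h3
  have h4 : (p : O) * (1 - ϖ * b.repr v' 0) = 0 := by
    have : (p : O) * (1 - ϖ * b.repr v' 0) = p - ϖ * (p * b.repr v' 0) := by ring
    rw [this, ← h3, ← hc, sub_self]
  have h5 : 1 - ϖ * b.repr v' 0 = 0 := (mul_eq_zero.mp h4).resolve_left hp0
  exact hϖ.not_isUnit (IsUnit.of_mul_eq_one (b.repr v' 0) (sub_eq_zero.mp h5).symm)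

/-- If the reduction vanishes, case D gives a contradiction. -/
theorem false_of_caseD (hp2 : p ≠ 2) (hpO : (p : O) ∈ maximalIdeal O) (hA : A.LiesOverPrime p)
    (hsat : ∀ (c : O) (v : ρ.V) (w : O ⊗[ℤ_[p]] TateMod p J), F v = c • w → ∃ v', v = c • v')
    (hF : ∀ g v, F (ρ.ρ g v) = (galTate p J g).baseChange O (F v)) {Tp : J →+ J} {a : O}
    (hTp : ∀ v, (tateMap Tp).baseChange O (F v) = a • F v)
    (hb : OrdAt ρ A b) {M : Type} [AddCommGroup M] {s : J →+ M} (hD : CaseD p A Tp s)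
    (ha : IsUnit a) (hs : ∀ v, (tateMap s).baseChange O (F v) = 0) : False := by
  have hfin : Module.Finite ℤ_[p] O := finite_padic hpO
  have hfree : Module.Free ℤ_[p] O := free_padic hpO
  have hp : 0 < p := (Fact.out : p.Prime).pos
  have : NeZero p := ⟨hp.ne'⟩
  obtain ⟨ζ, hζ⟩ := HasEnoughRootsOfUnity.exists_primitiveRoot (AlgebraicClosure ℚ) p
  obtain ⟨σ, hσ, hσζ⟩ := exists_inertia_two hp2 hA hζ
  -- the finite set
  have hfinW : Finite (Fin 2 → O ⧸ Ideal.span {(p : O)}) := by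
    have := finite_quotient_p p O
    infer_instance
  let lift : (Fin 2 → O ⧸ Ideal.span {(p : O)}) → ρ.V := fun w =>
    b.equivFun.symm fun i => (Ideal.Quotient.mk_surjective (w i)).choose
  let red : ρ.V → (Fin 2 → O ⧸ Ideal.span {(p : O)}) := fun v i =>
    Ideal.Quotient.mk _ (b.equivFun v i)
  have hrl : ∀ w, red (lift w) = w := by
    intro w
    funext i
    show Ideal.Quotient.mk _ (b.equivFun (b.equivFun.symm _) i) = w i
    rw [LinearEquiv.apply_symm_apply]
    exact (Ideal.Quotient.mk_surjective (w i)).choose_spec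
  have hred : ∀ (l : O →ₗ[ℤ_[p]] ℤ_[p]) (v v' : ρ.V), red v = red v' → xl F l v = xl F l v' := by
    intro l v v' h
    have h1 : ∀ i, ∃ c, b.equivFun v i - b.equivFun v' i = p * c := by
      intro i
      have h2 := congrFun h i
      exact Ideal.mem_span_singleton.mp (Ideal.Quotient.eq.mp h2)
    choose c hc using h1
    have h3 : v = v' + (p : O) • b.equivFun.symm c := by
      apply b.equivFun.injective
      funext i
      rw [map_add, map_smul, LinearEquiv.apply_symm_apply, Pi.add_apply, Pi.smul_apply,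
        smul_eq_mul, ← hc]
      ring
    rw [h3, map_add, xl_p_smul, add_zero]
  obtain ⟨u, rfl⟩ := ha
  let T : (Fin 2 → O ⧸ Ideal.span {(p : O)}) ≃ (Fin 2 → O ⧸ Ideal.span {(p : O)}) :=
    { toFun := fun w i => Ideal.Quotient.mk _ (u : O) * w i
      invFun := fun w i => Ideal.Quotient.mk _ ((u⁻¹ : Oˣ) : O) * w i
      left_inv := fun w => by
        funext i
        show _ * (_ * _) = _
        rw [← mul_assoc, ← map_mul, Units.inv_mul, map_one, one_mul]
      right_inv := fun w => by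
        funext i
        show _ * (_ * _) = _
        rw [← mul_assoc, ← map_mul, Units.mul_inv, map_one, one_mul] }
  have hTred : ∀ v, red ((u : O) • v) = T (red v) := by
    intro v
    funext i
    show Ideal.Quotient.mk _ (b.equivFun ((u : O) • v) i) = _
    rw [map_smul, Pi.smul_apply, smul_eq_mul, map_mul]
    rfl
  have key : ∀ (l : O →ₗ[ℤ_[p]] ℤ_[p]) (v : ρ.V), σ • xl F l v = 2 • xl F l v := by
    intro l v
    have h := hD (Fin 2 → O ⧸ Ideal.span {(p : O)}) T (fun w => xl F l (lift w)) (fun w => by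
        rw [map_xl hTp]
        apply hred
        rw [hTred, hrl, hrl]) (fun w => p_smul_xl _) (fun w => by
        have h1 : TateMod.proj 1 (tateMap s (ev l (F (lift w)))) = s (xl F l (lift w)) :=
          proj_tateMap s _ 1
        rw [← h1, ← ev_baseChange, hs, map_zero, map_zero]) ζ hζ σ hσ 2 hσζ (red v)
    have h2 : xl F l (lift (red v)) = xl F l v := hred l _ _ (hrl _)
    rwa [h2] at h
  have h1 : ∀ l : O →ₗ[ℤ_[p]] ℤ_[p], xl F l (ρ.ρ σ (b 1) - (2 : O) • b 1) = 0 := by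
    intro l
    have h2 := key l (b 1)
    rw [gal_xl hF] at h2
    rw [map_sub, h2, two_smul O, map_add, two_nsmul, sub_self]
  obtain ⟨v', hv'⟩ := exists_smul_of_xl hsat h1
  have h3 := congrArg (fun v => b.repr v 1) hv'
  have h4 : b.repr (ρ.ρ σ (b 1)) 1 = 1 := hb.quoC_inertia hσ
  simp only [map_sub, map_smul, Module.Basis.repr_self, Finsupp.sub_apply, Finsupp.smul_apply,
    Finsupp.single_eq_same, smul_eq_mul, mul_one, h4] at h3
  have h5 : (1 : O) ∈ maximalIdeal O := by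
    have h6 : (1 : O) = - (p * b.repr v' 1) := by rw [← h3]; ring
    rw [h6]
    exact Ideal.neg_mem_iff _ |>.mpr (Ideal.mul_mem_right _ _ hpO)
  exact (Ideal.ne_top_iff_one _).mp (maximalIdeal.isMaximal O).ne_top h5

end NZ

/-- **(P1), abstract form.** -/
theorem unitRoot_abs (hp2 : p ≠ 2) (hA : A.LiesOverPrime p) (hfin : {x : J | p • x = 0}.Finite)
    {M : Type} [AddCommGroup M] (s : J →+ M) (Fr : M →+ M) (Tp : J →+ J)
    (hin : ∀ σ ∈ A.inertiaSubgroupIn ℚ, ∀ x : J, s (σ • x) = s x)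
    (hfr : ∀ σ : H31.GQ, A.IsFrobeniusAt σ p → ∀ x : J, s (σ • x) = Fr (s x))
    (hrel : ∀ x : J, Fr (Fr (s x)) - Fr (s (Tp x)) + p • s x = 0)
    (V : Submodule O (O ⊗[ℤ_[p]] TateMod p J)) (hV : V ≠ ⊥)
    (hsatV : ∀ c : O, c ≠ 0 → ∀ w, c • w ∈ V → w ∈ V)
    (hst : ∀ g, ∀ w ∈ V, (galTate p J g).baseChange O w ∈ V)
    {a : O} (hTp : ∀ w ∈ V, (tateMap Tp).baseChange O w = a • w)
    (hspan : Submodule.span O (Set.range ρ.ρ) = ⊤)
    (hquad : ∀ g, ∀ w ∈ V, (galTate p J g).baseChange O ((galTate p J g).baseChange O w) -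
      LinearMap.trace O ρ.V (ρ.ρ g) • (galTate p J g).baseChange O w +
        LinearMap.det (ρ.ρ g) • w = 0)
    (hdet : ρ.DetIsCyclotomic p) (hb : OrdAt ρ A b)
    (hC : CaseC p A Tp) (hD : CaseD p A Tp s)
    (hFrobI : ∀ φ σ : H31.GQ, A.IsFrobeniusAt φ p → σ ∈ A.inertiaSubgroupIn ℚ →
      A.IsFrobeniusAt (φ * σ) p)
    {φ : H31.GQ} (hφ : A.IsFrobeniusAt φ p) (hφd : ρ.ρ φ (b 0) ∈ Submodule.span O {b 0}) :
    IsUnit a ∧ quoC ρ b φ ^ 2 - a * quoC ρ b φ + p = 0 := by
  classical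
  have hpO : (p : O) ∈ maximalIdeal O := hdet.1
  have hTfin : Module.Finite ℤ_[p] (TateMod p J) := TateMod.finite_of_finite_torsion hfin
  have hTfree : Module.Free ℤ_[p] (TateMod p J) := TateMod.free_of_finite_torsion hfin
  obtain ⟨F, hFinj, hFV, hF, hsat⟩ := exists_sat_realization (galTate p J) V hV hsatV hst b
    (ρ.ρ : H31.GQ →* Module.End O ρ.V) hspan hquad
  have hTpF : ∀ v, (tateMap Tp).baseChange O (F v) = a • F v := fun v => hTp _ (hFV v)
  have ha : IsUnit a := isUnit_of_caseC hpO hsat hF hTpF hdet hb hC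
  refine ⟨ha, ?_⟩
  -- the reduction on the Tate module
  let D : TateMod p J →ₗ[ℤ_[p]] LinearMap.range (tateMap (p := p) s) :=
    (tateMap (p := p) s).rangeRestrict
  have hDfree : Module.Free ℤ_[p] (LinearMap.range (tateMap (p := p) s)) :=
    Module.free_of_finite_type_torsion_free'
  have hDapp : ∀ x n, TateMod.proj n (D x : TateMod p M) = s (TateMod.proj n x) := fun x n =>
    proj_tateMap s x n
  obtain ⟨v, hv⟩ : ∃ v, D.baseChange O (F v) ≠ 0 := by
    by_contra hcon
    push Not at hcon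
    refine false_of_caseD hp2 hpO hA hsat hF hTpF hb hD ha fun v => ?_
    have h1 : (tateMap (p := p) s) = (LinearMap.range (tateMap (p := p) s)).subtype ∘ₗ D := rfl
    rw [h1, LinearMap.baseChange_comp, LinearMap.comp_apply, hcon v, map_zero]
  set w := F v with hw
  have hwV : w ∈ V := hFV v
  -- the relation for every Frobenius element
  have hES : ∀ g : H31.GQ, A.IsFrobeniusAt g p →
      (LinearMap.trace O ρ.V (ρ.ρ g) - a) • D.baseChange O ((galTate p J g).baseChange O w) =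
        (LinearMap.det (ρ.ρ g) - (p : O)) • D.baseChange O w := by
    intro g hg
    have h1 : D ∘ₗ galTate p J g ∘ₗ galTate p J g - D ∘ₗ galTate p J g ∘ₗ tateMap Tp +
        (p : ℤ_[p]) • D = 0 := by
      refine LinearMap.ext fun x => Subtype.ext (TateMod.ext fun n => ?_)
      show TateMod.proj n ((D (galTate p J g (galTate p J g x)) : TateMod p M) -
        (D (galTate p J g (tateMap Tp x)) : TateMod p M) + (p : ℤ_[p]) • (D x : TateMod p M)) = 0
      rw [map_add, map_sub, TateMod.natCast_smul, map_nsmul, hDapp, hDapp, hDapp, proj_galTate,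
        proj_galTate, proj_galTate, proj_tateMap, hfr g hg, hfr g hg, hfr g hg]
      exact hrel _
    have h2 := congrArg (fun f => LinearMap.baseChange O f w) h1
    simp only [LinearMap.baseChange_add, LinearMap.baseChange_sub, LinearMap.baseChange_comp,
      LinearMap.baseChange_smul, LinearMap.baseChange_zero, LinearMap.add_apply,
      LinearMap.sub_apply, LinearMap.comp_apply, LinearMap.smul_apply, LinearMap.zero_apply] at h2
    rw [hTp w hwV, map_smul, map_smul, ← algebraMap_smul O (p : ℤ_[p]), map_natCast] at h2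
    have h3 := congrArg (D.baseChange O) (hquad g w hwV)
    rw [map_add, map_sub, map_smul, map_smul, map_zero] at h3
    linear_combination (norm := module) h2 - h3
  -- two Frobenius elements
  have hp : 0 < p := (Fact.out : p.Prime).pos
  have hpne : NeZero p := ⟨hp.ne'⟩
  obtain ⟨ζ, hζ⟩ := HasEnoughRootsOfUnity.exists_primitiveRoot (AlgebraicClosure ℚ) p
  obtain ⟨σ, hσ, hσζ⟩ := exists_inertia_two hp2 hA hζ
  obtain ⟨d, hd⟩ := det_sub_one_mem hdet hζ hσζ
  have hσ1 : LinearMap.det (ρ.ρ σ) ≠ 1 := by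
    intro h1
    rw [h1] at hd
    have h2 : (1 : O) = - (p * d) := by rw [← hd]; push_cast; ring
    have h5 : (1 : O) ∈ maximalIdeal O := by
      rw [h2]
      exact Ideal.neg_mem_iff _ |>.mpr (Ideal.mul_mem_right _ _ hpO)
    exact (Ideal.ne_top_iff_one _).mp (maximalIdeal.isMaximal O).ne_top h5
  have e1 := hES φ hφ
  have e2 := hES (φ * σ) (hFrobI φ σ hφ hσ)
  have hDσ : D.baseChange O ((galTate p J (φ * σ)).baseChange O w) =
      D.baseChange O ((galTate p J φ).baseChange O w) := by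
    have h1 : D ∘ₗ galTate p J (φ * σ) = D ∘ₗ galTate p J φ := by
      refine LinearMap.ext fun x => Subtype.ext (TateMod.ext fun n => ?_)
      show TateMod.proj n (D (galTate p J (φ * σ) x) : TateMod p M) =
        TateMod.proj n (D (galTate p J φ x) : TateMod p M)
      rw [hDapp, hDapp, proj_galTate, proj_galTate, mul_smul, hfr φ hφ, hfr φ hφ, hin σ hσ]
    rw [← LinearMap.comp_apply, ← LinearMap.baseChange_comp, h1, LinearMap.baseChange_comp,
      LinearMap.comp_apply]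
  have hφσd : ρ.ρ (φ * σ) (b 0) ∈ Submodule.span O {b 0} := mem_mul hφd (hb.mem hσ)
  obtain ⟨m1, m2⟩ := hb.mul_inertia hφd hσ
  rw [hDσ, (trace_det hφσd).1, (trace_det hφσd).2, m1, m2, hb.subC_inertia hσ] at e2
  rw [(trace_det hφd).1, (trace_det hφd).2] at e1
  refine unitRoot_alg hv ?_ hσ1 e1 e2
  intro h0
  have h1 : LinearMap.det (ρ.ρ φ) = 0 := by rw [(trace_det hφd).2, h0, zero_mul]
  have h2 : LinearMap.det (ρ.ρ φ) * LinearMap.det (ρ.ρ φ⁻¹) = 1 := by
    rw [← map_mul, ← map_mul, mul_inv_cancel, map_one, map_one]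
  rw [h1, zero_mul] at h2
  exact zero_ne_one h2

end Fermat.Agent.H7.P
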