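/-
H7PRed: reduction of `J₀(N)` at a place over `p ∤ N`, for `p`-power torsion: Eichler–Shimura relation at `p`
and reductions of Kummer functions of classes in the kernel of reduction (helper7, S59 case `b = p`).
-/
import Mathlib
import Fermat.Agent.H17Unr
import Fermat.Agent.H33CaseC2
import Fermat.Agent.H33CaseD
import Fermat.Agent.H33Facts

set_option autoImplicit false

set_option linter.unusedSectionVars false

noncomputable section

open AlgebraicCurve ModularCurve IntermediateField HahnSeries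

namespace Fermat.Agent.H7.P

local notation "Qb" => AlgebraicClosure ℚ
local notation "Gq" => AlgebraicClosure ℚ ≃ₐ[ℚ] AlgebraicClosure ℚ

/-- The properties of the reduction map at a place over `p ∤ N`. -/
structure IsRedP (N : ℕ) [NeZero N] {M : Type} [AddCommGroup M]
    (A : ValuationSubring Qb) (p : ℕ) (hp : p.Prime)
    (s : JZero N →+ M) (F : M →+ M) : Prop where
  inertia : ∀ σ ∈ A.inertiaSubgroupIn ℚ, ∀ x : JZero N, s (σ • x) = s x
  frob : ∀ σ : Gq, A.IsFrobeniusAt σ p → ∀ x : JZero N, s (σ • x) = F (s x)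
  relation : ∀ x : JZero N, F (F (s x)) - F (s (heckeOperatorBar N ⟨p, hp⟩ x)) + p • s x = 0

set_option synthInstance.maxHeartbeats 400000 in
set_option maxHeartbeats 4000000 in
/-- Eichler–Shimura at `p`, for the reduction modulo a place over `p` (no restriction on torsion). -/
theorem exists_isRedP (N : ℕ) [NeZero N] {p : ℕ} (hp : p.Prime) (hpN : ¬ p ∣ N)
    (A : ValuationSubring Qb) (hA : A.LiesOverPrime p) :
    ∃ F : JZeroC (IsLocalRing.ResidueField A) N →+ JZeroC (IsLocalRing.ResidueField A) N,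
      IsRedP N A p hp (reductionModL A N) F := by
  have : NeZero p := ⟨hp.ne_zero⟩
  have : Fact p.Prime := ⟨hp⟩
  have : CharP (IsLocalRing.ResidueField A) p := H60.charP_residue hp hA
  have hR := H42.riemannBound Qb (laurentBaseChange Qb (modularFunctionFieldFull N))
  have hdeg := H42.deg_bar N
  have hred := H17.reductionInputs N hp hpN A hA
  have hH := H42.heckeData N p hp hpN
  obtain ⟨τ, hτ⟩ := H60.exists_frobAut hp hA
  obtain ⟨ζ, hζ, hζ1⟩ := H60.exists_zeta hp hA
  obtain ⟨w, hw⟩ := hH.swap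
  have hr := hred.choose_spec.1
  have hgen := hred.choose_spec.2
  have hs : reductionModL A N = reductionPic0Along hred.choose hr hgen := reductionAlong_eq hred
  refine ⟨DistribSMul.toAddMonoidHom _ (H60.coeffAut N τ), ?_, ?_, ?_⟩
  · rintro σ ⟨σ', hσ', rfl⟩ x
    have hid : ∀ x : IsLocalRing.ResidueField A, σ' • x = RingEquiv.refl _ x := by
      intro x
      have h := MonoidHom.mem_ker.mp hσ'
      exact DFunLike.congr_fun h x
    have hc := H60.compat_of_mem (A := A) σ'.2 (RingEquiv.refl _) hid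
    rw [hs]
    have h1 := H60.reductionPic0Along_smul hR hdeg hr hgen hc x
    rw [H60.coeffAut_refl, one_smul] at h1
    exact h1
  · rintro σ ⟨hσ, hσx⟩ x
    have hc := H60.compat_of_mem (A := A) hσ τ (fun x => (hσx x).trans (hτ x).symm)
    rw [hs]
    exact H60.reductionPic0Along_smul hR hdeg hr hgen hc x
  · intro x
    obtain ⟨hα, hβ, hPD, hfin, hFI, hNF⟩ := hH.inputs
    have hop : heckeOperatorBar N ⟨p, hp⟩ x = heckePic0Bar hα hβ hFI hfin hNF x := by
      exact (heckeOperatorBar_apply N (⟨p, hp⟩ : Nat.Primes) x).trans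
        (DFunLike.congr_fun (heckeOperatorAlong_eq hα hβ hFI hfin hNF) x)
    rw [hop, hs, H60.reductionPic0Along_heckePic0Bar hw hζ hζ1 hα hβ hFI hfin hNF hH.degree_le hR
      hdeg hr hgen hτ x]
    set y : JZeroC (IsLocalRing.ResidueField A) N := reductionPic0Along hred.choose hr hgen x
    show H60.coeffAut N τ • (H60.coeffAut N τ • y) -
      H60.coeffAut N τ • (H60.coeffAut N τ • y + (p : ℤ) • ((H60.coeffAut N τ)⁻¹ • y)) + p • y = 0
    rw [smul_add, SemilinearAut.smul_zsmul, smul_inv_smul, natCast_zsmul]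
    abel

/-! ### Kummer functions of classes in the kernel of reduction -/

section Kum

open H33

variable {N : ℕ} [NeZero N] {p : ℕ} {A : ValuationSubring Qb} {k : Type*} [Field k] {π : A →+* k}

/-- principal divisors come from functions with a reduction with the reduced divisor -/
theorem exists_red_of_principal
    {r : Place Qb (laurentBaseChange Qb (modularFunctionFieldFull N)) →
      Place k (modularFunctionFieldFullC k N)}
    (hr : IsPlaceReductionAlong A π N r)
    (hgen : PrincipalGeneratedByIntegral A π N)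
    {D : Divisor Qb (laurentBaseChange Qb (modularFunctionFieldFull N))}
    (hD : D ∈ Divisor.principal (K := Qb) (F := laurentBaseChange Qb (modularFunctionFieldFull N))) :
    ∃ (g : H99.FX Qb N) (r₁ : modularFunctionFieldFullC k N),
      (∀ v, D v = v.ord g) ∧
      Red A π (g : LaurentSeries Qb) (r₁ : LaurentSeries k) ∧
      ∀ w, Finsupp.mapDomain r D w = w.ord r₁ := by
  have hD' := hgen hD
  clear hD
  induction hD' using AddSubgroup.closure_induction with
  | mem E hE =>
    obtain ⟨y, hy, hyk, hne, hDy⟩ := hE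
    refine ⟨⟨coeffMap A.subtype y, hy⟩, ⟨coeffMap π y, hyk⟩, hDy, ?_,
      hr.2 y hy hyk hne E hDy⟩
    exact Red.of_mem (incl_mem y) (valRes_incl y) hne
  | zero =>
    refine ⟨1, 1, fun v => ?_, ?_, fun w => ?_⟩
    · rw [Finsupp.zero_apply, v.ord_one]
    · exact red_one
    · rw [Finsupp.mapDomain_zero, Finsupp.zero_apply, w.ord_one]
  | add E E' _ _ hE hE' =>
    obtain ⟨g, r₁, h1, h2, h3⟩ := hE
    obtain ⟨g', r₁', h1', h2', h3'⟩ := hE'
    have hg : g ≠ 0 := fun h => h2.ne_zero (by rw [h]; rfl)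
    have hg' : g' ≠ 0 := fun h => h2'.ne_zero (by rw [h]; rfl)
    have hr1 : r₁ ≠ 0 := fun h => h2.1 (by rw [h]; rfl)
    have hr1' : r₁' ≠ 0 := fun h => h2'.1 (by rw [h]; rfl)
    refine ⟨g * g', r₁ * r₁', fun v => ?_, h2.mul h2', fun w => ?_⟩
    · rw [Finsupp.add_apply, h1, h1', v.ord_mul hg hg']
    · rw [Finsupp.mapDomain_add, Finsupp.add_apply, h3, h3', w.ord_mul hr1 hr1']
  | neg E _ hE =>
    obtain ⟨g, r₁, h1, h2, h3⟩ := hE
    refine ⟨g⁻¹, r₁⁻¹, fun v => ?_, h2.inv, fun w => ?_⟩
    · rw [Finsupp.neg_apply, h1, v.ord_inv]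
    · rw [← Finsupp.mapDomain.addMonoidHom_apply, map_neg, Finsupp.mapDomain.addMonoidHom_apply,
        Finsupp.neg_apply, h3, w.ord_inv]

theorem funField_full' (k : Type*) [Field k] [IsAlgClosed k] (m : ℕ) (hm : (m : k) ≠ 0) :
    H94.FunField k (modularFunctionFieldFullC k m) := by
  apply H42.funField_full
  have h := H66.relfinrank_full_of_hasRoots (H66.hasRoots_of_isAlgClosed k) m hm
  rw [h.1]
  exact h.2

/-- **Kummer functions of classes in the kernel of reduction reduce to powers.** -/
theorem red_pow [IsAlgClosed k] (hπ : Function.Surjective π) (hN : (N : k) ≠ 0) {n : ℕ}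
    (hn : n ≠ 0)
    {r : Place Qb (laurentBaseChange Qb (modularFunctionFieldFull N)) →
      Place k (modularFunctionFieldFullC k N)}
    (hr : IsPlaceReductionAlong A π N r) (hgen : PrincipalGeneratedByIntegral A π N)
    {x : JZero N} (hx : reductionPic0Along r hr hgen x = 0) {f : H99.FX Qb N}
    (hf : IsKum n x f) :
    ∃ ω : LaurentSeries k, Red A π (f : LaurentSeries Qb) (ω ^ n) := by
  have hFX : H94.FunField Qb (H99.FX Qb N) := funFieldFX N
  have hFC : H94.FunField k (modularFunctionFieldFullC k N) := funField_full' k N hN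
  obtain ⟨hf0, D, rfl, hD⟩ := hf
  have hx' : (Pic0.mk (reductionDegZeroAlong r hr.1 D) :
      Pic0 k (modularFunctionFieldFullC k N)) = 0 := hx
  have hprin : (n • (D : Divisor Qb (laurentBaseChange Qb (modularFunctionFieldFull N)))) ∈
      Divisor.principal (K := Qb) (F := laurentBaseChange Qb (modularFunctionFieldFull N)) := by
    refine ⟨f, hf0, fun v => ?_⟩
    rw [← hD v]
    simp
  obtain ⟨g, r₁, h1, h2, h3⟩ := exists_red_of_principal hr hgen hprin
  have hg0 : g ≠ 0 := fun h => h2.ne_zero (by rw [h]; rfl)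
  have hr0 : r₁ ≠ 0 := fun h => h2.1 (by rw [h]; rfl)
  have hg : IsKum n (Pic0.mk D) g := ⟨hg0, D, rfl, fun v => by rw [← h1 v]; simp⟩
  obtain ⟨h, hh0, hh⟩ := (show IsKum n (Pic0.mk D) f from ⟨hf0, D, rfl, hD⟩).unique hn hg
  have hr1 : IsKum n (0 : Pic0 k (modularFunctionFieldFullC k N)) r₁ := by
    refine ⟨hr0, reductionDegZeroAlong r hr.1 D, hx', fun w => ?_⟩
    have e : Finsupp.mapDomain r
        (n • (D : Divisor Qb (laurentBaseChange Qb (modularFunctionFieldFull N)))) =
        n • Finsupp.mapDomain r (D : Divisor Qb (laurentBaseChange Qb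
          (modularFunctionFieldFull N))) :=
      map_nsmul (Finsupp.mapDomain.addMonoidHom r) n _
    rw [← h3 w, coe_reductionDegZeroAlong, e, Finsupp.smul_apply, nsmul_eq_mul]
  obtain ⟨ω, hω0, hω⟩ := hr1.unique hn (IsKum.one k)
  have hhL : (h : LaurentSeries Qb) ≠ 0 := fun h' => hh0 (Subtype.ext h')
  obtain ⟨s, hs⟩ := exists_red hπ N (by rw [← H99.FX_eq]; exact h.2) hhL
  refine ⟨(ω : LaurentSeries k) * s, ?_⟩
  have e1 : (f : LaurentSeries Qb) = (g : LaurentSeries Qb) * (h : LaurentSeries Qb) ^ n :=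
    congrArg Subtype.val hh
  have e2 : (r₁ : LaurentSeries k) = (ω : LaurentSeries k) ^ n := by
    have := congrArg Subtype.val hω
    rw [one_mul] at this
    exact this
  rw [e1, mul_pow, ← e2]
  exact h2.mul (hs.pow n)

end Kum

end Fermat.Agent.H7.P
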