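/-
H7P1: (P1) of S59, case `b = p`: for an ordinary representation attached to a system of eigenvalues occurring in
`T_p J₀(N)`, `p ∤ N`, the eigenvalue of `T_p` is `z + p z⁻¹`, `z` the value of the unramified quotient
character at a Frobenius element at `p` (helper7).
-/
import Mathlib
import Fermat.Agent.H7PAbs2
import Fermat.Agent.H7PRed
import Fermat.Agent.H4EAJ

set_option autoImplicit false
set_option linter.unusedSectionVars false

noncomputable section

open IsLocalRing Module TensorProduct AlgebraicCurve ModularCurve CuspForm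
open Fermat.Agent.H30 Fermat.Agent.H31 Fermat.Agent.H35 Fermat.Agent.H62 Fermat.Agent.H4

namespace Fermat.Agent.H7.P

section Frob

variable {p : ℕ} {A : ValuationSubring (AlgebraicClosure ℚ)}

theorem isFrobeniusAt_mul_inertia {φ σ : H31.GQ} (hφ : A.IsFrobeniusAt φ p)
    (hσ : σ ∈ A.inertiaSubgroupIn ℚ) : A.IsFrobeniusAt (φ * σ) p := by
  obtain ⟨hφd, hφ⟩ := hφ
  obtain ⟨σ', hσ', rfl⟩ := hσ
  refine ⟨mul_mem hφd σ'.2, fun x => ?_⟩
  have h1 : σ' • x = x := by
    have h := MonoidHom.mem_ker.mp hσ'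
    exact DFunLike.congr_fun h x
  have h2 : (⟨φ * (σ' : H31.GQ), mul_mem hφd σ'.2⟩ : A.decompositionSubgroup ℚ) =
    ⟨φ, hφd⟩ * σ' := rfl
  rw [show ((⟨φ * ((A.decompositionSubgroup ℚ).subtype σ'), mul_mem hφd σ'.2⟩ :
    A.decompositionSubgroup ℚ)) = ⟨φ, hφd⟩ * σ' from rfl, mul_smul, h1, hφ]

end Frob

section Conc

variable {p : ℕ} [Fact p.Prime] {N : ℕ} [NeZero N] {A : ValuationSubring (AlgebraicClosure ℚ)}

theorem caseC_JZero (hp2 : p ≠ 2) (hpN : ¬ p ∣ N) (hA : A.LiesOverPrime p)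
    (hCL : H33.CLp p N A) :
    CaseC p A (heckeOperatorBar N ⟨p, Fact.out⟩ : JZero N →+ JZero N) := by
  haveI : NeZero p := ⟨(Fact.out : p.Prime).ne_zero⟩
  have h2 : 2 < p := lt_of_le_of_ne (Fact.out : p.Prime).two_le (Ne.symm hp2)
  intro ζ hζ x hpx hT hfix
  exact H33.case_C h2 hA (H33.inertiaFacts hA) hpN hCL hζ hpx hT hfix

theorem caseD_JZero (hp2 : p ≠ 2) (hpN : ¬ p ∣ N) (hA : A.LiesOverPrime p)
    (hCL : H33.CLp p N A) :
    CaseD p A (heckeOperatorBar N ⟨p, Fact.out⟩ : JZero N →+ JZero N) (reductionModL A N) := by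
  haveI : NeZero p := ⟨(Fact.out : p.Prime).ne_zero⟩
  have hp : p.Prime := Fact.out
  have h2 : 2 < p := lt_of_le_of_ne hp.two_le (Ne.symm hp2)
  have hred := H17.reductionInputs N hp hpN A hA
  have hr := hred.choose_spec.1
  have hgen := hred.choose_spec.2
  have hs : reductionModL A N = reductionPic0Along hred.choose hr hgen := reductionAlong_eq hred
  have : CharP (IsLocalRing.ResidueField A) p := H60.charP_residue hp hA
  have : IsAlgClosed (IsLocalRing.ResidueField A) := H18.isAlgClosed_residueField A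
  have hN0 : (N : IsLocalRing.ResidueField A) ≠ 0 := by
    rw [Ne, CharP.cast_eq_zero_iff (IsLocalRing.ResidueField A) p]
    exact hpN
  intro W _ T x hT hpx hsx ζ hζ σ hσ a hσζ w
  refine H33.case_D h2 hA (H33.inertiaFacts hA) hpN hCL T x hT hpx (fun w f hf => ?_) hζ hσ hσζ w
  refine red_pow IsLocalRing.residue_surjective hN0 hp.ne_zero hr hgen ?_ hf
  rw [← hs]
  exact hsx w

variable {O : Type} [CommRing O] [IsDomain O] [IsDiscreteValuationRing O]
  [IsAdicComplete (maximalIdeal O) O] [Finite (ResidueField O)] [CharZero O] [Algebra ℤ_[p] O]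
  {ρ : GaloisRepAdic O} {b : Module.Basis (Fin 2) O ρ.V}

/-- **(P1)** for a Galois-stable lattice of `T_p`-eigenvectors. -/
theorem unitRoot_lattice (hp2 : p ≠ 2) (hpN : ¬ p ∣ N) (hA : A.LiesOverPrime p)
    (hCL : H33.CLp p N A)
    (V : Submodule O (O ⊗[ℤ_[p]] TateMod p (JZero N))) (hV : V ≠ ⊥)
    (hsatV : ∀ c : O, c ≠ 0 → ∀ w, c • w ∈ V → w ∈ V)
    (hst : ∀ g, ∀ w ∈ V, (galTate p (JZero N) g).baseChange O w ∈ V)
    {a : O} (hTp : ∀ w ∈ V,
      (tateMap (heckeOperatorBar N ⟨p, Fact.out⟩ : JZero N →+ JZero N)).baseChange O w = a • w)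
    (hspan : Submodule.span O (Set.range ρ.ρ) = ⊤)
    (hquad : ∀ g, ∀ w ∈ V,
      (galTate p (JZero N) g).baseChange O ((galTate p (JZero N) g).baseChange O w) -
        LinearMap.trace O ρ.V (ρ.ρ g) • (galTate p (JZero N) g).baseChange O w +
          LinearMap.det (ρ.ρ g) • w = 0)
    (hdet : ρ.DetIsCyclotomic p) (hb : OrdAt ρ A b)
    {φ : H31.GQ} (hφ : A.IsFrobeniusAt φ p) (hφb : ρ.ρ φ (b 0) ∈ Submodule.span O {b 0}) :
    IsUnit a ∧ quoC ρ b φ ^ 2 - a * quoC ρ b φ + p = 0 := by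
  have hp : p.Prime := Fact.out
  obtain ⟨Fr, hFr⟩ := exists_isRedP N hp hpN A hA
  exact unitRoot_abs hp2 hA (by simpa using (jzeroInputs N).finite p 1 hp) (reductionModL A N) Fr
    (heckeOperatorBar N ⟨p, Fact.out⟩) hFr.inertia hFr.frob hFr.relation V hV hsatV hst hTp hspan
    hquad hdet hb (caseC_JZero hp2 hpN hA hCL) (caseD_JZero hp2 hpN hA hCL)
    (fun φ σ h1 h2 => isFrobeniusAt_mul_inertia h1 h2) hφ hφb

end Conc

end Fermat.Agent.H7.P
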