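/-
H7P1b: (P1) of S59, case `b = p`: functional form and form for eigenvectors in `O ⊗ T_p J₀(N)` (helper7).
-/
import Mathlib
import Fermat.Agent.H7P1
import Fermat.Agent.H84SSp

set_option autoImplicit false
set_option linter.unusedSectionVars false
set_option linter.style.haveILetI false

noncomputable section

open IsLocalRing Module TensorProduct AlgebraicCurve ModularCurve CuspForm
open Fermat.Agent.H30 Fermat.Agent.H31 Fermat.Agent.H35 Fermat.Agent.H62 Fermat.Agent.H4

namespace Fermat.Agent.H7.P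

section Basis

variable {O : Type*} [CommRing O] [IsDomain O] [IsPrincipalIdealRing O] {W : Type*}
  [AddCommGroup W] [Module O W]

/-- a basis adapted to a nonzero functional -/
theorem exists_adapted_basis (b : Module.Basis (Fin 2) O W) (l : W →ₗ[O] O) (hl : l ≠ 0) :
    ∃ (b' : Module.Basis (Fin 2) O W) (c : O), c ≠ 0 ∧ l (b' 0) = 0 ∧ l (b' 1) = c := by
  classical
  have hfree : Module.Free O W := Module.Free.of_basis b
  have hfin : Module.Finite O W := Module.Finite.of_basis b
  obtain ⟨c, hc⟩ := (IsPrincipalIdealRing.principal (LinearMap.range l : Ideal O)).principal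
  have hc0 : c ≠ 0 := by
    rintro rfl
    apply hl
    refine LinearMap.ext fun w => ?_
    have h1 : l w ∈ (LinearMap.range l : Ideal O) := ⟨w, rfl⟩
    rw [hc] at h1
    simpa using h1
  obtain ⟨v, hv⟩ : ∃ v, l v = c := by
    have h1 : c ∈ (LinearMap.range l : Ideal O) := by
      rw [hc]
      exact Submodule.mem_span_singleton_self c
    exact h1
  have hNfree : Module.Free O (LinearMap.ker l) := sub_free _
  let bN := Module.finBasis O (LinearMap.ker l)
  let b'' : Module.Basis (Fin (finrank O (LinearMap.ker l) + 1)) O W :=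
    Module.Basis.mkFinCons v bN (fun a x hx h => by
      have h1 := congrArg l h
      rw [map_add, map_smul, LinearMap.mem_ker.mp hx, add_zero, map_zero, hv, smul_eq_mul] at h1
      exact (mul_eq_zero.mp h1).resolve_right hc0) (fun z => by
      have h1 : l z ∈ (LinearMap.range l : Ideal O) := ⟨z, rfl⟩
      rw [hc] at h1
      obtain ⟨a, ha⟩ := Submodule.mem_span_singleton.mp h1
      refine ⟨-a, ?_⟩
      rw [LinearMap.mem_ker, map_add, map_smul, hv, smul_eq_mul, ← ha, smul_eq_mul]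
      ring)
  have h2 : finrank O (LinearMap.ker l) + 1 = 2 := by
    have h3 := Module.finrank_eq_card_basis b''
    rw [Module.finrank_eq_card_basis b, Fintype.card_fin, Fintype.card_fin] at h3
    exact h3.symm
  refine ⟨b''.reindex ((finCongr h2).trans (Equiv.swap 0 1)), c, hc0, ?_, ?_⟩
  · rw [Module.Basis.reindex_apply]
    have h4 : ((finCongr h2).trans (Equiv.swap 0 1)).symm 0 =
        Fin.succ ⟨0, by omega⟩ := by
      apply Fin.ext
      simp
    rw [h4]
    have h5 : b'' (Fin.succ ⟨0, by omega⟩) = (bN ⟨0, by omega⟩ : W) := by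
      simp only [b'', Module.Basis.coe_mkFinCons, Fin.cons_succ, Function.comp_apply]
    rw [h5]
    exact (bN ⟨0, by omega⟩).2
  · rw [Module.Basis.reindex_apply]
    have h4 : ((finCongr h2).trans (Equiv.swap 0 1)).symm 1 = 0 := by
      apply Fin.ext
      simp
    rw [h4]
    have h5 : b'' 0 = v := by
      simp only [b'', Module.Basis.coe_mkFinCons, Fin.cons_zero]
    rw [h5, hv]

end Basis

section Main

variable {p : ℕ} [Fact p.Prime] {N : ℕ} [NeZero N] {A : ValuationSubring (AlgebraicClosure ℚ)}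
  {O : Type} [CommRing O] [IsDomain O] [IsDiscreteValuationRing O]
  [IsAdicComplete (maximalIdeal O) O] [Finite (ResidueField O)] [CharZero O] [Algebra ℤ_[p] O]
  {ρ : GaloisRepAdic O}

set_option maxHeartbeats 2000000 in
/-- **(P1)** for an injective equivariant map, functional form. -/
theorem unitRoot_functional (hp2 : p ≠ 2) (hpN : ¬ p ∣ N) (hA : A.LiesOverPrime p)
    (hspan : Submodule.span O (Set.range ρ.ρ) = ⊤) (hdet : ρ.DetIsCyclotomic p)
    (Φ : ρ.V →ₗ[O] O ⊗[ℤ_[p]] TateMod p (JZero N)) (hΦ : Function.Injective Φ)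
    (hgal : ∀ g v, Φ (ρ.ρ g v) = (galTate p (JZero N) g).baseChange O (Φ v))
    {μ : O} (hTp : ∀ v, (tateMap (heckeOperatorBar N ⟨p, Fact.out⟩ :
      JZero N →+ JZero N)).baseChange O (Φ v) = μ • Φ v)
    {φ : H31.GQ} (hφ : A.IsFrobeniusAt φ p)
    (l : ρ.V →ₗ[O] O) (hl : l ≠ 0)
    (hlI : ∀ σ ∈ A.inertiaSubgroupIn ℚ, ∀ v, l (ρ.ρ σ v) = l v)
    {z : O} (hz : ∀ v, l (ρ.ρ φ v) = z * l v) :
    IsUnit μ ∧ z ^ 2 - μ * z + p = 0 := by
  classical
  have hp : p.Prime := Fact.out
  have hTfin : Module.Finite ℤ_[p] (TateMod p (JZero N)) :=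
    TateMod.finite_of_finite_torsion (by simpa using (jzeroInputs N).finite p 1 hp)
  have hTfree : Module.Free ℤ_[p] (TateMod p (JZero N)) :=
    TateMod.free_of_finite_torsion (by simpa using (jzeroInputs N).finite p 1 hp)
  have hcancel : ∀ (c : O), c ≠ 0 → ∀ w : O ⊗[ℤ_[p]] TateMod p (JZero N), c • w = 0 → w = 0 := by
    intro c hc w h
    exact smul_cancel' hc (by rw [h, smul_zero])
  obtain ⟨b₀⟩ : Nonempty (Module.Basis (Fin 2) O ρ.V) := by
    have h1 := ρ.finrank_eq
    exact ⟨Module.finBasisOfFinrankEq O ρ.V h1⟩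
  obtain ⟨b, c₀, hc₀, hl0, hl1⟩ := exists_adapted_basis b₀ l hl
  have hlker : ∀ v, l v = b.repr v 1 * c₀ := by
    intro v
    conv_lhs => rw [← b.sum_repr v]
    rw [Fin.sum_univ_two, map_add, map_smul, map_smul, hl0, hl1, smul_zero, zero_add, smul_eq_mul]
  have hspan0 : ∀ v, l v = 0 → v ∈ Submodule.span O {b 0} := by
    intro v hv
    rw [hlker] at hv
    have h1 := (mul_eq_zero.mp hv).resolve_right hc₀
    rw [← b.sum_repr v, Fin.sum_univ_two, h1, zero_smul, add_zero]
    exact Submodule.smul_mem _ _ (Submodule.mem_span_singleton_self _)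
  have hb : OrdAt ρ A b := fun σ hσ v => hspan0 _ (by rw [map_sub, hlI σ hσ, sub_self])
  have hφb : ρ.ρ φ (b 0) ∈ Submodule.span O {b 0} := hspan0 _ (by rw [hz, hl0, mul_zero])
  have hzq : quoC ρ b φ = z := by
    have h1 := hz (b 1)
    rw [hlker, hl1] at h1
    exact mul_right_cancel₀ hc₀ h1
  -- the saturated lattice
  let V : Submodule O (O ⊗[ℤ_[p]] TateMod p (JZero N)) :=
    { carrier := {w | ∃ c : O, c ≠ 0 ∧ ∃ v, c • w = Φ v}
      zero_mem' := ⟨1, one_ne_zero, 0, by rw [smul_zero, map_zero]⟩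
      add_mem' := by
        rintro x y ⟨c, hc, v, hv⟩ ⟨d, hd, w, hw⟩
        refine ⟨c * d, mul_ne_zero hc hd, d • v + c • w, ?_⟩
        rw [map_add, map_smul, map_smul, ← hv, ← hw, smul_add, smul_smul, smul_smul, mul_comm d c]
      smul_mem' := by
        rintro a x ⟨c, hc, v, hv⟩
        refine ⟨c, hc, a • v, ?_⟩
        rw [map_smul, ← hv, smul_smul, smul_smul, mul_comm] }
  have hVmem : ∀ w, w ∈ V ↔ ∃ c : O, c ≠ 0 ∧ ∃ v, c • w = Φ v := fun w => Iff.rfl
  have hΦV : ∀ v, Φ v ∈ V := fun v => (hVmem _).mpr ⟨1, one_ne_zero, v, one_smul _ _⟩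
  have hV : V ≠ ⊥ := by
    rw [Submodule.ne_bot_iff]
    refine ⟨Φ (b 0), hΦV _, fun h => ?_⟩
    have := hΦ (h.trans (map_zero Φ).symm)
    exact b.ne_zero 0 this
  have hquadΦ : ∀ g v, (galTate p (JZero N) g).baseChange O ((galTate p (JZero N) g).baseChange O
      (Φ v)) - LinearMap.trace O ρ.V (ρ.ρ g) • (galTate p (JZero N) g).baseChange O (Φ v) +
        LinearMap.det (ρ.ρ g) • Φ v = 0 := by
    intro g v
    have h1 := LinearMap.congr_fun (H32.quadratic_of_basis b (ρ.ρ g)) v
    have h2 : ρ.ρ g (ρ.ρ g v) - LinearMap.trace O ρ.V (ρ.ρ g) • ρ.ρ g v +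
        LinearMap.det (ρ.ρ g) • v = 0 := h1
    have h3 := congrArg Φ h2
    rw [map_add, map_sub, map_smul, map_smul, hgal, hgal, map_zero] at h3
    exact h3
  have h := unitRoot_lattice hp2 hpN hA (H84.clp hp hpN hA) V hV
    (fun c hc w hw => by
      obtain ⟨d, hd, v, hv⟩ := hw
      exact ⟨d * c, mul_ne_zero hd hc, v, by rw [mul_smul, hv]⟩)
    (fun g w hw => by
      obtain ⟨d, hd, v, hv⟩ := hw
      exact ⟨d, hd, ρ.ρ g v, by rw [← map_smul, hv, hgal]⟩)
    (a := μ) (fun w hw => by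
      obtain ⟨d, hd, v, hv⟩ := hw
      rw [← sub_eq_zero]
      apply hcancel d hd
      rw [smul_sub, ← map_smul, hv, hTp, smul_comm, hv, sub_self])
    hspan (fun g w hw => by
      obtain ⟨d, hd, v, hv⟩ := hw
      apply hcancel d hd
      have h1 := hquadΦ g v
      rw [← hv, map_smul, map_smul] at h1
      rw [← h1]
      module)
    hdet hb hφ hφb
  rw [hzq] at h
  exact h

end Main

end Fermat.Agent.H7.P
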