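import Mathlib
import Fermat.Agent.H4OrdP
import Fermat.Agent.H7P1b

/-!
# Eigen-analysis at `p` (MODLIFT / S59, helper4): the point forms of helper7's (P1)

* `EAp1` (over the fraction field), `EAp1'` (integral form, as in `EA_unipotent`): level prime to
  `p`, `T_p = η(p) μ`, `l` an inertia invariant functional with `l ∘ ρ(φ) = z l`:
  `μ` is a unit and `z² - μ z + p = 0`.
-/

set_option autoImplicit false
set_option linter.style.haveILetI false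
set_option linter.unusedSectionVars false

noncomputable section

open IsLocalRing Module TensorProduct Polynomial CongruenceSubgroup CuspForm ModularCurve
  AlgebraicCurve Fermat.Agent.H31 Fermat.Agent.H30 Fermat.Agent.H35 Fermat.Agent.H67
  Fermat.Agent.H62 Fermat.Agent.H94.BR Fermat.Agent.H70.Coh Fermat.Agent.H21J
  Fermat.Agent.H70.Mod

namespace Fermat.Agent.H4

section Main

variable {p : ℕ} [hpF : Fact p.Prime] {S : Finset ℕ}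
    {𝒪' : Type} [CommRing 𝒪'] [IsDomain 𝒪'] [IsDiscreteValuationRing 𝒪']
    [IsAdicComplete (IsLocalRing.maximalIdeal 𝒪') 𝒪'] [Finite (IsLocalRing.ResidueField 𝒪')]
    [CharZero 𝒪']

set_option maxHeartbeats 1000000 in
/-- **(EAp1)**: level `M` prime to `p`, `T_p = η(p) μ`. -/
theorem EAp1 {K₁ : Type} [Field K₁] [Algebra 𝒪' K₁] [IsFractionRing 𝒪' K₁]
    (hp2 : p ≠ 2) (hpS : p ∈ S)
    (hp𝒪' : (p : 𝒪') ∈ IsLocalRing.maximalIdeal 𝒪')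
    {N' M : ℕ} (hsq : Squarefree N') (hM0 : 0 < M)
    (hex : ∀ r : ℕ, r.Prime → r ∣ N' → ¬ r * r ∣ M) (hM : N' ∣ M)
    (hMS : ∀ r : ℕ, r.Prime → r ∣ M → r ∈ S)
    (η ψ : (ZMod N')ˣ →* K₁ˣ) (hψ : ψ = η ^ 2) {m : ℕ} (hm : Odd m) (hη : η ^ m = 1)
    {lam : ℕ → 𝒪'} (ρ : GaloisRepAdic 𝒪') (hρ : IsAttached S lam ρ)
    (hirr : ρ.residual.IsIrreducible) (hdet : ρ.DetIsCyclotomic p)
    {y : H1 (gam N' M hM) (psiRep ψ K₁)} (hy : y ≠ 0) (hT : IsEigTw hM S lam η ψ y)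
    (hp : p.Prime) (hpM : ¬ p ∣ M) (hc : p.Coprime N') {μ : 𝒪'}
    (hμ : (tFam hM hp hpM).opH (psiRep ψ K₁) y =
      (((η (ZMod.unitOfCoprime p hc) : K₁ˣ) : K₁) * algebraMap 𝒪' K₁ μ) • y)
    {A : ValuationSubring (AlgebraicClosure ℚ)} (hA : A.LiesOverPrime p)
    {φ : H31.GQ} (hφ : A.IsFrobeniusAt φ p)
    (l : ρ.V →ₗ[𝒪'] 𝒪') (hl : l ≠ 0)
    (hlI : ∀ σ ∈ A.inertiaSubgroupIn ℚ, ∀ v, l (ρ.ρ σ v) = l v)
    {z : 𝒪'} (hz : ∀ v, l (ρ.ρ φ v) = z * l v) :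
    IsUnit μ ∧ z ^ 2 - μ * z + p = 0 := by
  letI : Algebra ℤ_[p] 𝒪' := (padicToAdic 𝒪' hp𝒪').toAlgebra
  have hinj : Function.Injective (algebraMap ℤ_[p] 𝒪') := padicToAdic_injective 𝒪' hp𝒪'
  obtain ⟨L, hL0, hpL, -, Φ, hΦ, hgal, hTp⟩ := ordP_good (K₁ := K₁) hp2 hpS hp𝒪' hinj hsq hM0 hex
    hM hMS η ψ hψ hm hη ρ hρ hirr hy hT hp hpM hc hμ
  haveI := hL0
  exact Fermat.Agent.H7.P.unitRoot_functional hp2 hpL hA
    (H32.span_range_eq_top ρ (absIrr_of_attached hp2 hp𝒪' S lam ρ hρ hirr)) hdet Φ hΦ hgal hTp hφ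
    l hl hlI hz

/-- **(EAp1)**, integral form. -/
theorem EAp1' (hp2 : p ≠ 2) (hpS : p ∈ S)
    (hp𝒪' : (p : 𝒪') ∈ IsLocalRing.maximalIdeal 𝒪')
    {N' M : ℕ} (hsq : Squarefree N') (hM0 : 0 < M)
    (hex : ∀ r : ℕ, r.Prime → r ∣ N' → ¬ r * r ∣ M) (hM : N' ∣ M) (hS : Away M (↑S : Set ℕ))
    (η : (ZMod N')ˣ →* 𝒪'ˣ) {m : ℕ} (hm : Odd m) (hη : η ^ m = 1)
    {lam : ℕ → 𝒪'} (ρ : GaloisRepAdic 𝒪') (hρ : IsAttached S lam ρ)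
    (hirr : ρ.residual.IsIrreducible) (hdet : ρ.DetIsCyclotomic p)
    {x : H1 (gam N' M hM) (psiRep (η ^ 2) 𝒪')} (hx : ∀ c : 𝒪', c ≠ 0 → c • x ≠ 0)
    (hT : ∀ i : Idx (↑S : Set ℕ), Fermat.Agent.H70.Mod.tw hM hS (η ^ 2) η i x = lam i.1 • x)
    (hp : p.Prime) (hpM : ¬ p ∣ M) (hc : p.Coprime N') {μ : 𝒪'}
    (hμ : (tFam hM hp hpM).opH (psiRep (η ^ 2) 𝒪') x =
      (((η (ZMod.unitOfCoprime p hc) : 𝒪'ˣ) : 𝒪') * μ) • x)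
    {A : ValuationSubring (AlgebraicClosure ℚ)} (hA : A.LiesOverPrime p)
    {φ : H31.GQ} (hφ : A.IsFrobeniusAt φ p)
    (l : ρ.V →ₗ[𝒪'] 𝒪') (hl : l ≠ 0)
    (hlI : ∀ σ ∈ A.inertiaSubgroupIn ℚ, ∀ v, l (ρ.ρ σ v) = l v)
    {z : 𝒪'} (hz : ∀ v, l (ρ.ρ φ v) = z * l v) :
    IsUnit μ ∧ z ^ 2 - μ * z + p = 0 := by
  let f := algebraMap 𝒪' (FractionRing 𝒪')
  refine EAp1 (K₁ := FractionRing 𝒪') hp2 hpS hp𝒪' hsq hM0 hex hM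
    (fun r hr hrM => by simpa using hS r hr hrM) (psiMap f η) (psiMap f (η ^ 2))
    (psiMap_pow f η 2) hm (by rw [← psiMap_pow, hη, psiMap_one]) ρ hρ hirr hdet
    (y := h1S hM (η ^ 2) f x) (h1S_ne_zero (K := FractionRing 𝒪') hM (η ^ 2) hx) ?_ hp hpM hc
    (μ := μ) ?_ hA hφ l hl hlI hz
  · intro ℓ hℓ hℓM hc' hℓS
    rw [tFam_h1S_of_tw hM hS η hT hℓ hℓS hℓM hc', smul_smul]
  · rw [opH_h1S, hμ, map_smulₛₗ, map_mul]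
    rfl

end Main

end Fermat.Agent.H4
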