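import Fermat.Agent.H67OrdA
import Fermat.Agent.H33Facts
import Fermat.Agent.H84SSp
import Fermat.Agent.H89Point

/-!
# (ORD_p): Frobenius at `p` on the unramified quotient (helper67)

`Φ : ρ.V → 𝒪' ⊗ T_p J₀` equivariant, `ρ` residually absolutely irreducible with cyclotomic
determinant, `p` odd, `l : ρ.V → 𝒪'` a nonzero functional invariant under inertia at `A ∣ p` with
`l ∘ ρ(φ) = z l`, `φ` a Frobenius element at `A`.

* `ordP_new` (level `M p`, `p ∤ M`, both pushforwards vanish, `w = - s`): `z = s`;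
* `ordP_old` (level `M`, `p ∤ M`, `T_p = μ`, `ρ` residually ordinary): `z ^ 2 - μ z + p = 0`.
-/

set_option autoImplicit false
set_option linter.unusedSectionVars false
set_option linter.style.haveILetI false

noncomputable section

open ModularCurve AlgebraicCurve Fermat.Agent.H33 Fermat.Agent.H30 Fermat.Agent.H31
  TensorProduct

namespace Fermat.Agent.H67.Dl

local notation "Qb" => AlgebraicClosure ℚ
local notation "Gq" => AlgebraicClosure ℚ ≃ₐ[ℚ] AlgebraicClosure ℚ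

section Ctr

variable {p : ℕ} [Fact p.Prime] {O : Type*} [CommRing O] [Algebra ℤ_[p] O]
  {T T' : Type*} [AddCommGroup T] [Module ℤ_[p] T] [AddCommGroup T'] [Module ℤ_[p] T']

/-- contraction with a functional -/
def ctr (c : O →ₗ[ℤ_[p]] ℤ_[p]) (T : Type*) [AddCommGroup T] [Module ℤ_[p] T] :
    O ⊗[ℤ_[p]] T →ₗ[ℤ_[p]] T :=
  (TensorProduct.lid ℤ_[p] T).toLinearMap ∘ₗ c.rTensor T

theorem ctr_tmul (c : O →ₗ[ℤ_[p]] ℤ_[p]) (a : O) (x : T) : ctr c T (a ⊗ₜ[ℤ_[p]] x) = c a • x := by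
  simp [ctr]

theorem ctr_baseChange (c : O →ₗ[ℤ_[p]] ℤ_[p]) (f : T →ₗ[ℤ_[p]] T') (u : O ⊗[ℤ_[p]] T) :
    ctr c T' (f.baseChange O u) = f (ctr c T u) := by
  induction u using TensorProduct.induction_on with
  | zero => simp
  | add x y hx hy => rw [map_add, map_add, map_add, map_add, hx, hy]
  | tmul a x => rw [LinearMap.baseChange_tmul, ctr_tmul, ctr_tmul, map_smul]

theorem ctr_eq_zero [Module.Free ℤ_[p] O] {u : O ⊗[ℤ_[p]] T}
    (h : ∀ c : O →ₗ[ℤ_[p]] ℤ_[p], ctr c T u = 0) : u = 0 := by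
  classical
  let b := Module.Free.chooseBasis ℤ_[p] O
  obtain ⟨n, rfl⟩ := TensorProduct.eq_repr_basis_left b u
  have h1 : n = 0 := by
    ext j
    have h2 := h (b.coord j)
    rw [Finsupp.sum, map_sum] at h2
    rw [Finsupp.zero_apply, ← h2]
    simp only [ctr_tmul, Module.Basis.coord_apply, Module.Basis.repr_self]
    rw [Finset.sum_eq_single j]
    · simp
    · intro i _ hij
      rw [Finsupp.single_apply, if_neg hij, zero_smul]
    · intro hj
      rw [Finsupp.notMem_support_iff.mp hj, smul_zero]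
  rw [h1, Finsupp.sum_zero_index]

theorem ctr_intCast (c : O →ₗ[ℤ_[p]] ℤ_[p]) (n : ℤ) (u : O ⊗[ℤ_[p]] T) :
    ctr c T ((n : O) • u) = n • ctr c T u := by
  induction u using TensorProduct.induction_on with
  | zero => simp
  | add x y hx hy => rw [smul_add, map_add, map_add, hx, hy, smul_add]
  | tmul a x =>
    rw [TensorProduct.smul_tmul', ctr_tmul, ctr_tmul, smul_eq_mul, ← zsmul_eq_mul, map_zsmul,
      smul_assoc]

theorem exists_ctr_ne_zero [Module.Free ℤ_[p] O] {V : Type*} [AddCommGroup V] [Module O V]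
    {Φ : V →ₗ[O] O ⊗[ℤ_[p]] T} (hΦ : Φ ≠ 0) :
    ∃ c : O →ₗ[ℤ_[p]] ℤ_[p], (ctr c T).toAddMonoidHom.comp Φ.toAddMonoidHom ≠ 0 := by
  by_contra hall
  push Not at hall
  apply hΦ
  refine LinearMap.ext fun v => ?_
  rw [LinearMap.zero_apply]
  exact ctr_eq_zero fun c => DFunLike.congr_fun (hall c) v

end Ctr

/-- Two functionals invariant under an endomorphism of determinant `≠ 1` of a module of rank two
are proportional. -/
theorem eq_zero_of_functionals {O : Type*} [CommRing O] [IsDomain O] {V : Type*} [AddCommGroup V]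
    [Module O V] [Module.Free O V] [Module.Finite O V] (hV : Module.finrank O V = 2)
    (σ : V →ₗ[O] V) (hdet : LinearMap.det σ ≠ 1) (l l' : V →ₗ[O] O) (hl : ∀ v, l (σ v) = l v)
    (hl' : ∀ v, l' (σ v) = l' v) (h0 : l' ≠ 0) {v : V} (hv : l' v = 0) : l v = 0 := by
  classical
  let b : Module.Basis (Fin 2) O V := Module.finBasisOfFinrankEq O V hV
  have hexp : ∀ y : V, y = b.repr y 0 • b 0 + b.repr y 1 • b 1 := fun y => by
    have := b.sum_repr y
    rw [Fin.sum_univ_two] at this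
    exact this.symm
  have e : ∀ (f : V →ₗ[O] O) (y : V), f y = b.repr y 0 * f (b 0) + b.repr y 1 * f (b 1) :=
    fun f y => by
      conv_lhs => rw [hexp y]
      rw [map_add, map_smul, map_smul, smul_eq_mul, smul_eq_mul]
  have a00 := e l (σ (b 0))
  have a01 := e l (σ (b 1))
  have a10 := e l' (σ (b 0))
  have a11 := e l' (σ (b 1))
  rw [hl] at a00 a01
  rw [hl'] at a10 a11
  set s00 := b.repr (σ (b 0)) 0
  set s10 := b.repr (σ (b 0)) 1
  set s01 := b.repr (σ (b 1)) 0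
  set s11 := b.repr (σ (b 1)) 1
  have hD : l (b 0) * l' (b 1) - l (b 1) * l' (b 0) = 0 := by
    by_contra hD
    apply hdet
    have r00 : s00 = 1 := by
      have : (l (b 0) * l' (b 1) - l (b 1) * l' (b 0)) * (s00 - 1) = 0 := by
        linear_combination (-l' (b 1)) * a00 + l (b 1) * a10
      exact sub_eq_zero.mp ((mul_eq_zero.mp this).resolve_left hD)
    have r10 : s10 = 0 := by
      have : (l (b 0) * l' (b 1) - l (b 1) * l' (b 0)) * s10 = 0 := by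
        linear_combination (l' (b 0)) * a00 - l (b 0) * a10
      exact (mul_eq_zero.mp this).resolve_left hD
    have r01 : s01 = 0 := by
      have : (l (b 0) * l' (b 1) - l (b 1) * l' (b 0)) * s01 = 0 := by
        linear_combination (-l' (b 1)) * a01 + l (b 1) * a11
      exact (mul_eq_zero.mp this).resolve_left hD
    have r11 : s11 = 1 := by
      have : (l (b 0) * l' (b 1) - l (b 1) * l' (b 0)) * (s11 - 1) = 0 := by
        linear_combination (l' (b 0)) * a01 - l (b 0) * a11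
      exact sub_eq_zero.mp ((mul_eq_zero.mp this).resolve_left hD)
    rw [← LinearMap.det_toMatrix b, Matrix.det_fin_two, LinearMap.toMatrix_apply,
      LinearMap.toMatrix_apply, LinearMap.toMatrix_apply, LinearMap.toMatrix_apply]
    show s00 * s11 - s01 * s10 = 1
    rw [r00, r10, r01, r11]
    ring
  have h1 := e l' v
  have h2 := e l v
  rw [hv] at h1
  have k0 : l' (b 0) * l v = 0 := by
    rw [h2]
    linear_combination (-b.repr v 1) * hD - l (b 0) * h1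
  have k1 : l' (b 1) * l v = 0 := by
    rw [h2]
    linear_combination (b.repr v 0) * hD - l (b 1) * h1
  by_contra hne
  apply h0
  refine b.ext fun i => ?_
  fin_cases i
  · exact (mul_eq_zero.mp k0).resolve_right hne
  · exact (mul_eq_zero.mp k1).resolve_right hne

section Abs

variable {p : ℕ} [Fact p.Prime] {O : Type*} [CommRing O] [IsDomain O] [Algebra ℤ_[p] O]
  [Module.Free ℤ_[p] O]
  {T : Type*} [AddCommGroup T] [Module ℤ_[p] T] [Module.Finite ℤ_[p] T]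
  {V : Type*} [AddCommGroup V] [Module O V] [Module.Free O V] [Module.Finite O V]

/-- The key step. -/
theorem functional_abs (Δ : Submodule ℤ_[p] T) (htf : Module.IsTorsionFree ℤ_[p] (T ⧸ Δ))
    (hV : Module.finrank O V = 2) (Φ : V →ₗ[O] O ⊗[ℤ_[p]] T)
    (hnot : ∃ (c : O →ₗ[ℤ_[p]] ℤ_[p]) (v : V), ctr c T (Φ v) ∉ Δ)
    (σ : V →ₗ[O] V) (hdet : LinearMap.det σ ≠ 1)
    (hσ : ∀ (c : O →ₗ[ℤ_[p]] ℤ_[p]) (v : V), ctr c T (Φ (σ v - v)) ∈ Δ)
    (l : V →ₗ[O] O) (hl : ∀ v, l (σ v) = l v)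
    {v : V} (hv : ∀ c : O →ₗ[ℤ_[p]] ℤ_[p], ctr c T (Φ v) ∈ Δ) : l v = 0 := by
  classical
  have hQf : Module.Free ℤ_[p] (T ⧸ Δ) := Module.free_of_finite_type_torsion_free'
  let lam : V →ₗ[O] O ⊗[ℤ_[p]] (T ⧸ Δ) := (Δ.mkQ.baseChange O).comp Φ
  have hlam : ∀ c v, ctr c (T ⧸ Δ) (lam v) = Δ.mkQ (ctr c T (Φ v)) :=
    fun c v => ctr_baseChange c Δ.mkQ (Φ v)
  obtain ⟨c, v₀, hv₀⟩ := hnot
  have hne : lam v₀ ≠ 0 := by
    intro h0
    apply hv₀
    have h1 := hlam c v₀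
    rw [h0, map_zero] at h1
    exact (Submodule.Quotient.mk_eq_zero _).mp h1.symm
  let B := Module.Free.chooseBasis O (O ⊗[ℤ_[p]] (T ⧸ Δ))
  obtain ⟨i, hi⟩ : ∃ i, B.repr (lam v₀) i ≠ 0 := by
    by_contra hcon
    push Not at hcon
    apply hne
    apply B.ext_elem
    intro i
    rw [hcon, map_zero, Finsupp.zero_apply]
  have hvan : ∀ v : V, (∀ c : O →ₗ[ℤ_[p]] ℤ_[p], ctr c T (Φ v) ∈ Δ) →
      ((B.coord i).comp lam) v = 0 := by
    intro v hv
    have h1 : lam v = 0 := ctr_eq_zero fun c => by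
      rw [hlam]
      exact (Submodule.Quotient.mk_eq_zero _).mpr (hv c)
    rw [LinearMap.comp_apply, h1, map_zero]
  refine eq_zero_of_functionals hV σ hdet l ((B.coord i).comp lam) hl (fun v => ?_) (fun h0 => ?_)
    (hvan v hv)
  · rw [← sub_eq_zero, ← map_sub]
    exact hvan _ fun c => hσ c v
  · apply hi
    exact LinearMap.congr_fun h0 v₀

end Abs

section Main

variable {p : ℕ} [Fact p.Prime] [NeZero p] {A : ValuationSubring Qb}
  {𝒪' : Type} [CommRing 𝒪'] [IsDomain 𝒪'] [IsDiscreteValuationRing 𝒪']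
  [IsAdicComplete (IsLocalRing.maximalIdeal 𝒪') 𝒪'] [Finite (IsLocalRing.ResidueField 𝒪')]
  [CharZero 𝒪'] [Algebra ℤ_[p] 𝒪']

variable (p 𝒪') in
theorem free_padic (hp𝒪' : (p : 𝒪') ∈ IsLocalRing.maximalIdeal 𝒪') :
    Module.Free ℤ_[p] 𝒪' := by
  have hfin : Module.Finite ℤ_[p] 𝒪' := H89Point.finite_padic 𝒪' hp𝒪'
  have hinj : ∀ a : ℤ_[p], algebraMap ℤ_[p] 𝒪' a = 0 → a = 0 := by
    intro a ha
    by_contra hne
    rw [PadicInt.unitCoeff_spec hne, map_mul, map_pow, map_natCast] at ha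
    have hp0 : (p : 𝒪') ≠ 0 := Nat.cast_ne_zero.mpr (Fact.out : p.Prime).ne_zero
    rcases mul_eq_zero.mp ha with h | h
    · exact ((PadicInt.unitCoeff hne).isUnit.map (algebraMap ℤ_[p] 𝒪')).ne_zero h
    · exact pow_ne_zero _ hp0 h
  have : Module.IsTorsionFree ℤ_[p] 𝒪' := Module.IsTorsionFree.of_smul_eq_zero fun a x h => by
    rw [Algebra.smul_def] at h
    rcases mul_eq_zero.mp h with h | h
    · exact Or.inl (hinj a h)
    · exact Or.inr h
  exact Module.free_of_finite_type_torsion_free'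

variable {ρ : GaloisRepAdic 𝒪'} {N : ℕ} [NeZero N]
  {Φ : ρ.V →ₗ[𝒪'] 𝒪' ⊗[ℤ_[p]] TateMod p (JZero N)}

/-- the contraction of `Φ` -/
def hc (Φ : ρ.V →ₗ[𝒪'] 𝒪' ⊗[ℤ_[p]] TateMod p (JZero N)) (c : 𝒪' →ₗ[ℤ_[p]] ℤ_[p]) :
    ρ.V →+ TateMod p (JZero N) := (ctr c (TateMod p (JZero N))).toAddMonoidHom.comp Φ.toAddMonoidHom

theorem hc_apply (c : 𝒪' →ₗ[ℤ_[p]] ℤ_[p]) (v : ρ.V) :
    hc Φ c v = ctr c (TateMod p (JZero N)) (Φ v) := rfl

theorem isRealHom_hc (hG : ∀ g x, Φ (ρ.ρ g x) = (galTate p (JZero N) g).baseChange 𝒪' (Φ x))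
    (c : 𝒪' →ₗ[ℤ_[p]] ℤ_[p]) : IsRealHom ρ (⊥ : Ideal 𝒪') (hc Φ c) where
  gal σ v := by rw [hc_apply, hG, ctr_baseChange, hc_apply]
  ker t ht v := by
    rw [Ideal.mem_bot] at ht
    rw [ht, zero_smul, map_zero]

/-- The key step. -/
theorem functional_eq_zero (hp2 : p ≠ 2) (hA : A.LiesOverPrime p)
    (hp𝒪' : (p : 𝒪') ∈ IsLocalRing.maximalIdeal 𝒪')
    (hdet : ρ.DetIsCyclotomic p)
    (hG : ∀ g x, Φ (ρ.ρ g x) = (galTate p (JZero N) g).baseChange 𝒪' (Φ x))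
    (hnot : ∃ (c : 𝒪' →ₗ[ℤ_[p]] ℤ_[p]) (v : ρ.V), hc Φ c v ∉ Delta p A N)
    (l : ρ.V →ₗ[𝒪'] 𝒪') (hlI : ∀ σ ∈ A.inertiaSubgroupIn ℚ, ∀ v, l (ρ.ρ σ v) = l v)
    {v : ρ.V} (hv : ∀ c : 𝒪' →ₗ[ℤ_[p]] ℤ_[p], hc Φ c v ∈ Delta p A N) : l v = 0 := by
  have hp : p.Prime := Fact.out
  have hfree : Module.Free ℤ_[p] 𝒪' := free_padic p 𝒪' hp𝒪'
  have hTf : Module.Finite ℤ_[p] (TateMod p (JZero N)) :=
    TateMod.finite_of_finite_torsion (H90.finite_jzero (N := N) hp.ne_zero)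
  obtain ⟨σ, hσ, hσd⟩ := exists_inertia_isUnit_det ρ hp hp2 hdet A hA
  refine functional_abs (Delta p A N) (Delta.isTorsionFree hA) ρ.finrank_eq Φ hnot (ρ.ρ σ)
    (fun h1 => ?_) (fun c v => ?_) l (hlI σ hσ) hv
  · rw [h1, sub_self] at hσd
    exact not_isUnit_zero hσd
  · show hc Φ c (ρ.ρ σ v - v) ∈ Delta p A N
    rw [map_sub, (isRealHom_hc hG c).gal]
    exact Delta.inertia hσ _

variable {M : ℕ} [NeZero M]

theorem tateMap_congr' {J J₁ : Type*} [AddCommGroup J] [AddCommGroup J₁] {f g : J →+ J₁}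
    (h : ∀ x, f x = g x) (x : TateMod p J) :
    H35.tateMap (p := p) f x = H35.tateMap (p := p) g x := by
  rw [show f = g from AddMonoidHom.ext h]

theorem false_new' {T : Type} [CommRing T] [IsLocalRing T] {ρ : GaloisRepAdic T} {I : Ideal T}
    (hp2 : p ≠ 2) (hA : A.LiesOverPrime p) (hpM : ¬ p ∣ M) (hcop : M.Coprime p)
    (hirr : ρ.residual.IsAbsolutelyIrreducible)
    (hdet : ρ.DetIsCyclotomic p) {h : ρ.V →+ TateMod p (JZero (M * p))}
    (hh : IsRealHom ρ I h) (h0 : h ≠ 0) (hΔ : ∀ v, h v ∈ Delta p A (M * p))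
    (h1 : M * 1 ∣ M * p)
    (hα : ∀ v, H35.tateMap (p := p) (degPush (M := M) (N := M * p) 1 h1) (h v) = 0) {ε : ℤ}
    (hw : ∀ v, H35.tateMap (p := p) (wJ M p rfl hcop) (h v) = ε • h v) : False := by
  have hp : p.Prime := Fact.out
  have hNZ : NeZero (M * p) := ⟨mul_ne_zero (NeZero.ne M) hp.ne_zero⟩
  have hSS : SS2p p M A (alAtkin M p hcop) := H84.ss2p hp hpM hA (alAtkin M p hcop)
  have e1 : ∀ x, degPush (M := M) (N := M * p) 1 h1 x = H67.pushP (heckeAlphaBar Qb M p) x :=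
    fun x => degPush_one_eq h1 x
  have e2 : ∀ x, wJ M p rfl hcop x = H67.pushP (alAtkin M p hcop).W.toAlgHom x :=
    fun x => wJ_eq hcop x
  exact false_new hp2 hA hpM (alAtkin M p hcop) hSS hirr hdet hh h0 hΔ
    (fun v => (tateMap_congr' (p := p) e1 (h v)).symm.trans (hα v))
    (fun v => (tateMap_congr' (p := p) e2 (h v)).symm.trans (hw v))

theorem key_alg {T : Type*} [AddCommGroup T] [Module ℤ_[p] T] (Δ : Submodule ℤ_[p] T) {s : ℤ}
    (hs2 : s * s = 1) {x : T} {G : T →ₗ[ℤ_[p]] T} (h : x + G ((-s) • x) ∈ Δ) :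
    G x - s • x ∈ Δ := by
  have h3 := Δ.neg_mem (zsmul_mem h s)
  have h4 : -(s • (x + G ((-s) • x))) = G x - s • x := by
    rw [map_zsmul, smul_add, smul_smul, mul_neg, hs2, neg_smul, one_smul, neg_add, neg_neg]
    abel
  rwa [h4] at h3

theorem new_zsmul (hA : A.LiesOverPrime p) (hpM : ¬ p ∣ M) (hc : M.Coprime p)
    {x : TateMod p (JZero (M * p))} (h1 : M * 1 ∣ M * p)
    (hα : H35.tateMap (p := p) (degPush (M := M) (N := M * p) 1 h1) x = 0) {ε : ℤ}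
    (hw : H35.tateMap (p := p) (wJ M p rfl hc) x = ε • x)
    {σ : Gq} (hσ : A.IsFrobeniusAt σ p) :
    x + galTate p (JZero (M * p)) σ (ε • x) ∈ Delta p A (M * p) := by
  have h2 := Delta.new hA hpM hc h1 hα hσ
  rwa [hw] at h2

/-- **(P2)** Level `M p`, `p`-new part. -/
theorem ordP_new (hp2 : p ≠ 2) (hA : A.LiesOverPrime p) (hpM : ¬ p ∣ M) (hcop : M.Coprime p)
    (hp𝒪' : (p : 𝒪') ∈ IsLocalRing.maximalIdeal 𝒪')
    (hirr : ρ.residual.IsAbsolutelyIrreducible) (hdet : ρ.DetIsCyclotomic p)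
    {Φ : ρ.V →ₗ[𝒪'] 𝒪' ⊗[ℤ_[p]] TateMod p (JZero (M * p))} (hΦ : Φ ≠ 0)
    (hG : ∀ g x, Φ (ρ.ρ g x) = (galTate p (JZero (M * p)) g).baseChange 𝒪' (Φ x))
    (h1 : M * 1 ∣ M * p)
    (hpush : ∀ x, (H35.tateMap (p := p) (degPush (M := M) (N := M * p) 1 h1)).baseChange 𝒪'
      (Φ x) = 0) {s : ℤ} (hs : s = 1 ∨ s = -1)
    (hw : ∀ x, (H35.tateMap (p := p) (wJ M p rfl hcop)).baseChange 𝒪' (Φ x) =
      ((-s : ℤ) : 𝒪') • Φ x)
    {φ : Gq} (hφ : A.IsFrobeniusAt φ p)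
    (l : ρ.V →ₗ[𝒪'] 𝒪') (hl : l ≠ 0) (hlI : ∀ σ ∈ A.inertiaSubgroupIn ℚ, ∀ v, l (ρ.ρ σ v) = l v)
    {z : 𝒪'} (hlφ : ∀ v, l (ρ.ρ φ v) = z * l v) : z = (s : 𝒪') := by
  classical
  have hp : p.Prime := Fact.out
  have hfree : Module.Free ℤ_[p] 𝒪' := free_padic p 𝒪' hp𝒪'
  have hs2 : s * s = 1 := by rcases hs with rfl | rfl <;> norm_num
  have hα : ∀ c v, H35.tateMap (p := p) (degPush (M := M) (N := M * p) 1 h1) (hc Φ c v) = 0 := by
    intro c v
    have h2 := congrArg (ctr c (TateMod p (JZero M))) (hpush v)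
    rw [ctr_baseChange, map_zero] at h2
    exact h2
  have hwc : ∀ c v, H35.tateMap (p := p) (wJ M p rfl hcop) (hc Φ c v) = (-s) • hc Φ c v := by
    intro c v
    have h2 := congrArg (ctr c (TateMod p (JZero (M * p)))) (hw v)
    rw [ctr_baseChange, ctr_intCast] at h2
    exact h2
  have hnot : ∃ (c : 𝒪' →ₗ[ℤ_[p]] ℤ_[p]) (v : ρ.V), hc Φ c v ∉ Delta p A (M * p) := by
    by_contra hcon
    push Not at hcon
    obtain ⟨c, hc0⟩ : ∃ c : 𝒪' →ₗ[ℤ_[p]] ℤ_[p], hc Φ c ≠ 0 := exists_ctr_ne_zero hΦ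
    exact false_new' hp2 hA hpM hcop hirr hdet (isRealHom_hc hG c) hc0 (hcon c) h1 (hα c)
      (ε := -s) (hwc c)
  have key : ∀ v, l (ρ.ρ φ v - s • v) = 0 := by
    intro v
    refine functional_eq_zero hp2 hA hp𝒪' hdet hG hnot l hlI fun c => ?_
    have h2 : hc Φ c v + galTate p (JZero (M * p)) φ ((-s) • hc Φ c v) ∈ Delta p A (M * p) :=
      new_zsmul hA hpM hcop h1 (hα c v) (hwc c v) hφ
    have e : hc Φ c (ρ.ρ φ v - s • v) =
        galTate p (JZero (M * p)) φ (hc Φ c v) - s • hc Φ c v :=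
      (map_sub (hc Φ c) _ _).trans
        (congrArg₂ _ ((isRealHom_hc hG c).gal φ v) (map_zsmul (hc Φ c) s v))
    rw [e]
    exact key_alg (Delta p A (M * p)) hs2 h2
  obtain ⟨v, hv⟩ : ∃ v, l v ≠ 0 := by
    by_contra hall
    push Not at hall
    exact hl (LinearMap.ext hall)
  have h2 := key v
  rw [map_sub, hlφ, map_zsmul, zsmul_eq_mul, ← sub_mul] at h2
  exact sub_eq_zero.mp ((mul_eq_zero.mp h2).resolve_right hv)

end Main

end Fermat.Agent.H67.Dl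

end
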