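import Mathlib
import Fermat.Agent.H4OrdP
import Fermat.Agent.H67Ord

/-!
# Eigen-analysis at `p` (MODLIFT / S59, helper4): the point forms of helper67's (P2)

* `EAp2` (over the fraction field), `EAp2'` (integral form, as in `EA_steinberg`): level `M₀ p`,
  both traces vanish, `l` an inertia invariant functional with `l ∘ ρ(φ) = z l`: `z = 1` or `-1`.
-/

set_option autoImplicit false
set_option linter.style.haveILetI false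
set_option linter.unusedSectionVars false

noncomputable section

open IsLocalRing Module TensorProduct Polynomial CongruenceSubgroup CuspForm ModularCurve
  AlgebraicCurve Fermat.Agent.H31 Fermat.Agent.H30 Fermat.Agent.H35 Fermat.Agent.H67
  Fermat.Agent.H62 Fermat.Agent.H94.BR Fermat.Agent.H70.Coh Fermat.Agent.H21J
  Fermat.Agent.H70.Mod

namespace Fermat.Agent.H4

section Main

variable {p : ℕ} [hpF : Fact p.Prime] {S : Finset ℕ}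
    {𝒪' : Type} [CommRing 𝒪'] [IsDomain 𝒪'] [IsDiscreteValuationRing 𝒪']
    [IsAdicComplete (IsLocalRing.maximalIdeal 𝒪') 𝒪'] [Finite (IsLocalRing.ResidueField 𝒪')]
    [CharZero 𝒪']

set_option maxHeartbeats 1000000 in
/-- **(EAp2)**: level `M₀ p`, `p ∤ M₀`, both traces vanish. -/
theorem EAp2 {K₁ : Type} [Field K₁] [Algebra 𝒪' K₁] [IsFractionRing 𝒪' K₁]
    (hp2 : p ≠ 2) (hpS : p ∈ S)
    (hp𝒪' : (p : 𝒪') ∈ IsLocalRing.maximalIdeal 𝒪')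
    {N' M₀ : ℕ} [NeZero M₀] (hsq : Squarefree N')
    (hex : ∀ r : ℕ, r.Prime → r ∣ N' → ¬ r * r ∣ M₀) (hM : N' ∣ M₀)
    (hMS : ∀ r : ℕ, r.Prime → r ∣ M₀ * p → r ∈ S)
    (η ψ : (ZMod N')ˣ →* K₁ˣ) (hψ : ψ = η ^ 2) {m : ℕ} (hm : Odd m) (hη : η ^ m = 1)
    {lam : ℕ → 𝒪'} (ρ : GaloisRepAdic 𝒪') (hρ : IsAttached S lam ρ)
    (hirr : ρ.residual.IsIrreducible) (hdet : ρ.DetIsCyclotomic p)
    {y : H1 (gam N' (M₀ * p) (dvd_mul_q hM)) (psiRep ψ K₁)} (hy : y ≠ 0)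
    (hT : IsEigTw (dvd_mul_q hM) S lam η ψ y)
    (hp : p.Prime) (hpM : ¬ p ∣ M₀)
    (h1 : (trFam hM).opH (psiRep ψ K₁) y = 0)
    (h2 : (nuFam hM hp).opH (psiRep ψ K₁) y = 0)
    {A : ValuationSubring (AlgebraicClosure ℚ)} (hA : A.LiesOverPrime p)
    {φ : H31.GQ} (hφ : A.IsFrobeniusAt φ p)
    (l : ρ.V →ₗ[𝒪'] 𝒪') (hl : l ≠ 0)
    (hlI : ∀ σ ∈ A.inertiaSubgroupIn ℚ, ∀ v, l (ρ.ρ σ v) = l v)
    {z : 𝒪'} (hz : ∀ v, l (ρ.ρ φ v) = z * l v) :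
    z = 1 ∨ z = -1 := by
  letI : Algebra ℤ_[p] 𝒪' := (padicToAdic 𝒪' hp𝒪').toAlgebra
  have hinj : Function.Injective (algebraMap ℤ_[p] 𝒪') := padicToAdic_injective 𝒪' hp𝒪'
  haveI : NeZero p := ⟨hp.ne_zero⟩
  obtain ⟨L, hL0, hLp0, hcop, hpL, -, s, hs, Φ, hΦ, hgal, hpush, -, hw⟩ :=
    ordP_new (K₁ := K₁) hp2 hpS hp𝒪' hinj hsq hex hM hMS η ψ hψ hm hη ρ hρ hirr hy hT hp hpM h1 h2
  haveI := hL0
  have hΦ0 : Φ ≠ 0 := by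
    rintro rfl
    obtain ⟨v, hv⟩ : ∃ v : ρ.V, l v ≠ 0 := by
      by_contra hcon
      push Not at hcon
      exact hl (LinearMap.ext hcon)
    have h3 : v = 0 := hΦ (by rw [LinearMap.zero_apply, LinearMap.zero_apply])
    exact hv (by rw [h3, map_zero])
  have h3 := Fermat.Agent.H67.Dl.ordP_new hp2 hA hpL hcop hp𝒪'
    (absIrr_of_attached hp2 hp𝒪' S lam ρ hρ hirr) hdet hΦ0 hgal (Nat.mul_dvd_mul_left L (one_dvd p))
    (hpush _) hs hw hφ l hl hlI hz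
  rcases hs with rfl | rfl
  · left
    rw [h3, Int.cast_one]
  · right
    rw [h3, Int.cast_neg, Int.cast_one]

/-- **(EAp2)**, integral form. -/
theorem EAp2' (hp2 : p ≠ 2) (hpS : p ∈ S)
    (hp𝒪' : (p : 𝒪') ∈ IsLocalRing.maximalIdeal 𝒪')
    {N' M₀ : ℕ} [NeZero M₀] (hsq : Squarefree N')
    (hex : ∀ r : ℕ, r.Prime → r ∣ N' → ¬ r * r ∣ M₀) (hM : N' ∣ M₀)
    (hS : Away (M₀ * p) (↑S : Set ℕ))
    (η : (ZMod N')ˣ →* 𝒪'ˣ) {m : ℕ} (hm : Odd m) (hη : η ^ m = 1)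
    {lam : ℕ → 𝒪'} (ρ : GaloisRepAdic 𝒪') (hρ : IsAttached S lam ρ)
    (hirr : ρ.residual.IsIrreducible) (hdet : ρ.DetIsCyclotomic p)
    {x : H1 (gam N' (M₀ * p) (dvd_mul_q hM)) (psiRep (η ^ 2) 𝒪')}
    (hx : ∀ c : 𝒪', c ≠ 0 → c • x ≠ 0)
    (hT : ∀ i : Idx (↑S : Set ℕ),
      Fermat.Agent.H70.Mod.tw (dvd_mul_q hM) hS (η ^ 2) η i x = lam i.1 • x)
    (hp : p.Prime) (hpM : ¬ p ∣ M₀)
    (h1 : (trFam hM).opH (psiRep (η ^ 2) 𝒪') x = 0)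
    (h2 : (nuFam hM hp).opH (psiRep (η ^ 2) 𝒪') x = 0)
    {A : ValuationSubring (AlgebraicClosure ℚ)} (hA : A.LiesOverPrime p)
    {φ : H31.GQ} (hφ : A.IsFrobeniusAt φ p)
    (l : ρ.V →ₗ[𝒪'] 𝒪') (hl : l ≠ 0)
    (hlI : ∀ σ ∈ A.inertiaSubgroupIn ℚ, ∀ v, l (ρ.ρ σ v) = l v)
    {z : 𝒪'} (hz : ∀ v, l (ρ.ρ φ v) = z * l v) :
    z = 1 ∨ z = -1 := by
  let f := algebraMap 𝒪' (FractionRing 𝒪')
  refine EAp2 (K₁ := FractionRing 𝒪') hp2 hpS hp𝒪' hsq hex hM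
    (fun r hr hrM => by simpa using hS r hr hrM) (psiMap f η) (psiMap f (η ^ 2))
    (psiMap_pow f η 2) hm (by rw [← psiMap_pow, hη, psiMap_one]) ρ hρ hirr hdet
    (y := h1S (dvd_mul_q hM) (η ^ 2) f x)
    (h1S_ne_zero (K := FractionRing 𝒪') (dvd_mul_q hM) (η ^ 2) hx) ?_ hp hpM ?_ ?_
    hA hφ l hl hlI hz
  · intro ℓ hℓ hℓM hc' hℓS
    rw [tFam_h1S_of_tw (dvd_mul_q hM) hS η hT hℓ hℓS hℓM hc', smul_smul]
  · rw [opH_h1S, h1, map_zero]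
  · rw [opH_h1S, h2, map_zero]

end Main

end Fermat.Agent.H4
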