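import Fermat.Agent.H59Def2

/-!
# The measurable space of the model is countably generated (helper50, S47 block (C))
-/

set_option autoImplicit false

namespace Fermat.Agent.H50Z

open Fermat.Agent.H59XF Fermat.Agent.H59D

instance countablyGenerated_X {K : Type*} [Field K] [NumberField K] {J : Type*} [Fintype J]
    (m : Model K J) : MeasurableSpace.CountablyGenerated m.X :=
  inferInstanceAs (MeasurableSpace.CountablyGenerated ((J → H3) × XF m.L.fam))

end Fermat.Agent.H50Z
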