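import Fermat.Agent.H50ZFin
import Fermat.Agent.H79SFam
import Fermat.Agent.H21Z5

/-!
# The target index from the form on `X(E)` (helper50, [TGT-B], S47 block (C))

* `IsEForm.gX_Pk`, `IsEForm.gX_Pk_Wk` : the operators `P` and `P W` at `w0`;
* `IsEForm.exists_p0` : the target index of the comparison.
-/

set_option autoImplicit false
set_option linter.unusedSectionVars false

noncomputable section

open IsDedekindDomain HeightOneSpectrum WithZero NumberField Matrix MeasureTheory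
open scoped MatrixGroups Classical ComplexConjugate

namespace Fermat.Agent.H79S

open Fermat.Agent.H59XF Fermat.Agent.H59D Fermat.Agent.H51Z Fermat.Agent.H7.Z Fermat.Agent.H50Z
open Fermat.Agent.H32Z Fermat.Agent.H42S Fermat.Agent.H21Z
open Fermat.Agent.H17S (gX)

namespace KerData

variable {K : Type*} [Field K] [NumberField K] {J : Type*} [Fintype J] {m : Model K J}
  {S : Finset (HeightOneSpectrum (𝓞 K))} {w0 : HeightOneSpectrum (𝓞 K)}
  {T : HeightOneSpectrum (𝓞 K) → H76U.TD K} (kd : KerData m S w0 T)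

include kd in
theorem lev_w0' : m.L.fam.U w0 = H51Z.Iw (w0.valuation K) := kd.lev_w0.trans (Iw_eq w0)

/-- The kernel of `P` at `w0`. -/
def Pk : LocKer (m.L.fam.U w0) := H51Z.lcast kd.lev_w0' (Pker (disc_nf w0))

/-- The kernel of `W` at `w0`. -/
def Wk : LocKer (m.L.fam.U w0) := H51Z.lcast kd.lev_w0' (Wker (disc_nf w0).v_pi)

end KerData

variable {F E : Type} [Field F] [NumberField F] [Field E] [NumberField E] [Algebra F E]
  {C : CSetup F E} {a : HeightOneSpectrum (𝓞 E) → ℝ}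

theorem CSetup.Pk_eq : C.Pk = C.kE.Pk := rfl

theorem CSetup.Wk_eq : C.Wk = C.kE.Wk := rfl

theorem CSetup.one_lt_q0 (C : CSetup F E) : 1 < (C.q0 : ℝ) := by
  have h := Ideal.absNorm_eq_one_iff (I := C.w0.asIdeal)
  have h1 : Ideal.absNorm C.w0.asIdeal ≠ 1 := fun h0 => C.w0.isPrime.ne_top (h.1 h0)
  have h2 : Ideal.absNorm C.w0.asIdeal ≠ 0 := by
    rw [Ne, Ideal.absNorm_eq_zero_iff]
    exact C.w0.ne_bot
  have h3 : 1 < Ideal.absNorm C.w0.asIdeal := by omega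
  exact_mod_cast h3

namespace IsEForm

section Fun

variable {Φ : C.mE.X → ℂ} (h : IsEForm C a Φ)
include h

theorem rInv0 (τ : Fin 3 → H3) :
    RInv (C.w0.valuation E) C.mE.L.fam C.w0 (fun y => Φ (τ, y)) := by
  intro x g u hu
  exact h.inv0 τ x g u (by rw [U0_eq]; exact hu)

/-- `P Φ = (q + 1) Φ`. -/
theorem gX_Pk (x : C.mE.X) :
    gX (single C.w0 C.Pk) Φ x = ((C.q0 : ℝ) + 1 : ℝ) * Φ x := by
  have h1 : gX (single C.w0 C.Pk) Φ x = lop C.w0 C.Pk (fun y => Φ (x.1, y)) x.2 := by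
    rw [H17S.gX_eq_gop, gop_single]
  rw [h1]
  have h2 := lop_Pker_inv C.lev_w0' (disc_nf C.w0) (h.rInv0 x.1)
  refine (congrFun h2 x.2).trans ?_
  rw [card_reps_nf', pow_one, Pi.smul_apply, smul_eq_mul, CSetup.q0]
  push_cast
  rfl

/-- `P (W Φ) = T Φ = q^(1/2) a Φ`. -/
theorem gX_Pk_Wk (x : C.mE.X) :
    gX (single C.w0 C.Pk) (gX (single C.w0 C.Wk) Φ) x = (evT a C.w0 : ℂ) * Φ x := by
  have h1 : gX (single C.w0 C.Pk) (gX (single C.w0 C.Wk) Φ) x =
      lop C.w0 C.Pk (lop C.w0 C.Wk (fun y => Φ (x.1, y))) x.2 := by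
    rw [H17S.gX_eq_gop, gop_single]
    have e : (fun y : XF C.mE.L.fam => gX (single C.w0 C.Wk) Φ (x.1, y)) =
        lop C.w0 C.Wk (fun y => Φ (x.1, y)) := by
      funext y
      rw [H17S.gX_eq_gop, gop_single]
    rw [e]
  rw [h1]
  obtain ⟨g, hg⟩ := QuotientGroup.mk_surjective (x.2 C.w0)
  have h2 := lop_Pker_Wker_inv C.lev_w0' (disc_nf C.w0) (h.rInv0 x.1) x.2 g hg.symm
  refine h2.trans ?_
  have hϖ := (disc_nf C.w0).v_pi
  have hR := (disc_nf C.w0).isReps 1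
  have h3 := h.hecke0 _ hϖ _ hR x.1 x.2 g hg.symm
  refine Eq.trans ?_ h3.symm
  rw [repsT, Finset.sum_insert, Finset.sum_image, add_comm]
  · congr 1
    · refine Finset.sum_congr rfl fun b _ => ?_
      rw [mk_bm_eq, mul_assoc]
    · rw [mk_dm_eq]
  · intro b hb b' hb' hbb
    exact mk_bm_inj hbb
  · intro hmem
    obtain ⟨b, hb, hbb⟩ := Finset.mem_image.1 hmem
    exact bm_ne_dm hϖ hbb

end Fun

section B

variable {Φb : BInv PGL(2, E) C.mE.X} (h : IsEForm C a (Φb : C.mE.X → ℂ))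
include h

theorem ne_zero : Φb ≠ 0 := by
  rintro rfl
  obtain ⟨x, hx⟩ := h.ne
  exact hx rfl

theorem P_apply : gopB C.mE (single C.w0 C.Pk) Φb = (((C.q0 : ℝ) + 1 : ℝ) : ℂ) • Φb :=
  Subtype.ext (funext fun x => h.gX_Pk x)

theorem P_W_apply : gopB C.mE (single C.w0 C.Pk) (gopB C.mE (single C.w0 C.Wk) Φb) =
    ((Real.sqrt (C.q0 : ℝ) * a C.w0 : ℝ) : ℂ) • Φb :=
  Subtype.ext (funext fun x => h.gX_Pk_Wk x)

theorem T_apply {w : HeightOneSpectrum (𝓞 E)} (hw : w ∉ C.SE) (h0 : w ≠ C.w0) :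
    gopB C.mE (single w (C.kE.D.T w)) Φb = (evT a w : ℂ) • Φb :=
  Subtype.ext (funext fun x => h.hecke w hw h0 x)

theorem eS_apply : gopB C.mE C.kE.D.eS Φb = Φb :=
  Subtype.ext (funext fun x => h.eS x)

end B

end IsEForm

/-! ### Commutation with `W` -/

section Comm

variable {K : Type} [Field K] [NumberField K] {J : Type} [Fintype J] {m : Model K J}

theorem commute_single {w w' : HeightOneSpectrum (𝓞 K)} (h : w ≠ w')
    (κ : LocKer (m.L.fam.U w)) (κ' : LocKer (m.L.fam.U w')) :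
    Commute (gopB m (single w κ)) (gopB m (single w' κ')) :=
  gopB_commute m (gmul_single_comm h κ κ')

end Comm

/-! ### The target index -/

namespace IsEForm

variable {Φb : BInv PGL(2, E) C.mE.X} (h : IsEForm C a (Φb : C.mE.X → ℂ))
  {ν : Measure C.mE.X} [IsFiniteMeasure ν]
  [MeasurableSpace.CountablyGenerated C.mE.X]
  {K : C.mE.X → C.mE.X → ℂ} {J : Type} {hK : BK K}
  {hG : ∀ (g : PGL(2, E)) x y, K (g • x) y = K x y} (D : OpData J hK ν hG)
include h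

/-- **[TGT-B]** The target index of the comparison. -/
theorem exists_p0 (hsym : ∀ x y, K y x = conj (K x y)) (ha : |a C.w0| ≤ 2)
    (hW : D.W = gopB C.mE (single C.w0 C.Wk))
    (hP : D.P = D.W * gopB C.mE (single C.w0 C.Pk) * D.W) (hq : D.q = (C.q0 : ℝ))
    {c : ℝ} (hc : c ≠ 0) (hker : kop hK ν hG Φb = (c : ℂ) • Φb)
    {χ : D.N → ℂ} (hχ : ∀ k, k ≠ D.u → D.Y k Φb = χ k • Φb)
    (hcomm : ∀ k, k ≠ D.u → Commute (D.Y k) D.W) (hσu : D.σ D.u = D.u)
    (hσ : ∀ k, k ≠ D.u → χ (D.σ k) = χ k) :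
    ∃ (y : ℂ) (p₀ : (D.side hsym).I), ‖y‖ = 1 ∧ y ^ 2 - a C.w0 * y + 1 = 0 ∧
      p₀.1 = ⟨c, hc⟩ ∧ 0 < (D.side hsym).a p₀.1 ∧ (D.side hsym).z p₀ = y ^ D.e ∧
      1 ≤ ‖(D.side hsym).z p₀‖ ∧ (∀ k, k ≠ D.u → (p₀.2.1 : D.N → ℂ) k = χ k) ∧
      ∀ l, D.j l ≠ D.u → ((D.side hsym).x p₀ l : ℂ) = χ (D.j l) :=
  H50Z.exists_p0 D hsym hc (by rw [hq]; exact C.one_lt_q0) hP h.ne_zero hker ha
    (by rw [hq]; exact h.P_apply) (by rw [hq, hW]; exact h.P_W_apply) hχ hcomm hσu hσ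

end IsEForm

end Fermat.Agent.H79S

end
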