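import Fermat.Agent.H79SDef
import Fermat.Agent.H51ZIwEq
import Fermat.Agent.H7ZForm

/-!
# Local kernels given by their values; consequences for functions (helper7, S47, block (C))

* `isInd_eq_lind`, `heckeX_of_lop`, `uX_of_lop` : Hecke equations from the kernels of helper79;
* `typed_of_lop` : `lop w κ φ = φ` for the idempotent of a type implies that `φ` is typed;
* `lop_of_gop_eS`, `lop_T_of_mono`, `lop_U_of_mono` : from the global monomial kernels to the local
  ones.
-/

set_option autoImplicit false
set_option linter.unusedSectionVars false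

open IsDedekindDomain HeightOneSpectrum WithZero NumberField Matrix
open scoped MatrixGroups Classical

noncomputable section

namespace Fermat.Agent.H7.Z

open Fermat.Agent.H59XF Fermat.Agent.H59D Fermat.Agent.H76U Fermat.Agent.H51Z
open Fermat.Agent.H79S (IsInd IsTyp HData KerData)

/-! ### Indicators -/

section Ind

variable {G : Type*} [Group G] {H : Subgroup G}

theorem isInd_eq_lind {κ : LocKer H} {D : Set G} (h : IsInd κ D) (hD : DC H D) :
    κ = lind D hD := by
  apply LocKer.ext'
  intro x y
  induction x using QuotientGroup.induction_on with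
  | H g =>
    induction y using QuotientGroup.induction_on with
    | H g' =>
      rw [lind_k]
      split_ifs with hh
      · exact (h g g').1 hh
      · exact (h g g').2 hh

end Ind

section Hecke

variable {K : Type*} [Field K] [NumberField K] {L : LevelFam PGL(2, K) (HeightOneSpectrum (𝓞 K))}
  {w : HeightOneSpectrum (𝓞 K)} {κ : LocKer (L.U w)} {φ : XF L → ℂ}

/-- The Hecke equation from the kernel of `T_w` given by its values. -/
theorem heckeEq_of_isInd (hL : L.U w = H59D.U0 w) (hκ : IsInd κ (cellT (w.valuation K)))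
    {lam : ℂ} (h : lop w κ φ = lam • φ)
    {ϖ : Kˣ} (hϖ : w.valuation K (ϖ : K) = exp (-(1 : ℤ))) {R : Finset K}
    (hR : IsReps (w.valuation K) 1 R) : HeckeEq (borP K) L φ w ϖ R lam := by
  have hL' : L.U w = H51Z.U0 (w.valuation K) := hL.trans (U0_eq w)
  have hDC : DC (L.U w) (cellT (w.valuation K)) := (disc_nf w).dcT.of_eq hL'
  rw [isInd_eq_lind hκ hDC] at h
  exact heckeEq_of_lop hDC hL' h hϖ hR

/-- The `U`-equation from the kernel of `U_w` given by its values. -/
theorem uEq_of_isInd (hL : L.U w = H83Z.Iw w)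
    (hκ : IsInd κ (cellU (w.valuation K) (exp (-(1 : ℤ)))))
    {u : ℂ} (h : lop w κ φ = u • φ)
    {ϖ : Kˣ} (hϖ : w.valuation K (ϖ : K) = exp (-(1 : ℤ))) {R : Finset K}
    (hR : IsReps (w.valuation K) 1 R) : UEq (borP K) L φ w ϖ R u := by
  have hL' : L.U w = H51Z.Iw (w.valuation K) := hL.trans (Iw_eq w)
  refine uEq_of_lop hL' ?_ hϖ hR
  have h1 : κ = lcast hL' (Uker (disc_nf w) 1) := by
    apply LocKer.ext'
    intro x y
    induction x using QuotientGroup.induction_on with
    | H g =>
      induction y using QuotientGroup.induction_on with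
      | H g' =>
        rw [lcast_k, Uker_k, Nat.cast_one]
        split_ifs with hh
        · exact (hκ g g').1 hh
        · exact (hκ g g').2 hh
  rw [← h1]
  exact h

end Hecke

/-! ### Types -/

section Types

variable {G : Type*} [Group G] {ι : Type*} {L : LevelFam G ι} {i : ι} {κ : LocKer (L.U i)}
  {H : Subgroup G} {χ : G → ℂ}

/-- Functions fixed by the idempotent of a type are typed. -/
theorem typed_of_lop (hκ : IsTyp κ H χ) (hmul : ∀ g ∈ H, ∀ h ∈ H, χ (g * h) = χ g * χ h)
    (hone : χ 1 = 1) {E : Type*} [AddCommGroup E] [Module ℂ E] {φ : XF L → E}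
    (hφ : lop i κ φ = φ) {h : G} (hh : h ∈ H) (y : XF L) (g : G) :
    φ (XF.upd y i ((g * h : G) : G ⧸ L.U i)) = χ h • φ (XF.upd y i ((g : G) : G ⧸ L.U i)) := by
  have hker : ∀ z : G ⧸ L.U i, κ.k ((g * h : G) : G ⧸ L.U i) z =
      χ h * κ.k ((g : G) : G ⧸ L.U i) z := by
    intro z
    induction z using QuotientGroup.induction_on with
    | H t =>
      have e : (g * h)⁻¹ * t = h⁻¹ * (g⁻¹ * t) := by group
      by_cases ht : g⁻¹ * t ∈ H
      · have ht' : (g * h)⁻¹ * t ∈ H := by rw [e]; exact H.mul_mem (H.inv_mem hh) ht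
        have h2 : χ h⁻¹ * χ h = 1 := by
          rw [← hmul _ (H.inv_mem hh) _ hh, inv_mul_cancel, hone]
        have h3 : χ h ≠ 0 := right_ne_zero_of_mul_eq_one h2
        have h4 : χ h⁻¹ = (χ h)⁻¹ := eq_inv_of_mul_eq_one_left h2
        rw [(hκ _ _).1 ht', (hκ _ _).1 ht, e, hmul _ (H.inv_mem hh) _ ht, mul_inv, h4, inv_inv]
        ring
      · have ht' : (g * h)⁻¹ * t ∉ H := by
          intro hcon
          apply ht
          have : g⁻¹ * t = h * ((g * h)⁻¹ * t) := by rw [e]; group
          rw [this]
          exact H.mul_mem hh hcon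
        rw [(hκ _ _).2 ht', (hκ _ _).2 ht, mul_zero]
  have h1 : lop i κ φ (XF.upd y i ((g * h : G) : G ⧸ L.U i)) =
      χ h • lop i κ φ (XF.upd y i ((g : G) : G ⧸ L.U i)) := by
    rw [lop_eq_sum i κ φ (XF.upd y i ((g * h : G) : G ⧸ L.U i))
      (s := ls κ ((g : G) : G ⧸ L.U i)), lop_def, Finset.smul_sum, XF.upd_same, XF.upd_same]
    · refine Finset.sum_congr rfl fun z _ => ?_
      rw [hker, XF.upd_upd, XF.upd_upd, smul_smul]
    · intro z hz
      rw [XF.upd_same, hker] at hz
      exact mem_ls.2 (right_ne_zero_of_mul hz)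
  rw [hφ] at h1
  exact h1

end Types

/-! ### Global monomials -/

section Mono

variable {G : Type*} [Group G] {ι : Type*} {L : LevelFam G ι} (D : HData L)
  {A : Type*} [AddCommGroup A] [Module ℂ A] {φ : XF L → A}

theorem lop_e_of_eS (h : gop D.eS φ = φ) {i : ι} (hi : i ∈ D.S) : lop i (D.e i) φ = φ := by
  have h1 : gmul (single i (D.e i)) D.eS = D.eS := by
    apply gext; intro j
    rw [gmul_loc]
    by_cases hj : j = i
    · subst hj
      rw [single_same, HData.eS, HData.mono_loc, D.loc_S hi, D.e_mul _ hi]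
    · rw [single_ne hj, one_lmul]
  have h2 : gop (single i (D.e i)) (gop D.eS φ) = gop D.eS φ := by rw [← gop_gmul, h1]
  rwa [h, gop_single] at h2

theorem gop_mono_single (h : gop D.eS φ = φ) {i : ι} (hi : i ∉ D.S) (h0 : i ≠ D.w0) :
    gop (D.mono (Finsupp.single i 1) 0) φ = lop i (D.T i) φ := by
  have h1 : gmul (single i (D.T i)) D.eS = D.mono (Finsupp.single i 1) 0 := by
    apply gext; intro j
    rw [gmul_loc]
    by_cases hj : j = i
    · subst hj
      rw [single_same, HData.eS, HData.mono_loc, HData.mono_loc, D.loc_good hi h0,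
        D.loc_good hi h0, Finsupp.zero_apply, Finsupp.single_eq_same, H79S.lpow_zero,
        H79S.lpow_one, lmul_one]
    · rw [single_ne hj, one_lmul, HData.eS, HData.mono_loc, HData.mono_loc, HData.loc, HData.loc,
        Finsupp.zero_apply, Finsupp.single_eq_of_ne hj]
  rw [← h1, gop_gmul, h, gop_single]

theorem gop_mono_U (h : gop D.eS φ = φ) :
    gop (D.mono 0 1) φ = lop D.w0 (D.U D.w0) φ := by
  have h1 : gmul (single D.w0 (D.U D.w0)) D.eS = D.mono 0 1 := by
    apply gext; intro j
    rw [gmul_loc]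
    by_cases hj : j = D.w0
    · subst hj
      rw [single_same, HData.eS, HData.mono_loc, HData.mono_loc, D.loc_w0, D.loc_w0,
        H79S.lpow_zero, H79S.lpow_one, lmul_one]
    · rw [single_ne hj, one_lmul, HData.eS, HData.mono_loc, HData.mono_loc]
      by_cases hS : j ∈ D.S
      · rw [D.loc_S hS, D.loc_S hS]
      · rw [D.loc_good hS hj, D.loc_good hS hj]
  rw [← h1, gop_gmul, h, gop_single]

end Mono

end Fermat.Agent.H7.Z
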