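import Fermat.Agent.H50ZDn
import Fermat.Agent.H17S3
import Fermat.Agent.H7ZHook

/-!
# The target of block (C) at the place `w0` (helper50, [TGT-B], S47)

* `lop_of_heckeEq`, `lop_isInd_of_heckeEq`: the operator `T_w` from the Hecke equation;
* `CSetup.Pk`, `CSetup.Wk`: the kernels of `P` and `W` at `w0` on `C.mE`;
* `CSetup.gX_Pk`, `CSetup.gX_Pk_Wk`: `P Φ' = (q + 1) Φ'`, `P (W Φ') = q^(1/2) a Φ'` for the pull
  back `Φ'` of a function on `C.m0`;
* `exists_p0`: the target index of the comparison.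
-/

set_option autoImplicit false
set_option linter.unusedSectionVars false

noncomputable section

open IsDedekindDomain HeightOneSpectrum WithZero NumberField Matrix MeasureTheory
open scoped MatrixGroups Classical ComplexConjugate

namespace Fermat.Agent.H50Z

open Fermat.Agent.H59XF Fermat.Agent.H59D Fermat.Agent.H51Z Fermat.Agent.H7.Z
open Fermat.Agent.H79S (IsInd IsTyp HData KerData)
open Fermat.Agent.H32Z Fermat.Agent.H42S Fermat.Agent.H21Z

/-! ### Hecke equations -/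

section Hecke

variable {K : Type*} [Field K] [NumberField K] {L : LevelFam PGL(2, K) (HeightOneSpectrum (𝓞 K))}
  {w : HeightOneSpectrum (𝓞 K)}

/-- The operator `T_w` from the Hecke equation. -/
theorem lop_of_heckeEq {φ : XF L → ℂ} {lam : ℂ}
    (hDC : DC (L.U w) (cellT (w.valuation K)))
    (hL : L.U w = H51Z.U0 (w.valuation K))
    {ϖ : Kˣ} (hϖ : w.valuation K (ϖ : K) = exp (-(1 : ℤ))) {R : Finset K}
    (hR : IsReps (w.valuation K) 1 R) (h : HeckeEq (borP K) L φ w ϖ R lam) :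
    lop w (lind (cellT (w.valuation K)) hDC) φ = lam • φ := by
  funext y
  obtain ⟨g, hg⟩ := QuotientGroup.mk_surjective (y w)
  have h1 := h y g hg.symm
  rw [lop_lind w hDC ((isCosetReps_repsT hϖ hR).of_eq hL) φ y g hg.symm, Pi.smul_apply,
    smul_eq_mul, h1, repsT, Finset.sum_insert, Finset.sum_image, add_comm]
  · congr 1
    · refine Finset.sum_congr rfl fun b _ => ?_
      rw [mk_bm_eq, mul_assoc]
    · rw [mk_dm_eq]
  · intro b hb b' hb' hbb
    exact mk_bm_inj hbb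
  · intro hmem
    obtain ⟨b, hb, hbb⟩ := Finset.mem_image.1 hmem
    exact bm_ne_dm hϖ hbb

/-- The operator `T_w` given by its values, from the Hecke equation. -/
theorem lop_isInd_of_heckeEq {κ : LocKer (L.U w)} (hL : L.U w = H59D.U0 w)
    (hκ : IsInd κ (cellT (w.valuation K))) {φ : XF L → ℂ} {lam : ℂ}
    {ϖ : Kˣ} (hϖ : w.valuation K (ϖ : K) = exp (-(1 : ℤ))) {R : Finset K}
    (hR : IsReps (w.valuation K) 1 R) (h : HeckeEq (borP K) L φ w ϖ R lam) :
    lop w κ φ = lam • φ := by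
  have hL' : L.U w = H51Z.U0 (w.valuation K) := hL.trans (U0_eq w)
  have hDC : DC (L.U w) (cellT (w.valuation K)) := (disc_nf w).dcT.of_eq hL'
  rw [isInd_eq_lind hκ hDC]
  exact lop_of_heckeEq hDC hL' hϖ hR h

end Hecke

/-! ### Bounded invariant functions -/

section BInv

variable {K : Type} [Field K] [NumberField K] {J : Type} [Fintype J] {m : Model K J}

/-- An operator on bounded invariant functions which is given by a finite kernel. -/
def IsGB (A : Module.End ℂ (BInv PGL(2, K) m.X)) (a : GlobKer m.L.fam) : Prop :=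
  ∀ f : BInv PGL(2, K) m.X, (A f : m.X → ℂ) = H17S.gX a (f : m.X → ℂ)

theorem IsGB.eq_smul {A : Module.End ℂ (BInv PGL(2, K) m.X)} {a : GlobKer m.L.fam}
    (hA : IsGB A a) {f : BInv PGL(2, K) m.X} {c : ℂ}
    (h : ∀ x, H17S.gX a (f : m.X → ℂ) x = c * (f : m.X → ℂ) x) : A f = c • f := by
  apply Subtype.ext
  funext x
  rw [hA f]
  exact h x

theorem IsGB.commute {A B : Module.End ℂ (BInv PGL(2, K) m.X)} {a b : GlobKer m.L.fam}
    (hA : IsGB A a) (hB : IsGB B b) (h : gmul a b = gmul b a) : Commute A B := by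
  apply LinearMap.ext
  intro f
  apply Subtype.ext
  show ((A (B f) : BInv PGL(2, K) m.X) : m.X → ℂ) = ((B (A f) : BInv PGL(2, K) m.X) : m.X → ℂ)
  rw [hA, hB, hB, hA, H17S.gX_comm h]

end BInv

/-! ### The target index -/

section P0

theorem norm_eq_one_of_root {a : ℝ} (ha : |a| ≤ 2) {y : ℂ} (h : y ^ 2 - a * y + 1 = 0) :
    ‖y‖ = 1 := by
  have hc : conj y ^ 2 - a * conj y + 1 = 0 := by
    have := congrArg conj h
    simpa only [map_add, map_sub, map_mul, map_pow, Complex.conj_ofReal, map_one, map_zero]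
      using this
  have h1 : (y - conj y) * (y * conj y - 1) = 0 := by
    linear_combination (conj y) * h - y * hc
  rcases mul_eq_zero.1 h1 with h2 | h2
  · obtain ⟨r, rfl⟩ := Complex.conj_eq_iff_real.1 (sub_eq_zero.1 h2).symm
    have h3 : r ^ 2 - a * r + 1 = 0 := by exact_mod_cast h
    rw [Complex.norm_real, Real.norm_eq_abs]
    have h4 : a * r ≤ 2 * |r| := by
      calc a * r ≤ |a * r| := le_abs_self _
        _ = |a| * |r| := abs_mul _ _
        _ ≤ 2 * |r| := mul_le_mul_of_nonneg_right ha (abs_nonneg _)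
    have h5 : |r| ^ 2 = r ^ 2 := sq_abs r
    nlinarith [sq_nonneg (|r| - 1)]
  · have h3 : y * conj y = 1 := sub_eq_zero.1 h2
    rw [Complex.mul_conj, Complex.normSq_eq_norm_sq] at h3
    have h4 : ‖y‖ ^ 2 = 1 := by exact_mod_cast h3
    nlinarith [norm_nonneg y]

theorem exists_root (a : ℂ) : ∃ y : ℂ, y ^ 2 - a * y + 1 = 0 := by
  obtain ⟨s, hs⟩ := IsAlgClosed.exists_eq_mul_self (a ^ 2 - 4)
  refine ⟨(a + s) / 2, ?_⟩
  have : s * s = a ^ 2 - 4 := hs.symm
  linear_combination (1 / 4 : ℂ) * this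

/-- The eigenvector of `U = W (P - 1)` for a given root. -/
theorem target_of_root {E : Type*} [AddCommGroup E] [Module ℂ E] {W P : E →ₗ[ℂ] E} {q : ℂ}
    (hW : ∀ v, W (W v) = v) {Φ : E} (hΦ : Φ ≠ 0) {a : ℂ}
    (h1 : P Φ = (q + 1) • Φ) (h2 : P (W Φ) = a • Φ) {z : ℂ} (hz : z ^ 2 - a * z + q = 0)
    (hzn : 1 < ‖z‖) :
    Φ - z • W Φ ≠ 0 ∧ W (P (Φ - z • W Φ) - (Φ - z • W Φ)) = z • (Φ - z • W Φ) := by
  constructor
  · intro h0
    have h3 : Φ = z • W Φ := sub_eq_zero.mp h0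
    have h4 : W Φ = z • Φ := by
      conv_lhs => rw [h3]
      rw [map_smul, hW]
    have h5 : Φ = (z * z) • Φ := by
      conv_lhs => rw [h3, h4]
      rw [smul_smul]
    have h6 : (1 - z * z) • Φ = 0 := by rw [sub_smul, one_smul, ← h5, sub_self]
    have h7 : 1 - z * z = 0 := (smul_eq_zero.mp h6).resolve_right hΦ
    have h8 : z * z = 1 := (sub_eq_zero.mp h7).symm
    have h9 : ‖z‖ * ‖z‖ = 1 := by rw [← norm_mul, h8, norm_one]
    nlinarith
  · have h3 : P (Φ - z • W Φ) = (q + 1) • Φ - z • a • Φ := by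
      rw [map_sub, map_smul, h1, h2]
    rw [h3]
    have e : (q + 1) • Φ - z • a • Φ - (Φ - z • W Φ) = (q - z * a) • Φ + z • W Φ := by
      module
    rw [e, map_add, map_smul, map_smul, hW]
    have e2 : q - z * a = - (z * z) := by linear_combination hz
    rw [e2]
    module

variable {G X : Type} [Group G] [MulAction G X] [MeasurableSpace X]
  [MeasurableSpace.CountablyGenerated X] {ν : Measure X}
  [IsFiniteMeasure ν] {K : X → X → ℂ} {J : Type} {hK : BK K}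
  {hG : ∀ (g : G) x y, K (g • x) y = K x y} (D : OpData J hK ν hG)

/-- **The target index** of the comparison, for a bounded invariant function `Φ` with
`P Φ = (q + 1) Φ`, `P (W Φ) = q^(1/2) a Φ`, `|a| ≤ 2` and `D.P = W P W` (so that `D.T` is the
normalised operator of the kernel `Uker = (P - 1) W`). -/
theorem exists_p0 (hsym : ∀ x y, K y x = conj (K x y)) {c : ℝ} (hc : c ≠ 0) (hq : 1 < D.q)
    {P : Module.End ℂ (BInv G X)} (hP : D.P = D.W * P * D.W) {Φ : BInv G X} (hΦ : Φ ≠ 0)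
    (hker : kop hK ν hG Φ = (c : ℂ) • Φ) {a : ℝ} (ha : |a| ≤ 2)
    (h1 : P Φ = ((D.q + 1 : ℝ) : ℂ) • Φ)
    (h2 : P (D.W Φ) = ((Real.sqrt D.q * a : ℝ) : ℂ) • Φ)
    {χ : D.N → ℂ} (hχ : ∀ k, k ≠ D.u → D.Y k Φ = χ k • Φ)
    (hW : ∀ k, k ≠ D.u → Commute (D.Y k) D.W) (hσu : D.σ D.u = D.u)
    (hσ : ∀ k, k ≠ D.u → χ (D.σ k) = χ k) :
    ∃ (y : ℂ) (p₀ : (D.side hsym).I), ‖y‖ = 1 ∧ y ^ 2 - a * y + 1 = 0 ∧ p₀.1 = ⟨c, hc⟩ ∧
      0 < (D.side hsym).a p₀.1 ∧ (D.side hsym).z p₀ = y ^ D.e ∧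
      1 ≤ ‖(D.side hsym).z p₀‖ ∧ (∀ k, k ≠ D.u → (p₀.2.1 : D.N → ℂ) k = χ k) ∧
      ∀ l, D.j l ≠ D.u → ((D.side hsym).x p₀ l : ℂ) = χ (D.j l) := by
  classical
  have hWW : ∀ f : BInv G X, D.W (D.W f) = f := by
    intro f
    have := congrArg (fun A : Module.End ℂ (BInv G X) => A f) D.W_sq
    simpa using this
  have hq0 : 0 < D.q := by linarith
  have hs0 : 0 < Real.sqrt D.q := Real.sqrt_pos.2 hq0
  obtain ⟨y, hy⟩ := exists_root (a : ℂ)
  have hy1 := norm_eq_one_of_root ha hy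
  set z : ℂ := (Real.sqrt D.q : ℝ) * y with hz
  have hzn : 1 < ‖z‖ := by
    rw [hz, norm_mul, hy1, mul_one, Complex.norm_real, Real.norm_of_nonneg hs0.le]
    exact Real.lt_sqrt_of_sq_lt (by simpa using hq)
  have hz2 : z ^ 2 - ((Real.sqrt D.q * a : ℝ) : ℂ) * z + (D.q : ℂ) = 0 := by
    have e : ((Real.sqrt D.q : ℝ) : ℂ) ^ 2 = (D.q : ℂ) := by
      rw [← Complex.ofReal_pow, Real.sq_sqrt hq0.le]
    rw [hz, ← e]
    push_cast
    linear_combination ((Real.sqrt D.q : ℝ) : ℂ) ^ 2 * hy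
  -- the vector `W Φ`
  have hΦ' : D.W Φ ≠ 0 := by
    intro h0
    apply hΦ
    rw [← hWW Φ, h0, map_zero]
  have h1' : D.P (D.W Φ) = ((D.q : ℂ) + 1) • D.W Φ := by
    rw [hP, Module.End.mul_apply, Module.End.mul_apply, hWW, h1, map_smul]
    push_cast
    rfl
  have h2' : D.P (D.W (D.W Φ)) = ((Real.sqrt D.q * a : ℝ) : ℂ) • D.W Φ := by
    rw [hWW, hP, Module.End.mul_apply, Module.End.mul_apply, h2, map_smul]
  obtain ⟨hne, hU⟩ := target_of_root (W := D.W) (P := D.P) hWW hΦ' h1' h2' hz2 hzn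
  rw [hWW] at hne hU
  -- the eigen-equations
  have hkerW : kop hK ν hG (D.W Φ) = (c : ℂ) • D.W Φ := by
    rw [(mem_Cm hG).mp D.W_mem Φ, hker, map_smul]
  have hk : kop hK ν hG (D.W Φ - z • Φ) = (c : ℂ) • (D.W Φ - z • Φ) := by
    rw [map_sub, map_smul, hkerW, hker, smul_sub, smul_comm z]
  obtain ⟨v, hv⟩ := exists_eig_of_kop (hG := hG) hc hk
  have hv0 : v ≠ 0 := by
    rintro rfl
    apply hne
    rw [← hv, map_zero]
  have hres : ∀ k (f : Eig hK ν c), toInv hG hc (D.YE hc k f) = D.Y k (toInv hG hc f) := by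
    intro k f
    unfold OpData.YE
    rw [toInv_resAlg]
  let χ' : D.N → ℂ := fun k => if k = D.u then y ^ D.e else χ k
  have hχ' : ∀ k, D.YE hc k v = χ' k • v := by
    intro k
    apply toInv_injective hG hc
    rw [hres, map_smul, hv]
    by_cases hk : k = D.u
    · subst hk
      have e0 : χ' D.u = y ^ D.e := if_pos rfl
      rw [e0, D.Y_u]
      set A : Module.End ℂ (BInv G X) := (((Real.sqrt D.q)⁻¹ : ℝ) : ℂ) • (D.W * (D.P - 1)) with hA
      have hA1 : A (D.W Φ - z • Φ) = y • (D.W Φ - z • Φ) := by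
        have e1 : (D.W * (D.P - 1)) (D.W Φ - z • Φ) = z • (D.W Φ - z • Φ) := hU
        rw [hA, LinearMap.smul_apply, e1, smul_smul]
        congr 1
        rw [hz, ← mul_assoc, ← Complex.ofReal_mul, inv_mul_cancel₀ hs0.ne', Complex.ofReal_one,
          one_mul]
      generalize D.e = e
      induction e with
      | zero => simp
      | succ e ih =>
        rw [pow_succ, Module.End.mul_apply, hA1, map_smul, ih, smul_smul, pow_succ, mul_comm]
    · have e0 : χ' k = χ k := if_neg hk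
      have e1 : D.Y k (D.W Φ) = χ k • D.W Φ := by
        have e2 : D.Y k (D.W Φ) = D.W (D.Y k Φ) :=
          congrArg (fun A : Module.End ℂ (BInv G X) => A Φ) (hW k hk).eq
        rw [e2, hχ k hk, map_smul]
      rw [e0, map_sub, map_smul, e1, hχ k hk, smul_sub, smul_comm z]
  have hσ' : χ' ∘ D.σ = χ' := by
    funext k
    show χ' (D.σ k) = χ' k
    by_cases hk : k = D.u
    · subst hk
      rw [hσu]
    · have hk' : D.σ k ≠ D.u := by
        intro h0
        apply hk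
        apply D.σ.injective
        rw [h0, hσu]
      have e1 : χ' (D.σ k) = χ (D.σ k) := if_neg hk'
      have e2 : χ' k = χ k := if_neg hk
      rw [e1, e2, hσ k hk]
  let p₀ : (D.side hsym).I := SideC.mkI (S := D.side hsym) (i := ⟨c, hc⟩) (χ := χ') (v := v) hv0
    hχ' hσ'
  have hzp : (D.side hsym).z p₀ = y ^ D.e := if_pos rfl
  refine ⟨y, p₀, hy1, hy, rfl, ?_, hzp, ?_, ?_, ?_⟩
  · show 0 < c ^ 2
    positivity
  · rw [hzp, norm_pow, hy1, one_pow]
  · intro k hk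
    exact if_neg hk
  · intro l hl
    rw [(D.side hsym).x_eq]
    exact if_neg hl

end P0

end Fermat.Agent.H50Z

namespace Fermat.Agent.H79S.CSetup

open Fermat.Agent.H59XF Fermat.Agent.H59D Fermat.Agent.H51Z Fermat.Agent.H7.Z Fermat.Agent.H50Z
open Fermat.Agent.H32Z Fermat.Agent.H42S Fermat.Agent.H21Z

variable {F E : Type} [Field F] [NumberField F] [Field E] [NumberField E] [Algebra F E]
  (C : CSetup F E)

theorem lev_w0' : C.mE.L.fam.U C.w0 = H51Z.Iw (C.w0.valuation E) :=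
  C.kE.lev_w0.trans (Iw_eq C.w0)

theorem m0_w0' : C.m0.L.fam.U C.w0 = H51Z.U0 (C.w0.valuation E) :=
  C.m0_w0.trans (U0_eq C.w0)

/-- The kernel of `P` at `w0`. -/
def Pk : LocKer (C.mE.L.fam.U C.w0) := H51Z.lcast C.lev_w0' (Pker (disc_nf C.w0))

/-- The kernel of `W` at `w0`. -/
def Wk : LocKer (C.mE.L.fam.U C.w0) := H51Z.lcast C.lev_w0' (Wker (disc_nf C.w0).v_pi)

/-- The norm of `w0`. -/
def q0 : ℕ := Ideal.absNorm C.w0.asIdeal

variable {C} {Φ : C.m0.X → ℂ}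

/-- The function on `C.mE` attached to a function on `C.m0`. -/
abbrev up (C : CSetup F E) (Φ : C.m0.X → ℂ) (x : C.mE.X) : ℂ := Φ (pullX C.le_m0 x)

theorem up_smul (hG : ∀ (g : PGL(2, E)) (x : C.m0.X), Φ (g • x) = Φ x) (g : PGL(2, E))
    (x : C.mE.X) : C.up Φ (g • x) = C.up Φ x := by
  rw [up, pullX_smul C.le_m0 (fun _ => rfl), hG]

theorem gX_Pk (Φ : C.m0.X → ℂ) (x : C.mE.X) :
    H17S.gX (single C.w0 C.Pk) (C.up Φ) x = ((C.q0 : ℝ) + 1 : ℝ) * C.up Φ x := by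
  have h := gopX_P_pull (m' := C.mE) (m := C.m0) C.le_m0 C.lev_w0' C.m0_w0' (disc_nf C.w0) Φ x
  rw [card_reps_nf', pow_one, smul_eq_mul] at h
  have h2 : H17S.gX (single C.w0 C.Pk) (C.up Φ) x = gopX C.mE (single C.w0 C.Pk) (C.up Φ) x := rfl
  rw [h2]
  refine h.trans ?_
  rw [q0]
  push_cast
  rfl

theorem gX_Pk_Wk {a : ℝ}
    (hh : ∀ (ϖ : Eˣ), C.w0.valuation E (ϖ : E) = exp (-(1 : ℤ)) →
      ∀ R : Finset E, IsReps (C.w0.valuation E) 1 R → ∀ τ : Fin 3 → H3,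
        HeckeEq (borP E) C.m0.L.fam (fun y => Φ (τ, y)) C.w0 ϖ R
          ((Real.sqrt (Ideal.absNorm C.w0.asIdeal) * a : ℝ) : ℂ)) (x : C.mE.X) :
    H17S.gX (single C.w0 C.Pk) (H17S.gX (single C.w0 C.Wk) (C.up Φ)) x =
      ((Real.sqrt (C.q0 : ℝ) * a : ℝ) : ℂ) * C.up Φ x := by
  have h := gopX_PW_pull (m' := C.mE) (m := C.m0) C.le_m0 C.lev_w0' C.m0_w0' (disc_nf C.w0) Φ x
  have h2 : H17S.gX (single C.w0 C.Pk) (H17S.gX (single C.w0 C.Wk) (C.up Φ)) x =
      gopX C.mE (single C.w0 C.Pk) (fun x => gopX C.mE (single C.w0 C.Wk) (C.up Φ) x) x := rfl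
  rw [h2]
  refine h.trans ?_
  rw [gopX_single]
  have hDC : DC (C.m0.L.fam.U C.w0) (cellT (C.w0.valuation E)) :=
    (disc_nf C.w0).dcT.of_eq C.m0_w0'
  have h3 : H51Z.lcast C.m0_w0' (Tker (disc_nf C.w0).dcT) = lind _ hDC := by
    rw [Tker, lcast_lind]
  rw [h3]
  exact congrFun (lop_of_heckeEq hDC C.m0_w0' (disc_nf C.w0).v_pi ((disc_nf C.w0).isReps 1)
    (hh _ (disc_nf C.w0).v_pi _ ((disc_nf C.w0).isReps 1) x.1)) _

/-! ### Bounded invariant functions -/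

variable {Φb : BInv PGL(2, E) C.mE.X} {P W : Module.End ℂ (BInv PGL(2, E) C.mE.X)}

theorem P_apply (hP : IsGB P (single C.w0 C.Pk)) (hΦb : (Φb : C.mE.X → ℂ) = C.up Φ) :
    P Φb = (((C.q0 : ℝ) + 1 : ℝ) : ℂ) • Φb :=
  hP.eq_smul fun x => by
    rw [hΦb]
    exact gX_Pk Φ x

theorem P_W_apply (hP : IsGB P (single C.w0 C.Pk)) (hW : IsGB W (single C.w0 C.Wk))
    (hΦb : (Φb : C.mE.X → ℂ) = C.up Φ) {a : ℝ}
    (hh : ∀ (ϖ : Eˣ), C.w0.valuation E (ϖ : E) = exp (-(1 : ℤ)) →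
      ∀ R : Finset E, IsReps (C.w0.valuation E) 1 R → ∀ τ : Fin 3 → H3,
        HeckeEq (borP E) C.m0.L.fam (fun y => Φ (τ, y)) C.w0 ϖ R
          ((Real.sqrt (Ideal.absNorm C.w0.asIdeal) * a : ℝ) : ℂ)) :
    P (W Φb) = ((Real.sqrt (C.q0 : ℝ) * a : ℝ) : ℂ) • Φb := by
  apply Subtype.ext
  funext x
  rw [hP, hW, hΦb]
  refine (gX_Pk_Wk hh x).trans ?_
  show _ = _ * (Φb : C.mE.X → ℂ) x
  rw [hΦb]

end Fermat.Agent.H79S.CSetup

end
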