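import Fermat.Agent.H51ZOp

/-!
# Change of level on restricted coset spaces (helper50, S47 block (C), [PULL])

`L' L : LevelFam G ι` with `L'.U i ≤ L.U i` for all `i`.

* `cproj h : G ⧸ H' → G ⧸ H`, `XF.pull h : XF L' → XF L`: equivariant, surjective, finite fibres,
  compatible with `upd` and with twists;
* `Compat h κ' κ` : the local kernel `κ'` on `G ⧸ H'` lifts the local kernel `κ` on `G ⧸ H`;
  closed under products, sums, scalars, units, change of subgroup along an equality;
* `Compat.lop`, `gop_pull` : the operators commute with the pull back `φ ↦ φ ∘ pull`;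
* `Pk` : the kernel of the averaging operator of `H' ≤ H`.
-/

set_option autoImplicit false

noncomputable section

open scoped Classical

namespace Fermat.Agent.H50Z

open Fermat.Agent.H59XF Fermat.Agent.H51Z

variable {G : Type*} [Group G] {ι : Type*}

/-! ### Cosets -/

section Coset

variable {H' H : Subgroup G}

/-- The projection `G ⧸ H' → G ⧸ H` for `H' ≤ H`. -/
def cproj (h : H' ≤ H) : G ⧸ H' → G ⧸ H :=
  Quotient.map' id (by
    intro a b hab
    rw [QuotientGroup.leftRel_apply] at hab ⊢
    exact h hab)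

@[simp] theorem cproj_mk (h : H' ≤ H) (g : G) :
    cproj h ((g : G) : G ⧸ H') = ((g : G) : G ⧸ H) := rfl

theorem cproj_smul (h : H' ≤ H) (g : G) (x : G ⧸ H') : cproj h (g • x) = g • cproj h x := by
  induction x using QuotientGroup.induction_on with
  | H x => rfl

theorem cproj_surjective (h : H' ≤ H) : Function.Surjective (cproj h) := by
  intro y
  induction y using QuotientGroup.induction_on with
  | H y => exact ⟨((y : G) : G ⧸ H'), rfl⟩

@[simp] theorem cproj_refl (h : H' ≤ H') (x : G ⧸ H') : cproj h x = x := by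
  induction x using QuotientGroup.induction_on with
  | H x => rfl

theorem cproj_injective_of_eq (h : H' ≤ H) (e : H' = H) : Function.Injective (cproj h) := by
  subst e
  intro x y hxy
  simpa using hxy

/-- All fibres of `cproj` are translates of the fibre over the base point. -/
theorem fib_smul (h : H' ≤ H) (g : G) (z : G ⧸ H) :
    {y | cproj h y = g • z} = (fun y => g • y) '' {y | cproj h y = z} := by
  ext y
  constructor
  · intro hy
    refine ⟨g⁻¹ • y, ?_, by simp⟩
    show cproj h (g⁻¹ • y) = z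
    rw [cproj_smul, show cproj h y = g • z from hy, inv_smul_smul]
  · rintro ⟨y, hy, rfl⟩
    show cproj h (g • y) = g • z
    rw [cproj_smul, show cproj h y = z from hy]

/-- The fibres are finite as soon as one of them is. -/
theorem fib_finite (h : H' ≤ H) (hf : {y | cproj h y = ((1 : G) : G ⧸ H)}.Finite) (z : G ⧸ H) :
    {y | cproj h y = z}.Finite := by
  induction z using QuotientGroup.induction_on with
  | H g =>
    have : ((g : G) : G ⧸ H) = g • ((1 : G) : G ⧸ H) := by
      show _ = (((g * 1 : G)) : G ⧸ H)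
      rw [mul_one]
    rw [this, fib_smul]
    exact hf.image _

theorem fib_ncard (h : H' ≤ H) (z : G ⧸ H) :
    {y | cproj h y = z}.ncard = {y | cproj h y = ((1 : G) : G ⧸ H)}.ncard := by
  induction z using QuotientGroup.induction_on with
  | H g =>
    have : ((g : G) : G ⧸ H) = g • ((1 : G) : G ⧸ H) := by
      show _ = (((g * 1 : G)) : G ⧸ H)
      rw [mul_one]
    rw [this, fib_smul]
    exact Set.ncard_image_of_injective _ (MulAction.injective g)

theorem fib_one_eq (h : H' ≤ H) : {y | cproj h y = ((1 : G) : G ⧸ H)} =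
    Set.range (fun u : H => ((u : G) : G ⧸ H')) := by
  ext y
  induction y using QuotientGroup.induction_on with
  | H g =>
    constructor
    · intro hy
      have hy' : ((g : G) : G ⧸ H) = ((1 : G) : G ⧸ H) := hy
      rw [QuotientGroup.eq] at hy'
      have hg : g ∈ H := by
        have := H.inv_mem hy'
        simpa using this
      exact ⟨⟨g, hg⟩, rfl⟩
    · rintro ⟨u, hu⟩
      show cproj h _ = _
      rw [← hu, cproj_mk, QuotientGroup.eq]
      simp

end Coset

/-! ### Restricted coset spaces -/

variable {L' L : LevelFam G ι}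

/-- The projection `XF L' → XF L`. -/
def pull (h : ∀ i, L'.U i ≤ L.U i) (x : XF L') : XF L :=
  ⟨fun i => cproj (h i) (x i), x.fin.subset (by
    intro i hi hcon
    apply hi
    show cproj (h i) (x.val i) = _
    rw [hcon, cproj_mk])⟩

@[simp] theorem pull_apply (h : ∀ i, L'.U i ≤ L.U i) (x : XF L') (i : ι) :
    pull h x i = cproj (h i) (x i) := rfl

theorem pull_smul (h : ∀ i, L'.U i ≤ L.U i) (g : G) (x : XF L') :
    pull h (g • x) = g • pull h x :=
  XF.ext fun i => cproj_smul (h i) g (x i)

theorem pull_base (h : ∀ i, L'.U i ≤ L.U i) : pull h (XF.base L') = XF.base L :=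
  XF.ext fun _ => rfl

theorem pull_upd (h : ∀ i, L'.U i ≤ L.U i) (x : XF L') (i : ι) (a : G ⧸ L'.U i) :
    pull h (XF.upd x i a) = XF.upd (pull h x) i (cproj (h i) a) := by
  apply XF.ext; intro j
  by_cases hj : j = i
  · subst hj; simp
  · simp [hj]

theorem pull_surjective (h : ∀ i, L'.U i ≤ L.U i) : Function.Surjective (pull h) := by
  intro y
  refine ⟨⟨fun i => if y i = ((1 : G) : G ⧸ L.U i) then ((1 : G) : G ⧸ L'.U i)
    else (cproj_surjective (h i) (y i)).choose, ?_⟩, ?_⟩
  · refine y.fin.subset ?_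
    intro i hi hcon
    apply hi
    show (if y i = ((1 : G) : G ⧸ L.U i) then _ else _) = _
    rw [if_pos hcon]
  · apply XF.ext; intro i
    show cproj (h i) (if y i = ((1 : G) : G ⧸ L.U i) then _ else _) = _
    split_ifs with hc
    · rw [hc, cproj_mk]
    · exact (cproj_surjective (h i) (y i)).choose_spec

/-- The fibres of `pull` are finite if `L'` and `L` agree almost everywhere and all indices are
finite. -/
theorem pull_fib_finite (h : ∀ i, L'.U i ≤ L.U i) (hne : {i | L'.U i ≠ L.U i}.Finite)
    (hf : ∀ i, {y | cproj (h i) y = ((1 : G) : G ⧸ L.U i)}.Finite) (y : XF L) :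
    {x | pull h x = y}.Finite := by
  have hinj : Set.InjOn (fun (x : XF L') (i : hne.toFinset) => x i.1) {x | pull h x = y} := by
    intro x hx x' hx' hxx
    apply XF.ext
    intro i
    by_cases hi : L'.U i = L.U i
    · apply cproj_injective_of_eq (h i) hi
      rw [← pull_apply, ← pull_apply, show pull h x = y from hx, show pull h x' = y from hx']
    · exact congrFun hxx ⟨i, by simpa using hi⟩
  apply Set.Finite.of_finite_image ?_ hinj
  have hfin : (Set.univ.pi (fun i : hne.toFinset =>
      {z : G ⧸ L'.U i.1 | cproj (h i.1) z = y i.1})).Finite :=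
    Set.Finite.pi (fun i => fib_finite (h i.1) (hf i.1) _)
  refine hfin.subset ?_
  rintro _ ⟨x, hx, rfl⟩ i _
  show cproj (h i.1) (x i.1) = y i.1
  rw [← pull_apply, show pull h x = y from hx]

/-- Compatibility with twists. -/
theorem pull_act (h : ∀ i, L'.U i ≤ L.U i) (t' : Twist L') (t : Twist L) (hs : t'.s = t.s)
    (hσ : t'.σ = t.σ) (x : XF L') : pull h (t'.act x) = t.act (pull h x) := by
  apply XF.ext; intro j
  obtain ⟨i, rfl⟩ := t.σ.surjective j
  rw [Twist.act_apply_σ, pull_apply, pull_apply]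
  have hj : t'.σ i = t.σ i := by rw [hσ]
  have key : ∀ (j : ι) (hj : t'.σ i = j), cproj (h j) (t'.act x j) =
      Twist.ccast (L := L) hj (cproj (h (t'.σ i)) (t'.act x (t'.σ i))) := by
    intro j hj
    subst hj
    rfl
  rw [key _ hj, Twist.act_apply_σ]
  generalize x i = y
  induction y using QuotientGroup.induction_on with
  | H g =>
    rw [Twist.cmap_mk, cproj_mk, Twist.ccast_mk, cproj_mk, Twist.cmap_mk, hs]

/-! ### Lifting local kernels -/

section Loc

variable {H' H : Subgroup G}

/-- The local kernel `κ'` on `G ⧸ H'` lifts the local kernel `κ` on `G ⧸ H`: the sum of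
`κ' (x', ·)` over a fibre is the value of `κ`. -/
def Compat (h : H' ≤ H) (κ' : LocKer H') (κ : LocKer H) : Prop :=
  ∀ (x' : G ⧸ H') (z : G ⧸ H),
    ∑ y' ∈ (ls κ' x').filter (fun y' => cproj h y' = z), κ'.k x' y' = κ.k (cproj h x') z

/-- The basic property: sums over all of `G ⧸ H'`. -/
theorem Compat.sum {h : H' ≤ H} {κ' : LocKer H'} {κ : LocKer H} (hc : Compat h κ' κ)
    {E : Type*} [AddCommGroup E] [Module ℂ E] (f : G ⧸ H → E) (x' : G ⧸ H') :
    ∑ y' ∈ ls κ' x', κ'.k x' y' • f (cproj h y') =
      ∑ z ∈ ls κ (cproj h x'), κ.k (cproj h x') z • f z := by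
  have h1 : ∑ y' ∈ ls κ' x', κ'.k x' y' • f (cproj h y') =
      ∑ z ∈ (ls κ' x').image (cproj h), κ.k (cproj h x') z • f z := by
    rw [← Finset.sum_fiberwise_of_maps_to (t := (ls κ' x').image (cproj h))
      (g := cproj h) (fun y hy => Finset.mem_image_of_mem _ hy)]
    apply Finset.sum_congr rfl
    intro z _
    rw [← hc x' z, Finset.sum_smul]
    apply Finset.sum_congr rfl
    intro y hy
    rw [(Finset.mem_filter.1 hy).2]
  rw [h1]
  have h2 : ls κ (cproj h x') ⊆ (ls κ' x').image (cproj h) := by
    intro z hz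
    rw [mem_ls, ← hc x' z] at hz
    obtain ⟨y, hy, -⟩ := Finset.exists_ne_zero_of_sum_ne_zero hz
    rw [Finset.mem_filter] at hy
    exact Finset.mem_image.2 ⟨y, hy.1, hy.2⟩
  symm
  apply Finset.sum_subset h2
  intro z _ hz
  rw [mem_ls, not_not] at hz
  rw [hz, zero_smul]

theorem compat_of_sum {h : H' ≤ H} {κ' : LocKer H'} {κ : LocKer H} (x' : G ⧸ H') (z : G ⧸ H)
    {s : Finset (G ⧸ H')} (hs : ∀ y', κ'.k x' y' ≠ 0 → cproj h y' = z → y' ∈ s)
    (hs' : ∀ y' ∈ s, cproj h y' = z) (he : ∑ y' ∈ s, κ'.k x' y' = κ.k (cproj h x') z) :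
    ∑ y' ∈ (ls κ' x').filter (fun y' => cproj h y' = z), κ'.k x' y' = κ.k (cproj h x') z := by
  rw [← he]
  apply Finset.sum_subset
  · intro y hy
    rw [Finset.mem_filter, mem_ls] at hy
    exact hs y hy.1 hy.2
  · intro y hy hy'
    by_contra hne
    exact hy' (Finset.mem_filter.2 ⟨mem_ls.2 hne, hs' y hy⟩)

theorem Compat.one (h : H' ≤ H) : Compat h (LocKer.one : LocKer H') LocKer.one := by
  intro x' z
  by_cases hz : cproj h x' = z
  · refine compat_of_sum x' z (s := {x'}) ?_ ?_ ?_
    · intro y' hy' _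
      rw [LocKer.one_k] at hy'
      by_contra hne
      exact hy' (if_neg (fun e => hne (by rw [e]; exact Finset.mem_singleton_self _)))
    · intro y' hy'
      rw [Finset.mem_singleton.1 hy']
      exact hz
    · rw [Finset.sum_singleton, LocKer.one_k, LocKer.one_k, if_pos rfl, if_pos hz]
  · refine compat_of_sum x' z (s := ∅) ?_ ?_ ?_
    · intro y' hy' hyz
      rw [LocKer.one_k] at hy'
      exfalso
      apply hz
      have : x' = y' := by
        by_contra hne
        exact hy' (if_neg hne)
      rw [this]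
      exact hyz
    · intro y' hy'
      simp at hy'
    · rw [Finset.sum_empty, LocKer.one_k, if_neg hz]

theorem Compat.mul {h : H' ≤ H} {κ₁' κ₂' : LocKer H'} {κ₁ κ₂ : LocKer H} (h1 : Compat h κ₁' κ₁)
    (h2 : Compat h κ₂' κ₂) : Compat h (LocKer.mul κ₁' κ₂') (LocKer.mul κ₁ κ₂) := by
  intro x' z
  have e1 : ∀ y', (LocKer.mul κ₁' κ₂').k x' y' = ∑ u ∈ ls κ₁' x', κ₁'.k x' u * κ₂'.k u y' :=
    fun y' => mul_k_eq_sum _ _ _ _
  -- enlarge the index set
  have e2 : ∑ y' ∈ (ls (LocKer.mul κ₁' κ₂') x').filter (fun y' => cproj h y' = z),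
        (LocKer.mul κ₁' κ₂').k x' y' =
      ∑ y' ∈ ((ls κ₁' x').biUnion (fun u => ls κ₂' u)).filter (fun y' => cproj h y' = z),
        (LocKer.mul κ₁' κ₂').k x' y' := by
    apply Finset.sum_subset
    · intro y hy
      rw [Finset.mem_filter, mem_ls, e1] at hy
      obtain ⟨u, hu, huy⟩ := Finset.exists_ne_zero_of_sum_ne_zero hy.1
      rw [Finset.mem_filter, Finset.mem_biUnion]
      exact ⟨⟨u, hu, mem_ls.2 (fun h0 => huy (by rw [h0, mul_zero]))⟩, hy.2⟩
    · intro y hy hy'
      by_contra hne
      exact hy' (Finset.mem_filter.2 ⟨mem_ls.2 hne, (Finset.mem_filter.1 hy).2⟩)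
  rw [e2]
  simp only [e1]
  rw [Finset.sum_comm]
  have e3 : ∀ u ∈ ls κ₁' x',
      ∑ y' ∈ ((ls κ₁' x').biUnion (fun u => ls κ₂' u)).filter (fun y' => cproj h y' = z),
        κ₁'.k x' u * κ₂'.k u y' = κ₁'.k x' u • κ₂.k (cproj h u) z := by
    intro u hu
    rw [← Finset.mul_sum, smul_eq_mul]
    congr 1
    rw [← h2 u z]
    symm
    apply Finset.sum_subset
    · intro y hy
      rw [Finset.mem_filter] at hy ⊢
      exact ⟨Finset.mem_biUnion.2 ⟨u, hu, hy.1⟩, hy.2⟩
    · intro y hy hy'
      by_contra hne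
      exact hy' (Finset.mem_filter.2 ⟨mem_ls.2 hne, (Finset.mem_filter.1 hy).2⟩)
  rw [Finset.sum_congr rfl e3, h1.sum (fun u => κ₂.k u z) x', mul_k_eq_sum]
  rfl

theorem Compat.add {h : H' ≤ H} {κ₁' κ₂' : LocKer H'} {κ₁ κ₂ : LocKer H} (h1 : Compat h κ₁' κ₁)
    (h2 : Compat h κ₂' κ₂) : Compat h (ladd κ₁' κ₂') (ladd κ₁ κ₂) := by
  intro x' z
  refine compat_of_sum x' z
    (s := ((ls κ₁' x') ∪ (ls κ₂' x')).filter (fun y' => cproj h y' = z)) ?_ ?_ ?_
  · intro y' hy' hyz
    rw [Finset.mem_filter, Finset.mem_union, mem_ls, mem_ls]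
    refine ⟨?_, hyz⟩
    by_contra hcon
    push Not at hcon
    exact hy' (by rw [ladd_k, hcon.1, hcon.2, add_zero])
  · intro y' hy'
    exact (Finset.mem_filter.1 hy').2
  · simp only [ladd_k]
    rw [Finset.sum_add_distrib, ← h1 x' z, ← h2 x' z]
    congr 1
    · symm
      apply Finset.sum_subset
      · intro y hy
        rw [Finset.mem_filter] at hy ⊢
        exact ⟨Finset.mem_union_left _ hy.1, hy.2⟩
      · intro y hy hy'
        by_contra hne
        exact hy' (Finset.mem_filter.2 ⟨mem_ls.2 hne, (Finset.mem_filter.1 hy).2⟩)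
    · symm
      apply Finset.sum_subset
      · intro y hy
        rw [Finset.mem_filter] at hy ⊢
        exact ⟨Finset.mem_union_right _ hy.1, hy.2⟩
      · intro y hy hy'
        by_contra hne
        exact hy' (Finset.mem_filter.2 ⟨mem_ls.2 hne, (Finset.mem_filter.1 hy).2⟩)

theorem Compat.smul {h : H' ≤ H} {κ' : LocKer H'} {κ : LocKer H} (hc : Compat h κ' κ) (c : ℂ) :
    Compat h (lsmul c κ') (lsmul c κ) := by
  intro x' z
  refine compat_of_sum x' z (s := (ls κ' x').filter (fun y' => cproj h y' = z)) ?_ ?_ ?_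
  · intro y' hy' hyz
    rw [Finset.mem_filter, mem_ls]
    refine ⟨?_, hyz⟩
    intro h0
    exact hy' (by rw [lsmul_k, h0, mul_zero])
  · intro y' hy'
    exact (Finset.mem_filter.1 hy').2
  · simp only [lsmul_k]
    rw [← Finset.mul_sum, hc x' z]

/-- Transport of a local kernel along an equality of subgroups. -/
def lcast (e : H' = H) (κ : LocKer H) : LocKer H' where
  k x y := κ.k (cproj e.le x) (cproj e.le y)
  inv g x y := by rw [cproj_smul, cproj_smul, κ.inv]
  fin_right x := (κ.fin_right (cproj e.le x)).preimage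
    ((cproj_injective_of_eq e.le e).injOn)
  fin_left y := (κ.fin_left (cproj e.le y)).preimage
    ((cproj_injective_of_eq e.le e).injOn)

theorem lcast_k (e : H' = H) (κ : LocKer H) (x y : G ⧸ H') :
    (lcast e κ).k x y = κ.k (cproj e.le x) (cproj e.le y) := rfl

@[simp] theorem lcast_rfl (κ : LocKer H) : lcast rfl κ = κ := by
  ext x y
  rw [lcast_k, cproj_refl, cproj_refl]

theorem lcast_one (e : H' = H) : lcast e (LocKer.one : LocKer H) = LocKer.one := by
  subst e; simp

theorem lcast_mul (e : H' = H) (κ κ₂ : LocKer H) :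
    lcast e (LocKer.mul κ κ₂) = LocKer.mul (lcast e κ) (lcast e κ₂) := by
  subst e; simp

theorem lcast_ltr (e : H' = H) (κ : LocKer H) : lcast e (ltr κ) = ltr (lcast e κ) := by
  subst e; simp

theorem lcast_ladd (e : H' = H) (κ κ₂ : LocKer H) :
    lcast e (ladd κ κ₂) = ladd (lcast e κ) (lcast e κ₂) := by
  subst e; simp

theorem lcast_lsmul (e : H' = H) (c : ℂ) (κ : LocKer H) :
    lcast e (lsmul c κ) = lsmul c (lcast e κ) := by
  subst e; simp

/-- Kernels for equal subgroups. -/
theorem Compat.cast (h : H' ≤ H) (e : H' = H) (κ : LocKer H) : Compat h (lcast e κ) κ := by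
  subst e
  intro x' z
  rw [lcast_rfl]
  refine compat_of_sum x' z (s := {z}) ?_ ?_ ?_
  · intro y' _ hyz
    rw [← hyz, cproj_refl]
    exact Finset.mem_singleton_self _
  · intro y' hy'
    rw [Finset.mem_singleton.1 hy', cproj_refl]
  · rw [Finset.sum_singleton, cproj_refl]

/-- For equal subgroups compatibility is equality. -/
theorem Compat.of_eq {h : H' ≤ H} (e : H' = H) {κ' : LocKer H'} {κ : LocKer H}
    (hk : ∀ x y, κ'.k x y = κ.k (cproj h x) (cproj h y)) : Compat h κ' κ := by
  have : κ' = lcast e κ := by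
    ext x y
    exact hk x y
  rw [this]
  exact Compat.cast h e κ

/-! ### The averaging kernel of `H' ≤ H` -/

/-- The kernel of the averaging operator of `H' ≤ H` (not normalised): `1` if the two cosets of
`H'` lie in the same coset of `H`. -/
def Pk (h : H' ≤ H) (hf : {y | cproj h y = ((1 : G) : G ⧸ H)}.Finite) : LocKer H' where
  k x y := if cproj h x = cproj h y then 1 else 0
  inv g x y := by simp only [cproj_smul, smul_left_cancel_iff]
  fin_right x := (fib_finite h hf (cproj h x)).subset (by
    intro y hy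
    by_contra hne
    exact hy (if_neg (fun e => hne e.symm)))
  fin_left y := (fib_finite h hf (cproj h y)).subset (by
    intro x hx
    by_contra hne
    exact hx (if_neg hne))

theorem Pk_k (h : H' ≤ H) (hf) (x y : G ⧸ H') :
    (Pk h hf).k x y = if cproj h x = cproj h y then 1 else 0 := rfl

theorem ltr_Pk (h : H' ≤ H) (hf) : ltr (Pk h hf) = Pk h hf := by
  ext x y
  rw [ltr_k, Pk_k, Pk_k]
  simp only [eq_comm]

theorem ls_Pk (h : H' ≤ H) (hf) (x : G ⧸ H') :
    ls (Pk h hf) x = (fib_finite h hf (cproj h x)).toFinset := by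
  ext y
  rw [mem_ls, Pk_k, Set.Finite.mem_toFinset]
  constructor
  · intro hy
    by_contra hne
    exact hy (if_neg (fun e => hne e.symm))
  · intro hy
    rw [if_pos (show cproj h x = cproj h y from (show cproj h y = cproj h x from hy).symm)]
    exact one_ne_zero

/-- The index of `H'` in `H`. -/
theorem card_ls_Pk (h : H' ≤ H) (hf) (x : G ⧸ H') :
    (ls (Pk h hf) x).card = {y | cproj h y = ((1 : G) : G ⧸ H)}.ncard := by
  rw [ls_Pk, ← fib_ncard h (cproj h x), Set.ncard_eq_toFinset_card _ (fib_finite h hf _)]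

theorem Compat.Pk (h : H' ≤ H) (hf : {y | cproj h y = ((1 : G) : G ⧸ H)}.Finite) :
    Compat h (Pk h hf)
      (lsmul ({y | cproj h y = ((1 : G) : G ⧸ H)}.ncard : ℂ) LocKer.one) := by
  intro x' z
  by_cases hz : cproj h x' = z
  · have h1 : (ls (H50Z.Pk h hf) x').filter (fun y' => cproj h y' = z) = ls (H50Z.Pk h hf) x' := by
      apply Finset.filter_true_of_mem
      intro y hy
      rw [ls_Pk, Set.Finite.mem_toFinset] at hy
      rw [← hz]
      exact hy
    rw [h1, lsmul_k, LocKer.one_k, if_pos hz, mul_one, ← card_ls_Pk h hf x']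
    have h2 : ∀ y ∈ ls (H50Z.Pk h hf) x', (H50Z.Pk h hf).k x' y = 1 := by
      intro y hy
      rw [ls_Pk, Set.Finite.mem_toFinset] at hy
      rw [Pk_k, if_pos (show cproj h x' = cproj h y from (show cproj h y = cproj h x' from hy).symm)]
    rw [Finset.sum_congr rfl h2, Finset.sum_const, nsmul_eq_mul, mul_one]
  · rw [lsmul_k, LocKer.one_k, if_neg hz, mul_zero]
    apply Finset.sum_eq_zero
    intro y hy
    rw [Finset.mem_filter] at hy
    rw [Pk_k, if_neg]
    rw [hy.2]
    exact hz

theorem Pk_mul_Pk (h : H' ≤ H) (hf : {y | cproj h y = ((1 : G) : G ⧸ H)}.Finite) :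
    LocKer.mul (Pk h hf) (Pk h hf) =
      lsmul ({y | cproj h y = ((1 : G) : G ⧸ H)}.ncard : ℂ) (Pk h hf) := by
  ext x z
  rw [mul_k_eq_sum, lsmul_k, ← card_ls_Pk h hf x]
  have h2 : ∀ y ∈ ls (Pk h hf) x, (Pk h hf).k x y * (Pk h hf).k y z = (Pk h hf).k x z := by
    intro y hy
    rw [ls_Pk, Set.Finite.mem_toFinset] at hy
    have hy' : cproj h y = cproj h x := hy
    rw [Pk_k, Pk_k, Pk_k, hy', if_pos rfl, one_mul]
  rw [Finset.sum_congr rfl h2, Finset.sum_const, nsmul_eq_mul]

end Loc

/-! ### Operators and the pull back of functions -/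

section Op

variable {E : Type*} [AddCommGroup E] [Module ℂ E] (h : ∀ i, L'.U i ≤ L.U i)

theorem lop_pull {i : ι} {κ' : LocKer (L'.U i)} {κ : LocKer (L.U i)} (hc : Compat (h i) κ' κ)
    (φ : XF L → E) : lop i κ' (fun x => φ (pull h x)) = fun x => lop i κ φ (pull h x) := by
  funext x
  rw [lop_def, lop_def]
  simp only [pull_upd]
  exact hc.sum (fun z => φ (XF.upd (pull h x) i z)) (x i)

/-- Pull back commutes with the operators of global kernels. -/
theorem gop_pull {a' : GlobKer L'} {a : GlobKer L} (hc : ∀ i, Compat (h i) (a'.loc i) (a.loc i))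
    (φ : XF L → E) : gop a' (fun x => φ (pull h x)) = fun x => gop a φ (pull h x) := by
  have main : ∀ (T : Finset ι) (a' : GlobKer L') (a : GlobKer L),
      (∀ i ∉ T, a'.loc i = LocKer.one) → (∀ i ∉ T, a.loc i = LocKer.one) →
      (∀ i, Compat (h i) (a'.loc i) (a.loc i)) →
      gop a' (fun x => φ (pull h x)) = fun x => gop a φ (pull h x) := by
    intro T
    induction T using Finset.induction_on with
    | empty =>
      intro a' a ha' ha _
      have e1 : a' = gone := gext (fun i => ha' i (by simp))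
      have e2 : a = gone := gext (fun i => ha i (by simp))
      subst e1; subst e2
      simp only [gop_gone]
    | insert i T hiT ih =>
      intro a' a ha' ha hc
      have h1 : gop (gset a' i LocKer.one) (fun x => φ (pull h x)) =
          fun x => gop (gset a i LocKer.one) φ (pull h x) := by
        apply ih
        · intro j hj
          by_cases hji : j = i
          · subst hji; simp
          · rw [gset_ne _ hji]
            exact ha' j (by simp [hji, hj])
        · intro j hj
          by_cases hji : j = i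
          · subst hji; simp
          · rw [gset_ne _ hji]
            exact ha j (by simp [hji, hj])
        · intro j
          by_cases hji : j = i
          · subst hji
            rw [gset_same, gset_same]
            exact Compat.one _
          · rw [gset_ne _ hji, gset_ne _ hji]
            exact hc j
      rw [gop_split a' i, h1, lop_pull h (hc i)]
      funext x
      rw [← gop_split a i]
  refine main (a'.fin.toFinset ∪ a.fin.toFinset) a' a ?_ ?_ hc
  · intro i hi
    by_contra hcon
    exact hi (by simp [hcon])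
  · intro i hi
    by_contra hcon
    exact hi (by simp [hcon])

/-- The lift of a global kernel, the component at the places where the level changes being the
unit on both sides. -/
def gcast (hne : Set ι) (heq : ∀ i, i ∉ hne → L'.U i = L.U i) (a : GlobKer L) : GlobKer L' :=
  ⟨fun i => if hi : i ∈ hne then LocKer.one else lcast (heq i hi) (a.loc i), a.fin.subset (by
    intro i hi hcon
    apply hi
    show (if hi : i ∈ hne then LocKer.one else lcast (heq i hi) (a.loc i)) = _
    split_ifs with hh
    · rfl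
    · rw [hcon, lcast_one])⟩

theorem gcast_loc_of_mem (hne : Set ι) (heq : ∀ i, i ∉ hne → L'.U i = L.U i) (a : GlobKer L)
    {i : ι} (hi : i ∈ hne) : (gcast hne heq a).loc i = LocKer.one := dif_pos hi

theorem gcast_loc_of_notMem (hne : Set ι) (heq : ∀ i, i ∉ hne → L'.U i = L.U i) (a : GlobKer L)
    {i : ι} (hi : i ∉ hne) : (gcast hne heq a).loc i = lcast (heq i hi) (a.loc i) := dif_neg hi

theorem gcast_compat (hne : Set ι) (heq : ∀ i, i ∉ hne → L'.U i = L.U i) (a : GlobKer L)
    (ha : ∀ i ∈ hne, a.loc i = LocKer.one) (i : ι) :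
    Compat (h i) ((gcast hne heq a).loc i) (a.loc i) := by
  by_cases hi : i ∈ hne
  · rw [gcast_loc_of_mem _ _ _ hi, ha i hi]
    exact Compat.one _
  · rw [gcast_loc_of_notMem _ _ _ hi]
    exact Compat.cast _ _ _

end Op

end Fermat.Agent.H50Z
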