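import Fermat.Agent.H50ZPull
import Fermat.Agent.H42S5
import Fermat.Agent.H21Z2
import Fermat.Agent.H59Def

/-!
# The target vector of block (C) of S47 (helper50, [PULL] part 2)

* `OpData.exists_target_eig`: from a bounded invariant function `Φ` which is fixed up to `q + 1` by
  `P` and has `P (W Φ) = a Φ`, a vector of the eigenspace `Eig c` which is an eigenvector of `U` and
  of all other operators of the family;
* `pullX`, `pullB`: change of level on the model `X(K)` and on bounded invariant functions;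
* `gopX`: the operator of a global kernel on functions on the model, and its compatibility with
  `pullX`.
-/

set_option autoImplicit false

noncomputable section

open MeasureTheory Matrix IsDedekindDomain
open scoped MatrixGroups

namespace Fermat.Agent.H50Z

open Fermat.Agent.H59XF Fermat.Agent.H51Z Fermat.Agent.H59D Fermat.Agent.H21Z
open Fermat.Agent.H32Z Fermat.Agent.H42S

/-! ### The abstract target -/

section Target

variable {G X : Type} [Group G] [MulAction G X] [MeasurableSpace X] {ν : Measure X}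
  [IsFiniteMeasure ν] {K : X → X → ℂ} {J : Type} {hK : BK K}
  {hG : ∀ (g : G) x y, K (g • x) y = K x y} (D : OpData J hK ν hG)

/-- Elements of an eigenspace from invariant functions. -/
theorem exists_eig_of_kop {c : ℝ} (hc : c ≠ 0) {f : BInv G X}
    (h : kop hK ν hG f = (c : ℂ) • f) : ∃ v : Eig hK ν c, toInv hG hc v = f :=
  ⟨⟨f, mem_eig_of_kop hG h⟩, rfl⟩

/-- The target vector: `Φ - z W Φ`. -/
theorem exists_target_eig {c : ℝ} (hc : c ≠ 0) (hq : 1 < D.q) {Φ : BInv G X} (hΦ : Φ ≠ 0)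
    (hker : kop hK ν hG Φ = (c : ℂ) • Φ) {a : ℂ}
    (h1 : D.P Φ = ((D.q + 1 : ℝ) : ℂ) • Φ) (h2 : D.P (D.W Φ) = a • Φ)
    {χ : D.N → ℂ} (hχ : ∀ k, k ≠ D.u → D.Y k Φ = χ k • Φ)
    (hW : ∀ k, k ≠ D.u → Commute (D.Y k) D.W) :
    ∃ (z : ℂ) (v : Eig hK ν c), v ≠ 0 ∧ D.q ≤ ‖z‖ ^ 2 ∧ toInv hG hc v = Φ - z • D.W Φ ∧
      (∀ k, k ≠ D.u → D.YE hc k v = χ k • v) ∧
      D.YE hc D.u v = ((((Real.sqrt D.q)⁻¹ : ℝ) : ℂ) * z) ^ D.e • v := by
  have hWW : ∀ f : BInv G X, D.W (D.W f) = f := by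
    intro f
    have := congrArg (fun A : Module.End ℂ (BInv G X) => A f) D.W_sq
    simpa using this
  obtain ⟨z, hz, hne, hU⟩ := exists_target (W := D.W) (P := D.P)
    (U := D.W * (D.P - 1)) hq hWW
    (fun v => by rw [Module.End.mul_apply, LinearMap.sub_apply, Module.End.one_apply]) hΦ h1 h2
  -- the eigen-equation of the kernel
  have hkW : kop hK ν hG (D.W Φ) = D.W (kop hK ν hG Φ) := (mem_Cm hG).mp D.W_mem Φ
  have hk : kop hK ν hG (Φ - z • D.W Φ) = (c : ℂ) • (Φ - z • D.W Φ) := by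
    rw [map_sub, map_smul, hkW, hker, map_smul, smul_sub, smul_comm z]
  obtain ⟨v, hv⟩ := exists_eig_of_kop (hG := hG) hc hk
  have hres : ∀ k (f : Eig hK ν c), toInv hG hc (D.YE hc k f) = D.Y k (toInv hG hc f) := by
    intro k f
    unfold OpData.YE
    rw [toInv_resAlg]
  refine ⟨z, v, ?_, hz, hv, ?_, ?_⟩
  · rintro rfl
    apply hne
    rw [← hv, map_zero]
  · intro k hk
    apply toInv_injective hG hc
    rw [hres, map_smul, hv]
    exact target_eigen (hW k hk) (hχ k hk) z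
  · apply toInv_injective hG hc
    rw [hres, map_smul, hv, D.Y_u]
    set A : Module.End ℂ (BInv G X) := (((Real.sqrt D.q)⁻¹ : ℝ) : ℂ) • (D.W * (D.P - 1)) with hA
    have hA1 : A (Φ - z • D.W Φ) = ((((Real.sqrt D.q)⁻¹ : ℝ) : ℂ) * z) • (Φ - z • D.W Φ) := by
      rw [hA, LinearMap.smul_apply, hU, smul_smul]
    generalize D.e = e
    induction e with
    | zero => simp
    | succ e ih =>
      rw [pow_succ, Module.End.mul_apply, hA1, map_smul, ih, smul_smul, pow_succ, mul_comm]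

/-- The target vector when the family is built from `P' = W P W` (so that
`W (P' - 1) = (P - 1) W`, the operator of the kernel `Uker` of `H51ZIw`): `W Φ - z Φ`. -/
theorem exists_target_eig' {c : ℝ} (hc : c ≠ 0) (hq : 1 < D.q) {P : Module.End ℂ (BInv G X)}
    (hP : D.P = D.W * P * D.W) {Φ : BInv G X} (hΦ : Φ ≠ 0)
    (hker : kop hK ν hG Φ = (c : ℂ) • Φ) {a : ℂ}
    (h1 : P Φ = ((D.q + 1 : ℝ) : ℂ) • Φ) (h2 : P (D.W Φ) = a • Φ)
    {χ : D.N → ℂ} (hχ : ∀ k, k ≠ D.u → D.Y k Φ = χ k • Φ)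
    (hW : ∀ k, k ≠ D.u → Commute (D.Y k) D.W) :
    ∃ (z : ℂ) (v : Eig hK ν c), v ≠ 0 ∧ D.q ≤ ‖z‖ ^ 2 ∧ toInv hG hc v = D.W Φ - z • Φ ∧
      (∀ k, k ≠ D.u → D.YE hc k v = χ k • v) ∧
      D.YE hc D.u v = ((((Real.sqrt D.q)⁻¹ : ℝ) : ℂ) * z) ^ D.e • v := by
  have hWW : ∀ f : BInv G X, D.W (D.W f) = f := by
    intro f
    have := congrArg (fun A : Module.End ℂ (BInv G X) => A f) D.W_sq
    simpa using this
  have hΦ' : D.W Φ ≠ 0 := by
    intro h0
    apply hΦ
    rw [← hWW Φ, h0, map_zero]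
  have hker' : kop hK ν hG (D.W Φ) = (c : ℂ) • D.W Φ := by
    rw [(mem_Cm hG).mp D.W_mem Φ, hker, map_smul]
  have h1' : D.P (D.W Φ) = ((D.q + 1 : ℝ) : ℂ) • D.W Φ := by
    rw [hP, Module.End.mul_apply, Module.End.mul_apply, hWW, h1, map_smul]
  have h2' : D.P (D.W (D.W Φ)) = a • D.W Φ := by
    rw [hWW, hP, Module.End.mul_apply, Module.End.mul_apply, h2, map_smul]
  have hχ' : ∀ k, k ≠ D.u → D.Y k (D.W Φ) = χ k • D.W Φ := by
    intro k hk
    have := congrArg (fun A : Module.End ℂ (BInv G X) => A Φ) (hW k hk).eq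
    have h3 : D.Y k (D.W Φ) = D.W (D.Y k Φ) := this
    rw [h3, hχ k hk, map_smul]
  obtain ⟨z, v, hv0, hz, hv, hk, hu⟩ := exists_target_eig D hc hq hΦ' hker' h1' h2' hχ' hW
  refine ⟨z, v, hv0, hz, ?_, hk, hu⟩
  rw [hv, hWW]

/-- The eigenvalue of the target has absolute value at least one. -/
theorem one_le_norm_target {q : ℝ} (hq : 1 < q) {z : ℂ} (hz : q ≤ ‖z‖ ^ 2) (e : ℕ) :
    1 ≤ ‖((((Real.sqrt q)⁻¹ : ℝ) : ℂ) * z) ^ e‖ := by
  rw [norm_pow]
  apply one_le_pow₀
  have h := norm_target hq hz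
  rwa [Complex.ofReal_inv]

end Target

/-! ### The model -/

section Model

variable {K : Type*} [Field K] [NumberField K] {J : Type*} [Fintype J]

/-- The operator of a global kernel on functions on the model. -/
def gopX (m : Model K J) {E : Type*} [AddCommGroup E] [Module ℂ E] (a : GlobKer m.L.fam)
    (f : m.X → E) (x : m.X) : E := gop a (fun y => f (x.1, y)) x.2

variable {m' m : Model K J}

/-- The change of level on the model. -/
def pullX (h : ∀ w, m'.L.U w ≤ m.L.U w) (x : m'.X) : m.X :=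
  (x.1, pull (L' := m'.L.fam) (L := m.L.fam) h x.2)

@[simp] theorem pullX_fst (h : ∀ w, m'.L.U w ≤ m.L.U w) (x : m'.X) : (pullX h x).1 = x.1 := rfl

@[simp] theorem pullX_snd (h : ∀ w, m'.L.U w ≤ m.L.U w) (x : m'.X) :
    (pullX h x).2 = pull (L' := m'.L.fam) (L := m.L.fam) h x.2 := rfl

theorem pullX_smul (h : ∀ w, m'.L.U w ≤ m.L.U w) (he : ∀ j, m'.e j = m.e j) (g : PGL(2, K))
    (x : m'.X) : pullX h (g • x) = g • pullX h x := by
  refine Prod.ext (funext fun j => ?_) (pull_smul _ g x.2)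
  show ProjGenLinGroup.map (m'.e j) g • x.1 j = ProjGenLinGroup.map (m.e j) g • x.1 j
  rw [he]

theorem pullX_surjective (h : ∀ w, m'.L.U w ≤ m.L.U w) : Function.Surjective (pullX h) := by
  rintro ⟨x, y⟩
  obtain ⟨y', hy'⟩ := pull_surjective (L' := m'.L.fam) (L := m.L.fam) h y
  exact ⟨(x, y'), Prod.ext rfl hy'⟩

theorem measurable_pullX (h : ∀ w, m'.L.U w ≤ m.L.U w) : Measurable (pullX h) := by
  refine Measurable.prodMk measurable_fst ?_
  have h1 : Measurable (pull (L' := m'.L.fam) (L := m.L.fam) h) := measurable_from_top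
  exact h1.comp measurable_snd

theorem pullX_act (h : ∀ w, m'.L.U w ≤ m.L.U w) (a' : AutData m') (a : AutData m)
    (hs : a'.s = a.s) (hσ : a'.σ = a.σ) (hc : a'.c = a.c) (x : m'.X) :
    pullX h (a'.act x) = a.act (pullX h x) := by
  refine Prod.ext (funext fun j => ?_) ?_
  · show x.1 (a'.c.symm j) = x.1 (a.c.symm j)
    rw [hc]
  · show pull _ (a'.twist.act x.2) = a.twist.act (pull _ x.2)
    apply pull_act
    · show AutData.pmap a'.s = AutData.pmap a.s
      rw [hs]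
    · exact hσ

theorem gopX_pull (h : ∀ w, m'.L.U w ≤ m.L.U w) {E : Type*} [AddCommGroup E] [Module ℂ E]
    {a' : GlobKer m'.L.fam} {a : GlobKer m.L.fam}
    (hc : ∀ i, Compat (h i) (a'.loc i) (a.loc i)) (f : m.X → E) (x : m'.X) :
    gopX m' a' (fun x => f (pullX h x)) x = gopX m a f (pullX h x) := by
  show gop a' (fun y => f (x.1, pull _ y)) x.2 = _
  rw [gop_pull (L' := m'.L.fam) (L := m.L.fam) h hc (fun y => f (x.1, y))]
  rfl

/-- Pull back of bounded invariant functions. -/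
def pullB (h : ∀ w, m'.L.U w ≤ m.L.U w) (he : ∀ j, m'.e j = m.e j) :
    BInv PGL(2, K) m.X →ₗ[ℂ] BInv PGL(2, K) m'.X where
  toFun f := ⟨fun x => (f : m.X → ℂ) (pullX h x), (BInv.measurable f).comp (measurable_pullX h), by
    obtain ⟨C, hC⟩ := BInv.bounded f
    exact ⟨C, fun x => hC _⟩, fun g x => by
      show (f : m.X → ℂ) (pullX h (g • x)) = (f : m.X → ℂ) (pullX h x)
      rw [pullX_smul h he, BInv.inv]⟩
  map_add' _ _ := rfl
  map_smul' _ _ := rfl

@[simp] theorem pullB_apply (h : ∀ w, m'.L.U w ≤ m.L.U w) (he : ∀ j, m'.e j = m.e j)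
    (f : BInv PGL(2, K) m.X) (x : m'.X) :
    (pullB h he f : m'.X → ℂ) x = (f : m.X → ℂ) (pullX h x) := rfl

theorem pullB_injective (h : ∀ w, m'.L.U w ≤ m.L.U w) (he : ∀ j, m'.e j = m.e j) :
    Function.Injective (pullB h he) := by
  intro f g hfg
  apply Subtype.ext
  funext x
  obtain ⟨x', rfl⟩ := pullX_surjective h x
  exact congrFun (congrArg (fun F : BInv PGL(2, K) m'.X => (F : m'.X → ℂ)) hfg) x'

end Model

end Fermat.Agent.H50Z
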