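import Mathlib

/-!
# LT-MOD2, block M2: definite quaternion orders over `ℚ`: definitions

* `QAlg D`: `D` is a definite quaternion algebra over `ℚ` (division ring with involution `star`,
  reduced trace `trd` and reduced norm `nrd`).
* `loc m X`: localisation of a lattice `X` at the integers prime to `m` (as a subgroup of `D`).
* `QOrd D M`: a hereditary order `R` of squarefree level `M` given with local information.
* `RIdeal O`: locally principal right ideals of `O.R`; `RIdeal.nm`: the norm;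
  `Cls O`: the set of ideal classes (up to left multiplication by `D^×`).
* `RIdeal.w v`: multiplication by the two-sided prime `P_v`.
* `RIdeal.nbr n`: ideals `J ⊆ I` with `nm J = n * nm I`; `RIdeal.brandt n I I'`: the number of
  these which are isomorphic to `I'`.
-/

set_option autoImplicit false

noncomputable section

namespace Fermat.Agent.H51Q

/-- A definite quaternion algebra over `ℚ`, with its canonical involution `star`. -/
class QAlg (D : Type) [DivisionRing D] [Algebra ℚ D] [StarRing D] where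
  trd : D →ₗ[ℚ] ℚ
  nrd : D →*₀ ℚ
  self_add_star : ∀ x : D, x + star x = algebraMap ℚ D (trd x)
  self_mul_star : ∀ x : D, x * star x = algebraMap ℚ D (nrd x)
  nrd_nonneg : ∀ x : D, 0 ≤ nrd x

export QAlg (trd nrd)

/-- localisation of a subgroup at the integers prime to `m` -/
def loc {D : Type} [AddCommGroup D] (m : ℕ) (X : AddSubgroup D) : AddSubgroup D where
  carrier := {x | ∃ s : ℕ, s.Coprime m ∧ s • x ∈ X}
  add_mem' := by
    rintro x y ⟨s, hs, hx⟩ ⟨t, ht, hy⟩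
    refine ⟨s * t, Nat.Coprime.mul_left hs ht, ?_⟩
    rw [smul_add]
    refine X.add_mem ?_ ?_
    · rw [mul_comm, mul_smul]; exact X.nsmul_mem hx t
    · rw [mul_smul]; exact X.nsmul_mem hy s
  zero_mem' := ⟨1, by simp, by simp⟩
  neg_mem' := by
    rintro x ⟨s, hs, hx⟩
    exact ⟨s, hs, by rw [smul_neg]; exact X.neg_mem hx⟩

lemma mem_loc {D : Type} [AddCommGroup D] {m : ℕ} {X : AddSubgroup D} {x : D} :
    x ∈ loc m X ↔ ∃ s : ℕ, s.Coprime m ∧ s • x ∈ X := Iff.rfl

variable {D : Type} [DivisionRing D] [Algebra ℚ D] [StarRing D] [QAlg D]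

variable (D) in
/-- An order `R` of squarefree level `M` in a definite quaternion algebra: at the primes `v ∈ S`
(all dividing `M`) `D` is ramified and `R` is maximal, at the other primes `v ∣ M`, `R` is an
Eichler order of level `v`, at the primes `ℓ ∤ M`, `R` is maximal and `D` is split. -/
structure QOrd (M : ℕ) where
  /-- the order -/
  R : Subring D
  /-- a `ℤ`-basis of `R` -/
  b : Module.Basis (Fin 4) ℚ D
  mem_R : ∀ x : D, x ∈ R ↔ ∀ i, ∃ n : ℤ, b.repr x i = n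
  nrd_int : ∀ x ∈ R, ∃ n : ℤ, nrd x = n
  trd_int : ∀ x ∈ R, ∃ n : ℤ, trd x = n
  /-- `M * q` is integral on the dual lattice -/
  dual : ∀ x : D, (∀ y ∈ R, ∃ n : ℤ, trd (x * star y) = n) → ∃ n : ℤ, (M : ℚ) * nrd x = n
  disc : (Matrix.of fun i j => trd (b i * star (b j))).det = (M : ℚ) ^ 2
  squarefree : Squarefree M
  /-- `R` is split at `ℓ ∤ M` -/
  spl : ∀ ℓ : ℕ, ℓ.Prime → ¬ ℓ ∣ M → ∃ φ : R →+* Matrix (Fin 2) (Fin 2) (ZMod ℓ),
    Function.Surjective φ ∧ (∀ x : R, φ x = 0 ↔ ∃ y : R, x = ℓ • y) ∧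
      ∀ (x : R) (n : ℤ), nrd (x : D) = n → (φ x).det = n
  /-- generator at `v` of the two-sided ideal `P_v` -/
  π : ℕ → D
  π_mem : ∀ v : ℕ, v.Prime → v ∣ M → π v ∈ loc v R.toAddSubgroup
  π_sq : ∀ v : ℕ, v.Prime → v ∣ M → ∃ c : ℚ, padicValRat v c = 1 ∧
    π v * π v = algebraMap ℚ D c
  π_conj : ∀ v : ℕ, v.Prime → v ∣ M → ∀ x ∈ loc v R.toAddSubgroup,
    π v * x * (π v)⁻¹ ∈ loc v R.toAddSubgroup
  /-- the finite primes at which `D` is ramified -/
  S : Finset ℕ
  S_prime : ∀ v ∈ S, v.Prime ∧ v ∣ M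
  /-- at a ramified prime `P_v` consists of the elements of norm divisible by `v` -/
  div : ∀ v ∈ S, ∀ x ∈ loc v R.toAddSubgroup, (x = 0 ∨ 1 ≤ padicValRat v (nrd x)) →
    ∃ y ∈ loc v R.toAddSubgroup, x = π v * y

variable {M : ℕ}

/-- the additive group of the order -/
abbrev QOrd.Ra (O : QOrd D M) : AddSubgroup D := O.R.toAddSubgroup

/-- locally principal right ideals (full lattices `I` with `I R ⊆ I` and, for every prime `p`,
`I_(p) = α R_(p)`). -/
@[ext]
structure RIdeal (O : QOrd D M) where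
  I : AddSubgroup D
  mul_mem : ∀ x ∈ I, ∀ r ∈ O.R, x * r ∈ I
  bdd : ∃ n : ℕ, n ≠ 0 ∧ ∀ x ∈ I, n • x ∈ O.R
  prin : ∀ p : ℕ, p.Prime → ∃ α : D, α ≠ 0 ∧ ∀ x, x ∈ loc p I ↔ α⁻¹ * x ∈ loc p O.Ra

namespace RIdeal

variable {O : QOrd D M}

/-- `α` generates `I` at `p` -/
def IsGenAt (I : RIdeal O) (p : ℕ) (α : D) : Prop :=
  α ≠ 0 ∧ ∀ x, x ∈ loc p I.I ↔ α⁻¹ * x ∈ loc p O.Ra

/-- `q` is the norm of `I` -/
def IsNm (I : RIdeal O) (q : ℚ) : Prop :=
  0 < q ∧ ∀ p : ℕ, p.Prime → ∀ α, I.IsGenAt p α → padicValRat p q = padicValRat p (nrd α)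

open Classical in
/-- the norm of `I` -/
def nm (I : RIdeal O) : ℚ := if h : ∃ q, I.IsNm q then h.choose else 0

/-- `γ I` for `γ ≠ 0` -/
def IsLMul (γ : D) (I J : RIdeal O) : Prop := γ ≠ 0 ∧ ∀ x, x ∈ J.I ↔ γ⁻¹ * x ∈ I.I

/-- two ideals are equivalent if `J = γ I` for some `γ ∈ D^×` -/
instance setoid (O : QOrd D M) : Setoid (RIdeal O) where
  r I J := ∃ γ : D, IsLMul γ I J
  iseqv :=
    { refl := fun I => ⟨1, one_ne_zero, fun x => by simp⟩
      symm := by
        rintro I J ⟨γ, hγ, h⟩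
        refine ⟨γ⁻¹, inv_ne_zero hγ, fun x => ?_⟩
        rw [inv_inv, h, inv_mul_cancel_left₀ hγ]
      trans := by
        rintro I J K ⟨γ, hγ, h⟩ ⟨δ, hδ, h'⟩
        refine ⟨δ * γ, mul_ne_zero hδ hγ, fun x => ?_⟩
        rw [h', h, mul_inv_rev, mul_assoc] }

/-- ideals `J ⊆ I` with `nm J = n * nm I` -/
def nbr (n : ℕ) (I : RIdeal O) : Set (RIdeal O) := {J | J.I ≤ I.I ∧ J.nm = n * I.nm}

end RIdeal

/-- the set of ideal classes -/
def Cls (O : QOrd D M) : Type := Quotient (RIdeal.setoid O)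

/-- the class of an ideal -/
def cls {O : QOrd D M} (I : RIdeal O) : Cls O := Quotient.mk _ I

lemma cls_eq_iff {O : QOrd D M} {I J : RIdeal O} :
    cls I = cls J ↔ ∃ γ : D, RIdeal.IsLMul γ I J :=
  ⟨fun h => Quotient.exact h, fun h => Quotient.sound h⟩

/-- Brandt numbers: the number of `J ⊆ I` with `nm J = n * nm I` and class `c`. -/
def RIdeal.brandt {O : QOrd D M} (n : ℕ) (I : RIdeal O) (c : Cls O) : ℕ :=
  Nat.card {J : RIdeal O // J ∈ I.nbr n ∧ cls J = c}

end Fermat.Agent.H51Q
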