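import Mathlib

/-!
# Neighbours of lattices over a Dedekind domain (helper51, package C-HECKE of S47)

`R` a Dedekind domain with fraction field `K`, `V` a `K`-vector space, `L : Submodule R V`.
For an ideal `P` the *neighbours* of `L` at `P` are the submodules `L'` with `P • L < L' < L`.

* `smul_le_smul_iff` : cancellation `I • L ≤ I • L' ↔ L ≤ L'` for `I ≠ ⊥`;
* `nb_smul` : `nb P (I • L) = (I • ·) '' nb P L`;
* `nb_map` : equivariance under semilinear automorphisms;
* `smul_mem_nb_iff` : symmetry `P • L ∈ nb P L' ↔ L' ∈ nb P L`.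
-/

set_option autoImplicit false

open Submodule

namespace Fermat.Agent.H51Z

section Basic

variable {R : Type*} [CommRing R] {V : Type*} [AddCommGroup V] [Module R V]

/-- The neighbours of `L` at `P`: the submodules strictly between `P • L` and `L`. -/
def nb (P : Ideal R) (L : Submodule R V) : Set (Submodule R V) :=
  {L' | P • L < L' ∧ L' < L}

theorem mem_nb {P : Ideal R} {L L' : Submodule R V} : L' ∈ nb P L ↔ P • L < L' ∧ L' < L :=
  Iff.rfl

theorem smul_map_semi {R' : Type*} [CommRing R'] {V' : Type*} [AddCommGroup V'] [Module R' V']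
    (σ : R →+* R') [RingHomSurjective σ] (φ : V →ₛₗ[σ] V') (I : Ideal R) (L : Submodule R V) :
    (I • L).map φ = (I.map σ) • (L.map φ) := by
  apply le_antisymm
  · rw [Submodule.map_le_iff_le_comap, Submodule.smul_le]
    intro r hr n hn
    rw [Submodule.mem_comap, φ.map_smulₛₗ]
    exact Submodule.smul_mem_smul (Ideal.mem_map_of_mem _ hr) (Submodule.mem_map_of_mem hn)
  · rw [Ideal.map, ← Submodule.span_eq (L.map φ), Submodule.span_smul_span, Submodule.span_le]
    rintro _ ⟨r', ⟨r, hr, rfl⟩, x', ⟨x, hx, rfl⟩, rfl⟩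
    refine ⟨r • x, Submodule.smul_mem_smul hr hx, ?_⟩
    exact φ.map_smulₛₗ r x

/-- Equivariance of the neighbours under a semilinear automorphism. -/
theorem nb_map {R' : Type*} [CommRing R'] {V' : Type*} [AddCommGroup V'] [Module R' V']
    (σ : R →+* R') (σ' : R' →+* R) [RingHomInvPair σ σ'] [RingHomInvPair σ' σ]
    (φ : V ≃ₛₗ[σ] V') (P : Ideal R) (L : Submodule R V) :
    nb (P.map σ) (L.map (φ : V →ₛₗ[σ] V')) =
      (fun M : Submodule R V => M.map (φ : V →ₛₗ[σ] V')) '' nb P L := by
  have hinj : Function.Injective (φ : V →ₛₗ[σ] V') := φ.injective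
  have hlt : ∀ A B : Submodule R V, A.map (φ : V →ₛₗ[σ] V') < B.map (φ : V →ₛₗ[σ] V') ↔
      A < B := by
    intro A B
    rw [lt_iff_le_not_ge, lt_iff_le_not_ge, Submodule.map_le_map_iff_of_injective hinj,
      Submodule.map_le_map_iff_of_injective hinj]
  ext M
  constructor
  · rintro ⟨h1, h2⟩
    refine ⟨M.comap (φ : V →ₛₗ[σ] V'), ?_, ?_⟩
    · have hM : (M.comap (φ : V →ₛₗ[σ] V')).map (φ : V →ₛₗ[σ] V') = M :=
        Submodule.map_comap_eq_of_surjective φ.surjective M
      constructor
      · rw [← hlt, hM, smul_map_semi]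
        exact h1
      · rw [← hlt, hM]
        exact h2
    · exact Submodule.map_comap_eq_of_surjective φ.surjective M
  · rintro ⟨M, ⟨h1, h2⟩, rfl⟩
    refine ⟨?_, (hlt _ _).2 h2⟩
    rw [← smul_map_semi]
    exact (hlt _ _).2 h1

end Basic

section Dedekind

variable {R : Type*} [CommRing R] [IsDedekindDomain R] {V : Type*} [AddCommGroup V] [Module R V]
  [Module.IsTorsionFree R V]

theorem exists_mul_eq_span {I : Ideal R} (hI : I ≠ ⊥) :
    ∃ (J : Ideal R) (a : R), a ≠ 0 ∧ I * J = Ideal.span {a} := by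
  obtain ⟨a, haI, ha⟩ := Submodule.exists_mem_ne_zero_of_ne_bot hI
  obtain ⟨J, hJ⟩ := Ideal.dvd_iff_le.2 ((Ideal.span_singleton_le_iff_mem I).2 haI)
  exact ⟨J, a, ha, hJ.symm⟩

theorem span_smul_le_iff {a : R} (ha : a ≠ 0) {L L' : Submodule R V} :
    Ideal.span {a} • L ≤ Ideal.span {a} • L' ↔ L ≤ L' := by
  constructor
  · intro h x hx
    have h1 : a • x ∈ Ideal.span {a} • L' := h (Submodule.smul_mem_smul
      (Ideal.mem_span_singleton_self a) hx)
    rw [Submodule.ideal_span_singleton_smul, Submodule.mem_smul_pointwise_iff_exists] at h1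
    obtain ⟨y, hy, hxy⟩ := h1
    have : y = x := (smul_right_injective V ha) hxy
    exact this ▸ hy
  · intro h
    exact smul_mono_right _ h

/-- Cancellation of a nonzero ideal. -/
theorem smul_le_smul_iff {I : Ideal R} (hI : I ≠ ⊥) {L L' : Submodule R V} :
    I • L ≤ I • L' ↔ L ≤ L' := by
  constructor
  · intro h
    obtain ⟨J, a, ha, hJ⟩ := exists_mul_eq_span hI
    have h1 : J • I • L ≤ J • I • L' := smul_mono_right _ h
    rw [← Submodule.mul_smul, ← Submodule.mul_smul, mul_comm J I, hJ, span_smul_le_iff ha] at h1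
    exact h1
  · intro h
    exact smul_mono_right _ h

theorem smul_lt_smul_iff {I : Ideal R} (hI : I ≠ ⊥) {L L' : Submodule R V} :
    I • L < I • L' ↔ L < L' := by
  rw [lt_iff_le_not_ge, lt_iff_le_not_ge, smul_le_smul_iff hI, smul_le_smul_iff hI]

theorem smul_inj {I : Ideal R} (hI : I ≠ ⊥) {L L' : Submodule R V} :
    I • L = I • L' ↔ L = L' := by
  constructor
  · intro h
    exact le_antisymm ((smul_le_smul_iff hI).1 h.le) ((smul_le_smul_iff hI).1 h.ge)
  · rintro rfl
    rfl

/-- Every submodule of `I • L` is of the form `I • L'` when it contains `I • N`, in fact always: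
`M ≤ I • L → ∃ L', M = I • L'`. -/
theorem exists_eq_smul {I : Ideal R} (hI : I ≠ ⊥) {L M : Submodule R V} (h : M ≤ I • L) :
    ∃ L' : Submodule R V, M = I • L' := by
  obtain ⟨J, a, ha, hJ⟩ := exists_mul_eq_span hI
  -- `L' = a⁻¹ J M`
  refine ⟨(J • M).comap (LinearMap.lsmul R V a), ?_⟩
  have hJ0 : J ≠ ⊥ := by
    rintro rfl
    rw [Ideal.mul_bot] at hJ
    exact ha (Ideal.span_singleton_eq_bot.1 hJ.symm)
  have hle : J • M ≤ Ideal.span {a} • L := by
    have := smul_mono_right J h
    rwa [← Submodule.mul_smul, mul_comm J I, hJ] at this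
  -- `a • L' = J • M`
  have key : Ideal.span {a} • ((J • M).comap (LinearMap.lsmul R V a)) = J • M := by
    apply le_antisymm
    · rw [Submodule.ideal_span_singleton_smul]
      rintro _ ⟨x, hx, rfl⟩
      exact hx
    · intro x hx
      have hx' := hle hx
      rw [Submodule.ideal_span_singleton_smul, Submodule.mem_smul_pointwise_iff_exists] at hx'
      obtain ⟨y, hy, rfl⟩ := hx'
      rw [Submodule.ideal_span_singleton_smul]
      exact Submodule.smul_mem_pointwise_smul _ _ _ hx
  have : J • M = J • (I • ((J • M).comap (LinearMap.lsmul R V a))) := by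
    rw [← Submodule.mul_smul, mul_comm J I, hJ, key]
  exact (smul_inj hJ0).1 this

/-- Neighbours and scaling by ideals. -/
theorem nb_smul {I : Ideal R} (hI : I ≠ ⊥) (P : Ideal R) (L : Submodule R V) :
    nb P (I • L) = (fun M : Submodule R V => I • M) '' nb P L := by
  ext M
  constructor
  · rintro ⟨h1, h2⟩
    obtain ⟨M', rfl⟩ := exists_eq_smul hI h2.le
    refine ⟨M', ⟨?_, (smul_lt_smul_iff hI).1 h2⟩, rfl⟩
    rw [← Submodule.mul_smul, mul_comm P I, Submodule.mul_smul, smul_lt_smul_iff hI] at h1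
    exact h1
  · rintro ⟨M', ⟨h1, h2⟩, rfl⟩
    refine ⟨?_, (smul_lt_smul_iff hI).2 h2⟩
    rw [← Submodule.mul_smul, mul_comm P I, Submodule.mul_smul]
    exact (smul_lt_smul_iff hI).2 h1

/-- Symmetry of the neighbour relation. -/
theorem smul_mem_nb_iff {P : Ideal R} (hP : P ≠ ⊥) {L L' : Submodule R V} :
    P • L ∈ nb P L' ↔ L' ∈ nb P L := by
  rw [mem_nb, mem_nb, smul_lt_smul_iff hP, and_comm]

end Dedekind

end Fermat.Agent.H51Z
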