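import Mathlib

/-!
# The 5-congruent family of an elliptic curve (explicit Klein / Fisher polynomials)

For `E : y² = x³ - 27 a x - 54 b` the curve
`E_m : y² = x³ - 27 ĉ₄(a,b,m) x - 54 ĉ₆(a,b,m)` has the same mod 5 representation.
`dHat a b m = D̂(1,m)` is Fisher's polynomial of degree 12 in `m`; `gHat`, `eHat`, `kHat` are
its first three (normalised) derivatives; `c4Hat = ĉ₄`, `c6Hat2 = 2 ĉ₆`.
Main identity: `4 ĉ₄³ - (2ĉ₆)² = 4 (a³ - b²) D̂⁵`.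
-/

set_option autoImplicit false

namespace Fermat.Agent.H52

section
variable {R : Type*} [CommRing R]

/-- `D̂(1, m)`. -/
def dHat (a b m : R) : R :=
    1 - 66 * a * m ^ 2 - 440 * b * m ^ 3 - 1485 * a ^ 2 * m ^ 4 - 3168 * a * b * m ^ 5
     + 5940 * a ^ 3 * m ^ 6 - 10560 * b ^ 2 * m ^ 6 - 4752 * a ^ 2 * b * m ^ 7
     - 66825 * a ^ 4 * m ^ 8 + 63360 * a * b ^ 2 * m ^ 8 - 142560 * a ^ 3 * b * m ^ 9
     + 140800 * b ^ 3 * m ^ 9 - 133650 * a ^ 5 * m ^ 10 + 133056 * a ^ 2 * b ^ 2 * m ^ 10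
     - 61560 * a ^ 4 * b * m ^ 11 + 61440 * a * b ^ 3 * m ^ 11 + 91125 * a ^ 6 * m ^ 12
     - 193536 * a ^ 3 * b ^ 2 * m ^ 12 + 102400 * b ^ 4 * m ^ 12

/-- `(1/12) ∂D̂/∂m`. -/
def gHat (a b m : R) : R :=
    -11 * a * m - 110 * b * m ^ 2 - 495 * a ^ 2 * m ^ 3 - 1320 * a * b * m ^ 4
     + 2970 * a ^ 3 * m ^ 5 - 5280 * b ^ 2 * m ^ 5 - 2772 * a ^ 2 * b * m ^ 6
     - 44550 * a ^ 4 * m ^ 7 + 42240 * a * b ^ 2 * m ^ 7 - 106920 * a ^ 3 * b * m ^ 8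
     + 105600 * b ^ 3 * m ^ 8 - 111375 * a ^ 5 * m ^ 9 + 110880 * a ^ 2 * b ^ 2 * m ^ 9
     - 56430 * a ^ 4 * b * m ^ 10 + 56320 * a * b ^ 3 * m ^ 10 + 91125 * a ^ 6 * m ^ 11
     - 193536 * a ^ 3 * b ^ 2 * m ^ 11 + 102400 * b ^ 4 * m ^ 11

/-- `(1/132) ∂²D̂/∂m²`. -/
def eHat (a b m : R) : R :=
    -a - 20 * b * m - 135 * a ^ 2 * m ^ 2 - 480 * a * b * m ^ 3 + 1350 * a ^ 3 * m ^ 4
     - 2400 * b ^ 2 * m ^ 4 - 1512 * a ^ 2 * b * m ^ 5 - 28350 * a ^ 4 * m ^ 6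
     + 26880 * a * b ^ 2 * m ^ 6 - 77760 * a ^ 3 * b * m ^ 7 + 76800 * b ^ 3 * m ^ 7
     - 91125 * a ^ 5 * m ^ 8 + 90720 * a ^ 2 * b ^ 2 * m ^ 8 - 51300 * a ^ 4 * b * m ^ 9
     + 51200 * a * b ^ 3 * m ^ 9 + 91125 * a ^ 6 * m ^ 10 - 193536 * a ^ 3 * b ^ 2 * m ^ 10
     + 102400 * b ^ 4 * m ^ 10

/-- `(1/1320) ∂³D̂/∂m³`. -/
def kHat (a b m : R) : R :=
    -2 * b - 27 * a ^ 2 * m - 144 * a * b * m ^ 2 + 540 * a ^ 3 * m ^ 3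
     - 960 * b ^ 2 * m ^ 3 - 756 * a ^ 2 * b * m ^ 4 - 17010 * a ^ 4 * m ^ 5
     + 16128 * a * b ^ 2 * m ^ 5 - 54432 * a ^ 3 * b * m ^ 6 + 53760 * b ^ 3 * m ^ 6
     - 72900 * a ^ 5 * m ^ 7 + 72576 * a ^ 2 * b ^ 2 * m ^ 7 - 46170 * a ^ 4 * b * m ^ 8
     + 46080 * a * b ^ 3 * m ^ 8 + 91125 * a ^ 6 * m ^ 9 - 193536 * a ^ 3 * b ^ 2 * m ^ 9
     + 102400 * b ^ 4 * m ^ 9


/-- `ĉ₄(1, m)`. -/
def c4Hat (a b m : R) : R := gHat a b m ^ 2 - dHat a b m * eHat a b m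

/-- `2 ĉ₆(1, m)`. -/
def c6Hat2 (a b m : R) : R :=
    3 * dHat a b m * gHat a b m * eHat a b m - dHat a b m ^ 2 * kHat a b m
     - 2 * gHat a b m ^ 3

set_option maxHeartbeats 4000000 in
/-- The discriminant of the third polar of `D̂`. -/
theorem disc_identity (a b m : R) :
    3 * gHat a b m ^ 2 * eHat a b m ^ 2 + 6 * dHat a b m * gHat a b m * eHat a b m * kHat a b m
      - 4 * dHat a b m * eHat a b m ^ 3 - 4 * gHat a b m ^ 3 * kHat a b m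
      - dHat a b m ^ 2 * kHat a b m ^ 2 = 4 * (a ^ 3 - b ^ 2) * dHat a b m ^ 3 := by
  unfold dHat gHat eHat kHat
  ring

theorem syzygy (a b m : R) :
    4 * c4Hat a b m ^ 3 - c6Hat2 a b m ^ 2 = 4 * (a ^ 3 - b ^ 2) * dHat a b m ^ 5 := by
  have h := disc_identity a b m
  unfold c4Hat c6Hat2
  linear_combination (dHat a b m ^ 2) * h

end
end Fermat.Agent.H52
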