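import Fermat.Agent.H52Klein

/-!
# Icosahedral identities over `ℤ[ζ₅]`

All identities here hold in any commutative ring with `ζ⁴ + ζ³ + ζ² + ζ + 1 = 0`.
-/

set_option autoImplicit false

namespace Fermat.Agent.H52

variable {R : Type*} [CommRing R]

/-- `α(u,v)`: the 5-torsion point `p(u,v)` has Tate parameters `α, β`. -/
def kal (u v : R) : R := u * (u ^ 4 + 3 * u ^ 3 * v + 4 * u ^ 2 * v ^ 2 + 2 * u * v ^ 3 + v ^ 4)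
/-- `β(u,v)` -/
def kbe (u v : R) : R := v * (u ^ 4 - 2 * u ^ 3 * v + 4 * u ^ 2 * v ^ 2 - 3 * u * v ^ 3 + v ^ 4)
/-- `x`-coordinate of the 5-torsion point `p(u,v)` on `y² = x³ - 27 k₄ x - 54 k₆`. -/
def kpx (u v : R) : R := 3 * (kal u v ^ 2 - 6 * kal u v * kbe u v + kbe u v ^ 2)
/-- `y`-coordinate -/
def kpy (u v : R) : R := -108 * kal u v * kbe u v ^ 2

/-- `c₄` of the Tate curve with parameters `α`, `β`. -/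
def t4 (x y : R) : R := x ^ 4 - 12 * x ^ 3 * y + 14 * x ^ 2 * y ^ 2 + 12 * x * y ^ 3 + y ^ 4
/-- `c₆` of the Tate curve with parameters `α`, `β`. -/
def t6 (x y : R) : R :=
  -((y - x) ^ 2 - 4 * x * y) ^ 3 + 36 * ((y - x) ^ 2 - 4 * x * y) * ((y - x) * (-x * y ^ 2))
    - 216 * (x * y ^ 2) ^ 2

/-- `5 ×` entries of the icosahedral matrix `S = ((s₁, s₂), (s₂, -s₁))`. -/
def sS1 (ζ : R) : R := 1 + 2 * ζ + 3 * ζ ^ 2 - ζ ^ 3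
def sS2 (ζ : R) : R := 2 + 4 * ζ + ζ ^ 2 + 3 * ζ ^ 3
def cC1 (ζ : R) : R := 4 + 8 * ζ + 7 * ζ ^ 2 + ζ ^ 3
def cC2 (ζ : R) : R := 3 + 6 * ζ - ζ ^ 2 + 7 * ζ ^ 3

def xS (ζ u v : R) : R := sS1 ζ * u + sS2 ζ * v
def yS (ζ u v : R) : R := sS2 ζ * u - sS1 ζ * v
def zA (ζ U V : R) : R := cC1 ζ * U + cC2 ζ * V
def zB (ζ U V : R) : R := cC2 ζ * U - cC1 ζ * V
/-- `25 x(z)` -/
def zX (ζ u v : R) : R := 3 * (zA ζ (u ^ 5) (v ^ 5) ^ 2 - 6 * zA ζ (u ^ 5) (v ^ 5) * zB ζ (u ^ 5) (v ^ 5)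
  + zB ζ (u ^ 5) (v ^ 5) ^ 2)
/-- `125 y(z)` -/
def zY (ζ u v : R) : R := -108 * zA ζ (u ^ 5) (v ^ 5) * zB ζ (u ^ 5) (v ^ 5) ^ 2
/-- `5 ×` slope of the line through `p(ζu,v)`, `z(u,v)`, `-p(u,v)`. -/
def zL (ζ u v : R) : R :=
  (3 + 6 * ζ - 6 * ζ ^ 2 + 12 * ζ ^ 3) * u ^ 5 + (30 - 30 * ζ ^ 3) * u ^ 3 * v ^ 2
    + (-30 + 30 * ζ ^ 2) * u ^ 2 * v ^ 3 + (30 - 30 * ζ) * u * v ^ 4
    + (-9 - 18 * ζ - 12 * ζ ^ 2 - 6 * ζ ^ 3) * v ^ 5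

theorem t4_k (u v : R) : t4 (kal u v) (kbe u v) = k4 u v := by
  unfold t4 kal kbe k4; ring

set_option maxHeartbeats 4000000 in
theorem t6_k (u v : R) : t6 (kal u v) (kbe u v) = k6 u v := by
  unfold t6 kal kbe k6; ring

theorem kD_eq (u v : R) : kD u v = kal u v * kbe u v * (u ^ 2 - u * v - v ^ 2) := by
  unfold kD kal kbe; ring

set_option maxHeartbeats 4000000 in
theorem sq_s (ζ : R) (hζ : ζ ^ 4 + ζ ^ 3 + ζ ^ 2 + ζ + 1 = 0) :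
    sS1 ζ ^ 2 + sS2 ζ ^ 2 = -25 := by
  unfold sS1 sS2
  linear_combination (
      10*ζ^2 - 10*ζ + 30) * hζ

set_option maxHeartbeats 4000000 in
theorem sq_c (ζ : R) (hζ : ζ ^ 4 + ζ ^ 3 + ζ ^ 2 + ζ + 1 = 0) :
    cC1 ζ ^ 2 + cC2 ζ ^ 2 = -125 := by
  unfold cC1 cC2
  linear_combination (
      50*ζ^2 - 50*ζ + 150) * hζ

set_option maxHeartbeats 4000000 in
theorem al_S (ζ u v : R) (hζ : ζ ^ 4 + ζ ^ 3 + ζ ^ 2 + ζ + 1 = 0) :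
    kal (xS ζ u v) (yS ζ u v) = 625 * zA ζ (u ^ 5) (v ^ 5) := by
  unfold kal xS yS zA sS1 sS2 cC1 cC2
  linear_combination (
      -55*ζ^11*u^5 + 75*ζ^11*u^4*v + 50*ζ^11*u^3*v^2 + 350*ζ^11*u^2*v^3 + 725*ζ^11*u*v^4
       + 615*ζ^11*v^5 + 130*ζ^10*u^5 + 300*ζ^10*u^4*v + 700*ζ^10*u^3*v^2 + 2400*ζ^10*u^2*v^3
       + 1650*ζ^10*u*v^4 - 1340*ζ^10*v^5 - 225*ζ^9*u^5 + 1125*ζ^9*u^4*v + 3750*ζ^9*u^3*v^2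
       + 6250*ζ^9*u^2*v^3 + 875*ζ^9*u*v^4 + 3425*ζ^9*v^5 + 800*ζ^8*u^5 + 4625*ζ^8*u^4*v
       + 10500*ζ^8*u^3*v^2 + 9750*ζ^8*u^2*v^3 + 4500*ζ^8*u*v^4 - 3775*ζ^8*v^5 + 1275*ζ^7*u^5
       + 11250*ζ^7*u^4*v + 18250*ζ^7*u^3*v^2 + 14000*ζ^7*u^2*v^3 + 1875*ζ^7*u*v^4 + 4550*ζ^7*v^5
       + 4435*ζ^6*u^5 + 20225*ζ^6*u^4*v + 23150*ζ^6*u^3*v^2 + 17050*ζ^6*u^2*v^3 + 2175*ζ^6*u*v^4
       - 955*ζ^6*v^5 + 8065*ζ^5*u^5 + 25775*ζ^5*u^4*v + 24100*ζ^5*u^3*v^2 + 16200*ζ^5*u^2*v^3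
       + 2075*ζ^5*u*v^4 - 295*ζ^5*v^5 + 9975*ζ^4*u^5 + 23250*ζ^4*u^4*v + 21250*ζ^4*u^3*v^2
       + 12500*ζ^4*u^2*v^3 + 375*ζ^4*u*v^4 + 5450*ζ^4*v^5 + 9200*ζ^3*u^5 + 14750*ζ^3*u^4*v
       + 14500*ζ^3*u^3*v^2 + 9000*ζ^3*u^2*v^3 + 500*ζ^3*u*v^4 - 4350*ζ^3*v^5 + 2725*ζ^2*u^5
       + 6250*ζ^2*u^4*v + 6750*ζ^2*u^3*v^2 + 4750*ζ^2*u^2*v^3 + 625*ζ^2*u*v^4 + 4700*ζ^2*v^5
       - 2005*ζ*u^5 + 1575*ζ*u^4*v + 1800*ζ*u^3*v^2 + 1350*ζ*u^2*v^3 + 225*ζ*u*v^4 - 1785*ζ*v^5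
       - 2445*u^5 + 175*u^4*v + 200*u^3*v^2 + 150*u^2*v^3 + 25*u*v^4 - 1865*v^5) * hζ

set_option maxHeartbeats 4000000 in
theorem be_S (ζ u v : R) (hζ : ζ ^ 4 + ζ ^ 3 + ζ ^ 2 + ζ + 1 = 0) :
    kbe (xS ζ u v) (yS ζ u v) = 625 * zB ζ (u ^ 5) (v ^ 5) := by
  unfold kbe xS yS zB sS1 sS2 cC1 cC2
  linear_combination (
      615*ζ^11*u^5 - 725*ζ^11*u^4*v + 350*ζ^11*u^3*v^2 - 50*ζ^11*u^2*v^3 + 75*ζ^11*u*v^4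
       + 55*ζ^11*v^5 - 1340*ζ^10*u^5 - 1650*ζ^10*u^4*v + 2400*ζ^10*u^3*v^2 - 700*ζ^10*u^2*v^3
       + 300*ζ^10*u*v^4 - 130*ζ^10*v^5 + 3425*ζ^9*u^5 - 875*ζ^9*u^4*v + 6250*ζ^9*u^3*v^2
       - 3750*ζ^9*u^2*v^3 + 1125*ζ^9*u*v^4 + 225*ζ^9*v^5 - 3775*ζ^8*u^5 - 4500*ζ^8*u^4*v
       + 9750*ζ^8*u^3*v^2 - 10500*ζ^8*u^2*v^3 + 4625*ζ^8*u*v^4 - 800*ζ^8*v^5 + 4550*ζ^7*u^5
       - 1875*ζ^7*u^4*v + 14000*ζ^7*u^3*v^2 - 18250*ζ^7*u^2*v^3 + 11250*ζ^7*u*v^4 - 1275*ζ^7*v^5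
       - 955*ζ^6*u^5 - 2175*ζ^6*u^4*v + 17050*ζ^6*u^3*v^2 - 23150*ζ^6*u^2*v^3 + 20225*ζ^6*u*v^4
       - 4435*ζ^6*v^5 - 295*ζ^5*u^5 - 2075*ζ^5*u^4*v + 16200*ζ^5*u^3*v^2 - 24100*ζ^5*u^2*v^3
       + 25775*ζ^5*u*v^4 - 8065*ζ^5*v^5 + 5450*ζ^4*u^5 - 375*ζ^4*u^4*v + 12500*ζ^4*u^3*v^2
       - 21250*ζ^4*u^2*v^3 + 23250*ζ^4*u*v^4 - 9975*ζ^4*v^5 - 4350*ζ^3*u^5 - 500*ζ^3*u^4*v
       + 9000*ζ^3*u^3*v^2 - 14500*ζ^3*u^2*v^3 + 14750*ζ^3*u*v^4 - 9200*ζ^3*v^5 + 4700*ζ^2*u^5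
       - 625*ζ^2*u^4*v + 4750*ζ^2*u^3*v^2 - 6750*ζ^2*u^2*v^3 + 6250*ζ^2*u*v^4 - 2725*ζ^2*v^5
       - 1785*ζ*u^5 - 225*ζ*u^4*v + 1350*ζ*u^3*v^2 - 1800*ζ*u^2*v^3 + 1575*ζ*u*v^4 + 2005*ζ*v^5
       - 1865*u^5 - 25*u^4*v + 150*u^3*v^2 - 200*u^2*v^3 + 175*u*v^4 + 2445*v^5) * hζ

set_option maxHeartbeats 4000000 in
theorem t4_z (ζ u v : R) (hζ : ζ ^ 4 + ζ ^ 3 + ζ ^ 2 + ζ + 1 = 0) :
    t4 (zA ζ u v) (zB ζ u v) = 625 * q4 u v := by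
  unfold t4 zA zB q4 cC1 cC2
  linear_combination (
      7120*ζ^8*u^4 + 33360*ζ^8*u^3*v + 7280*ζ^8*u^2*v^2 - 33360*ζ^8*u*v^3 + 7120*ζ^8*v^4
       + 26240*ζ^7*u^4 - 47280*ζ^7*u^3*v - 207440*ζ^7*u^2*v^2 + 47280*ζ^7*u*v^3 + 26240*ζ^7*v^4
       + 35760*ζ^6*u^4 - 66720*ζ^6*u^3*v + 85440*ζ^6*u^2*v^2 + 66720*ζ^6*u*v^3 + 35760*ζ^6*v^4
       + 43080*ζ^5*u^4 - 287760*ζ^5*u^3*v - 258480*ζ^5*u^2*v^2 + 287760*ζ^5*u*v^3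
       + 43080*ζ^5*v^4 + 16800*ζ^4*u^4 - 219600*ζ^4*u^3*v + 349200*ζ^4*u^2*v^2
       + 219600*ζ^4*u*v^3 + 16800*ζ^4*v^4 + 9680*ζ^3*u^4 - 252960*ζ^3*u^3*v + 341920*ζ^3*u^2*v^2
       + 252960*ζ^3*u*v^3 + 9680*ζ^3*v^4 + 18560*ζ^2*u^4 - 163320*ζ^2*u^3*v + 138640*ζ^2*u^2*v^2
       + 163320*ζ^2*u*v^3 + 18560*ζ^2*v^4 + 10040*ζ*u^4 + 84120*ζ*u^3*v + 339760*ζ*u^2*v^2
       - 84120*ζ*u*v^3 + 10040*ζ*v^4 + 720*u^4 - 150840*u^3*v - 304320*u^2*v^2 + 150840*u*v^3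
       + 720*v^4) * hζ

set_option maxHeartbeats 4000000 in
theorem t6_z (ζ u v : R) (hζ : ζ ^ 4 + ζ ^ 3 + ζ ^ 2 + ζ + 1 = 0) :
    t6 (zA ζ u v) (zB ζ u v) = 15625 * q6 u v := by
  unfold t6 zA zB q6 cC1 cC2
  linear_combination (
      -603800*ζ^14*u^6 - 4316400*ζ^14*u^5*v - 6981000*ζ^14*u^4*v^2 - 6981000*ζ^14*u^2*v^4
       + 4316400*ζ^14*u*v^5 - 603800*ζ^14*v^6 - 3712600*ζ^13*u^6 - 6022800*ζ^13*u^5*v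
       + 28563000*ζ^13*u^4*v^2 + 28563000*ζ^13*u^2*v^4 + 6022800*ζ^13*u*v^5 - 3712600*ζ^13*v^6
       - 10603800*ζ^12*u^6 - 4316400*ζ^12*u^5*v - 36981000*ζ^12*u^4*v^2 - 36981000*ζ^12*u^2*v^4
       + 4316400*ζ^12*u*v^5 - 10603800*ζ^12*v^6 - 24593400*ζ^11*u^6 - 11995200*ζ^11*u^5*v
       + 122967000*ζ^11*u^4*v^2 + 122967000*ζ^11*u^2*v^4 + 11995200*ζ^11*u*v^5
       - 24593400*ζ^11*v^6 - 50783400*ζ^10*u^6 + 35434800*ζ^10*u^5*v - 16083000*ζ^10*u^4*v^2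
       - 16083000*ζ^10*u^2*v^4 - 35434800*ζ^10*u*v^5 - 50783400*ζ^10*v^6 - 84508400*ζ^9*u^6
       + 101134800*ζ^9*u^5*v + 172542000*ζ^9*u^4*v^2 + 172542000*ζ^9*u^2*v^4
       - 101134800*ζ^9*u*v^5 - 84508400*ζ^9*v^6 - 111809800*ζ^8*u^6 + 214590600*ζ^8*u^5*v
       + 74049000*ζ^8*u^4*v^2 + 74049000*ζ^8*u^2*v^4 - 214590600*ζ^8*u*v^5 - 111809800*ζ^8*v^6
       - 124616400*ζ^7*u^6 + 331885800*ζ^7*u^5*v - 81918000*ζ^7*u^4*v^2 - 81918000*ζ^7*u^2*v^4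
       - 331885800*ζ^7*u*v^5 - 124616400*ζ^7*v^6 - 120301200*ζ^6*u^6 + 375476400*ζ^6*u^5*v
       - 28494000*ζ^6*u^4*v^2 - 28494000*ζ^6*u^2*v^4 - 375476400*ζ^6*u*v^5 - 120301200*ζ^6*v^6
       - 96437700*ζ^5*u^6 + 310604400*ζ^5*u^5*v - 327811500*ζ^5*u^4*v^2 - 327811500*ζ^5*u^2*v^4
       - 310604400*ζ^5*u*v^5 - 96437700*ζ^5*v^6 - 64017800*ζ^4*u^6 + 208416600*ζ^4*u^5*v
       - 94911000*ζ^4*u^4*v^2 - 94911000*ζ^4*u^2*v^4 - 208416600*ζ^4*u*v^5 - 64017800*ζ^4*v^6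
       - 33607600*ζ^3*u^6 + 96667200*ζ^3*u^5*v - 31962000*ζ^3*u^4*v^2 - 31962000*ζ^3*u^2*v^4
       - 96667200*ζ^3*u*v^5 - 33607600*ζ^3*v^6 - 12259800*ζ^2*u^6 + 30428100*ζ^2*u^5*v
       - 6201000*ζ^2*u^4*v^2 - 6201000*ζ^2*u^2*v^4 - 30428100*ζ^2*u*v^5 - 12259800*ζ^2*v^6
       - 2622900*ζ*u^6 + 14091300*ζ*u^5*v + 155614500*ζ*u^4*v^2 + 155614500*ζ*u^2*v^4
       - 14091300*ζ*u*v^5 - 2622900*ζ*v^6 - 221400*u^6 - 7616700*u^5*v - 156393000*u^4*v^2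
       - 156393000*u^2*v^4 + 7616700*u*v^5 - 221400*v^6) * hζ

set_option maxHeartbeats 4000000 in
theorem Dv_S (ζ u v : R) (hζ : ζ ^ 4 + ζ ^ 3 + ζ ^ 2 + ζ + 1 = 0) :
    -kDv (xS ζ u v) (yS ζ u v) = 9765625 * (-sS1 ζ * kDv u v + sS2 ζ * kDu u v) := by
  unfold kDv kDu xS yS sS1 sS2
  linear_combination (
      -633500*ζ^29*u^11 - 478500*ζ^29*u^10*v + 4950000*ζ^29*u^9*v^2 + 1485000*ζ^29*u^8*v^3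
       + 14355000*ζ^29*u^7*v^4 + 4521000*ζ^29*u^6*v^5 - 6534000*ζ^29*u^5*v^6
       + 6682500*ζ^29*u^3*v^8 + 1897500*ζ^29*u^2*v^9 + 1276000*ζ^29*u*v^10 - 129000*ζ^29*v^11
       + 155000*ζ^28*u^11 + 17347000*ζ^28*u^10*v + 4290000*ζ^28*u^9*v^2 + 11385000*ζ^28*u^8*v^3
       - 3630000*ζ^28*u^7*v^4 - 144210000*ζ^28*u^6*v^5 - 20592000*ζ^28*u^5*v^6
       + 86130000*ζ^28*u^4*v^7 + 10395000*ζ^28*u^3*v^8 - 9185000*ζ^28*u^2*v^9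
       - 6490000*ζ^28*u*v^10 - 1147000*ζ^28*v^11 - 2018500*ζ^27*u^11 + 3976500*ζ^27*u^10*v
       + 16637500*ζ^27*u^9*v^2 + 4372500*ζ^27*u^8*v^3 - 163845000*ζ^27*u^7*v^4
       - 44319000*ζ^27*u^6*v^5 + 612711000*ζ^27*u^5*v^6 + 136125000*ζ^27*u^4*v^7
       - 94792500*ζ^27*u^3*v^8 - 20377500*ζ^27*u^2*v^9 + 21323500*ζ^27*u*v^10 + 478500*ζ^27*v^11
       + 5373500*ζ^26*u^11 + 184992500*ζ^26*u^10*v + 10780000*ζ^26*u^9*v^2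
       - 170527500*ζ^26*u^8*v^3 - 387915000*ζ^26*u^7*v^4 + 208329000*ζ^26*u^6*v^5
       + 878130000*ζ^26*u^5*v^6 - 348315000*ζ^26*u^4*v^7 - 291142500*ζ^26*u^3*v^8
       + 47382500*ζ^26*u^2*v^9 - 32186000*ζ^26*u*v^10 - 16197500*ζ^26*v^11 + 28363500*ζ^25*u^11
       + 171847500*ζ^25*u^10*v - 399382500*ζ^25*u^9*v^2 - 610665000*ζ^25*u^8*v^3
       - 425865000*ζ^25*u^7*v^4 + 2624589000*ζ^25*u^6*v^5 + 3325575000*ζ^25*u^5*v^6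
       - 1702140000*ζ^25*u^4*v^7 - 301042500*ζ^25*u^3*v^8 + 162607500*ζ^25*u^2*v^9
       + 53311500*ζ^25*u*v^10 - 8415000*ζ^25*v^11 + 103795000*ζ^24*u^11 + 804512500*ζ^24*u^10*v
       - 1271050000*ζ^24*u^9*v^2 - 836550000*ζ^24*u^8*v^3 + 1810050000*ζ^24*u^7*v^4
       + 6795855000*ζ^24*u^6*v^5 + 739200000*ζ^24*u^5*v^6 - 6136350000*ζ^24*u^4*v^7
       + 550275000*ζ^24*u^3*v^8 + 517412500*ζ^24*u^2*v^9 - 239470000*ζ^24*u*v^10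
       - 84400000*ζ^24*v^11 + 298990625*ζ^23*u^11 + 741049375*ζ^23*u^10*v
       - 4003828125*ζ^23*u^9*v^2 + 937715625*ζ^23*u^8*v^3 + 7478006250*ζ^23*u^7*v^4
       + 13475343750*ζ^23*u^6*v^5 - 2139596250*ζ^23*u^5*v^6 - 11029218750*ζ^23*u^4*v^7
       + 4281853125*ζ^23*u^3*v^8 + 259496875*ζ^23*u^2*v^9 - 337665625*ζ^23*u*v^10
       - 89186875*ζ^23*v^11 + 691652500*ζ^22*u^11 + 1287316250*ζ^22*u^10*v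
       - 7824300000*ζ^22*u^9*v^2 + 8858231250*ζ^22*u^8*v^3 + 18561675000*ζ^22*u^7*v^4
       + 17088472500*ζ^22*u^6*v^5 - 19650510000*ζ^22*u^5*v^6 - 16793287500*ζ^22*u^4*v^7
       + 11900212500*ζ^22*u^3*v^8 - 1251868750*ζ^22*u^2*v^9 - 1137290000*ζ^22*u*v^10
       - 237503750*ζ^22*v^11 + 1402630625*ζ^21*u^11 + 414569375*ζ^21*u^10*v
       - 12803965625*ζ^21*u^9*v^2 + 28325653125*ζ^21*u^8*v^3 + 30045056250*ζ^21*u^7*v^4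
       + 13200453750*ζ^21*u^6*v^5 - 42642641250*ζ^21*u^5*v^6 - 14582493750*ζ^21*u^4*v^7
       + 24090103125*ζ^21*u^3*v^8 - 6584153125*ζ^21*u^2*v^9 - 1676943125*ζ^21*u*v^10
       - 338669375*ζ^21*v^11 + 2527903125*ζ^20*u^11 - 1351872500*ζ^20*u^10*v
       - 15497934375*ζ^20*u^9*v^2 + 63446418750*ζ^20*u^8*v^3 + 33089306250*ζ^20*u^7*v^4
       - 3493050000*ζ^20*u^6*v^5 - 74755683750*ζ^20*u^5*v^6 - 90337500*ζ^20*u^4*v^7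
       + 37774790625*ζ^20*u^3*v^8 - 17514887500*ζ^20*u^2*v^9 - 2003821875*ζ^20*u*v^10
       - 551471250*ζ^20*v^11 + 4150701875*ζ^19*u^11 - 4149296250*ζ^19*u^10*v
       - 11756628125*ζ^19*u^9*v^2 + 113231662500*ζ^19*u^8*v^3 + 13978593750*ζ^19*u^7*v^4
       - 31252567500*ζ^19*u^6*v^5 - 108822491250*ζ^19*u^5*v^6 + 30939150000*ζ^19*u^4*v^7
       + 46476684375*ζ^19*u^3*v^8 - 35279406250*ζ^19*u^2*v^9 - 1331020625*ζ^19*u*v^10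
       - 948422500*ζ^19*v^11 + 6240940625*ζ^18*u^11 - 8917995625*ζ^18*u^10*v
       + 1965459375*ζ^18*u^9*v^2 + 169099115625*ζ^18*u^8*v^3 - 38099943750*ζ^18*u^7*v^4
       - 56106806250*ζ^18*u^6*v^5 - 129279851250*ζ^18*u^5*v^6 + 78034481250*ζ^18*u^4*v^7
       + 42037153125*ζ^18*u^3*v^8 - 58819028125*ζ^18*u^2*v^9 + 1971921875*ζ^18*u*v^10
       - 1517766875*ζ^18*v^11 + 8774606250*ζ^17*u^11 - 12592717500*ζ^17*u^10*v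
       + 27316918750*ζ^17*u^9*v^2 + 216045225000*ζ^17*u^8*v^3 - 120674812500*ζ^17*u^7*v^4
       - 69387450000*ζ^17*u^6*v^5 - 148156882500*ζ^17*u^5*v^6 + 131358150000*ζ^17*u^4*v^7
       + 18795356250*ζ^17*u^3*v^8 - 83211562500*ζ^17*u^2*v^9 + 6996893750*ζ^17*u*v^10
       - 2613645000*ζ^17*v^11 + 11427164375*ζ^16*u^11 - 16386968125*ζ^16*u^10*v
       + 60680640625*ζ^16*u^9*v^2 + 239288053125*ζ^16*u^8*v^3 - 219286856250*ζ^16*u^7*v^4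
       - 54180761250*ζ^16*u^6*v^5 - 152835828750*ζ^16*u^5*v^6 + 180308906250*ζ^16*u^4*v^7
       - 23831878125*ζ^16*u^3*v^8 - 102303540625*ζ^16*u^2*v^9 + 14397398125*ζ^16*u*v^10
       - 4057769375*ζ^16*v^11 + 13879690000*ζ^15*u^11 - 18120375625*ζ^15*u^10*v
       + 94604468750*ζ^15*u^9*v^2 + 230993709375*ζ^15*u^8*v^3 - 308092950000*ζ^15*u^7*v^4
       - 18416846250*ζ^15*u^6*v^5 - 156804202500*ζ^15*u^5*v^6 + 214490718750*ζ^15*u^4*v^7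
       - 77396550000*ζ^15*u^3*v^8 - 110435978125*ζ^15*u^2*v^9 + 21469703750*ζ^15*u*v^10
       - 5812668125*ζ^15*v^11 + 15597865625*ζ^14*u^11 - 17640026250*ζ^14*u^10*v
       + 120405278125*ζ^14*u^9*v^2 + 194289150000*ζ^14*u^8*v^3 - 362778693750*ζ^14*u^7*v^4
       + 25402987500*ζ^14*u^6*v^5 - 161610198750*ζ^14*u^5*v^6 + 226563150000*ζ^14*u^4*v^7
       - 127819621875*ζ^14*u^3*v^8 - 105322731250*ζ^14*u^2*v^9 + 26085090625*ζ^14*u*v^10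
       - 7476730000*ζ^14*v^11 + 16014887500*ζ^13*u^11 - 16705232500*ζ^13*u^10*v
       + 131439550000*ζ^13*u^9*v^2 + 142076962500*ζ^13*u^8*v^3 - 372087375000*ζ^13*u^7*v^4
       + 65578425000*ζ^13*u^6*v^5 - 154058355000*ζ^13*u^5*v^6 + 215789475000*ζ^13*u^4*v^7
       - 161484262500*ζ^13*u^3*v^8 - 89605312500*ζ^13*u^2*v^9 + 27735675000*ζ^13*u*v^10
       - 8399717500*ζ^13*v^11 + 14991373125*ζ^12*u^11 - 13530041250*ζ^12*u^10*v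
       + 125862653125*ζ^12*u^9*v^2 + 90361837500*ζ^12*u^8*v^3 - 338639193750*ζ^12*u^7*v^4
       + 82201267500*ζ^12*u^6*v^5 - 144101058750*ζ^12*u^5*v^6 + 187020900000*ζ^12*u^4*v^7
       - 169546059375*ζ^12*u^3*v^8 - 68963606250*ζ^12*u^2*v^9 + 25052245625*ζ^12*u*v^10
       - 8420077500*ζ^12*v^11 + 12554066250*ζ^11*u^11 - 10846749375*ζ^11*u^10*v
       + 106780712500*ζ^11*u^9*v^2 + 50597353125*ζ^11*u^8*v^3 - 276499368750*ζ^11*u^7*v^4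
       + 83344552500*ζ^11*u^6*v^5 - 117767966250*ζ^11*u^5*v^6 + 147428737500*ζ^11*u^4*v^7
       - 152285512500*ζ^11*u^3*v^8 - 48898128125*ζ^11*u^2*v^9 + 20700308750*ζ^11*u*v^10
       - 7323325625*ζ^11*v^11 + 9356751250*ζ^10*u^11 - 7678144375*ζ^10*u^10*v
       + 80450837500*ζ^10*u^9*v^2 + 26422790625*ζ^10*u^8*v^3 - 203898337500*ζ^10*u^7*v^4
       + 69762948750*ζ^10*u^6*v^5 - 87087165000*ζ^10*u^5*v^6 + 105453768750*ζ^10*u^4*v^7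
       - 118395543750*ζ^10*u^3*v^8 - 32634284375*ζ^10*u^2*v^9 + 15401017500*ζ^10*u*v^10
       - 5594799375*ζ^10*v^11 + 6158119375*ζ^9*u^11 - 4480685000*ζ^9*u^10*v
       + 53592996875*ζ^9*u^9*v^2 + 14858456250*ζ^9*u^8*v^3 - 135413025000*ζ^9*u^7*v^4
       + 48152733750*ζ^9*u^6*v^5 - 58946415000*ζ^9*u^5*v^6 + 68605556250*ζ^9*u^4*v^7
       - 79642509375*ζ^9*u^3*v^8 - 20837643750*ζ^9*u^2*v^9 + 10232193125*ζ^9*u*v^10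
       - 3756777500*ζ^9*v^11 + 3501837500*ζ^8*u^11 - 3047027500*ζ^8*u^10*v
       + 31177368750*ζ^8*u^9*v^2 + 9953831250*ζ^8*u^8*v^3 - 79692731250*ζ^8*u^7*v^4
       + 30002775000*ζ^8*u^6*v^5 - 30766766250*ζ^8*u^5*v^6 + 40453050000*ζ^8*u^4*v^7
       - 45843806250*ζ^8*u^3*v^8 - 12642712500*ζ^8*u^2*v^9 + 6490137500*ζ^8*u*v^10
       - 2112516250*ζ^8*v^11 + 1777933125*ζ^7*u^11 - 1183256250*ζ^7*u^10*v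
       + 15528184375*ζ^7*u^9*v^2 + 6963206250*ζ^7*u^8*v^3 - 40495743750*ζ^7*u^7*v^4
       + 11643926250*ζ^7*u^6*v^5 - 17897343750*ζ^7*u^5*v^6 + 21153618750*ζ^7*u^4*v^7
       - 22168884375*ζ^7*u^3*v^8 - 7024050000*ζ^7*u^2*v^9 + 2943854375*ζ^7*u*v^10
       - 1069725000*ζ^7*v^11 + 764781250*ζ^6*u^11 - 908524375*ζ^6*u^10*v
       + 6462912500*ζ^6*u^9*v^2 + 4221628125*ζ^6*u^8*v^3 - 17264156250*ζ^6*u^7*v^4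
       + 3704250000*ζ^6*u^6*v^5 - 5768853750*ζ^6*u^5*v^6 + 9455325000*ζ^6*u^4*v^7
       - 8812650000*ζ^6*u^3*v^8 - 3392640625*ζ^6*u^2*v^9 + 1179406250*ζ^6*u*v^10
       - 408438125*ζ^6*v^11 + 279544375*ζ^5*u^11 - 478472500*ζ^5*u^10*v + 2189584375*ζ^5*u^9*v^2
       + 2013206250*ζ^5*u^8*v^3 - 6003937500*ζ^5*u^7*v^4 + 569208750*ζ^5*u^6*v^5
       - 1401015000*ζ^5*u^5*v^6 + 3468918750*ζ^5*u^4*v^7 - 2814384375*ζ^5*u^3*v^8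
       - 1354718750*ζ^5*u^2*v^9 + 335630625*ζ^5*u*v^10 - 126390000*ζ^5*v^11 + 87807875*ζ^4*u^11
       + 243317250*ζ^4*u^10*v + 586953125*ζ^4*u^9*v^2 + 721421250*ζ^4*u^8*v^3
       - 1654248750*ζ^4*u^7*v^4 - 376967250*ζ^4*u^6*v^5 - 2771529750*ζ^4*u^5*v^6
       + 1005056250*ζ^4*u^4*v^7 - 704323125*ζ^4*u^3*v^8 - 427185000*ζ^4*u^2*v^9
       + 13649625*ζ^4*u*v^10 - 69478500*ζ^4*v^11 - 21655000*ζ^3*u^11 - 232672000*ζ^3*u^10*v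
       + 120285000*ζ^3*u^9*v^2 + 186615000*ζ^3*u^8*v^3 - 348232500*ζ^3*u^7*v^4
       + 2624160000*ζ^3*u^6*v^5 + 1089379500*ζ^3*u^5*v^6 + 220770000*ζ^3*u^4*v^7
       - 134145000*ζ^3*u^3*v^8 - 101227500*ζ^3*u^2*v^9 + 455015000*ζ^3*u*v^10
       + 10959500*ζ^3*v^11 + 12547250*ζ^2*u^11 + 319409750*ζ^2*u^10*v + 17875000*ζ^2*u^9*v^2
       + 32752500*ζ^2*u^8*v^3 - 52923750*ζ^2*u^7*v^4 - 638616000*ζ^2*u^6*v^5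
       - 1967072250*ζ^2*u^5*v^6 + 34650000*ζ^2*u^4*v^7 - 18645000*ζ^2*u^3*v^8
       - 16816250*ζ^2*u^2*v^9 - 103589750*ζ^2*u*v^10 - 30621000*ζ^2*v^11 + 10046500*ζ*u^11
       - 215132500*ζ*u^10*v + 1732500*ζ*u^9*v^2 + 3465000*ζ*u^8*v^3 - 5197500*ζ*u^7*v^4
       - 644011500*ζ*u^6*v^5 + 1285597500*ζ*u^5*v^6 + 3465000*ζ*u^4*v^7 - 1732500*ζ*u^3*v^8
       - 1732500*ζ*u^2*v^9 - 107046500*ζ*u*v^10 + 19400000*ζ*v^11 + 9779000*u^11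
       - 214857500*u^10*v + 82500*u^9*v^2 + 165000*u^8*v^3 - 247500*u^7*v^4 - 644506500*u^6*v^5
       + 1288897500*u^5*v^6 + 165000*u^4*v^7 - 82500*u^3*v^8 - 82500*u^2*v^9 - 107404000*u*v^10
       + 19525000*v^11) * hζ

set_option maxHeartbeats 4000000 in
theorem Du_S (ζ u v : R) (hζ : ζ ^ 4 + ζ ^ 3 + ζ ^ 2 + ζ + 1 = 0) :
    kDu (xS ζ u v) (yS ζ u v) = 9765625 * (-sS2 ζ * kDv u v - sS1 ζ * kDu u v) := by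
  unfold kDv kDu xS yS sS1 sS2
  linear_combination (
      -129000*ζ^29*u^11 - 1276000*ζ^29*u^10*v + 1897500*ζ^29*u^9*v^2 - 6682500*ζ^29*u^8*v^3
       + 6534000*ζ^29*u^6*v^5 + 4521000*ζ^29*u^5*v^6 - 14355000*ζ^29*u^4*v^7
       + 1485000*ζ^29*u^3*v^8 - 4950000*ζ^29*u^2*v^9 - 478500*ζ^29*u*v^10 + 633500*ζ^29*v^11
       - 1147000*ζ^28*u^11 + 6490000*ζ^28*u^10*v - 9185000*ζ^28*u^9*v^2 - 10395000*ζ^28*u^8*v^3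
       + 86130000*ζ^28*u^7*v^4 + 20592000*ζ^28*u^6*v^5 - 144210000*ζ^28*u^5*v^6
       + 3630000*ζ^28*u^4*v^7 + 11385000*ζ^28*u^3*v^8 - 4290000*ζ^28*u^2*v^9
       + 17347000*ζ^28*u*v^10 - 155000*ζ^28*v^11 + 478500*ζ^27*u^11 - 21323500*ζ^27*u^10*v
       - 20377500*ζ^27*u^9*v^2 + 94792500*ζ^27*u^8*v^3 + 136125000*ζ^27*u^7*v^4
       - 612711000*ζ^27*u^6*v^5 - 44319000*ζ^27*u^5*v^6 + 163845000*ζ^27*u^4*v^7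
       + 4372500*ζ^27*u^3*v^8 - 16637500*ζ^27*u^2*v^9 + 3976500*ζ^27*u*v^10 + 2018500*ζ^27*v^11
       - 16197500*ζ^26*u^11 + 32186000*ζ^26*u^10*v + 47382500*ζ^26*u^9*v^2
       + 291142500*ζ^26*u^8*v^3 - 348315000*ζ^26*u^7*v^4 - 878130000*ζ^26*u^6*v^5
       + 208329000*ζ^26*u^5*v^6 + 387915000*ζ^26*u^4*v^7 - 170527500*ζ^26*u^3*v^8
       - 10780000*ζ^26*u^2*v^9 + 184992500*ζ^26*u*v^10 - 5373500*ζ^26*v^11 - 8415000*ζ^25*u^11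
       - 53311500*ζ^25*u^10*v + 162607500*ζ^25*u^9*v^2 + 301042500*ζ^25*u^8*v^3
       - 1702140000*ζ^25*u^7*v^4 - 3325575000*ζ^25*u^6*v^5 + 2624589000*ζ^25*u^5*v^6
       + 425865000*ζ^25*u^4*v^7 - 610665000*ζ^25*u^3*v^8 + 399382500*ζ^25*u^2*v^9
       + 171847500*ζ^25*u*v^10 - 28363500*ζ^25*v^11 - 84400000*ζ^24*u^11 + 239470000*ζ^24*u^10*v
       + 517412500*ζ^24*u^9*v^2 - 550275000*ζ^24*u^8*v^3 - 6136350000*ζ^24*u^7*v^4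
       - 739200000*ζ^24*u^6*v^5 + 6795855000*ζ^24*u^5*v^6 - 1810050000*ζ^24*u^4*v^7
       - 836550000*ζ^24*u^3*v^8 + 1271050000*ζ^24*u^2*v^9 + 804512500*ζ^24*u*v^10
       - 103795000*ζ^24*v^11 - 89186875*ζ^23*u^11 + 337665625*ζ^23*u^10*v
       + 259496875*ζ^23*u^9*v^2 - 4281853125*ζ^23*u^8*v^3 - 11029218750*ζ^23*u^7*v^4
       + 2139596250*ζ^23*u^6*v^5 + 13475343750*ζ^23*u^5*v^6 - 7478006250*ζ^23*u^4*v^7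
       + 937715625*ζ^23*u^3*v^8 + 4003828125*ζ^23*u^2*v^9 + 741049375*ζ^23*u*v^10
       - 298990625*ζ^23*v^11 - 237503750*ζ^22*u^11 + 1137290000*ζ^22*u^10*v
       - 1251868750*ζ^22*u^9*v^2 - 11900212500*ζ^22*u^8*v^3 - 16793287500*ζ^22*u^7*v^4
       + 19650510000*ζ^22*u^6*v^5 + 17088472500*ζ^22*u^5*v^6 - 18561675000*ζ^22*u^4*v^7
       + 8858231250*ζ^22*u^3*v^8 + 7824300000*ζ^22*u^2*v^9 + 1287316250*ζ^22*u*v^10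
       - 691652500*ζ^22*v^11 - 338669375*ζ^21*u^11 + 1676943125*ζ^21*u^10*v
       - 6584153125*ζ^21*u^9*v^2 - 24090103125*ζ^21*u^8*v^3 - 14582493750*ζ^21*u^7*v^4
       + 42642641250*ζ^21*u^6*v^5 + 13200453750*ζ^21*u^5*v^6 - 30045056250*ζ^21*u^4*v^7
       + 28325653125*ζ^21*u^3*v^8 + 12803965625*ζ^21*u^2*v^9 + 414569375*ζ^21*u*v^10
       - 1402630625*ζ^21*v^11 - 551471250*ζ^20*u^11 + 2003821875*ζ^20*u^10*v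
       - 17514887500*ζ^20*u^9*v^2 - 37774790625*ζ^20*u^8*v^3 - 90337500*ζ^20*u^7*v^4
       + 74755683750*ζ^20*u^6*v^5 - 3493050000*ζ^20*u^5*v^6 - 33089306250*ζ^20*u^4*v^7
       + 63446418750*ζ^20*u^3*v^8 + 15497934375*ζ^20*u^2*v^9 - 1351872500*ζ^20*u*v^10
       - 2527903125*ζ^20*v^11 - 948422500*ζ^19*u^11 + 1331020625*ζ^19*u^10*v
       - 35279406250*ζ^19*u^9*v^2 - 46476684375*ζ^19*u^8*v^3 + 30939150000*ζ^19*u^7*v^4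
       + 108822491250*ζ^19*u^6*v^5 - 31252567500*ζ^19*u^5*v^6 - 13978593750*ζ^19*u^4*v^7
       + 113231662500*ζ^19*u^3*v^8 + 11756628125*ζ^19*u^2*v^9 - 4149296250*ζ^19*u*v^10
       - 4150701875*ζ^19*v^11 - 1517766875*ζ^18*u^11 - 1971921875*ζ^18*u^10*v
       - 58819028125*ζ^18*u^9*v^2 - 42037153125*ζ^18*u^8*v^3 + 78034481250*ζ^18*u^7*v^4
       + 129279851250*ζ^18*u^6*v^5 - 56106806250*ζ^18*u^5*v^6 + 38099943750*ζ^18*u^4*v^7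
       + 169099115625*ζ^18*u^3*v^8 - 1965459375*ζ^18*u^2*v^9 - 8917995625*ζ^18*u*v^10
       - 6240940625*ζ^18*v^11 - 2613645000*ζ^17*u^11 - 6996893750*ζ^17*u^10*v
       - 83211562500*ζ^17*u^9*v^2 - 18795356250*ζ^17*u^8*v^3 + 131358150000*ζ^17*u^7*v^4
       + 148156882500*ζ^17*u^6*v^5 - 69387450000*ζ^17*u^5*v^6 + 120674812500*ζ^17*u^4*v^7
       + 216045225000*ζ^17*u^3*v^8 - 27316918750*ζ^17*u^2*v^9 - 12592717500*ζ^17*u*v^10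
       - 8774606250*ζ^17*v^11 - 4057769375*ζ^16*u^11 - 14397398125*ζ^16*u^10*v
       - 102303540625*ζ^16*u^9*v^2 + 23831878125*ζ^16*u^8*v^3 + 180308906250*ζ^16*u^7*v^4
       + 152835828750*ζ^16*u^6*v^5 - 54180761250*ζ^16*u^5*v^6 + 219286856250*ζ^16*u^4*v^7
       + 239288053125*ζ^16*u^3*v^8 - 60680640625*ζ^16*u^2*v^9 - 16386968125*ζ^16*u*v^10
       - 11427164375*ζ^16*v^11 - 5812668125*ζ^15*u^11 - 21469703750*ζ^15*u^10*v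
       - 110435978125*ζ^15*u^9*v^2 + 77396550000*ζ^15*u^8*v^3 + 214490718750*ζ^15*u^7*v^4
       + 156804202500*ζ^15*u^6*v^5 - 18416846250*ζ^15*u^5*v^6 + 308092950000*ζ^15*u^4*v^7
       + 230993709375*ζ^15*u^3*v^8 - 94604468750*ζ^15*u^2*v^9 - 18120375625*ζ^15*u*v^10
       - 13879690000*ζ^15*v^11 - 7476730000*ζ^14*u^11 - 26085090625*ζ^14*u^10*v
       - 105322731250*ζ^14*u^9*v^2 + 127819621875*ζ^14*u^8*v^3 + 226563150000*ζ^14*u^7*v^4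
       + 161610198750*ζ^14*u^6*v^5 + 25402987500*ζ^14*u^5*v^6 + 362778693750*ζ^14*u^4*v^7
       + 194289150000*ζ^14*u^3*v^8 - 120405278125*ζ^14*u^2*v^9 - 17640026250*ζ^14*u*v^10
       - 15597865625*ζ^14*v^11 - 8399717500*ζ^13*u^11 - 27735675000*ζ^13*u^10*v
       - 89605312500*ζ^13*u^9*v^2 + 161484262500*ζ^13*u^8*v^3 + 215789475000*ζ^13*u^7*v^4
       + 154058355000*ζ^13*u^6*v^5 + 65578425000*ζ^13*u^5*v^6 + 372087375000*ζ^13*u^4*v^7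
       + 142076962500*ζ^13*u^3*v^8 - 131439550000*ζ^13*u^2*v^9 - 16705232500*ζ^13*u*v^10
       - 16014887500*ζ^13*v^11 - 8420077500*ζ^12*u^11 - 25052245625*ζ^12*u^10*v
       - 68963606250*ζ^12*u^9*v^2 + 169546059375*ζ^12*u^8*v^3 + 187020900000*ζ^12*u^7*v^4
       + 144101058750*ζ^12*u^6*v^5 + 82201267500*ζ^12*u^5*v^6 + 338639193750*ζ^12*u^4*v^7
       + 90361837500*ζ^12*u^3*v^8 - 125862653125*ζ^12*u^2*v^9 - 13530041250*ζ^12*u*v^10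
       - 14991373125*ζ^12*v^11 - 7323325625*ζ^11*u^11 - 20700308750*ζ^11*u^10*v
       - 48898128125*ζ^11*u^9*v^2 + 152285512500*ζ^11*u^8*v^3 + 147428737500*ζ^11*u^7*v^4
       + 117767966250*ζ^11*u^6*v^5 + 83344552500*ζ^11*u^5*v^6 + 276499368750*ζ^11*u^4*v^7
       + 50597353125*ζ^11*u^3*v^8 - 106780712500*ζ^11*u^2*v^9 - 10846749375*ζ^11*u*v^10
       - 12554066250*ζ^11*v^11 - 5594799375*ζ^10*u^11 - 15401017500*ζ^10*u^10*v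
       - 32634284375*ζ^10*u^9*v^2 + 118395543750*ζ^10*u^8*v^3 + 105453768750*ζ^10*u^7*v^4
       + 87087165000*ζ^10*u^6*v^5 + 69762948750*ζ^10*u^5*v^6 + 203898337500*ζ^10*u^4*v^7
       + 26422790625*ζ^10*u^3*v^8 - 80450837500*ζ^10*u^2*v^9 - 7678144375*ζ^10*u*v^10
       - 9356751250*ζ^10*v^11 - 3756777500*ζ^9*u^11 - 10232193125*ζ^9*u^10*v
       - 20837643750*ζ^9*u^9*v^2 + 79642509375*ζ^9*u^8*v^3 + 68605556250*ζ^9*u^7*v^4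
       + 58946415000*ζ^9*u^6*v^5 + 48152733750*ζ^9*u^5*v^6 + 135413025000*ζ^9*u^4*v^7
       + 14858456250*ζ^9*u^3*v^8 - 53592996875*ζ^9*u^2*v^9 - 4480685000*ζ^9*u*v^10
       - 6158119375*ζ^9*v^11 - 2112516250*ζ^8*u^11 - 6490137500*ζ^8*u^10*v
       - 12642712500*ζ^8*u^9*v^2 + 45843806250*ζ^8*u^8*v^3 + 40453050000*ζ^8*u^7*v^4
       + 30766766250*ζ^8*u^6*v^5 + 30002775000*ζ^8*u^5*v^6 + 79692731250*ζ^8*u^4*v^7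
       + 9953831250*ζ^8*u^3*v^8 - 31177368750*ζ^8*u^2*v^9 - 3047027500*ζ^8*u*v^10
       - 3501837500*ζ^8*v^11 - 1069725000*ζ^7*u^11 - 2943854375*ζ^7*u^10*v
       - 7024050000*ζ^7*u^9*v^2 + 22168884375*ζ^7*u^8*v^3 + 21153618750*ζ^7*u^7*v^4
       + 17897343750*ζ^7*u^6*v^5 + 11643926250*ζ^7*u^5*v^6 + 40495743750*ζ^7*u^4*v^7
       + 6963206250*ζ^7*u^3*v^8 - 15528184375*ζ^7*u^2*v^9 - 1183256250*ζ^7*u*v^10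
       - 1777933125*ζ^7*v^11 - 408438125*ζ^6*u^11 - 1179406250*ζ^6*u^10*v
       - 3392640625*ζ^6*u^9*v^2 + 8812650000*ζ^6*u^8*v^3 + 9455325000*ζ^6*u^7*v^4
       + 5768853750*ζ^6*u^6*v^5 + 3704250000*ζ^6*u^5*v^6 + 17264156250*ζ^6*u^4*v^7
       + 4221628125*ζ^6*u^3*v^8 - 6462912500*ζ^6*u^2*v^9 - 908524375*ζ^6*u*v^10
       - 764781250*ζ^6*v^11 - 126390000*ζ^5*u^11 - 335630625*ζ^5*u^10*v - 1354718750*ζ^5*u^9*v^2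
       + 2814384375*ζ^5*u^8*v^3 + 3468918750*ζ^5*u^7*v^4 + 1401015000*ζ^5*u^6*v^5
       + 569208750*ζ^5*u^5*v^6 + 6003937500*ζ^5*u^4*v^7 + 2013206250*ζ^5*u^3*v^8
       - 2189584375*ζ^5*u^2*v^9 - 478472500*ζ^5*u*v^10 - 279544375*ζ^5*v^11 - 69478500*ζ^4*u^11
       - 13649625*ζ^4*u^10*v - 427185000*ζ^4*u^9*v^2 + 704323125*ζ^4*u^8*v^3
       + 1005056250*ζ^4*u^7*v^4 + 2771529750*ζ^4*u^6*v^5 - 376967250*ζ^4*u^5*v^6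
       + 1654248750*ζ^4*u^4*v^7 + 721421250*ζ^4*u^3*v^8 - 586953125*ζ^4*u^2*v^9
       + 243317250*ζ^4*u*v^10 - 87807875*ζ^4*v^11 + 10959500*ζ^3*u^11 - 455015000*ζ^3*u^10*v
       - 101227500*ζ^3*u^9*v^2 + 134145000*ζ^3*u^8*v^3 + 220770000*ζ^3*u^7*v^4
       - 1089379500*ζ^3*u^6*v^5 + 2624160000*ζ^3*u^5*v^6 + 348232500*ζ^3*u^4*v^7
       + 186615000*ζ^3*u^3*v^8 - 120285000*ζ^3*u^2*v^9 - 232672000*ζ^3*u*v^10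
       + 21655000*ζ^3*v^11 - 30621000*ζ^2*u^11 + 103589750*ζ^2*u^10*v - 16816250*ζ^2*u^9*v^2
       + 18645000*ζ^2*u^8*v^3 + 34650000*ζ^2*u^7*v^4 + 1967072250*ζ^2*u^6*v^5
       - 638616000*ζ^2*u^5*v^6 + 52923750*ζ^2*u^4*v^7 + 32752500*ζ^2*u^3*v^8
       - 17875000*ζ^2*u^2*v^9 + 319409750*ζ^2*u*v^10 - 12547250*ζ^2*v^11 + 19400000*ζ*u^11
       + 107046500*ζ*u^10*v - 1732500*ζ*u^9*v^2 + 1732500*ζ*u^8*v^3 + 3465000*ζ*u^7*v^4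
       - 1285597500*ζ*u^6*v^5 - 644011500*ζ*u^5*v^6 + 5197500*ζ*u^4*v^7 + 3465000*ζ*u^3*v^8
       - 1732500*ζ*u^2*v^9 - 215132500*ζ*u*v^10 - 10046500*ζ*v^11 + 19525000*u^11
       + 107404000*u^10*v - 82500*u^9*v^2 + 82500*u^8*v^3 + 165000*u^7*v^4 - 1288897500*u^6*v^5
       - 644506500*u^5*v^6 + 247500*u^4*v^7 + 165000*u^3*v^8 - 82500*u^2*v^9 - 214857500*u*v^10
       - 9779000*v^11) * hζ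

set_option maxHeartbeats 4000000 in
theorem col_e1 (ζ u v : R) (hζ : ζ ^ 4 + ζ ^ 3 + ζ ^ 2 + ζ + 1 = 0) :
    25 * kpx (ζ * u) v + zX ζ u v + 25 * kpx u v = zL ζ u v ^ 2 := by
  unfold kpx kal kbe zX zA zB zL cC1 cC2
  linear_combination (
      75*ζ^6*u^10 - 75*ζ^5*u^10 + 900*ζ^4*u^8*v^2 - 900*ζ^3*u^8*v^2 + 900*ζ^3*u^7*v^3
       - 120*ζ^2*u^10 + 720*ζ^2*u^8*v^2 - 900*ζ^2*u^7*v^3 + 900*ζ^2*u^6*v^4 - 720*ζ^2*u^5*v^5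
       - 360*ζ^2*u^3*v^7 + 240*ζ^2*v^10 - 525*ζ*u^10 - 1080*ζ*u^8*v^2 - 720*ζ*u^7*v^3
       - 900*ζ*u^6*v^4 + 990*ζ*u^5*v^5 - 360*ζ*u^3*v^7 + 360*ζ*u^2*v^8 + 480*ζ*v^10 - 75*u^10
       + 720*u^8*v^2 + 1080*u^7*v^3 + 720*u^6*v^4 - 270*u^5*v^5 + 1800*u^4*v^6 - 360*u^3*v^7
       + 360*u^2*v^8 - 360*u*v^9 + 360*v^10) * hζ

set_option maxHeartbeats 4000000 in
theorem col_l1 (ζ u v : R) (hζ : ζ ^ 4 + ζ ^ 3 + ζ ^ 2 + ζ + 1 = 0) :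
    zY ζ u v - 125 * kpy (ζ * u) v = zL ζ u v * (zX ζ u v - 25 * kpx (ζ * u) v) := by
  unfold kpx kpy kal kbe zX zY zA zB zL cC1 cC2
  linear_combination (
      900*ζ^9*u^15 + 11250*ζ^9*u^13*v^2 - 450*ζ^9*u^10*v^5 - 1350*ζ^8*u^15 - 11250*ζ^8*u^13*v^2
       - 11250*ζ^8*u^12*v^3 - 450*ζ^8*u^10*v^5 + 900*ζ^7*u^15 + 10800*ζ^7*u^13*v^2
       + 11250*ζ^7*u^12*v^3 + 24750*ζ^7*u^11*v^4 - 450*ζ^7*u^10*v^5 - 5400*ζ^7*u^8*v^7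
       - 225*ζ^6*u^15 - 13950*ζ^6*u^13*v^2 + 8550*ζ^6*u^12*v^3 - 22500*ζ^6*u^11*v^4
       + 675*ζ^6*u^10*v^5 - 5400*ζ^6*u^8*v^7 - 5400*ζ^6*u^7*v^8 - 5805*ζ^5*u^15
       + 9270*ζ^5*u^13*v^2 - 13950*ζ^5*u^12*v^3 + 19350*ζ^5*u^11*v^4 - 24345*ζ^5*u^10*v^5
       + 13500*ζ^5*u^9*v^6 - 31320*ζ^5*u^8*v^7 - 5400*ζ^5*u^7*v^8 - 10800*ζ^5*u^6*v^9
       + 1980*ζ^5*u^5*v^10 + 8280*ζ^5*u^3*v^12 + 900*ζ^5*v^15 - 18540*ζ^4*u^15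
       - 18090*ζ^4*u^13*v^2 + 10080*ζ^4*u^12*v^3 - 5400*ζ^4*u^11*v^4 - 8730*ζ^4*u^10*v^5
       + 13500*ζ^4*u^9*v^6 + 62640*ζ^4*u^8*v^7 + 20520*ζ^4*u^7*v^8 - 10800*ζ^4*u^6*v^9
       + 64260*ζ^4*u^5*v^10 + 17640*ζ^4*u^3*v^12 - 8280*ζ^4*u^2*v^13 - 2880*ζ^4*v^15
       - 16110*ζ^3*u^15 - 4230*ζ^3*u^13*v^2 + 12690*ζ^3*u^12*v^3 - 4680*ζ^3*u^11*v^4
       + 71730*ζ^3*u^10*v^5 - 4320*ζ^3*u^8*v^7 - 5940*ζ^3*u^7*v^8 - 36720*ζ^3*u^6*v^9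
       - 1260*ζ^3*u^5*v^10 - 27000*ζ^3*u^4*v^11 + 17280*ζ^3*u^3*v^12 - 17640*ζ^3*u^2*v^13
       + 8280*ζ^3*u*v^14 - 22320*ζ^3*v^15 - 25380*ζ^2*u^15 + 4680*ζ^2*u^13*v^2
       - 450*ζ^2*u^12*v^3 - 8010*ζ^2*u^11*v^4 + 64890*ζ^2*u^10*v^5 - 33480*ζ^2*u^8*v^7
       + 35100*ζ^2*u^7*v^8 - 24840*ζ^2*u^6*v^9 + 43920*ζ^2*u^5*v^10 - 27000*ζ^2*u^4*v^11
       + 13320*ζ^2*u^3*v^12 - 9000*ζ^2*u^2*v^13 + 9360*ζ^2*u*v^14 - 23760*ζ^2*v^15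
       - 17325*ζ*u^15 + 12690*ζ*u^13*v^2 - 12690*ζ*u^12*v^3 + 8460*ζ*u^11*v^4 + 29025*ζ*u^10*v^5
       - 11340*ζ*u^8*v^7 + 11340*ζ*u^7*v^8 - 10260*ζ*u^6*v^9 + 5850*ζ*u^5*v^10
       - 27000*ζ*u^4*v^11 - 1440*ζ*u^3*v^12 + 1440*ζ*u^2*v^13 - 360*ζ*u*v^14 - 13500*ζ*v^15
       - 3465*u^15 + 4230*u^13*v^2 - 4230*u^12*v^3 + 4230*u^11*v^4 + 5805*u^10*v^5
       - 3780*u^8*v^7 + 3780*u^7*v^8 - 3780*u^6*v^9 + 1350*u^5*v^10 - 6480*u^3*v^12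
       + 6480*u^2*v^13 - 6480*u*v^14 - 3240*v^15) * hζ

set_option maxHeartbeats 4000000 in
theorem col_l2 (ζ u v : R) (hζ : ζ ^ 4 + ζ ^ 3 + ζ ^ 2 + ζ + 1 = 0) :
    -5 * kpy u v - 5 * kpy (ζ * u) v = zL ζ u v * (kpx u v - kpx (ζ * u) v) := by
  unfold kpx kpy kal kbe zL
  linear_combination (
      36*ζ^9*u^15 + 450*ζ^9*u^13*v^2 - 18*ζ^9*u^10*v^5 - 54*ζ^8*u^15 - 450*ζ^8*u^13*v^2
       - 450*ζ^8*u^12*v^3 - 18*ζ^8*u^10*v^5 + 36*ζ^7*u^15 + 432*ζ^7*u^13*v^2 + 450*ζ^7*u^12*v^3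
       + 990*ζ^7*u^11*v^4 - 18*ζ^7*u^10*v^5 - 216*ζ^7*u^8*v^7 - 9*ζ^6*u^15 - 558*ζ^6*u^13*v^2
       + 342*ζ^6*u^12*v^3 - 900*ζ^6*u^11*v^4 + 27*ζ^6*u^10*v^5 - 216*ζ^6*u^8*v^7
       - 216*ζ^6*u^7*v^8 - 9*ζ^5*u^15 + 342*ζ^5*u^13*v^2 - 558*ζ^5*u^12*v^3 + 774*ζ^5*u^11*v^4
       + 27*ζ^5*u^10*v^5 + 540*ζ^5*u^9*v^6 - 216*ζ^5*u^8*v^7 - 216*ζ^5*u^7*v^8 - 432*ζ^5*u^6*v^9
       + 36*ζ^4*u^15 + 342*ζ^4*u^13*v^2 + 432*ζ^4*u^12*v^3 - 216*ζ^4*u^11*v^4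
       - 2178*ζ^4*u^10*v^5 + 540*ζ^4*u^9*v^6 + 864*ζ^4*u^8*v^7 - 216*ζ^4*u^7*v^8
       - 432*ζ^4*u^6*v^9 + 540*ζ^4*u^5*v^10 - 54*ζ^3*u^15 - 558*ζ^3*u^13*v^2 - 558*ζ^3*u^12*v^3
       - 216*ζ^3*u^11*v^4 + 3762*ζ^3*u^10*v^5 + 864*ζ^3*u^8*v^7 + 1404*ζ^3*u^7*v^8
       - 432*ζ^3*u^6*v^9 + 540*ζ^3*u^5*v^10 - 1080*ζ^3*u^4*v^11 + 36*ζ^2*u^15 + 432*ζ^2*u^13*v^2
       + 342*ζ^2*u^12*v^3 + 774*ζ^2*u^11*v^4 - 2178*ζ^2*u^10*v^5 - 4752*ζ^2*u^8*v^7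
       + 1404*ζ^2*u^7*v^8 - 3672*ζ^2*u^6*v^9 + 540*ζ^2*u^5*v^10 - 1080*ζ^2*u^4*v^11
       + 648*ζ^2*u^3*v^12 - 9*ζ*u^15 - 558*ζ*u^13*v^2 + 342*ζ*u^12*v^3 - 1116*ζ*u^11*v^4
       + 297*ζ*u^10*v^5 + 1188*ζ*u^8*v^7 + 1188*ζ*u^7*v^8 + 2268*ζ*u^6*v^9 + 1890*ζ*u^5*v^10
       - 1080*ζ*u^4*v^11 + 648*ζ*u^3*v^12 - 432*ζ*u^2*v^13 - 9*u^15 + 342*u^13*v^2
       - 558*u^12*v^3 + 774*u^11*v^4 + 297*u^10*v^5 + 1188*u^8*v^7 + 1188*u^7*v^8 - 3564*u^6*v^9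
       + 1890*u^5*v^10 + 648*u^3*v^12 - 432*u^2*v^13 + 216*u*v^14) * hζ

set_option maxHeartbeats 4000000 in
theorem col_e2 (ζ u v : R) (hζ : ζ ^ 4 + ζ ^ 3 + ζ ^ 2 + ζ + 1 = 0) :
    kpx (ζ * u) v * zX ζ u v + (25 * kpx (ζ * u) v + zX ζ u v) * kpx u v + 675 * k4 u v
      + 10 * zL ζ u v * kpy (ζ * u) v - 2 * zL ζ u v ^ 2 * kpx (ζ * u) v = 0 := by
  unfold kpx kpy kal kbe zX zA zB zL cC1 cC2 k4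
  linear_combination (
      -792*ζ^12*u^20 - 8640*ζ^12*u^18*v^2 + 27000*ζ^12*u^16*v^4 - 1728*ζ^12*u^15*v^5
       + 4320*ζ^12*u^13*v^7 + 612*ζ^12*u^10*v^10 - 936*ζ^11*u^20 + 12960*ζ^11*u^18*v^2
       + 8640*ζ^11*u^17*v^3 - 27000*ζ^11*u^16*v^4 - 49464*ζ^11*u^15*v^5 + 4320*ζ^11*u^13*v^7
       - 4320*ζ^11*u^12*v^8 + 1116*ζ^11*u^10*v^10 - 972*ζ^10*u^20 - 18144*ζ^10*u^18*v^2
       - 12960*ζ^10*u^17*v^3 + 4320*ζ^10*u^16*v^4 + 52272*ζ^10*u^15*v^5 + 113400*ζ^10*u^14*v^6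
       - 16416*ζ^10*u^13*v^7 - 4320*ζ^10*u^12*v^8 - 2160*ζ^10*u^11*v^9 + 432*ζ^10*u^10*v^10
       + 7344*ζ^10*u^8*v^12 + 540*ζ^9*u^20 - 13392*ζ^9*u^18*v^2 + 3456*ζ^9*u^17*v^3
       - 32400*ζ^9*u^16*v^4 + 26460*ζ^9*u^15*v^5 - 135000*ζ^9*u^14*v^6 - 36288*ζ^9*u^13*v^7
       - 27216*ζ^9*u^12*v^8 - 540*ζ^9*u^10*v^10 + 13392*ζ^9*u^8*v^12 + 7344*ζ^9*u^7*v^13
       - 3024*ζ^8*u^18*v^2 - 19872*ζ^8*u^17*v^3 + 13392*ζ^8*u^16*v^4 + 38880*ζ^8*u^14*v^6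
       + 82944*ζ^8*u^13*v^7 + 150552*ζ^8*u^12*v^8 - 41472*ζ^8*u^11*v^9 - 19440*ζ^8*u^9*v^11
       + 5184*ζ^8*u^8*v^12 + 13392*ζ^8*u^7*v^13 + 14688*ζ^8*u^6*v^14 - 540*ζ^7*u^20
       - 6480*ζ^7*u^18*v^2 - 9504*ζ^7*u^17*v^3 - 52704*ζ^7*u^16*v^4 + 49140*ζ^7*u^15*v^5
       - 77760*ζ^7*u^14*v^6 - 71280*ζ^7*u^13*v^7 - 97416*ζ^7*u^12*v^8 + 140184*ζ^7*u^11*v^9
       + 26460*ζ^7*u^10*v^10 + 6480*ζ^7*u^9*v^11 + 45360*ζ^7*u^8*v^12 + 5184*ζ^7*u^7*v^13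
       + 26784*ζ^7*u^6*v^14 - 18360*ζ^7*u^5*v^15 + 720*ζ^6*u^20 + 16740*ζ^6*u^18*v^2
       + 16740*ζ^6*u^17*v^3 + 27432*ζ^6*u^16*v^4 - 149040*ζ^6*u^15*v^5 + 107460*ζ^6*u^14*v^6
       + 118260*ζ^6*u^13*v^7 + 266760*ζ^6*u^12*v^8 - 18252*ζ^6*u^11*v^9 - 71100*ζ^6*u^10*v^10
       - 123120*ζ^6*u^9*v^11 + 77760*ζ^6*u^8*v^12 - 116640*ζ^6*u^7*v^13 + 10368*ζ^6*u^6*v^14
       - 33480*ζ^6*u^5*v^15 + 36720*ζ^6*u^4*v^16 - 720*ζ^5*u^20 - 16740*ζ^5*u^18*v^2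
       - 16740*ζ^5*u^17*v^3 - 33480*ζ^5*u^16*v^4 + 206280*ζ^5*u^15*v^5 - 183060*ζ^5*u^14*v^6
       + 46332*ζ^5*u^13*v^7 - 338040*ζ^5*u^12*v^8 - 125820*ζ^5*u^11*v^9 + 84060*ζ^5*u^10*v^10
       + 61560*ζ^5*u^9*v^11 + 94608*ζ^5*u^8*v^12 - 58320*ζ^5*u^7*v^13 + 71280*ζ^5*u^6*v^14
       - 12960*ζ^5*u^5*v^15 + 66960*ζ^5*u^4*v^16 - 22032*ζ^5*u^3*v^17 + 540*ζ^4*u^20
       + 6480*ζ^4*u^18*v^2 + 6480*ζ^4*u^17*v^3 + 12960*ζ^4*u^16*v^4 - 22140*ζ^4*u^15*v^5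
       + 17280*ζ^4*u^14*v^6 - 31104*ζ^4*u^13*v^7 + 32832*ζ^4*u^12*v^8 + 213840*ζ^4*u^11*v^9
       + 274860*ζ^4*u^10*v^10 - 87480*ζ^4*u^9*v^11 + 156384*ζ^4*u^8*v^12 - 28512*ζ^4*u^7*v^13
       + 19440*ζ^4*u^6*v^14 - 81000*ζ^4*u^5*v^15 + 25920*ζ^4*u^4*v^16 - 40176*ζ^4*u^3*v^17
       + 14688*ζ^4*u^2*v^18 + 9072*ζ^3*u^13*v^7 - 39744*ζ^3*u^12*v^8 - 55296*ζ^3*u^11*v^9
       - 226800*ζ^3*u^10*v^10 - 51840*ζ^3*u^9*v^11 - 140832*ζ^3*u^8*v^12 + 4104*ζ^3*u^7*v^13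
       - 76464*ζ^3*u^6*v^14 + 32400*ζ^3*u^5*v^15 + 25920*ζ^3*u^4*v^16 - 15552*ζ^3*u^3*v^17
       + 26784*ζ^3*u^2*v^18 - 7344*ζ^3*u*v^19 - 468*ζ^2*u^20 - 5616*ζ^2*u^18*v^2
       - 5616*ζ^2*u^17*v^3 - 11232*ζ^2*u^16*v^4 + 17388*ζ^2*u^15*v^5 - 28080*ζ^2*u^14*v^6
       + 57024*ζ^2*u^13*v^7 + 22896*ζ^2*u^12*v^8 + 105840*ζ^2*u^11*v^9 - 60912*ζ^2*u^10*v^10
       + 336960*ζ^2*u^9*v^11 - 106272*ζ^2*u^8*v^12 + 218376*ζ^2*u^7*v^13 - 46656*ζ^2*u^6*v^14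
       + 64800*ζ^2*u^5*v^15 + 30240*ζ^2*u^4*v^16 - 31968*ζ^2*u^3*v^17 + 30240*ζ^2*u^2*v^18
       - 23328*ζ^2*u*v^19 + 1440*ζ^2*v^20 - 1944*ζ*u^20 - 15228*ζ*u^18*v^2 - 15228*ζ*u^17*v^3
       - 30456*ζ*u^16*v^4 - 114696*ζ*u^15*v^5 - 76140*ζ*u^14*v^6 + 59292*ζ*u^13*v^7
       - 16848*ζ*u^12*v^8 + 45468*ζ*u^11*v^9 - 367776*ζ*u^10*v^10 + 48600*ζ*u^9*v^11
       - 58536*ζ*u^8*v^12 + 69984*ζ*u^7*v^13 - 11016*ζ*u^6*v^14 + 106920*ζ*u^5*v^15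
       + 66960*ζ*u^4*v^16 - 33264*ζ*u^3*v^17 + 31536*ζ*u^2*v^18 - 26352*ζ*u*v^19 + 2880*ζ*v^20
       + 252*u^20 - 5076*u^18*v^2 - 5076*u^17*v^3 - 10152*u^16*v^4 + 166968*u^15*v^5
       - 25380*u^14*v^6 + 19764*u^13*v^7 - 5616*u^12*v^8 + 14148*u^11*v^9 + 322308*u^10*v^10
       + 22680*u^9*v^11 - 1512*u^8*v^12 + 23328*u^7*v^13 + 15336*u^6*v^14 - 174960*u^5*v^15
       + 49680*u^4*v^16 - 25488*u^3*v^17 + 17712*u^2*v^18 - 9936*u*v^19 + 2160*v^20) * hζ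

end Fermat.Agent.H52
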