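import Fermat.Agent.H52Defs

/-!
# Klein's icosahedral forms and the 5-congruent family

`kD`, `k4`, `k6` are Klein's forms of degree 12, 20, 30.  For
`w' = (u - m ∂D/∂v, v + m ∂D/∂u)` we have `kD w' = kD w * dHat`, `k4 w' = c4Hat`,
`2 k6 w' = c6Hat2` (arguments `k4 w`, `k6 w`, `m`).
-/

set_option autoImplicit false

namespace Fermat.Agent.H52

variable {R : Type*} [CommRing R]

/-- Klein's form of degree 12. -/
def kD (u v : R) : R := u * v * (u ^ 10 - 11 * u ^ 5 * v ^ 5 - v ^ 10)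
/-- Klein's form of degree 20. -/
def k4 (u v : R) : R :=
  u ^ 20 + 228 * u ^ 15 * v ^ 5 + 494 * u ^ 10 * v ^ 10 - 228 * u ^ 5 * v ^ 15 + v ^ 20
/-- Klein's form of degree 30. -/
def k6 (u v : R) : R :=
  -u ^ 30 + 522 * u ^ 25 * v ^ 5 + 10005 * u ^ 20 * v ^ 10 + 10005 * u ^ 10 * v ^ 20
    - 522 * u ^ 5 * v ^ 25 - v ^ 30

def kDu (u v : R) : R := v * (11 * u ^ 10 - 66 * u ^ 5 * v ^ 5 - v ^ 10)
def kDv (u v : R) : R := u * (u ^ 10 - 66 * u ^ 5 * v ^ 5 - 11 * v ^ 10)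

/-- polar forms -/
def polG (x y p r : R) : R := p * kDu x y + r * kDv x y
def polE (x y p r : R) : R :=
  p ^ 2 * (10 * (x ^ 9 * y - 3 * x ^ 4 * y ^ 6)) + 2 * p * r * (x ^ 10 - 36 * x ^ 5 * y ^ 5 - y ^ 10)
    + r ^ 2 * (-10 * (3 * x ^ 6 * y ^ 4 + x * y ^ 9))
def polK (x y p r : R) : R :=
  p ^ 3 * (9 * x ^ 8 * y - 12 * x ^ 3 * y ^ 6) + 3 * p ^ 2 * r * (x ^ 9 - 18 * x ^ 4 * y ^ 5)
    + 3 * p * r ^ 2 * (-18 * x ^ 5 * y ^ 4 - y ^ 9) + r ^ 3 * (-12 * x ^ 6 * y ^ 3 - 9 * x * y ^ 8)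

set_option maxHeartbeats 40000000 in
theorem k4_polar (x y p r : R) :
    k4 x y * (x * r - y * p) ^ 2 = polG x y p r ^ 2 - 12 * kD x y * polE x y p r := by
  unfold k4 kD polG polE kDu kDv
  ring

set_option maxHeartbeats 40000000 in
theorem k6_polar (x y p r : R) :
    2 * k6 x y * (x * r - y * p) ^ 3 = 36 * kD x y * polG x y p r * polE x y p r
      - 144 * kD x y ^ 2 * polK x y p r - 2 * polG x y p r ^ 3 := by
  unfold k6 kD polG polE polK kDu kDv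
  ring

theorem k_syzygy (u v : R) : k4 u v ^ 3 - k6 u v ^ 2 = 1728 * kD u v ^ 5 := by
  unfold k4 k6 kD
  ring

def pP (U V : R) : R := U ^ 2 - 66 * U * V - 11 * V ^ 2
def pQ (U V : R) : R := 11 * U ^ 2 - 66 * U * V - V ^ 2
def q4 (U V : R) : R := U^4 + 228*U^3*V + 494*U^2*V^2 - 228*U*V^3 + V^4
def q6 (U V : R) : R := -U^6 + 522*U^5*V + 10005*U^4*V^2 + 10005*U^2*V^4 - 522*U*V^5 - V^6

theorem k4_eq (u v : R) : k4 u v = q4 (u ^ 5) (v ^ 5) := by unfold k4 q4; ring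
theorem k6_eq (u v : R) : k6 u v = q6 (u ^ 5) (v ^ 5) := by unfold k6 q6; ring
theorem kDu_eq (u v : R) : kDu u v = v * pQ (u ^ 5) (v ^ 5) := by unfold kDu pQ; ring
theorem kDv_eq (u v : R) : kDv u v = u * pP (u ^ 5) (v ^ 5) := by unfold kDv pP; ring
theorem kD_eq' (u v : R) :
    kD u v = u * v * ((u ^ 5) ^ 2 - 11 * u ^ 5 * v ^ 5 - (v ^ 5) ^ 2) := by unfold kD; ring

set_option maxHeartbeats 40000000 in
theorem klein_d (U V m : R) :
    (1 - m * pP U V) * (1 + m * pQ U V) *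
      (U^2 * (1 - m * pP U V)^10 - 11*U*V*(1 - m * pP U V)^5*(1 + m * pQ U V)^5
        - V^2*(1 + m * pQ U V)^10)
     = (U^2 - 11*U*V - V^2) * dHat (q4 U V) (q6 U V) m := by
  unfold dHat pP pQ q4 q6
  ring

set_option maxHeartbeats 40000000 in
theorem klein_g (U V m : R) :
    -pP U V * (1 + m * pQ U V) *
      (11 * U^2 * (1 - m * pP U V)^10 - 66*U*V*(1 - m * pP U V)^5*(1 + m * pQ U V)^5
        - V^2*(1 + m * pQ U V)^10)
    + pQ U V * (1 - m * pP U V) *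
      (U^2 * (1 - m * pP U V)^10 - 66*U*V*(1 - m * pP U V)^5*(1 + m * pQ U V)^5
        - 11 * V^2*(1 + m * pQ U V)^10)
     = 12 * (U^2 - 11*U*V - V^2) * gHat (q4 U V) (q6 U V) m := by
  unfold gHat pP pQ q4 q6
  ring

set_option maxHeartbeats 40000000 in
theorem klein_e (U V m : R) :
    10 * U * pP U V ^ 2 * (1 - m * pP U V)^4 * (1 + m * pQ U V) *
      (U * (1 - m * pP U V)^5 - 3 * V * (1 + m * pQ U V)^5)
    - 2 * pP U V * pQ U V * (U^2 * (1 - m * pP U V)^10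
        - 36*U*V*(1 - m * pP U V)^5*(1 + m * pQ U V)^5 - V^2*(1 + m * pQ U V)^10)
    - 10 * V * pQ U V ^ 2 * (1 - m * pP U V) * (1 + m * pQ U V) ^ 4 *
      (3 * U * (1 - m * pP U V)^5 + V * (1 + m * pQ U V)^5)
     = 12 * (U^2 - 11*U*V - V^2) * eHat (q4 U V) (q6 U V) m := by
  unfold eHat pP pQ q4 q6
  ring

set_option maxHeartbeats 40000000 in
theorem klein_k (U V m : R) :
    -pP U V ^ 3 * (9 * U^2 * (1 - m * pP U V)^8 * (1 + m * pQ U V)
        - 12 * U * V * (1 - m * pP U V)^3 * (1 + m * pQ U V)^6)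
    + 3 * pP U V ^ 2 * pQ U V * (U^2 * (1 - m * pP U V)^9
        - 18*U*V*(1 - m * pP U V)^4*(1 + m * pQ U V)^5)
    - 3 * pP U V * pQ U V ^ 2 * (-18*U*V*(1 - m * pP U V)^5 * (1 + m * pQ U V) ^ 4
        - V^2*(1 + m * pQ U V)^9)
    + pQ U V ^ 3 * (-12 * U * V * (1 - m * pP U V)^6 * (1 + m * pQ U V) ^ 3
        - 9 * V^2 * (1 - m * pP U V) * (1 + m * pQ U V)^8)
     = 12 * (U^2 - 11*U*V - V^2) * kHat (q4 U V) (q6 U V) m := by
  unfold kHat pP pQ q4 q6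
  ring

/-- `u' = u - m D_v` -/
def wu (u v m : R) : R := u - m * kDv u v
/-- `v' = v + m D_u` -/
def wv (u v m : R) : R := v + m * kDu u v

theorem kD_w (u v m : R) :
    kD (wu u v m) (wv u v m) = kD u v * dHat (k4 u v) (k6 u v) m := by
  have h := klein_d (u ^ 5) (v ^ 5) m
  rw [kD_eq' u v, k4_eq, k6_eq]
  unfold wu wv
  rw [kDu_eq, kDv_eq]
  generalize dHat (q4 (u ^ 5) (v ^ 5)) (q6 (u ^ 5) (v ^ 5)) m = d at *
  generalize pP (u ^ 5) (v ^ 5) = P at *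
  generalize pQ (u ^ 5) (v ^ 5) = Q at *
  unfold kD
  linear_combination (u * v) * h

theorem polG_w (u v m : R) :
    polG (wu u v m) (wv u v m) (-kDv u v) (kDu u v)
      = 12 * kD u v * gHat (k4 u v) (k6 u v) m := by
  have h := klein_g (u ^ 5) (v ^ 5) m
  rw [kD_eq' u v, k4_eq, k6_eq]
  unfold wu wv
  rw [kDu_eq u v, kDv_eq u v]
  generalize gHat (q4 (u ^ 5) (v ^ 5)) (q6 (u ^ 5) (v ^ 5)) m = d at *
  generalize pP (u ^ 5) (v ^ 5) = P at *
  generalize pQ (u ^ 5) (v ^ 5) = Q at *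
  unfold polG kDu kDv
  linear_combination (u * v) * h

theorem polE_w (u v m : R) :
    polE (wu u v m) (wv u v m) (-kDv u v) (kDu u v)
      = 12 * kD u v * eHat (k4 u v) (k6 u v) m := by
  have h := klein_e (u ^ 5) (v ^ 5) m
  rw [kD_eq' u v, k4_eq, k6_eq]
  unfold wu wv
  rw [kDu_eq u v, kDv_eq u v]
  generalize eHat (q4 (u ^ 5) (v ^ 5)) (q6 (u ^ 5) (v ^ 5)) m = d at *
  generalize pP (u ^ 5) (v ^ 5) = P at *
  generalize pQ (u ^ 5) (v ^ 5) = Q at *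
  unfold polE
  linear_combination (u * v) * h

theorem polK_w (u v m : R) :
    polK (wu u v m) (wv u v m) (-kDv u v) (kDu u v)
      = 12 * kD u v * kHat (k4 u v) (k6 u v) m := by
  have h := klein_k (u ^ 5) (v ^ 5) m
  rw [kD_eq' u v, k4_eq, k6_eq]
  unfold wu wv
  rw [kDu_eq u v, kDv_eq u v]
  generalize kHat (q4 (u ^ 5) (v ^ 5)) (q6 (u ^ 5) (v ^ 5)) m = d at *
  generalize pP (u ^ 5) (v ^ 5) = P at *
  generalize pQ (u ^ 5) (v ^ 5) = Q at *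
  unfold polK
  linear_combination (u * v) * h

theorem det_w (u v m : R) :
    wu u v m * kDu u v - wv u v m * (-kDv u v) = 12 * kD u v := by
  unfold wu wv kDu kDv kD
  ring

section Field

variable {K : Type*} [Field K]

theorem k4_w (h2 : (2 : K) ≠ 0) (h3 : (3 : K) ≠ 0) (u v m : K) (hD : kD u v ≠ 0) :
    k4 (wu u v m) (wv u v m) = c4Hat (k4 u v) (k6 u v) m := by
  have h := k4_polar (wu u v m) (wv u v m) (-kDv u v) (kDu u v)
  rw [det_w, kD_w, polG_w, polE_w] at h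
  have h144 : (144 : K) * kD u v ^ 2 ≠ 0 := by
    have : (144 : K) = 2 ^ 4 * 3 ^ 2 := by norm_num
    rw [this]
    exact mul_ne_zero (mul_ne_zero (pow_ne_zero _ h2) (pow_ne_zero _ h3)) (pow_ne_zero _ hD)
  refine mul_left_cancel₀ h144 ?_
  unfold c4Hat
  linear_combination h

end Field

end Fermat.Agent.H52
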