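import Fermat.Agent.H52Tors
import Fermat.Agent.H42TorsionFinal

/-!
# Icosahedral orbits of parameters
-/

set_option autoImplicit false
set_option linter.unusedSectionVars false

open WeierstrassCurve Fermat.Agent.H98

namespace Fermat.Agent.H52

section Orb

variable {K : Type*} [Field K] [DecidableEq K]

/-- the 5-torsion point with parameter `w` -/
noncomputable def Pw (W : WeierstrassCurve K) (w : K × K) : W.toAffine.Point :=
  tpt W (kal w.1 w.2) (kbe w.1 w.2)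

def Tm (ζ : K) (w : K × K) : K × K := (ζ * w.1, w.2)
def Sm (ζ i : K) (w : K × K) : K × K := (sU ζ i w.1 w.2, sV ζ i w.1 w.2)
def Zm (κ : K) (w : K × K) : K × K := (κ * w.1, κ * w.2)
def Fm (m : K) (w : K × K) : K × K := (wu w.1 w.2 m, wv w.1 w.2 m)

def IsPar (a b : K) (w : K × K) : Prop := k4 w.1 w.2 = a ∧ k6 w.1 w.2 = b

inductive Orb (ζ i : K) (w : K × K) : K × K → Prop
  | refl : Orb ζ i w w
  | T {w' : K × K} : Orb ζ i w w' → Orb ζ i w (Tm ζ w')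
  | S {w' : K × K} : Orb ζ i w w' → Orb ζ i w (Sm ζ i w')
  | Z {w' : K × K} (κ : K) (hκ : κ ^ 5 = 1) : Orb ζ i w w' → Orb ζ i w (Zm κ w')

variable {ζ i : K}

theorem Orb.trans {w w' w'' : K × K} (h : Orb ζ i w w') (h' : Orb ζ i w' w'') :
    Orb ζ i w w'' := by
  induction h' with
  | refl => exact h
  | T _ ih => exact ih.T
  | S _ ih => exact ih.S
  | Z κ hκ _ ih => exact ih.Z κ hκ

variable (h2 : (2 : K) ≠ 0) (h3 : (3 : K) ≠ 0)
  (hζ : ζ ^ 4 + ζ ^ 3 + ζ ^ 2 + ζ + 1 = 0) (hi : 5 * i = 1)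

omit [DecidableEq K] in
include hζ in
theorem IsPar.T {a b : K} {w : K × K} (h : IsPar a b w) : IsPar a b (Tm ζ w) :=
  ⟨(k4_T ζ _ _ (zeta_pow hζ)).trans h.1, (k6_T ζ _ _ (zeta_pow hζ)).trans h.2⟩

omit [DecidableEq K] in
include hζ hi in
theorem IsPar.S {a b : K} {w : K × K} (h : IsPar a b w) : IsPar a b (Sm ζ i w) :=
  ⟨(k4_S hζ hi _ _).trans h.1, (k6_S hζ hi _ _).trans h.2⟩

omit [DecidableEq K] in
theorem IsPar.Z {a b κ : K} (hκ : κ ^ 5 = 1) {w : K × K} (h : IsPar a b w) :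
    IsPar a b (Zm κ w) :=
  ⟨(k4_mul κ _ _ hκ).trans h.1, (k6_mul κ _ _ hκ).trans h.2⟩

omit [DecidableEq K] in
include hζ hi in
theorem IsPar.orb {a b : K} {w w' : K × K} (h : IsPar a b w) (ho : Orb ζ i w w') :
    IsPar a b w' := by
  induction ho with
  | refl => exact h
  | T _ ih => exact ih.T hζ
  | S _ ih => exact ih.S hζ hi
  | Z κ hκ _ ih => exact ih.Z hκ

omit [DecidableEq K] in
include hζ hi in
theorem orb_F (m : K) {w w' : K × K} (h : Orb ζ i w w') : Orb ζ i (Fm m w) (Fm m w') := by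
  induction h with
  | refl => exact Orb.refl
  | @T w1 _ ih =>
    have : Fm m (Tm ζ w1) = Tm ζ (Fm m w1) := by
      unfold Fm Tm
      exact Prod.ext (wu_T ζ _ _ m (zeta_pow hζ)) (wv_T ζ _ _ m (zeta_pow hζ))
    rw [this]; exact ih.T
  | @S w1 _ ih =>
    have : Fm m (Sm ζ i w1) = Sm ζ i (Fm m w1) := by
      unfold Fm Sm
      exact Prod.ext (wu_S hζ hi _ _ m) (wv_S hζ hi _ _ m)
    rw [this]; exact ih.S
  | @Z w1 κ hκ _ ih =>
    have : Fm m (Zm κ w1) = Zm κ (Fm m w1) := by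
      unfold Fm Zm
      exact Prod.ext (wu_mul κ _ _ m hκ) (wv_mul κ _ _ m hκ)
    rw [this]; exact ih.Z κ hκ

theorem tk4 {a b : K} {w : K × K} (h : IsPar a b w) : t4 (kal w.1 w.2) (kbe w.1 w.2) = a :=
  (t4_k _ _).trans h.1
theorem tk6 {a b : K} {w : K × K} (h : IsPar a b w) : t6 (kal w.1 w.2) (kbe w.1 w.2) = b :=
  (t6_k _ _).trans h.2

include h2 h3 in
theorem Pw_ne_zero {a b : K} (hab : a ^ 3 - b ^ 2 ≠ 0) {w : K × K} (h : IsPar a b w) :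
    Pw (short a b) w ≠ 0 := tpt_ne_zero h2 h3 hab (tk4 h) (tk6 h)

include h2 h3 in
theorem Pw_five {a b : K} (hab : a ^ 3 - b ^ 2 ≠ 0) {w : K × K} (h : IsPar a b w) :
    (5 : ℤ) • Pw (short a b) w = 0 := tpt_five h2 h3 hab (tk4 h) (tk6 h)

theorem Pw_Z (W : WeierstrassCurve K) {κ : K} (hκ : κ ^ 5 = 1) (w : K × K) :
    Pw W (Zm κ w) = Pw W w := by
  unfold Pw Zm
  rw [kal_mul κ _ _ hκ, kbe_mul κ _ _ hκ]

theorem Sm_Zm (κ : K) (w : K × K) : Sm ζ i (Zm κ w) = Zm κ (Sm ζ i w) := by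
  unfold Sm Zm
  rw [sU_mul, sV_mul]

include hζ hi in
theorem Pw_S_T (W : WeierstrassCurve K) (w : K × K) :
    Pw W (Sm ζ i (Tm ζ w)) = Pw W (Sm ζ i w) := by
  unfold Pw Sm Tm
  rw [kal_S_T hζ hi, kbe_S_T hζ hi]

include hζ hi in
theorem Sm_Sm (w : K × K) : Sm ζ i (Sm ζ i w) = (-w.1, -w.2) := by
  unfold Sm
  rw [sU_sU hζ hi, sV_sV hζ hi]

include h2 h3 hζ hi in
theorem Pw_S_S {a b : K} (hab : a ^ 3 - b ^ 2 ≠ 0) {w : K × K} (h : IsPar a b w) :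
    Pw (short a b) (Sm ζ i (Sm ζ i w)) = -Pw (short a b) w := by
  rw [Sm_Sm hζ hi]
  unfold Pw
  rw [kal_neg, kbe_neg, tpt_neg h2 h3 hab (tk4 h) (tk6 h)]

include h2 h3 hζ hi in
theorem Pw_T {a b : K} (hab : a ^ 3 - b ^ 2 ≠ 0) {w : K × K} (h : IsPar a b w) :
    Pw (short a b) (Tm ζ w) + Pw (short a b) (Sm ζ i w) = Pw (short a b) w := by
  have h5 : (5 : K) ≠ 0 := by rintro h0; rw [h0, zero_mul] at hi; exact zero_ne_one hi
  have hT := h.T hζ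
  have hS := h.S hζ hi
  have n1 := tpt_nonsing h2 h3 hab (tk4 hT) (tk6 hT)
  have n2 := tpt_nonsing h2 h3 hab (tk4 hS) (tk6 hS)
  have n3 := tpt_nonsing h2 h3 hab (tk4 h) (tk6 h)
  have hne := tate_ne_zero h2 h3 hab (tk4 hT) (tk6 hT)
  obtain ⟨u, v⟩ := w
  have e1 := col_e1 ζ u v hζ
  have l1 := col_l1 ζ u v hζ
  have l2 := col_l2 ζ u v hζ
  have e2 := col_e2 ζ u v hζ
  have hk4 : k4 u v = a := h.1
  have hSx : 3 * (kal (Sm ζ i (u, v)).1 (Sm ζ i (u, v)).2 ^ 2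
      - 6 * kal (Sm ζ i (u, v)).1 (Sm ζ i (u, v)).2 * kbe (Sm ζ i (u, v)).1 (Sm ζ i (u, v)).2
      + kbe (Sm ζ i (u, v)).1 (Sm ζ i (u, v)).2 ^ 2) = i ^ 2 * zX ζ u v := by
    unfold Sm
    rw [kal_S hζ hi, kbe_S hζ hi]
    unfold zX; ring
  have hSy : -108 * kal (Sm ζ i (u, v)).1 (Sm ζ i (u, v)).2
      * kbe (Sm ζ i (u, v)).1 (Sm ζ i (u, v)).2 ^ 2 = i ^ 3 * zY ζ u v := by
    unfold Sm
    rw [kal_S hζ hi, kbe_S hζ hi]
    unfold zY; ring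
  unfold Pw tpt
  rw [pt_eq n1, pt_eq n2, pt_eq n3]
  have f1 : (3 * (kal (Tm ζ (u, v)).1 (Tm ζ (u, v)).2 ^ 2
      - 6 * kal (Tm ζ (u, v)).1 (Tm ζ (u, v)).2 * kbe (Tm ζ (u, v)).1 (Tm ζ (u, v)).2
      + kbe (Tm ζ (u, v)).1 (Tm ζ (u, v)).2 ^ 2)) = kpx (ζ * u) v := rfl
  have f2 : -108 * kal (Tm ζ (u, v)).1 (Tm ζ (u, v)).2
      * kbe (Tm ζ (u, v)).1 (Tm ζ (u, v)).2 ^ 2 = kpy (ζ * u) v := rfl
  have f3 : (3 * (kal (u, v).1 (u, v).2 ^ 2
      - 6 * kal (u, v).1 (u, v).2 * kbe (u, v).1 (u, v).2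
      + kbe (u, v).1 (u, v).2 ^ 2)) = kpx u v := rfl
  have f4 : -108 * kal (u, v).1 (u, v).2
      * kbe (u, v).1 (u, v).2 ^ 2 = kpy u v := rfl
  have hne' : kpy (ζ * u) v ≠ 0 := by
    rw [← f2]
    have e : -108 * kal (Tm ζ (u, v)).1 (Tm ζ (u, v)).2
      * kbe (Tm ζ (u, v)).1 (Tm ζ (u, v)).2 ^ 2 = -(2 ^ 2 * 3 ^ 3) *
        (kal (Tm ζ (u, v)).1 (Tm ζ (u, v)).2 * kbe (Tm ζ (u, v)).1 (Tm ζ (u, v)).2 ^ 2) := by ring
    rw [e]
    exact mul_ne_zero (neg_ne_zero.mpr (mul_ne_zero (pow_ne_zero _ h2) (pow_ne_zero _ h3)))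
      (mul_ne_zero hne.1 (pow_ne_zero _ hne.2))
  have key : ∀ (x1 y1 x2 y2 x3 y3 : K) (n1 : (short a b).toAffine.Nonsingular x1 y1)
      (n2 : (short a b).toAffine.Nonsingular x2 y2) (n3 : (short a b).toAffine.Nonsingular x3 y3),
      x1 = kpx (ζ * u) v → y1 = kpy (ζ * u) v → x2 = i ^ 2 * zX ζ u v → y2 = i ^ 3 * zY ζ u v →
      x3 = kpx u v → y3 = kpy u v →
      Affine.Point.some x1 y1 n1 + Affine.Point.some x2 y2 n2 = Affine.Point.some x3 y3 n3 := by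
    rintro x1 y1 x2 y2 x3 y3 n1 n2 n3 hx1 hy1 hx2 hy2 hx3 hy3
    have g1 : x3 = (i * zL ζ u v) ^ 2 - x1 - x2 := by
      rw [hx1, hx2, hx3]
      linear_combination (i ^ 2) * e1 - ((5 * i + 1) * (kpx (ζ * u) v + kpx u v)) * hi
    have g2 : y2 - y1 = i * zL ζ u v * (x2 - x1) := by
      rw [hx1, hx2, hy1, hy2]
      linear_combination (i ^ 3) * l1 + ((25 * i ^ 2 + 5 * i + 1) * kpy (ζ * u) v
        - i * zL ζ u v * (5 * i + 1) * kpx (ζ * u) v) * hi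
    have g3 : y3 = -(y1 + i * zL ζ u v * (x3 - x1)) := by
      rw [hx1, hx3, hy1, hy3]
      linear_combination (-i) * l2 - (kpy u v + kpy (ζ * u) v) * hi
    refine add_of (L := i * zL ζ u v) n1 n2 n3 g2 (fun hx => ?_) g1 g3
    have hyy : y2 = y1 := by
      rw [hx, sub_self, mul_zero] at g2; linear_combination g2
    refine ⟨?_, ?_⟩
    · rw [hyy, hy1, ← two_mul]
      exact mul_ne_zero h2 hne'
    · -- use the second symmetric function identity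
      have g4 : x1 * x2 + (x1 + x2) * x3 + 27 * a + 2 * (i * zL ζ u v) * y1
          - 2 * (i * zL ζ u v) ^ 2 * x1 = 0 := by
        rw [hx1, hx2, hx3, hy1, ← hk4]
        linear_combination (i ^ 2) * e2 - ((5 * i + 1) * (kpx (ζ * u) v * kpx u v + 27 * k4 u v)
          + 2 * i * zL ζ u v * kpy (ζ * u) v) * hi
      rw [← hx, g1] at g4
      rw [← hx] at g4
      linear_combination g4
  exact key _ _ _ _ _ _ n1 n2 n3 f1 f2 hSx hSy f3 f4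

end Orb

end Fermat.Agent.H52
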