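import Fermat.Agent.H52Ident
import Fermat.Agent.H98Short

/-!
# Parametrisation of an elliptic curve with its 5-torsion by Klein's forms

For `a³ ≠ b²` in an algebraically closed field there is `(u,v)` with `k4 u v = a`, `k6 u v = b`.
-/

set_option autoImplicit false

open Polynomial

namespace Fermat.Agent.H52

section Ring

variable {R : Type*} [CommRing R]

theorem q_syzygy (U V : R) :
    q4 U V ^ 3 - q6 U V ^ 2 = 1728 * U * V * (U ^ 2 - 11 * U * V - V ^ 2) ^ 5 := by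
  unfold q4 q6; ring

theorem q4_homog (t V : R) : q4 (t * V) V = V ^ 4 * q4 t 1 := by unfold q4; ring
theorem q6_homog (t V : R) : q6 (t * V) V = V ^ 6 * q6 t 1 := by unfold q6; ring

end Ring

section Field

variable {K : Type*} [Field K]

theorem k6_w (h2 : (2 : K) ≠ 0) (h3 : (3 : K) ≠ 0) (u v m : K) (hD : kD u v ≠ 0) :
    2 * k6 (wu u v m) (wv u v m) = c6Hat2 (k4 u v) (k6 u v) m := by
  have h := k6_polar (wu u v m) (wv u v m) (-kDv u v) (kDu u v)
  rw [det_w, kD_w, polG_w, polE_w, polK_w] at h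
  have h1728 : (1728 : K) * kD u v ^ 3 ≠ 0 := by
    have : (1728 : K) = 2 ^ 6 * 3 ^ 3 := by norm_num
    rw [this]
    exact mul_ne_zero (mul_ne_zero (pow_ne_zero _ h2) (pow_ne_zero _ h3)) (pow_ne_zero _ hD)
  refine mul_left_cancel₀ h1728 ?_
  unfold c6Hat2
  linear_combination h

theorem exists_ratio [IsAlgClosed K] (a b : K) (hab : a ^ 3 ≠ b ^ 2) :
    ∃ t : K, b ^ 2 * q4 t 1 ^ 3 = a ^ 3 * q6 t 1 ^ 2 := by
  classical
  set p : K[X] := C (b ^ 2) * (q4 X 1) ^ 3 - C (a ^ 3) * (q6 X 1) ^ 2 with hp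
  have hc : b ^ 2 - a ^ 3 ≠ 0 := fun h => hab (by linear_combination -h)
  have hdeg : p.natDegree = 12 := by
    have : p = C (b ^ 2 - a ^ 3) * X ^ 12 + (C (b ^ 2) * ((q4 X 1) ^ 3 - X ^ 12)
        - C (a ^ 3) * ((q6 X 1) ^ 2 - X ^ 12)) := by
      rw [hp, C_sub]; ring
    rw [this]
    have h1 : (C (b ^ 2 - a ^ 3) * X ^ 12 : K[X]).natDegree = 12 := natDegree_C_mul_X_pow 12 _ hc
    have h2 : (C (b ^ 2) * ((q4 X 1) ^ 3 - X ^ 12)
        - C (a ^ 3) * ((q6 X 1) ^ 2 - X ^ 12) : K[X]).natDegree ≤ 11 := by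
      have e4 : ((q4 X 1) ^ 3 - X ^ 12 : K[X]) =
          684 * X ^ 11 + 157434 * X ^ 10 + 12527460 * X ^ 9 + 77460495 * X ^ 8
          + 130689144 * X ^ 7 - 33211924 * X ^ 6 - 130689144 * X ^ 5 + 77460495 * X ^ 4
          - 12527460 * X ^ 3 + 157434 * X ^ 2 - 684 * X + 1 := by
        unfold q4; ring
      have e6 : ((q6 X 1) ^ 2 - X ^ 12 : K[X]) =
          -1044 * X ^ 11 + 252474 * X ^ 10 + 10445220 * X ^ 9 + 100080015 * X ^ 8
          + 10446264 * X ^ 7 + 199655084 * X ^ 6 - 10446264 * X ^ 5 + 100080015 * X ^ 4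
          - 10445220 * X ^ 3 + 252474 * X ^ 2 + 1044 * X + 1 := by
        unfold q6; ring
      rw [e4, e6]
      compute_degree
    rw [natDegree_add_eq_left_of_natDegree_lt (by omega), h1]
  obtain ⟨t, ht⟩ := IsAlgClosed.exists_root p (by
    intro h0
    have h1 := natDegree_eq_zero_iff_degree_le_zero.mpr h0.le
    rw [hdeg] at h1
    exact absurd h1 (by norm_num))
  refine ⟨t, ?_⟩
  have : p.eval t = b ^ 2 * q4 t 1 ^ 3 - a ^ 3 * q6 t 1 ^ 2 := by
    rw [hp]
    simp [q4, q6]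
  rw [IsRoot.def, this] at ht
  linear_combination ht

theorem exists_param [IsAlgClosed K] (h2 : (2 : K) ≠ 0) (h3 : (3 : K) ≠ 0) (h5 : (5 : K) ≠ 0)
    (a b : K) (hab : a ^ 3 ≠ b ^ 2) : ∃ u v : K, k4 u v = a ∧ k6 u v = b := by
  obtain ⟨t, ht⟩ := exists_ratio a b hab
  -- not both zero
  have hnz : ¬ (q4 t 1 = 0 ∧ q6 t 1 = 0) := by
    rintro ⟨hc, he⟩
    have hs := q_syzygy t (1 : K)
    rw [hc, he] at hs
    have h1728 : (1728 : K) ≠ 0 := by
      have : (1728 : K) = 2 ^ 6 * 3 ^ 3 := by norm_num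
      rw [this]
      exact mul_ne_zero (pow_ne_zero _ h2) (pow_ne_zero _ h3)
    have hs' : t * (t ^ 2 - 11 * t - 1) ^ 5 = 0 := by
      apply mul_left_cancel₀ h1728
      linear_combination -hs
    rcases mul_eq_zero.mp hs' with h | h
    · rw [h] at hc; simp [q4] at hc
    · have hq : t ^ 2 - 11 * t - 1 = 0 := pow_eq_zero_iff (by norm_num) |>.mp h
      have h5t : (3125 : K) * t ^ 2 = 0 := by
        have : q4 t 1 = 3125 * t ^ 2 + (t ^ 2 - 11 * t - 1) * (t ^ 2 + 239 * t - 1) := by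
          unfold q4; ring
        rw [hc, hq] at this
        linear_combination -this
      have h3125 : (3125 : K) ≠ 0 := by
        have : (3125 : K) = 5 ^ 5 := by norm_num
        rw [this]; exact pow_ne_zero _ h5
      have ht0 : t = 0 := by
        rcases mul_eq_zero.mp h5t with h' | h'
        · exact absurd h' h3125
        · exact pow_eq_zero_iff (by norm_num) |>.mp h'
      rw [ht0] at hq; simp at hq
  -- it suffices to find V
  suffices h : ∃ V : K, V ^ 4 * q4 t 1 = a ∧ V ^ 6 * q6 t 1 = b by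
    obtain ⟨V, hV4, hV6⟩ := h
    obtain ⟨v, hv⟩ := IsAlgClosed.exists_pow_nat_eq V (n := 5) (by norm_num)
    obtain ⟨u, hu⟩ := IsAlgClosed.exists_pow_nat_eq (t * V) (n := 5) (by norm_num)
    refine ⟨u, v, ?_, ?_⟩
    · rw [k4_eq, hu, hv, q4_homog, hV4]
    · rw [k6_eq, hu, hv, q6_homog, hV6]
  by_cases ha : a = 0
  · have hb : b ≠ 0 := fun h => hab (by rw [ha, h]; ring)
    have hc : q4 t 1 = 0 := by
      rw [ha] at ht
      have : b ^ 2 * q4 t 1 ^ 3 = 0 := by rw [ht]; ring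
      rcases mul_eq_zero.mp this with h | h
      · exact absurd h (pow_ne_zero _ hb)
      · exact pow_eq_zero_iff (by norm_num) |>.mp h
    have he : q6 t 1 ≠ 0 := fun h => hnz ⟨hc, h⟩
    obtain ⟨V, hV⟩ := IsAlgClosed.exists_pow_nat_eq (b / q6 t 1) (n := 6) (by norm_num)
    exact ⟨V, by rw [hc, ha]; ring, by rw [hV]; field_simp⟩
  by_cases hb : b = 0
  · have he : q6 t 1 = 0 := by
      rw [hb] at ht
      have : a ^ 3 * q6 t 1 ^ 2 = 0 := by rw [← ht]; ring
      rcases mul_eq_zero.mp this with h | h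
      · exact absurd h (pow_ne_zero _ ha)
      · exact pow_eq_zero_iff (by norm_num) |>.mp h
    have hc : q4 t 1 ≠ 0 := fun h => hnz ⟨h, he⟩
    obtain ⟨V, hV⟩ := IsAlgClosed.exists_pow_nat_eq (a / q4 t 1) (n := 4) (by norm_num)
    exact ⟨V, by rw [hV]; field_simp, by rw [he, hb]; ring⟩
  have hc : q4 t 1 ≠ 0 := by
    intro h
    apply hnz
    refine ⟨h, ?_⟩
    rw [h] at ht
    have : a ^ 3 * q6 t 1 ^ 2 = 0 := by rw [← ht]; ring
    rcases mul_eq_zero.mp this with h | h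
    · exact absurd h (pow_ne_zero _ ha)
    · exact pow_eq_zero_iff (by norm_num) |>.mp h
  have he : q6 t 1 ≠ 0 := by
    intro h
    rw [h] at ht
    have : b ^ 2 * q4 t 1 ^ 3 = 0 := by rw [ht]; ring
    rcases mul_eq_zero.mp this with h | h
    · exact absurd h (pow_ne_zero _ hb)
    · exact absurd h (pow_ne_zero _ hc)
  obtain ⟨V, hV⟩ := IsAlgClosed.exists_pow_nat_eq (b * q4 t 1 / (q6 t 1 * a)) (n := 2)
    (by norm_num)
  refine ⟨V, ?_, ?_⟩
  · have : V ^ 4 = (V ^ 2) ^ 2 := by ring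
    rw [this, hV]
    field_simp
    linear_combination ht
  · have : V ^ 6 = (V ^ 2) ^ 3 := by ring
    rw [this, hV]
    field_simp
    linear_combination ht

end Field

end Fermat.Agent.H52
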