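import Fermat.Agent.H52Orb

/-!
# Completeness of icosahedral orbits and transfer of the Frobenius action
-/

set_option autoImplicit false
set_option linter.unusedSectionVars false

open WeierstrassCurve Fermat.Agent.H98

namespace Fermat.Agent.H52

section Orb

variable {K : Type*} [Field K] [DecidableEq K] {ζ i : K}
variable (h2 : (2 : K) ≠ 0) (h3 : (3 : K) ≠ 0)
  (hζ : ζ ^ 4 + ζ ^ 3 + ζ ^ 2 + ζ + 1 = 0) (hi : 5 * i = 1)

include h2 h3 hζ hi in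
/-- the same integral matrix describes the position of `w₁` relative to `w` on both curves -/
theorem orb_pair {a b a' b' m : K} (hab : a ^ 3 - b ^ 2 ≠ 0) (hab' : a' ^ 3 - b' ^ 2 ≠ 0)
    {w w₁ : K × K} (hw : IsPar a b w) (hw' : IsPar a' b' (Fm m w)) (h : Orb ζ i w w₁) :
    ∃ p q r s : ℤ,
      Pw (short a b) w₁ = p • Pw (short a b) w + q • Pw (short a b) (Sm ζ i w) ∧
      Pw (short a b) (Sm ζ i w₁) = r • Pw (short a b) w + s • Pw (short a b) (Sm ζ i w) ∧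
      Pw (short a' b') (Fm m w₁) =
        p • Pw (short a' b') (Fm m w) + q • Pw (short a' b') (Sm ζ i (Fm m w)) ∧
      Pw (short a' b') (Sm ζ i (Fm m w₁)) =
        r • Pw (short a' b') (Fm m w) + s • Pw (short a' b') (Sm ζ i (Fm m w)) := by
  induction h with
  | refl => exact ⟨1, 0, 0, 1, by simp, by simp, by simp, by simp⟩
  | @T w1 ho ih =>
    obtain ⟨p, q, r, s, e1, e2, e3, e4⟩ := ih
    have hw1 := hw.orb hζ hi ho
    have hw1' := hw'.orb hζ hi (orb_F hζ hi m ho)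
    have hF : Fm m (Tm ζ w1) = Tm ζ (Fm m w1) := by
      unfold Fm Tm
      exact Prod.ext (wu_T ζ _ _ m (zeta_pow hζ)) (wv_T ζ _ _ m (zeta_pow hζ))
    have t1 := eq_sub_of_add_eq (Pw_T h2 h3 hζ hi hab hw1)
    have t2 := eq_sub_of_add_eq (Pw_T h2 h3 hζ hi hab' hw1')
    refine ⟨p - r, q - s, r, s, ?_, ?_, ?_, ?_⟩
    · rw [t1, e1, e2]; module
    · rw [Pw_S_T hζ hi, e2]
    · rw [hF, t2, e3, e4]; module
    · rw [hF, Pw_S_T hζ hi, e4]
  | @S w1 ho ih =>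
    obtain ⟨p, q, r, s, e1, e2, e3, e4⟩ := ih
    have hw1 := hw.orb hζ hi ho
    have hw1' := hw'.orb hζ hi (orb_F hζ hi m ho)
    have hF : Fm m (Sm ζ i w1) = Sm ζ i (Fm m w1) := by
      unfold Fm Sm
      exact Prod.ext (wu_S hζ hi _ _ m) (wv_S hζ hi _ _ m)
    refine ⟨r, s, -p, -q, e2, ?_, ?_, ?_⟩
    · rw [Pw_S_S h2 h3 hζ hi hab hw1, e1]; module
    · rw [hF, e4]
    · rw [hF, Pw_S_S h2 h3 hζ hi hab' hw1', e3]; module
  | @Z w1 κ hκ ho ih =>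
    obtain ⟨p, q, r, s, e1, e2, e3, e4⟩ := ih
    have hF : Fm m (Zm κ w1) = Zm κ (Fm m w1) := by
      unfold Fm Zm
      exact Prod.ext (wu_mul κ _ _ m hκ) (wv_mul κ _ _ m hκ)
    refine ⟨p, q, r, s, ?_, ?_, ?_, ?_⟩
    · rw [Pw_Z _ hκ, e1]
    · rw [Sm_Zm, Pw_Z _ hκ, e2]
    · rw [hF, Pw_Z _ hκ, e3]
    · rw [hF, Sm_Zm, Pw_Z _ hκ, e4]

include h2 h3 hζ hi in
theorem exists_T_pow {a b : K} (hab : a ^ 3 - b ^ 2 ≠ 0) {w : K × K} (hw : IsPar a b w) (n : ℕ) :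
    ∃ w₁, Orb ζ i w w₁ ∧
      Pw (short a b) w₁ = Pw (short a b) w - (n : ℤ) • Pw (short a b) (Sm ζ i w) ∧
      Pw (short a b) (Sm ζ i w₁) = Pw (short a b) (Sm ζ i w) := by
  induction n with
  | zero => exact ⟨w, Orb.refl, by simp, rfl⟩
  | succ n ih =>
    obtain ⟨w1, ho, e1, e2⟩ := ih
    refine ⟨Tm ζ w1, ho.T, ?_, ?_⟩
    · have t1 := eq_sub_of_add_eq (Pw_T h2 h3 hζ hi hab (hw.orb hζ hi ho))
      rw [t1, e1, e2]; push_cast; module
    · rw [Pw_S_T hζ hi, e2]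

include h2 h3 hζ hi in
theorem five_dvd_smul {a b : K} (hab : a ^ 3 - b ^ 2 ≠ 0) {w : K × K} (hw : IsPar a b w)
    {n k : ℤ} (h : (5 : ℤ) ∣ n - k) : n • Pw (short a b) w = k • Pw (short a b) w := by
  obtain ⟨c, hc⟩ := h
  have : n = k + c * 5 := by linarith
  rw [this, add_smul, mul_smul, Pw_five h2 h3 hab hw]
  simp

theorem dvd5 (x : ℤ) (h : ((x : ℤ) : ZMod 5) = 0) : (5 : ℤ) ∣ x :=
  (ZMod.intCast_zmod_eq_zero_iff_dvd x 5).mp h

theorem arith1 (p q : ZMod 5) (hp : p ≠ 0) : ∃ m n : Fin 5, ((m : ℕ) : ZMod 5) = p ∧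
    1 - ((m : ℕ) : ZMod 5) * ((n : ℕ) : ZMod 5) = q := by
  revert p q; decide

theorem arith2 (q : ZMod 5) (hq : q ≠ 0) : ∃ k m : Fin 5, ((k : ℕ) : ZMod 5) = q ∧
    ((k : ℕ) : ZMod 5) * ((m : ℕ) : ZMod 5) = 1 := by
  revert q; decide

include h2 h3 hζ hi in
theorem reach {a b : K} (hab : a ^ 3 - b ^ 2 ≠ 0) {w : K × K} (hw : IsPar a b w)
    (p q : ℤ) (hpq : ¬ ((5 : ℤ) ∣ p ∧ (5 : ℤ) ∣ q)) :
    ∃ w₁, Orb ζ i w w₁ ∧
      Pw (short a b) w₁ = p • Pw (short a b) w + q • Pw (short a b) (Sm ζ i w) := by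
  have hwS := hw.S hζ hi
  -- general computation
  have gen : ∀ m n : ℕ, ∃ w₁, Orb ζ i w w₁ ∧
      Pw (short a b) w₁ = (m : ℤ) • Pw (short a b) w
        + (1 - (m : ℤ) * n) • Pw (short a b) (Sm ζ i w) ∧
      Pw (short a b) (Sm ζ i w₁) = -(Pw (short a b) w
        - (n : ℤ) • Pw (short a b) (Sm ζ i w)) := by
    intro m n
    obtain ⟨w1, ho1, e1, e1'⟩ := exists_T_pow h2 h3 hζ hi hab hw n
    have hw1 := hw.orb hζ hi ho1
    have hw2 := hw1.S hζ hi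
    obtain ⟨w3, ho3, e3, e3'⟩ := exists_T_pow h2 h3 hζ hi hab hw2 m
    refine ⟨w3, (ho1.S).trans ho3, ?_, ?_⟩
    · rw [e3, Pw_S_S h2 h3 hζ hi hab hw1, e1', e1]; module
    · rw [e3', Pw_S_S h2 h3 hζ hi hab hw1, e1]
  by_cases hp : (5 : ℤ) ∣ p
  · have hq : ¬ (5 : ℤ) ∣ q := fun h => hpq ⟨hp, h⟩
    have hq' : (q : ZMod 5) ≠ 0 := fun h => hq ((ZMod.intCast_zmod_eq_zero_iff_dvd q 5).mp h)
    obtain ⟨k, m, hk, hkm⟩ := arith2 (q : ZMod 5) hq'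
    obtain ⟨w3, ho3, e3, e3'⟩ := gen m 0
    have hw3 := hw.orb hζ hi ho3
    obtain ⟨w5, ho5, e5, -⟩ := exists_T_pow h2 h3 hζ hi hab (hw3.S hζ hi) k
    refine ⟨w5, (ho3.S).trans ho5, ?_⟩
    rw [e5, Pw_S_S h2 h3 hζ hi hab hw3, e3', e3]
    have f1 : (5 : ℤ) ∣ ((k : ℕ) : ℤ) * ((m : ℕ) : ℤ) - 1 := by
      apply dvd5
      push_cast
      rw [hkm, sub_self]
    have f2 : (5 : ℤ) ∣ ((k : ℕ) : ℤ) - q := by
      apply dvd5
      push_cast
      rw [hk, sub_self]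
    have g1 := five_dvd_smul h2 h3 hζ hi hab hw (n := ((k : ℕ) : ℤ) * ((m : ℕ) : ℤ) - 1) (k := p)
      (by exact (f1).sub hp)
    have g2 := five_dvd_smul h2 h3 hζ hi hab hwS (n := ((k : ℕ) : ℤ)) (k := q) f2
    rw [← g1, ← g2]
    push_cast
    module
  · have hp' : (p : ZMod 5) ≠ 0 := fun h => hp ((ZMod.intCast_zmod_eq_zero_iff_dvd p 5).mp h)
    obtain ⟨m, n, hm, hmn⟩ := arith1 (p : ZMod 5) (q : ZMod 5) hp'
    obtain ⟨w3, ho3, e3, -⟩ := gen m n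
    refine ⟨w3, ho3, ?_⟩
    have f1 : (5 : ℤ) ∣ ((m : ℕ) : ℤ) - p := by
      apply dvd5
      push_cast
      rw [hm, sub_self]
    have f2 : (5 : ℤ) ∣ (1 - ((m : ℕ) : ℤ) * ((n : ℕ) : ℤ)) - q := by
      apply dvd5
      push_cast
      rw [hmn, sub_self]
    have g1 := five_dvd_smul h2 h3 hζ hi hab hw f1
    have g2 := five_dvd_smul h2 h3 hζ hi hab hwS f2
    rw [e3, g1, g2]

include h2 h3 hζ hi in
theorem indep {a b : K} (hab : a ^ 3 - b ^ 2 ≠ 0) {w : K × K} (hw : IsPar a b w)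
    (p q : ℤ) (h : p • Pw (short a b) w + q • Pw (short a b) (Sm ζ i w) = 0) :
    (5 : ℤ) ∣ p ∧ (5 : ℤ) ∣ q := by
  by_contra hpq
  obtain ⟨w₁, ho, e⟩ := reach h2 h3 hζ hi hab hw p q hpq
  exact Pw_ne_zero h2 h3 hab (hw.orb hζ hi ho) (e.trans h)

include hζ hi in
theorem eq_mul_pow_of_pow_eq (x y : K) (h : x ^ 5 = y ^ 5) : ∃ κ : K, κ ^ 5 = 1 ∧ x = κ * y := by
  by_cases hy : y = 0
  · refine ⟨1, one_pow _, ?_⟩
    rw [hy, zero_pow (by norm_num)] at h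
    rw [hy, mul_zero]
    exact pow_eq_zero_iff (by norm_num) |>.mp h
  · exact ⟨x / y, by rw [div_pow, h, div_self (pow_ne_zero _ hy)], by field_simp⟩

/-- fifth roots of unity are powers of `ζ` -/
theorem root_eq_pow (hζ : ζ ^ 4 + ζ ^ 3 + ζ ^ 2 + ζ + 1 = 0) (κ : K) (hκ : κ ^ 5 = 1) :
    ∃ n : ℕ, κ = ζ ^ n := by
  have h5 : ζ ^ 5 = 1 := zeta_pow hζ
  have : (κ - 1) * (κ - ζ) * (κ - ζ ^ 2) * (κ - ζ ^ 3) * (κ - ζ ^ 4) = κ ^ 5 - 1 := by
    linear_combination (ζ^6*κ - ζ^6 - ζ^5*κ^2 + ζ^5 + ζ^3*κ^3 - ζ^3*κ^2 + ζ*κ^3 - ζ - κ^4 + 1) * hζ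
  rw [hκ, sub_self] at this
  simp only [mul_eq_zero, sub_eq_zero] at this
  rcases this with (((h | h) | h) | h) | h
  · exact ⟨0, by simpa using h⟩
  · exact ⟨1, by simpa using h⟩
  · exact ⟨2, h⟩
  · exact ⟨3, h⟩
  · exact ⟨4, h⟩

theorem orb_T_pow (w : K × K) (n : ℕ) : Orb ζ i w (ζ ^ n * w.1, w.2) := by
  induction n with
  | zero =>
    have : ((ζ ^ 0 * w.1, w.2) : K × K) = w := by simp
    rw [this]; exact Orb.refl
  | succ n ih =>
    have : ((ζ ^ (n + 1) * w.1, w.2) : K × K) = Tm ζ (ζ ^ n * w.1, w.2) := by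
      unfold Tm; exact Prod.ext (by simp only; ring) rfl
    rw [this]; exact ih.T

include h2 h3 hζ hi in
/-- parameters with the same Tate parameters are in the same orbit -/
theorem orb_of_eq {w w₁ : K × K} (hA : kal w.1 w.2 = kal w₁.1 w₁.2)
    (hB : kbe w.1 w.2 = kbe w₁.1 w₁.2) : Orb ζ i w w₁ := by
  have h5 : (5 : K) ≠ 0 := by rintro h0; rw [h0, zero_mul] at hi; exact zero_ne_one hi
  have hi0 : i ≠ 0 := by rintro h0; rw [h0, mul_zero] at hi; exact zero_ne_one hi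
  have hSS := Sm_Sm hζ hi w
  have hSS₁ := Sm_Sm hζ hi w₁
  set y := Sm ζ i w with hy
  set y₁ := Sm ζ i w₁ with hy₁
  have eA : kal (Sm ζ i y).1 (Sm ζ i y).2 = kal (Sm ζ i y₁).1 (Sm ζ i y₁).2 := by
    rw [hSS, hSS₁]; simp only [kal_neg, hA]
  have eB : kbe (Sm ζ i y).1 (Sm ζ i y).2 = kbe (Sm ζ i y₁).1 (Sm ζ i y₁).2 := by
    rw [hSS, hSS₁]; simp only [kbe_neg, hB]
  unfold Sm at eA eB
  simp only [kal_S hζ hi, kbe_S hζ hi] at eA eB
  have eA' := mul_left_cancel₀ hi0 eA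
  have eB' := mul_left_cancel₀ hi0 eB
  have hc := sq_c ζ hζ
  have h125 : (125 : K) ≠ 0 := by
    have : (125 : K) = 5 ^ 3 := by norm_num
    rw [this]; exact pow_ne_zero _ h5
  unfold zA at eA'
  unfold zB at eB'
  have eU : y₁.1 ^ 5 = y.1 ^ 5 := by
    apply mul_left_cancel₀ h125
    linear_combination (cC1 ζ) * eA' + (cC2 ζ) * eB' + (y₁.1 ^ 5 - y.1 ^ 5) * hc
  have eV : y₁.2 ^ 5 = y.2 ^ 5 := by
    apply mul_left_cancel₀ h125
    linear_combination (cC2 ζ) * eA' - (cC1 ζ) * eB' + (y₁.2 ^ 5 - y.2 ^ 5) * hc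
  obtain ⟨κ₁, hκ₁, e₁⟩ := eq_mul_pow_of_pow_eq hζ hi _ _ eU
  obtain ⟨κ₂, hκ₂, e₂⟩ := eq_mul_pow_of_pow_eq hζ hi _ _ eV
  have hκ₂0 : κ₂ ≠ 0 := by rintro rfl; simp at hκ₂
  obtain ⟨n, hn⟩ := root_eq_pow hζ (κ₁ / κ₂) (by rw [div_pow, hκ₁, hκ₂, div_one])
  have hyy : y₁ = Zm κ₂ (ζ ^ n * y.1, y.2) := by
    unfold Zm
    refine Prod.ext ?_ ?_
    · simp only
      rw [e₁, ← hn]; field_simp
    · exact e₂
  have o1 : Orb ζ i w y := Orb.refl.S
  have o2 : Orb ζ i y y₁ := by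
    rw [hyy]; exact (orb_T_pow y n).Z κ₂ hκ₂
  have o3 : Orb ζ i y₁ w₁ := by
    have hh : Sm ζ i (Sm ζ i (Sm ζ i y₁)) = w₁ := by
      rw [Sm_Sm hζ hi (Sm ζ i y₁), hSS₁]; simp
    have : Orb ζ i y₁ (Sm ζ i (Sm ζ i (Sm ζ i y₁))) := Orb.refl.S.S.S
    rwa [hh] at this
  exact (o1.trans o2).trans o3

include h2 h3 hζ hi in
/-- any two parameters of the same curve are in the same orbit -/
theorem complete [IsAlgClosed K] {a b : K} (hab : a ^ 3 - b ^ 2 ≠ 0) {w w₁ : K × K}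
    (hw : IsPar a b w) (hw₁ : IsPar a b w₁) : Orb ζ i w w₁ := by
  have h5 : (5 : K) ≠ 0 := by rintro h0; rw [h0, zero_mul] at hi; exact zero_ne_one hi
  have hΔ : (short a b).Δ ≠ 0 := by
    rw [short_Δ]
    exact mul_ne_zero (mul_ne_zero (pow_ne_zero _ h2) (pow_ne_zero _ h3)) hab
  have hwS := hw.S hζ hi
  have hcard := H42.natCard_torsion (short a b) hΔ (n := 5) (by exact_mod_cast h5)
  have hfin : Finite (Submodule.torsionBy ℤ (short a b).toAffine.Point ((5 : ℕ) : ℤ)) :=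
    H42.finite_torsion (short a b) hΔ (by norm_num)
  let f : ZMod 5 × ZMod 5 → Submodule.torsionBy ℤ (short a b).toAffine.Point ((5 : ℕ) : ℤ) :=
    fun x => ⟨((x.1.val : ℕ) : ℤ) • Pw (short a b) w
      + ((x.2.val : ℕ) : ℤ) • Pw (short a b) (Sm ζ i w), by
      rw [Submodule.mem_torsionBy_iff]
      push_cast
      rw [smul_add, smul_comm, Pw_five h2 h3 hab hw, smul_comm, Pw_five h2 h3 hab hwS]
      simp⟩
  have hinj : Function.Injective f := by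
    intro x y hxy
    have hxy' := congrArg Subtype.val hxy
    simp only [f] at hxy'
    have h0 : (((x.1.val : ℕ) : ℤ) - ((y.1.val : ℕ) : ℤ)) • Pw (short a b) w
        + (((x.2.val : ℕ) : ℤ) - ((y.2.val : ℕ) : ℤ)) • Pw (short a b) (Sm ζ i w) = 0 := by
      rw [sub_smul, sub_smul]
      have := sub_eq_zero.mpr hxy'
      rw [← this]; abel
    obtain ⟨d1, d2⟩ := indep h2 h3 hζ hi hab hw _ _ h0
    have g1 := (ZMod.intCast_zmod_eq_zero_iff_dvd _ 5).mpr d1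
    have g2 := (ZMod.intCast_zmod_eq_zero_iff_dvd _ 5).mpr d2
    push_cast at g1 g2
    simp only [ZMod.natCast_val, ZMod.cast_id', id_eq] at g1 g2
    exact Prod.ext (sub_eq_zero.mp g1) (sub_eq_zero.mp g2)
  have hbij : Function.Bijective f := by
    apply hinj.bijective_of_nat_card_le
    rw [hcard]
    simp
  obtain ⟨x, hx⟩ := hbij.2 ⟨Pw (short a b) w₁, by
    rw [Submodule.mem_torsionBy_iff]
    exact_mod_cast Pw_five h2 h3 hab hw₁⟩
  have hx' : ((x.1.val : ℕ) : ℤ) • Pw (short a b) w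
      + ((x.2.val : ℕ) : ℤ) • Pw (short a b) (Sm ζ i w) = Pw (short a b) w₁ :=
    congrArg Subtype.val hx
  have hnot : ¬ ((5 : ℤ) ∣ ((x.1.val : ℕ) : ℤ) ∧ (5 : ℤ) ∣ ((x.2.val : ℕ) : ℤ)) := by
    rintro ⟨d1, d2⟩
    apply Pw_ne_zero h2 h3 hab hw₁
    rw [← hx', five_dvd_smul h2 h3 hζ hi hab hw (k := 0) (by simpa using d1),
      five_dvd_smul h2 h3 hζ hi hab hwS (k := 0) (by simpa using d2)]
    simp
  obtain ⟨w₂, ho, e⟩ := reach h2 h3 hζ hi hab hw _ _ hnot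
  have hw₂ := hw.orb hζ hi ho
  have e' : Pw (short a b) w₂ = Pw (short a b) w₁ := e.trans hx'
  obtain ⟨hA, hB⟩ := tpt_inj h2 h3 hab (tk4 hw₂) (tk6 hw₂) (tk4 hw₁) (tk6 hw₁) e'
  exact ho.trans (orb_of_eq h2 h3 hζ hi hA hB)

end Orb

section Final

variable {K : Type*} [Field K] [DecidableEq K]

theorem map_k4 (σ : K →+* K) (u v : K) : k4 (σ u) (σ v) = σ (k4 u v) := by
  unfold k4; simp [map_ofNat]
theorem map_k6 (σ : K →+* K) (u v : K) : k6 (σ u) (σ v) = σ (k6 u v) := by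
  unfold k6; simp [map_ofNat]
theorem map_kal (σ : K →+* K) (u v : K) : kal (σ u) (σ v) = σ (kal u v) := by
  unfold kal; simp [map_ofNat]
theorem map_kbe (σ : K →+* K) (u v : K) : kbe (σ u) (σ v) = σ (kbe u v) := by
  unfold kbe; simp [map_ofNat]
theorem map_wu (σ : K →+* K) (u v m : K) (hm : σ m = m) : wu (σ u) (σ v) m = σ (wu u v m) := by
  unfold wu kDv; simp [map_ofNat, hm]
theorem map_wv (σ : K →+* K) (u v m : K) (hm : σ m = m) : wv (σ u) (σ v) m = σ (wv u v m) := by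
  unfold wv kDu; simp [map_ofNat, hm]

variable (h2 : (2 : K) ≠ 0) (h3 : (3 : K) ≠ 0)

include h2 h3 in
theorem map_Pw {a b : K} (hab : a ^ 3 - b ^ 2 ≠ 0) (σ : K →+* K)
    (Φ : (short a b).toAffine.Point →+ (short a b).toAffine.Point)
    (hΦ : ∀ x y (h : (short a b).toAffine.Nonsingular x y),
      ∃ h', Φ (.some x y h) = .some (σ x) (σ y) h')
    {w : K × K} (hw : IsPar a b w) (hw' : IsPar a b (σ w.1, σ w.2)) :
    Φ (Pw (short a b) w) = Pw (short a b) (σ w.1, σ w.2) := by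
  have n1 := tpt_nonsing h2 h3 hab (tk4 hw) (tk6 hw)
  have n2 := tpt_nonsing h2 h3 hab (tk4 hw') (tk6 hw')
  unfold Pw tpt
  rw [pt_eq n1, pt_eq n2]
  obtain ⟨h', e⟩ := hΦ _ _ n1
  rw [e, Affine.Point.some.injEq]
  simp only [map_kal, map_kbe]
  constructor <;> simp [map_ofNat]

include h2 h3 in
theorem transfer [IsAlgClosed K] (h5 : (5 : K) ≠ 0) (σ : K →+* K) {a b a' b' m : K}
    (hab : a ^ 3 - b ^ 2 ≠ 0) (hD : dHat a b m ≠ 0) (ha' : a' = c4Hat a b m)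
    (hb' : 2 * b' = c6Hat2 a b m) (σa : σ a = a) (σb : σ b = b) (σm : σ m = m)
    {W W' : WeierstrassCurve K} (hW : W = short a b) (hW' : W' = short a' b')
    (Φ : W.toAffine.Point →+ W.toAffine.Point)
    (hΦ : ∀ x y (h : W.toAffine.Nonsingular x y),
      ∃ h', Φ (.some x y h) = .some (σ x) (σ y) h')
    (Φ' : W'.toAffine.Point →+ W'.toAffine.Point)
    (hΦ' : ∀ x y (h : W'.toAffine.Nonsingular x y),
      ∃ h', Φ' (.some x y h) = .some (σ x) (σ y) h') :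
    ∃ (P : W.toAffine.Point) (P' : W'.toAffine.Point), (∀ n : ℤ, n • Φ' P' = 0 → (5 : ℤ) ∣ n) ∧
      ∀ s t : ℤ, Φ (Φ P) - s • Φ P + t • P = 0 → Φ' (Φ' P') - s • Φ' P' + t • P' = 0 := by
  subst hW
  subst hW'
  obtain ⟨u, v, h4, h6⟩ := exists_param h2 h3 h5 a b (fun h => hab (by rw [h, sub_self]))
  -- a primitive fifth root of unity
  obtain ⟨ζ, hζ⟩ : ∃ ζ : K, ζ ^ 4 + ζ ^ 3 + ζ ^ 2 + ζ + 1 = 0 := by
    have hdeg : (Polynomial.X ^ 4 + Polynomial.X ^ 3 + Polynomial.X ^ 2 + Polynomial.X + 1 :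
        Polynomial K).natDegree = 4 := by compute_degree!
    obtain ⟨ζ, hζ⟩ := IsAlgClosed.exists_root (Polynomial.X ^ 4 + Polynomial.X ^ 3
      + Polynomial.X ^ 2 + Polynomial.X + 1 : Polynomial K) (by
        intro h0
        have h1 := Polynomial.natDegree_eq_zero_iff_degree_le_zero.mpr h0.le
        rw [hdeg] at h1
        exact absurd h1 (by norm_num))
    exact ⟨ζ, by simpa using hζ⟩
  have hi : (5 : K) * 5⁻¹ = 1 := mul_inv_cancel₀ h5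
  set i : K := 5⁻¹
  have hw : IsPar a b (u, v) := ⟨h4, h6⟩
  have hkD : kD u v ≠ 0 := by
    intro h0
    have := k_syzygy u v
    rw [h4, h6, h0] at this
    apply hab; rw [this]; ring
  have hw' : IsPar a' b' (Fm m (u, v)) := by
    refine ⟨?_, ?_⟩
    · have := k4_w h2 h3 u v m hkD
      rw [h4, h6] at this
      rw [ha']; exact this
    · have := k6_w h2 h3 u v m hkD
      rw [h4, h6, ← hb'] at this
      exact mul_left_cancel₀ h2 this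
  have hab' : a' ^ 3 - b' ^ 2 ≠ 0 := by
    intro h0
    have hs := syzygy a b m
    rw [← ha', ← hb'] at hs
    have h40 : (4 : K) ≠ 0 := by
      have : (4 : K) = 2 ^ 2 := by norm_num
      rw [this]; exact pow_ne_zero _ h2
    have : 4 * (a ^ 3 - b ^ 2) * dHat a b m ^ 5 = 0 := by
      rw [← hs]; linear_combination 4 * h0
    exact (mul_ne_zero (mul_ne_zero h40 hab) (pow_ne_zero _ hD)) this
  have hw1 : IsPar a b (σ u, σ v) :=
    ⟨by rw [map_k4, h4, σa], by rw [map_k6, h6, σb]⟩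
  have hw2 : IsPar a b (σ (σ u), σ (σ v)) :=
    ⟨by rw [map_k4, map_k4, h4, σa, σa], by rw [map_k6, map_k6, h6, σb, σb]⟩
  have o1 := complete h2 h3 hζ hi hab hw hw1
  have o2 := complete h2 h3 hζ hi hab hw hw2
  have hF1 : Fm m (σ u, σ v) = (σ (Fm m (u, v)).1, σ (Fm m (u, v)).2) := by
    unfold Fm; simp only [map_wu σ u v m σm, map_wv σ u v m σm]
  have hF2 : Fm m (σ (σ u), σ (σ v)) = (σ (σ (Fm m (u, v)).1), σ (σ (Fm m (u, v)).2)) := by
    unfold Fm; simp only [map_wu σ _ _ m σm, map_wv σ _ _ m σm]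
  obtain ⟨p1, q1, -, -, e1, -, e1', -⟩ := orb_pair h2 h3 hζ hi hab hab' hw hw' o1
  obtain ⟨p2, q2, -, -, e2, -, e2', -⟩ := orb_pair h2 h3 hζ hi hab hab' hw hw' o2
  have hw'1 : IsPar a' b' (Fm m (σ u, σ v)) := hw'.orb hζ hi (orb_F hζ hi m o1)
  have hw'2 : IsPar a' b' (Fm m (σ (σ u), σ (σ v))) := hw'.orb hζ hi (orb_F hζ hi m o2)
  have f1 : Φ (Pw (short a b) (u, v)) = Pw (short a b) (σ u, σ v) :=
    map_Pw h2 h3 hab σ Φ hΦ hw hw1
  have f2 : Φ (Pw (short a b) (σ u, σ v)) = Pw (short a b) (σ (σ u), σ (σ v)) :=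
    map_Pw h2 h3 hab σ Φ hΦ hw1 hw2
  have f1' : Φ' (Pw (short a' b') (Fm m (u, v))) = Pw (short a' b') (Fm m (σ u, σ v)) := by
    rw [hF1]
    exact map_Pw h2 h3 hab' σ Φ' hΦ' hw' (by rw [← hF1]; exact hw'1)
  have f2' : Φ' (Pw (short a' b') (Fm m (σ u, σ v)))
      = Pw (short a' b') (Fm m (σ (σ u), σ (σ v))) := by
    have : Fm m (σ (σ u), σ (σ v)) = (σ (Fm m (σ u, σ v)).1, σ (Fm m (σ u, σ v)).2) := by
      rw [hF2, hF1]
    rw [this]
    exact map_Pw h2 h3 hab' σ Φ' hΦ' hw'1 (by rw [← this]; exact hw'2)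
  refine ⟨Pw (short a b) (u, v), Pw (short a' b') (Fm m (u, v)), ?_, ?_⟩
  · intro n hn
    rw [f1'] at hn
    refine (indep h2 h3 hζ hi hab' hw'1 n 0 ?_).1
    rw [hn]; simp
  · intro s t hst
    rw [f1, f2, e1, e2] at hst
    have hst' : (p2 - s * p1 + t) • Pw (short a b) (u, v)
        + (q2 - s * q1) • Pw (short a b) (Sm ζ i (u, v)) = 0 := by
      rw [← hst]; module
    obtain ⟨d1, d2⟩ := indep h2 h3 hζ hi hab hw _ _ hst'
    rw [f1', f2', e1', e2']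
    have g1 := five_dvd_smul h2 h3 hζ hi hab' hw' (n := p2 - s * p1 + t) (k := 0)
      (by simpa using d1)
    have g2 := five_dvd_smul h2 h3 hζ hi hab' (hw'.S hζ hi) (n := q2 - s * q1) (k := 0)
      (by simpa using d2)
    have : p2 • Pw (short a' b') (Fm m (u, v)) + q2 • Pw (short a' b') (Sm ζ i (Fm m (u, v)))
        - s • (p1 • Pw (short a' b') (Fm m (u, v)) + q1 • Pw (short a' b') (Sm ζ i (Fm m (u, v))))
        + t • Pw (short a' b') (Fm m (u, v))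
        = (p2 - s * p1 + t) • Pw (short a' b') (Fm m (u, v))
          + (q2 - s * q1) • Pw (short a' b') (Sm ζ i (Fm m (u, v))) := by module
    rw [this, g1, g2]; simp

end Final

end Fermat.Agent.H52
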