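import Fermat.Agent.H98Short
import Fermat.Prelude.Def_FLTPrelim_Modularity

/-!
# The trace of Frobenius at `2` from `c₄` and `c₆`

LT-X, block X1: for an integral curve with good reduction at 2, `a_2` is read off from
`c₄ mod 32`, `c₆ mod 64`.
-/

set_option autoImplicit false

open WeierstrassCurve

namespace Fermat.Agent.H52

/-- integral change of variables `(1, r, s, t)` -/
def vc (r s t : ℤ) : VariableChange ℤ := ⟨1, r, s, t⟩

theorem map_vc_smul (W : WeierstrassCurve ℤ) (r s t : ℤ) {R : Type*} [CommRing R] (f : ℤ →+* R) :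
    (vc r s t • W).map f = (vc r s t).map f • W.map f :=
  (WeierstrassCurve.map_variableChange W (vc r s t) f).symm

theorem ap_vc (W : WeierstrassCurve ℤ) (r s t : ℤ) (p : ℕ) [Fact p.Prime] :
    (vc r s t • W).apOfModel p = W.apOfModel p := by
  classical
  unfold WeierstrassCurve.apOfModel WeierstrassCurve.reductionMod
    WeierstrassCurve.traceOfFrobenius WeierstrassCurve.card
  rw [map_vc_smul]
  rw [Nat.card_congr (Fermat.Agent.H74.pointEquiv (W.map (Int.castRingHom (ZMod p)))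
    ((vc r s t).map (Int.castRingHom (ZMod p)))).toEquiv]

theorem vc_c4 (W : WeierstrassCurve ℤ) (r s t : ℤ) : (vc r s t • W).c₄ = W.c₄ := by
  rw [WeierstrassCurve.variableChange_c₄]; simp [vc]

theorem vc_c6 (W : WeierstrassCurve ℤ) (r s t : ℤ) : (vc r s t • W).c₆ = W.c₆ := by
  rw [WeierstrassCurve.variableChange_c₆]; simp [vc]

theorem vc_Δ (W : WeierstrassCurve ℤ) (r s t : ℤ) : (vc r s t • W).Δ = W.Δ := by
  rw [WeierstrassCurve.variableChange_Δ]; simp [vc]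

/-- normal form of a curve with good reduction at `2` -/
theorem exists_normal (W : WeierstrassCurve ℤ) (hΔ : ¬ (2 : ℤ) ∣ W.Δ) :
    ∃ r s t : ℤ, ((vc r s t • W).a₁ = 1 ∧ (vc r s t • W).a₃ = 0) ∨
      ((vc r s t • W).a₁ = 0 ∧ (vc r s t • W).a₃ = 1) := by
  rcases Int.even_or_odd W.a₁ with ⟨k, hk⟩ | ⟨k, hk⟩
  · -- supersingular
    have h3 : Odd W.a₃ := by
      rw [← Int.not_even_iff_odd]
      rintro ⟨j, hj⟩
      apply hΔ
      have e : W.Δ = -W.b₂ ^ 2 * W.b₈ - 8 * W.b₄ ^ 3 - 27 * W.b₆ ^ 2 + 9 * W.b₂ * W.b₄ * W.b₆ := rfl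
      rw [e]
      unfold WeierstrassCurve.b₂ WeierstrassCurve.b₄ WeierstrassCurve.b₆ WeierstrassCurve.b₈
      rw [hk, hj]
      ring_nf
      omega
    obtain ⟨j, hj⟩ := h3
    refine ⟨0, -k, -j, Or.inr ⟨?_, ?_⟩⟩
    · simp only [vc, variableChange_a₁, inv_one, Units.val_one]
      rw [hk]; ring
    · simp only [vc, variableChange_a₃, inv_one, Units.val_one]
      rw [hj, hk]; ring
  · refine ⟨-W.a₃, -k, k * W.a₃, Or.inl ⟨?_, ?_⟩⟩
    · simp only [vc, variableChange_a₁, inv_one, Units.val_one]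
      rw [hk]; ring
    · simp only [vc, variableChange_a₃, inv_one, Units.val_one]
      rw [hk]; ring


/-- number of affine solutions over `𝔽₂` -/
def sol2 (a1 a2 a3 a4 a6 : ZMod 2) : Finset (ZMod 2 × ZMod 2) :=
  Finset.univ.filter fun xy => xy.2 ^ 2 + a1 * xy.1 * xy.2 + a3 * xy.2 =
    xy.1 ^ 3 + a2 * xy.1 ^ 2 + a4 * xy.1 + a6

theorem card_two (W : WeierstrassCurve (ZMod 2)) (hΔ : W.Δ ≠ 0) :
    Nat.card W.toAffine.Point = (sol2 W.a₁ W.a₂ W.a₃ W.a₄ W.a₆).card + 1 := by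
  classical
  have hΔ' : W.toAffine.Δ ≠ 0 := hΔ
  let e : W.toAffine.Point ≃ Option (sol2 W.a₁ W.a₂ W.a₃ W.a₄ W.a₆) :=
    { toFun := fun P => match P with
        | 0 => none
        | .some x y h => some ⟨(x, y), by
            have h' := (Affine.equation_iff_nonsingular_of_Δ_ne_zero hΔ').mpr h
            rw [Affine.equation_iff] at h'
            simp only [sol2, Finset.mem_filter, Finset.mem_univ, true_and]
            exact h'⟩
      invFun := fun o => match o with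
        | none => 0
        | some q => .some q.1.1 q.1.2 (by
            rw [← Affine.equation_iff_nonsingular_of_Δ_ne_zero hΔ', Affine.equation_iff]
            have := q.2
            simp only [sol2, Finset.mem_filter, Finset.mem_univ, true_and] at this
            exact this)
      left_inv := by rintro (_ | _) <;> rfl
      right_inv := by rintro (_ | _) <;> rfl }
  rw [Nat.card_congr e, Nat.card_eq_fintype_card, Fintype.card_option, Fintype.card_coe]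

theorem sol2_ord : ∀ a2 a4 a6 : ZMod 2, a4 + a6 = 1 →
    ((a2 = 0 → (sol2 1 a2 0 a4 a6).card = 3) ∧ (a2 = 1 → (sol2 1 a2 0 a4 a6).card = 1)) := by
  unfold sol2; decide

theorem sol2_ss : ∀ a2 a4 a6 : ZMod 2,
    ((a2 + a4 = 0 → (sol2 0 a2 1 a4 a6).card = 2) ∧
     (a2 + a4 = 1 → a6 = 0 → (sol2 0 a2 1 a4 a6).card = 4) ∧
     (a2 + a4 = 1 → a6 = 1 → (sol2 0 a2 1 a4 a6).card = 0)) := by
  unfold sol2; decide

/-- `a_2` in terms of the number of affine points -/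
theorem ap_two_eq (W : WeierstrassCurve ℤ) (hΔ : ¬ (2 : ℤ) ∣ W.Δ) :
    W.apOfModel 2 = 2 - ((sol2 (W.a₁ : ZMod 2) (W.a₂ : ZMod 2) (W.a₃ : ZMod 2) (W.a₄ : ZMod 2)
      (W.a₆ : ZMod 2)).card : ℤ) := by
  have hΔ2 : (W.reductionMod 2).Δ ≠ 0 := by
    unfold WeierstrassCurve.reductionMod
    rw [WeierstrassCurve.map_Δ]
    intro h
    apply hΔ
    have := (ZMod.intCast_zmod_eq_zero_iff_dvd W.Δ 2).mp (by simpa using h)
    exact_mod_cast this
  have h := card_two (W.reductionMod 2) hΔ2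
  unfold WeierstrassCurve.apOfModel WeierstrassCurve.traceOfFrobenius WeierstrassCurve.card
  rw [h]
  have hc : Nat.card (ZMod 2) = 2 := Nat.card_zmod 2
  rw [hc]
  have e : sol2 (W.reductionMod 2).a₁ (W.reductionMod 2).a₂ (W.reductionMod 2).a₃
      (W.reductionMod 2).a₄ (W.reductionMod 2).a₆ = sol2 (W.a₁ : ZMod 2) (W.a₂ : ZMod 2)
      (W.a₃ : ZMod 2) (W.a₄ : ZMod 2) (W.a₆ : ZMod 2) := by
    unfold WeierstrassCurve.reductionMod
    simp
  rw [e]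
  push_cast; ring

/-- the five possible reductions at `2` -/
inductive RedTwo (c4 c6 a : ℤ) : Prop
  | ord_neg (h4 : c4 % 2 = 1) (h6 : c6 % 8 = 7) (ha : a = -1)
  | ord_pos (h4 : c4 % 2 = 1) (h6 : c6 % 8 = 3) (ha : a = 1)
  | ss_zero (h4 : c4 % 32 = 0) (h6 : c6 % 32 = 8) (ha : a = 0)
  | ss_neg (h4 : c4 % 32 = 16) (h6 : c6 % 64 = 40) (ha : a = -2)
  | ss_pos (h4 : c4 % 32 = 16) (h6 : c6 % 64 = 8) (ha : a = 2)

theorem cast_two_cases (z : ℤ) : (z % 2 = 0 ∧ (z : ZMod 2) = 0) ∨ (z % 2 = 1 ∧ (z : ZMod 2) = 1) := by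
  rcases Int.emod_two_eq_zero_or_one z with h | h
  · left
    refine ⟨h, (ZMod.intCast_zmod_eq_zero_iff_dvd z 2).mpr (by push_cast; omega)⟩
  · right
    refine ⟨h, ?_⟩
    have : ((z - 1 : ℤ) : ZMod 2) = 0 :=
      (ZMod.intCast_zmod_eq_zero_iff_dvd (z - 1) 2).mpr (by push_cast; omega)
    push_cast at this
    exact sub_eq_zero.mp this

theorem redTwo_normal (W : WeierstrassCurve ℤ) (hΔ : ¬ (2 : ℤ) ∣ W.Δ)
    (h : (W.a₁ = 1 ∧ W.a₃ = 0) ∨ (W.a₁ = 0 ∧ W.a₃ = 1)) :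
    RedTwo W.c₄ W.c₆ (W.apOfModel 2) := by
  have ap := ap_two_eq W hΔ
  have eΔ : W.Δ = -W.b₂ ^ 2 * W.b₈ - 8 * W.b₄ ^ 3 - 27 * W.b₆ ^ 2 + 9 * W.b₂ * W.b₄ * W.b₆ := rfl
  have ec4 : W.c₄ = W.b₂ ^ 2 - 24 * W.b₄ := rfl
  have ec6 : W.c₆ = -W.b₂ ^ 3 + 36 * W.b₂ * W.b₄ - 216 * W.b₆ := rfl
  rw [WeierstrassCurve.b₂, WeierstrassCurve.b₄, WeierstrassCurve.b₆, WeierstrassCurve.b₈] at eΔ
  rw [WeierstrassCurve.b₂, WeierstrassCurve.b₄] at ec4
  rw [WeierstrassCurve.b₂, WeierstrassCurve.b₄, WeierstrassCurve.b₆] at ec6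
  rcases h with ⟨h1, h3⟩ | ⟨h1, h3⟩
  · rw [h1, h3] at ap eΔ ec4 ec6
    have hodd : (W.a₄ + W.a₆) % 2 = 1 := by
      by_contra hc
      apply hΔ
      rw [eΔ]
      rcases Int.even_or_odd W.a₄ with ⟨k, hk⟩ | ⟨k, hk⟩
      · have h6 : ∃ j, W.a₆ = 2 * j := ⟨W.a₆ / 2, by omega⟩
        obtain ⟨j, hj⟩ := h6
        rw [hk, hj]; ring_nf; omega
      · have h6 : ∃ j, W.a₆ = 2 * j + 1 := ⟨W.a₆ / 2, by omega⟩
        obtain ⟨j, hj⟩ := h6
        rw [hk, hj]; ring_nf; omega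
    have h46 : (W.a₄ : ZMod 2) + (W.a₆ : ZMod 2) = 1 := by
      rcases cast_two_cases (W.a₄ + W.a₆) with ⟨h, _⟩ | ⟨_, h⟩
      · omega
      · push_cast at h; exact h
    obtain ⟨s0, s1⟩ := sol2_ord (W.a₂ : ZMod 2) (W.a₄ : ZMod 2) (W.a₆ : ZMod 2) h46
    push_cast at ap
    rcases cast_two_cases W.a₂ with ⟨h2, h2'⟩ | ⟨h2, h2'⟩
    · rw [s0 h2'] at ap
      obtain ⟨k, hk⟩ : ∃ k, W.a₂ = 2 * k := ⟨W.a₂ / 2, by omega⟩
      refine .ord_neg ?_ ?_ (by rw [ap]; norm_num)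
      · rw [ec4, hk]; ring_nf; omega
      · rw [ec6, hk]; ring_nf; omega
    · rw [s1 h2'] at ap
      obtain ⟨k, hk⟩ : ∃ k, W.a₂ = 2 * k + 1 := ⟨W.a₂ / 2, by omega⟩
      refine .ord_pos ?_ ?_ (by rw [ap]; norm_num)
      · rw [ec4, hk]; ring_nf; omega
      · rw [ec6, hk]; ring_nf; omega
  · rw [h1, h3] at ap eΔ ec4 ec6
    push_cast at ap
    obtain ⟨s0, s1, s2⟩ := sol2_ss (W.a₂ : ZMod 2) (W.a₄ : ZMod 2) (W.a₆ : ZMod 2)
    rcases cast_two_cases (W.a₂ + W.a₄) with ⟨h, h'⟩ | ⟨h, h'⟩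
    · push_cast at h'
      rw [s0 h'] at ap
      refine .ss_zero ?_ ?_ (by rw [ap]; norm_num)
      · obtain ⟨j, hj⟩ : ∃ j, W.a₄ = 2 * j - W.a₂ := ⟨(W.a₂ + W.a₄) / 2, by omega⟩
        rcases Int.even_or_odd W.a₂ with ⟨k, hk⟩ | ⟨k, hk⟩
        · rw [ec4, hj, hk]; ring_nf; omega
        · rw [ec4, hj, hk]; ring_nf; omega
      · rw [ec6]; ring_nf; omega
    · push_cast at h'
      obtain ⟨j, hj⟩ : ∃ j, W.a₄ = 2 * j + 1 - W.a₂ := ⟨(W.a₂ + W.a₄) / 2, by omega⟩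
      have h4 : W.c₄ % 32 = 16 := by
        rcases Int.even_or_odd W.a₂ with ⟨k, hk⟩ | ⟨k, hk⟩
        · rw [ec4, hj, hk]; ring_nf; omega
        · rw [ec4, hj, hk]; ring_nf; omega
      rcases cast_two_cases W.a₆ with ⟨h6, h6'⟩ | ⟨h6, h6'⟩
      · rw [s1 h' h6'] at ap
        refine .ss_neg h4 ?_ (by rw [ap]; norm_num)
        obtain ⟨i, hi⟩ : ∃ i, W.a₆ = 2 * i := ⟨W.a₆ / 2, by omega⟩
        rcases Int.even_or_odd W.a₂ with ⟨k, hk⟩ | ⟨k, hk⟩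
        · rw [ec6, hj, hk, hi]; ring_nf; omega
        · rw [ec6, hj, hk, hi]; ring_nf; omega
      · rw [s2 h' h6'] at ap
        refine .ss_pos h4 ?_ (by rw [ap]; norm_num)
        obtain ⟨i, hi⟩ : ∃ i, W.a₆ = 2 * i + 1 := ⟨W.a₆ / 2, by omega⟩
        rcases Int.even_or_odd W.a₂ with ⟨k, hk⟩ | ⟨k, hk⟩
        · rw [ec6, hj, hk, hi]; ring_nf; omega
        · rw [ec6, hj, hk, hi]; ring_nf; omega

/-- for an integral curve with good reduction at `2`, `a_2` is read off from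
`c₄ mod 32`, `c₆ mod 64`. -/
theorem redTwo (W : WeierstrassCurve ℤ) (hΔ : ¬ (2 : ℤ) ∣ W.Δ) :
    RedTwo W.c₄ W.c₆ (W.apOfModel 2) := by
  obtain ⟨r, s, t, h⟩ := exists_normal W hΔ
  have hΔ' : ¬ (2 : ℤ) ∣ (vc r s t • W).Δ := by rw [vc_Δ]; exact hΔ
  have := redTwo_normal (vc r s t • W) hΔ' h
  rwa [vc_c4, vc_c6, ap_vc W r s t 2] at this

end Fermat.Agent.H52
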