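import Fermat.Agent.H53Matrix

set_option autoImplicit false

noncomputable section

open scoped TensorProduct
open IsLocalRing

namespace Fermat.Agent.H53

/-- A natural conjugation-equivariant family of matrices attached to a matrix representation. -/
structure NatFam (ι : Type) where
  F : ∀ {A : Type} [CommRing A], (GQ →* M2 A) → ι → M2 A
  map : ∀ {A B : Type} [CommRing A] [CommRing B] (φ : A →+* B) (r : GQ →* M2 A) (i : ι),
    F (mapMat φ r) i = (F r i).map φ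
  conj : ∀ {A : Type} [CommRing A] (r r' : GQ →* M2 A) (u : M2 A), IsUnit u →
    (∀ σ, u * r σ = r' σ * u) → ∀ i, u * F r i = F r' i * u

/-- `σ` acts on the `p^n`-th roots of unity by raising to the power `a` -/
def Cyc (p n : ℕ) (σ : GQ) (a : ℕ) : Prop :=
  ∀ μ : AlgebraicClosure ℚ, μ ^ p ^ n = 1 → σ μ = μ ^ a

lemma Cyc.mono {p n N : ℕ} (h : n ≤ N) {σ : GQ} {a : ℕ} (ha : Cyc p N σ a) : Cyc p n σ a := by
  intro μ hμ
  apply ha
  obtain ⟨k, rfl⟩ := Nat.exists_eq_add_of_le h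
  rw [pow_add, pow_mul, hμ, one_pow]

lemma exists_cyc (p : ℕ) (hp : p ≠ 0) (n : ℕ) (σ : GQ) : ∃ a, Cyc p n σ a := by
  have hn : NeZero (p ^ n) := ⟨pow_ne_zero _ hp⟩
  obtain ⟨m, hm⟩ := rootsOfUnity.integer_power_of_ringEquiv' (p ^ n) σ.toRingEquiv
  have hpn : (0 : ℤ) < ((p ^ n : ℕ) : ℤ) := by exact_mod_cast Nat.pos_of_ne_zero (NeZero.ne _)
  refine ⟨(m % ((p ^ n : ℕ) : ℤ)).toNat, fun μ hμ => ?_⟩
  have hu : IsUnit μ := IsUnit.of_pow_eq_one hμ (NeZero.ne _)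
  obtain ⟨u, rfl⟩ := hu
  have hu : u ∈ rootsOfUnity (p ^ n) (AlgebraicClosure ℚ) := by
    rw [mem_rootsOfUnity]
    exact Units.ext (by simpa using hμ)
  have h1 := hm u hu
  have h2 : ((m % ((p ^ n : ℕ) : ℤ)).toNat : ℤ) = m % ((p ^ n : ℕ) : ℤ) :=
    Int.toNat_of_nonneg (Int.emod_nonneg _ hpn.ne')
  have h3 : σ.toRingEquiv (u : AlgebraicClosure ℚ) = σ (u : AlgebraicClosure ℚ) := rfl
  rw [h3] at h1
  rw [h1]
  have h4 : (u ^ m : (AlgebraicClosure ℚ)ˣ) = u ^ (m % ((p ^ n : ℕ) : ℤ)).toNat := by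
    rw [← zpow_natCast, h2]
    conv_lhs => rw [← Int.emod_add_mul_ediv m ((p ^ n : ℕ) : ℤ)]
    rw [zpow_add, zpow_mul, zpow_natCast, (mem_rootsOfUnity _ _).mp hu, one_zpow, mul_one]
  rw [h4]
  simp

lemma Cyc.modEq {p : ℕ} (hp : p ≠ 0) {n : ℕ} {σ : GQ} {a b : ℕ} (ha : Cyc p n σ a)
    (hb : Cyc p n σ b) : a ≡ b [MOD p ^ n] := by
  have hn : NeZero (p ^ n) := ⟨pow_ne_zero _ hp⟩
  obtain ⟨ζ, hζ⟩ := HasEnoughRootsOfUnity.exists_primitiveRoot (AlgebraicClosure ℚ) (p ^ n)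
  have h1 := ha ζ hζ.pow_eq_one
  rw [hb ζ hζ.pow_eq_one] at h1
  rw [← pow_mod_orderOf ζ b, ← pow_mod_orderOf ζ a, ← hζ.eq_orderOf] at h1
  have hpos : 0 < p ^ n := NeZero.pos _
  exact (hζ.pow_inj (Nat.mod_lt _ hpos) (Nat.mod_lt _ hpos) h1).symm

end Fermat.Agent.H53
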