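import Fermat.Agent.H53Cond1
import Fermat.Agent.H53Family

set_option autoImplicit false
set_option linter.style.haveILetI false
set_option linter.unusedSectionVars false

noncomputable section

open scoped TensorProduct
open IsLocalRing GaloisRep

namespace Fermat.Agent.H53

/-- A condition on matrix representations which behaves well. -/
structure IsMatCondition
    (C : ∀ ⦃A : Type⦄ [CommRing A] [IsLocalRing A], (GQ →* M2 A) → Prop) : Prop where
  conj : ∀ ⦃A : Type⦄ [CommRing A] [IsLocalRing A] (r r' : GQ →* M2 A) (u : M2 A), IsUnit u →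
    (∀ σ, u * r σ = r' σ * u) → C r → C r'
  map : ∀ ⦃A B : Type⦄ [CommRing A] [IsLocalRing A] [CommRing B] [IsLocalRing B] (φ : A →+* B)
    (_ : IsLocalHom φ) (r : GQ →* M2 A), C r → C (mapMat φ r)
  prod : ∀ ⦃P A B : Type⦄ [CommRing P] [IsLocalRing P] [IsArtinianRing P] [CommRing A]
    [IsLocalRing A] [IsArtinianRing A] [CommRing B] [IsLocalRing B] [IsArtinianRing B]
    (φ : P →+* A) (ψ : P →+* B) (_ : IsLocalHom φ) (_ : IsLocalHom ψ),
    Function.Injective (fun x => (φ x, ψ x)) → ∀ r : GQ →* M2 P,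
      C (mapMat φ r) → C (mapMat ψ r) → C r
  lim : ∀ ⦃A : Type⦄ [CommRing A] [IsLocalRing A] [IsNoetherianRing A] (r : GQ →* M2 A),
    (∀ k : ℕ, k ≠ 0 → ∀ (_ : IsLocalRing (A ⧸ maximalIdeal A ^ k)),
      C (mapMat (Ideal.Quotient.mk (maximalIdeal A ^ k)) r)) → C r

/-- The deformation condition attached to a matrix condition. -/
def MatCond (C : ∀ ⦃A : Type⦄ [CommRing A] [IsLocalRing A], (GQ →* M2 A) → Prop)
    ⦃A : Type⦄ [CommRing A] [IsLocalRing A] (ρ : GaloisRepAdic A) : Prop :=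
  ∀ b : Module.Basis (Fin 2) A ρ.V, C (toMat ρ.ρ b)

lemma exists_basis {A : Type} [CommRing A] [IsLocalRing A] (ρ : GaloisRepAdic A) :
    Nonempty (Module.Basis (Fin 2) A ρ.V) :=
  ⟨(Module.finBasis A ρ.V).reindex (finCongr ρ.finrank_eq)⟩

section

variable {C : ∀ ⦃A : Type⦄ [CommRing A] [IsLocalRing A], (GQ →* M2 A) → Prop}

lemma IsMatCondition.matCond_iff (hC : IsMatCondition C) {A : Type} [CommRing A] [IsLocalRing A]
    (ρ : GaloisRepAdic A) (b : Module.Basis (Fin 2) A ρ.V) : MatCond C ρ ↔ C (toMat ρ.ρ b) := by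
  refine ⟨fun h => h b, fun h b' => ?_⟩
  obtain ⟨u, hu, huc⟩ := (isEquiv_iff_conj ρ ρ b b').mp ⟨GaloisRepAdic.Equiv.refl ρ⟩
  exact hC.conj _ _ u hu huc h

lemma IsMatCondition.of_isEquiv (hC : IsMatCondition C) {A : Type} [CommRing A] [IsLocalRing A]
    {ρ ρ' : GaloisRepAdic A} (h : ρ.IsEquiv ρ') (hρ : MatCond C ρ) : MatCond C ρ' := by
  obtain ⟨b⟩ := exists_basis ρ
  obtain ⟨b'⟩ := exists_basis ρ'
  rw [hC.matCond_iff ρ' b']
  obtain ⟨u, hu, huc⟩ := (isEquiv_iff_conj ρ ρ' b b').mp h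
  exact hC.conj _ _ u hu huc (hρ b)

lemma IsMatCondition.matCond_bc_iff (hC : IsMatCondition C) {A B : Type} [CommRing A]
    [IsLocalRing A] [CommRing B] [IsLocalRing B] (φ : A →+* B) (hφ : IsLocalHom φ)
    (ρ : GaloisRepAdic A) (b : Module.Basis (Fin 2) A ρ.V) :
    MatCond C (ρ.baseChangeAlong φ hφ) ↔ C (mapMat φ (toMat ρ.ρ b)) := by
  rw [hC.matCond_iff _ (bcBasis φ hφ ρ b), toMat_bcBasis]

lemma isLocalRing_quotient_pow {A : Type} [CommRing A] [IsLocalRing A] {n : ℕ} (hn : n ≠ 0) :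
    IsLocalRing (A ⧸ maximalIdeal A ^ n) := by
  haveI : Nontrivial (A ⧸ maximalIdeal A ^ n) := Ideal.Quotient.nontrivial_iff.mpr (by
    intro htop
    have h1 := Ideal.pow_le_self (I := maximalIdeal A) hn
    rw [htop, top_le_iff] at h1
    exact Ideal.IsPrime.ne_top inferInstance h1)
  exact IsLocalRing.of_surjective' (Ideal.Quotient.mk _) Ideal.Quotient.mk_surjective

lemma isArtinianRing_quotient_pow {A : Type} [CommRing A] [IsLocalRing A] [IsNoetherianRing A]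
    (n : ℕ) : IsArtinianRing (A ⧸ maximalIdeal A ^ n) := by
  by_cases hn : n = 0
  · subst hn
    haveI : Subsingleton (A ⧸ maximalIdeal A ^ 0) := by
      rw [pow_zero, Ideal.one_eq_top]
      exact Ideal.Quotient.subsingleton_iff.mpr rfl
    infer_instance
  · haveI := isLocalRing_quotient_pow (A := A) hn
    rw [isArtinianRing_iff_isNilpotent_maximalIdeal]
    refine ⟨n, ?_⟩
    have h1 : maximalIdeal (A ⧸ maximalIdeal A ^ n) =
        (maximalIdeal A).map (Ideal.Quotient.mk (maximalIdeal A ^ n)) := by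
      haveI : IsLocalHom (Ideal.Quotient.mk (maximalIdeal A ^ n)) :=
        IsLocalHom.of_surjective _ Ideal.Quotient.mk_surjective
      exact (map_maximalIdeal_of_surjective _ Ideal.Quotient.mk_surjective).symm
    rw [h1, ← Ideal.map_pow, Ideal.map_quotient_self, Ideal.zero_eq_bot]

lemma test_quotient_pow {𝒪 : Type} [CommRing 𝒪] [IsLocalRing 𝒪] {A : Type} [CommRing A]
    [IsLocalRing A] [IsNoetherianRing A] [Algebra 𝒪 A] (hlA : IsLocalHom (algebraMap 𝒪 A))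
    (hsA : Function.Surjective (IsLocalRing.residue A ∘ algebraMap 𝒪 A)) (n : ℕ)
    [IsLocalRing (A ⧸ maximalIdeal A ^ n)] :
    IsArtinianTestAlgebra 𝒪 (A ⧸ maximalIdeal A ^ n) := by
  haveI hqloc : IsLocalHom (Ideal.Quotient.mk (maximalIdeal A ^ n)) :=
    IsLocalHom.of_surjective _ Ideal.Quotient.mk_surjective
  refine ⟨?_, ?_, isArtinianRing_quotient_pow n⟩
  · have : algebraMap 𝒪 (A ⧸ maximalIdeal A ^ n) =
        (Ideal.Quotient.mk (maximalIdeal A ^ n)).comp (algebraMap 𝒪 A) := rfl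
    rw [this]
    exact RingHom.isLocalHom_comp _ _
  · intro y
    obtain ⟨y', rfl⟩ := residue_surjective y
    obtain ⟨a, rfl⟩ := Ideal.Quotient.mk_surjective y'
    obtain ⟨c, hc⟩ := hsA (residue A a)
    refine ⟨c, ?_⟩
    rw [Function.comp_apply, ← sub_eq_zero, ← map_sub, residue_eq_zero_iff]
    rw [Function.comp_apply, ← sub_eq_zero, ← map_sub, residue_eq_zero_iff] at hc
    have h2 : algebraMap 𝒪 (A ⧸ maximalIdeal A ^ n) c - Ideal.Quotient.mk _ a =
      Ideal.Quotient.mk (maximalIdeal A ^ n) (algebraMap 𝒪 A c - a) := by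
        rw [map_sub]; rfl
    rw [h2]
    have h3 := map_maximalIdeal_pow (Ideal.Quotient.mk (maximalIdeal A ^ n)) hqloc 1
      (a := algebraMap 𝒪 A c - a) (by rwa [pow_one])
    rwa [pow_one] at h3

theorem IsMatCondition.isDeformationCondition (hC : IsMatCondition C) (𝒪 : Type) [CommRing 𝒪]
    [IsLocalRing 𝒪] :
    IsDeformationCondition 𝒪 (fun _A _ _ _ ρ => MatCond C ρ) := by
  constructor
  · intro A _ _ _ hA ρ ρ' h hρ
    exact hC.of_isEquiv h hρ
  · intro A B _ _ _ _ _ _ hA hB φ hφ ρ hρ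
    obtain ⟨b⟩ := exists_basis ρ
    rw [hC.matCond_bc_iff _ hφ ρ b]
    exact hC.map _ hφ _ (hρ b)
  · intro A B _ _ _ _ _ _ hA hB φ hφ hinj ρ hρ
    obtain ⟨b⟩ := exists_basis ρ
    rw [hC.matCond_bc_iff _ hφ ρ b] at hρ
    rw [hC.matCond_iff ρ b]
    haveI := hA.isArtinian
    haveI := hB.isArtinian
    exact hC.prod _ _ hφ hφ (fun x y h => hinj (congrArg Prod.fst h)) _ hρ hρ
  · intro A B D P _ _ _ _ _ _ _ _ _ _ _ _ hA hB hD hP f g pA pB hpA hpB hfg hinj hsurj ρ h1 h2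
    obtain ⟨b⟩ := exists_basis ρ
    rw [hC.matCond_bc_iff _ hpA ρ b] at h1
    rw [hC.matCond_bc_iff _ hpB ρ b] at h2
    rw [hC.matCond_iff ρ b]
    haveI := hA.isArtinian
    haveI := hB.isArtinian
    haveI := hP.isArtinian
    exact hC.prod _ _ hpA hpB hinj _ h1 h2
  · intro A _ _ _ _ _ hlA hsA ρ
    obtain ⟨b⟩ := exists_basis ρ
    constructor
    · intro h B _ _ _ hB q hq hqs
      rw [hC.matCond_bc_iff _ hq ρ b]
      exact hC.map _ hq _ (h b)
    · intro h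
      rw [hC.matCond_iff ρ b]
      refine hC.lim _ fun k hk hloc => ?_
      haveI hqloc : IsLocalHom (Ideal.Quotient.mk (maximalIdeal A ^ k)) :=
        IsLocalHom.of_surjective _ Ideal.Quotient.mk_surjective
      have h1 := h (test_quotient_pow hlA hsA k) (Ideal.Quotient.mkₐ 𝒪 (maximalIdeal A ^ k))
        hqloc (Ideal.Quotient.mkₐ_surjective 𝒪 _)
      exact (hC.matCond_bc_iff (Ideal.Quotient.mk (maximalIdeal A ^ k)) hqloc ρ b).mp h1

end

/-! ### conjunctions and congruences -/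

section Closure

variable {𝒪 : Type} [CommRing 𝒪] [IsLocalRing 𝒪]

theorem isDeformationCondition_and
    {𝒟 ℰ : ∀ ⦃A : Type⦄ [CommRing A] [IsLocalRing A] [Algebra 𝒪 A], GaloisRepAdic A → Prop}
    (h : IsDeformationCondition 𝒪 𝒟) (h' : IsDeformationCondition 𝒪 ℰ) :
    IsDeformationCondition 𝒪 (fun _A _ _ _ ρ => 𝒟 ρ ∧ ℰ ρ) := by
  constructor
  · intro A _ _ _ hA ρ ρ' e hρ
    exact ⟨h.of_isEquiv hA e hρ.1, h'.of_isEquiv hA e hρ.2⟩
  · intro A B _ _ _ _ _ _ hA hB φ hφ ρ hρ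
    exact ⟨h.baseChangeAlong hA hB φ hφ hρ.1, h'.baseChangeAlong hA hB φ hφ hρ.2⟩
  · intro A B _ _ _ _ _ _ hA hB φ hφ hinj ρ hρ
    exact ⟨h.of_baseChangeAlong_injective hA hB φ hφ hinj hρ.1,
      h'.of_baseChangeAlong_injective hA hB φ hφ hinj hρ.2⟩
  · intro A B D P _ _ _ _ _ _ _ _ _ _ _ _ hA hB hD hP f g pA pB hpA hpB hfg hinj hsurj ρ h1 h2
    exact ⟨h.of_fibreProduct hA hB hD hP f g pA pB hpA hpB hfg hinj hsurj h1.1 h2.1,
      h'.of_fibreProduct hA hB hD hP f g pA pB hpA hpB hfg hinj hsurj h1.2 h2.2⟩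
  · intro A _ _ _ _ _ hlA hsA ρ
    rw [h.iff_forall_surjective hlA hsA ρ, h'.iff_forall_surjective hlA hsA ρ]
    exact ⟨fun H B _ _ _ hB q hq hqs => ⟨H.1 hB q hq hqs, H.2 hB q hq hqs⟩,
      fun H => ⟨fun B _ _ _ hB q hq hqs => (H hB q hq hqs).1,
        fun B _ _ _ hB q hq hqs => (H hB q hq hqs).2⟩⟩

theorem isDeformationCondition_forall {ι : Sort*}
    {𝒟 : ι → ∀ ⦃A : Type⦄ [CommRing A] [IsLocalRing A] [Algebra 𝒪 A], GaloisRepAdic A → Prop}
    (h : ∀ i, IsDeformationCondition 𝒪 (𝒟 i)) :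
    IsDeformationCondition 𝒪 (fun _A _ _ _ ρ => ∀ i, 𝒟 i ρ) := by
  constructor
  · intro A _ _ _ hA ρ ρ' e hρ i
    exact (h i).of_isEquiv hA e (hρ i)
  · intro A B _ _ _ _ _ _ hA hB φ hφ ρ hρ i
    exact (h i).baseChangeAlong hA hB φ hφ (hρ i)
  · intro A B _ _ _ _ _ _ hA hB φ hφ hinj ρ hρ i
    exact (h i).of_baseChangeAlong_injective hA hB φ hφ hinj (hρ i)
  · intro A B D P _ _ _ _ _ _ _ _ _ _ _ _ hA hB hD hP f g pA pB hpA hpB hfg hinj hsurj ρ h1 h2 i
    exact (h i).of_fibreProduct hA hB hD hP f g pA pB hpA hpB hfg hinj hsurj (h1 i) (h2 i)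
  · intro A _ _ _ _ _ hlA hsA ρ
    constructor
    · intro H B _ _ _ hB q hq hqs i
      exact ((h i).iff_forall_surjective hlA hsA ρ).mp (H i) hB q hq hqs
    · intro H i
      exact ((h i).iff_forall_surjective hlA hsA ρ).mpr fun B _ _ _ hB q hq hqs =>
        H hB q hq hqs i

theorem isDeformationCondition_congr
    {𝒟 ℰ : ∀ ⦃A : Type⦄ [CommRing A] [IsLocalRing A] [Algebra 𝒪 A], GaloisRepAdic A → Prop}
    (h : IsDeformationCondition 𝒪 𝒟)
    (hiff : ∀ ⦃A : Type⦄ [CommRing A] [IsLocalRing A] [Algebra 𝒪 A] (ρ : GaloisRepAdic A),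
      𝒟 ρ ↔ ℰ ρ) : IsDeformationCondition 𝒪 ℰ := by
  constructor
  · intro A _ _ _ hA ρ ρ' e hρ
    exact (hiff _).mp (h.of_isEquiv hA e ((hiff _).mpr hρ))
  · intro A B _ _ _ _ _ _ hA hB φ hφ ρ hρ
    exact (hiff _).mp (h.baseChangeAlong hA hB φ hφ ((hiff _).mpr hρ))
  · intro A B _ _ _ _ _ _ hA hB φ hφ hinj ρ hρ
    exact (hiff _).mp (h.of_baseChangeAlong_injective hA hB φ hφ hinj ((hiff _).mpr hρ))
  · intro A B D P _ _ _ _ _ _ _ _ _ _ _ _ hA hB hD hP f g pA pB hpA hpB hfg hinj hsurj ρ h1 h2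
    exact (hiff _).mp (h.of_fibreProduct hA hB hD hP f g pA pB hpA hpB hfg hinj hsurj
      ((hiff _).mpr h1) ((hiff _).mpr h2))
  · intro A _ _ _ _ _ hlA hsA ρ
    rw [← hiff, h.iff_forall_surjective hlA hsA ρ]
    exact ⟨fun H B _ _ _ hB q hq hqs => (hiff _).mp (H hB q hq hqs),
      fun H B _ _ _ hB q hq hqs => (hiff _).mpr (H hB q hq hqs)⟩

end Closure

end Fermat.Agent.H53
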