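import Fermat.Agent.H53Cond2

set_option autoImplicit false
set_option linter.style.haveILetI false
set_option linter.unusedSectionVars false

noncomputable section

open scoped TensorProduct
open IsLocalRing GaloisRep

namespace Fermat.Agent.H53

/-- ideals in noetherian local rings are closed -/
lemma mem_of_forall_pow {A : Type} [CommRing A] [IsLocalRing A] [IsNoetherianRing A]
    (I : Ideal A) (x : A)
    (h : ∀ k : ℕ, k ≠ 0 → Ideal.Quotient.mk (maximalIdeal A ^ k) x ∈
      I.map (Ideal.Quotient.mk (maximalIdeal A ^ k))) : x ∈ I := by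
  have h1 : ∀ k : ℕ, Ideal.Quotient.mk I x ∈ (maximalIdeal A ^ k) • (⊤ : Submodule A (A ⧸ I)) := by
    intro k
    have h2 : x ∈ I ⊔ maximalIdeal A ^ (k + 1) := by
      have := h (k + 1) (Nat.succ_ne_zero k)
      rw [← Ideal.mem_comap, Ideal.comap_map_of_surjective _ Ideal.Quotient.mk_surjective,
        ← RingHom.ker_eq_comap_bot, Ideal.mk_ker] at this
      exact this
    obtain ⟨y, hy, z, hz, rfl⟩ := Submodule.mem_sup.mp h2
    rw [map_add, Ideal.Quotient.eq_zero_iff_mem.mpr hy, zero_add]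
    have h3 : Ideal.Quotient.mk I z = z • (1 : A ⧸ I) := by
      rw [Algebra.smul_def, mul_one]; rfl
    rw [h3]
    exact Submodule.smul_mem_smul (Ideal.pow_le_pow_right (Nat.le_succ k) hz) Submodule.mem_top
  have h2 : Ideal.Quotient.mk I x ∈ (⨅ k : ℕ, (maximalIdeal A ^ k) • (⊤ : Submodule A (A ⧸ I))) := by
    rw [Submodule.mem_iInf]
    exact h1
  rw [Ideal.iInf_pow_smul_eq_bot_of_isLocalRing _ (Ideal.IsPrime.ne_top inferInstance),
    Submodule.mem_bot] at h2
  exact Ideal.Quotient.eq_zero_iff_mem.mp h2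

lemma eq_zero_of_forall_pow {A : Type} [CommRing A] [IsLocalRing A] [IsNoetherianRing A] (x : A)
    (h : ∀ k : ℕ, k ≠ 0 → Ideal.Quotient.mk (maximalIdeal A ^ k) x = 0) : x = 0 := by
  have := mem_of_forall_pow (⊥ : Ideal A) x fun k hk => by
    rw [h k hk]; exact zero_mem _
  simpa using this

section Plain

variable {ι : Type} (Φ : NatFam ι)

/-- vanishing of a natural family -/
def PlainC ⦃A : Type⦄ [CommRing A] [IsLocalRing A] (r : GQ →* M2 A) : Prop :=
  ∀ i, Φ.F r i = 0

lemma isMatCondition_plain : IsMatCondition (PlainC Φ) := by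
  constructor
  · intro A _ _ r r' u hu huc h i
    have h1 := Φ.conj r r' u hu huc i
    rw [h i, mul_zero] at h1
    exact (hu.mul_left_eq_zero).mp h1.symm
  · intro A B _ _ _ _ φ hφ r h i
    rw [Φ.map, h i]
    ext a b
    simp
  · intro P A B _ _ _ _ _ _ _ _ _ φ ψ hφ hψ hinj r h1 h2 i
    ext a b
    apply hinj
    have e1 := congrFun (congrFun (h1 i) a) b
    have e2 := congrFun (congrFun (h2 i) a) b
    rw [Φ.map] at e1 e2
    simp only [Matrix.map_apply, Matrix.zero_apply] at e1 e2
    simp [e1, e2]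
  · intro A _ _ _ r h i
    ext a b
    apply eq_zero_of_forall_pow
    intro k hk
    haveI := isLocalRing_quotient_pow (A := A) hk
    have e1 := congrFun (congrFun (h k hk this i) a) b
    rw [Φ.map] at e1
    simpa using e1

end Plain

section CycSec

variable {ι : Type} (p : ℕ) (U V : NatFam ι) (s : ι → GQ)

/-- the condition `U = ε(s) V` where `ε` is the cyclotomic character -/
def CycC ⦃A : Type⦄ [CommRing A] [IsLocalRing A] (r : GQ →* M2 A) : Prop :=
  (p : A) ∈ maximalIdeal A ∧ ∀ i n a, Cyc p n (s i) a → ∀ j k,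
    U.F r i j k - (a : A) * V.F r i j k ∈ Ideal.span {((p ^ n : ℕ) : A)}

lemma exists_pow_eq_zero {A : Type} [CommRing A] [IsLocalRing A] [IsArtinianRing A] {p : ℕ}
    (hp : (p : A) ∈ maximalIdeal A) : ∃ N, ∀ m, N ≤ m → ((p ^ m : ℕ) : A) = 0 := by
  obtain ⟨n, hn⟩ := (isArtinianRing_iff_isNilpotent_maximalIdeal A).mp ‹_›
  refine ⟨n, fun m hm => ?_⟩
  have h1 : ((p : A)) ^ m ∈ maximalIdeal A ^ n :=
    Ideal.pow_le_pow_right hm (Ideal.pow_mem_pow hp m)
  rw [hn, Ideal.zero_eq_bot, Ideal.mem_bot] at h1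
  exact_mod_cast h1

/-- in the artinian case it is enough to check the condition at a large level -/
lemma cycC_of_large {p : ℕ} (hp0 : p ≠ 0) {U V : NatFam ι} {s : ι → GQ} {A : Type} [CommRing A]
    [IsLocalRing A] (hp : (p : A) ∈ maximalIdeal A) (r : GQ →* M2 A)
    (N : ℕ) (h : ∀ m, N ≤ m → ∀ i a, Cyc p m (s i) a → ∀ j k,
      U.F r i j k - (a : A) * V.F r i j k ∈ Ideal.span {((p ^ m : ℕ) : A)}) : CycC p U V s r := by
  refine ⟨hp, fun i n a ha j k => ?_⟩
  obtain ⟨b, hb⟩ := exists_cyc p hp0 (max n N) (s i)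
  have h1 := h (max n N) (le_max_right _ _) i b hb j k
  have h2 : Ideal.span {((p ^ (max n N) : ℕ) : A)} ≤ Ideal.span {((p ^ n : ℕ) : A)} := by
    rw [Ideal.span_singleton_le_span_singleton]
    exact_mod_cast Nat.cast_dvd_cast (pow_dvd_pow p (le_max_left n N))
  have h3 : (b : A) - (a : A) ∈ Ideal.span {((p ^ n : ℕ) : A)} := by
    have h4 := (Cyc.modEq hp0 ha (hb.mono (le_max_left n N))).dvd
    rw [Ideal.mem_span_singleton]
    obtain ⟨c, hc⟩ := h4
    refine ⟨(c : A), ?_⟩
    have := congrArg (fun z : ℤ => (z : A)) hc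
    push_cast at this ⊢
    exact this
  have h4 : U.F r i j k - (a : A) * V.F r i j k =
      (U.F r i j k - (b : A) * V.F r i j k) + ((b : A) - (a : A)) * V.F r i j k := by ring
  rw [h4]
  exact Ideal.add_mem _ (h2 h1) (Ideal.mul_mem_right _ _ h3)

lemma isMatCondition_cyc (hp0 : p ≠ 0) : IsMatCondition (CycC p U V s) := by
  constructor
  · intro A _ _ r r' u hu huc h
    refine ⟨h.1, fun i n a ha => ?_⟩
    obtain ⟨w, hw⟩ := hu
    have e1 : U.F r' i - (a : A) • V.F r' i = u * (U.F r i - (a : A) • V.F r i) * (↑w⁻¹ : M2 A) := by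
      have h1 := U.conj r r' u ⟨w, hw⟩ huc i
      have h2 := V.conj r r' u ⟨w, hw⟩ huc i
      rw [mul_sub, h1, mul_smul_comm, h2, ← smul_mul_assoc, ← sub_mul, mul_assoc, ← hw,
        Units.mul_inv, mul_one]
    have h3 : ∀ j k, (U.F r i - (a : A) • V.F r i) j k ∈ Ideal.span {((p ^ n : ℕ) : A)} := by
      intro j k
      rw [Matrix.sub_apply, Matrix.smul_apply, smul_eq_mul]
      exact h.2 i n a ha j k
    intro j k
    have h4 : U.F r' i j k - (a : A) * V.F r' i j k = (U.F r' i - (a : A) • V.F r' i) j k := by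
      rw [Matrix.sub_apply, Matrix.smul_apply, smul_eq_mul]
    rw [h4, e1, Matrix.mul_apply]
    refine Ideal.sum_mem _ fun c _ => Ideal.mul_mem_right _ _ ?_
    rw [Matrix.mul_apply]
    exact Ideal.sum_mem _ fun d _ => Ideal.mul_mem_left _ _ (h3 _ _)
  · intro A B _ _ _ _ φ hφ r h
    refine ⟨?_, fun i n a ha j k => ?_⟩
    · have h1 := map_maximalIdeal_pow φ hφ 1 (a := (p : A)) (by rw [pow_one]; exact h.1)
      rwa [pow_one, map_natCast] at h1
    · have h1 := Ideal.mem_map_of_mem φ (h.2 i n a ha j k)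
      rw [Ideal.map_span, Set.image_singleton, map_natCast, map_sub, map_mul, map_natCast] at h1
      rw [U.map, V.map]
      exact h1
  · intro P A B _ _ _ _ _ _ _ _ _ φ ψ hφ hψ hinj r h1 h2
    have hpP : (p : P) ∈ maximalIdeal P := by
      rw [mem_maximalIdeal, mem_nonunits_iff]
      intro hu
      have h3 := h1.1
      rw [mem_maximalIdeal, mem_nonunits_iff] at h3
      apply h3
      have := hu.map φ
      rwa [map_natCast] at this
    obtain ⟨N₁, hN₁⟩ := exists_pow_eq_zero h1.1
    obtain ⟨N₂, hN₂⟩ := exists_pow_eq_zero h2.1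
    refine cycC_of_large hp0 hpP r (max N₁ N₂) fun m hm i a ha j k => ?_
    have e1 := h1.2 i m a ha j k
    have e2 := h2.2 i m a ha j k
    rw [hN₁ m (le_trans (le_max_left _ _) hm), Ideal.span_singleton_eq_bot.mpr rfl,
      Ideal.mem_bot] at e1
    rw [hN₂ m (le_trans (le_max_right _ _) hm), Ideal.span_singleton_eq_bot.mpr rfl,
      Ideal.mem_bot] at e2
    have e3 : U.F r i j k - (a : P) * V.F r i j k = 0 := by
      apply hinj
      rw [U.map, V.map] at e1 e2
      simp only [Matrix.map_apply] at e1 e2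
      simp only [map_sub, map_mul, map_natCast, map_zero, e1, e2]
    rw [e3]
    exact Ideal.zero_mem _
  · intro A _ _ _ r h
    refine ⟨?_, fun i n a ha j k => ?_⟩
    · haveI := isLocalRing_quotient_pow (A := A) one_ne_zero
      have h1 := (h 1 one_ne_zero this).1
      rw [mem_maximalIdeal, mem_nonunits_iff] at h1 ⊢
      intro hu
      apply h1
      have := hu.map (Ideal.Quotient.mk (maximalIdeal A ^ 1))
      rwa [map_natCast] at this
    · apply mem_of_forall_pow
      intro m hm
      haveI := isLocalRing_quotient_pow (A := A) hm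
      have h1 := (h m hm this).2 i n a ha j k
      rw [U.map, V.map] at h1
      rw [Ideal.map_span, Set.image_singleton, map_natCast, map_sub, map_mul, map_natCast]
      exact h1

end CycSec

end Fermat.Agent.H53
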