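import Fermat.Agent.H53Cond3
import Fermat.Prelude.Def_GaloisRep_LocalConditions
import Fermat.Prelude.Def_GaloisRep_StrictOrdinary

set_option autoImplicit false
set_option linter.style.haveILetI false
set_option linter.unusedSectionVars false

noncomputable section

open scoped TensorProduct
open IsLocalRing GaloisRep

namespace Fermat.Agent.H53

namespace NatFam

variable {ι : Type}

/-- the matrices `r (s i)` -/
def gen (s : ι → GQ) : NatFam ι where
  F r i := r (s i)
  map φ r i := by ext a b; simp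
  conj r r' u hu h i := h (s i)

/-- constant family `1` -/
def one : NatFam ι where
  F _ _ := 1
  map φ r i := by ext a b; simp [Matrix.one_apply]
  conj r r' u hu h i := by simp

/-- product -/
def mul (Φ Ψ : NatFam ι) : NatFam ι where
  F r i := Φ.F r i * Ψ.F r i
  map φ r i := by rw [Φ.map, Ψ.map, Matrix.map_mul]
  conj r r' u hu h i := by
    rw [← mul_assoc, Φ.conj r r' u hu h, mul_assoc, Ψ.conj r r' u hu h, mul_assoc]

/-- difference -/
def sub (Φ Ψ : NatFam ι) : NatFam ι where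
  F r i := Φ.F r i - Ψ.F r i
  map φ r i := by
    rw [Φ.map, Ψ.map]
    ext a b
    simp
  conj r r' u hu h i := by
    rw [mul_sub, Φ.conj r r' u hu h, Ψ.conj r r' u hu h, sub_mul]

/-- sum -/
def add (Φ Ψ : NatFam ι) : NatFam ι where
  F r i := Φ.F r i + Ψ.F r i
  map φ r i := by
    rw [Φ.map, Ψ.map]
    ext a b
    simp
  conj r r' u hu h i := by
    rw [mul_add, Φ.conj r r' u hu h, Ψ.conj r r' u hu h, add_mul]

lemma trace_conj {A : Type} [CommRing A] {u m m' : M2 A} (hu : IsUnit u) (h : u * m = m' * u) :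
    m.trace = m'.trace := by
  obtain ⟨w, rfl⟩ := hu
  have h1 : m = (↑w⁻¹ : M2 A) * m' * w := by
    rw [mul_assoc, ← h, ← mul_assoc, Units.inv_mul, one_mul]
  rw [h1, Matrix.trace_mul_comm, ← mul_assoc, Units.mul_inv, one_mul]

lemma det_conj {A : Type} [CommRing A] {u m m' : M2 A} (hu : IsUnit u) (h : u * m = m' * u) :
    m.det = m'.det := by
  have h1 := congrArg Matrix.det h
  rw [Matrix.det_mul, Matrix.det_mul, mul_comm] at h1
  exact ((Matrix.isUnit_iff_isUnit_det _).mp hu).mul_right_cancel h1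

/-- trace as scalar matrix -/
def tr (Φ : NatFam ι) : NatFam ι where
  F r i := (Φ.F r i).trace • (1 : M2 _)
  map φ r i := by
    rw [Φ.map]
    ext a b
    simp only [Matrix.trace_fin_two, Matrix.one_apply, Matrix.smul_apply, Matrix.map_apply,
      smul_eq_mul]
    split_ifs <;> simp
  conj r r' u hu h i := by
    rw [trace_conj hu (Φ.conj r r' u hu h i)]
    simp

/-- determinant as scalar matrix -/
def dt (Φ : NatFam ι) : NatFam ι where
  F r i := (Φ.F r i).det • (1 : M2 _)
  map φ r i := by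
    rw [Φ.map]
    ext a b
    simp only [Matrix.det_fin_two, Matrix.one_apply, Matrix.smul_apply, Matrix.map_apply,
      smul_eq_mul]
    split_ifs <;> simp
  conj r r' u hu h i := by
    rw [det_conj hu (Φ.conj r r' u hu h i)]
    simp

end NatFam

lemma toMat_charpoly {A : Type} [CommRing A] [IsLocalRing A] (ρ : GaloisRepAdic A)
    (b : Module.Basis (Fin 2) A ρ.V) (σ : GQ) :
    LinearMap.charpoly (ρ.ρ σ) = (toMat ρ.ρ b σ).charpoly := by
  rw [toMat_apply, LinearMap.charpoly_toMatrix]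

lemma toMat_det {A : Type} [CommRing A] [IsLocalRing A] (ρ : GaloisRepAdic A)
    (b : Module.Basis (Fin 2) A ρ.V) (σ : GQ) :
    LinearMap.det (ρ.ρ σ) = (toMat ρ.ρ b σ).det := by
  rw [toMat_apply, LinearMap.det_toMatrix]

lemma toMat_eq_one_iff {A : Type} [CommRing A] [IsLocalRing A] (ρ : GaloisRepAdic A)
    (b : Module.Basis (Fin 2) A ρ.V) (σ : GQ) : ρ.ρ σ = 1 ↔ toMat ρ.ρ b σ = 1 := by
  rw [toMat_apply]
  constructor
  · intro h
    rw [h]
    exact LinearMap.toMatrix_one b
  · intro h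
    apply (LinearMap.toMatrix b b).injective
    rw [h]
    exact (LinearMap.toMatrix_one b).symm

/-- elements of inertia groups above `q` -/
abbrev Inert (q : ℕ) : Type :=
  {σ : GQ // ∃ P : ValuationSubring (AlgebraicClosure ℚ), P.LiesOverPrime q ∧
    σ ∈ P.inertiaSubgroupIn ℚ}

lemma isUnramifiedAt_iff {A : Type} [CommRing A] [IsLocalRing A] (ρ : GaloisRepAdic A) (q : ℕ) :
    ρ.IsUnramifiedAt q ↔
      MatCond (PlainC ((NatFam.gen (fun i : Inert q => i.1)).sub NatFam.one)) ρ := by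
  rw [(isMatCondition_plain _).matCond_iff ρ (exists_basis ρ).some]
  constructor
  · rintro h ⟨σ, P, hP, hσ⟩
    show toMat ρ.ρ _ σ - 1 = 0
    rw [sub_eq_zero, ← toMat_eq_one_iff]
    exact h P hP σ hσ
  · intro h P hP σ hσ
    have h1 : toMat ρ.ρ (exists_basis ρ).some σ - 1 = 0 := h ⟨σ, P, hP, hσ⟩
    rwa [sub_eq_zero, ← toMat_eq_one_iff] at h1

theorem isDeformationCondition_unramifiedAt (𝒪 : Type) [CommRing 𝒪] [IsLocalRing 𝒪] (q : ℕ) :
    IsDeformationCondition 𝒪 (fun _A _ _ _ ρ => ρ.IsUnramifiedAt q) :=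
  isDeformationCondition_congr ((isMatCondition_plain
    ((NatFam.gen (fun i : Inert q => i.1)).sub NatFam.one)).isDeformationCondition 𝒪)
    fun _ _ _ _ ρ => (isUnramifiedAt_iff ρ q).symm

lemma charpoly_eq_sub_one_sq_iff {A : Type} [CommRing A] [Nontrivial A] (m : M2 A) :
    m.charpoly = (Polynomial.X - 1) ^ 2 ↔ m.trace = 2 ∧ m.det = 1 := by
  rw [Matrix.charpoly_fin_two]
  have h2 : ((Polynomial.X - 1) ^ 2 : Polynomial A) =
      Polynomial.X ^ 2 - Polynomial.C 2 * Polynomial.X + Polynomial.C 1 := by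
    rw [Polynomial.C_1, show (Polynomial.C (2 : A)) = 2 from map_ofNat _ 2]
    ring
  rw [h2]
  constructor
  · intro h
    have e0 := congrArg (fun f => Polynomial.coeff f 0) h
    have e1 := congrArg (fun f => Polynomial.coeff f 1) h
    simp [Polynomial.coeff_X, Polynomial.coeff_C, Polynomial.coeff_one] at e0 e1
    exact ⟨e1, e0⟩
  · rintro ⟨h3, h4⟩
    rw [h3, h4]

lemma isUnipotentOnInertiaAt_iff {A : Type} [CommRing A] [IsLocalRing A] (ρ : GaloisRepAdic A)
    (q : ℕ) :
    ρ.IsUnipotentOnInertiaAt q ↔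
      (MatCond (PlainC (((NatFam.gen (fun i : Inert q => i.1)).tr).sub
          (NatFam.one.add NatFam.one))) ρ ∧
        MatCond (PlainC (((NatFam.gen (fun i : Inert q => i.1)).dt).sub NatFam.one)) ρ) := by
  rw [(isMatCondition_plain _).matCond_iff ρ (exists_basis ρ).some,
    (isMatCondition_plain _).matCond_iff ρ (exists_basis ρ).some]
  constructor
  · intro h
    constructor
    · rintro ⟨σ, P, hP, hσ⟩
      have h1 := h P hP σ hσ
      rw [toMat_charpoly ρ (exists_basis ρ).some, charpoly_eq_sub_one_sq_iff] at h1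
      show (toMat ρ.ρ (exists_basis ρ).some σ).trace • (1 : M2 A) - (1 + 1) = 0
      rw [h1.1, sub_eq_zero, two_smul]
    · rintro ⟨σ, P, hP, hσ⟩
      have h1 := h P hP σ hσ
      rw [toMat_charpoly ρ (exists_basis ρ).some, charpoly_eq_sub_one_sq_iff] at h1
      show (toMat ρ.ρ (exists_basis ρ).some σ).det • (1 : M2 A) - 1 = 0
      rw [h1.2, one_smul, sub_self]
  · rintro ⟨h1, h2⟩ P hP σ hσ
    rw [toMat_charpoly ρ (exists_basis ρ).some, charpoly_eq_sub_one_sq_iff]
    have e1 : (toMat ρ.ρ (exists_basis ρ).some σ).trace • (1 : M2 A) - (1 + 1) = 0 :=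
      h1 ⟨σ, P, hP, hσ⟩
    have e2 : (toMat ρ.ρ (exists_basis ρ).some σ).det • (1 : M2 A) - 1 = 0 :=
      h2 ⟨σ, P, hP, hσ⟩
    have e1' := congrFun (congrFun e1 0) 0
    have e2' := congrFun (congrFun e2 0) 0
    simp only [Matrix.sub_apply, Matrix.smul_apply, Matrix.add_apply, Matrix.one_apply_eq,
      Matrix.zero_apply, smul_eq_mul, mul_one, sub_eq_zero] at e1' e2'
    exact ⟨by rw [e1']; norm_num, e2'⟩

theorem isDeformationCondition_unipotentOnInertiaAt (𝒪 : Type) [CommRing 𝒪] [IsLocalRing 𝒪]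
    (q : ℕ) : IsDeformationCondition 𝒪 (fun _A _ _ _ ρ => ρ.IsUnipotentOnInertiaAt q) :=
  isDeformationCondition_congr (isDeformationCondition_and
    ((isMatCondition_plain (((NatFam.gen (fun i : Inert q => i.1)).tr).sub
      (NatFam.one.add NatFam.one))).isDeformationCondition 𝒪)
    ((isMatCondition_plain (((NatFam.gen (fun i : Inert q => i.1)).dt).sub
      NatFam.one)).isDeformationCondition 𝒪))
    fun _ _ _ _ ρ => (isUnipotentOnInertiaAt_iff ρ q).symm

lemma detIsCyclotomic_iff {A : Type} [CommRing A] [IsLocalRing A] (ρ : GaloisRepAdic A) (p : ℕ)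
    (hp : p ≠ 0) :
    ρ.DetIsCyclotomic p ↔
      MatCond (CycC p ((NatFam.gen (fun i : GQ => i)).dt) NatFam.one (fun i : GQ => i)) ρ := by
  rw [(isMatCondition_cyc p _ _ _ hp).matCond_iff ρ (exists_basis ρ).some]
  constructor
  · rintro ⟨h1, h2⟩
    refine ⟨h1, fun σ n a ha j k => ?_⟩
    show ((toMat ρ.ρ (exists_basis ρ).some σ).det • (1 : M2 A)) j k - a * (1 : M2 A) j k ∈ _
    have h3 := h2 n σ a ha
    rw [toMat_det ρ (exists_basis ρ).some] at h3
    rw [Matrix.smul_apply, smul_eq_mul, ← sub_mul]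
    exact Ideal.mul_mem_right _ _ h3
  · rintro ⟨h1, h2⟩
    refine ⟨h1, fun n σ a ha => ?_⟩
    have h3 : ((toMat ρ.ρ (exists_basis ρ).some σ).det • (1 : M2 A)) 0 0 - a * (1 : M2 A) 0 0 ∈
      Ideal.span {((p ^ n : ℕ) : A)} := h2 σ n a ha 0 0
    rw [toMat_det ρ (exists_basis ρ).some]
    simpa using h3

theorem isDeformationCondition_detIsCyclotomic (𝒪 : Type) [CommRing 𝒪] [IsLocalRing 𝒪]
    (p : ℕ) (hp : p ≠ 0) :
    IsDeformationCondition 𝒪 (fun _A _ _ _ ρ => ρ.DetIsCyclotomic p) :=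
  isDeformationCondition_congr ((isMatCondition_cyc p ((NatFam.gen (fun i : GQ => i)).dt)
    NatFam.one (fun i : GQ => i) hp).isDeformationCondition 𝒪)
    fun _ _ _ _ ρ => (detIsCyclotomic_iff ρ p hp).symm

end Fermat.Agent.H53
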