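import Fermat.Agent.H53Cond4
import Fermat.Agent.H63Cyclo

set_option autoImplicit false
set_option linter.style.haveILetI false
set_option linter.unusedSectionVars false

noncomputable section

open scoped TensorProduct
open IsLocalRing GaloisRep

namespace Fermat.Agent.H53

/-- change of basis by an invertible matrix -/
lemma exists_basis_conj {A : Type} [CommRing A] [IsLocalRing A] (ρ : GaloisRepAdic A)
    (b : Module.Basis (Fin 2) A ρ.V) (u : M2 A) (hu : IsUnit u) :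
    ∃ b' : Module.Basis (Fin 2) A ρ.V, ∀ σ, u * toMat ρ.ρ b' σ = toMat ρ.ρ b σ * u := by
  rw [Matrix.isUnit_iff_isUnit_det] at hu
  have hu' : IsUnit (LinearMap.toMatrix b b (Matrix.toLin b b u)).det := by
    rwa [LinearMap.toMatrix_toLin]
  let e : ρ.V ≃ₗ[A] ρ.V := LinearEquiv.ofIsUnitDet hu'
  have he : (e : ρ.V →ₗ[A] ρ.V) = Matrix.toLin b b u := by
    ext x; rfl
  refine ⟨b.map e, fun σ => ?_⟩
  have h1 : toMat ρ.ρ (b.map e) σ =
      LinearMap.toMatrix b b ((e.symm : ρ.V →ₗ[A] ρ.V) ∘ₗ (ρ.ρ σ) ∘ₗ (e : ρ.V →ₗ[A] ρ.V)) := by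
    rw [toMat_apply]
    ext i j
    rw [LinearMap.toMatrix_apply, LinearMap.toMatrix_apply]
    simp
  have h2 : u = LinearMap.toMatrix b b (e : ρ.V →ₗ[A] ρ.V) := by
    rw [he, LinearMap.toMatrix_toLin]
  rw [h1]
  conv_lhs => rw [h2]
  conv_rhs => rw [h2, toMat_apply]
  rw [← LinearMap.toMatrix_comp, ← LinearMap.toMatrix_comp]
  congr 1
  ext x
  simp

/-- The basis form of the strict ordinarity condition at a place `P`. -/
def OrdB (p : ℕ) (P : ValuationSubring (AlgebraicClosure ℚ)) {A : Type} [CommRing A]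
    (r : GQ →* M2 A) : Prop :=
  (∀ σ ∈ P.decompositionSubgroup ℚ, r σ 1 0 = 0) ∧
  (∀ σ ∈ P.inertiaSubgroupIn ℚ, r σ 1 0 = 0 ∧ r σ 1 1 = 1) ∧
  (∀ σ ∈ P.decompositionSubgroup ℚ, ∀ n a : ℕ, Cyc p n σ a →
    r σ 0 0 - (a : A) * r σ 1 1 ∈ Ideal.span {((p ^ n : ℕ) : A)})

lemma mem_span_basis_zero_iff {A : Type} [CommRing A] {V : Type} [AddCommGroup V] [Module A V]
    (b : Module.Basis (Fin 2) A V) (v : V) :
    v ∈ (Submodule.span A {b 0} : Submodule A V) ↔ b.repr v 1 = 0 := by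
  rw [Submodule.mem_span_singleton]
  constructor
  · rintro ⟨a, rfl⟩
    simp
  · intro h
    refine ⟨b.repr v 0, ?_⟩
    conv_rhs => rw [← b.sum_repr v]
    rw [Fin.sum_univ_two, h, zero_smul, add_zero]

lemma repr_apply_eq {A : Type} [CommRing A] {V : Type} [AddCommGroup V] [Module A V]
    (ρ : GQ →* Module.End A V) (b : Module.Basis (Fin 2) A V) (σ : GQ) (v : V) (i : Fin 2) :
    b.repr (ρ σ v) i = toMat ρ b σ i 0 * b.repr v 0 + toMat ρ b σ i 1 * b.repr v 1 := by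
  have h1 := congrFun (LinearMap.toMatrix_mulVec_repr b b (ρ σ) v) i
  rw [← h1, Matrix.mulVec, dotProduct, Fin.sum_univ_two]
  rfl

lemma strictOrd_iff_exists_ordB {A : Type} [CommRing A] [IsLocalRing A] (ρ : GaloisRepAdic A)
    (p : ℕ) (P : ValuationSubring (AlgebraicClosure ℚ)) :
    (∃ L : Submodule A ρ.V,
      (∃ b : Module.Basis (Fin 2) A ρ.V, L = Submodule.span A {b 0}) ∧
      (∀ σ ∈ P.decompositionSubgroup ℚ, ∀ v ∈ L, ρ.ρ σ v ∈ L) ∧
      (∀ σ ∈ P.inertiaSubgroupIn ℚ, ∀ v : ρ.V, ρ.ρ σ v - v ∈ L) ∧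
      (∀ σ ∈ P.decompositionSubgroup ℚ, ∃ x z : A,
        (∀ w ∈ L, ρ.ρ σ w = x • w) ∧ (∀ v : ρ.V, ρ.ρ σ v - z • v ∈ L) ∧
        ∀ (n a : ℕ), (∀ μ : AlgebraicClosure ℚ, μ ^ p ^ n = 1 → σ μ = μ ^ a) →
          x - (a : A) * z ∈ Ideal.span {((p ^ n : ℕ) : A)})) ↔
    ∃ b : Module.Basis (Fin 2) A ρ.V, OrdB p P (toMat ρ.ρ b) := by
  constructor
  · rintro ⟨L, ⟨b, rfl⟩, hD, hI, hx⟩
    refine ⟨b, fun σ hσ => ?_, fun σ hσ => ?_, fun σ hσ n a ha => ?_⟩
    · have h1 := hD σ hσ (b 0) (Submodule.mem_span_singleton_self _)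
      rw [mem_span_basis_zero_iff, repr_apply_eq] at h1
      simpa using h1
    · have h1 := hI σ hσ (b 0)
      have h2 := hI σ hσ (b 1)
      rw [mem_span_basis_zero_iff, map_sub, Finsupp.sub_apply, repr_apply_eq] at h1 h2
      simp [sub_eq_zero] at h1 h2
      exact ⟨h1, h2⟩
    · obtain ⟨x, z, h1, h2, h3⟩ := hx σ hσ
      have e1 : toMat ρ.ρ b σ 0 0 = x := by
        have := congrArg (fun v => b.repr v 0) (h1 (b 0) (Submodule.mem_span_singleton_self _))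
        simp only [repr_apply_eq] at this
        simpa using this
      have e2 : toMat ρ.ρ b σ 1 1 = z := by
        have := h2 (b 1)
        rw [mem_span_basis_zero_iff, map_sub, Finsupp.sub_apply, repr_apply_eq] at this
        simpa [sub_eq_zero] using this
      rw [e1, e2]
      exact h3 n a ha
  · rintro ⟨b, hD, hI, hx⟩
    refine ⟨_, ⟨b, rfl⟩, fun σ hσ v hv => ?_, fun σ hσ v => ?_, fun σ hσ =>
      ⟨toMat ρ.ρ b σ 0 0, toMat ρ.ρ b σ 1 1, fun w hw => ?_, fun v => ?_, fun n a ha =>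
        hx σ hσ n a ha⟩⟩
    · rw [mem_span_basis_zero_iff] at hv ⊢
      rw [repr_apply_eq, hv, hD σ hσ, zero_mul, mul_zero, add_zero]
    · rw [mem_span_basis_zero_iff, map_sub, Finsupp.sub_apply, repr_apply_eq,
        (hI σ hσ).1, (hI σ hσ).2]
      ring
    · rw [mem_span_basis_zero_iff] at hw
      apply b.repr.injective
      ext i
      rw [repr_apply_eq, hw, mul_zero, add_zero, map_smul, Finsupp.smul_apply, smul_eq_mul]
      fin_cases i
      · rfl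
      · show toMat ρ.ρ b σ 1 0 * _ = _ * b.repr w 1
        rw [hD σ hσ, hw]; ring
    · rw [mem_span_basis_zero_iff, map_sub, Finsupp.sub_apply, repr_apply_eq, map_smul,
        Finsupp.smul_apply, smul_eq_mul, hD σ hσ]
      ring

/-- diagonalisation of a matrix with eigenvalues `δ`, `1` such that `δ - 1` is a unit -/
lemma exists_diag {A : Type} [CommRing A] [IsLocalRing A] (M : M2 A) (htr : M.trace = 1 + M.det)
    (hδ : IsUnit (M.det - 1)) :
    ∃ u : M2 A, IsUnit u ∧ M * u = u * !![M.det, 0; 0, 1] := by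
  have h1 : M.det = M 0 0 * M 1 1 - M 0 1 * M 1 0 := Matrix.det_fin_two M
  have h2 : M 0 0 + M 1 1 = 1 + M.det := by rw [← htr, Matrix.trace_fin_two]
  set δ := M.det with hδdef
  have hsum : (M 0 0 - 1) + (M 1 1 - 1) = δ - 1 := by linear_combination h2
  have hprod : (M 0 0 - 1) * (M 1 1 - 1) = M 0 1 * M 1 0 := by linear_combination -h1 - h2
  have hor : IsUnit (M 0 0 - 1) ∨ IsUnit (M 1 1 - 1) := by
    rw [← hsum] at hδ
    exact IsLocalRing.isUnit_or_isUnit_of_isUnit_add hδ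
  have hM : M = !![M 0 0, M 0 1; M 1 0, M 1 1] := Matrix.eta_fin_two M
  have hM' : ∀ N : M2 A, M * N = !![M 0 0, M 0 1; M 1 0, M 1 1] * N := fun N => by rw [← hM]
  rcases hor with h | h
  · refine ⟨!![M 0 0 - 1, -M 0 1; M 1 0, M 0 0 - 1], ?_, ?_⟩
    · rw [Matrix.isUnit_iff_isUnit_det, Matrix.det_fin_two]
      have : (!![M 0 0 - 1, -M 0 1; M 1 0, M 0 0 - 1] : M2 A) 0 0 *
          (!![M 0 0 - 1, -M 0 1; M 1 0, M 0 0 - 1] : M2 A) 1 1 -
          (!![M 0 0 - 1, -M 0 1; M 1 0, M 0 0 - 1] : M2 A) 0 1 *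
          (!![M 0 0 - 1, -M 0 1; M 1 0, M 0 0 - 1] : M2 A) 1 0 = (M 0 0 - 1) * (δ - 1) := by
        simp
        linear_combination (M 0 0 - 1) * hsum - hprod
      rw [this]
      exact h.mul hδ
    · rw [hM', Matrix.mul_fin_two, Matrix.mul_fin_two]
      have e00 : M 0 0 * (M 0 0 - 1) + M 0 1 * M 1 0 = (M 0 0 - 1) * δ + -M 0 1 * 0 := by
        linear_combination (M 0 0 - 1) * hsum - hprod
      have e01 : M 0 0 * -M 0 1 + M 0 1 * (M 0 0 - 1) = (M 0 0 - 1) * 0 + -M 0 1 * 1 := by ring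
      have e10 : M 1 0 * (M 0 0 - 1) + M 1 1 * M 1 0 = M 1 0 * δ + (M 0 0 - 1) * 0 := by
        linear_combination M 1 0 * hsum
      have e11 : M 1 0 * -M 0 1 + M 1 1 * (M 0 0 - 1) = M 1 0 * 0 + (M 0 0 - 1) * 1 := by
        linear_combination hprod
      rw [e00, e01, e10, e11]
  · refine ⟨!![M 0 1, M 1 1 - 1; M 1 1 - 1, -M 1 0], ?_, ?_⟩
    · rw [Matrix.isUnit_iff_isUnit_det, Matrix.det_fin_two]
      have : (!![M 0 1, M 1 1 - 1; M 1 1 - 1, -M 1 0] : M2 A) 0 0 *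
          (!![M 0 1, M 1 1 - 1; M 1 1 - 1, -M 1 0] : M2 A) 1 1 -
          (!![M 0 1, M 1 1 - 1; M 1 1 - 1, -M 1 0] : M2 A) 0 1 *
          (!![M 0 1, M 1 1 - 1; M 1 1 - 1, -M 1 0] : M2 A) 1 0 = -((M 1 1 - 1) * (δ - 1)) := by
        simp
        linear_combination -(M 1 1 - 1) * hsum + hprod
      rw [this]
      exact (h.mul hδ).neg
    · rw [hM', Matrix.mul_fin_two, Matrix.mul_fin_two]
      have e00 : M 0 0 * M 0 1 + M 0 1 * (M 1 1 - 1) = M 0 1 * δ + (M 1 1 - 1) * 0 := by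
        linear_combination M 0 1 * hsum
      have e01 : M 0 0 * (M 1 1 - 1) + M 0 1 * -M 1 0 = M 0 1 * 0 + (M 1 1 - 1) * 1 := by
        linear_combination hprod
      have e10 : M 1 0 * M 0 1 + M 1 1 * (M 1 1 - 1) = (M 1 1 - 1) * δ + -M 1 0 * 0 := by
        linear_combination (M 1 1 - 1) * hsum - hprod
      have e11 : M 1 0 * (M 1 1 - 1) + M 1 1 * -M 1 0 = (M 1 1 - 1) * 0 + -M 1 0 * 1 := by ring
      rw [e00, e01, e10, e11]

end Fermat.Agent.H53
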