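import Fermat.Agent.H53Cond5

set_option autoImplicit false
set_option linter.style.haveILetI false
set_option linter.unusedSectionVars false

noncomputable section

open scoped TensorProduct
open IsLocalRing GaloisRep

namespace Fermat.Agent.H53

section OrdFam

variable (P : ValuationSubring (AlgebraicClosure ℚ)) (τ : GQ)

/-- trace condition at `τ` -/
def ordF1 : NatFam Unit :=
  ((NatFam.gen (fun _ : Unit => τ)).tr).sub (NatFam.one.add (NatFam.gen (fun _ : Unit => τ)).dt)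

/-- stability condition -/
def ordF2 : NatFam {σ : GQ // σ ∈ P.decompositionSubgroup ℚ} :=
  (((NatFam.gen (fun _ => τ)).sub (NatFam.gen (fun _ => τ)).dt).mul
    (NatFam.gen (fun i => i.1))).mul ((NatFam.gen (fun _ => τ)).sub NatFam.one)

/-- unramified quotient condition -/
def ordF3 : NatFam {σ : GQ // σ ∈ P.inertiaSubgroupIn ℚ} :=
  ((NatFam.gen (fun _ => τ)).sub (NatFam.gen (fun _ => τ)).dt).mul
    ((NatFam.gen (fun i => i.1)).sub NatFam.one)

/-- the character on the line (times `det τ - 1`) -/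
def ordU : NatFam {σ : GQ // σ ∈ P.decompositionSubgroup ℚ} :=
  ((NatFam.gen (fun i => i.1)).mul ((NatFam.gen (fun _ => τ)).sub NatFam.one)).tr

/-- the character on the quotient (times `det τ - 1`) -/
def ordV : NatFam {σ : GQ // σ ∈ P.decompositionSubgroup ℚ} :=
  ((NatFam.gen (fun i => i.1)).mul ((NatFam.gen (fun _ => τ)).dt.sub
    (NatFam.gen (fun _ => τ)))).tr

/-- all the ordinarity conditions at `P` -/
structure OrdC (p : ℕ) {A : Type} [CommRing A] (r : GQ →* M2 A) : Prop where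
  h1 : (r τ).trace = 1 + (r τ).det
  h2 : ∀ σ ∈ P.decompositionSubgroup ℚ, (r τ - (r τ).det • 1) * r σ * (r τ - 1) = 0
  h3 : ∀ σ ∈ P.inertiaSubgroupIn ℚ, (r τ - (r τ).det • 1) * (r σ - 1) = 0
  h4 : ∀ σ ∈ P.decompositionSubgroup ℚ, ∀ n a : ℕ, Cyc p n σ a →
    (r σ * (r τ - 1)).trace - (a : A) * (r σ * ((r τ).det • 1 - r τ)).trace ∈
      Ideal.span {((p ^ n : ℕ) : A)}

lemma ordC_conj {p : ℕ} {A : Type} [CommRing A] {r r' : GQ →* M2 A} {u : M2 A} (hu : IsUnit u)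
    (h : ∀ σ, u * r σ = r' σ * u) (hr : OrdC P τ p r) : OrdC P τ p r' := by
  have htr : ∀ σ, (r σ).trace = (r' σ).trace := fun σ => NatFam.trace_conj hu (h σ)
  have hdt : ∀ σ, (r σ).det = (r' σ).det := fun σ => NatFam.det_conj hu (h σ)
  have hsub : u * (r τ - (r τ).det • 1) = (r' τ - (r' τ).det • 1) * u := by
    rw [mul_sub, sub_mul, h, hdt]; simp
  have hsub1 : ∀ σ, u * (r σ - 1) = (r' σ - 1) * u := by
    intro σ; rw [mul_sub, sub_mul, h]; simp
  have hsub' : u * ((r τ).det • 1 - r τ) = ((r' τ).det • 1 - r' τ) * u := by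
    rw [mul_sub, sub_mul, h, hdt]; simp
  constructor
  · rw [← htr, ← hdt, hr.h1]
  · intro σ hσ
    have h1 := hr.h2 σ hσ
    have h2 : (r' τ - (r' τ).det • 1) * r' σ * (r' τ - 1) * u = 0 := by
      rw [mul_assoc, ← hsub1, ← mul_assoc, mul_assoc _ (r' σ) u, ← h, ← mul_assoc, ← hsub,
        mul_assoc u, mul_assoc u, h1, mul_zero]
    exact hu.mul_left_eq_zero.mp h2
  · intro σ hσ
    have h1 := hr.h3 σ hσ
    have h2 : (r' τ - (r' τ).det • 1) * (r' σ - 1) * u = 0 := by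
      rw [mul_assoc, ← hsub1, ← mul_assoc, ← hsub, mul_assoc u, h1, mul_zero]
    exact hu.mul_left_eq_zero.mp h2
  · intro σ hσ n a ha
    have h1 := hr.h4 σ hσ n a ha
    have e1 : (r σ * (r τ - 1)).trace = (r' σ * (r' τ - 1)).trace :=
      NatFam.trace_conj hu (by rw [← mul_assoc, h, mul_assoc, hsub1, mul_assoc])
    have e2 : (r σ * ((r τ).det • 1 - r τ)).trace = (r' σ * ((r' τ).det • 1 - r' τ)).trace :=
      NatFam.trace_conj hu (by rw [← mul_assoc, h, mul_assoc, hsub', mul_assoc])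
    rwa [← e1, ← e2]

variable {P τ}

lemma OrdB.ordC {p : ℕ} {A : Type} [CommRing A] {r : GQ →* M2 A}
    (hτ : τ ∈ P.inertiaSubgroupIn ℚ) (hr : OrdB p P r) : OrdC P τ p r := by
  obtain ⟨hD, hI, hx⟩ := hr
  have hM10 := (hI τ hτ).1
  have hM11 := (hI τ hτ).2
  have hdet : (r τ).det = r τ 0 0 := by
    rw [Matrix.det_fin_two, hM10, hM11]; ring
  have hτ' : r τ = !![r τ 0 0, r τ 0 1; 0, 1] := by
    conv_lhs => rw [Matrix.eta_fin_two (r τ)]
    rw [hM10, hM11]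
  have e1 : r τ - (r τ).det • 1 = !![0, r τ 0 1; 0, 1 - r τ 0 0] := by
    rw [hdet]
    ext i j
    fin_cases i <;> fin_cases j <;> simp [hM10, hM11]
  have e2 : r τ - 1 = !![r τ 0 0 - 1, r τ 0 1; 0, 0] := by
    ext i j
    fin_cases i <;> fin_cases j <;> simp [hM10, hM11]
  have e3 : (r τ).det • 1 - r τ = !![0, - r τ 0 1; 0, r τ 0 0 - 1] := by
    rw [hdet]
    ext i j
    fin_cases i <;> fin_cases j <;> simp [hM10, hM11]
  constructor
  · rw [Matrix.trace_fin_two, hdet, hM11, add_comm]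
  · intro σ hσ
    rw [e1, e2]
    have hs : r σ = !![r σ 0 0, r σ 0 1; 0, r σ 1 1] := by
      conv_lhs => rw [Matrix.eta_fin_two (r σ)]
      rw [hD σ hσ]
    rw [hs, Matrix.mul_fin_two, Matrix.mul_fin_two]
    ext i j
    fin_cases i <;> fin_cases j <;> simp
  · intro σ hσ
    rw [e1]
    have hs : r σ - 1 = !![r σ 0 0 - 1, r σ 0 1; 0, 0] := by
      ext i j
      fin_cases i <;> fin_cases j <;> simp [(hI σ hσ).1, (hI σ hσ).2]
    rw [hs, Matrix.mul_fin_two]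
    ext i j
    fin_cases i <;> fin_cases j <;> simp
  · intro σ hσ n a ha
    rw [e2, e3]
    have hs : r σ = !![r σ 0 0, r σ 0 1; 0, r σ 1 1] := by
      conv_lhs => rw [Matrix.eta_fin_two (r σ)]
      rw [hD σ hσ]
    have h1 := hx σ hσ n a ha
    have h2 : (r σ * !![r τ 0 0 - 1, r τ 0 1; 0, 0]).trace -
        (a : A) * (r σ * !![0, - r τ 0 1; 0, r τ 0 0 - 1]).trace =
        (r τ 0 0 - 1) * (r σ 0 0 - a * r σ 1 1) := by
      rw [hs, Matrix.mul_fin_two, Matrix.mul_fin_two, Matrix.trace_fin_two, Matrix.trace_fin_two]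
      simp
      ring
    rw [h2]
    exact Ideal.mul_mem_left _ _ h1

lemma OrdC.exists_ordB {p : ℕ} {A : Type} [CommRing A] [IsLocalRing A] (ρ : GaloisRepAdic A)
    (b : Module.Basis (Fin 2) A ρ.V) (hδ : IsUnit ((toMat ρ.ρ b τ).det - 1))
    (hr : OrdC P τ p (toMat ρ.ρ b)) :
    ∃ b' : Module.Basis (Fin 2) A ρ.V, OrdB p P (toMat ρ.ρ b') := by
  obtain ⟨u, hu, hu2⟩ := exists_diag (toMat ρ.ρ b τ) hr.h1 hδ
  obtain ⟨b', hb'⟩ := exists_basis_conj ρ b u hu
  refine ⟨b', ?_⟩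
  have hdet : (toMat ρ.ρ b' τ).det = (toMat ρ.ρ b τ).det := NatFam.det_conj hu (hb' τ)
  have hτ' : toMat ρ.ρ b' τ = !![(toMat ρ.ρ b τ).det, 0; 0, 1] := by
    have h1 := hb' τ
    rw [hu2] at h1
    exact hu.mul_left_cancel h1
  -- transport the conditions
  have hr' : OrdC P τ p (toMat ρ.ρ b') := by
    obtain ⟨w, hw⟩ := hu
    refine ordC_conj P τ (u := (↑w⁻¹ : M2 A)) (w⁻¹).isUnit (fun σ => ?_) hr
    have h1 := hb' σ
    rw [← hw] at h1
    have h2 : (↑w⁻¹ : M2 A) * ((w : M2 A) * toMat ρ.ρ b' σ) * (↑w⁻¹ : M2 A) =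
        (↑w⁻¹ : M2 A) * (toMat ρ.ρ b σ * w) * (↑w⁻¹ : M2 A) := by rw [h1]
    rw [← mul_assoc, Units.inv_mul, one_mul] at h2
    rw [h2, mul_assoc, mul_assoc, Units.mul_inv, mul_one]
  set δ := (toMat ρ.ρ b τ).det with hδdef
  have e1 : toMat ρ.ρ b' τ - (toMat ρ.ρ b' τ).det • 1 = !![0, 0; 0, 1 - δ] := by
    rw [hdet, hτ']
    ext i j
    fin_cases i <;> fin_cases j <;> simp
  have e2 : toMat ρ.ρ b' τ - 1 = !![δ - 1, 0; 0, 0] := by
    rw [hτ']
    ext i j
    fin_cases i <;> fin_cases j <;> simp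
  have e3 : (toMat ρ.ρ b' τ).det • 1 - toMat ρ.ρ b' τ = !![0, 0; 0, δ - 1] := by
    rw [hdet, hτ']
    ext i j
    fin_cases i <;> fin_cases j <;> simp
  have hδ' : IsUnit (1 - δ) := by
    have := hδ.neg
    rwa [neg_sub] at this
  refine ⟨fun σ hσ => ?_, fun σ hσ => ?_, fun σ hσ n a ha => ?_⟩
  · have h1 := congrFun (congrFun (hr'.h2 σ hσ) 1) 0
    rw [e1, e2, Matrix.eta_fin_two (toMat ρ.ρ b' σ), Matrix.mul_fin_two, Matrix.mul_fin_two] at h1
    simp at h1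
    exact (hδ'.mul_right_eq_zero).mp ((hδ.mul_left_eq_zero).mp h1)
  · have h1 := congrFun (congrFun (hr'.h3 σ hσ) 1) 0
    have h2 := congrFun (congrFun (hr'.h3 σ hσ) 1) 1
    rw [e1, Matrix.mul_apply, Fin.sum_univ_two] at h1 h2
    simp only [Matrix.of_apply, Matrix.cons_val', Matrix.cons_val_zero, Matrix.cons_val_one,
      Matrix.sub_apply, Matrix.one_apply, zero_mul, zero_add, Matrix.zero_apply,
      Matrix.cons_val_fin_one] at h1 h2
    norm_num at h1 h2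
    constructor
    · exact (hδ'.mul_right_eq_zero).mp h1
    · exact sub_eq_zero.mp ((hδ'.mul_right_eq_zero).mp h2)
  · have h1 := hr'.h4 σ hσ n a ha
    rw [e2, e3] at h1
    have h2 : (toMat ρ.ρ b' σ * !![δ - 1, 0; 0, 0]).trace -
        (a : A) * (toMat ρ.ρ b' σ * !![0, 0; 0, δ - 1]).trace =
        (δ - 1) * (toMat ρ.ρ b' σ 0 0 - a * toMat ρ.ρ b' σ 1 1) := by
      have hs : toMat ρ.ρ b' σ = !![toMat ρ.ρ b' σ 0 0, toMat ρ.ρ b' σ 0 1;
        toMat ρ.ρ b' σ 1 0, toMat ρ.ρ b' σ 1 1] := Matrix.eta_fin_two _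
      generalize toMat ρ.ρ b' σ 0 0 = s at hs ⊢
      generalize toMat ρ.ρ b' σ 0 1 = t at hs ⊢
      generalize toMat ρ.ρ b' σ 1 0 = v at hs ⊢
      generalize toMat ρ.ρ b' σ 1 1 = w at hs ⊢
      rw [hs, Matrix.mul_fin_two, Matrix.mul_fin_two, Matrix.trace_fin_two, Matrix.trace_fin_two]
      simp
      ring
    rw [h2] at h1
    exact (Ideal.unit_mul_mem_iff_mem _ hδ).mp h1

end OrdFam

end Fermat.Agent.H53
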