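import Fermat.Agent.H53Family

set_option autoImplicit false
set_option linter.style.haveILetI false
set_option linter.unusedSectionVars false

noncomputable section

open scoped TensorProduct
open IsLocalRing GaloisRep
open Fermat.Agent.H69 (ev IsNormalized)

namespace Fermat.Agent.H53

/-- complete local rings are Henselian -/
lemma henselian_of_complete (A : Type) [CommRing A] [IsLocalRing A]
    [IsAdicComplete (maximalIdeal A) A] : HenselianLocalRing A where
  is_henselian f hf a₀ h₁ h₂ :=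
    HenselianRing.is_henselian (I := maximalIdeal A) f hf a₀ h₁
      (h₂.map (Ideal.Quotient.mk (maximalIdeal A)))

section Residue

variable {𝒪 : Type} [CommRing 𝒪] [IsLocalRing 𝒪] (A : Type) [CommRing A] [IsLocalRing A]
  [Algebra 𝒪 A]

/-- the residue map as an algebra hom -/
def resₐ : A →ₐ[𝒪] ResidueField A := IsScalarTower.toAlgHom 𝒪 A (ResidueField A)

lemma resₐ_coe : ((resₐ (𝒪 := 𝒪) A : A →ₐ[𝒪] ResidueField A) : A →+* ResidueField A) =
    residue A := rfl

/-- the map of residue fields as an algebra hom -/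
def resMapₐ [IsLocalHom (algebraMap 𝒪 A)] : ResidueField 𝒪 →ₐ[𝒪] ResidueField A where
  __ := ResidueField.map (algebraMap 𝒪 A)
  commutes' a := rfl

lemma resMapₐ_coe [IsLocalHom (algebraMap 𝒪 A)] :
    ((resMapₐ (𝒪 := 𝒪) A : ResidueField 𝒪 →ₐ[𝒪] ResidueField A) :
      ResidueField 𝒪 →+* ResidueField A) = ResidueField.map (algebraMap 𝒪 A) := rfl

end Residue

lemma isUnit_of_res {A : Type} [CommRing A] [IsLocalRing A] {u : M2 A}
    (h : IsUnit (u.map (residue A))) : IsUnit u := by
  rw [Matrix.isUnit_iff_isUnit_det] at h ⊢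
  have h1 : (u.map (residue A)).det = residue A u.det := by
    rw [← RingHom.mapMatrix_apply, ← RingHom.map_det]
  rw [h1] at h
  exact (isUnit_map_iff (residue A) _).mp h

lemma res_eq_one {A : Type} [CommRing A] [IsLocalRing A] {u : M2 A}
    (h : ∀ i j, u i j - (1 : M2 A) i j ∈ maximalIdeal A) : u.map (residue A) = 1 := by
  ext i j
  have := h i j
  rw [← residue_eq_zero_iff, map_sub, sub_eq_zero] at this
  rw [Matrix.map_apply, this, Matrix.one_apply, Matrix.one_apply]
  split_ifs <;> simp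

/-- main normal form result for complete test algebras -/
theorem exists_normal_form {𝒪 : Type} [CommRing 𝒪] [IsLocalRing 𝒪]
    {x z : MonoidAlgebra 𝒪 GQ} {rbar : GQ →* M2 (ResidueField 𝒪)}
    (hx : ev rbar x = !![1, 0; 0, 0]) (hz : ev rbar z = !![0, 0; 1, 0])
    {A : Type} [CommRing A] [IsLocalRing A] [Algebra 𝒪 A] [HenselianLocalRing A]
    [IsLocalHom (algebraMap 𝒪 A)] (r : GQ →* M2 A) (u : M2 (ResidueField A)) (hu : IsUnit u)
    (huc : ∀ σ, u * mapMat (residue A) r σ =
      mapMat (ResidueField.map (algebraMap 𝒪 A)) rbar σ * u) :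
    ∃ (V : M2 A) (r' : GQ →* M2 A), IsUnit V ∧ IsNormalized x z r' ∧
      (∀ σ, V * r' σ = r σ * V) ∧
      mapMat (residue A) r' = mapMat (ResidueField.map (algebraMap 𝒪 A)) rbar := by
  -- lift `u⁻¹`
  obtain ⟨ui, hui1, hui2⟩ : ∃ ui : M2 (ResidueField A), u * ui = 1 ∧ ui * u = 1 := by
    obtain ⟨v, rfl⟩ := hu
    exact ⟨↑v⁻¹, v.mul_inv, v.inv_mul⟩
  obtain ⟨w, hw⟩ : ∃ w : M2 A, w.map (residue A) = ui := by
    choose f hf using fun i j => residue_surjective (R := A) (ui i j)
    exact ⟨Matrix.of f, by ext i j; exact hf i j⟩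
  have hwu : IsUnit w := isUnit_of_res (by
    rw [hw]; exact ⟨⟨ui, u, hui2, hui1⟩, rfl⟩)
  have hwdet : IsUnit w.det := (Matrix.isUnit_iff_isUnit_det w).mp hwu
  set r1 := H69.conjRep w hwdet r with hr1
  have hspec := H69.conjRep_spec w hwdet r
  have hmapmul : ∀ a b : M2 A, (a * b).map (residue A) = a.map (residue A) * b.map (residue A) :=
    fun a b => Matrix.map_mul
  have hr1bar : mapMat (residue A) r1 = mapMat (ResidueField.map (algebraMap 𝒪 A)) rbar := by
    ext1 σ
    have h1 := congrArg (fun m : M2 A => m.map (residue A)) (hspec σ)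
    simp only [hmapmul, hw] at h1
    have h2 : (r1 σ).map (residue A) = u * (r σ).map (residue A) * ui := by
      calc (r1 σ).map (residue A) = (u * ui) * (r1 σ).map (residue A) := by rw [hui1, one_mul]
        _ = u * (ui * (r1 σ).map (residue A)) := by rw [mul_assoc]
        _ = u * ((r σ).map (residue A) * ui) := by rw [h1]
        _ = u * (r σ).map (residue A) * ui := by rw [mul_assoc]
    rw [mapMat_apply', h2]
    have h3 := huc σ
    rw [mapMat_apply' (residue A)] at h3
    rw [h3, mul_assoc, hui1, mul_one]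
  -- evaluate x and z
  have hev : ∀ (y : MonoidAlgebra 𝒪 GQ) (i j : Fin 2),
      residue A (ev r1 y i j) = ResidueField.map (algebraMap 𝒪 A) (ev rbar y i j) := by
    intro y i j
    have h1 := ev_map (resₐ (𝒪 := 𝒪) A) r1 y i j
    have h2 := ev_map (resMapₐ (𝒪 := 𝒪) A) rbar y i j
    rw [resₐ_coe, hr1bar] at h1
    rw [resMapₐ_coe] at h2
    exact h1.symm.trans h2
  have hx' : ∀ i j, ev r1 x i j - (!![1, 0; 0, 0] : M2 A) i j ∈ maximalIdeal A := by
    intro i j
    rw [← residue_eq_zero_iff, map_sub, hev, hx, sub_eq_zero]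
    fin_cases i <;> fin_cases j <;> simp
  have hz' : ∀ i j, ev r1 z i j - (!![0, 0; 1, 0] : M2 A) i j ∈ maximalIdeal A := by
    intro i j
    rw [← residue_eq_zero_iff, map_sub, hev, hz, sub_eq_zero]
    fin_cases i <;> fin_cases j <;> simp
  obtain ⟨u', r2, hu', hn, hc⟩ := H69.exists_normalized r1 hx' hz'
  have hu'bar := res_eq_one hu'
  have hu'u : IsUnit u' := isUnit_of_res (by rw [hu'bar]; exact isUnit_one)
  refine ⟨w * u', r2, hwu.mul hu'u, hn, fun σ => ?_, ?_⟩
  · rw [mul_assoc, hc, ← mul_assoc, hspec, mul_assoc]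
  · rw [← hr1bar]
    ext1 σ
    have h1 := congrArg (fun m : M2 A => m.map (residue A)) (hc σ)
    simp only [hmapmul, hu'bar, one_mul, mul_one] at h1
    exact h1

end Fermat.Agent.H53
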