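import Mathlib
import Fermat.Agent.H56Defs
import Fermat.Agent.H53Tame5
import Fermat.Agent.H54Place
import Fermat.Agent.H61GenFrob
import Fermat.Agent.H91Inertia

set_option autoImplicit false
set_option maxSynthPendingDepth 3

/-!
# S56, (S): the local bound at unipotently ramified primes
-/

noncomputable section

open IsLocalRing Module ExtCitation
open scoped Pointwise
open Fermat.Agent.H55 Fermat.Agent.H53 Fermat.Agent.H56

namespace Fermat.Agent.H61.S56S

/-! ### Matrix lemmas -/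

section Mat

variable {A : Type} [CommRing A] [Nontrivial A]

/-- unipotent 2x2 matrices: trace and determinant -/
theorem trace_det_of_charpoly {M : M2 A} (h : M.charpoly = (Polynomial.X - 1) ^ 2) :
    M.trace = 2 ∧ M.det = 1 := by
  rw [Matrix.charpoly_fin_two] at h
  have h1 := congrArg (fun f : Polynomial A => f.coeff 1) h
  have h0 := congrArg (fun f : Polynomial A => f.coeff 0) h
  have e : (Polynomial.X - 1 : Polynomial A) ^ 2 = Polynomial.X ^ 2 - Polynomial.C 2 * Polynomial.X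
      + Polynomial.C 1 := by
    rw [Polynomial.C_1, show (Polynomial.C (2 : A)) = 2 from rfl]
    ring
  rw [e] at h1 h0
  simp only [Polynomial.coeff_add, Polynomial.coeff_sub, Polynomial.coeff_C_mul,
    Polynomial.coeff_X_one, Polynomial.coeff_X_zero, Polynomial.coeff_C, Polynomial.coeff_X_pow] at h1 h0
  constructor
  · simpa using h1
  · simpa using h0

/-- the nilpotent part of a unipotent matrix -/
theorem sq_sub_one {M : M2 A} (ht : M.trace = 2) (hd : M.det = 1) : (M - 1) * (M - 1) = 0 := by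
  have h1 := Matrix.aeval_self_charpoly M
  rw [Matrix.charpoly_fin_two, ht, hd] at h1
  simp only [map_add, map_sub, map_mul, Polynomial.aeval_X, map_pow, Polynomial.aeval_C] at h1
  have h2 : (algebraMap A (M2 A)) 2 = 2 := map_ofNat _ 2
  rw [h2, map_one] at h1
  rw [← h1]
  noncomm_ring

end Mat

section Nil

variable {k : Type} [Field k]

/-- elements of `sl2` commuting with a nonzero nilpotent element are multiples of it -/
theorem eq_smul_of_commute {N X : M2 k} (h2 : (2 : k) ≠ 0) (hN : N * N = 0) (hNt : N.trace = 0)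
    (hN0 : N ≠ 0) (hX : X.trace = 0) (hc : N * X = X * N) : ∃ a : k, X = a • N := by
  rw [Matrix.trace_fin_two] at hNt hX
  have e00 := congrFun (congrFun hN 0) 0
  have f00 := congrFun (congrFun hc 0) 0
  have f01 := congrFun (congrFun hc 0) 1
  have f10 := congrFun (congrFun hc 1) 0
  simp only [Matrix.mul_apply, Fin.sum_univ_two, Matrix.zero_apply] at e00 f00 f01 f10
  have hd : N 1 1 = - N 0 0 := by linear_combination hNt
  have hxd : X 1 1 = - X 0 0 := by linear_combination hX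
  rw [hd, hxd] at f01 f10
  by_cases hb : N 0 1 = 0
  · have ha : N 0 0 = 0 := by
      rw [hb] at e00
      have : N 0 0 * N 0 0 = 0 := by linear_combination e00
      exact mul_self_eq_zero.mp this
    have hcc : N 1 0 ≠ 0 := by
      intro h
      apply hN0
      ext i j
      fin_cases i <;> fin_cases j <;> simp [ha, hb, h, hd]
    rw [ha] at f10
    rw [hb] at f00
    have g1 : X 0 1 = 0 := by
      have : N 1 0 * X 0 1 = 0 := by linear_combination -f00
      exact (mul_eq_zero.mp this).resolve_left hcc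
    have g2 : X 0 0 = 0 := by
      have : 2 * (N 1 0 * X 0 0) = 0 := by linear_combination f10
      have := (mul_eq_zero.mp this).resolve_left h2
      exact (mul_eq_zero.mp this).resolve_left hcc
    refine ⟨X 1 0 / N 1 0, ?_⟩
    ext i j
    fin_cases i <;> fin_cases j
    · simp [ha, g2]
    · simp [hb, g1]
    · simp [hcc]
    · simp [hd, hxd, ha, g2]
  · refine ⟨X 0 1 / N 0 1, ?_⟩
    have g0 : X 0 0 = X 0 1 / N 0 1 * N 0 0 := by
      field_simp
      have : 2 * (X 0 0 * N 0 1) = 2 * (X 0 1 * N 0 0) := by linear_combination -f01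
      exact mul_left_cancel₀ h2 this
    have g1 : X 1 0 = X 0 1 / N 0 1 * N 1 0 := by
      field_simp
      linear_combination f00
    ext i j
    fin_cases i <;> fin_cases j
    · simpa using g0
    · simp [hb]
    · simpa using g1
    · simp only [Fin.mk_one, Fin.isValue, Matrix.smul_apply, smul_eq_mul, hd, hxd, g0]
      ring

/-- nilpotent elements orthogonal to a nonzero nilpotent element are multiples of it -/
theorem eq_smul_of_trace {N X : M2 k} (hN : N * N = 0) (hNt : N.trace = 0)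
    (hN0 : N ≠ 0) (hX : X.trace = 0) (hXX : X * X = 0) (hc : (N * X).trace = 0) :
    ∃ a : k, X = a • N := by
  rw [Matrix.trace_fin_two] at hNt hX hc
  have e00 := congrFun (congrFun hN 0) 0
  have e11 := congrFun (congrFun hN 1) 1
  have f00 := congrFun (congrFun hXX 0) 0
  simp only [Matrix.mul_apply, Fin.sum_univ_two, Matrix.zero_apply] at e00 f00 hc
  have hd : N 1 1 = - N 0 0 := by linear_combination hNt
  have hxd : X 1 1 = - X 0 0 := by linear_combination hX
  rw [hd, hxd] at hc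
  by_cases hb : N 0 1 = 0
  · have ha : N 0 0 = 0 := by
      rw [hb] at e00
      have : N 0 0 * N 0 0 = 0 := by linear_combination e00
      exact mul_self_eq_zero.mp this
    have hcc : N 1 0 ≠ 0 := by
      intro h
      apply hN0
      ext i j
      fin_cases i <;> fin_cases j <;> simp [ha, hb, h, hd]
    rw [hb, ha] at hc
    have g1 : X 0 1 = 0 := by
      have : N 1 0 * X 0 1 = 0 := by linear_combination hc
      exact (mul_eq_zero.mp this).resolve_left hcc
    have g2 : X 0 0 = 0 := by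
      rw [g1] at f00
      have : X 0 0 * X 0 0 = 0 := by linear_combination f00
      exact mul_self_eq_zero.mp this
    refine ⟨X 1 0 / N 1 0, ?_⟩
    ext i j
    fin_cases i <;> fin_cases j
    · simp [ha, g2]
    · simp [hb, g1]
    · simp [hcc]
    · simp [hd, hxd, ha, g2]
  · refine ⟨X 0 1 / N 0 1, ?_⟩
    have hN10 : N 1 0 = - (N 0 0 * N 0 0) / N 0 1 := by
      field_simp
      linear_combination e00
    have hX10 : X 1 0 = (-(2 * N 0 0 * X 0 0) + N 0 0 * N 0 0 * X 0 1 / N 0 1) / N 0 1 := by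
      rw [hN10] at hc
      field_simp at hc ⊢
      linear_combination hc
    have g0 : X 0 0 = X 0 1 / N 0 1 * N 0 0 := by
      rw [hX10] at f00
      have : (X 0 0 - X 0 1 / N 0 1 * N 0 0) ^ 2 = 0 := by
        field_simp at f00 ⊢
        linear_combination f00
      have := pow_eq_zero_iff (two_ne_zero) |>.mp this
      linear_combination this
    have g1 : X 1 0 = X 0 1 / N 0 1 * N 1 0 := by
      rw [hX10, hN10, g0]
      field_simp
      ring
    ext i j
    fin_cases i <;> fin_cases j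
    · simpa using g0
    · simp [hb]
    · simpa using g1
    · simp only [Fin.mk_one, Fin.isValue, Matrix.smul_apply, smul_eq_mul, hd, hxd, g0]
      ring

/-- the image of `Ad(1 + N) - 1` on `sl2` is the orthogonal of `N` -/
theorem exists_ad_sub {N X : M2 k} (h2 : (2 : k) ≠ 0) (hN : N * N = 0) (hNt : N.trace = 0)
    (hN0 : N ≠ 0) (hX : X.trace = 0) (hc : (N * X).trace = 0) :
    ∃ Y : M2 k, Y.trace = 0 ∧ (1 + N) * Y * (1 - N) - Y = X := by
  rw [Matrix.trace_fin_two] at hNt hX hc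
  have e00 := congrFun (congrFun hN 0) 0
  simp only [Matrix.mul_apply, Fin.sum_univ_two, Matrix.zero_apply] at e00 hc
  have hd : N 1 1 = - N 0 0 := by linear_combination hNt
  have hxd : X 1 1 = - X 0 0 := by linear_combination hX
  rw [hd, hxd] at hc
  generalize ha' : N 0 0 = a at *
  generalize hb' : N 0 1 = b at *
  generalize hc' : N 1 0 = c at *
  generalize hx' : X 0 0 = x at *
  generalize hy' : X 0 1 = y at *
  generalize hz' : X 1 0 = z at *
  have hNm : N = !![a, b; c, -a] := by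
    ext i j; fin_cases i <;> fin_cases j <;> simp [ha', hb', hc', hd]
  have hXm : X = !![x, y; z, -x] := by
    ext i j; fin_cases i <;> fin_cases j <;> simp [hx', hy', hz', hxd]
  rw [hNm, hXm]
  by_cases hb : b = 0
  · have ha : a = 0 := by
      rw [hb] at e00
      have : a * a = 0 := by linear_combination e00
      exact mul_self_eq_zero.mp this
    have hcc : c ≠ 0 := by
      rintro rfl
      apply hN0
      rw [hNm, ha, hb]
      ext i j; fin_cases i <;> fin_cases j <;> simp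
    have hy : y = 0 := by
      rw [ha, hb] at hc
      have : c * y = 0 := by linear_combination hc
      exact (mul_eq_zero.mp this).resolve_left hcc
    subst hb ha hy
    refine ⟨!![(z - x * c) / (2 * c), -x / c; 0, -((z - x * c) / (2 * c))], by
      simp [Matrix.trace_fin_two], ?_⟩
    ext i j
    fin_cases i <;> fin_cases j
    · simp [Matrix.mul_apply, Fin.sum_univ_two, Matrix.one_apply]
      field_simp
    · simp [Matrix.mul_apply, Fin.sum_univ_two, Matrix.one_apply]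
    · simp [Matrix.mul_apply, Fin.sum_univ_two, Matrix.one_apply]
      field_simp
      ring
    · simp [Matrix.mul_apply, Fin.sum_univ_two, Matrix.one_apply]
      field_simp
  · have hc0 : c = -(a * a) / b := by
      field_simp
      linear_combination e00
    have hz0 : z = (-(2 * a * x) + a * a * y / b) / b := by
      rw [hc0] at hc
      field_simp at hc ⊢
      linear_combination hc
    refine ⟨!![-y / (2 * b) - (x - a * y / b) / 2, 0; ((x - a * y / b) * (1 + a) + a * y / b) / b,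
      -(-y / (2 * b) - (x - a * y / b) / 2)], by simp [Matrix.trace_fin_two], ?_⟩
    subst hc0 hz0
    ext i j
    fin_cases i <;> fin_cases j
    · simp [Matrix.mul_apply, Fin.sum_univ_two, Matrix.one_apply]
      field_simp
      ring
    · simp [Matrix.mul_apply, Fin.sum_univ_two, Matrix.one_apply]
      field_simp
      ring
    · simp [Matrix.mul_apply, Fin.sum_univ_two, Matrix.one_apply]
      field_simp
      ring
    · simp [Matrix.mul_apply, Fin.sum_univ_two, Matrix.one_apply]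
      field_simp
      ring

/-- powers of a unipotent matrix -/
theorem one_add_pow {N : M2 k} (hN : N * N = 0) (n : ℕ) : (1 + N) ^ n = 1 + (n : k) • N := by
  induction n with
  | zero => simp
  | succ n ih =>
    rw [pow_succ, ih, mul_add, mul_one, add_mul, one_mul, smul_mul_assoc, hN, smul_zero, add_zero,
      Nat.cast_succ, add_smul, one_smul]
    abel

/-- unipotent matrices `u` such that `u₀ u` is unipotent are of the form `1 + a (u₀ - 1)` -/
theorem exists_eq_one_add {u₀ u : M2 k} (ht₀ : u₀.trace = 2) (hd₀ : u₀.det = 1)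
    (ht : u.trace = 2) (hd : u.det = 1) (htt : (u₀ * u).trace = 2) (hne : u₀ ≠ 1) :
    ∃ a : k, u = 1 + a • (u₀ - 1) := by
  have h1 : (1 : M2 k).trace = 2 := by simp
  have e1 : (u₀ - 1) * (u - 1) = u₀ * u - u₀ - u + 1 := by noncomm_ring
  obtain ⟨a, ha⟩ := eq_smul_of_trace (N := u₀ - 1) (X := u - 1) (sq_sub_one ht₀ hd₀)
    (by rw [Matrix.trace_sub, ht₀, h1, sub_self]) (sub_ne_zero.mpr hne)
    (by rw [Matrix.trace_sub, ht, h1, sub_self]) (sq_sub_one ht hd) (by
      rw [e1, Matrix.trace_add, Matrix.trace_sub, Matrix.trace_sub, htt, ht₀, ht, h1]; ring)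
  exact ⟨a, by rw [← ha]; abel⟩

end Nil

/-! ### Dual numbers -/

section Dual

variable {k : Type} [Field k]

theorem mem_maximalIdeal_iff (y : DualNumber k) :
    y ∈ maximalIdeal (DualNumber k) ↔ TrivSqZeroExt.fst y = 0 := by
  rw [mem_maximalIdeal, mem_nonunits_iff, TrivSqZeroExt.isUnit_iff_isUnit_fst, isUnit_iff_ne_zero,
    not_not]

theorem maximalIdeal_sq : maximalIdeal (DualNumber k) ^ 2 = ⊥ := by
  rw [eq_bot_iff, pow_two, Ideal.mul_le]
  intro x hx y hy
  rw [mem_maximalIdeal_iff] at hx hy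
  rw [Ideal.mem_bot]
  ext
  · rw [TrivSqZeroExt.fst_mul, hx, zero_mul, TrivSqZeroExt.fst_zero]
  · rw [TrivSqZeroExt.snd_mul, hx, hy, TrivSqZeroExt.snd_zero]
    simp

theorem eq_one_of_cong {M : M2 (DualNumber k)} (h : Cong (maximalIdeal (DualNumber k) ^ 2) M) :
    M = 1 := by
  refine Matrix.ext fun i j => ?_
  have h1 := h i j
  rw [maximalIdeal_sq, Ideal.mem_bot, sub_eq_zero] at h1
  exact h1

theorem cong_of_redM {M : M2 (DualNumber k)} (h : redM k M = 1) :
    Cong (maximalIdeal (DualNumber k)) M := by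
  intro i j
  rw [mem_maximalIdeal_iff, TrivSqZeroExt.fst_sub]
  have h1 := congrFun (congrFun h i) j
  have h2 : TrivSqZeroExt.fst (M i j) = (1 : M2 k) i j := h1
  rw [h2, Matrix.one_apply, Matrix.one_apply]
  split_ifs <;> simp

theorem sndM_mul (M M' : M2 (DualNumber k)) :
    sndM (M * M') = sndM M * redM k M' + redM k M * sndM M' := by
  ext i j
  simp only [sndM, redM, Matrix.map_apply, Matrix.mul_apply, Matrix.add_apply, Fin.sum_univ_two,
    TrivSqZeroExt.snd_add, TrivSqZeroExt.snd_mul, RingHom.mapMatrix_apply]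
  simp
  ring

theorem trace_sndM (M : M2 (DualNumber k)) : (sndM M).trace = TrivSqZeroExt.snd M.trace := by
  simp [Matrix.trace_fin_two, sndM]

variable {G : Type} [Group G]

theorem coc_mul (R : G →* M2 (DualNumber k)) (σ τ : G) :
    coc R (σ * τ) = redM k (R σ) * coc R τ * redM k (R σ⁻¹) + coc R σ := by
  have h1 : redM k (R τ) * redM k (R τ⁻¹) = 1 := by
    rw [← map_mul, ← map_mul, mul_inv_cancel, map_one, map_one]
  rw [coc, coc, coc, map_mul, sndM_mul, mul_inv_rev, map_mul, map_mul]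
  rw [add_mul]
  have e1 : sndM (R σ) * redM k (R τ) * (redM k (R τ⁻¹) * redM k (R σ⁻¹))
      = sndM (R σ) * (redM k (R τ) * redM k (R τ⁻¹)) * redM k (R σ⁻¹) := by noncomm_ring
  rw [e1, h1, mul_one, add_comm]
  noncomm_ring

theorem sndM_eq (R : G →* M2 (DualNumber k)) (σ : G) : sndM (R σ) = coc R σ * redM k (R σ) := by
  have h1 : redM k (R σ⁻¹) * redM k (R σ) = 1 := by
    rw [← map_mul, ← map_mul, inv_mul_cancel, map_one, map_one]
  rw [coc, mul_assoc, h1, mul_one]

end Dual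

/-! ### The Selmer condition -/

section Main

variable {p : ℕ} [Fact p.Prime] {k : Type} [Field k] [Algebra (ZMod p) k]

theorem natCast_p_eq_zero : (p : k) = 0 := by
  have h : (algebraMap (ZMod p) k) (p : ZMod p) = 0 := by rw [ZMod.natCast_self, map_zero]
  rwa [map_natCast] at h

theorem two_ne (hp2 : p ≠ 2) : (2 : k) ≠ 0 := by
  intro h
  have h1 : (algebraMap (ZMod p) k) ((2 : ℕ) : ZMod p) = 0 := by
    rw [map_natCast]; exact_mod_cast h
  rw [map_eq_zero_iff _ (algebraMap (ZMod p) k).injective, ZMod.natCast_eq_zero_iff] at h1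
  exact hp2 ((Nat.prime_dvd_prime_iff_eq Fact.out Nat.prime_two).mp h1)

theorem liesOver (q : Nat.Primes) : (primeLocalPlace q).LiesOverPrime q := by
  have : Fact (q : ℕ).Prime := ⟨q.2⟩
  exact H54.liesOverPrime_padicPlace (q : ℕ)

theorem exists_frob (q : Nat.Primes) :
    ∃ φ : Dq q, (primeLocalPlace q).IsFrobeniusAt (φ : H91.GQ) q := by
  obtain ⟨φ, hφ⟩ := H54.exists_isFrobeniusAt q.2 (liesOver q)
  exact ⟨⟨φ, hφ.mem_decompositionSubgroup⟩, hφ⟩

theorem inertia_le (q : Nat.Primes) {σ : H91.GQ} (hσ : σ ∈ Iq q) : σ ∈ Dq q := by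
  obtain ⟨⟨τ, hτ⟩, -, rfl⟩ := hσ
  exact hτ

theorem conj_inertia (q : Nat.Primes) (φ : Dq q) {σ : H91.GQ} (hσ : σ ∈ Iq q) :
    (φ : H91.GQ)⁻¹ * σ * φ ∈ Iq q := by
  have h := H91.conj_mem_inertia hσ (φ : H91.GQ)⁻¹
  have h2 : (φ : H91.GQ)⁻¹ • primeLocalPlace q = primeLocalPlace q := (Dq q).inv_mem φ.2
  rw [h2, inv_inv] at h
  exact h

theorem smooth_of_finLev {r : H91.GQ →* M2 k} (hr : FinLev r) (q : Nat.Primes) :
    Smooth (Dlev q) (rhoD (ad p r) q) := by
  obtain ⟨U, hU, h⟩ := hr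
  refine fun X => ⟨U.comap (Dq q).subtype, ⟨U, hU, le_rfl⟩, fun s hs => ?_⟩
  have h1 : r (s : H91.GQ) = 1 := h _ hs
  have h2 : r (s : H91.GQ)⁻¹ = 1 := h _ (U.inv_mem hs)
  ext1
  show r (s : H91.GQ) * (X : M2 k) * r (s : H91.GQ)⁻¹ = X
  rw [h1, h2, one_mul, mul_one]

variable (p) in
/-- cocycles vanishing on inertia -/
def Lur (r : H91.GQ →* M2 k) (q : Nat.Primes) : Submodule (ZMod p) (Dq q → SL p k) where
  carrier := {c | c ∈ Z1 (Dlev q) (rhoD (ad p r) q) ∧ ∀ σ : Dq q, (σ : H91.GQ) ∈ Iq q → c σ = 0}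
  add_mem' {c c'} h h' := ⟨Submodule.add_mem _ h.1 h'.1, fun σ hσ => by
    rw [Pi.add_apply, h.2 σ hσ, h'.2 σ hσ, add_zero]⟩
  zero_mem' := ⟨Submodule.zero_mem _, fun σ _ => rfl⟩
  smul_mem' a c h := ⟨Submodule.smul_mem _ a h.1, fun σ hσ => by
    rw [Pi.smul_apply, h.2 σ hσ, smul_zero]⟩

/-- an unramified cocycle which vanishes at a Frobenius element is zero -/
theorem eq_zero_of_frob {r : H91.GQ →* M2 k} {q : Nat.Primes} {φ : Dq q}
    (hφ : (primeLocalPlace q).IsFrobeniusAt (φ : H91.GQ) q) {c : Dq q → SL p k} (hc : c ∈ Lur p r q)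
    (h0 : c φ = 0) : c = 0 := by
  obtain ⟨⟨⟨U, ⟨W, hW, hWU⟩, hU⟩, hcoc⟩, hI⟩ := hc
  have hpow : ∀ n : ℕ, c (φ ^ n) = 0 := by
    intro n
    induction n with
    | zero =>
      have h := hcoc 1 1
      rw [mul_one, map_one, Module.End.one_apply] at h
      rw [pow_zero]
      exact left_eq_add.mp h
    | succ n ih => rw [pow_succ, hcoc, h0, ih, map_zero, add_zero]
  funext σ
  obtain ⟨n, i, hi, u, hu, hσ⟩ := GenFrob.exists_eq_pow_mul q.2 (liesOver q) hφ hW σ.2
  let iD : Dq q := ⟨i, inertia_le q hi⟩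
  have huD : u ∈ Dq q := by
    have : u = (φ ^ n * iD : Dq q)⁻¹ * σ := by
      rw [hσ]; simp [iD]; group
    rw [this]
    exact ((φ ^ n * iD : Dq q)⁻¹ * σ : Dq q).2
  have hσ' : σ = (φ ^ n * iD) * ⟨u, huD⟩ := Subtype.ext (by rw [hσ]; simp [iD])
  rw [hσ', hU _ _ (hWU hu), hcoc, hI iD hi, hpow, map_zero, add_zero]
  rfl

/-- values at Frobenius of cocycles vanishing on inertia are fixed by inertia -/
theorem fixed_of_frob {r : H91.GQ →* M2 k} {q : Nat.Primes} {φ : Dq q} {c : Dq q → SL p k}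
    (hc : c ∈ Lur p r q) {i : H91.GQ} (hi : i ∈ Iq q) :
    r i * (c φ : M2 k) = (c φ : M2 k) * r i := by
  obtain ⟨⟨-, hcoc⟩, hI⟩ := hc
  let iD : Dq q := ⟨i, inertia_le q hi⟩
  have h1 := hcoc iD φ
  have h2 := hcoc φ (φ⁻¹ * iD * φ)
  have h3 : φ * (φ⁻¹ * iD * φ) = iD * φ := by group
  rw [hI (φ⁻¹ * iD * φ) (conj_inertia q φ hi), map_zero, zero_add, h3] at h2
  rw [h2, hI iD hi, add_zero] at h1
  have h4 : (c φ : M2 k) = r i * (c φ : M2 k) * r i⁻¹ := congrArg Subtype.val h1
  calc r i * (c φ : M2 k) = r i * (c φ : M2 k) * (r i⁻¹ * r i) := by rw [rinv_mul, mul_one]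
    _ = (r i * (c φ : M2 k) * r i⁻¹) * r i := by noncomm_ring
    _ = _ := by rw [← h4]

variable (p k) in
theorem card_SL_le [Finite k] : Nat.card (SL p k) ≤ Nat.card k ^ 3 := by
  have h := Nat.card_le_card_of_injective
    (fun X : SL p k => ((X : M2 k) 0 0, (X : M2 k) 0 1, (X : M2 k) 1 0)) (by
      rintro ⟨X, hX⟩ ⟨Y, hY⟩ h
      simp only [Prod.mk.injEq] at h
      rw [mem_SL, Matrix.trace_fin_two] at hX hY
      ext i j
      fin_cases i <;> fin_cases j
      · exact h.1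
      · exact h.2.1
      · exact h.2.2
      · show X 1 1 = Y 1 1
        linear_combination hX - hY - h.1)
  refine h.trans (le_of_eq ?_)
  rw [Nat.card_prod, Nat.card_prod]
  ring

/-- image of inertia -/
theorem inertia_form {r : H91.GQ →* M2 k} {q : Nat.Primes}
    (hunip : ∀ σ ∈ Iq q, (r σ).charpoly = (Polynomial.X - 1) ^ 2) {τ : H91.GQ} (hτ : τ ∈ Iq q)
    (hne : r τ ≠ 1) {σ : H91.GQ} (hσ : σ ∈ Iq q) : ∃ a : k, r σ = 1 + a • (r τ - 1) := by
  obtain ⟨ht₀, hd₀⟩ := trace_det_of_charpoly (hunip τ hτ)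
  obtain ⟨ht, hd⟩ := trace_det_of_charpoly (hunip σ hσ)
  obtain ⟨htt, -⟩ := trace_det_of_charpoly (hunip (τ * σ) (mul_mem hτ hσ))
  rw [map_mul] at htt
  exact exists_eq_one_add ht₀ hd₀ ht hd htt hne

variable (p) in
theorem card_Lur_le [Finite k] (hp2 : p ≠ 2) {r : H91.GQ →* M2 k} {q : Nat.Primes}
    (hunip : ∀ σ ∈ Iq q, (r σ).charpoly = (Polynomial.X - 1) ^ 2) {τ : H91.GQ} (hτ : τ ∈ Iq q)
    (hne : r τ ≠ 1) : Finite (Lur p r q) ∧ Nat.card (Lur p r q) ≤ Nat.card k := by
  obtain ⟨φ, hφ⟩ := exists_frob q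
  obtain ⟨ht₀, hd₀⟩ := trace_det_of_charpoly (hunip τ hτ)
  have h1 : (1 : M2 k).trace = 2 := by simp
  have key : ∀ c : Lur p r q, ∃ a : k, ((c : Dq q → SL p k) φ : M2 k) = a • (r τ - 1) := by
    intro c
    refine eq_smul_of_commute (two_ne (p := p) hp2) (sq_sub_one ht₀ hd₀)
      (by rw [Matrix.trace_sub, ht₀, h1, sub_self]) (sub_ne_zero.mpr hne) ((c : Dq q → SL p k) φ).2 ?_
    rw [sub_mul, mul_sub, one_mul, mul_one, fixed_of_frob c.2 hτ]
  choose f hf using key
  have hinj : Function.Injective f := by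
    intro c c' h
    have h2 : (c : Dq q → SL p k) φ = (c' : Dq q → SL p k) φ := by
      refine Subtype.ext ?_
      rw [hf, hf, h]
    have hsub : (c : Dq q → SL p k) - (c' : Dq q → SL p k) ∈ Lur p r q := (Lur p r q).sub_mem c.2 c'.2
    have h3 := eq_zero_of_frob hφ hsub (by rw [Pi.sub_apply, h2, sub_self])
    exact Subtype.ext (sub_eq_zero.mp h3)
  exact ⟨Finite.of_injective f hinj, Nat.card_le_card_of_injective f hinj⟩

/-- a continuous representation over the dual numbers factors through a finite level -/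
theorem exists_level_of_mcont {R : H91.GQ →* M2 (DualNumber k)} (hR : MCont (DualNumber k) R) :
    ∃ U, krullLevels.op U ∧ ∀ σ ∈ U, R σ = 1 := by
  obtain ⟨L, hL, h⟩ := hR 2
  refine ⟨L.fixingSubgroup, (krullLevels_op_iff _).mpr ⟨L, hL, le_rfl⟩, fun σ hσ => ?_⟩
  exact eq_one_of_cong (h σ fun x hx => (IntermediateField.mem_fixingSubgroup_iff L σ).mp hσ x hx)

/-- the image of inertia under a unipotent lift is generated by the image of a tame generator -/
theorem exists_gen {q : Nat.Primes} (hpq : p ≠ (q : ℕ)) {r : H91.GQ →* M2 k}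
    {R : H91.GQ →* M2 (DualNumber k)} (hR : GoodLift r R)
    (hcond : ∀ σ ∈ Iq q, (R σ).charpoly = (Polynomial.X - 1) ^ 2) {σ₀ : H91.GQ} (hσ₀ : σ₀ ∈ Iq q)
    (hne₀ : σ₀ (piSys p q 1) ≠ piSys p q 1) :
    ∀ σ ∈ Iq q, ∃ a : ℕ, R ((σ₀ ^ a)⁻¹ * σ) = 1 := by
  intro σ hσ
  have hp0 : ((p : ℕ) : DualNumber k) ∈ maximalIdeal (DualNumber k) := by
    rw [mem_maximalIdeal_iff, TrivSqZeroExt.fst_natCast, natCast_p_eq_zero]
  have hI : ∀ τ ∈ (primeLocalPlace q).inertiaSubgroupIn ℚ,
      ∃ n, Cong (maximalIdeal (DualNumber k)) (R τ ^ p ^ n) := by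
    intro τ hτ
    obtain ⟨ht, hd⟩ := trace_det_of_charpoly (hcond τ hτ)
    refine ⟨1, cong_of_redM ?_⟩
    have h2 : (redM k (R τ) - 1) * (redM k (R τ) - 1) = 0 := by
      rw [← map_one (redM k), ← map_sub, ← map_mul, sq_sub_one ht hd, map_zero]
    rw [pow_one, map_pow]
    have h3 : redM k (R τ) = 1 + (redM k (R τ) - 1) := by abel
    rw [h3, one_add_pow h2, natCast_p_eq_zero, zero_smul, add_zero]
  obtain ⟨a, ha⟩ := exists_pow_cong q.2 (liesOver q) hpq hp0 hR.cont hI hσ₀ hne₀ hσ 2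
  exact ⟨a, eq_one_of_cong ha⟩

/-- **(S)** -/
theorem statementS [Finite k] (hp2 : p ≠ 2) : StatementS p (k := k) := by
  intro r hr q hqp hram hunip
  obtain ⟨τ, hτ, hne⟩ := hram
  obtain ⟨ht₀, hd₀⟩ := trace_det_of_charpoly (hunip τ hτ)
  have h1 : (1 : M2 k).trace = 2 := by simp
  have hNt : (r τ - 1).trace = 0 := by rw [Matrix.trace_sub, ht₀, h1, sub_self]
  have hNN : (r τ - 1) * (r τ - 1) = 0 := sq_sub_one ht₀ hd₀
  have hN0 : r τ - 1 ≠ 0 := sub_ne_zero.mpr hne
  have hsm := smooth_of_finLev (p := p) hr q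
  obtain ⟨hfin, hcard⟩ := card_Lur_le p hp2 hunip hτ hne
  have hfinSL : Finite (SL p k) := inferInstance
  let Ψ : (SL p k × Lur p r q) →ₗ[ZMod p] (Dq q → SL p k) :=
    (d0 (rhoD (ad p r) q)).coprod (Lur p r q).subtype
  have hrange : LinearMap.range Ψ = B1 (rhoD (ad p r) q) ⊔ Lur p r q := by
    rw [LinearMap.range_coprod, Submodule.range_subtype]
    rfl
  have hfinR : Finite (LinearMap.range Ψ) := Finite.of_surjective _ Ψ.surjective_rangeRestrict
  -- multiples of the nilpotent element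
  have hfix : ∀ (a : k) (σ : Dq q), (σ : H91.GQ) ∈ Iq q →
      d0 (rhoD (ad p r) q) ⟨a • (r τ - 1), by rw [mem_SL, Matrix.trace_smul, hNt, smul_zero]⟩ σ = 0 := by
    intro a σ hσ
    obtain ⟨b, hb⟩ := inertia_form hunip hτ hne hσ
    ext1
    show r (σ : H91.GQ) * (a • (r τ - 1)) * r (σ : H91.GQ)⁻¹ - a • (r τ - 1) = 0
    have h2 : r (σ : H91.GQ) * (a • (r τ - 1)) = (a • (r τ - 1)) * r (σ : H91.GQ) := by
      rw [hb, add_mul, mul_add, one_mul, mul_one, smul_mul_smul_comm, smul_mul_smul_comm, hNN,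
        smul_zero, smul_zero]
    rw [h2, mul_assoc, rmul_inv, mul_one, sub_self]
  have hker : Nat.card k ≤ Nat.card (LinearMap.ker Ψ) := by
    have hfinK : Finite (LinearMap.ker Ψ) := inferInstance
    refine Nat.card_le_card_of_injective (fun a : k => (⟨(⟨a • (r τ - 1), by
      rw [mem_SL, Matrix.trace_smul, hNt, smul_zero]⟩, ⟨- d0 (rhoD (ad p r) q) ⟨a • (r τ - 1), by
      rw [mem_SL, Matrix.trace_smul, hNt, smul_zero]⟩, ⟨Submodule.neg_mem _ (hsm.d0_mem_Z1 _),
        fun σ hσ => by rw [Pi.neg_apply, hfix a σ hσ, neg_zero]⟩⟩), by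
      rw [LinearMap.mem_ker, LinearMap.coprod_apply, Submodule.subtype_apply]
      exact add_neg_cancel _⟩ : LinearMap.ker Ψ)) ?_
    intro a b h
    have h2 : a • (r τ - 1) = b • (r τ - 1) :=
      congrArg (fun x : LinearMap.ker Ψ => ((x : SL p k × Lur p r q).1 : M2 k)) h
    have h3 : (a - b) • (r τ - 1) = 0 := by rw [sub_smul, h2, sub_self]
    exact sub_eq_zero.mp ((smul_eq_zero.mp h3).resolve_right hN0)
  have hcount : Nat.card (LinearMap.range Ψ) * Nat.card (LinearMap.ker Ψ)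
      = Nat.card (SL p k) * Nat.card (Lur p r q) := by
    rw [← Nat.card_prod (SL p k) (Lur p r q),
      Submodule.card_eq_card_quotient_mul_card (LinearMap.ker Ψ), mul_comm,
      Nat.card_congr Ψ.quotKerEquivRange.toEquiv]
  have hkpos : 0 < Nat.card k := Nat.card_pos
  refine ⟨LinearMap.range Ψ, ?_, ?_, hfinR, ?_, ?_⟩
  · rw [hrange]; exact le_sup_left
  · rw [hrange]
    refine sup_le ?_ fun c hc => hc.1
    rintro _ ⟨X, rfl⟩
    exact hsm.d0_mem_Z1 X
  · have h2 : Nat.card (LinearMap.range Ψ) * Nat.card k ≤ Nat.card k ^ 3 * Nat.card k := by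
      calc Nat.card (LinearMap.range Ψ) * Nat.card k
          ≤ Nat.card (LinearMap.range Ψ) * Nat.card (LinearMap.ker Ψ) := Nat.mul_le_mul_left _ hker
        _ = Nat.card (SL p k) * Nat.card (Lur p r q) := hcount
        _ ≤ Nat.card k ^ 3 * Nat.card k := Nat.mul_le_mul (card_SL_le p k) hcard
    exact Nat.le_of_mul_le_mul_right h2 hkpos
  · intro R hR hcond c hc
    have hpq : p ≠ (q : ℕ) := hqp.symm
    obtain ⟨σ₀, hσ₀, hne₀⟩ := exists_tame_generator q.2 (liesOver q) (p := p) hpq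
    have hgen := exists_gen hpq hR hcond hσ₀ hne₀
    -- `c` is a cocycle
    have hcocR : ∀ σ τ : H91.GQ, coc R (σ * τ) = r σ * coc R τ * r σ⁻¹ + coc R σ := fun σ τ => by
      rw [coc_mul, hR.red, hR.red]
    obtain ⟨U, hU, hUR⟩ := exists_level_of_mcont hR.cont
    have hcoc1 : ∀ σ : H91.GQ, R σ = 1 → coc R σ = 0 := fun σ h => by
      rw [coc, h]
      have : sndM (1 : M2 (DualNumber k)) = 0 := by
        ext i j
        simp only [sndM, Matrix.map_apply, Matrix.one_apply, Matrix.zero_apply]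
        split_ifs <;> simp
      rw [this, zero_mul]
    have hcZ : c ∈ Z1 (Dlev q) (rhoD (ad p r) q) := by
      refine ⟨⟨U.comap (Dq q).subtype, ⟨U, hU, le_rfl⟩, fun σ s hs => ?_⟩, fun σ τ => ?_⟩
      · ext1
        rw [hc, hc]
        show coc R ((σ : H91.GQ) * (s : H91.GQ)) = coc R (σ : H91.GQ)
        rw [hcocR, hcoc1 (s : H91.GQ) (hUR _ hs), mul_zero, zero_mul, zero_add]
      · ext1
        show (c (σ * τ) : M2 k) = r σ * (c τ : M2 k) * r (σ : H91.GQ)⁻¹ + (c σ : M2 k)
        rw [hc, hc, hc]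
        exact hcocR _ _
    -- the generator acts nontrivially
    have hrne : r σ₀ ≠ 1 := by
      intro h
      obtain ⟨a, ha⟩ := hgen τ hτ
      have h2 : r ((σ₀ ^ a)⁻¹ * τ) = 1 := by rw [← hR.red, ha, map_one]
      have h3 : r τ = r (σ₀ ^ a) * r ((σ₀ ^ a)⁻¹ * τ) := by rw [← map_mul]; group
      rw [h2, mul_one, map_pow, h, one_pow] at h3
      exact hne h3
    obtain ⟨hs₀, hs₀'⟩ := trace_det_of_charpoly (hunip σ₀ hσ₀)
    have hMt : (r σ₀ - 1).trace = 0 := by rw [Matrix.trace_sub, hs₀, h1, sub_self]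
    have hMM : (r σ₀ - 1) * (r σ₀ - 1) = 0 := sq_sub_one hs₀ hs₀'
    have hM0 : r σ₀ - 1 ≠ 0 := sub_ne_zero.mpr hrne
    let s₀ : Dq q := ⟨σ₀, inertia_le q hσ₀⟩
    have htr : ((r σ₀ - 1) * (c s₀ : M2 k)).trace = 0 := by
      have h2 := sndM_eq R σ₀
      have h3 := trace_sndM (R σ₀)
      rw [(trace_det_of_charpoly (hcond σ₀ hσ₀)).1, h2, hR.red] at h3
      have h4 : TrivSqZeroExt.snd (2 : DualNumber k) = 0 := by
        rw [← one_add_one_eq_two, TrivSqZeroExt.snd_add, TrivSqZeroExt.snd_one, add_zero]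
      rw [h4] at h3
      rw [hc, sub_mul, one_mul, Matrix.trace_sub, Matrix.trace_mul_comm, h3, zero_sub, neg_eq_zero]
      have := (c s₀).2
      rw [mem_SL, hc] at this
      exact this
    obtain ⟨Y, hY, hY'⟩ := exists_ad_sub (two_ne (p := p) hp2) hMM hMt hM0 (c s₀).2 htr
    have hinv : r (σ₀ : H91.GQ)⁻¹ = 1 - (r σ₀ - 1) := by
      have h2 : (1 - (r σ₀ - 1)) * r σ₀ = 1 := by
        have : (1 - (r σ₀ - 1)) * r σ₀ = 1 - (r σ₀ - 1) * (r σ₀ - 1) := by noncomm_ring
        rw [this, hMM, sub_zero]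
      calc r (σ₀ : H91.GQ)⁻¹ = ((1 - (r σ₀ - 1)) * r σ₀) * r (σ₀ : H91.GQ)⁻¹ := by rw [h2, one_mul]
        _ = _ := by rw [mul_assoc, rmul_inv, mul_one]
    rw [hrange]
    refine Submodule.mem_sup.mpr ⟨d0 (rhoD (ad p r) q) ⟨Y, hY⟩, ⟨_, rfl⟩,
      c - d0 (rhoD (ad p r) q) ⟨Y, hY⟩, ?_, add_sub_cancel _ _⟩
    set c' : Dq q → SL p k := c - d0 (rhoD (ad p r) q) ⟨Y, hY⟩ with hc'
    have hc'Z : c' ∈ Z1 (Dlev q) (rhoD (ad p r) q) := Submodule.sub_mem _ hcZ (hsm.d0_mem_Z1 _)
    have hc's : c' s₀ = 0 := by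
      ext1
      show (c s₀ : M2 k) - (r σ₀ * Y * r (σ₀ : H91.GQ)⁻¹ - Y) = 0
      rw [hinv, ← hY', add_sub_cancel, sub_self]
    have hc'pow : ∀ n : ℕ, c' (s₀ ^ n) = 0 := by
      intro n
      induction n with
      | zero =>
        have h := hc'Z.2 1 1
        rw [mul_one, map_one, Module.End.one_apply] at h
        rw [pow_zero]
        exact left_eq_add.mp h
      | succ n ih => rw [pow_succ, hc'Z.2, hc's, ih, map_zero, add_zero]
    refine ⟨hc'Z, fun σ hσ => ?_⟩
    obtain ⟨a, ha⟩ := hgen _ hσ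
    have h2 : σ = s₀ ^ a * ((s₀ ^ a)⁻¹ * σ) := by group
    have h3 : c' ((s₀ ^ a)⁻¹ * σ) = 0 := by
      ext1
      have h4 : (c ((s₀ ^ a)⁻¹ * σ) : M2 k) = 0 := by
        rw [hc]; exact hcoc1 _ ha
      have h5 : r ((s₀ ^ a)⁻¹ * σ : Dq q) = 1 := by
        rw [← hR.red]
        have : R ((s₀ ^ a)⁻¹ * σ : Dq q) = 1 := ha
        rw [this, map_one]
      have h6 : r ((s₀ ^ a)⁻¹ * σ : Dq q)⁻¹ = 1 := by
        have := rinv_mul r (((s₀ ^ a)⁻¹ * σ : Dq q) : H91.GQ)
        rwa [h5, mul_one] at this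
      show (c ((s₀ ^ a)⁻¹ * σ) : M2 k) - (r ((s₀ ^ a)⁻¹ * σ : Dq q) * Y *
        r ((s₀ ^ a)⁻¹ * σ : Dq q)⁻¹ - Y) = 0
      rw [h4, h5, h6, one_mul, mul_one, sub_self, sub_self]
    rw [h2, hc'Z.2, h3, map_zero, zero_add, hc'pow]

end Main

end Fermat.Agent.H61.S56S
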