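import Fermat.Agent.H53TW1
import Fermat.Agent.H53Main

set_option autoImplicit false
set_option linter.style.haveILetI false
set_option linter.unusedSectionVars false

noncomputable section

open IsLocalRing Polynomial
open scoped Pointwise

namespace Fermat.Agent.H53

/-! ## diagonalisation of a 2 by 2 matrix over a local ring -/

/-- a matrix with residually distinct eigenvalues is diagonalisable -/
lemma exists_diag_of_eigen {A : Type} [CommRing A] [IsLocalRing A] (M : M2 A) {α β : A}
    (htr : M 0 0 + M 1 1 = α + β) (hdet : M 0 0 * M 1 1 - M 0 1 * M 1 0 = α * β)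
    (hαβ : IsUnit (α - β)) :
    ∃ u : (M2 A)ˣ, M * u = u * !![α, 0; 0, β] := by
  set a := M 0 0 with ha
  set b := M 0 1 with hb
  set c := M 1 0 with hc
  set d := M 1 1 with hd
  have hM : M = !![a, b; c, d] := Matrix.eta_fin_two M
  have hsum : IsUnit ((a - β) + (d - β)) := by
    have : (a - β) + (d - β) = α - β := by linear_combination htr
    rwa [this]
  rcases IsLocalRing.isUnit_or_isUnit_of_isUnit_add hsum with h | h
  · have hdetu : (!![a - β, -b; c, a - β] : M2 A).det = (a - β) * (α - β) := by
      rw [Matrix.det_fin_two_of]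
      linear_combination (a : A) * htr - hdet
    have hu : IsUnit (!![a - β, -b; c, a - β] : M2 A) := by
      rw [Matrix.isUnit_iff_isUnit_det, hdetu]
      exact h.mul hαβ
    refine ⟨hu.unit, ?_⟩
    rw [IsUnit.unit_spec, hM, Matrix.mul_fin_two, Matrix.mul_fin_two]
    ext i j
    fin_cases i <;> fin_cases j <;> simp
    · linear_combination (a : A) * htr - hdet
    · ring
    · linear_combination (c : A) * htr
    · linear_combination hdet - (β : A) * htr
  · have hdetu : (!![b, -(d - β); d - β, c] : M2 A).det = (d - β) * (α - β) := by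
      rw [Matrix.det_fin_two_of]
      linear_combination (d : A) * htr - hdet
    have hu : IsUnit (!![b, -(d - β); d - β, c] : M2 A) := by
      rw [Matrix.isUnit_iff_isUnit_det, hdetu]
      exact h.mul hαβ
    refine ⟨hu.unit, ?_⟩
    rw [IsUnit.unit_spec, hM, Matrix.mul_fin_two, Matrix.mul_fin_two]
    ext i j
    fin_cases i <;> fin_cases j <;> simp
    · linear_combination (b : A) * htr
    · linear_combination (β : A) * htr - hdet
    · linear_combination (d : A) * htr - hdet
    · ring

/-- powers of a matrix congruent to one, as linear polynomials -/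
lemma pow_eq_lin {A : Type} [CommRing A] (I : Ideal A) (M : M2 A) (hM : Cong I M) (n : ℕ) :
    ∃ x y : A, y - n ∈ I ∧ x - (1 - n) ∈ I ∧ M ^ n = x • (1 : M2 A) + y • M := by
  have h00 : M 0 0 - 1 ∈ I := by simpa using hM 0 0
  have h01 : M 0 1 ∈ I := by simpa using hM 0 1
  have h10 : M 1 0 ∈ I := by simpa using hM 1 0
  have h11 : M 1 1 - 1 ∈ I := by simpa using hM 1 1
  have hCH : M * M = (M 0 0 + M 1 1) • M - (M 0 0 * M 1 1 - M 0 1 * M 1 0) • (1 : M2 A) := by
    rw [Matrix.eta_fin_two M]
    ext i j
    fin_cases i <;> fin_cases j <;> simp [Matrix.mul_apply, Fin.sum_univ_two] <;> ring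
  induction n with
  | zero => exact ⟨1, 0, by simp, by simp, by simp⟩
  | succ n ih =>
    obtain ⟨x, y, hy, hx, h⟩ := ih
    refine ⟨-(y * (M 0 0 * M 1 1 - M 0 1 * M 1 0)), x + y * (M 0 0 + M 1 1), ?_, ?_, ?_⟩
    · have : x + y * (M 0 0 + M 1 1) - ((n + 1 : ℕ) : A) =
          (x - (1 - n)) + 2 * (y - n) + y * (M 0 0 - 1) + y * (M 1 1 - 1) := by
        push_cast; ring
      rw [this]
      exact I.add_mem (I.add_mem (I.add_mem hx (I.mul_mem_left _ hy)) (I.mul_mem_left _ h00))
        (I.mul_mem_left _ h11)
    · have : -(y * (M 0 0 * M 1 1 - M 0 1 * M 1 0)) - (1 - ((n + 1 : ℕ) : A)) =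
          -(y - n) - y * M 1 1 * (M 0 0 - 1) - y * (M 1 1 - 1) + y * M 1 0 * M 0 1 := by
        push_cast; ring
      rw [this]
      exact I.add_mem (I.sub_mem (I.sub_mem (I.neg_mem hy) (I.mul_mem_left _ h00))
        (I.mul_mem_left _ h11)) (I.mul_mem_left _ h01)
    · rw [pow_succ, h, add_mul, Matrix.smul_mul, Matrix.smul_mul, one_mul, hCH, smul_sub,
        smul_smul, smul_smul, add_smul, neg_smul]
      abel

/-- **Key computation at Taylor-Wiles primes**: a matrix congruent to one which satisfies the tame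
relation with a diagonal matrix with residually distinct entries is diagonal. -/
lemma diag_of_tame {A : Type} [CommRing A] [IsLocalRing A] {M : M2 A} {α β : A} {q : ℕ}
    (hq : (q : A) - 1 ∈ maximalIdeal A) (hM : Cong (maximalIdeal A) M) (hαβ : IsUnit (α - β))
    (h : !![α, 0; 0, β] * M = M ^ q * !![α, 0; 0, β]) : M 0 1 = 0 ∧ M 1 0 = 0 := by
  obtain ⟨x, y, hy, -, hpow⟩ := pow_eq_lin (maximalIdeal A) M hM q
  have hy1 : y - 1 ∈ maximalIdeal A := by
    have : y - 1 = (y - q) + ((q : A) - 1) := by ring
    rw [this]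
    exact Ideal.add_mem _ hy hq
  rw [hpow] at h
  have h01 := congrFun (congrFun h 0) 1
  have h10 := congrFun (congrFun h 1) 0
  simp [Matrix.mul_apply, Fin.sum_univ_two] at h01 h10
  constructor
  · have h1 : (α - β - (y - 1) * β) * M 0 1 = 0 := by linear_combination h01
    have h2 : IsUnit (α - β - (y - 1) * β) := by
      by_contra hcon
      have h3 := (mem_maximalIdeal _).mpr hcon
      have h4 : α - β ∈ maximalIdeal A := by
        have : α - β = (α - β - (y - 1) * β) + β * (y - 1) := by ring
        rw [this]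
        exact Ideal.add_mem _ h3 (Ideal.mul_mem_left _ _ hy1)
      exact (mem_maximalIdeal _).mp h4 hαβ
    exact (h2.mul_right_eq_zero).mp h1
  · have h1 : (α - β + (y - 1) * α) * M 1 0 = 0 := by linear_combination -h10
    have h2 : IsUnit (α - β + (y - 1) * α) := by
      by_contra hcon
      have h3 := (mem_maximalIdeal _).mpr hcon
      have h4 : α - β ∈ maximalIdeal A := by
        have : α - β = (α - β + (y - 1) * α) - α * (y - 1) := by ring
        rw [this]
        exact Ideal.sub_mem _ h3 (Ideal.mul_mem_left _ _ hy1)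
      exact (mem_maximalIdeal _).mp h4 hαβ
    exact (h2.mul_right_eq_zero).mp h1

/-- lifting of the residual eigenvalues -/
lemma exists_eigen_lift {A : Type} [CommRing A] [IsLocalRing A]
    [IsAdicComplete (maximalIdeal A) A] (M : M2 A) {a b : ResidueField A} (hab : a ≠ b)
    (h : (M.map (residue A)).charpoly = (X - C a) * (X - C b)) :
    ∃ α β : A, residue A α = a ∧ residue A β = b ∧ M 0 0 + M 1 1 = α + β ∧
      M 0 0 * M 1 1 - M 0 1 * M 1 0 = α * β ∧ IsUnit (α - β) := by
  haveI := henselian_of_complete A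
  have hmap : (M.charpoly.map (residue A)) = (X - C a) * (X - C b) := by
    rw [← h, Matrix.charpoly_map]
  obtain ⟨α, hα, hαa⟩ : ∃ α : A, M.charpoly.IsRoot α ∧ residue A α = a := by
    obtain ⟨a₀, ha₀⟩ := residue_surjective (R := A) a
    have h1 : M.charpoly.eval a₀ ∈ maximalIdeal A := by
      rw [← residue_eq_zero_iff, ← eval₂_at_apply, eval₂_eq_eval_map, hmap, ha₀]
      simp
    have h2 : IsUnit (M.charpoly.derivative.eval a₀) := by
      by_contra hcon
      have h3 := (mem_maximalIdeal _).mpr hcon
      rw [← residue_eq_zero_iff, ← eval₂_at_apply, eval₂_eq_eval_map, ← derivative_map, hmap,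
        ha₀] at h3
      simp [derivative_mul, sub_eq_zero, hab] at h3
    obtain ⟨α, hα, hα2⟩ := HenselianLocalRing.is_henselian M.charpoly (Matrix.charpoly_monic M) a₀
      h1 h2
    refine ⟨α, hα, ?_⟩
    rw [← ha₀, ← sub_eq_zero, ← map_sub, residue_eq_zero_iff]
    exact hα2
  have hroot : α ^ 2 - (M 0 0 + M 1 1) * α + (M 0 0 * M 1 1 - M 0 1 * M 1 0) = 0 := by
    have := hα
    rw [IsRoot.def, Matrix.charpoly_fin_two] at this
    simpa [Matrix.trace_fin_two, Matrix.det_fin_two] using this
  have htr : residue A (M 0 0 + M 1 1) = a + b := by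
    have e1 : (M.map (residue A)).charpoly.coeff 1 = -(residue A (M 0 0 + M 1 1)) := by
      rw [Matrix.charpoly_fin_two, Matrix.trace_fin_two, Matrix.map_apply, Matrix.map_apply,
        ← map_add, coeff_add, coeff_sub, coeff_X_pow, coeff_C_mul, coeff_X, coeff_C]
      simp
    have e2 : ((X - C a) * (X - C b) : (ResidueField A)[X]).coeff 1 = -(a + b) := by
      have : ((X - C a) * (X - C b) : (ResidueField A)[X]) = X ^ 2 - C (a + b) * X + C (a * b) := by
        rw [map_add, map_mul]; ring
      rw [this, coeff_add, coeff_sub, coeff_X_pow, coeff_C_mul, coeff_X, coeff_C]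
      simp
    rw [h, e2] at e1
    exact (neg_injective e1).symm
  refine ⟨α, M 0 0 + M 1 1 - α, hαa, ?_, by ring, by linear_combination hroot, ?_⟩
  · rw [map_sub, htr, hαa]; ring
  · by_contra hcon
    have h3 := (mem_maximalIdeal _).mpr hcon
    rw [← residue_eq_zero_iff, map_sub, map_sub, htr, hαa] at h3
    exact hab (by linear_combination h3)

end Fermat.Agent.H53
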