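import Fermat.Agent.H53TW2

set_option autoImplicit false
set_option linter.style.haveILetI false
set_option linter.unusedSectionVars false

noncomputable section

open IsLocalRing Polynomial
open scoped Pointwise

namespace Fermat.Agent.H53

/-- commutators with Frobenius lie in the inertia group -/
lemma commutator_mem_inertia {P : ValuationSubring (AlgebraicClosure ℚ)} {q : ℕ} {g φ : GQ}
    (hg : g ∈ P.decompositionSubgroup ℚ) (hφ : P.IsFrobeniusAt φ q) :
    (φ * g)⁻¹ * (g * φ) ∈ P.inertiaSubgroupIn ℚ := by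
  have hφD := hφ.mem_decompositionSubgroup
  let x : P.decompositionSubgroup ℚ := ⟨g, hg⟩
  let f : P.decompositionSubgroup ℚ := ⟨φ, hφD⟩
  refine ⟨(f * x)⁻¹ * (x * f), ?_, rfl⟩
  have h1 : ∀ y : ResidueField P, (x * f) • y = (f * x) • y := by
    intro y
    rw [mul_smul, mul_smul, hφ.smul_residue_eq y, hφ.smul_residue_eq (x • y), smul_pow']
  rw [SetLike.mem_coe, ValuationSubring.inertiaSubgroup, MonoidHom.mem_ker]
  ext y
  change ((f * x)⁻¹ * (x * f)) • y = y
  rw [mul_smul, h1, inv_smul_smul]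

lemma root_of_one_eq_one {A : Type} [CommRing A] [IsLocalRing A] {x : A} {m : ℕ}
    (hx : x - 1 ∈ maximalIdeal A) (hm : IsUnit (m : A)) (h : x ^ m = 1) : x = 1 := by
  have h1 : (∑ i ∈ Finset.range m, x ^ i) * (x - 1) = 0 := by rw [geom_sum_mul, h, sub_self]
  have h2 : IsUnit (∑ i ∈ Finset.range m, x ^ i) := by
    by_contra hcon
    have h3 := (mem_maximalIdeal _).mpr hcon
    have h4 : (∑ i ∈ Finset.range m, x ^ i) - m ∈ maximalIdeal A := by
      rw [← residue_eq_zero_iff, map_sub, map_sum]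
      have h5 : residue A x = 1 := by
        rw [← sub_eq_zero, ← map_one (residue A), ← map_sub, residue_eq_zero_iff]
        exact hx
      simp [h5]
    have h6 : (m : A) ∈ maximalIdeal A := by
      have : (m : A) = (∑ i ∈ Finset.range m, x ^ i) - ((∑ i ∈ Finset.range m, x ^ i) - m) := by
        ring
      rw [this]
      exact Ideal.sub_mem _ h3 h4
    exact (mem_maximalIdeal _).mp h6 hm
  exact sub_eq_zero.mp ((h2.mul_right_eq_zero).mp h1)

/-- The splitting of a representation at a Taylor-Wiles prime. -/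
structure TWSplit (P : ValuationSubring (AlgebraicClosure ℚ)) {A : Type} [CommRing A]
    (r : GQ →* M2 A) where
  /-- the change of basis -/
  u : (M2 A)ˣ
  /-- the first character -/
  χ₁ : P.decompositionSubgroup ℚ →* Aˣ
  /-- the second character -/
  χ₂ : P.decompositionSubgroup ℚ →* Aˣ
  spec : ∀ g : P.decompositionSubgroup ℚ, r g * u = u * !![(χ₁ g : A), 0; 0, (χ₂ g : A)]

section

variable {P : ValuationSubring (AlgebraicClosure ℚ)} {q : ℕ} (hq : q.Prime) (hP : P.LiesOverPrime q)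
  {p : ℕ} [Fact p.Prime] (hpq : p ∣ q - 1) {A : Type} [CommRing A] [IsLocalRing A]
  [IsAdicComplete (maximalIdeal A) A]
  (hpA : (p : A) ∈ maximalIdeal A) {r : GQ →* M2 A} (hr : MCont A r)
  (hI : ∀ τ ∈ P.inertiaSubgroupIn ℚ, Cong (maximalIdeal A) (r τ))

lemma ne_of_dvd_sub_one {p q : ℕ} (hp : p.Prime) (hq : q.Prime) (hpq : p ∣ q - 1) : p ≠ q := by
  rintro rfl
  have h1 := Nat.le_of_dvd (by have := hp.two_le; omega) hpq
  have := hp.two_le
  omega

lemma cast_sub_one_mem (hq : q.Prime) (hpq : p ∣ q - 1) (hpA : (p : A) ∈ maximalIdeal A) :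
    (q : A) - 1 ∈ maximalIdeal A := by
  obtain ⟨m, hm⟩ := hpq
  have h1 : q = p * m + 1 := by have := hq.one_lt; omega
  have : (q : A) - 1 = p * m := by rw [h1]; push_cast; ring
  rw [this]
  exact Ideal.mul_mem_right _ _ hpA

include hq hP hpq hpA hr hI in
/-- **The structure at Taylor-Wiles primes.** -/
theorem exists_twSplit {φ : GQ} (hφ : P.IsFrobeniusAt φ q) {a b : ResidueField A} (hab : a ≠ b)
    (hchar : ((r φ).map (residue A)).charpoly = (X - C a) * (X - C b)) :
    ∃ s : TWSplit P r, residue A (s.χ₁ ⟨φ, hφ.mem_decompositionSubgroup⟩) = a ∧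
      residue A (s.χ₂ ⟨φ, hφ.mem_decompositionSubgroup⟩) = b := by
  obtain ⟨α, β, hα, hβ, htr, hdet, hαβ⟩ := exists_eigen_lift (r φ) hab hchar
  obtain ⟨u, hu⟩ := exists_diag_of_eigen (r φ) htr hdet hαβ
  have hH : ∀ x : A, (∀ n, x ∈ maximalIdeal A ^ n) → x = 0 := fun x hx =>
    IsHausdorff.haus (inferInstance : IsHausdorff (maximalIdeal A) A) x fun n => by
      rw [SModEq.zero, smul_eq_mul, Ideal.mul_top]
      exact hx n
  have hI' : ∀ τ ∈ P.inertiaSubgroupIn ℚ, ∃ n, Cong (maximalIdeal A) (r τ ^ p ^ n) :=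
    fun τ hτ => ⟨0, by simpa using hI τ hτ⟩
  set s : GQ →* M2 A :=
    { toFun := fun g => (↑u⁻¹ : M2 A) * r g * u
      map_one' := by simp
      map_mul' := fun g h => by
        rw [map_mul]
        calc (↑u⁻¹ : M2 A) * (r g * r h) * u = (↑u⁻¹ : M2 A) * r g * 1 * r h * u := by
              simp only [mul_assoc, one_mul]
          _ = _ := by rw [← u.mul_inv]; simp only [mul_assoc] } with hs
  have hsg : ∀ g, s g = (↑u⁻¹ : M2 A) * r g * u := fun g => rfl
  have hsr : ∀ g, r g * u = u * s g := fun g => by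
    rw [hsg, mul_assoc, ← mul_assoc, Units.mul_inv, one_mul]
  have hsφ : s φ = !![α, 0; 0, β] := by
    rw [hsg, mul_assoc, hu, ← mul_assoc, Units.inv_mul, one_mul]
  -- inertia
  have hscong : ∀ τ ∈ P.inertiaSubgroupIn ℚ, Cong (maximalIdeal A) (s τ) := by
    intro τ hτ
    have h1 := hI τ hτ
    rw [cong_iff_map] at h1 ⊢
    rw [hsg, Matrix.map_mul, Matrix.map_mul, h1, mul_one, ← Matrix.map_mul, Units.inv_mul]
    exact Matrix.map_one _ (map_zero _) (map_one _)
  have hdiagI : ∀ τ ∈ P.inertiaSubgroupIn ℚ, s τ 0 1 = 0 ∧ s τ 1 0 = 0 := by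
    intro τ hτ
    refine diag_of_tame (cast_sub_one_mem hq hpq hpA) (hscong τ hτ) hαβ (q := q) ?_
    rw [← hsφ, ← map_mul, ← map_pow, ← map_mul, hsg, hsg, map_mul, map_mul, map_pow,
      frob_rel_eq hq hP (ne_of_dvd_sub_one (Fact.out) hq hpq) hpA hr hI' hH hτ hφ]
  -- the decomposition group
  have hdiagD : ∀ g ∈ P.decompositionSubgroup ℚ, s g 0 1 = 0 ∧ s g 1 0 = 0 := by
    intro g hg
    have hτ := commutator_mem_inertia hg hφ
    set τ := (φ * g)⁻¹ * (g * φ) with hτdef
    have h1 : s g * s φ = s φ * s g * s τ := by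
      rw [← map_mul, ← map_mul, ← map_mul, hτdef, mul_inv_cancel_left]
    obtain ⟨h2, h3⟩ := hdiagI τ hτ
    have hc := hscong τ hτ
    have hc0 : s τ 0 0 - 1 ∈ maximalIdeal A := by simpa using hc 0 0
    have hc1 : s τ 1 1 - 1 ∈ maximalIdeal A := by simpa using hc 1 1
    have h01 := congrFun (congrFun h1 0) 1
    have h10 := congrFun (congrFun h1 1) 0
    rw [hsφ] at h01 h10
    simp [Matrix.mul_apply, Fin.sum_univ_two, h2, h3, Matrix.vecMul, dotProduct] at h01 h10
    constructor
    · have e1 : (α - β + α * (s τ 1 1 - 1)) * s g 0 1 = 0 := by linear_combination -h01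
      have e2 : IsUnit (α - β + α * (s τ 1 1 - 1)) := by
        by_contra hcon
        have h3 := (mem_maximalIdeal _).mpr hcon
        refine (mem_maximalIdeal _).mp ?_ hαβ
        have : α - β = (α - β + α * (s τ 1 1 - 1)) - α * (s τ 1 1 - 1) := by ring
        rw [this]
        exact Ideal.sub_mem _ h3 (Ideal.mul_mem_left _ _ hc1)
      exact (e2.mul_right_eq_zero).mp e1
    · have e1 : (α - β - β * (s τ 0 0 - 1)) * s g 1 0 = 0 := by linear_combination h10
      have e2 : IsUnit (α - β - β * (s τ 0 0 - 1)) := by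
        by_contra hcon
        have h3 := (mem_maximalIdeal _).mpr hcon
        refine (mem_maximalIdeal _).mp ?_ hαβ
        have : α - β = (α - β - β * (s τ 0 0 - 1)) + β * (s τ 0 0 - 1) := by ring
        rw [this]
        exact Ideal.add_mem _ h3 (Ideal.mul_mem_left _ _ hc0)
      exact (e2.mul_right_eq_zero).mp e1
  -- the characters
  let c : ∀ i : Fin 2, P.decompositionSubgroup ℚ →* A := fun i =>
    { toFun := fun g => s g i i
      map_one' := by
        rw [Subgroup.coe_one, map_one, Matrix.one_apply_eq]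
      map_mul' := fun g h => by
        rw [Subgroup.coe_mul, map_mul, Matrix.mul_apply, Fin.sum_univ_two]
        obtain ⟨h1, h2⟩ := hdiagD g g.2
        fin_cases i
        · simp [h1]
        · simp [h2] }
  have hc : ∀ i g, c i g = s g i i := fun i g => rfl
  refine ⟨⟨u, (c 0).toHomUnits, (c 1).toHomUnits, fun g => ?_⟩, ?_, ?_⟩
  · rw [hsr]
    congr 1
    obtain ⟨h1, h2⟩ := hdiagD g g.2
    rw [Matrix.eta_fin_two (s g), h1, h2]
    rfl
  · change residue A (s φ 0 0) = a
    rw [hsφ]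
    exact hα
  · change residue A (s φ 1 1) = b
    rw [hsφ]
    exact hβ

end

end Fermat.Agent.H53
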