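import Fermat.Agent.H53Tame1

set_option autoImplicit false
set_option linter.style.haveILetI false
set_option linter.unusedSectionVars false

noncomputable section

open IsLocalRing Polynomial
open scoped Pointwise

namespace Fermat.Agent.H53

local notation "Qb" => AlgebraicClosure ℚ

section

variable {P : ValuationSubring (AlgebraicClosure ℚ)} {q : ℕ} (hq : q.Prime) (hP : P.LiesOverPrime q)
  {p : ℕ} [Fact p.Prime] (hpq : p ≠ q)

include hq hP hpq

/-- If `τ` in inertia fixes the `p`-power roots of `q`, it has no eigenvector with eigenvalue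
a primitive `p`-th root of unity. -/
lemma no_eigenvector {τ : GQ} (hτ : τ ∈ P.inertiaSubgroupIn ℚ)
    (hfix : ∀ m, τ (piSys p q m) = piSys p q m) {ζ : Qb} (hζ : IsPrimitiveRoot ζ p) {y : Qb}
    (hy : y ≠ 0) : τ y ≠ ζ * y := by
  intro h
  have hp : p.Prime := Fact.out
  obtain ⟨b, hb, a, hab⟩ := exists_pow_val_eq P hq hP y hy
  obtain ⟨m, b', hb', rfl⟩ := Nat.exists_eq_pow_mul_and_not_dvd hb p hp.ne_one
  set π := piSys p q m with hπ
  have hπ0 : π ≠ 0 := piSys_ne_zero p hq.ne_zero m
  have hπm : π ^ p ^ m = (q : Qb) := piSys_pow' p q m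
  set z := y ^ b' / π ^ a with hz
  have hvz : P.valuation z = 1 := by
    have h1 : P.valuation z ^ p ^ m = 1 := by
      have h2 : P.valuation (π ^ a) ^ p ^ m = P.valuation (q : Qb) ^ a := by
        rw [map_zpow₀, ← zpow_natCast, ← zpow_mul, mul_comm, zpow_mul, zpow_natCast, ← map_pow,
          hπm]
      rw [hz, map_div₀, div_pow, h2, map_pow, ← pow_mul, mul_comm, hab, div_self]
      exact zpow_ne_zero _ ((Valuation.ne_zero_iff _).mpr (by exact_mod_cast hq.ne_zero))
    exact (pow_eq_one_iff_of_nonneg zero_le (pow_ne_zero _ hp.ne_zero)).mp h1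
  have hz0 : z ≠ 0 := div_ne_zero (pow_ne_zero _ hy) (zpow_ne_zero _ hπ0)
  have hτz : τ z / z = ζ ^ b' := by
    have h1 : τ z = ζ ^ b' * z := by
      rw [hz, map_div₀, map_pow, map_zpow₀, hfix m, h, mul_pow, mul_div_assoc]
    rw [h1, mul_div_cancel_right₀ _ hz0]
  have h1 := val_inertia_div hτ hvz
  rw [hτz] at h1
  refine not_val_sub_one_lt hq hP hp hpq (hζ.pow_of_coprime b' ?_) h1
  exact ((Nat.Prime.coprime_iff_not_dvd hp).mpr hb').symm

/-- Key lemma: an element of inertia fixing the `p`-power roots of `q` acts trivially wherever a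
`p`-power of it does. -/
lemma apply_eq_of_pow {τ : GQ} (hτ : τ ∈ P.inertiaSubgroupIn ℚ)
    (hfix : ∀ m, τ (piSys p q m) = piSys p q m) (n : ℕ) {x : Qb} (hx : (τ ^ p ^ n) x = x) :
    τ x = x := by
  have hp : p.Prime := Fact.out
  induction n with
  | zero => simpa using hx
  | succ n ih =>
    apply ih
    set σ : GQ := τ ^ p ^ n with hσdef
    have hσ : σ ∈ P.inertiaSubgroupIn ℚ := Subgroup.pow_mem _ hτ _
    have hσfix : ∀ m, σ (piSys p q m) = piSys p q m := by
      intro m
      have h1 : ∀ k : ℕ, (τ ^ k) (piSys p q m) = piSys p q m := by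
        intro k
        induction k with
        | zero => simp
        | succ k ihk => rw [pow_succ, AlgEquiv.mul_apply, hfix, ihk]
      exact h1 _
    have hσp : (σ ^ p) x = x := by
      rw [hσdef, ← pow_mul, ← pow_succ]
      exact hx
    haveI : NeZero p := ⟨hp.ne_zero⟩
    obtain ⟨ζ, hζ⟩ := HasEnoughRootsOfUnity.exists_primitiveRoot (AlgebraicClosure ℚ) p
    have hσζ : σ ζ = ζ := inertia_root_of_unity hq hP hp hpq hσ 1 (by rw [pow_one, hζ.pow_eq_one])
    -- Lagrange resolvents
    let y : ℕ → Qb := fun i => ∑ j ∈ Finset.range p, (ζ ^ i) ^ j * (σ ^ (j : ℕ)) x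
    have hy : ∀ i, ζ ^ i * σ (y i) = y i := by
      intro i
      have h1 : ζ ^ i * σ (y i) = ∑ j ∈ Finset.range p, (ζ ^ i) ^ (j + 1) * (σ ^ (j + 1)) x := by
        simp only [y, map_sum, map_mul, map_pow, hσζ, Finset.mul_sum]
        refine Finset.sum_congr rfl fun j _ => ?_
        rw [pow_succ' σ, AlgEquiv.mul_apply, pow_succ' (ζ ^ i) j]
        ring
      rw [h1]
      have h2 := Finset.sum_range_succ (fun j => (ζ ^ i) ^ j * (σ ^ (j : ℕ)) x) p
      have h3 := Finset.sum_range_succ' (fun j => (ζ ^ i) ^ j * (σ ^ (j : ℕ)) x) p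
      rw [h2] at h3
      have h4 : (ζ ^ i) ^ p * (σ ^ p) x = (ζ ^ i) ^ 0 * (σ ^ 0) x := by
        rw [hσp, ← pow_mul, mul_comm i p, pow_mul, hζ.pow_eq_one, one_pow]
        simp
      rw [h4] at h3
      exact (add_right_cancel h3).symm
    have hy0 : ∀ i, i ∈ Finset.range p → i ≠ 0 → y i = 0 := by
      intro i hi hi0
      by_contra hyi
      have hip : ¬ p ∣ i := fun hdvd =>
        absurd (Nat.le_of_dvd (Nat.pos_of_ne_zero hi0) hdvd) (not_le.mpr (Finset.mem_range.mp hi))
      have hprim : IsPrimitiveRoot (ζ ^ i)⁻¹ p :=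
        (hζ.pow_of_coprime i ((Nat.Prime.coprime_iff_not_dvd hp).mpr hip).symm).inv
      apply no_eigenvector hq hP hpq hσ hσfix hprim hyi
      have h1 := hy i
      have hζi : ζ ^ i ≠ 0 := pow_ne_zero _ (hζ.ne_zero hp.ne_zero)
      conv_rhs => rw [← h1, ← mul_assoc, inv_mul_cancel₀ hζi, one_mul]
    -- sum of the resolvents
    have hsum : ∑ i ∈ Finset.range p, y i = p * x := by
      simp only [y]
      rw [Finset.sum_comm]
      rw [Finset.sum_eq_single_of_mem 0 (Finset.mem_range.mpr hp.pos)]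
      · simp
      · intro j hj hj0
        have hjp : ¬ p ∣ j := fun hdvd =>
          absurd (Nat.le_of_dvd (Nat.pos_of_ne_zero hj0) hdvd) (not_le.mpr (Finset.mem_range.mp hj))
        have hprim : IsPrimitiveRoot (ζ ^ j) p :=
          hζ.pow_of_coprime j ((Nat.Prime.coprime_iff_not_dvd hp).mpr hjp).symm
        rw [← Finset.sum_mul]
        have h1 : ∑ i ∈ Finset.range p, (ζ ^ i) ^ j = ∑ i ∈ Finset.range p, (ζ ^ j) ^ i :=
          Finset.sum_congr rfl fun i _ => by rw [← pow_mul, ← pow_mul, mul_comm]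
        rw [h1, hprim.geom_sum_eq_zero hp.one_lt, zero_mul]
    have hsum' : ∑ i ∈ Finset.range p, y i = y 0 :=
      Finset.sum_eq_single_of_mem 0 (Finset.mem_range.mpr hp.pos) fun i hi hi0 => hy0 i hi hi0
    have hpx : (p : Qb) * x = y 0 := hsum.symm.trans hsum'
    have h0 := hy 0
    rw [pow_zero, one_mul, ← hpx, map_mul, map_natCast] at h0
    exact mul_left_cancel₀ (by exact_mod_cast hp.ne_zero) h0

end

end Fermat.Agent.H53
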