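import Fermat.Agent.H53Tame2

set_option autoImplicit false
set_option linter.style.haveILetI false
set_option linter.unusedSectionVars false

noncomputable section

open IsLocalRing Polynomial NumberField
open scoped Pointwise

namespace Fermat.Agent.H53

local notation "Qb" => AlgebraicClosure ℚ

/-- inertia subgroups are closed -/
lemma isClosed_inertia (P : ValuationSubring (AlgebraicClosure ℚ)) :
    IsClosed ((P.inertiaSubgroupIn ℚ : Subgroup GQ) : Set GQ) := by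
  let _ : TopologicalSpace (𝓞 (AlgebraicClosure ℚ)) := ⊥
  have hdisc : DiscreteTopology (𝓞 (AlgebraicClosure ℚ)) := ⟨rfl⟩
  have hcs : ContinuousSMul GQ (𝓞 (AlgebraicClosure ℚ)) :=
    H63.continuousSMul_ringOfIntegers (K := ℚ) (L := AlgebraicClosure ℚ)
  have h1 : ((P.inertiaSubgroupIn ℚ : Subgroup GQ) : Set GQ) =
      ⋂ x : 𝓞 (AlgebraicClosure ℚ), (fun σ : GQ => σ • x) ⁻¹' {y | y - x ∈ H63.center P} := by
    ext σ
    rw [SetLike.mem_coe, H63.mem_inertiaSubgroupIn_iff_center]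
    simp only [Set.mem_iInter, Set.mem_preimage, Set.mem_setOf_eq]
    rfl
  rw [h1]
  exact isClosed_iInter fun x => IsClosed.preimage (continuous_id.smul continuous_const)
    (isClosed_discrete _)

lemma isOpen_stab (x : Qb) : IsOpen {σ : GQ | σ x = x} :=
  stabilizer_isOpen_of_isIntegral (K := ℚ) (L := AlgebraicClosure ℚ) x

section

variable {P : ValuationSubring (AlgebraicClosure ℚ)} {q : ℕ} (hq : q.Prime) (hP : P.LiesOverPrime q)
  {p : ℕ} [Fact p.Prime] (hpq : p ≠ q)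

include hq hP hpq

/-- a `p`-power root of unity which is a principal unit is trivial -/
lemma eq_one_of_val {m : ℕ} {η : Qb} (hη : η ^ p ^ m = 1) (hv : P.valuation (η - 1) < 1) :
    η = 1 := by
  have hp : p.Prime := Fact.out
  induction m generalizing η with
  | zero => simpa using hη
  | succ m ih =>
    have hvη : P.valuation η = 1 := by
      have h5 : P.valuation η ^ p ^ (m + 1) = 1 := by rw [← map_pow, hη, map_one]
      exact (pow_eq_one_iff_of_nonneg zero_le (pow_ne_zero _ hp.ne_zero)).mp h5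
    have h1 : η ^ p = 1 := by
      apply ih
      · rw [← pow_mul, ← pow_succ', hη]
      · have h4 : η ^ p - 1 = (η - 1) * ∑ j ∈ Finset.range p, η ^ j := by
          rw [mul_comm]
          exact (geom_sum_mul η p).symm
        rw [h4, map_mul]
        have h5 : P.valuation (∑ j ∈ Finset.range p, η ^ j) ≤ 1 :=
          Valuation.map_sum_le _ fun j _ => by rw [map_pow, hvη, one_pow]
        calc P.valuation (η - 1) * P.valuation (∑ j ∈ Finset.range p, η ^ j)
            ≤ P.valuation (η - 1) * 1 := mul_le_mul_right h5 _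
          _ < 1 := by rw [mul_one]; exact hv
    by_contra hne
    refine not_val_sub_one_lt hq hP hp hpq ?_ hv
    rw [IsPrimitiveRoot.iff_def]
    refine ⟨h1, fun l hl => ?_⟩
    by_contra hdvd
    have hcop : Nat.Coprime p l := (Nat.Prime.coprime_iff_not_dvd hp).mpr hdvd
    apply hne
    have h5 := orderOf_dvd_of_pow_eq_one h1
    have h6 := orderOf_dvd_of_pow_eq_one hl
    have h7 := Nat.dvd_gcd h5 h6
    rw [hcop] at h7
    exact orderOf_eq_one_iff.mp (Nat.dvd_one.mp h7)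

/-- Frobenius acts on `p`-power roots of unity by the `q`-th power -/
lemma frobenius_root_of_unity {φ : GQ} (hφ : P.IsFrobeniusAt φ q) (m : ℕ) {ζ : Qb}
    (hζ : ζ ^ p ^ m = 1) : φ ζ = ζ ^ q := by
  have hp : p.Prime := Fact.out
  have hζ0 : ζ ≠ 0 := fun h => by
    rw [h, zero_pow (pow_ne_zero _ hp.ne_zero)] at hζ; exact zero_ne_one hζ
  have hvζ : P.valuation ζ = 1 := by
    have h5 : P.valuation ζ ^ p ^ m = 1 := by rw [← map_pow, hζ, map_one]
    exact (pow_eq_one_iff_of_nonneg zero_le (pow_ne_zero _ hp.ne_zero)).mp h5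
  obtain ⟨-, h⟩ := (H63.isFrobeniusAt_iff P φ q).mp hφ
  have h1 := h ζ ((P.valuation_le_one_iff _).mp hvζ.le)
  rw [ValuationSubring.mem_nonunits_iff] at h1
  have h2 : φ ζ / ζ ^ q = 1 := by
    apply eq_one_of_val hq hP hpq (m := m) (p := p)
    · rw [div_pow, ← map_pow, hζ, map_one, ← pow_mul, mul_comm, pow_mul, hζ, one_pow, div_one]
    · have h3 : φ ζ / ζ ^ q - 1 = (φ ζ - ζ ^ q) / ζ ^ q := by
        field_simp
      rw [h3, map_div₀, map_pow, hvζ, one_pow, div_one]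
      exact h1
  exact (div_eq_one_iff_eq (pow_ne_zero _ hζ0)).mp h2

/-- the `p`-part of the tame character -/
lemma tameRoot {σ : GQ} (hσ : σ ∈ P.inertiaSubgroupIn ℚ) (m : ℕ) :
    ∃ ζ : Qb, ζ ^ p ^ m = 1 ∧ σ (piSys p q m) = ζ * piSys p q m := by
  have hπ0 : piSys p q m ≠ 0 := piSys_ne_zero p hq.ne_zero m
  refine ⟨σ (piSys p q m) / piSys p q m, ?_, by rw [div_mul_cancel₀ _ hπ0]⟩
  rw [div_pow, ← map_pow, piSys_pow', map_natCast, div_self]
  exact_mod_cast hq.ne_zero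

/-- conjugation by Frobenius on inertia, up to elements fixing the `p`-power roots of `q` -/
lemma frob_rel {σ φ : GQ} (hσ : σ ∈ P.inertiaSubgroupIn ℚ) (hφ : P.IsFrobeniusAt φ q) :
    (φ * σ * φ⁻¹) * (σ ^ q)⁻¹ ∈ P.inertiaSubgroupIn ℚ ∧
      ∀ m, ((φ * σ * φ⁻¹) * (σ ^ q)⁻¹) (piSys p q m) = piSys p q m := by
  have hp : p.Prime := Fact.out
  have hφD : φ • P = P := ((H63.isFrobeniusAt_iff P φ q).mp hφ).1
  have hconj : φ * σ * φ⁻¹ ∈ P.inertiaSubgroupIn ℚ := by
    have := H63.conj_mem_inertiaSubgroupIn φ σ hσ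
    rwa [hφD] at this
  refine ⟨Subgroup.mul_mem _ hconj (Subgroup.inv_mem _ (Subgroup.pow_mem _ hσ _)), fun m => ?_⟩
  obtain ⟨ζ, hζ, hσπ⟩ := tameRoot hq hP hpq (p := p) hσ m
  have hζ0 : ζ ≠ 0 := fun h => by
    rw [h, zero_pow (pow_ne_zero _ hp.ne_zero)] at hζ; exact zero_ne_one hζ
  have hπ0 : piSys p q m ≠ 0 := piSys_ne_zero p hq.ne_zero m
  set π := piSys p q m with hπ
  have hσζ : σ ζ = ζ := inertia_root_of_unity hq hP hp hpq hσ m hζ
  -- powers of `σ`
  have hpow : ∀ k : ℕ, (σ ^ k) π = ζ ^ k * π := by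
    intro k
    induction k with
    | zero => simp
    | succ k ih =>
      rw [pow_succ', AlgEquiv.mul_apply, ih, map_mul, map_pow, hσζ, hσπ, pow_succ]
      ring
  -- the inverse
  have hinv : ((σ ^ q)⁻¹) π = (ζ ^ q)⁻¹ * π := by
    have hσqζ : (σ ^ q) ζ = ζ :=
      inertia_root_of_unity hq hP hp hpq (Subgroup.pow_mem _ hσ _) m hζ
    have h1 : (σ ^ q) ((ζ ^ q)⁻¹ * π) = π := by
      rw [map_mul, map_inv₀, map_pow, hσqζ, hpow, ← mul_assoc,
        inv_mul_cancel₀ (pow_ne_zero _ hζ0), one_mul]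
    calc ((σ ^ q)⁻¹) π = ((σ ^ q)⁻¹) ((σ ^ q) ((ζ ^ q)⁻¹ * π)) := by rw [h1]
      _ = (ζ ^ q)⁻¹ * π := by
        rw [← AlgEquiv.mul_apply, inv_mul_cancel]; rfl
  -- the conjugate
  have hφinv : (φ⁻¹ π / π) ^ p ^ m = 1 := by
    rw [div_pow, ← map_pow, piSys_pow', map_natCast, div_self]
    exact_mod_cast hq.ne_zero
  have hconjπ : (φ * σ * φ⁻¹) π = ζ ^ q * π := by
    have h1 : φ⁻¹ π = (φ⁻¹ π / π) * π := by rw [div_mul_cancel₀ _ hπ0]
    have h2 : σ (φ⁻¹ π / π) = φ⁻¹ π / π := inertia_root_of_unity hq hP hp hpq hσ m hφinv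
    calc (φ * σ * φ⁻¹) π = φ (σ (φ⁻¹ π)) := rfl
      _ = φ ((φ⁻¹ π / π) * (ζ * π)) := by rw [h1, map_mul, h2, hσπ, ← h1]
      _ = φ (ζ * φ⁻¹ π) := by
        congr 1
        field_simp
      _ = ζ ^ q * π := by
        rw [map_mul, frobenius_root_of_unity hq hP hpq hφ m hζ, ← AlgEquiv.mul_apply,
          mul_inv_cancel]; rfl
  have hconjζ : (φ * σ * φ⁻¹) ζ = ζ := inertia_root_of_unity hq hP hp hpq hconj m hζ
  rw [AlgEquiv.mul_apply, hinv, map_mul, map_inv₀, map_pow, hconjζ, hconjπ, ← mul_assoc,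
    inv_mul_cancel₀ (pow_ne_zero _ hζ0), one_mul]

/-- open subgroups and the tame quotient -/
lemma mem_of_pow_mem {H : Subgroup GQ} (hH : IsOpen (H : Set GQ)) {τ : GQ}
    (hτ : τ ∈ P.inertiaSubgroupIn ℚ) (hfix : ∀ m, τ (piSys p q m) = piSys p q m) (n : ℕ)
    (hn : τ ^ p ^ n ∈ H) : τ ∈ H := by
  have hHc : IsClosed (H : Set GQ) := Subgroup.isClosed_of_isOpen H hH
  let F : IntermediateField ℚ (AlgebraicClosure ℚ) := IntermediateField.fixedField H
  have hF : F.fixingSubgroup = H := InfiniteGalois.fixingSubgroup_fixedField ⟨H, hHc⟩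
  rw [← hF] at hn ⊢
  rw [IntermediateField.mem_fixingSubgroup_iff] at hn ⊢
  intro x hx
  exact apply_eq_of_pow hq hP hpq hτ hfix n (hn x hx)

/-- compactness: for an open subgroup `H` such that inertia elements have `p`-power image,
inertia elements fixing `π_m` lie in `H` for some `m` -/
lemma exists_level {H : Subgroup GQ} (hH : IsOpen (H : Set GQ))
    (hpow : ∀ τ ∈ P.inertiaSubgroupIn ℚ, ∃ n, τ ^ p ^ n ∈ H) :
    ∃ m, ∀ τ ∈ P.inertiaSubgroupIn ℚ, τ (piSys p q m) = piSys p q m → τ ∈ H := by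
  by_contra hcon
  push Not at hcon
  let C : ℕ → Set GQ := fun m => ((P.inertiaSubgroupIn ℚ : Subgroup GQ) : Set GQ) ∩
    {σ : GQ | σ (piSys p q m) = piSys p q m} ∩ (H : Set GQ)ᶜ
  have hC : ∀ m, IsClosed (C m) := fun m =>
    ((isClosed_inertia P).inter (by
      have h1 : {σ : GQ | σ (piSys p q m) = piSys p q m} =
          ((MulAction.stabilizer GQ (piSys p q m) : Subgroup GQ) : Set GQ) := rfl
      rw [h1]
      exact Subgroup.isClosed_of_isOpen _
        (stabilizer_isOpen_of_isIntegral (K := ℚ) (L := AlgebraicClosure ℚ) _))).inter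
      hH.isClosed_compl
  have hanti : ∀ m, C (m + 1) ⊆ C m := by
    rintro m σ ⟨⟨h1, h2⟩, h3⟩
    refine ⟨⟨h1, ?_⟩, h3⟩
    have h2' : σ (piSys p q (m + 1)) = piSys p q (m + 1) := h2
    show σ (piSys p q m) = piSys p q m
    rw [← piSys_succ_pow p q m, map_pow, h2']
  have hne : ∀ m, (C m).Nonempty := by
    intro m
    obtain ⟨τ, hτ, h1, h2⟩ := hcon m
    exact ⟨τ, ⟨hτ, h1⟩, h2⟩
  obtain ⟨τ, hτ⟩ := IsCompact.nonempty_iInter_of_sequence_nonempty_isCompact_isClosed C hanti hne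
    (hC 0).isCompact hC
  rw [Set.mem_iInter] at hτ
  have hτI : τ ∈ P.inertiaSubgroupIn ℚ := (hτ 0).1.1
  obtain ⟨n, hn⟩ := hpow τ hτI
  exact (hτ 0).2 (mem_of_pow_mem hq hP hpq hH hτI (fun m => (hτ m).1.2) n hn)

end

end Fermat.Agent.H53
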