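import Fermat.Agent.H53Flat2
import Fermat.Agent.H63Hermite

set_option autoImplicit false
set_option linter.style.haveILetI false
set_option linter.unusedSectionVars false

noncomputable section

open scoped TensorProduct
open IsLocalRing GaloisRep

namespace Fermat.Agent.H53

/-- finitely many matrix representations over a finite ring unramified outside `S` -/
theorem finite_matrixRep (S : Finset ℕ) (hS : ∀ q ∈ S, q.Prime) (B : Type) [CommRing B]
    [Finite B] :
    {r : GQ →* M2 B | (∃ L : IntermediateField ℚ (AlgebraicClosure ℚ), FiniteDimensional ℚ L ∧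
      ∀ σ : GQ, (∀ x ∈ L, σ x = x) → r σ = 1) ∧
      ∀ q : ℕ, q.Prime → q ∉ S → ∀ P : ValuationSubring (AlgebraicClosure ℚ), P.LiesOverPrime q →
        ∀ σ ∈ P.inertiaSubgroupIn ℚ, r σ = 1}.Finite := by
  classical
  obtain ⟨W, hWo, hWn, -, hW⟩ := H63.exists_open_normal_le (L := AlgebraicClosure ℚ) S hS
    (Nat.card (M2 B)ˣ)
  haveI : Finite (GQ ⧸ W) := Subgroup.quotient_finite_of_isOpen W hWo
  let Φ : (GQ →* M2 B) → (GQ ⧸ W → M2 B) := fun r x => r x.out
  refine Set.Finite.of_injOn (f := Φ) (t := Set.univ) (fun _ _ => Set.mem_univ _) ?_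
    Set.finite_univ
  have key : ∀ r : GQ →* M2 B, r ∈ {r : GQ →* M2 B | (∃ L : IntermediateField ℚ
      (AlgebraicClosure ℚ), FiniteDimensional ℚ L ∧
      ∀ σ : GQ, (∀ x ∈ L, σ x = x) → r σ = 1) ∧
      ∀ q : ℕ, q.Prime → q ∉ S → ∀ P : ValuationSubring (AlgebraicClosure ℚ), P.LiesOverPrime q →
        ∀ σ ∈ P.inertiaSubgroupIn ℚ, r σ = 1} → ∀ g : GQ, r g = r (QuotientGroup.mk g : GQ ⧸ W).out := by
    rintro r ⟨⟨L, hL, hr⟩, hur⟩ g
    let f : GQ →* (M2 B)ˣ := r.toHomUnits
    have hf : ∀ σ, (f σ : M2 B) = r σ := fun σ => rfl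
    have hmem : ∀ σ, σ ∈ f.ker ↔ r σ = 1 := by
      intro σ
      rw [MonoidHom.mem_ker, Units.ext_iff, hf, Units.val_one]
    have hopen : IsOpen (f.ker : Set GQ) := by
      haveI := hL
      have hle : L.fixingSubgroup ≤ f.ker := by
        intro σ hσ
        rw [hmem]
        exact hr σ fun x hx => (IntermediateField.mem_fixingSubgroup_iff L σ).mp hσ x hx
      exact Subgroup.isOpen_mono hle (IntermediateField.fixingSubgroup_isOpen L)
    have hidx : f.ker.index ≤ Nat.card (M2 B)ˣ := by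
      rw [Subgroup.index_ker]
      exact Nat.card_le_card_of_injective _ Subtype.val_injective
    have hle := hW f.ker hopen hidx (fun q hq hqS P hP σ hσ => (hmem σ).mpr
      (hur q hq hqS P hP σ hσ))
    have h1 : g⁻¹ * (QuotientGroup.mk g : GQ ⧸ W).out ∈ W := by
      rw [← QuotientGroup.eq, QuotientGroup.out_eq']
    have h2 := (hmem _).mp (hle h1)
    rw [map_mul] at h2
    calc r g = r g * (r g⁻¹ * r (QuotientGroup.mk g : GQ ⧸ W).out) := by rw [h2, mul_one]
      _ = r (QuotientGroup.mk g : GQ ⧸ W).out := by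
        rw [← mul_assoc, ← map_mul, mul_inv_cancel, map_one, one_mul]
  intro r hr r' hr' hrr'
  ext1 g
  rw [key r hr g, key r' hr' g]
  exact congrFun hrr' _

/-- the tangent space of a deformation condition implying unramified outside a finite set
is finite -/
theorem tangentFinite_of_unramified {𝒪 : Type} [CommRing 𝒪] [IsLocalRing 𝒪]
    [Finite (ResidueField 𝒪)] (ρbar : ResidualGaloisRep (ResidueField 𝒪))
    (𝒟 : ∀ ⦃A : Type⦄ [CommRing A] [IsLocalRing A] [Algebra 𝒪 A], GaloisRepAdic A → Prop)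
    (S : Finset ℕ) (hS : ∀ q ∈ S, q.Prime)
    (h : ∀ ⦃A : Type⦄ [CommRing A] [IsLocalRing A] [Algebra 𝒪 A] (ρ : GaloisRepAdic A), 𝒟 ρ →
      ∀ q : ℕ, q.Prime → q ∉ S → ρ.IsUnramifiedAt q) : TangentFinite 𝒪 ρbar 𝒟 := by
  rw [TangentFinite]
  letI : Algebra 𝒪 (DualNumber (ResidueField 𝒪)) :=
    ((algebraMap (ResidueField 𝒪) (DualNumber (ResidueField 𝒪))).comp
      (algebraMap 𝒪 (ResidueField 𝒪))).toAlgebra
  letI : Algebra (ResidueField 𝒪) (ResidueField (DualNumber (ResidueField 𝒪))) :=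
    ((IsLocalRing.residue (DualNumber (ResidueField 𝒪))).comp
      (algebraMap (ResidueField 𝒪) (DualNumber (ResidueField 𝒪)))).toAlgebra
  haveI hfinD : Finite (DualNumber (ResidueField 𝒪)) :=
    inferInstanceAs (Finite (ResidueField 𝒪 × ResidueField 𝒪))
  have hfin := finite_matrixRep S hS (DualNumber (ResidueField 𝒪))
  haveI := hfin.to_subtype
  haveI : IsArtinianRing (DualNumber (ResidueField 𝒪)) := inferInstance
  refine Finite.of_injective (β := {r : GQ →* M2 (DualNumber (ResidueField 𝒪)) |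
    (∃ L : IntermediateField ℚ (AlgebraicClosure ℚ), FiniteDimensional ℚ L ∧
      ∀ σ : GQ, (∀ x ∈ L, σ x = x) → r σ = 1) ∧
      ∀ q : ℕ, q.Prime → q ∉ S → ∀ P : ValuationSubring (AlgebraicClosure ℚ), P.LiesOverPrime q →
        ∀ σ ∈ P.inertiaSubgroupIn ℚ, r σ = 1})
    (fun c => ⟨toMat c.out.1.ρ (exists_basis c.out.1).some, ?_, ?_⟩) ?_
  · exact (mcont_iff_of_artinian _).mp (mcont_toMat c.out.1 _)
  · intro q hq hqS P hP σ hσ
    exact (toMat_eq_one_iff _ _ _).mp (h c.out.1 c.out.2.1 q hq hqS P hP σ hσ)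
  · intro c c' hcc
    have h1 : toMat c.out.1.ρ (exists_basis c.out.1).some =
        toMat c'.out.1.ρ (exists_basis c'.out.1).some := congrArg Subtype.val hcc
    rw [← Quotient.out_eq c, ← Quotient.out_eq c']
    apply Quotient.sound
    show c.out.1.IsEquiv c'.out.1
    rw [isEquiv_iff_conj _ _ (exists_basis c.out.1).some (exists_basis c'.out.1).some]
    exact ⟨1, isUnit_one, fun σ => by rw [h1, one_mul, mul_one]⟩

end Fermat.Agent.H53
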