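import Mathlib
import Fermat.Prelude.Def_GaloisRep_Residual
import Fermat.Agent.H69Burnside

set_option autoImplicit false
set_option linter.style.haveILetI false
set_option linter.unusedSimpArgs false

namespace Fermat.Agent.H69

open IsLocalRing Matrix Polynomial

section Ev

variable {O B G : Type*} [CommRing O] [CommRing B] [Algebra O B] [Group G]

/-- Evaluation of group ring elements in a matrix representation. -/
noncomputable def ev (r : G →* Matrix (Fin 2) (Fin 2) B) :
    MonoidAlgebra O G →ₐ[O] Matrix (Fin 2) (Fin 2) B :=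
  MonoidAlgebra.lift O (Matrix (Fin 2) (Fin 2) B) G r

theorem ev_single (r : G →* Matrix (Fin 2) (Fin 2) B) (g : G) (c : O) :
    ev r (MonoidAlgebra.single g c) = c • r g := by
  simp [ev]

theorem ev_of (r : G →* Matrix (Fin 2) (Fin 2) B) (g : G) :
    ev (O := O) r (MonoidAlgebra.of O G g) = r g := by
  simp [ev]

theorem ev_intertwine (r r' : G →* Matrix (Fin 2) (Fin 2) B) (u : Matrix (Fin 2) (Fin 2) B)
    (h : ∀ σ, u * r σ = r' σ * u) (x : MonoidAlgebra O G) : u * ev r x = ev r' x * u := by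
  induction x using MonoidAlgebra.induction_on with
  | of g => rw [ev_of, ev_of, h]
  | add x y hx hy => rw [map_add, map_add, mul_add, add_mul, hx, hy]
  | smul c x hx => rw [map_smul, map_smul, mul_smul_comm, smul_mul_assoc, hx]

/-- Functoriality of `ev`. -/
theorem ev_map {C : Type*} [CommRing C] [Algebra O C] (φ : B →ₐ[O] C)
    (r : G →* Matrix (Fin 2) (Fin 2) B) (r' : G →* Matrix (Fin 2) (Fin 2) C)
    (h : ∀ σ, (r σ).map φ = r' σ) (x : MonoidAlgebra O G) : (ev r x).map φ = ev r' x := by
  have key : φ.mapMatrix (ev r x) = ev r' x := by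
    induction x using MonoidAlgebra.induction_on with
    | of g =>
      rw [ev_of, ev_of, ← h]
      rfl
    | add x y hx hy => rw [map_add, map_add, map_add, hx, hy]
    | smul c x hx => rw [map_smul, map_smul, map_smul, hx]
  exact key

/-- `r` is normalised with respect to the group ring elements `x`, `z`. -/
structure IsNormalized (x z : MonoidAlgebra O G) (r : G →* Matrix (Fin 2) (Fin 2) B) : Prop where
  x01 : ev r x 0 1 = 0
  x10 : ev r x 1 0 = 0
  z10 : ev r z 1 0 = 1

end Ev

section Local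

variable {O A G : Type*} [CommRing O] [CommRing A] [Algebra O A] [Group G]
  {x z : MonoidAlgebra O G}

theorem normalized_unique [IsLocalRing A] (r r' : G →* Matrix (Fin 2) (Fin 2) A)
    (h : IsNormalized x z r) (h' : IsNormalized x z r')
    (hx00 : ev r x 0 0 - 1 ∈ maximalIdeal A) (hx11 : ev r x 1 1 ∈ maximalIdeal A)
    (hx00' : ev r' x 0 0 - 1 ∈ maximalIdeal A) (hx11' : ev r' x 1 1 ∈ maximalIdeal A)
    (u : Matrix (Fin 2) (Fin 2) A) (hu : IsUnit u) (huc : ∀ σ, u * r σ = r' σ * u) : r = r' := by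
  have hX := ev_intertwine r r' u huc x
  have hZ := ev_intertwine r r' u huc z
  have isUnit_of : ∀ s t : A, s - 1 ∈ maximalIdeal A → t ∈ maximalIdeal A → IsUnit (s - t) := by
    intro s t hs ht
    have h1 : (s - t) - 1 ∈ maximalIdeal A := by
      have : (s - t) - 1 = (s - 1) - t := by ring
      rw [this]; exact sub_mem hs ht
    by_contra hnu
    have h2 : (s - t) ∈ maximalIdeal A := (mem_maximalIdeal _).mpr hnu
    have h3 : (1 : A) ∈ maximalIdeal A := by
      have : (1 : A) = (s - t) - ((s - t) - 1) := by ring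
      rw [this]; exact sub_mem h2 h1
    exact (Ideal.ne_top_iff_one _).mp (maximalIdeal.isMaximal A).ne_top h3
  have e01 := congrFun (congrFun hX 0) 1
  have e10 := congrFun (congrFun hX 1) 0
  have f10 := congrFun (congrFun hZ 1) 0
  simp only [Matrix.mul_apply, Fin.sum_univ_two, h.x01, h.x10, h'.x01, h'.x10, h.z10, h'.z10,
    mul_zero, zero_mul, add_zero, zero_add, mul_one, one_mul] at e01 e10 f10
  have u01 : u 0 1 = 0 := by
    have hu1 := isUnit_of _ _ hx00' hx11
    have : (ev r' x 0 0 - ev r x 1 1) * u 0 1 = 0 := by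
      rw [sub_mul, ← e01]; ring
    exact (hu1.mul_right_eq_zero).mp this
  have u10 : u 1 0 = 0 := by
    have hu1 := isUnit_of _ _ hx00 hx11'
    have : (ev r x 0 0 - ev r' x 1 1) * u 1 0 = 0 := by
      rw [sub_mul, ← e10]; ring
    exact (hu1.mul_right_eq_zero).mp this
  rw [u10] at f10
  have u11 : u 1 1 = u 0 0 := by simpa using f10
  have hu' : u = (u 0 0) • (1 : Matrix (Fin 2) (Fin 2) A) := by
    ext i j
    fin_cases i <;> fin_cases j <;> simp [u01, u10, u11]
  have hs : IsUnit (u 0 0) := by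
    have hdet := (Matrix.isUnit_iff_isUnit_det u).mp hu
    rw [Matrix.det_fin_two, u01, u10, u11, mul_zero, sub_zero] at hdet
    exact isUnit_of_mul_isUnit_left hdet
  ext σ : 1
  have h1 := huc σ
  rw [hu'] at h1
  simp only [smul_mul_assoc, one_mul, mul_smul_comm, mul_one] at h1
  ext i j
  have h2 := congrFun (congrFun h1 i) j
  simp only [Matrix.smul_apply, smul_eq_mul] at h2
  exact hs.mul_left_cancel h2

/-- conjugate a matrix representation. -/
noncomputable def conjRep (u : Matrix (Fin 2) (Fin 2) A) (hu : IsUnit u.det)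
    (r : G →* Matrix (Fin 2) (Fin 2) A) : G →* Matrix (Fin 2) (Fin 2) A where
  toFun σ := u⁻¹ * r σ * u
  map_one' := by rw [map_one, mul_one, Matrix.nonsing_inv_mul _ hu]
  map_mul' σ τ := by
    rw [map_mul]
    calc u⁻¹ * (r σ * r τ) * u = u⁻¹ * r σ * 1 * (r τ * u) := by
          simp only [mul_assoc, mul_one, one_mul]
      _ = u⁻¹ * r σ * (u * u⁻¹) * (r τ * u) := by rw [Matrix.mul_nonsing_inv _ hu]
      _ = u⁻¹ * r σ * u * (u⁻¹ * r τ * u) := by simp only [mul_assoc]

theorem conjRep_spec (u : Matrix (Fin 2) (Fin 2) A) (hu : IsUnit u.det)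
    (r : G →* Matrix (Fin 2) (Fin 2) A) (σ : G) : u * conjRep u hu r σ = r σ * u := by
  show u * (u⁻¹ * r σ * u) = r σ * u
  calc u * (u⁻¹ * r σ * u) = (u * u⁻¹) * (r σ * u) := by simp only [mul_assoc]
    _ = r σ * u := by rw [Matrix.mul_nonsing_inv _ hu, one_mul]

theorem isUnit_of_sub_one_mem [IsLocalRing A] {s : A} (hs : s - 1 ∈ maximalIdeal A) : IsUnit s := by
  by_contra hnu
  have h2 : s ∈ maximalIdeal A := (mem_maximalIdeal _).mpr hnu
  have h3 : (1 : A) ∈ maximalIdeal A := by
    have : (1 : A) = s - (s - 1) := by ring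
    rw [this]; exact sub_mem h2 hs
  exact (Ideal.ne_top_iff_one _).mp (maximalIdeal.isMaximal A).ne_top h3

theorem exists_normalized [HenselianLocalRing A]
    (r : G →* Matrix (Fin 2) (Fin 2) A)
    (hx : ∀ i j, ev r x i j - (!![1, 0; 0, 0] : Matrix (Fin 2) (Fin 2) A) i j ∈ maximalIdeal A)
    (hz : ∀ i j, ev r z i j - (!![0, 0; 1, 0] : Matrix (Fin 2) (Fin 2) A) i j ∈ maximalIdeal A) :
    ∃ (u : Matrix (Fin 2) (Fin 2) A) (r' : G →* Matrix (Fin 2) (Fin 2) A),
      (∀ i j, u i j - (1 : Matrix (Fin 2) (Fin 2) A) i j ∈ maximalIdeal A) ∧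
      IsNormalized x z r' ∧ ∀ σ, u * r' σ = r σ * u := by
  set T := ev r x with hT
  set Z := ev r z with hZ
  have ha : T 0 0 - 1 ∈ maximalIdeal A := by simpa using hx 0 0
  have hb : T 0 1 ∈ maximalIdeal A := by simpa using hx 0 1
  have hc : T 1 0 ∈ maximalIdeal A := by simpa using hx 1 0
  have hd : T 1 1 ∈ maximalIdeal A := by simpa using hx 1 1
  set a := T 0 0
  set b := T 0 1
  set c := T 1 0
  set d := T 1 1
  -- Hensel's lemma for the characteristic polynomial
  let f : A[X] := X ^ 2 - C (a + d) * X + C (a * d - b * c)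
  have hfm : f.Monic := by
    show (X ^ 2 - C (a + d) * X + C (a * d - b * c) : A[X]).Monic
    monicity!
  have hf1 : f.eval 1 ∈ maximalIdeal A := by
    have : f.eval 1 = (a - 1) * (d - 1) - b * c := by
      simp only [f, eval_add, eval_sub, eval_mul, eval_pow, eval_X, eval_C]; ring
    rw [this]
    exact sub_mem (Ideal.mul_mem_right _ _ ha) (Ideal.mul_mem_right _ _ hb)
  have hf2 : IsUnit (f.derivative.eval 1) := by
    have : f.derivative.eval 1 = 2 - (a + d) := by
      simp only [f, derivative_add, derivative_sub, derivative_mul, derivative_X_pow, derivative_C,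
        derivative_X, eval_add, eval_sub, eval_mul, eval_pow, eval_X, eval_C, eval_zero, eval_one]
      simp
    rw [this]
    apply isUnit_of_sub_one_mem
    have : 2 - (a + d) - 1 = - ((a - 1) + d) := by ring
    rw [this]
    exact neg_mem (add_mem ha hd)
  obtain ⟨lam, hroot, hlam⟩ := HenselianLocalRing.is_henselian f hfm 1 hf1 hf2
  have hroot' : lam ^ 2 - (a + d) * lam + (a * d - b * c) = 0 := by
    have := hroot
    simpa [f, IsRoot.def] using this
  set mu := a + d - lam with hmu
  have hmu' : mu ∈ maximalIdeal A := by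
    have : mu = (a - 1) + d - (lam - 1) := by rw [hmu]; ring
    rw [this]; exact sub_mem (add_mem ha hd) hlam
  let U0 : Matrix (Fin 2) (Fin 2) A := !![a - mu, -b; c, lam - d]
  have hTeq : T = !![a, b; c, d] := by
    ext i j
    fin_cases i <;> fin_cases j <;> rfl
  have hU0 : ∀ i j, U0 i j - (1 : Matrix (Fin 2) (Fin 2) A) i j ∈ maximalIdeal A := by
    simp only [Fin.forall_fin_two]
    refine ⟨⟨?_, ?_⟩, ⟨?_, ?_⟩⟩
    · have : U0 0 0 - (1 : Matrix (Fin 2) (Fin 2) A) 0 0 = (a - 1) - mu := by simp [U0]; ring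
      rw [this]; exact sub_mem ha hmu'
    · have : U0 0 1 - (1 : Matrix (Fin 2) (Fin 2) A) 0 1 = - b := by simp [U0]
      rw [this]; exact neg_mem hb
    · have : U0 1 0 - (1 : Matrix (Fin 2) (Fin 2) A) 1 0 = c := by simp [U0]
      rw [this]; exact hc
    · have : U0 1 1 - (1 : Matrix (Fin 2) (Fin 2) A) 1 1 = (lam - 1) - d := by simp [U0]; ring
      rw [this]; exact sub_mem hlam hd
  have hmapU0 : (residue A).mapMatrix U0 = 1 := by
    ext i j
    have := hU0 i j
    rw [← residue_eq_zero_iff, map_sub, sub_eq_zero] at this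
    rw [RingHom.mapMatrix_apply, Matrix.map_apply, this]
    fin_cases i <;> fin_cases j <;> simp
  have hdetU0 : IsUnit U0.det := by
    apply isUnit_of_map_unit (residue A)
    rw [RingHom.map_det, hmapU0, Matrix.det_one]
    exact isUnit_one
  -- T U0 = U0 Λ
  let Λ : Matrix (Fin 2) (Fin 2) A := !![lam, 0; 0, mu]
  have hTU : T * U0 = U0 * Λ := by
    rw [hTeq]
    ext i j
    fin_cases i <;> fin_cases j <;> simp [U0, Λ, Matrix.mul_apply, Fin.sum_univ_two]
    · rw [hmu]; linear_combination (-1) * hroot'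
    · rw [hmu]; ring
    · rw [hmu]; ring
    · rw [hmu]; linear_combination hroot'
  -- the rescaling
  obtain ⟨Z0, hUZ0⟩ : ∃ Z0 : Matrix (Fin 2) (Fin 2) A, U0 * Z0 = Z * U0 := by
    refine ⟨U0⁻¹ * Z * U0, ?_⟩
    calc U0 * (U0⁻¹ * Z * U0) = (U0 * U0⁻¹) * (Z * U0) := by simp only [mul_assoc]
      _ = Z * U0 := by rw [Matrix.mul_nonsing_inv _ hdetU0, one_mul]
  have he1 : residue A (Z0 1 0) = 1 := by
    have h1 := congrArg (residue A).mapMatrix hUZ0
    rw [map_mul, map_mul, hmapU0, one_mul, mul_one] at h1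
    have h2 := congrFun (congrFun h1 1) 0
    rw [RingHom.mapMatrix_apply, RingHom.mapMatrix_apply, Matrix.map_apply, Matrix.map_apply] at h2
    rw [h2]
    have h3 := hz 1 0
    rw [← residue_eq_zero_iff, map_sub, sub_eq_zero] at h3
    simpa using h3
  set e := Z0 1 0 with he
  have heu : IsUnit e := by
    apply isUnit_of_map_unit (residue A)
    rw [he1]; exact isUnit_one
  have he' : e - 1 ∈ maximalIdeal A := by
    rw [← residue_eq_zero_iff, map_sub, map_one, he1, sub_self]
  let D : Matrix (Fin 2) (Fin 2) A := !![1, 0; 0, e]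
  let U := U0 * D
  have hU : ∀ i j, U i j - (1 : Matrix (Fin 2) (Fin 2) A) i j ∈ maximalIdeal A := by
    intro i j
    rw [← residue_eq_zero_iff, map_sub, sub_eq_zero]
    have hmapD : (residue A).mapMatrix D = 1 := by
      ext i j
      fin_cases i <;> fin_cases j <;> simp [D, he1]
    have hmapU : (residue A).mapMatrix U = (residue A).mapMatrix 1 := by
      show (residue A).mapMatrix (U0 * D) = _
      rw [map_mul, hmapU0, hmapD, one_mul, map_one]
    exact congrFun (congrFun hmapU i) j
  have hdetD : D.det = e := by simp [D, Matrix.det_fin_two]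
  have hdetU : IsUnit U.det := by
    show IsUnit (U0 * D).det
    rw [Matrix.det_mul, hdetD]
    exact hdetU0.mul heu
  refine ⟨U, conjRep U hdetU r, hU, ?_, conjRep_spec U hdetU r⟩
  have hint := ev_intertwine (O := O) (conjRep U hdetU r) r U (conjRep_spec U hdetU r)
  have hXX : ev (conjRep U hdetU r) x = Λ := by
    have h1 : U * ev (conjRep U hdetU r) x = U * Λ := by
      rw [hint x, ← hT]
      show T * (U0 * D) = U0 * D * Λ
      rw [← mul_assoc, hTU, mul_assoc, mul_assoc]
      congr 1
      ext i j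
      fin_cases i <;> fin_cases j <;> simp [D, Λ, Matrix.mul_apply, Fin.sum_univ_two, mul_comm]
    have hUu : IsUnit U := (Matrix.isUnit_iff_isUnit_det U).mpr hdetU
    exact hUu.mul_left_cancel h1
  have hZZ : D * ev (conjRep U hdetU r) z = Z0 * D := by
    have hU0u : IsUnit U0 := (Matrix.isUnit_iff_isUnit_det U0).mpr hdetU0
    apply hU0u.mul_left_cancel
    rw [← mul_assoc, ← mul_assoc, hUZ0, mul_assoc Z]
    exact hint z
  refine ⟨?_, ?_, ?_⟩
  · rw [hXX]; simp [Λ]
  · rw [hXX]; simp [Λ]
  · have h1 := congrFun (congrFun hZZ 1) 0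
    simp only [Matrix.mul_apply, Fin.sum_univ_two, D] at h1
    simp only [Matrix.of_apply, Matrix.cons_val', Matrix.cons_val_zero, Matrix.cons_val_one,
      Matrix.cons_val_fin_one, zero_mul, zero_add, mul_one, mul_zero, add_zero] at h1
    have h2 : e * ev (conjRep U hdetU r) z 1 0 = e * 1 := by rw [h1, mul_one]
    exact heu.mul_left_cancel h2

end Local

section Lift

variable {O G : Type*} [CommRing O] [IsLocalRing O] [Group G]

theorem exists_lift_group_ring (rbar : G →* Matrix (Fin 2) (Fin 2) (ResidueField O))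
    (hspan : Submodule.span (ResidueField O) (Set.range rbar) = ⊤)
    (M : Matrix (Fin 2) (Fin 2) (ResidueField O)) :
    ∃ x : MonoidAlgebra O G, ev rbar x = M := by
  have hM : M ∈ Submodule.span (ResidueField O) (Set.range rbar) := by rw [hspan]; trivial
  induction hM using Submodule.span_induction with
  | mem m hm =>
    obtain ⟨g, rfl⟩ := hm
    exact ⟨MonoidAlgebra.of O G g, ev_of _ _⟩
  | zero => exact ⟨0, map_zero _⟩
  | add m m' _ _ h h' =>
    obtain ⟨y, rfl⟩ := h
    obtain ⟨y', rfl⟩ := h'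
    exact ⟨y + y', map_add _ _ _⟩
  | smul c m _ h =>
    obtain ⟨y, rfl⟩ := h
    obtain ⟨c', rfl⟩ := IsLocalRing.residue_surjective c
    refine ⟨c' • y, ?_⟩
    rw [map_smul]
    rfl

end Lift

end Fermat.Agent.H69
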