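import Fermat.Agent.H53Matrix
import Fermat.Agent.H69Normal

set_option autoImplicit false

noncomputable section

open scoped TensorProduct
open IsLocalRing
open Fermat.Agent.H69 (ev IsNormalized)

namespace Fermat.Agent.H53

section Ev

variable {𝒪 A B : Type} [CommRing 𝒪] [CommRing A] [CommRing B] [Algebra 𝒪 A] [Algebra 𝒪 B]

lemma ev_apply (r : GQ →* M2 A) (x : MonoidAlgebra 𝒪 GQ) (i j : Fin 2) :
    ev r x i j = x.coeff.sum fun g c => c • r g i j := by
  rw [ev, MonoidAlgebra.lift_apply]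
  rw [Finsupp.sum, Finsupp.sum, Matrix.sum_apply]
  rfl

lemma ev_map (φ : A →ₐ[𝒪] B) (r : GQ →* M2 A) (x : MonoidAlgebra 𝒪 GQ) (i j : Fin 2) :
    ev (mapMat (φ : A →+* B) r) x i j = φ (ev r x i j) := by
  rw [ev_apply, ev_apply, Finsupp.sum, Finsupp.sum, map_sum]
  refine Finset.sum_congr rfl fun g _ => ?_
  rw [mapMat_apply, map_smul]
  rfl

variable (x z : MonoidAlgebra 𝒪 GQ)

variable {x z}

lemma isNormalized_map (φ : A →ₐ[𝒪] B) {r : GQ →* M2 A} (h : IsNormalized x z r) :
    IsNormalized x z (mapMat (φ : A →+* B) r) where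
  x01 := by rw [ev_map, h.x01, map_zero]
  x10 := by rw [ev_map, h.x10, map_zero]
  z10 := by rw [ev_map, h.z10, map_one]

end Ev

section Univ

variable {𝒪 : Type} [CommRing 𝒪] (x z : MonoidAlgebra 𝒪 GQ)

/-- the free polynomial ring on matrix entries -/
abbrev PolyE (𝒪 : Type) [CommRing 𝒪] : Type := MvPolynomial (GQ × Fin 2 × Fin 2) 𝒪

/-- generic matrices -/
def gen (g : GQ) : M2 (PolyE 𝒪) := fun i j => MvPolynomial.X (g, i, j)

/-- formal evaluation in the generic matrices -/
def evGen (x : MonoidAlgebra 𝒪 GQ) (i j : Fin 2) : PolyE 𝒪 :=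
  x.coeff.sum fun g c => c • gen g i j

/-- the relations -/
def rels : Set (PolyE 𝒪) :=
  {p | ∃ i j, p = gen (1 : GQ) i j - (1 : M2 (PolyE 𝒪)) i j} ∪
  {p | ∃ g h i j, p = gen (g * h) i j - (gen g * gen h : M2 (PolyE 𝒪)) i j} ∪
  {evGen x 0 1, evGen x 1 0, evGen z 1 0 - 1}

/-- the universal ring for normalised matrix representations -/
def UnivP : Type := PolyE 𝒪 ⧸ Ideal.span (rels x z)

instance : CommRing (UnivP x z) := inferInstanceAs (CommRing (PolyE 𝒪 ⧸ Ideal.span (rels x z)))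
instance : Algebra 𝒪 (UnivP x z) := inferInstanceAs (Algebra 𝒪 (PolyE 𝒪 ⧸ Ideal.span (rels x z)))

/-- the projection -/
def projP : PolyE 𝒪 →ₐ[𝒪] UnivP x z := Ideal.Quotient.mkₐ 𝒪 (Ideal.span (rels x z))

lemma projP_surjective : Function.Surjective (projP x z) :=
  Ideal.Quotient.mkₐ_surjective 𝒪 _

lemma projP_rel {p : PolyE 𝒪} (hp : p ∈ rels x z) : projP x z p = 0 :=
  Ideal.Quotient.eq_zero_iff_mem.mpr (Ideal.subset_span hp)

/-- the universal normalised matrix representation -/
def univRep : GQ →* M2 (UnivP x z) where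
  toFun g := (gen g).map (projP x z)
  map_one' := by
    ext i j
    have h := projP_rel x z (p := gen (1 : GQ) i j - (1 : M2 (PolyE 𝒪)) i j)
      (Or.inl (Or.inl ⟨i, j, rfl⟩))
    rw [map_sub, sub_eq_zero] at h
    rw [Matrix.map_apply, h, Matrix.one_apply, Matrix.one_apply]
    split_ifs <;> simp
  map_mul' g h := by
    ext i j
    have h1 := projP_rel x z (p := gen (g * h) i j - (gen g * gen h : M2 (PolyE 𝒪)) i j)
      (Or.inl (Or.inr ⟨g, h, i, j, rfl⟩))
    rw [map_sub, sub_eq_zero] at h1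
    rw [Matrix.map_apply, h1, Matrix.mul_apply, Matrix.mul_apply, map_sum]
    simp

lemma univRep_apply (g : GQ) (i j : Fin 2) :
    univRep x z g i j = projP x z (MvPolynomial.X (g, i, j)) := rfl

lemma projP_evGen (y : MonoidAlgebra 𝒪 GQ) (i j : Fin 2) :
    projP x z (evGen y i j) = ev (univRep x z) y i j := by
  rw [ev_apply, evGen, Finsupp.sum, Finsupp.sum, map_sum]
  refine Finset.sum_congr rfl fun g _ => ?_
  rw [map_smul]
  rfl

lemma univRep_isNormalized : IsNormalized x z (univRep x z) where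
  x01 := by
    rw [← projP_evGen]
    exact projP_rel x z (Or.inr (Or.inl rfl))
  x10 := by
    rw [← projP_evGen]
    exact projP_rel x z (Or.inr (Or.inr (Or.inl rfl)))
  z10 := by
    rw [← projP_evGen, ← sub_eq_zero, ← map_one (projP x z), ← map_sub]
    exact projP_rel x z (Or.inr (Or.inr (Or.inr rfl)))

variable {x z}

theorem exists_univ_lift {B : Type} [CommRing B] [Algebra 𝒪 B] (r : GQ →* M2 B)
    (hr : IsNormalized x z r) :
    ∃ φ : UnivP x z →ₐ[𝒪] B, mapMat (φ : UnivP x z →+* B) (univRep x z) = r := by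
  let ψ : PolyE 𝒪 →ₐ[𝒪] B := MvPolynomial.aeval fun t => r t.1 t.2.1 t.2.2
  have hgen : ∀ g i j, ψ (gen g i j) = r g i j := fun g i j => by
    simp [ψ, gen, MvPolynomial.aeval_X]
  have hev : ∀ (y : MonoidAlgebra 𝒪 GQ) i j, ψ (evGen y i j) = ev r y i j := fun y i j => by
    rw [ev_apply, evGen, Finsupp.sum, Finsupp.sum, map_sum]
    refine Finset.sum_congr rfl fun g _ => ?_
    rw [map_smul, hgen]
  have hψ : ∀ p ∈ Ideal.span (rels x z), ψ p = 0 := by
    intro p hp
    have : Ideal.span (rels x z) ≤ RingHom.ker (ψ : PolyE 𝒪 →+* B) := by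
      rw [Ideal.span_le]
      rintro p ((⟨i, j, rfl⟩ | ⟨g, h, i, j, rfl⟩) | h)
      · show ψ _ = 0
        rw [map_sub, hgen, map_one, sub_eq_zero, Matrix.one_apply, Matrix.one_apply]
        split_ifs <;> simp
      · show ψ _ = 0
        rw [map_sub, hgen, map_mul, sub_eq_zero, Matrix.mul_apply, Matrix.mul_apply, map_sum]
        refine Finset.sum_congr rfl fun t _ => ?_
        rw [map_mul, hgen, hgen]
      · rcases h with rfl | rfl | rfl
        · show ψ _ = 0
          rw [hev, hr.x01]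
        · show ψ _ = 0
          rw [hev, hr.x10]
        · show ψ _ = 0
          rw [map_sub, hev, hr.z10, map_one, sub_self]
    exact this hp
  refine ⟨Ideal.Quotient.liftₐ (Ideal.span (rels x z)) ψ hψ, ?_⟩
  ext g i j
  rw [mapMat_apply]
  exact hgen g i j

theorem univ_hom_ext {B : Type} [CommRing B] [Algebra 𝒪 B] {φ ψ : UnivP x z →ₐ[𝒪] B}
    (h : mapMat (φ : UnivP x z →+* B) (univRep x z) = mapMat (ψ : UnivP x z →+* B) (univRep x z)) :
    φ = ψ := by
  have h1 : φ.comp (projP x z) = ψ.comp (projP x z) := by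
    apply MvPolynomial.algHom_ext
    rintro ⟨g, i, j⟩
    have := congrFun (congrFun (DFunLike.congr_fun h g) i) j
    exact this
  refine AlgHom.ext fun p => ?_
  obtain ⟨q, rfl⟩ := projP_surjective x z p
  exact AlgHom.congr_fun h1 q

end Univ

end Fermat.Agent.H53
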