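import Fermat.Agent.H53Z2

/-!
# The explicit series of Whittaker terms (helper53, S47 block D, part A4)

`ser a v w = ∑_x a(x) kterm (v x) w` under the hypothesis `KSum a v`.
-/

set_option autoImplicit false

open MeasureTheory Set Filter Topology
open scoped ComplexConjugate Real

noncomputable section

namespace Fermat.Agent.H53Z

open Fermat.Agent Fermat.Agent.H22Z

variable {J : Type*} [Fintype J] {X : Type*}

/-- the summand of the majorant -/
def kmt (a : X → ℂ) (v : X → J → ℂ) (ε : ℝ) (x : X) : ℝ :=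
  ‖a x‖ * (∏ j, ‖v x j‖⁻¹) * Real.exp (-ε * ∑ j, ‖v x j‖)

/-- the majorant -/
def kmaj (a : X → ℂ) (v : X → J → ℂ) (ε : ℝ) : ℝ := ∑' x, kmt a v ε x

/-- Summability of the Whittaker series. -/
structure KSum (a : X → ℂ) (v : X → J → ℂ) : Prop where
  ne : ∀ x, a x ≠ 0 → ∀ j, v x j ≠ 0
  sum : ∀ ε : ℝ, 0 < ε → Summable (kmt a v ε)

/-- the series -/
def ser (a : X → ℂ) (v : X → J → ℂ) (w : J → H3) : ℂ := ∑' x, a x * kterm (v x) w

theorem kmt_nonneg (a : X → ℂ) (v : X → J → ℂ) (ε : ℝ) (x : X) : 0 ≤ kmt a v ε x :=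
  mul_nonneg (mul_nonneg (norm_nonneg _) (Finset.prod_nonneg fun _ _ => inv_nonneg.mpr
    (norm_nonneg _))) (Real.exp_pos _).le

theorem kmaj_nonneg (a : X → ℂ) (v : X → J → ℂ) (ε : ℝ) : 0 ≤ kmaj a v ε :=
  tsum_nonneg (kmt_nonneg a v ε)

theorem prod_inv_two_pi (u : J → ℝ) : (∏ j, (2 * π * u j)⁻¹) =
    ((2 * π) ^ Fintype.card J)⁻¹ * ∏ j, (u j)⁻¹ := by
  rw [← inv_pow, ← Finset.card_univ, ← Finset.prod_const, ← Finset.prod_mul_distrib]
  exact Finset.prod_congr rfl fun j _ => mul_inv _ _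

theorem norm_ser_term_le {a : X → ℂ} {v : X → J → ℂ} (h : KSum a v) {w : J → H3} {c : ℝ}
    (hw : ∀ j, c ≤ (w j).y) (x : X) :
    ‖a x * kterm (v x) w‖ ≤ ((2 * π) ^ Fintype.card J)⁻¹ * kmt a v (2 * π * c) x := by
  by_cases hx : a x = 0
  · rw [hx, zero_mul, norm_zero]
    exact mul_nonneg (by positivity) (kmt_nonneg _ _ _ _)
  have hv := h.ne x hx
  rw [norm_mul]
  have h1 := norm_kterm_le hv w
  have h2 := prod_inv_two_pi fun j => ‖v x j‖
  have h3 : Real.exp (-(2 * π * ∑ j, ‖v x j‖ * (w j).y)) ≤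
      Real.exp (-(2 * π * c) * ∑ j, ‖v x j‖) := by
    apply Real.exp_le_exp.2
    rw [neg_mul, neg_le_neg_iff, mul_assoc, Finset.mul_sum]
    refine mul_le_mul_of_nonneg_left ?_ (by have := Real.pi_pos; positivity)
    refine Finset.sum_le_sum fun j _ => ?_
    rw [mul_comm]
    exact mul_le_mul_of_nonneg_left (hw j) (norm_nonneg _)
  calc ‖a x‖ * ‖kterm (v x) w‖
      ≤ ‖a x‖ * ((((2 * π) ^ Fintype.card J)⁻¹ * ∏ j, ‖v x j‖⁻¹) *
        Real.exp (-(2 * π * c) * ∑ j, ‖v x j‖)) := by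
        refine mul_le_mul_of_nonneg_left (h1.trans ?_) (norm_nonneg _)
        rw [h2]
        refine mul_le_mul_of_nonneg_left h3 ?_
        exact mul_nonneg (by positivity)
          (Finset.prod_nonneg fun j _ => inv_nonneg.mpr (norm_nonneg _))
    _ = _ := by rw [kmt]; ring

theorem two_pi_pos_mul {c : ℝ} (hc : 0 < c) : 0 < 2 * π * c := by
  have := Real.pi_pos
  positivity

theorem summable_ser {a : X → ℂ} {v : X → J → ℂ} (h : KSum a v) (w : J → H3) :
    Summable fun x => a x * kterm (v x) w := by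
  obtain ⟨c, -, hc, hw, -⟩ := exists_bounds w (0 : J → ℝ)
  exact Summable.of_norm_bounded ((h.sum _ (two_pi_pos_mul hc)).mul_left _)
    fun x => norm_ser_term_le h hw x

theorem hasSum_ser {a : X → ℂ} {v : X → J → ℂ} (h : KSum a v) (w : J → H3) :
    HasSum (fun x => a x * kterm (v x) w) (ser a v w) := (summable_ser h w).hasSum

theorem norm_ser_le {a : X → ℂ} {v : X → J → ℂ} (h : KSum a v) {w : J → H3} {c : ℝ} (hc : 0 < c)
    (hw : ∀ j, c ≤ (w j).y) :
    ‖ser a v w‖ ≤ ((2 * π) ^ Fintype.card J)⁻¹ * kmaj a v (2 * π * c) :=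
  tsum_of_norm_bounded ((h.sum _ (two_pi_pos_mul hc)).hasSum.mul_left _)
    fun x => norm_ser_term_le h hw x

theorem continuous_ser {a : X → ℂ} {v : X → J → ℂ} (h : KSum a v) :
    Continuous fun w => ser a v w := by
  rw [continuous_iff_continuousAt]
  intro w₀
  obtain ⟨c, -, hc, hw, -⟩ := exists_bounds w₀ (0 : J → ℝ)
  set U : Set (J → H3) := {w | ∀ j, c / 2 < (w j).y} with hU
  have hy : ∀ j, Continuous fun w : J → H3 => (w j).y := fun j =>
    H3.continuous_y.comp (continuous_apply j)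
  have hUo : IsOpen U := by
    have e : U = ⋂ j, {w | c / 2 < (w j).y} := by
      ext w
      simp only [hU, mem_ofPred_eq, mem_iInter]
    rw [e]
    exact isOpen_iInter_of_finite fun j => isOpen_lt continuous_const (hy j)
  have haU : w₀ ∈ U := fun j => by
    have := hw j
    linarith
  have hcU : ContinuousOn (fun w => ser a v w) U := by
    refine continuousOn_tsum (u := fun x => ((2 * π) ^ Fintype.card J)⁻¹ *
      kmt a v (2 * π * (c / 2)) x) (fun x => ?_)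
      ((h.sum _ (two_pi_pos_mul (half_pos hc))).mul_left _)
      (fun x w hw => norm_ser_term_le h (fun j => (hw j).le) x)
    by_cases hx : a x = 0
    · simp only [hx, zero_mul]
      exact continuousOn_const
    · exact (continuous_const.mul (continuous_kterm (h.ne x hx))).continuousOn
  exact hcU.continuousAt (hUo.mem_nhds haU)

theorem measurable_ser {a : X → ℂ} {v : X → J → ℂ} (h : KSum a v) :
    Measurable fun w => ser a v w := (continuous_ser h).measurable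

/-! ### Monotonicity and polynomial growth -/

theorem kmt_anti (a : X → ℂ) (v : X → J → ℂ) {ε ε' : ℝ} (h : ε ≤ ε') (x : X) :
    kmt a v ε' x ≤ kmt a v ε x := by
  rw [kmt, kmt]
  refine mul_le_mul_of_nonneg_left (Real.exp_le_exp.2 ?_) (mul_nonneg (norm_nonneg _)
    (Finset.prod_nonneg fun j _ => inv_nonneg.mpr (norm_nonneg _)))
  have : 0 ≤ ∑ j, ‖v x j‖ := Finset.sum_nonneg fun j _ => norm_nonneg _
  nlinarith

theorem kmaj_anti {a : X → ℂ} {v : X → J → ℂ} (h : KSum a v) {ε ε' : ℝ} (hε : 0 < ε)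
    (hle : ε ≤ ε') : kmaj a v ε' ≤ kmaj a v ε :=
  (h.sum _ (hε.trans_le hle)).tsum_le_tsum (kmt_anti a v hle) (h.sum _ hε)

/-- Summability together with polynomial growth of the majorant as `ε → 0`. -/
def KGrow (a : X → ℂ) (v : X → J → ℂ) (A D : ℝ) : Prop :=
  0 ≤ A ∧ ∀ ε : ℝ, 0 < ε → ε ≤ 1 → kmaj a v ε ≤ D * ε ^ (-A)

/-- `m(w) = ∏_j (y_j + y_j⁻¹)` bounds everything -/
def hbd (w : J → H3) : ℝ := ∏ j, ((w j).y + ((w j).y)⁻¹)

theorem two_le_add_inv {y : ℝ} (hy : 0 < y) : 2 ≤ y + y⁻¹ := by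
  have h : y * y⁻¹ = 1 := mul_inv_cancel₀ hy.ne'
  have h2 : 0 < y⁻¹ := inv_pos.mpr hy
  nlinarith [sq_nonneg (y - y⁻¹), sq_nonneg (y + y⁻¹ - 2)]

omit [Fintype J] in
theorem one_le_factor (w : J → H3) (j : J) : 1 ≤ (w j).y + ((w j).y)⁻¹ :=
  (by norm_num : (1 : ℝ) ≤ 2).trans (two_le_add_inv (w j).pos)

theorem one_le_prod_real {κ : Type*} (s : Finset κ) {f : κ → ℝ} (h : ∀ i, 1 ≤ f i) :
    1 ≤ ∏ i ∈ s, f i := by
  calc (1 : ℝ) = ∏ _i ∈ s, (1 : ℝ) := by simp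
    _ ≤ ∏ i ∈ s, f i := Finset.prod_le_prod (fun _ _ => zero_le_one) fun i _ => h i

theorem factor_le_hbd (w : J → H3) (j : J) : (w j).y + ((w j).y)⁻¹ ≤ hbd w := by
  classical
  rw [hbd, ← Finset.mul_prod_erase _ _ (Finset.mem_univ j)]
  refine le_mul_of_one_le_right (by linarith [one_le_factor w j]) ?_
  exact one_le_prod_real _ fun j => one_le_factor w j

theorem one_le_hbd (w : J → H3) : 1 ≤ hbd w :=
  one_le_prod_real _ fun j => one_le_factor w j

theorem inv_hbd_le (w : J → H3) (j : J) : (hbd w)⁻¹ ≤ (w j).y := by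
  have h1 := factor_le_hbd w j
  have hy := (w j).pos
  have h2 : ((w j).y)⁻¹ ≤ hbd w := by linarith
  rw [inv_le_comm₀ (lt_of_lt_of_le (one_pos : (0 : ℝ) < 1) (one_le_hbd w)) hy]
  exact h2

/-- **Crude bound** : `|ser w| ≤ D' (∏ (y_j + 1/y_j))^A`. -/
theorem norm_ser_le_hbd {a : X → ℂ} {v : X → J → ℂ} (h : KSum a v) {A D : ℝ}
    (hg : KGrow a v A D) (w : J → H3) :
    ‖ser a v w‖ ≤ ((2 * π) ^ Fintype.card J)⁻¹ * D * (hbd w) ^ A := by
  have h1 : (1 : ℝ) ≤ hbd w := one_le_hbd w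
  have h0 : (0 : ℝ) < hbd w := lt_of_lt_of_le one_pos h1
  have hε : 0 < (hbd w)⁻¹ := inv_pos.mpr h0
  have hε1 : (hbd w)⁻¹ ≤ 1 := inv_le_one_of_one_le₀ h1
  have hpi := Real.pi_gt_three
  have hle : (hbd w)⁻¹ ≤ 2 * π * (hbd w)⁻¹ := by nlinarith
  refine (norm_ser_le h hε (inv_hbd_le w)).trans ?_
  have hpos : (0 : ℝ) ≤ ((2 * π) ^ Fintype.card J)⁻¹ := by positivity
  rw [mul_assoc (((2 * π) ^ Fintype.card J)⁻¹) D]
  refine mul_le_mul_of_nonneg_left ?_ hpos
  refine (kmaj_anti h hε hle).trans ((hg.2 _ hε hε1).trans (le_of_eq ?_))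
  rw [Real.inv_rpow h0.le, Real.rpow_neg h0.le, inv_inv]

/-- The crude bound with a natural exponent. -/
theorem exists_norm_ser_le_pow {a : X → ℂ} {v : X → J → ℂ} (h : KSum a v) {A D : ℝ}
    (hg : KGrow a v A D) : ∃ (n : ℕ) (C : ℝ), 0 ≤ C ∧ ∀ w, ‖ser a v w‖ ≤ C * (hbd w) ^ n := by
  refine ⟨⌈A⌉₊, ((2 * π) ^ Fintype.card J)⁻¹ * |D|, by positivity, fun w => ?_⟩
  refine (norm_ser_le_hbd h hg w).trans ?_
  have h1 := one_le_hbd w
  have h0 : 0 ≤ hbd w := zero_le_one.trans h1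
  have e : (hbd w) ^ A ≤ (hbd w) ^ ⌈A⌉₊ := by
    rw [← Real.rpow_natCast]
    exact Real.rpow_le_rpow_of_exponent_le h1 (Nat.le_ceil A)
  exact mul_le_mul (mul_le_mul_of_nonneg_left (le_abs_self D) (by positivity)) e
    (Real.rpow_nonneg h0 _) (by positivity)

/-! ### Exponential decay -/

/-- `|ser w| ≤ C exp (-(π δ) t)` if `∑ ‖v x j‖ y_j ≥ δ t` on the support and `y_j ≥ c`. -/
theorem norm_ser_le_exp {a : X → ℂ} {v : X → J → ℂ} (h : KSum a v) {w : J → H3} {c T : ℝ}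
    (hc : 0 < c) (hw : ∀ j, c ≤ (w j).y) (hT : ∀ x, a x ≠ 0 → T ≤ ∑ j, ‖v x j‖ * (w j).y) :
    ‖ser a v w‖ ≤ ((2 * π) ^ Fintype.card J)⁻¹ * kmaj a v (π * c) * Real.exp (-(π * T)) := by
  have hpi := Real.pi_pos
  have hs : HasSum (fun x => ((2 * π) ^ Fintype.card J)⁻¹ * kmt a v (π * c) x *
      Real.exp (-(π * T))) (((2 * π) ^ Fintype.card J)⁻¹ * kmaj a v (π * c) *
      Real.exp (-(π * T))) :=
    ((h.sum _ (mul_pos hpi hc)).hasSum.mul_left _).mul_right _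
  refine tsum_of_norm_bounded hs fun x => ?_
  by_cases hx : a x = 0
  · rw [hx, zero_mul, norm_zero]
    exact mul_nonneg (mul_nonneg (by positivity) (kmt_nonneg _ _ _ _)) (Real.exp_pos _).le
  have hv := h.ne x hx
  rw [norm_mul]
  have h1 := norm_kterm_le hv w
  have h2 := prod_inv_two_pi fun j => ‖v x j‖
  have h3 : Real.exp (-(2 * π * ∑ j, ‖v x j‖ * (w j).y)) ≤
      Real.exp (-(π * c) * ∑ j, ‖v x j‖) * Real.exp (-(π * T)) := by
    rw [← Real.exp_add]
    apply Real.exp_le_exp.2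
    have e1 : c * ∑ j, ‖v x j‖ ≤ ∑ j, ‖v x j‖ * (w j).y := by
      rw [Finset.mul_sum]
      refine Finset.sum_le_sum fun j _ => ?_
      rw [mul_comm]
      exact mul_le_mul_of_nonneg_left (hw j) (norm_nonneg _)
    have e2 := hT x hx
    nlinarith
  calc ‖a x‖ * ‖kterm (v x) w‖
      ≤ ‖a x‖ * ((((2 * π) ^ Fintype.card J)⁻¹ * ∏ j, ‖v x j‖⁻¹) *
        (Real.exp (-(π * c) * ∑ j, ‖v x j‖) * Real.exp (-(π * T)))) := by
        refine mul_le_mul_of_nonneg_left (h1.trans ?_) (norm_nonneg _)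
        rw [h2]
        refine mul_le_mul_of_nonneg_left h3 ?_
        exact mul_nonneg (by positivity)
          (Finset.prod_nonneg fun j _ => inv_nonneg.mpr (norm_nonneg _))
    _ = _ := by rw [kmt]; ring

end Fermat.Agent.H53Z
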