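import Fermat.Agent.H53Z4
import Fermat.Agent.H73U2
import Fermat.Agent.H33DCoef

/-!
# Number field instances for the explicit series (helper53, S47 block D)

* `exists_card_le` : the number of ideals of norm `≤ n` is `≤ C n`;
* `norm_coef_le_absNorm`, `norm_cf_le` : `|coef χ n| ≤ C N(n)`, `|cf χ J| ≤ C N(J)`;
* `ksum_E`, `ksum_cf` : the hypotheses `KSum`, `KGrow` for coefficients on a number field.
-/

set_option autoImplicit false

open NumberField Module Filter Topology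
open scoped nonZeroDivisors

noncomputable section

namespace Fermat.Agent.H53Z

/-! ### Counting ideals -/

theorem exists_card_le (K : Type*) [Field K] [NumberField K] : ∃ C : ℝ, 0 ≤ C ∧ ∀ n : ℕ, 0 < n →
    (Nat.card {I : Ideal (𝓞 K) // (Ideal.absNorm I : ℝ) ≤ n} : ℝ) ≤ C * n := by
  have h := (NumberField.Ideal.tendsto_norm_le_div_atTop K).comp
    (tendsto_natCast_atTop_atTop (R := ℝ))
  obtain ⟨C, hC⟩ := h.bddAbove_range
  refine ⟨max C 0, le_max_right _ _, fun n hn => ?_⟩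
  have hn' : (0 : ℝ) < n := by exact_mod_cast hn
  have h1 : (Nat.card {I : Ideal (𝓞 K) // (Ideal.absNorm I : ℝ) ≤ n} : ℝ) / n ≤ C :=
    hC ⟨n, rfl⟩
  rw [div_le_iff₀ hn'] at h1
  exact h1.trans (mul_le_mul_of_nonneg_right (le_max_left _ _) hn'.le)

theorem finite_absNorm_le (K : Type*) [Field K] [NumberField K] (n : ℕ) :
    {I : Ideal (𝓞 K) | (Ideal.absNorm I : ℝ) ≤ n}.Finite := by
  have h : {I : Ideal (𝓞 K) | Ideal.absNorm I ≤ n}.Finite := Ideal.finite_setOfPred_absNorm_le n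
  refine h.subset fun I hI => ?_
  have : (Ideal.absNorm I : ℝ) ≤ n := hI
  exact_mod_cast this

variable {E B : Type*} [Field E] [NumberField E] [Field B] [NumberField B] [Algebra E B]

theorem exists_ncard_normSet_le (E B : Type*) [Field E] [NumberField E] [Field B] [NumberField B]
    [Algebra E B] : ∃ C : ℝ, 0 ≤ C ∧ ∀ n : Ideal (𝓞 E), n ≠ 0 →
      ((H33D.normSet (S := 𝓞 B) (𝓞 E) n).ncard : ℝ) ≤ C * Ideal.absNorm n := by
  obtain ⟨C, hC0, hC⟩ := exists_card_le B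
  refine ⟨C, hC0, fun n hn => ?_⟩
  have hn' : 0 < Ideal.absNorm n := by
    rw [Nat.pos_iff_ne_zero, Ne, Ideal.absNorm_eq_zero_iff]
    exact hn
  have h1 : (H33D.normSet (S := 𝓞 B) (𝓞 E) n).ncard ≤
      {I : Ideal (𝓞 B) | (Ideal.absNorm I : ℝ) ≤ Ideal.absNorm n}.ncard := by
    refine Set.ncard_le_ncard (fun I hI => ?_) (finite_absNorm_le B (Ideal.absNorm n))
    have h2 : Ideal.absNorm (Ideal.relNorm (𝓞 E) I) = Ideal.absNorm I :=
      Ideal.absNorm_relNorm (𝓞 E) (𝓞 B) I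
    rw [H33D.mem_normSet] at hI
    rw [hI] at h2
    show (Ideal.absNorm I : ℝ) ≤ Ideal.absNorm n
    rw [h2]
  rw [← Nat.card_coe_set_eq {I : Ideal (𝓞 B) | (Ideal.absNorm I : ℝ) ≤ Ideal.absNorm n}] at h1
  have h3 : ((H33D.normSet (S := 𝓞 B) (𝓞 E) n).ncard : ℝ) ≤
      (Nat.card {I : Ideal (𝓞 B) // (Ideal.absNorm I : ℝ) ≤ Ideal.absNorm n} : ℝ) := by
    exact_mod_cast h1
  exact h3.trans (hC _ hn')

theorem exists_norm_coef_le (E B : Type*) [Field E] [NumberField E] [Field B] [NumberField B]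
    [Algebra E B] : ∃ C : ℝ, 0 ≤ C ∧ ∀ χ : Ideal (𝓞 B) →*₀ ℂ, (∀ I, ‖χ I‖ ≤ 1) →
      ∀ n : Ideal (𝓞 E), ‖H33D.coef χ n‖ ≤ C * Ideal.absNorm n := by
  obtain ⟨C, hC0, hC⟩ := exists_ncard_normSet_le E B
  refine ⟨C, hC0, fun χ hχ n => ?_⟩
  by_cases hn : n = 0
  · rw [hn, H33D.coef_zero, norm_zero]
    positivity
  · exact (H33D.norm_coef_le χ hχ hn).trans (hC n hn)

theorem exists_norm_cf_le (E B : Type*) [Field E] [NumberField E] [Field B] [NumberField B]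
    [Algebra E B] : ∃ C : ℝ, 0 ≤ C ∧ ∀ χ : Ideal (𝓞 B) →*₀ ℂ, (∀ I, ‖χ I‖ ≤ 1) →
      ∀ I : FractionalIdeal (𝓞 E)⁰ E, ‖H33D.cf χ I‖ ≤ C * (FractionalIdeal.absNorm I : ℝ) := by
  obtain ⟨C, hC0, hC⟩ := exists_norm_coef_le E B
  refine ⟨C, hC0, fun χ hχ I => ?_⟩
  by_cases hI : I ≤ 1
  · obtain ⟨n, rfl⟩ := FractionalIdeal.le_one_iff_exists_coeIdeal.mp hI
    rw [H33D.cf_coe, FractionalIdeal.coeIdeal_absNorm]
    exact_mod_cast hC χ hχ n
  · rw [H33D.cf_of_not_le χ hI, norm_zero]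
    have := FractionalIdeal.absNorm_nonneg I
    have h2 : (0 : ℝ) ≤ (FractionalIdeal.absNorm I : ℝ) := by exact_mod_cast this
    positivity

/-! ### Denominators -/

/-- A nonzero fractional ideal `c` has an integer `m ≠ 0` with: `α c ≤ 1` implies `m α` integral. -/
theorem exists_int_of_mul_le_one {c : FractionalIdeal (𝓞 E)⁰ E} (hc : c ≠ 0) :
    ∃ m : ℤ, m ≠ 0 ∧ ∀ α : E, FractionalIdeal.spanSingleton (𝓞 E)⁰ α * c ≤ 1 →
      IsIntegral ℤ ((m : E) * α) := by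
  obtain ⟨z, hz, hzc⟩ := FractionalIdeal.exists_ne_zero_mem_isInteger hc
  have h1 : ((Ideal.absNorm (Ideal.span {z}) : ℕ) : 𝓞 E) ∈ Ideal.span {z} := Ideal.absNorm_mem _
  obtain ⟨z', hz'⟩ := Ideal.mem_span_singleton'.mp h1
  refine ⟨Ideal.absNorm (Ideal.span {z}), ?_, fun α hα => ?_⟩
  · rw [Ne, Int.natCast_eq_zero, Ideal.absNorm_eq_zero_iff, Ideal.span_singleton_eq_bot]
    exact hz
  · have h2 : α * algebraMap (𝓞 E) E z ∈ (1 : FractionalIdeal (𝓞 E)⁰ E) :=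
      hα (FractionalIdeal.mul_mem_mul (FractionalIdeal.mem_spanSingleton_self _ α) hzc)
    obtain ⟨r, hr⟩ := (FractionalIdeal.mem_one_iff _).mp h2
    have h3 : ((Ideal.absNorm (Ideal.span {z}) : ℕ) : E) = algebraMap (𝓞 E) E z' *
        algebraMap (𝓞 E) E z := by
      rw [← map_mul, hz', map_natCast]
    have h4 : (((Ideal.absNorm (Ideal.span {z}) : ℕ) : ℤ) : E) * α =
        algebraMap (𝓞 E) E (z' * r) := by
      rw [Int.cast_natCast, h3, map_mul, hr]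
      ring
    rw [h4]
    exact RingOfIntegers.isIntegral_coe _

/-! ### The hypotheses of the series -/

variable {J : Type*} [Fintype J]

/-- The general instance over a totally complex field. -/
theorem ksum_E [IsTotallyComplex E] (e : J → (E →+* ℂ))
    (he : Function.Bijective fun j => InfinitePlace.mk (e j)) {a : E → ℂ} (h0 : a 0 = 0)
    {m : ℤ} (hm : m ≠ 0) (ha : ∀ x, a x ≠ 0 → IsIntegral ℤ ((m : E) * x)) {C : ℝ} {k : ℕ}
    (hk : ∀ x, ‖a x‖ ≤ C * (|Algebra.norm ℚ x| : ℝ) ^ k) :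
    KSum a (fun x j => e j x) ∧ ∃ A D : ℝ, KGrow a (fun x j => e j x) A D := by
  obtain ⟨A, D, hA, h⟩ := H73U.exists_series_bound e he a h0 m hm ha C k hk
  refine ⟨⟨fun x hx j => ?_, fun ε hε => ?_⟩, A, D, hA, fun ε hε hε1 => (h ε hε hε1).2⟩
  · refine (map_ne_zero (e j)).mpr ?_
    rintro rfl
    exact hx h0
  · by_cases hε1 : ε ≤ 1
    · exact (h ε hε hε1).1
    · push Not at hε1
      exact Summable.of_nonneg_of_le (kmt_nonneg a _ ε) (kmt_anti a _ hε1.le) (h 1 one_pos le_rfl).1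

/-- The instance for dihedral coefficients. -/
theorem ksum_cf [IsTotallyComplex E] (e : J → (E →+* ℂ))
    (he : Function.Bijective fun j => InfinitePlace.mk (e j)) {χ : Ideal (𝓞 B) →*₀ ℂ}
    (hχ : ∀ I, ‖χ I‖ ≤ 1) {c : FractionalIdeal (𝓞 E)⁰ E} (hc : c ≠ 0) {f : E → ℂ} {M : ℝ}
    (hf : ∀ x, ‖f x‖ ≤ M) :
    KSum (fun x : E => f x * H33D.cf χ (FractionalIdeal.spanSingleton (𝓞 E)⁰ x * c))
      (fun x j => e j x) ∧
    ∃ A D : ℝ, KGrow (fun x : E => f x * H33D.cf χ (FractionalIdeal.spanSingleton (𝓞 E)⁰ x * c))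
      (fun x j => e j x) A D := by
  obtain ⟨m, hm, hm'⟩ := exists_int_of_mul_le_one hc
  obtain ⟨C, hC0, hC⟩ := exists_norm_cf_le E B
  have hM : 0 ≤ M := (norm_nonneg _).trans (hf 0)
  refine ksum_E e he (m := m) (C := M * (C * (FractionalIdeal.absNorm c : ℝ))) (k := 1) ?_ hm
    (fun x hx => ?_) (fun x => ?_)
  · rw [FractionalIdeal.spanSingleton_zero, zero_mul, H33D.cf_zero, mul_zero]
  · refine hm' x ?_
    by_contra hcon
    exact hx (by rw [H33D.cf_of_not_le χ hcon, mul_zero])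
  · rw [norm_mul, pow_one]
    have h1 := hC χ hχ (FractionalIdeal.spanSingleton (𝓞 E)⁰ x * c)
    rw [map_mul, FractionalIdeal.absNorm_span_singleton] at h1
    calc ‖f x‖ * ‖H33D.cf χ (FractionalIdeal.spanSingleton (𝓞 E)⁰ x * c)‖
        ≤ M * (C * ((|Algebra.norm ℚ x| * FractionalIdeal.absNorm c : ℚ) : ℝ)) :=
          mul_le_mul (hf x) h1 (norm_nonneg _) hM
      _ = _ := by
          push_cast
          ring

end Fermat.Agent.H53Z
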