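import Fermat.Agent.H71UDefs
import Fermat.Agent.H36Psi
import Fermat.Agent.H66DNum
import Fermat.Agent.H77ZAdj
import Fermat.Agent.H82Kummer
import Fermat.Agent.H65FirstB

/-!
# Support of the Fourier transform at `S` (helper53, S47 block D, [L-SUPP])
-/

set_option autoImplicit false

open IsDedekindDomain NumberField WithZero FractionalIdeal
open scoped nonZeroDivisors

noncomputable section

namespace Fermat.Agent.H53Z

open Fermat.Agent Fermat.Agent.H71D Fermat.Agent.H7.Z
open Fermat.Agent.H47 (smulPlace below)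
open Fermat.Agent.H82 (above aboveSet NonSplit congr)

variable {E B : Type*} [Field E] [NumberField E] [Field B] [NumberField B] [Algebra E B]
  {J : Type*} [Fintype J]

/-- a lower bound for the valuation of a nonzero element -/
theorem exists_exp_le {K : Type*} [Field K] [NumberField K] (w : HeightOneSpectrum (𝓞 K)) {x : K}
    (hx : x ≠ 0) : ∃ c : ℕ, exp (-(c : ℤ)) ≤ w.valuation K x := by
  obtain ⟨c, hc⟩ := exists_le_exp w x⁻¹
  refine ⟨c, ?_⟩
  have h0 : w.valuation K x ≠ 0 := (Valuation.ne_zero_iff _).mpr hx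
  rw [map_inv₀] at hc
  rw [exp_neg]
  exact inv_le_of_inv_le₀ (zero_lt_iff.mpr h0) hc

/-- An element of `B` with exact orders `k` at the places above `S` and very small outside. -/
theorem exists_test (T : Finset (HeightOneSpectrum (𝓞 B))) (k : ℕ) (x : B) :
    ∃ z : B, (∀ P ∈ T, P.valuation B z = exp (-(k : ℤ))) ∧
      ∀ P ∉ T, P.valuation B (x * z) ≤ 1 := by
  classical
  choose ϖ hϖ using fun P : HeightOneSpectrum (𝓞 B) => H36.Psi.exists_val_eq_exp P (-(k : ℤ))
  choose m hm using fun P : HeightOneSpectrum (𝓞 B) => exists_le_exp P x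
  set W := (finite_not_integral x).toFinset with hW
  obtain ⟨z, h1, h2⟩ := exists_approx (R := 𝓞 B) (T ∪ W)
    (fun P => if P ∈ T then (ϖ P : B) else 0) (fun P => if P ∈ T then k + 1 else m P)
  refine ⟨z, fun P hP => ?_, fun P hP => ?_⟩
  · have h3 := h1 P (Finset.mem_union_left _ hP)
    simp only [if_pos hP] at h3
    have h4 : P.valuation B (z - ϖ P) < P.valuation B (ϖ P) := by
      refine h3.trans_lt ?_
      rw [hϖ, exp_lt_exp]
      push_cast
      linarith
    rw [← hϖ P]
    have := Valuation.map_eq_of_sub_lt _ h4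
    exact this
  · rw [map_mul]
    by_cases hPW : P ∈ W
    · have h3 := h1 P (Finset.mem_union_right _ hPW)
      simp only [if_neg hP, sub_zero] at h3
      calc _ ≤ exp (m P : ℤ) * exp (-(m P : ℤ)) := mul_le_mul' (hm P) h3
        _ = 1 := by rw [← exp_add]; simp
    · have h3 := h2 P (by simp [hP, hPW])
      have h4 : P.valuation B x ≤ 1 := by
        by_contra hcon
        exact hPW ((finite_not_integral x).mem_toFinset.mpr hcon)
      exact mul_le_one' h4 h3

/-- **[L-SUPP]** -/
theorem exists_supp {d : DD E B J} (hd : d.Good) (k : ℕ) : ∃ M : ℕ, ∀ x : B,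
    (∀ y : B, (∀ P ∈ aboveSet B (d.S : Set (HeightOneSpectrum (𝓞 E))),
      P.valuation B y ≤ exp (-(k : ℤ))) →
      ∏ w ∈ d.S, psi w (Algebra.trace E B (x * d.tau y)) = 1) →
    ∀ w ∈ d.S, w.valuation E (Algebra.norm E x) ≤ exp (M : ℤ) := by
  classical
  have hgal : IsGalois E B := H73U.isGalois d.tau hd.tau_ne hd.deg
  have htt : d.tau * d.tau = 1 := H77.Z.aut_mul_self hd.deg hd.tau_ne
  have htt' : ∀ x, d.tau (d.tau x) = x := H77.Z.aut_apply_apply hd.deg hd.tau_ne
  have hval : ∀ (P : HeightOneSpectrum (𝓞 B)) (x : B),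
      P.valuation B (d.tau x) = (smulPlace d.tau P).valuation B x :=
    fun P x => H77.Z.valuation_smulPlace' d.tau P x htt
  have hSBfin : (aboveSet B (d.S : Set (HeightOneSpectrum (𝓞 E)))).Finite :=
    H65.finite_aboveSet d.S.finite_toSet
  set SB := hSBfin.toFinset with hSB
  have hmem : ∀ P, P ∈ SB ↔ P ∈ aboveSet B (d.S : Set (HeightOneSpectrum (𝓞 E))) := fun P =>
    hSBfin.mem_toFinset
  have hst : ∀ P, smulPlace d.tau P ∈ SB ↔ P ∈ SB := fun P => by
    rw [hmem, hmem]
    exact H47.smulPlace_mem_aboveSet_iff d.tau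
  obtain ⟨m, hm0, hm⟩ := (H66D.wdata E B d.tau htt').dual
  have hmB : (m : B) ≠ 0 := Nat.cast_ne_zero.mpr hm0
  choose c hc using fun P : HeightOneSpectrum (𝓞 B) => exists_exp_le P hmB
  set M' : ℕ := ∑ P ∈ SB, (k + c P) with hM'
  refine ⟨2 * M', fun x hx => ?_⟩
  -- the test element
  obtain ⟨z, hz1, hz2⟩ := exists_test SB k (d.tau x)
  have hz3 : ∀ P ∉ SB, P.valuation B (x * d.tau z) ≤ 1 := by
    intro P hP
    have e : x * d.tau z = d.tau (d.tau x * z) := by rw [map_mul, htt']
    rw [e, hval]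
    exact hz2 _ (fun h => hP ((hst P).1 h))
  have key : m • (x * d.tau z) ∈ H66D.OLat B := by
    refine hm _ fun r hr => ?_
    have hr1 : ∀ P : HeightOneSpectrum (𝓞 B), P.valuation B r ≤ 1 := by
      intro P
      exact P.valuation_le_one (K := B) ⟨r, H66D.mem_OLat.1 hr⟩
    have h1 := hx (z * r) (fun P hP => by
      rw [map_mul, hz1 P ((hmem P).2 hP)]
      exact mul_le_of_le_one_right' (hr1 P))
    rw [prod_psi d.S] at h1
    · show H66D.bch d.tau (x * d.tau z) r = 1
      rw [Algebra.trace_trace] at h1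
      have e1 : x * d.tau (z * r) = x * d.tau z * d.tau r := by rw [map_mul, mul_assoc]
      rw [H66D.bch, ← h1, ee, e1]
      congr 1
      push_cast
      ring
    · intro w hw
      refine H36.Psi.trace_le_one fun Q hQ => ?_
      have hQS : Q ∉ SB := by
        rw [hmem]
        rintro ⟨v, hv, hQv⟩
        have := (H47.eq_below_of_mem_above hQ).trans (H47.eq_below_of_mem_above hQv).symm
        exact hw (this ▸ hv)
      have e1 : x * d.tau (z * r) = x * d.tau z * d.tau r := by rw [map_mul, mul_assoc]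
      rw [e1, map_mul, hval Q r]
      exact mul_le_one' (hz3 Q hQS) (hr1 _)
  have hbd : ∀ P ∈ SB, P.valuation B x ≤ exp (M' : ℤ) := by
    intro P hP
    have h1 : P.valuation B (m • (x * d.tau z)) ≤ 1 :=
      P.valuation_le_one (K := B) ⟨_, H66D.mem_OLat.1 key⟩
    rw [nsmul_eq_mul, map_mul, map_mul, hval, hz1 _ ((hst P).2 hP)] at h1
    have h2 : exp (-(c P : ℤ)) * (P.valuation B x * exp (-(k : ℤ))) ≤ 1 :=
      (mul_le_mul' (hc P) le_rfl).trans h1
    have h3 : P.valuation B x ≤ exp ((k + c P : ℕ) : ℤ) := by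
      calc P.valuation B x
          = exp ((k + c P : ℕ) : ℤ) * (exp (-(c P : ℤ)) * (P.valuation B x * exp (-(k : ℤ)))) := by
            rw [mul_comm (P.valuation B x), ← mul_assoc, ← mul_assoc, ← exp_add, ← exp_add]
            have : ((k + c P : ℕ) : ℤ) + -(c P : ℤ) + -(k : ℤ) = 0 := by push_cast; ring
            rw [this, exp_zero, one_mul]
        _ ≤ exp ((k + c P : ℕ) : ℤ) * 1 := mul_le_mul' le_rfl h2
        _ = _ := mul_one _
    refine h3.trans ?_
    rw [exp_le_exp]
    exact_mod_cast Finset.single_le_sum (f := fun P => k + c P) (fun _ _ => Nat.zero_le _) hP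
  intro w hw
  obtain ⟨P, hP⟩ := H47.above_nonempty (L := B) w
  have hPS : P ∈ SB := (hmem P).2 ⟨w, hw, hP⟩
  have h1 : P.valuation B (algebraMap E B (Algebra.norm E x)) ≤ exp ((2 * M' : ℕ) : ℤ) := by
    rw [H77.Z.algebraMap_norm hd.deg hd.tau_ne, map_mul, hval]
    calc _ ≤ exp (M' : ℤ) * exp (M' : ℤ) := mul_le_mul' (hbd P hPS) (hbd _ ((hst P).2 hPS))
      _ = _ := by rw [← exp_add]; congr 1; push_cast; ring
  rw [H82.valuation_above hP] at h1
  by_cases h2 : w.valuation E (Algebra.norm E x) ≤ 1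
  · refine h2.trans ?_
    rw [← exp_zero, exp_le_exp]
    positivity
  · push Not at h2
    refine le_trans ?_ h1
    exact le_self_pow₀ h2.le (H82.ramificationIdx'_ne_zero hP)

end Fermat.Agent.H53Z
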