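import Mathlib
import Fermat.Agent.H54THasse
import Fermat.Agent.H47TClass
import Fermat.Agent.H20S5

/-!
# Norms from the torus of an elliptic element: the fields

`F ≤ E` cyclic cubic, `c` an elliptic matrix over `F`, `F₁ = F(a)`, `E₁ = E(a)` with `a` an eigenvalue
of `c`.
-/

set_option autoImplicit false
set_option linter.unusedSectionVars false

noncomputable section

open Matrix IsDedekindDomain NumberField WithZero Fermat.Agent.H82 Module
open Fermat.Agent.H20.S47

namespace Fermat.Agent.H54Q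

section data

variable {F E : Type} [Field F] [Field E] [Algebra F E]

/-- The eigenvalue fields of an elliptic matrix `c` over `F` and over `E`. -/
structure NormData (F₁ E₁ : Type) [Field F₁] [Field E₁] [Algebra F F₁] [Algebra E E₁]
    [Algebra F₁ E₁] (s : E ≃ₐ[F] E) (c : Matrix (Fin 2) (Fin 2) F) where
  /-- the eigenvalues -/
  a : F₁
  b : F₁
  add_eq : a + b = algebraMap F F₁ c.trace
  mul_eq : a * b = algebraMap F F₁ c.det
  /-- the extension of `s` -/
  s₁ : E₁ ≃ₐ[F₁] E₁
  s₁_apply : ∀ x : E, s₁ (algebraMap E E₁ x) = algebraMap E E₁ (s x)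
  not_mem : ∀ x : E, algebraMap F₁ E₁ a ≠ algebraMap E E₁ x
  gen : ∀ z : E₁, ∃ x y : E, z = algebraMap E E₁ x + algebraMap E E₁ y * algebraMap F₁ E₁ a

variable {F₁ E₁ : Type} [Field F₁] [Field E₁] [Algebra F F₁] [Algebra E E₁]
  [Algebra F₁ E₁] [Algebra F E₁] [IsScalarTower F E E₁] [IsScalarTower F F₁ E₁]
  {s : E ≃ₐ[F] E} {c : Matrix (Fin 2) (Fin 2) F}

namespace NormData

variable (D : NormData F₁ E₁ s c)

/-- evaluation at the first eigenvalue -/
def ev (x y : E) : E₁ := algebraMap E E₁ x + algebraMap E E₁ y * algebraMap F₁ E₁ D.a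

/-- evaluation at the second eigenvalue -/
def ev' (x y : E) : E₁ := algebraMap E E₁ x + algebraMap E E₁ y * algebraMap F₁ E₁ D.b

include D in
theorem a_sq : algebraMap F₁ E₁ D.a * algebraMap F₁ E₁ D.a =
    algebraMap F E₁ c.trace * algebraMap F₁ E₁ D.a - algebraMap F E₁ c.det := by
  have h1 := congrArg (algebraMap F₁ E₁) D.add_eq
  have h2 := congrArg (algebraMap F₁ E₁) D.mul_eq
  rw [map_add, ← IsScalarTower.algebraMap_apply] at h1
  rw [map_mul, ← IsScalarTower.algebraMap_apply] at h2
  linear_combination algebraMap F₁ E₁ D.a * h1 - h2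

include D in
theorem b_sq : algebraMap F₁ E₁ D.b * algebraMap F₁ E₁ D.b =
    algebraMap F E₁ c.trace * algebraMap F₁ E₁ D.b - algebraMap F E₁ c.det := by
  have h1 := congrArg (algebraMap F₁ E₁) D.add_eq
  have h2 := congrArg (algebraMap F₁ E₁) D.mul_eq
  rw [map_add, ← IsScalarTower.algebraMap_apply] at h1
  rw [map_mul, ← IsScalarTower.algebraMap_apply] at h2
  linear_combination algebraMap F₁ E₁ D.b * h1 - h2

theorem ev_inj {x y x' y' : E} (h : D.ev x y = D.ev x' y') : x = x' ∧ y = y' := by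
  have hy : y = y' := by
    by_contra hne
    have hne' : algebraMap E E₁ (y - y') ≠ 0 := by
      rw [Ne, map_eq_zero, sub_eq_zero]
      exact hne
    apply D.not_mem (-(x - x') / (y - y'))
    rw [map_div₀, eq_div_iff hne', map_neg, map_sub, map_sub]
    simp only [ev] at h
    linear_combination h
  subst hy
  refine ⟨?_, rfl⟩
  have : algebraMap E E₁ x = algebraMap E E₁ x' := by
    simp only [ev] at h
    linear_combination h
  exact (algebraMap E E₁).injective this

theorem ev_mul (x y x' y' : E) : D.ev x y * D.ev x' y' =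
    D.ev (x * x' - algebraMap F E c.det * (y * y'))
      (x * y' + y * x' + algebraMap F E c.trace * (y * y')) := by
  simp only [ev, map_sub, map_add, map_mul]
  rw [← IsScalarTower.algebraMap_apply F E E₁, ← IsScalarTower.algebraMap_apply F E E₁]
  linear_combination algebraMap E E₁ y * algebraMap E E₁ y' * D.a_sq

theorem ev'_mul (x y x' y' : E) : D.ev' x y * D.ev' x' y' =
    D.ev' (x * x' - algebraMap F E c.det * (y * y'))
      (x * y' + y * x' + algebraMap F E c.trace * (y * y')) := by
  simp only [ev', map_sub, map_add, map_mul]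
  rw [← IsScalarTower.algebraMap_apply F E E₁, ← IsScalarTower.algebraMap_apply F E E₁]
  linear_combination algebraMap E E₁ y * algebraMap E E₁ y' * D.b_sq

theorem s₁_ev (x y : E) : D.s₁ (D.ev x y) = D.ev (s x) (s y) := by
  simp only [ev, map_add, map_mul, D.s₁_apply, D.s₁.commutes]

theorem s₁_ev' (x y : E) : D.s₁ (D.ev' x y) = D.ev' (s x) (s y) := by
  simp only [ev', map_add, map_mul, D.s₁_apply, D.s₁.commutes]

/-- the norm of `x + y a` -/
def nrm (z : E₁) : E₁ := z * D.s₁ z * D.s₁ (D.s₁ z)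

theorem trace_inc' : (inc c : Matrix (Fin 2) (Fin 2) E).trace = algebraMap F E c.trace :=
  trace_inc c

theorem det_inc' : (inc c : Matrix (Fin 2) (Fin 2) E).det = algebraMap F E c.det :=
  det_inc c

/-- coordinates of the norm -/
theorem exists_coord (x y : E) : ∃ P Q : E, nm s (lin (inc c) x y) = lin (inc c) P Q ∧
    D.nrm (D.ev x y) = D.ev P Q ∧ D.nrm (D.ev' x y) = D.ev' P Q := by
  set τ := algebraMap F E c.trace with hτ
  set Δ := algebraMap F E c.det with hΔ
  set x' := x * s x - Δ * (y * s y) with hx'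
  set y' := x * s y + y * s x + τ * (y * s y) with hy'
  refine ⟨x' * s (s x) - Δ * (y' * s (s y)), x' * s (s y) + y' * s (s x) + τ * (y' * s (s y)),
    ?_, ?_, ?_⟩
  · rw [nm, sM_lin, sM_lin, lin_mul, lin_mul]
    simp only [trace_inc', det_inc']
    rfl
  · rw [nrm, s₁_ev, s₁_ev, ev_mul, ev_mul]
  · rw [nrm, s₁_ev', s₁_ev', ev'_mul, ev'_mul]

/-- if the norm of `x + y a` is `P + Q a` then the norm of the matrix is `P + Q c` -/
theorem nm_of_nrm {x y P Q : E} (h : D.nrm (D.ev x y) = D.ev P Q) :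
    nm s (lin (inc c) x y) = lin (inc c) P Q := by
  obtain ⟨P', Q', h1, h2, -⟩ := D.exists_coord x y
  obtain ⟨rfl, rfl⟩ := D.ev_inj (h2.symm.trans h)
  exact h1

theorem lin_inc (P Q : F) : (inc (lin c P Q) : Matrix (Fin 2) (Fin 2) E) =
    lin (inc c) (algebraMap F E P) (algebraMap F E Q) := by
  ext i j
  rw [inc_apply]
  simp only [lin, Matrix.add_apply, Matrix.smul_apply, smul_eq_mul, map_add, map_mul, inc_apply]
  congr 2
  rw [Matrix.one_apply, Matrix.one_apply]
  split_ifs <;> simp

/-- if the norm of the matrix is `P + Q c` then the norm of `x + y a` is `P + Q a` -/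
theorem nrm_of_nm (hc : Ell (inc c : Matrix (Fin 2) (Fin 2) E)) {x y P Q : E}
    (h : nm s (lin (inc c) x y) = lin (inc c) P Q) :
    D.nrm (D.ev x y) = D.ev P Q ∧ D.nrm (D.ev' x y) = D.ev' P Q := by
  obtain ⟨P', Q', h1, h2, h3⟩ := D.exists_coord x y
  obtain ⟨rfl, rfl⟩ := hc.lin_inj (h1.symm.trans h)
  exact ⟨h2, h3⟩

end NormData

end data

end Fermat.Agent.H54Q
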