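import Mathlib
import Fermat.Agent.H54QData

/-!
# Norms from the torus of an elliptic element: the Hasse norm theorem
-/

set_option autoImplicit false
set_option linter.unusedSectionVars false

noncomputable section

open Matrix IsDedekindDomain NumberField WithZero Fermat.Agent.H82 Module
open Fermat.Agent.H20.S47
open scoped MatrixGroups Pointwise

namespace Fermat.Agent.H54Q

section group

theorem univ_eq_of_card_three {G : Type*} [Group G] [Fintype G] [DecidableEq G] (h : Nat.card G = 3) {g : G}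
    (hg : g ≠ 1) : (Finset.univ : Finset G) = {1, g, g * g} := by
  have h3 : g ^ 3 = 1 := by rw [← h]; exact pow_card_eq_one'
  have ho : orderOf g = 3 := orderOf_eq_prime h3 hg
  have h1 : g * g ≠ 1 := by
    intro h'
    have : orderOf g ∣ 2 := orderOf_dvd_of_pow_eq_one (by rw [pow_two, h'])
    rw [ho] at this
    omega
  have h2 : g ≠ g * g := fun h' => hg (by simpa using h')
  symm
  apply Finset.eq_univ_of_card
  rw [← Nat.card_eq_fintype_card, h, Finset.card_insert_of_notMem, Finset.card_insert_of_notMem,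
    Finset.card_singleton]
  · simpa using h2
  · simp only [Finset.mem_insert, Finset.mem_singleton, not_or]
    exact ⟨hg.symm, h1.symm⟩

theorem eq_of_card_three {G : Type*} [Group G] (h : Nat.card G = 3) {g : G}
    (hg : g ≠ 1) (x : G) : x = 1 ∨ x = g ∨ x = g * g := by
  classical
  have : Finite G := Nat.finite_of_card_ne_zero (by rw [h]; norm_num)
  have : Fintype G := Fintype.ofFinite G
  have hx := Finset.mem_univ x
  rw [univ_eq_of_card_three h hg] at hx
  simpa using hx

end group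

section glob

variable {F E F₁ E₁ : Type} [Field F] [NumberField F] [Field E] [NumberField E] [Algebra F E]
  [Field F₁] [NumberField F₁] [Field E₁] [NumberField E₁] [Algebra F F₁] [Algebra E E₁]
  [Algebra F₁ E₁] [Algebra F E₁] [IsScalarTower F E E₁] [IsScalarTower F F₁ E₁]
  {s : E ≃ₐ[F] E} {c : Matrix (Fin 2) (Fin 2) F}

namespace NormData

variable (D : NormData F₁ E₁ s c)

theorem s₁_ne_one (hs : s ≠ 1) : D.s₁ ≠ 1 := by
  intro h
  apply hs
  ext x
  apply (algebraMap E E₁).injective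
  rw [← D.s₁_apply, h]
  rfl

theorem card_gal [IsGalois F₁ E₁] (hdeg : finrank F₁ E₁ = 3) : Nat.card (E₁ ≃ₐ[F₁] E₁) = 3 := by
  rw [IsGalois.card_aut_eq_finrank, hdeg]

/-- the norm of `E₁ / F₁` -/
theorem algebraMap_norm [IsGalois F₁ E₁] (hdeg : finrank F₁ E₁ = 3) (hs : s ≠ 1) (z : E₁) :
    algebraMap F₁ E₁ (Algebra.norm F₁ z) = D.nrm z := by
  classical
  rw [Algebra.norm_eq_prod_automorphisms, univ_eq_of_card_three (card_gal hdeg) (D.s₁_ne_one hs)]
  have h3 : (D.s₁) ^ 3 = 1 := by rw [← card_gal hdeg]; exact pow_card_eq_one'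
  have ho : orderOf D.s₁ = 3 := orderOf_eq_prime h3 (D.s₁_ne_one hs)
  have h1 : D.s₁ * D.s₁ ≠ 1 := by
    intro h'
    have : orderOf D.s₁ ∣ 2 := orderOf_dvd_of_pow_eq_one (by rw [pow_two, h'])
    rw [ho] at this
    omega
  have h2 : D.s₁ ≠ D.s₁ * D.s₁ := fun h' => D.s₁_ne_one hs (by simpa using h')
  rw [Finset.prod_insert, Finset.prod_insert, Finset.prod_singleton, nrm, mul_assoc]
  · rfl
  · simpa using h2
  · simp only [Finset.mem_insert, Finset.mem_singleton, not_or]
    exact ⟨(D.s₁_ne_one hs).symm, h1.symm⟩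

include D in
/-- a place of `F₁` which does not split in `E₁` lies over a place of `F` which does not split
in `E`. -/
theorem nonSplit_below [IsGalois F E] (hdeg : finrank F E = 3) (hs : s ≠ 1)
    {u : HeightOneSpectrum (𝓞 F₁)} (hu : NonSplit E₁ u) : NonSplit E (H47.below F u) := by
  obtain ⟨W, hW⟩ := Set.ncard_eq_one.1 hu
  have hWu : W ∈ above E₁ u := by rw [hW]; exact rfl
  have hfix : H47.smulPlace D.s₁ W = W := by
    have := H47.smulPlace_mem_above D.s₁ hWu
    rw [hW] at this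
    exact this
  set w₀ := H47.below E W with hw₀
  have hw₀mem : w₀ ∈ above E (H47.below F u) := by
    show (W.asIdeal.under (𝓞 E)).under (𝓞 F) = u.asIdeal.under (𝓞 F)
    rw [← show W.asIdeal.under (𝓞 F₁) = u.asIdeal from hWu]
    rw [Ideal.under_under, Ideal.under_under]
  have key : ∀ x : 𝓞 E, algebraMap (𝓞 E) (𝓞 E₁) (s • x) = D.s₁ • algebraMap (𝓞 E) (𝓞 E₁) x := by
    intro x
    apply RingOfIntegers.coe_injective
    exact (D.s₁_apply (x : E)).symm
  have hfix0 : H47.smulPlace s w₀ = w₀ := by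
    apply HeightOneSpectrum.ext
    rw [H47.smulPlace_asIdeal]
    ext x
    rw [← Ideal.smul_mem_pointwise_smul_iff (a := s⁻¹), inv_smul_smul]
    show algebraMap (𝓞 E) (𝓞 E₁) (s⁻¹ • x) ∈ W.asIdeal ↔ algebraMap (𝓞 E) (𝓞 E₁) x ∈ W.asIdeal
    rw [← Ideal.smul_mem_pointwise_smul_iff (a := D.s₁), ← H47.smulPlace_asIdeal, hfix, ← key,
      smul_inv_smul]
  have hcard : Nat.card (E ≃ₐ[F] E) = 3 := by rw [IsGalois.card_aut_eq_finrank, hdeg]
  have hall : ∀ σ : E ≃ₐ[F] E, H47.smulPlace σ w₀ = w₀ := by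
    intro σ
    have hmul : ∀ σ τ : E ≃ₐ[F] E, H47.smulPlace (σ * τ) w₀ =
        H47.smulPlace σ (H47.smulPlace τ w₀) := by
      intro σ τ
      apply HeightOneSpectrum.ext
      rw [H47.smulPlace_asIdeal, H47.smulPlace_asIdeal, H47.smulPlace_asIdeal, mul_smul]
    rcases eq_of_card_three hcard hs σ with h | h | h
    · rw [h]
      apply HeightOneSpectrum.ext
      rw [H47.smulPlace_asIdeal, one_smul]
    · rw [h, hfix0]
    · rw [h, hmul, hfix0, hfix0]
  have hset : above E (H47.below F u) = {w₀} := by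
    ext w'
    constructor
    · intro hw'
      obtain ⟨σ, hσ⟩ := H47.exists_smulPlace_eq hw₀mem hw'
      rw [hall σ] at hσ
      exact hσ.symm
    · rintro rfl
      exact hw₀mem
  show (above E (H47.below F u)).ncard = 1
  rw [hset, Set.ncard_singleton]

/-- **Global norms from local norms** (matrix form): if `a / b` is a local norm everywhere then
`det c • c` is the norm of a matrix in the algebra generated by `c`. -/
theorem exists_matrix [IsTotallyComplex F₁] [IsGalois F₁ E₁] (hdeg : finrank F₁ E₁ = 3) {ζ : F₁}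
    (hζ : IsPrimitiveRoot ζ 3) (hs : s ≠ 1) (ha : D.a ≠ 0) (hb : D.b ≠ 0)
    (hloc : ∀ u : HeightOneSpectrum (𝓞 F₁), NonSplit E₁ u → ∀ m,
      Units.mk0 (D.a / D.b) (div_ne_zero ha hb) ∈ locNorm E₁ u m) :
    ∃ x y : E, (x ≠ 0 ∨ y ≠ 0) ∧ nm s (lin (inc c) x y) = c.det • lin (inc c) 0 1 := by
  have : Fact (Nat.Prime 3) := ⟨Nat.prime_three⟩
  obtain ⟨z, hz⟩ := H54T.hasse_norm hζ hdeg _ hloc
  have hz' : Algebra.norm F₁ (z : E₁) = D.a / D.b := by
    have := congrArg Units.val hz
    simpa using this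
  have ha1 : algebraMap F₁ E₁ D.a ≠ 0 := by rw [Ne, map_eq_zero]; exact ha
  have hb1 : algebraMap F₁ E₁ D.b ≠ 0 := by rw [Ne, map_eq_zero]; exact hb
  obtain ⟨x, y, hxy⟩ := D.gen (algebraMap F₁ E₁ D.a / z)
  have hxy' : D.ev x y = algebraMap F₁ E₁ D.a / z := hxy.symm
  have hnrm : D.nrm (D.ev x y) = D.ev 0 (algebraMap F E c.det) := by
    have h1 : D.nrm (D.ev x y) * D.nrm z = D.nrm (algebraMap F₁ E₁ D.a) := by
      rw [hxy']
      have h2 : algebraMap F₁ E₁ D.a = (algebraMap F₁ E₁ D.a / z) * z :=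
        (div_mul_cancel₀ _ z.ne_zero).symm
      conv_rhs => rw [h2]
      simp only [nrm, map_mul]
      ring
    rw [← D.algebraMap_norm hdeg hs (z : E₁), hz'] at h1
    have h3 : D.nrm (algebraMap F₁ E₁ D.a) = algebraMap F₁ E₁ D.a * algebraMap F₁ E₁ D.a *
        algebraMap F₁ E₁ D.a := by
      simp only [nrm, D.s₁.commutes]
    rw [h3, map_div₀] at h1
    have h4 : D.nrm (D.ev x y) = algebraMap F₁ E₁ D.a * (algebraMap F₁ E₁ D.a *
        algebraMap F₁ E₁ D.b) := by
      have h5 : D.nrm (D.ev x y) * algebraMap F₁ E₁ D.a = algebraMap F₁ E₁ D.a *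
          (algebraMap F₁ E₁ D.a * algebraMap F₁ E₁ D.b) * algebraMap F₁ E₁ D.a := by
        field_simp at h1
        linear_combination h1 * algebraMap F₁ E₁ D.a
      exact mul_right_cancel₀ ha1 h5
    rw [h4, ← map_mul, D.mul_eq, ← IsScalarTower.algebraMap_apply, ev, map_zero, zero_add,
      ← IsScalarTower.algebraMap_apply, mul_comm]
  refine ⟨x, y, ?_, ?_⟩
  · by_contra hcon
    push Not at hcon
    obtain ⟨rfl, rfl⟩ := hcon
    have : D.ev 0 0 = 0 := by simp [ev]
    rw [this] at hxy'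
    exact div_ne_zero ha1 z.ne_zero hxy'.symm
  · rw [D.nm_of_nrm hnrm]
    simp only [lin, zero_smul, zero_add, one_smul]
    ext i j
    simp [Matrix.smul_apply, Algebra.smul_def]

end NormData

end glob

end Fermat.Agent.H54Q
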