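import Mathlib
import Fermat.Agent.H54QGlob

/-!
# Norms from the torus of an elliptic element: construction of the fields
-/

set_option autoImplicit false
set_option linter.unusedSectionVars false

noncomputable section

open Matrix IsDedekindDomain NumberField WithZero Fermat.Agent.H82 Module Polynomial
open Fermat.Agent.H20.S47
open scoped MatrixGroups Pointwise

namespace Fermat.Agent.H54Q

section poly

variable {K : Type*} [Field K]

/-- The characteristic polynomial. -/
def cp (c : Matrix (Fin 2) (Fin 2) K) : K[X] := X ^ 2 - C c.trace * X + C c.det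

theorem cp_eq (c : Matrix (Fin 2) (Fin 2) K) :
    cp c = C 1 * X ^ 2 + C (-c.trace) * X + C c.det := by
  rw [cp, C_1, one_mul, C_neg, neg_mul, sub_eq_add_neg]

theorem cp_natDegree (c : Matrix (Fin 2) (Fin 2) K) : (cp c).natDegree = 2 := by
  rw [cp_eq]
  exact natDegree_quadratic one_ne_zero

theorem cp_monic (c : Matrix (Fin 2) (Fin 2) K) : (cp c).Monic := by
  rw [Monic, leadingCoeff, cp_natDegree, cp_eq]
  simp

theorem cp_irreducible {c : Matrix (Fin 2) (Fin 2) K} (hc : Ell c) : Irreducible (cp c) := by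
  rw [(cp_monic c).irreducible_iff_roots_eq_zero_of_degree_le_three (by rw [cp_natDegree])
    (by rw [cp_natDegree]; norm_num)]
  rw [Multiset.eq_zero_iff_forall_notMem]
  intro x hx
  rw [mem_roots (cp_monic c).ne_zero, IsRoot.def] at hx
  apply hc x
  simpa [cp] using hx

theorem cp_map {F E : Type*} [Field F] [Field E] [Algebra F E] (c : Matrix (Fin 2) (Fin 2) F) :
    (cp c).map (algebraMap F E) = cp (inc c : Matrix (Fin 2) (Fin 2) E) := by
  rw [cp, cp, trace_inc, det_inc]
  simp

theorem root_sq (c : Matrix (Fin 2) (Fin 2) K) :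
    AdjoinRoot.root (cp c) ^ 2 - AdjoinRoot.of (cp c) c.trace * AdjoinRoot.root (cp c) +
      AdjoinRoot.of (cp c) c.det = 0 := by
  have h := AdjoinRoot.eval₂_root (cp c)
  rw [← h]
  have h2 : ∀ (q : K[X]), q = X ^ 2 - C c.trace * X + C c.det →
      eval₂ (AdjoinRoot.of (cp c)) (AdjoinRoot.root (cp c)) q =
      AdjoinRoot.root (cp c) ^ 2 - AdjoinRoot.of (cp c) c.trace * AdjoinRoot.root (cp c) +
      AdjoinRoot.of (cp c) c.det := by
    rintro q rfl
    simp [eval₂_add, eval₂_sub, eval₂_mul]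
  exact (h2 (cp c) rfl).symm

end poly

section field

variable {F E : Type} [Field F] [Field E] [Algebra F E] (c : Matrix (Fin 2) (Fin 2) F)

/-- `F(a)` -/
abbrev F₁ : Type := AdjoinRoot (cp c)

variable (E) in
/-- `E(a)` -/
abbrev E₁ : Type := AdjoinRoot (cp (inc c : Matrix (Fin 2) (Fin 2) E))

instance [h : Fact (Ell c)] : Fact (Irreducible (cp c)) := ⟨cp_irreducible h.out⟩

instance [h : Fact (Ell (inc c : Matrix (Fin 2) (Fin 2) E))] :
    Fact (Irreducible (cp (inc c : Matrix (Fin 2) (Fin 2) E))) := ⟨cp_irreducible h.out⟩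

variable (E) in
/-- the inclusion -/
def iF : F₁ c →+* E₁ E c := AdjoinRoot.map (algebraMap F E) _ _ (by rw [cp_map])

/-- the algebra structure -/
instance algF₁E₁ : Algebra (F₁ c) (E₁ E c) := (iF E c).toAlgebra

theorem algebraMap_F₁E₁_root : algebraMap (F₁ c) (E₁ E c) (AdjoinRoot.root _) =
    AdjoinRoot.root _ := by
  rw [RingHom.algebraMap_toAlgebra]
  exact AdjoinRoot.map_root _ _ _ _

theorem algebraMap_F₁E₁_of (x : F) : algebraMap (F₁ c) (E₁ E c) (AdjoinRoot.of _ x) =
    AdjoinRoot.of _ (algebraMap F E x) := by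
  rw [RingHom.algebraMap_toAlgebra]
  exact AdjoinRoot.map_of _ _ _ _ _

instance : IsScalarTower F (F₁ c) (E₁ E c) := by
  apply IsScalarTower.of_algebraMap_eq
  intro x
  have h1 : algebraMap F (F₁ c) x = AdjoinRoot.of _ x := rfl
  rw [h1, algebraMap_F₁E₁_of, AdjoinRoot.algebraMap_eq']
  rfl

variable {c} (s : E ≃ₐ[F] E)

theorem cp_map_s : (cp (inc c : Matrix (Fin 2) (Fin 2) E)).map ((s.toRingEquiv : E ≃+* E) : E →+* E) =
    cp (inc c : Matrix (Fin 2) (Fin 2) E) := by
  rw [cp, trace_inc, det_inc]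
  simp

/-- the extension of `s` to a ring isomorphism. -/
def sR : E₁ E c ≃+* E₁ E c :=
  AdjoinRoot.mapRingEquiv s.toRingEquiv _ _ (by rw [cp_map_s])

theorem sR_root : (sR s : E₁ E c ≃+* E₁ E c) (AdjoinRoot.root _) = AdjoinRoot.root _ := by
  rw [sR, AdjoinRoot.coe_mapRingEquiv]
  exact AdjoinRoot.map_root _ _ _ _

theorem sR_of (x : E) : (sR s : E₁ E c ≃+* E₁ E c) (AdjoinRoot.of _ x) =
    AdjoinRoot.of _ (s x) := by
  rw [sR, AdjoinRoot.coe_mapRingEquiv]
  exact AdjoinRoot.map_of _ _ _ _ _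

/-- the extension of `s` -/
def s₁ : E₁ E c ≃ₐ[F₁ c] E₁ E c :=
  AlgEquiv.ofRingEquiv (f := sR s) (by
    intro x
    have h : ((sR s : E₁ E c ≃+* E₁ E c) : E₁ E c →+* E₁ E c).comp (algebraMap (F₁ c) (E₁ E c)) =
        algebraMap (F₁ c) (E₁ E c) := by
      apply AdjoinRoot.ringHom_ext
      · ext x
        show sR s (algebraMap (F₁ c) (E₁ E c) (AdjoinRoot.of _ x)) =
          algebraMap (F₁ c) (E₁ E c) (AdjoinRoot.of _ x)
        rw [algebraMap_F₁E₁_of, sR_of, s.commutes]
      · show sR s (algebraMap (F₁ c) (E₁ E c) (AdjoinRoot.root _)) =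
          algebraMap (F₁ c) (E₁ E c) (AdjoinRoot.root _)
        rw [algebraMap_F₁E₁_root, sR_root]
    exact congrArg (fun f => f x) h)

theorem exists_lin_E₁ (z : E₁ E c) : ∃ x y : E, z =
    AdjoinRoot.of _ x + AdjoinRoot.of _ y * AdjoinRoot.root _ := by
  obtain ⟨g, rfl⟩ := AdjoinRoot.mk_surjective z
  set f := cp (inc c : Matrix (Fin 2) (Fin 2) E) with hf
  have hdeg : (g %ₘ f).natDegree ≤ 1 := by
    have h1 : (g %ₘ f).natDegree < f.natDegree :=
      natDegree_modByMonic_lt g (cp_monic _) (by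
        intro h
        have := cp_natDegree (inc c : Matrix (Fin 2) (Fin 2) E)
        rw [← hf, h, natDegree_one] at this
        omega)
    have h2 : f.natDegree = 2 := cp_natDegree _
    omega
  obtain ⟨y, x, hxy⟩ := exists_eq_X_add_C_of_natDegree_le_one hdeg
  refine ⟨x, y, ?_⟩
  have h2 : AdjoinRoot.mk f g = AdjoinRoot.mk f (g %ₘ f) := by
    rw [AdjoinRoot.mk_eq_mk]
    refine ⟨g /ₘ f, ?_⟩
    have := modByMonic_add_div g f
    linear_combination -this
  rw [h2, hxy, map_add, map_mul, AdjoinRoot.mk_C, AdjoinRoot.mk_C, AdjoinRoot.mk_X]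
  ring

/-- the norm data -/
def normData [h : Fact (Ell c)] [h' : Fact (Ell (inc c : Matrix (Fin 2) (Fin 2) E))] :
    NormData (F₁ c) (E₁ E c) s c where
  a := AdjoinRoot.root _
  b := AdjoinRoot.of _ c.trace - AdjoinRoot.root _
  add_eq := by
    show _ = AdjoinRoot.of _ c.trace
    ring
  mul_eq := by
    show _ = AdjoinRoot.of _ c.det
    have := root_sq c
    linear_combination -this
  s₁ := s₁ s
  s₁_apply x := sR_of s x
  not_mem x hx := by
    rw [algebraMap_F₁E₁_root] at hx
    have h1 := root_sq (inc c : Matrix (Fin 2) (Fin 2) E)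
    rw [hx] at h1
    apply h'.out x
    apply (AdjoinRoot.of (cp (inc c : Matrix (Fin 2) (Fin 2) E))).injective
    rw [map_zero, ← h1]
    simp only [map_add, map_sub, map_mul, map_pow]
    rfl
  gen z := by
    rw [algebraMap_F₁E₁_root]
    exact exists_lin_E₁ z

end field

end Fermat.Agent.H54Q
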