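import Mathlib
import Fermat.Agent.H54QField

/-!
# Norms from the torus of an elliptic element: final form
-/

set_option autoImplicit false
set_option linter.unusedSectionVars false

noncomputable section

open Matrix IsDedekindDomain NumberField WithZero Fermat.Agent.H82 Module Polynomial
open Fermat.Agent.H20.S47
open scoped MatrixGroups Pointwise

namespace Fermat.Agent.H54Q

section inst

variable {F E : Type} [Field F] [NumberField F] [Field E] [NumberField E] [Algebra F E]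
  {c : Matrix (Fin 2) (Fin 2) F}

instance finite_F₁ {K : Type} [Field K] (c : Matrix (Fin 2) (Fin 2) K) :
    Module.Finite K (AdjoinRoot (cp c)) := (cp_monic c).finite_adjoinRoot

theorem finrank_F₁ {K : Type} [Field K] (c : Matrix (Fin 2) (Fin 2) K) :
    finrank K (AdjoinRoot (cp c)) = 2 := by
  rw [(AdjoinRoot.powerBasis' (cp_monic c)).finrank, AdjoinRoot.powerBasis'_dim, cp_natDegree]

instance numberField_F₁ [Fact (Ell c)] : NumberField (F₁ c) := NumberField.of_module_finite F (F₁ c)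

instance numberField_E₁ [Fact (Ell (inc c : Matrix (Fin 2) (Fin 2) E))] : NumberField (E₁ E c) :=
  NumberField.of_module_finite E (E₁ E c)

theorem totallyComplex_of_algebra {K L : Type} [Field K] [Field L] [NumberField K]
    [NumberField L] [Algebra K L] [IsTotallyComplex K] : IsTotallyComplex L := by
  refine ⟨fun w => ?_⟩
  rw [← InfinitePlace.not_isReal_iff_isComplex]
  intro hw
  have h1 : (w.comap (algebraMap K L)).IsReal := hw.comap _
  exact InfinitePlace.not_isReal_iff_isComplex.2 (IsTotallyComplex.isComplex _) h1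

variable [Fact (Ell c)] [Fact (Ell (inc c : Matrix (Fin 2) (Fin 2) E))]

theorem finrank_F₁E₁ (hdeg : finrank F E = 3) : finrank (F₁ c) (E₁ E c) = 3 := by
  have h1 : finrank F (F₁ c) * finrank (F₁ c) (E₁ E c) = finrank F (E₁ E c) :=
    finrank_mul_finrank F (F₁ c) (E₁ E c)
  have h2 : finrank F E * finrank E (E₁ E c) = finrank F (E₁ E c) :=
    finrank_mul_finrank F E (E₁ E c)
  rw [finrank_F₁ c] at h1
  rw [hdeg, finrank_F₁ (inc c : Matrix (Fin 2) (Fin 2) E)] at h2
  omega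

theorem s₁_apply_of (s : E ≃ₐ[F] E) (x : E) :
    (s₁ s : E₁ E c ≃ₐ[F₁ c] E₁ E c) (algebraMap E (E₁ E c) x) = algebraMap E (E₁ E c) (s x) :=
  sR_of s x

theorem isGalois_F₁E₁ (hdeg : finrank F E = 3) {s : E ≃ₐ[F] E} (hs : s ≠ 1)
    (h3 : ∀ x, s (s (s x)) = x) : IsGalois (F₁ c) (E₁ E c) := by
  have hfin : Module.Finite (F₁ c) (E₁ E c) := by
    apply Module.finite_of_finrank_pos
    rw [finrank_F₁E₁ hdeg]
    norm_num
  apply IsGalois.of_card_aut_eq_finrank
  apply le_antisymm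
  · rw [Nat.card_eq_fintype_card]
    exact AlgEquiv.card_le
  · rw [finrank_F₁E₁ hdeg]
    have hne : (s₁ s : E₁ E c ≃ₐ[F₁ c] E₁ E c) ≠ 1 := by
      intro h
      apply hs
      ext x
      apply (algebraMap E (E₁ E c)).injective
      rw [← s₁_apply_of, h]
      rfl
    have hcube : (s₁ s : E₁ E c ≃ₐ[F₁ c] E₁ E c) ^ 3 = 1 := by
      ext z
      obtain ⟨x, y, rfl⟩ := exists_lin_E₁ z
      have hr : ∀ z : E₁ E c, ((s₁ s : E₁ E c ≃ₐ[F₁ c] E₁ E c) ^ 3) z = s₁ s (s₁ s (s₁ s z)) :=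
        fun z => rfl
      have hroot : (s₁ s : E₁ E c ≃ₐ[F₁ c] E₁ E c) (AdjoinRoot.root _) = AdjoinRoot.root _ :=
        sR_root s
      have hof : ∀ x : E, (s₁ s : E₁ E c ≃ₐ[F₁ c] E₁ E c) (AdjoinRoot.of _ x) =
        AdjoinRoot.of _ (s x) := sR_of s
      rw [hr]
      simp only [map_add, map_mul, hroot, hof, h3]
      rfl
    have ho : orderOf (s₁ s : E₁ E c ≃ₐ[F₁ c] E₁ E c) = 3 := by
      have : Fact (Nat.Prime 3) := ⟨Nat.prime_three⟩
      exact orderOf_eq_prime hcube hne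
    rw [← ho]
    exact Nat.le_of_dvd Nat.card_pos (orderOf_dvd_natCard _)

end inst

section main

variable {F E : Type} [Field F] [NumberField F] [IsTotallyComplex F] [Field E] [NumberField E]
  [Algebra F E] [IsGalois F E] {s : E ≃ₐ[F] E} {c : Matrix (Fin 2) (Fin 2) F}

/-- The local condition at the place `v` of `F`: for every choice of the eigenvalue fields and every
place `u` above `v` which does not split, `a / b` is a local norm at `u`. -/
def LocCond (s : E ≃ₐ[F] E) (c : Matrix (Fin 2) (Fin 2) F) (v : HeightOneSpectrum (𝓞 F)) : Prop :=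
  ∀ (F₁ E₁ : Type) [Field F₁] [NumberField F₁] [Field E₁] [NumberField E₁] [Algebra F F₁]
    [Algebra E E₁] [Algebra F₁ E₁] [Algebra F E₁] [IsScalarTower F E E₁] [IsScalarTower F F₁ E₁]
    [IsGalois F₁ E₁] (_ : finrank F₁ E₁ = 3) (_ : finrank F F₁ = 2)
    (D : NormData F₁ E₁ s c) (ha : D.a ≠ 0) (hb : D.b ≠ 0) (u : HeightOneSpectrum (𝓞 F₁)),
    u ∈ above F₁ v → NonSplit E₁ u → ∀ m : ℕ,
      Units.mk0 (D.a / D.b) (div_ne_zero ha hb) ∈ locNorm E₁ u m

theorem s_cube (hdeg : finrank F E = 3) (s : E ≃ₐ[F] E) (x : E) : s (s (s x)) = x := by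
  have hcard : Nat.card (E ≃ₐ[F] E) = 3 := by rw [IsGalois.card_aut_eq_finrank, hdeg]
  have h3 : s ^ 3 = 1 := by rw [← hcard]; exact pow_card_eq_one'
  exact congrArg (fun f => f x) h3

theorem s_fixed (hdeg : finrank F E = 3) {s : E ≃ₐ[F] E} (hs : s ≠ 1) {x : E} (hx : s x = x) :
    x ∈ Set.range (algebraMap F E) := by
  have hcard : Nat.card (E ≃ₐ[F] E) = 3 := by rw [IsGalois.card_aut_eq_finrank, hdeg]
  apply (IsGalois.mem_range_algebraMap_iff_fixed (F := F) (E := E) x).2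
  intro σ
  rcases eq_of_card_three hcard hs σ with h | h | h
  · rw [h]; rfl
  · rw [h, hx]
  · rw [h, AlgEquiv.mul_apply, hx, hx]

/-- **Global norms from local norms** (matrix form). -/
theorem exists_matrix_norm (hdeg : finrank F E = 3) {ζ : F} (hζ : IsPrimitiveRoot ζ 3)
    (hs : s ≠ 1) (hc : Ell c)
    (hloc : ∀ v : HeightOneSpectrum (𝓞 F), NonSplit E v → LocCond s c v) :
    ∃ x y : E, (x ≠ 0 ∨ y ≠ 0) ∧ nm s (lin (inc c) x y) = c.det • lin (inc c) 0 1 := by
  have hcE : Ell (inc c : Matrix (Fin 2) (Fin 2) E) :=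
    hc.inc (s_cube hdeg s) (fun x hx => s_fixed hdeg hs hx)
  have : Fact (Ell c) := ⟨hc⟩
  have : Fact (Ell (inc c : Matrix (Fin 2) (Fin 2) E)) := ⟨hcE⟩
  have hG : IsGalois (F₁ c) (E₁ E c) := isGalois_F₁E₁ hdeg hs (s_cube hdeg s)
  have hd : finrank (F₁ c) (E₁ E c) = 3 := finrank_F₁E₁ hdeg
  have hTC : IsTotallyComplex (F₁ c) := totallyComplex_of_algebra (K := F)
  have hζ' : IsPrimitiveRoot (algebraMap F (F₁ c) ζ) 3 :=
    hζ.map_of_injective (algebraMap F (F₁ c)).injective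
  let D : NormData (F₁ c) (E₁ E c) s c := normData s
  have hdet : c.det ≠ 0 := by
    intro h0
    apply hc 0
    rw [h0]
    ring
  have hab : D.a * D.b ≠ 0 := by
    rw [D.mul_eq, Ne, map_eq_zero]
    exact hdet
  have ha : D.a ≠ 0 := left_ne_zero_of_mul hab
  have hb : D.b ≠ 0 := right_ne_zero_of_mul hab
  refine D.exists_matrix hd hζ' hs ha hb ?_
  intro u hu m
  exact hloc (H47.below F u) (D.nonSplit_below hdeg hs hu) (F₁ c) (E₁ E c) hd (finrank_F₁ c) D ha hb
    u (H47.mem_above_below u) hu m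

/-- **Global norms from local norms.** -/
theorem exists_norm (hdeg : finrank F E = 3) {ζ : F} (hζ : IsPrimitiveRoot ζ 3)
    (hs : s ≠ 1) {g : GL (Fin 2) F} (hc : Ell (g : Matrix (Fin 2) (Fin 2) F))
    (hloc : ∀ v : HeightOneSpectrum (𝓞 F), NonSplit E v →
      LocCond s (g : Matrix (Fin 2) (Fin 2) F) v) :
    ∃ (d : GL (Fin 2) E) (x y : E),
      (d : Matrix (Fin 2) (Fin 2) E) = lin (inc (g : Matrix (Fin 2) (Fin 2) F)) x y ∧
      nP s (ProjGenLinGroup.mk d) = incP E (ProjGenLinGroup.mk g) := by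
  obtain ⟨x, y, hxy, h⟩ := exists_matrix_norm hdeg hζ hs hc hloc
  have hcE : Ell (inc (g : Matrix (Fin 2) (Fin 2) F) : Matrix (Fin 2) (Fin 2) E) :=
    hc.inc (s_cube hdeg s) (fun x hx => s_fixed hdeg hs hx)
  refine ⟨toGL _ (hcE.det_lin_ne_zero hxy), x, y, rfl, ?_⟩
  rw [nP_mk, incP_mk, mk_eq_iff]
  have hdet : (g : Matrix (Fin 2) (Fin 2) F).det ≠ 0 := det_ne_zero g
  refine ⟨(algebraMap F E (g : Matrix (Fin 2) (Fin 2) F).det)⁻¹,
    inv_ne_zero (by rw [Ne, map_eq_zero]; exact hdet), ?_⟩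
  rw [val_nG, val_map_inc, toGL_val, h]
  have h1 : lin (inc (g : Matrix (Fin 2) (Fin 2) F) : Matrix (Fin 2) (Fin 2) E) 0 1 =
      inc (g : Matrix (Fin 2) (Fin 2) F) := by
    simp only [lin, zero_smul, zero_add, one_smul]
  rw [h1]
  rw [← algebraMap_smul E (g : Matrix (Fin 2) (Fin 2) F).det
    (inc (g : Matrix (Fin 2) (Fin 2) F) : Matrix (Fin 2) (Fin 2) E), smul_smul,
    inv_mul_cancel₀ (by rw [Ne, map_eq_zero]; exact hdet), one_smul]

end main

end Fermat.Agent.H54Q
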