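import Mathlib
import Fermat.Agent.H54QNorm
import Fermat.Agent.H82Stable

/-!
# Norms from the torus of an elliptic element: local conditions
-/

set_option autoImplicit false
set_option linter.unusedSectionVars false

noncomputable section

open Matrix IsDedekindDomain NumberField WithZero Fermat.Agent.H82 Module
open Fermat.Agent.H20.S47
open scoped MatrixGroups Pointwise

namespace Fermat.Agent.H54Q

section val

variable {K Γ : Type*} [Field K] [LinearOrderedCommGroupWithZero Γ] (v : Valuation K Γ)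

/-- roots of a quadratic polynomial with small coefficients are small -/
theorem val_le_of_quadratic {y T D : K} {ε : Γ} (h : y ^ 2 = T * y - D) (hT : v T ≤ ε)
    (hD : v D ≤ ε ^ 2) : v y ≤ ε := by
  by_contra hcon
  push Not at hcon
  have hy : 0 < v y := lt_of_le_of_lt zero_le hcon
  have h1 : v (T * y) < v y ^ 2 := by
    rw [map_mul, pow_two]
    exact mul_lt_mul_of_pos_right (lt_of_le_of_lt hT hcon) hy
  have h2 : v D < v y ^ 2 := lt_of_le_of_lt hD (pow_lt_pow_left₀ hcon zero_le two_ne_zero)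
  have h3 : v (y ^ 2) < v y ^ 2 := by
    conv_lhs => rw [h]
    exact lt_of_le_of_lt (v.map_sub _ _) (max_lt h1 h2)
  rw [map_pow] at h3
  exact lt_irrefl _ h3

/-- if `|a + b|² ≤ |ab|` then `|a| = |b|` -/
theorem val_eq_of_trace_le {a b : K} (ha : a ≠ 0) (hb : b ≠ 0)
    (h : v (a + b) ^ 2 ≤ v (a * b)) : v a = v b := by
  have ha' : 0 < v a := zero_lt_iff.2 ((v.ne_zero_iff).2 ha)
  have hb' : 0 < v b := zero_lt_iff.2 ((v.ne_zero_iff).2 hb)
  rcases lt_trichotomy (v a) (v b) with h1 | h1 | h1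
  · rw [v.map_add_eq_of_lt_right h1, map_mul, pow_two] at h
    exact absurd h (not_le.2 (mul_lt_mul_of_pos_right h1 hb'))
  · exact h1
  · rw [v.map_add_eq_of_lt_left h1, map_mul, pow_two] at h
    exact absurd h (not_le.2 (mul_lt_mul_of_pos_left h1 ha'))

end val

section deep

variable {F E : Type} [Field F] [NumberField F] [Field E] [NumberField E]
  [Algebra F E] {s : E ≃ₐ[F] E} {c : Matrix (Fin 2) (Fin 2) F}

theorem deep_above {F₁ : Type} [Field F₁] [NumberField F₁] [Algebra F F₁] {ζ : F} {M : ℕ}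
    {v : HeightOneSpectrum (𝓞 F)} {u : HeightOneSpectrum (𝓞 F₁)} (hu : u ∈ above F₁ v)
    (hM : Deep ζ 3 v M) :
    Deep (algebraMap F F₁ ζ) 3 u (M * v.asIdeal.ramificationIdx' u.asIdeal) := by
  have he : v.asIdeal.ramificationIdx' u.asIdeal ≠ 0 := ramificationIdx'_ne_zero hu
  unfold Deep at hM ⊢
  rw [← map_one (algebraMap F F₁), ← map_sub, valuation_above hu, ← pow_mul,
    mul_comm _ 3, pow_mul]
  have h1 : (exp (-((M * v.asIdeal.ramificationIdx' u.asIdeal : ℕ) : ℤ)) : ℤᵐ⁰) =
      exp (-(M : ℤ)) ^ v.asIdeal.ramificationIdx' u.asIdeal := by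
    rw [← WithZero.exp_nsmul]
    congr 1
    push_cast
    rw [nsmul_eq_mul]
    ring
  rw [h1]
  exact pow_lt_pow_left₀ hM zero_le he

/-- **The local condition for matrices close to a scalar matrix.** -/
theorem LocCond.of_deep {ζ : F} (hζ : IsPrimitiveRoot ζ 3) {v : HeightOneSpectrum (𝓞 F)} {M : ℕ}
    (hM : Deep ζ 3 v M) {z : F} (hz : z ≠ 0) {Y : Matrix (Fin 2) (Fin 2) F}
    (hY : ∀ i j, v.valuation F (Y i j) ≤ exp (-(M : ℤ))) (hc : c = z • (1 + Y)) :
    LocCond s c v := by
  have : Fact (Nat.Prime 3) := ⟨Nat.prime_three⟩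
  intro F₁ E₁ _ _ _ _ _ _ _ _ _ _ _ hdeg _ D ha hb u hu hns m
  set e := v.asIdeal.ramificationIdx' u.asIdeal with he_def
  have he : e ≠ 0 := ramificationIdx'_ne_zero hu
  have hM0 : 0 < M := hM.pos (by norm_num) hζ
  set φ := algebraMap F F₁ with hφ
  have hφz : φ z ≠ 0 := by rw [Ne, map_eq_zero]; exact hz
  set ε : ℤᵐ⁰ := exp (-((M * e : ℕ) : ℤ)) with hε
  have hεpow : ε = exp (-(M : ℤ)) ^ e := by
    rw [hε, ← WithZero.exp_nsmul]
    congr 1
    push_cast
    rw [nsmul_eq_mul]
    ring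
  have hsmall : ∀ t : F, v.valuation F t ≤ exp (-(M : ℤ)) → u.valuation F₁ (φ t) ≤ ε := by
    intro t ht
    rw [valuation_above hu, hεpow]
    exact pow_le_pow_left₀ zero_le ht _
  have htr : v.valuation F Y.trace ≤ exp (-(M : ℤ)) := by
    rw [Matrix.trace_fin_two]
    exact (Valuation.map_add _ _ _).trans (max_le (hY 0 0) (hY 1 1))
  have hdet : u.valuation F₁ (φ Y.det) ≤ ε ^ 2 := by
    rw [Matrix.det_fin_two, map_sub, map_mul, map_mul, pow_two]
    refine (Valuation.map_sub _ _ _).trans (max_le ?_ ?_)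
    · rw [map_mul]
      exact mul_le_mul' (hsmall _ (hY 0 0)) (hsmall _ (hY 1 1))
    · rw [map_mul]
      exact mul_le_mul' (hsmall _ (hY 0 1)) (hsmall _ (hY 1 0))
  have hct : c.trace = z * (2 + Y.trace) := by
    rw [hc, Matrix.trace_smul, Matrix.trace_add, Matrix.trace_one]
    simp
  have hcd : c.det = z ^ 2 * (1 + Y.trace + Y.det) := by
    rw [hc, Matrix.det_fin_two, Matrix.det_fin_two, Matrix.trace_fin_two]
    simp
    ring
  -- each eigenvalue divided by `z` is close to one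
  have hroot : ∀ r r' : F₁, r + r' = φ c.trace → r * r' = φ c.det →
      u.valuation F₁ (r / φ z - 1) ≤ ε := by
    intro r r' h1 h2
    rw [hct, map_mul, map_add] at h1
    rw [hcd, map_mul, map_pow, map_add, map_add, map_one] at h2
    refine val_le_of_quadratic _ (T := φ Y.trace) (D := φ Y.det) ?_ (hsmall _ htr) hdet
    have h3 : φ 2 = 2 := map_ofNat φ 2
    rw [h3] at h1
    have h4 : r ^ 2 = φ z * (2 + φ Y.trace) * r - φ z ^ 2 * (1 + φ Y.trace + φ Y.det) := by
      linear_combination r * h1 - h2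
    field_simp
    linear_combination h4
  have hmem : ∀ r (hr : r ≠ 0), u.valuation F₁ (r / φ z - 1) ≤ ε →
      Units.mk0 (r / φ z) (div_ne_zero hr hφz) ∈ congr u (M * e) := by
    intro r hr h
    rw [mem_congr_of_pos (Nat.mul_pos hM0 (Nat.pos_of_ne_zero he))]
    exact h
  have h1 := hmem D.a ha (hroot D.a D.b D.add_eq D.mul_eq)
  have h2 := hmem D.b hb (hroot D.b D.a (by rw [add_comm]; exact D.add_eq)
    (by rw [mul_comm]; exact D.mul_eq))
  have h3 : Units.mk0 (D.a / D.b) (div_ne_zero ha hb) =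
      Units.mk0 (D.a / φ z) (div_ne_zero ha hφz) / Units.mk0 (D.b / φ z) (div_ne_zero hb hφz) := by
    ext
    simp only [Units.val_mk0, Units.val_div_eq_div_val]
    field_simp
  have h4 : Units.mk0 (D.a / D.b) (div_ne_zero ha hb) ∈ locNorm E₁ u (M * e) := by
    rw [h3]
    exact (le_sup_right : congr u (M * e) ≤ locNorm E₁ u (M * e)) (div_mem h1 h2)
  have hζ' : IsPrimitiveRoot (φ ζ) 3 := hζ.map_of_injective φ.injective
  exact (forall_mem_locNorm_iff hζ' hdeg (deep_above hu hM)).2 h4 m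

end deep

end Fermat.Agent.H54Q
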