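import Mathlib
import Fermat.Agent.H54QLoc

/-!
# Norms from the torus of an elliptic element: the unramified places
-/

set_option autoImplicit false
set_option linter.unusedSectionVars false

noncomputable section

open Matrix IsDedekindDomain NumberField WithZero Fermat.Agent.H82 Module
open Fermat.Agent.H20.S47
open scoped MatrixGroups Pointwise

namespace Fermat.Agent.H54Q

section val

variable {K Γ : Type*} [Field K] [LinearOrderedCommGroupWithZero Γ] (v : Valuation K Γ)

/-- if `|ab| = q |a + b|²` with `q ≤ 1` then the ratio of `|a|` and `|b|` is `q` or `q⁻¹` -/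
theorem val_ratio {a b : K} {q : Γ} (ha : a ≠ 0) (hb : b ≠ 0) (hq : q ≤ 1)
    (h : v (a * b) = q * v (a + b) ^ 2) : v a = q * v b ∨ v b = q * v a := by
  have ha' : v a ≠ 0 := (v.ne_zero_iff).2 ha
  have hb' : v b ≠ 0 := (v.ne_zero_iff).2 hb
  rcases lt_trichotomy (v a) (v b) with h1 | h1 | h1
  · left
    rw [v.map_add_eq_of_lt_right h1, map_mul, pow_two, ← mul_assoc] at h
    exact mul_right_cancel₀ hb' h
  · left
    have h2 : v (a + b) ≤ v b := (v.map_add _ _).trans (max_le h1.le le_rfl)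
    have h3 : v b ^ 2 ≤ q * v b ^ 2 := by
      calc v b ^ 2 = v (a * b) := by rw [map_mul, h1, pow_two]
        _ = q * v (a + b) ^ 2 := h
        _ ≤ q * v b ^ 2 := mul_le_mul_right (pow_le_pow_left₀ zero_le h2 2) q
    have h4 : (1 : Γ) ≤ q := by
      have h5 : 0 < v b ^ 2 := zero_lt_iff.2 (pow_ne_zero 2 hb')
      refine le_of_mul_le_mul_right ?_ h5
      rw [one_mul]
      exact h3
    rw [le_antisymm hq h4, one_mul, h1]
  · right
    rw [v.map_add_eq_of_lt_left h1, map_mul, pow_two, mul_comm (v a) (v b), ← mul_assoc] at h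
    exact mul_right_cancel₀ ha' h

end val

section unr

variable {F E : Type} [Field F] [NumberField F] [Field E] [NumberField E]
  [Algebra F E] {s : E ≃ₐ[F] E} {c : Matrix (Fin 2) (Fin 2) F}

/-- compositum: `E₁ / F₁` is unramified above `v` if `E / F` is -/
theorem NormData.unramified {F₁ E₁ : Type} [Field F₁] [NumberField F₁] [Field E₁] [NumberField E₁]
    [Algebra F F₁] [Algebra E E₁] [Algebra F₁ E₁] [Algebra F E₁] [IsScalarTower F E E₁]
    [IsScalarTower F F₁ E₁] [IsGalois F E] [IsGalois F₁ E₁] (D : NormData F₁ E₁ s c)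
    (hdegE : finrank F E = 3) (hdeg : finrank F₁ E₁ = 3) {ζ : F} (hζ : IsPrimitiveRoot ζ 3)
    (hs : s ≠ 1) {v : HeightOneSpectrum (𝓞 F)} (hv : v.valuation F (3 : F) = 1)
    (hunr : ∀ w ∈ above E v, v.asIdeal.ramificationIdx' w.asIdeal = 1)
    {u : HeightOneSpectrum (𝓞 F₁)} (hu : u ∈ above F₁ v) :
    ∀ W ∈ above E₁ u, u.asIdeal.ramificationIdx' W.asIdeal = 1 := by
  have : Fact (Nat.Prime 3) := ⟨Nat.prime_three⟩
  intro W hW
  obtain ⟨y, α, hα, -⟩ := exists_isKummer hζ E hdegE
  obtain ⟨w, hw⟩ := H47.above_nonempty (L := E) v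
  have hα0 : α ≠ 0 := hα.ne_zero
  -- `y` is a cube up to a unit at `v`
  obtain ⟨z, hz⟩ := ordM_surjective v (ordM w (Units.mk0 α hα0))
  have hzv : v.valuation F (z : F) = w.valuation E α := by
    rw [ordM_apply, hz, ← ordM_apply]; rfl
  have hyv : v.valuation F (y : F) = v.valuation F (z : F) ^ 3 := by
    rw [hzv, ← map_pow, hα.pow_eq, valuation_above hw, hunr w hw, pow_one]
  set φ := algebraMap F F₁ with hφ
  set y₁ : F₁ˣ := Units.map (φ : F →* F₁) y with hy₁
  have hk : IsKummer 3 F₁ E₁ y₁ (algebraMap E E₁ α) := by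
    refine ⟨?_, ?_⟩
    · rw [← map_pow, hα.pow_eq, ← IsScalarTower.algebraMap_apply]
      show _ = algebraMap F₁ E₁ (φ (y : F))
      rw [← IsScalarTower.algebraMap_apply]
    · intro σ hσ
      have hinj := (algebraMap E E₁).injective
      rcases eq_of_card_three (NormData.card_gal hdeg) (D.s₁_ne_one hs) σ with h | h | h
      · exact h
      · exfalso
        rw [h, D.s₁_apply] at hσ
        exact hs (hα.eq_one s (hinj hσ))
      · exfalso
        rw [h, AlgEquiv.mul_apply, D.s₁_apply, D.s₁_apply] at hσ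
        have h1 : s * s = 1 := hα.eq_one (s * s) (hinj hσ)
        have h2 : s ^ 3 = 1 := by
          have hcard : Nat.card (E ≃ₐ[F] E) = 3 := by rw [IsGalois.card_aut_eq_finrank, hdegE]
          rw [← hcard]
          exact pow_card_eq_one'
        apply hs
        rw [pow_succ, pow_two, h1, one_mul] at h2
        exact h2
  have hζ' : IsPrimitiveRoot (φ ζ) 3 := hζ.map_of_injective φ.injective
  refine hk.ramificationIdx'_eq_one hζ' (v := u) ?_ ?_ hW
  · have h3 : ((3 : ℕ) : F₁) = φ 3 := by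
      rw [map_ofNat]
      norm_num
    rw [h3, valuation_above hu, hv, one_pow]
  · rw [mem_locPow]
    refine ⟨Units.map (φ : F →* F₁) z, ?_⟩
    rw [mem_congr_zero]
    have h1 : ((y₁ / Units.map (φ : F →* F₁) z ^ 3 : F₁ˣ) : F₁) = φ ((y : F) / (z : F) ^ 3) := by
      push_cast
      rw [map_div₀, map_pow]
      rfl
    rw [h1, valuation_above hu, map_div₀, map_pow, hyv, div_self, one_pow]
    exact pow_ne_zero _ ((Valuation.ne_zero_iff _).2 z.ne_zero)

/-- the local condition at an unramified place from the order of `a / b` -/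
theorem LocCond.of_order [IsGalois F E] (hdegE : finrank F E = 3) {ζ : F}
    (hζ : IsPrimitiveRoot ζ 3) (hs : s ≠ 1) {v : HeightOneSpectrum (𝓞 F)}
    (hv : v.valuation F (3 : F) = 1)
    (hunr : ∀ w ∈ above E v, v.asIdeal.ramificationIdx' w.asIdeal = 1)
    (h : ∀ (F₁ : Type) [Field F₁] [NumberField F₁] [Algebra F F₁] (a b : F₁), a ≠ 0 → b ≠ 0 →
      a + b = algebraMap F F₁ c.trace → a * b = algebraMap F F₁ c.det →
      ∀ u : HeightOneSpectrum (𝓞 F₁), u ∈ above F₁ v →
        ∃ k : ℤ, u.valuation F₁ (a / b) = exp (3 * k)) :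
    LocCond s c v := by
  have : Fact (Nat.Prime 3) := ⟨Nat.prime_three⟩
  intro F₁ E₁ _ _ _ _ _ _ _ _ _ _ _ hdeg _ D ha hb u hu hns m
  have hunr₁ := D.unramified hdegE hdeg hζ hs hv hunr hu
  have hu3 : u.valuation F₁ ((3 : ℕ) : F₁) = 1 := by
    have h3 : ((3 : ℕ) : F₁) = algebraMap F F₁ 3 := by
      rw [map_ofNat]
      norm_num
    rw [h3, valuation_above hu, hv, one_pow]
  have hζ' : IsPrimitiveRoot (algebraMap F F₁ ζ) 3 :=
    hζ.map_of_injective (algebraMap F F₁).injective
  obtain ⟨k, hk⟩ := h F₁ D.a D.b ha hb D.add_eq D.mul_eq u hu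
  obtain ⟨z, hz⟩ := ordM_surjective u (Multiplicative.ofAdd k)
  have hzv : u.valuation F₁ (z : F₁) = exp k := by rw [ordM_apply, hz]; rfl
  have h1 : Units.mk0 (D.a / D.b) (div_ne_zero ha hb) ∈ locNorm E₁ u 1 := by
    rw [locNorm_eq_of_unramified hζ' hdeg hu3 hns hunr₁, Subgroup.mem_sup]
    refine ⟨z ^ 3, ⟨z, rfl⟩, Units.mk0 (D.a / D.b) (div_ne_zero ha hb) / z ^ 3, ?_, by simp⟩
    rw [mem_congr_zero, Units.val_div_eq_div_val, map_div₀, Units.val_mk0, hk, Units.val_pow_eq_pow_val,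
      map_pow, hzv, ← WithZero.exp_nsmul]
    have : (3 • k : ℤ) = 3 * k := by simp
    rw [this, div_self exp_ne_zero]
  exact (forall_mem_locNorm_iff hζ' hdeg (deep_of_not_dvd hζ' hu3 one_pos)).2 h1 m

/-- **the local condition at an unramified place when the eigenvalues have the same size** -/
theorem LocCond.of_trace_le [IsGalois F E] (hdegE : finrank F E = 3) {ζ : F}
    (hζ : IsPrimitiveRoot ζ 3) (hs : s ≠ 1) {v : HeightOneSpectrum (𝓞 F)}
    (hv : v.valuation F (3 : F) = 1)
    (hunr : ∀ w ∈ above E v, v.asIdeal.ramificationIdx' w.asIdeal = 1)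
    (h : v.valuation F c.trace ^ 2 ≤ v.valuation F c.det) : LocCond s c v := by
  refine LocCond.of_order hdegE hζ hs hv hunr ?_
  intro F₁ _ _ _ a b ha hb h1 h2 u hu
  refine ⟨0, ?_⟩
  have h3 : u.valuation F₁ a = u.valuation F₁ b := by
    refine val_eq_of_trace_le _ ha hb ?_
    rw [h1, h2, valuation_above hu, valuation_above hu, ← pow_mul, mul_comm, pow_mul]
    exact pow_le_pow_left₀ zero_le h _
  rw [map_div₀, h3, div_self ((Valuation.ne_zero_iff _).2 hb)]
  simp

/-- **the local condition at an unramified place for hyperbolic elements** -/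
theorem LocCond.of_hyperbolic [IsGalois F E] (hdegE : finrank F E = 3) {ζ : F}
    (hζ : IsPrimitiveRoot ζ 3) (hs : s ≠ 1) {v : HeightOneSpectrum (𝓞 F)}
    (hv : v.valuation F (3 : F) = 1)
    (hunr : ∀ w ∈ above E v, v.asIdeal.ramificationIdx' w.asIdeal = 1) (k : ℕ)
    (h : v.valuation F c.det = exp (-(3 * (k : ℤ))) * v.valuation F c.trace ^ 2) :
    LocCond s c v := by
  refine LocCond.of_order hdegE hζ hs hv hunr ?_
  intro F₁ _ _ _ a b ha hb h1 h2 u hu
  set e := v.asIdeal.ramificationIdx' u.asIdeal with he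
  have hq : (exp (-(3 * (k : ℤ))) : ℤᵐ⁰) ^ e = exp (3 * (-((k : ℤ) * e))) := by
    rw [← WithZero.exp_nsmul, nsmul_eq_mul]
    congr 1
    ring
  have h4 : u.valuation F₁ (a * b) = exp (3 * (-((k : ℤ) * e))) * u.valuation F₁ (a + b) ^ 2 := by
    rw [h1, h2, valuation_above hu, valuation_above hu, h, mul_pow, hq, ← pow_mul, ← pow_mul,
      mul_comm 2]
  have hle : (exp (3 * (-((k : ℤ) * e))) : ℤᵐ⁰) ≤ 1 := by
    rw [← exp_zero, exp_le_exp]
    have : (0 : ℤ) ≤ (k : ℤ) * e := by positivity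
    linarith
  rcases val_ratio _ ha hb hle h4 with h5 | h5
  · refine ⟨-((k : ℤ) * e), ?_⟩
    rw [map_div₀, h5, mul_div_assoc, div_self ((Valuation.ne_zero_iff _).2 hb), mul_one]
  · refine ⟨(k : ℤ) * e, ?_⟩
    rw [map_div₀, h5, div_mul_eq_div_div, div_right_comm, div_self ((Valuation.ne_zero_iff _).2 ha),
      one_div, ← WithZero.exp_neg]
    congr 1
    ring

end unr

end Fermat.Agent.H54Q
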