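import Mathlib
import Fermat.Agent.H54TRecipB
import Fermat.Agent.H6MDRec
import Fermat.Agent.H6MDBlock

/-!
# LT-MOD2, M6: the reciprocity statement and the block `BlockM6`
-/

set_option autoImplicit false

namespace Fermat.Agent.H54T

open Fermat.Agent.H6.MD

local notation "Qb" => AlgebraicClosure ℚ
local notation "Gq" => (AlgebraicClosure ℚ ≃ₐ[ℚ] AlgebraicClosure ℚ)

theorem recipStatement : RecipStatement := by
  intro rb S q h
  have h8 : q % 8 = 7 := by
    obtain ⟨k, hk⟩ := h.eight
    omega
  exact recip h.prime h8 h.notMem h.two h.lev h.unr (fun ℓ hℓ _ P hP => h.ntriv ℓ hℓ P hP)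
    (c := complexConjugation) (ι := (complexEmbedding : Qb →+* ℂ))
    complexEmbedding_complexConjugation h.conj h.frob

/-- **Step D of LT-MOD2.** -/
theorem blockM6 : Fermat.Agent.LT.BlockM6 := Fermat.Agent.H6.MD.blockM6 recipStatement

end Fermat.Agent.H54T
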