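import Mathlib
import Fermat.Agent.H55GlobFin
import Fermat.Agent.H73F6
import Fermat.Agent.H7BrS55
import Fermat.Agent.H64A1
import Fermat.Agent.H47ShaU2
import Fermat.Agent.H47LocTriv
import Fermat.Agent.H54Levels
import Fermat.Agent.H91Iso

set_option autoImplicit false
set_option maxSynthPendingDepth 3

/-!
# S55 : assembly of the arithmetic input
-/

namespace Fermat.Agent.H55

open Module ExtCitation NumberField Fermat.Agent.H64 Fermat.Agent.H54 Fermat.Agent.H47

variable {p : ℕ} [hp : Fact p.Prime] (S : Finset Nat.Primes)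

lemma hpS_of (hpS : pPrime p ∈ S) : ∀ q : Nat.Primes, (q : ℕ) = p → q ∈ S := by
  intro q hq
  have : q = pPrime p := Subtype.ext hq
  rwa [this]

/-- the field attached to an open subgroup `U ≤ ker χ` -/
lemma exists_field {U : Subgroup (AlgebraicClosure ℚ ≃ₐ[ℚ] AlgebraicClosure ℚ)}
    (hU : (ramLevels S).op U) (hle : U ≤ (cycloChar p).ker) :
    ∃ K : IntermediateField ℚ (AlgebraicClosure ℚ), K.IsUnramifiedOutside S ∧
      K.fixingSubgroup = U ∧ ∃ _ : NumberField K, ∃ ζ : AlgebraicClosure ℚ,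
        IsPrimitiveRoot ζ p ∧ ζ ∈ K := by
  obtain ⟨K, hK, rfl⟩ := (op_ramLevels_iff S U).1 hU
  have : NeZero p := ⟨hp.out.ne_zero⟩
  obtain ⟨ζ, hζ⟩ := HasEnoughRootsOfUnity.exists_primitiveRoot (AlgebraicClosure ℚ) p
  have hfd : FiniteDimensional ℚ K := hK.1
  exact ⟨K, hK, rfl, H91.numberField_of_finite K, ζ, hζ, H91.mem_of_fixed fun s hs =>
    (H63.cycloChar_eq_one_iff hζ).1 (hle hs)⟩

/-- classes unramified outside `S` are locally trivial outside `S` -/
lemma loc_triv_outside (hpS : pPrime p ∈ S)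
    {U : Subgroup (AlgebraicClosure ℚ ≃ₐ[ℚ] AlgebraicClosure ℚ)}
    (hU : (ramLevels S).op U) (hle : U ≤ (cycloChar p).ker) :
    ∀ f ∈ Z2 ((ramLevels S).onSub U) (Representation.trivial (ZMod p) U (ZMod p)),
      ∀ q : Nat.Primes, q ∉ S → ∀ g : AlgebraicClosure ℚ ≃ₐ[ℚ] AlgebraicClosure ℚ,
        (fun x : dec (primeLocalToGlobal q) U g × dec (primeLocalToGlobal q) U g =>
          f (decHom (primeLocalToGlobal q) U g x.1, decHom (primeLocalToGlobal q) U g x.2)) ∈
        B2 ((krullLevels.comap (primeLocalToGlobal q)).onSub (dec (primeLocalToGlobal q) U g))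
          (Representation.trivial (ZMod p) (dec (primeLocalToGlobal q) U g) (ZMod p)) := by
  obtain ⟨K, hK, rfl, hNK, ζ, hζ, hζK⟩ := exists_field S hU hle
  intro f hf q hq g
  obtain ⟨y, hy, h⟩ := locTriv hζ hζK (hpS_of S hpS) hK hq g hf
  rw [mem_B2]
  exact ⟨y, hy, funext fun x => h x.1 x.2⟩

/-- **The arithmetic input**, modulo the codimension statement. -/
theorem arithInput_of_codim (hp2 : p ≠ 2) (hpS : pPrime p ∈ S)
    (hcodim : ∀ U, (ramLevels S).op U → ∃ U', (ramLevels S).op U' ∧ U' ≤ U ∧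
      U' ≤ (cycloChar p).ker ∧
      (DS S).nPlaces U' + finrank (ZMod p) ((DS S).ShaU2 (ZMod p) U') ≤
        finrank (ZMod p) (H2 ((ramLevels S).onSub U')
          (Representation.trivial (ZMod p) U' (ZMod p))) + 1) :
    ArithInput (DS S) (cycloChar p) where
  open_ker := H73.F6.op_ker_cycloChar S hpS
  loc_fin1 := H7.loc_fin1 S p
  loc_fin2 := H7.loc_fin2 S p hp2
  loc_h1 := H7.loc_h1 S p hpS
  loc_h2 := H7.loc_h2 S p hp2
  tot_ram := H7.tot_ram S p hp2 hpS
  glob_fin1 U hU hle := by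
    obtain ⟨K, hK, rfl, hNK, ζ, hζ, hζK⟩ := exists_field S hU hle
    exact finiteDimensional_H1 hp2 hζ hζK (hpS_of S hpS) hK
  glob_fin2 U hU hle := by
    refine finite_H2_of_finite_ShaU2 (H7.loc_fin2 S p hp2) hU hle ?_
    obtain ⟨K, hK, rfl, hNK, ζ, hζ, hζK⟩ := exists_field S hU hle
    have := finite_ShaU2 hp2 hζ hζK (hpS_of S hpS) hK
    exact Module.Finite.of_finite
  glob_h U hU hle := by
    obtain ⟨K, hK, rfl, hNK, ζ, hζ, hζK⟩ := exists_field S hU hle
    obtain ⟨c, hc, h⟩ := exists_finrank_H1 hp2 hζ hζK (hpS_of S hpS) hK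
    have h2 := card_eq_pow_finrank_ShaU2 hp2 hζ hζK (hpS_of S hpS) hK
    rw [hc] at h2
    have h3 := Nat.pow_right_injective hp.out.two_le h2
    have h4 : (DS S).nPlaces K.fixingSubgroup = (placesS S K).ncard := nPlaces_eq S K
    have h5 : K.fixingSubgroup.index = Module.finrank ℚ K :=
      (IntermediateField.finrank_eq_fixingSubgroup_index (F := ℚ) (E' := AlgebraicClosure ℚ) K).symm
    have hζ' : IsPrimitiveRoot (⟨ζ, hζK⟩ : K) p :=
      IsPrimitiveRoot.of_map_of_injective (f := algebraMap K (AlgebraicClosure ℚ)) hζ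
        (algebraMap K (AlgebraicClosure ℚ)).injective
    have h6 := rank_add_one (lt_of_le_of_ne hp.out.two_le (Ne.symm hp2)) hζ'
    rw [h, h4, h5]
    omega
  codim := hcodim
  iso z v₀ g₀ hz := by
    exact H91.iso_of hp2 S (H73.F6.op_ker_cycloChar S hpS) le_rfl
      (loc_triv_outside S hpS (H73.F6.op_ker_cycloChar S hpS) le_rfl) z v₀ g₀ hz

end Fermat.Agent.H55
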