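import Mathlib
import Fermat.Agent.H55LTC
import Fermat.Agent.H69DihB

/-!
# LT-MOD2, Theorems B and C combined
-/

set_option autoImplicit false

open IsLocalRing Module Matrix
open Fermat.Agent.H69.Dih

namespace Fermat.Agent.H55.LT

section Bound

universe u v w

variable {G : Type w} [Group G] {H : Subgroup G} {k : Type u} [Field k] [Finite k]

/-- consequence of Theorem B: the cardinality bound -/
theorem card_le_of_type
    (hH : ∀ a b : G, a * b ∈ H ↔ (a ∈ H ↔ b ∈ H))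
    (hk : ∀ y : k, y ≠ 0 → y ^ 3 = 1)
    {ι : Type*} (D : ι → Subgroup G) (hD : ∀ v, ∃ g ∈ D v, g ∉ H) (v₀ : ι)
    {κ : Type*} (I : κ → Set G) (I₀ : Set G) (hI₀ : I₀ ⊆ D v₀) (N : Set G)
    (A : Type v) [CommRing A] [IsLocalRing A] [Finite A] [Algebra k A]
    (h2 : (2 : A) = 0) (π : A →+* k) (hπk : ∀ c, π (algebraMap k A c) = c)
    (r : G →* Matrix (Fin 2) (Fin 2) A) (hdet : ∀ g, (r g).det = 1)
    (hbar : Shape H fun g => π.mapMatrix (r g))
    (s : ι → G → A) (hs : ∀ v, ∀ g ∈ D v, s v g ^ 2 = 1)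
    (hs1 : ∀ v, v ≠ v₀ → ∀ g ∈ D v, s v g = 1) (hs0 : ∀ g ∈ I₀, s v₀ g = 1)
    (hloc : ∀ v, ∀ g ∈ D v, ∀ g' ∈ D v,
      (r g - s v g • (1 : Matrix (Fin 2) (Fin 2) A)) *
        (r g' - s v g' • (1 : Matrix (Fin 2) (Fin 2) A)) = 0)
    (hI : ∀ w, ∀ g ∈ I w, r g = 1) (hN : ∀ n ∈ N, r n = 1)
    (hSel : ∀ b : G → Fin 2 → k,
      (∀ g g', b (g * g') = b g + (π.mapMatrix (r g)) *ᵥ b g') →
      (∀ g, ∀ n ∈ N, b (g * n) = b g) →
      (∀ w, ∀ g ∈ I w, b g = 0) →
      (∀ v, ∀ g ∈ D v, ∀ g' ∈ D v, (π.mapMatrix (r g')) *ᵥ b g = b g) →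
      ∃ m : Fin 2 → k, ∀ g, b g = (π.mapMatrix (r g)) *ᵥ m - m)
    (hgen : Algebra.adjoin k (Set.range fun g => (r g).trace) = ⊤) {h : ℕ}
    (hM5 : ∀ c : H →* Aˣ, (∀ g, π (c g) = 1) → (∀ g : H, (g : G) ∈ N → c g = 1) →
      (∀ v, v ≠ v₀ → ∀ g : H, (g : G) ∈ D v → c g = 1) → (∀ w, ∀ g : H, (g : G) ∈ I w → c g = 1) →
      (∀ g : H, (g : G) ∈ I₀ → c g = 1) → Nat.card c.range ≤ h) :
    Nat.card A ≤ Nat.card k ^ h := by
  classical
  have hπ : Function.Surjective π := fun c => ⟨algebraMap k A c, hπk c⟩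
  obtain ⟨P, hP, hsh⟩ := exists_conj_shape hH hk D hD I N (Nat.card A) A rfl h2 π hπ r hdet hbar
    s hs hloc hI hN hSel
  have hdet1 : ∀ g, (conj P r g).det = 1 := by
    intro g
    rw [conj_apply, Matrix.det_mul, Matrix.det_mul, hdet, mul_one, ← Matrix.det_mul,
      Units.mul_inv, Matrix.det_one]
  have hloc1 : ∀ v, ∀ g ∈ D v, ∀ g' ∈ D v,
      (conj P r g - s v g • (1 : Matrix (Fin 2) (Fin 2) A)) *
        (conj P r g' - s v g' • (1 : Matrix (Fin 2) (Fin 2) A)) = 0 := by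
    intro v g hg g' hg'
    have h3 : ∀ g, conj P r g - s v g • (1 : Matrix (Fin 2) (Fin 2) A) =
        P.val * (r g - s v g • (1 : Matrix (Fin 2) (Fin 2) A)) * P⁻¹.val := by
      intro g
      rw [conj_apply, mul_sub, sub_mul, mul_smul_comm, smul_mul_assoc, mul_one, Units.mul_inv]
    rw [h3, h3]
    calc P.val * (r g - s v g • (1 : Matrix (Fin 2) (Fin 2) A)) * P⁻¹.val *
          (P.val * (r g' - s v g' • (1 : Matrix (Fin 2) (Fin 2) A)) * P⁻¹.val)
        = P.val * ((r g - s v g • (1 : Matrix (Fin 2) (Fin 2) A)) * (P⁻¹.val *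
          P.val) * (r g' - s v g' • (1 : Matrix (Fin 2) (Fin 2) A))) * P⁻¹.val := by
          simp only [mul_assoc]
      _ = 0 := by
          rw [Units.inv_mul, mul_one, hloc v g hg g' hg', mul_zero, zero_mul]
  set c := kap (k := k) π (conj P r) hsh hdet1 with hc
  -- `c g = 1` as soon as the diagonal entry is `1`
  have key : ∀ g : H, conj P r g 0 0 = 1 → c g = 1 := by
    intro g hg
    have h4 := chr_eq (k := k) π (conj P r) hsh hdet1 g
    rw [hg, map_one, map_one, one_mul] at h4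
    exact Units.ext h4.symm
  have key1 : ∀ g : H, r g = 1 → c g = 1 := by
    intro g hg
    apply key
    rw [conj_apply, hg, mul_one, Units.mul_inv, Matrix.one_apply_eq]
  have hfin : Finite c.range := inferInstance
  have hgen1 : Algebra.adjoin k (Set.range fun g => (conj P r g).trace) = ⊤ := by
    rw [← hgen]
    congr 2
    funext g
    rw [conj_apply, Matrix.trace_mul_comm, ← mul_assoc, Units.inv_mul, one_mul]
  have h5 := finrank_le (k := k) π (conj P r) hsh hdet1 hgen1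
  have h6 : Nat.card c.range ≤ h := by
    refine hM5 c (fun g => π_kap π hπk _ hsh hdet1 g) (fun g hg => key1 g (hN g hg)) ?_
      (fun w g hg => key1 g (hI w g hg)) ?_
    · intro v hv g hg
      apply key
      rw [chr_local h2 (conj P r) hsh hdet1 (hD v) (hloc1 v) hg g.2, hs1 v hv g hg]
    · intro g hg
      apply key
      rw [chr_local h2 (conj P r) hsh hdet1 (hD v₀) (hloc1 v₀) (hI₀ hg) g.2, hs0 g hg]
  have hfd : Module.Finite k A := Module.Finite.of_finite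
  rw [Module.natCard_eq_pow_finrank (K := k) (V := A)]
  exact Nat.pow_le_pow_right (Nat.card_pos) (h5.trans h6)

end Bound

end Fermat.Agent.H55.LT
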