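import Fermat.Agent.H64FTame

/-!
# S56-[F], case II : the tame character attached to an element of `ℚ̄`
-/

set_option autoImplicit false

noncomputable section

namespace Fermat.Agent.H56

open Fermat.Agent.H64

variable {p : ℕ} [Fact p.Prime]

/-- the value of the tame character attached to `a` -/
def theta (a : FQb) (σ : FGQ) : Kap p := rs (σ a / a)

theorem nm_dec_div {σ : FGQ} (hσ : σ ∈ Dp p) {a : FQb} (ha : a ≠ 0) : nm p (σ a / a) = 1 := by
  rw [nm_div, nm_dec hσ, div_self]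
  exact (nm_pos.mpr ha).ne'

theorem theta_ne_zero {σ : FGQ} (hσ : σ ∈ Dp p) {a : FQb} (ha : a ≠ 0) :
    theta (p := p) a σ ≠ 0 := by
  rw [theta, Ne, rs_eq_zero_iff (nm_dec_div hσ ha).le, nm_dec_div hσ ha]
  exact lt_irrefl _

theorem theta_mul {σ τ : FGQ} (hσ : σ ∈ Ip p) (hτ : τ ∈ Dp p) {a : FQb} (ha : a ≠ 0) :
    theta (p := p) a (σ * τ) = theta a σ * theta a τ := by
  have h1 : (σ * τ) a / a = σ (τ a / a) * (σ a / a) := by
    rw [AlgEquiv.mul_apply, map_div₀]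
    have : σ a ≠ 0 := (map_ne_zero σ).mpr ha
    field_simp
  rw [theta, h1, rs_mul _ (nm_dec_div (Ip_le_Dp hσ) ha).le, rs_inertia hσ (nm_dec_div hτ ha).le,
    theta, theta, mul_comm]
  rw [nm_dec (Ip_le_Dp hσ), nm_dec_div hτ ha]

theorem theta_mul_elt {σ : FGQ} (hσ : σ ∈ Dp p) {a b : FQb} (ha : a ≠ 0) (hb : b ≠ 0) :
    theta (p := p) (a * b) σ = theta a σ * theta b σ := by
  rw [theta, map_mul, mul_div_mul_comm, rs_mul (nm_dec_div hσ ha).le (nm_dec_div hσ hb).le]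
  rfl

theorem theta_pow_elt {σ : FGQ} (hσ : σ ∈ Dp p) {a : FQb} (ha : a ≠ 0) (n : ℕ) :
    theta (p := p) (a ^ n) σ = theta a σ ^ n := by
  rw [theta, map_pow, ← div_pow, rs_pow (nm_dec_div hσ ha).le]
  rfl

theorem theta_unit {σ : FGQ} (hσ : σ ∈ Ip p) {a : FQb} (ha : nm p a = 1) :
    theta (p := p) a σ = 1 := by
  have ha0 : a ≠ 0 := by
    intro h
    rw [h, nm_zero] at ha
    exact zero_ne_one ha
  rw [theta, ← rs_one, rs_eq_iff (nm_dec_div (Ip_le_Dp hσ) ha0).le (by simp)]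
  have h1 : σ a / a - 1 = (σ a - a) / a := by field_simp
  rw [h1, nm_div, ha, div_one]
  exact nm_inertia hσ ha.le

theorem theta_congr {σ : FGQ} (hσ : σ ∈ Ip p) {a b : FQb} (ha : a ≠ 0) (hb : b ≠ 0)
    (h : nm p a = nm p b) : theta (p := p) a σ = theta b σ := by
  have h1 : a = b * (a / b) := by field_simp
  have h2 : nm p (a / b) = 1 := by
    rw [nm_div, h, div_self]
    exact (nm_pos.mpr hb).ne'
  rw [h1, theta_mul_elt (Ip_le_Dp hσ) hb (div_ne_zero ha hb), theta_unit hσ h2, mul_one]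

theorem theta_fixed (σ : FGQ) {a : FQb} (ha : a ≠ 0) (h : σ a = a) :
    theta (p := p) a σ = 1 := by
  rw [theta, h, div_self ha, rs_one]

theorem theta_neg_p (σ : FGQ) : theta (p := p) (-(p : FQb)) σ = 1 := by
  apply theta_fixed
  · rw [neg_ne_zero, Nat.cast_ne_zero]
    exact (Fact.out : p.Prime).ne_zero
  · rw [map_neg, map_natCast]

theorem theta_frob {σ : FGQ} (hσ : σ ∈ Ip p) {a : FQb} (ha : a ≠ 0) :
    theta (p := p) a (frob p * σ * (frob p)⁻¹) = theta a σ ^ p := by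
  set b := (frob p)⁻¹ a with hb
  have hb0 : b ≠ 0 := (map_ne_zero _).mpr ha
  have hfb : frob p b = a := by
    rw [hb, ← AlgEquiv.mul_apply, mul_inv_cancel]
    rfl
  have h1 : (frob p * σ * (frob p)⁻¹) a / a = frob p (σ b / b) := by
    rw [map_div₀, hfb, AlgEquiv.mul_apply, AlgEquiv.mul_apply, ← hb]
  have h2 : nm p b = nm p a := by
    rw [← hfb, nm_dec frob_mem]
  rw [theta, h1, rs_frob (nm_dec_div (Ip_le_Dp hσ) hb0).le]
  have h3 := theta_congr (p := p) hσ hb0 ha h2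
  rw [theta] at h3
  rw [h3]

/-- the norm of an element of `ℚ̄` is commensurable to that of `p` -/
theorem exists_nm_pow_eq {a : FQb} (ha : a ≠ 0) (ha1 : nm p a ≤ 1) :
    ∃ w u : ℕ, 0 < w ∧ nm p a ^ w = nm p (p : FQb) ^ u := by
  obtain ⟨L, hfd, hgal, hL⟩ := exists_galois_field {a} (Set.finite_singleton a)
  have : NumberField L := @NumberField.mk _ _ inferInstance hfd
  obtain ⟨c, hc0, hc1, hc⟩ := H54.exists_norm_eq_zpow (jEmb p L)
  have haL : a ∈ L := hL rfl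
  have hp0 : (p : L) ≠ 0 := by exact_mod_cast (Fact.out : p.Prime).ne_zero
  have h1 := hc ⟨a, haL⟩ (fun h => ha (congrArg Subtype.val h))
  have h2 := hc (p : L) hp0
  rw [norm_jEmb] at h1 h2
  have h3 : (((p : L)) : FQb) = (p : FQb) := by
    exact map_natCast (algebraMap L FQb) p
  rw [h3] at h2
  set A : ℤ := -WithZero.log ((H54.placeOf (jEmb p L)).valuation L ⟨a, haL⟩) with hA
  set B : ℤ := -WithZero.log ((H54.placeOf (jEmb p L)).valuation L (p : L)) with hB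
  have h1' : nm p a = c ^ A := h1
  have h2' : nm p (p : FQb) = c ^ B := h2
  have hlt := nm_p_lt_one p
  have hBpos : 0 < B := by
    by_contra hcon
    rw [not_lt] at hcon
    rw [h2'] at hlt
    exact absurd hlt (not_lt.mpr (one_le_zpow_of_nonpos₀ hc0 hc1.le hcon))
  have hApos : 0 ≤ A := by
    by_contra hcon
    rw [not_le] at hcon
    rw [h1'] at ha1
    exact absurd ha1 (not_le.mpr (one_lt_zpow_of_neg₀ hc0 hc1 hcon))
  obtain ⟨B', hB'⟩ := Int.eq_ofNat_of_zero_le hBpos.le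
  obtain ⟨A', hA'⟩ := Int.eq_ofNat_of_zero_le hApos
  refine ⟨B', A', by omega, ?_⟩
  rw [h1', h2', ← zpow_natCast, ← zpow_natCast, ← zpow_mul, ← zpow_mul, ← hA', ← hB', mul_comm]

theorem pow_p_injective : Function.Injective (fun x : Kap p => x ^ p) := by
  intro x y h
  exact frobenius_inj (Kap p) p h

theorem pow_ppow_injective (m : ℕ) : Function.Injective (fun x : Kap p => x ^ p ^ m) := by
  intro x y h
  exact iterateFrobenius_inj (Kap p) p m (by simpa [iterateFrobenius_def] using h)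

/-- **The tame lemma** -/
theorem exists_theta_eq_pow {e : ℕ} (he : 0 < e) (hep : e.Coprime p) {π : FQb}
    (hπ : π ^ e = -(p : FQb)) {a : FQb} (ha : a ≠ 0) (ha1 : nm p a ≤ 1)
    (hθ : ∀ σ ∈ Ip p, theta (p := p) a σ ^ e = 1) :
    ∃ j : ℕ, ∀ σ ∈ Ip p, theta (p := p) a σ = theta π σ ^ j := by
  have hp : p.Prime := Fact.out
  have hπ0 := pi_ne_zero he hπ
  obtain ⟨w, u, hw, hwu⟩ := exists_nm_pow_eq ha ha1
  obtain ⟨m, w', hw', rfl⟩ := Nat.exists_eq_pow_mul_and_not_dvd hw.ne' p hp.ne_one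
  have hw'pos : 0 < w' := Nat.pos_of_ne_zero (by rintro rfl; exact hw' (dvd_zero _))
  have hw'p : w'.Coprime p := ((Nat.Prime.coprime_iff_not_dvd hp).mpr hw').symm
  obtain ⟨ϖ, hϖ⟩ := IsAlgClosed.exists_pow_nat_eq π hw'pos
  have hϖ0 : ϖ ≠ 0 := by
    rintro rfl
    rw [zero_pow hw'pos.ne'] at hϖ
    exact hπ0 hϖ.symm
  have hE : 0 < w' * e := Nat.mul_pos hw'pos he
  have hEp : (w' * e).Coprime p := Nat.Coprime.mul_left hw'p hep
  have hϖE : ϖ ^ (w' * e) = -(p : FQb) := by rw [pow_mul, hϖ, hπ]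
  have hϖnm : nm p ϖ ^ (w' * e) = nm p (p : FQb) := nm_pi_pow hϖE
  -- norms
  have h1 : nm p (a ^ p ^ m) = nm p (ϖ ^ (u * e)) := by
    apply (pow_left_inj₀ (nm_nonneg _) (nm_nonneg _) hw'pos.ne').mp
    rw [nm_pow, ← pow_mul, hwu, ← hϖnm, nm_pow, ← pow_mul, ← pow_mul]
    congr 1
    ring
  have h2 : ∀ σ ∈ Ip p, theta (p := p) a σ ^ p ^ m = theta ϖ σ ^ (u * e) := by
    intro σ hσ
    rw [← theta_pow_elt (Ip_le_Dp hσ) ha, ← theta_pow_elt (Ip_le_Dp hσ) hϖ0]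
    exact theta_congr hσ (pow_ne_zero _ ha) (pow_ne_zero _ hϖ0) h1
  -- the generator
  obtain ⟨t, ht, ζ, hζ, htϖ⟩ := exists_tame_gen hE hEp hϖE
  have hζϖ : theta (p := p) ϖ t = rs ζ := by rw [theta, htϖ, mul_div_cancel_right₀ _ hϖ0]
  have hζ1 : nm p ζ ≤ 1 := (isTeich_of_pow_eq_one hE hEp hζ.pow_eq_one).nm_le
  have h3 : ζ ^ (u * e * e) = 1 := by
    apply (IsTeich.pow (isTeich_of_pow_eq_one hE hEp hζ.pow_eq_one) _).eq_of_nm_sub_lt
      ⟨1, one_pos, one_pow _⟩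
    rw [← rs_eq_iff (by rw [nm_pow]; exact pow_le_one₀ (nm_nonneg _) hζ1) (by simp), rs_pow hζ1,
      ← hζϖ, pow_mul, ← h2 t ht, rs_one, ← pow_mul, mul_comm, pow_mul, hθ t ht, one_pow]
  have h4 : w' * e ∣ u * e * e := (hζ.pow_eq_one_iff_dvd _).mp h3
  have h5 : w' ∣ u * e := Nat.dvd_of_mul_dvd_mul_right he h4
  obtain ⟨j, hj⟩ := h5
  have h6 : ∀ σ ∈ Ip p, theta (p := p) a σ ^ p ^ m = theta π σ ^ j := by
    intro σ hσ
    rw [h2 σ hσ, hj, pow_mul, ← theta_pow_elt (Ip_le_Dp hσ) hϖ0 w', hϖ]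
  -- remove the `p`-power
  have h7 : p ^ (Nat.totient e) ≡ 1 [MOD e] := Nat.ModEq.pow_totient hep.symm
  have h8 : p ^ (Nat.totient e * m) ≡ 1 [MOD e] := by
    rw [pow_mul]
    simpa using h7.pow m
  have h9 : m ≤ Nat.totient e * m := Nat.le_mul_of_pos_left _ (Nat.totient_pos.mpr he)
  refine ⟨j * p ^ (Nat.totient e * m - m), fun σ hσ => ?_⟩
  rw [pow_mul, ← h6 σ hσ, ← pow_mul, ← pow_add, Nat.add_sub_cancel' h9]
  have h10 := pow_eq_pow_of_modEq h8 (hθ σ hσ)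
  rw [h10, pow_one]

end Fermat.Agent.H56
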