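import Fermat.Agent.H56FC2a
import Fermat.Agent.H29FK1b

/-!
# S56-[F], case II : leading terms
-/

set_option autoImplicit false

noncomputable section

namespace Fermat.Agent.H56

open Fermat.Agent.H64 Fermat.Agent.H29

variable {p : ℕ} [Fact p.Prime] {k : Type*} [Field k] [Finite k]
  {W : Type*} [AddCommGroup W] [Finite W] [Module k W] {act : FGQ → W → W} {n : ℕ}
  {e : Fin n → W → FQb} {a : Fin n → Fin n → Fin n → ℚ}

variable (p) in
/-- the size of a point of a `k`-vector space scheme is at most `M` -/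
def SzLe (k : Type*) [Field k] {W : Type*} [AddCommGroup W] [Module k W] {n : ℕ}
    (e : Fin n → W → FQb) (M : ℝ) (x : W) : Prop :=
  ∀ (c : k) (i : Fin n), nm p (uu e (c • x) i) ≤ M

/-- the submodule of points of size at most `M` -/
def szSub (k : Type*) [Field k] {W : Type*} [AddCommGroup W] [Module k W] {n : ℕ}
    {e : Fin n → W → FQb} {a : Fin n → Fin n → Fin n → ℚ} {act : FGQ → W → W}
    (h : FData p act n e a) {M : ℝ} (hM : 0 ≤ M) (hM1 : M ≤ 1) : Submodule k W where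
  carrier := {x | SzLe p k e M x}
  zero_mem' := fun c i => by rw [smul_zero, uu_zero, nm_zero]; exact hM
  add_mem' {x y} hx hy := fun c i => by
    rw [smul_add, uu_add h]
    refine nm_add_le_of (nm_add_le_of (hx c i) (hy c i)) ?_
    refine (nm_BB_le h hM hM (fun i => hx c i) (fun i => hy c i) i).trans ?_
    exact mul_le_of_le_one_right hM hM1
  smul_mem' c x hx := fun d i => by
    rw [← mul_smul]
    exact hx _ i

theorem mem_szSub {h : FData p act n e a} {M : ℝ} {hM : 0 ≤ M} {hM1 : M ≤ 1} {x : W} :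
    x ∈ szSub k h hM hM1 ↔ ∀ (c : k) (i : Fin n), nm p (uu e (c • x) i) ≤ M := Iff.rfl

/-- **Leading terms.** -/
theorem exists_leading_terms (h : FData p act n e a) (hW0 : ∀ x, InW0 p e x)
    (hact : ∀ (σ : FGQ) (c : k) (x : W), act σ (c • x) = c • act σ x)
    (hirr : ∀ U : Submodule k W, (∀ σ ∈ Dp p, ∀ x ∈ U, act σ x ∈ U) → U = ⊥ ∨ U = ⊤)
    [Nontrivial W] :
    ∃ (ϖ : FQb) (l : k × Fin n → W → Kap p), ϖ ≠ 0 ∧ nm p ϖ ≤ 1 ∧
      (∀ j x y, l j (x + y) = l j x + l j y) ∧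
      (∀ x, (∀ j, l j x = 0) → x = 0) ∧
      ∀ σ ∈ Ip p, ∀ j x, l j (act σ x) = theta ϖ σ * l j x := by
  classical
  -- a nonzero point of minimal size
  have hne : Nonempty (Fin n) := FData_nonempty h
  have hmax : ∀ x : W, ∃ ci : k × Fin n, ∀ dj : k × Fin n,
      nm p (uu e (dj.1 • x) dj.2) ≤ nm p (uu e (ci.1 • x) ci.2) := fun x =>
    Finite.exists_max _
  choose mx hmx using hmax
  let sz : W → ℝ := fun x => nm p (uu e ((mx x).1 • x) (mx x).2)
  obtain ⟨x₁, hx₁⟩ := exists_ne (0 : W)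
  have hne' : Nonempty {x : W // x ≠ 0} := ⟨⟨x₁, hx₁⟩⟩
  obtain ⟨⟨x₀, hx₀⟩, hmin⟩ := Finite.exists_min (fun x : {x : W // x ≠ 0} => sz x.1)
  set ϖ : FQb := uu e ((mx x₀).1 • x₀) (mx x₀).2 with hϖdef
  have hsz0 : sz x₀ = nm p ϖ := rfl
  have hϖ1 : nm p ϖ < 1 := hW0 _ _
  have hϖ0 : ϖ ≠ 0 := by
    intro h0
    apply hx₀
    apply eq_zero_of_uu h
    intro i
    have h1 := hmx x₀ (1, i)
    rw [one_smul] at h1
    rw [← hϖdef, h0, nm_zero] at h1
    exact nm_eq_zero.mp (le_antisymm h1 (nm_nonneg _))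
  have hϖpos : 0 < nm p ϖ := nm_pos.mpr hϖ0
  -- all the points have size at most the minimum
  have htop : szSub k h hϖpos.le hϖ1.le = ⊤ := by
    refine (hirr _ ?_).resolve_left ?_
    · intro σ hσ x hx c i
      rw [← hact, uu_act h, nm_dec hσ]
      exact hx c i
    · intro hbot
      apply hx₀
      have h1 : x₀ ∈ szSub k h hϖpos.le hϖ1.le := fun c i => hmx x₀ (c, i)
      rw [hbot] at h1
      exact h1
  have hle : ∀ (x : W) (c : k) (i : Fin n), nm p (uu e (c • x) i) ≤ nm p ϖ := by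
    intro x
    have h1 : x ∈ szSub k h hϖpos.le hϖ1.le := by rw [htop]; trivial
    exact h1
  have hdiv : ∀ z : FQb, nm p z ≤ nm p ϖ → nm p (z / ϖ) ≤ 1 := by
    intro z hz
    rw [nm_div]
    exact div_le_one_of_le₀ hz (nm_nonneg _)
  refine ⟨ϖ, fun ci x => rs (uu e (ci.1 • x) ci.2 / ϖ), hϖ0, hϖ1.le, ?_, ?_, ?_⟩
  · rintro ⟨c, i⟩ x y
    rw [← rs_add (hdiv _ (hle x c i)) (hdiv _ (hle y c i)), rs_eq_iff (hdiv _ (hle _ c i))
      (nm_add_le_of (hdiv _ (hle x c i)) (hdiv _ (hle y c i))), ← add_div, ← sub_div, nm_div,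
      smul_add, div_lt_one hϖpos]
    refine (nm_uu_add_sub_le h hϖpos.le hϖpos.le (fun i => hle x c i) (fun i => hle y c i)
      i).trans_lt ?_
    exact mul_lt_of_lt_one_left hϖpos hϖ1
  · intro x hx
    by_contra hx0
    have h1 : sz x < nm p ϖ := by
      have h2 := hx (mx x)
      rw [rs_eq_zero_iff (hdiv _ (hle _ _ _)), nm_div, div_lt_one hϖpos] at h2
      exact h2
    have h2 := hmin ⟨x, hx0⟩
    exact absurd h1 (not_lt.mpr h2)
  · rintro σ hσ ⟨c, i⟩ x
    show rs (uu e (c • act σ x) i / ϖ) = theta ϖ σ * rs (uu e (c • x) i / ϖ)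
    have h1 : uu e (c • act σ x) i / ϖ = (σ ϖ / ϖ) * σ (uu e (c • x) i / ϖ) := by
      rw [← hact, uu_act h, map_div₀]
      have : σ ϖ ≠ 0 := (map_ne_zero σ).mpr hϖ0
      field_simp
    rw [h1, rs_mul (nm_dec_div (Ip_le_Dp hσ) hϖ0).le, rs_inertia hσ (hdiv _ (hle x c i)), theta]
    rw [nm_dec (Ip_le_Dp hσ)]
    exact hdiv _ (hle x c i)

end Fermat.Agent.H56
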