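import Fermat.Agent.H56FC2b
import Fermat.Agent.H28FrobGen

/-!
# S56-[F], case II : the image of inertia
-/

set_option autoImplicit false
set_option maxSynthPendingDepth 3

noncomputable section

open Fermat.Agent.H53

namespace Fermat.Agent.H56

open Fermat.Agent.H64 Fermat.Agent.H29

variable {p : ℕ} [Fact p.Prime] {k : Type} [Field k] [Algebra (ZMod p) k] [Finite k]

/-- the decomposition group is generated by inertia and Frobenius at finite level -/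
theorem exists_frob_mul_inertia {r : FGQ →* M2 k} (hr : FinLev r) {σ : FGQ} (hσ : σ ∈ Dp p) :
    ∃ n : ℕ, ∃ τ ∈ Ip p, r σ = r (frob p) ^ n * r τ := by
  obtain ⟨U, hU, hU1⟩ := hr
  have hfrob : (padicPlace p).IsFrobeniusAt (frob p) p :=
    (H63.isFrobeniusAt_iff _ _ _).mpr ⟨frob_mem, fun x hx =>
      mem_nonunits_iff_nm.mpr (nm_frob hx)⟩
  obtain ⟨n, τ, hτ, u, hu, rfl⟩ := H28.exists_frobenius_mul (Fact.out : p.Prime)
    (H54.liesOverPrime_padicPlace p) hfrob (σ := σ) hσ hU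
  refine ⟨n, τ, hτ, ?_⟩
  rw [map_mul, map_mul, map_pow, hU1 u hu, mul_one]

theorem conj_mem_Ip {σ τ : FGQ} (hσ : σ ∈ Dp p) (hτ : τ ∈ Ip p) : σ * τ * σ⁻¹ ∈ Ip p := by
  rw [mem_Ip_iff]
  refine ⟨mul_mem (mul_mem hσ (Ip_le_Dp hτ)) (inv_mem hσ), fun x hx => ?_⟩
  have h1 : (σ * τ * σ⁻¹) x - x = σ (τ (σ⁻¹ x) - σ⁻¹ x) := by
    rw [map_sub, AlgEquiv.mul_apply, AlgEquiv.mul_apply]
    congr 1
    rw [← AlgEquiv.mul_apply, mul_inv_cancel]
    rfl
  rw [h1, nm_dec hσ]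
  exact nm_inertia hτ (by rwa [nm_dec (inv_mem hσ)])

section LT

variable {r : FGQ →* M2 k} {ι : Type*} {ϖ : FQb} {l : ι → (Fin 2 → k) → Kap p}
  (hϖ : ϖ ≠ 0) (hadd : ∀ j x y, l j (x + y) = l j x + l j y)
  (hinj : ∀ x, (∀ j, l j x = 0) → x = 0)
  (hI : ∀ σ ∈ Ip p, ∀ j x, l j ((r σ).mulVec x) = theta ϖ σ * l j x)

include hadd hinj hI in
theorem r_eq_of_theta_eq {σ τ : FGQ} (hσ : σ ∈ Ip p) (hτ : τ ∈ Ip p)
    (h : theta (p := p) ϖ σ = theta ϖ τ) : r σ = r τ := by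
  have hsub : ∀ j x y, l j (x - y) = l j x - l j y := by
    intro j x y
    have := hadd j (x - y) y
    rw [sub_add_cancel] at this
    rw [this, add_sub_cancel_right]
  rw [← sub_eq_zero]
  apply Matrix.ext_of_mulVec_single
  intro i
  rw [Matrix.zero_mulVec]
  apply hinj
  intro j
  rw [Matrix.sub_mulVec, hsub, hI σ hσ, hI τ hτ, h, sub_self]

include hinj hI in
theorem theta_eq_of_r_eq [Nonempty ι] {σ τ : FGQ} (hσ : σ ∈ Ip p) (hτ : τ ∈ Ip p)
    (h : r σ = r τ) : theta (p := p) ϖ σ = theta ϖ τ := by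
  have hne : ∃ x : Fin 2 → k, ∃ j, l j x ≠ 0 := by
    by_contra hcon
    push Not at hcon
    have h1 := hinj (Pi.single 0 1) (hcon _)
    have h2 := congrFun h1 0
    simp at h2
  obtain ⟨x, j, hxj⟩ := hne
  have h1 := hI σ hσ j x
  rw [h, hI τ hτ] at h1
  exact (mul_right_cancel₀ hxj h1).symm

include hϖ hadd hinj hI in
theorem r_frob_conj {σ : FGQ} (hσ : σ ∈ Ip p) :
    r (frob p * σ * (frob p)⁻¹) = r σ ^ p := by
  rw [← map_pow]
  apply r_eq_of_theta_eq hadd hinj hI (conj_mem_Ip frob_mem hσ) (pow_mem hσ p)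
  rw [theta_frob hσ hϖ]
  have : ∀ m : ℕ, theta (p := p) ϖ (σ ^ m) = theta ϖ σ ^ m := by
    intro m
    induction m with
    | zero => rw [pow_zero, pow_zero, theta_fixed _ hϖ rfl]
    | succ m ih => rw [pow_succ, theta_mul (pow_mem hσ m) (Ip_le_Dp hσ) hϖ, ih, pow_succ]
  exact (this p).symm

include hϖ hadd hinj hI in
/-- the image of inertia is cyclic, generated by an element of order prime to `p` -/
theorem exists_gen [Nonempty ι] : ∃ σ₀ ∈ Ip p, (∀ σ ∈ Ip p, ∃ i : ℕ, r σ = r σ₀ ^ i) ∧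
    ∃ m : ℕ, 0 < m ∧ m.Coprime p ∧ r σ₀ ^ m = 1 := by
  classical
  let Θ : Ip p →* (Kap p)ˣ :=
    { toFun := fun σ => Units.mk0 (theta ϖ (σ : FGQ)) (theta_ne_zero (Ip_le_Dp σ.2) hϖ)
      map_one' := by
        ext
        exact theta_fixed _ hϖ rfl
      map_mul' := fun σ τ => by
        ext
        exact theta_mul σ.2 (Ip_le_Dp τ.2) hϖ }
  have hΘ : ∀ σ : Ip p, ((Θ σ : (Kap p)ˣ) : Kap p) = theta ϖ (σ : FGQ) := fun σ => rfl
  have hfin : Finite Θ.range := by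
    refine Finite.of_injective (β := M2 k) (fun u => r ((u.2.choose : Ip p) : FGQ)) ?_
    intro u v huv
    have h1 := theta_eq_of_r_eq (p := p) hinj hI (u.2.choose).2 (v.2.choose).2 huv
    rw [← hΘ, ← hΘ, u.2.choose_spec, v.2.choose_spec] at h1
    exact Subtype.ext (Units.ext h1)
  obtain ⟨⟨u, hu⟩, hgen⟩ := IsCyclic.exists_generator (α := Θ.range)
  obtain ⟨⟨σ₀, hσ₀⟩, hu'⟩ := hu
  have hfo : IsOfFinOrder (⟨u, ⟨σ₀, hσ₀⟩, hu'⟩ : Θ.range) := isOfFinOrder_of_finite _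
  have hfo' : IsOfFinOrder u := by
    rw [isOfFinOrder_iff_pow_eq_one] at hfo ⊢
    obtain ⟨m, hm, hm'⟩ := hfo
    exact ⟨m, hm, congrArg Subtype.val hm'⟩
  have hpowΘ : ∀ i : ℕ, theta (p := p) ϖ (σ₀ ^ i) = ((u ^ i : (Kap p)ˣ) : Kap p) := by
    intro i
    have h1 := hΘ ((⟨σ₀, hσ₀⟩ : Ip p) ^ i)
    rw [map_pow, hu'] at h1
    exact h1.symm
  refine ⟨σ₀, hσ₀, fun σ hσ => ?_, orderOf u, hfo'.orderOf_pos, ?_, ?_⟩
  · have h1 := hgen ⟨Θ ⟨σ, hσ⟩, ⟨_, rfl⟩⟩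
    rw [← hfo.mem_powers_iff_mem_zpowers] at h1
    obtain ⟨i, hi⟩ := h1
    have hi' : u ^ i = Θ ⟨σ, hσ⟩ := congrArg Subtype.val hi
    refine ⟨i, ?_⟩
    rw [← map_pow]
    apply r_eq_of_theta_eq hadd hinj hI hσ (pow_mem hσ₀ i)
    rw [hpowΘ, hi']
    rfl
  · rw [Nat.coprime_comm, Nat.Prime.coprime_iff_not_dvd Fact.out]
    rintro ⟨m, hm⟩
    have hmpos : 0 < m := by
      have := hfo'.orderOf_pos
      rw [hm] at this
      exact Nat.pos_of_mul_pos_left this |> fun h => by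
        rcases Nat.eq_zero_or_pos m with h0 | h0
        · rw [h0, mul_zero] at this; exact absurd this (lt_irrefl _)
        · exact h0
    have h1 : (u ^ m) ^ p = 1 := by rw [← pow_mul, mul_comm, ← hm, pow_orderOf_eq_one]
    have h2 : u ^ m = 1 := by
      ext
      apply pow_p_injective (p := p)
      have := congrArg Units.val h1
      simpa using this
    have h3 := orderOf_dvd_of_pow_eq_one h2
    have h4 := Nat.le_of_dvd hmpos h3
    rw [hm] at h4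
    have := (Fact.out : p.Prime).two_le
    nlinarith
  · rw [← map_pow, ← map_one r]
    apply r_eq_of_theta_eq hadd hinj hI (pow_mem hσ₀ _) (one_mem _)
    rw [hpowΘ, pow_orderOf_eq_one, theta_fixed _ hϖ rfl]
    rfl

end LT

end Fermat.Agent.H56
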