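import Fermat.Agent.H56FC2e
import Fermat.Agent.H28LocUT

/-!
# S56-[F], case II : cocycles vanishing on `Tm`
-/

set_option autoImplicit false
set_option maxSynthPendingDepth 3

noncomputable section

open Fermat.Agent.H53 Fermat.Agent.H55 Fermat.Agent.H28 ExtCitation

namespace Fermat.Agent.H56

open Fermat.Agent.H64

variable {p : ℕ} [Fact p.Prime] {k : Type} [Field k] [Algebra (ZMod p) k] [Finite k]

/-- coordinates in the basis `u` -/
def co (u : (M2 k)ˣ) (Y : M2 k) : M2 k := (↑u⁻¹ : M2 k) * Y * u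

section Co

omit [Algebra (ZMod p) k] [Finite k]

theorem co_add (u : (M2 k)ˣ) (X Y : M2 k) : co u (X + Y) = co u X + co u Y := by
  simp [co, mul_add, add_mul]

theorem co_sub (u : (M2 k)ˣ) (X Y : M2 k) : co u (X - Y) = co u X - co u Y := by
  simp [co, mul_sub, sub_mul]

@[simp] theorem co_zero (u : (M2 k)ˣ) : co u (0 : M2 k) = 0 := by simp [co]

theorem co_inj (u : (M2 k)ˣ) {X Y : M2 k} (h : co u X = co u Y) : X = Y := by
  have h1 : (u : M2 k) * co u X * (↑u⁻¹ : M2 k) = u * co u Y * (↑u⁻¹ : M2 k) := by rw [h]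
  simpa [co, mul_assoc] using h1

theorem co_eq (u : (M2 k)ˣ) (X : M2 k) : co u ((u : M2 k) * X * (↑u⁻¹ : M2 k)) = X := by
  simp [co, mul_assoc]

theorem trace_co (u : (M2 k)ˣ) (X : M2 k) : (co u X).trace = X.trace := by
  rw [co, Matrix.trace_mul_comm, ← mul_assoc, Units.mul_inv, one_mul]

theorem trace_uco (u : (M2 k)ˣ) (X : M2 k) : ((u : M2 k) * X * (↑u⁻¹ : M2 k)).trace = X.trace := by
  rw [Matrix.trace_mul_comm, ← mul_assoc, Units.inv_mul, one_mul]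

theorem co_conj {G : Type} [Group G] (r : G →* M2 k) (u : (M2 k)ˣ) {σ : G} {D D' : M2 k}
    (h : r σ * u = u * D) (hD : D * D' = 1) (Y : M2 k) :
    co u (r σ * Y * r σ⁻¹) = D * co u Y * D' := by
  have h1 : r σ = u * D * (↑u⁻¹ : M2 k) := by
    rw [← h, mul_assoc, Units.mul_inv, mul_one]
  have h2 : r σ * (u * D' * (↑u⁻¹ : M2 k)) = 1 := by
    rw [h1]
    calc (u * D * (↑u⁻¹ : M2 k)) * (u * D' * (↑u⁻¹ : M2 k))
        = u * D * ((↑u⁻¹ : M2 k) * u) * D' * (↑u⁻¹ : M2 k) := by simp only [mul_assoc]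
      _ = u * (D * D') * (↑u⁻¹ : M2 k) := by rw [Units.inv_mul, mul_one, mul_assoc (u : M2 k)]
      _ = 1 := by rw [hD, mul_one, Units.mul_inv]
  have h3 : r σ⁻¹ = u * D' * (↑u⁻¹ : M2 k) := by
    have h4 : r σ⁻¹ * r σ = 1 := by rw [← map_mul, inv_mul_cancel, map_one]
    calc r σ⁻¹ = r σ⁻¹ * (r σ * (u * D' * (↑u⁻¹ : M2 k))) := by rw [h2, mul_one]
      _ = (r σ⁻¹ * r σ) * (u * D' * (↑u⁻¹ : M2 k)) := (mul_assoc _ _ _).symm
      _ = _ := by rw [h4, one_mul]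
  rw [h3, h1, co, co]
  calc (↑u⁻¹ : M2 k) * (u * D * (↑u⁻¹ : M2 k) * Y * (u * D' * (↑u⁻¹ : M2 k))) * u
      = ((↑u⁻¹ : M2 k) * u) * D * ((↑u⁻¹ : M2 k) * Y * u) * D' * ((↑u⁻¹ : M2 k) * u) := by
        simp only [mul_assoc]
    _ = _ := by rw [Units.inv_mul, one_mul, mul_one]

theorem co_conj_diag {G : Type} [Group G] (r : G →* M2 k) (u : (M2 k)ˣ) {σ : G} {x y : k}
    (hx : x ≠ 0) (hy : y ≠ 0) (h : r σ * u = u * !![x, 0; 0, y]) (Y : M2 k) :
    co u (r σ * Y * r σ⁻¹) =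
      !![co u Y 0 0, x * y⁻¹ * co u Y 0 1; y * x⁻¹ * co u Y 1 0, co u Y 1 1] := by
  rw [co_conj r u h (D' := !![x⁻¹, 0; 0, y⁻¹])]
  · ext i j
    fin_cases i <;> fin_cases j <;>
      simp [Matrix.mul_apply, Matrix.vecMul, dotProduct, Fin.sum_univ_two] <;> field_simp
  · ext i j
    fin_cases i <;> fin_cases j <;> simp [Matrix.mul_apply, Fin.sum_univ_two, hx, hy]

theorem co_conj_anti {G : Type} [Group G] (r : G →* M2 k) (u : (M2 k)ˣ) {σ : G} {b : k}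
    (hb : b ≠ 0) (h : r σ * u = u * !![0, b; 1, 0]) (Y : M2 k) :
    co u (r σ * Y * r σ⁻¹) =
      !![co u Y 1 1, b * co u Y 1 0; b⁻¹ * co u Y 0 1, co u Y 0 0] := by
  rw [co_conj r u h (D' := !![0, 1; b⁻¹, 0])]
  · ext i j
    fin_cases i <;> fin_cases j <;>
      simp [Matrix.mul_apply, Matrix.vecMul, dotProduct, Fin.sum_univ_two, hb] <;> field_simp
  · ext i j
    fin_cases i <;> fin_cases j <;> simp [Matrix.mul_apply, Fin.sum_univ_two, hb]

end Co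

theorem mem_Dq_of_Ip {σ : FGQ} (h : σ ∈ Ip p) : σ ∈ Dq (pPrime p) := (Ip_le_Dp h : σ ∈ Dp p)

theorem mem_Dq_of_Tm {π : FQb} {σ : FGQ} (h : σ ∈ Tm p π) : σ ∈ Dq (pPrime p) :=
  mem_Dq_of_Ip (Tm_le_Ip h)

theorem frob_isFrobeniusAt : (padicPlace p).IsFrobeniusAt (frob p) p :=
  (H63.isFrobeniusAt_iff _ _ _).mpr ⟨frob_mem, fun x hx => mem_nonunits_iff_nm.mpr (nm_frob hx)⟩

/-- **Cocycles vanishing on `Tm` are coboundaries.** -/
theorem mem_B1_of_Tm (hp2 : p ≠ 2) {r : FGQ →* M2 k} (hr : FinLev r)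
    {π : FQb} (hπ : π ^ (p ^ 2 - 1) = -(p : FQb)) {t : FGQ} (ht : t ∈ Ip p) {ζ : FQb}
    (hζ : IsPrimitiveRoot ζ (p ^ 2 - 1)) (htπ : t π = ζ * π)
    (hTm : ∀ σ ∈ Tm p π, r σ = 1) {u : (M2 k)ˣ} {g b : k}
    (htu : r t * u = u * !![g, 0; 0, g ^ p]) (hφu : r (frob p) * u = u * !![0, b; 1, 0])
    (hg : g ≠ g ^ p) (hgp : (g ^ p) ^ p = g) (hg0 : g ≠ 0) (hb : b ≠ 0)
    {c : Dq (pPrime p) → SL p k} (hc : c ∈ Z1 (Dlev (pPrime p)) (rhoD (ad p r) (pPrime p)))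
    (hcT : ∀ σ ∈ Tm p π, extD c σ = 0) : c ∈ B1 (rhoD (ad p r) (pPrime p)) := by
  have hp : p.Prime := Fact.out
  have hp3 : 2 < p := lt_of_le_of_ne hp.two_le (Ne.symm hp2)
  have hsq : 2 ^ 2 ≤ p ^ 2 := Nat.pow_le_pow_left hp.two_le 2
  have he : 0 < p ^ 2 - 1 := by omega
  have hchar : CharP k p := charP_of_injective_algebraMap (algebraMap (ZMod p) k).injective p
  have hep : (p ^ 2 - 1).Coprime p := by
    rw [Nat.coprime_comm, Nat.Prime.coprime_iff_not_dvd hp]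
    intro hd
    have h1 : p ∣ p ^ 2 := dvd_pow_self p two_ne_zero
    have h2 : p ∣ 1 := by
      have h3 := (Nat.dvd_sub h1 hd)
      rwa [Nat.sub_sub_self (by omega)] at h3
    exact hp.one_lt.ne' (Nat.dvd_one.mp h2)
  have hek : ((p ^ 2 - 1 : ℕ) : k) ≠ 0 := by
    rw [Ne, CharP.cast_eq_zero_iff k p]
    exact (Nat.Prime.coprime_iff_not_dvd hp).mp hep.symm
  have h2k : (2 : k) ≠ 0 := by
    have : ((2 : ℕ) : k) ≠ 0 := by
      rw [Ne, CharP.cast_eq_zero_iff k p]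
      intro hd
      exact absurd (Nat.le_of_dvd two_pos hd) (by omega)
    exact_mod_cast this
  have hgp0 : g ^ p ≠ 0 := pow_ne_zero _ hg0
  have hx1 : g * (g ^ p)⁻¹ ≠ 1 := by
    rw [Ne, mul_inv_eq_one₀ hgp0]
    exact hg
  have hx2 : g ^ p * g⁻¹ ≠ 1 := by
    rw [Ne, mul_inv_eq_one₀ hg0]
    exact hg.symm
  have htD : t ∈ Dq (pPrime p) := mem_Dq_of_Ip ht
  have hadt : ∀ Y : SL p k, co u (ad p r t Y : M2 k) =
      !![co u Y 0 0, g * (g ^ p)⁻¹ * co u Y 0 1; g ^ p * g⁻¹ * co u Y 1 0, co u Y 1 1] :=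
    fun Y => co_conj_diag r u hg0 hgp0 htu _
  have hadφ : ∀ Y : SL p k, co u (ad p r (frob p) Y : M2 k) =
      !![co u Y 1 1, b * co u Y 1 0; b⁻¹ * co u Y 0 1, co u Y 0 0] :=
    fun Y => co_conj_anti r u hb hφu _
  -- Step 1
  have hpow : ∀ n : ℕ, co u (extD c (t ^ n) : SL p k) 0 0 = n * co u (extD c t : SL p k) 0 0 := by
    intro n
    induction n with
    | zero => rw [pow_zero, extD_one hc]; simp
    | succ n ih =>
      rw [pow_succ', extD_mul hc htD (pow_mem htD n)]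
      show co u (((ad p r t (extD c (t ^ n)) : SL p k) : M2 k) + ((extD c t : SL p k) : M2 k)) 0 0 = _
      rw [co_add, hadt, Matrix.add_apply]
      simp [ih]
      ring
  have h00 : co u (extD c t : SL p k) 0 0 = 0 := by
    have h1 := hpow (p ^ 2 - 1)
    rw [hcT _ (pow_e_mem_Tm he hep ht hζ htπ)] at h1
    simp only [ZeroMemClass.coe_zero, co_zero, Matrix.zero_apply] at h1
    exact (mul_eq_zero.mp h1.symm).resolve_left hek
  have h11 : co u (extD c t : SL p k) 1 1 = 0 := by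
    have h1 : (co u ((extD c t : SL p k) : M2 k)).trace = 0 := by
      rw [trace_co]
      exact (extD c t).2
    rw [Matrix.trace_fin_two, h00, zero_add] at h1
    exact h1
  -- Step 2
  set X' : M2 k := !![0, co u (extD c t : SL p k) 0 1 / (g * (g ^ p)⁻¹ - 1);
    co u (extD c t : SL p k) 1 0 / (g ^ p * g⁻¹ - 1), 0] with hX'
  set X : SL p k := ⟨u * X' * (↑u⁻¹ : M2 k), by
    rw [mem_SL, trace_uco, hX', Matrix.trace_fin_two]; simp⟩ with hX
  have hcoX : co u (X : M2 k) = X' := co_eq u X'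
  have hBX : d0 (rhoD (ad p r) (pPrime p)) X ∈ B1 (rhoD (ad p r) (pPrime p)) := ⟨X, rfl⟩
  set c₁ := c - d0 (rhoD (ad p r) (pPrime p)) X with hc₁
  have hc₁Z : c₁ ∈ Z1 (Dlev (pPrime p)) (rhoD (ad p r) (pPrime p)) :=
    sub_mem hc (B1_le_Z1 hr _ hBX)
  have hext : ∀ (X : SL p k) (c : Dq (pPrime p) → SL p k) (σ : FGQ), σ ∈ Dq (pPrime p) →
      extD (c - d0 (rhoD (ad p r) (pPrime p)) X) σ = extD c σ - (ad p r σ X - X) := by
    intro X c σ hσ
    rw [extD_of_mem _ hσ, extD_of_mem _ hσ]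
    rfl
  have hadT : ∀ σ ∈ Tm p π, ∀ Y : SL p k, ad p r σ Y = Y := by
    intro σ hσ Y
    ext1
    rw [coe_ad, hTm σ hσ, hTm σ⁻¹ (inv_mem hσ), one_mul, mul_one]
  have hc₁T : ∀ σ ∈ Tm p π, extD c₁ σ = 0 := by
    intro σ hσ
    rw [hc₁, hext X c σ (mem_Dq_of_Tm hσ), hcT σ hσ, hadT σ hσ, sub_self, sub_zero]
  have hc₁t : extD c₁ t = 0 := by
    rw [hc₁, hext X c t htD]
    apply Subtype.ext
    apply co_inj u
    show co u (((extD c t : SL p k) : M2 k) - (((ad p r t X : SL p k) : M2 k) - (X : M2 k))) = co u 0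
    rw [co_sub, co_sub, hadt, hcoX, co_zero]
    ext i j
    fin_cases i <;> fin_cases j
    · simp [h00, hX']
    · have : g * (g ^ p)⁻¹ - 1 ≠ 0 := sub_ne_zero.mpr hx1
      simp only [hX', Matrix.sub_apply, Matrix.of_apply, Matrix.cons_val', Matrix.cons_val_zero,
        Matrix.cons_val_one, Matrix.zero_apply, Fin.mk_one, Fin.zero_eta]
      field_simp
      ring
    · have : g ^ p * g⁻¹ - 1 ≠ 0 := sub_ne_zero.mpr hx2
      simp only [hX', Matrix.sub_apply, Matrix.of_apply, Matrix.cons_val', Matrix.cons_val_zero,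
        Matrix.cons_val_one, Matrix.zero_apply, Fin.mk_one, Fin.zero_eta]
      field_simp
      ring
    · simp [h11, hX']
  -- Step 3
  have hc₁tn : ∀ n : ℕ, extD c₁ (t ^ n) = 0 := by
    intro n
    induction n with
    | zero => rw [pow_zero, extD_one hc₁Z]
    | succ n ih => rw [pow_succ', extD_mul hc₁Z htD (pow_mem htD n), ih, hc₁t, map_zero, zero_add]
  have hc₁I : ∀ σ ∈ Ip p, extD c₁ σ = 0 := by
    intro σ hσ
    obtain ⟨n, -, τ, hτ, rfl⟩ := exists_pow_mul_Tm he hep hπ ht hζ htπ hσ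
    rw [extD_mul hc₁Z (pow_mem htD n) (mem_Dq_of_Tm hτ), hc₁T τ hτ, hc₁tn, map_zero,
      zero_add]
  -- Step 4
  have hφD : frob p ∈ Dq (pPrime p) := (frob_mem : frob p ∈ Dp p)
  have hφinv : ad p r t (extD c₁ (frob p)) = extD c₁ (frob p) := by
    have h1 : (frob p)⁻¹ * t * frob p ∈ Ip p := by
      have := conj_mem_Ip (inv_mem (frob_mem (p := p))) ht
      rwa [inv_inv] at this
    have h2 : extD c₁ (frob p * ((frob p)⁻¹ * t * frob p)) = extD c₁ (frob p) := by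
      rw [extD_mul hc₁Z hφD (mem_Dq_of_Ip h1), hc₁I _ h1, map_zero, zero_add]
    have h3 : frob p * ((frob p)⁻¹ * t * frob p) = t * frob p := by group
    rw [h3, extD_mul hc₁Z htD hφD, hc₁t, add_zero] at h2
    exact h2
  set Z := co u ((extD c₁ (frob p) : SL p k) : M2 k) with hZ
  have hZ' := hadt (extD c₁ (frob p))
  rw [hφinv, ← hZ] at hZ'
  have hZ01 : Z 0 1 = 0 := by
    have h1 := congrFun (congrFun hZ' 0) 1
    simp only [Matrix.of_apply, Matrix.cons_val', Matrix.cons_val_zero, Matrix.cons_val_one] at h1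
    by_contra h2
    apply hx1
    have h3 : 1 * Z 0 1 = g * (g ^ p)⁻¹ * Z 0 1 := by rw [one_mul]; exact h1
    exact (mul_right_cancel₀ h2 h3).symm
  have hZ10 : Z 1 0 = 0 := by
    have h1 := congrFun (congrFun hZ' 1) 0
    simp only [Matrix.of_apply, Matrix.cons_val', Matrix.cons_val_zero, Matrix.cons_val_one] at h1
    by_contra h2
    apply hx2
    have h3 : 1 * Z 1 0 = g ^ p * g⁻¹ * Z 1 0 := by rw [one_mul]; exact h1
    exact (mul_right_cancel₀ h2 h3).symm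
  have hZtr : Z 1 1 = - Z 0 0 := by
    have h1 : Z.trace = 0 := by
      rw [hZ, trace_co]
      exact (extD c₁ (frob p)).2
    rw [Matrix.trace_fin_two] at h1
    exact eq_neg_of_add_eq_zero_right h1
  -- Step 5
  set X2' : M2 k := !![-(Z 0 0) / 2, 0; 0, Z 0 0 / 2] with hX2'
  set X2 : SL p k := ⟨u * X2' * (↑u⁻¹ : M2 k), by
    rw [mem_SL, trace_uco, hX2', Matrix.trace_fin_two]; simp; ring⟩ with hX2
  have hcoX2 : co u (X2 : M2 k) = X2' := co_eq u X2'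
  have hBX2 : d0 (rhoD (ad p r) (pPrime p)) X2 ∈ B1 (rhoD (ad p r) (pPrime p)) := ⟨X2, rfl⟩
  set c₂ := c₁ - d0 (rhoD (ad p r) (pPrime p)) X2 with hc₂
  have hc₂Z : c₂ ∈ Z1 (Dlev (pPrime p)) (rhoD (ad p r) (pPrime p)) :=
    sub_mem hc₁Z (B1_le_Z1 hr _ hBX2)
  have htX2 : ad p r t X2 = X2 := by
    apply Subtype.ext
    apply co_inj u
    rw [hadt, hcoX2]
    ext i j
    fin_cases i <;> fin_cases j <;> simp [hX2']
  have htnX2 : ∀ n : ℕ, ad p r (t ^ n) X2 = X2 := by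
    intro n
    induction n with
    | zero => simp
    | succ n ih => rw [pow_succ', map_mul, Module.End.mul_apply, ih, htX2]
  have hc₂I : ∀ σ ∈ Iq (pPrime p), extD c₂ σ = 0 := by
    intro σ hσ
    have hσ' : σ ∈ Ip p := hσ
    rw [hc₂, hext X2 c₁ σ (mem_Dq_of_Ip hσ'), hc₁I σ hσ']
    obtain ⟨n, -, τ, hτ, rfl⟩ := exists_pow_mul_Tm he hep hπ ht hζ htπ hσ'
    rw [map_mul, Module.End.mul_apply, hadT τ hτ, htnX2, sub_self, sub_zero]
  have hc₂φ : extD c₂ (frob p) = 0 := by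
    rw [hc₂, hext X2 c₁ _ hφD]
    apply Subtype.ext
    apply co_inj u
    show co u (((extD c₁ (frob p) : SL p k) : M2 k) - (((ad p r (frob p) X2 : SL p k) : M2 k) - (X2 : M2 k))) = co u 0
    rw [co_sub, co_sub, hadφ, hcoX2, co_zero, ← hZ]
    ext i j
    fin_cases i <;> fin_cases j
    · simp [hX2']; field_simp; ring
    · simp [hX2', hZ01]
    · simp [hX2', hZ10]
    · simp [hX2', hZtr]; field_simp; ring
  have h0 : c₂ = 0 := eq_zero_of_frobenius (q := pPrime p) hc₂Z (frob_isFrobeniusAt (p := p)) hc₂I hc₂φ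
  have hfin : c = d0 (rhoD (ad p r) (pPrime p)) X + d0 (rhoD (ad p r) (pPrime p)) X2 := by
    have h1 : c₁ = d0 (rhoD (ad p r) (pPrime p)) X2 := sub_eq_zero.mp h0
    rw [hc₁, sub_eq_iff_eq_add] at h1
    rw [h1, add_comm]
  rw [hfin]
  exact add_mem hBX hBX2

end Fermat.Agent.H56
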