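import Fermat.Agent.H56FC5a
import Fermat.Agent.H61S56S
import Fermat.Agent.H64FK2
import Fermat.Agent.H64FK4

/-!
# S56-[F], case II : from flat lifts to unit Kummer homomorphisms
-/

set_option autoImplicit false
set_option maxSynthPendingDepth 3

noncomputable section

open Fermat.Agent.H53 Fermat.Agent.H55 Fermat.Agent.H28 ExtCitation

namespace Fermat.Agent.H56

open Fermat.Agent.H64

variable {p : ℕ} [Fact p.Prime] {k : Type} [Field k] [Algebra (ZMod p) k] [Finite k]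

variable (p) in
/-- homomorphisms `Tm → k` all of whose Kummer classes are units congruent to one modulo `p` -/
def KumX (π : FQb) (x : FGQ → k) : Prop :=
  (∀ σ ∈ Tm p π, ∀ τ ∈ Tm p π, x (σ * τ) = x σ + x τ) ∧
  ∀ ψ : AddChar k FQb, ∃ α : FQb, nm p (α ^ p - 1) ≤ nm p (p : FQb) ∧
    ∀ σ ∈ Tm p π, σ α = ψ (x σ) * α

section KumX

omit [Algebra (ZMod p) k] [Finite k]

theorem KumX.congr {π : FQb} {x y : FGQ → k} (hx : KumX p π x)
    (h : ∀ σ ∈ Tm p π, x σ = y σ) : KumX p π y := by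
  refine ⟨fun σ hσ τ hτ => ?_, fun ψ => ?_⟩
  · rw [← h _ (mul_mem hσ hτ), ← h σ hσ, ← h τ hτ, hx.1 σ hσ τ hτ]
  · obtain ⟨α, hα, hα'⟩ := hx.2 ψ
    exact ⟨α, hα, fun σ hσ => by rw [← h σ hσ, hα' σ hσ]⟩

theorem KumX.zero {π : FQb} : KumX p π (fun _ => (0 : k)) := by
  refine ⟨fun σ _ τ _ => by simp, fun ψ => ⟨1, ?_, fun σ _ => by simp⟩⟩
  rw [one_pow, sub_self, nm_zero]
  exact nm_nonneg _

theorem nm_eq_one_of_pow {α : FQb} (h : nm p (α ^ p - 1) ≤ nm p (p : FQb)) : nm p α = 1 := by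
  have h1 : nm p (α ^ p) = nm p 1 := by
    apply nm_eq_of_sub_lt
    rw [nm_one]
    exact h.trans_lt (nm_p_lt_one p)
  rw [nm_one, nm_pow] at h1
  exact (pow_eq_one_iff_of_nonneg (nm_nonneg _) (Fact.out : p.Prime).ne_zero).mp h1

theorem KumX.add {π : FQb} {x y : FGQ → k} (hx : KumX p π x) (hy : KumX p π y) :
    KumX p π (fun σ => x σ + y σ) := by
  refine ⟨fun σ hσ τ hτ => ?_, fun ψ => ?_⟩
  · beta_reduce
    rw [hx.1 σ hσ τ hτ, hy.1 σ hσ τ hτ]
    abel
  · obtain ⟨α, hα, hα'⟩ := hx.2 ψ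
    obtain ⟨β, hβ, hβ'⟩ := hy.2 ψ
    refine ⟨α * β, ?_, fun σ hσ => ?_⟩
    · have h1 : (α * β) ^ p - 1 = (α ^ p - 1) * β ^ p + (β ^ p - 1) := by ring
      rw [h1]
      refine nm_add_le_of ?_ hβ
      rw [nm_mul, nm_pow (p := p) β, nm_eq_one_of_pow hβ, one_pow, mul_one]
      exact hα
    · rw [map_mul, hα' σ hσ, hβ' σ hσ, ψ.map_add_eq_mul]
      ring

theorem KumX.neg {π : FQb} {x : FGQ → k} (hx : KumX p π x) :
    KumX p π (fun σ => -x σ) := by
  refine ⟨fun σ hσ τ hτ => ?_, fun ψ => ?_⟩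
  · beta_reduce
    rw [hx.1 σ hσ τ hτ]
    abel
  · obtain ⟨α, hα, hα'⟩ := hx.2 ψ
    have hα1 := nm_eq_one_of_pow hα
    have hα0 : α ≠ 0 := by
      rintro rfl
      rw [nm_zero] at hα1
      exact zero_ne_one hα1
    refine ⟨α⁻¹, ?_, fun σ hσ => ?_⟩
    · have h1 : α⁻¹ ^ p - 1 = -(α ^ p - 1) / α ^ p := by
        rw [inv_pow, eq_div_iff (pow_ne_zero p hα0), sub_mul, inv_mul_cancel₀ (pow_ne_zero p hα0)]
        ring
      rw [h1, nm_div, nm_neg, nm_pow (p := p) α, hα1, one_pow, div_one]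
      exact hα
    · have h2 : ψ (x σ) ≠ 0 := by
        intro h0
        have h3 := hα' σ hσ
        rw [h0, zero_mul, map_eq_zero] at h3
        exact hα0 h3
      have h4 : ψ (-x σ) * ψ (x σ) = 1 := by
        rw [← ψ.map_add_eq_mul, neg_add_cancel, ψ.map_zero_eq_one]
      rw [map_inv₀, hα' σ hσ, mul_inv, eq_inv_of_mul_eq_one_left h4]

end KumX

/-- elements of `Tm` fix the `p`-th roots of unity -/
theorem Tm_fix_zeta {π : FQb} (hπ : π ^ (p ^ 2 - 1) = -(p : FQb)) {σ : FGQ} (hσ : σ ∈ Tm p π)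
    {ζ : FQb} (hζ : ζ ^ p = 1) : σ ζ = ζ := by
  have hp : p.Prime := Fact.out
  have : NeZero p := ⟨hp.ne_zero⟩
  have hsq : 2 ^ 2 ≤ p ^ 2 := Nat.pow_le_pow_left hp.two_le 2
  have he : 0 < p ^ 2 - 1 := by omega
  have hπ0 := pi_ne_zero he hπ
  have h1 := cyclo_eq_theta he hπ (Tm_le_Ip hσ)
  rw [theta_fixed σ hπ0 (mem_Tm.mp hσ).2, one_pow] at h1
  have h2 : (cycloChar p σ : ZMod p).val ≡ 1 [MOD p] := by
    rw [← Nat.cast_one] at h1
    exact (CharP.natCast_eq_natCast (Kap p) p).mp h1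
  rw [H63.apply_of_pow_eq_one p σ hζ]
  have h3 := pow_eq_pow_of_modEq h2 hζ
  rw [h3, pow_one]

instance finite_dualNumber : Finite (DualNumber k) := inferInstanceAs (Finite (k × k))

omit [Algebra (ZMod p) k] [Finite k] in
theorem snd_mulVec (A : M2 (DualNumber k)) (v : Fin 2 → k) :
    (fun i => TrivSqZeroExt.snd ((A.mulVec fun j => TrivSqZeroExt.inl (v j)) i)) =
      (sndM A).mulVec v := by
  ext i
  simp [Matrix.mulVec, dotProduct, sndM, Fin.sum_univ_two, mul_comm]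

omit [Algebra (ZMod p) k] [Finite k] in
theorem fst_mulVec (A : M2 (DualNumber k)) (v : Fin 2 → k) :
    (fun i => TrivSqZeroExt.fst ((A.mulVec fun j => TrivSqZeroExt.inl (v j)) i)) =
      (redM k A).mulVec v := by
  ext i
  simp [Matrix.mulVec, dotProduct, redM, Fin.sum_univ_two]

omit [Algebra (ZMod p) k] [Finite k] in
theorem mulVec_inr (A : M2 (DualNumber k)) (w : Fin 2 → DualNumber k)
    (hw : ∀ i, TrivSqZeroExt.fst (w i) = 0) :
    A.mulVec w = fun i => TrivSqZeroExt.inr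
      ((redM k A).mulVec (fun j => TrivSqZeroExt.snd (w j)) i) := by
  ext i
  · simp [Matrix.mulVec, dotProduct, Fin.sum_univ_two, hw]
  · simp [Matrix.mulVec, dotProduct, redM, Fin.sum_univ_two, hw, mul_comm]

/-- **From flat lifts to unit Kummer homomorphisms.** -/
theorem kumX_of_FData (hp2 : p ≠ 2) {r : FGQ →* M2 k}
    {π : FQb} (hπ : π ^ (p ^ 2 - 1) = -(p : FQb)) (hTm : ∀ σ ∈ Tm p π, r σ = 1)
    {R : FGQ →* M2 (DualNumber k)} (hred : ∀ σ, redM k (R σ) = r σ)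
    {n : ℕ} {e : Fin n → (Fin 2 → DualNumber k) → FQb} {a : Fin n → Fin n → Fin n → ℚ}
    (h : FData p (fun σ x => (R σ).mulVec x) n e a) (u : (M2 k)ˣ) (i j : Fin 2) :
    KumX p π (fun σ => co u (coc R σ) i j) := by
  have hp : p.Prime := Fact.out
  have hp3 : 2 < p := lt_of_le_of_ne hp.two_le (Ne.symm hp2)
  have hsq : 2 ^ 2 ≤ p ^ 2 := Nat.pow_le_pow_left hp.two_le 2
  have he : 1 < p ^ 2 - 1 := by omega
  have hep : (p ^ 2 - 1).Coprime p := by
    rw [Nat.coprime_comm, Nat.Prime.coprime_iff_not_dvd hp]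
    intro hd
    have h1 : p ∣ p ^ 2 := dvd_pow_self p two_ne_zero
    have h2 : p ∣ 1 := by
      have h3 := (Nat.dvd_sub h1 hd)
      rwa [Nat.sub_sub_self (by omega)] at h3
    exact hp.one_lt.ne' (Nat.dvd_one.mp h2)
  have hchar : CharP k p := charP_of_injective_algebraMap (algebraMap (ZMod p) k).injective p
  have hpD : (p : DualNumber k) = 0 := by
    rw [← map_natCast (algebraMap k (DualNumber k)) p, CharP.cast_eq_zero, map_zero]
  have hpW : ∀ x : Fin 2 → DualNumber k, p • x = 0 := by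
    intro x
    ext1 l
    rw [Pi.smul_apply, nsmul_eq_mul, hpD, zero_mul, Pi.zero_apply]
  have hcocT : ∀ σ ∈ Tm p π, coc R σ = sndM (R σ) := by
    intro σ hσ
    rw [coc, hred, hTm _ (inv_mem hσ), mul_one]
  -- the vectors
  let v : Fin 2 → k := fun l => (u : M2 k) l j
  let w : Fin 2 → DualNumber k := fun l => TrivSqZeroExt.inl (v l)
  let W1 : AddSubgroup (Fin 2 → DualNumber k) :=
    { carrier := {x | ∀ l, TrivSqZeroExt.fst (x l) = 0}
      zero_mem' := fun l => by simp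
      add_mem' := fun {x y} hx hy l => by simp [hx l, hy l]
      neg_mem' := fun {x} hx l => by simp [hx l] }
  have hW1 : ∀ x, x ∈ W1 ↔ ∀ l, TrivSqZeroExt.fst (x l) = 0 := fun x => Iff.rfl
  have hact : ∀ σ ∈ Tm p π, ∀ x ∈ W1, (R σ).mulVec x = x := by
    intro σ hσ x hx
    rw [mulVec_inr _ _ hx, hred, hTm σ hσ, Matrix.one_mulVec]
    ext l
    · simp [hx l]
    · simp
  have hv : ∀ X : M2 k, (↑u⁻¹ : M2 k).mulVec (X.mulVec v) i = co u X i j := by
    intro X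
    rw [Matrix.mulVec_mulVec, co, Matrix.mul_apply]
    rfl
  have hsubsnd : ∀ σ ∈ Tm p π, (fun l => TrivSqZeroExt.snd (((R σ).mulVec w - w) l)) =
      (coc R σ).mulVec v := by
    intro σ hσ
    rw [hcocT σ hσ, ← snd_mulVec]
    ext l
    simp [w]
  have hsubfst : ∀ σ ∈ Tm p π, (R σ).mulVec w - w ∈ W1 := by
    intro σ hσ l
    have h1 := congrFun (fst_mulVec (R σ) v) l
    rw [hred, hTm σ hσ, Matrix.one_mulVec] at h1
    rw [Pi.sub_apply, TrivSqZeroExt.fst_sub, h1]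
    simp [w]
  refine ⟨?_, fun ψ => ?_⟩
  · intro σ hσ τ hτ
    show co u (coc R (σ * τ)) i j = co u (coc R σ) i j + co u (coc R τ) i j
    rw [← Matrix.add_apply, ← co_add]
    congr 2
    rw [coc_mul, hred, hred, hTm σ hσ, hTm _ (inv_mem hσ), one_mul, mul_one, add_comm]
  · let f : (Fin 2 → DualNumber k) →+ k :=
      { toFun := fun x => (↑u⁻¹ : M2 k).mulVec (fun l => TrivSqZeroExt.snd (x l)) i
        map_zero' := by simp [Matrix.mulVec, dotProduct]
        map_add' := fun x y => by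
          simp [Matrix.mulVec, dotProduct, Fin.sum_univ_two]
          ring }
    let Ψ : AddChar (Fin 2 → DualNumber k) FQb := ψ.compAddMonoidHom f
    have hΨ : ∀ x, Ψ x = ψ (f x) := fun x => rfl
    have hΨp : ∀ x, Ψ x ^ p = 1 := by
      intro x
      rw [← AddChar.map_nsmul_eq_pow, hpW, AddChar.map_zero_eq_one]
    obtain ⟨b, hb, hb1, hα1, hσα⟩ := h.exists_unit hpW (Tm p π) W1 w hsubfst
      (fun σ hσ x hx => by
        show (R σ).mulVec x ∈ W1
        rw [hact σ hσ x hx]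
        exact hx) Ψ
      (fun σ hσ x hx => by
        show Ψ ((R σ).mulVec x) = σ (Ψ x)
        rw [hact σ hσ x hx, Tm_fix_zeta hπ hσ (hΨp x)])
    set α : FQb := ∑ i, b i * e i w with hα
    have hκ : FixT p π (α ^ p) := by
      intro σ hσ
      rw [map_pow, hσα σ hσ, mul_pow, hΨp, one_mul]
    obtain ⟨β, hβ, hβ1, hαβ⟩ := h.exists_congr_pow hpW he hep hπ w b (fun i σ hσ => hb i σ hσ)
      hb1 hα hα1 hκ
    have hβ0 : β ≠ 0 := by
      rintro rfl
      rw [nm_zero] at hβ1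
      exact zero_ne_one hβ1
    refine ⟨α / β, ?_, fun σ hσ => ?_⟩
    · have h1 : (α / β) ^ p - 1 = (α ^ p - β ^ p) / β ^ p := by
        rw [div_pow, sub_div, div_self (pow_ne_zero p hβ0)]
      rw [h1, nm_div, nm_pow (p := p) β, hβ1, one_pow, div_one]
      exact hαβ
    · rw [map_div₀, hσα σ hσ, hβ σ hσ, hΨ]
      have h2 : f ((R σ).mulVec w - w) = co u (coc R σ) i j := by
        show (↑u⁻¹ : M2 k).mulVec (fun l => TrivSqZeroExt.snd (((R σ).mulVec w - w) l)) i = _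
        rw [hsubsnd σ hσ, hv]
      rw [h2]
      ring

end Fermat.Agent.H56
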