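import Mathlib
import Fermat.Agent.H56Tangent
import Fermat.Agent.H53Selmer
import Fermat.Agent.H53TW1
import Fermat.Agent.H69Burnside
import Fermat.Agent.H63Cyclo

set_option autoImplicit false
set_option maxSynthPendingDepth 3
set_option linter.style.haveILetI false
set_option linter.unusedSectionVars false

/-!
# S56 : final assembly
-/

noncomputable section

open scoped Polynomial Pointwise
open IsLocalRing GaloisRep Module ExtCitation Polynomial
open Fermat.Agent.H53 Fermat.Agent.H55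

namespace Fermat.Agent.H56

section Res

variable {p : ℕ} [Fact p.Prime] {k : Type} [Field k] [Algebra (ZMod p) k]

lemma natCast_p_eq_zero : (p : k) = 0 := by
  have h : algebraMap (ZMod p) k ((p : ℕ) : ZMod p) = 0 := by
    rw [ZMod.natCast_self, map_zero]
  rwa [map_natCast] at h

lemma natCast_p_dual : (p : DualNumber k) = 0 := by
  have h : algebraMap k (DualNumber k) ((p : ℕ) : k) = 0 := by
    rw [natCast_p_eq_zero, map_zero]
  rwa [map_natCast] at h

variable (ρbar : ResidualGaloisRep k) (b : Module.Basis (Fin 2) k ρbar.V)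

lemma natCast_cyclo (σ : H91.GQ) : (((cycloChar p σ : ZMod p).val : ℕ) : k) =
    algebraMap (ZMod p) k (cycloChar p σ : ZMod p) := by
  have : NeZero p := ⟨(Fact.out : p.Prime).ne_zero⟩
  rw [← map_natCast (algebraMap (ZMod p) k), ZMod.natCast_zmod_val]

lemma cyc_hyp (σ : H91.GQ) : ∀ μ : AlgebraicClosure ℚ, μ ^ p ^ 1 = 1 →
    σ μ = μ ^ (cycloChar p σ : ZMod p).val := by
  intro μ hμ
  rw [pow_one] at hμ
  exact H63.apply_of_pow_eq_one p σ hμ

theorem detCyc_of (hdet : (GaloisRepAdic.ofResidualGaloisRep ρbar).DetIsCyclotomic p) :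
    DetCyc p (toMat ρbar.ρ b) := by
  intro σ
  have h := hdet.2 1 σ _ (cyc_hyp σ)
  rw [pow_one, natCast_p_eq_zero, Ideal.span_singleton_eq_bot.2 rfl, Ideal.mem_bot, sub_eq_zero,
    natCast_cyclo] at h
  rw [← h, toMat_apply]
  exact LinearMap.det_toMatrix b _

theorem finLev_of : FinLev (toMat ρbar.ρ b) := by
  obtain ⟨L, hL, h⟩ := ρbar.factorsThroughFiniteLevel
  refine ⟨L.fixingSubgroup, (krullLevels_op_iff _).2 ⟨L, hL, le_rfl⟩, fun σ hσ => ?_⟩
  rw [toMat_apply, h σ ((IntermediateField.mem_fixingSubgroup_iff L _).1 hσ)]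
  exact LinearMap.toMatrix_one b

theorem hcent_of (hp2 : p ≠ 2) (habs : ρbar.IsAbsolutelyIrreducible) (X : M2 k)
    (hX : X.trace = 0) (hc : ∀ σ, toMat ρbar.ρ b σ * X = X * toMat ρbar.ρ b σ) : X = 0 := by
  have h1 : ∀ Y : M2 k, Y * X = X * Y := by
    intro Y
    have hY : Y ∈ Submodule.span k (Set.range fun σ => LinearMap.toMatrix b b (ρbar.ρ σ)) := by
      rw [H69.burnside ρbar habs b]; trivial
    induction hY using Submodule.span_induction with
    | mem x hx =>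
      obtain ⟨σ, rfl⟩ := hx
      exact hc σ
    | zero => simp
    | add x y _ _ hx hy => rw [add_mul, mul_add, hx, hy]
    | smul a x _ hx => rw [smul_mul_assoc, mul_smul_comm, hx]
  have h2 := h1 (Matrix.single 0 1 1)
  have h3 := h1 (Matrix.single 1 0 1)
  have e1 := congrFun (congrFun h2 0) 1
  have e2 := congrFun (congrFun h2 0) 0
  have e3 := congrFun (congrFun h3 0) 0
  simp [Matrix.mul_apply, Fin.sum_univ_two, Matrix.single_apply] at e1 e2 e3
  have h20 : (2 : k) ≠ 0 := by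
    intro h
    have h4 : ((2 : ℕ) : ZMod p) = 0 := by
      apply (algebraMap (ZMod p) k).injective
      rw [map_natCast, map_zero]
      exact_mod_cast h
    rw [ZMod.natCast_eq_zero_iff] at h4
    exact hp2 ((Nat.prime_dvd_prime_iff_eq Fact.out Nat.prime_two).1 h4)
  rw [Matrix.trace_fin_two] at hX
  have h5 : (2 : k) * X 0 0 = 0 := by
    rw [two_mul]
    nth_rewrite 2 [← e1]
    exact hX
  have h00 : X 0 0 = 0 := (mul_eq_zero.1 h5).resolve_left h20
  ext i j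
  fin_cases i <;> fin_cases j
  · exact h00
  · simpa using e3.symm
  · simpa using e2
  · simpa [h00] using e1

/-- the deformation conditions give good lifts -/
theorem goodLift_of (hdet : (GaloisRepAdic.ofResidualGaloisRep ρbar).DetIsCyclotomic p)
    {R : H91.GQ →* M2 (DualNumber k)} (h : MCont (DualNumber k) R)
    (hred : ∀ σ, redM k (R σ) = toMat ρbar.ρ b σ)
    (hR : (ofMatrix R h).DetIsCyclotomic p) : GoodLift (toMat ρbar.ρ b) R where
  cont := h
  red := hred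
  det := by
    intro σ
    have h1 := hR.2 1 σ _ (cyc_hyp σ)
    rw [pow_one, natCast_p_dual, Ideal.span_singleton_eq_bot.2 rfl, Ideal.mem_bot, sub_eq_zero,
      toMat_det (ofMatrix R h) (stdBasis R h), toMat_stdBasis] at h1
    rw [h1, detCyc_of ρbar b hdet, ← natCast_cyclo]
    exact (map_natCast (TrivSqZeroExt.inlHom k k) _).symm

end Res

section Clause

variable {𝒪 : Type} [CommRing 𝒪] [IsDomain 𝒪] [IsDiscreteValuationRing 𝒪]
    [IsAdicComplete (maximalIdeal 𝒪) 𝒪] [Finite (ResidueField 𝒪)]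
    (p : ℕ) [Fact p.Prime] [Algebra (ZMod p) (ResidueField 𝒪)]

/-- conjugation of inertia groups -/
lemma conj_mem_Iq {q : Nat.Primes} {P : ValuationSubring (AlgebraicClosure ℚ)}
    (hP : P.LiesOverPrime (q : ℕ)) : ∃ g : H91.GQ, ∀ σ ∈ P.inertiaSubgroupIn ℚ,
      g * σ * g⁻¹ ∈ Iq q := by
  obtain ⟨g, hg⟩ := exists_smul_eq_place q.2 hP (H28.primeLocalPlace_liesOver q)
  refine ⟨g, fun σ hσ => ?_⟩
  have h := H63.conj_mem_inertiaSubgroupIn g σ hσ
  rw [hg] at h
  exact h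

/-- **One clause of S56.** -/
theorem clause (hp2 : p ≠ 2) (GW : GWIneq p)
    (ρbar : ResidualGaloisRep (ResidueField 𝒪))
    (habs : ρbar.IsAbsolutelyIrreducible)
    (hdet : (GaloisRepAdic.ofResidualGaloisRep ρbar).DetIsCyclotomic p)
    (hsplit : ∀ σ : AlgebraicClosure ℚ ≃ₐ[ℚ] AlgebraicClosure ℚ,
      ∃ α β : ResidueField 𝒪, LinearMap.charpoly (ρbar.ρ σ) = (X - C α) * (X - C β))
    (hTW : ∀ (K : Type) [Field K] [Algebra (ResidueField 𝒪) K]
      (G : Subgroup (AlgebraicClosure ℚ ≃ₐ[ℚ] AlgebraicClosure ℚ)), G.index = 2 →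
      ∀ V : Submodule K (ρbar.baseChange K).V,
        (∀ σ ∈ G, ∀ x ∈ V, (ρbar.baseChange K).ρ σ x ∈ V) → V = ⊥ ∨ V = ⊤)
    (S Smin : Finset ℕ) (hpSmin : p ∈ Smin) (hSmin : Smin ⊆ S) (hS : ∀ q ∈ S, q.Prime)
    (hmin : ∀ q : ℕ, q.Prime → q ≠ p → (q ∈ Smin ↔ ¬ ρbar.IsUnramifiedAt q))
    (b : Module.Basis (Fin 2) (ResidueField 𝒪) ρbar.V)
    (Cond : ∀ ⦃A : Type⦄ [CommRing A] [IsLocalRing A], GaloisRepAdic A → Prop)
    (hDef : ∀ Q : Finset ℕ, IsDeformationCondition 𝒪 (fun _A _ _ _ ρ =>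
      (ρ.DetIsCyclotomic p ∧ Cond ρ ∧ ∀ q : ℕ, q.Prime → q ∉ Q → ρ.IsUnramifiedAt q) ∧
        ∀ q ∈ Smin, q.Prime → q ≠ p → ρ.IsUnipotentOnInertiaAt q))
    (hloc : LocalBound p (toMat ρbar.ρ b) (pPrime p) 4
      (fun R => ∃ h : MCont (DualNumber (ResidueField 𝒪)) R, Cond (ofMatrix R h))) :
    ∃ r : ℕ, ∀ n : ℕ, ∃ qv : Fin r → ℕ, Function.Injective qv ∧
      (∀ i, (qv i).Prime ∧ qv i ∉ S ∧ p ^ (n + 1) ∣ qv i - 1) ∧
      (∀ i, ∀ P : ValuationSubring (AlgebraicClosure ℚ), P.LiesOverPrime (qv i) →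
        ∀ φ : AlgebraicClosure ℚ ≃ₐ[ℚ] AlgebraicClosure ℚ, P.IsFrobeniusAt φ (qv i) →
          ∃ α β : ResidueField 𝒪, α ≠ β ∧ LinearMap.charpoly (ρbar.ρ φ) = (X - C α) * (X - C β)) ∧
      ∀ DQ : GaloisRep.DeformationRingData 𝒪 ρbar (fun _A _ _ _ ρ =>
          (ρ.DetIsCyclotomic p ∧ Cond ρ ∧ ∀ q : ℕ, q.Prime → q ∉ (Smin ∪ Finset.univ.image qv) →
            ρ.IsUnramifiedAt q) ∧
            ∀ q ∈ Smin, q.Prime → q ≠ p → ρ.IsUnipotentOnInertiaAt q),
        ∃ γ : MvPowerSeries (Fin r) 𝒪 →ₐ[𝒪] DQ.R, Function.Surjective γ := by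
  classical
  set r := toMat ρbar.ρ b with hr
  -- the ramified primes
  let A : Finset Nat.Primes := (Smin.erase p).subtype Nat.Prime |>.map
    ⟨fun q => (⟨q.1, q.2⟩ : Nat.Primes), fun x y h => Subtype.ext (congrArg Subtype.val h)⟩
  have hA : ∀ q : Nat.Primes, q ∈ A ↔ (q : ℕ) ∈ Smin ∧ (q : ℕ) ≠ p := by
    intro q
    simp only [A, Finset.mem_map, Finset.mem_subtype, Finset.mem_erase]
    constructor
    · rintro ⟨x, ⟨h1, h2⟩, rfl⟩
      exact ⟨h2, h1⟩
    · rintro ⟨h1, h2⟩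
      exact ⟨⟨q.1, q.2⟩, ⟨h2, h1⟩, rfl⟩
  have hr1 : ∀ σ, r σ = 1 ↔ ρbar.ρ σ = 1 := by
    intro σ
    rw [hr, toMat_apply]
    constructor
    · intro h
      apply (LinearMap.toMatrix b b).injective
      rw [h]
      exact (LinearMap.toMatrix_one b).symm
    · intro h
      rw [h]
      exact LinearMap.toMatrix_one b
  have hram : ∀ q ∈ A, ∃ σ ∈ Iq q, r σ ≠ 1 := by
    intro q hq
    obtain ⟨hq1, hq2⟩ := (hA q).1 hq
    have h1 := (hmin q q.2 hq2).1 hq1
    by_contra hcon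
    push Not at hcon
    apply h1
    intro P hP σ hσ
    obtain ⟨g, hg⟩ := conj_mem_Iq hP
    have h2 := hcon _ (hg σ hσ)
    rw [hr1, map_mul, map_mul] at h2
    have h3 : ρbar.ρ σ = ρbar.ρ g⁻¹ * (ρbar.ρ g * ρbar.ρ σ * ρbar.ρ g⁻¹) * ρbar.ρ g := by
      rw [← map_mul, ← map_mul, ← map_mul, ← map_mul]
      congr 1
      group
    rw [h3, h2, mul_one, ← map_mul, inv_mul_cancel, map_one]
  have hur : ∀ q, q ∉ A → q ≠ pPrime p → ∀ σ ∈ Iq q, r σ = 1 := by
    intro q hq hqp σ hσ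
    have hqp' : (q : ℕ) ≠ p := fun h => hqp (Subtype.ext h)
    have h1 : (q : ℕ) ∉ Smin := fun h => hq ((hA q).2 ⟨h, hqp'⟩)
    have h2 : ρbar.IsUnramifiedAt q := by
      by_contra h
      exact h1 ((hmin q q.2 hqp').2 h)
    rw [hr1]
    exact h2 (primeLocalPlace q) (H28.primeLocalPlace_liesOver q) σ hσ
  by_cases hun : ∀ q ∈ A, ∀ σ ∈ Iq q, (r σ).charpoly = (X - 1) ^ 2
  swap
  · -- there is no deformation at all
    refine ⟨0, fun n => ⟨Fin.elim0, fun i => i.elim0, fun i => i.elim0, fun i => i.elim0,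
      fun DQ => ?_⟩⟩
    exfalso
    apply hun
    intro q hq σ hσ
    obtain ⟨hq1, hq2⟩ := (hA q).1 hq
    have h1 := DQ.isOfType.2 q hq1 q.2 hq2 (primeLocalPlace q) (H28.primeLocalPlace_liesOver q)
      σ hσ
    obtain ⟨b₁, hb₁⟩ := exists_basis_residual (ResidueField.map (algebraMap 𝒪 DQ.R)) DQ.ρ ρbar b
      DQ.residual_isEquiv
    rw [toMat_charpoly DQ.ρ b₁] at h1
    have h2 := congrArg (fun f : H91.GQ →* M2 (ResidueField DQ.R) => (f σ).charpoly) hb₁
    have h3 : ∀ {A B : Type} [CommRing A] [CommRing B] (φ : A →+* B) (f : H91.GQ →* M2 A),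
        (mapMat φ f σ).charpoly = (f σ).charpoly.map φ := fun φ f => Matrix.charpoly_map _ _
    simp only [h3] at h2
    rw [h1] at h2
    apply Polynomial.map_injective (ResidueField.map (algebraMap 𝒪 DQ.R))
      (ResidueField.map (algebraMap 𝒪 DQ.R)).injective
    rw [← h2]
    simp
  · obtain ⟨s, hs⟩ := selmer_bound hp2 GW ρbar habs hdet hsplit hTW b (r := r)
      (fun σ => toMat_apply _ _ _) (detCyc_of ρbar b hdet) (finLev_of ρbar b) A ∅
      (by simp) hram hun hur (by simp) _ hloc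
    refine ⟨s, fun n => ?_⟩
    obtain ⟨qv, hqinj, hq1, hq2, hq3, hq4, -, Z, hZfin, hZcard, hZcob, hZ⟩ := hs s le_rfl n S
    refine ⟨fun i => (qv i : ℕ), fun i j h => hqinj (Subtype.ext h),
      fun i => ⟨(qv i).2, (hq1 i).1, (hq1 i).2⟩, fun i P hP φ hφ => (hq4 i P hP φ hφ).2,
      fun DQ => ?_⟩
    refine exists_surjective_of_card ρbar _ (hDef _) b (hcent_of ρbar b hp2 habs) DQ s Z hZfin
      (by simpa using hZcard) hZcob ?_
    intro R h hred hD
    obtain ⟨⟨hD1, hD2, hD3⟩, hD4⟩ := hD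
    refine hZ R (goodLift_of ρbar b hdet h hred hD1) ⟨h, hD2⟩ ?_ ?_ (by simp)
    · intro q hq σ hσ
      obtain ⟨hq1, hq2⟩ := (hA q).1 hq
      have h1 := hD4 q hq1 q.2 hq2 (primeLocalPlace q) (H28.primeLocalPlace_liesOver q) σ hσ
      rwa [toMat_charpoly (ofMatrix R h) (stdBasis R h), toMat_stdBasis] at h1
    · intro q hqA _ hqp hqv σ hσ
      have hqp' : (q : ℕ) ≠ p := fun h => hqp (Subtype.ext h)
      have h1 := hD3 q q.2 (by
        rw [Finset.mem_union, not_or]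
        refine ⟨fun h => hqA ((hA q).2 ⟨h, hqp'⟩), ?_⟩
        rw [Finset.mem_image]
        rintro ⟨i, -, hi⟩
        exact hqv i (Subtype.ext hi.symm)) (primeLocalPlace q) (H28.primeLocalPlace_liesOver q) σ hσ
      rwa [toMat_eq_one_iff (ofMatrix R h) (stdBasis R h), toMat_stdBasis] at h1

end Clause

end Fermat.Agent.H56
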