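import Fermat.Agent.H64FLev
import Fermat.Agent.H20SemiCount

/-!
# S56-[B4] : counting Kummer homomorphisms in case II
-/

set_option autoImplicit false

open ExtCitation

noncomputable section

namespace Fermat.Agent.H64

variable {p : ℕ} [Fact p.Prime]

theorem conj_mem_Tm' {π : FQb} (hπ : π ^ (p ^ 2 - 1) = -(p : FQb)) {σ g : FGQ}
    (hσ : σ ∈ Tm p π) (hg : g ∈ Dp p) : g⁻¹ * σ * g ∈ Tm p π := by
  have hπ0 := pi_ne0 hπ
  have hT := teich_sigma_pi_div sq_sub_one_pos sq_sub_one_coprime hπ g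
  have h1 : σ (g π) = g π := by
    have e1 : g π = g π / π * π := by rw [div_mul_cancel₀ _ hπ0]
    rw [e1, map_mul, hT.inertia hσ.1, (mem_Tm.mp hσ).2]
  refine mem_Tm.mpr ⟨?_, ?_⟩
  · have := conj_mem_Ip hσ.1 (inv_mem hg)
    rwa [inv_inv] at this
  · rw [AlgEquiv.mul_apply, AlgEquiv.mul_apply, h1]
    exact AlgEquiv.symm_apply_apply g π

theorem conj_mem_Tm'' {π : FQb} (hπ : π ^ (p ^ 2 - 1) = -(p : FQb)) {σ g : FGQ}
    (hσ : σ ∈ Tm p π) (hg : g ∈ Dp p) : g * σ * g⁻¹ ∈ Tm p π := by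
  have := conj_mem_Tm' hπ hσ (inv_mem hg)
  rwa [inv_inv] at this

theorem modEq_of_pow_eq {K : Type*} [Field K] {z : K} {e : ℕ} (he : 0 < e)
    (hz : IsPrimitiveRoot z e) {a b : ℕ} (h : z ^ a = z ^ b) : a ≡ b [MOD e] := by
  have hz0 := hz.ne_zero he.ne'
  wlog hab : a ≤ b generalizing a b
  · exact (this h.symm (le_of_not_ge hab)).symm
  rw [Nat.modEq_iff_dvd' hab]
  apply hz.dvd_of_pow_eq_one
  have h1 : z ^ (b - a) * z ^ a = 1 * z ^ a := by
    rw [← pow_add, Nat.sub_add_cancel hab, one_mul, h]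
  exact mul_right_cancel₀ (pow_ne_zero _ hz0) h1

section Chars

/-- a nontrivial additive character with values in `ℚ̄` -/
theorem exists_addChar (p : ℕ) [Fact p.Prime] (k : Type*) [Field k] [CharP k p] :
    ∃ ψ : AddChar k FQb, ψ ≠ 1 := by
  have hp := (Fact.out : p.Prime)
  have : NeZero p := ⟨hp.ne_zero⟩
  obtain ⟨ζ, hζ⟩ := HasEnoughRootsOfUnity.exists_primitiveRoot FQb p
  letI : Algebra (ZMod p) k := ZMod.algebra k p
  obtain ⟨f, hf⟩ := LinearMap.exists_leftInverse_of_injective (Algebra.linearMap (ZMod p) k)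
    (LinearMap.ker_eq_bot.mpr (algebraMap (ZMod p) k).injective)
  have hf1 : f 1 = 1 := by
    have := LinearMap.congr_fun hf 1
    rw [LinearMap.comp_apply, Algebra.linearMap_apply, map_one] at this
    exact this
  refine ⟨(AddChar.zmodChar p hζ.pow_eq_one).compAddMonoidHom f.toAddMonoidHom, fun h => ?_⟩
  have h1 := DFunLike.congr_fun h (1 : k)
  rw [AddChar.compAddMonoidHom_apply, AddChar.one_apply] at h1
  have h2 : f.toAddMonoidHom 1 = 1 := hf1
  rw [h2] at h1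
  have h3 := AddChar.zmodChar_apply' hζ.pow_eq_one 1
  rw [Nat.cast_one, h1, pow_one] at h3
  exact hζ.ne_one hp.one_lt h3.symm

variable {k : Type*} [Field k] [CharP k p]

theorem addChar_sigma (ψ : AddChar k FQb) (y : k) (σ : FGQ) :
    σ (ψ y) = ψ (((cycloChar p σ : ZMod p).val : k) * y) := by
  rw [H54.cycloChar_spec p σ (addChar_pow ψ y), ← AddChar.map_nsmul_eq_pow, nsmul_eq_mul]

end Chars

section Count

variable {k : Type*} [Field k] [CharP k p] {π : FQb} (hπ : π ^ (p ^ 2 - 1) = -(p : FQb))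
  {t : FGQ} (ht : t ∈ Ip p) {ζ : FQb} (hζ : IsPrimitiveRoot ζ (p ^ 2 - 1)) (htπ : t π = ζ * π)
  {x : FGQ → k}

include hπ htπ in
theorem th_pi_t : th p π t = rs ζ := by
  rw [th, htπ, mul_div_cancel_right₀ _ (pi_ne0 hπ)]

theorem teich_zeta {ζ : FQb} (hζ : IsPrimitiveRoot ζ (p ^ 2 - 1)) : IsTeich p ζ :=
  isTeich_of_pow_eq_one sq_sub_one_pos sq_sub_one_coprime hζ.pow_eq_one

include hζ in
theorem rs_zeta_primitive : IsPrimitiveRoot (rs (p := p) ζ) (p ^ 2 - 1) := by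
  have hT := teich_zeta hζ
  refine ⟨?_, fun i hi => ?_⟩
  · rw [← rs_pow hT.nm_le, hζ.pow_eq_one, rs_one]
  · apply hζ.dvd_of_pow_eq_one
    apply (hT.pow i).eq_of_nm_sub_lt ⟨1, one_pos, one_pow _⟩
    rw [← rs_eq_iff (hT.pow i).nm_le (by simp), rs_pow hT.nm_le, hi, rs_one]

include hπ ht hζ htπ in
theorem cyclo_t : (((cycloChar p t : ZMod p).val : ℕ) : Kap p) = rs ζ ^ (p + 1) := by
  have h1 : nm p (π ^ (p + 1)) ^ (p - 1) = nm p (p : FQb) := by
    rw [nm_pow, ← pow_mul, mul_comm, ← sq_sub_one_eq, nm_pi_pow hπ]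
  rw [← th_cyclo h1 ht, th_pow (pi_ne0 hπ) (Ip_le_Dp ht), th_pi_t hπ htπ]

include hπ ht hζ htπ in
/-- the action of `t` on residues -/
theorem Res.shift {n : ℕ} {ψ : AddChar k FQb} {m : Kap p} (h : Res p π x n ψ m) {u v : k}
    (huv : u * v = ((cycloChar p t : ZMod p).val : k))
    (hx : ∀ σ ∈ Tm p π, x (t * σ * t⁻¹) = v * x σ) :
    Res p π x n (ψ.mulShift u) (m * rs ζ ^ n) := by
  have h1 := h.conj hπ (x'' := x) (ψ'' := ψ.mulShift u) (Ip_le_Dp ht) id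
    (fun y hy => rs_inertia ht hy) (fun σ hσ => conj_mem_Tm' hπ hσ (Ip_le_Dp ht)) (by
      intro σ hσ
      have h2 := hx _ (conj_mem_Tm' hπ hσ (Ip_le_Dp ht))
      have e1 : t * (t⁻¹ * σ * t) * t⁻¹ = σ := by group
      rw [e1] at h2
      rw [addChar_sigma (p := p), AddChar.mulShift_apply, h2, ← huv]
      congr 1
      ring)
  rw [th_pi_t hπ htπ] at h1
  exact h1

include hπ ht hζ htπ in
theorem Res.shift_pow {n : ℕ} {ψ : AddChar k FQb} {m : Kap p} (h : Res p π x n ψ m) {u v : k}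
    (huv : u * v = ((cycloChar p t : ZMod p).val : k))
    (hx : ∀ σ ∈ Tm p π, x (t * σ * t⁻¹) = v * x σ) (j : ℕ) :
    Res p π x n (ψ.mulShift (u ^ j)) (m * (rs ζ ^ n) ^ j) := by
  induction j with
  | zero => rw [pow_zero, pow_zero, mul_one, AddChar.mulShift_one]; exact h
  | succ j ih =>
    have h1 := ih.shift hπ ht hζ htπ huv hx
    rw [AddChar.mulShift_mulShift, ← pow_succ, mul_assoc, ← pow_succ] at h1
    exact h1

include hπ in
theorem Res.nat {n : ℕ} (hn : 0 < n) {ψ : AddChar k FQb} {m : Kap p} (h : Res p π x n ψ m)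
    (N : ℕ) : Res p π x n (ψ.mulShift (N : k)) (N * m) := by
  induction N with
  | zero =>
    rw [Nat.cast_zero, Nat.cast_zero, AddChar.mulShift_zero, zero_mul]
    exact Res.one hπ
  | succ N ih =>
    have h1 := Res.mul hπ hn (x'' := x) (ψ'' := ψ.mulShift ((N + 1 : ℕ) : k)) ih h (by
      intro σ _
      rw [AddChar.mulShift_apply, AddChar.mulShift_apply, ← AddChar.map_add_eq_mul]
      congr 1
      push_cast; ring)
    have e1 : ((N + 1 : ℕ) : Kap p) * m = N * m + m := by push_cast; ring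
    rw [e1]
    exact h1

include hπ ht hζ htπ in
/-- killing of residues by comparing with integers -/
theorem Res.kill {n : ℕ} (hn1 : p ^ 2 - 1 ≤ n) (hn2 : n < p ^ 2 + p) (hn3 : n ≠ p ^ 2)
    {ψ : AddChar k FQb} {m : Kap p} (h : Res p π x n ψ m) {u v : k}
    (huv : u * v = ((cycloChar p t : ZMod p).val : k))
    (hx : ∀ σ ∈ Tm p π, x (t * σ * t⁻¹) = v * x σ) {j N : ℕ} (hjN : u ^ j = (N : k))
    (hne : (rs (p := p) ζ ^ n) ^ j ≠ (N : Kap p)) : m = 0 := by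
  have hn : 0 < n := lt_of_lt_of_le sq_sub_one_pos hn1
  have h1 := h.shift_pow hπ ht hζ htπ huv hx j
  have h2 := h.nat hπ hn N
  rw [hjN] at h1
  have h3 := Res.unique hπ ht hζ htπ hn1 hn2 hn3 h1 h2
  have h4 : ((rs (p := p) ζ ^ n) ^ j - N) * m = 0 := by rw [sub_mul, mul_comm _ m, h3, sub_self]
  exact (mul_eq_zero.mp h4).resolve_left (sub_ne_zero.mpr hne)

include hπ ht hζ htπ in
/-- killing of residues at level `p ^ 2 - 1` -/
theorem Res.kill0 (hp2 : 2 < p) {u v : k} (huv : u * v = ((cycloChar p t : ZMod p).val : k))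
    (hx : ∀ σ ∈ Tm p π, x (t * σ * t⁻¹) = v * x σ) (hu : u ≠ 1)
    (hex : ∀ ψ : AddChar k FQb, ∃ m, Res p π x (p ^ 2 - 1) ψ m)
    {ψ : AddChar k FQb} {m : Kap p} (h : Res p π x (p ^ 2 - 1) ψ m) : m = 0 := by
  have he1 := sq_sub_one_add (p := p)
  have hn : 0 < p ^ 2 - 1 := sq_sub_one_pos
  have hu1 : u - 1 ≠ 0 := sub_ne_zero.mpr hu
  obtain ⟨m', h'⟩ := hex (ψ.mulShift (u - 1)⁻¹)
  have h1 := h'.shift hπ ht hζ htπ huv hx
  rw [(rs_zeta_primitive hζ).pow_eq_one, mul_one] at h1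
  have h2 := Res.mul hπ hn (x'' := x) (ψ'' := (ψ.mulShift (u - 1)⁻¹).mulShift u) h' h (by
    intro σ _
    rw [AddChar.mulShift_apply, AddChar.mulShift_apply, AddChar.mulShift_apply,
      ← AddChar.map_add_eq_mul]
    congr 1
    field_simp
    ring)
  have h3 := Res.unique hπ ht hζ htπ le_rfl (by omega) (by omega) h1 h2
  exact (left_eq_add.mp h3)

include hπ ht hζ htπ in
theorem res_chain {n₀ : ℕ} {ψ : AddChar k FQb} (h : ∃ m, Res p π x n₀ ψ m)
    (hn₀ : n₀ ≤ p ^ 2 + p)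
    (hkill : ∀ n, n₀ ≤ n → n < p ^ 2 + p → ∀ m, Res p π x n ψ m → m = 0) :
    ∀ σ ∈ Tm p π, ψ (x σ) = 1 := by
  have h1 : ∀ n, n₀ ≤ n → n ≤ p ^ 2 + p → ∃ m, Res p π x n ψ m := by
    intro n hn
    induction n, hn using Nat.le_induction with
    | base => exact fun _ => h
    | succ n hn ih =>
      intro hn'
      obtain ⟨m, hm⟩ := ih (by omega)
      have h2 := hkill n hn (by omega) m hm
      rw [h2] at hm
      exact hm.raise hπ ht hζ htπ
  obtain ⟨m, hm⟩ := h1 _ hn₀ le_rfl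
  obtain ⟨m', hm'⟩ := hm.improve2 hπ ht hζ htπ
  exact fun σ hσ => hm'.final hπ hσ

variable (p) in
/-- Kummer homomorphisms on `Tm` attached to units congruent to `1` modulo `p` up to `p`-th
powers -/
def KumT (π : FQb) (x : FGQ → k) : Prop :=
  (∀ σ ∈ Tm p π, ∀ τ ∈ Tm p π, x (σ * τ) = x σ + x τ) ∧
  ∀ ψ : AddChar k FQb, ∃ α : FQb, nm p (α ^ p - 1) ≤ nm p (p : FQb) ∧
    ∀ σ ∈ Tm p π, σ α = ψ (x σ) * α

include hπ in
theorem KumT.res (h : KumT p π x) (ψ : AddChar k FQb) : ∃ m, Res p π x (p ^ 2 - 1) ψ m := by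
  obtain ⟨α, h1, h2⟩ := h.2 ψ
  exact ⟨_, α, h2, by rw [nm_pi_pow hπ]; exact h1, rfl⟩

include hπ ht hζ htπ in
/-- (L1) `t`-invariant Kummer homomorphisms vanish -/
theorem KumT.eq_zero (hp2 : 2 < p) (h : KumT p π x)
    (hx : ∀ σ ∈ Tm p π, x (t * σ * t⁻¹) = x σ) : ∀ σ ∈ Tm p π, x σ = 0 := by
  have he1 := sq_sub_one_add (p := p)
  have hpr := rs_zeta_primitive hζ
  have hsq := sq_sub_one_eq (p := p)
  have hprod : (p - 1) * (p + 1) = p ^ 2 - 1 := hsq.symm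
  set c := (cycloChar p t : ZMod p).val with hc
  have hcK : ((c : ℕ) : Kap p) = rs ζ ^ (p + 1) := cyclo_t hπ ht hζ htπ
  have hx' : ∀ σ ∈ Tm p π, x (t * σ * t⁻¹) = 1 * x σ := fun σ hσ => by rw [one_mul, hx σ hσ]
  have huv : (c : k) * 1 = (((cycloChar p t : ZMod p).val : ℕ) : k) := by rw [mul_one]
  have hpp : p * 2 < p ^ 2 := by rw [sq]; exact Nat.mul_lt_mul_of_pos_left hp2 (by omega)
  have hpow : ∀ n, ¬ (n ≡ p + 1 [MOD p ^ 2 - 1]) → (rs (p := p) ζ ^ n) ^ 1 ≠ ((c : ℕ) : Kap p) := by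
    intro n hn h0
    apply hn
    rw [pow_one, hcK] at h0
    exact modEq_of_pow_eq sq_sub_one_pos hpr h0
  obtain ⟨ψ₀, hψ₀⟩ := exists_addChar p k
  have hmain : ∀ ψ : AddChar k FQb, ∀ σ ∈ Tm p π, ψ (x σ) = 1 := by
    intro ψ
    obtain ⟨m, hm⟩ := h.res hπ ψ
    have h1 : m = 0 := hm.kill hπ ht hζ htπ le_rfl (by omega) (by omega) huv hx' (pow_one _)
      (hpow _ (by
        intro h0
        have h2 : (p ^ 2 - 1) % (p ^ 2 - 1) = (p + 1) % (p ^ 2 - 1) := h0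
        rw [Nat.mod_self, Nat.mod_eq_of_lt (by omega)] at h2
        omega))
    rw [h1] at hm
    obtain ⟨m1, hm1⟩ := hm.raise hπ ht hζ htπ
    rw [he1] at hm1
    obtain ⟨m2, hm2⟩ := hm1.improve1 hπ ht hζ htπ
    refine res_chain hπ ht hζ htπ ⟨m2, hm2⟩ (by omega) ?_
    intro n hn1 hn2 m hm
    refine hm.kill hπ ht hζ htπ (by omega) hn2 (by omega) huv hx' (pow_one _) (hpow _ ?_)
    intro h0
    have h2 : n % (p ^ 2 - 1) = (p + 1) % (p ^ 2 - 1) := h0
    obtain ⟨j, rfl⟩ : ∃ j, n = j + (p ^ 2 - 1) := ⟨n - (p ^ 2 - 1), by omega⟩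
    rw [Nat.add_mod_right, Nat.mod_eq_of_lt (by omega), Nat.mod_eq_of_lt (by omega)] at h2
    omega
  intro σ hσ
  by_contra hne
  have hprim := AddChar.IsPrimitive.of_ne_one hψ₀
  apply hprim hne
  ext y
  rw [AddChar.mulShift_apply, AddChar.one_apply, mul_comm]
  exact hmain (ψ₀.mulShift y) σ hσ

include hπ ht hζ htπ in
/-- (L2) and (L3): the number of Kummer homomorphisms on which `t` acts by `g ^ (1 - p)` -/
theorem kumT_card [Finite k] (hp2 : 2 < p) {g : k} (hg : g ^ p ≠ g) (hg2 : (g ^ p) ^ p = g)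
    (hgt : g ^ (p + 1) = ((cycloChar p t : ZMod p).val : k)) :
    {y : Tm p π → k | ∃ x : FGQ → k, (∀ σ : Tm p π, x σ = y σ) ∧ KumT p π x ∧
      (∀ σ ∈ Tm p π, g ^ p * x (t * σ * t⁻¹) = g * x σ) ∧
      ∀ σ ∈ Tm p π, x (frob p * frob p * σ * (frob p * frob p)⁻¹) = x σ}.Finite ∧
    {y : Tm p π → k | ∃ x : FGQ → k, (∀ σ : Tm p π, x σ = y σ) ∧ KumT p π x ∧
      (∀ σ ∈ Tm p π, g ^ p * x (t * σ * t⁻¹) = g * x σ) ∧
      ∀ σ ∈ Tm p π, x (frob p * frob p * σ * (frob p * frob p)⁻¹) = x σ}.ncard ≤ Nat.card k := by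
  classical
  have hp := (Fact.out : p.Prime)
  have he1 := sq_sub_one_add (p := p)
  have hpr := rs_zeta_primitive hζ
  have hsq := sq_sub_one_eq (p := p)
  have hpp : p * 2 < p ^ 2 := by rw [sq]; exact Nat.mul_lt_mul_of_pos_left hp2 (by omega)
  set 𝒳 := {y : Tm p π → k | ∃ x : FGQ → k, (∀ σ : Tm p π, x σ = y σ) ∧ KumT p π x ∧
      (∀ σ ∈ Tm p π, g ^ p * x (t * σ * t⁻¹) = g * x σ) ∧
      ∀ σ ∈ Tm p π, x (frob p * frob p * σ * (frob p * frob p)⁻¹) = x σ} with h𝒳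
  set c := (cycloChar p t : ZMod p).val with hc
  have hcK : ((c : ℕ) : Kap p) = rs ζ ^ (p + 1) := cyclo_t hπ ht hζ htπ
  have hg0 : g ≠ 0 := by
    rintro rfl
    rw [zero_pow hp.ne_zero] at hg
    exact hg rfl
  have hgp0 : g ^ p ≠ 0 := pow_ne_zero _ hg0
  -- the shift parameters
  set v : k := g / g ^ p with hv
  set u : k := g ^ (2 * p) with hu
  have huv : u * v = (((cycloChar p t : ZMod p).val : ℕ) : k) := by
    rw [← hc, ← hgt, hu, hv, two_mul, pow_add, pow_succ]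
    field_simp
  have hge : g ^ (p ^ 2 - 1) = 1 := by
    have h1 : g ^ (p ^ 2 - 1) * g = 1 * g := by
      rw [← pow_succ, he1, sq, pow_mul, hg2, one_mul]
    exact mul_right_cancel₀ hg0 h1
  have hupow : u ^ (p + 1) = ((c ^ (2 * p) : ℕ) : k) := by
    rw [hu, ← pow_mul, mul_comm (2 * p), pow_mul, hgt]
    push_cast; rfl
  have hu1 : u ≠ 1 := by
    intro h0
    apply hg
    have h1 : frobenius k p (g ^ 2) = frobenius k p 1 := by
      rw [frobenius_def, frobenius_def, ← pow_mul, one_pow]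
      exact h0
    have h2 : g ^ 2 = 1 := frobenius_inj k p h1
    obtain ⟨q, hq⟩ : ∃ q, p = 2 * q + 1 := by
      rcases hp.eq_two_or_odd' with h3 | ⟨q, hq⟩
      · omega
      · exact ⟨q, hq⟩
    conv_lhs => rw [hq]
    rw [pow_succ, pow_mul, h2, one_pow, one_mul]
  have hzpow : ∀ n, ¬ (n * (p + 1) ≡ 2 * p * (p + 1) [MOD p ^ 2 - 1]) →
      (rs (p := p) ζ ^ n) ^ (p + 1) ≠ ((c ^ (2 * p) : ℕ) : Kap p) := by
    intro n hn h0
    apply hn
    rw [Nat.cast_pow, hcK, ← pow_mul, ← pow_mul, mul_comm (p + 1) (2 * p)] at h0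
    exact modEq_of_pow_eq sq_sub_one_pos hpr h0
  -- shift hypothesis
  have hxv : ∀ x : FGQ → k, (∀ σ ∈ Tm p π, g ^ p * x (t * σ * t⁻¹) = g * x σ) →
      ∀ σ ∈ Tm p π, x (t * σ * t⁻¹) = v * x σ := by
    intro x hx σ hσ
    have h1 := hx σ hσ
    rw [hv, div_mul_eq_mul_div, ← h1, mul_div_cancel_left₀ _ hgp0]
  -- existence at level `p ^ 2 + 1`
  have hlev : ∀ x : FGQ → k, KumT p π x →
      (∀ σ ∈ Tm p π, g ^ p * x (t * σ * t⁻¹) = g * x σ) →
      ∀ ψ : AddChar k FQb, ∃ m, Res p π x (p ^ 2 + 1) ψ m := by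
    intro x hK hx ψ
    obtain ⟨m, hm⟩ := hK.res hπ ψ
    have h1 : m = 0 := Res.kill0 hπ ht hζ htπ hp2 huv (hxv x hx) hu1 (hK.res hπ) hm
    rw [h1] at hm
    obtain ⟨m1, hm1⟩ := hm.raise hπ ht hζ htπ
    rw [he1] at hm1
    exact hm1.improve1 hπ ht hζ htπ
  -- the classes with vanishing residue
  have hzero : ∀ x : FGQ → k, (∀ σ ∈ Tm p π, x (t * σ * t⁻¹) = v * x σ) →
      ∀ ψ : AddChar k FQb, Res p π x (p ^ 2 + 1) ψ 0 → ∀ σ ∈ Tm p π, ψ (x σ) = 1 := by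
    intro x hx ψ h0
    refine res_chain hπ ht hζ htπ (h0.raise hπ ht hζ htπ) (by omega) ?_
    intro n hn1 hn2 m hm
    refine hm.kill hπ ht hζ htπ (by omega) hn2 (by omega) huv hx hupow (hzpow n ?_)
    intro h1
    rw [hsq] at h1
    have h2 := Nat.ModEq.mul_right_cancel' (by omega) h1
    obtain ⟨j, hj⟩ : ∃ j, n = j + p ^ 2 := ⟨n - p ^ 2, by omega⟩
    have e1 : n = (j - 1) + 2 + (p - 1) * (p + 1) := by omega
    have e2 : 2 * p = 2 + (p - 1) * 2 := by omega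
    have h3 : n % (p - 1) = (2 * p) % (p - 1) := h2
    rw [e1, e2, Nat.add_mul_mod_self_left, Nat.add_mul_mod_self_left] at h3
    have h4 : (j - 1) + 2 ≡ 0 + 2 [MOD (p - 1)] := by rw [zero_add]; exact h3
    have h5 := Nat.ModEq.add_right_cancel' 2 h4
    have h6 : (p - 1) ∣ (j - 1) := (Nat.modEq_zero_iff_dvd).mp h5
    have h7 := Nat.le_of_dvd (by omega) h6
    omega
  -- the residue functions
  obtain ⟨ψ₀, hψ₀⟩ := exists_addChar p k
  have hprim := AddChar.IsPrimitive.of_ne_one hψ₀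
  have hchoice : ∀ y : 𝒳, ∃ x : FGQ → k, ∃ ρ : k → Kap p, (∀ σ : Tm p π, x σ = (y : Tm p π → k) σ) ∧
      (∀ σ ∈ Tm p π, x (t * σ * t⁻¹) = v * x σ) ∧
      (∀ σ ∈ Tm p π, x (frob p * frob p * σ * (frob p * frob p)⁻¹) = x σ) ∧
      ∀ a, Res p π x (p ^ 2 + 1) (ψ₀.mulShift a) (ρ a) := by
    rintro ⟨y, x, hxy, hK, hxt, hxf⟩
    choose ρ hρ using fun a => hlev x hK hxt (ψ₀.mulShift a)
    exact ⟨x, ρ, hxy, hxv x hxt, hxf, hρ⟩
  choose X R hXy hXt hXf hR using hchoice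
  have huniq : ∀ (x : FGQ → k) (ψ : AddChar k FQb) (m m' : Kap p),
      Res p π x (p ^ 2 + 1) ψ m → Res p π x (p ^ 2 + 1) ψ m' → m = m' := fun x ψ m m' h h' =>
    Res.unique hπ ht hζ htπ (by omega) (by omega) (by omega) h h'
  have hRinj : Function.Injective R := by
    intro y y' hyy
    apply Subtype.ext
    funext σ
    rw [← hXy, ← hXy, ← sub_eq_zero]
    by_contra hne
    apply hprim hne
    ext a
    rw [AddChar.mulShift_apply, AddChar.one_apply, mul_comm]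
    have h1 := (hR y' a).inv hπ (by positivity) (x'' := fun τ => -(X y' τ)) (ψ'' := ψ₀.mulShift a)
      (fun τ _ => by rw [AddChar.map_neg_eq_inv])
    have h2 := Res.mul hπ (by positivity) (x'' := fun τ => X y τ - X y' τ)
      (ψ'' := ψ₀.mulShift a) (hR y a) h1 (fun τ _ => by
        rw [← AddChar.map_add_eq_mul, sub_eq_add_neg])
    rw [hyy, add_neg_cancel] at h2
    exact hzero _ (fun τ hτ => by
      show X y _ - X y' _ = v * (X y τ - X y' τ)
      rw [hXt y τ hτ, hXt y' τ hτ, mul_sub]) _ h2 σ σ.2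
  -- the semilinear maps
  set F : FGQ := frob p * frob p with hF
  have hFD : F ∈ Dp p := mul_mem frob_mem frob_mem
  set w : Kap p := th p π F ^ (p ^ 2 + 1) with hw
  have hw0 : w ≠ 0 := pow_ne_zero _ (th_ne_zero (pi_ne0 hπ) hFD)
  set cF := (cycloChar p F : ZMod p).val with hcF
  have hrange : ∀ ρ ∈ Set.range R, (∀ a b, ρ (a + b) = ρ a + ρ b) ∧
      (∀ a, ρ (u * a) = rs (p := p) ζ ^ (p ^ 2 + 1) * ρ a) ∧
      (∀ a, ρ a ^ (p ^ 2) = ((cF : Kap p) / w) * ρ a) := by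
    rintro _ ⟨y, rfl⟩
    refine ⟨fun a b => ?_, fun a => ?_, fun a => ?_⟩
    · apply huniq _ _ _ _ (hR y (a + b))
      exact Res.mul hπ (by positivity) (hR y a) (hR y b) (fun σ _ => by
        rw [← AddChar.mulShift_mul, AddChar.mul_apply])
    · apply huniq _ _ _ _ (hR y (u * a))
      have h1 := (hR y a).shift hπ ht hζ htπ huv (hXt y)
      rw [AddChar.mulShift_mulShift, mul_comm a u, mul_comm (R y a)] at h1
      exact h1
    · have h1 := (hR y a).conj hπ (x'' := X y) (ψ'' := (ψ₀.mulShift a).mulShift (cF : k)) hFD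
        (fun z => z ^ (p ^ 2)) (fun z hz => by
          have h2 : nm p (frob p z) ≤ 1 := by rw [nm_dec frob_mem]; exact hz
          rw [hF, AlgEquiv.mul_apply, rs_frob h2, rs_frob hz, ← pow_mul, sq])
        (fun σ hσ => conj_mem_Tm' hπ hσ hFD) (by
          intro σ hσ
          have h2 := hXf y _ (conj_mem_Tm' hπ hσ hFD)
          have e1 : F * (F⁻¹ * σ * F) * F⁻¹ = σ := by group
          rw [e1] at h2
          rw [addChar_sigma (p := p), AddChar.mulShift_apply, h2])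
      have h2 := (hR y a).nat hπ (by positivity) cF
      have h3 := huniq _ _ _ _ h1 h2
      rw [div_mul_eq_mul_div, ← h3, ← hw, mul_div_cancel_right₀ _ hw0]
  have hz : (rs (p := p) ζ ^ (p ^ 2 + 1)) ^ p ≠ rs (p := p) ζ ^ (p ^ 2 + 1) := by
    intro h0
    rw [← pow_mul] at h0
    have h1 := (Nat.modEq_iff_dvd' (Nat.le_mul_of_pos_right _ hp.pos)).mp
      (modEq_of_pow_eq sq_sub_one_pos hpr h0).symm
    have e1 : (p ^ 2 + 1) * p - (p ^ 2 + 1) = (p - 1) * (p ^ 2 + 1) := by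
      obtain ⟨q, hq⟩ : ∃ q, p = q + 1 := ⟨p - 1, by omega⟩
      conv_lhs => rw [show (p ^ 2 + 1) * p = (p ^ 2 + 1) * q + (p ^ 2 + 1) by
        conv_lhs => rw [hq]
        rw [hq]; ring]
      rw [Nat.add_sub_cancel, mul_comm]
      congr 1
      omega
    rw [e1, hsq] at h1
    have h2 := Nat.dvd_of_mul_dvd_mul_left (by omega) h1
    have e2 : p ^ 2 + 1 = (p + 1) * (p - 1) + 2 := by
      have : (p + 1) * (p - 1) = p ^ 2 - 1 := by rw [mul_comm, ← hsq]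
      omega
    rw [e2, Nat.dvd_add_right (dvd_mul_right _ _)] at h2
    have h3 := Nat.le_of_dvd (by norm_num) h2
    omega
  obtain ⟨hfin, hcard⟩ := H20SC.card_semilinear_le p u _ _ hz (Set.range R)
    (fun ρ hρ => (hrange ρ hρ).1) (fun ρ hρ => (hrange ρ hρ).2.1) (fun ρ hρ => (hrange ρ hρ).2.2)
  have hfin𝒳 : Finite 𝒳 := by
    have : Finite (Set.range R) := hfin.to_subtype
    exact Finite.of_injective (fun y => (⟨R y, y, rfl⟩ : Set.range R)) (fun y y' h =>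
      hRinj (congrArg Subtype.val h))
  refine ⟨Set.toFinite 𝒳, ?_⟩
  refine le_trans (le_of_eq ?_) hcard
  rw [← Set.image_univ, Set.ncard_image_of_injective _ hRinj, Set.ncard_univ]
  rfl

end Count

end Fermat.Agent.H64
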