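import Fermat.Agent.H56Flat0
import Fermat.Agent.H64FCount
import Fermat.Agent.H56Final

/-!
# S56-[F] : the flat local bound
-/

set_option autoImplicit false
set_option maxSynthPendingDepth 3

noncomputable section

open Fermat.Agent.H53 Fermat.Agent.H55 ExtCitation

namespace Fermat.Agent.H56

open Fermat.Agent.H64

variable {p : ℕ} [Fact p.Prime] {k : Type} [Field k] [Algebra (ZMod p) k] [Finite k]

theorem countII (hp2 : p ≠ 2) : CountII p k := by
  have hp : p.Prime := Fact.out
  have hp3 : 2 < p := lt_of_le_of_ne hp.two_le (Ne.symm hp2)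
  have hchar : CharP k p := charP_of_injective_algebraMap (algebraMap (ZMod p) k).injective p
  intro π t ζ g hπ ht hζ htπ hg hgp hg0 hgt
  refine ⟨fun x hx hxt => KumT.eq_zero hπ ht hζ htπ hp3 hx hxt, ?_⟩
  have hgt' : g ^ (p + 1) = (((cycloChar p t : ZMod p).val : ℕ) : k) := by
    rw [hgt, ← natCast_cyclo]
  obtain ⟨h1, h2⟩ := kumT_card hπ ht hζ htπ hp3 hg.symm hgp hgt'
  refine ⟨_, h1, h2, fun x hx hxt hxφ => ⟨x, fun σ => rfl, hx, hxt, fun σ hσ => ?_⟩⟩
  rw [← hxφ σ hσ]
  congr 1

/-- **The flat local bound.** -/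
theorem statementF (hp2 : p ≠ 2) : StatementF p (k := k) := statementF_of_count hp2 (countII hp2)

end Fermat.Agent.H56
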