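import Fermat.Agent.H56ZRad4

/-!
# Abel (horospherical) transform of radial kernels on `J → H3` (helper56)

`Rk κ (f ∘ log-heights) (w) = ∫ u, f (lh w + u) e^{-∑ u_j} abel κ u`.
-/

set_option autoImplicit false

noncomputable section

open MeasureTheory Set
open scoped Real ENNReal Topology

namespace Fermat.Agent.H56Z

open H5Z

variable {J : Type*} [Fintype J]

/-- The region `t_j > cosh u_j`. -/
def regU (u : J → ℝ) : Set (J → ℝ) := {t | ∀ j, Real.cosh (u j) < t j}

omit [Fintype J] in
theorem measurableSet_regU [Finite J] (u : J → ℝ) : MeasurableSet (regU u) := by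
  have : regU u = ⋂ j, {t : J → ℝ | Real.cosh (u j) < t j} := by
    ext t
    simp [regU]
  rw [this]
  exact MeasurableSet.iInter fun j => measurableSet_lt measurable_const (by fun_prop)

/-- The Abel transform of a radial kernel. -/
def abel (κ : (J → ℝ) → ℂ) (u : J → ℝ) : ℂ :=
  (2 * π) ^ Fintype.card J * ∫ t in regU u, κ t

/-- `abel κ u` as an integral over the positive orthant. -/
theorem abel_eq (κ : (J → ℝ) → ℂ) (u : J → ℝ) : abel κ u =
    (2 * π) ^ Fintype.card J * ∫ v in {v : J → ℝ | ∀ j, 0 < v j},
      κ (v + fun j => Real.cosh (u j)) := by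
  have hm : MeasurableSet {v : J → ℝ | ∀ j, 0 < v j} := by
    have : {v : J → ℝ | ∀ j, 0 < v j} = ⋂ j, {t : J → ℝ | 0 < t j} := by
      ext t
      simp
    rw [this]
    exact MeasurableSet.iInter fun j => measurableSet_lt measurable_const (by fun_prop)
  rw [abel, ← integral_indicator (measurableSet_regU u), ← integral_indicator hm,
    ← integral_add_right_eq_self _ (fun j => Real.cosh (u j))]
  congr 1
  refine integral_congr_ae (Filter.Eventually.of_forall fun v => ?_)
  simp only
  by_cases hv : ∀ j, 0 < v j
  · rw [indicator_of_mem (show v ∈ {v : J → ℝ | ∀ j, 0 < v j} from hv), indicator_of_mem]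
    intro j
    have := hv j
    simp only [Pi.add_apply]
    linarith
  · rw [indicator_of_notMem (show v ∉ {v : J → ℝ | ∀ j, 0 < v j} from hv), indicator_of_notMem]
    intro h
    refine hv fun j => ?_
    have := h j
    simp only [Pi.add_apply] at this
    linarith

theorem abs_le_cosh (x : ℝ) : |x| ≤ Real.cosh x := by
  have h1 : |x| ≤ Real.sinh |x| := Real.self_le_sinh_iff.mpr (abs_nonneg x)
  have h2 := Real.sinh_lt_cosh |x|
  rw [Real.cosh_abs] at h2
  linarith

theorem abel_eq_zero {κ : (J → ℝ) → ℂ} {R : ℝ} (hR : ∀ u, (∃ j, R < u j) → κ u = 0)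
    {u : J → ℝ} (hu : ∃ j, R ≤ Real.cosh (u j)) : abel κ u = 0 := by
  obtain ⟨j, hj⟩ := hu
  rw [abel, setIntegral_eq_zero_of_forall_eq_zero, mul_zero]
  intro t ht
  exact hR t ⟨j, hj.trans_lt (ht j)⟩

theorem abel_even (κ : (J → ℝ) → ℂ) {u u' : J → ℝ} (h : ∀ j, |u j| = |u' j|) :
    abel κ u = abel κ u' := by
  have : regU u = regU u' := by
    ext t
    refine forall_congr' fun j => ?_
    rw [← Real.cosh_abs (u j), h j, Real.cosh_abs]
  rw [abel, abel, this]

theorem continuous_abel {κ : (J → ℝ) → ℂ} (hκ : IsRC κ) : Continuous (abel κ) := by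
  obtain ⟨R, M, hR1, hM0, hM, hR⟩ := hκ.exists_bounds
  have e : abel κ = fun u => (2 * π : ℂ) ^ Fintype.card J *
      ∫ v in {v : J → ℝ | ∀ j, 0 < v j}, κ (v + fun j => Real.cosh (u j)) :=
    funext fun u => abel_eq κ u
  rw [e]
  refine continuous_const.mul ?_
  have hm : MeasurableSet {v : J → ℝ | ∀ j, 0 < v j} := by
    have : {v : J → ℝ | ∀ j, 0 < v j} = ⋂ j, {t : J → ℝ | 0 < t j} := by
      ext t
      simp
    rw [this]
    exact MeasurableSet.iInter fun j => measurableSet_lt measurable_const (by fun_prop)
  refine continuous_of_dominated (bound := (Set.pi univ fun _ : J => Icc 0 R).indicator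
    fun _ => M) ?_ ?_ ?_ ?_
  · intro u
    exact (hκ.cont.comp (by fun_prop)).aestronglyMeasurable
  · intro u
    rw [ae_restrict_iff' hm]
    refine Filter.Eventually.of_forall fun v hv => ?_
    by_cases h : v ∈ Set.pi univ fun _ : J => Icc 0 R
    · rw [indicator_of_mem h]
      exact hM _
    · have h1 : ∃ j, R < v j := by
        by_contra h2
        push Not at h2
        exact h fun j _ => ⟨(hv j).le, h2 j⟩
      obtain ⟨j, hj⟩ := h1
      have h3 : κ (v + fun j => Real.cosh (u j)) = 0 := by
        refine hR _ ⟨j, ?_⟩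
        have := Real.cosh_pos (u j)
        simp only [Pi.add_apply]
        linarith
      rw [h3, norm_zero]
      exact indicator_nonneg (fun _ _ => hM0) _
  · have hms : MeasurableSet (Set.pi univ fun _ : J => Icc (0 : ℝ) R) :=
      MeasurableSet.univ_pi fun _ => measurableSet_Icc
    refine Integrable.restrict ?_
    rw [integrable_indicator_iff hms]
    exact integrableOn_const (isCompact_univ_pi fun _ => isCompact_Icc).measure_lt_top.ne
  · refine Filter.Eventually.of_forall fun v => ?_
    exact hκ.cont.comp (by fun_prop)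

theorem hasCompactSupport_abel {κ : (J → ℝ) → ℂ} (hκ : IsRC κ) :
    HasCompactSupport (abel κ) := by
  obtain ⟨R, M, hR1, hM0, hM, hR⟩ := hκ.exists_bounds
  refine HasCompactSupport.intro (K := Set.pi univ fun _ : J => Icc (-R) R)
    (isCompact_univ_pi fun _ => isCompact_Icc) fun u hu => ?_
  refine abel_eq_zero hR ?_
  by_contra h
  push Not at h
  refine hu fun j _ => ?_
  have h1 := (abs_le_cosh (u j)).trans (h j).le
  exact ⟨(abs_le.mp h1).1, (abs_le.mp h1).2⟩

/-! ### Integration against `rhoJ` -/

theorem measurable_densJ_snd :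
    Measurable fun p : (J → ℝ) × (J → ℝ) => ENNReal.ofReal (densJ p.2) :=
  ENNReal.measurable_ofReal.comp (continuous_densJ.comp continuous_snd).measurable

theorem rhoJ_absolutelyContinuous :
    rhoJ J ≪ (volume : Measure (J → ℝ)).prod (volume : Measure (J → ℝ)) := by
  unfold rhoJ
  exact (withDensity_absolutelyContinuous _ _).trans Measure.restrict_le_self.absolutelyContinuous

theorem integrable_rhoJ_iff {F : (J → ℝ) × (J → ℝ) → ℂ} :
    Integrable F (rhoJ J) ↔ Integrable ((regJ J).indicator fun p => (densJ p.2 : ℂ) * F p)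
      ((volume : Measure (J → ℝ)).prod (volume : Measure (J → ℝ))) := by
  unfold rhoJ
  rw [integrable_withDensity_iff_integrable_smul' measurable_densJ_snd
    (Filter.Eventually.of_forall fun _ => ENNReal.ofReal_lt_top),
    integrable_indicator_iff measurableSet_regJ]
  simp only [ENNReal.toReal_ofReal (densJ_pos _).le, Complex.real_smul]
  rfl

theorem integral_rhoJ {F : (J → ℝ) × (J → ℝ) → ℂ} (hF : Integrable F (rhoJ J)) :
    ∫ p, F p ∂(rhoJ J) = ∫ u : J → ℝ, (densJ u : ℂ) * ∫ t in regU u, F (t, u) := by
  have hF' := integrable_rhoJ_iff.mp hF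
  unfold rhoJ
  rw [integral_withDensity_eq_integral_toReal_smul measurable_densJ_snd
    (Filter.Eventually.of_forall fun _ => ENNReal.ofReal_lt_top)]
  simp only [ENNReal.toReal_ofReal (densJ_pos _).le, Complex.real_smul]
  rw [← integral_indicator measurableSet_regJ, Measure.volume_eq_prod, integral_prod_symm _ hF']
  refine integral_congr_ae (Filter.Eventually.of_forall fun u => ?_)
  simp only
  rw [← integral_const_mul, ← integral_indicator (measurableSet_regU u)]
  refine integral_congr_ae (Filter.Eventually.of_forall fun t => ?_)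
  simp only
  by_cases h : ∀ j, Real.cosh (u j) < t j
  · rw [indicator_of_mem (show (t, u) ∈ regJ J from h), indicator_of_mem (show t ∈ regU u from h)]
  · rw [indicator_of_notMem (show (t, u) ∉ regJ J from h),
      indicator_of_notMem (show t ∉ regU u from h)]

theorem integrable_height {κ : (J → ℝ) → ℂ} (hκ : IsRC κ) {f : (J → ℝ) → ℂ}
    (hf : LocallyIntegrable f volume) (s : J → ℝ) :
    Integrable (fun p : (J → ℝ) × (J → ℝ) => κ p.1 * f (s + p.2)) (rhoJ J) := by
  obtain ⟨R, M, hR1, hM0, hM, hR⟩ := hκ.exists_bounds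
  rw [integrable_rhoJ_iff]
  set B1 : Set (J → ℝ) := Set.pi univ fun _ : J => Icc 0 R with hB1
  set B2 : Set (J → ℝ) := Set.pi univ fun _ : J => Icc (-R) R with hB2
  have hB1m : MeasurableSet B1 := MeasurableSet.univ_pi fun _ => measurableSet_Icc
  have hB2m : MeasurableSet B2 := MeasurableSet.univ_pi fun _ => measurableSet_Icc
  have hB1c : IsCompact B1 := isCompact_univ_pi fun _ => isCompact_Icc
  have hB2c : IsCompact B2 := isCompact_univ_pi fun _ => isCompact_Icc
  have hfs : LocallyIntegrable (fun u => f (s + u)) volume := by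
    have h1 := (Homeomorph.addLeft s).isOpenEmbedding
    intro u
    obtain ⟨U, hU, hU'⟩ := hf (s + u)
    refine ⟨(fun v => s + v) ⁻¹' U, ?_, ?_⟩
    · exact (continuous_const.add continuous_id).continuousAt.preimage_mem_nhds hU
    · exact ((measurePreserving_add_left volume s).integrableOn_comp_preimage
        (Homeomorph.addLeft s).measurableEmbedding).mpr hU'
  have h1 : Integrable (B1.indicator fun _ => (1 : ℝ)) (volume : Measure (J → ℝ)) := by
    rw [integrable_indicator_iff hB1m]
    exact integrableOn_const hB1c.measure_lt_top.ne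
  have h2 : Integrable (B2.indicator fun u => f (s + u)) (volume : Measure (J → ℝ)) := by
    rw [integrable_indicator_iff hB2m]
    exact hfs.integrableOn_isCompact hB2c
  obtain ⟨D, hD⟩ := hB2c.exists_bound_of_continuousOn
    (f := fun u : J → ℝ => densJ u) continuous_densJ.continuousOn
  have h3 := (h1.mul_prod h2.norm).const_mul (|D| * M)
  refine h3.mono' ?_ (Filter.Eventually.of_forall fun p => ?_)
  · refine AEStronglyMeasurable.indicator ?_ measurableSet_regJ
    refine AEStronglyMeasurable.mul ?_ (AEStronglyMeasurable.mul ?_ ?_)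
    · exact (Complex.continuous_ofReal.comp
        (continuous_densJ.comp continuous_snd)).aestronglyMeasurable
    · exact (hκ.cont.comp continuous_fst).aestronglyMeasurable
    · exact hfs.aestronglyMeasurable.comp_snd
  · by_cases h : p ∈ regJ J
    · rw [indicator_of_mem h]
      by_cases h4 : ∃ j, R < p.1 j
      · rw [hR _ h4, zero_mul, mul_zero, norm_zero]
        have : (0 : ℝ) ≤ B1.indicator (fun _ => (1 : ℝ)) p.1 :=
          indicator_nonneg (fun _ _ => zero_le_one) _
        positivity
      · push Not at h4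
        have h5 : p.1 ∈ B1 := fun j _ =>
          ⟨(Real.cosh_pos (p.2 j)).le.trans (h j).le, h4 j⟩
        have h6 : p.2 ∈ B2 := fun j _ => by
          have h7 := (abs_le_cosh (p.2 j)).trans ((h j).le.trans (h4 j))
          exact ⟨(abs_le.mp h7).1, (abs_le.mp h7).2⟩
        rw [indicator_of_mem h5, indicator_of_mem h6, norm_mul, norm_mul, one_mul,
          Complex.norm_real, ← mul_assoc]
        refine mul_le_mul_of_nonneg_right ?_ (norm_nonneg _)
        exact mul_le_mul ((hD _ h6).trans (le_abs_self D)) (hM _) (norm_nonneg _) (abs_nonneg _)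
    · rw [indicator_of_notMem h, norm_zero]
      have : (0 : ℝ) ≤ B1.indicator (fun _ => (1 : ℝ)) p.1 :=
        indicator_nonneg (fun _ _ => zero_le_one) _
      positivity

/-- **Abel transform formula**: the operator `R(κ)` on functions of the heights. -/
theorem Rk_height {κ : (J → ℝ) → ℂ} (hκ : IsRC κ) {f : (J → ℝ) → ℂ}
    (hf : LocallyIntegrable f volume) (w : J → H3) :
    Rk κ (fun w' => f (lh w')) w =
      ∫ u, f (lh w + u) * (Real.exp (-∑ j, u j) : ℂ) * abel κ u := by
  have hF := integrable_height hκ hf (lh w)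
  have hmp := measurePreserving_chJ w
  have hae : AEStronglyMeasurable (fun p : (J → ℝ) × (J → ℝ) => κ p.1 * f (lh w + p.2))
      (Measure.map (fun w' : J → H3 => (chJ w w', lh w' - lh w)) volume) := by
    rw [hmp.map_eq]
    exact hF.aestronglyMeasurable
  have h2 := integral_map hmp.measurable.aemeasurable hae
  rw [hmp.map_eq, integral_rhoJ hF] at h2
  have h1 : Rk κ (fun w' => f (lh w')) w =
      ∫ w' : J → H3, κ (chJ w w') * f (lh w + (lh w' - lh w)) := by
    unfold Rk
    refine integral_congr_ae (Filter.Eventually.of_forall fun w' => ?_)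
    simp only [add_sub_cancel]
    rfl
  rw [h1, ← h2]
  refine integral_congr_ae (Filter.Eventually.of_forall fun u => ?_)
  simp only
  rw [integral_mul_const, abel, densJ]
  push_cast
  ring

end Fermat.Agent.H56Z
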