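import Fermat.Agent.H94UCls
import Fermat.Agent.H59Def2
import Fermat.Agent.H26ZHigh
import Fermat.Agent.H58PD3
import Fermat.Agent.H2ZCov
import Fermat.Agent.H64L4
import Fermat.Agent.H51ZOp
import Fermat.Agent.H35BK1

/-!
# Absolute convergence of the (twisted) geometric side on the model (C17)

For `m : Model K J`, `a : AutData m` and an invariant kernel `t` on `m.X` with bounded support
modulo the finite part, such that no `δ` with `t x (δ • a.act x) ≠ 0` is upper triangular: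

* `exists_finite`: on a Siegel set only finitely many `δ` contribute;
* `exists_bound`: `∑_δ ‖t x (δ • a.act x)‖` is bounded on `m.X`;
* `cutoff_univ_lt_top`: finite volume, for every cut-off;
* `conv`: `∑_δ ∫ ‖t x (δ • a.act x)‖ < ∞`.
-/

set_option autoImplicit false
set_option linter.unusedSectionVars false

noncomputable section

open MeasureTheory ENNReal Matrix NumberField
open scoped MatrixGroups

namespace Fermat.Agent.H94V

open Fermat.Agent.H59D Fermat.Agent.H59XF Fermat.Agent.H94U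
open Matrix.ProjGenLinGroup (mk mk_surjective)

variable {K : Type*} [Field K] [NumberField K] {J : Type*} [Fintype J]

/-! ### The trivial automorphism -/

theorem map_refl (g : PGL(2, K)) :
    ProjGenLinGroup.map ((RingEquiv.refl K : K ≃+* K) : K →+* K) g = g := by
  have : ((RingEquiv.refl K : K ≃+* K) : K →+* K) = RingHom.id K := rfl
  rw [this, ProjGenLinGroup.map_id]
  rfl

/-- the trivial automorphism of a model -/
def idAut (m : Model K J) : AutData m where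
  s := RingEquiv.refl K
  σ := 1
  val _ _ := rfl
  c := 1
  e_s _ _ := rfl
  U_s w g := by
    rw [map_refl]
    rfl

theorem idAut_act (m : Model K J) (x : m.X) : (idAut m).act x = x := by
  refine Prod.ext rfl ?_
  apply XF.ext
  intro w
  have h1 := (idAut m).twist.act_apply_σ x.2 w
  have h2 : (idAut m).twist.cmap w (x.2 w) = x.2 w := by
    obtain ⟨g, hg⟩ := QuotientGroup.mk_surjective (x.2 w)
    rw [← hg, Twist.cmap_mk]
    congr 1
    exact map_refl g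
  exact h1.trans h2

/-! ### Siegel sets -/

section Cover

variable (m : Model K J)

theorem exists_cover_model : ∃ (Y0 : Set (XF m.L.fam)) (c C R : ℝ), Y0.Finite ∧ 0 < c ∧ 0 < C ∧
    0 < R ∧ ∀ x : m.X, ∃ g : PGL(2, K), (g • x).1 ∈ H26Z.siegel J c C R ∧ (g • x).2 ∈ Y0 := by
  have := H35BK.isTotallyComplex m
  obtain ⟨Y0, c, C, R, h1, h2, h3, h4, h5⟩ := H2Z.exists_cover m.e m.e_bij (H64L.lat m.L)
    (fun g y => H64L.lat_smul m.L g y) (H64L.finite_fiber_numberField m.L)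
  exact ⟨Y0, c, C, R, h1, h2, h3, h4, fun x => h5 x.1 x.2⟩

/-- the Siegel set in the model -/
def sieg (Y0 : Set (XF m.L.fam)) (c C R : ℝ) : Set m.X := H26Z.siegel J c C R ×ˢ Y0

theorem measurableSet_sieg (Y0 : Set (XF m.L.fam)) (c C R : ℝ) :
    MeasurableSet (sieg m Y0 c C R) :=
  (H26Z.measurableSet_siegel c C R).prod (MeasurableSet.of_discrete)

theorem measure_sieg_lt_top {Y0 : Set (XF m.L.fam)} (hY0 : Y0.Finite) {c : ℝ} (hc : 0 < c)
    (C R : ℝ) : m.μ (sieg m Y0 c C R) < ⊤ := by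
  have h1 : m.μ (sieg m Y0 c C R) = volume (H26Z.siegel J c C R) * Measure.count Y0 :=
    Measure.prod_prod _ _
  rw [h1]
  exact ENNReal.mul_lt_top (H26Z.volume_siegel_lt_top hc C R) (Measure.count_apply_lt_top.mpr hY0)

/-- the measure defined by a cut-off is finite -/
theorem cutoff_univ_lt_top {χ : m.X → ℝ≥0∞} (hχ : IsCutoff PGL(2, K) χ) :
    (m.μ.withDensity χ) Set.univ < ⊤ := by
  obtain ⟨Y0, c, C, R, hY0, hc, -, -, hcov⟩ := exists_cover_model m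
  have hS := measurableSet_sieg m Y0 c C R
  rw [withDensity_apply _ MeasurableSet.univ, Measure.restrict_univ]
  have hg : ∀ g : PGL(2, K), Measurable fun x : m.X => (sieg m Y0 c C R).indicator
      (1 : m.X → ℝ≥0∞) (g • x) := fun g =>
    (measurable_one.indicator hS).comp (m.measurable_smul g)
  calc ∫⁻ x, χ x ∂m.μ ≤ ∫⁻ x, ∑' g : PGL(2, K), χ x * (sieg m Y0 c C R).indicator 1 (g • x)
        ∂m.μ := by
        refine lintegral_mono fun x => ?_
        obtain ⟨g, hg1, hg2⟩ := hcov x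
        have hg3 : g • x ∈ sieg m Y0 c C R := ⟨hg1, hg2⟩
        calc χ x = χ x * (sieg m Y0 c C R).indicator 1 (g • x) := by
              rw [Set.indicator_of_mem hg3, Pi.one_apply, mul_one]
          _ ≤ _ := ENNReal.le_tsum (f := fun g : PGL(2, K) =>
              χ x * (sieg m Y0 c C R).indicator 1 (g • x)) g
    _ = ∑' g : PGL(2, K), ∫⁻ x, χ x * (sieg m Y0 c C R).indicator 1 (g • x) ∂m.μ :=
        lintegral_tsum fun g => (hχ.meas.mul (hg g)).aemeasurable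
    _ = ∑' g : PGL(2, K), ∫⁻ x, χ (g⁻¹ • x) * (sieg m Y0 c C R).indicator 1 x ∂m.μ := by
        refine tsum_congr fun g => ?_
        rw [← (m.measurePreserving_smul' g).lintegral_comp
          (f := fun x => χ (g⁻¹ • x) * (sieg m Y0 c C R).indicator 1 x)
          ((hχ.meas.comp (m.measurable_smul g⁻¹)).mul (measurable_one.indicator hS))]
        refine lintegral_congr fun x => ?_
        rw [inv_smul_smul]
    _ = ∫⁻ x, ∑' g : PGL(2, K), χ (g⁻¹ • x) * (sieg m Y0 c C R).indicator 1 x ∂m.μ :=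
        (lintegral_tsum fun g => ((hχ.meas.comp (m.measurable_smul g⁻¹)).mul
          (measurable_one.indicator hS)).aemeasurable).symm
    _ = ∫⁻ x, (sieg m Y0 c C R).indicator 1 x ∂m.μ := by
        refine lintegral_congr fun x => ?_
        rw [ENNReal.tsum_mul_right, ← (Equiv.inv PGL(2, K)).tsum_eq]
        simp only [Equiv.inv_apply, inv_inv]
        rw [hχ.sum x, one_mul]
    _ = m.μ (sieg m Y0 c C R) := lintegral_indicator_one hS
    _ < ⊤ := measure_sieg_lt_top m hY0 hc C R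

end Cover

/-! ### Contributions -/

section Contrib

variable {m : Model K J} (a : AutData m) (t : m.X → m.X → ℂ)

theorem ch_base_le {w : H3} {c H R : ℝ} (hc : 0 < c) (h1 : c ≤ w.y) (h2 : w.y ≤ H)
    (h3 : ‖w.z‖ ≤ R) : H3.ch H3.base w ≤ (R ^ 2 + 1 + H ^ 2) / (2 * c) := by
  have h0 := w.pos
  have h4 : Complex.normSq (H3.base.z - w.z) ≤ R ^ 2 := by
    rw [H3.base_z, zero_sub, Complex.normSq_neg, Complex.normSq_eq_norm_sq]
    exact pow_le_pow_left₀ (norm_nonneg _) h3 2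
  have h5 : w.y ^ 2 ≤ H ^ 2 := pow_le_pow_left₀ h0.le h2 2
  rw [H3.ch, H3.base_y]
  have h6 : Complex.normSq (H3.base.z - w.z) + 1 ^ 2 + w.y ^ 2 ≤ R ^ 2 + 1 + H ^ 2 := by linarith
  have h7 : 2 * c ≤ 2 * 1 * w.y := by linarith
  have h8 := Complex.normSq_nonneg (H3.base.z - w.z)
  gcongr

/-- On a Siegel set only finitely many `δ` contribute. -/
theorem exists_finite {R : ℝ} (hT1 : ∀ x y : m.X, t x y ≠ 0 → ∀ j, H3.ch (x.1 j) (y.1 j) ≤ R)
    (hT2 : ∀ η : XF m.L.fam, {η' | ∃ w w' : J → H3, t (w, η) (w', η') ≠ 0}.Finite)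
    (hex : ∀ (g : GL (Fin 2) K) (x : m.X), t x ((mk g : PGL(2, K)) • a.act x) ≠ 0 → g.1 1 0 ≠ 0)
    {Y0 : Set (XF m.L.fam)} (hY0 : Y0.Finite) {c : ℝ} (hc : 0 < c) (C R0 : ℝ) :
    ∃ F : Set PGL(2, K), F.Finite ∧ ∀ x : m.X, x ∈ sieg m Y0 c C R0 → ∀ δ : PGL(2, K),
      t x (δ • a.act x) ≠ 0 → δ ∈ F := by
  classical
  set Y1 : Set (XF m.L.fam) := ⋃ η ∈ Y0, {η' | ∃ w w' : J → H3, t (w, η) (w', η') ≠ 0} with hY1
  have hY1f : Y1.Finite := hY0.biUnion fun η _ => hT2 η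
  set Y2 : Set (XF m.L.fam) := a.twist.act '' Y0 with hY2
  have hY2f : Y2.Finite := hY0.image _
  have := H35BK.isTotallyComplex m
  obtain ⟨T, hT0, hT⟩ := H26Z.high m.e m.e_bij (H64L.lat m.L) (fun g y => H64L.lat_smul m.L g y)
    hY1f hY2f R
  set H : ℝ := max 1 (|C| ^ Fintype.card J * max 1 T) with hH
  refine ⟨{g : PGL(2, K) | (∃ y' ∈ Y2, g • y' ∈ Y1) ∧ ∃ v v' : J → H3,
      (∀ j, H3.ch H3.base (v j) ≤ (R0 ^ 2 + 1 + H ^ 2) / (2 * c)) ∧
      (∀ j, H3.ch H3.base (v' j) ≤ (R0 ^ 2 + 1 + H ^ 2) / (2 * c)) ∧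
      ∀ j, H3.ch (v j) (m.actInf g v' j) ≤ R},
    H58PD.pd_ball m hY1f hY2f (fun _ => H3.base) (fun _ => H3.base) R _, ?_⟩
  rintro x ⟨hx1, hx2⟩ δ hδ
  obtain ⟨g, rfl⟩ := mk_surjective δ
  have hne := hex g x hδ
  have hch := hT1 _ _ hδ
  have hmem : (mk g : PGL(2, K)) • a.twist.act x.2 ∈ Y1 := by
    rw [hY1]
    simp only [Set.mem_iUnion]
    exact ⟨x.2, hx2, x.1, m.actInf (mk g) (a.actInf x.1), hδ⟩
  have hmem2 : a.twist.act x.2 ∈ Y2 := ⟨x.2, hx2, rfl⟩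
  -- the product of the heights is bounded
  have hprod : (∏ j, (x.1 j).y) * ∏ j, (a.actInf x.1 j).y ≤ T := by
    by_contra hcon
    exact hne (hT g x.1 (a.actInf x.1) _ hmem2 hmem (fun j => hch j) (not_le.mp hcon))
  have hprod' : ∏ j, (a.actInf x.1 j).y = ∏ j, (x.1 j).y := by
    rw [← Equiv.prod_comp a.c]
    exact Finset.prod_congr rfl fun j _ => by rw [AutData.actInf_apply_c]
  rw [hprod'] at hprod
  have hPpos : 0 < ∏ j, (x.1 j).y := Finset.prod_pos fun j _ => (x.1 j).pos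
  have hP : ∏ j, (x.1 j).y ≤ max 1 T := by
    rcases le_total (∏ j, (x.1 j).y) 1 with h | h
    · exact h.trans (le_max_left _ _)
    · refine le_trans ?_ (hprod.trans (le_max_right _ _))
      nlinarith
  have hyH : ∀ k, (x.1 k).y ≤ H := by
    intro k
    have h1 : (x.1 k).y ^ Fintype.card J ≤ |C| ^ Fintype.card J * max 1 T := by
      calc (x.1 k).y ^ Fintype.card J = ∏ _j : J, (x.1 k).y := by
            rw [Finset.prod_const, Finset.card_univ]
        _ ≤ ∏ j, (|C| * (x.1 j).y) := by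
            refine Finset.prod_le_prod (fun j _ => (x.1 k).pos.le) fun j _ => ?_
            refine (hx1.2.1 k j).trans ?_
            exact mul_le_mul_of_nonneg_right (le_abs_self C) (x.1 j).pos.le
        _ = |C| ^ Fintype.card J * ∏ j, (x.1 j).y := by
            rw [Finset.prod_mul_distrib, Finset.prod_const, Finset.card_univ]
        _ ≤ _ := by gcongr
    rcases le_total (x.1 k).y 1 with h | h
    · exact h.trans (le_max_left _ _)
    · refine le_trans ?_ (h1.trans (le_max_right _ _))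
      have : Nonempty J := ⟨k⟩
      exact le_self_pow₀ h Fintype.card_ne_zero
  refine ⟨⟨_, hmem2, hmem⟩, x.1, a.actInf x.1, fun j => ?_, fun j => ?_, fun j => hch j⟩
  · exact ch_base_le hc (hx1.1 j) (hyH j) (hx1.2.2 j)
  · exact ch_base_le hc (hx1.1 _) (hyH _) (hx1.2.2 _)

/-- the sum over the group is invariant -/
theorem tsum_smul (ht : ∀ (g : PGL(2, K)) x y, t (g • x) (g • y) = t x y) (g : PGL(2, K))
    (x : m.X) : ∑' δ : PGL(2, K), ‖t (g • x) (δ • a.act (g • x))‖ₑ =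
      ∑' δ : PGL(2, K), ‖t x (δ • a.act x)‖ₑ := by
  have h1 : ∀ δ : PGL(2, K), t (g • x) (δ • a.act (g • x)) =
      t x ((g⁻¹ * δ * ProjGenLinGroup.map (a.s : K →+* K) g) • a.act x) := by
    intro δ
    rw [a.act_smul, ← ht g x, mul_assoc, mul_smul, smul_inv_smul, mul_smul]
  let e : PGL(2, K) ≃ PGL(2, K) :=
    (Equiv.mulLeft g⁻¹).trans (Equiv.mulRight (ProjGenLinGroup.map (a.s : K →+* K) g))
  rw [tsum_congr fun δ => congrArg enorm (h1 δ),
    ← e.tsum_eq (fun δ : PGL(2, K) => ‖t x (δ • a.act x)‖ₑ)]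
  rfl

/-- **Boundedness** of `∑_δ ‖t x (δ • a.act x)‖`. -/
theorem exists_bound (ht : ∀ (g : PGL(2, K)) x y, t (g • x) (g • y) = t x y)
    {R : ℝ} (hT1 : ∀ x y : m.X, t x y ≠ 0 → ∀ j, H3.ch (x.1 j) (y.1 j) ≤ R)
    (hT2 : ∀ η : XF m.L.fam, {η' | ∃ w w' : J → H3, t (w, η) (w', η') ≠ 0}.Finite)
    (hT3 : ∀ η η' : XF m.L.fam, ∃ B : ℝ, ∀ w w' : J → H3, ‖t (w, η) (w', η')‖ ≤ B)
    (hex : ∀ (g : GL (Fin 2) K) (x : m.X), t x ((mk g : PGL(2, K)) • a.act x) ≠ 0 → g.1 1 0 ≠ 0) :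
    ∃ M : ℝ≥0∞, M ≠ ⊤ ∧ ∀ x : m.X, ∑' δ : PGL(2, K), ‖t x (δ • a.act x)‖ₑ ≤ M := by
  classical
  obtain ⟨Y0, c, C, R0, hY0, hc, -, -, hcov⟩ := exists_cover_model m
  obtain ⟨F, hF, hFF⟩ := exists_finite a t hT1 hT2 hex hY0 hc C R0
  choose B hB using hT3
  -- a bound for the values
  set Y1 : Set (XF m.L.fam) := ⋃ δ ∈ F, (fun η => δ • a.twist.act η) '' Y0 with hY1
  have hY1f : Y1.Finite := hF.biUnion fun δ _ => hY0.image _
  obtain ⟨B0, hB0⟩ := ((hY0.prod hY1f).image fun p => B p.1 p.2).bddAbove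
  refine ⟨hF.toFinset.card * ENNReal.ofReal B0, by finiteness, fun x => ?_⟩
  obtain ⟨g, hg1, hg2⟩ := hcov x
  rw [← tsum_smul a t ht g x]
  set y := g • x with hy
  rw [tsum_eq_sum (s := hF.toFinset) fun δ hδ => by
    by_contra h
    exact hδ (hF.mem_toFinset.mpr (hFF y ⟨hg1, hg2⟩ δ (by simpa using h)))]
  calc ∑ δ ∈ hF.toFinset, ‖t y (δ • a.act y)‖ₑ ≤ ∑ _δ ∈ hF.toFinset, ENNReal.ofReal B0 := by
        refine Finset.sum_le_sum fun δ hδ => ?_
        rw [← ofReal_norm]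
        apply ENNReal.ofReal_le_ofReal
        have h1 : ‖t y (δ • a.act y)‖ ≤ B y.2 (δ • a.twist.act y.2) :=
          hB y.2 (δ • a.twist.act y.2) y.1 (m.actInf δ (a.actInf y.1))
        refine h1.trans (hB0 ⟨(y.2, δ • a.twist.act y.2), ⟨hg2, ?_⟩, rfl⟩)
        rw [hY1]
        simp only [Set.mem_iUnion]
        exact ⟨δ, hF.mem_toFinset.mp hδ, y.2, hg2, rfl⟩
    _ = _ := by rw [Finset.sum_const, nsmul_eq_mul]

/-- **Absolute convergence** of the (twisted) geometric side. -/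
theorem conv (ht : ∀ (g : PGL(2, K)) x y, t (g • x) (g • y) = t x y)
    {R : ℝ} (hT1 : ∀ x y : m.X, t x y ≠ 0 → ∀ j, H3.ch (x.1 j) (y.1 j) ≤ R)
    (hT2 : ∀ η : XF m.L.fam, {η' | ∃ w w' : J → H3, t (w, η) (w', η') ≠ 0}.Finite)
    (hT3 : ∀ η η' : XF m.L.fam, ∃ B : ℝ, ∀ w w' : J → H3, ‖t (w, η) (w', η')‖ ≤ B)
    (hex : ∀ (g : GL (Fin 2) K) (x : m.X), t x ((mk g : PGL(2, K)) • a.act x) ≠ 0 → g.1 1 0 ≠ 0)
    (hm : ∀ δ : PGL(2, K), Measurable fun x : m.X => t x (δ • a.act x))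
    {χ : m.X → ℝ≥0∞} (hχ : IsCutoff PGL(2, K) χ) :
    ∑' δ : PGL(2, K), ∫⁻ x, ‖t x (δ • a.act x)‖ₑ ∂(m.μ.withDensity χ) ≠ ⊤ := by
  obtain ⟨M, hM, hMM⟩ := exists_bound a t ht hT1 hT2 hT3 hex
  rw [← lintegral_tsum fun δ => (hm δ).enorm.aemeasurable]
  refine (lt_of_le_of_lt (lintegral_mono hMM) ?_).ne
  rw [lintegral_const]
  exact ENNReal.mul_lt_top (lt_top_iff_ne_top.mpr hM) (cutoff_univ_lt_top m hχ)

end Contrib

/-! ### Kernels `m.ker κ b.k` -/

section Ker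

variable {m : Model K J}

theorem ker_T1 {κ : (J → ℝ) → ℂ} {R : ℝ} (hκ : ∀ u, (∃ j, R < u j) → κ u = 0)
    (kf : XF m.L.fam → XF m.L.fam → ℂ) (x y : m.X) (h : m.ker κ kf x y ≠ 0) (j : J) :
    H3.ch (x.1 j) (y.1 j) ≤ R := by
  by_contra hcon
  apply h
  rw [Model.ker, hκ _ ⟨j, not_le.mp hcon⟩, zero_mul]

theorem ker_T2 (κ : (J → ℝ) → ℂ) (b : GlobKer m.L.fam) (η : XF m.L.fam) :
    {η' | ∃ w w' : J → H3, m.ker κ b.k (w, η) (w', η') ≠ 0}.Finite := by
  refine (H51Z.supp_finite b η).subset ?_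
  rintro η' ⟨w, w', h⟩ h0
  exact h (by rw [Model.ker, h0, mul_zero])

theorem ker_T3 {κ : (J → ℝ) → ℂ} (hκ : ∃ M : ℝ, ∀ u, ‖κ u‖ ≤ M)
    (kf : XF m.L.fam → XF m.L.fam → ℂ) (η η' : XF m.L.fam) :
    ∃ B : ℝ, ∀ w w' : J → H3, ‖m.ker κ kf (w, η) (w', η')‖ ≤ B := by
  obtain ⟨M, hM⟩ := hκ
  refine ⟨M * ‖kf η η'‖, fun w w' => ?_⟩
  rw [Model.ker, norm_mul]
  exact mul_le_mul_of_nonneg_right (hM _) (norm_nonneg _)

theorem measurable_chJ' {X : Type*} [MeasurableSpace X] {f g : X → J → H3}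
    (hf : Measurable f) (hg : Measurable g) : Measurable fun x => Model.chJ (f x) (g x) := by
  refine measurable_pi_lambda _ fun j => ?_
  have h1 : Measurable fun x => (f x j, g x j) :=
    ((measurable_pi_apply j).comp hf).prodMk ((measurable_pi_apply j).comp hg)
  exact H3.continuous_ch.measurable.comp h1

theorem measurable_ker {κ : (J → ℝ) → ℂ} (hκ : Measurable κ)
    (kf : XF m.L.fam → XF m.L.fam → ℂ) {X : Type*} [MeasurableSpace X] {f g : X → m.X}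
    (hf : Measurable f) (hg : Measurable g) : Measurable fun x => m.ker κ kf (f x) (g x) := by
  have h1 : Measurable fun x => κ (Model.chJ (f x).1 (g x).1) :=
    hκ.comp (measurable_chJ' (measurable_fst.comp hf) (measurable_fst.comp hg))
  have h2 : Measurable fun p : XF m.L.fam × XF m.L.fam => kf p.1 p.2 := Measurable.of_discrete
  exact h1.mul (h2.comp ((measurable_snd.comp hf).prodMk (measurable_snd.comp hg)))

theorem measurable_ker_act (a : AutData m) {κ : (J → ℝ) → ℂ} (hκ : Measurable κ)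
    (kf : XF m.L.fam → XF m.L.fam → ℂ) (δ : PGL(2, K)) :
    Measurable fun x : m.X => m.ker κ kf x (δ • a.act x) :=
  measurable_ker hκ kf measurable_id ((m.measurable_smul δ).comp a.measurePreserving_act.measurable)

theorem ker_inv (κ : (J → ℝ) → ℂ) (b : GlobKer m.L.fam) (g : PGL(2, K)) (x y : m.X) :
    m.ker κ b.k (g • x) (g • y) = m.ker κ b.k x y :=
  m.ker_smul κ b.k (fun g x y => b.k_smul g x y) g x y

/-- **Absolute convergence** for the kernels `m.ker κ b.k`. -/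
theorem conv_ker (a : AutData m) {κ : (J → ℝ) → ℂ} (hκ : H56Z.IsRC κ) (b : GlobKer m.L.fam)
    (hex : ∀ (g : GL (Fin 2) K) (x : m.X), m.ker κ b.k x ((mk g : PGL(2, K)) • a.act x) ≠ 0 →
      g.1 1 0 ≠ 0)
    {χ : m.X → ℝ≥0∞} (hχ : IsCutoff PGL(2, K) χ) :
    ∑' δ : PGL(2, K), ∫⁻ x, ‖m.ker κ b.k x (δ • a.act x)‖ₑ ∂(m.μ.withDensity χ) ≠ ⊤ := by
  obtain ⟨R, hR⟩ := hκ.supp
  exact conv a _ (ker_inv κ b) (ker_T1 hR b.k) (ker_T2 κ b) (ker_T3 hκ.bdd b.k) hex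
    (measurable_ker_act a hκ.cont.measurable b.k) hχ

/-- **Boundedness** for the kernels `m.ker κ b.k`. -/
theorem bound_ker (a : AutData m) {κ : (J → ℝ) → ℂ} (hκ : H56Z.IsRC κ) (b : GlobKer m.L.fam)
    (hex : ∀ (g : GL (Fin 2) K) (x : m.X), m.ker κ b.k x ((mk g : PGL(2, K)) • a.act x) ≠ 0 →
      g.1 1 0 ≠ 0) :
    ∃ M : ℝ≥0∞, M ≠ ⊤ ∧ ∀ x : m.X, ∑' δ : PGL(2, K), ‖m.ker κ b.k x (δ • a.act x)‖ₑ ≤ M := by
  obtain ⟨R, hR⟩ := hκ.supp
  exact exists_bound a _ (ker_inv κ b) (ker_T1 hR b.k) (ker_T2 κ b) (ker_T3 hκ.bdd b.k) hex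

/-- **Absolute convergence**, without a twist. -/
theorem conv_ker_one {κ : (J → ℝ) → ℂ} (hκ : H56Z.IsRC κ) (b : GlobKer m.L.fam)
    (hex : ∀ (g : GL (Fin 2) K) (x : m.X), m.ker κ b.k x ((mk g : PGL(2, K)) • x) ≠ 0 →
      g.1 1 0 ≠ 0)
    {χ : m.X → ℝ≥0∞} (hχ : IsCutoff PGL(2, K) χ) :
    ∑' γ : PGL(2, K), ∫⁻ x, ‖m.ker κ b.k x (γ • x)‖ₑ ∂(m.μ.withDensity χ) ≠ ⊤ := by
  have h := conv_ker (idAut m) hκ b (fun g x h => hex g x (by rwa [idAut_act] at h)) hχ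
  simpa only [idAut_act] using h

/-- **Boundedness**, without a twist. -/
theorem bound_ker_one {κ : (J → ℝ) → ℂ} (hκ : H56Z.IsRC κ) (b : GlobKer m.L.fam)
    (hex : ∀ (g : GL (Fin 2) K) (x : m.X), m.ker κ b.k x ((mk g : PGL(2, K)) • x) ≠ 0 →
      g.1 1 0 ≠ 0) :
    ∃ M : ℝ≥0∞, M ≠ ⊤ ∧ ∀ x : m.X, ∑' γ : PGL(2, K), ‖m.ker κ b.k x (γ • x)‖ₑ ≤ M := by
  have h := bound_ker (idAut m) hκ b (fun g x h => hex g x (by rwa [idAut_act] at h))
  simpa only [idAut_act] using h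

end Ker

end Fermat.Agent.H94V

end
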