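import Fermat.Agent.H56ZReg2
import Fermat.Agent.H94VConv
import Fermat.Agent.H6ZExcl2
import Fermat.Agent.H59Aut

/-!
# C17: final form (helper56)

For a kernel `m.ker κ b.k` whose component at the place `w₀` is supported in the cell
`Iw diag(π^n, 1) Iw`, `n` large with respect to `κ` and to the other components: the contributing
elements have elliptic regular norms and the geometric side converges absolutely.
-/

set_option autoImplicit false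
set_option linter.unusedSectionVars false

noncomputable section

open Matrix IsDedekindDomain NumberField
open scoped MatrixGroups WithZero
open Matrix.ProjGenLinGroup (mk mk_surjective)

namespace Fermat.Agent.H56Z

open H20.S47 H59D H59XF

variable {K : Type*} [Field K] [NumberField K] {J : Type*} [Fintype J] {m : Model K J}

theorem iwahori_imat {w : HeightOneSpectrum (𝓞 K)} {g : PGL(2, K)} (hg : g ∈ H59D.Iw w) :
    ∃ B : GL (Fin 2) K, mk B = g ∧ H80T.IMat (w.valuation K) B.val := by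
  obtain ⟨B, ⟨⟨h1, h2⟩, h3⟩, rfl⟩ := hg
  refine ⟨B, rfl, ?_⟩
  have hdet : (B : Matrix (Fin 2) (Fin 2) K).det = B 0 0 * B 1 1 - B 0 1 * B 1 0 :=
    Matrix.det_fin_two _
  have h4 : w.valuation K (B 0 0 * B 1 1) = 1 := by
    have e : B 0 0 * B 1 1 = (B : Matrix (Fin 2) (Fin 2) K).det + B 0 1 * B 1 0 := by
      rw [hdet]
      ring
    rw [e]
    exact H80T.add_eq_left h2 (H80T.mul_lt_right (h1 0 1) h3)
  have h5 : w.valuation K (B 0 0) = 1 := by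
    refine le_antisymm (h1 0 0) ?_
    rw [← h4, map_mul]
    exact mul_le_of_le_one_right' (h1 1 1)
  have h6 : w.valuation K (B 1 1) = 1 := by
    refine le_antisymm (h1 1 1) ?_
    rw [← h4, map_mul, h5, one_mul]
  exact ⟨h5, h1 0 1, h3, h6⟩

theorem pcell_of_cellU {v : Valuation K ℤᵐ⁰} {n : ℕ} (hn : 1 ≤ n) {g : PGL(2, K)}
    (h : g ∈ H51Z.cellU v (WithZero.exp (-(n : ℤ)))) :
    H6.Z.PCell v (WithZero.exp (-(n : ℤ))) g := by
  obtain ⟨B, rfl⟩ := mk_surjective g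
  rw [H51Z.mk_mem_cellU] at h
  obtain ⟨hne, hU⟩ := umat_of_cell hn h
  set M : Matrix (Fin 2) (Fin 2) K := (B 1 1)⁻¹ • (B : Matrix (Fin 2) (Fin 2) K) with hM
  have hMdet : M.det ≠ 0 := by
    rw [hM, Matrix.det_smul]
    exact mul_ne_zero (pow_ne_zero _ (inv_ne_zero hne)) (det_ne_zero B)
  refine ⟨toGL M hMdet, ?_, hU, ?_⟩
  · rw [eq_comm, mk_eq_iff]
    exact ⟨(B 1 1)⁻¹, inv_ne_zero hne, rfl⟩
  · show v M.det = _
    have hv : v (B 1 1) ≠ 0 := (Valuation.ne_zero_iff v).mpr hne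
    have h4 : v (B : Matrix (Fin 2) (Fin 2) K).det = WithZero.exp (-(n : ℤ)) * v (B 1 1) ^ 2 :=
      h.2.2.2
    rw [hM, Matrix.det_smul, Fintype.card_fin, map_mul, map_pow, map_inv₀, h4]
    field_simp

/-- **C17, exclusion**: no upper triangular element contributes. -/
theorem exclusion (a : AutData m) {w₀ : HeightOneSpectrum (𝓞 K)} (h₀ : a.σ w₀ = w₀)
    (hU : m.L.U w₀ = H59D.Iw w₀) {κ : (J → ℝ) → ℂ} (hκ : IsRC κ) (A : GlobKer m.L.fam) :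
    ∃ M₀ : ℕ, 1 ≤ M₀ ∧ ∀ n : ℕ, M₀ ≤ n → ∀ b : GlobKer m.L.fam,
      (∀ w, w ≠ w₀ → b.loc w = A.loc w) → CellAt m b w₀ n →
      ∀ (g : GL (Fin 2) K) (x : m.X), m.ker κ b.k x ((mk g : PGL(2, K)) • a.act x) ≠ 0 →
        g 1 0 ≠ 0 := by
  obtain ⟨R, hR⟩ := hκ.supp
  obtain ⟨M₀, hM₀⟩ := H6.Z.excl a h₀ (fun g hg => iwahori_imat (by rwa [hU] at hg)) A R
  refine ⟨M₀ + 1, by omega, ?_⟩
  intro n hn b hb hc g x hx hg10
  have hκ0 : κ (Model.chJ x.1 (((mk g : PGL(2, K)) • a.act x).1)) ≠ 0 := by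
    intro h
    apply hx
    show κ _ * _ = 0
    rw [h, zero_mul]
  have hb0 : b.k x.2 (((mk g : PGL(2, K)) • a.act x).2) ≠ 0 := by
    intro h
    apply hx
    show κ _ * _ = 0
    rw [h, mul_zero]
  have hloc := (b.k_ne_zero_iff _ _).mp hb0
  have h1 : ∀ j, H3.ch (x.1 j) ((((mk g : PGL(2, K)) • a.act x).1) j) ≤ R := by
    intro j
    by_contra h
    push Not at h
    exact hκ0 (hR _ ⟨j, h⟩)
  have h2 : ∀ w ≠ w₀, (A.loc w).k (x.2 w) ((((mk g : PGL(2, K)) • a.act x).2) w) ≠ 0 := by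
    intro w hw
    rw [← hb w hw]
    exact hloc w
  have h3 : H6.Z.CellRel (w₀.valuation K) (WithZero.exp (-(n : ℤ))) (x.2 w₀)
      ((((mk g : PGL(2, K)) • a.act x).2) w₀) := by
    obtain ⟨y, hy⟩ := QuotientGroup.mk_surjective (x.2 w₀)
    obtain ⟨y', hy'⟩ := QuotientGroup.mk_surjective ((((mk g : PGL(2, K)) • a.act x).2) w₀)
    refine ⟨y, y', hy, hy', pcell_of_cellU (by omega) (hc y y' ?_)⟩
    have h4 := hloc w₀
    rw [← hy, ← hy'] at h4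
    exact h4
  refine hM₀ n (by omega) x (mk g) h1 h2 h3 g rfl ![1, 0] ?_ (g 0 0) ?_
  · intro h
    have := congrFun h 0
    simp at this
  · funext i
    fin_cases i
    · simp [Matrix.mulVec, dotProduct, Fin.sum_univ_two]
    · simp [Matrix.mulVec, dotProduct, Fin.sum_univ_two, hg10]

/-- **C17 on the `E`-side**: the hypotheses (E1) and (E2) of `geom`. -/
theorem c17_E {F E : Type*} [Field F] [Field E] [NumberField E] [Algebra F E]
    {s : E ≃ₐ[F] E} (h3 : ∀ x, s (s (s x)) = x) {J : Type*} [Fintype J] {m : Model E J}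
    (a : AutData m) (hs : ∀ x, a.s x = s x) {w₀ : HeightOneSpectrum (𝓞 E)} (h₀ : a.σ w₀ = w₀)
    (hU : m.L.U w₀ = H59D.Iw w₀) {κ : (J → ℝ) → ℂ} (hκ : IsRC κ) (A : GlobKer m.L.fam) :
    ∃ M₀ : ℕ, ∀ n : ℕ, M₀ ≤ n → ∀ b : GlobKer m.L.fam,
      (∀ w, w ≠ w₀ → b.loc w = A.loc w) → CellAt m b w₀ n →
      (∀ (d : PGL(2, E)) x, m.ker κ b.k x (d • a.act x) ≠ 0 → EllReg (nP s d)) ∧
      ∀ χ : m.X → ENNReal, H94U.IsCutoff PGL(2, E) χ →
        ∑' d : PGL(2, E), ∫⁻ x, ‖m.ker κ b.k x (d • a.act x)‖ₑ ∂(m.μ.withDensity χ) ≠ ⊤ := by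
  obtain ⟨M₀, hM1, hM₀⟩ := exclusion a h₀ hU hκ A
  refine ⟨M₀, fun n hn b hb hc => ?_⟩
  have hex := hM₀ n hn b hb hc
  exact ⟨fun d x hx => ellReg_E h3 a hs h₀ (hM1.trans hn) hc hex d x hx,
    fun χ hχ => H94V.conv_ker a hκ b hex hχ⟩

/-- **C17 on the `F`-side**: the hypotheses (F1), first half, and (F2) of `geom`. -/
theorem c17_F {w₀ : HeightOneSpectrum (𝓞 K)} (hU : m.L.U w₀ = H59D.Iw w₀)
    {κ : (J → ℝ) → ℂ} (hκ : IsRC κ) (A : GlobKer m.L.fam) :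
    ∃ M₀ : ℕ, ∀ n : ℕ, M₀ ≤ n → ∀ b : GlobKer m.L.fam,
      (∀ w, w ≠ w₀ → b.loc w = A.loc w) → CellAt m b w₀ n →
      (∀ (γ : PGL(2, K)) x, m.ker κ b.k x (γ • x) ≠ 0 → EllReg γ) ∧
      ∀ χ : m.X → ENNReal, H94U.IsCutoff PGL(2, K) χ →
        ∑' γ : PGL(2, K), ∫⁻ x, ‖m.ker κ b.k x (γ • x)‖ₑ ∂(m.μ.withDensity χ) ≠ ⊤ := by
  obtain ⟨M₀, hM1, hM₀⟩ := exclusion (idAut m) (w₀ := w₀) rfl hU hκ A
  refine ⟨M₀, fun n hn b hb hc => ?_⟩
  have hex : ∀ (g : GL (Fin 2) K) (x : m.X), m.ker κ b.k x ((mk g : PGL(2, K)) • x) ≠ 0 →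
      g 1 0 ≠ 0 := fun g x h => hM₀ n hn b hb hc g x (by rwa [idAut_act])
  exact ⟨fun γ x hx => ellReg_F (hM1.trans hn) hc hex γ x hx,
    fun χ hχ => H94V.conv_ker_one hκ b hex hχ⟩

end Fermat.Agent.H56Z
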