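import Fermat.Agent.H56ZRad1

/-!
# Radial kernels on hyperbolic 3-space, part 2 (helper56)

The push-forward of the invariant measure of `J → H3` under
`w' ↦ ((ch w_j w'_j)_j, (log y'_j - log y_j)_j)`.
-/

set_option autoImplicit false

noncomputable section

open MeasureTheory Set
open scoped Real ENNReal

namespace Fermat.Agent.H56Z

section pi

variable {ι : Type*} [Fintype ι]

set_option backward.isDefEq.respectTransparency false in
theorem lintegral_fin_nat_prod {n : ℕ} {E : Fin n → Type*}
    {mE : ∀ i, MeasurableSpace (E i)} {μ : (i : Fin n) → Measure (E i)} [∀ i, SigmaFinite (μ i)]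
    (f : (i : Fin n) → E i → ℝ≥0∞) (hf : ∀ i, Measurable (f i)) :
    ∫⁻ x : (i : Fin n) → E i, ∏ i, f i (x i) ∂(Measure.pi μ) = ∏ i, ∫⁻ x, f i x ∂(μ i) := by
  induction n with
  | zero => simp
  | succ n n_ih =>
      calc
        _ = ∫⁻ x : E 0 × ((i : Fin n) → E (Fin.succ i)),
            f 0 x.1 * ∏ i : Fin n, f (Fin.succ i) (x.2 i)
            ∂((μ 0).prod (Measure.pi (fun i ↦ μ i.succ))) := by
          rw [← ((measurePreserving_piFinSuccAbove μ 0).symm).lintegral_comp_emb
            (MeasurableEquiv.measurableEmbedding _)]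
          simp_rw [MeasurableEquiv.piFinSuccAbove_symm_apply, Fin.insertNthEquiv,
            Fin.prod_univ_succ, Fin.insertNth_zero, Equiv.coe_fn_mk, Fin.cons_succ,
            Fin.zero_succAbove, cast_eq, Fin.cons_zero]
        _ = (∫⁻ x, f 0 x ∂μ 0)
            * ∏ i : Fin n, ∫⁻ (x : E (Fin.succ i)), f (Fin.succ i) x ∂(μ i.succ) := by
          rw [← n_ih _ (fun i => hf _), ← lintegral_prod_mul]
          · exact (hf 0).aemeasurable
          · exact (Finset.measurable_prod _ fun i _ =>
              (hf _).comp (measurable_pi_apply i)).aemeasurable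
        _ = ∏ i, ∫⁻ x, f i x ∂(μ i) := by rw [Fin.prod_univ_succ]

theorem lintegral_pi_prod {E : ι → Type*}
    {mE : ∀ i, MeasurableSpace (E i)} {μ : (i : ι) → Measure (E i)} [∀ i, SigmaFinite (μ i)]
    (f : (i : ι) → E i → ℝ≥0∞) (hf : ∀ i, Measurable (f i)) :
    ∫⁻ x : (i : ι) → E i, ∏ i, f i (x i) ∂(Measure.pi μ) = ∏ i, ∫⁻ x, f i x ∂(μ i) := by
  let e := (Fintype.equivFin ι).symm
  rw [← (measurePreserving_piCongrLeft _ e).lintegral_comp_emb
    (MeasurableEquiv.measurableEmbedding _)]
  simp_rw [← e.prod_comp, MeasurableEquiv.coe_piCongrLeft, Equiv.piCongrLeft_apply_apply]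
  exact lintegral_fin_nat_prod (fun i => f (e i)) fun i => hf _

theorem pi_withDensity {E : ι → Type*}
    {mE : ∀ i, MeasurableSpace (E i)} (μ : (i : ι) → Measure (E i)) [∀ i, SigmaFinite (μ i)]
    (f : (i : ι) → E i → ℝ≥0∞) (hf : ∀ i, Measurable (f i))
    [∀ i, SigmaFinite ((μ i).withDensity (f i))] :
    Measure.pi (fun i => (μ i).withDensity (f i)) =
      (Measure.pi μ).withDensity (fun x => ∏ i, f i (x i)) := by
  refine Measure.pi_eq fun s hs => ?_
  rw [withDensity_apply _ (MeasurableSet.univ_pi hs), Measure.restrict_pi_pi,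
    lintegral_pi_prod f hf]
  exact Finset.prod_congr rfl fun i _ => (withDensity_apply _ (hs i)).symm

end pi

variable {J : Type*} [Fintype J]

/-- The vector of `cosh d(w_j, w'_j)`. -/
def chJ (w w' : J → H3) : J → ℝ := fun j => H3.ch (w j) (w' j)

/-- The vector of `log y_j`. -/
def lh (w : J → H3) : J → ℝ := fun j => Real.log (w j).y

omit [Fintype J] in
theorem continuous_lh : Continuous (lh : (J → H3) → J → ℝ) := by
  refine continuous_pi fun j => ?_
  exact (H3.continuous_y.comp (continuous_apply j)).log fun x => (x j).pos.ne'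

omit [Fintype J] in
theorem continuous_chJ : Continuous fun p : (J → H3) × (J → H3) => chJ p.1 p.2 := by
  refine continuous_pi fun j => ?_
  have h1 : Continuous fun p : (J → H3) × (J → H3) => p.1 j :=
    (continuous_apply j).comp continuous_fst
  have h2 : Continuous fun p : (J → H3) × (J → H3) => p.2 j :=
    (continuous_apply j).comp continuous_snd
  exact H3.continuous_ch.comp (h1.prodMk h2)

omit [Fintype J] in
theorem chJ_comm (w w' : J → H3) : chJ w w' = chJ w' w := funext fun _ => H3.ch_comm _ _

omit [Fintype J] in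
theorem one_le_chJ (w w' : J → H3) (j : J) : 1 ≤ chJ w w' j := H3.one_le_ch _ _

/-- The region `cosh u_j < t_j`. -/
def regJ (J : Type*) : Set ((J → ℝ) × (J → ℝ)) := {p | ∀ j, Real.cosh (p.2 j) < p.1 j}

theorem measurableSet_regJ : MeasurableSet (regJ J) := by
  have : regJ J = ⋂ j, {p : (J → ℝ) × (J → ℝ) | Real.cosh (p.2 j) < p.1 j} := by
    ext p
    simp [regJ]
  rw [this]
  exact MeasurableSet.iInter fun j => measurableSet_lt (by fun_prop) (by fun_prop)

/-- The density `(2π)^r e^{-∑ u_j}`. -/
def densJ (u : J → ℝ) : ℝ := (2 * π) ^ Fintype.card J * Real.exp (-∑ j, u j)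

theorem densJ_pos (u : J → ℝ) : 0 < densJ u := by unfold densJ; positivity

theorem continuous_densJ : Continuous (densJ : (J → ℝ) → ℝ) := by
  unfold densJ
  fun_prop

theorem prod_dens (u : J → ℝ) :
    ∏ j, ENNReal.ofReal (2 * π * Real.exp (-u j)) = ENNReal.ofReal (densJ u) := by
  rw [densJ, ← ENNReal.ofReal_prod_of_nonneg fun j _ => by positivity, Finset.prod_mul_distrib,
    Finset.prod_const, Finset.card_univ, ← Real.exp_sum, Finset.sum_neg_distrib]

/-- The push-forward measure on `(t, u)`. -/
def rhoJ (J : Type*) [Fintype J] : Measure ((J → ℝ) × (J → ℝ)) :=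
  ((volume : Measure ((J → ℝ) × (J → ℝ))).restrict (regJ J)).withDensity
    fun p => ENNReal.ofReal (densJ p.2)

theorem measurePreserving_arrow_rho :
    MeasurePreserving (MeasurableEquiv.arrowProdEquivProdArrow ℝ ℝ J)
      (Measure.pi fun _ => rho) (rhoJ J) := by
  refine ⟨(MeasurableEquiv.arrowProdEquivProdArrow ℝ ℝ J).measurable,
    Measure.ext_of_lintegral _ fun F hF => ?_⟩
  have hd : Measurable fun p : ℝ × ℝ => ENNReal.ofReal (2 * π * Real.exp (-p.2)) := by fun_prop
  have hdJ : Measurable fun p : (J → ℝ) × (J → ℝ) => ENNReal.ofReal (densJ p.2) :=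
    ENNReal.measurable_ofReal.comp (continuous_densJ.comp continuous_snd).measurable
  have hs : ∀ j : J, SigmaFinite (((volume : Measure (ℝ × ℝ)).restrict
      {p | Real.cosh p.2 < p.1}).withDensity
      fun p => ENNReal.ofReal (2 * π * Real.exp (-p.2))) :=
    fun _ => SigmaFinite.withDensity_ofReal _
  have h1 : (Measure.pi fun _ : J => rho) =
      ((volume : Measure (J → ℝ × ℝ)).restrict
        (univ.pi fun _ => {p : ℝ × ℝ | Real.cosh p.2 < p.1})).withDensity
        (fun x => ∏ j, ENNReal.ofReal (2 * π * Real.exp (-(x j).2))) := by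
    unfold rho
    rw [volume_pi, Measure.restrict_pi_pi]
    exact pi_withDensity (fun _ : J => (volume : Measure (ℝ × ℝ)).restrict
      {p | Real.cosh p.2 < p.1}) (fun _ p => ENNReal.ofReal (2 * π * Real.exp (-p.2)))
      (fun _ => hd)
  have hS : MeasurableSet (univ.pi fun _ : J => {p : ℝ × ℝ | Real.cosh p.2 < p.1}) :=
    MeasurableSet.univ_pi fun _ => measurableSet_cosh_lt
  have hprod : Measurable fun x : J → ℝ × ℝ =>
      ∏ j, ENNReal.ofReal (2 * π * Real.exp (-(x j).2)) :=
    Finset.measurable_prod _ fun j _ => hd.comp (measurable_pi_apply j)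
  set e := MeasurableEquiv.arrowProdEquivProdArrow ℝ ℝ J with he
  have hFe : Measurable fun x : J → ℝ × ℝ => F (e x) := hF.comp e.measurable
  rw [lintegral_map hF e.measurable, h1,
    lintegral_withDensity_eq_lintegral_mul _ hprod hFe, ← lintegral_indicator hS, rhoJ,
    lintegral_withDensity_eq_lintegral_mul _ hdJ hF, ← lintegral_indicator measurableSet_regJ,
    ← (volume_measurePreserving_arrowProdEquivProdArrow ℝ ℝ J).lintegral_comp_emb
      (MeasurableEquiv.measurableEmbedding _)]
  refine lintegral_congr fun x => ?_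
  have hx : e x = (fun j => (x j).1, fun j => (x j).2) := rfl
  by_cases h : x ∈ univ.pi fun _ : J => {p : ℝ × ℝ | Real.cosh p.2 < p.1}
  · have h' : e x ∈ regJ J := fun j => h j (mem_univ _)
    rw [indicator_of_mem h, indicator_of_mem h', Pi.mul_apply, Pi.mul_apply, ← prod_dens, hx]
  · have h' : e x ∉ regJ J := fun h2 => h fun j _ => h2 j
    rw [indicator_of_notMem h, indicator_of_notMem h']

/-- **Horospherical coordinates on `J → H3`**. -/
theorem measurePreserving_chJ (w : J → H3) :
    MeasurePreserving (fun w' : J → H3 => (chJ w w', lh w' - lh w)) volume (rhoJ J) := by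
  have h1 : MeasurePreserving (fun (w' : J → H3) (j : J) => chl (w j) (w' j)) volume
      (Measure.pi fun _ => rho) :=
    measurePreserving_pi _ _ fun j => measurePreserving_chl (w j)
  exact measurePreserving_arrow_rho.comp h1

theorem lintegral_rhoJ (F : (J → ℝ) × (J → ℝ) → ℝ≥0∞) (hF : Measurable F) :
    ∫⁻ p, F p ∂(rhoJ J) = ∫⁻ u : J → ℝ, ENNReal.ofReal (densJ u) *
      ∫⁻ t in {t : J → ℝ | ∀ j, Real.cosh (u j) < t j}, F (t, u) := by
  have hdJ : Measurable fun p : (J → ℝ) × (J → ℝ) => ENNReal.ofReal (densJ p.2) :=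
    ENNReal.measurable_ofReal.comp (continuous_densJ.comp continuous_snd).measurable
  have hm : ∀ u : J → ℝ, MeasurableSet {t : J → ℝ | ∀ j, Real.cosh (u j) < t j} := by
    intro u
    have : {t : J → ℝ | ∀ j, Real.cosh (u j) < t j} = ⋂ j, {t : J → ℝ | Real.cosh (u j) < t j} := by
      ext t
      simp
    rw [this]
    exact MeasurableSet.iInter fun j => measurableSet_lt measurable_const (by fun_prop)
  rw [rhoJ, lintegral_withDensity_eq_lintegral_mul _ hdJ hF,
    ← lintegral_indicator measurableSet_regJ, Measure.volume_eq_prod, lintegral_prod_symm']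
  · refine lintegral_congr fun u => ?_
    rw [← lintegral_indicator (hm u), ← lintegral_const_mul']
    · refine lintegral_congr fun t => ?_
      by_cases h : ∀ j, Real.cosh (u j) < t j
      · rw [indicator_of_mem (show (t, u) ∈ regJ J from h),
          indicator_of_mem (show t ∈ {t : J → ℝ | ∀ j, Real.cosh (u j) < t j} from h)]
        rfl
      · rw [indicator_of_notMem (show (t, u) ∉ regJ J from h),
          indicator_of_notMem (show t ∉ {t : J → ℝ | ∀ j, Real.cosh (u j) < t j} from h),
          mul_zero]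
    · exact ENNReal.ofReal_ne_top
  · exact (hdJ.mul hF).indicator measurableSet_regJ

end Fermat.Agent.H56Z
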