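import Mathlib

/-!
Local lemma at the place `v0` for step (C) of S47 (packages C14, C17).

`UMat v A`: entries `(< 1, ≤ 1; < 1, = 1)`.  With `v (det A) = v (π ^ m)`, `m ≥ 1`, these are exactly the
elements of `I diag(π^m,1) I`, `I` the Iwahori subgroup (entries `= 1, ≤ 1; < 1, = 1`).

Results (`s` a ring endomorphism with `v (s x) = v x`):
* `UMat.mul`, `UMat.map`: stable under products and `s`;
* `UMat.eig`: `A s(u) = c u`, `u ≠ 0` implies `v c = 1` or `v c = v (det A)`;
* `UMat.trace`: the trace is a unit; `UMat.disc`: the discriminant is a unit, if moreover ...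
-/

namespace Fermat.Agent.H80T

open Matrix

variable {K : Type*} [Field K] {Γ₀ : Type*} [LinearOrderedCommGroupWithZero Γ₀]
  (v : Valuation K Γ₀)

/-- Entries of an element of `I diag(π^m,1) I`, `m ≥ 1`. -/
structure UMat (A : Matrix (Fin 2) (Fin 2) K) : Prop where
  h00 : v (A 0 0) < 1
  h01 : v (A 0 1) ≤ 1
  h10 : v (A 1 0) < 1
  h11 : v (A 1 1) = 1

/-- Entries of an element of the Iwahori subgroup. -/
structure IMat (A : Matrix (Fin 2) (Fin 2) K) : Prop where
  h00 : v (A 0 0) = 1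
  h01 : v (A 0 1) ≤ 1
  h10 : v (A 1 0) < 1
  h11 : v (A 1 1) = 1

variable {v}

theorem add_lt {a b : K} {g : Γ₀} (ha : v a < g) (hb : v b < g) : v (a + b) < g :=
  v.map_add_lt ha hb

theorem add_le {a b : K} {g : Γ₀} (ha : v a ≤ g) (hb : v b ≤ g) : v (a + b) ≤ g :=
  v.map_add_le ha hb

theorem mul_lt_left {a b : K} (ha : v a < 1) (hb : v b ≤ 1) : v (a * b) < 1 := by
  rw [map_mul]; exact lt_of_le_of_lt (mul_le_of_le_one_right' hb) ha

theorem mul_lt_right {a b : K} (ha : v a ≤ 1) (hb : v b < 1) : v (a * b) < 1 := by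
  rw [mul_comm]; exact mul_lt_left hb ha

theorem mul_le {a b : K} (ha : v a ≤ 1) (hb : v b ≤ 1) : v (a * b) ≤ 1 := by
  rw [map_mul]; exact mul_le_one' ha hb

theorem mul_eq {a b : K} (ha : v a = 1) (hb : v b = 1) : v (a * b) = 1 := by
  rw [map_mul, ha, hb, one_mul]

theorem add_eq_right {a b : K} (ha : v a < 1) (hb : v b = 1) : v (a + b) = 1 := by
  rw [v.map_add_eq_of_lt_right (by rw [hb]; exact ha), hb]

theorem add_eq_left {a b : K} (ha : v a = 1) (hb : v b < 1) : v (a + b) = 1 := by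
  rw [v.map_add_eq_of_lt_left (by rw [ha]; exact hb), ha]

theorem UMat.mul {A B : Matrix (Fin 2) (Fin 2) K} (hA : UMat v A) (hB : UMat v B) :
    UMat v (A * B) := by
  constructor <;> simp only [Matrix.mul_apply, Fin.sum_univ_two]
  · exact add_lt (mul_lt_left hA.h00 hB.h00.le) (mul_lt_right hA.h01 hB.h10)
  · exact add_le (mul_le hA.h00.le hB.h01) (mul_le hA.h01 hB.h11.le)
  · exact add_lt (mul_lt_left hA.h10 hB.h00.le) (mul_lt_right hA.h11.le hB.h10)
  · exact add_eq_right (mul_lt_left hA.h10 hB.h01) (mul_eq hA.h11 hB.h11)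

theorem IMat.mul {A B : Matrix (Fin 2) (Fin 2) K} (hA : IMat v A) (hB : IMat v B) :
    IMat v (A * B) := by
  constructor <;> simp only [Matrix.mul_apply, Fin.sum_univ_two]
  · exact add_eq_left (mul_eq hA.h00 hB.h00) (mul_lt_right hA.h01 hB.h10)
  · exact add_le (mul_le hA.h00.le hB.h01) (mul_le hA.h01 hB.h11.le)
  · exact add_lt (mul_lt_left hA.h10 hB.h00.le) (mul_lt_right hA.h11.le hB.h10)
  · exact add_eq_right (mul_lt_left hA.h10 hB.h01) (mul_eq hA.h11 hB.h11)

theorem IMat.mul_UMat {A B : Matrix (Fin 2) (Fin 2) K} (hA : IMat v A) (hB : UMat v B) :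
    UMat v (A * B) := by
  constructor <;> simp only [Matrix.mul_apply, Fin.sum_univ_two]
  · exact add_lt (mul_lt_right hA.h00.le hB.h00) (mul_lt_right hA.h01 hB.h10)
  · exact add_le (mul_le hA.h00.le hB.h01) (mul_le hA.h01 hB.h11.le)
  · exact add_lt (mul_lt_left hA.h10 hB.h00.le) (mul_lt_right hA.h11.le hB.h10)
  · exact add_eq_right (mul_lt_left hA.h10 hB.h01) (mul_eq hA.h11 hB.h11)

theorem UMat.mul_IMat {A B : Matrix (Fin 2) (Fin 2) K} (hA : UMat v A) (hB : IMat v B) :
    UMat v (A * B) := by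
  constructor <;> simp only [Matrix.mul_apply, Fin.sum_univ_two]
  · exact add_lt (mul_lt_left hA.h00 hB.h00.le) (mul_lt_right hA.h01 hB.h10)
  · exact add_le (mul_le hA.h00.le hB.h01) (mul_le hA.h01 hB.h11.le)
  · exact add_lt (mul_lt_left hA.h10 hB.h00.le) (mul_lt_right hA.h11.le hB.h10)
  · exact add_eq_right (mul_lt_left hA.h10 hB.h01) (mul_eq hA.h11 hB.h11)

theorem UMat.map {s : K →+* K} (hs : ∀ x, v (s x) = v x) {A : Matrix (Fin 2) (Fin 2) K}
    (hA : UMat v A) : UMat v (A.map s) :=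
  ⟨by simpa [hs] using hA.h00, by simpa [hs] using hA.h01, by simpa [hs] using hA.h10,
    by simpa [hs] using hA.h11⟩

theorem IMat.map {s : K →+* K} (hs : ∀ x, v (s x) = v x) {A : Matrix (Fin 2) (Fin 2) K}
    (hA : IMat v A) : IMat v (A.map s) :=
  ⟨by simpa [hs] using hA.h00, by simpa [hs] using hA.h01, by simpa [hs] using hA.h10,
    by simpa [hs] using hA.h11⟩

theorem IMat.det {A : Matrix (Fin 2) (Fin 2) K} (hA : IMat v A) : v A.det = 1 := by
  rw [Matrix.det_fin_two, sub_eq_add_neg]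
  refine add_eq_left (mul_eq hA.h00 hA.h11) ?_
  rw [Valuation.map_neg]
  exact mul_lt_right hA.h01 hA.h10

theorem UMat.det_lt {A : Matrix (Fin 2) (Fin 2) K} (hA : UMat v A) : v A.det < 1 := by
  rw [Matrix.det_fin_two, sub_eq_add_neg]
  refine add_lt (mul_lt_left hA.h00 hA.h11.le) ?_
  rw [Valuation.map_neg]
  exact mul_lt_right hA.h01 hA.h10

theorem UMat.trace {A : Matrix (Fin 2) (Fin 2) K} (hA : UMat v A) : v A.trace = 1 := by
  rw [Matrix.trace_fin_two]
  exact add_eq_right hA.h00 hA.h11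

theorem UMat.disc {A : Matrix (Fin 2) (Fin 2) K} (hA : UMat v A) :
    v (A.trace ^ 2 - 4 * A.det) = 1 := by
  have h4 : v (4 : K) ≤ 1 := by
    have h1 : v (1 + 1 : K) ≤ 1 := add_le (by simp) (by simp)
    have h2 : (4 : K) = (1 + 1) * (1 + 1) := by norm_num
    rw [h2]; exact mul_le h1 h1
  rw [sub_eq_add_neg]
  refine add_eq_left (by rw [map_pow, hA.trace, one_pow]) ?_
  rw [Valuation.map_neg]
  exact mul_lt_right h4 hA.det_lt

/-- A semilinear eigenvector of an element of `I diag(π^m,1) I`: the eigenvalue has the valuation of `1` or of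
the determinant. -/
theorem UMat.eig {A : Matrix (Fin 2) (Fin 2) K} (hA : UMat v A) {s : K →+* K}
    (hs : ∀ x, v (s x) = v x) {u : Fin 2 → K} (hu : u ≠ 0) {c : K}
    (hc : A.mulVec (fun i => s (u i)) = c • u) : v c = 1 ∨ v c = v A.det := by
  -- the two coordinates
  have e0 : A 0 0 * s (u 0) + A 0 1 * s (u 1) = c * u 0 := by
    have := congrFun hc 0
    simpa [Matrix.mulVec, dotProduct, Fin.sum_univ_two] using this
  have e1 : A 1 0 * s (u 0) + A 1 1 * s (u 1) = c * u 1 := by
    have := congrFun hc 1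
    simpa [Matrix.mulVec, dotProduct, Fin.sum_univ_two] using this
  by_cases h : v (u 0) ≤ v (u 1)
  · -- second coordinate dominates
    left
    have hu1 : u 1 ≠ 0 := by
      intro h1
      apply hu
      rw [h1, map_zero] at h
      have h0 : u 0 = 0 := by
        have := le_antisymm h zero_le
        exact (Valuation.zero_iff v).1 this
      funext i; fin_cases i
      · exact h0
      · exact h1
    have hv1 : v (u 1) ≠ 0 := (Valuation.ne_zero_iff v).2 hu1
    have hlt : v (A 1 0 * s (u 0)) < v (A 1 1 * s (u 1)) := by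
      rw [map_mul, map_mul, hs, hs, hA.h11, one_mul]
      calc v (A 1 0) * v (u 0) ≤ v (A 1 0) * v (u 1) := mul_le_mul_right h _
        _ < 1 * v (u 1) := by
          exact mul_lt_mul_of_pos_right hA.h10 (zero_lt_iff.2 hv1)
        _ = v (u 1) := one_mul _
    have h3 : v (c * u 1) = v (u 1) := by
      rw [← e1, v.map_add_eq_of_lt_right hlt, map_mul, hs, hA.h11, one_mul]
    rw [map_mul] at h3
    exact mul_right_cancel₀ hv1 (by rw [h3, one_mul])
  · right
    rw [not_le] at h
    have hu0 : u 0 ≠ 0 := by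
      intro h0
      rw [h0, map_zero] at h
      exact not_lt_zero h
    have hv0 : v (u 0) ≠ 0 := (Valuation.ne_zero_iff v).2 hu0
    have key : A.det * s (u 0) = c * (A 1 1 * u 0 - A 0 1 * u 1) := by
      rw [Matrix.det_fin_two]
      linear_combination A 1 1 * e0 - A 0 1 * e1
    have h4 : v (A 1 1 * u 0 - A 0 1 * u 1) = v (u 0) := by
      have hlt : v (-(A 0 1 * u 1)) < v (A 1 1 * u 0) := by
        rw [Valuation.map_neg, map_mul, map_mul, hA.h11, one_mul]
        calc v (A 0 1) * v (u 1) ≤ 1 * v (u 1) := mul_le_mul_left hA.h01 _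
          _ = v (u 1) := one_mul _
          _ < v (u 0) := h
      rw [sub_eq_add_neg, v.map_add_eq_of_lt_left hlt, map_mul, hA.h11, one_mul]
    have h5 : v A.det * v (u 0) = v c * v (u 0) := by
      have := congrArg v key
      rw [map_mul, map_mul, hs, h4] at this
      exact this
    exact (mul_right_cancel₀ hv0 h5).symm

/-- Double coset description: `A = k₁ diag(d,1) k₂`. -/
theorem UMat.exists_iwahori {A : Matrix (Fin 2) (Fin 2) K} (hA : UMat v A) :
    ∃ k₁ k₂ : Matrix (Fin 2) (Fin 2) K, IMat v k₁ ∧ IMat v k₂ ∧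
      A = k₁ * !![A.det, 0; 0, 1] * k₂ := by
  have h11 : A 1 1 ≠ 0 := by
    intro h; have := hA.h11; rw [h, map_zero] at this; exact zero_ne_one this
  refine ⟨!![(A 1 1)⁻¹, A 0 1; 0, A 1 1], !![1, 0; A 1 0 / A 1 1, 1], ?_, ?_, ?_⟩
  · constructor
    · simp [hA.h11]
    · simpa using hA.h01
    · simp
    · simpa using hA.h11
  · constructor
    · simp
    · simp
    · simpa [hA.h11] using hA.h10
    · simp
  · rw [Matrix.det_fin_two]
    ext i j
    fin_cases i <;> fin_cases j <;> simp [Matrix.mul_apply, Fin.sum_univ_two]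
    all_goals field_simp
    all_goals ring

theorem UMat.of_iwahori {d : K} (hd : v d < 1) {k₁ k₂ : Matrix (Fin 2) (Fin 2) K} (h₁ : IMat v k₁)
    (h₂ : IMat v k₂) : UMat v (k₁ * !![d, 0; 0, 1] * k₂) := by
  refine UMat.mul_IMat (IMat.mul_UMat h₁ ?_) h₂
  constructor
  · simpa using hd
  · simp
  · simp
  · simp

end Fermat.Agent.H80T
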