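import Fermat.Agent.H20S5
import Fermat.Agent.H51ZIw
import Fermat.Agent.H80Tree

/-!
# C17: the contributing elements have elliptic regular norms (helper56)

Inputs: the element is in the cell `Iw diag(π^m, 1) Iw`, `m ≥ 1`, at the place `w0`, and it does not
fix a line.
-/

set_option autoImplicit false
set_option linter.unusedSectionVars false

noncomputable section

open Matrix
open scoped MatrixGroups WithZero
open Matrix.ProjGenLinGroup (mk mk_surjective)

namespace Fermat.Agent.H56Z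

open H20.S47

section Abstract

variable {K : Type*} [Field K] {s : K →+* K}

/-- the norm of a matrix -/
def Nm (s : K →+* K) (A : Matrix (Fin 2) (Fin 2) K) : Matrix (Fin 2) (Fin 2) K :=
  A * A.map s * (A.map s).map s

/-- `A ∘ s` fixes no line. -/
def NoLine (s : K →+* K) (A : Matrix (Fin 2) (Fin 2) K) : Prop :=
  ∀ u : Fin 2 → K, u ≠ 0 → ∀ c : K, A.mulVec (fun i => s (u i)) ≠ c • u

theorem trace_map (A : Matrix (Fin 2) (Fin 2) K) : (A.map s).trace = s A.trace := by
  simp [Matrix.trace_fin_two]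

theorem det_map (A : Matrix (Fin 2) (Fin 2) K) : (A.map s).det = s A.det := by
  simp [Matrix.det_fin_two]

theorem map_mul' (A B : Matrix (Fin 2) (Fin 2) K) : (A * B).map s = A.map s * B.map s :=
  Matrix.map_mul

/-- `A s(N) = N A`. -/
theorem mul_map_Nm (h3 : ∀ x, s (s (s x)) = x) (A : Matrix (Fin 2) (Fin 2) K) :
    A * (Nm s A).map s = Nm s A * A := by
  have h : ((A.map s).map s).map s = A := by
    ext i j
    exact h3 _
  unfold Nm
  rw [map_mul', map_mul', h]
  simp only [Matrix.mul_assoc]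

theorem trace_Nm (h3 : ∀ x, s (s (s x)) = x) {A : Matrix (Fin 2) (Fin 2) K} (hA : A.det ≠ 0) :
    s (Nm s A).trace = (Nm s A).trace := by
  rw [← trace_map]
  have h1 := mul_map_Nm h3 A
  have hu : IsUnit A.det := isUnit_iff_ne_zero.mpr hA
  have h2 : (Nm s A).map s = A⁻¹ * (Nm s A * A) := by
    rw [← h1, ← Matrix.mul_assoc, Matrix.nonsing_inv_mul A hu, Matrix.one_mul]
  rw [h2, ← Matrix.mul_assoc, Matrix.trace_mul_comm, ← Matrix.mul_assoc,
    Matrix.mul_nonsing_inv A hu, Matrix.one_mul]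

theorem det_Nm (h3 : ∀ x, s (s (s x)) = x) (A : Matrix (Fin 2) (Fin 2) K) :
    s (Nm s A).det = (Nm s A).det := by
  unfold Nm
  rw [Matrix.det_mul, Matrix.det_mul, det_map, det_map, det_map, map_mul, map_mul, h3]
  ring

/-- A regular matrix has one-dimensional eigenspaces. -/
theorem eig_unique {N : Matrix (Fin 2) (Fin 2) K} (hd : N.trace ^ 2 - 4 * N.det ≠ 0) {l : K}
    {u w : Fin 2 → K} (hu : u ≠ 0) (h1 : N.mulVec u = l • u) (h2 : N.mulVec w = l • w) :
    ∃ c : K, w = c • u := by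
  have e10 : N 0 0 * u 0 + N 0 1 * u 1 = l * u 0 := by
    have := congrFun h1 0
    simpa [Matrix.mulVec, dotProduct, Fin.sum_univ_two] using this
  have e11 : N 1 0 * u 0 + N 1 1 * u 1 = l * u 1 := by
    have := congrFun h1 1
    simpa [Matrix.mulVec, dotProduct, Fin.sum_univ_two] using this
  have e20 : N 0 0 * w 0 + N 0 1 * w 1 = l * w 0 := by
    have := congrFun h2 0
    simpa [Matrix.mulVec, dotProduct, Fin.sum_univ_two] using this
  have e21 : N 1 0 * w 0 + N 1 1 * w 1 = l * w 1 := by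
    have := congrFun h2 1
    simpa [Matrix.mulVec, dotProduct, Fin.sum_univ_two] using this
  by_cases hdet : u 0 * w 1 - u 1 * w 0 = 0
  · by_cases h0 : u 0 = 0
    · have h1' : u 1 ≠ 0 := by
        intro h
        apply hu
        funext i
        fin_cases i
        · exact h0
        · exact h
      refine ⟨w 1 / u 1, ?_⟩
      funext i
      fin_cases i
      · rw [h0, zero_mul, zero_sub, neg_eq_zero, mul_eq_zero] at hdet
        simp [h0, hdet.resolve_left h1']
      · simp [h1']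
    · refine ⟨w 0 / u 0, ?_⟩
      funext i
      fin_cases i
      · simp [h0]
      · simp only [Fin.mk_one, Pi.smul_apply, smul_eq_mul]
        field_simp
        linear_combination hdet
  · exfalso
    apply hd
    have a1 : N 0 0 = l := by
      have : (N 0 0 - l) * (u 0 * w 1 - u 1 * w 0) = 0 := by
        linear_combination w 1 * e10 - u 1 * e20
      exact sub_eq_zero.mp ((mul_eq_zero.mp this).resolve_right hdet)
    have a2 : N 1 1 = l := by
      have : (N 1 1 - l) * (u 0 * w 1 - u 1 * w 0) = 0 := by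
        linear_combination u 0 * e21 - w 0 * e11
      exact sub_eq_zero.mp ((mul_eq_zero.mp this).resolve_right hdet)
    have a3 : N 0 1 = 0 := by
      have : N 0 1 * (u 0 * w 1 - u 1 * w 0) = 0 := by
        linear_combination u 0 * e20 - w 0 * e10
      exact (mul_eq_zero.mp this).resolve_right hdet
    rw [Matrix.trace_fin_two, Matrix.det_fin_two, a1, a2, a3]
    ring

theorem exists_eigvec {N : Matrix (Fin 2) (Fin 2) K} {l : K}
    (h : l ^ 2 - N.trace * l + N.det = 0) : ∃ u : Fin 2 → K, u ≠ 0 ∧ N.mulVec u = l • u := by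
  have hdet : (N - l • (1 : Matrix (Fin 2) (Fin 2) K)).det = 0 := by
    rw [Matrix.det_fin_two]
    rw [Matrix.trace_fin_two, Matrix.det_fin_two] at h
    simp
    linear_combination h
  obtain ⟨u, hu, h1⟩ := Matrix.exists_mulVec_eq_zero_iff.mpr hdet
  refine ⟨u, hu, ?_⟩
  rw [Matrix.sub_mulVec, sub_eq_zero] at h1
  rw [h1, Matrix.smul_mulVec, Matrix.one_mulVec]

/-- **The norm of an element fixing no line has no eigenvalue.** -/
theorem ell_Nm (h3 : ∀ x, s (s (s x)) = x) {A : Matrix (Fin 2) (Fin 2) K} (hA : A.det ≠ 0)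
    (hd : (Nm s A).trace ^ 2 - 4 * (Nm s A).det ≠ 0) (hl : NoLine s A) : Ell (Nm s A) := by
  intro l hroot
  set t := (Nm s A).trace with ht
  set n := (Nm s A).det with hn
  have hst : s t = t := trace_Nm h3 hA
  have hsn : s n = n := det_Nm h3 A
  -- `l` is fixed by `s`
  have hsl : s l = l := by
    have h1 : (s l) ^ 2 - t * s l + n = 0 := by
      have := congrArg s hroot
      simpa [hst, hsn] using this
    have h2 : (s l - l) * (s l + l - t) = 0 := by linear_combination h1 - hroot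
    rcases mul_eq_zero.mp h2 with h | h
    · exact sub_eq_zero.mp h
    · have h4 : s l = t - l := by linear_combination h
      have h5 : s (s l) = l := by
        rw [h4, map_sub, hst, h4]
        ring
      have h6 := h3 l
      rw [h5] at h6
      exact h6
  obtain ⟨u, hu, h1⟩ := exists_eigvec (N := Nm s A) (l := l) hroot
  have h2 : (Nm s A).mulVec (A.mulVec fun i => s (u i)) = l • (A.mulVec fun i => s (u i)) := by
    rw [Matrix.mulVec_mulVec, ← mul_map_Nm h3, ← Matrix.mulVec_mulVec]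
    have h3' : ((Nm s A).map s).mulVec (fun i => s (u i)) = l • fun i => s (u i) := by
      have h4 : ((Nm s A).map s).mulVec (fun i => s (u i)) =
          fun i => s ((Nm s A).mulVec u i) := by
        funext i
        simp [Matrix.mulVec, dotProduct, Fin.sum_univ_two]
      rw [h4, h1]
      funext i
      simp [hsl]
    rw [h3', Matrix.mulVec_smul]
  obtain ⟨c, hc⟩ := eig_unique hd hu h1 h2
  exact hl u hu c hc

/-- The case `s = 1`. -/
theorem ell_of_noLine {A : Matrix (Fin 2) (Fin 2) K} (hl : NoLine (RingHom.id K) A) : Ell A := by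
  intro l hroot
  obtain ⟨u, hu, h1⟩ := exists_eigvec (N := A) (l := l) hroot
  exact hl u hu l h1

/-! ### The cell at `w0` -/

variable {v : Valuation K ℤᵐ⁰}

theorem umat_of_cell {m : ℕ} (hm : 1 ≤ m) {g : GL (Fin 2) K}
    (h : H51Z.Cell v (WithZero.exp (-(m : ℤ))) g) :
    g 1 1 ≠ 0 ∧ H80T.UMat v ((g 1 1)⁻¹ • (g : Matrix (Fin 2) (Fin 2) K)) := by
  obtain ⟨h1, h2, h3, h4⟩ := h
  have hpos : 0 < v (g 1 1) := lt_of_le_of_lt zero_le h3
  have hne : g 1 1 ≠ 0 := by
    intro h0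
    rw [h0, map_zero] at hpos
    exact lt_irrefl _ hpos
  have hvne : v (g 1 1) ≠ 0 := hpos.ne'
  have hexp : WithZero.exp (-(m : ℤ)) < (1 : ℤᵐ⁰) := by
    rw [← WithZero.exp_zero, WithZero.exp_lt_exp]
    omega
  have hdet : (GeneralLinearGroup.det g : K) = g 0 0 * g 1 1 - g 0 1 * g 1 0 :=
    Matrix.det_fin_two _
  have h5 : v (g 0 0 * g 1 1) < v (g 1 1) ^ 2 := by
    have e : g 0 0 * g 1 1 = (GeneralLinearGroup.det g : K) + g 0 1 * g 1 0 := by
      rw [hdet]
      ring
    rw [e]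
    refine Valuation.map_add_lt _ ?_ ?_
    · rw [h4]
      calc WithZero.exp (-(m : ℤ)) * v (g 1 1) ^ 2 < 1 * v (g 1 1) ^ 2 :=
            mul_lt_mul_of_pos_right hexp (pow_pos hpos 2)
        _ = _ := one_mul _
    · rw [map_mul, sq]
      exact mul_lt_mul_of_le_of_lt_of_nonneg_of_pos h2 h3 zero_le hpos
  have h6 : v (g 0 0) < v (g 1 1) := by
    rw [map_mul, sq] at h5
    exact lt_of_mul_lt_mul_right h5 zero_le
  have key : ∀ x : K, v ((g 1 1)⁻¹ * x) = (v (g 1 1))⁻¹ * v x := fun x => by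
    rw [map_mul, map_inv₀]
  have hipos : 0 < (v (g 1 1))⁻¹ := zero_lt_iff.mpr (inv_ne_zero hvne)
  have hlt : ∀ x : K, v x < v (g 1 1) → v ((g 1 1)⁻¹ * x) < 1 := fun x hx => by
    rw [key, ← inv_mul_cancel₀ hvne]
    exact mul_lt_mul_of_pos_left hx hipos
  refine ⟨hne, ?_, ?_, ?_, ?_⟩
  · simpa using hlt _ h6
  · simp only [Matrix.smul_apply, smul_eq_mul]
    rw [key, ← inv_mul_cancel₀ hvne]
    exact mul_le_mul_right h2 _
  · simpa using hlt _ h3
  · simp only [Matrix.smul_apply, smul_eq_mul]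
    rw [inv_mul_cancel₀ hne, map_one]

theorem NoLine.smul {A : Matrix (Fin 2) (Fin 2) K} (h : NoLine s A) {z : K} (hz : z ≠ 0) :
    NoLine s (z • A) := by
  intro u hu c hc
  apply h u hu (z⁻¹ * c)
  rw [Matrix.smul_mulVec] at hc
  rw [← smul_smul, ← hc, smul_smul, inv_mul_cancel₀ hz, one_smul]

/-- the conjugate of an element fixing no line -/
theorem NoLine.conj {A B : Matrix (Fin 2) (Fin 2) K} (hB : B.det ≠ 0) (h : NoLine s A) :
    NoLine s (B⁻¹ * A * B.map s) := by
  intro u hu c hc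
  have hBu : IsUnit B.det := isUnit_iff_ne_zero.mpr hB
  apply h (B.mulVec u) ?_ c
  · have h1 : (fun i => s (B.mulVec u i)) = (B.map s).mulVec fun i => s (u i) := by
      funext i
      simp [Matrix.mulVec, dotProduct, Fin.sum_univ_two]
    rw [h1, Matrix.mulVec_mulVec, ← Matrix.mulVec_smul, ← hc, Matrix.mulVec_mulVec]
    congr 1
    rw [← Matrix.mul_assoc, ← Matrix.mul_assoc, Matrix.mul_nonsing_inv B hBu, Matrix.one_mul]
  · intro h0
    apply hu
    have := congrArg (B⁻¹).mulVec h0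
    rwa [Matrix.mulVec_mulVec, Matrix.nonsing_inv_mul B hBu, Matrix.one_mulVec,
      Matrix.mulVec_zero] at this

theorem nm_smul (z : K) (A : Matrix (Fin 2) (Fin 2) K) :
    Nm s (z • A) = (z * s z * s (s z)) • Nm s A := by
  ext i j
  simp only [Nm, Matrix.mul_apply, Matrix.map_apply, Matrix.smul_apply, smul_eq_mul, map_mul,
    Fin.sum_univ_two]
  ring

end Abstract

/-! ### In `PGL₂` -/

variable {F E : Type*} [Field F] [Field E] [Algebra F E] {s : E ≃ₐ[F] E}

/-- No line is fixed, for an element of `PGL₂`. -/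
def NoLineP {K : Type*} [Field K] (s : K →+* K) (δ : PGL(2, K)) : Prop :=
  ∀ d : GL (Fin 2) K, mk d = δ → NoLine s (d : Matrix (Fin 2) (Fin 2) K)

theorem nP_mk (d : GL (Fin 2) E) (g : GL (Fin 2) E)
    (hg : (g : Matrix (Fin 2) (Fin 2) E) = Nm (s : E →+* E) d) : nP s (mk d) = mk g := by
  have h1 : nP s (mk d) = mk (d * GeneralLinearGroup.map (s : E →+* E) d *
      GeneralLinearGroup.map (s : E →+* E) (GeneralLinearGroup.map (s : E →+* E) d)) := rfl
  rw [h1]
  congr 1
  apply Units.ext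
  rw [hg, Units.val_mul, Units.val_mul]
  rfl

/-- **C17-REG** over `E`. -/
theorem ellReg_nP (h3 : ∀ x, s (s (s x)) = x) {v : Valuation E ℤᵐ⁰} (hv : ∀ x, v (s x) = v x)
    {m : ℕ} (hm : 1 ≤ m) {δ g : PGL(2, E)}
    (hc : g⁻¹ * δ * sP s g ∈ H51Z.cellU v (WithZero.exp (-(m : ℤ))))
    (hl : NoLineP (s : E →+* E) δ) : EllReg (nP s δ) := by
  obtain ⟨d, rfl⟩ := mk_surjective δ
  obtain ⟨b, rfl⟩ := mk_surjective g
  set A : GL (Fin 2) E := b⁻¹ * d * GeneralLinearGroup.map (s : E →+* E) b with hA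
  have hmkA : mk A = (mk b)⁻¹ * mk d * sP s (mk b) := rfl
  rw [← hmkA, H51Z.mk_mem_cellU] at hc
  obtain ⟨hne, hU⟩ := umat_of_cell hm hc
  have hval : (A : Matrix (Fin 2) (Fin 2) E) = (b : Matrix (Fin 2) (Fin 2) E)⁻¹ *
      (d : Matrix (Fin 2) (Fin 2) E) * (b : Matrix (Fin 2) (Fin 2) E).map (s : E →+* E) := by
    rw [hA, Units.val_mul, Units.val_mul, Matrix.coe_units_inv]
    rfl
  have hlA : NoLine (s : E →+* E) (A : Matrix (Fin 2) (Fin 2) E) := by
    rw [hval]
    exact (hl d rfl).conj (det_ne_zero b)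
  have hvs : ∀ x, v ((s : E →+* E) x) = v x := hv
  have hN : H80T.UMat v (Nm (s : E →+* E) ((A 1 1)⁻¹ • (A : Matrix (Fin 2) (Fin 2) E))) :=
    (hU.mul (hU.map hvs)).mul ((hU.map hvs).map hvs)
  set B : Matrix (Fin 2) (Fin 2) E := (A 1 1)⁻¹ • (A : Matrix (Fin 2) (Fin 2) E) with hB
  have hBdet : B.det ≠ 0 := by
    rw [hB, Matrix.det_smul]
    exact mul_ne_zero (pow_ne_zero _ (inv_ne_zero hne)) (det_ne_zero A)
  have hdisc : (Nm (s : E →+* E) B).trace ^ 2 - 4 * (Nm (s : E →+* E) B).det ≠ 0 := by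
    intro h0
    have := hN.disc
    rw [h0, map_zero] at this
    exact zero_ne_one this
  have htr : (Nm (s : E →+* E) B).trace ≠ 0 := by
    intro h0
    have := hN.trace
    rw [h0, map_zero] at this
    exact zero_ne_one this
  have hell : Ell (Nm (s : E →+* E) B) :=
    ell_Nm h3 hBdet hdisc (hlA.smul (inv_ne_zero hne))
  have hNdet : (Nm (s : E →+* E) B).det ≠ 0 := by
    unfold Nm
    rw [Matrix.det_mul, Matrix.det_mul, det_map, det_map, det_map]
    have h1 : ∀ x : E, x ≠ 0 → (s : E →+* E) x ≠ 0 := fun x hx => by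
      intro h
      exact hx ((map_eq_zero (s : E →+* E)).mp h)
    exact mul_ne_zero (mul_ne_zero hBdet (h1 _ hBdet)) (h1 _ (h1 _ hBdet))
  -- the norm of `A` is conjugate to the norm of `d`
  have hmkB : mk (toGL B hBdet) = mk A := by
    rw [eq_comm, mk_eq_iff]
    exact ⟨(A 1 1)⁻¹, inv_ne_zero hne, rfl⟩
  have h1 : nP s (mk A) = mk (toGL _ hNdet) := by
    rw [← hmkB]
    exact nP_mk (toGL B hBdet) (toGL _ hNdet) rfl
  have h2 : EllReg (nP s (mk A)) := ⟨toGL _ hNdet, h1.symm, hell, htr⟩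
  have h4 : nP s (mk A) = (mk b)⁻¹ * nP s (mk d) * mk b := by
    have h5 : mk A = (mk b)⁻¹ * mk d * (sP s (mk b)⁻¹)⁻¹ := by
      rw [hmkA, map_inv, inv_inv]
    rw [h5, nP_conj s h3, inv_inv]
  rw [h4] at h2
  obtain ⟨g', hg', e1, e2⟩ := h2
  refine ⟨b * g' * b⁻¹, ?_, ?_, ?_⟩
  · rw [map_mul, map_mul, hg', map_inv]
    group
  · intro x hx
    apply e1 x
    have hbu : IsUnit (b : Matrix (Fin 2) (Fin 2) E).det := isUnit_iff_ne_zero.mpr (det_ne_zero b)
    have e3 : ((b * g' * b⁻¹ : GL (Fin 2) E) : Matrix (Fin 2) (Fin 2) E).trace =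
        (g' : Matrix (Fin 2) (Fin 2) E).trace := by
      rw [Units.val_mul, Units.val_mul, Matrix.coe_units_inv, Matrix.trace_mul_comm,
        ← Matrix.mul_assoc, Matrix.nonsing_inv_mul _ hbu, Matrix.one_mul]
    have e4 : ((b * g' * b⁻¹ : GL (Fin 2) E) : Matrix (Fin 2) (Fin 2) E).det =
        (g' : Matrix (Fin 2) (Fin 2) E).det := by
      rw [Units.val_mul, Units.val_mul, Matrix.det_mul, Matrix.det_mul, Matrix.coe_units_inv,
        mul_comm, ← mul_assoc, ← Matrix.det_mul, Matrix.nonsing_inv_mul _ hbu, Matrix.det_one,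
        one_mul]
    rw [e3, e4] at hx
    exact hx
  · have hbu : IsUnit (b : Matrix (Fin 2) (Fin 2) E).det := isUnit_iff_ne_zero.mpr (det_ne_zero b)
    have e3 : ((b * g' * b⁻¹ : GL (Fin 2) E) : Matrix (Fin 2) (Fin 2) E).trace =
        (g' : Matrix (Fin 2) (Fin 2) E).trace := by
      rw [Units.val_mul, Units.val_mul, Matrix.coe_units_inv, Matrix.trace_mul_comm,
        ← Matrix.mul_assoc, Matrix.nonsing_inv_mul _ hbu, Matrix.one_mul]
    rw [e3]
    exact e2

theorem trace_conj {K : Type*} [Field K] (b g : GL (Fin 2) K) :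
    ((b * g * b⁻¹ : GL (Fin 2) K) : Matrix (Fin 2) (Fin 2) K).trace =
      (g : Matrix (Fin 2) (Fin 2) K).trace := by
  have hbu : IsUnit (b : Matrix (Fin 2) (Fin 2) K).det := isUnit_iff_ne_zero.mpr (det_ne_zero b)
  rw [Units.val_mul, Units.val_mul, Matrix.coe_units_inv, Matrix.trace_mul_comm,
    ← Matrix.mul_assoc, Matrix.nonsing_inv_mul _ hbu, Matrix.one_mul]

/-- **C17-REG** over `F`. -/
theorem ellReg_of_noLine {K : Type*} [Field K] {v : Valuation K ℤᵐ⁰} {m : ℕ} (hm : 1 ≤ m)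
    {γ g : PGL(2, K)} (hc : g⁻¹ * γ * g ∈ H51Z.cellU v (WithZero.exp (-(m : ℤ))))
    (hl : NoLineP (RingHom.id K) γ) : EllReg γ := by
  obtain ⟨d, rfl⟩ := mk_surjective γ
  obtain ⟨b, rfl⟩ := mk_surjective g
  refine ⟨d, rfl, ell_of_noLine (hl d rfl), ?_⟩
  have hmkA : mk (b⁻¹ * d * b) = (mk b)⁻¹ * mk d * mk b := rfl
  rw [← hmkA, H51Z.mk_mem_cellU] at hc
  obtain ⟨hne, hU⟩ := umat_of_cell hm hc
  intro h0
  have h1 := hU.trace
  have h2 : ((b⁻¹ * d * b : GL (Fin 2) K) : Matrix (Fin 2) (Fin 2) K).trace = 0 := by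
    have h3 := trace_conj b (b⁻¹ * d * b)
    rw [← h3, mul_assoc, mul_assoc, mul_inv_cancel, mul_one, mul_inv_cancel_left, h0]
  rw [Matrix.trace_smul, h2, smul_zero, map_zero] at h1
  exact zero_ne_one h1

end Fermat.Agent.H56Z
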