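import Fermat.Agent.H67M7

/-!
# Matching at infinity (helper67), part 8: symmetry of `bF`, and the instance of `InfMatch` for the
other direction of the rotation (`aE.c j = j + 1`, the convention of `H79S.CSetup`)
-/

set_option autoImplicit false
set_option linter.unusedSectionVars false

noncomputable section

open MeasureTheory Set Matrix NumberField
open scoped MatrixGroups ENNReal

namespace Fermat.Agent.H67M

open Fermat.Agent Fermat.Agent.H3 Fermat.Agent.H5Z Fermat.Agent.H56Z Fermat.Agent.H59D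
open Fermat.Agent.H20.S47 (incP sP nP)

/-! ### symmetry of `bF` -/

/-- the kernel with permuted variables -/
def pK {J : Type*} (σ : Equiv.Perm J) (κ : (J → ℝ) → ℂ) : (J → ℝ) → ℂ := fun t => κ fun j => t (σ j)

theorem pK_mul {J : Type*} (σ τ : Equiv.Perm J) (κ : (J → ℝ) → ℂ) :
    pK (σ * τ) κ = pK σ (pK τ κ) := rfl

theorem pK_one {J : Type*} (κ : (J → ℝ) → ℂ) : pK 1 κ = κ := rfl

theorem isRC_pK {J : Type*} {κ : (J → ℝ) → ℂ} (hκ : IsRC κ) (σ : Equiv.Perm J) :
    IsRC (pK σ κ) := by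
  obtain ⟨M, hM⟩ := hκ.bdd
  obtain ⟨R, hR⟩ := hκ.supp
  refine ⟨hκ.cont.comp (continuous_pi fun j => continuous_apply (σ j)), ⟨M, fun u => hM _⟩, R, ?_⟩
  rintro u ⟨j, hj⟩
  refine hR _ ⟨σ.symm j, ?_⟩
  simpa using hj

theorem bk_swap12 (κ : (Fin 3 → ℝ) → ℂ) (x y : H3) :
    bk (pK (Equiv.swap 1 2) κ) x y = bk κ x y := by
  unfold bk
  refine integral_congr_ae (Filter.Eventually.of_forall fun u => ?_)
  simp only
  rw [integral_swap (fun p q => κ ![ch x u, p, q]) u y]
  refine integral_congr_ae (Filter.Eventually.of_forall fun v => ?_)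
  show κ _ = κ _
  congr 1
  funext j
  fin_cases j <;> rfl

theorem bk_swap01 {κ : (Fin 3 → ℝ) → ℂ} {C T : ℝ} (h : Adm κ C T) (x y : H3) :
    bk (pK (Equiv.swap 0 1) κ) x y = bk κ x y := by
  have h' : Adm (pK (Equiv.swap 0 1) κ) C T := h.comp_perm (Equiv.swap 0 1)
  have e1 := integrable_bkI h x y
  have e2 := integrable_bkI h' x y
  rw [bk_eq_integral h, bk_eq_integral h']
  rw [Measure.volume_eq_prod, integral_prod_symm _ e1, integral_prod_symm _ e2]
  refine integral_congr_ae (Filter.Eventually.of_forall fun v => ?_)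
  simp only
  have e3 := integral_swap (fun p q => κ ![p, q, ch v y]) x v
  refine Eq.trans ?_ (e3.symm)
  refine integral_congr_ae (Filter.Eventually.of_forall fun u => ?_)
  show κ _ = κ _
  congr 1
  funext j
  fin_cases j <;> rfl

theorem bF_swap12 (κ : (Fin 3 → ℝ) → ℂ) : bF (pK (Equiv.swap 1 2) κ) = bF κ :=
  funext fun _ => bk_swap12 κ _ _

theorem bF_swap01 {κ : (Fin 3 → ℝ) → ℂ} (hκ : IsRC κ) : bF (pK (Equiv.swap 0 1) κ) = bF κ := by
  obtain ⟨C, T, -, -, h⟩ := adm_of_isRC hκ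
  exact funext fun _ => bk_swap01 h _ _

/-- **`bF` is symmetric.** -/
theorem bF_perm {κ : (Fin 3 → ℝ) → ℂ} (hκ : IsRC κ) (σ : Equiv.Perm (Fin 3)) :
    bF (pK σ κ) = bF κ := by
  have hσ : ∀ σ : Equiv.Perm (Fin 3), σ = 1 ∨ σ = Equiv.swap 1 2 ∨ σ = Equiv.swap 0 1 ∨
      σ = Equiv.swap 1 2 * Equiv.swap 0 1 ∨ σ = Equiv.swap 0 1 * Equiv.swap 1 2 ∨
      σ = Equiv.swap 1 2 * (Equiv.swap 0 1 * Equiv.swap 1 2) := by decide
  rcases hσ σ with h | h | h | h | h | h <;> subst h
  · rfl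
  · exact bF_swap12 κ
  · exact bF_swap01 hκ
  · rw [pK_mul, bF_swap12, bF_swap01 hκ]
  · rw [pK_mul, bF_swap01 (isRC_pK hκ _), bF_swap12]
  · rw [pK_mul, pK_mul, bF_swap12, bF_swap01 (isRC_pK hκ _), bF_swap12]

/-! ### permuting the variables of the integral -/

/-- `InfMatch` is stable under a measure preserving change of variables on the `E` side which
commutes with the projections. -/
theorem infMatch_comp {HE HE' HF : Type*} [MeasurableSpace HE] [MeasurableSpace HE']
    [MeasurableSpace HF] {μE : Measure HE} {μE' : Measure HE'} {μF : Measure HF} {p : HE → HF}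
    {p' : HE' → HF} {kE : HE → ℂ} {kE' : HE' → ℂ} {kF : HF → ℂ} (e : HE' ≃ᵐ HE)
    (he : MeasurePreserving e μE' μE) (hp : ∀ x, p (e x) = p' x) (hk : ∀ x, kE (e x) = kE' x)
    (h : H57C.InfMatch μE μF p kE kF) : H57C.InfMatch μE' μF p' kE' kF := by
  refine ⟨?_, ?_, ?_, h.measF⟩
  · have : p' = p ∘ e := funext fun x => (hp x).symm
    rw [this]
    exact h.meas.comp e.measurable
  · intro f hf h0 h1 hint
    have e1 : (fun x => (f (p' x) : ℂ) * kE' x) = (fun x => (f (p x) : ℂ) * kE x) ∘ e := by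
      funext x
      simp only [Function.comp_apply, hp, hk]
    have e2 : Integrable (fun x => (f (p x) : ℂ) * kE x) μE := by
      rw [e1] at hint
      exact (he.integrable_comp_emb e.measurableEmbedding).mp hint
    rw [← h.int f hf h0 h1 e2, ← he.integral_comp e.measurableEmbedding]
    refine integral_congr_ae (Filter.Eventually.of_forall fun x => ?_)
    simp only [hp, hk]
  · intro f hf h0 h1
    refine (h.norm f hf h0 h1).trans (le_of_eq ?_)
    rw [← he.lintegral_comp_emb e.measurableEmbedding]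
    refine lintegral_congr fun x => ?_
    rw [hp, hk]

/-- the exchange of the last two variables -/
def ex12 : (Fin 3 → H3) ≃ᵐ (Fin 3 → H3) :=
  MeasurableEquiv.arrowCongr' (Equiv.swap (1 : Fin 3) 2) (MeasurableEquiv.refl H3)

theorem ex12_apply (x : Fin 3 → H3) (j : Fin 3) : ex12 x j = x (Equiv.swap (1 : Fin 3) 2 j) := by
  fin_cases j <;> rfl

theorem mp_ex12 : MeasurePreserving (ex12 : (Fin 3 → H3) → (Fin 3 → H3)) volume volume :=
  volume_preserving_arrowCongr' _ _ (MeasurePreserving.id _)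

/-- the norm in the other direction -/
theorem infMatch_cyc' {κ : (Fin 3 → ℝ) → ℂ} (hκ : IsRC κ) (G : Fin 3 → PGL(2, ℂ)) (γ : PGL(2, ℂ))
    (hγ : γ = G 0 * G 2 * G 1) :
    H57C.InfMatch (volume : Measure (Fin 3 → H3)) (volume : Measure (Fin 1 → H3)) p0
      (fun x => κ fun j => ch (x j) (G j • x (j + 2)))
      (fun y => bF κ fun j => ch (y j) (γ • y j)) := by
  have h1 := infMatch_cyc (isRC_pK hκ (Equiv.swap 1 2)) (fun j => G (Equiv.swap 1 2 j)) γ
    (by rw [hγ]; rfl)
  rw [bF_swap12] at h1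
  refine infMatch_comp ex12 mp_ex12 (fun x => ?_) (fun x => ?_) h1
  · funext j
    show ex12 x 0 = x 0
    rw [ex12_apply]
    rfl
  · show κ _ = κ _
    congr 1
    funext j
    simp only [ex12_apply]
    fin_cases j <;> rfl

variable {F E : Type*} [Field F] [NumberField F] [Field E] [NumberField E] [Algebra F E]

/-- the image of the norm at the infinite place `0` -/
theorem map_nP' (s : E ≃ₐ[F] E) (e : Fin 3 → E →+* ℂ) (hes : ∀ j x, e j x = e (j + 1) (s x))
    (d : PGL(2, E)) :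
    ProjGenLinGroup.map (e 0) (nP s d) = ProjGenLinGroup.map (e 0) d *
      ProjGenLinGroup.map (e 2) d * ProjGenLinGroup.map (e 1) d := by
  have h1 : ∀ j (g : PGL(2, E)), ProjGenLinGroup.map (e (j + 1)) (sP s g) =
      ProjGenLinGroup.map (e j) g := by
    intro j g
    have h2 : e j = (e (j + 1)).comp (s : E →+* E) := by
      ext x
      exact hes j x
    rw [h2, ProjGenLinGroup.map_comp]
    rfl
  have h0 : ∀ g : PGL(2, E), ProjGenLinGroup.map (e 0) (sP s g) = ProjGenLinGroup.map (e 2) g :=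
    fun g => h1 2 g
  have h2 : ∀ g : PGL(2, E), ProjGenLinGroup.map (e 2) (sP s g) = ProjGenLinGroup.map (e 1) g :=
    fun g => h1 1 g
  rw [nP, map_mul, map_mul, h0, h0, h2]

/-- **Hypothesis `hinf` of `H57C.geom`, direction `aE.c j = j + 1`.** -/
theorem infMatch' (s : E ≃ₐ[F] E) (mE : Model E (Fin 3)) (aE : AutData mE)
    (hsE : ∀ x, aE.s x = s x) (hc : ∀ j, aE.c j = j + 1) (mF : Model F (Fin 1))
    (he0 : mF.e 0 = (mE.e 0).comp (algebraMap F E)) {κ : (Fin 3 → ℝ) → ℂ} (hκ : IsRC κ)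
    (d : PGL(2, E)) (γ : PGL(2, F)) (hN : nP s d = incP E γ) :
    H57C.InfMatch (volume : Measure (Fin 3 → H3)) (volume : Measure (Fin 1 → H3)) p0
      (fun x => κ (Model.chJ x (mE.actInf d (aE.actInf x))))
      (fun x => bF κ (Model.chJ x (mF.actInf γ x))) := by
  have hes : ∀ j x, mE.e j x = mE.e (j + 1) (s x) := by
    intro j x
    have h1 := aE.e_s j x
    rw [hc, hsE] at h1
    exact h1.symm
  have hsym : ∀ j, aE.c.symm j = j + 2 := fun j => by
    rw [Equiv.symm_apply_eq, hc]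
    fin_cases j <;> rfl
  have key := infMatch_cyc' hκ (fun j => ProjGenLinGroup.map (mE.e j) d)
    (ProjGenLinGroup.map (mF.e 0) γ) (by
      rw [he0, ProjGenLinGroup.map_comp]
      show ProjGenLinGroup.map (mE.e 0) (incP E γ) = _
      rw [← hN, map_nP' s mE.e hes d])
  have h1 : (fun x : Fin 3 → H3 => κ (Model.chJ x (mE.actInf d (aE.actInf x)))) =
      fun x => κ fun j => ch (x j) (ProjGenLinGroup.map (mE.e j) d • x (j + 2)) := by
    funext x
    show κ _ = κ _
    congr 1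
    funext j
    show ch (x j) (ProjGenLinGroup.map (mE.e j) d • x (aE.c.symm j)) = _
    rw [hsym]
  have h2 : (fun x : Fin 1 → H3 => bF κ (Model.chJ x (mF.actInf γ x))) =
      fun y => bF κ fun j => ch (y j) (ProjGenLinGroup.map (mF.e 0) γ • y j) := by
    funext x
    congr 1
    funext j
    obtain rfl := Subsingleton.elim j 0
    rfl
  rw [h1, h2]
  exact key

/-! ### the automorphism data with `c j = j + 1` -/

theorem eC_add (e0 : E →+* ℂ) (s : E ≃ₐ[F] E) (hs : orderOf s = 3) (j : Fin 3) (x : E) :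
    eC e0 s⁻¹ (j + 1) (s x) = eC e0 s⁻¹ j x := by
  rw [eC_apply, eC_apply]
  congr 1
  have h1 : (s⁻¹ ^ ((j + 1 : Fin 3) : ℕ)) (s x) = (s⁻¹ ^ ((j + 1 : Fin 3) : ℕ) * s) x := rfl
  rw [h1]
  congr 1
  have h2 : s⁻¹ ^ ((j + 1 : Fin 3) : ℕ) = s⁻¹ ^ ((j : ℕ) + 1) := by
    rw [pow_inj_mod, orderOf_inv, hs]
    fin_cases j <;> rfl
  rw [h2, pow_succ, inv_mul_cancel_right]

/-- The automorphism data of a model of `E` with the embeddings `e0 ∘ s ^ (-j)`; `c j = j + 1`. -/
def autData (m : Model E (Fin 3)) (s : E ≃ₐ[F] E) (hs : orderOf s = 3) (e0 : E →+* ℂ)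
    (he : m.e = eC e0 s⁻¹)
    (hU : ∀ w (g : PGL(2, E)), g ∈ m.L.U w ↔
      ProjGenLinGroup.map ((s : E ≃+* E) : E →+* E) g ∈ m.L.U (sigmaP (s : E ≃+* E) w)) :
    AutData m where
  s := (s : E ≃+* E)
  σ := sigmaP (s : E ≃+* E)
  val w x := valuation_sigmaP _ w x
  c := Equiv.addRight 1
  e_s j x := by
    rw [he]
    exact eC_add e0 s hs j x
  U_s := hU

end Fermat.Agent.H67M
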