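import Fermat.Agent.H94XFin
import Fermat.Agent.H79SDef
import Fermat.Agent.H51ZIwEq
import Fermat.Agent.H57CDict
import Fermat.Agent.H67M8
import Fermat.Agent.H65FirstB
import Fermat.Agent.H26ZCut

/-!
# C17 on the setup of block (C), and `C.Geom` from the local matchings

* `below_σ`, `σ_w0`;
* `lpow_supp`: the support of `U^k`;
* `inputs`: `hE1 hE2 hF1 hF2` of `H57C.geom'` for the kernels `C.tkE κ n k`, `C.tkB κ n k`;
* `geom_of_local`: `C.Geom` from local matchings `PM`, `PM0`.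
-/

set_option autoImplicit false
set_option linter.unusedSectionVars false

noncomputable section

open MeasureTheory ENNReal IsDedekindDomain NumberField WithZero Matrix
open scoped MatrixGroups
open Matrix.ProjGenLinGroup (mk mk_surjective)

namespace Fermat.Agent.H94Y

open Fermat.Agent.H59D Fermat.Agent.H59XF Fermat.Agent.H82 Fermat.Agent.H20.S47
open Fermat.Agent.H79S
open Fermat.Agent.H94U (IsCutoff)

/-! ### The support of `U^k` -/

section Supp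

variable {K : Type*} [Field K] {v : Valuation K ℤᵐ⁰}

theorem lpow_supp {U : Subgroup PGL(2, K)} (hU : ∀ g ∈ U, g ∈ H51Z.Iw v) {κ : LocKer U}
    (hκ : IsInd κ (H51Z.cellU v (exp (-(1 : ℤ))))) (k : ℕ) :
    ∀ g h : PGL(2, K), (lpow κ k).k (g : PGL(2, K) ⧸ U) (h : PGL(2, K) ⧸ U) ≠ 0 →
      g⁻¹ * h ∈ H51Z.cellU v (exp (-(k : ℤ))) := by
  classical
  induction k with
  | zero =>
    intro g h hne
    rw [lpow_zero, LocKer.one_k] at hne
    have h1 : (g : PGL(2, K) ⧸ U) = (h : PGL(2, K) ⧸ U) := by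
      by_contra hcon
      exact hne (if_neg hcon)
    have h2 := hU _ (QuotientGroup.eq.mp h1)
    rw [Nat.cast_zero, neg_zero, exp_zero, H51Z.cellU_one]
    exact h2
  | succ k ih =>
    intro g h hne
    rw [lpow_succ, LocKer.mul_k] at hne
    obtain ⟨y, hy⟩ : ∃ y : PGL(2, K) ⧸ U, κ.k (g : PGL(2, K) ⧸ U) y *
        (lpow κ k).k y (h : PGL(2, K) ⧸ U) ≠ 0 := by
      by_contra hcon
      push Not at hcon
      exact hne (finsum_eq_zero_of_forall_eq_zero hcon)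
    obtain ⟨y, rfl⟩ := QuotientGroup.mk_surjective y
    have h1 : g⁻¹ * y ∈ H51Z.cellU v (exp (-(1 : ℤ))) := by
      by_contra hcon
      exact hy (by rw [(hκ g y).2 hcon, zero_mul])
    have h2 := ih y h (right_ne_zero_of_mul hy)
    have h3 := H51Z.cellU_mul v h1 h2
    rw [← exp_add] at h3
    have h4 : -(1 : ℤ) + -(k : ℤ) = -((k + 1 : ℕ) : ℤ) := by push_cast; ring
    rw [h4] at h3
    have h5 : g⁻¹ * y * (y⁻¹ * h) = g⁻¹ * h := by group
    rwa [h5] at h3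

end Supp

/-! ### Monomial kernels -/

section Mono

variable {K : Type*} [Field K] [NumberField K] {J : Type*} [Fintype J] {m : Model K J}
  {S : Finset (HeightOneSpectrum (𝓞 K))} {w0 : HeightOneSpectrum (𝓞 K)}
  {T : HeightOneSpectrum (𝓞 K) → H76U.TD K} (kd : KerData m S w0 T)

theorem mono_loc_bad {w : HeightOneSpectrum (𝓞 K)} (hw : w ∈ S)
    (n : HeightOneSpectrum (𝓞 K) →₀ ℕ) (k : ℕ) : (kd.D.mono n k).loc w = kd.D.e w :=
  kd.D.loc_S (by rw [kd.D_S]; exact hw)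

include kd in
theorem w0_notMem : w0 ∉ S := by
  have h := kd.D.w0S
  rwa [kd.D_w0, kd.D_S] at h

theorem mono_loc_w0 (n : HeightOneSpectrum (𝓞 K) →₀ ℕ) (k : ℕ) :
    (kd.D.mono n k).loc w0 = lpow (kd.D.U w0) k := by
  classical
  rw [HData.mono_loc, HData.loc, if_neg (by rw [kd.D_S]; exact w0_notMem kd),
    if_pos kd.D_w0.symm]

theorem mono_loc_good {w : HeightOneSpectrum (𝓞 K)} (hw : w ∉ S) (hw0 : w ≠ w0)
    (n : HeightOneSpectrum (𝓞 K) →₀ ℕ) (k : ℕ) :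
    (kd.D.mono n k).loc w = lpow (kd.D.T w) (n w) :=
  kd.D.loc_good (by rw [kd.D_S]; exact hw) (by rw [kd.D_w0]; exact hw0)

theorem mono_loc_ne {w : HeightOneSpectrum (𝓞 K)} (hw0 : w ≠ w0)
    (n : HeightOneSpectrum (𝓞 K) →₀ ℕ) (k k' : ℕ) :
    (kd.D.mono n k).loc w = (kd.D.mono n k').loc w := by
  by_cases hw : w ∈ S
  · rw [mono_loc_bad kd hw, mono_loc_bad kd hw]
  · rw [mono_loc_good kd hw hw0, mono_loc_good kd hw hw0]

include kd in
theorem iw_le : ∀ g ∈ m.L.U w0, g ∈ H51Z.Iw (w0.valuation K) := by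
  intro g hg
  rw [kd.lev_w0, H51Z.Iw_eq] at hg
  exact hg

theorem cellAt (n : HeightOneSpectrum (𝓞 K) →₀ ℕ) (k : ℕ) :
    H56Z.CellAt m (kd.D.mono n k) w0 k := by
  intro g h hne
  rw [mono_loc_w0] at hne
  exact lpow_supp (iw_le kd) kd.U_ind k g h hne

end Mono

/-! ### Norms -/

section Norm

variable {F : Type} [Field F] [NumberField F] {E : Type} [Field E] [NumberField E] [Algebra F E]
  {ζ : F} {v : HeightOneSpectrum (𝓞 F)}

/-- kernels supported in the cell of `U^(3m)` -/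
theorem suppOK_cell (h3 : v.valuation F (3 : F) = 1)
    (hunr : ∀ w ∈ above E v, v.asIdeal.ramificationIdx' w.asIdeal = 1)
    {U : Subgroup PGL(2, F)} {k : LocKer U} {m : ℕ} (hm : 1 ≤ m)
    (hk : ∀ g h : PGL(2, F), k.k (g : PGL(2, F) ⧸ U) (h : PGL(2, F) ⧸ U) ≠ 0 →
      g⁻¹ * h ∈ H51Z.cellU (v.valuation F) (exp (-((3 * m : ℕ) : ℤ)))) :
    H94W.SuppOK E ζ v k := by
  intro γ y h
  obtain ⟨g, rfl⟩ := QuotientGroup.mk_surjective y
  have h1 : g⁻¹ * (γ * g) ∈ H51Z.cellU (v.valuation F) (exp (-((3 * m : ℕ) : ℤ))) :=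
    hk g (γ * g) h
  obtain ⟨c, hc, hc1, h01, h10, hdet⟩ := h1
  refine ⟨g, c, by rw [hc, mul_assoc],
    locOK_of_cell (k := -(m : ℤ)) h3 hunr h01 h10 ?_ (by omega)⟩
  have h2 : (c : Matrix (Fin 2) (Fin 2) F).det = (GeneralLinearGroup.det c : F) := rfl
  rw [h2, hdet]
  congr 2
  push_cast
  ring

end Norm

/-! ### The setup -/

section Setup

variable {F E : Type} [Field F] [NumberField F] [Field E] [NumberField E] [Algebra F E]
  (C : CSetup F E)

/-- `σ w` and `w` lie over the same place. -/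
theorem below_σ (w : HeightOneSpectrum (𝓞 E)) : H47.below F (C.aE.σ w) = H47.below F w := by
  apply HeightOneSpectrum.ext
  ext x
  show algebraMap (𝓞 F) (𝓞 E) x ∈ (C.aE.σ w).asIdeal ↔ algebraMap (𝓞 F) (𝓞 E) x ∈ w.asIdeal
  rw [← HeightOneSpectrum.valuation_lt_one_iff_mem (K := E),
    ← HeightOneSpectrum.valuation_lt_one_iff_mem (K := E)]
  show (C.aE.σ w).valuation E (algebraMap F E (algebraMap (𝓞 F) F x)) < 1 ↔
    w.valuation E (algebraMap F E (algebraMap (𝓞 F) F x)) < 1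
  have h2 : C.aE.s (algebraMap F E (algebraMap (𝓞 F) F x)) =
      algebraMap F E (algebraMap (𝓞 F) F x) := by
    rw [C.s_eq]
    exact C.s.commutes _
  have h3 := C.aE.val w (algebraMap F E (algebraMap (𝓞 F) F x))
  rw [h2] at h3
  rw [h3]

theorem below_w0 : H47.below F C.w0 = C.v0 := by
  have h1 : C.w0 ∈ above E C.v0 := by
    rw [C.above_v0]
    exact Set.mem_singleton _
  exact (H47.eq_below_of_mem_above h1).symm

theorem σ_w0 : C.aE.σ C.w0 = C.w0 := by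
  have h1 : C.aE.σ C.w0 ∈ above E C.v0 := by
    rw [← below_w0 C, ← below_σ C C.w0]
    exact H47.mem_above_below _
  rw [C.above_v0] at h1
  exact h1

theorem s3 (x : E) : C.s (C.s (C.s x)) = x := by
  have := C.gal
  exact H83Z.s_app_three C.h3 C.s x

theorem s_fix (x : E) (hx : C.s x = x) : x ∈ Set.range (algebraMap F E) := by
  have := C.gal
  exact H83Z.fixed_of_s C.h3 C.s C.hs hx

theorem s_ne : C.s ≠ AlgEquiv.refl := C.hs

/-- the exponents vanish at the nonsplit places -/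
theorem mapDomain_eq_zero {n : HeightOneSpectrum (𝓞 E) →₀ ℕ} (hn : C.OkN n)
    {v : HeightOneSpectrum (𝓞 F)} (hv : NonSplit E v) : n.mapDomain (H47.below F) v = 0 := by
  classical
  by_contra hne
  have h1 : v ∈ (n.mapDomain (H47.below F)).support := Finsupp.mem_support_iff.mpr hne
  obtain ⟨w, hw, hwv⟩ := Finset.mem_image.mp (Finsupp.mapDomain_support h1)
  exact (hn w hw).2 (by rw [hwv]; exact hv)

/-- all local components of the kernel over `F` at nonsplit places satisfy the norm condition -/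
theorem suppOK_mono {ζ : F}
    (hbad : ∀ v ∈ C.SF, NonSplit E v → H94W.SuppOK E ζ v (C.kF.D.e v))
    (h3v : ∀ v ∉ C.SF, v.valuation F (3 : F) = 1) {n : HeightOneSpectrum (𝓞 E) →₀ ℕ}
    (hn : C.OkN n) {k : ℕ} (hk : 1 ≤ k) (v : HeightOneSpectrum (𝓞 F)) (hv : NonSplit E v) :
    H94W.SuppOK E ζ v ((C.kF.D.mono (n.mapDomain (H47.below F)) (3 * k)).loc v) := by
  by_cases hS : v ∈ C.SF
  · rw [mono_loc_bad C.kF hS]
    exact hbad v hS hv
  · by_cases h0 : v = C.v0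
    · subst h0
      rw [mono_loc_w0 C.kF]
      exact suppOK_cell (h3v _ hS) (C.unr _ hS) hk
        (lpow_supp (iw_le C.kF) C.kF.U_ind (3 * k))
    · rw [mono_loc_good C.kF hS h0, mapDomain_eq_zero C hn hv, lpow_zero]
      exact H94W.suppOK_one (h3v _ hS) (C.unr _ hS) (C.kF.lev_good v hS h0) rfl

/-- **C17 on the setup**: the hypotheses `hE1 hE2 hF1 hF2` of `H57C.geom'`. -/
theorem inputs {ζ : F} (hζ : IsPrimitiveRoot ζ 3)
    (hbad : ∀ v ∈ C.SF, NonSplit E v → H94W.SuppOK E ζ v (C.kF.D.e v))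
    (h3v : ∀ v ∉ C.SF, v.valuation F (3 : F) = 1)
    {κ : (Fin 3 → ℝ) → ℂ} (hκ : H56Z.IsRC κ) {n : HeightOneSpectrum (𝓞 E) →₀ ℕ}
    (hn : C.OkN n) :
    ∃ k0 : ℕ, ∀ k ≥ k0,
      (∀ (d : PGL(2, E)) (x : C.mE.X), C.tkE κ n k x (d • C.aE.act x) ≠ 0 →
        EllReg (nP C.s d)) ∧
      (∀ χ : C.mE.X → ℝ≥0∞, IsCutoff PGL(2, E) χ →
        ∑' d : PGL(2, E), ∫⁻ x, ‖C.tkE κ n k x (d • C.aE.act x)‖ₑ ∂(C.mE.μ.withDensity χ) ≠ ⊤) ∧
      (∀ (γ : PGL(2, F)) (y : C.mF.X), C.tkB κ n k y (γ • y) ≠ 0 →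
        EllReg γ ∧ ∃ d : PGL(2, E), nP C.s d = incP E γ) ∧
      ∀ χ : C.mF.X → ℝ≥0∞, IsCutoff PGL(2, F) χ →
        ∑' γ : PGL(2, F), ∫⁻ y, ‖C.tkB κ n k y (γ • y)‖ₑ ∂(C.mF.μ.withDensity χ) ≠ ⊤ := by
  have := H35BK.isTotallyComplex C.mF
  obtain ⟨M1, hM1⟩ := H94X.c17_E (s3 C) C.aE C.s_eq (σ_w0 C) (iw_le C.kE)
    (C.kE.D.mono n 0) hκ
  obtain ⟨M2, hM2⟩ := H94X.c17_F hζ (s3 C) (s_ne C) (s_fix C) (iw_le C.kF)
    (C.kF.D.mono (n.mapDomain (H47.below F)) 0) (H67M.isRC_bF hκ)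
  refine ⟨max (max M1 M2) 1, fun k hk => ?_⟩
  have hk1 : M1 ≤ k := (le_max_left _ _).trans ((le_max_left _ _).trans hk)
  have hk2 : M2 ≤ 3 * k := by
    have : M2 ≤ k := (le_max_right _ _).trans ((le_max_left _ _).trans hk)
    omega
  have hk3 : 1 ≤ k := (le_max_right _ _).trans hk
  obtain ⟨h1, h2⟩ := hM1 k hk1 (C.kE.D.mono n k)
    (fun w hw y y' h => by rwa [mono_loc_ne C.kE hw n 0 k]) (cellAt C.kE n k)
  obtain ⟨h3, h4⟩ := hM2 (3 * k) hk2 (C.kF.D.mono (n.mapDomain (H47.below F)) (3 * k))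
    (fun w hw y y' h => by rwa [mono_loc_ne C.kF hw _ 0 (3 * k)]) (cellAt C.kF _ _)
    (suppOK_mono C hbad h3v hn hk3)
  exact ⟨h1, h2, h3, h4⟩

theorem finite_below (v : HeightOneSpectrum (𝓞 F)) :
    {w : HeightOneSpectrum (𝓞 E) | H47.below F w = v}.Finite := by
  have h1 : {w : HeightOneSpectrum (𝓞 E) | H47.below F w = v} ⊆ above E v := by
    rintro w rfl
    exact H47.mem_above_below w
  exact (H65.finite_above v).subset h1

/-- **`C.Geom` from the local matchings.** `mT` is a third model over `F`, for the third spaces. -/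
theorem geom_of_local {ζ : F} (hζ : IsPrimitiveRoot ζ 3)
    (hbad : ∀ v ∈ C.SF, NonSplit E v → H94W.SuppOK E ζ v (C.kF.D.e v))
    (h3v : ∀ v ∉ C.SF, v.valuation F (3 : F) = 1)
    (mT : Model F (Fin 1)) (he : mT.e = C.mF.e)
    (hloc : ∀ n, C.OkN n → ∃ k1 : ℕ, ∀ k ≥ k1, ∃ S : Set (HeightOneSpectrum (𝓞 F)), S.Finite ∧
      (∀ v ∈ S, H57C.PM C.s C.aE.twist (H47.below F) (below_σ C) (C.kE.D.mono n k)
        (C.kF.D.mono (n.mapDomain (H47.below F)) (3 * k)) (mT.L.fam.U v) v) ∧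
      ∀ v ∉ S, H57C.PM0 C.s C.aE.twist (H47.below F) (below_σ C) (C.kE.D.mono n k)
        (C.kF.D.mono (n.mapDomain (H47.below F)) (3 * k)) (mT.L.fam.U v) v) : C.Geom := by
  intro cE cF κ hκ n hn
  obtain ⟨k0, hk0⟩ := inputs C hζ hbad h3v hκ hn
  obtain ⟨k1, hk1⟩ := hloc n hn
  refine ⟨max k0 k1, fun k hk => ?_⟩
  obtain ⟨h1, h2, h3, h4⟩ := hk0 k ((le_max_left _ _).trans hk)
  obtain ⟨S, hS, hPM, hPM0⟩ := hk1 k ((le_max_right _ _).trans hk)
  obtain ⟨χT, -⟩ := H26Z.exists_cutOff mT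
  have he0 : C.mF.e 0 = (C.mE.e 0).comp (algebraMap F E) := by
    ext x
    exact (C.e_alg 0 x).symm
  have hc : ∀ j, C.aE.c j = j + 1 := fun j => by
    rw [C.c_eq]
    rfl
  exact H57C.geom' C.s (s3 C) (s_ne C) (s_fix C) C.mE C.aE C.s_eq C.mF mT he (H47.below F)
    (below_σ C) finite_below κ (H67M.bF κ) hκ.cont.measurable (H67M.isRC_bF hκ).cont.measurable
    (C.kE.D.mono n k) (C.kF.D.mono (n.mapDomain (H47.below F)) (3 * k)) H67M.p0
    (H67M.p0_actInf C.mE C.mF he0) (H67M.infMatch' C.s C.mE C.aE C.s_eq hc C.mF he0 hκ)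
    (χE := cE.χ) ⟨cE.meas, cE.sum_eq⟩ (χF := cF.χ) ⟨cF.meas, cF.sum_eq⟩
    (χT := χT.χ) ⟨χT.meas, χT.sum_eq⟩ h1 (h2 _ ⟨cE.meas, cE.sum_eq⟩) h3
    (h4 _ ⟨cF.meas, cF.sum_eq⟩) hS hPM hPM0

end Setup

end Fermat.Agent.H94Y

end
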