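import Fermat.Agent.H57CSet
import Fermat.Agent.H94YSetup
import Fermat.Agent.H25ZV0d
import Fermat.Agent.H67M8

/-!
# Block (C) of S47: GEOM on helper79's setup, part 2

`geom_of_PM`: `C.Geom` from the local matchings at the bad places and at the good places
(the place `v0`, the convergence and norm statements and the matching at infinity are put in).
-/

set_option linter.unusedSectionVars false

noncomputable section

namespace Fermat.Agent.H57C

open MeasureTheory Filter H59D H59XF IsDedekindDomain NumberField Matrix H79S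
open scoped ENNReal MatrixGroups
open H20.S47 (incP sP nP EllReg)

variable {F E : Type} [Field F] [NumberField F] [Field E] [NumberField E] [Algebra F E]
  (C : CSetup F E)

theorem PMat_v0 (n : HeightOneSpectrum (𝓞 E) →₀ ℕ) {k : ℕ} (hk : 1 ≤ k) : PMat C n k C.v0 :=
  H25V.cs_pm_v0 C hk n _ (below_σ C) (HT_good C C.v0S)

theorem geom_of_PM {ζ : F} (hζ : IsPrimitiveRoot ζ 3)
    (h3v : ∀ v ∉ C.SF, v.valuation F (3 : F) = 1)
    (hb : ∀ v ∈ C.SF, ∃ c : PGL(2, F), ∀ g ∈ (C.TF v).H, c⁻¹ * g * c ∈ U0 v)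
    (hsupp : ∀ v ∈ C.SF, H82.NonSplit E v → H94W.SuppOK E ζ v (C.kF.D.e v))
    (hbad : ∀ v ∈ C.SF, PMat C 0 0 v)
    (hgood : ∀ n, C.OkN n → ∀ k, ∀ v ∉ C.SF, v ≠ C.v0 → PM0at C n k v) : C.Geom := by
  have he0 : C.mF.e 0 = (C.mE.e 0).comp (algebraMap F E) :=
    RingHom.ext fun x => (C.e_alg 0 x).symm
  refine geomC C hb H67M.p0 (H67M.p0_actInf C.mE C.mF he0) ?_ ?_ hbad
    (fun n _ k hk => PMat_v0 C n hk) hgood
  · intro κ hκ d γ hN
    exact H67M.infMatch' C.s C.mE C.aE C.s_eq (fun j => by rw [C.c_eq]; rfl) C.mF he0 hκ d γ hN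
  · intro κ hκ n hn
    exact H94Y.inputs C hζ hsupp h3v hκ hn

end Fermat.Agent.H57C
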