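import Mathlib

/-!
# Block (C) of S47, package C18a: local matching and restricted products

`LocMatch aE aF φ ψ β`: the weight `φ` on `XE` is pushed forward along the (equivariant on the support)
map `β : XE → XF` to the weight `ψ` on `XF`.

The main result `LocMatch.rprod`: local matchings at all places, which respect the base points at
almost all places, give a matching of the restricted products.
-/

namespace Fermat.Agent.H57C

open Filter

/-- `β` transports the weight `φ` to the weight `ψ`, compatibly with the operations `aE`, `aF` of `T`. -/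
structure LocMatch {T XE XF : Type*} (aE : T → XE → XE) (aF : T → XF → XF)
    (φ : XE → ℂ) (ψ : XF → ℂ) (β : XE → XF) : Prop where
  equiv : ∀ t x, φ x ≠ 0 → β (aE t x) = aF t (β x)
  fin : ∀ y, {x | φ x ≠ 0 ∧ β x = y}.Finite
  sum : ∀ y, ∑ᶠ x ∈ {x | φ x ≠ 0 ∧ β x = y}, φ x = ψ y

/-- a bijection of supports preserving the weights is a matching -/
theorem LocMatch.of_bij {T XE XF : Type*} {aE : T → XE → XE} {aF : T → XF → XF}
    {φ : XE → ℂ} {ψ : XF → ℂ} {β : XE → XF}
    (h1 : ∀ t x, φ x ≠ 0 → β (aE t x) = aF t (β x))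
    (h2 : ∀ x, φ x ≠ 0 → ψ (β x) = φ x)
    (h3 : ∀ x x', φ x ≠ 0 → φ x' ≠ 0 → β x = β x' → x = x')
    (h4 : ∀ y, ψ y ≠ 0 → ∃ x, φ x ≠ 0 ∧ β x = y) : LocMatch aE aF φ ψ β := by
  have hsub : ∀ y, {x | φ x ≠ 0 ∧ β x = y}.Subsingleton := by
    intro y x hx x' hx'
    exact h3 x x' hx.1 hx'.1 (hx.2.trans hx'.2.symm)
  refine ⟨h1, fun y => (hsub y).finite, fun y => ?_⟩
  by_cases hy : ψ y = 0
  · have : {x | φ x ≠ 0 ∧ β x = y} = ∅ := by
      ext x
      simp only [Set.mem_ofPred_eq, Set.mem_empty_iff_false, iff_false, not_and]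
      intro hx hxy
      apply hx
      rw [← h2 x hx, hxy, hy]
    rw [this, hy]
    simp
  · obtain ⟨x, hx, hxy⟩ := h4 y hy
    have : {x | φ x ≠ 0 ∧ β x = y} = {x} := by
      ext x'
      simp only [Set.mem_ofPred_eq, Set.mem_singleton_iff]
      constructor
      · rintro ⟨h, h'⟩
        exact h3 x' x h hx (h'.trans hxy.symm)
      · rintro rfl
        exact ⟨hx, hxy⟩
    rw [this, finsum_mem_singleton, ← h2 x hx, hxy]

/-- restricted product of a family of pointed types -/
abbrev RP {V : Type*} (X : V → Type*) (b : ∀ v, X v) : Type _ :=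
  {x : ∀ v, X v // {v | x v ≠ b v}.Finite}

section rprod

variable {V : Type*} {XE XF : V → Type*} {bE : ∀ v, XE v} {bF : ∀ v, XF v}
  {T : Type*} {aE : ∀ v, T → XE v → XE v} {aF : ∀ v, T → XF v → XF v}
  {φ : ∀ v, XE v → ℂ} {ψ : ∀ v, XF v → ℂ} {β : ∀ v, XE v → XF v}

/-- compatibility with the base point at one place -/
structure Base {XE XF : Type*} (bE : XE) (bF : XF) (φ : XE → ℂ) (ψ : XF → ℂ) (β : XE → XF) :
    Prop where
  one : φ bE = 1
  one' : ψ bF = 1
  iff : ∀ x, φ x ≠ 0 → (β x = bF ↔ x = bE)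

theorem Base.map {XE XF : Type*} {bE : XE} {bF : XF} {φ : XE → ℂ} {ψ : XF → ℂ} {β : XE → XF}
    (h : Base bE bF φ ψ β) : β bE = bF :=
  (h.iff bE (by rw [h.one]; exact one_ne_zero)).2 rfl

/-- the product weight -/
noncomputable def prodW (φ : ∀ v, XE v → ℂ) (x : RP XE bE) : ℂ := ∏ᶠ v, φ v (x.1 v)

theorem finite_mulSupport (h0 : ∀ᶠ v in cofinite, φ v (bE v) = 1) (x : RP XE bE) :
    (Function.mulSupport fun v => φ v (x.1 v)).Finite := by
  refine Set.Finite.subset (x.2.union h0) ?_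
  intro v hv
  by_contra hcon
  simp only [Set.mem_union, Set.mem_ofPred_eq, not_or, not_not, Set.mem_compl_iff] at hcon
  apply hv
  show φ v (x.1 v) = 1
  rw [hcon.1]
  exact hcon.2

theorem prodW_eq_prod (x : RP XE bE) (S : Finset V)
    (hS : ∀ v ∉ S, φ v (x.1 v) = 1) : prodW φ x = ∏ v ∈ S, φ v (x.1 v) := by
  unfold prodW
  refine finprod_eq_prod_of_mulSupport_subset _ ?_
  intro v hv
  by_contra hcon
  exact hv (hS v hcon)

theorem prodW_ne_zero (h0 : ∀ᶠ v in cofinite, φ v (bE v) = 1) (x : RP XE bE) :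
    prodW φ x ≠ 0 ↔ ∀ v, φ v (x.1 v) ≠ 0 := by
  have hfin := finite_mulSupport h0 x
  rw [prodW, finprod_eq_prod _ hfin, Finset.prod_ne_zero_iff]
  constructor
  · intro h v
    by_cases hv : v ∈ hfin.toFinset
    · exact h v hv
    · have : φ v (x.1 v) = 1 := by
        by_contra hcon
        exact hv (hfin.mem_toFinset.2 hcon)
      rw [this]
      exact one_ne_zero
  · intro h v _
    exact h v

variable (β) in
/-- the product of the local maps -/
def mapRP (hb : ∀ᶠ v in cofinite, β v (bE v) = bF v) (x : RP XE bE) : RP XF bF :=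
  ⟨fun v => β v (x.1 v), by
    refine Set.Finite.subset (x.2.union hb) ?_
    intro v hv
    by_contra hcon
    simp only [Set.mem_union, Set.mem_ofPred_eq, not_or, not_not, Set.mem_compl_iff] at hcon
    apply hv
    show β v (x.1 v) = bF v
    rw [hcon.1]
    exact hcon.2⟩

theorem LocMatch.rprod (h : ∀ v, LocMatch (aE v) (aF v) (φ v) (ψ v) (β v))
    (h0 : ∀ᶠ v in cofinite, Base (bE v) (bF v) (φ v) (ψ v) (β v))
    {aEf : T → RP XE bE → RP XE bE} {aFf : T → RP XF bF → RP XF bF}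
    (hE : ∀ t x v, (aEf t x).1 v = aE v t (x.1 v))
    (hF : ∀ t x v, (aFf t x).1 v = aF v t (x.1 v)) :
    LocMatch aEf aFf (prodW φ) (prodW ψ) (mapRP β (h0.mono fun _ h => h.map)) := by
  classical
  have h1 : ∀ᶠ v in cofinite, φ v (bE v) = 1 := h0.mono fun _ h => h.one
  have h1' : ∀ᶠ v in cofinite, ψ v (bF v) = 1 := h0.mono fun _ h => h.one'
  -- description of the fibres
  have key : ∀ y : RP XF bF, ∃ S : Finset V,
      (∀ v ∉ S, Base (bE v) (bF v) (φ v) (ψ v) (β v) ∧ y.1 v = bF v) := by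
    intro y
    refine ⟨(y.2.union h0).toFinset, fun v hv => ?_⟩
    simp only [Set.Finite.mem_toFinset, Set.mem_union, Set.mem_ofPred_eq, not_or, not_not,
      Set.mem_compl_iff] at hv
    exact ⟨hv.2, hv.1⟩
  -- the fibre as image of a finite product
  have fib : ∀ (y : RP XF bF) (S : Finset V),
      (∀ v ∉ S, Base (bE v) (bF v) (φ v) (ψ v) (β v) ∧ y.1 v = bF v) →
      ∀ (Fb : ∀ v, Finset (XE v)) (_ : ∀ v x, x ∈ Fb v ↔ φ v x ≠ 0 ∧ β v x = y.1 v),
      ∃ (J : ∀ p : (∀ v ∈ S, XE v), RP XE bE),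
        (∀ p, ∀ v (hv : v ∈ S), (J p).1 v = p v hv) ∧ (∀ p, ∀ v ∉ S, (J p).1 v = bE v) ∧
        Set.BijOn J (S.pi Fb : Finset (∀ v ∈ S, XE v))
          {x | prodW φ x ≠ 0 ∧ mapRP β (h0.mono fun _ h => h.map) x = y} := by
    intro y S hS Fb hFb
    let J : (∀ v ∈ S, XE v) → RP XE bE := fun p =>
      ⟨fun v => if hv : v ∈ S then p v hv else bE v, by
        refine Set.Finite.subset S.finite_toSet ?_
        intro v hv
        by_contra hcon
        apply hv
        simp only [Finset.mem_coe] at hcon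
        simp [hcon]⟩
    have hJ1 : ∀ p, ∀ v (hv : v ∈ S), (J p).1 v = p v hv := by
      intro p v hv
      simp [J, hv]
    have hJ2 : ∀ p, ∀ v ∉ S, (J p).1 v = bE v := by
      intro p v hv
      simp [J, hv]
    refine ⟨J, hJ1, hJ2, ?_, ?_, ?_⟩
    · intro p hp
      have hp' : ∀ v (hv : v ∈ S), p v hv ∈ Fb v := by
        intro v hv
        exact (Finset.mem_pi.1 (Finset.mem_coe.1 hp)) v hv
      refine ⟨?_, ?_⟩
      · rw [prodW_ne_zero h1]
        intro v
        by_cases hv : v ∈ S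
        · rw [hJ1 p v hv]
          exact ((hFb v _).1 (hp' v hv)).1
        · rw [hJ2 p v hv, (hS v hv).1.one]
          exact one_ne_zero
      · apply Subtype.ext
        funext v
        show β v ((J p).1 v) = y.1 v
        by_cases hv : v ∈ S
        · rw [hJ1 p v hv]
          exact ((hFb v _).1 (hp' v hv)).2
        · rw [hJ2 p v hv, (hS v hv).2]
          exact (hS v hv).1.map
    · intro p _ q _ hpq
      funext v hv
      rw [← hJ1 p v hv, ← hJ1 q v hv, hpq]
    · rintro x ⟨hx, hxy⟩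
      rw [prodW_ne_zero h1] at hx
      refine ⟨fun v _ => x.1 v, ?_, ?_⟩
      · rw [Finset.mem_coe, Finset.mem_pi]
        intro v hv
        rw [hFb]
        exact ⟨hx v, congrArg (fun z : RP XF bF => z.1 v) hxy⟩
      · apply Subtype.ext
        funext v
        by_cases hv : v ∈ S
        · rw [hJ1 _ v hv]
        · rw [hJ2 _ v hv]
          have e1 : β v (x.1 v) = bF v := by
            have := congrArg (fun z : RP XF bF => z.1 v) hxy
            have e2 : β v (x.1 v) = y.1 v := this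
            rw [e2, (hS v hv).2]
          exact (((hS v hv).1.iff (x.1 v) (hx v)).1 e1).symm
  refine ⟨?_, ?_, ?_⟩
  · intro t x hx
    rw [prodW_ne_zero h1] at hx
    apply Subtype.ext
    funext v
    show β v ((aEf t x).1 v) = (aFf t _).1 v
    rw [hE, hF]
    exact (h v).equiv t (x.1 v) (hx v)
  · intro y
    obtain ⟨S, hS⟩ := key y
    let Fb : ∀ v, Finset (XE v) := fun v => ((h v).fin (y.1 v)).toFinset
    have hFb : ∀ v x, x ∈ Fb v ↔ φ v x ≠ 0 ∧ β v x = y.1 v := by
      intro v x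
      simp [Fb]
    obtain ⟨J, _, _, hJ⟩ := fib y S hS Fb hFb
    exact hJ.finite_iff_finite.1 (Finset.finite_toSet _)
  · intro y
    obtain ⟨S, hS⟩ := key y
    let Fb : ∀ v, Finset (XE v) := fun v => ((h v).fin (y.1 v)).toFinset
    have hFb : ∀ v x, x ∈ Fb v ↔ φ v x ≠ 0 ∧ β v x = y.1 v := by
      intro v x
      simp [Fb]
    obtain ⟨J, hJ1, hJ2, hJ⟩ := fib y S hS Fb hFb
    have e1 : ∑ᶠ x ∈ {x | prodW φ x ≠ 0 ∧ mapRP β (h0.mono fun _ h => h.map) x = y}, prodW φ x
        = ∑ᶠ p ∈ ((S.pi Fb : Finset (∀ v ∈ S, XE v)) : Set (∀ v ∈ S, XE v)), prodW φ (J p) := by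
      symm
      exact finsum_mem_eq_of_bijOn J hJ fun p _ => rfl
    rw [e1, finsum_mem_coe_finset]
    have e2 : ∀ p : (∀ v ∈ S, XE v), prodW φ (J p) = ∏ v ∈ S.attach, φ v.1 (p v.1 v.2) := by
      intro p
      rw [prodW_eq_prod (J p) S]
      · rw [← Finset.prod_attach]
        refine Finset.prod_congr rfl fun v _ => ?_
        rw [hJ1 p v.1 v.2]
      · intro v hv
        rw [hJ2 p v hv]
        exact (hS v hv).1.one
    rw [Finset.sum_congr rfl fun p _ => e2 p, ← Finset.prod_sum]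
    rw [prodW_eq_prod y S]
    · refine Finset.prod_congr rfl fun v _ => ?_
      rw [← (h v).sum (y.1 v)]
      rw [finsum_mem_eq_finite_toFinset_sum _ ((h v).fin (y.1 v))]
    · intro v hv
      rw [(hS v hv).2]
      exact (hS v hv).1.one'

end rprod

end Fermat.Agent.H57C
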