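import Fermat.Agent.H57CGood
import Fermat.Agent.H84ZBadP
import Fermat.Agent.H94ZDeep

/-!
# Block (C) of S47: GEOM on helper79's setup, part 4

`geom_of_ns`: `C.Geom` from the local matchings at the bad nonsplit places.
-/

set_option linter.unusedSectionVars false

noncomputable section

namespace Fermat.Agent.H57C

open MeasureTheory Filter H59D H59XF IsDedekindDomain NumberField Matrix H79S
open scoped ENNReal MatrixGroups
open H20.S47 (incP sP nP EllReg)

variable {F E : Type} [Field F] [NumberField F] [Field E] [NumberField E] [Algebra F E]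
  (C : CSetup F E)

/-- **`C.Geom` from the local matchings at the bad nonsplit places.** -/
theorem geom_of_ns {ζ : F} (hζ : IsPrimitiveRoot ζ 3)
    (h3v : ∀ v ∉ C.SF, v.valuation F (3 : F) = 1)
    (hb : ∀ v ∈ C.SF, ∃ c : PGL(2, F), ∀ g ∈ (C.TF v).H, c⁻¹ * g * c ∈ U0 v)
    (hsupp : ∀ v ∈ C.SF, H82.NonSplit E v → H94W.SuppOK E ζ v (C.kF.D.e v))
    (hSP : ∀ v ∈ C.SF, ¬ H82.NonSplit E v → ∀ w : HeightOneSpectrum (𝓞 E),
      H47.below F w = v → ∀ x : F,
      (x ∈ (C.TF v).A ↔ algebraMap F E x ∈ (C.TE w).A) ∧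
      (x ∈ (C.TF v).B ↔ algebraMap F E x ∈ (C.TE w).B) ∧
      (x ∈ (C.TF v).C ↔ algebraMap F E x ∈ (C.TE w).C))
    (hns : ∀ v ∈ C.SF, H82.NonSplit E v → PMat C 0 0 v) : C.Geom := by
  refine geom_of_bad C hζ h3v hb hsupp fun v hv => ?_
  by_cases h : H82.NonSplit E v
  · exact hns v hv h
  · obtain ⟨w, hw⟩ := exists_above (E := E) v
    exact H84Z.pmat_badsplit C hv h hw (hSP v hv h w hw) 0 0

end Fermat.Agent.H57C
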