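import Fermat.Agent.H57CLoc
import Fermat.Agent.H94UCut

/-!
# Block (C) of S47, package C18b: equality of orbital integrals from local matching

`HE`, `HF` the archimedean spaces, `YE`, `YF` the (countable, discrete) finite parts.
-/

set_option linter.unusedSectionVars false

namespace Fermat.Agent.H57C

open MeasureTheory Filter
open scoped ENNReal

/-- Archimedean matching: integration along the fibres of `p : HE → HF` sends `kE` to `kF`. -/
structure InfMatch {HE HF : Type*} [MeasurableSpace HE] [MeasurableSpace HF]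
    (μE : Measure HE) (μF : Measure HF) (p : HE → HF) (kE : HE → ℂ) (kF : HF → ℂ) : Prop where
  meas : Measurable p
  int : ∀ h : HF → ℝ, Measurable h → (∀ x, 0 ≤ h x) → (∀ x, h x ≤ 1) →
    Integrable (fun x => (h (p x) : ℂ) * kE x) μE →
    ∫ x, (h (p x) : ℂ) * kE x ∂μE = ∫ x, (h x : ℂ) * kF x ∂μF
  norm : ∀ h : HF → ℝ, Measurable h → (∀ x, 0 ≤ h x) → (∀ x, h x ≤ 1) →
    ∫⁻ x, ‖(h x : ℂ) * kF x‖ₑ ∂μF ≤ ∫⁻ x, ‖(h (p x) : ℂ) * kE x‖ₑ ∂μE
  measF : Measurable kF

theorem enorm_finsum_le {α : Type*} {s : Set α} (hs : s.Finite) (f : α → ℂ) :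
    ‖∑ᶠ x ∈ s, f x‖ₑ ≤ ∑ x ∈ hs.toFinset, ‖f x‖ₑ := by
  rw [finsum_mem_eq_finite_toFinset_sum _ hs]
  exact enorm_sum_le _ _

variable {HE HF YE YF T : Type*} [MeasurableSpace HE] [MeasurableSpace HF]
  [MeasurableSpace YE] [MeasurableSpace YF] [DiscreteMeasurableSpace YE]
  [DiscreteMeasurableSpace YF] [Countable YE] [Countable YF]
  {μE : Measure HE} {μF : Measure HF} [SigmaFinite μE] [SigmaFinite μF]
  {p : HE → HF} {kE : HE → ℂ} {kF : HF → ℂ} {φ : YE → ℂ} {ψ : YF → ℂ} {β : YE → YF}
  {aE : T → YE → YE} {aF : T → YF → YF}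

/-- sum over `YE` of a function supported on `φ ≠ 0`, organised along `β` -/
theorem tsum_fiber_enn (hm : LocMatch aE aF φ ψ β) (u : YF → ℝ≥0∞) :
    ∑' y, u y * ‖ψ y‖ₑ ≤ ∑' x, u (β x) * ‖φ x‖ₑ := by
  classical
  have h1 : ∑' x, u (β x) * ‖φ x‖ₑ = ∑' y, ∑' x : {x // β x = y}, u (β x.1) * ‖φ x.1‖ₑ := by
    rw [← (Equiv.sigmaFiberEquiv β).tsum_eq, ENNReal.tsum_sigma']
    rfl
  rw [h1]
  refine ENNReal.tsum_le_tsum fun y => ?_
  have h2 : ∑' x : {x // β x = y}, u (β x.1) * ‖φ x.1‖ₑ
      = u y * ∑' x : {x // β x = y}, ‖φ x.1‖ₑ := by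
    rw [← ENNReal.tsum_mul_left]
    refine tsum_congr fun x => ?_
    rw [x.2]
  rw [h2]
  refine mul_le_mul_right ?_ _
  rw [← hm.sum y]
  refine (enorm_finsum_le (hm.fin y) φ).trans ?_
  have h3 : ∑ x ∈ (hm.fin y).toFinset, ‖φ x‖ₑ
      = ∑' x : {x // x ∈ (hm.fin y).toFinset}, ‖φ x.1‖ₑ := by
    rw [← Finset.sum_attach, tsum_fintype]
    rfl
  rw [h3]
  let e : {x // x ∈ (hm.fin y).toFinset} → {x // β x = y} := fun x =>
    ⟨x.1, by
      have := x.2
      rw [Set.Finite.mem_toFinset] at this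
      exact this.2⟩
  have he : Function.Injective e := by
    intro a b hab
    apply Subtype.ext
    have h4 : (e a).1 = (e b).1 := congrArg Subtype.val hab
    exact h4
  exact ENNReal.tsum_comp_le_tsum_of_injective he (fun x : {x // β x = y} => ‖φ x.1‖ₑ)

theorem tsum_fiber (hm : LocMatch aE aF φ ψ β) (u : YF → ℂ)
    (hs : Summable fun x => u (β x) * φ x) :
    ∑' x, u (β x) * φ x = ∑' y, u y * ψ y := by
  classical
  have h1 : ∑' x, u (β x) * φ x = ∑' y, ∑' x : {x // β x = y}, u (β x.1) * φ x.1 := by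
    rw [← (Equiv.sigmaFiberEquiv β).tsum_eq]
    rw [Summable.tsum_sigma]
    · rfl
    · exact ((Equiv.sigmaFiberEquiv β).summable_iff).2 hs
  rw [h1]
  refine tsum_congr fun y => ?_
  have h2 : ∑' x : {x // β x = y}, u (β x.1) * φ x.1
      = u y * ∑' x : {x // β x = y}, φ x.1 := by
    rw [← tsum_mul_left]
    refine tsum_congr fun x => ?_
    rw [x.2]
  rw [h2]
  congr 1
  rw [← hm.sum y, finsum_mem_eq_finite_toFinset_sum _ (hm.fin y)]
  have h3 : ∀ x : {x // β x = y}, x ∉ (((hm.fin y).toFinset).subtype fun x => β x = y) →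
      φ x.1 = 0 := by
    intro x hx
    rw [Finset.mem_subtype, Set.Finite.mem_toFinset] at hx
    by_contra hcon
    exact hx ⟨hcon, x.2⟩
  rw [tsum_eq_sum h3, Finset.sum_subtype_of_mem]
  intro x hx
  rw [Set.Finite.mem_toFinset] at hx
  exact hx.2

theorem integral_count_tsum {Y : Type*} [MeasurableSpace Y] [DiscreteMeasurableSpace Y] [Countable Y]
    (f : Y → ℂ) (hf : Integrable f Measure.count) :
    Summable f ∧ ∫ y, f y ∂Measure.count = ∑' y, f y := by
  refine ⟨?_, ?_⟩
  · exact Summable.of_norm (hasFiniteIntegral_count_iff.1 hf.2)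
  · rw [integral_countable hf]
    refine tsum_congr fun y => ?_
    simp [Measure.real]

theorem orb_step2 (hm : LocMatch aE aF φ ψ β) (hi : InfMatch μE μF p kE kF)
    (χ : HF × YF → ℝ) (hχ : Measurable χ) (hχ0 : ∀ z, 0 ≤ χ z) (hχ1 : ∀ z, χ z ≤ 1)
    (hint : Integrable (fun z : HE × YE => (χ (p z.1, β z.2) : ℂ) * (kE z.1 * φ z.2))
      (μE.prod Measure.count)) :
    Integrable (fun z : HF × YF => (χ z : ℂ) * (kF z.1 * ψ z.2)) (μF.prod Measure.count) ∧
    ∫ z : HE × YE, (χ (p z.1, β z.2) : ℂ) * (kE z.1 * φ z.2) ∂(μE.prod Measure.count) =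
      ∫ z : HF × YF, (χ z : ℂ) * (kF z.1 * ψ z.2) ∂(μF.prod Measure.count) := by
  classical
  have hχy : ∀ y, Measurable fun x => χ (x, y) := fun y => hχ.comp (measurable_id.prodMk
    measurable_const)
  -- slices
  have hsl : ∀ y, Integrable (fun x => (χ (p x, β y) : ℂ) * (kE x * φ y)) μE := by
    have := hint.prod_left_ae
    rwa [Measure.ae_count_iff] at this
  have hsl' : ∀ y, φ y ≠ 0 → Integrable (fun x => (χ (p x, β y) : ℂ) * kE x) μE := by
    intro y hy
    have h1 := (hsl y).mul_const (φ y)⁻¹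
    refine h1.congr (Eventually.of_forall fun x => ?_)
    show (χ (p x, β y) : ℂ) * (kE x * φ y) * (φ y)⁻¹ = _
    field_simp
  set u : YF → ℝ≥0∞ := fun y => ∫⁻ x, ‖(χ (p x, y) : ℂ) * kE x‖ₑ ∂μE with hu
  have hmeasF : Measurable (fun z : HF × YF => (χ z : ℂ) * (kF z.1 * ψ z.2)) := by
    have h1 : Measurable ψ := Measurable.of_discrete
    exact (Complex.measurable_ofReal.comp hχ).mul
      ((hi.measF.comp measurable_fst).mul (h1.comp measurable_snd))
  have hfin : ∑' y, u (β y) * ‖φ y‖ₑ < ⊤ := by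
    have h1 := hint.2
    rw [hasFiniteIntegral_iff_enorm, lintegral_prod_symm _ hint.1.enorm, lintegral_count] at h1
    refine lt_of_eq_of_lt (tsum_congr fun y => ?_) h1
    rw [hu]
    by_cases hy : φ y = 0
    · simp [hy]
    · rw [← lintegral_mul_const' _ _ enorm_ne_top]
      refine lintegral_congr fun x => ?_
      rw [← enorm_mul, mul_assoc]
  have hintF : Integrable (fun z : HF × YF => (χ z : ℂ) * (kF z.1 * ψ z.2))
      (μF.prod Measure.count) := by
    refine ⟨hmeasF.aestronglyMeasurable, ?_⟩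
    rw [hasFiniteIntegral_iff_enorm, lintegral_prod_symm _ hmeasF.enorm.aemeasurable,
      lintegral_count]
    refine lt_of_le_of_lt ?_ hfin
    refine le_trans (ENNReal.tsum_le_tsum fun y => ?_) (tsum_fiber_enn hm u)
    have h2 : ∫⁻ x, ‖(χ (x, y) : ℂ) * (kF x * ψ y)‖ₑ ∂μF
        = (∫⁻ x, ‖(χ (x, y) : ℂ) * kF x‖ₑ ∂μF) * ‖ψ y‖ₑ := by
      rw [← lintegral_mul_const' _ _ enorm_ne_top]
      refine lintegral_congr fun x => ?_
      rw [← enorm_mul, mul_assoc]
    rw [h2]
    exact mul_le_mul_left (hi.norm (fun x => χ (x, y)) (hχy y) (fun x => hχ0 _) (fun x => hχ1 _)) _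
  refine ⟨hintF, ?_⟩
  set U : YF → ℂ := fun y => ∫ x, (χ (x, y) : ℂ) * kF x ∂μF with hU
  have e1 : ∀ y, ∫ x, (χ (p x, β y) : ℂ) * (kE x * φ y) ∂μE = U (β y) * φ y := by
    intro y
    by_cases hy : φ y = 0
    · simp [hy]
    · have h3 := hi.int (fun x => χ (x, β y)) (hχy _) (fun x => hχ0 _) (fun x => hχ1 _) (hsl' y hy)
      rw [hU]
      show _ = (∫ x, (χ (x, β y) : ℂ) * kF x ∂μF) * φ y
      rw [← h3, ← integral_mul_const]
      refine integral_congr_ae (Eventually.of_forall fun x => ?_)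
      show _ = _
      ring
  have e2 : ∀ y, ∫ x, (χ (x, y) : ℂ) * (kF x * ψ y) ∂μF = U y * ψ y := by
    intro y
    rw [hU]
    show _ = (∫ x, (χ (x, y) : ℂ) * kF x ∂μF) * ψ y
    rw [← integral_mul_const]
    refine integral_congr_ae (Eventually.of_forall fun x => ?_)
    show _ = _
    ring
  have hE' := integral_count_tsum _ (hint.integral_prod_right)
  have hF' := integral_count_tsum _ (hintF.integral_prod_right)
  simp only at hE' hF'
  rw [integral_prod_symm _ hint, integral_prod_symm _ hintF, hE'.2, hF'.2]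
  rw [tsum_congr e1, tsum_congr e2]
  refine tsum_fiber hm U ?_
  have := hE'.1
  rwa [show (fun y => ∫ x, (χ (p x, β y) : ℂ) * (kE x * φ y) ∂μE) = fun y => U (β y) * φ y from
    funext e1] at this

/-- **C18b.** Equality of the orbital integrals. `T` is the centraliser, `χE`, `χF` cut-offs for `T`. -/
theorem orbital_eq {T : Type*} [Group T] [Countable T] [MulAction T (HE × YE)]
    [MeasurableConstSMul T (HE × YE)] [SMulInvariantMeasure T (HE × YE) (μE.prod Measure.count)]
    [MulAction T (HF × YF)] {aE : T → YE → YE} {aF : T → YF → YF}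
    (hm : LocMatch aE aF φ ψ β) (hi : InfMatch μE μF p kE kF) (hkE : Measurable kE)
    (hP : ∀ (t : T) (z : HE × YE), φ z.2 ≠ 0 → (p (t • z).1, β (t • z).2) = t • (p z.1, β z.2))
    (hinv : ∀ (t : T) (z : HE × YE), kE (t • z).1 * φ (t • z).2 = kE z.1 * φ z.2)
    {χE : HE × YE → ℝ≥0∞} (hχE : H94U.IsCutoff T χE)
    {χF : HF × YF → ℝ≥0∞} (hχF : H94U.IsCutoff T χF)
    (hint : ∫⁻ z, ‖kE z.1 * φ z.2‖ₑ ∂((μE.prod Measure.count).withDensity χE) ≠ ⊤) :
    Integrable (fun z : HF × YF => kF z.1 * ψ z.2) ((μF.prod Measure.count).withDensity χF) ∧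
    ∫ z : HE × YE, kE z.1 * φ z.2 ∂((μE.prod Measure.count).withDensity χE) =
      ∫ z : HF × YF, kF z.1 * ψ z.2 ∂((μF.prod Measure.count).withDensity χF) := by
  classical
  let : MulAction T Unit :=
    { smul := fun _ _ => ()
      one_smul := fun _ => rfl
      mul_smul := fun _ _ _ => rfl }
  set f : HE × YE → ℂ := fun z => kE z.1 * φ z.2 with hf
  have hfm : Measurable f := by
    have h1 : Measurable φ := Measurable.of_discrete
    exact (hkE.comp measurable_fst).mul (h1.comp measurable_snd)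
  set P : HE × YE → HF × YF := fun z => (p z.1, β z.2) with hPdef
  have hPm : Measurable P := by
    have h1 : Measurable β := Measurable.of_discrete
    exact (hi.meas.comp measurable_fst).prodMk (h1.comp measurable_snd)
  have hw' : Measurable (fun z => χF (P z)) := hχF.meas.comp hPm
  have key := H94U.integral_transfer (G := T) (μE.prod Measure.count) (D := Unit)
    (w := fun _ => χE) (w' := fun _ z => χF (P z)) (fun _ => hχE.meas) (fun _ => hw')
    (f := fun _ => f) (fun _ => hfm) (fun t _ z => hinv t z) (fun _ z _ => hχE.sum z)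
    (fun _ z hz => by
      have hz' : φ z.2 ≠ 0 := by
        intro h0
        apply hz
        show kE z.1 * φ z.2 = 0
        rw [h0, mul_zero]
      rw [← hχF.sum (P z)]
      exact tsum_congr fun t => by
        show χF (p (t • z).1, β (t • z).2) = _
        rw [hP t z hz'])
    (by
      rw [tsum_fintype]
      simp only [Finset.univ_unique, Finset.sum_singleton]
      rwa [lintegral_withDensity_eq_lintegral_mul _ hχE.meas hfm.enorm] at hint)
  obtain ⟨h1, I, h2, h3⟩ := key
  have h4 : ∫ z, f z ∂((μE.prod Measure.count).withDensity χE) =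
      ∫ z, f z ∂((μE.prod Measure.count).withDensity fun z => χF (P z)) := by
    have e1 := h2.unique (hasSum_fintype _)
    have e2 := h3.unique (hasSum_fintype _)
    simp only [Finset.univ_unique, Finset.sum_singleton] at e1 e2
    rw [← e1, ← e2]
  have h5 : Integrable f ((μE.prod Measure.count).withDensity fun z => χF (P z)) := h1 ()
  -- real valued cut-off
  have htop : ∀ z, χF z ≠ ⊤ := fun z => ne_top_of_le_ne_top ENNReal.one_ne_top (hχF.le_one z)
  set χ : HF × YF → ℝ := fun z => (χF z).toReal with hχdef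
  have hχm : Measurable χ := hχF.meas.ennreal_toReal
  have hχ0 : ∀ z, 0 ≤ χ z := fun z => ENNReal.toReal_nonneg
  have hχ1 : ∀ z, χ z ≤ 1 := fun z => by
    rw [hχdef]
    exact ENNReal.toReal_le_of_le_ofReal zero_le_one (by simpa using hχF.le_one z)
  have h6 : Integrable (fun z : HE × YE => (χ (p z.1, β z.2) : ℂ) * (kE z.1 * φ z.2))
      (μE.prod Measure.count) := by
    have h7 := (integrable_withDensity_iff_integrable_smul' hw'
      (Eventually.of_forall fun z => (htop _).lt_top)).1 h5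
    refine h7.congr (Eventually.of_forall fun z => ?_)
    show (χF (P z)).toReal • f z = _
    rw [Complex.real_smul]
  obtain ⟨h8, h9⟩ := orb_step2 hm hi χ hχm hχ0 hχ1 h6
  refine ⟨?_, ?_⟩
  · rw [integrable_withDensity_iff_integrable_smul' hχF.meas
      (Eventually.of_forall fun z => (htop _).lt_top)]
    refine h8.congr (Eventually.of_forall fun z => ?_)
    show _ = (χF z).toReal • (kF z.1 * ψ z.2)
    rw [Complex.real_smul]
  · rw [h4, integral_withDensity_eq_integral_toReal_smul hw'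
      (Eventually.of_forall fun z => (htop _).lt_top),
      integral_withDensity_eq_integral_toReal_smul hχF.meas
      (Eventually.of_forall fun z => (htop _).lt_top)]
    calc ∫ z, (χF (P z)).toReal • f z ∂(μE.prod Measure.count)
        = ∫ z : HE × YE, (χ (p z.1, β z.2) : ℂ) * (kE z.1 * φ z.2) ∂(μE.prod Measure.count) := by
          refine integral_congr_ae (Eventually.of_forall fun z => ?_)
          show (χF (P z)).toReal • f z = _
          rw [Complex.real_smul]
      _ = _ := h9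
      _ = _ := by
          refine integral_congr_ae (Eventually.of_forall fun z => ?_)
          show _ = (χF z).toReal • (kF z.1 * ψ z.2)
          rw [Complex.real_smul]

end Fermat.Agent.H57C
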