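import Fermat.Agent.H57CProd

/-!
# Block (C) of S47, package C18a: matching with a third space

The target is an arbitrary restricted coset space `XF L''` of the group `G'` with a product weight
`y ↦ ∏ᶠ v, ψ v (y v)`.

* `exists_locMatchE`: from the `E` side;
* `exists_locMatchF`: from the `F` side.
-/

namespace Fermat.Agent.H57C

open H59XF Filter

variable {G : Type*} [Group G] {ι : Type*} {L : LevelFam G ι} (t : Twist L)
  {G' : Type*} [Group G'] {κ : Type*} {L' : LevelFam G' κ} {L'' : LevelFam G' κ} (π : ι → κ)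

/-- the product weight on a restricted coset space -/
noncomputable def wt (ψ : ∀ v, G' ⧸ L'.U v → ℂ) (y : XF L') : ℂ := ∏ᶠ v, ψ v (y v)

/-- **C18a, `E` side, general target.** -/
theorem exists_locMatchE (hπ : ∀ i, π (t.σ i) = π i) (hfib : ∀ v, {i | π i = v}.Finite)
    (a : GlobKer L) (ψ : ∀ v, G' ⧸ L'.U v → ℂ) (d : G) {T : Type*} (τ : T → G) (τ' : T → G')
    (S : Set κ) (hS : S.Finite)
    (h : ∀ v, ∃ β : Xv L π v → G' ⧸ L'.U v,
      LocMatch (fun c x => fun i => τ c • x i) (fun c y => τ' c • y)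
        (phiv t π hπ a d v) (ψ v) β ∧
      (v ∉ S → Base (bv L π v) ((1 : G') : G' ⧸ L'.U v) (phiv t π hπ a d v) (ψ v) β)) :
    ∃ β : XF L → XF L', LocMatch (fun c x => τ c • x) (fun c y => τ' c • y)
      (fun x => a.k x (d • t.act x)) (wt ψ) β := by
  choose β hβ hβ0 using h
  have h0 : ∀ᶠ v in cofinite, Base (bv L π v) ((1 : G') : G' ⧸ L'.U v) (phiv t π hπ a d v)
      (ψ v) (β v) := by
    refine Set.Finite.subset hS ?_
    intro v hv
    by_contra hcon
    exact hv (hβ0 v hcon)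
  have key := LocMatch.rprod (aEf := fun c x => eqv L π hfib (τ c • (eqv L π hfib).symm x))
    (aFf := fun c y => eqv' L' (τ' c • (eqv' L').symm y)) hβ h0
    (by
      intro c x v
      funext i
      obtain ⟨i, rfl⟩ := i
      rfl)
    (by intro c y v; rfl)
  refine ⟨_, key.transport (eqv L π hfib) (eqv' L') ?_ ?_ ?_ ?_⟩
  · intro c x
    simp
  · intro c y
    simp
  · intro x
    exact GlobKer_k_eq t π hπ a d x
  · intro y
    rfl

/-- **C18a, `F` side, general target.** -/
theorem exists_locMatchF (b : GlobKer L') (γ : G') (ψ : ∀ v, G' ⧸ L''.U v → ℂ)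
    {T : Type*} (τ' : T → G') (S : Set κ) (hS : S.Finite)
    (h : ∀ v, ∃ β : G' ⧸ L'.U v → G' ⧸ L''.U v,
      LocMatch (fun c x => τ' c • x) (fun c y => τ' c • y)
        (fun y => (b.loc v).k y (γ • y)) (ψ v) β ∧
      (v ∉ S → Base ((1 : G') : G' ⧸ L'.U v) ((1 : G') : G' ⧸ L''.U v)
        (fun y => (b.loc v).k y (γ • y)) (ψ v) β)) :
    ∃ β : XF L' → XF L'', LocMatch (fun c x => τ' c • x) (fun c y => τ' c • y)
      (fun x => b.k x (γ • x)) (wt ψ) β := by
  choose β hβ hβ0 using h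
  have h0 : ∀ᶠ v in cofinite, Base ((1 : G') : G' ⧸ L'.U v) ((1 : G') : G' ⧸ L''.U v)
      (fun y => (b.loc v).k y (γ • y)) (ψ v) (β v) := by
    refine Set.Finite.subset hS ?_
    intro v hv
    by_contra hcon
    exact hv (hβ0 v hcon)
  have key := LocMatch.rprod (aEf := fun c x => eqv' L' (τ' c • (eqv' L').symm x))
    (aFf := fun c y => eqv' L'' (τ' c • (eqv' L'').symm y)) hβ h0
    (by intro c x v; rfl)
    (by intro c y v; rfl)
  refine ⟨_, key.transport (eqv' L') (eqv' L'') ?_ ?_ ?_ ?_⟩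
  · intro c x
    simp
  · intro c y
    simp
  · intro x
    rfl
  · intro y
    rfl

/-- the identity is a matching -/
theorem LocMatch.refl {T X : Type*} (a : T → X → X) (φ : X → ℂ) : LocMatch a a φ φ id :=
  LocMatch.of_bij (fun _ _ _ => rfl) (fun _ _ => rfl) (fun _ _ _ _ h => h)
    (fun y hy => ⟨y, hy, rfl⟩)

/-- the identity respects the base point -/
theorem Base.refl {X : Type*} (b : X) (φ : X → ℂ) (h : φ b = 1) : Base b b φ φ id :=
  ⟨h, h, fun _ _ => Iff.rfl⟩

end Fermat.Agent.H57C
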