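import Fermat.Agent.H57COrb
import Fermat.Agent.H57CProd2
import Fermat.Agent.H59Def2
import Fermat.Agent.H20S5

/-!
# Block (C) of S47, package C18b: orbital integrals through a third space, and on the model

`cmp`: equality of the orbital integrals on the models `mE`, `mF` of `E`, `F`, from the matching at
infinity and the matchings `XF mE → XF mT ← XF mF` of the finite parts.
-/

set_option linter.unusedSectionVars false

namespace Fermat.Agent.H57C

open MeasureTheory Filter
open scoped ENNReal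

theorem InfMatch.refl {H : Type*} [MeasurableSpace H] (μ : Measure H) (k : H → ℂ)
    (hk : Measurable k) : InfMatch μ μ id k k :=
  ⟨measurable_id, fun _ _ _ _ _ => rfl, fun _ _ _ _ => le_rfl, hk⟩

section abstract

variable {HE HF YE YF YT : Type*} [MeasurableSpace HE] [MeasurableSpace HF]
  [MeasurableSpace YE] [MeasurableSpace YF] [MeasurableSpace YT] [DiscreteMeasurableSpace YE]
  [DiscreteMeasurableSpace YF] [DiscreteMeasurableSpace YT] [Countable YE] [Countable YF]
  [Countable YT] {μE : Measure HE} {μF : Measure HF} [SigmaFinite μE] [SigmaFinite μF]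
  {p : HE → HF} {kE : HE → ℂ} {kF : HF → ℂ} {φ : YE → ℂ} {ψ : YF → ℂ} {Ψ : YT → ℂ}
  {βE : YE → YT} {βF : YF → YT}

/-- Equality of the orbital integrals, through a third space. -/
theorem orbital_eq3 {T : Type*} [Group T] [Countable T] [MulAction T (HE × YE)]
    [MeasurableConstSMul T (HE × YE)] [SMulInvariantMeasure T (HE × YE) (μE.prod Measure.count)]
    [MulAction T (HF × YF)]
    [MeasurableConstSMul T (HF × YF)] [SMulInvariantMeasure T (HF × YF) (μF.prod Measure.count)]
    [MulAction T (HF × YT)]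
    {aE : T → YE → YE} {aF : T → YF → YF} {aT : T → YT → YT} {aT' : T → YT → YT}
    (hmE : LocMatch aE aT φ Ψ βE) (hmF : LocMatch aF aT' ψ Ψ βF)
    (hi : InfMatch μE μF p kE kF) (hkE : Measurable kE)
    (hPE : ∀ (t : T) (z : HE × YE), φ z.2 ≠ 0 → (p (t • z).1, βE (t • z).2) = t • (p z.1, βE z.2))
    (hinvE : ∀ (t : T) (z : HE × YE), kE (t • z).1 * φ (t • z).2 = kE z.1 * φ z.2)
    (hPF : ∀ (t : T) (z : HF × YF), ψ z.2 ≠ 0 → ((t • z).1, βF (t • z).2) = t • (z.1, βF z.2))
    (hinvF : ∀ (t : T) (z : HF × YF), kF (t • z).1 * ψ (t • z).2 = kF z.1 * ψ z.2)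
    {χE : HE × YE → ℝ≥0∞} (hχE : H94U.IsCutoff T χE)
    {χF : HF × YF → ℝ≥0∞} (hχF : H94U.IsCutoff T χF)
    {χT : HF × YT → ℝ≥0∞} (hχT : H94U.IsCutoff T χT)
    (hintE : ∫⁻ z, ‖kE z.1 * φ z.2‖ₑ ∂((μE.prod Measure.count).withDensity χE) ≠ ⊤)
    (hintF : ∫⁻ z, ‖kF z.1 * ψ z.2‖ₑ ∂((μF.prod Measure.count).withDensity χF) ≠ ⊤) :
    ∫ z : HE × YE, kE z.1 * φ z.2 ∂((μE.prod Measure.count).withDensity χE) =
      ∫ z : HF × YF, kF z.1 * ψ z.2 ∂((μF.prod Measure.count).withDensity χF) := by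
  have h1 := (orbital_eq (T := T) hmE hi hkE hPE hinvE hχE hχT hintE).2
  have h2 := (orbital_eq (T := T) (p := id) hmF (InfMatch.refl μF kF hi.measF) hi.measF hPF hinvF
    hχF hχT hintF).2
  rw [h1, h2]

end abstract

section model

open H59D H59XF IsDedekindDomain NumberField Matrix
open scoped MatrixGroups
open H20.S47 (incP sP nP)

variable {F E : Type*} [Field F] [NumberField F] [Field E] [NumberField E] [Algebra F E]
  {JE JF : Type*} [Fintype JE] [Fintype JF]

/-- A `T`-cut-off for a homomorphism `ι : T → PGL(2, K)`. -/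
structure HomCutoff {K : Type*} [Field K] [NumberField K] {J : Type*} [Fintype J] (m : Model K J)
    {T : Type*} [Group T] (ι : T →* PGL(2, K)) (χ : m.X → ℝ≥0∞) : Prop where
  meas : Measurable χ
  sum : ∀ x, ∑' t : T, χ (ι t • x) = 1

theorem measurable_ch : Measurable (fun p : H3 × H3 => H3.ch p.1 p.2) :=
  H3.continuous_ch.measurable

theorem measurable_chJ {X J : Type*} [MeasurableSpace X] [Fintype J] {f g : X → J → H3}
    (hf : Measurable f) (hg : Measurable g) : Measurable fun x => Model.chJ (f x) (g x) := by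
  refine measurable_pi_lambda _ fun j => ?_
  have h1 : Measurable fun x => f x j := (measurable_pi_apply j).comp hf
  have h2 : Measurable fun x => g x j := (measurable_pi_apply j).comp hg
  have h3 : Measurable fun x => (f x j, g x j) := h1.prodMk h2
  have h5 : (fun x => Model.chJ (f x) (g x) j) =
      (fun p : H3 × H3 => H3.ch p.1 p.2) ∘ (fun x => (f x j, g x j)) := rfl
  rw [h5]
  exact measurable_ch.comp h3

set_option maxHeartbeats 400000 in
/-- **C18b on the model.** -/
theorem cmp (mE : Model E JE) (aE : AutData mE) (mF mT : Model F JF) (he : mT.e = mF.e)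
    (d : PGL(2, E)) (γ : PGL(2, F)) (hs : ∀ x : F, aE.s (algebraMap F E x) = algebraMap F E x)
    (hd : ∀ τ ∈ Subgroup.centralizer ({γ} : Set PGL(2, F)), incP E τ * d = d * incP E τ)
    (κE : (JE → ℝ) → ℂ) (κF : (JF → ℝ) → ℂ)
    (kfE : XF mE.L.fam → XF mE.L.fam → ℂ) (kfF : XF mF.L.fam → XF mF.L.fam → ℂ)
    (hkfE : ∀ (g : PGL(2, E)) x y, kfE (g • x) (g • y) = kfE x y)
    (hkfF : ∀ (g : PGL(2, F)) x y, kfF (g • x) (g • y) = kfF x y)
    (hκE : Measurable κE)
    (p : (JE → H3) → (JF → H3))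
    (hp : ∀ (τ : PGL(2, F)) x, p (mE.actInf (incP E τ) x) = mF.actInf τ (p x))
    (hi : InfMatch volume volume p
      (fun x => κE (Model.chJ x (mE.actInf d (aE.actInf x))))
      (fun x => κF (Model.chJ x (mF.actInf γ x))))
    (Ψ : XF mT.L.fam → ℂ)
    (hmE : ∃ βE : XF mE.L.fam → XF mT.L.fam,
      LocMatch (fun (c : Subgroup.centralizer ({γ} : Set PGL(2, F))) x =>
        incP E (c : PGL(2, F)) • x)
        (fun c y => (c : PGL(2, F)) • y) (fun x => kfE x (d • aE.twist.act x)) Ψ βE)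
    (hmF : ∃ βF : XF mF.L.fam → XF mT.L.fam,
      LocMatch (fun (c : Subgroup.centralizer ({γ} : Set PGL(2, F))) x => (c : PGL(2, F)) • x)
        (fun c y => (c : PGL(2, F)) • y) (fun x => kfF x (γ • x)) Ψ βF)
    {χT : mT.X → ℝ≥0∞} (hχT : H94U.IsCutoff PGL(2, F) χT)
    {χE : mE.X → ℝ≥0∞}
    (hχE : HomCutoff mE ((incP E).comp (Subgroup.centralizer ({γ} : Set PGL(2, F))).subtype) χE)
    {χF : mF.X → ℝ≥0∞}
    (hχF : HomCutoff mF (Subgroup.centralizer ({γ} : Set PGL(2, F))).subtype χF)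
    (hintE : ∫⁻ x, ‖mE.ker κE kfE x (d • aE.act x)‖ₑ ∂(mE.μ.withDensity χE) ≠ ⊤)
    (hintF : ∫⁻ y, ‖mF.ker κF kfF y (γ • y)‖ₑ ∂(mF.μ.withDensity χF) ≠ ⊤) :
    ∫ x, mE.ker κE kfE x (d • aE.act x) ∂(mE.μ.withDensity χE) =
      ∫ y, mF.ker κF kfF y (γ • y) ∂(mF.μ.withDensity χF) := by
  classical
  obtain ⟨βE, hβE⟩ := hmE
  obtain ⟨βF, hβF⟩ := hmF
  set T := Subgroup.centralizer ({γ} : Set PGL(2, F)) with hT
  -- the actions
  let instE : MulAction T ((JE → H3) × XF mE.L.fam) :=
    MulAction.compHom mE.X ((incP E).comp T.subtype)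
  let instF : MulAction T ((JF → H3) × XF mF.L.fam) :=
    MulAction.compHom mF.X T.subtype
  let instT : MulAction T ((JF → H3) × XF mT.L.fam) :=
    MulAction.compHom mT.X T.subtype
  have hsE : ∀ (t : T) (z : (JE → H3) × XF mE.L.fam),
      t • z = (mE.actInf (incP E (t : PGL(2, F))) z.1, incP E (t : PGL(2, F)) • z.2) :=
    fun t z => rfl
  have hsF : ∀ (t : T) (z : (JF → H3) × XF mF.L.fam),
      t • z = (mF.actInf (t : PGL(2, F)) z.1, (t : PGL(2, F)) • z.2) := fun t z => rfl
  have hsT : ∀ (t : T) (z : (JF → H3) × XF mT.L.fam),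
      t • z = (mT.actInf (t : PGL(2, F)) z.1, (t : PGL(2, F)) • z.2) := fun t z => rfl
  have mpE : ∀ t : T, MeasurePreserving (fun z : (JE → H3) × XF mE.L.fam => t • z)
      ((volume : Measure (JE → H3)).prod Measure.count) ((volume : Measure (JE → H3)).prod
        Measure.count) := fun t => mE.measurePreserving_smul' (incP E (t : PGL(2, F)))
  have mpF : ∀ t : T, MeasurePreserving (fun z : (JF → H3) × XF mF.L.fam => t • z)
      ((volume : Measure (JF → H3)).prod Measure.count) ((volume : Measure (JF → H3)).prod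
        Measure.count) := fun t => mF.measurePreserving_smul' (t : PGL(2, F))
  have i1 : MeasurableConstSMul T ((JE → H3) × XF mE.L.fam) := ⟨fun t => (mpE t).measurable⟩
  have i2 : SMulInvariantMeasure T ((JE → H3) × XF mE.L.fam)
      ((volume : Measure (JE → H3)).prod Measure.count) :=
    ⟨fun t s hs => (mpE t).measure_preimage hs.nullMeasurableSet⟩
  have i3 : MeasurableConstSMul T ((JF → H3) × XF mF.L.fam) := ⟨fun t => (mpF t).measurable⟩
  have i4 : SMulInvariantMeasure T ((JF → H3) × XF mF.L.fam)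
      ((volume : Measure (JF → H3)).prod Measure.count) :=
    ⟨fun t s hs => (mpF t).measure_preimage hs.nullMeasurableSet⟩
  -- invariance under s
  have hsmap : ∀ τ : PGL(2, F), ProjGenLinGroup.map (aE.s : E →+* E) (incP E τ) = incP E τ := by
    intro τ
    show ProjGenLinGroup.map (aE.s : E →+* E) (ProjGenLinGroup.map (algebraMap F E) τ) = _
    rw [← MonoidHom.comp_apply, ← ProjGenLinGroup.map_comp]
    have : (aE.s : E →+* E).comp (algebraMap F E) = algebraMap F E := by
      ext x; exact hs x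
    rw [this]
    rfl
  have hI1 : ∀ (t : T) (z : mE.X),
      mE.ker κE kfE (incP E (t : PGL(2, F)) • z) (d • aE.act (incP E (t : PGL(2, F)) • z)) =
      mE.ker κE kfE z (d • aE.act z) := by
    intro t z
    rw [aE.act_smul, hsmap, smul_smul, ← hd t.1 t.2, mul_smul, mE.ker_smul κE kfE hkfE]
  have hI2 : ∀ (t : T) (z : mF.X),
      mF.ker κF kfF ((t : PGL(2, F)) • z) (γ • (t : PGL(2, F)) • z) =
      mF.ker κF kfF z (γ • z) := by
    intro t z
    have hc : (t : PGL(2, F)) * γ = γ * t :=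
      ((Subgroup.mem_centralizer_iff.1 t.2) γ rfl).symm
    rw [smul_smul, ← hc, mul_smul, mF.ker_smul κF kfF hkfF]
  have i5 : MeasurableConstSMul PGL(2, F) mT.X := ⟨fun g => mT.measurable_smul g⟩
  obtain ⟨cT, hcT⟩ := hχT.exists_subgroup (G := PGL(2, F)) T
  have key := orbital_eq3 (T := T) (HE := JE → H3) (HF := JF → H3)
    (YE := XF mE.L.fam) (YF := XF mF.L.fam) (YT := XF mT.L.fam)
    (μE := volume) (μF := volume) (p := p)
    (kE := fun x => κE (Model.chJ x (mE.actInf d (aE.actInf x))))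
    (kF := fun x => κF (Model.chJ x (mF.actInf γ x)))
    (φ := fun x => kfE x (d • aE.twist.act x)) (ψ := fun x => kfF x (γ • x)) (Ψ := Ψ)
    hβE hβF hi ?_ ?_ ?_ ?_ ?_ (χE := χE) ⟨hχE.meas, hχE.sum⟩ (χF := χF) ⟨hχF.meas, hχF.sum⟩
    (χT := cT) ⟨hcT.meas, hcT.sum⟩ hintE hintF
  · exact key
  · -- measurability of kE
    exact hκE.comp (measurable_chJ measurable_id
      ((mE.measurable_actInf d).comp aE.measurePreserving_actInf.measurable))
  · intro t z hz
    rw [hsE, hsT]
    refine Prod.ext ?_ ?_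
    · show p (mE.actInf (incP E (t : PGL(2, F))) z.1) = mT.actInf (t : PGL(2, F)) (p z.1)
      rw [hp]
      funext j
      show ProjGenLinGroup.map (mF.e j) _ • _ = ProjGenLinGroup.map (mT.e j) _ • _
      rw [he]
    · exact hβE.equiv t z.2 hz
  · intro t z
    exact hI1 t z
  · intro t z hz
    rw [hsF, hsT]
    refine Prod.ext ?_ ?_
    · funext j
      show ProjGenLinGroup.map (mF.e j) _ • _ = ProjGenLinGroup.map (mT.e j) _ • _
      rw [he]
    · exact hβF.equiv t z.2 hz
  · intro t z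
    exact hI2 t z

end model

end Fermat.Agent.H57C
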