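/-
Group theory: torsion of an abelian group with a "Frobenius" endomorphism from the growth of the
fixed point groups and surjectivity of norms.
-/
import Mathlib

set_option autoImplicit false

namespace Fermat.Agent.H57.TG

section Basic

variable {G : Type*} [AddCommGroup G]

/-- fixed points of `φ ^ m` -/
def P (φ : Module.End ℤ G) (m : ℕ) : Submodule ℤ G where
  carrier := {x | (φ ^ m) x = x}
  zero_mem' := by simp
  add_mem' := by
    intro x y hx hy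
    simp only [Set.mem_ofPred_eq] at hx hy ⊢
    rw [map_add, hx, hy]
  smul_mem' := by
    intro c x hx
    simp only [Set.mem_ofPred_eq] at hx ⊢
    rw [map_smul, hx]

/-- the norm endomorphism `∑_{i<r} φ^{m i}` -/
def N (φ : Module.End ℤ G) (m r : ℕ) : Module.End ℤ G := ∑ i ∈ Finset.range r, (φ ^ m) ^ i

variable {φ : Module.End ℤ G}

lemma mem_P {m : ℕ} {x : G} : x ∈ P φ m ↔ (φ ^ m) x = x := Iff.rfl

lemma pow_apply_of_mem {m : ℕ} {x : G} (hx : x ∈ P φ m) (i : ℕ) : ((φ ^ m) ^ i) x = x := by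
  induction i with
  | zero => simp
  | succ i ih =>
    rw [pow_succ, Module.End.mul_apply, mem_P.mp hx, ih]

lemma P_le_mul {m r : ℕ} : P φ m ≤ P φ (m * r) := by
  intro x hx
  rw [mem_P, pow_mul]
  exact pow_apply_of_mem hx r

lemma P_mono_of_dvd {m m' : ℕ} (h : m ∣ m') : P φ m ≤ P φ m' := by
  obtain ⟨r, rfl⟩ := h
  exact P_le_mul

lemma N_apply (m r : ℕ) (x : G) : N φ m r x = ∑ i ∈ Finset.range r, ((φ ^ m) ^ i) x := by
  rw [N, LinearMap.sum_apply]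

lemma N_apply_of_mem {m : ℕ} {x : G} (hx : x ∈ P φ m) (r : ℕ) : N φ m r x = r • x := by
  rw [N_apply, Finset.sum_congr rfl fun i _ => pow_apply_of_mem hx i]
  simp

lemma N_mem {m r : ℕ} {x : G} (hx : x ∈ P φ (m * r)) : N φ m r x ∈ P φ m := by
  have h1 : (φ ^ m - 1) * N φ m r = φ ^ (m * r) - 1 := by
    rw [N, mul_geom_sum, pow_mul]
  have h2 := congrArg (fun f : Module.End ℤ G => f x) h1
  simp only [Module.End.mul_apply, LinearMap.sub_apply, Module.End.one_apply] at h2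
  rw [mem_P.mp hx, sub_self, sub_eq_zero] at h2
  exact h2

/-- the norm as a map `P_{mr} → P_m` -/
noncomputable def Nres (φ : Module.End ℤ G) (m r : ℕ) : P φ (m * r) →ₗ[ℤ] P φ m :=
  ((N φ m r).domRestrict (P φ (m * r))).codRestrict (P φ m) fun x => N_mem x.2

lemma coe_Nres (m r : ℕ) (x : P φ (m * r)) : (Nres φ m r x : G) = N φ m r x := rfl

lemma card_P_mul {m r : ℕ} (hs : Function.Surjective (Nres φ m r)) :
    Nat.card (P φ (m * r)) = Nat.card (LinearMap.ker (Nres φ m r)) * Nat.card (P φ m) := by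
  rw [Submodule.card_eq_card_quotient_mul_card (LinearMap.ker (Nres φ m r))]
  congr 1
  exact Nat.card_congr ((Nres φ m r).quotKerEquivOfSurjective hs).toEquiv

/-- If `φ^m` is trivial on `G[ℓ^2]` and `y` has `ℓ`-power order, the norm lowers the order by
exactly one step. -/
lemma pow_smul_N_eq {ℓ m k : ℕ} (h2 : ∀ x : G, ℓ ^ 2 • x = 0 → x ∈ P φ m) {y : G}
    (hy : ℓ ^ (k + 2) • y = 0) : ℓ ^ k • N φ m ℓ y = ℓ ^ (k + 1) • y := by
  have h1 : ∀ i, ℓ ^ k • ((φ ^ m) ^ i) y = ℓ ^ k • y := by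
    intro i
    rw [← map_nsmul]
    apply pow_apply_of_mem
    apply h2
    rw [← mul_smul, ← pow_add, add_comm, hy]
  rw [N_apply, Finset.smul_sum, Finset.sum_congr rfl fun i _ => h1 i]
  rw [Finset.sum_const, Finset.card_range, ← mul_smul, pow_succ, mul_comm]

lemma mem_torsion_of_N {ℓ m k : ℕ} (h2 : ∀ x : G, ℓ ^ 2 • x = 0 → x ∈ P φ m) :
    ∀ j (y : G), ℓ ^ j • y = 0 → ℓ ^ k • N φ m ℓ y = 0 → ℓ ^ (k + 1) • y = 0 := by
  intro j
  induction j with
  | zero => intro y hy _; rw [pow_zero, one_smul] at hy; rw [hy, smul_zero]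
  | succ j ih =>
    intro y hy hN
    by_cases hj : j ≤ k
    · have : ℓ ^ (k + 1) = ℓ ^ (k - j) * ℓ ^ (j + 1) := by rw [← pow_add]; congr 1; omega
      rw [this, mul_smul, hy, smul_zero]
    · -- j = j' + 1 with j' ≥ k
      obtain ⟨i, rfl⟩ : ∃ i, j = k + i + 1 := ⟨j - k - 1, by omega⟩
      apply ih y _ hN
      have h3 := pow_smul_N_eq (k := k + i) h2 (y := y) (by
        have : k + i + 2 = k + i + 1 + 1 := by omega
        rw [this]; exact hy)
      rw [← h3, pow_add, mul_comm, mul_smul, hN, smul_zero]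

end Basic

section Growth

variable {n : ℕ} {M : Matrix (Fin n) (Fin n) ℤ} {ℓ : ℕ}

lemma det_one_add_smul (hℓ : ℓ.Prime) (C : Matrix (Fin n) (Fin n) ℤ) :
    ¬ (ℓ : ℤ) ∣ (1 + (ℓ : ℤ) • C).det := by
  have : Fact ℓ.Prime := ⟨hℓ⟩
  intro h
  rw [← ZMod.intCast_zmod_eq_zero_iff_dvd] at h
  rw [Int.cast_det] at h
  have h2 : (1 + (ℓ : ℤ) • C).map (fun x : ℤ => (x : ZMod ℓ)) = 1 := by
    ext i j
    rw [Matrix.map_apply, Matrix.add_apply, Matrix.smul_apply, smul_eq_mul, Int.cast_add,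
      Int.cast_mul, Int.cast_natCast, ZMod.natCast_self, zero_mul, add_zero, Matrix.one_apply,
      Matrix.one_apply]
    split_ifs <;> simp
  rw [h2, Matrix.det_one] at h
  exact one_ne_zero h

/-- growth of the determinant -/
lemma exists_det_eq (hℓ : ℓ.Prime) {m : ℕ} {B : Matrix (Fin n) (Fin n) ℤ}
    (hM : M ^ m = 1 + ((ℓ : ℤ) ^ 2) • B) :
    ∃ u : ℤ, ¬ (ℓ : ℤ) ∣ u ∧ (1 - M ^ (m * ℓ)).det = (1 - M ^ m).det * ((ℓ : ℤ) ^ n * u) := by
  have h1 : 1 - M ^ (m * ℓ) = (1 - M ^ m) * ∑ i ∈ Finset.range ℓ, (M ^ m) ^ i := by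
    rw [mul_neg_geom_sum, pow_mul]
  have h2 : ∀ i, ∃ B' : Matrix (Fin n) (Fin n) ℤ, (M ^ m) ^ i = 1 + ((ℓ : ℤ) ^ 2) • B' := by
    intro i
    induction i with
    | zero => exact ⟨0, by simp⟩
    | succ i ih =>
      obtain ⟨B', hB'⟩ := ih
      refine ⟨B' + B + B' * (((ℓ : ℤ) ^ 2) • B), ?_⟩
      rw [pow_succ, hB', hM]
      simp only [smul_add, mul_add, add_mul, mul_one, one_mul, Matrix.smul_mul]
      abel
  choose B' hB' using h2
  have h3 : ∑ i ∈ Finset.range ℓ, (M ^ m) ^ i =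
      (ℓ : ℤ) • (1 + (ℓ : ℤ) • ∑ i ∈ Finset.range ℓ, B' i) := by
    rw [Finset.sum_congr rfl fun i _ => hB' i, Finset.sum_add_distrib, smul_add, ← mul_smul,
      ← Finset.smul_sum, ← pow_two]
    simp
  refine ⟨(1 + (ℓ : ℤ) • ∑ i ∈ Finset.range ℓ, B' i).det, det_one_add_smul hℓ _, ?_⟩
  rw [h1, Matrix.det_mul, h3, Matrix.det_smul, Fintype.card_fin]

/-- some power of `M` is congruent to `1` modulo `ℓ²`. -/
lemma exists_pow_eq (hℓ : ℓ.Prime) (hdet : ¬ (ℓ : ℤ) ∣ M.det) :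
    ∃ m > 0, ∃ B : Matrix (Fin n) (Fin n) ℤ, M ^ m = 1 + ((ℓ : ℤ) ^ 2) • B := by
  have : NeZero (ℓ ^ 2) := ⟨pow_ne_zero 2 hℓ.ne_zero⟩
  let Mb := M.map (Int.castRingHom (ZMod (ℓ ^ 2)))
  have hu : IsUnit Mb := by
    rw [Matrix.isUnit_iff_isUnit_det]
    have h1 : Mb.det = ((M.det : ℤ) : ZMod (ℓ ^ 2)) := by
      rw [Int.cast_det]; rfl
    rw [h1, ZMod.coe_int_isUnit_iff_isCoprime]
    push_cast
    exact IsCoprime.pow_left ((Nat.prime_iff_prime_int.mp hℓ).coprime_iff_not_dvd.mpr hdet)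
  obtain ⟨m, hm, h1⟩ := isOfFinOrder_iff_pow_eq_one.mp (isOfFinOrder_of_finite hu.unit)
  refine ⟨m, hm, ?_⟩
  have h2 : (M ^ m).map (Int.castRingHom (ZMod (ℓ ^ 2))) = 1 := by
    have := congrArg Units.val h1
    rw [Units.val_pow_eq_pow_val, IsUnit.unit_spec, Units.val_one] at this
    rw [← this, ← RingHom.mapMatrix_apply, map_pow]
    rfl
  have h3 : ∀ i j, ∃ b : ℤ, (M ^ m) i j - (1 : Matrix (Fin n) (Fin n) ℤ) i j = (ℓ : ℤ) ^ 2 * b := by
    intro i j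
    have h4 := congrFun (congrFun h2 i) j
    rw [Matrix.map_apply] at h4
    have h5 : (((M ^ m) i j - (1 : Matrix (Fin n) (Fin n) ℤ) i j : ℤ) : ZMod (ℓ ^ 2)) = 0 := by
      push_cast
      rw [sub_eq_zero]
      refine Eq.trans h4 ?_
      rw [Matrix.one_apply, Matrix.one_apply]
      split_ifs <;> simp
    rw [ZMod.intCast_zmod_eq_zero_iff_dvd] at h5
    obtain ⟨b, hb⟩ := h5
    exact ⟨b, by rw [hb]; push_cast; ring⟩
  choose b hb using h3
  refine ⟨Matrix.of b, ?_⟩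
  ext i j
  have := hb i j
  rw [Matrix.add_apply, Matrix.smul_apply, Matrix.of_apply, smul_eq_mul]
  linarith

end Growth

section Main

variable {G : Type*} [AddCommGroup G]

/-- `ℓ^k`-torsion -/
def T (G : Type*) [AddCommGroup G] (ℓ k : ℕ) : Submodule ℤ G where
  carrier := {x | ℓ ^ k • x = 0}
  zero_mem' := by simp
  add_mem' := by
    intro x y hx hy
    simp only [Set.mem_ofPred_eq] at hx hy ⊢
    rw [smul_add, hx, hy, add_zero]
  smul_mem' := by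
    intro c x hx
    simp only [Set.mem_ofPred_eq] at hx ⊢
    rw [smul_comm, hx, smul_zero]

lemma mem_T {ℓ k : ℕ} {x : G} : x ∈ T G ℓ k ↔ ℓ ^ k • x = 0 := Iff.rfl

lemma T_mono {ℓ k k' : ℕ} (h : k ≤ k') : T G ℓ k ≤ T G ℓ k' := by
  intro x hx
  rw [mem_T] at hx ⊢
  obtain ⟨j, rfl⟩ := Nat.exists_eq_add_of_le h
  rw [add_comm, pow_add, mul_smul, hx, smul_zero]

/-- multiplication by `ℓ` from `G[ℓ^{k+1}]` to `G[ℓ^k]` -/
def mulT (G : Type*) [AddCommGroup G] (ℓ k : ℕ) : T G ℓ (k + 1) →ₗ[ℤ] T G ℓ k where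
  toFun x := ⟨ℓ • (x : G), by
    rw [mem_T, ← mul_smul, ← pow_succ]; exact x.2⟩
  map_add' x y := by ext; simp
  map_smul' c x := by
    ext
    simp only [Submodule.coe_smul, eq_intCast, Int.cast_id]
    rw [smul_comm]

lemma coe_mulT {ℓ k : ℕ} (x : T G ℓ (k + 1)) : (mulT G ℓ k x : G) = ℓ • (x : G) := rfl

/-- the kernel of `mulT` is `G[ℓ]` -/
lemma card_ker_mulT {ℓ k : ℕ} : Nat.card (LinearMap.ker (mulT G ℓ k)) = Nat.card (T G ℓ 1) := by
  refine Nat.card_congr ⟨fun x => ⟨x.1.1, ?_⟩, fun x => ⟨⟨x.1, ?_⟩, ?_⟩, fun x => rfl, fun x => rfl⟩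
  · have := congrArg Subtype.val (LinearMap.mem_ker.mp x.2)
    rw [coe_mulT] at this
    rw [mem_T, pow_one]
    exact this
  · exact T_mono (by omega) x.2
  · rw [LinearMap.mem_ker]
    apply Subtype.ext
    rw [coe_mulT]
    have := mem_T.mp x.2
    rw [pow_one] at this
    exact this

lemma finite_T {ℓ : ℕ} (h : Finite (T G ℓ 1)) : ∀ k, Finite (T G ℓ k) := by
  intro k
  induction k with
  | zero =>
    have : T G ℓ 0 = ⊥ := by
      rw [eq_bot_iff]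
      intro x hx
      rw [mem_T, pow_zero, one_smul] at hx
      exact hx
    rw [this]
    infer_instance
  | succ k ih =>
    have h1 : Finite (LinearMap.ker (mulT G ℓ k)) := by
      have : Function.Injective (fun x : LinearMap.ker (mulT G ℓ k) => (⟨x.1.1, by
        have := congrArg Subtype.val (LinearMap.mem_ker.mp x.2)
        rw [coe_mulT] at this
        rw [mem_T, pow_one]
        exact this⟩ : T G ℓ 1)) := by
        intro x y hxy
        apply Subtype.ext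
        apply Subtype.ext
        exact congrArg (fun z : T G ℓ 1 => (z : G)) hxy
      exact Finite.of_injective _ this
    have h2 : Finite (T G ℓ (k + 1) ⧸ LinearMap.ker (mulT G ℓ k)) :=
      Finite.of_injective _ (mulT G ℓ k).quotKerEquivRange.injective
    exact Finite.of_equiv ((T G ℓ (k + 1) ⧸ LinearMap.ker (mulT G ℓ k)) ×
      LinearMap.ker (mulT G ℓ k))
      (AddSubgroup.addGroupEquivQuotientProdAddSubgroup
        (s := (LinearMap.ker (mulT G ℓ k)).toAddSubgroup)).symm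

variable {φ : Module.End ℤ G}

lemma exists_le_P_of_finite (hfix : ∀ x : G, ∃ m > 0, x ∈ P φ m) {m0 : ℕ} (hm0 : 0 < m0)
    {s : Set G} (hs : s.Finite) : ∃ m > 0, m0 ∣ m ∧ ∀ x ∈ s, x ∈ P φ m := by
  induction s, hs using Set.Finite.induction_on with
  | empty => exact ⟨m0, hm0, dvd_rfl, by simp⟩
  | insert _ _ ih =>
    rename_i a s _ _
    obtain ⟨m, hm, hd, h⟩ := ih
    obtain ⟨m', hm', h'⟩ := hfix a
    refine ⟨m * m', Nat.mul_pos hm hm', hd.mul_right _, ?_⟩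
    intro x hx
    rcases Set.mem_insert_iff.mp hx with rfl | hx
    · exact P_mono_of_dvd (Dvd.intro_left m rfl) h'
    · exact P_mono_of_dvd (Dvd.intro m' rfl) (h x hx)

/-- the data of the theorem -/
structure Data (φ : Module.End ℤ G) (n : ℕ) (ℓ : ℕ) : Prop where
  hℓ : ℓ.Prime
  hfix : ∀ x : G, ∃ m > 0, x ∈ P φ m
  hfin : ∀ m > 0, Finite (P φ m)
  hsurj : ∀ m r, 0 < m → 0 < r → Function.Surjective (Nres φ m r)
  hgrow : ∃ m0 > 0, ∀ m > 0, m0 ∣ m → padicValNat ℓ (Nat.card (P φ (m * ℓ))) =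
    padicValNat ℓ (Nat.card (P φ m)) + n

variable {n : ℕ} {ℓ : ℕ}

lemma Data.card_ker (D : Data φ n ℓ) : ∃ m0 > 0, ∀ m > 0, m0 ∣ m →
    ∃ u : ℕ, ¬ ℓ ∣ u ∧ Nat.card (LinearMap.ker (Nres φ m ℓ)) = ℓ ^ n * u := by
  have : Fact ℓ.Prime := ⟨D.hℓ⟩
  obtain ⟨m0, hm0, h⟩ := D.hgrow
  refine ⟨m0, hm0, fun m hm hd => ?_⟩
  have h1 := card_P_mul (D.hsurj m ℓ hm D.hℓ.pos)
  have := D.hfin m hm
  have := D.hfin (m * ℓ) (Nat.mul_pos hm D.hℓ.pos)
  have h3 : Nat.card (P φ m) ≠ 0 := Nat.card_pos.ne'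
  have h4 : Nat.card (LinearMap.ker (Nres φ m ℓ)) ≠ 0 := Nat.card_pos.ne'
  have h2 := h m hm hd
  rw [h1, padicValNat.mul h4 h3] at h2
  have h5 : padicValNat ℓ (Nat.card (LinearMap.ker (Nres φ m ℓ))) = n := by omega
  obtain ⟨a, c', hc', hc⟩ := Nat.exists_eq_pow_mul_and_not_dvd h4 ℓ D.hℓ.ne_one
  refine ⟨c', hc', ?_⟩
  rw [hc]
  congr 2
  rw [hc, padicValNat.mul (pow_ne_zero _ D.hℓ.ne_zero) (by rintro rfl; exact hc' (dvd_zero _)),
    padicValNat.prime_pow, padicValNat.eq_zero_of_not_dvd hc', add_zero] at h5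
  exact h5

/-- `P_m[ℓ]` has order dividing `ℓ^n`. -/
lemma Data.card_inf_le (D : Data φ n ℓ) : ∃ m0 > 0, ∀ m > 0, m0 ∣ m →
    Nat.card ↥(P φ m ⊓ T G ℓ 1) ≤ ℓ ^ n := by
  have : Fact ℓ.Prime := ⟨D.hℓ⟩
  obtain ⟨m0, hm0, hk⟩ := D.card_ker
  refine ⟨m0, hm0, fun m hm hd => ?_⟩
  obtain ⟨u, hu, h⟩ := hk m hm hd
  have := D.hfin m hm
  have := D.hfin (m * ℓ) (Nat.mul_pos hm D.hℓ.pos)
  let f : ↥(P φ m ⊓ T G ℓ 1) →ₗ[ℤ] LinearMap.ker (Nres φ m ℓ) :=
    ((Submodule.inclusion (P_le_mul (φ := φ) (m := m) (r := ℓ))).comp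
      (Submodule.inclusion (inf_le_left : P φ m ⊓ T G ℓ 1 ≤ P φ m))).codRestrict _ (by
        intro x
        rw [LinearMap.mem_ker]
        apply Subtype.ext
        rw [coe_Nres]
        refine (N_apply_of_mem x.2.1 ℓ).trans ?_
        have := mem_T.mp x.2.2
        rw [pow_one] at this
        exact this)
  have hf : Function.Injective f := by
    intro x y hxy
    have := congrArg Subtype.val (congrArg Subtype.val hxy)
    exact Subtype.ext this
  have hdvd : Nat.card ↥(P φ m ⊓ T G ℓ 1) ∣ ℓ ^ n * u := by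
    rw [← h]
    exact AddSubgroup.card_dvd_of_injective f.toAddMonoidHom hf
  have hp : IsPGroup ℓ (Multiplicative ↥(P φ m ⊓ T G ℓ 1)) := by
    intro x
    refine ⟨1, ?_⟩
    have := mem_T.mp x.toAdd.2.2
    apply Multiplicative.toAdd.injective
    rw [toAdd_pow]
    exact Subtype.ext this
  have : Finite ↥(P φ m ⊓ T G ℓ 1) := Finite.of_injective f hf
  obtain ⟨a, ha⟩ := IsPGroup.iff_card.mp hp
  have ha' : Nat.card ↥(P φ m ⊓ T G ℓ 1) = ℓ ^ a := ha
  rw [ha'] at hdvd ⊢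
  have h5 : ℓ ^ a ∣ ℓ ^ n :=
    (Nat.Coprime.pow_left a ((Nat.Prime.coprime_iff_not_dvd D.hℓ).mpr hu)).dvd_of_dvd_mul_right hdvd
  exact Nat.le_of_dvd (pow_pos D.hℓ.pos _) h5

/-- `G[ℓ]` is finite of order at most `ℓ^n`. -/
lemma Data.finite_T_one (D : Data φ n ℓ) : Finite (T G ℓ 1) := by
  obtain ⟨m0, hm0, hk⟩ := D.card_inf_le
  by_contra hinf
  rw [not_finite_iff_infinite] at hinf
  obtain ⟨s, hs⟩ := Infinite.exists_subset_card_eq (T G ℓ 1) (ℓ ^ n + 1)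
  obtain ⟨m, hm, hd, h⟩ := exists_le_P_of_finite (φ := φ) D.hfix hm0
    (s := Subtype.val '' (s : Set (T G ℓ 1))) (s.finite_toSet.image _)
  have h1 := hk m hm hd
  have := D.hfin m hm
  have : Finite ↥(P φ m ⊓ T G ℓ 1) :=
    Finite.of_injective _ (Submodule.inclusion_injective (inf_le_left : P φ m ⊓ T G ℓ 1 ≤ P φ m))
  have h2 : Nat.card s ≤ Nat.card ↥(P φ m ⊓ T G ℓ 1) := by
    refine Nat.card_le_card_of_injective
      (fun x : s => (⟨x.1.1, h _ ⟨x.1, x.2, rfl⟩, x.1.2⟩ : ↥(P φ m ⊓ T G ℓ 1))) ?_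
    intro x y hxy
    exact Subtype.ext (Subtype.ext
      (congrArg (fun z : ↥(P φ m ⊓ T G ℓ 1) => (z : G)) hxy))
  rw [Nat.card_eq_fintype_card, Fintype.card_coe, hs] at h2
  omega

lemma Data.exists_T_le (D : Data φ n ℓ) {m0 : ℕ} (hm0 : 0 < m0) (k : ℕ) :
    ∃ m > 0, m0 ∣ m ∧ T G ℓ k ≤ P φ m := by
  have := finite_T D.finite_T_one k
  obtain ⟨m, hm, hd, h⟩ := exists_le_P_of_finite (φ := φ) D.hfix hm0
    (s := (T G ℓ k : Set G)) (Set.toFinite _)
  exact ⟨m, hm, hd, h⟩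

/-- `|G[ℓ]| = ℓ^n` -/
lemma Data.card_T_one (D : Data φ n ℓ) : Nat.card (T G ℓ 1) = ℓ ^ n := by
  have : Fact ℓ.Prime := ⟨D.hℓ⟩
  have hfT := D.finite_T_one
  apply le_antisymm
  · obtain ⟨m0, hm0, hk⟩ := D.card_inf_le
    obtain ⟨m, hm, hg, hT⟩ := D.exists_T_le hm0 2
    have h1 := hk m hm hg
    rwa [inf_eq_right.mpr ((T_mono (by omega : 1 ≤ 2)).trans hT)] at h1
  · obtain ⟨m0, hm0, hk⟩ := D.card_ker
    obtain ⟨m, hm, hg, hT⟩ := D.exists_T_le hm0 2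
    obtain ⟨u, hu, h⟩ := hk m hm hg
    have hfK : Finite (P φ (m * ℓ)) := D.hfin (m * ℓ) (Nat.mul_pos hm D.hℓ.pos)
    have hfK' : Finite (LinearMap.ker (Nres φ m ℓ)) := inferInstance
    have hfK2 : Finite (Multiplicative (LinearMap.ker (Nres φ m ℓ))) := hfK'
    obtain ⟨S, hS⟩ := Sylow.exists_subgroup_card_pow_prime (G := Multiplicative
      (LinearMap.ker (Nres φ m ℓ))) ℓ (n := n) (by
        refine Dvd.intro u ?_
        exact h.symm)
    have hSt : ∀ x ∈ S, x.toAdd.1.1 ∈ T G ℓ 1 := by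
      intro x hx
      have h1 : x ^ (ℓ ^ n) = 1 := by
        have h0 : (⟨x, hx⟩ : S) ^ Nat.card S = 1 := pow_card_eq_one'
        rw [hS] at h0
        exact congrArg Subtype.val h0
      have h2 : ℓ ^ n • x.toAdd.1.1 = 0 :=
        congrArg (fun y : Multiplicative (LinearMap.ker (Nres φ m ℓ)) => y.toAdd.1.1) h1
      have h3 : N φ m ℓ x.toAdd.1.1 = 0 := congrArg Subtype.val (LinearMap.mem_ker.mp x.toAdd.2)
      rw [mem_T]
      have h4 := mem_torsion_of_N (φ := φ) (ℓ := ℓ) (m := m) (k := 0) (fun y hy => hT hy) n _ h2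
        (by rw [h3, smul_zero])
      simpa using h4
    rw [← hS]
    refine Nat.card_le_card_of_injective (fun x : S => (⟨x.1.toAdd.1.1, hSt _ x.2⟩ : T G ℓ 1)) ?_
    intro x y hxy
    have := congrArg (fun z : T G ℓ 1 => (z : G)) hxy
    exact Subtype.ext (Multiplicative.toAdd.injective (Subtype.ext (Subtype.ext this)))

lemma Data.surjective_mulT (D : Data φ n ℓ) (k : ℕ) : Function.Surjective (mulT G ℓ k) := by
  intro x
  obtain ⟨m, hm, hg, hT⟩ := D.exists_T_le one_pos (k + 2)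
  have hxm : (x : G) ∈ P φ m := (T_mono (by omega : k ≤ k + 2)).trans hT x.2
  obtain ⟨y', hy'⟩ := D.hsurj m ℓ hm D.hℓ.pos ⟨x, hxm⟩
  have := D.hfin (m * ℓ) (Nat.mul_pos hm D.hℓ.pos)
  have hc0 : Nat.card (P φ (m * ℓ)) ≠ 0 := Nat.card_pos.ne'
  obtain ⟨a, c', hc', hc⟩ := Nat.exists_eq_pow_mul_and_not_dvd hc0 ℓ D.hℓ.ne_one
  have hcop : Nat.Coprime (ℓ ^ k) c' := Nat.Coprime.pow_left k
    ((Nat.Prime.coprime_iff_not_dvd D.hℓ).mpr hc')
  obtain ⟨e, he1, he2⟩ := Nat.chineseRemainder hcop 1 0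
  have hye : Nat.card (P φ (m * ℓ)) • (y' : G) = 0 := by
    have : Nat.card (P φ (m * ℓ)) • y' = 0 := card_nsmul_eq_zero'
    exact congrArg Subtype.val this
  have hNy' : N φ m ℓ (y' : G) = x := congrArg Subtype.val hy'
  have hxk : ℓ ^ k • (x : G) = 0 := x.2
  -- `y = e • y'`
  have hex : e • (x : G) = x := by
    have h1 : ((e : ℤ) - 1) • (x : G) = 0 := by
      obtain ⟨d, hd⟩ := (Nat.modEq_iff_dvd.mp he1.symm)
      have hd' : (e : ℤ) - 1 = d * ((ℓ ^ k : ℕ) : ℤ) := by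
        rw [mul_comm, ← hd]; push_cast; ring
      rw [hd', mul_smul, natCast_zsmul, hxk, smul_zero]
    rw [sub_smul, one_smul, sub_eq_zero, natCast_zsmul] at h1
    exact h1
  have hN : N φ m ℓ (e • (y' : G)) = x := by rw [map_nsmul, hNy', hex]
  have hy : ℓ ^ a • (e • (y' : G)) = 0 := by
    obtain ⟨d, hd⟩ := (Nat.modEq_zero_iff_dvd.mp he2)
    rw [← mul_smul, hd, ← mul_assoc, ← hc, mul_comm, mul_smul, hye, smul_zero]
  have hy2 : ℓ ^ (k + 1) • (e • (y' : G)) = 0 :=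
    mem_torsion_of_N (φ := φ) (ℓ := ℓ) (m := m) (k := k)
      (fun z hz => hT (T_mono (by omega : 2 ≤ k + 2) hz)) a _ hy (by rw [hN]; exact hxk)
  have hyP : e • (y' : G) ∈ P φ m := hT (T_mono (by omega : k + 1 ≤ k + 2) hy2)
  refine ⟨⟨e • (y' : G), hy2⟩, ?_⟩
  apply Subtype.ext
  rw [coe_mulT, ← hN]
  exact (N_apply_of_mem hyP ℓ).symm

theorem Data.card_T (D : Data φ n ℓ) (k : ℕ) : Nat.card (T G ℓ k) = ℓ ^ (n * k) := by
  induction k with
  | zero =>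
    have : T G ℓ 0 = ⊥ := by
      rw [eq_bot_iff]
      intro x hx
      rw [mem_T, pow_zero, one_smul] at hx
      exact hx
    rw [this]
    simp
  | succ k ih =>
    rw [Submodule.card_eq_card_quotient_mul_card (LinearMap.ker (mulT G ℓ k)), card_ker_mulT,
      D.card_T_one]
    have : Nat.card (T G ℓ (k + 1) ⧸ LinearMap.ker (mulT G ℓ k)) = Nat.card (T G ℓ k) :=
      Nat.card_congr ((mulT G ℓ k).quotKerEquivOfSurjective (D.surjective_mulT k)).toEquiv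
    rw [this, ih, ← pow_add, mul_add, mul_one]
    congr 1
    omega

/-- **Torsion from growth of fixed points and surjectivity of norms** (job S27-Z4). -/
theorem endgame {G : Type*} [CommGroup G] (φ : MulAut G) (ℓ : ℕ) [Fact ℓ.Prime] (d : ℕ)
    (hfix : ∀ κ : G, ∃ m, 0 < m ∧ (φ ^ m) κ = κ)
    (hfin : ∀ m, 0 < m → {κ : G | (φ ^ m) κ = κ}.Finite)
    (hnorm : ∀ m r, 0 < m → 0 < r → ∀ κ : G, (φ ^ m) κ = κ →
      ∃ κ' : G, (φ ^ (m * r)) κ' = κ' ∧ (∏ i ∈ Finset.range r, (φ ^ (m * i)) κ') = κ)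
    (hgrow : ∃ m₀, 0 < m₀ ∧ ∀ m, 0 < m → m₀ ∣ m →
      padicValNat ℓ (Nat.card {κ : G // (φ ^ (m * ℓ)) κ = κ}) =
        padicValNat ℓ (Nat.card {κ : G // (φ ^ m) κ = κ}) + d)
    (k : ℕ) : Nat.card {x : G // x ^ (ℓ ^ k) = 1} = ℓ ^ (d * k) := by
  let ψ : Module.End ℤ (Additive G) := (MonoidHom.toAdditive φ.toMonoidHom).toIntLinearMap
  have hψ : ∀ m (x : Additive G), (ψ ^ m) x = Additive.ofMul ((φ ^ m) x.toMul) := by
    intro m
    induction m with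
    | zero => intro x; rfl
    | succ m ih =>
      intro x
      rw [pow_succ, Module.End.mul_apply, ih, pow_succ, MulAut.mul_apply]
      rfl
  have hP : ∀ m (x : Additive G), x ∈ P ψ m ↔ (φ ^ m) x.toMul = x.toMul := by
    intro m x
    rw [mem_P, hψ]
    rfl
  have e : ∀ m, P ψ m ≃ {κ : G // (φ ^ m) κ = κ} := fun m =>
    Additive.toMul.subtypeEquiv (fun x => hP m x)
  refine Data.card_T (φ := ψ) ⟨Fact.out, ?_, ?_, ?_, ?_⟩ k
  · intro x
    obtain ⟨m, hm, h⟩ := hfix x.toMul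
    exact ⟨m, hm, (hP m x).mpr h⟩
  · intro m hm
    have : Finite {κ : G // (φ ^ m) κ = κ} := (hfin m hm).to_subtype
    exact Finite.of_equiv _ (e m).symm
  · intro m r hm hr x
    obtain ⟨y, hy1, hy2⟩ := hnorm m r hm hr x.1.toMul ((hP m x).mp x.2)
    refine ⟨⟨Additive.ofMul y, (hP _ _).mpr hy1⟩, ?_⟩
    apply Subtype.ext
    rw [coe_Nres, N_apply]
    have : x.1 = Additive.ofMul (∏ i ∈ Finset.range r, (φ ^ (m * i)) y) := by
      rw [hy2]; rfl
    rw [this, ofMul_prod]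
    refine Finset.sum_congr rfl fun i _ => ?_
    rw [← pow_mul, hψ]
    rfl
  · obtain ⟨m0, hm0, h⟩ := hgrow
    refine ⟨m0, hm0, fun m hm hd => ?_⟩
    rw [Nat.card_congr (e (m * ℓ)), Nat.card_congr (e m)]
    exact h m hm hd

end Main

end Fermat.Agent.H57.TG
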