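/-
`ℓ`-adic growth of `∏ (1 - α^m)` over the roots `α` of a monic integer polynomial (job S27-Z3).
-/
import Fermat.Agent.H57TorsGrowth

set_option autoImplicit false

namespace Fermat.Agent.H57.TG

open Polynomial Matrix

lemma det_aeval {n : Type*} [Fintype n] [DecidableEq n] {K : Type*} [Field K] [IsAlgClosed K]
    (A : Matrix n n K) (p : K[X]) :
    (aeval A p).det = (A.charpoly.roots.map fun α => p.eval α).prod := by
  have hcard : A.charpoly.roots.card = Fintype.card n := by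
    rw [← (IsAlgClosed.splits A.charpoly).natDegree_eq_card_roots, charpoly_natDegree_eq_dim]
  have hX : ∀ ζ : K, (aeval A (X - C ζ)).det =
      (A.charpoly.roots.map fun α => (X - C ζ : K[X]).eval α).prod := by
    intro ζ
    have h1 : aeval A (X - C ζ) = -(scalar n ζ - A) := by
      rw [map_sub, aeval_X, aeval_C, neg_sub]
      rfl
    rw [h1, det_neg, ← eval_charpoly,
      (IsAlgClosed.splits A.charpoly).eval_eq_prod_roots_of_monic A.charpoly_monic, ← hcard,
      ← Multiset.card_map (fun α => ζ - α) A.charpoly.roots, ← Multiset.prod_map_neg,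
      Multiset.map_map]
    simp
  have hC : ∀ a : K, (aeval A (C a)).det = (A.charpoly.roots.map fun α => (C a : K[X]).eval α).prod := by
    intro a
    rw [aeval_C]
    have : (algebraMap K (Matrix n n K)) a = a • (1 : Matrix n n K) := by
      rw [Algebra.algebraMap_eq_smul_one]
    rw [this, det_smul, det_one, mul_one]
    simp [hcard]
  have hmul : ∀ p q : K[X], (aeval A p).det = (A.charpoly.roots.map fun α => p.eval α).prod →
      (aeval A q).det = (A.charpoly.roots.map fun α => q.eval α).prod →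
      (aeval A (p * q)).det = (A.charpoly.roots.map fun α => (p * q).eval α).prod := by
    intro p q hp hq
    rw [map_mul, det_mul, hp, hq, ← Multiset.prod_map_mul]
    simp
  rw [(IsAlgClosed.splits p).eq_prod_roots]
  apply hmul _ _ (hC _)
  generalize p.roots = s
  induction s using Multiset.induction with
  | empty =>
    simp
  | cons a s ih =>
    rw [Multiset.map_cons, Multiset.prod_cons]
    exact hmul _ _ (hX a) ih

lemma exists_matrix (Q : ℤ[X]) (hQ : Q.Monic) :
    ∃ M : Matrix (Fin Q.natDegree) (Fin Q.natDegree) ℤ, M.charpoly = Q := by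
  refine ⟨Algebra.leftMulMatrix (AdjoinRoot.powerBasis' hQ).basis (AdjoinRoot.root Q), ?_⟩
  refine (charpoly_leftMulMatrix (AdjoinRoot.powerBasis' hQ)).trans ?_
  refine (minpoly.unique' ℤ _ hQ ?_ ?_).symm
  · rw [AdjoinRoot.powerBasis'_gen, AdjoinRoot.aeval_eq, AdjoinRoot.mk_self]
  · intro q hq
    rw [or_iff_not_imp_left]
    intro hq0 h
    rw [AdjoinRoot.powerBasis'_gen, AdjoinRoot.aeval_eq, AdjoinRoot.mk_eq_zero] at h
    exact hq0 (by
      by_contra
      exact absurd (degree_le_of_dvd h hq0) (not_le.mpr hq))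

theorem growth (Q : Polynomial ℤ) (hQ : Q.Monic) (ℓ : ℕ) [Fact ℓ.Prime]
    (hℓ : ¬ (ℓ : ℤ) ∣ Q.coeff 0) (h : ℕ → ℕ)
    (hh : ∀ m, 0 < m → ((h m : ℕ) : ℂ) =
      ((Q.map (Int.castRingHom ℂ)).roots.map fun α => 1 - α ^ m).prod)
    (hpos : ∀ m, 0 < m → h m ≠ 0) :
    ∃ m₀, 0 < m₀ ∧ ∀ m, 0 < m → m₀ ∣ m →
      padicValNat ℓ (h (m * ℓ)) = padicValNat ℓ (h m) + Q.natDegree := by
  have hp : ℓ.Prime := Fact.out
  obtain ⟨M, hM⟩ := exists_matrix Q hQ
  have hdet : ¬ (ℓ : ℤ) ∣ M.det := by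
    rw [det_eq_sign_charpoly_coeff, hM]
    intro hd
    apply hℓ
    rcases neg_one_pow_eq_or ℤ (Fintype.card (Fin Q.natDegree)) with h1 | h1 <;> rw [h1] at hd
    · simpa using hd
    · simpa using hd
  have hR : ∀ m, 0 < m → (h m : ℤ) = (1 - M ^ m).det := by
    intro m hm
    apply (Int.cast_injective : Function.Injective (Int.cast : ℤ → ℂ))
    have h0 : Q.map (Int.castRingHom ℂ) = (M.map (Int.castRingHom ℂ)).charpoly := by
      rw [charpoly_map, hM]
    rw [Int.cast_natCast, hh m hm, Int.cast_det, h0]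
    have h1 := det_aeval (M.map (Int.castRingHom ℂ)) (1 - X ^ m)
    have h2 : (1 - M ^ m).map (fun x : ℤ => (x : ℂ)) =
        aeval (M.map (Int.castRingHom ℂ)) (1 - X ^ m : ℂ[X]) := by
      rw [map_sub, map_one, map_pow, aeval_X]
      have : (1 - M ^ m).map (fun x : ℤ => (x : ℂ)) = (Int.castRingHom ℂ).mapMatrix (1 - M ^ m) := rfl
      rw [this, map_sub, map_one, map_pow]
      rfl
    rw [h2, h1]
    simp
  obtain ⟨m₀, hm₀, B, hB⟩ := exists_pow_eq hp hdet
  refine ⟨m₀, hm₀, fun m hm hd => ?_⟩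
  obtain ⟨i, rfl⟩ := hd
  have hB' : ∃ B' : Matrix _ _ ℤ, M ^ (m₀ * i) = 1 + ((ℓ : ℤ) ^ 2) • B' := by
    clear hm
    induction i with
    | zero => exact ⟨0, by simp⟩
    | succ i ih =>
      obtain ⟨B', hB'⟩ := ih
      refine ⟨B' + B + B' * (((ℓ : ℤ) ^ 2) • B), ?_⟩
      rw [mul_add, mul_one, pow_add, hB', hB]
      simp only [smul_add, mul_add, add_mul, mul_one, one_mul, Matrix.smul_mul]
      abel
  obtain ⟨B', hB'⟩ := hB'
  obtain ⟨u, hu, hdet'⟩ := exists_det_eq hp hB'
  rw [← hR _ (Nat.mul_pos hm hp.pos), ← hR _ hm] at hdet'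
  have hu0 : u.natAbs ≠ 0 := by
    rw [Ne, Int.natAbs_eq_zero]
    rintro rfl
    exact hu (dvd_zero _)
  have h3 : h (m₀ * i * ℓ) = h (m₀ * i) * (ℓ ^ Q.natDegree * u.natAbs) := by
    have := congrArg Int.natAbs hdet'
    rw [Int.natAbs_mul, Int.natAbs_mul, Int.natAbs_pow, Int.natAbs_natCast, Int.natAbs_natCast,
      Int.natAbs_natCast] at this
    exact this
  rw [h3, padicValNat.mul (hpos _ hm) (mul_ne_zero (pow_ne_zero _ hp.ne_zero) hu0),
    padicValNat.mul (pow_ne_zero _ hp.ne_zero) hu0, padicValNat.prime_pow,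
    padicValNat.eq_zero_of_not_dvd (fun h => hu (Int.natCast_dvd.mpr h)), add_zero]

end Fermat.Agent.H57.TG
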