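/-
Patching limit step: an ultrafilter construction producing, from a patching datum, a patching
level with trivial relation ideal.
-/
import Fermat.Agent.H57AdicLimit
import Fermat.Agent.S57

set_option autoImplicit false

namespace Fermat.Agent.H57

open IsLocalRing MvPowerSeries

variable {𝒪 : Type} [CommRing 𝒪] {r : ℕ} {R : Type} [CommRing R] [Algebra 𝒪 R]
  {M : Type} [AddCommGroup M] [Module R M]

/-- matrix form of a patching level -/
structure MatLevel (𝒪 : Type) [CommRing 𝒪] (r : ℕ) (R : Type) [CommRing R] [Algebra 𝒪 R]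
    (M : Type) [AddCommGroup M] [Module R M] (J : Ideal (MvPowerSeries (Fin r) 𝒪)) (d : ℕ) where
  φ : MvPowerSeries (Fin r) 𝒪 →ₐ[𝒪] MvPowerSeries (Fin r) 𝒪
  ψ : MvPowerSeries (Fin r) 𝒪 →ₐ[𝒪] R
  ψ_surjective : Function.Surjective ψ
  ψ_φ_X : ∀ i : Fin r, ψ (φ (X i)) = 0
  Θ : MvPowerSeries (Fin r) 𝒪 → Fin d → Fin d → MvPowerSeries (Fin r) 𝒪
  Θ_add : ∀ f g i j, Θ (f + g) i j - (Θ f i j + Θ g i j) ∈ J
  Θ_one : ∀ i j, Θ 1 i j - (if i = j then 1 else 0) ∈ J
  Θ_mul : ∀ f g i j, Θ (f * g) i j - ∑ l, Θ f i l * Θ g l j ∈ J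
  Θ_φ : ∀ c i j, Θ (φ c) i j - (if i = j then c else 0) ∈ J
  e : Fin d → M
  e_compat : ∀ f j, ∑ i, algebraMap 𝒪 R (constantCoeff (Θ f i j)) • e i = ψ f • e j
  e_span : ∀ m : M, ∃ c : Fin d → 𝒪, m = ∑ i, algebraMap 𝒪 R (c i) • e i
  e_indep : ∀ c : Fin d → 𝒪, ∑ i, algebraMap 𝒪 R (c i) • e i = 0 → ∀ i, c i = 0

lemma sub_C_mem (f : MvPowerSeries (Fin r) 𝒪) :
    f - C (constantCoeff f) ∈ Ideal.span (Set.range fun s => (X s : MvPowerSeries (Fin r) 𝒪)) := by
  rw [Fermat.Agent.H68.mem_span_range_X_iff]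
  simp

lemma algHom_eq_of_X {ψ' : MvPowerSeries (Fin r) 𝒪 →ₐ[𝒪] R} (f : MvPowerSeries (Fin r) 𝒪)
    (h : ∀ i, ψ' (X i) = 0) : ψ' f = algebraMap 𝒪 R (constantCoeff f) := by
  have h1 : Ideal.span (Set.range fun s => (X s : MvPowerSeries (Fin r) 𝒪)) ≤
      RingHom.ker ψ' := by
    rw [Ideal.span_le]
    rintro _ ⟨i, rfl⟩
    exact h i
  have h2 := h1 (sub_C_mem f)
  rw [RingHom.mem_ker, map_sub, sub_eq_zero] at h2
  rw [h2]
  exact ψ'.commutes _

section OfLevel

variable {J : Ideal (MvPowerSeries (Fin r) 𝒪)} (L : Algebra.PatchingLevel 𝒪 r R M J)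

lemma level_psi_phi (c : MvPowerSeries (Fin r) 𝒪) :
    L.ψ (L.φ c) = algebraMap 𝒪 R (constantCoeff c) :=
  algHom_eq_of_X (ψ' := L.ψ.comp L.φ) c L.ψ_φ_X

lemma level_sub_mem {c c' : Fin L.d → MvPowerSeries (Fin r) 𝒪}
    (h : ∑ i, L.φ (c i) • L.b i = ∑ i, L.φ (c' i) • L.b i) (i : Fin L.d) : c i - c' i ∈ J := by
  refine (L.b_rel fun i => c i - c' i).mp ?_ i
  simp only [map_sub, sub_smul, Finset.sum_sub_distrib, h, sub_self]

lemma level_pi_sum (c : Fin L.d → MvPowerSeries (Fin r) 𝒪) :
    L.π (∑ i, L.φ (c i) • L.b i) =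
      ∑ i, algebraMap 𝒪 R (constantCoeff (c i)) • L.π (L.b i) := by
  rw [map_sum]
  refine Finset.sum_congr rfl fun i _ => ?_
  rw [L.π_smul, level_psi_phi]

/-- elements of `(φ X) N` have coordinates in `(X)` -/
lemma level_mem_span_smul {I : Ideal (MvPowerSeries (Fin r) 𝒪)} {x : L.N}
    (hx : x ∈ (I.map L.φ) • (⊤ : Submodule (MvPowerSeries (Fin r) 𝒪) L.N)) :
    ∃ c : Fin L.d → MvPowerSeries (Fin r) 𝒪, (∀ i, c i ∈ I) ∧ x = ∑ i, L.φ (c i) • L.b i := by
  have hstep : ∀ a ∈ I, ∀ y : L.N, ∃ c : Fin L.d → MvPowerSeries (Fin r) 𝒪, (∀ i, c i ∈ I) ∧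
      L.φ a • y = ∑ i, L.φ (c i) • L.b i := by
    intro a ha y
    obtain ⟨c, rfl⟩ := L.b_span y
    refine ⟨fun i => a * c i, fun i => Ideal.mul_mem_right _ _ ha, ?_⟩
    rw [Finset.smul_sum]
    exact Finset.sum_congr rfl fun i _ => by rw [map_mul, mul_smul]
  have hadd : ∀ x y : L.N, (∃ c : Fin L.d → MvPowerSeries (Fin r) 𝒪, (∀ i, c i ∈ I) ∧
      x = ∑ i, L.φ (c i) • L.b i) → (∃ c : Fin L.d → MvPowerSeries (Fin r) 𝒪, (∀ i, c i ∈ I) ∧
      y = ∑ i, L.φ (c i) • L.b i) → (∃ c : Fin L.d → MvPowerSeries (Fin r) 𝒪, (∀ i, c i ∈ I) ∧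
      x + y = ∑ i, L.φ (c i) • L.b i) := by
    rintro x y ⟨c, hc, rfl⟩ ⟨c', hc', rfl⟩
    refine ⟨fun i => c i + c' i, fun i => add_mem (hc i) (hc' i), ?_⟩
    rw [← Finset.sum_add_distrib]
    exact Finset.sum_congr rfl fun i _ => by rw [map_add, add_smul]
  refine Submodule.smul_induction_on hx ?_ hadd
  intro a ha y _
  have key : ∀ a ∈ I.map L.φ, ∀ y : L.N, ∃ c : Fin L.d → MvPowerSeries (Fin r) 𝒪,
      (∀ i, c i ∈ I) ∧ a • y = ∑ i, L.φ (c i) • L.b i := by
    intro a ha
    induction ha using Submodule.span_induction with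
    | mem a ha =>
      obtain ⟨a, ha, rfl⟩ := ha
      exact hstep a ha
    | zero => exact fun y => ⟨0, fun i => I.zero_mem, by simp⟩
    | add a a' _ _ h1 h2 =>
      intro y
      rw [add_smul]
      exact hadd _ _ (h1 y) (h2 y)
    | smul t a _ h =>
      intro y
      have := h (t • y)
      rwa [← mul_smul, mul_comm, ← smul_eq_mul] at this
  exact key a ha y

/-- matrix entries of the action of `f` on the basis `b` -/
noncomputable def levelΘ (f : MvPowerSeries (Fin r) 𝒪) (i j : Fin L.d) :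
    MvPowerSeries (Fin r) 𝒪 :=
  (L.b_span (f • L.b j)).choose i

lemma levelΘ_spec (f : MvPowerSeries (Fin r) 𝒪) (j : Fin L.d) :
    f • L.b j = ∑ i, L.φ (levelΘ L f i j) • L.b i :=
  (L.b_span (f • L.b j)).choose_spec

/-- matrix level attached to a patching level -/
noncomputable def MatLevel.ofLevel (hJ : ∀ f ∈ J, constantCoeff f = 0) :
    MatLevel 𝒪 r R M J L.d where
  φ := L.φ
  ψ := L.ψ
  ψ_surjective := L.ψ_surjective
  ψ_φ_X := L.ψ_φ_X
  Θ := levelΘ L
  Θ_add := by
    intro f g i j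
    refine level_sub_mem L (c := fun i => levelΘ L (f + g) i j)
      (c' := fun i => levelΘ L f i j + levelΘ L g i j) ?_ i
    rw [← levelΘ_spec, add_smul, levelΘ_spec, levelΘ_spec, ← Finset.sum_add_distrib]
    exact Finset.sum_congr rfl fun i _ => by rw [map_add, add_smul]
  Θ_one := by
    intro i j
    refine level_sub_mem L (c := fun i => levelΘ L 1 i j)
      (c' := fun i => if i = j then 1 else 0) ?_ i
    rw [← levelΘ_spec, one_smul, Finset.sum_eq_single j]
    · simp
    · intro l _ hl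
      simp [hl]
    · simp
  Θ_mul := by
    intro f g i j
    refine level_sub_mem L (c := fun i => levelΘ L (f * g) i j)
      (c' := fun i => ∑ l, levelΘ L f i l * levelΘ L g l j) ?_ i
    rw [← levelΘ_spec, mul_smul, levelΘ_spec L g j, Finset.smul_sum]
    simp only [map_sum, Finset.sum_smul]
    rw [Finset.sum_comm]
    refine Finset.sum_congr rfl fun l _ => ?_
    rw [smul_comm, levelΘ_spec L f l, Finset.smul_sum]
    exact Finset.sum_congr rfl fun i _ => by rw [map_mul, ← mul_smul, mul_comm]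
  Θ_φ := by
    intro c i j
    refine level_sub_mem L (c := fun i => levelΘ L (L.φ c) i j)
      (c' := fun i => if i = j then c else 0) ?_ i
    rw [← levelΘ_spec, Finset.sum_eq_single j]
    · simp
    · intro l _ hl
      simp [hl]
    · simp
  e := fun i => L.π (L.b i)
  e_compat := by
    intro f j
    rw [← level_pi_sum L (fun i => levelΘ L f i j), ← levelΘ_spec, L.π_smul]
  e_span := by
    intro m
    obtain ⟨x, rfl⟩ := L.π_surjective m
    obtain ⟨c, rfl⟩ := L.b_span x
    exact ⟨fun i => constantCoeff (c i), level_pi_sum L c⟩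
  e_indep := by
    intro c hc
    have h1 : L.π (∑ i, L.φ (C (c i)) • L.b i) = 0 := by
      rw [level_pi_sum]
      simpa using hc
    rw [L.ker_π] at h1
    have h2 : Ideal.span (Set.range fun i : Fin r => L.φ (X i)) ≤
        (Ideal.span (Set.range fun i : Fin r => (X i : MvPowerSeries (Fin r) 𝒪))).map L.φ := by
      rw [Ideal.span_le]
      rintro _ ⟨i, rfl⟩
      exact Ideal.mem_map_of_mem _ (Ideal.subset_span ⟨i, rfl⟩)
    obtain ⟨c', hc', h3⟩ := level_mem_span_smul L (Submodule.smul_mono_left h2 h1)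
    intro i
    have h4 := hJ _ (level_sub_mem L h3 i)
    have h5 := hc' i
    rw [Fermat.Agent.H68.mem_span_range_X_iff] at h5
    rw [map_sub, h5, sub_zero, constantCoeff_C] at h4
    exact h4

/-- uniform continuity of the matrix entries -/
lemma levelΘ_mem [IsLocalRing 𝒪] (k : ℕ)
    [Finite (MvPowerSeries (Fin r) 𝒪 ⧸ maximalIdeal (MvPowerSeries (Fin r) 𝒪) ^ k)]
    (f : MvPowerSeries (Fin r) 𝒪)
    (hf : f ∈ maximalIdeal (MvPowerSeries (Fin r) 𝒪) ^
      (Nat.card (MvPowerSeries (Fin r) 𝒪 ⧸ maximalIdeal (MvPowerSeries (Fin r) 𝒪) ^ k)) ^ L.d)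
    (i j : Fin L.d) :
    levelΘ L f i j ∈ maximalIdeal (MvPowerSeries (Fin r) 𝒪) ^ k ⊔ J := by
  set I := maximalIdeal (MvPowerSeries (Fin r) 𝒪) ^ k with hI
  let F : Submodule (MvPowerSeries (Fin r) 𝒪) L.N := (I.map L.φ) • ⊤
  -- the quotient is finite
  let q : (Fin L.d → MvPowerSeries (Fin r) 𝒪 ⧸ I) → L.N ⧸ F := fun c =>
    Submodule.Quotient.mk (∑ i, L.φ ((c i).out) • L.b i)
  have hq : Function.Surjective q := by
    intro z
    obtain ⟨x, rfl⟩ := Submodule.Quotient.mk_surjective _ z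
    obtain ⟨c, rfl⟩ := L.b_span x
    refine ⟨fun i => Ideal.Quotient.mk I (c i), ?_⟩
    refine (Submodule.Quotient.eq _).mpr ?_
    rw [← Finset.sum_sub_distrib]
    refine Submodule.sum_mem _ fun i _ => ?_
    rw [← sub_smul, ← map_sub]
    refine Submodule.smul_mem_smul (Ideal.mem_map_of_mem _ ?_) trivial
    rw [← Ideal.Quotient.eq]
    exact Quotient.out_eq _
  have hfin : Finite (L.N ⧸ F) := Finite.of_surjective q hq
  have hcard : Nat.card (L.N ⧸ F) ≤ (Nat.card (MvPowerSeries (Fin r) 𝒪 ⧸ I)) ^ L.d := by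
    refine (Nat.card_le_card_of_surjective q hq).trans ?_
    rw [Nat.card_fun, Nat.card_fin]
  have h1 := pow_smul_top_eq_bot_of_card_le (B := MvPowerSeries (Fin r) 𝒪) _ hcard
  have h2 : f • (Submodule.Quotient.mk (L.b j) : L.N ⧸ F) = 0 := by
    rw [← Submodule.mem_bot (MvPowerSeries (Fin r) 𝒪), ← h1]
    exact Submodule.smul_mem_smul hf trivial
  rw [← Submodule.Quotient.mk_smul, Submodule.Quotient.mk_eq_zero] at h2
  obtain ⟨c, hc, h3⟩ := level_mem_span_smul L h2
  rw [levelΘ_spec] at h3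
  have h4 := level_sub_mem L (c := fun i => levelΘ L f i j) h3 i
  have h5 : levelΘ L f i j = c i + (levelΘ L f i j - c i) := by ring
  rw [h5]
  exact Submodule.add_mem_sup (hc i) h4

end OfLevel

section ToLevel

variable {d : ℕ} (D : MatLevel 𝒪 r R M (⊥ : Ideal (MvPowerSeries (Fin r) 𝒪)) d)

/-- the ring homomorphism `Θ` of a matrix level with trivial relation ideal -/
noncomputable def MatLevel.Θhom :
    MvPowerSeries (Fin r) 𝒪 →+* Matrix (Fin d) (Fin d) (MvPowerSeries (Fin r) 𝒪) where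
  toFun f := Matrix.of fun i j => D.Θ f i j
  map_one' := by
    apply Matrix.ext
    intro i j
    have := D.Θ_one i j
    rw [Submodule.mem_bot, sub_eq_zero] at this
    rw [Matrix.of_apply, this, Matrix.one_apply]
  map_mul' f g := by
    apply Matrix.ext
    intro i j
    have := D.Θ_mul f g i j
    rw [Submodule.mem_bot, sub_eq_zero] at this
    rw [Matrix.of_apply, this, Matrix.mul_apply]
    rfl
  map_zero' := by
    apply Matrix.ext
    intro i j
    have := D.Θ_add 0 0 i j
    rw [Submodule.mem_bot, sub_eq_zero, add_zero] at this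
    rw [Matrix.of_apply, Matrix.zero_apply]
    exact add_eq_left.mp this.symm
  map_add' f g := by
    apply Matrix.ext
    intro i j
    have := D.Θ_add f g i j
    rw [Submodule.mem_bot, sub_eq_zero] at this
    rw [Matrix.of_apply, this, Matrix.add_apply]
    rfl

/-- underlying group of the limit module -/
def PatchMod (𝒪 : Type) (r d : ℕ) : Type := Fin d → MvPowerSeries (Fin r) 𝒪

noncomputable instance : AddCommGroup (PatchMod 𝒪 r d) :=
  inferInstanceAs (AddCommGroup (Fin d → MvPowerSeries (Fin r) 𝒪))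

/-- module structure on the limit module -/
@[instance_reducible]
noncomputable def MatLevel.instMod : Module (MvPowerSeries (Fin r) 𝒪) (PatchMod 𝒪 r d) :=
  Module.compHom (Fin d → MvPowerSeries (Fin r) 𝒪)
    ((Matrix.toLinAlgEquiv' (R := MvPowerSeries (Fin r) 𝒪) (n := Fin d)).toRingEquiv.toRingHom.comp
      D.Θhom)

/-- the element of the limit module with given coordinates -/
def PatchMod.mk (v : Fin d → MvPowerSeries (Fin r) 𝒪) : PatchMod 𝒪 r d := v

/-- coordinates -/
def PatchMod.coord (v : PatchMod 𝒪 r d) (i : Fin d) : MvPowerSeries (Fin r) 𝒪 := v i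

omit [CommRing 𝒪] in
lemma PatchMod.coord_mk (v : Fin d → MvPowerSeries (Fin r) 𝒪) (i : Fin d) :
    (PatchMod.mk v).coord i = v i := rfl

omit [CommRing 𝒪] in
lemma PatchMod.ext {v w : PatchMod 𝒪 r d} (h : ∀ i, v.coord i = w.coord i) : v = w := funext h

lemma PatchMod.coord_add (v w : PatchMod 𝒪 r d) (i : Fin d) :
    (v + w).coord i = v.coord i + w.coord i := rfl

lemma PatchMod.coord_zero (i : Fin d) :
    (0 : PatchMod 𝒪 r d).coord i = 0 := rfl

lemma PatchMod.coord_sum {ι : Type*} (s : Finset ι) (v : ι → PatchMod 𝒪 r d) (i : Fin d) :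
    (∑ j ∈ s, v j).coord i = ∑ j ∈ s, (v j).coord i :=
  Finset.sum_apply (M := fun _ => MvPowerSeries (Fin r) 𝒪) _ _ _

lemma MatLevel.coord_smul (f : MvPowerSeries (Fin r) 𝒪) (v : PatchMod 𝒪 r d) (i : Fin d) :
    letI := D.instMod
    (f • v).coord i = ∑ j, D.Θ f i j * v.coord j := rfl

lemma MatLevel.coord_phi_smul (c : MvPowerSeries (Fin r) 𝒪) (v : PatchMod 𝒪 r d) (i : Fin d) :
    letI := D.instMod
    (D.φ c • v).coord i = c * v.coord i := by
  letI := D.instMod
  rw [MatLevel.coord_smul]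
  have : ∀ j, D.Θ (D.φ c) i j = if i = j then c else 0 := fun j => by
    have := D.Θ_φ c i j
    rwa [Submodule.mem_bot, sub_eq_zero] at this
  simp only [this, ite_mul, zero_mul, Finset.sum_ite_eq, Finset.mem_univ, if_true]

lemma MatLevel.sum_phi_smul_single (v : Fin d → MvPowerSeries (Fin r) 𝒪) :
    letI := D.instMod
    ∑ i, D.φ (v i) • (PatchMod.mk (Pi.single i 1) : PatchMod 𝒪 r d) = PatchMod.mk v := by
  letI := D.instMod
  refine PatchMod.ext fun k => ?_
  rw [PatchMod.coord_sum, Finset.sum_eq_single k]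
  · rw [D.coord_phi_smul, PatchMod.coord_mk, PatchMod.coord_mk, Pi.single_eq_same, mul_one]
  · intro j _ hj
    rw [D.coord_phi_smul, PatchMod.coord_mk, Pi.single_eq_of_ne (Ne.symm hj), mul_zero]
  · simp

/-- the projection of the limit module -/
noncomputable def MatLevel.πhom : PatchMod 𝒪 r d →+ M where
  toFun v := ∑ i, algebraMap 𝒪 R (constantCoeff (v.coord i)) • D.e i
  map_zero' := by
    refine Finset.sum_eq_zero fun i _ => ?_
    rw [PatchMod.coord_zero, map_zero, map_zero, zero_smul]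
  map_add' v w := by
    rw [← Finset.sum_add_distrib]
    refine Finset.sum_congr rfl fun i _ => ?_
    rw [PatchMod.coord_add, map_add, map_add, add_smul]

lemma MatLevel.πhom_apply (v : PatchMod 𝒪 r d) :
    D.πhom v = ∑ i, algebraMap 𝒪 R (constantCoeff (v.coord i)) • D.e i := rfl

lemma MatLevel.πhom_smul (f : MvPowerSeries (Fin r) 𝒪) (v : PatchMod 𝒪 r d) :
    letI := D.instMod
    D.πhom (f • v) = D.ψ f • D.πhom v := by
  letI := D.instMod
  rw [D.πhom_apply, D.πhom_apply, Finset.smul_sum]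
  have h1 : ∀ j, D.ψ f • algebraMap 𝒪 R (constantCoeff (v.coord j)) • D.e j =
      ∑ i, algebraMap 𝒪 R (constantCoeff (D.Θ f i j * v.coord j)) • D.e i := by
    intro j
    rw [smul_comm, ← D.e_compat, Finset.smul_sum]
    refine Finset.sum_congr rfl fun i _ => ?_
    rw [← mul_smul, ← map_mul, ← map_mul, mul_comm]
  rw [Finset.sum_congr rfl fun j _ => h1 j, Finset.sum_comm]
  refine Finset.sum_congr rfl fun i _ => ?_
  rw [← Finset.sum_smul, ← map_sum, ← map_sum, D.coord_smul]

/-- the patching level attached to a matrix level with trivial relation ideal -/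
noncomputable def MatLevel.toLevel : Algebra.PatchingLevel 𝒪 r R M ⊥ :=
  letI := D.instMod
  { N := PatchMod 𝒪 r d
    φ := D.φ
    ψ := D.ψ
    ψ_surjective := D.ψ_surjective
    ψ_φ_X := D.ψ_φ_X
    π := D.πhom
    π_smul := D.πhom_smul
    π_surjective := by
      intro m
      obtain ⟨c, rfl⟩ := D.e_span m
      refine ⟨PatchMod.mk fun i => C (c i), ?_⟩
      rw [D.πhom_apply]
      refine Finset.sum_congr rfl fun i _ => ?_
      rw [PatchMod.coord_mk, constantCoeff_C]
    ker_π := by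
      intro v
      constructor
      · intro hv
        have h1 := D.e_indep _ hv
        have h2 : ∀ i, v.coord i ∈
            Ideal.span (Set.range fun s => (X s : MvPowerSeries (Fin r) 𝒪)) :=
          fun i => by rw [Fermat.Agent.H68.mem_span_range_X_iff]; exact h1 i
        have h3 : v = PatchMod.mk (fun i => v.coord i) := rfl
        rw [h3, ← D.sum_phi_smul_single]
        refine Submodule.sum_mem _ fun i _ => Submodule.smul_mem_smul ?_ trivial
        have h4 := Ideal.mem_map_of_mem D.φ (h2 i)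
        rw [Ideal.map_span, ← Set.range_comp] at h4
        exact h4
      · intro hv
        have h5 : Ideal.span (Set.range fun i : Fin r => D.φ (X i)) ≤ RingHom.ker D.ψ := by
          rw [Ideal.span_le]
          rintro _ ⟨i, rfl⟩
          exact D.ψ_φ_X i
        refine Submodule.smul_induction_on hv ?_ ?_
        · intro f hf w _
          rw [D.πhom_smul, (RingHom.mem_ker).mp (h5 hf), zero_smul]
        · intro x y hx hy
          rw [map_add, hx, hy, add_zero]
    d := d
    b := fun i => PatchMod.mk (Pi.single i 1)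
    b_span := by
      intro v
      exact ⟨fun i => v.coord i, (D.sum_phi_smul_single fun i => v.coord i).symm⟩
    b_rel := by
      intro c
      rw [D.sum_phi_smul_single]
      constructor
      · intro h i
        rw [Submodule.mem_bot, ← PatchMod.coord_mk c i, h, PatchMod.coord_zero]
      · intro h
        refine PatchMod.ext fun i => ?_
        rw [PatchMod.coord_mk, PatchMod.coord_zero]
        exact (Submodule.mem_bot _).mp (h i) }

end ToLevel

section Limit

variable [IsLocalRing 𝒪] [IsNoetherianRing 𝒪] [IsAdicComplete (maximalIdeal 𝒪) 𝒪]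
  [Finite (ResidueField 𝒪)] [IsLocalRing R]

lemma finite_quot_pow (𝒪 : Type) [CommRing 𝒪] [IsLocalRing 𝒪] [IsNoetherianRing 𝒪]
    [Finite (ResidueField 𝒪)] (r k : ℕ) :
    Finite (MvPowerSeries (Fin r) 𝒪 ⧸ maximalIdeal (MvPowerSeries (Fin r) 𝒪) ^ k) := by
  have : Finite (MvPowerSeries (Fin r) 𝒪 ⧸ maximalIdeal (MvPowerSeries (Fin r) 𝒪)) :=
    finite_residueField_mvPowerSeries 𝒪 (Fin r)
  exact Ideal.finite_quotient_pow (IsNoetherian.noetherian _) k

lemma le_comap_of_surjective {A B : Type*} [CommRing A] [CommRing B] [IsLocalRing A]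
    [IsLocalRing B] (f : A →+* B) (hf : Function.Surjective f) :
    maximalIdeal A ≤ (maximalIdeal B).comap f := by
  intro x hx
  rw [Ideal.mem_comap, mem_maximalIdeal, mem_nonunits_iff]
  intro hu
  obtain ⟨y, hy⟩ := hu.exists_right_inv
  obtain ⟨z, rfl⟩ := hf y
  rw [← map_mul] at hy
  have h1 : ¬ IsUnit (x * z) := (mem_nonunits_iff).mp
    ((mem_maximalIdeal _).mp (Ideal.mul_mem_right z _ hx))
  have h2 : IsUnit (1 - x * z) := by
    by_contra h3
    have : (1 : A) ∈ maximalIdeal A := by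
      have h4 := Ideal.add_mem (maximalIdeal A) ((mem_maximalIdeal _).mpr h3)
        ((mem_maximalIdeal _).mpr h1)
      simpa using h4
    exact (Ideal.ne_top_iff_one _).mp (maximalIdeal.isMaximal A).ne_top this
  have h5 := h2.map f
  rw [map_sub, map_one, hy, sub_self] at h5
  exact not_isUnit_zero h5

/-- The patching limit, in matrix form. -/
theorem exists_matLevel_bot [Module.Finite R M] {d : ℕ}
    (J : ℕ → Ideal (MvPowerSeries (Fin r) 𝒪))
    (hJ : ∀ n, J n ≤ maximalIdeal (MvPowerSeries (Fin r) 𝒪) ^ n)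
    (D : ∀ n, MatLevel 𝒪 r R M (J n) d) (K : ℕ → ℕ)
    (hK : ∀ n k f, f ∈ maximalIdeal (MvPowerSeries (Fin r) 𝒪) ^ (K k) → ∀ i j,
      (D n).Θ f i j ∈ maximalIdeal (MvPowerSeries (Fin r) 𝒪) ^ k ⊔ J n) :
    Nonempty (MatLevel 𝒪 r R M (⊥ : Ideal (MvPowerSeries (Fin r) 𝒪)) d) := by
  classical
  -- abbreviations
  set A := MvPowerSeries (Fin r) 𝒪 with hA
  have hAc : IsAdicComplete (maximalIdeal A) A := isAdicComplete_mvPowerSeries_fin 𝒪 r
  have hAfin : ∀ k, Finite (A ⧸ maximalIdeal A ^ k) := finite_quot_pow 𝒪 r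
  have hAfin' : ∀ k, Finite (A ⧸ (maximalIdeal A ^ k • ⊤ : Submodule A A)) := fun k => by
    rw [smul_eq_mul, Ideal.mul_top]; exact hAfin k
  -- the ring `R`
  have hψm : ∀ n, maximalIdeal A ≤ (maximalIdeal R).comap ((D n).ψ : A →+* R) :=
    fun n => le_comap_of_surjective _ (D n).ψ_surjective
  have hψm' : ∀ n k, ∀ x ∈ maximalIdeal A ^ k, (D n).ψ x ∈ maximalIdeal R ^ k := by
    intro n k
    have h2 : maximalIdeal A ^ k ≤ (maximalIdeal R ^ k).comap ((D n).ψ : A →+* R) := by
      rw [← Ideal.map_le_iff_le_comap, Ideal.map_pow]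
      exact Ideal.pow_right_mono (Ideal.map_le_iff_le_comap.mpr (hψm n)) k
    exact h2
  have hRn : IsNoetherianRing R :=
    isNoetherianRing_of_surjective A R ((D 0).ψ : A →+* R) (D 0).ψ_surjective
  have hmapm : (maximalIdeal A).map ((D 0).ψ : A →+* R) = maximalIdeal R := by
    apply le_antisymm (Ideal.map_le_iff_le_comap.mpr (hψm 0))
    intro y hy
    obtain ⟨x, rfl⟩ := (D 0).ψ_surjective y
    refine Ideal.mem_map_of_mem ((D 0).ψ : A →+* R) ?_
    rw [mem_maximalIdeal, mem_nonunits_iff]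
    intro hx
    exact hy (hx.map (D 0).ψ)
  have hRfin : ∀ k, Finite (R ⧸ maximalIdeal R ^ k) := by
    intro k
    have : maximalIdeal A ^ k ≤ (maximalIdeal R ^ k).comap ((D 0).ψ : A →+* R) := hψm' 0 k
    refine Finite.of_surjective (Ideal.quotientMap (I := maximalIdeal A ^ k)
      (maximalIdeal R ^ k) ((D 0).ψ : A →+* R) this) ?_
    exact Ideal.quotientMap_surjective (D 0).ψ_surjective
  have hRc : IsAdicComplete (maximalIdeal R) R := by
    let _ : Algebra A R := ((D 0).ψ : A →+* R).toAlgebra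
    have : Module.Finite A R :=
      Module.Finite.of_surjective (Algebra.linearMap A R) (D 0).ψ_surjective
    have h1 : IsAdicComplete (maximalIdeal A) R :=
      IsAdicComplete.of_module_finite (maximalIdeal A) R
    rw [← hmapm]
    exact (IsAdicComplete.map_algebraMap_iff (maximalIdeal A) R).mpr h1
  have hRfin' : ∀ k, Finite (R ⧸ (maximalIdeal R ^ k • ⊤ : Submodule R R)) := fun k => by
    rw [smul_eq_mul, Ideal.mul_top]; exact hRfin k
  have hMc : IsAdicComplete (maximalIdeal R) M := IsAdicComplete.of_module_finite _ M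
  have hMfin : ∀ k, Finite (M ⧸ (maximalIdeal R ^ k • ⊤ : Submodule R M)) := by
    intro k
    have := hRfin k
    have h1 : Module.Finite (R ⧸ maximalIdeal R ^ k)
      (M ⧸ (maximalIdeal R ^ k • ⊤ : Submodule R M)) :=
      Module.Finite.of_restrictScalars_finite R _ _
    exact Module.finite_of_finite (R ⧸ maximalIdeal R ^ k)
  -- the ultrafilter
  let U : Ultrafilter ℕ := Filter.hyperfilter ℕ
  have hU : ∀ k, ∀ᶠ n in (U : Filter ℕ), k ≤ n := fun k =>
    (Filter.eventually_ge_atTop k).filter_mono Nat.hyperfilter_le_atTop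
  -- the limits
  have exA : ∀ x : ℕ → A, ∃ z, IsULim (maximalIdeal A) U x z := exists_isULim U hAfin'
  have exR : ∀ x : ℕ → R, ∃ z, IsULim (maximalIdeal R) U x z := exists_isULim U hRfin'
  have exM : ∀ x : ℕ → M, ∃ z, IsULim (maximalIdeal R) U x z := exists_isULim U hMfin
  choose φl hφl using fun f : A => exA fun n => (D n).φ f
  choose ψl hψl using fun f : A => exR fun n => (D n).ψ f
  choose Θl hΘl using fun (f : A) (i j : Fin d) => exA fun n => (D n).Θ f i j
  choose el hel using fun (i : Fin d) => exM fun n => (D n).e i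
  -- membership conversions
  have memA : ∀ k (x : A), x ∈ (maximalIdeal A ^ k • ⊤ : Submodule A A) ↔
      x ∈ maximalIdeal A ^ k := fun k x => by rw [smul_eq_mul, Ideal.mul_top]
  have memR : ∀ k (x : R), x ∈ (maximalIdeal R ^ k • ⊤ : Submodule R R) ↔
      x ∈ maximalIdeal R ^ k := fun k x => by rw [smul_eq_mul, Ideal.mul_top]
  -- general principle: sequences equal modulo `J n` have the same limit
  have key : ∀ {x y : ℕ → A} {z w : A}, IsULim (maximalIdeal A) U x z →
      IsULim (maximalIdeal A) U y w → (∀ n, x n - y n ∈ J n) → z - w ∈ (⊥ : Ideal A) := by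
    intro x y z w hx hy h
    rw [Submodule.mem_bot, sub_eq_zero]
    refine IsULim.unique hx (hy.congr fun k => ?_)
    filter_upwards [hU k] with n hn
    rw [memA]
    exact Ideal.pow_le_pow_right hn (hJ n (h n))
  have limconst : ∀ x : A, IsULim (maximalIdeal A) U (fun _ => x) x := fun x => IsULim.const x
  let φL : A →ₐ[𝒪] A :=
    { toFun := φl
      map_one' := IsULim.unique (hφl 1) (by simpa using limconst 1)
      map_mul' := fun f g => IsULim.unique (hφl (f * g))
        (by simpa using (hφl f).mul (hφl g))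
      map_zero' := IsULim.unique (hφl 0) (by simpa using limconst 0)
      map_add' := fun f g => IsULim.unique (hφl (f + g))
        (by simpa using (hφl f).add (hφl g))
      commutes' := fun c => IsULim.unique (hφl _) (by
        have h1 : (fun n => (D n).φ (algebraMap 𝒪 A c)) = fun _ => algebraMap 𝒪 A c :=
          funext fun n => (D n).φ.commutes c
        rw [h1]
        exact limconst _) }
  let ψL : A →ₐ[𝒪] R :=
    { toFun := ψl
      map_one' := IsULim.unique (hψl 1) (by simpa using IsULim.const (1 : R))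
      map_mul' := fun f g => IsULim.unique (hψl (f * g))
        (by simpa using (hψl f).mul (hψl g))
      map_zero' := IsULim.unique (hψl 0) (by simpa using IsULim.const (0 : R))
      map_add' := fun f g => IsULim.unique (hψl (f + g))
        (by simpa using (hψl f).add (hψl g))
      commutes' := fun c => IsULim.unique (hψl _) (by
        have h1 : (fun n => (D n).ψ (algebraMap 𝒪 A c)) = fun _ => algebraMap 𝒪 R c :=
          funext fun n => (D n).ψ.commutes c
        rw [h1]
        exact IsULim.const _) }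
  have hψL : ∀ f, ψL f = ψl f := fun _ => rfl
  have hφL : ∀ f, φL f = φl f := fun _ => rfl
  -- composition of limits through ψ
  have hcomp : ∀ (x : ℕ → A) (z : A), IsULim (maximalIdeal A) U x z →
      IsULim (maximalIdeal R) U (fun n => (D n).ψ (x n)) (ψl z) := by
    intro x z hx
    refine (hψl z).congr fun k => ?_
    filter_upwards [hx k] with n hn
    rw [memA] at hn
    rw [memR, ← map_sub]
    exact hψm' n k _ hn
  have hsurj : Function.Surjective ψL := by
    intro y
    choose x hx using fun n => (D n).ψ_surjective y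
    obtain ⟨z, hz⟩ := exA x
    refine ⟨z, ?_⟩
    have h1 := hcomp x z hz
    simp only [hx] at h1
    exact IsULim.unique h1 (IsULim.const y)
  -- the constant coefficient as a local homomorphism
  have hcc : maximalIdeal A ≤ (maximalIdeal R).comap
      ((algebraMap 𝒪 R).comp (constantCoeff (σ := Fin r) (R := 𝒪))) := by
    intro f hf
    rw [Ideal.mem_comap, RingHom.comp_apply]
    have h1 : C (constantCoeff f) ∈ maximalIdeal A := by
      rw [mem_maximalIdeal, mem_nonunits_iff, MvPowerSeries.isUnit_iff_constantCoeff,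
        constantCoeff_C, ← MvPowerSeries.isUnit_iff_constantCoeff]
      exact hf
    have h2 : (D 0).ψ (C (constantCoeff f)) ∈ maximalIdeal R := hψm 0 h1
    have h3 : (D 0).ψ (C (constantCoeff f)) = algebraMap 𝒪 R (constantCoeff f) :=
      (D 0).ψ.commutes _
    rwa [h3] at h2
  have hccl : ∀ {x : ℕ → A} {z : A}, IsULim (maximalIdeal A) U x z →
      IsULim (maximalIdeal R) U (fun n => algebraMap 𝒪 R (constantCoeff (x n)))
        (algebraMap 𝒪 R (constantCoeff z)) := fun hx =>
    hx.map ((algebraMap 𝒪 R).comp (constantCoeff (σ := Fin r) (R := 𝒪))) hcc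
  -- compatibility
  have hcompat : ∀ f j, ∑ i, algebraMap 𝒪 R (constantCoeff (Θl f i j)) • el i = ψL f • el j := by
    intro f j
    refine IsULim.unique (I := maximalIdeal R) (U := U) (IsULim.sum Finset.univ fun i _ =>
      (hccl (hΘl f i j)).smul (hel i)) ?_
    have h1 := (hψl f).smul (hel j)
    simp only [← (D _).e_compat] at h1
    exact h1
  -- freeness of the limit basis
  let _ : Module 𝒪 M := Module.compHom M (algebraMap 𝒪 R)
  have hsm : ∀ (c : 𝒪) (m : M), c • m = algebraMap 𝒪 R c • m := fun _ _ => rfl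
  have hbasis : Function.Bijective (fun c : Fin d → 𝒪 => ∑ i, algebraMap 𝒪 R (c i) • el i) := by
    -- `𝔪_R ^ K₀ M ⊆ 𝔪_𝒪 M`
    let I : Ideal R := (maximalIdeal 𝒪).map (algebraMap 𝒪 R)
    have hI : ∀ x ∈ (I • ⊤ : Submodule R M), x ∈ (maximalIdeal 𝒪 • ⊤ : Submodule 𝒪 M) := by
      intro x hx
      refine Submodule.smul_induction_on hx ?_ fun x y => Submodule.add_mem _
      intro a ha y _
      have key' : ∀ a ∈ I, ∀ y : M, a • y ∈ (maximalIdeal 𝒪 • ⊤ : Submodule 𝒪 M) := by
        intro a ha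
        induction ha using Submodule.span_induction with
        | mem a ha =>
          obtain ⟨a, ha, rfl⟩ := ha
          intro y
          exact Submodule.smul_mem_smul ha trivial
        | zero => intro y; rw [zero_smul]; exact Submodule.zero_mem _
        | add a a' _ _ h1 h2 => intro y; rw [add_smul]; exact Submodule.add_mem _ (h1 y) (h2 y)
        | smul t a _ h => intro y; rw [smul_eq_mul, mul_comm, mul_smul]; exact h (t • y)
      exact key' a ha y
    have hfin : Finite (M ⧸ (I • ⊤ : Submodule R M)) := by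
      let q : (Fin d → 𝒪 ⧸ maximalIdeal 𝒪) → M ⧸ (I • ⊤ : Submodule R M) := fun c =>
        Submodule.Quotient.mk (∑ i, algebraMap 𝒪 R ((c i).out) • (D 0).e i)
      have hq : Function.Surjective q := by
        intro z
        obtain ⟨x, rfl⟩ := Submodule.Quotient.mk_surjective _ z
        obtain ⟨c, rfl⟩ := (D 0).e_span x
        refine ⟨fun i => Ideal.Quotient.mk _ (c i), ?_⟩
        refine (Submodule.Quotient.eq _).mpr ?_
        rw [← Finset.sum_sub_distrib]
        refine Submodule.sum_mem _ fun i _ => ?_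
        rw [← sub_smul, ← map_sub]
        refine Submodule.smul_mem_smul (Ideal.mem_map_of_mem _ ?_) trivial
        rw [← Ideal.Quotient.eq]
        exact Quotient.out_eq _
      have : Finite (𝒪 ⧸ maximalIdeal 𝒪) := inferInstanceAs (Finite (ResidueField 𝒪))
      exact Finite.of_surjective q hq
    have hK0 := pow_smul_top_eq_bot_of_card_le (B := R) _
      (le_refl (Nat.card (M ⧸ (I • ⊤ : Submodule R M))))
    have hK0' : ∀ x ∈ (maximalIdeal R ^ (Nat.card (M ⧸ (I • ⊤ : Submodule R M))) • ⊤ :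
        Submodule R M), x ∈ (I • ⊤ : Submodule R M) := by
      intro x hx
      have h1 := Submodule.mem_map_of_mem (f := (I • ⊤ : Submodule R M).mkQ) hx
      rw [Submodule.map_smul'', Submodule.map_top, Submodule.range_mkQ, hK0, Submodule.mem_bot,
        Submodule.mkQ_apply, Submodule.Quotient.mk_eq_zero] at h1
      exact h1
    -- choose a good index
    have hev : ∀ᶠ n in (U : Filter ℕ), ∀ i, (D n).e i - el i ∈
        (maximalIdeal R ^ (Nat.card (M ⧸ (I • ⊤ : Submodule R M))) • ⊤ : Submodule R M) :=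
      Filter.eventually_all.mpr fun i => hel i _
    obtain ⟨n, hn⟩ := hev.exists
    let f : (Fin d → 𝒪) →ₗ[𝒪] M := Fintype.linearCombination 𝒪 el
    have hf : ∀ c, f c = ∑ i, algebraMap 𝒪 R (c i) • el i := fun c => by
      rw [Fintype.linearCombination_apply]
      rfl
    let g : (Fin d → 𝒪) →ₗ[𝒪] M := Fintype.linearCombination 𝒪 (D n).e
    have hg : ∀ c, g c = ∑ i, algebraMap 𝒪 R (c i) • (D n).e i := fun c => by
      rw [Fintype.linearCombination_apply]
      rfl
    have hgb : Function.Bijective g := by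
      constructor
      · rw [← LinearMap.ker_eq_bot, LinearMap.ker_eq_bot']
        intro c hc
        rw [hg] at hc
        exact funext ((D n).e_indep c hc)
      · intro m
        obtain ⟨c, hc⟩ := (D n).e_span m
        exact ⟨c, by rw [hg, hc]⟩
    have hMfin𝒪 : Module.Finite 𝒪 M := Module.Finite.of_surjective g hgb.2
    have hfs : Function.Surjective f := by
      rw [← LinearMap.range_eq_top, eq_top_iff]
      refine Submodule.le_of_le_smul_of_le_jacobson_bot (I := maximalIdeal 𝒪)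
        Module.Finite.fg_top (maximalIdeal_le_jacobson _) ?_
      rintro m -
      obtain ⟨c, rfl⟩ := (D n).e_span m
      have h1 : ∑ i, algebraMap 𝒪 R (c i) • (D n).e i = f c +
          ∑ i, (c i) • ((D n).e i - el i) := by
        rw [hf, ← Finset.sum_add_distrib]
        refine Finset.sum_congr rfl fun i _ => ?_
        rw [smul_sub, hsm, hsm]
        abel
      rw [h1]
      refine Submodule.add_mem_sup ⟨c, rfl⟩ (Submodule.sum_mem _ fun i _ =>
        Submodule.smul_mem _ _ (hI _ (hK0' _ (hn i))))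
    let e := LinearEquiv.ofBijective g hgb
    have hfi : Function.Injective f := by
      have h1 : Function.Surjective (e.symm.toLinearMap.comp f) :=
        e.symm.surjective.comp hfs
      have h2 := OrzechProperty.injective_of_surjective_endomorphism _ h1
      exact Function.Injective.of_comp (f := e.symm) h2
    have : (fun c : Fin d → 𝒪 => ∑ i, algebraMap 𝒪 R (c i) • el i) = f := funext fun c => (hf c).symm
    rw [this]
    exact ⟨hfi, hfs⟩
  refine ⟨{ φ := φL
            ψ := ψL
            ψ_surjective := hsurj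
            ψ_φ_X := ?_
            Θ := Θl
            Θ_add := ?_
            Θ_one := ?_
            Θ_mul := ?_
            Θ_φ := ?_
            e := el
            e_compat := hcompat
            e_span := ?_
            e_indep := ?_ }⟩
  · intro i
    have h1 := hcomp _ _ (hφl (X i))
    simp only [(D _).ψ_φ_X] at h1
    exact IsULim.unique h1 (IsULim.const 0)
  · intro f g i j
    exact key (hΘl (f + g) i j) ((hΘl f i j).add (hΘl g i j)) fun n => (D n).Θ_add f g i j
  · intro i j
    exact key (hΘl 1 i j) (limconst _) fun n => (D n).Θ_one i j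
  · intro f g i j
    exact key (hΘl (f * g) i j)
      (IsULim.sum Finset.univ fun l _ => (hΘl f i l).mul (hΘl g l j)) fun n => (D n).Θ_mul f g i j
  · intro c i j
    rw [Submodule.mem_bot, sub_eq_zero]
    refine IsULim.unique (hΘl (φL c) i j) ((limconst _).congr fun k => ?_)
    filter_upwards [hφl c (K k), hU k] with n hn1 hn2
    rw [memA] at hn1 ⊢
    have h1 := hK n k _ hn1 i j
    have h2 : maximalIdeal A ^ k ⊔ J n ≤ maximalIdeal A ^ k :=
      sup_le le_rfl ((hJ n).trans (Ideal.pow_le_pow_right hn2))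
    have h3 := (J n).sub_mem ((D n).Θ_φ c i j) ((D n).Θ_add ((D n).φ c - φl c) (φl c) i j)
    rw [sub_add_cancel] at h3
    have h4 := Ideal.sub_mem _ (h2 (Ideal.mem_sup_right h3)) (h2 h1)
    have h5 : (D n).Θ (φL c) i j - (if i = j then c else 0) =
        (D n).Θ ((D n).φ c) i j - (if i = j then c else 0) -
          ((D n).Θ ((D n).φ c) i j - ((D n).Θ ((D n).φ c - φl c) i j + (D n).Θ (φl c) i j)) -
          (D n).Θ ((D n).φ c - φl c) i j := by
      rw [hφL]; ring
    rw [h5]
    exact h4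
  · intro m
    obtain ⟨c, hc⟩ := hbasis.2 m
    exact ⟨c, hc.symm⟩
  · intro c hc i
    have := hbasis.1 (a₁ := c) (a₂ := 0) (by simpa using hc)
    rw [this, Pi.zero_apply]

end Limit

section Final

lemma one_add_X_pow_sub_one_mem {A : Type*} [CommRing A] [IsLocalRing A] {ℓ : ℕ}
    (hℓ : (ℓ : A) ∈ maximalIdeal A) {x : A} (hx : x ∈ maximalIdeal A) (n : ℕ) :
    (1 + x) ^ (ℓ ^ n) - 1 ∈ maximalIdeal A ^ (n + 1) := by
  induction n with
  | zero => simpa using hx
  | succ n ih =>
    have h1 : (1 + x) ^ (ℓ ^ (n + 1)) - 1 =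
        ((1 + x) ^ (ℓ ^ n) - 1) * ∑ i ∈ Finset.range ℓ, ((1 + x) ^ (ℓ ^ n)) ^ i := by
      rw [mul_comm, geom_sum_mul, ← pow_mul, pow_succ]
    rw [h1, pow_succ]
    refine Ideal.mul_mem_mul ih ?_
    have h2 : ∑ i ∈ Finset.range ℓ, ((1 + x) ^ (ℓ ^ n)) ^ i =
        ∑ i ∈ Finset.range ℓ, (((1 + x) ^ (ℓ ^ n)) ^ i - 1) + (ℓ : A) := by
      rw [Finset.sum_sub_distrib]
      simp
    rw [h2]
    refine Ideal.add_mem _ (Ideal.sum_mem _ fun i _ => ?_) hℓ
    have h3 : (1 + x) ^ (ℓ ^ n) - 1 ∈ maximalIdeal A := Ideal.pow_le_self (by omega) ih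
    have h4 : ((1 + x) ^ (ℓ ^ n) - 1) ∣ ((1 + x) ^ (ℓ ^ n)) ^ i - 1 := by
      simpa using sub_dvd_pow_sub_pow ((1 + x) ^ (ℓ ^ n)) 1 i
    exact Ideal.mem_of_dvd _ h4 h3

variable [IsDomain 𝒪] [IsDiscreteValuationRing 𝒪] [IsAdicComplete (maximalIdeal 𝒪) 𝒪]
  [Finite (ResidueField 𝒪)]

/-- **Patching, limit step**: a patching datum yields a patching level with trivial relations. -/
theorem nonempty_level_bot {ℓ : ℕ} (hℓ : (ℓ : 𝒪) ∈ maximalIdeal 𝒪) [Nontrivial M]
    (D : Algebra.PatchingDatum 𝒪 ℓ r R M) : Nonempty (Algebra.PatchingLevel 𝒪 r R M ⊥) := by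
  classical
  have hRn : Nontrivial R := Module.nontrivial R M
  have hRloc : IsLocalRing R :=
    IsLocalRing.of_surjective' ((D.level 0).ψ : MvPowerSeries (Fin r) 𝒪 →+* R)
      (D.level 0).ψ_surjective
  let J : ℕ → Ideal (MvPowerSeries (Fin r) 𝒪) := fun n =>
    Ideal.span (Set.range fun j : Fin r => ((1 + X j) ^ (ℓ ^ n) - 1 : MvPowerSeries (Fin r) 𝒪))
  have hℓ' : (ℓ : MvPowerSeries (Fin r) 𝒪) ∈ maximalIdeal (MvPowerSeries (Fin r) 𝒪) := by
    rw [mem_maximalIdeal, mem_nonunits_iff, MvPowerSeries.isUnit_iff_constantCoeff, map_natCast]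
    exact hℓ
  have hXm : ∀ j : Fin r, (X j : MvPowerSeries (Fin r) 𝒪) ∈
      maximalIdeal (MvPowerSeries (Fin r) 𝒪) := by
    intro j
    rw [mem_maximalIdeal, mem_nonunits_iff, MvPowerSeries.isUnit_iff_constantCoeff,
      constantCoeff_X]
    exact not_isUnit_zero
  have hJ : ∀ n, J n ≤ maximalIdeal (MvPowerSeries (Fin r) 𝒪) ^ n := by
    intro n
    rw [Ideal.span_le]
    rintro _ ⟨j, rfl⟩
    exact Ideal.pow_le_pow_right (Nat.le_succ n) (one_add_X_pow_sub_one_mem hℓ' (hXm j) n)
  have hJ0 : ∀ n, ∀ f ∈ J n, constantCoeff f = 0 := by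
    intro n
    have h1 : J n ≤ RingHom.ker (constantCoeff (σ := Fin r) (R := 𝒪)) := by
      rw [Ideal.span_le]
      rintro _ ⟨j, rfl⟩
      simp [RingHom.mem_ker]
    exact h1
  let E : ∀ n, MatLevel 𝒪 r R M (J n) (D.level n).d := fun n =>
    MatLevel.ofLevel (D.level n) (hJ0 n)
  have hMfin : Module.Finite R M := by
    refine Module.Finite.of_surjective (Fintype.linearCombination R (E 0).e) ?_
    intro m
    obtain ⟨c, hc⟩ := (E 0).e_span m
    exact ⟨fun i => algebraMap 𝒪 R (c i), by rw [Fintype.linearCombination_apply, hc]⟩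
  let _ : Module 𝒪 M := Module.compHom M (algebraMap 𝒪 R)
  have hd : ∀ n, Module.finrank 𝒪 M = (D.level n).d := by
    intro n
    let g : (Fin (D.level n).d → 𝒪) →ₗ[𝒪] M := Fintype.linearCombination 𝒪 (E n).e
    have hg : ∀ c, g c = ∑ i, algebraMap 𝒪 R (c i) • (E n).e i := fun c => by
      rw [Fintype.linearCombination_apply]
      rfl
    have hgb : Function.Bijective g := by
      constructor
      · rw [← LinearMap.ker_eq_bot, LinearMap.ker_eq_bot']
        intro c hc
        rw [hg] at hc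
        exact funext ((E n).e_indep c hc)
      · intro m
        obtain ⟨c, hc⟩ := (E n).e_span m
        exact ⟨c, by rw [hg, hc]⟩
    rw [← (LinearEquiv.ofBijective g hgb).finrank_eq]
    simp
  have key : ∀ n, ∃ F : MatLevel 𝒪 r R M (J n) (Module.finrank 𝒪 M), ∀ k f,
      f ∈ maximalIdeal (MvPowerSeries (Fin r) 𝒪) ^
        (Nat.card (MvPowerSeries (Fin r) 𝒪 ⧸ maximalIdeal (MvPowerSeries (Fin r) 𝒪) ^ k)) ^
          (Module.finrank 𝒪 M) → ∀ i j, F.Θ f i j ∈
            maximalIdeal (MvPowerSeries (Fin r) 𝒪) ^ k ⊔ J n := by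
    intro n
    rw [hd n]
    refine ⟨E n, fun k f hf i j => ?_⟩
    have := finite_quot_pow 𝒪 r k
    exact levelΘ_mem (D.level n) k f hf i j
  choose F hF using key
  obtain ⟨G⟩ := exists_matLevel_bot J hJ F
    (fun k => (Nat.card (MvPowerSeries (Fin r) 𝒪 ⧸
      maximalIdeal (MvPowerSeries (Fin r) 𝒪) ^ k)) ^ (Module.finrank 𝒪 M))
    (fun n k f hf i j => hF n k f hf i j)
  exact ⟨G.toLevel⟩

/-- **Patching theorem** (limit and descent combined). -/
theorem free_of_patchingDatum {ℓ : ℕ} (hℓ : (ℓ : 𝒪) ∈ maximalIdeal 𝒪) [Nontrivial M]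
    (D : Algebra.PatchingDatum 𝒪 ℓ r R M) :
    Module.Free R M ∧ Module.annihilator R M = ⊥ ∧
      ∃ (ψ : MvPowerSeries (Fin r) 𝒪 →ₐ[𝒪] R) (f : Fin r → MvPowerSeries (Fin r) 𝒪),
        Function.Surjective ψ ∧ RingHom.ker ψ = Ideal.span (Set.range f) := by
  obtain ⟨L⟩ := nonempty_level_bot hℓ D
  obtain ⟨h1, h2, h3⟩ := Fermat.Agent.S57.result L
  exact ⟨h1, h2, L.ψ, fun i => L.φ (X i), L.ψ_surjective, h3⟩

end Final

end Fermat.Agent.H57
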