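import Mathlib
import Fermat.Agent.H58KIIn
import Fermat.Agent.H58Sep
import Fermat.Agent.H50EmbC
import Fermat.Agent.H29Final

/-!
# The function field of `±Γ₁(M) ∩ Γ₀(r)` over the Hauptmodul line: Gauss valuation and
`q`-expansions of the conjugates
-/

set_option autoImplicit false
set_option linter.unusedSectionVars false

namespace Fermat.Agent.H58.Core

open UpperHalfPlane hiding I
open Complex MatrixGroups ModularGroup Fermat.Agent.H61 ModularCurve Fermat.Agent.H24
open Fermat.Agent.H66 Fermat.Agent.H78.FF Fermat.Agent.H50.Haupt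
open Fermat.Agent.H22.Tw (pmG)
open Fermat.Agent.H78.KI (GG CoreKI CoreQE)
open Polynomial IntermediateField IsLocalRing CongruenceSubgroup
open scoped Manifold Real

noncomputable section

local notation "𝕢" => Function.Periodic.qParam

theorem coeffMap_inj {R S : Type*} [CommRing R] [CommRing S] {f : R →+* S}
    (hf : Function.Injective f) : Function.Injective (coeffMap f) := by
  intro x y h
  ext n
  exact hf (by
    have := congrArg (fun z : LaurentSeries S => z.coeff n) h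
    simpa using this)

theorem hasLead_coeffMap {R S : Type*} [CommRing R] [CommRing S] (φ : R →+* S)
    {x : LaurentSeries R} {n : ℤ} {c : R} (h : HasLead x n c) :
    HasLead (coeffMap φ x) n (φ c) := by
  refine ⟨?_, fun m hm => ?_⟩
  · rw [coeffMap_coeff, h.1]
  · rw [coeffMap_coeff, h.2 m hm, map_zero]

/-- lifting Laurent series to a subring -/
theorem exists_lift {R S : Type*} [CommRing R] [CommRing S] {φ : R →+* S}
    (hφ : Function.Injective φ) (x : LaurentSeries S) (hx : ∀ n, x.coeff n ∈ φ.range) :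
    ∃ y : LaurentSeries R, coeffMap φ y = x := by
  choose a ha using hx
  refine ⟨⟨a, x.isPWO_support.mono fun n hn => ?_⟩, ?_⟩
  · simp only [Function.mem_support] at hn
    intro h
    apply hn
    apply hφ
    rw [ha, h, map_zero]
  · ext n
    exact ha n

/-! ### Separation -/

theorem GG_le (M r : ℕ) : GG M r ≤ Gamma0 r := inf_le_right

theorem finiteIndex_GG (M r : ℕ) [NeZero (M * r)] : (GG M r).FiniteIndex := by
  obtain ⟨hM, hr⟩ := pos_of_neZero (M := M) (r := r)
  have : NeZero M := ⟨hM.ne'⟩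
  have : NeZero r := ⟨hr.ne'⟩
  have h1 : (pmG M).FiniteIndex := Fermat.Agent.H22.Tw.finiteIndex_pmG
  have h2 : (Gamma0 r).FiniteIndex := inferInstance
  show (pmG M ⊓ Gamma0 r).FiniteIndex
  infer_instance

section Sep

variable {K : Type*} [Field K] [Algebra K ℂ] {M r : ℕ} [NeZero (M * r)] [NeZero r]
  (H : Haup K r (M * r)) (hM : 2 ≤ M) (hr : r = 2 ∨ r = 3)
  (hK : ∀ z : ℂ, z ^ (M * r) = 1 → z ∈ (algebraMap K ℂ).range)

include H hM hr hK in
theorem sep_GG : Sep K (GG M r) (M * r) := by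
  intro γ hγ
  have h0 : γ ∈ Gamma0 r := by
    apply H.sep
    intro τ
    have h1 := congrFun (hγ H.t (good_mono inf_le_right H.good)) τ
    rwa [H.ev_t] at h1
  obtain ⟨x, hx, hev, -⟩ := exists_good hM hr K hK
  have h1 := hγ x hx
  rw [hev] at h1
  refine ⟨?_, h0⟩
  have h1' : compHom (1 : SL(2, ℤ)) (th M r) = th M r := by
    ext τ; simp
  have h2 := (th_comp_eq_iff hM hr (one_mem (Gamma0 r)) h0).mp (by rw [h1', h1])
  simpa using h2

theorem phi_one (x : GoodAlg K (GG M r) (M * r)) :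
    phi (goodChart_qParam K (GG M r) (M * r)) 1 x = qExpand ℂ (M * r) (incl K x) := by
  apply H78.FF.phi_eq
  have hconv := (good_of_mem x.2).conv
  refine ⟨isConv_qExpand (M * r) hconv, fun τ hτ => ?_⟩
  rw [evalAt_qExpand (M * r) hconv hτ (qParam_norm_lt_one (M * r) τ), qParam_pow_self]
  show _ = ev K (x : LaurentSeries K) ((1 : SL(2, ℤ)) • τ)
  rw [one_smul]
  rfl

end Sep

/-! ### The abstract set-up -/

section Setup

variable {𝔬 K A : Type*} [CommRing 𝔬] [IsDomain 𝔬] [IsDiscreteValuationRing 𝔬] [Field K]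
  [CharZero K] [Algebra 𝔬 K] [IsFractionRing 𝔬 K] [Algebra K ℂ]
  [CommRing A] [IsLocalRing A] (ιA : A →+* ℂ) (hιA : Function.Injective ιA)
  (g : 𝔬 →+* A) [IsLocalHom g] (hg : ∀ c, ιA (g c) = algebraMap K ℂ (algebraMap 𝔬 K c))
  {M r : ℕ} [NeZero (M * r)] [NeZero r] (H : Haup K r (M * r))
  (tA : LaurentSeries A) (htA : coeffMap ιA tA = incl K H.t) (hlead : HasLead tA (-1) 1)

/-- the Hauptmodul in the function field -/
abbrev tH : FF K (GG M r) (M * r) := H.tF (GG_le M r)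

variable [Algebra 𝔬 K⟮tH H⟯] [IsScalarTower 𝔬 K K⟮tH H⟯]

/-- the embedding at the cusp `∞` -/
def φ₀ : K⟮tH H⟯ →+* LaurentSeries ℂ :=
  (sFF (goodChart_qParam K (GG M r) (M * r)) (QuotientGroup.mk 1) :
    FF K (GG M r) (M * r) →+* LaurentSeries ℂ).comp (algebraMap K⟮tH H⟯ (FF K (GG M r) (M * r)))

omit [Algebra 𝔬 K⟮tH H⟯] [IsScalarTower 𝔬 K K⟮tH H⟯] [CharZero K] in
theorem φ₀_gen : φ₀ H (AdjoinSimple.gen K (tH H)) = qExpand ℂ (M * r) (incl K H.t) := by
  show sFF (goodChart_qParam K (GG M r) (M * r)) (QuotientGroup.mk 1) (tH H) = _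
  rw [tH, ← Haup.algebraMap_tG, sFF_algebraMap, H78.FF.sA_mk, inv_one, phi_one]
  rfl

theorem φ₀_algebraMap (c : K) : φ₀ H (algebraMap K K⟮tH H⟯ c) = HahnSeries.C (algebraMap K ℂ c) := by
  show sFF (goodChart_qParam K (GG M r) (M * r)) (QuotientGroup.mk 1)
    (algebraMap K (FF K (GG M r) (M * r)) c) = _
  rw [AlgHom.commutes, HahnSeries.algebraMap_apply', PowerSeries.algebraMap_apply]
  simp

include hιA hg htA hlead in
/-- the Gauss valuation via the expansions at `∞` -/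
def gaussRed : H29.GaussRed 𝔬 (AdjoinSimple.gen K (tH H)) (LaurentSeries A) (LaurentSeries ℂ)
    (LaurentSeries (ResidueField A)) where
  i := coeffMap ιA
  inj := coeffMap_inj hιA
  ρ := coeffMap (residue A)
  φ := φ₀ H
  o := HahnSeries.C.comp g
  hφ c := by
    rw [IsScalarTower.algebraMap_apply 𝔬 K K⟮tH H⟯, φ₀_algebraMap, ← hg]
    show _ = coeffMap ιA (HahnSeries.single 0 (g c))
    rw [coeffMap_single]
    rfl
  s₀ := qExpand A (M * r) tA
  hs₀ := by
    rw [φ₀_gen, coeffMap_qExpand, htA]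
  red c hc := by
    show coeffMap (residue A) (HahnSeries.single 0 (g c)) = 0
    rw [coeffMap_single]
    have h1 : residue A (g c) = 0 := by
      rw [residue_eq_zero_iff, mem_maximalIdeal, mem_nonunits_iff]
      exact fun h => hc (isUnit_of_map_unit g _ h)
    rw [h1, HahnSeries.single_eq_zero]
  trans p hp := by
    have hred : HasLead (coeffMap (residue A) (qExpand A (M * r) tA)) (-((M * r : ℕ) : ℤ)) 1 := by
      have h1 := hasLead_coeffMap (residue A) (hlead.qExpand (M * r))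
      rw [map_one] at h1
      convert! h1 using 1
      ring
    have key := HasLead.eval₂ (n := ((M * r : ℕ) : ℤ)) hred
      (by exact_mod_cast Nat.pos_of_ne_zero (NeZero.ne (M * r)))
      ((p.map (residue 𝔬)).map (ResidueField.map g))
    have h2 : coeffMap (residue A) (p.eval₂ (HahnSeries.C.comp g) (qExpand A (M * r) tA)) =
        ((p.map (residue 𝔬)).map (ResidueField.map g)).eval₂ HahnSeries.C
          (coeffMap (residue A) (qExpand A (M * r) tA)) := by
      rw [hom_eval₂, eval₂_map, eval₂_map]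
      congr 1
      ext1 a
      simp only [RingHom.coe_comp, Function.comp_apply, ResidueField.map_residue]
      rw [HahnSeries.C_apply, HahnSeries.C_apply]
      exact coeffMap_single _ _ _
    rw [h2]
    refine key.ne_zero (leadingCoeff_ne_zero.mpr ?_)
    rwa [Polynomial.map_ne_zero_iff (ResidueField.map g).injective]

/-! ### The conjugates -/

theorem cosetMap_mk {Γ : Subgroup SL(2, ℤ)} (γ : Gamma0 r) :
    Haup.cosetMap r Γ (QuotientGroup.mk γ) = QuotientGroup.mk (γ : SL(2, ℤ)) := by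
  have h1 : (QuotientGroup.mk (Quotient.out (QuotientGroup.mk γ :
      Gamma0 r ⧸ Γ.subgroupOf (Gamma0 r))) : Gamma0 r ⧸ Γ.subgroupOf (Gamma0 r)) =
    QuotientGroup.mk γ := Quotient.out_eq _
  have h2 := QuotientGroup.eq.mp h1
  rw [Subgroup.mem_subgroupOf] at h2
  exact QuotientGroup.eq.mpr h2

variable (K M r) in
/-- the embeddings of the function field indexed by the cosets of `Γ₀(r)` -/
def τ₀ (i : Gamma0 r ⧸ (GG M r).subgroupOf (Gamma0 r)) :
    FF K (GG M r) (M * r) →+* LaurentSeries ℂ :=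
  (sFF (goodChart_qParam K (GG M r) (M * r)) (Haup.cosetMap r (GG M r) i) :
    FF K (GG M r) (M * r) →+* LaurentSeries ℂ)

omit [Algebra 𝔬 K⟮tH H⟯] [IsScalarTower 𝔬 K K⟮tH H⟯] [CharZero K] in
theorem τ₀_ext (i : Gamma0 r ⧸ (GG M r).subgroupOf (Gamma0 r)) (x : K⟮tH H⟯) :
    τ₀ K M r i (algebraMap K⟮tH H⟯ (FF K (GG M r) (M * r)) x) = φ₀ H x := by
  refine algHom_eq_on_adjoin
    (σ := sFF (goodChart_qParam K (GG M r) (M * r)) (Haup.cosetMap r (GG M r) i))
    (σ' := sFF (goodChart_qParam K (GG M r) (M * r)) (QuotientGroup.mk 1)) (t := tH H) ?_ x.2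
  exact (H.sFF_tF_eq_iff (GG_le M r) (goodChart_qParam K (GG M r) (M * r)) _ _).mpr
    (by rw [mul_one]; exact inv_mem (Quotient.out i).2)

theorem τ₀_mk (γ : Gamma0 r) (x : GoodAlg K (GG M r) (M * r)) :
    τ₀ K M r (QuotientGroup.mk γ) (algebraMap (GoodAlg K (GG M r) (M * r)) _ x) =
      phi (goodChart_qParam K (GG M r) (M * r)) (γ : SL(2, ℤ))⁻¹ x := by
  show sFF (goodChart_qParam K (GG M r) (M * r)) (Haup.cosetMap r (GG M r) (QuotientGroup.mk γ)) _ = _
  rw [cosetMap_mk, sFF_algebraMap, H78.FF.sA_mk]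

variable (hR : IsCyc (M * r) ιA.range) (hM : 2 ≤ M) (hr : r = 2 ∨ r = 3)
  (hK : ∀ z : ℂ, z ^ (M * r) = 1 → z ∈ (algebraMap K ℂ).range)

include hιA hR hM hr hK in
theorem exists_theta : ∃ (θ : FF K (GG M r) (M * r))
    (a : Gamma0 r ⧸ (GG M r).subgroupOf (Gamma0 r) → LaurentSeries A),
    (∀ i, τ₀ K M r i θ = coeffMap ιA (a i)) ∧
      ∀ i j, i ≠ j → coeffMap (residue A) (a i) ≠ coeffMap (residue A) (a j) := by
  have hr2 : 2 ≤ r := by rcases hr with rfl | rfl <;> norm_num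
  obtain ⟨x, hx, hev, -⟩ := exists_good hM hr K hK
  have hlift : ∀ γ : SL(2, ℤ), ∃ y : LaurentSeries A, coeffMap ιA y = thS M r γ := fun γ =>
    exists_lift hιA _ (thS_coeff_mem hR hM hr2 γ)
  choose y hy using hlift
  refine ⟨algebraMap (GoodAlg K (GG M r) (M * r)) _ ⟨x, hx⟩,
    fun i => y ((Quotient.out i : Gamma0 r) : SL(2, ℤ))⁻¹, fun i => ?_, fun i j hij h => ?_⟩
  · have h1 := τ₀_mk (K := K) (M := M) (Quotient.out i) ⟨x, hx⟩
    have h2 : (QuotientGroup.mk (Quotient.out i) : Gamma0 r ⧸ (GG M r).subgroupOf (Gamma0 r)) = i :=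
      Quotient.out_eq _
    rw [h2] at h1
    rw [h1, hy]
    apply H78.FF.phi_eq
    have h3 := hasExpC_th hM hr2 ((Quotient.out i : Gamma0 r) : SL(2, ℤ))⁻¹
    rw [← hev] at h3
    exact h3
  · have hne : ((Quotient.out j : Gamma0 r) : SL(2, ℤ))⁻¹ *
        (((Quotient.out i : Gamma0 r) : SL(2, ℤ))⁻¹)⁻¹ ∉ pmG M := by
      intro hmem
      apply hij
      rw [inv_inv] at hmem
      rw [← Quotient.out_eq i, ← Quotient.out_eq j]
      symm
      refine QuotientGroup.eq.mpr ?_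
      rw [Subgroup.mem_subgroupOf]
      exact ⟨hmem, (Gamma0 r).mul_mem ((Gamma0 r).inv_mem (Quotient.out j).2) (Quotient.out i).2⟩
    obtain ⟨n, c, hc, hcR, hciR, hl⟩ := hasLead_thS_sub hR hM hr
      (inv_mem (Quotient.out i : Gamma0 r).2) (inv_mem (Quotient.out j : Gamma0 r).2) hne
    obtain ⟨u, hu⟩ := hcR
    obtain ⟨v, hv⟩ := hciR
    have huv : u * v = 1 := hιA (by rw [map_mul, hu, hv, map_one, mul_inv_cancel₀ hc])
    have h1 : (y ((Quotient.out i : Gamma0 r) : SL(2, ℤ))⁻¹).coeff n -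
        (y ((Quotient.out j : Gamma0 r) : SL(2, ℤ))⁻¹).coeff n = u := by
      apply hιA
      rw [map_sub, hu, ← hl.1, HahnSeries.coeff_sub, ← hy, ← hy, coeffMap_coeff, coeffMap_coeff]
    have h2 : residue A u = 0 := by
      have := congrArg (fun z : LaurentSeries (ResidueField A) => z.coeff n) h
      simp only [coeffMap_coeff] at this
      rw [← h1, map_sub, this, sub_self]
    have h3 : residue A (u * v) = 0 := by rw [map_mul, h2, zero_mul]
    rw [huv, map_one] at h3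
    exact one_ne_zero h3

variable [Algebra 𝔬 (FF K (GG M r) (M * r))] [IsScalarTower 𝔬 K⟮tH H⟯ (FF K (GG M r) (M * r))]
  {ϖ : 𝔬} (hϖ : Irreducible ϖ) (p : ℕ) (hp : ϖ ∣ (p : 𝔬)) (hp1 : 1 ≤ p) (c : 𝔬) (hc : IsUnit c)
  (hHc : H.c = algebraMap K ℂ (algebraMap 𝔬 K c))

include ιA hιA g hg H tA htA hlead hR hM hr hK hϖ p hp hp1 c hc hHc in
/-- **`q`-expansion principle**. -/
theorem qe_abs (x : GoodAlg K (GG M r) (M * r)) {γ : SL(2, ℤ)} (hγ : γ ∈ Gamma0 r)
    (P : LaurentSeries A) (hP : coeffMap ιA P = incl K (x : LaurentSeries K)) :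
    ∃ b b' : LaurentSeries A, coeffMap (residue A) b' ≠ 0 ∧
      phi (goodChart_qParam K (GG M r) (M * r)) γ x * coeffMap ιA b' = coeffMap ιA b := by
  have hfi : (GG M r).FiniteIndex := finiteIndex_GG M r
  have hsep : Sep K (GG M r) (M * r) := sep_GG H hM hr hK
  have hfd : FiniteDimensional K⟮tH H⟯ (FF K (GG M r) (M * r)) :=
    H.finiteDimensional_tF (GG_le M r) hsep
  have hfin : Finite (Gamma0 r ⧸ (GG M r).subgroupOf (Gamma0 r)) := by
    have := Subgroup.instFiniteIndex_subgroupOf (GG M r) (Gamma0 r)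
    exact Subgroup.finite_quotient_of_finiteIndex
  obtain ⟨θ, a, ha, hdist⟩ := exists_theta (K := K) ιA hιA hR hM hr hK
  have key := H29.qexp_principle (Υ := ℂ) (H.isRatGen (GG_le M r)) hϖ
    (gaussRed ιA hιA g hg H tA htA hlead) (τ₀ K M r) (H.finrank_tF (GG_le M r) hsep).symm
    (τ₀_ext H) θ a ha hdist p hp hp1 c hc (FF K (GG M r) (M * r)).val.toRingHom
    (fun c => by
      show algebraMap K (LaurentSeries K) c = _
      rw [HahnSeries.algebraMap_apply', PowerSeries.algebraMap_apply]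
      simp) (fun α h1 h2 => H.exists_embAt (GG_le M r) hsep α h1 (by rw [hHc]; exact h2))
    (z := algebraMap (GoodAlg K (GG M r) (M * r)) _ x) (QuotientGroup.mk 1)
    (QuotientGroup.mk ⟨γ⁻¹, inv_mem hγ⟩)
    (by
      refine ⟨qExpand A (M * r) P, 1, by rw [map_one]; exact one_ne_zero, ?_⟩
      rw [τ₀_mk, map_one, mul_one]
      show phi _ (1 : SL(2, ℤ))⁻¹ x = coeffMap ιA (qExpand A (M * r) P)
      rw [inv_one, phi_one, coeffMap_qExpand, hP])
  obtain ⟨b, b', hb', hb⟩ := key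
  refine ⟨b, b', hb', ?_⟩
  rw [τ₀_mk] at hb
  have hb2 : phi (goodChart_qParam K (GG M r) (M * r)) (γ⁻¹)⁻¹ x * coeffMap ιA b' =
    coeffMap ιA b := hb
  rwa [inv_inv] at hb2

include ιA hιA g hg H tA htA hlead hR hM hr hK hϖ p hp hp1 c hc hHc in
/-- **Kummer injectivity**. -/
theorem ki_abs {m : ℕ} (hm : m.Prime) (hmu : IsUnit (m : 𝔬)) (u₁ u₂ : GoodAlg K (GG M r) (M * r))
    (hu₂ : u₂ ≠ 0)
    {h₁ h₂ : ℍ → ℂ} (hh₁ : h₁ ∈ Hol) (hh₂ : h₂ ∈ Hol)
    (he₁ : ∀ τ, h₁ τ ^ m = ev K (u₁ : LaurentSeries K) τ)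
    (he₂ : ∀ τ, h₂ τ ^ m = ev K (u₂ : LaurentSeries K) τ)
    (P Q : LaurentSeries A) (hP : coeffMap ιA P = incl K (u₁ : LaurentSeries K))
    (hQ : coeffMap ιA Q = incl K (u₂ : LaurentSeries K))
    (hPQ : coeffMap (residue A) P = coeffMap (residue A) Q) (hQ0 : coeffMap (residue A) Q ≠ 0)
    (h₀ : LaurentSeries K) (hh₀ : h₀ ^ m * u₂ = u₁) :
    ∃ a ∈ GoodAlg K (GG M r) (M * r), ∃ b ∈ GoodAlg K (GG M r) (M * r),
      b ≠ 0 ∧ (u₁ : LaurentSeries K) * b ^ m = a ^ m * u₂ := by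
  have hfi : (GG M r).FiniteIndex := finiteIndex_GG M r
  have hsep : Sep K (GG M r) (M * r) := sep_GG H hM hr hK
  have hfd : FiniteDimensional K⟮tH H⟯ (FF K (GG M r) (M * r)) :=
    H.finiteDimensional_tF (GG_le M r) hsep
  have hfin : Finite (Gamma0 r ⧸ (GG M r).subgroupOf (Gamma0 r)) := by
    have := Subgroup.instFiniteIndex_subgroupOf (GG M r) (Gamma0 r)
    exact Subgroup.finite_quotient_of_finiteIndex
  obtain ⟨θ, a, ha, hdist⟩ := exists_theta (K := K) ιA hιA hR hM hr hK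
  have hu₂' : (u₂ : LaurentSeries K) ≠ 0 := fun h => hu₂ (Subtype.ext h)
  have hemb := H.exists_embAt_dvd (GG_le M r) hsep m u₁ u₂ (A := h₁) (B := h₂) (U := fun _ => 1)
    hh₁ hh₂ (mdiff_const 1) (fun τ => by rw [mul_one, he₁]) (fun τ => by rw [mul_one, he₂])
  have hinj0 : coeffMap (residue A) (qExpand A (M * r) Q) ≠ 0 := by
    intro h
    rw [coeffMap_qExpand] at h
    apply hQ0
    ext n
    have h1 := congrArg
      (fun z : LaurentSeries (ResidueField A) => z.coeff (((M * r : ℕ) : ℤ) * n)) h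
    simp only [qExpand_coeff_mul, HahnSeries.coeff_zero] at h1
    rw [HahnSeries.coeff_zero]
    exact h1
  set v₁ := algebraMap (GoodAlg K (GG M r) (M * r)) (FF K (GG M r) (M * r)) u₁ with hv₁
  set v₂ := algebraMap (GoodAlg K (GG M r) (M * r)) (FF K (GG M r) (M * r)) u₂ with hv₂
  have hw1 : τ₀ K M r (QuotientGroup.mk 1) (v₁ / v₂) * coeffMap ιA (qExpand A (M * r) Q) =
      coeffMap ιA (qExpand A (M * r) P) := by
    have e1 : τ₀ K M r (QuotientGroup.mk 1) v₁ = qExpand ℂ (M * r) (incl K u₁) := by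
      rw [hv₁, τ₀_mk, ← phi_one]
      congr 2
      exact inv_one
    have e2 : τ₀ K M r (QuotientGroup.mk 1) v₂ = qExpand ℂ (M * r) (incl K u₂) := by
      rw [hv₂, τ₀_mk, ← phi_one]
      congr 2
      exact inv_one
    rw [map_div₀, e1, e2, coeffMap_qExpand, hQ, coeffMap_qExpand, hP]
    refine div_mul_cancel₀ _ ?_
    intro h
    apply hu₂'
    apply incl_injective K
    rw [map_zero]
    ext n
    have h1 := congrArg (fun z : LaurentSeries ℂ => z.coeff (((M * r : ℕ) : ℤ) * n)) h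
    simp only [qExpand_coeff_mul, HahnSeries.coeff_zero] at h1
    rw [HahnSeries.coeff_zero]
    exact h1
  have hw2 : h₀ ^ m = (FF K (GG M r) (M * r)).val.toRingHom (v₁ / v₂) := by
    rw [map_div₀]
    have e1 : (FF K (GG M r) (M * r)).val.toRingHom v₁ = (u₁ : LaurentSeries K) := rfl
    have e2 : (FF K (GG M r) (M * r)).val.toRingHom v₂ = (u₂ : LaurentSeries K) := rfl
    rw [e1, e2, eq_div_iff hu₂', hh₀]
  have hred : coeffMap (residue A) (qExpand A (M * r) P) =
      coeffMap (residue A) (qExpand A (M * r) Q) := by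
    rw [coeffMap_qExpand, coeffMap_qExpand, hPQ]
  obtain ⟨y, hy⟩ := H29.ki_qexp (Υ := ℂ) (H.isRatGen (GG_le M r)) hϖ
    (gaussRed ιA hιA g hg H tA htA hlead) (τ₀ K M r) (H.finrank_tF (GG_le M r) hsep).symm
    (τ₀_ext H) θ a ha hdist p hp hp1 c hc (FF K (GG M r) (M * r)).val.toRingHom
    (fun c => by
      show algebraMap K (LaurentSeries K) c = _
      rw [HahnSeries.algebraMap_apply', PowerSeries.algebraMap_apply]
      simp) hm hmu (w := v₁ / v₂)
    (fun α h1 h2 => hemb α h1 (by rw [hHc]; exact h2)) (QuotientGroup.mk 1)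
    (qExpand A (M * r) P) (qExpand A (M * r) Q) hw1 hinj0 hred h₀ hw2
  obtain ⟨a', b', hb', hab⟩ := IsFractionRing.div_surjective (A := GoodAlg K (GG M r) (M * r)) y
  refine ⟨a', a'.2, b', b'.2, ?_, ?_⟩
  · intro h
    exact nonZeroDivisors.ne_zero hb' (Subtype.ext h)
  · have hb0 : (b' : LaurentSeries K) ≠ 0 := fun h =>
      nonZeroDivisors.ne_zero hb' (Subtype.ext h)
    have h1 := congrArg (fun z : FF K (GG M r) (M * r) => (z : LaurentSeries K)) hy
    rw [← hab] at h1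
    have h2 : ((a' : LaurentSeries K) / (b' : LaurentSeries K)) ^ m =
      (u₁ : LaurentSeries K) / (u₂ : LaurentSeries K) := h1
    rw [div_pow, div_eq_div_iff (pow_ne_zero _ hb0) hu₂'] at h2
    exact h2.symm

end Setup

end

end Fermat.Agent.H58.Core
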