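import Mathlib
import Fermat.Agent.H58Core

/-!
# The core statements (QE) and (KI) for `±Γ₁(M) ∩ Γ₀(r)`
-/

set_option autoImplicit false
set_option linter.unusedSectionVars false

namespace Fermat.Agent.H58.Core

open UpperHalfPlane hiding I
open Complex MatrixGroups ModularGroup Fermat.Agent.H61 ModularCurve Fermat.Agent.H24
open Fermat.Agent.H66 Fermat.Agent.H78.FF Fermat.Agent.H50.Haupt Fermat.Agent.H23.Haupt
open Fermat.Agent.H22.Tw (pmG)
open Fermat.Agent.H78.KI (GG CoreKI CoreQE)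
open Polynomial IntermediateField IsLocalRing CongruenceSubgroup
open scoped Manifold Real

noncomputable section

local notation "𝕢" => Function.Periodic.qParam

local notation "Qb" => AlgebraicClosure ℚ

/-! ### Valuation rings over `p` -/

section Val

variable {A : ValuationSubring Qb} {p : ℕ}

theorem natCast_mem_maximalIdeal (hA : A.LiesOverPrime p) : ((p : ℕ) : A) ∈ maximalIdeal A := by
  obtain ⟨h, h1⟩ := (ValuationSubring.mem_nonunits_iff_exists_mem_maximalIdeal).mp hA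
  exact h1

theorem inv_natCast_notMem (hp : p ≠ 0) (hA : A.LiesOverPrime p) : ((p : Qb))⁻¹ ∉ A := by
  intro h
  have h1 := natCast_mem_maximalIdeal hA
  rw [mem_maximalIdeal, mem_nonunits_iff] at h1
  apply h1
  refine IsUnit.of_mul_eq_one ⟨_, h⟩ (Subtype.ext ?_)
  have h0 : (p : Qb) ≠ 0 := by exact_mod_cast hp
  exact mul_inv_cancel₀ h0

theorem isUnit_intCast (hp : p.Prime) (hA : A.LiesOverPrime p) {m : ℤ} (hm : ¬ (p : ℤ) ∣ m) :
    IsUnit ((m : ℤ) : A) := by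
  have hcop : IsCoprime (p : ℤ) m :=
    (Nat.prime_iff_prime_int.mp hp).coprime_iff_not_dvd.mpr hm
  obtain ⟨u, v, huv⟩ := hcop
  by_contra hcon
  have h1 : ((m : ℤ) : A) ∈ maximalIdeal A := by
    rw [mem_maximalIdeal]; exact hcon
  have h2 : (1 : A) ∈ maximalIdeal A := by
    have h3 := congrArg (fun z : ℤ => (z : A)) huv
    simp only [Int.cast_add, Int.cast_mul, Int.cast_one, Int.cast_natCast] at h3
    rw [← h3]
    exact add_mem (Ideal.mul_mem_left _ _ (natCast_mem_maximalIdeal hA))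
      (Ideal.mul_mem_left _ _ h1)
  exact (Ideal.ne_top_iff_one _).mp (maximalIdeal.isMaximal A).ne_top h2

variable [Algebra Qb ℂ]

variable (A) in
/-- `A → ℂ` -/
def iA : A →+* ℂ := (algebraMap Qb ℂ).comp A.subtype

theorem iA_injective : Function.Injective (iA A) :=
  (algebraMap Qb ℂ).injective.comp Subtype.val_injective

/-- roots of unity and `1 / D` are in `A` -/
theorem isCyc_iA (hp : p.Prime) (hA : A.LiesOverPrime p) {D : ℕ} [NeZero D] (hpD : ¬ p ∣ D) :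
    IsCyc D (iA A).range := by
  constructor
  · intro z hz
    obtain ⟨w, hw⟩ := HasEnoughRootsOfUnity.exists_primitiveRoot Qb D
    have hw' : IsPrimitiveRoot (algebraMap Qb ℂ w) D :=
      hw.map_of_injective (algebraMap Qb ℂ).injective
    obtain ⟨i, -, hi⟩ := hw'.eq_pow_of_pow_eq_one hz
    have hwA : w ^ i ∈ A := by
      have h1 : IsIntegral A (w ^ i) := by
        refine ⟨X ^ D - C 1, monic_X_pow_sub_C _ (NeZero.ne D), ?_⟩
        rw [eval₂_sub, eval₂_X_pow, eval₂_C, map_one, ← pow_mul, mul_comm, pow_mul,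
          hw.pow_eq_one, one_pow, sub_self]
      obtain ⟨b, hb⟩ := IsIntegrallyClosed.isIntegral_iff.mp h1
      rw [← hb]
      exact b.2
    exact ⟨⟨w ^ i, hwA⟩, by rw [← hi, ← map_pow]; rfl⟩
  · obtain ⟨u, hu⟩ := isUnit_intCast hp hA (m := (D : ℤ)) (by exact_mod_cast hpD)
    refine ⟨((u⁻¹ : Aˣ) : A), ?_⟩
    have h1 : iA A (u : A) = (D : ℂ) := by
      rw [hu, map_intCast, Int.cast_natCast]
    have h2 : iA A (u : A) * iA A ((u⁻¹ : Aˣ) : A) = 1 := by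
      rw [← map_mul, Units.mul_inv, map_one]
    rw [h1] at h2
    exact eq_inv_of_mul_eq_one_right h2

end Val

/-! ### Descent of good elements -/

section Desc

variable [Algebra Qb ℂ] (L₀ : IntermediateField ℚ Qb) {Γ : Subgroup SL(2, ℤ)} {D : ℕ} [NeZero D]

theorem incl_desc (x : LaurentSeries L₀) :
    incl Qb (coeffMap (algebraMap L₀ Qb) x) = incl L₀ x := by
  ext n
  rw [incl_coeff, incl_coeff, coeffMap_coeff]
  exact (IsScalarTower.algebraMap_apply L₀ Qb ℂ _).symm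

theorem ev_desc (x : LaurentSeries L₀) : ev Qb (coeffMap (algebraMap L₀ Qb) x) = ev L₀ x := by
  ext τ
  rw [ev, ev, incl_desc]

theorem good_desc_iff (x : LaurentSeries L₀) :
    coeffMap (algebraMap L₀ Qb) x ∈ GoodAlg Qb Γ D ↔ x ∈ GoodAlg L₀ Γ D := by
  constructor
  · rintro ⟨h1, h2, h3, h4⟩
    rw [incl_desc] at h1
    rw [ev_desc] at h2 h3 h4
    exact ⟨h1, h2, h3, h4⟩
  · rintro ⟨h1, h2, h3, h4⟩
    rw [← incl_desc] at h1
    rw [← ev_desc] at h2 h3 h4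
    exact ⟨h1, h2, h3, h4⟩

theorem exists_desc {x : LaurentSeries Qb} (hx : x ∈ GoodAlg Qb Γ D) (hxL : ∀ i, x.coeff i ∈ L₀) :
    ∃ y : LaurentSeries L₀, y ∈ GoodAlg L₀ Γ D ∧ coeffMap (algebraMap L₀ Qb) y = x := by
  obtain ⟨y, hy⟩ := exists_lift (φ := algebraMap L₀ Qb) (algebraMap L₀ Qb).injective x
    (fun n => ⟨⟨_, hxL n⟩, rfl⟩)
  exact ⟨y, (good_desc_iff L₀ y).mp (by rw [hy]; exact hx), hy⟩

end Desc

/-! ### The set-up over a number field -/

section Num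

variable [Algebra Qb ℂ] (L₀ : IntermediateField ℚ Qb) [FiniteDimensional ℚ L₀]
  (A : ValuationSubring Qb) {p : ℕ} (hp : p.Prime) (hA : A.LiesOverPrime p) {M r : ℕ}
  [NeZero (M * r)] [NeZero r] (hpM : ¬ p ∣ M * r)
  (hL₀ : ∀ z : Qb, z ^ (M * r) = 1 → z ∈ L₀)
  (H : Haup L₀ r (M * r)) (tA : LaurentSeries A) (htA : coeffMap (iA A) tA = incl L₀ H.t)
  (hlead : HasLead tA (-1) 1) (c : ℤ) (hc : ¬ (p : ℤ) ∣ c) (hHc : H.c = c) (hM : 2 ≤ M)
  (hr : r = 2 ∨ r = 3)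

theorem hg_aux (c : A.comap (algebraMap L₀ Qb)) : iA A (comapIncl A c) =
    algebraMap L₀ ℂ (algebraMap (A.comap (algebraMap L₀ Qb)) L₀ c) :=
  (IsScalarTower.algebraMap_apply L₀ Qb ℂ _).symm

theorem isUnit_intCast_comap (hp : p.Prime) (hA : A.LiesOverPrime p) {m : ℤ}
    (hm : ¬ (p : ℤ) ∣ m) : IsUnit ((m : ℤ) : A.comap (algebraMap L₀ Qb)) := by
  rw [← isUnit_comap_iff A, map_intCast]
  exact isUnit_intCast hp hA hm

theorem dvd_natCast_comap (hA : A.LiesOverPrime p) {ϖ : A.comap (algebraMap L₀ Qb)}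
    [IsDiscreteValuationRing (A.comap (algebraMap L₀ Qb))]
    (hϖ : Irreducible ϖ) : ϖ ∣ ((p : ℕ) : A.comap (algebraMap L₀ Qb)) := by
  rw [← Ideal.mem_span_singleton, ← hϖ.maximalIdeal_eq, mem_maximalIdeal_comap_iff A, map_natCast]
  exact natCast_mem_maximalIdeal hA

include hp hA hpM hL₀ H htA hlead hc hHc hM hr in
theorem qe_num (x : GoodAlg L₀ (GG M r) (M * r)) {γ : SL(2, ℤ)} (hγ : γ ∈ Gamma0 r)
    (P : LaurentSeries A) (hP : coeffMap (iA A) P = incl L₀ (x : LaurentSeries L₀)) :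
    ∃ b b' : LaurentSeries A, coeffMap (residue A) b' ≠ 0 ∧
      phi (goodChart_qParam L₀ (GG M r) (M * r)) γ x * coeffMap (iA A) b' =
        coeffMap (iA A) b := by
  have hNF : NumberField L₀ := { to_charZero := inferInstance, to_finiteDimensional := inferInstance }
  have hdvr : IsDiscreteValuationRing (A.comap (algebraMap L₀ Qb)) :=
    isDVR_comap A (inv_natCast_notMem hp.ne_zero hA)
  let a1 : Algebra (A.comap (algebraMap L₀ Qb)) L₀⟮tH H⟯ :=
    ((algebraMap L₀ L₀⟮tH H⟯).comp (algebraMap (A.comap (algebraMap L₀ Qb)) L₀)).toAlgebra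
  have t1 : IsScalarTower (A.comap (algebraMap L₀ Qb)) L₀ L₀⟮tH H⟯ :=
    IsScalarTower.of_algebraMap_eq fun _ => rfl
  let a2 : Algebra (A.comap (algebraMap L₀ Qb)) (FF L₀ (GG M r) (M * r)) :=
    ((algebraMap L₀ (FF L₀ (GG M r) (M * r))).comp
      (algebraMap (A.comap (algebraMap L₀ Qb)) L₀)).toAlgebra
  have t2 : IsScalarTower (A.comap (algebraMap L₀ Qb)) L₀⟮tH H⟯ (FF L₀ (GG M r) (M * r)) :=
    IsScalarTower.of_algebraMap_eq fun _ => rfl
  obtain ⟨ϖ, hϖ⟩ := IsDiscreteValuationRing.exists_irreducible (A.comap (algebraMap L₀ Qb))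
  have halg : Algebra.IsAlgebraic ℚ Qb := AlgebraicClosure.isAlgebraic ℚ
  exact qe_abs (iA A) iA_injective (comapIncl A) (hg_aux L₀ A) H tA htA hlead
    (isCyc_iA hp hA hpM) hM hr (isCyc_range (algebraMap Qb ℂ) hL₀).root hϖ p
    (dvd_natCast_comap L₀ A hA hϖ) hp.one_le (c : ℤ) (isUnit_intCast_comap L₀ A hp hA hc)
    (by rw [hHc, map_intCast, map_intCast]) x hγ P hP

include hp hA hpM hL₀ H htA hlead hc hHc hM hr in
theorem ki_num {m : ℕ} (hm : m.Prime) (hpm : ¬ p ∣ m) (u₁ u₂ : GoodAlg L₀ (GG M r) (M * r))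
    (hu₂ : u₂ ≠ 0)
    {h₁ h₂ : ℍ → ℂ} (hh₁ : h₁ ∈ Hol) (hh₂ : h₂ ∈ Hol)
    (he₁ : ∀ τ, h₁ τ ^ m = ev L₀ (u₁ : LaurentSeries L₀) τ)
    (he₂ : ∀ τ, h₂ τ ^ m = ev L₀ (u₂ : LaurentSeries L₀) τ)
    (P Q : LaurentSeries A) (hP : coeffMap (iA A) P = incl L₀ (u₁ : LaurentSeries L₀))
    (hQ : coeffMap (iA A) Q = incl L₀ (u₂ : LaurentSeries L₀))
    (hPQ : coeffMap (residue A) P = coeffMap (residue A) Q) (hQ0 : coeffMap (residue A) Q ≠ 0)
    (h₀ : LaurentSeries L₀) (hh₀ : h₀ ^ m * u₂ = u₁) :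
    ∃ a ∈ GoodAlg L₀ (GG M r) (M * r), ∃ b ∈ GoodAlg L₀ (GG M r) (M * r),
      b ≠ 0 ∧ (u₁ : LaurentSeries L₀) * b ^ m = a ^ m * u₂ := by
  have hNF : NumberField L₀ := { to_charZero := inferInstance, to_finiteDimensional := inferInstance }
  have hdvr : IsDiscreteValuationRing (A.comap (algebraMap L₀ Qb)) :=
    isDVR_comap A (inv_natCast_notMem hp.ne_zero hA)
  let a1 : Algebra (A.comap (algebraMap L₀ Qb)) L₀⟮tH H⟯ :=
    ((algebraMap L₀ L₀⟮tH H⟯).comp (algebraMap (A.comap (algebraMap L₀ Qb)) L₀)).toAlgebra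
  have t1 : IsScalarTower (A.comap (algebraMap L₀ Qb)) L₀ L₀⟮tH H⟯ :=
    IsScalarTower.of_algebraMap_eq fun _ => rfl
  let a2 : Algebra (A.comap (algebraMap L₀ Qb)) (FF L₀ (GG M r) (M * r)) :=
    ((algebraMap L₀ (FF L₀ (GG M r) (M * r))).comp
      (algebraMap (A.comap (algebraMap L₀ Qb)) L₀)).toAlgebra
  have t2 : IsScalarTower (A.comap (algebraMap L₀ Qb)) L₀⟮tH H⟯ (FF L₀ (GG M r) (M * r)) :=
    IsScalarTower.of_algebraMap_eq fun _ => rfl
  obtain ⟨ϖ, hϖ⟩ := IsDiscreteValuationRing.exists_irreducible (A.comap (algebraMap L₀ Qb))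
  have halg : Algebra.IsAlgebraic ℚ Qb := AlgebraicClosure.isAlgebraic ℚ
  have hmu : IsUnit ((m : ℕ) : A.comap (algebraMap L₀ Qb)) := by
    have := isUnit_intCast_comap L₀ A hp hA (m := (m : ℤ)) (by exact_mod_cast hpm)
    rwa [Int.cast_natCast] at this
  exact ki_abs (iA A) iA_injective (comapIncl A) (hg_aux L₀ A) H tA htA hlead
    (isCyc_iA hp hA hpM) hM hr (isCyc_range (algebraMap Qb ℂ) hL₀).root hϖ p
    (dvd_natCast_comap L₀ A hA hϖ) hp.one_le (c : ℤ) (isUnit_intCast_comap L₀ A hp hA hc)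
    (by rw [hHc, map_intCast, map_intCast]) hm hmu u₁ u₂ hu₂ hh₁ hh₂ he₁ he₂ P Q hP hQ hPQ hQ0
    h₀ hh₀

end Num

/-! ### The Hauptmodul over a number field -/

theorem exists_haup [Algebra Qb ℂ] (L₀ : IntermediateField ℚ Qb) (A : ValuationSubring Qb) {p : ℕ}
    (hp : p.Prime) {M r : ℕ} [NeZero (M * r)] [NeZero r] (hr : r = 2 ∨ r = 3) (hpr : p ≠ r) :
    ∃ (H : Haup L₀ r (M * r)) (tA : LaurentSeries A) (c : ℤ),
      coeffMap (iA A) tA = incl L₀ H.t ∧ HasLead tA (-1) 1 ∧ ¬ (p : ℤ) ∣ c ∧ H.c = c := by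
  rcases hr with rfl | rfl
  · refine ⟨haup2 L₀ (M * 2) (dvd_mul_left 2 M), t2 A, -64, ?_, hasLead_t2 A, ?_, ?_⟩
    · show coeffMap (iA A) (t2 A) = incl L₀ (t2 L₀)
      rw [incl, coeffMap_t2, coeffMap_t2]
    · rw [dvd_neg]
      intro h
      have h1 : p ∣ 2 ^ 6 := by exact_mod_cast h
      exact hpr ((Nat.prime_dvd_prime_iff_eq hp Nat.prime_two).mp (hp.dvd_of_dvd_pow h1))
    · show (-64 : ℂ) = ((-64 : ℤ) : ℂ)
      norm_num
  · refine ⟨haup3 L₀ (M * 3) (dvd_mul_left 3 M), t3 A, -27, ?_, hasLead_t3 A, ?_, ?_⟩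
    · show coeffMap (iA A) (t3 A) = incl L₀ (t3 L₀)
      rw [incl, coeffMap_t3, coeffMap_t3]
    · rw [dvd_neg]
      intro h
      have h1 : p ∣ 3 ^ 3 := by exact_mod_cast h
      exact hpr ((Nat.prime_dvd_prime_iff_eq hp Nat.prime_three).mp (hp.dvd_of_dvd_pow h1))
    · show (-27 : ℂ) = ((-27 : ℤ) : ℂ)
      norm_num

theorem coeffMap_comp' {R S T : Type*} [CommRing R] [CommRing S] [CommRing T] (f : R →+* S)
    (g : S →+* T) (x : LaurentSeries R) : coeffMap g (coeffMap f x) = coeffMap (g.comp f) x := by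
  ext n
  rfl

theorem coeffMap_iA [Algebra Qb ℂ] (A : ValuationSubring Qb) (x : LaurentSeries A) :
    coeffMap (iA A) x = incl Qb (coeffMap A.subtype x) := by
  ext n
  rfl

theorem not_dvd_mul_r {p M r : ℕ} (hp : p.Prime) (hpM : ¬ p ∣ M) (hr : r = 2 ∨ r = 3)
    (hpr : p ≠ r) : ¬ p ∣ M * r := by
  rw [hp.dvd_mul]
  rintro (h | h)
  · exact hpM h
  · rcases hr with rfl | rfl
    · exact hpr ((Nat.prime_dvd_prime_iff_eq hp Nat.prime_two).mp h)
    · exact hpr ((Nat.prime_dvd_prime_iff_eq hp Nat.prime_three).mp h)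

/-- some coefficient outside the maximal ideal -/
theorem residue_ne_zero_of_exists {A : ValuationSubring Qb} {x : LaurentSeries A}
    (h : ∃ i, (coeffMap A.subtype x).coeff i ∉ A.nonunits) : coeffMap (residue A) x ≠ 0 := by
  obtain ⟨i, hi⟩ := h
  intro h0
  apply hi
  rw [coeffMap_coeff, ValuationSubring.mem_nonunits_iff_exists_mem_maximalIdeal]
  refine ⟨(x.coeff i).2, ?_⟩
  rw [← residue_eq_zero_iff]
  have := congrArg (fun z : LaurentSeries (ResidueField A) => z.coeff i) h0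
  simp only [coeffMap_coeff, HahnSeries.coeff_zero] at this
  exact this

/-- **(QE)** holds. -/
theorem coreQE {M r : ℕ} [NeZero (M * r)] (hM : 2 ≤ M) (hr : r = 2 ∨ r = 3) : CoreQE M r := by
  intro p hp hpM hpr A hA inst L hL x hx hxL hxA δ hδ X c hXA hX1 hexp
  have hr0 : NeZero r := ⟨by rcases hr with rfl | rfl <;> norm_num⟩
  have hpD := not_dvd_mul_r hp hpM hr hpr
  have halg : Algebra.IsAlgebraic ℚ Qb := AlgebraicClosure.isAlgebraic ℚ
  obtain ⟨L₀, hL₀, hLL₀, -, hroot⟩ := exists_finite_ext L ∅ (M * r) (NeZero.ne _)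
  obtain ⟨y, hy, hyx⟩ := exists_desc L₀ hx (fun i => hLL₀ (hxL i))
  obtain ⟨P, hP⟩ := exists_lift (φ := A.subtype) Subtype.val_injective x
    (fun n => ⟨⟨_, hxA n⟩, rfl⟩)
  have hP' : coeffMap (iA A) P = incl L₀ y := by rw [coeffMap_iA, hP, ← incl_desc, hyx]
  obtain ⟨H, tA, c', htA, hlead, hc', hHc⟩ := exists_haup (M := M) L₀ A hp hr hpr
  obtain ⟨b, b', hb', hb⟩ := qe_num L₀ A hp hA hpD hroot H tA htA hlead c' hc' hHc hM hr ⟨y, hy⟩
    hδ P hP'
  have hphi : phi (goodChart_qParam L₀ (GG M r) (M * r)) δ ⟨y, hy⟩ =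
      incl Qb (HahnSeries.C c * X) := by
    apply H78.FF.phi_eq
    have h1 : HasExpC (fun τ : ℍ => 𝕢 ((M * r : ℕ) : ℝ) τ) (compHom δ (ev Qb x))
      (incl Qb (HahnSeries.C c * X)) := hexp
    rw [← hyx, ev_desc] at h1
    exact h1
  obtain ⟨XA, hXA'⟩ := exists_lift (φ := A.subtype) Subtype.val_injective X
    (fun n => ⟨⟨_, hXA n⟩, rfl⟩)
  have hXA1 : coeffMap (residue A) XA ≠ 0 := residue_ne_zero_of_exists (by rw [hXA']; exact hX1)
  have hrel : HahnSeries.C c * X * coeffMap A.subtype b' = coeffMap A.subtype b := by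
    apply incl_injective Qb
    rw [map_mul, ← hphi, ← coeffMap_iA, ← coeffMap_iA, hb]
  by_contra hcA
  have hc0 : c ≠ 0 := by
    rintro rfl
    exact hcA A.zero_mem
  have hcinv : c⁻¹ ∈ A := (A.mem_or_inv_mem c).resolve_left hcA
  have hcnu : residue A ⟨c⁻¹, hcinv⟩ = 0 := by
    rw [residue_eq_zero_iff, mem_maximalIdeal, mem_nonunits_iff]
    rintro ⟨u, hu⟩
    apply hcA
    have h1 : c⁻¹ * ((u⁻¹ : Aˣ) : A) = 1 := by
      have h2 := congrArg (fun z : A => (z : Qb)) u.mul_inv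
      rw [hu] at h2
      exact h2
    have h3 : c = ((u⁻¹ : Aˣ) : A) := by
      have h4 := eq_inv_of_mul_eq_one_right h1
      rw [inv_inv] at h4
      exact h4.symm
    rw [h3]
    exact ((u⁻¹ : Aˣ) : A).2
  have hrel2 : XA * b' = HahnSeries.C ⟨c⁻¹, hcinv⟩ * b := by
    apply coeffMap_inj (f := A.subtype) Subtype.val_injective
    rw [map_mul, map_mul, hXA', ← hrel]
    have h1 : coeffMap A.subtype (HahnSeries.C (⟨c⁻¹, hcinv⟩ : A)) = HahnSeries.C c⁻¹ := by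
      rw [HahnSeries.C_apply, HahnSeries.C_apply, coeffMap_single]
      rfl
    rw [h1, ← mul_assoc, ← mul_assoc, ← map_mul, inv_mul_cancel₀ hc0, map_one, one_mul]
  have h2 := congrArg (coeffMap (residue A)) hrel2
  rw [map_mul, map_mul] at h2
  have h3 : coeffMap (residue A) (HahnSeries.C (⟨c⁻¹, hcinv⟩ : A)) = 0 := by
    rw [HahnSeries.C_apply, coeffMap_single, hcnu, HahnSeries.single_eq_zero]
  rw [h3, zero_mul] at h2
  exact mul_ne_zero hXA1 hb' h2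

/-- **(KI)** holds. -/
theorem coreKI {M r n : ℕ} [NeZero (M * r)] (hM : 2 ≤ M) (hr : r = 2 ∨ r = 3) (hn : n.Prime) :
    CoreKI M r n := by
  intro p hp hpM hpr hpn A hA inst L hL u₁ hu₁ u₂ hu₂ hu₁L hu₂L hu₁A hu₂A hu hu0 hd₁ hd₂ h₁ hh₁ h₂
    hh₂ he₁ he₂
  have hr0 : NeZero r := ⟨by rcases hr with rfl | rfl <;> norm_num⟩
  have hpD := not_dvd_mul_r hp hpM hr hpr
  have halg : Algebra.IsAlgebraic ℚ Qb := AlgebraicClosure.isAlgebraic ℚ
  -- reductions
  obtain ⟨P, hP⟩ := exists_lift (φ := A.subtype) Subtype.val_injective u₁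
    (fun n => ⟨⟨_, hu₁A n⟩, rfl⟩)
  obtain ⟨Q, hQ⟩ := exists_lift (φ := A.subtype) Subtype.val_injective u₂
    (fun n => ⟨⟨_, hu₂A n⟩, rfl⟩)
  have hP0 : coeffMap (residue A) P ≠ 0 := residue_ne_zero_of_exists (by rw [hP]; exact hu0)
  have hPQ : coeffMap (residue A) P = coeffMap (residue A) Q := by
    ext i
    rw [coeffMap_coeff, coeffMap_coeff, ← sub_eq_zero, ← map_sub, residue_eq_zero_iff]
    have h1 := hu i
    rw [← hP, ← hQ, coeffMap_coeff, coeffMap_coeff,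
      ValuationSubring.mem_nonunits_iff_exists_mem_maximalIdeal] at h1
    obtain ⟨_, h2⟩ := h1
    exact h2
  have hQ0 : coeffMap (residue A) Q ≠ 0 := hPQ ▸ hP0
  have hu₁0 : u₁ ≠ 0 := by
    rintro rfl
    apply hP0
    rw [coeffMap_inj (f := A.subtype) Subtype.val_injective (hP.trans (map_zero _).symm), map_zero]
  have hu₂0 : u₂ ≠ 0 := by
    rintro rfl
    apply hQ0
    rw [coeffMap_inj (f := A.subtype) Subtype.val_injective (hQ.trans (map_zero _).symm), map_zero]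
  -- the number field
  obtain ⟨β, hβ⟩ := IsAlgClosed.exists_pow_nat_eq ((u₁ / u₂).coeff (u₁ / u₂).order) hn.pos
  obtain ⟨L₀, hL₀, hLL₀, hβL, hroot⟩ := exists_finite_ext L {β} (M * r) (NeZero.ne _)
  have hβ₀ : β ∈ L₀ := hβL β (Finset.mem_singleton_self _)
  obtain ⟨y₁, hy₁, hy₁u⟩ := exists_desc L₀ hu₁ (fun i => hLL₀ (hu₁L i))
  obtain ⟨y₂, hy₂, hy₂u⟩ := exists_desc L₀ hu₂ (fun i => hLL₀ (hu₂L i))
  have hy₁0 : y₁ ≠ 0 := by
    rintro rfl
    exact hu₁0 (by rw [← hy₁u, map_zero])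
  have hy₂0 : y₂ ≠ 0 := by
    rintro rfl
    exact hu₂0 (by rw [← hy₂u, map_zero])
  have hφ := (algebraMap L₀ Qb).injective
  have ho₁ : y₁.order = u₁.order := by rw [← hy₁u, order_coeffMap hφ hy₁0]
  have ho₂ : y₂.order = u₂.order := by rw [← hy₂u, order_coeffMap hφ hy₂0]
  have hw0 : y₁ / y₂ ≠ 0 := div_ne_zero hy₁0 hy₂0
  have hwmap : coeffMap (algebraMap L₀ Qb) (y₁ / y₂) = u₁ / u₂ := by
    rw [map_div₀, hy₁u, hy₂u]
  have how : (y₁ / y₂).order = (u₁ / u₂).order := by rw [← hwmap, order_coeffMap hφ hw0]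
  have hdvd : (n : ℤ) ∣ (y₁ / y₂).order := by
    have h1 : (y₁ / y₂ * y₂).order = (y₁ / y₂).order + y₂.order := HahnSeries.order_mul hw0 hy₂0
    rw [div_mul_cancel₀ _ hy₂0] at h1
    have h2 : (y₁ / y₂).order = y₁.order - y₂.order := by omega
    rw [h2, ho₁, ho₂]
    exact dvd_sub hd₁ hd₂
  obtain ⟨h₀, hh₀⟩ := exists_root_laurent (m := n) (by exact_mod_cast hn.ne_zero) (y₁ / y₂) hw0
    hdvd (a := (⟨β, hβ₀⟩ : L₀)) (by
      apply hφ
      rw [map_pow]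
      have h1 : algebraMap L₀ Qb ((y₁ / y₂).coeff (y₁ / y₂).order) =
          (u₁ / u₂).coeff (u₁ / u₂).order := by
        rw [← hwmap, coeffMap_coeff, hwmap, how]
      rw [h1]
      exact hβ)
  obtain ⟨H, tA, c', htA, hlead, hc', hHc⟩ := exists_haup (M := M) L₀ A hp hr hpr
  obtain ⟨a, ha, b, hb, hb0, hab⟩ := ki_num L₀ A hp hA hpD hroot H tA htA hlead c' hc' hHc hM hr
    hn hpn ⟨y₁, hy₁⟩ ⟨y₂, hy₂⟩ (fun h => hy₂0 (congrArg Subtype.val h)) hh₁ hh₂
    (fun τ => by rw [he₁, ← hy₁u, ev_desc]) (fun τ => by rw [he₂, ← hy₂u, ev_desc]) P Q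
    (by rw [coeffMap_iA, hP, ← incl_desc, hy₁u]) (by rw [coeffMap_iA, hQ, ← incl_desc, hy₂u])
    hPQ hQ0 h₀ (by rw [hh₀]; exact div_mul_cancel₀ _ hy₂0)
  refine ⟨coeffMap (algebraMap L₀ Qb) a, (good_desc_iff L₀ a).mpr ha,
    coeffMap (algebraMap L₀ Qb) b, (good_desc_iff L₀ b).mpr hb, ?_, ?_⟩
  · intro h
    exact hb0 (coeffMap_inj hφ (h.trans (map_zero _).symm))
  · rw [← hy₁u, ← hy₂u, ← map_pow, ← map_pow, ← map_mul, ← map_mul]
    exact congrArg _ hab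

end

end Fermat.Agent.H58.Core
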