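import Mathlib

/-!
# Trace self-duality from a complete family of embeddings with unit differences
-/

set_option autoImplicit false
set_option linter.unusedSectionVars false

namespace Fermat.Agent.H58

open Module Polynomial

section Vandermonde

variable {Ω : Type*} [Field Ω] (W : Subring Ω)

/-- Solving a linear system with unit determinant over a subring. -/
theorem mem_of_mulVec {ι : Type*} [Fintype ι] [DecidableEq ι] (A : Matrix ι ι Ω)
    (hA : ∀ i j, A i j ∈ W) (hdet : A.det ≠ 0) (hdet' : A.det⁻¹ ∈ W) (v : ι → Ω)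
    (hv : ∀ i, A.mulVec v i ∈ W) (i : ι) : v i ∈ W := by
  have hadj : ∀ i j, A.adjugate i j ∈ W := by
    let A' : Matrix ι ι W := fun i j => ⟨A i j, hA i j⟩
    have h1 : A'.map W.subtype = A := rfl
    intro i j
    rw [← h1]
    have h2 := RingHom.map_adjugate W.subtype A'
    have h3 : (A'.map W.subtype).adjugate = A'.adjugate.map W.subtype := by
      rw [← RingHom.mapMatrix_apply, ← RingHom.mapMatrix_apply, h2]
    rw [h3]
    exact (A'.adjugate i j).2
  have h4 : A.adjugate.mulVec (A.mulVec v) = A.det • v := by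
    rw [Matrix.mulVec_mulVec, Matrix.adjugate_mul, Matrix.smul_mulVec, Matrix.one_mulVec]
  have h5 : A.det * v i ∈ W := by
    have h6 := congrFun h4 i
    rw [Pi.smul_apply, smul_eq_mul] at h6
    rw [← h6, Matrix.mulVec, dotProduct]
    exact W.sum_mem fun j _ => W.mul_mem (hadj i j) (hv j)
  have h7 : v i = A.det⁻¹ * (A.det * v i) := by field_simp
  rw [h7]
  exact W.mul_mem hdet' h5

theorem mem_of_pow_sums {n : ℕ} (a v : Fin n → Ω) (ha : ∀ i, a i ∈ W)
    (hd : ∀ i j, i ≠ j → a i - a j ≠ 0 ∧ (a i - a j)⁻¹ ∈ W)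
    (hv : ∀ j : Fin n, ∑ i, a i ^ (j : ℕ) * v i ∈ W) (i : Fin n) : v i ∈ W := by
  classical
  refine mem_of_mulVec W (Matrix.vandermonde a).transpose (fun i j => W.pow_mem (ha _) _) ?_ ?_ v
    (fun j => ?_) i
  · rw [Matrix.det_transpose, Matrix.det_vandermonde]
    refine Finset.prod_ne_zero_iff.mpr fun i _ => Finset.prod_ne_zero_iff.mpr fun j hj => ?_
    exact (hd j i (Finset.mem_Ioi.mp hj).ne').1
  · rw [Matrix.det_transpose, Matrix.det_vandermonde, ← Finset.prod_inv_distrib]
    refine W.prod_mem fun i _ => ?_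
    rw [← Finset.prod_inv_distrib]
    refine W.prod_mem fun j hj => ?_
    exact (hd j i (Finset.mem_Ioi.mp hj).ne').2
  · have := hv j
    simpa only [Matrix.mulVec, dotProduct, Matrix.transpose_apply, Matrix.vandermonde_apply]
      using this

end Vandermonde

section Main

variable {K₀ E Ω : Type*} [Field K₀] [Field E] [Algebra K₀ E] [FiniteDimensional K₀ E]
  [Algebra.IsSeparable K₀ E] [Field Ω] [Algebra K₀ Ω]

/-- A family of `[E : K₀]` distinct embeddings is complete in any larger algebraically closed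
field. -/
theorem exists_eq_comp {ι : Type*} [Fintype ι] (hn : finrank K₀ E = Fintype.card ι)
    (σ : ι → (E →ₐ[K₀] Ω)) (hσ : Function.Injective σ)
    {Ω' : Type*} [Field Ω'] [Algebra K₀ Ω'] [IsAlgClosed Ω'] (ψ : Ω →ₐ[K₀] Ω') :
    Function.Bijective fun i => ψ.comp (σ i) := by
  classical
  have h1 : Function.Injective fun i => ψ.comp (σ i) := by
    intro i j h
    apply hσ
    ext z
    have := DFunLike.congr_fun h z
    exact ψ.injective this
  rw [Fintype.bijective_iff_injective_and_card]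
  refine ⟨h1, ?_⟩
  rw [AlgHom.card K₀ E Ω', hn]

theorem trace_eq_sum {ι : Type*} [Fintype ι] (hn : finrank K₀ E = Fintype.card ι)
    (σ : ι → (E →ₐ[K₀] Ω)) (hσ : Function.Injective σ) (z : E) :
    algebraMap K₀ Ω (Algebra.trace K₀ E z) = ∑ i, σ i z := by
  classical
  let ψ : Ω →ₐ[K₀] AlgebraicClosure Ω := IsScalarTower.toAlgHom K₀ Ω (AlgebraicClosure Ω)
  have hb := exists_eq_comp hn σ hσ ψ
  apply (algebraMap Ω (AlgebraicClosure Ω)).injective
  rw [← IsScalarTower.algebraMap_apply, trace_eq_sum_embeddings (AlgebraicClosure Ω), map_sum]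
  exact (Fintype.sum_bijective _ hb _ _ fun i => rfl).symm

/-- If all conjugates of `z` lie in a subring, so do the coefficients of its minimal
polynomial. -/
theorem minpoly_coeff_mem {ι : Type*} [Fintype ι] (hn : finrank K₀ E = Fintype.card ι)
    (σ : ι → (E →ₐ[K₀] Ω)) (hσ : Function.Injective σ) (W : Subring Ω) (z : E)
    (hz : ∀ i, σ i z ∈ W) (m : ℕ) : algebraMap K₀ Ω ((minpoly K₀ z).coeff m) ∈ W := by
  classical
  let Ω' := AlgebraicClosure Ω
  let ψ : Ω →ₐ[K₀] Ω' := IsScalarTower.toAlgHom K₀ Ω Ω'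
  have hb := exists_eq_comp hn σ hσ ψ
  let W' : Subring Ω' := W.map (algebraMap Ω Ω')
  have hint : IsIntegral K₀ z := Algebra.IsIntegral.isIntegral z
  -- all roots are in `W'`
  have hroots : ∀ a ∈ (minpoly K₀ z).aroots Ω', a ∈ W' := by
    intro a ha
    have h1 : (aeval a) (minpoly K₀ z) = 0 := (mem_aroots.mp ha).2
    have h2 := Algebra.IsAlgebraic.range_eval_eq_rootSet_minpoly (F := K₀) (K := E) Ω' z
    have h3 : a ∈ (minpoly K₀ z).rootSet Ω' :=
      (mem_rootSet.mpr ⟨minpoly.ne_zero hint, h1⟩)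
    rw [← h2] at h3
    obtain ⟨τ, hτ⟩ := h3
    obtain ⟨i, hi⟩ := hb.2 τ
    refine ⟨σ i z, hz i, ?_⟩
    rw [← hτ, ← hi]
    rfl
  have hsplit : ((minpoly K₀ z).map (algebraMap K₀ Ω')).Splits := IsAlgClosed.splits _
  have hprod := hsplit.eq_prod_roots_of_monic ((minpoly.monic hint).map _)
  have hlift : (minpoly K₀ z).map (algebraMap K₀ Ω') ∈ lifts W'.subtype := by
    rw [hprod]
    have hmem : ∀ s : Multiset Ω', (∀ a ∈ s, a ∈ W') →
        (s.map fun a => X - C a).prod ∈ lifts W'.subtype := by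
      intro s
      induction s using Multiset.induction_on with
      | empty => intro _; simp
      | cons a s ih =>
        intro h
        rw [Multiset.map_cons, Multiset.prod_cons]
        refine (lifts W'.subtype).mul_mem ?_ (ih fun b hb => h b (Multiset.mem_cons_of_mem hb))
        refine ⟨X - C ⟨a, h a (Multiset.mem_cons_self a s)⟩, ?_⟩
        simp
    exact hmem _ hroots
  obtain ⟨P, hP⟩ := hlift
  have h5 : algebraMap K₀ Ω' ((minpoly K₀ z).coeff m) ∈ W' := by
    rw [← coeff_map, ← hP]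
    simp only [coe_mapRingHom, coeff_map]
    exact (P.coeff m).2
  obtain ⟨w, hw, hwe⟩ := h5
  rw [IsScalarTower.algebraMap_apply K₀ Ω Ω'] at hwe
  rwa [← (algebraMap Ω Ω').injective hwe]

theorem isIntegral_of_conjugates {ι : Type*} [Fintype ι] (hn : finrank K₀ E = Fintype.card ι)
    (σ : ι → (E →ₐ[K₀] Ω)) (hσ : Function.Injective σ) (V : Subring K₀) (W : Subring Ω)
    (hVW : ∀ c : K₀, algebraMap K₀ Ω c ∈ W → c ∈ V) (z : E) (hz : ∀ i, σ i z ∈ W) :
    IsIntegral V z := by
  have hint : IsIntegral K₀ z := Algebra.IsIntegral.isIntegral z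
  have hc : ∀ m, (minpoly K₀ z).coeff m ∈ V := fun m =>
    hVW _ (minpoly_coeff_mem hn σ hσ W z hz m)
  have hl : minpoly K₀ z ∈ lifts V.subtype := by
    rw [lifts_iff_coeff_lifts]
    exact fun m => ⟨⟨_, hc m⟩, rfl⟩
  obtain ⟨Q, hQ, hdeg, hmon⟩ := lifts_and_degree_eq_and_monic hl (minpoly.monic hint)
  refine ⟨Q, hmon, ?_⟩
  have h1 : aeval z (minpoly K₀ z) = 0 := minpoly.aeval K₀ z
  rw [← hQ] at h1
  rw [← h1, aeval_def, eval₂_map]
  rfl

/-- **Self-duality** from a generator whose conjugates have unit differences. -/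
theorem selfDual_of_embeddings (V : Subring K₀) (W : Subring Ω)
    (hVW : ∀ c : K₀, algebraMap K₀ Ω c ∈ W ↔ c ∈ V) {n : ℕ} (hn : finrank K₀ E = n)
    (σ : Fin n → (E →ₐ[K₀] Ω)) (x : E) (hx : ∀ i, σ i x ∈ W)
    (hd : ∀ i j, i ≠ j → σ i x - σ j x ≠ 0 ∧ (σ i x - σ j x)⁻¹ ∈ W) (y : E)
    (hy : ∀ z : E, IsIntegral V z → Algebra.trace K₀ E (y * z) ∈ V) : IsIntegral V y := by
  have hσ : Function.Injective σ := by
    intro i j h
    by_contra hne
    exact (hd i j hne).1 (by rw [h, sub_self])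
  have hn' : finrank K₀ E = Fintype.card (Fin n) := by rw [hn, Fintype.card_fin]
  have hxint : IsIntegral V x :=
    isIntegral_of_conjugates hn' σ hσ V W (fun c hc => (hVW c).mp hc) x hx
  refine isIntegral_of_conjugates hn' σ hσ V W (fun c hc => (hVW c).mp hc) y ?_
  refine mem_of_pow_sums W (fun i => σ i x) (fun i => σ i y) hx hd fun j => ?_
  have h1 := hy (x ^ (j : ℕ)) (hxint.pow _)
  have h2 := (hVW _).mpr h1
  rw [trace_eq_sum hn' σ hσ] at h2
  simpa only [map_mul, map_pow, mul_comm] using h2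

end Main

end Fermat.Agent.H58
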