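import Fermat.Agent.H70Chars
import Fermat.Agent.H70Trace
import Fermat.Agent.H4Transfer

/-!
# Comparison isomorphisms

* `Z1.lev`, `H1.lev` : change of the Hecke semigroup; `opH_lev`.
* `h1Lev` : `H¹(Γ₀(M), W_ψ)` does not depend on the auxiliary level (`ψ` factoring through a
  smaller level); compatible with all families with the same matrices (`opH_h1Lev`), in particular
  `tFam`, `uFam`, `vFam`, `trFam`, `nuFam`.
* `homH1` : `(Additive (Gamma0 M) →+ A) ≃ₗ[R] H¹(Γ₀(M), A)` for the trivial character;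
  `homH1_heckeHom` : `T_ℓ` corresponds to helper4's `heckeHom`.
-/

set_option autoImplicit false

open Matrix CongruenceSubgroup
open scoped MatrixGroups TensorProduct

namespace Fermat.Agent.H70.Coh

section Lev

variable {S S₂ : Type*} [Monoid S] [Monoid S₂] {R : Type*} [CommRing R] {V : Type*}
  [AddCommGroup V] [Module R V] {Γ Γ' : Type*} [Group Γ] [Group Γ'] (j : S →* S₂)
  {ι : Γ →* S} {ι' : Γ' →* S} {ι₂ : Γ →* S₂} {ι₂' : Γ' →* S₂} (hι : ∀ γ, j (ι γ) = ι₂ γ)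
  (hι' : ∀ γ, j (ι' γ) = ι₂' γ)
  {ρ : S →* (Module.End R V)ᵐᵒᵖ} {ρ₂ : S₂ →* (Module.End R V)ᵐᵒᵖ}
  (hρ : ∀ s v, slash ρ s v = slash ρ₂ (j s) v)

/-- change of the Hecke semigroup for cocycles -/
def Z1.lev : Z1 ι ρ ≃ₗ[R] Z1 ι₂ ρ₂ where
  toFun c := ⟨c.1, fun γ δ => by rw [c.2 γ δ, hρ, hι]⟩
  invFun c := ⟨c.1, fun γ δ => by rw [c.2 γ δ, hρ, hι]⟩
  left_inv _ := rfl
  right_inv _ := rfl
  map_add' _ _ := rfl
  map_smul' _ _ := rfl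

lemma Z1.lev_apply (c : Z1 ι ρ) (γ : Γ) : (Z1.lev j hι hρ c).1 γ = c.1 γ := rfl

lemma Z1.lev_cob (v : V) : Z1.lev j hι hρ (cob ι ρ v) = cob ι₂ ρ₂ v := by
  apply Subtype.ext
  funext γ
  change slash ρ (ι γ) v - v = slash ρ₂ (ι₂ γ) v - v
  rw [hρ, hι]

/-- change of the Hecke semigroup for `H¹` -/
def H1.lev : H1 ι ρ ≃ₗ[R] H1 ι₂ ρ₂ :=
  Submodule.Quotient.equiv _ _ (Z1.lev j hι hρ) (by
    ext c
    constructor
    · rintro ⟨_, ⟨v, rfl⟩, rfl⟩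
      exact ⟨v, (Z1.lev_cob j hι hρ v).symm⟩
    · rintro ⟨v, rfl⟩
      exact ⟨_, ⟨v, rfl⟩, Z1.lev_cob j hι hρ v⟩)

lemma H1.lev_mk (c : Z1 ι ρ) :
    H1.lev j hι hρ (H1.mk ι ρ c) = H1.mk ι₂ ρ₂ (Z1.lev j hι hρ c) := rfl

include hι' in
lemma op_lev [HFam.IsFreeOn ι] [HFam.IsFreeOn ι₂] (h : HFam ι ι') (h₂ : HFam ι₂ ι₂')
    (e : h.J ≃ h₂.J) (he : ∀ i, j (h.α i) = h₂.α (e i)) (c : Z1 ι ρ) :
    h₂.op ρ₂ (Z1.lev j hι hρ c) = Z1.lev j hι' hρ (h.op ρ c) := by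
  apply Subtype.ext
  funext γ'
  rw [HFam.op_apply_of_eq h₂ _ γ' ((e.symm.trans (h.σ γ')).trans e)
    (fun i => h.δ γ' (e.symm i)) (fun i => by
      obtain ⟨i, rfl⟩ := e.surjective i
      have h1 := congrArg j (h.spec γ' i)
      rw [map_mul, map_mul, hι, hι', he, he] at h1
      simpa using h1)]
  rw [Z1.lev_apply, HFam.op_apply]
  refine (Fintype.sum_equiv e _ _ fun i => ?_).symm
  rw [Z1.lev_apply, hρ, he]
  simp

include hι' in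
lemma opH_lev [HFam.IsFreeOn ι] [HFam.IsFreeOn ι₂] (h : HFam ι ι') (h₂ : HFam ι₂ ι₂')
    (e : h.J ≃ h₂.J) (he : ∀ i, j (h.α i) = h₂.α (e i)) (x : H1 ι ρ) :
    h₂.opH ρ₂ (H1.lev j hι hρ x) = H1.lev j hι' hρ (h.opH ρ x) := by
  obtain ⟨c, rfl⟩ := Submodule.mkQ_surjective _ x
  change H1.mk ι₂' ρ₂ (h₂.op ρ₂ (Z1.lev j hι hρ c)) = H1.mk ι₂' ρ₂ (Z1.lev j hι' hρ (h.op ρ c))
  rw [op_lev j hι hι' hρ h h₂ e he]

end Lev

section Level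

variable {N₁ N₂ M : ℕ} (hN : N₂ ∣ N₁) (hM₁ : N₁ ∣ M) (hM₂ : N₂ ∣ M) {R : Type*} [CommRing R]
  {ψ₁ : (ZMod N₁)ˣ →* Rˣ} {ψ₂ : (ZMod N₂)ˣ →* Rˣ}
  (hψ : ψ₁ = ψ₂.comp (ZMod.unitsMap hN)) (W : Type*) [AddCommGroup W] [Module R W]

/-- inclusion of Hecke semigroups -/
def levMap : DN N₁ →* DN N₂ where
  toFun α := ⟨α.1, DN_mono hN α.2⟩
  map_one' := rfl
  map_mul' _ _ := rfl

lemma levMap_val (α : DN N₁) : (levMap hN α).1 = α.1 := rfl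

lemma levMap_gam (γ : Gamma0 M) : levMap hN (gam N₁ M hM₁ γ) = gam N₂ M hM₂ γ := rfl

lemma unitsMap_aUnit (α : DN N₁) : ZMod.unitsMap hN (aUnit N₁ α) = aUnit N₂ (levMap hN α) := by
  apply Units.ext
  rw [aUnit_val, ZMod.unitsMap_val, aUnit_val]
  change ZMod.cast ((α.1 0 0 : ℤ) : ZMod N₁) = ((α.1 0 0 : ℤ) : ZMod N₂)
  exact ZMod.cast_intCast hN _

include hψ in
lemma slash_levMap (α : DN N₁) (w : W) :
    slash (psiRep ψ₁ W) α w = slash (psiRep ψ₂ W) (levMap hN α) w := by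
  rw [slash_psiRep, slash_psiRep, hψ, MonoidHom.comp_apply, unitsMap_aUnit]

/-- change of the auxiliary level -/
noncomputable def h1Lev : H1 (gam N₁ M hM₁) (psiRep ψ₁ W) ≃ₗ[R] H1 (gam N₂ M hM₂) (psiRep ψ₂ W) :=
  H1.lev (levMap hN) (levMap_gam hN hM₁ hM₂) (slash_levMap hN hψ W)

lemma h1Lev_mk (c : Z1 (gam N₁ M hM₁) (psiRep ψ₁ W)) :
    h1Lev hN hM₁ hM₂ hψ W (H1.mk (gam N₁ M hM₁) (psiRep ψ₁ W) c) =
      H1.mk (gam N₂ M hM₂) (psiRep ψ₂ W)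
        (Z1.lev (levMap hN) (levMap_gam hN hM₁ hM₂) (slash_levMap hN hψ W) c) := rfl

/-- **All Hecke families with the same matrices are compatible with the change of auxiliary
level.** -/
theorem opH_h1Lev {M' : ℕ} {hM₁' : N₁ ∣ M'} {hM₂' : N₂ ∣ M'}
    (h : HFam (gam N₁ M hM₁) (gam N₁ M' hM₁')) (h₂ : HFam (gam N₂ M hM₂) (gam N₂ M' hM₂'))
    (e : h.J ≃ h₂.J) (he : ∀ i, (h.α i).1 = (h₂.α (e i)).1)
    (x : H1 (gam N₁ M hM₁) (psiRep ψ₁ W)) :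
    h₂.opH (psiRep ψ₂ W) (h1Lev hN hM₁ hM₂ hψ W x) =
      h1Lev hN hM₁' hM₂' hψ W (h.opH (psiRep ψ₁ W) x) :=
  opH_lev (levMap hN) (levMap_gam hN hM₁ hM₂) (levMap_gam hN hM₁' hM₂') (slash_levMap hN hψ W)
    h h₂ e (fun i => Subtype.ext (he i)) x

theorem tFam_h1Lev {ℓ : ℕ} (hℓ : ℓ.Prime) (hℓM : ¬ ℓ ∣ M)
    (x : H1 (gam N₁ M hM₁) (psiRep ψ₁ W)) :
    (tFam hM₂ hℓ hℓM).opH (psiRep ψ₂ W) (h1Lev hN hM₁ hM₂ hψ W x) =
      h1Lev hN hM₁ hM₂ hψ W ((tFam hM₁ hℓ hℓM).opH (psiRep ψ₁ W) x) :=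
  opH_h1Lev hN hM₁ hM₂ hψ W _ _ (Equiv.refl _) (fun i => by
    change (tRep hM₁ hℓ hℓM i).1 = (tRep hM₂ hℓ hℓM i).1
    cases i <;> rfl) x

theorem uFam_h1Lev {q : ℕ} (hq : 0 < q) (hqM : q ∣ M)
    (x : H1 (gam N₁ M hM₁) (psiRep ψ₁ W)) :
    (uFam hM₂ hq hqM).opH (psiRep ψ₂ W) (h1Lev hN hM₁ hM₂ hψ W x) =
      h1Lev hN hM₁ hM₂ hψ W ((uFam hM₁ hq hqM).opH (psiRep ψ₁ W) x) :=
  opH_h1Lev hN hM₁ hM₂ hψ W _ _ (Equiv.refl _) (fun _ => rfl) x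

end Level

section Hom

variable {N M : ℕ} (hM : N ∣ M) {R : Type*} [CommRing R] {A : Type*} [AddCommGroup A] [Module R A]

lemma slash_psiRep_one (α : DN N) (a : A) :
    slash (psiRep (1 : (ZMod N)ˣ →* Rˣ) A) α a = a := by
  rw [slash_psiRep, MonoidHom.one_apply, Units.val_one, one_smul]

variable (R A)

/-- homomorphisms are cocycles with trivial coefficients -/
def homZ1 : (Additive (Gamma0 M) →+ A) ≃ₗ[R]
    Z1 (gam N M hM) (psiRep (1 : (ZMod N)ˣ →* Rˣ) A) where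
  toFun φ := ⟨fun γ => φ (Additive.ofMul γ), fun γ δ => by
    rw [slash_psiRep_one]
    exact φ.map_add (Additive.ofMul γ) (Additive.ofMul δ)⟩
  invFun c := AddMonoidHom.mk' (fun γ => c.1 γ.toMul) (fun γ δ => by
    rw [toMul_add, c.2, slash_psiRep_one])
  left_inv _ := rfl
  right_inv _ := rfl
  map_add' _ _ := rfl
  map_smul' _ _ := rfl

lemma homZ1_apply (φ : Additive (Gamma0 M) →+ A) (γ : Gamma0 M) :
    (homZ1 hM R A φ).1 γ = φ (Additive.ofMul γ) := rfl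

lemma B1_one_eq_bot : B1 (gam N M hM) (psiRep (1 : (ZMod N)ˣ →* Rˣ) A) = ⊥ := by
  rw [eq_bot_iff]
  rintro _ ⟨a, rfl⟩
  rw [Submodule.mem_bot]
  apply Subtype.ext
  funext γ
  change slash (psiRep (1 : (ZMod N)ˣ →* Rˣ) A) _ a - a = 0
  rw [slash_psiRep_one, sub_self]

/-- `H¹(Γ₀(M), A) = Hom(Γ₀(M), A)` for the trivial character -/
noncomputable def homH1 : (Additive (Gamma0 M) →+ A) ≃ₗ[R]
    H1 (gam N M hM) (psiRep (1 : (ZMod N)ˣ →* Rˣ) A) :=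
  (homZ1 hM R A).trans (Submodule.quotEquivOfEqBot _ (B1_one_eq_bot hM R A)).symm

lemma homH1_apply (φ : Additive (Gamma0 M) →+ A) :
    homH1 hM R A φ = H1.mk (gam N M hM) (psiRep (1 : (ZMod N)ˣ →* Rˣ) A) (homZ1 hM R A φ) := rfl

variable {A}

lemma tRep_coc {ℓ : ℕ} [Fact ℓ.Prime] (hℓM : ¬ ℓ ∣ M) (γ : Gamma0 M) (x : OnePoint (ZMod ℓ)) :
    tRep hM (Fact.out : ℓ.Prime) hℓM x * gam N M hM γ =
      gam N M hM (H4.coc hℓM γ x) * tRep hM (Fact.out : ℓ.Prime) hℓM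
        (H4.act (ℓ := ℓ) (γ : SL(2, ℤ)) x) := by
  apply Subtype.ext
  apply int_of_real
  rw [tRep_map, tRep_map]
  exact congrArg Units.val (H4.coc_spec hℓM γ x)

/-- **Comparison of `tFam` with `heckeHom`.** -/
theorem homH1_heckeHom {ℓ : ℕ} [Fact ℓ.Prime] (hℓM : ¬ ℓ ∣ M) (φ : Additive (Gamma0 M) →+ A) :
    (tFam hM (Fact.out : ℓ.Prime) hℓM).opH (psiRep (1 : (ZMod N)ˣ →* Rˣ) A) (homH1 hM R A φ) =
      homH1 hM R A (H4.heckeHom hℓM φ) := by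
  rw [homH1_apply, homH1_apply, HFam.opH_mk]
  congr 1
  apply Subtype.ext
  funext γ
  rw [HFam.op_apply_of_eq (tFam hM (Fact.out : ℓ.Prime) hℓM) _ γ
    (H4.act (ℓ := ℓ) (γ : SL(2, ℤ))) (fun x => H4.coc hℓM γ x) (fun x => tRep_coc hM hℓM γ x)]
  rw [homZ1_apply, H4.heckeHom_apply]
  refine Fintype.sum_equiv (Equiv.refl _) _ _ fun x => ?_
  rw [slash_psiRep_one]
  rfl

end Hom

end Fermat.Agent.H70.Coh
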