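import Fermat.Agent.H4Lattice
import Fermat.Agent.H8ShimMain
import Fermat.Agent.H80S20
import Fermat.Agent.H70Comp
import Fermat.Agent.H37RankTW
import Fermat.Agent.H4EAPE

/-!
# Eichler--Shimura for relations

An integral polynomial in the Hecke operators which kills the cusp forms of level `L` kills the
non-Eisenstein part of `H¹(Γ₀(L), K)`.
-/

set_option autoImplicit false
set_option linter.style.haveILetI false
set_option linter.unusedSectionVars false

noncomputable section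

open UpperHalfPlane hiding I
open Complex MatrixGroups ModularGroup ModularCurve
open CongruenceSubgroup Matrix.SpecialLinearGroup
open Fermat.Agent.H4 Fermat.Agent.H70.Coh Fermat.Agent.H37.Rank

namespace Fermat.Agent.H59

section Factor

variable {N : ℕ} [NeZero N] {A : Type*} [AddCommGroup A] [IsAddTorsionFree A]

/-- integral classes vanish on the elements without periods -/
lemma int_eq_zero_of_toLat (φ : Additive (Gamma0 N) →+ ℤ) (hφ : IsPE φ)
    {γ : Additive (Gamma0 N)} (hγ : toLat N γ = 0) : φ γ = 0 := by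
  obtain ⟨f, hf⟩ := (H8.realPeriod_surjective (H80.finrank_eq_genusFormula N)).1
    ⟨(Int.castAddHom ℝ).comp φ, fun γ hγ => by
      rw [AddMonoidHom.comp_apply, hφ γ hγ, map_zero]⟩
  have h1 : Complex.reAddGroupHom.comp (periodMap N f) = (Int.castAddHom ℝ).comp φ :=
    congrArg Subtype.val hf
  have h2 : perHom N γ = 0 := congrArg Subtype.val hγ
  have h3 : periodMap N f γ = 0 := LinearMap.congr_fun h2 f
  have h4 := DFunLike.congr_fun h1 γ
  rw [AddMonoidHom.comp_apply, AddMonoidHom.comp_apply, h3, map_zero] at h4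
  have h5 : ((φ γ : ℤ) : ℝ) = 0 := h4.symm
  exact_mod_cast h5

/-- classes vanishing on parabolic and elliptic elements vanish on the elements without periods -/
lemma eq_zero_of_toLat (φ : Additive (Gamma0 N) →+ A) (hφ : IsPE φ)
    {γ : Additive (Gamma0 N)} (hγ : toLat N γ = 0) : φ γ = 0 := by
  by_contra hne
  have h0 : AddGroup.FG (Additive (Gamma0 N)) := GroupFG.iff_add_fg.1 inferInstance
  have h1 : AddGroup.FG φ.range := AddGroup.fg_range _
  haveI : Module.Finite ℤ φ.range := Module.Finite.iff_addGroup_fg.2 h1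
  haveI : IsAddTorsionFree φ.range := inferInstance
  haveI : Module.Free ℤ φ.range := Module.free_of_finite_type_torsion_free'
  have h2 : φ.rangeRestrict γ ≠ 0 := fun h => hne (congrArg Subtype.val h)
  obtain ⟨c, hc⟩ := Module.Projective.exists_dual_ne_zero ℤ h2
  apply hc
  refine int_eq_zero_of_toLat (c.toAddMonoidHom.comp φ.rangeRestrict) ?_ hγ
  intro δ hδ
  rw [AddMonoidHom.comp_apply]
  have h3 : φ.rangeRestrict (Additive.ofMul δ) = 0 := Subtype.ext (hφ δ hδ)
  rw [h3, map_zero]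

/-- they factor through the period lattice -/
theorem exists_factor (φ : Additive (Gamma0 N) →+ A) (hφ : IsPE φ) :
    ∃ ψ : Lat N →+ A, ψ.comp (toLat N) = φ := by
  refine ⟨(toLat N).liftOfSurjective toLat_surjective ⟨φ, fun γ hγ => ?_⟩, ?_⟩
  · rw [AddMonoidHom.mem_ker] at hγ ⊢
    exact eq_zero_of_toLat φ hφ hγ
  · exact AddMonoidHom.liftOfRightInverse_comp _ _ _ _

/-- the operator `T_ℓ - 1 - ℓ`, `ℓ ≡ 1 mod N`, maps to classes vanishing on parabolic and elliptic
elements -/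
theorem isPE_eis {ℓ : ℕ} [hℓ : Fact ℓ.Prime] (hℓN : ¬ ℓ ∣ N) (h1 : (N : ℤ) ∣ (ℓ : ℤ) - 1)
    (φ : Additive (Gamma0 N) →+ A) : IsPE (heckeHom hℓN φ - ((1 : ℤ) + ℓ) • φ) := by
  intro γ hγ
  rcases hγ.lt_or_eq with h | h
  · have h12 : γ ^ 12 = 1 := Subtype.ext (by push_cast; exact H8.pow_twelve_eq_one _ h)
    have : (12 : ℕ) • (heckeHom hℓN φ - ((1 : ℤ) + ℓ) • φ) (Additive.ofMul γ) = 0 := by
      rw [← map_nsmul, ← ofMul_pow, h12, ofMul_one, map_zero]
    exact (nsmul_eq_zero_iff_right (by norm_num)).1 this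
  · have h2 := heckeHom_apply_trace_sq_eq_four hℓN h1 φ γ h
    rw [AddMonoidHom.sub_apply, h2, AddMonoidHom.smul_apply, sub_self]

end Factor

section Ev

variable {L : ℕ} [NeZero L] {S : Set ℕ} (hS : Adm S L)

/-- the Hecke algebra as a quotient of the polynomial ring -/
def evHA : MvPolynomial (Pr S) ℤ →+* CuspForm.heckeAlgebra L 2 S :=
  MvPolynomial.eval₂Hom (Int.castRingHom _)
    (fun i => CuspForm.heckeAlgebra.T i.2.1 (fun h => i.2.2 (hS i.1 i.2.1 h)) i.2.2)

lemma evHA_X (i : Pr S) : evHA hS (MvPolynomial.X i) =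
    CuspForm.heckeAlgebra.T i.2.1 (fun h => i.2.2 (hS i.1 i.2.1 h)) i.2.2 := by
  rw [evHA, MvPolynomial.coe_eval₂Hom, MvPolynomial.eval₂_X]

lemma evHA_C (a : ℤ) : evHA hS (MvPolynomial.C a) = (a : CuspForm.heckeAlgebra L 2 S) := by
  rw [evHA, MvPolynomial.coe_eval₂Hom, MvPolynomial.eval₂_C]
  rfl

variable {K : Type} [Field K] [CharZero K] {O : Type} [CommRing O] [Algebra O K]

/-- functionals on the period lattice as cohomology classes -/
def latHH (L : ℕ) [NeZero L] (K : Type) [Field K] : (Lat L →+ K) →+ HH K L :=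
  (homH1 (one_dvd L) K K).toLinearMap.toAddMonoidHom.comp
    (AddMonoidHom.mk' (fun ψ : Lat L →+ K => ψ.comp (toLat L)) fun _ _ => rfl)

lemma latHH_apply (ψ : Lat L →+ K) :
    latHH L K ψ = homH1 (one_dvd L) K K (ψ.comp (toLat L)) := rfl

lemma latHH_T (i : Pr S) (ψ : Lat L →+ K) :
    TT K hS i (latHH L K ψ) =
      latHH L K (ψ.comp (latAct hS (evHA hS (MvPolynomial.X i))).toAddMonoidHom) := by
  haveI : Fact i.1.Prime := ⟨i.2.1⟩
  have hi : ¬ i.1 ∣ L := fun h => i.2.2 (hS i.1 i.2.1 h)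
  have h2 : TT K hS i (latHH L K ψ) =
      homH1 (one_dvd L) K K (heckeHom hi (ψ.comp (toLat L))) :=
    homH1_heckeHom (one_dvd L) K hi _
  rw [h2, latHH_apply, evHA_X]
  congr 1
  rw [heckeHom_comp]
  refine AddMonoidHom.ext fun γ => ?_
  exact congrArg ψ (latAct_T_toLat hS hi i.2.2 γ).symm

/-- abstract version -/
lemma act_dual_aux {ι K H V : Type*} [Field K] [AddCommGroup H] [Module K H] [AddCommGroup V]
    (F : MvPolynomial ι ℤ →+* Module.End K H) (G : MvPolynomial ι ℤ →+* Module.End ℤ V)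
    (j : (V →+ K) →+ H)
    (h : ∀ i ψ, F (MvPolynomial.X i) (j ψ) = j (ψ.comp (G (MvPolynomial.X i)).toAddMonoidHom))
    (P : MvPolynomial ι ℤ) : ∀ ψ : V →+ K, F P (j ψ) = j (ψ.comp (G P).toAddMonoidHom) := by
  induction P using MvPolynomial.induction_on with
  | C a =>
    intro ψ
    have h1 : (MvPolynomial.C a : MvPolynomial ι ℤ) = (a : MvPolynomial ι ℤ) := by simp
    have h2 : ψ.comp ((a : Module.End ℤ V)).toAddMonoidHom = a • ψ := by
      refine AddMonoidHom.ext fun v => ?_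
      rw [AddMonoidHom.comp_apply, AddMonoidHom.smul_apply, ← map_zsmul]
      congr 1
    rw [h1, map_intCast, map_intCast, h2, map_zsmul, Module.End.intCast_apply]
  | add P Q hP hQ =>
    intro ψ
    have h2 : ψ.comp (G (P + Q)).toAddMonoidHom =
        ψ.comp (G P).toAddMonoidHom + ψ.comp (G Q).toAddMonoidHom := by
      refine AddMonoidHom.ext fun v => ?_
      rw [map_add]
      exact map_add ψ _ _
    rw [h2, map_add, map_add, LinearMap.add_apply, hP, hQ]
  | mul_X P i hP =>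
    intro ψ
    have h2 : ψ.comp (G (P * MvPolynomial.X i)).toAddMonoidHom =
        (ψ.comp (G (MvPolynomial.X i)).toAddMonoidHom).comp (G P).toAddMonoidHom := by
      refine AddMonoidHom.ext fun v => ?_
      rw [mul_comm, map_mul]
      rfl
    rw [h2, map_mul, Module.End.mul_apply, h, hP]

/-- the action on classes which factor through the lattice -/
theorem act_latHH (P : MvPolynomial (Pr S) ℤ) (ψ : Lat L →+ K) :
    act (O := O) (TT K hS) (TT_comm hS) (P.map (Int.castRingHom O)) (latHH L K ψ) =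
      latHH L K (ψ.comp (latAct hS (evHA hS P)).toAddMonoidHom) := by
  refine act_dual_aux
    ((act (O := O) (TT K hS) (TT_comm hS)).toRingHom.comp (MvPolynomial.map (Int.castRingHom O)))
    ((latAct hS).comp (evHA hS)) (latHH L K) (fun i ψ => ?_) P ψ
  have h1 : ((act (O := O) (TT K hS) (TT_comm hS)).toRingHom.comp
      (MvPolynomial.map (Int.castRingHom O))) (MvPolynomial.X i) = TT K hS i := by
    change act (O := O) (TT K hS) (TT_comm hS) ((MvPolynomial.X i).map (Int.castRingHom O)) = _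
    rw [MvPolynomial.map_X, act_X]
  rw [h1]
  exact latHH_T hS i ψ

/-- elements of the summand are in the image of `T_i - (1 + n)` if `θ` is not Eisenstein -/
lemma exists_eis_preimage {O Λ ι H κ : Type} [CommRing O] [CommRing Λ] [Algebra O Λ]
    [AddCommGroup H] [Module Λ H] [Module O H] [IsScalarTower O Λ H] [Field κ]
    {T : ι → Module.End Λ H} {hT : ∀ i j, T i * T j = T j * T i} {e : MvPolynomial ι O}
    {θ : MvPolynomial ι O →+* κ} (he : IsLocIdem T hT θ e) (i : ι) (n : ℕ)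
    (hi : θ (MvPolynomial.X i) ≠ 1 + (n : κ)) {x : H} (hx : x ∈ Loc T hT e) :
    ∃ z, x = T i z - (1 + (n : Λ)) • z := by
  have hs : θ (MvPolynomial.X i - (1 + (n : MvPolynomial ι O))) ≠ 0 := by
    rw [map_sub, map_add, map_one, map_natCast, sub_ne_zero]
    exact hi
  obtain ⟨s', hs'⟩ := he.inv _ hs
  have hxe : act T hT e x = x := (mem_loc he.idem).mp hx
  refine ⟨act T hT (s' * e) x, ?_⟩
  have h1 := LinearMap.congr_fun hs' x
  rw [mul_assoc, map_mul, Module.End.mul_apply, hxe, map_sub, map_add, map_one, map_natCast,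
    act_X, LinearMap.sub_apply, LinearMap.add_apply, Module.End.one_apply] at h1
  rw [add_smul, one_smul, Nat.cast_smul_eq_nsmul]
  exact h1.symm

/-- non-Eisenstein classes factor through the period lattice -/
theorem exists_latHH {κ : Type} [Field κ] {θ : MvPolynomial (Pr S) O →+* κ}
    {e : MvPolynomial (Pr S) O} (he : IsLocIdem (TT K hS) (TT_comm hS) θ e)
    (i₀ : Pr S) (hi₀1 : (L : ℤ) ∣ (i₀.1 : ℤ) - 1) (hi₀ : θ (MvPolynomial.X i₀) ≠ 1 + (i₀.1 : κ))
    {x : HH K L} (hx : x ∈ Loc (TT K hS) (TT_comm hS) e) : ∃ ψ, latHH L K ψ = x := by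
  haveI : Fact i₀.1.Prime := ⟨i₀.2.1⟩
  have hi : ¬ i₀.1 ∣ L := fun h => i₀.2.2 (hS i₀.1 i₀.2.1 h)
  obtain ⟨z, hz⟩ := exists_eis_preimage he i₀ i₀.1 hi₀ hx
  obtain ⟨φ, hφ⟩ := (homH1 (one_dvd L) K K).surjective z
  have h2 : TT K hS i₀ (homH1 (one_dvd L) K K φ) = homH1 (one_dvd L) K K (heckeHom hi φ) :=
    homH1_heckeHom (one_dvd L) K hi φ
  obtain ⟨ψ, hψ⟩ := exists_factor _ (isPE_eis hi hi₀1 φ)
  refine ⟨ψ, ?_⟩
  rw [latHH_apply, hψ, hz, ← hφ, h2, ← map_smul, ← map_sub]
  congr 2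
  refine AddMonoidHom.ext fun γ => ?_
  rw [AddMonoidHom.smul_apply, AddMonoidHom.smul_apply, zsmul_eq_mul, smul_eq_mul]
  push_cast
  rfl

/-- **Relations between Hecke operators on cusp forms hold for non-Eisenstein cohomology.** -/
theorem act_loc_eq_zero {κ : Type} [Field κ] {θ : MvPolynomial (Pr S) O →+* κ}
    {e : MvPolynomial (Pr S) O} (he : IsLocIdem (TT K hS) (TT_comm hS) θ e)
    (i₀ : Pr S) (hi₀1 : (L : ℤ) ∣ (i₀.1 : ℤ) - 1) (hi₀ : θ (MvPolynomial.X i₀) ≠ 1 + (i₀.1 : κ))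
    {P : MvPolynomial (Pr S) ℤ} (hP : evHA hS P = 0) {x : HH K L}
    (hx : x ∈ Loc (TT K hS) (TT_comm hS) e) :
    act (TT K hS) (TT_comm hS) (P.map (Int.castRingHom O)) x = 0 := by
  obtain ⟨ψ, rfl⟩ := exists_latHH hS he i₀ hi₀1 hi₀ hx
  rw [act_latHH hS P ψ, hP, map_zero]
  have h4 : ψ.comp (0 : Module.End ℤ (Lat L)).toAddMonoidHom = 0 := by
    refine AddMonoidHom.ext fun γ => ?_
    simp
  rw [h4, map_zero]

end Ev

end Fermat.Agent.H59

end
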