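import Fermat.Agent.H80Al
import Fermat.Agent.H56ZChar

/-!
# The aleph operator as a finite family of pure kernels, part 1: indices, kernels (helper59, C-KER)

* `Ix`, `al`, `ixs` : the monomials of the aleph polynomial in `3 + 3` variables;
* `cf q n` : coefficient times `q^{-deg/2}`;
* `kE q k n` : the radial kernel on `Fin 3 → H3` of the monomial `n` (coefficient absorbed), for a
  sequence `k : ℕ → ℝ → ℝ` of one-variable kernels;
* `nE w n` : the Hecke monomial at the places `w i`;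
* symmetry under permutations of the places and of the embeddings.
-/

set_option autoImplicit false

noncomputable section

open MvPolynomial MeasureTheory
open scoped Real

namespace Fermat.Agent.H59K

open H56Z H5Z

/-! ### Indices -/

/-- monomials in `3 + 3` variables -/
abbrev Ix : Type := (Fin 3 ⊕ Fin 3) →₀ ℕ

/-- the aleph polynomial in `3 + 3` variables -/
def al : MvPolynomial (Fin 3 ⊕ Fin 3) ℤ := H80Al.alP _

theorem isAleph_al : H80Al.IsAleph al := H80Al.isAleph_alP _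

/-- the monomials occurring in the aleph polynomial -/
def ixs : Finset Ix := al.support

/-- the total exponent of the Hecke operators -/
def hdeg (n : Ix) : ℕ := ∑ i, n (Sum.inl i)

/-- the coefficient, with the normalisation of the Hecke operators -/
def cf (q : ℝ) (n : Ix) : ℝ := ((coeff n al : ℤ) : ℝ) * ((√q)⁻¹) ^ hdeg n

/-- permutation of the indices -/
def prm (e : Equiv.Perm (Fin 3 ⊕ Fin 3)) : Ix ≃ Ix := Finsupp.domCongr e |>.toEquiv

theorem prm_apply (e : Equiv.Perm (Fin 3 ⊕ Fin 3)) (n : Ix) (a : Fin 3 ⊕ Fin 3) :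
    prm e n (e a) = n a := by
  simp [prm]

theorem prm_eq (e : Equiv.Perm (Fin 3 ⊕ Fin 3)) (n : Ix) : prm e n = n.mapDomain e := by
  ext a
  obtain ⟨b, rfl⟩ := e.surjective a
  rw [prm_apply, Finsupp.mapDomain_apply e.injective]

theorem coeff_prm (e : Equiv.Perm (Fin 3 ⊕ Fin 3)) (n : Ix) :
    coeff (prm e n) al = coeff n al := by
  rw [prm_eq]
  exact isAleph_al.coeff_mapDomain e n

theorem mem_ixs {n : Ix} : n ∈ ixs ↔ coeff n al ≠ 0 := MvPolynomial.mem_support_iff

theorem prm_mem_ixs (e : Equiv.Perm (Fin 3 ⊕ Fin 3)) {n : Ix} : prm e n ∈ ixs ↔ n ∈ ixs := by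
  rw [mem_ixs, mem_ixs, coeff_prm]

theorem sum_prm {M : Type*} [AddCommMonoid M] (e : Equiv.Perm (Fin 3 ⊕ Fin 3)) (f : Ix → M) :
    ∑ n ∈ ixs, f (prm e n) = ∑ n ∈ ixs, f n := by
  refine Finset.sum_equiv (prm e) (fun n => (prm_mem_ixs e).symm) fun n _ => rfl

theorem hdeg_prm (e e' : Equiv.Perm (Fin 3)) (n : Ix) :
    hdeg (prm (Equiv.sumCongr e e') n) = hdeg n := by
  unfold hdeg
  rw [← Equiv.sum_comp e]
  refine Finset.sum_congr rfl fun i _ => ?_
  have := prm_apply (Equiv.sumCongr e e') n (Sum.inl i)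
  simpa using this

theorem cf_prm (q : ℝ) (e e' : Equiv.Perm (Fin 3)) (n : Ix) :
    cf q (prm (Equiv.sumCongr e e') n) = cf q n := by
  unfold cf
  rw [coeff_prm, hdeg_prm]

/-! ### Kernels -/

/-- The tensor product of real one-variable kernels. -/
def tn {J : Type*} [Fintype J] (k : J → ℝ → ℝ) (t : J → ℝ) : ℂ := ((∏ j, k j (t j) : ℝ) : ℂ)

theorem tn_perm {J : Type*} [Fintype J] (k : J → ℝ → ℝ) (e : J ≃ J) (t : J → ℝ) :
    tn (fun j => k (e j)) (fun j => t (e j)) = tn k t := by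
  unfold tn
  rw [Equiv.prod_comp e fun j => k j (t j)]

/-- One-variable kernels. -/
structure IsK1 (k : ℝ → ℝ) : Prop where
  cont : Continuous k
  bdd : ∃ M : ℝ, ∀ u, |k u| ≤ M
  supp : ∃ R : ℝ, ∀ u, R < u → k u = 0

theorem isRC_tn {J : Type*} [Finite J] [Fintype J] {k : J → ℝ → ℝ} (hk : ∀ j, IsK1 (k j)) :
    IsRC (tn k) := by
  choose M hM using fun j => (hk j).bdd
  choose R hR using fun j => (hk j).supp
  refine ⟨?_, ⟨∏ j, M j, fun u => ?_⟩, ⟨∑ j, |R j|, fun u hu => ?_⟩⟩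
  · unfold tn
    refine Complex.continuous_ofReal.comp ?_
    exact continuous_finsetProd _ fun j _ => (hk j).cont.comp (continuous_apply j)
  · unfold tn
    rw [Complex.norm_real, Real.norm_eq_abs, Finset.abs_prod]
    exact Finset.prod_le_prod (fun j _ => abs_nonneg _) fun j _ => hM j _
  · obtain ⟨j, hj⟩ := hu
    have h1 : R j < u j := by
      refine lt_of_le_of_lt ?_ hj
      exact (le_abs_self _).trans (Finset.single_le_sum (f := fun j => |R j|)
        (fun _ _ => abs_nonneg _) (Finset.mem_univ j))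
    unfold tn
    rw [Finset.prod_eq_zero (Finset.mem_univ j) (hR j _ h1), Complex.ofReal_zero]

/-- The radial kernel of the monomial `n`. -/
def kE (q : ℝ) (k : ℕ → ℝ → ℝ) (n : Ix) (t : Fin 3 → ℝ) : ℂ :=
  (cf q n : ℂ) * tn (fun j => k (n (Sum.inr j))) t

theorem isRC_kE (q : ℝ) {k : ℕ → ℝ → ℝ} (hk : ∀ i, IsK1 (k i)) (n : Ix) : IsRC (kE q k n) :=
  (isRC_tn fun j => hk (n (Sum.inr j))).const_mul _

theorem kE_prm (q : ℝ) (k : ℕ → ℝ → ℝ) (e e' : Equiv.Perm (Fin 3)) (n : Ix) (t : Fin 3 → ℝ) :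
    kE q k (prm (Equiv.sumCongr e e') n) t = kE q k n (fun j => t (e' j)) := by
  unfold kE
  rw [cf_prm, ← tn_perm _ e']
  congr 2
  funext j
  have := prm_apply (Equiv.sumCongr e e') n (Sum.inr j)
  simp only [Equiv.sumCongr_apply, Sum.map_inr] at this
  rw [this]

theorem kE_real (q : ℝ) (k : ℕ → ℝ → ℝ) (n : Ix) (t : Fin 3 → ℝ) :
    (starRingEnd ℂ) (kE q k n t) = kE q k n t := by
  unfold kE tn
  rw [map_mul, Complex.conj_ofReal, Complex.conj_ofReal]

theorem kE_eq_ofReal (q : ℝ) (k : ℕ → ℝ → ℝ) (n : Ix) (t : Fin 3 → ℝ) :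
    kE q k n t = ((cf q n * ∏ j, k (n (Sum.inr j)) (t j) : ℝ) : ℂ) := by
  unfold kE tn
  push_cast
  rfl

/-! ### Hecke monomials -/

/-- The Hecke monomial at the places `w i`. -/
def nE {P : Type*} (w : Fin 3 → P) (n : Ix) : P →₀ ℕ := ∑ i, Finsupp.single (w i) (n (Sum.inl i))

theorem nE_prm {P : Type*} (w : Fin 3 → P) (e e' : Equiv.Perm (Fin 3)) (n : Ix) :
    nE w (prm (Equiv.sumCongr e e') n) = nE (fun i => w (e i)) n := by
  unfold nE
  rw [← Equiv.sum_comp e]
  refine Finset.sum_congr rfl fun i _ => ?_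
  have := prm_apply (Equiv.sumCongr e e') n (Sum.inl i)
  simp only [Equiv.sumCongr_apply, Sum.map_inl] at this
  rw [this]

theorem nE_mapDomain {P Q : Type*} (w : Fin 3 → P) (f : P → Q) (n : Ix) :
    (nE w n).mapDomain f = nE (fun i => f (w i)) n := by
  unfold nE
  rw [Finsupp.mapDomain_finsetSum]
  simp only [Finsupp.mapDomain_single]

theorem nE_const {P : Type*} (v : P) (n : Ix) : nE (fun _ => v) n = Finsupp.single v (hdeg n) := by
  unfold nE hdeg
  rw [Finsupp.single_finsetSum]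

/-! ### The value -/

/-- The eigenvalue of the aleph operator on a joint eigenvector with normalised Hecke eigenvalues
`a i` and archimedean eigenvalues `2^n h`. -/
theorem sum_value (q : ℝ) (lam : Fin 3 → ℂ) (h : ℂ) :
    ∑ n ∈ ixs, (cf q n : ℂ) * (∏ j : Fin 3, (2 ^ n (Sum.inr j) * h)) *
        ∏ i, lam i ^ n (Sum.inl i) =
      h ^ 3 * aeval (Sum.elim (fun i => ((√q)⁻¹ : ℝ) * lam i) (fun _ => (2 : ℂ))) al := by
  rw [MvPolynomial.aeval_def, MvPolynomial.eval₂_eq', Finset.mul_sum]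
  refine Finset.sum_congr rfl fun n _ => ?_
  rw [Fintype.prod_sum_type]
  simp only [Sum.elim_inl, Sum.elim_inr, cf, hdeg, mul_pow, Finset.prod_mul_distrib,
    Finset.prod_const, Finset.card_univ, Fintype.card_fin, Complex.ofReal_mul,
    Complex.ofReal_intCast, Complex.ofReal_pow, Finset.prod_pow_eq_pow_sum, algebraMap_int_eq,
    eq_intCast]
  ring

theorem value_ne_zero (q : ℝ) {h : ℂ} (hh : h ≠ 0) :
    ∑ n ∈ ixs, (cf q n : ℂ) * (∏ j : Fin 3, (2 ^ n (Sum.inr j) * h)) *
        ∏ i, (0 : Fin 3 → ℂ) i ^ n (Sum.inl i) ≠ 0 := by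
  rw [sum_value]
  refine mul_ne_zero (pow_ne_zero _ hh) ?_
  have h1 := isAleph_al.value_ne_zero (ι := Fin 3) (J := Fin 3) (by decide)
  convert h1 using 3
  funext i
  simp

end Fermat.Agent.H59K
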