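import Fermat.Agent.H59K5
import Fermat.Agent.H75XRad
import Fermat.Agent.H56ZTgt3

/-!
# The aleph operator, part 6: the operator `C` on both sides (helper59)

For `P : PW C a`, one-variable kernels `k n`, `a0` and a number `N` of smoothing steps:

* `sumE_eq_fk`, `sumB_eq_fk` : the sums of the test kernels are the families `fk`;
* `famE_inv` : invariance under the automorphism;
* `fam_val_ne` : the eigenvalue is not zero;
* `cfam_of` : `CFam C a` from the boundedness of the automorphic kernels and of the form.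
-/

set_option autoImplicit false
set_option linter.unusedSectionVars false

noncomputable section

open IsDedekindDomain HeightOneSpectrum WithZero NumberField Matrix MeasureTheory
open scoped MatrixGroups

namespace Fermat.Agent.H59K

open Fermat.Agent.H59XF Fermat.Agent.H51Z Fermat.Agent.H59D Fermat.Agent.H79S Fermat.Agent.H76U
open Fermat.Agent.H56Z Fermat.Agent.H67M Fermat.Agent.H75X

/-! ### The characters -/

section Char

theorem khat0_const_mul {J : Type*} [Fintype J] (c : ℂ) (κ : (J → ℝ) → ℂ) :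
    khat0 (fun t => c * κ t) = c * khat0 κ := by
  rw [khat0_eq_integral_abel, khat0_eq_integral_abel, ← integral_const_mul]
  refine integral_congr_ae (Filter.Eventually.of_forall fun u => ?_)
  simp only [abel]
  rw [integral_const_mul]
  ring

theorem khat0_k1 (k : ℝ → ℝ) : khat0 (k1 k) = ∫ s : ℝ, ab1 k s := by
  rw [khat0_eq_integral_abel]
  have h1 : ∀ u : Fin 1 → ℝ, abel (k1 k) u = ∏ j : Fin 1, (fun s => ab1 k s) (u j) := by
    intro u
    rw [abel_k1]
    simp
  simp_rw [h1]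
  rw [integral_fintype_prod_volume_eq_prod]
  simp

theorem khat0_tn {J : Type*} [Fintype J] (k : J → ℝ → ℝ) :
    khat0 (tn k) = ∏ j, khat0 (k1 (k j)) := by
  rw [khat0_eq_integral_abel]
  have h1 : ∀ u : J → ℝ, abel (tn k) u = ∏ j, (fun s => ab1 (k j) s) (u j) := fun u =>
    abel_tn_eq k u
  simp_rw [h1]
  rw [integral_fintype_prod_volume_eq_prod fun j s => ab1 (k j) s]
  simp only [khat0_k1]

theorem khat0_step {k : ℕ → ℝ → ℝ} {ℓ : ℝ} (hk : ∀ i, IsK1 (k i))
    (hs : ∀ n (u : Fin 1 → ℝ), abel (k1 (k (n + 1))) u =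
      abel (k1 (k n)) (u + fun _ => ℓ) + abel (k1 (k n)) (u - fun _ => ℓ)) (n : ℕ) :
    khat0 (k1 (k n)) = 2 ^ n * khat0 (k1 (k 0)) := by
  induction n with
  | zero => simp
  | succ n ih =>
    have hi : Integrable (abel (k1 (k n))) :=
      (continuous_abel (isRC_k1 (hk n))).integrable_of_hasCompactSupport
        (hasCompactSupport_abel (isRC_k1 (hk n)))
    have h1 : khat0 (k1 (k (n + 1))) = khat0 (k1 (k n)) + khat0 (k1 (k n)) := by
      rw [khat0_eq_integral_abel, khat0_eq_integral_abel]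
      simp_rw [hs n]
      rw [integral_add (hi.comp_add_right _) (hi.comp_sub_right _),
        integral_add_right_eq_self (fun u => abel (k1 (k n)) u),
        integral_sub_right_eq_self (fun u => abel (k1 (k n)) u)]
    rw [h1, ih, pow_succ]
    ring

theorem khat0_kE {k : ℕ → ℝ → ℝ} {ℓ : ℝ} (hk : ∀ i, IsK1 (k i))
    (hs : ∀ n (u : Fin 1 → ℝ), abel (k1 (k (n + 1))) u =
      abel (k1 (k n)) (u + fun _ => ℓ) + abel (k1 (k n)) (u - fun _ => ℓ)) (q : ℝ) (n : Ix) :
    khat0 (kE q k n) = (cf q n : ℂ) * ∏ j : Fin 3, (2 ^ n (Sum.inr j) * khat0 (k1 (k 0))) := by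
  have h1 := khat0_const_mul (cf q n : ℂ) (tn fun j => k (n (Sum.inr j)))
  have h2 : (fun t => (cf q n : ℂ) * tn (fun j => k (n (Sum.inr j))) t) = kE q k n := rfl
  rw [h2] at h1
  rw [h1, khat0_tn]
  congr 1
  exact Finset.prod_congr rfl fun j _ => khat0_step hk hs _

end Char

variable {F E : Type} [Field F] [NumberField F] [Field E] [NumberField E] [Algebra F E]
  {C : CSetup F E} {a : HeightOneSpectrum (𝓞 E) → ℝ}

theorem nE_prod {P : Type*} {M : Type*} [CommMonoid M] (w : Fin 3 → P) (n : Ix) (f : P → M) :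
    (nE w n).prod (fun u k => f u ^ k) = ∏ j, f (w j) ^ n (Sum.inl j) := by
  classical
  unfold nE
  rw [← Finsupp.prod_finset_sum_index (fun u => pow_zero _) fun u b c => pow_add _ _ _]
  refine Finset.prod_congr rfl fun j _ => ?_
  exact Finsupp.prod_single_index (h := fun u k => f u ^ k) (pow_zero _)

section Fam

variable (P : PW C a) (q : ℝ) (k : ℕ → ℝ → ℝ) (a0 : ℝ → ℝ) (N : ℕ)

/-- The radial kernels of the family. -/
def famK (i : Ix) : (Fin 3 → ℝ) → ℂ := it (tn fun _ => a0) N (kE q k i)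

theorem isRC_famK (hk : ∀ i, IsK1 (k i)) (ha : IsK1 a0) (i : Ix) : IsRC (famK q k a0 N i) :=
  isRC_it (isRC_tn fun _ => ha) (isRC_kE q hk i) N

theorem isReal_famK (i : Ix) : IsReal (famK q k a0 N i) :=
  IsReal.it (isReal_ofReal fun t => ∏ j, a0 (t j)) (isReal_kE q k i) N

theorem okN_nE (i : Ix) : C.OkN (nE P.w i) := by
  classical
  intro u hu
  have h1 : ∃ j, P.w j = u := by
    by_contra hcon
    push Not at hcon
    rw [Finsupp.mem_support_iff] at hu
    apply hu
    unfold nE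
    rw [Finsupp.finset_sum_apply]
    exact Finset.sum_eq_zero fun j _ => Finsupp.single_eq_of_ne' (hcon j)
  obtain ⟨j, rfl⟩ := h1
  exact P.ok j

/-- The family on `E`. -/
def famE : C.mE.X → C.mE.X → ℂ :=
  fk C.mE ixs (famK q k a0 N) fun i => C.kE.D.mono (nE P.w i) 0

/-- The family on `F`. -/
def famF : C.mF.X → C.mF.X → ℂ :=
  fk C.mF ixs (fun i => it (k1 a0) (3 * N) (kF q k i)) fun i => C.kF.D.mono (nE (fun _ => P.v) i) 0

theorem sumE_eq_fk (x y : C.mE.X) :
    ∑ i : ixs, C.tkE (famK q k a0 N i) (nE P.w i) 0 x y = famE P q k a0 N x y := by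
  unfold famE fk CSetup.tkE
  rw [← Finset.sum_coe_sort ixs]

theorem sumB_eq_fk (hk : ∀ i, IsK1 (k i)) (ha : IsK1 a0) (x y : C.mF.X) :
    ∑ i : ixs, C.tkB (famK q k a0 N i) (nE P.w i) 0 x y = famF P q k a0 N x y := by
  unfold famF fk CSetup.tkB CSetup.tkF famK
  rw [← Finset.sum_coe_sort ixs]
  refine Finset.sum_congr rfl fun i _ => ?_
  rw [bF_it ha (isRC_kE q hk i), nE_mapDomain]
  have h1 : (fun j => H47.below F (P.w j)) = fun _ => P.v := funext P.w_below
  rw [h1]
  rfl

/-- **Invariance under the automorphism.** -/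
theorem famE_inv (x y : C.mE.X) :
    famE P q k a0 N (C.aE.act x) (C.aE.act y) = famE P q k a0 N x y := by
  set e : Equiv.Perm (Fin 3) := (Equiv.addRight 1).symm with he
  refine fk_act C.aE (prm (Equiv.sumCongr e e)) (fun i => prm_mem_ixs _) (fun i _ t => ?_)
    (fun i _ x y => ?_) x y
  · have hc : C.aE.c.symm = e := by rw [C.c_eq]
    rw [hc]
    unfold famK
    rw [it_perm (isSym_tn a0)]
    congr 1
    funext u
    exact kE_prm q k e e i u
  · have h1 := (isTw_mono C (nE P.w (prm (Equiv.sumCongr e e) i)) 0).k_act x y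
    rw [← h1, nE_mapDomain]
    have h2 : (fun j => C.aE.σ (P.w j)) = fun j => P.w (j + 1) := funext fun j => (P.w_σ j).symm
    rw [h2, nE_prm]
    have h3 : (fun j => P.w (e j + 1)) = P.w := by
      funext j
      congr 1
      exact (Equiv.addRight (1 : Fin 3)).apply_symm_apply j
    rw [h3]

/-- **The eigenvalue is not zero.** -/
theorem fam_val_ne {ℓ : ℝ} (hk : ∀ i, IsK1 (k i)) (ha : IsK1 a0)
    (hs : ∀ n (u : Fin 1 → ℝ), abel (k1 (k (n + 1))) u =
      abel (k1 (k n)) (u + fun _ => ℓ) + abel (k1 (k n)) (u - fun _ => ℓ))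
    (hh : khat0 (k1 (k 0)) ≠ 0) (hh0 : khat0 (k1 a0) ≠ 0) :
    ∑ i ∈ ixs, evP a (famK q k a0 N i) (nE P.w i) ≠ 0 := by
  have h3 : khat0 (tn fun _ : Fin 3 => a0) ≠ 0 := by
    rw [khat0_tn]
    exact Finset.prod_ne_zero_iff.2 fun _ _ => hh0
  have h1 : ∀ i ∈ ixs, evP a (famK q k a0 N i) (nE P.w i) =
      khat0 (tn fun _ : Fin 3 => a0) ^ N *
        ((cf q i : ℂ) * (∏ j : Fin 3, (2 ^ i (Sum.inr j) * khat0 (k1 (k 0)))) *
          ∏ j, (0 : Fin 3 → ℂ) j ^ i (Sum.inl j)) := by
    intro i _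
    unfold evP
    rw [hat_eq_khat0 (isRC_famK q k a0 N hk ha i)]
    unfold famK
    rw [khat0_it (isRC_tn fun _ => ha) (isRC_kE q hk i), khat0_kE hk hs,
      nE_prod P.w i fun u => (evT a u : ℂ)]
    have h2 : ∀ j, (evT a (P.w j) : ℂ) = 0 := by
      intro j
      unfold evT
      rw [P.az j, mul_zero, Complex.ofReal_zero]
    simp only [h2, Pi.zero_apply]
    ring
  rw [Finset.sum_congr rfl h1, ← Finset.mul_sum]
  exact mul_ne_zero (pow_ne_zero _ h3) (value_ne_zero q hh)

/-- **The operator `C`** from the boundedness statements. -/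
def cfamOf {ℓ : ℝ} (hk : ∀ i, IsK1 (k i)) (ha : IsK1 a0)
    (hs : ∀ n (u : Fin 1 → ℝ), abel (k1 (k (n + 1))) u =
      abel (k1 (k n)) (u + fun _ => ℓ) + abel (k1 (k n)) (u - fun _ => ℓ))
    (hh : khat0 (k1 (k 0)) ≠ 0) (hh0 : khat0 (k1 a0) ≠ 0)
    (hE : H17S.Bd PGL(2, E) (famE P q k a0 N)) (hF : H17S.Bd PGL(2, F) (famF P q k a0 N))
    (hb : ∀ Φ : C.mE.X → ℂ, IsEForm C a Φ → ∃ M : ℝ, ∀ x, ‖Φ x‖ ≤ M) : CFam C a where
  ι := ixs
  fin := inferInstance
  κ i := famK q k a0 N i
  n i := nE P.w i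
  rc i := isRC_famK q k a0 N hk ha i
  real i t := isReal_famK q k a0 N i t
  ok i := okN_nE P i
  s_inv x y := by
    rw [sumE_eq_fk, sumE_eq_fk]
    exact famE_inv P q k a0 N x y
  bdE := by
    have h1 : (fun x y : C.mE.X => ∑ i : ixs, C.tkE (famK q k a0 N i) (nE P.w i) 0 x y) =
        famE P q k a0 N := funext fun x => funext fun y => sumE_eq_fk P q k a0 N x y
    rw [h1]
    exact hE
  bdF := by
    have h1 : (fun x y : C.mF.X => ∑ i : ixs, C.tkB (famK q k a0 N i) (nE P.w i) 0 x y) =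
        famF P q k a0 N := funext fun x => funext fun y => sumB_eq_fk P q k a0 N hk ha x y
    rw [h1]
    exact hF
  val_ne := by
    have h1 := Finset.sum_coe_sort ixs fun i => evP a (famK q k a0 N i) (nE P.w i)
    rw [h1]
    exact fam_val_ne P q k a0 N hk ha hs hh hh0
  bddE := hb

end Fam

end Fermat.Agent.H59K
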