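import Fermat.Agent.H59LL3
import Fermat.Agent.H59LL4

/-!
# Arithmetic of the levels
-/

set_option autoImplicit false
set_option linter.style.haveILetI false
set_option linter.unusedSectionVars false

noncomputable section

open Polynomial IsLocalRing GaloisRep CuspForm
open Fermat.Agent.H87.Glue Fermat.Agent.H37.Rank
open Fermat.Agent.H53 (GQ M2 MCont toMat mapMat FlatType)

namespace Fermat.Agent.H59

section Arith

variable {M r : ℕ} {Q : Fin r → ℕ} {T S₀ : Finset ℕ}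

lemma prime_dvd_prod (hQ : ∀ i, (Q i).Prime) {q : ℕ} (hq : q.Prime) (h : q ∣ ∏ i, Q i) :
    ∃ i, Q i = q := by
  rw [hq.prime.dvd_finsetProd_iff] at h
  obtain ⟨i, -, hi⟩ := h
  exact ⟨i, ((Nat.prime_dvd_prime_iff_eq hq (hQ i)).mp hi).symm⟩

lemma prime_dvd_tprod (hT : ∀ t ∈ T, t.Prime) {q : ℕ} (hq : q.Prime)
    (h : q ∣ ∏ t : Tset T, t.1) : q ∈ T := by
  rw [hq.prime.dvd_finsetProd_iff] at h
  obtain ⟨t, -, ht⟩ := h
  rw [(Nat.prime_dvd_prime_iff_eq hq (hT t.1 t.2)).mp ht]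
  exact t.2

/-- prime divisors of the total level -/
lemma prime_dvd_level (hQ : ∀ i, (Q i).Prime) (hT : ∀ t ∈ T, t.Prime) (hTM : ∀ t ∈ T, t ∣ M)
    {q : ℕ} (hq : q.Prime)
    (h : q ∣ M * (∏ i, Q i) * ((∏ i, Q i) * ∏ t : Tset T, t.1)) : q ∣ M ∨ ∃ i, Q i = q := by
  rcases hq.dvd_mul.mp h with h | h
  · rcases hq.dvd_mul.mp h with h | h
    · exact Or.inl h
    · exact Or.inr (prime_dvd_prod hQ hq h)
  · rcases hq.dvd_mul.mp h with h | h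
    · exact Or.inr (prime_dvd_prod hQ hq h)
    · exact Or.inl (hTM _ (prime_dvd_tprod hT hq h))

lemma not_sq_dvd_level (hM : Squarefree M) (hQ : ∀ i, (Q i).Prime) (hT : ∀ t ∈ T, t.Prime)
    {q : ℕ} (hq : q.Prime) (hqQ : ∀ i, Q i ≠ q) (hqT : q ∉ T) :
    ¬ q ^ 2 ∣ M * (∏ i, Q i) * ((∏ i, Q i) * ∏ t : Tset T, t.1) := by
  have h1 : ¬ q ∣ ∏ i, Q i := fun h => by
    obtain ⟨i, hi⟩ := prime_dvd_prod hQ hq h
    exact hqQ i hi
  have h2 : ¬ q ∣ ∏ t : Tset T, t.1 := fun h => hqT (prime_dvd_tprod hT hq h)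
  have c1 : Nat.Coprime (q ^ 2) (∏ i, Q i) :=
    Nat.Coprime.pow_left 2 ((Nat.Prime.coprime_iff_not_dvd hq).mpr h1)
  have c2 : Nat.Coprime (q ^ 2) (∏ t : Tset T, t.1) :=
    Nat.Coprime.pow_left 2 ((Nat.Prime.coprime_iff_not_dvd hq).mpr h2)
  intro h
  have h3 := (Nat.Coprime.mul_right c1 c2).dvd_of_dvd_mul_right h
  have h4 := c1.dvd_of_dvd_mul_right h3
  rw [pow_two] at h4
  exact hq.not_isUnit (hM q h4)

/-- the set of bad primes of a level -/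
def Sset (S₀ : Finset ℕ) {r : ℕ} (Q : Fin r → ℕ) : Finset ℕ := S₀ ∪ Finset.univ.image Q

lemma mem_Sset {q : ℕ} : q ∈ Sset S₀ Q ↔ q ∈ S₀ ∨ ∃ i, Q i = q := by
  simp [Sset]

lemma adm_of {L : ℕ} (hS₀ : ∀ q : ℕ, q.Prime → q ∣ M → q ∈ S₀)
    (hL : ∀ q : ℕ, q.Prime → q ∣ L → q ∣ M ∨ ∃ i, Q i = q) : Adm (↑(Sset S₀ Q) : Set ℕ) L := by
  intro q hq hqL
  rw [Finset.mem_coe, mem_Sset]
  exact (hL q hq hqL).imp (hS₀ q hq) id

end Arith

section Noneis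

variable {W : WeierstrassCurve ℤ} (hΔ : W.Δ ≠ 0) {p : ℕ} [hp : Fact p.Prime]
  {O : Type} [CommRing O] [IsLocalRing O] [Algebra (ZMod p) (ResidueField O)]

include hΔ in
/-- the auxiliary prime -/
theorem exists_aux (h5 : 5 ≤ p) (hTv : H45.HasTv (resZ W hΔ p).ρ) {m : ℕ} (hm : m ≠ 0)
    (S : Finset ℕ) : ∃ i₀ : Pr (↑S : Set ℕ), (m : ℤ) ∣ (i₀.1 : ℤ) - 1 ∧
      thetaW W (↑S : Set ℕ) O (MvPolynomial.X i₀) ≠ 1 + (i₀.1 : ResidueField O) := by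
  obtain ⟨ℓ, h1, h2, -, -, h5, h6, h7, h8⟩ := H45.exists_noneisenstein W hΔ p h5 hTv hm S
  refine ⟨⟨ℓ, h1, by exact_mod_cast h2⟩, ?_, fun h => h8 ?_⟩
  · exact (Nat.modEq_iff_dvd.mp h5.symm)
  · rw [thetaW_X] at h
    apply (algebraMap (ZMod p) (ResidueField O)).injective
    rw [map_intCast, map_add, map_natCast, map_one, add_comm]
    exact h

end Noneis

end Fermat.Agent.H59
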