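import Fermat.Agent.H59LL5
import Fermat.Agent.H68TwGlue
import Fermat.Agent.H68TwLevel
import Fermat.Agent.H37NoNew
import Fermat.Agent.H70Lev11

/-!
# The inner statement: Galois side + Hecke side at every level
-/

set_option autoImplicit false
set_option linter.style.haveILetI false
set_option linter.unusedSectionVars false

noncomputable section

open Polynomial IsLocalRing GaloisRep CuspForm
open Fermat.Agent.H87.Glue Fermat.Agent.H37.Rank Fermat.Agent.H70.Coh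
open Fermat.Agent.H53 (GQ M2 MCont toMat mapMat FlatType levelSet mem_levelSet GalLevel PlaceData)

namespace Fermat.Agent.H59

lemma squarefree_prod_primes {ι : Type} [Fintype ι] {Q : ι → ℕ} (hQ : ∀ i, (Q i).Prime)
    (hinj : Function.Injective Q) : Squarefree (∏ i, Q i) := by
  refine Finset.squarefree_prod_of_pairwise_isCoprime ?_ fun i _ => (hQ i).prime.squarefree
  intro i _ j _ hij
  exact Nat.coprime_iff_isRelPrime.mp ((Nat.coprime_primes (hQ i) (hQ j)).mpr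
    fun h => hij (hinj h))

lemma not_dvd_prod_primes {ι : Type} [Fintype ι] {Q : ι → ℕ} (hQ : ∀ i, (Q i).Prime) {q : ℕ}
    (hq : q.Prime) (h : ∀ i, Q i ≠ q) : ¬ q ∣ ∏ i, Q i := by
  intro h1
  rw [hq.prime.dvd_finsetProd_iff] at h1
  obtain ⟨i, -, hi⟩ := h1
  exact h i ((Nat.prime_dvd_prime_iff_eq hq (hQ i)).mp hi).symm

/-- the ranks only depend on the level up to equality -/
lemma finrank_loc_congr {O : Type} [CommRing O] {S : Set ℕ} (e : MvPolynomial (Pr S) O) {L L' : ℕ}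
    (h : L = L') (hL : Adm S L) (hL' : Adm S L') :
    Module.finrank O (Loc (TT O hL) (TT_comm hL) e) =
      Module.finrank O (Loc (TT O hL') (TT_comm hL') e) := by
  subst h
  rfl

/-- good levels -/
lemma good_of_five {p : ℕ} [hp : Fact p.Prime] (h5 : 5 ≤ p) {O : Type} [CommRing O] [IsLocalRing O]
    [CharP (ResidueField O) p] (M : ℕ) : H70.Coh.Good M O := by
  have key : ∀ m : ℕ, 0 < m → m < p → IsUnit (m : O) := by
    intro m h0 hm
    by_contra hcon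
    have h1 : (m : O) ∈ maximalIdeal O := hcon
    rw [← residue_eq_zero_iff, map_natCast, CharP.cast_eq_zero_iff (ResidueField O) p] at h1
    have := Nat.le_of_dvd h0 h1
    omega
  exact H70.Coh.good_of_six M (by exact_mod_cast key 2 (by norm_num) (by omega))
    (by exact_mod_cast key 3 (by norm_num) (by omega))

/-- a root of unity of order `p` -/
lemma exists_zeta {p a : ℕ} [hp : Fact p.Prime] (ha : 1 ≤ a) {O : Type} [CommRing O] {ζ : O}
    (hζ : IsPrimitiveRoot ζ (p ^ a)) : ∃ z : Oˣ, z ^ p = 1 ∧ z ≠ 1 := by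
  obtain ⟨b, rfl⟩ := Nat.exists_eq_add_of_le' ha
  have h1 : IsPrimitiveRoot (ζ ^ p ^ b) p :=
    hζ.pow (pow_pos hp.out.pos _) (by rw [pow_succ])
  have h2 : (ζ ^ p ^ b) ^ p = 1 := h1.pow_eq_one
  refine ⟨Units.ofPowEqOne _ p h2 hp.out.ne_zero, ?_, fun h => ?_⟩
  · apply Units.ext
    rw [Units.val_pow_eq_pow_val, Units.val_ofPowEqOne, h2, Units.val_one]
  · have h3 := congrArg Units.val h
    rw [Units.val_ofPowEqOne, Units.val_one] at h3
    exact h1.ne_one hp.out.one_lt h3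

lemma not_dvd_div_pow {p q : ℕ} [hp : Fact p.Prime] (hq : 2 ≤ q) :
    ¬ p ∣ (q - 1) / p ^ padicValNat p (q - 1) := by
  rw [← Nat.factorization_def _ hp.out]
  exact Nat.not_dvd_ordCompl hp.out (by omega)

lemma padicValNat_pos {p q : ℕ} [hp : Fact p.Prime] (hq : 2 ≤ q) (h : p ∣ q - 1) :
    0 < padicValNat p (q - 1) :=
  Nat.pos_of_ne_zero (dvd_iff_padicValNat_ne_zero (by omega) |>.mp h)

lemma primitive_pow {p a c : ℕ} [hp : Fact p.Prime] {O : Type} [CommRing O] {ζ : O}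
    (hζ : IsPrimitiveRoot ζ (p ^ a)) (h : c ≤ a) : IsPrimitiveRoot (ζ ^ p ^ (a - c)) (p ^ c) :=
  hζ.pow (pow_pos hp.out.pos _) (by rw [← pow_add]; congr 1; omega)

section Main

variable {W : WeierstrassCurve ℤ} {hΔ : W.Δ ≠ 0} {p : ℕ} [hp : Fact p.Prime] {A T : Finset ℕ}

theorem inner (h5 : 5 ≤ p) (hTv : H45.HasTv (resZ W hΔ p).ρ) (h29 : H96.StatementS29)
    (h32 : H30.StatementS32) (h34 : H30.StatementS34) (G : H4.GeomInputs p)
    {M : ℕ} (hM : Squarefree M) (hpM : ¬ p ∣ M) (hmod : W.IsResiduallyModularOfLevel p M)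
    (H : ResHyp W hΔ p A T) (hAT : ∀ q : ℕ, q.Prime → (q ∣ M ↔ q ∈ A ∨ q ∈ T)) (t₀ : Tset T)
    (hnot : ¬ W.IsResiduallyModularOfLevel p (M / t₀.1)) (S₀ : Finset ℕ)
    (hpS₀ : p ∈ S₀) (hMS₀ : ∀ q : ℕ, q.Prime → q ∣ M → q ∈ S₀)
    (hWS₀ : ∀ q : ℕ, q.Prime → q ∉ S₀ → W.IsGoodPrimeFor q) : Inner W hΔ p A T S₀ t₀ := by
  intro O _ _ _ _ _ _ _ _ ϖ a ζ hO b pl u hu hφ k
  classical
  have hp2 : p ≠ 2 := by omega
  have h2k : (2 : ResidueField O) ≠ 0 := by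
    intro h
    have h1 : ((2 : ℕ) : ResidueField O) = 0 := by exact_mod_cast h
    rw [CharP.cast_eq_zero_iff (ResidueField O) p] at h1
    have := Nat.le_of_dvd (by norm_num) h1
    omega
  have hTvk : H45.HasTv ((resZ W hΔ p).baseChange (ResidueField O)).ρ :=
    H45.hasTv_baseChange _ hTv _
  have hirr : ((resZ W hΔ p).baseChange (ResidueField O)).IsIrreducible :=
    H45.isIrreducible_of_hasTv _ h2k hTvk
  haveI : NeZero M := ⟨hM.ne_zero⟩
  have hTM : ∀ t ∈ T, t ∣ M := fun t ht => (hAT t (H.T_prime t ht)).mpr (Or.inr ht)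
  have hTA : ∀ t ∈ T, t ∉ A := fun t ht h => H.A_ram t h (H.T_unr t ht)
  have hTp : ∀ t ∈ T, t ≠ p := fun t ht h => hpM (h ▸ hTM t ht)
  have ht₀ : (t₀.1).Prime := H.T_prime _ t₀.2
  have hMt : M / t₀.1 * t₀.1 = M := Nat.div_mul_cancel (hTM _ t₀.2)
  haveI : NeZero (M / t₀.1) := ⟨fun h => NeZero.ne M (by rw [← hMt, h, zero_mul])⟩
  haveI : NeZero t₀.1 := ⟨ht₀.ne_zero⟩
  have ht₀M : ¬ t₀.1 ∣ M / t₀.1 := fun h => by
    have h2 : t₀.1 * t₀.1 ∣ M := by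
      rw [← hMt]
      exact Nat.mul_dvd_mul_right h _
    exact ht₀.not_isUnit (hM _ h2)
  refine ⟨2 ^ (3 * Nat.card (Tset T) + k) * Module.finrank O (HH O M), fun n E => ?_⟩
  -- the numbers
  have hQM : ∀ i, ¬ E.qv i ∣ M := fun i h => E.not_mem_S i (hMS₀ _ (E.prime i) h)
  set P : ℕ := ∏ i, E.qv i with hP
  set T1 : ℕ := ∏ t : Tset T, t.1 with hT1
  set S : Finset ℕ := Sset S₀ E.qv with hSdef
  have hM₀q : M / t₀.1 * P * t₀.1 = M * P := by
    conv_rhs => rw [← hMt]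
    ring
  have hP0 : P ≠ 0 := Finset.prod_ne_zero_iff.mpr fun i _ => (E.prime i).ne_zero
  have hT0 : T1 ≠ 0 := Finset.prod_ne_zero_iff.mpr fun t _ => (H.T_prime _ t.2).ne_zero
  haveI : NeZero (M / t₀.1 * P) := ⟨mul_ne_zero (NeZero.ne _) hP0⟩
  haveI : NeZero (M * P) := ⟨mul_ne_zero (NeZero.ne _) hP0⟩
  haveI hL0 : NeZero (M / t₀.1 * P * t₀.1 * (P * T1)) :=
    ⟨mul_ne_zero (mul_ne_zero (NeZero.ne _) ht₀.ne_zero) (mul_ne_zero hP0 hT0)⟩
  have hLeq : M / t₀.1 * P * t₀.1 * (P * T1) = M * P * (P * T1) := by rw [hM₀q]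
  have hprL : ∀ q : ℕ, q.Prime → q ∣ M / t₀.1 * P * t₀.1 * (P * T1) →
      q ∣ M ∨ ∃ i, E.qv i = q := by
    intro q hq h
    rw [hLeq] at h
    exact prime_dvd_level E.prime H.T_prime hTM hq h
  have hLS : Adm (↑S : Set ℕ) (M / t₀.1 * P * t₀.1 * (P * T1)) := adm_of hMS₀ hprL
  have hSW : ∀ ℓ : ℕ, ℓ.Prime → ℓ ∉ S → W.IsGoodPrimeFor ℓ := fun ℓ hℓ hℓS =>
    hWS₀ ℓ hℓ fun h => hℓS (mem_Sset.mpr (Or.inl h))
  have hpS : p ∈ S := mem_Sset.mpr (Or.inl hpS₀)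
  have hSWp : ∀ ℓ : ℕ, ℓ.Prime → ℓ ∉ (↑S : Set ℕ) → W.IsGoodPrimeFor ℓ ∧ ℓ ≠ p :=
    fun ℓ hℓ hℓS => ⟨hSW ℓ hℓ (by exact_mod_cast hℓS), fun h => hℓS (by rw [h]; exact hpS)⟩
  have hML : M ∣ M / t₀.1 * P * t₀.1 * (P * T1) := by
    rw [hLeq, mul_assoc]
    exact Dvd.intro _ rfl
  have hpL : ¬ p ∣ M / t₀.1 * P * t₀.1 * (P * T1) := fun h => by
    rcases hprL p hp.out h with h | ⟨i, hi⟩
    · exact hpM h
    · exact E.ne_p i hi
  obtain ⟨χ, hχ⟩ := exists_kchar (O := O) hmod hML hLS hSWp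
  obtain ⟨Hd, π, b₂, hH, hπ, hb₂, -⟩ := exists_hecke hΔ h32 h34 hp2 hO.mem S hpS hLS hSW hpL hirr
    χ hχ (levelSet p A (fun t : Tset T => t.1) E.qv) A
    (fun q hq hqS => by
      rw [mem_levelSet] at hqS
      push Not at hqS
      refine ⟨fun h => ?_, hqS.1⟩
      rcases hprL q hq h with h | ⟨i, hi⟩
      · rcases (hAT q hq).mp h with h | h
        · exact hqS.2.1 h
        · exact hqS.2.2.1 ⟨q, h⟩ rfl
      · exact hqS.2.2.2 i hi)
    (fun q hqA hq _ => by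
      refine ⟨((hAT q hq).mpr (Or.inl hqA)).trans hML, ?_⟩
      rw [hLeq]
      exact not_sq_dvd_level hM E.prime H.T_prime hq (fun i hi => E.not_mem_A i (hi ▸ hqA))
        (fun h => hTA q h hqA))
    E.D E.b₁
  -- the auxiliary prime and the residual eigensystem
  obtain ⟨i₀, hi₀1, hi₀⟩ := exists_aux (O := O) hΔ h5 hTv
    (m := M / t₀.1 * P * t₀.1 * (P * T1)) (NeZero.ne _) S
  have hLS' : ∀ q : ℕ, q.Prime → q ∣ M / t₀.1 * P * t₀.1 * (P * T1) → q ∈ (↑S : Set ℕ) := hLS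
  have hχT : ∀ i : Pr (↑S : Set ℕ), χ (H30.TIdx _ (↑S : Set ℕ) hLS' i) =
      ((W.apOfModel i.1 : ℤ) : ResidueField O) := fun i => by
    have h1 := hχ i
    rw [evHA_X] at h1
    exact h1
  have hθ : H30.thetaPoly _ (↑S : Set ℕ) hLS' O χ = thetaW W (↑S : Set ℕ) O := by
    refine MvPolynomial.ringHom_ext (fun x => ?_) fun i => ?_
    · rw [H30.thetaPoly_C, thetaW_C]
    · rw [H30.thetaPoly_X, thetaW_X, hχT]
  obtain ⟨ζp, hζp1, hζp2⟩ := exists_zeta hO.one_le hO.prim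
  -- arithmetic of the levels
  have hT1M : T1 ∣ M := by
    rw [hT1, Finset.prod_coe_sort T (fun t => t)]
    exact Finset.prod_primes_dvd M (fun t ht => (H.T_prime t ht).prime) hTM
  have hPsq : Squarefree P := squarefree_prod_primes E.prime E.inj
  have hcop : Nat.Coprime M P := by
    refine Nat.Coprime.symm (Nat.Coprime.prod_left fun i _ => ?_)
    exact (Nat.Prime.coprime_iff_not_dvd (E.prime i)).mpr (hQM i)
  have hMPsq : Squarefree (M * P) := (Nat.squarefree_mul hcop).mpr ⟨hM, hPsq⟩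
  have hN1sq : Squarefree (P * T1) := by
    rw [mul_comm]
    exact hMPsq.squarefree_of_dvd (Nat.mul_dvd_mul_right hT1M P)
  have hex : ∀ q : ℕ, q.Prime → ¬ q * q ∣ M / t₀.1 * P * t₀.1 := fun q hq h => by
    rw [hM₀q] at h
    exact hq.not_isUnit (hMPsq q h)
  have hN1 : P * T1 ∣ M / t₀.1 * P * t₀.1 := by
    rw [hM₀q, mul_comm P T1]
    exact Nat.mul_dvd_mul_right hT1M P
  have hSM : Adm (↑S : Set ℕ) (M / t₀.1 * P * t₀.1) := hLS.of_dvd (Dvd.intro _ rfl)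
  have ht₀M₀ : ¬ t₀.1 ∣ M / t₀.1 * P := fun h => by
    rcases ht₀.dvd_mul.mp h with h | h
    · exact ht₀M h
    · exact not_dvd_prod_primes E.prime ht₀ (fun i hi => E.ne_qT i t₀ hi) h
  refine H68.Tw.nonempty_twLevel E (Z := Zset O p T) (t₀ := t₀) ?_
  refine H70.Mod.exists_twModPart (p := p) hp2 hLS' π hO.unif E.e E.le_e E.c E.c_mem
    E.one_add_c_pow E.qv E.prime E.inj (fun j => ?_) (fun t : Tset T => t.1)
    (fun t => H.T_prime t.1 t.2) Subtype.val_injective (fun t => H.T_dvd t.1 t.2)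
    (fun j t => E.ne_qT j t) ζp hζp1 hζp2 (M₀ := M / t₀.1 * P) (q₀ := t₀.1) (N1 := P * T1)
    (N2 := P) ht₀ ht₀M₀ (Dvd.intro_left _ rfl)
    (fun j => Finset.dvd_prod_of_mem _ (Finset.mem_univ j)) hN1 (Dvd.intro _ rfl)
    (fun t => (Finset.dvd_prod_of_mem (fun t : Tset T => t.1) (Finset.mem_univ t)).trans
      (Dvd.intro_left _ rfl)) hN1sq (fun q hq _ => hex q hq) rfl hSM
    (fun M' _ => good_of_five h5 M') i₀ (by exact_mod_cast hi₀1) ?_
    (fun e he h₁ h₀ => ?_) ?_ ?_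
  · obtain ⟨m, hm, -⟩ := E.e_spec j
    exact ⟨m, hm⟩
  · rw [thetaW_X] at hi₀
    rw [hχT]
    exact hi₀
  · -- the ranks
    rw [hθ] at he
    have hMP : Adm (↑S : Set ℕ) (M * P) := by
      rw [← hM₀q]
      exact hSM
    have hatt : H37.NN.IsAtt S (thetaW W (↑S : Set ℕ) O)
        ((resZ W hΔ p).baseChange (ResidueField O)) := by
      intro ℓ hℓ hℓS B hB φ hφ
      obtain ⟨g1, g2⟩ := hSWp ℓ hℓ hℓS
      obtain ⟨g3, g4⟩ := trace_det_baseChange W hΔ p (k := ResidueField O) hℓ g2 g1 hB hφ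
      rw [H86.charpoly_eq_of_finrank_two ((resZ W hΔ p).baseChange (ResidueField O)).finrank_eq,
        g3, g4, thetaW_X]
    have hdist : ∀ i, H37.NN.FrobDist ((resZ W hΔ p).baseChange (ResidueField O)) (E.qv i) :=
      fun i => by
        obtain ⟨-, α, β, hαβ, h⟩ := E.frob i (E.plQ i).P (E.plQ i).lies (E.plQ i).φ (E.plQ i).frob
        exact ⟨(E.plQ i).P, (E.plQ i).lies, (E.plQ i).φ, (E.plQ i).frob, α, β, hαβ, h⟩
    refine ⟨?_, ?_, ?_⟩
    · obtain ⟨χ', hχ'⟩ := exists_kchar (O := O) hmod (L := M / t₀.1 * P * t₀.1)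
        (by rw [hM₀q]; exact Dvd.intro _ rfl) h₁ hSWp
      exact finrank_loc_pos h₁ (good_of_five h5 _) (thetaW_C W _) (he _ h₁ (Dvd.intro _ rfl)) i₀
        hi₀ χ' (fun i => by rw [hχ', thetaW_X])
    · rw [finrank_loc_congr e hM₀q h₁ hMP]
      exact H37.NN.finrank_le_pow_TW' hp2 hO.mem hpS (thetaW_C W _) _ hirr hatt E.qv E.prime
        hQM E.inj E.p_dvd hdist hMP (he _ hMP (by rw [hLeq]; exact Dvd.intro _ rfl))
    · refine H37.NN.finrank_eq_zero_TW hp2 hO.mem hpS (thetaW_C W _) _ hirr hatt E.qv E.prime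
        (fun i h => hQM i (h.trans (Nat.div_dvd_of_dvd (hTM _ t₀.2)))) E.inj E.p_dvd hdist
        h₀ (he _ h₀ ((Dvd.intro _ rfl : M / t₀.1 * P ∣ M / t₀.1 * P * t₀.1).mul_right _)) ?_
      refine finrank_loc_eq_zero hΔ h29 _ (good_of_five h5 _) hnot (thetaW_X W _)
        (he _ _ (((Dvd.intro _ rfl : M / t₀.1 ∣ M / t₀.1 * P).mul_right _).mul_right _)) i₀ ?_ hi₀
      refine dvd_trans ?_ hi₀1
      exact Int.natCast_dvd_natCast.mpr ⟨P * t₀.1 * (P * T1), by ring⟩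
  · intro O' _ _ _ _ _ _ _ _ _ hinj lam η x hη hT hx hlam
    exact H68.Tw.hA E hpS hLS' π hπ hH b₂ hb₂ hp2 hO.mem G hN1sq (Nat.pos_of_ne_zero
      (mul_ne_zero (NeZero.ne _) ht₀.ne_zero)) (fun r hr _ => hex r hr) hN1 hSM
      (fun j => (Finset.dvd_prod_of_mem _ (Finset.mem_univ j)).trans (Dvd.intro _ rfl))
      (fun t => H.T_prime t.1 t.2)
      (fun t => (H45.isUnramifiedAt_baseChange_iff _ _).mpr (H.T_unr t.1 t.2))
      (a := fun t => padicValNat p (t.1 - 1))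
      (m := fun t => (t.1 - 1) / p ^ padicValNat p (t.1 - 1))
      (fun t => (Nat.mul_div_cancel' pow_padicValNat_dvd).symm)
      (fun t => not_dvd_div_pow (H.T_prime t.1 t.2).two_le)
      (fun t => padicValNat_pos (H.T_prime t.1 t.2).two_le (H.T_dvd t.1 t.2))
      (ζ := fun t => ζ ^ p ^ (a - padicValNat p (t.1 - 1)))
      (fun t => primitive_pow hO.prim (hO.le t.1 t.2)) hinj lam η x hη hT hx hlam
  · intro O' _ _ _ _ _ _ _ _ _ hinj lam η x hη hx hlam h1 h2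
    exact H68.Tw.hA3 E hpS hLS' π hπ hH b₂ hb₂ hp2 hO.mem G (t₀ := t₀) ht₀ (hTp _ t₀.2) hPsq
      (fun r hr _ h => hex r hr (h.mul_right _)) (Dvd.intro_left _ rfl) hSM ht₀M₀ lam η x hη hx
      hlam h1 h2

end Main

end Fermat.Agent.H59
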