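import Fermat.Agent.H59LL2

/-!
# From the theorem on levels (LL) and Mazur's principle to level lowering
-/

set_option autoImplicit false
set_option linter.style.haveILetI false
set_option linter.unusedSectionVars false

noncomputable section

open Polynomial IsLocalRing GaloisRep
open Fermat.Agent.H87.Glue

namespace Fermat.Agent.H59

local notation "Qb" => AlgebraicClosure ℚ
local notation "Gq" => (AlgebraicClosure ℚ ≃ₐ[ℚ] AlgebraicClosure ℚ)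

variable {W : WeierstrassCurve ℤ} (hΔ : W.Δ ≠ 0) {p : ℕ} [hp : Fact p.Prime]

/-- Mazur's principle for the curve `W` -/
def MazurAt (W : WeierstrassCurve ℤ) (hΔ : W.Δ ≠ 0) (p : ℕ) [Fact p.Prime] : Prop :=
  ∀ q M : ℕ, q.Prime → q ≠ p → 0 < M → ¬ q ∣ M → (resZ W hΔ p).IsUnramifiedAt q →
    W.IsResiduallyModularOfLevel p (M * q) → W.IsResiduallyModularOfLevel p M ∨
      (p ∣ q - 1 ∧ ∃ u : ℤ, u ^ 2 = 1 ∧ ∀ P : ValuationSubring Qb, P.LiesOverPrime q →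
        ∀ φ : Gq, P.IsFrobeniusAt φ q → (resZ W hΔ p).ρ φ = (u : ZMod p) • 1)

/-- the local hypotheses on the curve `W` at `p`: flatness and unramifiedness given by residual
modularity of level prime to `p`, unipotency of the inertia groups -/
structure LocalAt (W : WeierstrassCurve ℤ) (hΔ : W.Δ ≠ 0) (p : ℕ) [Fact p.Prime] : Prop where
  unip : ∀ q : ℕ, q.Prime → q ≠ p → ∀ P : ValuationSubring Qb, P.LiesOverPrime q →
    ∀ σ ∈ P.inertiaSubgroupIn ℚ, LinearMap.charpoly ((resZ W hΔ p).ρ σ) = (X - 1) ^ 2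
  flat : ∀ M : ℕ, 0 < M → ¬ p ∣ M → W.IsResiduallyModularOfLevel p M →
    ∀ (k : Type) [Field k] [Finite k] [Algebra (ZMod p) k],
      (GaloisRepAdic.ofResidualGaloisRep ((resZ W hΔ p).baseChange k)).IsFlatAt p
  unr : ∀ M : ℕ, 0 < M → W.IsResiduallyModularOfLevel p M → ∀ q : ℕ, q.Prime → q ≠ p →
    ¬ q ∣ M → (resZ W hΔ p).IsUnramifiedAt q

/-- the theorem LL for the curve `W` -/
def LLAt (W : WeierstrassCurve ℤ) (hΔ : W.Δ ≠ 0) (p : ℕ) [Fact p.Prime] : Prop :=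
  ∀ (M : ℕ) (A T : Finset ℕ) (_ : Squarefree M) (_ : ¬ p ∣ M)
    (_ : W.IsResiduallyModularOfLevel p M) (_ : ResHyp W hΔ p A T)
    (_ : ∀ q : ℕ, q.Prime → (q ∣ M ↔ q ∈ A ∨ q ∈ T)) (t₀ : ℕ) (_ : t₀ ∈ T)
    (_ : ¬ W.IsResiduallyModularOfLevel p (M / t₀)), False

/-- **Level lowering** from Mazur's principle and LL. -/
theorem exists_level (hmaz : MazurAt W hΔ p) (hloc : LocalAt W hΔ p) (hLL : LLAt W hΔ p)
    {N : ℕ} (hN : Squarefree N) (hpN : ¬ p ∣ N) (hmod : W.IsResiduallyModularOfLevel p N)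
    {q : ℕ} (hq : q.Prime) (hqp : q ≠ p) (hunr : (resZ W hΔ p).IsUnramifiedAt q) :
    ∃ M : ℕ, M ∣ N ∧ ¬ q ∣ M ∧ W.IsResiduallyModularOfLevel p M := by
  classical
  -- minimal level
  have hex : ∃ M : ℕ, M ∣ N ∧ W.IsResiduallyModularOfLevel p M := ⟨N, dvd_rfl, hmod⟩
  set M := Nat.find hex with hMdef
  obtain ⟨hMN, hMmod⟩ := Nat.find_spec hex
  rw [← hMdef] at hMN hMmod
  have hmin : ∀ M' : ℕ, M' ∣ N → M' < M → ¬ W.IsResiduallyModularOfLevel p M' :=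
    fun M' h1 h2 h3 => Nat.find_min hex h2 ⟨h1, h3⟩
  have hN0 : N ≠ 0 := hN.ne_zero
  have hM0 : M ≠ 0 := fun h => hN0 (by rw [h] at hMN; exact Nat.eq_zero_of_zero_dvd hMN)
  have hMsq : Squarefree M := hN.squarefree_of_dvd hMN
  have hpM : ¬ p ∣ M := fun h => hpN (h.trans hMN)
  refine ⟨M, hMN, fun hqM => ?_, hMmod⟩
  let A : Finset ℕ := M.primeFactors.filter fun ℓ => ¬ (resZ W hΔ p).IsUnramifiedAt ℓ
  let T : Finset ℕ := M.primeFactors.filter fun ℓ => (resZ W hΔ p).IsUnramifiedAt ℓ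
  have hA : ∀ ℓ, ℓ ∈ A ↔ (ℓ.Prime ∧ ℓ ∣ M) ∧ ¬ (resZ W hΔ p).IsUnramifiedAt ℓ := fun ℓ => by
    rw [Finset.mem_filter, Nat.mem_primeFactors]
    tauto
  have hT : ∀ ℓ, ℓ ∈ T ↔ (ℓ.Prime ∧ ℓ ∣ M) ∧ (resZ W hΔ p).IsUnramifiedAt ℓ := fun ℓ => by
    rw [Finset.mem_filter, Nat.mem_primeFactors]
    tauto
  have hne : ∀ ℓ, ℓ ∣ M → ℓ ≠ p := fun ℓ h h1 => hpM (h1 ▸ h)
  have hdiv : ∀ ℓ, ℓ.Prime → ℓ ∣ M → ¬ ℓ ∣ M / ℓ ∧ M / ℓ * ℓ = M ∧ 0 < M / ℓ ∧ M / ℓ < M := by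
    intro ℓ hℓ hℓM
    have h1 : M / ℓ * ℓ = M := Nat.div_mul_cancel hℓM
    refine ⟨fun h => ?_, h1, Nat.div_pos (Nat.le_of_dvd (Nat.pos_of_ne_zero hM0) hℓM) hℓ.pos,
      Nat.div_lt_self (Nat.pos_of_ne_zero hM0) hℓ.one_lt⟩
    have h2 : ℓ * ℓ ∣ M := by
      rw [← h1]
      exact Nat.mul_dvd_mul_right h ℓ
    exact hℓ.not_isUnit (hMsq ℓ h2)
  -- Mazur's principle at all primes in `T`
  have hmazT : ∀ ℓ ∈ T, p ∣ ℓ - 1 ∧ ∃ u : ℤ, u ^ 2 = 1 ∧ ∀ P : ValuationSubring Qb,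
      P.LiesOverPrime ℓ → ∀ φ : Gq, P.IsFrobeniusAt φ ℓ →
        (resZ W hΔ p).ρ φ = (u : ZMod p) • 1 := by
    intro ℓ hℓT
    obtain ⟨⟨hℓ, hℓM⟩, hℓu⟩ := (hT ℓ).mp hℓT
    obtain ⟨h1, h2, h3, h4⟩ := hdiv ℓ hℓ hℓM
    rcases hmaz ℓ (M / ℓ) hℓ (hne ℓ hℓM) h3 h1 hℓu (by rw [h2]; exact hMmod) with h | h
    · exact absurd h (hmin _ ((Nat.div_dvd_of_dvd hℓM).trans hMN) h4)
    · exact h
  have hres : ResHyp W hΔ p A T :=
    { A_prime := fun ℓ h => ((hA ℓ).mp h).1.1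
      A_ne := fun ℓ h => hne ℓ ((hA ℓ).mp h).1.2
      A_ram := fun ℓ h => ((hA ℓ).mp h).2
      A_unip := fun ℓ h => hloc.unip ℓ ((hA ℓ).mp h).1.1 (hne ℓ ((hA ℓ).mp h).1.2)
      unr := fun ℓ hℓ hℓp hℓA => by
        by_cases h : ℓ ∣ M
        · by_contra hcon
          exact hℓA ((hA ℓ).mpr ⟨⟨hℓ, h⟩, hcon⟩)
        · exact hloc.unr M (Nat.pos_of_ne_zero hM0) hMmod ℓ hℓ hℓp h
      T_prime := fun ℓ h => ((hT ℓ).mp h).1.1
      T_dvd := fun ℓ h => (hmazT ℓ h).1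
      T_unr := fun ℓ h => ((hT ℓ).mp h).2
      T_scalar := fun ℓ h => (hmazT ℓ h).2
      flat := hloc.flat M (Nat.pos_of_ne_zero hM0) hpM hMmod }
  obtain ⟨-, -, h3, h4⟩ := hdiv q hq hqM
  refine hLL M A T hMsq hpM hMmod hres (fun ℓ hℓ => ?_) q ((hT q).mpr ⟨⟨hq, hqM⟩, hunr⟩)
    (hmin _ ((Nat.div_dvd_of_dvd hqM).trans hMN) h4)
  rw [hA, hT]
  by_cases h : (resZ W hΔ p).IsUnramifiedAt ℓ <;> simp [h, hℓ]

end Fermat.Agent.H59
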