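import Fermat.Agent.H59LL6
import Fermat.Agent.H59S43

/-!
# The theorem LL
-/

set_option autoImplicit false
set_option linter.style.haveILetI false
set_option linter.unusedSectionVars false

noncomputable section

open Polynomial IsLocalRing GaloisRep
open Fermat.Agent.H87.Glue

namespace Fermat.Agent.H59

variable {W : WeierstrassCurve ℤ} (hΔ : W.Δ ≠ 0) {p : ℕ} [hp : Fact p.Prime]

/-- **LL**: the Taylor-Wiles-Kisin argument for level lowering at primes `q ≡ 1 (mod p)` with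
scalar Frobenius. -/
theorem llAt (h5 : 5 ≤ p) (hTv : H45.HasTv (resZ W hΔ p).ρ) (GW : H56.GWIneq p)
    (F : ∀ (k : Type) [Field k] [Finite k] [Algebra (ZMod p) k], H56.StatementF (k := k) p)
    (h29 : H96.StatementS29) (h32 : H30.StatementS32) (h34 : H30.StatementS34)
    (G : H4.GeomInputs p) : LLAt W hΔ p := by
  intro M A T hM hpM hmod H hAT t₀ ht₀ hnot
  have hne : M * p * W.Δ.natAbs ≠ 0 :=
    mul_ne_zero (mul_ne_zero hM.ne_zero hp.out.ne_zero) (Int.natAbs_ne_zero.mpr hΔ)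
  refine no_levels h5 hTv GW F H (M * p * W.Δ.natAbs).primeFactors ⟨t₀, ht₀⟩
    (inner h5 hTv h29 h32 h34 G hM hpM hmod H hAT ⟨t₀, ht₀⟩ hnot _ ?_ ?_ ?_)
  · exact Nat.mem_primeFactors.mpr ⟨hp.out, (dvd_mul_left p M).mul_right _, hne⟩
  · intro q hq h
    exact Nat.mem_primeFactors.mpr ⟨hq, (h.mul_right p).mul_right _, hne⟩
  · intro q hq h hd
    exact h (Nat.mem_primeFactors.mpr ⟨hq, (Int.natCast_dvd.mp hd).mul_left _, hne⟩)

end Fermat.Agent.H59
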