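import Mathlib

/-!
# Unfolding of an orbit sum with cut-off functions (S47, T2, helper60)

`G` countable group acting on a measure space `X` by measure preserving maps, `S` a `G`-set,
`f : S → X → E` with `f (g • s) (g • x) = f s x`.  If `χ` is a cut-off for `G` and `χ₀` a cut-off
for the stabiliser of `s₀`, then `∑ s in G s₀, ∫ χ x f s x = ∫ χ₀ x f s₀ x`.
-/

set_option autoImplicit false

open MeasureTheory
open scoped ENNReal

namespace Fermat.Agent.H60T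

section Unfold

variable {G X S : Type*} [Group G] [MulAction G S]

/-- The map `γ ↦ γ⁻¹ • s₀` to the orbit. -/
def toOrb (s₀ : S) (γ : G) : MulAction.orbit G s₀ := ⟨γ⁻¹ • s₀, MulAction.mem_orbit s₀ γ⁻¹⟩

@[simp] theorem toOrb_val (s₀ : S) (γ : G) : (toOrb s₀ γ : S) = γ⁻¹ • s₀ := rfl

/-- The fibres of `γ ↦ γ⁻¹ • s₀` over the orbit are cosets of the stabiliser. -/
noncomputable def fibreEquiv (s₀ : S) (s : MulAction.orbit G s₀) (c : G) (hc : c⁻¹ • s₀ = (s : S)) :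
    MulAction.stabilizer G s₀ ≃ {γ : G // toOrb s₀ γ = s} where
  toFun δ := ⟨(δ : G) * c, by
    have h : (δ : G)⁻¹ • s₀ = s₀ := by
      rw [inv_smul_eq_iff]
      exact (MulAction.mem_stabilizer_iff.mp δ.2).symm
    apply Subtype.ext
    rw [toOrb_val, mul_inv_rev, mul_smul, h, hc]⟩
  invFun γ := ⟨γ.1 * c⁻¹, by
    have h : γ.1⁻¹ • s₀ = (s : S) := congrArg Subtype.val γ.2
    rw [MulAction.mem_stabilizer_iff, mul_smul, hc, ← h, smul_inv_smul]⟩
  left_inv δ := by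
    apply Subtype.ext
    show (δ : G) * c * c⁻¹ = δ
    rw [mul_assoc, mul_inv_cancel, mul_one]
  right_inv γ := by
    apply Subtype.ext
    show γ.1 * c⁻¹ * c = γ.1
    rw [mul_assoc, inv_mul_cancel, mul_one]

theorem exists_fibre (s₀ : S) (s : MulAction.orbit G s₀) : ∃ c : G, c⁻¹ • s₀ = (s : S) := by
  obtain ⟨g, hg⟩ := s.2
  exact ⟨g⁻¹, by rw [inv_inv]; exact hg⟩

variable [MulAction G X] [MeasurableSpace X] {μ : Measure X} [Countable G]

/-- Unfolding for non-negative functions. -/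
theorem lintegral_unfold (hG : ∀ g : G, MeasurePreserving (fun x : X => g • x) μ μ)
    {χ χ₀ : X → ℝ≥0∞} (hχm : Measurable χ) (hχ₀m : Measurable χ₀)
    (hχ : ∀ x, ∑' g : G, χ (g • x) = 1) (s₀ : S)
    (hχ₀ : ∀ x, ∑' g : MulAction.stabilizer G s₀, χ₀ ((g : G) • x) = 1)
    {f : S → X → ℝ≥0∞} (hfm : ∀ s, Measurable (f s))
    (hf : ∀ (g : G) s x, f (g • s) (g • x) = f s x) :
    (∑' γ : G, ∫⁻ x, χ x * (χ₀ (γ • x) * f (γ⁻¹ • s₀) x) ∂μ = ∫⁻ x, χ₀ x * f s₀ x ∂μ) ∧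
    ∑' s : MulAction.orbit G s₀, ∫⁻ x, χ x * f s x ∂μ = ∫⁻ x, χ₀ x * f s₀ x ∂μ := by
  have h1 : ∀ γ : G, ∫⁻ x, χ x * (χ₀ (γ • x) * f (γ⁻¹ • s₀) x) ∂μ =
      ∫⁻ x, χ (γ⁻¹ • x) * (χ₀ x * f s₀ x) ∂μ := by
    intro γ
    have e := (hG γ).lintegral_comp (f := fun x => χ (γ⁻¹ • x) * (χ₀ x * f s₀ x))
      ((hχm.comp (hG γ⁻¹).measurable).mul (hχ₀m.mul (hfm s₀)))
    rw [← e]
    refine lintegral_congr fun x => ?_
    have e2 : f (γ⁻¹ • s₀) x = f s₀ (γ • x) := by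
      rw [← hf γ (γ⁻¹ • s₀) x, smul_inv_smul]
    simp only [inv_smul_smul, e2]
  have h2 : ∑' γ : G, ∫⁻ x, χ x * (χ₀ (γ • x) * f (γ⁻¹ • s₀) x) ∂μ =
      ∫⁻ x, χ₀ x * f s₀ x ∂μ := by
    calc ∑' γ : G, ∫⁻ x, χ x * (χ₀ (γ • x) * f (γ⁻¹ • s₀) x) ∂μ
        = ∑' γ : G, ∫⁻ x, χ (γ⁻¹ • x) * (χ₀ x * f s₀ x) ∂μ := tsum_congr h1
      _ = ∫⁻ x, ∑' γ : G, χ (γ⁻¹ • x) * (χ₀ x * f s₀ x) ∂μ := by
          rw [lintegral_tsum]
          intro γ
          exact ((hχm.comp (hG γ⁻¹).measurable).mul (hχ₀m.mul (hfm s₀))).aemeasurable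
      _ = ∫⁻ x, χ₀ x * f s₀ x ∂μ := by
          refine lintegral_congr fun x => ?_
          have e3 : ∑' γ : G, χ (γ⁻¹ • x) = 1 :=
            ((Equiv.inv G).tsum_eq (fun γ : G => χ (γ • x))).trans (hχ x)
          rw [ENNReal.tsum_mul_right, e3, one_mul]
  have h3 : ∑' γ : G, ∫⁻ x, χ x * (χ₀ (γ • x) * f (γ⁻¹ • s₀) x) ∂μ =
      ∑' s : MulAction.orbit G s₀, ∫⁻ x, χ x * f s x ∂μ := by
    rw [← (Equiv.sigmaFiberEquiv (toOrb (G := G) s₀)).tsum_eq, ENNReal.tsum_sigma']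
    refine tsum_congr fun s => ?_
    obtain ⟨c, hc⟩ := exists_fibre s₀ s
    have e1 : ∀ γ : {γ : G // toOrb s₀ γ = s}, (γ.1⁻¹ • s₀ : S) = s :=
      fun γ => congrArg Subtype.val γ.2
    have e4 : ∀ γ : {γ : G // toOrb s₀ γ = s},
        ∫⁻ x, χ x * (χ₀ (γ.1 • x) * f (γ.1⁻¹ • s₀) x) ∂μ =
          ∫⁻ x, χ₀ (γ.1 • x) * (χ x * f s x) ∂μ := fun γ =>
      lintegral_congr fun x => by rw [e1 γ]; ring
    calc ∑' γ : {γ : G // toOrb s₀ γ = s},
          ∫⁻ x, χ x * (χ₀ (γ.1 • x) * f (γ.1⁻¹ • s₀) x) ∂μ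
        = ∑' γ : {γ : G // toOrb s₀ γ = s}, ∫⁻ x, χ₀ (γ.1 • x) * (χ x * f s x) ∂μ :=
          tsum_congr e4
      _ = ∫⁻ x, ∑' γ : {γ : G // toOrb s₀ γ = s}, χ₀ (γ.1 • x) * (χ x * f s x) ∂μ :=
          (lintegral_tsum fun γ : {γ : G // toOrb s₀ γ = s} =>
            ((hχ₀m.comp (hG γ.1).measurable).mul (hχm.mul (hfm s))).aemeasurable).symm
      _ = ∫⁻ x, χ x * f s x ∂μ := by
          refine lintegral_congr fun x => ?_
          rw [ENNReal.tsum_mul_right, ← (fibreEquiv s₀ s c hc).tsum_eq]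
          have e5 : ∑' δ : MulAction.stabilizer G s₀, χ₀ ((fibreEquiv s₀ s c hc δ).1 • x) = 1 := by
            rw [← hχ₀ (c • x)]
            refine tsum_congr fun δ => ?_
            simp only [fibreEquiv, Equiv.coe_fn_mk, mul_smul]
          rw [e5, one_mul]
  exact ⟨h2, by rw [← h3, h2]⟩

/-- Unfolding for integrable functions. -/
theorem hasSum_unfold (hG : ∀ g : G, MeasurePreserving (fun x : X => g • x) μ μ)
    {χ χ₀ : X → ℝ} (hχm : Measurable χ) (hχ₀m : Measurable χ₀)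
    (hχn : ∀ x, 0 ≤ χ x) (hχ₀n : ∀ x, 0 ≤ χ₀ x)
    (hχ : ∀ x, HasSum (fun g : G => χ (g • x)) 1) (s₀ : S)
    (hχ₀ : ∀ x, HasSum (fun g : MulAction.stabilizer G s₀ => χ₀ ((g : G) • x)) 1)
    {f : S → X → ℂ} (hfm : ∀ s, Measurable (f s))
    (hf : ∀ (g : G) s x, f (g • s) (g • x) = f s x)
    (hfin : Integrable (fun x => (χ₀ x : ℂ) * f s₀ x) μ) :
    HasSum (fun s : MulAction.orbit G s₀ => ∫ x, (χ x : ℂ) * f s x ∂μ)
      (∫ x, (χ₀ x : ℂ) * f s₀ x ∂μ) := by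
  classical
  set F : G → X → ℂ := fun γ x => (χ x : ℂ) * ((χ₀ (γ • x) : ℂ) * f (γ⁻¹ • s₀) x) with hF
  have hFm : ∀ γ, Measurable (F γ) := fun γ =>
    (Complex.measurable_ofReal.comp hχm).mul
      ((Complex.measurable_ofReal.comp (hχ₀m.comp (hG γ).measurable)).mul (hfm _))
  -- the total mass
  have hsum : ∑' γ : G, ∫⁻ x, ‖F γ x‖ₑ ∂μ < ∞ := by
    have h := (lintegral_unfold hG (χ := fun x => ENNReal.ofReal (χ x))
      (χ₀ := fun x => ENNReal.ofReal (χ₀ x)) hχm.ennreal_ofReal hχ₀m.ennreal_ofReal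
      (fun x => by
        rw [← ENNReal.ofReal_tsum_of_nonneg (fun g => hχn _) (hχ x).summable, (hχ x).tsum_eq,
          ENNReal.ofReal_one]) s₀
      (fun x => by
        rw [← ENNReal.ofReal_tsum_of_nonneg (fun g => hχ₀n _) (hχ₀ x).summable, (hχ₀ x).tsum_eq,
          ENNReal.ofReal_one]) (f := fun s x => ‖f s x‖ₑ) (fun s => (hfm s).enorm)
      (fun g s x => by rw [hf])).1
    have e1 : ∀ γ : G, ∫⁻ x, ‖F γ x‖ₑ ∂μ = ∫⁻ x, ENNReal.ofReal (χ x) *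
        (ENNReal.ofReal (χ₀ (γ • x)) * ‖f (γ⁻¹ • s₀) x‖ₑ) ∂μ := by
      intro γ
      refine lintegral_congr fun x => ?_
      rw [hF]
      simp only [enorm_mul]
      rw [← ofReal_norm (χ x : ℂ), ← ofReal_norm (χ₀ (γ • x) : ℂ),
        Complex.norm_of_nonneg (hχn x), Complex.norm_of_nonneg (hχ₀n _)]
    have e2 : ∫⁻ x, ENNReal.ofReal (χ₀ x) * ‖f s₀ x‖ₑ ∂μ = ∫⁻ x, ‖(χ₀ x : ℂ) * f s₀ x‖ₑ ∂μ := by
      refine lintegral_congr fun x => ?_
      rw [enorm_mul, ← ofReal_norm (χ₀ x : ℂ), Complex.norm_of_nonneg (hχ₀n _)]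
    rw [tsum_congr e1, h, e2]
    exact hfin.2
  have hFi : ∀ γ, Integrable (F γ) μ := fun γ =>
    ⟨(hFm γ).aestronglyMeasurable, lt_of_le_of_lt (ENNReal.le_tsum γ) hsum⟩
  have hnorm : Summable fun γ : G => ∫ x, ‖F γ x‖ ∂μ := by
    have h1 : (fun γ : G => ∫ x, ‖F γ x‖ ∂μ) = fun γ => (∫⁻ x, ‖F γ x‖ₑ ∂μ).toReal := by
      funext γ
      rw [integral_norm_eq_lintegral_enorm (hFm γ).aestronglyMeasurable]
    rw [h1]
    exact ENNReal.summable_toReal hsum.ne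
  -- evaluation over the whole group
  have hA : HasSum (fun γ : G => ∫ x, F γ x ∂μ) (∫ x, (χ₀ x : ℂ) * f s₀ x ∂μ) := by
    set F' : G → X → ℂ := fun γ x => (χ (γ⁻¹ • x) : ℂ) * ((χ₀ x : ℂ) * f s₀ x) with hF'
    have hcomp : ∀ γ x, F' γ (γ • x) = F γ x := by
      intro γ x
      have e2 : f (γ⁻¹ • s₀) x = f s₀ (γ • x) := by
        rw [← hf γ (γ⁻¹ • s₀) x, smul_inv_smul]
      simp only [hF', hF, inv_smul_smul, e2]
    have hemb : ∀ γ : G, MeasurableEmbedding (fun x : X => γ • x) := fun γ =>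
      (MeasurableEquiv.mk (MulAction.toPerm γ) (hG γ).measurable (hG γ⁻¹).measurable).measurableEmbedding
    have h1 : ∀ γ, ∫ x, F γ x ∂μ = ∫ x, F' γ x ∂μ := by
      intro γ
      rw [← (hG γ).integral_comp (hemb γ) (F' γ)]
      exact integral_congr_ae (Filter.Eventually.of_forall fun x => (hcomp γ x).symm)
    have h2 : ∀ γ, Integrable (F' γ) μ := by
      intro γ
      rw [← (hG γ).integrable_comp_emb (hemb γ)]
      exact (hFi γ).congr (Filter.Eventually.of_forall fun x => (hcomp γ x).symm)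
    have h3 : ∀ γ, ∫ x, ‖F' γ x‖ ∂μ = ∫ x, ‖F γ x‖ ∂μ := by
      intro γ
      rw [← (hG γ).integral_comp (hemb γ) (fun x => ‖F' γ x‖)]
      exact integral_congr_ae (Filter.Eventually.of_forall fun x => by simp only [hcomp γ x])
    have h4 := hasSum_integral_of_summable_integral_norm h2 (by simpa only [h3] using hnorm)
    have h5 : (fun x => ∑' γ : G, F' γ x) = fun x => (χ₀ x : ℂ) * f s₀ x := by
      funext x
      have e3 : HasSum (fun γ : G => (χ (γ⁻¹ • x) : ℂ)) 1 := by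
        have := (Equiv.inv G).hasSum_iff.mpr (hχ x)
        have h := Complex.hasSum_ofReal.mpr this
        rw [Complex.ofReal_one] at h
        exact h
      have e4 := (e3.mul_right ((χ₀ x : ℂ) * f s₀ x)).tsum_eq
      rw [one_mul] at e4
      exact e4
    simp only [h1]
    rw [h5] at h4
    exact h4
  -- evaluation over the fibres
  have hB : ∀ s : MulAction.orbit G s₀, HasSum
      (fun γ : {γ : G // toOrb s₀ γ = s} => ∫ x, F γ.1 x ∂μ) (∫ x, (χ x : ℂ) * f s x ∂μ) := by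
    intro s
    obtain ⟨c, hc⟩ := exists_fibre s₀ s
    have h4 := hasSum_integral_of_summable_integral_norm
      (F := fun (γ : {γ : G // toOrb s₀ γ = s}) x => F γ.1 x) (fun γ => hFi γ.1)
      (hnorm.comp_injective Subtype.val_injective)
    have h5 : (fun x => ∑' γ : {γ : G // toOrb s₀ γ = s}, F γ.1 x) =
        fun x => (χ x : ℂ) * f s x := by
      funext x
      have e1 : ∀ γ : {γ : G // toOrb s₀ γ = s},
          F γ.1 x = (χ₀ (γ.1 • x) : ℂ) * ((χ x : ℂ) * f s x) := by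
        intro γ
        have : (γ.1⁻¹ • s₀ : S) = s := congrArg Subtype.val γ.2
        simp only [hF, this]
        ring
      have e2 : HasSum (fun γ : {γ : G // toOrb s₀ γ = s} => (χ₀ (γ.1 • x) : ℂ)) 1 := by
        rw [← (fibreEquiv s₀ s c hc).hasSum_iff]
        have h := Complex.hasSum_ofReal.mpr (hχ₀ (c • x))
        rw [Complex.ofReal_one] at h
        convert h using 2 with δ
        simp only [Function.comp, fibreEquiv, Equiv.coe_fn_mk, mul_smul]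
      have e4 := (e2.mul_right ((χ x : ℂ) * f s x)).tsum_eq
      rw [one_mul] at e4
      rw [tsum_congr e1, e4]
    rw [h5] at h4
    exact h4
  have hC : HasSum (fun p : (s : MulAction.orbit G s₀) × {γ : G // toOrb s₀ γ = s} =>
      ∫ x, F p.2.1 x ∂μ) (∫ x, (χ₀ x : ℂ) * f s₀ x ∂μ) :=
    (Equiv.sigmaFiberEquiv (toOrb (G := G) s₀)).hasSum_iff.mpr hA
  exact hC.sigma hB

end Unfold

end Fermat.Agent.H60T
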