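import Fermat.Agent.H96TC
import Fermat.Agent.H47RCong
import Fermat.Agent.H60TUnf
import Fermat.Agent.H60TB
import Fermat.Agent.H31Hyp2

/-!
# Isotropic vectors in the theta integral (S47, T2c, helper60)

For a bounded function `F` on `H3`, invariant under the principal congruence subgroup `GamP m`
(`3 ≤ m`), with vanishing constant terms at all cusps, the isotropic vectors contribute zero to the
integral of `F` against a theta kernel with a `GamP m`-invariant test function.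
-/

set_option autoImplicit false

noncomputable section

open MeasureTheory Matrix
open scoped ComplexConjugate Real ENNReal

namespace Fermat.Agent.H60T

open S47T

/-! ### The action of `GamP m` on the index set -/

theorem hasSum_of_eq {ι E : Type*} [AddCommMonoid E] [TopologicalSpace E]
    {f g : ι → E} {a : E} (h : HasSum f a) (hfg : ∀ i, g i = f i) : HasSum g a := by
  rwa [show g = f from funext hfg]

theorem GamP_entries {m : ℕ} {g : GL (Fin 2) ℂ} (hg : g ∈ GamP m) :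
    ∀ i j, (g : Matrix (Fin 2) (Fin 2) ℂ) i j ∈ Eis := by
  intro i j
  obtain ⟨x, hx, h⟩ := hg.2 i j
  rw [h, Matrix.one_apply]
  refine Eis.add_mem ?_ (Eis.mul_mem (natCast_mem _ _) hx)
  split_ifs
  · exact Eis.one_mem
  · exact Eis.zero_mem

theorem GamP_le_SLO (m : ℕ) : GamP m ≤ H47.Red.SLO Eis := fun _ hg => ⟨GamP_entries hg, hg.1⟩

theorem PrG_eq_GamP (m : ℕ) : H47.Red.PrG Eis (m : Eis) = GamP m := by
  ext g
  constructor
  · rintro ⟨h1, h2⟩
    exact ⟨h1.2, by simpa using h2⟩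
  · rintro ⟨h1, h2⟩
    exact ⟨GamP_le_SLO m ⟨h1, h2⟩, by simpa using h2⟩

instance (m : ℕ) : Countable (GamP m) := by
  let f : GamP m → (Fin 2 → Fin 2 → Eis) := fun g i j =>
    ⟨((g : GL (Fin 2) ℂ) : Matrix (Fin 2) (Fin 2) ℂ) i j, GamP_entries g.2 i j⟩
  have hf : Function.Injective f := by
    intro g h e
    apply Subtype.ext
    apply Units.ext
    ext i j
    exact congrArg Subtype.val (congrFun (congrFun e i) j)
  exact hf.countable

/-- The action of `GamP m` on the index set. -/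
instance (m : ℕ) : MulAction (GamP m) S47T.Lat where
  smul g x := gL (g : GL (Fin 2) ℂ) (GamP_entries g.2) x
  one_smul x := by
    apply hm_injective
    show hm (gL _ _ x) = hm x
    rw [hm_gL]
    simp
  mul_smul g h x := by
    apply hm_injective
    show hm (gL _ _ x) = hm (gL _ _ (gL _ _ x))
    rw [hm_gL, hm_gL, hm_gL]
    simp only [Subgroup.coe_mul, Units.val_mul, Matrix.conjTranspose_mul, Matrix.mul_assoc]

theorem smul_eq_gL {m : ℕ} (g : GamP m) (x : S47T.Lat) :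
    g • x = gL (g : GL (Fin 2) ℂ) (GamP_entries g.2) x := rfl

theorem hm_smul {m : ℕ} (g : GamP m) (x : S47T.Lat) :
    hm (g • x) = ((g : GL (Fin 2) ℂ) : Matrix (Fin 2) (Fin 2) ℂ) * hm x *
      (((g : GL (Fin 2) ℂ) : Matrix (Fin 2) (Fin 2) ℂ))ᴴ := hm_gL _ _ _

theorem qL_smul {m : ℕ} (g : GamP m) (x : S47T.Lat) : qL (g • x) = qL x :=
  qL_gL _ g.2.1 x

/-- Equivariance of the trace pairing. -/
theorem trace_equivariant {g : GL (Fin 2) ℂ} (hg : (g : Matrix (Fin 2) (Fin 2) ℂ).det = 1)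
    (X : Matrix (Fin 2) (Fin 2) ℂ) (w : H3) :
    Matrix.trace ((g : Matrix (Fin 2) (Fin 2) ℂ) * X * (g : Matrix (Fin 2) (Fin 2) ℂ)ᴴ *
      (H3.herm (g • w)).adjugate) = Matrix.trace (X * (H3.herm w).adjugate) := by
  have h1 : H3.herm (g • w) = (g : Matrix (Fin 2) (Fin 2) ℂ) * H3.herm w *
      (g : Matrix (Fin 2) (Fin 2) ℂ)ᴴ := by
    rw [H3.herm_smul, hg, norm_one, Complex.ofReal_one, inv_one, one_smul]
  have hg' : ((g : Matrix (Fin 2) (Fin 2) ℂ)ᴴ).det = 1 := by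
    rw [Matrix.det_conjTranspose, hg, star_one]
  rw [h1]
  generalize (g : Matrix (Fin 2) (Fin 2) ℂ) = G at hg hg'
  have h2 : G * X * Gᴴ * (G * H3.herm w * Gᴴ).adjugate =
      G * (X * (H3.herm w).adjugate) * G.adjugate := by
    rw [Matrix.adjugate_mul_distrib, Matrix.adjugate_mul_distrib]
    calc G * X * Gᴴ * ((Gᴴ).adjugate * ((H3.herm w).adjugate * G.adjugate))
        = G * X * (Gᴴ * (Gᴴ).adjugate) * ((H3.herm w).adjugate * G.adjugate) := by
          simp only [Matrix.mul_assoc]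
      _ = _ := by
          rw [Matrix.mul_adjugate, hg', one_smul, Matrix.mul_one]
          simp only [Matrix.mul_assoc]
  rw [h2, Matrix.trace_mul_comm, ← Matrix.mul_assoc, Matrix.adjugate_mul, hg, one_smul,
      Matrix.one_mul]

theorem pL_smul' {m : ℕ} (g : GamP m) (x : S47T.Lat) (w : H3) : pL (g • x) (g • w) = pL x w := by
  have h1 := trace_hm (g • x) (g • w)
  rw [hm_smul] at h1
  have h2 := trace_equivariant g.2.1 (hm x) w
  have h3 : Matrix.trace (((g : GL (Fin 2) ℂ) : Matrix (Fin 2) (Fin 2) ℂ) * hm x *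
      (((g : GL (Fin 2) ℂ) : Matrix (Fin 2) (Fin 2) ℂ))ᴴ * (H3.herm (g • w)).adjugate) =
      Matrix.trace (hm x * (H3.herm w).adjugate) := h2
  rw [h3, trace_hm] at h1
  have h4 : 2 * pL x w = 2 * pL (g • x) (g • w) := by exact_mod_cast h1
  linarith

/-! ### Isotropic vectors -/

/-- The isotropic vectors are multiples of `v vᴴ` with `v` primitive. -/
theorem exists_iso {x : S47T.Lat} (hx : x ≠ 0) (hq : qL x = 0) :
    ∃ g ∈ H47.Red.SLO Eis, ∃ t : ℝ, t ≠ 0 ∧
      hm x = (g : Matrix (Fin 2) (Fin 2) ℂ) * !![(t : ℂ), 0; 0, 0] *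
        (g : Matrix (Fin 2) (Fin 2) ℂ)ᴴ := by
  obtain ⟨a, ⟨β, hβ⟩, d⟩ := x
  have hq' : (β / sq3) * conj (β / sq3) = (a : ℂ) * d := by
    have h : Complex.normSq (β / sq3) - (a : ℝ) * d = 0 := hq
    rw [Complex.mul_conj]
    have h' : Complex.normSq (β / sq3) = (a : ℝ) * d := by linarith
    rw [h']
    push_cast
    rfl
  have hs := sq3_ne_zero
  have hs2 := sq3_mul_sq3
  rw [map_div₀, conj_sq3] at hq'
  have hq2 : β * conj β = 3 * (a * d) := by
    rw [← hq']
    field_simp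
    linear_combination (β * conj β) * hs2
  by_cases hd : d = 0
  · have hβ0 : β = 0 := by
      rw [hd, Int.cast_zero, mul_zero, mul_zero, Complex.mul_conj] at hq2
      exact Complex.normSq_eq_zero.mp (by exact_mod_cast hq2)
    have ha : a ≠ 0 := by
      intro ha
      apply hx
      subst hβ0 ha hd
      rfl
    refine ⟨1, (H47.Red.SLO Eis).one_mem, a, by exact_mod_cast ha, ?_⟩
    subst hβ0 hd
    ext i j
    fin_cases i <;> fin_cases j <;> simp [hm, hmat]
  · have hd' : (d : ℂ) ≠ 0 := by exact_mod_cast hd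
    obtain ⟨e, he, he0, ⟨u, hu, v, hv, huv⟩, ⟨c', hc', hcc⟩, d', hd'', hdd⟩ :=
      H47.Red.eucOrder_Eis.exists_gcd hβ (Eis.mul_mem sq3_mem (intCast_mem Eis d))
        (fun h => (mul_ne_zero hs hd') h.2)
    have hdet : c' * u - (-v) * d' = 1 := by
      have h1 : e * (c' * u - (-v) * d') = e * 1 := by
        rw [mul_one]
        conv_rhs => rw [huv, hcc, hdd]
        ring
      exact mul_left_cancel₀ he0 h1
    refine ⟨H47.Red.mk2 c' (-v) d' u hdet, H47.Red.mk2_mem hdet hc' (Eis.neg_mem hv) hd'' hu,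
      Complex.normSq e / (3 * d), ?_, ?_⟩
    · have h1 : (0 : ℝ) < Complex.normSq e := Complex.normSq_pos.mpr he0
      have h2 : (3 * (d : ℝ)) ≠ 0 := mul_ne_zero (by norm_num) (by exact_mod_cast hd)
      exact div_ne_zero h1.ne' h2
    · have hne : ((Complex.normSq e : ℝ) : ℂ) = e * conj e := (Complex.mul_conj e).symm
      rw [H47.Red.mk2_val]
      have hcc2 : conj β = conj e * conj c' := by rw [hcc, map_mul]
      have hdd2 : -sq3 * d = conj e * conj d' := by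
        rw [← map_mul, ← hdd, map_mul, conj_sq3, map_intCast]
      ext i j
      fin_cases i <;> fin_cases j
      · simp only [hm, hmat, Matrix.mul_apply, Fin.sum_univ_two, Matrix.conjTranspose_apply,
          Matrix.of_apply, Matrix.cons_val', Matrix.cons_val_zero, Matrix.cons_val_one,
          Matrix.cons_val_fin_one, Fin.zero_eta, Complex.star_def]
        push_cast
        rw [hne]
        field_simp
        rw [hcc, map_mul] at hq2
        linear_combination -hq2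
      · simp only [hm, hmat, Matrix.mul_apply, Fin.sum_univ_two, Matrix.conjTranspose_apply,
          Matrix.of_apply, Matrix.cons_val', Matrix.cons_val_zero, Matrix.cons_val_one,
          Matrix.cons_val_fin_one, Fin.zero_eta, Fin.mk_one, Complex.star_def]
        push_cast
        rw [hne]
        field_simp
        have h1 : e * conj e * c' * conj d' = β * (-sq3 * d) := by rw [hdd2, hcc]; ring
        linear_combination (-sq3) * h1 + (β * d) * hs2
      · simp only [hm, hmat, Matrix.mul_apply, Fin.sum_univ_two, Matrix.conjTranspose_apply,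
          Matrix.of_apply, Matrix.cons_val', Matrix.cons_val_zero, Matrix.cons_val_one,
          Matrix.cons_val_fin_one, Fin.zero_eta, Fin.mk_one, Complex.star_def, map_div₀, conj_sq3]
        push_cast
        rw [hne]
        field_simp
        have h1 : e * conj e * d' * conj c' = conj β * (sq3 * d) := by rw [hcc2, hdd]; ring
        linear_combination (-sq3) * h1 - (conj β * d) * hs2
      · simp only [hm, hmat, Matrix.mul_apply, Fin.sum_univ_two, Matrix.conjTranspose_apply,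
          Matrix.of_apply, Matrix.cons_val', Matrix.cons_val_zero, Matrix.cons_val_one,
          Matrix.cons_val_fin_one, Fin.mk_one, Complex.star_def]
        push_cast
        rw [hne]
        field_simp
        have h1 : e * conj e * d' * conj d' = (sq3 * d) * (-sq3 * d) := by rw [hdd2, hdd]; ring
        linear_combination -h1 + (d : ℂ) ^ 2 * hs2

/-- The pairing of an isotropic vector with a translated point. -/
theorem pL_iso {x : S47T.Lat} {g : GL (Fin 2) ℂ} (hg : g ∈ H47.Red.SLO Eis) {t : ℝ}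
    (hx : hm x = (g : Matrix (Fin 2) (Fin 2) ℂ) * !![(t : ℂ), 0; 0, 0] *
        (g : Matrix (Fin 2) (Fin 2) ℂ)ᴴ) (w : H3) : pL x (g • w) = t / (2 * w.y) := by
  have h1 := trace_hm x (g • w)
  rw [hx, trace_equivariant hg.2] at h1
  have h2 : Matrix.trace (!![(t : ℂ), 0; 0, 0] * (H3.herm w).adjugate) = (t : ℂ) / w.y := by
    rw [Matrix.adjugate_fin_two, Matrix.trace_fin_two]
    simp only [H3.herm, Matrix.mul_apply, Fin.sum_univ_two, Matrix.of_apply, Matrix.cons_val',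
      Matrix.cons_val_one, Matrix.cons_val_zero, Matrix.cons_val_fin_one]
    ring
  rw [h2] at h1
  have h3 : t / w.y = 2 * pL x (g • w) := by exact_mod_cast h1
  have := w.pos
  field_simp at h3 ⊢
  linarith

/-! ### Stabilisers -/

theorem inv_mul_mul_mem {m : ℕ} {g γ : GL (Fin 2) ℂ} (hg : g ∈ H47.Red.SLO Eis)
    (hγ : γ ∈ GamP m) : g⁻¹ * γ * g ∈ GamP m := by
  obtain ⟨h1, h2⟩ := hγ
  have hdet : (g : Matrix (Fin 2) (Fin 2) ℂ).det = 1 := hg.2
  have hinv := coe_inv_eq_adjugate hdet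
  have hgi := (H47.Red.SLO Eis).inv_mem hg
  choose X hX hγX using h2
  have hγX' : (γ : Matrix (Fin 2) (Fin 2) ℂ) = 1 + (m : ℂ) • (Matrix.of X) := by
    ext i j
    rw [hγX i j]
    simp
  refine ⟨?_, ?_⟩
  · rw [Units.val_mul, Units.val_mul, Matrix.det_mul, Matrix.det_mul, h1, hdet, hgi.2]
    simp
  · intro i j
    refine ⟨(((g⁻¹ : GL (Fin 2) ℂ) : Matrix (Fin 2) (Fin 2) ℂ) * Matrix.of X *
      (g : Matrix (Fin 2) (Fin 2) ℂ)) i j, ?_, ?_⟩
    · rw [Matrix.mul_apply]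
      refine Eis.sum_mem fun k _ => Eis.mul_mem ?_ (hg.1 _ _)
      rw [Matrix.mul_apply]
      exact Eis.sum_mem fun l _ => Eis.mul_mem (hgi.1 _ _) (hX _ _)
    · have h3 : ((g⁻¹ * γ * g : GL (Fin 2) ℂ) : Matrix (Fin 2) (Fin 2) ℂ) = 1 + (m : ℂ) •
          (((g⁻¹ : GL (Fin 2) ℂ) : Matrix (Fin 2) (Fin 2) ℂ) * Matrix.of X *
          (g : Matrix (Fin 2) (Fin 2) ℂ)) := by
        rw [Units.val_mul, Units.val_mul, hγX', Matrix.mul_add, Matrix.add_mul, Matrix.mul_one,
          Matrix.mul_smul, Matrix.smul_mul, ← Units.val_mul, inv_mul_cancel, Units.val_one]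
      rw [h3, Matrix.add_apply, Matrix.smul_apply, smul_eq_mul]

theorem mul_mul_inv_mem {m : ℕ} {g γ : GL (Fin 2) ℂ} (hg : g ∈ H47.Red.SLO Eis)
    (hγ : γ ∈ GamP m) : g * γ * g⁻¹ ∈ GamP m := by
  have := inv_mul_mul_mem ((H47.Red.SLO Eis).inv_mem hg) hγ
  rwa [inv_inv] at this

@[simp] theorem nMat_val (b : ℂ) :
    ((H3.nMat b : GL (Fin 2) ℂ) : Matrix (Fin 2) (Fin 2) ℂ) = !![1, b; 0, 1] := rfl

theorem nMat_mem (m : ℕ) (b : Eis) : H3.nMat (m * (b : ℂ)) ∈ GamP m := by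
  refine ⟨by rw [nMat_val, Matrix.det_fin_two_of]; ring, fun i j => ?_⟩
  fin_cases i <;> fin_cases j
  · exact ⟨0, Eis.zero_mem, by simp⟩
  · exact ⟨b, b.2, by simp⟩
  · exact ⟨0, Eis.zero_mem, by simp⟩
  · exact ⟨0, Eis.zero_mem, by simp⟩

section Stab

variable {m : ℕ} {x : S47T.Lat} {g : GL (Fin 2) ℂ} {t : ℝ}

theorem conj_mem_stab (hg : g ∈ H47.Red.SLO Eis)
    (hx : hm x = (g : Matrix (Fin 2) (Fin 2) ℂ) * !![(t : ℂ), 0; 0, 0] *
        (g : Matrix (Fin 2) (Fin 2) ℂ)ᴴ) (b : Eis) :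
    (⟨g * H3.nMat (m * (b : ℂ)) * g⁻¹, mul_mul_inv_mem hg (nMat_mem m b)⟩ : GamP m) ∈
      MulAction.stabilizer (GamP m) x := by
  rw [MulAction.mem_stabilizer_iff]
  apply hm_injective
  rw [hm_smul]
  have e1 : ∀ N : GL (Fin 2) ℂ, (N : Matrix (Fin 2) (Fin 2) ℂ) * !![(t : ℂ), 0; 0, 0] *
      (N : Matrix (Fin 2) (Fin 2) ℂ)ᴴ = !![(t : ℂ), 0; 0, 0] →
      ((g * N * g⁻¹ : GL (Fin 2) ℂ) : Matrix (Fin 2) (Fin 2) ℂ) * hm x *
        (((g * N * g⁻¹ : GL (Fin 2) ℂ) : Matrix (Fin 2) (Fin 2) ℂ))ᴴ = hm x := by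
    intro N hN
    have h1 : ((g * N * g⁻¹ : GL (Fin 2) ℂ) : Matrix (Fin 2) (Fin 2) ℂ) *
        (g : Matrix (Fin 2) (Fin 2) ℂ) = (g : Matrix (Fin 2) (Fin 2) ℂ) * N := by
      rw [← Units.val_mul, inv_mul_cancel_right, Units.val_mul]
    calc ((g * N * g⁻¹ : GL (Fin 2) ℂ) : Matrix (Fin 2) (Fin 2) ℂ) * hm x *
          (((g * N * g⁻¹ : GL (Fin 2) ℂ) : Matrix (Fin 2) (Fin 2) ℂ))ᴴ
        = (((g * N * g⁻¹ : GL (Fin 2) ℂ) : Matrix (Fin 2) (Fin 2) ℂ) *
            (g : Matrix (Fin 2) (Fin 2) ℂ)) * !![(t : ℂ), 0; 0, 0] *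
          ((((g * N * g⁻¹ : GL (Fin 2) ℂ) : Matrix (Fin 2) (Fin 2) ℂ) *
            (g : Matrix (Fin 2) (Fin 2) ℂ)))ᴴ := by
          rw [hx, Matrix.conjTranspose_mul]
          simp only [Matrix.mul_assoc]
      _ = (g : Matrix (Fin 2) (Fin 2) ℂ) * ((N : Matrix (Fin 2) (Fin 2) ℂ) *
            !![(t : ℂ), 0; 0, 0] * (N : Matrix (Fin 2) (Fin 2) ℂ)ᴴ) *
          (g : Matrix (Fin 2) (Fin 2) ℂ)ᴴ := by
          rw [h1, Matrix.conjTranspose_mul]
          simp only [Matrix.mul_assoc]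
      _ = hm x := by rw [hN, hx]
  apply e1
  rw [nMat_val]
  ext i j
  fin_cases i <;> fin_cases j <;> simp [Matrix.mul_apply, Fin.sum_univ_two]

theorem exists_of_mem_stab (hm3 : 3 ≤ m) (hg : g ∈ H47.Red.SLO Eis) (ht : t ≠ 0)
    (hx : hm x = (g : Matrix (Fin 2) (Fin 2) ℂ) * !![(t : ℂ), 0; 0, 0] *
        (g : Matrix (Fin 2) (Fin 2) ℂ)ᴴ) (γ : GamP m)
    (hγ : γ ∈ MulAction.stabilizer (GamP m) x) :
    ∃ b : Eis, (γ : GL (Fin 2) ℂ) = g * H3.nMat (m * (b : ℂ)) * g⁻¹ := by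
  have ht' : (t : ℂ) ≠ 0 := by exact_mod_cast ht
  set k : GL (Fin 2) ℂ := g⁻¹ * γ * g with hk
  have hkm : k ∈ GamP m := inv_mul_mul_mem hg γ.2
  have h0 : hm (γ • x) = hm x := by rw [MulAction.mem_stabilizer_iff.mp hγ]
  rw [hm_smul] at h0
  -- `k E kᴴ = E`
  have hE : (k : Matrix (Fin 2) (Fin 2) ℂ) * !![(t : ℂ), 0; 0, 0] *
      (k : Matrix (Fin 2) (Fin 2) ℂ)ᴴ = !![(t : ℂ), 0; 0, 0] := by
    have h1 : (g : Matrix (Fin 2) (Fin 2) ℂ) * (k : Matrix (Fin 2) (Fin 2) ℂ) =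
        (γ : GL (Fin 2) ℂ) * (g : Matrix (Fin 2) (Fin 2) ℂ) := by
      rw [← Units.val_mul, hk, ← mul_assoc, mul_inv_cancel_left, Units.val_mul]
    have h2 : (g : Matrix (Fin 2) (Fin 2) ℂ) * ((k : Matrix (Fin 2) (Fin 2) ℂ) *
        !![(t : ℂ), 0; 0, 0] * (k : Matrix (Fin 2) (Fin 2) ℂ)ᴴ) *
        (g : Matrix (Fin 2) (Fin 2) ℂ)ᴴ = (g : Matrix (Fin 2) (Fin 2) ℂ) *
        !![(t : ℂ), 0; 0, 0] * (g : Matrix (Fin 2) (Fin 2) ℂ)ᴴ := by
      calc (g : Matrix (Fin 2) (Fin 2) ℂ) * ((k : Matrix (Fin 2) (Fin 2) ℂ) *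
            !![(t : ℂ), 0; 0, 0] * (k : Matrix (Fin 2) (Fin 2) ℂ)ᴴ) *
            (g : Matrix (Fin 2) (Fin 2) ℂ)ᴴ
          = ((g : Matrix (Fin 2) (Fin 2) ℂ) * (k : Matrix (Fin 2) (Fin 2) ℂ)) *
            !![(t : ℂ), 0; 0, 0] *
            ((g : Matrix (Fin 2) (Fin 2) ℂ) * (k : Matrix (Fin 2) (Fin 2) ℂ))ᴴ := by
            rw [Matrix.conjTranspose_mul]
            simp only [Matrix.mul_assoc]
        _ = ((γ : GL (Fin 2) ℂ) : Matrix (Fin 2) (Fin 2) ℂ) * hm x *
            (((γ : GL (Fin 2) ℂ) : Matrix (Fin 2) (Fin 2) ℂ))ᴴ := by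
            rw [h1, hx, Matrix.conjTranspose_mul]
            simp only [Matrix.mul_assoc]
        _ = _ := by rw [h0, hx]
    have hgi : ((g⁻¹ : GL (Fin 2) ℂ) : Matrix (Fin 2) (Fin 2) ℂ) *
        (g : Matrix (Fin 2) (Fin 2) ℂ) = 1 := by
      rw [← Units.val_mul, inv_mul_cancel, Units.val_one]
    have hgi' : (g : Matrix (Fin 2) (Fin 2) ℂ)ᴴ *
        (((g⁻¹ : GL (Fin 2) ℂ) : Matrix (Fin 2) (Fin 2) ℂ))ᴴ = 1 := by
      rw [← Matrix.conjTranspose_mul, hgi, Matrix.conjTranspose_one]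
    have h3 : ∀ Y : Matrix (Fin 2) (Fin 2) ℂ,
        ((g⁻¹ : GL (Fin 2) ℂ) : Matrix (Fin 2) (Fin 2) ℂ) *
        ((g : Matrix (Fin 2) (Fin 2) ℂ) * Y * (g : Matrix (Fin 2) (Fin 2) ℂ)ᴴ) *
        (((g⁻¹ : GL (Fin 2) ℂ) : Matrix (Fin 2) (Fin 2) ℂ))ᴴ = Y := by
      intro Y
      calc ((g⁻¹ : GL (Fin 2) ℂ) : Matrix (Fin 2) (Fin 2) ℂ) *
          ((g : Matrix (Fin 2) (Fin 2) ℂ) * Y * (g : Matrix (Fin 2) (Fin 2) ℂ)ᴴ) *
          (((g⁻¹ : GL (Fin 2) ℂ) : Matrix (Fin 2) (Fin 2) ℂ))ᴴ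
          = (((g⁻¹ : GL (Fin 2) ℂ) : Matrix (Fin 2) (Fin 2) ℂ) *
            (g : Matrix (Fin 2) (Fin 2) ℂ)) * Y * ((g : Matrix (Fin 2) (Fin 2) ℂ)ᴴ *
            (((g⁻¹ : GL (Fin 2) ℂ) : Matrix (Fin 2) (Fin 2) ℂ))ᴴ) := by
            simp only [Matrix.mul_assoc]
        _ = Y := by rw [hgi, hgi', Matrix.one_mul, Matrix.mul_one]
    rw [← h3 ((k : Matrix (Fin 2) (Fin 2) ℂ) * !![(t : ℂ), 0; 0, 0] *
      (k : Matrix (Fin 2) (Fin 2) ℂ)ᴴ), h2, h3]
  obtain ⟨hkdet, hkX⟩ := hkm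
  obtain ⟨x00, hx00, h00⟩ := hkX 0 0
  obtain ⟨x01, hx01, h01⟩ := hkX 0 1
  simp only [Matrix.one_apply_eq] at h00
  simp only [Matrix.one_apply_ne (show (0 : Fin 2) ≠ 1 by decide), zero_add] at h01
  generalize hK : (k : Matrix (Fin 2) (Fin 2) ℂ) = K at hE hkdet h00 h01
  have e00 := congrFun (congrFun hE 0) 0
  have e11 := congrFun (congrFun hE 1) 1
  simp only [Matrix.mul_apply, Fin.sum_univ_two, Matrix.conjTranspose_apply,
    Matrix.of_apply, Matrix.cons_val', Matrix.cons_val_zero, Matrix.cons_val_one,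
    Matrix.cons_val_fin_one, Complex.star_def, mul_zero, add_zero, zero_mul] at e00 e11
  have f00 : K 0 0 * conj (K 0 0) = 1 := by
    apply mul_left_cancel₀ ht'
    linear_combination e00
  have f10 : K 1 0 = 0 := by
    have : K 1 0 * conj (K 1 0) = 0 := by
      apply mul_left_cancel₀ ht'
      linear_combination e11
    rw [Complex.mul_conj] at this
    exact Complex.normSq_eq_zero.mp (by exact_mod_cast this)
  have g00 : x00 = 0 := by
    by_contra hne
    have h1 := H47.Red.eucOrder_Eis.one_le x00 hx00 hne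
    have h2 : ‖K 0 0‖ = 1 := by
      rw [Complex.mul_conj] at f00
      have h3 : Complex.normSq (K 0 0) = 1 := by exact_mod_cast f00
      rw [Complex.normSq_eq_norm_sq] at h3
      nlinarith [norm_nonneg (K 0 0)]
    have h3 : ‖(m : ℂ) * x00‖ ≤ 2 := by
      have : (m : ℂ) * x00 = K 0 0 - 1 := by rw [h00]; ring
      rw [this]
      refine (norm_sub_le _ _).trans ?_
      rw [h2, norm_one]
      norm_num
    have h4 : 1 ≤ ‖x00‖ := by
      rw [Complex.normSq_eq_norm_sq] at h1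
      nlinarith [norm_nonneg x00]
    rw [norm_mul, Complex.norm_natCast] at h3
    have h5 : (3 : ℝ) ≤ m := by exact_mod_cast hm3
    nlinarith
  have g00' : K 0 0 = 1 := by rw [h00, g00, mul_zero, add_zero]
  have g11 : K 1 1 = 1 := by
    rw [Matrix.det_fin_two, f10, g00'] at hkdet
    linear_combination hkdet
  refine ⟨⟨x01, hx01⟩, ?_⟩
  have hkn : k = H3.nMat (m * x01) := by
    apply Units.ext
    rw [hK, nMat_val]
    ext i j
    fin_cases i <;> fin_cases j
    · exact g00'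
    · exact h01
    · exact f10
    · exact g11
  rw [← hkn, hk]
  group

/-- The stabiliser of an isotropic vector is `m ℤ[ω]`. -/
def stabEquiv (hm3 : 3 ≤ m) (hg : g ∈ H47.Red.SLO Eis) (ht : t ≠ 0)
    (hx : hm x = (g : Matrix (Fin 2) (Fin 2) ℂ) * !![(t : ℂ), 0; 0, 0] *
        (g : Matrix (Fin 2) (Fin 2) ℂ)ᴴ) : Eis ≃ MulAction.stabilizer (GamP m) x :=
  Equiv.ofBijective (fun b => ⟨_, conj_mem_stab hg hx b⟩) (by
    have hm0 : (m : ℂ) ≠ 0 := by
      have : m ≠ 0 := by omega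
      exact_mod_cast this
    constructor
    · intro b b' h
      have h1 : g * H3.nMat (m * (b : ℂ)) * g⁻¹ = g * H3.nMat (m * (b' : ℂ)) * g⁻¹ :=
        congrArg (fun u => ((u : GamP m) : GL (Fin 2) ℂ)) (congrArg Subtype.val h)
      have h2 := mul_left_cancel (mul_right_cancel h1)
      have h3 : (m : ℂ) * b = m * b' :=
        congrArg (fun M : GL (Fin 2) ℂ => (M : Matrix (Fin 2) (Fin 2) ℂ) 0 1) h2
      exact Subtype.ext (mul_left_cancel₀ hm0 h3)
    · intro γ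
      obtain ⟨b, hb⟩ := exists_of_mem_stab hm3 hg ht hx γ.1 γ.2
      exact ⟨b, Subtype.ext (Subtype.ext hb.symm)⟩)

end Stab

/-! ### The orbit of an isotropic vector -/

section Orbit

variable {m : ℕ} {x₀ : S47T.Lat} {g : GL (Fin 2) ℂ} {t : ℝ}

/-- The cut-off function for the stabiliser of an isotropic vector. -/
def chi0 (hm : 0 < m) (g : GL (Fin 2) ℂ) (w : H3) : ℝ :=
  (ZSpan.fundamentalDomain (eisB m hm)).indicator (fun _ => (1 : ℝ)) ((g⁻¹ • w).z)

theorem measurable_chi0 (hm : 0 < m) (g : GL (Fin 2) ℂ) : Measurable (chi0 hm g) :=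
  (measurable_const.indicator (ZSpan.fundamentalDomain_measurableSet (eisB m hm))).comp
    (H3.measurable_z.comp (continuous_const_smul g⁻¹).measurable)

theorem chi0_nonneg (hm : 0 < m) (g : GL (Fin 2) ℂ) (w : H3) : 0 ≤ chi0 hm g w :=
  Set.indicator_nonneg (fun _ _ => zero_le_one) _

theorem hasSum_chi0 (hm3 : 3 ≤ m) (hg : g ∈ H47.Red.SLO Eis) (ht : t ≠ 0)
    (hx : hm x₀ = (g : Matrix (Fin 2) (Fin 2) ℂ) * !![(t : ℂ), 0; 0, 0] *
        (g : Matrix (Fin 2) (Fin 2) ℂ)ᴴ) (w : H3) :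
    HasSum (fun δ : MulAction.stabilizer (GamP m) x₀ =>
      chi0 (m := m) (by omega) g ((δ : GamP m) • w)) 1 := by
  have hm0 : 0 < m := by omega
  rw [← (stabEquiv hm3 hg ht hx).hasSum_iff]
  have h1 : ∀ b : Eis, ((fun δ : MulAction.stabilizer (GamP m) x₀ =>
      chi0 hm0 g ((δ : GamP m) • w)) ∘ (stabEquiv hm3 hg ht hx)) b =
      (ZSpan.fundamentalDomain (eisB m hm0)).indicator (fun _ => (1 : ℝ))
        ((g⁻¹ • w).z + m * (b : ℂ)) := by
    intro b
    have h2 : (((stabEquiv hm3 hg ht hx b : MulAction.stabilizer (GamP m) x₀) : GamP m)) • w =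
        (g * H3.nMat (m * (b : ℂ)) * g⁻¹) • w := rfl
    show chi0 hm0 g _ = _
    rw [h2, chi0, ← mul_smul, ← mul_assoc, ← mul_assoc, inv_mul_cancel, one_mul, mul_smul,
      H3.nMat_smul]
  obtain ⟨b₀, hb₀, hu⟩ := existsUnique_eisB hm0 (g⁻¹ • w).z
  have h3 : HasSum (fun b : Eis => (ZSpan.fundamentalDomain (eisB m hm0)).indicator
      (fun _ => (1 : ℝ)) ((g⁻¹ • w).z + m * (b : ℂ))) 1 := by
    have := hasSum_single (f := fun b : Eis => (ZSpan.fundamentalDomain (eisB m hm0)).indicator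
      (fun _ => (1 : ℝ)) ((g⁻¹ • w).z + m * (b : ℂ))) b₀ (fun b hb => by
        rw [Set.indicator_of_notMem]
        intro h
        exact hb (hu b h))
    rwa [Set.indicator_of_mem hb₀] at this
  rw [show ((fun δ : MulAction.stabilizer (GamP m) x₀ =>
      chi0 hm0 g ((δ : GamP m) • w)) ∘ (stabEquiv hm3 hg ht hx)) = _ from funext h1]
  exact h3

/-- The unfolded integral vanishes. -/
theorem integral_chi0_eq_zero (hm0 : 0 < m) (hg : g ∈ H47.Red.SLO Eis)
    (hx : hm x₀ = (g : Matrix (Fin 2) (Fin 2) ℂ) * !![(t : ℂ), 0; 0, 0] *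
        (g : Matrix (Fin 2) (Fin 2) ℂ)ᴴ) {F : H3 → ℂ} {c : ℂ} {h : ℝ → ℂ}
    (hct : ∀ (y : ℝ) (hy : 0 < y),
      ∫ z in ZSpan.fundamentalDomain (eisB m hm0), F (g • (⟨z, y, hy⟩ : H3)) = 0) :
    ∫ w, (chi0 hm0 g w : ℂ) * (c * F w * h (pL x₀ w)) = 0 := by
  classical
  have hmp := H3.measurePreserving_smul g
  have hemb : MeasurableEmbedding (fun w : H3 => g • w) :=
    (Homeomorph.smul g).measurableEmbedding
  rw [← hmp.integral_comp hemb]
  set f : ℂ → ℝ → ℂ := fun z y => if hy : 0 < y then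
    (ZSpan.fundamentalDomain (eisB m hm0)).indicator
      (fun z => (c * h (t / (2 * y))) * F (g • (⟨z, y, hy⟩ : H3))) z else 0 with hf
  have h1 : (fun w : H3 => (chi0 hm0 g (g • w) : ℂ) *
      (c * F (g • w) * h (pL x₀ (g • w)))) = fun w => f w.z w.y := by
    funext w
    rw [hf]
    simp only [dif_pos w.pos]
    rw [chi0, inv_smul_smul, pL_iso hg hx]
    by_cases hz : w.z ∈ ZSpan.fundamentalDomain (eisB m hm0)
    · rw [Set.indicator_of_mem hz, Set.indicator_of_mem hz]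
      push_cast
      ring
    · rw [Set.indicator_of_notMem hz, Set.indicator_of_notMem hz]
      simp
  rw [h1]
  by_cases hint : Integrable (fun w : H3 => f w.z w.y)
  · rw [H3.integral_eq f hint]
    have h2 : ∀ y ∈ Set.Ioi (0 : ℝ), (y ^ 3)⁻¹ • ∫ z : ℂ, f z y = (0 : ℂ) := by
      intro y hy
      have hy' : 0 < y := hy
      rw [hf]
      simp only [dif_pos hy']
      rw [integral_indicator (ZSpan.fundamentalDomain_measurableSet _), integral_const_mul,
        hct y hy', mul_zero, smul_zero]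
    rw [setIntegral_congr_fun measurableSet_Ioi h2]
    simp
  · exact integral_undef hint

variable {χ : H3 → ℝ} {F : H3 → ℂ} {φ : S47T.Lat → ℂ} {h : ℝ → ℂ}

theorem integrand_equivariant (hF : ∀ g ∈ GamP m, ∀ w, F (g • w) = F w)
    (hφ : ∀ (g : GamP m) (x : S47T.Lat), φ (g • x) = φ x) (g : GamP m) (x : S47T.Lat) (w : H3) :
    φ (g • x) * F (g • w) * h (pL (g • x) (g • w)) = φ x * F w * h (pL x w) := by
  rw [pL_smul', hφ]
  have : F (g • w) = F w := hF g g.2 w
  rw [this]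

theorem measurePreserving_GamP (g : GamP m) :
    MeasurePreserving (fun w : H3 => g • w) volume volume :=
  H3.measurePreserving_smul (g : GL (Fin 2) ℂ)

theorem measurable_pL (x : S47T.Lat) : Measurable (fun w : H3 => pL x w) := by
  unfold pL pair
  refine Measurable.div ?_ (measurable_const.mul H3.measurable_y)
  refine Measurable.add (Measurable.sub measurable_const ?_) ?_
  · exact measurable_const.mul (Complex.measurable_re.comp (measurable_const.mul
      (Complex.continuous_conj.measurable.comp H3.measurable_z)))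
  · exact measurable_const.mul ((Complex.continuous_normSq.measurable.comp H3.measurable_z).add
      (H3.measurable_y.pow_const 2))

/-- The contribution of the orbit of an isotropic vector is zero. -/
theorem hasSum_orbit (hm3 : 3 ≤ m) (hχ : IsCut (GamP m) χ) (hFm : Measurable F)
    (hF : ∀ g ∈ GamP m, ∀ w, F (g • w) = F w)
    (hct : ∀ g ∈ H47.Red.SLO Eis, ∀ (y : ℝ) (hy : 0 < y),
      ∫ z in ZSpan.fundamentalDomain (eisB m (by omega : 0 < m)), F (g • (⟨z, y, hy⟩ : H3)) = 0)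
    (hφ : ∀ (g : GamP m) (x : S47T.Lat), φ (g • x) = φ x) (hh : Measurable h)
    (hM : ∑' x : S47T.Lat, ∫⁻ w, ‖(χ w : ℂ) * (φ x * F w * h (pL x w))‖ₑ < ∞)
    (hx₀ : x₀ ≠ 0) (hq : qL x₀ = 0) :
    HasSum (fun s : MulAction.orbit (GamP m) x₀ =>
      ∫ w, (χ w : ℂ) * (φ s * F w * h (pL s w))) 0 := by
  have hm0 : 0 < m := by omega
  obtain ⟨g, hg, t, ht, hx⟩ := exists_iso hx₀ hq
  have hfm : ∀ s : S47T.Lat, Measurable (fun w : H3 => φ s * F w * h (pL s w)) := fun s =>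
    (measurable_const.mul hFm).mul (hh.comp (measurable_pL s))
  have hχ1 : ∀ w, ∑' γ : GamP m, ENNReal.ofReal (χ (γ • w)) = 1 := by
    intro w
    have h1 : HasSum (fun γ : GamP m => χ (γ • w)) 1 := hχ.sum w
    rw [← ENNReal.ofReal_tsum_of_nonneg (fun γ => hχ.nonneg _) h1.summable,
      h1.tsum_eq, ENNReal.ofReal_one]
  have hχ₀ := hasSum_chi0 hm3 hg ht hx
  have hχ₀1 : ∀ w, ∑' γ : MulAction.stabilizer (GamP m) x₀,
      ENNReal.ofReal (chi0 hm0 g ((γ : GamP m) • w)) = 1 := by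
    intro w
    rw [← ENNReal.ofReal_tsum_of_nonneg (fun γ => chi0_nonneg _ _ _) (hχ₀ w).summable,
      (hχ₀ w).tsum_eq, ENNReal.ofReal_one]
  have hen : ∀ (r : ℝ) (z : ℂ), 0 ≤ r → ‖(r : ℂ) * z‖ₑ = ENNReal.ofReal r * ‖z‖ₑ := by
    intro r z hr
    rw [enorm_mul, ← ofReal_norm (r : ℂ), Complex.norm_of_nonneg hr]
  have hl := (lintegral_unfold (G := GamP m) (μ := (volume : Measure H3))
    (fun γ => measurePreserving_GamP γ)
    (χ := fun w => ENNReal.ofReal (χ w)) (χ₀ := fun w => ENNReal.ofReal (chi0 hm0 g w))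
    hχ.meas.ennreal_ofReal (measurable_chi0 hm0 g).ennreal_ofReal hχ1 x₀ hχ₀1
    (f := fun s w => ‖φ s * F w * h (pL s w)‖ₑ) (fun s => (hfm s).enorm)
    (fun γ s w => by rw [integrand_equivariant hF hφ])).2
  have hfin : Integrable (fun w => (chi0 hm0 g w : ℂ) * (φ x₀ * F w * h (pL x₀ w))) := by
    refine ⟨((Complex.measurable_ofReal.comp (measurable_chi0 hm0 g)).mul
      (hfm x₀)).aestronglyMeasurable, ?_⟩
    have e1 : ∫⁻ w, ‖(chi0 hm0 g w : ℂ) * (φ x₀ * F w * h (pL x₀ w))‖ₑ =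
        ∫⁻ w, ENNReal.ofReal (chi0 hm0 g w) * ‖φ x₀ * F w * h (pL x₀ w)‖ₑ :=
      lintegral_congr fun w => hen _ _ (chi0_nonneg _ _ _)
    have e2 : ∑' s : MulAction.orbit (GamP m) x₀,
        ∫⁻ w, ENNReal.ofReal (χ w) * ‖φ s * F w * h (pL s w)‖ₑ < ∞ := by
      refine lt_of_le_of_lt ?_ hM
      have e3 : ∀ x : S47T.Lat, ∫⁻ w, ‖(χ w : ℂ) * (φ x * F w * h (pL x w))‖ₑ =
          ∫⁻ w, ENNReal.ofReal (χ w) * ‖φ x * F w * h (pL x w)‖ₑ := fun x =>
        lintegral_congr fun w => hen _ _ (hχ.nonneg w)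
      simp only [e3]
      exact ENNReal.tsum_comp_le_tsum_of_injective Subtype.val_injective
        (fun x : S47T.Lat => ∫⁻ w, ENNReal.ofReal (χ w) * ‖φ x * F w * h (pL x w)‖ₑ)
    rw [HasFiniteIntegral, e1, ← hl]
    exact e2
  have key := hasSum_unfold (G := GamP m) (μ := (volume : Measure H3))
    (fun γ => measurePreserving_GamP γ) hχ.meas (measurable_chi0 hm0 g) hχ.nonneg
    (chi0_nonneg hm0 g) (fun w => hχ.sum w) x₀ hχ₀
    (f := fun s w => φ s * F w * h (pL s w)) hfm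
    (fun γ s w => integrand_equivariant hF hφ γ s w) hfin
  rwa [integral_chi0_eq_zero hm0 hg hx (hct g hg)] at key

/-- **(T2c)** The isotropic vectors contribute zero. -/
theorem hasSum_iso (hm3 : 3 ≤ m) (hχ : IsCut (GamP m) χ) (hFm : Measurable F)
    (hF : ∀ g ∈ GamP m, ∀ w, F (g • w) = F w)
    (hct : ∀ g ∈ H47.Red.SLO Eis, ∀ (y : ℝ) (hy : 0 < y),
      ∫ z in ZSpan.fundamentalDomain (eisB m (by omega : 0 < m)), F (g • (⟨z, y, hy⟩ : H3)) = 0)
    (hφ : ∀ (g : GamP m) (x : S47T.Lat), φ (g • x) = φ x) (hh : Measurable h)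
    (hM : ∑' x : S47T.Lat, ∫⁻ w, ‖(χ w : ℂ) * (φ x * F w * h (pL x w))‖ₑ < ∞) :
    HasSum (fun x : {x : S47T.Lat // x ≠ 0 ∧ qL x = 0} =>
      ∫ w, (χ w : ℂ) * (φ x * F w * h (pL x w))) 0 := by
  classical
  set G : S47T.Lat → ℂ := fun x => ∫ w, (χ w : ℂ) * (φ x * F w * h (pL x w)) with hG
  set S : Set S47T.Lat := {x | x ≠ 0 ∧ qL x = 0} with hS
  have hsum : Summable G := by
    refine Summable.of_norm_bounded (g := fun x =>
      (∫⁻ w, ‖(χ w : ℂ) * (φ x * F w * h (pL x w))‖ₑ).toReal)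
      (ENNReal.summable_toReal hM.ne) fun x => ?_
    exact norm_integral_le_lintegral_norm _ |>.trans (le_of_eq (by
      congr 1
      exact lintegral_congr fun w => ofReal_norm _))
  have hsum' : Summable (S.indicator G) := hsum.indicator S
  have hSmul : ∀ (γ : GamP m) (x : S47T.Lat), γ • x ∈ S ↔ x ∈ S := by
    intro γ x
    have h0 : γ • x = 0 ↔ x = 0 := by
      constructor
      · intro h
        have h1 : γ⁻¹ • (γ • x) = γ⁻¹ • (0 : S47T.Lat) := by rw [h]
        rw [inv_smul_smul] at h1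
        rw [h1]
        apply hm_injective
        rw [hm_smul]
        have : hm (0 : S47T.Lat) = 0 := by
          ext i j
          fin_cases i <;> fin_cases j <;> simp [hm, hmat]
        rw [this, Matrix.mul_zero, Matrix.zero_mul]
      · rintro rfl
        apply hm_injective
        rw [hm_smul]
        have : hm (0 : S47T.Lat) = 0 := by
          ext i j
          fin_cases i <;> fin_cases j <;> simp [hm, hmat]
        rw [this, Matrix.mul_zero, Matrix.zero_mul]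
    rw [hS, Set.mem_ofPred_eq, Set.mem_ofPred_eq, qL_smul, Ne, Ne, h0]
  have hsig : HasSum (fun p : Σ ω : Quotient (MulAction.orbitRel (GamP m) S47T.Lat),
      MulAction.orbit (GamP m) ω.out => S.indicator G p.2) (∑' x, S.indicator G x) := by
    have e := (MulAction.selfEquivSigmaOrbits (GamP m) S47T.Lat).symm.hasSum_iff.mpr hsum'.hasSum
    exact e
  have hin : ∀ ω : Quotient (MulAction.orbitRel (GamP m) S47T.Lat),
      HasSum (fun s : MulAction.orbit (GamP m) ω.out => S.indicator G s) 0 := by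
    intro ω
    by_cases hω : ω.out ∈ S
    · have h1 := hasSum_orbit hm3 hχ hFm hF hct hφ hh hM hω.1 hω.2
      refine hasSum_of_eq h1 fun s => ?_
      obtain ⟨γ, hγ⟩ := s.2
      have hs : (s : S47T.Lat) ∈ S := by
        rw [← hγ]
        exact (hSmul γ _).mpr hω
      rw [Set.indicator_of_mem hs]
    · refine hasSum_of_eq hasSum_zero fun s => ?_
      obtain ⟨γ, hγ⟩ := s.2
      have hs : (s : S47T.Lat) ∉ S := by
        rw [← hγ]
        exact fun h => hω ((hSmul γ _).mp h)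
      rw [Set.indicator_of_notMem hs]
  have hzero : ∑' x, S.indicator G x = 0 := (hsig.sigma hin).unique hasSum_zero
  have hfinal : HasSum (S.indicator G) 0 := hzero ▸ hsum'.hasSum
  exact (hasSum_subtype_iff_indicator).mpr hfinal

end Orbit

end Fermat.Agent.H60T
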