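import Fermat.Agent.H70Lev1

/-!
# One idempotent for a finite family of modules at several levels
-/

set_option autoImplicit false
set_option linter.style.haveILetI false

open Matrix CongruenceSubgroup IsLocalRing
open scoped MatrixGroups TensorProduct

namespace Fermat.Agent.H61.Idem

open Fermat.Agent.H70.Coh Fermat.Agent.H59 Fermat.Agent.H37.Rank Fermat.Agent.H70.Mod

variable {J : Type} [Finite J] (N M : J → ℕ) (hM : ∀ j, N j ∣ M j) {S : Set ℕ}
  (hS : ∀ j, Away (M j) S) {O : Type} [CommRing O]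
  [IsLocalRing O] [IsNoetherianRing O] [IsAdicComplete (maximalIdeal O) O]
  (Λ : J → Type) [∀ j, CommRing (Λ j)] [∀ j, Algebra O (Λ j)] [∀ j, Module.Finite O (Λ j)]
  (hg : ∀ j, Good (M j) (Λ j)) {κ : Type} [Field κ] (θ : MvPolynomial (Idx S) O →+* κ)
  (hθs : ∀ x : κ, ∃ a : O, θ (MvPolynomial.C a) = x)

include hg hθs in
/-- **One idempotent** for a finite family of modules `H¹(Γ(N j, M j), Λ j (ψ j))` and for all
levels `L' ∣ L` over `O`. -/
theorem exists_common_idem_fam [∀ j, NeZero (M j)] {L : ℕ} [NeZero L] (hL : Away L S)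
    (ψ η : ∀ j, (ZMod (N j))ˣ →* (Λ j)ˣ) (hψ : ∀ j, ψ j (-1) = 1) :
    ∃ e : MvPolynomial (Idx S) O,
      (∀ j, IsLocIdem (tw (hM j) (hS j) (ψ j) (η j)) (tw_comm (hM j) (hS j) (ψ j) (η j)) θ e) ∧
      ∀ (L' : ℕ) (hL' : Adm S L'), L' ∣ L → IsLocIdem (TT O hL') (TT_comm hL') θ e := by
  classical
  have hA : ∀ L' : {L' // L' ∈ Nat.divisors L}, Adm S L'.1 := fun L' ℓ hℓ h1 =>
    hL ℓ hℓ (h1.trans (Nat.dvd_of_mem_divisors L'.2))
  haveI i1 : ∀ j, Module.Finite O (Module.End (Λ j)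
      (H1 (gam (N j) (M j) (hM j)) (psiRep (ψ j) (Λ j)))) := fun j => by
    haveI := h1_finite (hM j) (ψ j) (hg j) (hψ j)
    haveI : Module.Finite O (H1 (gam (N j) (M j) (hM j)) (psiRep (ψ j) (Λ j))) :=
      Module.Finite.trans (Λ j) _
    exact finite_end (R := Λ j)
  haveI i2 : ∀ L' : {L' // L' ∈ Nat.divisors L}, Module.Finite O (Module.End O (HH O L'.1)) :=
    fun L' => by
      haveI : NeZero L'.1 := ⟨(Nat.pos_of_mem_divisors L'.2).ne'⟩
      exact finite_end (R := O)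
  letI r1 : ∀ j, Ring (Module.End (Λ j) (H1 (gam (N j) (M j) (hM j)) (psiRep (ψ j) (Λ j)))) :=
    fun j => inferInstance
  letI r2 : ∀ L' : {L' // L' ∈ Nat.divisors L}, Ring (Module.End O (HH O L'.1)) :=
    fun L' => inferInstance
  obtain ⟨e, h1, h2⟩ := exists_isLocIdem_pi₂ (O := O)
    (fun j => Module.End (Λ j) (H1 (gam (N j) (M j) (hM j)) (psiRep (ψ j) (Λ j))))
    (fun L' : {L' // L' ∈ Nat.divisors L} => Module.End O (HH O L'.1))
    (fun j => tw (hM j) (hS j) (ψ j) (η j)) (fun L' => TT O (hA L'))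
    (fun j => tw_comm (hM j) (hS j) (ψ j) (η j)) (fun L' => TT_comm (hA L')) θ hθs
  exact ⟨e, h1, fun L' hL' hd => h2 ⟨L', Nat.mem_divisors.mpr ⟨hd, NeZero.ne L⟩⟩⟩

end Fermat.Agent.H61.Idem
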