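import Mathlib

/-!
# Local algebra at an inert good place (S47, package C12): norms of units at finite level

`R` a commutative ring, `s` an automorphism with `s^3 = 1`, `π` fixed by `s`.
-/

namespace Fermat.Agent.H61K

open Ideal

/-- counting: Hilbert 90 in a finite abelian group implies surjectivity of the norm. -/
theorem norm_surj_of_h90 {G : Type*} [CommGroup G] [Finite G] (s : G →* G)
    (h3 : ∀ x, s (s (s x)) = x)
    (h90 : ∀ x, x * s x * s (s x) = 1 → ∃ t, s t = x * t) (y : G) (hy : s y = y) :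
    ∃ h, h * s h * s (s h) = y := by
  let φ : G →* G := s / MonoidHom.id G
  have hφ : ∀ t, φ t = s t / t := fun t => rfl
  have hmem : ∀ x, x * s x * s (s x) ∈ φ.ker := by
    intro x
    rw [MonoidHom.mem_ker, hφ, div_eq_one, map_mul, map_mul, h3]
    rw [mul_comm (s x * s (s x)) x, mul_assoc]
  let N : G →* φ.ker :=
    { toFun := fun x => ⟨x * s x * s (s x), hmem x⟩
      map_one' := by ext; simp
      map_mul' := by
        intro a b
        ext
        simp only [map_mul, Subgroup.coe_mul]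
        simp only [mul_assoc, mul_left_comm, mul_comm] }
  have hN : Function.Surjective N := by
    refine MonoidHom.surjective_of_card_ker_le_div _ ?_
    have h1 : N.ker ≤ φ.range := by
      intro x hx
      rw [MonoidHom.mem_ker] at hx
      have hx' : x * s x * s (s x) = 1 := congrArg Subtype.val hx
      obtain ⟨t, ht⟩ := h90 x hx'
      exact ⟨t, by rw [hφ, ht, mul_div_cancel_right]⟩
    have h2 : Nat.card N.ker ≤ Nat.card φ.range :=
      Nat.card_le_card_of_injective (Subgroup.inclusion h1) (Subgroup.inclusion_injective h1)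
    refine h2.trans ?_
    rw [← Subgroup.index_ker, ← Subgroup.index_mul_card φ.ker, Nat.mul_div_cancel _ Nat.card_pos]
  obtain ⟨h, hh⟩ := hN ⟨y, by rw [MonoidHom.mem_ker, hφ, hy, div_self']⟩
  exact ⟨h, congrArg Subtype.val hh⟩

section approx

variable {R : Type*} [CommRing R] (s : R ≃+* R) (π : R)

/-- the abstract situation -/
structure Unr : Prop where
  s3 : ∀ x, s (s (s x)) = x
  sπ : s π = π
  fin : Finite (R ⧸ span {π})
  rad : ∀ x y : R, π ∣ x * y - 1 → IsUnit x
  tr : ∃ θ, θ + s θ + s (s θ) = 1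
  two : ∀ y₁ y₂ : R, ∃ z, IsUnit (z + y₁ * s z + y₂ * s (s z))

variable {s π}

theorem Unr.base (H : Unr s π) {g : R} (hg : IsUnit g) (hs : s g = g) :
    ∃ h, IsUnit h ∧ π ∣ h * s h * s (s h) - g := by
  have := H.fin
  have hle : span {π} ≤ (span {π}).comap (s : R →+* R) := by
    rw [span_le, Set.singleton_subset_iff]
    show (s π) ∈ span {π}
    rw [H.sπ]
    exact mem_span_singleton_self π
  let sb : R ⧸ span {π} →+* R ⧸ span {π} := Ideal.quotientMap _ (s : R →+* R) hle
  have hsb : ∀ x : R, sb (Ideal.Quotient.mk _ x) = Ideal.Quotient.mk _ (s x) := fun x => rfl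
  have hsb3 : ∀ x, sb (sb (sb x)) = x := by
    intro x
    obtain ⟨x, rfl⟩ := Ideal.Quotient.mk_surjective x
    rw [hsb, hsb, hsb, H.s3]
  have hfinu : Finite (R ⧸ span {π})ˣ := inferInstance
  let S : (R ⧸ span {π})ˣ →* (R ⧸ span {π})ˣ := Units.map (sb : R ⧸ span {π} →* R ⧸ span {π})
  have hS : ∀ u, ((S u : (R ⧸ span {π})ˣ) : R ⧸ span {π}) = sb u := fun u => rfl
  have key := norm_surj_of_h90 S (by
    intro x
    apply Units.ext
    rw [hS, hS, hS, hsb3]) (by
    intro x hx
    obtain ⟨y₁, hy₁⟩ := Ideal.Quotient.mk_surjective ((x⁻¹ : (R ⧸ span {π})ˣ) : R ⧸ span {π})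
    obtain ⟨y₂, hy₂⟩ := Ideal.Quotient.mk_surjective
      (((x * S x)⁻¹ : (R ⧸ span {π})ˣ) : R ⧸ span {π})
    obtain ⟨z, hz⟩ := H.two y₁ y₂
    have hz' := hz.map (Ideal.Quotient.mk (span {π}))
    refine ⟨hz'.unit, ?_⟩
    apply Units.ext
    rw [hS, Units.val_mul, IsUnit.unit_spec]
    set zb := Ideal.Quotient.mk (span {π}) z with hzb
    have e1 : Ideal.Quotient.mk (span {π}) (z + y₁ * s z + y₂ * s (s z)) =
        zb + ((x⁻¹ : (R ⧸ span {π})ˣ) : R ⧸ span {π}) * sb zb +
          (((x * S x)⁻¹ : (R ⧸ span {π})ˣ) : R ⧸ span {π}) * sb (sb zb) := by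
      rw [← hy₁, ← hy₂, map_add, map_add, map_mul, map_mul, hzb, hsb, hsb]
    rw [e1, map_add, map_add, map_mul, map_mul, hsb3]
    have e2 : (x : R ⧸ span {π}) * ((x⁻¹ : (R ⧸ span {π})ˣ) : R ⧸ span {π}) = 1 := Units.mul_inv x
    have e3 : sb ((x⁻¹ : (R ⧸ span {π})ˣ) : R ⧸ span {π}) =
        (((S x)⁻¹ : (R ⧸ span {π})ˣ) : R ⧸ span {π}) := by
      rw [← map_inv S x, hS]
    have e4 : sb (((x * S x)⁻¹ : (R ⧸ span {π})ˣ) : R ⧸ span {π}) = (x : R ⧸ span {π}) := by
      rw [← hS, map_inv, map_mul]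
      congr 1
      rw [inv_eq_iff_mul_eq_one, mul_comm, ← mul_assoc]
      exact hx
    have e5 : (x : R ⧸ span {π}) * (((x * S x)⁻¹ : (R ⧸ span {π})ˣ) : R ⧸ span {π}) =
        (((S x)⁻¹ : (R ⧸ span {π})ˣ) : R ⧸ span {π}) := by
      rw [mul_inv, Units.val_mul, ← mul_assoc, e2, one_mul]
    rw [e3, e4, mul_add, mul_add, ← mul_assoc, ← mul_assoc, e2, e5, one_mul]
    ring)
  have hgu := hg.map (Ideal.Quotient.mk (span {π}))
  obtain ⟨h, hh⟩ := key hgu.unit (by
    apply Units.ext
    rw [hS, IsUnit.unit_spec, hsb, hs])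
  obtain ⟨h', hh'⟩ := Ideal.Quotient.mk_surjective (h : R ⧸ span {π})
  obtain ⟨i', hi'⟩ := Ideal.Quotient.mk_surjective ((h⁻¹ : (R ⧸ span {π})ˣ) : R ⧸ span {π})
  refine ⟨h', H.rad h' i' ?_, ?_⟩
  · rw [← mem_span_singleton, ← Ideal.Quotient.eq, map_mul, hh', hi', map_one]
    exact Units.mul_inv h
  · rw [← mem_span_singleton, ← Ideal.Quotient.eq, map_mul, map_mul, ← hsb, ← hsb, ← hsb, hh']
    have := congrArg (Units.val) hh
    rw [Units.val_mul, Units.val_mul, hS, hS, hS, IsUnit.unit_spec] at this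
    exact this

theorem Unr.map_pow_dvd (H : Unr s π) {k : ℕ} {x : R} (h : π ^ k ∣ x) : π ^ k ∣ s x := by
  obtain ⟨w, rfl⟩ := h
  rw [map_mul, map_pow, H.sπ]
  exact Dvd.intro _ rfl

/-- norms of units approximate every fixed unit -/
theorem Unr.approx (H : Unr s π) {g : R} (hg : IsUnit g) (hs : s g = g) (hπ : IsLeftRegular π)
    (k : ℕ) : ∃ h, IsUnit h ∧ π ^ k ∣ h * s h * s (s h) - g := by
  rcases Nat.eq_zero_or_pos k with rfl | hk
  · exact ⟨1, isUnit_one, by simp⟩
  induction k, hk using Nat.le_induction with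
  | base => simpa using H.base hg hs
  | succ k hk ih =>
    obtain ⟨h, hu, d, hd⟩ := ih
    obtain ⟨θ, hθ⟩ := H.tr
    obtain ⟨gi, hgi⟩ := hg.exists_left_inv
    have hk0 : k ≠ 0 := by omega
    -- `N h = g + π^k d`, `d` fixed by `s`
    have hN : h * s h * s (s h) = g + π ^ k * d := by rw [← hd]; ring
    have hsd : s d = d := by
      have e1 : s (h * s h * s (s h)) = h * s h * s (s h) := by
        rw [map_mul, map_mul, H.s3]; ring
      rw [hN, map_add, map_mul, map_pow, H.sπ, hs, add_left_cancel_iff] at e1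
      exact (hπ.pow k) e1
    have hsgi : s gi = gi := by
      have e1 : s gi * g = 1 := by
        rw [← hs, ← map_mul, hgi, map_one]
      calc s gi = s gi * (gi * g) := by rw [hgi, mul_one]
        _ = gi * (s gi * g) := by ring
        _ = gi := by rw [e1, mul_one]
    -- `h' = h (1 + π^k f)`, `f = - gi d θ`
    set f : R := -(gi * d * θ) with hf
    have htrf : f + s f + s (s f) = -(gi * d) := by
      rw [hf, map_neg, map_neg, map_mul, map_mul, map_mul, map_mul, hsgi, hsd, hsd, hsgi]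
      calc -(gi * d * θ) + -(gi * d * s θ) + -(gi * d * s (s θ))
          = -(gi * d) * (θ + s θ + s (s θ)) := by ring
        _ = -(gi * d) := by rw [hθ, mul_one]
    refine ⟨h * (1 + π ^ k * f), hu.mul ?_, ?_⟩
    · refine H.rad _ 1 ?_
      rw [mul_one, add_sub_cancel_left]
      exact (dvd_pow_self π hk0).mul_right _
    · have e2 : s (1 + π ^ k * f) = 1 + π ^ k * s f := by
        rw [map_add, map_one, map_mul, map_pow, H.sπ]
      have e3 : s (1 + π ^ k * s f) = 1 + π ^ k * s (s f) := by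
        rw [map_add, map_one, map_mul, map_pow, H.sπ]
      have e4 : h * (1 + π ^ k * f) * s (h * (1 + π ^ k * f)) * s (s (h * (1 + π ^ k * f))) - g =
          (g + π ^ k * d) * (1 + π ^ k * (f + s f + s (s f)) + π ^ (k + k) *
            (f * s f + f * s (s f) + s f * s (s f)) + π ^ (k + k + k) * (f * s f * s (s f))) - g := by
        rw [← hN, map_mul, map_mul, e2, e3, pow_add, pow_add]
        ring
      rw [e4, htrf]
      have e5 : (g + π ^ k * d) * (1 + π ^ k * -(gi * d) + π ^ (k + k) *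
            (f * s f + f * s (s f) + s f * s (s f)) + π ^ (k + k + k) * (f * s f * s (s f))) - g =
          π ^ k * d * (1 - gi * g) + π ^ (k + k) * (-(d * (gi * d)) + (g + π ^ k * d) *
            ((f * s f + f * s (s f) + s f * s (s f)) + π ^ k * (f * s f * s (s f)))) := by
        rw [pow_add, pow_add]
        ring
      rw [e5, hgi, sub_self, mul_zero, zero_add]
      exact (pow_dvd_pow π (by omega)).mul_right _

end approx

end Fermat.Agent.H61K
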