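import Fermat.Agent.H61K9
import Fermat.Agent.H57CDict

/-!
# S47, block (C), package C12: good nonsplit places, in the shape `PM0` of `H57CDict`
-/

set_option autoImplicit false
set_option linter.unusedSectionVars false
set_option linter.unusedVariables false

noncomputable section

namespace Fermat.Agent.H61K

open Matrix IsDedekindDomain HeightOneSpectrum NumberField WithZero
open scoped MatrixGroups
open Fermat.Agent.H57C Fermat.Agent.H59XF Fermat.Agent.H59D
open Fermat.Agent.H20.S47 (incP sP nP EllReg)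
open Matrix.ProjGenLinGroup (mk_surjective)

local notation "pmk" => Matrix.ProjGenLinGroup.mk

variable {E F : Type*} [Field E] [NumberField E] [Field F] [NumberField F] [Algebra F E]

/-- **C12**: matching at a good nonsplit place. -/
theorem pm0_good (s : E ≃ₐ[F] E) (h3 : ∀ x, s (s (s x)) = x)
    (hs : s ≠ AlgEquiv.refl)
    (hfix : ∀ x, s x = x → x ∈ Set.range (algebraMap F E))
    {LE : LevelFam PGL(2, E) (HeightOneSpectrum (𝓞 E))}
    {LF : LevelFam PGL(2, F) (HeightOneSpectrum (𝓞 F))}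
    (t : Twist LE) (hts : ∀ g, t.s g = sP s g)
    (π : HeightOneSpectrum (𝓞 E) → HeightOneSpectrum (𝓞 F)) (hπ : ∀ w, π (t.σ w) = π w)
    (a : GlobKer LE) (b : GlobKer LF)
    (w : HeightOneSpectrum (𝓞 E)) (v : HeightOneSpectrum (𝓞 F)) (hv : ∀ i, π i = v ↔ i = w)
    (hsw : ∀ x, w.valuation E (s x) = w.valuation E x)
    (hval : ∀ x : F, w.valuation E (algebraMap F E x) = v.valuation F x)
    (hL : LE.U w = U0 w) (hL' : LF.U v = U0 v)
    (ha : a.loc w = LocKer.one) (hb : b.loc v = LocKer.one)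
    {H : Subgroup PGL(2, F)} (hH : H = LF.U v) :
    PM0 s t π hπ a b H v := by
  classical
  refine PM0.of_direct hH ?_
  intro d γ hd
  have hσ : t.σ w = w := (hv _).1 (by rw [hπ]; exact (hv w).2 rfl)
  obtain ⟨ϖ, HI⟩ := inertV_of (v := v) h3 hs hfix hsw hval
  have hk : ∀ g : PGL(2, E), (a.loc w).k (g : PGL(2, E) ⧸ LE.U w)
      (d • H92T.cmap1 t hσ (g : PGL(2, E) ⧸ LE.U w)) =
        if g⁻¹ * d * sP s g ∈ LE.U w then 1 else 0 := by
    intro g
    rw [ha, H92T.cmap1_mk, hts, LocKer.one_k]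
    have e1 : ((g : PGL(2, E) ⧸ LE.U w) = d • ((sP s g : PGL(2, E)) :
        PGL(2, E) ⧸ LE.U w)) ↔ g⁻¹ * d * sP s g ∈ LE.U w := by
      rw [mul_assoc]
      exact QuotientGroup.eq (s := LE.U w) (a := g) (b := d * sP s g)
    simp only [e1]
  have hk' : ∀ y : PGL(2, F), (b.loc v).k (y : PGL(2, F) ⧸ LF.U v)
      (γ • (y : PGL(2, F) ⧸ LF.U v)) = if y⁻¹ * γ * y ∈ LF.U v then 1 else 0 := by
    intro y
    rw [hb, LocKer.one_k]
    have e1 : ((y : PGL(2, F) ⧸ LF.U v) = γ • (y : PGL(2, F) ⧸ LF.U v)) ↔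
        y⁻¹ * γ * y ∈ LF.U v := by
      rw [mul_assoc]
      exact QuotientGroup.eq (s := LF.U v) (a := y) (b := γ * y)
    simp only [e1]
  obtain ⟨β, hβ, hβ0⟩ := locMatch_gen (vF := v.valuation F) HI hfix
    (fun x => by rw [hval]) (by norm_num) hd.reg hd.norm
    (fun c : Subgroup.centralizer ({γ} : Set PGL(2, F)) => (c : PGL(2, F)))
    (fun c => Subgroup.mem_centralizer_singleton_iff.1 c.2) hL hL'
    (fun x => (a.loc w).k x (d • H92T.cmap1 t hσ x)) (fun y => (b.loc v).k y (γ • y))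
    (fun g hg => by rw [hk, if_pos hg]) (fun g hg => by rw [hk, if_neg hg])
    (fun y hy => by rw [hk', if_pos hy]) (fun y hy => by rw [hk', if_neg hy])
  refine ⟨fun x => β (H92T.xvEquiv LE π hv x),
    H92T.locMatch_single t π hπ hv hσ a d (fun c : Subgroup.centralizer ({γ} :
      Set PGL(2, F)) => incP E (c : PGL(2, F))) hβ, ?_⟩
  intro hG
  obtain ⟨g₀, hg₀m, hg₀, hdisc⟩ := hG.disc
  exact H92T.base_single t π hπ hv hσ a d (hβ0 ⟨hG.d_mem w ((hv w).2 rfl), g₀, hg₀, hg₀m,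
    hdisc⟩)

end Fermat.Agent.H61K
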