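import Fermat.Agent.H61K1

/-!
# Local algebra at an inert good place (S47, package C12): quadratic orders

`D` a discrete valuation ring (prime `π`), `s` an automorphism of order three fixing `π`, acting
nontrivially on the (finite) residue field.
-/

namespace Fermat.Agent.H61K

open Ideal

set_option linter.unusedSectionVars false

/-- `D` is a discrete valuation ring with uniformizer `π`, finite residue field, `s^3 = 1`,
`s π = π`, `s` nontrivial on the residue field. -/
structure Inert {D : Type*} [CommRing D] (s : D ≃+* D) (π : D) : Prop where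
  s3 : ∀ x, s (s (s x)) = x
  sπ : s π = π
  prime : Prime π
  unit : ∀ x, ¬ π ∣ x → IsUnit x
  sep : ∃ θ, ¬ π ∣ s θ - θ
  fin : Finite (D ⧸ span {π})
  mult : ∀ x, x ≠ 0 → ∃ n : ℕ, ¬ π ^ n ∣ x

namespace Inert

variable {D : Type*} [CommRing D] [IsDomain D] {s : D ≃+* D} {π : D}

theorem dvd_s (H : Inert s π) {x : D} (h : π ∣ x) : π ∣ s x := by
  obtain ⟨w, rfl⟩ := h
  rw [map_mul, H.sπ]
  exact Dvd.intro _ rfl

theorem dvd_s_iff (H : Inert s π) {x : D} : π ∣ s x ↔ π ∣ x := by
  refine ⟨fun h => ?_, H.dvd_s⟩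
  have := H.dvd_s (H.dvd_s h)
  rwa [H.s3] at this

theorem isUnit_iff (H : Inert s π) {x : D} : IsUnit x ↔ ¬ π ∣ x :=
  ⟨fun h hx => H.prime.not_isUnit (isUnit_of_dvd_unit hx h), H.unit x⟩

/-- independence of `1, s, s²` modulo `π` -/
theorem indep (H : Inert s π) {α : D} (β γ : D) (hα : ¬ π ∣ α) :
    ∃ z, ¬ π ∣ z * α + s z * β + s (s z) * γ := by
  obtain ⟨θ, hθ⟩ := H.sep
  by_contra hcon
  push Not at hcon
  have h1 := hcon 1
  have h2 := hcon θ
  have h3 := hcon (θ * θ)
  rw [map_one, map_one] at h1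
  rw [map_mul, map_mul] at h3
  have h4 : π ∣ (θ - s θ) * (θ - s (s θ)) * α := by
    have : (θ - s θ) * (θ - s (s θ)) * α =
        (θ * θ * α + s θ * s θ * β + s (s θ) * s (s θ) * γ) -
          (s θ + s (s θ)) * (θ * α + s θ * β + s (s θ) * γ) +
          s θ * s (s θ) * (1 * α + 1 * β + 1 * γ) := by ring
    rw [this]
    exact dvd_add (dvd_sub h3 (h2.mul_left _)) (h1.mul_left _)
  rcases H.prime.dvd_or_dvd h4 with h5 | h5
  · rcases H.prime.dvd_or_dvd h5 with h6 | h6
    · exact hθ (by rw [← dvd_neg, neg_sub]; exact h6)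
    · have h7 := H.dvd_s h6
      rw [map_sub, H.s3] at h7
      exact hθ h7
  · exact hα h5

theorem tr (H : Inert s π) : ∃ θ, θ + s θ + s (s θ) = 1 := by
  obtain ⟨z, hz⟩ := H.indep (α := 1) 1 1 (fun h => H.prime.not_isUnit (isUnit_of_dvd_one h))
  rw [mul_one, mul_one, mul_one] at hz
  obtain ⟨u, hu⟩ := (H.unit _ hz).exists_left_inv
  have hsu : s u = u := by
    have h1 : s (z + s z + s (s z)) = z + s z + s (s z) := by
      rw [map_add, map_add, H.s3]; ring
    have h2 : s u * (z + s z + s (s z)) = 1 := by rw [← h1, ← map_mul, hu, map_one]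
    calc s u = s u * (u * (z + s z + s (s z))) := by rw [hu, mul_one]
      _ = u * (s u * (z + s z + s (s z))) := by ring
      _ = u := by rw [h2, mul_one]
  refine ⟨u * z, ?_⟩
  rw [map_mul, map_mul, hsu, hsu, ← hu]
  ring

/-- `s`-fixed elements modulo `π` lift to `s`-fixed elements -/
theorem lift_fixed (H : Inert s π) {x : D} (h : π ∣ s x - x) : ∃ x₀, s x₀ = x₀ ∧ π ∣ x₀ - x := by
  obtain ⟨θ, hθ⟩ := H.tr
  refine ⟨θ * x + s (θ * x) + s (s (θ * x)), ?_, ?_⟩
  · rw [map_add, map_add, H.s3]; ring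
  · have h2 := H.dvd_s h
    rw [map_sub] at h2
    have : θ * x + s (θ * x) + s (s (θ * x)) - x =
        s θ * (s x - x) + s (s θ) * ((s (s x) - s x) + (s x - x)) := by
      rw [map_mul, map_mul]
      have : θ * x + s θ * s x + s (s θ) * s (s x) - x =
        s θ * (s x - x) + s (s θ) * ((s (s x) - s x) + (s x - x)) +
          ((θ + s θ + s (s θ)) - 1) * x := by ring
      rw [this, hθ]
      ring
    rw [this]
    exact dvd_add (h.mul_left _) ((dvd_add h2 h).mul_left _)

theorem unr (H : Inert s π) : Unr s π where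
  s3 := H.s3
  sπ := H.sπ
  fin := H.fin
  rad := by
    intro x y h
    refine H.unit x fun hx => H.prime.not_isUnit (isUnit_of_dvd_one ?_)
    have : (1 : D) = x * y - (x * y - 1) := by ring
    rw [this]
    exact dvd_sub (hx.mul_right _) h
  tr := H.tr
  two := by
    intro y₁ y₂
    obtain ⟨z, hz⟩ := H.indep (α := 1) y₁ y₂ (fun h => H.prime.not_isUnit (isUnit_of_dvd_one h))
    refine ⟨z, H.unit _ ?_⟩
    rwa [mul_one, mul_comm (s z), mul_comm (s (s z))] at hz

theorem regular (H : Inert s π) : IsLeftRegular π :=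
  fun _ _ h => mul_left_cancel₀ H.prime.ne_zero h

end Inert

/-! ### quadratic algebras -/

section quad

variable {R S : Type*} [CommRing R] [CommRing S]

/-- functoriality of quadratic algebras -/
def mapQ (f : R →+* S) {a b : R} {a' b' : S} (ha : f a = a') (hb : f b = b') :
    QuadraticAlgebra R a b →+* QuadraticAlgebra S a' b' where
  toFun y := ⟨f y.re, f y.im⟩
  map_zero' := by ext <;> simp
  map_one' := by ext <;> simp [QuadraticAlgebra.re_one, QuadraticAlgebra.im_one]
  map_add' x y := by ext <;> simp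
  map_mul' x y := by ext <;> simp [ha, hb]

@[simp] theorem mapQ_re (f : R →+* S) {a b : R} {a' b' : S} (ha : f a = a') (hb : f b = b')
    (y : QuadraticAlgebra R a b) : (mapQ f ha hb y).re = f y.re := rfl

@[simp] theorem mapQ_im (f : R →+* S) {a b : R} {a' b' : S} (ha : f a = a') (hb : f b = b')
    (y : QuadraticAlgebra R a b) : (mapQ f ha hb y).im = f y.im := rfl

theorem mapQ_norm (f : R →+* S) {a b : R} {a' b' : S} (ha : f a = a') (hb : f b = b')
    (y : QuadraticAlgebra R a b) : (mapQ f ha hb y).norm = f y.norm := by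
  simp [QuadraticAlgebra.norm_def, ha, hb]

/-- the automorphism of the quadratic algebra induced by an automorphism of the base -/
def eqQ (s : R ≃+* R) {a b : R} (ha : s a = a) (hb : s b = b) :
    QuadraticAlgebra R a b ≃+* QuadraticAlgebra R a b where
  toFun := mapQ (s : R →+* R) ha hb
  invFun := mapQ (s.symm : R →+* R) (by rw [RingEquiv.coe_toRingHom, RingEquiv.symm_apply_eq, ha])
    (by rw [RingEquiv.coe_toRingHom, RingEquiv.symm_apply_eq, hb])
  left_inv y := by
    ext
    · exact s.symm_apply_apply _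
    · exact s.symm_apply_apply _
  right_inv y := by
    ext
    · exact s.apply_symm_apply _
    · exact s.apply_symm_apply _
  map_mul' := map_mul _
  map_add' := map_add _

@[simp] theorem eqQ_re (s : R ≃+* R) {a b : R} (ha : s a = a) (hb : s b = b)
    (y : QuadraticAlgebra R a b) : (eqQ s ha hb y).re = s y.re := rfl

@[simp] theorem eqQ_im (s : R ≃+* R) {a b : R} (ha : s a = a) (hb : s b = b)
    (y : QuadraticAlgebra R a b) : (eqQ s ha hb y).im = s y.im := rfl

theorem eqQ_norm (s : R ≃+* R) {a b : R} (ha : s a = a) (hb : s b = b)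
    (y : QuadraticAlgebra R a b) : (eqQ s ha hb y).norm = s y.norm :=
  mapQ_norm (s : R →+* R) ha hb y

theorem eqQ_alg (s : R ≃+* R) {a b : R} (ha : s a = a) (hb : s b = b) (x : R) :
    eqQ s ha hb (algebraMap R _ x) = algebraMap R _ (s x) := by
  ext <;> simp

end quad

namespace Inert

variable {D : Type*} [CommRing D] [IsDomain D] {s : D ≃+* D} {π : D}

local notation "𝔸" => algebraMap _ (QuadraticAlgebra _ _ _)

theorem isUnitQ_iff (H : Inert s π) {a b : D} {y : QuadraticAlgebra D a b} :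
    IsUnit y ↔ ¬ π ∣ y.norm := by
  rw [QuadraticAlgebra.isUnit_iff_norm_isUnit, H.isUnit_iff]

/-- if `X² - bX - a` has no root modulo `π`, the norm is anisotropic modulo `π` -/
theorem anis (H : Inert s π) {a b : D} (hno : ∀ r : D, ¬ π ∣ r * r - b * r - a)
    (y : QuadraticAlgebra D a b) (hy : π ∣ y.norm) : π ∣ y.re ∧ π ∣ y.im := by
  have him : π ∣ y.im := by
    by_contra h
    obtain ⟨v, hv⟩ := (H.unit _ h).exists_left_inv
    refine hno (-(v * y.re)) ?_
    have : -(v * y.re) * -(v * y.re) - b * -(v * y.re) - a =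
        v * v * y.norm + (b * (v * y.re) - a - a * (v * y.im)) * (1 - v * y.im) := by
      rw [QuadraticAlgebra.norm_def]
      ring
    rw [this, hv, sub_self, mul_zero, add_zero]
    exact hy.mul_left _
  refine ⟨?_, him⟩
  rw [QuadraticAlgebra.norm_def] at hy
  have : π ∣ y.re * y.re := by
    have h2 : y.re * y.re = (y.re * y.re + b * y.re * y.im - a * y.im * y.im) -
      (b * y.re - a * y.im) * y.im := by ring
    rw [h2]
    exact dvd_sub hy (him.mul_left _)
  rcases H.prime.dvd_or_dvd this with h | h <;> exact h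

theorem norm_root {a b r : D} (y : QuadraticAlgebra D a b) :
    y.norm = (y.re + r * y.im) * (y.re + (b - r) * y.im) + (r * r - b * r - a) * y.im * y.im := by
  rw [QuadraticAlgebra.norm_def]
  ring

/-- the trace form `z + y₁ s(z) + y₂ s²(z)` is a unit for some scalar `z` -/
theorem two (H : Inert s π) {a b : D} (y₁ y₂ : QuadraticAlgebra D a b) :
    ∃ z : D, IsUnit (𝔸 z + y₁ * 𝔸 (s z) + y₂ * 𝔸 (s (s z)) : QuadraticAlgebra D a b) := by
  have h1 : ¬ π ∣ (1 : D) := fun h => H.prime.not_isUnit (isUnit_of_dvd_one h)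
  by_cases hno : ∀ r : D, ¬ π ∣ r * r - b * r - a
  · obtain ⟨z, hz⟩ := H.indep y₁.re y₂.re h1
    refine ⟨z, H.isUnitQ_iff.2 fun h => hz ?_⟩
    have := (H.anis hno _ h).1
    simpa [mul_comm] using this
  · push Not at hno
    obtain ⟨r, hr⟩ := hno
    set T : D → QuadraticAlgebra D a b :=
      fun z => 𝔸 z + y₁ * 𝔸 (s z) + y₂ * 𝔸 (s (s z)) with hT
    set e₁ : QuadraticAlgebra D a b → D := fun y => y.re + r * y.im with he₁
    set e₂ : QuadraticAlgebra D a b → D := fun y => y.re + (b - r) * y.im with he₂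
    have hu : ∀ y, ¬ π ∣ e₁ y → ¬ π ∣ e₂ y → IsUnit y := by
      intro y h1 h2
      refine H.isUnitQ_iff.2 fun h => ?_
      rw [norm_root (r := r)] at h
      have h3 : π ∣ e₁ y * e₂ y := by
        have : e₁ y * e₂ y = ((y.re + r * y.im) * (y.re + (b - r) * y.im) +
          (r * r - b * r - a) * y.im * y.im) - (r * r - b * r - a) * y.im * y.im := by
          simp only [he₁, he₂]; ring
        rw [this]
        exact dvd_sub h ((hr.mul_right _).mul_right _)
      rcases H.prime.dvd_or_dvd h3 with h4 | h4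
      · exact h1 h4
      · exact h2 h4
    have hTadd : ∀ z z', T (z + z') = T z + T z' := by
      intro z z'
      simp only [hT, map_add]
      ring
    have heT₁ : ∀ z, e₁ (T z) = z * 1 + s z * e₁ y₁ + s (s z) * e₁ y₂ := by
      intro z
      simp [hT, he₁]
      ring
    have heT₂ : ∀ z, e₂ (T z) = z * 1 + s z * e₂ y₁ + s (s z) * e₂ y₂ := by
      intro z
      simp [hT, he₂]
      ring
    have he₁add : ∀ x y, e₁ (x + y) = e₁ x + e₁ y := by
      intro x y; simp [he₁]; ring
    have he₂add : ∀ x y, e₂ (x + y) = e₂ x + e₂ y := by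
      intro x y; simp [he₂]; ring
    obtain ⟨z₁, hz₁⟩ := H.indep (e₁ y₁) (e₁ y₂) h1
    obtain ⟨z₂, hz₂⟩ := H.indep (e₂ y₁) (e₂ y₂) h1
    rw [← heT₁] at hz₁
    rw [← heT₂] at hz₂
    by_cases h2 : π ∣ e₂ (T z₁)
    · by_cases h3 : π ∣ e₁ (T z₂)
      · refine ⟨z₁ + z₂, hu (T (z₁ + z₂)) ?_ ?_⟩
        · rw [hTadd, he₁add]
          intro h
          exact hz₁ ((dvd_add_left h3).1 h)
        · rw [hTadd, he₂add]
          intro h
          exact hz₂ ((dvd_add_right h2).1 h)
      · exact ⟨z₂, hu (T z₂) h3 hz₂⟩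
    · exact ⟨z₁, hu (T z₁) hz₁ h2⟩

theorem unrQ (H : Inert s π) {a b : D} (ha : s a = a) (hb : s b = b) :
    Unr (eqQ s ha hb) (𝔸 π : QuadraticAlgebra D a b) where
  s3 := by intro x; ext <;> simp [H.s3]
  sπ := by ext <;> simp [H.sπ]
  fin := by
    have := H.fin
    refine Finite.of_surjective (fun p : (D ⧸ span {π}) × (D ⧸ span {π}) =>
      Ideal.Quotient.mk (span {(𝔸 π : QuadraticAlgebra D a b)}) ⟨p.1.out, p.2.out⟩) ?_
    intro y
    obtain ⟨y, rfl⟩ := Ideal.Quotient.mk_surjective y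
    refine ⟨(Ideal.Quotient.mk _ y.re, Ideal.Quotient.mk _ y.im), ?_⟩
    rw [Ideal.Quotient.eq, mem_span_singleton, QuadraticAlgebra.algebraMap_dvd_iff]
    constructor
    · rw [← mem_span_singleton, QuadraticAlgebra.re_sub, ← Ideal.Quotient.eq]
      exact Quotient.out_eq _
    · rw [← mem_span_singleton, QuadraticAlgebra.im_sub, ← Ideal.Quotient.eq]
      exact Quotient.out_eq _
  rad := by
    intro x y h
    rw [H.isUnitQ_iff]
    intro hx
    refine H.prime.not_isUnit (isUnit_of_dvd_one ?_)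
    rw [QuadraticAlgebra.algebraMap_dvd_iff] at h
    obtain ⟨⟨p, hp⟩, ⟨q, hq⟩⟩ := h
    have h1 : x * y = ⟨1 + π * p, π * q⟩ := by
      ext
      · simp only [QuadraticAlgebra.re_sub, QuadraticAlgebra.re_one] at hp
        rw [← hp]; ring
      · simp only [QuadraticAlgebra.im_sub, QuadraticAlgebra.im_one] at hq
        rw [← hq]; ring
    have h2 : x.norm * y.norm = (1 + π * p) * (1 + π * p) + b * (1 + π * p) * (π * q)
        - a * (π * q) * (π * q) := by
      rw [← map_mul, h1, QuadraticAlgebra.norm_def]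
    have h3 : (1 : D) = x.norm * y.norm - π * (p + p * (1 + π * p) + b * (1 + π * p) * q -
        a * q * (π * q)) := by
      rw [h2]; ring
    rw [h3]
    exact dvd_sub (hx.mul_right _) (Dvd.intro _ rfl)
  tr := by
    obtain ⟨θ, hθ⟩ := H.tr
    refine ⟨𝔸 θ, ?_⟩
    rw [eqQ_alg, eqQ_alg, ← map_add, ← map_add, hθ, map_one]
  two := by
    intro y₁ y₂
    obtain ⟨z, hz⟩ := H.two y₁ y₂
    refine ⟨𝔸 z, ?_⟩
    rwa [eqQ_alg, eqQ_alg]

theorem regularQ (H : Inert s π) {a b : D} : IsLeftRegular (𝔸 π : QuadraticAlgebra D a b) := by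
  intro x y h
  have h' : (𝔸 π : QuadraticAlgebra D a b) * x = 𝔸 π * y := h
  rw [QuadraticAlgebra.ext_iff] at h'
  simp only [QuadraticAlgebra.re_mul, QuadraticAlgebra.im_mul, QuadraticAlgebra.algebraMap_re,
    QuadraticAlgebra.algebraMap_im, mul_zero, zero_mul, add_zero] at h'
  ext
  · exact mul_left_cancel₀ H.prime.ne_zero h'.1
  · exact mul_left_cancel₀ H.prime.ne_zero h'.2

/-- units of the order `D[ω]` fixed by `s` are norms up to `π^k` -/
theorem approxQ (H : Inert s π) {a b : D} (ha : s a = a) (hb : s b = b)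
    {g : QuadraticAlgebra D a b} (hg : IsUnit g) (hs : eqQ s ha hb g = g) (k : ℕ) :
    ∃ h, IsUnit h ∧ (𝔸 π : QuadraticAlgebra D a b) ^ k ∣
      h * eqQ s ha hb h * eqQ s ha hb (eqQ s ha hb h) - g :=
  (H.unrQ ha hb).approx hg hs H.regularQ k

/-- Step A: integrality. `X² - bX - a` is the characteristic polynomial of `ω`; the order `D[ω]`
is maximal at fixed elements. If `N(y)` is divisible by `π` and `π² ∣ norm y`, then
`y ∈ π D[ω]`. -/
theorem stepA (H : Inert s π) {a b : D} (ha : s a = a) (hb : s b = b)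
    (hmax : ∀ r, s r = r → π ∣ b - 2 * r → ¬ π ^ 2 ∣ r * r - b * r - a)
    (y : QuadraticAlgebra D a b) (hn : π ^ 2 ∣ y.norm)
    (hN : (𝔸 π : QuadraticAlgebra D a b) ∣ y * eqQ s ha hb y * eqQ s ha hb (eqQ s ha hb y)) :
    π ∣ y.re ∧ π ∣ y.im := by
  have hn1 : π ∣ y.norm := (dvd_pow_self π two_ne_zero).trans hn
  by_cases hno : ∀ r : D, ¬ π ∣ r * r - b * r - a
  · exact H.anis hno y hn1
  push Not at hno
  obtain ⟨r₁, hr₁⟩ := hno
  -- the root is fixed modulo `π`
  have hfix : π ∣ s r₁ - r₁ := by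
    have h1 := H.dvd_s hr₁
    rw [map_sub, map_sub, map_mul, map_mul, hb, ha] at h1
    have h2 : π ∣ (s r₁ - r₁) * (s r₁ - (b - r₁)) := by
      have : (s r₁ - r₁) * (s r₁ - (b - r₁)) =
        (s r₁ * s r₁ - b * s r₁ - a) - (r₁ * r₁ - b * r₁ - a) := by ring
      rw [this]
      exact dvd_sub h1 hr₁
    rcases H.prime.dvd_or_dvd h2 with h | h
    · exact h
    · have h3 := H.dvd_s h
      rw [map_sub, map_sub, hb] at h3
      have h4 : π ∣ s (s r₁) - r₁ := by
        have : s (s r₁) - r₁ = (s (s r₁) - (b - s r₁)) - (s r₁ - (b - r₁)) := by ring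
        rw [this]
        exact dvd_sub h3 h
      have h5 := H.dvd_s h4
      rw [map_sub, H.s3] at h5
      rw [← dvd_neg, neg_sub]
      exact h5
  obtain ⟨r, hsr, hr0⟩ := H.lift_fixed hfix
  have hr : π ∣ r * r - b * r - a := by
    have : r * r - b * r - a = (r₁ * r₁ - b * r₁ - a) + (r - r₁) * (r + r₁ - b) := by ring
    rw [this]
    exact dvd_add hr₁ (hr0.mul_right _)
  -- an evaluation modulo `π` at a fixed root kills `y`
  have hev : ∀ q : D, s q = q → π ∣ q * q - b * q - a → π ∣ y.re + q * y.im := by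
    intro q hq hq'
    obtain ⟨w, hw⟩ := hN
    have hmul : ∀ x y : QuadraticAlgebra D a b, π ∣ ((x * y).re + q * (x * y).im) -
        (x.re + q * x.im) * (y.re + q * y.im) := by
      intro x y
      have : ((x * y).re + q * (x * y).im) - (x.re + q * x.im) * (y.re + q * y.im) =
          -(q * q - b * q - a) * (x.im * y.im) := by
        simp only [QuadraticAlgebra.re_mul, QuadraticAlgebra.im_mul]
        ring
      rw [this]
      exact (dvd_neg.2 hq').mul_right _
    have h1 := hmul (y * eqQ s ha hb y) (eqQ s ha hb (eqQ s ha hb y))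
    have h2 := hmul y (eqQ s ha hb y)
    rw [hw] at h1
    have h3 : π ∣ (𝔸 π * w).re + q * (𝔸 π * w).im := by
      simp only [QuadraticAlgebra.re_mul, QuadraticAlgebra.im_mul, QuadraticAlgebra.algebraMap_re,
        QuadraticAlgebra.algebraMap_im]
      exact ⟨w.re + q * w.im, by ring⟩
    have h4 : π ∣ ((y * eqQ s ha hb y).re + q * (y * eqQ s ha hb y).im) *
        ((eqQ s ha hb (eqQ s ha hb y)).re + q * (eqQ s ha hb (eqQ s ha hb y)).im) := by
      have := dvd_sub h3 h1
      rwa [sub_sub_cancel] at this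
    have hsev : ∀ x : QuadraticAlgebra D a b, (eqQ s ha hb x).re + q * (eqQ s ha hb x).im =
        s (x.re + q * x.im) := by
      intro x
      rw [map_add, map_mul, hq]
      rfl
    rcases H.prime.dvd_or_dvd h4 with h | h
    · have h5 := dvd_sub h h2
      rw [sub_sub_cancel] at h5
      rcases H.prime.dvd_or_dvd h5 with h6 | h6
      · exact h6
      · rw [hsev] at h6
        exact H.dvd_s_iff.1 h6
    · rw [hsev, hsev] at h
      exact H.dvd_s_iff.1 (H.dvd_s_iff.1 h)
  have e1 := hev r hsr hr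
  by_cases hd : π ∣ b - 2 * r
  · -- double root
    have h3 : ¬ π ^ 2 ∣ r * r - b * r - a := hmax r hsr hd
    obtain ⟨q, hq⟩ := hr
    have hq' : ¬ π ∣ q := by
      intro h
      apply h3
      rw [hq, pow_two]
      exact mul_dvd_mul_left _ h
    have h4 : π ^ 2 ∣ π * q * (y.im * y.im) := by
      obtain ⟨u, hu⟩ := e1
      obtain ⟨v, hv⟩ := hd
      obtain ⟨n, hn'⟩ := hn
      refine ⟨n - u * u - v * u * y.im, ?_⟩
      have h5 : y.norm = (y.re + r * y.im) * (y.re + r * y.im) +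
          (b - 2 * r) * (y.re + r * y.im) * y.im + (r * r - b * r - a) * (y.im * y.im) := by
        rw [QuadraticAlgebra.norm_def]; ring
      rw [hn', hu, hv, hq] at h5
      linear_combination -h5
    have h5 : π ∣ q * (y.im * y.im) := by
      rw [pow_two, mul_assoc] at h4
      exact (mul_dvd_mul_iff_left H.prime.ne_zero).1 h4
    have h6 : π ∣ y.im := by
      rcases H.prime.dvd_or_dvd h5 with h | h
      · exact absurd h hq'
      · rcases H.prime.dvd_or_dvd h with h | h <;> exact h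
    refine ⟨?_, h6⟩
    have : y.re = (y.re + r * y.im) - r * y.im := by ring
    rw [this]
    exact dvd_sub e1 (h6.mul_left _)
  · have hr' : π ∣ (b - r) * (b - r) - b * (b - r) - a := by
      have : (b - r) * (b - r) - b * (b - r) - a = r * r - b * r - a := by ring
      rwa [this]
    have e2 := hev (b - r) (by rw [map_sub, hb, hsr]) hr'
    have h6 : π ∣ y.im := by
      have : π ∣ (b - 2 * r) * y.im := by
        have : (b - 2 * r) * y.im = (y.re + (b - r) * y.im) - (y.re + r * y.im) := by ring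
        rw [this]
        exact dvd_sub e2 e1
      rcases H.prime.dvd_or_dvd this with h | h
      · exact absurd h hd
      · exact h
    refine ⟨?_, h6⟩
    have : y.re = (y.re + r * y.im) - r * y.im := by ring
    rw [this]
    exact dvd_sub e1 (h6.mul_left _)

/-- Step B: the main construction. -/
theorem stepB (H : Inert s π) {a b : D} (ha : s a = a) (hb : s b = b) {c : D} (hc : s c = c)
    {k : ℕ} {y : QuadraticAlgebra D a b} (hy : IsUnit y)
    (hN : y * eqQ s ha hb y * eqQ s ha hb (eqQ s ha hb y) = ⟨c, π ^ k⟩) :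
    ∃ t e : QuadraticAlgebra D a b, IsUnit t ∧ IsUnit e ∧ π ^ k ∣ e.im ∧
      y * t = eqQ s ha hb t * e := by
  rcases Nat.eq_zero_or_pos k with rfl | hk
  · exact ⟨1, y, isUnit_one, hy, by simp, by simp⟩
  -- `c` is a unit
  have hg : IsUnit (⟨c, π ^ k⟩ : QuadraticAlgebra D a b) := by
    rw [← hN]
    exact (hy.mul (hy.map _)).mul ((hy.map _).map _)
  have hcu : IsUnit c := by
    refine H.unit c fun h => (H.isUnitQ_iff.1 hg) ?_
    rw [QuadraticAlgebra.norm_def]
    have hpk : π ∣ π ^ k := dvd_pow_self π hk.ne'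
    exact dvd_sub (dvd_add (h.mul_right _) ((h.mul_left _).mul_right _)) (hpk.mul_left _)
  obtain ⟨h, hhu, d, hd⟩ := H.unr.approx hcu hc H.regular k
  obtain ⟨hi, hhi⟩ := hhu.exists_left_inv
  obtain ⟨yi, hyi⟩ := hy.exists_left_inv
  -- `x = y / h`, `x⁻¹ = h * yi`
  set σ := eqQ s ha hb with hσ
  obtain ⟨x', hx'⟩ : ∃ x' : QuadraticAlgebra D a b, x' = 𝔸 h * yi := ⟨_, rfl⟩
  obtain ⟨z, hz⟩ := H.two x' (x' * σ x')
  obtain ⟨T, hT⟩ : ∃ T : QuadraticAlgebra D a b,
    T = 𝔸 z + x' * 𝔸 (s z) + x' * σ x' * 𝔸 (s (s z)) := ⟨_, rfl⟩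
  rw [← hT] at hz
  have hσh : ∀ u : D, σ (𝔸 u) = 𝔸 (s u) := fun u => eqQ_alg s ha hb u
  have hσT : σ T = 𝔸 (s z) + σ x' * 𝔸 (s (s z)) + σ x' * σ (σ x') * 𝔸 z := by
    rw [hT, map_add, map_add, map_mul, map_mul, map_mul, hσh, hσh, hσh, H.s3]
  have hσTu : IsUnit (σ T) := hz.map _
  obtain ⟨w, hw⟩ := hσTu.exists_left_inv
  have hyσ : σ yi * σ y = 1 := by rw [← map_mul, hyi, map_one]
  have hyσσ : σ (σ yi) * σ (σ y) = 1 := by rw [← map_mul, hyσ, map_one]
  refine ⟨T, y * T * w, hz, (hy.mul hz).mul (IsUnit.of_mul_eq_one _ hw), ?_, ?_⟩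
  swap
  · calc y * T = y * T * (w * σ T) := by rw [hw, mul_one]
      _ = σ T * (y * T * w) := by ring
  -- the error term
  have hNc : y * σ y * σ (σ y) = 𝔸 (h * s h * s (s h)) + 𝔸 (π ^ k) * (QuadraticAlgebra.mk (-d) 1) := by
    rw [hN]
    ext
    · simp only [QuadraticAlgebra.re_add, QuadraticAlgebra.algebraMap_re,
        QuadraticAlgebra.re_mul, QuadraticAlgebra.algebraMap_im]
      rw [sub_eq_iff_eq_add.1 hd]
      ring
    · simp only [QuadraticAlgebra.im_add, QuadraticAlgebra.algebraMap_re,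
        QuadraticAlgebra.im_mul, QuadraticAlgebra.algebraMap_im]
      ring
  have h1 : (𝔸 h : QuadraticAlgebra D a b) * 𝔸 hi = 1 := by
    rw [← map_mul, mul_comm, hhi, map_one]
  have h2 : (𝔸 (s h) : QuadraticAlgebra D a b) * 𝔸 (s hi) = 1 := by
    rw [← map_mul, ← map_mul, mul_comm, hhi, map_one, map_one]
  have h3 : (𝔸 (s (s h)) : QuadraticAlgebra D a b) * 𝔸 (s (s hi)) = 1 := by
    rw [← map_mul, ← map_mul, ← map_mul, mul_comm, hhi, map_one, map_one, map_one]
  have hyT : y * T = 𝔸 h * σ T + 𝔸 (π ^ k) * ((QuadraticAlgebra.mk (-d) 1) * σ yi * σ (σ yi) *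
      𝔸 z) := by
    have e0 : y * T = y * 𝔸 z + 𝔸 h * 𝔸 (s z) + 𝔸 h * (𝔸 (s h) * σ yi) * 𝔸 (s (s z)) := by
      rw [hT, hx', map_mul, hσh]
      linear_combination (𝔸 h * 𝔸 (s z) + 𝔸 h * (𝔸 (s h) * σ yi) * 𝔸 (s (s z))) * hyi
    have e1 : 𝔸 h * σ T = 𝔸 h * 𝔸 (s z) + 𝔸 h * (𝔸 (s h) * σ yi) * 𝔸 (s (s z)) +
        𝔸 (h * s h * s (s h)) * (σ yi * σ (σ yi)) * 𝔸 z := by
      rw [hσT, hx', map_mul, map_mul, hσh, hσh, map_mul, map_mul]
      ring
    have e2 : y = (y * σ y * σ (σ y)) * (σ yi * σ (σ yi)) := by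
      linear_combination (-y) * hyσ + (-y * σ yi * σ y) * hyσσ
    rw [e0, e1]
    conv_lhs => rw [e2]
    rw [hNc]
    ring
  have hee : y * T * w = 𝔸 h + 𝔸 (π ^ k) * ((QuadraticAlgebra.mk (-d) 1) * σ yi * σ (σ yi) *
      𝔸 z * w) := by
    rw [hyT]
    linear_combination (𝔸 h) * hw
  rw [hee, QuadraticAlgebra.im_add, QuadraticAlgebra.algebraMap_im, zero_add,
    QuadraticAlgebra.im_mul, QuadraticAlgebra.algebraMap_im, QuadraticAlgebra.algebraMap_re,
    zero_mul, mul_zero, zero_mul, add_zero, add_zero]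
  exact Dvd.intro _ rfl

end Inert

end Fermat.Agent.H61K
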