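import Fermat.Agent.H61K2
import Fermat.Agent.H20S5

/-!
# Local algebra at an inert good place (S47, package C12): matrices over the field
-/

set_option autoImplicit false
set_option linter.unusedSectionVars false
set_option linter.unusedVariables false

namespace Fermat.Agent.H61K

open Ideal Matrix
open Fermat.Agent.H20.S47 (sM inc nm lin sM_apply)

/-- the maximal `k` such that `(γ - c)/π^k` is integral -/
theorem Inert.exists_max {D : Type*} [CommRing D] [IsDomain D] {s : D ≃+* D} {π : D}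
    (H : Inert s π) {τ ν : D} (hτ : s τ = τ) (hν : s ν = ν) (hdisc : τ * τ - 4 * ν ≠ 0) :
    ∃ (k : ℕ) (c a b : D), s c = c ∧ s a = a ∧ s b = b ∧ τ = 2 * c + π ^ k * b ∧
      ν = c * c + b * c * π ^ k - a * π ^ k * π ^ k ∧
      ∀ r, s r = r → π ∣ b - 2 * r → ¬ π ^ 2 ∣ r * r - b * r - a := by
  classical
  let P : ℕ → Prop := fun k => ∃ c : D, s c = c ∧ π ^ k ∣ τ - 2 * c ∧
    π ^ (2 * k) ∣ c * c - τ * c + ν
  have hP0 : P 0 := ⟨0, map_zero s, by simp, by simp⟩
  obtain ⟨n, hn⟩ := H.mult _ hdisc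
  have hbd : ∀ k, P k → k ≤ n := by
    rintro k ⟨c, -, h1, h2⟩
    by_contra hk
    push Not at hk
    apply hn
    have h3 : τ * τ - 4 * ν = (τ - 2 * c) * (τ - 2 * c) - 4 * (c * c - τ * c + ν) := by ring
    rw [h3]
    refine dvd_sub ?_ ?_
    · exact ((pow_dvd_pow π hk.le).trans h1).mul_right _
    · exact ((pow_dvd_pow π (by omega)).trans h2).mul_left _
  obtain ⟨k, hk, hmax⟩ : ∃ k, P k ∧ ∀ m, P m → m ≤ k := by
    refine ⟨Nat.findGreatest P n, Nat.findGreatest_spec (P := P) (Nat.zero_le n) hP0, ?_⟩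
    intro m hm
    exact Nat.le_findGreatest (hbd m hm) hm
  obtain ⟨c, hc, ⟨b, hb⟩, ⟨a, ha⟩⟩ := hk
  have hπk : ∀ j : ℕ, s (π ^ j) = π ^ j := fun j => by rw [map_pow, H.sπ]
  have hne : ∀ j : ℕ, π ^ j ≠ 0 := fun j => pow_ne_zero _ H.prime.ne_zero
  have hsb : s b = b := by
    have h1 : s (τ - 2 * c) = τ - 2 * c := by rw [map_sub, map_mul, hτ, hc, map_ofNat]
    rw [hb, map_mul, hπk] at h1
    exact mul_left_cancel₀ (hne k) h1
  have hsa : s a = a := by
    have h1 : s (c * c - τ * c + ν) = c * c - τ * c + ν := by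
      rw [map_add, map_sub, map_mul, map_mul, hτ, hc, hν]
    rw [ha, map_mul, hπk] at h1
    exact mul_left_cancel₀ (hne _) h1
  refine ⟨k, c, -a, b, hc, by rw [map_neg, hsa], hsb, ?_, ?_, ?_⟩
  · linear_combination hb
  · have h2 : π ^ (2 * k) = π ^ k * π ^ k := by rw [two_mul, pow_add]
    rw [h2] at ha
    linear_combination ha + c * hb
  · intro r hr h1 h2
    have h3 : P (k + 1) := by
      refine ⟨c + π ^ k * r, by rw [map_add, map_mul, hπk, hc, hr], ?_, ?_⟩
      · have : τ - 2 * (c + π ^ k * r) = π ^ k * (b - 2 * r) := by linear_combination hb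
        rw [this, pow_succ]
        exact mul_dvd_mul_left _ h1
      · have : (c + π ^ k * r) * (c + π ^ k * r) - τ * (c + π ^ k * r) + ν =
            π ^ (2 * k) * (r * r - b * r - -a) := by
          have h2 : π ^ (2 * k) = π ^ k * π ^ k := by rw [two_mul, pow_add]
          rw [h2] at ha ⊢
          linear_combination ha - π ^ k * r * hb
        rw [this, show 2 * (k + 1) = 2 * k + 2 by ring, pow_add]
        exact mul_dvd_mul_left _ h2
    have := hmax _ h3
    omega

section field

variable {F E : Type*} [Field F] [Field E] [Algebra F E] {Γ₀ : Type*}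
  [LinearOrderedCommGroupWithZero Γ₀]

/-- The valuation `v` of `E` is inert for `s` (of order three), with uniformizer `π` fixed by `s`,
with finite residue field. -/
structure InertV (v : Valuation E Γ₀) (s : E ≃ₐ[F] E) (π : E) : Prop where
  s3 : ∀ x, s (s (s x)) = x
  vs : ∀ x, v (s x) = v x
  sπ : s π = π
  π0 : π ≠ 0
  πlt : v π < 1
  disc : ∀ x, x ≠ 0 → ∃ n : ℤ, v x = v π ^ n
  sep : ∃ θ, v θ ≤ 1 ∧ v (s θ - θ) = 1
  fin : ∃ S : Set E, S.Finite ∧ ∀ x, v x ≤ 1 → ∃ r ∈ S, v (x - r) < 1

namespace InertV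

variable {v : Valuation E Γ₀} {s : E ≃ₐ[F] E} {π : E}

/-- the uniformizer in the valuation ring -/
def pD (H : InertV v s π) : v.integer := ⟨π, H.πlt.le⟩

/-- the automorphism of the valuation ring -/
def sD (H : InertV v s π) : v.integer ≃+* v.integer where
  toFun x := ⟨s x, (H.vs x).le.trans x.2⟩
  invFun x := ⟨s (s x), by
    show v (s (s x)) ≤ 1
    rw [H.vs, H.vs]; exact x.2⟩
  left_inv x := Subtype.ext (H.s3 x)
  right_inv x := Subtype.ext (H.s3 x)
  map_mul' x y := Subtype.ext (by simp)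
  map_add' x y := Subtype.ext (by simp)

@[simp] theorem pD_val (H : InertV v s π) : (H.pD : E) = π := rfl

@[simp] theorem sD_val (H : InertV v s π) (x : v.integer) : ((H.sD x : v.integer) : E) = s x := rfl

theorem vlt_iff (H : InertV v s π) {x : E} : v x < 1 ↔ v x ≤ v π := by
  constructor
  · intro h
    by_cases hx : x = 0
    · rw [hx, map_zero]; exact zero_le
    obtain ⟨n, hn⟩ := H.disc x hx
    have h0 : (0 : Γ₀) < v π := zero_lt_iff.2 ((Valuation.ne_zero_iff _).2 H.π0)
    have hn1 : 1 ≤ n := by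
      by_contra hcon
      push Not at hcon
      have : 1 ≤ v π ^ n := by
        have h2 : n = -(-n) := by ring
        rw [h2, _root_.zpow_neg]
        obtain ⟨m, hm⟩ : ∃ m : ℕ, -n = m := ⟨(-n).toNat, by omega⟩
        rw [hm, zpow_natCast]
        rw [one_le_inv₀ (pow_pos h0 m)]
        exact pow_le_one' H.πlt.le m
      rw [← hn] at this
      exact absurd h (not_lt.2 this)
    rw [hn]
    obtain ⟨m, hm⟩ : ∃ m : ℕ, n = m + 1 := ⟨(n - 1).toNat, by omega⟩
    rw [hm, zpow_add₀ h0.ne', zpow_one, zpow_natCast]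
    exact mul_le_of_le_one_left' (pow_le_one' H.πlt.le m)
  · exact fun h => h.trans_lt H.πlt

theorem dvd_iff' (H : InertV v s π) {x y : v.integer} : x ∣ y ↔ v (y : E) ≤ v (x : E) := by
  constructor
  · rintro ⟨z, rfl⟩
    rw [Subring.coe_mul, map_mul]
    exact mul_le_of_le_one_right' z.2
  · intro h
    by_cases hx : (x : E) = 0
    · have hy : (y : E) = 0 := by
        rw [hx, map_zero] at h
        exact (Valuation.zero_iff v).1 (le_zero_iff.1 h)
      have : y = 0 := Subtype.ext hy
      rw [this]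
      exact dvd_zero _
    · refine ⟨⟨(y : E) / x, ?_⟩, Subtype.ext ?_⟩
      · show v ((y : E) / x) ≤ 1
        rw [map_div₀]
        exact div_le_one_of_le₀ h zero_le
      · show (y : E) = x * (y / x)
        rw [mul_div_cancel₀ _ hx]

theorem pD_dvd (H : InertV v s π) {x : v.integer} : H.pD ∣ x ↔ v (x : E) < 1 := by
  rw [H.dvd_iff', H.vlt_iff, pD_val]

theorem inert (H : InertV v s π) : Inert H.sD H.pD where
  s3 x := Subtype.ext (H.s3 x)
  sπ := Subtype.ext H.sπ
  prime := by
    refine ⟨fun h => H.π0 (congrArg Subtype.val h), ?_, ?_⟩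
    · intro h
      have h1 : H.pD ∣ 1 := h.dvd
      rw [H.pD_dvd] at h1
      simp at h1
    · intro x y h
      rw [H.pD_dvd] at h ⊢
      rw [H.pD_dvd]
      by_contra hcon
      push Not at hcon
      rw [Subring.coe_mul, map_mul, le_antisymm x.2 hcon.1, le_antisymm y.2 hcon.2, one_mul] at h
      exact lt_irrefl _ h
  unit := by
    intro x hx
    rw [H.pD_dvd, not_lt] at hx
    have hv : v (x : E) = 1 := le_antisymm x.2 hx
    have hx0 : (x : E) ≠ 0 := by
      intro h
      rw [h, map_zero] at hv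
      exact zero_ne_one hv
    refine IsUnit.of_mul_eq_one ⟨(x : E)⁻¹, ?_⟩ (Subtype.ext ?_)
    · show v (x : E)⁻¹ ≤ 1
      rw [map_inv₀, hv, inv_one]
    · show (x : E) * (x : E)⁻¹ = 1
      exact mul_inv_cancel₀ hx0
  sep := by
    obtain ⟨θ, h1, h2⟩ := H.sep
    refine ⟨⟨θ, h1⟩, fun h => ?_⟩
    rw [H.pD_dvd] at h
    exact h.ne h2
  fin := by
    obtain ⟨S, hS, h⟩ := H.fin
    have hS' : Finite {x : v.integer // (x : E) ∈ S} := by
      have := hS.to_subtype
      exact Finite.of_injective (fun x : {x : v.integer // (x : E) ∈ S} => (⟨(x : v.integer), x.2⟩ : S))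
        (by
          intro x y hxy
          exact Subtype.ext (Subtype.ext (congrArg (fun z : S => (z : E)) hxy)))
    refine Finite.of_surjective (fun x : {x : v.integer // (x : E) ∈ S} =>
      Ideal.Quotient.mk (span {H.pD}) (x : v.integer)) ?_
    intro y
    obtain ⟨y, rfl⟩ := Ideal.Quotient.mk_surjective y
    obtain ⟨r, hr, h3⟩ := h y y.2
    have hr1 : v r ≤ 1 := by
      have : r = (y : E) - (y - r) := by ring
      rw [this]
      exact (Valuation.map_sub _ _ _).trans (max_le y.2 h3.le)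
    refine ⟨⟨⟨r, hr1⟩, hr⟩, ?_⟩
    rw [Ideal.Quotient.eq, mem_span_singleton, H.pD_dvd]
    show v (r - (y : E)) < 1
    rwa [Valuation.map_sub_swap]
  mult := by
    intro x hx
    have hx0 : (x : E) ≠ 0 := fun h => hx (Subtype.ext h)
    obtain ⟨n, hn⟩ := H.disc x hx0
    have h0 : (0 : Γ₀) < v π := zero_lt_iff.2 ((Valuation.ne_zero_iff _).2 H.π0)
    refine ⟨(n + 1).toNat, fun h => ?_⟩
    rw [H.dvd_iff', Subring.coe_pow, pD_val, map_pow, hn] at h
    have h1 : v π ^ ((n + 1).toNat : ℤ) ≤ v π ^ (n + 1) := by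
      obtain ⟨m, hm⟩ : ∃ m : ℕ, ((n + 1).toNat : ℤ) = n + 1 + m :=
        ⟨(((n + 1).toNat : ℤ) - (n + 1)).toNat, by omega⟩
      rw [hm, zpow_add₀ h0.ne', zpow_natCast]
      exact mul_le_of_le_one_right' (pow_le_one' H.πlt.le m)
    rw [zpow_natCast] at h1
    have h2 : v π ^ (n + 1) < v π ^ n := by
      rw [zpow_add₀ h0.ne', zpow_one]
      have h3 : 0 < v π ^ n := zpow_pos h0 n
      calc v π ^ n * v π < v π ^ n * 1 := by
            exact (mul_lt_mul_iff_right₀ h3).2 H.πlt
        _ = v π ^ n := mul_one _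
    exact absurd ((h.trans h1).trans_lt h2) (lt_irrefl _)

/-! ### the quadratic algebra generated by a matrix -/

/-- the map `x + yω ↦ x + yW` from a quadratic algebra to matrices -/
noncomputable def matHom {a b : E} (W : Matrix (Fin 2) (Fin 2) E) (hW : W * W = a • 1 + b • W) :
    QuadraticAlgebra E a b →ₐ[E] Matrix (Fin 2) (Fin 2) E :=
  QuadraticAlgebra.lift ⟨W, hW⟩

theorem matHom_apply {a b : E} (W : Matrix (Fin 2) (Fin 2) E) (hW : W * W = a • 1 + b • W)
    (y : QuadraticAlgebra E a b) : matHom W hW y = y.re • (1 : Matrix _ _ E) + y.im • W := rfl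

theorem det_matHom {a b : E} (W : Matrix (Fin 2) (Fin 2) E) (hW : W * W = a • 1 + b • W)
    (htr : W.trace = b) (hdet : W.det = -a) (y : QuadraticAlgebra E a b) :
    (matHom W hW y).det = y.norm := by
  have h1 : matHom W hW y = lin W y.re y.im := rfl
  rw [h1, Fermat.Agent.H20.S47.det_lin, htr, hdet, QuadraticAlgebra.norm_def]
  ring

theorem eq_one_of_mul_self {x : Γ₀} (h : x * x * x = 1) : x = 1 := by
  rcases lt_trichotomy x 1 with h1 | h1 | h1
  · exfalso
    have : x * x * x ≤ x := by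
      calc x * x * x ≤ 1 * 1 * x := by gcongr
        _ = x := by rw [one_mul, one_mul]
    rw [h] at this
    exact absurd h1 (not_lt.2 this)
  · exact h1
  · exfalso
    have : x ≤ x * x * x := by
      calc x = 1 * 1 * x := by rw [one_mul, one_mul]
        _ ≤ x * x * x := by gcongr
    rw [h] at this
    exact absurd h1 (not_lt.2 this)

/-- **the key construction**: if `N d = c`, `c` integral with unit determinant and nonzero
discriminant, then `d t = s(t) e` with `e` a unit of the order generated by `c`. -/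
theorem exists_te (H : InertV v s π) {c : Matrix (Fin 2) (Fin 2) E} (hc : sM s c = c)
    (htr : v c.trace ≤ 1) (hdet : v c.det = 1) (hdisc : c.trace * c.trace - 4 * c.det ≠ 0)
    {d0 d1 : E} (hN : nm s (lin c d0 d1) = c) :
    ∃ x y p q : E, v p ≤ 1 ∧ v q ≤ 1 ∧ (lin c x y).det ≠ 0 ∧ v (lin c p q).det = 1 ∧
      lin c d0 d1 * lin c x y = sM s (lin c x y) * lin c p q := by
  have I := H.inert
  have htrs : s c.trace = c.trace := by rw [← Fermat.Agent.H20.S47.trace_sM, hc]
  have hdets : s c.det = c.det := by rw [← Fermat.Agent.H20.S47.det_sM, hc]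
  obtain ⟨k, r, a, b, hr, ha, hb, h1, h2, hmax⟩ := I.exists_max (τ := ⟨c.trace, htr⟩)
    (ν := ⟨c.det, hdet.le⟩) (Subtype.ext htrs) (Subtype.ext hdets)
    (fun h => hdisc (congrArg Subtype.val h))
  replace h1 : c.trace = 2 * (r : E) + π ^ k * b := congrArg Subtype.val h1
  replace h2 : c.det = r * r + b * r * π ^ k - a * π ^ k * π ^ k := congrArg Subtype.val h2
  have hr' : s (r : E) = r := congrArg Subtype.val hr
  have ha' : s (a : E) = a := congrArg Subtype.val ha
  have hb' : s (b : E) = b := congrArg Subtype.val hb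
  obtain ⟨ϖ, hϖ⟩ : ∃ ϖ : E, ϖ = π ^ k := ⟨_, rfl⟩
  have hϖ0 : ϖ ≠ 0 := by rw [hϖ]; exact pow_ne_zero _ H.π0
  have hsϖ : s ϖ = ϖ := by rw [hϖ, map_pow, H.sπ]
  rw [← hϖ] at h1 h2
  -- the matrix `W`
  obtain ⟨W, hWdef⟩ : ∃ W, W = lin c (-(r / ϖ)) (1 / ϖ) := ⟨_, rfl⟩
  have hW : W * W = (a : E) • (1 : Matrix (Fin 2) (Fin 2) E) + (b : E) • W := by
    have e1 : (a : E) • (1 : Matrix (Fin 2) (Fin 2) E) + (b : E) • lin c (-(r / ϖ)) (1 / ϖ) =
        lin c (a + b * -(r / ϖ)) (b * (1 / ϖ)) := by
      simp only [lin, smul_add, smul_smul, add_smul, add_assoc]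
    rw [hWdef, e1, Fermat.Agent.H20.S47.lin_mul, h1, h2]
    congr 1
    · field_simp; ring
    · field_simp; ring
  have hWtr : W.trace = b := by
    rw [hWdef, lin, Matrix.trace_add, Matrix.trace_smul, Matrix.trace_smul, Matrix.trace_one,
      Fintype.card_fin, h1, smul_eq_mul, smul_eq_mul]
    push_cast
    field_simp
    ring
  have hWdet : W.det = -a := by
    rw [hWdef, Fermat.Agent.H20.S47.det_lin, h1, h2]
    field_simp
    ring
  have hWs : sM s W = W := by
    rw [hWdef, lin, map_add, Fermat.Agent.H20.S47.sM_smul, Fermat.Agent.H20.S47.sM_smul, map_one,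
      hc, map_neg, map_div₀, map_div₀, hr', hsϖ, map_one]
  have hcW : c = lin W r ϖ := by
    rw [hWdef, lin, lin, smul_add, smul_smul, smul_smul, ← add_assoc, ← add_smul]
    have e1 : ϖ * -(r / ϖ) = -r := by field_simp
    have e2 : ϖ * (1 / ϖ) = 1 := by field_simp
    rw [e1, e2, add_neg_cancel, zero_smul, zero_add, one_smul]
  have hlin : ∀ x y : E, lin c x y = lin W (x + y * r) (y * ϖ) := by
    intro x y
    conv_lhs => rw [lin, hcW]
    simp only [lin, smul_add, smul_smul, add_smul, add_assoc]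
  have hlin' : ∀ x y : E, lin W x y = lin c (x - y * (r / ϖ)) (y / ϖ) := by
    intro x y
    rw [hlin]
    congr 1
    · field_simp; ring
    · field_simp
  -- the ring homomorphisms
  let O := QuadraticAlgebra v.integer a b
  let P := QuadraticAlgebra E (a : E) (b : E)
  let j : O →+* P := mapQ (v.integer.subtype) rfl rfl
  have hjre : ∀ y : O, (j y).re = y.re := fun _ => rfl
  have hjim : ∀ y : O, (j y).im = y.im := fun _ => rfl
  have hjinj : Function.Injective j := by
    intro x y h
    ext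
    · exact congrArg QuadraticAlgebra.re h
    · exact congrArg QuadraticAlgebra.im h
  let σP : P ≃+* P := eqQ (s : E ≃+* E) ha' hb'
  let σO : O ≃+* O := eqQ H.sD ha hb
  have hjσ : ∀ y, j (σO y) = σP (j y) := fun y => rfl
  let Φ : P →ₐ[E] Matrix (Fin 2) (Fin 2) E := matHom W hW
  have hΦ : ∀ y : P, Φ y = lin W y.re y.im := fun _ => rfl
  have hΦs : ∀ y : P, sM s (Φ y) = Φ (σP y) := by
    intro y
    rw [hΦ, hΦ, lin, map_add, Fermat.Agent.H20.S47.sM_smul, Fermat.Agent.H20.S47.sM_smul, map_one,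
      hWs]
    rfl
  have hWns : ∀ x : E, W ≠ x • 1 := by
    intro x hx
    apply hdisc
    rw [hcW, hx]
    simp [lin, Matrix.det_fin_two]
    ring
  have hΦinj : Function.Injective Φ := by
    rw [injective_iff_map_eq_zero]
    intro y hy
    rw [hΦ, lin] at hy
    have him : y.im = 0 := by
      by_contra h
      apply hWns (-(y.re / y.im))
      have e1 : y.im • W = -(y.re • (1 : Matrix (Fin 2) (Fin 2) E)) := by
        rw [eq_neg_iff_add_eq_zero, add_comm]; exact hy
      have e2 : W = y.im⁻¹ • (y.im • W) := by rw [smul_smul, inv_mul_cancel₀ h, one_smul]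
      rw [e2, e1, smul_neg, smul_smul, neg_smul]
      congr 2
      field_simp
    have hre : y.re = 0 := by
      rw [him, zero_smul, add_zero] at hy
      have := congrFun (congrFun hy 0) 0
      simpa using this
    ext
    · exact hre
    · exact him
  have hΦdet : ∀ y : P, (Φ y).det = y.norm := fun y => det_matHom W hW hWtr hWdet y
  -- the element `d`
  let d : P := ⟨d0 + d1 * r, d1 * ϖ⟩
  have hd : Φ d = lin c d0 d1 := by rw [hΦ, hlin]
  let g : O := ⟨r, H.pD ^ k⟩
  have hg : Φ (j g) = c := by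
    rw [hΦ, hcW, hjre, hjim]
    show lin W (r : E) ((H.pD ^ k : v.integer) : E) = lin W r ϖ
    rw [Subring.coe_pow, pD_val, hϖ]
  have hNd : d * σP d * σP (σP d) = j g := by
    apply hΦinj
    rw [map_mul, map_mul, ← hΦs, ← hΦs, hd, hg]
    rw [← hΦs, hd]
    exact hN
  -- `d` is integral with unit norm
  have hnorm : v d.norm = 1 := by
    apply eq_one_of_mul_self
    have e1 : d.norm * s d.norm * s (s d.norm) = c.det := by
      have e2 := congrArg QuadraticAlgebra.norm hNd
      rw [map_mul, map_mul] at e2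
      have e3 : (σP d).norm = s d.norm := eqQ_norm (s : E ≃+* E) ha' hb' d
      have e4 : (σP (σP d)).norm = s (s d.norm) := by
        rw [← e3]; exact eqQ_norm (s : E ≃+* E) ha' hb' (σP d)
      rw [e3, e4, ← hΦdet, ← hΦdet, hg] at e2
      rw [← hΦdet]; exact e2
    have e2 := congrArg v e1
    rw [map_mul, map_mul, H.vs, H.vs, H.vs, hdet] at e2
    exact e2
  -- powers of `π` times `d`
  have hint : ∃ m : ℕ, ∃ y : O, j y = algebraMap E P (π ^ m) * d := by
    have h0 : (0 : Γ₀) < v π := zero_lt_iff.2 ((Valuation.ne_zero_iff _).2 H.π0)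
    have key : ∀ x : E, ∃ m : ℕ, ∀ m', m ≤ m' → v (π ^ m' * x) ≤ 1 := by
      intro x
      by_cases hx : x = 0
      · exact ⟨0, fun m' _ => by rw [hx, mul_zero, map_zero]; exact zero_le⟩
      obtain ⟨n, hn⟩ := H.disc x hx
      refine ⟨(-n).toNat, fun m' hm' => ?_⟩
      rw [map_mul, map_pow, hn, ← zpow_natCast, ← zpow_add₀ h0.ne']
      obtain ⟨l, hl⟩ : ∃ l : ℕ, (m' : ℤ) + n = l := ⟨((m' : ℤ) + n).toNat, by omega⟩
      rw [hl, zpow_natCast]
      exact pow_le_one' H.πlt.le l
    obtain ⟨m1, hm1⟩ := key d.re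
    obtain ⟨m2, hm2⟩ := key d.im
    refine ⟨m1 + m2, ⟨⟨_, hm1 (m1 + m2) (by omega)⟩, ⟨_, hm2 (m1 + m2) (by omega)⟩⟩, ?_⟩
    ext
    · rw [QuadraticAlgebra.re_mul, QuadraticAlgebra.algebraMap_re, QuadraticAlgebra.algebraMap_im,
        mul_zero, zero_mul, add_zero]
      rfl
    · rw [QuadraticAlgebra.im_mul, QuadraticAlgebra.algebraMap_re, QuadraticAlgebra.algebraMap_im,
        mul_zero, zero_mul, add_zero, zero_mul, add_zero]
      rfl
  classical
  have hm := Nat.find_spec hint
  have hmin := fun m (hm : m < Nat.find hint) => Nat.find_min hint hm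
  set m := Nat.find hint with hmdef
  obtain ⟨y, hy⟩ := hm
  have e1 : ∀ u : v.integer, j (algebraMap v.integer O u) = algebraMap E P u := by
    intro u
    ext <;> rfl
  have e2 : ∀ u : E, σP (algebraMap E P u) = algebraMap E P (s u) := fun u =>
    eqQ_alg (s : E ≃+* E) ha' hb' u
  have hπm : s (π ^ m) = π ^ m := by rw [map_pow, H.sπ]
  have hm0 : m = 0 := by
    by_contra hm0
    have h3 : H.pD ∣ y.re ∧ H.pD ∣ y.im := by
      refine I.stepA ha hb hmax y ?_ ?_
      · rw [H.dvd_iff']
        have e1 : ((y.norm : v.integer) : E) = (j y).norm := (mapQ_norm v.integer.subtype rfl rfl y).symm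
        rw [e1, hy, map_mul, QuadraticAlgebra.norm_algebraMap, Subring.coe_pow, pD_val, map_mul, hnorm,
          mul_one, map_pow, map_pow, map_pow, ← pow_mul]
        exact pow_le_pow_right_of_le_one' H.πlt.le (by omega)
      · refine ⟨algebraMap v.integer O (H.pD ^ (3 * m - 1)) * g, ?_⟩
        apply hjinj
        have e4 : σP (algebraMap E P (π ^ m) * d) = algebraMap E P (π ^ m) * σP d := by
          rw [map_mul, e2, hπm]
        have e5 : σP (algebraMap E P (π ^ m) * σP d) = algebraMap E P (π ^ m) * σP (σP d) := by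
          rw [map_mul, e2, hπm]
        have e6 : j (y * σO y * σO (σO y)) = j y * σP (j y) * σP (σP (j y)) := by
          rw [map_mul, map_mul]
          rfl
        rw [e6, hy, e4, e5, map_mul, map_mul, e1, e1, ← hNd, Subring.coe_pow, pD_val]
        have e3 : (algebraMap E P) π * (algebraMap E P) (π ^ (3 * m - 1)) =
            (algebraMap E P (π ^ m)) * (algebraMap E P (π ^ m)) * (algebraMap E P (π ^ m)) := by
          rw [← map_mul, ← map_mul, ← map_mul]
          congr 1
          rw [← pow_succ', ← pow_add, ← pow_add]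
          congr 1
          omega
        linear_combination (-(d * σP d * σP (σP d))) * e3
    obtain ⟨⟨u, hu⟩, ⟨w, hw⟩⟩ := h3
    refine hmin (m - 1) (by omega) ⟨⟨u, w⟩, ?_⟩
    have hre := congrArg QuadraticAlgebra.re hy
    have him := congrArg QuadraticAlgebra.im hy
    rw [QuadraticAlgebra.re_mul, QuadraticAlgebra.algebraMap_re, QuadraticAlgebra.algebraMap_im,
        mul_zero, zero_mul, add_zero, hjre, hu, Subring.coe_mul, pD_val] at hre
    rw [QuadraticAlgebra.im_mul, QuadraticAlgebra.algebraMap_re, QuadraticAlgebra.algebraMap_im,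
        mul_zero, zero_mul, add_zero, zero_mul, add_zero, hjim, hw, Subring.coe_mul, pD_val] at him
    have hmm : π ^ m = π * π ^ (m - 1) := by
      rw [← pow_succ']
      congr 1
      omega
    ext
    · rw [QuadraticAlgebra.re_mul, QuadraticAlgebra.algebraMap_re, QuadraticAlgebra.algebraMap_im,
        mul_zero, zero_mul, add_zero]
      show (u : E) = _
      apply mul_left_cancel₀ H.π0
      rw [hre, hmm, mul_assoc]
    · rw [QuadraticAlgebra.im_mul, QuadraticAlgebra.algebraMap_re, QuadraticAlgebra.algebraMap_im,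
        mul_zero, zero_mul, add_zero, zero_mul, add_zero]
      show (w : E) = _
      apply mul_left_cancel₀ H.π0
      rw [him, hmm, mul_assoc]
  rw [hm0, pow_zero, map_one, one_mul] at hy
  -- now `d = j y`
  have hvnorm : ∀ z : O, v (j z).norm = 1 ↔ IsUnit z := by
    intro z
    rw [I.isUnitQ_iff, H.pD_dvd, not_lt]
    have e1 : ((z.norm : v.integer) : E) = (j z).norm := (mapQ_norm v.integer.subtype rfl rfl z).symm
    rw [e1]
    constructor
    · exact fun h => h.ge
    · intro h
      refine le_antisymm ?_ h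
      rw [← e1]
      exact z.norm.2
  have hyu : IsUnit y := by
    rw [← hvnorm, hy, hnorm]
  have hyN : y * σO y * σO (σO y) = ⟨r, H.pD ^ k⟩ := by
    apply hjinj
    have e6 : j (y * σO y * σO (σO y)) = j y * σP (j y) * σP (σP (j y)) := by
      rw [map_mul, map_mul]
      rfl
    rw [e6, hy, hNd]
  obtain ⟨t, e, ht, he, ⟨e', he'⟩, hte⟩ := I.stepB ha hb hr hyu hyN
  have hte' : Φ (j y) * Φ (j t) = sM s (Φ (j t)) * Φ (j e) := by
    rw [hΦs, ← map_mul Φ, ← map_mul Φ, ← map_mul j, hte, map_mul j]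
    rfl
  refine ⟨t.re - t.im * (r / ϖ), t.im / ϖ, e.re - e' * r, e', ?_, e'.2, ?_, ?_, ?_⟩
  · exact (Valuation.map_sub _ _ _).trans (max_le e.re.2 (by
      rw [map_mul]; exact mul_le_one' e'.2 r.2))
  · rw [← hlin']
    show (Φ (j t)).det ≠ 0
    rw [hΦdet]
    intro h0
    have := (hvnorm t).2 ht
    rw [h0, map_zero] at this
    exact zero_ne_one this
  · have e7 : lin c (e.re - e' * r) e' = Φ (j e) := by
      rw [hlin, hΦ, hjre, hjim, he', Subring.coe_mul, Subring.coe_pow, pD_val, ← hϖ]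
      congr 1
      · ring
      · ring
    rw [e7, hΦdet]
    exact (hvnorm e).2 he
  · have e7 : lin c (e.re - e' * r) e' = Φ (j e) := by
      rw [hlin, hΦ, hjre, hjim, he', Subring.coe_mul, Subring.coe_pow, pD_val, ← hϖ]
      congr 1
      · ring
      · ring
    rw [e7, ← hlin', ← hd, ← hy]
    exact hte'

end InertV

end field

end Fermat.Agent.H61K
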