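import Fermat.Agent.H61K3
import Fermat.Agent.H57CLoc

/-!
# Local matching at an inert good place (S47, package C12): descent and cosets
-/

set_option autoImplicit false
set_option linter.unusedSectionVars false
set_option linter.unusedVariables false

noncomputable section

namespace Fermat.Agent.H61K

open Matrix
open scoped MatrixGroups
open Fermat.Agent.H20.S47
open Matrix.ProjGenLinGroup (mk mk_surjective)

/-! ### abstract groups -/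

section abstract

open Fermat.Agent.H57C

variable {GE GF : Type*} [Group GE] [Group GF]

open Classical in
/-- the descent map `gU ↦ yU'`, `y` rational with `ι y ∈ t g U` -/
def bet (ι : GF →* GE) (UE : Subgroup GE) (UF : Subgroup GF) (t : GE)
    (x : GE ⧸ UE) : GF ⧸ UF :=
  if h : ∃ y : GF, ((t • x : GE ⧸ UE)) = ((ι y : GE) : GE ⧸ UE) then ((h.choose : GF) : GF ⧸ UF)
  else ((1 : GF) : GF ⧸ UF)

theorem bet_eq {ι : GF →* GE} {UE : Subgroup GE} {UF : Subgroup GF} {t : GE}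
    (h2a : ∀ y, ι y ∈ UE ↔ y ∈ UF) {x : GE ⧸ UE} {y : GF}
    (h : (t • x : GE ⧸ UE) = ((ι y : GE) : GE ⧸ UE)) :
    bet ι UE UF t x = ((y : GF) : GF ⧸ UF) := by
  have h' : ∃ y : GF, ((t • x : GE ⧸ UE)) = ((ι y : GE) : GE ⧸ UE) := ⟨y, h⟩
  rw [bet, dif_pos h', QuotientGroup.eq, ← h2a, map_mul, map_inv, ← QuotientGroup.eq]
  exact h'.choose_spec.symm.trans h

/-- **abstract local matching** from the two statements (I1), (I2). -/
theorem locMatch_of {T : Type*} (τ : T → GF) {ι : GF →* GE} {s : GE →* GE} {UE : Subgroup GE}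
    {UF : Subgroup GF} (hsι : ∀ y, s (ι y) = ι y)
    (h2a : ∀ y, ι y ∈ UE ↔ y ∈ UF)
    (h2b : ∀ g, g⁻¹ * s g ∈ UE → ∃ y, g⁻¹ * ι y ∈ UE)
    {δ t : GE} {γ : GF} (hτ : ∀ a, t * ι (τ a) = ι (τ a) * t) (hγ : t * ι γ = ι γ * t)
    (h1 : ∀ g, g⁻¹ * δ * s g ∈ UE ↔ (t * g)⁻¹ * s (t * g) ∈ UE ∧ g⁻¹ * ι γ * g ∈ UE)
    (φ : GE ⧸ UE → ℂ) (ψ : GF ⧸ UF → ℂ)
    (hφ : ∀ g : GE, g⁻¹ * δ * s g ∈ UE → φ (g : GE ⧸ UE) = 1)
    (hφ0 : ∀ g : GE, g⁻¹ * δ * s g ∉ UE → φ (g : GE ⧸ UE) = 0)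
    (hψ : ∀ y : GF, y⁻¹ * γ * y ∈ UF → ψ (y : GF ⧸ UF) = 1)
    (hψ0 : ∀ y : GF, y⁻¹ * γ * y ∉ UF → ψ (y : GF ⧸ UF) = 0) :
    LocMatch (fun a x => ι (τ a) • x) (fun a y => τ a • y) φ ψ (bet ι UE UF t) := by
  have key : ∀ g : GE, φ (g : GE ⧸ UE) ≠ 0 → ∃ y : GF,
      (t • (g : GE ⧸ UE) : GE ⧸ UE) = ((ι y : GE) : GE ⧸ UE) ∧ g⁻¹ * δ * s g ∈ UE := by
    intro g hg
    have h : g⁻¹ * δ * s g ∈ UE := by
      by_contra h
      exact hg (hφ0 g h)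
    obtain ⟨y, hy⟩ := h2b (t * g) ((h1 g).1 h).1
    exact ⟨y, (QuotientGroup.eq).2 hy, h⟩
  refine LocMatch.of_bij ?_ ?_ ?_ ?_
  · intro a x hx
    obtain ⟨g, rfl⟩ := QuotientGroup.mk_surjective x
    obtain ⟨y, hy, -⟩ := key g hx
    rw [bet_eq h2a hy]
    show bet ι UE UF t (ι (τ a) • (g : GE ⧸ UE)) = ((τ a * y : GF) : GF ⧸ UF)
    apply bet_eq h2a
    rw [smul_smul, hτ, ← smul_smul, hy, map_mul]
    rfl
  · intro x hx
    obtain ⟨g, rfl⟩ := QuotientGroup.mk_surjective x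
    obtain ⟨y, hy, h⟩ := key g hx
    rw [bet_eq h2a hy, hφ g h]
    apply hψ
    rw [← h2a, map_mul, map_mul, map_inv]
    have h3 : (t * g)⁻¹ * ι y ∈ UE := QuotientGroup.eq.1 hy
    have h4 := ((h1 g).1 h).2
    have h5 : (ι y)⁻¹ * ι γ * ι y = ((t * g)⁻¹ * ι y)⁻¹ * (g⁻¹ * ι γ * g) * ((t * g)⁻¹ * ι y) := by
      have h6 : ι γ = t * ι γ * t⁻¹ := by rw [hγ]; group
      conv_lhs => rw [h6]
      group
    rw [h5]
    exact UE.mul_mem (UE.mul_mem (UE.inv_mem h3) h4) h3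
  · intro x x' hx hx' hxx
    obtain ⟨g, rfl⟩ := QuotientGroup.mk_surjective x
    obtain ⟨g', rfl⟩ := QuotientGroup.mk_surjective x'
    obtain ⟨y, hy, h⟩ := key g hx
    obtain ⟨y', hy', h'⟩ := key g' hx'
    rw [bet_eq h2a hy, bet_eq h2a hy', QuotientGroup.eq, ← h2a, map_mul, map_inv,
      ← QuotientGroup.eq, ← hy, ← hy'] at hxx
    exact smul_left_cancel t hxx
  · intro y hy
    obtain ⟨y, rfl⟩ := QuotientGroup.mk_surjective y
    have h : y⁻¹ * γ * y ∈ UF := by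
      by_contra h
      exact hy (hψ0 y h)
    have h3 : (t⁻¹ * ι y)⁻¹ * δ * s (t⁻¹ * ι y) ∈ UE := by
      rw [h1]
      constructor
      · rw [mul_inv_cancel_left, hsι, inv_mul_cancel]
        exact UE.one_mem
      · have h5 : (t⁻¹ * ι y)⁻¹ * ι γ * (t⁻¹ * ι y) = ι (y⁻¹ * γ * y) := by
          have h6 : ι γ = t * ι γ * t⁻¹ := by rw [hγ]; group
          rw [map_mul, map_mul, map_inv]
          conv_rhs => rw [h6]
          group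
        rw [h5, h2a]
        exact h
    refine ⟨((t⁻¹ * ι y : GE) : GE ⧸ UE), ?_, ?_⟩
    · rw [hφ _ h3]; exact one_ne_zero
    · apply bet_eq h2a
      show ((t * (t⁻¹ * ι y) : GE) : GE ⧸ UE) = _
      rw [mul_inv_cancel_left]

/-- compatibility with the base points when `δ ∈ U` and `t ∈ U` -/
theorem base_of {ι : GF →* GE} {s : GE →* GE} {UE : Subgroup GE}
    {UF : Subgroup GF} (h2a : ∀ y, ι y ∈ UE ↔ y ∈ UF)
    (h2b : ∀ g, g⁻¹ * s g ∈ UE → ∃ y, g⁻¹ * ι y ∈ UE)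
    {δ t : GE} {γ : GF} (hδ : δ ∈ UE) (ht : t ∈ UE)
    (h1 : ∀ g, g⁻¹ * δ * s g ∈ UE ↔ (t * g)⁻¹ * s (t * g) ∈ UE ∧ g⁻¹ * ι γ * g ∈ UE)
    (φ : GE ⧸ UE → ℂ) (ψ : GF ⧸ UF → ℂ)
    (hφ : ∀ g : GE, g⁻¹ * δ * s g ∈ UE → φ (g : GE ⧸ UE) = 1)
    (hφ0 : ∀ g : GE, g⁻¹ * δ * s g ∉ UE → φ (g : GE ⧸ UE) = 0)
    (hψ : ∀ y : GF, y⁻¹ * γ * y ∈ UF → ψ (y : GF ⧸ UF) = 1) :
    Base ((1 : GE) : GE ⧸ UE) ((1 : GF) : GF ⧸ UF) φ ψ (bet ι UE UF t) := by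
  have h0 : (1 : GE)⁻¹ * δ * s 1 ∈ UE := by simpa using hδ
  have h0' := (h1 1).1 h0
  refine ⟨hφ 1 h0, hψ 1 ?_, ?_⟩
  · rw [← h2a]
    simpa using h0'.2
  · intro x hx
    obtain ⟨g, rfl⟩ := QuotientGroup.mk_surjective x
    have h : g⁻¹ * δ * s g ∈ UE := by
      by_contra h
      exact hx (hφ0 g h)
    obtain ⟨y, hy⟩ := h2b (t * g) ((h1 g).1 h).1
    have hy' : (t • (g : GE ⧸ UE) : GE ⧸ UE) = ((ι y : GE) : GE ⧸ UE) := (QuotientGroup.eq).2 hy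
    rw [bet_eq h2a hy']
    have e1 : (((y : GF) : GF ⧸ UF) = ((1 : GF) : GF ⧸ UF)) ↔ ι y ∈ UE := by
      rw [h2a, eq_comm, QuotientGroup.eq, inv_one, one_mul]
    have e2 : ((g : GE ⧸ UE) = ((1 : GE) : GE ⧸ UE)) ↔ g ∈ UE := by
      rw [eq_comm, QuotientGroup.eq, inv_one, one_mul]
    rw [e1]
    refine Iff.trans ?_ e2.symm
    constructor
    · intro h3
      have h4 : t * g ∈ UE := by
        have : t * g = ι y * ((t * g)⁻¹ * ι y)⁻¹ := by group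
        rw [this]
        exact UE.mul_mem h3 (UE.inv_mem hy)
      have : g = t⁻¹ * (t * g) := by group
      rw [this]
      exact UE.mul_mem (UE.inv_mem ht) h4
    · intro h3
      have : ι y = (t * g) * ((t * g)⁻¹ * ι y) := by group
      rw [this]
      exact UE.mul_mem (UE.mul_mem ht h3) hy

end abstract

end Fermat.Agent.H61K
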