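import Fermat.Agent.H61K4

/-!
# Local matching at an inert good place (S47, package C12): `PGL₂`
-/

set_option autoImplicit false
set_option linter.unusedSectionVars false
set_option linter.unusedVariables false

noncomputable section

namespace Fermat.Agent.H61K

open Matrix
open scoped MatrixGroups
open Fermat.Agent.H20.S47
open Matrix.ProjGenLinGroup (mk mk_surjective)

section U0

variable {K : Type*} [Field K] {Γ₀ : Type*} [LinearOrderedCommGroupWithZero Γ₀]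

/-- `GL₂` of the valuation ring -/
def GLv (v : Valuation K Γ₀) : Subgroup (GL (Fin 2) K) where
  carrier := {g | (∀ i j, v (g i j) ≤ 1) ∧ v (g : Matrix (Fin 2) (Fin 2) K).det = 1}
  one_mem' := by
    refine ⟨fun i j => ?_, by simp⟩
    rw [Units.val_one, Matrix.one_apply]
    split_ifs <;> simp
  mul_mem' := by
    rintro a b ⟨ha, hda⟩ ⟨hb, hdb⟩
    refine ⟨fun i j => ?_, ?_⟩
    · rw [Units.val_mul, Matrix.mul_apply]
      refine Valuation.map_sum_le _ fun k _ => ?_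
      rw [map_mul]
      exact mul_le_one' (ha i k) (hb k j)
    · rw [Units.val_mul, Matrix.det_mul, map_mul, hda, hdb, one_mul]
  inv_mem' := by
    rintro a ⟨ha, hda⟩
    have hinv : ((a⁻¹ : GL (Fin 2) K) : Matrix (Fin 2) (Fin 2) K) =
        (a : Matrix (Fin 2) (Fin 2) K).det⁻¹ • (a : Matrix (Fin 2) (Fin 2) K).adjugate := by
      rw [Matrix.coe_units_inv, Matrix.inv_def, Ring.inverse_eq_inv']
    have hd' : v (a : Matrix (Fin 2) (Fin 2) K).det⁻¹ = 1 := by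
      rw [map_inv₀, hda, inv_one]
    refine ⟨fun i j => ?_, ?_⟩
    · rw [hinv, Matrix.smul_apply, smul_eq_mul, map_mul, hd', one_mul, Matrix.adjugate_fin_two]
      fin_cases i <;> fin_cases j <;> simp [ha, Valuation.map_neg]
    · have h1 : ((a⁻¹ : GL (Fin 2) K) : Matrix (Fin 2) (Fin 2) K).det =
          (a : Matrix (Fin 2) (Fin 2) K).det⁻¹ := by
        rw [Matrix.coe_units_inv, Matrix.det_nonsing_inv, Ring.inverse_eq_inv']
      rw [h1, hd']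

theorem mem_GLv {v : Valuation K Γ₀} {g : GL (Fin 2) K} :
    g ∈ GLv v ↔ (∀ i j, v (g i j) ≤ 1) ∧ v (g : Matrix (Fin 2) (Fin 2) K).det = 1 := Iff.rfl

/-- the maximal compact subgroup of `PGL₂` at `v` -/
def U0v (v : Valuation K Γ₀) : Subgroup PGL(2, K) := (GLv v).map ProjGenLinGroup.mk

theorem mem_U0v {v : Valuation K Γ₀} {g : GL (Fin 2) K} :
    mk g ∈ U0v v ↔ ∃ z : K, z ≠ 0 ∧ ∃ k : GL (Fin 2) K, k ∈ GLv v ∧
      (g : Matrix (Fin 2) (Fin 2) K) = z • (k : Matrix (Fin 2) (Fin 2) K) := by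
  constructor
  · rintro ⟨k, hk, hkg⟩
    obtain ⟨z, hz, h⟩ := mk_eq_iff.1 hkg
    exact ⟨z, hz, k, hk, h⟩
  · rintro ⟨z, hz, k, hk, h⟩
    exact ⟨k, hk, mk_eq_iff.2 ⟨z, hz, h⟩⟩

theorem smul_mem_GLv {v : Valuation K Γ₀} {g k : GL (Fin 2) K} {z : K} (hk : k ∈ GLv v)
    (h : (g : Matrix (Fin 2) (Fin 2) K) = z • (k : Matrix (Fin 2) (Fin 2) K)) (hz : v z = 1) :
    g ∈ GLv v := by
  refine ⟨fun i j => ?_, ?_⟩
  · rw [h, Matrix.smul_apply, smul_eq_mul, map_mul, hz, one_mul]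
    exact hk.1 i j
  · rw [h, Matrix.det_smul, Fintype.card_fin, map_mul, map_pow, hz, one_pow, one_mul]
    exact hk.2

end U0

section inert

variable {F E : Type*} [Field F] [Field E] [Algebra F E] {Γ₀ : Type*}
  [LinearOrderedCommGroupWithZero Γ₀] {v : Valuation E Γ₀} {s : E ≃ₐ[F] E} {π : E}

theorem eq_one_of_sq {x : Γ₀} (h : x * x = 1) : x = 1 := by
  rcases lt_trichotomy x 1 with h1 | h1 | h1
  · exfalso
    have : x * x ≤ x := mul_le_of_le_one_left' h1.le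
    rw [h] at this
    exact absurd h1 (not_lt.2 this)
  · exact h1
  · exfalso
    have : x ≤ x * x := le_mul_of_one_le_left' h1.le
    rw [h] at this
    exact absurd h1 (not_lt.2 this)

theorem InertV.sM_mem (H : InertV v s π) {g : GL (Fin 2) E} (hg : g ∈ GLv v) :
    GeneralLinearGroup.map (s : E →+* E) g ∈ GLv v := by
  refine ⟨fun i j => ?_, ?_⟩
  · rw [val_map_s, sM_apply, H.vs]
    exact hg.1 i j
  · rw [val_map_s, det_sM, H.vs]
    exact hg.2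

theorem InertV.sP_mem (H : InertV v s π) {g : PGL(2, E)} (hg : g ∈ U0v v) : sP s g ∈ U0v v := by
  obtain ⟨k, hk, rfl⟩ := hg
  exact ⟨_, H.sM_mem hk, rfl⟩

/-- **(I2b)** descent of `s`-stable cosets -/
theorem InertV.descent (H : InertV v s π) (hfix : ∀ x, s x = x → x ∈ Set.range (algebraMap F E))
    {g : PGL(2, E)} (hg : g⁻¹ * sP s g ∈ U0v v) : ∃ y : PGL(2, F), g⁻¹ * incP E y ∈ U0v v := by
  obtain ⟨G, rfl⟩ := mk_surjective g
  have I := H.inert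
  -- `κ = G⁻¹ s(G)`
  obtain ⟨sG, hsG⟩ : ∃ sG, sG = GeneralLinearGroup.map (s : E →+* E) G := ⟨_, rfl⟩
  have hsGv : (sG : Matrix (Fin 2) (Fin 2) E) = sM s (G : Matrix (Fin 2) (Fin 2) E) := by
    rw [hsG, val_map_s]
  rw [sP_mk, ← hsG, ← map_inv, ← map_mul] at hg
  obtain ⟨κ, hκ⟩ : ∃ κ, κ = G⁻¹ * sG := ⟨_, rfl⟩
  rw [← hκ] at hg
  obtain ⟨z, hz, k, hk, hzk⟩ := mem_U0v.1 hg
  have hGκ : (G : Matrix (Fin 2) (Fin 2) E) * κ = sG := by
    rw [← Units.val_mul, hκ, mul_inv_cancel_left]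
  have hvz : v z = 1 := by
    have h1 : v (κ : Matrix (Fin 2) (Fin 2) E).det = 1 := by
      have h2 := congrArg (fun M : Matrix (Fin 2) (Fin 2) E => v M.det) hGκ
      simp only [Matrix.det_mul, map_mul] at h2
      rw [hsGv, det_sM, H.vs] at h2
      have h3 : v (G : Matrix (Fin 2) (Fin 2) E).det ≠ 0 :=
        (Valuation.ne_zero_iff _).2 (det_ne_zero G)
      exact mul_left_cancel₀ h3 (by rw [h2, mul_one])
    rw [hzk, Matrix.det_smul, Fintype.card_fin, map_mul, hk.2, mul_one, map_pow, pow_two] at h1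
    exact eq_one_of_sq h1
  have hκm : κ ∈ GLv v := smul_mem_GLv hk hzk hvz
  clear hk hzk hz hvz hg
  obtain ⟨K₁, hK₁⟩ : ∃ K₁, K₁ = (κ : Matrix (Fin 2) (Fin 2) E) := ⟨_, rfl⟩
  rw [← hK₁] at hGκ
  have hK₁i : ∀ i j, v (K₁ i j) ≤ 1 := by rw [hK₁]; exact hκm.1
  have hsi : ∀ A : Matrix (Fin 2) (Fin 2) E, (∀ i j, v (A i j) ≤ 1) →
      ∀ i j, v (sM s A i j) ≤ 1 := by
    intro A hA i j
    rw [sM_apply, H.vs]
    exact hA i j
  have hmi : ∀ A B : Matrix (Fin 2) (Fin 2) E, (∀ i j, v (A i j) ≤ 1) → (∀ i j, v (B i j) ≤ 1) →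
      ∀ i j, v ((A * B) i j) ≤ 1 := by
    intro A B hA hB i j
    rw [Matrix.mul_apply]
    refine Valuation.map_sum_le _ fun k _ => ?_
    rw [map_mul]
    exact mul_le_one' (hA i k) (hB k j)
  have hai : ∀ A B : Matrix (Fin 2) (Fin 2) E, (∀ i j, v (A i j) ≤ 1) → (∀ i j, v (B i j) ≤ 1) →
      ∀ i j, v ((A + B) i j) ≤ 1 := by
    intro A B hA hB i j
    rw [Matrix.add_apply]
    exact (Valuation.map_add _ _ _).trans (max_le (hA i j) (hB i j))
  have hu : IsUnit (G : Matrix (Fin 2) (Fin 2) E).det := isUnit_iff_ne_zero.mpr (det_ne_zero G)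
  -- `M = κ s(κ)`, `M s²(κ) = 1`
  obtain ⟨M, hM⟩ : ∃ M : Matrix (Fin 2) (Fin 2) E, M = K₁ * sM s K₁ := ⟨_, rfl⟩
  have hMi : ∀ i j, v (M i j) ≤ 1 := by rw [hM]; exact hmi _ _ hK₁i (hsi _ hK₁i)
  have hcoc : K₁ * sM s M = 1 := by
    have h1 : (G : Matrix (Fin 2) (Fin 2) E) * (K₁ * sM s M) = G := by
      have e1 : sM s (G : Matrix (Fin 2) (Fin 2) E) * sM s K₁ = sM s (sM s G) := by
        rw [← map_mul, hGκ, hsGv]
      have e2 : sM s (sM s (G : Matrix (Fin 2) (Fin 2) E)) * sM s (sM s K₁) = G := by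
        rw [← map_mul, e1, sM3 s H.s3]
      rw [hM, map_mul, ← mul_assoc, hGκ, hsGv, ← mul_assoc, e1, e2]
    have h2 := congrArg (fun X => (G : Matrix (Fin 2) (Fin 2) E)⁻¹ * X) h1
    simp only [← mul_assoc] at h2
    rw [Matrix.nonsing_inv_mul _ hu, one_mul] at h2
    exact h2
  -- the elements `a₀, a₁`
  have h1π : ¬ H.pD ∣ (1 : v.integer) := fun h => I.prime.not_isUnit (isUnit_of_dvd_one h)
  obtain ⟨a₀, ha₀⟩ := I.indep (α := 1) ⟨K₁ 0 0, hK₁i 0 0⟩ ⟨M 0 0, hMi 0 0⟩ h1π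
  obtain ⟨T00, hT00⟩ : ∃ T00 : v.integer, T00 = a₀ * 1 + H.sD a₀ * ⟨K₁ 0 0, hK₁i 0 0⟩ +
    H.sD (H.sD a₀) * ⟨M 0 0, hMi 0 0⟩ := ⟨_, rfl⟩
  rw [← hT00] at ha₀
  obtain ⟨T10, hT10⟩ : ∃ T10 : v.integer, T10 = H.sD a₀ * ⟨K₁ 1 0, hK₁i 1 0⟩ +
    H.sD (H.sD a₀) * ⟨M 1 0, hMi 1 0⟩ := ⟨_, rfl⟩
  obtain ⟨a₁, ha₁⟩ := I.indep (α := T00)
    (T00 * ⟨K₁ 1 1, hK₁i 1 1⟩ - T10 * ⟨K₁ 0 1, hK₁i 0 1⟩)
    (T00 * ⟨M 1 1, hMi 1 1⟩ - T10 * ⟨M 0 1, hMi 0 1⟩) ha₀
  -- the matrix `T`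
  obtain ⟨Z, hZ⟩ : ∃ Z : Matrix (Fin 2) (Fin 2) E, Z = !![(a₀ : E), 0; 0, (a₁ : E)] := ⟨_, rfl⟩
  have hZi : ∀ i j, v (Z i j) ≤ 1 := by
    intro i j
    rw [hZ]
    fin_cases i <;> fin_cases j
    · exact a₀.2
    · simp
    · simp
    · exact a₁.2
  obtain ⟨T, hT⟩ : ∃ T : Matrix (Fin 2) (Fin 2) E, T = Z + K₁ * sM s Z + M * sM s (sM s Z) :=
    ⟨_, rfl⟩
  have hTi : ∀ i j, v (T i j) ≤ 1 := by
    rw [hT]
    exact hai _ _ (hai _ _ hZi (hmi _ _ hK₁i (hsi _ hZi))) (hmi _ _ hMi (hsi _ (hsi _ hZi)))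
  have hTdet : v T.det = 1 := by
    obtain ⟨W, hW⟩ : ∃ W : v.integer, W = a₁ * T00 + H.sD a₁ *
        (T00 * ⟨K₁ 1 1, hK₁i 1 1⟩ - T10 * ⟨K₁ 0 1, hK₁i 0 1⟩) + H.sD (H.sD a₁) *
        (T00 * ⟨M 1 1, hMi 1 1⟩ - T10 * ⟨M 0 1, hMi 0 1⟩) := ⟨_, rfl⟩
    rw [← hW] at ha₁
    have e1 : T.det = (W : E) := by
      rw [hW, hT10, hT00, hT, Matrix.det_fin_two]
      push_cast
      simp only [Matrix.add_apply, Matrix.mul_apply, Fin.sum_univ_two, sM_apply, InertV.sD_val]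
      rw [hZ]
      simp
      ring
    rw [e1]
    rw [H.pD_dvd, not_lt] at ha₁
    exact le_antisymm W.2 ha₁
  have hTs : K₁ * sM s T = T := by
    rw [hT, map_add, map_add, map_mul, map_mul, sM3 s H.s3, mul_add, mul_add, ← mul_assoc,
      ← mul_assoc, hcoc, ← hM, one_mul]
    abel
  have hT0 : T.det ≠ 0 := by
    intro h
    rw [h, map_zero] at hTdet
    exact zero_ne_one hTdet
  -- descent
  obtain ⟨h, hh⟩ : ∃ h : Matrix (Fin 2) (Fin 2) E, h = G * T := ⟨_, rfl⟩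
  have hsh : sM s h = h := by
    conv_rhs => rw [hh, ← hTs, ← mul_assoc, hGκ, hsGv]
    rw [hh, map_mul]
  have hy : ∀ i j, ∃ y : F, algebraMap F E y = h i j := by
    intro i j
    apply hfix
    have := congrFun (congrFun hsh i) j
    rwa [sM_apply] at this
  choose y hy using hy
  have hyh : (inc (Matrix.of y) : Matrix (Fin 2) (Fin 2) E) = h := by
    ext i j
    rw [inc_apply]
    exact hy i j
  have hydet : (Matrix.of y).det ≠ 0 := by
    intro h0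
    have h1 := det_inc (E := E) (Matrix.of y)
    rw [hyh, h0, map_zero, hh, Matrix.det_mul] at h1
    exact (mul_ne_zero (det_ne_zero G) hT0) h1
  refine ⟨ProjGenLinGroup.mk (toGL _ hydet), ?_⟩
  have e1 : (ProjGenLinGroup.mk G)⁻¹ * incP E (ProjGenLinGroup.mk (toGL _ hydet)) =
      ProjGenLinGroup.mk (toGL T hT0) := by
    rw [inv_mul_eq_iff_eq_mul, ← map_mul, incP_mk]
    congr 1
    apply Units.ext
    rw [val_map_inc, Units.val_mul, toGL_val, toGL_val, ← hh, hyh]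
  rw [e1]
  exact ⟨toGL T hT0, ⟨hTi, hTdet⟩, rfl⟩

/-- the uniformizer is rational -/
theorem InertV.comap_mem (H : InertV v s π) {ΓF : Type*} [LinearOrderedCommGroupWithZero ΓF]
    {vF : Valuation F ΓF} (hcomp : ∀ x : F, vF x ≤ 1 ↔ v (algebraMap F E x) ≤ 1)
    (hfix : ∀ x, s x = x → x ∈ Set.range (algebraMap F E)) (y : PGL(2, F)) :
    incP E y ∈ U0v v ↔ y ∈ U0v vF := by
  have hcomp1 : ∀ x : F, vF x = 1 ↔ v (algebraMap F E x) = 1 := by
    intro x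
    by_cases hx : x = 0
    · rw [hx, map_zero, map_zero, map_zero]
      simp
    have h1 := hcomp x
    have h2 := hcomp x⁻¹
    have hv1 : 0 < vF x := zero_lt_iff.2 ((Valuation.ne_zero_iff _).2 hx)
    have hv2 : 0 < v (algebraMap F E x) := zero_lt_iff.2 ((Valuation.ne_zero_iff _).2 (by simpa using hx))
    rw [map_inv₀, map_inv₀, map_inv₀, inv_le_one₀ hv1, inv_le_one₀ hv2] at h2
    constructor
    · intro h
      exact le_antisymm (h1.1 h.le) (h2.1 h.ge)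
    · intro h
      exact le_antisymm (h1.2 h.le) (h2.2 h.ge)
  obtain ⟨g, rfl⟩ := mk_surjective y
  rw [incP_mk]
  constructor
  · intro h
    obtain ⟨z, hz, k, hk, hzk⟩ := mem_U0v.1 h
    rw [val_map_inc] at hzk
    obtain ⟨π₀, hπ₀⟩ := hfix π H.sπ
    obtain ⟨n, hn⟩ := H.disc z hz
    have hπ00 : π₀ ≠ 0 := by
      intro h0
      rw [h0, map_zero] at hπ₀
      exact H.π0 hπ₀.symm
    have hu : v (π ^ (-n) * z) = 1 := by
      rw [map_mul, map_zpow₀, hn, ← zpow_add₀ ((Valuation.ne_zero_iff _).2 H.π0), neg_add_cancel,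
        zpow_zero]
    -- `g' = π₀^(-n) g`
    have hdet : (π₀ ^ (-n) • (g : Matrix (Fin 2) (Fin 2) F)).det ≠ 0 := by
      rw [Matrix.det_smul, Fintype.card_fin]
      exact mul_ne_zero (pow_ne_zero _ (zpow_ne_zero _ hπ00)) (det_ne_zero g)
    have hinc : (inc (π₀ ^ (-n) • (g : Matrix (Fin 2) (Fin 2) F)) : Matrix (Fin 2) (Fin 2) E) =
        (π ^ (-n) * z) • (k : Matrix (Fin 2) (Fin 2) E) := by
      ext i j
      have := congrFun (congrFun hzk i) j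
      rw [inc_apply, Matrix.smul_apply, smul_eq_mul] at this
      rw [inc_apply, Matrix.smul_apply, Matrix.smul_apply, smul_eq_mul, smul_eq_mul, map_mul,
        map_zpow₀, hπ₀, this, mul_assoc]
    refine ⟨toGL _ hdet, ⟨fun i j => ?_, ?_⟩, ?_⟩
    · rw [toGL_val, hcomp, ← inc_apply (E := E), hinc, Matrix.smul_apply, smul_eq_mul, map_mul, hu,
        one_mul]
      exact hk.1 i j
    · rw [toGL_val, hcomp1, ← det_inc, hinc, Matrix.det_smul, Fintype.card_fin, map_mul, map_pow, hu,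
        one_pow, one_mul]
      exact hk.2
    · rw [eq_comm, mk_eq_iff]
      exact ⟨π₀ ^ (-n), zpow_ne_zero _ hπ00, toGL_val _ _⟩
  · rintro ⟨k, hk, hkg⟩
    rw [← incP_mk, ← hkg, incP_mk]
    refine ⟨_, ⟨fun i j => ?_, ?_⟩, rfl⟩
    · rw [val_map_inc, inc_apply, ← hcomp]
      exact hk.1 i j
    · rw [val_map_inc, det_inc, ← hcomp1]
      exact hk.2

end inert

end Fermat.Agent.H61K
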