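import Fermat.Agent.H61K5

/-!
# Local matching at an inert good place (S47, package C12): the twisted fixed points
-/

set_option autoImplicit false
set_option linter.unusedSectionVars false
set_option linter.unusedVariables false

noncomputable section

namespace Fermat.Agent.H61K

open Matrix
open scoped MatrixGroups
open Fermat.Agent.H20.S47
open Matrix.ProjGenLinGroup (mk_surjective)

local notation "pmk" => Matrix.ProjGenLinGroup.mk

variable {F E : Type*} [Field F] [Field E] [Algebra F E] {Γ₀ : Type*}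
  [LinearOrderedCommGroupWithZero Γ₀] {v : Valuation E Γ₀} {s : E ≃ₐ[F] E} {π : E}

theorem lin_smul {K : Type*} [Field K] (C : Matrix (Fin 2) (Fin 2) K) (ζ x y : K) :
    lin (ζ • C) x y = lin C x (y * ζ) := by
  rw [lin, lin, smul_smul]

/-- elements of the algebra generated by `C` commute in `PGL₂` -/
theorem comm_of_lin {K : Type*} [Field K] {C : Matrix (Fin 2) (Fin 2) K} {A B : GL (Fin 2) K}
    {a b a' b' : K} (hA : (A : Matrix (Fin 2) (Fin 2) K) = lin C a b)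
    (hB : (B : Matrix (Fin 2) (Fin 2) K) = lin C a' b') :
    (pmk A : PGL(2, K)) * pmk B = pmk B * pmk A := by
  rw [← map_mul, ← map_mul]
  congr 1
  apply Units.ext
  rw [Units.val_mul, Units.val_mul, hA, hB, lin_comm]

/-- conjugation of `lin` -/
theorem conj_lin {K : Type*} [Field K] {C k : Matrix (Fin 2) (Fin 2) K}
    {G : GL (Fin 2) K} (h : C * (G : Matrix (Fin 2) (Fin 2) K) = G * k) (p q : K) :
    lin C p q * (G : Matrix (Fin 2) (Fin 2) K) = G * lin k p q := by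
  rw [lin, lin, add_mul, mul_add, smul_mul_assoc, smul_mul_assoc, mul_smul_comm, mul_smul_comm,
    one_mul, mul_one, h]

/-- an element `p + qC`, `p, q` integral, with unit determinant, fixes every vertex fixed
by the integral matrix `C` -/
theorem fix_of_lin {C : Matrix (Fin 2) (Fin 2) E} (hdet : v C.det = 1) {Cg : GL (Fin 2) E} {z : E}
    (hz : z ≠ 0) (hC : C = z • (Cg : Matrix (Fin 2) (Fin 2) E)) {p q : E} (hp : v p ≤ 1)
    (hq : v q ≤ 1) {e : GL (Fin 2) E} (he : (e : Matrix (Fin 2) (Fin 2) E) = lin C p q)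
    (hed : v (lin C p q).det = 1) {g : PGL(2, E)} (hg : g⁻¹ * pmk Cg * g ∈ U0v v) :
    g⁻¹ * pmk e * g ∈ U0v v := by
  obtain ⟨G, rfl⟩ := mk_surjective g
  rw [← map_inv, ← map_mul, ← map_mul] at hg
  obtain ⟨z₁, hz₁, k₁, hk₁, h1⟩ := mem_U0v.1 hg
  have h2 : C * (G : Matrix (Fin 2) (Fin 2) E) = G * ((z * z₁) • (k₁ : Matrix (Fin 2) (Fin 2) E)) := by
    rw [hC, smul_mul_assoc, mul_smul_comm, mul_smul, ← mul_smul_comm z₁, ← h1]
    congr 1
    rw [← Units.val_mul, ← Units.val_mul, mul_assoc, mul_inv_cancel_left]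
  have hdG := det_ne_zero G
  have h3 : v (z * z₁) = 1 := by
    apply eq_one_of_sq
    have h4 := congrArg Matrix.det h2
    rw [Matrix.det_mul, Matrix.det_mul, Matrix.det_smul, Fintype.card_fin, mul_comm] at h4
    have h5 := congrArg v (mul_left_cancel₀ hdG h4)
    rw [hdet, map_mul, map_pow, hk₁.2, mul_one, pow_two] at h5
    exact h5.symm
  obtain ⟨k₂, hk₂⟩ : ∃ k₂, k₂ = (z * z₁) • (k₁ : Matrix (Fin 2) (Fin 2) E) := ⟨_, rfl⟩
  rw [← hk₂] at h2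
  have hk₂i : ∀ i j, v (k₂ i j) ≤ 1 := by
    intro i j
    rw [hk₂, Matrix.smul_apply, smul_eq_mul, map_mul, h3, one_mul]
    exact hk₁.1 i j
  have h6 := conj_lin h2 p q
  rw [← map_inv, ← map_mul, ← map_mul]
  refine ⟨G⁻¹ * e * G, ⟨fun i j => ?_, ?_⟩, rfl⟩
  · have h7 : ((G⁻¹ * e * G : GL (Fin 2) E) : Matrix (Fin 2) (Fin 2) E) = lin k₂ p q := by
      rw [Units.val_mul, Units.val_mul, he, mul_assoc, h6, ← mul_assoc, ← Units.val_mul,
        inv_mul_cancel, Units.val_one, one_mul]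
    rw [h7, lin, Matrix.add_apply, Matrix.smul_apply, Matrix.smul_apply, smul_eq_mul, smul_eq_mul]
    refine (Valuation.map_add _ _ _).trans (max_le ?_ ?_)
    · rw [Matrix.one_apply]
      split_ifs
      · rw [mul_one]; exact hp
      · rw [mul_zero, map_zero]; exact zero_le
    · rw [map_mul]
      exact mul_le_one' hq (hk₂i i j)
  · rw [Units.val_mul, Units.val_mul, Matrix.det_mul, Matrix.det_mul, Matrix.coe_units_inv,
      Matrix.det_nonsing_inv, Ring.inverse_eq_inv', he, mul_comm, ← mul_assoc,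
      mul_inv_cancel₀ hdG, one_mul]
    exact hed

/-- the norm of a twisted fixed point -/
theorem norm_fix (H : InertV v s π) {δ g : PGL(2, E)} (h : g⁻¹ * δ * sP s g ∈ U0v v) :
    g⁻¹ * nP s δ * g ∈ U0v v := by
  have e1 : g⁻¹ * nP s δ * g = (g⁻¹ * δ * sP s g) * sP s (g⁻¹ * δ * sP s g) *
      sP s (sP s (g⁻¹ * δ * sP s g)) := by
    simp only [nP, map_mul, map_inv, sP3 s H.s3]
    group
  rw [e1]
  exact (U0v v).mul_mem ((U0v v).mul_mem h (H.sP_mem h)) (H.sP_mem (H.sP_mem h))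

/-- the equivalence (I1) from an element `ε` fixing all `γ`-fixed vertices with `δ t = s(t) ε` -/
theorem equiv_of (H : InertV v s π) {δ t ε C : PGL(2, E)} (hN : nP s δ = C)
    (h1 : δ * t = sP s t * ε) (h2 : δ * t = t * δ) (h3 : δ * ε = ε * δ)
    (hε : ∀ g : PGL(2, E), g⁻¹ * C * g ∈ U0v v → g⁻¹ * ε * g ∈ U0v v) (g : PGL(2, E)) :
    g⁻¹ * δ * sP s g ∈ U0v v ↔ (t * g)⁻¹ * sP s (t * g) ∈ U0v v ∧ g⁻¹ * C * g ∈ U0v v := by
  have e1 : (t * g)⁻¹ * sP s (t * g) = (g⁻¹ * ε * g)⁻¹ * (g⁻¹ * δ * sP s g) := by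
    have e2 : sP s t = δ * t * ε⁻¹ := by rw [h1]; group
    have e3 : t⁻¹ * (δ * t * ε⁻¹) = ε⁻¹ * δ := by
      rw [h2]
      have : δ * ε⁻¹ = ε⁻¹ * δ := by
        rw [mul_inv_eq_iff_eq_mul, mul_assoc, h3]; group
      rw [← this]; group
    calc (t * g)⁻¹ * sP s (t * g) = g⁻¹ * (t⁻¹ * sP s t) * sP s g := by
          rw [map_mul]; group
      _ = g⁻¹ * (ε⁻¹ * δ) * sP s g := by rw [e2, e3]
      _ = _ := by group
  constructor
  · intro h
    have h4 : g⁻¹ * C * g ∈ U0v v := by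
      rw [← hN]
      exact norm_fix H h
    refine ⟨?_, h4⟩
    rw [e1]
    exact (U0v v).mul_mem ((U0v v).inv_mem (hε g h4)) h
  · rintro ⟨h, h4⟩
    have e4 : g⁻¹ * δ * sP s g = (g⁻¹ * ε * g) * ((t * g)⁻¹ * sP s (t * g)) := by
      rw [e1]; group
    rw [e4]
    exact (U0v v).mul_mem (hε g h4) h

theorem sM_nm (H : InertV v s π) {C : Matrix (Fin 2) (Fin 2) E} (hC : sM s C = C) (a b : E) :
    sM s (nm s (lin C a b)) = nm s (lin C a b) := by
  have hsl : ∀ x y : E, sM s (lin C x y) = lin C (s x) (s y) := by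
    intro x y
    rw [lin, map_add, sM_smul, sM_smul, map_one, hC, lin]
  rw [nm, map_mul, map_mul, sM3 s H.s3, hsl, hsl, mul_assoc, lin_mul, lin_comm, lin_mul, lin_mul,
    lin_mul]
  congr 1 <;> ring

theorem zpow_inj (H : InertV v s π) {n l : ℤ} (h : v π ^ n = v π ^ l) : n = l := by
  have h0 : (0 : Γ₀) < v π := zero_lt_iff.2 ((Valuation.ne_zero_iff _).2 H.π0)
  exact zpow_right_injective₀ h0 H.πlt.ne h

/-- **(I1)**: the twisted fixed points of `δ` are the fixed points of `γ` translated by `t`. -/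
theorem exists_t (H : InertV v s π) (hfix : ∀ x, s x = x → x ∈ Set.range (algebraMap F E))
    (h2 : (2 : F) ≠ 0) {δ : PGL(2, E)} {γ : PGL(2, F)} (hγ : EllReg γ)
    (hN : nP s δ = incP E γ) :
    ∃ t : PGL(2, E), (∀ y : PGL(2, F), y * γ = γ * y → t * incP E y = incP E y * t) ∧
      ∀ g : PGL(2, E), g⁻¹ * δ * sP s g ∈ U0v v ↔
        (t * g)⁻¹ * sP s (t * g) ∈ U0v v ∧ g⁻¹ * incP E γ * g ∈ U0v v := by
  by_cases hex : ∃ g : PGL(2, E), g⁻¹ * incP E γ * g ∈ U0v v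
  swap
  · refine ⟨1, fun y _ => by rw [one_mul, mul_one], fun g => ⟨fun h => ?_, fun h => ?_⟩⟩
    · exact absurd ⟨g, by rw [← hN]; exact norm_fix H h⟩ hex
    · exact absurd ⟨g, h.2⟩ hex
  obtain ⟨g₁, hg₁⟩ := hex
  obtain ⟨G₁, rfl⟩ := mk_surjective g₁
  obtain ⟨g₀, rfl⟩ := mk_surjective γ
  obtain ⟨d, rfl⟩ := mk_surjective δ
  obtain ⟨a, b, hd⟩ := lin_of_rational H.s3 hfix hN hγ rfl rfl
  obtain ⟨C, hC⟩ : ∃ C : Matrix (Fin 2) (Fin 2) E, C = inc (g₀ : Matrix (Fin 2) (Fin 2) F) := ⟨_, rfl⟩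
  rw [← hC] at hd
  have hCs : sM s C = C := by rw [hC, sM_inc]
  obtain ⟨Cg, hCg⟩ : ∃ Cg : GL (Fin 2) E, Cg = GeneralLinearGroup.map (algebraMap F E) g₀ := ⟨_, rfl⟩
  have hCgv : (Cg : Matrix (Fin 2) (Fin 2) E) = C := by rw [hCg, val_map_inc, hC]
  have hγC : incP E (pmk g₀) = pmk Cg := by rw [incP_mk, hCg]
  rw [hγC] at hN hg₁ ⊢
  have hN' := hN
  rw [nP_mk] at hN'
  obtain ⟨z, hz, hzN⟩ := mk_eq_iff.1 hN'
  rw [val_nG, hCgv] at hzN
  -- `C = z N(d)`, `c = N(d)`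
  obtain ⟨c, hc⟩ : ∃ c, c = nm s (d : Matrix (Fin 2) (Fin 2) E) := ⟨_, rfl⟩
  rw [← hc] at hzN
  have hcs : sM s c = c := by rw [hc, hd]; exact sM_nm H hCs a b
  have hcC : c = z⁻¹ • C := by rw [hzN, smul_smul, inv_mul_cancel₀ hz, one_smul]
  -- valuations
  rw [← map_inv, ← map_mul, ← map_mul] at hg₁
  obtain ⟨z₁, hz₁, k₁, hk₁, h1⟩ := mem_U0v.1 hg₁
  have hdG := det_ne_zero G₁
  have h3 : c * (G₁ : Matrix (Fin 2) (Fin 2) E) =
      G₁ * ((z⁻¹ * z₁) • (k₁ : Matrix (Fin 2) (Fin 2) E)) := by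
    rw [hcC, smul_mul_assoc, mul_smul_comm, mul_smul, ← mul_smul_comm z₁, ← h1, ← hCgv]
    congr 1
    rw [← Units.val_mul, ← Units.val_mul, mul_assoc, mul_inv_cancel_left]
  obtain ⟨w, hw⟩ : ∃ w, w = z⁻¹ * z₁ := ⟨_, rfl⟩
  have hw0 : w ≠ 0 := by rw [hw]; exact mul_ne_zero (inv_ne_zero hz) hz₁
  rw [← hw] at h3
  have hu₁ : IsUnit (G₁ : Matrix (Fin 2) (Fin 2) E).det := isUnit_iff_ne_zero.mpr hdG
  have hcdet : c.det = w ^ 2 * (k₁ : Matrix (Fin 2) (Fin 2) E).det := by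
    have h4 := congrArg Matrix.det h3
    rw [Matrix.det_mul, Matrix.det_mul, Matrix.det_smul, Fintype.card_fin, mul_comm] at h4
    exact mul_left_cancel₀ hdG h4
  have hctr : c.trace = w * (k₁ : Matrix (Fin 2) (Fin 2) E).trace := by
    have h4 : c = G₁ * (w • (k₁ : Matrix (Fin 2) (Fin 2) E)) * (G₁ : Matrix (Fin 2) (Fin 2) E)⁻¹ := by
      rw [← h3, mul_assoc, Matrix.mul_nonsing_inv _ hu₁, mul_one]
    rw [h4, Matrix.trace_mul_comm, ← mul_assoc, Matrix.nonsing_inv_mul _ hu₁, one_mul,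
      Matrix.trace_smul, smul_eq_mul]
  obtain ⟨n, hn⟩ := H.disc w hw0
  obtain ⟨l, hl⟩ := H.disc _ (det_ne_zero d)
  have hπ0 : v π ≠ 0 := (Valuation.ne_zero_iff _).2 H.π0
  have hnl : 2 * n = 3 * l := by
    apply zpow_inj H
    have h5 : v c.det = v π ^ (3 * l) := by
      rw [hc, nm, Matrix.det_mul, Matrix.det_mul, det_sM, det_sM, det_sM, map_mul, map_mul, H.vs,
        H.vs, H.vs, hl, ← zpow_add₀ hπ0, ← zpow_add₀ hπ0]
      congr 1
      ring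
    rw [← h5, hcdet, map_mul, hk₁.2, mul_one, map_pow, hn, ← zpow_natCast, ← _root_.zpow_mul]
    congr 1
    push_cast
    ring
  obtain ⟨m, rfl⟩ : ∃ m, n = 3 * m := ⟨n - l, by omega⟩
  obtain ⟨ϖ, hϖ⟩ : ∃ ϖ : E, ϖ = π ^ m := ⟨_, rfl⟩
  have hϖ0 : ϖ ≠ 0 := by rw [hϖ]; exact zpow_ne_zero _ H.π0
  have hsϖ : s ϖ = ϖ := by rw [hϖ, map_zpow₀, H.sπ]
  have hvw : v w = v ϖ ^ 3 := by
    rw [hn, hϖ, map_zpow₀, ← zpow_natCast (v π ^ m), ← _root_.zpow_mul]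
    congr 1
    push_cast
    ring
  have hvϖ : v ϖ ≠ 0 := (Valuation.ne_zero_iff _).2 hϖ0
  have hvw0 : v w ≠ 0 := (Valuation.ne_zero_iff _).2 hw0
  obtain ⟨ζ, hζ⟩ : ∃ ζ : E, ζ = (ϖ ^ 3)⁻¹ * z⁻¹ := ⟨_, rfl⟩
  have hζ0 : ζ ≠ 0 := by
    rw [hζ]; exact mul_ne_zero (inv_ne_zero (pow_ne_zero _ hϖ0)) (inv_ne_zero hz)
  obtain ⟨c', hc'⟩ : ∃ c', c' = ζ • C := ⟨_, rfl⟩
  have hc'c : c' = (ϖ ^ 3)⁻¹ • c := by rw [hc', hζ, hcC, smul_smul]
  have hc's : sM s c' = c' := by rw [hc'c, sM_smul, hcs, map_inv₀, map_pow, hsϖ]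
  have hc'tr : v c'.trace ≤ 1 := by
    rw [hc'c, Matrix.trace_smul, smul_eq_mul, hctr, map_mul, map_mul, map_inv₀, map_pow, ← hvw,
      ← mul_assoc, inv_mul_cancel₀ hvw0, one_mul, Matrix.trace_fin_two]
    exact (Valuation.map_add _ _ _).trans (max_le (hk₁.1 0 0) (hk₁.1 1 1))
  have hc'det : v c'.det = 1 := by
    rw [hc'c, Matrix.det_smul, Fintype.card_fin, hcdet, map_mul, map_mul, hk₁.2, mul_one, map_pow,
      map_pow, map_inv₀, map_pow, ← hvw, ← mul_pow, inv_mul_cancel₀ hvw0, one_pow]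
  have hc'disc : c'.trace * c'.trace - 4 * c'.det ≠ 0 := by
    have h5 := (hγ.lift rfl).1 ((g₀ : Matrix (Fin 2) (Fin 2) F).trace / 2)
    have h6 : c'.trace * c'.trace - 4 * c'.det = ζ ^ 2 * algebraMap F E
        ((g₀ : Matrix (Fin 2) (Fin 2) F).trace * (g₀ : Matrix (Fin 2) (Fin 2) F).trace -
          4 * (g₀ : Matrix (Fin 2) (Fin 2) F).det) := by
      rw [hc', Matrix.trace_smul, Matrix.det_smul, Fintype.card_fin, smul_eq_mul, hC, trace_inc,
        det_inc, map_sub, map_mul, map_mul, map_ofNat]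
      ring
    rw [h6]
    refine mul_ne_zero (pow_ne_zero _ hζ0) ?_
    rw [map_ne_zero]
    intro h7
    apply h5
    have h8 : (4 : F) ≠ 0 := by
      have : (4 : F) = 2 * 2 := by norm_num
      rw [this]; exact mul_ne_zero h2 h2
    field_simp
    linear_combination (-1 : F) * h7
  -- `d' = ϖ⁻¹ d`
  have hd' : lin c' (ϖ⁻¹ * a) (ϖ⁻¹ * b * ζ⁻¹) = ϖ⁻¹ • (d : Matrix (Fin 2) (Fin 2) E) := by
    rw [hc', lin_smul, hd, smul_lin, inv_mul_cancel_right₀ hζ0]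
  have hNd' : nm s (lin c' (ϖ⁻¹ * a) (ϖ⁻¹ * b * ζ⁻¹)) = c' := by
    rw [hd', nm_smul, ← hc, hc'c, map_inv₀, hsϖ, map_inv₀, hsϖ]
    congr 1
    field_simp
  obtain ⟨x, y, p, q, hp, hq, hxy, hpq, hte⟩ := H.exists_te hc's hc'tr hc'det hc'disc hNd'
  have hpq0 : (lin c' p q).det ≠ 0 := by
    intro h
    rw [h, map_zero] at hpq
    exact zero_ne_one hpq
  obtain ⟨t, ht⟩ : ∃ t : GL (Fin 2) E, t = toGL _ hxy := ⟨_, rfl⟩
  obtain ⟨e, he⟩ : ∃ e : GL (Fin 2) E, e = toGL _ hpq0 := ⟨_, rfl⟩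
  have htv : (t : Matrix (Fin 2) (Fin 2) E) = lin c' x y := by rw [ht, toGL_val]
  have hev : (e : Matrix (Fin 2) (Fin 2) E) = lin c' p q := by rw [he, toGL_val]
  have htv' : (t : Matrix (Fin 2) (Fin 2) E) = lin C x (y * ζ) := by rw [htv, hc', lin_smul]
  have hev' : (e : Matrix (Fin 2) (Fin 2) E) = lin C p (q * ζ) := by rw [hev, hc', lin_smul]
  refine ⟨pmk t, ?_, ?_⟩
  · intro Y hY
    obtain ⟨Y, rfl⟩ := mk_surjective Y
    obtain ⟨a', b', hY'⟩ := exists_lin_of_commute hγ hY (g := g₀) rfl rfl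
    rw [incP_mk]
    refine comm_of_lin htv' (a' := algebraMap F E a') (b' := algebraMap F E b') ?_
    rw [val_map_inc, hY', hC]
    ext i j
    simp only [inc_apply, lin, Matrix.add_apply, Matrix.smul_apply, smul_eq_mul, map_add, map_mul,
      Matrix.one_apply]
    split_ifs <;> simp
  · refine equiv_of H (ε := pmk e) hN ?_ (comm_of_lin hd htv') (comm_of_lin hd hev') ?_
    · rw [sP_mk, ← map_mul, ← map_mul, eq_comm, mk_eq_iff]
      refine ⟨ϖ, hϖ0, ?_⟩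
      rw [Units.val_mul, Units.val_mul, val_map_s, htv, hev, ← hte, hd', smul_mul_assoc, smul_smul,
        mul_inv_cancel₀ hϖ0, one_smul]
    · intro g hg
      refine fix_of_lin hc'det (Cg := Cg) hζ0 ?_ hp hq hev hpq hg
      rw [hCgv, hc']

end Fermat.Agent.H61K
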