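import Fermat.Agent.H61K6

/-!
# Local matching at an inert good place (S47, package C12): final statements

* `locMatch`: for every norm pair `(δ, γ)`, `γ` elliptic regular, there is a local matching
  between the weights `1[g⁻¹ δ s(g) ∈ U₀]` and `1[y⁻¹ γ y ∈ U₀]`;
* `locMatch_base`: the same with compatibility of base points if `δ` is integral and
  `γ` is integral with unit discriminant.
-/

set_option autoImplicit false
set_option linter.unusedSectionVars false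
set_option linter.unusedVariables false

noncomputable section

namespace Fermat.Agent.H61K

open Matrix
open scoped MatrixGroups
open Fermat.Agent.H20.S47 Fermat.Agent.H57C
open Matrix.ProjGenLinGroup (mk_surjective)

local notation "pmk" => Matrix.ProjGenLinGroup.mk

variable {F E : Type*} [Field F] [Field E] [Algebra F E] {Γ₀ : Type*}
  [LinearOrderedCommGroupWithZero Γ₀] {v : Valuation E Γ₀} {s : E ≃ₐ[F] E} {π : E}
  {ΓF : Type*} [LinearOrderedCommGroupWithZero ΓF] {vF : Valuation F ΓF}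

/-- **Local matching at an inert good place (LM_v).** -/
theorem locMatch (H : InertV v s π) (hfix : ∀ x, s x = x → x ∈ Set.range (algebraMap F E))
    (hcomp : ∀ x : F, vF x ≤ 1 ↔ v (algebraMap F E x) ≤ 1)
    (h2 : (2 : F) ≠ 0) {δ : PGL(2, E)} {γ : PGL(2, F)} (hγ : EllReg γ)
    (hN : nP s δ = incP E γ) {T : Type*} (τ : T → PGL(2, F)) (hτ : ∀ a, τ a * γ = γ * τ a)
    (φ : PGL(2, E) ⧸ U0v v → ℂ) (ψ : PGL(2, F) ⧸ U0v vF → ℂ)
    (hφ : ∀ g : PGL(2, E), g⁻¹ * δ * sP s g ∈ U0v v → φ (g : PGL(2, E) ⧸ U0v v) = 1)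
    (hφ0 : ∀ g : PGL(2, E), g⁻¹ * δ * sP s g ∉ U0v v → φ (g : PGL(2, E) ⧸ U0v v) = 0)
    (hψ : ∀ y : PGL(2, F), y⁻¹ * γ * y ∈ U0v vF → ψ (y : PGL(2, F) ⧸ U0v vF) = 1)
    (hψ0 : ∀ y : PGL(2, F), y⁻¹ * γ * y ∉ U0v vF → ψ (y : PGL(2, F) ⧸ U0v vF) = 0) :
    ∃ β : PGL(2, E) ⧸ U0v v → PGL(2, F) ⧸ U0v vF,
      LocMatch (fun a x => incP E (τ a) • x) (fun a y => τ a • y) φ ψ β := by
  obtain ⟨t, ht, h1⟩ := exists_t H hfix h2 hγ hN
  exact ⟨_, locMatch_of τ (fun y => sP_incP s y) (H.comap_mem hcomp hfix)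
    (fun g hg => H.descent hfix hg) (fun a => ht _ (hτ a)) (ht γ rfl) h1 φ ψ hφ hφ0 hψ hψ0⟩

/-- if `δ` is integral and `γ` is integral with unit discriminant one may take `t = 1`. -/
theorem equiv_one (H : InertV v s π) (hfix : ∀ x, s x = x → x ∈ Set.range (algebraMap F E))
    (hcomp : ∀ x : F, vF x ≤ 1 ↔ v (algebraMap F E x) ≤ 1)
    {δ : PGL(2, E)} {g₀ : GL (Fin 2) F} (hγ : EllReg (pmk g₀ : PGL(2, F)))
    (hN : nP s δ = incP E (pmk g₀)) (hδ : δ ∈ U0v v) (hg₀ : g₀ ∈ GLv vF)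
    (hdisc : v (algebraMap F E ((g₀ : Matrix (Fin 2) (Fin 2) F).trace *
      (g₀ : Matrix (Fin 2) (Fin 2) F).trace - 4 * (g₀ : Matrix (Fin 2) (Fin 2) F).det)) = 1)
    (g : PGL(2, E)) :
    g⁻¹ * δ * sP s g ∈ U0v v ↔
        (1 * g)⁻¹ * sP s (1 * g) ∈ U0v v ∧ g⁻¹ * incP E (pmk g₀) * g ∈ U0v v := by
  obtain ⟨d, hdm, rfl⟩ := hδ
  obtain ⟨a, b, hd⟩ := lin_of_rational H.s3 hfix hN hγ rfl rfl
  obtain ⟨C, hC⟩ : ∃ C : Matrix (Fin 2) (Fin 2) E, C = inc (g₀ : Matrix (Fin 2) (Fin 2) F) := ⟨_, rfl⟩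
  rw [← hC] at hd
  obtain ⟨Cg, hCg⟩ : ∃ Cg : GL (Fin 2) E, Cg = GeneralLinearGroup.map (algebraMap F E) g₀ := ⟨_, rfl⟩
  have hCgv : (Cg : Matrix (Fin 2) (Fin 2) E) = C := by rw [hCg, val_map_inc, hC]
  have hCgm : Cg ∈ GLv v := by
    have h1 : pmk Cg ∈ U0v v := by
      rw [hCg, ← incP_mk, H.comap_mem hcomp hfix]
      exact ⟨g₀, hg₀, rfl⟩
    have h2 : ∀ i j, v (Cg i j) ≤ 1 := by
      intro i j
      rw [hCgv, hC, inc_apply, ← hcomp]
      exact hg₀.1 i j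
    refine ⟨h2, le_antisymm ?_ ?_⟩
    · rw [Matrix.det_fin_two]
      refine (Valuation.map_sub _ _ _).trans (max_le ?_ ?_)
      · rw [map_mul]; exact mul_le_one' (h2 _ _) (h2 _ _)
      · rw [map_mul]; exact mul_le_one' (h2 _ _) (h2 _ _)
    · have h3 : v (algebraMap F E ((g₀ : Matrix (Fin 2) (Fin 2) F).det)⁻¹) ≤ 1 := by
        rw [← hcomp, map_inv₀, hg₀.2, inv_one]
      rw [hCgv, hC, det_inc]
      rw [map_inv₀, map_inv₀] at h3
      have h4 : 0 < v (algebraMap F E (g₀ : Matrix (Fin 2) (Fin 2) F).det) := by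
        refine zero_lt_iff.2 ((Valuation.ne_zero_iff _).2 ?_)
        rw [map_ne_zero]
        exact det_ne_zero g₀
      exact (inv_le_one₀ h4).1 h3
  -- `b` and `a` are integral
  have hCi : ∀ i j, v (C i j) ≤ 1 := by rw [← hCgv]; exact hCgm.1
  have hdi := hdm.1
  rw [hd] at hdi
  have h00 := hdi 0 0
  have h11 := hdi 1 1
  have h01 := hdi 0 1
  have h10 := hdi 1 0
  simp only [lin, Matrix.add_apply, Matrix.smul_apply, smul_eq_mul, Matrix.one_apply_eq, mul_one]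
    at h00 h11
  simp only [lin, Matrix.add_apply, Matrix.smul_apply, smul_eq_mul,
    Matrix.one_apply_ne (show (0 : Fin 2) ≠ 1 by decide), mul_zero, zero_add] at h01
  simp only [lin, Matrix.add_apply, Matrix.smul_apply, smul_eq_mul,
    Matrix.one_apply_ne (show (1 : Fin 2) ≠ 0 by decide), mul_zero, zero_add] at h10
  have hdd : v (b * (C 0 0 - C 1 1)) ≤ 1 := by
    have e1 : b * (C 0 0 - C 1 1) = (a + b * C 0 0) - (a + b * C 1 1) := by ring
    rw [e1]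
    exact (Valuation.map_sub _ _ _).trans (max_le h00 h11)
  have hb : v b ≤ 1 := by
    have e1 : algebraMap F E ((g₀ : Matrix (Fin 2) (Fin 2) F).trace *
      (g₀ : Matrix (Fin 2) (Fin 2) F).trace - 4 * (g₀ : Matrix (Fin 2) (Fin 2) F).det) =
        (C 0 0 - C 1 1) * (C 0 0 - C 1 1) + 4 * (C 0 1 * C 1 0) := by
      rw [map_sub, map_mul, map_mul, ← trace_inc, ← det_inc, ← hC, Matrix.trace_fin_two,
        Matrix.det_fin_two, map_ofNat]
      ring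
    rw [e1] at hdisc
    have h4 : v (4 : E) ≤ 1 := by
      have : (4 : E) = (1 + 1) + (1 + 1) := by norm_num
      rw [this]
      have h5 : v ((1 : E) + 1) ≤ 1 := (Valuation.map_add _ _ _).trans (by rw [map_one, max_self])
      exact (Valuation.map_add _ _ _).trans (max_le h5 h5)
    have h6 : v (b * ((C 0 0 - C 1 1) * (C 0 0 - C 1 1) + 4 * (C 0 1 * C 1 0))) ≤ 1 := by
      have e2 : b * ((C 0 0 - C 1 1) * (C 0 0 - C 1 1) + 4 * (C 0 1 * C 1 0)) =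
          b * (C 0 0 - C 1 1) * (C 0 0 - C 1 1) + 4 * (b * C 0 1 * C 1 0) := by ring
      rw [e2]
      refine (Valuation.map_add _ _ _).trans (max_le ?_ ?_)
      · rw [map_mul]
        exact mul_le_one' hdd ((Valuation.map_sub _ _ _).trans (max_le (hCi _ _) (hCi _ _)))
      · rw [map_mul, map_mul]
        exact mul_le_one' h4 (mul_le_one' h01 (hCi _ _))
    rwa [map_mul, hdisc, mul_one] at h6
  have ha : v a ≤ 1 := by
    have e1 : a = (a + b * C 0 0) - b * C 0 0 := by ring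
    rw [e1]
    refine (Valuation.map_sub _ _ _).trans (max_le h00 ?_)
    rw [map_mul]
    exact mul_le_one' hb (hCi _ _)
  refine equiv_of H (t := 1) (ε := pmk d) hN (by rw [map_one, one_mul, mul_one])
    (by rw [mul_one, one_mul]) rfl ?_ g
  intro g hg
  refine fix_of_lin (C := C) (by rw [← hCgv]; exact hCgm.2) (Cg := Cg) one_ne_zero
    (by rw [one_smul, hCgv]) ha hb hd (by rw [← hd]; exact hdm.2) ?_
  rw [hCg, ← incP_mk]
  exact hg

/-- **Local matching at an inert good place with base points (LM_v^0).** -/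
theorem locMatch_base (H : InertV v s π) (hfix : ∀ x, s x = x → x ∈ Set.range (algebraMap F E))
    (hcomp : ∀ x : F, vF x ≤ 1 ↔ v (algebraMap F E x) ≤ 1)
    {δ : PGL(2, E)} {g₀ : GL (Fin 2) F} (hγ : EllReg (pmk g₀ : PGL(2, F)))
    (hN : nP s δ = incP E (pmk g₀)) (hδ : δ ∈ U0v v) (hg₀ : g₀ ∈ GLv vF)
    (hdisc : v (algebraMap F E ((g₀ : Matrix (Fin 2) (Fin 2) F).trace *
      (g₀ : Matrix (Fin 2) (Fin 2) F).trace - 4 * (g₀ : Matrix (Fin 2) (Fin 2) F).det)) = 1)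
    {T : Type*} (τ : T → PGL(2, F)) (hτ : ∀ a, τ a * pmk g₀ = pmk g₀ * τ a)
    (φ : PGL(2, E) ⧸ U0v v → ℂ) (ψ : PGL(2, F) ⧸ U0v vF → ℂ)
    (hφ : ∀ g : PGL(2, E), g⁻¹ * δ * sP s g ∈ U0v v → φ (g : PGL(2, E) ⧸ U0v v) = 1)
    (hφ0 : ∀ g : PGL(2, E), g⁻¹ * δ * sP s g ∉ U0v v → φ (g : PGL(2, E) ⧸ U0v v) = 0)
    (hψ : ∀ y : PGL(2, F), y⁻¹ * pmk g₀ * y ∈ U0v vF → ψ (y : PGL(2, F) ⧸ U0v vF) = 1)
    (hψ0 : ∀ y : PGL(2, F), y⁻¹ * pmk g₀ * y ∉ U0v vF → ψ (y : PGL(2, F) ⧸ U0v vF) = 0) :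
    ∃ β : PGL(2, E) ⧸ U0v v → PGL(2, F) ⧸ U0v vF,
      LocMatch (fun a x => incP E (τ a) • x) (fun a y => τ a • y) φ ψ β ∧
      Base ((1 : PGL(2, E)) : PGL(2, E) ⧸ U0v v) ((1 : PGL(2, F)) : PGL(2, F) ⧸ U0v vF) φ ψ β := by
  have h1 := equiv_one H hfix hcomp hγ hN hδ hg₀ hdisc
  exact ⟨_, locMatch_of τ (t := 1) (fun y => sP_incP s y) (H.comap_mem hcomp hfix)
    (fun g hg => H.descent hfix hg) (fun a => by rw [one_mul, mul_one])
    (by rw [one_mul, mul_one]) h1 φ ψ hφ hφ0 hψ hψ0,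
    base_of (H.comap_mem hcomp hfix) (fun g hg => H.descent hfix hg) hδ (U0v v).one_mem h1 φ ψ
      hφ hφ0 hψ⟩

end Fermat.Agent.H61K
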