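import Fermat.Agent.H61K7
import Fermat.Agent.H92T3
import Fermat.Agent.H59Aut

/-!
# Local matching at an inert good place (S47, package C12): number fields
-/

set_option autoImplicit false
set_option linter.unusedSectionVars false
set_option linter.unusedVariables false

noncomputable section

namespace Fermat.Agent.H61K

open Matrix IsDedekindDomain HeightOneSpectrum NumberField WithZero
open scoped MatrixGroups
open Fermat.Agent.H20.S47 Fermat.Agent.H57C Fermat.Agent.H59XF
open Matrix.ProjGenLinGroup (mk_surjective)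

local notation "pmk" => Matrix.ProjGenLinGroup.mk

section numfield

variable {F E : Type*} [Field F] [NumberField F] [Field E] [NumberField E] [Algebra F E]
  {s : E ≃ₐ[F] E} {w : HeightOneSpectrum (𝓞 E)} {v : HeightOneSpectrum (𝓞 F)}

/-- finite residue field: representatives, and `x ^ q ≡ x` -/
theorem residue (w : HeightOneSpectrum (𝓞 E)) :
    ∃ S : Set E, S.Finite ∧ ∀ x, w.valuation E x ≤ 1 → ∃ r ∈ S, w.valuation E (x - r) < 1 := by
  classical
  have hfin : Finite (𝓞 E ⧸ w.asIdeal) := Ideal.finiteQuotientOfFreeOfNeBot w.asIdeal w.ne_bot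
  refine ⟨Set.range fun q : 𝓞 E ⧸ w.asIdeal => ((q.out : 𝓞 E) : E), Set.finite_range _, ?_⟩
  intro x hx
  obtain ⟨a, ha⟩ := w.exists_valuation_sub_lt_of_integer hx 1
  refine ⟨_, ⟨Ideal.Quotient.mk w.asIdeal a, rfl⟩, ?_⟩
  have h1 : (Ideal.Quotient.mk w.asIdeal a).out - a ∈ w.asIdeal := by
    rw [← Ideal.Quotient.eq]
    exact Quotient.out_eq _
  have h2 : w.valuation E (algebraMap (𝓞 E) E ((Ideal.Quotient.mk w.asIdeal a).out - a)) < 1 := by
    rw [w.valuation_lt_one_iff_mem]
    exact h1
  have h3 : x - ((Ideal.Quotient.mk w.asIdeal a).out : E) =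
      -(algebraMap (𝓞 E) E ((Ideal.Quotient.mk w.asIdeal a).out - a)) -
        (algebraMap (𝓞 E) E a - x) := by
    rw [map_sub]
    ring
  rw [h3]
  refine (Valuation.map_sub _ _ _).trans_lt (max_lt ?_ ?_)
  · rwa [Valuation.map_neg]
  · simpa using ha

theorem pow_card (w : HeightOneSpectrum (𝓞 E)) (h3 : w.valuation E 3 < 1) :
    ∃ f : ℕ, ∀ x, w.valuation E x ≤ 1 → w.valuation E (x ^ (3 ^ (f + 1)) - x) < 1 := by
  classical
  have hfin : Finite (𝓞 E ⧸ w.asIdeal) := Ideal.finiteQuotientOfFreeOfNeBot w.asIdeal w.ne_bot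
  have hmax : w.asIdeal.IsMaximal := w.isMaximal
  let : Field (𝓞 E ⧸ w.asIdeal) := Ideal.Quotient.field _
  have := Fintype.ofFinite (𝓞 E ⧸ w.asIdeal)
  have h3' : (3 : 𝓞 E) ∈ w.asIdeal := by
    rw [← w.valuation_lt_one_iff_mem (K := E)]
    show w.valuation E (algebraMap (𝓞 E) E 3) < 1
    rw [map_ofNat]
    exact h3
  have hchar : ((3 : ℕ) : 𝓞 E ⧸ w.asIdeal) = 0 := by
    have : ((3 : ℕ) : 𝓞 E ⧸ w.asIdeal) = Ideal.Quotient.mk w.asIdeal 3 := by
      rw [map_ofNat]
      rfl
    rw [this, Ideal.Quotient.eq_zero_iff_mem]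
    exact h3'
  obtain ⟨p, hp⟩ := CharP.exists (𝓞 E ⧸ w.asIdeal)
  obtain ⟨n, hpp, hn⟩ := FiniteField.card (𝓞 E ⧸ w.asIdeal) p
  have hp3 : p = 3 := by
    have h4 : p ∣ 3 := (CharP.cast_eq_zero_iff _ p 3).1 hchar
    exact (Nat.prime_dvd_prime_iff_eq hpp Nat.prime_three).1 h4
  refine ⟨(n : ℕ) - 1, ?_⟩
  have hn1 : (n : ℕ) - 1 + 1 = n := Nat.sub_add_cancel n.2
  rw [hn1]
  intro x hx
  obtain ⟨a, ha⟩ := w.exists_valuation_sub_lt_of_integer hx 1
  have ha' : w.valuation E (x - algebraMap (𝓞 E) E a) < 1 := by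
    rw [Valuation.map_sub_swap]; simpa using ha
  have ha1 : w.valuation E (algebraMap (𝓞 E) E a) ≤ 1 := w.valuation_le_one a
  have h5 : w.valuation E (algebraMap (𝓞 E) E (a ^ (3 ^ (n : ℕ)) - a)) < 1 := by
    rw [w.valuation_lt_one_iff_mem, ← Ideal.Quotient.eq, map_pow]
    have := FiniteField.pow_card (Ideal.Quotient.mk w.asIdeal a)
    rw [hn, hp3] at this
    exact this
  have h6 : ∀ m : ℕ, w.valuation E (x ^ m - (algebraMap (𝓞 E) E a) ^ m) < 1 := by
    intro m
    induction m with
    | zero => simp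
    | succ m ih =>
      have : x ^ (m + 1) - (algebraMap (𝓞 E) E a) ^ (m + 1) =
          x ^ m * (x - algebraMap (𝓞 E) E a) +
            (x ^ m - (algebraMap (𝓞 E) E a) ^ m) * algebraMap (𝓞 E) E a := by ring
      rw [this]
      refine (Valuation.map_add _ _ _).trans_lt (max_lt ?_ ?_)
      · rw [map_mul, map_pow]
        exact (mul_le_of_le_one_left' (pow_le_one' hx m)).trans_lt ha'
      · rw [map_mul]
        exact (mul_le_of_le_one_right' ha1).trans_lt ih
  have h7 : x ^ 3 ^ (n : ℕ) - x = (x ^ 3 ^ (n : ℕ) - (algebraMap (𝓞 E) E a) ^ 3 ^ (n : ℕ)) +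
      (algebraMap (𝓞 E) E (a ^ (3 ^ (n : ℕ)) - a)) - (x - algebraMap (𝓞 E) E a) := by
    rw [map_sub, map_pow]
    ring
  rw [h7]
  exact (Valuation.map_sub _ _ _).trans_lt (max_lt ((Valuation.map_add _ _ _).trans_lt
    (max_lt (h6 _) h5)) ha')

/-- an automorphism fixing a place, unramified there, acts nontrivially on the residue field -/
theorem sep_of (h3 : ∀ x, s (s (s x)) = x) (hs : s ≠ AlgEquiv.refl)
    (hfix : ∀ x, s x = x → x ∈ Set.range (algebraMap F E))
    (hsw : ∀ x, w.valuation E (s x) = w.valuation E x) {π : F}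
    (hπ : w.valuation E (algebraMap F E π) = exp (-1)) :
    ∃ θ, w.valuation E θ ≤ 1 ∧ w.valuation E (s θ - θ) = 1 := by
  by_contra hcon
  push Not at hcon
  have htriv : ∀ x, w.valuation E x ≤ 1 → w.valuation E (s x - x) < 1 := by
    intro x hx
    refine lt_of_le_of_ne ?_ (hcon x hx)
    exact (Valuation.map_sub _ _ _).trans (max_le ((hsw x).le.trans hx) hx)
  have htriv2 : ∀ x, w.valuation E x ≤ 1 → w.valuation E (s (s x) - x) < 1 := by
    intro x hx
    have : s (s x) - x = (s (s x) - s x) + (s x - x) := by ring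
    rw [this]
    exact (Valuation.map_add _ _ _).trans_lt
      (max_lt (htriv _ ((hsw x).le.trans hx)) (htriv x hx))
  -- every integral element is congruent to an element of `F`
  have key : ∀ x, w.valuation E x ≤ 1 → ∃ y : F, w.valuation E (x - algebraMap F E y) < 1 := by
    intro x hx
    by_cases h3v : w.valuation E 3 < 1
    · obtain ⟨f, hf⟩ := pow_card w h3v
      obtain ⟨y, hy⟩ := hfix (x * s x * s (s x)) (by rw [map_mul, map_mul, h3]; ring)
      refine ⟨y ^ (3 ^ f), ?_⟩
      have h4 : ∀ a b : E, w.valuation E a ≤ 1 → w.valuation E b ≤ 1 →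
          w.valuation E (a - b) < 1 → ∀ m : ℕ, w.valuation E (a ^ m - b ^ m) < 1 := by
        intro a b ha hb hab m
        induction m with
        | zero => simp
        | succ m ih =>
          have : a ^ (m + 1) - b ^ (m + 1) = a ^ m * (a - b) + (a ^ m - b ^ m) * b := by ring
          rw [this]
          refine (Valuation.map_add _ _ _).trans_lt (max_lt ?_ ?_)
          · rw [map_mul, map_pow]
            exact (mul_le_of_le_one_left' (pow_le_one' ha m)).trans_lt hab
          · rw [map_mul]
            exact (mul_le_of_le_one_right' hb).trans_lt ih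
      have h5 : w.valuation E (x ^ 3 - algebraMap F E y) < 1 := by
        rw [hy]
        have : x ^ 3 - x * s x * s (s x) = -(x * x * (s (s x) - x)) - x * (s x - x) * s (s x) := by
          ring
        rw [this]
        refine (Valuation.map_sub _ _ _).trans_lt (max_lt ?_ ?_)
        · rw [Valuation.map_neg, map_mul]
          refine (mul_le_of_le_one_left' ?_).trans_lt (htriv2 x hx)
          rw [map_mul]
          exact mul_le_one' hx hx
        · rw [map_mul, map_mul]
          refine (mul_le_of_le_one_right' ?_).trans_lt ?_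
          · rw [hsw, hsw]; exact hx
          · exact (mul_le_of_le_one_left' hx).trans_lt (htriv x hx)
      have hyv : w.valuation E (algebraMap F E y) ≤ 1 := by
        rw [hy, map_mul, map_mul, hsw, hsw, hsw]
        exact mul_le_one' (mul_le_one' hx hx) hx
      have h6 := h4 (x ^ 3) (algebraMap F E y) (by rw [map_pow]; exact pow_le_one' hx 3) hyv h5
        (3 ^ f)
      have h7 : x - algebraMap F E (y ^ 3 ^ f) = ((x ^ 3) ^ 3 ^ f - (algebraMap F E y) ^ 3 ^ f) -
          (x ^ (3 ^ (f + 1)) - x) := by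
        rw [map_pow, ← pow_mul, ← pow_succ']
        ring
      rw [h7]
      exact (Valuation.map_sub _ _ _).trans_lt (max_lt h6 (hf x hx))
    · have h3v' : w.valuation E 3 = 1 := by
        refine le_antisymm ?_ (not_lt.1 h3v)
        have : (3 : E) = algebraMap (𝓞 E) E 3 := by rw [map_ofNat]
        rw [this]
        exact w.valuation_le_one 3
      have h30 : (3 : E) ≠ 0 := by
        intro h
        rw [h, map_zero] at h3v'
        exact zero_ne_one h3v'
      obtain ⟨y, hy⟩ := hfix ((x + s x + s (s x)) / 3) (by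
        rw [map_div₀, map_add, map_add, h3, map_ofNat]; ring)
      refine ⟨y, ?_⟩
      have : x - algebraMap F E y = -(((s x - x) + (s (s x) - x)) / 3) := by
        rw [hy]
        field_simp
        ring
      rw [this, Valuation.map_neg, map_div₀, h3v', div_one]
      exact (Valuation.map_add _ _ _).trans_lt (max_lt (htriv x hx) (htriv2 x hx))
  -- density
  have dense : ∀ n : ℕ, ∀ x, w.valuation E x ≤ 1 → ∃ y : F,
      w.valuation E (x - algebraMap F E y) ≤ exp (-(n : ℤ)) := by
    intro n
    induction n with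
    | zero => exact fun x hx => ⟨0, by simpa using hx⟩
    | succ n ih =>
      intro x hx
      obtain ⟨y, hy⟩ := ih x hx
      have hπn : w.valuation E (algebraMap F E π ^ n) = exp (-(n : ℤ)) := by
        rw [map_pow, hπ, ← WithZero.exp_nsmul]
        congr 1
        simp
      have hπn0 : algebraMap F E π ^ n ≠ 0 := by
        intro h
        rw [h, map_zero] at hπn
        exact exp_ne_zero hπn.symm
      have hx' : w.valuation E ((x - algebraMap F E y) / algebraMap F E π ^ n) ≤ 1 := by
        rw [map_div₀, hπn]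
        exact div_le_one_of_le₀ hy (by simp)
      obtain ⟨z, hz⟩ := key _ hx'
      refine ⟨y + π ^ n * z, ?_⟩
      have : x - algebraMap F E (y + π ^ n * z) = algebraMap F E π ^ n *
          ((x - algebraMap F E y) / algebraMap F E π ^ n - algebraMap F E z) := by
        rw [map_add, map_mul, map_pow]
        field_simp
        ring
      rw [this, map_mul, hπn]
      have h8 : w.valuation E ((x - algebraMap F E y) / algebraMap F E π ^ n - algebraMap F E z) ≤
          exp (-1) := by
        rw [← WithZero.lt_mul_exp_iff_le exp_ne_zero, ← exp_add]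
        simpa using hz
      calc exp (-(n : ℤ)) * _ ≤ exp (-(n : ℤ)) * exp (-1 : ℤ) := by gcongr
        _ = exp (-((n + 1 : ℕ) : ℤ)) := by
          rw [← exp_add]
          congr 1
          push_cast
          ring
  apply hs
  ext x
  rw [AlgEquiv.coe_refl, id]
  -- it suffices to treat integral `x`
  have main : ∀ x, w.valuation E x ≤ 1 → s x = x := by
    intro x hx
    by_contra hne
    have hne' : s x - x ≠ 0 := sub_ne_zero.2 hne
    have hv0 : w.valuation E (s x - x) ≠ 0 := (Valuation.ne_zero_iff _).2 hne'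
    obtain ⟨n, hn⟩ : ∃ n : ℕ, exp (-(n : ℤ)) < w.valuation E (s x - x) := by
      obtain ⟨k, hk⟩ : ∃ k : ℤ, w.valuation E (s x - x) = exp k := ⟨_, (exp_log hv0).symm⟩
      refine ⟨(1 - k).toNat, ?_⟩
      rw [hk, exp_lt_exp]
      omega
    obtain ⟨y, hy⟩ := dense n x hx
    have : s x - x = s (x - algebraMap F E y) - (x - algebraMap F E y) := by
      rw [map_sub, s.commutes]; ring
    rw [this] at hn
    have h9 := (Valuation.map_sub (w.valuation E) (s (x - algebraMap F E y))
      (x - algebraMap F E y)).trans (max_le ((hsw _).le.trans hy) hy)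
    exact absurd hn (not_lt.2 h9)
  rcases le_total (w.valuation E x) 1 with hx | hx
  · exact main x hx
  · have hx0 : x ≠ 0 := by
      rintro rfl
      rw [map_zero] at hx
      exact absurd hx (not_le.2 zero_lt_one)
    have h10 : w.valuation E x⁻¹ ≤ 1 := by
      rw [map_inv₀]
      exact inv_le_one_of_one_le₀ hx
    have h11 := main _ h10
    rw [map_inv₀] at h11
    exact inv_injective h11

/-- **`InertV` for number fields**: `s` fixes the place `w` of `E`, which is unramified over `F`. -/
theorem inertV_of (h3 : ∀ x, s (s (s x)) = x) (hs : s ≠ AlgEquiv.refl)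
    (hfix : ∀ x, s x = x → x ∈ Set.range (algebraMap F E))
    (hsw : ∀ x, w.valuation E (s x) = w.valuation E x)
    (hval : ∀ x : F, w.valuation E (algebraMap F E x) = v.valuation F x) :
    ∃ π : E, InertV (w.valuation E) s π := by
  obtain ⟨π, hπ⟩ := v.valuation_exists_uniformizer F
  have hπw : w.valuation E (algebraMap F E π) = exp (-1) := by rw [hval, hπ]
  refine ⟨algebraMap F E π, h3, hsw, s.commutes π, ?_, ?_, ?_, sep_of h3 hs hfix hsw hπw,
    residue w⟩
  · intro h
    rw [h, map_zero] at hπw
    exact exp_ne_zero hπw.symm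
  · rw [hπw, ← exp_zero, exp_lt_exp]
    norm_num
  · intro x hx
    have hv0 : w.valuation E x ≠ 0 := (Valuation.ne_zero_iff _).2 hx
    refine ⟨-(log (w.valuation E x)), ?_⟩
    rw [hπw]
    conv_lhs => rw [← exp_log hv0]
    rw [← WithZero.exp_zsmul]
    congr 1
    simp

end numfield

end Fermat.Agent.H61K
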