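import Fermat.Agent.H61K8
import Fermat.Agent.H57CGeom

/-!
# S47, block (C), package C12: good nonsplit places on the model, in the shape of `MatchE`
-/

set_option autoImplicit false
set_option linter.unusedSectionVars false
set_option linter.unusedVariables false

noncomputable section

namespace Fermat.Agent.H61K

open Matrix IsDedekindDomain HeightOneSpectrum NumberField WithZero
open scoped MatrixGroups
open Fermat.Agent.H57C Fermat.Agent.H59XF Fermat.Agent.H59D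
open Fermat.Agent.H20.S47 (incP sP nP EllReg)
open Matrix.ProjGenLinGroup (mk_surjective)

local notation "pmk" => Matrix.ProjGenLinGroup.mk

theorem U0_eq {R : Type*} [CommRing R] [IsDedekindDomain R] {K : Type*} [Field K] [Algebra R K]
    [IsFractionRing R K] (w : HeightOneSpectrum R) : (U0 w : Subgroup PGL(2, K)) =
      U0v (w.valuation K) := rfl

section general

variable {F E : Type*} [Field F] [Field E] [Algebra F E] {Γ₀ : Type*}
  [LinearOrderedCommGroupWithZero Γ₀] {v : Valuation E Γ₀} {s : E ≃ₐ[F] E} {π : E}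
  {ΓF : Type*} [LinearOrderedCommGroupWithZero ΓF] {vF : Valuation F ΓF}

/-- `locMatch` and `locMatch_base` together, for subgroups equal to the maximal compact ones -/
theorem locMatch_gen (H : InertV v s π) (hfix : ∀ x, s x = x → x ∈ Set.range (algebraMap F E))
    (hcomp : ∀ x : F, vF x ≤ 1 ↔ v (algebraMap F E x) ≤ 1)
    (h2 : (2 : F) ≠ 0) {δ : PGL(2, E)} {γ : PGL(2, F)} (hγ : EllReg γ)
    (hN : nP s δ = incP E γ) {T : Type*} (τ : T → PGL(2, F)) (hτ : ∀ a, τ a * γ = γ * τ a)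
    {UE : Subgroup PGL(2, E)} {UF : Subgroup PGL(2, F)} (hUE : UE = U0v v) (hUF : UF = U0v vF)
    (φ : PGL(2, E) ⧸ UE → ℂ) (ψ : PGL(2, F) ⧸ UF → ℂ)
    (hφ : ∀ g : PGL(2, E), g⁻¹ * δ * sP s g ∈ UE → φ (g : PGL(2, E) ⧸ UE) = 1)
    (hφ0 : ∀ g : PGL(2, E), g⁻¹ * δ * sP s g ∉ UE → φ (g : PGL(2, E) ⧸ UE) = 0)
    (hψ : ∀ y : PGL(2, F), y⁻¹ * γ * y ∈ UF → ψ (y : PGL(2, F) ⧸ UF) = 1)
    (hψ0 : ∀ y : PGL(2, F), y⁻¹ * γ * y ∉ UF → ψ (y : PGL(2, F) ⧸ UF) = 0) :
    ∃ β : PGL(2, E) ⧸ UE → PGL(2, F) ⧸ UF,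
      LocMatch (fun a x => incP E (τ a) • x) (fun a y => τ a • y) φ ψ β ∧
      ((δ ∈ UE ∧ ∃ g₀ : GL (Fin 2) F, pmk g₀ = γ ∧ g₀ ∈ GLv vF ∧
        vF ((g₀ : Matrix (Fin 2) (Fin 2) F).trace * (g₀ : Matrix (Fin 2) (Fin 2) F).trace -
          4 * (g₀ : Matrix (Fin 2) (Fin 2) F).det) = 1) →
        Base ((1 : PGL(2, E)) : PGL(2, E) ⧸ UE) ((1 : PGL(2, F)) : PGL(2, F) ⧸ UF) φ ψ β) := by
  subst hUE hUF
  by_cases hc : δ ∈ U0v v ∧ ∃ g₀ : GL (Fin 2) F, pmk g₀ = γ ∧ g₀ ∈ GLv vF ∧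
        vF ((g₀ : Matrix (Fin 2) (Fin 2) F).trace * (g₀ : Matrix (Fin 2) (Fin 2) F).trace -
          4 * (g₀ : Matrix (Fin 2) (Fin 2) F).det) = 1
  · obtain ⟨hδ, g₀, rfl, hg₀, hdisc⟩ := hc
    have hd1 : ∀ x : F, vF x = 1 → v (algebraMap F E x) = 1 := by
      intro x hx
      refine le_antisymm ((hcomp x).1 hx.le) ?_
      have h1 : v (algebraMap F E x⁻¹) ≤ 1 := by
        rw [← hcomp, map_inv₀, hx, inv_one]
      rw [map_inv₀, map_inv₀] at h1
      have hx0 : x ≠ 0 := by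
        rintro rfl
        rw [map_zero] at hx
        exact zero_ne_one hx
      have h2 : 0 < v (algebraMap F E x) := by
        refine zero_lt_iff.2 ((Valuation.ne_zero_iff _).2 ?_)
        rwa [map_ne_zero]
      exact (inv_le_one₀ h2).1 h1
    obtain ⟨β, hβ, hb⟩ := locMatch_base H hfix hcomp hγ hN hδ hg₀ (hd1 _ hdisc) τ hτ φ ψ hφ hφ0 hψ
      hψ0
    exact ⟨β, hβ, fun _ => hb⟩
  · obtain ⟨β, hβ⟩ := locMatch H hfix hcomp h2 hγ hN τ hτ φ ψ hφ hφ0 hψ hψ0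
    exact ⟨β, hβ, fun h => absurd h hc⟩

end general

variable {E F : Type*} [Field E] [NumberField E] [Field F] [NumberField F] [Algebra F E]
  {JE JF : Type*} [Fintype JE] [Fintype JF]

open Classical in
/-- **C12 on the model**, in the shape of `H57C.MatchE`: `w` the only place above `v`, `v` unramified
in `E`, the levels at `w`, `v` are maximal, the kernels are the unit kernels. -/
theorem exists_locMatch_good_model (s : E ≃ₐ[F] E) (h3 : ∀ x, s (s (s x)) = x)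
    (hs : s ≠ AlgEquiv.refl)
    (hfix : ∀ x, s x = x → x ∈ Set.range (algebraMap F E))
    (mE : Model E JE) (aE : AutData mE) (hsE : ∀ x, aE.s x = s x) (mT : Model F JF)
    (π : HeightOneSpectrum (𝓞 E) → HeightOneSpectrum (𝓞 F)) (hπ : ∀ w, π (aE.σ w) = π w)
    (w : HeightOneSpectrum (𝓞 E)) (v : HeightOneSpectrum (𝓞 F)) (hw : π w = v)
    (huniq : ∀ i, π i = v → i = w)
    (hval : ∀ x : F, w.valuation E (algebraMap F E x) = v.valuation F x)
    (hL : mE.L.U w = U0 w) (hL' : mT.L.U v = U0 v)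
    (a : GlobKer mE.L.fam) (b : LocKer (mT.L.fam.U v))
    (ha : ∀ x y, (a.loc w).k x y = if x = y then 1 else 0)
    (hb : ∀ x y, b.k x y = if x = y then 1 else 0)
    (d : PGL(2, E)) (γ : PGL(2, F)) (hγ : EllReg γ) (hN : nP s d = incP E γ) :
    ∃ β : Xv mE.L.fam π v → PGL(2, F) ⧸ mT.L.fam.U v,
      LocMatch (fun (c : Subgroup.centralizer ({γ} : Set PGL(2, F))) x =>
          fun i => incP E (c : PGL(2, F)) • x i)
        (fun c y => (c : PGL(2, F)) • y) (phiv aE.twist π hπ a d v)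
        (fun y => b.k y (γ • y)) β ∧
      ((d ∈ (U0 w : Subgroup PGL(2, E)) ∧ ∃ g₀ : GL (Fin 2) F, pmk g₀ = γ ∧ g₀ ∈ GLw v ∧
        v.valuation F ((g₀ : Matrix (Fin 2) (Fin 2) F).trace *
          (g₀ : Matrix (Fin 2) (Fin 2) F).trace - 4 * (g₀ : Matrix (Fin 2) (Fin 2) F).det) = 1) →
        Base (bv mE.L.fam π v) ((1 : PGL(2, F)) : PGL(2, F) ⧸ mT.L.fam.U v)
          (phiv aE.twist π hπ a d v) (fun y => b.k y (γ • y)) β) := by
  have hσ : aE.σ w = w := huniq _ (by rw [hπ]; exact hw)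
  have hσt : aE.twist.σ w = w := hσ
  have hv : ∀ i, π i = v ↔ i = w := fun i => ⟨huniq i, fun h => by rw [h, hw]⟩
  have hmap : ∀ g : PGL(2, E), aE.twist.s g = sP s g := by
    intro g
    show ProjGenLinGroup.map (aE.s : E →+* E) g = _
    have : (aE.s : E →+* E) = (((s : E ≃+* E) : E →+* E)) := by
      ext x
      exact hsE x
    rw [this]
    rfl
  have hsw : ∀ x, w.valuation E (s x) = w.valuation E x := by
    intro x
    have := aE.val w x
    rw [hσ, hsE] at this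
    exact this
  obtain ⟨ϖ, H⟩ := inertV_of (v := v) h3 hs hfix hsw hval
  have hUE : mE.L.fam.U w = U0v (w.valuation E) := hL
  have hUF : mT.L.fam.U v = U0v (v.valuation F) := hL'
  have hk : ∀ g : PGL(2, E), (a.loc w).k (g : PGL(2, E) ⧸ mE.L.fam.U w)
      (d • H92T.cmap1 aE.twist hσt (g : PGL(2, E) ⧸ mE.L.fam.U w)) =
        if g⁻¹ * d * sP s g ∈ mE.L.fam.U w then 1 else 0 := by
    intro g
    rw [ha, H92T.cmap1_mk, hmap]
    have e1 : ((g : PGL(2, E) ⧸ mE.L.fam.U w) = d • ((sP s g : PGL(2, E)) :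
        PGL(2, E) ⧸ mE.L.fam.U w)) ↔ g⁻¹ * d * sP s g ∈ mE.L.fam.U w := by
      rw [mul_assoc]
      exact QuotientGroup.eq (s := mE.L.fam.U w) (a := g) (b := d * sP s g)
    simp only [e1]
  have hk' : ∀ y : PGL(2, F), b.k (y : PGL(2, F) ⧸ mT.L.fam.U v)
      (γ • (y : PGL(2, F) ⧸ mT.L.fam.U v)) = if y⁻¹ * γ * y ∈ mT.L.fam.U v then 1 else 0 := by
    intro y
    rw [hb]
    have e1 : ((y : PGL(2, F) ⧸ mT.L.fam.U v) = γ • (y : PGL(2, F) ⧸ mT.L.fam.U v)) ↔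
        y⁻¹ * γ * y ∈ mT.L.fam.U v := by
      rw [mul_assoc]
      exact QuotientGroup.eq (s := mT.L.fam.U v) (a := y) (b := γ * y)
    simp only [e1]
  obtain ⟨β, hβ, hβ0⟩ := locMatch_gen (vF := v.valuation F) H hfix
    (fun x => by rw [hval]) (by norm_num) hγ hN
    (fun c : Subgroup.centralizer ({γ} : Set PGL(2, F)) => (c : PGL(2, F)))
    (fun c => Subgroup.mem_centralizer_singleton_iff.1 c.2) hUE hUF
    (fun x => (a.loc w).k x (d • H92T.cmap1 aE.twist hσt x)) (fun y => b.k y (γ • y))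
    (fun g hg => by rw [hk, if_pos hg]) (fun g hg => by rw [hk, if_neg hg])
    (fun y hy => by rw [hk', if_pos hy]) (fun y hy => by rw [hk', if_neg hy])
  refine ⟨fun x => β (H92T.xvEquiv mE.L.fam π hv x),
    H92T.locMatch_single aE.twist π hπ hv hσt a d (fun c : Subgroup.centralizer ({γ} :
      Set PGL(2, F)) => incP E (c : PGL(2, F))) hβ, ?_⟩
  rintro ⟨hd, g₀, hg₀, hg₀m, hdisc⟩
  exact H92T.base_single aE.twist π hπ hv hσt a d (hβ0 ⟨by rw [hUE]; exact hd, g₀, hg₀, hg₀m,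
    hdisc⟩)

end Fermat.Agent.H61K
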