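import Fermat.Agent.H61NdB

/-!
# Nodes and the Hauptmodul (helper61): regularity of `X, 1/X, Y, 1/Y` and the value at a node
-/

set_option autoImplicit false
set_option linter.unusedSectionVars false

noncomputable section

open AlgebraicCurve ModularCurve IntermediateField Fermat.Agent.H34.Two Fermat.Agent.H97

namespace Fermat.Agent.H61.Nd

section Abs

theorem adicValuation_le_one_of_intJ {K F : Type*} [Field K] [Field F] [Algebra K F]
    [CharZero K] [IsAlgClosed K] [H94.FunField K F] (P : Place K F) {j f : F}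
    (hj : P.adicValuation j ≤ 1) (h : H1.IntJ K j f) : P.adicValuation f ≤ 1 := by
  rw [← H1.intJ_iff, H1.isIntegral_iff_places] at h
  rw [← H3RR.mem_iff_adicValuation_le_one]
  exact h P (H3RR.mem_of_adicValuation_le_one P hj)

theorem val_pow {k κ : Type*} [Field k] [Field κ] [Algebra k κ] (x : Place k κ) {h : κ} {c : k}
    (hc : x.adicValuation (h - algebraMap k κ c) < 1) (n : ℕ) :
    x.adicValuation (h ^ n - algebraMap k κ (c ^ n)) < 1 := by
  have hle : x.adicValuation h ≤ 1 := by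
    have h1 : h = (h - algebraMap k κ c) + algebraMap k κ c := by ring
    rw [h1]
    exact (Valuation.map_add _ _ _).trans (max_le hc.le (x.adicValuation_algebraMap_le_one c))
  induction n with
  | zero => simp
  | succ n ih =>
    have h2 : h ^ (n + 1) - algebraMap k κ (c ^ (n + 1)) =
        h * (h ^ n - algebraMap k κ (c ^ n)) + (h - algebraMap k κ c) * algebraMap k κ (c ^ n) := by
      rw [pow_succ, pow_succ, map_mul]; ring
    rw [h2]
    refine Valuation.map_add_lt _ ?_ ?_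
    · rw [map_mul]
      exact (mul_le_of_le_one_left' hle).trans_lt ih
    · rw [map_mul]
      exact (mul_le_of_le_one_right' (x.adicValuation_algebraMap_le_one _)).trans_lt hc

variable {K F₀ F k κ Γ : Type*} [Field K] [Field F₀] [Field F] [Algebra K F₀] [Algebra K F]
    [Field k] [Field κ] [Algebra k κ] [LinearOrderedCommGroupWithZero Γ] {q : ℕ}
    (S : Sheets K F₀ F k κ Γ q)

variable [IsAlgClosed K] [CharZero K] [H3RR.IsFF K F₀] [H3RR.IsFF K F]
  [IsAlgClosed k] [H3RR.IsFF k κ] [H94.FunField K F₀] [H94.FunField K F]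

/-- **(N2)** the value of a rational coordinate at a node -/
theorem exists_value {x : Place k κ} (hx : S.Node x) {f y : F} {h : κ}
    (hf : S.InR x f) (hy : S.InR x y) (h0 : S.ρ false f = h) (h1 : S.ρ true f = h ^ q)
    (h2 : S.ρ false y = h ^ q) (h3 : S.ρ true y = h) :
    ∃ c : k, x.adicValuation (h - algebraMap k κ c) < 1 ∧
      (S.tw x).adicValuation (h - algebraMap k κ (c ^ q)) < 1 ∧ c ^ (q * q) = c := by
  obtain ⟨c, hc⟩ := hx f hf
  obtain ⟨d, hd⟩ := hx y hy
  have c0 := hc false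
  have c1 := hc true
  have d0 := hd false
  have d1 := hd true
  rw [h0, S.pt_false] at c0
  rw [h1, S.pt_true] at c1
  rw [h2, S.pt_false] at d0
  rw [h3, S.pt_true] at d1
  have e1 : d = c ^ q := Sheets.valκ_unique (y := x) d0 (val_pow x c0 q)
  have e2 : c = d ^ q := Sheets.valκ_unique (y := S.tw x) c1 (val_pow (S.tw x) d1 q)
  refine ⟨c, c0, ?_, ?_⟩
  · rw [← e1]; exact d1
  · rw [pow_mul, ← e1, ← e2]

end Abs

theorem cast_ne_zero_of {k : Type*} [Field k] {m q d : ℕ} [CharP k q] (hqm : ¬ q ∣ m)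
    (hdm : d ∣ m) : ((d : ℕ) : k) ≠ 0 := by
  rw [Ne, CharP.cast_eq_zero_iff k q]
  exact fun h => hqm (h.trans hdm)

section Inst

variable {L : Type*} [Field L] [Algebra ℚ L] {A : ValuationSubring L} {k : Type*} [Field k]
  {π : A →+* k} {m q : ℕ} [NeZero m] [NeZero q] [hq : Fact q.Prime]
  [CharP k q] [IsAlgClosed k] [Infinite k] (w : H99.AL L m q)
  (hπ : Function.Surjective π)
  (hdeg : H42.DegLE L k m) (hqm : ¬ q ∣ m)
  [IsAlgClosed L] [CharZero L] [IsLocalHom π] (arch : Arch A)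
  (r : Place L (H99.FX L m) → Place k (modularFunctionFieldFullC k m))
  {d : ℕ} (hd : d = 4 ∨ d = 9) (hdm : d ∣ m)

/-- the Hauptmodul at level `m` -/
def XL (L : Type*) [Field L] [Algebra ℚ L] {m d : ℕ} [NeZero m] (hd : d = 4 ∨ d = 9)
    (hdm : d ∣ m) : H99.FX L m :=
  ⟨H1.Xc d L, H1.Xc_mem_baseChange L hd (NeZero.ne m) hdm⟩

theorem coe_XL : (XL L hd hdm : LaurentSeries L) = H1.Xc d L := rfl

/-- the reduction of the Hauptmodul -/
def Xk (k : Type*) [Field k] [IsAlgClosed k] {m q d : ℕ} [NeZero m] [CharP k q]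
    (hqm : ¬ q ∣ m) (hd : d = 4 ∨ d = 9) (hdm : d ∣ m) : modularFunctionFieldFullC k m :=
  ⟨H1.Xc d k, H1.Xc_mem_full k hd (NeZero.ne m) hdm (cast_ne_zero_of hqm hdm)⟩

theorem coe_Xk : (Xk k hqm hd hdm : LaurentSeries k) = H1.Xc d k := rfl

theorem Xk_ne_zero : Xk k hqm hd hdm ≠ 0 := by
  intro h
  have h1 : (Xk k hqm hd hdm : LaurentSeries k) = 0 := by rw [h]; rfl
  exact (H1.isUnit_Xc d k).ne_zero (by rw [← coe_Xk hqm hd hdm]; exact h1)

theorem sig_Xk : sig k m q (Xk k hqm hd hdm) = Xk k hqm hd hdm := by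
  apply Subtype.ext
  rw [coe_sig, coe_Xk]
  exact H1.coeffMap_Xc d _

theorem red0_X : (comp0 A π w hπ (H42.degreeFact L) hdeg hqm).red (XL L hd hdm) =
    Xk k hqm hd hdm := by
  apply Subtype.ext
  rw [coe_red0, coe_Xk]
  have h := red_gaussComp_of_eq A π (H34.Two.isQuot_FX m) (f := XL L hd hdm) (y := H1.Xc d A)
    (by rw [coe_XL, H1.coeffMap_Xc])
  rw [H1.coeffMap_Xc] at h
  exact h

theorem v0_X : v0 A π w hπ (H42.degreeFact L) hdeg hqm (XL L hd hdm) = 1 := by
  rw [v0, compVal_eq_one_iff, red0_X w hπ hdeg hqm hd hdm]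
  exact Xk_ne_zero hqm hd hdm

theorem phi_Xk : phi k m q (Xk k hqm hd hdm) = Xk k hqm hd hdm ^ q := by
  have h := (Fermat.Agent.H97.qExpand_sig k m q (Xk k hqm hd hdm))
  rw [sig_Xk hqm hd hdm] at h
  apply Subtype.ext
  rw [coe_phi]
  exact h

theorem intJ_XL : H1.IntJ L (jm L m) (XL L hd hdm) := by
  rw [← H1.intJ_val, coe_XL, coe_jm, H66.J_one]
  exact H1.Xc_intJ L hd

theorem intJ_XL_inv : H1.IntJ L (jm L m) (XL L hd hdm)⁻¹ := by
  rw [← H1.intJ_val, coe_jm, H66.J_one]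
  exact H1.Xc_inv_intJ L hd

theorem XL_ne_zero : XL L hd hdm ≠ 0 := by
  intro h
  have h1 : (XL L hd hdm : LaurentSeries L) = 0 := by rw [h]; rfl
  exact (H1.isUnit_Xc d L).ne_zero (by rw [← coe_XL (L := L) hd hdm]; exact h1)

theorem intJ_alpha {f : H99.FX L m} (h : H1.IntJ L (jm L m) f) :
    H1.IntJ L (jmq L m q) (heckeAlphaBar L m q f) :=
  (H1.intJ_map (heckeAlphaBar L m q) (heckeAlphaBar L m q).toRingHom.injective).mpr h

theorem intJ_beta {f : H99.FX L m} (h : H1.IntJ L (jm L m) f) :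
    H1.IntJ L (jmb L m q) (heckeBetaBar L m q f) :=
  (H1.intJ_map (heckeBetaBar L m q) (heckeBetaBar L m q).toRingHom.injective).mpr h

variable {c : ℕ}
    (hr1 : ∀ D : Divisor L (H99.FX L m), (c : ℤ) < Divisor.degree D →
      (H42.modReductionData A π m hπ hdeg).IsRed D (Finsupp.mapDomain r D))
    (hr2 : H34.GR.DivCompat (H42.modReductionData A π m hπ hdeg) r)

section Reg

variable [H3RR.IsFF L (H99.FX L m)] [H3RR.IsFF L (H99.FX L (m * q))]
    [H3RR.IsFF k (modularFunctionFieldFullC k m)] [H94.FunField L (H99.FX L m)]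
    [H94.FunField L (H99.FX L (m * q))]
    {x : Place k (modularFunctionFieldFullC k m)}
    (hx : (sheets w hπ hdeg hqm arch r hr1 hr2).Node x)

include hx

/-- functions integral over `L[j]` are regular at the places over a node (good level) -/
theorem node_reg0 {f : H99.FX L m} (hf : H1.IntJ L (jm L m) f) (P : Place L (H99.FX L m))
    (hP : r P = x) : P.adicValuation f ≤ 1 :=
  adicValuation_le_one_of_intJ P (node_jm w hπ hdeg hqm arch r hr1 hr2 hx P hP) hf

/-- pull backs along `α` of functions integral over `L[j]` lie in the semilocal ring -/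
theorem node_InR_alpha {f : H99.FX L m} (hf : H1.IntJ L (jm L m) f)
    (hv : v0 A π w hπ (H42.degreeFact L) hdeg hqm f ≤ 1) :
    (sheets w hπ hdeg hqm arch r hr1 hr2).InR x (heckeAlphaBar L m q f) :=
  ⟨fun i => by
    cases i
    · exact (v1_alpha A π w hπ _ hdeg hqm f).trans_le hv
    · exact (v2_alpha A π w hπ _ hdeg hqm f).trans_le hv,
   fun P hP => adicValuation_le_one_of_intJ P
    (node_jmq w hπ hdeg hqm arch r hr1 hr2 hx P hP) (intJ_alpha hf)⟩

/-- pull backs along `β` of functions integral over `L[j]` lie in the semilocal ring -/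
theorem node_InR_beta {f : H99.FX L m} (hf : H1.IntJ L (jm L m) f)
    (hv : v0 A π w hπ (H42.degreeFact L) hdeg hqm f ≤ 1) :
    (sheets w hπ hdeg hqm arch r hr1 hr2).InR x (heckeBetaBar L m q f) :=
  ⟨fun i => by
    cases i
    · exact (v1_beta A π w hπ _ hdeg hqm f).trans_le hv
    · exact (v2_beta A π w hπ _ hdeg hqm f).trans_le hv,
   fun P hP => adicValuation_le_one_of_intJ P
    (node_jmb w hπ hdeg hqm arch r hr1 hr2 hx P hP) (intJ_beta hf)⟩

/-- `X ∈ A_x` -/
theorem node_X : (sheets w hπ hdeg hqm arch r hr1 hr2).InR x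
    (heckeAlphaBar L m q (XL L hd hdm)) :=
  node_InR_alpha w hπ hdeg hqm arch r hr1 hr2 hx (intJ_XL hd hdm) (v0_X w hπ hdeg hqm hd hdm).le

/-- `Y ∈ A_x` -/
theorem node_Y : (sheets w hπ hdeg hqm arch r hr1 hr2).InR x
    (heckeBetaBar L m q (XL L hd hdm)) :=
  node_InR_beta w hπ hdeg hqm arch r hr1 hr2 hx (intJ_XL hd hdm) (v0_X w hπ hdeg hqm hd hdm).le

/-- `1/X ∈ A_x` -/
theorem node_X_inv : (sheets w hπ hdeg hqm arch r hr1 hr2).InR x
    (heckeAlphaBar L m q (XL L hd hdm)⁻¹) :=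
  node_InR_alpha w hπ hdeg hqm arch r hr1 hr2 hx (intJ_XL_inv hd hdm)
    (by rw [map_inv₀, v0_X w hπ hdeg hqm hd hdm, inv_one])

/-- `1/Y ∈ A_x` -/
theorem node_Y_inv : (sheets w hπ hdeg hqm arch r hr1 hr2).InR x
    (heckeBetaBar L m q (XL L hd hdm)⁻¹) :=
  node_InR_beta w hπ hdeg hqm arch r hr1 hr2 hx (intJ_XL_inv hd hdm)
    (by rw [map_inv₀, v0_X w hπ hdeg hqm hd hdm, inv_one])

/-- **(N2)** the value of the Hauptmodul at a node -/
theorem node_value : ∃ c : k,
    x.adicValuation (Xk k hqm hd hdm - algebraMap k _ c) < 1 ∧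
    (twP k m q x).adicValuation (Xk k hqm hd hdm - algebraMap k _ (c ^ q)) < 1 ∧
    c ^ (q * q) = c := by
  refine exists_value (sheets w hπ hdeg hqm arch r hr1 hr2) hx
    (node_X w hπ hdeg hqm arch r hd hdm hr1 hr2 hx) (node_Y w hπ hdeg hqm arch r hd hdm hr1 hr2 hx)
    ?_ ?_ ?_ ?_
  · exact (red1_alpha A π w hπ _ hdeg hqm _).trans (red0_X w hπ hdeg hqm hd hdm)
  · refine (red2_alpha A π w hπ _ hdeg hqm _).trans ?_
    rw [red0_X w hπ hdeg hqm hd hdm, phi_Xk]
  · refine (red1_beta A π w hπ _ hdeg hqm _).trans ?_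
    rw [red0_X w hπ hdeg hqm hd hdm, phi_Xk]
  · exact (red2_beta A π w hπ _ hdeg hqm _).trans (red0_X w hπ hdeg hqm hd hdm)

/-- the value of the Hauptmodul at a node, `X̄ - X̄^(q²)` vanishes -/
theorem node_value' :
    x.adicValuation (Xk k hqm hd hdm - Xk k hqm hd hdm ^ (q * q)) < 1 ∧
    (twP k m q x).adicValuation (Xk k hqm hd hdm - Xk k hqm hd hdm ^ (q * q)) < 1 := by
  obtain ⟨c, h1, h2, h3⟩ := node_value w hπ hdeg hqm arch r hd hdm hr1 hr2 hx
  constructor
  · have h4 := val_pow x h1 (q * q)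
    rw [h3] at h4
    have e : Xk k hqm hd hdm - Xk k hqm hd hdm ^ (q * q) =
      (Xk k hqm hd hdm - algebraMap k _ c) - (Xk k hqm hd hdm ^ (q * q) - algebraMap k _ c) := by
      ring
    rw [e]
    exact Valuation.map_sub_lt _ h1 h4
  · have h4 := val_pow (twP k m q x) h2 (q * q)
    have h5 : (c ^ q) ^ (q * q) = c ^ q := by rw [← pow_mul, mul_comm, pow_mul, h3]
    rw [h5] at h4
    have e : Xk k hqm hd hdm - Xk k hqm hd hdm ^ (q * q) =
      (Xk k hqm hd hdm - algebraMap k _ (c ^ q)) -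
        (Xk k hqm hd hdm ^ (q * q) - algebraMap k _ (c ^ q)) := by
      ring
    rw [e]
    exact Valuation.map_sub_lt _ h2 h4

end Reg

end Inst

end Fermat.Agent.H61.Nd
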