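/-
H61Sm: an abstract form of Smith theory mod 2 for Hecke operators on a finite class set:
`T → A`, `t_l ↦ θ(l) + θ(l)⁻¹` from a family of CM points fixed by an involution.
-/
import Mathlib

set_option autoImplicit false
set_option linter.style.haveILetI false

noncomputable section

namespace Fermat.Agent.H61.Smith

open MulAction

section Char2

/-- In characteristic two only the fixed points of an involution contribute to a sum. -/
theorem sum_eq_sum_fixed {X A : Type*} [DecidableEq X] [CommRing A] (h2 : (2 : A) = 0)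
    (s : Finset X) (τ : X → X) (hτ : ∀ y ∈ s, τ y ∈ s) (hττ : ∀ y ∈ s, τ (τ y) = y) (f : X → A)
    (hf : ∀ y ∈ s, f (τ y) = f y) :
    ∑ y ∈ s, f y = ∑ y ∈ s with τ y = y, f y := by
  rw [← Finset.sum_filter_add_sum_filter_not s (fun y => τ y = y), add_eq_left]
  refine Finset.sum_involution (fun y _ => τ y) ?_ ?_ ?_ ?_
  · intro y hy
    rw [Finset.mem_filter] at hy
    rw [hf y hy.1, ← two_mul, h2, zero_mul]
  · intro y hy _
    exact (Finset.mem_filter.mp hy).2
  · intro y hy
    rw [Finset.mem_filter] at hy ⊢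
    refine ⟨hτ y hy.1, fun h => hy.2 ?_⟩
    rw [← hττ y hy.1]
    exact congrArg τ h
  · intro y hy
    exact hττ y (Finset.mem_filter.mp hy).1

theorem intCast_unit_eq_one {A : Type*} [CommRing A] (h2 : (2 : A) = 0) (u : ℤˣ) :
    ((u : ℤ) : A) = 1 := by
  rcases Int.units_eq_one_or u with rfl | rfl
  · simp
  · have h1 : (1 : A) + 1 = 0 := by rw [one_add_one_eq_two]; exact h2
    simp only [Units.val_neg, Units.val_one, Int.reduceNeg, Int.cast_neg, Int.cast_one]
    exact neg_eq_of_add_eq_zero_left h1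

end Char2

/-- A group `G` acting on `X`, a sign character `χ` of a subgroup `Γ` and equivariant
neighbourhoods. -/
structure Sys (G X Λ : Type*) [Group G] [MulAction G X] where
  /-- the subgroup -/
  Γ : Subgroup G
  /-- the sign character -/
  χ : Γ →* ℤˣ
  /-- the neighbours -/
  Nb : Λ → X → Finset X
  mem_Nb : ∀ (g : G) (l : Λ) (x y : X), g • y ∈ Nb l (g • x) ↔ y ∈ Nb l x

namespace Sys

variable {G X Λ : Type*} [Group G] [MulAction G X] (D : Sys G X Λ)

/-- The neighbour operators. -/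
def T (A : Type*) [CommRing A] (l : Λ) : Module.End A (X → A) where
  toFun φ x := ∑ y ∈ D.Nb l x, φ y
  map_add' φ ψ := by
    funext x
    exact Finset.sum_add_distrib
  map_smul' a φ := by
    funext x
    exact (Finset.mul_sum _ _ _).symm

theorem T_apply (A : Type*) [CommRing A] (l : Λ) (φ : X → A) (x : X) :
    D.T A l φ x = ∑ y ∈ D.Nb l x, φ y := rfl

theorem T_smul_point (A : Type*) [CommRing A] (l : Λ) (φ : X → A) (g : G) (x : X) :
    D.T A l φ (g • x) = D.T A l (fun y => φ (g • y)) x := by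
  rw [T_apply, T_apply]
  refine Finset.sum_nbij' (fun y => g⁻¹ • y) (fun y => g • y) ?_ ?_ ?_ ?_ ?_
  · intro y hy
    rw [← D.mem_Nb g, smul_inv_smul]
    exact hy
  · intro y hy
    exact (D.mem_Nb g l x y).mpr hy
  · intro y _
    exact smul_inv_smul g y
  · intro y _
    exact inv_smul_smul g y
  · intro y _
    rw [smul_inv_smul]

/-- The functions which transform by the sign character. -/
def S (A : Type*) [CommRing A] : Submodule A (X → A) where
  carrier := {φ | ∀ (γ : D.Γ) (x : X), φ ((γ : G) • x) = (((D.χ γ : ℤˣ) : ℤ) : A) * φ x}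
  add_mem' := by
    intro φ ψ hφ hψ γ x
    rw [Pi.add_apply, Pi.add_apply, hφ, hψ, mul_add]
  zero_mem' := by
    intro γ x
    rw [Pi.zero_apply, Pi.zero_apply, mul_zero]
  smul_mem' := by
    intro a φ hφ γ x
    rw [Pi.smul_apply, Pi.smul_apply, hφ, smul_eq_mul, smul_eq_mul, mul_left_comm]

theorem mem_S {A : Type*} [CommRing A] {φ : X → A} :
    φ ∈ D.S A ↔ ∀ (γ : D.Γ) (x : X), φ ((γ : G) • x) = (((D.χ γ : ℤˣ) : ℤ) : A) * φ x := Iff.rfl

theorem T_mem_S {A : Type*} [CommRing A] (l : Λ) {φ : X → A} (hφ : φ ∈ D.S A) :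
    D.T A l φ ∈ D.S A := by
  intro γ x
  rw [T_smul_point, T_apply, T_apply, Finset.mul_sum]
  exact Finset.sum_congr rfl fun y _ => hφ γ y

/-- The operators on the space of functions transforming by the sign character. -/
def t (A : Type*) [CommRing A] (l : Λ) : Module.End A (D.S A) :=
  (D.T A l).restrict fun _ hφ => D.T_mem_S l hφ

@[simp] theorem coe_t (A : Type*) [CommRing A] (l : Λ) (φ : D.S A) :
    ((D.t A l φ : D.S A) : X → A) = D.T A l φ := rfl

/-- The bad points: those with a stabiliser on which `χ` is non trivial. -/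
def Bad (x : X) : Prop := ∃ γ : D.Γ, (γ : G) • x = x ∧ D.χ γ = -1

/-! ### The action of the free algebra -/

section Free

variable {O : Type*} [CommRing O] (A : Type*) [CommRing A] [Algebra O A]

/-- The action of noncommutative polynomials in the operators on all functions. -/
def act : FreeAlgebra O Λ →ₐ[O] Module.End A (X → A) := FreeAlgebra.lift O (D.T A)

@[simp] theorem act_ι (l : Λ) : D.act (O := O) A (FreeAlgebra.ι O l) = D.T A l :=
  FreeAlgebra.lift_ι_apply _ _

/-- The action on the functions transforming by the sign character. -/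
def actS : FreeAlgebra O Λ →ₐ[O] Module.End A (D.S A) := FreeAlgebra.lift O (D.t A)

@[simp] theorem actS_ι (l : Λ) : D.actS (O := O) A (FreeAlgebra.ι O l) = D.t A l :=
  FreeAlgebra.lift_ι_apply _ _

theorem coe_actS (P : FreeAlgebra O Λ) (φ : D.S A) :
    ((D.actS A P φ : D.S A) : X → A) = D.act A P (φ : X → A) := by
  induction P using FreeAlgebra.induction generalizing φ with
  | grade0 r =>
    rw [AlgHom.commutes, AlgHom.commutes, Module.algebraMap_end_apply, Module.algebraMap_end_apply]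
    rfl
  | grade1 l => rw [actS_ι, act_ι, coe_t]
  | mul P Q hP hQ => rw [map_mul, map_mul, Module.End.mul_apply, Module.End.mul_apply, hP, hQ]
  | add P Q hP hQ =>
    rw [map_add, map_add, LinearMap.add_apply, LinearMap.add_apply, Submodule.coe_add, hP, hQ]

/-- Base change. -/
theorem act_baseChange (P : FreeAlgebra O Λ) (φ : X → O) :
    D.act A P (fun x => algebraMap O A (φ x)) = fun x => algebraMap O A (D.act O P φ x) := by
  induction P using FreeAlgebra.induction generalizing φ with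
  | grade0 r =>
    rw [AlgHom.commutes, AlgHom.commutes, Module.algebraMap_end_apply, Module.algebraMap_end_apply]
    funext x
    rw [Pi.smul_apply, Pi.smul_apply, smul_eq_mul, map_mul, Algebra.smul_def]
  | grade1 l =>
    rw [act_ι, act_ι]
    funext x
    rw [T_apply, T_apply, map_sum]
  | mul P Q hP hQ =>
    rw [map_mul, map_mul, Module.End.mul_apply, Module.End.mul_apply, hQ, hP]
  | add P Q hP hQ =>
    rw [map_add, map_add, LinearMap.add_apply, LinearMap.add_apply, hP, hQ]
    funext x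
    rw [Pi.add_apply, Pi.add_apply, map_add]

end Free

/-! ### Lifting functions vanishing at the bad points -/

section Lift

variable {O : Type*} [CommRing O]

open Classical in
/-- The signed indicator function of the orbit of a good point. -/
def delta (O : Type*) [CommRing O] (x₀ : X) : X → O := fun x =>
  if h : ∃ γ : D.Γ, (γ : G) • x₀ = x then (((D.χ h.choose : ℤˣ) : ℤ) : O) else 0

theorem delta_smul {x₀ : X} (h₀ : ¬ D.Bad x₀) (γ : D.Γ) :
    D.delta O x₀ ((γ : G) • x₀) = (((D.χ γ : ℤˣ) : ℤ) : O) := by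
  classical
  have h : ∃ γ' : D.Γ, (γ' : G) • x₀ = (γ : G) • x₀ := ⟨γ, rfl⟩
  rw [delta, dif_pos h]
  have h1 := h.choose_spec
  congr 2
  by_contra hne
  refine h₀ ⟨γ⁻¹ * h.choose, ?_, ?_⟩
  · rw [Subgroup.coe_mul, Subgroup.coe_inv, mul_smul, h1, inv_smul_smul]
  · rw [map_mul, map_inv]
    rcases Int.units_eq_one_or (D.χ γ) with h2 | h2 <;>
      rcases Int.units_eq_one_or (D.χ h.choose) with h3 | h3
    · exact absurd (by rw [h2, h3]) hne
    · rw [h2, h3]; rfl
    · rw [h2, h3]; rfl
    · exact absurd (by rw [h2, h3]) hne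

theorem delta_mem_S {x₀ : X} (h₀ : ¬ D.Bad x₀) : D.delta O x₀ ∈ D.S O := by
  classical
  intro γ x
  by_cases h : ∃ γ' : D.Γ, (γ' : G) • x₀ = x
  · obtain ⟨γ', rfl⟩ := h
    rw [← mul_smul, ← Subgroup.coe_mul, delta_smul D h₀, delta_smul D h₀, map_mul, Units.val_mul,
      Int.cast_mul]
  · have h' : ¬ ∃ γ' : D.Γ, (γ' : G) • x₀ = (γ : G) • x := by
      rintro ⟨γ', h1⟩
      exact h ⟨γ⁻¹ * γ', by rw [Subgroup.coe_mul, mul_smul, h1, Subgroup.coe_inv, inv_smul_smul]⟩
    rw [delta, delta, dif_neg h, dif_neg h', mul_zero]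

/-- A relation on `S O` holds for all `A`-valued invariant functions vanishing at the bad points. -/
theorem act_eq_zero_of_actS {A : Type*} [CommRing A] [Algebra O A] (h2 : (2 : A) = 0)
    (hfin : Finite (orbitRel.Quotient D.Γ X)) {P : FreeAlgebra O Λ} (hP : D.actS O P = 0)
    {f : X → A} (hf : ∀ (γ : D.Γ) (x : X), f ((γ : G) • x) = f x)
    (hbad : ∀ x, D.Bad x → f x = 0) : D.act A P f = 0 := by
  classical
  haveI := Fintype.ofFinite (orbitRel.Quotient D.Γ X)
  -- representatives
  let rep : orbitRel.Quotient D.Γ X → X := Quotient.out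
  have hrep : ∀ x : X, ∃ γ : D.Γ, (γ : G) • rep (Quotient.mk'' x) = x := by
    intro x
    have h1 : (orbitRel D.Γ X) (rep (Quotient.mk'' x)) x := Quotient.exact (Quotient.out_eq _)
    rw [orbitRel_apply, mem_orbit_iff] at h1
    obtain ⟨γ, hγ⟩ := h1
    refine ⟨γ⁻¹, ?_⟩
    rw [← hγ]
    exact inv_smul_smul (γ : G) x
  have hexp : f = ∑ o : orbitRel.Quotient D.Γ X,
      f (rep o) • (fun x => algebraMap O A (if D.Bad (rep o) then 0 else D.delta O (rep o) x)) := by
    funext x
    rw [Finset.sum_apply, Finset.sum_eq_single (Quotient.mk'' x : orbitRel.Quotient D.Γ X)]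
    · obtain ⟨γ, hγ⟩ := hrep x
      rw [Pi.smul_apply, smul_eq_mul]
      split_ifs with hb
      · have h4 := hf γ (rep (Quotient.mk'' x))
        rw [hγ, hbad _ hb] at h4
        rw [map_zero, mul_zero, h4]
      · have h3 := D.delta_smul (O := O) hb γ
        have h4 := hf γ (rep (Quotient.mk'' x))
        rw [hγ] at h3 h4
        rw [h3, map_intCast, intCast_unit_eq_one h2, mul_one, h4]
    · intro o _ ho
      rw [Pi.smul_apply, smul_eq_mul]
      split_ifs with hb
      · rw [map_zero, mul_zero]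
      · have h3 : ¬ ∃ γ : D.Γ, (γ : G) • rep o = x := by
          rintro ⟨γ, hγ⟩
          apply ho
          have h5 : (orbitRel D.Γ X) (rep o) x := by
            rw [orbitRel_apply, mem_orbit_iff]
            refine ⟨γ⁻¹, ?_⟩
            rw [← hγ]
            exact inv_smul_smul (γ : G) _
          rw [← Quotient.out_eq o]
          exact Quotient.sound h5
        rw [delta, dif_neg h3, map_zero, mul_zero]
    · intro h
      exact absurd (Finset.mem_univ _) h
  rw [hexp, map_sum]
  refine Finset.sum_eq_zero fun o _ => ?_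
  rw [map_smul, act_baseChange]
  by_cases hb : D.Bad (rep o)
  · simp only [if_pos hb]
    have h1 : D.act O P (fun _ => (0 : O)) = 0 := map_zero _
    rw [h1]
    simp only [Pi.zero_apply, map_zero]
    exact smul_zero _
  · simp only [if_neg hb]
    have h1 := D.coe_actS O P ⟨D.delta O (rep o), D.delta_mem_S hb⟩
    rw [hP, LinearMap.zero_apply] at h1
    have h3 : D.act O P (fun x => D.delta O (rep o) x) = 0 := h1.symm
    rw [h3]
    simp only [Pi.zero_apply, map_zero]
    exact smul_zero _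

end Lift

/-! ### The CM points -/

/-- A family of CM points with values in the units of `A`. -/
structure CM (A : Type*) [CommRing A] (𝓐 : Type*) where
  /-- the CM points -/
  cm : 𝓐 → X
  /-- the character -/
  θ : 𝓐 → Aˣ
  /-- the reflection constant -/
  c₀ : Aˣ
  orbit : ∀ a b : 𝓐, ∀ g : G, g • cm a = cm b → θ b = θ a ∨ θ b = c₀ * (θ a)⁻¹
  /-- the eigenvalues -/
  ev : Λ → A
  fix : ∀ (l : Λ) (a : 𝓐), ∃ g : G, g • cm a = cm a ∧ (∀ y ∈ D.Nb l (cm a), g • g • y = y) ∧
    (((∀ y ∈ D.Nb l (cm a), g • y ≠ y) ∧ ev l = 0) ∨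
      ∃ (b₁ b₂ : 𝓐) (μ : Aˣ), cm b₁ ≠ cm b₂ ∧ cm b₁ ∈ D.Nb l (cm a) ∧ cm b₂ ∈ D.Nb l (cm a) ∧
        (∀ y ∈ D.Nb l (cm a), g • y = y ↔ y = cm b₁ ∨ y = cm b₂) ∧
        θ b₁ = θ a * μ ∧ θ b₂ = θ a * μ⁻¹ ∧ ev l = μ + (μ⁻¹ : Aˣ))

namespace CM

variable {D} {A : Type*} [CommRing A] {𝓐 : Type*} (C : D.CM A 𝓐)

/-- the function on the CM points -/
def h (a : 𝓐) : A := C.θ a + (C.c₀ * (C.θ a)⁻¹ : Aˣ)

theorem h_eq {a b : 𝓐} {g : G} (hg : g • C.cm a = C.cm b) : C.h b = C.h a := by
  rcases C.orbit a b g hg with h1 | h1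
  · rw [h, h, h1]
  · have h3 : C.c₀ * (C.θ b)⁻¹ = C.θ a := by
      rw [h1, mul_inv, inv_inv, mul_inv_cancel_left]
    rw [h, h, h3, h1]
    ring

open Classical in
/-- the invariant function on `X` -/
def F (x : X) : A := if hx : ∃ (a : 𝓐) (g : G), g • C.cm a = x then C.h hx.choose else 0

theorem F_cm (a : 𝓐) : C.F (C.cm a) = C.h a := by
  classical
  have hx : ∃ (b : 𝓐) (g : G), g • C.cm b = C.cm a := ⟨a, 1, one_smul _ _⟩
  rw [F, dif_pos hx]
  obtain ⟨g, hg⟩ := hx.choose_spec
  exact (C.h_eq hg).symm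

theorem F_smul (g : G) (x : X) : C.F (g • x) = C.F x := by
  classical
  by_cases hx : ∃ (a : 𝓐) (g : G), g • C.cm a = x
  · have hx' : ∃ (a : 𝓐) (g' : G), g' • C.cm a = g • x := by
      obtain ⟨a, g', h1⟩ := hx
      exact ⟨a, g * g', by rw [mul_smul, h1]⟩
    rw [F, F, dif_pos hx, dif_pos hx']
    obtain ⟨g₁, h1⟩ := hx.choose_spec
    obtain ⟨g₂, h2⟩ := hx'.choose_spec
    refine C.h_eq (g := g₂⁻¹ * (g * g₁)) ?_
    rw [mul_smul, mul_smul, h1]
    exact inv_smul_eq_iff.mpr h2.symm
  · have hx' : ¬ ∃ (a : 𝓐) (g' : G), g' • C.cm a = g • x := by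
      rintro ⟨a, g', h1⟩
      exact hx ⟨a, g⁻¹ * g', by rw [mul_smul, h1, inv_smul_smul]⟩
    rw [F, F, dif_neg hx, dif_neg hx']

/-- `f` is invariant and restricts to a multiple of `h` on the CM points. -/
def Good (f : X → A) (c : A) : Prop := (∀ (g : G) (x : X), f (g • x) = f x) ∧
  ∀ a : 𝓐, f (C.cm a) = c * C.h a

theorem good_F : C.Good C.F 1 := ⟨C.F_smul, fun a => by rw [F_cm, one_mul]⟩

theorem Good.T (h2 : (2 : A) = 0) {f : X → A} {c : A} (hf : C.Good f c) (l : Λ) :
    C.Good (D.T A l f) (C.ev l * c) := by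
  classical
  refine ⟨fun g x => ?_, fun a => ?_⟩
  · rw [D.T_smul_point]
    simp only [hf.1]
  · obtain ⟨g, hg, hgg, h3⟩ := C.fix l a
    have hmem : ∀ y ∈ D.Nb l (C.cm a), g • y ∈ D.Nb l (C.cm a) := by
      intro y hy
      have h4 := (D.mem_Nb g l (C.cm a) y).mpr hy
      rwa [hg] at h4
    rw [T_apply, sum_eq_sum_fixed h2 _ (fun y => g • y) hmem hgg f (fun y _ => hf.1 g y)]
    rcases h3 with ⟨h3, hev⟩ | ⟨b₁, b₂, μ, hne, hm₁, hm₂, h3, hb₁, hb₂, hev⟩
    · rw [Finset.filter_false_of_mem h3, Finset.sum_empty, hev, zero_mul, zero_mul]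
    · have h4 : Finset.filter (fun y => g • y = y) (D.Nb l (C.cm a)) = {C.cm b₁, C.cm b₂} := by
        ext y
        rw [Finset.mem_filter, Finset.mem_insert, Finset.mem_singleton]
        constructor
        · rintro ⟨h5, h6⟩
          exact (h3 y h5).mp h6
        · intro h5
          have h6 : y ∈ D.Nb l (C.cm a) := by
            rcases h5 with rfl | rfl
            · exact hm₁
            · exact hm₂
          exact ⟨h6, (h3 y h6).mpr h5⟩
      rw [h4, Finset.sum_pair hne, hf.2, hf.2, hev, h, h, h, hb₁, hb₂]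
      push_cast [mul_inv, inv_inv]
      ring

/-- the evaluation of noncommutative polynomials -/
def evP (O : Type*) [CommRing O] [Algebra O A] : FreeAlgebra O Λ →ₐ[O] A :=
  FreeAlgebra.lift O C.ev

theorem Good.act {O : Type*} [CommRing O] [Algebra O A] (h2 : (2 : A) = 0)
    (P : FreeAlgebra O Λ) {f : X → A} {c : A} (hf : C.Good f c) :
    C.Good (D.act A P f) (C.evP O P * c) := by
  induction P using FreeAlgebra.induction generalizing f c with
  | grade0 r =>
    rw [AlgHom.commutes, AlgHom.commutes, Module.algebraMap_end_apply]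
    refine ⟨fun g x => ?_, fun a => ?_⟩
    · rw [Pi.smul_apply, Pi.smul_apply, hf.1]
    · rw [Pi.smul_apply, hf.2, Algebra.smul_def, mul_assoc]
  | grade1 l =>
    have h3 : C.evP O (FreeAlgebra.ι O l) = C.ev l := FreeAlgebra.lift_ι_apply _ _
    rw [act_ι, h3]
    exact Good.T C h2 hf l
  | mul P Q hP hQ =>
    rw [map_mul, map_mul, Module.End.mul_apply, mul_assoc]
    exact hP (hQ hf)
  | add P Q hP hQ =>
    rw [map_add, map_add, LinearMap.add_apply]
    refine ⟨fun g x => ?_, fun a => ?_⟩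
    · rw [Pi.add_apply, Pi.add_apply, (hP hf).1, (hQ hf).1]
    · rw [Pi.add_apply, (hP hf).2, (hQ hf).2]
      ring

/-- **Smith theory**: the eigenvalues on the CM points satisfy all relations between the operators
on the functions transforming by the sign character. -/
theorem evP_eq_zero {O : Type*} [CommRing O] [Algebra O A] (h2 : (2 : A) = 0)
    (hfin : Finite (orbitRel.Quotient D.Γ X))
    {a₀ : 𝓐} (ha₀ : IsUnit (C.h a₀)) {l₁ : Λ} (hl₁ : IsUnit (C.ev l₁))
    (hbad : ∀ x : X, D.Bad x → ∃ γ : D.Γ, (γ : G) • x = x ∧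
      ∀ y ∈ D.Nb l₁ x, (γ : G) • (γ : G) • y = y ∧ (γ : G) • y ≠ y)
    {P : FreeAlgebra O Λ} (hP : D.actS O P = 0) : C.evP O P = 0 := by
  classical
  have h3 : C.Good (D.T A l₁ C.F) (C.ev l₁ * 1) := Good.T C h2 C.good_F l₁
  have h4 : D.act A P (D.T A l₁ C.F) = 0 := by
    refine D.act_eq_zero_of_actS h2 hfin hP (fun γ x => h3.1 γ x) ?_
    intro x hx
    obtain ⟨γ, hγ, h5⟩ := hbad x hx
    have hmem : ∀ y ∈ D.Nb l₁ x, (γ : G) • y ∈ D.Nb l₁ x := by
      intro y hy
      have h4 := (D.mem_Nb γ l₁ x y).mpr hy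
      rwa [hγ] at h4
    rw [T_apply, sum_eq_sum_fixed h2 _ (fun y => (γ : G) • y) hmem (fun y hy => (h5 y hy).1) C.F
      (fun y _ => C.F_smul γ y), Finset.filter_false_of_mem (fun y hy => (h5 y hy).2),
      Finset.sum_empty]
  have h5 := (Good.act C h2 P h3).2 a₀
  rw [h4, Pi.zero_apply, mul_one] at h5
  have h6 : C.evP O P * (C.ev l₁ * C.h a₀) = 0 := by rw [← mul_assoc]; exact h5.symm
  exact (hl₁.mul ha₀).mul_left_eq_zero.mp h6

/-- The Hecke algebra: the algebra generated by the operators. -/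
def hecke (D : Sys G X Λ) (O : Type*) [CommRing O] : Subalgebra O (Module.End O (D.S O)) :=
  Algebra.adjoin O (Set.range (D.t O))

/-- the generators -/
def gen (D : Sys G X Λ) (O : Type*) [CommRing O] (l : Λ) : hecke D O :=
  ⟨D.t O l, Algebra.subset_adjoin ⟨l, rfl⟩⟩

/-- **Smith theory**: the homomorphism from the Hecke algebra. -/
theorem exists_algHom {O : Type*} [CommRing O] [Algebra O A] (h2 : (2 : A) = 0)
    (hfin : Finite (orbitRel.Quotient D.Γ X))
    {a₀ : 𝓐} (ha₀ : IsUnit (C.h a₀)) {l₁ : Λ} (hl₁ : IsUnit (C.ev l₁))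
    (hbad : ∀ x : X, D.Bad x → ∃ γ : D.Γ, (γ : G) • x = x ∧
      ∀ y ∈ D.Nb l₁ x, (γ : G) • (γ : G) • y = y ∧ (γ : G) • y ≠ y) :
    ∃ Φ : hecke D O →ₐ[O] A, ∀ l, Φ (gen D O l) = C.ev l := by
  classical
  -- the surjection from the free algebra
  have hran : (D.actS (O := O) O).range = hecke D O :=
    (Algebra.adjoin_range_eq_range_freeAlgebra_lift (R := O) (f := D.t O)).symm
  have hmem : ∀ P : FreeAlgebra O Λ, D.actS (O := O) O P ∈ hecke D O := by
    intro P
    rw [← hran]
    exact ⟨P, rfl⟩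
  have hsurj : ∀ T : hecke D O, ∃ P : FreeAlgebra O Λ, D.actS (O := O) O P = T := by
    intro T
    have h3 : (T : Module.End O (D.S O)) ∈ (D.actS (O := O) O).range := by
      rw [hran]; exact T.2
    exact h3
  have hwd : ∀ P Q : FreeAlgebra O Λ, D.actS (O := O) O P = D.actS (O := O) O Q →
      C.evP O P = C.evP O Q := by
    intro P Q h3
    rw [← sub_eq_zero, ← map_sub]
    refine C.evP_eq_zero h2 hfin ha₀ hl₁ hbad ?_
    rw [map_sub, h3, sub_self]
  choose s hs using hsurj
  refine ⟨AlgHom.ofLinearMap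
    { toFun := fun T => C.evP O (s T)
      map_add' := fun T U => by
        rw [← map_add]
        refine hwd _ _ ?_
        rw [map_add, hs, hs, hs]
        rfl
      map_smul' := fun r T => by
        rw [RingHom.id_apply, ← map_smul]
        refine hwd _ _ ?_
        rw [map_smul, hs, hs]
        rfl } ?_ ?_, ?_⟩
  · show C.evP O (s 1) = 1
    rw [← map_one (C.evP O)]
    refine hwd _ _ ?_
    rw [hs, map_one]
    rfl
  · intro T U
    show C.evP O (s (T * U)) = C.evP O (s T) * C.evP O (s U)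
    rw [← map_mul]
    refine hwd _ _ ?_
    rw [map_mul, hs, hs, hs]
    rfl
  · intro l
    show C.evP O (s (gen D O l)) = C.ev l
    have h3 : C.evP O (FreeAlgebra.ι O l) = C.ev l := FreeAlgebra.lift_ι_apply _ _
    rw [← h3]
    refine hwd _ _ ?_
    rw [hs, actS_ι]
    rfl

end CM

end Sys

end Fermat.Agent.H61.Smith
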