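/-
H61TA: congruences between `q`-expansions and homomorphisms from Hecke algebras
(block TA7 of LT-MOD2).
-/
import Mathlib
import Fermat.Agent.H49HeckeBasic

set_option autoImplicit false
set_option linter.style.haveILetI false
set_option linter.unusedSectionVars false

noncomputable section

namespace Fermat.Agent.H61.TA

open CuspForm ModularFormClass CongruenceSubgroup

/-! ### Operators on sequences -/

/-- The operator `T_ℓ` (`ℓ ∤ M`) or `U_ℓ` (`ℓ ∣ M`) on sequences. -/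
def opS (M : ℕ) (B : Type*) [CommRing B] (ℓ : ℕ) : Module.End B (ℕ → B) where
  toFun c n := c (n * ℓ) + if ℓ ∣ M then 0 else if ℓ ∣ n then (ℓ : B) * c (n / ℓ) else 0
  map_add' c d := by
    funext n
    simp only [Pi.add_apply]
    split_ifs <;> ring
  map_smul' a c := by
    funext n
    simp only [Pi.smul_apply, smul_eq_mul, RingHom.id_apply]
    split_ifs <;> ring

theorem opS_apply (M : ℕ) (B : Type*) [CommRing B] (ℓ : ℕ) (c : ℕ → B) (n : ℕ) :
    opS M B ℓ c n = c (n * ℓ) + if ℓ ∣ M then 0 else if ℓ ∣ n then (ℓ : B) * c (n / ℓ) else 0 := rfl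

theorem opS_of_dvd {M : ℕ} {B : Type*} [CommRing B] {ℓ : ℕ} (h : ℓ ∣ M) (c : ℕ → B) (n : ℕ) :
    opS M B ℓ c n = c (n * ℓ) := by
  rw [opS_apply, if_pos h, add_zero]

theorem opS_of_not_dvd {M : ℕ} {B : Type*} [CommRing B] {ℓ : ℕ} (h : ¬ ℓ ∣ M) (c : ℕ → B) (n : ℕ) :
    opS M B ℓ c n = c (n * ℓ) + if ℓ ∣ n then (ℓ : B) * c (n / ℓ) else 0 := by
  rw [opS_apply, if_neg h]

theorem opS_map (M : ℕ) {B B' : Type*} [CommRing B] [CommRing B'] (φ : B →+* B') (ℓ : ℕ)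
    (c : ℕ → B) : opS M B' ℓ (fun n => φ (c n)) = fun n => φ (opS M B ℓ c n) := by
  funext n
  rw [opS_apply, opS_apply, map_add]
  congr 1
  split_ifs
  · rw [map_zero]
  · rw [map_mul, map_natCast]
  · rw [map_zero]

theorem opS_comm (M : ℕ) (B : Type*) [CommRing B] {ℓ ℓ' : ℕ} (hℓ : ℓ.Prime) (hℓ' : ℓ'.Prime)
    (hne : ℓ ≠ ℓ') (c : ℕ → B) : opS M B ℓ (opS M B ℓ' c) = opS M B ℓ' (opS M B ℓ c) := by
  have hc : Nat.Coprime ℓ ℓ' := (Nat.coprime_primes hℓ hℓ').mpr hne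
  have key : ∀ {a b : ℕ}, a.Prime → Nat.Coprime a b → ∀ n : ℕ, (a ∣ n * b ↔ a ∣ n) :=
    fun ha hab n => ⟨fun h => hab.dvd_of_dvd_mul_right h, fun h => h.mul_right _⟩
  have hdiv : ∀ {a b : ℕ}, a ∣ b → ∀ d, b * d / a = b / a * d := fun h d =>
    (Nat.div_mul_right_comm h d).symm
  funext n
  simp only [opS_apply]
  rw [mul_right_comm n ℓ' ℓ]
  by_cases h1 : ℓ ∣ M <;> by_cases h2 : ℓ' ∣ M <;> simp only [h1, h2, if_true, if_false, add_zero]
  · by_cases h3 : ℓ' ∣ n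
    · rw [if_pos ((key hℓ' hc.symm n).mpr h3), if_pos h3, hdiv h3]
    · rw [if_neg (fun h => h3 ((key hℓ' hc.symm n).mp h)), if_neg h3]
  · by_cases h3 : ℓ ∣ n
    · rw [if_pos ((key hℓ hc n).mpr h3), if_pos h3, hdiv h3]
    · rw [if_neg (fun h => h3 ((key hℓ hc n).mp h)), if_neg h3]
  · by_cases h3 : ℓ ∣ n <;> by_cases h4 : ℓ' ∣ n
    · have h5 : ℓ' ∣ n / ℓ := (Nat.dvd_div_iff_mul_dvd h3).mpr (hc.mul_dvd_of_dvd_of_dvd h3 h4)
      have h6 : ℓ ∣ n / ℓ' := (Nat.dvd_div_iff_mul_dvd h4).mpr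
        (hc.symm.mul_dvd_of_dvd_of_dvd h4 h3)
      rw [if_pos ((key hℓ' hc.symm n).mpr h4), if_pos ((key hℓ hc n).mpr h3), if_pos h3, if_pos h4,
        if_pos h5, if_pos h6, hdiv h3, hdiv h4, Nat.div_div_eq_div_mul, Nat.div_div_eq_div_mul,
        mul_comm ℓ ℓ']
      ring
    · have h6 : ¬ ℓ' ∣ n / ℓ := fun h => h4 (h.trans (Nat.div_dvd_of_dvd h3))
      rw [if_neg (fun h => h4 ((key hℓ' hc.symm n).mp h)), if_pos ((key hℓ hc n).mpr h3), if_pos h3,
        if_neg h4, if_neg h6, hdiv h3]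
      ring
    · have h6 : ¬ ℓ ∣ n / ℓ' := fun h => h3 (h.trans (Nat.div_dvd_of_dvd h4))
      rw [if_pos ((key hℓ' hc.symm n).mpr h4), if_neg (fun h => h3 ((key hℓ hc n).mp h)), if_neg h3,
        if_pos h4, if_neg h6, hdiv h4]
      ring
    · rw [if_neg (fun h => h4 ((key hℓ' hc.symm n).mp h)), if_neg (fun h => h3 ((key hℓ hc n).mp h)),
        if_neg h3, if_neg h4]

/-! ### Operators on cusp forms -/

/-- The primes outside `S`. -/
abbrev PS (S : Set ℕ) : Type := {ℓ : ℕ // ℓ.Prime ∧ ℓ ∉ S}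

open Classical in
/-- The operator `T_ℓ` (`ℓ ∤ M`) or `U_ℓ` (`ℓ ∣ M`) on cusp forms. -/
def opF (M : ℕ) [NeZero M] {ℓ : ℕ} (hℓ : ℓ.Prime) : Module.End ℂ (CuspForm (Gamma0 M) 2) :=
  if h : ℓ ∣ M then heckeULin 2 h else heckeTLin 2 hℓ h

/-- The sequence of coefficients. -/
def qSeq {M : ℕ} (f : CuspForm (Gamma0 M) 2) : ℕ → ℂ := fun n => qCoeff f n

variable (M : ℕ) [NeZero M]

theorem opF_of_dvd {ℓ : ℕ} (hℓ : ℓ.Prime) (h : ℓ ∣ M) : opF M hℓ = heckeULin 2 h := dif_pos h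

theorem opF_of_not_dvd {ℓ : ℕ} (hℓ : ℓ.Prime) (h : ¬ ℓ ∣ M) : opF M hℓ = heckeTLin 2 hℓ h :=
  dif_neg h

theorem qSeq_opF {ℓ : ℕ} (hℓ : ℓ.Prime) (f : CuspForm (Gamma0 M) 2) :
    qSeq (opF M hℓ f) = opS M ℂ ℓ (qSeq f) := by
  funext n
  by_cases h : ℓ ∣ M
  · rw [opF_of_dvd M hℓ h, opS_of_dvd h]
    exact H49.qCoeff_heckeULin hℓ.ne_zero h f n
  · rw [opF_of_not_dvd M hℓ h, opS_of_not_dvd h]
    refine (H49.qCoeff_heckeTLin hℓ h f n).trans ?_
    norm_num
    rfl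

theorem opF_comm {ℓ ℓ' : ℕ} (hℓ : ℓ.Prime) (hℓ' : ℓ'.Prime) :
    Commute (opF M hℓ) (opF M hℓ') := by
  by_cases h : ℓ ∣ M <;> by_cases h' : ℓ' ∣ M
  · rw [opF_of_dvd M hℓ h, opF_of_dvd M hℓ' h']
    exact heckeULin_comm 2 h h'
  · rw [opF_of_dvd M hℓ h, opF_of_not_dvd M hℓ' h']
    exact (heckeTLin_heckeULin_comm 2 hℓ' h' h).symm
  · rw [opF_of_not_dvd M hℓ h, opF_of_dvd M hℓ' h']
    exact heckeTLin_heckeULin_comm 2 hℓ h h'
  · rw [opF_of_not_dvd M hℓ h, opF_of_not_dvd M hℓ' h']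
    exact heckeTLin_comm 2 hℓ h hℓ' h'

variable (S : Set ℕ)

/-- noncommutative polynomials acting on cusp forms -/
def actF : FreeAlgebra ℤ (PS S) →ₐ[ℤ] Module.End ℂ (CuspForm (Gamma0 M) 2) :=
  FreeAlgebra.lift ℤ fun ℓ => opF M ℓ.2.1

/-- noncommutative polynomials acting on sequences -/
def actS (B : Type*) [CommRing B] : FreeAlgebra ℤ (PS S) →ₐ[ℤ] Module.End B (ℕ → B) :=
  FreeAlgebra.lift ℤ fun ℓ => opS M B ℓ.1

@[simp] theorem actF_ι (ℓ : PS S) : actF M S (FreeAlgebra.ι ℤ ℓ) = opF M ℓ.2.1 :=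
  FreeAlgebra.lift_ι_apply _ _

@[simp] theorem actS_ι (B : Type*) [CommRing B] (ℓ : PS S) :
    actS M S B (FreeAlgebra.ι ℤ ℓ) = opS M B ℓ.1 :=
  FreeAlgebra.lift_ι_apply _ _

theorem qSeq_add (f g : CuspForm (Gamma0 M) 2) : qSeq (f + g) = qSeq f + qSeq g := by
  funext n
  exact H49.qCoeff_add f g n

theorem qSeq_zsmul (c : ℤ) (f : CuspForm (Gamma0 M) 2) :
    qSeq (c • f) = c • qSeq f := by
  funext n
  refine (H49.qCoeff_zsmul c f n).trans ?_
  rw [Pi.smul_apply, zsmul_eq_mul]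
  rfl

theorem qSeq_smul (c : ℂ) (f : CuspForm (Gamma0 M) 2) : qSeq (c • f) = c • qSeq f := by
  funext n
  exact H49.qCoeff_smul c f n

theorem qSeq_zero : qSeq (0 : CuspForm (Gamma0 M) 2) = 0 := by
  funext n
  exact H49.qCoeff_zero n

variable {M} in
theorem qSeq_injective {f g : CuspForm (Gamma0 M) 2} (h : qSeq f = qSeq g) : f = g :=
  H49.ext_of_forall_qCoeff fun n => congrFun h n

theorem qSeq_actF (P : FreeAlgebra ℤ (PS S)) (f : CuspForm (Gamma0 M) 2) :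
    qSeq (actF M S P f) = actS M S ℂ P (qSeq f) := by
  induction P using FreeAlgebra.induction generalizing f with
  | grade0 r =>
    rw [AlgHom.commutes, AlgHom.commutes, Module.algebraMap_end_apply, Module.algebraMap_end_apply,
      qSeq_zsmul]
  | grade1 l => rw [actF_ι, actS_ι, qSeq_opF]
  | mul P Q hP hQ =>
    rw [map_mul, map_mul, Module.End.mul_apply, Module.End.mul_apply, hP, hQ]
  | add P Q hP hQ =>
    rw [map_add, map_add, LinearMap.add_apply, LinearMap.add_apply, qSeq_add, hP, hQ]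

theorem actS_map {B B' : Type*} [CommRing B] [CommRing B'] (φ : B →+* B')
    (P : FreeAlgebra ℤ (PS S)) (c : ℕ → B) :
    actS M S B' P (fun n => φ (c n)) = fun n => φ (actS M S B P c n) := by
  induction P using FreeAlgebra.induction generalizing c with
  | grade0 r =>
    rw [AlgHom.commutes, AlgHom.commutes, Module.algebraMap_end_apply, Module.algebraMap_end_apply]
    funext n
    rw [Pi.smul_apply, Pi.smul_apply, map_zsmul]
  | grade1 l => rw [actS_ι, actS_ι, opS_map]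
  | mul P Q hP hQ =>
    rw [map_mul, map_mul, Module.End.mul_apply, Module.End.mul_apply, hQ, hP]
  | add P Q hP hQ =>
    rw [map_add, map_add, LinearMap.add_apply, LinearMap.add_apply, hP, hQ]
    funext n
    rw [Pi.add_apply, Pi.add_apply, map_add]

theorem range_actF : (actF M S).range = (heckeAlgebra M 2 S) := by
  rw [actF, ← Algebra.adjoin_range_eq_range_freeAlgebra_lift, heckeAlgebra]
  congr 1
  ext t
  constructor
  · rintro ⟨ℓ, rfl⟩
    by_cases h : ℓ.1 ∣ M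
    · exact Or.inr ⟨ℓ.1, h, ℓ.2.1, ℓ.2.2, opF_of_dvd M ℓ.2.1 h⟩
    · exact Or.inl ⟨ℓ.1, ℓ.2.1, h, ℓ.2.2, opF_of_not_dvd M ℓ.2.1 h⟩
  · rintro (⟨ℓ, hℓ, hℓM, hℓS, rfl⟩ | ⟨q, hqM, hq, hqS, rfl⟩)
    · exact ⟨⟨ℓ, hℓ, hℓS⟩, opF_of_not_dvd M hℓ hℓM⟩
    · exact ⟨⟨q, hq, hqS⟩, opF_of_dvd M hq hqM⟩

/-- Commutation of `U_v` with the Hecke algebra. -/
theorem actF_commute {v : ℕ} (hv : v.Prime) (P : FreeAlgebra ℤ (PS S)) :
    Commute (actF M S P) (opF M hv) := by
  induction P using FreeAlgebra.induction with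
  | grade0 r =>
    rw [AlgHom.commutes]
    exact Algebra.commutes r (opF M hv)
  | grade1 l =>
    rw [actF_ι]
    exact opF_comm M _ hv
  | mul P Q hP hQ =>
    rw [map_mul]
    exact hP.mul_left hQ
  | add P Q hP hQ =>
    rw [map_add]
    exact hP.add_left hQ

/-- Commutation of `U_v`, `v ∈ S`, with the Hecke operators on sequences. -/
theorem actS_commute (B : Type*) [CommRing B] {v : ℕ} (hv : v.Prime) (hvS : v ∈ S)
    (P : FreeAlgebra ℤ (PS S)) : Commute (actS M S B P) (opS M B v) := by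
  induction P using FreeAlgebra.induction with
  | grade0 r =>
    rw [AlgHom.commutes]
    exact Algebra.commutes r (opS M B v)
  | grade1 l =>
    rw [actS_ι]
    refine LinearMap.ext fun c => ?_
    exact opS_comm M B l.2.1 hv (fun h => l.2.2 (h ▸ hvS)) c
  | mul P Q hP hQ =>
    rw [map_mul]
    exact hP.mul_left hQ
  | add P Q hP hQ =>
    rw [map_add]
    exact hP.add_left hQ

/-! ### Annihilators and admissible sequences -/

/-- The annihilator of a space of forms in the Hecke algebra. -/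
def ann (X : Submodule ℂ (CuspForm (Gamma0 M) 2)) : Ideal (heckeAlgebra M 2 S) where
  carrier := {t | ∀ f ∈ X, (t : Module.End ℂ (CuspForm (Gamma0 M) 2)) f = 0}
  add_mem' := by
    intro s t hs ht f hf
    have h1 : ((s + t : heckeAlgebra M 2 S) : Module.End ℂ (CuspForm (Gamma0 M) 2)) = s + t := rfl
    rw [h1, LinearMap.add_apply, hs f hf, ht f hf, add_zero]
  zero_mem' := by
    intro f _
    rfl
  smul_mem' := by
    intro s t ht f hf
    have h1 : ((s • t : heckeAlgebra M 2 S) : Module.End ℂ (CuspForm (Gamma0 M) 2)) = s * t := rfl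
    rw [h1, Module.End.mul_apply, ht f hf, map_zero]

variable {M S} in
theorem mem_ann {X : Submodule ℂ (CuspForm (Gamma0 M) 2)} {t : heckeAlgebra M 2 S} :
    t ∈ ann M S X ↔ ∀ f ∈ X, (t : Module.End ℂ (CuspForm (Gamma0 M) 2)) f = 0 := Iff.rfl

/-- Admissible sequences: all relations between Hecke operators on `X` hold for them. -/
def Adm (B : Type*) [CommRing B] (X : Submodule ℂ (CuspForm (Gamma0 M) 2)) :
    Submodule B (ℕ → B) where
  carrier := {c | ∀ P : FreeAlgebra ℤ (PS S), (∀ f ∈ X, actF M S P f = 0) → actS M S B P c = 0}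
  add_mem' := by
    intro c d hc hd P hP
    rw [map_add, hc P hP, hd P hP, add_zero]
  zero_mem' := by
    intro P _
    rw [map_zero]
  smul_mem' := by
    intro a c hc P hP
    rw [map_smul, hc P hP, smul_zero]

variable {M S} {B : Type*} [CommRing B] {X : Submodule ℂ (CuspForm (Gamma0 M) 2)}

theorem mem_Adm {c : ℕ → B} : c ∈ Adm M S B X ↔
    ∀ P : FreeAlgebra ℤ (PS S), (∀ f ∈ X, actF M S P f = 0) → actS M S B P c = 0 := Iff.rfl

/-- Integral `q`-expansions of forms in `X` are admissible. -/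
theorem intCast_mem_Adm {f : CuspForm (Gamma0 M) 2} (hf : f ∈ X) {g : ℕ → ℤ}
    (hg : ∀ n, qCoeff f n = g n) : (fun n => (g n : B)) ∈ Adm M S B X := by
  intro P hP
  have h1 : actS M S ℂ P (fun n => (Int.castRingHom ℂ) (g n)) = 0 := by
    have h2 : (fun n => (Int.castRingHom ℂ) (g n)) = qSeq f := by
      funext n
      exact (hg n).symm
    rw [h2, ← qSeq_actF, hP f hf, qSeq_zero]
  rw [actS_map] at h1
  have h3 : actS M S ℤ P g = 0 := by
    funext n
    have h4 := congrFun h1 n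
    simpa using h4
  have h5 := actS_map M S (Int.castRingHom B) P g
  rw [h3] at h5
  refine h5.trans ?_
  funext n
  simp

/-- `Adm` is stable under the Hecke operators. -/
theorem actS_mem_Adm (hX : ∀ (Q : FreeAlgebra ℤ (PS S)), ∀ f ∈ X, actF M S Q f ∈ X)
    (Q : FreeAlgebra ℤ (PS S)) {c : ℕ → B} (hc : c ∈ Adm M S B X) :
    actS M S B Q c ∈ Adm M S B X := by
  intro P hP
  have h1 : actS M S B P (actS M S B Q c) = actS M S B (P * Q) c := by
    rw [map_mul, Module.End.mul_apply]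
  rw [h1]
  refine hc (P * Q) fun f hf => ?_
  rw [map_mul, Module.End.mul_apply]
  exact hP _ (hX Q f hf)

theorem opS_mem_Adm (hX : ∀ (Q : FreeAlgebra ℤ (PS S)), ∀ f ∈ X, actF M S Q f ∈ X)
    {ℓ : ℕ} (hℓ : ℓ.Prime) (hℓS : ℓ ∉ S) {c : ℕ → B} (hc : c ∈ Adm M S B X) :
    opS M B ℓ c ∈ Adm M S B X := by
  have h1 := actS_mem_Adm hX (FreeAlgebra.ι ℤ ⟨ℓ, hℓ, hℓS⟩) hc
  rwa [actS_ι] at h1

/-- `Adm` is stable under `U_v`, `v ∈ S`. -/
theorem opS_mem_Adm' {v : ℕ} (hv : v.Prime) (hvS : v ∈ S) {c : ℕ → B} (hc : c ∈ Adm M S B X) :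
    opS M B v c ∈ Adm M S B X := by
  intro P hP
  have h1 : actS M S B P (opS M B v c) = opS M B v (actS M S B P c) :=
    LinearMap.congr_fun (actS_commute M S B hv hvS P) c
  rw [h1, hc P hP, map_zero]

/-- Division by a non zero divisor. -/
theorem mem_Adm_of_smul {s : B} (hs : ∀ b : B, s * b = 0 → b = 0) {c : ℕ → B}
    (hc : s • c ∈ Adm M S B X) : c ∈ Adm M S B X := by
  intro P hP
  have h1 := hc P hP
  rw [map_smul] at h1
  funext n
  exact hs _ (congrFun h1 n)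

/-- Base change. -/
theorem map_mem_Adm {B' : Type*} [CommRing B'] (φ : B →+* B') {c : ℕ → B}
    (hc : c ∈ Adm M S B X) : (fun n => φ (c n)) ∈ Adm M S B' X := by
  intro P hP
  rw [actS_map, hc P hP]
  funext n
  simp

/-! ### The homomorphism -/

/-- the evaluation of noncommutative polynomials at a system of eigenvalues -/
def evP (S : Set ℕ) (e : ℕ → B) : FreeAlgebra ℤ (PS S) →ₐ[ℤ] B := FreeAlgebra.lift ℤ fun ℓ => e ℓ.1

@[simp] theorem evP_ι (S : Set ℕ) (e : ℕ → B) (ℓ : PS S) :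
    evP S e (FreeAlgebra.ι ℤ ℓ) = e ℓ.1 := FreeAlgebra.lift_ι_apply _ _

theorem actS_eigen {F : ℕ → B} {e : ℕ → B}
    (hF : ∀ ℓ : ℕ, ℓ.Prime → ℓ ∉ S → opS M B ℓ F = e ℓ • F) (P : FreeAlgebra ℤ (PS S)) :
    actS M S B P F = evP S e P • F := by
  induction P using FreeAlgebra.induction with
  | grade0 r =>
    rw [AlgHom.commutes, AlgHom.commutes, Module.algebraMap_end_apply]
    funext n
    rw [Pi.smul_apply, Pi.smul_apply, zsmul_eq_mul, smul_eq_mul]
    simp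
  | grade1 l => rw [actS_ι, evP_ι, hF l.1 l.2.1 l.2.2]
  | mul P Q hP hQ =>
    rw [map_mul, map_mul, Module.End.mul_apply, hQ, map_smul, hP, smul_smul, mul_comm]
  | add P Q hP hQ =>
    rw [map_add, map_add, LinearMap.add_apply, hP, hQ, add_smul]

/-- **Theorem A′, abstract form**: an admissible eigensequence with `F 1` a unit gives a
homomorphism from the Hecke algebra which factors through its image in `End X`. -/
theorem exists_ringHom {F : ℕ → B} (hFadm : F ∈ Adm M S B X) {e : ℕ → B}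
    (hF : ∀ ℓ : ℕ, ℓ.Prime → ℓ ∉ S → opS M B ℓ F = e ℓ • F) (h1 : IsUnit (F 1)) :
    ∃ Ψ : heckeAlgebra M 2 S →+* B,
      (∀ (ℓ : ℕ) (hℓ : ℓ.Prime) (hℓM : ¬ ℓ ∣ M) (hℓS : ℓ ∉ S),
        Ψ (heckeAlgebra.T hℓ hℓM hℓS) = e ℓ) ∧
      (∀ (q : ℕ) (hq : q.Prime) (hqM : q ∣ M) (hqS : q ∉ S),
        Ψ (heckeAlgebra.U hq hqM hqS) = e q) ∧
      ∀ t ∈ ann M S X, Ψ t = 0 := by
  have hkey : ∀ P : FreeAlgebra ℤ (PS S), (∀ f ∈ X, actF M S P f = 0) → evP S e P = 0 := by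
    intro P hP
    have h2 := hFadm P hP
    rw [actS_eigen hF] at h2
    have h3 := congrFun h2 1
    rw [Pi.smul_apply, smul_eq_mul, Pi.zero_apply] at h3
    exact h1.mul_left_eq_zero.mp h3
  have hmem : ∀ P : FreeAlgebra ℤ (PS S), actF M S P ∈ heckeAlgebra M 2 S := by
    intro P
    rw [← range_actF]
    exact ⟨P, rfl⟩
  have hsurj : ∀ T : heckeAlgebra M 2 S, ∃ P : FreeAlgebra ℤ (PS S), actF M S P = T := by
    intro T
    have h3 : (T : Module.End ℂ (CuspForm (Gamma0 M) 2)) ∈ (actF M S).range := by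
      rw [range_actF]; exact T.2
    exact h3
  have hwd : ∀ P Q : FreeAlgebra ℤ (PS S), (∀ f ∈ X, actF M S P f = actF M S Q f) →
      evP S e P = evP S e Q := by
    intro P Q h3
    rw [← sub_eq_zero, ← map_sub]
    refine hkey _ fun f hf => ?_
    rw [map_sub, LinearMap.sub_apply, h3 f hf, sub_self]
  choose s hs using hsurj
  refine ⟨{
    toFun := fun T => evP S e (s T)
    map_one' := ?_
    map_mul' := ?_
    map_zero' := ?_
    map_add' := ?_ }, ?_, ?_, ?_⟩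
  · rw [← map_one (evP S e)]
    refine hwd _ _ fun f _ => ?_
    rw [hs, map_one]
    rfl
  · intro T U
    rw [← map_mul]
    refine hwd _ _ fun f _ => ?_
    rw [map_mul, hs, hs, hs]
    rfl
  · rw [← map_zero (evP S e)]
    refine hwd _ _ fun f _ => ?_
    rw [hs, map_zero]
    rfl
  · intro T U
    rw [← map_add]
    refine hwd _ _ fun f _ => ?_
    rw [map_add, hs, hs, hs]
    rfl
  · intro ℓ hℓ hℓM hℓS
    show evP S e (s (heckeAlgebra.T hℓ hℓM hℓS)) = e ℓ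
    rw [← evP_ι S e ⟨ℓ, hℓ, hℓS⟩]
    refine hwd _ _ fun f _ => ?_
    rw [hs, actF_ι, opF_of_not_dvd M hℓ hℓM]
    rfl
  · intro q hq hqM hqS
    show evP S e (s (heckeAlgebra.U hq hqM hqS)) = e q
    rw [← evP_ι S e ⟨q, hq, hqS⟩]
    refine hwd _ _ fun f _ => ?_
    rw [hs, actF_ι, opF_of_dvd M hq hqM]
    rfl
  · intro t ht
    show evP S e (s t) = 0
    refine hkey _ fun f hf => ?_
    rw [hs]
    exact ht f hf

end Fermat.Agent.H61.TA
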