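/-
H61TB: the Hecke algebra `𝕋` of `{f ∈ S₂(Γ₀(M)) : U_v² f = f, v ∈ V}` and the projection to
eigensequences of `U_q` (block TA7 of LT-MOD2).
-/
import Mathlib
import Fermat.Agent.H61TA
import Fermat.Agent.H23Main

set_option autoImplicit false
set_option linter.style.haveILetI false
set_option linter.unusedSectionVars false

noncomputable section

namespace Fermat.Agent.H61.TA

open CuspForm ModularFormClass CongruenceSubgroup

/-! ### The space of forms -/

/-- The space of cusp forms `f` of level `M` with `U_v² f = f` for `v ∈ V`, `v ∣ M`. -/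
def X2 (M : ℕ) [NeZero M] (V : Set ℕ) : Submodule ℂ (CuspForm (Gamma0 M) 2) where
  carrier := {f | ∀ v : ℕ, v.Prime → v ∈ V → ∀ hvM : v ∣ M,
    heckeULin 2 hvM (heckeULin 2 hvM f) = f}
  add_mem' := by
    intro f g hf hg v hv hvV hvM
    rw [map_add, map_add, hf v hv hvV hvM, hg v hv hvV hvM]
  zero_mem' := by
    intro v _ _ hvM
    rw [map_zero, map_zero]
  smul_mem' := by
    intro c f hf v hv hvV hvM
    rw [map_smul, map_smul, hf v hv hvV hvM]

variable {M : ℕ} [NeZero M] {V S : Set ℕ}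

theorem mem_X2 {f : CuspForm (Gamma0 M) 2} : f ∈ X2 M V ↔ ∀ v : ℕ, v.Prime → v ∈ V →
    ∀ hvM : v ∣ M, heckeULin 2 hvM (heckeULin 2 hvM f) = f := Iff.rfl

theorem mem_X2_iff_qCoeff {f : CuspForm (Gamma0 M) 2} : f ∈ X2 M V ↔ ∀ v : ℕ, v.Prime → v ∈ V →
    v ∣ M → ∀ n, qCoeff f (n * v * v) = qCoeff f n := by
  constructor
  · intro h v hv hvV hvM n
    have h1 := H49.qCoeff_heckeULin (k := 2) hv.ne_zero hvM (heckeULin 2 hvM f) n
    rw [h v hv hvV hvM, H49.qCoeff_heckeULin hv.ne_zero hvM] at h1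
    exact h1.symm
  · intro h v hv hvV hvM
    refine H49.ext_of_forall_qCoeff fun n => ?_
    rw [H49.qCoeff_heckeULin hv.ne_zero hvM, H49.qCoeff_heckeULin hv.ne_zero hvM]
    exact h v hv hvV hvM n

theorem actF_mem_X2 (Q : FreeAlgebra ℤ (PS S)) (f : CuspForm (Gamma0 M) 2) (hf : f ∈ X2 M V) :
    actF M S Q f ∈ X2 M V := by
  intro v hv hvV hvM
  have hc := actF_commute M S hv Q
  rw [opF_of_dvd M hv hvM] at hc
  have h1 : ∀ g, heckeULin 2 hvM (actF M S Q g) = actF M S Q (heckeULin 2 hvM g) :=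
    fun g => (LinearMap.congr_fun hc g).symm
  rw [h1, h1, hf v hv hvV hvM]

theorem heckeAlgebra_mem_X2 (t : heckeAlgebra M 2 S) (f : CuspForm (Gamma0 M) 2)
    (hf : f ∈ X2 M V) : (t : Module.End ℂ (CuspForm (Gamma0 M) 2)) f ∈ X2 M V := by
  have h3 : (t : Module.End ℂ (CuspForm (Gamma0 M) 2)) ∈ (actF M S).range := by
    rw [range_actF]; exact t.2
  obtain ⟨P, hP⟩ := h3
  have hP' : actF M S P = (t : Module.End ℂ (CuspForm (Gamma0 M) 2)) := hP
  rw [← hP']
  exact actF_mem_X2 P f hf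

/-! ### The Hecke algebra -/

/-- The Hecke algebra of `X2 M V`: a quotient of the Hecke algebra of level `M`. -/
abbrev TT (M : ℕ) [NeZero M] (S V : Set ℕ) : Type := heckeAlgebra M 2 S ⧸ ann M S (X2 M V)

/-- The projection to `TT`. -/
abbrev toTT (M : ℕ) [NeZero M] (S V : Set ℕ) : heckeAlgebra M 2 S →+* TT M S V :=
  Ideal.Quotient.mk _

theorem toTT_surjective : Function.Surjective (toTT M S V) := Ideal.Quotient.mk_surjective

theorem toTT_eq_zero_iff {t : heckeAlgebra M 2 S} : toTT M S V t = 0 ↔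
    ∀ f ∈ X2 M V, (t : Module.End ℂ (CuspForm (Gamma0 M) 2)) f = 0 := by
  rw [Ideal.Quotient.eq_zero_iff_mem, mem_ann]

instance moduleFinite_TT (S : Set ℕ) : Module.Finite ℤ (TT M S V) := by
  haveI : Module.Finite ℤ (heckeAlgebra M 2 S) := H23.moduleFinite_heckeAlgebra M 2 S
  exact Module.Finite.of_surjective (toTT M S V).toIntAlgHom.toLinearMap toTT_surjective

instance isTorsionFree_TT : Module.IsTorsionFree ℤ (TT M S V) := by
  refine Module.IsTorsionFree.mk fun r hr => ?_
  have hr0 : r ≠ 0 := hr.ne_zero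
  intro x y hxy
  rw [← sub_eq_zero]
  have h1 : r • (x - y) = 0 := by
    rw [smul_sub, sub_eq_zero]; exact hxy
  obtain ⟨t, ht⟩ := toTT_surjective (x - y)
  rw [← ht] at h1 ⊢
  rw [← map_zsmul, toTT_eq_zero_iff] at h1
  rw [toTT_eq_zero_iff]
  intro f hf
  have h2 := h1 f hf
  have h3 : ((r • t : heckeAlgebra M 2 S) : Module.End ℂ (CuspForm (Gamma0 M) 2)) f
      = (r : ℂ) • ((t : Module.End ℂ (CuspForm (Gamma0 M) 2)) f) := by
    rw [Int.cast_smul_eq_zsmul]
    rfl
  rw [h3] at h2
  exact (smul_eq_zero.mp h2).resolve_left (Int.cast_ne_zero.mpr hr0)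

instance free_TT : Module.Free ℤ (TT M S V) := inferInstance

/-- `U_q² = 1` in `TT`. -/
theorem toTT_U_sq {q : ℕ} (hq : q.Prime) (hqM : q ∣ M) (hqS : q ∉ S) (hqV : q ∈ V) :
    toTT M S V (heckeAlgebra.U hq hqM hqS) ^ 2 = 1 := by
  rw [← sub_eq_zero, ← map_pow, ← map_one (toTT M S V), ← map_sub, toTT_eq_zero_iff]
  intro f hf
  have h1 : ((heckeAlgebra.U hq hqM hqS ^ 2 - 1 : heckeAlgebra M 2 S) :
      Module.End ℂ (CuspForm (Gamma0 M) 2)) f = heckeULin 2 hqM (heckeULin 2 hqM f) - f := by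
    rw [pow_two]
    rfl
  rw [h1, hf q hq hqV hqM, sub_self]

/-- The homomorphism from `TT` given by an admissible eigensequence. -/
theorem exists_ringHom_TT {B : Type*} [CommRing B] {F : ℕ → B} (hFadm : F ∈ Adm M S B (X2 M V))
    {e : ℕ → B} (hF : ∀ ℓ : ℕ, ℓ.Prime → ℓ ∉ S → opS M B ℓ F = e ℓ • F) (h1 : IsUnit (F 1)) :
    ∃ Ψ : TT M S V →+* B,
      (∀ (ℓ : ℕ) (hℓ : ℓ.Prime) (hℓM : ¬ ℓ ∣ M) (hℓS : ℓ ∉ S),
        Ψ (toTT M S V (heckeAlgebra.T hℓ hℓM hℓS)) = e ℓ) ∧
      (∀ (q : ℕ) (hq : q.Prime) (hqM : q ∣ M) (hqS : q ∉ S),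
        Ψ (toTT M S V (heckeAlgebra.U hq hqM hqS)) = e q) := by
  obtain ⟨Ψ, hT, hU, hann⟩ := exists_ringHom hFadm hF h1
  refine ⟨Ideal.Quotient.lift _ Ψ hann, ?_, ?_⟩
  · intro ℓ hℓ hℓM hℓS
    rw [Ideal.Quotient.lift_mk]
    exact hT ℓ hℓ hℓM hℓS
  · intro q hq hqM hqS
    rw [Ideal.Quotient.lift_mk]
    exact hU q hq hqM hqS

/-! ### Projection to eigensequences of the `U_q` -/

section Proj

variable {B : Type*} [CommRing B]

/-- The projection `∏_{q ∈ Q} (1 + u_q U_q)`. -/
def proj (M : ℕ) (u : ℕ → B) : List ℕ → Module.End B (ℕ → B)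
  | [] => 1
  | q :: l => (1 + u q • opS M B q) * proj M u l

theorem opS_proj_comm (u : ℕ → B) {r : ℕ} (hr : r.Prime) (l : List ℕ)
    (hl : ∀ q ∈ l, q.Prime) : Commute (opS M B r) (proj M u l) := by
  induction l with
  | nil => exact Commute.one_right _
  | cons q l ih =>
    have h1 : Commute (opS M B r) (opS M B q) := by
      by_cases h : r = q
      · rw [h]
      · exact LinearMap.ext fun c => opS_comm M B hr (hl q (List.mem_cons_self)) h c
    exact ((Commute.one_right _).add_right (h1.smul_right _)).mul_right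
      (ih fun q' hq' => hl q' (List.mem_cons_of_mem _ hq'))

/-- The projected sequence is an eigensequence for `U_q`. -/
theorem opS_proj (u : ℕ → B) (l : List ℕ) (hl : ∀ q ∈ l, q.Prime) {q : ℕ} (hq : q ∈ l)
    (hu : u q * u q = 1) {c : ℕ → B} (hc : opS M B q (opS M B q c) = c) :
    opS M B q (proj M u l c) = u q • proj M u l c := by
  induction l with
  | nil => exact absurd hq List.not_mem_nil
  | cons q' l ih =>
    have hl' : ∀ q ∈ l, q.Prime := fun q' hq' => hl q' (List.mem_cons_of_mem _ hq')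
    have hqp : q.Prime := hl q hq
    have hcomm : ∀ d, opS M B q (proj M u l d) = proj M u l (opS M B q d) :=
      fun d => LinearMap.congr_fun (opS_proj_comm u hqp l hl') d
    rcases List.mem_cons.mp hq with h | h
    · subst h
      have h1 : proj M u (q :: l) c = proj M u l c + u q • opS M B q (proj M u l c) := rfl
      rw [h1, map_add, map_smul, hcomm, hcomm, hc, smul_add, smul_smul, hu, one_smul, add_comm]
    · have h1 : proj M u (q' :: l) c = proj M u l c + u q' • opS M B q' (proj M u l c) := rfl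
      have h2 : opS M B q (opS M B q' (proj M u l c)) = opS M B q' (opS M B q (proj M u l c)) := by
        by_cases h3 : q = q'
        · rw [h3]
        · exact opS_comm M B hqp (hl q' List.mem_cons_self) h3 _
      rw [h1, map_add, map_smul, h2, ih hl' h, map_smul, smul_add, smul_comm]

/-- The projected sequence is an eigensequence for the other operators. -/
theorem opS_proj_of_eigen (u : ℕ → B) (l : List ℕ) (hl : ∀ q ∈ l, q.Prime) {r : ℕ} (hr : r.Prime)
    {e : B} {c : ℕ → B} (hc : opS M B r c = e • c) :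
    opS M B r (proj M u l c) = e • proj M u l c := by
  have h1 := LinearMap.congr_fun (opS_proj_comm (M := M) u hr l hl) c
  rw [Module.End.mul_apply, Module.End.mul_apply, hc, map_smul] at h1
  exact h1

theorem proj_mem_Adm (u : ℕ → B) (l : List ℕ) (hl : ∀ q ∈ l, q.Prime) {c : ℕ → B}
    (hc : c ∈ Adm M S B (X2 M V)) : proj M u l c ∈ Adm M S B (X2 M V) := by
  induction l with
  | nil => exact hc
  | cons q l ih =>
    have hl' : ∀ q ∈ l, q.Prime := fun q' hq' => hl q' (List.mem_cons_of_mem _ hq')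
    have h1 : proj M u (q :: l) c = proj M u l c + u q • opS M B q (proj M u l c) := rfl
    rw [h1]
    have hq : q.Prime := hl q List.mem_cons_self
    refine add_mem (ih hl') (Submodule.smul_mem _ _ ?_)
    by_cases hqS : q ∈ S
    · exact opS_mem_Adm' hq hqS (ih hl')
    · exact opS_mem_Adm (fun Q f hf => actF_mem_X2 Q f hf) hq hqS (ih hl')

/-- The values of the projected sequence: a sum over sublists. -/
theorem proj_apply (u : ℕ → B) (l : List ℕ) (hlM : ∀ q ∈ l, q ∣ M) (c : ℕ → B) (n : ℕ) :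
    proj M u l c n = (l.sublists.map fun d => (d.map u).prod * c (n * d.prod)).sum := by
  induction l generalizing n with
  | nil => simp [proj]
  | cons q l ih =>
    have hlM' : ∀ q ∈ l, q ∣ M := fun q' hq' => hlM q' (List.mem_cons_of_mem _ hq')
    have h1 : proj M u (q :: l) c n = proj M u l c n + u q * opS M B q (proj M u l c) n := rfl
    rw [h1, opS_of_dvd (hlM q List.mem_cons_self), ih hlM', ih hlM',
      (List.sublists_cons_perm_append q l).map _ |>.sum_eq, List.map_append, List.sum_append,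
      List.map_map]
    congr 1
    rw [← List.sum_map_mul_left]
    congr 1
    refine List.map_congr_left fun d _ => ?_
    simp only [Function.comp_apply, List.map_cons, List.prod_cons]
    rw [mul_assoc n q d.prod]
    ring

end Proj

end Fermat.Agent.H61.TA
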