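import Mathlib
import Fermat.Agent.H82Galois
import Fermat.Agent.H49HeckeBasic

set_option autoImplicit false
set_option linter.style.haveILetI false

/-!
# Points of Hecke algebras are eigenforms

For a commutative ring `A` acting faithfully on a Hecke stable subspace `V` of `S_2(Γ₀(M))` through
Hecke operators, every point `A → F` (`F` algebraically closed of characteristic zero) comes from a
normalised eigenform in `V`.
-/

namespace Fermat.Agent.H81

open Module

/-- **Points of a commutative ring of operators**: for every minimal prime `𝔭` of a commutative ring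
`A` acting faithfully on a finite dimensional `ℂ`-space by operators in a commutative algebra `B`,
there is a simultaneous eigenvector of `B` such that the kernel of the eigencharacter on `A` is `𝔭`. -/
theorem exists_eigenvector_of_minimalPrime {V : Type*} [AddCommGroup V] [Module ℂ V]
    [FiniteDimensional ℂ V] {A : Type*} [CommRing A] (B : Subalgebra ℂ (Module.End ℂ V))
    (hB : ∀ x ∈ B, ∀ y ∈ B, x * y = y * x) (i : A →+* Module.End ℂ V)
    (hi : Function.Injective i) (hiB : ∀ a, i a ∈ B) (p : Ideal A) (hp : p ∈ minimalPrimes A) :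
    ∃ (v : V) (χ : B →+* ℂ), v ≠ 0 ∧ (∀ b : B, (b : Module.End ℂ V) v = χ b • v) ∧
      ∀ a : A, a ∈ p ↔ χ ⟨i a, hiB a⟩ = 0 := by
  classical
  letI : CommRing B := { (inferInstance : Ring B) with
    mul_comm := fun x y => Subtype.ext (hB x x.2 y y.2) }
  haveI : Module.Finite ℂ B := FiniteDimensional.finiteDimensional_submodule (Subalgebra.toSubmodule B)
  haveI : IsArtinianRing B := IsArtinianRing.of_finite ℂ B
  haveI : IsNoetherianRing B := inferInstance
  haveI : Module.Finite B V := Module.Finite.of_restrictScalars_finite ℂ B V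
  let j : A →+* B := i.codRestrict B hiB
  have hj : Function.Injective j := fun a b h => hi (congrArg Subtype.val h)
  obtain ⟨q, hq, hqp⟩ := Ideal.exists_comap_eq_of_mem_minimalPrimes_of_injective hj p hp
  have hann : Module.annihilator B V = ⊥ := by
    rw [eq_bot_iff]
    intro b hb
    rw [Module.mem_annihilator] at hb
    exact Subtype.ext (LinearMap.ext fun v => hb v)
  have hqmin : q ∈ (Module.annihilator B V).minimalPrimes := by
    rw [hann]
    refine ⟨⟨hq, bot_le⟩, fun r hr hrq => ?_⟩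
    haveI := hr.1
    exact (Ideal.IsMaximal.eq_of_le (Ideal.isMaximal_of_isPrime r) hq.ne_top hrq).ge
  have hass := Module.associatedPrimes.minimalPrimes_annihilator_subset_associatedPrimes B V hqmin
  obtain ⟨hq', v, hv⟩ := isAssociatedPrime_iff.mp (AssociatedPrimes.mem_iff.mp hass)
  have hmem : ∀ b : B, b ∈ q ↔ (b : Module.End ℂ V) v = 0 := by
    intro b
    rw [hv, Submodule.mem_colon_singleton, Submodule.mem_bot]
    rfl
  have hv0 : v ≠ 0 := by
    rintro rfl
    apply hq.ne_top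
    rw [Ideal.eq_top_iff_one, hmem]
    exact map_zero _
  haveI := hq
  have hbij : Function.Bijective (algebraMap ℂ (B ⧸ q)) :=
    IsAlgClosed.algebraMap_bijective_of_isIntegral
  let e : ℂ ≃+* (B ⧸ q) := RingEquiv.ofBijective (algebraMap ℂ (B ⧸ q)) hbij
  let χ : B →+* ℂ := (e.symm : (B ⧸ q) →+* ℂ).comp (Ideal.Quotient.mk q)
  have hχ : ∀ b : B, b - algebraMap ℂ B (χ b) ∈ q := by
    intro b
    rw [← Ideal.Quotient.eq_zero_iff_mem, map_sub, sub_eq_zero]
    have h1 : e (χ b) = Ideal.Quotient.mk q b := e.apply_symm_apply _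
    rw [← h1]
    rfl
  have hχ0 : ∀ b : B, χ b = 0 ↔ b ∈ q := by
    intro b
    rw [← Ideal.Quotient.eq_zero_iff_mem]
    change e.symm _ = 0 ↔ _
    rw [map_eq_zero_iff _ e.symm.injective]
  refine ⟨v, χ, hv0, fun b => ?_, fun a => ?_⟩
  · have h1 := (hmem _).mp (hχ b)
    have h2 : ((b - algebraMap ℂ B (χ b) : B) : Module.End ℂ V) v =
        (b : Module.End ℂ V) v - χ b • v := rfl
    rw [h2, sub_eq_zero] at h1
    exact h1
  · rw [hχ0, ← hqp, Ideal.mem_comap]
    rfl

/-- Two points with the same kernel differ by an embedding of the algebraic integers. -/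
theorem exists_integralClosure_lift {A F : Type*} [CommRing A] [Field F] [IsAlgClosed F]
    (hA : ∀ a : A, IsIntegral ℤ a) (φ : A →+* F) (χ : A →+* ℂ) (hker : ∀ a, χ a = 0 → φ a = 0) :
    ∃ ι : integralClosure ℤ ℂ →+* F, ∀ a, ∃ z : integralClosure ℤ ℂ, (z : ℂ) = χ a ∧ ι z = φ a := by
  classical
  have hint : ∀ a, χ a ∈ integralClosure ℤ ℂ := fun a => (hA a).map χ.toIntAlgHom
  let χ' : A →+* integralClosure ℤ ℂ :=
    χ.codRestrict (integralClosure ℤ ℂ) hint
  have hχ' : ∀ a, ((χ' a : integralClosure ℤ ℂ) : ℂ) = χ a := fun a => rfl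
  let p : Ideal A := RingHom.ker χ'
  let χ₀ : (A ⧸ p) →+* integralClosure ℤ ℂ := RingHom.kerLift χ'
  have hχ₀ : Function.Injective χ₀ := RingHom.kerLift_injective χ'
  let φ₀ : (A ⧸ p) →+* F := Ideal.Quotient.lift p φ (fun a ha => hker a (by
    rw [← hχ', (RingHom.mem_ker).mp ha]
    rfl))
  letI : Algebra (A ⧸ p) (integralClosure ℤ ℂ) := χ₀.toAlgebra
  haveI : Algebra.IsIntegral (A ⧸ p) (integralClosure ℤ ℂ) := by
    constructor
    intro z
    have hz : IsIntegral ℤ z := by
      have := z.2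
      exact (integralClosure.isIntegral z)
    exact hz.tower_top
  obtain ⟨ι, hι⟩ := Fermat.Agent.H82.exists_extension (A := A ⧸ p) (B := integralClosure ℤ ℂ) hχ₀ φ₀
  refine ⟨ι, fun a => ⟨χ' a, hχ' a, ?_⟩⟩
  have := hι (Ideal.Quotient.mk p a)
  exact this

local notation "Γ₀(" N ")" => CongruenceSubgroup.Gamma0 N

open CuspForm Fermat.Agent.H49

/-- **Points of Hecke algebras are eigenforms**: let `V` be a Hecke stable subspace of `S_2(Γ₀(M))`
and `A` a commutative ring, integral over `ℤ`, acting faithfully on `V` by Hecke operators. Every ring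
homomorphism `φ : A → F` to an algebraically closed field comes from a normalised eigenform
in `V`. -/
theorem exists_eigenform_of_point {M : ℕ} [NeZero M] (V : Submodule ℂ (CuspForm Γ₀(M) 2))
    (hV : ∀ t ∈ heckeAlgebra M 2 ∅, ∀ f ∈ V, t f ∈ V) {A : Type*} [CommRing A]
    (hA : ∀ a : A, IsIntegral ℤ a) (i : A →+* Module.End ℂ V) (hi : Function.Injective i)
    (hiB : ∀ a, ∃ t ∈ heckeAlgebra M 2 ∅, ∀ g : V, ((i a g : V) : CuspForm Γ₀(M) 2) = t g)
    {F : Type*} [Field F] [IsAlgClosed F] (φ : A →+* F) :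
    ∃ f ∈ V, f.IsNormalizedEigenform ∧ ∃ ι : integralClosure ℤ ℂ →+* F,
      ∀ (a : A) (t : Module.End ℂ (CuspForm Γ₀(M) 2)),
        (∀ g : V, ((i a g : V) : CuspForm Γ₀(M) 2) = t g) →
        ∃ z : integralClosure ℤ ℂ, t f = (z : ℂ) • f ∧ ι z = φ a := by
  classical
  haveI : FiniteDimensional ℂ (CuspForm Γ₀(M) 2) := finiteDimensional_cuspForm M 2
  -- restriction of the Hecke algebra to `V`
  let r : heckeAlgebra M 2 ∅ →+* Module.End ℂ V :=
    { toFun := fun t => (t : Module.End ℂ (CuspForm Γ₀(M) 2)).restrict (hV t t.2)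
      map_one' := rfl
      map_mul' := fun _ _ => rfl
      map_zero' := rfl
      map_add' := fun _ _ => rfl }
  have hr : ∀ (t : heckeAlgebra M 2 ∅) (g : V), ((r t g : V) : CuspForm Γ₀(M) 2) =
      (t : Module.End ℂ (CuspForm Γ₀(M) 2)) g := fun _ _ => rfl
  let B : Subalgebra ℂ (Module.End ℂ V) := Algebra.adjoin ℂ (Set.range r)
  have hcomm : IsMulCommutative B := Algebra.isMulCommutative_adjoin ℂ (by
    rintro _ ⟨s, rfl⟩ _ ⟨t, rfl⟩
    change r s * r t = r t * r s
    rw [← map_mul, ← map_mul, mul_comm])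
  have hB : ∀ x ∈ B, ∀ y ∈ B, x * y = y * x := fun x hx y hy =>
    congrArg Subtype.val (hcomm.is_comm.comm (⟨x, hx⟩ : B) ⟨y, hy⟩)
  have hiB' : ∀ a, i a ∈ B := by
    intro a
    obtain ⟨t, ht, h⟩ := hiB a
    have : i a = r ⟨t, ht⟩ := LinearMap.ext fun g => Subtype.ext (h g)
    rw [this]
    exact Algebra.subset_adjoin ⟨_, rfl⟩
  haveI : (RingHom.ker φ).IsPrime := RingHom.ker_isPrime φ
  obtain ⟨p, hp, hpφ⟩ := Ideal.exists_minimalPrimes_le (I := (⊥ : Ideal A)) (J := RingHom.ker φ) bot_le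
  obtain ⟨v, χ, hv0, hv, hχ⟩ := exists_eigenvector_of_minimalPrime B hB i hi hiB' p hp
  -- the eigencharacter on `A`
  let χA : A →+* ℂ := χ.comp (i.codRestrict B hiB')
  obtain ⟨ι, hι⟩ := exists_integralClosure_lift hA φ χA (fun a ha => by
    have h1 : a ∈ p := (hχ a).mpr ha
    exact hpφ h1)
  -- the eigenform
  have hveig : ∀ t ∈ heckeGenerators M 2 ∅, ∃ c : ℂ, t (v : CuspForm Γ₀(M) 2) = c • (v : CuspForm Γ₀(M) 2) := by
    intro t ht
    have htm : t ∈ heckeAlgebra M 2 ∅ := Algebra.subset_adjoin ht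
    have h1 := hv ⟨r ⟨t, htm⟩, Algebra.subset_adjoin ⟨_, rfl⟩⟩
    exact ⟨_, congrArg Subtype.val h1⟩
  obtain ⟨c, hc⟩ := IsHeckeEigenvector.of_generators hveig
  have hv0' : (v : CuspForm Γ₀(M) 2) ≠ 0 := fun h => hv0 (Subtype.ext h)
  obtain ⟨f, -, hf, -, hfv⟩ := hc.exists_normalized hv0'
  refine ⟨f, hfv ▸ V.smul_mem _ v.2, hf, ι, fun a t ht => ?_⟩
  obtain ⟨z, hz, hz'⟩ := hι a
  refine ⟨z, ?_, hz'⟩
  have h1 : (i a) v = χA a • v := hv ⟨i a, hiB' a⟩
  have h2 : t (v : CuspForm Γ₀(M) 2) = (z : ℂ) • (v : CuspForm Γ₀(M) 2) := by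
    rw [← ht v, h1, hz]
    rfl
  rw [hfv, map_smul, h2, smul_comm]

end Fermat.Agent.H81
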