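/-
H61TC: the points of `TT M S V` are normalised eigenforms in `X2 M V`.
-/
import Mathlib
import Fermat.Agent.H61TB
import Fermat.Agent.H81Pt

set_option autoImplicit false
set_option linter.style.haveILetI false
set_option linter.unusedSectionVars false

noncomputable section

namespace Fermat.Agent.H61.TA

open CuspForm ModularFormClass CongruenceSubgroup

variable {M : ℕ} [NeZero M] {V S : Set ℕ}

/-- The faithful action of `TT` on `X2`. -/
def actTT (M : ℕ) [NeZero M] (S V : Set ℕ) : TT M S V →+* Module.End ℂ (X2 M V) :=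
  Ideal.Quotient.lift _
    { toFun := fun s => (s : Module.End ℂ (CuspForm (Gamma0 M) 2)).restrict
        (fun f hf => heckeAlgebra_mem_X2 s f hf)
      map_one' := rfl
      map_mul' := fun _ _ => rfl
      map_zero' := rfl
      map_add' := fun _ _ => rfl }
    (fun _ ht => LinearMap.ext fun f => Subtype.ext (ht f f.2))

theorem coe_actTT (t : heckeAlgebra M 2 S) (f : X2 M V) :
    ((actTT M S V (toTT M S V t) f : X2 M V) : CuspForm (Gamma0 M) 2) =
      (t : Module.End ℂ (CuspForm (Gamma0 M) 2)) f := rfl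

theorem actTT_injective : Function.Injective (actTT M S V) := by
  intro x y hxy
  obtain ⟨s, rfl⟩ := toTT_surjective x
  obtain ⟨t, rfl⟩ := toTT_surjective y
  refine Ideal.Quotient.eq.mpr fun f hf => ?_
  have h1 := coe_actTT (S := S) s ⟨f, hf⟩
  rw [hxy, coe_actTT] at h1
  have h2 : ((s - t : heckeAlgebra M 2 S) : Module.End ℂ (CuspForm (Gamma0 M) 2)) f
      = (s : Module.End ℂ (CuspForm (Gamma0 M) 2)) f
        - (t : Module.End ℂ (CuspForm (Gamma0 M) 2)) f := rfl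
  rw [h2, ← h1, sub_self]

theorem sq_eq_one_of_mem_X2 {f : CuspForm (Gamma0 M) 2} (hf : f ∈ X2 M V)
    (hn : f.IsNormalizedEigenform) {v : ℕ} (hv : v.Prime) (hvV : v ∈ V) (hvM : v ∣ M) :
    qCoeff f v = 1 ∨ qCoeff f v = -1 := by
  have h1 := (mem_X2_iff_qCoeff.mp hf) v hv hvV hvM 1
  have h2 := hn.qCoeff_prime_pow_of_dvd v 0 hv hvM
  rw [zero_add, zero_add, pow_one, pow_two] at h2
  rw [one_mul, hn.qCoeff_one, h2] at h1
  exact mul_self_eq_one_iff.mp h1

/-- **Points are eigenforms.** -/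
theorem exists_eigenform_of_point {F : Type*} [Field F] [IsAlgClosed F] (φ : TT M S V →+* F) :
    ∃ f ∈ X2 M V, f.IsNormalizedEigenform ∧
      (∀ v : ℕ, v.Prime → v ∈ V → v ∣ M → (qCoeff f v = 1 ∨ qCoeff f v = -1)) ∧
      ∃ ι : integralClosure ℤ ℂ →+* F,
        (∀ (ℓ : ℕ) (hℓ : ℓ.Prime) (hℓM : ¬ ℓ ∣ M) (hℓS : ℓ ∉ S),
          ∃ a : integralClosure ℤ ℂ, (a : ℂ) = qCoeff f ℓ ∧
            ι a = φ (toTT M S V (heckeAlgebra.T hℓ hℓM hℓS))) ∧
        (∀ (q : ℕ) (hq : q.Prime) (hqM : q ∣ M) (hqS : q ∉ S),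
          ∃ a : integralClosure ℤ ℂ, (a : ℂ) = qCoeff f q ∧
            ι a = φ (toTT M S V (heckeAlgebra.U hq hqM hqS))) := by
  obtain ⟨f, hf, hn, ι, hι⟩ := H81.exists_eigenform_of_point (X2 M V)
    (fun t ht f hf => heckeAlgebra_mem_X2 (S := ∅) ⟨t, ht⟩ f hf)
    (fun a : TT M S V => Algebra.IsIntegral.isIntegral a) (actTT M S V) actTT_injective
    (by
      intro a
      obtain ⟨t, rfl⟩ := toTT_surjective a
      exact ⟨t, heckeAlgebra_mono (Set.empty_subset _) t.2, fun g => coe_actTT t g⟩) φ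
  refine ⟨f, hf, hn, fun v hv hvV hvM => sq_eq_one_of_mem_X2 hf hn hv hvV hvM, ι, ?_, ?_⟩
  · intro ℓ hℓ hℓM hℓS
    obtain ⟨z, hz, hz'⟩ := hι (toTT M S V (heckeAlgebra.T hℓ hℓM hℓS)) (heckeTLin 2 hℓ hℓM)
      (fun g => coe_actTT _ g)
    refine ⟨z, ?_, hz'⟩
    have h1 : qCoeff ⇑(heckeTLin 2 hℓ hℓM f) 1 = qCoeff ⇑((z : ℂ) • f) 1 := by rw [hz]
    rw [H49.qCoeff_heckeTLin, H49.qCoeff_smul, hn.qCoeff_one, one_mul, mul_one,
      if_neg (fun h => hℓ.one_lt.ne' (Nat.dvd_one.mp h)), add_zero] at h1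
    exact h1.symm
  · intro q hq hqM hqS
    obtain ⟨z, hz, hz'⟩ := hι (toTT M S V (heckeAlgebra.U hq hqM hqS)) (heckeULin 2 hqM)
      (fun g => coe_actTT _ g)
    refine ⟨z, ?_, hz'⟩
    have h1 : qCoeff ⇑(heckeULin 2 hqM f) 1 = qCoeff ⇑((z : ℂ) • f) 1 := by rw [hz]
    rw [H49.qCoeff_heckeULin hq.ne_zero, H49.qCoeff_smul, hn.qCoeff_one, one_mul, mul_one] at h1
    exact h1.symm

end Fermat.Agent.H61.TA
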