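/-
H61TD: the Hecke algebra `TT M S V` is reduced, and so are its base changes.
-/
import Mathlib
import Fermat.Agent.H61TC
import Fermat.Agent.H70PetSpace
import Fermat.Agent.H33Points

set_option autoImplicit false
set_option linter.style.haveILetI false
set_option linter.unusedSectionVars false

noncomputable section

namespace Fermat.Agent.H61.TA

open CuspForm ModularFormClass CongruenceSubgroup

variable {M : ℕ} [NeZero M] {V S : Set ℕ}

/-- The restriction of Hecke operators to `X2`. -/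
def resX2 (M : ℕ) [NeZero M] (S V : Set ℕ) : heckeAlgebra M 2 S →+* Module.End ℂ (X2 M V) :=
  (actTT M S V).comp (toTT M S V)

theorem coe_resX2 (t : heckeAlgebra M 2 S) (f : X2 M V) :
    ((resX2 M S V t f : X2 M V) : CuspForm (Gamma0 M) 2) =
      (t : Module.End ℂ (CuspForm (Gamma0 M) 2)) f := rfl

theorem resX2_comm (s t : heckeAlgebra M 2 S) : Commute (resX2 M S V s) (resX2 M S V t) := by
  have h1 : resX2 M S V s * resX2 M S V t = resX2 M S V t * resX2 M S V s := by
    rw [← RingHom.map_mul, ← RingHom.map_mul, mul_comm]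
  exact h1

theorem isSemisimple_restrict {K W : Type*} [Field K] [AddCommGroup W] [Module K W]
    {f : Module.End K W} (hf : f.IsSemisimple) (p : Submodule K W) (h : ∀ x ∈ p, f x ∈ p) :
    Module.End.IsSemisimple (f.restrict h) := hf.restrict (p := p) h

theorem isSemisimple_heckeTLin {ℓ : ℕ} (hℓ : ℓ.Prime) (hℓM : ¬ ℓ ∣ M) :
    Module.End.IsSemisimple (heckeTLin (N := M) 2 hℓ hℓM) := by
  have h0 : heckeTLin (N := M) 2 hℓ hℓM ∈ heckeAlgebra M 2 {q | q ∣ M} :=
    heckeTLin_mem_heckeAlgebra hℓ hℓM hℓM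
  exact H70.isSemisimple_of_mem_heckeAlgebra (fun q _ h => h) h0

theorem isSemisimple_resX2_T {ℓ : ℕ} (hℓ : ℓ.Prime) (hℓM : ¬ ℓ ∣ M) (hℓS : ℓ ∉ S) :
    (resX2 M S V (heckeAlgebra.T hℓ hℓM hℓS)).IsSemisimple := by
  have h2 : ∀ f ∈ X2 M V, heckeTLin 2 hℓ hℓM f ∈ X2 M V :=
    fun f hf => heckeAlgebra_mem_X2 (heckeAlgebra.T hℓ hℓM hℓS) f hf
  have h3 : resX2 M S V (heckeAlgebra.T hℓ hℓM hℓS) = (heckeTLin 2 hℓ hℓM).restrict h2 :=
    LinearMap.ext fun f => Subtype.ext rfl
  rw [h3]
  exact isSemisimple_restrict (isSemisimple_heckeTLin hℓ hℓM) _ h2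

theorem isSemisimple_resX2_U {q : ℕ} (hq : q.Prime) (hqM : q ∣ M) (hqS : q ∉ S) (hqV : q ∈ V) :
    (resX2 M S V (heckeAlgebra.U hq hqM hqS)).IsSemisimple := by
  refine Module.End.isSemisimple_of_squarefree_aeval_eq_zero
    (p := (Polynomial.X ^ 2 - Polynomial.C 1 : Polynomial ℂ)) ?_ ?_
  · exact (Polynomial.separable_X_pow_sub_C (1 : ℂ) (by norm_num) one_ne_zero).squarefree
  · rw [map_sub, map_pow, Polynomial.aeval_X, Polynomial.aeval_C, map_one, sub_eq_zero]
    refine LinearMap.ext fun f => Subtype.ext ?_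
    have h2 := f.2 q hq hqV hqM
    rw [pow_two, Module.End.mul_apply, coe_resX2, coe_resX2]
    exact h2

/-- Every Hecke operator acts semisimply on `X2`. -/
theorem isSemisimple_resX2 (hSV : ∀ q : ℕ, q.Prime → q ∣ M → q ∉ S → q ∈ V)
    (t : heckeAlgebra M 2 S) : (resX2 M S V t).IsSemisimple := by
  haveI : FiniteDimensional ℂ (CuspForm (Gamma0 M) 2) := H49.finiteDimensional_cuspForm M 2
  obtain ⟨t, ht⟩ := t
  induction ht using Algebra.adjoin_induction with
  | mem t ht =>
    rcases ht with ⟨ℓ, hℓ, hℓM, hℓS, rfl⟩ | ⟨q, hqM, hq, hqS, rfl⟩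
    · exact isSemisimple_resX2_T hℓ hℓM hℓS
    · exact isSemisimple_resX2_U hq hqM hqS (hSV q hq hqM hqS)
  | algebraMap r =>
    have h1 : resX2 M S V ⟨algebraMap ℤ _ r, Subalgebra.algebraMap_mem _ r⟩
        = algebraMap ℂ (Module.End ℂ (X2 M V)) (r : ℂ) := by
      refine LinearMap.ext fun f => Subtype.ext ?_
      rw [coe_resX2, Module.algebraMap_end_apply]
      have h3 : (algebraMap ℤ (Module.End ℂ (CuspForm (Gamma0 M) 2)) r)
          (f : CuspForm (Gamma0 M) 2) = r • (f : CuspForm (Gamma0 M) 2) :=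
        Module.algebraMap_end_apply _ _ _ _ _
      refine h3.trans ?_
      rw [← Int.cast_smul_eq_zsmul ℂ]
      rfl
    rw [h1]
    exact (Module.End.isSemisimple_sub_algebraMap_iff (μ := (r : ℂ))
      (f := algebraMap ℂ (Module.End ℂ (X2 M V)) (r : ℂ))).mp
      (by rw [sub_self]; exact Module.End.isSemisimple_zero)
  | add x y hx hy ihx ihy =>
    have h1 : resX2 M S V ⟨x + y, add_mem hx hy⟩
        = resX2 M S V ⟨x, hx⟩ + resX2 M S V ⟨y, hy⟩ := rfl
    rw [h1]
    exact Module.End.IsSemisimple.add_of_commute (resX2_comm _ _) ihx ihy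
  | mul x y hx hy ihx ihy =>
    have h1 : resX2 M S V ⟨x * y, mul_mem hx hy⟩
        = resX2 M S V ⟨x, hx⟩ * resX2 M S V ⟨y, hy⟩ := rfl
    rw [h1]
    exact Module.End.IsSemisimple.mul_of_commute (resX2_comm _ _) ihx ihy

/-- **`TT` is reduced.** -/
theorem isReduced_TT (hSV : ∀ q : ℕ, q.Prime → q ∣ M → q ∉ S → q ∈ V) : IsReduced (TT M S V) := by
  constructor
  intro x hx
  obtain ⟨n, hn⟩ := hx
  obtain ⟨t, rfl⟩ := toTT_surjective x
  have h1 : IsNilpotent (resX2 M S V t) := by
    refine ⟨n, ?_⟩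
    rw [← RingHom.map_pow]
    have h3 : resX2 M S V (t ^ n) = actTT M S V (toTT M S V (t ^ n)) := rfl
    rw [h3, RingHom.map_pow, hn, RingHom.map_zero]
  have h2 := Module.End.eq_zero_of_isNilpotent_isSemisimple h1 (isSemisimple_resX2 hSV t)
  apply actTT_injective
  have h3 : actTT M S V (toTT M S V t) = resX2 M S V t := rfl
  rw [h3, h2, RingHom.map_zero]

/-- A finite free algebra over a domain of characteristic zero, generated by the image of a
reduced ring finite over `ℤ`, is reduced. -/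
theorem isReduced_of_adjoin_eq_top {O T R : Type} [CommRing O] [IsDomain O] [CharZero O]
    [CommRing T] [Algebra O T] [Module.Finite O T] [Module.Free O T] [CommRing R] [IsReduced R]
    [Module.Finite ℤ R] (π : R →+* T) (hπ : Algebra.adjoin O (Set.range π) = ⊤) :
    IsReduced T := by
  constructor
  intro t ht
  haveI : FaithfulSMul O (AlgebraicClosure (FractionRing O)) := by
    rw [faithfulSMul_iff_algebraMap_injective, IsScalarTower.algebraMap_eq O (FractionRing O)]
    exact (algebraMap (FractionRing O) (AlgebraicClosure (FractionRing O))).injective.comp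
      (IsFractionRing.injective O (FractionRing O))
  refine H33.points_jointly_injective (K := AlgebraicClosure (FractionRing O)) π hπ t fun ψ => ?_
  exact (ht.map ψ).eq_zero

end Fermat.Agent.H61.TA
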