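import Mathlib

/-!
# Lucas sequences attached to `Y² + eY - f`
-/

set_option autoImplicit false

namespace Fermat.Agent.H62

open Polynomial

section

variable {R : Type*} [CommRing R]

/-- `(α^n - β^n)/(α - β)` for the roots `α, β` of `Y² + eY - f`. -/
def luU (e f : R) : ℕ → R
  | 0 => 0
  | 1 => 1
  | (n + 2) => -e * luU e f (n + 1) + f * luU e f n

/-- `α^n + β^n` for the roots `α, β` of `Y² + eY - f`. -/
def luV (e f : R) : ℕ → R
  | 0 => 2
  | 1 => -e
  | (n + 2) => -e * luV e f (n + 1) + f * luV e f n

variable (e f : R)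

lemma luU_zero : luU e f 0 = 0 := by rw [luU]
lemma luU_one : luU e f 1 = 1 := by rw [luU]
lemma luU_add_two (n : ℕ) : luU e f (n + 2) = -e * luU e f (n + 1) + f * luU e f n := by rw [luU]
lemma luV_zero : luV e f 0 = 2 := by rw [luV]
lemma luV_one : luV e f 1 = -e := by rw [luV]
lemma luV_add_two (n : ℕ) : luV e f (n + 2) = -e * luV e f (n + 1) + f * luV e f n := by rw [luV]

/-- two step induction -/
lemma two_step {P : ℕ → Prop} (h0 : P 0) (h1 : P 1) (h2 : ∀ n, P n → P (n + 1) → P (n + 2)) :
    ∀ n, P n := by
  intro n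
  have : P n ∧ P (n + 1) := by
    induction n with
    | zero => exact ⟨h0, h1⟩
    | succ n ih => exact ⟨ih.2, h2 n ih.1 ih.2⟩
  exact this.1

lemma map_luU {S : Type*} [CommRing S] (φ : R →+* S) (n : ℕ) :
    φ (luU e f n) = luU (φ e) (φ f) n := by
  induction n using two_step with
  | h0 => rw [luU_zero, luU_zero, map_zero]
  | h1 => rw [luU_one, luU_one, map_one]
  | h2 n ih ih' => rw [luU_add_two, luU_add_two, map_add, map_mul, map_mul, map_neg, ih, ih']

lemma map_luV {S : Type*} [CommRing S] (φ : R →+* S) (n : ℕ) :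
    φ (luV e f n) = luV (φ e) (φ f) n := by
  induction n using two_step with
  | h0 => rw [luV_zero, luV_zero, map_ofNat]
  | h1 => rw [luV_one, luV_one, map_neg]
  | h2 n ih ih' => rw [luV_add_two, luV_add_two, map_add, map_mul, map_mul, map_neg, ih, ih']

lemma luV_eq_luU (n : ℕ) : luV e f n = 2 * luU e f (n + 1) + e * luU e f n := by
  induction n using two_step with
  | h0 => rw [luV_zero, luU_one, luU_zero]; ring
  | h1 => rw [luV_one, luU_add_two, luU_one, luU_zero]; ring
  | h2 n ih ih' =>
    rw [luV_add_two, ih, ih']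
    rw [luU_add_two e f (n + 1), luU_add_two e f n]
    ring

variable {e f}

lemma luV_eq_pow {α β : R} (h1 : α + β = -e) (h2 : α * β = -f) (n : ℕ) :
    luV e f n = α ^ n + β ^ n := by
  induction n using two_step with
  | h0 => rw [luV_zero]; ring
  | h1 => rw [luV_one, ← h1]; ring
  | h2 n ih ih' =>
    rw [luV_add_two, ih, ih', ← h1, show f = -(α * β) by rw [h2, neg_neg]]; ring

lemma luU_eq_pow {α β : R} (h1 : α + β = -e) (h2 : α * β = -f) (n : ℕ) :
    (α - β) * luU e f n = α ^ n - β ^ n := by
  induction n using two_step with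
  | h0 => rw [luU_zero]; ring
  | h1 => rw [luU_one]; ring
  | h2 n ih ih' =>
    rw [luU_add_two, mul_add, mul_left_comm, mul_left_comm _ f, ih, ih', ← h1,
      show f = -(α * β) by rw [h2, neg_neg]]; ring

lemma luU_double {α : R} (h1 : α + α = -e) (h2 : α * α = -f) (n : ℕ) :
    luU e f (n + 1) = (n + 1) * α ^ n := by
  induction n using two_step with
  | h0 => rw [luU_one]; simp
  | h1 => rw [luU_add_two, luU_one, luU_zero, ← h1]; push_cast; ring
  | h2 n ih ih' =>
    rw [luU_add_two, ih, ih', ← h1, show f = -(α * α) by rw [h2, neg_neg]]; push_cast; ring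

end

lemma derivative_luV {R : Type*} [CommRing R] (e f : R[X]) (n : ℕ) :
    derivative (luV e f (n + 1)) =
      (n + 1) * (luU e f n * derivative f - luU e f (n + 1) * derivative e) := by
  induction n using two_step with
  | h0 => rw [luV_one, luU_zero, luU_one, derivative_neg]; push_cast; ring
  | h1 =>
    rw [luV_add_two, luV_one, luV_zero, luU_add_two, luU_one, luU_zero]
    simp only [derivative_add, derivative_mul, derivative_neg]
    rw [show derivative (2 : R[X]) = 0 from derivative_ofNat 2]
    push_cast; ring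
  | h2 n ih ih' =>
    rw [luV_add_two, derivative_add, derivative_mul, derivative_mul, ih, ih', derivative_neg]
    rw [luV_eq_luU e f (n + 1), luV_eq_luU e f (n + 2)]
    rw [luU_add_two e f (n + 1), luU_add_two e f n]
    push_cast
    ring

lemma natDegree_luV {R : Type*} [CommRing R] {e f : R[X]} (he : e.natDegree ≤ 1)
    (hf : f.natDegree ≤ 3) (n : ℕ) : 2 * (luV e f n).natDegree ≤ 3 * n := by
  induction n using two_step with
  | h0 => rw [luV_zero]; simp
  | h1 => rw [luV_one, natDegree_neg]; omega
  | h2 n ih ih' =>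
    rw [luV_add_two]
    have h1 := natDegree_add_le (-e * luV e f (n + 1)) (f * luV e f n)
    have h2 := natDegree_mul_le (p := -e) (q := luV e f (n + 1))
    have h3 := natDegree_mul_le (p := f) (q := luV e f n)
    rw [natDegree_neg] at h2
    rcases le_max_iff.mp h1 with h | h <;> omega

end Fermat.Agent.H62
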