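import Fermat.Agent.H62Prim
import Fermat.Agent.H62Lucas

/-!
# The degree of `φ - 1` is the number of rational points
-/

set_option autoImplicit false

namespace Fermat.Agent.H62

open Polynomial

section finite

variable {K : Type*} [Field K] [Fintype K]

variable (K) in
lemma prod_X_sub_C_univ : ∏ c : K, (X - C c) = (X ^ Fintype.card K - X : K[X]) := by
  have h1 : (X ^ Fintype.card K - X : K[X]).Monic :=
    monic_X_pow_sub (by
      rw [degree_X]; exact_mod_cast Fintype.one_lt_card)
  have h2 := prod_multiset_X_sub_C_of_monic_of_roots_card_eq h1 (by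
    rw [FiniteField.roots_X_pow_card_sub_X,
      FiniteField.X_pow_card_sub_X_natDegree_eq K Fintype.one_lt_card]
    rfl)
  rw [FiniteField.roots_X_pow_card_sub_X] at h2
  exact h2

lemma mem_of_pow_card_eq {L : Type*} [Field L] [Algebra K L] {α : L}
    (h : α ^ Fintype.card K = α) : ∃ c : K, algebraMap K L c = α := by
  have h1 := congrArg (aeval α) (prod_X_sub_C_univ K)
  rw [map_prod, map_sub, map_pow, aeval_X, h, sub_self, Finset.prod_eq_zero_iff] at h1
  obtain ⟨c, -, hc⟩ := h1
  rw [map_sub, aeval_X, aeval_C, sub_eq_zero] at hc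
  exact ⟨c, hc.symm⟩

/-- local analysis: no root -/
lemma loc_none (e f : K) (h : ∀ y : K, y ^ 2 + e * y ≠ f) :
    luV e f (Fintype.card K + 1) = -2 * f ∧ luU e f (Fintype.card K) = -1 ∧
      luU e f (Fintype.card K + 1) = 0 := by
  let L := AlgebraicClosure K
  let i := algebraMap K L
  have hi : Function.Injective i := (algebraMap K L).injective
  obtain ⟨α, hα⟩ : ∃ α : L, α ^ 2 + i e * α = i f := by
    have hdeg : (X ^ 2 + C (i e) * X + C (-i f) : L[X]).degree ≠ 0 := by
      rw [← one_mul (X ^ 2), ← C_1 , degree_quadratic one_ne_zero]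
      decide
    obtain ⟨α, hα⟩ := IsAlgClosed.exists_root _ hdeg
    refine ⟨α, ?_⟩
    simp only [IsRoot.def, eval_add, eval_pow, eval_X, eval_mul, eval_C] at hα
    linear_combination hα
  let fr := FiniteField.frobeniusAlgHom K L
  have hfr : ∀ x : L, fr x = x ^ Fintype.card K := fun x => rfl
  have hα' : (fr α) ^ 2 + i e * fr α = i f := by
    have := congrArg fr hα
    rw [map_add, map_pow, map_mul] at this
    rwa [show fr (i e) = i e from fr.commutes e, show fr (i f) = i f from fr.commutes f] at this
  have hne : fr α ≠ α := by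
    intro h0
    obtain ⟨c, hc⟩ := mem_of_pow_card_eq (K := K) h0
    refine h c (hi ?_)
    rw [map_add, map_pow, map_mul]
    change i c = α at hc
    rw [hc, hα]
  obtain ⟨β, hβ⟩ : ∃ β, β = -i e - α := ⟨_, rfl⟩
  have hαβ : fr α = β := by
    have : (fr α - α) * (fr α - β) = 0 := by
      rw [hβ]; linear_combination hα' - hα
    rcases mul_eq_zero.mp this with h | h
    · exact absurd (sub_eq_zero.mp h) hne
    · exact sub_eq_zero.mp h
  have hβα : fr β = α := by
    rw [hβ, map_sub, map_neg, show fr (i e) = i e from fr.commutes e, hαβ, hβ]; ring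
  have h1 : α + β = -i e := by rw [hβ]; ring
  have h2 : α * β = -i f := by rw [hβ]; linear_combination -hα
  have hsub : α - β ≠ 0 := by
    intro h0
    rw [← hαβ] at h0
    exact hne (sub_eq_zero.mp h0).symm
  have hV := luV_eq_pow h1 h2 (Fintype.card K + 1)
  have hU := luU_eq_pow h1 h2 (Fintype.card K)
  have hU' := luU_eq_pow h1 h2 (Fintype.card K + 1)
  rw [pow_succ, pow_succ, ← hfr, ← hfr, hαβ, hβα] at hV hU'
  rw [← hfr, ← hfr, hαβ, hβα] at hU
  refine ⟨hi ?_, hi ?_, hi ?_⟩
  · rw [map_luV, hV, map_mul, map_neg, map_ofNat]; linear_combination 2 * h2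
  · rw [map_luU, map_neg, map_one]
    apply mul_left_cancel₀ hsub
    rw [hU]; ring
  · rw [map_luU, map_zero]
    apply mul_left_cancel₀ hsub
    rw [hU']; ring

/-- local analysis: double root -/
lemma loc_one {e f α : K} (hα : α ^ 2 + e * α = f) (h : α + α = -e) :
    luV e f (Fintype.card K + 1) = -2 * f ∧ luU e f (Fintype.card K) = 0 ∧
      luU e f (Fintype.card K + 1) = α := by
  have h1 : α * α = -f := by rw [← hα]; linear_combination α * h
  have hV := luV_eq_pow h h1 (Fintype.card K + 1)
  have hU := luU_double h h1 (Fintype.card K)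
  rw [pow_succ, FiniteField.pow_card] at hV
  rw [FiniteField.pow_card, Nat.cast_card_eq_zero, zero_add, one_mul] at hU
  refine ⟨by rw [hV]; linear_combination 2 * h1, ?_, hU⟩
  obtain ⟨m, hm⟩ : ∃ m, Fintype.card K = m + 1 := ⟨Fintype.card K - 1, by
    have : 0 < Fintype.card K := Fintype.card_pos
    omega⟩
  have h2 := luU_double h h1 m
  rw [← hm] at h2
  have h3 : ((m : K) + 1) = 0 := by
    rw [← Nat.cast_succ, Nat.succ_eq_add_one, ← hm, Nat.cast_card_eq_zero]
  rw [h2, h3, zero_mul]

/-- local analysis: two roots -/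
lemma loc_two {e f α : K} (hα : α ^ 2 + e * α = f) (h : α + α ≠ -e) :
    2 * f + luV e f (Fintype.card K + 1) ≠ 0 := by
  obtain ⟨β, hβ⟩ : ∃ β, β = -e - α := ⟨_, rfl⟩
  have h1 : α + β = -e := by rw [hβ]; ring
  have h2 : α * β = -f := by rw [hβ, ← hα]; ring
  have hV := luV_eq_pow h1 h2 (Fintype.card K + 1)
  rw [pow_succ, pow_succ, FiniteField.pow_card, FiniteField.pow_card] at hV
  have h3 : 2 * f + luV e f (Fintype.card K + 1) = (α - β) ^ 2 := by
    rw [hV]; linear_combination 2 * h2
  rw [h3]
  apply pow_ne_zero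
  intro h4
  apply h
  rw [← h1, ← sub_eq_zero.mp h4]

/-- `a₁ X + a₃` -/
noncomputable def eP (W : WeierstrassCurve K) : K[X] := C W.a₁ * X + C W.a₃

/-- the cubic -/
noncomputable def fP (W : WeierstrassCurve K) : K[X] :=
  X ^ 3 + C W.a₂ * X ^ 2 + C W.a₄ * X + C W.a₆

/-- the polynomial `(y^q + y + e)(y^q + y + e^q)`. -/
noncomputable def SP (W : WeierstrassCurve K) : K[X] :=
  fP W + fP W ^ Fintype.card K + luV (eP W) (fP W) (Fintype.card K + 1)

variable (K) in
/-- `X^q - X` -/
noncomputable def DP : K[X] := X ^ Fintype.card K - X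

/-- numerator of `x(φQ₀ - Q₀)`. -/
noncomputable def NumP (W : WeierstrassCurve K) : K[X] :=
  SP W - (C W.a₂ + X ^ Fintype.card K + X) * DP K ^ 2

lemma fP_pow (W : WeierstrassCurve K) : fP W ^ Fintype.card K =
    (X ^ Fintype.card K) ^ 3 + C W.a₂ * (X ^ Fintype.card K) ^ 2 + C W.a₄ * X ^ Fintype.card K
      + C W.a₆ := by
  rw [← FiniteField.expand_card, fP]
  simp only [map_add, map_mul, map_pow, expand_X, expand_C]

lemma eP_pow (W : WeierstrassCurve K) : eP W ^ Fintype.card K =
    C W.a₁ * X ^ Fintype.card K + C W.a₃ := by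
  rw [← FiniteField.expand_card, eP]
  simp only [map_add, map_mul, expand_X, expand_C]

lemma natDegree_NumP (W : WeierstrassCurve K) :
    (NumP W).natDegree = 2 * Fintype.card K + 1 := by
  obtain ⟨q, hq⟩ : ∃ q, q = Fintype.card K := ⟨_, rfl⟩
  have hq2 : 2 ≤ q := hq ▸ Fintype.one_lt_card
  have h1 : NumP W = X ^ (2 * q + 1) + (luV (eP W) (fP W) (q + 1) +
      (X ^ (q + 2) + C (2 * W.a₂) * X ^ (q + 1) + C W.a₄ * X ^ q + C W.a₄ * X
        + C (2 * W.a₆))) := by
    rw [NumP, SP, fP_pow, DP, fP, ← hq]
    simp only [map_mul, map_ofNat]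
    ring
  have h2 : (luV (eP W) (fP W) (q + 1) +
      (X ^ (q + 2) + C (2 * W.a₂) * X ^ (q + 1) + C W.a₄ * X ^ q + C W.a₄ * X
        + C (2 * W.a₆))).natDegree ≤ 2 * q := by
    refine natDegree_add_le_of_degree_le ?_ ?_
    · have := natDegree_luV (e := eP W) (f := fP W) (by rw [eP]; compute_degree)
        (by rw [fP]; compute_degree) (q + 1)
      omega
    · refine natDegree_add_le_of_degree_le (natDegree_add_le_of_degree_le
        (natDegree_add_le_of_degree_le (natDegree_add_le_of_degree_le ?_ ?_) ?_) ?_) ?_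
      · rw [natDegree_X_pow]; omega
      · refine (natDegree_C_mul_le _ _).trans ?_
        rw [natDegree_X_pow]; omega
      · refine (natDegree_C_mul_le _ _).trans ?_
        rw [natDegree_X_pow]; omega
      · refine (natDegree_C_mul_le _ _).trans ?_
        rw [natDegree_X]; omega
      · rw [natDegree_C]; omega
  rw [h1, ← hq, natDegree_add_eq_left_of_natDegree_lt]
  · rw [natDegree_X_pow]
  · rw [natDegree_X_pow]; omega

open Classical in
/-- number of points above `c`. -/
noncomputable def nAbove (W : WeierstrassCurve K) (c : K) : ℕ :=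
  (Finset.univ.filter fun y : K => y ^ 2 + (W.a₁ * c + W.a₃) * y =
    c ^ 3 + W.a₂ * c ^ 2 + W.a₄ * c + W.a₆).card

omit [Fintype K] in
lemma eval_eP (W : WeierstrassCurve K) (c : K) : (eP W).eval c = W.a₁ * c + W.a₃ := by
  simp [eP]

omit [Fintype K] in
lemma eval_fP (W : WeierstrassCurve K) (c : K) :
    (fP W).eval c = c ^ 3 + W.a₂ * c ^ 2 + W.a₄ * c + W.a₆ := by
  simp [fP]

lemma eval_SP (W : WeierstrassCurve K) (c : K) : (SP W).eval c =
    2 * (fP W).eval c + luV ((eP W).eval c) ((fP W).eval c) (Fintype.card K + 1) := by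
  have := map_luV (eP W) (fP W) (evalRingHom c) (Fintype.card K + 1)
  simp only [coe_evalRingHom] at this
  rw [SP, eval_add, eval_add, eval_pow, FiniteField.pow_card, this]
  ring

lemma eval_DP (c : K) : (DP K).eval c = 0 := by
  rw [DP, eval_sub, eval_pow, eval_X, FiniteField.pow_card, sub_self]

lemma eval_NumP (W : WeierstrassCurve K) (c : K) : (NumP W).eval c = (SP W).eval c := by
  rw [NumP, eval_sub, eval_mul, eval_pow, eval_DP]; ring

lemma eval_derivative_NumP (W : WeierstrassCurve K) (c : K) :
    (derivative (NumP W)).eval c = (derivative (SP W)).eval c := by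
  rw [NumP, derivative_sub, derivative_mul, derivative_pow, eval_sub, eval_add, eval_mul, eval_mul,
    eval_mul, eval_pow, eval_DP, eval_mul, eval_pow, eval_DP]; simp

lemma eval_derivative_SP (W : WeierstrassCurve K) (c : K) :
    (derivative (SP W)).eval c = (derivative (fP W)).eval c
      + luU ((eP W).eval c) ((fP W).eval c) (Fintype.card K) * (derivative (fP W)).eval c
      - luU ((eP W).eval c) ((fP W).eval c) (Fintype.card K + 1) * W.a₁ := by
  have h1 := map_luU (eP W) (fP W) (evalRingHom c) (Fintype.card K)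
  have h2 := map_luU (eP W) (fP W) (evalRingHom c) (Fintype.card K + 1)
  simp only [coe_evalRingHom] at h1 h2
  rw [SP, derivative_add, derivative_add, derivative_luV, derivative_pow]
  simp only [eval_add, eval_mul, eval_sub, h1, h2, eval_natCast, eval_C, eval_one,
    Nat.cast_card_eq_zero]
  rw [show derivative (eP W) = C W.a₁ by simp [eP]]
  simp only [eval_C]
  ring

omit [Fintype K] in
lemma mem_filter_above (W : WeierstrassCurve K) {c y : K} :
    (y ^ 2 + (W.a₁ * c + W.a₃) * y = c ^ 3 + W.a₂ * c ^ 2 + W.a₄ * c + W.a₆) ↔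
      (y ^ 2 + (eP W).eval c * y = (fP W).eval c) := by
  rw [eval_eP, eval_fP]

omit [Fintype K] in
/-- nonsingularity at a double point -/
lemma nonsing_double (W : WeierstrassCurve K) [W.IsElliptic] {c y : K}
    (h : y ^ 2 + (eP W).eval c * y = (fP W).eval c) (h2 : y + y = -(eP W).eval c) :
    (derivative (fP W)).eval c - y * W.a₁ ≠ 0 := by
  rw [← mem_filter_above] at h
  have heq : WeierstrassCurve.Affine.Equation W c y := by
    rw [WeierstrassCurve.Affine.equation_iff]
    linear_combination h
  have hns := WeierstrassCurve.Affine.equation_iff_nonsingular.mp heq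
  rw [WeierstrassCurve.Affine.nonsingular_iff'] at hns
  rw [eval_eP] at h2
  rcases hns.2 with h3 | h3
  · intro h4
    apply h3
    have : (derivative (fP W)).eval c = 3 * c ^ 2 + 2 * W.a₂ * c + W.a₄ := by
      simp [fP]
      ring
    rw [this] at h4
    linear_combination -h4
  · exfalso
    apply h3
    linear_combination h2

lemma NumP_ne_zero (W : WeierstrassCurve K) : NumP W ≠ 0 := by
  intro h0
  have := natDegree_NumP W
  rw [h0, natDegree_zero] at this
  omega

/-- the multiplicities of the roots of the numerator -/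
lemma rootMultiplicity_NumP (W : WeierstrassCurve K) [W.IsElliptic] (c : K) :
    (nAbove W c = 0 ∧ 2 ≤ (NumP W).rootMultiplicity c) ∨
    (nAbove W c = 1 ∧ (NumP W).rootMultiplicity c = 1) ∨
    (nAbove W c = 2 ∧ (NumP W).rootMultiplicity c = 0) := by
  classical
  by_cases hex : ∃ y, y ^ 2 + (eP W).eval c * y = (fP W).eval c
  · right
    obtain ⟨α, hα⟩ := hex
    by_cases h2 : α + α = -(eP W).eval c
    · left
      constructor
      · rw [nAbove, Finset.card_eq_one]
        refine ⟨α, ?_⟩
        ext y
        rw [Finset.mem_filter, Finset.mem_singleton, mem_filter_above]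
        constructor
        · rintro ⟨-, hy⟩
          have : (y - α) ^ 2 = 0 := by linear_combination hy - hα - (y - α) * h2
          exact sub_eq_zero.mp (pow_eq_zero_iff two_ne_zero |>.mp this)
        · rintro rfl
          exact ⟨Finset.mem_univ _, hα⟩
      · obtain ⟨hV, hU, hU'⟩ := loc_one hα h2
        have h0 : (NumP W).eval c = 0 := by
          rw [eval_NumP, eval_SP, hV]; ring
        have h1 : (derivative (NumP W)).eval c ≠ 0 := by
          rw [eval_derivative_NumP, eval_derivative_SP, hU, hU', zero_mul, add_zero]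
          exact nonsing_double W hα h2
        have h3 : 0 < (NumP W).rootMultiplicity c :=
          (rootMultiplicity_pos (NumP_ne_zero W)).mpr h0
        have h4 : ¬ 1 < (NumP W).rootMultiplicity c := by
          rw [one_lt_rootMultiplicity_iff_isRoot (NumP_ne_zero W)]
          rintro ⟨-, h⟩
          exact h1 h
        omega
    · right
      constructor
      · rw [nAbove, Finset.card_eq_two]
        refine ⟨α, -(eP W).eval c - α, ?_, ?_⟩
        · intro h3; apply h2; linear_combination h3
        · ext y
          rw [Finset.mem_filter, Finset.mem_insert, Finset.mem_singleton, mem_filter_above]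
          constructor
          · rintro ⟨-, hy⟩
            have : (y - α) * (y - (-(eP W).eval c - α)) = 0 := by linear_combination hy - hα
            rcases mul_eq_zero.mp this with h | h
            · exact Or.inl (sub_eq_zero.mp h)
            · exact Or.inr (sub_eq_zero.mp h)
          · rintro (rfl | rfl)
            · exact ⟨Finset.mem_univ _, hα⟩
            · exact ⟨Finset.mem_univ _, by linear_combination hα⟩
      · have h0 : (NumP W).eval c ≠ 0 := by
          rw [eval_NumP, eval_SP]
          exact loc_two hα h2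
        exact rootMultiplicity_eq_zero h0
  · left
    push Not at hex
    obtain ⟨hV, hU, hU'⟩ := loc_none _ _ hex
    constructor
    · rw [nAbove, Finset.card_eq_zero, Finset.filter_eq_empty_iff]
      intro y _ hy
      exact hex y ((mem_filter_above W).mp hy)
    · have h0 : (NumP W).eval c = 0 := by
        rw [eval_NumP, eval_SP, hV]; ring
      have h1 : (derivative (NumP W)).eval c = 0 := by
        rw [eval_derivative_NumP, eval_derivative_SP, hU, hU']; ring
      exact (one_lt_rootMultiplicity_iff_isRoot (NumP_ne_zero W)).mpr ⟨h0, h1⟩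

variable (K) in
lemma DP_ne_zero : DP K ≠ 0 := FiniteField.X_pow_card_sub_X_ne_zero K Fintype.one_lt_card

lemma rootMultiplicity_DP (c : K) : (DP K ^ 2).rootMultiplicity c = 2 := by
  have h1 : (DP K).rootMultiplicity c = 1 := by
    have h3 : 0 < (DP K).rootMultiplicity c :=
      (rootMultiplicity_pos (DP_ne_zero K)).mpr (eval_DP c)
    have h4 : ¬ 1 < (DP K).rootMultiplicity c := by
      rw [one_lt_rootMultiplicity_iff_isRoot (DP_ne_zero K)]
      rintro ⟨-, h⟩
      rw [DP, IsRoot.def, derivative_sub, derivative_X, derivative_X_pow] at h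
      simp at h
    omega
  rw [sq, rootMultiplicity_mul (mul_ne_zero (DP_ne_zero K) (DP_ne_zero K)), h1]

variable (K) in
lemma splits_DP : (DP K).Splits := by
  rw [DP, ← prod_X_sub_C_univ]
  exact Splits.prod fun c _ => Splits.X_sub_C c

/-- number of points -/
lemma card_point (W : WeierstrassCurve K) [W.IsElliptic] :
    Nat.card W.toAffine.Point = 1 + ∑ c : K, nAbove W c := by
  classical
  rw [Nat.card_congr W.toAffine.pointEquiv]
  change Nat.card (Option _) = _
  rw [Finite.card_option, add_comm]
  congr 1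
  have e : {xy : K × K // W.toAffine.Equation xy.1 xy.2} ≃
      Σ c : K, {y : K // W.toAffine.Equation c y} :=
    Equiv.subtypeProdEquivSigmaSubtype fun c y => W.toAffine.Equation c y
  rw [Nat.card_congr e, Nat.card_sigma]
  refine Finset.sum_congr rfl fun c _ => ?_
  rw [nAbove, Nat.card_eq_fintype_card, Fintype.card_subtype]
  congr 1
  ext y
  rw [Finset.mem_filter, Finset.mem_filter, WeierstrassCurve.Affine.equation_iff]
  constructor
  · rintro ⟨h1, h2⟩; exact ⟨h1, by linear_combination h2⟩
  · rintro ⟨h1, h2⟩; exact ⟨h1, by linear_combination h2⟩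

/-- The main counting statement: the reduced form of `NumP / DP²` has degree `#W(K)`. -/
theorem exists_reduced (W : WeierstrassCurve K) [W.IsElliptic] :
    ∃ A B : K[X], Prim ![A, B] (Nat.card W.toAffine.Point) ∧ A * DP K ^ 2 = B * NumP W := by
  classical
  have hD0 : DP K ^ 2 ≠ 0 := pow_ne_zero _ (DP_ne_zero K)
  obtain ⟨g, A, B, hg, hA, hB, hco⟩ := exists_coprime_factor (NumP W) (DP K ^ 2) hD0
  have hA0 : A ≠ 0 := by
    rintro rfl; rw [mul_zero] at hA; exact NumP_ne_zero W hA
  have hB0 : B ≠ 0 := by
    rintro rfl; rw [mul_zero] at hB; exact hD0 hB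
  have hmA : ∀ c, (NumP W).rootMultiplicity c = g.rootMultiplicity c + A.rootMultiplicity c :=
    fun c => by rw [hA, rootMultiplicity_mul (mul_ne_zero hg hA0)]
  have hmB : ∀ c, 2 = g.rootMultiplicity c + B.rootMultiplicity c := fun c => by
    rw [← rootMultiplicity_mul (mul_ne_zero hg hB0), ← hB, rootMultiplicity_DP]
  have hmin : ∀ c, A.rootMultiplicity c = 0 ∨ B.rootMultiplicity c = 0 := by
    intro c
    by_contra hcon
    push Not at hcon
    have h1 := (rootMultiplicity_pos hA0).mp (Nat.pos_of_ne_zero hcon.1)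
    have h2 := (rootMultiplicity_pos hB0).mp (Nat.pos_of_ne_zero hcon.2)
    obtain ⟨a, b, hab⟩ := hco
    have := congrArg (eval c) hab
    rw [eval_add, eval_mul, eval_mul, h1.eq_zero, h2.eq_zero, eval_one] at this
    simp at this
  have hmult : ∀ c, B.rootMultiplicity c = nAbove W c := by
    intro c
    have h1 := hmA c
    have h2 := hmB c
    have h3 := hmin c
    rcases rootMultiplicity_NumP W c with ⟨h4, h5⟩ | ⟨h4, h5⟩ | ⟨h4, h5⟩ <;> omega
  have hsplit : B.Splits :=
    ((splits_DP K).pow 2).of_dvd hD0 ⟨g, by rw [hB, mul_comm]⟩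
  have hdegB : B.natDegree = ∑ c : K, nAbove W c := by
    rw [hsplit.natDegree_eq_card_roots, ← Multiset.toFinset_sum_count_eq]
    rw [← Finset.sum_subset (Finset.subset_univ B.roots.toFinset)]
    · refine Finset.sum_congr rfl fun c _ => ?_
      rw [count_roots, hmult]
    · intro c _ hc
      rw [← hmult, ← count_roots]
      rw [Multiset.mem_toFinset] at hc
      exact Multiset.count_eq_zero_of_notMem hc
  have h1 : (NumP W).natDegree = g.natDegree + A.natDegree := by
    rw [hA, natDegree_mul hg hA0]
  have h2 : (DP K ^ 2).natDegree = g.natDegree + B.natDegree := by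
    rw [hB, natDegree_mul hg hB0]
  rw [natDegree_NumP] at h1
  rw [natDegree_pow, DP, FiniteField.X_pow_card_sub_X_natDegree_eq K Fintype.one_lt_card] at h2
  have h3 : Nat.card W.toAffine.Point = max A.natDegree B.natDegree := by
    rw [card_point, ← hdegB]; omega
  refine ⟨A, B, ?_, ?_⟩
  · rw [h3]; exact Prim.of_isCoprime hco
  · rw [hA, hB]; ring

end finite

end Fermat.Agent.H62
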