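import Fermat.Agent.H62Height

/-!
# Frobenius on points: the characteristic polynomial at the generic point
-/

set_option autoImplicit false

namespace Fermat.Agent.H62

open Polynomial WeierstrassCurve WeierstrassCurve.Affine Fermat.Agent.H72

universe u v

section frob

variable (K : Type u) [Field K] [Fintype K] (F : Type v) [Field F] [DecidableEq F] [Algebra K F]
  (W : WeierstrassCurve K)

/-- The `q`-power Frobenius endomorphism of the group of points. -/
noncomputable def frobP : (W⁄F).Point →+ (W⁄F).Point :=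
  Point.map (W' := W) (FiniteField.frobeniusAlgHom K F)

variable {K F W}

lemma xN_frobP (P : (W⁄F).Point) : xN (frobP K F W P) = xN P ^ Fintype.card K := by
  rcases P with _ | ⟨x, y, h⟩
  · change xN (0 : (W⁄F).Point) = xN (0 : (W⁄F).Point) ^ Fintype.card K
    simp
  · rw [frobP, Point.map_some, xN_some, xN_some]
    rfl

lemma xD_frobP (P : (W⁄F).Point) : xD (frobP K F W P) = xD P ^ Fintype.card K := by
  rcases P with _ | ⟨x, y, h⟩
  · change xD (0 : (W⁄F).Point) = xD (0 : (W⁄F).Point) ^ Fintype.card K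
    simp [Fintype.card_ne_zero]
  · rw [frobP, Point.map_some, xD_some, xD_some, one_pow]

lemma map_frobP {F' : Type*} [Field F'] [DecidableEq F'] [Algebra K F'] (ψ : F →ₐ[K] F')
    (P : (W⁄F).Point) :
    Point.map (W' := W) ψ (frobP K F W P) = frobP K F' W (Point.map (W' := W) ψ P) := by
  rw [frobP, frobP, Point.map_map, Point.map_map]
  congr 2
  ext x
  simp

lemma PRep.frob {t : F} {P : (W⁄F).Point} {A B : K[X]} {d : ℕ} (h : PRep t P A B d) :
    PRep t (frobP K F W P) (A ^ Fintype.card K) (B ^ Fintype.card K) (Fintype.card K * d) := by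
  obtain ⟨h1, c, hc, h2, h3⟩ := h
  refine ⟨?_, c ^ Fintype.card K, pow_ne_zero _ hc, ?_, ?_⟩
  · convert h1.pow (q := Fintype.card K) using 1
    funext i
    fin_cases i <;> rfl
  · rw [xN_frobP, h2, mul_pow, map_pow]
  · rw [xD_frobP, h3, mul_pow, map_pow]

variable (K F W) in
/-- the endomorphism `φ² - a φ + q`. -/
noncomputable def Psi (a : ℤ) : (W⁄F).Point →+ (W⁄F).Point :=
  (Fintype.card K : ℤ) • AddMonoidHom.id _ + (-a) • frobP K F W
    + (1 : ℤ) • (frobP K F W).comp (frobP K F W)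

lemma Psi_apply (a : ℤ) (P : (W⁄F).Point) :
    Psi K F W a P = (Fintype.card K : ℤ) • P + (-a) • frobP K F W P
      + (1 : ℤ) • frobP K F W (frobP K F W P) := rfl

lemma map_Psi {F' : Type*} [Field F'] [DecidableEq F'] [Algebra K F'] (ψ : F →ₐ[K] F') (a : ℤ)
    (P : (W⁄F).Point) :
    Point.map (W' := W) ψ (Psi K F W a P) = Psi K F' W a (Point.map (W' := W) ψ P) := by
  rw [Psi_apply, Psi_apply, map_add, map_add, map_zsmul, map_zsmul, map_zsmul, map_frobP,
    map_frobP, map_frobP]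

end frob

namespace GenData

variable {K : Type u} [Field K] [Fintype K] {F : Type v} [Field F] [DecidableEq F] [Algebra K F]
  {W : WeierstrassCurve K} (D : GenData W F)

lemma frobP_mem {P : (W⁄F).Point} (hP : P ∈ D.G) : frobP K F W P ∈ D.G := by
  rw [mem_G] at hP ⊢
  rw [sig, map_frobP, ← sig, hP, map_neg]

lemma ht_frob {P : (W⁄F).Point} (hP : P ∈ D.G) :
    D.ht (frobP K F W P) = Fintype.card K * D.ht P := by
  obtain ⟨A, B, d, h, e⟩ := D.exists_rep' hP
  rw [D.ht_eq h.frob, e]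
  push_cast
  ring

/-- The main result at the generic point, given the computation of the height of `φ Q₀ - Q₀`. -/
theorem Psi_Q₀ [W.IsElliptic] {A B : K[X]} {N : ℕ}
    (hN : PRep D.t (frobP K F W D.Q₀ - D.Q₀) A B N) (a : ℤ) (ha : a = Fintype.card K + 1 - N) :
    Psi K F W a D.Q₀ = 0 ∧ a ^ 2 ≤ 4 * Fintype.card K := by
  have hpar := D.parall
  have hq : 2 ≤ Fintype.card K := Fintype.one_lt_card
  have hq' : (2 : ℤ) ≤ Fintype.card K := by exact_mod_cast hq
  set q : ℤ := (Fintype.card K : ℤ) with hqdef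
  -- the elements of `G`
  let g1 : D.G := ⟨D.Q₀, D.Q₀_mem⟩
  let g2 : D.G := ⟨frobP K F W D.Q₀, D.frobP_mem D.Q₀_mem⟩
  let g3 : D.G := ⟨frobP K F W (frobP K F W D.Q₀), D.frobP_mem (D.frobP_mem D.Q₀_mem)⟩
  let H : D.G → ℤ := fun P => D.ht (P : (W⁄F).Point)
  have H1 : H g1 = 1 := by
    change D.ht D.Q₀ = 1
    rw [D.ht_eq D.rep_Q₀]; rfl
  have H2 : H g2 = q := by
    change D.ht (frobP K F W D.Q₀) = q
    rw [D.ht_frob D.Q₀_mem, D.ht_eq D.rep_Q₀, Nat.cast_one, mul_one]
  have H3 : H g3 = q ^ 2 := by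
    change D.ht (frobP K F W (frobP K F W D.Q₀)) = q ^ 2
    rw [D.ht_frob (D.frobP_mem D.Q₀_mem)]
    change _ * H g2 = _
    rw [H2, sq]
  have hcomb : ∀ (m n : ℤ) (x y : D.G), H (m • x + n • y) = m ^ 2 * H x + n ^ 2 * H y
      + m * n * Parall.B H x y := hpar.comb
  have H21 : H ((-1 : ℤ) • g1 + (1 : ℤ) • g2) = N := by
    change D.ht ((-1 : ℤ) • D.Q₀ + (1 : ℤ) • frobP K F W D.Q₀) = N
    rw [one_smul, neg_one_smul, neg_add_eq_sub, D.ht_eq hN]
  have B12 : Parall.B H g1 g2 = a := by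
    rw [hcomb, H1, H2] at H21
    rw [ha, ← H21]; ring
  -- Hasse bound
  have hasse : a ^ 2 ≤ 4 * q := by
    rw [← B12, ← H2]
    exact hpar.sq_le (fun x => D.ht_nonneg _) g1 g2 H1
  have Hs : H ((1 : ℤ) • g1 + (1 : ℤ) • g2) = 1 + q + a := by
    rw [hcomb, H1, H2, B12]; ring
  have hpos : 0 < 1 + q + a := by nlinarith
  have B23 : Parall.B H g2 g3 = q * a := by
    have h1 : H ((1 : ℤ) • g2 + (1 : ℤ) • g3) = q * (1 + q + a) := by
      rw [← Hs]
      change D.ht ((1 : ℤ) • frobP K F W D.Q₀ + (1 : ℤ) • frobP K F W (frobP K F W D.Q₀)) =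
        q * D.ht ((1 : ℤ) • D.Q₀ + (1 : ℤ) • frobP K F W D.Q₀)
      have h2 : (1 : ℤ) • frobP K F W D.Q₀ + (1 : ℤ) • frobP K F W (frobP K F W D.Q₀) =
          frobP K F W ((1 : ℤ) • D.Q₀ + (1 : ℤ) • frobP K F W D.Q₀) := by
        rw [map_add, map_zsmul, map_zsmul]
      rw [h2]
      exact D.ht_frob ((1 : ℤ) • g1 + (1 : ℤ) • g2).2
    rw [hcomb, H2, H3] at h1
    linarith
  have B13 : Parall.B H g1 g3 = a ^ 2 - 2 * q := by
    have h1 : H ((-1 : ℤ) • g1 + (1 : ℤ) • g3) = N * (1 + q + a) := by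
      obtain ⟨ψ, hψ, U, V, d, hUV, hd, hx⟩ :=
        D.exists_lift (P := D.Q₀ + frobP K F W D.Q₀) (g1 + g2).2 (by
          have : D.ht (D.Q₀ + frobP K F W D.Q₀) = 1 + q + a := by
            rw [← Hs]
            change _ = D.ht ((1 : ℤ) • D.Q₀ + (1 : ℤ) • frobP K F W D.Q₀)
            rw [one_smul, one_smul]
          rw [this]; exact hpos)
      have h2 := hN.comp hUV.1 hx ψ rfl
      have h3 : Point.map (W' := W) ψ (frobP K F W D.Q₀ - D.Q₀) =
          (-1 : ℤ) • D.Q₀ + (1 : ℤ) • frobP K F W (frobP K F W D.Q₀) := by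
        rw [map_sub, map_frobP, hψ, map_add, one_smul, neg_one_smul]
        abel
      change D.ht ((-1 : ℤ) • D.Q₀ + (1 : ℤ) • frobP K F W (frobP K F W D.Q₀)) = _
      rw [← h3, D.ht_eq h2, ← Hs]
      change _ = _ * D.ht ((1 : ℤ) • D.Q₀ + (1 : ℤ) • frobP K F W D.Q₀)
      rw [one_smul, one_smul, hd]
      push_cast
      ring
    rw [hcomb, H1, H3] at h1
    have hN' : (N : ℤ) = q + 1 - a := by rw [ha]; ring
    rw [hN'] at h1
    linear_combination -h1
  have HZ : H (q • g1 + (-a) • g2 + (1 : ℤ) • g3) = 0 := by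
    have := hpar.comb3 q (-a) 1 g1 g2 g3
    change H _ = _ at this
    rw [this]
    change q ^ 2 * H g1 + (-a) ^ 2 * H g2 + 1 ^ 2 * H g3 + q * (-a) * Parall.B H g1 g2 +
      q * 1 * Parall.B H g1 g3 + (-a) * 1 * Parall.B H g2 g3 = 0
    rw [H1, H2, H3, B12, B13, B23]
    ring
  refine ⟨?_, hasse⟩
  -- now show that the point is zero
  have hZmem : Psi K F W a D.Q₀ ∈ D.G := (q • g1 + (-a) • g2 + (1 : ℤ) • g3).2
  have hZ : D.ht (Psi K F W a D.Q₀) = 0 := HZ
  obtain ⟨Z, hZdef⟩ : ∃ Z, Z = Psi K F W a D.Q₀ := ⟨_, rfl⟩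
  rw [← hZdef] at hZ hZmem ⊢
  by_contra hne
  obtain ⟨U, V, d, ⟨hUV, c, hc, hcU, hcV⟩, hd⟩ := D.exists_rep' hZmem
  have hd0 : d = 0 := by rw [hd] at hZ; exact_mod_cast hZ
  subst hd0
  have key : ∀ P : (W⁄F).Point, P ∈ D.G → 0 < D.ht P →
      Psi K F W a P = Z ∨ Psi K F W a P = - Z := by
    intro P hP hpos
    obtain ⟨ψ, hψ, -⟩ := D.exists_lift hP hpos
    have h1 : Psi K F W a P = Point.map (W' := W) ψ Z := by
      rw [hZdef, map_Psi, hψ]
    rw [h1]
    rcases Z with _ | ⟨x, y, h⟩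
    · exact absurd rfl hne
    · rw [Point.map_some]
      apply Point.X_eq_iff.mp
      rw [xN_some] at hcU
      rw [xD_some] at hcV
      have hU := hUV.le 0
      have hV := hUV.le 1
      simp only [Matrix.cons_val_zero, Matrix.cons_val_one, Nat.le_zero] at hU hV
      rw [eq_C_of_natDegree_eq_zero hU, aeval_C] at hcU
      rw [eq_C_of_natDegree_eq_zero hV, aeval_C] at hcV
      have hV0 : algebraMap K F (V.coeff 0) ≠ 0 := by
        intro h0
        rw [h0, mul_zero] at hcV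
        exact one_ne_zero hcV
      have hx : x = algebraMap K F (U.coeff 0 / V.coeff 0) := by
        rw [map_div₀, eq_div_iff hV0, hcU]
        linear_combination (- algebraMap K F (U.coeff 0)) * hcV
      rw [hx, AlgHom.commutes]
  have hsmul : ∀ n : ℤ, n ≠ 0 → n • Z = Z ∨ n • Z = - Z := by
    intro n hn
    have h1 : 0 < D.ht (n • D.Q₀) := by
      have := hpar.zsmul n g1
      change H _ = n ^ 2 * H g1 at this
      rw [H1, mul_one] at this
      change 0 < H (n • g1)
      rw [this]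
      positivity
    have := key (n • D.Q₀) (n • g1).2 h1
    rw [map_zsmul, ← hZdef] at this
    exact this
  rcases hsmul 2 (by norm_num) with h | h
  · rw [two_smul] at h
    exact hne (by simpa using h)
  · have h3 : (3 : ℤ) • Z = 0 := by
      rw [show (3 : ℤ) = 2 + 1 by norm_num, add_smul, h, one_smul, neg_add_cancel]
    rcases hsmul 3 (by norm_num) with h' | h'
    · rw [h3] at h'; exact hne h'.symm
    · rw [h3] at h'; exact hne (neg_eq_zero.mp h'.symm)

end GenData

end Fermat.Agent.H62
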