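import Fermat.Agent.H62Frob
import Fermat.Agent.H62Count

/-!
# The characteristic polynomial of Frobenius at the generic point
-/

set_option autoImplicit false

namespace Fermat.Agent.H62

open Polynomial WeierstrassCurve WeierstrassCurve.Affine Fermat.Agent.H72

universe u v

namespace GenData

variable {K : Type u} [Field K] [Fintype K] {F : Type v} [Field F] [DecidableEq F] [Algebra K F]
  {W : WeierstrassCurve K} (D : GenData W F)

omit [DecidableEq F] in
lemma aeval_SP : aeval D.t (SP W) =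
    (D.y ^ Fintype.card K + D.y + aeval D.t (eP W)) *
      (D.y ^ Fintype.card K + D.y + aeval D.t (eP W) ^ Fintype.card K) := by
  obtain ⟨e, he⟩ : ∃ e, e = aeval D.t (eP W) := ⟨_, rfl⟩
  obtain ⟨f, hf⟩ : ∃ f, f = aeval D.t (fP W) := ⟨_, rfl⟩
  have heq : D.y ^ 2 + e * D.y = f := by
    have := (equation_iff ..).mp D.eqn
    rw [he, hf, eP, fP]
    simp only [map_add, map_mul, map_pow, aeval_X, aeval_C]
    simp only [Affine.baseChange_a₁, Affine.baseChange_a₂, Affine.baseChange_a₃,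
      Affine.baseChange_a₄, Affine.baseChange_a₆] at this
    linear_combination this
  let fr := FiniteField.frobeniusAlgHom K F
  have hfr : ∀ x : F, x ^ Fintype.card K = fr x := fun x => rfl
  have h1 : D.y + (-e - D.y) = -e := by ring
  have h2 : D.y * (-e - D.y) = -f := by rw [← heq]; ring
  have hV := luV_eq_pow h1 h2 (Fintype.card K + 1)
  have hmap := map_luV (eP W) (fP W) (aeval D.t : K[X] →ₐ[K] F).toRingHom (Fintype.card K + 1)
  simp only [AlgHom.toRingHom_eq_coe, RingHom.coe_coe] at hmap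
  rw [SP, map_add, map_add, map_pow, hmap, ← he, ← hf, hV, pow_succ, pow_succ, hfr, hfr, hfr, hfr,
    ← heq, map_sub, map_neg, map_add, map_pow, map_mul]
  ring

/-- The height of `φ Q₀ - Q₀` is the number of rational points. -/
theorem rep_frob_sub [W.IsElliptic] :
    ∃ A B : K[X], PRep D.t (frobP K F W D.Q₀ - D.Q₀) A B (Nat.card W.toAffine.Point) := by
  obtain ⟨A, B, hAB, h⟩ := exists_reduced W
  refine ⟨A, B, hAB, ?_⟩
  obtain ⟨q, hq⟩ : ∃ q, q = Fintype.card K := ⟨_, rfl⟩
  have hne : D.t ^ Fintype.card K ≠ D.t := by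
    intro h0
    apply DP_ne_zero K
    apply D.inj
    rw [DP, map_sub, map_pow, aeval_X, h0, sub_self, map_zero]
  have hDne : D.t ^ Fintype.card K - D.t ≠ 0 := sub_ne_zero.mpr hne
  have hB : aeval D.t B ≠ 0 := by
    intro h0
    have hB0 : B = 0 := D.inj (by rw [h0, map_zero])
    subst hB0
    rw [zero_mul] at h
    have hA0 : A = 0 := (mul_eq_zero.mp h).resolve_right (pow_ne_zero _ (DP_ne_zero K))
    subst hA0
    exact not_isCoprime_zero_zero hAB.isCoprime
  have hpt : ∃ (x y : F) (hns : (W⁄F).Nonsingular x y), frobP K F W D.Q₀ - D.Q₀ =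
      Point.some x y hns ∧ x * aeval D.t B = aeval D.t A := by
    rw [sub_eq_add_neg, Q₀, frobP, Point.map_some, Point.neg_some]
    have hX : FiniteField.frobeniusAlgHom K F D.t ≠ D.t := hne
    rw [Point.add_of_X_ne hX]
    refine ⟨_, _, _, rfl, ?_⟩
    rw [slope_of_X_ne hX]
    change addX W⁄F (D.t ^ Fintype.card K) D.t ((D.y ^ Fintype.card K - negY W⁄F D.t D.y) /
      (D.t ^ Fintype.card K - D.t)) * aeval D.t B = aeval D.t A
    obtain ⟨ℓ, hℓ⟩ : ∃ ℓ, ℓ = (D.y ^ Fintype.card K - negY W⁄F D.t D.y) /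
      (D.t ^ Fintype.card K - D.t) := ⟨_, rfl⟩
    rw [← hℓ]
    rw [eq_div_iff hDne, negY] at hℓ
    rw [addX]
    have h1 := congrArg (aeval D.t) h
    rw [map_mul, map_mul, NumP, map_sub, aeval_SP, ← map_pow, eP_pow, map_mul, map_pow, DP, eP]
      at h1
    simp only [map_add, map_sub, map_mul, map_pow, aeval_X, aeval_C] at h1
    simp only [Affine.baseChange_a₁, Affine.baseChange_a₂, Affine.baseChange_a₃] at hℓ ⊢
    apply mul_right_cancel₀ (pow_ne_zero 2 hDne)
    rw [h1]
    linear_combination (aeval D.t B) * (ℓ * (D.t ^ Fintype.card K - D.t) +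
      (D.y ^ Fintype.card K + D.y + algebraMap K F W.a₁ * D.t + algebraMap K F W.a₃)
      + algebraMap K F W.a₁ * (D.t ^ Fintype.card K - D.t)) * hℓ
  obtain ⟨x, y, hns, he, hx⟩ := hpt
  rw [he]
  refine ⟨(aeval D.t B)⁻¹, inv_ne_zero hB, ?_, ?_⟩
  · rw [xN_some, ← hx, mul_comm x, inv_mul_cancel_left₀ hB]
  · rw [xD_some, inv_mul_cancel₀ hB]

/-- The characteristic equation of Frobenius at the generic point, and the Hasse bound. -/
theorem charpoly_generic [W.IsElliptic] (a : ℤ)
    (ha : a = (Fintype.card K : ℤ) + 1 - (Nat.card W.toAffine.Point : ℤ)) :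
    Psi K F W a D.Q₀ = 0 ∧ a ^ 2 ≤ 4 * (Fintype.card K : ℤ) := by
  obtain ⟨A, B, hAB⟩ := D.rep_frob_sub
  exact D.Psi_Q₀ hAB a ha

end GenData

end Fermat.Agent.H62
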