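import Mathlib

/-!
# Integer valued functions satisfying the parallelogram law
-/

set_option autoImplicit false

namespace Fermat.Agent.H62

/-- The parallelogram law. -/
structure Parall {A : Type*} [AddCommGroup A] (H : A → ℤ) : Prop where
  par : ∀ x y, H (x + y) + H (x - y) = 2 * H x + 2 * H y

namespace Parall

variable {A : Type*} [AddCommGroup A] {H : A → ℤ}

/-- polar form -/
def B (H : A → ℤ) (x y : A) : ℤ := H (x + y) - H x - H y

lemma zero (h : Parall H) : H 0 = 0 := by
  have := h.par 0 0
  rw [add_zero, sub_zero] at this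
  omega

lemma neg (h : Parall H) (x : A) : H (-x) = H x := by
  have := h.par 0 x
  rw [zero_add, zero_sub, h.zero] at this
  omega

lemma three (h : Parall H) (x y z : A) :
    H (x + y + z) = H (x + y) + H (y + z) + H (x + z) - H x - H y - H z := by
  have h1 := h.par (x + y) z
  have h2 := h.par (x - z) y
  have h3 := h.par x (y + z)
  have h4 := h.par x z
  rw [show x - z + y = x + y - z by abel, show x - z - y = x - (y + z) by abel] at h2
  rw [show x + (y + z) = x + y + z by abel] at h3
  omega

lemma B_comm (x y : A) : B H x y = B H y x := by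
  rw [B, B, add_comm]; ring

lemma B_add_left (h : Parall H) (x y z : A) : B H (x + y) z = B H x z + B H y z := by
  rw [B, B, B, h.three]; ring

lemma B_add_right (h : Parall H) (x y z : A) : B H x (y + z) = B H x y + B H x z := by
  rw [B_comm, h.B_add_left, B_comm y, B_comm z]

lemma B_zsmul_left (h : Parall H) (n : ℤ) (x y : A) : B H (n • x) y = n * B H x y := by
  have := map_zsmul (AddMonoidHom.mk' (fun x => B H x y) (fun a b => h.B_add_left a b y)) n x
  simpa using this

lemma B_zsmul_right (h : Parall H) (n : ℤ) (x y : A) : B H x (n • y) = n * B H x y := by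
  rw [B_comm, h.B_zsmul_left, B_comm]

lemma B_self (h : Parall H) (x : A) : B H x x = 2 * H x := by
  have := h.par x x
  rw [sub_self, h.zero] at this
  rw [B]; omega

lemma zsmul (h : Parall H) (n : ℤ) (x : A) : H (n • x) = n ^ 2 * H x := by
  have h1 := h.B_self (n • x)
  rw [h.B_zsmul_left, h.B_zsmul_right, h.B_self] at h1
  linarith

lemma add (x y : A) : H (x + y) = H x + H y + B H x y := by
  rw [B]; ring

lemma comb (h : Parall H) (m n : ℤ) (x y : A) :
    H (m • x + n • y) = m ^ 2 * H x + n ^ 2 * H y + m * n * B H x y := by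
  rw [add (H := H), h.zsmul, h.zsmul, h.B_zsmul_left, h.B_zsmul_right]; ring

lemma comb3 (h : Parall H) (l m n : ℤ) (x y z : A) :
    H (l • x + m • y + n • z) = l ^ 2 * H x + m ^ 2 * H y + n ^ 2 * H z + l * m * B H x y
      + l * n * B H x z + m * n * B H y z := by
  rw [add (H := H), h.comb, h.zsmul, h.B_add_left, h.B_zsmul_left, h.B_zsmul_left, h.B_zsmul_right,
    h.B_zsmul_right]
  ring

/-- Discriminant inequality from nonnegativity. -/
lemma sq_le (h : Parall H) (hpos : ∀ x, 0 ≤ H x) (x y : A) (hx : H x = 1) :
    B H x y ^ 2 ≤ 4 * H y := by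
  have := hpos ((-B H x y) • x + (2 : ℤ) • y)
  rw [h.comb, hx] at this
  nlinarith

end Parall

end Fermat.Agent.H62
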