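import Fermat.Agent.H62Prim
import Fermat.Agent.H62Quad
import Fermat.Agent.H72Kummer

/-!
# Heights of points on an elliptic curve over its function field
-/

set_option autoImplicit false

namespace Fermat.Agent.H62

open Polynomial WeierstrassCurve WeierstrassCurve.Affine Fermat.Agent.H72

universe u v

/-- Data presenting `F` as (an abstract version of) the function field of `W` over `K`. -/
structure GenData {K : Type u} [Field K] (W : WeierstrassCurve K) (F : Type v) [Field F]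
    [Algebra K F] where
  t : F
  y : F
  eqn : (W⁄F).Equation t y
  inj : Function.Injective (aeval t : K[X] →ₐ[K] F)
  σ : F →ₐ[K] F
  σt : σ t = t
  σy : σ y = (W⁄F).negY t y
  fixed : ∀ z, σ z = z → ∃ A B : K[X], B ≠ 0 ∧ z * aeval t B = aeval t A
  lift : ∀ t' y' : F, Function.Injective (aeval t' : K[X] →ₐ[K] F) → (W⁄F).Equation t' y' →
    ∃ ψ : F →ₐ[K] F, ψ t = t' ∧ ψ y = y'

section rep

variable {K : Type u} [Field K] {F : Type v} [Field F] [DecidableEq F] [Algebra K F]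
  {W : WeierstrassCurve K}

/-- `P` has x-coordinate represented by the primitive vector `(A, B)` of degree `d` in
the parameter `t`. -/
def PRep (t : F) (P : (W⁄F).Point) (A B : K[X]) (d : ℕ) : Prop :=
  Prim ![A, B] d ∧ ∃ c : F, c ≠ 0 ∧ xN P = c * aeval t A ∧ xD P = c * aeval t B

omit [DecidableEq F] in
lemma PRep.unique {t : F} (ht : Function.Injective (aeval t : K[X] →ₐ[K] F))
    {P : (W⁄F).Point} {A B A' B' : K[X]} {d d' : ℕ} (h : PRep t P A B d) (h' : PRep t P A' B' d') :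
    d = d' := by
  obtain ⟨h1, c, hc, h2, h3⟩ := h
  obtain ⟨h1', c', hc', h2', h3'⟩ := h'
  refine h1.eq_of_smul (aeval t : K[X] →ₐ[K] F).toRingHom ht h1' (c := c'⁻¹ * c)
    (mul_ne_zero (inv_ne_zero hc') hc) ?_
  intro i
  fin_cases i
  · simp only [AlgHom.toRingHom_eq_coe, Fin.zero_eta, Matrix.cons_val_zero, RingHom.coe_coe]
    rw [mul_assoc, ← h2, h2', inv_mul_cancel_left₀ hc']
  · simp only [AlgHom.toRingHom_eq_coe, Fin.mk_one, Matrix.cons_val_one, Matrix.cons_val_fin_one,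
      RingHom.coe_coe]
    rw [mul_assoc, ← h3, h3', inv_mul_cancel_left₀ hc']

omit [DecidableEq F] in
lemma PRep.zero (t : F) : PRep t (0 : (W⁄F).Point) (1 : K[X]) 0 0 := by
  refine ⟨?_, 1, one_ne_zero, by simp, by simp⟩
  simpa using Prim.of_isCoprime (isCoprime_one_left : IsCoprime (1 : K[X]) 0)

omit [DecidableEq F] in
lemma PRep.neg {t : F} {P : (W⁄F).Point} {A B : K[X]} {d : ℕ} (h : PRep t P A B d) :
    PRep t (-P) A B d := by
  simpa only [PRep, xN_neg, xD_neg] using h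

/-- Parallelogram law for the degrees. -/
lemma PRep.parallelogram [W.IsElliptic] {t : F}
    (ht : Function.Injective (aeval t : K[X] →ₐ[K] F))
    {P Q : (W⁄F).Point} {A B A' B' A₁ B₁ A₂ B₂ : K[X]} {d d' d₁ d₂ : ℕ}
    (hP : PRep t P A B d) (hQ : PRep t Q A' B' d') (hS : PRep t (P + Q) A₁ B₁ d₁)
    (hD : PRep t (P - Q) A₂ B₂ d₂) : d₁ + d₂ = 2 * (d + d') := by
  obtain ⟨c, hc, e0, e1, e2⟩ := kummerRel P Q
  obtain ⟨hP, cP, hcP, hPN, hPD⟩ := hP
  obtain ⟨hQ, cQ, hcQ, hQN, hQD⟩ := hQ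
  obtain ⟨hS, cS, hcS, hSN, hSD⟩ := hS
  obtain ⟨hD, cD, hcD, hDN, hDD⟩ := hD
  rw [hPN, hPD, hQN, hQD, hSN, hDN] at e0
  rw [hPN, hPD, hQN, hQD, hSN, hSD, hDN, hDD] at e1
  rw [hPN, hPD, hQN, hQD, hSD, hDD] at e2
  refine (hS.sym2 hD).eq_of_smul (aeval t : K[X] →ₐ[K] F).toRingHom ht (hP.addSub W hQ)
    (c := c * (cS * cD) * ((cP * cQ) ^ 2)⁻¹) ?_ ?_
  · exact mul_ne_zero (mul_ne_zero hc (mul_ne_zero hcS hcD))
      (inv_ne_zero (pow_ne_zero _ (mul_ne_zero hcP hcQ)))
  · intro i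
    have hne : (cP * cQ) ^ 2 ≠ 0 := pow_ne_zero _ (mul_ne_zero hcP hcQ)
    have hb2 : (W⁄F).b₂ = aeval t (C W.b₂) := by
      rw [aeval_C]; exact W.map_b₂ _
    have hb4 : (W⁄F).b₄ = aeval t (C W.b₄) := by
      rw [aeval_C]; exact W.map_b₄ _
    have hb6 : (W⁄F).b₆ = aeval t (C W.b₆) := by
      rw [aeval_C]; exact W.map_b₆ _
    have hb8 : (W⁄F).b₈ = aeval t (C W.b₈) := by
      rw [aeval_C]; exact W.map_b₈ _
    rw [hb4, hb6, hb8] at e0
    rw [hb2, hb4, hb6] at e1
    rw [mul_right_comm, ← div_eq_mul_inv, div_eq_iff hne]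
    fin_cases i
    · simp only [AlgHom.toRingHom_eq_coe, Fin.zero_eta, Matrix.cons_val_zero, RingHom.coe_coe,
        map_mul, as0, map_sub, map_add, map_pow]
      linear_combination e0
    · simp only [AlgHom.toRingHom_eq_coe, Fin.mk_one, Matrix.cons_val_one, Matrix.cons_val_zero,
        RingHom.coe_coe, map_mul, as1, map_add, map_pow]
      linear_combination e1
    · simp only [AlgHom.toRingHom_eq_coe, Fin.reduceFinMk, Matrix.cons_val,
        RingHom.coe_coe, map_mul, as2, map_sub, map_pow]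
      linear_combination e2

omit [DecidableEq F] in
/-- Composition -/
lemma aeval_homEval {t x : F} {U V : K[X]} (hx : x * aeval t V = aeval t U) (A : K[X]) {N : ℕ}
    (hN : A.natDegree ≤ N) :
    aeval t (homEval N (fun i => C (A.coeff i)) U V) = aeval x A * (aeval t V) ^ N := by
  have h1 := map_homEval (aeval t : K[X] →ₐ[K] F).toRingHom N (fun i => C (A.coeff i)) U V
  simp only [AlgHom.toRingHom_eq_coe, RingHom.coe_coe, aeval_C] at h1
  rw [h1, homEval_eq_aeval (algebraMap K F) A hN hx]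
  rfl

omit [DecidableEq F] in
lemma aeval_den_ne_zero {t x : F} {U V : K[X]} (hx : x * aeval t V = aeval t U)
    (h : IsCoprime U V) : aeval t V ≠ 0 := by
  intro h0
  rw [h0, mul_zero] at hx
  obtain ⟨a, b, hab⟩ := h
  have := congrArg (aeval t) hab
  rw [map_add, map_mul, map_mul, ← hx, h0, map_one] at this
  simp at this

/-- transport of a point along an embedding of function fields. -/
lemma PRep.comp {F' : Type*} [Field F'] [DecidableEq F'] [Algebra K F'] {t : F} {t' x : F'}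
    {R : (W⁄F).Point} {A B : K[X]} {N : ℕ} (hR : PRep t R A B N) {U V : K[X]} {d : ℕ}
    (hUV : Prim ![U, V] d) (hx : x * aeval t' V = aeval t' U) (ψ : F →ₐ[K] F') (hψ : ψ t = x) :
    PRep t' (Point.map (W' := W) ψ R) (homEval N (fun i => C (A.coeff i)) U V)
      (homEval N (fun i => C (B.coeff i)) U V) (N * d) := by
  obtain ⟨hAB, c, hc, hN, hD⟩ := hR
  have hV := aeval_den_ne_zero hx hUV.isCoprime
  have hVN := pow_ne_zero N hV
  have hxN : xN (Point.map (W' := W) ψ R) = ψ (xN R) := by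
    rcases R with _ | ⟨x, y, h⟩
    · change xN (0 : (W⁄F').Point) = ψ (xN (0 : (W⁄F).Point))
      simp
    · rw [Point.map_some, xN_some, xN_some]
  have hxD : xD (Point.map (W' := W) ψ R) = ψ (xD R) := by
    rcases R with _ | ⟨x, y, h⟩
    · change xD (0 : (W⁄F').Point) = ψ (xD (0 : (W⁄F).Point))
      simp
    · rw [Point.map_some, xD_some, xD_some, map_one]
  refine ⟨hAB.comp hUV, ψ c * ((aeval t' V) ^ N)⁻¹, ?_, ?_, ?_⟩
  · exact mul_ne_zero (by simpa using hc) (inv_ne_zero hVN)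
  · rw [hxN, hN, map_mul, aeval_homEval hx A (hAB.le 0), mul_comm (aeval x A), ← mul_assoc,
      inv_mul_cancel_right₀ hVN, ← hψ, ← Polynomial.aeval_algHom_apply]
  · rw [hxD, hD, map_mul, aeval_homEval hx B (hAB.le 1), mul_comm (aeval x B), ← mul_assoc,
      inv_mul_cancel_right₀ hVN, ← hψ, ← Polynomial.aeval_algHom_apply]

omit [DecidableEq F] in
/-- nonconstant elements of `K(t)` are transcendental over `K` -/
lemma aeval_injective_of_prim {t x : F} (ht : Function.Injective (aeval t : K[X] →ₐ[K] F))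
    {U V : K[X]} {d : ℕ} (hUV : Prim ![U, V] d) (hd : 0 < d)
    (hx : x * aeval t V = aeval t U) : Function.Injective (aeval x : K[X] →ₐ[K] F) := by
  rw [injective_iff_map_eq_zero]
  intro A hA
  by_contra hA0
  have h1 : Prim ![A, 1] (max A.natDegree (1 : K[X]).natDegree) :=
    Prim.of_isCoprime isCoprime_one_right
  rw [natDegree_one, max_eq_left (Nat.zero_le _)] at h1
  have h2 := h1.comp hUV
  have h3 : homEval A.natDegree (fun i => C (A.coeff i)) U V = 0 := by
    apply ht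
    rw [aeval_homEval hx A le_rfl, hA, zero_mul, map_zero]
  have h4 : homEval A.natDegree (fun i => C ((1 : K[X]).coeff i)) U V = V ^ A.natDegree := by
    apply ht
    rw [aeval_homEval hx 1 (by simp), map_one, one_mul, map_pow]
  rw [h3, h4] at h2
  have h5 : IsUnit (V ^ A.natDegree) := isCoprime_zero_left.mp h2.isCoprime
  have h6 := h2.eq_max
  rw [natDegree_zero, natDegree_eq_zero_of_isUnit h5, max_self] at h6
  have h7 : A.natDegree = 0 := by
    rcases Nat.mul_eq_zero.mp h6 with h | h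
    · exact h
    · omega
  rw [eq_C_of_natDegree_eq_zero h7, aeval_C] at hA
  rw [eq_C_of_natDegree_eq_zero h7] at hA0
  rw [map_eq_zero] at hA
  rw [hA, map_zero] at hA0
  exact hA0 rfl

end rep

namespace GenData

variable {K : Type u} [Field K] {F : Type v} [Field F] [DecidableEq F] [Algebra K F]
  {W : WeierstrassCurve K} (D : GenData W F)

/-- action of `σ` on points -/
noncomputable def sig : (W⁄F).Point →+ (W⁄F).Point := Point.map (W' := W) D.σ

/-- the subgroup of points with `σ P = - P`. -/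
noncomputable def G : AddSubgroup (W⁄F).Point := (D.sig + AddMonoidHom.id _).ker

lemma mem_G {P : (W⁄F).Point} : P ∈ D.G ↔ D.sig P = -P := by
  rw [G, AddMonoidHom.mem_ker, AddMonoidHom.add_apply, AddMonoidHom.id_apply,
    add_eq_zero_iff_eq_neg]

lemma exists_rep {P : (W⁄F).Point} (hP : P ∈ D.G) : ∃ A B d, PRep D.t P A B d := by
  rw [mem_G] at hP
  rcases P with _ | ⟨x, y, h⟩
  · exact ⟨1, 0, 0, PRep.zero _⟩
  · rw [sig, Point.map_some, Point.neg_some, Point.some.injEq] at hP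
    obtain ⟨A, B, hB, hAB⟩ := D.fixed x hP.1
    obtain ⟨g, A₁, B₁, hg, rfl, rfl, hco⟩ := exists_coprime_factor A B hB
    refine ⟨A₁, B₁, _, Prim.of_isCoprime hco, ?_⟩
    have hg' : aeval D.t g ≠ 0 := fun h0 => hg (D.inj (by rw [h0, map_zero]))
    have h1 : x * aeval D.t B₁ = aeval D.t A₁ := by
      rw [map_mul, map_mul] at hAB
      apply mul_left_cancel₀ hg'
      linear_combination hAB
    have h2 := aeval_den_ne_zero h1 hco
    refine ⟨(aeval D.t B₁)⁻¹, inv_ne_zero h2, ?_, ?_⟩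
    · rw [xN_some, ← h1, mul_comm x, inv_mul_cancel_left₀ h2]
    · rw [xD_some, inv_mul_cancel₀ h2]

open Classical in
/-- the height of a point -/
noncomputable def ht (P : (W⁄F).Point) : ℤ :=
  if h : ∃ (d : ℕ) (A B : K[X]), PRep D.t P A B d then (h.choose : ℤ) else 0

omit [DecidableEq F] in
lemma ht_eq {P : (W⁄F).Point} {A B : K[X]} {d : ℕ} (h : PRep D.t P A B d) : D.ht P = d := by
  have hex : ∃ (d : ℕ) (A B : K[X]), PRep D.t P A B d := ⟨d, A, B, h⟩
  rw [ht, dif_pos hex]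
  obtain ⟨A', B', h'⟩ := hex.choose_spec
  rw [h'.unique D.inj h]

omit [DecidableEq F] in
lemma ht_nonneg (P : (W⁄F).Point) : 0 ≤ D.ht P := by
  rw [ht]
  split_ifs
  · positivity
  · exact le_rfl

lemma exists_rep' {P : (W⁄F).Point} (hP : P ∈ D.G) : ∃ A B d, PRep D.t P A B d ∧ D.ht P = d := by
  obtain ⟨A, B, d, h⟩ := D.exists_rep hP
  exact ⟨A, B, d, h, D.ht_eq h⟩

lemma parall [W.IsElliptic] : Parall (fun P : D.G => D.ht (P : (W⁄F).Point)) where
  par P Q := by
    obtain ⟨A, B, d, h, e⟩ := D.exists_rep' P.2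
    obtain ⟨A', B', d', h', e'⟩ := D.exists_rep' Q.2
    obtain ⟨A₁, B₁, d₁, h₁, e₁⟩ := D.exists_rep' (P + Q).2
    obtain ⟨A₂, B₂, d₂, h₂, e₂⟩ := D.exists_rep' (P - Q).2
    have := h.parallelogram D.inj h' h₁ h₂
    rw [e, e', e₁, e₂]
    omega

omit [DecidableEq F] in
lemma nonsing [W.IsElliptic] {x y : F} (h : (W⁄F).Equation x y) : (W⁄F).Nonsingular x y := by
  have : (W⁄F).IsElliptic := inferInstanceAs (W.map (algebraMap K F)).IsElliptic
  exact equation_iff_nonsingular.mp h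

/-- the generic point -/
noncomputable def Q₀ [W.IsElliptic] : (W⁄F).Point := Point.some D.t D.y (nonsing D.eqn)

lemma Q₀_mem [W.IsElliptic] : D.Q₀ ∈ D.G := by
  rw [mem_G, Q₀, sig, Point.map_some, Point.neg_some, Point.some.injEq]
  exact ⟨D.σt, D.σy⟩

omit [DecidableEq F] in
lemma rep_Q₀ [W.IsElliptic] : PRep D.t D.Q₀ X 1 1 := by
  refine ⟨?_, 1, one_ne_zero, ?_, ?_⟩
  · simpa using Prim.of_isCoprime (isCoprime_one_right : IsCoprime (X : K[X]) 1)
  · rw [Q₀, xN_some, aeval_X, one_mul]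
  · rw [Q₀, xD_some, map_one, one_mul]

/-- A point of positive height is the image of the generic point. -/
lemma exists_lift [W.IsElliptic] {P : (W⁄F).Point} (hP : P ∈ D.G) (hpos : 0 < D.ht P) :
    ∃ (ψ : F →ₐ[K] F), Point.map (W' := W) ψ D.Q₀ = P ∧
      ∃ (U V : K[X]) (d : ℕ), PRep D.t P U V d ∧ D.ht P = d ∧ ψ D.t * aeval D.t V = aeval D.t U := by
  obtain ⟨U, V, d, h, e⟩ := D.exists_rep' hP
  have hd : 0 < d := by omega
  rcases P with _ | ⟨x, y, hns⟩
  · exfalso
    have := h.unique D.inj (PRep.zero D.t)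
    omega
  · obtain ⟨hUV, c, hc, h1, h2⟩ := id h
    rw [xN_some] at h1
    rw [xD_some] at h2
    have hx : x * aeval D.t V = aeval D.t U := by
      apply mul_left_cancel₀ hc
      rw [← h1]
      linear_combination (-x) * h2
    obtain ⟨ψ, hψ, hψ'⟩ := D.lift x y (aeval_injective_of_prim D.inj hUV hd hx) hns.1
    refine ⟨ψ, ?_, U, V, d, h, e, by rw [hψ, hx]⟩
    rw [Q₀, Point.map_some, Point.some.injEq]
    exact ⟨hψ, hψ'⟩

end GenData

end Fermat.Agent.H62
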