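/-
H62Module: a module `M` over a local ring `R` with a continuous Galois action satisfying the Eichler-Shimura
relations for a Galois representation `ρ` over `R`: the characteristic polynomial of `ρ g` kills `g` on `M`
for all `g`. Consequences: Steinberg relation for traces ((E35) without eigenvectors).
-/
import Mathlib
import Fermat.Agent.H62New

set_option autoImplicit false
set_option linter.style.haveILetI false
set_option linter.unusedSectionVars false

noncomputable section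

open IsLocalRing Module Polynomial Fermat.Agent.H35

namespace Fermat.Agent.H62

variable {R : Type} [CommRing R] [IsLocalRing R] (ρ : GaloisRepAdic R)
    {M : Type*} [AddCommGroup M] [Module R M] [IsHausdorff (maximalIdeal R) M]
    (ρM : H53.GQ →* Module.End R M)

/-- Eichler–Shimura relations at Frobenius elements imply them for all Galois elements. -/
theorem quadratic_of_attached
    (hcont : ∀ n : ℕ, ∃ L : IntermediateField ℚ (AlgebraicClosure ℚ), FiniteDimensional ℚ L ∧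
      ∀ σ : H53.GQ, (∀ x ∈ L, σ x = x) →
        ∀ m : M, ρM σ m - m ∈ maximalIdeal R ^ n • (⊤ : Submodule R M))
    (S : Finset ℕ)
    (hfrob : ∀ ℓ : ℕ, ℓ.Prime → ℓ ∉ S → ∀ A : ValuationSubring (AlgebraicClosure ℚ),
      A.LiesOverPrime ℓ → ∀ φ : H53.GQ, A.IsFrobeniusAt φ ℓ →
        ∀ m : M, ρM φ (ρM φ m) - LinearMap.trace R ρ.V (ρ.ρ φ) • ρM φ m
          + LinearMap.det (ρ.ρ φ) • m = 0)
    (g : H53.GQ) (m : M) :
    ρM g (ρM g m) - LinearMap.trace R ρ.V (ρ.ρ g) • ρM g m + LinearMap.det (ρ.ρ g) • m = 0 := by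
  classical
  refine IsHausdorff.haus (I := maximalIdeal R) inferInstance _ fun n => ?_
  rw [SModEq.zero]
  obtain ⟨L₁, hL₁, hL₁'⟩ := hcont n
  obtain ⟨L₃, hL₃, hL₃'⟩ := ρ.isAdicContinuous n
  haveI : FiniteDimensional ℚ (L₁ ⊔ L₃ : IntermediateField ℚ (AlgebraicClosure ℚ)) :=
    IntermediateField.finiteDimensional_sup L₁ L₃
  obtain ⟨ℓ, hℓ, hℓS, A, hA, φ, hφ, j, -, hgj, -⟩ :=
    H86.frobenius_density H86.frobDensityFinite (L₁ ⊔ L₃) g S
  have hle₁ : L₁ ≤ L₁ ⊔ L₃ := le_sup_left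
  have hle₃ : L₃ ≤ L₁ ⊔ L₃ := le_sup_right
  set τ : H53.GQ := (φ ^ j)⁻¹ * g with hτ
  have hg : g = φ ^ j * τ := by rw [hτ]; group
  have hτfix : ∀ x ∈ L₁ ⊔ L₃, τ x = x := by
    intro x hx
    rw [hτ, AlgEquiv.mul_apply, hgj x hx]
    exact (φ ^ j).symm_apply_apply x
  set I := maximalIdeal R ^ n with hI
  have hend : ∀ (f : Module.End R M) {w : M}, w ∈ I • (⊤ : Submodule R M) →
      f w ∈ I • (⊤ : Submodule R M) := by
    intro f w hw
    have h1 : f w ∈ (I • (⊤ : Submodule R M)).map f := Submodule.mem_map_of_mem hw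
    rw [Submodule.map_smul''] at h1
    exact Submodule.smul_mono le_rfl le_top h1
  have hφj : ∀ m : M, ρM g m - ρM (φ ^ j) m ∈ I • (⊤ : Submodule R M) := by
    intro m
    have : ρM g m - ρM (φ ^ j) m = ρM (φ ^ j) (ρM τ m - m) := by
      conv_lhs => rw [hg]
      rw [map_mul, Module.End.mul_apply, map_sub]
    rw [this]
    exact hend _ (hL₁' τ (fun x hx => hτfix x (hle₁ hx)) m)
  have hv : ∀ v : ρ.V, ρ.ρ g v - ρ.ρ (φ ^ j) v ∈ maximalIdeal R ^ n • (⊤ : Submodule R ρ.V) :=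
    H86.rep_sub_mem ρ hL₃' (fun x hx => hgj x (hle₃ hx))
  have htr := H86.trace_sub_mem _ _ _ hv
  have hdet := H86.det_sub_mem _ _ _ hv
  -- the relation at `φ ^ j`
  have h4 := H31.quadratic_pow (R := R) (E := Module.End R M) (LinearMap.trace R ρ.V (ρ.ρ φ))
    (LinearMap.det (ρ.ρ φ)) (ρM φ) (by
      refine LinearMap.ext fun w => ?_
      simp only [LinearMap.add_apply, LinearMap.sub_apply, Module.End.mul_apply,
        Module.algebraMap_end_apply, LinearMap.zero_apply]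
      exact hfrob ℓ hℓ hℓS A hA φ hφ w) j
  have hchar : LinearMap.charpoly (ρ.ρ φ) = X ^ 2 - C (LinearMap.trace R ρ.V (ρ.ρ φ)) * X
      + C (LinearMap.det (ρ.ρ φ)) := H86.charpoly_eq_of_finrank_two ρ.finrank_eq _
  have e1 := H31.trace_pow_of_charpoly ρ.finrank_eq (ρ.ρ φ) _ _ hchar j
  rw [← map_pow] at e1
  have e2 : LinearMap.det (ρ.ρ (φ ^ j)) = LinearMap.det (ρ.ρ φ) ^ j := by
    rw [map_pow, map_pow]
  have h5 : ρM (φ ^ j) (ρM (φ ^ j) m) - LinearMap.trace R ρ.V (ρ.ρ (φ ^ j)) • ρM (φ ^ j) m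
      + LinearMap.det (ρ.ρ (φ ^ j)) • m = 0 := by
    have := LinearMap.congr_fun h4 m
    rw [← map_pow ρM] at this
    simp only [LinearMap.add_apply, LinearMap.sub_apply, Module.End.mul_apply,
      Module.algebraMap_end_apply, LinearMap.zero_apply] at this
    rw [e1, e2]
    exact this
  have h6 : ρM g (ρM g m) - LinearMap.trace R ρ.V (ρ.ρ g) • ρM g m + LinearMap.det (ρ.ρ g) • m
      = (ρM g (ρM g m) - ρM (φ ^ j) (ρM g m)) + ρM (φ ^ j) (ρM g m - ρM (φ ^ j) m)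
        - LinearMap.trace R ρ.V (ρ.ρ (φ ^ j)) • (ρM g m - ρM (φ ^ j) m)
        - (LinearMap.trace R ρ.V (ρ.ρ g) - LinearMap.trace R ρ.V (ρ.ρ (φ ^ j))) • ρM g m
        + (LinearMap.det (ρ.ρ g) - LinearMap.det (ρ.ρ (φ ^ j))) • m := by
    rw [map_sub]
    linear_combination (norm := module) h5
  rw [h6]
  exact add_mem (sub_mem (sub_mem (add_mem (hφj _) (hend _ (hφj m)))
    (Submodule.smul_mem _ _ (hφj m))) (Submodule.smul_mem_smul htr Submodule.mem_top))
    (Submodule.smul_mem_smul hdet Submodule.mem_top)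

omit [IsHausdorff (maximalIdeal R) M] in
theorem smul_of_steinberg {g : H53.GQ} {q : ℕ} (hdet : LinearMap.det (ρ.ρ g) = (q : R))
    (hquad : ∀ m : M, ρM g (ρM g m) - LinearMap.trace R ρ.V (ρ.ρ g) • ρM g m
      + LinearMap.det (ρ.ρ g) • m = 0)
    (w : Module.End R M) (hwg : Commute w (ρM g))
    (hst : ∀ m : M, ρM g (ρM g m) + ρM g (w m) + q • w (ρM g m) + q • m = 0) (m : M) :
    LinearMap.trace R ρ.V (ρ.ρ g) • m + ((q : R) + 1) • w m = 0 := by
  have hwg' : ∀ m, w (ρM g m) = ρM g (w m) := fun m => LinearMap.congr_fun hwg.eq m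
  have hinv : ∀ m : M, ρM g (ρM g⁻¹ m) = m := by
    intro m
    rw [← Module.End.mul_apply, ← map_mul, mul_inv_cancel, map_one, Module.End.one_apply]
  have h1 := hquad (ρM g⁻¹ m)
  have h2 := hst (ρM g⁻¹ m)
  have h3 : ρM g (w (ρM g⁻¹ m)) = w m := by rw [← hwg', hinv]
  rw [hinv, hdet] at h1
  rw [hinv, h3] at h2
  have h4 : (q : ℕ) • w m = (q : R) • w m := (Nat.cast_smul_eq_nsmul R q (w m)).symm
  have h5 : (q : ℕ) • ρM g⁻¹ m = (q : R) • ρM g⁻¹ m := (Nat.cast_smul_eq_nsmul R q _).symm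
  rw [h4, h5] at h2
  linear_combination (norm := module) h2 - h1

/-- (E35) without eigenvectors: on a module where the Steinberg relation
`g² + g w + q w g + q = 0` holds, `(tr ρ(g))² - (q + 1)²` acts as zero. -/
theorem sq_trace_smul_of_steinberg {g : H53.GQ} {q : ℕ} (hdet : LinearMap.det (ρ.ρ g) = (q : R))
    (hcont : ∀ n : ℕ, ∃ L : IntermediateField ℚ (AlgebraicClosure ℚ), FiniteDimensional ℚ L ∧
      ∀ σ : H53.GQ, (∀ x ∈ L, σ x = x) →
        ∀ m : M, ρM σ m - m ∈ maximalIdeal R ^ n • (⊤ : Submodule R M))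
    (S : Finset ℕ)
    (hfrob : ∀ ℓ : ℕ, ℓ.Prime → ℓ ∉ S → ∀ A : ValuationSubring (AlgebraicClosure ℚ),
      A.LiesOverPrime ℓ → ∀ φ : H53.GQ, A.IsFrobeniusAt φ ℓ →
        ∀ m : M, ρM φ (ρM φ m) - LinearMap.trace R ρ.V (ρ.ρ φ) • ρM φ m
          + LinearMap.det (ρ.ρ φ) • m = 0)
    (w : Module.End R M) (hw : w * w = 1) (hwg : Commute w (ρM g))
    (hst : ∀ m : M, ρM g (ρM g m) + ρM g (w m) + q • w (ρM g m) + q • m = 0) (m : M) :
    (LinearMap.trace R ρ.V (ρ.ρ g) ^ 2 - ((q : R) + 1) ^ 2) • m = 0 := by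
  have h1 := smul_of_steinberg ρ ρM hdet (quadratic_of_attached ρ ρM hcont S hfrob g) w hwg hst
  have hww : ∀ m, w (w m) = m := fun m => LinearMap.congr_fun hw m
  have h2 := h1 m
  have h3 := h1 (w m)
  rw [hww] at h3
  linear_combination (norm := module) (LinearMap.trace R ρ.V (ρ.ρ g)) • h2 - ((q : R) + 1) • h3

omit [IsHausdorff (maximalIdeal R) M] in
/-- (E34) without eigenvectors: `(g - 1)² = 0` on `M` and `det ρ(g) = 1` imply `(tr ρ(g) - 2) M = 0`. -/
theorem trace_sub_two_smul {g : H53.GQ} (hdet : LinearMap.det (ρ.ρ g) = 1)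
    (hquad : ∀ m : M, ρM g (ρM g m) - LinearMap.trace R ρ.V (ρ.ρ g) • ρM g m
      + LinearMap.det (ρ.ρ g) • m = 0)
    (hsq : ∀ m : M, ρM g (ρM g m) - (2 : R) • ρM g m + m = 0) (m : M) :
    (LinearMap.trace R ρ.V (ρ.ρ g) - 2) • m = 0 := by
  have hinv : ∀ m : M, ρM g (ρM g⁻¹ m) = m := by
    intro m
    rw [← Module.End.mul_apply, ← map_mul, mul_inv_cancel, map_one, Module.End.one_apply]
  have h1 := hquad (ρM g⁻¹ m)
  have h2 := hsq (ρM g⁻¹ m)
  rw [hinv, hdet] at h1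
  rw [hinv] at h2
  linear_combination (norm := module) h2 - h1

end Fermat.Agent.H62
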