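import Fermat.Agent.H86Charpoly

/-!
# Group theory: an odd irreducible two dimensional representation is not Eisenstein
-/

set_option autoImplicit false

namespace Fermat.Agent.H62

open Module

section lin

variable {k V : Type*} [Field k] [AddCommGroup V] [Module k V]

variable (h2 : finrank k V = 2)
include h2

lemma finite_of_two : Module.Finite k V := Module.finite_of_finrank_pos (by omega)

/-- `det (f - 1) = 1 - tr f + det f` in rank two -/
lemma det_sub_one (f : Module.End k V) :
    LinearMap.det (f - 1) = 1 - LinearMap.trace k V f + LinearMap.det f := by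
  have := finite_of_two h2
  have h1 := congrArg (Polynomial.eval 1) (H86.charpoly_eq_of_finrank_two h2 f)
  rw [LinearMap.eval_charpoly] at h1
  simp only [Polynomial.eval_add, Polynomial.eval_sub, Polynomial.eval_pow, Polynomial.eval_X,
    Polynomial.eval_mul, Polynomial.eval_C, map_one] at h1
  have h3 : f - 1 = (-1 : k) • (1 - f) := by rw [neg_one_smul]; abel
  rw [h3, LinearMap.det_smul, h2, h1]
  ring

lemma det_add_one (f : Module.End k V) :
    LinearMap.det (f + 1) = 1 + LinearMap.trace k V f + LinearMap.det f := by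
  have := finite_of_two h2
  have h1 := det_sub_one h2 (-f)
  have h3 : f + 1 = (-1 : k) • (-f - 1) := by rw [neg_one_smul]; abel
  have h4 : -f = (-1 : k) • f := by rw [neg_one_smul]
  rw [h3, LinearMap.det_smul, h2, h1, map_neg, h4, LinearMap.det_smul, h2]
  ring

lemma sq_tr_eq_iff (f : Module.End k V) :
    LinearMap.trace k V f ^ 2 = (1 + LinearMap.det f) ^ 2 ↔
      LinearMap.det (f - 1) = 0 ∨ LinearMap.det (f + 1) = 0 := by
  rw [det_sub_one h2, det_add_one h2, ← mul_eq_zero]
  constructor
  · intro h; linear_combination -h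
  · intro h; linear_combination -h

lemma tr_eq_iff (f : Module.End k V) :
    LinearMap.trace k V f = 1 + LinearMap.det f ↔ LinearMap.det (f - 1) = 0 := by
  rw [det_sub_one h2]
  constructor
  · intro h; linear_combination -h
  · intro h; linear_combination -h

omit h2 in
lemma det_pow_sub_one (f : Module.End k V) (h : LinearMap.det (f - 1) = 0) (j : ℕ) :
    LinearMap.det (f ^ j - 1) = 0 := by
  obtain ⟨g, hg⟩ := sub_one_dvd_pow_sub_one f j
  rw [hg, map_mul, h, zero_mul]

omit h2 in
lemma det_pow_of_add_one (f : Module.End k V) (h : LinearMap.det (f + 1) = 0) (j : ℕ) :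
    LinearMap.det (f ^ j - 1) = 0 ∨ LinearMap.det (f ^ j + 1) = 0 := by
  have h1 : Commute f (-1 : Module.End k V) := (Commute.one_right f).neg_right
  obtain ⟨g, hg⟩ := h1.sub_dvd_pow_sub_pow j
  rw [sub_neg_eq_add] at hg
  have h3 : LinearMap.det (f ^ j - (-1) ^ j) = 0 := by rw [hg, map_mul, h, zero_mul]
  rcases neg_one_pow_eq_or (Module.End k V) j with h4 | h4
  · left; rwa [h4] at h3
  · right; rwa [h4, sub_neg_eq_add] at h3

/-- the condition `tr² = (1 + det)²` passes to powers -/
lemma sq_tr_pow (f : Module.End k V)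
    (h : LinearMap.trace k V f ^ 2 = (1 + LinearMap.det f) ^ 2) (j : ℕ) :
    LinearMap.trace k V (f ^ j) ^ 2 = (1 + LinearMap.det (f ^ j)) ^ 2 := by
  rw [sq_tr_eq_iff h2] at h ⊢
  rcases h with h | h
  · exact Or.inl (det_pow_sub_one f h j)
  · exact det_pow_of_add_one f h j

/-- the condition `tr = 1 + det` passes to powers -/
lemma tr_pow (f : Module.End k V) (h : LinearMap.trace k V f = 1 + LinearMap.det f) (j : ℕ) :
    LinearMap.trace k V (f ^ j) = 1 + LinearMap.det (f ^ j) := by
  rw [tr_eq_iff h2] at h ⊢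
  exact det_pow_sub_one f h j

omit h2 in
/-- two lines with a common nonzero vector are equal -/
lemma eq_of_mem_line {N N' : Submodule k V} (h : finrank k N = 1) (h' : finrank k N' = 1)
    {v : V} (hv : v ≠ 0) (hN : v ∈ N) (hN' : v ∈ N') : N = N' := by
  have h1 : finrank k (Submodule.span k {v}) = 1 := finrank_span_singleton hv
  have : Module.Finite k N := Module.finite_of_finrank_pos (by omega)
  have : Module.Finite k N' := Module.finite_of_finrank_pos (by omega)
  have e1 : Submodule.span k {v} = N :=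
    Submodule.eq_of_le_of_finrank_eq (by rwa [Submodule.span_singleton_le_iff_mem]) (by omega)
  have e2 : Submodule.span k {v} = N' :=
    Submodule.eq_of_le_of_finrank_eq (by rwa [Submodule.span_singleton_le_iff_mem]) (by omega)
  rw [← e1, e2]

/-- kernel and range of a nonzero endomorphism of determinant zero are lines. -/
lemma lines_of_det_eq_zero (f : Module.End k V) (hf : f ≠ 0) (hd : LinearMap.det f = 0) :
    finrank k (LinearMap.ker f) = 1 ∧ finrank k (LinearMap.range f) = 1 := by
  have := finite_of_two h2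
  have h1 := LinearMap.finrank_range_add_finrank_ker f
  have h3 : finrank k (LinearMap.ker f) ≠ 0 := by
    intro h
    have hb : LinearMap.ker f = ⊥ := Submodule.finrank_eq_zero.mp h
    have : IsUnit (LinearMap.det f) := by
      rw [← LinearMap.isUnit_iff_isUnit_det, LinearMap.isUnit_iff_ker_eq_bot]
      exact hb
    rw [hd] at this
    exact not_isUnit_zero this
  have h4 : finrank k (LinearMap.range f) ≠ 0 := by
    intro h
    exact hf (LinearMap.range_eq_bot.mp (Submodule.finrank_eq_zero.mp h))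
  omega

end lin

section rep

variable {k V G : Type*} [Field k] [AddCommGroup V] [Module k V] [Group G]
  (ρ : G →* Module.End k V)

/-- irreducibility in elementary form -/
def Irr : Prop := ∀ N : Submodule k V, (∀ g, ∀ x ∈ N, ρ g x ∈ N) → N = ⊥ ∨ N = ⊤

variable {ρ} (h2 : finrank k V = 2) (hirr : Irr ρ) (hk : (2 : k) ≠ 0)
include h2 hirr hk

/-- An odd irreducible two-dimensional representation does not commute with the odd element. -/
lemma exists_not_commute {c : G} (hc : ρ c * ρ c = 1) (hdet : LinearMap.det (ρ c) = -1) :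
    ∃ g, ρ g * ρ c ≠ ρ c * ρ g := by
  by_contra hcon
  push Not at hcon
  have hfin := finite_of_two h2
  have h11 : (1 : k) ≠ -1 := by
    intro h; apply hk
    linear_combination h
  rcases hirr (LinearMap.ker (ρ c - 1)) (by
    intro g x hx
    rw [LinearMap.mem_ker, LinearMap.sub_apply, Module.End.one_apply, sub_eq_zero] at hx ⊢
    have := LinearMap.congr_fun (hcon g) x
    rw [Module.End.mul_apply, Module.End.mul_apply, hx] at this
    exact this.symm) with h | h
  · have h3 : ρ c + 1 = 0 := by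
      ext x
      have h4 : (ρ c - 1) ((ρ c + 1) x) = 0 := by
        rw [← Module.End.mul_apply]
        have : (ρ c - 1) * (ρ c + 1) = 0 := by
          rw [sub_mul, mul_add, hc, mul_one, one_mul]; abel
        rw [this, LinearMap.zero_apply]
      have h5 : (ρ c + 1) x ∈ LinearMap.ker (ρ c - 1) := h4
      rw [h, Submodule.mem_bot] at h5
      exact h5
    have h4 : ρ c = (-1 : k) • (1 : Module.End k V) := by
      rw [neg_one_smul, ← sub_eq_zero, sub_neg_eq_add, h3]
    rw [h4, LinearMap.det_smul, h2, map_one] at hdet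
    apply h11
    linear_combination hdet
  · have h3 : ρ c - 1 = 0 := LinearMap.ker_eq_top.mp h
    rw [sub_eq_zero.mp h3, map_one] at hdet
    exact h11 hdet

/-- **NE2**, group theory. -/
theorem exists_tr_ne {c : G} (hc : ρ c * ρ c = 1) (hdet : LinearMap.det (ρ c) = -1)
    (G₁ : Subgroup G) [hn : G₁.Normal] (hcomm : ∀ g, g * c * g⁻¹ * c⁻¹ ∈ G₁) :
    ∃ g ∈ G₁, LinearMap.trace k V (ρ g) ≠ 1 + LinearMap.det (ρ g) := by
  by_contra hcon
  push Not at hcon
  have hfin := finite_of_two h2
  have hd : ∀ g ∈ G₁, LinearMap.det (ρ g - 1) = 0 := fun g hg => (tr_eq_iff h2 _).mp (hcon g hg)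
  have hinv : ∀ g : G, ρ g * ρ g⁻¹ = 1 := fun g => by rw [← map_mul, mul_inv_cancel, map_one]
  have hinv' : ∀ g : G, ρ g⁻¹ * ρ g = 1 := fun g => by rw [← map_mul, inv_mul_cancel, map_one]
  by_cases htriv : ∀ g ∈ G₁, ρ g = 1
  · obtain ⟨g, hg⟩ := exists_not_commute h2 hirr hk hc hdet
    apply hg
    have h3 := htriv _ (hcomm g)
    rw [map_mul, map_mul, map_mul] at h3
    have h4 := congrArg (fun f => f * ρ c * ρ g) h3
    simp only [one_mul] at h4
    rw [← h4]
    calc ρ g * ρ c = ρ g * ρ c * (ρ g⁻¹ * (ρ c⁻¹ * ρ c) * ρ g) := by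
          rw [hinv', mul_one, hinv', mul_one]
      _ = _ := by simp only [mul_assoc]
  · push Not at htriv
    obtain ⟨g₀, hg₀, hne₀⟩ := htriv
    have key : ∀ g ∈ G₁, ∀ h ∈ G₁, ρ g ≠ 1 → ρ h ≠ 1 →
        LinearMap.ker (ρ g - 1) = LinearMap.ker (ρ h - 1) ∨
        LinearMap.range (ρ g - 1) = LinearMap.range (ρ h - 1) := by
      intro g hg h hh hg1 hh1
      obtain ⟨lg1, lg2⟩ := lines_of_det_eq_zero h2 _ (sub_ne_zero.mpr hg1) (hd g hg)
      obtain ⟨lh1, lh2⟩ := lines_of_det_eq_zero h2 _ (sub_ne_zero.mpr hh1) (hd h hh)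
      have hgh := hd _ (G₁.mul_mem hg hh)
      obtain ⟨v, hv, hv0⟩ : ∃ v, (ρ (g * h) - 1) v = 0 ∧ v ≠ 0 := by
        by_contra hno
        push Not at hno
        have hb : LinearMap.ker (ρ (g * h) - 1) = ⊥ := by
          rw [Submodule.eq_bot_iff]
          intro x hx
          exact hno x hx
        have : IsUnit (LinearMap.det (ρ (g * h) - 1)) := by
          rw [← LinearMap.isUnit_iff_isUnit_det, LinearMap.isUnit_iff_ker_eq_bot]
          exact hb
        rw [hgh] at this
        exact not_isUnit_zero this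
      have hv' : (ρ h - 1) v = - (ρ g - 1) (ρ h v) := by
        rw [map_mul] at hv
        simp only [LinearMap.sub_apply, Module.End.mul_apply, Module.End.one_apply] at hv ⊢
        rw [sub_eq_zero] at hv
        rw [hv]; abel
      by_cases hB : (ρ h - 1) v = 0
      · left
        have hA : (ρ g - 1) v = 0 := by
          rw [hB] at hv'
          have : ρ h v = v := by
            rw [LinearMap.sub_apply, Module.End.one_apply, sub_eq_zero] at hB; exact hB
          rw [this] at hv'
          exact neg_eq_zero.mp hv'.symm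
        exact eq_of_mem_line lg1 lh1 hv0 hA hB
      · right
        refine eq_of_mem_line lg2 lh2 hB ?_ ⟨v, rfl⟩
        rw [hv']
        exact Submodule.neg_mem _ ⟨_, rfl⟩
    -- there is a nontrivial element with different kernel
    have hK : ∃ g₁ ∈ G₁, ρ g₁ ≠ 1 ∧
        LinearMap.ker (ρ g₁ - 1) ≠ LinearMap.ker (ρ g₀ - 1) := by
      by_contra hno
      push Not at hno
      rcases hirr (LinearMap.ker (ρ g₀ - 1)) (by
        intro s x hx
        by_cases h1 : ρ (s * g₀ * s⁻¹) = 1
        · exfalso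
          apply hne₀
          rw [map_mul, map_mul] at h1
          have := congrArg (fun f => ρ s⁻¹ * f * ρ s) h1
          simp only [mul_one, hinv'] at this
          rw [← this]
          calc ρ g₀ = (ρ s⁻¹ * ρ s) * ρ g₀ * (ρ s⁻¹ * ρ s) := by rw [hinv', one_mul, mul_one]
            _ = _ := by simp only [mul_assoc]
        · rw [← hno _ (hn.conj_mem _ hg₀ s) h1]
          rw [LinearMap.mem_ker, LinearMap.sub_apply, Module.End.one_apply, sub_eq_zero] at hx ⊢
          rw [map_mul, map_mul, Module.End.mul_apply, Module.End.mul_apply]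
          have : ρ s⁻¹ (ρ s x) = x := by
            rw [← Module.End.mul_apply, hinv', Module.End.one_apply]
          rw [this, hx]) with h | h
      · have := (lines_of_det_eq_zero h2 _ (sub_ne_zero.mpr hne₀) (hd g₀ hg₀)).1
        rw [h, finrank_bot] at this
        omega
      · have := (lines_of_det_eq_zero h2 _ (sub_ne_zero.mpr hne₀) (hd g₀ hg₀)).1
        rw [h, finrank_top] at this
        omega
    have hI : ∃ g₁ ∈ G₁, ρ g₁ ≠ 1 ∧
        LinearMap.range (ρ g₁ - 1) ≠ LinearMap.range (ρ g₀ - 1) := by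
      by_contra hno
      push Not at hno
      rcases hirr (LinearMap.range (ρ g₀ - 1)) (by
        intro s x hx
        by_cases h1 : ρ (s * g₀ * s⁻¹) = 1
        · exfalso
          apply hne₀
          rw [map_mul, map_mul] at h1
          have := congrArg (fun f => ρ s⁻¹ * f * ρ s) h1
          simp only [mul_one, hinv'] at this
          rw [← this]
          calc ρ g₀ = (ρ s⁻¹ * ρ s) * ρ g₀ * (ρ s⁻¹ * ρ s) := by rw [hinv', one_mul, mul_one]
            _ = _ := by simp only [mul_assoc]
        · rw [← hno _ (hn.conj_mem _ hg₀ s) h1]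
          obtain ⟨y, rfl⟩ := hx
          refine ⟨ρ s y, ?_⟩
          rw [LinearMap.sub_apply, Module.End.one_apply, map_mul, map_mul, Module.End.mul_apply,
            Module.End.mul_apply]
          have : ρ s⁻¹ (ρ s y) = y := by
            rw [← Module.End.mul_apply, hinv', Module.End.one_apply]
          rw [this, LinearMap.sub_apply, Module.End.one_apply, map_sub]) with h | h
      · have := (lines_of_det_eq_zero h2 _ (sub_ne_zero.mpr hne₀) (hd g₀ hg₀)).2
        rw [h, finrank_bot] at this
        omega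
      · have := (lines_of_det_eq_zero h2 _ (sub_ne_zero.mpr hne₀) (hd g₀ hg₀)).2
        rw [h, finrank_top] at this
        omega
    obtain ⟨g₁, hg₁, hne₁, hK₁⟩ := hK
    obtain ⟨g₂, hg₂, hne₂, hI₂⟩ := hI
    have e1 := (key g₁ hg₁ g₀ hg₀ hne₁ hne₀).resolve_left hK₁
    have e2 := (key g₂ hg₂ g₀ hg₀ hne₂ hne₀).resolve_right hI₂
    rcases key g₂ hg₂ g₁ hg₁ hne₂ hne₁ with e3 | e3
    · exact hK₁ (e3.symm.trans e2)
    · exact hI₂ (e3.trans e1)

omit hirr hk in
/-- an element of determinant one with trace `2 ε`. -/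
lemma nilp_of_tr (f : Module.End k V) {ε : k} (hε : ε ^ 2 = 1) (hd : LinearMap.det f = 1)
    (ht : LinearMap.trace k V f = 2 * ε) : (ε • f - 1) * (ε • f - 1) = 0 := by
  have hfin := finite_of_two h2
  have h := H86.sq_eq_of_finrank_two h2 f
  rw [ht, hd, one_smul] at h
  have h3 : (ε • f - 1) * (ε • f - 1) = ε ^ 2 • f ^ 2 - (2 * ε) • f + 1 := by
    rw [sub_mul, mul_sub, smul_mul_smul_comm, mul_one, one_mul, ← sq, ← sq, two_mul, add_smul]
    abel
  rw [h3, hε, one_smul, h]
  abel

omit hirr hk in
/-- trace of a product of square zero endomorphisms with different kernels is non-zero. -/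
lemma ker_eq_of_trace_eq_zero {n n' : Module.End k V} (hn : n * n = 0) (hn' : n' * n' = 0)
    (h0 : n ≠ 0) (h0' : n' ≠ 0) (ht : LinearMap.trace k V (n * n') = 0) :
    LinearMap.ker n = LinearMap.ker n' := by
  have hfin := finite_of_two h2
  have hd : LinearMap.det n = 0 := by
    have := congrArg LinearMap.det hn
    rw [map_mul, LinearMap.det_zero' (Module.finBasisOfFinrankEq k V h2)] at this
    exact mul_self_eq_zero.mp this
  have hd' : LinearMap.det n' = 0 := by
    have := congrArg LinearMap.det hn'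
    rw [map_mul, LinearMap.det_zero' (Module.finBasisOfFinrankEq k V h2)] at this
    exact mul_self_eq_zero.mp this
  obtain ⟨l1, l2⟩ := lines_of_det_eq_zero h2 n h0 hd
  obtain ⟨l1', l2'⟩ := lines_of_det_eq_zero h2 n' h0' hd'
  have hsq : (n * n') * (n * n') = 0 := by
    have h := H86.sq_eq_of_finrank_two h2 (n * n')
    rw [ht, zero_smul, map_mul, hd, zero_mul, zero_smul, sub_zero, sq] at h
    exact h
  have hr' : LinearMap.range n' = LinearMap.ker n' := by
    refine Submodule.eq_of_le_of_finrank_eq ?_ (by omega)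
    rintro _ ⟨y, rfl⟩
    rw [LinearMap.mem_ker, ← Module.End.mul_apply, hn', LinearMap.zero_apply]
  have hr : LinearMap.range n = LinearMap.ker n := by
    refine Submodule.eq_of_le_of_finrank_eq ?_ (by omega)
    rintro _ ⟨y, rfl⟩
    rw [LinearMap.mem_ker, ← Module.End.mul_apply, hn, LinearMap.zero_apply]
  by_contra hne
  obtain ⟨v, hv⟩ : ∃ v, n' v ≠ 0 := by
    by_contra hno
    push Not at hno
    exact h0' (LinearMap.ext hno)
  have s1 : n (n' v) ≠ 0 := by
    intro h
    exact hne (eq_of_mem_line l1 l1' hv h (by rw [← hr']; exact ⟨v, rfl⟩))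
  have s2 : n' (n (n' v)) ≠ 0 := by
    intro h
    exact hne (eq_of_mem_line l1 l1' s1 (by rw [← hr]; exact ⟨_, rfl⟩) h)
  have s3 : n (n' (n (n' v))) ≠ 0 := by
    intro h
    exact hne (eq_of_mem_line l1 l1' s2 h (by rw [← hr']; exact ⟨_, rfl⟩))
  apply s3
  have := LinearMap.congr_fun hsq v
  simpa only [Module.End.mul_apply, LinearMap.zero_apply] using this

/-- **NE1**, group theory. -/
theorem exists_sq_tr_ne {c : G} (hc : ρ c * ρ c = 1) (hdet : LinearMap.det (ρ c) = -1) :
    ∃ g, LinearMap.trace k V (ρ g) ^ 2 ≠ (1 + LinearMap.det (ρ g)) ^ 2 := by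
  by_contra hcon
  push Not at hcon
  have hfin := finite_of_two h2
  have hinv : ∀ g : G, ρ g * ρ g⁻¹ = 1 := fun g => by rw [← map_mul, mul_inv_cancel, map_one]
  have hinv' : ∀ g : G, ρ g⁻¹ * ρ g = 1 := fun g => by rw [← map_mul, inv_mul_cancel, map_one]
  -- sign of elements of determinant one
  have hsign : ∀ g, LinearMap.det (ρ g) = 1 → ∃ ε : k, ε ^ 2 = 1 ∧
      LinearMap.trace k V (ρ g) = 2 * ε := by
    intro g hg
    have := hcon g
    rw [hg] at this
    have h3 : (LinearMap.trace k V (ρ g) - 2) * (LinearMap.trace k V (ρ g) + 2) = 0 := by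
      linear_combination this
    rcases mul_eq_zero.mp h3 with h | h
    · exact ⟨1, by ring, by linear_combination h⟩
    · exact ⟨-1, by ring, by linear_combination h⟩
  have hsgn : ∀ ε : k, ε ^ 2 = 1 → ε = 1 ∨ ε = -1 := fun ε h => by
    have h3 : (ε - 1) * (ε + 1) = 0 := by linear_combination h
    rcases mul_eq_zero.mp h3 with h | h
    · exact Or.inl (by linear_combination h)
    · exact Or.inr (by linear_combination h)
  have htr1 : LinearMap.trace k V 1 = 2 := by
    rw [Module.End.one_eq_id, LinearMap.trace_id, h2]; norm_num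
  by_cases hA : ∃ g, LinearMap.det (ρ g) = 1 ∧ ρ g ≠ 1 ∧ ρ g ≠ -1
  · obtain ⟨g₀, hd₀, hne₀, hne₀'⟩ := hA
    -- the nilpotent part
    have hnil : ∀ g, LinearMap.det (ρ g) = 1 → ρ g ≠ 1 → ρ g ≠ -1 → ∀ ε : k, ε ^ 2 = 1 →
        LinearMap.trace k V (ρ g) = 2 * ε → (ε • ρ g - 1) * (ε • ρ g - 1) = 0 ∧
        ε • ρ g - 1 ≠ 0 := by
      intro g hd h1 h1' ε hε ht
      refine ⟨nilp_of_tr h2 _ hε hd ht, ?_⟩
      intro h0
      rcases hsgn ε hε with rfl | rfl
      · rw [one_smul] at h0; exact h1 (sub_eq_zero.mp h0)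
      · rw [neg_one_smul] at h0
        apply h1'
        rw [← neg_eq_iff_eq_neg, sub_eq_zero.mp h0]
    have hx : ∀ g h, LinearMap.det (ρ g) = 1 → LinearMap.det (ρ h) = 1 → ∀ ε δ : k, ε ^ 2 = 1 →
        δ ^ 2 = 1 → LinearMap.trace k V (ρ g) = 2 * ε → LinearMap.trace k V (ρ h) = 2 * δ →
        LinearMap.trace k V ((ε • ρ g - 1) * (δ • ρ h - 1)) = 0 := by
      intro g h hg hh ε δ hε hδ htg hth
      obtain ⟨θ, hθ, hθ'⟩ := hsign (g * h) (by rw [map_mul, map_mul, hg, hh, one_mul])
      obtain ⟨θ₂, hθ₂, hθ₂'⟩ := hsign (g * g * h) (by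
        rw [map_mul, map_mul, map_mul, map_mul, hg, hh, one_mul, one_mul])
      have e1 : LinearMap.trace k V ((ε • ρ g - 1) * (δ • ρ h - 1)) =
          ε * δ * LinearMap.trace k V (ρ (g * h)) - 2 := by
        rw [sub_mul, mul_sub, smul_mul_smul_comm, mul_one, one_mul, map_sub, map_sub, map_sub,
          map_smul, map_smul, map_smul, htr1, htg, hth, map_mul ρ]
        simp only [smul_eq_mul]
        linear_combination (-2) * hε - 2 * hδ
      have e2 : LinearMap.trace k V (ρ (g * g * h)) = 2 * ε * LinearMap.trace k V (ρ (g * h))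
          - 2 * δ := by
        have hsq := H86.sq_eq_of_finrank_two h2 (ρ g)
        rw [hg, htg, one_smul, sq] at hsq
        rw [map_mul ρ (g * g) h, map_mul ρ g g, hsq, sub_mul, smul_mul_assoc, one_mul, map_sub,
          map_smul, hth, map_mul ρ g h]
        simp only [smul_eq_mul]
      rw [e1, hθ']
      rw [hθ', hθ₂'] at e2
      -- `θ₂ = 2 ε θ - δ`
      have e3 : θ₂ = 2 * ε * θ - δ := by
        apply mul_left_cancel₀ hk
        linear_combination e2
      have e4 : (2 * ε * θ - δ) ^ 2 = 1 := by rw [← e3]; exact hθ₂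
      have e5 : 2 * 2 * (ε * θ * δ - 1) = 0 := by
        linear_combination (-1) * e4 + 4 * θ ^ 2 * hε + 4 * hθ + hδ
      have e6 : ε * θ * δ - 1 = 0 := by
        rcases mul_eq_zero.mp e5 with h | h
        · exact absurd (mul_self_eq_zero.mp h) hk
        · exact h
      linear_combination 2 * e6
    obtain ⟨ε₀, hε₀, ht₀⟩ := hsign g₀ hd₀
    obtain ⟨hn₀, hn₀'⟩ := hnil g₀ hd₀ hne₀ hne₀' ε₀ hε₀ ht₀
    have hdn₀ : LinearMap.det (ε₀ • ρ g₀ - 1) = 0 := by
      have := congrArg LinearMap.det hn₀
      rw [map_mul, LinearMap.det_zero' (Module.finBasisOfFinrankEq k V h2)] at this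
      exact mul_self_eq_zero.mp this
    have hline := (lines_of_det_eq_zero h2 _ hn₀' hdn₀).1
    rcases hirr (LinearMap.ker (ε₀ • ρ g₀ - 1)) (by
      intro s x hxm
      have hconj : ρ (s * g₀ * s⁻¹) = ρ s * ρ g₀ * ρ s⁻¹ := by rw [map_mul, map_mul]
      have hdet' : LinearMap.det (ρ (s * g₀ * s⁻¹)) = 1 := by
        rw [hconj, map_mul, map_mul, hd₀, mul_one, ← map_mul, hinv, map_one]
      have htr' : LinearMap.trace k V (ρ (s * g₀ * s⁻¹)) = 2 * ε₀ := by
        rw [hconj, LinearMap.trace_mul_comm, ← mul_assoc, hinv', one_mul, ht₀]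
      have hback : ρ g₀ = ρ s⁻¹ * ρ (s * g₀ * s⁻¹) * ρ s := by
        rw [hconj]
        calc ρ g₀ = (ρ s⁻¹ * ρ s) * ρ g₀ * (ρ s⁻¹ * ρ s) := by rw [hinv', one_mul, mul_one]
          _ = _ := by simp only [mul_assoc]
      have hne1 : ρ (s * g₀ * s⁻¹) ≠ 1 := by
        intro h; apply hne₀; rw [hback, h, mul_one, hinv']
      have hne2 : ρ (s * g₀ * s⁻¹) ≠ -1 := by
        intro h; apply hne₀'; rw [hback, h, mul_neg_one, neg_mul, hinv']
      obtain ⟨hn₁, hn₁'⟩ := hnil _ hdet' hne1 hne2 ε₀ hε₀ htr'
      have hker := ker_eq_of_trace_eq_zero h2 hn₀ hn₁ hn₀' hn₁'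
        (hx _ _ hd₀ hdet' ε₀ ε₀ hε₀ hε₀ ht₀ htr')
      rw [hker]
      rw [LinearMap.mem_ker, LinearMap.sub_apply, LinearMap.smul_apply, Module.End.one_apply,
        sub_eq_zero] at hxm ⊢
      rw [hconj, Module.End.mul_apply, Module.End.mul_apply]
      have : ρ s⁻¹ (ρ s x) = x := by
        rw [← Module.End.mul_apply, hinv', Module.End.one_apply]
      rw [this, ← map_smul, hxm]) with h | h
    · rw [h, finrank_bot] at hline; omega
    · rw [h, finrank_top] at hline; omega
  · push Not at hA
    obtain ⟨g, hg⟩ := exists_not_commute h2 hirr hk hc hdet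
    have hdκ : LinearMap.det (ρ (g * c * g⁻¹ * c⁻¹)) = 1 := by
      have h3 : LinearMap.det (ρ g) * LinearMap.det (ρ g⁻¹) = 1 := by
        rw [← map_mul, hinv, map_one]
      have h4 : LinearMap.det (ρ c) * LinearMap.det (ρ c⁻¹) = 1 := by
        rw [← map_mul, hinv, map_one]
      rw [map_mul, map_mul, map_mul, map_mul, map_mul, map_mul]
      linear_combination h3 * (LinearMap.det (ρ c) * LinearMap.det (ρ c⁻¹)) + h4
    have hback : ρ g * ρ c = ρ (g * c * g⁻¹ * c⁻¹) * (ρ c * ρ g) := by
      rw [← map_mul, ← map_mul, ← map_mul]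
      congr 1
      group
    by_cases h1 : ρ (g * c * g⁻¹ * c⁻¹) = 1
    · rw [h1, one_mul] at hback; exact hg hback
    · have h3 := hA _ hdκ h1
      rw [h3, neg_one_mul] at hback
      have htg : LinearMap.trace k V (ρ g) = 0 := by
        have h4 : ρ g = - (ρ c * ρ g * ρ c) := by
          calc ρ g = ρ g * (ρ c * ρ c) := by rw [hc, mul_one]
            _ = (ρ g * ρ c) * ρ c := by rw [mul_assoc]
            _ = _ := by rw [hback, neg_mul]
        have h5 : LinearMap.trace k V (ρ g) = - LinearMap.trace k V (ρ g) := by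
          conv_lhs => rw [h4]
          rw [map_neg, LinearMap.trace_mul_comm, ← mul_assoc, hc, one_mul]
        have h6 : 2 * LinearMap.trace k V (ρ g) = 0 := by linear_combination h5
        exact (mul_eq_zero.mp h6).resolve_left hk
      have hdg : LinearMap.det (ρ g) = -1 := by
        have h4 := hcon g
        rw [htg] at h4
        have h5 : (1 + LinearMap.det (ρ g)) ^ 2 = 0 := by rw [← h4]; ring
        have h6 := pow_eq_zero_iff two_ne_zero |>.mp h5
        linear_combination h6
      have hdgc : LinearMap.det (ρ (g * c)) = 1 := by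
        rw [map_mul, map_mul, hdg, hdet]; ring
      have htgc : LinearMap.trace k V (ρ (g * c)) = 0 := by
        have h5 : LinearMap.trace k V (ρ g * ρ c) = - LinearMap.trace k V (ρ g * ρ c) := by
          conv_lhs => rw [hback]
          rw [map_neg, LinearMap.trace_mul_comm]
        have h6 : 2 * LinearMap.trace k V (ρ g * ρ c) = 0 := by linear_combination h5
        rw [map_mul]
        exact (mul_eq_zero.mp h6).resolve_left hk
      obtain ⟨ε, hε, hε'⟩ := hsign _ hdgc
      rw [htgc] at hε'
      have : ε = 0 := (mul_eq_zero.mp hε'.symm).resolve_left hk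
      rw [this] at hε
      norm_num at hε

end rep

end Fermat.Agent.H62
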