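import Fermat.Agent.H33Field
import Fermat.Agent.H67J
import Fermat.Agent.H9LogT
import Fermat.Agent.H89HU2

/-!
# The Hecke operator `T_ℓ` on modular functions

`hf N ℓ u = N_α (β u)`; its divisor is `T_ℓ (div u)`, its `q`-expansion is
`u(q^ℓ) ∏ u(ζ^i q^{1/ℓ})`. It commutes with Galois automorphisms, Atkin–Lehner involutions and
inclusions of levels.
-/

set_option autoImplicit false
set_option linter.style.haveILetI false
set_option linter.unusedSectionVars false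

noncomputable section

open AlgebraicCurve ModularCurve IntermediateField HahnSeries Fermat.Agent.H67
open Fermat.Agent.H33 (normOp qExpand_normOp prodTwist prodTwist_mul coeffMap_normOp normOp_mul)
open Fermat.Agent.H9 (Tmul)

namespace Fermat.Agent.H62

local notation "Qb" => AlgebraicClosure ℚ
local notation "GQ" => AlgebraicClosure ℚ ≃ₐ[ℚ] AlgebraicClosure ℚ

section Series

variable {R : Type*} [CommRing R] (ℓ : ℕ) [NeZero ℓ]

theorem Tmul_mul [IsDomain R] {ζ : Rˣ} (hζ : IsPrimitiveRoot ζ ℓ) (f g : LaurentSeries R) :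
    Tmul ℓ ζ (f * g) = Tmul ℓ ζ f * Tmul ℓ ζ g := by
  rw [Tmul, Tmul, Tmul, map_mul, normOp_mul ℓ hζ]
  ring

theorem Tmul_one [IsDomain R] {ζ : Rˣ} (hζ : IsPrimitiveRoot ζ ℓ) :
    Tmul ℓ ζ (1 : LaurentSeries R) = 1 := by
  rw [Tmul, map_one, H33.normOp_one ℓ hζ, one_mul]

theorem Tmul_pow [IsDomain R] {ζ : Rˣ} (hζ : IsPrimitiveRoot ζ ℓ) (f : LaurentSeries R) (n : ℕ) :
    Tmul ℓ ζ (f ^ n) = Tmul ℓ ζ f ^ n := by
  induction n with
  | zero => rw [pow_zero, pow_zero, Tmul_one ℓ hζ]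
  | succ n ih => rw [pow_succ, pow_succ, Tmul_mul ℓ hζ, ih]

theorem coeffMap_Tmul {S : Type*} [CommRing S] (g : R →+* S) (ζ : Rˣ) (f : LaurentSeries R) :
    coeffMap g (Tmul ℓ ζ f) = Tmul ℓ (Units.map (g : R →* S) ζ) (coeffMap g f) := by
  rw [Tmul, map_mul, coeffMap_normOp, H60.coeffMap_qExpand_H60, Tmul]

theorem Tmul_C [IsDomain R] {ζ : Rˣ} (hζ : IsPrimitiveRoot ζ ℓ) (c : R) :
    Tmul ℓ ζ (HahnSeries.C c : LaurentSeries R) = HahnSeries.C (c ^ (ℓ + 1)) := by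
  have h1 : qExpand R ℓ (HahnSeries.C c : LaurentSeries R) = HahnSeries.C c := by
    rw [HahnSeries.C_apply, qExpand_single, mul_zero]
  have h2 : normOp ℓ ζ (HahnSeries.C c : LaurentSeries R) = HahnSeries.C (c ^ ℓ) := by
    apply qExpand_injective ℓ
    rw [qExpand_normOp ℓ hζ, prodTwist]
    have h3 : ∀ i, H60.twist (ζ ^ i) (HahnSeries.C c : LaurentSeries R) = HahnSeries.C c := by
      intro i
      rw [HahnSeries.C_apply, H60.twist_single, zpow_zero, Units.val_one, one_mul]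
    rw [Finset.prod_congr rfl (fun i _ => h3 i), Finset.prod_const, Finset.card_range, ← map_pow,
      HahnSeries.C_apply, qExpand_single, mul_zero]
  rw [Tmul, h1, h2, ← map_mul, ← pow_succ']

theorem Tmul_ne_zero {R : Type*} [Field R] (ℓ : ℕ) [NeZero ℓ] {ζ : Rˣ}
    (hζ : IsPrimitiveRoot ζ ℓ) {f : LaurentSeries R} (hf : f ≠ 0) : Tmul ℓ ζ f ≠ 0 := by
  intro h
  have h1 := Tmul_mul ℓ hζ f f⁻¹
  rw [mul_inv_cancel₀ hf, Tmul_one ℓ hζ, h, zero_mul] at h1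
  exact one_ne_zero h1

end Series

section Fun

variable (N ℓ : ℕ) [NeZero N] [NeZero ℓ]

/-- The Hecke operator on functions: `N_α (β u)`. -/
def hf (u : FB Qb N) : FB Qb N :=
  H60.normAlong (heckeAlphaBar Qb N ℓ) (heckeBetaBar Qb N ℓ u)

variable {N ℓ}

theorem hf_mul (u v : FB Qb N) : hf N ℓ (u * v) = hf N ℓ u * hf N ℓ v := by
  letI := algebraAlong (heckeAlphaBar Qb N ℓ)
  rw [hf, hf, hf, map_mul]
  exact map_mul (Algebra.norm (FB Qb N)) _ _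

theorem hf_one : hf N ℓ (1 : FB Qb N) = 1 := by
  letI := algebraAlong (heckeAlphaBar Qb N ℓ)
  rw [hf, map_one]
  exact map_one (Algebra.norm (FB Qb N))

theorem hf_ne_zero {u : FB Qb N} (hu : u ≠ 0) : hf N ℓ u ≠ 0 :=
  haveI : NeZero (N * ℓ) := ⟨mul_ne_zero (NeZero.ne N) (NeZero.ne ℓ)⟩
  normAlong_ne_zero' _ ((map_ne_zero _).mpr hu)

theorem hf_pow (u : FB Qb N) (n : ℕ) : hf N ℓ (u ^ n) = hf N ℓ u ^ n := by
  induction n with
  | zero => rw [pow_zero, pow_zero, hf_one]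
  | succ n ih => rw [pow_succ, pow_succ, hf_mul, ih]

theorem hf_inv {u : FB Qb N} (hu : u ≠ 0) : hf N ℓ u⁻¹ = (hf N ℓ u)⁻¹ := by
  apply eq_inv_of_mul_eq_one_left
  rw [← hf_mul, inv_mul_cancel₀ hu, hf_one]

theorem hf_zpow {u : FB Qb N} (hu : u ≠ 0) (n : ℤ) : hf N ℓ (u ^ n) = hf N ℓ u ^ n := by
  cases n with
  | ofNat n => simpa using hf_pow u n
  | negSucc n =>
    rw [zpow_negSucc, zpow_negSucc, hf_inv (pow_ne_zero _ hu), hf_pow]

/-- The divisor of `T_ℓ u`. -/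
theorem divF_hf {u : FB Qb N} (hu : u ≠ 0) :
    divF (K := Qb) (hf N ℓ u) (hf_ne_zero hu) =
      pushD (heckeAlphaBar Qb N ℓ) (pullD (heckeBetaBar Qb N ℓ) (divF u hu)) := by
  haveI : NeZero (N * ℓ) := ⟨mul_ne_zero (NeZero.ne N) (NeZero.ne ℓ)⟩
  rw [pullD_divF, pushD_divF]
  rfl

/-- The Hecke correspondence on divisors. -/
def heckeD (N ℓ : ℕ) [NeZero N] [NeZero ℓ] : Divisor Qb (FB Qb N) →+ Divisor Qb (FB Qb N) :=
  haveI : NeZero (N * ℓ) := ⟨mul_ne_zero (NeZero.ne N) (NeZero.ne ℓ)⟩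
  (pushD (heckeAlphaBar Qb N ℓ)).comp (pullD (heckeBetaBar Qb N ℓ))

theorem degree_heckeD {D : Divisor Qb (FB Qb N)} (hD : Divisor.degree D = 0) :
    Divisor.degree (heckeD N ℓ D) = 0 := by
  haveI : NeZero (N * ℓ) := ⟨mul_ne_zero (NeZero.ne N) (NeZero.ne ℓ)⟩
  show Divisor.degree (pushD (heckeAlphaBar Qb N ℓ) (pullD (heckeBetaBar Qb N ℓ) D)) = 0
  rw [degree_pushD, degree_pullD, hD, mul_zero]

theorem ord_hf {u : FB Qb N} (hu : u ≠ 0) {d : ℤ} {D : Divisor Qb (FB Qb N)}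
    (h : ∀ v : Place Qb (FB Qb N), v.ord u = d * D v) (v : Place Qb (FB Qb N)) :
    v.ord (hf N ℓ u) = d * heckeD N ℓ D v := by
  have h1 : divF u hu = d • D := by
    ext w
    rw [divF_apply, h, Finsupp.smul_apply, smul_eq_mul]
  rw [← divF_apply (K := Qb) (hf N ℓ u) (hf_ne_zero hu), divF_hf hu, h1, map_zsmul, map_zsmul,
    Finsupp.smul_apply, smul_eq_mul]
  rfl

/-- `T_ℓ` on classes. -/
theorem heckeOperatorAlong_mk (D : Divisor.degZero (K := Qb) (F := FB Qb N)) :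
    heckeOperatorAlong Qb N ℓ (Pic0.mk D) = Pic0.mk ⟨heckeD N ℓ D, degree_heckeD D.2⟩ := by
  rw [heckeOperatorAlong_eq_calc]
  rfl

variable [hℓ : Fact ℓ.Prime]

/-- The `q`-expansion of `T_ℓ u`. -/
theorem coe_hf (hℓN : ¬ ℓ ∣ N) {ζ : Qbˣ} (hζ : IsPrimitiveRoot ζ ℓ) (u : FB Qb N) :
    ((hf N ℓ u : FB Qb N) : LaurentSeries Qb) = Tmul ℓ ζ (u : LaurentSeries Qb) :=
  H33.coe_heckeNorm hℓN hζ u

theorem exists_primitiveRoot (ℓ : ℕ) [Fact ℓ.Prime] : ∃ ζ : Qbˣ, IsPrimitiveRoot ζ ℓ := by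
  haveI : NeZero (ℓ : Qb) := ⟨Nat.cast_ne_zero.mpr (Fact.out : ℓ.Prime).ne_zero⟩
  obtain ⟨z, hz⟩ := HasEnoughRootsOfUnity.exists_primitiveRoot Qb ℓ
  obtain ⟨u, hu⟩ := hz.isUnit (Fact.out : ℓ.Prime).ne_zero
  exact ⟨u, by rw [← IsPrimitiveRoot.coe_units_iff, hu]; exact hz⟩

theorem hf_algebraMap (hℓN : ¬ ℓ ∣ N) (c : Qb) :
    hf N ℓ (algebraMap Qb (FB Qb N) c) = algebraMap Qb (FB Qb N) (c ^ (ℓ + 1)) := by
  obtain ⟨ζ, hζ⟩ := exists_primitiveRoot ℓ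
  apply Subtype.ext
  rw [coe_hf hℓN hζ]
  have h : ∀ c : Qb, ((algebraMap Qb (FB Qb N) c : FB Qb N) : LaurentSeries Qb) =
      HahnSeries.C c := fun c => by
    show algebraMap Qb (LaurentSeries Qb) c = _
    rw [algebraMap_laurentSeries_eq_single, HahnSeries.C_apply]
  rw [h, h]
  exact Tmul_C ℓ hζ c

/-- `T_ℓ` commutes with Galois automorphisms. -/
theorem smul_hf (hℓN : ¬ ℓ ∣ N) (σ : GQ) (u : FB Qb N) :
    arithmeticGalois (modularFunctionFieldFull N) σ • hf N ℓ u =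
      hf N ℓ (arithmeticGalois (modularFunctionFieldFull N) σ • u) := by
  obtain ⟨ζ, hζ⟩ := exists_primitiveRoot ℓ
  apply Subtype.ext
  rw [coe_arithmeticGalois_smul, coe_hf hℓN hζ, coeffMap_Tmul,
    coe_hf hℓN (ζ := Units.map ((σ : Qb →+* Qb) : Qb →* Qb) ζ), coe_arithmeticGalois_smul]
  exact hζ.map_of_injective (Units.map_injective (σ.injective))

/-- `T_ℓ` commutes with Atkin–Lehner involutions `W_Q`. -/
theorem W_hf {B Q : ℕ} {W : FB Qb N ≃ₐ[Qb] FB Qb N} (hW : IsAL B Q W) (hN : N = B * Q)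
    (hc : B.Coprime Q) (hℓN : ¬ ℓ ∣ N) (u : FB Qb N) : W (hf N ℓ u) = hf N ℓ (W u) := by
  haveI : NeZero (N * ℓ) := ⟨mul_ne_zero (NeZero.ne N) (NeZero.ne ℓ)⟩
  have hr : (ℓ : ℕ).Coprime Q :=
    (Nat.Prime.coprime_iff_not_dvd Fact.out).mpr fun h => hℓN (hN ▸ h.trans (dvd_mul_left _ _))
  have hR' : N * ℓ = B * ℓ * Q := by rw [hN]; ring
  have hc' : (B * ℓ).Coprime Q := hc.mul_left hr
  obtain ⟨W', hW'⟩ := exists_isAL (L := Qb) embQbar hR' hc'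
  have h1 : N * 1 ∣ N * ℓ := mul_dvd_mul_left _ (one_dvd ℓ)
  have e1 := hW.comp_dg hN hc hR' hc' hW' (d := 1) (mul_dvd_mul_left _ (one_dvd ℓ)) h1
  have e2 := hW.comp_dg hN hc hR' hc' hW' (d := ℓ) dvd_rfl dvd_rfl
  have e1' : ∀ x, W' (heckeAlphaBar Qb N ℓ x) = heckeAlphaBar Qb N ℓ (W x) := by
    intro x
    rw [alpha_eq_dg]
    exact AlgHom.congr_fun e1 x
  have e2' : ∀ x, W' (heckeBetaBar Qb N ℓ x) = heckeBetaBar Qb N ℓ (W x) := by
    intro x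
    rw [beta_eq_dg]
    exact AlgHom.congr_fun e2 x
  rw [hf, hf, ← e2']
  letI := algebraAlong (heckeAlphaBar Qb N ℓ)
  have h3 := Algebra.norm_eq_of_equiv_equiv (A₁ := FB Qb N) (B₁ := FB Qb (N * ℓ))
    (A₂ := FB Qb N) (B₂ := FB Qb (N * ℓ)) (W : FB Qb N ≃+* FB Qb N)
    (W' : FB Qb (N * ℓ) ≃+* FB Qb (N * ℓ)) (RingHom.ext fun x => (e1' x).symm)
    (heckeBetaBar Qb N ℓ u)
  exact ((W : FB Qb N ≃+* FB Qb N).eq_symm_apply.mp h3)

/-- `T_ℓ` commutes with inclusions of levels. -/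
theorem dg_one_hf {M : ℕ} [NeZero M] (h : M * 1 ∣ N) (hℓN : ¬ ℓ ∣ N) (u : FB Qb M) :
    dg Qb 1 h (hf M ℓ u) = hf N ℓ (dg Qb 1 h u) := by
  have hℓM : ¬ ℓ ∣ M := fun h1 => hℓN (h1.trans (by simpa using h))
  obtain ⟨ζ, hζ⟩ := exists_primitiveRoot ℓ
  apply Subtype.ext
  rw [coe_dg, qExpand_one_apply, coe_hf hℓM hζ, coe_hf hℓN hζ, coe_dg, qExpand_one_apply]

end Fun

end Fermat.Agent.H62
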