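import Fermat.Agent.H62P4A
import Fermat.Agent.H35Geo3
import Fermat.Agent.H13MzP3

/-!
# The geometric input of Mazur's principle from the node formula
-/

set_option autoImplicit false
set_option linter.unusedSectionVars false
set_option linter.style.haveILetI false

noncomputable section

open AlgebraicCurve ModularCurve IntermediateField HahnSeries Fermat.Agent.H67
open Fermat.Agent.H35.Geo Fermat.Agent.H35

namespace Fermat.Agent.H62

local notation "Qb" => AlgebraicClosure ℚ

theorem valInput {q : ℕ} (hq : q.Prime) (N : ℕ) [NeZero N] {A : ValuationSubring Qb}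
    (hA : A.LiesOverPrime q) : ValInput q N A (IsLocalRing.residue A) := by
  intro u hu0 hu
  haveI : Fact q.Prime := ⟨hq⟩
  exact exists_hasG hA IsLocalRing.residue_surjective hu0 hu

theorem nInput {q : ℕ} (hq : q.Prime) (d M : ℕ) [NeZero M] [NeZero (M * q)] (hd : d ≠ 0)
    {A : ValuationSubring Qb} (hA : A.LiesOverPrime q) :
    NInput d M q A (IsLocalRing.residue A) := by
  intro hc
  haveI : Fact q.Prime := ⟨hq⟩
  haveI : CharP (IsLocalRing.ResidueField A) q := H05.charP_residueField hq hA
  obtain ⟨n, h1, h2, h3⟩ := exists_n (d := d) hc hA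
    (IsLocalRing.residue_surjective (R := A)) hd
  refine ⟨n, h1, fun ℓ hℓ x x' hx => h2 ℓ hℓ x x' ?_, h3⟩
  rw [hx]
  exact (heckeModuleBar_heckeGen_smul (heckeOperatorsCommuteBar (M * q)) ℓ _).symm

/-- **The geometric input of Mazur's principle from the node formula.** -/
theorem mazurInput_of_node {M q c d d' : ℕ} [NeZero M] [NeZero q] [NeZero (M * q)]
    (hq : q.Prime) (hqM : ¬ q ∣ M) (hd : d = c * d') (hdq : ¬ q ∣ d)
    (hnode : ∀ A : ValuationSubring Qb, A.LiesOverPrime q →
      NodeInput d c q M A (IsLocalRing.residue A)) :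
    MazurInput d c q M := by
  have hd0 : d ≠ 0 := by
    rintro rfl
    exact hdq (dvd_zero q)
  have hd'0 : d' ≠ 0 := fun h => hd0 (by rw [hd, h, mul_zero])
  have hqd' : ¬ q ∣ d' := fun h => hdq (hd ▸ h.mul_left c)
  exact mazurInput_of hq hqM hd hdq (fun A hA => nInput hq d M hd0 hA)
    (fun A hA => valInput hq (M * q) hA) hnode
    (fun A hA => H13.Mz.liftInput hq hA M hqM hd'0)
    (fun A hA => H13.Mz.injInput hq hA M hqM hqd')

/-- **`MazurTwo` from the node formula at `2`-power torsion, with loss `2`.** -/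
theorem mazurTwo_of_node
    (H : ∀ (q M m : ℕ) [NeZero q] [NeZero M] [NeZero (M * q)], q.Prime → q ≠ 2 → 2 ∣ M → ¬ q ∣ M →
      ∀ A : ValuationSubring Qb, A.LiesOverPrime q →
        NodeInput (2 * 2 ^ m) 2 q M A (IsLocalRing.residue A)) : MazurTwo := by
  refine mazurTwo_of fun q M m _ _ _ hq hq2 h2M hqM A hA => ?_
  have h2 : ¬ q ∣ 2 ^ m := fun h =>
    hq2 ((Nat.prime_dvd_prime_iff_eq hq Nat.prime_two).mp (hq.dvd_of_dvd_pow h))
  exact ⟨nInput hq _ M (by positivity) hA, valInput hq (M * q) hA, H q M m hq hq2 h2M hqM A hA,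
    H13.Mz.liftInput hq hA M hqM (by positivity), H13.Mz.injInput hq hA M hqM h2⟩

end Fermat.Agent.H62
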