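import Mathlib

/-!
# Primitive polynomial vectors (heights on projective space over `K(t)`)

`Prim v d`: the vector `v` over `K[X]` is nonzero modulo every maximal ideal, has entries of
degree at most `d`, and its vector of coefficients of degree `d` is non-zero.
-/

set_option autoImplicit false

namespace Fermat.Agent.H62

open Polynomial

variable {K : Type*} [Field K]

/-- `P` has degree at most `n`, with coefficient of degree `n` equal to `c` -/
def Lead (n : ℕ) (P : K[X]) (c : K) : Prop := P.natDegree ≤ n ∧ P.coeff n = c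

lemma Lead.mul {n m : ℕ} {P Q : K[X]} {c d : K} (hP : Lead n P c) (hQ : Lead m Q d) :
    Lead (n + m) (P * Q) (c * d) :=
  ⟨natDegree_mul_le_of_le hP.1 hQ.1, by rw [coeff_mul_add_eq_of_natDegree_le hP.1 hQ.1, hP.2, hQ.2]⟩

lemma Lead.add {n : ℕ} {P Q : K[X]} {c d : K} (hP : Lead n P c) (hQ : Lead n Q d) :
    Lead n (P + Q) (c + d) :=
  ⟨natDegree_add_le_of_degree_le hP.1 hQ.1, by rw [coeff_add, hP.2, hQ.2]⟩

lemma Lead.neg {n : ℕ} {P : K[X]} {c : K} (hP : Lead n P c) :
    Lead n (-P) (-c) :=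
  ⟨by rw [natDegree_neg]; exact hP.1, by rw [coeff_neg, hP.2]⟩

lemma Lead.sub {n : ℕ} {P Q : K[X]} {c d : K} (hP : Lead n P c) (hQ : Lead n Q d) :
    Lead n (P - Q) (c - d) := by
  rw [sub_eq_add_neg, sub_eq_add_neg]; exact hP.add hQ.neg

lemma Lead.C_mul {n : ℕ} {P : K[X]} {c : K} (a : K) (hP : Lead n P c) :
    Lead n (C a * P) (a * c) :=
  ⟨(natDegree_C_mul_le _ _).trans hP.1, by rw [coeff_C_mul, hP.2]⟩

lemma Lead.pow {n : ℕ} {P : K[X]} {c : K} (hP : Lead n P c) (m : ℕ) :
    Lead (m * n) (P ^ m) (c ^ m) := by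
  induction m with
  | zero => exact ⟨by simp, by simp⟩
  | succ m ih =>
    rw [pow_succ, pow_succ, Nat.succ_mul]
    exact ih.mul hP

lemma Lead.zero (n : ℕ) : Lead n (0 : K[X]) 0 := ⟨by simp, by simp⟩

lemma Lead.sum {ι : Type*} (s : Finset ι) {n : ℕ} {P : ι → K[X]} {c : ι → K}
    (h : ∀ i ∈ s, Lead n (P i) (c i)) : Lead n (∑ i ∈ s, P i) (∑ i ∈ s, c i) := by
  classical
  induction s using Finset.induction_on with
  | empty => simpa using Lead.zero n
  | insert a s ha ih =>
    rw [Finset.sum_insert ha, Finset.sum_insert ha]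
    exact (h a (Finset.mem_insert_self _ _)).add
      (ih fun i hi => h i (Finset.mem_insert_of_mem hi))

lemma Lead.of_le {n : ℕ} {P : K[X]} (h : P.natDegree ≤ n) : Lead n P (P.coeff n) := ⟨h, rfl⟩

/-- The vector `v` is primitive of degree `d`. -/
structure Prim {ι : Type*} (v : ι → K[X]) (d : ℕ) : Prop where
  unim : ∀ I : Ideal K[X], I.IsMaximal → ∃ i, v i ∉ I
  le : ∀ i, (v i).natDegree ≤ d
  lead : ∃ i, (v i).coeff d ≠ 0

section

variable {ι : Type*}

lemma Prim.exists_bezout [Fintype ι] {v : ι → K[X]} {d : ℕ} (h : Prim v d) :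
    ∃ u : ι → K[X], ∑ i, u i * v i = 1 := by
  have : Ideal.span (Set.range v) = ⊤ := by
    by_contra hne
    obtain ⟨m, hm, hle⟩ := Ideal.exists_le_maximal _ hne
    obtain ⟨i, hi⟩ := h.unim m hm
    exact hi (hle (Ideal.subset_span ⟨i, rfl⟩))
  have h1 : (1 : K[X]) ∈ Ideal.span (Set.range v) := by rw [this]; trivial
  exact Ideal.mem_span_range_iff_exists_fun.mp h1

/-- Two proportional primitive vectors differ by a constant. -/
lemma Prim.exists_const [Fintype ι] {F : Type*} [Field F] (f : K[X] →+* F)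
    (hf : Function.Injective f) {v w : ι → K[X]} {d e : ℕ} (hv : Prim v d) (hw : Prim w e)
    {c : F} (hc : c ≠ 0) (h : ∀ i, c * f (v i) = f (w i)) :
    ∃ γ : K, γ ≠ 0 ∧ c = f (C γ) ∧ ∀ i, w i = C γ * v i := by
  obtain ⟨u, hu⟩ := hv.exists_bezout
  obtain ⟨u', hu'⟩ := hw.exists_bezout
  have h1 : c = f (∑ i, u i * w i) := by
    calc c = c * f (∑ i, u i * v i) := by rw [hu]; simp
      _ = ∑ i, f (u i) * (c * f (v i)) := by
        rw [map_sum, Finset.mul_sum]
        refine Finset.sum_congr rfl fun i _ => ?_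
        rw [map_mul]; ring
      _ = _ := by
        rw [map_sum]
        refine Finset.sum_congr rfl fun i _ => ?_
        rw [h, map_mul]
  have h2 : c⁻¹ = f (∑ i, u' i * v i) := by
    calc c⁻¹ = c⁻¹ * f (∑ i, u' i * w i) := by rw [hu']; simp
      _ = ∑ i, f (u' i) * (c⁻¹ * f (w i)) := by
        rw [map_sum, Finset.mul_sum]
        refine Finset.sum_congr rfl fun i _ => ?_
        rw [map_mul]; ring
      _ = _ := by
        rw [map_sum]
        refine Finset.sum_congr rfl fun i _ => ?_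
        rw [← h, inv_mul_cancel_left₀ hc, map_mul]
  have h3 : (∑ i, u i * w i) * (∑ i, u' i * v i) = 1 := by
    apply hf
    rw [map_mul, ← h1, ← h2, map_one, mul_inv_cancel₀ hc]
  have hunit : IsUnit (∑ i, u i * w i) := IsUnit.of_mul_eq_one _ h3
  obtain ⟨γ, hγ, hγ'⟩ := Polynomial.isUnit_iff.mp hunit
  refine ⟨γ, hγ.ne_zero, by rw [h1, hγ'], fun i => hf ?_⟩
  rw [map_mul, hγ', ← h1, h]

lemma Prim.eq_of_smul [Fintype ι] {F : Type*} [Field F] (f : K[X] →+* F)
    (hf : Function.Injective f) {v w : ι → K[X]} {d e : ℕ} (hv : Prim v d) (hw : Prim w e)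
    {c : F} (hc : c ≠ 0) (h : ∀ i, c * f (v i) = f (w i)) : d = e := by
  obtain ⟨γ, hγ, -, hw'⟩ := hv.exists_const f hf hw hc h
  apply le_antisymm
  · obtain ⟨i, hi⟩ := hv.lead
    by_contra hlt
    push Not at hlt
    have : (w i).coeff d = 0 :=
      coeff_eq_zero_of_natDegree_lt (lt_of_le_of_lt (hw.le i) hlt)
    rw [hw' i, coeff_C_mul] at this
    exact mul_ne_zero hγ hi this
  · obtain ⟨i, hi⟩ := hw.lead
    by_contra hlt
    push Not at hlt
    have : (v i).coeff e = 0 :=
      coeff_eq_zero_of_natDegree_lt (lt_of_le_of_lt (hv.le i) hlt)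
    rw [hw' i, coeff_C_mul, this, mul_zero] at hi
    exact hi rfl

end

/-- A coprime pair is primitive. -/
lemma Prim.of_isCoprime {A B : K[X]} (h : IsCoprime A B) :
    Prim ![A, B] (max A.natDegree B.natDegree) where
  unim I hI := by
    by_contra hcon
    push Not at hcon
    obtain ⟨a, b, hab⟩ := h
    apply hI.ne_top
    rw [Ideal.eq_top_iff_one, ← hab]
    exact I.add_mem (I.mul_mem_left _ (hcon 0)) (I.mul_mem_left _ (hcon 1))
  le i := by
    fin_cases i
    · simp
    · simp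
  lead := by
    rcases le_total A.natDegree B.natDegree with hle | hle
    · rw [max_eq_right hle]
      by_cases hB : B = 0
      · refine ⟨0, ?_⟩
        subst hB
        have hA : IsUnit A := isCoprime_zero_right.mp h
        have h0 : A.natDegree = 0 := by simpa using hle
        have := leadingCoeff_ne_zero.mpr hA.ne_zero
        rw [leadingCoeff, h0] at this
        simpa using this
      · exact ⟨1, by simpa using hB⟩
    · rw [max_eq_left hle]
      by_cases hA : A = 0
      · refine ⟨1, ?_⟩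
        subst hA
        have hB : IsUnit B := isCoprime_zero_left.mp h
        have h0 : B.natDegree = 0 := by simpa using hle
        have := leadingCoeff_ne_zero.mpr hB.ne_zero
        rw [leadingCoeff, h0] at this
        simpa using this
      · exact ⟨0, by simpa using hA⟩

lemma Prim.isCoprime {A B : K[X]} {d : ℕ} (h : Prim ![A, B] d) : IsCoprime A B := by
  obtain ⟨u, hu⟩ := h.exists_bezout
  exact ⟨u 0, u 1, by simpa [Fin.sum_univ_two] using hu⟩

lemma Prim.eq_max {A B : K[X]} {d : ℕ} (h : Prim ![A, B] d) :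
    d = max A.natDegree B.natDegree :=
  (h.eq_of_smul (RingHom.id K[X] |> (algebraMap K[X] (FractionRing K[X])).comp)
    (by simpa using IsFractionRing.injective K[X] (FractionRing K[X]))
    (Prim.of_isCoprime h.isCoprime) one_ne_zero (fun i => by simp))

lemma sym2_ne_zero {R : Type*} [CommRing R] [IsDomain R] {α β α' β' : R}
    (h : α ≠ 0 ∨ β ≠ 0) (h' : α' ≠ 0 ∨ β' ≠ 0) :
    ¬ (α * α' = 0 ∧ α * β' + β * α' = 0 ∧ β * β' = 0) := by
  rintro ⟨h1, h2, h3⟩
  rcases mul_eq_zero.mp h1 with ha | ha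
  · subst ha
    have hβ : β ≠ 0 := by simpa using h
    have hβ' : β' = 0 := (mul_eq_zero.mp h3).resolve_left hβ
    subst hβ'
    have : α' ≠ 0 := by simpa using h'
    simp [hβ, this] at h2
  · subst ha
    have hβ' : β' ≠ 0 := by simpa using h'
    have hβ : β = 0 := (mul_eq_zero.mp h3).resolve_right hβ'
    subst hβ
    have : α ≠ 0 := by simpa using h
    simp [hβ', this] at h2

lemma addSub_ne_zero {κ : Type*} [Field κ] (W : WeierstrassCurve κ) [W.IsElliptic]
    {α β α' β' : κ} (h : α ≠ 0 ∨ β ≠ 0) (h' : α' ≠ 0 ∨ β' ≠ 0) :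
    ¬ ((α * α') ^ 2 - W.b₄ * (α * α') * (β * β') - W.b₆ * (α * β' + β * α') * (β * β')
        - W.b₈ * (β * β') ^ 2 = 0 ∧
      2 * (α * β' + β * α') * (α * α') + W.b₂ * (α * α') * (β * β')
        + W.b₄ * (α * β' + β * α') * (β * β') + W.b₆ * (β * β') ^ 2 = 0 ∧
      (α * β' - β * α') ^ 2 = 0) := by
  rintro ⟨h1, h2, h3⟩
  have hx : (![α * α', α * β' + β * α', β * β'] : Fin 3 → κ) ≠ 0 := by
    intro h0
    apply sym2_ne_zero h h'
    exact ⟨by simpa using congrFun h0 0, by simpa using congrFun h0 1,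
      by simpa using congrFun h0 2⟩
  apply W.addSubMap_ne_zero hx
  funext i
  fin_cases i
  · simp only [WeierstrassCurve.addSubMap]
    simp only [Fin.zero_eta, Matrix.cons_val_zero, map_sub, map_mul, map_pow,
      MvPolynomial.eval_X, MvPolynomial.eval_C, Matrix.cons_val_one, Matrix.cons_val,
      Pi.zero_apply]
    linear_combination h1
  · simp only [WeierstrassCurve.addSubMap]
    simp only [Fin.mk_one, Matrix.cons_val_zero, map_add, map_mul, map_pow,
      MvPolynomial.eval_X, MvPolynomial.eval_C, Matrix.cons_val_one, Matrix.cons_val,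
      Pi.zero_apply]
    linear_combination h2
  · simp only [WeierstrassCurve.addSubMap]
    simp only [Fin.reduceFinMk, Matrix.cons_val_zero, map_sub, map_mul, map_pow,
      MvPolynomial.eval_X, MvPolynomial.eval_C, Matrix.cons_val_one, Matrix.cons_val,
      Pi.zero_apply]
    linear_combination h3


lemma Prim.lead_or {A B : K[X]} {d : ℕ} (h : Prim ![A, B] d) : A.coeff d ≠ 0 ∨ B.coeff d ≠ 0 := by
  obtain ⟨i, hi⟩ := h.lead
  fin_cases i
  · left; simpa using hi
  · right; simpa using hi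

lemma Prim.unim_or {A B : K[X]} {d : ℕ} (h : Prim ![A, B] d) (I : Ideal K[X]) (hI : I.IsMaximal) :
    A ∉ I ∨ B ∉ I := by
  obtain ⟨i, hi⟩ := h.unim I hI
  fin_cases i
  · left; simpa using hi
  · right; simpa using hi

lemma Prim.sym2 {A B A' B' : K[X]} {d d' : ℕ} (h : Prim ![A, B] d) (h' : Prim ![A', B'] d') :
    Prim ![A * A', A * B' + B * A', B * B'] (d + d') where
  unim I hI := by
    by_contra hcon
    push Not at hcon
    have hne := h.unim_or I hI
    have hne' := h'.unim_or I hI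
    have : IsDomain (K[X] ⧸ I) := (Ideal.Quotient.isDomain_iff_prime I).mpr hI.isPrime
    refine sym2_ne_zero (R := K[X] ⧸ I) (α := Ideal.Quotient.mk I A) (β := Ideal.Quotient.mk I B)
      (α' := Ideal.Quotient.mk I A') (β' := Ideal.Quotient.mk I B') ?_ ?_ ⟨?_, ?_, ?_⟩
    · simpa only [ne_eq, Ideal.Quotient.eq_zero_iff_mem] using hne
    · simpa only [ne_eq, Ideal.Quotient.eq_zero_iff_mem] using hne'
    · rw [← map_mul, Ideal.Quotient.eq_zero_iff_mem]; exact hcon 0
    · rw [← map_mul, ← map_mul, ← map_add, Ideal.Quotient.eq_zero_iff_mem]; exact hcon 1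
    · rw [← map_mul, Ideal.Quotient.eq_zero_iff_mem]; exact hcon 2
  le i := by
    have hA := h.le 0
    have hB := h.le 1
    have hA' := h'.le 0
    have hB' := h'.le 1
    simp only [Matrix.cons_val_zero, Matrix.cons_val_one] at hA hB hA' hB'
    fin_cases i
    · exact natDegree_mul_le_of_le hA hA'
    · exact natDegree_add_le_of_degree_le (natDegree_mul_le_of_le hA hB')
        (natDegree_mul_le_of_le hB hA')
    · exact natDegree_mul_le_of_le hB hB'
  lead := by
    have hA : Lead d A _ := Lead.of_le (h.le 0)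
    have hB : Lead d B _ := Lead.of_le (h.le 1)
    have hA' : Lead d' A' _ := Lead.of_le (h'.le 0)
    have hB' : Lead d' B' _ := Lead.of_le (h'.le 1)
    by_contra hcon
    push Not at hcon
    refine sym2_ne_zero h.lead_or h'.lead_or ⟨?_, ?_, ?_⟩
    · rw [← (hA.mul hA').2]; exact hcon 0
    · rw [← ((hA.mul hB').add (hB.mul hA')).2]; exact hcon 1
    · rw [← (hB.mul hB').2]; exact hcon 2

/-- first component of the addition-subtraction form -/
noncomputable def as0 {R : Type*} [CommRing R] (b₄ b₆ b₈ α β α' β' : R) : R :=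
  (α * α') ^ 2 - b₄ * ((α * α') * (β * β')) - b₆ * ((α * β' + β * α') * (β * β'))
    - b₈ * (β * β') ^ 2

/-- second component of the addition-subtraction form -/
noncomputable def as1 {R : Type*} [CommRing R] (b₂ b₄ b₆ α β α' β' : R) : R :=
  ((α * β' + β * α') * (α * α') + (α * β' + β * α') * (α * α')) + b₂ * ((α * α') * (β * β'))
    + b₄ * ((α * β' + β * α') * (β * β')) + b₆ * (β * β') ^ 2

/-- third component of the addition-subtraction form -/
noncomputable def as2 {R : Type*} [CommRing R] (α β α' β' : R) : R := (α * β' - β * α') ^ 2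

lemma as_ne_zero {κ : Type*} [Field κ] (W : WeierstrassCurve κ) [W.IsElliptic]
    {α β α' β' : κ} (h : α ≠ 0 ∨ β ≠ 0) (h' : α' ≠ 0 ∨ β' ≠ 0) :
    ¬ (as0 W.b₄ W.b₆ W.b₈ α β α' β' = 0 ∧ as1 W.b₂ W.b₄ W.b₆ α β α' β' = 0 ∧
      as2 α β α' β' = 0) := by
  rintro ⟨h1, h2, h3⟩
  refine addSub_ne_zero W h h' ⟨?_, ?_, h3⟩
  · rw [← h1, as0]; ring
  · rw [← h2, as1]; ring

lemma map_as0 {R S : Type*} [CommRing R] [CommRing S] (f : R →+* S) (b₄ b₆ b₈ α β α' β' : R) :
    f (as0 b₄ b₆ b₈ α β α' β') = as0 (f b₄) (f b₆) (f b₈) (f α) (f β) (f α') (f β') := by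
  simp [as0]

lemma map_as1 {R S : Type*} [CommRing R] [CommRing S] (f : R →+* S) (b₂ b₄ b₆ α β α' β' : R) :
    f (as1 b₂ b₄ b₆ α β α' β') = as1 (f b₂) (f b₄) (f b₆) (f α) (f β) (f α') (f β') := by
  simp [as1]

lemma map_as2 {R S : Type*} [CommRing R] [CommRing S] (f : R →+* S) (α β α' β' : R) :
    f (as2 α β α' β') = as2 (f α) (f β) (f α') (f β') := by
  simp [as2]

lemma Lead.as0 {A B A' B' : K[X]} {d d' : ℕ} {α β α' β' : K} (b₄ b₆ b₈ : K)
    (hA : Lead d A α) (hB : Lead d B β) (hA' : Lead d' A' α') (hB' : Lead d' B' β') :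
    Lead (2 * (d + d')) (as0 (C b₄) (C b₆) (C b₈) A B A' B') (H62.as0 b₄ b₆ b₈ α β α' β') := by
  have h1 := (hA.mul hA').pow 2
  have h2 := (hA.mul hA').mul (hB.mul hB')
  have h3 := ((hA.mul hB').add (hB.mul hA')).mul (hB.mul hB')
  have h4 := (hB.mul hB').pow 2
  rw [← two_mul] at h2 h3
  exact ((h1.sub (h2.C_mul b₄)).sub (h3.C_mul b₆)).sub (h4.C_mul b₈)

lemma Lead.as1 {A B A' B' : K[X]} {d d' : ℕ} {α β α' β' : K} (b₂ b₄ b₆ : K)
    (hA : Lead d A α) (hB : Lead d B β) (hA' : Lead d' A' α') (hB' : Lead d' B' β') :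
    Lead (2 * (d + d')) (as1 (C b₂) (C b₄) (C b₆) A B A' B') (H62.as1 b₂ b₄ b₆ α β α' β') := by
  have h1 := ((hA.mul hB').add (hB.mul hA')).mul (hA.mul hA')
  have h2 := (hA.mul hA').mul (hB.mul hB')
  have h3 := ((hA.mul hB').add (hB.mul hA')).mul (hB.mul hB')
  have h4 := (hB.mul hB').pow 2
  rw [← two_mul] at h1 h2 h3
  exact (((h1.add h1).add (h2.C_mul b₂)).add (h3.C_mul b₄)).add (h4.C_mul b₆)

lemma Lead.as2 {A B A' B' : K[X]} {d d' : ℕ} {α β α' β' : K}
    (hA : Lead d A α) (hB : Lead d B β) (hA' : Lead d' A' α') (hB' : Lead d' B' β') :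
    Lead (2 * (d + d')) (as2 A B A' B') (H62.as2 α β α' β') :=
  ((hA.mul hB').sub (hB.mul hA')).pow 2

lemma Prim.addSub (W : WeierstrassCurve K) [W.IsElliptic] {A B A' B' : K[X]} {d d' : ℕ}
    (h : Prim ![A, B] d) (h' : Prim ![A', B'] d') :
    Prim ![as0 (C W.b₄) (C W.b₆) (C W.b₈) A B A' B', as1 (C W.b₂) (C W.b₄) (C W.b₆) A B A' B',
      as2 A B A' B'] (2 * (d + d')) := by
  have hA : Lead d A _ := Lead.of_le (h.le 0)
  have hB : Lead d B _ := Lead.of_le (h.le 1)
  have hA' : Lead d' A' _ := Lead.of_le (h'.le 0)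
  have hB' : Lead d' B' _ := Lead.of_le (h'.le 1)
  refine ⟨fun I hI => ?_, fun i => ?_, ?_⟩
  · by_contra hcon
    push Not at hcon
    have hne := h.unim_or I hI
    have hne' := h'.unim_or I hI
    let _ : Field (K[X] ⧸ I) := Ideal.Quotient.field I
    refine as_ne_zero (κ := K[X] ⧸ I) (W.map ((Ideal.Quotient.mk I).comp C))
      (α := Ideal.Quotient.mk I A) (β := Ideal.Quotient.mk I B)
      (α' := Ideal.Quotient.mk I A') (β' := Ideal.Quotient.mk I B') ?_ ?_ ⟨?_, ?_, ?_⟩
    · simpa only [ne_eq, Ideal.Quotient.eq_zero_iff_mem] using hne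
    · simpa only [ne_eq, Ideal.Quotient.eq_zero_iff_mem] using hne'
    · rw [WeierstrassCurve.map_b₄, WeierstrassCurve.map_b₆, WeierstrassCurve.map_b₈]
      simp only [RingHom.comp_apply]
      rw [← map_as0, Ideal.Quotient.eq_zero_iff_mem]; exact hcon 0
    · rw [WeierstrassCurve.map_b₂, WeierstrassCurve.map_b₄, WeierstrassCurve.map_b₆]
      simp only [RingHom.comp_apply]
      rw [← map_as1, Ideal.Quotient.eq_zero_iff_mem]; exact hcon 1
    · rw [← map_as2, Ideal.Quotient.eq_zero_iff_mem]; exact hcon 2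
  · fin_cases i
    · exact (Lead.as0 W.b₄ W.b₆ W.b₈ hA hB hA' hB').1
    · exact (Lead.as1 W.b₂ W.b₄ W.b₆ hA hB hA' hB').1
    · exact (Lead.as2 hA hB hA' hB').1
  · by_contra hcon
    push Not at hcon
    refine as_ne_zero W h.lead_or h'.lead_or ⟨?_, ?_, ?_⟩
    · rw [← (Lead.as0 W.b₄ W.b₆ W.b₈ hA hB hA' hB').2]; exact hcon 0
    · rw [← (Lead.as1 W.b₂ W.b₄ W.b₆ hA hB hA' hB').2]; exact hcon 1
    · rw [← (Lead.as2 hA hB hA' hB').2]; exact hcon 2

/-- The `q`-th power of a primitive vector. -/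
lemma Prim.pow {ι : Type*} {v : ι → K[X]} {d : ℕ} (h : Prim v d) {q : ℕ} :
    Prim (fun i => v i ^ q) (q * d) := by
  refine ⟨fun I hI => ?_, fun i => ?_, ?_⟩
  · obtain ⟨i, hi⟩ := h.unim I hI
    exact ⟨i, fun hc => hi (hI.isPrime.mem_of_pow_mem _ hc)⟩
  · exact ((Lead.of_le (h.le i)).pow q).1
  · obtain ⟨i, hi⟩ := h.lead
    refine ⟨i, ?_⟩
    rw [((Lead.of_le (h.le i)).pow q).2]
    exact pow_ne_zero _ hi

/-- Homogenisation of `A` as a form of degree `N`, evaluated at `(U, V)`. -/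
noncomputable def homEval {R : Type*} [CommRing R] (N : ℕ) (a : ℕ → R) (U V : R) : R :=
  ∑ i ∈ Finset.range (N + 1), a i * (U ^ i * V ^ (N - i))

lemma map_homEval {R S : Type*} [CommRing R] [CommRing S] (f : R →+* S) (N : ℕ) (a : ℕ → R)
    (U V : R) : f (homEval N a U V) = homEval N (fun i => f (a i)) (f U) (f V) := by
  simp [homEval]

lemma homEval_zero_right {R : Type*} [CommRing R] (N : ℕ) (a : ℕ → R) (U : R) :
    homEval N a U 0 = a N * U ^ N := by
  rw [homEval, Finset.sum_range_succ, Finset.sum_eq_zero]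
  · simp
  · intro i hi
    rw [Finset.mem_range] at hi
    rw [zero_pow (by omega)]; ring

lemma homEval_eq_aeval {R : Type*} [CommRing R] (f : K →+* R) (A : K[X]) {N : ℕ}
    (hN : A.natDegree ≤ N) {x U V : R} (hx : x * V = U) :
    homEval N (fun i => f (A.coeff i)) U V = A.eval₂ f x * V ^ N := by
  rw [eval₂_eq_sum_range' _ (Nat.lt_succ_of_le hN), Finset.sum_mul, homEval]
  refine Finset.sum_congr rfl fun i hi => ?_
  rw [Finset.mem_range] at hi
  rw [← hx, mul_pow, mul_assoc, mul_assoc, ← pow_add, show i + (N - i) = N by omega]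

lemma homEval_ne_zero {κ : Type*} [Field κ] (f : K →+* κ) {A B : K[X]} {N : ℕ}
    (h : Prim ![A, B] N) {u v : κ} (huv : u ≠ 0 ∨ v ≠ 0) :
    ¬ (homEval N (fun i => f (A.coeff i)) u v = 0 ∧
      homEval N (fun i => f (B.coeff i)) u v = 0) := by
  rintro ⟨h1, h2⟩
  by_cases hv : v = 0
  · subst hv
    have hu : u ≠ 0 := by simpa using huv
    rw [homEval_zero_right] at h1 h2
    have hu' : u ^ N ≠ 0 := pow_ne_zero _ hu
    have h3 := (mul_eq_zero.mp h1).resolve_right hu'
    have h4 := (mul_eq_zero.mp h2).resolve_right hu'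
    rw [map_eq_zero] at h3 h4
    rcases h.lead_or with h5 | h5
    · exact h5 h3
    · exact h5 h4
  · have hx : u / v * v = u := div_mul_cancel₀ _ hv
    have hv' : v ^ N ≠ 0 := pow_ne_zero _ hv
    rw [homEval_eq_aeval f A (h.le 0) hx] at h1
    rw [homEval_eq_aeval f B (h.le 1) hx] at h2
    have h3 := (mul_eq_zero.mp h1).resolve_right hv'
    have h4 := (mul_eq_zero.mp h2).resolve_right hv'
    obtain ⟨a, b, hab⟩ := h.isCoprime
    have := congrArg (eval₂ f (u / v)) hab
    rw [eval₂_add, eval₂_mul, eval₂_mul, h3, h4, eval₂_one] at this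
    simp at this

lemma Lead.homEval {U V : K[X]} {d : ℕ} {u v : K} (hU : Lead d U u) (hV : Lead d V v) (N : ℕ)
    (a : ℕ → K) : Lead (N * d) (homEval N (fun i => C (a i)) U V) (H62.homEval N a u v) := by
  refine Lead.sum _ fun i hi => ?_
  rw [Finset.mem_range] at hi
  have := ((hU.pow i).mul (hV.pow (N - i))).C_mul (a i)
  rwa [← add_mul, show i + (N - i) = N by omega] at this

lemma Prim.comp {A B U V : K[X]} {N d : ℕ} (h : Prim ![A, B] N) (h' : Prim ![U, V] d) :
    Prim ![homEval N (fun i => C (A.coeff i)) U V, homEval N (fun i => C (B.coeff i)) U V]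
      (N * d) := by
  have hU : Lead d U _ := Lead.of_le (h'.le 0)
  have hV : Lead d V _ := Lead.of_le (h'.le 1)
  refine ⟨fun I hI => ?_, fun i => ?_, ?_⟩
  · by_contra hcon
    push Not at hcon
    have hne := h'.unim_or I hI
    let _ : Field (K[X] ⧸ I) := Ideal.Quotient.field I
    refine homEval_ne_zero (κ := K[X] ⧸ I) ((Ideal.Quotient.mk I).comp C) h
      (u := Ideal.Quotient.mk I U) (v := Ideal.Quotient.mk I V) ?_ ⟨?_, ?_⟩
    · simpa only [ne_eq, Ideal.Quotient.eq_zero_iff_mem] using hne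
    · have := hcon 0
      simp only [Matrix.cons_val_zero] at this
      rwa [← Ideal.Quotient.eq_zero_iff_mem, map_homEval] at this
    · have := hcon 1
      simp only [Matrix.cons_val_one] at this
      rwa [Matrix.cons_val_fin_one, ← Ideal.Quotient.eq_zero_iff_mem, map_homEval] at this
  · fin_cases i
    · exact (hU.homEval hV N _).1
    · exact (hU.homEval hV N _).1
  · by_contra hcon
    push Not at hcon
    refine homEval_ne_zero (RingHom.id K) h h'.lead_or ⟨?_, ?_⟩
    · exact (hU.homEval hV N _).2.symm.trans (hcon 0)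
    · exact (hU.homEval hV N _).2.symm.trans (hcon 1)

lemma exists_coprime_factor {K : Type*} [Field K] (A B : K[X]) (h : B ≠ 0) :
    ∃ g A₁ B₁ : K[X], g ≠ 0 ∧ A = g * A₁ ∧ B = g * B₁ ∧ IsCoprime A₁ B₁ := by
  classical
  let _ : GCDMonoid K[X] := UniqueFactorizationMonoid.toGCDMonoid _
  obtain ⟨x, y, hx, hy, hu⟩ := extract_gcd A B
  refine ⟨gcd A B, x, y, ?_, hx, hy, (gcd_isUnit_iff _ _).mp hu⟩
  intro h0
  rw [h0, zero_mul] at hy
  exact h hy

end Fermat.Agent.H62
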