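import Mathlib
import Fermat.Prelude.Def_FLTPrelim_Ramification
import Fermat.Prelude.Def_EllipticCurve_FrobeniusTrace

/-!
# Valuation subrings of `ℚ̄`, primes of the ring of algebraic integers, inertia groups

Helper library (prefix H63).
-/

set_option autoImplicit false

namespace Fermat.Agent.H63

open Pointwise NumberField Polynomial


/-- Lifting inertia through a closed subgroup. -/
theorem exists_mul_mem_inertia {B G : Type*} [CommRing B] [Group G] [TopologicalSpace G]
    [IsTopologicalGroup G] [CompactSpace G] [TotallyDisconnectedSpace G]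
    [MulSemiringAction G B] [TopologicalSpace B] [DiscreteTopology B] [ContinuousSMul G B]
    (H : Subgroup G) (hH : IsClosed (H : Set G)) (P : Ideal B) [P.IsPrime] (σ : G)
    (hσ : ∀ b : B, (∀ h ∈ H, h • b = b) → σ • b - b ∈ P) :
    ∃ h ∈ H, σ * h ∈ P.inertia G := by
  classical
  have : CompactSpace H := isCompact_iff_compactSpace.mp hH.isCompact
  let A := FixedPoints.subring B H
  have hinv : Algebra.IsInvariant A B H := ⟨fun b hb => ⟨⟨b, hb⟩, rfl⟩⟩
  have hsc : SMulCommClass H A B := ⟨fun h a b => by
    change h • ((a : B) * b) = (a : B) * h • b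
    rw [smul_mul', a.2 h]⟩
  have hA : ∀ a : A, σ • (a : B) - a ∈ P := fun a => hσ a (fun h hh => a.2 ⟨h, hh⟩)
  have hmem : ∀ (g : G) (b : B), b ∈ g⁻¹ • P ↔ g • b ∈ P := fun g b => by
    rw [Ideal.mem_pointwise_smul_iff_inv_smul_mem, inv_inv]
  have hunder : P.under A = (σ⁻¹ • P).under A := by
    ext a
    change (a : B) ∈ P ↔ (a : B) ∈ σ⁻¹ • P
    rw [hmem]
    constructor
    · intro h
      have := P.add_mem (hA a) h
      simpa using this
    · intro h
      have := P.sub_mem h (hA a)
      simpa using this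
  obtain ⟨h, hh⟩ := Algebra.IsInvariant.exists_smul_of_under_eq_of_profinite (A := A) (G := H)
    P (σ⁻¹ • P) hunder
  have hstab : (σ * h) • P = P := by
    have : (h : G) • P = σ⁻¹ • P := hh.symm
    rw [mul_smul, this, smul_inv_smul]
  set τ : G := σ * h with hτ
  have hτA : ∀ a : A, τ • (a : B) - a ∈ P := fun a => by
    have h1 : (h : G) • (a : B) = a := a.2 h
    rw [hτ, mul_smul, h1]
    exact hA a
  let p : Ideal A := P.under A
  let e₀ : (B ⧸ P) ≃+* (B ⧸ P) :=
    Ideal.quotientEquiv P P (MulSemiringAction.toRingEquiv G B τ) (hstab.symm)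
  have he₀ : ∀ b : B, e₀ (Ideal.Quotient.mk P b) = Ideal.Quotient.mk P (τ • b) := fun b => rfl
  let e : (B ⧸ P) ≃ₐ[A ⧸ p] (B ⧸ P) := AlgEquiv.ofRingEquiv (f := e₀) (by
    intro x
    obtain ⟨a, rfl⟩ := Ideal.Quotient.mk_surjective x
    change e₀ (Ideal.Quotient.mk P (a : B)) = Ideal.Quotient.mk P (a : B)
    rw [he₀, Ideal.Quotient.eq]
    exact hτA a)
  obtain ⟨h', hh'⟩ := Ideal.Quotient.stabilizerHom_surjective_of_profinite (A := A) (G := H)
    p P e
  have hh'' : ∀ b : B, Ideal.Quotient.mk P (((h' : H) : G) • b) = Ideal.Quotient.mk P (τ • b) := by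
    intro b
    have := congrArg (fun f : (B ⧸ P) ≃ₐ[A ⧸ p] (B ⧸ P) => f (Ideal.Quotient.mk P b)) hh'
    exact this
  refine ⟨h * (h' : H)⁻¹, H.mul_mem h.2 (H.inv_mem h'.1.2), ?_⟩
  intro b
  have h2 := hh'' (((h' : H) : G)⁻¹ • b)
  rw [smul_inv_smul, Ideal.Quotient.eq] at h2
  have h3 := P.neg_mem h2
  rw [neg_sub] at h3
  have h4 : (σ * ((h : G) * ((h' : H) : G)⁻¹)) • b = τ • (((h' : H) : G)⁻¹ • b) := by
    rw [hτ, smul_smul, mul_assoc]
  have h5 : ((h * (h' : H)⁻¹ : H) : G) = (h : G) * ((h' : H) : G)⁻¹ := rfl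
  change (σ * ((h : G) * ((h' : H) : G)⁻¹)) • b - b ∈ P
  rw [h4]
  exact h3



section Center

variable {L : Type*} [Field L]

/-- Algebraic integers lie in every valuation subring. -/
theorem mem_valuationSubring_of_isIntegral (A : ValuationSubring L) {x : L}
    (hx : IsIntegral ℤ x) : x ∈ A := by
  have h1 : IsIntegral A x := by
    have := hx.map_of_comp_eq (Int.castRingHom A) (RingHom.id L) (by ext; simp)
    simpa using this
  obtain ⟨y, hy⟩ := IsIntegrallyClosed.isIntegral_iff (R := A) (K := L) |>.mp h1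
  rw [← hy]
  exact y.2

theorem coe_mem (A : ValuationSubring L) (x : 𝓞 L) : (x : L) ∈ A :=
  mem_valuationSubring_of_isIntegral A (RingOfIntegers.isIntegral_coe x)

/-- The inclusion of the ring of all algebraic integers into a valuation subring. -/
def incl (A : ValuationSubring L) : 𝓞 L →+* A :=
  (algebraMap (𝓞 L) L).codRestrict A.toSubring (fun x => coe_mem A x)

@[simp] theorem coe_incl (A : ValuationSubring L) (x : 𝓞 L) : ((incl A x : A) : L) = (x : L) := rfl

/-- The centre of a valuation subring on the ring of all algebraic integers. -/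
def center (A : ValuationSubring L) : Ideal (𝓞 L) :=
  (IsLocalRing.maximalIdeal A).comap (incl A)

instance (A : ValuationSubring L) : (center A).IsPrime := by
  unfold center; infer_instance

theorem mem_center_iff (A : ValuationSubring L) (x : 𝓞 L) :
    x ∈ center A ↔ (x : L) ∈ A.nonunits := by
  rw [center, Ideal.mem_comap, ← ValuationSubring.coe_mem_nonunits_iff, coe_incl]

theorem mem_center_iff_incl (A : ValuationSubring L) (x : 𝓞 L) :
    x ∈ center A ↔ incl A x ∈ IsLocalRing.maximalIdeal A := Iff.rfl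

theorem liesOverPrime_iff (A : ValuationSubring L) (q : ℕ) :
    A.LiesOverPrime q ↔ (q : 𝓞 L) ∈ center A := by
  rw [mem_center_iff, ValuationSubring.LiesOverPrime]
  simp

end Center



section Horner

variable {L : Type*} [Field L]

/-- An element lying in every valuation subring of `L` is integral over `ℤ`. -/
theorem isIntegral_of_forall_valuationSubring {x : L}
    (hx : ∀ V : ValuationSubring L, x ∈ V) : IsIntegral ℤ x := by
  have h := iInf_valuationSubring_superset (K := L) (s := (∅ : Set L))
  have h1 : x ∈ (⨅ V : {V : ValuationSubring L // (∅ : Set L) ⊆ V.toSubring}, V.1.toSubring) := by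
    simp only [Subring.mem_iInf]
    exact fun V => hx V.1
  rw [h] at h1
  have h2 : IsIntegral (Subring.closure (∅ : Set L)) x := h1
  have h3 : (Subring.closure (∅ : Set L)) = ⊥ := Subring.closure_empty
  -- transfer integrality
  have h4 : Function.Surjective (algebraMap ℤ (Subring.closure (∅ : Set L))) := by
    intro y
    have hy : (y : L) ∈ (⊥ : Subring L) := h3 ▸ y.2
    obtain ⟨n, hn⟩ := Subring.mem_bot.mp hy
    exact ⟨n, Subtype.ext (by simpa using hn)⟩
  have : Algebra.IsIntegral ℤ (Subring.closure (∅ : Set L)) :=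
    ⟨fun y => by obtain ⟨n, rfl⟩ := h4 y; exact isIntegral_algebraMap⟩
  exact isIntegral_trans (R := ℤ) (A := Subring.closure (∅ : Set L)) x h2

/-- Horner tails of a polynomial relation are integral. -/
theorem horner_integral {x : L} (hx0 : x ≠ 0) (n : ℕ) (a : ℕ → ℤ)
    (h : ∑ i ∈ Finset.range (n + 1), (a i : L) * x ^ i = 0) (k : ℕ) (hk : k ≤ n) :
    IsIntegral ℤ (∑ i ∈ Finset.Ico k (n + 1), (a i : L) * x ^ (i - k)) := by
  apply isIntegral_of_forall_valuationSubring
  intro V
  by_cases hxV : x ∈ V
  · exact sum_mem fun i _ => mul_mem (intCast_mem V _) (pow_mem hxV _)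
  · have hinv : x⁻¹ ∈ V := (V.mem_or_inv_mem x).resolve_left hxV
    have h1 : ∑ i ∈ Finset.Ico k (n + 1), (a i : L) * x ^ (i - k)
        = x⁻¹ ^ k * ∑ i ∈ Finset.Ico k (n + 1), (a i : L) * x ^ i := by
      rw [Finset.mul_sum]
      refine Finset.sum_congr rfl fun i hi => ?_
      have hki : k ≤ i := (Finset.mem_Ico.mp hi).1
      have : x ^ i = x ^ k * x ^ (i - k) := by rw [← pow_add]; congr 1; omega
      rw [this, inv_pow]
      field_simp
    have h2 : ∑ i ∈ Finset.Ico k (n + 1), (a i : L) * x ^ i
        = - ∑ i ∈ Finset.range k, (a i : L) * x ^ i := by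
      rw [eq_neg_iff_add_eq_zero, ← h, Finset.range_eq_Ico, add_comm,
        Finset.sum_Ico_consecutive _ (Nat.zero_le k) (by omega)]
      rw [Finset.range_eq_Ico]
    rw [h1, h2, mul_neg]
    apply neg_mem
    rw [Finset.mul_sum]
    refine sum_mem fun i hi => ?_
    have hik : i < k := Finset.mem_range.mp hi
    have : x⁻¹ ^ k * ((a i : L) * x ^ i) = (a i : L) * x⁻¹ ^ (k - i) := by
      have : x⁻¹ ^ k = x⁻¹ ^ i * x⁻¹ ^ (k - i) := by rw [← pow_add]; congr 1; omega
      rw [this, inv_pow, inv_pow]
      field_simp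
    rw [this]
    exact mul_mem (intCast_mem V _) (pow_mem hinv _)

end Horner


section Fractions

variable {L : Type*} [Field L]

/-- Every element of a valuation subring of an algebraic extension of `ℚ` is a fraction of
algebraic integers with denominator a unit of the valuation subring. -/
theorem exists_isIntegral_mul_of_mem [CharZero L] (A : ValuationSubring L) {x : L} (hx : x ∈ A)
    (halg : IsAlgebraic ℚ x) :
    ∃ b : L, IsIntegral ℤ b ∧ b ∉ A.nonunits ∧ IsIntegral ℤ (x * b) := by
  by_cases hx0 : x = 0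
  · subst hx0
    refine ⟨1, isIntegral_one, ?_, ?_⟩
    · rw [ValuationSubring.mem_nonunits_iff]; simp
    · rw [zero_mul]; exact isIntegral_zero
  have halgZ : IsAlgebraic ℤ x := (IsFractionRing.isAlgebraic_iff ℤ ℚ L).mpr halg
  obtain ⟨p₀, hp₀, hp₀x⟩ := halgZ
  set p : ℤ[X] := p₀.primPart with hp
  have hprim : p.IsPrimitive := p₀.isPrimitive_primPart
  have hpx : aeval x p = 0 := by
    have h1 := p₀.eq_C_content_mul_primPart
    rw [h1, map_mul, aeval_C] at hp₀x
    rcases mul_eq_zero.mp hp₀x with h | h
    · exfalso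
      have : p₀.content = 0 := by
        have : Function.Injective (algebraMap ℤ L) := (algebraMap ℤ L).injective_int
        exact this (by rw [h, map_zero])
      exact hp₀ (Polynomial.content_eq_zero_iff.mp this)
    · exact h
  set n := p.natDegree with hn
  have hsum : ∑ i ∈ Finset.range (n + 1), ((p.coeff i : ℤ) : L) * x ^ i = 0 := by
    rw [← hpx, aeval_eq_sum_range]
    refine Finset.sum_congr rfl fun i _ => ?_
    rw [zsmul_eq_mul]
  set b : ℕ → L := fun k => ∑ i ∈ Finset.Ico k (n + 1), ((p.coeff i : ℤ) : L) * x ^ (i - k) with hb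
  have hbint : ∀ k, k ≤ n → IsIntegral ℤ (b k) := fun k hk =>
    horner_integral hx0 n (fun i => p.coeff i) hsum k hk
  have hbrec : ∀ k, k ≤ n → b k = b (k + 1) * x + (p.coeff k : L) := by
    intro k hk
    simp only [hb]
    rw [Finset.sum_eq_sum_Ico_succ_bot (by omega), Nat.sub_self, pow_zero, mul_one, add_comm,
      Finset.sum_mul]
    congr 1
    refine Finset.sum_congr rfl fun i hi => ?_
    have hki : k + 1 ≤ i := (Finset.mem_Ico.mp hi).1
    rw [mul_assoc, ← pow_succ]
    congr 2
    omega
  have hb0 : b 0 = 0 := by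
    simp only [hb, Nat.sub_zero]
    rw [← Finset.range_eq_Ico]
    exact hsum
  have hbn : b (n + 1) = 0 := by simp [hb]
  -- some Horner tail is a unit
  have hex : ∃ k, k + 1 ≤ n ∧ b (k + 1) ∉ A.nonunits := by
    by_contra hcon
    push Not at hcon
    have hall : ∀ k, b k ∈ A.nonunits := by
      intro k
      rcases Nat.eq_zero_or_pos k with rfl | hk
      · rw [hb0]; exact zero_mem _
      · by_cases hkn : k ≤ n
        · have := hcon (k - 1) (by omega)
          rwa [Nat.sub_add_cancel hk] at this
        · have : b k = 0 := by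
            simp only [hb]
            rw [Finset.Ico_eq_empty (by omega), Finset.sum_empty]
          rw [this]; exact zero_mem _
    let I : Ideal ℤ := (IsLocalRing.maximalIdeal A).comap (Int.castRingHom A)
    have hcoef : ∀ k, p.coeff k ∈ I := by
      intro k
      rw [Ideal.mem_comap, ← ValuationSubring.coe_mem_nonunits_iff]
      by_cases hkn : k ≤ n
      · have h1 : (((Int.castRingHom A) (p.coeff k) : A) : L) = b k - b (k + 1) * x := by
          rw [hbrec k hkn]; simp
        rw [h1]
        refine sub_mem (hall k) ?_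
        rw [ValuationSubring.mem_nonunits_iff, map_mul]
        have h2 := hall (k + 1)
        rw [ValuationSubring.mem_nonunits_iff] at h2
        have h3 : A.valuation x ≤ 1 := (A.valuation_le_one_iff x).mpr hx
        exact mul_lt_one_of_lt_of_le h2 h3
      · have : p.coeff k = 0 := Polynomial.coeff_eq_zero_of_natDegree_lt (by omega)
        rw [this]; simp
    obtain ⟨g, hg⟩ := (IsPrincipalIdealRing.principal I).principal
    have hg' : I = Ideal.span {g} := hg
    have hdvd : C g ∣ p := by
      rw [Polynomial.C_dvd_iff_dvd_coeff]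
      intro k
      have := hcoef k
      rw [hg'] at this
      exact Ideal.mem_span_singleton.mp this
    have hu := hprim g hdvd
    have hItop : I = ⊤ := by rw [hg']; exact Ideal.span_singleton_eq_top.mpr hu
    have : (1 : ℤ) ∈ I := by rw [hItop]; trivial
    rw [Ideal.mem_comap, map_one] at this
    exact (Ideal.ne_top_iff_one _).mp (IsLocalRing.maximalIdeal.isMaximal A).ne_top this
  obtain ⟨k, hkn, hk⟩ := hex
  refine ⟨b (k + 1), hbint _ hkn, hk, ?_⟩
  have : x * b (k + 1) = b k - ((p.coeff k : ℤ) : L) := by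
    rw [hbrec k (by omega)]; ring
  rw [this]
  exact (hbint k (by omega)).sub (isIntegral_algebraMap (R := ℤ) (A := L) (x := p.coeff k))


end Fractions

end Fermat.Agent.H63
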