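import Fermat.Agent.H63Minkowski
set_option autoImplicit false

namespace Fermat.Agent.H63

open Pointwise NumberField Polynomial nonZeroDivisors

section Different

variable (F : Type*) [Field F] [NumberField F]

theorem mem_differentIdeal_iff (x : 𝓞 F) :
    x ∈ differentIdeal ℤ (𝓞 F) ↔
      ∀ y : F, (∀ a : 𝓞 F, IsIntegral ℤ (Algebra.trace ℚ F (y * a))) → IsIntegral ℤ ((x : F) * y) := by
  have h1 := coeIdeal_differentIdeal ℤ ℚ F (𝓞 F)
  have h2 : x ∈ differentIdeal ℤ (𝓞 F) ↔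
      (x : F) ∈ ((differentIdeal ℤ (𝓞 F) : Ideal (𝓞 F)) : FractionalIdeal (𝓞 F)⁰ F) := by
    rw [FractionalIdeal.mem_coeIdeal]
    constructor
    · intro h; exact ⟨x, h, rfl⟩
    · rintro ⟨y, hy, hyx⟩
      have : y = x := RingOfIntegers.ext hyx
      rwa [← this]
  have h0 : FractionalIdeal.dual ℤ ℚ (1 : FractionalIdeal (𝓞 F)⁰ F) ≠ 0 :=
    FractionalIdeal.dual_ne_zero ℤ ℚ one_ne_zero
  have h01 : (1 : FractionalIdeal (𝓞 F)⁰ F) ≠ 0 := one_ne_zero
  rw [h2, h1, FractionalIdeal.mem_inv_iff h0]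
  constructor
  · intro h y hy
    have h3 := h y (by
      rw [FractionalIdeal.mem_dual h01]
      intro a ha
      rw [FractionalIdeal.mem_one_iff] at ha
      obtain ⟨b, rfl⟩ := ha
      have h4 := hy b
      obtain ⟨z, hz⟩ := IsIntegrallyClosed.isIntegral_iff (R := ℤ) (K := ℚ) |>.mp h4
      exact ⟨z, by rw [hz]; rfl⟩)
    rw [FractionalIdeal.mem_one_iff] at h3
    obtain ⟨b, hb⟩ := h3
    rw [← hb]
    exact RingOfIntegers.isIntegral_coe b
  · intro h y hy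
    rw [FractionalIdeal.mem_dual h01] at hy
    rw [FractionalIdeal.mem_one_iff]
    have h3 := h y (fun a => by
      obtain ⟨z, hz⟩ := hy (a : F) (by rw [FractionalIdeal.mem_one_iff]; exact ⟨a, rfl⟩)
      have h4 : Algebra.trace ℚ F (y * a) = algebraMap ℤ ℚ z := hz.symm
      rw [h4]
      exact isIntegral_algebraMap)
    exact ⟨⟨_, h3⟩, rfl⟩

theorem smul_mem_differentIdeal (σ : F ≃ₐ[ℚ] F) {x : 𝓞 F} (hx : x ∈ differentIdeal ℤ (𝓞 F)) :
    σ • x ∈ differentIdeal ℤ (𝓞 F) := by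
  rw [mem_differentIdeal_iff] at hx ⊢
  intro y hy
  have h1 := hx (σ.symm y) (fun a => by
    have h2 := hy (σ • a)
    have h3 : Algebra.trace ℚ F (σ.symm y * (a : F)) = Algebra.trace ℚ F (y * ((σ • a : 𝓞 F) : F)) := by
      rw [← Algebra.trace_eq_of_algEquiv σ, map_mul, AlgEquiv.apply_symm_apply]
      rfl
    rw [h3]; exact h2)
  have h4 : ((σ • x : 𝓞 F) : F) * y = σ ((x : F) * σ.symm y) := by
    rw [map_mul, AlgEquiv.apply_symm_apply]; rfl
  rw [h4]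
  exact h1.map σ.toAlgHom

theorem smul_differentIdeal (σ : F ≃ₐ[ℚ] F) :
    σ • differentIdeal ℤ (𝓞 F) = differentIdeal ℤ (𝓞 F) := by
  ext x
  rw [Ideal.mem_pointwise_smul_iff_inv_smul_mem]
  constructor
  · intro h
    have := smul_mem_differentIdeal F σ h
    rwa [smul_inv_smul] at this
  · exact smul_mem_differentIdeal F σ⁻¹

theorem dvd_finrank_of_dvd_differentIdeal (m : ℕ) (hm : m ≠ 0)
    (h : Ideal.span {(m : 𝓞 F)} ∣ differentIdeal ℤ (𝓞 F)) : m ∣ Module.finrank ℚ F := by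
  have hm0 : (m : 𝓞 F) ≠ 0 := Nat.cast_ne_zero.mpr hm
  have hI : Ideal.span {(m : 𝓞 F)} ≠ ⊥ := by
    rw [Ne, Ideal.span_singleton_eq_bot]; exact hm0
  have h1 := (differentialIdeal_le_iff (A := ℤ) (K := ℚ) (L := F) (B := 𝓞 F) hI).mp (Ideal.le_of_dvd h)
  have h2 : Algebra.trace ℚ F ((m : F)⁻¹) ∈ (1 : Submodule ℤ ℚ) := by
    apply h1
    refine ⟨(m : F)⁻¹, ?_, rfl⟩
    change (m : F)⁻¹ ∈ ((Ideal.span {(m : 𝓞 F)} : Ideal (𝓞 F)) : FractionalIdeal (𝓞 F)⁰ F)⁻¹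
    rw [FractionalIdeal.coeIdeal_span_singleton, FractionalIdeal.spanSingleton_inv,
      FractionalIdeal.mem_spanSingleton]
    exact ⟨1, by simp⟩
  have h3 : Algebra.trace ℚ F ((m : F)⁻¹) = (Module.finrank ℚ F : ℚ) * (m : ℚ)⁻¹ := by
    have : (m : F)⁻¹ = algebraMap ℚ F ((m : ℚ)⁻¹) := by simp
    rw [this, Algebra.trace_algebraMap, nsmul_eq_mul]
  rw [h3, Submodule.mem_one] at h2
  obtain ⟨z, hz⟩ := h2
  have hm1 : (m : ℚ) ≠ 0 := Nat.cast_ne_zero.mpr hm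
  have h4 : (z : ℚ) * m = Module.finrank ℚ F := by
    have : (z : ℚ) = (Module.finrank ℚ F : ℚ) * (m : ℚ)⁻¹ := hz
    rw [this, mul_assoc, inv_mul_cancel₀ hm1, mul_one]
  have h5 : z * (m : ℤ) = Module.finrank ℚ F := by exact_mod_cast h4
  have h6 : (m : ℤ) ∣ Module.finrank ℚ F := ⟨z, by rw [← h5, mul_comm]⟩
  exact_mod_cast h6

theorem emultiplicity_smul (σ : F ≃ₐ[ℚ] F) (P I : Ideal (𝓞 F)) :
    emultiplicity (σ • P) (σ • I) = emultiplicity P I := by
  have := emultiplicity_map_eq (MulDistribMulAction.toMulEquiv (Ideal (𝓞 F)) σ) (a := P) (b := I)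
  exact this

theorem smul_span_natCast (σ : F ≃ₐ[ℚ] F) (m : ℕ) :
    σ • Ideal.span {(m : 𝓞 F)} = Ideal.span {(m : 𝓞 F)} := by
  rw [Ideal.pointwise_smul_def, Ideal.map_span, Set.image_singleton, map_natCast]

variable [IsGalois ℚ F]

/-- Bound for the different of a Galois extension of `ℚ`. -/
theorem differentIdeal_dvd (S : Finset ℕ) (hS : ∀ p ∈ S, p.Prime)
    (hur : ∀ q : ℕ, q.Prime → q ∉ S → ∀ (P : Ideal (𝓞 F)) (_ : P.IsPrime), (q : 𝓞 F) ∈ P →
      Algebra.IsUnramifiedAt ℤ P) :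
    differentIdeal ℤ (𝓞 F) ∣ Ideal.span {((Module.finrank ℚ F * ∏ p ∈ S, p : ℕ) : 𝓞 F)} := by
  have hD0 : differentIdeal ℤ (𝓞 F) ≠ ⊥ := differentIdeal_ne_bot
  have hn0 : Module.finrank ℚ F ≠ 0 := Module.finrank_pos.ne'
  rw [UniqueFactorizationMonoid.dvd_iff_emultiplicity_le hD0]
  intro P hP
  have hPprime : P.IsPrime := Ideal.isPrime_of_prime hP
  have hPbot : P ≠ ⊥ := hP.ne_zero
  -- the prime number below
  obtain ⟨p, hp, hpP⟩ : ∃ p : ℕ, p.Prime ∧ (p : 𝓞 F) ∈ P := by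
    have hpr : (P.under ℤ).IsPrime := inferInstance
    have hne : P.under ℤ ≠ ⊥ := mt Ideal.eq_bot_of_comap_eq_bot hPbot
    obtain ⟨z, hz⟩ := (IsPrincipalIdealRing.principal (P.under ℤ)).principal
    have hz' : P.under ℤ = Ideal.span {z} := hz
    have hz0 : z ≠ 0 := by
      rintro rfl
      apply hne
      rw [hz']; simp
    have hzp : Prime z := (Ideal.span_singleton_prime hz0).mp (hz' ▸ hpr)
    refine ⟨z.natAbs, Int.prime_iff_natAbs_prime.mp hzp, ?_⟩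
    have h1 : (z.natAbs : ℤ) ∈ P.under ℤ := by
      rw [hz', Ideal.mem_span_singleton]
      exact Int.dvd_natAbs.mpr dvd_rfl
    have h2 : algebraMap ℤ (𝓞 F) (z.natAbs : ℤ) ∈ P := h1
    simpa using h2
  by_cases hpS : p ∈ S
  swap
  · have h1 := hur p hp hpS P hPprime hpP
    rw [← not_dvd_differentIdeal_iff] at h1
    rw [emultiplicity_eq_zero.mpr h1]
    exact zero_le
  set c := (Module.finrank ℚ F).factorization p + 1 with hc
  have hdvd : p ^ c ∣ Module.finrank ℚ F * ∏ p ∈ S, p := by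
    rw [hc, pow_succ]
    exact mul_dvd_mul (Nat.ordProj_dvd _ _) (Finset.dvd_prod_of_mem _ hpS)
  have hle : emultiplicity P (Ideal.span {((p ^ c : ℕ) : 𝓞 F)}) ≤
      emultiplicity P (Ideal.span {((Module.finrank ℚ F * ∏ p ∈ S, p : ℕ) : 𝓞 F)}) := by
    apply emultiplicity_le_emultiplicity_of_dvd_right
    rw [Ideal.dvd_iff_le, Ideal.span_singleton_le_span_singleton]
    exact Nat.cast_dvd_cast hdvd
  refine le_trans ?_ hle
  by_contra hcon
  push Not at hcon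
  -- then `p ^ c` divides the different
  have key : Ideal.span {((p ^ c : ℕ) : 𝓞 F)} ∣ differentIdeal ℤ (𝓞 F) := by
    have h0 : Ideal.span {((p ^ c : ℕ) : 𝓞 F)} ≠ 0 := by
      rw [Ne, Ideal.zero_eq_bot, Ideal.span_singleton_eq_bot]
      exact Nat.cast_ne_zero.mpr (pow_ne_zero _ hp.ne_zero)
    rw [UniqueFactorizationMonoid.dvd_iff_emultiplicity_le h0]
    intro Q hQ
    have hQprime : Q.IsPrime := Ideal.isPrime_of_prime hQ
    by_cases hpQ : (p : 𝓞 F) ∈ Q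
    · have hgal : IsGaloisGroup (F ≃ₐ[ℚ] F) ℤ (𝓞 F) :=
        IsGaloisGroup.of_isFractionRing (F ≃ₐ[ℚ] F) ℤ (𝓞 F) ℚ F
      have hover : ∀ R : Ideal (𝓞 F), R.IsPrime → (p : 𝓞 F) ∈ R →
          R.LiesOver (Ideal.span {(p : ℤ)}) := fun R hR hpR =>
        (Ideal.liesOver_span_iff hR.ne_top' (Nat.prime_iff_prime_int.mp hp)).mpr (by simpa using hpR)
      have h1 := hover P hPprime hpP
      have h2 := hover Q hQprime hpQ
      obtain ⟨σ, rfl⟩ := Ideal.exists_smul_eq_of_isGaloisGroup (Ideal.span {(p : ℤ)}) P Q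
        (F ≃ₐ[ℚ] F)
      rw [← smul_span_natCast F σ, ← smul_differentIdeal F σ, emultiplicity_smul,
        emultiplicity_smul]
      exact hcon.le
    · have : ¬ Q ∣ Ideal.span {((p ^ c : ℕ) : 𝓞 F)} := by
        rw [Ideal.dvd_span_singleton]
        intro h
        rw [Nat.cast_pow] at h
        exact hpQ (hQprime.mem_of_pow_mem _ h)
      rw [emultiplicity_eq_zero.mpr this]
      exact zero_le
  have h3 := dvd_finrank_of_dvd_differentIdeal F (p ^ c) (pow_ne_zero _ hp.ne_zero) key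
  exact Nat.pow_succ_factorization_not_dvd hn0 hp h3

/-- Bound for the discriminant of a Galois extension of `ℚ`. -/
theorem natAbs_discr_le (S : Finset ℕ) (hS : ∀ p ∈ S, p.Prime)
    (hur : ∀ q : ℕ, q.Prime → q ∉ S → ∀ (P : Ideal (𝓞 F)) (_ : P.IsPrime), (q : 𝓞 F) ∈ P →
      Algebra.IsUnramifiedAt ℤ P) :
    (NumberField.discr F).natAbs ≤
      (Module.finrank ℚ F * ∏ p ∈ S, p) ^ Module.finrank ℚ F := by
  have h1 := differentIdeal_dvd F S hS hur
  have h2 := Ideal.absNorm_dvd_absNorm_of_le (Ideal.le_of_dvd h1)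
  rw [NumberField.absNorm_differentIdeal F (𝓞 F)] at h2
  have h3 : Ideal.absNorm (Ideal.span {((Module.finrank ℚ F * ∏ p ∈ S, p : ℕ) : 𝓞 F)}) =
      (Module.finrank ℚ F * ∏ p ∈ S, p) ^ Module.finrank ℚ F := by
    rw [Ideal.absNorm_span_singleton]
    have : ((Module.finrank ℚ F * ∏ p ∈ S, p : ℕ) : 𝓞 F) =
      algebraMap ℤ (𝓞 F) ((Module.finrank ℚ F * ∏ p ∈ S, p : ℕ) : ℤ) := by simp
    rw [this, Algebra.norm_algebraMap, Int.natAbs_pow, Int.natAbs_natCast, RingOfIntegers.rank]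
  rw [h3] at h2
  refine Nat.le_of_dvd (pow_pos (Nat.pos_of_ne_zero ?_) _) h2
  refine mul_ne_zero Module.finrank_pos.ne' (Finset.prod_ne_zero_iff.mpr fun p hp => (hS p hp).ne_zero)

end Different

end Fermat.Agent.H63
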