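import Fermat.Agent.H77FOTheta

/-!
# First order formula for divisibility of the class group (helper63)

`PDiv s n D c x₀ η` says that the ideal class of the point `(x₀, η)` is the inverse of an `n`-th
power: there are an ideal `J = (z_j)` and `f` with `J ^ n * m = (f)`.
-/

set_option autoImplicit false

open FirstOrder FirstOrder.Language Polynomial
open Fermat.Agent.H95 Fermat.Agent.H77.FOL

namespace Fermat.Agent.H63

universe u

/-- The vector `y_i - η_i`. -/
noncomputable def yvec (s : Shape) {K : Type*} [Field K] (η : Fin s.a → K) (i : Fin s.a) :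
    Fin s.a → K[X] :=
  fun k => (if k = i then 1 else 0) - (if k = 0 then Polynomial.C (η i) else 0)

/-- The vector `x - x₀`. -/
noncomputable def xvec (s : Shape) {K : Type*} [Field K] (x₀ : K) : Fin s.a → K[X] :=
  fun k => if k = 0 then (Polynomial.X - Polynomial.C x₀) else 0

/-- The class of the point `(x₀, η)` is the inverse of an `n`-th power. -/
def PDiv (s : Shape) (n D : ℕ) {K : Type*} [Field K] (c : s.Idx → K) (x₀ : K)
    (η : Fin s.a → K) : Prop :=
  ∃ (e : Fin D) (u : Fin s.a → Fin D), n * (e : ℕ) + 1 < D ∧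
    (∀ i j, (u i : ℕ) ≡ u j [MOD s.a] → i = j) ∧ (∑ j, (u j : ℕ) = ∑ j, s.w j + s.a * e) ∧
    ∃ f : Fin s.a × Fin D → K, HasWt s f (n * e + 1) ∧
    ∃ z : Fin s.a × (Fin s.a × Fin D) → K, (∀ j, HasWt s (fun p => z (j, p)) (u j)) ∧
    ∃ t : Fin s.a × (Fin s.a × Fin D) → K,
      (∀ j, s.tmul c (tpow s c (toP s (fun p => z (j, p))) n) (xvec s x₀) =
        s.tmul c (toP s f) (toP s (fun p => t (j, p)))) ∧
    ∃ r : Fin s.a × (Fin s.a × (Fin s.a × Fin D)) → K,
      ∀ j i, s.tmul c (tpow s c (toP s (fun p => z (j, p))) n) (yvec s η i) =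
        s.tmul c (toP s f) (toP s (fun p => r (i, (j, p))))

/-- All points are divisible. -/
def AllPDiv (s : Shape) (n D : ℕ) {K : Type*} [Field K] (c : s.Idx → K) : Prop :=
  ∀ (x₀ : K) (η : Fin s.a → K), s.IsPoint c x₀ η → PDiv s n D c x₀ η

variable {α : Type} (s : Shape)

theorem uf_yvec {η : ∀ (K : Type u) [Field K], (α → K) → Fin s.a → K}
    (hη : ∀ i, PF (fun K _ v => η K v i)) (i k : Fin s.a) :
    UF (fun K _ v => yvec s (η K v) i k) := by
  unfold yvec
  exact UF.sub (UF.ite _ UF.one UF.zero) (UF.ite _ (UF.C (hη i)) UF.zero)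

theorem uf_xvec {x₀ : ∀ (K : Type u) [Field K], (α → K) → K}
    (hx : PF (fun K _ v => x₀ K v)) (k : Fin s.a) :
    UF (fun K _ v => xvec s (x₀ K v) k) := by
  unfold xvec
  exact UF.ite _ (UF.sub UF.X (UF.C hx)) UF.zero

theorem fo_pdiv {c : ∀ (K : Type u) [Field K], (α → K) → s.Idx → K} (n : ℕ) (D : ℕ)
    (hc : ∀ t, PF (fun K _ v => c K v t))
    {x₀ : ∀ (K : Type u) [Field K], (α → K) → K} (hx : PF (fun K _ v => x₀ K v))
    {η : ∀ (K : Type u) [Field K], (α → K) → Fin s.a → K}
    (hη : ∀ i, PF (fun K _ v => η K v i)) :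
    FO (fun K _ v => PDiv s n D (c K v) (x₀ K v) (η K v)) := by
  unfold PDiv
  refine fo_exists fun e => fo_exists fun w => fo_and_const _ fun _ => fo_and_const _ fun _ =>
    fo_and_const _ fun _ => ?_
  refine fo_ex' (β := Fin s.a × Fin D) (fo_and (fo_hasWt s (fun p => PF.var _) _) ?_)
  refine fo_ex' (β := Fin s.a × (Fin s.a × Fin D))
    (fo_and (fo_forall fun j => fo_hasWt s (fun p => PF.var _) _) ?_)
  refine fo_ex' (β := Fin s.a × (Fin s.a × Fin D)) (fo_and (fo_forall fun j => ?_) ?_)
  · refine fo_funext ?_ ?_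
    · intro i
      exact UF.tmul s (fun t => (((hc t).comp Sum.inl).comp Sum.inl).comp Sum.inl)
        (fun i => UF.tpow s (fun t => (((hc t).comp Sum.inl).comp Sum.inl).comp Sum.inl)
          (fun i => UF.toP s (fun p => PF.var _) i) n i)
        (fun i => uf_xvec s (((hx.comp Sum.inl).comp Sum.inl).comp Sum.inl) i) i
    · intro i
      exact UF.tmul s (fun t => (((hc t).comp Sum.inl).comp Sum.inl).comp Sum.inl)
        (fun i => UF.toP s (fun p => PF.var _) i)
        (fun i => UF.toP s (fun p => PF.var _) i) i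
  · refine fo_ex' (β := Fin s.a × (Fin s.a × (Fin s.a × Fin D)))
      (fo_forall fun j => fo_forall fun i' => fo_funext ?_ ?_)
    · intro i
      exact UF.tmul s (fun t => ((((hc t).comp Sum.inl).comp Sum.inl).comp Sum.inl).comp Sum.inl)
        (fun i => UF.tpow s
          (fun t => ((((hc t).comp Sum.inl).comp Sum.inl).comp Sum.inl).comp Sum.inl)
          (fun i => UF.toP s (fun p => PF.var _) i) n i)
        (fun i => uf_yvec s
          (fun i => ((((hη i).comp Sum.inl).comp Sum.inl).comp Sum.inl).comp Sum.inl) i' i) i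
    · intro i
      exact UF.tmul s (fun t => ((((hc t).comp Sum.inl).comp Sum.inl).comp Sum.inl).comp Sum.inl)
        (fun i => UF.toP s (fun p => PF.var _) i)
        (fun i => UF.toP s (fun p => PF.var _) i) i

theorem fo_allPDiv (n D : ℕ) : FO.{u} (fun K _ (c : s.Idx → K) => AllPDiv s n D c) := by
  unfold AllPDiv
  refine fo_all1 (fo_all' (β := Fin s.a) (fo_imp ?_ ?_))
  · exact fo_isPoint s (fun t => PF.var _) (PF.var _) (fun i => PF.var _)
  · exact fo_pdiv s n D (fun t => PF.var _) (PF.var _) (fun i => PF.var _)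

end Fermat.Agent.H63
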