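import Fermat.Agent.H68ThetaIff
import Fermat.Agent.H3S27Smooth
import Fermat.Agent.H63DivFO

/-!
# Divisibility of the class group of a weighted Dedekind algebra is first order (helper63)
-/

set_option autoImplicit false

open scoped nonZeroDivisors Pointwise
open Polynomial

namespace Fermat.Agent.H63

open Fermat.Agent.H95 Fermat.Agent.H68 Fermat.Agent.H77.FOL Fermat.Agent.H77.M

section Span

variable {B : Type*} [CommRing B]

/-- In an integrally closed domain, `f ∣ zⱼⁿ g` for all `j` and `g ∈ m` implies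
`(zⱼ)ⁿ m ≤ (f)`. -/
lemma span_pow_mul_le_span [IsDomain B] [IsIntegrallyClosed B] {ι : Type*} (z : ι → B) (f : B)
    {n : ℕ} (hn : 0 < n) (m : Ideal B) (h : ∀ j, ∀ g ∈ m, f ∣ z j ^ n * g) :
    Ideal.span (Set.range z) ^ n * m ≤ Ideal.span {f} := by
  have h1 : Ideal.span (Set.range z) ^ n = Submodule.span B (Set.range z ^ n) :=
    Submodule.span_pow (Set.range z) n
  rw [Ideal.mul_le]
  intro r hr g hg
  rw [h1] at hr
  induction hr using Submodule.span_induction with
  | mem r hr =>
    obtain ⟨φ, rfl⟩ := Set.mem_pow.1 hr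
    rw [List.prod_ofFn]
    have h2 : ∀ i, ∃ j, z j = (φ i : B) := fun i => (φ i).2
    choose ψ hψ using h2
    rw [Ideal.mem_span_singleton, ← IsIntegrallyClosed.pow_dvd_pow_iff (n := n) hn.ne']
    have h3 : ∀ i, ∃ t, z (ψ i) ^ n * g = f * t := fun i => h (ψ i) g hg
    choose t ht using h3
    refine ⟨∏ i, t i, ?_⟩
    have h4 : f ^ n * ∏ i, t i = ∏ i : Fin n, (f * t i) := by
      rw [Finset.prod_mul_distrib, Finset.prod_const, Finset.card_univ, Fintype.card_fin]
    rw [h4, ← Finset.prod_congr rfl fun i _ => ht i, Finset.prod_mul_distrib, Finset.prod_const,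
      Finset.card_univ, Fintype.card_fin, mul_pow, ← Finset.prod_pow]
    congr 1
    exact Finset.prod_congr rfl fun i _ => by rw [hψ]
  | zero => rw [zero_mul]; exact Ideal.zero_mem _
  | add a b _ _ ha hb => rw [add_mul]; exact Ideal.add_mem _ ha hb
  | smul a b _ hb => rw [smul_eq_mul, mul_assoc]; exact Ideal.mul_mem_left _ _ hb

end Span

section Model

variable {s : Shape} {K : Type*} {B : Type*} [Field K] [CommRing B] [Algebra K B]
  {wt : B → WithBot ℕ} {c : s.Idx → K} {x : B} {y : Fin s.a → B}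

/-- The ideal of a point is generated by `x - x₀` and the `y i - η i`. -/
theorem sub_mem_span (h : s.IsModel c wt x y) (P : B →ₐ[K] K) (m : Ideal B)
    (hx : x - algebraMap K B (P x) ∈ m) (hy : ∀ i, y i - algebraMap K B (P (y i)) ∈ m) (b : B) :
    b - algebraMap K B (P b) ∈ m := by
  revert b
  have key : ∀ q : K[X], aeval x q - algebraMap K B (q.eval (P x)) ∈ m := by
    intro q
    have h1 : (X - C (P x)) ∣ q - C (q.eval (P x)) := Polynomial.X_sub_C_dvd_sub_C_eval
    obtain ⟨r, hr⟩ := h1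
    have h2 := congrArg (aeval x) hr
    rw [map_sub, map_mul, map_sub, aeval_C, aeval_C, aeval_X] at h2
    rw [h2]
    exact m.mul_mem_right _ hx
  refine Fermat.Agent.H3S27.model_induction h ?_ ?_ ?_
  · intro g g' hg hg'
    rw [map_add, map_add]
    have : g + g' - (algebraMap K B (P g) + algebraMap K B (P g')) =
      (g - algebraMap K B (P g)) + (g' - algebraMap K B (P g')) := by ring
    rw [this]
    exact m.add_mem hg hg'
  · rw [map_zero, map_zero, sub_zero]
    exact m.zero_mem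
  · intro q j
    rw [map_mul, Fermat.Agent.H3S27.algHom_aeval, map_mul]
    have : aeval x q * y j - algebraMap K B (q.eval (P x)) * algebraMap K B (P (y j)) =
      (aeval x q - algebraMap K B (q.eval (P x))) * y j +
      algebraMap K B (q.eval (P x)) * (y j - algebraMap K B (P (y j))) := by ring
    rw [this]
    exact m.add_mem (m.mul_mem_right _ (key q)) (m.mul_mem_left _ (hy j))

/-- Elements of minimal weight in an ideal of small colength. -/
theorem exists_minimal (h : s.IsModel c wt x y) {I : Ideal B} (hI0 : I ≠ ⊥)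
    (hIg : cdeg K I ≤ s.g) : ∃ (u : Fin s.a → ℕ) (z : Fin s.a → B),
      (∀ i j, u i ≡ u j [MOD s.a] → i = j) ∧
      (∑ j, u j = ∑ j, s.w j + s.a * cdeg K I) ∧
      (∀ j, wt (z j) = (u j : WithBot ℕ)) ∧ (∀ j, z j ∈ I) ∧
      (∀ j, u j < 3 * s.g + s.a) := by
  have hw := h.isWeight
  have ha : 0 < s.a := Nat.pos_of_ne_zero (NeZero.ne _)
  set e := cdeg K I with he
  have hlarge : ∀ m : ℕ, 2 * s.g + e ≤ m → m ∈ wts wt (I : Set B) := by
    intro m hm
    have h1 : m - e ∈ nset K wt I := hw.mem_nset hI0 (by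
      rw [H77.M.genus_eq h]; omega)
    have h2 : m - e + e ∈ wts wt (I : Set B) := h1
    rwa [Nat.sub_add_cancel (by omega)] at h2
  have hex : ∀ j : Fin s.a, ∃ m, m ∈ wts wt (I : Set B) ∧ s.w j ≡ m [MOD s.a] := by
    intro j
    refine ⟨s.w j + s.a * (2 * s.g + e), hlarge _ ?_, ?_⟩
    · have := Nat.le_mul_of_pos_left (2 * s.g + e) ha
      omega
    · simp [Nat.ModEq]
  classical
  set u : Fin s.a → ℕ := fun j => Nat.find (hex j) with hudef
  have hu1 : ∀ j, u j ∈ wts wt (I : Set B) := fun j => (Nat.find_spec (hex j)).1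
  have hu2 : ∀ j, s.w j ≡ u j [MOD s.a] := fun j => (Nat.find_spec (hex j)).2
  have hu3 : ∀ j m, m ∈ wts wt (I : Set B) → s.w j ≡ m [MOD s.a] → u j ≤ m :=
    fun j m h1 h2 => Nat.find_min' (hex j) ⟨h1, h2⟩
  have huinj : ∀ i j, u i ≡ u j [MOD s.a] → i = j := fun i j hij =>
    s.w_inj i j (((hu2 i).trans hij).trans (hu2 j).symm)
  choose z hzI hzu using hu1
  have hap : aperySet u = wts wt (I : Set B) := by
    refine Set.Subset.antisymm (aperySet_subset_wts h hzu hzI) ?_
    intro m hm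
    obtain ⟨j, hj⟩ := exists_modEq_of_inj s.w_inj m
    have h1 : u j ≡ m [MOD s.a] := (hu2 j).symm.trans hj
    rw [mem_aperySet_iff huinj h1]
    exact hu3 j m hm hj
  have hsum : ∑ j, u j = ∑ j, s.w j + s.a * e := by
    rw [ncard_compl_aperySet_eq h huinj, hap, hw.ncard_compl_wts hI0]
  have hulog : ∀ j, u j < 3 * s.g + s.a := by
    intro j
    set m := 2 * s.g + e + (s.w j + s.a * (2 * s.g + e) - (2 * s.g + e)) % s.a with hm
    have h0 : 2 * s.g + e ≤ s.w j + s.a * (2 * s.g + e) := by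
      have := Nat.le_mul_of_pos_left (2 * s.g + e) ha
      omega
    have h1 : (s.w j + s.a * (2 * s.g + e) - (2 * s.g + e)) % s.a < s.a := Nat.mod_lt _ ha
    have h2 : s.w j ≡ m [MOD s.a] := by
      have h3 : m ≡ 2 * s.g + e + (s.w j + s.a * (2 * s.g + e) - (2 * s.g + e)) [MOD s.a] :=
        Nat.ModEq.add_left _ (Nat.mod_modEq _ _)
      rw [Nat.add_sub_cancel' h0] at h3
      refine Nat.ModEq.trans ?_ h3.symm
      simp [Nat.ModEq]
    have h4 := hu3 j m (hlarge m (by omega)) h2
    omega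
  exact ⟨u, z, huinj, hsum, hzu, hzI, hulog⟩

variable [IsAlgClosed K] [IsDedekindDomain B]

theorem exists_ideal_of_pdiv (h : s.IsModel c wt x y) {n : ℕ} (hn : 0 < n) {m : Ideal B}
    (hm : m.IsMaximal) {f : B} {e : ℕ}
    {u : Fin s.a → ℕ} {z : Fin s.a → B} (hu : ∀ i j, u i ≡ u j [MOD s.a] → i = j)
    (hsum : ∑ j, u j = ∑ j, s.w j + s.a * e) (hf : wt f = ((n * e + 1 : ℕ) : WithBot ℕ))
    (hz : ∀ j, wt (z j) = (u j : WithBot ℕ)) (hzt : ∀ j, ∀ g ∈ m, f ∣ z j ^ n * g) :
    ∃ I : Ideal B, I ≠ ⊥ ∧ I ^ n * m = Ideal.span {f} := by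
  have hw := h.isWeight
  set I : Ideal B := Ideal.span (Set.range z) with hI
  have hzI : ∀ j, z j ∈ I := fun j => Ideal.subset_span ⟨j, rfl⟩
  have hI0 : I ≠ ⊥ := by
    intro h0
    have := hzI 0
    rw [h0, Ideal.mem_bot] at this
    exact hw.ne_zero_of_wt (hz 0) this
  have hm0 : m ≠ ⊥ := ne_bot_of_isMaximal hw hm
  have hgap := (ncard_compl_aperySet_eq h hu).1 hsum
  have hle : cdeg K I ≤ e := by
    have h1 := hw.ncard_compl_wts hI0
    have h2 : (wts wt (I : Set B))ᶜ.ncard ≤ (aperySet u)ᶜ.ncard :=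
      Set.ncard_le_ncard (Set.compl_subset_compl.2 (aperySet_subset_wts h hz hzI))
        (finite_compl_aperySet hu)
    omega
  have hIn : I ^ n * m ≤ Ideal.span {f} := span_pow_mul_le_span z f hn m hzt
  have hIn0 : I ^ n * m ≠ ⊥ := mul_ne_zero (pow_ne_zero n hI0) hm0
  have h1 : cdeg K (I ^ n * m) = n * cdeg K I + 1 := by
    rw [cdeg_mul hw (pow_ne_zero n hI0) hm0, cdeg_pow hw hI0 n, cdeg_maximal hw hm]
  have h2 : cdeg K (Ideal.span {f}) = n * e + 1 := hw.cdeg_span' hf
  have h3 : cdeg K (I ^ n * m) ≤ cdeg K (Ideal.span {f}) := by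
    rw [h1, h2]
    exact Nat.add_le_add_right (Nat.mul_le_mul_left n hle) 1
  exact ⟨I, hI0, hw.eq_of_le_of_cdeg_le hIn hIn0 h3⟩

/-- bound for arrays -/
def divBound (s : Shape) (n : ℕ) : ℕ := n * (3 * s.g + s.a) + s.a + ∑ i, s.w i + 2

omit [IsAlgClosed K] [IsDedekindDomain B] in
lemma el_single_zero (h : s.IsModel c wt x y) (p : K[X]) :
    ev x y (fun k => if k = 0 then p else 0 : Fin s.a → K[X]) = aeval x p := by
  have : (fun k => if k = 0 then p else 0 : Fin s.a → K[X]) = Pi.single 0 p := by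
    funext k
    by_cases hk : k = 0
    · subst hk; simp
    · rw [if_neg hk, Pi.single_eq_of_ne hk]
  rw [this, ev_single, h.y_zero, mul_one]

omit [IsAlgClosed K] [IsDedekindDomain B] in
lemma ev_xvec (h : s.IsModel c wt x y) (x₀ : K) :
    ev x y (xvec s x₀) = x - algebraMap K B x₀ := by
  unfold xvec
  rw [el_single_zero h, map_sub, aeval_X, aeval_C]

omit [IsAlgClosed K] [IsDedekindDomain B] in
lemma ev_yvec (h : s.IsModel c wt x y) (η : Fin s.a → K) (i : Fin s.a) :
    ev x y (yvec s η i) = y i - algebraMap K B (η i) := by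
  have : yvec s η i = Pi.single i 1 - (fun k => if k = 0 then C (η i) else 0) := by
    funext k
    unfold yvec
    rw [Pi.sub_apply]
    congr 1
    by_cases hk : k = i
    · subst hk; simp
    · rw [if_neg hk, Pi.single_eq_of_ne hk]
  rw [this, map_sub, el_single_zero h, ev_single, map_one, one_mul, aeval_C]

omit [IsAlgClosed K] [IsDedekindDomain B] in
lemma pdiv_iff (h : s.IsModel c wt x y) (n D : ℕ) (x₀ : K) (η : Fin s.a → K) :
    PDiv s n D c x₀ η ↔ ∃ (e : Fin D) (u : Fin s.a → Fin D), n * (e : ℕ) + 1 < D ∧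
      (∀ i j, (u i : ℕ) ≡ u j [MOD s.a] → i = j) ∧ (∑ j, (u j : ℕ) = ∑ j, s.w j + s.a * e) ∧
      ∃ f : Fin s.a × Fin D → K, wt (el x y f) = ((n * e + 1 : ℕ) : WithBot ℕ) ∧
      ∃ z : Fin s.a × (Fin s.a × Fin D) → K,
        (∀ j, wt (el x y (fun p => z (j, p))) = ((u j : ℕ) : WithBot ℕ)) ∧
      ∃ t : Fin s.a × (Fin s.a × Fin D) → K,
        (∀ j, el x y (fun p => z (j, p)) ^ n * (x - algebraMap K B x₀) =
          el x y f * el x y (fun p => t (j, p))) ∧
      ∃ r : Fin s.a × (Fin s.a × (Fin s.a × Fin D)) → K,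
        ∀ j i, el x y (fun p => z (j, p)) ^ n * (y i - algebraMap K B (η i)) =
          el x y f * el x y (fun p => r (i, (j, p))) := by
  unfold PDiv
  simp only [wt_el h]
  refine exists_congr fun e => exists_congr fun u => and_congr Iff.rfl (and_congr Iff.rfl
    (and_congr Iff.rfl (exists_congr fun f => and_congr Iff.rfl (exists_congr fun z =>
      and_congr Iff.rfl (exists_congr fun t => and_congr (forall_congr' fun j => ?_)
        (exists_congr fun r => forall_congr' fun j => forall_congr' fun i => ?_))))))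
  · rw [← (ev_bijective h).1.eq_iff, ev_mul h, ev_tpow h, ev_mul h, ev_xvec h]
    rfl
  · rw [← (ev_bijective h).1.eq_iff, ev_mul h, ev_tpow h, ev_mul h, ev_yvec h]
    rfl

/-- The set of `n`-th powers contains all classes as soon as it contains the classes of the
maximal ideals. -/
theorem exists_pow_eq_of_maximal (n : ℕ)
    (H : ∀ (m : (Ideal B)⁰), (m : Ideal B).IsMaximal → ∃ κ', κ' ^ n = ClassGroup.mk0 m)
    (κ : ClassGroup B) : ∃ κ', κ' ^ n = κ := by
  obtain ⟨I, rfl⟩ := ClassGroup.mk0_surjective κ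
  have key : ∀ I : Ideal B, ∀ hI : I ≠ 0, ∃ κ' : ClassGroup B, κ' ^ n =
      ClassGroup.mk0 ⟨I, mem_nonZeroDivisors_of_ne_zero hI⟩ := by
    intro I
    induction I using UniqueFactorizationMonoid.induction_on_prime with
    | h₁ => exact fun h => absurd rfl h
    | h₂ J hJ =>
      intro h
      refine ⟨1, ?_⟩
      rw [one_pow]
      symm
      have hJ1 : J = 1 := by
        rw [Ideal.one_eq_top]
        exact Ideal.isUnit_iff.1 hJ
      rw [ClassGroup.mk0_eq_one_iff]
      exact ⟨⟨1, by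
        show J = Ideal.span {1}
        rw [hJ1, Ideal.span_singleton_one, Ideal.one_eq_top]⟩⟩
    | h₃ J P hJ hP ih =>
      intro h
      obtain ⟨κ₁, h₁⟩ := ih hJ
      have hPmax : P.IsMaximal := (Ideal.isPrime_of_prime hP).isMaximal hP.ne_zero
      obtain ⟨κ₂, h₂⟩ := H ⟨P, mem_nonZeroDivisors_of_ne_zero hP.ne_zero⟩ hPmax
      refine ⟨κ₂ * κ₁, ?_⟩
      rw [mul_pow, h₁, h₂, ← map_mul]
      rfl
  exact key I (nonZeroDivisors.ne_zero I.2)

/-- **The class group is `n`-divisible iff the first order formula `AllPDiv` holds.** -/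
theorem allPDiv_iff (h : s.IsModel c wt x y) {n : ℕ} (hn : 0 < n) :
    AllPDiv s n (divBound s n) c ↔ ∀ κ : ClassGroup B, ∃ κ', κ' ^ n = κ := by
  classical
  have hw := h.isWeight
  have ha : 0 < s.a := Nat.pos_of_ne_zero (NeZero.ne _)
  set D := divBound s n with hD
  constructor
  · intro H κ
    refine exists_pow_eq_of_maximal n ?_ κ
    intro m hm
    obtain ⟨P, hP⟩ := Fermat.Agent.H3S27.exists_algHom_ker hw (m := (m : Ideal B))
      (nonZeroDivisors.ne_zero m.2)
    have hpt := Fermat.Agent.H3S27.isPoint_of_algHom h P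
    have hdiv := H _ _ hpt
    rw [pdiv_iff h] at hdiv
    obtain ⟨e, u, -, hu, hsum, f, hf, z, hz, t, ht, r, hr⟩ := hdiv
    have hxm : x - algebraMap K B (P x) ∈ (m : Ideal B) := by
      rw [← hP, RingHom.mem_ker, map_sub, P.commutes]
      simp
    have hym : ∀ i, y i - algebraMap K B (P (y i)) ∈ (m : Ideal B) := by
      intro i
      rw [← hP, RingHom.mem_ker, map_sub, P.commutes]
      simp
    -- divisibility on all of `m`
    have hdvd : ∀ j, ∀ g ∈ (m : Ideal B), el x y f ∣ el x y (fun p => z (j, p)) ^ n * g := by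
      intro j
      -- the ideal of all such `g`
      let Q : Ideal B := (Ideal.span {el x y f}).colon {el x y (fun p => z (j, p)) ^ n}
      have hQ : ∀ g, g ∈ Q ↔ el x y f ∣ el x y (fun p => z (j, p)) ^ n * g := by
        intro g
        rw [Submodule.mem_colon_singleton, smul_eq_mul, Ideal.mem_span_singleton, mul_comm]
      have hxQ : x - algebraMap K B (P x) ∈ Q := (hQ _).2 ⟨_, ht j⟩
      have hyQ : ∀ i, y i - algebraMap K B (P (y i)) ∈ Q := fun i => (hQ _).2 ⟨_, hr j i⟩
      intro g hg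
      rw [← hQ]
      have h1 := sub_mem_span h P Q hxQ hyQ g
      have h2 : P g = 0 := by
        rw [← hP] at hg
        exact hg
      rwa [h2, map_zero, sub_zero] at h1
    obtain ⟨I, hI0, hI⟩ := exists_ideal_of_pdiv h hn hm (u := fun j => (u j : ℕ)) hu hsum hf hz hdvd
    have hprin : ClassGroup.mk0 ((⟨I, mem_nonZeroDivisors_of_ne_zero hI0⟩ : (Ideal B)⁰) ^ n * m)
        = 1 := by
      rw [ClassGroup.mk0_eq_one_iff]
      exact ⟨⟨_, hI⟩⟩
    rw [map_mul, map_pow] at hprin
    refine ⟨(ClassGroup.mk0 (⟨I, mem_nonZeroDivisors_of_ne_zero hI0⟩ : (Ideal B)⁰))⁻¹, ?_⟩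
    rw [inv_pow, inv_eq_iff_mul_eq_one]
    exact hprin
  · intro H x₀ η hpt
    obtain ⟨P, hPx, hPy⟩ := Fermat.Agent.H3S27.exists_algHom h hpt
    have hPsurj : Function.Surjective P := fun c => ⟨algebraMap K B c, by rw [P.commutes]; rfl⟩
    have hm : (RingHom.ker P).IsMaximal := RingHom.ker_isMaximal_of_surjective P hPsurj
    have hm0 : RingHom.ker P ≠ ⊥ := ne_bot_of_isMaximal hw hm
    set m : (Ideal B)⁰ := ⟨RingHom.ker P, mem_nonZeroDivisors_of_ne_zero hm0⟩ with hmdef
    obtain ⟨κ, hκ⟩ := H (ClassGroup.mk0 m)⁻¹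
    obtain ⟨I, hI, hIg, -⟩ := exists_reduced hw κ
    rw [H77.M.genus_eq h] at hIg
    have hI0 : (I : Ideal B) ≠ ⊥ := nonZeroDivisors.ne_zero I.2
    have hprin : ClassGroup.mk0 (I ^ n * m) = 1 := by
      rw [map_mul, map_pow, hI, hκ, inv_mul_cancel]
    obtain ⟨f, hf⟩ := ((ClassGroup.mk0_eq_one_iff (I ^ n * m).2).1 hprin).principal
    have hf' : (I : Ideal B) ^ n * (m : Ideal B) = Ideal.span {f} := hf
    have hIn0 : (I : Ideal B) ^ n * (m : Ideal B) ≠ ⊥ := mul_ne_zero (pow_ne_zero n hI0) hm0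
    have hf0 : f ≠ 0 := by
      rintro rfl
      rw [hf', Ideal.span_singleton_eq_bot.2 rfl] at hIn0
      exact hIn0 rfl
    obtain ⟨u, z, hu, hsum, hwz, hzI, hub⟩ := exists_minimal h hI0 hIg
    set e := cdeg K (I : Ideal B) with he
    have hwf : wt f = ((n * e + 1 : ℕ) : WithBot ℕ) := by
      rw [← hw.cdeg_span hf0, ← hf', cdeg_mul hw (pow_ne_zero n hI0) hm0, cdeg_pow hw hI0,
        cdeg_maximal hw hm]
    have hxm : x - algebraMap K B x₀ ∈ (m : Ideal B) := by
      show P _ = 0
      rw [map_sub, hPx, P.commutes]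
      simp
    have hym : ∀ i, y i - algebraMap K B (η i) ∈ (m : Ideal B) := by
      intro i
      show P _ = 0
      rw [map_sub, hPy, P.commutes]
      simp
    have hmem : ∀ j, ∀ g ∈ (m : Ideal B), ∃ t, z j ^ n * g = f * t := by
      intro j g hg
      have h1 : z j ^ n * g ∈ (I : Ideal B) ^ n * (m : Ideal B) :=
        Ideal.mul_mem_mul (Ideal.pow_mem_pow (hzI j) n) hg
      rw [hf', Ideal.mem_span_singleton] at h1
      exact h1
    choose t ht using fun j => hmem j _ hxm
    choose r hr using fun j i => hmem j _ (hym i)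
    -- weights
    have hn1 : ∀ k, k ≤ 3 * s.g + s.a → k < D := by
      intro k hk
      have := Nat.le_mul_of_pos_left (3 * s.g + s.a) hn
      unfold divBound at hD
      omega
    have hnm : ∀ k, k ≤ 3 * s.g + s.a → n * k + s.a + ∑ i, s.w i + 1 < D := by
      intro k hk
      have := Nat.mul_le_mul_left n hk
      unfold divBound at hD
      omega
    have hwx : wt (x - algebraMap K B x₀) ≤ ((s.a : ℕ) : WithBot ℕ) := by
      refine (hw.sub_le _ _).trans (max_le (le_of_eq h.wt_x) ?_)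
      by_cases h0 : x₀ = 0
      · rw [h0, map_zero, hw.wt_zero]; exact bot_le
      · rw [hw.algebraMap _ h0]
        exact_mod_cast Nat.zero_le _
    have hwy : ∀ i, wt (y i - algebraMap K B (η i)) ≤ ((∑ i, s.w i : ℕ) : WithBot ℕ) := by
      intro i
      refine (hw.sub_le _ _).trans (max_le ?_ ?_)
      · rw [h.wt_y]
        exact_mod_cast Finset.single_le_sum (f := s.w) (fun _ _ => Nat.zero_le _)
          (Finset.mem_univ i)
      · by_cases h0 : η i = 0
        · rw [h0, map_zero, hw.wt_zero]; exact bot_le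
        · rw [hw.algebraMap _ h0]
          exact_mod_cast Nat.zero_le _
    have hwt : ∀ j (g t : B) (k : ℕ), wt g ≤ (k : WithBot ℕ) → z j ^ n * g = f * t →
        wt t ≤ ((n * u j + k : ℕ) : WithBot ℕ) := by
      intro j g t k hg htg
      rcases eq_or_ne t 0 with h0 | h0
      · rw [h0, hw.wt_zero]
        exact bot_le
      · obtain ⟨l, hl⟩ := hw.exists_nat h0
        have hg0 : g ≠ 0 := by
          rintro rfl
          rw [mul_zero] at htg
          have := hw.isDomain
          exact mul_ne_zero hf0 h0 htg.symm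
        obtain ⟨k', hk'⟩ := hw.exists_nat hg0
        have h1 := congrArg wt htg
        rw [hw.mul, H77.M.wt_pow hw (hwz j), hw.mul, hwf, hl, hk', ← Nat.cast_add,
          ← Nat.cast_add] at h1
        have h2 : u j * n + k' = n * e + 1 + l := by exact_mod_cast h1
        rw [hk'] at hg
        have h3 : k' ≤ k := by exact_mod_cast hg
        rw [hl]
        have h4 : l ≤ n * u j + k := by
          rw [Nat.mul_comm n (u j)]
          omega
        exact_mod_cast h4
    have hfA : ∃ A : Fin s.a × Fin D → K, el x y A = f :=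
      exists_el_eq h _ (by
        rw [hwf]
        have h1 := hnm e (by omega)
        exact_mod_cast (by omega : n * e + 1 < D))
    have hzA : ∀ j, ∃ A : Fin s.a × Fin D → K, el x y A = z j := fun j =>
      exists_el_eq h _ (by rw [hwz]; exact_mod_cast hn1 _ (hub j).le)
    have htA : ∀ j, ∃ A : Fin s.a × Fin D → K, el x y A = t j := fun j =>
      exists_el_eq h _ ((hwt j _ _ _ hwx (ht j)).trans_lt (by
        have h1 := hnm (u j) (hub j).le
        exact_mod_cast (by omega : n * u j + s.a < D)))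
    have hrA : ∀ j i, ∃ A : Fin s.a × Fin D → K, el x y A = r j i := fun j i =>
      exists_el_eq h _ ((hwt j _ _ _ (hwy i) (hr j i)).trans_lt (by
        have h1 := hnm (u j) (hub j).le
        exact_mod_cast (by omega : n * u j + ∑ i, s.w i < D)))
    obtain ⟨F, hF⟩ := hfA
    choose Z hZ using hzA
    choose T hT using htA
    choose R hR using hrA
    rw [pdiv_iff h]
    refine ⟨⟨e, hn1 _ (by omega)⟩, fun j => ⟨u j, hn1 _ (hub j).le⟩, ?_, hu, hsum, F, ?_,
      fun p => Z p.1 p.2, fun j => ?_, fun p => T p.1 p.2, fun j => ?_,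
      fun p => R p.2.1 p.1 p.2.2, fun j i => ?_⟩
    · have h1 := hnm e (by omega)
      show n * e + 1 < D
      omega
    · rw [hF, hwf]
    · show wt (el x y (Z j)) = _
      rw [hZ, hwz]
    · show el x y (Z j) ^ n * _ = el x y F * el x y (T j)
      rw [hZ, hF, hT, ht]
    · show el x y (Z j) ^ n * _ = el x y F * el x y (R j i)
      rw [hZ, hF, hR, hr]

end Model

end Fermat.Agent.H63
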