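import Fermat.Agent.H68Transfer
import Fermat.Agent.H77ExModel
import Fermat.Agent.H3S27Smooth

/-!
# S27: transfer of torsion counts (final form of job FO1/FO3)
-/

set_option autoImplicit false

open Fermat.Agent.H95

namespace Fermat.Agent.H77

universe u v

theorem transfer (s : Shape) (n M : ℕ) (hn : 0 < n) (hM : 0 < M)
    (hp : {p : Nat.Primes | ∀ (K : Type u) [Field K] [IsAlgClosed K] [CharP K p],
      (∀ c : K, ∃ m, 0 < m ∧ c ^ (p : ℕ) ^ m = c) →
      ∀ (B : Type u) [CommRing B] [Algebra K B] [IsDedekindDomain B] (wt : B → WithBot ℕ)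
        (x : B) (y : Fin s.a → B) (c : s.Idx → K), s.IsModel c wt x y →
        Nat.card {κ : ClassGroup B // κ ^ n = 1} = M}.Infinite)
    (K : Type u) [Field K] [IsAlgClosed K] [CharZero K] (B : Type v) [CommRing B] [Algebra K B]
    [IsDedekindDomain B] (wt : B → WithBot ℕ) (x : B) (y : Fin s.a → B) (c : s.Idx → K)
    (h : s.IsModel c wt x y) :
    Nat.card {κ : ClassGroup B // κ ^ n = 1} = M :=
  H68.transferB_of.{u, v} s n M hn hM (fun _ _ _ hc => Fermat.Agent.H77.M.exists_model hc)
    (fun _ _ _ _ _ _ _ _ _ _ hB hs => (H3S27.isSmooth_iff hB).1 hs) hp K B wt x y c h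
    ((H3S27.isSmooth_iff h).2 inferInstance)

end Fermat.Agent.H77
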