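import Mathlib

/-!
# Euler recursion for invariant effective divisors (helper95)
-/

set_option autoImplicit false

namespace Fermat.Agent.H95

namespace Euler

variable {X : Type*} (σ : Equiv.Perm X)

/-- invariant divisors of degree `n` -/
def I (n : ℕ) : Set (X →₀ ℕ) := {D | (∀ x, D (σ x) = D x) ∧ (D.sum fun _ k => k) = n}

/-- `∑_{i<r} σ^i x` -/
noncomputable def O (r : ℕ) (x : X) : X →₀ ℕ :=
  ∑ i ∈ Finset.range r, Finsupp.single ((σ ^ i) x) 1

variable {σ}

lemma mem_I {n : ℕ} {D : X →₀ ℕ} : D ∈ I σ n ↔ (∀ x, D (σ x) = D x) ∧ D.degree = n := Iff.rfl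

lemma inv_pow {D : X →₀ ℕ} (hD : ∀ x, D (σ x) = D x) (i : ℕ) (x : X) : D ((σ ^ i) x) = D x := by
  induction i with
  | zero => rfl
  | succ i ih => rw [pow_succ', Equiv.Perm.mul_apply, hD, ih]

lemma degree_O (r : ℕ) (x : X) : (O σ r x).degree = r := by
  rw [O, map_sum]
  simp [Finsupp.degree_single]

open Classical in
lemma O_apply (r : ℕ) (x y : X) :
    O σ r x y = ∑ i ∈ Finset.range r, if (σ ^ i) x = y then 1 else 0 := by
  rw [O, Finsupp.finsetSum_apply]
  simp [Finsupp.single_apply]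

lemma O_inv {r : ℕ} {x : X} (h : (σ ^ r) x = x) (y : X) : O σ r x (σ y) = O σ r x y := by
  classical
  rw [O_apply, O_apply]
  have h1 : ∀ i, (if (σ ^ i) x = y then 1 else 0 : ℕ) = if (σ ^ (i + 1)) x = σ y then 1 else 0 := by
    intro i
    rw [pow_succ', Equiv.Perm.mul_apply, σ.injective.eq_iff]
  rw [Finset.sum_congr rfl fun i _ => h1 i]
  have h2 := Finset.sum_range_succ (fun i => if (σ ^ i) x = σ y then 1 else 0 : ℕ → ℕ) r
  rw [Finset.sum_range_succ', h, pow_zero, Equiv.Perm.one_apply] at h2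
  exact (add_right_cancel h2).symm

lemma O_mem_I {r : ℕ} {x : X} (h : (σ ^ r) x = x) : O σ r x ∈ I σ r :=
  mem_I.mpr ⟨O_inv h, degree_O r x⟩

lemma exists_pow_eq {n : ℕ} {D : X →₀ ℕ} (hD : D ∈ I σ n) {x : X} (hx : D x ≠ 0) :
    ∃ r ∈ Finset.Icc 1 n, (σ ^ r) x = x := by
  classical
  have h1 : D.support.card ≤ n := by
    rw [← (mem_I.mp hD).2, Finsupp.degree_apply, Finset.card_eq_sum_ones]
    refine Finset.sum_le_sum fun y hy => ?_
    exact Nat.one_le_iff_ne_zero.mpr (Finsupp.mem_support_iff.mp hy)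
  have h2 : ∃ a ∈ Finset.range (n + 1), ∃ b ∈ Finset.range (n + 1), a ≠ b ∧
      (σ ^ a) x = (σ ^ b) x := by
    refine Finset.exists_ne_map_eq_of_card_lt_of_maps_to (t := D.support) ?_ ?_
    · rw [Finset.card_range]; omega
    · intro a _
      rw [Finset.mem_coe, Finsupp.mem_support_iff, inv_pow (mem_I.mp hD).1]
      exact hx
  obtain ⟨a, ha, b, hb, hab, h⟩ := h2
  rw [Finset.mem_range] at ha hb
  wlog hlt : a < b generalizing a b
  · exact this b hb a ha (Ne.symm hab) h.symm (by omega)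
  refine ⟨b - a, Finset.mem_Icc.mpr ⟨by omega, by omega⟩, ?_⟩
  have h3 : (σ ^ a) ((σ ^ (b - a)) x) = (σ ^ a) x := by
    rw [← Equiv.Perm.mul_apply, ← pow_add, h]
    congr 2
    omega
  exact (σ ^ a).injective h3

lemma O_add {a b : ℕ} {x : X} (h : (σ ^ a) x = x) : O σ (a + b) x = O σ a x + O σ b x := by
  rw [O, Finset.sum_range_add, O, O]
  congr 1
  refine Finset.sum_congr rfl fun i _ => ?_
  rw [add_comm, pow_add, Equiv.Perm.mul_apply, h]

lemma pow_mul_eq {d : ℕ} {x : X} (h : (σ ^ d) x = x) (j : ℕ) : (σ ^ (j * d)) x = x := by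
  induction j with
  | zero => simp
  | succ j ih => rw [Nat.succ_mul, pow_add, Equiv.Perm.mul_apply, h, ih]

lemma O_self {d : ℕ} {x : X} (hd : d = Function.minimalPeriod σ x) (hd0 : 0 < d) (j : ℕ) :
    O σ (j * d) x x = j := by
  have hdx : (σ ^ d) x = x := by
    have := Function.isPeriodicPt_minimalPeriod σ x
    rw [← hd] at this
    exact this
  induction j with
  | zero => simp [O]
  | succ j ih =>
    rw [Nat.succ_mul, O_add (pow_mul_eq hdx j), Finsupp.add_apply, ih]
    congr 1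
    classical
    rw [O_apply, Finset.sum_eq_single 0]
    · simp
    · intro i hi hi0
      rw [if_neg]
      intro hc
      have h1 : Function.IsPeriodicPt σ i x := hc
      have h2 := h1.minimalPeriod_le (Nat.pos_of_ne_zero hi0)
      rw [Finset.mem_range] at hi
      omega
    · intro h
      exact absurd (Finset.mem_range.mpr hd0) h

open Classical in
lemma card_filter {n : ℕ} {D : X →₀ ℕ} (hD : D ∈ I σ n) (x : X) :
    D x = ((Finset.Icc 1 n).filter fun r => (σ ^ r) x = x ∧ O σ r x ≤ D).card := by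
  by_cases hx : D x = 0
  · rw [hx, eq_comm, Finset.card_eq_zero, Finset.filter_eq_empty_iff]
    rintro r hr ⟨-, h⟩
    have h1 := h x
    rw [hx, Nat.le_zero, O_apply, Finset.sum_eq_zero_iff] at h1
    have h2 := h1 0 (by rw [Finset.mem_range]; rw [Finset.mem_Icc] at hr; omega)
    simp at h2
  · obtain ⟨r₀, hr₀, hr₀'⟩ := exists_pow_eq hD hx
    rw [Finset.mem_Icc] at hr₀
    obtain ⟨d, hd⟩ : ∃ d, d = Function.minimalPeriod σ x := ⟨_, rfl⟩
    have hd0 : 0 < d := by
      rw [hd]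
      exact Function.IsPeriodicPt.minimalPeriod_pos (n := r₀) (by omega) hr₀'
    have hdx : (σ ^ d) x = x := by
      have := Function.isPeriodicPt_minimalPeriod σ x
      rw [← hd] at this
      exact this
    have key : ((Finset.Icc 1 n).filter fun r => (σ ^ r) x = x ∧ O σ r x ≤ D) =
        (Finset.Icc 1 (D x)).image (· * d) := by
      ext r
      simp only [Finset.mem_filter, Finset.mem_Icc, Finset.mem_image]
      constructor
      · rintro ⟨⟨h1, h2⟩, h3, h4⟩
        have h5 : d ∣ r := by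
          rw [hd]
          exact Function.IsPeriodicPt.minimalPeriod_dvd (n := r) h3
        obtain ⟨j, rfl⟩ := h5
        refine ⟨j, ⟨?_, ?_⟩, mul_comm _ _⟩
        · rcases Nat.eq_zero_or_pos j with rfl | h
          · simp at h1
          · exact h
        · have := h4 x
          rwa [mul_comm, O_self hd hd0] at this
      · rintro ⟨j, ⟨h1, h2⟩, rfl⟩
        have h3 : (σ ^ (j * d)) x = x := pow_mul_eq hdx j
        have h4 : O σ (j * d) x ≤ D := by
          intro y
          by_cases hy : ∃ i, (σ ^ i) x = y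
          · obtain ⟨i, rfl⟩ := hy
            rw [inv_pow (mem_I.mp hD).1, inv_pow (O_inv h3), O_self hd hd0]
            exact h2
          · rw [O_apply, Finset.sum_eq_zero]
            · exact Nat.zero_le _
            · intro i _
              rw [if_neg]
              exact fun h => hy ⟨i, h⟩
        refine ⟨⟨Nat.mul_pos h1 hd0, ?_⟩, h3, h4⟩
        have := Finsupp.degree_mono h4
        rwa [degree_O, (mem_I.mp hD).2] at this
    rw [key, Finset.card_image_of_injective, Nat.card_Icc, Nat.add_sub_cancel]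
    intro a b hab
    exact Nat.eq_of_mul_eq_mul_right hd0 hab

variable (hfin : ∀ r, 0 < r → {x | (σ ^ r) x = x}.Finite)

include hfin in
lemma exists_finset (n : ℕ) : ∃ F : Finset X, (∀ D ∈ I σ n, D.support ⊆ F) ∧
    ∀ r ∈ Finset.Icc 1 n, ∀ x, (σ ^ r) x = x → x ∈ F := by
  classical
  have h : (⋃ r ∈ Finset.Icc 1 n, {x | (σ ^ r) x = x}).Finite := by
    refine Set.Finite.biUnion (Finset.finite_toSet _) fun r hr => hfin r ?_
    exact (Finset.mem_Icc.mp (Finset.mem_coe.mp hr)).1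
  refine ⟨h.toFinset, fun D hD x hx => ?_, fun r hr x hx => ?_⟩
  · obtain ⟨r, hr, hr'⟩ := exists_pow_eq hD (Finsupp.mem_support_iff.mp hx)
    rw [Set.Finite.mem_toFinset, Set.mem_iUnion₂]
    exact ⟨r, hr, hr'⟩
  · rw [Set.Finite.mem_toFinset, Set.mem_iUnion₂]
    exact ⟨r, hr, hx⟩

include hfin in
theorem finite_inv (n : ℕ) : (I σ n).Finite := by
  classical
  obtain ⟨F, hF, -⟩ := exists_finset hfin n
  refine (Set.finite_Icc (0 : X →₀ ℕ) (∑ x ∈ F, Finsupp.single x n)).subset ?_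
  intro D hD
  refine ⟨zero_le, ?_⟩
  intro x
  rw [Finsupp.finsetSum_apply]
  by_cases hx : D x = 0
  · rw [hx]; exact Nat.zero_le _
  · have hx' : x ∈ F := hF D hD (Finsupp.mem_support_iff.mpr hx)
    calc D x ≤ D.degree := Finsupp.le_degree x D
      _ = Finsupp.single x n x := by rw [(mem_I.mp hD).2, Finsupp.single_eq_same]
      _ ≤ _ := Finset.single_le_sum (f := fun y => Finsupp.single y n x)
          (fun _ _ => Nat.zero_le _) hx'

include hfin in
theorem euler_recursion {R : Type*} [CommRing R] (χ : (X →₀ ℕ) → R)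
    (hχ : ∀ D D', (∀ x, D (σ x) = D x) → (∀ x, D' (σ x) = D' x) → χ (D + D') = χ D * χ D')
    (n : ℕ) :
    (n : R) * (∑ᶠ D ∈ {D : X →₀ ℕ | (∀ x, D (σ x) = D x) ∧ (D.sum fun _ k => k) = n}, χ D) =
      ∑ r ∈ Finset.Icc 1 n, (∑ᶠ x ∈ {x | (σ ^ r) x = x},
        χ (∑ i ∈ Finset.range r, Finsupp.single ((σ ^ i) x) 1)) *
        (∑ᶠ D ∈ {D : X →₀ ℕ | (∀ x, D (σ x) = D x) ∧ (D.sum fun _ k => k) = n - r}, χ D) := by
  classical
  change (n : R) * (∑ᶠ D ∈ I σ n, χ D) = ∑ r ∈ Finset.Icc 1 n, (∑ᶠ x ∈ {x | (σ ^ r) x = x},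
    χ (O σ r x)) * (∑ᶠ D ∈ I σ (n - r), χ D)
  obtain ⟨F, hF, hF'⟩ := exists_finset hfin n
  have hI : ∀ k, ∑ᶠ D ∈ I σ k, χ D = ∑ D ∈ (finite_inv hfin k).toFinset, χ D := fun k =>
    finsum_mem_eq_finite_toFinset_sum _ _
  have hP : ∀ r ∈ Finset.Icc 1 n, ∑ᶠ x ∈ {x | (σ ^ r) x = x}, χ (O σ r x) =
      ∑ x ∈ F with (σ ^ r) x = x, χ (O σ r x) := by
    intro r hr
    refine finsum_mem_eq_sum_of_inter_support_eq _ ?_
    ext x
    simp only [Set.mem_inter_iff, Set.mem_ofPred_eq, Finset.coe_filter]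
    constructor
    · rintro ⟨h1, h2⟩
      exact ⟨⟨hF' r hr x h1, h1⟩, h2⟩
    · rintro ⟨⟨_, h1⟩, h2⟩
      exact ⟨h1, h2⟩
  have hR : ∑ r ∈ Finset.Icc 1 n, (∑ᶠ x ∈ {x | (σ ^ r) x = x}, χ (O σ r x)) *
      (∑ᶠ D ∈ I σ (n - r), χ D) = ∑ r ∈ Finset.Icc 1 n,
        (∑ x ∈ F with (σ ^ r) x = x, χ (O σ r x)) *
          ∑ D ∈ (finite_inv hfin (n - r)).toFinset, χ D :=
    Finset.sum_congr rfl fun r hr => by rw [hI, hP r hr]
  rw [hI, hR]
  -- left-hand side
  have h1 : (n : R) * ∑ D ∈ (finite_inv hfin n).toFinset, χ D =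
      ∑ D ∈ (finite_inv hfin n).toFinset, ∑ x ∈ F, ∑ r ∈ Finset.Icc 1 n,
        if (σ ^ r) x = x ∧ O σ r x ≤ D then χ D else 0 := by
    rw [Finset.mul_sum]
    refine Finset.sum_congr rfl fun D hD => ?_
    rw [Set.Finite.mem_toFinset] at hD
    have h2 : (n : R) = ∑ x ∈ F, (D x : R) := by
      rw [← Nat.cast_sum]
      congr 1
      rw [← (mem_I.mp hD).2, Finsupp.degree_apply]
      refine Finset.sum_subset (hF D hD) fun x _ hx => ?_
      rwa [Finsupp.notMem_support_iff] at hx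
    rw [h2, Finset.sum_mul]
    refine Finset.sum_congr rfl fun x _ => ?_
    rw [card_filter hD x, ← Finset.sum_filter, Finset.sum_const, nsmul_eq_mul]
  rw [h1, Finset.sum_comm]
  simp_rw [Finset.sum_comm (s := (finite_inv hfin n).toFinset) (t := Finset.Icc 1 n)]
  rw [Finset.sum_comm]
  refine Finset.sum_congr rfl fun r hr => ?_
  rw [Finset.sum_filter, Finset.sum_mul]
  refine Finset.sum_congr rfl fun x hx => ?_
  by_cases hrx : (σ ^ r) x = x
  · rw [if_pos hrx]
    simp only [hrx, true_and]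
    rw [← Finset.sum_filter, Finset.mul_sum]
    rw [Finset.mem_Icc] at hr
    symm
    refine Finset.sum_bij' (fun D _ => O σ r x + D) (fun D _ => D - O σ r x) ?_ ?_ ?_ ?_ ?_
    · intro D hD
      rw [Set.Finite.mem_toFinset, mem_I] at hD
      rw [Finset.mem_filter, Set.Finite.mem_toFinset, mem_I]
      refine ⟨⟨fun y => ?_, ?_⟩, ?_⟩
      · rw [Finsupp.add_apply, Finsupp.add_apply, O_inv hrx, hD.1]
      · rw [map_add, degree_O, hD.2]; omega
      · exact le_self_add
    · intro D hD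
      rw [Finset.mem_filter, Set.Finite.mem_toFinset, mem_I] at hD
      rw [Set.Finite.mem_toFinset, mem_I]
      refine ⟨fun y => ?_, ?_⟩
      · rw [Finsupp.tsub_apply, Finsupp.tsub_apply, O_inv hrx, hD.1.1]
      · have h3 := congrArg Finsupp.degree (tsub_add_cancel_of_le hD.2)
        rw [map_add, degree_O, hD.1.2] at h3
        omega
    · intro D hD
      exact add_tsub_cancel_left _ _
    · intro D hD
      rw [Finset.mem_filter] at hD
      exact add_tsub_cancel_of_le hD.2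
    · intro D hD
      rw [Set.Finite.mem_toFinset, mem_I] at hD
      rw [hχ _ _ (O_inv hrx) hD.1]
  · rw [if_neg hrx]
    simp [hrx]

end Euler

end Fermat.Agent.H95
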