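import Mathlib

/-!
# Power series with prescribed logarithmic derivative, and their roots (helper95)
-/

set_option autoImplicit false

open Polynomial

namespace Fermat.Agent.H95

/-- `E = exp (∑ S r T^r / r)`. -/
def IsLogD (E : PowerSeries ℂ) (S : ℕ → ℂ) : Prop :=
  PowerSeries.constantCoeff E = 1 ∧
    ∀ n : ℕ, (n : ℂ) * PowerSeries.coeff n E =
      ∑ r ∈ Finset.Icc 1 n, S r * PowerSeries.coeff (n - r) E

/-- the generating series of `S` (without constant term) -/
noncomputable def gser (S : ℕ → ℂ) : PowerSeries ℂ := PowerSeries.mk fun r => if r = 0 then 0 else S r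

lemma gser_add (S S' : ℕ → ℂ) : gser (S + S') = gser S + gser S' := by
  ext n
  simp only [gser, PowerSeries.coeff_mk, map_add, Pi.add_apply]
  split_ifs <;> simp

lemma coeff_gser_mul (S : ℕ → ℂ) (E : PowerSeries ℂ) (n : ℕ) :
    PowerSeries.coeff n (gser S * E) =
      ∑ r ∈ Finset.Icc 1 n, S r * PowerSeries.coeff (n - r) E := by
  rw [PowerSeries.coeff_mul, Finset.Nat.sum_antidiagonal_eq_sum_range_succ_mk,
    Nat.range_succ_eq_Icc_zero, ← Finset.add_sum_Ioc_eq_sum_Icc (Nat.zero_le n)]
  simp only [gser, PowerSeries.coeff_mk, if_true, zero_mul, zero_add]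
  refine Finset.sum_congr ?_ ?_
  · ext x; simp [Nat.succ_le_iff]
  · intro x hx
    rw [Finset.mem_Icc] at hx
    rw [if_neg (by omega)]

lemma coeff_X_mul_derivative (E : PowerSeries ℂ) (n : ℕ) :
    PowerSeries.coeff n (PowerSeries.X * PowerSeries.derivative ℂ E) =
      (n : ℂ) * PowerSeries.coeff n E := by
  cases n with
  | zero => simp
  | succ n =>
    rw [PowerSeries.coeff_succ_X_mul, PowerSeries.coeff_derivative]
    push_cast
    ring

lemma isLogD_iff {E : PowerSeries ℂ} {S : ℕ → ℂ} : IsLogD E S ↔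
    PowerSeries.constantCoeff E = 1 ∧
      PowerSeries.X * PowerSeries.derivative ℂ E = gser S * E := by
  unfold IsLogD
  refine and_congr_right fun _ => ?_
  rw [PowerSeries.ext_iff]
  refine forall_congr' fun n => ?_
  rw [coeff_X_mul_derivative, coeff_gser_mul]

lemma IsLogD.mul {E E' : PowerSeries ℂ} {S S' : ℕ → ℂ} (h : IsLogD E S) (h' : IsLogD E' S') :
    IsLogD (E * E') (S + S') := by
  rw [isLogD_iff] at *
  refine ⟨by rw [map_mul, h.1, h'.1, one_mul], ?_⟩
  rw [Derivation.leibniz, gser_add, smul_eq_mul, smul_eq_mul, mul_add]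
  linear_combination E' * h.2 + E * h'.2

lemma isLogD_one : IsLogD 1 0 := by
  rw [isLogD_iff]
  refine ⟨by simp, ?_⟩
  have : gser 0 = 0 := by ext n; simp [gser]
  rw [this]; simp

lemma isLogD_one_sub (c : ℂ) :
    IsLogD (1 - PowerSeries.C c * PowerSeries.X) (fun r => - c ^ r) := by
  refine ⟨by simp, ?_⟩
  intro n
  have hc : ∀ k, PowerSeries.coeff k (1 - PowerSeries.C c * PowerSeries.X : PowerSeries ℂ) =
      (if k = 0 then 1 else 0) - (if k = 1 then c else 0) := by
    intro k
    rw [map_sub, PowerSeries.coeff_one, PowerSeries.coeff_C_mul, PowerSeries.coeff_X]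
    split_ifs <;> simp
  simp only [hc]
  rcases n with _ | _ | n
  · simp
  · simp
  · rw [Finset.sum_Icc_succ_top (by omega), Finset.sum_Icc_succ_top (by omega),
      Finset.sum_eq_zero]
    · simp [pow_succ]
    · intro x hx
      rw [Finset.mem_Icc] at hx
      rw [if_neg (by omega), if_neg (by omega)]
      simp

lemma isLogD_prod (s : Multiset ℂ) :
    IsLogD (s.map fun β => (1 - PowerSeries.C β * PowerSeries.X : PowerSeries ℂ)).prod
      (fun r => - (s.map (· ^ r)).sum) := by
  induction s using Multiset.induction_on with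
  | empty =>
    have := isLogD_one
    simpa [Pi.zero_def] using this
  | cons a s ih =>
    have := (isLogD_one_sub a).mul ih
    rw [Multiset.map_cons, Multiset.prod_cons]
    convert this using 1
    ext r
    simp [add_comm]

lemma IsLogD.ext {E E' : PowerSeries ℂ} {S S' : ℕ → ℂ} (h : IsLogD E S) (h' : IsLogD E' S')
    (hS : ∀ r, 0 < r → S r = S' r) : E = E' := by
  ext n
  induction n using Nat.strong_induction_on with
  | _ n ih =>
    rcases Nat.eq_zero_or_pos n with rfl | hn
    · have h1 := h.1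
      have h2 := h'.1
      rw [← PowerSeries.coeff_zero_eq_constantCoeff_apply] at h1 h2
      rw [h1, h2]
    · have h1 := h.2 n
      have h2 := h'.2 n
      have h3 : ∑ r ∈ Finset.Icc 1 n, S r * PowerSeries.coeff (n - r) E =
          ∑ r ∈ Finset.Icc 1 n, S' r * PowerSeries.coeff (n - r) E' := by
        refine Finset.sum_congr rfl fun r hr => ?_
        rw [Finset.mem_Icc] at hr
        rw [hS r (by omega), ih (n - r) (by omega)]
      rw [h3, ← h2] at h1
      exact mul_left_cancel₀ (Nat.cast_ne_zero.mpr hn.ne') h1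

lemma IsLogD.eq {E : PowerSeries ℂ} {S S' : ℕ → ℂ} (h : IsLogD E S) (h' : IsLogD E S')
    (r : ℕ) (hr : 0 < r) : S r = S' r := by
  induction r using Nat.strong_induction_on with
  | _ n ih =>
    obtain ⟨n, rfl⟩ : ∃ k, n = k + 1 := ⟨n - 1, by omega⟩
    have h1 := h.2 (n + 1)
    rw [h'.2 (n + 1), Finset.sum_Icc_succ_top (by omega), Finset.sum_Icc_succ_top (by omega)] at h1
    have h3 : ∑ r ∈ Finset.Icc 1 n, S r * PowerSeries.coeff (n + 1 - r) E =
          ∑ r ∈ Finset.Icc 1 n, S' r * PowerSeries.coeff (n + 1 - r) E := by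
        refine Finset.sum_congr rfl fun r hr => ?_
        rw [Finset.mem_Icc] at hr
        rw [ih r (by omega) (by omega)]
    rw [h3] at h1
    have h4 := add_left_cancel h1
    rw [Nat.sub_self, PowerSeries.coeff_zero_eq_constantCoeff_apply, h.1, mul_one, mul_one] at h4
    exact h4.symm

lemma IsLogD.congr {E : PowerSeries ℂ} {S S' : ℕ → ℂ} (h : IsLogD E S)
    (hS : ∀ r, 0 < r → S r = S' r) : IsLogD E S' := by
  refine ⟨h.1, fun n => ?_⟩
  rw [h.2 n]
  refine Finset.sum_congr rfl fun r hr => ?_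
  rw [Finset.mem_Icc] at hr
  rw [hS r (by omega)]

/-! ### roots -/

lemma natTrailingDegree_eq_zero_of_coeff {P : ℂ[X]} (h0 : P.coeff 0 = 1) :
    P.natTrailingDegree = 0 := by
  refine Nat.le_zero.mp (natTrailingDegree_le_of_ne_zero ?_)
  rw [h0]; exact one_ne_zero

lemma reverse_reverse' {R : Type*} [Semiring R] {P : R[X]} (h0 : P.natTrailingDegree = 0) :
    P.reverse.reverse = P := by
  ext n
  rw [coeff_reverse, coeff_reverse, reverse_natDegree, h0, Nat.sub_zero, revAt_invol]

lemma reverse_X_sub_C (a : ℂ) : (X - C a : ℂ[X]).reverse = 1 - C a * X := by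
  rw [reverse, natDegree_X_sub_C, sub_eq_add_neg, ← C_neg, reflect_add]
  have h1 : reflect 1 (X : ℂ[X]) = 1 := by
    have := reflect_monomial (R := ℂ) 1 1
    rw [pow_one] at this
    rw [this]; simp [revAt_le]
  rw [h1, reflect_C, pow_one, C_neg, neg_mul, sub_eq_add_neg]

lemma reverse_prod_X_sub_C (s : Multiset ℂ) :
    (s.map fun a => (X - C a : ℂ[X])).prod.reverse = (s.map fun a => 1 - C a * X).prod := by
  induction s using Multiset.induction_on with
  | empty =>
    rw [Multiset.map_zero, Multiset.map_zero, Multiset.prod_zero, ← C_1, reverse_C]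
  | cons a s ih =>
    rw [Multiset.map_cons, Multiset.prod_cons, reverse_mul_of_domain, ih, reverse_X_sub_C,
      Multiset.map_cons, Multiset.prod_cons]

lemma eq_prod_reverse_roots {P : ℂ[X]} (h0 : P.coeff 0 = 1) :
    P = (P.reverse.roots.map fun β => 1 - C β * X).prod := by
  have h1 := natTrailingDegree_eq_zero_of_coeff h0
  have hm : P.reverse.Monic := by
    rw [Monic, reverse_leadingCoeff, trailingCoeff, h1, h0]
  have hs : P.reverse = (P.reverse.roots.map fun a => (X - C a)).prod := by
    have := (IsAlgClosed.splits P.reverse).eq_prod_roots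
    rw [hm.leadingCoeff, C_1, one_mul] at this
    exact this
  have h2 := congrArg Polynomial.reverse hs
  rw [reverse_reverse' h1, reverse_prod_X_sub_C] at h2
  exact h2

lemma coe_prod_eq (s : Multiset ℂ) :
    (((s.map fun β => (1 - C β * X : ℂ[X])).prod : ℂ[X]) : PowerSeries ℂ) =
      (s.map fun β => (1 - PowerSeries.C β * PowerSeries.X : PowerSeries ℂ)).prod := by
  induction s using Multiset.induction_on with
  | empty => simp
  | cons a s ih =>
    rw [Multiset.map_cons, Multiset.prod_cons, Multiset.map_cons, Multiset.prod_cons,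
      Polynomial.coe_mul, ih]
    simp

lemma eval_one_prod (s : Multiset ℂ) :
    ((s.map fun β => (1 - C β * X : ℂ[X])).prod).eval 1 = (s.map fun β => 1 - β).prod := by
  rw [eval_multiset_prod, Multiset.map_map]
  simp

/-- the power operation -/
lemma IsLogD.power {P : ℂ[X]} (h0 : P.coeff 0 = 1) {S : ℕ → ℂ} (h : IsLogD (P : PowerSeries ℂ) S)
    {r : ℕ} (hr : 0 < r) :
    IsLogD (((P.reverse.roots.map fun β => (1 - C (β ^ r) * X : ℂ[X])).prod : ℂ[X]) :
      PowerSeries ℂ) (fun j => S (r * j)) := by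
  have h1 := isLogD_prod P.reverse.roots
  rw [← coe_prod_eq, ← eq_prod_reverse_roots h0] at h1
  have h2 := isLogD_prod (P.reverse.roots.map (· ^ r))
  rw [← coe_prod_eq, Multiset.map_map] at h2
  refine IsLogD.congr h2 ?_
  intro j hj
  rw [Multiset.map_map, h.eq h1 (r * j) (Nat.mul_pos hr hj)]
  simp [pow_mul]

/-- first application: all the `L`-polynomials are determined by the first one. -/
theorem eq_prod_pow {L L' : ℂ[X]} (h0 : L.coeff 0 = 1) {S : ℕ → ℂ}
    (h : IsLogD (L : PowerSeries ℂ) S) {r : ℕ} (hr : 0 < r)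
    (h' : IsLogD (L' : PowerSeries ℂ) (fun j => S (r * j))) :
    L' = (L.reverse.roots.map fun β => (1 - C (β ^ r) * X : ℂ[X])).prod := by
  have := h'.ext (h.power h0 hr) fun _ _ => rfl
  exact_mod_cast this

theorem eval_one_eq_prod {L L' : ℂ[X]} (h0 : L.coeff 0 = 1) {S : ℕ → ℂ}
    (h : IsLogD (L : PowerSeries ℂ) S) {r : ℕ} (hr : 0 < r)
    (h' : IsLogD (L' : PowerSeries ℂ) (fun j => S (r * j))) :
    L'.eval 1 = (L.reverse.roots.map fun β => (1 - β ^ r)).prod := by
  rw [eq_prod_pow h0 h hr h', eval_multiset_prod, Multiset.map_map]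
  simp

/-- second application: vanishing at `1` propagates. -/
theorem eval_one_eq_zero {E L : ℂ[X]} (h0 : E.coeff 0 = 1) {S : ℕ → ℂ}
    (h : IsLogD (E : PowerSeries ℂ) S) (hE : E.eval 1 = 0) {r : ℕ} (hr : 0 < r)
    (h' : IsLogD (L : PowerSeries ℂ) (fun j => S (r * j))) :
    L.eval 1 = 0 := by
  rw [eq_prod_reverse_roots h0, eval_one_prod, Multiset.prod_eq_zero_iff, Multiset.mem_map] at hE
  obtain ⟨β, hβ, hβ1⟩ := hE
  have hβ2 : β = 1 := (sub_eq_zero.mp hβ1).symm
  rw [eval_one_eq_prod h0 h hr h', Multiset.prod_eq_zero_iff, Multiset.mem_map]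
  exact ⟨β, hβ, by simp [hβ2]⟩

end Fermat.Agent.H95
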