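import Mathlib

/-!
# Integral matrices with given characteristic polynomial; determinants of polynomials in a matrix
-/

set_option autoImplicit false

open Polynomial

namespace Fermat.Agent.H95

theorem exists_matrix (Q : ℤ[X]) (hQ : Q.Monic) {n : ℕ} (hn : Q.natDegree = n) :
    ∃ M : Matrix (Fin n) (Fin n) ℤ, M.charpoly = Q := by
  have key : ∃ (d : ℕ) (_ : d = n) (M : Matrix (Fin d) (Fin d) ℤ), M.charpoly = Q := by
    refine ⟨(AdjoinRoot.powerBasis' hQ).dim, by rw [AdjoinRoot.powerBasis'_dim, hn],
      Algebra.leftMulMatrix (AdjoinRoot.powerBasis' hQ).basis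
        (AdjoinRoot.powerBasis' hQ).gen, ?_⟩
    rw [charpoly_leftMulMatrix]
    symm
    apply minpoly.unique' ℤ _ hQ
    · rw [AdjoinRoot.powerBasis'_gen, AdjoinRoot.aeval_eq, AdjoinRoot.mk_self]
    · intro q hq
      by_contra hcon
      push Not at hcon
      rw [AdjoinRoot.powerBasis'_gen, AdjoinRoot.aeval_eq, AdjoinRoot.mk_eq_zero] at hcon
      exact hQ.not_dvd_of_degree_lt hcon.1 hq hcon.2
  obtain ⟨d, rfl, M, hM⟩ := key
  exact ⟨M, hM⟩

lemma det_sub_scalar {n : ℕ} (M : Matrix (Fin n) (Fin n) ℂ) (γ : ℂ) :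
    (aeval M (X - C γ)).det = (M.charpoly.roots.map fun α => eval α (X - C γ)).prod := by
  have h1 : M.charpoly = (M.charpoly.roots.map fun a => (X - C a)).prod := by
    have := (IsAlgClosed.splits M.charpoly).eq_prod_roots
    rw [(M.charpoly_monic).leadingCoeff, C_1, one_mul] at this
    exact this
  have h2 : M.charpoly.roots.card = n := by
    have := (IsAlgClosed.splits M.charpoly).natDegree_eq_card_roots
    rw [← this, Matrix.charpoly_natDegree_eq_dim, Fintype.card_fin]
  have h3 : (aeval M (X - C γ)) = - (Matrix.scalar (Fin n) γ - M) := by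
    rw [map_sub, aeval_X, aeval_C, neg_sub]
    rfl
  rw [h3, Matrix.det_neg, Fintype.card_fin, ← Matrix.eval_charpoly]
  have h4 : (M.charpoly.roots.map fun a => (γ - a)).prod = M.charpoly.eval γ := by
    conv_rhs => rw [h1]
    rw [eval_multiset_prod, Multiset.map_map]
    simp
  rw [← h4]
  have h5 : ∀ s : Multiset ℂ, (-1) ^ s.card * (s.map fun a => γ - a).prod =
      (s.map fun α => eval α (X - C γ)).prod := by
    intro s
    induction s using Multiset.induction_on with
    | empty => simp
    | cons a s ih =>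
      rw [Multiset.map_cons, Multiset.prod_cons, Multiset.map_cons, Multiset.prod_cons, ← ih,
        Multiset.card_cons]
      simp only [eval_sub, eval_X, eval_C]
      ring
  rw [← h5, h2]

theorem det_aeval {n : ℕ} (M : Matrix (Fin n) (Fin n) ℂ) (f : ℂ[X]) :
    (aeval M f).det = (M.charpoly.roots.map fun α => eval α f).prod := by
  have h2 : M.charpoly.roots.card = n := by
    have := (IsAlgClosed.splits M.charpoly).natDegree_eq_card_roots
    rw [← this, Matrix.charpoly_natDegree_eq_dim, Fintype.card_fin]
  have h1 := (IsAlgClosed.splits f).eq_prod_roots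
  rw [h1]
  have h3 : ∀ s : Multiset ℂ, (aeval M (s.map fun a => (X - C a)).prod).det =
      (M.charpoly.roots.map fun α => eval α (s.map fun a => (X - C a)).prod).prod := by
    intro s
    induction s using Multiset.induction_on with
    | empty => simp
    | cons a s ih =>
      rw [Multiset.map_cons, Multiset.prod_cons, map_mul, Matrix.det_mul, ih, det_sub_scalar,
        ← Multiset.prod_map_mul]
      simp only [eval_mul]
  rw [map_mul, Matrix.det_mul, h3]
  simp only [eval_mul, eval_C]
  rw [Multiset.prod_map_mul, Multiset.map_const', Multiset.prod_replicate, h2, aeval_C]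
  congr 1
  rw [Matrix.algebraMap_eq_diagonal, Matrix.det_diagonal]
  simp

theorem det_one_sub_pow {n : ℕ} (M : Matrix (Fin n) (Fin n) ℤ) (m : ℕ) :
    (((1 - M ^ m).det : ℤ) : ℂ) =
      ((M.charpoly.map (Int.castRingHom ℂ)).roots.map fun α => 1 - α ^ m).prod := by
  have h1 := det_aeval (M.map (Int.castRingHom ℂ)) (1 - X ^ m)
  rw [← Matrix.charpoly_map] 
  simp only [eval_sub, eval_one, eval_pow, eval_X] at h1
  rw [← h1]
  have h2 : aeval (M.map (Int.castRingHom ℂ)) (1 - X ^ m : ℂ[X]) =
      (1 - M ^ m).map (Int.castRingHom ℂ) := by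
    rw [map_sub, map_one, map_pow, aeval_X]
    have := (Int.castRingHom ℂ).mapMatrix.map_sub (1 : Matrix (Fin n) (Fin n) ℤ) (M ^ m)
    rw [map_pow, map_one] at this
    exact this.symm
  rw [h2]
  have := (Int.castRingHom ℂ).map_det (1 - M ^ m)
  simpa using this

end Fermat.Agent.H95
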