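import Mathlib
import Fermat.Agent.H95Defs
import Fermat.Agent.H95Z1
import Fermat.Agent.H95Z2
import Fermat.Agent.H95Z3
import Fermat.Agent.H57TorsGrowth
import Fermat.Agent.H57Growth

/-!
# Torsion count for a `ZetaData` (helper95)
-/

set_option autoImplicit false

open Polynomial

namespace Fermat.Agent.H95

/-! ### counting function of a cofinite set -/

open Classical in
/-- number of effective divisors of degree `n` in a class -/
noncomputable def cc (Q : ℕ) (S : Set ℕ) (n : ℕ) : ℕ :=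
  if n ∈ S then Q ^ (S ∩ Set.Iio n).ncard else 0

/-- coefficients of the `L`-polynomial of a class -/
noncomputable def dd (Q : ℕ) (S : Set ℕ) (n : ℕ) : ℤ :=
  cc Q S n - if n = 0 then 0 else (Q : ℤ) * cc Q S (n - 1)

lemma ncard_inter_Iio_succ (S : Set ℕ) (n : ℕ) : (S ∩ Set.Iio (n + 1)).ncard =
    (S ∩ Set.Iio n).ncard + (open Classical in if n ∈ S then 1 else 0) := by
  classical
  have hfin : (S ∩ Set.Iio n).Finite := (Set.finite_Iio n).subset Set.inter_subset_right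
  split_ifs with h
  · have : S ∩ Set.Iio (n + 1) = insert n (S ∩ Set.Iio n) := by
      ext x
      simp only [Set.mem_inter_iff, Set.mem_Iio, Set.mem_insert_iff]
      constructor
      · rintro ⟨h1, h2⟩
        rcases Nat.lt_succ_iff_lt_or_eq.mp h2 with h3 | h3
        · exact Or.inr ⟨h1, h3⟩
        · exact Or.inl h3
      · rintro (rfl | ⟨h1, h2⟩)
        · exact ⟨h, by omega⟩
        · exact ⟨h1, by omega⟩
    rw [this, Set.ncard_insert_of_notMem _ hfin]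
    simp
  · have : S ∩ Set.Iio (n + 1) = S ∩ Set.Iio n := by
      ext x
      simp only [Set.mem_inter_iff, Set.mem_Iio]
      constructor
      · rintro ⟨h1, h2⟩
        rcases Nat.lt_succ_iff_lt_or_eq.mp h2 with h3 | h3
        · exact ⟨h1, h3⟩
        · exact absurd (h3 ▸ h1) h
      · rintro ⟨h1, h2⟩
        exact ⟨h1, by omega⟩
    rw [this, add_zero]

lemma sum_cc (Q : ℕ) (S : Set ℕ) (k : ℕ) :
    ∑ n ∈ Finset.range k, cc Q S n = ∑ i ∈ Finset.range (S ∩ Set.Iio k).ncard, Q ^ i := by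
  classical
  induction k with
  | zero => simp
  | succ k ih =>
    rw [Finset.sum_range_succ, ih, ncard_inter_Iio_succ]
    unfold cc
    split_ifs with h
    · rw [Finset.sum_range_succ]
    · rfl

lemma ncard_inter_Iio_of_le {S : Set ℕ} {g : ℕ} (h1 : Sᶜ.Finite) (h2 : Sᶜ.ncard = g)
    (h3 : ∀ n, 2 * g ≤ n → n ∈ S) {k : ℕ} (hk : 2 * g ≤ k) : (S ∩ Set.Iio k).ncard = k - g := by
  have h4 : Set.Iio k = (S ∩ Set.Iio k) ∪ Sᶜ := by
    ext x
    simp only [Set.mem_Iio, Set.mem_union, Set.mem_inter_iff, Set.mem_compl_iff]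
    constructor
    · intro h
      by_cases hx : x ∈ S
      · exact Or.inl ⟨hx, h⟩
      · exact Or.inr hx
    · rintro (⟨_, h⟩ | h)
      · exact h
      · by_contra hc
        exact h (h3 x (by omega))
  have h5 : Disjoint (S ∩ Set.Iio k) Sᶜ :=
    Set.disjoint_left.mpr fun x hx hx' => hx' hx.1
  have h6 := Set.ncard_union_eq h5 ((Set.finite_Iio k).subset Set.inter_subset_right) h1
  rw [← h4, h2] at h6
  have h7 : (Set.Iio k : Set ℕ).ncard = k := by
    rw [Set.ncard_eq_toFinset_card' (Set.Iio k)]; simp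
  omega

lemma dd_eq_zero {Q : ℕ} {S : Set ℕ} {g : ℕ} (h3 : ∀ n, 2 * g ≤ n → n ∈ S) {n : ℕ}
    (hn : 2 * g < n) : dd Q S n = 0 := by
  obtain ⟨k, rfl⟩ : ∃ k, n = k + 1 := ⟨n - 1, by omega⟩
  unfold dd cc
  rw [if_pos (h3 _ (by omega)), if_neg (by omega), Nat.add_sub_cancel, if_pos (h3 _ (by omega)),
    ncard_inter_Iio_succ, if_pos (h3 _ (by omega))]
  push_cast
  ring

lemma dd_two_g {Q : ℕ} {S : Set ℕ} {g : ℕ} (h1 : Sᶜ.Finite) (h2 : Sᶜ.ncard = g)
    (h3 : ∀ n, 2 * g ≤ n → n ∈ S) : dd Q S (2 * g) =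
      (open Classical in if (∀ n ∈ S, n + 1 ≠ 2 * g) then (Q : ℤ) ^ g else 0) := by
  classical
  unfold dd
  have h4 : cc Q S (2 * g) = Q ^ g := by
    unfold cc
    rw [if_pos (h3 _ le_rfl), ncard_inter_Iio_of_le h1 h2 h3 le_rfl]
    congr 1
    omega
  rw [h4]
  rcases Nat.eq_zero_or_pos g with rfl | hg
  · simp
  · rw [if_neg (by omega)]
    have h5 : (∀ n ∈ S, n + 1 ≠ 2 * g) ↔ 2 * g - 1 ∉ S := by
      constructor
      · intro h hc
        exact h _ hc (by omega)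
      · intro h n hn hc
        apply h
        rwa [← hc, Nat.add_sub_cancel]
    by_cases h6 : 2 * g - 1 ∈ S
    · rw [if_neg (by rw [h5]; exact not_not.mpr h6)]
      have h7 : cc Q S (2 * g - 1) = Q ^ (g - 1) := by
        unfold cc
        rw [if_pos h6]
        have h8 := ncard_inter_Iio_succ S (2 * g - 1)
        rw [if_pos h6, Nat.sub_add_cancel (by omega), ncard_inter_Iio_of_le h1 h2 h3 le_rfl] at h8
        congr 1
        omega
      rw [h7]
      obtain ⟨k, rfl⟩ : ∃ k, g = k + 1 := ⟨g - 1, by omega⟩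
      rw [Nat.add_sub_cancel]
      push_cast
      ring
    · rw [if_pos (h5.mpr h6)]
      unfold cc
      rw [if_neg h6]
      simp

/-- `L`-polynomial of a class -/
noncomputable def Lk (Q : ℕ) (S : Set ℕ) (g : ℕ) : ℤ[X] :=
  ∑ n ∈ Finset.range (2 * g + 1), C (dd Q S n) * X ^ n

lemma coeff_Lk {Q : ℕ} {S : Set ℕ} {g : ℕ} (h3 : ∀ n, 2 * g ≤ n → n ∈ S) (n : ℕ) :
    (Lk Q S g).coeff n = dd Q S n := by
  unfold Lk
  simp only [finsetSum_coeff, coeff_C_mul, coeff_X_pow]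
  rw [Finset.sum_eq_single n]
  · simp
  · intro b _ hb
    rw [if_neg (Ne.symm hb), mul_zero]
  · intro h
    rw [Finset.mem_range, not_lt] at h
    rw [dd_eq_zero h3 (by omega), zero_mul]

lemma eval_one_Lk {Q : ℕ} {S : Set ℕ} {g : ℕ} (h1 : Sᶜ.Finite) (h2 : Sᶜ.ncard = g)
    (h3 : ∀ n, 2 * g ≤ n → n ∈ S) : (Lk Q S g).eval 1 = 1 := by
  have h4 : (Lk Q S g).eval 1 = ∑ n ∈ Finset.range (2 * g + 1), dd Q S n := by
    unfold Lk
    rw [eval_finsetSum]
    simp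
  rw [h4]
  unfold dd
  rw [Finset.sum_sub_distrib, Finset.sum_range_succ' (fun n => if n = 0 then 0 else
    (Q : ℤ) * cc Q S (n - 1))]
  simp only [if_true, add_zero, Nat.add_sub_cancel, Nat.succ_ne_zero, if_false]
  rw [← Finset.mul_sum, ← Nat.cast_sum, ← Nat.cast_sum, sum_cc, sum_cc,
    ncard_inter_Iio_of_le h1 h2 h3 le_rfl, ncard_inter_Iio_of_le h1 h2 h3 (Nat.le_succ _)]
  have h5 : 2 * g + 1 - g = g + 1 := by omega
  have h6 : 2 * g - g = g := by omega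
  rw [h5, h6, Finset.sum_range_succ', pow_zero]
  push_cast
  rw [Finset.mul_sum]
  simp only [pow_succ]
  rw [add_sub_assoc, add_comm, sub_add_eq_add_sub, sub_eq_iff_eq_add]
  congr 1
  exact Finset.sum_congr rfl fun i _ => mul_comm _ _

/-! ### fixed classes and class of a divisor -/

namespace ZetaData

variable {G : Type*} [CommGroup G] {X : Type*} (Z : ZetaData G X)

/-- fixed classes -/
def P (m : ℕ) : Subgroup G where
  carrier := {κ | (Z.φ ^ m) κ = κ}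
  mul_mem' := by
    intro a b ha hb
    simp only [Set.mem_ofPred_eq] at ha hb ⊢
    rw [map_mul, ha, hb]
  one_mem' := by simp
  inv_mem' := by
    intro a ha
    simp only [Set.mem_ofPred_eq] at ha ⊢
    rw [map_inv, ha]

variable {Z}

lemma mem_P {m : ℕ} {κ : G} : κ ∈ Z.P m ↔ (Z.φ ^ m) κ = κ := Iff.rfl

variable (Z)

/-- the finite set of fixed classes -/
noncomputable def Pf (m : ℕ) : Finset G :=
  open Classical in if h : 0 < m then (Z.cls_finite m h).toFinset else ∅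

variable {Z}

lemma mem_Pf {m : ℕ} (hm : 0 < m) {κ : G} : κ ∈ Z.Pf m ↔ (Z.φ ^ m) κ = κ := by
  classical
  unfold Pf
  rw [dif_pos hm, Set.Finite.mem_toFinset]
  rfl

variable (Z)

/-- class of a divisor -/
noncomputable def clD (D : X →₀ ℕ) : G := D.prod fun x k => Z.cl x ^ k

variable {Z}

lemma clD_zero : Z.clD 0 = 1 := Finsupp.prod_zero_index

lemma clD_add (D D' : X →₀ ℕ) : Z.clD (D + D') = Z.clD D * Z.clD D' := by
  classical
  exact Finsupp.prod_add_index' (fun _ => pow_zero _) (fun _ _ _ => pow_add _ _ _)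

lemma clD_single (x : X) : Z.clD (Finsupp.single x 1) = Z.cl x := by
  unfold clD
  rw [Finsupp.prod_single_index (h := fun x k => Z.cl x ^ k) (pow_zero _), pow_one]

lemma clD_sum {ι : Type*} (s : Finset ι) (f : ι → X →₀ ℕ) :
    Z.clD (∑ i ∈ s, f i) = ∏ i ∈ s, Z.clD (f i) := by
  classical
  induction s using Finset.induction_on with
  | empty => simp [clD_zero]
  | insert a s ha ih => rw [Finset.sum_insert ha, Finset.prod_insert ha, clD_add, ih]

lemma cl_pow (m : ℕ) (x : X) : Z.cl ((Z.σ ^ m) x) = (Z.φ ^ m) (Z.cl x) := by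
  induction m with
  | zero => simp
  | succ m ih => rw [pow_succ', Equiv.Perm.mul_apply, Z.cl_σ, ih, pow_succ', MulAut.mul_apply]

lemma mapDomain_eq {τ : Equiv.Perm X} {D : X →₀ ℕ} (h : ∀ x, D (τ x) = D x) :
    D.mapDomain τ = D := by
  ext y
  obtain ⟨x, rfl⟩ := τ.surjective y
  rw [Finsupp.mapDomain_apply τ.injective, h]

lemma clD_fixed {m : ℕ} {D : X →₀ ℕ} (h : ∀ x, D ((Z.σ ^ m) x) = D x) :
    (Z.φ ^ m) (Z.clD D) = Z.clD D := by
  have h1 : Z.clD (D.mapDomain (Z.σ ^ m)) = (Z.φ ^ m) (Z.clD D) := by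
    unfold clD
    rw [Finsupp.prod_mapDomain_index (fun _ => pow_zero _) (fun _ _ _ => pow_add _ _ _),
      map_finsuppProd]
    refine Finset.prod_congr rfl fun x _ => ?_
    simp only
    rw [cl_pow, map_pow]
  rw [← h1, mapDomain_eq h]

lemma count' {m : ℕ} (hm : 0 < m) {κ : G} (hκ : (Z.φ ^ m) κ = κ) (n : ℕ) :
    Nat.card {D : X →₀ ℕ // D ∈ Euler.I (Z.σ ^ m) n ∧ Z.clD D = κ} =
      cc (Z.q ^ m) (Z.S κ⁻¹) n := by
  have := Z.count m hm κ hκ n
  unfold cc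
  rw [← this]
  refine Nat.card_congr (Equiv.subtypeEquivRight fun D => ?_)
  rw [and_assoc.symm]
  rfl

lemma fix_finite' {m : ℕ} (hm : 0 < m) (r : ℕ) (hr : 0 < r) :
    {x | ((Z.σ ^ m) ^ r) x = x}.Finite := by
  rw [← pow_mul]
  exact Z.fix_finite (m * r) (Nat.mul_pos hm hr)

/-! ### the numbers `A` and the polynomial `Lp` -/

variable (Z)

/-- twisted counting function -/
noncomputable def A (m : ℕ) (χ : G → ℂ) (n : ℕ) : ℂ :=
  ∑ κ ∈ Z.Pf m, χ κ * (cc (Z.q ^ m) (Z.S κ⁻¹) n : ℂ)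

/-- twisted `L`-polynomial -/
noncomputable def Lp (m : ℕ) (χ : G → ℂ) : ℂ[X] :=
  ∑ κ ∈ Z.Pf m, C (χ κ) * (Lk (Z.q ^ m) (Z.S κ⁻¹) Z.g).map (Int.castRingHom ℂ)

variable {Z}

lemma finsum_eq_A {m : ℕ} (hm : 0 < m) (χ : G → ℂ) (n : ℕ) :
    ∑ᶠ D ∈ {D : X →₀ ℕ | (∀ x, D ((Z.σ ^ m) x) = D x) ∧ (D.sum fun _ k => k) = n}, χ (Z.clD D) =
      Z.A m χ n := by
  classical
  change ∑ᶠ D ∈ Euler.I (Z.σ ^ m) n, χ (Z.clD D) = _
  have hf := Euler.finite_inv (σ := Z.σ ^ m) (Z.fix_finite' hm) n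
  rw [finsum_mem_eq_finite_toFinset_sum _ hf]
  rw [← Finset.sum_fiberwise_of_maps_to (t := Z.Pf m) (g := Z.clD)]
  · refine Finset.sum_congr rfl fun κ hκ => ?_
    rw [mem_Pf hm] at hκ
    rw [← count' hm hκ]
    rw [Finset.sum_congr rfl (g := fun _ => χ κ) (by
      intro D hD
      rw [Finset.mem_filter] at hD
      rw [hD.2]), Finset.sum_const, nsmul_eq_mul, mul_comm]
    congr 2
    rw [Nat.subtype_card]
    intro D
    rw [Finset.mem_filter, Set.Finite.mem_toFinset]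
  · intro D hD
    rw [Set.Finite.mem_toFinset] at hD
    rw [mem_Pf hm]
    exact clD_fixed hD.1

lemma coe_Lp (m : ℕ) (χ : G → ℂ) : (Z.Lp m χ : PowerSeries ℂ) =
    (1 - PowerSeries.C ((Z.q : ℂ) ^ m) * PowerSeries.X) * PowerSeries.mk (Z.A m χ) := by
  ext n
  rw [Polynomial.coeff_coe, sub_mul, one_mul, map_sub, PowerSeries.coeff_mk, mul_assoc,
    PowerSeries.coeff_C_mul]
  unfold Lp
  simp only [finsetSum_coeff, coeff_C_mul, coeff_map, coeff_Lk (Z.mem_of_le _)]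
  unfold dd A
  cases n with
  | zero =>
    simp
  | succ n =>
    rw [PowerSeries.coeff_succ_X_mul, PowerSeries.coeff_mk, Finset.mul_sum,
      ← Finset.sum_sub_distrib]
    refine Finset.sum_congr rfl fun κ _ => ?_
    simp
    ring

lemma eval_one_Lp (m : ℕ) (χ : G → ℂ) : (Z.Lp m χ).eval 1 = ∑ κ ∈ Z.Pf m, χ κ := by
  unfold Lp
  rw [eval_finsetSum]
  refine Finset.sum_congr rfl fun κ _ => ?_
  rw [eval_mul, eval_C, eval_one_map,
    eval_one_Lk (Z.compl_finite _) (Z.compl_ncard _) (Z.mem_of_le _)]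
  simp

variable (Z)

/-- the Frobenius traces -/
noncomputable def SS (m : ℕ) (χ : G → ℂ) (j : ℕ) : ℂ :=
  ∑ᶠ x ∈ {x | ((Z.σ ^ m) ^ j) x = x}, χ (∏ i ∈ Finset.range j, (Z.φ ^ (m * i)) (Z.cl x))

variable {Z}

/-- a "character" of the group of fixed classes -/
structure IsChar (Z : ZetaData G X) (m : ℕ) (χ : G → ℂ) : Prop where
  one : χ 1 = 1
  mul : ∀ a b, a ∈ Z.P m → b ∈ Z.P m → χ (a * b) = χ a * χ b

lemma isLogD_A {m : ℕ} (hm : 0 < m) {χ : G → ℂ} (hχ : IsChar Z m χ) :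
    IsLogD (PowerSeries.mk (Z.A m χ)) (Z.SS m χ) := by
  constructor
  · rw [← PowerSeries.coeff_zero_eq_constantCoeff_apply, PowerSeries.coeff_mk, ← finsum_eq_A hm]
    have h1 : {D : X →₀ ℕ | (∀ x, D ((Z.σ ^ m) x) = D x) ∧ (D.sum fun _ k => k) = 0} = {0} := by
      ext D
      simp only [Set.mem_ofPred_eq, Set.mem_singleton_iff]
      constructor
      · rintro ⟨_, h⟩
        exact (Finsupp.degree_eq_zero_iff D).mp h
      · rintro rfl
        simp
    rw [h1, finsum_mem_singleton, clD_zero, hχ.one]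
  · intro n
    have h := Euler.euler_recursion (σ := Z.σ ^ m) (Z.fix_finite' hm) (fun D => χ (Z.clD D)) (by
      intro D D' hD hD'
      rw [clD_add]
      exact hχ.mul _ _ (clD_fixed hD) (clD_fixed hD')) n
    simp only [finsum_eq_A hm] at h
    simp only [PowerSeries.coeff_mk]
    rw [h]
    refine Finset.sum_congr rfl fun r _ => ?_
    congr 1
    unfold SS
    refine finsum_mem_congr rfl fun x _ => ?_
    rw [clD_sum]
    congr 1
    refine Finset.prod_congr rfl fun i _ => ?_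
    rw [clD_single, ← pow_mul, cl_pow]

lemma isLogD_Lp {m : ℕ} (hm : 0 < m) {χ : G → ℂ} (hχ : IsChar Z m χ) :
    IsLogD (Z.Lp m χ : PowerSeries ℂ) (fun j => Z.SS m χ j - ((Z.q : ℂ) ^ m) ^ j) := by
  rw [coe_Lp]
  refine ((isLogD_one_sub _).mul (isLogD_A hm hχ)).congr fun r _ => ?_
  simp only [Pi.add_apply]
  ring

lemma coeff_zero_Lp {m : ℕ} (hm : 0 < m) {χ : G → ℂ} (hχ : IsChar Z m χ) :
    (Z.Lp m χ).coeff 0 = 1 := by
  have := (isLogD_Lp hm hχ).1
  rwa [← PowerSeries.coeff_zero_eq_constantCoeff_apply, Polynomial.coeff_coe] at this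

/-! ### the trivial character -/

lemma isChar_one (m : ℕ) : IsChar Z m 1 := ⟨rfl, fun _ _ _ _ => by simp⟩

lemma SS_one (m j : ℕ) : Z.SS m 1 j = ∑ᶠ x ∈ {x | (Z.σ ^ (m * j)) x = x}, (1 : ℂ) := by
  unfold SS
  rw [← pow_mul]
  rfl

lemma eval_one_Lp_one {m : ℕ} (hm : 0 < m) :
    (Z.Lp m 1).eval 1 = (Nat.card {κ : G // (Z.φ ^ m) κ = κ} : ℂ) := by
  rw [eval_one_Lp]
  simp only [Pi.one_apply, Finset.sum_const, nsmul_eq_mul, mul_one]
  congr 1
  rw [Nat.subtype_card]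
  intro κ
  exact mem_Pf hm

lemma eval_one_Lp_one_ne_zero {m : ℕ} (hm : 0 < m) : (Z.Lp m 1).eval 1 ≠ 0 := by
  rw [eval_one_Lp, Finset.sum_congr rfl fun κ _ => Pi.one_apply κ]
  rw [Finset.sum_const, nsmul_eq_mul, mul_one, Nat.cast_ne_zero]
  refine Finset.card_ne_zero_of_mem (a := 1) ?_
  rw [mem_Pf hm, map_one]

lemma prod_range_mul (m r j : ℕ) (y : G) :
    ∏ i ∈ Finset.range (r * j), (Z.φ ^ (m * i)) y =
      ∏ i ∈ Finset.range r, (Z.φ ^ (m * i)) (∏ b ∈ Finset.range j, (Z.φ ^ (m * r * b)) y) := by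
  induction j with
  | zero => simp
  | succ j ih =>
    rw [Nat.mul_succ, Finset.prod_range_add, ih, ← Finset.prod_mul_distrib]
    refine Finset.prod_congr rfl fun i _ => ?_
    rw [Finset.prod_range_succ _ j, map_mul]
    congr 1
    rw [← MulAut.mul_apply, ← pow_add]
    congr 2
    ring

lemma prod_mem_P {m j : ℕ} {y : G} (hy : (Z.φ ^ (m * j)) y = y) :
    (Z.φ ^ m) (∏ b ∈ Finset.range j, (Z.φ ^ (m * b)) y) =
      ∏ b ∈ Finset.range j, (Z.φ ^ (m * b)) y := by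
  rw [map_prod]
  have h1 : ∀ b, (Z.φ ^ m) ((Z.φ ^ (m * b)) y) = (Z.φ ^ (m * (b + 1))) y := by
    intro b
    rw [← MulAut.mul_apply, ← pow_add]
    congr 2
    ring
  rw [Finset.prod_congr rfl fun b _ => h1 b]
  have h2 := Finset.prod_range_succ (fun b => (Z.φ ^ (m * b)) y) j
  rw [Finset.prod_range_succ'] at h2
  rw [hy, mul_zero, pow_zero, MulAut.one_apply] at h2
  exact mul_right_cancel h2

/-- `#P_m = ∏ (1 - α^m)`. -/
theorem card_eq_prod {m : ℕ} (hm : 0 < m) :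
    (Nat.card {κ : G // (Z.φ ^ m) κ = κ} : ℂ) =
      ((Z.Lp 1 1).reverse.roots.map fun β => (1 - β ^ m)).prod := by
  rw [← eval_one_Lp_one hm]
  refine eval_one_eq_prod (coeff_zero_Lp one_pos (isChar_one 1))
    (isLogD_Lp one_pos (isChar_one 1)) hm ?_
  refine (isLogD_Lp hm (isChar_one m)).congr fun j _ => ?_
  rw [SS_one, SS_one, one_mul, pow_one, ← pow_mul (Z.q : ℂ)]

/-- **Surjectivity of the norm** `P_{mr} → P_m`. -/
theorem norm_surj {m r : ℕ} (hm : 0 < m) (hr : 0 < r) {κ : G} (hκ : (Z.φ ^ m) κ = κ) :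
    ∃ y : G, (Z.φ ^ (m * r)) y = y ∧ ∏ i ∈ Finset.range r, (Z.φ ^ (m * i)) y = κ := by
  classical
  by_contra hcon
  push Not at hcon
  let N : G →* G := ∏ i ∈ Finset.range r, (Z.φ ^ (m * i)).toMonoidHom
  have hN : ∀ y, N y = ∏ i ∈ Finset.range r, (Z.φ ^ (m * i)) y := by
    intro y
    simp only [N, MonoidHom.finsetProd_apply]
    rfl
  let H : Subgroup G := (Z.P (m * r)).map N
  have : Finite (Z.P m) := (Z.cls_finite m hm).to_subtype
  have hκP : κ ∈ Z.P m := hκ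
  have hne : (QuotientGroup.mk (⟨κ, hκP⟩ : Z.P m) : Z.P m ⧸ H.subgroupOf (Z.P m)) ≠ 1 := by
    rw [Ne, QuotientGroup.eq_one_iff, Subgroup.mem_subgroupOf]
    rintro ⟨y, hy, hy2⟩
    exact hcon y hy (by rw [← hN]; exact hy2)
  obtain ⟨χ0, hχ0⟩ := CommGroup.exists_apply_ne_one_of_hasEnoughRootsOfUnity
    (Z.P m ⧸ H.subgroupOf (Z.P m)) ℂ hne
  let χ : G → ℂ := fun x => if h : x ∈ Z.P m then
    ((χ0 (QuotientGroup.mk (⟨x, h⟩ : Z.P m))) : ℂ) else 0
  have hχ : ∀ x (h : x ∈ Z.P m), χ x = (χ0 (QuotientGroup.mk (⟨x, h⟩ : Z.P m)) : ℂ) := by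
    intro x h
    simp only [χ]
    rw [dif_pos h]
  have hchar : IsChar Z m χ := by
    constructor
    · rw [hχ 1 (Z.P m).one_mem]
      have : (QuotientGroup.mk (⟨1, (Z.P m).one_mem⟩ : Z.P m) :
        Z.P m ⧸ H.subgroupOf (Z.P m)) = 1 := rfl
      rw [this, map_one, Units.val_one]
    · intro a b ha hb
      rw [hχ _ ((Z.P m).mul_mem ha hb), hχ a ha, hχ b hb, ← Units.val_mul, ← map_mul]
      rfl
  have hker : ∀ y, (Z.φ ^ (m * r)) y = y → χ (∏ i ∈ Finset.range r, (Z.φ ^ (m * i)) y) = 1 := by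
    intro y hy
    have h1 : ∏ i ∈ Finset.range r, (Z.φ ^ (m * i)) y ∈ Z.P m := prod_mem_P hy
    rw [hχ _ h1]
    have h2 : (QuotientGroup.mk (⟨_, h1⟩ : Z.P m) : Z.P m ⧸ H.subgroupOf (Z.P m)) = 1 := by
      rw [QuotientGroup.eq_one_iff, Subgroup.mem_subgroupOf]
      exact ⟨y, hy, hN y⟩
    rw [h2, map_one, Units.val_one]
  have hsum : (Z.Lp m χ).eval 1 = 0 := by
    rw [eval_one_Lp]
    have h1 : χ κ * ∑ x ∈ Z.Pf m, χ x = ∑ x ∈ Z.Pf m, χ x := by
      rw [Finset.mul_sum]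
      refine Finset.sum_bij' (fun x _ => κ * x) (fun x _ => κ⁻¹ * x) ?_ ?_ ?_ ?_ ?_
      · intro x hx
        rw [mem_Pf hm] at hx ⊢
        rw [map_mul, hκ, hx]
      · intro x hx
        rw [mem_Pf hm] at hx ⊢
        rw [map_mul, map_inv, hκ, hx]
      · intro x _
        exact inv_mul_cancel_left κ x
      · intro x _
        exact mul_inv_cancel_left κ x
      · intro x hx
        rw [mem_Pf hm] at hx
        exact (hchar.mul κ x hκP hx).symm
    have h2 : χ κ ≠ 1 := by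
      rw [hχ κ hκP]
      intro h
      exact hχ0 (Units.ext h)
    have h3 : (χ κ - 1) * ∑ x ∈ Z.Pf m, χ x = 0 := by rw [sub_mul, h1, one_mul, sub_self]
    exact (mul_eq_zero.mp h3).resolve_left (sub_ne_zero.mpr h2)
  have hmr : 0 < m * r := Nat.mul_pos hm hr
  refine eval_one_Lp_one_ne_zero hmr (Z := Z) ?_
  refine eval_one_eq_zero (coeff_zero_Lp hm hchar) (isLogD_Lp hm hchar) hsum hr ?_
  refine (isLogD_Lp hmr (isChar_one _)).congr fun j _ => ?_
  rw [SS_one]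
  congr 1
  · unfold SS
    rw [← pow_mul, mul_assoc]
    refine finsum_mem_congr rfl fun x hx => ?_
    have hx1 : (Z.σ ^ (m * (r * j))) x = x := hx
    rw [prod_range_mul, hker]
    apply prod_mem_P
    rw [mul_assoc, ← cl_pow, hx1]
  · rw [← pow_mul, ← pow_mul, mul_assoc]

/-! ### the integral `L`-polynomial -/

variable (Z)

/-- integral `L`-polynomial -/
noncomputable def Lint : ℤ[X] := ∑ κ ∈ Z.Pf 1, Lk (Z.q ^ 1) (Z.S κ⁻¹) Z.g

variable {Z}

lemma map_Lint : Z.Lint.map (Int.castRingHom ℂ) = Z.Lp 1 1 := by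
  unfold Lint Lp
  rw [Polynomial.map_sum]
  simp

lemma coeff_zero_Lint : Z.Lint.coeff 0 = 1 := by
  have h := coeff_zero_Lp one_pos (isChar_one (Z := Z) 1)
  rw [← map_Lint, coeff_map, eq_intCast] at h
  exact_mod_cast h

lemma S_inv_φ (κ : G) : Z.S (Z.φ κ)⁻¹ = Z.S κ⁻¹ := by
  rw [← map_inv, Z.S_φ]

lemma coeff_Lint_two_g : Z.Lint.coeff (2 * Z.g) = (Z.q : ℤ) ^ Z.g := by
  classical
  unfold Lint
  rw [finsetSum_coeff]
  obtain ⟨κ₀, h1, h2⟩ := Z.exists_unique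
  have hfix : Z.φ κ₀ = κ₀ := h2 _ (by simp only; rw [Z.S_φ]; exact h1)
  rw [Finset.sum_eq_single κ₀⁻¹]
  · rw [coeff_Lk (Z.mem_of_le _), dd_two_g (Z.compl_finite _) (Z.compl_ncard _) (Z.mem_of_le _),
      inv_inv, if_pos h1, pow_one]
  · intro κ _ hκ
    rw [coeff_Lk (Z.mem_of_le _), dd_two_g (Z.compl_finite _) (Z.compl_ncard _) (Z.mem_of_le _),
      if_neg]
    intro hc
    apply hκ
    rw [← h2 _ hc, inv_inv]
  · intro h
    exfalso
    apply h
    rw [mem_Pf one_pos, pow_one, map_inv, hfix]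

lemma natDegree_Lint : Z.Lint.natDegree = 2 * Z.g := by
  refine le_antisymm ?_ ?_
  · rw [natDegree_le_iff_coeff_eq_zero]
    intro n hn
    unfold Lint
    rw [finsetSum_coeff]
    refine Finset.sum_eq_zero fun κ _ => ?_
    rw [coeff_Lk (Z.mem_of_le _), dd_eq_zero (Z.mem_of_le _) hn]
  · refine le_natDegree_of_ne_zero ?_
    rw [coeff_Lint_two_g]
    exact pow_ne_zero _ (by have := Z.one_lt_q; omega)

lemma reverse_Lint : Z.Lint.reverse.Monic ∧ Z.Lint.reverse.natDegree = 2 * Z.g ∧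
    Z.Lint.reverse.coeff 0 = (Z.q : ℤ) ^ Z.g ∧
    Z.Lint.reverse.map (Int.castRingHom ℂ) = (Z.Lp 1 1).reverse := by
  have ht : Z.Lint.natTrailingDegree = 0 := by
    refine Nat.le_zero.mp (natTrailingDegree_le_of_ne_zero ?_)
    rw [coeff_zero_Lint]; exact one_ne_zero
  refine ⟨?_, ?_, ?_, ?_⟩
  · rw [Monic, reverse_leadingCoeff, trailingCoeff, ht, coeff_zero_Lint]
  · rw [reverse_natDegree, ht, natDegree_Lint, Nat.sub_zero]
  · rw [coeff_zero_reverse, leadingCoeff, natDegree_Lint, coeff_Lint_two_g]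
  · rw [← map_Lint, reverse, reverse, reflect_map,
      natDegree_map_eq_of_injective (RingHom.injective_int (Int.castRingHom ℂ))]

/-- **Main theorem of the zeta part.** -/
theorem card_torsion (Z : ZetaData G X) (ℓ : ℕ) [Fact ℓ.Prime] (hℓ : ¬ ℓ ∣ Z.q) (k : ℕ) :
    Nat.card {x : G // x ^ (ℓ ^ k) = 1} = ℓ ^ (2 * Z.g * k) := by
  obtain ⟨h1, h2, h3, h4⟩ := reverse_Lint (Z := Z)
  have hgrow := H57.TG.growth Z.Lint.reverse h1 ℓ (by
      rw [h3]
      intro h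
      rw [← Int.natCast_pow, Int.natCast_dvd_natCast] at h
      exact hℓ ((Fact.out : ℓ.Prime).dvd_of_dvd_pow h))
    (fun m => Nat.card {κ : G // (Z.φ ^ m) κ = κ})
    (fun m hm => by rw [h4]; exact card_eq_prod hm)
    (fun m hm => by
      have : Finite {κ : G // (Z.φ ^ m) κ = κ} := (Z.cls_finite m hm).to_subtype
      have : Nonempty {κ : G // (Z.φ ^ m) κ = κ} := ⟨⟨1, map_one _⟩⟩
      exact Nat.card_pos.ne')
  rw [h2] at hgrow
  exact H57.TG.endgame Z.φ ℓ (2 * Z.g) Z.exists_fix Z.cls_finite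
    (fun m r hm hr κ hκ => norm_surj hm hr hκ) hgrow k

end ZetaData

end Fermat.Agent.H95
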