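import Fermat.Agent.H63DivAlg
import Fermat.Agent.H63S27Zeta
import Fermat.Agent.H77TransferFinal
import Fermat.Agent.H1Frob
import Fermat.Agent.H95Zeta
import Fermat.Agent.H77ExTable

/-!
# Divisibility of the class group of a weighted Dedekind algebra, characteristic zero (helper63)
-/

set_option autoImplicit false

namespace Fermat.Agent.H63

open Fermat.Agent.H95 Fermat.Agent.H68 Fermat.Agent.H77.FOL Fermat.Agent.H77.M

section Group

variable {G : Type*} [CommGroup G]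

theorem exists_pow_eq_mul {a b : ℕ} (ha : ∀ κ : G, ∃ κ', κ' ^ a = κ)
    (hb : ∀ κ : G, ∃ κ', κ' ^ b = κ) (κ : G) : ∃ κ', κ' ^ (a * b) = κ := by
  obtain ⟨κ₁, rfl⟩ := hb κ
  obtain ⟨κ₂, rfl⟩ := ha κ₁
  exact ⟨κ₂, pow_mul _ _ _⟩

theorem exists_pow_eq_of_primes {n : ℕ} (hn : n ≠ 0)
    (h : ∀ ℓ : ℕ, ℓ.Prime → ℓ ∣ n → ∀ κ : G, ∃ κ', κ' ^ ℓ = κ) (κ : G) : ∃ κ', κ' ^ n = κ := by
  revert κ
  induction n using Nat.recOnMul with
  | zero => exact absurd rfl hn
  | one => exact fun κ => ⟨κ, pow_one κ⟩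
  | prime p hp => exact h p hp dvd_rfl
  | mul a b iha ihb =>
    have ha : a ≠ 0 := left_ne_zero_of_mul hn
    have hb : b ≠ 0 := right_ne_zero_of_mul hn
    exact exists_pow_eq_mul (iha ha fun ℓ hℓ hd => h ℓ hℓ (hd.mul_right b))
      (ihb hb fun ℓ hℓ hd => h ℓ hℓ (hd.mul_left a))

/-- A torsion group whose `ℓ`-primary torsion counts are `ℓ ^ (r k)` is `ℓ`-divisible. -/
theorem exists_pow_eq_of_card {ℓ : ℕ} [Fact ℓ.Prime] {r : ℕ}
    (htor : ∀ κ : G, ∃ N, 0 < N ∧ κ ^ N = 1)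
    (hcard : ∀ k, Nat.card {x : G // x ^ (ℓ ^ k) = 1} = ℓ ^ (r * k)) (κ : G) :
    ∃ κ', κ' ^ ℓ = κ := by
  have hℓ : ℓ.Prime := Fact.out
  have hℓ0 : ℓ ≠ 0 := hℓ.ne_zero
  -- the `ℓ`-primary part
  have hprim : ∀ (k : ℕ) (y : G), y ^ (ℓ ^ k) = 1 → ∃ z, z ^ ℓ = y := by
    intro k
    let T : ℕ → Subgroup G := fun k => (powMonoidHom (ℓ ^ k) : G →* G).ker
    have hT : ∀ k y, y ∈ T k ↔ y ^ (ℓ ^ k) = 1 := fun k y => by
      rw [MonoidHom.mem_ker]; rfl
    have hTcard : ∀ k, Nat.card (T k) = ℓ ^ (r * k) := fun k => hcard k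
    have hTfin : ∀ k, Finite (T k) := fun k => Nat.finite_of_card_ne_zero (by
      rw [hTcard]; exact pow_ne_zero _ hℓ0)
    have := hTfin k
    have := hTfin (k + 1)
    have := hTfin 1
    let ψ : T (k + 1) →* T k :=
      { toFun := fun y => ⟨(y : G) ^ ℓ, by
          rw [hT, ← pow_mul, ← pow_succ']
          exact (hT _ _).1 y.2⟩
        map_one' := Subtype.ext (one_pow _)
        map_mul' := fun a b => Subtype.ext (mul_pow _ _ _) }
    have hker : Nat.card ψ.ker = ℓ ^ r := by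
      have h1 : Nat.card ψ.ker = Nat.card (T 1) := by
        refine Nat.card_congr ⟨fun y => ⟨(y : T (k + 1)), ?_⟩, fun y => ⟨⟨y, ?_⟩, ?_⟩,
          fun y => rfl, fun y => rfl⟩
        · rw [hT, pow_one]
          exact congrArg Subtype.val ((MonoidHom.mem_ker).1 y.2)
        · rw [hT, pow_succ', pow_mul]
          have := (hT _ _).1 y.2
          rw [pow_one] at this
          rw [this, one_pow]
        · rw [MonoidHom.mem_ker]
          have := (hT _ _).1 y.2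
          rw [pow_one] at this
          exact Subtype.ext this
      rw [h1, hTcard, mul_one]
    have hrange : Nat.card ψ.range = ℓ ^ (r * k) := by
      have h2 := Subgroup.card_eq_card_quotient_mul_card_subgroup ψ.ker
      have h3 : Nat.card (T (k + 1) ⧸ ψ.ker) = Nat.card ψ.range :=
        Nat.card_congr (QuotientGroup.quotientKerEquivRange ψ).toEquiv
      rw [h3, hker, hTcard, Nat.mul_add, mul_one, pow_add] at h2
      exact (Nat.eq_of_mul_eq_mul_right (Nat.pos_of_ne_zero (pow_ne_zero _ hℓ0)) h2).symm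
    have hsurj : ψ.range = ⊤ := by
      apply Subgroup.eq_top_of_card_eq
      rw [hrange, hTcard]
    intro y hy
    have hmem : (⟨y, (hT _ _).2 hy⟩ : T k) ∈ ψ.range := by rw [hsurj]; trivial
    obtain ⟨z, hz⟩ := hmem
    exact ⟨z, congrArg Subtype.val hz⟩
  obtain ⟨N, hN, hκ⟩ := htor κ
  obtain ⟨a, m, hm, rfl⟩ := Nat.exists_eq_pow_mul_and_not_dvd hN.ne' ℓ hℓ.ne_one
  have hcop : Nat.Coprime (ℓ ^ (a + 1)) m := Nat.Coprime.pow_left _ ((hℓ.coprime_iff_not_dvd).2 hm)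
  -- Bezout: `κ = κ ^ (u ℓ^(a+1)) * κ ^ (v m)`
  have hbez := Nat.gcd_eq_gcd_ab (ℓ ^ (a + 1)) m
  rw [hcop.gcd_eq_one] at hbez
  set u := Nat.gcdA (ℓ ^ (a + 1)) m
  set v := Nat.gcdB (ℓ ^ (a + 1)) m
  have h1 : κ = (κ ^ (ℓ ^ (a + 1) : ℤ)) ^ u * (κ ^ (m : ℤ)) ^ v := by
    rw [← zpow_mul, ← zpow_mul, ← zpow_add]
    have : ((ℓ : ℤ) ^ (a + 1) * u + (m : ℤ) * v) = 1 := by
      rw [← Nat.cast_pow, ← hbez]; rfl
    rw [this, zpow_one]
  obtain ⟨z, hz⟩ := hprim a (κ ^ (m : ℤ)) (by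
    rw [zpow_natCast, ← pow_mul, mul_comm m, hκ])
  refine ⟨(κ ^ (ℓ ^ a : ℤ)) ^ u * z ^ v, ?_⟩
  conv_rhs => rw [h1]
  rw [mul_pow, ← hz]
  congr 1
  · rw [← zpow_natCast, ← zpow_mul, ← zpow_mul, ← zpow_mul]
    congr 1
    ring
  · rw [← zpow_natCast, ← zpow_natCast, ← zpow_mul, ← zpow_mul, mul_comm]

end Group

/-- Divisibility for zeta data. -/
theorem exists_pow_eq_of_zetaData {G X : Type*} [CommGroup G] (Z : ZetaData G X) {n : ℕ}
    (hn : n.Coprime Z.q) (hn0 : n ≠ 0) (κ : G) : ∃ κ', κ' ^ n = κ := by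
  refine exists_pow_eq_of_primes hn0 ?_ κ
  intro ℓ hℓ hd
  have : Fact ℓ.Prime := ⟨hℓ⟩
  have hℓq : ¬ ℓ ∣ Z.q := fun h => hℓ.one_lt.ne' (Nat.eq_one_of_dvd_coprimes hn hd h)
  refine exists_pow_eq_of_card (r := 2 * Z.g) ?_ (fun k => Z.card_torsion ℓ hℓq k)
  intro κ
  obtain ⟨m, hm, hκ⟩ := Z.exists_fix κ
  have hfin := Z.cls_finite m hm
  have hmem : ∀ i : ℕ, κ ^ i ∈ {κ | (Z.φ ^ m) κ = κ} := by
    intro i
    show (Z.φ ^ m) (κ ^ i) = κ ^ i
    rw [map_pow, hκ]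
  have hfo : IsOfFinOrder κ := by
    rw [isOfFinOrder_iff_pow_eq_one]
    by_contra hcon
    push Not at hcon
    have hinj : Function.Injective (fun i : ℕ => (⟨κ ^ i, hmem i⟩ : {κ | (Z.φ ^ m) κ = κ})) := by
      intro i j hij
      have hij' : κ ^ i = κ ^ j := congrArg Subtype.val hij
      by_contra hne
      rcases Nat.lt_or_gt_of_ne hne with h | h
      · refine hcon (j - i) (Nat.sub_pos_of_lt h) ?_
        rw [pow_sub _ h.le, ← hij', mul_inv_cancel]
      · refine hcon (i - j) (Nat.sub_pos_of_lt h) ?_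
        rw [pow_sub _ h.le, hij', mul_inv_cancel]
    have := hfin.to_subtype
    exact not_injective_infinite_finite _ hinj
  obtain ⟨N, hN, hN1⟩ := isOfFinOrder_iff_pow_eq_one.1 hfo
  exact ⟨N, hN, hN1⟩

universe u v

/-- **Divisibility of class groups of weighted Dedekind algebras in characteristic zero.** -/
theorem classGroup_exists_pow_eq {K : Type u} [Field K] [IsAlgClosed K] [CharZero K] {B : Type v}
    [CommRing B] [Algebra K B] [IsDedekindDomain B] {wt : B → WithBot ℕ} (hw : IsWeight K wt)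
    {n : ℕ} (hn : 0 < n) (κ : ClassGroup B) : ∃ κ', κ' ^ n = κ := by
  obtain ⟨s, c, x, y, h⟩ := exists_table hw
  revert κ
  rw [← allPDiv_iff h hn]
  refine lefschetz.{u} (P := fun K _ c => s.IsTable c → s.IsSmooth c →
    AllPDiv s n (divBound s n) c) ?_ ?_ K c (isTable h) ((H3S27.isSmooth_iff h).2 inferInstance)
  · exact fo_imp (fo_isTable s) (fo_imp (fo_isSmooth s) (fo_allPDiv s n _))
  · have hinf : {p : Nat.Primes | n < (p : ℕ)}.Infinite := by
      have h1 : {p : ℕ | p.Prime ∧ n < p}.Infinite := by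
        rw [← Nat.frequently_atTop_iff_infinite]
        exact (Nat.frequently_atTop_iff_infinite.2 Nat.infinite_setOfPred_prime).and_eventually
          (Filter.eventually_gt_atTop n)
      have := h1.to_subtype
      refine Set.infinite_of_injective_forall_mem (f := fun p : {p : ℕ | p.Prime ∧ n < p} =>
        (⟨p, p.2.1⟩ : Nat.Primes)) ?_ fun p => p.2.2
      intro p q hpq
      have h2 : (⟨p, p.2.1⟩ : Nat.Primes) = ⟨q, q.2.1⟩ := hpq
      exact Subtype.ext (congrArg (fun r : Nat.Primes => (r : ℕ)) h2)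
    refine hinf.mono ?_
    intro p hp'
    have : Fact (p : ℕ).Prime := ⟨p.2⟩
    obtain ⟨L, _, _, _, hL⟩ := exists_locallyFinite.{u} (p : ℕ)
    refine ⟨L, inferInstance, inferInstance, inferInstance, ?_⟩
    intro c hc1 hc2
    obtain ⟨B', _, _, wt', x', y', hB'⟩ := Fermat.Agent.H77.M.exists_model hc1
    have : IsDedekindDomain B' := (H3S27.isSmooth_iff hB').1 hc2
    rw [allPDiv_iff hB' hn]
    obtain ⟨e, he, φ, hφ⟩ := Fermat.Agent.H1.exists_frob hB' (p : ℕ) hL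
    obtain ⟨Z, hZq, -⟩ := exists_zetaData (p : ℕ) e he hL hB'.isWeight φ hφ
    refine exists_pow_eq_of_zetaData Z ?_ hn.ne'
    rw [hZq]
    refine Nat.Coprime.pow_right _ ?_
    rw [Nat.coprime_comm, p.2.coprime_iff_not_dvd]
    intro hdvd
    exact absurd (Nat.le_of_dvd hn hdvd) (not_le.2 hp')

end Fermat.Agent.H63
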