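import Fermat.Agent.H95S27
import Fermat.Agent.H63DivTransfer

/-!
# Divisibility and torsion of `Pic0` of a function field over an algebraically closed field of
characteristic zero (helper63)
-/

set_option autoImplicit false

open AlgebraicCurve
open Fermat.Agent.H3RR Fermat.Agent.H95

namespace Fermat.Agent.H63

universe u v

section

variable (K : Type u) (F : Type v) [Field K] [Field F] [Algebra K F] [IsAlgClosed K] [CharZero K]
  [IsFF K F]

theorem exists_weightAlg_ff :
    ∃ (B : Type v) (_ : CommRing B) (_ : Algebra K B) (_ : IsDedekindDomain B)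
      (wt : B → WithBot ℕ), IsWeight K wt ∧ genus wt = genusFF K F ∧
        Nonempty (Multiplicative (Pic0 K F) ≃* ClassGroup B) := by
  have hff : H94.FunField K F := funField_of_isFF
  obtain ⟨P⟩ := exists_place K F
  obtain ⟨x, hx, hP, hne⟩ := Fermat.Agent.H3S27.exists_only_pole P
  have hB := Fermat.Agent.H3S27.isAffineRing_intRing P hx hP hne
  have hfd := IsFF.finiteDimensional (F := F) hx
  have hded := H94.isDedekindDomain_intRing (F := F) hx
  have hfrac := H94.isFractionRing_intRing (K := K) (F := F) (x := x)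
  exact ⟨H94.IntRing K x, inferInstance, inferInstance, hded, Fermat.Agent.H3S27.wt P,
    Fermat.Agent.H3S27.isWeight hB, Fermat.Agent.H3S27.genus_eq hB,
    Fermat.Agent.H3S27.nonempty_equiv hB⟩

/-- **`Pic0` is divisible.** -/
theorem pic0_exists_nsmul_eq {n : ℕ} (hn : 0 < n) (x : Pic0 K F) : ∃ y : Pic0 K F, n • y = x := by
  obtain ⟨B, _, _, _, wt, hw, -, ⟨E⟩⟩ := exists_weightAlg_ff K F
  obtain ⟨κ, hκ⟩ := classGroup_exists_pow_eq hw hn (E (Multiplicative.ofAdd x))
  refine ⟨(E.symm κ).toAdd, ?_⟩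
  rw [← toAdd_pow, ← map_pow, hκ, MulEquiv.symm_apply_apply]
  rfl

/-- The number of `ℓ ^ k`-torsion points of `Pic0`. -/
theorem pic0_card_torsion (ℓ : ℕ) [Fact ℓ.Prime] (k : ℕ) :
    Nat.card (Pic0.torsion K F (ℓ ^ k)) = ℓ ^ (2 * genusFF K F * k) := by
  obtain ⟨B, _, _, _, wt, hw, hg, ⟨E⟩⟩ := exists_weightAlg_ff K F
  have key := card_torsion_of_charZero hw ℓ k
  rw [hg] at key
  rw [← key]
  refine Nat.card_congr (Equiv.subtypeEquiv (Multiplicative.ofAdd.trans E.toEquiv) ?_)
  intro z
  rw [Pic0.mem_torsion]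
  simp only [Equiv.trans_apply, MulEquiv.toEquiv_eq_coe, EquivLike.coe_coe]
  rw [← map_pow, ← ofAdd_nsmul, natCast_zsmul]
  constructor
  · intro h
    rw [h, ofAdd_zero, map_one]
  · intro h
    rw [map_eq_one_iff _ E.injective] at h
    exact h

theorem finite_nsmul_eq_zero_of_primes {A : Type*} [AddCommGroup A]
    (h : ∀ ℓ : ℕ, ℓ.Prime → {a : A | ℓ • a = 0}.Finite) {n : ℕ} (hn : n ≠ 0) :
    {a : A | n • a = 0}.Finite := by
  induction n using Nat.recOnMul with
  | zero => exact absurd rfl hn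
  | one =>
    refine (Set.finite_singleton (0 : A)).subset ?_
    intro a ha
    have : (1 : ℕ) • a = 0 := ha
    rwa [one_smul] at this
  | prime p hp => exact h p hp
  | mul a b iha ihb =>
    have ha := iha (left_ne_zero_of_mul hn)
    have hb := ihb (right_ne_zero_of_mul hn)
    refine Set.Finite.of_finite_fibers (fun x => b • x) (ha.subset ?_) ?_
    · rintro _ ⟨x, hx, rfl⟩
      have hx' : (a * b) • x = 0 := hx
      show a • (b • x) = 0
      rwa [← mul_smul]
    · rintro _ ⟨x, hx, rfl⟩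
      refine (hb.image fun z => z + x).subset ?_
      rintro y ⟨-, hy⟩
      have hy' : b • y = b • x := hy
      refine ⟨y - x, ?_, sub_add_cancel y x⟩
      show b • (y - x) = 0
      rw [smul_sub, hy', sub_self]

/-- Finiteness of torsion. -/
theorem pic0_finite_torsion {n : ℕ} (hn : n ≠ 0) : {x : Pic0 K F | n • x = 0}.Finite := by
  refine finite_nsmul_eq_zero_of_primes ?_ hn
  intro ℓ hℓ
  have : Fact ℓ.Prime := ⟨hℓ⟩
  have h1 := pic0_card_torsion K F ℓ 1
  have h2 : Finite (Pic0.torsion K F (ℓ ^ 1)) := Nat.finite_of_card_ne_zero (by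
    rw [h1]; exact pow_ne_zero _ hℓ.ne_zero)
  rw [pow_one] at h2
  refine Set.Finite.subset (s := {x : Pic0 K F | x ∈ Pic0.torsion K F ℓ}) h2 ?_
  intro x hx
  have hx' : ℓ • x = 0 := hx
  show x ∈ Pic0.torsion K F ℓ
  rw [Pic0.mem_torsion, natCast_zsmul]
  exact hx'

end

end Fermat.Agent.H63
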