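import Fermat.Agent.H63LTConj

set_option autoImplicit false

open NumberField Ideal
open scoped nonZeroDivisors

namespace Fermat.Agent.H63.LT

variable {K : Type*} [Field K] [NumberField K] {N : ℕ} {w : 𝓞 K}

/-- The ideal `(s, w)`. -/
def lam (w : 𝓞 K) (s : ℕ) : Ideal (𝓞 K) := span {(s : 𝓞 K), w}

namespace QuadData

variable (h : QuadData K N w)

include h

theorem mem_span_nat (n : ℕ) (a b : ℤ) :
    (a : 𝓞 K) + b * w ∈ span {(n : 𝓞 K)} ↔ (n : ℤ) ∣ a ∧ (n : ℤ) ∣ b := by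
  rw [Ideal.mem_span_singleton]
  constructor
  · rintro ⟨y, hy⟩
    obtain ⟨c, d, rfl⟩ := h.exists_int y
    have h1 : ((a - n * c : ℤ) : 𝓞 K) + ((b - n * d : ℤ) : 𝓞 K) * w = 0 := by
      push_cast; linear_combination hy
    obtain ⟨h2, h3⟩ := h.coord_unique h1
    exact ⟨⟨c, by linarith⟩, ⟨d, by linarith⟩⟩
  · rintro ⟨⟨c, rfl⟩, ⟨d, rfl⟩⟩
    exact ⟨c + d * w, by push_cast; ring⟩

theorem w_ne_zero : w ≠ 0 := by
  rintro rfl
  have h1 := h.sq
  rw [zero_pow (by norm_num), eq_comm, neg_eq_zero, Nat.cast_eq_zero] at h1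
  exact absurd h1 h.N_pos.ne'

omit h in
theorem lam_ne_bot {s : ℕ} (hs : s ≠ 0) : lam w s ≠ ⊥ := by
  intro h1
  have h2 : (s : 𝓞 K) ∈ lam w s := Ideal.subset_span (by simp)
  rw [h1, Ideal.mem_bot, Nat.cast_eq_zero] at h2
  exact hs h2

theorem lam_mul_lam {s t : ℕ} (hst : s * t = N) : lam w s * lam w t = span {w} := by
  have hcop : Nat.Coprime s t := by
    have := h.sqf
    rw [← hst] at this
    exact Nat.coprime_of_squarefree_mul this
  unfold lam
  rw [Ideal.span_pair_mul_span_pair]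
  apply le_antisymm
  · rw [Ideal.span_le]
    have hN : (s : 𝓞 K) * t = w * (-w) := by
      have := h.sq
      rw [← hst] at this
      push_cast at this
      linear_combination this
    intro x hx
    simp only [Set.mem_insert_iff, Set.mem_singleton_iff] at hx
    rw [SetLike.mem_coe, Ideal.mem_span_singleton]
    rcases hx with rfl | rfl | rfl | rfl
    · exact ⟨_, hN⟩
    · exact ⟨s, mul_comm _ _⟩
    · exact ⟨t, rfl⟩
    · exact ⟨w, rfl⟩
  · rw [Ideal.span_singleton_le_iff_mem]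
    have h1 : IsCoprime (s : ℤ) (t : ℤ) := Nat.isCoprime_iff_coprime.2 hcop
    obtain ⟨u, v, huv⟩ := h1
    have h2 : w = u * (s * w) + v * (w * t) := by
      have : (u : 𝓞 K) * s + v * t = 1 := by exact_mod_cast congrArg (fun z : ℤ => (z : 𝓞 K)) huv
      linear_combination (-w) * this
    have h3 : ∀ I : Ideal (𝓞 K), (s : 𝓞 K) * w ∈ I → w * (t : 𝓞 K) ∈ I → w ∈ I := fun I m1 m2 => by
      have := I.add_mem (I.mul_mem_left u m1) (I.mul_mem_left v m2)
      rwa [← h2] at this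
    exact h3 _ (Ideal.subset_span (by simp)) (Ideal.subset_span (by simp))

theorem lam_sq {s : ℕ} (hs : s ∣ N) : lam w s ^ 2 = span {(s : 𝓞 K)} := by
  obtain ⟨t, ht⟩ := hs
  have hst := ht.symm
  have hcop : Nat.Coprime s t := by
    have := h.sqf
    rw [← hst] at this
    exact Nat.coprime_of_squarefree_mul this
  unfold lam
  rw [pow_two, Ideal.span_pair_mul_span_pair]
  have hN : w * w = (s : 𝓞 K) * (-t) := by
    have := h.sq
    rw [← hst] at this
    push_cast at this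
    linear_combination this
  apply le_antisymm
  · rw [Ideal.span_le]
    intro x hx
    simp only [Set.mem_insert_iff, Set.mem_singleton_iff] at hx
    rw [SetLike.mem_coe, Ideal.mem_span_singleton]
    rcases hx with rfl | rfl | rfl | rfl
    · exact ⟨_, rfl⟩
    · exact ⟨w, rfl⟩
    · exact ⟨w, mul_comm _ _⟩
    · exact ⟨_, hN⟩
  · rw [Ideal.span_singleton_le_iff_mem]
    have h1 : IsCoprime (s : ℤ) (t : ℤ) := Nat.isCoprime_iff_coprime.2 hcop
    obtain ⟨u, v, huv⟩ := h1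
    have h2 : (s : 𝓞 K) = u * (s * s) + (-v) * (w * w) := by
      have : (u : 𝓞 K) * s + v * t = 1 := by exact_mod_cast congrArg (fun z : ℤ => (z : 𝓞 K)) huv
      rw [hN]
      linear_combination (-(s : 𝓞 K)) * this
    have h3 : ∀ I : Ideal (𝓞 K), (s : 𝓞 K) * s ∈ I → w * w ∈ I → (s : 𝓞 K) ∈ I := fun I m1 m2 => by
      have := I.add_mem (I.mul_mem_left u m1) (I.mul_mem_left (-v) m2)
      rwa [← h2] at this
    exact h3 _ (Ideal.subset_span (by simp)) (Ideal.subset_span (by simp))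

theorem ambiguous {J : Ideal (𝓞 K)} (hJ0 : J ≠ ⊥) (hJ : J.map h.conj = J) :
    ∃ r s : ℕ, r ≠ 0 ∧ s ∣ N ∧ J = span {(r : 𝓞 K)} * lam w s := by
  have h1 := h.mul_map_conj J
  rw [hJ] at h1
  set n := absNorm J with hn
  obtain ⟨s, r, hrs, hs⟩ := Nat.sq_mul_squarefree n
  have hn0 : n ≠ 0 := by rw [hn, Ne, Ideal.absNorm_eq_zero_iff]; exact hJ0
  have hr0 : r ≠ 0 := by rintro rfl; apply hn0; rw [← hrs]; simp
  have hr0' : (r : 𝓞 K) ≠ 0 := by exact_mod_cast hr0
  have hsp0 : span {(r : 𝓞 K)} ≠ ⊥ := by rwa [Ne, Ideal.span_singleton_eq_bot]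
  have h2 : J ^ 2 = span {(r : 𝓞 K)} ^ 2 * span {(s : 𝓞 K)} := by
    rw [pow_two, h1, Ideal.span_singleton_pow, Ideal.span_singleton_mul_span_singleton, ← hrs]
    push_cast; rfl
  have h3 : span {(r : 𝓞 K)} ∣ J := by
    rw [← UniqueFactorizationMonoid.pow_dvd_pow_iff_dvd (two_ne_zero)]
    exact ⟨_, h2⟩
  obtain ⟨J', hJ'⟩ := h3
  have h4 : J' ^ 2 = span {(s : 𝓞 K)} := by
    rw [hJ', mul_pow] at h2
    exact mul_left_cancel₀ (pow_ne_zero 2 hsp0) h2
  have h5 : J'.map h.conj = J' := by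
    rw [hJ', Ideal.map_mul, Ideal.map_span, Set.image_singleton, map_natCast] at hJ
    exact mul_left_cancel₀ hsp0 hJ
  -- each prime divisor of `s` divides `N`
  have h6 : ∀ p : ℕ, p.Prime → p ∣ s → p ∣ N := by
    intro p hp hps
    by_contra hpN
    have hp2 : p ≠ 2 := by rintro rfl; exact hpN h.even
    have hpZ : Prime (p : ℤ) := Nat.prime_iff_prime_int.1 hp
    have hJp : J' ≤ span {(p : 𝓞 K)} := by
      intro x hx
      obtain ⟨a, b, rfl⟩ := h.exists_int x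
      have m1 : ((a : 𝓞 K) + b * w) * ((a : 𝓞 K) + b * w) ∈ span {(s : 𝓞 K)} := by
        rw [← h4, pow_two]; exact Ideal.mul_mem_mul hx hx
      have m2 : ((a : 𝓞 K) + b * w) * h.conj ((a : 𝓞 K) + b * w) ∈ span {(s : 𝓞 K)} := by
        rw [← h4, pow_two]; refine Ideal.mul_mem_mul hx ?_
        rw [← h.mem_map_conj, h5]; exact hx
      have e1 : ((a : 𝓞 K) + b * w) * ((a : 𝓞 K) + b * w) =
        ((a ^ 2 - N * b ^ 2 : ℤ) : 𝓞 K) + ((2 * a * b : ℤ) : 𝓞 K) * w := by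
        push_cast; linear_combination ((b : 𝓞 K) ^ 2) * h.sq
      have e2 : ((a : 𝓞 K) + b * w) * h.conj ((a : 𝓞 K) + b * w) =
        ((a ^ 2 + N * b ^ 2 : ℤ) : 𝓞 K) + ((0 : ℤ) : 𝓞 K) * w := by
        rw [h.mul_conj_coord]; push_cast; ring
      rw [e1, h.mem_span_nat] at m1
      rw [e2, h.mem_span_nat] at m2
      have hpsZ : (p : ℤ) ∣ s := by exact_mod_cast hps
      have d1 := hpsZ.trans m1.1
      have d3 := hpsZ.trans m2.1
      have hnd2 : ¬ (p : ℤ) ∣ 2 := by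
        intro hd
        have : p ∣ 2 := by exact_mod_cast hd
        exact hp2 ((Nat.prime_dvd_prime_iff_eq hp Nat.prime_two).1 this)
      have hndN : ¬ (p : ℤ) ∣ N := by
        intro hd; exact hpN (by exact_mod_cast hd)
      have d4 : (p : ℤ) ∣ 2 * a ^ 2 := by
        have := dvd_add d1 d3
        have e : a ^ 2 - (N : ℤ) * b ^ 2 + (a ^ 2 + N * b ^ 2) = 2 * a ^ 2 := by ring
        rwa [e] at this
      have d5 : (p : ℤ) ∣ a := hpZ.dvd_of_dvd_pow ((hpZ.dvd_or_dvd d4).resolve_left hnd2)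
      have d6 : (p : ℤ) ∣ N * b ^ 2 := by
        have := dvd_sub d3 (d5.trans (dvd_pow_self a two_ne_zero))
        have e : a ^ 2 + (N : ℤ) * b ^ 2 - a ^ 2 = N * b ^ 2 := by ring
        rwa [e] at this
      have d7 : (p : ℤ) ∣ b := hpZ.dvd_of_dvd_pow ((hpZ.dvd_or_dvd d6).resolve_left hndN)
      rw [h.mem_span_nat]
      exact ⟨d5, d7⟩
    have hs2 : (s : 𝓞 K) ∈ span {((p ^ 2 : ℕ) : 𝓞 K)} := by
      have m3 : (s : 𝓞 K) ∈ J' ^ 2 := by rw [h4]; exact Ideal.mem_span_singleton_self _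
      have m4 := Ideal.pow_right_mono hJp 2 m3
      rw [Ideal.span_singleton_pow] at m4
      exact_mod_cast m4
    have e3 : (s : 𝓞 K) = ((s : ℤ) : 𝓞 K) + ((0 : ℤ) : 𝓞 K) * w := by push_cast; ring
    rw [e3, h.mem_span_nat] at hs2
    have h7 : p ^ 2 ∣ s := by exact_mod_cast hs2.1
    rw [pow_two] at h7
    exact hp.one_lt.ne' (Nat.isUnit_iff.1 (hs p h7))
  have h7 : s ∣ N := by
    rw [← Nat.prod_primeFactors_of_squarefree hs, ← Nat.prod_primeFactors_of_squarefree h.sqf]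
    apply Finset.prod_dvd_prod_of_subset
    intro p hp
    rw [Nat.mem_primeFactors] at hp ⊢
    exact ⟨hp.1, h6 p hp.1 hp.2.1, h.N_pos.ne'⟩
  refine ⟨r, s, hr0, h7, ?_⟩
  rw [hJ']
  congr 1
  have h8 := h.lam_sq h7
  rw [← h4] at h8
  have h9 : lam w s ∣ J' := (UniqueFactorizationMonoid.pow_dvd_pow_iff_dvd two_ne_zero).1 (dvd_of_eq h8)
  have h10 : J' ∣ lam w s := (UniqueFactorizationMonoid.pow_dvd_pow_iff_dvd two_ne_zero).1 (dvd_of_eq h8.symm)
  exact (dvd_antisymm h9 h10).symm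

end QuadData

end Fermat.Agent.H63.LT
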