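import Fermat.Agent.H63LTQuad

set_option autoImplicit false

open NumberField Ideal
open scoped nonZeroDivisors

namespace Fermat.Agent.H63.LT

variable {K : Type*} [Field K] [NumberField K] {N : ℕ} {w : 𝓞 K}

namespace QuadData

variable (h : QuadData K N w)

/-- The conjugation on the ring of integers. -/
noncomputable def conj : 𝓞 K ≃+* 𝓞 K :=
  RingOfIntegers.mapRingEquiv (h.exists_conj.choose : K ≃+* K)

include h

theorem conj_w : h.conj w = -w := by
  apply RingOfIntegers.ext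
  have := h.exists_conj.choose_spec
  exact this.trans (map_neg (algebraMap (𝓞 K) K) w).symm

theorem conj_coord (a b : ℤ) : h.conj ((a : 𝓞 K) + b * w) = (a : 𝓞 K) - b * w := by
  rw [map_add, map_mul, map_intCast, map_intCast, h.conj_w]; ring

theorem conj_conj (x : 𝓞 K) : h.conj (h.conj x) = x := by
  obtain ⟨a, b, rfl⟩ := h.exists_int x
  rw [conj_coord, map_sub, map_mul, map_intCast, map_intCast, h.conj_w]; ring

theorem mul_conj_coord (a b : ℤ) : ((a : 𝓞 K) + b * w) * h.conj ((a : 𝓞 K) + b * w) =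
    ((a ^ 2 + N * b ^ 2 : ℤ) : 𝓞 K) := by
  rw [conj_coord]
  push_cast
  linear_combination (-(b : 𝓞 K) ^ 2) * h.sq

theorem coord_unique {a b : ℤ} (hab : (a : 𝓞 K) + b * w = 0) : a = 0 ∧ b = 0 := by
  have h1 := h.mul_conj_coord a b
  rw [hab, zero_mul] at h1
  have h2 : a ^ 2 + (N : ℤ) * b ^ 2 = 0 := by exact_mod_cast h1.symm
  have hN : (0 : ℤ) < N := by exact_mod_cast h.N_pos
  have hb : b = 0 := by
    by_contra hb
    have : 0 < b ^ 2 := by positivity
    nlinarith [sq_nonneg a]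
  subst hb
  simp at h2
  exact ⟨h2, rfl⟩

theorem exists_trace (x : 𝓞 K) : ∃ c : ℤ, x + h.conj x = c := by
  obtain ⟨a, b, rfl⟩ := h.exists_int x
  refine ⟨2 * a, ?_⟩
  rw [conj_coord]; push_cast; ring

theorem exists_norm (x : 𝓞 K) : ∃ c : ℤ, x * h.conj x = c := by
  obtain ⟨a, b, rfl⟩ := h.exists_int x
  exact ⟨_, h.mul_conj_coord a b⟩

theorem map_conj_map_conj (I : Ideal (𝓞 K)) : (I.map h.conj).map h.conj = I := by
  have : (h.conj : 𝓞 K →+* 𝓞 K).comp (h.conj : 𝓞 K →+* 𝓞 K) = RingHom.id _ := by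
    apply RingHom.ext
    intro x
    exact h.conj_conj x
  have h2 : (I.map (h.conj : 𝓞 K →+* 𝓞 K)).map (h.conj : 𝓞 K →+* 𝓞 K) = I := by
    rw [Ideal.map_map, this, Ideal.map_id]
  exact h2

theorem mem_map_conj {I : Ideal (𝓞 K)} {x : 𝓞 K} : x ∈ I.map h.conj ↔ h.conj x ∈ I := by
  constructor
  · intro hx
    have := Ideal.mem_map_of_mem h.conj hx
    rwa [h.map_conj_map_conj] at this
  · intro hx
    have := Ideal.mem_map_of_mem h.conj hx
    rwa [conj_conj] at this

/-- Hurwitz's lemma: `I * conj I` is generated by a rational integer. -/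
theorem exists_mul_conj (I : Ideal (𝓞 K)) : ∃ g : ℕ, I * I.map h.conj = span {(g : 𝓞 K)} := by
  by_cases hI : I = ⊥
  · exact ⟨0, by rw [hI]; simp⟩
  obtain ⟨g, hg⟩ := (IsPrincipalIdealRing.principal ((I * I.map h.conj).comap (Int.castRingHom (𝓞 K)))).principal
  have hmem : ∀ z : ℤ, (z : 𝓞 K) ∈ I * I.map h.conj ↔ g ∣ z := by
    intro z
    rw [← Ideal.mem_span_singleton, ← Ideal.submodule_span_eq, ← hg, Ideal.mem_comap]
    rfl
  have hg0 : g ≠ 0 := by
    rintro rfl
    obtain ⟨x, hx, hx0⟩ := Submodule.exists_mem_ne_zero_of_ne_bot hI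
    obtain ⟨c, hc⟩ := h.exists_norm x
    have h1 : (c : 𝓞 K) ∈ I * I.map h.conj := by
      rw [← hc]; exact Ideal.mul_mem_mul hx (Ideal.mem_map_of_mem _ hx)
    rw [hmem, zero_dvd_iff] at h1
    subst h1
    rw [Int.cast_zero, mul_eq_zero] at hc
    rcases hc with hc | hc
    · exact hx0 hc
    · exact hx0 (by simpa using hc)
  have key : I * I.map h.conj = span {(g : 𝓞 K)} := by
    apply le_antisymm
    · rw [Ideal.mul_le]
      intro α hα β hβ'
      have hβ := h.mem_map_conj.1 hβ'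
      -- `x = α * β`
      obtain ⟨c1, hc1⟩ := h.exists_norm α
      obtain ⟨c2, hc2⟩ := h.exists_norm β
      obtain ⟨c3, hc3⟩ := h.exists_trace (α * β)
      have m1 : g ∣ c1 := by
        rw [← hmem, ← hc1]; exact Ideal.mul_mem_mul hα (Ideal.mem_map_of_mem _ hα)
      have m2 : g ∣ c2 := by
        rw [← hmem, ← hc2, mul_comm β]
        exact Ideal.mul_mem_mul hβ hβ'
      have m3 : g ∣ c3 := by
        rw [← hmem, ← hc3, map_mul]
        refine Ideal.add_mem _ (Ideal.mul_mem_mul hα hβ') ?_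
        rw [mul_comm (h.conj α)]; exact Ideal.mul_mem_mul hβ (Ideal.mem_map_of_mem _ hα)
      obtain ⟨d1, rfl⟩ := m1
      obtain ⟨d2, rfl⟩ := m2
      obtain ⟨d3, rfl⟩ := m3
      have hgK : ((g : ℤ) : K) ≠ 0 := by exact_mod_cast hg0
      set y : K := ((α * β : 𝓞 K) : K) / g with hy
      have hyint : IsIntegral ℤ y := by
        refine ⟨Polynomial.X ^ 2 + Polynomial.C (-d3) * Polynomial.X + Polynomial.C (d1 * d2), ?_, ?_⟩
        · have e0 : (Polynomial.X ^ 2 + Polynomial.C (-d3) * Polynomial.X + Polynomial.C (d1 * d2) : Polynomial ℤ) = Polynomial.C 1 * Polynomial.X ^ 2 + Polynomial.C (-d3) * Polynomial.X + Polynomial.C (d1 * d2) := by simp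
          rw [e0, Polynomial.Monic, Polynomial.leadingCoeff_quadratic one_ne_zero]
        · have e1 : (α * β) ^ 2 - (g : 𝓞 K) * d3 * (α * β) + (g : 𝓞 K) ^ 2 * (d1 * d2) = 0 := by
            have e2 : (α * β) * h.conj (α * β) = (g : 𝓞 K) ^ 2 * (d1 * d2) := by
              rw [map_mul]
              have : α * β * (h.conj α * h.conj β) = (α * h.conj α) * (β * h.conj β) := by ring
              rw [this, hc1, hc2]; push_cast; ring
            have e3 : h.conj (α * β) = (g : 𝓞 K) * d3 - α * β := by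
              rw [eq_sub_iff_add_eq, add_comm, hc3]; push_cast; ring
            rw [e3] at e2
            linear_combination -e2
          have e4 : (((α * β) ^ 2 - (g : 𝓞 K) * d3 * (α * β) + (g : 𝓞 K) ^ 2 * (d1 * d2) : 𝓞 K) : K) = 0 := by
            rw [e1]; simp
          have e5 : ((α * β : 𝓞 K) : K) = y * g := by rw [hy]; field_simp
          have e6 : ((α * β : 𝓞 K) : K) ^ 2 - (g : K) * d3 * ((α * β : 𝓞 K) : K) + (g : K) ^ 2 * (d1 * d2) = 0 := by
            simpa using e4
          rw [e5] at e6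
          have e7 : (g : K) ^ 2 * (y ^ 2 - d3 * y + d1 * d2) = 0 := by linear_combination e6
          have e8 := (mul_eq_zero.1 e7).resolve_left (pow_ne_zero 2 hgK)
          rw [Polynomial.eval₂_add, Polynomial.eval₂_add, Polynomial.eval₂_mul, Polynomial.eval₂_pow,
            Polynomial.eval₂_X, Polynomial.eval₂_C, Polynomial.eval₂_C]
          simpa [sub_eq_add_neg] using e8
      rw [Ideal.mem_span_singleton]
      refine ⟨⟨y, hyint⟩, ?_⟩
      apply RingOfIntegers.ext
      have : ((g : K)) * y = ((α * β : 𝓞 K) : K) := by rw [hy]; field_simp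
      refine this.symm.trans ?_
      have e9 : (((g : 𝓞 K) * ⟨y, hyint⟩ : 𝓞 K) : K) = ((g : 𝓞 K) : K) * y := map_mul (algebraMap (𝓞 K) K) _ _
      rw [e9]
      simp
    · rw [Ideal.span_singleton_le_iff_mem, hmem]
  refine ⟨g.natAbs, ?_⟩
  rw [key]
  rcases Int.natAbs_eq g with h1 | h1
  · conv_lhs => rw [h1]
    simp
  · conv_lhs => rw [h1]
    simp

theorem absNorm_map_conj (I : Ideal (𝓞 K)) : absNorm (I.map h.conj) = absNorm I := by
  rw [absNorm_apply, absNorm_apply, Submodule.cardQuot_apply, Submodule.cardQuot_apply]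
  exact (Nat.card_congr (Ideal.quotientEquiv I _ h.conj rfl).toEquiv).symm

theorem absNorm_natCast (n : ℕ) : absNorm (span {(n : 𝓞 K)}) = n ^ 2 := by
  rw [Ideal.absNorm_span_natCast, RingOfIntegers.rank, h.finrank]

theorem mul_map_conj (I : Ideal (𝓞 K)) : I * I.map h.conj = span {(absNorm I : 𝓞 K)} := by
  obtain ⟨g, hg⟩ := h.exists_mul_conj I
  have h1 := congrArg absNorm hg
  rw [map_mul, h.absNorm_map_conj, h.absNorm_natCast, ← pow_two] at h1
  rw [hg]
  have := Nat.pow_left_injective (n := 2) (by norm_num) h1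
  rw [this]

theorem absNorm_coord (a b : ℤ) :
    (absNorm (span {(a : 𝓞 K) + b * w}) : ℤ) = a ^ 2 + N * b ^ 2 := by
  have h1 := h.mul_map_conj (span {(a : 𝓞 K) + b * w})
  rw [Ideal.map_span, Set.image_singleton, Ideal.span_singleton_mul_span_singleton] at h1
  have h2 := h.mul_conj_coord a b
  rw [h2] at h1
  have hnn : 0 ≤ a ^ 2 + (N : ℤ) * b ^ 2 := by positivity
  obtain ⟨n, hn⟩ := Int.eq_ofNat_of_zero_le hnn
  rw [hn] at h1 ⊢
  have h3 := congrArg absNorm h1
  rw [h.absNorm_natCast] at h3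
  have h4 : absNorm (span {(((n : ℕ) : ℤ) : 𝓞 K)}) = n ^ 2 := by
    rw [Int.cast_natCast, h.absNorm_natCast]
  rw [h4] at h3
  have := Nat.pow_left_injective (n := 2) (by norm_num) h3
  exact_mod_cast this.symm

end QuadData

end Fermat.Agent.H63.LT
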