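import Mathlib

set_option autoImplicit false

namespace Fermat.Agent.H63.LT

/-- Value of the genus character attached to `p ∣ N` on an ideal of norm `n`. -/
noncomputable def gfun (N p n : ℕ) : ℤ :=
  jacobiSym (n / p ^ n.factorization p : ℕ) p * jacobiSym (N / p : ℕ) p ^ n.factorization p

theorem gfun_mul (N p : ℕ) {a b : ℕ} (ha : a ≠ 0) (hb : b ≠ 0) :
    gfun N p (a * b) = gfun N p a * gfun N p b := by
  unfold gfun
  rw [Nat.ordCompl_mul, Nat.factorization_mul ha hb, Finsupp.add_apply, pow_add]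
  push_cast
  rw [jacobiSym.mul_left]
  ring

theorem gfun_of_not_dvd (N : ℕ) {p a : ℕ} (h : ¬ p ∣ a) : gfun N p a = jacobiSym a p := by
  unfold gfun
  rw [Nat.factorization_eq_zero_of_not_dvd h]
  simp

variable {N p : ℕ}

theorem coprime_div (hN : Squarefree N) (hp : p.Prime) (hpN : p ∣ N) : ¬ p ∣ N / p := by
  intro h1
  obtain ⟨k, rfl⟩ := hpN
  rw [Nat.mul_div_cancel_left _ hp.pos] at h1
  obtain ⟨l, rfl⟩ := h1
  exact hp.one_lt.ne' (Nat.isUnit_iff.1 (hN p ⟨l, by ring⟩))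

theorem jacobi_unit (hp : p.Prime) {a : ℤ} (ha : ¬ (p : ℤ) ∣ a) :
    jacobiSym a p = 1 ∨ jacobiSym a p = -1 := by
  apply jacobiSym.eq_one_or_neg_one
  rw [Int.gcd_comm, ← Int.isCoprime_iff_gcd_eq_one]
  exact (Prime.coprime_iff_not_dvd (Nat.prime_iff_prime_int.1 hp)).2 ha

theorem gfun_unit (hN : Squarefree N) (hp : p.Prime) (hpN : p ∣ N) {n : ℕ} (hn : n ≠ 0) :
    gfun N p n = 1 ∨ gfun N p n = -1 := by
  unfold gfun
  have h1 := jacobi_unit hp (a := (n / p ^ n.factorization p : ℕ))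
    (by rw [Int.natCast_dvd_natCast]; exact Nat.not_dvd_ordCompl hp hn)
  have h2 := jacobi_unit hp (a := (N / p : ℕ))
    (by rw [Int.natCast_dvd_natCast]; exact coprime_div hN hp hpN)
  rcases h1 with h1 | h1 <;> rcases h2 with h2 | h2 <;> rw [h1, h2]
  · simp
  · rw [one_mul]; exact neg_one_pow_eq_or ℤ _
  · simp
  · rcases neg_one_pow_eq_or ℤ (n.factorization p) with h3 | h3 <;> rw [h3] <;> simp

theorem gfun_norm (hN : Squarefree N) (hp : p.Prime) (hpN : p ∣ N) :
    ∀ (n : ℕ) (a b : ℤ), n ≠ 0 → (n : ℤ) = a ^ 2 + N * b ^ 2 → gfun N p n = 1 := by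
  have hpZ : Prime (p : ℤ) := Nat.prime_iff_prime_int.1 hp
  have hpNZ : (p : ℤ) ∣ N := by exact_mod_cast hpN
  intro n
  induction n using Nat.strong_induction_on with
  | _ n ih =>
  intro a b hn hab
  by_cases hpa : (p : ℤ) ∣ a
  · obtain ⟨a', rfl⟩ := hpa
    obtain ⟨N', hN'⟩ := hpN
    have hN'p : N / p = N' := by rw [hN', Nat.mul_div_cancel_left _ hp.pos]
    have hndN' : ¬ p ∣ N' := by rw [← hN'p]; exact coprime_div hN hp ⟨N', hN'⟩
    by_cases hpb : (p : ℤ) ∣ b
    · obtain ⟨b', rfl⟩ := hpb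
      have h1 : (n : ℤ) = p ^ 2 * (a' ^ 2 + N * b' ^ 2) := by rw [hab]; ring
      have h2 : 0 ≤ a' ^ 2 + (N : ℤ) * b' ^ 2 := by positivity
      obtain ⟨n', hn'⟩ := Int.eq_ofNat_of_zero_le h2
      rw [hn'] at h1
      have h3 : n = p ^ 2 * n' := by exact_mod_cast h1
      have hn'0 : n' ≠ 0 := by rintro rfl; exact hn (by rw [h3]; simp)
      have hlt : n' < n := by
        rw [h3]
        have : 1 < p ^ 2 := Nat.one_lt_pow two_ne_zero hp.one_lt
        nlinarith [Nat.pos_of_ne_zero hn'0]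
      rw [h3, gfun_mul N p (pow_ne_zero 2 hp.pos.ne') hn'0, ih n' hlt a' b' hn'0 hn'.symm, mul_one,
        pow_two, gfun_mul N p hp.pos.ne' hp.pos.ne']
      rcases gfun_unit hN hp ⟨N', hN'⟩ hp.pos.ne' with h4 | h4 <;> rw [h4] <;> simp
    · have h1 : (n : ℤ) = p * (p * a' ^ 2 + N' * b ^ 2) := by
        rw [hab, hN']; push_cast; ring
      have h2 : 0 ≤ (p : ℤ) * a' ^ 2 + (N' : ℤ) * b ^ 2 := by positivity
      obtain ⟨n', hn'⟩ := Int.eq_ofNat_of_zero_le h2
      rw [hn'] at h1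
      have h3 : n = p * n' := by exact_mod_cast h1
      have hndn' : ¬ p ∣ n' := by
        intro hd
        have h5 : (p : ℤ) ∣ (n' : ℤ) := by exact_mod_cast hd
        have h6 : (p : ℤ) ∣ N' * b ^ 2 := by
          have := dvd_sub h5 (Dvd.intro (a' ^ 2) rfl : (p : ℤ) ∣ p * a' ^ 2)
          have e : (n' : ℤ) - p * a' ^ 2 = N' * b ^ 2 := by
            have : (n' : ℤ) = p * a' ^ 2 + N' * b ^ 2 := hn'.symm
            rw [this]; ring
          rwa [e] at this
        rcases hpZ.dvd_or_dvd h6 with h7 | h7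
        · exact hndN' (by exact_mod_cast h7)
        · exact hpb (hpZ.dvd_of_dvd_pow h7)
      have hn'0 : n' ≠ 0 := by rintro rfl; exact hn (by rw [h3]; simp)
      have h4 : n'.factorization p = 0 := Nat.factorization_eq_zero_of_not_dvd hndn'
      rw [h3, gfun_mul N p hp.pos.ne' hn'0, gfun_of_not_dvd N hndn']
      unfold gfun
      rw [hp.factorization_self, pow_one, pow_one, Nat.div_self hp.pos, hN'p]
      have h5 : jacobiSym (n' : ℤ) p = jacobiSym (N' : ℤ) p := by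
        have : (n' : ℤ) = p * a' ^ 2 + N' * b ^ 2 := hn'.symm
        rw [jacobiSym.mod_left, this, Int.add_emod, Int.mul_emod_right, zero_add, Int.emod_emod_of_dvd _ dvd_rfl,
          ← jacobiSym.mod_left, jacobiSym.mul_left, jacobiSym.sq_one', mul_one]
        rw [Int.gcd_comm, ← Int.isCoprime_iff_gcd_eq_one]
        exact (Prime.coprime_iff_not_dvd hpZ).2 hpb
      rw [h5]
      rcases jacobi_unit hp (a := (N' : ℤ)) (by rw [Int.natCast_dvd_natCast]; exact hndN') with h6 | h6 <;>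
        rw [h6] <;> simp
  · have hndn : ¬ p ∣ n := by
      intro hd
      have h5 : (p : ℤ) ∣ (n : ℤ) := by exact_mod_cast hd
      rw [hab] at h5
      have h6 := (dvd_add_left (hpNZ.mul_right (b ^ 2))).1 h5
      exact hpa (hpZ.dvd_of_dvd_pow h6)
    rw [gfun_of_not_dvd N hndn, hab, jacobiSym.mod_left, Int.add_emod,
      Int.emod_eq_zero_of_dvd (hpNZ.mul_right (b ^ 2)), add_zero, Int.emod_emod_of_dvd _ dvd_rfl,
      ← jacobiSym.mod_left, jacobiSym.sq_one']
    rw [Int.gcd_comm, ← Int.isCoprime_iff_gcd_eq_one]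
    exact (Prime.coprime_iff_not_dvd hpZ).2 hpa

end Fermat.Agent.H63.LT
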