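import Mathlib

set_option autoImplicit false

namespace Fermat.Agent.H63.LT

/-- Homomorphisms `(ι → ℤˣ) → ℤˣ` are products of coordinates. -/
theorem exists_finset_prod_eq {ι : Type*} [Fintype ι] (f : (ι → ℤˣ) →* ℤˣ) :
    ∃ S : Finset ι, ∀ x, f x = ∏ i ∈ S, x i := by
  classical
  refine ⟨Finset.univ.filter (fun i => f (Pi.mulSingle i (-1)) = -1), fun x => ?_⟩
  conv_lhs => rw [← Finset.univ_prod_mulSingle x]
  rw [map_prod, Finset.prod_filter]
  refine Finset.prod_congr rfl fun i _ => ?_
  rcases Int.units_eq_one_or (x i) with hx | hx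
  · rw [hx]
    simp
  · rw [hx]
    split_ifs with h1
    · exact h1
    · rcases Int.units_eq_one_or (f (Pi.mulSingle i (-1))) with h2 | h2
      · exact h2
      · exact absurd h2 h1

/-- Duality lemma for genus theory. -/
theorem exists_finset_of_surjective {C : Type*} [CommGroup C] [Finite C] {ι : Type*} [Fintype ι]
    (Φ : C →* (ι → ℤˣ)) (hΦ : Function.Surjective Φ)
    (hcard : Nat.card {c : C // c ^ 2 = 1} ≤ 2 ^ Fintype.card ι) (θ : C →* ℤˣ) :
    ∃ S : Finset ι, ∀ c, θ c = ∏ i ∈ S, Φ c i := by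
  classical
  have hle : (powMonoidHom 2 : C →* C).range ≤ Φ.ker := by
    rintro _ ⟨c, rfl⟩
    rw [MonoidHom.mem_ker, powMonoidHom_apply, map_pow]
    funext i
    rw [Pi.pow_apply]
    exact Int.units_sq _
  have h1 : Φ.ker.index = 2 ^ Fintype.card ι := by
    rw [Subgroup.index_ker, MonoidHom.range_eq_top.2 hΦ]
    rw [Subgroup.card_top, Nat.card_fun, Nat.card_eq_fintype_card (α := ι),
      Nat.card_eq_fintype_card (α := ℤˣ), Fintype.card_units_int]
  have h2 : (powMonoidHom 2 : C →* C).range.index ≤ 2 ^ Fintype.card ι := by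
    refine le_trans (le_of_eq ?_) hcard
    have e1 : Nat.card {c : C // c ^ 2 = 1} = Nat.card (powMonoidHom 2 : C →* C).ker := by
      apply Nat.card_congr
      refine Equiv.subtypeEquivRight fun c => ?_
      rw [MonoidHom.mem_ker, powMonoidHom_apply]
    rw [e1]
    have e2 := (powMonoidHom 2 : C →* C).range.card_mul_index
    have e3 : Nat.card (powMonoidHom 2 : C →* C).range * Nat.card (powMonoidHom 2 : C →* C).ker
        = Nat.card C := by
      rw [← Subgroup.index_ker, mul_comm]
      exact Subgroup.card_mul_index _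
    rw [← e3] at e2
    exact Nat.eq_of_mul_eq_mul_left Nat.card_pos e2
  have h3 : (powMonoidHom 2 : C →* C).range = Φ.ker := by
    apply le_antisymm hle
    have h4 := Subgroup.relIndex_mul_index hle
    have h5 : (powMonoidHom 2 : C →* C).range.relIndex Φ.ker = 1 := by
      have hpos : 0 < (powMonoidHom 2 : C →* C).range.relIndex Φ.ker := by
        rw [Subgroup.relIndex]
        exact Nat.pos_of_ne_zero Subgroup.index_ne_zero_of_finite
      by_contra hne
      have : 2 ≤ (powMonoidHom 2 : C →* C).range.relIndex Φ.ker := by omega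
      rw [h1] at h4
      have hp : 0 < 2 ^ Fintype.card ι := by positivity
      nlinarith
    exact Subgroup.relIndex_eq_one.1 h5
  have h4 : Φ.ker ≤ θ.ker := by
    rw [← h3]
    rintro _ ⟨c, rfl⟩
    rw [MonoidHom.mem_ker, powMonoidHom_apply, map_pow]
    exact Int.units_sq _
  obtain ⟨S, hS⟩ := exists_finset_prod_eq (MonoidHom.liftOfSurjective Φ hΦ ⟨θ, h4⟩)
  refine ⟨S, fun c => ?_⟩
  rw [← hS, MonoidHom.liftOfSurjective]
  simp

end Fermat.Agent.H63.LT
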