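import Mathlib

set_option autoImplicit false

namespace Fermat.Agent.H63.LT

theorem exists_prime_jacobi {N : ℕ} (hN : Squarefree N) (h2 : 2 ∣ N) {p : ℕ} (hp : p.Prime)
    (hpN : p ∣ N / 2) (B : ℕ) :
    ∃ ℓ : ℕ, ℓ.Prime ∧ B < ℓ ∧ jacobiSym (-(N : ℤ)) ℓ = 1 ∧ jacobiSym ℓ p = -1 ∧
      ∀ p', p'.Prime → p' ∣ N / 2 → p' ≠ p → jacobiSym ℓ p' = 1 := by
  obtain ⟨m, rfl⟩ := h2
  rw [Nat.mul_div_cancel_left _ (by norm_num)] at hpN ⊢
  obtain ⟨m', rfl⟩ := hpN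
  have hsq : Squarefree (p * m') := hN.of_mul_right
  have hc1 : Nat.Coprime 2 (p * m') := Nat.coprime_of_squarefree_mul hN
  have hc2 : Nat.Coprime p m' := Nat.coprime_of_squarefree_mul hsq
  have hp2 : Nat.Coprime 2 p := hc1.coprime_mul_right_right
  have hm2 : Nat.Coprime 2 m' := hc1.coprime_mul_left_right
  have h8 : Nat.Coprime 8 m' := Nat.Coprime.pow_left 3 hm2
  have h8p : Nat.Coprime 8 p := Nat.Coprime.pow_left 3 hp2
  have hpne2 : p ≠ 2 := by rintro rfl; norm_num at hp2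
  have : Fact p.Prime := ⟨hp⟩
  -- a nonresidue
  obtain ⟨r, hr⟩ : ∃ r : ℕ, jacobiSym r p = -1 := by
    obtain ⟨a, ha⟩ := quadraticChar_exists_neg_one (F := ZMod p) (by rw [ZMod.ringChar_zmod_n]; exact hpne2)
    refine ⟨a.val, ?_⟩
    rw [← jacobiSym.legendreSym.to_jacobiSym, legendreSym]
    have : (((a.val : ℕ) : ℤ) : ZMod p) = a := by
      rw [Int.cast_natCast, ZMod.natCast_val, ZMod.cast_id]
    rw [this, ha]
  have hrp : Nat.Coprime r p := by
    rw [Nat.coprime_comm, Nat.Prime.coprime_iff_not_dvd hp]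
    intro hd
    have : jacobiSym r p = 0 := by
      rw [jacobiSym.eq_zero_iff]
      refine ⟨hp.ne_zero, ?_⟩
      rw [Int.gcd_natCast_natCast]
      intro h1
      have := Nat.dvd_gcd hd dvd_rfl
      rw [h1] at this
      exact hp.one_lt.ne' (Nat.dvd_one.1 this)
    rw [this] at hr
    norm_num at hr
  obtain ⟨y, hy1, hy2⟩ := Nat.chineseRemainder h8 5 1
  have hcop : Nat.Coprime (8 * m') p := Nat.Coprime.mul_left h8p hc2.symm
  obtain ⟨x, hx1, hx2⟩ := Nat.chineseRemainder hcop y r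
  have hx8 : x ≡ 5 [MOD 8] := (hx1.of_mul_right m').trans hy1
  have hxm : x ≡ 1 [MOD m'] := (hx1.of_mul_left 8).trans hy2
  have hxc : x.Coprime (8 * m' * p) := by
    refine Nat.Coprime.mul_right (Nat.Coprime.mul_right ?_ ?_) ?_
    · rw [Nat.Coprime, hx8.gcd_eq]; rfl
    · rw [Nat.Coprime, hxm.gcd_eq]; simp
    · rw [Nat.Coprime, hx2.gcd_eq]; exact hrp
  have hq0 : 8 * m' * p ≠ 0 := by
    have : p * m' ≠ 0 := hsq.ne_zero
    have h1 := left_ne_zero_of_mul this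
    have h2 := right_ne_zero_of_mul this
    positivity
  obtain ⟨ℓ, hℓB, hℓ, hℓx⟩ := Nat.forall_exists_prime_gt_and_modEq B hq0 hxc
  have hℓ8 : ℓ % 8 = 5 := ((hℓx.of_mul_right p).of_mul_right m').trans hx8
  have hℓm : ℓ ≡ 1 [MOD m'] := ((hℓx.of_mul_right p).of_mul_left 8).trans hxm
  have hℓp : ℓ ≡ r [MOD p] := (hℓx.of_mul_left (8 * m')).trans hx2
  have key : ∀ (a b k : ℕ), a ≡ b [MOD k] → jacobiSym a k = jacobiSym b k := by
    intro a b k hab
    apply jacobiSym.mod_left'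
    exact_mod_cast hab
  have hJp : jacobiSym ℓ p = -1 := by rw [key _ _ _ hℓp, hr]
  have hJm : jacobiSym ℓ m' = 1 := by rw [key _ _ _ hℓm]; simp
  have hodd : Odd ℓ := by rw [Nat.odd_iff]; omega
  have hmodd : Odd (p * m') := Nat.coprime_two_left.1 hc1
  refine ⟨ℓ, hℓ, hℓB, ?_, hJp, ?_⟩
  · have e1 : (-((2 * (p * m') : ℕ) : ℤ)) = -1 * (2 * ((p * m' : ℕ) : ℤ)) := by push_cast; ring
    rw [e1, jacobiSym.mul_left, jacobiSym.mul_left, jacobiSym.at_neg_one hodd, jacobiSym.at_two hodd,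
      jacobiSym.quadratic_reciprocity_one_mod_four' hmodd (by omega : ℓ % 4 = 1)]
    have hsym : jacobiSym ℓ (p * m') = -1 := by
      rw [jacobiSym.mul_right' _ hp.ne_zero (right_ne_zero_of_mul hsq.ne_zero), hJp, hJm]; rfl
    rw [hsym]
    have h4 : ZMod.χ₄ (ℓ : ZMod 4) = 1 := by
      rw [ZMod.χ₄_nat_one_mod_four (by omega)]
    have h8' : ZMod.χ₈ (ℓ : ZMod 8) = -1 := by
      have : (ℓ : ZMod 8) = 5 := by
        have : (ℓ : ZMod 8) = ((5 : ℕ) : ZMod 8) := (ZMod.natCast_eq_natCast_iff' _ _ _).2 (by omega)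
        rw [this]; rfl
      rw [this]; rfl
    rw [h4, h8']
    norm_num
  · intro p' hp' hp'm hne
    have hd : p' ∣ m' := by
      rcases (Nat.Prime.dvd_mul hp').1 hp'm with h1 | h1
      · exact absurd ((Nat.prime_dvd_prime_iff_eq hp' hp).1 h1) hne
      · exact h1
    rw [key ℓ 1 p' (hℓm.of_dvd hd)]
    simp

end Fermat.Agent.H63.LT
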