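import Fermat.Agent.H63LTTors
import Fermat.Agent.H63LTGfun
import Fermat.Agent.H63LTGrp
import Fermat.Agent.H63LTPrim

set_option autoImplicit false

open NumberField Ideal
open scoped nonZeroDivisors

namespace Fermat.Agent.H63.LT

variable {K : Type*} [Field K] [NumberField K] {N : ℕ} {w : 𝓞 K}

namespace QuadData

variable (h : QuadData K N w)

include h

theorem gfun_span {p : ℕ} (hp : p.Prime) (hpN : p ∣ N) {x : 𝓞 K} (hx : x ≠ 0) :
    gfun N p (absNorm (span {x})) = 1 := by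
  obtain ⟨a, b, rfl⟩ := h.exists_int x
  refine gfun_norm h.sqf hp hpN _ a b ?_ (h.absNorm_coord a b)
  rw [Ne, Ideal.absNorm_eq_zero_iff, Ideal.span_singleton_eq_bot]
  exact hx

theorem gfun_eq_of_mk0_eq {p : ℕ} (hp : p.Prime) (hpN : p ∣ N) {I J : (Ideal (𝓞 K))⁰}
    (hIJ : ClassGroup.mk0 I = ClassGroup.mk0 J) :
    gfun N p (absNorm (I : Ideal (𝓞 K))) = gfun N p (absNorm (J : Ideal (𝓞 K))) := by
  obtain ⟨x, y, hx, hy, hxy⟩ := ClassGroup.mk0_eq_mk0_iff.1 hIJ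
  have h1 := congrArg (fun I : Ideal (𝓞 K) => gfun N p (absNorm I)) hxy
  have hne : ∀ {I : Ideal (𝓞 K)}, I ≠ ⊥ → absNorm I ≠ 0 := fun hI => by
    rwa [Ne, Ideal.absNorm_eq_zero_iff]
  have hx' : span {x} ≠ ⊥ := by rwa [Ne, Ideal.span_singleton_eq_bot]
  have hy' : span {y} ≠ ⊥ := by rwa [Ne, Ideal.span_singleton_eq_bot]
  simp only [map_mul] at h1
  rw [gfun_mul N p (hne hx') (hne (nonZeroDivisors.coe_ne_zero I)),
    gfun_mul N p (hne hy') (hne (nonZeroDivisors.coe_ne_zero J)),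
    h.gfun_span hp hpN hx, h.gfun_span hp hpN hy, one_mul, one_mul] at h1
  exact h1

open Classical in
/-- The genus character attached to `p ∣ N`. -/
theorem exists_genusChar {p : ℕ} (hp : p.Prime) (hpN : p ∣ N) :
    ∃ θ : ClassGroup (𝓞 K) →* ℤˣ, ∀ I : (Ideal (𝓞 K))⁰,
      ((θ (ClassGroup.mk0 I) : ℤˣ) : ℤ) = gfun N p (absNorm (I : Ideal (𝓞 K))) := by
  have hne : ∀ (I : (Ideal (𝓞 K))⁰), absNorm (I : Ideal (𝓞 K)) ≠ 0 := fun I => by
    rw [Ne, Ideal.absNorm_eq_zero_iff]; exact nonZeroDivisors.coe_ne_zero I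
  have hu : ∀ (I : (Ideal (𝓞 K))⁰), IsUnit (gfun N p (absNorm (I : Ideal (𝓞 K)))) := fun I => by
    rw [Int.isUnit_iff]; exact gfun_unit h.sqf hp hpN (hne I)
  let rep : ClassGroup (𝓞 K) → (Ideal (𝓞 K))⁰ := fun c => (ClassGroup.mk0_surjective c).choose
  have hrep : ∀ c, ClassGroup.mk0 (rep c) = c := fun c => (ClassGroup.mk0_surjective c).choose_spec
  have hval : ∀ I : (Ideal (𝓞 K))⁰, gfun N p (absNorm ((rep (ClassGroup.mk0 I)) : Ideal (𝓞 K))) =
      gfun N p (absNorm (I : Ideal (𝓞 K))) := fun I => h.gfun_eq_of_mk0_eq hp hpN (hrep _)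
  refine ⟨⟨⟨fun c => (hu (rep c)).unit, ?_⟩, ?_⟩, ?_⟩
  · ext
    rw [IsUnit.unit_spec]
    have h1 := hval 1
    rw [map_one] at h1
    rw [h1]
    have h2 : absNorm (((1 : (Ideal (𝓞 K))⁰)) : Ideal (𝓞 K)) = 1 := by simp
    rw [h2]
    have := gfun_of_not_dvd N (p := p) (a := 1) (by rw [Nat.dvd_one]; exact hp.one_lt.ne')
    rw [this]; simp
  · intro c d
    ext
    rw [Units.val_mul, IsUnit.unit_spec, IsUnit.unit_spec, IsUnit.unit_spec]
    have h1 := hval (rep c * rep d)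
    rw [map_mul, hrep, hrep] at h1
    rw [h1, Submonoid.coe_mul, map_mul, gfun_mul N p (hne _) (hne _)]
  · intro I
    change ((hu (rep (ClassGroup.mk0 I))).unit : ℤ) = _
    rw [IsUnit.unit_spec, hval]

/-- The prime ideal above a split prime. -/
theorem exists_ideal_of_jacobi {ℓ : ℕ} (hℓ : ℓ.Prime) (hℓ2 : ℓ ≠ 2)
    (hJ : jacobiSym (-(N : ℤ)) ℓ = 1) : ∃ P : Ideal (𝓞 K), absNorm P = ℓ := by
  have : Fact ℓ.Prime := ⟨hℓ⟩
  have hℓZ : Prime (ℓ : ℤ) := Nat.prime_iff_prime_int.1 hℓ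
  obtain ⟨r', hr'⟩ := ZMod.isSquare_of_jacobiSym_eq_one hJ
  obtain ⟨r, rfl⟩ := ZMod.intCast_surjective r'
  have hd : (ℓ : ℤ) ∣ N + r ^ 2 := by
    rw [← ZMod.intCast_zmod_eq_zero_iff_dvd]
    push_cast at hr' ⊢
    linear_combination -hr'
  have hndN : ¬ (ℓ : ℤ) ∣ N := by
    intro h1
    have h2 : jacobiSym (-(N : ℤ)) ℓ = 0 := by
      rw [jacobiSym.eq_zero_iff]
      refine ⟨hℓ.ne_zero, fun h3 => ?_⟩
      rw [Int.gcd_comm, ← Int.isCoprime_iff_gcd_eq_one] at h3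
      exact (Prime.coprime_iff_not_dvd hℓZ).1 h3 (dvd_neg.2 h1)
    rw [h2] at hJ; norm_num at hJ
  have hndr : ¬ (ℓ : ℤ) ∣ 2 * r := by
    intro h1
    rcases hℓZ.dvd_or_dvd h1 with h2 | h2
    · exact hℓ2 ((Nat.prime_dvd_prime_iff_eq hℓ Nat.prime_two).1 (by exact_mod_cast h2))
    · apply hndN
      have := dvd_sub hd (h2.trans (dvd_pow_self r two_ne_zero))
      simpa using this
  obtain ⟨u, v, huv⟩ := (Prime.coprime_iff_not_dvd hℓZ).2 hndr
  obtain ⟨k, hk⟩ := hd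
  refine ⟨span {(ℓ : 𝓞 K), w - r}, ?_⟩
  have key : span {(ℓ : 𝓞 K), w - r} * (span {(ℓ : 𝓞 K), w - r}).map h.conj = span {(ℓ : 𝓞 K)} := by
    rw [Ideal.map_span, Set.image_pair, map_natCast, map_sub, h.conj_w, map_intCast,
      Ideal.span_pair_mul_span_pair]
    apply le_antisymm
    · rw [Ideal.span_le]
      intro x hx
      simp only [Set.mem_insert_iff, Set.mem_singleton_iff] at hx
      rw [SetLike.mem_coe, Ideal.mem_span_singleton]
      rcases hx with rfl | rfl | rfl | rfl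
      · exact ⟨_, rfl⟩
      · exact ⟨_, rfl⟩
      · exact ⟨_, mul_comm _ _⟩
      · refine ⟨k, ?_⟩
        have : ((N + r ^ 2 : ℤ) : 𝓞 K) = ((ℓ * k : ℤ) : 𝓞 K) := by rw [hk]
        push_cast at this
        linear_combination this - h.sq
    · rw [Ideal.span_singleton_le_iff_mem]
      have h2 : (ℓ : 𝓞 K) = u * ((ℓ : 𝓞 K) * ℓ) + (-v) * ((ℓ : 𝓞 K) * (-w - r)) +
          (-v) * ((w - r) * ℓ) := by
        have : ((u * ℓ + v * (2 * r) : ℤ) : 𝓞 K) = ((1 : ℤ) : 𝓞 K) := by rw [huv]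
        push_cast at this
        linear_combination (-(ℓ : 𝓞 K)) * this
      have h3 : ∀ I : Ideal (𝓞 K), (ℓ : 𝓞 K) * ℓ ∈ I → (ℓ : 𝓞 K) * (-w - r) ∈ I →
          (w - r) * (ℓ : 𝓞 K) ∈ I → (ℓ : 𝓞 K) ∈ I := fun I m1 m2 m3 => by
        have := I.add_mem (I.add_mem (I.mul_mem_left u m1) (I.mul_mem_left (-v) m2))
          (I.mul_mem_left (-v) m3)
        rwa [← h2] at this
      exact h3 _ (Ideal.subset_span (by simp)) (Ideal.subset_span (by simp))
        (Ideal.subset_span (by simp))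
  have h1 := congrArg absNorm key
  rw [map_mul, h.absNorm_map_conj, h.absNorm_natCast, ← pow_two] at h1
  exact Nat.pow_left_injective (n := 2) (by norm_num) h1

/-- **Genus theory**: every quadratic character of the class group is a product of genus
characters. -/
theorem exists_genus (θ : ClassGroup (𝓞 K) →* ℤˣ) :
    ∃ d : ℕ, d ∣ N / 2 ∧ (θ ≠ 1 → d ≠ 1) ∧
      ∀ I : (Ideal (𝓞 K))⁰, (absNorm (I : Ideal (𝓞 K))).Coprime d →
        ((θ (ClassGroup.mk0 I) : ℤˣ) : ℤ) = jacobiSym (absNorm (I : Ideal (𝓞 K))) d := by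
  classical
  have hpr : ∀ p : (N / 2).primeFactors, (p : ℕ).Prime ∧ (p : ℕ) ∣ N ∧ (p : ℕ) ∣ N / 2 := by
    rintro ⟨p, hp⟩
    rw [Nat.mem_primeFactors] at hp
    exact ⟨hp.1, hp.2.1.trans (Nat.div_dvd_of_dvd h.even), hp.2.1⟩
  choose f hf using fun p : (N / 2).primeFactors => h.exists_genusChar (hpr p).1 (hpr p).2.1
  let Φ : ClassGroup (𝓞 K) →* ((N / 2).primeFactors → ℤˣ) := MonoidHom.pi f
  have hΦ : Function.Surjective Φ := by
    rw [← MonoidHom.range_eq_top, eq_top_iff]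
    rintro x -
    apply Subgroup.pi_mem_of_mulSingle_mem x
    intro p
    rcases Int.units_eq_one_or (x p) with hx | hx
    · rw [hx, Pi.mulSingle_one]; exact one_mem _
    · rw [hx]
      obtain ⟨ℓ, hℓ, hB, hJN, hJp, hJ'⟩ := exists_prime_jacobi h.sqf h.even (hpr p).1 (hpr p).2.2 N
      have hℓ2 : ℓ ≠ 2 := by
        rintro rfl
        obtain ⟨m, hm⟩ := h.even
        have := h.N_pos
        omega
      obtain ⟨P, hP⟩ := h.exists_ideal_of_jacobi hℓ hℓ2 hJN
      have hP0 : P ≠ ⊥ := by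
        rintro rfl
        rw [Ideal.absNorm_bot] at hP
        exact hℓ.ne_zero hP.symm
      refine ⟨ClassGroup.mk0 ⟨P, mem_nonZeroDivisors_of_ne_zero hP0⟩, ?_⟩
      funext q
      ext
      change ((f q _ : ℤˣ) : ℤ) = _
      rw [hf, hP, gfun_of_not_dvd N]
      · by_cases hqp : q = p
        · subst hqp
          rw [hJp, Pi.mulSingle_eq_same]; rfl
        · rw [Pi.mulSingle_eq_of_ne hqp, hJ' q (hpr q).1 (hpr q).2.2 (fun h1 => hqp (Subtype.ext h1))]
          rfl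
      · intro hd
        have h1 := (Nat.prime_dvd_prime_iff_eq (hpr q).1 hℓ).1 hd
        have h2 := Nat.le_of_dvd h.N_pos (hpr q).2.1
        omega
  obtain ⟨S, hS⟩ := exists_finset_of_surjective Φ hΦ (by
    rw [Fintype.card_coe]; exact h.card_two_torsion_le) θ
  have hdvd : ∏ p ∈ S, (p : ℕ) ∣ N / 2 := by
    have hm : Squarefree (N / 2) := h.sqf.squarefree_of_dvd (Nat.div_dvd_of_dvd h.even)
    conv_rhs => rw [← Nat.prod_primeFactors_of_squarefree hm]
    rw [← Finset.prod_coe_sort (N / 2).primeFactors]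
    exact Finset.prod_dvd_prod_of_subset _ _ _ (Finset.subset_univ S)
  refine ⟨∏ p ∈ S, (p : ℕ), hdvd, ?_, ?_⟩
  · intro hθ h1
    apply hθ
    have hSe : S = ∅ := by
      by_contra hne
      obtain ⟨p, hp⟩ := Finset.nonempty_iff_ne_empty.2 hne
      have := Finset.prod_eq_one_iff.1 h1 p hp
      exact (hpr p).1.one_lt.ne' this
    ext c
    rw [hS, hSe]; simp
  · intro I hI
    rw [hS]
    push_cast
    have h1 : ∀ (T : Finset (N / 2).primeFactors), (absNorm (I : Ideal (𝓞 K))).Coprime (∏ p ∈ T, (p : ℕ)) →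
        ∏ p ∈ T, ((Φ (ClassGroup.mk0 I) p : ℤˣ) : ℤ) =
        jacobiSym (absNorm (I : Ideal (𝓞 K))) (∏ p ∈ T, (p : ℕ)) := by
      intro T
      induction T using Finset.induction_on with
      | empty => intro _; simp
      | insert p T hp ih =>
        intro hc
        rw [Finset.prod_insert hp] at hc ⊢
        rw [Finset.prod_insert hp, ih (hc.coprime_mul_left_right),
          jacobiSym.mul_right' _ (hpr p).1.ne_zero
            (Finset.prod_ne_zero_iff.2 fun q _ => (hpr q).1.ne_zero)]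
        congr 1
        change ((f p _ : ℤˣ) : ℤ) = _
        rw [hf, gfun_of_not_dvd N]
        have := hc.coprime_mul_right_right
        rw [Nat.coprime_comm] at this
        exact ((hpr p).1.coprime_iff_not_dvd).1 this
    exact h1 S hI

end QuadData

end Fermat.Agent.H63.LT
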