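import Fermat.Agent.H63LTAmb

set_option autoImplicit false

open NumberField Ideal
open scoped nonZeroDivisors

namespace Fermat.Agent.H63.LT

variable {K : Type*} [Field K] [NumberField K] {N : ℕ} {w : 𝓞 K}

namespace QuadData

variable (h : QuadData K N w)

include h

/-- Every 2-torsion ideal class contains a conjugation-invariant ideal. -/
theorem exists_ambiguous {I : Ideal (𝓞 K)} (hI0 : I ≠ ⊥) {α : 𝓞 K} (hα : I ^ 2 = span {α}) :
    ∃ δ : 𝓞 K, δ ≠ 0 ∧ (span {δ} * I).map h.conj = span {δ} * I := by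
  set n := absNorm I with hn
  have hn0 : n ≠ 0 := by rw [hn, Ne, Ideal.absNorm_eq_zero_iff]; exact hI0
  have hn0' : (n : 𝓞 K) ≠ 0 := by exact_mod_cast hn0
  have h1 : I * I.map h.conj = span {(n : 𝓞 K)} := h.mul_map_conj I
  have h2 : span {(n : 𝓞 K)} * I = span {α} * I.map h.conj := by
    rw [← h1, ← hα]; ring
  have hα0 : α ≠ 0 := by
    rintro rfl
    rw [Set.singleton_zero, Ideal.span_zero] at hα
    exact hI0 (pow_eq_zero_iff (two_ne_zero) |>.1 hα)
  have h3 : α * h.conj α = (n : 𝓞 K) ^ 2 := by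
    obtain ⟨a, b, rfl⟩ := h.exists_int α
    rw [h.mul_conj_coord, ← h.absNorm_coord, ← hα, map_pow]
    push_cast; rfl
  by_cases hδ : (n : 𝓞 K) + h.conj α = 0
  · refine ⟨1, one_ne_zero, ?_⟩
    rw [Ideal.span_singleton_one, Ideal.one_eq_top.symm, one_mul]
    have h4 : h.conj α = -(n : 𝓞 K) := by linear_combination hδ
    have h5 : α = -(n : 𝓞 K) := by
      have := congrArg h.conj h4
      rwa [h.conj_conj, map_neg, map_natCast] at this
    rw [h5, Ideal.span_singleton_neg] at h2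
    exact (mul_left_cancel₀ (by rwa [Ne, Ideal.zero_eq_bot, Ideal.span_singleton_eq_bot]) h2).symm
  · refine ⟨_, hδ, ?_⟩
    rw [Ideal.map_mul, Ideal.map_span, Set.image_singleton, map_add, map_natCast, h.conj_conj]
    have h6 : α * ((n : 𝓞 K) + h.conj α) = ((n : 𝓞 K) + α) * n := by
      linear_combination h3
    have hsp : span {α} ≠ 0 := by rwa [Ne, Ideal.zero_eq_bot, Ideal.span_singleton_eq_bot]
    apply mul_left_cancel₀ hsp
    calc span {α} * (span {(n : 𝓞 K) + α} * I.map h.conj)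
        = span {(n : 𝓞 K) + α} * (span {α} * I.map h.conj) := by ring
      _ = span {(n : 𝓞 K) + α} * (span {(n : 𝓞 K)} * I) := by rw [h2]
      _ = span {((n : 𝓞 K) + α) * n} * I := by
          rw [← mul_assoc, Ideal.span_singleton_mul_span_singleton]
      _ = span {α * ((n : 𝓞 K) + h.conj α)} * I := by rw [h6]
      _ = span {α} * (span {(n : 𝓞 K) + h.conj α} * I) := by
          rw [← mul_assoc, Ideal.span_singleton_mul_span_singleton]

omit h in
theorem lam_mem {s : ℕ} (hs : s ≠ 0) : lam w s ∈ (Ideal (𝓞 K))⁰ :=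
  mem_nonZeroDivisors_of_ne_zero (lam_ne_bot hs)

/-- The 2-torsion of the class group is represented by the ideals `(s, w)`, `s ∣ N / 2`. -/
theorem exists_lam_of_sq_eq_one (c : ClassGroup (𝓞 K)) (hc : c ^ 2 = 1) :
    ∃ s : ℕ, ∃ hs : s ≠ 0, s ∣ N / 2 ∧ c = ClassGroup.mk0 ⟨lam w s, lam_mem hs⟩ := by
  obtain ⟨I, rfl⟩ := ClassGroup.mk0_surjective c
  have hI0 : (I : Ideal (𝓞 K)) ≠ ⊥ := nonZeroDivisors.coe_ne_zero I
  obtain ⟨α, -, hα⟩ := ClassGroup.mk0_eq_mk0_inv_iff.1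
    (mul_eq_one_iff_eq_inv.1 ((pow_two (ClassGroup.mk0 I)).symm.trans hc))
  rw [← pow_two] at hα
  obtain ⟨δ, hδ0, hδ⟩ := h.exists_ambiguous hI0 hα
  have hsp : span {δ} ≠ ⊥ := by rwa [Ne, Ideal.span_singleton_eq_bot]
  obtain ⟨r, s, hr0, hs, hrs⟩ := h.ambiguous (mul_ne_zero hsp hI0) hδ
  have hs0 : s ≠ 0 := ne_zero_of_dvd_ne_zero h.N_pos.ne' hs
  have h1 : ClassGroup.mk0 I = ClassGroup.mk0 ⟨lam w s, lam_mem hs0⟩ := by
    rw [ClassGroup.mk0_eq_mk0_iff]
    exact ⟨δ, r, hδ0, by exact_mod_cast hr0, hrs⟩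
  obtain ⟨m, hm⟩ := h.even
  have hNm : N / 2 = m := by omega
  by_cases hs2 : 2 ∣ s
  · obtain ⟨t, ht⟩ := hs
    have ht0 : t ≠ 0 := by rintro rfl; exact h.N_pos.ne' (by simpa using ht)
    refine ⟨t, ht0, ?_, ?_⟩
    · rw [hNm]
      obtain ⟨s', rfl⟩ := hs2
      exact ⟨s', by nlinarith⟩
    · rw [h1]
      have e1 : (ClassGroup.mk0 ⟨lam w s, lam_mem hs0⟩ : ClassGroup (𝓞 K)) *
          ClassGroup.mk0 ⟨lam w t, lam_mem ht0⟩ = 1 := by
        rw [mul_eq_one_iff_eq_inv, ClassGroup.mk0_eq_mk0_inv_iff]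
        exact ⟨w, h.w_ne_zero, h.lam_mul_lam ht.symm⟩
      have e2 : (ClassGroup.mk0 ⟨lam w t, lam_mem ht0⟩ : ClassGroup (𝓞 K)) *
          ClassGroup.mk0 ⟨lam w t, lam_mem ht0⟩ = 1 := by
        rw [mul_eq_one_iff_eq_inv, ClassGroup.mk0_eq_mk0_inv_iff]
        exact ⟨t, by exact_mod_cast ht0, by
          rw [← h.lam_sq ⟨s, by rw [ht, mul_comm]⟩, pow_two]⟩
      rw [mul_eq_one_iff_eq_inv.1 e1, ← mul_eq_one_iff_eq_inv.1 e2]
  · refine ⟨s, hs0, ?_, h1⟩
    rw [hNm]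
    rw [hm] at hs
    exact (Nat.Coprime.dvd_of_dvd_mul_left
      ((Nat.Prime.coprime_iff_not_dvd Nat.prime_two).2 hs2).symm hs)

/-- `|Cl(K)[2]| ≤ 2 ^ (t - 1)`. -/
theorem card_two_torsion_le :
    Nat.card {c : ClassGroup (𝓞 K) // c ^ 2 = 1} ≤ 2 ^ (N / 2).primeFactors.card := by
  have hm0 : N / 2 ≠ 0 := by
    obtain ⟨m, hm⟩ := h.even
    have := h.N_pos
    omega
  have hmsq : Squarefree (N / 2) := h.sqf.squarefree_of_dvd (Nat.div_dvd_of_dvd h.even)
  have h1 : ∀ c : {c : ClassGroup (𝓞 K) // c ^ 2 = 1}, ∃ s : (N / 2).divisors,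
      ∃ hs : (s : ℕ) ≠ 0, (c : ClassGroup (𝓞 K)) = ClassGroup.mk0 ⟨lam w s, lam_mem hs⟩ := by
    rintro ⟨c, hc⟩
    obtain ⟨s, hs0, hs, hsc⟩ := h.exists_lam_of_sq_eq_one c hc
    exact ⟨⟨s, Nat.mem_divisors.2 ⟨hs, hm0⟩⟩, hs0, hsc⟩
  choose f hf0 hf using h1
  have hinj : Function.Injective f := by
    intro c c' hcc
    apply Subtype.ext
    rw [hf c, hf c']
    congr 2
    rw [hcc]
  have h2 := Nat.card_le_card_of_injective f hinj
  refine h2.trans ?_
  rw [Nat.card_eq_fintype_card, Fintype.card_coe, Nat.card_divisors hm0,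
    Finset.prod_congr rfl (g := fun _ => 2), Finset.prod_const]
  intro p hp
  have := (Nat.squarefree_iff_factorization_le_one hm0).1 hmsq p
  have h3 : 0 < (N / 2).factorization p := by
    have := Nat.mem_primeFactors.1 hp
    exact this.1.factorization_pos_of_dvd this.2.2 this.2.1
  omega

end QuadData

end Fermat.Agent.H63.LT
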