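import Fermat.Agent.H63DivPic
import Fermat.Agent.H63WeakMW
import Fermat.Agent.H63Cyclo
import Fermat.Agent.H42Inputs
import Fermat.Agent.H31Level
import Fermat.Agent.H18S18

/-!
# Weak Mordell-Weil for `J_0(N)` (helper63)
-/

set_option autoImplicit false

noncomputable section

open AlgebraicCurve ModularCurve

namespace Fermat.Agent.H63

local notation "Qb" => AlgebraicClosure ℚ
local notation "GQ" => (AlgebraicClosure ℚ ≃ₐ[ℚ] AlgebraicClosure ℚ)

/-- Inertia at a good prime does not change the reduction. -/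
theorem reductionModL_inertia (N : ℕ) [NeZero N]
    (A : ValuationSubring Qb) (hred : ReductionInputsModL A N)
    (σ : GQ) (hσ : σ ∈ A.inertiaSubgroupIn ℚ) (x : JZero N) :
    reductionModL A N (σ • x) = reductionModL A N x := by
  have hr := hred.choose_spec.1
  have hgen := hred.choose_spec.2
  have hs : reductionModL A N = reductionPic0Along hred.choose hr hgen := reductionAlong_eq hred
  obtain ⟨σ', hσ', rfl⟩ := hσ
  have hid : ∀ x : IsLocalRing.ResidueField A, σ' • x = RingEquiv.refl _ x := by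
    intro x
    have h := MonoidHom.mem_ker.mp hσ'
    exact DFunLike.congr_fun h x
  have hc := H60.compat_of_mem (A := A) σ'.2 (RingEquiv.refl _) hid
  rw [hs]
  have h1 := H60.reductionPic0Along_smul (H42.riemannBound _ _) (H42.deg_bar N) hr hgen hc x
  rw [H60.coeffAut_refl, one_smul] at h1
  exact h1

/-- Division points of rational points are unramified at good primes. -/
theorem smul_eq_of_inertia (N : ℕ) [NeZero N] {ℓ : ℕ} (hℓ : ℓ.Prime) (hℓN : ¬ ℓ ∣ N)
    (A : ValuationSubring Qb) (hA : A.LiesOverPrime ℓ) (hred : ReductionInputsModL A N)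
    (hinj : H60.InjectivityAt N) {n : ℕ} (hn : ¬ ℓ ∣ n)
    (σ : GQ) (hσ : σ ∈ A.inertiaSubgroupIn ℚ) (x : JZero N) (hx : σ • (n • x) = n • x) :
    σ • x = x := by
  have : Fact ℓ.Prime := ⟨hℓ⟩
  have h1 : n • (σ • x - x) = 0 := by
    have h3 : σ • (n • x) = n • (σ • x) :=
      (DistribSMul.toAddMonoidHom (JZero N) σ).map_nsmul n x
    rw [nsmul_sub, ← h3, hx, sub_self]
  have h2 : reductionModL A N (σ • x - x) = 0 := by
    rw [map_sub, reductionModL_inertia N A hred σ hσ, sub_self]
  exact sub_eq_zero.1 (hinj hℓN A hA hred n hn _ h1 h2)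

theorem isOpen_stabilizer_JZero (N : ℕ) [NeZero N] (x : JZero N) :
    IsOpen (MulAction.stabilizer GQ x : Set GQ) := by
  obtain ⟨K', hK', h⟩ := H31.exists_level_JZero N x
  refine Subgroup.isOpen_mono (H₁ := K'.fixingSubgroup) ?_ (K'.fixingSubgroup_isOpen)
  intro σ hσ
  exact h σ fun a ha => hσ ⟨a, ha⟩

/-- **Weak Mordell-Weil for `J_0(N)`**, from good reduction. -/
theorem weak_mordell_weil_JZero (N : ℕ) [NeZero N]
    (hg : H42.GenusEqAt N) (hinj : H60.InjectivityAt N) {n : ℕ} (hn : 0 < n) :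
    ∃ s : Set (JZero N), s.Finite ∧ (∀ a ∈ s, ∀ g : GQ, g • a = a) ∧
      ∀ a : JZero N, (∀ g : GQ, g • a = a) →
        ∃ b ∈ s, ∃ c : JZero N, (∀ g : GQ, g • c = c) ∧ a = b + n • c := by
  classical
  have := isGalois_Qb
  refine weak_mordell_weil (L := Qb) n (isOpen_stabilizer_JZero N)
    (pic0_finite_torsion Qb (modularFunctionFieldBar N) hn.ne')
    (fun a _ => pic0_exists_nsmul_eq Qb (modularFunctionFieldBar N) hn a)
    ((N * n).primeFactors) (fun p hp => Nat.prime_of_mem_primeFactors hp) ?_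
  intro q hq hqS V hV σ hσ a ha
  have hne : N * n ≠ 0 := mul_ne_zero (NeZero.ne N) hn.ne'
  have hqN : ¬ q ∣ N * n := fun h => hqS (Nat.mem_primeFactors.2 ⟨hq, h, hne⟩)
  have hqN' : ¬ q ∣ N := fun h => hqN (h.mul_right n)
  exact smul_eq_of_inertia N hq hqN' V hV
    (H42.reductionInputsModL_of_genusEq hq hV hqN' (hg hq hqN' V hV)) hinj
    (fun h => hqN (h.mul_left N)) σ hσ a (ha σ)

/-- Finiteness of `J^G / n J^G`. -/
theorem finite_quotient_JZero (N : ℕ) [NeZero N]
    (hg : H42.GenusEqAt N) (hinj : H60.InjectivityAt N) {n : ℕ} (hn : 0 < n) :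
    Finite (FixedPoints.addSubgroup GQ (JZero N) ⧸
      (nsmulAddMonoidHom n : FixedPoints.addSubgroup GQ (JZero N) →+ _).range) := by
  obtain ⟨s, hs, hsG, h⟩ := weak_mordell_weil_JZero N hg hinj hn
  have hfin : Finite s := hs
  let f : s → FixedPoints.addSubgroup GQ (JZero N) ⧸
      (nsmulAddMonoidHom n : FixedPoints.addSubgroup GQ (JZero N) →+ _).range :=
    fun a => QuotientAddGroup.mk ⟨a, hsG a a.2⟩
  refine Finite.of_surjective f ?_
  intro a
  induction a using QuotientAddGroup.induction_on with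
  | H a =>
    obtain ⟨b, hb, c, hc, hab⟩ := h a a.2
    refine ⟨⟨b, hb⟩, ?_⟩
    show QuotientAddGroup.mk _ = QuotientAddGroup.mk _
    rw [QuotientAddGroup.eq]
    refine ⟨⟨c, hc⟩, ?_⟩
    apply Subtype.ext
    show n • c = -b + a
    rw [hab]
    abel

/-- Existence of a height on an abelian group in the sense of `AddCommGroup.fg_of_descent'`. -/
def HasHeight (G : Type*) [AddCommGroup G] : Prop :=
  ∃ (h : G → ℝ) (C : ℝ), (∀ x, 0 ≤ h x) ∧
    (∀ x y, |h (x + y) + h (x - y) - 2 * (h x + h y)| ≤ C) ∧ ∀ B, {x | h x ≤ B}.Finite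

/-- It is enough to have a height which is bounded below and satisfies the parallelogram law
up to a bounded error. -/
theorem HasHeight.of_bddBelow {G : Type*} [AddCommGroup G] (h : G → ℝ) (C c : ℝ)
    (h0 : ∀ x, c ≤ h x) (h1 : ∀ x y, |h (x + y) + h (x - y) - 2 * (h x + h y)| ≤ C)
    (h2 : ∀ B, {x | h x ≤ B}.Finite) : HasHeight G := by
  refine ⟨fun x => h x + |c|, C + 2 * |c|, fun x => ?_, fun x y => ?_, fun B => ?_⟩
  · have := h0 x
    have := neg_abs_le c
    linarith
  · have := h1 x y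
    have h3 := abs_nonneg c
    rw [abs_le] at this ⊢
    constructor <;> linarith [this.1, this.2]
  · refine (h2 B).subset fun x hx => ?_
    have h3 := abs_nonneg c
    have hx' : h x + |c| ≤ B := hx
    show h x ≤ B
    linarith

theorem fg_of_hasHeight {G : Type*} [AddCommGroup G] (hh : HasHeight G)
    (hfin : Finite (G ⧸ (nsmulAddMonoidHom 2 : G →+ G).range)) : AddGroup.FG G := by
  obtain ⟨h, C, h0, h1, h2⟩ := hh
  have : Northcott h := ⟨h2⟩
  have hfi : (nsmulAddMonoidHom 2 : G →+ G).range.FiniteIndex :=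
    AddSubgroup.finiteIndex_of_finite_quotient
  exact AddCommGroup.fg_of_descent' hfi h0 h1

/-- **Mordell-Weil for `J_0(N)`**, from good reduction and a height. -/
theorem fg_JZero_of (N : ℕ) [NeZero N] (hg : H42.GenusEqAt N) (hinj : H60.InjectivityAt N)
    (hh : HasHeight (FixedPoints.addSubgroup GQ (JZero N))) :
    AddGroup.FG (FixedPoints.addSubgroup GQ (JZero N)) :=
  fg_of_hasHeight hh (finite_quotient_JZero N hg hinj two_pos)

end Fermat.Agent.H63
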