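import Fermat.Agent.H63S27W4c
set_option autoImplicit false

namespace Fermat.Agent.H63

open Fermat.Agent.H95 Module Polynomial IsDedekindDomain
open scoped nonZeroDivisors

section Assembly
variable {K : Type*} {B : Type*} [Field K] [CommRing B] [Algebra K B] {wt : B → WithBot ℕ}
variable {q : ℕ}

theorem isFrob_pow {φ : B ≃+* B} (hφ : IsFrob K q wt φ) (m : ℕ) :
    IsFrob K (q ^ m) wt ((φ : RingAut B) ^ m) := by
  constructor
  · intro c f
    induction m generalizing f with
    | zero => simp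
    | succ m ih =>
      rw [pow_succ', pow_succ]
      change φ (((φ : RingAut B) ^ m) (c • f)) = _
      rw [ih, hφ.map_smul, ← pow_mul]
      rfl
  · intro n hn
    obtain ⟨e, he, hee⟩ := hφ.exists_fixed n hn
    refine ⟨e, he, ?_⟩
    induction m with
    | zero => simp
    | succ m ih =>
      rw [pow_succ']
      change φ (((φ : RingAut B) ^ m) e) = e
      rw [ih, hee]

theorem pow_pow_eq_self {M : Type*} [Monoid M] {c : M} {a : ℕ} (h : c ^ a = c) (k : ℕ) :
    c ^ a ^ k = c := by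
  induction k with
  | zero => simp
  | succ k ih => rw [pow_succ, pow_mul, ih, h]

/-- every element is fixed by a power of the Frobenius. -/
theorem exists_pow_fix (hw : IsWeight K wt) {p e : ℕ} {φ : B ≃+* B} (hφ : IsFrob K (p ^ e) wt φ)
    (hK : ∀ c : K, ∃ m, 0 < m ∧ c ^ p ^ m = c) (f : B) :
    ∃ m, 0 < m ∧ ((φ : RingAut B) ^ m) f = f := by
  have key : ∀ n : ℕ, ∀ f : B, wt f < (n : WithBot ℕ) → ∃ m, 0 < m ∧ ((φ : RingAut B) ^ m) f = f := by
    intro n
    induction n with
    | zero =>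
      intro f hf
      have : f = 0 := by
        by_contra h0
        obtain ⟨m, hm⟩ := hw.exists_nat h0
        rw [hm] at hf
        have : m < 0 := by exact_mod_cast hf
        omega
      exact ⟨1, one_pos, by rw [this, map_zero]⟩
    | succ n ih =>
      intro f hf
      rcases eq_or_ne f 0 with rfl | hf0
      · exact ⟨1, one_pos, by rw [map_zero]⟩
      obtain ⟨k, hk⟩ := hw.exists_nat hf0
      obtain ⟨b, hb, hbb⟩ := hφ.exists_fixed k ⟨f, trivial, hk⟩
      obtain ⟨c, hc⟩ := hw.exists_sub_lt f b hf0 (hk.trans hb.symm)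
      have hkn : k ≤ n := by
        rw [hk] at hf
        have : k < n + 1 := by exact_mod_cast hf
        omega
      obtain ⟨m₁, hm₁, h1⟩ := ih (f - c • b) ((hk ▸ hc).trans_le (by exact_mod_cast hkn))
      obtain ⟨m₂, hm₂, h2⟩ := hK c
      refine ⟨m₁ * m₂, Nat.mul_pos hm₁ hm₂, ?_⟩
      have h3 : ((φ : RingAut B) ^ (m₁ * m₂)) (f - c • b) = f - c • b := by
        rw [pow_mul]
        generalize hχ : (φ : RingAut B) ^ m₁ = χ at h1
        clear hχ
        induction m₂ with
        | zero => simp at hm₂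
        | succ j _ =>
          have : ∀ j : ℕ, (χ ^ j) (f - c • b) = f - c • b := by
            intro j
            induction j with
            | zero => simp
            | succ j ih => rw [pow_succ']; change χ ((χ ^ j) (f - c • b)) = _; rw [ih, h1]
          exact this _
      have h4 : ((φ : RingAut B) ^ (m₁ * m₂)) (c • b) = c • b := by
        have h5 := isFrob_pow hφ (m₁ * m₂)
        rw [h5.map_smul]
        have h6 : ((φ : RingAut B) ^ (m₁ * m₂)) b = b := by
          have : ∀ j : ℕ, ((φ : RingAut B) ^ j) b = b := by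
            intro j
            induction j with
            | zero => simp
            | succ j ih =>
              rw [pow_succ']; change φ (((φ : RingAut B) ^ j) b) = _; rw [ih, hbb]
          exact this _
        rw [h6]
        have h7 : (p ^ e) ^ (m₁ * m₂) = (p ^ m₂) ^ (e * m₁) := by
          rw [← pow_mul, ← pow_mul]; congr 1; ring
        rw [h7, pow_pow_eq_self h2]
      have h8 : f = (f - c • b) + c • b := by ring
      conv_lhs => rw [h8]
      rw [map_add, h3, h4]
      ring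
  rcases eq_or_ne f 0 with rfl | hf0
  · exact ⟨1, one_pos, by rw [map_zero]⟩
  obtain ⟨m, hm⟩ := hw.exists_nat hf0
  exact key (m + 1) f (by rw [hm]; exact_mod_cast Nat.lt_succ_self m)

variable [IsDedekindDomain B]

theorem finite_ideals_containing {f : B} (hf : f ≠ 0) : {I : Ideal B | f ∈ I}.Finite := by
  classical
  have h0 : Ideal.span {f} ≠ 0 := by
    rw [Ne, Ideal.zero_eq_bot, Ideal.span_singleton_eq_bot]; exact hf
  have := UniqueFactorizationMonoid.fintypeSubtypeDvd (Ideal.span {f}) h0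
  have h1 : {I : Ideal B | I ∣ Ideal.span {f}}.Finite :=
    Set.finite_coe_iff.mp (show Finite {I : Ideal B // I ∣ Ideal.span {f}} from inferInstance)
  refine h1.subset fun I hI => ?_
  change I ∣ Ideal.span {f}
  rw [Ideal.dvd_span_singleton]
  exact hI

variable [IsAlgClosed K]

theorem cdeg_idl (hw : IsWeight K wt) (D : HeightOneSpectrum B →₀ ℕ) :
    cdeg K (idl D : Ideal B) = D.sum fun _ k => k := by
  let δ : (Ideal B)⁰ →* Multiplicative ℕ :=
    { toFun := fun I => Multiplicative.ofAdd (cdeg K (I : Ideal B))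
      map_one' := by
        rw [OneMemClass.coe_one, Ideal.one_eq_top, hw.cdeg_top_wts]; rfl
      map_mul' := fun I J => by
        change Multiplicative.ofAdd (cdeg K ((I : Ideal B) * (J : Ideal B))) = _
        rw [cdeg_mul hw (nonZeroDivisors.coe_ne_zero I) (nonZeroDivisors.coe_ne_zero J)]
        rfl }
  have h1 : δ (idl D) = D.prod fun _ k => Multiplicative.ofAdd k := by
    rw [idl, map_finsuppProd]
    refine Finsupp.prod_congr (fun v _ => ?_)
    rw [map_pow]
    have : δ (pt v) = Multiplicative.ofAdd 1 := by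
      change Multiplicative.ofAdd (cdeg K v.asIdeal) = _
      rw [cdeg_maximal hw v.isMaximal]
    rw [this, ← ofAdd_nsmul]
    simp
  have h2 := congrArg Multiplicative.toAdd h1
  have h3 : Multiplicative.toAdd (D.prod fun _ k => Multiplicative.ofAdd k) = D.sum fun _ k => k := by
    simp [Finsupp.prod, Finsupp.sum]
  rw [h3] at h2
  exact h2

theorem exists_stable_reduced (hw : IsWeight K wt) {ψ : B ≃+* B} (hψ : IsFrob K q wt ψ)
    {κ : ClassGroup B} (hκ : clAut (ψ : RingAut B) κ = κ) :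
    ∃ J : (Ideal B)⁰, ClassGroup.mk0 J = κ ∧ cdeg K (J : Ideal B) ≤ genus wt ∧
      (J : Ideal B).map (ψ : B →+* B) = J := by
  obtain ⟨J, hJκ, hJg, hJu⟩ := exists_reduced hw κ
  refine ⟨J, hJκ, hJg, ?_⟩
  have h1 := hJu (Ideal.mapNonZero ψ J) (by rw [← clAut_mk0, hJκ, hκ]) (by
    rw [Ideal.coe_mapNonZero, cdeg_map hw hψ (nonZeroDivisors.coe_ne_zero J)])
  exact congrArg Subtype.val h1

omit [IsDedekindDomain B] in
/-- A stable nonzero ideal contains a nonzero fixed element of small weight. -/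
theorem exists_fixed_small (hw : IsWeight K wt) {ψ : B ≃+* B} (hψ : IsFrob K q wt ψ) (hq : 1 < q)
    {J : Ideal B} (hJ : J ≠ ⊥) (hJs : J.map (ψ : B →+* B) = J) {n : ℕ}
    (hn : genus wt + cdeg K J < n) :
    ∃ f ∈ J, f ≠ 0 ∧ f ∈ fixLt wt ψ (⊤ : Ideal B) n := by
  obtain ⟨g, hgJ, hg0, w, hgw, hw'⟩ := hw.exists_wt_le hJ
  obtain ⟨f, hfJ, hff, hfw⟩ := exists_fixed_mem hw hψ hq (map_mem_of_map_eq hJs) w ⟨g, hgJ, hgw⟩
  refine ⟨f, hfJ, hw.ne_zero_of_wt hfw, trivial, hff, ?_⟩
  rw [hfw]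
  exact_mod_cast (by omega : w < n)

theorem finite_fixed_points (hw : IsWeight K wt) {ψ : B ≃+* B} (hψ : IsFrob K q wt ψ) (hq : 1 < q)
    (hK : {c : K | c ^ q = c}.Finite ∧ {c : K | c ^ q = c}.ncard = q) :
    {x : HeightOneSpectrum B | ptMap ψ x = x}.Finite := by
  have hfin : (fixLt wt ψ (⊤ : Ideal B) (genus wt + 2)).Finite :=
    (card_fixLt hw hψ hq hK (fun _ _ => Submodule.mem_top) _).1
  have h1 : (⋃ f ∈ (fixLt wt ψ (⊤ : Ideal B) (genus wt + 2)) \ {0}, {I : Ideal B | f ∈ I}).Finite :=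
    Set.Finite.biUnion (hfin.subset Set.sdiff_subset) (fun f hf => finite_ideals_containing hf.2)
  refine Set.Finite.of_finite_image (f := fun x : HeightOneSpectrum B => x.asIdeal) (h1.subset ?_) ?_
  · rintro _ ⟨x, hx, rfl⟩
    have hx' : x.asIdeal.map (ψ : B →+* B) = x.asIdeal := congrArg (fun y => y.asIdeal) hx
    obtain ⟨f, hfJ, hf0, hf⟩ := exists_fixed_small hw hψ hq x.ne_bot hx' (n := genus wt + 2) (by
      rw [cdeg_maximal hw x.isMaximal]; omega)
    simp only [Set.mem_iUnion]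
    exact ⟨f, ⟨hf, hf0⟩, hfJ⟩
  · intro x _ y _ h
    exact HeightOneSpectrum.ext h

theorem finite_fixed_classes (hw : IsWeight K wt) {ψ : B ≃+* B} (hψ : IsFrob K q wt ψ) (hq : 1 < q)
    (hK : {c : K | c ^ q = c}.Finite ∧ {c : K | c ^ q = c}.ncard = q) :
    {κ : ClassGroup B | clAut (ψ : RingAut B) κ = κ}.Finite := by
  have hfin : (fixLt wt ψ (⊤ : Ideal B) (2 * genus wt + 1)).Finite :=
    (card_fixLt hw hψ hq hK (fun _ _ => Submodule.mem_top) _).1
  have h1 : (⋃ f ∈ (fixLt wt ψ (⊤ : Ideal B) (2 * genus wt + 1)) \ {0}, {I : Ideal B | f ∈ I}).Finite :=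
    Set.Finite.biUnion (hfin.subset Set.sdiff_subset) (fun f hf => finite_ideals_containing hf.2)
  have h2 : {I : (Ideal B)⁰ | (I : Ideal B) ∈
      (⋃ f ∈ (fixLt wt ψ (⊤ : Ideal B) (2 * genus wt + 1)) \ {0}, {I : Ideal B | f ∈ I})}.Finite :=
    h1.preimage (Set.injOn_of_injective Subtype.val_injective)
  refine (h2.image (fun I => ClassGroup.mk0 I)).subset ?_
  intro κ hκ
  obtain ⟨J, hJκ, hJg, hJs⟩ := exists_stable_reduced hw hψ hκ
  refine ⟨J, ?_, hJκ⟩
  obtain ⟨f, hfJ, hf0, hf⟩ := exists_fixed_small hw hψ hq (nonZeroDivisors.coe_ne_zero J) hJs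
    (n := 2 * genus wt + 1) (by omega)
  rw [Set.mem_ofPred_eq]
  simp only [Set.mem_iUnion]
  exact ⟨f, ⟨hf, hf0⟩, hfJ⟩

omit [IsAlgClosed K] in
theorem exists_fix_class (hw : IsWeight K wt) {p e : ℕ} {φ : B ≃+* B} (hφ : IsFrob K (p ^ e) wt φ)
    (hK : ∀ c : K, ∃ m, 0 < m ∧ c ^ p ^ m = c) (κ : ClassGroup B) :
    ∃ m, 0 < m ∧ clAut ((φ : RingAut B) ^ m) κ = κ := by
  classical
  obtain ⟨J, rfl⟩ := ClassGroup.mk0_surjective κ
  obtain ⟨s, hs⟩ := (isNoetherian_def.mp (inferInstance : IsNoetherian B B)) (J : Ideal B)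
  have hcommon : ∀ s : Finset B, ∃ m, 0 < m ∧ ∀ f ∈ s, ((φ : RingAut B) ^ m) f = f := by
    intro s
    induction s using Finset.induction_on with
    | empty => exact ⟨1, one_pos, by simp⟩
    | insert a s _ ih =>
      obtain ⟨m₁, hm₁, h1⟩ := ih
      obtain ⟨m₂, hm₂, h2⟩ := exists_pow_fix hw hφ hK a
      have hiter : ∀ (χ : RingAut B) (f : B), χ f = f → ∀ j : ℕ, (χ ^ j) f = f := by
        intro χ f hf j
        induction j with
        | zero => simp
        | succ j ih => rw [pow_succ']; change χ ((χ ^ j) f) = _; rw [ih, hf]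
      refine ⟨m₁ * m₂, Nat.mul_pos hm₁ hm₂, fun f hf => ?_⟩
      rcases Finset.mem_insert.mp hf with rfl | hf
      · rw [mul_comm, pow_mul]; exact hiter _ _ h2 _
      · rw [pow_mul]; exact hiter _ _ (h1 f hf) _
  obtain ⟨m, hm, h⟩ := hcommon s
  refine ⟨m, hm, ?_⟩
  have h1 := clAut_mk0 (((φ : RingAut B) ^ m : RingAut B) : B ≃+* B) J
  refine h1.trans ?_
  congr 1
  apply Subtype.ext
  rw [Ideal.coe_mapNonZero, ← hs]
  change Ideal.map _ (Ideal.span (s : Set B)) = Ideal.span (s : Set B)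
  rw [Ideal.map_span]
  congr 1
  ext f
  constructor
  · rintro ⟨g, hg, rfl⟩
    have : (((φ : RingAut B) ^ m : RingAut B) : B ≃+* B) g = g := h g hg
    change (((φ : RingAut B) ^ m : RingAut B) : B ≃+* B) g ∈ (s : Set B)
    rw [this]; exact hg
  · intro hf
    exact ⟨f, hf, h f hf⟩

/-- The construction of the zeta data, given the duality statement. -/
theorem exists_zetaData_of (p : ℕ) [Fact p.Prime] [CharP K p] (e : ℕ) (he : 0 < e)
    (hK : ∀ c : K, ∃ m, 0 < m ∧ c ^ p ^ m = c) (hw : IsWeight K wt) (φ : B ≃+* B)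
    (hφ : IsFrob K (p ^ e) wt φ)
    (hdual : ∃! κ : ClassGroup B, ∀ J : (Ideal B)⁰, ClassGroup.mk0 J = κ →
      ∀ n ∈ nset K wt (J : Ideal B), n + 1 ≠ 2 * genus wt) :
    ∃ Z : ZetaData (ClassGroup B) (HeightOneSpectrum B), Z.q = p ^ e ∧ Z.g = genus wt := by
  classical
  have hp : p.Prime := Fact.out
  have hrep : ∀ κ : ClassGroup B, ∃ J : (Ideal B)⁰, ClassGroup.mk0 J = κ :=
    ClassGroup.mk0_surjective
  choose rep hrep using hrep
  have hrep0 : ∀ κ, (rep κ : Ideal B) ≠ ⊥ := fun κ => nonZeroDivisors.coe_ne_zero (rep κ)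
  have hS : ∀ J : (Ideal B)⁰, nset K wt (rep (ClassGroup.mk0 J) : Ideal B) = nset K wt (J : Ideal B) :=
    fun J => nset_eq hw _ _ (hrep _)
  have hm1 : ∀ m, 0 < m → 1 < (p ^ e) ^ m := fun m hm =>
    Nat.one_lt_pow hm.ne' (Nat.one_lt_pow he.ne' hp.one_lt)
  have hKm : ∀ m, 0 < m → {c : K | c ^ (p ^ e) ^ m = c}.Finite ∧
      {c : K | c ^ (p ^ e) ^ m = c}.ncard = (p ^ e) ^ m := by
    intro m hm
    rw [← pow_mul]
    exact card_fixed (Nat.mul_pos he hm)
  refine ⟨{
    φ := clAut (φ : RingAut B)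
    σ := ptPerm (φ : RingAut B)
    cl := fun v => ClassGroup.mk0 (pt v)
    cl_σ := fun v => (clAut_mk0 φ (pt v)).symm
    g := genus wt
    q := p ^ e
    one_lt_q := Nat.one_lt_pow he.ne' hp.one_lt
    S := fun κ => nset K wt (rep κ : Ideal B)
    fix_finite := ?_
    cls_finite := ?_
    exists_fix := ?_
    S_φ := ?_
    compl_finite := fun κ => hw.nset_compl_finite (hrep0 κ)
    compl_ncard := fun κ => hw.nset_compl_ncard (hrep0 κ)
    zero_mem_iff := fun κ => by
      rw [zero_mem_nset_iff hw, hrep]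
    mem_of_le := fun κ n hn => hw.mem_nset (hrep0 κ) hn
    exists_unique := ?_
    count := ?_ }, rfl, rfl⟩
  · intro m hm
    have h1 := finite_fixed_points hw (isFrob_pow hφ m) (hm1 m hm) (hKm m hm)
    refine h1.subset fun x hx => ?_
    have hx' : (ptPerm (φ : RingAut B) ^ m) x = x := hx
    rw [← map_pow] at hx'
    exact hx'
  · intro m hm
    have h1 := finite_fixed_classes hw (isFrob_pow hφ m) (hm1 m hm) (hKm m hm)
    refine h1.subset fun x hx => ?_
    have hx' : (clAut (φ : RingAut B) ^ m) x = x := hx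
    rw [← map_pow] at hx'
    exact hx'
  · intro κ
    obtain ⟨m, hm, h⟩ := exists_fix_class hw hφ hK κ
    exact ⟨m, hm, by rw [← map_pow]; exact h⟩
  · intro κ
    have h1 : clAut (φ : RingAut B) κ = ClassGroup.mk0 (Ideal.mapNonZero φ (rep κ)) := by
      conv_lhs => rw [← hrep κ]
      exact clAut_mk0 φ (rep κ)
    rw [h1, hS, Ideal.coe_mapNonZero, nset_map hw hφ (hrep0 κ)]
  · obtain ⟨κ, hκ, hκu⟩ := hdual
    refine ⟨κ, fun n hn => hκ (rep κ) (hrep κ) n hn, fun κ' hκ' => ?_⟩
    apply hκu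
    intro J hJ n hn
    apply hκ' n
    rw [← hJ, hS]
    exact hn
  · intro m hm κ hκ n
    rw [← map_pow] at hκ
    have hψ := isFrob_pow hφ m
    set ψ : B ≃+* B := ((φ : RingAut B) ^ m : RingAut B) with hψdef
    have hκ' : clAut (ψ : RingAut B) κ⁻¹ = κ⁻¹ := by
      rw [map_inv]
      congr 1
    obtain ⟨J, hJκ, -, hJs⟩ := exists_stable_reduced hw hψ hκ'
    have hcard := (card_stableIdeals hw hψ (hm1 m hm) (hKm m hm) κ J hJs hJκ n).2
    have hSJ : nset K wt (rep κ⁻¹ : Ideal B) = nset K wt (J : Ideal B) := by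
      rw [← hJκ, hS]
    change Nat.card _ = if n ∈ nset K wt (rep κ⁻¹ : Ideal B) then
      ((p ^ e) ^ m) ^ (nset K wt (rep κ⁻¹ : Ideal B) ∩ Set.Iio n).ncard else 0
    rw [hSJ, ← hcard]
    have himg : stableIdeals K ψ κ n = idl '' {D : HeightOneSpectrum B →₀ ℕ |
        (∀ x, D (((ptPerm (φ : RingAut B)) ^ m) x) = D x) ∧ (D.sum fun _ k => k) = n ∧
        (D.prod fun x k => ClassGroup.mk0 (pt x) ^ k) = κ} := by
      ext I
      constructor
      · rintro ⟨h1, h2, h3⟩
        obtain ⟨D, rfl⟩ := idl_surjective I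
        refine ⟨D, ⟨?_, ?_, ?_⟩, rfl⟩
        · intro x
          rw [← map_pow]
          exact (idl_stable_iff ψ D).mp h1 x
        · rw [← cdeg_idl hw]; exact h3
        · rw [← mk0_idl]; exact h2
      · rintro ⟨D, ⟨h1, h2, h3⟩, rfl⟩
        refine ⟨?_, ?_, ?_⟩
        · refine (idl_stable_iff ψ D).mpr fun x => ?_
          have := h1 x
          rw [← map_pow] at this
          exact this
        · rw [mk0_idl]; exact h3
        · rw [cdeg_idl hw]; exact h2
    rw [himg, (idl_injective.injOn).ncard_image]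
    rfl

end Assembly

end Fermat.Agent.H63
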