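import Fermat.Agent.H63S27W2
set_option autoImplicit false

namespace Fermat.Agent.H63

open Fermat.Agent.H95 Module Polynomial
open scoped nonZeroDivisors

section FixedField

variable {K : Type*} [Field K] [IsAlgClosed K]

theorem exists_pow_sub_eq {q : ℕ} (hq : 1 < q) (c : K) : ∃ a : K, a ^ q - a = c := by
  have hdeg : (X ^ q - X - C c : K[X]).degree = q := by
    have h1 : (X ^ q - X - C c : K[X]) = X ^ q - (X + C c) := by ring
    rw [h1, degree_sub_eq_left_of_degree_lt]
    · exact degree_X_pow q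
    · rw [degree_X_pow, degree_X_add_C]
      exact_mod_cast hq
  obtain ⟨a, ha⟩ := IsAlgClosed.exists_root (X ^ q - X - C c : K[X]) (by
    rw [hdeg]
    exact_mod_cast (by omega : q ≠ 0))
  refine ⟨a, ?_⟩
  rw [IsRoot.def] at ha
  simp only [eval_sub, eval_pow, eval_X, eval_C] at ha
  exact sub_eq_zero.mp ha

theorem card_fixed {p k : ℕ} [Fact p.Prime] [CharP K p] (hk : 0 < k) :
    {c : K | c ^ p ^ k = c}.Finite ∧ {c : K | c ^ p ^ k = c}.ncard = p ^ k := by
  classical
  have hp : p.Prime := Fact.out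
  have hq : 1 < p ^ k := Nat.one_lt_pow hk.ne' hp.one_lt
  set f : K[X] := X ^ p ^ k - X with hf
  have hdeg : f.natDegree = p ^ k := FiniteField.X_pow_card_sub_X_natDegree_eq K hq
  have hf0 : f ≠ 0 := FiniteField.X_pow_card_sub_X_ne_zero K hq
  have hsep : f.Separable := by
    rw [hf, Polynomial.Separable]
    refine ⟨0, -1, ?_⟩
    have : derivative (X ^ p ^ k - X : K[X]) = -1 := by
      rw [derivative_sub, derivative_X_pow, derivative_X]
      have : ((p ^ k : ℕ) : K) = 0 := by
        rw [Nat.cast_pow, CharP.cast_eq_zero, zero_pow hk.ne']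
      rw [this]; simp
    rw [this]; ring
  have hset : {c : K | c ^ p ^ k = c} = (f.roots.toFinset : Set K) := by
    ext c
    simp only [Set.mem_ofPred_eq, Finset.mem_coe, Multiset.mem_toFinset]
    rw [mem_roots hf0, IsRoot.def, hf]
    simp [sub_eq_zero]
  rw [hset]
  refine ⟨Finset.finite_toSet _, ?_⟩
  rw [Set.ncard_coe_finset, Multiset.toFinset_card_of_nodup (nodup_roots hsep),
    splits_iff_card_roots.mp (IsAlgClosed.splits f), hdeg]

end FixedField

section Frob
variable {K : Type*} {B : Type*} [Field K] [CommRing B] [Algebra K B] {wt : B → WithBot ℕ}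
variable {q : ℕ} {ψ : B ≃+* B}

theorem frob_wt (hw : IsWeight K wt) (hψ : IsFrob K q wt ψ) (f : B) : wt (ψ f) = wt f := by
  have key : ∀ n : ℕ, ∀ f : B, wt f < (n : WithBot ℕ) → wt (ψ f) = wt f := by
    intro n
    induction n with
    | zero =>
      intro f hf
      have : f = 0 := by
        rw [← hw.eq_bot_iff]
        by_contra hne
        obtain ⟨m, hm⟩ := WithBot.ne_bot_iff_exists.1 hne
        rw [← hm] at hf
        exact Nat.not_lt_zero m (WithBot.coe_lt_coe.1 hf)
      rw [this, map_zero]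
    | succ n ih =>
      intro f hf
      rcases eq_or_ne f 0 with rfl | hf0
      · rw [map_zero]
      obtain ⟨m, hm⟩ := hw.exists_nat hf0
      obtain ⟨e, he, hφe⟩ := hψ.exists_fixed m ⟨f, trivial, hm⟩
      obtain ⟨c, hc⟩ := hw.exists_sub_lt f e hf0 (hm.trans he.symm)
      have hc0 : c ≠ 0 := by
        rintro rfl
        rw [zero_smul, sub_zero] at hc
        exact lt_irrefl _ hc
      have hmn : m ≤ n := by
        rw [hm] at hf
        have : m < n + 1 := by exact_mod_cast hf
        omega
      have hlt : wt (f - c • e) < (n : WithBot ℕ) :=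
        (hm ▸ hc).trans_le (by exact_mod_cast hmn)
      have h1 := ih _ hlt
      have h2 : ψ f = c ^ q • e + ψ (f - c • e) := by
        have : f = (f - c • e) + c • e := by ring
        conv_lhs => rw [this]
        rw [map_add, hψ.map_smul, hφe]
        ring
      have h3 : wt (c ^ q • e) = (m : WithBot ℕ) := by
        rw [hw.wt_smul (pow_ne_zero _ hc0), he]
      rw [h2, hw.wt_add_eq_of_lt, h3, hm]
      rw [h1, h3, ← hm]
      exact hc
  rcases eq_or_ne f 0 with rfl | hf0
  · rw [map_zero]
  obtain ⟨m, hm⟩ := hw.exists_nat hf0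
  exact key (m + 1) f (by rw [hm]; exact_mod_cast Nat.lt_succ_self m)

variable [IsAlgClosed K]

theorem frob_surj (hw : IsWeight K wt) (hψ : IsFrob K q wt ψ) (hq : 1 < q) {J : Ideal B} (n : ℕ)
    (hfix : ∀ h < n, h ∈ wts wt (J : Set B) → ∃ f ∈ J, ψ f = f ∧ wt f = (h : WithBot ℕ)) :
    ∀ k ≤ n, ∀ t ∈ J, wt t < (k : WithBot ℕ) → ∃ w ∈ J, wt w < (k : WithBot ℕ) ∧ ψ w - w = t := by
  intro k
  induction k with
  | zero =>
    intro _ t ht hlt
    refine ⟨0, J.zero_mem, by rw [hw.wt_zero]; exact WithBot.bot_lt_coe _, ?_⟩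
    have : t = 0 := by
      by_contra h0
      obtain ⟨m, hm⟩ := hw.exists_nat h0
      rw [hm] at hlt
      have : m < 0 := by exact_mod_cast hlt
      omega
    rw [this]; simp
  | succ k ih =>
    intro hk t ht hlt
    by_cases hlt' : wt t < (k : WithBot ℕ)
    · obtain ⟨w, hwJ, hwk, hww⟩ := ih (by omega) t ht hlt'
      exact ⟨w, hwJ, hwk.trans (by exact_mod_cast Nat.lt_succ_self k), hww⟩
    · have ht0 : t ≠ 0 := by
        rintro rfl
        rw [hw.wt_zero] at hlt'
        exact hlt' (WithBot.bot_lt_coe _)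
      obtain ⟨h, hh⟩ := hw.exists_nat ht0
      rw [hh] at hlt hlt'
      have h1 : h < k + 1 := by exact_mod_cast hlt
      have h2 : ¬ h < k := by
        intro h2; apply hlt'; exact_mod_cast h2
      obtain rfl : h = k := by omega
      obtain ⟨f, hfJ, hff, hfw⟩ := hfix h (by omega) ⟨t, ht, hh⟩
      obtain ⟨c, hc⟩ := hw.exists_sub_lt t f ht0 (hh.trans hfw.symm)
      obtain ⟨a, ha⟩ := exists_pow_sub_eq hq c
      have hcf : ∀ c : K, c • f ∈ J := fun c => by
        rw [Algebra.smul_def]; exact J.mul_mem_left _ hfJ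
      obtain ⟨w, hwJ, hwk, hww⟩ := ih (by omega) (t - c • f) (J.sub_mem ht (hcf c)) (by
        rw [← hh]; exact hc)
      refine ⟨a • f + w, J.add_mem (hcf a) hwJ, ?_, ?_⟩
      · refine (hw.add_le _ _).trans_lt (max_lt ?_ (hwk.trans (by exact_mod_cast Nat.lt_succ_self h)))
        refine (hw.wt_smul_le a f).trans_lt ?_
        rw [hfw]; exact_mod_cast Nat.lt_succ_self h
      · rw [map_add, hψ.map_smul, hff]
        have h3 : a ^ q • f + ψ w - (a • f + w) = (a ^ q - a) • f + (ψ w - w) := by
          rw [sub_smul]; ring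
        rw [h3, ha, hww]; ring

/-- A stable ideal has fixed elements of all its weights. -/
theorem exists_fixed_mem (hw : IsWeight K wt) (hψ : IsFrob K q wt ψ) (hq : 1 < q) {J : Ideal B}
    (hJ : ∀ f ∈ J, ψ f ∈ J) (n : ℕ) (hn : n ∈ wts wt (J : Set B)) :
    ∃ f ∈ J, ψ f = f ∧ wt f = (n : WithBot ℕ) := by
  induction n using Nat.strong_induction_on with
  | _ n ih =>
    obtain ⟨g₀, hg₀, hg₀n⟩ := hn
    have hg₀0 := hw.ne_zero_of_wt hg₀n
    obtain ⟨e, he, hee⟩ := hψ.exists_fixed n ⟨g₀, trivial, hg₀n⟩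
    obtain ⟨c, hc⟩ := hw.exists_sub_lt g₀ e hg₀0 (hg₀n.trans he.symm)
    have hc0 : c ≠ 0 := by
      rintro rfl
      rw [zero_smul, sub_zero] at hc
      exact lt_irrefl _ hc
    have hcf : ∀ (c : K) (f : B), f ∈ J → c • f ∈ J := fun c f hf => by
      rw [Algebra.smul_def]; exact J.mul_mem_left _ hf
    set g := c⁻¹ • g₀ with hg
    have hgJ : g ∈ J := hcf _ _ hg₀
    have hge : wt (g - e) < (n : WithBot ℕ) := by
      have h1 : g - e = c⁻¹ • (g₀ - c • e) := by
        rw [smul_sub, smul_smul, inv_mul_cancel₀ hc0, one_smul]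
      rw [h1, hw.wt_smul (inv_ne_zero hc0), ← hg₀n]
      exact hc
    have ht : wt (g - ψ g) < (n : WithBot ℕ) := by
      have h1 : g - ψ g = (g - e) - ψ (g - e) := by
        rw [map_sub, hee]; ring
      rw [h1]
      refine (hw.sub_le _ _).trans_lt (max_lt hge ?_)
      rw [frob_wt hw hψ]; exact hge
    obtain ⟨w, hwJ, hwn, hww⟩ := frob_surj hw hψ hq n (fun h hh hhJ => ih h hh hhJ) n le_rfl
      (g - ψ g) (J.sub_mem hgJ (hJ g hgJ)) ht
    refine ⟨g + w, J.add_mem hgJ hwJ, ?_, ?_⟩
    · rw [map_add]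
      have : ψ w = g - ψ g + w := by rw [← hww]; ring
      rw [this]; ring
    · have h1 : wt g = (n : WithBot ℕ) := by
        rw [hg, hw.wt_smul (inv_ne_zero hc0), hg₀n]
      rw [hw.wt_add_eq_of_lt, h1]
      rw [h1]; exact hwn

/-- The set of fixed elements of an ideal of weight `< n`. -/
def fixLt (wt : B → WithBot ℕ) (ψ : B ≃+* B) (J : Ideal B) (n : ℕ) : Set B :=
  {f | f ∈ J ∧ ψ f = f ∧ wt f < (n : WithBot ℕ)}

theorem card_fixLt (hw : IsWeight K wt) (hψ : IsFrob K q wt ψ) (hq : 1 < q)
    (hK : {c : K | c ^ q = c}.Finite ∧ {c : K | c ^ q = c}.ncard = q) {J : Ideal B}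
    (hJ : ∀ f ∈ J, ψ f ∈ J) (n : ℕ) :
    (fixLt wt ψ J n).Finite ∧ (fixLt wt ψ J n).ncard = q ^ (wts wt (J : Set B) ∩ Set.Iio n).ncard := by
  classical
  induction n with
  | zero =>
    have h1 : fixLt wt ψ J 0 = {0} := by
      ext f
      constructor
      · rintro ⟨-, -, hlt⟩
        by_contra h0
        obtain ⟨m, hm⟩ := hw.exists_nat h0
        rw [hm] at hlt
        have : m < 0 := by exact_mod_cast hlt
        omega
      · rintro rfl
        exact ⟨J.zero_mem, map_zero _, by rw [hw.wt_zero]; exact WithBot.bot_lt_coe _⟩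
    rw [h1]
    refine ⟨Set.finite_singleton _, ?_⟩
    have h2 : (wts wt (J : Set B) ∩ Set.Iio 0) = ∅ := by
      ext m; simp
    rw [h2, Set.ncard_singleton, Set.ncard_empty, pow_zero]
  | succ n ih =>
    by_cases hn : n ∈ wts wt (J : Set B)
    · obtain ⟨f, hfJ, hff, hfn⟩ := exists_fixed_mem hw hψ hq hJ n hn
      have hf0 := hw.ne_zero_of_wt hfn
      have hcf : ∀ (c : K), c • f ∈ J := fun c => by
        rw [Algebra.smul_def]; exact J.mul_mem_left _ hfJ
      have himg : fixLt wt ψ J (n + 1) =
          (fun x : B × K => x.1 + x.2 • f) '' (fixLt wt ψ J n ×ˢ {c : K | c ^ q = c}) := by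
        ext g
        constructor
        · rintro ⟨hgJ, hgg, hgn⟩
          by_cases hlt : wt g < (n : WithBot ℕ)
          · refine ⟨(g, 0), ⟨⟨hgJ, hgg, hlt⟩, ?_⟩, by simp⟩
            exact zero_pow (by omega)
          · have hg0 : g ≠ 0 := by
              rintro rfl
              rw [hw.wt_zero] at hlt
              exact hlt (WithBot.bot_lt_coe _)
            obtain ⟨m, hm⟩ := hw.exists_nat hg0
            rw [hm] at hgn hlt
            have h1 : m < n + 1 := by exact_mod_cast hgn
            have h2 : ¬ m < n := by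
              intro h2; apply hlt; exact_mod_cast h2
            obtain rfl : m = n := by omega
            obtain ⟨c, hc⟩ := hw.exists_sub_lt g f hg0 (hm.trans hfn.symm)
            have hcq : c ^ q = c := by
              by_contra hne
              have h3 : wt (ψ (g - c • f)) < (m : WithBot ℕ) := by
                rw [frob_wt hw hψ, ← hm]; exact hc
              rw [map_sub, hgg, hψ.map_smul, hff] at h3
              have h4 : (c ^ q - c) • f = (g - c • f) - (g - c ^ q • f) := by
                rw [sub_smul]; ring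
              have h5 : wt ((c ^ q - c) • f) < (m : WithBot ℕ) := by
                rw [h4]
                exact (hw.sub_le _ _).trans_lt (max_lt (hm ▸ hc) h3)
              rw [hw.wt_smul (sub_ne_zero.mpr hne), hfn] at h5
              exact lt_irrefl _ h5
            refine ⟨(g - c • f, c), ⟨⟨J.sub_mem hgJ (hcf c), ?_, hm ▸ hc⟩, hcq⟩, by simp⟩
            rw [map_sub, hgg, hψ.map_smul, hff, hcq]
        · rintro ⟨⟨g', c⟩, ⟨⟨hgJ, hgg, hgn⟩, hc⟩, rfl⟩
          have hc' : c ^ q = c := hc
          refine ⟨J.add_mem hgJ (hcf c), ?_, ?_⟩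
          · change ψ (g' + c • f) = g' + c • f
            rw [map_add, hgg, hψ.map_smul, hff, hc']
          · refine (hw.add_le _ _).trans_lt (max_lt (hgn.trans (by exact_mod_cast Nat.lt_succ_self n)) ?_)
            refine (hw.wt_smul_le c f).trans_lt ?_
            rw [hfn]; exact_mod_cast Nat.lt_succ_self n
      have hinj : Set.InjOn (fun x : B × K => x.1 + x.2 • f)
          (fixLt wt ψ J n ×ˢ {c : K | c ^ q = c}) := by
        rintro ⟨g, c⟩ ⟨⟨-, -, hg⟩, -⟩ ⟨g', c'⟩ ⟨⟨-, -, hg'⟩, -⟩ h
        have h1 : g + c • f = g' + c' • f := h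
        have h2 : c = c' := by
          by_contra hne
          have h3 : (c - c') • f = g' - g := by
            rw [sub_smul]
            linear_combination h1
          have h4 : wt ((c - c') • f) < (n : WithBot ℕ) := by
            rw [h3]
            exact (hw.sub_le _ _).trans_lt (max_lt hg' hg)
          rw [hw.wt_smul (sub_ne_zero.mpr hne), hfn] at h4
          exact lt_irrefl _ h4
        subst h2
        have h3 : g = g' := by
          linear_combination h1
        rw [h3]
      have hprodfin : (fixLt wt ψ J n ×ˢ {c : K | c ^ q = c}).Finite := ih.1.prod hK.1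
      refine ⟨himg ▸ hprodfin.image _, ?_⟩
      rw [himg, hinj.ncard_image, Set.ncard_prod, ih.2, hK.2]
      have h6 : wts wt (J : Set B) ∩ Set.Iio (n + 1) = insert n (wts wt (J : Set B) ∩ Set.Iio n) := by
        ext m
        simp only [Set.mem_inter_iff, Set.mem_Iio, Set.mem_insert_iff]
        constructor
        · rintro ⟨h1, h2⟩
          rcases Nat.lt_succ_iff_lt_or_eq.mp h2 with h | h
          · exact Or.inr ⟨h1, h⟩
          · exact Or.inl h
        · rintro (rfl | ⟨h1, h2⟩)
          · exact ⟨hn, Nat.lt_succ_self _⟩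
          · exact ⟨h1, by omega⟩
      rw [h6, Set.ncard_insert_of_notMem (by simp) ((Set.finite_Iio n).subset Set.inter_subset_right),
        pow_succ]
    · have h1 : fixLt wt ψ J (n + 1) = fixLt wt ψ J n := by
        ext f
        constructor
        · rintro ⟨hfJ, hff, hfn⟩
          refine ⟨hfJ, hff, ?_⟩
          rcases eq_or_ne f 0 with rfl | hf0
          · rw [hw.wt_zero]; exact WithBot.bot_lt_coe _
          obtain ⟨m, hm⟩ := hw.exists_nat hf0
          rw [hm] at hfn ⊢
          have h2 : m < n + 1 := by exact_mod_cast hfn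
          have h3 : m ≠ n := by
            rintro rfl
            exact hn ⟨f, hfJ, hm⟩
          exact_mod_cast (by omega : m < n)
        · rintro ⟨hfJ, hff, hfn⟩
          exact ⟨hfJ, hff, hfn.trans (by exact_mod_cast Nat.lt_succ_self n)⟩
      have h2 : wts wt (J : Set B) ∩ Set.Iio (n + 1) = wts wt (J : Set B) ∩ Set.Iio n := by
        ext m
        simp only [Set.mem_inter_iff, Set.mem_Iio]
        constructor
        · rintro ⟨h3, h2⟩
          refine ⟨h3, ?_⟩
          rcases Nat.lt_succ_iff_lt_or_eq.mp h2 with h | h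
          · exact h
          · subst h; exact absurd h3 hn
        · rintro ⟨h1, h2⟩
          exact ⟨h1, by omega⟩
      rw [h1, h2]; exact ih

end Frob

end Fermat.Agent.H63
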