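import Fermat.Agent.H63S27W4a
import Fermat.Prelude.Def_ClassGroup_GaloisAction
set_option autoImplicit false

namespace Fermat.Agent.H63

open Fermat.Agent.H95 Module Polynomial
open scoped nonZeroDivisors

section Monic
variable {K : Type*} {B : Type*} [Field K] [CommRing B] [Algebra K B] {wt : B → WithBot ℕ}
variable {q : ℕ} {ψ : B ≃+* B}

theorem exists_eq_algebraMap_of_isUnit (hw : IsWeight K wt) {u : B} (hu : IsUnit u) :
    ∃ c : K, c ≠ 0 ∧ u = algebraMap K B c := by
  have hdom := hw.isDomain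
  obtain ⟨v, hv⟩ := hu.exists_right_inv
  have hu0 : u ≠ 0 := hu.ne_zero
  have hv0 : v ≠ 0 := by
    rintro rfl
    rw [mul_zero] at hv
    exact zero_ne_one hv
  obtain ⟨m, hm⟩ := hw.exists_nat hu0
  obtain ⟨n, hn⟩ := hw.exists_nat hv0
  have h1 := hw.mul u v
  rw [hv, hw.wt_one, hm, hn] at h1
  have h2 : (0 : ℕ) = m + n := by exact_mod_cast h1
  have hm0 : m = 0 := by omega
  subst hm0
  obtain ⟨c, hc⟩ := hw.exists_sub_lt u 1 hu0 (by rw [hm, hw.wt_one]; rfl)
  have h3 : u - c • 1 = 0 := by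
    by_contra hne
    obtain ⟨k, hk⟩ := hw.exists_nat hne
    rw [hk, hm] at hc
    have : k < 0 := by exact_mod_cast hc
    omega
  have h4 : u = algebraMap K B c := by
    rw [sub_eq_zero.mp h3, Algebra.smul_def, mul_one]
  refine ⟨c, ?_, h4⟩
  rintro rfl
  rw [map_zero] at h4
  exact hu0 h4

theorem exists_eq_smul_of_span_eq (hw : IsWeight K wt) {f g : B}
    (h : Ideal.span {f} = Ideal.span {g}) : ∃ c : K, c ≠ 0 ∧ f = c • g := by
  have hdom := hw.isDomain
  rw [Ideal.span_singleton_eq_span_singleton] at h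
  obtain ⟨u, hu⟩ := h.symm
  obtain ⟨c, hc0, hc⟩ := exists_eq_algebraMap_of_isUnit hw u.isUnit
  refine ⟨c, hc0, ?_⟩
  rw [← hu, hc, Algebra.smul_def, mul_comm]

theorem span_smul {c : K} (hc : c ≠ 0) (f : B) :
    Ideal.span {c • f} = Ideal.span {f} := by
  rw [Algebra.smul_def]
  exact Ideal.span_singleton_mul_left_unit ((IsUnit.mk0 c hc).map _) f

/-- Fixed elements of `J` of weight `N` which are monic relative to `e`. -/
def monicFix (wt : B → WithBot ℕ) (ψ : B ≃+* B) (J : Ideal B) (e : B) (N : ℕ) : Set B :=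
  {f | f ∈ J ∧ ψ f = f ∧ wt (f - e) < (N : WithBot ℕ)}

theorem wt_of_monic (hw : IsWeight K wt) {e f : B} {N : ℕ} (he : wt e = (N : WithBot ℕ))
    (hf : wt (f - e) < (N : WithBot ℕ)) : wt f = (N : WithBot ℕ) := by
  have h1 : f = e + (f - e) := by ring
  rw [h1, hw.wt_add_eq_of_lt, he]
  rw [he]; exact hf

theorem pow_eq_of_fixed (hw : IsWeight K wt) (hψ : IsFrob K q wt ψ) {e f : B} {N : ℕ}
    (he : wt e = (N : WithBot ℕ)) (hee : ψ e = e) (hff : ψ f = f) {c : K}
    (hc : wt (f - c • e) < (N : WithBot ℕ)) : c ^ q = c := by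
  by_contra hne
  have h3 : wt (ψ (f - c • e)) < (N : WithBot ℕ) := by
    rw [frob_wt hw hψ]; exact hc
  rw [map_sub, hff, hψ.map_smul, hee] at h3
  have h4 : (c ^ q - c) • e = (f - c • e) - (f - c ^ q • e) := by
    rw [sub_smul]; ring
  have h5 : wt ((c ^ q - c) • e) < (N : WithBot ℕ) := by
    rw [h4]
    exact (hw.sub_le _ _).trans_lt (max_lt hc h3)
  rw [hw.wt_smul (sub_ne_zero.mpr hne), he] at h5
  exact lt_irrefl _ h5

variable [IsAlgClosed K]

theorem card_monicFix (hw : IsWeight K wt) (hψ : IsFrob K q wt ψ) (hq : 1 < q)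
    (hK : {c : K | c ^ q = c}.Finite ∧ {c : K | c ^ q = c}.ncard = q) {J : Ideal B}
    (hJ : ∀ f ∈ J, ψ f ∈ J) {e : B} {N : ℕ} (he : wt e = (N : WithBot ℕ)) (hee : ψ e = e)
    (hN : N ∈ wts wt (J : Set B)) :
    (monicFix wt ψ J e N).Finite ∧
      (monicFix wt ψ J e N).ncard = q ^ (wts wt (J : Set B) ∩ Set.Iio N).ncard := by
  obtain ⟨f, hfJ, hff, hfN⟩ := exists_fixed_mem hw hψ hq hJ N hN
  have hf0 := hw.ne_zero_of_wt hfN
  obtain ⟨c, hc⟩ := hw.exists_sub_lt f e hf0 (hfN.trans he.symm)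
  rw [hfN] at hc
  have hcq := pow_eq_of_fixed hw hψ he hee hff hc
  have hc0 : c ≠ 0 := by
    rintro rfl
    rw [zero_smul, sub_zero, hfN] at hc
    exact lt_irrefl _ hc
  set f₀ := c⁻¹ • f with hf₀
  have hf₀J : f₀ ∈ J := by
    rw [hf₀, Algebra.smul_def]; exact J.mul_mem_left _ hfJ
  have hf₀f : ψ f₀ = f₀ := by
    rw [hf₀, hψ.map_smul, hff, inv_pow, hcq]
  have hf₀e : wt (f₀ - e) < (N : WithBot ℕ) := by
    have h1 : f₀ - e = c⁻¹ • (f - c • e) := by
      rw [smul_sub, smul_smul, inv_mul_cancel₀ hc0, one_smul]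
    rw [h1, hw.wt_smul (inv_ne_zero hc0)]
    exact hc
  have himg : monicFix wt ψ J e N = (fun g => f₀ + g) '' fixLt wt ψ J N := by
    ext g
    constructor
    · rintro ⟨h1, h2, h3⟩
      refine ⟨g - f₀, ⟨J.sub_mem h1 hf₀J, by rw [map_sub, h2, hf₀f], ?_⟩, by ring⟩
      have : g - f₀ = (g - e) - (f₀ - e) := by ring
      rw [this]
      exact (hw.sub_le _ _).trans_lt (max_lt h3 hf₀e)
    · rintro ⟨g', ⟨h1, h2, h3⟩, rfl⟩
      refine ⟨J.add_mem hf₀J h1, by rw [map_add, h2, hf₀f], ?_⟩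
      have : f₀ + g' - e = (f₀ - e) + g' := by ring
      rw [this]
      exact (hw.add_le _ _).trans_lt (max_lt hf₀e h3)
  have hcard := card_fixLt hw hψ hq hK hJ N
  rw [himg]
  refine ⟨hcard.1.image _, ?_⟩
  rw [Set.ncard_image_of_injective _ (add_right_injective f₀), hcard.2]

variable [IsDedekindDomain B]

omit [IsDedekindDomain B] in
theorem map_mem_of_map_eq {J : Ideal B} (h : J.map (ψ : B →+* B) = J) : ∀ f ∈ J, ψ f ∈ J := by
  intro f hf
  have := Ideal.mem_map_of_mem (ψ : B →+* B) hf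
  rwa [h] at this

omit [IsAlgClosed K] [IsDedekindDomain B] in
theorem wts_map (hw : IsWeight K wt) (hψ : IsFrob K q wt ψ) (J : Ideal B) :
    wts wt ((J.map (ψ : B →+* B) : Ideal B) : Set B) = wts wt (J : Set B) := by
  ext n
  constructor
  · rintro ⟨f, hf, hfn⟩
    obtain ⟨g, hg, rfl⟩ := (Ideal.mem_map_iff_of_surjective (ψ : B →+* B) ψ.surjective).mp hf
    refine ⟨g, hg, ?_⟩
    rw [← frob_wt hw hψ]; exact hfn
  · rintro ⟨f, hf, hfn⟩
    refine ⟨ψ f, Ideal.mem_map_of_mem (ψ : B →+* B) hf, ?_⟩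
    rw [frob_wt hw hψ]; exact hfn

omit [IsAlgClosed K] [IsDedekindDomain B] in
theorem cdeg_map (hw : IsWeight K wt) (hψ : IsFrob K q wt ψ) {J : Ideal B} (hJ : J ≠ ⊥) :
    cdeg K (J.map (ψ : B →+* B)) = cdeg K J := by
  have hJ' : J.map (ψ : B →+* B) ≠ ⊥ := by
    intro h
    exact hJ ((Ideal.map_eq_bot_iff_of_injective (f := (ψ : B →+* B)) ψ.injective).mp h)
  have h1 := hw.ncard_compl_wts hJ
  have h2 := hw.ncard_compl_wts hJ'
  rw [wts_map hw hψ] at h2
  omega

omit [IsAlgClosed K] [IsDedekindDomain B] in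
theorem nset_map (hw : IsWeight K wt) (hψ : IsFrob K q wt ψ) {J : Ideal B} (hJ : J ≠ ⊥) :
    nset K wt (J.map (ψ : B →+* B)) = nset K wt J := by
  unfold nset
  rw [wts_map hw hψ, cdeg_map hw hψ hJ]

/-- The stable ideals of class `κ` and colength `n`. -/
def stableIdeals (K : Type*) {B : Type*} [Field K] [CommRing B] [Algebra K B] [IsDedekindDomain B]
    (ψ : B ≃+* B) (κ : ClassGroup B) (n : ℕ) : Set (Ideal B)⁰ :=
  {I | (I : Ideal B).map (ψ : B →+* B) = I ∧ ClassGroup.mk0 I = κ ∧ cdeg K (I : Ideal B) = n}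

theorem card_stableIdeals (hw : IsWeight K wt) (hψ : IsFrob K q wt ψ) (hq : 1 < q)
    (hK : {c : K | c ^ q = c}.Finite ∧ {c : K | c ^ q = c}.ncard = q) (κ : ClassGroup B)
    (J : (Ideal B)⁰) (hJ : (J : Ideal B).map (ψ : B →+* B) = J) (hJκ : ClassGroup.mk0 J = κ⁻¹)
    (n : ℕ) :
    (stableIdeals K ψ κ n).Finite ∧ (stableIdeals K ψ κ n).ncard =
      (open Classical in if n ∈ nset K wt (J : Ideal B) then
        q ^ (nset K wt (J : Ideal B) ∩ Set.Iio n).ncard else 0) := by
  classical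
  have hJ0 : (J : Ideal B) ≠ ⊥ := nonZeroDivisors.coe_ne_zero J
  have hJs := map_mem_of_map_eq (ψ := ψ) hJ
  set N := n + cdeg K (J : Ideal B) with hN
  -- from a stable ideal to a monic element
  have key : ∀ I ∈ stableIdeals K ψ κ n, ∀ e : B, wt e = (N : WithBot ℕ) → ψ e = e →
      ∃ f ∈ monicFix wt ψ (J : Ideal B) e N, Ideal.span {f} = (I : Ideal B) * (J : Ideal B) := by
    rintro I ⟨hIs, hIκ, hIn⟩ e he hee
    have hI0 : (I : Ideal B) ≠ ⊥ := nonZeroDivisors.coe_ne_zero I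
    have h1 : ClassGroup.mk0 (I * J) = 1 := by rw [map_mul, hIκ, hJκ, mul_inv_cancel]
    rw [ClassGroup.mk0_eq_one_iff] at h1
    obtain ⟨f₁, hf₁⟩ := h1
    have hf₁' : (I : Ideal B) * (J : Ideal B) = Ideal.span {f₁} := hf₁
    have hf₁0 : f₁ ≠ 0 := by
      rintro rfl
      rw [Set.singleton_zero, Ideal.span_zero, Ideal.mul_eq_bot] at hf₁'
      tauto
    have hf₁N : wt f₁ = (N : WithBot ℕ) := by
      obtain ⟨w, hw'⟩ := hw.exists_nat hf₁0
      have h2 := cdeg_mul hw hI0 hJ0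
      rw [hf₁', hw.cdeg_span' hw', hIn] at h2
      rw [hw', h2]
    obtain ⟨c, hc⟩ := hw.exists_sub_lt f₁ e hf₁0 (hf₁N.trans he.symm)
    rw [hf₁N] at hc
    have hc0 : c ≠ 0 := by
      rintro rfl
      rw [zero_smul, sub_zero, hf₁N] at hc
      exact lt_irrefl _ hc
    have hspan : Ideal.span {c⁻¹ • f₁} = (I : Ideal B) * (J : Ideal B) := by
      rw [span_smul (inv_ne_zero hc0), hf₁']
    have hfe : wt (c⁻¹ • f₁ - e) < (N : WithBot ℕ) := by
      have h1 : c⁻¹ • f₁ - e = c⁻¹ • (f₁ - c • e) := by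
        rw [smul_sub, smul_smul, inv_mul_cancel₀ hc0, one_smul]
      rw [h1, hw.wt_smul (inv_ne_zero hc0)]
      exact hc
    set f := c⁻¹ • f₁ with hf
    refine ⟨f, ⟨?_, ?_, hfe⟩, hspan⟩
    · have : f ∈ (I : Ideal B) * (J : Ideal B) := by
        rw [← hspan]; exact Ideal.mem_span_singleton_self f
      exact Ideal.mul_le_right this
    · have h2 : Ideal.span {ψ f} = Ideal.span {f} := by
        have h3 := congrArg (Ideal.map (ψ : B →+* B)) hspan
        rw [Ideal.map_mul, hIs, hJ, ← hspan, Ideal.map_span, Set.image_singleton] at h3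
        exact h3
      obtain ⟨d, -, hd⟩ := exists_eq_smul_of_span_eq hw h2
      have h4 : wt (ψ f - e) < (N : WithBot ℕ) := by
        have : ψ f - e = ψ (f - e) := by rw [map_sub, hee]
        rw [this, frob_wt hw hψ]
        exact hfe
      have h5 : (d - 1) • f = (ψ f - e) - (f - e) := by
        rw [hd, sub_smul, one_smul]; ring
      have h6 : d = 1 := by
        by_contra hne
        have h7 : wt ((d - 1) • f) < (N : WithBot ℕ) := by
          rw [h5]
          exact (hw.sub_le _ _).trans_lt (max_lt h4 hfe)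
        rw [hw.wt_smul (sub_ne_zero.mpr hne), wt_of_monic hw he hfe] at h7
        exact lt_irrefl _ h7
      rw [hd, h6, one_smul]
  by_cases hn : n ∈ nset K wt (J : Ideal B)
  · have hNJ : N ∈ wts wt ((J : Ideal B) : Set B) := hn
    obtain ⟨e, he, hee⟩ := hψ.exists_fixed N (IsWeight.wts_mono (fun _ _ => trivial) hNJ)
    obtain ⟨hMfin, hMcard⟩ := card_monicFix hw hψ hq hK hJs he hee hNJ
    have himg : (fun I : (Ideal B)⁰ => (I : Ideal B) * (J : Ideal B)) '' stableIdeals K ψ κ n =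
        (fun f => Ideal.span {f}) '' monicFix wt ψ (J : Ideal B) e N := by
      ext A
      constructor
      · rintro ⟨I, hI, rfl⟩
        obtain ⟨f, hf, hfs⟩ := key I hI e he hee
        exact ⟨f, hf, hfs⟩
      · rintro ⟨f, ⟨hfJ, hff, hfe⟩, rfl⟩
        have hfN := wt_of_monic hw he hfe
        have hf0 := hw.ne_zero_of_wt hfN
        obtain ⟨I, hI⟩ := Ideal.dvd_iff_le.mpr ((Ideal.span_singleton_le_iff_mem _).mpr hfJ)
        have hI0 : I ≠ ⊥ := by
          rintro rfl
          rw [Ideal.mul_bot, Ideal.span_singleton_eq_bot] at hI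
          exact hf0 hI
        refine ⟨⟨I, mem_nonZeroDivisors_iff_ne_zero.mpr hI0⟩, ⟨?_, ?_, ?_⟩, ?_⟩
        · change I.map (ψ : B →+* B) = I
          have h3 := congrArg (Ideal.map (ψ : B →+* B)) hI
          rw [Ideal.map_mul, hJ, Ideal.map_span, Set.image_singleton] at h3
          have h4 : (ψ : B →+* B) f = f := hff
          rw [h4, hI] at h3
          exact (mul_left_cancel₀ hJ0 h3).symm
        · have h1 : ClassGroup.mk0 (J * ⟨I, mem_nonZeroDivisors_iff_ne_zero.mpr hI0⟩) = 1 := by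
            rw [ClassGroup.mk0_eq_one_iff]
            exact ⟨f, hI.symm⟩
          rw [map_mul, hJκ] at h1
          exact (inv_mul_eq_one.mp h1).symm
        · change cdeg K I = n
          have h2 := cdeg_mul hw hJ0 hI0
          rw [← hI, hw.cdeg_span' hfN] at h2
          omega
        · change I * (J : Ideal B) = Ideal.span {f}
          rw [hI, mul_comm]
    have hinj1 : Set.InjOn (fun I : (Ideal B)⁰ => (I : Ideal B) * (J : Ideal B))
        (stableIdeals K ψ κ n) := by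
      intro I _ I' _ h
      exact Subtype.ext (mul_right_cancel₀ hJ0 h)
    have hinj2 : Set.InjOn (fun f => Ideal.span {f}) (monicFix wt ψ (J : Ideal B) e N) := by
      rintro f ⟨-, -, hf⟩ g ⟨-, -, hg⟩ h
      obtain ⟨c, hc0, hc⟩ := exists_eq_smul_of_span_eq hw h
      have h5 : (c - 1) • g = (f - e) - (g - e) := by
        rw [hc, sub_smul, one_smul]; ring
      have h6 : c = 1 := by
        by_contra hne
        have h7 : wt ((c - 1) • g) < (N : WithBot ℕ) := by
          rw [h5]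
          exact (hw.sub_le _ _).trans_lt (max_lt hf hg)
        rw [hw.wt_smul (sub_ne_zero.mpr hne), wt_of_monic hw he hg] at h7
        exact lt_irrefl _ h7
      rw [hc, h6, one_smul]
    refine ⟨?_, ?_⟩
    · refine Set.Finite.of_finite_image ?_ hinj1
      rw [himg]
      exact hMfin.image _
    · rw [if_pos hn, ← hinj1.ncard_image, himg, hinj2.ncard_image, hMcard]
      congr 1
      rw [hw.wts_eq_image_nset]
      have h8 : (fun m => m + cdeg K (J : Ideal B)) '' nset K wt (J : Ideal B) ∩ Set.Iio N =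
          (fun m => m + cdeg K (J : Ideal B)) '' (nset K wt (J : Ideal B) ∩ Set.Iio n) := by
        ext m
        constructor
        · rintro ⟨⟨k, hk, rfl⟩, hlt⟩
          have : k + cdeg K (J : Ideal B) < N := hlt
          exact ⟨k, ⟨hk, by change k < n; omega⟩, rfl⟩
        · rintro ⟨k, ⟨hk, hlt⟩, rfl⟩
          have : k < n := hlt
          exact ⟨⟨k, hk, rfl⟩, by change k + cdeg K (J : Ideal B) < N; omega⟩
      rw [h8, Set.ncard_image_of_injective _ (add_left_injective _)]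
  · have hempty : stableIdeals K ψ κ n = ∅ := by
      rw [Set.eq_empty_iff_forall_notMem]
      intro I hI
      -- `N` is a weight of `B`
      have hI0 : (I : Ideal B) ≠ ⊥ := nonZeroDivisors.coe_ne_zero I
      have h1 : ClassGroup.mk0 (I * J) = 1 := by rw [map_mul, hI.2.1, hJκ, mul_inv_cancel]
      rw [ClassGroup.mk0_eq_one_iff] at h1
      obtain ⟨f₁, hf₁⟩ := h1
      have hf₁' : (I : Ideal B) * (J : Ideal B) = Ideal.span {f₁} := hf₁
      have hf₁0 : f₁ ≠ 0 := by
        rintro rfl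
        rw [Set.singleton_zero, Ideal.span_zero, Ideal.mul_eq_bot] at hf₁'
        tauto
      obtain ⟨w, hw'⟩ := hw.exists_nat hf₁0
      have h2 := cdeg_mul hw hI0 hJ0
      rw [hf₁', hw.cdeg_span' hw', hI.2.2] at h2
      apply hn
      refine ⟨f₁, ?_, by rw [hw', h2]⟩
      have : f₁ ∈ (I : Ideal B) * (J : Ideal B) := by
        rw [hf₁']; exact Ideal.mem_span_singleton_self f₁
      exact Ideal.mul_le_right this
    rw [hempty, if_neg hn, Set.ncard_empty]
    exact ⟨Set.finite_empty, rfl⟩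

end Monic

end Fermat.Agent.H63
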