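import Fermat.Agent.H63S27W4b
set_option autoImplicit false

namespace Fermat.Agent.H63

open Fermat.Agent.H95 Module Polynomial IsDedekindDomain
open scoped nonZeroDivisors

section Divisors
variable {B : Type*} [CommRing B] [IsDedekindDomain B]

/-- the nonzero ideal attached to a point -/
def pt (v : HeightOneSpectrum B) : (Ideal B)⁰ :=
  ⟨v.asIdeal, mem_nonZeroDivisors_iff_ne_zero.mpr v.ne_bot⟩

/-- the nonzero ideal attached to an effective divisor -/
noncomputable def idl (D : HeightOneSpectrum B →₀ ℕ) : (Ideal B)⁰ :=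
  D.prod fun v k => pt v ^ k

theorem coe_idl (D : HeightOneSpectrum B →₀ ℕ) :
    (idl D : Ideal B) = ((Finsupp.toMultiset D).map fun v => v.asIdeal).prod := by
  rw [Finsupp.toMultiset_map, Finsupp.prod_toMultiset,
    Finsupp.prod_mapDomain_index (by simp) (by intros; rw [pow_add])]
  have := map_finsuppProd (Submonoid.subtype (Ideal B)⁰) D (fun v k => pt v ^ k)
  exact this.trans (Finsupp.prod_congr (fun v _ => by rfl))

theorem normalizedFactors_idl (D : HeightOneSpectrum B →₀ ℕ) :
    UniqueFactorizationMonoid.normalizedFactors (idl D : Ideal B) =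
      (Finsupp.toMultiset D).map fun v => v.asIdeal := by
  rw [coe_idl]
  apply UniqueFactorizationMonoid.normalizedFactors_prod_of_prime
  intro P hP
  obtain ⟨v, -, rfl⟩ := Multiset.mem_map.mp hP
  exact v.prime

theorem idl_injective : Function.Injective (idl (B := B)) := by
  intro D D' h
  have h1 := normalizedFactors_idl D
  rw [h, normalizedFactors_idl D'] at h1
  have hinj : Function.Injective (fun v : HeightOneSpectrum B => v.asIdeal) := by
    intro v w hvw
    exact HeightOneSpectrum.ext hvw
  have h2 := (Multiset.map_injective hinj) h1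
  classical
  have h3 := congrArg Multiset.toFinsupp h2
  rw [Finsupp.toMultiset_toFinsupp, Finsupp.toMultiset_toFinsupp] at h3
  exact h3.symm

theorem idl_surjective : Function.Surjective (idl (B := B)) := by
  classical
  intro I
  have hI0 : (I : Ideal B) ≠ 0 := nonZeroDivisors.coe_ne_zero I
  set m := UniqueFactorizationMonoid.normalizedFactors (I : Ideal B) with hm
  have hprime : ∀ P ∈ m, Prime P := fun P hP => UniqueFactorizationMonoid.prime_of_normalized_factor P hP
  let f : {P // P ∈ m} → HeightOneSpectrum B := fun P =>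
    ⟨P.1, Ideal.isPrime_of_prime (hprime P.1 P.2), (hprime P.1 P.2).ne_zero⟩
  refine ⟨Multiset.toFinsupp (m.attach.map f), ?_⟩
  apply Subtype.ext
  rw [coe_idl]
  have h1 : Finsupp.toMultiset (Multiset.toFinsupp (m.attach.map f)) = m.attach.map f :=
    Multiset.toFinsupp_toMultiset _
  rw [h1, Multiset.map_map]
  have h2 : m.attach.map ((fun v : HeightOneSpectrum B => v.asIdeal) ∘ f) = m := by
    have : ((fun v : HeightOneSpectrum B => v.asIdeal) ∘ f) = Subtype.val := by
      ext1 P; rfl
    rw [this, Multiset.attach_map_val]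
  rw [h2]
  exact associated_iff_eq.mp (UniqueFactorizationMonoid.prod_normalizedFactors hI0)

theorem mk0_idl (D : HeightOneSpectrum B →₀ ℕ) :
    ClassGroup.mk0 (idl D) = D.prod fun v k => ClassGroup.mk0 (pt v) ^ k := by
  rw [idl, map_finsuppProd]
  simp

/-- The permutation of the points attached to a ring automorphism. -/
def ptMap (ψ : B ≃+* B) (v : HeightOneSpectrum B) : HeightOneSpectrum B where
  asIdeal := v.asIdeal.map (ψ : B →+* B)
  isPrime := Ideal.map_isPrime_of_equiv ψ
  ne_bot := fun h => v.ne_bot ((Ideal.map_eq_bot_iff_of_injective (f := (ψ : B →+* B)) ψ.injective).mp h)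

omit [IsDedekindDomain B] in
theorem ptMap_ptMap (ψ χ : B ≃+* B) (v : HeightOneSpectrum B) :
    ptMap ψ (ptMap χ v) = ptMap (χ.trans ψ) v := by
  apply HeightOneSpectrum.ext
  change (v.asIdeal.map (χ : B →+* B)).map (ψ : B →+* B) = _
  rw [Ideal.map_map]; rfl

omit [IsDedekindDomain B] in
theorem ptMap_refl (v : HeightOneSpectrum B) : ptMap (RingEquiv.refl B) v = v := by
  apply HeightOneSpectrum.ext
  change v.asIdeal.map (RingHom.id B) = _
  exact Ideal.map_id _

/-- The action of ring automorphisms on the points. -/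
def ptPerm : RingAut B →* Equiv.Perm (HeightOneSpectrum B) where
  toFun ψ :=
    { toFun := ptMap ψ
      invFun := ptMap ψ.symm
      left_inv := fun v => by
        rw [ptMap_ptMap, RingEquiv.self_trans_symm, ptMap_refl]
      right_inv := fun v => by
        rw [ptMap_ptMap, RingEquiv.symm_trans_self, ptMap_refl] }
  map_one' := by
    ext1 v
    exact ptMap_refl v
  map_mul' ψ χ := by
    ext1 v
    change ptMap (ψ * χ) v = ptMap ψ (ptMap χ v)
    rw [ptMap_ptMap]; rfl

/-- The action of ring automorphisms on the class group. -/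
noncomputable def clAut : RingAut B →* MulAut (ClassGroup B) where
  toFun ψ := ClassGroup.mulEquiv ψ
  map_one' := by
    ext1 κ
    exact ClassGroup.mulEquiv_refl_apply κ
  map_mul' ψ χ := by
    ext1 κ
    exact ClassGroup.mulEquiv_trans_apply χ ψ κ

theorem clAut_mk0 (ψ : B ≃+* B) (I : (Ideal B)⁰) :
    clAut ψ (ClassGroup.mk0 I) = ClassGroup.mk0 (Ideal.mapNonZero ψ I) :=
  ClassGroup.mulEquiv_mk0 ψ I

theorem mapNonZero_pt (ψ : B ≃+* B) (v : HeightOneSpectrum B) :
    Ideal.mapNonZero ψ (pt v) = pt (ptMap ψ v) := rfl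

theorem map_idl (ψ : B ≃+* B) (D : HeightOneSpectrum B →₀ ℕ) :
    (idl D : Ideal B).map (ψ : B →+* B) = (idl (D.mapDomain (ptMap ψ)) : Ideal B) := by
  have h1 : (idl D : Ideal B) = D.prod fun v k => v.asIdeal ^ k :=
    (map_finsuppProd (Submonoid.subtype (Ideal B)⁰) D (fun v k => pt v ^ k)).trans
      (Finsupp.prod_congr (fun v _ => by rfl))
  have h2 : (idl (D.mapDomain (ptMap ψ)) : Ideal B) =
      (D.mapDomain (ptMap ψ)).prod fun v k => v.asIdeal ^ k :=
    (map_finsuppProd (Submonoid.subtype (Ideal B)⁰) _ (fun v k => pt v ^ k)).trans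
      (Finsupp.prod_congr (fun v _ => by rfl))
  rw [h1, h2, Finsupp.prod_mapDomain_index (by simp) (by intros; rw [pow_add])]
  have h3 := map_finsuppProd (Ideal.mapHom (ψ : B →+* B)) D (fun v k => v.asIdeal ^ k)
  refine h3.trans (Finsupp.prod_congr (fun v _ => ?_))
  rw [map_pow]; rfl

theorem idl_stable_iff (ψ : B ≃+* B) (D : HeightOneSpectrum B →₀ ℕ) :
    (idl D : Ideal B).map (ψ : B →+* B) = idl D ↔ ∀ v, D (ptMap ψ v) = D v := by
  rw [map_idl]
  have hinj : Function.Injective (ptMap ψ) := (ptPerm (ψ : RingAut B)).injective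
  have hsurj : Function.Surjective (ptMap ψ) := (ptPerm (ψ : RingAut B)).surjective
  constructor
  · intro h v
    have h1 := idl_injective (Subtype.ext h)
    conv_lhs => rw [← h1]
    exact Finsupp.mapDomain_apply hinj D v
  · intro h
    congr 2
    ext v
    obtain ⟨w, rfl⟩ := hsurj v
    rw [Finsupp.mapDomain_apply hinj, h]

end Divisors

end Fermat.Agent.H63
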