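import Fermat.Agent.H64FTors
import Fermat.Agent.H64FRoot

/-!
# S56-[B4] : connected points
-/

set_option autoImplicit false

noncomputable section

namespace Fermat.Agent.H64

variable {p : ℕ} [Fact p.Prime]

section MatrixLemma

variable {m : Type*} [Fintype m] [DecidableEq m]

theorem nm_mul_entry_le {A B : Matrix m m FQb} {c d : ℝ} (hc : 0 ≤ c) (hd : 0 ≤ d)
    (hA : ∀ i j, nm p (A i j) ≤ c) (hB : ∀ i j, nm p (B i j) ≤ d) (i j : m) :
    nm p ((A * B) i j) ≤ c * d := by
  rw [Matrix.mul_apply]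
  refine nm_sum_le _ _ (mul_nonneg hc hd) fun l _ => ?_
  rw [nm_mul]
  exact mul_le_mul (hA i l) (hB l j) (nm_nonneg _) hc

theorem nm_pow_entry_le {A : Matrix m m FQb} {c : ℝ} (hc : 0 ≤ c)
    (hA : ∀ i j, nm p (A i j) ≤ c) (k : ℕ) (i j : m) :
    nm p ((A ^ (k + 1)) i j) ≤ c ^ (k + 1) := by
  induction k generalizing i j with
  | zero => simpa using hA i j
  | succ k ih =>
    rw [pow_succ (a := A), pow_succ (a := c) (n := k + 1)]
    exact nm_mul_entry_le (pow_nonneg hc _) hc ih hA i j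

theorem nm_pow_entry_le_one {A : Matrix m m FQb} (hA : ∀ i j, nm p (A i j) ≤ 1) (k : ℕ) (i j : m) :
    nm p ((A ^ k) i j) ≤ 1 := by
  cases k with
  | zero =>
    rw [pow_zero, Matrix.one_apply]
    split_ifs <;> simp
  | succ k => simpa using nm_pow_entry_le zero_le_one hA k i j

theorem nm_aeval_entry_le_one {A : Matrix m m FQb} (hA : ∀ i j, nm p (A i j) ≤ 1)
    (P : Polynomial ℤ) (i j : m) : nm p ((Polynomial.aeval A P) i j) ≤ 1 := by
  rw [Polynomial.aeval_eq_sum_range, Matrix.sum_apply]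
  refine nm_sum_le _ _ zero_le_one fun k _ => ?_
  rw [Matrix.smul_apply, zsmul_eq_mul]
  exact nm_mul_le_one (nm_intCast_le_one _) (nm_pow_entry_le_one hA k i j)

/-- matrices of order `p` near the identity -/
theorem matrix_near_one {N : Matrix m m FQb} (hN : ∀ i j, nm p (N i j) < 1)
    (h1 : (1 + N) ^ p = 1) (hN0 : N ≠ 0) :
    ∃ i j, (∀ i' j', nm p (N i' j') ≤ nm p (N i j)) ∧
      nm p (p : FQb) ≤ nm p (N i j) ^ (p - 1) := by
  have hp := (Fact.out : p.Prime)
  obtain ⟨i₁, j₁, hij⟩ : ∃ i j, N i j ≠ 0 := by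
    by_contra hcon
    push Not at hcon
    exact hN0 (Matrix.ext hcon)
  obtain ⟨⟨i, j⟩, -, hmax⟩ := Finset.exists_max_image (Finset.univ : Finset (m × m))
    (fun x => nm p (N x.1 x.2)) ⟨(i₁, j₁), Finset.mem_univ _⟩
  have hmax' : ∀ i' j', nm p (N i' j') ≤ nm p (N i j) := fun i' j' =>
    hmax (i', j') (Finset.mem_univ _)
  refine ⟨i, j, hmax', ?_⟩
  set μ := nm p (N i j) with hμ
  have hμpos : 0 < μ := (nm_pos.mpr hij).trans_le (hmax' i₁ j₁)
  have hμlt : μ < 1 := hN i j
  obtain ⟨S, hS⟩ := exists_one_add_X_pow p hp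
  have h2 := congrArg (Polynomial.aeval N) hS
  simp only [map_add, map_mul, map_pow, map_one, Polynomial.aeval_X, map_natCast] at h2
  rw [h1] at h2
  have h3 : (p : Matrix m m FQb) * N = -(N ^ p) - (p : Matrix m m FQb) * (N ^ 2 *
      Polynomial.aeval N S) := by
    have h4 : N ^ p + (p : Matrix m m FQb) * N + (p : Matrix m m FQb) * N ^ 2 *
      Polynomial.aeval N S = 0 := by
      have h5 : (1 : Matrix m m FQb) = 1 + (N ^ p + (p : Matrix m m FQb) * N +
        (p : Matrix m m FQb) * N ^ 2 * Polynomial.aeval N S) := by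
        conv_lhs => rw [h2]
        abel
      exact left_eq_add.mp h5
    rw [← mul_assoc]
    have h6 := eq_neg_of_add_eq_zero_left h4
    rw [eq_sub_iff_add_eq, eq_neg_iff_add_eq_zero, ← h4]
    abel
  have hcast : ∀ (B : Matrix m m FQb) i j, ((p : Matrix m m FQb) * B) i j = (p : FQb) * B i j := by
    intro B i j
    rw [← nsmul_eq_mul, Matrix.smul_apply, nsmul_eq_mul]
  have h4 : (p : FQb) * N i j = -((N ^ p) i j) - (p : FQb) * (N ^ 2 * Polynomial.aeval N S) i j := by
    have h5 := congrFun (congrFun h3 i) j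
    rw [hcast, Matrix.sub_apply, Matrix.neg_apply, hcast] at h5
    exact h5
  have hA : nm p ((N ^ p) i j) ≤ μ ^ p := by
    obtain ⟨k, hk⟩ : ∃ k, p = k + 1 := ⟨p - 1, by have := hp.pos; omega⟩
    have := nm_pow_entry_le (p := p) hμpos.le hmax' k i j
    rwa [← hk] at this
  have hB : nm p ((p : FQb) * (N ^ 2 * Polynomial.aeval N S) i j) < nm p (p : FQb) * μ := by
    rw [nm_mul]
    apply mul_lt_mul_of_pos_left _ (nm_p_pos p)
    have h5 : nm p ((N ^ 2 * Polynomial.aeval N S) i j) ≤ μ ^ 2 * 1 :=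
      nm_mul_entry_le (by positivity) zero_le_one
        (fun i j => nm_pow_entry_le hμpos.le hmax' 1 i j)
        (fun i j => nm_aeval_entry_le_one (fun i j => (hN i j).le) S i j) i j
    refine h5.trans_lt ?_
    rw [mul_one, sq]
    exact mul_lt_of_lt_one_left hμpos hμlt
  have h5 : nm p (p : FQb) * μ ≤ μ ^ p := by
    by_contra hcon
    rw [not_le] at hcon
    have h6 : nm p ((p : FQb) * N i j) < nm p (p : FQb) * μ := by
      rw [h4]
      exact nm_sub_lt_of (by rw [nm_neg]; exact hA.trans_lt hcon) hB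
    rw [nm_mul] at h6
    exact lt_irrefl _ h6
  have h6 : μ ^ p = μ ^ (p - 1) * μ := by rw [← pow_succ, Nat.sub_add_cancel hp.one_lt.le]
  rw [h6] at h5
  exact le_of_mul_le_mul_right h5 hμpos

end MatrixLemma

variable {W : Type*} [AddCommGroup W] {act : FGQ → W → W} {n : ℕ}
  {e : Fin n → W → FQb} {a : Fin n → Fin n → Fin n → ℚ}

variable (p) in
/-- points reducing to the origin -/
def CPt (e : Fin n → W → FQb) (x : W) : Prop := ∀ i, nm p (e i x - e i 0) < 1

theorem CPt.zero : CPt p e 0 := fun i => by rw [sub_self, nm_zero]; exact zero_lt_one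

theorem FData.comul_sub (h : FData p act n e a) (i : Fin n) (x y : W) :
    e i (x + y) - e i 0 = (e i x - e i 0) + (e i y - e i 0) +
      ∑ j, ∑ k, (a i j k : FQb) * ((e j x - e j 0) * (e k y - e k 0)) := by
  have h1 := h.comul i x y
  have h2 := h.comul i x 0
  have h3 := h.comul i 0 y
  have h4 := h.comul i 0 0
  rw [add_zero] at h2 h4
  rw [zero_add] at h3
  have h5 : ∑ j, ∑ k, (a i j k : FQb) * ((e j x - e j 0) * (e k y - e k 0)) =
      ∑ j, ∑ k, (a i j k : FQb) * (e j x * e k y) - ∑ j, ∑ k, (a i j k : FQb) * (e j x * e k 0) -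
      ∑ j, ∑ k, (a i j k : FQb) * (e j 0 * e k y) + ∑ j, ∑ k, (a i j k : FQb) * (e j 0 * e k 0) := by
    rw [← Finset.sum_sub_distrib, ← Finset.sum_sub_distrib, ← Finset.sum_add_distrib]
    refine Finset.sum_congr rfl fun j _ => ?_
    rw [← Finset.sum_sub_distrib, ← Finset.sum_sub_distrib, ← Finset.sum_add_distrib]
    refine Finset.sum_congr rfl fun k _ => ?_
    ring
  rw [h5, ← h1, ← h2, ← h3, ← h4]
  ring

theorem FData.nm_comul_err (h : FData p act n e a) (i : Fin n) (x y : W) {c d : ℝ}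
    (hc : 0 ≤ c) (hd : 0 ≤ d)
    (hx : ∀ i, nm p (e i x - e i 0) ≤ c) (hy : ∀ i, nm p (e i y - e i 0) ≤ d) :
    nm p ((e i (x + y) - e i 0) - ((e i x - e i 0) + (e i y - e i 0))) ≤ c * d := by
  rw [h.comul_sub, add_sub_cancel_left]
  refine nm_sum_le _ _ (mul_nonneg hc hd) fun j _ => nm_sum_le _ _ (mul_nonneg hc hd) fun k _ => ?_
  rw [nm_mul, nm_mul]
  calc nm p (a i j k : FQb) * (nm p (e j x - e j 0) * nm p (e k y - e k 0))
      ≤ 1 * (nm p (e j x - e j 0) * nm p (e k y - e k 0)) :=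
        mul_le_mul_of_nonneg_right (h.nm_a i j k) (mul_nonneg (nm_nonneg _) (nm_nonneg _))
    _ ≤ c * d := by
        rw [one_mul]
        exact mul_le_mul (hx j) (hy k) (nm_nonneg _) hc

theorem FData.cpt_add (h : FData p act n e a) {x y : W} (hx : CPt p e x) (hy : CPt p e y) :
    CPt p e (x + y) := by
  intro i
  have : Nonempty (Fin n) := ⟨i⟩
  rw [h.comul_sub]
  refine nm_add_lt_of (nm_add_lt_of (hx i) (hy i)) ?_
  refine nm_sum_lt _ _ zero_lt_one fun j _ => nm_sum_lt _ _ zero_lt_one fun k _ => ?_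
  rw [nm_mul, nm_mul]
  have h1 := mul_lt_one_of_nonneg_of_lt_one_left (nm_nonneg _) (hx j) (hy k).le
  exact (mul_le_of_le_one_left (mul_nonneg (nm_nonneg _) (nm_nonneg _)) (h.nm_a i j k)).trans_lt h1

theorem FData.cpt_nsmul (h : FData p act n e a) {x : W} (hx : CPt p e x) (m : ℕ) :
    CPt p e (m • x) := by
  induction m with
  | zero => rw [zero_smul]; exact CPt.zero
  | succ m ih => rw [succ_nsmul]; exact h.cpt_add ih hx

theorem FData.cpt_neg (h : FData p act n e a) {x : W} (hx : CPt p e x) (hpx : p • x = 0) :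
    CPt p e (-x) := by
  have h1 : -x = (p - 1) • x := by
    rw [neg_eq_iff_add_eq_zero, add_comm, ← succ_nsmul,
      Nat.sub_add_cancel (Fact.out : p.Prime).one_lt.le, hpx]
  rw [h1]
  exact h.cpt_nsmul hx _

theorem FData.act_sub0 (h : FData p act n e a) (σ : FGQ) (i : Fin n) (x : W) :
    e i (act σ x) - e i 0 = σ (e i x - e i 0) := by
  rw [map_sub, h.fix_zero, h.equiv]

theorem FData.cpt_act (h : FData p act n e a) {x : W} (hx : CPt p e x) {g : FGQ}
    (hg : g ∈ Dp p) : CPt p e (act g x) := by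
  intro i
  rw [h.act_sub0, nm_dec hg]
  exact hx i

theorem FData.cpt_sub (h : FData p act n e a) {x y : W} (hxy : ∀ i, nm p (e i x - e i y) < 1) :
    CPt p e (x - y) := by
  intro i
  have h1 : e i (x - y) - e i 0 = ∑ j, tm e a (-y) i j * (e j x - e j y) := by
    simp only [mul_sub, Finset.sum_sub_distrib]
    rw [← h.tm_spec, ← h.tm_spec, add_neg_cancel, ← sub_eq_add_neg x y]
  rw [h1]
  have : Nonempty (Fin n) := ⟨i⟩
  refine nm_sum_lt _ _ zero_lt_one fun j _ => ?_
  rw [nm_mul]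
  exact (mul_le_of_le_one_left (nm_nonneg _) (h.nm_tm (-y) i j)).trans_lt (hxy j)

theorem FData.cpt_inertia (h : FData p act n e a) (x : W) {σ : FGQ} (hσ : σ ∈ Ip p) :
    CPt p e (act σ x - x) := by
  apply h.cpt_sub
  intro i
  rw [h.equiv]
  exact nm_inertia hσ (h.nm_le i x)

theorem FData.tm_sub_one (h : FData p act n e a) (z : W) (i j : Fin n) :
    (tm e a z - 1) i j = ∑ k, (a i j k : FQb) * (e k z - e k 0) := by
  rw [← h.tm_zero, Matrix.sub_apply]
  simp only [tm, mul_sub, Finset.sum_sub_distrib]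

theorem FData.tm_nsmul (h : FData p act n e a) (z : W) (m : ℕ) :
    tm e a (m • z) = tm e a z ^ m := by
  induction m with
  | zero => rw [zero_smul, pow_zero, h.tm_zero]
  | succ m ih => rw [succ_nsmul, h.tm_add, ih, pow_succ]

/-- a connected point killed by `p` is not too close to the origin -/
theorem FData.exists_le (h : FData p act n e a) {x : W} (hx : CPt p e x) (hpx : p • x = 0)
    (hx0 : x ≠ 0) : ∃ i, nm p (p : FQb) ≤ nm p (e i x - e i 0) ^ (p - 1) := by
  have hN : ∀ i j, nm p ((tm e a x - 1) i j) < 1 := by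
    intro i j
    rw [h.tm_sub_one]
    refine nm_sum_lt _ _ zero_lt_one fun k _ => ?_
    rw [nm_mul]
    exact (mul_le_of_le_one_left (nm_nonneg _) (h.nm_a i j k)).trans_lt (hx k)
  have h1 : (1 + (tm e a x - 1)) ^ p = 1 := by
    rw [add_sub_cancel, ← h.tm_nsmul, hpx, h.tm_zero]
  have hN0 : tm e a x - 1 ≠ 0 := by
    intro h0
    apply hx0
    apply h.ext
    intro i
    have h2 := h.tm_spec i 0 x
    rw [sub_eq_zero.mp h0, zero_add] at h2
    rw [h2]
    simp [Matrix.one_apply]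
  obtain ⟨i, j, -, hij⟩ := matrix_near_one hN h1 hN0
  by_contra hcon
  push Not at hcon
  have hp := (Fact.out : p.Prime)
  have hp1 : p - 1 ≠ 0 := by have := hp.two_le; omega
  -- the maximum
  have : Nonempty (Fin n) := ⟨i⟩
  obtain ⟨k₀, -, hk₀⟩ := Finset.exists_max_image Finset.univ (fun k => nm p (e k x - e k 0))
    Finset.univ_nonempty
  have h3 : nm p ((tm e a x - 1) i j) ≤ nm p (e k₀ x - e k₀ 0) := by
    rw [h.tm_sub_one]
    refine nm_sum_le _ _ (nm_nonneg _) fun k hk => ?_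
    rw [nm_mul]
    exact (mul_le_of_le_one_left (nm_nonneg _) (h.nm_a i j k)).trans (hk₀ k hk)
  have h4 := pow_le_pow_left₀ (nm_nonneg _) h3 (p - 1)
  exact absurd (hij.trans h4) (not_le.mpr (hcon k₀))

end Fermat.Agent.H64
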