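import Fermat.Agent.H64FDeriv
import Fermat.Agent.H32Bridge

/-!
# S56-[B4] : coordinates on a finite flat group scheme
-/

set_option autoImplicit false

open GaloisRep

noncomputable section

namespace Fermat.Agent.H64

variable {p : ℕ} [Fact p.Prime]

theorem nm_ratCast_le_one {q : ℚ} (hq : q.den.Coprime p) : nm p (q : FQb) ≤ 1 := by
  rw [Rat.cast_def, nm_div, nm_natCast_eq_one hq, div_one]
  exact nm_intCast_le_one _

theorem nm_le_one_of_isIntegral_rat {x : FQb} (hx : IsIntegral (ratLocalizedAt p) x) :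
    nm p x ≤ 1 := by
  let φ : ratLocalizedAt p →+* padicPlace p :=
    { toFun := fun q => ⟨((q : ℚ) : FQb), nm_ratCast_le_one q.2⟩
      map_one' := Subtype.ext (by simp)
      map_mul' := fun a b => Subtype.ext (by simp)
      map_zero' := Subtype.ext (by simp)
      map_add' := fun a b => Subtype.ext (by simp) }
  obtain ⟨P, hP, hPx⟩ := hx
  have h1 : IsIntegral (padicPlace p) x := by
    refine ⟨P.map φ, hP.map φ, ?_⟩
    rw [Polynomial.eval₂_map, ← hPx]
    congr 1
  obtain ⟨y, hy⟩ := IsIntegrallyClosed.isIntegral_iff.mp h1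
  rw [← hy]
  exact y.2

/-- coordinates on a finite flat group scheme over `ℤ_(p)` with points `W` -/
structure FData (p : ℕ) [Fact p.Prime] {W : Type*} [AddCommGroup W] (act : FGQ → W → W) (n : ℕ)
    (e : Fin n → W → FQb) (a : Fin n → Fin n → Fin n → ℚ) : Prop where
  indep : LinearIndependent FQb e
  span : ∀ F : W → FQb, ∃ c : Fin n → FQb, F = ∑ i, c i • e i
  comul : ∀ i x y, e i (x + y) = ∑ j, ∑ k, (a i j k : FQb) * (e j x * e k y)
  nm_a : ∀ i j k, nm p (a i j k : FQb) ≤ 1
  equiv : ∀ σ i x, e i (act σ x) = σ (e i x)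
  nm_le : ∀ i x, nm p (e i x) ≤ 1

theorem exists_FData {W : Type*} [AddCommGroup W] [Finite W] {act : FGQ → W → W}
    {H : Subalgebra (ratLocalizedAt p) (W → FQb)} (hH : H32.IsFlatOrder p act H) :
    ∃ (n : ℕ) (e : Fin n → W → FQb) (a : Fin n → Fin n → Fin n → ℚ), FData p act n e a ∧
      (∀ i, e i ∈ H) ∧ ∀ h ∈ H, ∃ r : Fin n → ratLocalizedAt p, h = ∑ i, r i • e i := by
  obtain ⟨n, e, heH, heli, hegen⟩ := H32.exists_basis H hH.finite hH.surj hH.equivariant
  have hcomul : ∀ i, ∃ a : Fin n → Fin n → ratLocalizedAt p,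
      ∀ x y, e i (x + y) = ∑ j, ∑ k, ((a j k : ℚ) : FQb) * (e j x * e k y) := by
    intro i
    obtain ⟨b, hb, hb'⟩ := H32.exists_coeff_of_mem_tensorSpan H e hegen (hH.comul _ (heH i))
    choose r hr using fun k => hegen (b k) (hb k)
    refine ⟨fun j k => r k j, fun x y => ?_⟩
    have h1 := hb' x y
    rw [H32.comulFun] at h1
    simp only at h1
    rw [h1, Finset.sum_comm]
    refine Finset.sum_congr rfl fun k _ => ?_
    rw [hr k, Finset.sum_apply, Finset.sum_mul]
    refine Finset.sum_congr rfl fun j _ => ?_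
    rw [Pi.smul_apply, ← mul_assoc]
    congr 1
    exact Rat.smul_def (r k j : ℚ) (e j x)
  choose a ha using hcomul
  refine ⟨n, e, fun i j k => (a i j k : ℚ), ⟨heli, ?_, ?_, ?_, ?_, ?_⟩, heH, hegen⟩
  · intro F
    have hspan := H32.span_eq_top_of_separates H hH.separates
    have hFspan : F ∈ Submodule.span FQb (Set.range e) := by
      have h1 : F ∈ Submodule.span FQb (H : Set (W → FQb)) := by rw [hspan]; trivial
      refine (Submodule.span_le.mpr ?_) h1
      intro f hf
      obtain ⟨r, rfl⟩ := hegen f hf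
      refine Submodule.sum_mem _ fun i _ => ?_
      have : r i • e i = (algebraMap (ratLocalizedAt p) FQb (r i)) • e i := by
        rw [algebraMap_smul]
      rw [this]
      exact Submodule.smul_mem _ _ (Submodule.subset_span ⟨i, rfl⟩)
    obtain ⟨c, hc⟩ := (Submodule.mem_span_range_iff_exists_fun FQb).mp hFspan
    exact ⟨c, hc.symm⟩
  · intro i x y
    exact ha i x y
  · intro i j k
    exact nm_ratCast_le_one (a i j k).2
  · intro σ i x
    exact hH.equivariant _ (heH i) σ x
  · intro i x
    apply nm_le_one_of_isIntegral_rat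
    have := hH.finite
    have h1 : IsIntegral (ratLocalizedAt p) (⟨e i, heH i⟩ : H) := IsIntegral.of_finite _ _
    have h2 : IsIntegral (ratLocalizedAt p) (e i) := h1.map H.val
    exact h2.map (Pi.evalAlgHom (ratLocalizedAt p) (fun _ : W => FQb) x)

end Fermat.Agent.H64
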