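import Fermat.Agent.H64FCore

/-!
# S56-[B4] : characters of connected lines, the irreducible case
-/

set_option autoImplicit false

open ExtCitation Polynomial

noncomputable section

namespace Fermat.Agent.H64

variable {p : ℕ} [Fact p.Prime]

section Line

variable {W : Type*} [AddCommGroup W] {act : FGQ → W → W} {M : AddSubgroup W} {x₀ : W} {z : FQb}

theorem CoreData.act_eq_iff (hC : CoreData p act M x₀ z) {σ τ : FGQ} (hσ : σ ∈ Ip p)
    (hτ : τ ∈ Ip p) : th p z σ = th p z τ ↔ ∀ x ∈ M, act σ x = act τ x := by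
  have h1 := hC.iff Bool Finset.univ (fun b => if b then σ else τ) (fun b => if b then 1 else -1)
    (by rintro (_ | _) _ <;> simpa)
  simp only [Fintype.sum_bool, if_true, Bool.false_eq_true, if_false, Int.cast_one, one_mul,
    Int.cast_neg, neg_mul, one_smul, neg_smul, ← sub_eq_add_neg, sub_eq_zero] at h1
  exact h1

theorem CoreData.act_eq_nsmul (hC : CoreData p act M x₀ z) (hone : ∀ x, act 1 x = x) {σ : FGQ}
    (hσ : σ ∈ Ip p) {m : ℕ} (h : th p z σ = (m : Kap p)) {x : W} (hx : x ∈ M) :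
    act σ x = m • x := by
  have h1 := hC.iff Bool Finset.univ (fun b => if b then σ else 1)
    (fun b => if b then 1 else -(m : ℤ)) (by rintro (_ | _) _ <;> simp [hσ, one_mem])
  simp only [Fintype.sum_bool, if_true, Bool.false_eq_true, if_false, Int.cast_one, one_mul,
    Int.cast_neg, neg_mul, one_smul, neg_smul, ← sub_eq_add_neg, sub_eq_zero, th_one hC.ne,
    Int.cast_natCast, mul_one, hone, natCast_zsmul] at h1
  exact h1.mp h x hx

theorem nm_zpow_cases {z : FQb} (hlt : nm p z < 1) {m : ℕ} (hm : 0 < m) {N : ℕ}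
    (hle : nm p (p : FQb) ^ N ≤ nm p z ^ m) {j : ℤ} (hj : nm p z ^ m = nm p (p : FQb) ^ j) :
    1 ≤ j ∧ j ≤ N := by
  constructor
  · have h1 : nm p z ^ m < 1 := pow_lt_one₀ (nm_nonneg _) hlt hm.ne'
    rw [hj] at h1
    by_contra hcon
    have h2 : j ≤ 0 := by omega
    exact absurd h1 (not_lt.mpr (one_le_zpow_of_nonpos₀ (nm_p_pos p) (nm_p_lt_one p).le h2))
  · rw [hj, ← zpow_natCast] at hle
    exact (zpow_le_zpow_iff_right_of_lt_one₀ (nm_p_pos p) (nm_p_lt_one p)).mp hle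

/-- **inertia acts on a connected line through the cyclotomic character** -/
theorem CoreData.line (hC : CoreData p act M x₀ z) (hone : ∀ x, act 1 x = x)
    (hcomm : ∀ σ ∈ Ip p, ∀ x ∈ M, act (frob p * σ * (frob p)⁻¹) x = act σ x) {σ : FGQ}
    (hσ : σ ∈ Ip p) {x : W} (hx : x ∈ M) :
    act σ x = ((cycloChar p σ : ZMod p).val) • x := by
  have hp := (Fact.out : p.Prime)
  have hp1 : 0 < p - 1 := by have := hp.two_le; omega
  have h1 : ∀ σ ∈ Ip p, th p z σ ^ (p - 1) = 1 := by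
    intro σ hσ
    have h2 := (hC.act_eq_iff (conj_mem_Ip hσ frob_mem) hσ).mpr (hcomm σ hσ)
    rw [th_conj_frob hC.ne hσ] at h2
    have h3 := th_ne_zero hC.ne (Ip_le_Dp hσ)
    have h4 : th p z σ ^ (p - 1) * th p z σ = 1 * th p z σ := by
      rw [← pow_succ, Nat.sub_add_cancel hp.one_lt.le, h2, one_mul]
    exact mul_right_cancel₀ h3 h4
  obtain ⟨j, hj⟩ := orbit_norm hC.ne hp1 h1 (fun σ hσ τ hτ h =>
    hC.orb σ τ ((hC.act_eq_iff hσ hτ).mp h x₀ hC.mem))
  have h2 := nm_zpow_cases hC.lt hp1 (N := 1) (by rw [pow_one]; exact hC.le) hj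
  have h3 : j = 1 := by omega
  rw [h3, zpow_one] at hj
  exact hC.act_eq_nsmul hone hσ (th_cyclo hj hσ) hx

end Line

section Eig

variable {k : Type*} [Field k]

/-- eigenvalues -/
def IsEig (A : Matrix (Fin 2) (Fin 2) k) (α : k) : Prop := ∃ v, v ≠ 0 ∧ A.mulVec v = α • v

theorem isEig_iff {A : Matrix (Fin 2) (Fin 2) k} {α : k} :
    IsEig A α ↔ α ^ 2 - A.trace * α + A.det = 0 := by
  have h1 : (A - Matrix.scalar (Fin 2) α).det = α ^ 2 - A.trace * α + A.det := by
    rw [Matrix.det_fin_two, Matrix.det_fin_two, Matrix.trace_fin_two]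
    simp
    ring
  rw [← h1, ← Matrix.exists_mulVec_eq_zero_iff]
  constructor
  · rintro ⟨v, hv, hv'⟩
    refine ⟨v, hv, ?_⟩
    rw [Matrix.sub_mulVec, hv', Matrix.scalar_apply, ← Matrix.smul_one_eq_diagonal,
      Matrix.smul_mulVec, Matrix.one_mulVec, sub_self]
  · rintro ⟨v, hv, hv'⟩
    refine ⟨v, hv, ?_⟩
    rw [Matrix.sub_mulVec, Matrix.scalar_apply, ← Matrix.smul_one_eq_diagonal,
      Matrix.smul_mulVec, Matrix.one_mulVec, sub_eq_zero] at hv'
    exact hv'

theorem trace_det_of_charpoly {A : Matrix (Fin 2) (Fin 2) k} {α β : k}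
    (h : A.charpoly = (X - C α) * (X - C β)) : A.trace = α + β ∧ A.det = α * β := by
  rw [Matrix.charpoly_fin_two] at h
  constructor
  · have h1 := congrArg (fun P : k[X] => P.coeff 1) h
    have h2 : (X - C α) * (X - C β) = X ^ 2 - C (α + β) * X + C (α * β) := by
      rw [C_add, C_mul]; ring
    rw [h2] at h1
    simp [coeff_X, coeff_C] at h1
    linear_combination -h1
  · have h1 := congrArg (fun P : k[X] => P.coeff 0) h
    simpa [coeff_X, coeff_C] using h1

theorem isEig_cases {A : Matrix (Fin 2) (Fin 2) k} {α β γ : k}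
    (h : A.trace = α + β ∧ A.det = α * β) : IsEig A γ ↔ γ = α ∨ γ = β := by
  rw [isEig_iff, h.1, h.2]
  have e1 : γ ^ 2 - (α + β) * γ + α * β = (γ - α) * (γ - β) := by ring
  rw [e1, mul_eq_zero, sub_eq_zero, sub_eq_zero]

theorem IsEig.pow_mulVec {A : Matrix (Fin 2) (Fin 2) k} {α : k} {v : Fin 2 → k}
    (hv : A.mulVec v = α • v) (m : ℕ) : (A ^ m).mulVec v = α ^ m • v := by
  induction m with
  | zero => simp
  | succ m ih => rw [pow_succ, ← Matrix.mulVec_mulVec, hv, Matrix.mulVec_smul, ih, smul_smul, pow_succ,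
      mul_comm]

theorem IsEig.aeval_mulVec {A : Matrix (Fin 2) (Fin 2) k} {α : k} {v : Fin 2 → k}
    (hv : A.mulVec v = α • v) (P : ℤ[X]) : (aeval A P).mulVec v = (aeval α P) • v := by
  rw [aeval_eq_sum_range, aeval_eq_sum_range, Matrix.sum_mulVec, Finset.sum_smul]
  refine Finset.sum_congr rfl fun i _ => ?_
  rw [Matrix.smul_mulVec, IsEig.pow_mulVec hv, smul_assoc]

end Eig

theorem Kap_pow (y : Kap p) : ∃ m, 0 < m ∧ y ^ (p ^ m) = y := by
  obtain ⟨x, hx, rfl⟩ := rs_surjective y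
  obtain ⟨ζ, ⟨m, hm, hζ⟩, hxζ⟩ := exists_teich hx
  have hT : IsTeich p ζ := ⟨m, hm, hζ⟩
  have h1 : rs (p := p) x = rs ζ := by rw [rs_eq_iff hx hT.nm_le]; exact hxζ
  refine ⟨m, hm, ?_⟩
  rw [h1, ← rs_pow hT.nm_le, hζ]

/-- polynomials with integral coefficients vanish simultaneously -/
theorem aeval_iff_of_imp {k : Type*} [Field k] {y : Kap p} {α : k}
    (h : ∀ P : ℤ[X], aeval y P = 0 → aeval α P = 0) (P : ℤ[X]) :
    aeval y P = 0 ↔ aeval α P = 0 := by
  refine ⟨h P, fun h1 => ?_⟩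
  by_contra hne
  obtain ⟨m, hm, hm'⟩ := Kap_pow (aeval y P)
  have hp := (Fact.out : p.Prime)
  have hpm : 1 < p ^ m := Nat.one_lt_pow hm.ne' hp.one_lt
  have h2 : aeval y P ^ (p ^ m - 1) = 1 := by
    have h3 : aeval y P ^ (p ^ m - 1) * aeval y P = 1 * aeval y P := by
      rw [← pow_succ, Nat.sub_add_cancel hpm.le, hm', one_mul]
    exact mul_right_cancel₀ hne h3
  have h3 := h (P ^ (p ^ m - 1) - 1) (by rw [map_sub, map_pow, h2, map_one, sub_self])
  rw [map_sub, map_pow, h1, zero_pow (by omega), map_one, zero_sub, neg_eq_zero] at h3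
  exact one_ne_zero h3

/-- the structure of an irreducible connected representation -/
theorem irr_data (hp3 : 3 ≤ p) {k : Type*} [Field k] [CharP k p]
    (r : FGQ →* Matrix (Fin 2) (Fin 2) k)
    (hdet : ∀ σ, (r σ).det = (((cycloChar p σ : ZMod p).val : ℕ) : k))
    (hsplit : ∀ σ, ∃ α β : k, (r σ).charpoly = (X - C α) * (X - C β))
    {z : FQb} (hz : z ≠ 0) (hlt : nm p z < 1) (hle : nm p (p : FQb) ≤ nm p z ^ (p - 1))
    (horb : ∀ σ τ : FGQ, r σ = r τ → σ z = τ z)
    (hiff : ∀ (ι : Type) (s : Finset ι) (σ : ι → FGQ) (c : ι → ℤ), (∀ i ∈ s, σ i ∈ Ip p) →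
      ((∑ i ∈ s, (c i : Kap p) * th p z (σ i)) = 0 ↔ ∑ i ∈ s, c i • r (σ i) = 0))
    {π : FQb} (hπ : π ^ (p ^ 2 - 1) = -(p : FQb)) {t : FGQ} (ht : t ∈ Ip p) {ζ : FQb}
    (hζ : IsPrimitiveRoot ζ (p ^ 2 - 1)) (htπ : t π = ζ * π) :
    (∀ σ ∈ Tm p π, r σ = 1) ∧ (∀ σ ∈ Ip p, r (frob p * σ * (frob p)⁻¹) = r σ ^ p) ∧
    ∃ α : k, α ^ p ≠ α ∧ (r t).trace = α + α ^ p ∧ (r t).det = α * α ^ p ∧
      ∀ P : ℤ[X], aeval α P = 0 ↔ aeval (rs (p := p) ζ) P = 0 := by
  have hp := (Fact.out : p.Prime)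
  have hp2 : p ^ 2 = p * p := sq p
  have hpp : p * 3 ≤ p * p := Nat.mul_le_mul_left p hp3
  have he : 0 < p ^ 2 - 1 := by omega
  have hep : (p ^ 2 - 1).Coprime p := by
    have h1 : (p ^ 2 - 1).Coprime (p ^ 2) := by
      rw [Nat.coprime_comm]
      have : p ^ 2 = (p ^ 2 - 1) + 1 := by omega
      conv_lhs => rw [this]
      simp
    exact Nat.Coprime.coprime_dvd_right (dvd_pow_self p two_ne_zero) h1
  have hprod : (p - 1) * (p + 1) = p ^ 2 - 1 := by
    obtain ⟨q, rfl⟩ : ∃ q, p = q + 1 := ⟨p - 1, by omega⟩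
    rw [hp2]
    simp only [Nat.add_sub_cancel]
    have : (q + 1) * (q + 1) = q * (q + 1 + 1) + 1 := by ring
    rw [this, Nat.add_sub_cancel]
  -- basic consequences of `hiff`
  have hpair : ∀ σ ∈ Ip p, ∀ τ ∈ Ip p, th p z σ = th p z τ ↔ r σ = r τ := by
    intro σ hσ τ hτ
    have h1 := hiff Bool Finset.univ (fun b => if b then σ else τ) (fun b => if b then 1 else -1)
      (by rintro (_ | _) _ <;> simpa)
    simp only [Fintype.sum_bool, if_true, Bool.false_eq_true, if_false, Int.cast_one, one_mul,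
      Int.cast_neg, neg_mul, one_smul, neg_smul, ← sub_eq_add_neg, sub_eq_zero] at h1
    exact h1
  have hthpow : ∀ σ ∈ Ip p, ∀ m : ℕ, th p z (σ ^ m) = th p z σ ^ m := by
    intro σ hσ m
    induction m with
    | zero => rw [pow_zero, pow_zero, th_one hz]
    | succ m ih => rw [pow_succ, pow_succ, th_mul hz (pow_mem hσ m) hσ, ih]
  have hpoly : ∀ σ ∈ Ip p, ∀ P : ℤ[X], aeval (th p z σ) P = 0 ↔ aeval (r σ) P = 0 := by
    intro σ hσ P
    have h1 := hiff ℕ (Finset.range (P.natDegree + 1)) (fun i => σ ^ i) (fun i => P.coeff i)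
      (fun i _ => pow_mem hσ i)
    simp only [hthpow σ hσ, map_pow, ← zsmul_eq_mul] at h1
    rw [aeval_eq_sum_range, aeval_eq_sum_range]
    exact h1
  have heig : ∀ σ ∈ Ip p, ∀ α : k, IsEig (r σ) α →
      ∀ P : ℤ[X], aeval (th p z σ) P = 0 ↔ aeval α P = 0 := by
    rintro σ hσ α ⟨v, hv, hv'⟩ P
    apply aeval_iff_of_imp
    intro P hP
    have h1 := IsEig.aeval_mulVec hv' P
    rw [(hpoly σ hσ P).mp hP, Matrix.zero_mulVec] at h1
    exact (smul_eq_zero.mp h1.symm).resolve_right hv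
  have hfr : ∀ σ ∈ Ip p, r (frob p * σ * (frob p)⁻¹) = r σ ^ p := by
    intro σ hσ
    rw [← map_pow]
    apply (hpair _ (conj_mem_Ip hσ frob_mem) _ (pow_mem hσ p)).mp
    rw [th_conj_frob hz hσ, hthpow σ hσ]
  have heigp : ∀ σ ∈ Ip p, ∀ α : k, IsEig (r σ) α → IsEig (r σ) (α ^ p) := by
    rintro σ hσ α ⟨v, hv, hv'⟩
    have hinv : r (frob p) * r (frob p)⁻¹ = 1 := by rw [← map_mul, mul_inv_cancel, map_one]
    have hinv' : r (frob p)⁻¹ * r (frob p) = 1 := by rw [← map_mul, inv_mul_cancel, map_one]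
    refine ⟨(r (frob p)⁻¹).mulVec v, ?_, ?_⟩
    · intro h0
      apply hv
      have h1 := congrArg (r (frob p)).mulVec h0
      rwa [Matrix.mulVec_mulVec, hinv, Matrix.one_mulVec, Matrix.mulVec_zero] at h1
    · have h1 := IsEig.pow_mulVec hv' p
      rw [← hfr σ hσ, map_mul, map_mul] at h1
      have h2 := congrArg (r (frob p)⁻¹).mulVec h1
      rw [Matrix.mulVec_mulVec, ← mul_assoc, ← mul_assoc, hinv', one_mul, ← Matrix.mulVec_mulVec,
        Matrix.mulVec_smul] at h2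
      exact h2
  have hα2 : ∀ σ ∈ Ip p, ∀ α : k, IsEig (r σ) α → α ^ (p ^ 2) = α := by
    intro σ hσ α hα
    obtain ⟨α', β', hch⟩ := hsplit σ
    have htd := trace_det_of_charpoly hch
    have h1 := heigp σ hσ α hα
    have h2 := heigp σ hσ _ h1
    have hfinj : Function.Injective (fun y : k => y ^ p) := frobenius_inj k p
    rw [hp2, pow_mul]
    rw [isEig_cases htd] at hα h1 h2
    rcases hα with rfl | rfl
    · rcases h1 with h1 | h1
      · rw [h1, h1]
      · rcases h2 with h2 | h2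
        · exact h2
        · rw [← h1] at h2
          have h3 : α ^ p = α := hfinj h2
          rw [h3, h3]
    · rcases h1 with h1 | h1
      · rcases h2 with h2 | h2
        · rw [← h1] at h2
          have h3 : α ^ p = α := hfinj h2
          rw [h3, h3]
        · exact h2
      · rw [h1, h1]
  have hexeig : ∀ σ, ∃ α : k, IsEig (r σ) α := by
    intro σ
    obtain ⟨α', β', hch⟩ := hsplit σ
    exact ⟨α', (isEig_cases (trace_det_of_charpoly hch)).mpr (Or.inl rfl)⟩
  have hth2 : ∀ σ ∈ Ip p, th p z σ ^ (p ^ 2 - 1) = 1 := by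
    intro σ hσ
    obtain ⟨α, hα⟩ := hexeig σ
    have h1 := (heig σ hσ α hα (X ^ (p ^ 2) - X)).mpr (by
      rw [map_sub, map_pow, aeval_X, hα2 σ hσ α hα, sub_self])
    rw [map_sub, map_pow, aeval_X, sub_eq_zero] at h1
    have h3 := th_ne_zero (p := p) hz (Ip_le_Dp hσ)
    have h4 : th p z σ ^ (p ^ 2 - 1) * th p z σ = 1 * th p z σ := by
      rw [← pow_succ, Nat.sub_add_cancel (by omega), h1, one_mul]
    exact mul_right_cancel₀ h3 h4
  -- the valuation of `z`
  obtain ⟨j', hj'⟩ := orbit_norm hz he hth2 (fun σ hσ τ hτ h => horb σ τ ((hpair σ hσ τ hτ).mp h))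
  have hcases := nm_zpow_cases hlt he (N := p + 1) (by
    rw [← hprod, pow_mul]
    exact pow_le_pow_left₀ (nm_nonneg _) hle _) hj'
  obtain ⟨j, rfl⟩ : ∃ j : ℕ, j' = j := ⟨j'.toNat, by omega⟩
  rw [zpow_natCast] at hj'
  have hj1 : 1 ≤ j := by exact_mod_cast hcases.1
  have hj2 : j ≤ p + 1 := by exact_mod_cast hcases.2
  -- `j ≠ p + 1`
  have hjne : j ≠ p + 1 := by
    rintro rfl
    rw [← hprod, pow_mul] at hj'
    have h1 : nm p z ^ (p - 1) = nm p (p : FQb) :=
      (pow_left_inj₀ (pow_nonneg (nm_nonneg _) _) (nm_nonneg _) (by omega)).mp hj'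
    obtain ⟨σ, hσ, hσ1⟩ := exists_cyclo_ne_one hp3
    have h2 := th_cyclo h1 hσ
    set m := (cycloChar p σ : ZMod p).val with hm
    obtain ⟨v, hv, hv'⟩ := (hexeig σ).choose_spec
    have h3 : r σ = (m : Matrix (Fin 2) (Fin 2) k) := by
      have h4 := (hpoly σ hσ (X - C (m : ℤ))).mp (by
        rw [map_sub, aeval_X, h2, sub_eq_zero]; simp)
      rw [map_sub, aeval_X, sub_eq_zero] at h4
      rw [h4]; simp
    have h4 := hdet σ
    rw [h3, ← Matrix.diagonal_natCast, Matrix.det_diagonal, Fin.prod_univ_two, ← hm] at h4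
    have h5 : (m : k) ≠ 0 := by
      rw [Ne, CharP.cast_eq_zero_iff k p]
      intro h6
      have h7 := Nat.eq_zero_of_dvd_of_lt h6 (ZMod.val_lt _)
      have h8 := (cycloChar p σ).ne_zero
      exact h8 ((ZMod.val_eq_zero _).mp h7)
    have h6 : (m : k) = 1 := mul_right_cancel₀ h5 (h4.trans (one_mul _).symm)
    have h7 : (m : ZMod p) = 1 := by
      have h8 : ((m : ℤ) - 1 : ℤ) = ((m : ℤ) - 1) := rfl
      have h9 : (((m : ℤ) - 1 : ℤ) : k) = 0 := by push_cast; rw [h6, sub_self]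
      rw [CharP.intCast_eq_zero_iff k p, ← CharP.intCast_eq_zero_iff (ZMod p) p] at h9
      push_cast at h9
      exact sub_eq_zero.mp h9
    apply hσ1
    ext
    rw [Units.val_one, ← h7, hm, ZMod.natCast_zmod_val]
  have hjp : j ≤ p := by omega
  -- comparison with `π`
  have hπ0 : π ≠ 0 := pi_ne_zero he hπ
  have hnz : nm p z = nm p (π ^ j) := by
    rw [nm_pow]
    apply (pow_left_inj₀ (nm_nonneg _) (pow_nonneg (nm_nonneg _) _) he.ne').mp
    rw [hj', ← pow_mul, mul_comm, pow_mul, nm_pi_pow hπ]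
  have hthπ : ∀ σ ∈ Ip p, th p z σ = th p π σ ^ j := by
    intro σ hσ
    rw [th_congr hz hnz hσ, th_pow hπ0 (Ip_le_Dp hσ)]
  have hTm : ∀ σ ∈ Tm p π, r σ = 1 := by
    intro σ hσ
    rw [← map_one r]
    apply (hpair σ hσ.1 1 (one_mem _)).mp
    rw [th_one hz, hthπ σ hσ.1, th, (mem_Tm.mp hσ).2, div_self hπ0, rs_one, one_pow]
  have htht : th p π t = rs ζ := by
    rw [th, htπ, mul_div_cancel_right₀ _ hπ0]
  have hζT := isTeich_of_pow_eq_one he hep hζ.pow_eq_one
  -- powers of the reduction of `ζ`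
  have hζpow : ∀ i : ℕ, rs (p := p) ζ ^ i = 1 → p ^ 2 - 1 ∣ i := by
    intro i hi
    apply hζ.dvd_of_pow_eq_one
    apply (hζT.pow i).eq_of_nm_sub_lt ⟨1, one_pos, one_pow _⟩
    rw [← rs_eq_iff (hζT.pow i).nm_le (by simp), rs_pow hζT.nm_le, hi, rs_one]
  have hζ0 : rs (p := p) ζ ≠ 0 := by
    intro h0
    have h1 : rs (p := p) ζ ^ (p ^ 2 - 1) = 1 := by
      rw [← rs_pow hζT.nm_le, hζ.pow_eq_one, rs_one]
    rw [h0, zero_pow he.ne'] at h1
    exact zero_ne_one h1
  -- the eigenvalues of `r t`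
  obtain ⟨α, β, hch⟩ := hsplit t
  have htd := trace_det_of_charpoly hch
  have hαe : IsEig (r t) α := (isEig_cases htd).mpr (Or.inl rfl)
  have hP := heig t ht α hαe
  rw [hthπ t ht, htht] at hP
  have hαp : α ^ p ≠ α := by
    intro h1
    have h2 := (hP (X ^ p - X)).mpr (by rw [map_sub, map_pow, aeval_X, h1, sub_self])
    rw [map_sub, map_pow, aeval_X, sub_eq_zero] at h2
    have h3 : rs (p := p) ζ ^ (j * (p - 1)) = 1 := by
      have h4 : rs (p := p) ζ ^ (j * (p - 1)) * rs (p := p) ζ ^ j = 1 * rs (p := p) ζ ^ j := by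
        rw [← pow_add, one_mul, ← Nat.mul_succ, Nat.succ_eq_add_one, Nat.sub_add_cancel (by omega),
          pow_mul, h2]
      exact mul_right_cancel₀ (pow_ne_zero _ hζ0) h4
    have h5 := hζpow _ h3
    rw [← hprod, mul_comm j] at h5
    have h6 := Nat.dvd_of_mul_dvd_mul_left (by omega) h5
    have h7 := Nat.le_of_dvd hj1 h6
    omega
  have hαβ : α ^ p = β := by
    have h1 := heigp t ht α hαe
    rw [isEig_cases htd] at h1
    exact h1.resolve_left hαp
  subst hαβ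
  have hζthc : rs (p := p) ζ ^ (p + 1) = (((cycloChar p t : ZMod p).val : ℕ) : Kap p) := by
    have h1 : nm p (π ^ (p + 1)) ^ (p - 1) = nm p (p : FQb) := by
      rw [nm_pow, ← pow_mul, mul_comm, hprod, nm_pi_pow hπ]
    have h2 := th_cyclo h1 ht
    rw [th_pow hπ0 (Ip_le_Dp ht), htht] at h2
    exact h2
  have hj1p : j = 1 ∨ j = p := by
    set m := (cycloChar p t : ZMod p).val with hm
    have h1 : aeval α (X ^ (p + 1) - C (m : ℤ)) = 0 := by
      rw [map_sub, map_pow, aeval_X, aeval_C, pow_succ']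
      have h2 := hdet t
      rw [htd.2, ← hm] at h2
      rw [h2]; simp
    have h2 := (hP _).mpr h1
    rw [map_sub, map_pow, aeval_X, aeval_C, sub_eq_zero] at h2
    have h3 : rs (p := p) ζ ^ (j * (p + 1)) = rs (p := p) ζ ^ (p + 1) := by
      rw [pow_mul, h2, hζthc]; simp
    have h4 : rs (p := p) ζ ^ ((j - 1) * (p + 1)) = 1 := by
      have h5 : rs (p := p) ζ ^ ((j - 1) * (p + 1)) * rs (p := p) ζ ^ (p + 1) =
          1 * rs (p := p) ζ ^ (p + 1) := by
        rw [← pow_add, one_mul, ← Nat.succ_mul, Nat.succ_eq_add_one, Nat.sub_add_cancel hj1, h3]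
      exact mul_right_cancel₀ (pow_ne_zero _ hζ0) h5
    have h5 := hζpow _ h4
    rw [← hprod] at h5
    have h6 := Nat.dvd_of_mul_dvd_mul_right (by omega) h5
    rcases Nat.eq_zero_or_pos (j - 1) with h7 | h7
    · left; omega
    · right
      have h8 := Nat.le_of_dvd h7 h6
      omega
  refine ⟨hTm, hfr, α, hαp, htd.1, htd.2, fun P => ?_⟩
  rw [← hP]
  rcases hj1p with hj1p | hj1p
  · rw [hj1p, pow_one]
  · have h1 : aeval (rs (p := p) ζ ^ p) P = (aeval (rs (p := p) ζ) P) ^ p := by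
      rw [← frobenius_def, ← frobenius_def, aeval_eq_sum_range, aeval_eq_sum_range, map_sum]
      refine Finset.sum_congr rfl fun i _ => ?_
      rw [Algebra.smul_def, Algebra.smul_def, map_mul, map_pow, eq_intCast, map_intCast]
    rw [hj1p, h1]
    exact pow_eq_zero_iff hp.ne_zero

end Fermat.Agent.H64
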