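import Fermat.Agent.H64FVal

/-!
# S56-[B4] : finite layers, the value group of the field fixed by inertia
-/

set_option autoImplicit false

open scoped Pointwise
open Polynomial NumberField IsDedekindDomain

noncomputable section

namespace Fermat.Agent.H64

variable {p : ℕ} [Fact p.Prime]

section Layer

variable (L : Type*) [Field L] [NumberField L] [IsGalois ℚ L] (j : L →+* PadicAlgCl p)

/-- the inertia group at the place of a number field -/
abbrev layI : Subgroup (L ≃ₐ[ℚ] L) := (H54.placeOf j).asIdeal.inertia (L ≃ₐ[ℚ] L)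

/-- the inertia field -/
abbrev layF : IntermediateField ℚ L := FixedPoints.intermediateField (layI L j)

omit [IsGalois ℚ L] in
theorem under_placeOf_ne_bot (R : Type*) [CommRing R] [CharZero R] [Algebra R (𝓞 L)] :
    (H54.placeOf j).asIdeal.under R ≠ ⊥ := by
  intro h
  have h1 : (p : R) ∈ (H54.placeOf j).asIdeal.under R := by
    rw [Ideal.under_def, Ideal.mem_comap, map_natCast]
    exact H54.prime_mem_placeOf j
  rw [h, Ideal.mem_bot, Nat.cast_eq_zero] at h1
  exact (Fact.out : p.Prime).ne_zero h1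

theorem finrank_layF :
    Module.finrank (layF L j) L =
      ((H54.placeOf j).asIdeal.under ℤ).ramificationIdx' (H54.placeOf j).asIdeal := by
  have hgal : IsGaloisGroup (L ≃ₐ[ℚ] L) ℤ (𝓞 L) :=
    IsGaloisGroup.of_isFractionRing (L ≃ₐ[ℚ] L) ℤ (𝓞 L) ℚ L
  set P := (H54.placeOf j).asIdeal with hP
  have hPover : P.LiesOver (P.under ℤ) := inferInstance
  have hcard := Ideal.card_inertia_eq_ramificationIdxIn (G := L ≃ₐ[ℚ] L) (P.under ℤ) P
  rw [← IsGaloisGroup.card_eq_finrank (layI L j) (layF L j) L, hcard,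
    Ideal.ramificationIdxIn_eq_ramificationIdx (P.under ℤ) P (L ≃ₐ[ℚ] L),
    Ideal.ramificationIdx'_eq_ramificationIdx (P.under ℤ) P]
  exact under_placeOf_ne_bot L j ℤ

theorem finrank_layF' :
    Module.finrank (layF L j) L =
      ((H54.placeOf j).asIdeal.under (𝓞 (layF L j))).ramificationIdx' (H54.placeOf j).asIdeal := by
  have hgal : IsGaloisGroup (layI L j) (𝓞 (layF L j)) (𝓞 L) :=
    IsGaloisGroup.of_isFractionRing (layI L j) (𝓞 (layF L j)) (𝓞 L) (layF L j) L
  set P := (H54.placeOf j).asIdeal with hP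
  have hPover : P.LiesOver (P.under (𝓞 (layF L j))) := inferInstance
  have hcard := Ideal.card_inertia_eq_ramificationIdxIn (G := layI L j)
    (P.under (𝓞 (layF L j))) P
  have htop : (P.inertia (layI L j)) = ⊤ := by
    rw [eq_top_iff]
    intro σ _
    exact σ.2
  rw [htop, Subgroup.card_top] at hcard
  rw [← IsGaloisGroup.card_eq_finrank (layI L j) (layF L j) L, hcard,
    Ideal.ramificationIdxIn_eq_ramificationIdx (P.under (𝓞 (layF L j))) P (layI L j),
    Ideal.ramificationIdx'_eq_ramificationIdx (P.under (𝓞 (layF L j))) P]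
  exact under_placeOf_ne_bot L j _

/-- the place of `ℚ`, as a height one prime of `ℤ` -/
def placeZ (p : ℕ) [Fact p.Prime] : HeightOneSpectrum ℤ where
  asIdeal := Ideal.span {(p : ℤ)}
  isPrime := (Ideal.span_singleton_prime (by
    exact_mod_cast (Fact.out : p.Prime).ne_zero)).mpr
      (Nat.prime_iff_prime_int.mp (Fact.out : p.Prime))
  ne_bot := by
    rw [Ne, Ideal.span_singleton_eq_bot]
    exact_mod_cast (Fact.out : p.Prime).ne_zero

omit [IsGalois ℚ L] in
theorem under_placeOf_eq : (H54.placeOf j).asIdeal.under ℤ = (placeZ p).asIdeal := by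
  have hmax : (placeZ p).asIdeal.IsMaximal := (placeZ p).isMaximal
  symm
  apply hmax.eq_of_le (Ideal.IsPrime.ne_top inferInstance)
  rw [placeZ, Ideal.span_singleton_le_iff_mem, Ideal.under_def, Ideal.mem_comap, map_natCast]
  exact H54.prime_mem_placeOf j

omit [IsGalois ℚ L] in
theorem valuation_p : (H54.placeOf j).valuation L (p : L) =
    WithZero.exp (-(((H54.placeOf j).asIdeal.under ℤ).ramificationIdx'
      (H54.placeOf j).asIdeal : ℤ)) := by
  have hover : (H54.placeOf j).asIdeal.LiesOver (placeZ p).asIdeal := ⟨(under_placeOf_eq L j).symm⟩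
  have h1 := HeightOneSpectrum.valuation_liesOver (K := ℚ) L (placeZ p) (H54.placeOf j) (p : ℚ)
  rw [show algebraMap ℚ L (p : ℚ) = (p : L) from map_natCast _ _] at h1
  rw [← h1, under_placeOf_eq]
  have h2 : (placeZ p).valuation ℚ (p : ℚ) = WithZero.exp (-1) := by
    have h3 := HeightOneSpectrum.valuation_of_algebraMap (K := ℚ) (placeZ p) (p : ℤ)
    rw [(placeZ p).intValuation_singleton (r := (p : ℤ))
      (by exact_mod_cast (Fact.out : p.Prime).ne_zero) rfl] at h3
    simpa using h3
  rw [h2, ← WithZero.exp_nsmul]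
  congr 1
  simp

/-- existence of a uniformizer, the value group of the inertia field -/
theorem exists_layer : ∃ ϖ : L, ‖j ϖ‖ ^ (Module.finrank (layF L j) L) = ‖(p : PadicAlgCl p)‖ ∧
    (∀ x ∈ layF L j, x ≠ 0 → ∃ k : ℤ, ‖j x‖ = ‖(p : PadicAlgCl p)‖ ^ k) := by
  obtain ⟨c, hc0, hc1, hc⟩ := H54.exists_norm_eq_zpow j
  obtain ⟨ϖ, hϖ⟩ := (H54.placeOf j).valuation_exists_uniformizer L
  have hϖ0 : ϖ ≠ 0 := by
    rintro rfl
    rw [map_zero] at hϖ
    exact WithZero.exp_ne_zero hϖ.symm
  set N := Module.finrank (layF L j) L with hN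
  have hp0 : (p : L) ≠ 0 := by exact_mod_cast (Fact.out : p.Prime).ne_zero
  have hnp : ‖(p : PadicAlgCl p)‖ = c ^ (N : ℤ) := by
    have h1 := hc (p : L) hp0
    rw [map_natCast, valuation_p, WithZero.log_exp, neg_neg, ← finrank_layF] at h1
    exact h1
  refine ⟨ϖ, ?_, ?_⟩
  · rw [hc ϖ hϖ0, hϖ, WithZero.log_exp, neg_neg, zpow_one, hnp, zpow_natCast]
  · intro x hx hx0
    set v : HeightOneSpectrum (𝓞 (layF L j)) := H54.placeOf (j.comp (algebraMap (layF L j) L))
      with hv
    have hover : (H54.placeOf j).asIdeal.LiesOver v.asIdeal := ⟨(H54.under_placeOf j).symm⟩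
    have h1 := HeightOneSpectrum.valuation_liesOver (K := layF L j) L v (H54.placeOf j) ⟨x, hx⟩
    have h2 : v.asIdeal.ramificationIdx' (H54.placeOf j).asIdeal = N := by
      rw [hN, finrank_layF', H54.under_placeOf j]
    have h3 : algebraMap (layF L j) L ⟨x, hx⟩ = x := rfl
    rw [h2, h3] at h1
    have hvx : v.valuation (layF L j) ⟨x, hx⟩ ≠ 0 := by
      rw [Valuation.ne_zero_iff]
      intro h
      exact hx0 (congrArg Subtype.val h)
    refine ⟨-(WithZero.log (v.valuation (layF L j) ⟨x, hx⟩)), ?_⟩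
    rw [hc x hx0, ← h1, hnp, WithZero.log_pow, ← zpow_mul]
    congr 1
    simp

end Layer

end Fermat.Agent.H64
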