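import Fermat.Agent.H64FLayer

/-!
# S56-[B4] : the field fixed by inertia, Eisenstein expansions
-/

set_option autoImplicit false

open scoped Pointwise
open Polynomial NumberField IsDedekindDomain

noncomputable section

namespace Fermat.Agent.H64

local instance isAlgebraicQbar_fl : Algebra.IsAlgebraic ℚ (AlgebraicClosure ℚ) :=
  AlgebraicClosure.isAlgebraic ℚ
local instance isAlgClosureQbar_fl : IsAlgClosure ℚ (AlgebraicClosure ℚ) :=
  ⟨inferInstance, inferInstance⟩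
local instance normalQbar_fl : Normal ℚ (AlgebraicClosure ℚ) :=
  IsAlgClosure.normal ℚ (AlgebraicClosure ℚ)
local instance galQbar_fl : IsGalois ℚ (AlgebraicClosure ℚ) := ⟨⟩

variable {p : ℕ} [Fact p.Prime]

variable (p) in
/-- being fixed by inertia -/
def FixI (x : FQb) : Prop := ∀ σ ∈ Ip p, σ x = x

theorem exists_galois_field (S : Set FQb) (hS : S.Finite) :
    ∃ L : IntermediateField ℚ FQb, FiniteDimensional ℚ L ∧ IsGalois ℚ L ∧ S ⊆ L := by
  have : Finite S := hS.to_subtype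
  exact ⟨(FiniteGaloisIntermediateField.adjoin ℚ S).toIntermediateField,
    (FiniteGaloisIntermediateField.adjoin ℚ S).finiteDimensional,
    (FiniteGaloisIntermediateField.adjoin ℚ S).isGalois,
    FiniteGaloisIntermediateField.subset_adjoin ℚ S⟩

/-- the embedding of a subfield of `ℚ̄` in `PadicAlgCl p` -/
def jEmb (p : ℕ) [Fact p.Prime] (L : IntermediateField ℚ FQb) : L →+* PadicAlgCl p :=
  (padicEmbedding p : FQb →+* PadicAlgCl p).comp (algebraMap L FQb)

theorem norm_jEmb (L : IntermediateField ℚ FQb) (x : L) : ‖jEmb p L x‖ = nm p (x : FQb) := rfl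

theorem exists_lift_layI (L : IntermediateField ℚ FQb) [NumberField L] [IsGalois ℚ L]
    {τ : L ≃ₐ[ℚ] L} (hτ : τ ∈ layI L (jEmb p L)) :
    ∃ σ ∈ Ip p, ∀ x : L, σ (x : FQb) = τ x := by
  have hcenter : (H63.center (padicPlace p)).comap (algebraMap (𝓞 L) (𝓞 FQb)) =
      (H54.placeOf (jEmb p L)).asIdeal := by
    ext x
    rw [Ideal.mem_comap, H54.mem_placeOf, H63.mem_center_iff, mem_nonunits_iff_nm]
    rfl
  obtain ⟨σ, hσ, hσ'⟩ := H63.exists_mem_inertiaSubgroupIn_restrict (K := ℚ) (F := L)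
    (padicPlace p) τ (by rw [hcenter]; exact hτ)
  refine ⟨σ, hσ, fun x => ?_⟩
  rw [← hσ']
  exact (AlgEquiv.restrictNormal_commutes σ L x).symm

theorem mem_layF_of_fixI (L : IntermediateField ℚ FQb) [NumberField L] [IsGalois ℚ L]
    {x : L} (hx : FixI p (x : FQb)) : x ∈ layF L (jEmb p L) := by
  rintro ⟨τ, hτ⟩
  obtain ⟨σ, hσ, h⟩ := exists_lift_layI L hτ
  apply Subtype.ext
  show ((τ x : L) : FQb) = x
  rw [← h, hx σ hσ]

theorem fixI_of_mem_layF (L : IntermediateField ℚ FQb) [NumberField L] [IsGalois ℚ L]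
    {x : L} (hx : x ∈ layF L (jEmb p L)) : FixI p (x : FQb) := by
  intro σ hσ
  have hτ : AlgEquiv.restrictNormalHom L σ ∈ layI L (jEmb p L) := by
    intro b
    rw [Submodule.mem_toAddSubgroup, H54.mem_placeOf]
    have h1 : jEmb p L (algebraMap (𝓞 L) L (AlgEquiv.restrictNormalHom L σ • b - b)) =
        padicEmbedding p (σ ((b : L) : FQb) - ((b : L) : FQb)) := by
      have h2 := AlgEquiv.restrictNormal_commutes σ L (b : L)
      have h3 : σ ((b : L) : FQb) = ((AlgEquiv.restrictNormalHom L σ (b : L) : L) : FQb) := h2.symm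
      rw [h3]
      rfl
    rw [h1]
    exact nm_inertia hσ (nm_le_one_of_isIntegral (by
      have h3 : IsIntegral ℤ (b : L) := b.2
      exact h3.map (algebraMap L FQb).toIntAlgHom))
  have h1 := hx ⟨_, hτ⟩
  have h2 := congrArg (fun z : L => (z : FQb)) h1
  have h3 := AlgEquiv.restrictNormal_commutes σ L x
  change ((AlgEquiv.restrictNormalHom L σ x : L) : FQb) = x at h2
  have h4 : σ (x : FQb) = ((AlgEquiv.restrictNormalHom L σ x : L) : FQb) := h3.symm
  rw [h4, h2]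

/-- **The value group of the field fixed by inertia is `|p|^ℤ`.** -/
theorem FixI.exists_zpow {x : FQb} (hx : FixI p x) (hx0 : x ≠ 0) :
    ∃ k : ℤ, nm p x = nm p (p : FQb) ^ k := by
  obtain ⟨L, hfd, hgal, hL⟩ := exists_galois_field {x} (Set.finite_singleton x)
  have : NumberField L := @NumberField.mk _ _ inferInstance hfd
  have hxL : x ∈ L := hL rfl
  obtain ⟨ϖ, -, h⟩ := exists_layer L (jEmb p L)
  obtain ⟨k, hk⟩ := h ⟨x, hxL⟩ (mem_layF_of_fixI L hx) (fun h0 => hx0 (congrArg Subtype.val h0))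
  refine ⟨k, ?_⟩
  rw [norm_jEmb] at hk
  rw [hk]
  congr 1
  unfold nm
  rw [map_natCast]

theorem nm_p_zpow_inj {a b : ℤ} (h : nm p (p : FQb) ^ a = nm p (p : FQb) ^ b) : a = b :=
  zpow_right_injective₀ (nm_p_pos p) (nm_p_lt_one p).ne h

/-- the norm of an Eisenstein expansion -/
theorem nm_term_le_sum {N : ℕ} (hN : 0 < N) {π : FQb} (hπ : nm p π ^ N = nm p (p : FQb))
    (f : Fin N → FQb) (hf : ∀ i, FixI p (f i)) (i : Fin N) :
    nm p (f i * π ^ (i : ℕ)) ≤ nm p (∑ i, f i * π ^ (i : ℕ)) := by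
  classical
  have : Nonempty (Fin N) := ⟨i⟩
  obtain ⟨i₀, -, hi₀⟩ := Finset.exists_max_image (Finset.univ : Finset (Fin N))
    (fun i => nm p (f i * π ^ (i : ℕ))) ⟨i, Finset.mem_univ i⟩
  refine (hi₀ i (Finset.mem_univ i)).trans ?_
  rcases eq_or_lt_of_le (nm_nonneg (p := p) (f i₀ * π ^ (i₀ : ℕ))) with h0 | hpos
  · rw [← h0]; exact nm_nonneg _
  have hπ0 : 0 < nm p π := by
    rcases eq_or_lt_of_le (nm_nonneg (p := p) π) with h | h
    · rw [← h, zero_pow hN.ne'] at hπ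
      exact absurd hπ.symm (nm_p_pos p).ne'
    · exact h
  have key : ∀ k : Fin N, k ≠ i₀ → nm p (f k * π ^ (k : ℕ)) < nm p (f i₀ * π ^ (i₀ : ℕ)) := by
    intro k hk
    refine lt_of_le_of_ne (hi₀ k (Finset.mem_univ k)) fun heq => hk ?_
    have hfk : f k ≠ 0 := by
      intro h
      rw [h, zero_mul, nm_zero] at heq
      exact hpos.ne heq
    have hfi : f i₀ ≠ 0 := by
      intro h
      rw [h, zero_mul, nm_zero] at hpos
      exact lt_irrefl _ hpos
    obtain ⟨a, ha⟩ := (hf k).exists_zpow hfk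
    obtain ⟨b, hb⟩ := (hf i₀).exists_zpow hfi
    have h1 : nm p (f k * π ^ (k : ℕ)) ^ N = nm p (p : FQb) ^ (a * N + k) := by
      rw [nm_mul, nm_pow, mul_pow, ← pow_mul, mul_comm (k : ℕ) N, pow_mul, hπ, ha,
        zpow_add₀ (nm_p_pos p).ne', zpow_mul, zpow_natCast, zpow_natCast]
    have h2 : nm p (f i₀ * π ^ (i₀ : ℕ)) ^ N = nm p (p : FQb) ^ (b * N + i₀) := by
      rw [nm_mul, nm_pow, mul_pow, ← pow_mul, mul_comm (i₀ : ℕ) N, pow_mul, hπ, hb,
        zpow_add₀ (nm_p_pos p).ne', zpow_mul, zpow_natCast, zpow_natCast]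
    rw [heq, h2] at h1
    have h3 := nm_p_zpow_inj h1
    have h4 : (k : ℤ) < N := by exact_mod_cast k.2
    have h5 : (i₀ : ℤ) < N := by exact_mod_cast i₀.2
    have h6 : (k : ℤ) = i₀ := by
      have h7 : ((k : ℤ)) % N = (i₀ : ℤ) % N := by
        have := congrArg (fun z : ℤ => z % N) h3
        simp only [Int.add_comm (_ * _), Int.add_mul_emod_self_right] at this
        exact this.symm
      rwa [Int.emod_eq_of_lt (by positivity) h4, Int.emod_eq_of_lt (by positivity) h5] at h7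
    exact Fin.ext (by exact_mod_cast h6)
  have h1 : ∑ i, f i * π ^ (i : ℕ) - f i₀ * π ^ (i₀ : ℕ) =
      ∑ i ∈ Finset.univ.erase i₀, f i * π ^ (i : ℕ) := by
    rw [← Finset.add_sum_erase _ _ (Finset.mem_univ i₀)]
    ring
  have h2 : nm p (∑ i, f i * π ^ (i : ℕ) - f i₀ * π ^ (i₀ : ℕ)) <
      nm p (f i₀ * π ^ (i₀ : ℕ)) := by
    rw [h1]
    exact nm_sum_lt _ _ hpos fun k hk => key k (Finset.ne_of_mem_erase hk)
  exact (nm_eq_of_sub_lt h2).ge

/-- A finite layer: a uniformizer `ϖ` such that every element has an expansion in powers of `ϖ`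
with coefficients fixed by inertia. -/
theorem exists_uniformizer (L : IntermediateField ℚ FQb) [NumberField L] [IsGalois ℚ L] :
    ∃ (N : ℕ) (ϖ : FQb), 0 < N ∧ ϖ ∈ L ∧ nm p ϖ ^ N = nm p (p : FQb) ∧
      ∀ x ∈ L, ∃ f : Fin N → FQb, (∀ i, f i ∈ L ∧ FixI p (f i)) ∧ x = ∑ i, f i * ϖ ^ (i : ℕ) := by
  obtain ⟨ϖ, hϖ, -⟩ := exists_layer L (jEmb p L)
  set N := Module.finrank (layF L (jEmb p L)) L with hN
  have hNpos : 0 < N := Module.finrank_pos
  have hϖ' : nm p (ϖ : FQb) ^ N = nm p (p : FQb) := by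
    rw [norm_jEmb] at hϖ
    rw [hϖ]
    unfold nm
    rw [map_natCast]
  refine ⟨N, ϖ, hNpos, ϖ.2, hϖ', ?_⟩
  have hli : LinearIndependent (layF L (jEmb p L)) (fun i : Fin N => ϖ ^ (i : ℕ)) := by
    rw [Fintype.linearIndependent_iff]
    intro g hg i
    have h1 : ∑ i, ((g i : L) : FQb) * (ϖ : FQb) ^ (i : ℕ) = 0 := by
      have h2 := congrArg (algebraMap L FQb) hg
      rw [map_sum, map_zero] at h2
      rw [← h2]
      refine Finset.sum_congr rfl fun i _ => ?_
      rw [Algebra.smul_def, map_mul, map_pow]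
      rfl
    have h2 := nm_term_le_sum hNpos hϖ' (fun i => ((g i : L) : FQb))
      (fun i => fixI_of_mem_layF L (g i).2) i
    rw [h1, nm_zero] at h2
    have h3 := nm_eq_zero.mp (le_antisymm h2 (nm_nonneg _))
    have hϖ0 : (ϖ : FQb) ≠ 0 := by
      intro h
      rw [h, nm_zero, zero_pow hNpos.ne'] at hϖ'
      exact (nm_p_pos p).ne hϖ'
    rcases mul_eq_zero.mp h3 with h4 | h4
    · exact Subtype.ext (Subtype.ext h4)
    · exact absurd (eq_zero_of_pow_eq_zero h4) hϖ0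
  have hcard : Fintype.card (Fin N) = Module.finrank (layF L (jEmb p L)) L := by
    rw [Fintype.card_fin]
  intro x hx
  have : Nonempty (Fin N) := ⟨⟨0, hNpos⟩⟩
  let b := basisOfLinearIndependentOfCardEqFinrank hli hcard
  refine ⟨fun i => ((b.repr ⟨x, hx⟩ i : L) : FQb), fun i => ⟨(b.repr ⟨x, hx⟩ i : L).2,
    fixI_of_mem_layF L (b.repr ⟨x, hx⟩ i).2⟩, ?_⟩
  have h1 := b.sum_repr ⟨x, hx⟩
  have h2 := congrArg (algebraMap L FQb) h1
  rw [map_sum] at h2
  have h3 : algebraMap L FQb ⟨x, hx⟩ = x := rfl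
  rw [h3] at h2
  refine h2.symm.trans ?_
  refine Finset.sum_congr rfl fun i _ => ?_
  rw [Algebra.smul_def, map_mul]
  have h4 : b i = ϖ ^ (i : ℕ) := by
    rw [coe_basisOfLinearIndependentOfCardEqFinrank]
  rw [h4, map_pow]
  rfl

end Fermat.Agent.H64
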