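import Fermat.Agent.H64FCore

/-!
# S56-[B4] : levels of Kummer classes over the field `π ^ (p ^ 2 - 1) = - p`
-/

set_option autoImplicit false

open ExtCitation

noncomputable section

namespace Fermat.Agent.H64

variable {p : ℕ} [Fact p.Prime]

theorem two_lt_sq : 2 < p ^ 2 - 1 := by
  have hp := (Fact.out : p.Prime).two_le
  have h1 : 2 ^ 2 ≤ p ^ 2 := Nat.pow_le_pow_left hp 2
  omega

theorem sq_sub_one_pos : 0 < p ^ 2 - 1 := lt_trans (by norm_num) (two_lt_sq (p := p))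

theorem sq_sub_one_add : p ^ 2 - 1 + 1 = p ^ 2 := by
  have := sq_sub_one_pos (p := p)
  omega

theorem sq_sub_one_coprime : (p ^ 2 - 1).Coprime p := by
  have h1 : (p ^ 2 - 1).Coprime (p ^ 2) := by
    rw [Nat.coprime_comm]
    conv_lhs => rw [← sq_sub_one_add (p := p)]
    simp
  exact Nat.Coprime.coprime_dvd_right (dvd_pow_self p two_ne_zero) h1

theorem sq_sub_one_eq : p ^ 2 - 1 = (p - 1) * (p + 1) := by
  obtain ⟨q, hq⟩ : ∃ q, p = q + 1 := ⟨p - 1, by have := (Fact.out : p.Prime).pos; omega⟩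
  rw [hq]
  simp only [Nat.add_sub_cancel]
  have : (q + 1) ^ 2 = q * (q + 1 + 1) + 1 := by ring
  rw [this, Nat.add_sub_cancel]

section Setup

variable {π : FQb} (hπ : π ^ (p ^ 2 - 1) = -(p : FQb)) {t : FGQ} (ht : t ∈ Ip p) {ζ : FQb}
  (hζ : IsPrimitiveRoot ζ (p ^ 2 - 1)) (htπ : t π = ζ * π)

include hπ in
theorem pi_ne0 : π ≠ 0 := pi_ne_zero sq_sub_one_pos hπ

include hπ in
theorem nm_pi_pos' : 0 < nm p π := nm_pi_pos sq_sub_one_pos hπ

include hπ in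
theorem nm_pi_pow_lt {m n : ℕ} (h : m < n) : nm p π ^ n < nm p π ^ m :=
  pow_lt_pow_right_of_lt_one₀ (nm_pi_pos' hπ) (nm_pi_lt_one hπ) h

include hπ in
theorem nm_pi_pow_le {m n : ℕ} (h : m ≤ n) : nm p π ^ n ≤ nm p π ^ m :=
  pow_le_pow_of_le_one (nm_nonneg _) (nm_pi_lt_one hπ).le h

include hπ in
theorem le_of_nm_pi_pow_le {m n : ℕ} (h : nm p π ^ n ≤ nm p π ^ m) : m ≤ n := by
  by_contra hcon
  rw [not_le] at hcon
  exact absurd h (not_le.mpr (nm_pi_pow_lt hπ hcon))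

include hπ ht hζ htπ in
theorem nm_le_pi_succ {y : FQb} (hy : FixT p π y) {n : ℕ} (h : nm p y < nm p π ^ n) :
    nm p y ≤ nm p π ^ (n + 1) := by
  by_cases hy0 : y = 0
  · subst hy0; rw [nm_zero]; exact pow_nonneg (nm_nonneg _) _
  obtain ⟨j, hj⟩ := hy.exists_zpow sq_sub_one_pos sq_sub_one_coprime hπ ht hζ htπ hy0
  rw [hj, ← zpow_natCast] at h
  have h1 := (zpow_lt_zpow_iff_right_of_lt_one₀ (nm_pi_pos' hπ) (nm_pi_lt_one hπ)).mp h
  rw [hj, ← zpow_natCast]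
  exact (zpow_le_zpow_iff_right_of_lt_one₀ (nm_pi_pos' hπ) (nm_pi_lt_one hπ)).mpr
    (by push_cast; omega)

theorem nm_sub_one_lt_of_pow {u : FQb} (h : nm p (u ^ p - 1) < 1) : nm p (u - 1) < 1 := by
  have hp := (Fact.out : p.Prime)
  have h1 : nm p (u ^ p) = 1 := by
    rw [← nm_one (p := p)]
    apply nm_eq_of_sub_lt
    rw [nm_one]; exact h
  have h2 : nm p u = 1 := by
    rw [nm_pow] at h1
    exact (pow_eq_one_iff_of_nonneg (nm_nonneg _) hp.ne_zero).mp h1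
  have h3 : rs (p := p) (u ^ p) = rs 1 := by
    rw [rs_eq_iff h1.le (by simp)]; exact h
  rw [rs_pow h2.le, rs_one] at h3
  have h4 : rs (p := p) u = 1 := by
    have h5 : frobenius (Kap p) p (rs u) = frobenius (Kap p) p 1 := by
      rw [frobenius_def, frobenius_def, h3, one_pow]
    exact frobenius_inj (Kap p) p h5
  rw [← rs_eq_iff h2.le (by simp), h4, rs_one]

include hπ ht hζ htπ in
/-- `p`-th powers of elements fixed by `Tm` near one -/
theorem good_unit {u : FQb} (hu : FixT p π u) {n : ℕ} (hn1 : p ^ 2 - 1 ≤ n) (hn2 : n < p ^ 2 + p)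
    (hn3 : n ≠ p ^ 2) (h : nm p (u ^ p - 1) ≤ nm p π ^ n) : nm p (u ^ p - 1) < nm p π ^ n := by
  have hp := (Fact.out : p.Prime)
  have he := two_lt_sq (p := p)
  have he1 := sq_sub_one_add (p := p)
  have hpe : nm p π ^ (p ^ 2 - 1) = nm p (p : FQb) := nm_pi_pow hπ
  have hn0 : n ≠ 0 := by omega
  have hlt1 : nm p (u ^ p - 1) < 1 :=
    h.trans_lt (pow_lt_one₀ (nm_nonneg _) (nm_pi_lt_one hπ) hn0)
  have hy1 := nm_sub_one_lt_of_pow hlt1
  by_cases hy0 : u - 1 = 0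
  · rw [sub_eq_zero.mp hy0, one_pow, sub_self, nm_zero]
    exact pow_pos (nm_pi_pos' hπ) _
  set y := u - 1 with hy
  have hyT : FixT p π y := by
    intro σ hσ
    rw [hy, map_sub, map_one, hu σ hσ]
  obtain ⟨j', hj'⟩ := hyT.exists_zpow sq_sub_one_pos sq_sub_one_coprime hπ ht hζ htπ hy0
  have hj1 : 0 < j' := by
    by_contra hcon
    rw [hj'] at hy1
    exact absurd hy1 (not_lt.mpr (one_le_zpow_of_nonpos₀ (nm_pi_pos' hπ) (nm_pi_lt_one hπ).le
      (by omega)))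
  obtain ⟨s, rfl⟩ : ∃ s : ℕ, j' = s := ⟨j'.toNat, by omega⟩
  rw [zpow_natCast] at hj'
  have hs1 : 1 ≤ s := by exact_mod_cast hj1
  obtain ⟨w, hw, h1⟩ := exists_one_add_pow (p := p) hy1.le
  have hupy : u ^ p - 1 = y ^ p + p * y * (1 + y * w) := by
    rw [show u = 1 + y by rw [hy]; ring, h1]
    ring
  have hw1 : nm p (1 + y * w) = 1 := by
    rw [← nm_one (p := p)]
    apply nm_eq_of_sub_lt
    rw [add_sub_cancel_left, nm_mul, nm_one]
    exact mul_lt_one_of_nonneg_of_lt_one_left (nm_nonneg _) hy1 hw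
  have hA : nm p (y ^ p) = nm p π ^ (p * s) := by rw [nm_pow, hj', ← pow_mul, mul_comm]
  have hB : nm p ((p : FQb) * y * (1 + y * w)) = nm p π ^ (p ^ 2 - 1 + s) := by
    rw [nm_mul, nm_mul, hw1, mul_one, hj', ← hpe, ← pow_add]
  have hprod := sq_sub_one_eq (p := p)
  rcases Nat.lt_or_ge s (p + 1) with hs | hs
  · -- small `s`
    have hps : p * s < p ^ 2 - 1 + s := by
      have h2 : (p - 1) * s < (p - 1) * (p + 1) :=
        Nat.mul_lt_mul_of_pos_left hs (by have := hp.two_le; omega)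
      have h3 : p * s = (p - 1) * s + s := by
        conv_lhs => rw [show p = (p - 1) + 1 by have := hp.two_le; omega]
        rw [add_mul, one_mul]
      omega
    have h2 : nm p (u ^ p - 1) = nm p π ^ (p * s) := by
      rw [← hA]
      apply nm_eq_of_sub_lt
      rw [hupy, add_sub_cancel_left, hB, hA]
      exact nm_pi_pow_lt hπ hps
    rw [h2] at h ⊢
    have h3 := le_of_nm_pi_pow_le hπ h
    -- `p * s ≥ p ^ 2 - 1` forces `s = p`
    have hsp : s = p := by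
      by_contra hne
      have h4 : s ≤ p - 1 := by omega
      have h5 : p * s ≤ p * (p - 1) := Nat.mul_le_mul_left p h4
      have h6 : p * (p - 1) + p = p ^ 2 := by
        rw [sq, ← Nat.mul_succ, Nat.succ_eq_add_one, Nat.sub_add_cancel hp.one_lt.le]
      have := hp.two_le
      omega
    rw [hsp, ← sq] at h3 ⊢
    exact nm_pi_pow_lt hπ (by omega)
  · -- large `s`
    have h2 : nm p (u ^ p - 1) ≤ nm p π ^ (p ^ 2 + p) := by
      rw [hupy]
      apply nm_add_le_of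
      · rw [hA]
        apply nm_pi_pow_le hπ
        have : p * (p + 1) ≤ p * s := Nat.mul_le_mul_left p hs
        have e1 : p * (p + 1) = p ^ 2 + p := by ring
        omega
      · rw [hB]
        exact nm_pi_pow_le hπ (by omega)
    exact h2.trans_lt (nm_pi_pow_lt hπ hn2)

end Setup

section Res

variable {k : Type*} [Field k]

theorem addChar_pow [CharP k p] (ψ : AddChar k FQb) (y : k) : ψ y ^ p = 1 := by
  rw [← AddChar.map_nsmul_eq_pow, nsmul_eq_mul, CharP.cast_eq_zero, zero_mul,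
    AddChar.map_zero_eq_one]

variable (p) in
/-- residues of Kummer classes at level `n` -/
def Res (π : FQb) (x : FGQ → k) (n : ℕ) (ψ : AddChar k FQb) (m : Kap p) : Prop :=
  ∃ α : FQb, (∀ σ ∈ Tm p π, σ α = ψ (x σ) * α) ∧ nm p (α ^ p - 1) ≤ nm p π ^ n ∧
    rs ((α ^ p - 1) / π ^ n) = m

variable {π : FQb} (hπ : π ^ (p ^ 2 - 1) = -(p : FQb)) {x x' x'' : FGQ → k}

include hπ in
theorem res_nm {α : FQb} {n : ℕ} (hn : 0 < n) (h : nm p (α ^ p - 1) ≤ nm p π ^ n) :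
    nm p (α ^ p - 1) < 1 ∧ nm p α = 1 := by
  have h1 : nm p (α ^ p - 1) < 1 :=
    h.trans_lt (pow_lt_one₀ (nm_nonneg _) (nm_pi_lt_one hπ) hn.ne')
  refine ⟨h1, ?_⟩
  have h2 : nm p (α ^ p) = 1 := by
    rw [← nm_one (p := p)]
    apply nm_eq_of_sub_lt
    rw [nm_one]; exact h1
  rw [nm_pow] at h2
  exact (pow_eq_one_iff_of_nonneg (nm_nonneg _) (Fact.out : p.Prime).ne_zero).mp h2

include hπ in
theorem nm_div_pi_le {y : FQb} {n : ℕ} (h : nm p y ≤ nm p π ^ n) : nm p (y / π ^ n) ≤ 1 := by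
  rw [nm_div, nm_pow]
  exact div_le_one_of_le₀ h (pow_nonneg (nm_nonneg _) _)

theorem fixT_pow_of [CharP k p] {α : FQb} {ψ : AddChar k FQb}
    (hα : ∀ σ ∈ Tm p π, σ α = ψ (x σ) * α) : FixT p π (α ^ p) := by
  intro σ hσ
  rw [map_pow, hα σ hσ, mul_pow, addChar_pow, one_mul]

include hπ in
theorem Res.unique {t : FGQ} (ht : t ∈ Ip p) {ζ : FQb} (hζ : IsPrimitiveRoot ζ (p ^ 2 - 1))
    (htπ : t π = ζ * π) {n : ℕ} (hn1 : p ^ 2 - 1 ≤ n) (hn2 : n < p ^ 2 + p) (hn3 : n ≠ p ^ 2)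
    {ψ : AddChar k FQb} {m m' : Kap p} (h : Res p π x n ψ m) (h' : Res p π x n ψ m') : m = m' := by
  obtain ⟨α, hα, hαn, rfl⟩ := h
  obtain ⟨β, hβ, hβn, rfl⟩ := h'
  have hn0 : 0 < n := lt_of_lt_of_le sq_sub_one_pos hn1
  obtain ⟨hα1, hαn1⟩ := res_nm hπ hn0 hαn
  obtain ⟨hβ1, hβn1⟩ := res_nm hπ hn0 hβn
  have hα0 : α ≠ 0 := nm_pos.mp (by rw [hαn1]; exact zero_lt_one)
  have hβ0 : β ≠ 0 := nm_pos.mp (by rw [hβn1]; exact zero_lt_one)
  have hu : FixT p π (β / α) := by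
    intro σ hσ
    have h1 : ψ (x σ) ≠ 0 := by
      intro h0
      have h1 := hβ σ hσ
      rw [h0, zero_mul] at h1
      exact hβ0 ((map_eq_zero σ).mp h1)
    rw [map_div₀, hα σ hσ, hβ σ hσ, mul_div_mul_left _ _ h1]
  have e1 : (β / α) ^ p - 1 = ((β ^ p - 1) - (α ^ p - 1)) / α ^ p := by
    rw [div_pow]
    field_simp
    ring
  have h1 : nm p ((β / α) ^ p - 1) ≤ nm p π ^ n := by
    rw [e1, nm_div, nm_pow, hαn1, one_pow, div_one]
    exact nm_sub_le_of hβn hαn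
  have h2 := good_unit hπ ht hζ htπ hu hn1 hn2 hn3 h1
  rw [rs_eq_iff (nm_div_pi_le hπ hαn) (nm_div_pi_le hπ hβn), ← sub_div, nm_div, nm_pow,
    div_lt_one (pow_pos (nm_pi_pos' hπ) _), nm_sub_comm]
  rw [e1, nm_div, nm_pow, hαn1, one_pow, div_one] at h2
  exact h2

include hπ in
theorem Res.mul {n : ℕ} (hn : 0 < n) {ψ ψ' ψ'' : AddChar k FQb} {m m' : Kap p}
    (h : Res p π x n ψ m) (h' : Res p π x' n ψ' m')
    (hx : ∀ σ ∈ Tm p π, ψ'' (x'' σ) = ψ (x σ) * ψ' (x' σ)) : Res p π x'' n ψ'' (m + m') := by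
  obtain ⟨α, hα, hαn, rfl⟩ := h
  obtain ⟨β, hβ, hβn, rfl⟩ := h'
  have hπn : π ^ n ≠ 0 := pow_ne_zero _ (pi_ne0 hπ)
  set A := (α ^ p - 1) / π ^ n with hA
  set B := (β ^ p - 1) / π ^ n with hB
  have hA1 : nm p A ≤ 1 := nm_div_pi_le hπ hαn
  have hB1 : nm p B ≤ 1 := nm_div_pi_le hπ hβn
  have eA : α ^ p = 1 + A * π ^ n := by rw [hA, div_mul_cancel₀ _ hπn]; ring
  have eB : β ^ p = 1 + B * π ^ n := by rw [hB, div_mul_cancel₀ _ hπn]; ring
  have e1 : (α * β) ^ p - 1 = (A + B + A * B * π ^ n) * π ^ n := by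
    rw [mul_pow, eA, eB]; ring
  have hlt : nm p (A * B * π ^ n) < 1 := by
    rw [nm_mul, nm_pow]
    exact mul_lt_one_of_nonneg_of_lt_one_right (nm_mul_le_one hA1 hB1)
      (pow_nonneg (nm_nonneg _) _) (pow_lt_one₀ (nm_nonneg _) (nm_pi_lt_one hπ) hn.ne')
  refine ⟨α * β, ?_, ?_, ?_⟩
  · intro σ hσ
    rw [map_mul, hα σ hσ, hβ σ hσ, hx σ hσ]
    ring
  · rw [e1, nm_mul, nm_pow]
    exact mul_le_of_le_one_left (pow_nonneg (nm_nonneg _) _)
      (nm_add_le_of (nm_add_le_of hA1 hB1) hlt.le)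
  · rw [e1, mul_div_cancel_right₀ _ hπn, rs_add (nm_add_le_of hA1 hB1) hlt.le, rs_add hA1 hB1,
      (rs_eq_zero_iff hlt.le).mpr hlt, add_zero]

include hπ in
theorem Res.one {n : ℕ} : Res p π x n (1 : AddChar k FQb) 0 :=
  ⟨1, fun σ _ => by rw [map_one, AddChar.one_apply, one_mul], by
    rw [one_pow, sub_self, nm_zero]; exact pow_nonneg (nm_nonneg _) _, by
    rw [one_pow, sub_self, zero_div, rs_zero]⟩

include hπ in
theorem Res.inv {n : ℕ} (hn : 0 < n) {ψ ψ'' : AddChar k FQb} {m : Kap p}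
    (h : Res p π x n ψ m) (hx : ∀ σ ∈ Tm p π, ψ'' (x'' σ) = (ψ (x σ))⁻¹) :
    Res p π x'' n ψ'' (-m) := by
  obtain ⟨α, hα, hαn, rfl⟩ := h
  obtain ⟨h1, h2⟩ := res_nm hπ hn hαn
  have hα0 : α ≠ 0 := nm_pos.mp (by rw [h2]; exact zero_lt_one)
  have e1 : (α⁻¹) ^ p - 1 = -(α ^ p - 1) / α ^ p := by
    rw [inv_pow]; field_simp; ring
  have hαp : nm p (α ^ p) = 1 := by rw [nm_pow, h2, one_pow]
  have hπn : π ^ n ≠ 0 := pow_ne_zero _ (pi_ne0 hπ)
  have h3 : nm p ((α⁻¹) ^ p - 1) ≤ nm p π ^ n := by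
    rw [e1, nm_div, nm_neg, hαp, div_one]; exact hαn
  refine ⟨α⁻¹, ?_, h3, ?_⟩
  · intro σ hσ
    rw [map_inv₀, hα σ hσ, hx σ hσ, mul_inv]
  · have hA1 := nm_div_pi_le hπ hαn
    rw [← rs_neg hA1, rs_eq_iff (nm_div_pi_le hπ h3) (by rw [nm_neg]; exact hA1)]
    have e2 : (α⁻¹ ^ p - 1) / π ^ n - -((α ^ p - 1) / π ^ n) =
        (α ^ p - 1) / π ^ n * ((α ^ p - 1) / α ^ p) := by
      rw [e1]
      have : α ^ p ≠ 0 := pow_ne_zero _ hα0
      field_simp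
      ring
    rw [e2, nm_mul]
    refine mul_lt_one_of_nonneg_of_lt_one_right hA1 (nm_nonneg _) ?_
    rw [nm_div, hαp, div_one]
    exact h1

include hπ in
/-- Galois action on residues -/
theorem Res.conj {n : ℕ} {ψ ψ'' : AddChar k FQb} {m : Kap p} (h : Res p π x n ψ m)
    {g : FGQ} (hg : g ∈ Dp p) (G : Kap p → Kap p) (hG : ∀ y, nm p y ≤ 1 → rs (g y) = G (rs y))
    (hconj : ∀ σ ∈ Tm p π, g⁻¹ * σ * g ∈ Tm p π)
    (hx : ∀ σ ∈ Tm p π, ψ'' (x'' σ) = g (ψ (x (g⁻¹ * σ * g)))) :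
    Res p π x'' n ψ'' (G m * th p π g ^ n) := by
  obtain ⟨α, hα, hαn, rfl⟩ := h
  have hπ0 := pi_ne0 hπ
  have hπn : π ^ n ≠ 0 := pow_ne_zero _ hπ0
  set A := (α ^ p - 1) / π ^ n with hA
  have hA1 : nm p A ≤ 1 := nm_div_pi_le hπ hαn
  have eA : α ^ p - 1 = A * π ^ n := by rw [hA, div_mul_cancel₀ _ hπn]
  have e1 : (g α) ^ p - 1 = (g A * (g π / π) ^ n) * π ^ n := by
    rw [← map_pow, ← map_one g, ← map_sub, eA, map_mul, map_pow, div_pow, mul_assoc,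
      div_mul_cancel₀ _ hπn]
  have hgn := nm_sigma_div (p := p) hπ0 hg
  have hgA : nm p (g A) ≤ 1 := by rw [nm_dec hg]; exact hA1
  have hgn' : nm p ((g π / π) ^ n) ≤ 1 := by rw [nm_pow, hgn, one_pow]
  refine ⟨g α, ?_, ?_, ?_⟩
  · intro σ hσ
    have h1 := hα _ (hconj σ hσ)
    have h2 := congrArg g h1
    rw [map_mul, ← hx σ hσ] at h2
    rw [← h2, AlgEquiv.mul_apply, AlgEquiv.mul_apply]
    exact (AlgEquiv.apply_symm_apply g _).symm
  · rw [e1, nm_mul, nm_pow]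
    exact mul_le_of_le_one_left (pow_nonneg (nm_nonneg _) _) (nm_mul_le_one hgA hgn')
  · rw [e1, mul_div_cancel_right₀ _ hπn, rs_mul hgA hgn', hG A hA1, rs_pow hgn.le]
    rfl

include hπ in
theorem Res.raise [CharP k p] {t : FGQ} (ht : t ∈ Ip p) {ζ : FQb}
    (hζ : IsPrimitiveRoot ζ (p ^ 2 - 1))
    (htπ : t π = ζ * π) {n : ℕ} {ψ : AddChar k FQb} (h : Res p π x n ψ 0) :
    ∃ m, Res p π x (n + 1) ψ m := by
  obtain ⟨α, hα, hαn, h0⟩ := h
  rw [rs_eq_zero_iff (nm_div_pi_le hπ hαn), nm_div, nm_pow,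
    div_lt_one (pow_pos (nm_pi_pos' hπ) _)] at h0
  have h1 : FixT p π (α ^ p - 1) := by
    intro σ hσ
    rw [map_sub, map_one, fixT_pow_of hα σ hσ]
  exact ⟨_, α, hα, nm_le_pi_succ hπ ht hζ htπ h1 h0, rfl⟩

theorem pi_fixT : FixT p π π := fun _ hσ => hσ.2

theorem IsTeich.fixT {b : FQb} (hb : IsTeich p b) : FixT p π b := fun _ hσ => hb.inertia hσ.1

/-- the `p`-th power of `1 + b π ^ s` -/
theorem exists_unit_pow {b : FQb} (hb : nm p b ≤ 1) {s : ℕ} (hs : 0 < s) (hπ1 : nm p π < 1) :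
    ∃ w, nm p w ≤ 1 ∧ (1 + b * π ^ s) ^ p - 1 =
      b ^ p * π ^ (p * s) + p * (b * π ^ s) * (1 + b * π ^ s * w) := by
  have hy : nm p (b * π ^ s) ≤ 1 := by
    apply nm_mul_le_one hb
    rw [nm_pow]
    exact pow_le_one₀ (nm_nonneg _) hπ1.le
  obtain ⟨w, hw, h1⟩ := exists_one_add_pow (p := p) hy
  refine ⟨w, hw, ?_⟩
  rw [h1, mul_pow, ← pow_mul, mul_comm s p]
  ring

include hπ in
/-- improvement at level `p ^ 2` -/
theorem Res.improve1 [CharP k p] {t : FGQ} (ht : t ∈ Ip p) {ζ : FQb}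
    (hζ : IsPrimitiveRoot ζ (p ^ 2 - 1)) (htπ : t π = ζ * π) {ψ : AddChar k FQb} {m : Kap p}
    (h : Res p π x (p ^ 2) ψ m) : ∃ m', Res p π x (p ^ 2 + 1) ψ m' := by
  have hp := (Fact.out : p.Prime)
  have hpe : nm p π ^ (p ^ 2 - 1) = nm p (p : FQb) := nm_pi_pow hπ
  have he1 := sq_sub_one_add (p := p)
  have hπn : π ^ (p ^ 2) ≠ 0 := pow_ne_zero _ (pi_ne0 hπ)
  -- choose `b`
  obtain ⟨y, hy, hym⟩ := rs_surjective (-m)
  obtain ⟨b₀, hb₀, hyb₀⟩ := exists_teich hy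
  obtain ⟨b, hb, hbb⟩ := hb₀.exists_root
  have hbn := hb.nm_le
  have hbm : rs (p := p) (b ^ p) = -m := by
    rw [hbb, ← hym, eq_comm, rs_eq_iff hy hb₀.nm_le]
    exact hyb₀
  obtain ⟨w, hw, hw'⟩ := exists_unit_pow (p := p) hbn hp.pos (nm_pi_lt_one hπ)
  have hun : nm p (1 + b * π ^ p * w) ≤ 1 := by
    apply nm_add_le_of (by simp)
    rw [nm_mul, nm_mul, nm_pow]
    exact mul_le_one₀ (mul_le_one₀ hbn (pow_nonneg (nm_nonneg _) _)
      (pow_le_one₀ (nm_nonneg _) (nm_pi_lt_one hπ).le)) (nm_nonneg _) hw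
  have herr : nm p ((p : FQb) * (b * π ^ p) * (1 + b * π ^ p * w)) < nm p π ^ (p ^ 2) := by
    have h1 : nm p ((p : FQb) * (b * π ^ p) * (1 + b * π ^ p * w)) ≤
        nm p π ^ (p ^ 2 - 1 + p) := by
      rw [nm_mul, nm_mul, nm_mul, nm_pow, ← hpe, pow_add]
      calc nm p π ^ (p ^ 2 - 1) * (nm p b * nm p π ^ p) * nm p (1 + b * π ^ p * w)
          ≤ nm p π ^ (p ^ 2 - 1) * (nm p b * nm p π ^ p) * 1 :=
            mul_le_mul_of_nonneg_left hun (by
              exact mul_nonneg (pow_nonneg (nm_nonneg _) _)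
                (mul_nonneg (nm_nonneg _) (pow_nonneg (nm_nonneg _) _)))
        _ ≤ nm p π ^ (p ^ 2 - 1) * (1 * nm p π ^ p) := by
            rw [mul_one]
            exact mul_le_mul_of_nonneg_left (mul_le_mul_of_nonneg_right hbn
              (pow_nonneg (nm_nonneg _) _)) (pow_nonneg (nm_nonneg _) _)
        _ = nm p π ^ (p ^ 2 - 1) * nm p π ^ p := by rw [one_mul]
    exact h1.trans_lt (nm_pi_pow_lt hπ (by have := hp.two_le; omega))
  have hpp : p * p = p ^ 2 := (sq p).symm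
  rw [hpp] at hw'
  have hn1 : nm p (b ^ p * π ^ (p ^ 2)) ≤ nm p π ^ (p ^ 2) := by
    rw [nm_mul, nm_pow, nm_pow]
    exact mul_le_of_le_one_left (pow_nonneg (nm_nonneg _) _) (pow_le_one₀ (nm_nonneg _) hbn)
  have hβn : nm p ((1 + b * π ^ p) ^ p - 1) ≤ nm p π ^ (p ^ 2) := by
    rw [hw']; exact nm_add_le_of hn1 herr.le
  have hβ : Res p π x (p ^ 2) (1 : AddChar k FQb) (-m) := by
    refine ⟨1 + b * π ^ p, ?_, hβn, ?_⟩
    · intro σ hσ
      rw [AddChar.one_apply, one_mul, map_add, map_one, map_mul, map_pow, hb.fixT σ hσ,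
        (mem_Tm.mp hσ).2]
    · rw [← hbm, rs_eq_iff (nm_div_pi_le hπ hβn) (by rw [nm_pow]; exact pow_le_one₀ (nm_nonneg _) hbn)]
      have e2 : ((1 + b * π ^ p) ^ p - 1) / π ^ p ^ 2 - b ^ p =
          ((p : FQb) * (b * π ^ p) * (1 + b * π ^ p * w)) / π ^ p ^ 2 := by
        rw [hw']
        field_simp
        ring
      rw [e2, nm_div, nm_pow, div_lt_one (pow_pos (nm_pi_pos' hπ) _)]
      exact herr
  have h2 := Res.mul hπ (pow_pos hp.pos 2) (x'' := x) (ψ'' := ψ) h hβ (fun σ _ => by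
    rw [AddChar.one_apply, mul_one])
  rw [add_neg_cancel] at h2
  exact h2.raise hπ ht hζ htπ

include hπ in
/-- improvement at level `p ^ 2 + p` -/
theorem Res.improve2 [CharP k p] {t : FGQ} (ht : t ∈ Ip p) {ζ : FQb}
    (hζ : IsPrimitiveRoot ζ (p ^ 2 - 1)) (htπ : t π = ζ * π) {ψ : AddChar k FQb} {m : Kap p}
    (h : Res p π x (p ^ 2 + p) ψ m) : ∃ m', Res p π x (p ^ 2 + p + 1) ψ m' := by
  have hp := (Fact.out : p.Prime)
  have hpe : nm p π ^ (p ^ 2 - 1) = nm p (p : FQb) := nm_pi_pow hπ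
  have he1 := sq_sub_one_add (p := p)
  have hπn : π ^ (p ^ 2 + p) ≠ 0 := pow_ne_zero _ (pi_ne0 hπ)
  -- choose `b` with `b ^ p - b = -m`
  obtain ⟨y, hy, hym⟩ := rs_surjective (-m)
  obtain ⟨b₁, hb₁⟩ : ∃ b₁ : FQb, b₁ ^ p - b₁ = y := by
    have hdeg : (Polynomial.X ^ p - Polynomial.X - Polynomial.C y : Polynomial FQb).degree ≠ 0 := by
      have h1 : (Polynomial.X ^ p - Polynomial.X - Polynomial.C y : Polynomial FQb) =
          Polynomial.X ^ p + (-Polynomial.X - Polynomial.C y) := by ring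
      rw [h1, Polynomial.degree_add_eq_left_of_degree_lt]
      · rw [Polynomial.degree_X_pow]
        exact_mod_cast hp.ne_zero
      · rw [Polynomial.degree_X_pow]
        have h2 : (-Polynomial.X - Polynomial.C y : Polynomial FQb) =
          -(Polynomial.X + Polynomial.C y) := by ring
        rw [h2, Polynomial.degree_neg, Polynomial.degree_X_add_C]
        exact_mod_cast hp.one_lt
    obtain ⟨b₁, hb₁⟩ := IsAlgClosed.exists_root _ hdeg
    refine ⟨b₁, ?_⟩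
    simp only [Polynomial.IsRoot.def, Polynomial.eval_sub, Polynomial.eval_pow, Polynomial.eval_X,
      Polynomial.eval_C] at hb₁
    exact sub_eq_zero.mp hb₁
  have hb₁n : nm p b₁ ≤ 1 := by
    by_contra hcon
    rw [not_le] at hcon
    have h1 : nm p b₁ < nm p (b₁ ^ p) := by
      rw [nm_pow]
      calc nm p b₁ = nm p b₁ ^ 1 := (pow_one _).symm
        _ < nm p b₁ ^ p := pow_lt_pow_right₀ hcon hp.one_lt
    have h2 : nm p (b₁ ^ p - b₁) = nm p (b₁ ^ p) := by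
      apply nm_eq_of_sub_lt
      rw [sub_sub_cancel_left, nm_neg]
      exact h1
    rw [hb₁] at h2
    rw [h2] at hy
    exact absurd (hcon.trans h1) (not_lt.mpr hy)
  obtain ⟨b, hb, hbb₁⟩ := exists_teich hb₁n
  have hbn := hb.nm_le
  have hbpn : nm p (b ^ p) ≤ 1 := by rw [nm_pow]; exact pow_le_one₀ (nm_nonneg _) hbn
  have hbm : rs (p := p) (b ^ p - b) = -m := by
    have h1 : rs (p := p) b = rs b₁ := by
      rw [rs_eq_iff hbn hb₁n, nm_sub_comm]; exact hbb₁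
    rw [rs_sub hbpn hbn, rs_pow hbn, h1, ← rs_pow hb₁n, ← rs_sub (by
      rw [nm_pow]; exact pow_le_one₀ (nm_nonneg _) hb₁n) hb₁n, hb₁, hym]
  obtain ⟨w, hw, hw'⟩ := exists_unit_pow (p := p) hbn (Nat.succ_pos p) (nm_pi_lt_one hπ)
  have hps : p * (p + 1) = p ^ 2 + p := by ring
  have hpπ : (p : FQb) = -π ^ (p ^ 2 - 1) := by rw [hπ, neg_neg]
  have hexp : p ^ 2 - 1 + (p + 1) = p ^ 2 + p := by omega
  have e0 : (1 + b * π ^ (p + 1)) ^ p - 1 =
      (b ^ p - b - b * (b * π ^ (p + 1) * w)) * π ^ (p ^ 2 + p) := by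
    rw [Nat.succ_eq_add_one] at hw'
    rw [hw', hps]
    have e1 : (p : FQb) * (b * π ^ (p + 1)) = -b * π ^ (p ^ 2 + p) := by
      rw [hpπ, ← hexp, pow_add _ (p ^ 2 - 1) (p + 1)]
      ring
    rw [e1]
    ring
  have hπs : nm p (π ^ (p + 1)) < 1 := by
    rw [nm_pow]; exact pow_lt_one₀ (nm_nonneg _) (nm_pi_lt_one hπ) (by omega)
  have herr : nm p (b * (b * π ^ (p + 1) * w)) < 1 := by
    have e1 : b * (b * π ^ (p + 1) * w) = (b * b * w) * π ^ (p + 1) := by ring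
    rw [e1, nm_mul]
    exact mul_lt_one_of_nonneg_of_lt_one_right
      (nm_mul_le_one (nm_mul_le_one hbn hbn) hw) (nm_nonneg _) hπs
  have hbb : nm p (b ^ p - b) ≤ 1 := nm_sub_le_of hbpn hbn
  have hA : nm p (b ^ p - b - b * (b * π ^ (p + 1) * w)) ≤ 1 := nm_sub_le_of hbb herr.le
  have hβn : nm p ((1 + b * π ^ (p + 1)) ^ p - 1) ≤ nm p π ^ (p ^ 2 + p) := by
    rw [e0, nm_mul, nm_pow]
    exact mul_le_of_le_one_left (pow_nonneg (nm_nonneg _) _) hA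
  have hβ : Res p π x (p ^ 2 + p) (1 : AddChar k FQb) (-m) := by
    refine ⟨1 + b * π ^ (p + 1), ?_, hβn, ?_⟩
    · intro σ hσ
      rw [AddChar.one_apply, one_mul, map_add, map_one, map_mul, map_pow, hb.fixT σ hσ,
        (mem_Tm.mp hσ).2]
    · rw [e0, mul_div_cancel_right₀ _ hπn, ← hbm, rs_eq_iff hA hbb, sub_sub_cancel_left, nm_neg]
      exact herr
  have h2 := Res.mul hπ (Nat.add_pos_right _ hp.pos) (x'' := x) (ψ'' := ψ) h hβ (fun σ _ => by
    rw [AddChar.one_apply, mul_one])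
  rw [add_neg_cancel] at h2
  exact h2.raise hπ ht hζ htπ

theorem sigma_root_of_unity {σ : FGQ} (h : cycloChar p σ = 1) {ξ : FQb} (hξ : ξ ^ p = 1) :
    σ ξ = ξ := by
  have hp := (Fact.out : p.Prime)
  rw [H54.cycloChar_spec p σ hξ, h, Units.val_one]
  rcases Nat.lt_or_ge 1 p with h1 | h1
  · rw [ZMod.val_one'' (by omega), pow_one]
  · exact absurd hp.one_lt (not_lt.mpr h1)

theorem cyclo_eq_one_of_th {z : FQb} (hz : nm p z ^ (p - 1) = nm p (p : FQb)) {σ : FGQ}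
    (hσ : σ ∈ Ip p) (h : th p z σ = 1) : cycloChar p σ = 1 := by
  have hp := (Fact.out : p.Prime)
  rw [th_cyclo hz hσ] at h
  have h1 : (((cycloChar p σ : ZMod p).val : ℕ) : Kap p) = ((1 : ℕ) : Kap p) := by
    rw [h, Nat.cast_one]
  rw [CharP.natCast_eq_natCast (Kap p) p] at h1
  have h2 := Nat.ModEq.eq_of_lt_of_lt h1 (ZMod.val_lt _) hp.one_lt
  ext
  rw [Units.val_one, ← ZMod.natCast_zmod_val (cycloChar p σ : ZMod p), h2, Nat.cast_one]

include hπ in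
theorem cyclo_Tm {σ : FGQ} (hσ : σ ∈ Tm p π) : cycloChar p σ = 1 := by
  have hπ0 := pi_ne0 hπ
  have h1 : nm p (π ^ (p + 1)) ^ (p - 1) = nm p (p : FQb) := by
    rw [nm_pow, ← pow_mul, mul_comm, ← sq_sub_one_eq, nm_pi_pow hπ]
  apply cyclo_eq_one_of_th h1 hσ.1
  rw [th_pow hπ0 (Ip_le_Dp hσ.1), th, (mem_Tm.mp hσ).2, div_self hπ0, rs_one, one_pow]

include hπ in
/-- beyond level `p ^ 2 + p` classes are trivial -/
theorem Res.final [CharP k p] {ψ : AddChar k FQb} {m : Kap p}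
    (h : Res p π x (p ^ 2 + p + 1) ψ m) {σ : FGQ} (hσ : σ ∈ Tm p π) : ψ (x σ) = 1 := by
  have hp := (Fact.out : p.Prime)
  obtain ⟨α, hα, hαn, -⟩ := h
  obtain ⟨hα1, hαn1⟩ := res_nm hπ (by positivity) hαn
  have hα0 : α ≠ 0 := nm_pos.mp (by rw [hαn1]; exact zero_lt_one)
  have hroot : nm p (α ^ p - 1) ^ (p - 1) < nm p (p : FQb) ^ p := by
    have hpe : nm p π ^ (p ^ 2 - 1) = nm p (p : FQb) := nm_pi_pow hπ
    refine (pow_le_pow_left₀ (nm_nonneg _) hαn _).trans_lt ?_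
    rw [← pow_mul, ← hpe, ← pow_mul]
    apply nm_pi_pow_lt hπ
    obtain ⟨q, hq⟩ : ∃ q, p = q + 1 := ⟨p - 1, by have := hp.pos; omega⟩
    have hq0 : 0 < q := by have := hp.two_le; omega
    have e1 : (q + 1) ^ 2 - 1 = q * (q + 2) := by
      have : (q + 1) ^ 2 = q * (q + 2) + 1 := by ring
      rw [this, Nat.add_sub_cancel]
    rw [hq, e1, Nat.add_sub_cancel]
    have e2 : ((q + 1) ^ 2 + (q + 1) + 1) * q = q * (q + 2) * (q + 1) + q := by ring
    rw [e2]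
    omega
  obtain ⟨β, hβ, hβ1, -⟩ := exists_root_near_one' hroot
  have hfix : σ β = β := by
    apply root_near_one_fixed hβ1 (Ip_le_Dp hσ.1)
    rw [hβ]
    exact fixT_pow_of hα σ hσ
  have hβ0 : β ≠ 0 := by
    intro h0
    rw [h0, zero_pow hp.ne_zero, eq_comm] at hβ
    exact hα0 (pow_eq_zero_iff hp.ne_zero |>.mp hβ)
  have hξ : (α / β) ^ p = 1 := by
    rw [div_pow, hβ, div_self (pow_ne_zero _ hα0)]
  have h1 := sigma_root_of_unity (cyclo_Tm hπ hσ) hξ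
  have h2 : σ α = α := by
    rw [map_div₀, hfix, div_eq_div_iff hβ0 hβ0] at h1
    exact mul_right_cancel₀ hβ0 h1
  rw [hα σ hσ] at h2
  exact mul_right_cancel₀ hα0 (h2.trans (one_mul α).symm)

end Res

end Fermat.Agent.H64
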