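import Fermat.Agent.H64FConn

/-!
# S56-[B4] : ultrametric echelon forms, connected points of quotients
-/

set_option autoImplicit false

noncomputable section

namespace Fermat.Agent.H64

variable {p : ℕ} [Fact p.Prime]

/-- ultrametric echelon form of a subspace -/
theorem exists_echelon {n : ℕ} (S : Submodule FQb (Fin n → FQb)) :
    ∃ (P : Finset (Fin n)) (f : Fin n → Fin n → FQb),
      (∀ j ∈ P, f j ∈ S ∧ (∀ i ∈ P, f j i = if i = j then 1 else 0) ∧ ∀ i, nm p (f j i) ≤ 1) ∧
      ∀ s ∈ S, s = ∑ j ∈ P, s j • f j := by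
  classical
  induction hN : Module.finrank FQb S using Nat.strong_induction_on generalizing S with
  | _ N ih =>
  by_cases hS : S = ⊥
  · refine ⟨∅, fun _ _ => 0, by simp, ?_⟩
    intro s hs
    rw [hS, Submodule.mem_bot] at hs
    rw [hs]; simp
  obtain ⟨s, hsS, hs0⟩ := Submodule.exists_mem_ne_zero_of_ne_bot hS
  obtain ⟨i₂, hi₂⟩ := Function.ne_iff.mp hs0
  obtain ⟨i₁, -, hi₁⟩ := Finset.exists_max_image Finset.univ (fun i => nm p (s i))
    ⟨i₂, Finset.mem_univ i₂⟩
  have hsi : s i₁ ≠ 0 := by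
    intro h
    have h1 := hi₁ i₂ (Finset.mem_univ i₂)
    rw [h, nm_zero] at h1
    exact hi₂ (nm_eq_zero.mp (le_antisymm h1 (nm_nonneg _)))
  set s₁ : Fin n → FQb := (s i₁)⁻¹ • s with hs₁
  have hs₁S : s₁ ∈ S := S.smul_mem _ hsS
  have hs₁1 : s₁ i₁ = 1 := by
    rw [hs₁, Pi.smul_apply, smul_eq_mul, inv_mul_cancel₀ hsi]
  have hs₁n : ∀ i, nm p (s₁ i) ≤ 1 := by
    intro i
    rw [hs₁, Pi.smul_apply, smul_eq_mul, nm_mul, nm_inv, inv_mul_eq_div]
    exact div_le_one_of_le₀ (hi₁ i (Finset.mem_univ i)) (nm_nonneg _)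
  set S' : Submodule FQb (Fin n → FQb) := S ⊓ LinearMap.ker (LinearMap.proj i₁) with hS'
  have hmem' : ∀ v, v ∈ S' ↔ v ∈ S ∧ v i₁ = 0 := fun v => Iff.rfl
  have hlt : S' < S := by
    refine lt_of_le_of_ne inf_le_left ?_
    intro h
    have h1 : s₁ ∈ S' := by rw [h]; exact hs₁S
    rw [hmem', hs₁1] at h1
    exact one_ne_zero h1.2
  obtain ⟨P', f', h1, h2⟩ := ih _ (by rw [← hN]; exact Submodule.finrank_lt_finrank_of_lt hlt)
    S' rfl
  have hi₁P : i₁ ∉ P' := by
    intro hmem
    have h3 := (h1 i₁ hmem).2.1 i₁ hmem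
    rw [if_pos rfl] at h3
    have h4 := ((hmem' _).mp (h1 i₁ hmem).1).2
    rw [h4] at h3
    exact zero_ne_one h3
  set g : Fin n → FQb := s₁ - ∑ j ∈ P', s₁ j • f' j with hg
  have hgS : g ∈ S := S.sub_mem hs₁S (S.sum_mem fun j hj => S.smul_mem _ ((hmem' _).mp (h1 j hj).1).1)
  have hsum0 : ∀ (c : Fin n → FQb) (i : Fin n), i ∈ P' → (∑ j ∈ P', c j • f' j) i = c i := by
    intro c i hi
    rw [Finset.sum_apply, Finset.sum_eq_single i]
    · rw [Pi.smul_apply, (h1 i hi).2.1 i hi, if_pos rfl, smul_eq_mul, mul_one]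
    · intro j hj hji
      rw [Pi.smul_apply, (h1 j hj).2.1 i hi, if_neg hji.symm, smul_zero]
    · intro h; exact absurd hi h
  have hsum1 : ∀ (c : Fin n → FQb), (∑ j ∈ P', c j • f' j) i₁ = 0 := by
    intro c
    rw [Finset.sum_apply]
    refine Finset.sum_eq_zero fun j hj => ?_
    rw [Pi.smul_apply, ((hmem' _).mp (h1 j hj).1).2, smul_zero]
  have hg0 : ∀ i ∈ P', g i = 0 := by
    intro i hi
    rw [hg, Pi.sub_apply, hsum0 _ i hi, sub_self]
  have hg1 : g i₁ = 1 := by
    rw [hg, Pi.sub_apply, hsum1, hs₁1, sub_zero]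
  have hgn : ∀ i, nm p (g i) ≤ 1 := by
    intro i
    rw [hg, Pi.sub_apply]
    refine nm_sub_le_of (hs₁n i) ?_
    rw [Finset.sum_apply]
    refine nm_sum_le _ _ zero_le_one fun j hj => ?_
    rw [Pi.smul_apply, smul_eq_mul]
    exact nm_mul_le_one (hs₁n j) ((h1 j hj).2.2 i)
  refine ⟨insert i₁ P', fun j => if j = i₁ then g else f' j, ?_, ?_⟩
  · intro j hj
    rw [Finset.mem_insert] at hj
    by_cases hji : j = i₁
    · subst hji
      simp only [if_true]
      refine ⟨hgS, ?_, hgn⟩
      intro i hi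
      rw [Finset.mem_insert] at hi
      rcases hi with rfl | hi
      · rw [if_pos rfl, hg1]
      · rw [hg0 i hi, if_neg]
        rintro rfl
        exact hi₁P hi
    · have hjP : j ∈ P' := hj.resolve_left hji
      simp only [if_neg hji]
      refine ⟨((hmem' _).mp (h1 j hjP).1).1, ?_, (h1 j hjP).2.2⟩
      intro i hi
      rw [Finset.mem_insert] at hi
      rcases hi with rfl | hi
      · rw [((hmem' _).mp (h1 j hjP).1).2, if_neg (Ne.symm hji)]
      · exact (h1 j hjP).2.1 i hi
  · intro v hv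
    rw [Finset.sum_insert hi₁P]
    simp only [if_true]
    have h3 : ∑ j ∈ P', v j • (if j = i₁ then g else f' j) = ∑ j ∈ P', v j • f' j := by
      refine Finset.sum_congr rfl fun j hj => ?_
      rw [if_neg]
      rintro rfl
      exact hi₁P hj
    rw [h3]
    have h4 : v - v i₁ • g ∈ S' := by
      rw [hmem']
      refine ⟨S.sub_mem hv (S.smul_mem _ hgS), ?_⟩
      rw [Pi.sub_apply, Pi.smul_apply, hg1, smul_eq_mul, mul_one, sub_self]
    have h5 := h2 _ h4
    have h6 : ∑ j ∈ P', (v - v i₁ • g) j • f' j = ∑ j ∈ P', v j • f' j := by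
      refine Finset.sum_congr rfl fun j hj => ?_
      rw [Pi.sub_apply, Pi.smul_apply, hg0 j hj, smul_zero, sub_zero]
    rw [h6, sub_eq_iff_eq_add] at h5
    rw [add_comm]
    exact h5

variable {W : Type*} [AddCommGroup W] {act : FGQ → W → W} {n : ℕ}
  {e : Fin n → W → FQb} {a : Fin n → Fin n → Fin n → ℚ}

theorem FData.act_act (h : FData p act n e a) (σ τ : FGQ) (x : W) :
    act σ (act τ x) = act (σ * τ) x := by
  apply h.ext
  intro i
  rw [h.equiv, h.equiv, h.equiv]
  rfl

theorem FData.act_one (h : FData p act n e a) (x : W) : act 1 x = x := by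
  apply h.ext
  intro i
  rw [h.equiv]
  rfl

/-- **connected points of quotients by inertia-stable subgroups** -/
theorem FData.mem_of_cpt (h : FData p act n e a) (hp3 : 3 ≤ p) (W1 : AddSubgroup W)
    (hW1 : ∀ σ ∈ Ip p, ∀ w ∈ W1, act σ w ∈ W1) {z : W} (hz : CPt p e z) (hpz : p • z = 0)
    (hσz : ∀ σ ∈ Ip p, act σ z - z ∈ W1) : z ∈ W1 := by
  classical
  -- the space of `W1`-invariant functions
  let S : Submodule FQb (Fin n → FQb) :=
    { carrier := {c | ∀ x, ∀ w ∈ W1, ∑ i, c i * e i (x + w) = ∑ i, c i * e i x}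
      add_mem' := by
        intro c d hc hd x w hw
        simp only [Pi.add_apply, add_mul, Finset.sum_add_distrib]
        rw [hc x w hw, hd x w hw]
      zero_mem' := by intro x w hw; simp
      smul_mem' := by
        intro b c hc x w hw
        simp only [Pi.smul_apply, smul_eq_mul, mul_assoc, ← Finset.mul_sum]
        rw [hc x w hw] }
  have hSmem : ∀ c, c ∈ S ↔ ∀ x, ∀ w ∈ W1, ∑ i, c i * e i (x + w) = ∑ i, c i * e i x :=
    fun c => Iff.rfl
  obtain ⟨P, f, hP, hPs⟩ := exists_echelon (p := p) S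
  -- translation
  let tr : (Fin n → FQb) → W → Fin n → FQb := fun c z => Matrix.vecMul c (tm e a z)
  have htr : ∀ c z x, ∑ j, tr c z j * e j x = ∑ i, c i * e i (x + z) := by
    intro c z x
    simp only [tr, Matrix.vecMul, dotProduct, h.tm_spec, Finset.mul_sum, Finset.sum_mul]
    rw [Finset.sum_comm]
    refine Finset.sum_congr rfl fun i _ => Finset.sum_congr rfl fun j _ => ?_
    ring
  have htrS : ∀ c ∈ S, ∀ z, tr c z ∈ S := by
    intro c hc z
    rw [hSmem]
    intro x w hw
    rw [htr, htr, add_right_comm]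
    exact hc (x + z) w hw
  have htr_add : ∀ c z w, tr c (z + w) = tr (tr c z) w := by
    intro c z w
    simp only [tr]
    rw [h.tm_add, Matrix.vecMul_vecMul]
  -- the matrix of translation
  let A : W → Matrix P P FQb := fun z j j' => tr (f j) z j'
  have hA : ∀ z, ∀ j : P, tr (f j) z = ∑ j' : P, A z j j' • f j' := by
    intro z j
    conv_lhs => rw [hPs _ (htrS _ (hP j j.2).1 z)]
    rw [← Finset.sum_coe_sort P (fun j' => tr (f j) z j' • f j')]
  have hfδ : ∀ j j' : P, f j j' = if (j' : Fin n) = j then 1 else 0 := fun j j' =>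
    (hP j j.2).2.1 j' j'.2
  have htr_lin : ∀ (ι : Type) (s : Finset ι) (b : ι → FQb) (v : ι → Fin n → FQb) z,
      tr (∑ j ∈ s, b j • v j) z = ∑ j ∈ s, b j • tr (v j) z := by
    intro ι s b v z
    simp only [tr]
    rw [← Matrix.vecMulLinear_apply, map_sum]
    simp only [map_smul, Matrix.vecMulLinear_apply]
  have hAadd : ∀ z w, A (z + w) = A z * A w := by
    intro z w
    ext j j''
    rw [Matrix.mul_apply]
    show tr (f j) (z + w) j'' = ∑ j' : P, A z j j' * A w j' j''
    rw [htr_add, hA z j, htr_lin, Finset.sum_apply]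
    rfl
  have hA0 : A 0 = 1 := by
    ext j j'
    show Matrix.vecMul (f j) (tm e a 0) j' = _
    rw [h.tm_zero, Matrix.vecMul_one, hfδ, Matrix.one_apply]
    by_cases hjj : j = j'
    · rw [if_pos hjj, if_pos (by rw [hjj])]
    · rw [if_neg hjj, if_neg (fun h0 => hjj (Subtype.ext h0.symm))]
  have hAn : ∀ m : ℕ, A (m • z) = A z ^ m := by
    intro m
    induction m with
    | zero => rw [zero_smul, pow_zero, hA0]
    | succ m ih => rw [succ_nsmul, hAadd, ih, pow_succ]
  -- the entries are close to the identity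
  have hlt : ∀ j j', nm p ((A z - 1) j j') < 1 := by
    intro j j'
    have e1 : (A z - 1) j j' = ∑ i, f j i * (tm e a z - 1) i j' := by
      rw [← hA0]
      show Matrix.vecMul (f j) (tm e a z) j' - Matrix.vecMul (f j) (tm e a 0) j' = _
      rw [h.tm_zero]
      simp only [Matrix.vecMul, dotProduct, Matrix.sub_apply, mul_sub, Finset.sum_sub_distrib]
    rw [e1]
    refine nm_sum_lt _ _ zero_lt_one fun i _ => ?_
    rw [nm_mul]
    refine (mul_le_of_le_one_left (nm_nonneg _) ((hP j j.2).2.2 i)).trans_lt ?_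
    rw [h.tm_sub_one]
    refine nm_sum_lt _ _ zero_lt_one fun k _ => ?_
    rw [nm_mul]
    exact (mul_le_of_le_one_left (nm_nonneg _) (h.nm_a _ _ _)).trans_lt (hz k)
  -- the basis is fixed by inertia
  have hfix : ∀ σ ∈ Ip p, ∀ j : P, ∀ i, σ (f j i) = f j i := by
    intro σ hσ j
    have h1 : (fun i => σ (f j i)) ∈ S := by
      rw [hSmem]
      intro x w hw
      have h2 := (hSmem _).mp (hP j j.2).1 (act σ⁻¹ x) (act σ⁻¹ w) (hW1 _ ((Ip p).inv_mem hσ) w hw)
      rw [← h.act_add] at h2
      have h3 := congrArg σ h2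
      simp only [map_sum, map_mul, ← h.equiv, h.act_act, mul_inv_cancel, h.act_one] at h3
      exact h3
    have h2 := hPs _ h1
    have h3 : ∑ j' ∈ P, (fun i => σ (f j i)) j' • f j' = f j := by
      rw [Finset.sum_eq_single (j : Fin n)]
      · simp only [hfδ, if_true, map_one, one_smul]
      · intro j' hj' hne
        have := hfδ j ⟨j', hj'⟩
        simp only at this
        simp only [this, if_neg hne, map_zero, zero_smul]
      · intro hn; exact absurd j.2 hn
    rw [h3] at h2
    exact fun i => congrFun h2 i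
  have htm : ∀ σ : FGQ, ∀ z i j, σ (tm e a z i j) = tm e a (act σ z) i j := by
    intro σ z i j
    simp only [tm, map_sum, map_mul, map_ratCast, h.equiv]
  have hAinv : ∀ σ ∈ Ip p, A (act σ z) = A z := by
    intro σ hσ
    have hw := hσz σ hσ
    have e1 : act σ z = (act σ z - z) + z := by abel
    rw [e1, hAadd]
    have e2 : A (act σ z - z) = 1 := by
      rw [← hA0]
      ext j j'
      show tr (f j) _ j' = tr (f j) _ j'
      have : tr (f j) (act σ z - z) = tr (f j) 0 := by
        apply h.coeff_eq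
        intro x
        rw [htr, htr, add_zero]
        exact (hSmem _).mp (hP j j.2).1 x _ hw
      rw [this]
    rw [e2, one_mul]
  have hAfix : ∀ j j', FixI p ((A z - 1) j j') := by
    intro j j' σ hσ
    have h1 : σ (A z j j') = A (act σ z) j j' := by
      show σ (Matrix.vecMul (f j) (tm e a z) j') = Matrix.vecMul (f j) (tm e a (act σ z)) j'
      simp only [Matrix.vecMul, dotProduct, map_sum, map_mul, hfix σ hσ j, htm]
    rw [Matrix.sub_apply, map_sub, h1, hAinv σ hσ, Matrix.one_apply]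
    congr 1
    split_ifs <;> simp
  -- the translation is trivial
  have hA1 : A z = 1 := by
    by_contra hne
    have h1 : (1 + (A z - 1)) ^ p = 1 := by
      rw [add_sub_cancel, ← hAn, hpz, hA0]
    obtain ⟨i, j, -, hij⟩ := matrix_near_one hlt h1 (sub_ne_zero.mpr hne)
    have h2 := (hAfix i j).nm_le_p_of_lt (hlt i j)
    have h3 := hij.trans (pow_le_pow_left₀ (nm_nonneg _) h2 (p - 1))
    have h4 : nm p (p : FQb) ^ (p - 1) < nm p (p : FQb) ^ 1 :=
      pow_lt_pow_right_of_lt_one₀ (nm_p_pos p) (nm_p_lt_one p) (by omega)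
    rw [pow_one] at h4
    exact absurd h3 (not_le.mpr h4)
  -- conclusion
  obtain ⟨c, hc⟩ := h.span (fun x => if x ∈ W1 then 1 else 0)
  have hc' : ∀ x, ∑ i, c i * e i x = if x ∈ W1 then 1 else 0 := by
    intro x
    have := congrFun hc x
    rw [Finset.sum_apply] at this
    exact this.symm
  have hcS : c ∈ S := by
    rw [hSmem]
    intro x w hw
    rw [hc', hc']
    by_cases hx : x ∈ W1
    · rw [if_pos hx, if_pos (W1.add_mem hx hw)]
    · rw [if_neg hx, if_neg]
      intro hxw
      apply hx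
      have := W1.sub_mem hxw hw
      rwa [add_sub_cancel_right] at this
  have htrc : tr c z = c := by
    conv_lhs => rw [hPs c hcS]
    rw [htr_lin]
    conv_rhs => rw [hPs c hcS]
    refine Finset.sum_congr rfl fun j hj => ?_
    congr 1
    have h1 := hA z ⟨j, hj⟩
    simp only at h1
    rw [h1, hA1]
    have h2 : ∀ j' : P, (1 : Matrix P P FQb) ⟨j, hj⟩ j' • f j' =
        if j' = ⟨j, hj⟩ then f j' else 0 := by
      intro j'
      rw [Matrix.one_apply]
      by_cases hjj : j' = ⟨j, hj⟩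
      · rw [if_pos hjj, if_pos hjj.symm, one_smul]
      · rw [if_neg hjj, if_neg (Ne.symm hjj), zero_smul]
    simp only [h2, Finset.sum_ite_eq', Finset.mem_univ, if_true]
  have h1 := htr c z 0
  rw [htrc, zero_add, hc', hc', if_pos W1.zero_mem] at h1
  by_contra hcon
  rw [if_neg hcon] at h1
  exact one_ne_zero h1

end Fermat.Agent.H64
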