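import Fermat.Agent.H64FLayer2

/-!
# S56-[B4] : tame level `π ^ e = -p`
-/

set_option autoImplicit false

open scoped Pointwise

noncomputable section

namespace Fermat.Agent.H64

variable {p : ℕ} [Fact p.Prime]

omit [Fact p.Prime] in
theorem isTeich_of_pow_eq_one {e : ℕ} (he : 0 < e) (hep : e.Coprime p) {ζ : FQb} (h : ζ ^ e = 1) :
    IsTeich p ζ := by
  have h1 : p ^ (Nat.totient e) ≡ 1 [MOD e] := Nat.ModEq.pow_totient hep.symm
  refine ⟨Nat.totient e, Nat.totient_pos.mpr he, ?_⟩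
  have h2 : ζ ^ (p ^ (Nat.totient e)) = ζ ^ 1 := pow_eq_pow_of_modEq h1 h
  rw [h2, pow_one]

/-- elements of inertia fixing `π` -/
def Tm (p : ℕ) [Fact p.Prime] (π : FQb) : Subgroup FGQ := Ip p ⊓ MulAction.stabilizer FGQ π

theorem mem_Tm {π : FQb} {σ : FGQ} : σ ∈ Tm p π ↔ σ ∈ Ip p ∧ σ π = π := Iff.rfl

section Pi

variable {e : ℕ} (he : 0 < e) (hep : e.Coprime p) {π : FQb} (hπ : π ^ e = -(p : FQb))

include hπ in
theorem nm_pi_pow : nm p π ^ e = nm p (p : FQb) := by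
  rw [← nm_pow, hπ, nm_neg]

include he hπ in
theorem pi_ne_zero : π ≠ 0 := by
  rintro rfl
  rw [zero_pow he.ne', eq_comm, neg_eq_zero, Nat.cast_eq_zero] at hπ
  exact (Fact.out : p.Prime).ne_zero hπ

include he hπ in
theorem nm_pi_pos : 0 < nm p π := nm_pos.mpr (pi_ne_zero he hπ)

include hπ in
theorem nm_pi_lt_one : nm p π < 1 := by
  by_contra h
  rw [not_lt] at h
  have h1 : 1 ≤ nm p π ^ e := one_le_pow₀ h
  rw [nm_pi_pow hπ] at h1
  exact absurd h1 (not_le.mpr (nm_p_lt_one p))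

include hπ in
theorem sigma_pi_div_pow (σ : FGQ) : (σ π / π) ^ e = 1 := by
  rw [div_pow, ← map_pow, hπ, map_neg, map_natCast, div_self]
  rw [neg_ne_zero, Nat.cast_ne_zero]
  exact (Fact.out : p.Prime).ne_zero

include he hep hπ in
theorem teich_sigma_pi_div (σ : FGQ) : IsTeich p (σ π / π) :=
  isTeich_of_pow_eq_one he hep (sigma_pi_div_pow hπ σ)

/-- the tame character at level `π` -/
def tameHom : Ip p →* FQbˣ where
  toFun σ := Units.mk0 ((σ : FGQ) π / π)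
    (div_ne_zero ((map_ne_zero _).mpr (pi_ne_zero he hπ)) (pi_ne_zero he hπ))
  map_one' := by
    ext
    simp [pi_ne_zero he hπ]
  map_mul' σ τ := by
    ext
    have h1 : (σ : FGQ) ((τ : FGQ) π / π) = (τ : FGQ) π / π :=
      (teich_sigma_pi_div he hep hπ (τ : FGQ)).inertia σ.2
    have h2 : (σ : FGQ) ((τ : FGQ) π) = (τ : FGQ) π / π * (σ : FGQ) π := by
      rw [← h1, map_div₀, div_mul_cancel₀]
      exact (map_ne_zero _).mpr (pi_ne_zero he hπ)
    show (σ : FGQ) ((τ : FGQ) π) / π = (σ : FGQ) π / π * ((τ : FGQ) π / π)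
    rw [h2]
    ring

include he hep hπ in
/-- a generator of tame inertia at level `π` -/
theorem exists_tame_gen : ∃ t ∈ Ip p, ∃ ζ : FQb, IsPrimitiveRoot ζ e ∧ t π = ζ * π := by
  classical
  set χ := tameHom he hep hπ with hχ
  have hval : ∀ σ : Ip p, ((χ σ : FQbˣ) : FQb) = (σ : FGQ) π / π := fun σ => rfl
  have hpow : ∀ u ∈ χ.range, u ^ e = 1 := by
    rintro _ ⟨σ, rfl⟩
    ext
    rw [Units.val_pow_eq_pow_val, hval, sigma_pi_div_pow hπ]
    rfl
  have hfin : Finite χ.range := by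
    have : NeZero e := ⟨he.ne'⟩
    refine Finite.of_injective (β := rootsOfUnity e FQb)
      (fun u => ⟨u.1, (mem_rootsOfUnity _ _).mpr (hpow u.1 u.2)⟩) ?_
    intro u v huv
    have h1 := congrArg (fun z : rootsOfUnity e FQb => (z : FQbˣ)) huv
    exact Subtype.ext h1
  obtain ⟨⟨u, hu⟩, hgen⟩ := IsCyclic.exists_generator (α := χ.range)
  have hord : orderOf u = Nat.card χ.range := by
    rw [← orderOf_eq_card_of_forall_mem_zpowers hgen, Subgroup.orderOf_mk]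
  set d := Nat.card χ.range with hd
  -- `π ^ d` is fixed by inertia
  have hfix : FixI p (π ^ d) := by
    intro σ hσ
    have h1 : (χ ⟨σ, hσ⟩) ^ d = 1 := by
      have h2 : (⟨χ ⟨σ, hσ⟩, ⟨_, rfl⟩⟩ : χ.range) ^ d = 1 := by
        rw [hd]; exact pow_card_eq_one'
      exact congrArg Subtype.val h2
    have h3 : (σ π / π) ^ d = 1 := by
      have := congrArg (Units.val) h1
      rwa [Units.val_pow_eq_pow_val, hval] at this
    rw [div_pow, div_eq_one_iff_eq (pow_ne_zero _ (pi_ne_zero he hπ))] at h3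
    rw [map_pow, h3]
  have hdpos : 0 < d := Nat.card_pos
  obtain ⟨k, hk⟩ := hfix.exists_zpow (pow_ne_zero _ (pi_ne_zero he hπ))
  have hed : (e : ℤ) ∣ d := by
    refine ⟨k, ?_⟩
    have h1 : nm p (π ^ d) ^ e = nm p (p : FQb) ^ (d : ℤ) := by
      rw [nm_pow, ← pow_mul, mul_comm, pow_mul, nm_pi_pow hπ, zpow_natCast]
    rw [hk, ← zpow_natCast, ← zpow_mul] at h1
    have := nm_p_zpow_inj h1
    rw [← this, mul_comm]
  have hed' : e ∣ d := by exact_mod_cast hed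
  have hde : d ∣ e := by
    rw [← hord]
    exact orderOf_dvd_of_pow_eq_one (hpow u hu)
  have hde' : d = e := Nat.dvd_antisymm hde hed'
  obtain ⟨⟨t, ht⟩, htu⟩ := hu
  refine ⟨t, ht, (u : FQb), ?_, ?_⟩
  · rw [IsPrimitiveRoot.coe_units_iff]
    rw [← hde', ← hord]
    exact IsPrimitiveRoot.orderOf u
  · rw [← htu, hval, div_mul_cancel₀]
    exact pi_ne_zero he hπ

theorem Tm_le_Ip {π : FQb} : Tm p π ≤ Ip p := inf_le_left

omit [Fact p.Prime] in
theorem pow_apply_eq {t : FGQ} {ζ π : FQb} (hζ : t ζ = ζ) (htπ : t π = ζ * π) (n : ℕ) :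
    (t ^ n) π = ζ ^ n * π := by
  induction n with
  | zero => simp
  | succ n ih =>
    rw [pow_succ', AlgEquiv.mul_apply, ih, map_mul, map_pow, hζ, htπ]
    ring

variable {t : FGQ} (ht : t ∈ Ip p) {ζ : FQb} (hζ : IsPrimitiveRoot ζ e) (htπ : t π = ζ * π)

include he hep hζ in
theorem inertia_zeta {σ : FGQ} (hσ : σ ∈ Ip p) : σ ζ = ζ :=
  (isTeich_of_pow_eq_one he hep hζ.pow_eq_one).inertia hσ

include he hep hπ ht hζ htπ in
/-- inertia is generated by `t` and `Tm` -/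
theorem exists_pow_mul_Tm {σ : FGQ} (hσ : σ ∈ Ip p) : ∃ n : ℕ, n < e ∧ ∃ τ ∈ Tm p π, σ = t ^ n * τ := by
  have h1 := sigma_pi_div_pow hπ σ
  have : NeZero e := ⟨he.ne'⟩
  obtain ⟨n, hn, hn'⟩ := hζ.eq_pow_of_pow_eq_one h1
  refine ⟨n, hn, (t ^ n)⁻¹ * σ, ?_, by group⟩
  refine mem_Tm.mpr ⟨mul_mem (inv_mem (pow_mem ht n)) hσ, ?_⟩
  rw [AlgEquiv.mul_apply, AlgEquiv.aut_inv, AlgEquiv.symm_apply_eq,
    pow_apply_eq (inertia_zeta he hep hζ ht) htπ, hn', div_mul_cancel₀ _ (pi_ne_zero he hπ)]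

include he hep hζ ht htπ in
theorem pow_e_mem_Tm : t ^ e ∈ Tm p π := by
  refine ⟨pow_mem ht e, ?_⟩
  show (t ^ e) π = π
  rw [pow_apply_eq (inertia_zeta he hep hζ ht) htπ, hζ.pow_eq_one, one_mul]

include he hep hζ ht htπ in
theorem conj_mem_Tm {σ : FGQ} (hσ : σ ∈ Tm p π) (n : ℕ) : (t ^ n)⁻¹ * σ * t ^ n ∈ Tm p π := by
  refine mem_Tm.mpr ⟨mul_mem (mul_mem (inv_mem (pow_mem ht n)) hσ.1) (pow_mem ht n), ?_⟩
  rw [AlgEquiv.mul_apply, AlgEquiv.mul_apply, AlgEquiv.aut_inv, AlgEquiv.symm_apply_eq,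
    pow_apply_eq (inertia_zeta he hep hζ ht) htπ, map_mul, map_pow,
    inertia_zeta he hep hζ (Tm_le_Ip hσ), (mem_Tm.mp hσ).2]

variable (p) in
/-- being fixed by `Tm` -/
def FixT (π x : FQb) : Prop := ∀ σ ∈ Tm p π, σ x = x

theorem FixI.fixT {x : FQb} (hx : FixI p x) : FixT p π x := fun σ hσ => hx σ (Tm_le_Ip hσ)

include he hep hπ ht hζ htπ in
theorem fixI_iff {x : FQb} : FixI p x ↔ FixT p π x ∧ t x = x := by
  refine ⟨fun h => ⟨h.fixT, h t ht⟩, fun ⟨h1, h2⟩ σ hσ => ?_⟩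
  obtain ⟨n, -, τ, hτ, rfl⟩ := exists_pow_mul_Tm he hep hπ ht hζ htπ hσ
  rw [AlgEquiv.mul_apply, h1 τ hτ]
  have h3 : t ∈ MulAction.stabilizer FGQ x := h2
  exact (pow_mem h3 n)

include he hep hπ ht hζ htπ in
/-- expansions of the elements fixed by `Tm` in powers of `π` -/
theorem FixT.exists_expansion {x : FQb} (hx : FixT p π x) :
    ∃ f : Fin e → FQb, (∀ i, FixI p (f i)) ∧ x = ∑ i, f i * π ^ (i : ℕ) ∧
      ∀ L : IntermediateField ℚ FQb, IsGalois ℚ L → π ∈ L → x ∈ L → ∀ i, f i ∈ L := by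
  have hπ0 := pi_ne_zero he hπ
  have he0 : (e : FQb) ≠ 0 := by exact_mod_cast he.ne'
  have hζ0 : ζ ≠ 0 := hζ.ne_zero he.ne'
  have htζ : t ζ = ζ := inertia_zeta he hep hζ ht
  -- the projections
  let a : ℕ → FQb := fun i => (e : FQb)⁻¹ * ∑ s ∈ Finset.range e, (ζ ^ (i * s))⁻¹ * (t ^ s) x
  have hper : (t ^ e) x = x := hx _ (pow_e_mem_Tm he hep ht hζ htπ)
  have hta : ∀ i, t (a i) = ζ ^ i * a i := by
    intro i
    simp only [a]
    rw [map_mul, map_inv₀, map_natCast, map_sum, mul_left_comm]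
    congr 1
    rw [Finset.mul_sum]
    have h1 : ∀ s, t ((ζ ^ (i * s))⁻¹ * (t ^ s) x) =
        ζ ^ i * ((ζ ^ (i * (s + 1)))⁻¹ * (t ^ (s + 1)) x) := by
      intro s
      rw [map_mul, map_inv₀, map_pow, htζ, pow_succ' t, AlgEquiv.mul_apply, mul_add, pow_add,
        mul_one]
      field_simp
    simp_rw [h1]
    have h2 := Finset.sum_range_succ' (fun s => ζ ^ i * ((ζ ^ (i * s))⁻¹ * (t ^ s) x)) e
    have h3 := Finset.sum_range_succ (fun s => ζ ^ i * ((ζ ^ (i * s))⁻¹ * (t ^ s) x)) e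
    rw [h3] at h2
    have h4 : ζ ^ i * ((ζ ^ (i * e))⁻¹ * (t ^ e) x) = ζ ^ i * ((ζ ^ (i * 0))⁻¹ * (t ^ 0) x) := by
      rw [mul_comm i e, pow_mul, hζ.pow_eq_one, one_pow, hper]
      simp
    rw [h4] at h2
    exact (add_right_cancel h2).symm
  have hTa : ∀ i, FixT p π (a i) := by
    intro i σ hσ
    simp only [a]
    rw [map_mul, map_inv₀, map_natCast, map_sum]
    congr 1
    refine Finset.sum_congr rfl fun s _ => ?_
    rw [map_mul, map_inv₀, map_pow, inertia_zeta he hep hζ (Tm_le_Ip hσ)]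
    congr 1
    have h1 := hx _ (conj_mem_Tm he hep ht hζ htπ hσ s)
    rw [AlgEquiv.mul_apply, AlgEquiv.mul_apply, AlgEquiv.aut_inv, AlgEquiv.symm_apply_eq] at h1
    exact h1
  refine ⟨fun i => a i / π ^ (i : ℕ), fun i => ?_, ?_, ?_⟩
  · rw [fixI_iff he hep hπ ht hζ htπ]
    constructor
    · intro σ hσ
      rw [map_div₀, map_pow, (mem_Tm.mp hσ).2, hTa i σ hσ]
    · rw [map_div₀, map_pow, hta, htπ, mul_pow]
      field_simp
  · have h1 : ∀ i : Fin e, a i / π ^ (i : ℕ) * π ^ (i : ℕ) = a i := fun i =>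
      div_mul_cancel₀ _ (pow_ne_zero _ hπ0)
    simp_rw [h1]
    rw [Finset.sum_range (fun i => a i) |>.symm]
    simp only [a]
    rw [← Finset.mul_sum, Finset.sum_comm]
    have h2 : ∀ s ∈ Finset.range e, ∑ i ∈ Finset.range e, (ζ ^ (i * s))⁻¹ * (t ^ s) x =
        if s = 0 then (e : FQb) * x else 0 := by
      intro s hs
      split_ifs with h0
      · subst h0
        simp
      · rw [← Finset.sum_mul]
        have h3 : ∑ i ∈ Finset.range e, (ζ ^ (i * s))⁻¹ = 0 := by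
          have h4 : ∀ i, (ζ ^ (i * s))⁻¹ = ((ζ ^ s)⁻¹) ^ i := by
            intro i
            rw [inv_pow, ← pow_mul, mul_comm s i]
          simp_rw [h4]
          have h5 : (ζ ^ s)⁻¹ ≠ 1 := by
            rw [Ne, inv_eq_one]
            exact hζ.pow_ne_one_of_pos_of_lt h0 (Finset.mem_range.mp hs)
          have h6 : ((ζ ^ s)⁻¹) ^ e = 1 := by
            rw [inv_pow, ← pow_mul, mul_comm, pow_mul, hζ.pow_eq_one, one_pow, inv_one]
          have h7 := mul_geom_sum ((ζ ^ s)⁻¹) e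
          rw [h6, sub_self] at h7
          exact (mul_eq_zero.mp h7).resolve_left (sub_ne_zero.mpr h5)
        rw [h3, zero_mul]
    rw [Finset.sum_congr rfl h2, Finset.sum_ite_eq' ]
    rw [if_pos (Finset.mem_range.mpr he), inv_mul_cancel_left₀ he0]
  · intro L hL hπL hxL i
    have hnorm : ∀ (σ : FGQ) (y : FQb), y ∈ L → σ y ∈ L := by
      intro σ y hy
      have := AlgEquiv.restrictNormal_commutes σ L ⟨y, hy⟩
      have h1 : σ y = ((AlgEquiv.restrictNormal σ L ⟨y, hy⟩ : L) : FQb) := this.symm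
      rw [h1]
      exact Subtype.mem _
    have hζL : ζ ∈ L := by
      have : ζ = t π / π := by rw [htπ, mul_div_cancel_right₀ _ hπ0]
      rw [this]
      exact div_mem (hnorm t π hπL) hπL
    refine div_mem (mul_mem (inv_mem (natCast_mem L e)) (sum_mem fun s _ => ?_)) (pow_mem hπL _)
    exact mul_mem (inv_mem (pow_mem hζL _)) (hnorm _ _ hxL)

include he hep hπ ht hζ htπ in
/-- the value group of the field fixed by `Tm` -/
theorem FixT.exists_zpow {x : FQb} (hx : FixT p π x) (hx0 : x ≠ 0) :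
    ∃ k : ℤ, nm p x = nm p π ^ k := by
  obtain ⟨f, hf, hsum, -⟩ := hx.exists_expansion he hep hπ ht hζ htπ
  have hterm := nm_term_le_sum he (nm_pi_pow hπ) f hf
  rw [← hsum] at hterm
  -- the maximal term
  have : Nonempty (Fin e) := ⟨⟨0, he⟩⟩
  obtain ⟨i₀, -, hi₀⟩ := Finset.exists_max_image (Finset.univ : Finset (Fin e))
    (fun i => nm p (f i * π ^ (i : ℕ))) Finset.univ_nonempty
  have h1 : nm p x = nm p (f i₀ * π ^ (i₀ : ℕ)) := by
    apply le_antisymm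
    · rw [hsum]
      exact nm_sum_le _ _ (nm_nonneg _) fun i hi => hi₀ i hi
    · exact hterm i₀
  have h2 : f i₀ ≠ 0 := by
    intro h
    rw [h, zero_mul, nm_zero] at h1
    exact hx0 (nm_eq_zero.mp h1)
  obtain ⟨k, hk⟩ := (hf i₀).exists_zpow h2
  refine ⟨k * e + i₀, ?_⟩
  rw [h1, nm_mul, hk, nm_pow, zpow_add₀ (nm_pi_pos he hπ).ne', zpow_natCast, mul_comm k, zpow_mul,
    zpow_natCast, nm_pi_pow hπ]

end Pi

end Fermat.Agent.H64
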