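import Fermat.Agent.H64FData

/-!
# S56-[B4] : derivations on points of a group scheme killed by `p`
-/

set_option autoImplicit false

noncomputable section

namespace Fermat.Agent.H64

variable {p : ℕ} [Fact p.Prime] {W : Type*} [AddCommGroup W] {act : FGQ → W → W} {n : ℕ}
  {e : Fin n → W → FQb} {a : Fin n → Fin n → Fin n → ℚ}

theorem FData.coeff_eq (h : FData p act n e a) {c d : Fin n → FQb}
    (hcd : ∀ y, ∑ i, c i * e i y = ∑ i, d i * e i y) : c = d :=
  H32.coeff_eq_of_linearIndependent h.indep hcd

theorem FData.ext (h : FData p act n e a) {x y : W} (hxy : ∀ i, e i x = e i y) : x = y := by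
  classical
  by_contra hne
  obtain ⟨c, hc⟩ := h.span (Pi.single x 1)
  have h1 := congrFun hc x
  have h2 := congrFun hc y
  rw [Pi.single_eq_same, Finset.sum_apply] at h1
  rw [Pi.single_eq_of_ne (Ne.symm hne), Finset.sum_apply] at h2
  simp only [Pi.smul_apply, ← hxy] at h2
  simp only [Pi.smul_apply] at h1
  rw [← h1] at h2
  exact zero_ne_one h2

theorem FData.symm (h : FData p act n e a) (i j k : Fin n) : a i j k = a i k j := by
  have h1 : ∀ y, ∀ j, ∑ k, (a i j k : FQb) * e k y = ∑ k, (a i k j : FQb) * e k y := by
    intro y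
    have h2 : (fun j => ∑ k, (a i j k : FQb) * e k y) = fun j => ∑ k, (a i k j : FQb) * e k y := by
      apply h.coeff_eq
      intro x
      have h3 := h.comul i x y
      have h4 := h.comul i y x
      rw [add_comm x y, h4] at h3
      have e1 : ∑ j, (∑ k, (a i j k : FQb) * e k y) * e j x =
          ∑ j, ∑ k, (a i j k : FQb) * (e j x * e k y) := by
        refine Finset.sum_congr rfl fun j _ => ?_
        rw [Finset.sum_mul]
        refine Finset.sum_congr rfl fun k _ => ?_
        ring
      have e2 : ∑ j, (∑ k, (a i k j : FQb) * e k y) * e j x =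
          ∑ j, ∑ k, (a i j k : FQb) * (e j y * e k x) := by
        rw [Finset.sum_comm' (t' := Finset.univ) (s' := fun _ => Finset.univ) (by simp)]
        refine Finset.sum_congr rfl fun j _ => ?_
        rw [Finset.sum_mul]
        refine Finset.sum_congr rfl fun k _ => ?_
        ring
      rw [e1, e2, h3]
    exact fun j => congrFun h2 j
  have h2 := h.coeff_eq (c := fun k => (a i j k : FQb)) (d := fun k => (a i k j : FQb))
    (fun y => h1 y j)
  have h3 := congrFun h2 k
  exact_mod_cast h3

theorem FData.act_add (h : FData p act n e a) (σ : FGQ) (x y : W) :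
    act σ (x + y) = act σ x + act σ y := by
  apply h.ext
  intro i
  rw [h.equiv, h.comul, h.comul]
  simp only [map_sum, map_mul, map_ratCast, h.equiv]

theorem FData.act_zero (h : FData p act n e a) (σ : FGQ) : act σ 0 = 0 := by
  have := h.act_add σ 0 0
  rw [add_zero] at this
  exact left_eq_add.mp this

theorem FData.fix_zero (h : FData p act n e a) (σ : FGQ) (i : Fin n) : σ (e i 0) = e i 0 := by
  rw [← h.equiv, h.act_zero]

/-- translation matrices -/
def tm (e : Fin n → W → FQb) (a : Fin n → Fin n → Fin n → ℚ) (z : W) :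
    Matrix (Fin n) (Fin n) FQb := fun i j => ∑ k, (a i j k : FQb) * e k z

theorem FData.tm_spec (h : FData p act n e a) (i : Fin n) (y z : W) :
    e i (y + z) = ∑ j, tm e a z i j * e j y := by
  rw [h.comul]
  refine Finset.sum_congr rfl fun j _ => ?_
  rw [tm, Finset.sum_mul]
  refine Finset.sum_congr rfl fun k _ => ?_
  ring

theorem FData.tm_add (h : FData p act n e a) (z w : W) :
    tm e a (z + w) = tm e a z * tm e a w := by
  ext i j
  rw [Matrix.mul_apply]
  have h1 : (fun j => tm e a (w + z) i j) = fun j => ∑ k, tm e a z i k * tm e a w k j := by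
    apply h.coeff_eq
    intro y
    rw [← h.tm_spec, ← add_assoc, h.tm_spec]
    simp only [h.tm_spec, Finset.mul_sum, Finset.sum_mul]
    rw [Finset.sum_comm]
    refine Finset.sum_congr rfl fun j _ => Finset.sum_congr rfl fun k _ => ?_
    ring
  rw [add_comm]
  exact congrFun h1 j

theorem FData.tm_zero (h : FData p act n e a) : tm e a 0 = 1 := by
  ext i j
  have h1 : (fun j => tm e a 0 i j) = fun j => (1 : Matrix (Fin n) (Fin n) FQb) i j := by
    apply h.coeff_eq
    intro y
    rw [← h.tm_spec, add_zero]
    simp [Matrix.one_apply]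
  exact congrFun h1 j

theorem FData.nm_tm (h : FData p act n e a) (z : W) (i j : Fin n) : nm p (tm e a z i j) ≤ 1 :=
  nm_sum_le _ _ zero_le_one fun k _ => nm_mul_le_one (h.nm_a i j k) (h.nm_le k z)

section MAct

variable {B M : Type*} [CommRing B] [AddCommGroup M] [Module B M]

/-- matrices acting on module valued vectors -/
def mact (A : Matrix (Fin n) (Fin n) B) (v : Fin n → M) : Fin n → M := fun i => ∑ j, A i j • v j

theorem mact_mact (A A' : Matrix (Fin n) (Fin n) B) (v : Fin n → M) :
    mact A (mact A' v) = mact (A * A') v := by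
  ext i
  simp only [mact, Matrix.mul_apply, Finset.smul_sum, Finset.sum_smul, mul_smul]
  rw [Finset.sum_comm]

theorem mact_add (A : Matrix (Fin n) (Fin n) B) (v w : Fin n → M) :
    mact A (v + w) = mact A v + mact A w := by
  ext i
  simp only [mact, Pi.add_apply, smul_add, Finset.sum_add_distrib]

theorem mact_one (v : Fin n → M) : mact (1 : Matrix (Fin n) (Fin n) B) v = v := by
  ext i
  simp [mact, Matrix.one_apply]

theorem mact_nsmul (A : Matrix (Fin n) (Fin n) B) (m : ℕ) (v : Fin n → M) :
    mact A (m • v) = m • mact A v := by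
  ext i
  simp only [mact, Pi.smul_apply, Finset.smul_sum]
  refine Finset.sum_congr rfl fun j _ => ?_
  rw [smul_comm]

end MAct

/-- **Derivations on points of a group scheme killed by `p`.** -/
theorem FData.torsion_derivation (h : FData p act n e a) {L : IntermediateField ℚ FQb}
    (heL : ∀ i x, e i x ∈ L) {M : Type*} [AddCommGroup M] [Module (BL p L) M]
    (D : Derivation ℤ (BL p L) M) (hD : ∀ b : BL p L, FixI p (b : FQb) → D b = 0)
    {m : ℕ} {x : W} (hx : m • x = 0) (i : Fin n) :
    m • D ⟨e i x, heL i x, h.nm_le i x⟩ = 0 := by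
  let E : Fin n → W → BL p L := fun i x => ⟨e i x, heL i x, h.nm_le i x⟩
  have haL : ∀ i j k, (a i j k : FQb) ∈ L := fun i j k => L.algebraMap_mem (a i j k)
  let A : Fin n → Fin n → Fin n → BL p L := fun i j k => ⟨a i j k, haL i j k, h.nm_a i j k⟩
  have hDA : ∀ i j k, D (A i j k) = 0 := fun i j k => hD _ fun σ _ => map_ratCast σ (a i j k)
  let T : W → Matrix (Fin n) (Fin n) (BL p L) := fun z i j => ∑ k, A i j k * E k z
  have hT : ∀ z i j, ((T z i j : BL p L) : FQb) = tm e a z i j := by
    intro z i j
    simp only [T, tm]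
    push_cast
    rfl
  have hTadd : ∀ z w, T (z + w) = T z * T w := by
    intro z w
    ext i j
    rw [hT, h.tm_add, Matrix.mul_apply, Matrix.mul_apply]
    push_cast
    simp only [hT]
  have hTzero : T 0 = 1 := by
    ext i j
    rw [hT, h.tm_zero, Matrix.one_apply, Matrix.one_apply]
    split_ifs <;> simp
  let v : W → Fin n → M := fun x i => D (E i x)
  have hE : ∀ i y z, E i (y + z) = ∑ j, ∑ k, A i j k * (E j y * E k z) := by
    intro i y z
    apply Subtype.ext
    show e i (y + z) = _
    rw [h.comul]
    push_cast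
    rfl
  have hv : ∀ y z, v (y + z) = mact (T z) (v y) + mact (T y) (v z) := by
    intro y z
    ext i
    simp only [v, mact, Pi.add_apply]
    rw [hE]
    simp only [map_sum, Derivation.leibniz, hDA, smul_zero, add_zero, smul_add,
      Finset.sum_add_distrib]
    rw [add_comm]
    congr 1
    · simp only [T, Finset.sum_smul, mul_smul]
    · simp only [T, Finset.sum_smul, mul_smul]
      rw [Finset.sum_comm]
      refine Finset.sum_congr rfl fun k _ => Finset.sum_congr rfl fun j _ => ?_
      have : A i j k = A i k j := Subtype.ext (by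
        show (a i j k : FQb) = a i k j
        rw [h.symm])
      rw [this]
  let c : W → Fin n → M := fun y => mact (T (-y)) (v y)
  have hc : ∀ y z, c (y + z) = c y + c z := by
    intro y z
    simp only [c]
    rw [hv, mact_add, mact_mact, mact_mact, ← hTadd, ← hTadd]
    congr 3 <;> abel
  let cHom : W →+ (Fin n → M) := AddMonoidHom.mk' c hc
  have h1 : m • c x = 0 := by
    have := map_nsmul cHom m x
    rw [hx, map_zero] at this
    exact this.symm
  have h2 : v x = mact (T x) (c x) := by
    simp only [c]
    rw [mact_mact, ← hTadd, add_neg_cancel, hTzero, mact_one]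
  have h3 : m • v x = 0 := by
    rw [h2, ← mact_nsmul, h1]
    ext i
    simp [mact]
  exact congrFun h3 i

end Fermat.Agent.H64
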