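import Mathlib
import Fermat.Agent.H54Place
import Fermat.Agent.H63Lift

/-!
# S56-[B4] : the `p`-adic absolute value on `ℚ̄` attached to `padicEmbedding p`

Basic facts about the absolute value `nm`, the decomposition group `Dp`, the inertia group `Ip`.
-/

set_option autoImplicit false

open scoped Pointwise
open Polynomial

noncomputable section

namespace Fermat.Agent.H64

/-- `ℚ̄` -/
abbrev FQb : Type := AlgebraicClosure ℚ
/-- the absolute Galois group of `ℚ` -/
abbrev FGQ : Type := AlgebraicClosure ℚ ≃ₐ[ℚ] AlgebraicClosure ℚ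

variable (p : ℕ) [Fact p.Prime]

/-- the `p`-adic absolute value on `ℚ̄` attached to `padicEmbedding p`. -/
def nm (x : FQb) : ℝ := ‖padicEmbedding p x‖

/-- decomposition group of `padicPlace p` -/
abbrev Dp : Subgroup FGQ := (padicPlace p).decompositionSubgroup ℚ

/-- inertia group of `padicPlace p` -/
abbrev Ip : Subgroup FGQ := (padicPlace p).inertiaSubgroupIn ℚ

variable {p}

theorem nm_nonneg (x : FQb) : 0 ≤ nm p x := norm_nonneg _

@[simp] theorem nm_zero : nm p 0 = 0 := by simp [nm]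

@[simp] theorem nm_one : nm p 1 = 1 := by simp [nm]

@[simp] theorem nm_mul (x y : FQb) : nm p (x * y) = nm p x * nm p y := by simp [nm]

@[simp] theorem nm_pow (x : FQb) (n : ℕ) : nm p (x ^ n) = nm p x ^ n := by simp [nm]

@[simp] theorem nm_neg (x : FQb) : nm p (-x) = nm p x := by simp [nm]

@[simp] theorem nm_inv (x : FQb) : nm p x⁻¹ = (nm p x)⁻¹ := by simp [nm]

@[simp] theorem nm_div (x y : FQb) : nm p (x / y) = nm p x / nm p y := by simp [nm]

@[simp] theorem nm_zpow (x : FQb) (n : ℤ) : nm p (x ^ n) = nm p x ^ n := by simp [nm]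

theorem nm_sub_comm (x y : FQb) : nm p (x - y) = nm p (y - x) := by
  rw [← nm_neg, neg_sub]

theorem nm_eq_zero {x : FQb} : nm p x = 0 ↔ x = 0 := by
  rw [nm, norm_eq_zero]
  exact map_eq_zero _

theorem nm_pos {x : FQb} : 0 < nm p x ↔ x ≠ 0 := by
  rw [(nm_nonneg x).lt_iff_ne', Ne, nm_eq_zero]

theorem nm_add_le (x y : FQb) : nm p (x + y) ≤ max (nm p x) (nm p y) := by
  unfold nm
  rw [map_add]
  exact IsUltrametricDist.norm_add_le_max _ _

theorem nm_sub_le (x y : FQb) : nm p (x - y) ≤ max (nm p x) (nm p y) := by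
  rw [sub_eq_add_neg, ← nm_neg y]
  exact nm_add_le _ _

theorem nm_add_le_of {x y : FQb} {c : ℝ} (hx : nm p x ≤ c) (hy : nm p y ≤ c) : nm p (x + y) ≤ c :=
  (nm_add_le x y).trans (max_le hx hy)

theorem nm_sub_le_of {x y : FQb} {c : ℝ} (hx : nm p x ≤ c) (hy : nm p y ≤ c) : nm p (x - y) ≤ c :=
  (nm_sub_le x y).trans (max_le hx hy)

theorem nm_add_lt_of {x y : FQb} {c : ℝ} (hx : nm p x < c) (hy : nm p y < c) : nm p (x + y) < c :=
  (nm_add_le x y).trans_lt (max_lt hx hy)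

theorem nm_sub_lt_of {x y : FQb} {c : ℝ} (hx : nm p x < c) (hy : nm p y < c) : nm p (x - y) < c :=
  (nm_sub_le x y).trans_lt (max_lt hx hy)

theorem nm_sum_le {ι : Type*} (s : Finset ι) (f : ι → FQb) {c : ℝ} (hc : 0 ≤ c)
    (h : ∀ i ∈ s, nm p (f i) ≤ c) : nm p (∑ i ∈ s, f i) ≤ c := by
  classical
  induction s using Finset.induction_on with
  | empty => simpa using hc
  | insert a s ha ih =>
    rw [Finset.sum_insert ha]
    exact nm_add_le_of (h a (Finset.mem_insert_self a s))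
      (ih fun i hi => h i (Finset.mem_insert_of_mem hi))

theorem nm_sum_lt {ι : Type*} (s : Finset ι) (f : ι → FQb) {c : ℝ} (hc : 0 < c)
    (h : ∀ i ∈ s, nm p (f i) < c) : nm p (∑ i ∈ s, f i) < c := by
  classical
  induction s using Finset.induction_on with
  | empty => simpa using hc
  | insert a s ha ih =>
    rw [Finset.sum_insert ha]
    exact nm_add_lt_of (h a (Finset.mem_insert_self a s))
      (ih fun i hi => h i (Finset.mem_insert_of_mem hi))

theorem nm_eq_of_sub_lt {x y : FQb} (h : nm p (x - y) < nm p y) : nm p x = nm p y := by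
  apply le_antisymm
  · have : x = (x - y) + y := by ring
    rw [this]
    exact nm_add_le_of h.le le_rfl
  · by_contra hcon
    rw [not_le] at hcon
    have : y = x - (x - y) := by ring
    have h2 := nm_sub_lt_of hcon h
    rw [← this] at h2
    exact lt_irrefl _ h2

theorem nm_eq_of_sub_lt' {x y : FQb} (h : nm p (x - y) < nm p x) : nm p x = nm p y :=
  (nm_eq_of_sub_lt (by rw [nm_sub_comm]; exact h)).symm

variable (p) in
theorem nm_p : nm p (p : FQb) = (p : ℝ)⁻¹ := by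
  unfold nm
  rw [map_natCast]
  exact H54.norm_prime_padicAlgCl p

variable (p) in
theorem nm_p_pos : 0 < nm p (p : FQb) := by
  rw [nm_p]
  have : 0 < p := (Fact.out : p.Prime).pos
  positivity

variable (p) in
theorem nm_p_lt_one : nm p (p : FQb) < 1 := by
  unfold nm
  rw [map_natCast]
  exact H54.norm_prime_lt_one p

theorem nm_natCast_le_one (n : ℕ) : nm p (n : FQb) ≤ 1 := by
  induction n with
  | zero => simp
  | succ n ih =>
    push_cast
    exact nm_add_le_of ih (by simp)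

theorem nm_intCast_le_one (n : ℤ) : nm p (n : FQb) ≤ 1 := by
  obtain ⟨m, rfl | rfl⟩ := n.eq_nat_or_neg
  · exact_mod_cast nm_natCast_le_one m
  · push_cast
    rw [nm_neg]
    exact nm_natCast_le_one m

theorem nm_natCast_eq_one {n : ℕ} (h : n.Coprime p) : nm p (n : FQb) = 1 := by
  refine le_antisymm (nm_natCast_le_one n) ?_
  by_contra hcon
  rw [not_le] at hcon
  have hb : (1 : ℤ) = n * Nat.gcdA n p + p * Nat.gcdB n p := by
    have := Nat.gcd_eq_gcd_ab n p
    rw [Nat.Coprime] at h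
    rw [h] at this
    exact_mod_cast this
  have hb' : (1 : FQb) = (n : FQb) * (Nat.gcdA n p : ℤ) + (p : FQb) * (Nat.gcdB n p : ℤ) := by
    exact_mod_cast congrArg (fun z : ℤ => (z : FQb)) hb
  have h1 : nm p (1 : FQb) < 1 := by
    rw [hb']
    apply nm_add_lt_of
    · rw [nm_mul]
      exact mul_lt_one_of_nonneg_of_lt_one_left (nm_nonneg _) hcon (nm_intCast_le_one _)
    · rw [nm_mul]
      exact mul_lt_one_of_nonneg_of_lt_one_left (nm_nonneg _) (nm_p_lt_one p)
        (nm_intCast_le_one _)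
  rw [nm_one] at h1
  exact lt_irrefl _ h1

theorem nm_le_one_of_isIntegral {x : FQb} (hx : IsIntegral ℤ x) : nm p x ≤ 1 := by
  unfold nm
  apply H54.norm_le_one_of_isIntegral
  exact hx.map ((padicEmbedding p : FQb →+* PadicAlgCl p)).toIntAlgHom

theorem mem_padicPlace_iff_nm {x : FQb} : x ∈ padicPlace p ↔ nm p x ≤ 1 := Iff.rfl

theorem mem_nonunits_iff_nm {x : FQb} : x ∈ (padicPlace p).nonunits ↔ nm p x < 1 :=
  H54.mem_nonunits_padicPlace_iff x

/-- the decomposition group acts by isometries -/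
theorem nm_dec {σ : FGQ} (hσ : σ ∈ Dp p) (x : FQb) : nm p (σ x) = nm p x := by
  rw [Dp, ← H54.range_localGaloisToGlobal] at hσ
  obtain ⟨τ, rfl⟩ := hσ
  unfold nm
  rw [padicEmbedding_localGaloisToGlobal, H54.norm_padicAlgCl_algEquiv]

theorem mem_Dp_iff {σ : FGQ} : σ ∈ Dp p ↔ ∀ x, nm p (σ x) = nm p x := by
  refine ⟨fun h => nm_dec h, fun h => ?_⟩
  rw [Dp, ← H54.range_localGaloisToGlobal, H54.mem_range_localGaloisToGlobal_iff]
  intro x hx
  have := h x
  unfold nm at this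
  rw [this]
  exact hx

theorem mem_Ip_iff {σ : FGQ} : σ ∈ Ip p ↔ σ ∈ Dp p ∧ ∀ x, nm p x ≤ 1 → nm p (σ x - x) < 1 := by
  rw [H63.mem_inertiaSubgroupIn_iff]
  constructor
  · rintro ⟨h1, h2⟩
    exact ⟨h1, fun x hx => mem_nonunits_iff_nm.mp (h2 x hx)⟩
  · rintro ⟨h1, h2⟩
    exact ⟨h1, fun x hx => mem_nonunits_iff_nm.mpr (h2 x hx)⟩

theorem Ip_le_Dp : Ip p ≤ Dp p := fun _ h => (mem_Ip_iff.mp h).1

theorem nm_inertia {σ : FGQ} (hσ : σ ∈ Ip p) {x : FQb} (hx : nm p x ≤ 1) :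
    nm p (σ x - x) < 1 := (mem_Ip_iff.mp hσ).2 x hx

/-! ### the residue field -/

variable (p) in
/-- the residue field of `padicPlace p` -/
abbrev Kap : Type := IsLocalRing.ResidueField (padicPlace p)

/-- the residue of an element of norm at most one (and zero otherwise) -/
def rs (x : FQb) : Kap p :=
  open Classical in if h : nm p x ≤ 1 then IsLocalRing.residue (padicPlace p) ⟨x, h⟩ else 0

theorem rs_of_le {x : FQb} (h : nm p x ≤ 1) :
    rs (p := p) x = IsLocalRing.residue (padicPlace p) ⟨x, h⟩ := dif_pos h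

@[simp] theorem rs_zero : rs (p := p) 0 = 0 := by
  rw [rs_of_le (by simp)]
  exact map_zero _

@[simp] theorem rs_one : rs (p := p) 1 = 1 := by
  rw [rs_of_le (by simp)]
  exact map_one _

theorem rs_add {x y : FQb} (hx : nm p x ≤ 1) (hy : nm p y ≤ 1) :
    rs (p := p) (x + y) = rs x + rs y := by
  rw [rs_of_le hx, rs_of_le hy, rs_of_le (nm_add_le_of hx hy), ← map_add]
  rfl

theorem nm_mul_le_one {x y : FQb} (hx : nm p x ≤ 1) (hy : nm p y ≤ 1) : nm p (x * y) ≤ 1 := by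
  rw [nm_mul]
  exact mul_le_one₀ hx (nm_nonneg _) hy

theorem rs_mul {x y : FQb} (hx : nm p x ≤ 1) (hy : nm p y ≤ 1) :
    rs (p := p) (x * y) = rs x * rs y := by
  rw [rs_of_le hx, rs_of_le hy, rs_of_le (nm_mul_le_one hx hy), ← map_mul]
  rfl

theorem rs_pow {x : FQb} (hx : nm p x ≤ 1) (n : ℕ) : rs (p := p) (x ^ n) = rs x ^ n := by
  induction n with
  | zero => simp
  | succ n ih =>
    rw [pow_succ, pow_succ, rs_mul (by rw [nm_pow]; exact pow_le_one₀ (nm_nonneg _) hx) hx, ih]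

theorem rs_neg {x : FQb} (hx : nm p x ≤ 1) : rs (p := p) (-x) = -rs x := by
  have h := rs_add (p := p) hx (y := -x) (by rwa [nm_neg])
  rw [add_neg_cancel, rs_zero] at h
  exact (neg_eq_of_add_eq_zero_right h.symm).symm

theorem rs_sub {x y : FQb} (hx : nm p x ≤ 1) (hy : nm p y ≤ 1) :
    rs (p := p) (x - y) = rs x - rs y := by
  rw [sub_eq_add_neg, rs_add hx (by rwa [nm_neg]), rs_neg hy, sub_eq_add_neg]

theorem rs_eq_zero_iff {x : FQb} (hx : nm p x ≤ 1) : rs (p := p) x = 0 ↔ nm p x < 1 := by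
  rw [rs_of_le hx, IsLocalRing.residue_eq_zero_iff, ← ValuationSubring.coe_mem_nonunits_iff,
    mem_nonunits_iff_nm]

theorem rs_eq_iff {x y : FQb} (hx : nm p x ≤ 1) (hy : nm p y ≤ 1) :
    rs (p := p) x = rs y ↔ nm p (x - y) < 1 := by
  rw [← sub_eq_zero, ← rs_sub hx hy, rs_eq_zero_iff (nm_sub_le_of hx hy)]

theorem rs_natCast (n : ℕ) : rs (p := p) (n : FQb) = n := by
  rw [rs_of_le (nm_natCast_le_one n)]
  exact map_natCast (IsLocalRing.residue (padicPlace p)) n

theorem rs_surjective (z : Kap p) : ∃ x : FQb, nm p x ≤ 1 ∧ rs x = z := by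
  obtain ⟨⟨x, hx⟩, rfl⟩ := IsLocalRing.residue_surjective z
  exact ⟨x, hx, rs_of_le hx⟩

theorem rs_sum {ι : Type*} (s : Finset ι) (f : ι → FQb) (h : ∀ i ∈ s, nm p (f i) ≤ 1) :
    rs (p := p) (∑ i ∈ s, f i) = ∑ i ∈ s, rs (f i) := by
  classical
  induction s using Finset.induction_on with
  | empty => simp
  | insert a s ha ih =>
    rw [Finset.sum_insert ha, Finset.sum_insert ha,
      rs_add (h a (Finset.mem_insert_self a s))
        (nm_sum_le _ _ zero_le_one fun i hi => h i (Finset.mem_insert_of_mem hi)),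
      ih fun i hi => h i (Finset.mem_insert_of_mem hi)]

instance charP_Kap : CharP (Kap p) p := by
  rw [CharP.charP_iff_prime_eq_zero (Fact.out : p.Prime), ← rs_natCast,
    rs_eq_zero_iff (nm_natCast_le_one p)]
  exact nm_p_lt_one p

/-- the decomposition group acts on residues -/
theorem rs_dec_congr {σ : FGQ} (hσ : σ ∈ Dp p) {x y : FQb} (hx : nm p x ≤ 1) (hy : nm p y ≤ 1)
    (h : rs (p := p) x = rs y) : rs (p := p) (σ x) = rs (σ y) := by
  rw [rs_eq_iff (by rwa [nm_dec hσ]) (by rwa [nm_dec hσ]), ← map_sub, nm_dec hσ, ← rs_eq_iff hx hy]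
  exact h

theorem rs_inertia {σ : FGQ} (hσ : σ ∈ Ip p) {x : FQb} (hx : nm p x ≤ 1) :
    rs (p := p) (σ x) = rs x := by
  rw [rs_eq_iff (by rwa [nm_dec (Ip_le_Dp hσ)]) hx]
  exact nm_inertia hσ hx

/-! ### Frobenius -/

variable (p) in
theorem exists_frobenius : ∃ φ : FGQ, φ ∈ Dp p ∧ ∀ x, nm p x ≤ 1 → nm p (φ x - x ^ p) < 1 := by
  obtain ⟨φ, hφ⟩ := H54.exists_isFrobeniusAt (Fact.out : p.Prime) (H54.liesOverPrime_padicPlace p)
  rw [H63.isFrobeniusAt_iff] at hφ
  exact ⟨φ, hφ.1, fun x hx => mem_nonunits_iff_nm.mp (hφ.2 x hx)⟩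

variable (p) in
/-- a Frobenius element in the decomposition group -/
def frob : FGQ := (exists_frobenius p).choose

theorem frob_mem : frob p ∈ Dp p := (exists_frobenius p).choose_spec.1

theorem nm_frob {x : FQb} (hx : nm p x ≤ 1) : nm p (frob p x - x ^ p) < 1 :=
  (exists_frobenius p).choose_spec.2 x hx

theorem rs_frob {x : FQb} (hx : nm p x ≤ 1) : rs (p := p) (frob p x) = rs x ^ p := by
  rw [← rs_pow hx, rs_eq_iff (by rwa [nm_dec frob_mem])
    (by rw [nm_pow]; exact pow_le_one₀ (nm_nonneg _) hx)]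
  exact nm_frob hx

/-! ### Teichmüller elements -/

variable (p) in
/-- Teichmüller elements of `ℚ̄` -/
def IsTeich (ζ : FQb) : Prop := ∃ m : ℕ, 0 < m ∧ ζ ^ (p ^ m) = ζ

theorem IsTeich.zero : IsTeich p 0 := ⟨1, one_pos, by
  rw [pow_one, zero_pow (Fact.out : p.Prime).ne_zero]⟩

omit [Fact p.Prime] in
theorem pow_iterate {ζ : FQb} {m : ℕ} (h : ζ ^ (p ^ m) = ζ) (k : ℕ) : ζ ^ (p ^ (m * k)) = ζ := by
  induction k with
  | zero => simp
  | succ k ih => rw [Nat.mul_succ, pow_add, pow_mul, ih, h]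

omit [Fact p.Prime] in
theorem IsTeich.mul {ζ ξ : FQb} (h : IsTeich p ζ) (h' : IsTeich p ξ) : IsTeich p (ζ * ξ) := by
  obtain ⟨m, hm, h1⟩ := h
  obtain ⟨n, hn, h2⟩ := h'
  refine ⟨m * n, Nat.mul_pos hm hn, ?_⟩
  rw [mul_pow, pow_iterate h1, mul_comm m n, pow_iterate h2]

omit [Fact p.Prime] in
theorem IsTeich.pow {ζ : FQb} (h : IsTeich p ζ) (n : ℕ) : IsTeich p (ζ ^ n) := by
  obtain ⟨m, hm, h1⟩ := h
  exact ⟨m, hm, by rw [← pow_mul, mul_comm, pow_mul, h1]⟩

omit [Fact p.Prime] in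
theorem IsTeich.exists_root {ζ : FQb} (h : IsTeich p ζ) : ∃ ξ, IsTeich p ξ ∧ ξ ^ p = ζ := by
  obtain ⟨m, hm, h1⟩ := h
  refine ⟨ζ ^ (p ^ (m - 1)), IsTeich.pow ⟨m, hm, h1⟩ _, ?_⟩
  rw [← pow_mul, ← pow_succ, Nat.sub_add_cancel hm, h1]

theorem IsTeich.isIntegral {ζ : FQb} (h : IsTeich p ζ) : IsIntegral ℤ ζ := by
  obtain ⟨m, hm, h1⟩ := h
  have hp1 : 1 < p ^ m := Nat.one_lt_pow hm.ne' (Fact.out : p.Prime).one_lt
  refine ⟨Polynomial.X ^ (p ^ m) - Polynomial.X, ?_, ?_⟩
  · exact Polynomial.monic_X_pow_sub (by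
      rw [Polynomial.degree_X]
      exact_mod_cast hp1)
  · simp [h1]

theorem IsTeich.nm_le {ζ : FQb} (h : IsTeich p ζ) : nm p ζ ≤ 1 := nm_le_one_of_isIntegral h.isIntegral

omit [Fact p.Prime] in
theorem IsTeich.map {ζ : FQb} (h : IsTeich p ζ) (σ : FGQ) : IsTeich p (σ ζ) := by
  obtain ⟨m, hm, h1⟩ := h
  exact ⟨m, hm, by rw [← map_pow, h1]⟩

/-- `(a + b) ^ p` modulo `p a b` -/
theorem nm_add_pow_p_sub_le {a b : FQb} (ha : nm p a ≤ 1) (hb : nm p b ≤ 1) :
    nm p ((a + b) ^ p - a ^ p - b ^ p) ≤ nm p (p : FQb) * (nm p a * nm p b) := by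
  obtain ⟨r, hr⟩ := exists_add_pow_prime_eq (Fact.out : p.Prime)
    (⟨a, ha⟩ : padicPlace p) (⟨b, hb⟩ : padicPlace p)
  have hr' := congrArg (Subtype.val) hr
  have e1 : (a + b) ^ p = a ^ p + b ^ p + (p : FQb) * a * b * (r : FQb) := by
    simpa using hr'
  have hrle : nm p (r : FQb) ≤ 1 := r.2
  rw [e1]
  have e2 : a ^ p + b ^ p + (p : FQb) * a * b * (r : FQb) - a ^ p - b ^ p =
      (p : FQb) * a * b * (r : FQb) := by ring
  rw [e2, nm_mul, nm_mul, nm_mul, mul_assoc (nm p (p : FQb))]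
  apply mul_le_of_le_one_right _ hrle
  have := nm_nonneg (p := p) a
  have := nm_nonneg (p := p) b
  have := nm_nonneg (p := p) (p : FQb)
  positivity

theorem nm_pow_p_sub_le {a b : FQb} (ha : nm p a ≤ 1) (hb : nm p b ≤ 1) :
    nm p (a ^ p - b ^ p) ≤ max (nm p (a - b) ^ p) (nm p (p : FQb) * nm p (a - b)) := by
  have h1 := nm_add_pow_p_sub_le (p := p) (a := b) (b := a - b) hb (nm_sub_le_of ha hb)
  rw [show b + (a - b) = a by ring] at h1
  have e1 : a ^ p - b ^ p = (a ^ p - b ^ p - (a - b) ^ p) + (a - b) ^ p := by ring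
  rw [e1]
  refine (nm_add_le _ _).trans (max_le ?_ ?_)
  · refine le_max_of_le_right (h1.trans ?_)
    apply mul_le_mul_of_nonneg_left _ (nm_nonneg _)
    exact mul_le_of_le_one_left (nm_nonneg _) hb
  · rw [nm_pow]
    exact le_max_left _ _

theorem nm_pow_p_sub_lt {a b : FQb} (ha : nm p a ≤ 1) (hb : nm p b ≤ 1) (hne : a ≠ b)
    (hlt : nm p (a - b) < 1) : nm p (a ^ p - b ^ p) < nm p (a - b) := by
  have hpos : 0 < nm p (a - b) := nm_pos.mpr (sub_ne_zero.mpr hne)
  refine (nm_pow_p_sub_le ha hb).trans_lt (max_lt ?_ ?_)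
  · exact pow_lt_self_of_lt_one₀ hpos hlt (Fact.out : p.Prime).one_lt
  · exact mul_lt_of_lt_one_left hpos (nm_p_lt_one p)

theorem nm_pow_ppow_sub_lt {a b : FQb} (ha : nm p a ≤ 1) (hb : nm p b ≤ 1) (hne : a ≠ b)
    (hlt : nm p (a - b) < 1) (k : ℕ) (hk : 0 < k) :
    nm p (a ^ (p ^ k) - b ^ (p ^ k)) < nm p (a - b) := by
  induction k with
  | zero => exact absurd hk (lt_irrefl _)
  | succ k ih =>
    rcases Nat.eq_zero_or_pos k with rfl | hk'
    · simpa using nm_pow_p_sub_lt ha hb hne hlt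
    · have h1 := ih hk'
      by_cases h2 : a ^ (p ^ k) = b ^ (p ^ k)
      · rw [pow_succ, pow_mul, pow_mul, h2, sub_self, nm_zero]
        exact nm_pos.mpr (sub_ne_zero.mpr hne)
      · rw [pow_succ, pow_mul, pow_mul]
        refine (nm_pow_p_sub_lt ?_ ?_ h2 (h1.trans hlt)).trans h1
        · rw [nm_pow]; exact pow_le_one₀ (nm_nonneg _) ha
        · rw [nm_pow]; exact pow_le_one₀ (nm_nonneg _) hb

theorem IsTeich.eq_of_nm_sub_lt {ζ ξ : FQb} (h : IsTeich p ζ) (h' : IsTeich p ξ)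
    (hlt : nm p (ζ - ξ) < 1) : ζ = ξ := by
  by_contra hne
  have hζle := h.nm_le
  have hξle := h'.nm_le
  obtain ⟨m, hm, h1⟩ := h
  obtain ⟨n, hn, h2⟩ := h'
  have h3 := pow_iterate h1 n
  have h4 := pow_iterate h2 m
  rw [mul_comm n m] at h4
  have h5 := nm_pow_ppow_sub_lt hζle hξle hne hlt (m * n) (Nat.mul_pos hm hn)
  rw [h3, h4] at h5
  exact lt_irrefl _ h5

/-- Teichmüller elements are fixed by inertia -/
theorem IsTeich.inertia {ζ : FQb} (h : IsTeich p ζ) {σ : FGQ} (hσ : σ ∈ Ip p) : σ ζ = ζ :=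
  (h.map σ).eq_of_nm_sub_lt h (nm_inertia hσ h.nm_le)

theorem IsTeich.frob {ζ : FQb} (h : IsTeich p ζ) : frob p ζ = ζ ^ p :=
  (h.map _).eq_of_nm_sub_lt (h.pow p) (nm_frob h.nm_le)

/-- product formula: if a product of factors of norm at most `1` has norm `< 1`, one factor has -/
theorem exists_nm_lt_of_prod {ι : Type*} (s : Multiset ι) (f : ι → FQb)
    (h1 : ∀ i ∈ s, nm p (f i) ≤ 1) (h : nm p ((s.map f).prod) < 1) :
    ∃ i ∈ s, nm p (f i) < 1 := by
  induction s using Multiset.induction_on with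
  | empty => simp at h
  | cons a s ih =>
    rw [Multiset.map_cons, Multiset.prod_cons, nm_mul] at h
    by_cases ha : nm p (f a) < 1
    · exact ⟨a, Multiset.mem_cons_self a s, ha⟩
    · have ha' : nm p (f a) = 1 :=
        le_antisymm (h1 a (Multiset.mem_cons_self a s)) (not_lt.mp ha)
      rw [ha', one_mul] at h
      obtain ⟨i, hi, hi'⟩ := ih (fun i hi => h1 i (Multiset.mem_cons_of_mem hi)) h
      exact ⟨i, Multiset.mem_cons_of_mem hi, hi'⟩

theorem pow_card_of_isAlgebraic {κ : Type*} [Field κ] [Algebra (ZMod p) κ] (z : κ)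
    (hz : IsAlgebraic (ZMod p) z) : ∃ m : ℕ, 0 < m ∧ z ^ (p ^ m) = z := by
  have hint : IsIntegral (ZMod p) z := hz.isIntegral
  have hfd : FiniteDimensional (ZMod p) (IntermediateField.adjoin (ZMod p) {z}) :=
    IntermediateField.adjoin.finiteDimensional hint
  have : Finite (IntermediateField.adjoin (ZMod p) {z}) := Module.finite_of_finite (ZMod p)
  have := Fintype.ofFinite (IntermediateField.adjoin (ZMod p) {z})
  refine ⟨Module.finrank (ZMod p) (IntermediateField.adjoin (ZMod p) {z}), Module.finrank_pos, ?_⟩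
  have h1 := FiniteField.pow_card (⟨z, IntermediateField.mem_adjoin_simple_self _ z⟩ :
    IntermediateField.adjoin (ZMod p) {z})
  have h2 : Fintype.card (IntermediateField.adjoin (ZMod p) {z}) =
      p ^ Module.finrank (ZMod p) (IntermediateField.adjoin (ZMod p) {z}) := by
    rw [Module.card_eq_pow_finrank (K := ZMod p), ZMod.card]
  rw [h2] at h1
  exact congrArg Subtype.val h1

/-- every element of norm `≤ 1` is congruent to its `p ^ m`-th power for some `m ≥ 1` -/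
theorem exists_pow_congr {u : FQb} (hu : nm p u ≤ 1) :
    ∃ m : ℕ, 0 < m ∧ nm p (u ^ (p ^ m) - u) < 1 := by
  have hp := (Fact.out : p.Prime)
  let _ : Algebra (ZMod p) (Kap p) := ZMod.algebra (Kap p) p
  obtain ⟨P₀, hP₀, hP₀u⟩ : IsAlgebraic ℤ u := by
    exact (IsFractionRing.isAlgebraic_iff ℤ ℚ FQb).mpr
      ((AlgebraicClosure.isAlgebraic ℚ).isAlgebraic u)
  set P := P₀.primPart with hP
  have hPu : aeval u P = 0 := Polynomial.aeval_primPart_eq_zero hP₀ hP₀u
  have hprim : P.IsPrimitive := P₀.isPrimitive_primPart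
  have hPbar : P.map (Int.castRingHom (ZMod p)) ≠ 0 := by
    intro h0
    have hdvd : C (p : ℤ) ∣ P := by
      rw [Polynomial.C_dvd_iff_dvd_coeff]
      intro i
      have h1 := congrArg (fun Q => Q.coeff i) h0
      simp only [coeff_map, coeff_zero, eq_intCast] at h1
      exact (ZMod.intCast_zmod_eq_zero_iff_dvd _ p).mp h1
    have := hprim (p : ℤ) hdvd
    exact (Nat.prime_iff_prime_int.mp hp).not_isUnit this
  have halg : IsAlgebraic (ZMod p) (rs (p := p) u) := by
    refine ⟨P.map (Int.castRingHom (ZMod p)), hPbar, ?_⟩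
    have h1 : (aeval (⟨u, hu⟩ : padicPlace p)) P = 0 := by
      apply Subtype.ext
      have h2 : ((aeval (⟨u, hu⟩ : padicPlace p) P : padicPlace p) : FQb) = aeval u P := by
        have := Polynomial.aeval_algebraMap_apply FQb (⟨u, hu⟩ : padicPlace p) P
        exact this.symm
      rw [h2, hPu]
      rfl
    have h3 := congrArg (IsLocalRing.residue (padicPlace p)) h1
    rw [map_zero, aeval_def, Polynomial.hom_eval₂] at h3
    rw [rs_of_le hu, aeval_def, Polynomial.eval₂_map]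
    rw [← h3]
    congr 1
    exact Subsingleton.elim _ _
  obtain ⟨m, hm, h⟩ := pow_card_of_isAlgebraic _ halg
  refine ⟨m, hm, ?_⟩
  rw [← rs_eq_iff (by rw [nm_pow]; exact pow_le_one₀ (nm_nonneg _) hu) hu, rs_pow hu]
  exact h

theorem exists_teich {u : FQb} (hu : nm p u ≤ 1) : ∃ ζ, IsTeich p ζ ∧ nm p (u - ζ) < 1 := by
  obtain ⟨m, hm, h⟩ := exists_pow_congr hu
  have hp1 : 1 < p ^ m := Nat.one_lt_pow hm.ne' (Fact.out : p.Prime).one_lt
  set f : Polynomial FQb := Polynomial.X ^ (p ^ m) - Polynomial.X with hf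
  have hmon : f.Monic := Polynomial.monic_X_pow_sub (by
      rw [Polynomial.degree_X]
      exact_mod_cast hp1)
  have hsp := (IsAlgClosed.splits f)
  have hprod := hsp.eq_prod_roots_of_monic hmon
  have heval : f.eval u = (f.roots.map fun a => u - a).prod := by
    conv_lhs => rw [hprod]
    rw [Polynomial.eval_multiset_prod, Multiset.map_map]
    congr 1
    apply Multiset.map_congr rfl
    intro a _
    simp
  have hT : ∀ a ∈ f.roots, IsTeich p a := by
    intro a ha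
    rw [Polynomial.mem_roots hmon.ne_zero, Polynomial.IsRoot.def] at ha
    refine ⟨m, hm, ?_⟩
    simpa [hf, sub_eq_zero] using ha
  obtain ⟨a, ha, ha'⟩ := exists_nm_lt_of_prod (p := p) f.roots (fun a => u - a)
    (fun a ha => nm_sub_le_of hu (hT a ha).nm_le) (by
      rw [← heval]
      simpa [hf] using h)
  exact ⟨a, hT a ha, ha'⟩

end Fermat.Agent.H64
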