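import Fermat.Agent.H64Kummer

/-!
# The Kummer isomorphism with restricted ramification
-/

set_option autoImplicit false

open NumberField IsDedekindDomain Fermat.Agent.H63 Fermat.Agent.H55 ExtCitation

namespace Fermat.Agent.H64

local notation "Qb" => AlgebraicClosure ℚ
local notation "GQ" => (AlgebraicClosure ℚ ≃ₐ[ℚ] AlgebraicClosure ℚ)

section triv

variable {G : Type*} [Group G] {p : ℕ}

/-- 1-cocycles of the trivial representation -/
theorem mem_Z1_trivial {𝓛 : Levels G} {f : G → ZMod p} :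
    f ∈ Z1 𝓛 (Representation.trivial (ZMod p) G (ZMod p)) ↔
      LC1 𝓛 f ∧ ∀ g h, f (g * h) = f g + f h := by
  rw [mem_Z1]
  refine and_congr_right fun _ => ?_
  refine forall_congr' fun g => forall_congr' fun h => ?_
  rw [Representation.trivial_apply, add_comm]

theorem H1π_trivial_injective (𝓛 : Levels G) :
    Function.Injective (H1π 𝓛 (Representation.trivial (ZMod p) G (ZMod p))) := by
  rw [← LinearMap.ker_eq_bot, LinearMap.ker_eq_bot']
  intro f hf
  rw [H1π_eq_zero_iff] at hf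
  obtain ⟨a, ha⟩ := hf
  apply Subtype.ext
  rw [← ha]
  funext g
  simp

end triv

variable {p : ℕ} [Fact p.Prime] {K : IntermediateField ℚ Qb} [NumberField K] {ζ : Qb}
  {S : Finset Nat.Primes}

/-- the Kummer map `V_S(K) → H¹(G_{K,S}, ℤ/p)`. -/
noncomputable def kummerMap (hζ : IsPrimitiveRoot ζ p) (hζK : ζ ∈ K)
    (hpS : ∀ q : Nat.Primes, (q : ℕ) = p → q ∈ S) (hK : K.IsUnramifiedOutside S) :
    VS S K p →* Multiplicative (H1 ((levelsS S).onSub K.fixingSubgroup)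
      (Representation.trivial (ZMod p) K.fixingSubgroup (ZMod p))) where
  toFun x := Multiplicative.ofAdd (H1π ((levelsS S).onSub K.fixingSubgroup)
    (Representation.trivial (ZMod p) K.fixingSubgroup (ZMod p)) ⟨(IsKummer.exists hζ (x : Kˣ)).choose,
    mem_Z1_trivial.2 ⟨(IsKummer.exists hζ (x : Kˣ)).choose_spec.lc1 hζ hζK hpS hK x.2,
      (IsKummer.exists hζ (x : Kˣ)).choose_spec.map_mul' hζ hζK⟩⟩)
  map_one' := by
    rw [← ofAdd_zero]
    congr 1
    rw [← map_zero (H1π ((levelsS S).onSub K.fixingSubgroup)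
      (Representation.trivial (ZMod p) K.fixingSubgroup (ZMod p)))]
    congr 1
    apply Subtype.ext
    exact (IsKummer.exists hζ ((1 : VS S K p) : Kˣ)).choose_spec.unique hζ hζK
      (IsKummer.zero_iff.2 ⟨1, by simp⟩)
  map_mul' x y := by
    rw [← ofAdd_add, ← map_add]
    congr 2
    apply Subtype.ext
    exact (IsKummer.exists hζ ((x * y : VS S K p) : Kˣ)).choose_spec.unique hζ hζK
      ((IsKummer.exists hζ (x : Kˣ)).choose_spec.mul hζ (IsKummer.exists hζ (y : Kˣ)).choose_spec)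

theorem kummerMap_eq (hζ : IsPrimitiveRoot ζ p) (hζK : ζ ∈ K)
    (hpS : ∀ q : Nat.Primes, (q : ℕ) = p → q ∈ S) (hK : K.IsUnramifiedOutside S)
    (x : VS S K p) {f : K.fixingSubgroup → ZMod p} (hf : IsKummer p ζ (x : Kˣ) f) :
    kummerMap hζ hζK hpS hK x = Multiplicative.ofAdd (H1π ((levelsS S).onSub K.fixingSubgroup)
      (Representation.trivial (ZMod p) K.fixingSubgroup (ZMod p)) ⟨f, mem_Z1_trivial.2
      ⟨hf.lc1 hζ hζK hpS hK x.2, hf.map_mul' hζ hζK⟩⟩) := by
  have h : (IsKummer.exists hζ (x : Kˣ)).choose = f :=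
    (IsKummer.exists hζ (x : Kˣ)).choose_spec.unique hζ hζK hf
  subst h
  rfl

theorem kummerMap_surjective (hζ : IsPrimitiveRoot ζ p) (hζK : ζ ∈ K)
    (hpS : ∀ q : Nat.Primes, (q : ℕ) = p → q ∈ S) (hK : K.IsUnramifiedOutside S) :
    Function.Surjective (kummerMap hζ hζK hpS hK) := by
  intro c
  obtain ⟨⟨f, hf⟩, hfc⟩ := H1π_surjective ((levelsS S).onSub K.fixingSubgroup)
    (Representation.trivial (ZMod p) K.fixingSubgroup (ZMod p)) (Multiplicative.toAdd c)
  obtain ⟨hf1, hf2⟩ := mem_Z1_trivial.1 hf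
  obtain ⟨x, hx, hxf⟩ := exists_isKummer hζ hζK hK hf2 hf1
  refine ⟨⟨x, hx⟩, ?_⟩
  rw [kummerMap_eq hζ hζK hpS hK ⟨x, hx⟩ hxf]
  exact congrArg Multiplicative.ofAdd hfc

theorem kummerMap_ker (hζ : IsPrimitiveRoot ζ p) (hζK : ζ ∈ K)
    (hpS : ∀ q : Nat.Primes, (q : ℕ) = p → q ∈ S) (hK : K.IsUnramifiedOutside S) :
    (kummerMap hζ hζK hpS hK).ker = (powMonoidHom p : Kˣ →* Kˣ).range.subgroupOf (VS S K p) := by
  ext x
  rw [MonoidHom.mem_ker, Subgroup.mem_subgroupOf, MonoidHom.mem_range]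
  obtain ⟨f, hf⟩ := IsKummer.exists hζ (x : Kˣ)
  rw [kummerMap_eq hζ hζK hpS hK x hf, ofAdd_eq_one]
  have h0 : (H1π ((levelsS S).onSub K.fixingSubgroup)
      (Representation.trivial (ZMod p) K.fixingSubgroup (ZMod p)))
      ⟨f, mem_Z1_trivial.2 ⟨hf.lc1 hζ hζK hpS hK x.2, hf.map_mul' hζ hζK⟩⟩ = 0 ↔ f = 0 := by
    rw [← map_zero (H1π ((levelsS S).onSub K.fixingSubgroup)
      (Representation.trivial (ZMod p) K.fixingSubgroup (ZMod p))),
      (H1π_trivial_injective _).eq_iff]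
    constructor
    · intro h; exact congrArg Subtype.val h
    · intro h; exact Subtype.ext h
  rw [h0]
  constructor
  · rintro rfl
    obtain ⟨z, hz⟩ := IsKummer.zero_iff.1 hf
    exact ⟨z, hz⟩
  · rintro ⟨z, hz⟩
    exact hf.unique hζ hζK (IsKummer.zero_iff.2 ⟨z, hz⟩)

/-- the Kummer isomorphism -/
noncomputable def kummerEquiv (hζ : IsPrimitiveRoot ζ p) (hζK : ζ ∈ K)
    (hpS : ∀ q : Nat.Primes, (q : ℕ) = p → q ∈ S) (hK : K.IsUnramifiedOutside S) :
    (VS S K p ⧸ (powMonoidHom p : Kˣ →* Kˣ).range.subgroupOf (VS S K p)) ≃*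
      Multiplicative (H1 ((levelsS S).onSub K.fixingSubgroup)
      (Representation.trivial (ZMod p) K.fixingSubgroup (ZMod p))) :=
  (QuotientGroup.quotientMulEquivOfEq (kummerMap_ker hζ hζK hpS hK).symm).trans
    (QuotientGroup.quotientKerEquivOfSurjective _ (kummerMap_surjective hζ hζK hpS hK))

theorem kummerEquiv_mk (hζ : IsPrimitiveRoot ζ p) (hζK : ζ ∈ K)
    (hpS : ∀ q : Nat.Primes, (q : ℕ) = p → q ∈ S) (hK : K.IsUnramifiedOutside S)
    (x : VS S K p) : kummerEquiv hζ hζK hpS hK (QuotientGroup.mk x) =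
      kummerMap hζ hζK hpS hK x := rfl

/-- [f] cardinality form of Kummer theory. -/
theorem card_H1_eq (hζ : IsPrimitiveRoot ζ p) (hζK : ζ ∈ K)
    (hpS : ∀ q : Nat.Primes, (q : ℕ) = p → q ∈ S) (hK : K.IsUnramifiedOutside S) :
    Nat.card (H1 ((levelsS S).onSub K.fixingSubgroup)
      (Representation.trivial (ZMod p) K.fixingSubgroup (ZMod p))) =
    Nat.card (VS S K p ⧸ (powMonoidHom p : Kˣ →* Kˣ).range.subgroupOf (VS S K p)) :=
  Nat.card_congr ((kummerEquiv hζ hζK hpS hK).toEquiv.trans Multiplicative.toAdd).symm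

end Fermat.Agent.H64
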