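import Fermat.Agent.H26ZLat

/-!
# Local-global principle for lattices in `K²` (helper64, S47, package C1-LAT)

`R` Dedekind, `K = Frac R`, `w` a height one prime.  `loc w M` is the localisation at `w` of an
`R`-submodule `M` of `K²`, `std w g = g O_(w)²`.  A lattice is determined by its localisations, and
any family `std w (h w)` which is almost everywhere `std w 1` comes from a lattice.
-/

set_option autoImplicit false
set_option linter.unusedSectionVars false

noncomputable section

open scoped nonZeroDivisors MatrixGroups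
open Matrix IsDedekindDomain HeightOneSpectrum

namespace Fermat.Agent.H64L

open Fermat.Agent.H26Z

variable {R K : Type*} [CommRing R] [IsDedekindDomain R] [Field K] [Algebra R K]
  [IsFractionRing R K]

/-- the localisation at `w` of a submodule of `K²` -/
def loc (w : HeightOneSpectrum R) (M : Submodule R (Fin 2 → K)) : Submodule R (Fin 2 → K) where
  carrier := {v | ∃ r : R, r ∉ w.asIdeal ∧ r • v ∈ M}
  add_mem' := by
    rintro a b ⟨r, hr, ha⟩ ⟨s, hs, hb⟩
    refine ⟨r * s, fun h => ?_, ?_⟩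
    · rcases w.isPrime.mem_or_mem h with h | h
      · exact hr h
      · exact hs h
    · rw [smul_add]
      refine add_mem ?_ ?_
      · rw [mul_comm, mul_smul]; exact M.smul_mem _ ha
      · rw [mul_smul]; exact M.smul_mem _ hb
  zero_mem' := ⟨1, fun h => w.isPrime.ne_top ((Ideal.eq_top_iff_one _).2 h), by simp⟩
  smul_mem' := by
    rintro a b ⟨r, hr, hb⟩
    exact ⟨r, hr, by rw [smul_comm]; exact M.smul_mem _ hb⟩

theorem mem_loc {w : HeightOneSpectrum R} {M : Submodule R (Fin 2 → K)} {v : Fin 2 → K} :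
    v ∈ loc w M ↔ ∃ r : R, r ∉ w.asIdeal ∧ r • v ∈ M := Iff.rfl

theorem le_loc (w : HeightOneSpectrum R) (M : Submodule R (Fin 2 → K)) : M ≤ loc w M :=
  fun _ hv => ⟨1, fun h => w.isPrime.ne_top ((Ideal.eq_top_iff_one _).2 h), by rwa [one_smul]⟩

/-- `loc w M` is stable under the scalars which are integral at `w`. -/
theorem smul_mem_loc {w : HeightOneSpectrum R} {M : Submodule R (Fin 2 → K)} {v : Fin 2 → K}
    (hv : v ∈ loc w M) {x : K} (hx : w.valuation K x ≤ 1) : x • v ∈ loc w M := by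
  obtain ⟨r, hr, hv⟩ := hv
  obtain ⟨n, d, hnd⟩ := exists_primeCompl_mul_eq_of_integer w x hx
  refine ⟨d * r, fun h => ?_, ?_⟩
  · rcases w.isPrime.mem_or_mem h with h | h
    · exact d.2 h
    · exact hr h
  · have h1 : ((d : R) * r) • x • v = n • r • v := by
      rw [← algebraMap_smul K ((d : R) * r), ← algebraMap_smul K n, ← algebraMap_smul K r, smul_smul,
        smul_smul, map_mul, ← hnd]
      congr 1
      ring
    rw [h1]
    exact M.smul_mem _ hv

/-- `g O_(w)²` -/
def std (w : HeightOneSpectrum R) (g : GL (Fin 2) K) : Submodule R (Fin 2 → K) where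
  carrier := {v | ∀ i, w.valuation K ((g⁻¹ • v) i) ≤ 1}
  add_mem' := by
    intro a b ha hb i
    rw [smul_add, Pi.add_apply]
    exact Valuation.map_add_le _ (ha i) (hb i)
  zero_mem' := by
    intro i
    rw [smul_zero, Pi.zero_apply, map_zero]
    exact zero_le_one
  smul_mem' := by
    intro r v hv i
    rw [smul_comm, Pi.smul_apply, ← algebraMap_smul K r, smul_eq_mul, map_mul]
    exact mul_le_one' (w.valuation_le_one r) (hv i)

theorem mem_std {w : HeightOneSpectrum R} {g : GL (Fin 2) K} {v : Fin 2 → K} :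
    v ∈ std w g ↔ ∀ i, w.valuation K ((g⁻¹ • v) i) ≤ 1 := Iff.rfl

theorem mem_std_one {w : HeightOneSpectrum R} {v : Fin 2 → K} :
    v ∈ std w (1 : GL (Fin 2) K) ↔ ∀ i, w.valuation K (v i) ≤ 1 := by
  rw [mem_std, inv_one, one_smul]

theorem mem_std_mul {w : HeightOneSpectrum R} {g h : GL (Fin 2) K} {v : Fin 2 → K} :
    v ∈ std w (g * h) ↔ g⁻¹ • v ∈ std w h := by
  rw [mem_std, mem_std, _root_.mul_inv_rev, mul_smul]

theorem mem_std_scalar {w : HeightOneSpectrum R} {g : GL (Fin 2) K} {c : Kˣ} {v : Fin 2 → K} :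
    v ∈ std w (g * GeneralLinearGroup.scalar (Fin 2) c) ↔ ((c⁻¹ : Kˣ) : K) • v ∈ std w g := by
  rw [mem_std, mem_std, _root_.mul_inv_rev, mul_smul, ← map_inv, Lat.scalar_smul_vec, smul_comm]

/-! ### Denominators -/

theorem exists_den (x : K) : ∃ d : R, d ≠ 0 ∧ ∃ n : R, algebraMap R K d * x = algebraMap R K n := by
  obtain ⟨⟨n, d, hd⟩, hx⟩ := IsLocalization.surj (nonZeroDivisors R) x
  exact ⟨d, nonZeroDivisors.ne_zero hd, n, by rw [mul_comm]; exact hx⟩

/-- clear the denominators of a finite family at all places -/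
theorem exists_den_family {ι : Type*} (s : Finset ι) (x : ι → K) :
    ∃ d : R, d ≠ 0 ∧ ∀ i ∈ s, ∀ w : HeightOneSpectrum R,
      w.valuation K (algebraMap R K d * x i) ≤ 1 := by
  classical
  choose d hd0 n hn using fun i => exists_den (R := R) (x i)
  refine ⟨∏ i ∈ s, d i, Finset.prod_ne_zero_iff.2 fun i _ => hd0 i, fun i hi w => ?_⟩
  rw [← Finset.mul_prod_erase s d hi, (algebraMap R K).map_mul, mul_right_comm, hn,
    ← (algebraMap R K).map_mul]
  exact w.valuation_le_one _

theorem valuation_smul_le {w : HeightOneSpectrum R} (r : R) (x : K) :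
    w.valuation K (algebraMap R K r * x) ≤ w.valuation K x := by
  rw [map_mul]
  calc _ ≤ 1 * w.valuation K x := mul_le_mul_left (w.valuation_le_one r) _
    _ = _ := one_mul _

/-- two local lattices are commensurable, uniformly in the place -/
theorem exists_smul_std (g g' : GL (Fin 2) K) :
    ∃ d : R, d ≠ 0 ∧ ∀ w : HeightOneSpectrum R, ∀ v ∈ std w g, d • v ∈ std w g' := by
  obtain ⟨d, hd0, hd⟩ := exists_den_family (R := R) (Finset.univ : Finset (Fin 2 × Fin 2))
    (fun p => (g'⁻¹ * g : GL (Fin 2) K).1 p.1 p.2)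
  refine ⟨d, hd0, fun w v hv i => ?_⟩
  have h1 : g'⁻¹ • (d • v) = d • ((g'⁻¹ * g) • (g⁻¹ • v)) := by
    rw [smul_comm, ← mul_smul, mul_assoc, mul_inv_cancel, mul_one]
  rw [h1, Pi.smul_apply, ← algebraMap_smul K d, smul_eq_mul, Lat.gl_smul_eq, Matrix.mulVec,
    dotProduct, Finset.mul_sum]
  refine Valuation.map_sum_le _ fun j _ => ?_
  rw [← mul_assoc, map_mul]
  exact mul_le_one' (hd (i, j) (Finset.mem_univ _) w) (hv j)

/-- if `w' ≠ w` there are elements outside `w` which are divisible by `w'` -/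
theorem exists_mem_not_mem {w w' : HeightOneSpectrum R} (h : w' ≠ w) :
    ∃ r : R, r ∈ w'.asIdeal ∧ r ∉ w.asIdeal := by
  by_contra hcon
  push Not at hcon
  exact h (HeightOneSpectrum.ext (w'.isMaximal.eq_of_le w.isPrime.ne_top hcon))

theorem valuation_lt_one {w : HeightOneSpectrum R} {r : R} (h : r ∈ w.asIdeal) :
    w.valuation K (algebraMap R K r) < 1 := (w.valuation_lt_one_iff_mem r).2 h

theorem valuation_eq_one {w : HeightOneSpectrum R} {r : R} (h : r ∉ w.asIdeal) :
    w.valuation K (algebraMap R K r) = 1 := w.valuation_eq_one_iff_notMem.2 h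

/-- clear a denominator at `w'` by an element which is a unit at `w` -/
theorem exists_clear {w w' : HeightOneSpectrum R} (h : w' ≠ w) (x : K) :
    ∃ r : R, r ∉ w.asIdeal ∧ w'.valuation K (algebraMap R K r * x) ≤ 1 := by
  obtain ⟨a, ha, ha'⟩ := exists_mem_not_mem h
  rcases eq_or_ne x 0 with rfl | hx
  · exact ⟨a, ha', by rw [mul_zero, map_zero]; exact zero_le_one⟩
  have hlt := valuation_lt_one (K := K) ha
  obtain ⟨n, hn⟩ : ∃ n : ℕ, w'.valuation K (algebraMap R K a) ^ n < (w'.valuation K x)⁻¹ := by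
    have hne : w'.valuation K x ≠ 0 := (Valuation.ne_zero_iff _).2 hx
    exact exists_pow_lt₀ hlt (Units.mk0 _ (inv_ne_zero hne))
  refine ⟨a ^ n, fun hm => ha' (w.isPrime.mem_of_pow_mem n hm), ?_⟩
  have hne : w'.valuation K x ≠ 0 := (Valuation.ne_zero_iff _).2 hx
  rw [map_mul, map_pow, map_pow]
  calc _ ≤ (w'.valuation K x)⁻¹ * w'.valuation K x := mul_le_mul_left hn.le _
    _ = 1 := inv_mul_cancel₀ hne

/-- simultaneous version -/
theorem exists_clear_family {ι : Type*} (w : HeightOneSpectrum R) (s : Finset ι)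
    (p : ι → HeightOneSpectrum R) (x : ι → K) (hp : ∀ i ∈ s, p i ≠ w) :
    ∃ r : R, r ∉ w.asIdeal ∧ ∀ i ∈ s, (p i).valuation K (algebraMap R K r * x i) ≤ 1 := by
  classical
  have h1 : ∀ i : ι, ∃ r : R, r ∉ w.asIdeal ∧ (i ∈ s →
      (p i).valuation K (algebraMap R K r * x i) ≤ 1) := fun i => by
    by_cases hi : i ∈ s
    · obtain ⟨r, hr, hr'⟩ := exists_clear (hp i hi) (x i)
      exact ⟨r, hr, fun _ => hr'⟩
    · exact ⟨1, fun h => w.isPrime.ne_top ((Ideal.eq_top_iff_one _).2 h), fun h => absurd h hi⟩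
  choose r hr hr' using h1
  refine ⟨∏ i ∈ s, r i, fun hm => ?_, fun i hi => ?_⟩
  · obtain ⟨i, _, hi⟩ := (w.isPrime.prod_mem_iff).1 hm
    exact hr i hi
  · rw [← Finset.mul_prod_erase s r hi, mul_comm (r i), (algebraMap R K).map_mul, mul_assoc]
    exact (valuation_smul_le _ _).trans (hr' i hi)

/-! ### Lattices -/

theorem exists_smul_mem (Λ : Lat R K) (v : Fin 2 → K) : ∃ r : R, r ≠ 0 ∧ r • v ∈ Λ.M := by
  have hv : v ∈ Submodule.span K (Λ.M : Set (Fin 2 → K)) := by rw [Λ.span_eq]; trivial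
  induction hv using Submodule.span_induction with
  | mem v hv => exact ⟨1, one_ne_zero, by rwa [one_smul]⟩
  | zero => exact ⟨1, one_ne_zero, by rw [smul_zero]; exact zero_mem _⟩
  | add v w _ _ hv hw =>
    obtain ⟨r, hr, hv⟩ := hv
    obtain ⟨s, hs, hw⟩ := hw
    refine ⟨r * s, mul_ne_zero hr hs, ?_⟩
    rw [smul_add]
    refine add_mem ?_ ?_
    · rw [mul_comm, mul_smul]; exact Λ.M.smul_mem _ hv
    · rw [mul_smul]; exact Λ.M.smul_mem _ hw
  | smul a v _ hv =>
    obtain ⟨r, hr, hv⟩ := hv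
    obtain ⟨d, hd, n, hn⟩ := exists_den (R := R) a
    refine ⟨d * r, mul_ne_zero hd hr, ?_⟩
    have h1 : (d * r) • a • v = n • r • v := by
      rw [← algebraMap_smul K (d * r), ← algebraMap_smul K n, ← algebraMap_smul K r, smul_smul,
        smul_smul, map_mul, ← hn]
      congr 1
      ring
    rw [h1]
    exact Λ.M.smul_mem _ hv

/-- a lattice is the intersection of its localisations -/
theorem mem_of_forall_mem_loc {M : Submodule R (Fin 2 → K)} {v : Fin 2 → K}
    (hM : ∃ r : R, r ≠ 0 ∧ r • v ∈ M)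
    (h : ∀ w : HeightOneSpectrum R, v ∈ loc w M) : v ∈ M := by
  let I : Ideal R :=
    { carrier := {r | r • v ∈ M}
      add_mem' := fun {a b} ha hb => by
        show (a + b) • v ∈ M
        rw [add_smul]; exact add_mem ha hb
      zero_mem' := by
        show (0 : R) • v ∈ M
        rw [zero_smul]; exact zero_mem _
      smul_mem' := fun a b hb => by
        show (a • b) • v ∈ M
        rw [smul_assoc]; exact M.smul_mem _ hb }
  by_cases htop : I = ⊤
  · have h1 : (1 : R) ∈ I := by rw [htop]; trivial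
    have h2 : (1 : R) • v ∈ M := h1
    rwa [one_smul] at h2
  · exfalso
    obtain ⟨m, hm, hIm⟩ := Ideal.exists_le_maximal I htop
    obtain ⟨r, hr0, hr⟩ := hM
    have hbot : m ≠ ⊥ := by
      rintro rfl
      exact hr0 (by simpa using hIm (show r ∈ I from hr))
    obtain ⟨s, hs, hs'⟩ := h ⟨m, hm.isPrime, hbot⟩
    exact hs (hIm (show s ∈ I from hs'))

theorem Lat.mem_of_forall (Λ : Lat R K) {v : Fin 2 → K}
    (h : ∀ w : HeightOneSpectrum R, v ∈ loc w Λ.M) : v ∈ Λ.M :=
  mem_of_forall_mem_loc (exists_smul_mem Λ v) h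

theorem Lat.eq_of_loc_eq {Λ Λ' : Lat R K} (h : ∀ w : HeightOneSpectrum R, loc w Λ.M = loc w Λ'.M) :
    Λ = Λ' := by
  apply Lat.ext_mem
  intro v
  constructor
  · intro hv
    exact Lat.mem_of_forall Λ' fun w => by rw [← h w]; exact le_loc w _ hv
  · intro hv
    exact Lat.mem_of_forall Λ fun w => by rw [h w]; exact le_loc w _ hv

end Fermat.Agent.H64L
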