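import Fermat.Agent.H64L1

/-!
# Gluing local lattices, and uniqueness up to fractional ideals (helper64, S47, C1-LAT)
-/

set_option autoImplicit false
set_option linter.unusedSectionVars false

noncomputable section

open scoped nonZeroDivisors MatrixGroups
open Matrix IsDedekindDomain HeightOneSpectrum

namespace Fermat.Agent.H64L

open Fermat.Agent.H26Z

variable {R K : Type*} [CommRing R] [IsDedekindDomain R] [Field K] [Algebra R K]
  [IsFractionRing R K]

/-! ### Gluing -/

theorem smul_mem_std {w : HeightOneSpectrum R} {g : GL (Fin 2) K} {v : Fin 2 → K}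
    (hv : v ∈ std w g) (r : R) : r • v ∈ std w g := (std w g).smul_mem r hv

theorem exists_smul_family (h h' : HeightOneSpectrum R → GL (Fin 2) K)
    (hfin : {w | std w (h w) ≠ std w 1}.Finite) (hfin' : {w | std w (h' w) ≠ std w 1}.Finite) :
    ∃ d : R, d ≠ 0 ∧ ∀ w, ∀ v ∈ std w (h w), d • v ∈ std w (h' w) := by
  classical
  choose d hd0 hd using fun w => exists_smul_std (R := R) (h w) (h' w)
  let T := (hfin.union hfin').toFinset
  refine ⟨∏ w ∈ T, d w, Finset.prod_ne_zero_iff.2 fun w _ => hd0 w, fun w v hv => ?_⟩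
  by_cases hw : w ∈ T
  · rw [← Finset.mul_prod_erase T d hw, mul_comm, mul_smul]
    exact smul_mem_std (hd w w v hv) _
  · have h1 : ¬ (w ∈ {w | std w (h w) ≠ std w 1} ∪ {w | std w (h' w) ≠ std w 1}) := by
      simpa [T] using hw
    simp only [Set.mem_union, Set.mem_ofPred_eq, not_or, not_not] at h1
    rw [h1.2, ← h1.1]
    exact smul_mem_std hv _

theorem finite_std_const (g : GL (Fin 2) K) : {w : HeightOneSpectrum R | std w g ≠ std w 1}.Finite := by
  obtain ⟨d, hd0, hd⟩ := exists_smul_std (R := R) g 1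
  obtain ⟨d', hd0', hd'⟩ := exists_smul_std (R := R) 1 g
  have hne : algebraMap R K d ≠ 0 := fun h => hd0 ((IsFractionRing.injective R K) (by rw [h, map_zero]))
  have hne' : algebraMap R K d' ≠ 0 := fun h =>
    hd0' ((IsFractionRing.injective R K) (by rw [h, map_zero]))
  refine ((HeightOneSpectrum.Support.finite R (algebraMap R K d)⁻¹).union
    (HeightOneSpectrum.Support.finite R (algebraMap R K d')⁻¹)).subset ?_
  intro w hw
  by_contra hcon
  simp only [Set.mem_union, not_or] at hcon
  have key : ∀ {r : R}, r ≠ 0 → w ∉ HeightOneSpectrum.Support R (algebraMap R K r)⁻¹ →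
      w.valuation K (algebraMap R K r)⁻¹ ≤ 1 := fun _ h => not_lt.1 h
  apply hw
  apply le_antisymm
  · intro v hv i
    have h1 := hd w v hv i
    rw [inv_one, one_smul, Pi.smul_apply, ← algebraMap_smul K d, smul_eq_mul] at h1
    rw [inv_one, one_smul]
    have h2 : v i = (algebraMap R K d)⁻¹ * (algebraMap R K d * v i) := by
      rw [inv_mul_cancel_left₀ hne]
    rw [h2, map_mul]
    exact mul_le_one' (key hd0 hcon.1) h1
  · intro v hv i
    have h1 := hd' w v hv i
    rw [smul_comm, Pi.smul_apply, ← algebraMap_smul K d', smul_eq_mul] at h1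
    have h2 : (g⁻¹ • v) i = (algebraMap R K d')⁻¹ * (algebraMap R K d' * (g⁻¹ • v) i) := by
      rw [inv_mul_cancel_left₀ hne']
    rw [h2, map_mul]
    exact mul_le_one' (key hd0' hcon.2) h1

theorem fg_of_forall_smul {M : Submodule R (Fin 2 → K)} {d : R} (hd0 : d ≠ 0)
    (hd : ∀ v ∈ M, ∀ w : HeightOneSpectrum R, d • v ∈ std w 1) : M.FG := by
  have hne : algebraMap R K d ≠ 0 := fun h => hd0 ((IsFractionRing.injective R K) (by rw [h, map_zero]))
  -- the lattice `d⁻¹ R²`
  let f : (Fin 2 → R) →ₗ[R] (Fin 2 → K) :=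
    { toFun := fun r i => (algebraMap R K d)⁻¹ * algebraMap R K (r i)
      map_add' := fun a b => by
        funext i
        simp only [Pi.add_apply, map_add, mul_add]
      map_smul' := fun a b => by
        funext i
        simp only [Pi.smul_apply, smul_eq_mul, map_mul, RingHom.id_apply]
        rw [← algebraMap_smul K a, smul_eq_mul]
        ring }
  have h1 : (LinearMap.range f).FG := by
    rw [LinearMap.range_eq_map]
    exact (Module.finite_def.1 inferInstance).map f
  have := isNoetherian_of_fg_of_noetherian _ h1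
  refine isNoetherian_submodule.1 this M ?_
  intro v hv
  have h2 : ∀ i, ∃ r : R, algebraMap R K r = algebraMap R K d * v i := fun i => by
    have h3 := mem_integers_of_valuation_le_one K (algebraMap R K d * v i) fun w => by
      have h4 := hd v hv w i
      rwa [inv_one, one_smul, Pi.smul_apply, ← algebraMap_smul K d, smul_eq_mul] at h4
    exact h3
  choose r hr using h2
  refine ⟨r, funext fun i => ?_⟩
  show (algebraMap R K d)⁻¹ * algebraMap R K (r i) = v i
  rw [hr, inv_mul_cancel_left₀ hne]

/-- the lattice with prescribed localisations -/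
def glue (h : HeightOneSpectrum R → GL (Fin 2) K) (hfin : {w | std w (h w) ≠ std w 1}.Finite) :
    Lat R K where
  M := ⨅ w, std w (h w)
  fg := by
    obtain ⟨d, hd0, hd⟩ := exists_smul_family h (fun _ => 1) hfin (by simp)
    exact fg_of_forall_smul hd0 fun v hv w => hd w v ((Submodule.mem_iInf _).1 hv w)
  span_eq := by
    obtain ⟨d, hd0, hd⟩ := exists_smul_family (fun _ => (1 : GL (Fin 2) K)) h (by simp) hfin
    have hne : algebraMap R K d ≠ 0 := fun h =>
      hd0 ((IsFractionRing.injective R K) (by rw [h, map_zero]))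
    rw [eq_top_iff]
    intro v _
    have hmem : ∀ i, (Pi.single i (1 : K) : Fin 2 → K) ∈ Submodule.span K
        ((⨅ w, std w (h w) : Submodule R (Fin 2 → K)) : Set (Fin 2 → K)) := fun i => by
      have h1 : d • (Pi.single i (1 : K) : Fin 2 → K) ∈
          (⨅ w, std w (h w) : Submodule R (Fin 2 → K)) := by
        rw [Submodule.mem_iInf]
        intro w
        refine hd w _ (mem_std_one.2 fun j => ?_)
        rw [Pi.single_apply]
        split_ifs <;> simp
      have h2 := Submodule.smul_mem _ (algebraMap R K d)⁻¹ (Submodule.subset_span h1)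
      rwa [← algebraMap_smul K d, smul_smul, inv_mul_cancel₀ hne, one_smul] at h2
    have h3 : v = v 0 • (Pi.single 0 (1 : K) : Fin 2 → K) + v 1 • Pi.single 1 (1 : K) := by
      funext i
      fin_cases i <;> simp
    rw [h3]
    exact add_mem (Submodule.smul_mem _ _ (hmem 0)) (Submodule.smul_mem _ _ (hmem 1))

theorem mem_glue {h : HeightOneSpectrum R → GL (Fin 2) K}
    {hfin : {w | std w (h w) ≠ std w 1}.Finite} {v : Fin 2 → K} :
    v ∈ (glue h hfin).M ↔ ∀ w, v ∈ std w (h w) := Submodule.mem_iInf _

theorem mem_std_of_smul_mem {w : HeightOneSpectrum R} {g : GL (Fin 2) K} {v : Fin 2 → K} {r : R}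
    (hr : r ∉ w.asIdeal) (h : r • v ∈ std w g) : v ∈ std w g := by
  intro i
  have h1 := h i
  rwa [smul_comm, Pi.smul_apply, ← algebraMap_smul K r, smul_eq_mul, map_mul, valuation_eq_one hr,
    one_mul] at h1

theorem finite_not_mem_std {h : HeightOneSpectrum R → GL (Fin 2) K}
    (hfin : {w | std w (h w) ≠ std w 1}.Finite) (v : Fin 2 → K) :
    {w | v ∉ std w (h w)}.Finite := by
  refine (hfin.union (Set.finite_iUnion fun i : Fin 2 =>
    HeightOneSpectrum.Support.finite R (v i))).subset ?_
  intro w hw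
  by_contra hcon
  simp only [Set.mem_union, Set.mem_ofPred_eq, not_or, not_not, Set.mem_iUnion, not_exists] at hcon
  apply hw
  show v ∈ std w (h w)
  rw [hcon.1]
  exact mem_std_one.2 fun i => not_lt.1 (hcon.2 i)

theorem loc_glue (h : HeightOneSpectrum R → GL (Fin 2) K)
    (hfin : {w | std w (h w) ≠ std w 1}.Finite) (w : HeightOneSpectrum R) :
    loc w (glue h hfin).M = std w (h w) := by
  classical
  apply le_antisymm
  · rintro v ⟨r, hr, hv⟩
    exact mem_std_of_smul_mem hr (mem_glue.1 hv w)
  · intro v hv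
    let T := (finite_not_mem_std hfin v).toFinset
    have hT : ∀ w', w' ∈ T ↔ v ∉ std w' (h w') := fun w' => by simp [T]
    obtain ⟨r, hr, hr'⟩ := exists_clear_family w (T ×ˢ (Finset.univ : Finset (Fin 2))) (fun p => p.1)
      (fun p => ((h p.1)⁻¹ • v) p.2) (fun p hp => by
        rintro rfl
        exact (hT _).1 (Finset.mem_product.1 hp).1 hv)
    refine ⟨r, hr, mem_glue.2 fun w' => ?_⟩
    by_cases hw' : w' ∈ T
    · intro i
      rw [smul_comm, Pi.smul_apply, ← algebraMap_smul K r, smul_eq_mul]
      exact hr' (w', i) (Finset.mem_product.2 ⟨hw', Finset.mem_univ _⟩)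
    · have h1 : v ∈ std w' (h w') := by
        by_contra h2
        exact hw' ((hT _).2 h2)
      exact smul_mem_std h1 r

/-! ### Uniqueness up to fractional ideals -/

/-- the fractional ideal with prescribed valuations -/
def glueIdeal (c : HeightOneSpectrum R → Kˣ) (hc : {w | c w ≠ 1}.Finite) :
    FractionalIdeal R⁰ K :=
  ⟨{ carrier := {x : K | ∀ w : HeightOneSpectrum R, w.valuation K (x * (c w : K)) ≤ 1}
     add_mem' := fun {a b} ha hb w => by
       rw [add_mul]
       exact Valuation.map_add_le _ (ha w) (hb w)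
     zero_mem' := fun w => by
       rw [zero_mul, map_zero]
       exact zero_le_one
     smul_mem' := fun r x hx w => by
       rw [← algebraMap_smul K r, smul_eq_mul, mul_assoc]
       exact (valuation_smul_le _ _).trans (hx w) }, by
    classical
    obtain ⟨d, hd0, hd⟩ := exists_den_family (R := R) hc.toFinset (fun w => ((c w)⁻¹ : Kˣ).1)
    refine ⟨d, mem_nonZeroDivisors_of_ne_zero hd0, fun b hb => ?_⟩
    have h3 := mem_integers_of_valuation_le_one K (algebraMap R K d * b) fun w => by
      by_cases hw : w ∈ hc.toFinset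
      · have h1 : algebraMap R K d * b = (algebraMap R K d * ((c w)⁻¹ : Kˣ).1) * (b * c w) := by
          rw [mul_mul_mul_comm, Units.inv_mul, mul_one]
        rw [h1, map_mul]
        exact mul_le_one' (hd w hw w) (hb w)
      · have h1 : c w = 1 := by simpa using hw
        have h2 := hb w
        rw [h1, Units.val_one, mul_one] at h2
        exact (valuation_smul_le _ _).trans h2
    rw [← algebraMap_smul K d, smul_eq_mul]
    exact h3⟩

theorem mem_glueIdeal {c : HeightOneSpectrum R → Kˣ} {hc : {w | c w ≠ 1}.Finite} {x : K} :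
    x ∈ (glueIdeal c hc : Submodule R K) ↔
      ∀ w : HeightOneSpectrum R, w.valuation K (x * (c w : K)) ≤ 1 := Iff.rfl

theorem exists_mem_glueIdeal (c : HeightOneSpectrum R → Kˣ) (hc : {w | c w ≠ 1}.Finite)
    (w : HeightOneSpectrum R) :
    ∃ x ∈ (glueIdeal c hc : Submodule R K), w.valuation K (x * (c w : K)) = 1 := by
  classical
  have hfin : {w' : HeightOneSpectrum R | 1 < w'.valuation K (((c w)⁻¹ : Kˣ).1 * c w')}.Finite := by
    refine (hc.union (HeightOneSpectrum.Support.finite R ((c w)⁻¹ : Kˣ).1)).subset ?_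
    intro w' hw'
    by_contra hcon
    simp only [Set.mem_union, Set.mem_ofPred_eq, not_or, not_not] at hcon
    rw [Set.mem_ofPred_eq, hcon.1, Units.val_one, mul_one] at hw'
    exact hcon.2 hw'
  obtain ⟨r, hr, hr'⟩ := exists_clear_family w (hfin.toFinset.erase w) (fun p => p)
    (fun p => ((c w)⁻¹ : Kˣ).1 * c p) (fun p hp => (Finset.mem_erase.1 hp).1)
  refine ⟨algebraMap R K r * ((c w)⁻¹ : Kˣ).1, mem_glueIdeal.2 fun w' => ?_, ?_⟩
  · rw [mul_assoc]
    by_cases h1 : w' ∈ hfin.toFinset.erase w
    · exact hr' w' h1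
    · by_cases h2 : w' = w
      · subst h2
        rw [Units.inv_mul, mul_one]
        exact w'.valuation_le_one r
      · have h3 : w' ∉ hfin.toFinset := fun h => h1 (Finset.mem_erase.2 ⟨h2, h⟩)
        have h4 : w'.valuation K (((c w)⁻¹ : Kˣ).1 * c w') ≤ 1 := by
          simpa using h3
        exact (valuation_smul_le _ _).trans h4
  · rw [mul_assoc, Units.inv_mul, mul_one]
    exact valuation_eq_one hr

theorem glueIdeal_ne_zero (c : HeightOneSpectrum R → Kˣ) (hc : {w | c w ≠ 1}.Finite) :
    glueIdeal c hc ≠ 0 := by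
  classical
  obtain ⟨d, hd0, hd⟩ := exists_den_family (R := R) hc.toFinset (fun w => (c w).1)
  have hne : algebraMap R K d ≠ 0 := fun h => hd0 ((IsFractionRing.injective R K) (by rw [h, map_zero]))
  intro h0
  have h1 : algebraMap R K d ∈ (glueIdeal c hc : Submodule R K) := mem_glueIdeal.2 fun w => by
    by_cases hw : w ∈ hc.toFinset
    · exact hd w hw w
    · have h1 : c w = 1 := by simpa using hw
      rw [h1, Units.val_one, mul_one]
      exact w.valuation_le_one d
  rw [h0, FractionalIdeal.coe_zero, Submodule.mem_bot] at h1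
  exact hne h1

theorem mk_eq_of_loc {Λ Λ' : Lat R K} (c : HeightOneSpectrum R → Kˣ) (hc : {w | c w ≠ 1}.Finite)
    (h : ∀ w, ∀ v, v ∈ loc w Λ.M ↔ (c w : K) • v ∈ loc w Λ'.M) : LatC.mk Λ = LatC.mk Λ' := by
  rw [LatC.mk_eq_mk]
  refine ⟨Units.mk0 (glueIdeal c hc) (glueIdeal_ne_zero c hc), ?_⟩
  apply H26Z.Lat.ext
  rw [Lat.ismul_M, Units.val_mk0]
  apply le_antisymm
  · rw [Submodule.smul_le]
    intro x hx v hv
    refine Lat.mem_of_forall Λ fun w => (h w _).2 ?_
    rw [smul_smul, mul_comm]
    exact smul_mem_loc (le_loc w _ hv) (mem_glueIdeal.1 hx w)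
  · intro v hv
    set I : (FractionalIdeal R⁰ K)ˣ := Units.mk0 (glueIdeal c hc) (glueIdeal_ne_zero c hc) with hI
    have hIM : (I • Λ').M = (glueIdeal c hc : Submodule R K) • Λ'.M := rfl
    refine mem_of_forall_mem_loc (exists_smul_mem (I • Λ') v) fun w => ?_
    obtain ⟨d, hd, hdv⟩ := (h w v).1 (le_loc w _ hv)
    obtain ⟨x, hx, hxc⟩ := exists_mem_glueIdeal c hc w
    have hu0 : x * c w ≠ 0 := fun h0 => by
      rw [h0, map_zero] at hxc
      exact zero_ne_one hxc
    have huinv : w.valuation K (x * c w)⁻¹ ≤ 1 := by rw [map_inv₀, hxc, inv_one]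
    obtain ⟨n, d', hn⟩ := exists_primeCompl_mul_eq_of_integer w _ huinv
    refine ⟨d' * d, fun hm => ?_, ?_⟩
    · rcases w.isPrime.mem_or_mem hm with hm | hm
      · exact d'.2 hm
      · exact hd hm
    · have h1 : ((d' : R) * d) • v = n • (x • (d • ((c w : K) • v))) := by
        rw [← algebraMap_smul K ((d' : R) * d), ← algebraMap_smul K n, ← algebraMap_smul K d,
          smul_smul, smul_smul, smul_smul, map_mul, ← hn]
        congr 1
        have hx0 : x ≠ 0 := left_ne_zero_of_mul hu0
        field_simp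
      rw [h1]
      exact Submodule.smul_mem _ _ (Submodule.smul_mem_smul hx hdv)

end Fermat.Agent.H64L
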