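import Fermat.Agent.H65S6

/-!
# `H¹(⟨s⟩, T) = 0` for the torus of any nonscalar `γ` (helper64, S47, C13)

`A` a field with an automorphism `s` of order three and a self-dual normal basis (`NB`).
-/

set_option autoImplicit false
set_option linter.unusedSectionVars false

namespace Fermat.Agent.H64M

open Matrix Fermat.Agent.H65.S47

section Det

variable {A : Type*} [CommRing A]

theorem det_combo (a b c : A) (X Y Z : Matrix (Fin 2) (Fin 2) A) :
    (a • X + b • Y + c • Z).det = a ^ 2 * X.det + b ^ 2 * Y.det + c ^ 2 * Z.det +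
      a * b * ((X + Y).det - X.det - Y.det) + a * c * ((X + Z).det - X.det - Z.det) +
      b * c * ((Y + Z).det - Y.det - Z.det) := by
  simp only [Matrix.det_fin_two, Matrix.add_apply, Matrix.smul_apply, smul_eq_mul]
  ring

end Det

variable {O F A : Type*} [CommRing O] [IsDomain O] [Field F] [Algebra O F] [IsFractionRing O F]
  [Field A] [Algebra F A] [Algebra O A] [IsScalarTower O F A] (D : NB O F A)

/-- the resolvent -/
def wr (u : Matrix (Fin 2) (Fin 2) A) (b : A) : Matrix (Fin 2) (Fin 2) A :=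
  b • 1 + D.s b • u + D.s (D.s b) • (u * D.sm u)

theorem wr_add (u : Matrix (Fin 2) (Fin 2) A) (b b' : A) :
    wr D u (b + b') = wr D u b + wr D u b' := by
  unfold wr
  rw [map_add, map_add, add_smul, add_smul, add_smul]
  abel

theorem sm_add (M N : Matrix (Fin 2) (Fin 2) A) : D.sm (M + N) = D.sm M + D.sm N := by
  unfold NB.sm
  rw [Matrix.map_add _ (map_add D.s)]

theorem mul_sm_wr {u : Matrix (Fin 2) (Fin 2) A} (hu : u * D.sm u * D.sm (D.sm u) = 1) (b : A) :
    u * D.sm (wr D u b) = wr D u b := by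
  unfold wr
  rw [sm_add, sm_add, D.sm_smul, D.sm_smul, D.sm_smul, D.sm_mul, D.sm_one, D.s3, Matrix.mul_add,
    Matrix.mul_add, Matrix.mul_smul, Matrix.mul_smul, Matrix.mul_smul, ← mul_assoc, hu, mul_one]
  abel

/-- Hilbert 90: the resolvent is invertible for some `b` -/
theorem exists_det_ne_zero (u : Matrix (Fin 2) (Fin 2) A) : ∃ b : A, (wr D u b).det ≠ 0 := by
  by_contra hcon
  push Not at hcon
  have h1 : D.e • wr D u D.e + D.s D.e • wr D u (D.s D.e) +
      D.s (D.s D.e) • wr D u (D.s (D.s D.e)) = 1 := by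
    unfold wr
    rw [D.s3]
    have e1 : D.e • (D.e • (1 : Matrix (Fin 2) (Fin 2) A) + D.s D.e • u +
        D.s (D.s D.e) • (u * D.sm u)) +
        D.s D.e • (D.s D.e • 1 + D.s (D.s D.e) • u + D.e • (u * D.sm u)) +
        D.s (D.s D.e) • (D.s (D.s D.e) • 1 + D.e • u + D.s D.e • (u * D.sm u)) =
        (D.e * D.e + D.s D.e * D.s D.e + D.s (D.s D.e) * D.s (D.s D.e)) • 1 +
        (D.e * D.s D.e + D.s D.e * D.s (D.s D.e) + D.s (D.s D.e) * D.e) • u +
        (D.e * D.s D.e + D.s D.e * D.s (D.s D.e) + D.s (D.s D.e) * D.e) • (u * D.sm u) := by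
      simp only [smul_add, smul_smul, add_smul]
      rw [mul_comm D.e (D.s (D.s D.e)), mul_comm (D.s D.e) D.e,
        mul_comm (D.s (D.s D.e)) (D.s D.e)]
      abel
    rw [e1, D.he0, D.he2, one_smul, zero_smul, zero_smul, add_zero, add_zero]
  have h2 := congrArg Matrix.det h1
  rw [det_combo, ← wr_add, ← wr_add, ← wr_add, hcon, hcon, hcon, hcon, hcon, hcon,
    Matrix.det_one] at h2
  simp at h2

theorem torusH1 {γ : Matrix (Fin 2) (Fin 2) F} (hγ : NonScalar γ) : D.TorusH1 γ := by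
  intro t ζ hζ htγ hN
  set T : Matrix (Fin 2) (Fin 2) A := (t : Matrix (Fin 2) (Fin 2) A) with hT
  set Γ : Matrix (Fin 2) (Fin 2) A := NB.fA γ with hΓ
  have hsΓ : D.sm Γ = Γ := D.sm_fA _
  have hcomm : ∀ {M N : Matrix (Fin 2) (Fin 2) A}, M * Γ = Γ * M → N * Γ = Γ * N → M * N = N * M :=
    fun hM hN => centralizer_comm hγ hM hN
  have csm : ∀ {M : Matrix (Fin 2) (Fin 2) A}, M * Γ = Γ * M → D.sm M * Γ = Γ * D.sm M := by
    intro M hM
    have h1 := congrArg D.sm hM
    rwa [D.sm_mul, D.sm_mul, hsΓ] at h1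
  have cmul : ∀ {M N : Matrix (Fin 2) (Fin 2) A}, M * Γ = Γ * M → N * Γ = Γ * N →
      M * N * Γ = Γ * (M * N) := by
    intro M N hM hN
    rw [mul_assoc, hN, ← mul_assoc, hM, mul_assoc]
  have csmul : ∀ {M : Matrix (Fin 2) (Fin 2) A} (a : A), M * Γ = Γ * M →
      (a • M) * Γ = Γ * (a • M) := by
    intro M a hM
    rw [Matrix.smul_mul, Matrix.mul_smul, hM]
  have cadd : ∀ {M N : Matrix (Fin 2) (Fin 2) A}, M * Γ = Γ * M → N * Γ = Γ * N →
      (M + N) * Γ = Γ * (M + N) := by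
    intro M N hM hN
    rw [Matrix.add_mul, Matrix.mul_add, hM, hN]
  set T1 := D.sm T with hT1
  set T2 := D.sm T1 with hT2
  have cT : T * Γ = Γ * T := htγ
  have cT1 : T1 * Γ = Γ * T1 := csm cT
  have hdetT : T.det ≠ 0 := by
    have h1 : IsUnit T := t.isUnit
    exact ((Matrix.isUnit_iff_isUnit_det T).1 h1).ne_zero
  have hζA : algebraMap F A ζ ≠ 0 := (map_ne_zero _).2 hζ
  -- the cocycle `u = T² / det T`
  set u : Matrix (Fin 2) (Fin 2) A := (T.det)⁻¹ • (T * T) with hu
  have cu : u * Γ = Γ * u := csmul _ (cmul cT cT)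
  have hsdet : ∀ M : Matrix (Fin 2) (Fin 2) A, (D.sm M).det = D.s M.det := by
    intro M
    simp only [NB.sm, Matrix.det_fin_two, Matrix.map_apply, map_sub, map_mul]
  have hNdet : T.det * D.s T.det * D.s (D.s T.det) = algebraMap F A ζ * algebraMap F A ζ := by
    have h1 := congrArg Matrix.det hN
    have hd1 : T1.det = D.s T.det := hsdet T
    have hd2 : T2.det = D.s (D.s T.det) := by rw [← hd1]; exact hsdet T1
    rw [Matrix.det_mul, Matrix.det_mul, hd1, hd2, Matrix.det_smul, Matrix.det_one,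
      Fintype.card_fin, mul_one, sq] at h1
    exact h1
  have huN : u * D.sm u * D.sm (D.sm u) = 1 := by
    rw [hu, D.sm_smul, D.sm_smul, D.sm_mul, D.sm_mul, ← hT1, ← hT2, map_inv₀, map_inv₀]
    rw [Matrix.smul_mul, Matrix.mul_smul, Matrix.smul_mul, Matrix.mul_smul, Matrix.smul_mul,
      smul_smul, smul_smul]
    have h1 : T * T * (T1 * T1) * (T2 * T2) = (T * T1 * T2) * (T * T1 * T2) := by
      have a1 : T1 * T = T * T1 := hcomm cT1 cT
      have a2 : T2 * T = T * T2 := hcomm (csm cT1) cT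
      have a3 : T2 * T1 = T1 * T2 := hcomm (csm cT1) cT1
      calc T * T * (T1 * T1) * (T2 * T2) = T * (T * T1) * T1 * T2 * T2 := by
            simp only [mul_assoc]
        _ = T * (T1 * T) * T1 * T2 * T2 := by rw [a1]
        _ = T * T1 * (T * (T1 * T2)) * T2 := by simp only [mul_assoc]
        _ = T * T1 * (T * (T2 * T1)) * T2 := by rw [a3]
        _ = T * T1 * (T * T2) * T1 * T2 := by simp only [mul_assoc]
        _ = T * T1 * (T2 * T) * T1 * T2 := by rw [a2]
        _ = (T * T1 * T2) * (T * T1 * T2) := by simp only [mul_assoc]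
    have h2 : T.det⁻¹ * (D.s T.det)⁻¹ * (D.s (D.s T.det))⁻¹ * (algebraMap F A ζ * algebraMap F A ζ)
        = 1 := by
      rw [← hNdet, ← mul_inv, ← mul_inv]
      refine inv_mul_cancel₀ ?_
      rw [hNdet]
      exact mul_ne_zero hζA hζA
    rw [h1, hN, Matrix.smul_mul, Matrix.mul_smul, one_mul, smul_smul, smul_smul]
    have h3 : (D.s (D.s T.det))⁻¹ * T.det⁻¹ * (D.s T.det)⁻¹ * algebraMap F A ζ *
        algebraMap F A ζ = 1 := by rw [← h2]; ring
    rw [h3, one_smul]
  obtain ⟨b, hb⟩ := exists_det_ne_zero D u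
  set w := wr D u b with hw
  have cw : w * Γ = Γ * w := by
    rw [hw, wr]
    refine cadd (cadd (csmul _ ?_) (csmul _ cu)) (csmul _ (cmul cu (csm cu)))
    rw [one_mul, mul_one]
  have hw1 : u * D.sm w = w := mul_sm_wr D huN b
  have hwu : IsUnit w.det := isUnit_iff_ne_zero.2 hb
  set v := w⁻¹ with hv
  have hwv : w * v = 1 := Matrix.mul_nonsing_inv _ hwu
  have hvw : v * w = 1 := Matrix.nonsing_inv_mul _ hwu
  have cv : v * Γ = Γ * v := by
    calc v * Γ = v * Γ * (w * v) := by rw [hwv, mul_one]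
      _ = v * (Γ * w) * v := by simp only [mul_assoc]
      _ = v * (w * Γ) * v := by rw [cw]
      _ = (v * w) * Γ * v := by simp only [mul_assoc]
      _ = Γ * v := by rw [hvw, one_mul]
  have hv1 : D.sm v * D.sm w = 1 := by rw [← D.sm_mul, hvw, D.sm_one]
  -- `s(v) = (det T)⁻¹ T² v`
  have hsv : D.sm v = (T.det)⁻¹ • (T * T * v) := by
    calc D.sm v = D.sm v * (w * v) := by rw [hwv, mul_one]
      _ = D.sm v * (u * D.sm w * v) := by rw [hw1]
      _ = (D.sm v * u) * D.sm w * v := by simp only [mul_assoc]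
      _ = (u * D.sm v) * D.sm w * v := by rw [hcomm (csm cv) cu]
      _ = u * (D.sm v * D.sm w) * v := by simp only [mul_assoc]
      _ = u * v := by rw [hv1, mul_one]
      _ = (T.det)⁻¹ • (T * T * v) := by rw [hu, Matrix.smul_mul]
  have hTu : IsUnit T := t.isUnit
  have hT1u : IsUnit T1 := by
    rw [Matrix.isUnit_iff_isUnit_det, hT1, hsdet]
    exact isUnit_iff_ne_zero.2 ((map_ne_zero _).2 hdetT)
  have hvu : IsUnit v := ⟨⟨v, w, hvw, hwv⟩, rfl⟩
  obtain ⟨τ, hτ⟩ : IsUnit (T * T * T1 * v) := ((hTu.mul hTu).mul hT1u).mul hvu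
  refine ⟨algebraMap F A ζ * (T.det)⁻¹, τ, isUnit_iff_ne_zero.2 (mul_ne_zero hζA (inv_ne_zero hdetT)),
    ?_, ?_⟩
  · rw [hτ]
    exact cmul (cmul (cmul cT cT) cT1) cv
  · rw [hτ, D.sm_mul, D.sm_mul, D.sm_mul, ← hT1, ← hT2, hsv]
    have a1 : T * (T1 * T1 * T2 * (T.det⁻¹ • (T * T * v))) =
        T.det⁻¹ • (T * T1 * (T1 * T2) * (T * T * v)) := by
      rw [Matrix.mul_smul, Matrix.mul_smul]
      simp only [mul_assoc]
    have a2 : T * T1 * (T1 * T2) = (T * T1 * T2) * T1 := by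
      rw [hT2, ← hcomm (csm cT1) cT1]
      simp only [mul_assoc]
    rw [a1, a2, hN, Matrix.smul_mul, Matrix.smul_mul, one_mul, smul_smul,
      mul_comm (algebraMap F A ζ)]
    congr 1
    rw [← mul_assoc T1, ← mul_assoc T1, hcomm cT1 cT, mul_assoc T T1, hcomm cT1 cT]
    simp only [mul_assoc]

end Fermat.Agent.H64M
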