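import Mathlib

set_option autoImplicit false

open NumberField Polynomial

namespace Fermat.Agent.H64

section tower

variable {p q : ℕ} {K F : Type*} [Field K] [NumberField K] [Field F] [NumberField F]
  [Algebra K F]

theorem isCyclotomicExtension_mul [Fact p.Prime] [Fact q.Prime] (hpq : p ≠ q)
    [IsCyclotomicExtension {p} ℚ K] [IsCyclotomicExtension {q} K F] :
    IsCyclotomicExtension {p * q} ℚ F := by
  have h1 : IsCyclotomicExtension ({p} ∪ {q}) ℚ F :=
    IsCyclotomicExtension.trans {p} {q} ℚ K F (algebraMap K F).injective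
  have hp : p.Prime := Fact.out
  have hq : q.Prime := Fact.out
  have hcop : Nat.Coprime p q := (Nat.coprime_primes hp hq).2 hpq
  have z1 : IsPrimitiveRoot (algebraMap K F (IsCyclotomicExtension.zeta p ℚ K)) p :=
    (IsCyclotomicExtension.zeta_spec p ℚ K).map_of_injective (algebraMap K F).injective
  have z2 := IsCyclotomicExtension.zeta_spec q K F
  have z3 : IsPrimitiveRoot (algebraMap K F (IsCyclotomicExtension.zeta p ℚ K) *
      IsCyclotomicExtension.zeta q K F) (p * q) := by
    have := (Commute.all (algebraMap K F (IsCyclotomicExtension.zeta p ℚ K))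
      (IsCyclotomicExtension.zeta q K F)).orderOf_mul_eq_mul_orderOf_of_coprime
      (by rw [← z1.eq_orderOf, ← z2.eq_orderOf]; exact hcop)
    rw [← z1.eq_orderOf, ← z2.eq_orderOf] at this
    rw [← this]
    exact IsPrimitiveRoot.orderOf _
  have h2 : IsCyclotomicExtension (({p} ∪ {q}) ∪ {p * q}) ℚ F :=
    IsCyclotomicExtension.union_of_isPrimitiveRoot _ ℚ F z3
  have h3 : (({p} ∪ {q}) ∪ {p * q} : Set ℕ) = ({p * q} ∪ {p}) ∪ {q} := by
    ext x; simp; tauto
  rw [h3] at h2
  have hne : p * q ≠ 0 := mul_ne_zero hp.ne_zero hq.ne_zero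
  rw [← IsCyclotomicExtension.iff_union_of_dvd, ← IsCyclotomicExtension.iff_union_of_dvd] at h2
  · exact h2
  · exact ⟨p * q, rfl, hne, Dvd.intro _ rfl⟩
  · exact ⟨p * q, Or.inl rfl, hne, Dvd.intro_left _ rfl⟩

theorem finrank_KF [Fact p.Prime] [Fact q.Prime] (hpq : p ≠ q)
    [IsCyclotomicExtension {p} ℚ K] [IsCyclotomicExtension {q} K F] :
    Module.finrank K F = q - 1 := by
  have hp : p.Prime := Fact.out
  have hq : q.Prime := Fact.out
  have hcop : Nat.Coprime p q := (Nat.coprime_primes hp hq).2 hpq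
  have h := isCyclotomicExtension_mul (K := K) (F := F) hpq
  have : NeZero (p * q) := ⟨mul_ne_zero hp.ne_zero hq.ne_zero⟩
  have h1 := IsCyclotomicExtension.Rat.finrank (p * q) F
  have h2 := IsCyclotomicExtension.Rat.finrank p K
  have h3 := Module.finrank_mul_finrank ℚ K F
  rw [h1, h2, Nat.totient_mul hcop, Nat.totient_prime hp, Nat.totient_prime hq] at h3
  have : 0 < p - 1 := Nat.sub_pos_of_lt hp.one_lt
  exact Nat.eq_of_mul_eq_mul_left this h3

theorem autToPow_bijective [Fact p.Prime] [Fact q.Prime] (hpq : p ≠ q)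
    [IsCyclotomicExtension {p} ℚ K] [IsCyclotomicExtension {q} K F]
    {μ : F} (hμ : IsPrimitiveRoot μ q) :
    Function.Bijective (hμ.autToPow K) := by
  classical
  have : IsGalois K F := IsCyclotomicExtension.isGalois {q} K F
  refine (Fintype.bijective_iff_injective_and_card _).2
    ⟨IsPrimitiveRoot.autToPow_injective K hμ, ?_⟩
  rw [← Nat.card_eq_fintype_card, IsGalois.card_aut_eq_finrank, finrank_KF hpq,
    ZMod.card_units]

theorem prod_aut [Fact p.Prime] [Fact q.Prime] (hpq : p ≠ q)
    [IsCyclotomicExtension {p} ℚ K] [IsCyclotomicExtension {q} K F]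
    {μ : F} (hμ : IsPrimitiveRoot μ q) (f : F → F) :
    ∏ σ : Gal(F/K), f (σ μ) = ∏ x ∈ primitiveRoots q F, f x := by
  classical
  have hq : q.Prime := Fact.out
  refine Finset.prod_bij (fun σ _ => σ μ) ?_ ?_ ?_ ?_
  · intro σ _
    rw [mem_primitiveRoots hq.pos]
    exact hμ.map_of_injective σ.injective
  · intro σ _ τ _ h
    refine IsPrimitiveRoot.autToPow_injective K hμ ?_
    have h1 := hμ.autToPow_spec K σ
    have h2 := hμ.autToPow_spec K τ
    have h3 : μ ^ (hμ.autToPow K σ : ZMod q).val = μ ^ (hμ.autToPow K τ : ZMod q).val := by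
      rw [h1, h2]; exact h
    have h4 := hμ.pow_inj (ZMod.val_lt _) (ZMod.val_lt _) h3
    exact Units.ext (ZMod.val_injective _ h4)
  · intro x hx
    rw [mem_primitiveRoots hq.pos] at hx
    obtain ⟨i, hi, rfl⟩ := hμ.eq_pow_of_pow_eq_one hx.pow_eq_one
    have hcop : i.Coprime q := (hμ.pow_iff_coprime hq.pos i).1 hx
    obtain ⟨σ, hσ⟩ := (autToPow_bijective (K := K) hpq hμ).2 (ZMod.unitOfCoprime i hcop)
    refine ⟨σ, Finset.mem_univ _, ?_⟩
    rw [← hμ.autToPow_spec K σ, hσ, ZMod.coe_unitOfCoprime, ZMod.val_natCast,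
      Nat.mod_eq_of_lt hi]
  · intro σ _; rfl

theorem norm_one_sub [Fact p.Prime] [Fact q.Prime] (hpq : q ≡ 1 [MOD p])
    [IsCyclotomicExtension {p} ℚ K] [IsCyclotomicExtension {q} K F]
    {z : K} (hz : IsPrimitiveRoot z p) {μ : F} (hμ : IsPrimitiveRoot μ q) :
    Algebra.norm K (1 - algebraMap K F z * μ) = 1 := by
  classical
  have hp : p.Prime := Fact.out
  have hq : q.Prime := Fact.out
  have hne : p ≠ q := by
    rintro rfl
    have h1 : p ∣ 1 := by
      have := (Nat.modEq_iff_dvd' hp.one_lt.le).1 hpq.symm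
      have h2 : p ∣ p := dvd_rfl
      have h3 := Nat.dvd_sub h2 this
      rwa [Nat.sub_sub_self hp.one_lt.le] at h3
    exact hp.one_lt.ne' (Nat.dvd_one.1 h1)
  have : IsGalois K F := IsCyclotomicExtension.isGalois {q} K F
  apply (algebraMap K F).injective
  rw [Algebra.norm_eq_prod_automorphisms]
  have h1 : ∀ σ : Gal(F/K), σ (1 - algebraMap K F z * μ) = 1 - algebraMap K F z * σ μ := by
    intro σ
    rw [map_sub, map_mul, map_one, σ.commutes]
  rw [Finset.prod_congr rfl fun σ _ => h1 σ]
  have h0 := prod_aut (K := K) hne hμ (fun x => 1 - algebraMap K F z * x)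
  rw [h0]
  have h2 := hμ.pow_sub_pow_eq_prod_sub_mul 1 (algebraMap K F z) hq.pos
  rw [nthRootsFinset_eq_of_prime hq, Finset.prod_union, Finset.prod_singleton, one_pow,
    one_mul] at h2
  · have h3 : (algebraMap K F z) ^ q = algebraMap K F z := by
      have h4 := (hz.map_of_injective (algebraMap K F).injective)
      conv_rhs => rw [← pow_one (algebraMap K F z)]
      have := (h4.isOfFinOrder hp.ne_zero).pow_eq_pow_iff_modEq (n := q) (m := 1)
      rw [this, ← h4.eq_orderOf]
      exact hpq
    rw [h3] at h2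
    have h5 : (1 : F) - algebraMap K F z ≠ 0 := by
      intro h
      have h6 : algebraMap K F z = 1 := (sub_eq_zero.1 h).symm
      exact (hz.map_of_injective (algebraMap K F).injective).ne_one hp.one_lt h6
    rw [map_one]
    have h7 : (∏ x ∈ primitiveRoots q F, (1 - x * algebraMap K F z)) = 1 := by
      have := mul_right_cancel₀ h5 (show (∏ x ∈ primitiveRoots q F, (1 - x * algebraMap K F z)) *
        (1 - algebraMap K F z) = 1 * (1 - algebraMap K F z) by rw [← h2, one_mul])
      exact this
    refine Eq.trans ?_ h7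
    exact Finset.prod_congr rfl fun x _ => by rw [mul_comm (algebraMap K F z) x]
  · rw [Finset.disjoint_singleton_right, mem_primitiveRoots hq.pos]
    intro h
    exact h.ne_one hq.one_lt rfl

end tower

end Fermat.Agent.H64
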