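import Fermat.Agent.H64Ram

set_option autoImplicit false

open NumberField Polynomial

namespace Fermat.Agent.H64

/-- `q` is associated to `(m - 1) ^ (q - 1)` for a primitive `q`-th root of unity `m`. -/
theorem associated_sub_one_pow_prime {R : Type*} [CommRing R] [IsDomain R] {q : ℕ}
    (hq : q.Prime) {m : R} (hm : IsPrimitiveRoot m q) :
    Associated ((m - 1) ^ (q - 1)) (q : R) := by
  classical
  have hF : Fact q.Prime := ⟨hq⟩
  have h1 : (cyclotomic q R).eval 1 = (q : R) := eval_one_cyclotomic_prime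
  rw [cyclotomic_eq_prod_X_sub_primitiveRoots hm, eval_prod] at h1
  rw [← h1]
  have h2 : (m - 1) ^ (q - 1) = ∏ x ∈ primitiveRoots q R, (m - 1) := by
    rw [Finset.prod_const, hm.card_primitiveRoots, Nat.totient_prime hq]
  rw [h2]
  refine Associated.prod _ _ _ fun x hx => ?_
  rw [mem_primitiveRoots hq.pos] at hx
  obtain ⟨i, -, rfl⟩ := hm.eq_pow_of_pow_eq_one hx.pow_eq_one
  have hcop : i.Coprime q := (hm.pow_iff_coprime hq.pos i).1 hx
  have h3 := hm.associated_sub_one_pow_sub_one_of_coprime hcop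
  rw [eval_sub, eval_X, eval_C]
  have h4 : (1 : R) - m ^ i = - (m ^ i - 1) := by ring
  rw [h4]
  exact h3.neg_right

section

variable {p q : ℕ} {K F : Type*} [Field K] [NumberField K] [Field F] [NumberField F]
  [Algebra K F]

theorem multiplicity_sub_one [Fact p.Prime] [Fact q.Prime] (hpq : p ≠ q)
    [IsCyclotomicExtension {p} ℚ K] [IsCyclotomicExtension {q} K F]
    {m : 𝓞 F} (hm : IsPrimitiveRoot m q)
    (P : Ideal (𝓞 F)) [hP : P.IsPrime] (hq : (q : 𝓞 F) ∈ P) :
    multiplicity P (Ideal.span {m - 1}) = 1 := by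
  have hqq : q.Prime := Fact.out
  have hqne : (q : 𝓞 F) ≠ 0 := Nat.cast_ne_zero.2 hqq.ne_zero
  -- assume first `P ≠ ⊥`
  have hP0 : P ≠ ⊥ := by
    rintro rfl
    exact hqne (by simpa using hq)
  have hprime : Prime P := Ideal.prime_of_isPrime hP0 hP
  have hover : P.LiesOver (Ideal.span {(q : ℤ)}) := by
    obtain ⟨ℓ, hℓ, hover⟩ := exists_prime_liesOver P hP0
    have h1 := (natCast_mem_iff_of_liesOver P ℓ q).1 hq
    have h2 : ℓ = q := (Nat.prime_dvd_prime_iff_eq hℓ hqq).1 h1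
    rwa [h2] at hover
  have he := (ramificationIdx_of_mem (K := K) hpq P hP0 hq).1
  have hmap : (Ideal.span {(q : ℤ)}).map (algebraMap ℤ (𝓞 F)) = Ideal.span {(m - 1) ^ (q - 1)} := by
    rw [Ideal.map_span, Set.image_singleton, eq_comm, Ideal.span_singleton_eq_span_singleton]
    simpa using associated_sub_one_pow_prime hqq hm
  have hm1 : m - 1 ≠ 0 := by
    intro h
    exact hm.ne_one hqq.one_lt (sub_eq_zero.1 h)
  have hne : (Ideal.span {(q : ℤ)}).map (algebraMap ℤ (𝓞 F)) ≠ ⊥ := by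
    rw [hmap, Ne, Ideal.span_singleton_eq_bot]
    exact pow_ne_zero _ hm1
  rw [Ideal.IsDedekindDomain.ramificationIdx_eq_multiplicity (Ideal.span {(q : ℤ)}) P hne, hmap,
    ← Ideal.span_singleton_pow] at he
  have hfin : FiniteMultiplicity P (Ideal.span {m - 1}) :=
    FiniteMultiplicity.of_prime_left hprime (by
      rw [Ne, Ideal.zero_eq_bot, Ideal.span_singleton_eq_bot]; exact hm1)
  rw [hfin.multiplicity_pow hprime] at he
  have h3 : 0 < q - 1 := Nat.sub_pos_of_lt hqq.one_lt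
  exact Nat.eq_of_mul_eq_mul_left h3 (by rw [he, mul_one])

/-- multiplicities of norms. -/
theorem multiplicity_of_associated {κ : 𝓞 K} (hκ : κ ≠ 0) {β : 𝓞 F} {n : ℕ}
    (h : Associated (algebraMap (𝓞 K) (𝓞 F) κ) (β ^ n))
    (P : Ideal (𝓞 F)) [hP : P.IsPrime] (hP0 : P ≠ ⊥) :
    n * multiplicity P (Ideal.span {β}) =
      P.ramificationIdx (𝓞 K) * multiplicity (P.under (𝓞 K)) (Ideal.span {κ}) := by
  have hprime : Prime P := Ideal.prime_of_isPrime hP0 hP
  have hr0 : P.under (𝓞 K) ≠ ⊥ := by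
    intro h
    exact hP0 (Ideal.eq_bot_of_comap_eq_bot h)
  have hrp : Prime (P.under (𝓞 K)) := Ideal.prime_of_isPrime hr0 inferInstance
  have hκs : Ideal.span {κ} ≠ (⊥ : Ideal (𝓞 K)) := by
    rw [Ne, Ideal.span_singleton_eq_bot]; exact hκ
  have hover : P.LiesOver (P.under (𝓞 K)) := inferInstance
  have h1 := Ideal.IsDedekindDomain.emultiplicity_map_eq_ramificationIdx'_mul
    (I := Ideal.span {κ}) (v := P.under (𝓞 K)) (w := P) hκs hrp.irreducible hprime.irreducible hP0
  have hmap : (Ideal.span {κ}).map (algebraMap (𝓞 K) (𝓞 F)) = (Ideal.span {β}) ^ n := by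
    rw [Ideal.map_span, Set.image_singleton, Ideal.span_singleton_pow,
      Ideal.span_singleton_eq_span_singleton]
    exact h
  have hκ' : algebraMap (𝓞 K) (𝓞 F) κ ≠ 0 := by
    rw [Ne, FaithfulSMul.algebraMap_eq_zero_iff]; exact hκ
  rcases Nat.eq_zero_or_pos n with rfl | hn
  · -- then κ is a unit
    rw [pow_zero] at h
    have hu : IsUnit (algebraMap (𝓞 K) (𝓞 F) κ) := associated_one_iff_isUnit.1 h
    have h3 : (Ideal.span {κ}).map (algebraMap (𝓞 K) (𝓞 F)) = 1 := by
      rw [hmap, pow_zero]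
    rw [h3] at h1
    have h4 : emultiplicity P (1 : Ideal (𝓞 F)) = 0 := by
      rw [emultiplicity_eq_zero]
      intro h5
      exact hprime.not_isUnit (isUnit_of_dvd_one h5)
    rw [h4, Ideal.ramificationIdx'_eq_ramificationIdx _ _ hr0,
      (FiniteMultiplicity.of_prime_left hrp hκs).emultiplicity_eq_multiplicity] at h1
    have h5 : P.ramificationIdx (𝓞 K) * multiplicity (P.under (𝓞 K)) (Ideal.span {κ}) = 0 := by
      exact_mod_cast h1.symm
    rw [h5, zero_mul]
  · have hβ : β ≠ 0 := by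
      rintro rfl
      rw [zero_pow hn.ne'] at h
      exact hκ' (associated_zero_iff_eq_zero _ |>.1 h)
    have hβs : Ideal.span {β} ≠ (⊥ : Ideal (𝓞 F)) := by
      rw [Ne, Ideal.span_singleton_eq_bot]; exact hβ
    have hfin := FiniteMultiplicity.of_prime_left hprime hβs
    have hfin' := FiniteMultiplicity.of_prime_left hrp hκs
    rw [hmap, emultiplicity_pow hprime, Ideal.ramificationIdx'_eq_ramificationIdx _ _ hr0,
      hfin.emultiplicity_eq_multiplicity, hfin'.emultiplicity_eq_multiplicity] at h1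
    exact_mod_cast h1

/-- action of an automorphism on `x` modulo `μ - 1`. -/
theorem sub_one_dvd_map_sub [Fact p.Prime] [Fact q.Prime] (hpq : p ≠ q)
    [IsCyclotomicExtension {p} ℚ K] [IsCyclotomicExtension {q} K F]
    {m : 𝓞 F} (hm : IsPrimitiveRoot m q) {z : 𝓞 K} (hz : IsPrimitiveRoot z p)
    (T : 𝓞 F →ₐ[𝓞 K] 𝓞 F) {g : ℕ} (hg : T m = m ^ g) (x : 𝓞 F) :
    m - 1 ∣ T x - x := by
  have hpp : p.Prime := Fact.out
  have hqq : q.Prime := Fact.out
  have hext := isCyclotomicExtension_mul (K := K) (F := F) hpq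
  have hnz : NeZero (p * q) := ⟨mul_ne_zero hpp.ne_zero hqq.ne_zero⟩
  have hcop : Nat.Coprime p q := (Nat.coprime_primes hpp hqq).2 hpq
  set w : 𝓞 F := algebraMap (𝓞 K) (𝓞 F) z * m with hw
  have z1 : IsPrimitiveRoot (algebraMap (𝓞 K) (𝓞 F) z) p :=
    hz.map_of_injective (FaithfulSMul.algebraMap_injective _ _)
  have hw1 : IsPrimitiveRoot w (p * q) := by
    have := (Commute.all (algebraMap (𝓞 K) (𝓞 F) z) m).orderOf_mul_eq_mul_orderOf_of_coprime
      (by rw [← z1.eq_orderOf, ← hm.eq_orderOf]; exact hcop)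
    rw [← z1.eq_orderOf, ← hm.eq_orderOf] at this
    rw [← this]
    exact IsPrimitiveRoot.orderOf _
  have hw2 : IsPrimitiveRoot (w : F) (p * q) := hw1.map_of_injective RingOfIntegers.coe_injective
  have htop := IsCyclotomicExtension.Rat.adjoin_singleton_eq_top hw2
  have hx : x ∈ Algebra.adjoin ℤ {w} := by
    have : hw2.toInteger = w := rfl
    rw [← this, htop]
    exact Algebra.mem_top
  induction hx using Algebra.adjoin_induction with
  | mem y hy =>
    rw [Set.mem_singleton_iff] at hy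
    subst hy
    rw [map_mul, AlgHom.commutes, hg, ← mul_sub]
    refine Dvd.dvd.mul_left ?_ _
    have h1 : m ^ g - m = (m ^ g - 1) - (m - 1) := by ring
    rw [h1]
    exact dvd_sub (sub_one_dvd_pow_sub_one m g) dvd_rfl
  | algebraMap r =>
    simp
  | add a b ha hb iha ihb =>
    have : T (a + b) - (a + b) = (T a - a) + (T b - b) := by rw [map_add]; ring
    rw [this]
    exact dvd_add iha ihb
  | mul a b ha hb iha ihb =>
    have : T (a * b) - (a * b) = T a * (T b - b) + b * (T a - a) := by rw [map_mul]; ring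
    rw [this]
    exact dvd_add (Dvd.dvd.mul_left ihb _) (Dvd.dvd.mul_left iha _)

end

theorem thaine_aux {p q : ℕ} [Fact p.Prime] [Fact q.Prime] (hpq : q ≡ 1 [MOD p])
    {K F : Type} [Field K] [NumberField K] [Field F] [NumberField F]
    [Algebra K F] [IsCyclotomicExtension {p} ℚ K] [IsCyclotomicExtension {q} K F]
    {z : 𝓞 K} (hz : IsPrimitiveRoot z p) (g : (ZMod q)ˣ) (hg : ∀ x, x ∈ Subgroup.zpowers g) :
    ∃ κ : 𝓞 K, κ ≠ 0 ∧
      (∀ r : Ideal (𝓞 K), r.IsPrime → r ≠ ⊥ → (q : 𝓞 K) ∉ r →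
        (q - 1) ∣ multiplicity r (Ideal.span {κ})) ∧
      (∀ r : Ideal (𝓞 K), r.IsPrime → (q : 𝓞 K) ∈ r →
        (1 - z) * ((g : ZMod q).val : 𝓞 K) ^ multiplicity r (Ideal.span {κ}) - 1 ∈ r) := by
  classical
  have hpp : p.Prime := Fact.out
  have hqq : q.Prime := Fact.out
  have hne : p ≠ q := by
    rintro rfl
    have h1 : p ∣ 1 := by
      have := (Nat.modEq_iff_dvd' hpp.one_lt.le).1 hpq.symm
      have h2 : p ∣ p := dvd_rfl
      have h3 := Nat.dvd_sub h2 this
      rwa [Nat.sub_sub_self hpp.one_lt.le] at h3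
    exact hpp.one_lt.ne' (Nat.dvd_one.1 h1)
  have hgal : IsGalois K F := IsCyclotomicExtension.isGalois {q} K F
  -- the primitive `q`-th root
  obtain ⟨μ, hμ⟩ : ∃ μ : F, IsPrimitiveRoot μ q := ⟨_, IsCyclotomicExtension.zeta_spec q K F⟩
  set m : 𝓞 F := hμ.toInteger with hmdef
  have hm : IsPrimitiveRoot m q := hμ.toInteger_isPrimitiveRoot
  -- the generator of the Galois group
  obtain ⟨τ, hτ⟩ := (autToPow_bijective (K := K) hne hμ).2 g
  have hτgen : ∀ σ : Gal(F/K), σ ∈ Subgroup.zpowers τ := by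
    intro σ
    obtain ⟨k, hk⟩ := Subgroup.mem_zpowers_iff.1 (hg (hμ.autToPow K σ))
    refine Subgroup.mem_zpowers_iff.2 ⟨k, IsPrimitiveRoot.autToPow_injective K hμ ?_⟩
    rw [map_zpow, hτ, hk]
  have hcyc : IsCyclic (F ≃ₐ[K] F) := ⟨τ, hτgen⟩
  set ρ := galRestrict (𝓞 K) K F (𝓞 F) with hρ
  have hρμ : ∀ σ : Gal(F/K), ∀ x : 𝓞 F, ((ρ σ x : 𝓞 F) : F) = σ (x : F) := by
    intro σ x
    exact algebraMap_galRestrict_apply (𝓞 K) σ x
  have hρm : ρ τ m = m ^ (g : ZMod q).val := by
    apply RingOfIntegers.ext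
    rw [hρμ]
    have h1 := hμ.autToPow_spec K τ
    rw [hτ] at h1
    exact h1.symm
  -- the unit `ξ`
  set ξ : 𝓞 F := 1 - algebraMap (𝓞 K) (𝓞 F) z * m with hξ
  have hzK : IsPrimitiveRoot (z : K) p := hz.map_of_injective RingOfIntegers.coe_injective
  have hNξ : Algebra.norm K (ξ : F) = 1 := by
    have h1 : (ξ : F) = 1 - algebraMap K F (z : K) * μ := by
      rw [hξ]
      push_cast
      rfl
    rw [h1]
    exact norm_one_sub hpq hzK hμ
  have hξu : IsUnit ξ := by
    rw [← RingOfIntegers.isUnit_norm_of_isGalois (K := K)]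
    have : RingOfIntegers.norm K ξ = 1 := by
      apply RingOfIntegers.ext
      rw [RingOfIntegers.coe_norm, hNξ]
      rfl
    rw [this]
    exact isUnit_one
  obtain ⟨β, hβ0, hβ⟩ := groupCohomology.exists_mul_galRestrict_of_norm_eq_one (A := 𝓞 K) (K := K)
    (L := F) (B := 𝓞 F) (g := τ) hτgen (η := ξ) hNξ
  change ξ * ρ τ β = β at hβ
  -- all conjugates of β are associated
  have hassoc1 : Associated (ρ τ β) β := by
    obtain ⟨u, hu⟩ := hξu
    exact ⟨u, by rw [hu, mul_comm]; exact hβ⟩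
  have hassoc : ∀ σ : Gal(F/K), Associated (ρ σ β) β := by
    intro σ
    obtain ⟨k, hk⟩ := Subgroup.mem_zpowers_iff.1 (hτgen σ)
    have hfo : IsOfFinOrder τ := isOfFinOrder_of_finite τ
    obtain ⟨n, hn⟩ : ∃ n : ℕ, τ ^ n = σ := by
      have := (mem_powers_iff_mem_zpowers (x := τ) (y := σ)).2 (hτgen σ)
      exact Submonoid.mem_powers_iff _ _ |>.1 this
    rw [← hn]
    clear hn hk
    induction n with
    | zero => rw [pow_zero, map_one]; exact Associated.refl _
    | succ n ih =>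
      rw [pow_succ', map_mul]
      have : (ρ τ * ρ (τ ^ n)) β = ρ τ (ρ (τ ^ n) β) := rfl
      rw [this]
      exact (ih.map (ρ τ)).trans hassoc1
  set κ : 𝓞 K := RingOfIntegers.norm K β with hκ
  have hκprod : algebraMap (𝓞 K) (𝓞 F) κ = ∏ σ : Gal(F/K), ρ σ β := by
    apply RingOfIntegers.ext
    rw [hκ, RingOfIntegers.coe_algebraMap_norm, Algebra.norm_eq_prod_automorphisms]
    have h1 : ((∏ σ : Gal(F/K), ρ σ β : 𝓞 F) : F) = ∏ σ : Gal(F/K), ((ρ σ β : 𝓞 F) : F) :=
      map_prod (algebraMap (𝓞 F) F) _ _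
    rw [h1]
    exact Finset.prod_congr rfl fun σ _ => (hρμ σ β).symm
  have hκassoc : Associated (algebraMap (𝓞 K) (𝓞 F) κ) (β ^ (q - 1)) := by
    rw [hκprod]
    have h1 : β ^ (q - 1) = ∏ σ : Gal(F/K), β := by
      rw [Finset.prod_const, Finset.card_univ, ← Nat.card_eq_fintype_card,
        IsGalois.card_aut_eq_finrank, finrank_KF hne]
    rw [h1]
    exact Associated.prod _ _ _ fun σ _ => hassoc σ
  have hκ0 : κ ≠ 0 := by
    intro h
    rw [h, map_zero] at hκassoc
    exact pow_ne_zero _ hβ0 ((associated_zero_iff_eq_zero _).1 hκassoc.symm)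
  refine ⟨κ, hκ0, ?_, ?_⟩
  · intro r hr hr0 hqr
    have hrmax : r.IsMaximal := hr.isMaximal hr0
    obtain ⟨P, hPmax, hover⟩ := Ideal.exists_maximal_ideal_liesOver_of_isIntegral (S := 𝓞 F) r
    have hPu : P.under (𝓞 K) = r := hover.over.symm
    have hP0 : P ≠ ⊥ := by
      rintro rfl
      apply hr0
      rw [← hPu, Ideal.under_def]
      exact Ideal.comap_bot_of_injective _ (FaithfulSMul.algebraMap_injective _ _)
    have hqP : (q : 𝓞 F) ∉ P := by
      intro h
      apply hqr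
      rw [← hPu, Ideal.under_def, Ideal.mem_comap, map_natCast]
      exact h
    have h1 := multiplicity_of_associated hκ0 hκassoc P hP0
    rw [ramificationIdx_of_not_mem hne P hP0 hqP, one_mul, hPu] at h1
    rw [← h1]
    exact Dvd.intro _ rfl
  · intro r hr hqr
    have hr0 : r ≠ ⊥ := by
      rintro rfl
      have : (q : 𝓞 K) = 0 := by simpa using hqr
      exact hqq.ne_zero (Nat.cast_eq_zero.1 this)
    have hrmax : r.IsMaximal := hr.isMaximal hr0
    obtain ⟨P, hPmax, hover⟩ := Ideal.exists_maximal_ideal_liesOver_of_isIntegral (S := 𝓞 F) r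
    have hPu : P.under (𝓞 K) = r := hover.over.symm
    have hP0 : P ≠ ⊥ := by
      rintro rfl
      apply hr0
      rw [← hPu, Ideal.under_def]
      exact Ideal.comap_bot_of_injective _ (FaithfulSMul.algebraMap_injective _ _)
    have hqP : (q : 𝓞 F) ∈ P := by
      rw [← hPu, Ideal.under_def, Ideal.mem_comap, map_natCast] at hqr
      exact hqr
    have h1 := multiplicity_of_associated hκ0 hκassoc P hP0
    rw [(ramificationIdx_of_mem hne P hP0 hqP).2, hPu] at h1
    have h2 : 0 < q - 1 := Nat.sub_pos_of_lt hqq.one_lt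
    have h3 := Nat.eq_of_mul_eq_mul_left h2 h1
    rw [← h3]
    have hmP : m - 1 ∈ P := by
      have h4 := associated_sub_one_pow_prime hqq hm
      have h5 : (m - 1) ^ (q - 1) ∈ P := by
        rw [← Ideal.span_singleton_le_iff_mem, Ideal.span_singleton_eq_span_singleton.2 h4,
          Ideal.span_singleton_le_iff_mem]
        exact hqP
      exact hPmax.isPrime.mem_of_pow_mem _ h5
    have hm0 : m - 1 ≠ 0 := by
      intro h
      exact hm.ne_one hqq.one_lt (sub_eq_zero.1 h)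
    have hmult : multiplicity P (Ideal.span {m - 1}) = 1 := multiplicity_sub_one (K := K) hne hm P hqP
    obtain ⟨x, y, hx, hy, hxy⟩ := exists_mul_eq_pow_mul P hP0 hmult hm0 hβ0
    set v := multiplicity P (Ideal.span {β}) with hv
    -- τ acts trivially mod P
    have htriv : ∀ a : 𝓞 F, ρ τ a - a ∈ P := by
      intro a
      have h6 := sub_one_dvd_map_sub hne hm hz (ρ τ).toAlgHom hρm a
      exact Ideal.mem_of_dvd P h6 hmP
    -- θ
    set θ : 𝓞 F := ∑ i ∈ Finset.range (g : ZMod q).val, m ^ i with hθ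
    have hθ1 : ρ τ (m - 1) = (m - 1) * θ := by
      rw [map_sub, map_one, hρm, hθ, mul_geom_sum]
    have hθ2 : θ - ((g : ZMod q).val : 𝓞 F) ∈ P := by
      have h7 : θ - ((g : ZMod q).val : 𝓞 F) =
          ∑ i ∈ Finset.range (g : ZMod q).val, (m ^ i - 1) := by
        rw [Finset.sum_sub_distrib, hθ]; simp
      rw [h7]
      exact P.sum_mem fun i _ => Ideal.mem_of_dvd P (sub_one_dvd_pow_sub_one m i) hmP
    -- the key identity
    have hkey : x * ρ τ y = ξ * θ ^ v * ρ τ x * y := by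
      have h8 : ρ τ (β * y) = ((m - 1) * θ) ^ v * ρ τ x := by
        rw [hxy, map_mul, map_pow, hθ1]
      have h9 : β * ρ τ y = ξ * (((m - 1) * θ) ^ v * ρ τ x) := by
        rw [← h8, map_mul, ← mul_assoc, hβ]
      have h10 : (m - 1) ^ v * (x * ρ τ y) = (m - 1) ^ v * (ξ * θ ^ v * ρ τ x * y) := by
        calc (m - 1) ^ v * (x * ρ τ y) = (β * y) * ρ τ y := by rw [hxy]; ring
          _ = (β * ρ τ y) * y := by ring
          _ = _ := by rw [h9, mul_pow]; ring
      exact mul_left_cancel₀ (pow_ne_zero _ hm0) h10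
    -- go to the quotient
    have hquot : ∀ a b : 𝓞 F, Ideal.Quotient.mk P a = Ideal.Quotient.mk P b ↔ a - b ∈ P :=
      fun a b => Ideal.Quotient.mk_eq_mk_iff_sub_mem a b
    have h11 := congrArg (Ideal.Quotient.mk P) hkey
    simp only [map_mul, map_pow] at h11
    rw [(hquot _ _).2 (htriv y), (hquot _ _).2 (htriv x), (hquot _ _).2 hθ2] at h11
    have hξP : Ideal.Quotient.mk P ξ = Ideal.Quotient.mk P (algebraMap (𝓞 K) (𝓞 F) (1 - z)) := by
      rw [hquot]
      have : ξ - algebraMap (𝓞 K) (𝓞 F) (1 - z) = - algebraMap (𝓞 K) (𝓞 F) z * (m - 1) := by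
        rw [hξ, map_sub, map_one]; ring
      rw [this]
      exact P.mul_mem_left _ hmP
    have hxy0 : Ideal.Quotient.mk P x * Ideal.Quotient.mk P y ≠ 0 := by
      refine mul_ne_zero ?_ ?_
      · rwa [Ne, Ideal.Quotient.eq_zero_iff_mem]
      · rwa [Ne, Ideal.Quotient.eq_zero_iff_mem]
    have h12 : (1 : 𝓞 F ⧸ P) = Ideal.Quotient.mk P ξ * Ideal.Quotient.mk P ((g : ZMod q).val : 𝓞 F) ^ v := by
      apply mul_right_cancel₀ hxy0
      rw [one_mul]
      refine h11.trans ?_
      ring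
    rw [hξP, ← map_pow, ← map_mul, ← map_one (Ideal.Quotient.mk P), eq_comm, hquot] at h12
    rw [← hPu, Ideal.under_def, Ideal.mem_comap]
    simpa only [map_sub, map_mul, map_pow, map_natCast, map_one] using h12

end Fermat.Agent.H64
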