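import Mathlib

/-!
# Counting places in a Galois extension of prime degree (for the first inequality)
-/

set_option autoImplicit false

open NumberField IsDedekindDomain Module

namespace Fermat.Agent.H65

section Infinite

/-- For a totally complex number field: `2 * (rank of units + 1) = [K : ℚ]`. -/
theorem two_mul_rank_succ (K : Type*) [Field K] [NumberField K] [IsTotallyComplex K] :
    2 * (NumberField.Units.rank K + 1) = finrank ℚ K := by
  have h : Fintype.card (InfinitePlace K) = InfinitePlace.nrComplexPlaces K := by
    have := InfinitePlace.card_eq_nrRealPlaces_add_nrComplexPlaces (K := K)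
    simpa [IsTotallyComplex.nrRealPlaces_eq_zero] using this
  have hpos : 0 < Fintype.card (InfinitePlace K) := Fintype.card_pos
  have h2 := IsTotallyComplex.finrank K
  rw [NumberField.Units.rank, h2, ← h]
  omega

theorem rank_succ_mul (K L : Type*) [Field K] [NumberField K] [Field L] [NumberField L]
    [Algebra K L] [IsTotallyComplex K] :
    NumberField.Units.rank L + 1 = finrank K L * (NumberField.Units.rank K + 1) := by
  have : IsTotallyComplex L := isTotallyComplex_of_algebra K L
  have h1 := two_mul_rank_succ K
  have h2 := two_mul_rank_succ L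
  have h3 := Module.finrank_mul_finrank ℚ K L
  have : 2 * (NumberField.Units.rank L + 1) = 2 * (finrank K L * (NumberField.Units.rank K + 1)) := by
    rw [h2, ← h3, ← h1]; ring
  omega

/-- A number field containing a primitive `p`-th root of unity with `p` odd is totally complex. -/
theorem isTotallyComplex_of_isPrimitiveRoot (K : Type*) [Field K] [NumberField K] {p : ℕ}
    (hp : 2 < p) {ζ : K} (hζ : IsPrimitiveRoot ζ p) : IsTotallyComplex K := by
  refine ⟨fun v => ?_⟩
  rw [← InfinitePlace.not_isReal_iff_isComplex]
  intro hv
  have hr : ComplexEmbedding.IsReal v.embedding := by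
    rwa [InfinitePlace.isReal_iff] at hv
  have hz : IsPrimitiveRoot (v.embedding ζ) p := hζ.map_of_injective v.embedding.injective
  have h1 : (starRingEnd ℂ) (v.embedding ζ) = v.embedding ζ := by
    have := RingHom.congr_fun hr ζ
    simpa using this
  obtain ⟨r, hr'⟩ := Complex.conj_eq_iff_real.1 h1
  have hz' : IsPrimitiveRoot r p := by
    rw [hr'] at hz
    exact IsPrimitiveRoot.of_map_of_injective (f := Complex.ofRealHom) (by simpa using hz)
      Complex.ofReal_injective
  have : r ^ p = 1 := hz'.pow_eq_one
  have habs : |r| = 1 := by
    have h2 : |r| ^ p = 1 := by rw [← abs_pow, this, abs_one]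
    exact (pow_eq_one_iff_of_nonneg (abs_nonneg r) (by omega)).1 h2
  rcases (abs_eq zero_le_one).1 habs with h | h
  · have := hz'.dvd_of_pow_eq_one 1 (by rw [h]; simp)
    have := Nat.le_of_dvd one_pos this
    omega
  · have := hz'.dvd_of_pow_eq_one 2 (by rw [h]; norm_num)
    have := Nat.le_of_dvd two_pos this
    omega

end Infinite

end Fermat.Agent.H65
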