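import Mathlib
import Fermat.Agent.H82CftDefs
import Fermat.Agent.H47TUnits
import Fermat.Agent.H47TClass
import Fermat.Agent.H54HerbrandPrime
import Fermat.Agent.H65FirstA
import Fermat.Agent.H65FirstB

/-!
# First inequality in T-unit form
-/

set_option autoImplicit false

open NumberField IsDedekindDomain Module

namespace Fermat.Agent.H65

open Fermat.Agent.H82 (above aboveSet NonSplit ClTrivial)

section arith

/-- the final numerical identity -/
theorem arith_final {p a b t t' ns h0 kG kF : ℕ} (hp : 1 < p) (hkG : kG ≠ 0) (hkF : kF ≠ 0)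
    (h1 : b + 1 = p * (a + 1)) (h2 : t' + (p - 1) * ns = p * t)
    (h : h0 ^ (p - 1) * (p ^ (b + t') * kG) * kF ^ p = 1 ^ (p - 1) * kG * (p ^ (a + t) * kF) ^ p) :
    h0 * p = p ^ ns := by
  have hp0 : p ≠ 0 := by omega
  have h3 : h0 ^ (p - 1) * p ^ (b + t') = (p ^ (a + t)) ^ p := by
    have : (h0 ^ (p - 1) * p ^ (b + t')) * (kG * kF ^ p) = (p ^ (a + t)) ^ p * (kG * kF ^ p) := by
      calc _ = h0 ^ (p - 1) * (p ^ (b + t') * kG) * kF ^ p := by ring
        _ = _ := by rw [h, one_pow, mul_pow]; ring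
    exact Nat.eq_of_mul_eq_mul_right
      (Nat.pos_of_ne_zero (mul_ne_zero hkG (pow_ne_zero _ hkF))) this
  obtain ⟨q, rfl⟩ : ∃ q, p = q + 1 := ⟨p - 1, by omega⟩
  simp only [Nat.add_sub_cancel] at h2 h3
  have h4 : (b + t') + (q * ns) = (a + t) * (q + 1) + q := by
    have : b + 1 + (t' + q * ns) = (q + 1) * (a + 1) + (q + 1) * t := by rw [h1, h2]
    linarith
  have h5 : (h0 * (q + 1)) ^ q = ((q + 1) ^ ns) ^ q := by
    have : (h0 * (q + 1)) ^ q * (q + 1) ^ (b + t') = ((q + 1) ^ ns) ^ q * (q + 1) ^ (b + t') := by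
      calc (h0 * (q + 1)) ^ q * (q + 1) ^ (b + t')
          = (h0 ^ q * (q + 1) ^ (b + t')) * (q + 1) ^ q := by rw [mul_pow]; ring
        _ = ((q + 1) ^ (a + t)) ^ (q + 1) * (q + 1) ^ q := by rw [h3]
        _ = (q + 1) ^ ((a + t) * (q + 1) + q) := by rw [← pow_mul, ← pow_add]
        _ = (q + 1) ^ ((b + t') + q * ns) := by rw [h4]
        _ = _ := by rw [pow_add, ← pow_mul, mul_comm ns q]; ring
    exact Nat.eq_of_mul_eq_mul_right (Nat.pos_of_ne_zero (pow_ne_zero _ (by omega))) this
  exact Nat.pow_left_injective (n := q) (by omega) h5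

end arith

section main

variable {K L : Type*} [Field K] [NumberField K] [Field L] [NumberField L] [Algebra K L]

/-- the restriction of an automorphism to a stable subgroup -/
noncomputable def restr (E : Subgroup Lˣ) (σ : L ≃ₐ[K] L)
    (hE : ∀ x ∈ E, Units.map (σ : L →* L) x ∈ E) : E →* E :=
  ((Units.map (σ : L →* L)).comp E.subtype).codRestrict E (fun x => hE x x.2)

omit [NumberField K] [NumberField L] in
theorem restr_iterate (E : Subgroup Lˣ) (σ : L ≃ₐ[K] L)
    (hE : ∀ x ∈ E, Units.map (σ : L →* L) x ∈ E) (n : ℕ) (x : E) :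
    ((((restr E σ hE)^[n] x : E) : Lˣ) : L) = (σ ^ n) ((x : Lˣ) : L) := by
  induction n with
  | zero => simp
  | succ n ih =>
    rw [Function.iterate_succ_apply', pow_succ']
    show σ ((((restr E σ hE)^[n] x : E) : Lˣ) : L) = _
    rw [ih]; rfl

theorem finite_ker_pow {M : Type*} [CommGroup M] [Module.Finite ℤ (Additive M)] {n : ℕ}
    (hn : n ≠ 0) : Finite (powMonoidHom n : M →* M).ker := by
  have h1 : Finite (Submodule.torsion ℤ (Additive M)) :=
    Module.finite_of_fg_torsion _ (Submodule.torsion_isTorsion)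
  let f : (powMonoidHom n : M →* M).ker → Submodule.torsion ℤ (Additive M) := fun x =>
    ⟨Additive.ofMul x.1, by
      rw [Submodule.mem_torsion_iff]
      refine ⟨⟨(n : ℤ), mem_nonZeroDivisors_of_ne_zero (by exact_mod_cast hn)⟩, ?_⟩
      have h := x.2
      rw [MonoidHom.mem_ker, powMonoidHom_apply] at h
      show (n : ℤ) • Additive.ofMul x.1 = 0
      rw [natCast_zsmul, ← ofMul_pow, h, ofMul_one]⟩
  refine Finite.of_injective f ?_
  intro x y hxy
  have h2 : (f x).1 = (f y).1 := congrArg Subtype.val hxy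
  exact Subtype.ext (Additive.ofMul.injective h2)

open Fermat.Agent.H54 in
theorem pow_index_congr {A B : Type*} [CommGroup A] [CommGroup B] (e : A ≃* B) (p : ℕ) :
    (powMonoidHom p : A →* A).range.index = (powMonoidHom p : B →* B).range.index := by
  rw [← qc_additive, ← qc_additive]
  exact qc_congr e.toAdditive p

open Fermat.Agent.H54 in
theorem pow_ker_congr {A B : Type*} [CommGroup A] [CommGroup B] (e : A ≃* B) (p : ℕ) :
    Nat.card (powMonoidHom p : A →* A).ker = Nat.card (powMonoidHom p : B →* B).ker := by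
  rw [← qk_additive, ← qk_additive]
  exact qk_congr e.toAdditive p

/-- `∏ σ^i x` is the norm -/
theorem prod_pow_eq_norm [IsGalois K L] {p : ℕ} (hL : finrank K L = p)
    (σ : L ≃ₐ[K] L) (hσ : ∀ τ, τ ∈ Subgroup.zpowers σ) (x : L) :
    ∏ i ∈ Finset.range p, (σ ^ i) x = algebraMap K L (Algebra.norm K x) := by
  classical
  rw [Algebra.norm_eq_prod_automorphisms]
  have hcard : Nat.card (L ≃ₐ[K] L) = p := by rw [IsGalois.card_aut_eq_finrank, hL]
  have hord : orderOf σ = p := by rw [← hcard]; exact orderOf_eq_card_of_forall_mem_zpowers hσ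
  refine Finset.prod_bij (fun i _ => σ ^ i) (fun _ _ => Finset.mem_univ _) ?_ ?_ (fun _ _ => rfl)
  · intro i hi j hj h
    rw [Finset.mem_range] at hi hj
    exact pow_injOn_Iio_orderOf (by rwa [Set.mem_Iio, hord]) (by rwa [Set.mem_Iio, hord]) h
  · intro τ _
    obtain ⟨i, hi, rfl⟩ := (mem_zpowers_iff_mem_range_orderOf.1 (hσ τ) |> Finset.mem_image.1)
    exact ⟨i, by rwa [hord] at hi, rfl⟩

/-- The first inequality, with the cohomological inputs as hypotheses. -/
theorem relIndex_norm_mul_aux [IsGalois K L] [IsTotallyComplex K] {p : ℕ} (hp : p.Prime)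
    (hL : finrank K L = p) {T : Set (HeightOneSpectrum (𝓞 K))} (hT : T.Finite)
    (σ : L ≃ₐ[K] L) (hσ : ∀ τ, τ ∈ Subgroup.zpowers σ)
    (ha : ∀ x ∈ (aboveSet L T).unit L, Units.map (σ : L →* L) x ∈ (aboveSet L T).unit L)
    (hb : ∀ k : Kˣ, Units.map (algebraMap K L : K →* L) k ∈ (aboveSet L T).unit L ↔
      k ∈ T.unit K)
    (hc : ∀ y ∈ (aboveSet L T).unit L, Algebra.norm K (y : L) = 1 →
      ∃ u ∈ (aboveSet L T).unit L, y = Units.map (σ : L →* L) u / u) :
    (((aboveSet L T).unit L).map (Units.map (Algebra.norm K : L →* K))).relIndex (T.unit K) * p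
      = p ^ {v ∈ T | NonSplit L v}.ncard := by
  classical
  have : Finite T := hT
  have hT' : (aboveSet L T).Finite := finite_aboveSet hT
  have : Finite (aboveSet L T) := hT'
  set E := (aboveSet L T).unit L with hE
  set A := T.unit K with hA
  let ψ : Kˣ →* Lˣ := Units.map (algebraMap K L : K →* L)
  have hψ : Function.Injective ψ := Units.map_injective (algebraMap K L).injective
  let σM : E →* E := restr E σ ha
  have hσM : ∀ n (x : E), (((σM^[n] x : E) : Lˣ) : L) = (σ ^ n) ((x : Lˣ) : L) :=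
    restr_iterate E σ ha
  have hσM1 : ∀ (x : E), (((σM x : E) : Lˣ) : L) = σ ((x : Lˣ) : L) := fun x => rfl
  have hσp : σ ^ p = 1 := by
    rw [← hL, ← IsGalois.card_aut_eq_finrank]; exact pow_card_eq_one'
  have hσMp : ∀ x, (σM^[p]) x = x := by
    intro x
    apply Subtype.ext; apply Units.ext
    rw [hσM, hσp]; rfl
  let Fix : Subgroup E := MonoidHom.eqLocus σM (MonoidHom.id E)
  have hFix : ∀ x, x ∈ Fix ↔ σM x = x := fun x => Iff.rfl
  let N : E →* E := MonoidHom.mk' (fun x => ∏ i ∈ Finset.range p, (σM^[i]) x) (by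
    intro x y
    rw [← Finset.prod_mul_distrib]
    exact Finset.prod_congr rfl fun i _ => iterate_map_mul σM i x y)
  have hN : ∀ x, N x = ∏ i ∈ Finset.range p, (σM^[i]) x := fun x => rfl
  let D : E →* E := σM / MonoidHom.id E
  have hD : ∀ x, D x = σM x / x := fun x => rfl
  have hNL : ∀ x : E, ((N x : Lˣ) : L) = algebraMap K L (Algebra.norm K ((x : Lˣ) : L)) := by
    intro x
    rw [hN, ← prod_pow_eq_norm hL σ hσ]
    push_cast
    exact Finset.prod_congr rfl fun i _ => hσM i x
  have hfix : ∀ x : Lˣ, σ (x : L) = x → ∃ k : Kˣ, ψ k = x := by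
    intro x hx
    have : (x : L) ∈ Set.range (algebraMap K L) := by
      rw [IsGalois.mem_range_algebraMap_iff_fixed]
      intro τ
      have h1 : Subgroup.zpowers σ ≤ MulAction.stabilizer (L ≃ₐ[K] L) (x : L) := by
        rw [Subgroup.zpowers_le, MulAction.mem_stabilizer_iff]
        exact hx
      exact h1 (hσ τ)
    obtain ⟨k, hk⟩ := this
    have hk0 : k ≠ 0 := by rintro rfl; rw [map_zero] at hk; exact x.ne_zero hk.symm
    exact ⟨Units.mk0 k hk0, Units.ext hk⟩
  have hfixmap : Fix.map E.subtype = A.map ψ := by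
    ext x
    rw [Subgroup.mem_map, Subgroup.mem_map]
    constructor
    · rintro ⟨y, hy, rfl⟩
      obtain ⟨k, hk⟩ := hfix y (congrArg (fun z : E => ((z : Lˣ) : L)) hy)
      exact ⟨k, (hb k).1 (by rw [show Units.map _ k = _ from hk]; exact y.2), hk⟩
    · rintro ⟨k, hk, rfl⟩
      refine ⟨⟨ψ k, (hb k).2 hk⟩, ?_, rfl⟩
      show σM _ = _
      apply Subtype.ext; apply Units.ext
      exact σ.commutes _
  have hnormmap : (N.range).map E.subtype = (E.map (Units.map (Algebra.norm K : L →* K))).map ψ := by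
    ext x
    rw [Subgroup.mem_map, Subgroup.mem_map]
    constructor
    · rintro ⟨y, ⟨z, rfl⟩, rfl⟩
      refine ⟨_, ⟨z, z.2, rfl⟩, ?_⟩
      apply Units.ext
      exact (hNL z).symm
    · rintro ⟨y, ⟨z, hz, rfl⟩, rfl⟩
      refine ⟨N ⟨z, hz⟩, ⟨_, rfl⟩, ?_⟩
      apply Units.ext
      exact hNL ⟨z, hz⟩
  have h0 : N.range.relIndex Fix =
      (E.map (Units.map (Algebra.norm K : L →* K))).relIndex A := by
    rw [← Subgroup.relIndex_map_map_of_injective _ _ (Subgroup.subtype_injective E),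
      ← Subgroup.relIndex_map_map_of_injective _ _ hψ, hfixmap, hnormmap]
  have hH1 : D.range.relIndex N.ker = 1 := by
    rw [Subgroup.relIndex_eq_one]
    intro y hy
    obtain ⟨u, hu, hyu⟩ := hc y y.2 (by
      have : ((N y : Lˣ) : L) = 1 := by rw [(MonoidHom.mem_ker).1 hy]; rfl
      rw [hNL] at this
      exact (algebraMap K L).injective (by rw [this, map_one]))
    refine ⟨⟨u, hu⟩, ?_⟩
    apply Subtype.ext
    rw [hyu]; rfl
  -- the isomorphism `A ≃ Fix`
  have e : A ≃* Fix :=
    (A.equivMapOfInjective ψ hψ).trans ((MulEquiv.subgroupCongr hfixmap.symm).trans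
      (Fix.equivMapOfInjective E.subtype (Subgroup.subtype_injective E)).symm)
  have i1 := H47.index_range_pow_unit L (aboveSet L T) hp.ne_zero
  have i2 := H47.index_range_pow_unit K T hp.ne_zero
  have k1 : Nat.card (powMonoidHom p : E →* E).ker ≠ 0 := by
    have := finite_ker_pow (M := E) hp.ne_zero
    exact Nat.card_pos.ne'
  have k2 : Nat.card (powMonoidHom p : A →* A).ker ≠ 0 := by
    have := finite_ker_pow (M := A) hp.ne_zero
    exact Nat.card_pos.ne'
  obtain ⟨-, -, key⟩ := H54.herbrand_prime_mul hp σM hσMp Fix hFix N D hN hD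
    (by rw [i1]; exact mul_ne_zero (pow_ne_zero _ hp.ne_zero) k1) k1
    (by rw [← pow_index_congr e, i2]; exact mul_ne_zero (pow_ne_zero _ hp.ne_zero) k2)
  rw [← pow_index_congr e, ← pow_ker_congr e, hH1, i1, i2, h0] at key
  have h1 : NumberField.Units.rank L + 1 = p * (NumberField.Units.rank K + 1) := by
    rw [← hL]; exact rank_succ_mul K L
  have h2 := ncard_aboveSet (L := L) hp hL hT
  rw [← Nat.card_coe_set_eq, ← Nat.card_coe_set_eq T] at h2
  exact arith_final hp.one_lt k1 k2 h1 h2 key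

end main

section final

variable {K L : Type} [Field K] [NumberField K] [Field L] [NumberField L] [Algebra K L]

/-- **(FI)**, the first inequality in `T`-unit form (`K` totally complex): for `L/K` Galois of
prime degree `p`, unramified outside `T`, with trivial `T`-class group of `K`,
`[E_{K,T} : N E_{L,T}] * p = p ^ #{v ∈ T | v does not split in L}`. -/
theorem relIndex_norm_mul [IsGalois K L] [IsTotallyComplex K] {p : ℕ} (hp : p.Prime)
    (hL : finrank K L = p) {T : Set (HeightOneSpectrum (𝓞 K))} (hT : T.Finite)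
    (hcl : ClTrivial T)
    (hunr : ∀ v ∉ T, ∀ w ∈ above L v, v.asIdeal.ramificationIdx' w.asIdeal = 1) :
    (((aboveSet L T).unit L).map (Units.map (Algebra.norm K : L →* K))).relIndex (T.unit K) * p
      = p ^ {v ∈ T | NonSplit L v}.ncard := by
  have hfact : Fact p.Prime := ⟨hp⟩
  have hcyc : IsCyclic (L ≃ₐ[K] L) := isCyclic_of_prime_card (p := p)
    (by rw [IsGalois.card_aut_eq_finrank, hL])
  obtain ⟨σ, hσ⟩ := hcyc.exists_generator
  refine relIndex_norm_mul_aux hp hL hT σ hσ (fun x hx => H47.map_mem_unit σ hx)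
    (fun k => H47.algebraMap_mem_unit_iff) (fun y hy hN => ?_)
  obtain ⟨z, hz, hzy⟩ := H47.hilbert90_unit hσ hcl hunr hy hN
  exact ⟨z, hz, hzy.symm⟩

/-- Version of (FI) for `K` containing the `p`-th roots of unity, `p` odd. -/
theorem relIndex_norm_mul_of_primitiveRoot [IsGalois K L] {p : ℕ} (hp : p.Prime) (hp2 : p ≠ 2)
    {ζ : K} (hζ : IsPrimitiveRoot ζ p)
    (hL : finrank K L = p) {T : Set (HeightOneSpectrum (𝓞 K))} (hT : T.Finite)
    (hcl : ClTrivial T)
    (hunr : ∀ v ∉ T, ∀ w ∈ above L v, v.asIdeal.ramificationIdx' w.asIdeal = 1) :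
    (((aboveSet L T).unit L).map (Units.map (Algebra.norm K : L →* K))).relIndex (T.unit K) * p
      = p ^ {v ∈ T | NonSplit L v}.ncard := by
  have : IsTotallyComplex K := isTotallyComplex_of_isPrimitiveRoot K
    (lt_of_le_of_ne hp.two_le (Ne.symm hp2)) hζ
  exact relIndex_norm_mul hp hL hT hcl hunr

/-- There is at least one nonsplit place in `T`. -/
theorem exists_nonSplit [IsGalois K L] [IsTotallyComplex K] {p : ℕ} (hp : p.Prime)
    (hL : finrank K L = p) {T : Set (HeightOneSpectrum (𝓞 K))} (hT : T.Finite)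
    (hcl : ClTrivial T)
    (hunr : ∀ v ∉ T, ∀ w ∈ above L v, v.asIdeal.ramificationIdx' w.asIdeal = 1) :
    ∃ v ∈ T, NonSplit L v := by
  by_contra hcon
  push Not at hcon
  have h := relIndex_norm_mul hp hL hT hcl hunr
  have h0 : {v ∈ T | NonSplit L v} = ∅ := by
    ext v
    simp only [Set.mem_ofPred_eq, Set.mem_empty_iff_false, iff_false, not_and]
    exact hcon v
  rw [h0, Set.ncard_empty, pow_zero] at h
  exact hp.one_lt.ne' (Nat.eq_one_of_mul_eq_one_left h)

end final

end Fermat.Agent.H65
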