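import Fermat.Agent.H35Rk
import Fermat.Agent.H86In1
import Fermat.Agent.H21MLvl
import Fermat.Agent.H10NE
import Fermat.Agent.H30S59a

/-!
# The rank block of the composition of the levels of S59

`hrk` : positivity and uniform bound of the ranks at the levels of the chain, in the form needed in
`H86.In.core`.
-/

set_option autoImplicit false
set_option linter.style.haveILetI false
set_option linter.unusedSectionVars false

noncomputable section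

open IsLocalRing CuspForm
open Fermat.Agent.H70.Coh Fermat.Agent.H70.Mod Fermat.Agent.H59 Fermat.Agent.H37.Rank
  Fermat.Agent.H37.NN Fermat.Agent.H30 Fermat.Agent.H21M Fermat.Agent.H86.In
open Fermat.Agent.H87.S58 (tO)

namespace Fermat.Agent.H65.InR

/-- the top of the chain of levels -/
lemma lvl_eq_prod {N₀ s : ℕ} (bb : Fin s → ℕ) : lvl N₀ (bfun bb) s = N₀ * ∏ i, bb i := by
  have h : ∀ i, lvl N₀ (bfun bb) i = N₀ * ∏ j ∈ Finset.range i, bfun bb j := by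
    intro i
    induction i with
    | zero => simp
    | succ i ih => rw [lvl_succ, ih, Finset.prod_range_succ, mul_assoc]
  rw [h, Finset.prod_range]
  congr 1
  exact Finset.prod_congr rfl fun i _ => bfun_fin bb i

/-- the levels with Taylor-Wiles primes -/
lemma lvl_mul {N₀ P : ℕ} (b : ℕ → ℕ) (i : ℕ) : lvl (N₀ * P) b i = lvl N₀ b i * P :=
  chain_mul (f := lvl N₀ b) (g := lvl (N₀ * P) b) (fun _ => rfl) (fun _ => rfl) rfl i

variable {W : WeierstrassCurve ℤ} (hΔ : W.Δ ≠ 0) {p : ℕ} [hp : Fact p.Prime]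
  {O : Type} [CommRing O] [IsDomain O] [IsDiscreteValuationRing O]
  [IsAdicComplete (maximalIdeal O) O] [Finite (ResidueField O)] [CharZero O]
  [CharP (ResidueField O) p]
  (hpO : (p : O) ∈ maximalIdeal O)
  {ρbar : ResidualGaloisRep (ResidueField O)}

/-- the residual eigensystem -/
lemma thetaPoly_eq {L : ℕ} [NeZero L] {S : Set ℕ} {hSL : ∀ q : ℕ, q.Prime → q ∣ L → q ∈ S}
    {θ : heckeAlgebra L 2 S →+* ResidueField O}
    (hθ : ∀ i : Idx S, θ (TIdx L S hSL i) = ((W.apOfModel i.1 : ℤ) : ResidueField O)) :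
    thetaPoly L S hSL O θ = thetaW W S O := by
  refine MvPolynomial.ringHom_ext (fun a => ?_) fun i => ?_
  · rw [thetaPoly_C, thetaW_C]
  · rw [thetaPoly_X, thetaW_X]
    exact hθ i

include hΔ in
/-- **The rank block.** -/
theorem hrk (hp2 : p ≠ 2) (hirr : W.ModRepIsIrreducible p)
    (hρ : (tO W hΔ hpO).residual.IsEquiv ρbar) (hirrk : ρbar.IsIrreducible)
    {N₀ : ℕ} (hN₀ : N₀ ≠ 0) (hmod : W.IsResiduallyModularOfLevel p N₀)
    {s : ℕ} (bb : Fin s → ℕ) (hbb : ∀ i, (bb i).Prime)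
    {r : ℕ} (Q : Fin r → ℕ) (hQ : ∀ j, (Q j).Prime) (hQinj : Function.Injective Q)
    (hQN₀ : ∀ j, ¬ Q j ∣ N₀) (hbQ : ∀ i j, bb i ≠ Q j) (hQ1 : ∀ j, p ∣ Q j - 1)
    (hdist : ∀ j, FrobDist ρbar (Q j))
    (hg : ∀ M' : ℕ, N₀ ∣ M' → Good M' O)
    {L : ℕ} [NeZero L] {S : Finset ℕ} (hpS : p ∈ S)
    (hSL : ∀ q : ℕ, q.Prime → q ∣ L → q ∈ (↑S : Set ℕ))
    (hSW : ∀ ℓ : ℕ, ℓ.Prime → ℓ ∉ S → W.IsGoodPrimeFor ℓ)
    (hL : lvl (N₀ * ∏ j, Q j) (bfun bb) s ∣ L)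
    {θ : heckeAlgebra L 2 (↑S : Set ℕ) →+* ResidueField O}
    (hθ : ∀ i : Idx (↑S : Set ℕ), θ (TIdx L (↑S : Set ℕ) hSL i) =
      ((W.apOfModel i.1 : ℤ) : ResidueField O))
    (e : MvPolynomial (Idx (↑S : Set ℕ)) O)
    (he : ∀ (L' : ℕ) (hL' : Adm (↑S : Set ℕ) L'), L' ∣ L →
      IsLocIdem (TT O hL') (TT_comm hL') (thetaPoly L (↑S : Set ℕ) hSL O θ) e) :
    (∀ h : Adm (↑S : Set ℕ) (N₀ * ∏ j, Q j),
      0 < Module.finrank O (Loc (TT O h) (TT_comm h) e)) ∧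
    ∀ i, i ≤ s → ∀ h : Adm (↑S : Set ℕ) (lvl (N₀ * ∏ j, Q j) (bfun bb) i),
      Module.finrank O (Loc (TT O h) (TT_comm h) e) ≤ H35.Rk.bnd O r (N₀ * ∏ i, bb i) := by
  classical
  letI : Algebra (ZMod p) (ResidueField O) := ZMod.algebra _ p
  haveI : NeZero N₀ := ⟨hN₀⟩
  have hQ0 : ∏ j, Q j ≠ 0 := Finset.prod_ne_zero_iff.mpr fun j _ => (hQ j).ne_zero
  have hb0 : ∏ i, bb i ≠ 0 := Finset.prod_ne_zero_iff.mpr fun j _ => (hbb j).ne_zero
  haveI : NeZero (N₀ * ∏ j, Q j) := ⟨mul_ne_zero hN₀ hQ0⟩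
  haveI : NeZero (N₀ * ∏ i, bb i) := ⟨mul_ne_zero hN₀ hb0⟩
  have hθW := thetaPoly_eq (O := O) hθ
  rw [hθW] at he
  have hSW' : ∀ ℓ : ℕ, ℓ.Prime → ℓ ∉ (↑S : Set ℕ) → W.IsGoodPrimeFor ℓ ∧ ℓ ≠ p :=
    fun ℓ hℓ hℓS => ⟨hSW ℓ hℓ (by exact_mod_cast hℓS),
      fun h => hℓS (by rw [h]; exact_mod_cast hpS)⟩
  have hM₀L : N₀ * ∏ j, Q j ∣ L := (dvd_lvl s).trans hL
  refine ⟨fun h => ?_, fun i hi h => ?_⟩
  · obtain ⟨i₀, -, hi₀⟩ := H10.NE.exists_i0 hΔ hp2 hirr S (ResidueField O)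
      (θ := thetaW W (↑S : Set ℕ) O) (fun i => thetaW_X W _ i) 1 one_ne_zero
    exact H35.Rk.finrank_pos hmod (Dvd.intro _ rfl) h hSW' (hg _ (Dvd.intro _ rfl))
      (he _ h hM₀L) i₀ hi₀
  · have hatt : IsAtt S (thetaW W (↑S : Set ℕ) O) ρbar :=
      H30.S59.isAtt_thetaW hΔ hpO hρ S hSW'
    refine H35.Rk.finrank_le_bnd hp2 hpO hpS (thetaW_C W _) ρbar hirrk hatt Q hQ ?_ hQinj hQ1
      hdist (M' := lvl N₀ (bfun bb) i) ?_ (lvl_mul _ _) h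
      (he _ h ((lvl_dvd_lvl hi).trans hL))
    · intro j hj
      rcases (hQ j).dvd_mul.mp hj with hj | hj
      · exact hQN₀ j hj
      · obtain ⟨i, hi⟩ := prime_dvd_prod hbb (hQ j) hj
        exact hbQ i j hi
    · rw [← lvl_eq_prod]
      exact lvl_dvd_lvl hi

end Fermat.Agent.H65.InR

end
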