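import Fermat.Agent.H21MLvl
import Fermat.Agent.H70Free

/-!
# Level arithmetic for the composition of the levels (type independent)

`Data N₀ T bq Q S₀`: a squarefree base level `N₀` divisible by the primes of `T`, the raising primes
`bq : Fin s → ℕ` (in order) and the Taylor–Wiles primes `Q : Fin r → ℕ`, not in `S₀`; all primes of
`N₀` and all raising primes are in `S₀`.

* `M₀ N₀ Q = N₀ * ∏ Q`, `bN bq : ℕ → ℕ`, `N1 T Q = ∏ Q * ∏ T`, `N2 Q = ∏ Q`,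
  `top = lvl M₀ bN s * N1`, `SS S₀ Q = S₀ ∪ image Q`.
-/

set_option autoImplicit false
set_option linter.unusedSectionVars false

namespace Fermat.Agent.H65.Lvl

open Fermat.Agent.H21M Fermat.Agent.H70.Coh

variable {N₀ : ℕ} {T : Finset ℕ} {s r : ℕ} {bq : Fin s → ℕ} {Q : Fin r → ℕ} {S₀ : Finset ℕ}

/-- level data -/
structure Data (N₀ : ℕ) (T : Finset ℕ) {s r : ℕ} (bq : Fin s → ℕ) (Q : Fin r → ℕ)
    (S₀ : Finset ℕ) : Prop where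
  sq : Squarefree N₀
  T_prime : ∀ t ∈ T, t.Prime
  T_dvd : ∀ t ∈ T, t ∣ N₀
  b_prime : ∀ i, (bq i).Prime
  b_inj : Function.Injective bq
  b_not : ∀ i, ¬ bq i ∣ N₀
  Q_prime : ∀ j, (Q j).Prime
  Q_inj : Function.Injective Q
  Q_not : ∀ j, Q j ∉ S₀
  mem : ∀ q : ℕ, q.Prime → q ∣ N₀ → q ∈ S₀
  b_mem : ∀ i, bq i ∈ S₀

/-- the base level with the Taylor–Wiles primes -/
def M₀ (N₀ : ℕ) {r : ℕ} (Q : Fin r → ℕ) : ℕ := N₀ * ∏ j, Q j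

/-- the raising primes as a function on `ℕ` -/
def bN {s : ℕ} (bq : Fin s → ℕ) (i : ℕ) : ℕ := if h : i < s then bq ⟨i, h⟩ else 1

/-- the auxiliary level of the unipotent modules -/
def N2 {r : ℕ} (Q : Fin r → ℕ) : ℕ := ∏ j, Q j

/-- the auxiliary level of the module with characters -/
def N1 (T : Finset ℕ) {r : ℕ} (Q : Fin r → ℕ) : ℕ := (∏ j, Q j) * ∏ t ∈ T, t

/-- the top level -/
def top (N₀ : ℕ) (T : Finset ℕ) {s r : ℕ} (bq : Fin s → ℕ) (Q : Fin r → ℕ) : ℕ :=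
  lvl (M₀ N₀ Q) (bN bq) s * N1 T Q

/-- the omitted primes -/
def SS (S₀ : Finset ℕ) {r : ℕ} (Q : Fin r → ℕ) : Finset ℕ := S₀ ∪ Finset.univ.image Q

lemma bN_of_lt {i : ℕ} (h : i < s) : bN bq i = bq ⟨i, h⟩ := dif_pos h

@[simp] lemma bN_val (i : Fin s) : bN bq (i : ℕ) = bq i := dif_pos i.2

lemma lvl_mul (N c : ℕ) (b : ℕ → ℕ) (i : ℕ) : lvl (N * c) b i = lvl N b i * c := by
  induction i with
  | zero => rfl
  | succ i ih => rw [lvl_succ, lvl_succ, ih]; ring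

/-- the levels with and without the Taylor–Wiles primes -/
lemma lvl_M₀ (N₀ : ℕ) (Q : Fin r → ℕ) (b : ℕ → ℕ) (i : ℕ) :
    lvl (M₀ N₀ Q) b i = lvl N₀ b i * ∏ j, Q j := lvl_mul _ _ _ _

lemma mem_SS_left {q : ℕ} (h : q ∈ S₀) : q ∈ SS S₀ Q := Finset.mem_union_left _ h

lemma mem_SS_right (j : Fin r) : Q j ∈ SS S₀ Q :=
  Finset.mem_union_right _ (Finset.mem_image_of_mem _ (Finset.mem_univ j))

lemma M₀_dvd_lvl (N₀ : ℕ) (Q : Fin r → ℕ) (b : ℕ → ℕ) (i : ℕ) : M₀ N₀ Q ∣ lvl (M₀ N₀ Q) b i :=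
  dvd_lvl i

lemma N₀_dvd_M₀ (N₀ : ℕ) (Q : Fin r → ℕ) : N₀ ∣ M₀ N₀ Q := dvd_mul_right _ _

lemma N2_dvd_N1 (T : Finset ℕ) (Q : Fin r → ℕ) : N2 Q ∣ N1 T Q := dvd_mul_right _ _

lemma N2_dvd_M₀ (N₀ : ℕ) (Q : Fin r → ℕ) : N2 Q ∣ M₀ N₀ Q := dvd_mul_left _ _

lemma Q_dvd_N2 (j : Fin r) : Q j ∣ N2 Q := Finset.dvd_prod_of_mem _ (Finset.mem_univ j)

lemma Q_dvd_N1 (T : Finset ℕ) (j : Fin r) : Q j ∣ N1 T Q := (Q_dvd_N2 j).trans (N2_dvd_N1 T Q)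

lemma T_dvd_N1 {t : ℕ} (h : t ∈ T) : t ∣ N1 T Q :=
  (Finset.dvd_prod_of_mem (fun t : ℕ => t) h).mul_left _

/-- a prime dividing a product of distinct primes is one of them -/
lemma eq_of_dvd_prod {ι : Type*} {f : ι → ℕ} {s : Finset ι} (hf : ∀ i ∈ s, (f i).Prime) {q : ℕ}
    (hq : q.Prime) (h : q ∣ ∏ i ∈ s, f i) : ∃ i ∈ s, q = f i := by
  obtain ⟨i, hi, h1⟩ := (hq.prime.dvd_finsetProd_iff f).mp h
  exact ⟨i, hi, (Nat.prime_dvd_prime_iff_eq hq (hf i hi)).mp h1⟩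

/-- a product of distinct primes is squarefree -/
lemma squarefree_prod {ι : Type*} {f : ι → ℕ} (s : Finset ι) (hf : ∀ i ∈ s, (f i).Prime)
    (hinj : ∀ i ∈ s, ∀ j ∈ s, f i = f j → i = j) : Squarefree (∏ i ∈ s, f i) := by
  classical
  induction s using Finset.induction_on with
  | empty => simp
  | insert a s ha ih =>
    rw [Finset.prod_insert ha, Nat.squarefree_mul_iff]
    have hs : Squarefree (∏ i ∈ s, f i) := ih (fun i hi => hf i (Finset.mem_insert_of_mem hi))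
      fun i hi j hj => hinj i (Finset.mem_insert_of_mem hi) j (Finset.mem_insert_of_mem hj)
    refine ⟨?_, (hf a (Finset.mem_insert_self _ _)).squarefree, hs⟩
    rw [(hf a (Finset.mem_insert_self _ _)).coprime_iff_not_dvd]
    intro h
    obtain ⟨i, hi, h1⟩ := eq_of_dvd_prod (fun i hi => hf i (Finset.mem_insert_of_mem hi))
      (hf a (Finset.mem_insert_self _ _)) h
    exact ha (hinj a (Finset.mem_insert_self _ _) i (Finset.mem_insert_of_mem hi) h1 ▸ hi)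

namespace Data

variable (h : Data N₀ T bq Q S₀)

include h

lemma Q_not_dvd (j : Fin r) : ¬ Q j ∣ N₀ := fun hd => h.Q_not j (h.mem _ (h.Q_prime j) hd)

lemma Q_ne_b (j : Fin r) (i : Fin s) : Q j ≠ bq i := fun he => h.Q_not j (he ▸ h.b_mem i)

lemma T_mem {t : ℕ} (ht : t ∈ T) : t ∈ S₀ := h.mem t (h.T_prime t ht) (h.T_dvd t ht)

lemma Q_ne_T (j : Fin r) {t : ℕ} (ht : t ∈ T) : Q j ≠ t := fun he => h.Q_not j (he ▸ h.T_mem ht)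

lemma Q_ne_of_mem (j : Fin r) {q : ℕ} (hq : q ∈ S₀) : Q j ≠ q := fun he => h.Q_not j (he ▸ hq)

lemma b_ne_T (i : Fin s) {t : ℕ} (ht : t ∈ T) : bq i ≠ t :=
  fun he => h.b_not i (he ▸ h.T_dvd t ht)

lemma N₀_ne_zero : N₀ ≠ 0 := h.sq.ne_zero

lemma prodQ_sq : Squarefree (∏ j, Q j) :=
  squarefree_prod Finset.univ (fun j _ => h.Q_prime j) fun _ _ _ _ he => h.Q_inj he

lemma coprime_prodQ {N : ℕ} (hN : ∀ j, ¬ Q j ∣ N) : N.Coprime (∏ j, Q j) :=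
  Nat.Coprime.prod_right fun j _ => ((h.Q_prime j).coprime_iff_not_dvd.mpr (hN j)).symm

lemma M₀_sq : Squarefree (M₀ N₀ Q) := by
  rw [M₀, Nat.squarefree_mul_iff]
  exact ⟨h.coprime_prodQ h.Q_not_dvd, h.sq, h.prodQ_sq⟩

lemma M₀_ne_zero : M₀ N₀ Q ≠ 0 := h.M₀_sq.ne_zero

lemma prime_dvd_M₀ {q : ℕ} (hq : q.Prime) (hd : q ∣ M₀ N₀ Q) : q ∣ N₀ ∨ ∃ j, q = Q j := by
  rcases hq.dvd_mul.mp hd with h1 | h1
  · exact Or.inl h1
  · obtain ⟨j, -, h2⟩ := eq_of_dvd_prod (fun j _ => h.Q_prime j) hq h1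
    exact Or.inr ⟨j, h2⟩

lemma bN_ne_zero (i : ℕ) : bN bq i ≠ 0 := by
  rw [bN]
  split_ifs with hi
  · exact (h.b_prime _).ne_zero
  · exact one_ne_zero

lemma bN_prime (i : ℕ) (hi : i < s) : (bN bq i).Prime := by
  rw [bN_of_lt hi]
  exact h.b_prime _

lemma b_not_dvd_M₀ (i : Fin s) : ¬ bq i ∣ M₀ N₀ Q := by
  intro hd
  rcases h.prime_dvd_M₀ (h.b_prime i) hd with h1 | ⟨j, h1⟩
  · exact h.b_not i h1
  · exact h.Q_ne_b j i h1.symm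

lemma bN_not_dvd_M₀ (i : ℕ) (hi : i < s) : ¬ bN bq i ∣ M₀ N₀ Q := by
  rw [bN_of_lt hi]
  exact h.b_not_dvd_M₀ _

lemma bN_inj (i : ℕ) (hi : i < s) (j : ℕ) (hj : j < i) : bN bq i ≠ bN bq j := by
  rw [bN_of_lt hi, bN_of_lt (hj.trans hi)]
  intro he
  have h1 := congrArg Fin.val (h.b_inj he)
  exact hj.ne' h1

lemma N1_dvd_M₀ : N1 T Q ∣ M₀ N₀ Q := by
  rw [N1, M₀, mul_comm]
  refine Nat.mul_dvd_mul ?_ dvd_rfl
  exact Finset.prod_primes_dvd N₀ (fun t ht => (h.T_prime t ht).prime) h.T_dvd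

lemma N1_sq : Squarefree (N1 T Q) := h.M₀_sq.squarefree_of_dvd h.N1_dvd_M₀

lemma N2_sq : Squarefree (N2 Q) := h.prodQ_sq

lemma N1_ne_zero : N1 T Q ≠ 0 := h.N1_sq.ne_zero

lemma N2_ne_zero : N2 Q ≠ 0 := h.N2_sq.ne_zero

lemma hex (q : ℕ) (hq : q.Prime) (_ : q ∣ N1 T Q) : ¬ q * q ∣ M₀ N₀ Q := fun hd =>
  hq.one_lt.ne' (Nat.isUnit_iff.mp (h.M₀_sq q hd))

lemma b_not_dvd_N1 (i : Fin s) : ¬ bq i ∣ N1 T Q := fun hd =>
  h.b_not_dvd_M₀ i (hd.trans h.N1_dvd_M₀)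

lemma b_coprime_N1 (i : Fin s) : (bq i).Coprime (N1 T Q) :=
  (h.b_prime i).coprime_iff_not_dvd.mpr (h.b_not_dvd_N1 i)

lemma T_not_dvd_N2 {t : ℕ} (ht : t ∈ T) : ¬ t ∣ N2 Q := by
  intro hd
  obtain ⟨j, -, h1⟩ := eq_of_dvd_prod (fun j _ => h.Q_prime j) (h.T_prime t ht) hd
  exact h.Q_ne_T j ht h1.symm

lemma not_dvd_N2_of_mem {q : ℕ} (hq : q.Prime) (hm : q ∈ S₀) : ¬ q ∣ N2 Q := by
  intro hd
  obtain ⟨j, -, h1⟩ := eq_of_dvd_prod (fun j _ => h.Q_prime j) hq hd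
  exact h.Q_ne_of_mem j hm h1.symm

lemma not_dvd_N1_of_mem {q : ℕ} (hq : q.Prime) (hm : q ∈ S₀) (hT : q ∉ T) : ¬ q ∣ N1 T Q := by
  intro hd
  rcases hq.dvd_mul.mp hd with h1 | h1
  · exact h.not_dvd_N2_of_mem hq hm h1
  · obtain ⟨t, ht, h2⟩ := eq_of_dvd_prod (f := fun t : ℕ => t) h.T_prime hq h1
    exact hT (h2 ▸ ht)

/-- the primes of the levels -/
lemma prime_dvd_lvl {q : ℕ} (hq : q.Prime) {i : ℕ} (hd : q ∣ lvl (M₀ N₀ Q) (bN bq) i) :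
    q ∣ N₀ ∨ (∃ j, q = Q j) ∨ ∃ j : Fin s, (j : ℕ) < i ∧ q = bq j := by
  rcases Fermat.Agent.H21M.prime_dvd_lvl hq hd with h1 | ⟨j, hj, h1⟩
  · rcases h.prime_dvd_M₀ hq h1 with h2 | h2
    · exact Or.inl h2
    · exact Or.inr (Or.inl h2)
  · by_cases hjs : j < s
    · rw [bN_of_lt hjs] at h1
      exact Or.inr (Or.inr ⟨⟨j, hjs⟩, hj, (Nat.prime_dvd_prime_iff_eq hq (h.b_prime _)).mp h1⟩)
    · rw [bN, dif_neg hjs, Nat.dvd_one] at h1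
      exact absurd h1 hq.ne_one

lemma lvl_ne_zero (i : ℕ) : lvl (M₀ N₀ Q) (bN bq) i ≠ 0 :=
  Fermat.Agent.H21M.lvl_ne_zero h.M₀_ne_zero h.bN_ne_zero i

lemma lvl_pos (i : ℕ) : 0 < lvl (M₀ N₀ Q) (bN bq) i := Nat.pos_of_ne_zero (h.lvl_ne_zero i)

lemma bN_not_dvd_lvl {i : ℕ} (hi : i < s) : ¬ bN bq i ∣ lvl (M₀ N₀ Q) (bN bq) i :=
  not_dvd_lvl h.bN_prime h.bN_not_dvd_M₀ h.bN_inj hi

lemma b_not_dvd_lvl (j : Fin s) {i : ℕ} (hi : i ≤ j) : ¬ bq j ∣ lvl (M₀ N₀ Q) (bN bq) i := by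
  intro hd
  have h1 := h.bN_not_dvd_lvl j.2
  rw [bN_val] at h1
  exact h1 (hd.trans (lvl_dvd_lvl hi))

lemma b_dvd_lvl (j : Fin s) {i : ℕ} (hi : (j : ℕ) < i) : bq j ∣ lvl (M₀ N₀ Q) (bN bq) i := by
  have h1 : bN bq j ∣ lvl (M₀ N₀ Q) (bN bq) (j + 1) := by
    rw [lvl_succ]
    exact dvd_mul_left _ _
  rw [bN_val] at h1
  exact h1.trans (lvl_dvd_lvl hi)

/-- all levels are squarefree -/
lemma lvl_sq {i : ℕ} (hi : i ≤ s) : Squarefree (lvl (M₀ N₀ Q) (bN bq) i) := by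
  induction i with
  | zero => exact h.M₀_sq
  | succ i ih =>
    rw [lvl_succ, Nat.squarefree_mul_iff]
    exact ⟨((h.bN_prime i hi).coprime_iff_not_dvd.mpr (h.bN_not_dvd_lvl hi)).symm,
      ih (Nat.le_of_succ_le hi), (h.bN_prime i hi).squarefree⟩

lemma not_sq_dvd_lvl {q : ℕ} (hq : q.Prime) {i : ℕ} (hi : i ≤ s) :
    ¬ q * q ∣ lvl (M₀ N₀ Q) (bN bq) i := fun hd =>
  hq.one_lt.ne' (Nat.isUnit_iff.mp (h.lvl_sq hi q hd))

/-- a prime of `S₀` divides a level iff it divides the base level or is one of the raising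
primes -/
lemma dvd_lvl_iff {q : ℕ} (hq : q.Prime) (hm : q ∈ S₀) (i : ℕ) :
    q ∣ lvl (M₀ N₀ Q) (bN bq) i ↔ q ∣ N₀ ∨ ∃ j : Fin s, (j : ℕ) < i ∧ q = bq j := by
  constructor
  · intro hd
    rcases h.prime_dvd_lvl hq hd with h1 | ⟨j, h1⟩ | h1
    · exact Or.inl h1
    · exact absurd h1.symm (h.Q_ne_of_mem j hm)
    · exact Or.inr h1
  · rintro (h1 | ⟨j, hj, rfl⟩)
    · exact (h1.trans (N₀_dvd_M₀ N₀ Q)).trans (M₀_dvd_lvl _ _ _ _)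
    · exact h.b_dvd_lvl j hj

lemma N1_dvd_lvl (i : ℕ) : N1 T Q ∣ lvl (M₀ N₀ Q) (bN bq) i := h.N1_dvd_M₀.trans (dvd_lvl i)

omit h in
lemma N2_dvd_lvl (i : ℕ) : N2 Q ∣ lvl (M₀ N₀ Q) (bN bq) i := (N2_dvd_M₀ _ _).trans (dvd_lvl i)

lemma top_ne_zero : top N₀ T bq Q ≠ 0 := mul_ne_zero (h.lvl_ne_zero s) h.N1_ne_zero

omit h in
lemma hL : lvl (M₀ N₀ Q) (bN bq) s * N1 T Q ∣ top N₀ T bq Q := dvd_rfl

omit h in
lemma lvl_dvd_top {i : ℕ} (hi : i ≤ s) : lvl (M₀ N₀ Q) (bN bq) i ∣ top N₀ T bq Q :=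
  (lvl_dvd_lvl hi).mul_right _

/-- the primes of the top level -/
lemma prime_dvd_top {q : ℕ} (hq : q.Prime) (hd : q ∣ top N₀ T bq Q) :
    q ∣ N₀ ∨ (∃ j, q = Q j) ∨ ∃ j : Fin s, q = bq j := by
  rcases hq.dvd_mul.mp hd with h1 | h1
  · rcases h.prime_dvd_lvl hq h1 with h2 | h2 | ⟨j, -, h2⟩
    · exact Or.inl h2
    · exact Or.inr (Or.inl h2)
    · exact Or.inr (Or.inr ⟨j, h2⟩)
  · rcases h.prime_dvd_M₀ hq (h1.trans h.N1_dvd_M₀) with h2 | h2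
    · exact Or.inl h2
    · exact Or.inr (Or.inl h2)

/-- the top level only involves omitted primes -/
lemma mem_SS_of_dvd_top {q : ℕ} (hq : q.Prime) (hd : q ∣ top N₀ T bq Q) : q ∈ SS S₀ Q := by
  rcases h.prime_dvd_top hq hd with h1 | ⟨j, rfl⟩ | ⟨j, rfl⟩
  · exact mem_SS_left (h.mem q hq h1)
  · exact mem_SS_right j
  · exact mem_SS_left (h.b_mem j)

lemma mem_SS_of_dvd_lvl {q : ℕ} (hq : q.Prime) {i : ℕ} (hi : i ≤ s)
    (hd : q ∣ lvl (M₀ N₀ Q) (bN bq) i) : q ∈ SS S₀ Q :=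
  h.mem_SS_of_dvd_top hq (hd.trans (lvl_dvd_top hi))

/-- a prime outside `T` and the Taylor–Wiles primes divides the top level at most once -/
lemma not_sq_dvd_top {q : ℕ} (hq : q.Prime) (hm : q ∈ S₀) (hT : q ∉ T) :
    ¬ q * q ∣ top N₀ T bq Q := by
  intro hd
  have hc : (q * q).Coprime (N1 T Q) := by
    have h1 : q.Coprime (N1 T Q) := hq.coprime_iff_not_dvd.mpr (h.not_dvd_N1_of_mem hq hm hT)
    exact Nat.Coprime.mul_left h1 h1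
  exact h.not_sq_dvd_lvl hq le_rfl (hc.dvd_of_dvd_mul_right hd)

omit h in
/-- the vanishing of `H²` at all levels -/
lemma good {R : Type*} [CommRing R] (hg : ∀ M' : ℕ, N₀ ∣ M' → Good M' R) (M' : ℕ)
    (hM' : M₀ N₀ Q ∣ M') : Good M' R := hg M' ((N₀_dvd_M₀ N₀ Q).trans hM')

end Data

end Fermat.Agent.H65.Lvl
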