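import Mathlib

/-!
# Arithmetic existence of the parameters `r, c` of the definite quaternion order (LT-MOD2, M2b)

`N = 2 m` squarefree, `S` a finite set of odd primes inert in `ℚ(√-N)`, `l0 ∣ m`.  There are
arbitrarily large primes `r` such that with `b = (∏ S) r` one has `b ≡ 3 mod 8`,
`(-b/ℓ) = -1` for all odd `ℓ ∣ N`, `ℓ ≠ l0`, `(-b/l0) = (-1)^{#S + ω(m) + 1}`, and
`r ∣ c² + N` for some even `c`.
-/

namespace Fermat.Agent.H65Q

open Finset
open scoped NumberTheorySymbols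

/-- existence of a quadratic nonresidue / residue with prescribed symbol. -/
lemma exists_jac (p : ℕ) (hp : p.Prime) (hp2 : p ≠ 2) (ε : ℤ) (hε : ε = 1 ∨ ε = -1) :
    ∃ n : ℕ, jacobiSym (n : ℤ) p = ε := by
  haveI := Fact.mk hp
  rcases hε with rfl | rfl
  · exact ⟨1, by simp⟩
  · obtain ⟨a, ha⟩ := FiniteField.exists_nonsquare (F := ZMod p)
      (by rw [ZMod.ringChar_zmod_n]; exact hp2)
    refine ⟨a.val, ?_⟩
    rw [← jacobiSym.legendreSym.to_jacobiSym, legendreSym.eq_neg_one_iff]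
    simpa using ha

lemma jac_congr {p : ℕ} {x y : ℕ} (h : x ≡ y [MOD p]) :
    jacobiSym (x : ℤ) p = jacobiSym (y : ℤ) p := by
  apply jacobiSym.mod_left'
  exact_mod_cast h

/-- prescribed Legendre symbols at finitely many odd primes and prescribed residue mod 8. -/
lemma exists_signs (P : Finset ℕ) (hP : ∀ p ∈ P, p.Prime ∧ p ≠ 2) (ε : ℕ → ℤ)
    (hε : ∀ p ∈ P, ε p = 1 ∨ ε p = -1) (a : ℕ) :
    ∃ x : ℕ, x ≡ a [MOD 8] ∧ ∀ p ∈ P, jacobiSym (x : ℤ) p = ε p := by
  classical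
  induction P using Finset.induction_on with
  | empty => exact ⟨a, rfl, by simp⟩
  | insert p P hpP ih =>
    obtain ⟨x, hx8, hx⟩ := ih (fun q hq => hP q (Finset.mem_insert_of_mem hq))
      (fun q hq => hε q (Finset.mem_insert_of_mem hq))
    have hp := hP p (Finset.mem_insert_self p P)
    obtain ⟨n, hn⟩ := exists_jac p hp.1 hp.2 (ε p) (hε p (Finset.mem_insert_self p P))
    have hco : Nat.Coprime (8 * ∏ q ∈ P, q) p := by
      apply Nat.Coprime.mul_left
      · have : Nat.Coprime 2 p := (Nat.coprime_primes Nat.prime_two hp.1).2 (Ne.symm hp.2)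
        have h3 : Nat.Coprime (2 ^ 3) p := Nat.Coprime.pow_left 3 this
        exact h3
      · apply Nat.Coprime.prod_left
        intro q hq
        exact (Nat.coprime_primes (hP q (Finset.mem_insert_of_mem hq)).1 hp.1).2
          (by rintro rfl; exact hpP hq)
    obtain ⟨k, hk1, hk2⟩ := Nat.chineseRemainder hco x n
    refine ⟨k, ?_, ?_⟩
    · exact (hk1.of_mul_right _).trans hx8
    · intro q hq
      rcases Finset.mem_insert.1 hq with rfl | hq
      · rw [jac_congr hk2, hn]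
      · have h1 : k ≡ x [MOD q] := by
          apply hk1.of_dvd
          exact (Finset.dvd_prod_of_mem _ hq).mul_left 8
        rw [jac_congr h1, hx q hq]

lemma jac_prod_right (a : ℤ) (P : Finset ℕ) (hP : ∀ p ∈ P, p.Prime) :
    jacobiSym a (∏ p ∈ P, p) = ∏ p ∈ P, jacobiSym a p := by
  classical
  induction P using Finset.induction_on with
  | empty => simp
  | insert p P hpP ih =>
    rw [Finset.prod_insert hpP, Finset.prod_insert hpP, jacobiSym.mul_right',
      ih (fun q hq => hP q (Finset.mem_insert_of_mem hq))]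
    · exact (hP p (Finset.mem_insert_self p P)).ne_zero
    · exact Finset.prod_ne_zero_iff.2
        (fun q hq => (hP q (Finset.mem_insert_of_mem hq)).ne_zero)

/-- Quadratic reciprocity in the form needed: for `m` odd and `b ≡ 3 mod 8`,
`(-2m / b) = (-b / m)`. -/
lemma jac_recip {m b : ℕ} (hm : Odd m) (hb : b % 8 = 3) :
    jacobiSym (-(2 * (m : ℤ))) b = jacobiSym (-(b : ℤ)) m := by
  have hbo : Odd b := by rw [Nat.odd_iff]; omega
  have h1 : (-(2 * (m : ℤ))) = (-2) * m := by ring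
  rw [h1, jacobiSym.mul_left, jacobiSym.at_neg_two hbo, ZMod.χ₈'_nat_eq_if_mod_eight]
  have h2 : ¬ (b % 2 = 0) := by omega
  rw [if_neg h2, if_pos (Or.inr hb), one_mul, jacobiSym.quadratic_reciprocity' hm hbo]
  have h3 : b % 4 = 3 := by omega
  rw [qrSign, ZMod.χ₄_nat_three_mod_four h3, ← jacobiSym.mul_left]
  congr 1
  ring

/-- MAIN THEOREM: existence of the parameters of the quaternion order. -/
theorem exists_params (m : ℕ) (hm : Odd m) (hsq : Squarefree m) (S : Finset ℕ)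
    (hS : ∀ q ∈ S, q.Prime ∧ q ≠ 2 ∧ ¬ q ∣ m ∧ jacobiSym (-(2 * (m : ℤ))) q = -1)
    (l0 : ℕ) (hl0 : l0.Prime) (hl0m : l0 ∣ m) (B : ℕ) :
    ∃ r c : ℕ, r.Prime ∧ B < r ∧ ((∏ q ∈ S, q) * r) % 8 = 3 ∧
      (∀ ℓ : ℕ, ℓ.Prime → ℓ ∣ m → ℓ ≠ l0 →
        jacobiSym (-((((∏ q ∈ S, q) * r : ℕ)) : ℤ)) ℓ = -1) ∧
      jacobiSym (-((((∏ q ∈ S, q) * r : ℕ)) : ℤ)) l0 = (-1) ^ (S.card + m.primeFactors.card + 1) ∧
      Even c ∧ r ∣ c ^ 2 + 2 * m := by
  classical
  set Q := ∏ q ∈ S, q with hQdef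
  have hm0 : m ≠ 0 := hsq.ne_zero
  have hmodd : ∀ ℓ : ℕ, ℓ.Prime → ℓ ∣ m → ℓ ≠ 2 := by
    rintro ℓ hℓ hℓm rfl
    rw [Nat.odd_iff] at hm
    omega
  -- the prescribed signs
  set ε : ℕ → ℤ := fun ℓ => if ℓ = l0 then (-1) ^ (S.card + m.primeFactors.card + 1) else -1
    with hεdef
  obtain ⟨x, hx8, hx⟩ := exists_signs m.primeFactors
    (fun p hp => ⟨Nat.prime_of_mem_primeFactors hp,
      hmodd p (Nat.prime_of_mem_primeFactors hp) (Nat.dvd_of_mem_primeFactors hp)⟩) ε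
    (fun p _ => by
      simp only [hεdef]
      split_ifs
      · exact neg_one_pow_eq_or ℤ _
      · right; rfl) 5
  have hε0 : ∀ p, ε p ≠ 0 := by
    intro p
    simp only [hεdef]
    split_ifs
    · exact pow_ne_zero _ (by norm_num)
    · norm_num
  -- coprimality
  have hQ8m : Nat.Coprime Q (8 * m) := by
    apply Nat.Coprime.prod_left
    intro q hq
    obtain ⟨hqp, hq2, hqm, _⟩ := hS q hq
    apply Nat.Coprime.mul_right
    · have : Nat.Coprime q 2 := (Nat.coprime_primes hqp Nat.prime_two).2 hq2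
      have h3 : Nat.Coprime q (2 ^ 3) := Nat.Coprime.pow_right 3 this
      exact h3
    · exact (Nat.Prime.coprime_iff_not_dvd hqp).2 hqm
  have hx8m : Nat.Coprime x (8 * m) := by
    apply Nat.Coprime.mul_right
    · have h1 : x % 8 = 5 := hx8
      have : Nat.Coprime x 2 := by
        rw [Nat.coprime_two_right]
        rw [Nat.odd_iff]; omega
      have h3 : Nat.Coprime x (2 ^ 3) := Nat.Coprime.pow_right 3 this
      exact h3
    · rw [← Nat.prod_primeFactors_of_squarefree hsq]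
      apply Nat.Coprime.prod_right
      intro p hp
      have h1 := hx p hp
      have hpp := Nat.prime_of_mem_primeFactors hp
      rw [Nat.coprime_comm, Nat.Prime.coprime_iff_not_dvd hpp]
      intro hpx
      have : NeZero p := ⟨hpp.ne_zero⟩
      have h2 : jacobiSym (x : ℤ) p = 0 := by
        rw [jacobiSym.eq_zero_iff_not_coprime]
        intro h3
        rw [Int.gcd_natCast_natCast] at h3
        exact hpp.one_lt.ne' (Nat.dvd_one.1 (h3 ▸ Nat.dvd_gcd hpx dvd_rfl))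
      rw [h2] at h1
      exact hε0 p h1.symm
  have : NeZero (8 * m) := ⟨by positivity⟩
  have hQu : IsUnit (Q : ZMod (8 * m)) := (ZMod.isUnit_iff_coprime Q (8 * m)).2 hQ8m
  have hxu : IsUnit (x : ZMod (8 * m)) := (ZMod.isUnit_iff_coprime x (8 * m)).2 hx8m
  obtain ⟨r, hrB, hrp, hr⟩ := Nat.forall_exists_prime_gt_and_eq_mod
    (q := 8 * m) (a := -(x : ZMod (8 * m)) * ↑(hQu.unit⁻¹))
    (IsUnit.mul hxu.neg (Units.isUnit _)) (B + 2 * m + Q)
  -- `-Q r ≡ x mod 8m`
  have hQr : ((-((Q * r : ℕ) : ℤ) : ℤ) : ZMod (8 * m)) = ((x : ℤ) : ZMod (8 * m)) := by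
    push_cast
    rw [hr]
    have h1 : (Q : ZMod (8 * m)) * ↑(hQu.unit⁻¹) = 1 := by
      have := hQu.unit.mul_inv
      exact this
    calc -((Q : ZMod (8 * m)) * (-(x : ZMod (8 * m)) * ↑(hQu.unit⁻¹)))
        = (x : ZMod (8 * m)) * ((Q : ZMod (8 * m)) * ↑(hQu.unit⁻¹)) := by ring
      _ = (x : ZMod (8 * m)) := by rw [h1, mul_one]
  rw [ZMod.intCast_eq_intCast_iff] at hQr
  have hb8 : (Q * r) % 8 = 3 := by
    have h1 : (-((Q * r : ℕ) : ℤ)) ≡ (x : ℤ) [ZMOD 8] := by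
      apply hQr.of_dvd
      push_cast
      exact dvd_mul_right _ _
    have h2 : (x : ℤ) % 8 = 5 := by
      have : x % 8 = 5 := hx8
      omega
    have h3 : (-((Q * r : ℕ) : ℤ)) % 8 = 5 := by rw [h1, h2]
    omega
  have hjac : ∀ p ∈ m.primeFactors, jacobiSym (-((Q * r : ℕ) : ℤ)) p = ε p := by
    intro p hp
    rw [← hx p hp]
    apply jacobiSym.mod_left'
    have h1 : (-((Q * r : ℕ) : ℤ)) ≡ (x : ℤ) [ZMOD p] := by
      apply hQr.of_dvd
      push_cast
      exact Dvd.dvd.mul_left (by exact_mod_cast Nat.dvd_of_mem_primeFactors hp) _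
    exact h1
  -- reciprocity
  have hr2 : r ≠ 2 := by
    rintro rfl
    omega
  have hS1 : jacobiSym (-(2 * (m : ℤ))) Q = (-1) ^ S.card := by
    rw [hQdef, jac_prod_right _ S (fun q hq => (hS q hq).1),
      Finset.prod_congr rfl (fun q hq => (hS q hq).2.2.2), Finset.prod_const]
  have hl0mem : l0 ∈ m.primeFactors := Nat.mem_primeFactors.2 ⟨hl0, hl0m, hm0⟩
  have hm1 : jacobiSym (-((Q * r : ℕ) : ℤ)) m = (-1) ^ S.card := by
    conv_lhs => rw [← Nat.prod_primeFactors_of_squarefree hsq]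
    rw [jac_prod_right _ _ (fun p hp => Nat.prime_of_mem_primeFactors hp),
      Finset.prod_congr rfl hjac, ← Finset.mul_prod_erase _ _ hl0mem]
    have h1 : ∏ p ∈ m.primeFactors.erase l0, ε p = ∏ p ∈ m.primeFactors.erase l0, (-1 : ℤ) := by
      apply Finset.prod_congr rfl
      intro p hp
      simp only [hεdef]
      rw [if_neg (Finset.ne_of_mem_erase hp)]
    rw [h1, Finset.prod_const, Finset.card_erase_of_mem hl0mem]
    simp only [hεdef, if_true]
    have h2 : 1 ≤ m.primeFactors.card := Finset.card_pos.2 ⟨l0, hl0mem⟩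
    rw [← pow_add]
    have h3 : S.card + m.primeFactors.card + 1 + (m.primeFactors.card - 1) =
        S.card + 2 * m.primeFactors.card := by omega
    rw [h3, pow_add, pow_mul]
    simp
  have hrec := jac_recip (m := m) (b := Q * r) hm hb8
  have hQ0 : Q ≠ 0 := Finset.prod_ne_zero_iff.2 (fun q hq => (hS q hq).1.ne_zero)
  rw [jacobiSym.mul_right' _ hQ0 hrp.ne_zero, hS1, hm1] at hrec
  have hr1 : jacobiSym (-(2 * (m : ℤ))) r = 1 := by
    have h4 : ((-1 : ℤ) ^ S.card) ≠ 0 := pow_ne_zero _ (by norm_num)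
    have h5 : (-1 : ℤ) ^ S.card * jacobiSym (-(2 * (m : ℤ))) r = (-1 : ℤ) ^ S.card * 1 := by
      rw [hrec, mul_one]
    exact mul_left_cancel₀ h4 h5
  have := Fact.mk hrp
  have hsquare : IsSquare (((-(2 * (m : ℤ)) : ℤ)) : ZMod r) :=
    ZMod.isSquare_of_jacobiSym_eq_one hr1
  obtain ⟨d, hd⟩ := hsquare
  have hdvd : ∀ c : ℕ, (c : ZMod r) = d → r ∣ c ^ 2 + 2 * m := by
    intro c hc
    rw [← ZMod.natCast_eq_zero_iff]
    push_cast
    push_cast at hd
    rw [hc]
    linear_combination (-1 : ZMod r) * hd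
  obtain ⟨c, hceven, hc⟩ : ∃ c : ℕ, Even c ∧ (c : ZMod r) = d := by
    rcases Nat.even_or_odd d.val with h | h
    · exact ⟨d.val, h, by simp⟩
    · refine ⟨d.val + r, h.add_odd (hrp.odd_of_ne_two hr2), by simp⟩
  refine ⟨r, c, hrp, by omega, hb8, ?_, ?_, hceven, hdvd c hc⟩
  · intro ℓ hℓ hℓm hℓ0
    rw [hjac ℓ (Nat.mem_primeFactors.2 ⟨hℓ, hℓm, hm0⟩)]
    simp only [hεdef]
    rw [if_neg hℓ0]
  · rw [hjac l0 hl0mem]
    simp only [hεdef, if_true]

/-- Quadratic reciprocity: for `m` odd and `b ≡ 7 mod 8`, `(-2m / b) = -(-b / m)`. -/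
lemma jac_recip' {m b : ℕ} (hm : Odd m) (hb : b % 8 = 7) :
    jacobiSym (-(2 * (m : ℤ))) b = -jacobiSym (-(b : ℤ)) m := by
  have hbo : Odd b := by rw [Nat.odd_iff]; omega
  have h1 : (-(2 * (m : ℤ))) = (-2) * m := by ring
  rw [h1, jacobiSym.mul_left, jacobiSym.at_neg_two hbo, ZMod.χ₈'_nat_eq_if_mod_eight]
  have h2 : ¬ (b % 2 = 0) := by omega
  have h2' : ¬ (b % 8 = 1 ∨ b % 8 = 3) := by omega
  rw [if_neg h2, if_neg h2', jacobiSym.quadratic_reciprocity' hm hbo]
  have h3 : b % 4 = 3 := by omega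
  rw [qrSign, ZMod.χ₄_nat_three_mod_four h3, ← jacobiSym.mul_left, neg_one_mul, neg_one_mul]

/-- GENERAL VERSION: arbitrary ramification set `T ⊆ {ℓ ∣ 2m}` with `#T + #S` odd. -/
theorem exists_params_gen (m : ℕ) (hm : Odd m) (hsq : Squarefree m) (S : Finset ℕ)
    (hS : ∀ q ∈ S, q.Prime ∧ q ≠ 2 ∧ ¬ q ∣ m ∧ jacobiSym (-(2 * (m : ℤ))) q = -1)
    (T : Finset ℕ) (hT : ∀ v ∈ T, v.Prime ∧ v ∣ 2 * m) (hpar : Odd (S.card + T.card)) (B : ℕ) :
    ∃ r c : ℕ, r.Prime ∧ B < r ∧ ((∏ q ∈ S, q) * r) % 8 = (if 2 ∈ T then 3 else 7) ∧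
      (∀ ℓ : ℕ, ℓ.Prime → ℓ ∣ m →
        jacobiSym (-((((∏ q ∈ S, q) * r : ℕ)) : ℤ)) ℓ = if ℓ ∈ T then -1 else 1) ∧
      Even c ∧ r ∣ c ^ 2 + 2 * m := by
  classical
  set Q := ∏ q ∈ S, q with hQdef
  have hm0 : m ≠ 0 := hsq.ne_zero
  have hmodd : ∀ ℓ : ℕ, ℓ.Prime → ℓ ∣ m → ℓ ≠ 2 := by
    rintro ℓ hℓ hℓm rfl
    rw [Nat.odd_iff] at hm
    omega
  -- the prescribed signs
  set ε : ℕ → ℤ := fun ℓ => if ℓ ∈ T then -1 else 1 with hεdef
  obtain ⟨x, hx8, hx⟩ := exists_signs m.primeFactors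
    (fun p hp => ⟨Nat.prime_of_mem_primeFactors hp,
      hmodd p (Nat.prime_of_mem_primeFactors hp) (Nat.dvd_of_mem_primeFactors hp)⟩) ε
    (fun p _ => by
      simp only [hεdef]
      split_ifs
      · right; rfl
      · left; rfl) (if 2 ∈ T then 5 else 1)
  have hx8' : x % 8 = if 2 ∈ T then 5 else 1 := by
    have : x % 8 = (if 2 ∈ T then 5 else 1) % 8 := hx8
    rw [this]
    split_ifs <;> rfl
  have hε0 : ∀ p, ε p ≠ 0 := by
    intro p
    simp only [hεdef]
    split_ifs <;> norm_num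
  -- coprimality
  have hQ8m : Nat.Coprime Q (8 * m) := by
    apply Nat.Coprime.prod_left
    intro q hq
    obtain ⟨hqp, hq2, hqm, _⟩ := hS q hq
    apply Nat.Coprime.mul_right
    · have : Nat.Coprime q 2 := (Nat.coprime_primes hqp Nat.prime_two).2 hq2
      have h3 : Nat.Coprime q (2 ^ 3) := Nat.Coprime.pow_right 3 this
      exact h3
    · exact (Nat.Prime.coprime_iff_not_dvd hqp).2 hqm
  have hx8m : Nat.Coprime x (8 * m) := by
    apply Nat.Coprime.mul_right
    · have : Nat.Coprime x 2 := by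
        rw [Nat.coprime_two_right, Nat.odd_iff]
        split_ifs at hx8' <;> omega
      have h3 : Nat.Coprime x (2 ^ 3) := Nat.Coprime.pow_right 3 this
      exact h3
    · rw [← Nat.prod_primeFactors_of_squarefree hsq]
      apply Nat.Coprime.prod_right
      intro p hp
      have h1 := hx p hp
      have hpp := Nat.prime_of_mem_primeFactors hp
      rw [Nat.coprime_comm, Nat.Prime.coprime_iff_not_dvd hpp]
      intro hpx
      have : NeZero p := ⟨hpp.ne_zero⟩
      have h2 : jacobiSym (x : ℤ) p = 0 := by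
        rw [jacobiSym.eq_zero_iff_not_coprime]
        intro h3
        rw [Int.gcd_natCast_natCast] at h3
        exact hpp.one_lt.ne' (Nat.dvd_one.1 (h3 ▸ Nat.dvd_gcd hpx dvd_rfl))
      rw [h2] at h1
      exact hε0 p h1.symm
  have : NeZero (8 * m) := ⟨by positivity⟩
  have hQu : IsUnit (Q : ZMod (8 * m)) := (ZMod.isUnit_iff_coprime Q (8 * m)).2 hQ8m
  have hxu : IsUnit (x : ZMod (8 * m)) := (ZMod.isUnit_iff_coprime x (8 * m)).2 hx8m
  obtain ⟨r, hrB, hrp, hr⟩ := Nat.forall_exists_prime_gt_and_eq_mod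
    (q := 8 * m) (a := -(x : ZMod (8 * m)) * ↑(hQu.unit⁻¹))
    (IsUnit.mul hxu.neg (Units.isUnit _)) (B + 2 * m + Q)
  -- `-Q r ≡ x mod 8m`
  have hQr : ((-((Q * r : ℕ) : ℤ) : ℤ) : ZMod (8 * m)) = ((x : ℤ) : ZMod (8 * m)) := by
    push_cast
    rw [hr]
    have h1 : (Q : ZMod (8 * m)) * ↑(hQu.unit⁻¹) = 1 := by
      have := hQu.unit.mul_inv
      exact this
    calc -((Q : ZMod (8 * m)) * (-(x : ZMod (8 * m)) * ↑(hQu.unit⁻¹)))
        = (x : ZMod (8 * m)) * ((Q : ZMod (8 * m)) * ↑(hQu.unit⁻¹)) := by ring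
      _ = (x : ZMod (8 * m)) := by rw [h1, mul_one]
  rw [ZMod.intCast_eq_intCast_iff] at hQr
  have hb8 : (Q * r) % 8 = if 2 ∈ T then 3 else 7 := by
    have h1 : (-((Q * r : ℕ) : ℤ)) ≡ (x : ℤ) [ZMOD 8] := by
      apply hQr.of_dvd
      push_cast
      exact dvd_mul_right _ _
    have h1' : (-((Q * r : ℕ) : ℤ)) % 8 = (x : ℤ) % 8 := h1
    split_ifs at hx8' ⊢ <;> omega
  have hjac : ∀ p ∈ m.primeFactors, jacobiSym (-((Q * r : ℕ) : ℤ)) p = ε p := by
    intro p hp
    rw [← hx p hp]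
    apply jacobiSym.mod_left'
    have h1 : (-((Q * r : ℕ) : ℤ)) ≡ (x : ℤ) [ZMOD p] := by
      apply hQr.of_dvd
      push_cast
      exact Dvd.dvd.mul_left (by exact_mod_cast Nat.dvd_of_mem_primeFactors hp) _
    exact h1
  -- reciprocity
  have hr2 : r ≠ 2 := by
    rintro rfl
    split_ifs at hb8 <;> omega
  have hS1 : jacobiSym (-(2 * (m : ℤ))) Q = (-1) ^ S.card := by
    rw [hQdef, jac_prod_right _ S (fun q hq => (hS q hq).1),
      Finset.prod_congr rfl (fun q hq => (hS q hq).2.2.2), Finset.prod_const]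
  have hm1 : jacobiSym (-((Q * r : ℕ) : ℤ)) m = (-1) ^ (T.erase 2).card := by
    conv_lhs => rw [← Nat.prod_primeFactors_of_squarefree hsq]
    rw [jac_prod_right _ _ (fun p hp => Nat.prime_of_mem_primeFactors hp),
      Finset.prod_congr rfl hjac]
    simp only [hεdef]
    rw [Finset.prod_ite, Finset.prod_const, Finset.prod_const_one, mul_one]
    congr 2
    ext ℓ
    rw [Finset.mem_filter, Finset.mem_erase, Nat.mem_primeFactors]
    constructor
    · rintro ⟨⟨h1, h2, _⟩, h3⟩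
      exact ⟨hmodd ℓ h1 h2, h3⟩
    · rintro ⟨h1, h2⟩
      obtain ⟨h3, h4⟩ := hT ℓ h2
      refine ⟨⟨h3, ?_, hm0⟩, h2⟩
      rcases (Nat.Prime.dvd_mul h3).1 h4 with h5 | h5
      · exact absurd ((Nat.prime_dvd_prime_iff_eq h3 Nat.prime_two).1 h5) h1
      · exact h5
  have hQ0 : Q ≠ 0 := Finset.prod_ne_zero_iff.2 (fun q hq => (hS q hq).1.ne_zero)
  have hr1 : jacobiSym (-(2 * (m : ℤ))) r = 1 := by
    have h4 : ((-1 : ℤ) ^ S.card) ≠ 0 := pow_ne_zero _ (by norm_num)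
    have h5 : (-1 : ℤ) ^ S.card * jacobiSym (-(2 * (m : ℤ))) r = (-1 : ℤ) ^ S.card * 1 := by
      rw [mul_one, ← hS1, ← jacobiSym.mul_right' _ hQ0 hrp.ne_zero, hS1]
      by_cases h2T : 2 ∈ T
      · rw [if_pos h2T] at hb8
        rw [jac_recip (m := m) (b := Q * r) hm hb8, hm1]
        have h6 : T.card = (T.erase 2).card + 1 := by
          rw [Finset.card_erase_of_mem h2T]
          have : 1 ≤ T.card := Finset.card_pos.2 ⟨2, h2T⟩
          omega
        rw [h6] at hpar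
        have h7 : Even (S.card + (T.erase 2).card) := by
          rw [← Nat.not_odd_iff_even]
          intro h8
          rw [← add_assoc] at hpar
          rw [Nat.odd_iff] at hpar h8
          omega
        rw [neg_one_pow_eq_pow_mod_two, neg_one_pow_eq_pow_mod_two (n := S.card)]
        congr 1
        rw [Nat.even_iff] at h7
        omega
      · rw [if_neg h2T] at hb8
        rw [jac_recip' (m := m) (b := Q * r) hm hb8, hm1, Finset.erase_eq_of_notMem h2T]
        rw [neg_one_pow_eq_pow_mod_two, neg_one_pow_eq_pow_mod_two (n := S.card)]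
        rw [Nat.odd_iff] at hpar
        rcases Nat.mod_two_eq_zero_or_one S.card with h6 | h6
        · have h7 : T.card % 2 = 1 := by omega
          rw [h6, h7]; norm_num
        · have h7 : T.card % 2 = 0 := by omega
          rw [h6, h7]; norm_num
    exact mul_left_cancel₀ h4 h5
  haveI := Fact.mk hrp
  have hsquare : IsSquare (((-(2 * (m : ℤ)) : ℤ)) : ZMod r) :=
    ZMod.isSquare_of_jacobiSym_eq_one hr1
  obtain ⟨d, hd⟩ := hsquare
  have hdvd : ∀ c : ℕ, (c : ZMod r) = d → r ∣ c ^ 2 + 2 * m := by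
    intro c hc
    rw [← ZMod.natCast_eq_zero_iff]
    push_cast
    push_cast at hd
    rw [hc]
    linear_combination (-1 : ZMod r) * hd
  obtain ⟨c, hceven, hc⟩ : ∃ c : ℕ, Even c ∧ (c : ZMod r) = d := by
    rcases Nat.even_or_odd d.val with h | h
    · exact ⟨d.val, h, by simp⟩
    · refine ⟨d.val + r, h.add_odd (hrp.odd_of_ne_two hr2), by simp⟩
  refine ⟨r, c, hrp, by omega, hb8, ?_, hceven, hdvd c hc⟩
  intro ℓ hℓ hℓm
  rw [hjac ℓ (Nat.mem_primeFactors.2 ⟨hℓ, hℓm, hm0⟩)]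

end Fermat.Agent.H65Q
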