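import Mathlib

/-!
# H65S1: self-dual normal basis, congruence groups and the norm form (block C13 of S47)

Local theory at a bad place.  `O` is complete for the powers of `π`, `F` its fraction
field, `A` a commutative `F`-algebra with an automorphism `s` of order three, trace `T`
with values in `F`, and `e : A` with `Tr e = 1`, `Tr (e * s e) = 0`
(a self-dual normal basis generator).
-/

set_option autoImplicit false
set_option linter.unusedSectionVars false
set_option linter.unusedSimpArgs false

namespace Fermat.Agent.H65.S47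

open Matrix

section Contraction

variable {O : Type*} [CommRing O]

/-- `M` is complete and separated for the powers of `π` (elementary form). -/
structure CM (π : O) (M : Type*) [AddCommGroup M] [Module O M] : Prop where
  comp : ∀ x : ℕ → M, (∀ n, ∃ y, x (n + 1) - x n = π ^ n • y) →
    ∃ l, ∀ n, ∃ y, l - x n = π ^ n • y
  sep : ∀ x : M, (∀ n, ∃ y, x = π ^ n • y) → x = 0

variable {π : O} {M : Type*} [AddCommGroup M] [Module O M]

/-- Contraction principle. -/
theorem CM.contraction (h : CM π M) (f : M → M)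
    (hf : ∀ n x y, (∃ w, x - y = π ^ n • w) → ∃ w, f x - f y = π ^ (n + 1) • w) :
    ∃! x, f x = x := by
  obtain ⟨l, hl⟩ := h.comp (fun n => f^[n] 0) (by
    intro n
    induction n with
    | zero => exact ⟨f^[0 + 1] 0 - f^[0] 0, by simp⟩
    | succ n ih =>
      obtain ⟨w, hw⟩ := hf n _ _ ih
      refine ⟨w, ?_⟩
      rw [← hw, Function.iterate_succ_apply' f (n + 1), Function.iterate_succ_apply' f n])
  have hfl : f l = l := by
    have h1 : ∀ n, ∃ y, f l - l = π ^ n • y := by
      intro n
      cases n with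
      | zero => exact ⟨f l - l, by simp⟩
      | succ n =>
        obtain ⟨w, hw⟩ := hf n _ _ (hl n)
        obtain ⟨w', hw'⟩ := hl (n + 1)
        refine ⟨w - w', ?_⟩
        rw [smul_sub, ← hw, ← hw']
        simp only [Function.iterate_succ_apply']
        abel
    exact sub_eq_zero.mp (h.sep _ h1)
  refine ⟨l, hfl, ?_⟩
  intro y hy
  have h1 : ∀ n, ∃ w, y - l = π ^ n • w := by
    intro n
    induction n with
    | zero => exact ⟨y - l, by simp⟩
    | succ n ih =>
      obtain ⟨w, hw⟩ := hf n _ _ ih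
      exact ⟨w, by rw [← hw, hy, hfl]⟩
  exact sub_eq_zero.mp (h.sep _ h1)

/-- Completeness passes to function spaces. -/
theorem CM.pi (h : CM π M) (ι : Type*) : CM π (ι → M) := by
  refine ⟨?_, ?_⟩
  · intro x hx
    choose y hy using hx
    have h1 : ∀ i, ∃ l, ∀ n, ∃ y, l - x n i = π ^ n • y := by
      intro i
      exact h.comp (fun n => x n i) (fun n => ⟨y n i, by
        have := congrFun (hy n) i
        simpa using this⟩)
    choose l hl using h1
    choose z hz using hl
    exact ⟨l, fun n => ⟨fun i => z i n, by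
      funext i
      simpa using hz i n⟩⟩
  · intro x hx
    choose y hy using hx
    funext i
    exact h.sep (x i) (fun n => ⟨y n i, by
      have := congrFun (hy n) i
      simpa using this⟩)

theorem CM.matrix (h : CM π O) : CM π (Matrix (Fin 2) (Fin 2) O) :=
  (h.pi (Fin 2)).pi (Fin 2)

theorem CM.matrix3 (h : CM π O) : CM π (Fin 3 → Matrix (Fin 2) (Fin 2) O) :=
  (h.matrix).pi (Fin 3)

end Contraction

section Data

variable (O F A : Type*) [CommRing O] [IsDomain O] [Field F] [Algebra O F] [IsFractionRing O F]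
  [CommRing A] [Algebra F A] [Algebra O A] [IsScalarTower O F A]

/-- The local data: self-dual normal basis generator `e` of the cyclic cubic algebra
`A / F`, uniformiser `π`, structure constants with denominator `π ^ c`. -/
structure NB where
  s : A ≃ₐ[F] A
  s3 : ∀ x, s (s (s x)) = x
  T : A →ₗ[F] F
  hT : ∀ x, algebraMap F A (T x) = x + s x + s (s x)
  e : A
  he1 : e + s e + s (s e) = 1
  he2 : e * s e + s e * s (s e) + s (s e) * e = 0
  π : O
  c : ℕ
  C : Fin 3 → Fin 3 → Fin 3 → O
  hC : ∀ i j l, algebraMap O F (C i j l) =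
    algebraMap O F π ^ c * T (![e, s e, s (s e)] i * ![e, s e, s (s e)] j * ![e, s e, s (s e)] l)

end Data

namespace NB

variable {O F A : Type*} [CommRing O] [IsDomain O] [Field F] [Algebra O F] [IsFractionRing O F]
  [CommRing A] [Algebra F A] [Algebra O A] [IsScalarTower O F A] (D : NB O F A)

/-- The self-dual normal basis. -/
def b : Fin 3 → A := ![D.e, D.s D.e, D.s (D.s D.e)]

@[simp] theorem b_zero : D.b 0 = D.e := rfl
@[simp] theorem b_one : D.b 1 = D.s D.e := rfl
@[simp] theorem b_two : D.b 2 = D.s (D.s D.e) := rfl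

theorem s_b_zero : D.s (D.b 0) = D.b 1 := rfl
theorem s_b_one : D.s (D.b 1) = D.b 2 := rfl
theorem s_b_two : D.s (D.b 2) = D.b 0 := by simp [D.s3]

theorem he0 : D.e * D.e + D.s D.e * D.s D.e + D.s (D.s D.e) * D.s (D.s D.e) = 1 := by
  have h1 := D.he1
  have h2 := D.he2
  have h3 : (D.e + D.s D.e + D.s (D.s D.e)) * (D.e + D.s D.e + D.s (D.s D.e)) = 1 := by
    rw [h1, one_mul]
  linear_combination h3 - 2 * h2

/-- Expansion in the self-dual normal basis. -/
theorem expand (z : A) : z = algebraMap F A (D.T (z * D.b 0)) * D.b 0 +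
    algebraMap F A (D.T (z * D.b 1)) * D.b 1 + algebraMap F A (D.T (z * D.b 2)) * D.b 2 := by
  rw [D.hT, D.hT, D.hT]
  simp only [b_zero, b_one, b_two, map_mul, D.s3]
  have h0 := D.he0
  have h2 := D.he2
  linear_combination (-z) * h0 - (D.s z + D.s (D.s z)) * h2

theorem mul_b (i j : Fin 3) : algebraMap O A (D.π ^ D.c) * (D.b i * D.b j) =
    ∑ l, algebraMap O A (D.C i j l) * D.b l := by
  have h : ∀ l, algebraMap O A (D.C i j l) =
      algebraMap O A (D.π ^ D.c) * algebraMap F A (D.T (D.b i * D.b j * D.b l)) := by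
    intro l
    rw [IsScalarTower.algebraMap_apply O F A, IsScalarTower.algebraMap_apply O F A (D.π ^ D.c),
      D.hC i j l, map_mul]
    simp only [map_pow]
    rfl
  rw [Fin.sum_univ_three, h, h, h]
  conv_lhs => rw [D.expand (D.b i * D.b j)]
  ring

/-- The trace pairing on the basis. -/
theorem T_b (i j : Fin 3) (hinj : Function.Injective (algebraMap F A)) :
    D.T (D.b i * D.b j) = if i = j then 1 else 0 := by
  apply hinj
  rw [D.hT]
  have h0 := D.he0
  have h2 := D.he2
  fin_cases i <;> fin_cases j <;> simp [D.s3, b] <;> first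
    | linear_combination h0
    | linear_combination h2

theorem T_b1 (i : Fin 3) (hinj : Function.Injective (algebraMap F A)) :
    D.T (D.b i) = 1 := by
  apply hinj
  rw [D.hT]
  have h1 := D.he1
  fin_cases i <;> simp [D.s3, b] <;> linear_combination h1

/-- Evaluation of coordinates. -/
def ev (X : Fin 3 → Matrix (Fin 2) (Fin 2) O) : Matrix (Fin 2) (Fin 2) A :=
  ∑ i, D.b i • (X i).map (algebraMap O A)

theorem ev_apply (X : Fin 3 → Matrix (Fin 2) (Fin 2) O) (p q : Fin 2) :
    D.ev X p q = ∑ i, D.b i * algebraMap O A (X i p q) := by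
  simp [ev, Matrix.sum_apply, Matrix.smul_apply]

theorem ev_add (X Y : Fin 3 → Matrix (Fin 2) (Fin 2) O) : D.ev (X + Y) = D.ev X + D.ev Y := by
  ext p q
  simp only [ev_apply, Matrix.add_apply, Pi.add_apply, map_add, mul_add, Finset.sum_add_distrib]

theorem ev_sub (X Y : Fin 3 → Matrix (Fin 2) (Fin 2) O) : D.ev (X - Y) = D.ev X - D.ev Y := by
  ext p q
  simp only [ev_apply, Matrix.sub_apply, Pi.sub_apply, map_sub, mul_sub, Finset.sum_sub_distrib]

theorem ev_neg (X : Fin 3 → Matrix (Fin 2) (Fin 2) O) : D.ev (-X) = -D.ev X := by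
  ext p q
  simp only [ev_apply, Matrix.neg_apply, Pi.neg_apply, map_neg, mul_neg, Finset.sum_neg_distrib]

theorem ev_zero : D.ev 0 = 0 := by
  ext p q
  simp [ev_apply]

theorem ev_smul (r : O) (X : Fin 3 → Matrix (Fin 2) (Fin 2) O) :
    D.ev (r • X) = algebraMap O A r • D.ev X := by
  ext p q
  simp only [ev_apply, Matrix.smul_apply, Pi.smul_apply, smul_eq_mul, map_mul, Finset.mul_sum]
  refine Finset.sum_congr rfl fun i _ => ?_
  ring

theorem ev_injective (hinj : Function.Injective (algebraMap F A)) : Function.Injective D.ev := by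
  intro X Y h
  have key : ∀ (Z : Fin 3 → Matrix (Fin 2) (Fin 2) O) (j : Fin 3) (p q : Fin 2),
      D.T (D.ev Z p q * D.b j) = algebraMap O F (Z j p q) := by
    intro Z j p q
    rw [ev_apply, Finset.sum_mul, map_sum]
    have h1 : ∀ i, D.T (D.b i * algebraMap O A (Z i p q) * D.b j) =
        algebraMap O F (Z i p q) * (if i = j then 1 else 0) := by
      intro i
      rw [← D.T_b i j hinj, IsScalarTower.algebraMap_apply O F A,
        show D.b i * algebraMap F A (algebraMap O F (Z i p q)) * D.b j =
          algebraMap O F (Z i p q) • (D.b i * D.b j) by rw [Algebra.smul_def]; ring,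
        map_smul, smul_eq_mul]
    simp [h1]
  funext j
  ext p q
  apply IsFractionRing.injective O F
  rw [← key X j p q, ← key Y j p q, h]

/-- Product in coordinates (with denominator `π ^ c`). -/
def mulZ (X Y : Fin 3 → Matrix (Fin 2) (Fin 2) O) : Fin 3 → Matrix (Fin 2) (Fin 2) O :=
  fun l => ∑ i, ∑ j, D.C i j l • (X i * Y j)

theorem map_mul_matrix (M N : Matrix (Fin 2) (Fin 2) O) :
    (M * N).map (algebraMap O A) = M.map (algebraMap O A) * N.map (algebraMap O A) :=
  Matrix.map_mul

theorem ev_mul (X Y : Fin 3 → Matrix (Fin 2) (Fin 2) O) :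
    algebraMap O A (D.π ^ D.c) • (D.ev X * D.ev Y) = D.ev (D.mulZ X Y) := by
  have h1 : D.ev X * D.ev Y =
      ∑ i, ∑ j, (D.b i * D.b j) • ((X i * Y j).map (algebraMap O A)) := by
    unfold ev
    rw [Finset.sum_mul]
    refine Finset.sum_congr rfl fun i _ => ?_
    rw [Finset.mul_sum]
    refine Finset.sum_congr rfl fun j _ => ?_
    rw [map_mul_matrix, Matrix.smul_mul, Matrix.mul_smul, smul_smul]
  rw [h1, Finset.smul_sum]
  simp only [Finset.smul_sum, smul_smul]
  simp only [D.mul_b]
  unfold ev mulZ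
  ext p q
  simp only [Fin.sum_univ_three, Matrix.add_apply, Matrix.smul_apply, Matrix.map_apply,
    smul_eq_mul, map_add, map_mul]
  ring

theorem mulZ_add_left (X X' Y : Fin 3 → Matrix (Fin 2) (Fin 2) O) :
    D.mulZ (X + X') Y = D.mulZ X Y + D.mulZ X' Y := by
  funext l
  simp only [mulZ, Pi.add_apply, Matrix.add_mul, smul_add, Finset.sum_add_distrib]

theorem mulZ_add_right (X Y Y' : Fin 3 → Matrix (Fin 2) (Fin 2) O) :
    D.mulZ X (Y + Y') = D.mulZ X Y + D.mulZ X Y' := by
  funext l
  simp only [mulZ, Pi.add_apply, Matrix.mul_add, smul_add, Finset.sum_add_distrib]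

theorem mulZ_sub_left (X X' Y : Fin 3 → Matrix (Fin 2) (Fin 2) O) :
    D.mulZ (X - X') Y = D.mulZ X Y - D.mulZ X' Y := by
  funext l
  simp only [mulZ, Pi.sub_apply, Matrix.sub_mul, smul_sub, Finset.sum_sub_distrib]

theorem mulZ_sub_right (X Y Y' : Fin 3 → Matrix (Fin 2) (Fin 2) O) :
    D.mulZ X (Y - Y') = D.mulZ X Y - D.mulZ X Y' := by
  funext l
  simp only [mulZ, Pi.sub_apply, Matrix.mul_sub, smul_sub, Finset.sum_sub_distrib]

theorem mulZ_smul_left (r : O) (X Y : Fin 3 → Matrix (Fin 2) (Fin 2) O) :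
    D.mulZ (r • X) Y = r • D.mulZ X Y := by
  funext l
  simp only [mulZ, Pi.smul_apply, Matrix.smul_mul, Finset.smul_sum, smul_comm r]

theorem mulZ_smul_right (r : O) (X Y : Fin 3 → Matrix (Fin 2) (Fin 2) O) :
    D.mulZ X (r • Y) = r • D.mulZ X Y := by
  funext l
  simp only [mulZ, Pi.smul_apply, Matrix.mul_smul, Finset.smul_sum, smul_comm r]

/-- Action of `s` in coordinates. -/
def rot (X : Fin 3 → Matrix (Fin 2) (Fin 2) O) : Fin 3 → Matrix (Fin 2) (Fin 2) O :=
  ![X 2, X 0, X 1]

theorem ev_rot (X : Fin 3 → Matrix (Fin 2) (Fin 2) O) :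
    (D.ev X).map D.s = D.ev (rot X) := by
  have hs : ∀ r : O, D.s (algebraMap O A r) = algebraMap O A r := by
    intro r
    rw [IsScalarTower.algebraMap_apply O F A, AlgEquiv.commutes]
  ext p q
  simp only [Matrix.map_apply, ev_apply, Fin.sum_univ_three, map_add, map_mul, hs, rot,
    Matrix.cons_val_zero, Matrix.cons_val_one, Matrix.cons_val, s_b_zero, s_b_one, s_b_two]
  ring

theorem rot_sub (X Y : Fin 3 → Matrix (Fin 2) (Fin 2) O) : rot (X - Y) = rot X - rot Y := by
  funext i
  fin_cases i <;> simp [rot]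

theorem rot_smul (r : O) (X : Fin 3 → Matrix (Fin 2) (Fin 2) O) : rot (r • X) = r • rot X := by
  funext i
  fin_cases i <;> simp [rot]

end NB

end Fermat.Agent.H65.S47
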