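import Fermat.Agent.H65S1

/-!
# H65S2: the group `H_E`, the normal form, the norm of the normal form (block C13 of S47)
-/

set_option autoImplicit false
set_option linter.unusedSectionVars false
set_option linter.unusedSimpArgs false

namespace Fermat.Agent.H65.S47

open Matrix

section Two

variable {R : Type*} [CommRing R]

theorem ch2 (M : Matrix (Fin 2) (Fin 2) R) : M * M = M.trace • M - M.det • 1 := by
  ext i j
  fin_cases i <;> fin_cases j <;>
    simp [Matrix.mul_apply, Fin.sum_univ_two, Matrix.trace_fin_two, Matrix.det_fin_two,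
      Matrix.one_apply] <;> ring

theorem ch3 (M : Matrix (Fin 2) (Fin 2) R) :
    M * M * M = (M.trace * M.trace - M.det) • M - (M.trace * M.det) • 1 := by
  ext i j
  fin_cases i <;> fin_cases j <;>
    simp [Matrix.mul_apply, Fin.sum_univ_two, Matrix.trace_fin_two, Matrix.det_fin_two,
      Matrix.one_apply] <;> ring

theorem det_add_smul (u z : R) (M : Matrix (Fin 2) (Fin 2) R) :
    (u • (1 : Matrix (Fin 2) (Fin 2) R) + z • M).det =
      u * u + u * z * M.trace + z * z * M.det := by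
  simp [Matrix.trace_fin_two, Matrix.det_fin_two, Matrix.one_apply]
  ring

end Two

section Unit

variable {O : Type*} [CommRing O] {π : O}

theorem CM.exists_inv (h : CM π O) (x : O) : ∃ y, (1 + π * x) * y = 1 := by
  obtain ⟨y, hy, -⟩ := h.contraction (fun y => 1 - π * x * y) (by
    rintro n y z ⟨w, hw⟩
    refine ⟨-(x * w), ?_⟩
    simp only [smul_eq_mul] at hw ⊢
    rw [pow_succ]
    linear_combination (-π * x) * hw)
  exact ⟨y, by linear_combination -hy⟩

theorem CM.isUnit (h : CM π O) (x : O) : IsUnit (1 + π * x) := by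
  obtain ⟨y, hy⟩ := h.exists_inv x
  exact IsUnit.of_mul_eq_one y hy

/-- The polynomial map `a ↦ a + π r a³` is bijective on matrices. -/
theorem CM.phi_bij (h : CM π O) (r : O) (b : Matrix (Fin 2) (Fin 2) O) :
    ∃! a : Matrix (Fin 2) (Fin 2) O, a + (π * r) • (a * a * a) = b := by
  obtain ⟨a, ha, hu⟩ := h.matrix.contraction (fun a => b - (π * r) • (a * a * a)) (by
    rintro n y z ⟨w, hw⟩
    refine ⟨-(r • (w * y * y + z * w * y + z * z * w)), ?_⟩
    have h1 : y * y * y - z * z * z = (y - z) * y * y + z * (y - z) * y + z * z * (y - z) := by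
      noncomm_ring
    rw [show b - (π * r) • (y * y * y) - (b - (π * r) • (z * z * z)) =
      -((π * r) • (y * y * y - z * z * z)) by rw [smul_sub]; abel, h1, hw]
    simp only [Matrix.smul_mul, Matrix.mul_smul, ← smul_add, smul_smul, smul_neg, neg_inj]
    congr 1
    ring)
  refine ⟨a, ?_, ?_⟩
  · have ha' : b - (π * r) • (a * a * a) = a := ha
    exact (sub_eq_iff_eq_add.mp ha').symm
  · intro y hy
    apply hu
    have hy' : y + (π * r) • (y * y * y) = b := hy
    exact sub_eq_iff_eq_add.mpr hy'.symm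

end Unit

namespace NB

variable {O F A : Type*} [CommRing O] [IsDomain O] [Field F] [Algebra O F] [IsFractionRing O F]
  [CommRing A] [Algebra F A] [Algebra O A] [IsScalarTower O F A] (D : NB O F A)

/-- Elements of `H_E`. -/
def hE (k : ℕ) (X : Fin 3 → Matrix (Fin 2) (Fin 2) O) : Matrix (Fin 2) (Fin 2) A :=
  1 + algebraMap O A (D.π ^ k) • D.ev X

theorem hE_zero (k : ℕ) : D.hE k 0 = 1 := by
  simp [hE, ev_zero]

theorem hE_mul {k m : ℕ} (hk : k = D.c + (m + 1)) (X Y : Fin 3 → Matrix (Fin 2) (Fin 2) O) :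
    D.hE k X * D.hE k Y = D.hE k (X + Y + D.π ^ (m + 1) • D.mulZ X Y) := by
  unfold hE
  rw [D.ev_add, D.ev_add, D.ev_smul, ← D.ev_mul]
  rw [Matrix.add_mul, Matrix.mul_add, Matrix.mul_add, one_mul, one_mul, mul_one,
    Matrix.smul_mul, Matrix.mul_smul, smul_add, smul_add, smul_smul, smul_smul, smul_smul]
  have h1 : algebraMap O A (D.π ^ k) * algebraMap O A (D.π ^ (m + 1)) *
      algebraMap O A (D.π ^ D.c) = algebraMap O A (D.π ^ k) * algebraMap O A (D.π ^ k) := by
    rw [mul_assoc, ← map_mul, ← pow_add, hk]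
    congr 3
    omega
  rw [h1]
  abel

theorem hE_inv (hc : CM D.π O) {k m : ℕ} (hk : k = D.c + (m + 1))
    (X : Fin 3 → Matrix (Fin 2) (Fin 2) O) :
    ∃ Y, D.hE k X * D.hE k Y = 1 ∧ D.hE k Y * D.hE k X = 1 := by
  obtain ⟨Y, hY, -⟩ := hc.matrix3.contraction (fun Y => -X - D.π ^ (m + 1) • D.mulZ X Y) (by
    rintro n y z ⟨w, hw⟩
    refine ⟨-(D.π ^ m • D.mulZ X w), ?_⟩
    rw [show -X - D.π ^ (m + 1) • D.mulZ X y - (-X - D.π ^ (m + 1) • D.mulZ X z) =
      -(D.π ^ (m + 1) • (D.mulZ X y - D.mulZ X z)) by rw [smul_sub]; abel,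
      ← D.mulZ_sub_right, hw, D.mulZ_smul_right, smul_neg, smul_smul, smul_smul]
    congr 2
    ring)
  have h1 : D.hE k X * D.hE k Y = 1 := by
    have hY' : -X - D.π ^ (m + 1) • D.mulZ X Y = Y := hY
    have hY2 : X + Y + D.π ^ (m + 1) • D.mulZ X Y = 0 := by
      have h3 : -X = Y + D.π ^ (m + 1) • D.mulZ X Y := sub_eq_iff_eq_add.mp hY'
      rw [add_assoc, ← h3, add_neg_cancel]
    rw [D.hE_mul hk, hY2, D.hE_zero]
  exact ⟨Y, h1, mul_eq_one_comm.mp h1⟩

/-- coordinates `s(e) y₁ + s²(e) y₂` -/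
def yp (u : Fin 3 → Matrix (Fin 2) (Fin 2) O) : Fin 3 → Matrix (Fin 2) (Fin 2) O :=
  ![0, u 1, u 2]

/-- coordinates `e a` -/
def ap (a : Matrix (Fin 2) (Fin 2) O) : Fin 3 → Matrix (Fin 2) (Fin 2) O :=
  ![a, 0, 0]

/-- the inverse of `(a, y₁, y₂) ↦ y - s(y) + e a` -/
def iv (Z : Fin 3 → Matrix (Fin 2) (Fin 2) O) : Fin 3 → Matrix (Fin 2) (Fin 2) O :=
  ![Z 0 + Z 1 + Z 2, Z 1, Z 1 + Z 2]

theorem iv_spec (Z : Fin 3 → Matrix (Fin 2) (Fin 2) O) :
    yp (iv Z) - rot (yp (iv Z)) + ap (iv Z 0) = Z := by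
  funext i
  fin_cases i <;> simp [yp, iv, rot, ap] <;> abel

theorem iv_sub (Z W : Fin 3 → Matrix (Fin 2) (Fin 2) O) : iv (Z - W) = iv Z - iv W := by
  funext i
  fin_cases i <;> simp [iv] <;> abel

theorem iv_smul (r : O) (Z : Fin 3 → Matrix (Fin 2) (Fin 2) O) : iv (r • Z) = r • iv Z := by
  funext i
  fin_cases i <;> simp [iv, smul_add]

theorem yp_sub (Z W : Fin 3 → Matrix (Fin 2) (Fin 2) O) : yp (Z - W) = yp Z - yp W := by
  funext i
  fin_cases i <;> simp [yp]

theorem yp_smul (r : O) (Z : Fin 3 → Matrix (Fin 2) (Fin 2) O) : yp (r • Z) = r • yp Z := by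
  funext i
  fin_cases i <;> simp [yp]

theorem ap_sub (a b : Matrix (Fin 2) (Fin 2) O) : ap (a - b) = ap a - ap b := by
  funext i
  fin_cases i <;> simp [ap]

theorem ap_smul (r : O) (a : Matrix (Fin 2) (Fin 2) O) : ap (r • a) = r • ap a := by
  funext i
  fin_cases i <;> simp [ap]

/-- NORMAL FORM: every element of `H_E` is `s`-conjugate to `1 + π^k e a`. -/
theorem normal_form (hc : CM D.π O) {k m : ℕ} (hk : k = D.c + (m + 1))
    (X : Fin 3 → Matrix (Fin 2) (Fin 2) O) :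
    ∃ (Y : Fin 3 → Matrix (Fin 2) (Fin 2) O) (a : Matrix (Fin 2) (Fin 2) O),
      D.hE k X * (D.hE k Y).map D.s = D.hE k Y * D.hE k (ap a) := by
  obtain ⟨u, hu, -⟩ := hc.matrix3.contraction
    (fun u => iv (X + D.π ^ (m + 1) • (D.mulZ X (rot (yp u)) - D.mulZ (yp u) (ap (u 0))))) (by
    rintro n y z ⟨w, hw⟩
    refine ⟨D.π ^ m • iv (D.mulZ X (rot (yp w)) - (D.mulZ (yp w) (ap (y 0)) +
      D.mulZ (yp z) (ap (w 0)))), ?_⟩
    have hw0 : y 0 - z 0 = D.π ^ n • w 0 := by
      have := congrFun hw 0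
      simpa using this
    rw [← iv_sub, show X + D.π ^ (m + 1) • (D.mulZ X (rot (yp y)) - D.mulZ (yp y) (ap (y 0))) -
      (X + D.π ^ (m + 1) • (D.mulZ X (rot (yp z)) - D.mulZ (yp z) (ap (z 0)))) =
      D.π ^ (m + 1) • ((D.mulZ X (rot (yp y)) - D.mulZ X (rot (yp z))) -
        ((D.mulZ (yp y) (ap (y 0)) - D.mulZ (yp z) (ap (y 0))) +
         (D.mulZ (yp z) (ap (y 0)) - D.mulZ (yp z) (ap (z 0))))) by
        simp only [smul_sub, smul_add]; abel,
      ← D.mulZ_sub_right, ← D.mulZ_sub_right, ← D.mulZ_sub_left, ← rot_sub, ← yp_sub, ← ap_sub,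
      hw, hw0, yp_smul, rot_smul, ap_smul, D.mulZ_smul_right, D.mulZ_smul_right,
      D.mulZ_smul_left, ← smul_add, ← smul_sub, iv_smul, iv_smul, smul_smul, smul_smul]
    congr 1
    ring)
  refine ⟨yp u, u 0, ?_⟩
  have h1 : yp u - rot (yp u) + ap (u 0) =
      X + D.π ^ (m + 1) • (D.mulZ X (rot (yp u)) - D.mulZ (yp u) (ap (u 0))) := by
    have h2 := iv_spec (X + D.π ^ (m + 1) • (D.mulZ X (rot (yp u)) - D.mulZ (yp u) (ap (u 0))))
    have hu' : iv (X + D.π ^ (m + 1) • (D.mulZ X (rot (yp u)) - D.mulZ (yp u) (ap (u 0)))) = u := hu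
    rw [hu'] at h2
    exact h2
  have h3 : (D.hE k (yp u)).map D.s = D.hE k (rot (yp u)) := by
    unfold hE
    rw [← D.ev_rot]
    ext p q
    have hs : D.s (algebraMap O A (D.π ^ k)) = algebraMap O A (D.π ^ k) := by
      rw [IsScalarTower.algebraMap_apply O F A, AlgEquiv.commutes]
    simp only [Matrix.map_apply, Matrix.add_apply, Matrix.smul_apply, smul_eq_mul, map_add,
      map_mul, hs, Matrix.one_apply]
    split_ifs <;> simp
  rw [h3, D.hE_mul hk, D.hE_mul hk]
  congr 1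
  have h4 : yp u + ap (u 0) + D.π ^ (m + 1) • D.mulZ (yp u) (ap (u 0)) =
      (yp u - rot (yp u) + ap (u 0)) + rot (yp u) +
        D.π ^ (m + 1) • D.mulZ (yp u) (ap (u 0)) := by abel
  rw [h4, h1, smul_sub]
  abel

theorem hE_map (k : ℕ) (X : Fin 3 → Matrix (Fin 2) (Fin 2) O) :
    (D.hE k X).map D.s = D.hE k (rot X) := by
  unfold hE
  rw [← D.ev_rot]
  ext p q
  have hs : D.s (algebraMap O A (D.π ^ k)) = algebraMap O A (D.π ^ k) := by
    rw [IsScalarTower.algebraMap_apply O F A, AlgEquiv.commutes]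
  simp only [Matrix.map_apply, Matrix.add_apply, Matrix.smul_apply, smul_eq_mul, map_add,
    map_mul, hs, Matrix.one_apply]
  split_ifs <;> simp

theorem ev_three (a0 a1 a2 : Matrix (Fin 2) (Fin 2) O) :
    D.ev ![a0, a1, a2] = D.e • a0.map (algebraMap O A) + D.s D.e • a1.map (algebraMap O A) +
      D.s (D.s D.e) • a2.map (algebraMap O A) := by
  unfold ev
  rw [Fin.sum_univ_three]
  rfl

theorem zero_map' : (0 : Matrix (Fin 2) (Fin 2) O).map (algebraMap O A) = 0 := by
  ext p q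
  simp

theorem ev_ap (a : Matrix (Fin 2) (Fin 2) O) : D.ev (ap a) = D.e • a.map (algebraMap O A) := by
  unfold ap
  rw [D.ev_three, zero_map', smul_zero, smul_zero, add_zero, add_zero]

theorem ev_rot_ap (a : Matrix (Fin 2) (Fin 2) O) :
    D.ev (rot (ap a)) = D.s D.e • a.map (algebraMap O A) := by
  have h : rot (ap a) = ![0, a, 0] := rfl
  rw [h, D.ev_three, zero_map', smul_zero, smul_zero, add_zero, zero_add]

theorem ev_rot_rot_ap (a : Matrix (Fin 2) (Fin 2) O) :
    D.ev (rot (rot (ap a))) = D.s (D.s D.e) • a.map (algebraMap O A) := by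
  have h : rot (rot (ap a)) = ![0, 0, a] := rfl
  rw [h, D.ev_three, zero_map', smul_zero, smul_zero, add_zero, zero_add]

/-- The norm of the normal form. -/
theorem norm_normal {k : ℕ} {r : O}
    (hr : algebraMap O A r = algebraMap O A (D.π ^ k) * (D.e * D.s D.e * D.s (D.s D.e)))
    (a : Matrix (Fin 2) (Fin 2) O) :
    D.hE k (ap a) * (D.hE k (ap a)).map D.s * ((D.hE k (ap a)).map D.s).map D.s =
      (1 + D.π ^ k • (a + (D.π ^ k * r) • (a * a * a))).map (algebraMap O A) := by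
  rw [D.hE_map, D.hE_map]
  unfold hE
  rw [D.ev_ap, D.ev_rot_ap, D.ev_rot_rot_ap]
  set M := a.map (algebraMap O A) with hM
  have h1 : (1 + D.π ^ k • (a + (D.π ^ k * r) • (a * a * a))).map (algebraMap O A) =
      1 + algebraMap O A (D.π ^ k) • (M + (algebraMap O A (D.π ^ k * r)) • (M * M * M)) := by
    have h2 : (a * a * a).map (algebraMap O A) = M * M * M := by
      rw [map_mul_matrix, map_mul_matrix]
    rw [← h2]
    ext p q
    simp only [Matrix.map_apply, Matrix.add_apply, Matrix.smul_apply, smul_eq_mul, map_add,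
      map_mul, Matrix.one_apply, hM]
    split_ifs <;> simp
  rw [h1, map_mul, hr]
  have h3 := D.he1
  have h4 := D.he2
  generalize algebraMap O A (D.π ^ k) = q
  have h5 : (1 + q • D.e • M) * (1 + q • D.s D.e • M) * (1 + q • D.s (D.s D.e) • M) =
      1 + (q * (D.e + D.s D.e + D.s (D.s D.e))) • M +
        (q * q * (D.e * D.s D.e + D.s D.e * D.s (D.s D.e) + D.s (D.s D.e) * D.e)) • (M * M) +
        (q * q * q * (D.e * D.s D.e * D.s (D.s D.e))) • (M * M * M) := by
    simp only [Matrix.add_mul, Matrix.mul_add, one_mul, mul_one, Matrix.smul_mul,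
      Matrix.mul_smul, smul_smul, smul_add, add_smul, mul_add]
    have e1 : D.s D.e * D.e = D.e * D.s D.e := mul_comm _ _
    module
  rw [h5, h3, h4]
  simp only [smul_add, smul_smul, mul_one, mul_zero, zero_smul, add_zero]
  rw [add_assoc]
  congr 3
  ring

end NB

end Fermat.Agent.H65.S47
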