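import Fermat.Agent.H65S2

/-!
# H65S3: scalars, the canonical bijection (block C13 of S47)
-/

set_option autoImplicit false
set_option linter.unusedSectionVars false
set_option linter.unusedSimpArgs false

namespace Fermat.Agent.H65.S47

open Matrix

namespace NB

variable {O F A : Type*} [CommRing O] [IsDomain O] [Field F] [Algebra O F] [IsFractionRing O F]
  [CommRing A] [Nontrivial A] [Algebra F A] [Algebra O A] [IsScalarTower O F A] (D : NB O F A)

theorem inj_FA : Function.Injective (algebraMap F A) := (algebraMap F A).injective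

theorem inj_OA (F : Type*) [Field F] [Algebra O F] [IsFractionRing O F] [Algebra F A]
    [IsScalarTower O F A] : Function.Injective (algebraMap O A) := by
  rw [IsScalarTower.algebraMap_eq O F A]
  exact (inj_FA (F := F) (A := A)).comp (IsFractionRing.injective O F)

theorem fixed (x : A) (hx : D.s x = x) : algebraMap F A (D.T (D.e * x)) = x := by
  rw [D.hT, map_mul, map_mul, hx, hx]
  have h := D.he1
  linear_combination x * h

theorem s_algebraMap_O (r : O) : D.s (algebraMap O A r) = algebraMap O A r := by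
  rw [IsScalarTower.algebraMap_apply O F A, AlgEquiv.commutes]

theorem s_algebraMap_F (r : F) : D.s (algebraMap F A r) = algebraMap F A r := by
  rw [AlgEquiv.commutes]

/-- The polynomial `φ`. -/
def phi (k : ℕ) (r : O) (a : Matrix (Fin 2) (Fin 2) O) : Matrix (Fin 2) (Fin 2) O :=
  a + (D.π ^ k * r) • (a * a * a)

theorem phi_eq (k : ℕ) (r : O) (a : Matrix (Fin 2) (Fin 2) O) :
    D.phi k r a = (1 + D.π ^ k * r * (a.trace * a.trace - a.det)) • a -
      (D.π ^ k * r * (a.trace * a.det)) • 1 := by
  unfold phi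
  rw [ch3]
  module

theorem phi_bij (hc : CM D.π O) {k m : ℕ} (hk : k = D.c + (m + 1)) (r : O)
    (b : Matrix (Fin 2) (Fin 2) O) : ∃! a, D.phi k r a = b := by
  have h := hc.phi_bij (D.π ^ (D.c + m) * r) b
  have h1 : D.π * (D.π ^ (D.c + m) * r) = D.π ^ k * r := by
    rw [hk]
    ring
  rw [h1] at h
  exact h

theorem phi_inj (hc : CM D.π O) {k m : ℕ} (hk : k = D.c + (m + 1)) (r : O)
    {a b : Matrix (Fin 2) (Fin 2) O} (h : D.phi k r a = D.phi k r b) : a = b := by
  obtain ⟨x, -, hx⟩ := D.phi_bij hc hk r (D.phi k r b)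
  rw [hx a h, hx b rfl]

theorem mu_unit (hc : CM D.π O) {k m : ℕ} (hk : k = D.c + (m + 1)) (r x : O) :
    ∃ v, (1 + D.π ^ k * r * x) * v = 1 := by
  obtain ⟨v, hv⟩ := hc.exists_inv (D.π ^ (D.c + m) * r * x)
  refine ⟨v, ?_⟩
  rw [hk]
  linear_combination hv

/-- SCALARS ARE HARMLESS. -/
theorem scalar_int [IsIntegrallyClosed O] (hc : CM D.π O) (hπ : D.π ≠ 0) {k m : ℕ}
    (hk : k = D.c + (m + 1)) (g : (Matrix (Fin 2) (Fin 2) A)ˣ)
    (a' b' : Matrix (Fin 2) (Fin 2) O) (ζ : F)
    (h : (1 + D.π ^ k • a').map (algebraMap O A) * (g : Matrix (Fin 2) (Fin 2) A) =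
      (g : Matrix (Fin 2) (Fin 2) A) * (algebraMap F A ζ • (1 + D.π ^ k • b').map (algebraMap O A))) :
    ∃ u : O, ζ = 1 + algebraMap O F (D.π ^ k * u) ∧
      a'.map (algebraMap O A) * (g : Matrix (Fin 2) (Fin 2) A) =
      (g : Matrix (Fin 2) (Fin 2) A) * (u • 1 + (1 + D.π ^ k * u) • b').map (algebraMap O A) := by
  have hπF : algebraMap O F (D.π ^ k) ≠ 0 := by
    rw [Ne, IsFractionRing.to_map_eq_zero_iff]
    exact pow_ne_zero k hπ
  set p : A := algebraMap O A (D.π ^ k) with hp
  obtain ⟨u, hu⟩ : ∃ u : F, ζ = 1 + algebraMap O F (D.π ^ k) * u :=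
    ⟨(ζ - 1) / algebraMap O F (D.π ^ k), by field_simp; ring⟩
  have hpinv : algebraMap F A (algebraMap O F (D.π ^ k))⁻¹ * p = 1 := by
    rw [hp, IsScalarTower.algebraMap_apply O F A, ← map_mul, inv_mul_cancel₀ hπF, map_one]
  have hmap : ∀ (x : Matrix (Fin 2) (Fin 2) O), (1 + D.π ^ k • x).map (algebraMap O A) =
      1 + p • x.map (algebraMap O A) := by
    intro x
    ext i j
    simp only [Matrix.map_apply, Matrix.add_apply, Matrix.smul_apply, smul_eq_mul, map_add,
      map_mul, Matrix.one_apply, hp]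
    split_ifs <;> simp
  set G : Matrix (Fin 2) (Fin 2) A := (g : Matrix (Fin 2) (Fin 2) A) with hG
  set a1 := a'.map (algebraMap O A) with ha1
  set b1 := b'.map (algebraMap O A) with hb1
  have hζA : algebraMap F A ζ = 1 + p * algebraMap F A u := by
    rw [hu, map_add, map_mul, map_one, ← IsScalarTower.algebraMap_apply O F A]
  -- a' g = g (u + ζ b')
  have h1 : a1 * G = G * (algebraMap F A u • 1 + algebraMap F A ζ • b1) := by
    have h2 : p • (a1 * G) = p • (G * (algebraMap F A u • 1 + algebraMap F A ζ • b1)) := by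
      rw [hmap, hmap] at h
      rw [Matrix.add_mul, one_mul, Matrix.smul_mul, smul_add, Matrix.mul_add, Matrix.mul_smul,
        Matrix.mul_smul, mul_one, Matrix.mul_smul] at h
      rw [Matrix.mul_add, Matrix.mul_smul, Matrix.mul_smul, mul_one, smul_add]
      have h3 : p • (a1 * G) = algebraMap F A ζ • G + algebraMap F A ζ • p • (G * b1) - G := by
        rw [← h]; abel
      rw [h3, hζA]
      module
    have h4 := congrArg (fun M => algebraMap F A (algebraMap O F (D.π ^ k))⁻¹ • M) h2
    simpa only [smul_smul, hpinv, one_smul] using h4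
  have hdet : algebraMap O F a'.det = u * u + u * ζ * algebraMap O F b'.trace +
      ζ * ζ * algebraMap O F b'.det := by
    apply inj_FA (F := F) (A := A)
    have h2 := congrArg Matrix.det h1
    rw [Matrix.det_mul, Matrix.det_mul, mul_comm] at h2
    have hgu : IsUnit G.det := by
      rw [← Matrix.isUnit_iff_isUnit_det]
      exact g.isUnit
    have h3 := hgu.mul_left_cancel h2
    have e1 : a1.det = algebraMap O A a'.det := by
      rw [ha1, ← RingHom.mapMatrix_apply, ← RingHom.map_det]
    have e2 : b1.det = algebraMap O A b'.det := by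
      rw [hb1, ← RingHom.mapMatrix_apply, ← RingHom.map_det]
    have e3 : b1.trace = algebraMap O A b'.trace := by
      rw [hb1, Matrix.trace_fin_two, Matrix.trace_fin_two, Matrix.map_apply, Matrix.map_apply,
        map_add]
    rw [det_add_smul, e1, e2, e3] at h3
    simp only [map_add, map_mul, ← IsScalarTower.algebraMap_apply O F A]
    exact h3
  -- u is integral
  obtain ⟨v, hv⟩ : ∃ v : O, (1 + D.π ^ k * (b'.trace + D.π ^ k * b'.det)) * v = 1 := by
    obtain ⟨v, hv⟩ := D.mu_unit hc hk 1 (b'.trace + D.π ^ k * b'.det)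
    exact ⟨v, by linear_combination hv⟩
  have hu2 : u * u + algebraMap O F (v * (b'.trace + 2 * D.π ^ k * b'.det)) * u +
      algebraMap O F (v * (b'.det - a'.det)) = 0 := by
    have hvF : (1 + algebraMap O F (D.π ^ k) * (algebraMap O F b'.trace +
        algebraMap O F (D.π ^ k) * algebraMap O F b'.det)) * algebraMap O F v = 1 := by
      have h7 := congrArg (algebraMap O F) hv
      simpa only [map_add, map_mul, map_one] using h7
    rw [hu] at hdet
    simp only [map_add, map_sub, map_mul, map_ofNat]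
    linear_combination (-algebraMap O F v) * hdet - (u * u) * hvF
  have hint : IsIntegral O u := by
    refine ⟨Polynomial.X ^ 2 + Polynomial.C (v * (b'.trace + 2 * D.π ^ k * b'.det)) *
      Polynomial.X + Polynomial.C (v * (b'.det - a'.det)), ?_, ?_⟩
    · monicity!
    · simp only [Polynomial.eval₂_add, Polynomial.eval₂_mul, Polynomial.eval₂_pow,
        Polynomial.eval₂_X, Polynomial.eval₂_C]
      rw [← hu2]
      ring
  obtain ⟨w, hw⟩ := IsIntegrallyClosed.isIntegral_iff.mp hint
  refine ⟨w, by rw [hu, ← hw, map_mul], ?_⟩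
  rw [h1]
  congr 1
  ext i j
  simp only [Matrix.map_apply, Matrix.add_apply, Matrix.smul_apply, smul_eq_mul, map_add,
    map_mul, map_one, Matrix.one_apply, hb1, hζA, ← hw, ← IsScalarTower.algebraMap_apply O F A, hp]
  split_ifs <;> simp

/-- Transfer of conjugacy from `φ(a)` to `a`. -/
theorem transfer (hc : CM D.π O) {k m : ℕ} (hk : k = D.c + (m + 1)) (r : O)
    (g : (Matrix (Fin 2) (Fin 2) A)ˣ) (a κ : Matrix (Fin 2) (Fin 2) O)
    (h : (D.phi k r a).map (algebraMap O A) * (g : Matrix (Fin 2) (Fin 2) A) =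
      (g : Matrix (Fin 2) (Fin 2) A) * κ.map (algebraMap O A)) :
    ∃ b : Matrix (Fin 2) (Fin 2) O, a.map (algebraMap O A) * (g : Matrix (Fin 2) (Fin 2) A) =
      (g : Matrix (Fin 2) (Fin 2) A) * b.map (algebraMap O A) ∧ D.phi k r b = κ := by
  obtain ⟨v, hv⟩ := D.mu_unit hc hk r (a.trace * a.trace - a.det)
  set μ := 1 + D.π ^ k * r * (a.trace * a.trace - a.det) with hμ
  set ρ := D.π ^ k * r * (a.trace * a.det) with hρ
  have hphi : D.phi k r a = μ • a - ρ • 1 := D.phi_eq k r a
  set G : Matrix (Fin 2) (Fin 2) A := (g : Matrix (Fin 2) (Fin 2) A) with hG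
  have hmap : (μ • a - ρ • (1 : Matrix (Fin 2) (Fin 2) O)).map (algebraMap O A) =
      algebraMap O A μ • a.map (algebraMap O A) - algebraMap O A ρ • 1 := by
    ext i j
    simp only [Matrix.map_apply, Matrix.sub_apply, Matrix.smul_apply, smul_eq_mul, map_sub,
      map_mul, Matrix.one_apply]
    split_ifs <;> simp
  have h1 : a.map (algebraMap O A) * G = G * (v • (κ + ρ • 1)).map (algebraMap O A) := by
    have e1 : (v • (κ + ρ • (1 : Matrix (Fin 2) (Fin 2) O))).map (algebraMap O A) =
        algebraMap O A v • (κ.map (algebraMap O A) + algebraMap O A ρ • 1) := by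
      ext i j
      simp only [Matrix.map_apply, Matrix.add_apply, Matrix.smul_apply, smul_eq_mul, map_add,
        map_mul, Matrix.one_apply]
      split_ifs <;> simp
    rw [hphi, hmap] at h
    rw [e1, Matrix.mul_smul, Matrix.mul_add, ← h, Matrix.sub_mul, Matrix.smul_mul,
      Matrix.smul_mul, one_mul, Matrix.mul_smul, mul_one, sub_add_cancel, smul_smul, ← map_mul,
      mul_comm v μ, hv, map_one, one_smul]
  refine ⟨v • (κ + ρ • 1), h1, ?_⟩
  set b := v • (κ + ρ • (1 : Matrix (Fin 2) (Fin 2) O)) with hb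
  have hphimap : ∀ x : Matrix (Fin 2) (Fin 2) O, (D.phi k r x).map (algebraMap O A) =
      x.map (algebraMap O A) + algebraMap O A (D.π ^ k * r) •
        (x.map (algebraMap O A) * x.map (algebraMap O A) * x.map (algebraMap O A)) := by
    intro x
    rw [← map_mul_matrix, ← map_mul_matrix]
    unfold phi
    ext i j
    simp only [Matrix.map_apply, Matrix.add_apply, Matrix.smul_apply, smul_eq_mul, map_add,
      map_mul]
  have h2 : (D.phi k r a).map (algebraMap O A) * G = G * (D.phi k r b).map (algebraMap O A) := by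
    rw [hphimap, hphimap]
    set a1 := a.map (algebraMap O A)
    set b1 := b.map (algebraMap O A)
    have e2 : a1 * a1 * a1 * G = G * (b1 * b1 * b1) := by
      rw [mul_assoc, mul_assoc, h1, ← mul_assoc a1 G b1, h1, mul_assoc G b1 b1,
        ← mul_assoc a1 G (b1 * b1), h1, mul_assoc G b1 (b1 * b1), mul_assoc b1 b1 b1]
    rw [Matrix.add_mul, Matrix.smul_mul, e2, h1, Matrix.mul_add, Matrix.mul_smul]
  have h3 : (D.phi k r b).map (algebraMap O A) = κ.map (algebraMap O A) := by
    have h4 : G * (D.phi k r b).map (algebraMap O A) = G * κ.map (algebraMap O A) := by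
      rw [← h2, h]
    have h5 := congrArg (fun M => ((g⁻¹ : (Matrix (Fin 2) (Fin 2) A)ˣ) :
      Matrix (Fin 2) (Fin 2) A) * M) h4
    simpa only [← mul_assoc, hG, Units.inv_mul, one_mul] using h5
  ext i j
  have h6 := congrFun (congrFun h3 i) j
  exact inj_OA F h6

end NB

end Fermat.Agent.H65.S47
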