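import Fermat.Agent.H65S4

/-!
# H65S5: the bijection for a general norm pair `(d, γ)` (block C13 of S47)
-/

set_option autoImplicit false
set_option linter.unusedSectionVars false
set_option linter.unusedSimpArgs false

namespace Fermat.Agent.H65.S47

open Matrix

section Linear

variable {F A : Type*} [Field F] [CommRing A] [Algebra F A]

/-- `γ` is not a scalar matrix. -/
def NonScalar (γ : Matrix (Fin 2) (Fin 2) F) : Prop := ∀ c : F, γ ≠ c • 1

theorem NonScalar.cases {γ : Matrix (Fin 2) (Fin 2) F} (h : NonScalar γ) :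
    γ 0 1 ≠ 0 ∨ γ 1 0 ≠ 0 ∨ γ 0 0 - γ 1 1 ≠ 0 := by
  by_contra hc
  push Not at hc
  obtain ⟨h1, h2, h3⟩ := hc
  apply h (γ 0 0)
  ext i j
  fin_cases i <;> fin_cases j <;> simp [h1, h2]
  exact (sub_eq_zero.mp h3).symm

theorem centralizer_form {γ : Matrix (Fin 2) (Fin 2) F} (h : NonScalar γ)
    {M : Matrix (Fin 2) (Fin 2) A}
    (hM : M * γ.map (algebraMap F A) = γ.map (algebraMap F A) * M) :
    ∃ x y : A, M = x • 1 + y • γ.map (algebraMap F A) := by
  have e00 := congrFun (congrFun hM 0) 0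
  have e01 := congrFun (congrFun hM 0) 1
  have e10 := congrFun (congrFun hM 1) 0
  simp only [Matrix.mul_apply, Fin.sum_univ_two, Matrix.map_apply] at e00 e01 e10
  have key : ∀ (q : F) (v : A), q ≠ 0 → ∃ y : A, v = y * algebraMap F A q := by
    intro q v hq
    refine ⟨v * algebraMap F A q⁻¹, ?_⟩
    rw [mul_assoc, ← map_mul, inv_mul_cancel₀ hq, map_one, mul_one]
  have cancel : ∀ (q : F) (v w : A), q ≠ 0 → v * algebraMap F A q = w * algebraMap F A q →
      v = w := by
    intro q v w hq hvw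
    have h5 := congrArg (fun z => z * algebraMap F A q⁻¹) hvw
    simpa only [mul_assoc, ← map_mul, mul_inv_cancel₀ hq, map_one, mul_one] using h5
  rcases h.cases with hq | hq | hq
  · obtain ⟨y, hy⟩ := key _ (M 0 1) hq
    refine ⟨M 0 0 - y * algebraMap F A (γ 0 0), y, ?_⟩
    have h10 : M 1 0 = y * algebraMap F A (γ 1 0) := by
      apply cancel _ _ _ hq
      rw [hy] at e00
      linear_combination -e00
    have h11 : M 1 1 = M 0 0 - y * algebraMap F A (γ 0 0) + y * algebraMap F A (γ 1 1) := by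
      apply cancel _ _ _ hq
      rw [hy] at e01
      linear_combination -e01
    ext i j
    fin_cases i <;> fin_cases j <;> simp [hy, h10, h11]
  · obtain ⟨y, hy⟩ := key _ (M 1 0) hq
    refine ⟨M 0 0 - y * algebraMap F A (γ 0 0), y, ?_⟩
    have h01 : M 0 1 = y * algebraMap F A (γ 0 1) := by
      apply cancel _ _ _ hq
      rw [hy] at e00
      linear_combination e00
    have h11 : M 1 1 = M 0 0 - y * algebraMap F A (γ 0 0) + y * algebraMap F A (γ 1 1) := by
      apply cancel _ _ _ hq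
      rw [hy] at e10
      linear_combination e10
    ext i j
    fin_cases i <;> fin_cases j <;> simp [hy, h01, h11]
  · obtain ⟨y, hy⟩ := key _ (M 0 0 - M 1 1) hq
    rw [map_sub] at hy
    refine ⟨M 0 0 - y * algebraMap F A (γ 0 0), y, ?_⟩
    have h01 : M 0 1 = y * algebraMap F A (γ 0 1) := by
      apply cancel _ _ _ hq
      rw [map_sub]
      linear_combination -e01 + algebraMap F A (γ 0 1) * hy
    have h10 : M 1 0 = y * algebraMap F A (γ 1 0) := by
      apply cancel _ _ _ hq
      rw [map_sub]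
      linear_combination e10 + algebraMap F A (γ 1 0) * hy
    ext i j
    fin_cases i <;> fin_cases j <;> simp [h01, h10]
    linear_combination -hy

theorem centralizer_comm {γ : Matrix (Fin 2) (Fin 2) F} (h : NonScalar γ)
    {M N : Matrix (Fin 2) (Fin 2) A}
    (hM : M * γ.map (algebraMap F A) = γ.map (algebraMap F A) * M)
    (hN : N * γ.map (algebraMap F A) = γ.map (algebraMap F A) * N) : M * N = N * M := by
  obtain ⟨x, y, rfl⟩ := centralizer_form h hM
  rw [Matrix.add_mul, Matrix.mul_add, Matrix.smul_mul, Matrix.smul_mul, Matrix.mul_smul,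
    Matrix.mul_smul, one_mul, mul_one, hN]

/-- Companion form. -/
theorem companion_form {γ : Matrix (Fin 2) (Fin 2) F} (h : NonScalar γ) :
    ∃ P : (Matrix (Fin 2) (Fin 2) F)ˣ, γ * (P : Matrix (Fin 2) (Fin 2) F) =
      (P : Matrix (Fin 2) (Fin 2) F) * !![0, -γ.det; 1, γ.trace] := by
  have key : ∀ (v : Fin 2 → F), (v 0 * (γ 1 0 * v 0 + γ 1 1 * v 1) -
      (γ 0 0 * v 0 + γ 0 1 * v 1) * v 1) ≠ 0 →
      ∃ P : (Matrix (Fin 2) (Fin 2) F)ˣ, γ * (P : Matrix (Fin 2) (Fin 2) F) =
      (P : Matrix (Fin 2) (Fin 2) F) * !![0, -γ.det; 1, γ.trace] := by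
    intro v hv
    set Q : Matrix (Fin 2) (Fin 2) F := !![v 0, γ 0 0 * v 0 + γ 0 1 * v 1;
      v 1, γ 1 0 * v 0 + γ 1 1 * v 1] with hQ
    have hdet : IsUnit Q.det := by
      rw [isUnit_iff_ne_zero, hQ, Matrix.det_fin_two_of]
      exact hv
    have hu : IsUnit Q := (Matrix.isUnit_iff_isUnit_det Q).mpr hdet
    obtain ⟨P, hP⟩ := hu
    refine ⟨P, ?_⟩
    rw [hP, hQ]
    ext i j
    fin_cases i <;> fin_cases j <;>
      simp [Matrix.mul_apply, Fin.sum_univ_two, Matrix.trace_fin_two, Matrix.det_fin_two] <;> ring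
  rcases h.cases with hq | hq | hq
  · exact key ![0, 1] (by simpa using hq)
  · exact key ![1, 0] (by simpa using hq)
  · by_cases h1 : γ 0 1 = 0
    · by_cases h2 : γ 1 0 = 0
      · refine key ![1, 1] ?_
        simp only [Matrix.cons_val_zero, Matrix.cons_val_one, mul_one, one_mul, h1, h2]
        intro h3
        apply hq
        linear_combination -h3
      · exact key ![1, 0] (by simpa using h2)
    · exact key ![0, 1] (by simpa using h1)

theorem conj_descent [Nontrivial A] {γ γ' : Matrix (Fin 2) (Fin 2) F} (h : NonScalar γ)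
    (g : (Matrix (Fin 2) (Fin 2) A)ˣ)
    (hg : γ.map (algebraMap F A) * (g : Matrix (Fin 2) (Fin 2) A) =
      (g : Matrix (Fin 2) (Fin 2) A) * γ'.map (algebraMap F A)) :
    ∃ y : (Matrix (Fin 2) (Fin 2) F)ˣ, γ * (y : Matrix (Fin 2) (Fin 2) F) =
      (y : Matrix (Fin 2) (Fin 2) F) * γ' := by
  have hinj : Function.Injective (algebraMap F A) := (algebraMap F A).injective
  have hconj : γ'.map (algebraMap F A) = ((g⁻¹ : (Matrix (Fin 2) (Fin 2) A)ˣ) :
      Matrix (Fin 2) (Fin 2) A) * γ.map (algebraMap F A) * (g : Matrix (Fin 2) (Fin 2) A) := by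
    rw [mul_assoc, hg, ← mul_assoc, Units.inv_mul, one_mul]
  have htr : γ'.trace = γ.trace := by
    apply hinj
    have h1 : (γ'.map (algebraMap F A)).trace = (γ.map (algebraMap F A)).trace := by
      rw [hconj, Matrix.trace_mul_comm, ← mul_assoc, Units.mul_inv, one_mul]
    simpa [Matrix.trace_fin_two] using h1
  have hdet : γ'.det = γ.det := by
    apply hinj
    have h1 : (γ'.map (algebraMap F A)).det = (γ.map (algebraMap F A)).det := by
      rw [hconj, Matrix.det_mul, Matrix.det_mul, mul_comm, ← mul_assoc, ← Matrix.det_mul,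
        Units.mul_inv, Matrix.det_one, one_mul]
    have e1 : ∀ M : Matrix (Fin 2) (Fin 2) F, (M.map (algebraMap F A)).det =
        algebraMap F A M.det := by
      intro M
      rw [← RingHom.mapMatrix_apply, ← RingHom.map_det]
    rw [e1, e1] at h1
    exact h1
  have h' : NonScalar γ' := by
    intro c hc
    apply h c
    have h1 : γ.map (algebraMap F A) = (c • (1 : Matrix (Fin 2) (Fin 2) F)).map
        (algebraMap F A) := by
      have h2 : (c • (1 : Matrix (Fin 2) (Fin 2) F)).map (algebraMap F A) =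
          algebraMap F A c • (1 : Matrix (Fin 2) (Fin 2) A) := by
        ext i j
        simp only [Matrix.map_apply, Matrix.smul_apply, smul_eq_mul, map_mul, Matrix.one_apply]
        split_ifs <;> simp
      have h3 : γ.map (algebraMap F A) = (g : Matrix (Fin 2) (Fin 2) A) *
          γ'.map (algebraMap F A) * ((g⁻¹ : (Matrix (Fin 2) (Fin 2) A)ˣ) :
          Matrix (Fin 2) (Fin 2) A) := by
        rw [← hg, mul_assoc, Units.mul_inv, mul_one]
      rw [h3, hc, h2, Matrix.mul_smul, Matrix.smul_mul, mul_one, Units.mul_inv]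
    ext i j
    exact hinj (congrFun (congrFun h1 i) j)
  obtain ⟨P, hP⟩ := companion_form h
  obtain ⟨P', hP'⟩ := companion_form h'
  rw [htr, hdet] at hP'
  refine ⟨P * P'⁻¹, ?_⟩
  rw [Units.val_mul, ← mul_assoc, hP]
  have h5 : (!![0, -γ.det; 1, γ.trace] : Matrix (Fin 2) (Fin 2) F) *
      ((P'⁻¹ : (Matrix (Fin 2) (Fin 2) F)ˣ) : Matrix (Fin 2) (Fin 2) F) =
      ((P'⁻¹ : (Matrix (Fin 2) (Fin 2) F)ˣ) : Matrix (Fin 2) (Fin 2) F) * γ' := by
    have h6 := congrArg (fun M => ((P'⁻¹ : (Matrix (Fin 2) (Fin 2) F)ˣ) :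
      Matrix (Fin 2) (Fin 2) F) * M *
      ((P'⁻¹ : (Matrix (Fin 2) (Fin 2) F)ˣ) : Matrix (Fin 2) (Fin 2) F)) hP'
    simp only [← mul_assoc, Units.inv_mul, one_mul] at h6
    rw [mul_assoc, Units.mul_inv, mul_one] at h6
    exact h6.symm
  rw [mul_assoc, h5, mul_assoc]

end Linear

namespace NB

variable {O F A : Type*} [CommRing O] [IsDomain O] [Field F] [Algebra O F] [IsFractionRing O F]
  [CommRing A] [Nontrivial A] [Algebra F A] [Algebra O A] [IsScalarTower O F A] (D : NB O F A)

/-- Membership in `A^× H_E`. -/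
def InVE (k : ℕ) (g : Matrix (Fin 2) (Fin 2) A) : Prop :=
  ∃ z : A, IsUnit z ∧ ∃ X, g = z • D.hE k X

/-- The element `ζ (1 + π^k M)`. -/
def hF (k : ℕ) (M : Matrix (Fin 2) (Fin 2) O) : Matrix (Fin 2) (Fin 2) F :=
  (1 + D.π ^ k • M).map (algebraMap O F)

/-- Membership in `F^× H_F`. -/
def InVF (k : ℕ) (y : Matrix (Fin 2) (Fin 2) F) : Prop :=
  ∃ ζ : F, ζ ≠ 0 ∧ ∃ M, y = ζ • D.hF k M

/-- value of the additive character variable on `H_E` -/
def lamE (X : Fin 3 → Matrix (Fin 2) (Fin 2) O) : O := X 0 0 1 + X 1 0 1 + X 2 0 1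

theorem hF_mapA (k : ℕ) (M : Matrix (Fin 2) (Fin 2) O) :
    (D.hF k M).map (algebraMap F A) = (1 + D.π ^ k • M).map (algebraMap O A) := by
  ext i j
  simp only [hF, Matrix.map_apply]
  rw [← IsScalarTower.algebraMap_apply O F A]

theorem T_ev (X : Fin 3 → Matrix (Fin 2) (Fin 2) O) (p q : Fin 2) :
    D.T (D.ev X p q) = algebraMap O F (X 0 p q + X 1 p q + X 2 p q) := by
  rw [ev_apply, map_sum]
  have h1 : ∀ i, D.T (D.b i * algebraMap O A (X i p q)) = algebraMap O F (X i p q) := by
    intro i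
    rw [IsScalarTower.algebraMap_apply O F A,
      show D.b i * algebraMap F A (algebraMap O F (X i p q)) =
        algebraMap O F (X i p q) • D.b i by rw [Algebra.smul_def]; ring,
      map_smul, smul_eq_mul, D.T_b1 i inj_FA, mul_one]
  simp only [h1, Fin.sum_univ_three, map_add]

theorem T_ev_mul (X W : Fin 3 → Matrix (Fin 2) (Fin 2) O) (p q p' q' : Fin 2) :
    D.T (D.ev X p q * D.ev W p' q') = algebraMap O F
      (X 0 p q * W 0 p' q' + X 1 p q * W 1 p' q' + X 2 p q * W 2 p' q') := by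
  have h0 : ∀ i j, D.T (D.b i * algebraMap O A (X i p q) * (D.b j * algebraMap O A (W j p' q'))) =
      algebraMap O F (X i p q) * algebraMap O F (W j p' q') * (if i = j then 1 else 0) := by
    intro i j
    rw [IsScalarTower.algebraMap_apply O F A, IsScalarTower.algebraMap_apply O F A (W j p' q'),
      show D.b i * algebraMap F A (algebraMap O F (X i p q)) *
        (D.b j * algebraMap F A (algebraMap O F (W j p' q'))) =
        (algebraMap O F (X i p q) * algebraMap O F (W j p' q')) • (D.b i * D.b j) by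
          rw [Algebra.smul_def, map_mul]; ring,
      map_smul, smul_eq_mul, D.T_b i j inj_FA]
  rw [ev_apply, ev_apply, Finset.sum_mul_sum]
  simp only [map_sum, h0]
  simp [Fin.sum_univ_three]

/-- `lamE` is well defined modulo `π^k` on `A^× H_E`. -/
theorem lamE_wd (hπ : D.π ≠ 0) {k : ℕ} {z z' : A} (hz : IsUnit z)
    {X X' : Fin 3 → Matrix (Fin 2) (Fin 2) O} (h : z • D.hE k X = z' • D.hE k X') :
    D.π ^ k ∣ lamE X - lamE X' := by
  have h00 := congrFun (congrFun h 0) 0
  have h01 := congrFun (congrFun h 0) 1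
  simp only [hE, Matrix.smul_apply, Matrix.add_apply, smul_eq_mul, Matrix.one_apply_eq,
    Matrix.one_apply_ne (zero_ne_one : (0 : Fin 2) ≠ 1), zero_add] at h00 h01
  set p := algebraMap O A (D.π ^ k) with hp
  -- (1 + p x00) x'01 = (1 + p x'00) x01
  have h1 : z * D.ev X 0 1 = z' * D.ev X' 0 1 := by
    apply D.pk_cancel' (k := k) hπ
    rw [← hp]
    linear_combination h01
  have h2 : z * ((1 + p * D.ev X 0 0) * D.ev X' 0 1) = z * ((1 + p * D.ev X' 0 0) * D.ev X 0 1) := by
    linear_combination (D.ev X' 0 1) * h00 - (1 + p * D.ev X' 0 0) * h1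
  have h3 := hz.mul_left_cancel h2
  have h4 : D.ev X 0 1 - D.ev X' 0 1 = p * (D.ev X 0 0 * D.ev X' 0 1 - D.ev X' 0 0 * D.ev X 0 1) := by
    linear_combination -h3
  have h5 := congrArg D.T h4
  rw [map_sub, D.T_ev, D.T_ev, hp, IsScalarTower.algebraMap_apply O F A, ← Algebra.smul_def,
    map_smul, map_sub, D.T_ev_mul, D.T_ev_mul, smul_eq_mul, ← map_sub, ← map_sub, ← map_mul] at h5
  have h6 := IsFractionRing.injective O F h5
  exact ⟨_, h6⟩

/-- `M 0 1` is well defined modulo `π^k` on `F^× H_F`. -/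
theorem lamF_wd (hπ : D.π ≠ 0) {k : ℕ} {z z' : F} (hz : z ≠ 0)
    {M M' : Matrix (Fin 2) (Fin 2) O} (h : z • D.hF k M = z' • D.hF k M') :
    D.π ^ k ∣ M 0 1 - M' 0 1 := by
  have h00 := congrFun (congrFun h 0) 0
  have h01 := congrFun (congrFun h 0) 1
  simp only [hF, Matrix.smul_apply, Matrix.map_apply, Matrix.add_apply, smul_eq_mul,
    Matrix.one_apply_eq, map_add, map_mul, map_one,
    Matrix.one_apply_ne (zero_ne_one : (0 : Fin 2) ≠ 1), zero_add] at h00 h01
  have hpF : algebraMap O F (D.π ^ k) ≠ 0 := by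
    rw [Ne, IsFractionRing.to_map_eq_zero_iff]
    exact pow_ne_zero k hπ
  set p := algebraMap O F (D.π ^ k) with hp
  have h1 : z * algebraMap O F (M 0 1) = z' * algebraMap O F (M' 0 1) := by
    apply mul_left_cancel₀ hpF
    linear_combination h01
  have h2 : z * ((1 + p * algebraMap O F (M 0 0)) * algebraMap O F (M' 0 1)) =
      z * ((1 + p * algebraMap O F (M' 0 0)) * algebraMap O F (M 0 1)) := by
    linear_combination (algebraMap O F (M' 0 1)) * h00 - (1 + p * algebraMap O F (M' 0 0)) * h1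
  have h3 := mul_left_cancel₀ hz h2
  refine ⟨M 0 0 * M' 0 1 - M' 0 0 * M 0 1, ?_⟩
  apply IsFractionRing.injective O F
  simp only [map_sub, map_mul, ← hp]
  linear_combination -h3

theorem inVE_of_inVF {k : ℕ} {y : Matrix (Fin 2) (Fin 2) F} (h : D.InVF k y) :
    D.InVE k (y.map (algebraMap F A)) := by
  obtain ⟨ζ, hζ, M, rfl⟩ := h
  refine ⟨algebraMap F A ζ, (isUnit_iff_ne_zero.mpr hζ).map (algebraMap F A), ![M, M, M], ?_⟩
  have h1 : D.hE k ![M, M, M] = (1 + D.π ^ k • M).map (algebraMap O A) := by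
    unfold hE
    rw [D.ev_three, ← add_smul, ← add_smul, D.he1, one_smul]
    ext i j
    simp only [Matrix.map_apply, Matrix.add_apply, Matrix.smul_apply, smul_eq_mul, map_add,
      map_mul, Matrix.one_apply]
    split_ifs <;> simp
  rw [h1, ← hF_mapA]
  ext i j
  simp

theorem inVF_of_inVE {k : ℕ} {r : O} (hL : D.Lev k r) {y : Matrix (Fin 2) (Fin 2) F}
    (h : D.InVE k (y.map (algebraMap F A))) : D.InVF k y := by
  obtain ⟨m, hk⟩ := hL.hk
  obtain ⟨z, hz, X, hX⟩ := h
  set p := algebraMap O A (D.π ^ k) with hp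
  -- the scalar matrix with entry 1 + p x00
  set X0 : Fin 3 → Matrix (Fin 2) (Fin 2) O := fun i => (X i 0 0) • 1 with hX0
  have hX0m : D.hE k X0 = (1 + p * D.ev X 0 0) • (1 : Matrix (Fin 2) (Fin 2) A) := by
    unfold hE
    ext i j
    simp only [Matrix.add_apply, Matrix.smul_apply, smul_eq_mul, ev_apply, hX0,
      Matrix.one_apply, ← hp]
    split_ifs <;> simp
  obtain ⟨Y, hY1, hY2⟩ := D.hE_inv hL.hc hk X0
  have hu : IsUnit (1 + p * D.ev X 0 0) := by
    have h3 := D.hE_isUnit hL.hc hk X0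
    rw [hX0m, Matrix.isUnit_iff_isUnit_det, Matrix.det_smul, Matrix.det_one, mul_one,
      Fintype.card_fin, isUnit_pow_iff two_ne_zero] at h3
    exact h3
  have h00 : algebraMap F A (y 0 0) = z * (1 + p * D.ev X 0 0) := by
    have h1 := congrFun (congrFun hX 0) 0
    simpa [hE, ← hp] using h1
  have hy0 : y 0 0 ≠ 0 := by
    intro h0
    rw [h0, map_zero] at h00
    have h1 : IsUnit (z * (1 + p * D.ev X 0 0)) := hz.mul hu
    rw [← h00] at h1
    exact not_isUnit_zero h1
  -- (y / y00) = hE Y * hE X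
  have h2 : ((y 0 0)⁻¹ • y).map (algebraMap F A) = D.hE k Y * D.hE k X := by
    have h3 : D.hE k X0 * ((y 0 0)⁻¹ • y).map (algebraMap F A) = D.hE k X := by
      have h4 : ((y 0 0)⁻¹ • y).map (algebraMap F A) = algebraMap F A (y 0 0)⁻¹ •
          y.map (algebraMap F A) := by
        ext i j
        simp
      rw [h4, hX0m, hX, Matrix.smul_mul, one_mul, smul_smul, smul_smul]
      have h5 : (1 + p * D.ev X 0 0) * algebraMap F A (y 0 0)⁻¹ * z = 1 := by
        have h6 : algebraMap F A (y 0 0)⁻¹ * algebraMap F A (y 0 0) = 1 := by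
          rw [← map_mul, inv_mul_cancel₀ hy0, map_one]
        rw [h00] at h6
        linear_combination h6
      rw [h5, one_smul]
    rw [← h3, ← mul_assoc, hY2, one_mul]
  rw [D.hE_mul hk] at h2
  set W := Y + X + D.π ^ (m + 1) • D.mulZ Y X with hW
  -- W is s-invariant
  have h3 : D.hE k (rot W) = D.hE k W := by
    rw [← D.hE_map, ← h2]
    exact D.sm_mapF _
  have h4 : rot W = W := by
    apply D.ev_injective inj_FA
    apply D.pk_cancel (k := k) hL.hπ
    exact add_left_cancel h3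
  have h5 : W 1 = W 0 ∧ W 2 = W 0 := by
    have e1 := congrFun h4 1
    have e2 := congrFun h4 0
    simp only [rot, Matrix.cons_val_zero, Matrix.cons_val_one] at e1 e2
    exact ⟨e1.symm, e2⟩
  have h6 : D.hE k W = (1 + D.π ^ k • W 0).map (algebraMap O A) := by
    have h7 : W = ![W 0, W 0, W 0] := by
      funext i
      fin_cases i
      · rfl
      · exact h5.1
      · exact h5.2
    unfold hE
    rw [h7, D.ev_three, ← add_smul, ← add_smul, D.he1, one_smul]
    ext i j
    simp only [Matrix.map_apply, Matrix.add_apply, Matrix.smul_apply, smul_eq_mul, map_add,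
      map_mul, Matrix.one_apply, Matrix.cons_val_zero]
    split_ifs <;> simp
  refine ⟨y 0 0, hy0, W 0, ?_⟩
  rw [h6, ← D.hF_mapA] at h2
  have h8 : (y 0 0)⁻¹ • y = D.hF k (W 0) := by
    ext i j
    exact inj_FA (F := F) (A := A) (congrFun (congrFun h2 i) j)
  rw [← h8, smul_smul, mul_inv_cancel₀ hy0, one_smul]

end NB

end Fermat.Agent.H65.S47
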