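import Fermat.Agent.H65S5

/-!
# H65S6: main local theorem: `{y : y⁻¹ γ y ∈ V_F} → {g : g⁻¹ d s(g) ∈ V_E}`, `y ↦ τ y`
(block C13 of S47)
-/

set_option autoImplicit false
set_option linter.unusedSectionVars false
set_option linter.unusedSimpArgs false

namespace Fermat.Agent.H65.S47

open Matrix

namespace NB

variable {O F A : Type*} [CommRing O] [IsDomain O] [Field F] [Algebra O F] [IsFractionRing O F]
  [CommRing A] [Nontrivial A] [Algebra F A] [Algebra O A] [IsScalarTower O F A] (D : NB O F A)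

/-- `y` is a fixed point of `γ`: `γ y = y (ζ (1 + π^k M))`. -/
def FixF (k : ℕ) (γ y : Matrix (Fin 2) (Fin 2) F) (ζ : F) (M : Matrix (Fin 2) (Fin 2) O) : Prop :=
  ζ ≠ 0 ∧ γ * y = y * (ζ • D.hF k M)

/-- `g` is a fixed point of `d s`: `d s(g) = g (z (1 + π^k X))`. -/
def FixE (k : ℕ) (d g : Matrix (Fin 2) (Fin 2) A) (z : A)
    (X : Fin 3 → Matrix (Fin 2) (Fin 2) O) : Prop :=
  IsUnit z ∧ d * D.sm g = g * (z • D.hE k X)

/-- map of `F`-matrices -/
def fA (M : Matrix (Fin 2) (Fin 2) F) : Matrix (Fin 2) (Fin 2) A := M.map (algebraMap F A)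

theorem fA_mul (M N : Matrix (Fin 2) (Fin 2) F) : fA (A := A) (M * N) = fA M * fA N :=
  Matrix.map_mul

theorem fA_one : fA (A := A) (1 : Matrix (Fin 2) (Fin 2) F) = 1 := by
  ext i j
  simp only [fA, Matrix.map_apply, Matrix.one_apply]
  split_ifs <;> simp

theorem fA_smul (c : F) (M : Matrix (Fin 2) (Fin 2) F) :
    fA (A := A) (c • M) = algebraMap F A c • fA M := by
  ext i j
  simp [fA]

theorem fA_inj {M N : Matrix (Fin 2) (Fin 2) F} (h : fA (A := A) M = fA N) : M = N := by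
  ext i j
  exact (inj_FA (F := F) (A := A)) (congrFun (congrFun h i) j)

/-- units -/
def fU (A : Type*) [CommRing A] [Algebra F A] (y : (Matrix (Fin 2) (Fin 2) F)ˣ) :
    (Matrix (Fin 2) (Fin 2) A)ˣ :=
  ⟨fA (y : Matrix (Fin 2) (Fin 2) F), fA ((y⁻¹ : (Matrix (Fin 2) (Fin 2) F)ˣ) :
    Matrix (Fin 2) (Fin 2) F), by
    rw [fA, fA, ← Matrix.map_mul, Units.mul_inv]
    ext i j
    simp only [Matrix.map_apply, Matrix.one_apply]
    split_ifs <;> simp, by
    rw [fA, fA, ← Matrix.map_mul, Units.inv_mul]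
    ext i j
    simp only [Matrix.map_apply, Matrix.one_apply]
    split_ifs <;> simp⟩

theorem fU_val (y : (Matrix (Fin 2) (Fin 2) F)ˣ) :
    ((fU A y : (Matrix (Fin 2) (Fin 2) A)ˣ) : Matrix (Fin 2) (Fin 2) A) = fA (y : Matrix _ _ F) :=
  rfl

theorem fU_inv_val (y : (Matrix (Fin 2) (Fin 2) F)ˣ) :
    (((fU A y)⁻¹ : (Matrix (Fin 2) (Fin 2) A)ˣ) : Matrix (Fin 2) (Fin 2) A) =
      fA ((y⁻¹ : (Matrix (Fin 2) (Fin 2) F)ˣ) : Matrix _ _ F) :=
  rfl

theorem sm_fA (M : Matrix (Fin 2) (Fin 2) F) : D.sm (fA M) = fA (A := A) M := D.sm_mapF M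

/-- the norm of the normal form as an `F`-matrix -/
theorem norm_hF {k : ℕ} {r : O} (hL : D.Lev k r) (b : Matrix (Fin 2) (Fin 2) O) :
    D.hE k (ap b) * D.sm (D.hE k (ap b)) * D.sm (D.sm (D.hE k (ap b))) =
      fA (A := A) (D.hF k (D.phi k r b)) := by
  rw [show fA (A := A) (D.hF k (D.phi k r b)) =
    (D.hF k (D.phi k r b)).map (algebraMap F A) from rfl, D.hF_mapA]
  exact D.norm_normal hL.hr b

/-- The core: a normalised base point `g₀` of `X_d` (`d s(g₀) = z g₀ (1 + π^k e b)`) and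
`y₀` with `γ y₀ = y₀ ζ n(b)` give the bijection `y ↦ g₀ y₀⁻¹ y`. -/
theorem core [IsIntegrallyClosed O] {k : ℕ} {r : O} (hL : D.Lev k r)
    (d : (Matrix (Fin 2) (Fin 2) A)ˣ) (g0 : (Matrix (Fin 2) (Fin 2) A)ˣ) (z : A) (hz : IsUnit z)
    (b : Matrix (Fin 2) (Fin 2) O)
    (hg0 : (d : Matrix (Fin 2) (Fin 2) A) * D.sm (g0 : Matrix (Fin 2) (Fin 2) A) =
      z • ((g0 : Matrix (Fin 2) (Fin 2) A) * D.hE k (ap b)))
    (γ : Matrix (Fin 2) (Fin 2) F) (y0 : (Matrix (Fin 2) (Fin 2) F)ˣ) (ζ : F) (hζ : ζ ≠ 0)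
    (hy0 : γ * (y0 : Matrix (Fin 2) (Fin 2) F) =
      (y0 : Matrix (Fin 2) (Fin 2) F) * (ζ • D.hF k (D.phi k r b))) :
    (∀ (y : (Matrix (Fin 2) (Fin 2) F)ˣ) (ζ' : F) (M : Matrix (Fin 2) (Fin 2) O),
      D.FixF k γ y ζ' M → ∃ (z' : A) (X : Fin 3 → Matrix (Fin 2) (Fin 2) O),
        D.FixE k d ((g0 * (fU A y0)⁻¹ * fU A y : (Matrix (Fin 2) (Fin 2) A)ˣ) :
          Matrix (Fin 2) (Fin 2) A) z' X ∧ D.π ^ k ∣ lamE X - M 0 1) ∧
    (∀ (g : (Matrix (Fin 2) (Fin 2) A)ˣ) (z' : A) (X : Fin 3 → Matrix (Fin 2) (Fin 2) O),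
      D.FixE k d g z' X → ∃ (y : (Matrix (Fin 2) (Fin 2) F)ˣ) (ζ' : F)
        (M : Matrix (Fin 2) (Fin 2) O), D.FixF k γ y ζ' M ∧
        D.InVE k (((g⁻¹ * (g0 * (fU A y0)⁻¹ * fU A y) : (Matrix (Fin 2) (Fin 2) A)ˣ) :
          Matrix (Fin 2) (Fin 2) A))) := by
  obtain ⟨m, hk⟩ := hL.hk
  set Y0 : Matrix (Fin 2) (Fin 2) F := (y0 : Matrix (Fin 2) (Fin 2) F) with hY0
  set Y0i : Matrix (Fin 2) (Fin 2) F :=
    ((y0⁻¹ : (Matrix (Fin 2) (Fin 2) F)ˣ) : Matrix (Fin 2) (Fin 2) F) with hY0i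
  have hYi : Y0i * Y0 = 1 := Units.inv_mul y0
  have hYi' : Y0 * Y0i = 1 := Units.mul_inv y0
  refine ⟨?_, ?_⟩
  · rintro y ζ' M ⟨hζ', hy⟩
    set Y : Matrix (Fin 2) (Fin 2) F := (y : Matrix (Fin 2) (Fin 2) F) with hY
    -- y1 = y0⁻¹ y
    set y1 : (Matrix (Fin 2) (Fin 2) F)ˣ := y0⁻¹ * y with hy1
    have hy1v : (y1 : Matrix (Fin 2) (Fin 2) F) = Y0i * Y := by rw [hy1, Units.val_mul]
    have h1 : D.hF k (D.phi k r b) * (Y0i * Y) = (Y0i * Y) * ((ζ⁻¹ * ζ') • D.hF k M) := by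
      have h2 : ζ • (Y0i * (Y0 * D.hF k (D.phi k r b)) * (Y0i * Y)) =
          ζ • ((Y0i * Y) * ((ζ⁻¹ * ζ') • D.hF k M)) := by
        rw [Matrix.mul_smul] at hy0
        calc ζ • (Y0i * (Y0 * D.hF k (D.phi k r b)) * (Y0i * Y))
            = Y0i * (ζ • (Y0 * D.hF k (D.phi k r b))) * (Y0i * Y) := by
              rw [Matrix.mul_smul, Matrix.smul_mul]
          _ = Y0i * (γ * (Y0 * Y0i) * Y) := by rw [← hy0]; simp only [mul_assoc]
          _ = Y0i * (Y * (ζ' • D.hF k M)) := by rw [hYi', mul_one, hy]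
          _ = ζ • ((Y0i * Y) * ((ζ⁻¹ * ζ') • D.hF k M)) := by
              rw [← mul_assoc, Matrix.mul_smul, Matrix.mul_smul, smul_smul, ← mul_assoc,
                mul_inv_cancel₀ hζ, one_mul]
      have h3 := congrArg (fun N => ζ⁻¹ • N) h2
      simp only [smul_smul, inv_mul_cancel₀ hζ, one_smul] at h3
      rw [← mul_assoc Y0i Y0, hYi, one_mul] at h3
      exact h3
    have h2 : (1 + D.π ^ k • D.phi k r b).map (algebraMap O A) *
        ((fU A y1 : (Matrix (Fin 2) (Fin 2) A)ˣ) : Matrix (Fin 2) (Fin 2) A) =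
      ((fU A y1 : (Matrix (Fin 2) (Fin 2) A)ˣ) : Matrix (Fin 2) (Fin 2) A) *
        (algebraMap F A (ζ⁻¹ * ζ') • (1 + D.π ^ k • M).map (algebraMap O A)) := by
      have h3 := congrArg (fA (A := A)) h1
      rw [fA_mul, fA_mul _ ((ζ⁻¹ * ζ') • D.hF k M), fA_smul] at h3
      rw [fU_val, hy1v, ← D.hF_mapA, ← D.hF_mapA]
      exact h3
    obtain ⟨b', hb', hb2, hb3⟩ := D.canon_well hL b M (fU A y1) _ h2
    refine ⟨z, ap b', ⟨hz, ?_⟩, ?_⟩
    · have h4 : ((g0 * (fU A y0)⁻¹ * fU A y : (Matrix (Fin 2) (Fin 2) A)ˣ) :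
          Matrix (Fin 2) (Fin 2) A) = (g0 : Matrix (Fin 2) (Fin 2) A) *
          ((fU A y1 : (Matrix (Fin 2) (Fin 2) A)ˣ) : Matrix (Fin 2) (Fin 2) A) := by
        rw [Units.val_mul, Units.val_mul, mul_assoc, fU_inv_val, fU_val, fU_val, hy1v, fA_mul]
      rw [h4, D.sm_mul, ← mul_assoc, hg0, fU_val, D.sm_fA, Matrix.smul_mul, mul_assoc,
        Matrix.mul_smul, mul_assoc]
      rw [fU_val] at hb2
      rw [hb2]
    · have h5 : lamE (ap b') = b' 0 1 := by
        simp [lamE, ap]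
      rw [h5]
      exact hb3
  · rintro g z' X ⟨hz', hg⟩
    -- g1 = g0⁻¹ g
    set g1 : (Matrix (Fin 2) (Fin 2) A)ˣ := g0⁻¹ * g with hg1
    have hgg : (g : Matrix (Fin 2) (Fin 2) A) = (g0 : Matrix (Fin 2) (Fin 2) A) *
        (g1 : Matrix (Fin 2) (Fin 2) A) := by
      rw [hg1, ← Units.val_mul, mul_inv_cancel_left]
    obtain ⟨zi, hzi⟩ := hz.exists_right_inv
    have hziu : IsUnit zi := IsUnit.of_mul_eq_one z (by rw [mul_comm]; exact hzi)
    have h1 : D.hE k (ap b) * D.sm (g1 : Matrix (Fin 2) (Fin 2) A) =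
        (zi * z') • ((g1 : Matrix (Fin 2) (Fin 2) A) * D.hE k X) := by
      have h2 : (g0 : Matrix (Fin 2) (Fin 2) A) * (D.hE k (ap b) *
          D.sm (g1 : Matrix (Fin 2) (Fin 2) A)) = (g0 : Matrix (Fin 2) (Fin 2) A) *
          ((zi * z') • ((g1 : Matrix (Fin 2) (Fin 2) A) * D.hE k X)) := by
        have h3 : (g0 : Matrix (Fin 2) (Fin 2) A) * D.hE k (ap b) =
            zi • ((d : Matrix (Fin 2) (Fin 2) A) * D.sm (g0 : Matrix (Fin 2) (Fin 2) A)) := by
          rw [hg0, smul_smul, mul_comm zi z, hzi, one_smul]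
        rw [← mul_assoc, h3, Matrix.smul_mul, mul_assoc, ← D.sm_mul, ← hgg, hg, hgg,
          Matrix.mul_smul, smul_smul, Matrix.mul_smul, mul_assoc]
      exact g0.isUnit.mul_left_cancel h2
    obtain ⟨Y, x, W, b3, hx, hYx, hab⟩ := D.canon_surj hL b g1 (zi * z') (hziu.mul hz') X h1
    -- Y is invertible over F
    have hWu := D.hE_isUnit hL.hc hk W
    have hYu : IsUnit Y := by
      rw [Matrix.isUnit_iff_isUnit_det, isUnit_iff_ne_zero]
      intro h0
      have h4 : IsUnit (Y.map (algebraMap F A)) := by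
        rw [hYx]
        obtain ⟨xu, hxu⟩ := hx
        rw [← hxu, ← Units.smul_def]
        exact (g1.isUnit.mul hWu).smul xu
      rw [Matrix.isUnit_iff_isUnit_det, ← RingHom.mapMatrix_apply, ← RingHom.map_det, h0,
        map_zero] at h4
      exact not_isUnit_zero h4
    obtain ⟨y1, hy1⟩ := hYu
    have hbY : b.map (algebraMap O F) * Y = Y * b3.map (algebraMap O F) := by
      apply fA_inj (A := A)
      rw [fA_mul, fA_mul]
      have e1 : ∀ N : Matrix (Fin 2) (Fin 2) O, fA (A := A) (N.map (algebraMap O F)) =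
          N.map (algebraMap O A) := by
        intro N
        ext i j
        simp only [fA, Matrix.map_apply]
        rw [← IsScalarTower.algebraMap_apply O F A]
      rw [e1, e1]
      exact hab
    have hphi : D.hF k (D.phi k r b) * Y = Y * D.hF k (D.phi k r b3) := by
      have e1 : ∀ N : Matrix (Fin 2) (Fin 2) O, D.hF k (D.phi k r N) =
          1 + algebraMap O F (D.π ^ k) • (N.map (algebraMap O F) +
            algebraMap O F (D.π ^ k * r) • (N.map (algebraMap O F) * N.map (algebraMap O F) *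
              N.map (algebraMap O F))) := by
        intro N
        unfold hF phi
        rw [← Matrix.map_mul, ← Matrix.map_mul]
        ext i j
        simp only [Matrix.map_apply, Matrix.add_apply, Matrix.smul_apply, smul_eq_mul, map_add,
          map_mul, Matrix.one_apply]
        split_ifs <;> simp
      rw [e1, e1]
      set B := b.map (algebraMap O F)
      set B3 := b3.map (algebraMap O F)
      have e2 : B * B * B * Y = Y * (B3 * B3 * B3) := by
        rw [mul_assoc, mul_assoc, hbY, ← mul_assoc B Y B3, hbY, mul_assoc Y B3 B3,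
          ← mul_assoc B Y (B3 * B3), hbY, mul_assoc Y B3 (B3 * B3), mul_assoc B3 B3 B3]
      rw [Matrix.add_mul, Matrix.smul_mul, Matrix.add_mul, Matrix.smul_mul, e2, hbY,
        Matrix.mul_add, Matrix.mul_smul, Matrix.mul_add, Matrix.mul_smul, one_mul, mul_one]
    refine ⟨y0 * y1, ζ, D.phi k r b3, ⟨hζ, ?_⟩, ?_⟩
    · rw [Units.val_mul, hy1, ← mul_assoc, hy0, mul_assoc, Matrix.smul_mul, hphi, mul_assoc,
        Matrix.mul_smul, Matrix.mul_smul, Matrix.mul_smul]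
    · have h5 : g⁻¹ * (g0 * (fU A y0)⁻¹ * fU A (y0 * y1)) = g1⁻¹ * fU A y1 := by
        have h6 : fU A (y0 * y1) = fU A y0 * fU A y1 := by
          apply Units.ext
          rw [Units.val_mul, fU_val, fU_val, fU_val, Units.val_mul, fA_mul]
        rw [h6, hg1]
        group
      rw [h5, Units.val_mul, fU_val, hy1, show fA (A := A) Y = Y.map (algebraMap F A) from rfl,
        hYx, Matrix.mul_smul, ← mul_assoc, Units.inv_mul, one_mul]
      exact ⟨x, hx, W, rfl⟩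

/-- cohomology of the torus of `γ` (local `H¹ = 0`). -/
def TorusH1 (γ : Matrix (Fin 2) (Fin 2) F) : Prop :=
  ∀ (t : (Matrix (Fin 2) (Fin 2) A)ˣ) (ζ : F), ζ ≠ 0 →
    (t : Matrix (Fin 2) (Fin 2) A) * fA γ = fA γ * (t : Matrix (Fin 2) (Fin 2) A) →
    (t : Matrix (Fin 2) (Fin 2) A) * D.sm t * D.sm (D.sm t) = algebraMap F A ζ • 1 →
    ∃ (c : A) (τ : (Matrix (Fin 2) (Fin 2) A)ˣ), IsUnit c ∧
      (τ : Matrix (Fin 2) (Fin 2) A) * fA γ = fA γ * (τ : Matrix (Fin 2) (Fin 2) A) ∧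
      (t : Matrix (Fin 2) (Fin 2) A) * D.sm τ = c • (τ : Matrix (Fin 2) (Fin 2) A)

/-- MAIN LOCAL THEOREM (C13).  Either both fixed point sets are empty, or there is `τ` commuting
with `γ` such that `y ↦ τ y` is the bijection, with equal character values. -/
theorem main_local [IsIntegrallyClosed O] {k : ℕ} {r : O} (hL : D.Lev k r)
    (γ : (Matrix (Fin 2) (Fin 2) F)ˣ) (hγ : NonScalar (γ : Matrix (Fin 2) (Fin 2) F))
    (d : (Matrix (Fin 2) (Fin 2) A)ˣ)
    (hN : (d : Matrix (Fin 2) (Fin 2) A) * D.sm d * D.sm (D.sm d) = fA (γ : Matrix _ _ F))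
    (hT : D.TorusH1 (γ : Matrix (Fin 2) (Fin 2) F)) :
    ((∀ (y : (Matrix (Fin 2) (Fin 2) F)ˣ) (ζ : F) (M : Matrix (Fin 2) (Fin 2) O),
        ¬ D.FixF k γ y ζ M) ∧
      (∀ (g : (Matrix (Fin 2) (Fin 2) A)ˣ) (z : A) (X : Fin 3 → Matrix (Fin 2) (Fin 2) O),
        ¬ D.FixE k d g z X)) ∨
    ∃ τ : (Matrix (Fin 2) (Fin 2) A)ˣ,
      (τ : Matrix (Fin 2) (Fin 2) A) * fA (γ : Matrix _ _ F) =
        fA (γ : Matrix _ _ F) * (τ : Matrix (Fin 2) (Fin 2) A) ∧
      (∀ (y : (Matrix (Fin 2) (Fin 2) F)ˣ) (ζ : F) (M : Matrix (Fin 2) (Fin 2) O),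
        D.FixF k γ y ζ M → ∃ (z : A) (X : Fin 3 → Matrix (Fin 2) (Fin 2) O),
          D.FixE k d ((τ * fU A y : (Matrix (Fin 2) (Fin 2) A)ˣ) : Matrix (Fin 2) (Fin 2) A) z X ∧
            D.π ^ k ∣ lamE X - M 0 1) ∧
      (∀ (g : (Matrix (Fin 2) (Fin 2) A)ˣ) (z : A) (X : Fin 3 → Matrix (Fin 2) (Fin 2) O),
        D.FixE k d g z X → ∃ (y : (Matrix (Fin 2) (Fin 2) F)ˣ) (ζ : F)
          (M : Matrix (Fin 2) (Fin 2) O), D.FixF k γ y ζ M ∧
          D.InVE k (((g⁻¹ * (τ * fU A y) : (Matrix (Fin 2) (Fin 2) A)ˣ) :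
            Matrix (Fin 2) (Fin 2) A))) := by
  obtain ⟨m, hk⟩ := hL.hk
  set Γ : Matrix (Fin 2) (Fin 2) A := fA (γ : Matrix _ _ F) with hΓ
  set DD : Matrix (Fin 2) (Fin 2) A := (d : Matrix (Fin 2) (Fin 2) A) with hDD
  have hsΓ : D.sm Γ = Γ := D.sm_fA _
  -- d commutes with γ
  have hdγ : DD * Γ = Γ * DD := by
    have h1 : D.sm DD * D.sm (D.sm DD) * DD = Γ := by
      have h2 := congrArg D.sm hN
      rw [D.sm_mul, D.sm_mul, D.sm3, hsΓ] at h2
      exact h2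
    calc DD * Γ = DD * (D.sm DD * D.sm (D.sm DD) * DD) := by rw [h1]
      _ = (DD * D.sm DD * D.sm (D.sm DD)) * DD := by simp only [mul_assoc]
      _ = Γ * DD := by rw [hN]
  -- if there is a normalised base point we are done
  have fin : ∀ (g0 : (Matrix (Fin 2) (Fin 2) A)ˣ) (z : A), IsUnit z →
      ∀ b : Matrix (Fin 2) (Fin 2) O,
      DD * D.sm (g0 : Matrix (Fin 2) (Fin 2) A) =
        z • ((g0 : Matrix (Fin 2) (Fin 2) A) * D.hE k (ap b)) →
      ∃ τ : (Matrix (Fin 2) (Fin 2) A)ˣ,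
      (τ : Matrix (Fin 2) (Fin 2) A) * Γ = Γ * (τ : Matrix (Fin 2) (Fin 2) A) ∧
      (∀ (y : (Matrix (Fin 2) (Fin 2) F)ˣ) (ζ : F) (M : Matrix (Fin 2) (Fin 2) O),
        D.FixF k γ y ζ M → ∃ (z : A) (X : Fin 3 → Matrix (Fin 2) (Fin 2) O),
          D.FixE k d ((τ * fU A y : (Matrix (Fin 2) (Fin 2) A)ˣ) : Matrix (Fin 2) (Fin 2) A) z X ∧
            D.π ^ k ∣ lamE X - M 0 1) ∧
      (∀ (g : (Matrix (Fin 2) (Fin 2) A)ˣ) (z : A) (X : Fin 3 → Matrix (Fin 2) (Fin 2) O),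
        D.FixE k d g z X → ∃ (y : (Matrix (Fin 2) (Fin 2) F)ˣ) (ζ : F)
          (M : Matrix (Fin 2) (Fin 2) O), D.FixF k γ y ζ M ∧
          D.InVE k (((g⁻¹ * (τ * fU A y) : (Matrix (Fin 2) (Fin 2) A)ˣ) :
            Matrix (Fin 2) (Fin 2) A))) := by
    intro g0 z hz b hg0
    have h2 := D.twisted_norm _ _ _ z hg0
    rw [hN, D.norm_hF hL b] at h2
    have hNfix : D.s (z * D.s z * D.s (D.s z)) = z * D.s z * D.s (D.s z) := by
      rw [map_mul, map_mul, D.s3]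
      ring
    obtain ⟨ζ, hζ⟩ : ∃ ζ : F, algebraMap F A ζ = z * D.s z * D.s (D.s z) :=
      ⟨_, D.fixed _ hNfix⟩
    have hζ0 : ζ ≠ 0 := by
      intro h0
      rw [h0, map_zero] at hζ
      have h3 : IsUnit (z * D.s z * D.s (D.s z)) :=
        (hz.mul (hz.map D.s)).mul ((hz.map D.s).map D.s)
      rw [← hζ] at h3
      exact not_isUnit_zero h3
    rw [← hζ, ← Matrix.mul_smul, ← fA_smul] at h2
    obtain ⟨y0, hy0⟩ := conj_descent hγ g0 h2
    obtain ⟨c1, c2⟩ := D.core hL d g0 z hz b hg0 γ y0 ζ hζ0 hy0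
    refine ⟨g0 * (fU A y0)⁻¹, ?_, c1, c2⟩
    rw [Units.val_mul]
    have h4 : (((fU A y0)⁻¹ : (Matrix (Fin 2) (Fin 2) A)ˣ) : Matrix (Fin 2) (Fin 2) A) * Γ =
        fA (ζ • D.hF k (D.phi k r b)) *
        (((fU A y0)⁻¹ : (Matrix (Fin 2) (Fin 2) A)ˣ) : Matrix (Fin 2) (Fin 2) A) := by
      have h5 : Γ * ((fU A y0 : (Matrix (Fin 2) (Fin 2) A)ˣ) : Matrix (Fin 2) (Fin 2) A) =
          ((fU A y0 : (Matrix (Fin 2) (Fin 2) A)ˣ) : Matrix (Fin 2) (Fin 2) A) *
          fA (ζ • D.hF k (D.phi k r b)) := by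
        rw [fU_val, hΓ, ← fA_mul, hy0, fA_mul]
      have h6 := congrArg (fun N =>
        (((fU A y0)⁻¹ : (Matrix (Fin 2) (Fin 2) A)ˣ) : Matrix (Fin 2) (Fin 2) A) * N *
        (((fU A y0)⁻¹ : (Matrix (Fin 2) (Fin 2) A)ˣ) : Matrix (Fin 2) (Fin 2) A)) h5
      simp only [← mul_assoc, Units.inv_mul, one_mul] at h6
      rw [mul_assoc, Units.mul_inv, mul_one] at h6
      exact h6
    rw [mul_assoc, h4, ← mul_assoc, ← h2, mul_assoc]
  by_cases hE : ∃ (g : (Matrix (Fin 2) (Fin 2) A)ˣ) (z : A)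
      (X : Fin 3 → Matrix (Fin 2) (Fin 2) O), D.FixE k d g z X
  · right
    obtain ⟨g, z, X, hz, hg⟩ := hE
    obtain ⟨Y, b, hY⟩ := D.step1 hL.hc hk _ _ z X (by rw [hg, Matrix.mul_smul])
    obtain ⟨hu, hhu⟩ := D.hE_isUnit hL.hc hk Y
    exact fin (g * hu) z hz b (by rw [Units.val_mul, hhu]; exact hY)
  · by_cases hF : ∃ (y : (Matrix (Fin 2) (Fin 2) F)ˣ) (ζ : F) (M : Matrix (Fin 2) (Fin 2) O),
      D.FixF k γ y ζ M
    · right
      obtain ⟨y0, ζ, M, hζ, hy0⟩ := hF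
      obtain ⟨b, hb, -⟩ := D.phi_bij hL.hc hk r M
      replace hb : D.phi k r b = M := hb
      obtain ⟨eb, heb⟩ := D.hE_isUnit hL.hc hk (ap b)
      -- d2 = y0 (1 + π^k e b) y0⁻¹
      set d2 : (Matrix (Fin 2) (Fin 2) A)ˣ := fU A y0 * eb * (fU A y0)⁻¹ with hd2
      have hY0 : Γ * ((fU A y0 : (Matrix (Fin 2) (Fin 2) A)ˣ) : Matrix (Fin 2) (Fin 2) A) =
          ((fU A y0 : (Matrix (Fin 2) (Fin 2) A)ˣ) : Matrix (Fin 2) (Fin 2) A) *
          fA (ζ • D.hF k M) := by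
        rw [fU_val, hΓ, ← fA_mul, hy0, fA_mul]
      have hd2y : (d2 : Matrix (Fin 2) (Fin 2) A) *
          ((fU A y0 : (Matrix (Fin 2) (Fin 2) A)ˣ) : Matrix (Fin 2) (Fin 2) A) =
          ((fU A y0 : (Matrix (Fin 2) (Fin 2) A)ˣ) : Matrix (Fin 2) (Fin 2) A) *
          D.hE k (ap b) := by
        rw [← heb, ← Units.val_mul, ← Units.val_mul, hd2]
        congr 1
        group
      have hd2N : (d2 : Matrix (Fin 2) (Fin 2) A) * D.sm d2 * D.sm (D.sm d2) *
          ((fU A y0 : (Matrix (Fin 2) (Fin 2) A)ˣ) : Matrix (Fin 2) (Fin 2) A) =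
          ((fU A y0 : (Matrix (Fin 2) (Fin 2) A)ˣ) : Matrix (Fin 2) (Fin 2) A) *
          fA (D.hF k M) := by
        have h1 := D.twisted_norm (d2 : Matrix (Fin 2) (Fin 2) A)
          ((fU A y0 : (Matrix (Fin 2) (Fin 2) A)ˣ) : Matrix (Fin 2) (Fin 2) A)
          (D.hE k (ap b)) 1 (by rw [fU_val, D.sm_fA, ← fU_val, hd2y, one_smul])
        rw [h1, D.norm_hF hL b, map_one, map_one, one_mul, one_mul, one_smul, hb]
      have hd2γ : (d2 : Matrix (Fin 2) (Fin 2) A) * Γ = Γ * (d2 : Matrix (Fin 2) (Fin 2) A) := by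
        have hbM : D.hE k (ap b) * fA (ζ • D.hF k M) = fA (ζ • D.hF k M) * D.hE k (ap b) := by
          have e1 : fA (A := A) (ζ • D.hF k M) = algebraMap F A ζ •
              (1 + algebraMap O A (D.π ^ k) • (b.map (algebraMap O A) +
                algebraMap O A (D.π ^ k * r) • (b.map (algebraMap O A) * b.map (algebraMap O A) *
                  b.map (algebraMap O A)))) := by
            rw [fA_smul, ← hb, show fA (A := A) (D.hF k (D.phi k r b)) =
              (D.hF k (D.phi k r b)).map (algebraMap F A) from rfl, D.hF_mapA]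
            congr 1
            unfold phi
            rw [← map_mul_matrix, ← map_mul_matrix]
            ext i j
            simp only [Matrix.map_apply, Matrix.add_apply, Matrix.smul_apply, smul_eq_mul,
              map_add, map_mul, Matrix.one_apply]
            split_ifs <;> simp
          rw [e1, D.hE_ap]
          simp only [Matrix.mul_smul, Matrix.smul_mul, Matrix.add_mul, Matrix.mul_add, one_mul,
            mul_one, mul_assoc, smul_add]
          module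
        have h3 : ((d2 : Matrix (Fin 2) (Fin 2) A) * Γ) *
            ((fU A y0 : (Matrix (Fin 2) (Fin 2) A)ˣ) : Matrix (Fin 2) (Fin 2) A) =
            (Γ * (d2 : Matrix (Fin 2) (Fin 2) A)) *
            ((fU A y0 : (Matrix (Fin 2) (Fin 2) A)ˣ) : Matrix (Fin 2) (Fin 2) A) := by
          rw [mul_assoc, hY0, ← mul_assoc, hd2y, mul_assoc, hbM, mul_assoc Γ, hd2y, ← mul_assoc Γ,
            hY0, mul_assoc]
        exact (fU A y0).isUnit.mul_right_cancel h3
      -- t = d d2⁻¹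
      set t : (Matrix (Fin 2) (Fin 2) A)ˣ := d * d2⁻¹ with ht
      have hd2iγ : ((d2⁻¹ : (Matrix (Fin 2) (Fin 2) A)ˣ) : Matrix (Fin 2) (Fin 2) A) * Γ =
          Γ * ((d2⁻¹ : (Matrix (Fin 2) (Fin 2) A)ˣ) : Matrix (Fin 2) (Fin 2) A) := by
        have h6 := congrArg (fun N =>
          ((d2⁻¹ : (Matrix (Fin 2) (Fin 2) A)ˣ) : Matrix (Fin 2) (Fin 2) A) * N *
          ((d2⁻¹ : (Matrix (Fin 2) (Fin 2) A)ˣ) : Matrix (Fin 2) (Fin 2) A)) hd2γ
        simp only [← mul_assoc, Units.inv_mul, one_mul] at h6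
        rw [mul_assoc, mul_assoc, Units.mul_inv, mul_one] at h6
        exact h6.symm
      have htγ : (t : Matrix (Fin 2) (Fin 2) A) * Γ = Γ * (t : Matrix (Fin 2) (Fin 2) A) := by
        rw [ht, Units.val_mul, mul_assoc, hd2iγ, ← mul_assoc, hdγ, mul_assoc]
      have htd : (t : Matrix (Fin 2) (Fin 2) A) * (d2 : Matrix (Fin 2) (Fin 2) A) = DD := by
        rw [ht, ← Units.val_mul, inv_mul_cancel_right]
      have scomm : ∀ {N : Matrix (Fin 2) (Fin 2) A}, N * Γ = Γ * N →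
          D.sm N * Γ = Γ * D.sm N := by
        intro N hN2
        have h7 := congrArg D.sm hN2
        rw [D.sm_mul, D.sm_mul, hsΓ] at h7
        exact h7
      -- norm of t
      have hNt : (t : Matrix (Fin 2) (Fin 2) A) * D.sm t * D.sm (D.sm t) =
          algebraMap F A ζ • 1 := by
        set TT : Matrix (Fin 2) (Fin 2) A := (t : Matrix (Fin 2) (Fin 2) A) with hTT
        set D2 : Matrix (Fin 2) (Fin 2) A := (d2 : Matrix (Fin 2) (Fin 2) A) with hD2
        have ht1 := scomm htγ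
        have ht2 := scomm ht1
        have hd1' := scomm hd2γ
        have hd2' := scomm hd1'
        have k1 : D.sm TT * D2 = D2 * D.sm TT := centralizer_comm hγ ht1 hd2γ
        have k2 : D.sm (D.sm TT) * D2 = D2 * D.sm (D.sm TT) := centralizer_comm hγ ht2 hd2γ
        have k3 : D.sm (D.sm TT) * D.sm D2 = D.sm D2 * D.sm (D.sm TT) :=
          centralizer_comm hγ ht2 hd1'
        have h8 : (TT * D.sm TT * D.sm (D.sm TT)) * (D2 * D.sm D2 * D.sm (D.sm D2)) = Γ := by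
          rw [← hN, ← htd, D.sm_mul, D.sm_mul]
          calc TT * D.sm TT * D.sm (D.sm TT) * (D2 * D.sm D2 * D.sm (D.sm D2))
              = TT * D.sm TT * (D.sm (D.sm TT) * D2) * D.sm D2 * D.sm (D.sm D2) := by
                simp only [mul_assoc]
            _ = TT * (D.sm TT * D2) * (D.sm (D.sm TT) * D.sm D2) * D.sm (D.sm D2) := by
                rw [k2]; simp only [mul_assoc]
            _ = TT * D2 * (D.sm TT * D.sm D2) * (D.sm (D.sm TT) * D.sm (D.sm D2)) := by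
                rw [k1, k3]; simp only [mul_assoc]
        have h9 : (TT * D.sm TT * D.sm (D.sm TT)) * (D2 * D.sm D2 * D.sm (D.sm D2)) =
            (algebraMap F A ζ • 1) * (D2 * D.sm D2 * D.sm (D.sm D2)) := by
          rw [h8]
          have h10 : Γ * ((fU A y0 : (Matrix (Fin 2) (Fin 2) A)ˣ) : Matrix (Fin 2) (Fin 2) A) =
              (algebraMap F A ζ • 1) * (D2 * D.sm D2 * D.sm (D.sm D2)) *
              ((fU A y0 : (Matrix (Fin 2) (Fin 2) A)ˣ) : Matrix (Fin 2) (Fin 2) A) := by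
            rw [mul_assoc, hd2N, hY0, fA_smul, Matrix.smul_mul, one_mul, Matrix.mul_smul]
          exact (fU A y0).isUnit.mul_right_cancel h10
        have h11 : IsUnit (D2 * D.sm D2 * D.sm (D.sm D2)) := by
          have h12 : IsUnit (fA (A := A) (D.hF k M)) := by
            have h13 : IsUnit (algebraMap F A ζ • fA (A := A) (D.hF k M)) := by
              rw [← fA_smul]
              have h14 : fA (A := A) (ζ • D.hF k M) =
                  (((fU A y0)⁻¹ * (fU A γ) * (fU A y0) : (Matrix (Fin 2) (Fin 2) A)ˣ) :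
                    Matrix (Fin 2) (Fin 2) A) := by
                rw [Units.val_mul, Units.val_mul, mul_assoc, fU_val (A := A) γ, ← hΓ, hY0,
                  ← mul_assoc, Units.inv_mul, one_mul]
              rw [h14]
              exact Units.isUnit _
            have h15 : IsUnit (algebraMap F A ζ) :=
              (isUnit_iff_ne_zero.mpr hζ).map (algebraMap F A)
            obtain ⟨zu, hzu⟩ := h15
            rw [← hzu, ← Units.smul_def] at h13
            have h16 := h13.smul zu⁻¹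
            rwa [inv_smul_smul] at h16
          have h17 : D2 * D.sm D2 * D.sm (D.sm D2) =
              ((fU A y0 : (Matrix (Fin 2) (Fin 2) A)ˣ) : Matrix (Fin 2) (Fin 2) A) *
              fA (D.hF k M) *
              (((fU A y0)⁻¹ : (Matrix (Fin 2) (Fin 2) A)ˣ) : Matrix (Fin 2) (Fin 2) A) := by
            rw [← hd2N, mul_assoc _ ((fU A y0 : (Matrix (Fin 2) (Fin 2) A)ˣ) :
              Matrix (Fin 2) (Fin 2) A), Units.mul_inv, mul_one]
          rw [h17]
          exact ((fU A y0).isUnit.mul h12).mul (Units.isUnit _)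
        exact h11.mul_right_cancel h9
      obtain ⟨c, τ, hc, hτγ, hτ⟩ := hT t ζ hζ htγ hNt
      refine fin (τ * fU A y0) c hc b ?_
      have h18 : (τ : Matrix (Fin 2) (Fin 2) A) * (d2 : Matrix (Fin 2) (Fin 2) A) =
          (d2 : Matrix (Fin 2) (Fin 2) A) * (τ : Matrix (Fin 2) (Fin 2) A) :=
        centralizer_comm hγ hτγ hd2γ
      have h19 : (t : Matrix (Fin 2) (Fin 2) A) * (d2 : Matrix (Fin 2) (Fin 2) A) =
          (d2 : Matrix (Fin 2) (Fin 2) A) * (t : Matrix (Fin 2) (Fin 2) A) :=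
        centralizer_comm hγ htγ hd2γ
      rw [Units.val_mul, D.sm_mul, fU_val, D.sm_fA, ← htd, h19, ← fU_val]
      calc (d2 : Matrix (Fin 2) (Fin 2) A) * (t : Matrix (Fin 2) (Fin 2) A) *
            (D.sm τ * ((fU A y0 : (Matrix (Fin 2) (Fin 2) A)ˣ) : Matrix (Fin 2) (Fin 2) A))
          = (d2 : Matrix (Fin 2) (Fin 2) A) * ((t : Matrix (Fin 2) (Fin 2) A) * D.sm τ) *
            ((fU A y0 : (Matrix (Fin 2) (Fin 2) A)ˣ) : Matrix (Fin 2) (Fin 2) A) := by
              simp only [mul_assoc]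
        _ = c • ((τ : Matrix (Fin 2) (Fin 2) A) * ((d2 : Matrix (Fin 2) (Fin 2) A) *
            ((fU A y0 : (Matrix (Fin 2) (Fin 2) A)ˣ) : Matrix (Fin 2) (Fin 2) A))) := by
              rw [hτ, Matrix.mul_smul, Matrix.smul_mul, ← h18, mul_assoc]
        _ = _ := by rw [hd2y, mul_assoc]
    · left
      push Not at hE hF
      exact ⟨hF, hE⟩

end NB

end Fermat.Agent.H65.S47
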