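import Fermat.Agent.H65S6

/-!
# H65S7: Hilbert 90 and `H¹` of the torus from the self-dual normal basis (block C13 of S47)

If `A = L` is a field, Hilbert 90 for `L` and for the units of `L[γ]` follows from
`∑ eᵢ² = 1`, `∑ eᵢ eᵢ₊₁ = 0`: `∑ eᵢ P(eᵢ) = 1` for `P(x) = x + u s(x) + u s(u) s²(x)`.
-/

set_option autoImplicit false
set_option linter.unusedSectionVars false
set_option linter.unusedSimpArgs false

namespace Fermat.Agent.H65.S47

open Matrix

namespace NB

variable {O F L : Type*} [CommRing O] [IsDomain O] [Field F] [Algebra O F] [IsFractionRing O F]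
  [Field L] [Algebra F L] [Algebra O L] [IsScalarTower O F L] (D : NB O F L)

theorem h90_field (z : L) (hN : z * D.s z * D.s (D.s z) = 1) :
    ∃ c : L, IsUnit c ∧ z * D.s c = c := by
  set P : L → L := fun x => x + z * D.s x + z * D.s z * D.s (D.s x) with hP
  have hfix : ∀ x, z * D.s (P x) = P x := by
    intro x
    simp only [hP, map_add, map_mul, D.s3]
    linear_combination x * hN
  have hsum : D.e * P D.e + D.s D.e * P (D.s D.e) + D.s (D.s D.e) * P (D.s (D.s D.e)) = 1 := by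
    have h0 := D.he0
    have h2 := D.he2
    simp only [hP, D.s3]
    linear_combination h0 + (z + z * D.s z) * h2
  have hex : ∃ x, P x ≠ 0 := by
    by_contra hcon
    push Not at hcon
    rw [hcon, hcon, hcon] at hsum
    simp at hsum
  obtain ⟨x, hx⟩ := hex
  exact ⟨P x, isUnit_iff_ne_zero.mpr hx, hfix x⟩

theorem R90 {γ : Matrix (Fin 2) (Fin 2) F} (hγ : NonScalar γ)
    (hdisc : γ.trace * γ.trace - 4 * γ.det ≠ 0)
    (u : Matrix (Fin 2) (Fin 2) L) (hu : u * fA γ = fA γ * u)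
    (hN : u * D.sm u * D.sm (D.sm u) = 1) :
    ∃ ρ : (Matrix (Fin 2) (Fin 2) L)ˣ, (ρ : Matrix (Fin 2) (Fin 2) L) * fA γ =
      fA γ * (ρ : Matrix (Fin 2) (Fin 2) L) ∧ u * D.sm ρ = (ρ : Matrix (Fin 2) (Fin 2) L) := by
  set Γ : Matrix (Fin 2) (Fin 2) L := fA γ with hΓ
  have hsΓ : D.sm Γ = Γ := D.sm_fA _
  have hsu : D.sm u * Γ = Γ * D.sm u := by
    have h7 := congrArg D.sm hu
    rw [D.sm_mul, D.sm_mul, hsΓ] at h7
    exact h7
  have sm_add : ∀ M N : Matrix (Fin 2) (Fin 2) L, D.sm (M + N) = D.sm M + D.sm N := by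
    intro M N
    ext i j
    simp [sm]
  set P : L → Matrix (Fin 2) (Fin 2) L := fun x => x • 1 + D.s x • u + D.s (D.s x) • (u * D.sm u)
    with hP
  have hcomm : ∀ x, P x * Γ = Γ * P x := by
    intro x
    simp only [hP, Matrix.add_mul, Matrix.mul_add, Matrix.smul_mul, Matrix.mul_smul, one_mul,
      mul_one, hu]
    rw [mul_assoc u, hsu, ← mul_assoc u, hu, mul_assoc Γ]
  have hfix : ∀ x, u * D.sm (P x) = P x := by
    intro x
    simp only [hP, sm_add, D.sm_smul, D.sm_mul, D.sm_one, D.s3, Matrix.mul_add, Matrix.mul_smul,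
      mul_one]
    rw [← mul_assoc, hN]
    abel
  have hsum : D.e • P D.e + D.s D.e • P (D.s D.e) + D.s (D.s D.e) • P (D.s (D.s D.e)) = 1 := by
    have h0 := D.he0
    have h2 := D.he2
    simp only [hP, D.s3, smul_add, smul_smul]
    have e1 : D.e * D.e + D.s D.e * D.s D.e + D.s (D.s D.e) * D.s (D.s D.e) = 1 := h0
    have e2 : D.e * D.s D.e + D.s D.e * D.s (D.s D.e) + D.s (D.s D.e) * D.e = 0 := h2
    calc (D.e * D.e) • (1 : Matrix (Fin 2) (Fin 2) L) + (D.e * D.s D.e) • u +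
          (D.e * D.s (D.s D.e)) • (u * D.sm u) +
          ((D.s D.e * D.s D.e) • (1 : Matrix (Fin 2) (Fin 2) L) +
            (D.s D.e * D.s (D.s D.e)) • u + (D.s D.e * D.e) • (u * D.sm u)) +
          ((D.s (D.s D.e) * D.s (D.s D.e)) • (1 : Matrix (Fin 2) (Fin 2) L) +
            (D.s (D.s D.e) * D.e) • u + (D.s (D.s D.e) * D.s D.e) • (u * D.sm u))
        = (D.e * D.e + D.s D.e * D.s D.e + D.s (D.s D.e) * D.s (D.s D.e)) •
            (1 : Matrix (Fin 2) (Fin 2) L) +
          (D.e * D.s D.e + D.s D.e * D.s (D.s D.e) + D.s (D.s D.e) * D.e) • u +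
          (D.e * D.s D.e + D.s D.e * D.s (D.s D.e) + D.s (D.s D.e) * D.e) • (u * D.sm u) := by
          module
      _ = 1 := by rw [e1, e2]; simp
  set t : L := algebraMap F L γ.trace with ht
  set δ : L := algebraMap F L γ.det with hδ
  have htr : Γ.trace = t := by
    rw [hΓ, fA, Matrix.trace_fin_two, Matrix.map_apply, Matrix.map_apply, ← map_add,
      ← Matrix.trace_fin_two]
  have hdt : Γ.det = δ := by
    rw [hΓ, fA, ← RingHom.mapMatrix_apply, ← RingHom.map_det]
  have hCH : Γ * Γ = t • Γ - δ • 1 := by rw [ch2, htr, hdt]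
  by_cases hroot : ∃ l : L, l * l - t * l + δ = 0
  · -- split case
    obtain ⟨l1, hl1⟩ := hroot
    set l2 := t - l1 with hl2
    have hl12 : l1 - l2 ≠ 0 := by
      intro h0
      apply hdisc
      apply (algebraMap F L).injective
      rw [map_zero, map_sub, map_mul, map_mul, map_ofNat, ← ht, ← hδ]
      have h5 : l1 = t - l1 := by rw [← hl2]; exact sub_eq_zero.mp h0
      linear_combination (2 * t - 4 * l1 + (4 * l1 - 2 * t) + (t - 2 * l1)) * (-1) * h5 - 4 * hl1
    have hs1 : D.s l1 = l1 := by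
      have hst : D.s t = t := by rw [ht, AlgEquiv.commutes]
      have hsδ : D.s δ = δ := by rw [hδ, AlgEquiv.commutes]
      have hr : ∀ x : L, x * x - t * x + δ = 0 → x = l1 ∨ x = l2 := by
        intro x hx
        have h6 : (x - l1) * (x - l2) = 0 := by
          rw [hl2]
          linear_combination hx - hl1
        rcases mul_eq_zero.mp h6 with h | h
        · left; exact sub_eq_zero.mp h
        · right; exact sub_eq_zero.mp h
      have h7 : D.s l1 * D.s l1 - t * D.s l1 + δ = 0 := by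
        have := congrArg D.s hl1
        simpa [hst, hsδ] using this
      rcases hr _ h7 with h | h
      · exact h
      · exfalso
        have h8 : D.s l2 = l1 := by
          rw [hl2, map_sub, hst, h, hl2]
          ring
        have h9 := D.s3 l1
        rw [h, h8, h] at h9
        exact hl12 (by rw [h9]; ring)
    have hs2 : D.s l2 = l2 := by
      rw [hl2, map_sub, hs1, ht, AlgEquiv.commutes]
    set ε1 : Matrix (Fin 2) (Fin 2) L := (l1 - l2)⁻¹ • (Γ - l2 • 1) with hε1
    set ε2 : Matrix (Fin 2) (Fin 2) L := (l2 - l1)⁻¹ • (Γ - l1 • 1) with hε2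
    have hl21 : l2 - l1 ≠ 0 := by
      intro h0
      exact hl12 (by linear_combination -h0)
    have hone : ε1 + ε2 = 1 := by
      have h10 : (l2 - l1)⁻¹ = -(l1 - l2)⁻¹ := by
        rw [← neg_sub, inv_neg]
      rw [hε1, hε2, h10]
      have h11 : (l1 - l2)⁻¹ • (Γ - l2 • 1) + -(l1 - l2)⁻¹ • (Γ - l1 • 1) =
          ((l1 - l2)⁻¹ * (l1 - l2)) • (1 : Matrix (Fin 2) (Fin 2) L) := by
        module
      rw [h11, inv_mul_cancel₀ hl12, one_smul]
    have hprod : (Γ - l1 • (1 : Matrix (Fin 2) (Fin 2) L)) * (Γ - l2 • 1) = 0 := by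
      have h12 : (Γ - l1 • (1 : Matrix (Fin 2) (Fin 2) L)) * (Γ - l2 • 1) =
          Γ * Γ - (l1 + l2) • Γ + (l1 * l2) • 1 := by
        simp only [Matrix.sub_mul, Matrix.mul_sub, Matrix.smul_mul, Matrix.mul_smul, one_mul,
          mul_one]
        module
      rw [h12, hCH, hl2]
      have h13 : l1 * (t - l1) = δ := by linear_combination -hl1
      rw [h13]
      module
    have hprod' : (Γ - l2 • (1 : Matrix (Fin 2) (Fin 2) L)) * (Γ - l1 • 1) = 0 := by
      rw [← hprod]
      simp only [Matrix.sub_mul, Matrix.mul_sub, Matrix.smul_mul, Matrix.mul_smul, one_mul,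
        mul_one]
      module
    have hΓ1 : Γ * ε1 = l1 • ε1 := by
      have h14 : (Γ - l1 • (1 : Matrix (Fin 2) (Fin 2) L)) * ε1 = 0 := by
        rw [hε1, Matrix.mul_smul, hprod, smul_zero]
      rw [Matrix.sub_mul, Matrix.smul_mul, one_mul, sub_eq_zero] at h14
      exact h14
    have hΓ2 : Γ * ε2 = l2 • ε2 := by
      have h14 : (Γ - l2 • (1 : Matrix (Fin 2) (Fin 2) L)) * ε2 = 0 := by
        rw [hε2, Matrix.mul_smul, hprod', smul_zero]
      rw [Matrix.sub_mul, Matrix.smul_mul, one_mul, sub_eq_zero] at h14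
      exact h14
    have h12' : ε1 * ε2 = 0 := by
      rw [hε1, hε2, Matrix.smul_mul, Matrix.mul_smul, hprod', smul_zero, smul_zero]
    have h21' : ε2 * ε1 = 0 := by
      rw [hε1, hε2, Matrix.smul_mul, Matrix.mul_smul, hprod, smul_zero, smul_zero]
    have h11' : ε1 * ε1 = ε1 := by
      have h15 : ε1 * (ε1 + ε2) = ε1 := by rw [hone, mul_one]
      rw [Matrix.mul_add, h12', add_zero] at h15
      exact h15
    have h22' : ε2 * ε2 = ε2 := by
      have h15 : ε2 * (ε1 + ε2) = ε2 := by rw [hone, mul_one]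
      rw [Matrix.mul_add, h21', zero_add] at h15
      exact h15
    have hε1c : ε1 * Γ = Γ * ε1 := by
      rw [hε1]
      simp only [Matrix.smul_mul, Matrix.mul_smul, Matrix.sub_mul, Matrix.mul_sub, one_mul,
        mul_one]
    have hε2c : ε2 * Γ = Γ * ε2 := by
      rw [hε2]
      simp only [Matrix.smul_mul, Matrix.mul_smul, Matrix.sub_mul, Matrix.mul_sub, one_mul,
        mul_one]
    have hne1 : ε1 ≠ 0 := by
      intro h0
      have h16 : Γ = l2 • 1 := by
        have h17 := congrArg (fun M => (l1 - l2) • M) h0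
        simp only [hε1, smul_smul, mul_inv_cancel₀ hl12, one_smul, smul_zero] at h17
        exact sub_eq_zero.mp h17
      have h18 : t = l2 + l2 := by
        rw [← htr, h16, Matrix.trace_smul, Matrix.trace_one]
        simp
        ring
      apply hl12
      rw [hl2] at h18 ⊢
      linear_combination h18
    have hne2 : ε2 ≠ 0 := by
      intro h0
      have h16 : Γ = l1 • 1 := by
        have h17 := congrArg (fun M => (l2 - l1) • M) h0
        simp only [hε2, smul_smul, mul_inv_cancel₀ hl21, one_smul, smul_zero] at h17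
        exact sub_eq_zero.mp h17
      have h18 : t = l1 + l1 := by
        rw [← htr, h16, Matrix.trace_smul, Matrix.trace_one]
        simp
        ring
      apply hl12
      rw [hl2]
      linear_combination -h18
    have sm_sub : ∀ M N : Matrix (Fin 2) (Fin 2) L, D.sm (M - N) = D.sm M - D.sm N := by
      intro M N
      ext i j
      simp [sm]
    have hsε1 : D.sm ε1 = ε1 := by
      rw [hε1, D.sm_smul, sm_sub, D.sm_smul, D.sm_one, hsΓ, hs2, map_inv₀, map_sub, hs1, hs2]
    have hsε2 : D.sm ε2 = ε2 := by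
      rw [hε2, D.sm_smul, sm_sub, D.sm_smul, D.sm_one, hsΓ, hs1, map_inv₀, map_sub, hs1, hs2]
    -- components
    have hcomp : ∀ (ε : Matrix (Fin 2) (Fin 2) L) (l : L), Γ * ε = l • ε →
        ∀ M : Matrix (Fin 2) (Fin 2) L, M * Γ = Γ * M → ∃ c : L, M * ε = c • ε := by
      intro ε l hl M hM
      obtain ⟨x, y, rfl⟩ := centralizer_form hγ hM
      refine ⟨x + y * l, ?_⟩
      rw [Matrix.add_mul, Matrix.smul_mul, one_mul, Matrix.smul_mul,
        show γ.map (algebraMap F L) = Γ from rfl, hl, smul_smul, ← add_smul]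
    have hpick : ∀ (ε : Matrix (Fin 2) (Fin 2) L) (l : L), Γ * ε = l • ε → ε ≠ 0 →
        ∃ (x c : L), c ≠ 0 ∧ P x * ε = c • ε := by
      intro ε l hl hne
      by_contra hcon
      push Not at hcon
      have hz : ∀ x, P x * ε = 0 := by
        intro x
        obtain ⟨c, hc⟩ := hcomp ε l hl (P x) (hcomm x)
        by_cases hc0 : c = 0
        · rw [hc, hc0, zero_smul]
        · exact absurd hc (hcon x c hc0)
      have h19 := congrArg (fun M => M * ε) hsum
      simp only [Matrix.add_mul, Matrix.smul_mul, hz, smul_zero, add_zero, one_mul] at h19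
      exact hne h19.symm
    obtain ⟨x1, c1, hc1, hx1⟩ := hpick ε1 l1 hΓ1 hne1
    obtain ⟨x2, c2, hc2, hx2⟩ := hpick ε2 l2 hΓ2 hne2
    have hmul : (c1 • ε1 + c2 • ε2) * (c1⁻¹ • ε1 + c2⁻¹ • ε2) = 1 := by
      simp only [Matrix.add_mul, Matrix.mul_add, Matrix.smul_mul, Matrix.mul_smul, h11', h22',
        h12', h21', smul_zero, add_zero, zero_add, smul_smul]
      rw [inv_mul_cancel₀ hc1, inv_mul_cancel₀ hc2, one_smul, one_smul, hone]
    refine ⟨⟨c1 • ε1 + c2 • ε2, c1⁻¹ • ε1 + c2⁻¹ • ε2, hmul, mul_eq_one_comm.mp hmul⟩, ?_, ?_⟩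
    · simp only [Matrix.add_mul, Matrix.mul_add, Matrix.smul_mul, Matrix.mul_smul, hε1c, hε2c]
    · show u * D.sm (c1 • ε1 + c2 • ε2) = c1 • ε1 + c2 • ε2
      rw [← hx1, ← hx2, sm_add, D.sm_mul, D.sm_mul, hsε1, hsε2, Matrix.mul_add, ← mul_assoc,
        ← mul_assoc, hfix, hfix]
  · -- field case
    push Not at hroot
    have hex : ∃ x, P x ≠ 0 := by
      by_contra hcon
      push Not at hcon
      rw [hcon, hcon, hcon] at hsum
      simp at hsum
    obtain ⟨x, hx⟩ := hex
    obtain ⟨a, b, hab⟩ := centralizer_form hγ (hcomm x)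
    rw [show γ.map (algebraMap F L) = Γ from rfl] at hab
    have hdet : (P x).det ≠ 0 := by
      rw [hab, det_add_smul, htr, hdt]
      intro h0
      by_cases hb : b = 0
      · rw [hb] at h0
        simp only [mul_zero, zero_mul, add_zero, mul_self_eq_zero] at h0
        apply hx
        rw [hab, h0, hb, zero_smul, zero_smul, add_zero]
      · apply hroot (-(a / b))
        field_simp
        linear_combination h0
    have hunit : IsUnit (P x) := by
      rw [Matrix.isUnit_iff_isUnit_det, isUnit_iff_ne_zero]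
      exact hdet
    obtain ⟨ρ, hρ⟩ := hunit
    exact ⟨ρ, by rw [hρ]; exact hcomm x, by rw [hρ]; exact hfix x⟩

/-- `H¹ = 0` for the torus of a regular `γ`. -/
theorem torusH1 {γ : Matrix (Fin 2) (Fin 2) F} (hγ : NonScalar γ)
    (hdisc : γ.trace * γ.trace - 4 * γ.det ≠ 0) : D.TorusH1 (A := L) γ := by
  intro t ζ hζ htγ hN
  set Γ : Matrix (Fin 2) (Fin 2) L := fA γ with hΓ
  set TT : Matrix (Fin 2) (Fin 2) L := (t : Matrix (Fin 2) (Fin 2) L) with hTT
  have hsΓ : D.sm Γ = Γ := D.sm_fA _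
  have scomm : ∀ {N : Matrix (Fin 2) (Fin 2) L}, N * Γ = Γ * N →
      D.sm N * Γ = Γ * D.sm N := by
    intro N hN2
    have h7 := congrArg D.sm hN2
    rw [D.sm_mul, D.sm_mul, hsΓ] at h7
    exact h7
  have ht1 := scomm htγ
  have ht2 := scomm ht1
  set δ : L := TT.det with hδ
  have hδu : IsUnit δ := by
    rw [hδ, ← Matrix.isUnit_iff_isUnit_det]
    exact t.isUnit
  have hδ0 : δ ≠ 0 := hδu.ne_zero
  have hsdet : ∀ M : Matrix (Fin 2) (Fin 2) L, (D.sm M).det = D.s M.det := by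
    intro M
    have h1 : D.sm M = (D.s : L →+* L).mapMatrix M := rfl
    rw [h1, ← RingHom.map_det]
    rfl
  have hδN : δ * D.s δ * D.s (D.s δ) = algebraMap F L ζ * algebraMap F L ζ := by
    have h1 := congrArg Matrix.det hN
    rw [Matrix.det_mul, Matrix.det_mul, hsdet, hsdet, hsdet, Matrix.det_smul, Matrix.det_one,
      mul_one, Fintype.card_fin, sq] at h1
    exact h1
  -- u = t² / det t
  set u : Matrix (Fin 2) (Fin 2) L := δ⁻¹ • (TT * TT) with hu
  have huγ : u * Γ = Γ * u := by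
    rw [hu, Matrix.smul_mul, Matrix.mul_smul, mul_assoc, htγ, ← mul_assoc, htγ, mul_assoc]
  have huN : u * D.sm u * D.sm (D.sm u) = 1 := by
    rw [hu, D.sm_smul, D.sm_smul, D.sm_mul, D.sm_mul]
    simp only [Matrix.smul_mul, Matrix.mul_smul, smul_smul]
    have k1 : TT * D.sm TT = D.sm TT * TT := centralizer_comm hγ htγ ht1
    have k2 : D.sm (D.sm TT) * TT = TT * D.sm (D.sm TT) := centralizer_comm hγ ht2 htγ
    have k3 : D.sm (D.sm TT) * D.sm TT = D.sm TT * D.sm (D.sm TT) := centralizer_comm hγ ht2 ht1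
    have h2 : TT * TT * (D.sm TT * D.sm TT) * (D.sm (D.sm TT) * D.sm (D.sm TT)) =
        (TT * D.sm TT * D.sm (D.sm TT)) * (TT * D.sm TT * D.sm (D.sm TT)) := by
      symm
      calc (TT * D.sm TT * D.sm (D.sm TT)) * (TT * D.sm TT * D.sm (D.sm TT))
          = TT * D.sm TT * (D.sm (D.sm TT) * TT) * D.sm TT * D.sm (D.sm TT) := by
            simp only [mul_assoc]
        _ = TT * (D.sm TT * TT) * (D.sm (D.sm TT) * D.sm TT) * D.sm (D.sm TT) := by
            rw [k2]; simp only [mul_assoc]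
        _ = TT * (TT * D.sm TT) * (D.sm TT * D.sm (D.sm TT)) * D.sm (D.sm TT) := by
            rw [← k1, k3]
        _ = _ := by simp only [mul_assoc]
    rw [h2, hN, Matrix.smul_mul, one_mul, smul_smul, smul_smul]
    have h3 : D.s (D.s δ⁻¹) * (D.s δ⁻¹ * δ⁻¹) * (algebraMap F L ζ * algebraMap F L ζ) = 1 := by
      rw [← hδN, map_inv₀, map_inv₀]
      have h4 : D.s δ ≠ 0 := (hδu.map D.s).ne_zero
      have h5 : D.s (D.s δ) ≠ 0 := ((hδu.map D.s).map D.s).ne_zero
      field_simp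
    rw [← mul_assoc] at h3
    rw [h3, one_smul]
  obtain ⟨ρ, hργ, hρ⟩ := D.R90 hγ hdisc u huγ huN
  -- τ = t² s(t) ρ⁻¹
  have hstu : IsUnit (D.sm TT) := by
    rw [Matrix.isUnit_iff_isUnit_det, hsdet]
    exact hδu.map D.s
  obtain ⟨st, hst⟩ := hstu
  have hρi : ((ρ⁻¹ : (Matrix (Fin 2) (Fin 2) L)ˣ) : Matrix (Fin 2) (Fin 2) L) * Γ =
      Γ * ((ρ⁻¹ : (Matrix (Fin 2) (Fin 2) L)ˣ) : Matrix (Fin 2) (Fin 2) L) := by
    have h6 := congrArg (fun N =>
      ((ρ⁻¹ : (Matrix (Fin 2) (Fin 2) L)ˣ) : Matrix (Fin 2) (Fin 2) L) * N *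
      ((ρ⁻¹ : (Matrix (Fin 2) (Fin 2) L)ˣ) : Matrix (Fin 2) (Fin 2) L)) hργ
    simp only [← mul_assoc, Units.inv_mul, one_mul] at h6
    rw [mul_assoc, mul_assoc, Units.mul_inv, mul_one] at h6
    exact h6.symm
  set RI : Matrix (Fin 2) (Fin 2) L :=
    ((ρ⁻¹ : (Matrix (Fin 2) (Fin 2) L)ˣ) : Matrix (Fin 2) (Fin 2) L) with hRI
  have hsRI : D.sm RI = u * RI := by
    -- s(ρ) s(ρ⁻¹) = 1 and u s(ρ) = ρ
    have h7 : D.sm (ρ : Matrix (Fin 2) (Fin 2) L) * D.sm RI = 1 := by
      rw [← D.sm_mul, hRI, Units.mul_inv, D.sm_one]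
    have h8 : (ρ : Matrix (Fin 2) (Fin 2) L) * D.sm RI = u := by
      rw [← hρ, mul_assoc, h7, mul_one]
    have h9 : RI * ((ρ : Matrix (Fin 2) (Fin 2) L) * D.sm RI) = RI * u := by rw [h8]
    rw [← mul_assoc, hRI, Units.inv_mul, one_mul] at h9
    rw [h9]
    exact centralizer_comm hγ hρi huγ
  refine ⟨algebraMap F L ζ * δ⁻¹, t * t * st * ρ⁻¹, ?_, ?_, ?_⟩
  · exact ((isUnit_iff_ne_zero.mpr hζ).map (algebraMap F L)).mul
      (isUnit_iff_ne_zero.mpr (inv_ne_zero hδ0))
  · rw [Units.val_mul, Units.val_mul, Units.val_mul, hst, ← hTT, ← hRI]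
    rw [mul_assoc _ RI, hρi, ← mul_assoc _ Γ, mul_assoc (TT * TT), ht1, ← mul_assoc (TT * TT),
      mul_assoc TT TT Γ, htγ, ← mul_assoc TT Γ, htγ]
    simp only [mul_assoc]
  · rw [Units.val_mul, Units.val_mul, Units.val_mul, hst, ← hTT, ← hRI, D.sm_mul, D.sm_mul,
      D.sm_mul, hsRI]
    have k1 : D.sm TT * D.sm (D.sm TT) = D.sm (D.sm TT) * D.sm TT := centralizer_comm hγ ht1 ht2
    have h10 : TT * (D.sm TT * D.sm TT * D.sm (D.sm TT) * (u * RI)) =
        (TT * D.sm TT * D.sm (D.sm TT)) * (D.sm TT * (u * RI)) := by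
      rw [mul_assoc (D.sm TT) (D.sm TT), k1]
      simp only [mul_assoc]
    rw [h10, hN, Matrix.smul_mul, one_mul, hu, Matrix.smul_mul, Matrix.mul_smul, smul_smul]
    congr 1
    rw [← mul_assoc (D.sm TT)]
    congr 1
    have k2 : D.sm TT * (TT * TT) = (TT * TT) * D.sm TT := by
      have k3 : D.sm TT * TT = TT * D.sm TT := centralizer_comm hγ ht1 htγ
      rw [← mul_assoc, k3, mul_assoc, k3, ← mul_assoc]
    exact k2

end NB

end Fermat.Agent.H65.S47
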