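import Fermat.Agent.H57CLoc

/-!
# H65S8: from a bijection of cosets to a local matching (third space form, block C13 of S47)

`G' → G` groups, `V ≤ G`, `V' ≤ G'` the big groups, `U ≤ V` of finite index.  A bijection
`{y V' : y⁻¹ γ y ∈ V'} → {g V : g⁻¹ d s(g) ∈ V}`, `y ↦ τ ι(y)`, with equal values of the
functions `F` on `V` and `F'` on `V'`, gives a `LocMatch` of
`φ (g U) = [V : U]⁻¹ F (g⁻¹ d s(g))` on `G ⧸ U` to `ζ (y V') = F' (y⁻¹ γ y)` on `G' ⧸ V'`.
-/

set_option autoImplicit false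

namespace Fermat.Agent.H65.S47

open Fermat.Agent.H57C

variable {G G' : Type*} [Group G] [Group G']

/-- The coset bijection. -/
structure CosetBij (ι : G' →* G) (s : G →* G) (V : Subgroup G) (V' : Subgroup G')
    (F : G → ℂ) (F' : G' → ℂ) (d : G) (γ : G') (τ : G) : Prop where
  val : ∀ y : G', y⁻¹ * γ * y ∈ V' →
    F ((τ * ι y)⁻¹ * d * s (τ * ι y)) = F' (y⁻¹ * γ * y)
  surj : ∀ g : G, g⁻¹ * d * s g ∈ V → ∃ y : G', y⁻¹ * γ * y ∈ V' ∧ g⁻¹ * (τ * ι y) ∈ V
  inj : ∀ y : G', ι y ∈ V → y ∈ V'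
  le : ∀ y ∈ V', ι y ∈ V
  inv : ∀ x h, h ∈ V → F (h⁻¹ * x * s h) = F x
  inv' : ∀ x h, h ∈ V' → F' (h⁻¹ * x * h) = F' x
  supp : ∀ x, F x ≠ 0 → x ∈ V
  supp' : ∀ x, F' x ≠ 0 ↔ x ∈ V'

open Classical in
/-- the map `β` -/
noncomputable def cbeta (ι : G' →* G) (V : Subgroup G) (V' : Subgroup G') (U : Subgroup G)
    (τ : G) (x : G ⧸ U) : G' ⧸ V' :=
  if h : ∃ y : G', (Quotient.out x)⁻¹ * (τ * ι y) ∈ V then (h.choose : G' ⧸ V') else ((1 : G') : G' ⧸ V')

theorem cbeta_eq {ι : G' →* G} {V : Subgroup G} {V' : Subgroup G'} {U : Subgroup G} (hU : U ≤ V)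
    (hinj : ∀ y : G', ι y ∈ V → y ∈ V') {τ : G} {g : G} {y : G'} (h : g⁻¹ * (τ * ι y) ∈ V) :
    cbeta ι V V' U τ (g : G ⧸ U) = (y : G' ⧸ V') := by
  set o := Quotient.out (g : G ⧸ U) with ho
  have hgo : g⁻¹ * o ∈ U := by
    have h1 : ((g : G) : G ⧸ U) = ((o : G) : G ⧸ U) := (QuotientGroup.out_eq' _).symm
    exact QuotientGroup.eq.mp h1
  have hex : ∃ y : G', o⁻¹ * (τ * ι y) ∈ V := by
    refine ⟨y, ?_⟩
    have h2 : o⁻¹ * (τ * ι y) = (g⁻¹ * o)⁻¹ * (g⁻¹ * (τ * ι y)) := by group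
    rw [h2]
    exact V.mul_mem (V.inv_mem (hU hgo)) h
  unfold cbeta
  rw [dif_pos hex]
  rw [QuotientGroup.eq]
  apply hinj
  have h3 := hex.choose_spec
  have h4 : ι (hex.choose⁻¹ * y) = (o⁻¹ * (τ * ι hex.choose))⁻¹ * ((g⁻¹ * o)⁻¹ *
      (g⁻¹ * (τ * ι y))) := by
    rw [map_mul, map_inv]
    group
  rw [h4]
  exact V.mul_mem (V.inv_mem h3) (V.mul_mem (V.inv_mem (hU hgo)) h)

/-- **Coset bijection ⇒ local matching** (third space form). -/
theorem CosetBij.locMatch {ι : G' →* G} {s : G →* G} {V : Subgroup G} {V' : Subgroup G'}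
    {F : G → ℂ} {F' : G' → ℂ} {d : G} {γ : G'} {τ : G} (h : CosetBij ι s V V' F F' d γ τ)
    {U : Subgroup G} (hU : U ≤ V) (hfin : (U.subgroupOf V).FiniteIndex)
    {T : Type*} {a : T → G'} (ha : ∀ t, ι (a t) * τ = τ * ι (a t))
    {φ : G ⧸ U → ℂ} (hφ : ∀ g : G, φ (g : G ⧸ U) =
      ((U.relIndex V : ℕ) : ℂ)⁻¹ * F (g⁻¹ * d * s g))
    {ζ : G' ⧸ V' → ℂ} (hζ : ∀ y : G', ζ (y : G' ⧸ V') = F' (y⁻¹ * γ * y)) :
    LocMatch (fun t x => ι (a t) • x) (fun t y => a t • y) φ ζ (cbeta ι V V' U τ) := by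
  have hc0 : ((U.relIndex V : ℕ) : ℂ) ≠ 0 := by
    have h1 : (U.subgroupOf V).index ≠ 0 := hfin.index_ne_zero
    exact_mod_cast h1
  have hval : ∀ y : G', y⁻¹ * γ * y ∈ V' → F' (y⁻¹ * γ * y) ≠ 0 := fun y hy => (h.supp' _).mpr hy
  -- points of the support
  have hsupp : ∀ g : G, φ (g : G ⧸ U) ≠ 0 → ∃ y : G', y⁻¹ * γ * y ∈ V' ∧
      g⁻¹ * (τ * ι y) ∈ V := by
    intro g hg
    rw [hφ] at hg
    exact h.surj g (h.supp _ (right_ne_zero_of_mul hg))
  -- values on the fibre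
  have hfib : ∀ (y : G') (v : G), v ∈ V → y⁻¹ * γ * y ∈ V' →
      φ ((τ * ι y * v : G) : G ⧸ U) = ((U.relIndex V : ℕ) : ℂ)⁻¹ * F' (y⁻¹ * γ * y) := by
    intro y v hv hy
    have h1 := h.inv ((τ * ι y)⁻¹ * d * s (τ * ι y)) v hv
    have h2 : (τ * ι y * v)⁻¹ * d * s (τ * ι y * v) =
        v⁻¹ * ((τ * ι y)⁻¹ * d * s (τ * ι y)) * s v := by
      rw [map_mul s (τ * ι y) v]
      group
    rw [hφ, h2, h1, h.val y hy]
  have hfibβ : ∀ (y : G') (v : G), v ∈ V →
      cbeta ι V V' U τ ((τ * ι y * v : G) : G ⧸ U) = (y : G' ⧸ V') := by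
    intro y v hv
    apply cbeta_eq hU h.inj
    have h1 : (τ * ι y * v)⁻¹ * (τ * ι y) = v⁻¹ := by group
    rw [h1]
    exact V.inv_mem hv
  -- description of the fibre
  have hset : ∀ y : G', y⁻¹ * γ * y ∈ V' →
      {x : G ⧸ U | φ x ≠ 0 ∧ cbeta ι V V' U τ x = (y : G' ⧸ V')} =
        Set.range (fun v : V => ((τ * ι y * (v : G) : G) : G ⧸ U)) := by
    intro y hy
    ext x
    induction x using QuotientGroup.induction_on with
    | H g =>
      simp only [Set.mem_ofPred_eq, Set.mem_range]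
      constructor
      · rintro ⟨hx, hb⟩
        obtain ⟨y1, -, hy1⟩ := hsupp g hx
        rw [cbeta_eq hU h.inj hy1, QuotientGroup.eq] at hb
        refine ⟨⟨(τ * ι y)⁻¹ * g, ?_⟩, ?_⟩
        · have h2 : (τ * ι y)⁻¹ * g = (ι (y1⁻¹ * y))⁻¹ * (g⁻¹ * (τ * ι y1))⁻¹ := by
            rw [map_mul, map_inv]
            group
          rw [h2]
          exact V.mul_mem (V.inv_mem (h.le _ hb)) (V.inv_mem hy1)
        · simp only
          congr 1
          group
      · rintro ⟨v, hv⟩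
        rw [← hv]
        refine ⟨?_, hfibβ y v v.2⟩
        rw [hfib y v v.2 hy]
        exact mul_ne_zero (inv_ne_zero hc0) (hval y hy)
  have hempty : ∀ y : G', y⁻¹ * γ * y ∉ V' →
      {x : G ⧸ U | φ x ≠ 0 ∧ cbeta ι V V' U τ x = (y : G' ⧸ V')} = ∅ := by
    intro y hy
    ext x
    induction x using QuotientGroup.induction_on with
    | H g =>
      simp only [Set.mem_ofPred_eq, Set.mem_empty_iff_false, iff_false, not_and]
      intro hx hb
      obtain ⟨y1, hy1, hy2⟩ := hsupp g hx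
      rw [cbeta_eq hU h.inj hy2, QuotientGroup.eq] at hb
      apply hy
      rw [← h.supp']
      have h3 : F' (y⁻¹ * γ * y) = F' (y1⁻¹ * γ * y1) := by
        rw [← h.inv' (y1⁻¹ * γ * y1) _ hb]
        congr 1
        group
      rw [h3]
      exact hval y1 hy1
  -- the range as the image of V / U
  have hrange : ∀ y : G', ∃ e : (V ⧸ U.subgroupOf V) → G ⧸ U, Function.Injective e ∧
      Set.range e = Set.range (fun v : V => ((τ * ι y * (v : G) : G) : G ⧸ U)) := by
    intro y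
    refine ⟨Quotient.lift (fun v : V => ((τ * ι y * (v : G) : G) : G ⧸ U)) ?_, ?_, ?_⟩
    · intro v w hvw
      have h4 : v⁻¹ * w ∈ U.subgroupOf V := QuotientGroup.leftRel_apply.mp hvw
      rw [Subgroup.mem_subgroupOf] at h4
      show ((τ * ι y * (v : G) : G) : G ⧸ U) = ((τ * ι y * (w : G) : G) : G ⧸ U)
      rw [QuotientGroup.eq]
      have h5 : (τ * ι y * (v : G))⁻¹ * (τ * ι y * (w : G)) = ((v⁻¹ * w : V) : G) := by
        push_cast
        group
      rw [h5]
      exact h4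
    · intro a b hab
      induction a using QuotientGroup.induction_on with
      | H v =>
        induction b using QuotientGroup.induction_on with
        | H w =>
          rw [QuotientGroup.eq, Subgroup.mem_subgroupOf]
          have h5 : ((τ * ι y * (v : G) : G) : G ⧸ U) = ((τ * ι y * (w : G) : G) : G ⧸ U) := hab
          rw [QuotientGroup.eq] at h5
          have h6 : (τ * ι y * (v : G))⁻¹ * (τ * ι y * (w : G)) = ((v⁻¹ * w : V) : G) := by
            push_cast
            group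
          rw [h6] at h5
          exact h5
    · ext x
      constructor
      · rintro ⟨a, rfl⟩
        induction a using QuotientGroup.induction_on with
        | H v => exact ⟨v, rfl⟩
      · rintro ⟨v, rfl⟩
        exact ⟨(v : V ⧸ U.subgroupOf V), rfl⟩
  have hfinV : Finite (V ⧸ U.subgroupOf V) := Subgroup.finite_quotient_of_finiteIndex
  refine ⟨?_, ?_, ?_⟩
  · intro t x hx
    induction x using QuotientGroup.induction_on with
    | H g =>
      obtain ⟨y, -, hy⟩ := hsupp g hx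
      rw [cbeta_eq hU h.inj hy]
      have h1 : (ι (a t) * g)⁻¹ * (τ * ι (a t * y)) = g⁻¹ * (τ * ι y) := by
        have h2 : (ι (a t))⁻¹ * τ * ι (a t) = τ := by
          rw [mul_assoc, ← ha t]
          group
        rw [map_mul]
        calc (ι (a t) * g)⁻¹ * (τ * (ι (a t) * ι y))
            = g⁻¹ * ((ι (a t))⁻¹ * τ * ι (a t)) * ι y := by group
          _ = g⁻¹ * (τ * ι y) := by rw [h2]; group
      have h3 : cbeta ι V V' U τ ((ι (a t) * g : G) : G ⧸ U) = ((a t * y : G') : G' ⧸ V') := by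
        apply cbeta_eq hU h.inj
        rw [h1]
        exact hy
      exact h3
  · intro y
    induction y using QuotientGroup.induction_on with
    | H y =>
      by_cases hy : y⁻¹ * γ * y ∈ V'
      · rw [hset y hy]
        obtain ⟨e, -, he⟩ := hrange y
        rw [← he]
        exact Set.finite_range e
      · rw [hempty y hy]
        exact Set.finite_empty
  · intro y
    induction y using QuotientGroup.induction_on with
    | H y =>
      by_cases hy : y⁻¹ * γ * y ∈ V'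
      · obtain ⟨e, hinj, he⟩ := hrange y
        rw [hset y hy, ← he, finsum_mem_range hinj, hζ]
        have h7 : ∀ q : V ⧸ U.subgroupOf V, φ (e q) =
            ((U.relIndex V : ℕ) : ℂ)⁻¹ * F' (y⁻¹ * γ * y) := by
          intro q
          have h8 : e q ∈ Set.range (fun v : V => ((τ * ι y * (v : G) : G) : G ⧸ U)) := by
            rw [← he]
            exact Set.mem_range_self q
          obtain ⟨v, hv⟩ := h8
          rw [← hv]
          exact hfib y v v.2 hy
        have : Fintype (V ⧸ U.subgroupOf V) := Fintype.ofFinite _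
        rw [finsum_eq_sum_of_fintype, Finset.sum_congr rfl fun q _ => h7 q, Finset.sum_const,
          Finset.card_univ, nsmul_eq_mul, ← mul_assoc]
        have h9 : ((Fintype.card (V ⧸ U.subgroupOf V) : ℕ) : ℂ) = ((U.relIndex V : ℕ) : ℂ) := by
          rw [Subgroup.relIndex, Subgroup.index, Nat.card_eq_fintype_card]
        rw [h9, mul_inv_cancel₀ hc0, one_mul]
      · rw [hempty y hy, finsum_mem_empty, hζ]
        by_contra hne
        exact hy ((h.supp' _).mp (Ne.symm hne))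

/-- The empty case. -/
theorem locMatch_empty {X Z T : Type*} {aE : T → X → X} {aF : T → Z → Z} {φ : X → ℂ}
    {ζ : Z → ℂ} (hφ : ∀ x, φ x = 0) (hζ : ∀ z, ζ z = 0) (β : X → Z) :
    LocMatch aE aF φ ζ β := by
  refine ⟨fun t x hx => absurd (hφ x) hx, fun y => ?_, fun y => ?_⟩
  · have : {x | φ x ≠ 0 ∧ β x = y} = ∅ := by
      ext x
      simp [hφ]
    rw [this]
    exact Set.finite_empty
  · have : {x | φ x ≠ 0 ∧ β x = y} = ∅ := by
      ext x
      simp [hφ]
    rw [this, finsum_mem_empty, hζ]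

/-- The matching on the `F` side: `G' ⧸ U' → G' ⧸ V'`. -/
theorem locMatch_F {V' U' : Subgroup G'} (hU : U' ≤ V') (hfin : (U'.subgroupOf V').FiniteIndex)
    {F' : G' → ℂ} (inv' : ∀ x h, h ∈ V' → F' (h⁻¹ * x * h) = F' x)
    (supp' : ∀ x, F' x ≠ 0 ↔ x ∈ V') {γ : G'} {T : Type*} {a : T → G'}
    {φ : G' ⧸ U' → ℂ} (hφ : ∀ g : G', φ (g : G' ⧸ U') =
      ((U'.relIndex V' : ℕ) : ℂ)⁻¹ * F' (g⁻¹ * γ * g))
    {ζ : G' ⧸ V' → ℂ} (hζ : ∀ y : G', ζ (y : G' ⧸ V') = F' (y⁻¹ * γ * y)) :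
    LocMatch (fun t x => a t • x) (fun t y => a t • y) φ ζ
      (cbeta (MonoidHom.id G') V' V' U' 1) := by
  have h : CosetBij (MonoidHom.id G') (MonoidHom.id G') V' V' F' F' γ γ 1 := by
    refine ⟨?_, ?_, fun y hy => hy, fun y hy => hy, inv', inv', fun x hx => (supp' x).mp hx,
      supp'⟩
    · intro y hy
      simp
    · intro g hg
      refine ⟨g, hg, ?_⟩
      simp [V'.one_mem]
  exact h.locMatch hU hfin (a := a) (fun t => by simp) hφ hζ

end Fermat.Agent.H65.S47
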