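import Fermat.Agent.H20S8
import Fermat.Agent.H25ZV0b

/-!
# The norm half of `hF1` of `H57C.geom`

`SuppOK E ζ v k`: whenever `k y (γ • y) ≠ 0`, `γ` satisfies the local norm condition at `v`.

* `suppOK_one`: unit kernel at a place unramified in `E`, not above `3`;
* `suppOK_uker`: the kernel `U^(3m)` at the Iwahori level;
* `suppOK_deep`: kernels supported on `z (1 + x)`, `x` deep;
* `exists_norm_of_ker`: `∃ δ, nP s δ = incP E γ`.
-/

set_option autoImplicit false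
set_option linter.unusedSectionVars false

noncomputable section

open IsDedekindDomain NumberField WithZero Matrix
open scoped MatrixGroups
open Matrix.ProjGenLinGroup (mk mk_surjective)

namespace Fermat.Agent.H94W

open Fermat.Agent.H59D Fermat.Agent.H59XF Fermat.Agent.H82 Fermat.Agent.H20.S47 Fermat.Agent.H47

variable {F : Type} [Field F] [NumberField F] (E : Type) [Field E] [NumberField E] [Algebra F E]

/-- whenever `k y (γ • y) ≠ 0`, `γ` satisfies the local norm condition at `v` -/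
def SuppOK (ζ : F) (v : HeightOneSpectrum (𝓞 F)) {U : Subgroup PGL(2, F)} (k : LocKer U) : Prop :=
  ∀ (γ : PGL(2, F)) (y : PGL(2, F) ⧸ U), k.k y (γ • y) ≠ 0 → LocOKP E ζ v γ

variable {E} {ζ : F} {v : HeightOneSpectrum (𝓞 F)}

/-- the unit kernel at a good place -/
theorem suppOK_one (h3 : v.valuation F (3 : F) = 1)
    (hunr : ∀ w ∈ above E v, v.asIdeal.ramificationIdx' w.asIdeal = 1)
    {U : Subgroup PGL(2, F)} (hU : U = U0 v) {k : LocKer U} (hk : k = LocKer.one) :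
    SuppOK E ζ v k := by
  classical
  subst hU hk
  intro γ y h
  obtain ⟨g, rfl⟩ := QuotientGroup.mk_surjective y
  have h1 : ((g : PGL(2, F)) : PGL(2, F) ⧸ U0 v) = γ • ((g : PGL(2, F)) : PGL(2, F) ⧸ U0 v) := by
    by_contra hne
    exact h (by rw [LocKer.one_k, if_neg hne])
  have h2 : g⁻¹ * (γ * g) ∈ U0 v := QuotientGroup.eq.mp h1
  obtain ⟨c, hc, hcc⟩ := h2
  refine ⟨g, c, by rw [hcc, mul_assoc], locOK_of_integral h3 hunr (fun i j => hc.1 i j) hc.2⟩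

/-- the kernel of `U^(3m)` at the Iwahori level -/
theorem suppOK_uker (h3 : v.valuation F (3 : F) = 1)
    (hunr : ∀ w ∈ above E v, v.asIdeal.ramificationIdx' w.asIdeal = 1)
    {U : Subgroup PGL(2, F)} {k : LocKer U} {m : ℕ} (hm : 1 ≤ m) (hk : H25V.IsUKer v (3 * m) k) :
    SuppOK E ζ v k := by
  intro γ y h
  obtain ⟨g, rfl⟩ := QuotientGroup.mk_surjective y
  obtain ⟨g, rfl⟩ := mk_surjective g
  obtain ⟨c, rfl⟩ := mk_surjective γ
  have h1 : (mk c : PGL(2, F)) • (((mk g : PGL(2, F)) : PGL(2, F)) : PGL(2, F) ⧸ U) =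
      (((mk (c * g) : PGL(2, F)) : PGL(2, F)) : PGL(2, F) ⧸ U) := by
    rw [map_mul]
    rfl
  rw [h1, hk g (c * g)] at h
  have h2 : H25V.Cell (v.valuation F) (exp (-((3 * m : ℕ) : ℤ)))
      ((g⁻¹ * (c * g) : GL (Fin 2) F) : Matrix (Fin 2) (Fin 2) F) := by
    by_contra hne
    exact h (if_neg hne)
  obtain ⟨-, h01, h10, hdet⟩ := h2
  refine ⟨mk g, g⁻¹ * (c * g), by rw [map_mul, map_mul, map_inv, mul_assoc],
    locOK_of_cell (k := -(m : ℤ)) h3 hunr h01 h10 ?_ (by omega)⟩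
  rw [hdet]
  congr 2
  push_cast
  ring

/-- kernels supported on `z (1 + x)` with `x` deep -/
theorem suppOK_deep {M : ℕ} (hM : Deep ζ 3 v M) {U : Subgroup PGL(2, F)} {k : LocKer U}
    (hk : ∀ (γ : PGL(2, F)) (y : PGL(2, F)), k.k (y : PGL(2, F) ⧸ U) (γ • (y : PGL(2, F) ⧸ U)) ≠ 0 →
      ∃ (y' : PGL(2, F)) (g : GL (Fin 2) F) (z : F) (x : Matrix (Fin 2) (Fin 2) F),
        mk g = y'⁻¹ * γ * y' ∧ z ≠ 0 ∧ (g : Matrix (Fin 2) (Fin 2) F) = z • (1 + x) ∧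
        ∀ i j, v.valuation F (x i j) ≤ exp (-(M : ℤ))) :
    SuppOK E ζ v k := by
  intro γ y h
  obtain ⟨y, rfl⟩ := QuotientGroup.mk_surjective y
  obtain ⟨y', g, z, x, h1, hz, hg, hx⟩ := hk γ y h
  refine ⟨y', g, h1, ?_⟩
  rw [hg]
  exact locOK_of_deep hM hz hx

/-- kernels supported on a subgroup `H` conjugate to a subgroup of `{z (1 + x)}`, `x` deep -/
theorem suppOK_group {M : ℕ} (hM : Deep ζ 3 v M) {U : Subgroup PGL(2, F)} {k : LocKer U}
    (H : Set PGL(2, F)) (hk : ∀ y y' : PGL(2, F), k.k (y : PGL(2, F) ⧸ U) (y' : PGL(2, F) ⧸ U) ≠ 0 →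
      y⁻¹ * y' ∈ H) (b : PGL(2, F))
    (hH : ∀ h ∈ H, ∃ (g : GL (Fin 2) F) (z : F) (x : Matrix (Fin 2) (Fin 2) F),
      mk g = b⁻¹ * h * b ∧ z ≠ 0 ∧ (g : Matrix (Fin 2) (Fin 2) F) = z • (1 + x) ∧
        ∀ i j, v.valuation F (x i j) ≤ exp (-(M : ℤ))) :
    SuppOK E ζ v k := by
  refine suppOK_deep hM fun γ y h => ?_
  have h1 : y⁻¹ * (γ * y) ∈ H := hk y (γ * y) h
  obtain ⟨g, z, x, hg, hz, hgz, hx⟩ := hH _ h1
  refine ⟨y * b, g, z, x, ?_, hz, hgz, hx⟩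
  rw [hg]
  group

/-- **The norm half of `hF1`**: contributing elliptic elements are norms. -/
theorem exists_norm_of_ker {s : E ≃ₐ[F] E} (hζ : IsPrimitiveRoot ζ 3) [IsTotallyComplex F]
    (h3 : ∀ x, s (s (s x)) = x) (hs : s ≠ AlgEquiv.refl)
    (hfix : ∀ x, s x = x → x ∈ Set.range (algebraMap F E))
    {J : Type*} [Fintype J] {m : Model F J} {κ : (J → ℝ) → ℂ} {b : GlobKer m.L.fam}
    (hb : ∀ v, NonSplit E v → SuppOK E ζ v (b.loc v)) {γ : PGL(2, F)} {y : m.X}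
    (h : m.ker κ b.k y (γ • y) ≠ 0) (hγ : EllReg γ) : ∃ δ : PGL(2, E), nP s δ = incP E γ := by
  have h1 : b.k y.2 (γ • y.2) ≠ 0 := by
    intro h0
    apply h
    show κ _ * b.k y.2 (γ • y.2) = 0
    rw [h0, mul_zero]
  rw [GlobKer.k_ne_zero_iff] at h1
  obtain ⟨δ, hδ, -⟩ := exists_norm hζ h3 hs hfix hγ (fun v hv => hb v hv γ (y.2 v) (h1 v))
  exact ⟨δ, hδ⟩

end Fermat.Agent.H94W

end
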