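import Fermat.Agent.H65S9
import Fermat.Agent.H43ZDef
import Fermat.Agent.H94WNorm
import Fermat.Agent.H82Kummer

/-!
# H65T1: the norm condition for the types at the bad nonsplit places

`suppOK_typ`: the idempotent of a standard type with radii `v(al)`, `v(be)`, `v(ga)`,
`v(be) v(ga) ≤ v(al)²`, `v(al) < v(ζ - 1)³`, is supported on local norms.
-/

set_option autoImplicit false

noncomputable section

namespace Fermat.Agent.H65.S47

open Fermat.Agent.H76U Fermat.Agent.H59XF Fermat.Agent.H79S Fermat.Agent.H82 Matrix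
open Fermat.Agent.H20.S47 IsDedekindDomain NumberField WithZero
open scoped MatrixGroups
open Matrix.ProjGenLinGroup (mk mk_surjective)

variable {F : Type} [Field F] [NumberField F] (E : Type) [Field E] [NumberField E] [Algebra F E]

/-- an exponent of depth -/
theorem exists_deep_of_lt {ζ : F} {v : HeightOneSpectrum (𝓞 F)} {al : F} (hal : al ≠ 0)
    (h1 : v.valuation F al < v.valuation F (ζ - 1) ^ 3) (h2 : v.valuation F al < 1) :
    ∃ M : ℕ, Deep ζ 3 v M ∧ v.valuation F al ≤ exp (-(M : ℤ)) := by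
  have h0 : v.valuation F al ≠ 0 := (Valuation.ne_zero_iff _).2 hal
  have h3 : log (v.valuation F al) < 0 := by
    rw [← exp_lt_exp, exp_log h0, exp_zero]; exact h2
  refine ⟨(-log (v.valuation F al)).toNat, ?_, ?_⟩
  · show exp (-(((-log (v.valuation F al)).toNat : ℕ) : ℤ)) < v.valuation F (ζ - 1) ^ 3
    rw [Int.toNat_of_nonneg (by omega), neg_neg, exp_log h0]
    exact h1
  · rw [Int.toNat_of_nonneg (by omega), neg_neg, exp_log h0]

/-- elements of the group of a standard type -/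
theorem locOK_of_mem_GH {T : TD F} {ζ : F} {v : HeightOneSpectrum (𝓞 F)} {M : ℕ}
    (hM : Deep ζ 3 v M) (hA : ∀ x ∈ T.A, v.valuation F x ≤ exp (-(M : ℤ)))
    (hBC : ∀ x ∈ T.B, ∀ y ∈ T.C, v.valuation F (x * y) ≤ exp (-(M : ℤ)) ^ 2)
    {g : GL (Fin 2) F} (hg : g ∈ T.GH) :
    LocOK E ζ v (g : Matrix (Fin 2) (Fin 2) F).trace (g : Matrix (Fin 2) (Fin 2) F).det := by
  obtain ⟨h00, h01, h10, h11⟩ := hg
  refine Or.inr ⟨M, hM, 1, one_ne_zero, ?_, ?_⟩
  · have h : (g : Matrix (Fin 2) (Fin 2) F).trace / 1 - 2 = (g 0 0 - 1) + (g 1 1 - 1) := by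
      rw [Matrix.trace_fin_two]; ring
    rw [h]
    exact (Valuation.map_add _ _ _).trans (max_le (hA _ h00) (hA _ h11))
  · have h : (g : Matrix (Fin 2) (Fin 2) F).det / 1 ^ 2 - (g : Matrix (Fin 2) (Fin 2) F).trace / 1
        + 1 = (g 0 0 - 1) * (g 1 1 - 1) - g 0 1 * g 1 0 := by
      rw [Matrix.trace_fin_two, Matrix.det_fin_two]; ring
    rw [h]
    refine (Valuation.map_sub _ _ _).trans (max_le ?_ (hBC _ h01 _ h10))
    rw [map_mul, pow_two]
    exact mul_le_mul' (hA _ h00) (hA _ h11)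

variable {E}

/-- **The norm condition for the idempotent of a type.** -/
theorem suppOK_typ {T : TD F} {ζ : F} {v : HeightOneSpectrum (𝓞 F)} {M : ℕ}
    (hM : Deep ζ 3 v M) (hA : ∀ x ∈ T.A, v.valuation F x ≤ exp (-(M : ℤ)))
    (hBC : ∀ x ∈ T.B, ∀ y ∈ T.C, v.valuation F (x * y) ≤ exp (-(M : ℤ)) ^ 2)
    {U : Subgroup PGL(2, F)} {κ : LocKer U} (hκ : IsTyp κ T.H T.chi) :
    H94W.SuppOK E ζ v κ := by
  intro γ y h
  obtain ⟨g, rfl⟩ := QuotientGroup.mk_surjective y
  have h1 : g⁻¹ * (γ * g) ∈ T.H := by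
    by_contra hcon
    exact h ((hκ g (γ * g)).2 hcon)
  obtain ⟨c, hc, hcg⟩ := h1
  exact ⟨g, c, by rw [hcg, mul_assoc], locOK_of_mem_GH E hM hA hBC hc⟩

/-- the same for radii given by elements -/
theorem suppOK_of_radii {T : TD F} {ζ : F} {v : HeightOneSpectrum (𝓞 F)} {al be ga : F}
    (hal : al ≠ 0) (h1 : v.valuation F al < v.valuation F (ζ - 1) ^ 3)
    (h2 : v.valuation F al < 1)
    (hbc : v.valuation F be * v.valuation F ga ≤ v.valuation F al * v.valuation F al)
    (hA : T.A = ball (v.valuation F) (v.valuation F al))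
    (hB : T.B = ball (v.valuation F) (v.valuation F be))
    (hC : T.C = ball (v.valuation F) (v.valuation F ga))
    {U : Subgroup PGL(2, F)} {κ : LocKer U} (hκ : IsTyp κ T.H T.chi) :
    H94W.SuppOK E ζ v κ := by
  obtain ⟨M, hM, hle⟩ := exists_deep_of_lt hal h1 h2
  refine suppOK_typ hM (fun x hx => ?_) (fun x hx y hy => ?_) hκ
  · rw [hA, mem_ball] at hx
    exact hx.trans hle
  · rw [hB, mem_ball] at hx
    rw [hC, mem_ball] at hy
    rw [map_mul, pow_two]
    exact ((mul_le_mul' hx hy).trans hbc).trans (mul_le_mul' hle hle)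

/-- inequalities descend from `w` to `v` -/
theorem val_le_of_above {v : HeightOneSpectrum (𝓞 F)} {w : HeightOneSpectrum (𝓞 E)}
    (hw : w ∈ above E v) {x y : F}
    (h : w.valuation E (algebraMap F E x) ≤ w.valuation E (algebraMap F E y)) :
    v.valuation F x ≤ v.valuation F y := by
  have e : v.asIdeal.ramificationIdx' w.asIdeal ≠ 0 := H82.ramificationIdx'_ne_zero hw
  rw [valuation_above hw, valuation_above hw] at h
  exact (pow_le_pow_iff_left₀ zero_le zero_le e).1 h

theorem val_lt_one_of_above {v : HeightOneSpectrum (𝓞 F)} {w : HeightOneSpectrum (𝓞 E)}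
    (hw : w ∈ above E v) {x : F} (h : w.valuation E (algebraMap F E x) < 1) :
    v.valuation F x < 1 := by
  have e : v.asIdeal.ramificationIdx' w.asIdeal ≠ 0 := H82.ramificationIdx'_ne_zero hw
  rw [valuation_above hw] at h
  exact (pow_lt_one_iff_of_nonneg zero_le e).1 h

/-- **The norm condition at a bad nonsplit place**, from the data `H43Z.NS`. -/
theorem suppOK_NS {s : E ≃ₐ[F] E} {w : HeightOneSpectrum (𝓞 E)} {v : HeightOneSpectrum (𝓞 F)}
    {TE : TD E} {TF : TD F} {D : SD E} {κ : ℤᵐ⁰} {π al be ga ζ : F}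
    (h : H43Z.NS s w v TE TF D κ π al be ga) (hw : w ∈ above E v)
    (hal : v.valuation F al < v.valuation F (ζ - 1) ^ 3) {U : Subgroup PGL(2, F)}
    {k : LocKer U} (hk : IsTyp k TF.H TF.chi) : H94W.SuppOK E ζ v k := by
  have h1 : w.valuation E (algebraMap F E al) < 1 := by
    calc w.valuation E (algebraMap F E al) = 1 * w.valuation E (algebraMap F E al) :=
          (one_mul _).symm
      _ ≤ κ * w.valuation E (algebraMap F E al) := mul_le_mul' h.κ1 le_rfl
      _ ≤ w.valuation E (algebraMap F E π) := h.κa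
      _ < 1 := h.π1
  refine suppOK_of_radii h.al0 hal (val_lt_one_of_above hw h1) ?_ h.A' h.B' h.C' hk
  rw [← map_mul, ← map_mul]
  refine val_le_of_above hw ?_
  rw [map_mul, map_mul, map_mul, map_mul]
  exact h.bc

/-- **[HBAD]** on the setup. -/
theorem hbad (C : CSetup F E) {ζ : F}
    (h : ∀ v ∈ C.SF, NonSplit E v → ∃ w ∈ above E v, ∃ (D : SD E) (κ : ℤᵐ⁰) (π al be ga : F),
      H43Z.NS C.s w v (C.TE w) (C.TF v) D κ π al be ga ∧
        v.valuation F al < v.valuation F (ζ - 1) ^ 3) :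
    ∀ v ∈ C.SF, NonSplit E v → H94W.SuppOK E ζ v (C.kF.D.e v) := by
  intro v hv hns
  obtain ⟨w, hw, D, κ, π, al, be, ga, h1, h2⟩ := h v hv hns
  exact suppOK_NS h1 hw h2 (C.kF.e_typ v hv)

end Fermat.Agent.H65.S47
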