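import Fermat.Agent.H65T1
import Fermat.Agent.H76VDef

/-!
# H65T2: the depth of the types at the bad nonsplit places

`exists_depth`, `ns_depth`, `hNS_of`: for `k` large the radius `v(al)` of the types `TInst` is
smaller than `v(ζ - 1)³`, at all places of a finite set.
-/

set_option autoImplicit false

noncomputable section

namespace Fermat.Agent.H65.S47

open Fermat.Agent.H76U Fermat.Agent.H76V Fermat.Agent.H59XF Fermat.Agent.H79S Fermat.Agent.H82
open Fermat.Agent.H20.S47 IsDedekindDomain NumberField WithZero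

variable {F : Type} [Field F] [NumberField F] {E : Type} [Field E] [NumberField E] [Algebra F E]

/-- a common depth for finitely many places -/
theorem exists_depth {ζ : F} (hζ : IsPrimitiveRoot ζ 3)
    (S : Finset (HeightOneSpectrum (𝓞 F))) :
    ∃ K0 : ℕ, ∀ k ≥ K0, ∀ v ∈ S,
      (exp (-(k : ℤ)) : ℤᵐ⁰) < v.valuation F (ζ - 1) ^ 3 := by
  classical
  have h1 : ∀ v : HeightOneSpectrum (𝓞 F), ∃ m, Deep ζ 3 v m := fun v =>
    exists_deep (by norm_num) hζ v
  choose m hm using h1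
  refine ⟨S.sup m, fun k hk v hv => ?_⟩
  exact Deep.mono ((Finset.le_sup hv).trans hk) (hm v)

/-- the radius `v(al)` is as small as the depth of the type -/
theorem ns_depth {s : E ≃ₐ[F] E} {w : HeightOneSpectrum (𝓞 E)} {v : HeightOneSpectrum (𝓞 F)}
    {TE : TD E} {TF : TD F} {D : SD E} {κ : ℤᵐ⁰} {π al be ga ζ : F} {k c₀ : ℕ}
    (h : H43Z.NS s w v TE TF D κ π al be ga) (hn : Nice v TF k c₀)
    (hk : (exp (-(k : ℤ)) : ℤᵐ⁰) < v.valuation F (ζ - 1) ^ 3) :
    v.valuation F al < v.valuation F (ζ - 1) ^ 3 := by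
  refine lt_of_le_of_lt (hn.adm.deep al ?_) hk
  rw [h.A', mem_ball]

/-- **The hypothesis `hNS` of `geom_final`** for the types of `TInst`. -/
theorem hNS_of {s : E ≃ₐ[F] E} {ζ : F} {k c₀ : ℕ} (I : TInst F E s k c₀)
    {S : Finset (HeightOneSpectrum (𝓞 F))}
    (hk : ∀ v ∈ S, (exp (-(k : ℤ)) : ℤᵐ⁰) < v.valuation F (ζ - 1) ^ 3) :
    ∀ v ∈ S, NonSplit E v → ∀ w ∈ above E v, ∃ (D : SD E) (κ : ℤᵐ⁰) (π al be ga : F),
      H43Z.NS s w v (I.TE w) (I.TF v) D κ π al be ga ∧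
        v.valuation F al < v.valuation F (ζ - 1) ^ 3 := by
  intro v hv hns w hw
  obtain ⟨D, κ, π, al, be, ga, h⟩ := I.ns v hns w hw
  exact ⟨D, κ, π, al, be, ga, h, ns_depth h (I.niceF v) (hk v hv)⟩

end Fermat.Agent.H65.S47
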