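import Fermat.Agent.H59Eigen

/-!
# Commuting semisimple operators which agree on joint eigenvectors

`Fermat.Agent.H65.TQ.eq_of_joint_eigen`: a reduced finite algebra `𝕋`, a finite group `Δ` and an
operator `A` with a separable annihilating polynomial act on a lattice `M`, all commuting. If
`A` agrees with `Φ t` on all joint eigenvectors then `A = Φ t`.
-/

set_option autoImplicit false
set_option linter.style.haveILetI false
set_option linter.deprecated false

namespace Fermat.Agent.H65.TQ

open IsLocalRing TensorProduct Polynomial Fermat.Agent.H59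

section BC

variable {O : Type} [CommRing O] {M : Type} [AddCommGroup M] [Module O M]

lemma aeval_baseChange {K : Type} [CommRing K] [Algebra O K] (f : Module.End O M) (G : O[X]) :
    aeval (f.baseChange K) (G.map (algebraMap O K)) = (aeval f G).baseChange K := by
  rw [Polynomial.aeval_map_algebraMap]
  exact Polynomial.aeval_algHom_apply (Module.End.baseChangeHom O K M) f G

lemma baseChange_isSemisimple [IsDomain O] [CharZero O] [Module.Finite O M] (f : Module.End O M)
    (G : O[X]) (hG : (G.map (algebraMap O (FractionRing O))).Separable) (h : aeval f G = 0) :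
    Module.End.IsSemisimple (f.baseChange (FractionRing O)) := by
  refine Module.End.isSemisimple_of_squarefree_aeval_eq_zero hG.squarefree ?_
  rw [aeval_baseChange, h, LinearMap.baseChange_zero]

end BC

section Main

variable {O : Type} [CommRing O] [IsDomain O] [IsDiscreteValuationRing O]
  [IsAdicComplete (maximalIdeal O) O] [Finite (ResidueField O)] [CharZero O]
  {M : Type} [AddCommGroup M] [Module O M] [Module.Finite O M] [Module.Free O M]
  {𝕋 : Type} [CommRing 𝕋] [Algebra O 𝕋] [Module.Finite O 𝕋]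

omit [IsAdicComplete (maximalIdeal O) O] [Finite (ResidueField O)] in
/-- the algebra generated by the three families is reduced -/
lemma isReduced_adjoin [IsReduced 𝕋] {Δ : Type} [CommGroup Δ] [Finite Δ]
    (Φ : 𝕋 →ₐ[O] Module.End O M) (Ψ : Δ →* Module.End O M) (A : Module.End O M) (G : O[X])
    (hGs : (G.map (algebraMap O (FractionRing O))).Separable) (hGA : aeval A G = 0)
    {s : Set (Module.End O M)} (hs' : s = Set.range Φ ∪ Set.range Ψ ∪ {A})
    (hs : ∀ a ∈ s, ∀ b ∈ s, a * b = b * a) :
    letI := Algebra.adjoinCommRingOfComm O hs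
    IsReduced (Algebra.adjoin O s) := by
  letI := Algebra.adjoinCommRingOfComm O hs
  haveI : CharZero (FractionRing O) :=
    charZero_of_injective_algebraMap (IsFractionRing.injective O (FractionRing O))
  have hcomm : ∀ x ∈ Algebra.adjoin O s, ∀ y ∈ Algebra.adjoin O s, Commute x y := by
    intro x hx y hy
    exact congrArg Subtype.val (mul_comm (⟨x, hx⟩ : Algebra.adjoin O s) ⟨y, hy⟩)
  have key : ∀ y ∈ Algebra.adjoin O s,
      Module.End.IsSemisimple (y.baseChange (FractionRing O)) := by
    intro y hy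
    induction hy using Algebra.adjoin_induction with
    | mem x hx =>
      rw [hs'] at hx
      rcases hx with (⟨t, rfl⟩ | ⟨g, rfl⟩) | hx
      · obtain ⟨G', -, hG', hGt⟩ := exists_monic_separable (O := O) (FractionRing O) t
        refine baseChange_isSemisimple (Φ t) G' hG' ?_
        rw [Polynomial.aeval_algHom_apply, hGt, map_zero]
      · have hn : orderOf g ≠ 0 := (orderOf_pos g).ne'
        refine baseChange_isSemisimple (Ψ g) (X ^ orderOf g - 1) ?_ ?_
        · rw [Polynomial.map_sub, Polynomial.map_pow, Polynomial.map_X, Polynomial.map_one]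
          have h1 := Polynomial.separable_X_pow_sub_C (F := FractionRing O) (n := orderOf g) 1
            (Nat.cast_ne_zero.mpr hn) one_ne_zero
          rwa [Polynomial.C_1] at h1
        · rw [map_sub, map_pow, aeval_X, map_one, ← map_pow, pow_orderOf_eq_one, map_one, sub_self]
      · rw [Set.mem_singleton_iff] at hx
        subst hx
        exact baseChange_isSemisimple x G hGs hGA
    | algebraMap r =>
      refine baseChange_isSemisimple _ (X - C r) ?_ ?_
      · rw [Polynomial.map_sub, Polynomial.map_X, Polynomial.map_C]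
        exact Polynomial.separable_X_sub_C
      · rw [map_sub, aeval_X, aeval_C, sub_self]
    | add x y hx hy hx' hy' =>
      rw [LinearMap.baseChange_add]
      refine Module.End.IsSemisimple.add_of_commute ?_ hx' hy'
      have h1 := hcomm x hx y hy
      rw [commute_iff_eq, ← LinearMap.baseChange_mul, ← LinearMap.baseChange_mul, h1.eq]
    | mul x y hx hy hx' hy' =>
      rw [LinearMap.baseChange_mul]
      refine Module.End.IsSemisimple.mul_of_commute ?_ hx' hy'
      have h1 := hcomm x hx y hy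
      rw [commute_iff_eq, ← LinearMap.baseChange_mul, ← LinearMap.baseChange_mul, h1.eq]
  refine ⟨fun y hy => ?_⟩
  obtain ⟨n, hn⟩ := hy
  have h1 : (y : Module.End O M) ^ n = 0 := congrArg Subtype.val hn
  have h2 : IsNilpotent ((y : Module.End O M).baseChange (FractionRing O)) := by
    refine ⟨n, ?_⟩
    rw [← LinearMap.baseChange_pow, h1, LinearMap.baseChange_zero]
  have h3 := Module.End.eq_zero_of_isNilpotent_isSemisimple h2 (key _ y.2)
  apply Subtype.ext
  apply LinearMap.ext
  intro m
  apply one_tmul_injective (Kb := FractionRing O) (IsFractionRing.injective O (FractionRing O))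
  have h5 := LinearMap.congr_fun h3 (1 ⊗ₜ m)
  rw [LinearMap.baseChange_tmul] at h5
  rw [h5]
  simp

/-- **Operators which agree on joint eigenvectors are equal.** -/
theorem eq_of_joint_eigen [IsReduced 𝕋] {Δ : Type} [CommGroup Δ] [Finite Δ]
    (Φ : 𝕋 →ₐ[O] Module.End O M) (Ψ : Δ →* Module.End O M)
    (hΦΨ : ∀ t g, Φ t * Ψ g = Ψ g * Φ t) (A : Module.End O M)
    (hAΦ : ∀ t, Φ t * A = A * Φ t) (hAΨ : ∀ g, Ψ g * A = A * Ψ g)
    (G : O[X]) (hGs : (G.map (algebraMap O (FractionRing O))).Separable) (hGA : aeval A G = 0)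
    (t : 𝕋)
    (h : ForallEigen Φ fun O' _ _ _ _ _ _ _ _ _ lam x =>
      ∀ χ : Δ →* O'ˣ, (∀ g, (Ψ g).baseChange O' x = ((χ g : O'ˣ) : O') • x) →
        ∀ μ : O', A.baseChange O' x = μ • x → lam t = μ) :
    Φ t = A := by
  classical
  obtain ⟨s, hs'⟩ : ∃ s : Set (Module.End O M), s = Set.range Φ ∪ Set.range Ψ ∪ {A} := ⟨_, rfl⟩
  have hΨΨ : ∀ g g', Ψ g * Ψ g' = Ψ g' * Ψ g := fun g g' => by
    rw [← map_mul, ← map_mul, mul_comm]
  have hΦΦ : ∀ g g', Φ g * Φ g' = Φ g' * Φ g := fun g g' => by
    rw [← map_mul, ← map_mul, mul_comm]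
  have hs : ∀ a ∈ s, ∀ b ∈ s, a * b = b * a := by
    intro a ha b hb
    rw [hs'] at ha hb
    rcases ha with (⟨t, rfl⟩ | ⟨g, rfl⟩) | ha <;> rcases hb with (⟨t', rfl⟩ | ⟨g', rfl⟩) | hb
    · exact hΦΦ _ _
    · exact hΦΨ _ _
    · rw [Set.mem_singleton_iff.mp hb]; exact hAΦ _
    · exact (hΦΨ _ _).symm
    · exact hΨΨ _ _
    · rw [Set.mem_singleton_iff.mp hb]; exact hAΨ _
    · rw [Set.mem_singleton_iff.mp ha]; exact (hAΦ _).symm
    · rw [Set.mem_singleton_iff.mp ha]; exact (hAΨ _).symm
    · rw [Set.mem_singleton_iff.mp ha, Set.mem_singleton_iff.mp hb]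
  have hΦs : ∀ t, Φ t ∈ Algebra.adjoin O s := fun t =>
    Algebra.subset_adjoin (by rw [hs']; exact Or.inl (Or.inl ⟨t, rfl⟩))
  have hΨs : ∀ g, Ψ g ∈ Algebra.adjoin O s := fun g =>
    Algebra.subset_adjoin (by rw [hs']; exact Or.inl (Or.inr ⟨g, rfl⟩))
  have hAs : A ∈ Algebra.adjoin O s := Algebra.subset_adjoin (by rw [hs']; exact Or.inr rfl)
  letI := Algebra.adjoinCommRingOfComm O hs
  haveI hred : IsReduced (Algebra.adjoin O s) := isReduced_adjoin Φ Ψ A G hGs hGA hs' hs
  haveI : Module.Finite O (Module.End O M) := inferInstance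
  haveI : Module.Finite O (Algebra.adjoin O s) :=
    Module.Finite.of_injective (Algebra.adjoin O s).val.toLinearMap Subtype.val_injective
  have h0 : ((Algebra.adjoin O s).val : Algebra.adjoin O s →ₐ[O] Module.End O M)
      (⟨Φ t, hΦs t⟩ - ⟨A, hAs⟩) = 0 := by
    refine map_eq_zero_of_eigen _ _ ?_
    intro O' _ _ _ _ _ _ _ _ _ hO lam' x hx0 hlam'
    let Φ' : 𝕋 →ₐ[O] Algebra.adjoin O s := Φ.codRestrict _ hΦs
    let Ψ' : Δ →* Algebra.adjoin O s :=
      { toFun := fun g => ⟨Ψ g, hΨs g⟩
        map_one' := Subtype.ext (map_one Ψ)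
        map_mul' := fun a b => Subtype.ext (map_mul Ψ a b) }
    let χ : Δ →* O'ˣ := ((lam' : Algebra.adjoin O s →* O').comp Ψ').toHomUnits
    have h1 := h O' hO (lam'.comp Φ') x hx0 (fun t => hlam' (Φ' t)) χ (fun g => hlam' (Ψ' g))
      (lam' ⟨A, hAs⟩) (hlam' ⟨A, hAs⟩)
    rw [map_sub, sub_eq_zero]
    exact h1
  rw [map_sub, sub_eq_zero] at h0
  exact h0

end Main

end Fermat.Agent.H65.TQ
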