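import Fermat.Agent.H70Lev3
import Fermat.Agent.H70Lev5
import Fermat.Agent.H65TQ1

/-!
# Semisimplicity of `T_q` on the localised modules, `q` a prime not dividing the level
-/

set_option autoImplicit false
set_option linter.style.haveILetI false

open Matrix CongruenceSubgroup IsLocalRing CuspForm Polynomial
open scoped MatrixGroups TensorProduct

namespace Fermat.Agent.H65.TQ

open Fermat.Agent.H70.Coh Fermat.Agent.H59 Fermat.Agent.H37.Rank Fermat.Agent.H70.Mod

/-- the primes dividing `L` -/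
def badP (L : ℕ) : Set ℕ := {ℓ | ℓ.Prime ∧ ℓ ∣ L}

lemma adm_badP (L : ℕ) : Adm (badP L) L := fun _ hℓ h => ⟨hℓ, h⟩

lemma notMem_badP {L q : ℕ} (hqL : ¬ q ∣ L) : q ∉ badP L := fun h => hqL h.2

/-- `G` annihilates the Hecke operator `T_q` on the cusp forms of weight two and level `L` -/
def Ann (L q : ℕ) (hq : q.Prime) (hqL : ¬ q ∣ L) [NeZero L] (G : ℤ[X]) : Prop :=
  aeval (heckeAlgebra.T hq hqL (notMem_badP hqL) : heckeAlgebra L 2 (badP L)) G = 0

/-- a monic polynomial separable over `ℚ` which annihilates `T_q` -/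
theorem exists_ann (L q : ℕ) [NeZero L] (hq : q.Prime) (hqL : ¬ q ∣ L) :
    ∃ G : ℤ[X], G.Monic ∧ (G.map (algebraMap ℤ ℚ)).Separable ∧ Ann L q hq hqL G := by
  haveI : IsReduced (heckeAlgebra L 2 (badP L)) := H70.isReduced_heckeAlgebra (adm_badP L)
  haveI : Module.Finite ℤ (heckeAlgebra L 2 (badP L)) := Fermat.Agent.S22.result L 2 (badP L)
  exact H70.exists_monic_squarefree_aeval_eq_zero (Algebra.IsIntegral.isIntegral _)

lemma separable_map {G : ℤ[X]} (hG : (G.map (algebraMap ℤ ℚ)).Separable) (K : Type*) [Field K]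
    [CharZero K] : (G.map (Int.castRingHom K)).Separable := by
  have h1 : G.map (Int.castRingHom K) = (G.map (algebraMap ℤ ℚ)).map (algebraMap ℚ K) := by
    rw [Polynomial.map_map]
    congr 1
    exact RingHom.ext_int _ _
  rw [h1]
  exact hG.map

section HHField

variable {L : ℕ} [NeZero L] {K : Type} [Field K] [CharZero K]

/-- polynomials in `T_q` which annihilate the cusp forms kill the classes which factor through the
period lattice -/
lemma aeval_latHH {q : ℕ} (hq : q.Prime) (hqL : ¬ q ∣ L) {G : ℤ[X]} (hG : Ann L q hq hqL G)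
    (φ : Fermat.Agent.H4.Lat L →+ K) :
    aeval (tH (one_dvd L) (1 : (ZMod 1)ˣ →* Kˣ) hq hqL K) G (latHH L K φ) = 0 := by
  let i : Pr (badP L) := ⟨q, hq, notMem_badP hqL⟩
  have h1 := act_latHH (O := ℤ) (K := K) (adm_badP L)
    (aeval (MvPolynomial.X i : MvPolynomial (Pr (badP L)) ℤ) G) φ
  have h2 : evHA (adm_badP L) (aeval (MvPolynomial.X i : MvPolynomial (Pr (badP L)) ℤ) G) = 0 := by
    have h3 := Polynomial.aeval_algHom_apply (evHA (adm_badP L)).toIntAlgHom
      (MvPolynomial.X i : MvPolynomial (Pr (badP L)) ℤ) G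
    have h4 : (evHA (adm_badP L)).toIntAlgHom (MvPolynomial.X i) =
        (heckeAlgebra.T hq hqL (notMem_badP hqL) : heckeAlgebra L 2 (badP L)) :=
      evHA_X (adm_badP L) i
    rw [h4] at h3
    exact h3.symm.trans hG
  rw [h2, map_zero] at h1
  have h5 : φ.comp (0 : Module.End ℤ (Fermat.Agent.H4.Lat L)).toAddMonoidHom = 0 := by
    refine AddMonoidHom.ext fun γ => ?_
    simp
  rw [h5, map_zero] at h1
  have h6 : (aeval (MvPolynomial.X i : MvPolynomial (Pr (badP L)) ℤ) G).map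
      (Int.castRingHom ℤ) = aeval (MvPolynomial.X i : MvPolynomial (Pr (badP L)) ℤ) G := by
    rw [Int.castRingHom_int, MvPolynomial.map_id]
  rw [h6] at h1
  have h7 := Polynomial.aeval_algHom_apply
    (act (O := ℤ) (TT K (adm_badP L)) (TT_comm (adm_badP L))) (MvPolynomial.X i) G
  rw [act_X] at h7
  have h8 := LinearMap.congr_fun h7 (latHH L K φ)
  exact h8.trans h1

variable {S : Set ℕ} (hS : Adm S L) {O : Type} [CommRing O] [Algebra O K]
  {κ : Type} [Field κ] {θ : MvPolynomial (Pr S) O →+* κ} {e : MvPolynomial (Pr S) O}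

/-- **Semisimplicity of `T_q`, over a field, trivial character.** -/
theorem aeval_loc_HH {q : ℕ} (hq : q.Prime) (hqL : ¬ q ∣ L) {G : ℤ[X]} (hG : Ann L q hq hqL G)
    (he : IsLocIdem (TT K hS) (TT_comm hS) θ e)
    (i₀ : Pr S) (hi₀1 : (L : ℤ) ∣ (i₀.1 : ℤ) - 1) (hi₀ : θ (MvPolynomial.X i₀) ≠ 1 + (i₀.1 : κ))
    {x : HH K L} (hx : x ∈ Loc (TT K hS) (TT_comm hS) e) :
    aeval (tH (one_dvd L) (1 : (ZMod 1)ˣ →* Kˣ) hq hqL K) G x = 0 := by
  obtain ⟨φ, rfl⟩ := exists_latHH hS he i₀ hi₀1 hi₀ hx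
  exact aeval_latHH hq hqL hG φ

end HHField

/-- naturality of polynomials in an operator -/
lemma aeval_natural {H H' : Type*} [AddCommGroup H] [AddCommGroup H'] {R R' : Type*} [CommRing R]
    [CommRing R'] [Module R H] [Module R' H'] (f : H →+ H') (A : Module.End R H)
    (B : Module.End R' H') (h : ∀ x, f (A x) = B (f x)) (G : ℤ[X]) (x : H) :
    f (aeval A G x) = aeval B G (f x) := by
  have hn : ∀ (n : ℕ) x, f ((A ^ n) x) = (B ^ n) (f x) := by
    intro n
    induction n with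
    | zero => intro x; rfl
    | succ n ih =>
      intro x
      rw [pow_succ, pow_succ, Module.End.mul_apply, Module.End.mul_apply, ih, h]
  induction G using Polynomial.induction_on' with
  | add p q hp hq => rw [map_add, map_add, LinearMap.add_apply, LinearMap.add_apply, map_add, hp, hq]
  | monomial n a =>
    have h1 : aeval A (monomial n a) = (a : Module.End R H) * A ^ n := by
      rw [aeval_monomial]; rfl
    have h2 : aeval B (monomial n a) = (a : Module.End R' H') * B ^ n := by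
      rw [aeval_monomial]; rfl
    rw [h1, h2, Module.End.mul_apply, Module.End.mul_apply, Module.End.intCast_apply,
      Module.End.intCast_apply, map_zsmul, hn]

section TwField

variable {N M L : ℕ} (hM : N ∣ M) {S : Set ℕ} (hS : Away M S) (hSL : Adm S L)
  {K : Type} [Field K] {O : Type} [CommRing O] [Algebra O K]
  (ψ η : (ZMod N)ˣ →* Kˣ) {κ : Type} [Field κ] {θ : MvPolynomial (Idx S) O →+* κ}
  {e : MvPolynomial (Idx S) O}

end TwField

section NTq

variable {N M : ℕ} (hM : N ∣ M) {R : Type} [CommRing R] (ψ η : (ZMod N)ˣ →* Rˣ)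
  {q : ℕ} (hq : q.Prime) (hqM : ¬ q ∣ M)

/-- the normalised operator `η(q)⁻¹ T_q` -/
noncomputable def ntq : Module.End R (H1 (gam N M hM) (psiRep ψ R)) :=
  (((η (ZMod.unitOfCoprime q (coprime_of_not_dvd hq hqM hM)))⁻¹ : Rˣ) : R) • tH hM ψ hq hqM R

lemma ntq_apply (x : H1 (gam N M hM) (psiRep ψ R)) :
    ntq hM ψ η hq hqM x =
      (((η (ZMod.unitOfCoprime q (coprime_of_not_dvd hq hqM hM)))⁻¹ : Rˣ) : R) •
        tH hM ψ hq hqM R x := rfl

lemma tH_eq_smul_ntq (x : H1 (gam N M hM) (psiRep ψ R)) :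
    tH hM ψ hq hqM R x =
      ((η (ZMod.unitOfCoprime q (coprime_of_not_dvd hq hqM hM)) : Rˣ) : R) •
        ntq hM ψ η hq hqM x := by
  rw [ntq_apply, smul_smul, Units.mul_inv, one_smul]

/-- the normalised operator commutes with the normalised Hecke operators -/
lemma tw_ntq {S : Set ℕ} (hS : Away M S) (i : Idx S) (x : H1 (gam N M hM) (psiRep ψ R)) :
    tw hM hS ψ η i (ntq hM ψ η hq hqM x) = ntq hM ψ η hq hqM (tw hM hS ψ η i x) := by
  rw [tw_apply, tw_apply, ntq_apply, ntq_apply, map_smul, map_smul, smul_comm]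
  congr 2
  have h := LinearMap.congr_fun (tFam_comm (hM := hM) (ρ := psiRep ψ R) hq hqM
    i.2.1 (hS.not_dvd i)) x
  rw [HFam.opH_comp, HFam.opH_comp] at h
  exact h

variable {R' : Type} [CommRing R']

lemma h1S_ntq (f : R →+* R') (x : H1 (gam N M hM) (psiRep ψ R)) :
    h1S hM ψ f (ntq hM ψ η hq hqM x) =
      ntq hM (psiMap f ψ) (psiMap f η) hq hqM (h1S hM ψ f x) := by
  rw [ntq_apply, ntq_apply, map_smulₛₗ]
  have h : (psiMap f η (ZMod.unitOfCoprime q (coprime_of_not_dvd hq hqM hM)))⁻¹ =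
      Units.map (f : R →* R') ((η (ZMod.unitOfCoprime q (coprime_of_not_dvd hq hqM hM)))⁻¹) := by
    rw [map_inv]
    rfl
  rw [h]
  congr 1
  exact (opH_h1S hM ψ (tFam hM hq hqM) f x).symm

end NTq

section Field

variable {N M L : ℕ} (hM : N ∣ M) {S : Set ℕ} (hS : Away M S) (hSL : Adm S L)
  {K : Type} [Field K] [CharZero K] {O : Type} [CommRing O] [Algebra O K]
  (ψ η : (ZMod N)ˣ →* Kˣ) {κ : Type} [Field κ] {θ : MvPolynomial (Idx S) O →+* κ}
  {e : MvPolynomial (Idx S) O} {q : ℕ} (hq : q.Prime) (hqM : ¬ q ∣ M)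

/-- **Semisimplicity of `T_q`, over a field.** -/
theorem aeval_ntq_field [NeZero L] (hsq : Squarefree N) (hM0 : 0 < M)
    (hex : ∀ q : ℕ, q.Prime → q ∣ N → ¬ q * q ∣ M) (hL : L = M * N)
    (hψ : ψ = η ^ 2) {m : ℕ} (hm : Odd m) (hη : η ^ m = 1)
    (he : IsLocIdem (TT K hSL) (TT_comm hSL) θ e)
    (i₀ : Idx S) (hi₀1 : (L : ℤ) ∣ (i₀.1 : ℤ) - 1) (hi₀ : θ (MvPolynomial.X i₀) ≠ 1 + (i₀.1 : κ))
    (hqL : ¬ q ∣ L) {G : ℤ[X]} (hG : Ann L q hq hqL G) {x : H1 (gam N M hM) (psiRep ψ K)}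
    (hx : x ∈ MLoc hM hS ψ η e) : aeval (ntq hM ψ η hq hqM) G x = 0 := by
  subst hψ
  obtain ⟨E, hE⟩ := H21J.exists_twist_embedding (W := K) hsq hM0 hex hM hL η hm hη
  have hEt := twEmb_tw hM hS hSL (η ^ 2) η hE
  have hEq : ∀ y, E (ntq hM (η ^ 2) η hq hqM y) =
      tH (one_dvd L) (1 : (ZMod 1)ˣ →* Kˣ) hq hqL K (E y) := by
    intro y
    rw [ntq_apply, map_smul]
    have h1 : E (tH hM (η ^ 2) hq hqM K y) =
        ((η (ZMod.unitOfCoprime q (coprime_of_not_dvd hq hqM hM)) : Kˣ) : K) •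
          tH (one_dvd L) (1 : (ZMod 1)ˣ →* Kˣ) hq hqL K (E y) :=
      hE.T hq hqM hqL (coprime_of_not_dvd hq hqM hM) y
    rw [h1, smul_smul, Units.inv_mul, one_smul]
  have hO : ∀ (a : O) x, E (a • x) = a • E x := fun a x => by
    rw [← algebraMap_smul K a x, map_smul, algebraMap_smul]
  have h2 : E x ∈ Loc (TT K hSL) (TT_comm hSL) e :=
    map_mem_loc (Λ := K) (Λ' := K) (hT := tw_comm hM hS (η ^ 2) η) (hT' := TT_comm hSL)
      E.toAddMonoidHom hO hEt hx
  apply hE.inj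
  rw [map_zero]
  exact (aeval_natural E.toAddMonoidHom _ _ hEq G x).trans
    (aeval_loc_HH hSL hq hqL hG he i₀ hi₀1 hi₀ h2)

end Field

section Grp

variable {N M L : ℕ} (hM : N ∣ M) {S : Set ℕ} (hS : Away M S) (hSL : Adm S L)
  {O : Type} [CommRing O] [IsDomain O] [CharZero O]
  {Δ : Type} [CommGroup Δ] {ψ η : (ZMod N)ˣ →* (MonoidAlgebra O Δ)ˣ}
  {κ : Type} [Field κ] {θ : MvPolynomial (Idx S) O →+* κ} {e : MvPolynomial (Idx S) O}
  {q : ℕ} (hq : q.Prime) (hqM : ¬ q ∣ M)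

omit [IsDomain O] [CharZero O] in
/-- the normalised operator respects the localised module -/
lemma ntq_mem {x : H1 (gam N M hM) (psiRep ψ (MonoidAlgebra O Δ))}
    (hx : x ∈ MLoc hM hS ψ η e) : ntq hM ψ η hq hqM x ∈ MLoc hM hS ψ η e :=
  map_mem_loc (Λ := MonoidAlgebra O Δ) (Λ' := MonoidAlgebra O Δ) (hT := tw_comm hM hS ψ η)
    (hT' := tw_comm hM hS ψ η) (ntq hM ψ η hq hqM).toAddMonoidHom
    (fun a x => (ntq hM ψ η hq hqM).map_smul_of_tower a x)
    (fun i x => (tw_ntq hM ψ η hq hqM hS i x).symm) hx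

omit [IsDomain O] [CharZero O] in
lemma aeval_ntq_mem (G : ℤ[X]) {x : H1 (gam N M hM) (psiRep ψ (MonoidAlgebra O Δ))}
    (hx : x ∈ MLoc hM hS ψ η e) : aeval (ntq hM ψ η hq hqM) G x ∈ MLoc hM hS ψ η e := by
  have hn : ∀ (n : ℕ) x, x ∈ MLoc hM hS ψ η e → (ntq hM ψ η hq hqM ^ n) x ∈ MLoc hM hS ψ η e := by
    intro n
    induction n with
    | zero => intro x hx; exact hx
    | succ n ih =>
      intro x hx
      rw [pow_succ, Module.End.mul_apply]
      exact ih _ (ntq_mem hM hS hq hqM hx)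
  induction G using Polynomial.induction_on' with
  | add p q hp hq => rw [map_add, LinearMap.add_apply]; exact add_mem hp hq
  | monomial n a =>
    have h1 : aeval (ntq hM ψ η hq hqM) (monomial n a) =
        (a : Module.End (MonoidAlgebra O Δ) (H1 (gam N M hM) (psiRep ψ (MonoidAlgebra O Δ)))) *
          (ntq hM ψ η hq hqM) ^ n := by
      rw [aeval_monomial]; rfl
    rw [h1, Module.End.mul_apply, Module.End.intCast_apply]
    exact zsmul_mem (hn n x hx) a

/-- **Semisimplicity of `T_q` on the localised modules over group rings.** -/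
theorem aeval_ntq_eq_zero [Finite Δ] [NeZero M] [NeZero L] (hsq : Squarefree N)
    (hex : ∀ q : ℕ, q.Prime → q ∣ N → ¬ q * q ∣ M) (hL : L = M * N)
    (hψ : ψ = η ^ 2) {m : ℕ} (hm : Odd m) (hη : η ^ m = 1)
    (hgΛ : Good M (MonoidAlgebra O Δ)) (hψ1 : ψ (-1) = 1)
    (hgL : Good L O) (heΛ : IsLocIdem (tw hM hS ψ η) (tw_comm hM hS ψ η) θ e)
    (he : IsLocIdem (TT O hSL) (TT_comm hSL) θ e)
    [Module.Free O (MLoc hM hS ψ η e)]
    (i₀ : Idx S) (hi₀1 : (L : ℤ) ∣ (i₀.1 : ℤ) - 1) (hi₀ : θ (MvPolynomial.X i₀) ≠ 1 + (i₀.1 : κ))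
    (hqL : ¬ q ∣ L) {G : ℤ[X]} (hG : Ann L q hq hqL G)
    {x : H1 (gam N M hM) (psiRep ψ (MonoidAlgebra O Δ))} (hx : x ∈ MLoc hM hS ψ η e) :
    aeval (ntq hM ψ η hq hqM) G x = 0 := by
  let F := FractionRing O
  let K := AlgebraicClosure F
  haveI : CharZero F := charZero_of_injective_algebraMap (IsFractionRing.injective O F)
  haveI : CharZero K := charZero_of_injective_algebraMap (algebraMap F K).injective
  haveI : FaithfulSMul O K := by
    rw [faithfulSMul_iff_algebraMap_injective, IsScalarTower.algebraMap_eq O F K]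
    exact (algebraMap F K).injective.comp (IsFractionRing.injective O F)
  haveI : NeZero ((Monoid.exponent Δ : ℕ) : F) :=
    ⟨Nat.cast_ne_zero.mpr Monoid.exponent_ne_zero_of_finite⟩
  haveI : HasEnoughRootsOfUnity K (Monoid.exponent Δ) := inferInstance
  refine eq_zero_of_one_tmul (O := O) (K := K) (MLoc hM hS ψ η e)
    (locProj (tw hM hS ψ η) (tw_comm hM hS ψ η) e) (locProj_of_mem heΛ.idem)
    (aeval_ntq_mem hM hS hq hqM G hx) ?_
  apply eq_zero_of_evS hM ψ hgΛ hψ1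
  intro χ
  have h1 : evS hM ψ χ ((1 : K) ⊗ₜ[O] (aeval (ntq hM ψ η hq hqM) G x)) =
      (1 : K) • h1S hM ψ (evC (O := O) χ).toRingHom (aeval (ntq hM ψ η hq hqM) G x) :=
    evS_tmul hM ψ χ (1 : K) _
  have h2 := aeval_natural (h1S hM ψ (evC (O := O) χ).toRingHom).toAddMonoidHom
    (ntq hM ψ η hq hqM) (ntq hM (psiMap (evC (O := O) χ).toRingHom ψ)
      (psiMap (evC (O := O) χ).toRingHom η) hq hqM)
    (fun y => h1S_ntq hM ψ η hq hqM (evC (O := O) χ).toRingHom y) G x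
  have h3 : h1S hM ψ (evC (O := O) χ).toRingHom x ∈ MLoc hM hS
      (psiMap (evC (O := O) χ).toRingHom ψ) (psiMap (evC (O := O) χ).toRingHom η) e :=
    (mS hM hS ψ η e (evC (O := O) χ).toRingHom (fun a => (evC (O := O) χ).commutes a)
      ⟨x, hx⟩).2
  have h4 := aeval_ntq_field hM hS hSL (psiMap (evC (O := O) χ).toRingHom ψ)
    (psiMap (evC (O := O) χ).toRingHom η) hq hqM hsq (NeZero.pos M) hex hL
    (by rw [hψ, psiMap_pow]) hm (pow_evC χ hη) (isLocIdem_TT_bc hSL hgL K he) i₀ hi₀1 hi₀ hqL hG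
    h3
  rw [h1, one_smul]
  exact h2.trans h4

end Grp

end Fermat.Agent.H65.TQ
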