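import Fermat.Agent.H82LocIndex

/-!
# Valuations and `p`-th roots of unity
-/

set_option autoImplicit false

noncomputable section

namespace Fermat.Agent.H82

section general

variable {F : Type*} [Field F] {Γ : Type*} [LinearOrderedCommGroupWithZero Γ]
  (v : Valuation F Γ) {p : ℕ} [hp : Fact p.Prime]

theorem val_eq_one_of_pow {μ : F} (n : ℕ) (hn : n ≠ 0) (hμ : μ ^ n = 1) : v μ = 1 := by
  have h : v μ ^ n = 1 := by rw [← map_pow, hμ, map_one]
  exact (pow_eq_one_iff_of_nonneg zero_le' hn).1 h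

theorem val_pow_sub_one_le {μ : F} (hμ : v μ ≤ 1) (i : ℕ) : v (μ ^ i - 1) ≤ v (μ - 1) := by
  induction i with
  | zero => simp
  | succ i ih =>
    have : μ ^ (i + 1) - 1 = μ * (μ ^ i - 1) + (μ - 1) := by ring
    rw [this]
    refine (v.map_add _ _).trans (max_le ?_ le_rfl)
    rw [map_mul]
    calc v μ * v (μ ^ i - 1) ≤ 1 * v (μ - 1) := mul_le_mul' hμ ih
      _ = _ := one_mul _

theorem val_root_sub_one {ζ μ : F} (hζ : IsPrimitiveRoot ζ p) (hμ : μ ^ p = 1) (hμ1 : μ ≠ 1) :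
    v (μ - 1) = v (ζ - 1) := by
  have hp0 : p ≠ 0 := hp.out.ne_zero
  haveI : NeZero p := ⟨hp0⟩
  have hμ' : IsPrimitiveRoot μ p := by
    have := orderOf_eq_prime hμ hμ1
    rw [← this]; exact IsPrimitiveRoot.orderOf μ
  obtain ⟨i, -, hi⟩ := hζ.eq_pow_of_pow_eq_one hμ
  obtain ⟨j, -, hj⟩ := hμ'.eq_pow_of_pow_eq_one hζ.pow_eq_one
  apply le_antisymm
  · rw [← hi]; exact val_pow_sub_one_le v (val_eq_one_of_pow v p hp0 hζ.pow_eq_one).le i
  · rw [← hj]; exact val_pow_sub_one_le v (val_eq_one_of_pow v p hp0 hμ).le j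

theorem val_root_sub_root {ζ μ ν : F} (hζ : IsPrimitiveRoot ζ p) (hμ : μ ^ p = 1)
    (hν : ν ^ p = 1) (hne : μ ≠ ν) : v (μ - ν) = v (ζ - 1) := by
  have hp0 : p ≠ 0 := hp.out.ne_zero
  have hν0 : ν ≠ 0 := by
    rintro rfl
    rw [zero_pow hp0] at hν
    exact zero_ne_one hν
  have h1 : μ - ν = ν * (μ / ν - 1) := by field_simp
  rw [h1, map_mul, val_eq_one_of_pow v p hp0 hν, one_mul]
  refine val_root_sub_one v hζ (by rw [div_pow, hμ, hν, div_one]) ?_
  intro h
  rw [div_eq_one_iff_eq hν0] at h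
  exact hne h

theorem pow_sub_one_eq_prod {ζ : F} (hζ : IsPrimitiveRoot ζ p) (x : F) :
    x ^ p - 1 = ∏ μ ∈ Polynomial.nthRootsFinset p (1 : F), (x - μ) := by
  have := Polynomial.X_pow_sub_one_eq_prod hp.out.pos hζ
  have := congrArg (Polynomial.eval x) this
  simpa [Polynomial.eval_prod] using this

theorem card_roots {ζ : F} (hζ : IsPrimitiveRoot ζ p) :
    (Polynomial.nthRootsFinset p (1 : F)).card = p := hζ.card_nthRootsFinset

theorem mem_roots {μ : F} : μ ∈ Polynomial.nthRootsFinset p (1 : F) ↔ μ ^ p = 1 :=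
  Polynomial.mem_nthRootsFinset hp.out.pos (1 : F)

/-- If `x` is not one of the roots, the other factors of `x^p - 1` have valuation
`v (ζ - 1)` as soon as one of them is smaller. -/
theorem val_pow_sub_one_of_near {ζ x μ : F} (hζ : IsPrimitiveRoot ζ p) (hμ : μ ^ p = 1)
    (hx : v (x - μ) < v (ζ - 1)) : v (x ^ p - 1) = v (x - μ) * v (ζ - 1) ^ (p - 1) := by
  classical
  rw [pow_sub_one_eq_prod hζ x, map_prod, ← Finset.mul_prod_erase _ _ (mem_roots.2 hμ)]
  congr 1
  have : ∀ ν ∈ (Polynomial.nthRootsFinset p (1 : F)).erase μ, v (x - ν) = v (ζ - 1) := by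
    intro ν hν
    rw [Finset.mem_erase, mem_roots] at hν
    have h1 : x - ν = (x - μ) + (μ - ν) := by ring
    have h2 := val_root_sub_root v hζ hμ hν.2 (Ne.symm hν.1)
    rw [h1, Valuation.map_add_eq_of_lt_right v (by rwa [h2]), h2]
  rw [Finset.prod_congr rfl this, Finset.prod_const, Finset.card_erase_of_mem (mem_roots.2 hμ),
    card_roots hζ]

theorem val_prime {ζ : F} (hζ : IsPrimitiveRoot ζ p) : v (p : F) = v (ζ - 1) ^ (p - 1) := by
  classical
  have h0 : ∏ μ ∈ (Polynomial.nthRootsFinset p (1 : F)).erase 1, (1 - μ) = (p : F) := by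
    have h1 := Polynomial.eval_one_cyclotomic_prime (R := F) (p := p)
    rw [Polynomial.cyclotomic_eq_prod_X_sub_primitiveRoots hζ, Polynomial.eval_prod] at h1
    rw [← h1]
    have h2 : (Polynomial.nthRootsFinset p (1 : F)).erase 1 = primitiveRoots p F := by
      ext μ
      rw [Finset.mem_erase, mem_roots, mem_primitiveRoots hp.out.pos]
      constructor
      · rintro ⟨h1, h2⟩
        have := orderOf_eq_prime h2 h1
        rw [← this]; exact IsPrimitiveRoot.orderOf μ
      · intro h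
        exact ⟨h.ne_one hp.out.one_lt, h.pow_eq_one⟩
    rw [h2]
    simp
  rw [← h0, map_prod]
  have : ∀ ν ∈ (Polynomial.nthRootsFinset p (1 : F)).erase 1, v (1 - ν) = v (ζ - 1) := by
    intro ν hν
    rw [Finset.mem_erase, mem_roots] at hν
    exact val_root_sub_root v hζ (one_pow p) hν.2 (Ne.symm hν.1)
  rw [Finset.prod_congr rfl this, Finset.prod_const,
    Finset.card_erase_of_mem (mem_roots.2 (one_pow p)), card_roots hζ]

/-- If `x^p` is close to `1` then `x` is close to a `p`-th root of unity. -/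
theorem exists_near_root {ζ x : F} (hζ : IsPrimitiveRoot ζ p)
    (hx : v (x ^ p - 1) < v (ζ - 1) ^ p) : ∃ μ : F, μ ^ p = 1 ∧ v (x - μ) < v (ζ - 1) := by
  by_contra hcon
  push Not at hcon
  apply absurd hx
  rw [not_lt, pow_sub_one_eq_prod hζ x, map_prod]
  calc v (ζ - 1) ^ p = ∏ μ ∈ Polynomial.nthRootsFinset p (1 : F), v (ζ - 1) := by
        rw [Finset.prod_const, card_roots hζ]
    _ ≤ _ := Finset.prod_le_prod' fun μ hμ => hcon μ (mem_roots.1 hμ)

/-- The `p`-th roots of unity close to `x` are unique. -/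
theorem near_root_unique {ζ x μ ν : F} (hζ : IsPrimitiveRoot ζ p) (hμ : μ ^ p = 1)
    (hν : ν ^ p = 1) (h1 : v (x - μ) < v (ζ - 1)) (h2 : v (x - ν) < v (ζ - 1)) : μ = ν := by
  by_contra hne
  have h3 := val_root_sub_root v hζ hμ hν hne
  have h4 : μ - ν = (x - ν) - (x - μ) := by ring
  rw [h4] at h3
  exact absurd h3 ((v.map_sub _ _).trans_lt (max_lt h2 h1)).ne

end general

end Fermat.Agent.H82
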