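import Fermat.Agent.H44EAlg
import Fermat.Agent.H44EConst
import Fermat.Agent.H82RootVal

/-!
# Très ramifié extensions: the abstract argument

`K` a field with a discretely valued fixed field of `G`, residue characteristic `p`. A unit `β` with
`β ^ p` fixed by `G` generates an extension of degree `p` in which all elements `a` of valuation prime
to `p` satisfy `|τ a / a - 1| ^ (p (p - 1)) = |p|`.
-/

set_option autoImplicit false
set_option linter.unusedSectionVars false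

namespace Fermat.Agent.H65.TR

section

variable {K Γ G : Type*} [Field K] [LinearOrderedCommGroupWithZero Γ] [Group G]
  [MulSemiringAction G K]

/-- **Lagrange resolvents**: if `G` acts on the coset `x + V`, `ψ : V → K` is an equivariant
character and `a` an equivariant function which is injective on `x + V`, there is `β ≠ 0` with
`σ β = ψ (σ x - x) β`. -/
theorem exists_kummer {M : Type*} [AddCommGroup M] [DistribMulAction G M] {V : AddSubgroup M}
    [Finite V] (hV : ∀ (σ : G), ∀ T ∈ V, σ • T ∈ V) {x : M} (hx : ∀ σ : G, σ • x - x ∈ V)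
    (ψ : M → K) (hψ0 : ∀ T ∈ V, ψ T ≠ 0) (hψ : ∀ T ∈ V, ∀ T' ∈ V, ψ (T + T') = ψ T * ψ T')
    (hψσ : ∀ (σ : G), ∀ T ∈ V, ψ (σ • T) = σ • ψ T)
    (a : M → K) (haσ : ∀ (σ : G) (y : M), a (σ • y) = σ • a y)
    (hinj : ∀ T ∈ V, ∀ T' ∈ V, a (x + T) = a (x + T') → T = T') :
    ∃ β : K, β ≠ 0 ∧ ∀ σ : G, σ • β = ψ (σ • x - x) * β := by
  classical
  let _ : Fintype V := Fintype.ofFinite V
  obtain ⟨β, hβ⟩ : ∃ β : ℕ → K, β = fun m => ∑ T : V, (ψ T)⁻¹ * a (x + T) ^ m := ⟨_, rfl⟩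
  have key : ∃ m, β m ≠ 0 := by
    by_contra hcon
    push Not at hcon
    have hpoly : ∀ P : Polynomial K, ∑ T : V, (ψ T)⁻¹ * P.eval (a (x + T)) = 0 := by
      intro P
      induction P using Polynomial.induction_on' with
      | add P Q hP hQ =>
        simp only [Polynomial.eval_add, mul_add, Finset.sum_add_distrib]
        rw [hP, hQ, add_zero]
      | monomial n c =>
        have h1 : ∀ T : V, (ψ T)⁻¹ * (Polynomial.monomial n c).eval (a (x + T)) =
            c * ((ψ T)⁻¹ * a (x + T) ^ n) := by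
          intro T
          rw [Polynomial.eval_monomial]
          ring
        rw [Finset.sum_congr rfl fun T _ => h1 T, ← Finset.mul_sum]
        have h2 : ∑ T : V, (ψ T)⁻¹ * a (x + T) ^ n = 0 := by
          have h3 := hcon n
          rw [hβ] at h3
          exact h3
        rw [h2, mul_zero]
    have h1 := hpoly (∏ T ∈ Finset.univ.erase (0 : V), (Polynomial.X - Polynomial.C (a (x + T))))
    rw [Finset.sum_eq_single_of_mem (0 : V) (Finset.mem_univ _)] at h1
    · rw [Polynomial.eval_prod] at h1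
      rcases mul_eq_zero.mp h1 with h2 | h2
      · exact hψ0 _ (0 : V).2 (inv_eq_zero.mp h2)
      · rw [Finset.prod_eq_zero_iff] at h2
        obtain ⟨T, hT, h3⟩ := h2
        rw [Polynomial.eval_sub, Polynomial.eval_X, Polynomial.eval_C, sub_eq_zero] at h3
        have h4 := hinj _ (0 : V).2 _ T.2 h3
        exact (Finset.ne_of_mem_erase hT) (Subtype.ext h4.symm)
    · intro T _ hT
      rw [Polynomial.eval_prod, Finset.prod_eq_zero (i := T)
        (Finset.mem_erase.mpr ⟨hT, Finset.mem_univ _⟩), mul_zero]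
      rw [Polynomial.eval_sub, Polynomial.eval_X, Polynomial.eval_C, sub_self]
  obtain ⟨m, hm⟩ := key
  refine ⟨β m, hm, fun σ => ?_⟩
  rw [hβ]
  have h1 : σ • (∑ T : V, (ψ T)⁻¹ * a (x + T) ^ m) =
      ∑ T : V, σ • ((ψ T)⁻¹ * a (x + T) ^ m) := Finset.smul_sum
  show σ • (∑ T : V, (ψ T)⁻¹ * a (x + T) ^ m) =
    ψ (σ • x - x) * ∑ T : V, (ψ T)⁻¹ * a (x + T) ^ m
  rw [h1, Finset.mul_sum]
  -- the bijection `T ↦ (σ x - x) + σ T`
  have hinv : ∀ T : V, (σ⁻¹ : G) • ((T : M) - (σ • x - x)) ∈ V := fun T =>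
    hV _ _ (V.sub_mem T.2 (hx σ))
  refine Finset.sum_bij (fun T _ => (⟨(σ • x - x) + σ • (T : M), V.add_mem (hx σ) (hV σ T T.2)⟩ : V))
    (fun _ _ => Finset.mem_univ _) ?_ ?_ ?_
  · intro T _ T' _ h
    have h2 : (σ • x - x) + σ • (T : M) = (σ • x - x) + σ • (T' : M) := congrArg Subtype.val h
    exact Subtype.ext (smul_left_cancel σ (add_left_cancel h2))
  · intro T _
    refine ⟨⟨_, hinv T⟩, Finset.mem_univ _, Subtype.ext ?_⟩
    show (σ • x - x) + σ • ((σ⁻¹ : G) • ((T : M) - (σ • x - x))) = T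
    rw [smul_inv_smul]
    abel
  · intro T _
    show σ • ((ψ T)⁻¹ * a (x + T) ^ m) = ψ (σ • x - x) *
      ((ψ ((σ • x - x) + σ • (T : M)))⁻¹ * a (x + ((σ • x - x) + σ • (T : M))) ^ m)
    have h2 : x + ((σ • x - x) + σ • (T : M)) = σ • (x + T) := by
      rw [smul_add]
      abel
    have hD := hψ0 _ (hx σ)
    have hT0 : σ • ψ (T : M) ≠ 0 := by
      rw [← hψσ σ T T.2]
      exact hψ0 _ (hV σ T T.2)
    rw [h2, haσ, hψ _ (hx σ) _ (hV σ T T.2), hψσ σ T T.2, smul_mul', smul_pow', smul_inv'']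
    field_simp

variable {v : Valuation K Γ}

/-- `p ∤ n ⟹ |n| = 1`. -/
theorem v_int_eq_one {p : ℕ} (hp : p.Prime) (hp1 : v (p : K) < 1) {n : ℤ} (hn : ¬ (p : ℤ) ∣ n) :
    v (n : K) = 1 := by
  refine le_antisymm (H44E.v_int_le n) ?_
  have hcop : IsCoprime n (p : ℤ) := by
    rw [isCoprime_comm]
    exact (Int.isCoprime_iff_gcd_eq_one.mpr
      ((Nat.Prime.coprime_iff_not_dvd hp).mpr fun h => hn (Int.natCast_dvd.mpr h)))
  obtain ⟨a, b, hab⟩ := hcop
  by_contra hcon
  rw [not_le] at hcon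
  have h1 : (1 : K) = (a : K) * n + b * p := by
    have h0 := congrArg (Int.cast : ℤ → K) hab
    push_cast at h0
    exact h0.symm
  have h2 : v (1 : K) < 1 := by
    rw [h1]
    refine (Valuation.map_add _ _ _).trans_lt (max_lt ?_ ?_)
    · rw [map_mul]
      exact (mul_le_of_le_one_left' (H44E.v_int_le a)).trans_lt hcon
    · rw [map_mul]
      exact (mul_le_of_le_one_left' (H44E.v_int_le b)).trans_lt hp1
  rw [map_one] at h2
  exact lt_irrefl _ h2

/-- **The abstract contradiction**: a unit Kummer generator and an element of valuation prime to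
`p` with small relative difference. -/
theorem false_of_unit {p : ℕ} [hp : Fact p.Prime] (hp3 : 3 ≤ p)
    (hv : ∀ (σ : G) (c : K), v (σ • c) = v c)
    (hp0 : v (p : K) ≠ 0) (hp1 : v (p : K) < 1)
    (hdisc : ∀ c : K, c ≠ 0 → (∀ σ : G, σ • c = c) → ∃ n : ℤ, v c = v (p : K) ^ n)
    {H : Subgroup G} (hH : H.index = p)
    (hres : ∀ a : K, (∀ σ ∈ H, σ • a = a) → v a ≤ 1 →
      ∃ c : K, (∀ σ : G, σ • c = c) ∧ v (a - c) < 1)
    {β : K} (hβ1 : v β = 1) (hβH : ∀ σ ∈ H, σ • β = β) {τ : G} (hβp : τ • β ^ p = β ^ p)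
    (hτβ : τ • β ≠ β) {a : K} (ha0 : a ≠ 0) (haH : ∀ σ ∈ H, σ • a = a) {n : ℤ}
    (hn : v a ^ p = v (p : K) ^ n) (hpn : ¬ (p : ℤ) ∣ n)
    (hdist : v (τ • a - a) ^ (p - 1) = v a ^ (p - 1) * v (p : K)) : False := by
  have hpos : 0 < v (p : K) := zero_lt_iff.mpr hp0
  have hβ0 : β ≠ 0 := by
    rintro rfl
    rw [map_zero] at hβ1
    exact zero_ne_one hβ1
  obtain ⟨c, hcσ, hc⟩ := hres β hβH hβ1.le
  have hvc : v c = 1 := by
    have e : c = β - (β - c) := by ring
    rw [e, Valuation.map_sub_eq_of_lt_left _ (by rw [hβ1]; exact hc), hβ1]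
  have hc0 : c ≠ 0 := by
    rintro rfl
    rw [map_zero] at hvc
    exact zero_ne_one hvc
  -- the uniformiser
  obtain ⟨θ, hθdef⟩ : ∃ θ : K, θ = β / c - 1 := ⟨_, rfl⟩
  have hθ1 : v θ < 1 := by
    have e : θ = (β - c) / c := by rw [hθdef]; field_simp
    rw [e, map_div₀, hvc, div_one]
    exact hc
  have hθH : ∀ σ ∈ H, σ • θ = θ := fun σ hσ => by
    rw [hθdef, smul_sub, smul_div₀', hβH σ hσ, hcσ, smul_one]
  have hdiff : τ • θ - θ = (τ • β / β - 1) * (β / c) := by
    rw [hθdef, smul_sub, smul_div₀', hcσ, smul_one]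
    field_simp
    ring
  have hζp : (τ • β / β) ^ p = 1 := by
    rw [div_pow, ← smul_pow', hβp, div_self (pow_ne_zero _ hβ0)]
  have hζ1 : τ • β / β ≠ 1 := by
    intro h
    rw [div_eq_one_iff_eq hβ0] at h
    exact hτβ h
  have hζ : IsPrimitiveRoot (τ • β / β) p := by
    have h1 := orderOf_eq_prime hζp hζ1
    rw [← h1]
    exact IsPrimitiveRoot.orderOf _
  have hvζ : v (p : K) = v (τ • β / β - 1) ^ (p - 1) := H82.val_prime v hζ
  have hvd : v (τ • θ - θ) ^ (p - 1) = v (p : K) := by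
    rw [hdiff, map_mul, map_div₀, hβ1, hvc, div_one, mul_one, hvζ]
  have hθ0 : θ ≠ 0 := by
    intro h0
    rw [h0, smul_zero, sub_zero, map_zero, zero_pow (by omega)] at hvd
    exact hp0 hvd.symm
  obtain ⟨i, hi⟩ := H44E.exists_pow_index_eq hv hdisc (by rw [hH]; omega) hθ0 hθH
  rw [hH] at hi
  have hi1 : 1 ≤ i := H44E.zpow_lt_one_iff' hpos hp1 (by
    rw [← hi]
    exact pow_lt_one₀ zero_le hθ1 (by omega))
  have hinj := zpow_right_injective₀ hpos (ne_of_lt hp1)
  have hi2 : i = 1 := by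
    by_contra hne
    have hi2 : 2 ≤ i := by omega
    have h1 : v (τ • θ - θ) ≤ v θ :=
      (Valuation.map_sub _ _ _).trans (max_le (hv τ θ).le le_rfl)
    have h2 : v (p : K) ^ p ≤ v (p : K) ^ (2 * (p - 1)) := by
      calc v (p : K) ^ p = (v (τ • θ - θ) ^ (p - 1)) ^ p := by rw [hvd]
        _ ≤ (v θ ^ (p - 1)) ^ p :=
          pow_le_pow_left₀ zero_le (pow_le_pow_left₀ zero_le h1 _) _
        _ = (v θ ^ p) ^ (p - 1) := by rw [← pow_mul, ← pow_mul, mul_comm]
        _ = (v (p : K) ^ i) ^ (p - 1) := by rw [hi]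
        _ ≤ (v (p : K) ^ (2 : ℤ)) ^ (p - 1) := by
          refine pow_le_pow_left₀ zero_le ?_ _
          exact (zpow_le_zpow_iff_right_of_lt_one₀ hpos hp1).mpr hi2
        _ = v (p : K) ^ (2 * (p - 1)) := by
          rw [show (v (p : K) ^ (2 : ℤ)) = v (p : K) ^ 2 by norm_cast, ← pow_mul]
    have h3 : 2 * (p - 1) ≤ p := by
      by_contra hcon
      rw [not_le] at hcon
      exact absurd h2 (not_le.mpr (pow_lt_pow_right_of_lt_one₀ hpos hp1 hcon))
    omega
  rw [hi2, zpow_one] at hi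
  obtain ⟨h1, h2, h3, -, -, h6⟩ := H44E.wild_consts hp3 hv hp0 hp1 hdisc hH hres hθH hi
    (τ := τ) hvd rfl
  set ε := τ • θ / θ - 1 with hε
  obtain ⟨n', hn', h7⟩ := h6 a ha0 haH
  have hnn : n' = n := hinj (by
    show v (p : K) ^ n' = v (p : K) ^ n
    rw [← hn', hn])
  rw [hnn] at h7
  have hvn : v (n : K) = 1 := v_int_eq_one hp.out hp1 hpn
  have hva0 : v a ≠ 0 := (Valuation.ne_zero_iff _).mpr ha0
  have hεpos : 0 < v ε := zero_lt_iff.mpr ((Valuation.ne_zero_iff _).mpr h1)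
  have hN0 : p * (p - 1) ≠ 0 := Nat.mul_ne_zero (by omega) (by omega)
  have hεN : v ε ^ (p * (p - 1)) = v (p : K) := by
    refine H44E.pow_inj (n := 2) two_ne_zero ?_
    rw [← pow_mul, mul_comm, pow_mul]
    exact h3
  have hb : v (τ • a / a - 1) = v ε ^ p := by
    refine H44E.pow_inj (n := p - 1) (by omega) ?_
    rw [← pow_mul, hεN]
    have e : τ • a / a - 1 = (τ • a - a) / a := by field_simp
    rw [e, map_div₀, div_pow, hdist]
    field_simp
  have hb2 : v (τ • a / a - 1) ≤ v ε ^ 2 := by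
    rw [hb]
    exact pow_le_pow_right_of_le_one' h2.le (by omega)
  have h8 : v ((n : K) * ε) ≤ v ε ^ 2 := by
    have e : (n : K) * ε = (τ • a / a - 1) - (τ • a / a - 1 - n * ε) := by ring
    rw [e]
    exact (Valuation.map_sub _ _ _).trans (max_le hb2 h7)
  rw [map_mul, hvn, one_mul] at h8
  have h9 : v ε ^ 2 < v ε := by
    rw [pow_two]
    calc v ε * v ε < v ε * 1 := mul_lt_mul_of_pos_left h2 hεpos
      _ = v ε := mul_one _
  exact absurd h8 (not_le.mpr h9)

end

end Fermat.Agent.H65.TR
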