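import Fermat.Agent.H65TR1
import Fermat.Agent.H44ESide
import Fermat.Agent.H75PLocal
import Fermat.Agent.H87Glue

/-!
# `W[p]` is très ramifié at `p` if the reduction is multiplicative and `p ∤ v_p(Δ)`

The element `σ₀` of inertia at `p` which fixes all `p`-power roots of units and moves a `p`-th root
of `p` acts non-trivially on `W[p]` if `p ∣ Δ`, `p ∤ c₄`, `p ∤ v_p(Δ)`.
-/

set_option autoImplicit false
set_option linter.unusedSectionVars false

open Polynomial WeierstrassCurve WeierstrassCurve.Affine IsLocalRing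

namespace Fermat.Agent.H65.TR

open Fermat.Agent.H44E Fermat.Agent.H72 Fermat.Agent.H13
open Fermat.Agent.H64 Fermat.Agent.H75P
open Fermat.Agent.H87.Glue (resZ)

local notation "Qb" => AlgebraicClosure ℚ
local notation "GQ" => (AlgebraicClosure ℚ ≃ₐ[ℚ] AlgebraicClosure ℚ)

section near

variable {W : WeierstrassCurve ℤ} {p : ℕ} {A : ValuationSubring Qb} {x₀ y₀ α β g : A}

/-- The valuation of `x(P) - x₀` for a `p`-torsion point near the node. -/
theorem near_exp (hp : p.Prime) (hp2 : p ≠ 2) (hA : A.LiesOverPrime p)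
    (hN : GoodNode (W.map (Int.castRingHom A)) x₀ y₀ α β g) {P : PtQ W} (hpP : p • P = 0)
    (hP : P ∉ V1 W p A) : ∃ k : ℤ, A.valuation (xN P - x₀) ^ p = A.valuation (g : Qb) ^ k ∧
      ¬ (p : ℤ) ∣ k ∧ xN P - x₀ ≠ 0 := by
  obtain ⟨x, y, h, rfl, h1, h2, k, hk⟩ := near_facts hp hp2 hA hN hpP hP
  rw [xN_some]
  set v := A.valuation with hv
  have hND := hN.nd' (hLQ W A)
  have hst : sC (x₀ : Qb) y₀ α x y * sC (x₀ : Qb) y₀ β x y = (x - x₀) ^ 3 + g := hND.st h.1
  have hts : sC (x₀ : Qb) y₀ β x y - sC (x₀ : Qb) y₀ α x y = ((α : Qb) - β) * (x - x₀) :=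
    NodeData.ts
  set s := sC (x₀ : Qb) y₀ α x y with hs
  set t := sC (x₀ : Qb) y₀ β x y with ht
  set ξ := x - (x₀ : Qb) with hξ
  have hv2 : v (2 : Qb) = 1 := by
    have := v_int_eq_one (v := v) hp (valuation_p_lt hA) (n := 2) (fun h => hp2
      ((Nat.prime_dvd_prime_iff_eq hp Nat.prime_two).mp (by exact_mod_cast h)))
    exact_mod_cast this
  have hvts : v (t - s) = v ξ := by rw [hts, map_mul, hN.v_δ, one_mul]
  have hvt : v t ≤ v ξ := by
    have e : (2 : Qb) * t = (s + t) + (t - s) := by ring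
    have h3 : v ((2 : Qb) * t) ≤ v ξ := by
      rw [e]
      exact (Valuation.map_add _ _ _).trans (max_le h2.le hvts.le)
    rwa [map_mul, hv2, one_mul] at h3
  have hvs : v s ≤ v ξ := by
    have e : (2 : Qb) * s = (s + t) - (t - s) := by ring
    have h3 : v ((2 : Qb) * s) ≤ v ξ := by
      rw [e]
      exact (Valuation.map_sub _ _ _).trans (max_le h2.le hvts.le)
    rwa [map_mul, hv2, one_mul] at h3
  have hgpos : 0 < v (g : Qb) := zero_lt_iff.mpr ((Valuation.ne_zero_iff _).mpr hN.g_ne')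
  have hg1 : v (g : Qb) < 1 := hN.v_g
  have hgξ : v (g : Qb) ≤ v ξ ^ 2 := by
    by_contra hcon
    rw [not_le] at hcon
    have h3 : v (ξ ^ 3) < v (g : Qb) := by
      rw [map_pow]
      exact (pow_le_pow_right_of_le_one' h1.le (by norm_num)).trans_lt hcon
    have h4 : v (ξ ^ 3 + g) = v (g : Qb) := by
      rw [add_comm]
      exact Valuation.map_add_eq_of_lt_left _ h3
    rw [← hst, map_mul] at h4
    have h5 : v s * v t ≤ v ξ ^ 2 := by
      rw [pow_two]
      exact mul_le_mul' hvs hvt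
    rw [h4] at h5
    exact absurd h5 (not_le.mpr hcon)
  have hξpos : 0 < v ξ := by
    rw [zero_lt_iff]
    intro h0
    rw [h0, zero_pow two_ne_zero] at hgξ
    exact absurd hgξ (not_le.mpr hgpos)
  refine ⟨k, hk, ?_, (Valuation.ne_zero_iff _).mp hξpos.ne'⟩
  have hk1 : 1 ≤ k := H44E.zpow_lt_one_iff' hgpos hg1 (by
    rw [← hk]
    exact pow_lt_one₀ zero_le h1 hp.ne_zero)
  have hk2 : 2 * k ≤ p := by
    rw [← zpow_le_zpow_iff_right_of_lt_one₀ hgpos hg1]
    calc v (g : Qb) ^ (p : ℤ) = v (g : Qb) ^ p := zpow_natCast _ _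
      _ ≤ (v ξ ^ 2) ^ p := pow_le_pow_left₀ zero_le hgξ _
      _ = (v ξ ^ p) ^ 2 := by rw [← pow_mul, ← pow_mul, mul_comm]
      _ = (v (g : Qb) ^ k) ^ 2 := by rw [hk]
      _ = v (g : Qb) ^ (2 * k) := by
        rw [← zpow_natCast (v (g : Qb) ^ k) 2, ← zpow_mul, mul_comm]
        norm_cast
  intro hdvd
  have := Int.le_of_dvd (by omega) hdvd
  omega

end near

section main

variable {W : WeierstrassCurve ℤ} (hΔ : W.Δ ≠ 0) {p : ℕ} [hp : Fact p.Prime]

include hΔ in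
/-- **Très ramifié.** If the reduction at `p` is multiplicative and `p ∤ v_p(Δ)`, then `σ₀` acts
non-trivially on `W[p]`. -/
theorem exists_smul_ne_of_not_dvd (hp2 : p ≠ 2) (hbad : (p : ℤ) ∣ W.Δ)
    (hc : ¬ (p : ℤ) ∣ W.c₄) (hnd : ¬ p ∣ padicValInt p W.Δ) {φ σ₀ : GQ}
    (hm : MarkElts p φ σ₀) : ∃ x : TorQ W p, σ₀ • x ≠ x := by
  classical
  by_contra hcon
  push Not at hcon
  have hpp : p.Prime := hp.out
  have hp3 : 3 ≤ p := by have := hpp.two_le; omega
  obtain ⟨A, hAdef⟩ : ∃ A : ValuationSubring Qb, A = padicPlace p := ⟨_, rfl⟩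
  have hA : A.LiesOverPrime p := by rw [hAdef]; exact H54.liesOverPrime_padicPlace p
  obtain ⟨x₀, y₀, α, β', g, hN⟩ := exists_goodNode hpp hbad hΔ hc hA
  set v := A.valuation with hvdef
  have hvp0 : v (p : Qb) ≠ 0 := valuation_p_ne hpp
  have hpos : 0 < v (p : Qb) := zero_lt_iff.mpr hvp0
  have hvp1 : v (p : Qb) < 1 := valuation_p_lt hA
  have hinj := zpow_right_injective₀ hpos (ne_of_lt hvp1)
  have hv : ∀ (σ : A.inertiaSubgroupIn ℚ) (c : Qb), v (σ • c) = v c :=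
    fun σ c => valuation_smul σ.2 c
  have hdisc : ∀ c : Qb, c ≠ 0 → (∀ σ : A.inertiaSubgroupIn ℚ, σ • c = c) →
      ∃ n : ℤ, v c = v (p : Qb) ^ n := fun c hc h => disc_inertia hpp hA hc h
  -- the `p`-torsion
  have hΔQ : (W.map (Int.castRingHom ℚ)).Δ ≠ 0 := by
    rw [WeierstrassCurve.map_Δ]
    simpa using hΔ
  have hΔK := H87.EC.algebraMap_Δ_ne_zero hΔQ
  have hpK : (p : Qb) ≠ 0 := Nat.cast_ne_zero.mpr hpp.ne_zero
  have hrank := H87.EC.finrank_torsionBy (K := Qb) (W.map (Int.castRingHom ℚ)) hΔK hpp.ne_one hpK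
  have htor : ∀ x : TorQ W p, p • x = 0 := by
    intro x
    apply Subtype.ext
    have h1 := x.2
    rw [Submodule.mem_torsionBy_iff, natCast_zsmul] at h1
    exact h1
  have htor' : ∀ x : TorQ W p, p • (x : PtQ W) = 0 := fun x => congrArg Subtype.val (htor x)
  have hcard := natCard_V1 hpp hA hΔ hN
  set V : AddSubgroup (TorQ W p) := (V1 W p A).comap
    ((Submodule.torsionBy ℤ (PtQ W) (p : ℤ)).subtype.toAddMonoidHom) with hV
  have hmemV : ∀ T : TorQ W p, T ∈ V ↔ (T : PtQ W) ∈ V1 W p A := fun T => Iff.rfl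
  have hVcard : Nat.card V = p := by
    refine (Nat.card_congr (Equiv.ofBijective
      (fun T : V => (⟨((T : TorQ W p) : PtQ W), T.2⟩ : V1 W p A)) ⟨?_, ?_⟩)).trans hcard
    · intro T T' h1
      have h2 := congrArg (fun z : V1 W p A => (z : PtQ W)) h1
      exact Subtype.ext (Subtype.ext h2)
    · rintro ⟨T, hT⟩
      have hT1 : T ∈ Submodule.torsionBy ℤ (PtQ W) (p : ℤ) := by
        rw [Submodule.mem_torsionBy_iff, natCast_zsmul]
        exact hT.1
      exact ⟨⟨⟨T, hT1⟩, hT⟩, rfl⟩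
  have hVfin : Finite V := Nat.finite_of_card_ne_zero (by rw [hVcard]; exact hpp.ne_zero)
  obtain ⟨x, hx⟩ : ∃ x : TorQ W p, x ∉ V := by
    by_contra hcon'
    push Not at hcon'
    have h1 : V = ⊤ := by
      rw [eq_top_iff]
      exact fun x _ => hcon' x
    obtain ⟨b⟩ := H87.EC.exists_basis_torsionBy (K := Qb) (W.map (Int.castRingHom ℚ)) hΔK hpK
    have h2 : Nat.card (TorQ W p) = p ^ 2 := by
      rw [Nat.card_congr b.equivFun.toEquiv]
      simp
    have h3 := hVcard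
    rw [h1] at h3
    have h4 : Nat.card (⊤ : AddSubgroup (TorQ W p)) = Nat.card (TorQ W p) :=
      Nat.card_congr AddSubgroup.topEquiv.toEquiv
    rw [h4, h2] at h3
    have := hpp.two_le
    nlinarith
  obtain ⟨T₀, hT₀, hT00⟩ : ∃ T₀ ∈ V, T₀ ≠ 0 := by
    by_contra hcon'
    push Not at hcon'
    have h1 : V = ⊥ := by
      rw [eq_bot_iff]
      intro T hT
      rw [AddSubgroup.mem_bot]
      exact hcon' T hT
    rw [h1, AddSubgroup.card_bot] at hVcard
    exact hpp.one_lt.ne hVcard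
  have hVσ : ∀ (σ : A.inertiaSubgroupIn ℚ), ∀ T ∈ V, σ • T ∈ V := fun σ T hT =>
    smul_mem_V1 σ.2 hT
  have hVx : ∀ (σ : A.inertiaSubgroupIn ℚ) (y : TorQ W p), σ • y - y ∈ V := fun σ y =>
    smul_sub_mem_V1 hpp hA hN σ.2 (htor' y)
  have hx' : (x : PtQ W) ∉ V1 W p A := hx
  -- the Weil pairing
  obtain ⟨e, hadd, hadd', hself, hpow, hprim, hequiv⟩ :=
    H39.exists_weilPairing (S := ℚ) (K := Qb) (W.map (Int.castRingHom ℚ)) hΔK hp3
  have hli : LinearIndependent (ZMod p) ![T₀, x] := by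
    rw [LinearIndependent.pair_iff' hT00]
    intro a ha
    apply hx
    rw [← ha, zmod_smul_eq]
    exact V.nsmul_mem hT₀ _
  have hcardf : Fintype.card (Fin 2) = Module.finrank (ZMod p) (TorQ W p) := by
    rw [hrank]; rfl
  set b := basisOfLinearIndependentOfCardEqFinrank hli hcardf with hb
  have hb0 : b 0 = T₀ := by rw [hb, coe_basisOfLinearIndependentOfCardEqFinrank]; rfl
  have hb1 : b 1 = x := by rw [hb, coe_basisOfLinearIndependentOfCardEqFinrank]; rfl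
  have hω := hprim b
  rw [hb0, hb1] at hω
  have hene : ∀ u w, e u w ≠ 0 := fun u w h0 => by
    have := hpow u w
    rw [h0, zero_pow hpp.ne_zero] at this
    exact zero_ne_one this
  have hVV : ∀ T ∈ V, ∀ T' ∈ V, e T T' = 1 := by
    intro T hT T' hT'
    have h0 : ∀ u, e u 0 = 1 := fun u => by
      have h1 := hadd' u 0 0
      rw [add_zero] at h1
      exact (mul_eq_left₀ (hene u 0)).mp h1.symm
    have h0' : ∀ u, e 0 u = 1 := fun u => by
      have h1 := hadd 0 0 u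
      rw [add_zero] at h1
      exact (mul_eq_left₀ (hene 0 u)).mp h1.symm
    obtain ⟨m, rfl⟩ := exists_nsmul_of_prime_card hVcard hT₀ hT00 hT
    obtain ⟨n, rfl⟩ := exists_nsmul_of_prime_card hVcard hT₀ hT00 hT'
    have h2 : ∀ n : ℕ, e T₀ (n • T₀) = 1 := by
      intro n
      induction n with
      | zero => rw [zero_smul]; exact h0 _
      | succ n ih => rw [succ_nsmul, hadd', ih, hself, one_mul]
    have h3 : ∀ m : ℕ, e (m • T₀) (n • T₀) = 1 := by
      intro m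
      induction m with
      | zero => rw [zero_smul]; exact h0' _
      | succ m ih => rw [succ_nsmul, hadd, ih, h2, one_mul]
    exact h3 m
  -- the equivariant character
  have hψσ : ∀ (σ : A.inertiaSubgroupIn ℚ), ∀ T ∈ V, e (σ • T) x = σ • e T x := by
    intro σ T hT
    have h1 : e (σ • T) (σ • x) = σ • e T x := hequiv (σ : GQ) T x
    have h2 : σ • x = x + (σ • x - x) := by abel
    rw [h2, hadd', hVV _ (hVσ σ T hT) _ (hVx σ x), mul_one] at h1
    exact h1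
  -- the function `ξ`
  set ξ : TorQ W p → Qb := fun P => xN (P : PtQ W) - x₀ with hξ
  have hfixx₀ : ∀ σ : A.inertiaSubgroupIn ℚ, σ • (x₀ : Qb) = x₀ := fun σ => (hN.inertia σ.2).1
  have hξσ : ∀ (σ : A.inertiaSubgroupIn ℚ) (y : TorQ W p), ξ (σ • y) = σ • ξ y := by
    intro σ y
    have h1 : xN ((σ : GQ) • (y : PtQ W)) = (σ : GQ) (xN (y : PtQ W)) := xN_smul _ _
    show xN ((σ : GQ) • (y : PtQ W)) - x₀ = σ • (xN (y : PtQ W) - x₀)
    rw [h1, smul_sub, hfixx₀]
    rfl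
  have hnotmem : ∀ T ∈ V, ((x + T : TorQ W p) : PtQ W) ∉ V1 W p A := fun T hT h => hx (by
    have h1 : x + T ∈ V := h
    have := V.sub_mem h1 hT
    rwa [add_sub_cancel_right] at this)
  have hξval : ∀ T ∈ V, ∃ n : ℤ, v (ξ (x + T)) ^ p = v (p : Qb) ^ n ∧ ¬ (p : ℤ) ∣ n ∧
      ξ (x + T) ≠ 0 := by
    intro T hT
    obtain ⟨k, hk1, hk2, hk3⟩ := near_exp hpp hp2 hA hN (htor' (x + T)) (hnotmem T hT)
    refine ⟨padicValInt p W.Δ * k, ?_, ?_, hk3⟩
    · show v (xN ((x + T : TorQ W p) : PtQ W) - x₀) ^ p = _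
      rw [hk1, hN.valuation_g hpp hA hΔ, zpow_mul, zpow_natCast]
    · intro h
      rcases (Nat.prime_iff_prime_int.mp hpp).dvd_or_dvd h with h1 | h1
      · exact hnd (by exact_mod_cast h1)
      · exact hk2 h1
  have hdist : ∀ T ∈ V, ∀ T' ∈ V, T ≠ T' →
      v (ξ (x + T) - ξ (x + T')) ^ (p - 1) = v (ξ (x + T')) ^ (p - 1) * v (p : Qb) := by
    intro T hT T' hT' hne
    have h1 := val_xi_sub hpp hp2 hA hΔ hN (htor' (x + T')) (hnotmem T' hT')
      (T := ((T - T' : TorQ W p) : PtQ W)) (V.sub_mem hT hT')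
      (fun h => hne (sub_eq_zero.mp (Subtype.ext h)))
    have e1 : ((x + T' : TorQ W p) : PtQ W) + ((T - T' : TorQ W p) : PtQ W) =
        ((x + T : TorQ W p) : PtQ W) := by
      have : (x + T') + (T - T') = x + T := by abel
      exact congrArg Subtype.val this
    rw [e1] at h1
    show v (xN ((x + T : TorQ W p) : PtQ W) - x₀ - (xN ((x + T' : TorQ W p) : PtQ W) - x₀)) ^
      (p - 1) = v (xN ((x + T' : TorQ W p) : PtQ W) - x₀) ^ (p - 1) * v (p : Qb)
    rw [sub_sub_sub_cancel_right]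
    exact h1
  have hinjξ : ∀ T ∈ V, ∀ T' ∈ V, ξ (x + T) = ξ (x + T') → T = T' := by
    intro T hT T' hT' h
    by_contra hne
    have h1 := hdist T hT T' hT' hne
    rw [h, sub_self, map_zero, zero_pow (by omega)] at h1
    obtain ⟨-, -, -, h2⟩ := hξval T' hT'
    exact mul_ne_zero (pow_ne_zero _ ((Valuation.ne_zero_iff _).mpr h2)) hvp0 h1.symm
  -- transitivity
  have htr : ∀ T ∈ V, ∃ σ : A.inertiaSubgroupIn ℚ, σ • x = x + T := by
    obtain ⟨σ₁, hσ₁, hne⟩ := exists_smul_ne hpp hp2 hA hΔ hN (T := (T₀ : PtQ W)) hT₀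
      (fun h => hT00 (Subtype.ext h))
    rcases affine_dichotomy (A.inertiaSubgroupIn ℚ) (V1 W p A) hcard
      (fun σ hσ T hT => smul_mem_V1 hσ hT) (x : PtQ W)
      (fun σ hσ => smul_sub_mem_V1 hpp hA hN hσ (htor' x)) hσ₁
      (T₀ := (T₀ : PtQ W)) hT₀ hne with ⟨T, hT, h⟩ | h
    · exfalso
      have hT1 : T ∈ Submodule.torsionBy ℤ (PtQ W) (p : ℤ) := by
        rw [Submodule.mem_torsionBy_iff, natCast_zsmul]
        exact hT.1
      obtain ⟨n, hn1, hn2, hn3⟩ := hξval ⟨T, hT1⟩ hT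
      obtain ⟨m, hm'⟩ := hdisc _ hn3 (fun σ => by
        rw [← hξσ]
        congr 1
        exact Subtype.ext (h σ σ.2))
      rw [hm', ← zpow_natCast, ← zpow_mul] at hn1
      have h3 : m * (p : ℤ) = n := hinj hn1
      exact hn2 ⟨m, by rw [← h3]; ring⟩
    · intro T hT
      obtain ⟨σ, hσ, h1⟩ := h (T : PtQ W) hT
      exact ⟨⟨σ, hσ⟩, Subtype.ext h1⟩
  -- the stabiliser
  set H : Subgroup (A.inertiaSubgroupIn ℚ) := MulAction.stabilizer (A.inertiaSubgroupIn ℚ) x with hH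
  have hindex : H.index = p := by
    rw [hH, MulAction.index_stabilizer]
    have h1 : MulAction.orbit (A.inertiaSubgroupIn ℚ) x =
        (fun T => x + T) '' (V : Set (TorQ W p)) := by
      ext z
      constructor
      · rintro ⟨σ, rfl⟩
        refine ⟨σ • x - x, hVx σ x, ?_⟩
        show x + (σ • x - x) = σ • x
        abel
      · rintro ⟨T, hT, rfl⟩
        obtain ⟨σ, hσ⟩ := htr T hT
        exact ⟨σ, hσ⟩
    rw [h1, Set.ncard_image_of_injective _ (add_right_injective x)]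
    exact hVcard
  -- the Kummer generator
  obtain ⟨β, hβ0, hβσ⟩ := exists_kummer (G := A.inertiaSubgroupIn ℚ) hVσ (hVx · x)
    (fun T => e T x) (fun T _ => hene T x) (fun T _ T' _ => hadd T T' x) hψσ ξ hξσ hinjξ
  have hβp : ∀ σ : A.inertiaSubgroupIn ℚ, σ • β ^ p = β ^ p := by
    intro σ
    rw [smul_pow', hβσ σ, mul_pow, hpow, one_mul]
  have hβH : ∀ σ ∈ H, σ • β = β := by
    intro σ hσ
    have h1 : σ • x = x := hσ
    have h2 : e (σ • x - x) x = 1 := by
      rw [h1, sub_self]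
      have h1 := hadd 0 0 x
      rw [add_zero] at h1
      exact (mul_eq_left₀ (hene 0 x)).mp h1.symm
    rw [hβσ σ, h2, one_mul]
  obtain ⟨j, hj⟩ := hdisc (β ^ p) (pow_ne_zero _ hβ0) hβp
  rw [map_pow] at hj
  -- `σ₀`
  have hσ₀ : σ₀ ∈ A.inertiaSubgroupIn ℚ := by rw [hAdef]; exact hm.inert
  have hσβ : σ₀ β = β := hβH ⟨σ₀, hσ₀⟩ (hcon x)
  have hpj : (p : ℤ) ∣ j := by
    by_contra hpj
    obtain ⟨π₁, hπ, hπσ⟩ := hm.move
    have hπ0 : π₁ ≠ 0 := by
      rintro rfl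
      exact hπσ (map_zero σ₀)
    have hw1 : v (β / π₁ ^ j) = 1 := by
      apply H44E.pow_inj (n := p) hpp.ne_zero
      rw [one_pow, map_div₀, div_pow, hj, map_zpow₀, ← zpow_natCast (v π₁ ^ j), ← zpow_mul,
        mul_comm, zpow_mul, zpow_natCast, ← map_pow, hπ]
      exact div_self (zpow_ne_zero _ hvp0)
    have hwU : β / π₁ ^ j ∈ UU p := by
      refine ⟨?_, 1, ?_⟩
      · have h1 : β / π₁ ^ j ∈ A := by
          rw [← A.valuation_le_one_iff]
          exact hw1.le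
        have h2 : β / π₁ ^ j ∉ A.nonunits := by
          intro h2
          have h3 : v (β / π₁ ^ j) < 1 := h2
          rw [hw1] at h3
          exact lt_irrefl _ h3
        rw [hAdef] at h1 h2
        refine le_antisymm h1 ?_
        by_contra hcon2
        rw [not_le] at hcon2
        exact h2 ((H54.mem_nonunits_padicPlace_iff _).mpr hcon2)
      · rw [pow_one, div_pow, ← zpow_natCast (π₁ ^ j), ← zpow_mul, mul_comm j, zpow_mul,
          zpow_natCast, hπ]
        refine fixI_div (fun σ hσ => ?_) (fixI_zpow (fixI_natCast p) j)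
        exact hβp ⟨σ, by rw [hAdef]; exact hσ⟩
    have h1 := hm.fix _ hwU
    rw [map_div₀, hσβ, map_zpow₀] at h1
    have h2 : (σ₀ π₁) ^ j = π₁ ^ j := by
      have hne : σ₀ π₁ ≠ 0 := (map_ne_zero σ₀).mpr hπ0
      rw [div_eq_div_iff (zpow_ne_zero _ hne) (zpow_ne_zero _ hπ0)] at h1
      exact (mul_left_cancel₀ hβ0 h1).symm
    apply hπσ
    have h3 : (σ₀ π₁ / π₁) ^ j = 1 := by
      rw [div_zpow, h2, div_self (zpow_ne_zero _ hπ0)]
    have h4 : (σ₀ π₁ / π₁) ^ (p : ℤ) = 1 := by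
      rw [zpow_natCast, div_pow, ← map_pow, hπ, map_natCast, div_self hpK]
    have hcop : IsCoprime j (p : ℤ) := by
      rw [isCoprime_comm]
      exact (Int.isCoprime_iff_gcd_eq_one.mpr
        ((Nat.Prime.coprime_iff_not_dvd hpp).mpr fun h => hpj (Int.natCast_dvd.mpr h)))
    obtain ⟨a, c, hac⟩ := hcop
    have hne : σ₀ π₁ / π₁ ≠ 0 := div_ne_zero ((map_ne_zero σ₀).mpr hπ0) hπ0
    have h5 : (σ₀ π₁ / π₁) ^ (1 : ℤ) = 1 := by
      rw [← hac, zpow_add₀ hne, mul_comm a, mul_comm c, zpow_mul, zpow_mul, h3, h4, one_zpow,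
        one_zpow, one_mul]
    rw [zpow_one, div_eq_one_iff_eq hπ0] at h5
    exact h5
  obtain ⟨j', rfl⟩ := hpj
  -- the unit generator
  have hfixp : ∀ (σ : A.inertiaSubgroupIn ℚ), σ • ((p : Qb) ^ j') = (p : Qb) ^ j' := fun σ => by
    show (σ : GQ) ((p : Qb) ^ j') = _
    rw [map_zpow₀, map_natCast]
  have hβ1 : v (β / (p : Qb) ^ j') = 1 := by
    apply H44E.pow_inj (n := p) hpp.ne_zero
    rw [one_pow, map_div₀, div_pow, hj, map_zpow₀, ← zpow_natCast (v (p : Qb) ^ j'), ← zpow_mul,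
      mul_comm (p : ℤ)]
    exact div_self (zpow_ne_zero _ hvp0)
  obtain ⟨τ, hτ⟩ := htr T₀ hT₀
  have hτβ : τ • β = e T₀ x * β := by
    rw [hβσ τ, hτ, add_sub_cancel_left]
  have hω1 : e T₀ x ≠ 1 := hω.ne_one hpp.one_lt
  obtain ⟨n, hn1, hn2, hn3⟩ := hξval 0 (zero_mem _)
  rw [add_zero] at hn1 hn3
  refine false_of_unit (G := A.inertiaSubgroupIn ℚ) (v := v) hp3 hv hvp0 hvp1 hdisc hindex
    (fun a _ ha => res_inertia hpp hA ha) hβ1 (fun σ hσ => ?_) (τ := τ) ?_ ?_ hn3 (fun σ hσ => ?_)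
    hn1 hn2 ?_
  · rw [smul_div₀', hβH σ hσ, hfixp]
  · rw [div_pow, smul_div₀', hβp, smul_pow', hfixp]
  · rw [smul_div₀', hfixp, hτβ]
    intro h
    apply hω1
    have h1 := (div_left_inj' (zpow_ne_zero j' hpK)).mp h
    exact (mul_eq_right₀ hβ0).mp h1
  · rw [← hξσ]
    congr 1
  · have h1 := hdist T₀ hT₀ 0 (zero_mem _) hT00
    rw [add_zero, ← hτ, hξσ] at h1
    exact h1

/-- **Très ramifié**, for the residual representation. -/
theorem sigma_ne_one (hp2 : p ≠ 2) (hbad : (p : ℤ) ∣ W.Δ)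
    (hc : ¬ (p : ℤ) ∣ W.c₄) (hnd : ¬ p ∣ padicValInt p W.Δ) {φ σ₀ : GQ}
    (hm : MarkElts p φ σ₀) : (resZ W hΔ p).ρ σ₀ ≠ 1 := by
  intro h
  obtain ⟨x, hx⟩ := exists_smul_ne_of_not_dvd hΔ hp2 hbad hc hnd hm
  exact hx (LinearMap.congr_fun h x)

end main

end Fermat.Agent.H65.TR
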