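import Mathlib
import Fermat.Agent.H65QArith
import Fermat.Agent.H63LTQuad

/-!
# LT-MOD2 (helper96 variant), TA6: existence of `B0`

`K = ℚ(√-N)`, `N = 2m > 2` squarefree, `ψ` a nontrivial character of the class group with
`ψ³ = 1`, `Q` odd: there is an ideal `𝔟` with `Q · N(𝔟) ≡ 3 mod 8` and `ψ(𝔟) ≠ 1`.
-/

set_option autoImplicit false

open NumberField Ideal
open scoped nonZeroDivisors

namespace Fermat.Agent.H65Th

open Fermat.Agent.H63.LT Fermat.Agent.H65Q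

/-- A prime `t` with prescribed odd residue mod 8 for which `-2m` is a square. -/
lemma exists_split_prime (m : ℕ) (hm : Odd m) (hsq : Squarefree m) (hm1 : 1 < m) (a : ℕ)
    (ha : Odd a) (B : ℕ) :
    ∃ t : ℕ, t.Prime ∧ B < t ∧ t % 8 = a % 8 ∧ jacobiSym (-(2 * (m : ℤ))) t = 1 := by
  classical
  have hm0 : m ≠ 0 := hsq.ne_zero
  obtain ⟨l0, hl0, hl0m⟩ := Nat.exists_prime_and_dvd hm1.ne'
  have hmodd : ∀ ℓ : ℕ, ℓ.Prime → ℓ ∣ m → ℓ ≠ 2 := by
    rintro ℓ hℓ hℓm rfl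
    rw [Nat.odd_iff] at hm
    omega
  -- the needed sign of `(t/m)`
  set δ : ℤ := ZMod.χ₈' (a : ZMod 8) * jacobiSym (ZMod.χ₄ (a : ZMod 4)) m with hδ
  have hχ4 : ZMod.χ₄ (a : ZMod 4) = 1 ∨ ZMod.χ₄ (a : ZMod 4) = -1 := by
    rw [Nat.odd_iff] at ha
    rcases Nat.odd_mod_four_iff.1 ha with h | h
    · left; exact ZMod.χ₄_nat_one_mod_four h
    · right; exact ZMod.χ₄_nat_three_mod_four h
  have hχ8 : ZMod.χ₈' (a : ZMod 8) = 1 ∨ ZMod.χ₈' (a : ZMod 8) = -1 := by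
    rw [ZMod.χ₈'_nat_eq_if_mod_eight]
    rw [Nat.odd_iff] at ha
    rw [if_neg (by omega)]
    split_ifs
    · left; rfl
    · right; rfl
  have hj : jacobiSym (ZMod.χ₄ (a : ZMod 4)) m = 1 ∨ jacobiSym (ZMod.χ₄ (a : ZMod 4)) m = -1 := by
    apply jacobiSym.eq_one_or_neg_one
    rcases hχ4 with h | h <;> rw [h] <;> simp
  have hδ1 : δ = 1 ∨ δ = -1 := by
    rw [hδ]
    rcases hχ8 with h | h <;> rcases hj with h' | h' <;> rw [h, h'] <;> norm_num
  set ε : ℕ → ℤ := fun ℓ => if ℓ = l0 then δ else 1 with hεdef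
  have hε1 : ∀ p, ε p = 1 ∨ ε p = -1 := by
    intro p
    simp only [hεdef]
    split_ifs
    · exact hδ1
    · left; rfl
  obtain ⟨x, hx8, hx⟩ := exists_signs m.primeFactors
    (fun p hp => ⟨Nat.prime_of_mem_primeFactors hp,
      hmodd p (Nat.prime_of_mem_primeFactors hp) (Nat.dvd_of_mem_primeFactors hp)⟩) ε
    (fun p _ => hε1 p) a
  have hx8' : x % 8 = a % 8 := hx8
  have hx8m : Nat.Coprime x (8 * m) := by
    apply Nat.Coprime.mul_right
    · have : Nat.Coprime x 2 := by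
        rw [Nat.coprime_two_right, Nat.odd_iff]
        rw [Nat.odd_iff] at ha
        omega
      have h3 : Nat.Coprime x (2 ^ 3) := Nat.Coprime.pow_right 3 this
      exact h3
    · rw [← Nat.prod_primeFactors_of_squarefree hsq]
      apply Nat.Coprime.prod_right
      intro p hp
      have h1 := hx p hp
      have hpp := Nat.prime_of_mem_primeFactors hp
      rw [Nat.coprime_comm, Nat.Prime.coprime_iff_not_dvd hpp]
      intro hpx
      have : NeZero p := ⟨hpp.ne_zero⟩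
      have h2 : jacobiSym (x : ℤ) p = 0 := by
        rw [jacobiSym.eq_zero_iff_not_coprime]
        intro h3
        rw [Int.gcd_natCast_natCast] at h3
        exact hpp.one_lt.ne' (Nat.dvd_one.1 (h3 ▸ Nat.dvd_gcd hpx dvd_rfl))
      rw [h2] at h1
      rcases hε1 p with h | h <;> rw [h] at h1 <;> norm_num at h1
  obtain ⟨t, htB, htp, ht⟩ := Nat.forall_exists_prime_gt_and_modEq B
    (q := 8 * m) (a := x) (by positivity) hx8m
  have ht8 : t % 8 = a % 8 := by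
    have h1 : t ≡ x [MOD 8] := ht.of_dvd (dvd_mul_right _ _)
    have h2 : t % 8 = x % 8 := h1
    rw [h2, hx8']
  refine ⟨t, htp, htB, ht8, ?_⟩
  have hto : Odd t := by
    rw [Nat.odd_iff] at ha ⊢
    omega
  have hjac : jacobiSym (t : ℤ) m = δ := by
    conv_lhs => rw [← Nat.prod_primeFactors_of_squarefree hsq]
    rw [jac_prod_right _ _ (fun p hp => Nat.prime_of_mem_primeFactors hp)]
    have h1 : ∀ p ∈ m.primeFactors, jacobiSym (t : ℤ) p = ε p := by
      intro p hp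
      rw [← hx p hp]
      apply jac_congr
      exact ht.of_dvd ((Nat.dvd_of_mem_primeFactors hp).mul_left 8)
    rw [Finset.prod_congr rfl h1]
    simp only [hεdef]
    rw [Finset.prod_ite_eq' m.primeFactors l0 (fun _ => δ)]
    rw [if_pos (Nat.mem_primeFactors.2 ⟨hl0, hl0m, hm0⟩)]
  have h1 : (-(2 * (m : ℤ))) = (-2) * m := by ring
  rw [h1, jacobiSym.mul_left, jacobiSym.at_neg_two hto, jacobiSym.quadratic_reciprocity' hm hto,
    hjac, qrSign, hδ]
  have h8 : (t : ZMod 8) = (a : ZMod 8) := (ZMod.natCast_eq_natCast_iff t a 8).2 ht8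
  have h4 : (t : ZMod 4) = (a : ZMod 4) := by
    apply (ZMod.natCast_eq_natCast_iff t a 4).2
    show t % 4 = a % 4
    omega
  rw [h8, h4]
  rcases hχ8 with h | h <;> rcases hj with h' | h' <;> rw [h, h'] <;> norm_num

variable {K : Type*} [Field K] [NumberField K] {N : ℕ} {w : 𝓞 K}

/-- norm of `a + b w` -/
lemma norm_eq (h : QuadData K N w) (a b : ℤ) :
    Algebra.norm ℤ ((a : 𝓞 K) + (b : 𝓞 K) * w) = a ^ 2 + N * b ^ 2 := by
  classical
  obtain ⟨σ, hσ⟩ := h.exists_conj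
  have := h.isGalois
  have hcard : Fintype.card (K ≃ₐ[ℚ] K) = 2 := by
    rw [← Nat.card_eq_fintype_card, IsGalois.card_aut_eq_finrank, h.finrank]
  have hσ1 : (1 : K ≃ₐ[ℚ] K) ≠ σ := by
    rintro rfl
    have h1 : (w : K) = -(w : K) := by simpa using hσ
    have h2 : (w : K) = 0 := by
      have : (2 : K) * w = 0 := by linear_combination h1
      simpa using this
    apply h.w_notMem 0
    rw [h2]; simp
  have huniv : (Finset.univ : Finset (K ≃ₐ[ℚ] K)) = {1, σ} := by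
    symm
    apply Finset.eq_of_subset_of_card_le (Finset.subset_univ _)
    rw [Finset.card_univ, hcard, Finset.card_pair hσ1]
  have h1 : algebraMap ℚ K (Algebra.norm ℚ (((a : 𝓞 K) + (b : 𝓞 K) * w : 𝓞 K) : K)) =
      algebraMap ℚ K ((a ^ 2 + N * b ^ 2 : ℤ) : ℚ) := by
    rw [Algebra.norm_eq_prod_automorphisms, huniv, Finset.prod_pair hσ1]
    have h2 := h.sqK
    simp only [map_add, map_mul, map_intCast, map_natCast, map_pow, hσ, AlgEquiv.one_apply,
      Int.cast_add, Int.cast_mul, Int.cast_pow, Int.cast_natCast]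
    linear_combination (-(b : K) ^ 2) * h2
  have h3 := (algebraMap ℚ K).injective h1
  rw [← Algebra.coe_norm_int] at h3
  exact_mod_cast h3

/-- absolute norm of the principal ideal `(a + b w)` -/
lemma absNorm_eq (h : QuadData K N w) (a b : ℤ) :
    (absNorm (span {((a : 𝓞 K) + (b : 𝓞 K) * w)}) : ℤ) = a ^ 2 + N * b ^ 2 := by
  rw [absNorm_span_singleton, norm_eq h, Int.natCast_natAbs, abs_of_nonneg]
  positivity

lemma int_dvd_iff (h : QuadData K N w) (t a b : ℤ) (hd : (t : 𝓞 K) ∣ (a : 𝓞 K) + (b : 𝓞 K) * w) :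
    t ∣ a ∧ t ∣ b := by
  obtain ⟨y, hy⟩ := hd
  obtain ⟨c, d, rfl⟩ := h.exists_int y
  have h1 : ((a - t * c : ℤ) : K) + ((b - t * d : ℤ) : K) * w = 0 := by
    have := congrArg (fun x : 𝓞 K => (x : K)) hy
    simp only [map_add, map_mul, map_intCast] at this
    push_cast
    linear_combination this
  have h2 : b - t * d = 0 := by
    by_contra hne
    apply h.w_notMem (-(a - t * c : ℤ) / (b - t * d : ℤ))
    have h3 : ((b - t * d : ℤ) : K) ≠ 0 := by exact_mod_cast hne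
    rw [map_div₀, eq_div_iff (by simpa using h3)]
    simp only [map_neg, map_intCast]
    linear_combination h1
  rw [h2] at h1
  have h4 : a - t * c = 0 := by
    have : ((a - t * c : ℤ) : K) = 0 := by simpa using h1
    exact_mod_cast this
  exact ⟨⟨c, by linarith⟩, ⟨d, by linarith⟩⟩

lemma finrank_int (h : QuadData K N w) : Module.finrank ℤ (𝓞 K) = 2 := by
  rw [RingOfIntegers.rank, h.finrank]

/-- A split prime is the norm of an ideal. -/
lemma exists_ideal_of_split (h : QuadData K N w) (t : ℕ) (ht : t.Prime) (c : ℤ)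
    (hc : (t : ℤ) ∣ c ^ 2 + N) : ∃ P : Ideal (𝓞 K), P.IsPrime ∧ absNorm P = t := by
  have h1 : t ∣ absNorm (span {((c : 𝓞 K) + ((1 : ℤ) : 𝓞 K) * w)}) := by
    have h2 := absNorm_eq h c 1
    have h3 : (t : ℤ) ∣ (absNorm (span {((c : 𝓞 K) + ((1 : ℤ) : 𝓞 K) * w)}) : ℤ) := by
      rw [h2]; simpa using hc
    exact_mod_cast h3
  obtain ⟨P, hPmax, hPt, hP⟩ := exists_isMaximal_dvd_of_dvd_absNorm' ht _ h1
  refine ⟨P, hPmax.isPrime, ?_⟩
  have htP : (t : 𝓞 K) ∈ P := by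
    have h2 : (t : ℤ) ∈ P.under ℤ := by rw [hPt]; exact mem_span_singleton_self _
    simpa [Ideal.mem_comap] using h2
  have h3 : P ∣ span {(t : 𝓞 K)} := by
    rw [dvd_iff_le, span_singleton_le_iff_mem]
    exact htP
  have h4 : absNorm P ∣ t ^ 2 := by
    have h5 := absNorm_dvd_absNorm_of_le (le_of_dvd h3)
    rwa [absNorm_span_natCast, finrank_int h] at h5
  rcases (Nat.dvd_prime_pow ht).1 h4 with ⟨k, hk, hkP⟩
  interval_cases k
  · rw [pow_zero, absNorm_eq_one_iff] at hkP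
    exact absurd hkP hPmax.ne_top
  · rw [hkP, pow_one]
  · exfalso
    -- then `P = (t)`, so `t ∣ c + w`
    obtain ⟨J, hJ⟩ := h3
    have h5 : absNorm J = 1 := by
      have h6 := congrArg absNorm hJ
      rw [absNorm_span_natCast, finrank_int h, map_mul, hkP] at h6
      have h7 : 0 < t ^ 2 := pow_pos ht.pos 2
      exact Nat.eq_of_mul_eq_mul_left h7 (by rw [← h6, mul_one])
    rw [absNorm_eq_one_iff] at h5
    rw [h5, ← Ideal.one_eq_top, mul_one] at hJ
    rw [← hJ, dvd_iff_le, span_singleton_le_iff_mem, mem_span_singleton] at hP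
    have h8 := int_dvd_iff h t c 1 (by simpa using hP)
    have h9 : (t : ℤ) ∣ 1 := h8.2
    exact ht.one_lt.ne' (by exact_mod_cast Int.eq_one_of_dvd_one (by positivity) h9)

/-- the ramified prime above `2` -/
lemma p2_sq (h : QuadData K N w) :
    (span {(2 : 𝓞 K), w}) * (span {(2 : 𝓞 K), w}) = span {(2 : 𝓞 K)} := by
  obtain ⟨m, hm⟩ := h.even
  have hmodd : Odd m := by
    rw [← Nat.not_even_iff_odd]
    rintro ⟨k, rfl⟩
    have h6 := h.sqf 2 ⟨k, by rw [hm]; ring⟩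
    exact absurd (Nat.isUnit_iff.1 h6) (by norm_num)
  obtain ⟨k, hk⟩ := hmodd
  have hw : w * w = -((N : ℕ) : 𝓞 K) := by rw [← h.sq]; ring
  have hw2 : w * w = -(2 * (2 * (k : 𝓞 K) + 1)) := by
    rw [hw, hm, hk]; push_cast; ring
  apply le_antisymm
  · rw [span_pair_mul_span_pair, span_le]
    intro x hx
    simp only [Set.mem_insert_iff, Set.mem_singleton_iff] at hx
    rw [SetLike.mem_coe, mem_span_singleton]
    rcases hx with rfl | rfl | rfl | rfl
    · exact dvd_mul_right _ _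
    · exact dvd_mul_right _ _
    · exact dvd_mul_left _ _
    · rw [hw2]
      exact ⟨-(2 * (k : 𝓞 K) + 1), by ring⟩
  · rw [span_singleton_le_iff_mem]
    have h1 : (2 : 𝓞 K) * 2 ∈ (span {(2 : 𝓞 K), w}) * (span {(2 : 𝓞 K), w}) :=
      mul_mem_mul (subset_span (by simp)) (subset_span (by simp))
    have h2 : w * w ∈ (span {(2 : 𝓞 K), w}) * (span {(2 : 𝓞 K), w}) :=
      mul_mem_mul (subset_span (by simp)) (subset_span (by simp))
    have h3 : (2 : 𝓞 K) = -(w * w) - (k : 𝓞 K) * (2 * 2) := by rw [hw2]; ring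
    have h4 := sub_mem (neg_mem h2) (mul_mem_left _ (k : 𝓞 K) h1)
    rwa [← h3] at h4

/-- a character of order 3 kills the primes above 2 -/
lemma odd_absNorm_of_prime (h : QuadData K N w) {G : Type*} [CommGroup G]
    (ψ : ClassGroup (𝓞 K) →* G) (hψ3 : ∀ c, ψ c ^ 3 = 1) (P : Ideal (𝓞 K)) (hP : P.IsPrime)
    (hP0 : P ≠ ⊥) (hψP : ψ (ClassGroup.mk0 ⟨P, mem_nonZeroDivisors_iff_ne_zero.2 hP0⟩) ≠ 1) :
    Odd (absNorm P) := by
  rw [← Nat.not_even_iff_odd]
  intro heven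
  apply hψP
  -- `2 ∈ P`
  have h2P : (2 : 𝓞 K) ∈ P := by
    have hmax : P.IsMaximal := hP.isMaximal hP0
    obtain ⟨p, n, hn, hpP, hp, hpn⟩ := exists_prime_and_absNorm_eq_pow P
    have h1 : 2 ∣ p ^ n := by rw [← hpn]; exact heven.two_dvd
    have h2 : p = 2 := ((Nat.prime_dvd_prime_iff_eq Nat.prime_two hp).1
      (Nat.prime_two.dvd_of_dvd_pow h1)).symm
    rw [h2] at hpP
    exact_mod_cast hpP
  have hwP : w ∈ P := by
    apply hP.mem_of_pow_mem 2
    rw [h.sq]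
    obtain ⟨m, hm⟩ := h.even
    rw [hm]
    push_cast
    exact neg_mem (mul_mem_right _ _ h2P)
  have hle : span {(2 : 𝓞 K), w} ≤ P := by
    rw [span_le]
    intro x hx
    rcases hx with rfl | hx
    · exact h2P
    · rw [Set.mem_singleton_iff] at hx
      rw [hx]; exact hwP
  -- `absNorm (2,w) = 2`
  have hsq := p2_sq h
  have h2n : absNorm (span {(2 : 𝓞 K), w}) = 2 := by
    have h3 := congrArg absNorm hsq
    rw [map_mul] at h3
    have h4 : absNorm (span {(2 : 𝓞 K)}) = 2 ^ 2 := by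
      have h5 := absNorm_span_natCast (S := 𝓞 K) 2
      rw [finrank_int h] at h5
      exact_mod_cast h5
    rw [h4] at h3
    have h5 : absNorm (span {(2 : 𝓞 K), w}) ^ 2 = 2 ^ 2 := by rw [← h3]; ring
    exact Nat.pow_left_injective (n := 2) (by norm_num) h5
  have hirr : Irreducible (span {(2 : 𝓞 K), w}) := by
    apply irreducible_of_irreducible_absNorm
    rw [h2n]
    exact Nat.prime_two
  have hPeq : P = span {(2 : 𝓞 K), w} := by
    obtain ⟨J, hJ⟩ := dvd_iff_le.2 hle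
    rcases hirr.isUnit_or_isUnit hJ with h6 | h6
    · exact absurd (isUnit_iff.1 h6) hP.ne_top
    · rw [hJ, isUnit_iff.1 h6, ← one_eq_top, mul_one]
  have h7 : ψ (ClassGroup.mk0 ⟨P, mem_nonZeroDivisors_iff_ne_zero.2 hP0⟩) ^ 2 = 1 := by
    rw [← map_pow, ← map_pow]
    have h8 : ClassGroup.mk0 ((⟨P, mem_nonZeroDivisors_iff_ne_zero.2 hP0⟩ : (Ideal (𝓞 K))⁰) ^ 2)
        = 1 := by
      rw [ClassGroup.mk0_eq_one_iff]
      show Submodule.IsPrincipal (P ^ 2)
      rw [pow_two, hPeq, hsq]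
      exact ⟨⟨2, rfl⟩⟩
    rw [h8, map_one]
  have h9 := hψ3 (ClassGroup.mk0 ⟨P, mem_nonZeroDivisors_iff_ne_zero.2 hP0⟩)
  rw [pow_succ, h7, one_mul] at h9
  exact h9

/-- There is an ideal of odd norm on which `ψ ≠ 1`. -/
lemma exists_odd_ideal (h : QuadData K N w) {G : Type*} [CommGroup G]
    (ψ : ClassGroup (𝓞 K) →* G) (hψ : ψ ≠ 1) (hψ3 : ∀ c, ψ c ^ 3 = 1) :
    ∃ (P : Ideal (𝓞 K)) (hP0 : P ≠ ⊥), Odd (absNorm P) ∧
      ψ (ClassGroup.mk0 ⟨P, mem_nonZeroDivisors_iff_ne_zero.2 hP0⟩) ≠ 1 := by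
  by_contra hcon
  push Not at hcon
  apply hψ
  ext c
  rw [MonoidHom.one_apply]
  obtain ⟨⟨I, hI⟩, rfl⟩ := ClassGroup.mk0_surjective c
  have hI0 : I ≠ ⊥ := mem_nonZeroDivisors_iff_ne_zero.1 hI
  have key : ∀ (I : Ideal (𝓞 K)) (hI0 : I ≠ ⊥),
      ψ (ClassGroup.mk0 ⟨I, mem_nonZeroDivisors_iff_ne_zero.2 hI0⟩) = 1 := by
    intro I
    induction I using UniqueFactorizationMonoid.induction_on_prime with
    | h₁ => intro h0; exact absurd rfl h0
    | h₂ I hI =>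
      intro h0
      have h1 : I = ⊤ := isUnit_iff.1 hI
      subst h1
      have h2 : ClassGroup.mk0 (⟨⊤, mem_nonZeroDivisors_iff_ne_zero.2 h0⟩ : (Ideal (𝓞 K))⁰) = 1 := by
        rw [ClassGroup.mk0_eq_one_iff]
        exact ⟨⟨1, by simp⟩⟩
      rw [h2, map_one]
    | h₃ I P hI hP IH =>
      intro h0
      have hP0 : P ≠ ⊥ := hP.ne_zero
      have h1 : ClassGroup.mk0 (⟨P * I, mem_nonZeroDivisors_iff_ne_zero.2 h0⟩ : (Ideal (𝓞 K))⁰) =
          ClassGroup.mk0 ⟨P, mem_nonZeroDivisors_iff_ne_zero.2 hP0⟩ *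
          ClassGroup.mk0 ⟨I, mem_nonZeroDivisors_iff_ne_zero.2 hI⟩ := by
        rw [← map_mul]; rfl
      rw [h1, map_mul, IH hI, mul_one]
      by_contra hne
      exact hne (hcon P hP0 (odd_absNorm_of_prime h ψ hψ3 P (isPrime_of_prime hP) hP0 hne))
  exact key I hI0

/-- **TA6**: existence of `B0`. -/
theorem exists_B0 (h : QuadData K N w) (hN : 2 < N) {G : Type*} [CommGroup G]
    (ψ : ClassGroup (𝓞 K) →* G) (hψ : ψ ≠ 1) (hψ3 : ∀ c, ψ c ^ 3 = 1) (Q : ℕ) (hQ : Odd Q) :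
    ∃ (b : Ideal (𝓞 K)) (hb : b ≠ ⊥), (Q * absNorm b) % 8 = 3 ∧
      ψ (ClassGroup.mk0 ⟨b, mem_nonZeroDivisors_iff_ne_zero.2 hb⟩) ≠ 1 := by
  obtain ⟨m, hm⟩ := h.even
  have hmodd : Odd m := by
    rw [← Nat.not_even_iff_odd]
    rintro ⟨k, rfl⟩
    have h6 := h.sqf 2 ⟨k, by rw [hm]; ring⟩
    exact absurd (Nat.isUnit_iff.1 h6) (by norm_num)
  have hmsq : Squarefree m := Squarefree.squarefree_of_dvd ⟨2, by rw [hm]; ring⟩ h.sqf
  have h3Q : Odd (3 * Q) := Odd.mul (by decide) hQ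
  obtain ⟨t, htp, -, ht8, htj⟩ := exists_split_prime m hmodd hmsq (by omega) (3 * Q) h3Q 0
  have : Fact t.Prime := ⟨htp⟩
  obtain ⟨d, hd⟩ := ZMod.isSquare_of_jacobiSym_eq_one htj
  obtain ⟨P, hP, hPt⟩ : ∃ P : Ideal (𝓞 K), P.IsPrime ∧ absNorm P = t := by
    apply exists_ideal_of_split h t htp (d.val : ℤ)
    rw [← ZMod.intCast_zmod_eq_zero_iff_dvd]
    have hval : (((d.val : ℕ) : ℤ) : ZMod t) = d := by simp
    push_cast at hd ⊢
    rw [hm]
    push_cast
    have hval' : ((d.val : ℕ) : ZMod t) = d := by simp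
    rw [hval']
    linear_combination (-1 : ZMod t) * hd
  have hP0 : P ≠ ⊥ := by
    rintro rfl
    rw [absNorm_bot] at hPt
    exact htp.ne_zero hPt.symm
  have hQ8 : ∀ n : ℕ, n % 8 = (3 * Q) % 8 → (Q * n) % 8 = 3 := by
    intro n hn
    rw [Nat.odd_iff] at hQ
    have h1 : (Q * n) % 8 = (Q % 8) * (n % 8) % 8 := Nat.mul_mod _ _ _
    rw [h1, hn]
    have h2 : (3 * Q) % 8 = (3 * (Q % 8)) % 8 := by omega
    rw [h2]
    have h3 : Q % 8 = 1 ∨ Q % 8 = 3 ∨ Q % 8 = 5 ∨ Q % 8 = 7 := by omega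
    rcases h3 with h3 | h3 | h3 | h3 <;> rw [h3]
  by_cases hψP : ψ (ClassGroup.mk0 ⟨P, mem_nonZeroDivisors_iff_ne_zero.2 hP0⟩) = 1
  · obtain ⟨J, hJ0, hJodd, hJψ⟩ := exists_odd_ideal h ψ hψ hψ3
    have hb0 : P * J * J ≠ ⊥ := by
      have := mul_ne_zero (mul_ne_zero (a := P) (b := J) hP0 hJ0) (b := J) hJ0
      exact this
    refine ⟨P * J * J, hb0, ?_, ?_⟩
    · apply hQ8
      rw [map_mul, map_mul, hPt]
      have h1 : (t * absNorm J * absNorm J) % 8 =
          ((t % 8) * ((absNorm J % 8) * (absNorm J % 8) % 8)) % 8 := by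
        rw [mul_assoc, Nat.mul_mod t, Nat.mul_mod (absNorm J) (absNorm J)]
      rw [h1]
      rw [Nat.odd_iff] at hJodd
      have h3 : absNorm J % 8 = 1 ∨ absNorm J % 8 = 3 ∨ absNorm J % 8 = 5 ∨ absNorm J % 8 = 7 := by
        omega
      rcases h3 with h3 | h3 | h3 | h3 <;> rw [h3] <;> simp [ht8]
    · have h1 : ClassGroup.mk0 (⟨P * J * J, mem_nonZeroDivisors_iff_ne_zero.2 hb0⟩ :
          (Ideal (𝓞 K))⁰) =
          ClassGroup.mk0 ⟨P, mem_nonZeroDivisors_iff_ne_zero.2 hP0⟩ *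
          ClassGroup.mk0 ⟨J, mem_nonZeroDivisors_iff_ne_zero.2 hJ0⟩ *
          ClassGroup.mk0 ⟨J, mem_nonZeroDivisors_iff_ne_zero.2 hJ0⟩ := by
        rw [← map_mul, ← map_mul]; rfl
      rw [h1, map_mul, map_mul, hψP, one_mul]
      intro h2
      have h3 := hψ3 (ClassGroup.mk0 ⟨J, mem_nonZeroDivisors_iff_ne_zero.2 hJ0⟩)
      rw [pow_succ, pow_two, h2, one_mul] at h3
      exact hJψ h3
  · exact ⟨P, hP0, hQ8 _ (by rw [hPt, ht8]), hψP⟩

end Fermat.Agent.H65Th
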