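import Mathlib

/-!
# LT-MOD2 (helper96 variant), W8: lattice points versus ideals

`R` a Dedekind domain, finite free over `ℤ`, with units `±1`.  For a nonzero ideal `𝔞` and `n ≥ 1`
the number of `x ∈ 𝔞` with `N(x) = n · N(𝔞)` is twice the number of ideals `𝔠` with
`N(𝔠) = n` and `𝔠𝔞` principal (i.e. `[𝔠] = [𝔞]⁻¹`).
-/

namespace Fermat.Agent.H65Th

open Ideal

variable {R : Type*} [CommRing R] [IsDedekindDomain R] [Module.Free ℤ R] [Module.Finite ℤ R]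
  [CharZero R]

/-- the points of norm `n * N(𝔞)` in `𝔞`. -/
abbrev Pts (𝔞 : Ideal R) (n : ℕ) : Type _ :=
  {x : R // x ∈ 𝔞 ∧ absNorm (span {x}) = n * absNorm 𝔞}

/-- the ideals of norm `n` in the class inverse to `𝔞` -/
abbrev Idls (𝔞 : Ideal R) (n : ℕ) : Type _ :=
  {𝔠 : Ideal R // absNorm 𝔠 = n ∧ Submodule.IsPrincipal (𝔠 * 𝔞)}

/-- the chosen generator of `𝔠 * 𝔞` -/
noncomputable def gen {𝔞 : Ideal R} {n : ℕ} (c : Idls 𝔞 n) : R :=
  c.2.2.principal.choose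

lemma span_gen {𝔞 : Ideal R} {n : ℕ} (c : Idls 𝔞 n) : span {gen c} = c.1 * 𝔞 :=
  c.2.2.principal.choose_spec.symm

lemma gen_ne_zero {𝔞 : Ideal R} (h𝔞 : 𝔞 ≠ ⊥) {n : ℕ} (hn : 0 < n) (c : Idls 𝔞 n) :
    gen c ≠ 0 := by
  intro h
  have h1 := span_gen c
  rw [h, span_singleton_eq_bot.2 rfl] at h1
  rcases mul_eq_zero.1 (h1.symm.trans (Ideal.zero_eq_bot (R := R)).symm) with h2 | h2
  · have h3 := c.2.1
    rw [h2, Ideal.zero_eq_bot, absNorm_bot] at h3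
    omega
  · exact h𝔞 (h2.trans Ideal.zero_eq_bot)

lemma gen_mem {𝔞 : Ideal R} {n : ℕ} (c : Idls 𝔞 n) : gen c ∈ 𝔞 := by
  have h : gen c ∈ c.1 * 𝔞 := (span_gen c).le (mem_span_singleton_self _)
  have h2 : c.1 * 𝔞 ≤ 𝔞 := Ideal.mul_le_right
  exact h2 h

lemma absNorm_gen {𝔞 : Ideal R} {n : ℕ} (c : Idls 𝔞 n) :
    absNorm (span {gen c}) = n * absNorm 𝔞 := by
  rw [span_gen, map_mul, c.2.1]

/-- the map `(𝔠, ±) ↦ ± gen 𝔠` -/
noncomputable def toPts (𝔞 : Ideal R) (n : ℕ) (p : Idls 𝔞 n × Bool) : Pts 𝔞 n :=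
  if p.2 then ⟨gen p.1, gen_mem p.1, absNorm_gen p.1⟩ else
    ⟨-gen p.1, neg_mem (gen_mem p.1), by rw [span_singleton_neg]; exact absNorm_gen p.1⟩

lemma toPts_val (𝔞 : Ideal R) (n : ℕ) (p : Idls 𝔞 n × Bool) :
    (toPts 𝔞 n p).1 = if p.2 then gen p.1 else -gen p.1 := by
  unfold toPts
  split_ifs with h <;> rfl

lemma toPts_bijective (hU : ∀ u : Rˣ, u = 1 ∨ u = -1) (𝔞 : Ideal R) (h𝔞 : 𝔞 ≠ ⊥) (n : ℕ)
    (hn : 0 < n) : Function.Bijective (toPts 𝔞 n) := by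
  constructor
  · rintro ⟨c, b⟩ ⟨c', b'⟩ h
    have h1 : (if b then gen c else -gen c) = (if b' then gen c' else -gen c') := by
      have := congrArg Subtype.val h
      rwa [toPts_val, toPts_val] at this
    have hs : ∀ (c : Idls 𝔞 n) (b : Bool),
        span {(if b then gen c else -gen c)} = c.1 * 𝔞 := by
      intro c b
      cases b
      · simp [span_singleton_neg, span_gen]
      · simp [span_gen]
    have h2 : c.1 * 𝔞 = c'.1 * 𝔞 := by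
      rw [← hs c b, h1, hs c' b']
    have h3 : c = c' := Subtype.ext (mul_right_cancel₀ (by rwa [Ne, Ideal.zero_eq_bot]) h2)
    subst h3
    have h4 := gen_ne_zero h𝔞 hn c
    cases b <;> cases b' <;> simp only [if_true, Bool.false_eq_true, if_false] at h1 ⊢
    · exact absurd (neg_eq_self.1 h1) h4
    · exact absurd (neg_eq_self.1 h1.symm) h4
  · rintro ⟨x, hx, hxn⟩
    have h1 : 𝔞 ∣ span {x} := by
      rw [dvd_iff_le, span_singleton_le_iff_mem]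
      exact hx
    obtain ⟨c, hc⟩ := h1
    have h2 : absNorm c = n := by
      rw [hc, map_mul, mul_comm] at hxn
      have h3 : absNorm 𝔞 ≠ 0 := by rwa [Ne, absNorm_eq_zero_iff]
      exact Nat.eq_of_mul_eq_mul_right (Nat.pos_of_ne_zero h3) hxn
    have h4 : Submodule.IsPrincipal (c * 𝔞) := ⟨⟨x, by rw [mul_comm, ← hc]⟩⟩
    set C : Idls 𝔞 n := ⟨c, h2, h4⟩ with hC
    have h5 : span {gen C} = span {x} := by rw [span_gen, hc, mul_comm]
    rw [span_singleton_eq_span_singleton] at h5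
    obtain ⟨u, hu⟩ := h5
    rcases hU u with rfl | rfl
    · refine ⟨(C, true), Subtype.ext ?_⟩
      rw [toPts_val]
      simpa using hu
    · refine ⟨(C, false), Subtype.ext ?_⟩
      rw [toPts_val]
      simpa using hu

/-- `#{x ∈ 𝔞 : N(x) = n N(𝔞)} = 2 #{𝔠 : N(𝔠) = n, 𝔠𝔞 principal}` -/
theorem card_pts (hU : ∀ u : Rˣ, u = 1 ∨ u = -1) (𝔞 : Ideal R) (h𝔞 : 𝔞 ≠ ⊥) (n : ℕ)
    (hn : 0 < n) : Nat.card (Pts 𝔞 n) = 2 * Nat.card (Idls 𝔞 n) := by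
  rw [← Nat.card_congr (Equiv.ofBijective _ (toPts_bijective hU 𝔞 h𝔞 n hn)), Nat.card_prod,
    Nat.card_eq_fintype_card (α := Bool), Fintype.card_bool, mul_comm]

instance (𝔞 : Ideal R) (n : ℕ) : Finite (Idls 𝔞 n) :=
  ((Ideal.finite_setOfPred_absNorm_eq n).subset (fun I hI => hI.1) :
    {I : Ideal R | absNorm I = n ∧ Submodule.IsPrincipal (I * 𝔞)}.Finite).to_subtype

/-- only `0` has norm `0` -/
lemma card_pts_zero (𝔞 : Ideal R) : Nat.card (Pts 𝔞 0) = 1 := by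
  have : Nonempty (Unique (Pts 𝔞 0)) := by
    refine ⟨⟨⟨0, zero_mem _, by simp⟩⟩, ?_⟩
    rintro ⟨x, hx, hxn⟩
    apply Subtype.ext
    rw [zero_mul, absNorm_eq_zero_iff, span_singleton_eq_bot] at hxn
    exact hxn
  obtain ⟨u⟩ := this
  exact Nat.card_unique

section classGroup

/-- `𝔠𝔞` is principal iff the classes are inverse to each other. -/
lemma isPrincipal_mul_iff {𝔠 𝔞 : Ideal R} (h𝔠 : 𝔠 ≠ ⊥) (h𝔞 : 𝔞 ≠ ⊥) :
    Submodule.IsPrincipal (𝔠 * 𝔞) ↔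
      ClassGroup.mk0 ⟨𝔠, mem_nonZeroDivisors_iff_ne_zero.2 h𝔠⟩ *
        ClassGroup.mk0 ⟨𝔞, mem_nonZeroDivisors_iff_ne_zero.2 h𝔞⟩ = 1 := by
  rw [← map_mul, ClassGroup.mk0_eq_one_iff]
  rfl

end classGroup

end Fermat.Agent.H65Th
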