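import Mathlib
import Fermat.Agent.H65ThDict
import Fermat.Agent.H80ThLat
import Fermat.Agent.H22Th

/-!
# LT-MOD2 (helper96 variant), part (a): `F ≡ Θ(τ) + β₀ Θ(Qτ)` mod 2, coefficientwise

For representatives `I A`, `J A` of the classes `A`, `A·B0`:
`∑_A ψ(A)⁻¹ rth (I A) (J A) 1 Q n = 2 (t_n + [Q ∣ n] ψ(B0) t_{n/Q}) + 4 X_n` for `n ≥ 1`.
-/

set_option autoImplicit false

open Ideal
open scoped nonZeroDivisors

namespace Fermat.Agent.H65Th

open Fermat.Agent.H80.Th Fermat.Agent.H22.Th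

section count

variable {S : Type*} [CommRing S] [IsDedekindDomain S] [Module.Free ℤ S] [Module.Finite ℤ S]
  [CharZero S]

/-- `{x ∈ I : N_I(x) = n} ≃ {x ∈ I : N(x) = n N(I)}` -/
noncomputable def nmEquiv {I : Ideal S} (hI : I ≠ ⊥) (n : ℕ) :
    {x : I // nm I (x : S) = n} ≃ Pts I n where
  toFun x := ⟨x.1, x.1.2, by rw [← nm_mul_absNorm hI x.1.2, x.2]⟩
  invFun x := ⟨⟨x.1, x.2.1⟩, by
    have h1 := nm_mul_absNorm hI x.2.1
    rw [x.2.2] at h1
    exact Nat.eq_of_mul_eq_mul_right (Nat.pos_of_ne_zero (absNorm_ne_zero hI)) h1⟩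
  left_inv x := rfl
  right_inv x := rfl

/-- number of points of normalised norm `n` in `I`. -/
noncomputable def wc (I : Ideal S) (n : ℕ) : ℕ := Nat.card {x : I // nm I (x : S) = n}

/-- number of ideals of norm `n` in the class `[I]⁻¹` -/
noncomputable def hc (I : Ideal S) (n : ℕ) : ℕ := Nat.card (Idls I n)

lemma wc_zero {I : Ideal S} (hI : I ≠ ⊥) : wc I 0 = 1 := by
  rw [wc, Nat.card_congr (nmEquiv hI 0), card_pts_zero]

lemma wc_pos (hU : ∀ u : Sˣ, u = 1 ∨ u = -1) {I : Ideal S} (hI : I ≠ ⊥) {n : ℕ} (hn : 0 < n) :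
    wc I n = 2 * hc I n := by
  rw [wc, Nat.card_congr (nmEquiv hI n), card_pts hU I hI n hn, hc]

lemma finite_pts (hU : ∀ u : Sˣ, u = 1 ∨ u = -1) {I : Ideal S} (hI : I ≠ ⊥) (n : ℕ) :
    Finite {x : I // nm I (x : S) = n} := by
  rcases Nat.eq_zero_or_pos n with rfl | hn
  · apply Nat.finite_of_card_ne_zero
    have := wc_zero hI
    rw [wc] at this
    rw [this]
    exact one_ne_zero
  · have h1 : Finite (Pts I n) := Finite.of_equiv _ (Equiv.ofBijective _ (toPts_bijective hU I hI n hn))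
    exact Finite.of_equiv _ (nmEquiv hI n).symm

/-- index set of the convolution -/
def idx (Q n : ℕ) : Finset (ℕ × ℕ) :=
  (Finset.range (n + 1) ×ˢ Finset.range (n + 1)).filter fun p => p.1 + Q * p.2 = n

lemma mem_idx {Q n : ℕ} (hQ : 0 < Q) {p : ℕ × ℕ} : p ∈ idx Q n ↔ p.1 + Q * p.2 = n := by
  rw [idx, Finset.mem_filter, Finset.mem_product, Finset.mem_range, Finset.mem_range]
  constructor
  · exact fun h => h.2
  · intro h
    refine ⟨⟨by omega, ?_⟩, h⟩
    have : p.2 ≤ Q * p.2 := Nat.le_mul_of_pos_left _ hQ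
    omega

/-- convolution formula for `rth` -/
theorem rth_eq_sum (hU : ∀ u : Sˣ, u = 1 ∨ u = -1) {I J : Ideal S} (hI : I ≠ ⊥) (hJ : J ≠ ⊥)
    {Q : ℕ} (hQ : 0 < Q) (n : ℕ) :
    rth I J 1 Q n = ∑ p ∈ idx Q n, wc I p.1 * wc J p.2 := by
  classical
  have hfinI := finite_pts hU hI
  have hfinJ := finite_pts hU hJ
  let e : {p : I × J // 1 * nm I (p.1 : S) + Q * nm J (p.2 : S) = n} ≃
      (Σ t : idx Q n, {x : I // nm I (x : S) = t.1.1} × {y : J // nm J (y : S) = t.1.2}) :=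
    { toFun := fun p => ⟨⟨(nm I (p.1.1 : S), nm J (p.1.2 : S)), (mem_idx hQ).2 (by
        have := p.2; simpa using this)⟩, ⟨p.1.1, rfl⟩, ⟨p.1.2, rfl⟩⟩
      invFun := fun q => ⟨(q.2.1.1, q.2.2.1), by
        have h1 := (mem_idx hQ).1 q.1.2
        have h2 := q.2.1.2
        have h3 := q.2.2.2
        rw [one_mul]
        show nm I (q.2.1.1 : S) + Q * nm J (q.2.2.1 : S) = n
        rw [h2, h3, h1]⟩
      left_inv := fun p => rfl
      right_inv := by
        rintro ⟨⟨⟨i, j⟩, hij⟩, ⟨x, hx⟩, ⟨y, hy⟩⟩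
        simp only at hx hy
        subst hx
        subst hy
        rfl }
  rw [rth, Nat.card_congr e, Nat.card_sigma]
  simp only [Nat.card_prod]
  rw [← Finset.sum_coe_sort (idx Q n) (fun p => wc I p.1 * wc J p.2)]
  rfl

/-- the cross term -/
noncomputable def cross (I J : Ideal S) (Q n : ℕ) : ℕ :=
  ∑ p ∈ (idx Q n).filter (fun p => p.1 ≠ 0 ∧ p.2 ≠ 0), hc I p.1 * hc J p.2

/-- `rth = 2 h_I(n) + 2 [Q ∣ n] h_J(n/Q) + 4 (cross term)` for `n ≥ 1`. -/
theorem rth_eq (hU : ∀ u : Sˣ, u = 1 ∨ u = -1) {I J : Ideal S} (hI : I ≠ ⊥) (hJ : J ≠ ⊥)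
    {Q : ℕ} (hQ : 0 < Q) {n : ℕ} (hn : 0 < n) :
    rth I J 1 Q n = 2 * hc I n + (if Q ∣ n then 2 * hc J (n / Q) else 0) + 4 * cross I J Q n := by
  classical
  rw [rth_eq_sum hU hI hJ hQ n]
  have h1 : ∑ p ∈ (idx Q n).filter (fun p => p.2 = 0), wc I p.1 * wc J p.2 = 2 * hc I n := by
    have h2 : (idx Q n).filter (fun p => p.2 = 0) = {(n, 0)} := by
      ext ⟨i, j⟩
      rw [Finset.mem_filter, mem_idx hQ, Finset.mem_singleton, Prod.mk.injEq]
      constructor
      · rintro ⟨h, rfl⟩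
        exact ⟨by simpa using h, rfl⟩
      · rintro ⟨rfl, rfl⟩
        exact ⟨by simp, rfl⟩
    rw [h2, Finset.sum_singleton, wc_zero hJ, wc_pos hU hI hn, mul_one]
  have h3 : ∑ p ∈ (idx Q n).filter (fun p => ¬ p.2 = 0), wc I p.1 * wc J p.2 =
      (if Q ∣ n then 2 * hc J (n / Q) else 0) + 4 * cross I J Q n := by
    rw [← Finset.sum_filter_add_sum_filter_not _ (fun p => p.1 = 0)]
    congr 1
    · rw [Finset.filter_filter]
      split_ifs with hd
      · obtain ⟨k, hk⟩ := hd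
        have hk0 : 0 < k := Nat.pos_of_ne_zero (by rintro rfl; simp at hk; omega)
        have h2 : (idx Q n).filter (fun p => ¬ p.2 = 0 ∧ p.1 = 0) = {(0, n / Q)} := by
          ext ⟨i, j⟩
          rw [Finset.mem_filter, mem_idx hQ, Finset.mem_singleton, Prod.mk.injEq]
          constructor
          · rintro ⟨h, -, rfl⟩
            refine ⟨rfl, ?_⟩
            simp only [zero_add] at h
            rw [← h, Nat.mul_div_cancel_left _ hQ]
          · rintro ⟨rfl, rfl⟩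
            have h5 : n / Q = k := by rw [hk, Nat.mul_div_cancel_left _ hQ]
            refine ⟨?_, ?_, rfl⟩
            · simp only [zero_add]; rw [h5, hk]
            · show ¬ n / Q = 0
              rw [h5]; omega
        rw [h2, Finset.sum_singleton, wc_zero hI, one_mul, wc_pos hU hJ]
        rw [hk, Nat.mul_div_cancel_left _ hQ]
        exact hk0
      · have h2 : (idx Q n).filter (fun p => ¬ p.2 = 0 ∧ p.1 = 0) = ∅ := by
          rw [Finset.filter_eq_empty_iff]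
          rintro ⟨i, j⟩ hij ⟨-, hi⟩
          rw [mem_idx hQ] at hij
          simp only at hi hij
          rw [hi, zero_add] at hij
          exact hd ⟨j, hij.symm⟩
        rw [h2, Finset.sum_empty]
    · rw [Finset.filter_filter, cross, Finset.mul_sum]
      have h2 : (idx Q n).filter (fun p => ¬ p.2 = 0 ∧ ¬ p.1 = 0) =
          (idx Q n).filter (fun p => p.1 ≠ 0 ∧ p.2 ≠ 0) := by
        apply Finset.filter_congr
        intro p _
        exact and_comm
      rw [h2]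
      apply Finset.sum_congr rfl
      intro p hp
      rw [Finset.mem_filter] at hp
      rw [wc_pos hU hI (Nat.pos_of_ne_zero hp.2.1), wc_pos hU hJ (Nat.pos_of_ne_zero hp.2.2)]
      ring
  rw [← Finset.sum_filter_add_sum_filter_not (idx Q n) (fun p => p.2 = 0), h1, h3, add_assoc]

end count

section classes

variable {S : Type*} [CommRing S] [IsDedekindDomain S] [CharZero S] [Module.Free ℤ S]
  [Module.Finite ℤ S] {B : Type*} [CommRing B]

open Classical in
/-- the class of an ideal (junk value `1` at `⊥`) -/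
noncomputable def cl (c : Ideal S) : ClassGroup S :=
  if h : c ∈ (Ideal S)⁰ then ClassGroup.mk0 ⟨c, h⟩ else 1

lemma cl_eq {c : Ideal S} (h : c ∈ (Ideal S)⁰) : cl c = ClassGroup.mk0 ⟨c, h⟩ := by
  classical
  exact dif_pos h

lemma cg_eq (ψ : ClassGroup S →* B) {c : Ideal S} (h : c ∈ (Ideal S)⁰) : cg ψ c = ψ (cl c) := by
  rw [cl_eq h, cg_mk0 ψ h]

lemma mem_of_mem_idn {n : ℕ} (hn : 0 < n) {c : Ideal S} (hc : c ∈ idn S n) : c ∈ (Ideal S)⁰ := by
  rw [mem_nonZeroDivisors_iff_ne_zero]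
  rintro rfl
  rw [mem_idn, map_zero] at hc
  omega

open Classical in
lemma hc_eq_card_filter (I : (Ideal S)⁰) {n : ℕ} (hn : 0 < n) :
    hc (I : Ideal S) n = ((idn S n).filter fun c => cl c * ClassGroup.mk0 I = 1).card := by
  rw [hc]
  refine Nat.subtype_card _ fun c => ?_
  rw [Finset.mem_filter]
  constructor
  · rintro ⟨h1, h2⟩
    have h3 := mem_of_mem_idn hn h1
    refine ⟨mem_idn.1 h1, ?_⟩
    rw [isPrincipal_mul_iff (nonZeroDivisors.ne_zero h3) (nonZeroDivisors.ne_zero I.2)]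
    rwa [cl_eq h3] at h2
  · rintro ⟨h1, h2⟩
    have h3 : c ∈ idn S n := mem_idn.2 h1
    have h4 := mem_of_mem_idn hn h3
    refine ⟨h3, ?_⟩
    rw [isPrincipal_mul_iff (nonZeroDivisors.ne_zero h4) (nonZeroDivisors.ne_zero I.2)] at h2
    rw [cl_eq h4]
    exact h2

/-- `∑_A ψ(A)⁻¹ h_{A·B0}(n) = ψ(B0) t_n`. -/
theorem sum_hc [Fintype (ClassGroup S)] (ψ : ClassGroup S →* B) (J : ClassGroup S → (Ideal S)⁰)
    (B0 : ClassGroup S) (hJ : ∀ A, ClassGroup.mk0 (J A) = A * B0) {n : ℕ} (hn : 0 < n) :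
    ∑ A : ClassGroup S, ψ A⁻¹ * (hc (J A : Ideal S) n : B) = ψ B0 * tc (cg ψ) n := by
  classical
  have h1 : ∀ A : ClassGroup S, ψ A⁻¹ * (hc (J A : Ideal S) n : B) =
      ∑ c ∈ idn S n, if A = (cl c * B0)⁻¹ then ψ A⁻¹ else 0 := by
    intro A
    rw [hc_eq_card_filter (J A) hn, Finset.card_filter, Nat.cast_sum, Finset.mul_sum]
    apply Finset.sum_congr rfl
    intro c _
    have h2 : (cl c * ClassGroup.mk0 (J A) = 1) ↔ A = (cl c * B0)⁻¹ := by
      rw [hJ A, eq_inv_iff_mul_eq_one]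
      constructor
      · intro h; rw [← h]; exact mul_left_comm _ _ _
      · intro h; rw [← h]; exact mul_left_comm _ _ _
    by_cases h3 : A = (cl c * B0)⁻¹
    · rw [if_pos (h2.2 h3), if_pos h3]; simp
    · rw [if_neg (fun h => h3 (h2.1 h)), if_neg h3]; simp
  rw [Finset.sum_congr rfl (fun A _ => h1 A), Finset.sum_comm, tc, Finset.mul_sum]
  apply Finset.sum_congr rfl
  intro c hc
  rw [Finset.sum_ite_eq' Finset.univ, if_pos (Finset.mem_univ _), inv_inv, map_mul,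
    cg_eq ψ (mem_of_mem_idn hn hc), mul_comm]

/-- **Part (a)**: the congruence `F ≡ Θ(τ) + β₀ Θ(Qτ)` mod 2 (times two), coefficientwise. -/
theorem sum_rth [Fintype (ClassGroup S)] (hU : ∀ u : Sˣ, u = 1 ∨ u = -1)
    (ψ : ClassGroup S →* B) (I J : ClassGroup S → (Ideal S)⁰)
    (B0 : ClassGroup S) (hI : ∀ A, ClassGroup.mk0 (I A) = A)
    (hJ : ∀ A, ClassGroup.mk0 (J A) = A * B0) {Q : ℕ} (hQ : 0 < Q) {n : ℕ} (hn : 0 < n) :
    ∑ A : ClassGroup S, ψ A⁻¹ * (rth (I A : Ideal S) (J A : Ideal S) 1 Q n : B) =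
      2 * (tc (cg ψ) n + (if Q ∣ n then ψ B0 * tc (cg ψ) (n / Q) else 0)) +
      4 * ∑ A : ClassGroup S, ψ A⁻¹ * (cross (I A : Ideal S) (J A : Ideal S) Q n : B) := by
  have h1 : ∀ A : ClassGroup S, ψ A⁻¹ * (rth (I A : Ideal S) (J A : Ideal S) 1 Q n : B) =
      2 * (ψ A⁻¹ * (hc (I A : Ideal S) n : B)) +
      (if Q ∣ n then 2 * (ψ A⁻¹ * (hc (J A : Ideal S) (n / Q) : B)) else 0) +
      4 * (ψ A⁻¹ * (cross (I A : Ideal S) (J A : Ideal S) Q n : B)) := by
    intro A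
    rw [rth_eq hU (nonZeroDivisors.ne_zero (I A).2) (nonZeroDivisors.ne_zero (J A).2) hQ hn]
    split_ifs <;> push_cast <;> ring
  rw [Finset.sum_congr rfl (fun A _ => h1 A), Finset.sum_add_distrib, Finset.sum_add_distrib,
    ← Finset.mul_sum, ← Finset.mul_sum, sum_hc ψ I 1 (by simpa using hI) hn, map_one, one_mul]
  congr 1
  rw [mul_add]
  congr 1
  split_ifs with hd
  · rw [← Finset.mul_sum, sum_hc ψ J B0 hJ (Nat.div_pos (Nat.le_of_dvd hn hd) hQ)]
  · simp

end classes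

end Fermat.Agent.H65Th
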