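import Mathlib
import Fermat.Agent.H65ThB0
import Fermat.Agent.H65ThF

/-!
# LT-MOD2: units of `ℤ[√-N]` and the final form of part (a) for `K = ℚ(√-N)`
-/

set_option autoImplicit false

open NumberField Ideal
open scoped nonZeroDivisors

namespace Fermat.Agent.H65Th

open Fermat.Agent.H63.LT Fermat.Agent.H80.Th Fermat.Agent.H22.Th

variable {K : Type*} [Field K] [NumberField K] {N : ℕ} {w : 𝓞 K}

/-- the units of `𝓞 K` are `±1` -/
theorem units_eq (h : QuadData K N w) (u : (𝓞 K)ˣ) : u = 1 ∨ u = -1 := by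
  obtain ⟨a, b, hab⟩ := h.exists_int (u : 𝓞 K)
  have h1 : Algebra.norm ℤ (u : 𝓞 K) = a ^ 2 + N * b ^ 2 := by
    rw [hab]; exact norm_eq h a b
  have h2 : IsUnit (Algebra.norm ℤ (u : 𝓞 K)) := u.isUnit.map _
  have hN : 2 ≤ N := Nat.le_of_dvd h.N_pos h.even
  have hN' : (2 : ℤ) ≤ N := by exact_mod_cast hN
  have h3 : a ^ 2 + N * b ^ 2 = 1 := by
    rcases Int.isUnit_iff.1 h2 with h4 | h4
    · rw [← h1, h4]
    · rw [h1] at h4
      nlinarith [sq_nonneg a, sq_nonneg b]
  have hb : b = 0 := by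
    by_contra hb
    have : 1 ≤ b ^ 2 := by
      have := sq_pos_of_ne_zero (a := b) hb
      omega
    nlinarith [sq_nonneg a]
  subst hb
  have ha : a ^ 2 = 1 := by simpa using h3
  have hu : (u : 𝓞 K) = (a : 𝓞 K) := by rw [hab]; simp
  have ha' : a = 1 ∨ a = -1 := by
    have h5 : (a - 1) * (a + 1) = 0 := by linear_combination ha
    rcases mul_eq_zero.1 h5 with h6 | h6
    · left; linarith
    · right; linarith
  rcases ha' with h4 | h4
  · left
    apply Units.ext
    rw [hu, h4]; simp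
  · right
    apply Units.ext
    rw [hu, h4]; simp

end Fermat.Agent.H65Th
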