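import Fermat.Agent.H66DSch

/-!
# The Weil representation of `SL₂(k)` on Schwartz functions (S47, block D)

No Weil index, no cocycle: the generators `n(b)`, `m(a)`, `w` act by explicit operators on the
algebraic Schwartz space; they intertwine the Heisenberg operators, an operator commuting with
all Heisenberg operators is a scalar, and the scalar is `1` because of one theta function.
-/

set_option linter.all false

namespace Fermat.Agent.H66D

open Matrix

/-- the data needed for the Weil representation: a full lattice `Λ` in a `k`-vector space `V` and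
the character `β x y = ψ(T(x,y))` of a symmetric `k`-bilinear form. -/
structure WData (k V : Type*) [Field k] [AddCommGroup V] [Module ℚ V] [Module k V] where
  /-- the lattice -/
  Λ : AddSubgroup V
  full : IsFull Λ
  /-- the bicharacter -/
  β : V → V → ℂ
  add_left : ∀ x x' y, β (x + x') y = β x y * β x' y
  symm : ∀ x y, β x y = β y x
  smul_left : ∀ (a : k) x y, β (a • x) y = β x (a • y)
  ne_zero : ∀ x y, β x y ≠ 0
  int : ∀ x ∈ Λ, ∀ y ∈ Λ, β x y = 1
  dual : ∃ D : ℕ, D ≠ 0 ∧ ∀ x, (∀ y ∈ Λ, β x y = 1) → D • x ∈ Λ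
  ddual : ∀ x, (∀ p, (∀ y ∈ Λ, β p y = 1) → β p x = 1) → x ∈ Λ
  dil : ∀ a : k, ∃ n : ℕ, n ≠ 0 ∧ ∀ y ∈ Λ, n • a • y ∈ Λ

namespace WData

variable {k V : Type*} [Field k] [AddCommGroup V] [Module ℚ V] [Module k V] (D : WData k V)

lemma zero_left (y : V) : D.β 0 y = 1 := by
  have h := D.add_left 0 0 y
  rw [add_zero] at h
  exact (mul_eq_left₀ (D.ne_zero 0 y)).1 h.symm

lemma zero_right (x : V) : D.β x 0 = 1 := by rw [D.symm, D.zero_left]

lemma add_right (x y y' : V) : D.β x (y + y') = D.β x y * D.β x y' := by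
  rw [D.symm, D.add_left, D.symm y, D.symm y']

lemma neg_left (x y : V) : D.β (-x) y = (D.β x y)⁻¹ := by
  apply eq_inv_of_mul_eq_one_left
  rw [← D.add_left, neg_add_cancel, D.zero_left]

lemma neg_right (x y : V) : D.β x (-y) = (D.β x y)⁻¹ := by rw [D.symm, D.neg_left, D.symm]

lemma sub_left (x x' y : V) : D.β (x - x') y = D.β x y * (D.β x' y)⁻¹ := by
  rw [sub_eq_add_neg, D.add_left, D.neg_left]

lemma sub_right (x y y' : V) : D.β x (y - y') = D.β x y * (D.β x y')⁻¹ := by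
  rw [sub_eq_add_neg, D.add_right, D.neg_right]

lemma nsmul_left (n : ℕ) (x y : V) : D.β (n • x) y = D.β x y ^ n := by
  induction n with
  | zero => rw [zero_nsmul, D.zero_left, pow_zero]
  | succ n ih => rw [succ_nsmul, D.add_left, ih, pow_succ]

lemma nsmul_right (n : ℕ) (x y : V) : D.β x (n • y) = D.β x y ^ n := by
  rw [D.symm, D.nsmul_left, D.symm]

lemma nsmul_comm' (n : ℕ) (x y : V) : D.β (n • x) y = D.β x (n • y) := by
  rw [D.nsmul_left, D.nsmul_right]

end WData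

/-- half of a vector -/
def hf {V : Type*} [AddCommGroup V] [Module ℚ V] (x : V) : V := (2 : ℚ)⁻¹ • x

section half

variable {k V : Type*} [Field k] [AddCommGroup V] [Module ℚ V] [Module k V]

lemma two_hf (x : V) : 2 • hf x = x := by
  have := nsmul_inv_smul (m := 2) two_ne_zero x
  simpa [hf] using this

lemma hf_add_hf (x : V) : hf x + hf x = x := by rw [← two_nsmul, two_hf]

lemma hf_add (x y : V) : hf (x + y) = hf x + hf y := smul_add _ _ _

lemma hf_neg (x : V) : hf (-x) = - hf x := smul_neg _ _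

lemma hf_zero : hf (0 : V) = 0 := smul_zero _

lemma hf_smul (a : k) (x : V) : hf (a • x) = a • hf x := by
  apply nsmul_inj (m := 2) two_ne_zero
  rw [two_hf, smul_comm 2 a, two_hf]

end half

namespace WData

variable {k V : Type*} [Field k] [AddCommGroup V] [Module ℚ V] [Module k V] (D : WData k V)

lemma β_hf (x y : V) : D.β x (hf y) = D.β (hf x) y := by
  conv_lhs => rw [← two_hf x]
  conv_rhs => rw [← two_hf y]
  rw [D.nsmul_left, D.nsmul_right]

lemma β_hf_sq (x y : V) : D.β x (hf y) * D.β x (hf y) = D.β x y := by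
  rw [← D.add_right, hf_add_hf]

/-- multiplication by the character `β p` -/
noncomputable def chm (p : V) : SF D.Λ →ₗ[ℂ] SF D.Λ where
  toFun φ := ⟨fun x => D.β p x * (φ : V → ℂ) x, by
    obtain ⟨m, hm⟩ := φ.2
    obtain ⟨l, hl, hp⟩ := D.full.span p
    refine ⟨m * l, mul_ne_zero hm.1 hl, fun x hx => ?_, fun x y hy => ?_⟩
    · have h1 : (φ : V → ℂ) x ≠ 0 := fun h => hx (by
        show D.β p x * (φ : V → ℂ) x = 0
        rw [h, mul_zero])
      exact (hm.mul hl).2.1 x h1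
    · have h2 : D.β p ((m * l) • y) = 1 := by
        rw [mul_comm, mul_nsmul', ← D.nsmul_comm']
        exact D.int _ hp _ (D.Λ.nsmul_mem hy m)
      show D.β p (x + (m * l) • y) * (φ : V → ℂ) (x + (m * l) • y) = D.β p x * (φ : V → ℂ) x
      rw [(hm.mul hl).2.2 x y hy, D.add_right, h2, mul_one]⟩
  map_add' φ ψ := by
    apply Subtype.ext
    funext x
    show D.β p x * ((φ : V → ℂ) x + (ψ : V → ℂ) x) = _
    rw [mul_add]; rfl
  map_smul' c φ := by
    apply Subtype.ext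
    funext x
    show D.β p x * (c * (φ : V → ℂ) x) = c * (D.β p x * (φ : V → ℂ) x)
    ring

@[simp] lemma chm_apply (p : V) (φ : SF D.Λ) (x : V) :
    (D.chm p φ : V → ℂ) x = D.β p x * (φ : V → ℂ) x := rfl

/-- the quadratic exponential `ψ(b N x)` -/
noncomputable def qe (b : k) (x : V) : ℂ := D.β (b • x) (hf x)

lemma qe_add (b : k) (x y : V) : D.qe b (x + y) = D.qe b x * D.qe b y * D.β (b • y) x := by
  have h1 : D.β (b • x) (hf y) = D.β (b • y) (hf x) := by
    rw [D.smul_left, ← hf_smul, D.β_hf, D.symm]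
  unfold qe
  rw [hf_add, smul_add, D.add_left, D.add_right, D.add_right, h1,
    ← D.β_hf_sq (b • y) x]
  ring

lemma qe_ne_zero (b : k) (x : V) : D.qe b x ≠ 0 := D.ne_zero _ _

lemma qe_zero (b : k) : D.qe b 0 = 1 := by
  unfold qe; rw [smul_zero, D.zero_left]

lemma qe_level {φ : V → ℂ} {m n : ℕ} {b : k} (hm : IsLevel D.Λ φ m) (hn : n ≠ 0)
    (hb : ∀ y ∈ D.Λ, n • b • y ∈ D.Λ) :
    IsLevel D.Λ (fun x => D.qe b x * φ x) (m * (2 * m * n)) := by
  have hl : 2 * m * n ≠ 0 := mul_ne_zero (mul_ne_zero two_ne_zero hm.1) hn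
  refine ⟨mul_ne_zero hm.1 hl, fun x hx => ?_, fun x y hy => ?_⟩
  · have h1 : φ x ≠ 0 := fun h => hx (by
      show D.qe b x * φ x = 0
      rw [h, mul_zero])
    exact (hm.mul hl).2.1 x h1
  · show D.qe b (x + (m * (2 * m * n)) • y) * φ (x + (m * (2 * m * n)) • y) = D.qe b x * φ x
    rw [(hm.mul hl).2.2 x y hy]
    by_cases h0 : φ x = 0
    · rw [h0, mul_zero, mul_zero]
    congr 1
    have hx : m • x ∈ D.Λ := hm.2.1 x h0
    have hby := hb y hy
    have e1 : b • ((m * (2 * m * n)) • y) = (m * (2 * m)) • (n • b • y) := by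
      rw [smul_comm b, ← mul_nsmul']
      congr 1; ring
    have h2 : D.β (b • ((m * (2 * m * n)) • y)) x = 1 := by
      rw [e1, D.nsmul_comm', mul_comm, mul_nsmul']
      exact D.int _ hby _ (D.Λ.nsmul_mem hx _)
    have h3 : D.qe b ((m * (2 * m * n)) • y) = 1 := by
      unfold qe
      have e2 : (m * (2 * m)) • hf ((m * (2 * m * n)) • y) = (m * m * (m * (2 * m * n))) • y := by
        have : (m * (2 * m)) = (m * m) * 2 := by ring
        rw [this, mul_nsmul', two_hf, ← mul_nsmul']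
      rw [e1, D.nsmul_comm', e2]
      exact D.int _ hby _ (D.Λ.nsmul_mem hy _)
    rw [D.qe_add, h2, h3, mul_one, mul_one]

/-- the operator `A(n(b))` -/
noncomputable def AN (b : k) : SF D.Λ →ₗ[ℂ] SF D.Λ where
  toFun φ := ⟨fun x => D.qe b x * (φ : V → ℂ) x, by
    obtain ⟨m, hm⟩ := φ.2
    obtain ⟨n, hn, hb⟩ := D.dil b
    exact ⟨_, D.qe_level hm hn hb⟩⟩
  map_add' φ ψ := by
    apply Subtype.ext
    funext x
    show D.qe b x * ((φ : V → ℂ) x + (ψ : V → ℂ) x) = _
    rw [mul_add]; rfl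
  map_smul' c φ := by
    apply Subtype.ext
    funext x
    show D.qe b x * (c * (φ : V → ℂ) x) = c * (D.qe b x * (φ : V → ℂ) x)
    ring

@[simp] lemma AN_apply (b : k) (φ : SF D.Λ) (x : V) :
    (D.AN b φ : V → ℂ) x = D.qe b x * (φ : V → ℂ) x := rfl

lemma dil_level {φ : V → ℂ} {m : ℕ} (hm : IsLevel D.Λ φ m) (a : kˣ) :
    ∃ M, IsLevel D.Λ (fun x => φ ((a : k) • x)) M := by
  obtain ⟨n, hn, ha⟩ := D.dil (a : k)
  obtain ⟨l, hl, ha'⟩ := D.dil ((a⁻¹ : kˣ) : k)
  have hnl : n * l ≠ 0 := mul_ne_zero hn hl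
  refine ⟨m * (n * l), mul_ne_zero hm.1 hnl, fun x hx => ?_, fun x y hy => ?_⟩
  · have h1 : m • ((a : k) • x) ∈ D.Λ := hm.2.1 _ hx
    have h2 := ha' _ h1
    have h3 : ((a⁻¹ : kˣ) : k) • (m • ((a : k) • x)) = m • x := by
      rw [smul_comm ((a⁻¹ : kˣ) : k), smul_smul, Units.inv_mul, one_smul]
    rw [h3] at h2
    have h4 : (m * (n * l)) • x = n • (l • (m • x)) := by
      rw [← mul_nsmul', ← mul_nsmul']
      congr 1; ring
    rw [h4]
    exact D.Λ.nsmul_mem h2 n
  · have h1 : (a : k) • ((m * (n * l)) • y) = m • (l • (n • (a : k) • y)) := by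
      rw [smul_comm (a : k), ← mul_nsmul', ← mul_nsmul']
      congr 1; ring
    show φ ((a : k) • (x + (m * (n * l)) • y)) = _
    rw [smul_add, h1]
    exact hm.2.2 _ _ (D.Λ.nsmul_mem (ha y hy) l)

/-- the operator `A(m(a))`, with normalising factor `c` -/
noncomputable def AM (c : ℂ) (a : kˣ) : SF D.Λ →ₗ[ℂ] SF D.Λ where
  toFun φ := ⟨fun x => c * (φ : V → ℂ) ((a : k) • x), by
    obtain ⟨m, hm⟩ := φ.2
    obtain ⟨M, hM⟩ := D.dil_level hm a
    exact ⟨M, hM.smul c⟩⟩
  map_add' φ ψ := by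
    apply Subtype.ext
    funext x
    show c * ((φ : V → ℂ) ((a : k) • x) + (ψ : V → ℂ) ((a : k) • x)) = _
    rw [mul_add]; rfl
  map_smul' d φ := by
    apply Subtype.ext
    funext x
    show c * (d * (φ : V → ℂ) ((a : k) • x)) = d * (c * (φ : V → ℂ) ((a : k) • x))
    ring

@[simp] lemma AM_apply (c : ℂ) (a : kˣ) (φ : SF D.Λ) (x : V) :
    (D.AM c a φ : V → ℂ) x = c * (φ : V → ℂ) ((a : k) • x) := rfl

lemma chm_trans (p q : V) (φ : SF D.Λ) :
    trans D.full q (D.chm p φ) = D.β p q • D.chm p (trans D.full q φ) := by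
  apply Subtype.ext
  funext x
  show D.β p (x + q) * (φ : V → ℂ) (x + q) = D.β p q * (D.β p x * (φ : V → ℂ) (x + q))
  rw [D.add_right]; ring

lemma chm_add (p p' : V) (φ : SF D.Λ) : D.chm (p + p') φ = D.chm p (D.chm p' φ) := by
  apply Subtype.ext
  funext x
  show D.β (p + p') x * (φ : V → ℂ) x = D.β p x * (D.β p' x * (φ : V → ℂ) x)
  rw [D.add_left]; ring

/-- the Fourier transform evaluated at `x` -/
noncomputable def ft (φ : SF D.Λ) (x : V) : ℂ := HI D.full (D.chm (-x) φ)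

lemma ft_chm (p : V) (φ : SF D.Λ) (x : V) : D.ft (D.chm p φ) x = D.ft φ (x - p) := by
  unfold ft
  rw [← D.chm_add]
  congr 2
  abel_nf

lemma ft_trans (q : V) (φ : SF D.Λ) (x : V) :
    D.ft (trans D.full q φ) x = D.β x q * D.ft φ x := by
  unfold ft
  have h1 := D.chm_trans (-x) q φ
  have h2 := HI_trans D.full q (D.chm (-x) φ)
  rw [h1, map_smul, D.neg_left, smul_eq_mul] at h2
  rw [← h2, ← mul_assoc, mul_inv_cancel₀ (D.ne_zero x q), one_mul]

lemma trans_of_level {φ : SF D.Λ} {m : ℕ} (hm : IsLevel D.Λ (φ : V → ℂ) m) {y : V}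
    (hy : y ∈ D.Λ) : trans D.full (m • y) φ = φ := by
  apply Subtype.ext
  funext x
  exact hm.2.2 x y hy

lemma chm_of_level {φ : SF D.Λ} {m : ℕ} (hm : IsLevel D.Λ (φ : V → ℂ) m) {y : V}
    (hy : y ∈ D.Λ) : D.chm (m • y) φ = φ := by
  apply Subtype.ext
  funext x
  show D.β (m • y) x * (φ : V → ℂ) x = (φ : V → ℂ) x
  by_cases h0 : (φ : V → ℂ) x = 0
  · rw [h0, mul_zero]
  · rw [D.nsmul_comm', D.int _ hy _ (hm.2.1 x h0), one_mul]

lemma ft_level {φ : SF D.Λ} {m : ℕ} (hm : IsLevel D.Λ (φ : V → ℂ) m) :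
    ∃ M, IsLevel D.Λ (D.ft φ) M := by
  obtain ⟨d, hd, hdual⟩ := D.dual
  refine ⟨m * d, mul_ne_zero hm.1 hd, fun x hx => ?_, fun x y hy => ?_⟩
  · rw [mul_nsmul]
    apply hdual
    intro y hy
    rw [D.nsmul_comm']
    have h1 := D.ft_trans (m • y) φ x
    rw [D.trans_of_level hm hy] at h1
    exact (mul_eq_right₀ hx).1 h1.symm
  · have h1 : D.ft φ (x + (m * d) • y) = D.ft (D.chm (-((m * d) • y)) φ) x := by
      rw [D.ft_chm]
      congr 1
      abel
    have h2 : D.chm (-((m * d) • y)) φ = φ := by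
      rw [mul_nsmul', ← smul_neg]
      exact D.chm_of_level hm (D.Λ.neg_mem (D.Λ.nsmul_mem hy d))
    rw [h1, h2]

/-- the operator `A(w)`, `w = (0 -1; 1 0)`, with normalising factor `c` (the self-dual volume of
`Λ`) -/
noncomputable def AW (c : ℂ) : SF D.Λ →ₗ[ℂ] SF D.Λ where
  toFun φ := ⟨fun x => c * D.ft φ x, by
    obtain ⟨m, hm⟩ := φ.2
    obtain ⟨M, hM⟩ := D.ft_level hm
    exact ⟨M, hM.smul c⟩⟩
  map_add' φ ψ := by
    apply Subtype.ext
    funext x
    show c * D.ft (φ + ψ) x = c * D.ft φ x + c * D.ft ψ x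
    unfold ft
    rw [map_add, map_add, mul_add]
  map_smul' d φ := by
    apply Subtype.ext
    funext x
    show c * D.ft (d • φ) x = d * (c * D.ft φ x)
    unfold ft
    rw [map_smul, map_smul, smul_eq_mul]
    ring

@[simp] lemma AW_apply (c : ℂ) (φ : SF D.Λ) (x : V) :
    (D.AW c φ : V → ℂ) x = c * D.ft φ x := rfl

/-- Heisenberg operators -/
noncomputable def W (p q : V) : SF D.Λ →ₗ[ℂ] SF D.Λ :=
  D.β p (hf q) • (D.chm p ∘ₗ trans D.full q)

lemma W_apply (p q : V) (φ : SF D.Λ) (x : V) :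
    (D.W p q φ : V → ℂ) x = D.β p (hf q) * (D.β p x * (φ : V → ℂ) (x + q)) := rfl

lemma W_zero_right (p : V) (φ : SF D.Λ) : D.W p 0 φ = D.chm p φ := by
  apply Subtype.ext
  funext x
  rw [W_apply, chm_apply, hf_zero, D.zero_right, one_mul, add_zero]

lemma W_zero_left (q : V) (φ : SF D.Λ) : D.W 0 q φ = trans D.full q φ := by
  apply Subtype.ext
  funext x
  rw [W_apply, trans_apply, D.zero_left, D.zero_left, one_mul, one_mul]

theorem AN_W (b : k) (p q : V) (φ : SF D.Λ) :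
    D.AN b (D.W p q φ) = D.W (p - b • q) q (D.AN b φ) := by
  apply Subtype.ext
  funext x
  rw [AN_apply, W_apply, W_apply, AN_apply, D.qe_add, D.sub_left, D.sub_left]
  have h1 : D.qe b q = D.β (b • q) (hf q) := rfl
  rw [h1]
  have h2 := D.ne_zero (b • q) (hf q)
  have h3 := D.ne_zero (b • q) x
  field_simp

theorem AM_W (c : ℂ) (a : kˣ) (p q : V) (φ : SF D.Λ) :
    D.AM c a (D.W p q φ) = D.W ((a : k) • p) (((a⁻¹ : kˣ) : k) • q) (D.AM c a φ) := by
  apply Subtype.ext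
  funext x
  rw [AM_apply, W_apply, W_apply, AM_apply, smul_add, smul_smul, Units.mul_inv, one_smul,
    hf_smul, D.smul_left, smul_smul, Units.mul_inv, one_smul, D.smul_left]
  ring

theorem AW_W (c : ℂ) (p q : V) (φ : SF D.Λ) :
    D.AW c (D.W p q φ) = D.W q (-p) (D.AW c φ) := by
  apply Subtype.ext
  funext x
  rw [AW_apply, W_apply, AW_apply]
  have h1 : D.ft (D.W p q φ) x = D.β p (hf q) * D.ft (D.chm p (trans D.full q φ)) x := by
    unfold ft W
    rw [LinearMap.smul_apply, map_smul, map_smul]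
    rfl
  rw [h1, D.ft_chm, D.ft_trans, hf_neg, D.neg_right, D.sub_left, ← sub_eq_add_neg,
    D.symm x q]
  have h2 : D.β q (hf p) = D.β p (hf q) := by rw [D.β_hf, D.symm]
  rw [h2, ← D.β_hf_sq p q]
  have h3 := D.ne_zero p (hf q)
  field_simp

/-- Schur's lemma for the Heisenberg operators -/
theorem schur (R : SF D.Λ →ₗ[ℂ] SF D.Λ) (h1 : ∀ p φ, R (D.chm p φ) = D.chm p (R φ))
    (h2 : ∀ q φ, R (trans D.full q φ) = trans D.full q (R φ)) :
    ∃ c : ℂ, ∀ φ, R φ = c • φ := by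
  classical
  -- on indicator functions
  have key : ∀ (m : ℕ) (hm : m ≠ 0), ∃ c : ℂ, R (ind D.Λ m hm) = c • ind D.Λ m hm := by
    intro m hm
    refine ⟨(R (ind D.Λ m hm) : V → ℂ) 0, ?_⟩
    apply Subtype.ext
    funext x
    rw [Submodule.coe_smul, Pi.smul_apply, ind_apply]
    by_cases hx : x ∈ mL D.Λ m
    · rw [if_pos hx]
      obtain ⟨y, hy, rfl⟩ := mem_mL.1 hx
      have h3 := h2 (m • y) (ind D.Λ m hm)
      rw [D.trans_of_level (ind_level m hm) hy] at h3
      have h4 := congrArg (fun f : SF D.Λ => (f : V → ℂ) 0) h3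
      simp only [trans_apply, zero_add] at h4
      rw [← h4]
      simp
    · rw [if_neg hx, smul_zero]
      by_contra h0
      apply hx
      -- x = m • x'
      set x' : V := (m : ℚ)⁻¹ • x with hx'
      have hmx : m • x' = x := nsmul_inv_smul hm x
      refine mem_mL.2 ⟨x', ?_, hmx⟩
      apply D.ddual
      intro p hp
      set p' : V := (m : ℚ)⁻¹ • p with hp'
      have hmp : m • p' = p := nsmul_inv_smul hm p
      have h5 : D.chm p' (ind D.Λ m hm) = ind D.Λ m hm := by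
        apply Subtype.ext
        funext z
        rw [chm_apply, ind_apply]
        split_ifs with hz
        · obtain ⟨y, hy, rfl⟩ := mem_mL.1 hz
          rw [← D.nsmul_comm', hmp, hp y hy, one_mul]
        · rw [mul_zero]
      have h6 := h1 p' (ind D.Λ m hm)
      rw [h5] at h6
      have h7 := congrArg (fun f : SF D.Λ => (f : V → ℂ) x) h6
      simp only [chm_apply] at h7
      have h8 : D.β p' x = 1 := (mul_eq_right₀ h0).1 h7.symm
      rwa [← hmx, ← D.nsmul_comm', hmp] at h8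
  choose c hc using key
  -- the constant does not depend on `m`
  have gen : ∀ (φ : SF D.Λ) (m : ℕ) (hm : IsLevel D.Λ (φ : V → ℂ) m), R φ = c m hm.1 • φ := by
    intro φ m hm
    have h3 := decomp D.full φ hm
    have h4 : R φ = ∑ q ∈ (hm.finite_support D.full hm.1).toFinset,
        (φ : V → ℂ) q.out • trans D.full (-q.out) (c m hm.1 • ind D.Λ m hm.1) := by
      conv_lhs => rw [h3]
      rw [map_sum]
      refine Finset.sum_congr rfl fun q _ => ?_
      rw [map_smul, h2, hc]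
    rw [h4]
    generalize c m hm.1 = d
    conv_rhs => rw [h3]
    rw [Finset.smul_sum]
    refine Finset.sum_congr rfl fun q _ => ?_
    rw [map_smul, smul_comm]
  refine ⟨c 1 one_ne_zero, fun φ => ?_⟩
  obtain ⟨m, hm⟩ := φ.2
  rw [gen φ m hm]
  congr 1
  have hl : IsLevel D.Λ ((ind D.Λ 1 one_ne_zero : SF D.Λ) : V → ℂ) (1 * m) :=
    (ind_level 1 one_ne_zero).mul hm.1
  rw [one_mul] at hl
  have h5 := gen _ m hl
  rw [hc 1 one_ne_zero] at h5
  have h6 := congrArg (fun f : SF D.Λ => (f : V → ℂ) 0) h5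
  simp only [Submodule.coe_smul, Pi.smul_apply, ind_apply, (mL D.Λ 1).zero_mem, if_true,
    smul_eq_mul, mul_one] at h6
  exact h6.symm

end WData

/-! ### generators of `SL₂(k)` -/

section gens

variable {k : Type*} [Field k]

/-- `n(b) = (1 b; 0 1)` -/
def nb (b : k) : SpecialLinearGroup (Fin 2) k := ⟨!![1, b; 0, 1], by simp [Matrix.det_fin_two]⟩

/-- `m(a) = (a 0; 0 a⁻¹)` -/
def ma (a : kˣ) : SpecialLinearGroup (Fin 2) k :=
  ⟨!![(a : k), 0; 0, ((a⁻¹ : kˣ) : k)], by simp [Matrix.det_fin_two]⟩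

variable (k) in
/-- `w = (0 -1; 1 0)` -/
def ww : SpecialLinearGroup (Fin 2) k := ⟨!![0, -1; 1, 0], by simp [Matrix.det_fin_two]⟩

lemma sl_mul_aux {R : Type*} [CommRing R] (g h : SpecialLinearGroup (Fin 2) R) (i j : Fin 2) :
    (g * h) i j = g i 0 * h 0 j + g i 1 * h 1 j := by
  show (g.1 * h.1) i j = _
  rw [Matrix.mul_apply, Fin.sum_univ_two]

lemma sl_mul (g h : SpecialLinearGroup (Fin 2) k) (i j : Fin 2) :
    (g * h) i j = g i 0 * h 0 j + g i 1 * h 1 j := sl_mul_aux g h i j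

lemma sl_det (g : SpecialLinearGroup (Fin 2) k) : g 0 0 * g 1 1 - g 0 1 * g 1 0 = 1 := by
  have hdet := g.2
  rwa [Matrix.det_fin_two] at hdet

lemma sl_ext {g h : SpecialLinearGroup (Fin 2) k} (h00 : g 0 0 = h 0 0) (h01 : g 0 1 = h 0 1)
    (h10 : g 1 0 = h 1 0) (h11 : g 1 1 = h 1 1) : g = h := by
  apply Subtype.ext
  ext i j
  fin_cases i <;> fin_cases j
  · exact h00
  · exact h01
  · exact h10
  · exact h11

lemma nb_00 (b : k) : (nb b) 0 0 = 1 := rfl
lemma nb_01 (b : k) : (nb b) 0 1 = b := rfl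
lemma nb_10 (b : k) : (nb b) 1 0 = 0 := rfl
lemma nb_11 (b : k) : (nb b) 1 1 = 1 := rfl
lemma ma_00 (a : kˣ) : (ma a) 0 0 = (a : k) := rfl
lemma ma_01 (a : kˣ) : (ma a) 0 1 = 0 := rfl
lemma ma_10 (a : kˣ) : (ma a) 1 0 = 0 := rfl
lemma ma_11 (a : kˣ) : (ma a) 1 1 = ((a⁻¹ : kˣ) : k) := rfl
lemma ww_00 : (ww k) 0 0 = 0 := rfl
lemma ww_01 : (ww k) 0 1 = -1 := rfl
lemma ww_10 : (ww k) 1 0 = 1 := rfl
lemma ww_11 : (ww k) 1 1 = 0 := rfl

/-- Bruhat decomposition, `c ≠ 0` -/
lemma bruhat_ne (g : SpecialLinearGroup (Fin 2) k) (c : kˣ) (hc : g 1 0 = c) :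
    g = nb (g 0 0 / c) * ww k * ma c * nb (g 1 1 / c) := by
  have hdet := sl_det g
  have hc0 : (c : k) ≠ 0 := c.ne_zero
  rw [hc] at hdet
  apply sl_ext
  · simp only [sl_mul, nb_00, nb_01, nb_10, nb_11, ma_00, ma_01, ma_10, ma_11, ww_00, ww_01,
      ww_10, ww_11, Units.val_inv_eq_inv_val]
    field_simp
    ring
  · simp only [sl_mul, nb_00, nb_01, nb_10, nb_11, ma_00, ma_01, ma_10, ma_11, ww_00, ww_01,
      ww_10, ww_11, Units.val_inv_eq_inv_val]
    field_simp
    linear_combination (-(c : k)) * hdet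
  · rw [hc]
    simp only [sl_mul, nb_00, nb_01, nb_10, nb_11, ma_00, ma_01, ma_10, ma_11, ww_00, ww_01,
      ww_10, ww_11, Units.val_inv_eq_inv_val]
    ring
  · simp only [sl_mul, nb_00, nb_01, nb_10, nb_11, ma_00, ma_01, ma_10, ma_11, ww_00, ww_01,
      ww_10, ww_11, Units.val_inv_eq_inv_val]
    field_simp
    ring

lemma bruhat_zero (g : SpecialLinearGroup (Fin 2) k) (a : kˣ) (ha : g 0 0 = a)
    (hc : g 1 0 = 0) : g = ma a * nb (g 0 1 / a) := by
  have hdet := sl_det g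
  rw [hc, ha, mul_zero, sub_zero] at hdet
  have ha0 : (a : k) ≠ 0 := a.ne_zero
  apply sl_ext
  · rw [ha]
    simp only [sl_mul, nb_00, nb_01, nb_10, nb_11, ma_00, ma_01, ma_10, ma_11]
    ring
  · simp only [sl_mul, nb_00, nb_01, nb_10, nb_11, ma_00, ma_01, ma_10, ma_11]
    field_simp
    ring
  · rw [hc]
    simp only [sl_mul, nb_00, nb_01, nb_10, nb_11, ma_00, ma_01, ma_10, ma_11]
    ring
  · simp only [sl_mul, nb_00, nb_01, nb_10, nb_11, ma_00, ma_01, ma_10, ma_11,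
      Units.val_inv_eq_inv_val]
    field_simp
    linear_combination hdet

/-- induction over the generators -/
theorem gen_induction {P : SpecialLinearGroup (Fin 2) k → Prop} (hn : ∀ b, P (nb b))
    (hm : ∀ a, P (ma a)) (hw : P (ww k)) (hmul : ∀ g h, P g → P h → P (g * h)) (g) : P g := by
  by_cases hc : g 1 0 = 0
  · have hdet := sl_det g
    rw [hc, mul_zero, sub_zero] at hdet
    have ha : g 0 0 ≠ 0 := fun h => by rw [h, zero_mul] at hdet; exact zero_ne_one hdet
    rw [bruhat_zero g (Units.mk0 _ ha) rfl hc]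
    exact hmul _ _ (hm _) (hn _)
  · rw [bruhat_ne g (Units.mk0 _ hc) rfl]
    exact hmul _ _ (hmul _ _ (hmul _ _ (hn _) hw) (hm _)) (hn _)

end gens

namespace WData

variable {k V : Type*} [Field k] [AddCommGroup V] [Module ℚ V] [Module k V] (D : WData k V)

/-- the action of `SL₂(k)` on pairs of vectors (conjugated by `diag(1,-1)`) -/
def act (g : SpecialLinearGroup (Fin 2) k) (v : V × V) : V × V :=
  (g 0 0 • v.1 - g 0 1 • v.2, g 1 1 • v.2 - g 1 0 • v.1)

lemma act_one (v : V × V) : act (1 : SpecialLinearGroup (Fin 2) k) v = v := by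
  ext <;> simp [act]

lemma act_mul (g h : SpecialLinearGroup (Fin 2) k) (v : V × V) :
    act (g * h) v = act g (act h v) := by
  ext
  · simp only [act, sl_mul]
    module
  · simp only [act, sl_mul]
    module

/-- `R` intertwines the Heisenberg operators according to `g` -/
def Itw (g : SpecialLinearGroup (Fin 2) k) (R : Module.End ℂ (SF D.Λ)) : Prop :=
  ∀ (v : V × V) (φ : SF D.Λ), R (D.W v.1 v.2 φ) = D.W (act g v).1 (act g v).2 (R φ)

lemma Itw.mul {g h : SpecialLinearGroup (Fin 2) k} {R S : Module.End ℂ (SF D.Λ)}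
    (hR : D.Itw g R) (hS : D.Itw h S) : D.Itw (g * h) (R * S) := by
  intro v φ
  rw [Module.End.mul_apply, hS, hR, act_mul]
  rfl

lemma Itw_nb (b : k) : D.Itw (nb b) (D.AN b) := by
  intro v φ
  have : act (nb b) v = (v.1 - b • v.2, v.2) := by
    ext <;> simp [act, nb_00, nb_01, nb_10, nb_11]
  rw [this]
  exact D.AN_W b v.1 v.2 φ

lemma Itw_ma (c : ℂ) (a : kˣ) : D.Itw (ma a) (D.AM c a) := by
  intro v φ
  have : act (ma a) v = ((a : k) • v.1, ((a⁻¹ : kˣ) : k) • v.2) := by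
    ext <;> simp [act, ma_00, ma_01, ma_10, ma_11]
  rw [this]
  exact D.AM_W c a v.1 v.2 φ

lemma Itw_ww (c : ℂ) : D.Itw (ww k) (D.AW c) := by
  intro v φ
  have : act (ww k) v = (v.2, - v.1) := by
    ext <;> simp [act, ww_00, ww_01, ww_10, ww_11]
  rw [this]
  exact D.AW_W c v.1 v.2 φ

/-- an operator which intertwines trivially is a scalar -/
lemma Itw.scalar {R : Module.End ℂ (SF D.Λ)} (h : D.Itw 1 R) : ∃ c : ℂ, ∀ φ, R φ = c • φ := by
  apply D.schur
  · intro p φ
    have := h (p, 0) φ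
    rw [act_one] at this
    simpa only [W_zero_right] using this
  · intro q φ
    have := h (0, q) φ
    rw [act_one] at this
    simpa only [W_zero_left] using this

section weil

variable {X : Type*} [MulAction (SpecialLinearGroup (Fin 2) k) X]

/-- **The Weil representation** on the algebraic Schwartz space.  `Θ` is a theta functional which
satisfies the three generator laws. -/
theorem exists_weil (Θ : SF D.Λ →ₗ[ℂ] (X → ℂ)) (ν : kˣ → ℂ) (c : ℂ)
    (hN : ∀ b φ x, Θ (D.AN b φ) (nb b • x) = Θ φ x)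
    (hM : ∀ a φ x, Θ (D.AM (ν a) a φ) (ma a • x) = Θ φ x)
    (hW : ∀ φ x, Θ (D.AW c φ) (ww k • x) = Θ φ x)
    (hne : ∃ φ x, Θ φ x ≠ 0) :
    ∃ A : SpecialLinearGroup (Fin 2) k →* Module.End ℂ (SF D.Λ),
      (∀ b, A (nb b) = D.AN b) ∧ (∀ a, A (ma a) = D.AM (ν a) a) ∧ A (ww k) = D.AW c ∧
      ∀ g φ x, Θ (A g φ) (g • x) = Θ φ x := by
  classical
  let T : SpecialLinearGroup (Fin 2) k → Module.End ℂ (SF D.Λ) → Prop := fun g R =>
    D.Itw g R ∧ ∀ φ x, Θ (R φ) (g • x) = Θ φ x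
  have Tmul : ∀ g h R S, T g R → T h S → T (g * h) (R * S) := by
    intro g h R S hR hS
    refine ⟨hR.1.mul D hS.1, fun φ x => ?_⟩
    rw [Module.End.mul_apply, mul_smul, hR.2, hS.2]
  have Tn : ∀ b, T (nb b) (D.AN b) := fun b => ⟨D.Itw_nb b, hN b⟩
  have Tm : ∀ a, T (ma a) (D.AM (ν a) a) := fun a => ⟨D.Itw_ma _ a, hM a⟩
  have Tw : T (ww k) (D.AW c) := ⟨D.Itw_ww c, hW⟩
  have Tex : ∀ g, ∃ R, T g R := by
    apply gen_induction
    · exact fun b => ⟨_, Tn b⟩
    · exact fun a => ⟨_, Tm a⟩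
    · exact ⟨_, Tw⟩
    · rintro g h ⟨R, hR⟩ ⟨S, hS⟩
      exact ⟨_, Tmul g h R S hR hS⟩
  have T1 : ∀ R, T 1 R → R = 1 := by
    intro R hR
    obtain ⟨d, hd⟩ := hR.1.scalar D
    obtain ⟨φ, x, hφ⟩ := hne
    have h1 := hR.2 φ x
    rw [hd φ, map_smul, one_smul, Pi.smul_apply, smul_eq_mul] at h1
    have h2 : d = 1 := (mul_eq_right₀ hφ).1 h1
    ext1 φ
    rw [hd, h2, one_smul]
    rfl
  have Tuniq : ∀ g R S, T g R → T g S → R = S := by
    intro g R S hR hS
    obtain ⟨U, hU⟩ := Tex g⁻¹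
    have h1 : U * R = 1 := T1 _ (by simpa using Tmul _ _ _ _ hU hR)
    have h2 : U * S = 1 := T1 _ (by simpa using Tmul _ _ _ _ hU hS)
    have h3 : R * U = 1 := T1 _ (by simpa using Tmul _ _ _ _ hR hU)
    calc R = R * (U * S) := by rw [h2, mul_one]
      _ = S := by rw [← mul_assoc, h3, one_mul]
  choose A hA using Tex
  refine ⟨{ toFun := A, map_one' := T1 _ (hA 1), map_mul' := fun g h => ?_ }, ?_, ?_, ?_, ?_⟩
  · exact Tuniq _ _ _ (hA (g * h)) (Tmul _ _ _ _ (hA g) (hA h))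
  · exact fun b => Tuniq _ _ _ (hA _) (Tn b)
  · exact fun a => Tuniq _ _ _ (hA _) (Tm a)
  · exact Tuniq _ _ _ (hA _) Tw
  · exact fun g => (hA g).2

end weil

/-! ### consequences of the generator values -/

section conseq

variable (ν : kˣ → ℂ) (c : ℂ) (A : SpecialLinearGroup (Fin 2) k →* Module.End ℂ (SF D.Λ))

/-- transport of an intertwining property from the generators to the whole group -/
theorem intertwine (σ : SpecialLinearGroup (Fin 2) k →* SpecialLinearGroup (Fin 2) k)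
    (U : Module.End ℂ (SF D.Λ)) (hn : ∀ b, U * A (nb b) = A (σ (nb b)) * U)
    (hm : ∀ a, U * A (ma a) = A (σ (ma a)) * U) (hw : U * A (ww k) = A (σ (ww k)) * U)
    (g : SpecialLinearGroup (Fin 2) k) : U * A g = A (σ g) * U := by
  refine gen_induction (P := fun g => U * A g = A (σ g) * U) hn hm hw ?_ g
  intro g h hg hh
  rw [map_mul, map_mul, map_mul, ← mul_assoc, hg, mul_assoc, hh, mul_assoc]

/-- the dilation `φ ↦ φ(a ·)` changes the Haar functional by a constant -/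
theorem HI_dil (a : kˣ) (φ : SF D.Λ) :
    HI D.full (D.AM 1 a φ) = HI D.full (D.AM 1 a (ind D.Λ 1 one_ne_zero)) * HI D.full φ := by
  have := HI_unique D.full (HI D.full ∘ₗ D.AM 1 a) (fun q ψ => ?_) φ
  · simpa using this
  · show HI D.full (D.AM 1 a (trans D.full q ψ)) = HI D.full (D.AM 1 a ψ)
    rw [← HI_trans D.full (((a⁻¹ : kˣ) : k) • q) (D.AM 1 a ψ)]
    congr 1
    apply Subtype.ext
    funext x
    rw [AM_apply, trans_apply, trans_apply, AM_apply, smul_add, smul_smul, Units.mul_inv,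
      one_smul]

/-- the constant in the kernel formula -/
noncomputable def kap (a : kˣ) : ℂ :=
  c * ν a * HI D.full (D.AM 1 a (ind D.Λ 1 one_ne_zero))

/-- **kernel formula**: for `g = (a b; c d)` with `c ≠ 0`,
`A(g) φ (x) = κ(c) ψ((a/c) N x) ∫ ψ(-T(x,y)/c) ψ((d/c) N y) φ(y) dy`. -/
theorem kernel (hAn : ∀ b, A (nb b) = D.AN b) (hAm : ∀ a, A (ma a) = D.AM (ν a) a)
    (hAw : A (ww k) = D.AW c) (g : SpecialLinearGroup (Fin 2) k) (r : kˣ) (hr : g 1 0 = r)
    (φ : SF D.Λ) (x : V) :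
    (A g φ : V → ℂ) x = D.kap ν c r * D.qe (g 0 0 / r) x *
      D.ft (D.AN (g 1 1 / r) φ) (((r⁻¹ : kˣ) : k) • x) := by
  rw [bruhat_ne g r hr, map_mul, map_mul, map_mul, hAn, hAn, hAm, hAw,
    ← bruhat_ne g r hr]
  simp only [Module.End.mul_apply]
  rw [AN_apply, AW_apply]
  have h1 : D.ft (D.AM (ν r) r (D.AN (g 1 1 / r) φ)) x
      = ν r * HI D.full (D.AM 1 r (D.chm (-(((r⁻¹ : kˣ) : k) • x)) (D.AN (g 1 1 / r) φ))) := by
    unfold ft
    rw [← smul_eq_mul, ← map_smul]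
    congr 1
    apply Subtype.ext
    funext y
    rw [chm_apply, AM_apply, Submodule.coe_smul, Pi.smul_apply, AM_apply, chm_apply, smul_eq_mul,
      ← smul_neg, D.smul_left, smul_smul, Units.inv_mul, one_smul]
    ring
  rw [h1, D.HI_dil]
  unfold kap ft
  ring

end conseq

end WData

end Fermat.Agent.H66D
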