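import Fermat.Agent.H66Modular

/-!
# Modular equations over arbitrary fields
-/

set_option autoImplicit false

noncomputable section

open ModularCurve

namespace Fermat.Agent.H66

section

variable {A B : Type*} [CommRing A] [CommRing B] {p : ℕ} [NeZero p]

theorem coeffMap_injective {φ : A →+* B} (hφ : Function.Injective φ) :
    Function.Injective (coeffMap φ) := by
  intro x y h
  ext n
  have := congrArg (fun z => z.coeff n) h
  simp only [coeffMap_coeff] at this
  exact hφ this

theorem coeffMap_eval₂ (φ : A →+* B) (P : Polynomial A) :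
    coeffMap φ (P.eval₂ HahnSeries.C (qExpand A p (jqModC A))) =
      (P.map φ).eval₂ HahnSeries.C (qExpand B p (jqModC B)) := by
  rw [Polynomial.hom_eval₂, Polynomial.eval₂_map, coeffMap_qExpand, coeffMap_jqModC]
  congr 1
  ext c
  simp

theorem InJ.map (φ : A →+* B) {x : LaurentSeries A} (hx : InJ A p x) :
    InJ B p (coeffMap φ x) := by
  obtain ⟨P, rfl⟩ := hx
  exact ⟨P.map φ, (coeffMap_eval₂ φ P).symm⟩

theorem coeff_eval₂_of_degree_lt [Nontrivial A] (n : ℕ) (P : Polynomial A) (hP : P.degree < n + 1) :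
    (P.eval₂ HahnSeries.C (qExpand A p (jqModC A))).coeff (-(n * p)) = P.coeff n := by
  have h1 := (HasLead.jqModC (A := A)).qExpand p
  rw [show (p : ℤ) * (-1) = -(p : ℤ) by ring] at h1
  have hp : (0 : ℤ) < p := by exact_mod_cast Nat.pos_of_ne_zero (NeZero.ne p)
  have h2 := h1.eval₂ hp P
  have h3 : P.natDegree ≤ n := by
    by_contra h
    have hne : P ≠ 0 := by rintro rfl; simp at h
    rw [Polynomial.degree_eq_natDegree hne] at hP
    have : P.natDegree < n + 1 := by exact_mod_cast hP
    omega
  rcases h3.lt_or_eq with h4 | h4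
  · rw [Polynomial.coeff_eq_zero_of_natDegree_lt h4]
    refine h2.2 _ ?_
    have : (P.natDegree : ℤ) < n := by exact_mod_cast h4
    nlinarith
  · rw [← h4]
    exact h2.1

theorem InJ.descend {φ : A →+* B} (hφ : Function.Injective φ) [Nontrivial B] {x : LaurentSeries A}
    (hx : InJ B p (coeffMap φ x)) : InJ A p x := by
  obtain ⟨P, hP⟩ := hx
  obtain ⟨n, hn⟩ : ∃ n : ℕ, P.degree < n := ⟨P.natDegree + 1, by
    refine lt_of_le_of_lt Polynomial.degree_le_natDegree ?_
    exact_mod_cast Nat.lt_succ_self _⟩
  induction n generalizing P x with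
  | zero =>
    have h0 : P = 0 := by
      rw [← Polynomial.degree_eq_bot]
      by_contra h
      rw [Polynomial.degree_eq_natDegree (fun h' => h (Polynomial.degree_eq_bot.2 h'))] at hn
      exact absurd hn (by simp)
    subst h0
    rw [Polynomial.eval₂_zero] at hP
    have : x = 0 := coeffMap_injective hφ (by rw [← hP, map_zero])
    rw [this]
    exact InJ.zero
  | succ n ih =>
    have h1 : φ (x.coeff (-(n * p))) = P.coeff n := by
      rw [← coeff_eval₂_of_degree_lt (p := p) n P (by exact_mod_cast hn), hP, coeffMap_coeff]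
    have h2 := ih (x := x - HahnSeries.C (x.coeff (-(n * p))) * qExpand A p (jqModC A) ^ n)
      (P := P - Polynomial.C (P.coeff n) * Polynomial.X ^ n) ?_ ?_
    · have h3 := h2.add ((InJ.C (p := p) (x.coeff (-(n * p)))).mul
        (InJ.pow (x := qExpand A p (jqModC A)) ⟨Polynomial.X, by simp⟩ n))
      simpa using h3
    · rw [Polynomial.eval₂_sub, hP, Polynomial.eval₂_mul, Polynomial.eval₂_C,
        Polynomial.eval₂_pow, Polynomial.eval₂_X, map_sub, map_mul, map_pow, coeffMap_C, h1,
        coeffMap_qExpand, coeffMap_jqModC]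
    · rw [Polynomial.degree_lt_iff_coeff_zero]
      intro m hm
      rw [Polynomial.coeff_sub, Polynomial.coeff_C_mul, Polynomial.coeff_X_pow]
      rcases hm.lt_or_eq with h4 | h4
      · rw [if_neg h4.ne', mul_zero, sub_zero]
        exact Polynomial.coeff_eq_zero_of_degree_lt (lt_of_lt_of_le hn (by exact_mod_cast h4))
      · rw [← h4]; simp

theorem coeffMap_jf (φ : A →+* B) (u : Aˣ) (a : Option (Fin p)) :
    coeffMap φ (jf A p u a) = jf B p (Units.map φ.toMonoidHom u) a := by
  rw [jf, jf, coeffMap_fam, map_one, coeffMap_jqModC]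

theorem coeffMap_vf (φ : A →+* B) (u : Aˣ) (a : Option (Fin p)) :
    coeffMap φ (vf A p u a) = vf B p (Units.map φ.toMonoidHom u) a := by
  rw [vf, vf, map_pow, map_mul, coeffMap_fam, coeffMap_deltaL, coeffMap_qExpand,
    coeffMap_deltaInvL, map_pow, map_natCast]

theorem map_prod_coeff {ι : Type*} [Fintype ι] (φ : A →+* B) (f : ι → LaurentSeries A) (k : ℕ) :
    coeffMap φ ((∏ a, (Polynomial.X - Polynomial.C (f a))).coeff k) =
      (∏ a, (Polynomial.X - Polynomial.C (coeffMap φ (f a)))).coeff k := by
  rw [← Polynomial.coeff_map, Polynomial.map_prod]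
  simp only [Polynomial.map_sub, Polynomial.map_X, Polynomial.map_C]

theorem ModEq.map (φ : A →+* B) {u : Aˣ} (h : ModEq A p u) :
    ModEq B p (Units.map φ.toMonoidHom u) where
  phi k := by
    have := (h.phi k).map φ
    rw [map_prod_coeff] at this
    simpa only [coeffMap_jf] using this
  hp k := by
    have := (h.hp k).map φ
    rw [map_prod_coeff] at this
    simpa only [coeffMap_vf] using this
  tr i hi := by
    have := (h.tr i hi).map φ
    rw [map_sum] at this
    simpa only [map_mul, map_pow, coeffMap_jf, coeffMap_vf] using this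

theorem ModEq.descend [Nontrivial B] {φ : A →+* B} (hφ : Function.Injective φ) {u : Aˣ}
    (h : ModEq B p (Units.map φ.toMonoidHom u)) : ModEq A p u where
  phi k := by
    refine InJ.descend hφ ?_
    rw [map_prod_coeff]
    simpa only [coeffMap_jf] using h.phi k
  hp k := by
    refine InJ.descend hφ ?_
    rw [map_prod_coeff]
    simpa only [coeffMap_vf] using h.hp k
  tr i hi := by
    refine InJ.descend hφ ?_
    rw [map_sum]
    simpa only [map_mul, map_pow, coeffMap_jf, coeffMap_vf] using h.tr i hi

end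

/-- The modular equations hold over every field containing a primitive `p`-th root of unity. -/
theorem modEq_field (K : Type*) [Field K] (p : ℕ) [Fact p.Prime] (u : Kˣ)
    (hu : IsPrimitiveRoot u p) : ModEq K p u := by
  have hp : p.Prime := Fact.out
  have hp0 : 0 < p := hp.pos
  set R := AdjoinRoot (Polynomial.cyclotomic p ℤ) with hR
  have hroot : (AdjoinRoot.root (Polynomial.cyclotomic p ℤ)) ^ p = 1 := by
    have h1 : Polynomial.cyclotomic p ℤ ∣ Polynomial.X ^ p - 1 := Polynomial.cyclotomic.dvd_X_pow_sub_one p ℤ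
    obtain ⟨Q, hQ⟩ := h1
    have h2 := congrArg (AdjoinRoot.mk (Polynomial.cyclotomic p ℤ)) hQ
    rw [map_mul, AdjoinRoot.mk_self, zero_mul, map_sub, map_pow, AdjoinRoot.mk_X, map_one] at h2
    exact sub_eq_zero.1 h2
  set uR : Rˣ := Units.ofPowEqOne _ p hroot hp.ne_zero with huR
  -- complex side
  set ζ : ℂ := Complex.exp (2 * Real.pi * Complex.I / p) with hζ
  have hζp : IsPrimitiveRoot ζ p := Complex.isPrimitiveRoot_exp p hp.ne_zero
  have hev : Polynomial.eval₂ (Int.castRingHom ℂ) ζ (Polynomial.cyclotomic p ℤ) = 0 := by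
    have := hζp.isRoot_cyclotomic hp0
    rw [← Polynomial.map_cyclotomic_int p ℂ, Polynomial.IsRoot, Polynomial.eval_map] at this
    exact this
  let ι : R →+* ℂ := AdjoinRoot.lift (Int.castRingHom ℂ) ζ hev
  have hι : Function.Injective ι := by
    rw [injective_iff_map_eq_zero]
    intro x hx
    obtain ⟨P, rfl⟩ := AdjoinRoot.mk_surjective x
    have h1 : Polynomial.eval₂ (Int.castRingHom ℂ) ζ P = 0 := by
      have := AdjoinRoot.lift_mk hev P
      rw [← this]; exact hx
    rw [AdjoinRoot.mk_eq_zero, Polynomial.cyclotomic_eq_minpoly hζp hp0]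
    exact minpoly.isIntegrallyClosed_dvd (hζp.isIntegral hp0) h1
  have h1 : ModEq ℂ p (Units.map ι.toMonoidHom uR) := by
    refine modEq_complex p _ ?_
    have h2 : ((Units.map ι.toMonoidHom uR : ℂˣ) : ℂ) = ζ := by
      show ι (AdjoinRoot.root _) = ζ
      exact AdjoinRoot.lift_root hev
    rw [← IsPrimitiveRoot.coe_units_iff, h2]
    exact hζp
  have h2 : ModEq R p uR := ModEq.descend hι h1
  have hev2 : Polynomial.eval₂ (Int.castRingHom K) (u : K) (Polynomial.cyclotomic p ℤ) = 0 := by
    have := (IsPrimitiveRoot.coe_units_iff.2 hu).isRoot_cyclotomic hp0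
    rw [← Polynomial.map_cyclotomic_int p K, Polynomial.IsRoot, Polynomial.eval_map] at this
    exact this
  let π : R →+* K := AdjoinRoot.lift (Int.castRingHom K) (u : K) hev2
  have h3 : Units.map π.toMonoidHom uR = u := by
    ext
    show π (AdjoinRoot.root _) = u
    exact AdjoinRoot.lift_root hev2
  rw [← h3]
  exact h2.map π

end Fermat.Agent.H66
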