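import Fermat.Agent.H66Descend

/-!
# Divisors of products of linear factors and orders
-/

set_option autoImplicit false

noncomputable section

open ModularCurve Polynomial

namespace Fermat.Agent.H66

theorem exists_map_of_le_map {α β : Type*} {f : α → β} {s : Multiset β} {t : Multiset α}
    (h : s ≤ t.map f) : ∃ r ≤ t, r.map f = s := by
  induction s using Quotient.inductionOn with
  | _ l1 =>
    induction t using Quotient.inductionOn with
    | _ l2 =>
      obtain ⟨l, hl1, hl2⟩ := h
      obtain ⟨l', h1, h2⟩ := List.sublist_map_iff.1 hl2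
      refine ⟨(l' : Multiset α), Multiset.coe_le.2 h1.subperm, ?_⟩
      show ((l'.map f : List β) : Multiset β) = (l1 : Multiset β)
      rw [← h2]
      exact Multiset.coe_eq_coe.2 hl1

/-- A monic divisor of a product of linear factors is a partial product. -/
theorem exists_finset_of_dvd_prod {L : Type*} [Field L] {σ : Type*} [Fintype σ] (a : σ → L)
    {f : L[X]} (hf : f.Monic) (hdvd : f ∣ ∏ i, (X - C (a i))) :
    ∃ T : Finset σ, f = ∏ i ∈ T, (X - C (a i)) := by
  classical
  have hprod : (∏ i, (X - C (a i))) =
      (((Finset.univ.val : Multiset σ).map a).map (fun t => X - C t)).prod := by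
    rw [Multiset.map_map]; rfl
  have hne : (∏ i, (X - C (a i))) ≠ 0 := (monic_prod_of_monic _ _ fun i _ => monic_X_sub_C _).ne_zero
  have hsp : (∏ i, (X - C (a i))).Splits := Splits.prod fun i _ => Splits.X_sub_C _
  have hfs : f.Splits := hsp.of_dvd hne hdvd
  have hroots := roots.le_of_dvd hne hdvd
  rw [hprod, roots_multiset_prod_X_sub_C] at hroots
  obtain ⟨r, hr, hr2⟩ := exists_map_of_le_map hroots
  have hnd : r.Nodup := Multiset.nodup_of_le hr Finset.univ.nodup
  refine ⟨⟨r, hnd⟩, ?_⟩
  rw [hfs.eq_prod_roots_of_monic hf, ← hr2, Multiset.map_map]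
  rfl

theorem natDegree_prod_X_sub_C' {L : Type*} [Field L] {σ : Type*} (T : Finset σ) (a : σ → L) :
    (∏ i ∈ T, (X - C (a i))).natDegree = T.card := by
  rw [natDegree_prod_of_monic _ _ fun i _ => monic_X_sub_C _]
  simp

end Fermat.Agent.H66
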