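import Fermat.Agent.H66Divisor

/-!
# Factors of the modular polynomial
-/

set_option autoImplicit false
set_option linter.unusedSectionVars false

noncomputable section

open ModularCurve Polynomial

namespace Fermat.Agent.H66

section Orders

variable {K : Type*} [Field K] {x y : LaurentSeries K} {n m : ℤ} {c d : K}

theorem HasLead.neg (hx : HasLead x n c) : HasLead (-x) n (-c) := by
  refine ⟨by rw [HahnSeries.coeff_neg, hx.1], fun k hk => ?_⟩
  rw [HahnSeries.coeff_neg, hx.2 k hk, neg_zero]

theorem HasLead.order_unique (hx : HasLead x n c) (hx' : HasLead x m d) (hc : c ≠ 0) (hd : d ≠ 0) :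
    n = m := by
  rcases lt_trichotomy n m with h | h | h
  · exact absurd (hx.1.symm.trans (hx'.2 n h)) hc
  · exact h
  · exact absurd (hx'.1.symm.trans (hx.2 m h)) hd

theorem HasLead.ne (hx : HasLead x n c) (hy : HasLead y m d) (hc : c ≠ 0) (hd : d ≠ 0)
    (h : n ≠ m) : x ≠ y := by
  rintro rfl
  exact h (hx.order_unique hy hc hd)

theorem dvd_of_hasLead_qExpand {p : ℕ} [NeZero p] (hx : HasLead (qExpand K p y) n c)
    (hc : c ≠ 0) : (p : ℤ) ∣ n := by
  by_contra h
  exact hc (hx.1.symm.trans (qExpand_coeff_of_not_dvd _ _ h))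

end Orders

section Factor

variable {K : Type*} [Field K] (p : ℕ) [Fact p.Prime] (u : Kˣ)

theorem hasLead_jf_none : HasLead (jf K p u none) (-(p * p)) 1 := by
  have h := (HasLead.C (1 : K)).mul (((HasLead.jqModC (A := K)).qExpand p).qExpand p)
  have h2 : (0 : ℤ) + p * (p * -1) = -(p * p) := by ring
  rw [h2, mul_one] at h
  exact h

theorem hasLead_jf_some (i : Fin p) :
    HasLead (jf K p u (some i)) (-1) (((u ^ (i : ℕ)) ^ (-1 : ℤ) : Kˣ) : K) := by
  have h := (HasLead.jqModC (A := K)).tw (u ^ (i : ℕ))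
  rw [mul_one] at h
  exact h

theorem jf_none : jf K p u none = qExpand K p (qExpand K p (jqModC K)) := by
  rw [jf, fam_none, map_one, one_mul]

theorem jf_some_zero : jf K p u (some 0) = jqModC K := by
  rw [jf, fam_some, Fin.val_zero, pow_zero, tw_one]

/-- order of the transforms of `j` -/
def ordJ : Option (Fin p) → ℤ
  | none => -(p * p)
  | some _ => -1

/-- leading coefficient of the transforms of `j` -/
def lcJ : Option (Fin p) → K
  | none => 1
  | some i => (((u ^ (i : ℕ)) ^ (-1 : ℤ) : Kˣ) : K)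

theorem lcJ_ne_zero (a : Option (Fin p)) : lcJ p u a ≠ 0 := by
  cases a with
  | none => exact one_ne_zero
  | some i => exact Units.ne_zero _

theorem hasLead_jf (a : Option (Fin p)) : HasLead (jf K p u a) (ordJ p a) (lcJ p u a) := by
  cases a with
  | none => exact hasLead_jf_none p u
  | some i => exact hasLead_jf_some p u i

theorem factor_dichotomy (d : ℕ) [NeZero d] (hd : ¬ p ∣ d) {f : (LaurentSeries K)[X]}
    (hf : f.Monic) (hdvd : f ∣ ∏ a, (X - C (qExpand K d (jf K p u a))))
    (h0 : ∃ y, f.coeff 0 = qExpand K p y) :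
    ∃ T : Finset (Option (Fin p)), f = ∏ a ∈ T, (X - C (qExpand K d (jf K p u a))) ∧
      ((∀ i : Fin p, some i ∉ T) ∨ (∀ i : Fin p, some i ∈ T)) := by
  classical
  have hp : p.Prime := Fact.out
  obtain ⟨T, hT⟩ := exists_finset_of_dvd_prod _ hf hdvd
  refine ⟨T, hT, ?_⟩
  obtain ⟨y, hy⟩ := h0
  have h1 : f.coeff 0 = ∏ a ∈ T, (- qExpand K d (jf K p u a)) := by
    rw [hT, coeff_zero_prod]
    refine Finset.prod_congr rfl fun a _ => ?_
    simp
  have h2 := HasLead.prod T (fun a => - qExpand K d (jf K p u a)) (fun a => (d : ℤ) * ordJ p a)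
    (fun a => - lcJ p u a) (fun a _ => ((hasLead_jf p u a).qExpand d).neg)
  rw [← h1, hy] at h2
  have h3 := dvd_of_hasLead_qExpand h2 (Finset.prod_ne_zero_iff.2 fun a _ => neg_ne_zero.2 (lcJ_ne_zero p u a))
  rw [← Finset.mul_sum] at h3
  have h4 : (p : ℤ) ∣ ∑ a ∈ T, ordJ p a := by
    refine (Int.Prime.dvd_mul' hp (by exact_mod_cast h3)).resolve_left ?_
    intro h
    exact hd (by exact_mod_cast h)
  set S : Finset (Fin p) := Finset.univ.filter (fun i => some i ∈ T) with hS
  have h5 : ∑ a ∈ T, ordJ p a = (if none ∈ T then -((p : ℤ) * p) else 0) - S.card := by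
    have : ∑ a ∈ T, ordJ p a = ∑ a, if a ∈ T then ordJ p a else 0 := by
      rw [Finset.sum_ite_mem, Finset.univ_inter]
    rw [this, Fintype.sum_option]
    have h6 : ∑ i : Fin p, (if some i ∈ T then ordJ p (some i) else 0) = - (S.card : ℤ) := by
      rw [← Finset.sum_filter]
      simp [ordJ, hS]
    rw [h6]
    rfl
  have h6 : p ∣ S.card := by
    have h7 : (p : ℤ) ∣ (if none ∈ T then -((p : ℤ) * p) else 0) := by
      split_ifs
      · exact (dvd_mul_right _ _).neg_right
      · exact dvd_zero _
    have h8 := dvd_sub h7 h4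
    rw [h5, sub_sub_cancel] at h8
    exact_mod_cast h8
  have h7 : S.card ≤ p := by
    simpa using Finset.card_le_univ S
  rcases Nat.eq_zero_or_pos S.card with h8 | h8
  · left
    intro i hi
    rw [Finset.card_eq_zero] at h8
    have : i ∈ S := by simp [hS, hi]
    rw [h8] at this
    simp at this
  · right
    have h9 : S.card = p := le_antisymm h7 (Nat.le_of_dvd h8 h6)
    have h10 : S = Finset.univ := by
      rw [← Finset.card_eq_iff_eq_univ, h9, Fintype.card_fin]
    intro i
    have : i ∈ S := by rw [h10]; exact Finset.mem_univ i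
    simpa [hS] using this

end Factor

end Fermat.Agent.H66
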