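import Fermat.Agent.H66Factor

/-!
# The fields `K(j(d τ) : d ∣ N)` and the modular polynomial
-/

set_option autoImplicit false
set_option linter.unusedSectionVars false

noncomputable section

open ModularCurve Polynomial IntermediateField

namespace Fermat.Agent.H66

section J

variable (K : Type*) [Field K]

theorem algebraMap_eq_C : algebraMap K (LaurentSeries K) = HahnSeries.C := by
  ext1 c
  exact algebraMap_laurentSeries_eq_single K c

/-- the `q`-expansion of `j(d τ)` -/
def J (d : ℕ) : LaurentSeries K :=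
  if h : d = 0 then 0 else
    haveI : NeZero d := ⟨h⟩
    qExpand K d (jqModC K)

theorem J_eq (d : ℕ) [NeZero d] : J K d = qExpand K d (jqModC K) := by
  rw [J, dif_neg (NeZero.ne d)]

theorem J_one : J K 1 = jqModC K := by
  rw [J_eq, qExpand_one_apply]

theorem qExpand_J (p : ℕ) [NeZero p] (d : ℕ) : qExpand K p (J K d) = J K (p * d) := by
  by_cases hd : d = 0
  · subst hd
    simp [J]
  · haveI : NeZero d := ⟨hd⟩
    have : NeZero (p * d) := ⟨mul_ne_zero (NeZero.ne p) hd⟩
    rw [J_eq, J_eq, qExpand_qExpand]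

theorem hasLead_J (d : ℕ) [NeZero d] : HasLead (J K d) (-d) 1 := by
  have h := (HasLead.jqModC (A := K)).qExpand d
  rw [J_eq]
  rwa [show (d : ℤ) * -1 = -d by ring] at h

/-- the value of a polynomial in `j(τ')` and `X` at `j(τ') = y` -/
def phiAt (Φ : K[X][X]) (y : LaurentSeries K) : (LaurentSeries K)[X] :=
  Φ.map (aeval y : K[X] →ₐ[K] LaurentSeries K).toRingHom

variable {K}

theorem phiAt_map (Φ : K[X][X]) (y : LaurentSeries K) (d : ℕ) [NeZero d] :
    (phiAt K Φ y).map (qExpand K d) = phiAt K Φ (qExpand K d y) := by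
  rw [phiAt, phiAt, Polynomial.map_map]
  congr 1
  refine Polynomial.ringHom_ext (fun a => ?_) ?_
  · show qExpand K d (aeval y (C a)) = aeval (qExpand K d y) (C a)
    rw [aeval_C, aeval_C, algebraMap_eq_C, qExpand_C]
  · show qExpand K d (aeval y X) = aeval (qExpand K d y) X
    rw [aeval_X, aeval_X]

theorem phiAt_monic {Φ : K[X][X]} (h : Φ.Monic) (y : LaurentSeries K) : (phiAt K Φ y).Monic :=
  h.map _

/-- the polynomial `phiAt` has coefficients in the field generated by `y` -/
theorem exists_phiAt_field (F : IntermediateField K (LaurentSeries K)) {y : LaurentSeries K}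
    (hy : y ∈ F) (Φ : K[X][X]) :
    ∃ G : F[X], G.map (algebraMap F (LaurentSeries K)) = phiAt K Φ y ∧ (Φ.Monic → G.Monic) := by
  refine ⟨Φ.map (aeval (⟨y, hy⟩ : F) : K[X] →ₐ[K] F).toRingHom, ?_, fun h => h.map _⟩
  rw [phiAt, Polynomial.map_map]
  congr 1
  refine Polynomial.ringHom_ext (fun a => ?_) ?_
  · show algebraMap F (LaurentSeries K) (aeval (⟨y, hy⟩ : F) (C a)) = aeval y (C a)
    rw [aeval_C, aeval_C]
    rfl
  · show algebraMap F (LaurentSeries K) (aeval (⟨y, hy⟩ : F) X) = aeval y X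
    rw [aeval_X, aeval_X]
    rfl

theorem monic_of_coeff {A : Type*} [CommRing A] (n : ℕ) (P : ℕ → A) :
    (X ^ n + ∑ k ∈ Finset.range n, C (P k) * X ^ k).Monic ∧
      (∀ [Nontrivial A], (X ^ n + ∑ k ∈ Finset.range n, C (P k) * X ^ k).natDegree = n) := by
  have hdeg : (∑ k ∈ Finset.range n, C (P k) * X ^ k).degree < (n : WithBot ℕ) := by
    refine lt_of_le_of_lt (degree_sum_le _ _) ?_
    rw [Finset.sup_lt_iff (by exact_mod_cast WithBot.bot_lt_coe n)]
    intro k hk
    refine lt_of_le_of_lt (degree_C_mul_X_pow_le k (P k)) ?_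
    exact_mod_cast Finset.mem_range.1 hk
  have h1 := monic_X_pow_add (n := n) (p := ∑ k ∈ Finset.range n, C (P k) * X ^ k) hdeg
  refine ⟨h1, fun {_} => ?_⟩
  rw [natDegree_eq_of_degree_eq_some]
  rw [add_comm, degree_add_eq_right_of_degree_lt]
  · exact degree_X_pow n
  · rw [degree_X_pow]; exact hdeg

/-- existence of the modular polynomial -/
theorem exists_poly {p : ℕ} [Fact p.Prime] (f : Option (Fin p) → LaurentSeries K)
    (hf : ∀ k, InJ K p ((∏ a, (X - C (f a))).coeff k)) :
    ∃ Φ : K[X][X], Φ.Monic ∧ Φ.natDegree = p + 1 ∧ phiAt K Φ (J K p) = ∏ a, (X - C (f a)) := by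
  classical
  choose P hP using hf
  obtain ⟨h1, h2⟩ := monic_of_coeff (p + 1) P
  refine ⟨X ^ (p + 1) + ∑ k ∈ Finset.range (p + 1), C (P k) * X ^ k, h1, h2, ?_⟩
  have hm : (∏ a, (X - C (f a))).Monic := monic_prod_of_monic _ _ fun i _ => monic_X_sub_C _
  have hd : (∏ a, (X - C (f a))).natDegree = p + 1 := by
    rw [natDegree_prod_X_sub_C']; simp
  conv_rhs => rw [hm.as_sum, hd]
  rw [phiAt, Polynomial.map_add, Polynomial.map_pow, Polynomial.map_X, Polynomial.map_sum]
  congr 1
  refine Finset.sum_congr rfl fun k _ => ?_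
  rw [Polynomial.map_mul, Polynomial.map_pow, Polynomial.map_X, Polynomial.map_C]
  congr 2
  rw [← hP k, J_eq, ← algebraMap_eq_C]
  rfl

end J

end Fermat.Agent.H66
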