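import Fermat.Agent.H66Lead

/-!
# Modular equations of prime level
-/

set_option autoImplicit false

noncomputable section

open ModularCurve

namespace Fermat.Agent.H66

section Defs

variable (A : Type*) [CommRing A] (p : ℕ) [NeZero p] (u : Aˣ)

/-- the transforms of `j` -/
def jf (a : Option (Fin p)) : LaurentSeries A := fam p u 1 (jqModC A) a

/-- the transforms of `(Δ(p τ) / Δ(τ)) ^ p`, suitably normalised -/
def vf (a : Option (Fin p)) : LaurentSeries A :=
  (fam p u ((p : A) ^ 12) (H28.deltaL A) a * qExpand A p (H28.deltaInvL A)) ^ p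

/-- The modular equations. -/
structure ModEq : Prop where
  phi : ∀ k, InJ A p ((∏ a, (Polynomial.X - Polynomial.C (jf A p u a))).coeff k)
  hp : ∀ k, InJ A p ((∏ a, (Polynomial.X - Polynomial.C (vf A p u a))).coeff k)
  tr : ∀ i ≤ p, InJ A p (∑ a, jf A p u a ^ i * vf A p u a)

end Defs

section Complex

variable (p : ℕ) [Fact p.Prime] (u : ℂˣ) (hu : IsPrimitiveRoot u p)

include hu

theorem hp_complex (k : ℕ) :
    InJ ℂ p ((∏ a, (Polynomial.X - Polynomial.C (vf ℂ p u a))).coeff k) := by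
  refine inJ_coeff_prod _ (fun m hm => ?_) k
  have h1 := inJ_trace p u hu (p * m) (f := dl ^ (12 * (p * m) / 12)) (by
    have : 12 * (p * m) / 12 = p * m := by omega
    rw [this]
    exact (isMF_dl.pow (p * m)).cast (by push_cast; ring))
  have h2 : 12 * (p * m) / 12 = p * m := by omega
  rw [h2] at h1
  convert h1 using 2 with a
  rw [vf, ← pow_mul, mul_pow, fam_pow, map_pow, ofPowerSeries_dl, ← pow_mul]

theorem tr_complex (i : ℕ) (hi : i ≤ p) :
    InJ ℂ p (∑ a, jf ℂ p u a ^ i * vf ℂ p u a) := by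
  have h1 := inJ_trace p u hu p (f := e4 ^ (3 * i) * dl ^ (p - i)) (by
    refine ((isMF_e4.pow (3 * i)).mul (isMF_dl.pow (p - i))).cast ?_
    push_cast [Nat.cast_sub hi]
    ring)
  convert h1 using 2 with a
  rw [jf, vf, mul_pow, fam_pow, fam_pow, ← mul_assoc, fam_mul, one_pow, one_mul, ← pow_mul]
  have h3 : jqModC ℂ ^ i * H28.deltaL ℂ ^ p =
      HahnSeries.ofPowerSeries ℤ ℂ (e4 ^ (3 * i) * dl ^ (p - i)) := by
    rw [jqModC_eq, map_mul, map_pow, map_pow, ofPowerSeries_dl]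
    obtain ⟨r, rfl⟩ := Nat.exists_eq_add_of_le hi
    have h4 : (i + r) - i = r := by omega
    rw [h4, pow_add, mul_pow, ← pow_mul]
    have h5 : H28.deltaInvL ℂ ^ i * H28.deltaL ℂ ^ i = 1 := by
      rw [← mul_pow, mul_comm, H28.deltaL_mul_deltaInvL, one_pow]
    linear_combination (HahnSeries.ofPowerSeries ℤ ℂ e4 ^ (3 * i) * H28.deltaL ℂ ^ r) * h5
  rw [h3]

/-- The set of polynomials in `j(t ^ p)` as a subspace. -/
def inJSub (p : ℕ) [NeZero p] : Submodule ℂ (LaurentSeries ℂ) where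
  carrier := {x | InJ ℂ p x}
  add_mem' h1 h2 := h1.add h2
  zero_mem' := InJ.zero
  smul_mem' c x hx := by
    have := (InJ.C (p := p) c).mul hx
    rwa [HahnSeries.C_mul_eq_smul] at this

end Complex

theorem coeff_mem_of_eval_mem (W : Submodule ℂ (LaurentSeries ℂ))
    (F : Polynomial (LaurentSeries ℂ)) (h : ∀ x : ℂ, F.eval (HahnSeries.C x) ∈ W) (n : ℕ) :
    F.coeff n ∈ W := by
  by_contra hn
  obtain ⟨φ, hφ, hW⟩ := Submodule.exists_le_ker_of_notMem hn
  set q : Polynomial ℂ := ∑ i ∈ Finset.range (F.natDegree + 1),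
    Polynomial.C (φ (F.coeff i)) * Polynomial.X ^ i with hq
  have h1 : q = 0 := by
    refine Polynomial.funext fun x => ?_
    rw [Polynomial.eval_zero, hq, Polynomial.eval_finsetSum]
    have h2 : φ (F.eval (HahnSeries.C x)) = 0 := hW (h x)
    rw [Polynomial.eval_eq_sum_range, map_sum] at h2
    rw [← h2]
    refine Finset.sum_congr rfl fun i _ => ?_
    rw [Polynomial.eval_mul, Polynomial.eval_C, Polynomial.eval_pow, Polynomial.eval_X,
      ← map_pow, mul_comm (F.coeff i), HahnSeries.C_mul_eq_smul, map_smul, smul_eq_mul, mul_comm]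
  have h3 : q.coeff n = φ (F.coeff n) := by
    rw [hq, Polynomial.finsetSum_coeff]
    simp only [Polynomial.coeff_C_mul, Polynomial.coeff_X_pow]
    by_cases hn2 : n ≤ F.natDegree
    · rw [Finset.sum_eq_single n]
      · simp
      · intro b _ hb
        simp [hb.symm]
      · intro h
        exact absurd (Finset.mem_range.2 (by omega)) h
    · rw [Polynomial.coeff_eq_zero_of_natDegree_lt (by omega : F.natDegree < n), map_zero]
      refine Finset.sum_eq_zero fun b hb => ?_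
      rw [Finset.mem_range] at hb
      rw [if_neg (by omega), mul_zero]
  rw [h1, Polynomial.coeff_zero] at h3
  exact hφ h3.symm

theorem InJ.eq_C {A : Type*} [CommRing A] {p : ℕ} [NeZero p] {x : LaurentSeries A}
    (hx : InJ A p x) {c : A} (hc : HasLead x 0 c) : x = HahnSeries.C c := by
  obtain ⟨P, rfl⟩ := hx
  have h1 := (HasLead.jqModC (A := A)).qExpand p
  rw [show (p : ℤ) * (-1) = -(p : ℤ) by ring] at h1
  have hp : (0 : ℤ) < p := by exact_mod_cast Nat.pos_of_ne_zero (NeZero.ne p)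
  have h2 := h1.eval₂ hp P
  by_cases hd : P.natDegree = 0
  · rw [Polynomial.natDegree_eq_zero] at hd
    obtain ⟨a, rfl⟩ := hd
    simp only [Polynomial.eval₂_C] at hc ⊢
    rw [← hc.1]
    congr 1
    exact (HasLead.C a).1.symm
  · have h3 : P.leadingCoeff = 0 := by
      rw [← h2.1]
      refine hc.2 _ ?_
      have : (0 : ℤ) < P.natDegree := by exact_mod_cast Nat.pos_of_ne_zero hd
      nlinarith
    rw [Polynomial.leadingCoeff_eq_zero] at h3
    subst h3
    exact absurd (Polynomial.natDegree_zero) hd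

section Complex

variable (p : ℕ) [Fact p.Prime] (u : ℂˣ) (hu : IsPrimitiveRoot u p)

theorem hasLead_prod_delta :
    HasLead (∏ a, (fam p u ((p : ℂ) ^ 12) (H28.deltaL ℂ) a * qExpand ℂ p (H28.deltaInvL ℂ))) 0
      ((p : ℂ) ^ 12 * ∏ i : Fin p, (((u ^ (i : ℕ) : ℂˣ) : ℂ))) := by
  have h1 : HasLead (qExpand ℂ p (H28.deltaInvL ℂ)) (p * (-1)) 1 :=
    (hasLead_deltaInvL ℂ).qExpand p
  rw [Fintype.prod_option]
  have h2 : HasLead (fam p u ((p : ℂ) ^ 12) (H28.deltaL ℂ) none * qExpand ℂ p (H28.deltaInvL ℂ))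
      ((0 + p * (p * 1)) + p * (-1)) (((p : ℂ) ^ 12 * 1) * 1) :=
    ((HasLead.C _).mul (((hasLead_deltaL ℂ).qExpand p).qExpand p)).mul h1
  have h3 := HasLead.prod Finset.univ (fun i : Fin p =>
    fam p u ((p : ℂ) ^ 12) (H28.deltaL ℂ) (some i) * qExpand ℂ p (H28.deltaInvL ℂ))
    (fun _ => 1 + p * (-1)) (fun i => (((u ^ (i : ℕ)) ^ (1 : ℤ) : ℂˣ) : ℂ) * 1 * 1)
    (fun i _ => ((hasLead_deltaL ℂ).tw (u ^ (i : ℕ))).mul h1)
  have h4 := h2.mul h3
  simp only [mul_one, zpow_one, Finset.sum_const, Finset.card_univ, Fintype.card_fin,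
    nsmul_eq_mul] at h4
  convert h4 using 1
  ring

include hu

theorem phi_complex (k : ℕ) :
    InJ ℂ p ((∏ a, (Polynomial.X - Polynomial.C (jf ℂ p u a))).coeff k) := by
  have hp : p.Prime := Fact.out
  set DI := qExpand ℂ p (H28.deltaInvL ℂ) with hDI
  set d : Option (Fin p) → LaurentSeries ℂ :=
    fun a => fam p u ((p : ℂ) ^ 12) (H28.deltaL ℂ) a * DI with hd
  have hgen : ∀ f : PowerSeries ℂ, IsMF 12 f →
      InJ ℂ p (∏ a, (fam p u ((p : ℂ) ^ 12) (HahnSeries.ofPowerSeries ℤ ℂ f) a * DI)) := by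
    intro f hf
    refine inJ_prod _ fun m hm => ?_
    have h1 := inJ_trace p u hu m (f := f ^ m) ((hf.pow m).cast (by push_cast; ring))
    convert h1 using 2 with a
    rw [mul_pow, fam_pow, map_pow, ← pow_mul]
  have hprod : InJ ℂ p (∏ a, d a) := by
    have := hgen dl isMF_dl
    rwa [ofPowerSeries_dl] at this
  set c : ℂ := (p : ℂ) ^ 12 * ∏ i : Fin p, (((u ^ (i : ℕ) : ℂˣ) : ℂ)) with hc
  have hc0 : c ≠ 0 := by
    refine mul_ne_zero (pow_ne_zero _ (by exact_mod_cast hp.ne_zero)) ?_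
    exact Finset.prod_ne_zero_iff.2 fun i _ => Units.ne_zero _
  have hprod2 : ∏ a, d a = HahnSeries.C c := hprod.eq_C (hasLead_prod_delta p u)
  refine coeff_mem_of_eval_mem (inJSub p) _ (fun x => ?_) k
  show InJ ℂ p _
  rw [Polynomial.eval_prod]
  simp only [Polynomial.eval_sub, Polynomial.eval_X, Polynomial.eval_C]
  have h1 := hgen (x • dl - e4 ^ 3) ((isMF_dl.smul x).sub ((isMF_e4.pow 3).cast (by norm_num)))
  have h2 : ∀ a, fam p u ((p : ℂ) ^ 12)
      (HahnSeries.ofPowerSeries ℤ ℂ (x • dl - e4 ^ 3)) a * DI =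
      (HahnSeries.C x - jf ℂ p u a) * d a := by
    intro a
    have h3 : HahnSeries.ofPowerSeries ℤ ℂ (x • dl - e4 ^ 3) =
        HahnSeries.C x * H28.deltaL ℂ - jqModC ℂ * H28.deltaL ℂ := by
      rw [map_sub, PowerSeries.smul_eq_C_mul, map_mul, map_pow, HahnSeries.ofPowerSeries_C,
        ofPowerSeries_dl, jqModC_eq]
      linear_combination (HahnSeries.ofPowerSeries ℤ ℂ e4 ^ 3) * (H28.deltaL_mul_deltaInvL ℂ)
    have h4 : fam p u ((p : ℂ) ^ 12) (jqModC ℂ * H28.deltaL ℂ) a =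
        jf ℂ p u a * fam p u ((p : ℂ) ^ 12) (H28.deltaL ℂ) a := by
      rw [jf, fam_mul, one_mul]
    rw [h3, fam_sub, fam_C_mul, h4, hd]
    ring
  have h5 : ∏ a, (HahnSeries.C x - jf ℂ p u a) = HahnSeries.C c⁻¹ *
      ∏ a, (fam p u ((p : ℂ) ^ 12) (HahnSeries.ofPowerSeries ℤ ℂ (x • dl - e4 ^ 3)) a * DI) := by
    simp only [h2]
    rw [Finset.prod_mul_distrib, hprod2, mul_comm, mul_assoc, ← map_mul, mul_inv_cancel₀ hc0,
      map_one, mul_one]
  rw [h5]
  exact (InJ.C _).mul h1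

theorem modEq_complex : ModEq ℂ p u where
  phi := phi_complex p u hu
  hp := hp_complex p u hu
  tr := tr_complex p u hu

end Complex

end Fermat.Agent.H66
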