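import Mathlib
import Fermat.Agent.H78Key

/-! # Mean values on lattices: averaging, indicator functions, products (helper88, S47 DE2b/DE4) -/

set_option autoImplicit false
set_option linter.style.haveILetI false

namespace Fermat.Agent.H88T

open Fermat.Agent.H78G

variable {B : Type*} [AddCommGroup B]

theorem mean_add {L L' : AddSubgroup B} [Finite (L ⧸ L'.addSubgroupOf L)] (f g : B → ℂ) :
    mean L L' (fun x => f x + g x) = mean L L' f + mean L L' g := by
  haveI := Fintype.ofFinite (L ⧸ L'.addSubgroupOf L)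
  unfold mean
  rw [finsum_eq_sum_of_fintype, finsum_eq_sum_of_fintype, finsum_eq_sum_of_fintype,
    Finset.sum_add_distrib, mul_add]

theorem mean_sum {ι : Type*} (s : Finset ι) {L L' : AddSubgroup B}
    [Finite (L ⧸ L'.addSubgroupOf L)] (f : ι → B → ℂ) :
    mean L L' (fun x => ∑ i ∈ s, f i x) = ∑ i ∈ s, mean L L' (f i) := by
  haveI := Fintype.ofFinite (L ⧸ L'.addSubgroupOf L)
  unfold mean
  rw [finsum_eq_sum_of_fintype, Finset.sum_comm, Finset.mul_sum]
  refine Finset.sum_congr rfl fun i _ => ?_
  rw [finsum_eq_sum_of_fintype]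

theorem mean_const (L L' : AddSubgroup B) [Finite (L ⧸ L'.addSubgroupOf L)] (c : ℂ) :
    mean L L' (fun _ => c) = c := by
  haveI := Fintype.ofFinite (L ⧸ L'.addSubgroupOf L)
  unfold mean
  rw [finsum_eq_sum_of_fintype, Finset.sum_const, Finset.card_univ, ← Nat.card_eq_fintype_card,
    nsmul_eq_mul, ← mul_assoc, inv_mul_cancel₀, one_mul]
  exact_mod_cast Nat.card_pos.ne'

theorem mean_mul_right {L L' : AddSubgroup B} [Finite (L ⧸ L'.addSubgroupOf L)] (c : ℂ)
    (f : B → ℂ) : mean L L' (fun x => f x * c) = mean L L' f * c := by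
  rw [mul_comm, ← mean_mul_left]
  exact mean_congr fun l _ => mul_comm _ _

/-- averaging over a subgroup -/
theorem mean_mean {I L L' : AddSubgroup B} (hIL : I ≤ L)
    [Finite (L ⧸ L'.addSubgroupOf L)] [Finite (I ⧸ L'.addSubgroupOf I)] {f : B → ℂ}
    (h : Per L L' f) :
    mean L L' (fun x => mean I L' (fun y => f (x + y))) = mean L L' f := by
  haveI := Fintype.ofFinite (I ⧸ L'.addSubgroupOf I)
  have h1 : (fun x => mean I L' (fun y => f (x + y))) =
      fun x => (Nat.card (I ⧸ L'.addSubgroupOf I) : ℂ)⁻¹ *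
        ∑ q : I ⧸ L'.addSubgroupOf I, f (x + (q.out : I)) := by
    funext x
    unfold mean
    rw [finsum_eq_sum_of_fintype]
  rw [h1, mean_mul_left, mean_sum]
  have h2 : ∀ q : I ⧸ L'.addSubgroupOf I,
      mean L L' (fun x => f (x + (q.out : I))) = mean L L' f :=
    fun q => mean_shift h (hIL (q.out : I).2)
  rw [Finset.sum_congr rfl fun q _ => h2 q, Finset.sum_const, Finset.card_univ,
    ← Nat.card_eq_fintype_card, nsmul_eq_mul, ← mul_assoc, inv_mul_cancel₀, one_mul]
  exact_mod_cast Nat.card_pos.ne'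

open scoped Classical in
/-- the mean value of a function supported on a subgroup -/
theorem mean_indicator {J L L' : AddSubgroup B} (hJ : L' ≤ J) (hJL : J ≤ L)
    [Finite (L ⧸ L'.addSubgroupOf L)] {f : B → ℂ} (h : Per L L' f) :
    mean L L' (fun x => if x ∈ J then f x else 0) = (J.relIndex L : ℂ)⁻¹ * mean J L' f := by
  have hper : Per L L' (fun x => if x ∈ J then f x else 0) := by
    intro l hl l' hl'
    show (if l + l' ∈ J then f (l + l') else 0) = if l ∈ J then f l else 0
    have h1 : l + l' ∈ J ↔ l ∈ J := J.add_mem_cancel_right (hJ hl')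
    rw [h l hl l' hl']
    simp only [h1]
  rw [mean_eq hper, mean_eq (h.mono_left hJL)]
  let φ : (J ⧸ L'.addSubgroupOf J) → (L ⧸ L'.addSubgroupOf L) :=
    Quotient.map' (AddSubgroup.inclusion hJL) (by
      intro a b hab
      rw [QuotientAddGroup.leftRel_apply] at hab ⊢
      exact hab)
  have hφ : Function.Injective φ := by
    intro a b hab
    induction a using QuotientAddGroup.induction_on with
    | H a =>
      induction b using QuotientAddGroup.induction_on with
      | H b =>
        have h1 : (QuotientAddGroup.mk (AddSubgroup.inclusion hJL a) : L ⧸ L'.addSubgroupOf L) =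
          QuotientAddGroup.mk (AddSubgroup.inclusion hJL b) := hab
        rw [QuotientAddGroup.eq] at h1 ⊢
        exact h1
  haveI : Finite (J ⧸ L'.addSubgroupOf J) := Finite.of_injective φ hφ
  haveI := Fintype.ofFinite (L ⧸ L'.addSubgroupOf L)
  haveI := Fintype.ofFinite (J ⧸ L'.addSubgroupOf J)
  rw [finsum_eq_sum_of_fintype, finsum_eq_sum_of_fintype]
  have hsum : ∑ q, hper.lift q = ∑ q, (h.mono_left hJL).lift q := by
    symm
    refine Finset.sum_of_injOn φ (hφ.injOn) (fun _ _ => Finset.mem_coe.mpr (Finset.mem_univ _)) ?_ ?_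
    · intro q _ hq
      induction q using QuotientAddGroup.induction_on with
      | H l =>
        rw [Per.lift_mk]
        split_ifs with hl
        · exfalso
          apply hq
          exact ⟨QuotientAddGroup.mk ⟨l, hl⟩, Finset.mem_coe.mpr (Finset.mem_univ _), rfl⟩
        · rfl
    · intro q _
      induction q using QuotientAddGroup.induction_on with
      | H l =>
        show f l = if (l : B) ∈ J then f l else 0
        rw [if_pos l.2]
  have hcard : (Nat.card (L ⧸ L'.addSubgroupOf L) : ℂ) =
      (J.relIndex L : ℂ) * Nat.card (J ⧸ L'.addSubgroupOf J) := by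
    have h1 := AddSubgroup.relIndex_mul_relIndex L' J L hJ hJL
    have h2 : L'.relIndex J = Nat.card (J ⧸ L'.addSubgroupOf J) := rfl
    have h3 : L'.relIndex L = Nat.card (L ⧸ L'.addSubgroupOf L) := rfl
    rw [← h3, ← h2, ← h1]
    push_cast
    ring
  rw [hsum, hcard, mul_inv, mul_assoc]

/-- A quadratic exponential: averaging over an isotropic subgroup `I` kills the function outside
the orthogonal `J` of `I`. -/
theorem mean_isotropic {I J L L' : AddSubgroup B} (hIL : I ≤ L)
    (hL'J : L' ≤ J) (hJL : J ≤ L) [Finite (L ⧸ L'.addSubgroupOf L)]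
    [Finite (I ⧸ L'.addSubgroupOf I)] {f : B → ℂ} (h : Per L L' f)
    (hJ : ∀ x ∈ J, ∀ y ∈ I, f (x + y) = f x)
    (hn : ∀ x ∈ L, x ∉ J → ∃ y₀ ∈ I, ∃ c : ℂ, c ≠ 1 ∧ ∀ y ∈ I, f (x + (y + y₀)) = c * f (x + y)) :
    mean L L' f = (J.relIndex L : ℂ)⁻¹ * mean J L' f := by
  classical
  rw [← mean_mean hIL h, ← mean_indicator hL'J hJL h]
  refine mean_congr fun x hx => ?_
  by_cases hxJ : x ∈ J
  · rw [if_pos hxJ, mean_congr (fun y hy => hJ x hxJ y hy), mean_const]
  · rw [if_neg hxJ]
    obtain ⟨y₀, hy₀, c, hc, hfc⟩ := hn x hx hxJ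
    refine mean_eq_zero (L := I) (L' := L') (η := y₀) (c := c) ?_ hy₀ hc hfc
    intro l hl l' hl'
    show f (x + (l + l')) = f (x + l)
    rw [← add_assoc]
    exact h _ (L.add_mem hx (hIL hl)) _ hl'

/-- mean values of products: independent periods -/
theorem mean_mul {L L₁ L₂ : AddSubgroup B} (h₁ : L₁ ≤ L)
    (hsup : ∀ l ∈ L, ∃ a ∈ L₁, l - a ∈ L₂) [Finite (L ⧸ L₁.addSubgroupOf L)]
    [Finite (L ⧸ L₂.addSubgroupOf L)] {f g : B → ℂ} (hf : Per L L₁ f) (hg : Per L L₂ g) :
    mean L (L₁ ⊓ L₂) (fun x => f x * g x) = mean L L₁ f * mean L L₂ g := by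
  have hf' : Per L (L₁ ⊓ L₂) f := hf.mono inf_le_left
  have hg' : Per L (L₁ ⊓ L₂) g := hg.mono inf_le_right
  have hfg : Per L (L₁ ⊓ L₂) (fun x => f x * g x) := by
    intro l hl l' hl'
    show f (l + l') * g (l + l') = f l * g l
    rw [hf' l hl l' hl', hg' l hl l' hl']
  let φ : (L ⧸ (L₁ ⊓ L₂).addSubgroupOf L) →
      (L ⧸ L₁.addSubgroupOf L) × (L ⧸ L₂.addSubgroupOf L) := fun q =>
    (Quotient.map' id (by
      intro a b hab
      rw [QuotientAddGroup.leftRel_apply, AddSubgroup.mem_addSubgroupOf] at hab ⊢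
      exact (AddSubgroup.mem_inf.mp hab).1) q,
     Quotient.map' id (by
      intro a b hab
      rw [QuotientAddGroup.leftRel_apply, AddSubgroup.mem_addSubgroupOf] at hab ⊢
      exact (AddSubgroup.mem_inf.mp hab).2) q)
  have hφmk : ∀ l : L, φ (QuotientAddGroup.mk l) = (QuotientAddGroup.mk l, QuotientAddGroup.mk l) :=
    fun l => rfl
  have hφ : Function.Bijective φ := by
    constructor
    · intro a b hab
      induction a using QuotientAddGroup.induction_on with
      | H a =>
        induction b using QuotientAddGroup.induction_on with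
        | H b =>
          rw [hφmk, hφmk, Prod.mk.injEq, QuotientAddGroup.eq, QuotientAddGroup.eq,
            AddSubgroup.mem_addSubgroupOf, AddSubgroup.mem_addSubgroupOf] at hab
          rw [QuotientAddGroup.eq, AddSubgroup.mem_addSubgroupOf, AddSubgroup.mem_inf]
          exact hab
    · rintro ⟨a, b⟩
      induction a using QuotientAddGroup.induction_on with
      | H a =>
        induction b using QuotientAddGroup.induction_on with
        | H b =>
          obtain ⟨c, hc1, hc2⟩ := hsup (b - a) (L.sub_mem b.2 a.2)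
          refine ⟨QuotientAddGroup.mk (a + ⟨c, h₁ hc1⟩), ?_⟩
          rw [hφmk, Prod.mk.injEq, QuotientAddGroup.eq, QuotientAddGroup.eq,
            AddSubgroup.mem_addSubgroupOf, AddSubgroup.mem_addSubgroupOf]
          refine ⟨?_, ?_⟩
          · have e : ((-(a + (⟨c, h₁ hc1⟩ : L)) + a : L) : B) = -c := by
              push_cast; abel
            rw [e]
            exact L₁.neg_mem hc1
          · have e : ((-(a + (⟨c, h₁ hc1⟩ : L)) + b : L) : B) = (b : B) - a - c := by
              push_cast; abel
            rw [e]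
            exact hc2
  haveI : Finite (L ⧸ (L₁ ⊓ L₂).addSubgroupOf L) := Finite.of_injective φ hφ.1
  haveI := Fintype.ofFinite (L ⧸ (L₁ ⊓ L₂).addSubgroupOf L)
  haveI := Fintype.ofFinite (L ⧸ L₁.addSubgroupOf L)
  haveI := Fintype.ofFinite (L ⧸ L₂.addSubgroupOf L)
  rw [mean_eq hfg, mean_eq hf, mean_eq hg, finsum_eq_sum_of_fintype, finsum_eq_sum_of_fintype,
    finsum_eq_sum_of_fintype, mul_mul_mul_comm, Finset.sum_mul_sum, ← Fintype.sum_prod_type']
  congr 1
  · rw [← mul_inv, ← Nat.cast_mul, ← Nat.card_prod, Nat.card_congr (Equiv.ofBijective φ hφ)]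
  · refine Fintype.sum_bijective φ hφ _ _ fun q => ?_
    induction q using QuotientAddGroup.induction_on with
    | H l => rfl

/-- transport by an injective additive map -/
theorem mean_map {B' : Type*} [AddCommGroup B'] (φ : B →+ B') (hφ : Function.Injective φ)
    (L L' : AddSubgroup B) {f : B' → ℂ} (h : Per (L.map φ) (L'.map φ) f) :
    mean (L.map φ) (L'.map φ) f = mean L L' (fun x => f (φ x)) := by
  have h' : Per L L' (fun x => f (φ x)) := by
    intro l hl l' hl'
    show f (φ (l + l')) = f (φ l)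
    rw [map_add]
    exact h _ (AddSubgroup.mem_map_of_mem φ hl) _ (AddSubgroup.mem_map_of_mem φ hl')
  rw [mean_eq h, mean_eq h']
  let Φ : (L ⧸ L'.addSubgroupOf L) → (L.map φ ⧸ (L'.map φ).addSubgroupOf (L.map φ)) :=
    Quotient.map' (fun x : L => (⟨φ x, AddSubgroup.mem_map_of_mem φ x.2⟩ : L.map φ)) (by
      intro a b hab
      rw [QuotientAddGroup.leftRel_apply, AddSubgroup.mem_addSubgroupOf] at hab ⊢
      refine ⟨_, hab, ?_⟩
      push_cast
      rw [map_add, map_neg])
  have hΦ : Function.Bijective Φ := by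
    constructor
    · intro a b hab
      induction a using QuotientAddGroup.induction_on with
      | H a =>
        induction b using QuotientAddGroup.induction_on with
        | H b =>
          have h1 : (QuotientAddGroup.mk (⟨φ a, AddSubgroup.mem_map_of_mem φ a.2⟩ : L.map φ) :
            L.map φ ⧸ (L'.map φ).addSubgroupOf (L.map φ)) =
            QuotientAddGroup.mk (⟨φ b, AddSubgroup.mem_map_of_mem φ b.2⟩ : L.map φ) := hab
          rw [QuotientAddGroup.eq, AddSubgroup.mem_addSubgroupOf] at h1 ⊢
          obtain ⟨c, hc, hc2⟩ := h1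
          have h2 : c = ((-a + b : L) : B) := by
            apply hφ
            rw [hc2]
            push_cast
            rw [map_add, map_neg]
          rw [← h2]
          exact hc
    · intro q
      induction q using QuotientAddGroup.induction_on with
      | H l =>
        obtain ⟨l, x, hx, rfl⟩ := l
        exact ⟨QuotientAddGroup.mk ⟨x, hx⟩, rfl⟩
  congr 1
  · rw [Nat.card_congr (Equiv.ofBijective Φ hΦ)]
  · symm
    refine finsum_eq_of_bijective Φ hΦ ?_
    intro q
    induction q using QuotientAddGroup.induction_on with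
    | H l => rfl

end Fermat.Agent.H88T
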