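import Fermat.Agent.H66TLat
import Fermat.Agent.H88GS1

/-!
# The Haar functional on products of an `S`-function and a function outside `S` (S47, block D)
-/

set_option linter.all false

namespace Fermat.Agent.H66T

open IsDedekindDomain HeightOneSpectrum WithZero NumberField Fermat.Agent.H66D Fermat.Agent.H78G

section S

variable {B : Type*} [Field B] [NumberField B] (SB : Set (HeightOneSpectrum (𝓞 B)))

/-- a function depending only on the components at `SB`, with integral support there -/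
structure SFun (k : ℕ) (g : B → ℂ) : Prop where
  supp : ∀ x, g x ≠ 0 → ∀ P ∈ SB, P.valuation B x ≤ 1
  per : ∀ x y, (∀ P ∈ SB, P.valuation B y ≤ exp (-(k : ℤ))) → g (x + y) = g x

/-- elements with prescribed orders outside `SB` -/
def RS (c : HeightOneSpectrum (𝓞 B) → ℤ) : AddSubgroup B := LV B SBᶜ c

open Classical in
/-- the divisor `c` outside `SB` and `k` on `SB` -/
noncomputable def dv (c : HeightOneSpectrum (𝓞 B) → ℤ) (k : ℤ) (P : HeightOneSpectrum (𝓞 B)) : ℤ :=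
  if P ∈ SB then k else c P

variable {SB}

lemma dv_of_mem {c : HeightOneSpectrum (𝓞 B) → ℤ} {k : ℤ} {P : HeightOneSpectrum (𝓞 B)}
    (h : P ∈ SB) : dv SB c k P = k := if_pos h

lemma dv_of_not_mem {c : HeightOneSpectrum (𝓞 B) → ℤ} {k : ℤ} {P : HeightOneSpectrum (𝓞 B)}
    (h : P ∉ SB) : dv SB c k P = c P := if_neg h

/-- the lattice with orders `c` outside `SB` and `k` on `SB` -/
noncomputable abbrev LB (SB : Set (HeightOneSpectrum (𝓞 B))) (c : HeightOneSpectrum (𝓞 B) → ℤ)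
    (k : ℤ) : AddSubgroup B := LV B (Set.univ : Set (HeightOneSpectrum (𝓞 B))) (dv SB c k)

lemma mem_RS {c : HeightOneSpectrum (𝓞 B) → ℤ} {x : B} :
    x ∈ RS SB c ↔ ∀ P ∉ SB, P.valuation B x ≤ exp (-(c P)) := Iff.rfl

lemma mem_LB {c : HeightOneSpectrum (𝓞 B) → ℤ} {k : ℤ} {x : B} :
    x ∈ LB SB c k ↔ x ∈ RS SB c ∧ ∀ P ∈ SB, P.valuation B x ≤ exp (-k) := by
  constructor
  · intro h
    refine ⟨fun P hP => ?_, fun P hP => ?_⟩
    · have := h P trivial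
      rwa [dv_of_not_mem hP] at this
    · have := h P trivial
      rwa [dv_of_mem hP] at this
  · rintro ⟨h1, h2⟩ P -
    by_cases hP : P ∈ SB
    · rw [dv_of_mem hP]; exact h2 P hP
    · rw [dv_of_not_mem hP]; exact h1 P hP

lemma dv_support (hSB : SB.Finite) {c : HeightOneSpectrum (𝓞 B) → ℤ}
    (hc : {P | P ∉ SB ∧ c P ≠ 0}.Finite) (k : ℤ) : {P | dv SB c k P ≠ 0}.Finite := by
  refine (hSB.union hc).subset fun P hP => ?_
  by_cases h : P ∈ SB
  · exact Or.inl h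
  · right
    refine ⟨h, ?_⟩
    have h1 : dv SB c k P ≠ 0 := hP
    rwa [dv_of_not_mem h] at h1

lemma LB_sup (hSB : SB.Finite) {c c₁ c₂ : HeightOneSpectrum (𝓞 B) → ℤ} {k k₁ k₂ : ℤ}
    (hc : {P | P ∉ SB ∧ c P ≠ 0}.Finite) (hc₁ : {P | P ∉ SB ∧ c₁ P ≠ 0}.Finite)
    (hc₂ : {P | P ∉ SB ∧ c₂ P ≠ 0}.Finite)
    (h₁ : ∀ P ∉ SB, c P ≤ c₁ P) (h₂ : ∀ P ∉ SB, c P ≤ c₂ P) (h : ∀ P ∉ SB, c₁ P = c P ∨ c₂ P = c P)
    (hk₁ : k ≤ k₁) (hk₂ : k ≤ k₂) (hk : k₁ = k ∨ k₂ = k) :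
    ∀ x ∈ LB SB c k, ∃ a ∈ LB SB c₁ k₁, x - a ∈ LB SB c₂ k₂ := by
  refine LV_sup ?_ ?_ ?_ ?_
  · intro P
    by_cases hP : P ∈ SB
    · rw [dv_of_mem hP, dv_of_mem hP]; exact hk₁
    · rw [dv_of_not_mem hP, dv_of_not_mem hP]; exact h₁ P hP
  · intro P
    by_cases hP : P ∈ SB
    · rw [dv_of_mem hP, dv_of_mem hP]; exact hk₂
    · rw [dv_of_not_mem hP, dv_of_not_mem hP]; exact h₂ P hP
  · intro P
    by_cases hP : P ∈ SB
    · rw [dv_of_mem hP, dv_of_mem hP, dv_of_mem hP]; exact hk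
    · rw [dv_of_not_mem hP, dv_of_not_mem hP, dv_of_not_mem hP]; exact h P hP
  · refine (((dv_support hSB hc k).union (dv_support hSB hc₁ k₁)).union
      (dv_support hSB hc₂ k₂)).subset ?_
    rintro P (h1 | h1 | h1)
    · exact Or.inl (Or.inl h1)
    · exact Or.inl (Or.inr h1)
    · exact Or.inr h1

lemma SFun.perL {k : ℕ} {g : B → ℂ} (hg : SFun SB k g) (L : AddSubgroup B) :
    Per L (LV B SB fun _ => (k : ℤ)) g := fun l _ l' hl' => hg.per l l' hl'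

lemma SFun.per' {k : ℕ} {g : B → ℂ} (hg : SFun SB k g) (L : AddSubgroup B)
    (c : HeightOneSpectrum (𝓞 B) → ℤ) : Per L (LB SB c k) g :=
  fun l _ l' hl' => hg.per l l' (mem_LB.1 hl').2

/-- finiteness of `LB / Sk` -/
lemma finite_Sk (hSB : SB.Finite) {c : HeightOneSpectrum (𝓞 B) → ℤ}
    (hc : {P | P ∉ SB ∧ c P ≠ 0}.Finite) (k : ℤ) (k' : ℤ) :
    Finite ((LB SB c k) ⧸ (LV B SB fun _ => k').addSubgroupOf (LB SB c k)) := by
  refine finite_of_Comm isFull_OLat (Comm_LV (dv_support hSB hc k)) ?_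
  obtain ⟨m, hm, h⟩ := (Comm_LV (dv_support hSB hc k')).2
  exact ⟨m, hm, h.trans fun x hx => (mem_LB.1 hx).2⟩

lemma finite_RS (hSB : SB.Finite) {c c' : HeightOneSpectrum (𝓞 B) → ℤ}
    (hc : {P | P ∉ SB ∧ c P ≠ 0}.Finite) (hc' : {P | P ∉ SB ∧ c' P ≠ 0}.Finite) (k : ℤ) :
    Finite ((LB SB c k) ⧸ (RS SB c').addSubgroupOf (LB SB c k)) := by
  refine finite_of_Comm isFull_OLat (Comm_LV (dv_support hSB hc k)) ?_
  obtain ⟨m, hm, h⟩ := (Comm_LV (dv_support hSB hc' 0)).2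
  exact ⟨m, hm, h.trans fun x hx => (mem_LB.1 hx).1⟩

/-- the mean of an `S`-function does not depend on the lattice -/
theorem mean_SFun (hSB : SB.Finite) {k : ℕ} {g : B → ℂ} (hg : SFun SB k g)
    {c c' : HeightOneSpectrum (𝓞 B) → ℤ} (hc : {P | P ∉ SB ∧ c P ≠ 0}.Finite)
    (hc' : {P | P ∉ SB ∧ c' P ≠ 0}.Finite) :
    mean (LB SB c 0) (LB SB c k) g = mean (LB SB c' 0) (LB SB c' k) g := by
  have key : ∀ {c : HeightOneSpectrum (𝓞 B) → ℤ} (hc : {P | P ∉ SB ∧ c P ≠ 0}.Finite),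
      mean (LB SB c 0) (LB SB c k) g = mean (LB SB c 0) (LV B SB fun _ => (k : ℤ)) g := by
    intro c hc
    haveI := finite_LV (dv_support hSB hc 0) (dv_support hSB hc (k : ℤ))
    exact mean_of_le (hg.perL _) (fun x hx => (mem_LB.1 hx).2)
  have key2 : ∀ {c c' : HeightOneSpectrum (𝓞 B) → ℤ} (hc : {P | P ∉ SB ∧ c P ≠ 0}.Finite)
      (hc' : {P | P ∉ SB ∧ c' P ≠ 0}.Finite) (hle : ∀ P ∉ SB, c P ≤ c' P),
      mean (LB SB c' 0) (LV B SB fun _ => (k : ℤ)) g =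
        mean (LB SB c 0) (LV B SB fun _ => (k : ℤ)) g := by
    intro c c' hc hc' hle
    refine mean_of_sup (hg.perL _) ?_ ?_
    · intro x hx
      rw [mem_LB] at hx ⊢
      refine ⟨fun P hP => (hx.1 P hP).trans ?_, hx.2⟩
      rw [exp_le_exp]; exact neg_le_neg (hle P hP)
    · intro x hx
      obtain ⟨a, ha, ha'⟩ := LB_sup hSB (k := 0) (k₁ := 0) (k₂ := (k : ℤ)) hc hc' hc hle
        (fun P _ => le_rfl) (fun P _ => Or.inr rfl) le_rfl (by positivity) (Or.inl rfl) x hx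
      exact ⟨a, ha, (mem_LB.1 ha').2⟩
  have hmax : {P | P ∉ SB ∧ max (c P) (c' P) ≠ 0}.Finite := by
    refine (hc.union hc').subset ?_
    rintro P ⟨h1, h2⟩
    by_cases h3 : c P = 0
    · right
      refine ⟨h1, fun h4 => h2 (by rw [h3, h4, max_self])⟩
    · exact Or.inl ⟨h1, h3⟩
  rw [key hc, key hc', ← key2 hc hmax (fun P _ => le_max_left _ _),
    ← key2 hc' hmax (fun P _ => le_max_right _ _)]

open Classical in
lemma cut_SFun {k : ℕ} {gS : B → ℂ} (hg : SFun SB k gS) (c : HeightOneSpectrum (𝓞 B) → ℤ)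
    (g : B → ℂ) : (fun x => if x ∈ RS SB c then gS x * g x else 0) =
      cut (LB SB c 0) (fun x => gS x * g x) := by
  funext x
  unfold cut
  by_cases h : x ∈ LB SB c 0
  · rw [if_pos h, if_pos (mem_LB.1 h).1]
  · rw [if_neg h]
    split_ifs with h1
    · by_cases h2 : gS x = 0
      · rw [h2, zero_mul]
      · exfalso
        apply h
        rw [mem_LB]
        refine ⟨h1, ?_⟩
        have := hg.supp x h2
        simpa using this
    · rfl

/-- the mean over the `R`-lattice is the mean over the lattice -/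
theorem mean_RS (hSB : SB.Finite) {c c' : HeightOneSpectrum (𝓞 B) → ℤ}
    (hc : {P | P ∉ SB ∧ c P ≠ 0}.Finite) (hc' : {P | P ∉ SB ∧ c' P ≠ 0}.Finite)
    (hle : ∀ P ∉ SB, c P ≤ c' P) {g : B → ℂ} (hg : Per (RS SB c) (RS SB c') g) :
    mean (LB SB c 0) (LB SB c' 0) g = mean (RS SB c) (RS SB c') g := by
  have h0 : LB SB c 0 ≤ RS SB c := fun x hx => (mem_LB.1 hx).1
  haveI := finite_LV (dv_support hSB hc 0) (dv_support hSB hc' 0)
  rw [mean_of_le (L'' := LB SB c' 0) (L' := RS SB c') (hg.mono_left h0)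
    (fun x hx => (mem_LB.1 hx).1)]
  refine mean_of_sup hg h0 ?_
  intro x hx
  -- `x ∈ RS c`, choose a denominator on `SB`
  obtain ⟨K, hK⟩ : ∃ K : ℕ, ∀ P ∈ SB, P.valuation B x ≤ exp (-(-(K : ℤ))) := by
    classical
    choose e he using fun P : HeightOneSpectrum (𝓞 B) => H7.Z.exists_le_exp (K := B) P x
    refine ⟨∑ P ∈ hSB.toFinset, e P, fun P hP => (he P).trans ?_⟩
    rw [neg_neg, exp_le_exp]
    exact_mod_cast Finset.single_le_sum (f := e) (fun _ _ => Nat.zero_le _)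
      (hSB.mem_toFinset.2 hP)
  have hx' : x ∈ LB SB c (-(K : ℤ)) := mem_LB.2 ⟨hx, hK⟩
  obtain ⟨a, ha, ha'⟩ := LB_sup hSB (k := -(K : ℤ)) (k₁ := 0) (k₂ := -(K : ℤ)) hc hc hc'
    (fun P _ => le_rfl) hle (fun P _ => Or.inl rfl) (by simp) le_rfl (Or.inr rfl) x hx'
  exact ⟨a, ha, (mem_LB.1 ha').1⟩

open Classical in
/-- **the Haar functional of a product of an `S`-function and a function outside `S`** -/
theorem HIfun_SFun_mul (hSB : SB.Finite) {k : ℕ} {gS : B → ℂ} (hS : SFun SB k gS)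
    {c c' : HeightOneSpectrum (𝓞 B) → ℤ}
    (hc : {P | P ∉ SB ∧ c P ≠ 0}.Finite) (hc' : {P | P ∉ SB ∧ c' P ≠ 0}.Finite)
    (hle : ∀ P ∉ SB, c P ≤ c' P) {g : B → ℂ} (hg : Per (RS SB c) (RS SB c') g) :
    HIfun (OLat B) (fun x => if x ∈ RS SB c then gS x * g x else 0) =
      HIfun (OLat B) (cut (LB SB c 0) fun _ => 1) *
        mean (LB SB (fun _ => 0) 0) (LB SB (fun _ => 0) k) gS * mean (RS SB c) (RS SB c') g := by
  have h0 : LB SB c 0 ≤ RS SB c := fun x hx => (mem_LB.1 hx).1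
  have h00 : {P : HeightOneSpectrum (𝓞 B) | P ∉ SB ∧ (fun _ => (0 : ℤ)) P ≠ 0}.Finite := by
    simp
  have hL₁ : LB SB c k ≤ LB SB c 0 := by
    intro x hx
    rw [mem_LB] at hx ⊢
    refine ⟨hx.1, fun P hP => (hx.2 P hP).trans ?_⟩
    rw [exp_le_exp]; simp
  have hL₂ : LB SB c' 0 ≤ LB SB c 0 := by
    intro x hx
    rw [mem_LB] at hx ⊢
    refine ⟨fun P hP => (hx.1 P hP).trans ?_, hx.2⟩
    rw [exp_le_exp]; exact neg_le_neg (hle P hP)
  have hg2 : Per (LB SB c 0) (LB SB c' 0) g :=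
    (hg.mono_left h0).mono fun x hx => (mem_LB.1 hx).1
  have hg1 : Per (LB SB c 0) (LB SB c k) gS := hS.per' _ _
  haveI f1 := finite_LV (dv_support hSB hc 0) (dv_support hSB hc (k : ℤ))
  haveI f2 := finite_LV (dv_support hSB hc 0) (dv_support hSB hc' 0)
  have hper : Per (LB SB c 0) (LB SB c k ⊓ LB SB c' 0) (fun x => gS x * g x) := by
    intro l hl l' hl'
    show gS (l + l') * g (l + l') = gS l * g l
    rw [hg1 l hl l' hl'.1, hg2 l hl l' hl'.2]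
  have hmL : ∃ m : ℕ, m ≠ 0 ∧ mL (OLat B) m ≤ LB SB c k ⊓ LB SB c' 0 := by
    obtain ⟨m, hm, h⟩ := (Comm_LV (dv_support hSB hc (k : ℤ))).2
    obtain ⟨n, hn, h'⟩ := (Comm_LV (dv_support hSB hc' 0)).2
    refine ⟨m * n, mul_ne_zero hm hn, le_inf ((mL_mul_le _ m n).trans h) ?_⟩
    rw [mul_comm]
    exact (mL_mul_le _ n m).trans h'
  rw [cut_SFun hS, HIfun_cut isFull_OLat (Comm_LV (dv_support hSB hc 0)) hper
    (inf_le_left.trans hL₁) hmL, H88T.mean_mul hL₁ ?_ hg1 hg2, mean_RS hSB hc hc' hle hg,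
    mean_SFun hSB hS hc h00, mul_assoc]
  intro x hx
  exact LB_sup hSB hc hc hc' (fun P _ => le_rfl) hle (fun P _ => Or.inl rfl) (by simp) le_rfl
    (Or.inr rfl) x hx

end S

end Fermat.Agent.H66T
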