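import Fermat.Agent.H66TFin
import Fermat.Agent.H87VFin
import Fermat.Agent.H16D6
import Fermat.Agent.H88GS10
import Fermat.Agent.H18DOut

/-!
# NBAR-ser, uniform form, up to the Gauss sums (S47, block D)
-/

set_option linter.all false

namespace Fermat.Agent.H66T

open IsDedekindDomain HeightOneSpectrum WithZero NumberField Fermat.Agent.H66D Fermat.Agent.H78G
open Fermat.Agent.H71D
open Fermat.Agent.H47 (smulPlace below)
open Fermat.Agent.H82 (above aboveSet NonSplit congr)
open Fermat.Agent.H7.Z (ee psi)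

theorem nbarEx_of (hGS : ∀ (E B : Type) [Field E] [NumberField E] [Field B] [NumberField B]
    [Algebra E B] (J : Type) [Fintype J] (d : DD E B J), d.Good →
    (∀ w ∉ d.S, H7.Z.Unram w) → GSProp d) : H16D.NbarEx := by
  intro E B _ _ _ _ _ S chi a h n2
  obtain ⟨c₀, hc₀⟩ := nbarTheta_unif (E := E) (B := B) h.deg S h.unram
  refine ⟨c₀, fun J _ d hd hS hchi hdn n hn hn' => ?_⟩
  subst hS
  refine H87V.nbarSer_of_theta hd ?_ (hc₀ J d hd rfl (hGS E B J d hd h.unram) n
    (fun w hw => hdn ▸ hn w hw) hn')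
  intro α hα c hc w hw
  have h1 : w.valuation E ((α⁻¹ : Eˣ) : E) = 1 := by
    rw [Units.val_inv_eq_inv_val, map_inv₀, hd.US_unit α hα w hw, inv_one]
  rw [map_mul, h1, one_mul]
  exact hc w hw

/-- **(NBAR)** -/
theorem nbarEx : H16D.NbarEx := by
  refine nbarEx_of fun E B _ _ _ _ _ J _ d hd hE => H88T.gsProp d hd hE ?_
  intro P hP
  have h1 : below E P ∉ d.S := fun h => hP ⟨below E P, h, H47.mem_above_below P⟩
  exact H78R.unramB (hE _ h1) (hd.unr _ h1 P (H47.mem_above_below P))

/-- **Block (D) of S47.** -/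
theorem blockD : H46Z.BlockD := H16D.blockD_of H18D.outerEx nbarEx

end Fermat.Agent.H66T
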