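import Fermat.Agent.H66TMean
import Fermat.Agent.H66DNum
import Fermat.Agent.H7ZApprox

/-!
# Lattices given by valuations (S47, block D, THETA)

`LV K T d = {x | v_P x ≤ exp (-(d P)) for P ∈ T}`.
-/

set_option linter.all false

namespace Fermat.Agent.H66T

open IsDedekindDomain HeightOneSpectrum WithZero NumberField Fermat.Agent.H66D Fermat.Agent.H78G

section LV

variable {R : Type*} [CommRing R] [IsDedekindDomain R] (K : Type*) [Field K] [Algebra R K]
  [IsFractionRing R K]

/-- elements with `v_P x ≤ exp (-(d P))` for all `P ∈ T` -/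
def LV (T : Set (HeightOneSpectrum R)) (d : HeightOneSpectrum R → ℤ) : AddSubgroup K where
  carrier := {x | ∀ P ∈ T, P.valuation K x ≤ exp (-(d P))}
  zero_mem' P _ := by rw [map_zero]; exact zero_le
  add_mem' {x y} hx hy P hP := (Valuation.map_add _ _ _).trans (max_le (hx P hP) (hy P hP))
  neg_mem' {x} hx P hP := by
    show P.valuation K (-x) ≤ _
    rw [Valuation.map_neg]; exact hx P hP

variable {K}

lemma mem_LV {T : Set (HeightOneSpectrum R)} {d : HeightOneSpectrum R → ℤ} {x : K} :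
    x ∈ LV K T d ↔ ∀ P ∈ T, P.valuation K x ≤ exp (-(d P)) := Iff.rfl

lemma LV_mono {T T' : Set (HeightOneSpectrum R)} {d d' : HeightOneSpectrum R → ℤ} (hT : T' ⊆ T)
    (h : ∀ P ∈ T', d' P ≤ d P) : LV K T d ≤ LV K T' d' := by
  intro x hx P hP
  refine (hx P (hT hP)).trans ?_
  rw [exp_le_exp]
  exact neg_le_neg (h P hP)

/-- strong approximation -/
theorem LV_sup {d d₁ d₂ : HeightOneSpectrum R → ℤ} (h₁ : ∀ P, d P ≤ d₁ P) (h₂ : ∀ P, d P ≤ d₂ P)
    (h : ∀ P, d₁ P = d P ∨ d₂ P = d P) (hf : {P | d P ≠ 0 ∨ d₁ P ≠ 0 ∨ d₂ P ≠ 0}.Finite) :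
    ∀ x ∈ LV K Set.univ d, ∃ a ∈ LV K Set.univ d₁, x - a ∈ LV K Set.univ d₂ := by
  classical
  intro x hx
  obtain ⟨a, ha, ha'⟩ := H7.Z.exists_approx (K := K) hf.toFinset
    (fun P => if d₁ P = d P then x else 0) (fun P => (max (d₁ P) (d₂ P)).toNat)
  have key : ∀ P, d₁ P ≤ ((max (d₁ P) (d₂ P)).toNat : ℤ) ∧
      d₂ P ≤ ((max (d₁ P) (d₂ P)).toNat : ℤ) := by
    intro P
    have := Int.self_le_toNat (max (d₁ P) (d₂ P))
    exact ⟨(le_max_left _ _).trans this, (le_max_right _ _).trans this⟩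
  refine ⟨a, fun P _ => ?_, fun P _ => ?_⟩
  · show P.valuation K a ≤ exp (-(d₁ P))
    by_cases hP : P ∈ hf.toFinset
    · have h3 := ha P hP
      by_cases h4 : d₁ P = d P
      · simp only [h4, if_true] at h3
        have h5 : a = (a - x) + x := by ring
        rw [h5]
        refine (Valuation.map_add _ _ _).trans (max_le (h3.trans ?_) ?_)
        · rw [exp_le_exp]; have := (key P).1; rw [h4] at this ⊢; linarith
        · rw [h4]; exact hx P trivial
      · simp only [h4, if_false, sub_zero] at h3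
        refine h3.trans ?_
        rw [exp_le_exp]; linarith [(key P).1]
    · have h5 : d₁ P = 0 := by
        by_contra h6; exact hP (hf.mem_toFinset.2 (Or.inr (Or.inl h6)))
      rw [h5, neg_zero, exp_zero]
      exact ha' P hP
  · show P.valuation K (x - a) ≤ exp (-(d₂ P))
    by_cases hP : P ∈ hf.toFinset
    · have h3 := ha P hP
      by_cases h4 : d₁ P = d P
      · simp only [h4, if_true] at h3
        have h5 : x - a = -(a - x) := by ring
        rw [h5, Valuation.map_neg]
        refine h3.trans ?_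
        rw [exp_le_exp]; have := (key P).2; rw [h4] at this; linarith
      · simp only [h4, if_false, sub_zero] at h3
        have h5 : d₂ P = d P := (h P).resolve_left h4
        refine (Valuation.map_sub _ _ _).trans (max_le ?_ (h3.trans ?_))
        · rw [h5]; exact hx P trivial
        · rw [exp_le_exp]; linarith [(key P).2]
    · have h5 : d₂ P = 0 := by
        by_contra h6; exact hP (hf.mem_toFinset.2 (Or.inr (Or.inr h6)))
      have h6 : d P = 0 := by
        by_contra h6; exact hP (hf.mem_toFinset.2 (Or.inl h6))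
      have h7 : P.valuation K x ≤ exp (-(d P)) := hx P trivial
      rw [h6, neg_zero, exp_zero] at h7
      rw [h5, neg_zero, exp_zero]
      exact (Valuation.map_sub _ _ _).trans (max_le h7 (ha' P hP))

end LV

section NF

variable {B : Type*} [Field B] [NumberField B]

lemma mem_OLat_iff_val {x : B} : x ∈ OLat B ↔ ∀ P : HeightOneSpectrum (𝓞 B),
    P.valuation B x ≤ 1 := by
  constructor
  · rintro ⟨y, rfl⟩ P
    exact P.valuation_le_one y
  · intro h
    obtain ⟨r, hr⟩ := HeightOneSpectrum.mem_integers_of_valuation_le_one B x h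
    exact ⟨r, hr⟩

lemma OLat_eq : OLat B = LV B (Set.univ : Set (HeightOneSpectrum (𝓞 B))) fun _ => 0 := by
  ext x
  rw [mem_OLat_iff_val, mem_LV]
  simp

lemma val_nat_le_one (P : HeightOneSpectrum (𝓞 B)) (m : ℕ) : P.valuation B (m : B) ≤ 1 := by
  have := P.valuation_le_one (K := B) (m : 𝓞 B)
  simpa using this

/-- a natural number divisible by given powers of finitely many primes -/
lemma exists_nat_val (T : Finset (HeightOneSpectrum (𝓞 B))) (n : HeightOneSpectrum (𝓞 B) → ℕ) :
    ∃ m : ℕ, m ≠ 0 ∧ ∀ P ∈ T, P.valuation B (m : B) ≤ exp (-(n P : ℤ)) := by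
  classical
  refine ⟨∏ P ∈ T, (Ideal.absNorm P.asIdeal) ^ n P, ?_, fun P hP => ?_⟩
  · rw [Finset.prod_ne_zero_iff]
    intro P _
    apply pow_ne_zero
    rw [Ideal.absNorm_ne_zero_iff]
    exact Ideal.finiteQuotientOfFreeOfNeBot _ P.ne_bot
  · obtain ⟨k, hk⟩ := Finset.dvd_prod_of_mem (fun P => (Ideal.absNorm P.asIdeal) ^ n P) hP
    rw [hk]
    push_cast
    rw [map_mul, map_pow]
    have h1 : P.valuation B ((Ideal.absNorm P.asIdeal : ℕ) : B) ≤ exp (-1 : ℤ) := by
      have h2 : ((Ideal.absNorm P.asIdeal : ℕ) : 𝓞 B) ∈ P.asIdeal := Ideal.absNorm_mem _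
      have h3 := (P.intValuation_le_pow_iff_mem ((Ideal.absNorm P.asIdeal : ℕ) : 𝓞 B) 1).2
        (by rw [pow_one]; exact h2)
      rw [← P.valuation_of_algebraMap (K := B)] at h3
      simpa using h3
    have h2 : P.valuation B ((k : ℕ) : B) ≤ 1 := val_nat_le_one P k
    calc P.valuation B ((Ideal.absNorm P.asIdeal : ℕ) : B) ^ n P * P.valuation B ((k : ℕ) : B)
        ≤ (exp (-1 : ℤ)) ^ n P * 1 := mul_le_mul' (pow_le_pow_left' h1 _) h2
      _ = exp (-(n P : ℤ)) := by
          rw [mul_one, ← exp_nsmul]; simp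

lemma Comm_LV {d : HeightOneSpectrum (𝓞 B) → ℤ} (hf : {P | d P ≠ 0}.Finite) :
    Comm (OLat B) (LV B (Set.univ : Set (HeightOneSpectrum (𝓞 B))) d) := by
  constructor
  · obtain ⟨m, hm, h⟩ := exists_nat_val hf.toFinset fun P => (-(d P)).toNat
    refine ⟨m, hm, fun x hx => ?_⟩
    rw [mem_OLat_iff_val]
    intro P
    rw [nsmul_eq_mul, map_mul]
    have h1 : P.valuation B x ≤ exp (-(d P)) := hx P trivial
    by_cases hP : P ∈ hf.toFinset
    · calc P.valuation B (m : B) * P.valuation B x ≤ exp (-((-(d P)).toNat : ℤ)) * exp (-(d P)) :=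
            mul_le_mul' (h P hP) h1
        _ = exp (-((-(d P)).toNat : ℤ) + -(d P)) := by rw [exp_add]
        _ ≤ exp 0 := by
            rw [exp_le_exp]; linarith [Int.self_le_toNat (-(d P))]
        _ = 1 := exp_zero
    · have h2 : d P = 0 := by by_contra h3; exact hP (hf.mem_toFinset.2 h3)
      rw [h2, neg_zero, exp_zero] at h1
      exact mul_le_one' (val_nat_le_one P m) h1
  · obtain ⟨m, hm, h⟩ := exists_nat_val hf.toFinset fun P => (d P).toNat
    refine ⟨m, hm, ?_⟩
    intro x hx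
    obtain ⟨y, hy, rfl⟩ := mem_mL.1 hx
    rw [mem_OLat_iff_val] at hy
    intro P _
    rw [nsmul_eq_mul, map_mul]
    by_cases hP : P ∈ hf.toFinset
    · calc P.valuation B (m : B) * P.valuation B y ≤ exp (-((d P).toNat : ℤ)) * 1 :=
            mul_le_mul' (h P hP) (hy P)
        _ ≤ exp (-(d P)) := by
            rw [mul_one, exp_le_exp]; linarith [Int.self_le_toNat (d P)]
    · have h2 : d P = 0 := by by_contra h3; exact hP (hf.mem_toFinset.2 h3)
      rw [h2, neg_zero, exp_zero]
      exact mul_le_one' (val_nat_le_one P m) (hy P)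

lemma finite_of_Comm {V : Type*} [AddCommGroup V] [Module ℚ V] {Λ L L' : AddSubgroup V}
    (hΛ : IsFull Λ) (hL : Comm Λ L) (hL' : ∃ m : ℕ, m ≠ 0 ∧ mL Λ m ≤ L') :
    Finite (L ⧸ L'.addSubgroupOf L) := by
  obtain ⟨m, hm, h2⟩ := hL'
  have hfin : Finite (L ⧸ (mL Λ m).addSubgroupOf L) := hL.finite hΛ hm
  let π : (L ⧸ (mL Λ m).addSubgroupOf L) → (L ⧸ L'.addSubgroupOf L) :=
    Quotient.map' id (by
      intro a b hab
      rw [QuotientAddGroup.leftRel_apply] at hab ⊢
      exact AddSubgroup.mem_addSubgroupOf.2 (h2 (AddSubgroup.mem_addSubgroupOf.1 hab)))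
  refine Finite.of_surjective π ?_
  intro q
  induction q using QuotientAddGroup.induction_on with
  | H x => exact ⟨QuotientAddGroup.mk x, rfl⟩

lemma finite_LV {d d' : HeightOneSpectrum (𝓞 B) → ℤ} (hf : {P | d P ≠ 0}.Finite)
    (hf' : {P | d' P ≠ 0}.Finite) : Finite ((LV B (Set.univ : Set (HeightOneSpectrum (𝓞 B))) d) ⧸
      (LV B (Set.univ : Set (HeightOneSpectrum (𝓞 B))) d').addSubgroupOf
        (LV B (Set.univ : Set (HeightOneSpectrum (𝓞 B))) d)) :=
  finite_of_Comm isFull_OLat (Comm_LV hf) (Comm_LV hf').2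

end NF

end Fermat.Agent.H66T
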