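import Fermat.Agent.H66TCut
import Fermat.Agent.H71UDefs
import Fermat.Agent.H13Z9
import Fermat.Agent.H77ZAdj
import Fermat.Agent.H65FirstB

/-!
# The theta kernel function and its Fourier transform (S47, block D, THETA)
-/

set_option linter.all false

namespace Fermat.Agent.H66T

open IsDedekindDomain HeightOneSpectrum WithZero NumberField Fermat.Agent.H66D Fermat.Agent.H78G
open Fermat.Agent.H71D
open Fermat.Agent.H47 (smulPlace below)
open Fermat.Agent.H82 (above aboveSet NonSplit congr)
open Fermat.Agent.H7.Z (ee psi)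
open scoped Pointwise

section local_

variable {E B : Type*} [Field E] [NumberField E] [Field B] [NumberField B] [Algebra E B]

/-- descent of integrality -/
lemma val_le_of_above {w : HeightOneSpectrum (𝓞 E)} {a : E}
    (h : ∀ P ∈ above B w, P.valuation B (algebraMap E B a) ≤ 1) : w.valuation E a ≤ 1 := by
  obtain ⟨P, hP⟩ := H47.above_nonempty (L := B) w
  have h1 := h P hP
  rw [H82.valuation_above hP] at h1
  exact (pow_le_one_iff (H82.ramificationIdx'_ne_zero hP)).1 h1

lemma val_tau_le {τ : B ≃ₐ[E] B} {w : HeightOneSpectrum (𝓞 E)} {x : B} {r : ℤᵐ⁰}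
    (h : ∀ P ∈ above B w, P.valuation B x ≤ r) :
    ∀ P ∈ above B w, P.valuation B (τ x) ≤ r := by
  intro P hP
  have h1 := h _ (H47.smulPlace_mem_above τ⁻¹ hP)
  have h2 : smulPlace τ (smulPlace τ⁻¹ P) = P := by
    apply HeightOneSpectrum.ext
    rw [H47.smulPlace_asIdeal, H47.smulPlace_asIdeal, smul_inv_smul]
  rw [← h2, H47.valuation_smulPlace]
  exact h1

variable (hdeg : Module.finrank E B = 2) {τ : B ≃ₐ[E] B} (hτ : τ ≠ 1)

include hdeg hτ

lemma trace_val {w : HeightOneSpectrum (𝓞 E)} {x : B}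
    (h : ∀ P ∈ above B w, P.valuation B x ≤ 1) : w.valuation E (Algebra.trace E B x) ≤ 1 := by
  haveI := H73U.isGalois τ hτ hdeg
  refine val_le_of_above (B := B) fun P hP => ?_
  rw [H77.Z.algebraMap_trace hdeg hτ]
  exact (Valuation.map_add _ _ _).trans (max_le (h P hP) (val_tau_le h P hP))

lemma norm_val {w : HeightOneSpectrum (𝓞 E)} {u : E} {x : B}
    (h : ∀ P ∈ above B w, P.valuation B (algebraMap E B u * (x * τ x)) ≤ 1) :
    w.valuation E (u * Algebra.norm E x) ≤ 1 := by
  haveI := H73U.isGalois τ hτ hdeg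
  refine val_le_of_above (B := B) fun P hP => ?_
  rw [map_mul, H77.Z.algebraMap_norm hdeg hτ]
  exact h P hP

lemma trace_symm (x y : B) :
    Algebra.trace E B (x * τ y) = Algebra.trace E B (y * τ x) := by
  haveI := H73U.isGalois τ hτ hdeg
  apply (algebraMap E B).injective
  rw [H77.Z.algebraMap_trace hdeg hτ, H77.Z.algebraMap_trace hdeg hτ, map_mul, map_mul,
    H77.Z.aut_apply_apply hdeg hτ, H77.Z.aut_apply_apply hdeg hτ]
  ring

lemma norm_add' (x y : B) : Algebra.norm E (x + y) =
    Algebra.norm E x + Algebra.norm E y + Algebra.trace E B (x * τ y) := by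
  haveI := H73U.isGalois τ hτ hdeg
  apply (algebraMap E B).injective
  rw [map_add (algebraMap E B), map_add (algebraMap E B), H77.Z.algebraMap_trace hdeg hτ,
    H77.Z.algebraMap_norm hdeg hτ,
    H77.Z.algebraMap_norm hdeg hτ, H77.Z.algebraMap_norm hdeg hτ, map_add, map_mul,
    H77.Z.aut_apply_apply hdeg hτ]
  ring

end local_

section kernel

variable {E B : Type*} [Field E] [NumberField E] [Field B] [NumberField B] [Algebra E B]
  {J : Type*} [Fintype J] (d : DD E B J)

/-- the places of `B` above `S` -/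
abbrev SB : Set (HeightOneSpectrum (𝓞 B)) := aboveSet B (d.S : Set (HeightOneSpectrum (𝓞 E)))

lemma SB_finite : (SB d).Finite := H65.finite_aboveSet d.S.finite_toSet

lemma RS_eq (c : HeightOneSpectrum (𝓞 B) → ℤ) : RS (SB d) c = RB B d.S c := rfl

lemma above_not_mem {w : HeightOneSpectrum (𝓞 E)} (hw : w ∉ d.S) {P : HeightOneSpectrum (𝓞 B)}
    (hP : P ∈ above B w) : P ∉ SB d := by
  rintro ⟨v, hv, hPv⟩
  apply hw
  have h1 : w = v := by
    rw [H47.eq_below_of_mem_above hP, H47.eq_below_of_mem_above hPv]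
  rw [h1]
  exact hv

lemma above_mem {w : HeightOneSpectrum (𝓞 E)} (hw : w ∈ d.S) {P : HeightOneSpectrum (𝓞 B)}
    (hP : P ∈ above B w) : P ∈ SB d := ⟨w, hw, hP⟩

open Classical in
/-- the `S`-part -/
noncomputable def gS (x y : B) : ℂ :=
  if y ∈ d.VS then ∏ w ∈ d.S, psi w (-(Algebra.trace E B (x * d.tau y))) else 0

/-- the part outside `S` -/
noncomputable def gO (u : E) (x y : B) : ℂ :=
  psS d.S (u * Algebra.norm E y - Algebra.trace E B (x * d.tau y))

lemma er_eq (t : ℚ) : H13Z.er ((t : ℚ) : ℝ) = ee t := by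
  unfold H13Z.er ee
  push_cast
  rfl

lemma char_eq (x y : B) : H13Z.er (((Algebra.trace ℚ B (x * d.tau y) : ℚ)) : ℝ) =
    psS d.S (-(Algebra.trace E B (x * d.tau y))) *
      ∏ w ∈ d.S, psi w (-(Algebra.trace E B (x * d.tau y))) := by
  rw [er_eq, psS_apply, map_neg, neg_neg, Algebra.trace_trace, mul_assoc, inv_mul_cancel₀,
    mul_one]
  exact Finset.prod_ne_zero_iff.2 fun w _ => H7.Z.psi_ne_zero w _

open Classical in
lemma phi_mul (A D : FI E) (u : E) (h : FI B) (x y : B) :
    H13Z.er (((Algebra.trace ℚ B (x * d.tau y) : ℚ)) : ℝ) * d.phi A D u h y =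
      (om B d.S D * (((aN (A * D⁻¹)) ^ (-(1 / 2) : ℝ) : ℝ) : ℂ)) *
        (if y ∈ RS (SB d) (d.dlt D h) then gS d x y * gO d u x y else 0) := by
  unfold DD.phi
  by_cases h1 : y ∈ RB B d.S (d.dlt D h)
  · have h1' : y ∈ RS (SB d) (d.dlt D h) := h1
    rw [if_pos h1']
    by_cases h2 : y ∈ d.VS
    · rw [if_pos ⟨h2, h1⟩, gS, if_pos h2, gO, char_eq, sub_eq_add_neg,
        AddChar.map_add_eq_mul]
      ring
    · rw [if_neg (fun h => h2 h.1), gS, if_neg h2]
      ring
  · have h1' : y ∉ RS (SB d) (d.dlt D h) := h1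
    rw [if_neg h1', if_neg (fun h => h1 h.2)]
    ring

/-- finitely supported upper bound of the valuations of an element -/
lemma exists_bound (x : B) : ∃ f : HeightOneSpectrum (𝓞 B) → ℤ, (∀ P, 0 ≤ f P) ∧
    {P | f P ≠ 0}.Finite ∧ ∀ P : HeightOneSpectrum (𝓞 B), P.valuation B x ≤ exp (f P) := by
  classical
  choose e he using fun P : HeightOneSpectrum (𝓞 B) => H7.Z.exists_le_exp (K := B) P x
  refine ⟨fun P => if P.valuation B x ≤ 1 then 0 else (e P : ℤ), fun P => ?_, ?_, fun P => ?_⟩
  · show 0 ≤ if P.valuation B x ≤ 1 then (0 : ℤ) else (e P : ℤ)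
    split_ifs
    · exact le_rfl
    · positivity
  · refine (H7.Z.finite_not_integral x).subset fun P hP => ?_
    have hP' : (if P.valuation B x ≤ 1 then (0 : ℤ) else (e P : ℤ)) ≠ 0 := hP
    intro h
    exact hP' (if_pos h)
  · show P.valuation B x ≤ exp (if P.valuation B x ≤ 1 then (0 : ℤ) else (e P : ℤ))
    split_ifs with h
    · rw [exp_zero]; exact h
    · exact he P

lemma smulPlace_smulPlace (hd : d.Good) (P : HeightOneSpectrum (𝓞 B)) :
    smulPlace d.tau (smulPlace d.tau P) = P := by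
  haveI := H73U.isGalois d.tau hd.tau_ne hd.deg
  apply HeightOneSpectrum.ext
  rw [H47.smulPlace_asIdeal, H47.smulPlace_asIdeal, smul_smul, H77.Z.aut_mul_self hd.deg hd.tau_ne,
    one_smul]

lemma val_tau (hd : d.Good) (P : HeightOneSpectrum (𝓞 B)) (x : B) :
    P.valuation B (d.tau x) = (smulPlace d.tau P).valuation B x := by
  rw [← H47.valuation_smulPlace d.tau (smulPlace d.tau P) x, smulPlace_smulPlace d hd]

/-- an integral element of the compositum outside `S` has trace and norm integral outside `S` -/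
lemma trace_mem_RE (hd : d.Good) {x : B} (h : ∀ P ∉ SB d, P.valuation B x ≤ 1) :
    Algebra.trace E B x ∈ RE d.S (fun _ => 0) := by
  intro w hw
  rw [neg_zero, exp_zero]
  exact trace_val hd.deg hd.tau_ne fun P hP => h P (above_not_mem d hw hP)

/-- a period outside `S` -/
theorem exists_period (hd : d.Good) {c : HeightOneSpectrum (𝓞 B) → ℤ}
    (hc : {P | P ∉ SB d ∧ c P ≠ 0}.Finite) (u : E) (x : B) :
    ∃ c' : HeightOneSpectrum (𝓞 B) → ℤ, {P | P ∉ SB d ∧ c' P ≠ 0}.Finite ∧
      (∀ P ∉ SB d, c P ≤ c' P) ∧ ∀ z ∈ RB B d.S c',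
        (∀ y ∈ RB B d.S c, u * Algebra.trace E B (y * d.tau z) ∈ RE d.S (fun _ => 0)) ∧
        u * Algebra.norm E z ∈ RE d.S (fun _ => 0) ∧
        Algebra.trace E B (x * d.tau z) ∈ RE d.S (fun _ => 0) := by
  haveI := H73U.isGalois d.tau hd.tau_ne hd.deg
  obtain ⟨f, hf0, hff, hf⟩ := exists_bound (B := B) x
  obtain ⟨e, he0, hef, he⟩ := exists_bound (B := B) (algebraMap E B u)
  let t := smulPlace d.tau (K := E) (L := B)
  have htt : ∀ P, t (t P) = P := smulPlace_smulPlace d hd
  have htS : ∀ P, t P ∉ SB d ↔ P ∉ SB d := fun P =>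
    not_congr (H47.smulPlace_mem_aboveSet_iff d.tau)
  let c' : HeightOneSpectrum (𝓞 B) → ℤ := fun P => max (c P) (max (e (t P) - c (t P)) (f (t P)))
  have hc'1 : ∀ P, c P ≤ c' P := fun P => le_max_left _ _
  have hc'2 : ∀ P, e (t P) - c (t P) ≤ c' P := fun P => (le_max_left _ _).trans (le_max_right _ _)
  have hc'3 : ∀ P, f (t P) ≤ c' P := fun P => (le_max_right _ _).trans (le_max_right _ _)
  have htinj : Function.Injective t := fun P Q h => by rw [← htt P, h, htt]
  refine ⟨c', ?_, fun P _ => hc'1 P, fun z hz => ⟨fun y hy => ?_, ?_, ?_⟩⟩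
  · have h1 : {P | P ∉ SB d ∧ c (t P) ≠ 0}.Finite := by
      refine (hc.preimage (f := t) htinj.injOn).subset ?_
      rintro P ⟨h1, h2⟩
      exact ⟨(htS P).2 h1, h2⟩
    have h2 : {P | e (t P) ≠ 0}.Finite := hef.preimage htinj.injOn
    have h3 : {P | f (t P) ≠ 0}.Finite := hff.preimage htinj.injOn
    refine (((hc.union h1).union h2).union h3).subset ?_
    rintro P ⟨h4, h5⟩
    by_contra h6
    simp only [Set.mem_union, Set.mem_setOf_eq, not_or, not_and, not_not] at h6
    obtain ⟨⟨⟨h7, h8⟩, h9⟩, h10⟩ := h6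
    apply h5
    show max (c P) (max (e (t P) - c (t P)) (f (t P))) = 0
    rw [h7 h4, h8 h4, h9, h10]
    simp
  · have h1 : u * Algebra.trace E B (y * d.tau z) =
        Algebra.trace E B (algebraMap E B u * (y * d.tau z)) := by
      rw [← Algebra.smul_def, map_smul, smul_eq_mul]
    rw [h1]
    refine trace_mem_RE d hd fun P hP => ?_
    rw [map_mul, map_mul, val_tau d hd]
    have hz' := hz _ ((htS P).2 hP)
    calc P.valuation B (algebraMap E B u) * (P.valuation B y * (smulPlace d.tau P).valuation B z)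
        ≤ exp (e P) * (exp (-(c P)) * exp (-(c' (t P)))) :=
          mul_le_mul' (he P) (mul_le_mul' (hy P hP) hz')
      _ = exp (e P + (-(c P) + -(c' (t P)))) := by rw [exp_add, exp_add]
      _ ≤ exp 0 := by
          rw [exp_le_exp]
          have := hc'2 (t P)
          rw [htt] at this
          linarith
      _ = 1 := exp_zero
  · intro w hw
    rw [neg_zero, exp_zero]
    refine norm_val hd.deg hd.tau_ne fun P hP' => ?_
    have hP : P ∉ SB d := above_not_mem d hw hP'
    rw [map_mul, map_mul, val_tau d hd]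
    have hz' := hz _ ((htS P).2 hP)
    calc P.valuation B (algebraMap E B u) * (P.valuation B z * (smulPlace d.tau P).valuation B z)
        ≤ exp (e P) * (exp (-(c' P)) * exp (-(c' (t P)))) :=
          mul_le_mul' (he P) (mul_le_mul' (hz P hP) hz')
      _ = exp (e P + (-(c' P) + -(c' (t P)))) := by rw [exp_add, exp_add]
      _ ≤ exp 0 := by
          rw [exp_le_exp]
          have := hc'2 (t P)
          rw [htt] at this
          linarith [hc'1 P]
      _ = 1 := exp_zero
  · refine trace_mem_RE d hd fun P hP => ?_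
    rw [map_mul, val_tau d hd]
    have hz' := hz _ ((htS P).2 hP)
    calc P.valuation B x * (smulPlace d.tau P).valuation B z
        ≤ exp (f P) * exp (-(c' (t P))) := mul_le_mul' (hf P) hz'
      _ = exp (f P + -(c' (t P))) := by rw [exp_add]
      _ ≤ exp 0 := by
          rw [exp_le_exp]
          have := hc'3 (t P)
          rw [htt] at this
          linarith
      _ = 1 := exp_zero

/-- the function outside `S` is periodic -/
theorem per_gO (hd : d.Good) {c c' : HeightOneSpectrum (𝓞 B) → ℤ} {u : E} {x : B}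
    (h : ∀ z ∈ RB B d.S c',
        (∀ y ∈ RB B d.S c, u * Algebra.trace E B (y * d.tau z) ∈ RE d.S (fun _ => 0)) ∧
        u * Algebra.norm E z ∈ RE d.S (fun _ => 0) ∧
        Algebra.trace E B (x * d.tau z) ∈ RE d.S (fun _ => 0)) :
    Per (RS (SB d) c) (RS (SB d) c') (gO d u x) := by
  intro y hy z hz
  obtain ⟨h1, h2, h3⟩ := h z hz
  have h4 : u * Algebra.norm E (y + z) - Algebra.trace E B (x * d.tau (y + z)) =
      (u * Algebra.norm E y - Algebra.trace E B (x * d.tau y)) +
      (u * Algebra.norm E z + u * Algebra.trace E B (y * d.tau z) -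
        Algebra.trace E B (x * d.tau z)) := by
    rw [norm_add' hd.deg hd.tau_ne, map_add d.tau, mul_add x, map_add (Algebra.trace E B)]
    ring
  unfold gO
  rw [h4, AddChar.map_add_eq_mul, psS_eq_one (z := u * Algebra.norm E z +
    u * Algebra.trace E B (y * d.tau z) - Algebra.trace E B (x * d.tau z)), mul_one]
  have h5 := (RE d.S (fun _ => 0)).sub_mem ((RE d.S (fun _ => 0)).add_mem h2 (h1 y hy)) h3
  intro w hw
  have := h5 w hw
  rwa [neg_zero, exp_zero] at this

/-- the `S`-part is an `S`-function -/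
theorem sfun_gS (hd : d.Good) {k0 : ℕ} (hper : ∀ x ∈ d.VS, ∀ y : B,
      (∀ P ∈ SB d, P.valuation B y ≤ exp (-(k0 : ℤ))) → x + y ∈ d.VS) (x : B) :
    ∃ k1 : ℕ, ∀ k : ℕ, k1 ≤ k → SFun (SB d) k (gS d x) := by
  classical
  haveI := H73U.isGalois d.tau hd.tau_ne hd.deg
  obtain ⟨f, hf0, hff, hf⟩ := exists_bound (B := B) x
  set M : ℤ := ∑ P ∈ (SB_finite d).toFinset, f P with hM
  have hfM : ∀ P ∈ SB d, f P ≤ M := fun P hP =>
    Finset.single_le_sum (f := f) (fun P _ => hf0 P) ((SB_finite d).mem_toFinset.2 hP)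
  have hM0 : 0 ≤ M := Finset.sum_nonneg fun P _ => hf0 P
  refine ⟨k0 + M.toNat, fun k hk => ⟨fun y hy P hP => ?_, fun y z hz => ?_⟩⟩
  · have h1 : y ∈ d.VS := by
      by_contra h
      exact hy (if_neg h)
    have h2 := h1.1 P hP
    have h3 : y = (y - 1) + 1 := by ring
    rw [h3]
    refine (Valuation.map_add _ _ _).trans (max_le (h2.trans ?_) ?_)
    · rw [← exp_zero, exp_le_exp]; simp
    · rw [map_one]
  · have hz0 : ∀ P ∈ SB d, P.valuation B z ≤ exp (-(k0 : ℤ)) := fun P hP =>
      (hz P hP).trans (by rw [exp_le_exp]; push_cast at *; omega)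
    have hVS : y + z ∈ d.VS ↔ y ∈ d.VS := by
      constructor
      · intro h
        have h1 := hper _ h (-z) (fun P hP => by rw [Valuation.map_neg]; exact hz0 P hP)
        rwa [add_neg_cancel_right] at h1
      · intro h
        exact hper _ h z hz0
    unfold gS
    by_cases hy : y ∈ d.VS
    · rw [if_pos hy, if_pos (hVS.2 hy)]
      refine Finset.prod_congr rfl fun w hw => ?_
      rw [map_add d.tau, mul_add, map_add (Algebra.trace E B), neg_add, AddChar.map_add_eq_mul,
        H7.Z.psi_of_integral w (β := -(Algebra.trace E B (x * d.tau z))), mul_one]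
      rw [Valuation.map_neg]
      refine trace_val hd.deg hd.tau_ne fun P hP => ?_
      rw [map_mul, val_tau d hd]
      have hP' : smulPlace d.tau P ∈ SB d :=
        (H47.smulPlace_mem_aboveSet_iff d.tau).2 (above_mem d hw hP)
      calc P.valuation B x * (smulPlace d.tau P).valuation B z
          ≤ exp (f P) * exp (-(k : ℤ)) := mul_le_mul' (hf P) (hz _ hP')
        _ = exp (f P + -(k : ℤ)) := by rw [exp_add]
        _ ≤ exp 0 := by
            rw [exp_le_exp]
            have h1 := hfM P (above_mem d hw hP)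
            have h2 := Int.toNat_of_nonneg hM0
            have h3 : ((k0 + M.toNat : ℕ) : ℤ) ≤ k := by exact_mod_cast hk
            push_cast at h3
            linarith
        _ = 1 := exp_zero
    · rw [if_neg hy, if_neg (fun h => hy (hVS.1 h))]

end kernel

end Fermat.Agent.H66T
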