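import Fermat.Agent.H66Min

/-!
# Degrees of `j(p d τ)` over intermediate fields
-/

set_option autoImplicit false
set_option linter.unusedSectionVars false

noncomputable section

open ModularCurve Polynomial IntermediateField

namespace Fermat.Agent.H66

variable {K : Type*} [Field K]

section Phi

variable {p : ℕ} [Fact p.Prime] {u : Kˣ} {Φ : K[X][X]} (hmon : Φ.Monic)
  (hdeg : Φ.natDegree = p + 1) (hΦ : phiAt K Φ (J K p) = ∏ a, (X - C (jf K p u a)))

include hmon hΦ in
/-- `j(p d τ)` has degree `p + 1` over a field containing `j(d τ)` but not `j(p d τ)`. -/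
theorem natDegree_minpoly_eq (F : IntermediateField K (LaurentSeries K)) (d : ℕ) [NeZero d]
    (hd : ¬ p ∣ d) (hJ : J K d ∈ F) (hx : J K (p * d) ∉ F) :
    (minpoly F (J K (p * d))).natDegree = p + 1 := by
  classical
  have hp : p.Prime := Fact.out
  set x := J K (p * d) with hxdef
  have hroot := eval_root1 hΦ d
  have hint : IsIntegral F x := isIntegral_of_root hmon F hJ hroot
  have hdvd := minpoly_dvd_phiAt hmon F hJ hroot
  set f := ((minpoly F x).map (algebraMap F (LaurentSeries K))).map (qExpand K p) with hf
  have hfm : f.Monic := ((minpoly.monic hint).map _).map _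
  have hfd : f ∣ ∏ a, (X - C (qExpand K d (jf K p u a))) := by
    rw [← phiAt_map_p hΦ d]
    exact Polynomial.map_dvd _ hdvd
  have hfdeg : f.natDegree = (minpoly F x).natDegree := by
    rw [hf, natDegree_map, natDegree_map]
  obtain ⟨T, hT, hdich⟩ := factor_dichotomy p u d hd hfm hfd ⟨_, coeff_map _ _⟩
  have hcard : f.natDegree = T.card := by rw [hT, natDegree_prod_X_sub_C']
  rcases hdich with h | h
  · exfalso
    have h1 : T.card ≤ 1 := by
      rw [Finset.card_le_one_iff_subset_singleton]
      refine ⟨none, fun i hi => ?_⟩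
      cases i with
      | none => simp
      | some i => exact absurd hi (h i)
    have h5 : (minpoly F x).natDegree = 1 :=
      le_antisymm (by omega) (minpoly.natDegree_pos hint)
    rw [minpoly.natDegree_eq_one_iff] at h5
    obtain ⟨y, hy⟩ := h5
    exact hx (hy ▸ y.2)
  · have hnone : none ∈ T := by
      have h3 : f.eval (qExpand K p x) = 0 := by
        rw [hf, Polynomial.eval_map_apply, Polynomial.eval_map_algebraMap, minpoly.aeval, map_zero]
      rw [hT, eval_prod, Finset.prod_eq_zero_iff] at h3
      obtain ⟨j, hj, hj2⟩ := h3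
      rw [eval_sub, eval_X, eval_C, sub_eq_zero] at hj2
      cases j with
      | none => exact hj
      | some i =>
        exfalso
        have h4 : HasLead (qExpand K p x) (p * (-((p * d : ℕ) : ℤ))) 1 :=
          (hasLead_J K (p * d)).qExpand p
        have h5 := (hasLead_jf_some p u i).qExpand d
        rw [hj2] at h4
        have h6 := h4.order_unique h5 one_ne_zero (Units.ne_zero _)
        have hd0 : (0 : ℤ) < d := by exact_mod_cast Nat.pos_of_ne_zero (NeZero.ne d)
        have hp2 : (2 : ℤ) ≤ p := by exact_mod_cast hp.two_le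
        push_cast at h6
        nlinarith [mul_pos hd0 (by linarith : (0 : ℤ) < p)]
    have hT2 : T = Finset.univ := by
      ext a
      cases a with
      | none => simp [hnone]
      | some i => simp [h i]
    rw [← hfdeg, hcard, hT2]
    simp

include hmon hΦ in
/-- `j(τ)` has degree at least `p` over a subfield of `K((q ^ p))` containing `j(p τ)`. -/
theorem le_natDegree_minpoly (F : IntermediateField K (LaurentSeries K))
    (hF : ∀ z ∈ F, ∃ y, z = qExpand K p y) (hJ : J K p ∈ F) :
    p ≤ (minpoly F (J K 1)).natDegree := by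
  classical
  have hp : p.Prime := Fact.out
  have hroot := eval_root2 hΦ 1
  rw [mul_one] at hroot
  set x := J K 1 with hxdef
  have hint : IsIntegral F x := isIntegral_of_root hmon F hJ hroot
  have hdvd := minpoly_dvd_phiAt hmon F hJ hroot
  set f := ((minpoly F x).map (algebraMap F (LaurentSeries K))) with hf
  have hfm : f.Monic := (minpoly.monic hint).map _
  have hfd : f ∣ ∏ a, (X - C (qExpand K 1 (jf K p u a))) := by
    rw [← phiAt_mul hΦ 1, mul_one]
    exact hdvd
  have hfdeg : f.natDegree = (minpoly F x).natDegree := by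
    rw [hf, natDegree_map]
  have hp1 : ¬ p ∣ 1 := fun h => hp.one_lt.ne' (Nat.dvd_one.1 h)
  obtain ⟨T, hT, hdich⟩ := factor_dichotomy p u 1 hp1 hfm hfd (by
    rw [hf, coeff_map]
    exact hF _ ((minpoly F x).coeff 0).2)
  have hcard : f.natDegree = T.card := by rw [hT, natDegree_prod_X_sub_C']
  have h3 : f.eval x = 0 := by
    rw [hf, Polynomial.eval_map_algebraMap, minpoly.aeval]
  rw [hT, eval_prod, Finset.prod_eq_zero_iff] at h3
  obtain ⟨j, hj, hj2⟩ := h3
  rw [eval_sub, eval_X, eval_C, sub_eq_zero] at hj2
  rcases hdich with h | h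
  · exfalso
    cases j with
    | some i => exact h i hj
    | none =>
      have h4 := (hasLead_jf_none (K := K) p u).qExpand 1
      have h5 := hasLead_J K 1
      rw [← hxdef, hj2] at h5
      have h6 := h4.order_unique h5 one_ne_zero one_ne_zero
      have hp2 : (2 : ℤ) ≤ p := by exact_mod_cast hp.two_le
      push_cast at h6
      nlinarith
  · rw [← hfdeg, hcard]
    have h7 : (Finset.univ : Finset (Fin p)).map Function.Embedding.some ⊆ T := by
      intro a ha
      rw [Finset.mem_map] at ha
      obtain ⟨i, _, rfl⟩ := ha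
      exact h i
    have h8 := Finset.card_le_card h7
    simpa using h8

include hmon hdeg hΦ in
/-- `j(p d τ)` has degree at most `p` over a field containing `j(d τ)` and `j(d τ / p)`. -/
theorem natDegree_minpoly_le_p (F : IntermediateField K (LaurentSeries K)) (e : ℕ) [NeZero e]
    (hJ : J K (p * e) ∈ F) (hJ2 : J K e ∈ F) :
    (minpoly F (J K (p * (p * e)))).natDegree ≤ p := by
  have hp : p.Prime := Fact.out
  obtain ⟨G, hG, hG2⟩ := exists_phiAt_field F hJ Φ
  have hGm := hG2 hmon
  have hr : G.IsRoot ⟨J K e, hJ2⟩ := by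
    have h1 := eval_root2 hΦ e
    rw [← hG, show (J K e) = algebraMap F (LaurentSeries K) ⟨J K e, hJ2⟩ from rfl,
      Polynomial.eval_map_apply] at h1
    exact (algebraMap F (LaurentSeries K)).injective (by rw [h1, map_zero])
  obtain ⟨Q, hQ⟩ := dvd_iff_isRoot.2 hr
  have hGdeg : G.natDegree = p + 1 := by
    have h1 := congrArg natDegree hG
    rw [natDegree_map, phiAt, hmon.natDegree_map] at h1
    rw [h1, hdeg]
  have hQm : Q.Monic := by
    rw [hQ] at hGm
    exact (monic_X_sub_C _).of_mul_monic_left hGm
  have hQdeg : Q.natDegree = p := by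
    rw [hQ, (monic_X_sub_C _).natDegree_mul hQm, natDegree_X_sub_C] at hGdeg
    omega
  have hroot : aeval (J K (p * (p * e))) Q = 0 := by
    have : NeZero (p * e) := ⟨mul_ne_zero hp.ne_zero (NeZero.ne e)⟩
    have h1 := eval_root1 hΦ (p * e)
    rw [← hG, hQ, Polynomial.map_mul, eval_mul, mul_eq_zero] at h1
    rcases h1 with h1 | h1
    · exfalso
      rw [Polynomial.map_sub, Polynomial.map_X, Polynomial.map_C, eval_sub, eval_X, eval_C,
        sub_eq_zero] at h1
      have h2 := hasLead_J K (p * (p * e))
      rw [h1] at h2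
      have h3 := h2.order_unique (hasLead_J K e) one_ne_zero one_ne_zero
      have he : (0 : ℤ) < e := by exact_mod_cast Nat.pos_of_ne_zero (NeZero.ne e)
      have hp2 : (2 : ℤ) ≤ p := by exact_mod_cast hp.two_le
      push_cast at h3
      nlinarith [mul_pos he (by linarith : (0 : ℤ) < p), mul_pos (mul_pos he (by linarith : (0 : ℤ) < p)) (by linarith : (0 : ℤ) < p)]
    · rw [Polynomial.eval_map_algebraMap] at h1
      exact h1
  have h2 := natDegree_le_of_dvd (minpoly.dvd F _ hroot) hQm.ne_zero
  omega

end Phi

end Fermat.Agent.H66
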