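import Mathlib
import Fermat.Prelude.Def_ModularCurve_X0ModL
import Fermat.Agent.H28Jq

/-!
# Twisting Laurent series by a unit, and the family of `p + 1` transforms
-/

set_option autoImplicit false

noncomputable section

open ModularCurve

namespace Fermat.Agent.H66

section Twist

variable {A : Type*} [CommRing A]

/-- The additive map underlying `tw`. -/
def twFun (u : Aˣ) (f : LaurentSeries A) : LaurentSeries A where
  coeff := fun n => ((u ^ n : Aˣ) : A) * f.coeff n
  isPWO_support' := f.isPWO_support.mono (by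
    intro n hn
    rw [Function.mem_support] at hn
    exact (HahnSeries.mem_support _ _).2 (right_ne_zero_of_mul hn))

theorem twFun_coeff (u : Aˣ) (f : LaurentSeries A) (n : ℤ) :
    (twFun u f).coeff n = ((u ^ n : Aˣ) : A) * f.coeff n := rfl

theorem twFun_support (u : Aˣ) (f : LaurentSeries A) : (twFun u f).support = f.support := by
  ext m
  rw [HahnSeries.mem_support, HahnSeries.mem_support, twFun_coeff, ne_eq, Units.mul_right_eq_zero]

/-- The ring endomorphism `t ↦ u t` of the ring of Laurent series. -/
def tw (u : Aˣ) : LaurentSeries A →+* LaurentSeries A where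
  toFun f := twFun u f
  map_zero' := by ext n; simp [twFun_coeff]
  map_add' x y := by ext n; simp [twFun_coeff, mul_add]
  map_one' := by
    ext n
    by_cases hn : n = 0
    · subst hn; simp [twFun_coeff]
    · simp [twFun_coeff, HahnSeries.coeff_one, hn]
  map_mul' x y := by
    ext n
    rw [HahnSeries.coeff_mul, twFun_coeff, HahnSeries.coeff_mul, Finset.mul_sum]
    refine Finset.sum_congr ?_ ?_
    · ext ij
      simp only [Finset.mem_antidiagonal, twFun_support]
    · intro ij hij
      rw [Finset.mem_antidiagonal] at hij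
      obtain ⟨_, _, h⟩ := hij
      rw [← h, zpow_add, twFun_coeff, twFun_coeff]
      push_cast
      ring

@[simp]
theorem tw_coeff (u : Aˣ) (f : LaurentSeries A) (n : ℤ) :
    (tw u f).coeff n = ((u ^ n : Aˣ) : A) * f.coeff n := rfl

theorem tw_one (f : LaurentSeries A) : tw 1 f = f := by
  ext n; simp

theorem tw_injective (u : Aˣ) : Function.Injective (tw u) := by
  intro f g h
  ext n
  have := congrArg (fun x => x.coeff n) h
  simpa using this

theorem tw_algebraMap (u : Aˣ) (c : A) :
    tw u (HahnSeries.single 0 c) = HahnSeries.single 0 c := by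
  ext n
  by_cases hn : n = 0
  · subst hn; simp
  · simp [HahnSeries.coeff_single_of_ne hn]

theorem coeffMap_tw {B : Type*} [CommRing B] (φ : A →+* B) (u : Aˣ) (f : LaurentSeries A) :
    coeffMap φ (tw u f) = tw (Units.map φ.toMonoidHom u) (coeffMap φ f) := by
  ext n
  rw [coeffMap_coeff, tw_coeff, tw_coeff, coeffMap_coeff, map_mul, ← map_zpow]
  rfl

theorem tw_qExpand (u : Aˣ) (p : ℕ) [NeZero p] (hu : u ^ p = 1) (f : LaurentSeries A) :
    tw u (qExpand A p f) = qExpand A p f := by
  ext n
  rw [tw_coeff]
  by_cases hn : (p : ℤ) ∣ n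
  · obtain ⟨m, rfl⟩ := hn
    rw [zpow_mul, zpow_natCast, hu, one_zpow]
    simp
  · rw [qExpand_coeff_of_not_dvd _ _ hn, mul_zero]

/-- The `p + 1` transforms of a Laurent series `f`, with weight factor `w`. -/
def fam (p : ℕ) [NeZero p] (u : Aˣ) (w : A) (f : LaurentSeries A) :
    Option (Fin p) → LaurentSeries A
  | none => HahnSeries.C w * qExpand A p (qExpand A p f)
  | some i => tw (u ^ (i : ℕ)) f

variable (p : ℕ) [NeZero p] (u : Aˣ)

@[simp]
theorem fam_none (w : A) (f : LaurentSeries A) :
    fam p u w f none = HahnSeries.C w * qExpand A p (qExpand A p f) := rfl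

@[simp]
theorem fam_some (w : A) (f : LaurentSeries A) (i : Fin p) :
    fam p u w f (some i) = tw (u ^ (i : ℕ)) f := rfl

theorem fam_mul (w w' : A) (f f' : LaurentSeries A) (a : Option (Fin p)) :
    fam p u w f a * fam p u w' f' a = fam p u (w * w') (f * f') a := by
  cases a with
  | none => simp only [fam_none, map_mul]; ring
  | some i => simp only [fam_some, map_mul]

theorem fam_one (a : Option (Fin p)) : fam p u 1 1 a = 1 := by
  cases a with
  | none => simp
  | some i => simp

theorem fam_pow (w : A) (f : LaurentSeries A) (n : ℕ) (a : Option (Fin p)) :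
    fam p u w f a ^ n = fam p u (w ^ n) (f ^ n) a := by
  induction n with
  | zero => simp [fam_one]
  | succ n ih => rw [pow_succ, ih, fam_mul, pow_succ, pow_succ]

theorem fam_sub (w : A) (f f' : LaurentSeries A) (a : Option (Fin p)) :
    fam p u w (f - f') a = fam p u w f a - fam p u w f' a := by
  cases a with
  | none => simp only [fam_none, map_sub]; ring
  | some i => simp only [fam_some, map_sub]

theorem tw_C (u : Aˣ) (c : A) :
    tw u (HahnSeries.C c) = HahnSeries.C c := tw_algebraMap u c

theorem fam_C_mul (w c : A) (f : LaurentSeries A) (a : Option (Fin p)) :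
    fam p u w (HahnSeries.C c * f) a = HahnSeries.C c * fam p u w f a := by
  cases a with
  | none => simp only [fam_none, map_mul, qExpand_C]; ring
  | some i => simp only [fam_some, map_mul, tw_C]

theorem coeffMap_C {B : Type*} [CommRing B] (φ : A →+* B) (c : A) :
    coeffMap φ (HahnSeries.C c) = HahnSeries.C (φ c) := coeffMap_single φ 0 c

theorem coeffMap_fam {B : Type*} [CommRing B] (φ : A →+* B) (w : A) (f : LaurentSeries A)
    (a : Option (Fin p)) :
    coeffMap φ (fam p u w f a) = fam p (Units.map φ.toMonoidHom u) (φ w) (coeffMap φ f) a := by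
  cases a with
  | none => simp only [fam_none, map_mul, coeffMap_C, coeffMap_qExpand]
  | some i => simp only [fam_some, coeffMap_tw, map_pow]

theorem sum_pow_unit [IsDomain A] (hu : IsPrimitiveRoot u p) (n : ℤ) :
    ∑ i : Fin p, (((u ^ (i : ℕ)) ^ n : Aˣ) : A) = if (p : ℤ) ∣ n then (p : A) else 0 := by
  have h1 : ∀ i : Fin p, (((u ^ (i : ℕ)) ^ n : Aˣ) : A) = (((u ^ n : Aˣ) : A)) ^ (i : ℕ) := by
    intro i
    rw [← zpow_natCast, zpow_comm, zpow_natCast]
    push_cast
    rfl
  simp only [h1]
  rw [Fin.sum_univ_eq_sum_range (fun i => (((u ^ n : Aˣ) : A)) ^ i) p]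
  split_ifs with hn
  · have : u ^ n = 1 := (hu.zpow_eq_one_iff_dvd n).2 hn
    simp [this]
  · have h2 : ((u ^ n : Aˣ) : A) ≠ 1 := by
      intro h
      exact hn ((hu.zpow_eq_one_iff_dvd n).1 (Units.ext h))
    have h3 := mul_geom_sum (((u ^ n : Aˣ) : A)) p
    have h4 : ((u ^ n : Aˣ) : A) ^ p = 1 := by
      have : (u ^ n) ^ p = 1 := by
        rw [← zpow_natCast, zpow_comm, zpow_natCast, hu.pow_eq_one, one_zpow]
      rw [← Units.val_pow_eq_pow_val, this, Units.val_one]
    rw [h4, sub_self] at h3
    exact (mul_eq_zero.1 h3).resolve_left (sub_ne_zero.2 h2)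

theorem coeff_sum_tw [IsDomain A] (hu : IsPrimitiveRoot u p) (f : LaurentSeries A) (n : ℤ) :
    (∑ i : Fin p, tw (u ^ (i : ℕ)) f).coeff n = if (p : ℤ) ∣ n then (p : A) * f.coeff n else 0 := by
  rw [HahnSeries.coeff_sum]
  simp only [tw_coeff]
  rw [← Finset.sum_mul, sum_pow_unit p u hu]
  split_ifs <;> simp

end Twist

end Fermat.Agent.H66
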