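import Fermat.Agent.H66Level1
import Fermat.Agent.H66Twist

/-!
# Traces of transforms of level one modular forms
-/

set_option autoImplicit false

noncomputable section

open ModularCurve

namespace Fermat.Agent.H66

/-- `x` is a polynomial in `j(t ^ p)`. -/
def InJ (A : Type*) [CommRing A] (p : ℕ) [NeZero p] (x : LaurentSeries A) : Prop :=
  ∃ P : Polynomial A, P.eval₂ HahnSeries.C (qExpand A p (jqModC A)) = x

section InJ

variable {A : Type*} [CommRing A] {p : ℕ} [NeZero p] {x y : LaurentSeries A}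

theorem InJ.add (hx : InJ A p x) (hy : InJ A p y) : InJ A p (x + y) := by
  obtain ⟨P, rfl⟩ := hx
  obtain ⟨Q, rfl⟩ := hy
  exact ⟨P + Q, Polynomial.eval₂_add _ _⟩

theorem InJ.mul (hx : InJ A p x) (hy : InJ A p y) : InJ A p (x * y) := by
  obtain ⟨P, rfl⟩ := hx
  obtain ⟨Q, rfl⟩ := hy
  exact ⟨P * Q, Polynomial.eval₂_mul _ _⟩

theorem InJ.C (c : A) : InJ A p (HahnSeries.C c) := ⟨Polynomial.C c, by simp⟩

theorem InJ.zero : InJ A p 0 := ⟨0, by simp⟩

theorem InJ.one : InJ A p 1 := ⟨1, by simp⟩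

theorem InJ.neg (hx : InJ A p x) : InJ A p (-x) := by
  obtain ⟨P, rfl⟩ := hx
  exact ⟨-P, Polynomial.eval₂_neg _⟩

theorem InJ.pow (hx : InJ A p x) (n : ℕ) : InJ A p (x ^ n) := by
  obtain ⟨P, rfl⟩ := hx
  exact ⟨P ^ n, Polynomial.eval₂_pow _ _ _⟩

theorem InJ.sum {ι : Type*} (s : Finset ι) (f : ι → LaurentSeries A)
    (h : ∀ i ∈ s, InJ A p (f i)) : InJ A p (∑ i ∈ s, f i) := by
  induction s using Finset.cons_induction with
  | empty => simpa using InJ.zero
  | cons a s ha ih =>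
    rw [Finset.sum_cons]
    exact (h a (Finset.mem_cons_self a s)).add (ih fun i hi => h i (Finset.mem_cons_of_mem hi))

end InJ

theorem coeff_ofPowerSeries_neg {R : Type*} [CommRing R] (f : PowerSeries R) {n : ℤ} (hn : n < 0) :
    (HahnSeries.ofPowerSeries ℤ R f).coeff n = 0 := ofPowerSeries_coeff_of_neg _ hn

/-- The trace of a modular form of weight `k`. -/
theorem sum_fam {k : ℤ} {f : PowerSeries ℂ} (p : ℕ) [Fact p.Prime]
    (u : ℂˣ) (hu : IsPrimitiveRoot u p) :
    ∑ a, fam p u ((p : ℂ) ^ k) (HahnSeries.ofPowerSeries ℤ ℂ f) a =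
      qExpand ℂ p (HahnSeries.C (p : ℂ) * HahnSeries.ofPowerSeries ℤ ℂ
        (PowerSeries.mk fun n => f.coeff (n * p) +
      if p ∣ n then (p : ℂ) ^ (k - 1) * f.coeff (n / p) else 0)) := by
  have hp : p.Prime := Fact.out
  have hp0 : (p : ℂ) ≠ 0 := by exact_mod_cast hp.ne_zero
  rw [Fintype.sum_option]
  simp only [fam_none, fam_some]
  ext n
  rw [HahnSeries.coeff_add, coeff_sum_tw p u hu, HahnSeries.C_mul_eq_smul, HahnSeries.coeff_smul]
  by_cases hn : (p : ℤ) ∣ n
  · obtain ⟨m, rfl⟩ := hn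
    rw [qExpand_coeff_mul, qExpand_coeff_mul, if_pos (dvd_mul_right _ _), HahnSeries.C_mul_eq_smul,
      HahnSeries.coeff_smul]
    rcases lt_or_ge m 0 with hm | hm
    · rw [coeff_ofPowerSeries_neg _ hm,
        coeff_ofPowerSeries_neg _ (mul_neg_of_pos_of_neg (by exact_mod_cast hp.pos) hm)]
      by_cases hm2 : (p : ℤ) ∣ m
      · obtain ⟨l, rfl⟩ := hm2
        rw [qExpand_coeff_mul, coeff_ofPowerSeries_neg _ (by
          by_contra hl
          exact absurd hm (not_lt.2 (mul_nonneg (by positivity) (not_lt.1 hl))))]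
        simp
      · rw [qExpand_coeff_of_not_dvd _ _ hm2]; simp
    · lift m to ℕ using hm
      rw [HahnSeries.ofPowerSeries_apply_coeff, PowerSeries.coeff_mk]
      have h1 : (p : ℤ) * (m : ℤ) = ((m * p : ℕ) : ℤ) := by push_cast; ring
      rw [h1, HahnSeries.ofPowerSeries_apply_coeff]
      by_cases hm2 : p ∣ m
      · obtain ⟨l, rfl⟩ := hm2
        rw [if_pos (dvd_mul_right _ _), Nat.mul_div_cancel_left _ hp.pos]
        push_cast
        rw [qExpand_coeff_mul, HahnSeries.ofPowerSeries_apply_coeff, zpow_sub₀ hp0, zpow_one]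
        simp only [smul_eq_mul]
        field_simp
        ring
      · rw [if_neg hm2, qExpand_coeff_of_not_dvd _ _ (by exact_mod_cast hm2)]
        simp
  · rw [qExpand_coeff_of_not_dvd _ _ hn, qExpand_coeff_of_not_dvd _ _ hn, if_neg hn]
    simp

/-- Newton's identities. -/
theorem inJ_esymm {p : ℕ} [NeZero p] {σ : Type*} [Fintype σ] (z : σ → LaurentSeries ℂ)
    (h : ∀ m, 0 < m → InJ ℂ p (∑ a, z a ^ m)) (k : ℕ) :
    InJ ℂ p (MvPolynomial.aeval z (MvPolynomial.esymm σ ℤ k)) := by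
  induction k using Nat.strong_induction_on with
  | _ k ih =>
    rcases Nat.eq_zero_or_pos k with rfl | hk
    · simpa using InJ.one
    · have h1 := congrArg (MvPolynomial.aeval z) (MvPolynomial.mul_esymm_eq_sum σ ℤ k)
      rw [map_mul, map_natCast, map_mul, map_sum] at h1
      have h2 : InJ ℂ p ((k : LaurentSeries ℂ) * MvPolynomial.aeval z (MvPolynomial.esymm σ ℤ k)) := by
        rw [h1]
        refine InJ.mul ?_ (InJ.sum _ _ fun a ha => ?_)
        · rw [map_pow, map_neg, map_one]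
          exact InJ.one.neg.pow _
        · rw [Finset.mem_filter, Finset.HasAntidiagonal.mem_antidiagonal] at ha
          rw [map_mul, map_mul, map_pow, map_neg, map_one]
          refine ((InJ.one.neg.pow _).mul (ih _ ha.2)).mul ?_
          rw [MvPolynomial.psum, map_sum]
          simp only [map_pow, MvPolynomial.aeval_X]
          exact h _ (by omega)
      have hk0 : (k : ℂ) ≠ 0 := by exact_mod_cast hk.ne'
      have h3 : MvPolynomial.aeval z (MvPolynomial.esymm σ ℤ k) =
          HahnSeries.C ((k : ℂ)⁻¹) * ((k : LaurentSeries ℂ) *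
            MvPolynomial.aeval z (MvPolynomial.esymm σ ℤ k)) := by
        have h4 : (k : LaurentSeries ℂ) = HahnSeries.C (k : ℂ) := by simp
        rw [h4, ← mul_assoc, ← map_mul, inv_mul_cancel₀ hk0, map_one, one_mul]
      rw [h3]
      exact (InJ.C _).mul h2

theorem inJ_coeff_prod {p : ℕ} [NeZero p] {σ : Type*} [Fintype σ] (z : σ → LaurentSeries ℂ)
    (h : ∀ m, 0 < m → InJ ℂ p (∑ a, z a ^ m)) (k : ℕ) :
    InJ ℂ p ((∏ a, (Polynomial.X - Polynomial.C (z a))).coeff k) := by
  classical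
  have h1 : (∏ a, (Polynomial.X - Polynomial.C (z a))) =
      (((Finset.univ.val : Multiset σ).map z).map (fun t => Polynomial.X - Polynomial.C t)).prod := by
    rw [Multiset.map_map]; rfl
  rw [h1]
  by_cases hk : k ≤ Multiset.card ((Finset.univ.val : Multiset σ).map z)
  · rw [Multiset.prod_X_sub_C_coeff _ hk, ← MvPolynomial.aeval_esymm_eq_multiset_esymm σ ℤ]
    exact (InJ.one.neg.pow _).mul (inJ_esymm z h _)
  · rw [Polynomial.coeff_eq_zero_of_natDegree_lt]
    · exact InJ.zero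
    · rw [Polynomial.natDegree_multiset_prod_X_sub_C_eq_card]
      omega

/-- the product itself -/
theorem inJ_prod {p : ℕ} [NeZero p] {σ : Type*} [Fintype σ] (z : σ → LaurentSeries ℂ)
    (h : ∀ m, 0 < m → InJ ℂ p (∑ a, z a ^ m)) : InJ ℂ p (∏ a, z a) := by
  classical
  have h1 := inJ_coeff_prod (fun a => - z a) (fun m hm => by
    have h2 : ∑ a, (- z a) ^ m = (-1) ^ m * ∑ a, z a ^ m := by
      rw [Finset.mul_sum]
      exact Finset.sum_congr rfl fun a _ => neg_pow (z a) m
    rw [h2]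
    exact (InJ.one.neg.pow _).mul (h m hm)) 0
  rw [Polynomial.coeff_zero_prod] at h1
  simpa only [Polynomial.coeff_sub, Polynomial.coeff_X_zero, Polynomial.coeff_C_zero, zero_sub,
    neg_neg] using h1

section Complex

variable (p : ℕ) [Fact p.Prime] (u : ℂˣ) (hu : IsPrimitiveRoot u p)

include hu

theorem inJ_trace (n : ℕ) {f : PowerSeries ℂ} (hf : IsMF ((12 * n : ℕ) : ℤ) f) :
    InJ ℂ p (∑ a, fam p u ((p : ℂ) ^ (12 * n)) (HahnSeries.ofPowerSeries ℤ ℂ f) a *
      qExpand ℂ p (H28.deltaInvL ℂ) ^ n) := by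
  have hp : p.Prime := Fact.out
  have h1 := sum_fam (k := ((12 * n : ℕ) : ℤ)) (f := f) p u hu
  rw [zpow_natCast] at h1
  rw [← Finset.sum_mul, h1, ← map_pow, ← map_mul, mul_assoc]
  obtain ⟨P, hP⟩ := IsMF.exists_aeval n (hf.hecke hp)
  rw [hP, map_mul, qExpand_C]
  refine (InJ.C _).mul ⟨P, ?_⟩
  rw [Polynomial.aeval_def, Polynomial.hom_eval₂]
  congr 1
  ext c
  rw [RingHom.comp_apply, algebraMap_laurentSeries_eq_single, qExpand_single, mul_zero]
  rfl

end Complex

end Fermat.Agent.H66
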