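import Fermat.Agent.H67Calc
import Fermat.Agent.H42Swap

/-!
# Degeneracy maps between the curves `X₀(N)` (helper67)
-/

set_option autoImplicit false
set_option linter.unusedSectionVars false
set_option linter.style.haveILetI false

noncomputable section

open AlgebraicCurve IntermediateField HahnSeries ModularCurve

namespace Fermat.Agent.H67

theorem jd_eq_J (K : Type*) [Field K] (m : ℕ) : H42.jd K m = H66.J K m := by
  by_cases h : m = 0
  · subst h
    rw [H42.jd, H66.J, dif_pos rfl]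
  · haveI : NeZero m := ⟨h⟩
    rw [H42.jd_eq, H66.J_eq]

section Dg

variable (L : Type*) [Field L] [Algebra ℚ L]

theorem FB_mono {M N : ℕ} [NeZero M] [NeZero N] (h : M ∣ N) : FB L M ≤ FB L N := by
  rw [FB, FB, laurentBaseChange_full, laurentBaseChange_full]
  exact H66.full_mono L (NeZero.ne M) (NeZero.ne N) h

theorem qExpand_mem_FB {M N : ℕ} [NeZero M] [NeZero N] (d : ℕ) [NeZero d] (h : M * d ∣ N)
    {x : LaurentSeries L} (hx : x ∈ FB L M) : qExpand L d x ∈ FB L N := by
  haveI : NeZero (M * d) := ⟨mul_ne_zero (NeZero.ne M) (NeZero.ne d)⟩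
  exact FB_mono L h (heckeBetaBar L M d ⟨x, hx⟩).2

/-- The degeneracy map `F_M → F_N`, `f(τ) ↦ f(dτ)`, for `M d ∣ N`. -/
def dg {M N : ℕ} [NeZero M] [NeZero N] (d : ℕ) [NeZero d] (h : M * d ∣ N) :
    FB L M →ₐ[L] FB L N where
  toFun x := ⟨qExpand L d x, qExpand_mem_FB L d h x.2⟩
  map_one' := Subtype.ext (map_one (qExpand L d))
  map_mul' _ _ := Subtype.ext (map_mul (qExpand L d) _ _)
  map_zero' := Subtype.ext (map_zero (qExpand L d))
  map_add' _ _ := Subtype.ext (map_add (qExpand L d) _ _)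
  commutes' a := Subtype.ext <| by
    show qExpand L d (algebraMap L (LaurentSeries L) a) = algebraMap L (LaurentSeries L) a
    rw [algebraMap_laurentSeries_eq_single, qExpand_single, mul_zero]

variable {L}

theorem coe_dg {M N : ℕ} [NeZero M] [NeZero N] (d : ℕ) [NeZero d] (h : M * d ∣ N) (x : FB L M) :
    ((dg L d h x : FB L N) : LaurentSeries L) = qExpand L d (x : LaurentSeries L) := rfl

theorem dg_comp {M N R : ℕ} [NeZero M] [NeZero N] [NeZero R] (d d' e : ℕ) [NeZero d] [NeZero d']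
    [NeZero e] (h : M * d ∣ N) (h' : N * d' ∣ R) (h'' : M * e ∣ R) (he : d' * d = e) :
    (dg L d' h').comp (dg L d h) = dg L e h'' := by
  refine AlgHom.ext fun x => Subtype.ext ?_
  rw [AlgHom.comp_apply, coe_dg, coe_dg, coe_dg, qExpand_qExpand]
  exact qExpand_congr he _

theorem dg_congr {M N : ℕ} [NeZero M] [NeZero N] (d e : ℕ) [NeZero d] [NeZero e] (h : M * d ∣ N)
    (h' : M * e ∣ N) (he : d = e) : dg L d h = dg L e h' := by
  subst he; rfl

theorem alpha_eq_dg (N ℓ : ℕ) [NeZero N] [NeZero ℓ] :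
    heckeAlphaBar L N ℓ = dg L 1 (by rw [mul_one]; exact dvd_mul_right N ℓ) := by
  refine AlgHom.ext fun x => Subtype.ext ?_
  rw [coe_alpha, coe_dg, qExpand_one_apply]

theorem beta_eq_dg (N ℓ : ℕ) [NeZero N] [NeZero ℓ] :
    heckeBetaBar L N ℓ = dg L ℓ dvd_rfl := by
  refine AlgHom.ext fun x => Subtype.ext ?_
  rw [coe_beta, coe_dg]

end Dg

section Finrank

variable {K A B C : Type*} [Field K] [Field A] [Field B] [Field C] [Algebra K A] [Algebra K B]
  [Algebra K C]

theorem finrankAlong_comp (φ : A →ₐ[K] B) (ψ : B →ₐ[K] C) :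
    finrankAlong K (ψ.comp φ) = finrankAlong K φ * finrankAlong K ψ := by
  letI := algebraAlong φ
  letI := algebraAlong ψ
  letI := algebraAlong (ψ.comp φ)
  haveI : IsScalarTower A B C := IsScalarTower.of_algebraMap_eq fun _ => rfl
  exact (Module.finrank_mul_finrank A B C).symm

theorem finrankAlong_comp_equiv (φ : A →ₐ[K] B) (e : B ≃ₐ[K] C) :
    finrankAlong K (e.toAlgHom.comp φ) = finrankAlong K φ := by
  have h : finrankAlong K e.toAlgHom = 1 := by
    letI := algebraAlong e.toAlgHom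
    have h : Function.Bijective (algebraMap B C) := e.bijective
    change Module.finrank B C = 1
    let e' : B ≃ₗ[B] C := LinearEquiv.ofBijective (Algebra.linearMap B C) h
    rw [← e'.finrank_eq, Module.finrank_self]
  rw [finrankAlong_comp, h, mul_one]

end Finrank

section Degrees

variable {L : Type*} [Field L] [Algebra ℚ L] [IsAlgClosed L] [CharZero L]

/-- The degree of the inclusion. -/
theorem finrank_dg_one {M N : ℕ} [NeZero M] [NeZero N] (h : M * 1 ∣ N) :
    finrankAlong L (dg L 1 h) * dedekindPsi M = dedekindPsi N := by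
  have h0 : M ∣ N := by rwa [mul_one] at h
  obtain ⟨k, rfl⟩ := h0
  haveI : NeZero k := ⟨right_ne_zero_of_mul (NeZero.ne (M * k))⟩
  rw [← alpha_eq_dg, finrank_alpha, mul_comm]
  exact relfinrank_full_mul (degreeFact L) M k

/-- The Fricke involution shows that the degree of `j(τ) ↦ j(Nτ)` is `ψ(N)`. -/
theorem finrank_dg_level_one (f : L →+* ℂ) {N : ℕ} [NeZero N] (h : 1 * N ∣ N) :
    finrankAlong L (dg L (M := 1) N h) = dedekindPsi N := by
  haveI : NeZero (1 * N) := ⟨by rw [one_mul]; exact NeZero.ne N⟩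
  obtain ⟨W, -, hα, -, -⟩ := H42.exists_atkinLehner (L := L) f (N := 1) (ℓ := N)
    (Nat.coprime_one_left N)
  have h1 : heckeBetaBar L 1 N = W.toAlgHom.comp (heckeAlphaBar L 1 N) :=
    AlgHom.ext fun x => (hα x).symm
  have h2 : finrankAlong L (heckeBetaBar L 1 N) = finrankAlong L (heckeAlphaBar L 1 N) := by
    rw [h1, finrankAlong_comp_equiv]
  have h3 := finrank_dg_one (L := L) (M := 1) (N := 1 * N) (by simp)
  rw [← alpha_eq_dg, ← h2, beta_eq_dg, dedekindPsi_one, mul_one] at h3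
  -- transport along `1 * N = N`
  have key : ∀ (R : ℕ) [NeZero R] (_ : R = N) (hR : 1 * N ∣ R),
      finrankAlong L (dg L (M := 1) (N := R) N hR) = dedekindPsi R →
      finrankAlong L (dg L (M := 1) (N := N) N h) = dedekindPsi N := by
    intro R _ hRN hR hh
    subst hRN
    exact hh
  exact key (1 * N) (one_mul N) dvd_rfl h3

/-- The degree of `F_1 → F_N`, `j(τ) ↦ j(dτ)`. -/
theorem finrank_dg_from_one (f : L →+* ℂ) {N d : ℕ} [NeZero N] [NeZero d] (h : 1 * d ∣ N) :
    finrankAlong L (dg L (M := 1) d h) = dedekindPsi N := by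
  have h1 : (dg L (M := d) (N := N) 1 (by rwa [mul_one, ← one_mul d])).comp
      (dg L (M := 1) d (by rw [one_mul])) = dg L d h :=
    dg_comp _ _ _ _ _ _ (one_mul d)
  rw [← h1, finrankAlong_comp, finrank_dg_level_one f, mul_comm, finrank_dg_one]

/-- **The degree of the degeneracy maps.** -/
theorem finrank_dg (f : L →+* ℂ) {M N : ℕ} [NeZero M] [NeZero N] (d : ℕ) [NeZero d]
    (h : M * d ∣ N) : finrankAlong L (dg L d h) * dedekindPsi M = dedekindPsi N := by
  have hd : 1 * d ∣ N := by rw [one_mul]; exact (dvd_mul_left d M).trans h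
  have h1 : (dg L d h).comp (dg L (M := 1) 1 (by simp)) = dg L d hd :=
    dg_comp _ _ _ _ _ _ (mul_one d)
  rw [← finrank_dg_from_one f hd, ← h1, finrankAlong_comp, finrank_dg_from_one f, mul_comm]

end Degrees

section Squares

/-- the degree of `X₀(Np) → X₀(N)` -/
def cdeg (N p : ℕ) : ℕ := if p ∣ N then p else p + 1

theorem dedekindPsi_mul_prime {N p : ℕ} (hN : N ≠ 0) (hp : p.Prime) :
    dedekindPsi (N * p) = cdeg N p * dedekindPsi N := by
  rw [mul_comm N p, cdeg]
  split_ifs with h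
  · exact H45.dedekindPsi_mul_of_dvd hp hN h
  · exact H45.dedekindPsi_mul_of_not_dvd hp hN h

theorem cdeg_mul {N p r : ℕ} (hp : p.Prime) (hr : r.Prime) (hpr : p ≠ r) :
    cdeg (N * r) p = cdeg N p := by
  unfold cdeg
  congr 1
  rw [hp.dvd_mul, eq_iff_iff]
  constructor
  · rintro (h | h)
    · exact h
    · exact absurd ((Nat.prime_dvd_prime_iff_eq hp hr).mp h) hpr
  · exact Or.inl

variable {L : Type*} [Field L] [Algebra ℚ L] [IsAlgClosed L] [CharZero L]

instance instFunFieldFB (N : ℕ) [NeZero N] :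
    H94.FunField L (laurentBaseChange L (modularFunctionFieldFull N)) := funField_FB L N

/-- degree of the degeneracy maps from level `M` to level `Mp` -/
theorem finrank_dg_prime (f : L →+* ℂ) {M N p : ℕ} [NeZero M] [NeZero N] (hp : p.Prime) (a : ℕ)
    [NeZero a] (h : M * a ∣ N) (hN : N = M * p) :
    finrankAlong L (dg L a h) = cdeg M p := by
  have h1 := finrank_dg f a h
  subst hN
  rw [dedekindPsi_mul_prime (NeZero.ne M) hp] at h1
  exact Nat.eq_of_mul_eq_mul_right (dedekindPsi_pos M) h1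

theorem square_deg (f : L →+* ℂ) {M p r a : ℕ} [NeZero M] [NeZero (M * p)] [NeZero (M * r)]
    [NeZero (M * p * r)] [NeZero a] (hp : p.Prime) (hr : r.Prime) (hpr : p ≠ r)
    (h : M * a ∣ M * p) (h' : M * r * a ∣ M * p * r) :
    finrankAlong L (dg L a h') = finrankAlong L (dg L a h) := by
  rw [finrank_dg_prime f hp a h' (by ring), finrank_dg_prime f hp a h rfl, cdeg_mul hp hr hpr]

theorem square_gen {M p r a b : ℕ} [NeZero M] [NeZero (M * p)] [NeZero (M * r)]
    [NeZero (M * p * r)] [NeZero a] [NeZero b] (hp : p.Prime) (hr : r.Prime) (hpr : p ≠ r)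
    (ha : a = 1 ∨ a = p) (hb : b = 1 ∨ b = r)
    (h1 : M * r * a ∣ M * p * r) (h2 : M * p * b ∣ M * p * r) :
    Subfield.closure (Set.range (dg L a h1) ∪ Set.range (dg L b h2)) = ⊤ := by
  refine closure_eq_top (M * p * r) _ ?_ ?_
  · intro x
    exact Subfield.subset_closure (Or.inl ⟨algebraMap L _ x, AlgHom.commutes _ _⟩)
  · intro T hT
    refine J_mem_square_general (H66.hasRoots_of_isAlgClosed L) prime_cast_ne_zero T
      (NeZero.ne M) hp hr hpr ha hb ?_ ?_
    · intro d hd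
      have h := hT (dg L a h1 ⟨H66.J L d, J_mem_FB hd⟩)
        (Subfield.subset_closure (Or.inl ⟨_, rfl⟩))
      rwa [coe_dg, H66.qExpand_J] at h
    · intro e he
      have h := hT (dg L b h2 ⟨H66.J L e, J_mem_FB he⟩)
        (Subfield.subset_closure (Or.inr ⟨_, rfl⟩))
      rwa [coe_dg, H66.qExpand_J] at h

/-- **Base change for the degeneracy maps** (divisors). -/
theorem pullD_pushD_dg (f : L →+* ℂ) {M p r a b : ℕ} [NeZero M] [NeZero (M * p)]
    [NeZero (M * r)] [NeZero (M * p * r)] [NeZero a] [NeZero b] (hp : p.Prime) (hr : r.Prime)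
    (hpr : p ≠ r) (ha : a = 1 ∨ a = p) (hb : b = 1 ∨ b = r)
    (hMa : M * a ∣ M * p) (hMb : M * b ∣ M * r)
    (h1 : M * r * a ∣ M * p * r) (h2 : M * p * b ∣ M * p * r) (x : Divisor L (FB L (M * p))) :
    pullD (dg L b hMb) (pushD (dg L a hMa) x) = pushD (dg L a h1) (pullD (dg L b h2) x) := by
  have hab : NeZero (a * b) := ⟨mul_ne_zero (NeZero.ne a) (NeZero.ne b)⟩
  have h3 : M * (a * b) ∣ M * p * r := by
    have := mul_dvd_mul_left M (mul_dvd_mul
      (show a ∣ p by rcases ha with rfl | rfl <;> simp)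
      (show b ∣ r by rcases hb with rfl | rfl <;> simp))
    rwa [← mul_assoc M p r] at this
  refine pullD_pushD ?_ (square_deg f hp hr hpr hMa h1) (square_gen hp hr hpr ha hb h1 h2) x
  rw [dg_comp b a (a * b) hMb h1 h3 rfl, dg_comp a b (a * b) hMa h2 h3 (mul_comm b a)]

/-- **Base change for the degeneracy maps.** -/
theorem pullP_pushP_dg (f : L →+* ℂ) {M p r a b : ℕ} [NeZero M] [NeZero (M * p)]
    [NeZero (M * r)] [NeZero (M * p * r)] [NeZero a] [NeZero b] (hp : p.Prime) (hr : r.Prime)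
    (hpr : p ≠ r) (ha : a = 1 ∨ a = p) (hb : b = 1 ∨ b = r)
    (hMa : M * a ∣ M * p) (hMb : M * b ∣ M * r)
    (h1 : M * r * a ∣ M * p * r) (h2 : M * p * b ∣ M * p * r) (x : Pic0 L (FB L (M * p))) :
    pullP (dg L b hMb) (pushP (dg L a hMa) x) = pushP (dg L a h1) (pullP (dg L b h2) x) := by
  obtain ⟨E, rfl⟩ := Pic0.mk_surjective x
  exact mk_congr (pullD_pushD_dg f hp hr hpr ha hb hMa hMb h1 h2 E.1)

end Squares

section Hecke

variable {L : Type*} [Field L] [Algebra ℚ L] [IsAlgClosed L] [CharZero L]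

/-- The Hecke operator in terms of the calculus. -/
theorem heckeOperatorAlong_eq_calc (N ℓ : ℕ) [NeZero N] [NeZero ℓ]
    (x : Pic0 L (FB L N)) :
    heckeOperatorAlong L N ℓ x = pushP (heckeAlphaBar L N ℓ) (pullP (heckeBetaBar L N ℓ) x) := by
  haveI := hasPrincipalDivisors_FB L (N * ℓ)
  rw [heckeOperatorAlong_eq (integral_FB L (heckeAlphaBar L N ℓ))
    (integral_FB L (heckeBetaBar L N ℓ)) (fundamentalIdentityAlong_FB L _ _)
    (finiteAlong_FB L _) (normFormulaAlong_FB L _ _)]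
  obtain ⟨D, rfl⟩ := Pic0.mk_surjective x
  exact mk_congr rfl

theorem heckeOperatorAlong_eq_dg {N M ℓ : ℕ} [NeZero N] [NeZero M] [NeZero ℓ] (hM : M = N * ℓ)
    (h1 : N * 1 ∣ M) (h2 : N * ℓ ∣ M) (x : Pic0 L (FB L N)) :
    heckeOperatorAlong L N ℓ x = pushP (dg L 1 h1) (pullP (dg L ℓ h2) x) := by
  subst hM
  rw [heckeOperatorAlong_eq_calc, alpha_eq_dg, beta_eq_dg]

variable (f : L →+* ℂ) {M p r a : ℕ} [NeZero M] [NeZero (M * p)] [NeZero r] [NeZero a]
  (hp : p.Prime) (hr : r.Prime) (hpr : p ≠ r) (ha : a = 1 ∨ a = p) (hMa : M * a ∣ M * p)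

include f hp hr hpr ha in
/-- Push forward along degeneracy maps commutes with the Hecke operators. -/
theorem pushP_heckeOperatorAlong (x : Pic0 L (FB L (M * p))) :
    pushP (dg L a hMa) (heckeOperatorAlong L (M * p) r x)
      = heckeOperatorAlong L M r (pushP (dg L a hMa) x) := by
  haveI : NeZero (M * r) := ⟨mul_ne_zero (NeZero.ne M) (NeZero.ne r)⟩
  haveI : NeZero (M * p * r) := ⟨mul_ne_zero (NeZero.ne (M * p)) (NeZero.ne r)⟩
  have hap : a ∣ p := by rcases ha with rfl | rfl <;> simp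
  have h1 : M * r * a ∣ M * p * r := by
    rw [mul_right_comm M p r]; exact mul_dvd_mul_left _ hap
  have h2 : M * p * 1 ∣ M * p * r := mul_dvd_mul_left _ (one_dvd r)
  have h3 : M * a ∣ M * p * r := (mul_dvd_mul_left M hap).trans (dvd_mul_right _ _)
  have h4 : M * 1 ∣ M * r := mul_dvd_mul_left _ (one_dvd r)
  rw [heckeOperatorAlong_eq_dg (N := M * p) rfl h2 dvd_rfl,
    heckeOperatorAlong_eq_dg (N := M) rfl h4 dvd_rfl,
    pullP_pushP_dg f hp hr hpr ha (Or.inr rfl) hMa dvd_rfl h1 dvd_rfl,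
    ← pushP_comp, ← pushP_comp, dg_comp a 1 a hMa h2 h3 (one_mul a),
    dg_comp 1 a a h4 h1 h3 (mul_one a)]

include f hp hr hpr ha in
/-- Pull back along degeneracy maps commutes with the Hecke operators. -/
theorem pullP_heckeOperatorAlong (x : Pic0 L (FB L M)) :
    pullP (dg L a hMa) (heckeOperatorAlong L M r x)
      = heckeOperatorAlong L (M * p) r (pullP (dg L a hMa) x) := by
  haveI : NeZero (M * r) := ⟨mul_ne_zero (NeZero.ne M) (NeZero.ne r)⟩
  haveI : NeZero (M * p * r) := ⟨mul_ne_zero (NeZero.ne (M * p)) (NeZero.ne r)⟩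
  haveI : NeZero (M * r * p) := ⟨mul_ne_zero (NeZero.ne (M * r)) hp.ne_zero⟩
  haveI : NeZero (r * a) := ⟨mul_ne_zero (NeZero.ne r) (NeZero.ne a)⟩
  have hap : a ∣ p := by rcases ha with rfl | rfl <;> simp
  have h1 : M * p * 1 ∣ M * r * p := by
    rw [mul_one, mul_right_comm]; exact dvd_mul_right _ _
  have h1' : M * p * r ∣ M * r * p := by rw [mul_right_comm]
  have h2 : M * r * a ∣ M * r * p := mul_dvd_mul_left _ hap
  have h3 : M * (r * a) ∣ M * r * p := by
    rw [← mul_assoc]; exact h2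
  have h4 : M * 1 ∣ M * r := mul_dvd_mul_left _ (one_dvd r)
  rw [heckeOperatorAlong_eq_dg (N := M * p) (M := M * r * p) (mul_right_comm M r p) h1 h1',
    heckeOperatorAlong_eq_dg (N := M) rfl h4 dvd_rfl,
    pullP_pushP_dg f hr hp hpr.symm (Or.inl rfl) ha h4 hMa h1 h2,
    ← pullP_comp, ← pullP_comp, dg_comp r a (r * a) dvd_rfl h2 h3 (mul_comm a r),
    dg_comp a r (r * a) hMa h1' h3 rfl]

end Hecke

end Fermat.Agent.H67
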