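import Fermat.Agent.H66Degree
import Fermat.Agent.H67Field

/-!
# Generation of `F_{Nℓℓ'}` by the images of `F_{Nℓ}` and `F_{Nℓ'}` (helper67)
-/

set_option autoImplicit false
set_option linter.unusedSectionVars false
set_option linter.style.haveILetI false

noncomputable section

open ModularCurve Polynomial IntermediateField Fermat.Agent.H66

namespace Fermat.Agent.H67

variable {K : Type*} [Field K]

/-- `j(p e τ)` lies in any field containing `j(e τ)` and `j(r p e τ)`. -/
theorem J_mem_mid (hK : HasRoots K) (F : IntermediateField K (LaurentSeries K))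
    {p r e : ℕ} [Fact p.Prime] [Fact r.Prime] (hp0 : (p : K) ≠ 0)
    (hr0 : (r : K) ≠ 0) [NeZero e] (h1 : J K e ∈ F) (h2 : J K (r * (p * e)) ∈ F) :
    J K (p * e) ∈ F := by
  have hp : p.Prime := Fact.out
  have hr : r.Prime := Fact.out
  obtain ⟨u, Φ, _, hm, _, hΦ⟩ := hK.exists_phi p hp0
  obtain ⟨v, Ψ, _, hm', _, hΨ⟩ := hK.exists_phi r hr0
  have : NeZero (p * e) := ⟨mul_ne_zero hp.ne_zero (NeZero.ne e)⟩
  have root1 := eval_root1 hΦ e
  have root2 := eval_root2 hΨ (p * e)
  have hint := isIntegral_of_root hm F h1 root1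
  have hdvd1 := minpoly_dvd_phiAt hm F h1 root1
  have hdvd2 := minpoly_dvd_phiAt hm' F h2 root2
  refine mem_of_common_root F hint (qExpand K p)
    (fun a => qExpand K e (jf K p u a))
    (fun a => qExpand K p (qExpand K (p * e) (jf K r v a))) ?_ ?_ ?_
  · have h3 := Polynomial.map_dvd (qExpand K p) hdvd1
    rwa [phiAt_map_p hΦ e] at h3
  · have h3 := Polynomial.map_dvd (qExpand K p) hdvd2
    rw [phiAt_mul hΨ (p * e), Polynomial.map_prod] at h3
    simpa only [Polynomial.map_sub, Polynomial.map_X, Polynomial.map_C] using h3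
  · intro i j
    have he : (0 : ℤ) < e := by exact_mod_cast Nat.pos_of_ne_zero (NeZero.ne e)
    have hp2 : (2 : ℤ) ≤ p := by exact_mod_cast hp.two_le
    have hr2 : (2 : ℤ) ≤ r := by exact_mod_cast hr.two_le
    have h3 := (hasLead_jf_some p u i).qExpand e
    have h4 := ((hasLead_jf r v j).qExpand (p * e)).qExpand p
    refine h3.ne h4 (Units.ne_zero _) (lcJ_ne_zero r v j) ?_
    cases j with
    | none =>
      show ((e : ℕ) : ℤ) * -1 ≠ p * (((p * e : ℕ) : ℤ) * (-(r * r)))
      push_cast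
      intro h
      have h5 : (e : ℤ) * (p * p * (r * r) - 1) = 0 := by linear_combination h
      have h6 : (0 : ℤ) < (e : ℤ) * (p * p * (r * r) - 1) := by
        have h7 : (4 : ℤ) ≤ p * p := by nlinarith
        have h8 : (4 : ℤ) ≤ r * r := by nlinarith
        have h9 : (0 : ℤ) < p * p * (r * r) - 1 := by nlinarith
        positivity
      omega
    | some j =>
      show ((e : ℕ) : ℤ) * -1 ≠ p * (((p * e : ℕ) : ℤ) * (-1))
      push_cast
      intro h
      have h5 : (e : ℤ) * (p * p - 1) = 0 := by linear_combination h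
      have h6 : (0 : ℤ) < (e : ℤ) * (p * p - 1) := by
        have h7 : (0 : ℤ) < p * p - 1 := by nlinarith
        positivity
      omega

/-- Variant of `mem_of_common_root` with an arbitrary special index. -/
theorem mem_of_common_root' (F : IntermediateField K (LaurentSeries K)) {x : LaurentSeries K}
    (hx : IsIntegral F x) {σ τ : Type*} [Fintype σ] [Fintype τ] [DecidableEq σ] (s₀ : σ)
    (a : σ → LaurentSeries K) (b : τ → LaurentSeries K)
    (h1 : ((minpoly F x).map (algebraMap F (LaurentSeries K))) ∣ ∏ i, (X - C (a i)))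
    (h2 : ((minpoly F x).map (algebraMap F (LaurentSeries K))) ∣ ∏ i, (X - C (b i)))
    (hne : ∀ (i : σ) (j : τ), i ≠ s₀ → a i ≠ b j) : x ∈ F := by
  classical
  have hm : ((minpoly F x).map (algebraMap F (LaurentSeries K))).Monic :=
    (minpoly.monic hx).map _
  obtain ⟨T, hT⟩ := exists_finset_of_dvd_prod a hm h1
  obtain ⟨S, hS⟩ := exists_finset_of_dvd_prod b hm h2
  have hne' : Nonempty σ := ⟨s₀⟩
  have hcard : T.card ≤ 1 := by
    rw [Finset.card_le_one_iff_subset_singleton]
    refine ⟨s₀, fun i hi => ?_⟩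
    rw [Finset.mem_singleton]
    by_contra his
    have h3 : ((minpoly F x).map (algebraMap F (LaurentSeries K))).eval (a i) = 0 := by
      rw [hT, eval_prod]
      exact Finset.prod_eq_zero hi (by simp)
    rw [hS, eval_prod, Finset.prod_eq_zero_iff] at h3
    obtain ⟨j, _, hj⟩ := h3
    rw [eval_sub, eval_X, eval_C, sub_eq_zero] at hj
    exact hne i j his hj
  have hdeg : (minpoly F x).natDegree ≤ 1 := by
    have h4 : ((minpoly F x).map (algebraMap F (LaurentSeries K))).natDegree =
        (minpoly F x).natDegree := natDegree_map _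
    rw [← h4, hT, natDegree_prod_X_sub_C']
    exact hcard
  have h5 : (minpoly F x).natDegree = 1 := le_antisymm hdeg (minpoly.natDegree_pos hx)
  rw [minpoly.natDegree_eq_one_iff] at h5
  obtain ⟨y, rfl⟩ := h5
  exact y.2

/-- `j(e τ)` lies in any field containing `j(p e τ)` and `j(r e τ)`. -/
theorem J_mem_low (hK : HasRoots K) (F : IntermediateField K (LaurentSeries K))
    {p r e : ℕ} [Fact p.Prime] [Fact r.Prime] (hpr : p ≠ r) (hp0 : (p : K) ≠ 0)
    (hr0 : (r : K) ≠ 0) [NeZero e] (h1 : J K (p * e) ∈ F) (h2 : J K (r * e) ∈ F) :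
    J K e ∈ F := by
  classical
  have hp : p.Prime := Fact.out
  have hr : r.Prime := Fact.out
  obtain ⟨u, Φ, hu, hm, _, hΦ⟩ := hK.exists_phi p hp0
  obtain ⟨v, Ψ, hv, hm', _, hΨ⟩ := hK.exists_phi r hr0
  have root1 := eval_root2 hΦ e
  have root2 := eval_root2 hΨ e
  have hint := isIntegral_of_root hm F h1 root1
  have hdvd1 := minpoly_dvd_phiAt hm F h1 root1
  have hdvd2 := minpoly_dvd_phiAt hm' F h2 root2
  rw [phiAt_mul hΦ e] at hdvd1
  rw [phiAt_mul hΨ e] at hdvd2
  refine mem_of_common_root' F hint (some (0 : Fin p)) (fun a => qExpand K e (jf K p u a))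
    (fun a => qExpand K e (jf K r v a)) hdvd1 hdvd2 ?_
  intro i j hi hij
  have he : (0 : ℤ) < e := by exact_mod_cast Nat.pos_of_ne_zero (NeZero.ne e)
  have hp2 : (2 : ℤ) ≤ p := by exact_mod_cast hp.two_le
  have hr2 : (2 : ℤ) ≤ r := by exact_mod_cast hr.two_le
  have h3 := (hasLead_jf p u i).qExpand e
  have h4 := (hasLead_jf r v j).qExpand e
  have hij' : qExpand K e (jf K p u i) = qExpand K e (jf K r v j) := hij
  rw [hij'] at h3
  have h5 := h3.order_unique h4 (lcJ_ne_zero p u i) (lcJ_ne_zero r v j)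
  have h6 : ordJ p i = ordJ r j := mul_left_cancel₀ he.ne' h5
  cases i with
  | none =>
    cases j with
    | none =>
      have h7 : -((p : ℤ) * p) = -(r * r) := h6
      have h8 : ((p : ℤ) - r) * (p + r) = 0 := by linear_combination -h7
      rcases mul_eq_zero.1 h8 with h9 | h9
      · exact hpr (by exact_mod_cast sub_eq_zero.1 h9)
      · omega
    | some j =>
      have h7 : -((p : ℤ) * p) = -1 := h6
      nlinarith
  | some i =>
    cases j with
    | none =>
      have h7 : (-1 : ℤ) = -(r * r) := h6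
      nlinarith
    | some j =>
      -- compare the leading coefficients
      have h7 : (((u ^ (i : ℕ)) ^ (-1 : ℤ) : Kˣ) : K) = (((v ^ (j : ℕ)) ^ (-1 : ℤ) : Kˣ) : K) := by
        have h8 := h3.1
        have h9 := h4.1
        have h10 : (e : ℤ) * ordJ p (some i) = e * ordJ r (some j) := h5
        rw [h10] at h8
        exact h8.symm.trans h9
      have h8 : u ^ (i : ℕ) = v ^ (j : ℕ) := by
        have := Units.ext h7
        rwa [zpow_neg_one, zpow_neg_one, inv_inj] at this
      have h9 : u ^ (i : ℕ) = 1 := by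
        have ha : orderOf (u ^ (i : ℕ)) ∣ p := by
          apply orderOf_dvd_of_pow_eq_one
          rw [← pow_mul, mul_comm, pow_mul, hu.pow_eq_one, one_pow]
        have hb : orderOf (u ^ (i : ℕ)) ∣ r := by
          apply orderOf_dvd_of_pow_eq_one
          rw [h8, ← pow_mul, mul_comm, pow_mul, hv.pow_eq_one, one_pow]
        have hc : orderOf (u ^ (i : ℕ)) ∣ 1 := by
          have := Nat.dvd_gcd ha hb
          rwa [(Nat.coprime_primes hp hr).mpr hpr] at this
        rw [← orderOf_eq_one_iff]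
        exact Nat.dvd_one.mp hc
      have h10 : (i : ℕ) = 0 := by
        by_contra h0
        have := hu.dvd_of_pow_eq_one _ h9
        have := Nat.le_of_dvd (Nat.pos_of_ne_zero h0) this
        have := i.2
        omega
      exact hi (congrArg some (Fin.ext h10))

theorem J_mem_square (hK : HasRoots K) (hchar : ∀ p : ℕ, p.Prime → (p : K) ≠ 0)
    (T : IntermediateField K (LaurentSeries K)) {N p r : ℕ}
    (hN : N ≠ 0) (hp : p.Prime) (hr : r.Prime) (h1 : ∀ d, d ∣ N * r → J K d ∈ T)
    (h2 : ∀ e, e ∣ N * p → J K (r * e) ∈ T) : ∀ d, d ∣ N * p * r → J K d ∈ T := by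
  haveI : Fact p.Prime := ⟨hp⟩
  haveI : Fact r.Prime := ⟨hr⟩
  intro d hd
  by_cases hrd : r ∣ d
  · obtain ⟨e, rfl⟩ := hrd
    refine h2 e ?_
    rw [mul_comm (N * p) r] at hd
    exact Nat.dvd_of_mul_dvd_mul_left hr.pos hd
  · have h3 : d ∣ N * p :=
      (Nat.Coprime.dvd_of_dvd_mul_right ((Nat.Prime.coprime_iff_not_dvd hr).mpr hrd).symm hd)
    by_cases hpd : p ∣ d
    · obtain ⟨e, rfl⟩ := hpd
      have he : e ∣ N := by
        rw [mul_comm N p] at h3
        exact Nat.dvd_of_mul_dvd_mul_left hp.pos h3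
      haveI : NeZero e := ⟨fun h0 => hN (by rw [h0] at he; exact Nat.eq_zero_of_zero_dvd he)⟩
      exact J_mem_mid hK T (hchar p hp) (hchar r hr) (h1 e (he.mul_right r)) (h2 _ h3)
    · have h4 : d ∣ N :=
        (Nat.Coprime.dvd_of_dvd_mul_right ((Nat.Prime.coprime_iff_not_dvd hp).mpr hpd).symm h3)
      exact h1 d (h4.mul_right r)

/-- Generation of `F_{Npr}` by the images of `F_{Nr}` (through `a ∈ {1, p}`) and of `F_{Np}`
(through `b ∈ {1, r}`). -/
theorem J_mem_square_general (hK : HasRoots K) (hchar : ∀ p : ℕ, p.Prime → (p : K) ≠ 0)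
    (T : IntermediateField K (LaurentSeries K)) {N p r a b : ℕ}
    (hN : N ≠ 0) (hp : p.Prime) (hr : r.Prime) (hpr : p ≠ r) (ha : a = 1 ∨ a = p)
    (hb : b = 1 ∨ b = r) (h1 : ∀ d, d ∣ N * r → J K (a * d) ∈ T)
    (h2 : ∀ e, e ∣ N * p → J K (b * e) ∈ T) : ∀ d, d ∣ N * p * r → J K d ∈ T := by
  haveI : Fact p.Prime := ⟨hp⟩
  haveI : Fact r.Prime := ⟨hr⟩
  have hcp : ∀ {d : ℕ}, ¬ p ∣ d → p.Coprime d := fun h => (Nat.Prime.coprime_iff_not_dvd hp).mpr h
  have hcr : ∀ {d : ℕ}, ¬ r ∣ d → r.Coprime d := fun h => (Nat.Prime.coprime_iff_not_dvd hr).mpr h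
  have hcomm : N * p * r = N * r * p := by ring
  intro d hd
  have hd' : d ∣ N * r * p := hcomm ▸ hd
  have cancel : ∀ {x y z : ℕ}, 0 < x → x * y ∣ z * x → y ∣ z := by
    intro x y z hx h
    rw [mul_comm z x] at h
    exact Nat.dvd_of_mul_dvd_mul_left hx h
  rcases ha with rfl | rfl <;> rcases hb with rfl | rfl
  · -- (1, 1)
    simp only [one_mul] at h1 h2
    by_cases hpd : p ∣ d
    · obtain ⟨e, rfl⟩ := hpd
      by_cases hre : r ∣ e
      · obtain ⟨e, rfl⟩ := hre
        have he1 : r * e ∣ N * r := cancel hp.pos hd'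
        have he : e ∣ N := cancel hr.pos he1
        haveI : NeZero e := ⟨fun h0 => hN (by rw [h0] at he; exact Nat.eq_zero_of_zero_dvd he)⟩
        exact J_mem_step hK T hpr (hchar p hp) (hchar r hr) (h1 _ he1)
          (h2 _ (by rw [mul_comm N p]; exact mul_dvd_mul_left p he))
      · refine h2 _ ?_
        have h3 : ¬ r ∣ p * e := fun h => (hr.dvd_mul.mp h).elim
          (fun h => hpr ((Nat.prime_dvd_prime_iff_eq hr hp).mp h).symm) hre
        exact (Nat.Coprime.dvd_of_dvd_mul_right (hcr h3).symm hd)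
    · exact h1 _ (Nat.Coprime.dvd_of_dvd_mul_right (hcp hpd).symm hd')
  · -- (1, r)
    simp only [one_mul] at h1
    exact J_mem_square hK hchar T hN hp hr h1 h2 d hd
  · -- (p, 1)
    simp only [one_mul] at h2
    exact J_mem_square hK hchar T hN hr hp h2 h1 d hd'
  · -- (p, r)
    by_cases hpd : a ∣ d
    · obtain ⟨e, rfl⟩ := hpd
      exact h1 e (cancel hp.pos hd')
    by_cases hrd : b ∣ d
    · obtain ⟨e, rfl⟩ := hrd
      exact h2 e (cancel hr.pos hd)
    have h3 : d ∣ N * a := Nat.Coprime.dvd_of_dvd_mul_right (hcr hrd).symm hd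
    have h4 : d ∣ N := Nat.Coprime.dvd_of_dvd_mul_right (hcp hpd).symm h3
    haveI : NeZero d := ⟨fun h0 => hN (by rw [h0] at h4; exact Nat.eq_zero_of_zero_dvd h4)⟩
    exact J_mem_low hK T hpr (hchar _ hp) (hchar _ hr) (h1 d (h4.mul_right _))
      (h2 d (h4.mul_right _))

/-- The degree fact holds. -/
theorem degreeFact (L : Type*) [Field L] [IsAlgClosed L] [CharZero L] : DegreeFact L := by
  intro M hM
  exact relfinrank_full L M (Nat.cast_ne_zero.mpr (NeZero.ne M))

end Fermat.Agent.H67
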