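import Fermat.Agent.H67M1

/-!
# Matching at infinity (helper67), part 2: integrals over `Fin 3 → H3`
-/

set_option autoImplicit false
set_option linter.unusedSectionVars false

noncomputable section

open MeasureTheory Set Matrix

namespace Fermat.Agent.H67M

open Fermat.Agent Fermat.Agent.H3

variable {E : Type*} [NormedAddCommGroup E] [NormedSpace ℝ E]

/-! ### `Fin 3 → H3` and `H3 × H3 × H3` -/

/-- coordinates -/
def e3 : (Fin 3 → H3) ≃ᵐ H3 × H3 × H3 :=
  (MeasurableEquiv.piFinSuccAbove (fun _ => H3) 0).trans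
    (MeasurableEquiv.prodCongr (MeasurableEquiv.refl _) MeasurableEquiv.finTwoArrow)

theorem e3_symm_apply (p : H3 × H3 × H3) : e3.symm p = ![p.1, p.2.1, p.2.2] := by
  rw [MeasurableEquiv.symm_apply_eq]
  rfl

theorem e3_apply (x : Fin 3 → H3) : e3 x = (x 0, x 1, x 2) := rfl

theorem measurePreserving_e3 : MeasurePreserving (e3 : (Fin 3 → H3) → H3 × H3 × H3) volume volume := by
  have h1 := volume_preserving_piFinSuccAbove (fun _ : Fin 3 => H3) 0
  have h2 : MeasurePreserving (Prod.map id (MeasurableEquiv.finTwoArrow (α := H3)))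
      (volume : Measure (H3 × (Fin 2 → H3))) volume :=
    (MeasurePreserving.id _).prod (volume_preserving_finTwoArrow H3)
  exact h2.comp h1

theorem measurePreserving_e3_symm :
    MeasurePreserving (e3.symm : H3 × H3 × H3 → (Fin 3 → H3)) volume volume :=
  MeasurePreserving.symm e3 measurePreserving_e3

theorem lintegral_pi3 (f : (Fin 3 → H3) → ENNReal) (hf : Measurable f) :
    ∫⁻ x : Fin 3 → H3, f x = ∫⁻ a : H3, ∫⁻ b : H3, ∫⁻ c : H3, f ![a, b, c] := by
  rw [← measurePreserving_e3_symm.lintegral_comp hf]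
  simp only [e3_symm_apply]
  have hm : Measurable fun p : H3 × H3 × H3 => f ![p.1, p.2.1, p.2.2] := by
    have := hf.comp e3.symm.measurable
    simpa only [Function.comp_def, e3_symm_apply] using this
  rw [Measure.volume_eq_prod, lintegral_prod _ hm.aemeasurable]
  refine lintegral_congr fun a => ?_
  rw [Measure.volume_eq_prod, lintegral_prod]
  exact (hm.comp (measurable_const.prodMk measurable_id)).aemeasurable

theorem integral_pi3 (f : (Fin 3 → H3) → E) (hf : Integrable f) :
    ∫ x : Fin 3 → H3, f x = ∫ a : H3, ∫ b : H3, ∫ c : H3, f ![a, b, c] := by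
  have h1 := measurePreserving_e3_symm.integral_comp e3.symm.measurableEmbedding f
  rw [← h1]
  have h2 : Integrable (fun p : H3 × H3 × H3 => f (e3.symm p)) :=
    (measurePreserving_e3_symm.integrable_comp_emb e3.symm.measurableEmbedding).mpr hf
  rw [Measure.volume_eq_prod] at h2 ⊢
  rw [integral_prod _ h2]
  refine integral_congr_ae ?_
  filter_upwards [h2.prod_right_ae] with a ha
  rw [Measure.volume_eq_prod] at ha ⊢
  rw [integral_prod _ ha]
  simp only [e3_symm_apply]

theorem measurable_ch : Measurable (fun p : H3 × H3 => ch p.1 p.2) := continuous_ch.measurable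

theorem measurable_ch_comp {X : Type*} [MeasurableSpace X] {f g : X → H3} (hf : Measurable f)
    (hg : Measurable g) : Measurable fun x => ch (f x) (g x) := by
  have h1 : Measurable (fun x => (f x, g x)) := hf.prodMk hg
  have h2 := measurable_ch.comp h1
  exact h2

theorem measurable_smul (g : GL (Fin 2) ℂ) : Measurable fun w : H3 => g • w :=
  (continuous_smul_const g).measurable

/-- indicator of the ball `ch a b ≤ T` -/
def Bt (T : ℝ) (a b : H3) : ENNReal := ({w : H3 | ch a w ≤ T}).indicator (fun _ => 1) b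

theorem Bt_of_le {T : ℝ} {a b : H3} (h : ch a b ≤ T) : Bt T a b = 1 := by
  rw [Bt]
  exact indicator_of_mem (by exact h) _

theorem Bt_le_one (T : ℝ) (a b : H3) : Bt T a b ≤ 1 := by
  rw [Bt]
  exact indicator_le_self' (fun _ _ => zero_le) b

theorem measurable_Bt (T : ℝ) : Measurable fun p : H3 × H3 => Bt T p.1 p.2 := by
  have h1 : (fun p : H3 × H3 => Bt T p.1 p.2) =
      ({p : H3 × H3 | ch p.1 p.2 ≤ T}).indicator fun _ => 1 := by
    funext p
    simp only [Bt, indicator, mem_ofPred_eq]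
  rw [h1]
  have h2 : MeasurableSet {p : H3 × H3 | ch p.1 p.2 ≤ T} :=
    measurableSet_le measurable_ch measurable_const
  exact measurable_const.indicator h2

theorem measurable_Bt_comp {X : Type*} [MeasurableSpace X] (T : ℝ) {f g : X → H3}
    (hf : Measurable f) (hg : Measurable g) : Measurable fun x => Bt T (f x) (g x) := by
  have h1 : Measurable (fun x => (f x, g x)) := hf.prodMk hg
  have h2 := (measurable_Bt T).comp h1
  exact h2

/-- the volume of a ball -/
def Vol (T : ℝ) : ℝ := (H5Z.exists_volume_ball_le T).choose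

theorem Vol_nonneg (T : ℝ) : 0 ≤ Vol T := (H5Z.exists_volume_ball_le T).choose_spec.1

theorem volume_ball_le (T : ℝ) (a : H3) : volume {w : H3 | ch a w ≤ T} ≤ ENNReal.ofReal (Vol T) :=
  (H5Z.exists_volume_ball_le T).choose_spec.2 a

theorem lintegral_Bt_le (T : ℝ) (a : H3) (h : GL (Fin 2) ℂ) :
    ∫⁻ b : H3, Bt T a (h • b) ≤ ENNReal.ofReal (Vol T) := by
  rw [lintegral_smul_eq h (Bt T a)]
  unfold Bt
  rw [lintegral_indicator (H5Z.isClosed_ball T a).measurableSet, lintegral_const, one_mul,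
    Measure.restrict_apply_univ]
  exact volume_ball_le T a

theorem lintegral_majorant (T : ℝ) (χ' : H3 → ENNReal) (hχ' : Measurable χ') (C : ENNReal)
    (g : Fin 3 → GL (Fin 2) ℂ) :
    ∫⁻ x : Fin 3 → H3, χ' (x 0) * (C * (Bt T (x 0) (g 0 • x 1) * Bt T (x 1) (g 1 • x 2))) ≤
      (∫⁻ a, χ' a) * (C * (ENNReal.ofReal (Vol T) * ENNReal.ofReal (Vol T))) := by
  have a0 : Measurable fun x : Fin 3 → H3 => x 0 := measurable_pi_apply 0
  have a1 : Measurable fun x : Fin 3 → H3 => x 1 := measurable_pi_apply 1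
  have a2 : Measurable fun x : Fin 3 → H3 => x 2 := measurable_pi_apply 2
  have m1 : Measurable fun x : Fin 3 → H3 => Bt T (x 0) (g 0 • x 1) :=
    measurable_Bt_comp T a0 ((measurable_smul (g 0)).comp a1)
  have m2 : Measurable fun x : Fin 3 → H3 => Bt T (x 1) (g 1 • x 2) :=
    measurable_Bt_comp T a1 ((measurable_smul (g 1)).comp a2)
  have m3 : Measurable fun x : Fin 3 → H3 => χ' (x 0) * (C * (Bt T (x 0) (g 0 • x 1) *
      Bt T (x 1) (g 1 • x 2))) := (hχ'.comp a0).mul (measurable_const.mul (m1.mul m2))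
  rw [lintegral_pi3 _ m3]
  simp only [cons_val_zero, cons_val_one, cons_val]
  have h1 : ∀ a, ∫⁻ b : H3, ∫⁻ c : H3,
      χ' a * (C * (Bt T a (g 0 • b) * Bt T b (g 1 • c))) ≤
      χ' a * (C * (ENNReal.ofReal (Vol T) * ENNReal.ofReal (Vol T))) := by
    intro a
    have h2 : ∀ b, ∫⁻ c : H3, χ' a * (C * (Bt T a (g 0 • b) * Bt T b (g 1 • c))) ≤
        χ' a * (C * (Bt T a (g 0 • b) * ENNReal.ofReal (Vol T))) := by
      intro b
      have hmc : Measurable fun c : H3 => Bt T b (g 1 • c) :=
        measurable_Bt_comp T measurable_const (measurable_smul (g 1))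
      rw [lintegral_const_mul _ ((hmc.const_mul (Bt T a (g 0 • b))).const_mul C),
        lintegral_const_mul _ (hmc.const_mul (Bt T a (g 0 • b))), lintegral_const_mul _ hmc]
      gcongr
      exact lintegral_Bt_le T b (g 1)
    refine (lintegral_mono h2).trans ?_
    have hmb : Measurable fun b : H3 => Bt T a (g 0 • b) :=
      measurable_Bt_comp T measurable_const (measurable_smul (g 0))
    rw [lintegral_const_mul _ ((hmb.mul_const (ENNReal.ofReal (Vol T))).const_mul C),
      lintegral_const_mul _ (hmb.mul_const (ENNReal.ofReal (Vol T))), lintegral_mul_const _ hmb]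
    gcongr
    exact lintegral_Bt_le T a (g 0)
  refine (lintegral_mono h1).trans ?_
  rw [lintegral_mul_const _ hχ']

theorem enorm_le_of_supp {κ : (Fin 3 → ℝ) → ℂ} {M T : ℝ}
    (hM : ∀ t, ‖κ t‖ ≤ M) (hT : SuppLe T κ) (t : Fin 3 → ℝ) (a b c d : H3)
    (h0 : t 0 = ch a b) (h1 : t 1 = ch c d) :
    ‖κ t‖ₑ ≤ ENNReal.ofReal M * (Bt T a b * Bt T c d) := by
  by_cases e0 : ch a b ≤ T
  · by_cases e1 : ch c d ≤ T
    · rw [Bt_of_le e0, Bt_of_le e1, one_mul, mul_one, ← ofReal_norm]
      exact ENNReal.ofReal_le_ofReal (hM _)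
    · have e : κ t = 0 := hT _ ⟨1, by rw [h1]; exact not_le.mp e1⟩
      rw [e, enorm_zero]
      exact zero_le
  · have e : κ t = 0 := hT _ ⟨0, by rw [h0]; exact not_le.mp e0⟩
    rw [e, enorm_zero]
    exact zero_le

theorem aestronglyMeasurable_zero {χ : H3 → ℂ} (hχ : AEStronglyMeasurable χ) :
    AEStronglyMeasurable (fun x : Fin 3 → H3 => χ (x 0)) := by
  have h2 : AEStronglyMeasurable (fun p : H3 × H3 × H3 => χ p.1) volume := hχ.comp_fst
  exact h2.comp_measurePreserving measurePreserving_e3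

theorem ae_zero {p : H3 → Prop} (h : ∀ᵐ a, p a) : ∀ᵐ x : Fin 3 → H3, p (x 0) := by
  have h1 : ∀ᵐ q : H3 × H3 × H3, p q.1 := Measure.quasiMeasurePreserving_fst.ae h
  exact measurePreserving_e3.quasiMeasurePreserving.ae h1

/-- integrability of a cyclic kernel against a weight in the first variable -/
theorem integrable_cyclic {κ : (Fin 3 → ℝ) → ℂ} (hκ : Measurable κ) {M T : ℝ}
    (hM : ∀ t, ‖κ t‖ ≤ M) (hT : SuppLe T κ) (χ : H3 → ℂ) (hχ : Integrable χ)
    (g : Fin 3 → GL (Fin 2) ℂ) :
    Integrable fun x : Fin 3 → H3 => χ (x 0) * κ fun j => ch (x j) (g j • x (j + 1)) := by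
  have hmκ : Measurable fun x : Fin 3 → H3 => κ fun j => ch (x j) (g j • x (j + 1)) := by
    refine hκ.comp (measurable_pi_lambda _ fun j => ?_)
    exact measurable_ch_comp (measurable_pi_apply j)
      ((measurable_smul (g j)).comp (measurable_pi_apply (j + 1)))
  refine ⟨(aestronglyMeasurable_zero hχ.aestronglyMeasurable).mul hmκ.aestronglyMeasurable, ?_⟩
  obtain ⟨χ', hχ'm, hχ'⟩ : ∃ χ' : H3 → ENNReal, Measurable χ' ∧ (fun a => ‖χ a‖ₑ) =ᵐ[volume] χ' :=
    ⟨_, hχ.aestronglyMeasurable.enorm.measurable_mk, hχ.aestronglyMeasurable.enorm.ae_eq_mk⟩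
  have hfin : ∫⁻ a, χ' a < ⊤ := by
    rw [← lintegral_congr_ae hχ']
    exact hχ.hasFiniteIntegral
  refine lt_of_le_of_lt ?_ (lt_of_le_of_lt (lintegral_majorant T χ' hχ'm (ENNReal.ofReal M) g) ?_)
  · refine lintegral_mono_ae ?_
    filter_upwards [ae_zero hχ'] with x hx
    rw [enorm_mul, hx]
    exact mul_le_mul' le_rfl (enorm_le_of_supp hM hT _ _ _ _ _ rfl rfl)
  · exact ENNReal.mul_lt_top hfin (ENNReal.mul_lt_top ENNReal.ofReal_lt_top
      (ENNReal.mul_lt_top ENNReal.ofReal_lt_top ENNReal.ofReal_lt_top))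

/-- **Matching at infinity**, integral over `Fin 3 → H3` with a weight in the first variable. -/
theorem integral_cyclic {κ : (Fin 3 → ℝ) → ℂ} (hκ : Measurable κ) {M T : ℝ}
    (hM : ∀ t, ‖κ t‖ ≤ M) (hT : SuppLe T κ) (χ : H3 → ℂ) (hχ : Integrable χ)
    (g : Fin 3 → GL (Fin 2) ℂ) :
    ∫ x : Fin 3 → H3, χ (x 0) * κ (fun j => ch (x j) (g j • x (j + 1))) =
      ∫ a : H3, χ a * bk κ a ((g 0 * g 1 * g 2) • a) := by
  rw [integral_pi3 _ (integrable_cyclic hκ hM hT χ hχ g)]
  refine integral_congr_ae (Filter.Eventually.of_forall fun a => ?_)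
  simp only
  rw [← bk_cyclic, ← integral_const_mul]
  refine integral_congr_ae (Filter.Eventually.of_forall fun b => ?_)
  simp only
  rw [← integral_const_mul]
  refine integral_congr_ae (Filter.Eventually.of_forall fun c => ?_)
  simp only [cons_val_zero]
  congr 2
  funext j
  fin_cases j <;> rfl

end Fermat.Agent.H67M
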