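import Fermat.Agent.H67M2

/-!
# Matching at infinity (helper67), part 3: integrals over chains `x - m₀ - m₁ - … - mₙ₋₁`
-/

set_option autoImplicit false
set_option linter.unusedSectionVars false

noncomputable section

open MeasureTheory Set Matrix

namespace Fermat.Agent.H67M

open Fermat.Agent Fermat.Agent.H3

variable {E : Type*} [NormedAddCommGroup E] [NormedSpace ℝ E]

/-! ### permutations and slices of `Fin n → H3` -/

theorem mp_perm {n : ℕ} (σ : Fin n ≃ Fin n) :
    MeasurePreserving (fun m : Fin n → H3 => fun i => m (σ i)) volume volume :=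
  volume_preserving_arrowCongr' σ.symm (MeasurableEquiv.refl H3) (MeasurePreserving.id _)

theorem me_perm {n : ℕ} (σ : Fin n ≃ Fin n) :
    MeasurableEmbedding (fun m : Fin n → H3 => fun i => m (σ i)) :=
  (MeasurableEquiv.arrowCongr' σ.symm (MeasurableEquiv.refl H3)).measurableEmbedding

theorem integral_perm {n : ℕ} (σ : Fin n ≃ Fin n) (F : (Fin n → H3) → E) :
    ∫ m : Fin n → H3, F (fun i => m (σ i)) = ∫ m, F m :=
  (mp_perm σ).integral_comp (me_perm σ) F

theorem integrable_perm {n : ℕ} (σ : Fin n ≃ Fin n) {F : (Fin n → H3) → E} (hF : Integrable F) :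
    Integrable (fun m : Fin n → H3 => F (fun i => m (σ i))) :=
  ((mp_perm σ).integrable_comp_emb (me_perm σ)).mpr hF

theorem mp_slice {n : ℕ} (i : Fin (n + 1)) :
    MeasurePreserving (fun p : H3 × (Fin n → H3) => (i.insertNth p.1 p.2 : Fin (n + 1) → H3))
      volume volume :=
  MeasurePreserving.symm _ (volume_preserving_piFinSuccAbove (fun _ : Fin (n + 1) => H3) i)

theorem me_slice {n : ℕ} (i : Fin (n + 1)) :
    MeasurableEmbedding (fun p : H3 × (Fin n → H3) => (i.insertNth p.1 p.2 : Fin (n + 1) → H3)) :=
  (MeasurableEquiv.piFinSuccAbove (fun _ : Fin (n + 1) => H3) i).symm.measurableEmbedding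

theorem integrable_slice {n : ℕ} (i : Fin (n + 1)) {F : (Fin (n + 1) → H3) → E}
    (hF : Integrable F) : Integrable (fun p : H3 × (Fin n → H3) => F (i.insertNth p.1 p.2)) :=
  ((mp_slice i).integrable_comp_emb (me_slice i)).mpr hF

theorem integral_slice {n : ℕ} (i : Fin (n + 1)) {F : (Fin (n + 1) → H3) → E}
    (hF : Integrable F) : ∫ m, F m = ∫ m' : Fin n → H3, ∫ t : H3, F (i.insertNth t m') := by
  rw [← (mp_slice i).integral_comp (me_slice i) F]
  have h := integrable_slice i hF
  rw [Measure.volume_eq_prod] at h ⊢
  exact integral_prod_symm _ h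

theorem integral_first {n : ℕ} {F : (Fin (n + 1) → H3) → E}
    (hF : Integrable F) : ∫ m, F m = ∫ t : H3, ∫ m' : Fin n → H3, F (Fin.cons t m') := by
  rw [← (mp_slice 0).integral_comp (me_slice 0) F]
  have h := integrable_slice 0 hF
  rw [Measure.volume_eq_prod] at h ⊢
  rw [integral_prod _ h]
  simp only [Fin.insertNth_zero']

theorem integrable_first {n : ℕ} {F : (Fin (n + 1) → H3) → E}
    (hF : Integrable F) : ∀ᵐ t : H3, Integrable (fun m' : Fin n → H3 => F (Fin.cons t m')) := by
  have h := integrable_slice 0 hF
  rw [Measure.volume_eq_prod] at h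
  simpa only [Fin.insertNth_zero'] using h.prod_right_ae

theorem integral_fin0 [CompleteSpace E] (F : (Fin 0 → H3) → E) : ∫ m : Fin 0 → H3, F m = F ![] := by
  have h : (volume : Measure (Fin 0 → H3)) = Measure.dirac ![] := by
    rw [volume_pi]
    exact Measure.pi_of_empty _ _
  rw [h, integral_dirac]

/-- integral over `Fin 5 → H3` as an iterated integral -/
theorem integral_pi5 [CompleteSpace E] {F : (Fin 5 → H3) → E} (hF : Integrable F) :
    ∫ m, F m = ∫ a : H3, ∫ b : H3, ∫ c : H3, ∫ d : H3, ∫ e : H3, F ![a, b, c, d, e] := by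
  rw [integral_first hF]
  refine integral_congr_ae ?_
  filter_upwards [integrable_first hF] with a ha
  rw [integral_first ha]
  refine integral_congr_ae ?_
  filter_upwards [integrable_first ha] with b hb
  rw [integral_first hb]
  refine integral_congr_ae ?_
  filter_upwards [integrable_first hb] with c hc
  rw [integral_first hc]
  refine integral_congr_ae ?_
  filter_upwards [integrable_first hc] with d hd
  rw [integral_first hd]
  refine integral_congr_ae ?_
  filter_upwards with e
  rw [integral_fin0]
  rfl

/-- replacing the integrand along one coordinate -/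
theorem integral_congr_slice {n : ℕ} (i : Fin (n + 1)) {F F' : (Fin (n + 1) → H3) → E}
    (hF : Integrable F) (hF' : Integrable F')
    (h : ∀ m' : Fin n → H3, ∫ t : H3, F (i.insertNth t m') = ∫ t : H3, F' (i.insertNth t m')) :
    ∫ m, F m = ∫ m, F' m := by
  rw [integral_slice i hF, integral_slice i hF']
  exact integral_congr_ae (Filter.Eventually.of_forall fun m' => h m')

/-! ### the swap lemma -/

/-- **Swap lemma**: the two edges at `m` can be exchanged. -/
theorem integral_swap (Φ : ℝ → ℝ → E) (a b : H3) :
    ∫ m : H3, Φ (ch a m) (ch m b) = ∫ m : H3, Φ (ch m b) (ch a m) := by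
  obtain ⟨g, h1, h2⟩ := exists_smul_eq₂ (ch_comm a b)
  have e := integral_smul_eq g (fun m => Φ (ch m b) (ch a m))
  rw [← e]
  refine integral_congr_ae (Filter.Eventually.of_forall fun m => ?_)
  simp only
  have e1 : ch (g • m) b = ch a m := by
    rw [← h1, ch_smul, ch_comm]
  have e2 : ch a (g • m) = ch m b := by
    rw [← h2, ch_smul, ch_comm]
  rw [e1, e2]

/-! ### chains -/

/-- all edges of the chain `x - m 0 - m 1 - …` have length `≤ T` -/
def chainSet (T : ℝ) : (n : ℕ) → H3 → Set (Fin n → H3)
  | 0, _ => univ
  | n + 1, x => {m | ch x (m 0) ≤ T ∧ Fin.tail m ∈ chainSet T n (m 0)}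

theorem measurableSet_chainSet (T : ℝ) : ∀ n : ℕ,
    MeasurableSet {p : H3 × (Fin n → H3) | p.2 ∈ chainSet T n p.1}
  | 0 => by simp [chainSet]
  | n + 1 => by
    have ih := measurableSet_chainSet T n
    have h1 : Measurable fun p : H3 × (Fin (n + 1) → H3) => ch p.1 (p.2 0) :=
      measurable_ch_comp measurable_fst ((measurable_pi_apply 0).comp measurable_snd)
    have h2 : Measurable fun p : H3 × (Fin (n + 1) → H3) => (p.2 0, Fin.tail p.2) := by
      refine ((measurable_pi_apply 0).comp measurable_snd).prodMk
        (measurable_pi_lambda _ fun j => ?_)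
      exact (measurable_pi_apply j.succ).comp measurable_snd
    exact (measurableSet_le h1 measurable_const).inter (h2 ih)

theorem volume_chainSet_le (T : ℝ) : ∀ (n : ℕ) (x : H3),
    volume (chainSet T n x) ≤ ENNReal.ofReal (Vol T) ^ n
  | 0, x => by
    have h : (volume : Measure (Fin 0 → H3)) = Measure.dirac ![] := by
      rw [volume_pi]
      exact Measure.pi_of_empty _ _
    rw [h]
    simp [chainSet]
  | n + 1, x => by
    have hm : MeasurableSet (chainSet T (n + 1) x) := by
      have h1 := measurableSet_chainSet T (n + 1)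
      have h2 : Measurable fun m : Fin (n + 1) → H3 => (x, m) := measurable_const.prodMk measurable_id
      exact h2 h1
    rw [← (mp_slice 0).measure_preimage hm.nullMeasurableSet, Measure.volume_eq_prod,
      Measure.prod_apply ((mp_slice 0).measurable hm)]
    calc ∫⁻ t : H3, volume (Prod.mk t ⁻¹' ((fun p : H3 × (Fin n → H3) =>
          (Fin.insertNth 0 p.1 p.2 : Fin (n + 1) → H3)) ⁻¹' chainSet T (n + 1) x))
        ≤ ∫⁻ t : H3, ENNReal.ofReal (Vol T) ^ n * Bt T x t := by
          refine lintegral_mono fun t => ?_
          by_cases ht : ch x t ≤ T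
          · rw [Bt_of_le ht, mul_one]
            refine (measure_mono ?_).trans (volume_chainSet_le T n t)
            intro m hm
            exact hm.2
          · have : (Prod.mk t ⁻¹' ((fun p : H3 × (Fin n → H3) =>
                (Fin.insertNth 0 p.1 p.2 : Fin (n + 1) → H3)) ⁻¹' chainSet T (n + 1) x)) = ∅ := by
              ext m
              simp only [mem_preimage, mem_empty_iff_false, iff_false]
              exact fun hm => ht hm.1
            simp only [this, measure_empty, zero_le]
      _ ≤ ENNReal.ofReal (Vol T) ^ n * ENNReal.ofReal (Vol T) := by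
          rw [lintegral_const_mul]
          · gcongr
            have := lintegral_Bt_le T x 1
            simpa only [one_smul] using this
          · exact measurable_Bt_comp T measurable_const measurable_id
      _ = ENNReal.ofReal (Vol T) ^ (n + 1) := (pow_succ _ _).symm

theorem integrable_chain {T C : ℝ} {n : ℕ} {x : H3} {F : (Fin n → H3) → E}
    (hm : AEStronglyMeasurable F) (hC : ∀ m, ‖F m‖ ≤ C)
    (hF : ∀ m, F m ≠ 0 → m ∈ chainSet T n x) : Integrable F := by
  have hs : MeasurableSet (chainSet T n x) := by
    have h1 := measurableSet_chainSet T n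
    have h2 : Measurable fun m : Fin n → H3 => (x, m) := measurable_const.prodMk measurable_id
    exact h2 h1
  have hfin : volume (chainSet T n x) < ⊤ :=
    (volume_chainSet_le T n x).trans_lt (ENNReal.pow_lt_top ENNReal.ofReal_lt_top)
  have h1 : F = (chainSet T n x).indicator F := by
    funext m
    by_cases h : m ∈ chainSet T n x
    · rw [indicator_of_mem h]
    · rw [indicator_of_notMem h]
      by_contra h0
      exact h (hF m h0)
  rw [h1, integrable_indicator_iff hs]
  exact ⟨hm.restrict, HasFiniteIntegral.restrict_of_bounded (C := C) hfin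
    (Filter.Eventually.of_forall hC)⟩

end Fermat.Agent.H67M
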