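import Fermat.Agent.H67M3

/-!
# Matching at infinity (helper67), part 4: `b(κ₁ * κ₂) = b(κ₁) * b(κ₂)`
-/

set_option autoImplicit false
set_option linter.unusedSectionVars false

noncomputable section

open MeasureTheory Set Matrix

namespace Fermat.Agent.H67M

open Fermat.Agent Fermat.Agent.H3

/-- the six edges of the chain `x - m 0 - … - m 4 - y` -/
def ed (x y : H3) (m : Fin 5 → H3) : Fin 6 → ℝ :=
  ![ch x (m 0), ch (m 0) (m 1), ch (m 1) (m 2), ch (m 2) (m 3), ch (m 3) (m 4), ch (m 4) y]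

theorem measurable_ed (x y : H3) : Measurable (ed x y) := by
  have hp : ∀ i : Fin 5, Measurable fun m : Fin 5 → H3 => m i := fun i => measurable_pi_apply i
  refine measurable_pi_lambda _ fun j => ?_
  fin_cases j
  · exact measurable_ch_comp measurable_const (hp 0)
  · exact measurable_ch_comp (hp 0) (hp 1)
  · exact measurable_ch_comp (hp 1) (hp 2)
  · exact measurable_ch_comp (hp 2) (hp 3)
  · exact measurable_ch_comp (hp 3) (hp 4)
  · exact measurable_ch_comp (hp 4) measurable_const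

/-- admissible functions: measurable, bounded, bounded support on the positive side -/
structure Adm {J : Type*} (W : (J → ℝ) → ℂ) (C T : ℝ) : Prop where
  meas : Measurable W
  bdd : ∀ t, ‖W t‖ ≤ C
  supp : SuppLe T W

theorem Adm.comp_perm {J : Type*} {W : (J → ℝ) → ℂ} {C T : ℝ} (h : Adm W C T)
    (σ : J ≃ J) : Adm (fun t => W fun j => t (σ j)) C T where
  meas := h.meas.comp (measurable_pi_lambda _ fun j => measurable_pi_apply (σ j))
  bdd t := h.bdd _
  supp t ht := by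
    obtain ⟨j, hj⟩ := ht
    exact h.supp _ ⟨σ.symm j, by simpa using hj⟩

theorem Adm.integrable_ed {W : (Fin 6 → ℝ) → ℂ} {C T : ℝ} (h : Adm W C T) (x y : H3) :
    Integrable fun m : Fin 5 → H3 => W (ed x y m) := by
  refine integrable_chain (T := T) (C := C) (x := x)
    (h.meas.comp (measurable_ed x y)).aestronglyMeasurable (fun m => h.bdd _) fun m hm => ?_
  have key : ∀ i : Fin 6, ed x y m i ≤ T := by
    intro i
    by_contra hi
    exact hm (h.supp _ ⟨i, not_le.mp hi⟩)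
  exact ⟨key 0, key 1, key 2, key 3, key 4, mem_univ _⟩

/-- transposition of two coordinates -/
def tr2 (i j : Fin 6) : Fin 6 ≃ Fin 6 := Equiv.swap i j

theorem chain_swap_one {W : (Fin 6 → ℝ) → ℂ} {C T : ℝ} (h : Adm W C T) (x y : H3) :
    ∫ m : Fin 5 → H3, W (ed x y m) = ∫ m : Fin 5 → H3, W (fun j => ed x y m (Equiv.swap 1 2 j)) := by
  refine integral_congr_slice 1 (h.integrable_ed x y)
    ((h.comp_perm (Equiv.swap 1 2)).integrable_ed x y) fun m' => ?_
  have h1 : ∀ t : H3, ed x y ((1 : Fin 5).insertNth t m') =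
      ![ch x (m' 0), ch (m' 0) t, ch t (m' 1), ch (m' 1) (m' 2), ch (m' 2) (m' 3), ch (m' 3) y] :=
    fun t => rfl
  have h2 : ∀ t : H3, (fun j => ed x y ((1 : Fin 5).insertNth t m') (Equiv.swap 1 2 j)) =
      ![ch x (m' 0), ch t (m' 1), ch (m' 0) t, ch (m' 1) (m' 2), ch (m' 2) (m' 3), ch (m' 3) y] := by
    intro t
    rw [h1]
    funext j
    fin_cases j <;> rfl
  have e := integral_swap (fun a b => W ![ch x (m' 0), a, b, ch (m' 1) (m' 2), ch (m' 2) (m' 3),
    ch (m' 3) y]) (m' 0) (m' 1)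
  exact (integral_congr_ae (Filter.Eventually.of_forall fun t => congrArg W (h1 t))).trans
    (e.trans (integral_congr_ae (Filter.Eventually.of_forall fun t => (congrArg W (h2 t)).symm)))

theorem chain_swap_two {W : (Fin 6 → ℝ) → ℂ} {C T : ℝ} (h : Adm W C T) (x y : H3) :
    ∫ m : Fin 5 → H3, W (ed x y m) = ∫ m : Fin 5 → H3, W (fun j => ed x y m (Equiv.swap 2 3 j)) := by
  refine integral_congr_slice 2 (h.integrable_ed x y)
    ((h.comp_perm (Equiv.swap 2 3)).integrable_ed x y) fun m' => ?_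
  have h1 : ∀ t : H3, ed x y ((2 : Fin 5).insertNth t m') =
      ![ch x (m' 0), ch (m' 0) (m' 1), ch (m' 1) t, ch t (m' 2), ch (m' 2) (m' 3), ch (m' 3) y] :=
    fun t => rfl
  have h2 : ∀ t : H3, (fun j => ed x y ((2 : Fin 5).insertNth t m') (Equiv.swap 2 3 j)) =
      ![ch x (m' 0), ch (m' 0) (m' 1), ch t (m' 2), ch (m' 1) t, ch (m' 2) (m' 3), ch (m' 3) y] := by
    intro t
    rw [h1]
    funext j
    fin_cases j <;> rfl
  have e := integral_swap (fun a b => W ![ch x (m' 0), ch (m' 0) (m' 1), a, b, ch (m' 2) (m' 3),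
    ch (m' 3) y]) (m' 1) (m' 2)
  exact (integral_congr_ae (Filter.Eventually.of_forall fun t => congrArg W (h1 t))).trans
    (e.trans (integral_congr_ae (Filter.Eventually.of_forall fun t => (congrArg W (h2 t)).symm)))

theorem chain_swap_three {W : (Fin 6 → ℝ) → ℂ} {C T : ℝ} (h : Adm W C T) (x y : H3) :
    ∫ m : Fin 5 → H3, W (ed x y m) = ∫ m : Fin 5 → H3, W (fun j => ed x y m (Equiv.swap 3 4 j)) := by
  refine integral_congr_slice 3 (h.integrable_ed x y)
    ((h.comp_perm (Equiv.swap 3 4)).integrable_ed x y) fun m' => ?_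
  have h1 : ∀ t : H3, ed x y ((3 : Fin 5).insertNth t m') =
      ![ch x (m' 0), ch (m' 0) (m' 1), ch (m' 1) (m' 2), ch (m' 2) t, ch t (m' 3), ch (m' 3) y] :=
    fun t => rfl
  have h2 : ∀ t : H3, (fun j => ed x y ((3 : Fin 5).insertNth t m') (Equiv.swap 3 4 j)) =
      ![ch x (m' 0), ch (m' 0) (m' 1), ch (m' 1) (m' 2), ch t (m' 3), ch (m' 2) t, ch (m' 3) y] := by
    intro t
    rw [h1]
    funext j
    fin_cases j <;> rfl
  have e := integral_swap (fun a b => W ![ch x (m' 0), ch (m' 0) (m' 1), ch (m' 1) (m' 2), a, b,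
    ch (m' 3) y]) (m' 2) (m' 3)
  exact (integral_congr_ae (Filter.Eventually.of_forall fun t => congrArg W (h1 t))).trans
    (e.trans (integral_congr_ae (Filter.Eventually.of_forall fun t => (congrArg W (h2 t)).symm)))

/-- the product of two functions of three variables, in the order `a b c d e f` -/
theorem Adm.mul6 {κ₁ κ₂ : (Fin 3 → ℝ) → ℂ} {C₁ C₂ T₁ T₂ : ℝ} (h₁ : Adm κ₁ C₁ T₁)
    (h₂ : Adm κ₂ C₂ T₂) :
    Adm (fun t : Fin 6 → ℝ => κ₁ ![t 0, t 1, t 2] * κ₂ ![t 3, t 4, t 5]) (C₁ * C₂)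
      (max T₁ T₂) where
  meas := by
    have hp : ∀ i : Fin 6, Measurable fun t : Fin 6 → ℝ => t i := fun i => measurable_pi_apply i
    refine (h₁.meas.comp (measurable_pi_lambda _ fun j => ?_)).mul
      (h₂.meas.comp (measurable_pi_lambda _ fun j => ?_))
    · fin_cases j
      · exact hp 0
      · exact hp 1
      · exact hp 2
    · fin_cases j
      · exact hp 3
      · exact hp 4
      · exact hp 5
  bdd t := by
    rw [norm_mul]
    exact mul_le_mul (h₁.bdd _) (h₂.bdd _) (norm_nonneg _) ((norm_nonneg _).trans (h₁.bdd 0))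
  supp t ht := by
    obtain ⟨j, hj⟩ := ht
    have hj1 : T₁ < t j := (le_max_left _ _).trans_lt hj
    have hj2 : T₂ < t j := (le_max_right _ _).trans_lt hj
    show κ₁ ![t 0, t 1, t 2] * κ₂ ![t 3, t 4, t 5] = 0
    fin_cases j
    · rw [h₁.supp ![t 0, t 1, t 2] ⟨0, hj1⟩, zero_mul]
    · rw [h₁.supp ![t 0, t 1, t 2] ⟨1, hj1⟩, zero_mul]
    · rw [h₁.supp ![t 0, t 1, t 2] ⟨2, hj1⟩, zero_mul]
    · rw [h₂.supp ![t 3, t 4, t 5] ⟨0, hj2⟩, mul_zero]
    · rw [h₂.supp ![t 3, t 4, t 5] ⟨1, hj2⟩, mul_zero]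
    · rw [h₂.supp ![t 3, t 4, t 5] ⟨2, hj2⟩, mul_zero]

/-- sorting the edges `κ₁ κ₂ κ₁ κ₂ κ₁ κ₂` into `κ₁ κ₁ κ₁ κ₂ κ₂ κ₂` -/
theorem chain_sort {κ₁ κ₂ : (Fin 3 → ℝ) → ℂ} {C₁ C₂ T₁ T₂ : ℝ} (h₁ : Adm κ₁ C₁ T₁)
    (h₂ : Adm κ₂ C₂ T₂) (x y : H3) :
    ∫ m : Fin 5 → H3, κ₁ ![ch x (m 0), ch (m 1) (m 2), ch (m 3) (m 4)] *
        κ₂ ![ch (m 0) (m 1), ch (m 2) (m 3), ch (m 4) y] =
      ∫ m : Fin 5 → H3, κ₁ ![ch x (m 0), ch (m 0) (m 1), ch (m 1) (m 2)] *
        κ₂ ![ch (m 2) (m 3), ch (m 3) (m 4), ch (m 4) y] := by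
  have hW := h₁.mul6 h₂
  -- `κ₁ κ₁ κ₁ κ₂ κ₂ κ₂` → exchange 2, 3 → exchange 3, 4 → exchange 1, 2
  have e1 := chain_swap_two hW x y
  have hW1 := hW.comp_perm (Equiv.swap 2 3)
  have e2 := chain_swap_three hW1 x y
  have hW2 := hW1.comp_perm (Equiv.swap 3 4)
  have e3 := chain_swap_one hW2 x y
  refine Eq.symm ?_
  refine Eq.trans ?_ (e1.trans (e2.trans (e3.trans ?_)))
  · rfl
  · rfl

/-- the reordering `(u, w, a, b, c) ↦ (a, u, b, w, c)` -/
def sigA : Fin 5 ≃ Fin 5 where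
  toFun := ![2, 0, 3, 1, 4]
  invFun := ![1, 3, 0, 2, 4]
  left_inv := by decide
  right_inv := by decide

/-- the reordering `(v, p, q, r, s) ↦ (p, q, v, r, s)` -/
def sigB : Fin 5 ≃ Fin 5 where
  toFun := ![1, 2, 0, 3, 4]
  invFun := ![2, 0, 1, 3, 4]
  left_inv := by decide
  right_inv := by decide

theorem integrable_pair {κ₁ κ₂ : (Fin 3 → ℝ) → ℂ} {C₁ C₂ T₁ T₂ : ℝ} (h₁ : Adm κ₁ C₁ T₁)
    (h₂ : Adm κ₂ C₂ T₂) (X Y : Fin 3 → H3) :
    Integrable fun v : Fin 3 → H3 => κ₁ (fun j => ch (X j) (v j)) *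
      κ₂ (fun j => ch (v j) (Y j)) := by
  obtain ⟨V, -, hV⟩ := H5Z.exists_volume_Bl_le (Fin 3) T₁
  have hfin : volume (H5Z.Bl T₁ X) < ⊤ := (hV X).trans_lt ENNReal.ofReal_lt_top
  have hm : Measurable fun v : Fin 3 → H3 => κ₁ (fun j => ch (X j) (v j)) *
      κ₂ (fun j => ch (v j) (Y j)) := by
    refine (h₁.meas.comp (measurable_pi_lambda _ fun j => ?_)).mul
      (h₂.meas.comp (measurable_pi_lambda _ fun j => ?_))
    · exact measurable_ch_comp measurable_const (measurable_pi_apply j)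
    · exact measurable_ch_comp (measurable_pi_apply j) measurable_const
  have h1 : (fun v : Fin 3 → H3 => κ₁ (fun j => ch (X j) (v j)) * κ₂ (fun j => ch (v j) (Y j))) =
      (H5Z.Bl T₁ X).indicator (fun v : Fin 3 → H3 => κ₁ (fun j => ch (X j) (v j)) *
        κ₂ (fun j => ch (v j) (Y j))) := by
    funext v
    by_cases hv : v ∈ H5Z.Bl T₁ X
    · rw [indicator_of_mem hv]
    · rw [indicator_of_notMem hv]
      simp only [H5Z.Bl, mem_ofPred_eq, not_forall, not_le] at hv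
      rw [h₁.supp (fun j => ch (X j) (v j)) hv, zero_mul]
  rw [h1, integrable_indicator_iff (H5Z.measurableSet_Bl T₁ X)]
  refine ⟨hm.aestronglyMeasurable.restrict,
    HasFiniteIntegral.restrict_of_bounded (C := C₁ * C₂) hfin
    (Filter.Eventually.of_forall fun v => ?_)⟩
  rw [norm_mul]
  exact mul_le_mul (h₁.bdd _) (h₂.bdd _) (norm_nonneg _) ((norm_nonneg _).trans (h₁.bdd 0))

/-- **`b(κ₁ * κ₂) = b(κ₁) * b(κ₂)`**: the composed kernel of a convolution on `(H3)³` is the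
convolution of the composed kernels. -/
theorem bk_conv {κ₁ κ₂ κ₃ : (Fin 3 → ℝ) → ℂ} {C₁ C₂ T₁ T₂ : ℝ} (h₁ : Adm κ₁ C₁ T₁)
    (h₂ : Adm κ₂ C₂ T₂)
    (hconv : ∀ X Y : Fin 3 → H3, ∫ v : Fin 3 → H3, κ₁ (fun j => ch (X j) (v j)) *
      κ₂ (fun j => ch (v j) (Y j)) = κ₃ (fun j => ch (X j) (Y j))) (x y : H3) :
    ∫ v : H3, bk κ₁ x v * bk κ₂ v y = bk κ₃ x y := by
  -- right side
  have hR : bk κ₃ x y = ∫ m : Fin 5 → H3, κ₁ ![ch x (m 0), ch (m 1) (m 2), ch (m 3) (m 4)] *
        κ₂ ![ch (m 0) (m 1), ch (m 2) (m 3), ch (m 4) y] := by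
    have hI : Integrable fun m : Fin 5 → H3 =>
        κ₁ ![ch x (m 0), ch (m 1) (m 2), ch (m 3) (m 4)] *
        κ₂ ![ch (m 0) (m 1), ch (m 2) (m 3), ch (m 4) y] := by
      have hW := ((((h₁.mul6 h₂).comp_perm (Equiv.swap 2 3)).comp_perm
        (Equiv.swap 3 4)).comp_perm (Equiv.swap 1 2)).integrable_ed x y
      exact hW
    rw [← integral_perm sigA, integral_pi5 (integrable_perm sigA hI)]
    unfold bk
    refine integral_congr_ae (Filter.Eventually.of_forall fun u => ?_)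
    simp only
    refine integral_congr_ae (Filter.Eventually.of_forall fun w => ?_)
    simp only
    have e1 := hconv ![x, u, w] ![u, w, y]
    have e2 : (fun j => ch (![x, u, w] j) (![u, w, y] j)) = ![ch x u, ch u w, ch w y] := by
      funext j
      fin_cases j <;> rfl
    rw [e2] at e1
    rw [← e1, integral_pi3 _ (integrable_pair h₁ h₂ _ _)]
    refine integral_congr_ae (Filter.Eventually.of_forall fun a => ?_)
    simp only
    refine integral_congr_ae (Filter.Eventually.of_forall fun b => ?_)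
    simp only
    refine integral_congr_ae (Filter.Eventually.of_forall fun c => ?_)
    simp only
    have e3 : (fun j => ch (![x, u, w] j) (![a, b, c] j)) = ![ch x a, ch u b, ch w c] := by
      funext j
      fin_cases j <;> rfl
    have e4 : (fun j => ch (![a, b, c] j) (![u, w, y] j)) = ![ch a u, ch b w, ch c y] := by
      funext j
      fin_cases j <;> rfl
    rw [e3, e4]
    rfl
  rw [hR, chain_sort h₁ h₂ x y]
  have hI : Integrable fun m : Fin 5 → H3 =>
      κ₁ ![ch x (m 0), ch (m 0) (m 1), ch (m 1) (m 2)] *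
      κ₂ ![ch (m 2) (m 3), ch (m 3) (m 4), ch (m 4) y] := (h₁.mul6 h₂).integrable_ed x y
  rw [← integral_perm sigB, integral_pi5 (integrable_perm sigB hI)]
  refine integral_congr_ae (Filter.Eventually.of_forall fun v => ?_)
  simp only
  unfold bk
  rw [← integral_mul_const]
  refine integral_congr_ae (Filter.Eventually.of_forall fun p => ?_)
  simp only
  rw [← integral_mul_const]
  refine integral_congr_ae (Filter.Eventually.of_forall fun q => ?_)
  simp only
  rw [← integral_const_mul]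
  refine integral_congr_ae (Filter.Eventually.of_forall fun r => ?_)
  simp only
  rw [← integral_const_mul]
  rfl

end Fermat.Agent.H67M
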