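import Fermat.Agent.H67M5
import Fermat.Agent.H57CGeom
import Fermat.Agent.H59Aut

/-!
# Matching at infinity (helper67), part 7: the instance of `InfMatch` for the geometric side

`mE : Model E (Fin 3)` with `aE.c j = j - 1` (that is `e (j + 1) = e j ∘ s`), `mF : Model F (Fin 1)` with
`mF.e 0 = (mE.e 0).comp (algebraMap F E)`, `p x = fun _ => x 0`, `κE = κ`, `κF = bF κ`.
-/

set_option autoImplicit false
set_option linter.unusedSectionVars false

noncomputable section

open MeasureTheory Set Matrix NumberField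
open scoped MatrixGroups ENNReal

namespace Fermat.Agent.H67M

open Fermat.Agent Fermat.Agent.H3 Fermat.Agent.H5Z Fermat.Agent.H56Z Fermat.Agent.H59D
open Fermat.Agent.H20.S47 (incP sP nP)

/-! ### the integral statement for elements of `PGL₂(ℂ)` -/

/-- the cyclic kernel, with `PGL₂(ℂ)` -/
def cyc (κ : (Fin 3 → ℝ) → ℂ) (G : Fin 3 → PGL(2, ℂ)) (x : Fin 3 → H3) : ℂ :=
  κ fun j => ch (x j) (G j • x (j + 1))

theorem measurable_cyc {κ : (Fin 3 → ℝ) → ℂ} (hκ : Measurable κ) (G : Fin 3 → PGL(2, ℂ)) :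
    Measurable (cyc κ G) := by
  refine hκ.comp (measurable_pi_lambda _ fun j => ?_)
  exact measurable_ch_comp (measurable_pi_apply j)
    ((continuous_const_smul (G j)).measurable.comp (measurable_pi_apply (j + 1)))

theorem cyc_integral (κ : (Fin 3 → ℝ) → ℂ) (G : Fin 3 → PGL(2, ℂ)) (a : H3) :
    ∫ b : H3, ∫ c : H3, cyc κ G ![a, b, c] = bk κ a ((G 0 * G 1 * G 2) • a) := by
  obtain ⟨g0, h0⟩ := ProjGenLinGroup.mk_surjective (G 0)
  obtain ⟨g1, h1⟩ := ProjGenLinGroup.mk_surjective (G 1)
  obtain ⟨g2, h2⟩ := ProjGenLinGroup.mk_surjective (G 2)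
  have hR : (G 0 * G 1 * G 2) • a = (g0 * g1 * g2) • a := by
    rw [← h0, ← h1, ← h2]
    rfl
  rw [hR, ← bk_cyclic]
  refine integral_congr_ae (Filter.Eventually.of_forall fun b => ?_)
  refine integral_congr_ae (Filter.Eventually.of_forall fun c => ?_)
  show κ _ = κ _
  congr 1
  funext j
  fin_cases j
  · show ch a (G 0 • b) = ch a (g0 • b)
    rw [← h0]; rfl
  · show ch b (G 1 • c) = ch b (g1 • c)
    rw [← h1]; rfl
  · show ch c (G 2 • a) = ch c (g2 • a)
    rw [← h2]; rfl

theorem lintegral_fin1 (f : (Fin 1 → H3) → ℝ≥0∞) :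
    ∫⁻ v : Fin 1 → H3, f v = ∫⁻ v : H3, f fun _ => v :=
  (((volume_preserving_funUnique (Fin 1) H3).symm _).lintegral_comp_emb
    (MeasurableEquiv.funUnique (Fin 1) H3).symm.measurableEmbedding f).symm

/-- **`InfMatch` for the cyclic kernel.** -/
theorem infMatch_cyc {κ : (Fin 3 → ℝ) → ℂ} (hκ : IsRC κ) (G : Fin 3 → PGL(2, ℂ)) (γ : PGL(2, ℂ))
    (hγ : γ = G 0 * G 1 * G 2) :
    H57C.InfMatch (volume : Measure (Fin 3 → H3)) (volume : Measure (Fin 1 → H3))
      (fun x => fun _ => x 0) (cyc κ G) (fun y => bF κ fun j => ch (y j) (γ • y j)) := by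
  have hF : ∀ y : Fin 1 → H3, bF κ (fun j => ch (y j) (γ • y j)) =
      ∫ b : H3, ∫ c : H3, cyc κ G ![y 0, b, c] := by
    intro y
    rw [cyc_integral, hγ]
    exact (bk_eq_bkr κ _ _).symm
  have hcyc := measurable_cyc hκ.cont.measurable G
  have hp : Measurable fun x : Fin 3 → H3 => (fun _ => x 0 : Fin 1 → H3) :=
    measurable_pi_lambda _ fun _ => measurable_pi_apply 0
  refine ⟨hp, ?_, ?_, ?_⟩
  · intro h _ _ _ hint
    rw [integral_pi3 _ hint, integral_fin1]
    refine integral_congr_ae (Filter.Eventually.of_forall fun a => ?_)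
    simp only
    rw [hF, ← integral_const_mul]
    refine integral_congr_ae (Filter.Eventually.of_forall fun b => ?_)
    simp only
    rw [← integral_const_mul]
    rfl
  · intro h hm _ _
    have hm3 : Measurable fun x : Fin 3 → H3 => ‖(h (fun _ => x 0) : ℂ) * cyc κ G x‖ₑ :=
      (((Complex.measurable_ofReal.comp (hm.comp hp))).mul hcyc).enorm
    rw [lintegral_pi3 _ hm3, lintegral_fin1]
    refine lintegral_mono fun a => ?_
    simp only
    rw [hF, ← integral_const_mul]
    refine (enorm_integral_le_lintegral_enorm _).trans ?_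
    refine lintegral_mono fun b => ?_
    simp only
    rw [← integral_const_mul]
    exact enorm_integral_le_lintegral_enorm _
  · refine (isRC_bF hκ).cont.measurable.comp (measurable_pi_lambda _ fun j => ?_)
    exact measurable_ch_comp (measurable_pi_apply j)
      ((continuous_const_smul γ).measurable.comp (measurable_pi_apply j))

/-! ### the instance on the models -/

variable {F E : Type*} [Field F] [NumberField F] [Field E] [NumberField E] [Algebra F E]

/-- the projection `(Fin 3 → H3) → (Fin 1 → H3)` -/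
def p0 (x : Fin 3 → H3) : Fin 1 → H3 := fun _ => x 0

/-- hypothesis `hp` of `H57C.geom` -/
theorem p0_actInf (mE : Model E (Fin 3)) (mF : Model F (Fin 1))
    (he0 : mF.e 0 = (mE.e 0).comp (algebraMap F E)) (τ : PGL(2, F)) (x : Fin 3 → H3) :
    p0 (mE.actInf (incP E τ) x) = mF.actInf τ (p0 x) := by
  funext j
  obtain rfl := Subsingleton.elim j 0
  show ProjGenLinGroup.map (mE.e 0) (ProjGenLinGroup.map (algebraMap F E) τ) • x 0 =
    ProjGenLinGroup.map (mF.e 0) τ • x 0
  rw [he0, ProjGenLinGroup.map_comp]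
  rfl

/-- the image of the norm at the infinite place `0` -/
theorem map_nP (s : E ≃ₐ[F] E) (e : Fin 3 → E →+* ℂ) (hes : ∀ j x, e (j + 1) x = e j (s x))
    (d : PGL(2, E)) :
    ProjGenLinGroup.map (e 0) (nP s d) = ProjGenLinGroup.map (e 0) d *
      ProjGenLinGroup.map (e 1) d * ProjGenLinGroup.map (e 2) d := by
  have h1 : ∀ j (g : PGL(2, E)), ProjGenLinGroup.map (e j) (sP s g) =
      ProjGenLinGroup.map (e (j + 1)) g := by
    intro j g
    have h2 : e (j + 1) = (e j).comp (s : E →+* E) := by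
      ext x
      exact hes j x
    rw [h2, ProjGenLinGroup.map_comp]
    rfl
  rw [nP, map_mul, map_mul, h1 0, h1 0, h1 (0 + 1)]
  rfl

/-- **Hypothesis `hinf` of `H57C.geom`.** -/
theorem infMatch (s : E ≃ₐ[F] E) (mE : Model E (Fin 3)) (aE : AutData mE)
    (hsE : ∀ x, aE.s x = s x) (hc : ∀ j, aE.c (j + 1) = j) (mF : Model F (Fin 1))
    (he0 : mF.e 0 = (mE.e 0).comp (algebraMap F E)) {κ : (Fin 3 → ℝ) → ℂ} (hκ : IsRC κ)
    (d : PGL(2, E)) (γ : PGL(2, F)) (hN : nP s d = incP E γ) :
    H57C.InfMatch (volume : Measure (Fin 3 → H3)) (volume : Measure (Fin 1 → H3)) p0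
      (fun x => κ (Model.chJ x (mE.actInf d (aE.actInf x))))
      (fun x => bF κ (Model.chJ x (mF.actInf γ x))) := by
  have hes : ∀ j x, mE.e (j + 1) x = mE.e j (s x) := by
    intro j x
    have h1 := aE.e_s (j + 1) x
    rw [hc, hsE] at h1
    exact h1.symm
  have hsym : ∀ j, aE.c.symm j = j + 1 := fun j => by
    rw [Equiv.symm_apply_eq, hc]
  have key := infMatch_cyc hκ (fun j => ProjGenLinGroup.map (mE.e j) d)
    (ProjGenLinGroup.map (mF.e 0) γ) (by
      rw [he0, ProjGenLinGroup.map_comp]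
      show ProjGenLinGroup.map (mE.e 0) (incP E γ) = _
      rw [← hN, map_nP s mE.e hes d])
  have h1 : (fun x : Fin 3 → H3 => κ (Model.chJ x (mE.actInf d (aE.actInf x)))) =
      cyc κ (fun j => ProjGenLinGroup.map (mE.e j) d) := by
    funext x
    show κ _ = κ _
    congr 1
    funext j
    show ch (x j) (ProjGenLinGroup.map (mE.e j) d • x (aE.c.symm j)) = _
    rw [hsym]
  have h2 : (fun x : Fin 1 → H3 => bF κ (Model.chJ x (mF.actInf γ x))) =
      fun y => bF κ fun j => ch (y j) (ProjGenLinGroup.map (mF.e 0) γ • y j) := by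
    funext x
    congr 1
    funext j
    obtain rfl := Subsingleton.elim j 0
    rfl
  rw [h1, h2]
  exact key

/-- `rot` satisfies the hypothesis `hc` -/
theorem rot_add_one (j : Fin 3) : H59D.rot (j + 1) = j := by
  fin_cases j <;> rfl

/-- the hypothesis on `e 0` for the model with `e = eC e0 s` -/
theorem eC_zero (e0 : E →+* ℂ) (s : E ≃ₐ[F] E) : H59D.eC e0 s 0 = e0 := by
  ext x
  rfl

end Fermat.Agent.H67M
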