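import Fermat.Agent.H67M8
import Fermat.Agent.H79SDef

/-!
# Matching at infinity (helper67), part 9: the hypotheses `hp`, `hinf` of `H57C.geom` for
`H79S.CSetup`
-/

set_option autoImplicit false
set_option linter.unusedSectionVars false

noncomputable section

open MeasureTheory Set Matrix NumberField
open scoped MatrixGroups ENNReal

namespace Fermat.Agent.H67M

open Fermat.Agent Fermat.Agent.H3 Fermat.Agent.H56Z Fermat.Agent.H59D
open Fermat.Agent.H20.S47 (incP sP nP)

variable {F E : Type} [Field F] [NumberField F] [Field E] [NumberField E] [Algebra F E]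

theorem setup_he0 (C : H79S.CSetup F E) (j : Fin 3) :
    C.mF.e 0 = (C.mE.e j).comp (algebraMap F E) :=
  RingHom.ext fun x => (C.e_alg j x).symm

theorem setup_c (C : H79S.CSetup F E) (j : Fin 3) : C.aE.c j = j + 1 := by
  rw [C.c_eq]
  rfl

/-- hypothesis `hp` of `H57C.geom` -/
theorem setup_hp (C : H79S.CSetup F E) (τ : PGL(2, F)) (x : Fin 3 → H3) :
    p0 (C.mE.actInf (incP E τ) x) = C.mF.actInf τ (p0 x) :=
  p0_actInf C.mE C.mF (setup_he0 C 0) τ x

/-- hypothesis `hinf` of `H57C.geom` -/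
theorem setup_hinf (C : H79S.CSetup F E) {κ : (Fin 3 → ℝ) → ℂ} (hκ : IsRC κ)
    (d : PGL(2, E)) (γ : PGL(2, F)) (hN : nP C.s d = incP E γ) :
    H57C.InfMatch (volume : Measure (Fin 3 → H3)) (volume : Measure (Fin 1 → H3)) p0
      (fun x => κ (Model.chJ x (C.mE.actInf d (C.aE.actInf x))))
      (fun x => bF κ (Model.chJ x (C.mF.actInf γ x))) :=
  infMatch' C.s C.mE C.aE C.s_eq (setup_c C) C.mF (setup_he0 C 0) hκ d γ hN

end Fermat.Agent.H67M
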