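import Fermat.Agent.H67Delta
import Fermat.Agent.H33Main

/-!
# Equivariant maps `V → T_p J₀` with values in `Δ` (helper67)

`ρ : GaloisRepAdic T` residually absolutely irreducible with cyclotomic determinant. A nonzero
equivariant map `h : ρ.V →+ T_p J₀(N)` cannot take its values in `Δ`:

* `false_new` : `N = M p`, `p ∤ M`, `α_* h = 0`, `w h = ± h`;
* `false_old` : `N = M`, `p ∤ M`, `T_p h = h μ`, `ρ` residually ordinary.
-/

set_option autoImplicit false
set_option linter.unusedSectionVars false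
set_option linter.style.haveILetI false

noncomputable section

open ModularCurve AlgebraicCurve Fermat.Agent.H33 Fermat.Agent.H30 Fermat.Agent.H31

namespace Fermat.Agent.H67.Dl

local notation "Qb" => AlgebraicClosure ℚ
local notation "Gq" => AlgebraicClosure ℚ ≃ₐ[ℚ] AlgebraicClosure ℚ

section

variable {T : Type} [CommRing T] [IsLocalRing T] {ρ : GaloisRepAdic T} {I : Ideal T}
  {p : ℕ} [Fact p.Prime] [NeZero p] {A : ValuationSubring Qb}

/-- saturation -/
theorem exists_saturation {J : Type*} [AddCommGroup J] [DistribMulAction Gq J]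
    {h : ρ.V →+ TateMod p J} (hh : IsRealHom ρ I h) (h0 : h ≠ 0) :
    ∃ (h' : ρ.V →+ TateMod p J) (k : ℕ), IsRealHom ρ I h' ∧ bar h' ≠ 0 ∧
      ∀ v, (p : ℤ_[p]) ^ k • h' v = h v := by
  classical
  have hex : ∃ n : ℕ, ∃ v, TateMod.proj n (h v) ≠ 0 := by
    by_contra hcon
    push Not at hcon
    apply h0
    ext v n
    rw [hcon n v]
    simp
  have hn0 : Nat.find hex ≠ 0 := by
    intro h1
    obtain ⟨v, hv⟩ := Nat.find_spec hex
    rw [h1] at hv
    exact hv (TateMod.proj_zero _)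
  obtain ⟨k, hk⟩ := Nat.exists_eq_succ_of_ne_zero hn0
  have hkk : ∀ v, TateMod.proj k (h v) = 0 := by
    have := Nat.find_min hex (m := k) (by rw [hk]; exact Nat.lt_succ_self k)
    push Not at this
    exact this
  obtain ⟨v₀, hv₀⟩ := Nat.find_spec hex
  rw [hk] at hv₀
  have hdiv : ∀ v, ∃ y : TateMod p J, (p : ℤ_[p]) ^ k • y = h v := fun v => by
    obtain ⟨y, hy⟩ := (TateMod.mem_pow_smul_iff k (h v)).mpr (hkk v)
    exact ⟨y, hy.symm⟩
  choose y hy using hdiv
  have hinj : ∀ a b : TateMod p J, (p : ℤ_[p]) ^ k • a = (p : ℤ_[p]) ^ k • b → a = b := by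
    intro a b hab
    rw [← sub_eq_zero, ← smul_sub] at hab
    exact sub_eq_zero.mp (TateMod.pow_smul_injective k hab)
  let h' : ρ.V →+ TateMod p J :=
    { toFun := y
      map_zero' := by
        apply hinj
        rw [hy, map_zero, smul_zero]
      map_add' := fun a b => by
        apply hinj
        rw [smul_add, hy, hy, hy, map_add] }
  have hh' : ∀ v, (p : ℤ_[p]) ^ k • h' v = h v := hy
  refine ⟨h', k, ⟨fun σ v => ?_, fun t ht v => ?_⟩, fun h1 => hv₀ ?_, hh'⟩
  · apply hinj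
    rw [hh', hh.gal, ← map_smul, hh']
  · apply hinj
    rw [hh', hh.ker t ht, smul_zero]
  · have h2 : TateMod.proj (k + 1) (h v₀) = TateMod.proj 1 (h' v₀) := by
      rw [← hh' v₀]
      have h3 : (p : ℤ_[p]) ^ k • h' v₀ = p ^ k • h' v₀ := by
        rw [← Nat.cast_pow, TateMod.natCast_smul]
      rw [h3, map_nsmul, add_comm k 1]
      exact TateMod.pow_smul_proj_add (h' v₀) 1 k
    rw [h2, ← bar_apply, h1]
    rfl

theorem inj_pow_smul {J : Type*} [AddCommGroup J] {k : ℕ} {a b : TateMod p J}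
    (h : (p : ℤ_[p]) ^ k • a = (p : ℤ_[p]) ^ k • b) : a = b := by
  rw [← sub_eq_zero, ← smul_sub] at h
  exact sub_eq_zero.mp (TateMod.pow_smul_injective k h)

theorem proj_of_sat {J J₁ : Type*} [AddCommGroup J] [AddCommGroup J₁] (f : J →+ J₁) {k : ℕ}
    {a b : TateMod p J} {a' b' : TateMod p J₁} (hab : (p : ℤ_[p]) ^ k • a = b)
    (hab' : (p : ℤ_[p]) ^ k • a' = b') (h : H35.tateMap (p := p) f b = b') :
    f (TateMod.proj 1 a) = TateMod.proj 1 a' := by
  have h1 : H35.tateMap (p := p) f a = a' := by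
    apply inj_pow_smul (k := k)
    rw [← map_smul, hab, hab', h]
  rw [← h1, H35.proj_tateMap]

theorem proj_of_sat_zero {J J₁ : Type*} [AddCommGroup J] [AddCommGroup J₁] (f : J →+ J₁) {k : ℕ}
    {a b : TateMod p J} (hab : (p : ℤ_[p]) ^ k • a = b) (h : H35.tateMap (p := p) f b = 0) :
    f (TateMod.proj 1 a) = 0 := by
  have h1 : H35.tateMap (p := p) f a = 0 := by
    apply inj_pow_smul (k := k)
    rw [← map_smul, hab, smul_zero, h]
  rw [← H35.proj_tateMap, h1, map_zero]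

theorem zsmul_sat {J : Type*} [AddCommGroup J] {k : ℕ} {a b : TateMod p J} (ε : ℤ)
    (hab : (p : ℤ_[p]) ^ k • a = b) : (p : ℤ_[p]) ^ k • (ε • a) = ε • b := by
  rw [← hab]
  exact map_zsmul (smulAddHom ℤ_[p] (TateMod p J) ((p : ℤ_[p]) ^ k)) ε a

theorem finite_range_bar {J : Type*} [AddCommGroup J] (hJ : {x : J | p • x = 0}.Finite)
    (h : ρ.V →+ TateMod p J) : Finite (bar h).range := by
  refine (hJ.subset ?_).to_subtype
  rintro x ⟨v, rfl⟩
  exact nsmul_bar h v

variable {M : ℕ} [NeZero M]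

/-- **New part** -/
theorem false_new (hp2 : p ≠ 2) (hA : A.LiesOverPrime p) (hpM : ¬ p ∣ M) (w : H99.AL Qb M p)
    (hSS : SS2p p M A w) (hirr : ρ.residual.IsAbsolutelyIrreducible)
    (hdet : ρ.DetIsCyclotomic p) {h : ρ.V →+ TateMod p (JZero (M * p))}
    (hh : IsRealHom ρ I h) (h0 : h ≠ 0) (hΔ : ∀ v, h v ∈ Delta p A (M * p))
    (hα : ∀ v, H35.tateMap (p := p) (H67.pushP (heckeAlphaBar Qb M p)) (h v) = 0) {ε : ℤ}
    (hw : ∀ v, H35.tateMap (p := p) (H67.pushP w.W.toAlgHom) (h v) = ε • h v) : False := by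
  classical
  have hp : p.Prime := Fact.out
  obtain ⟨ζ, hζ⟩ : ∃ ζ : Qb, IsPrimitiveRoot ζ p := by
    have : NeZero (p : Qb) := ⟨by exact_mod_cast hp.ne_zero⟩
    exact HasEnoughRootsOfUnity.exists_primitiveRoot Qb p
  obtain ⟨h', k, hh', hbar, hk⟩ := exists_saturation hh h0
  have hΔ' : ∀ v, h' v ∈ Delta p A (M * p) := fun v =>
    Delta.sat_pow hA k (by rw [hk]; exact hΔ v)
  have hα' : ∀ v, H67.pushP (heckeAlphaBar Qb M p) (bar h' v) = 0 := fun v => by
    exact proj_of_sat_zero (H67.pushP (heckeAlphaBar Qb M p)) (k := k) (hk v) (hα v)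
  have hw' : ∀ v, H67.pushP w.W.toAlgHom (bar h' v) = bar h' (ε • v) := fun v => by
    have h1 := proj_of_sat (H67.pushP w.W.toAlgHom) (k := k) (hk v) (zsmul_sat ε (hk v)) (hw v)
    rw [map_zsmul] at h1
    rw [map_zsmul]
    exact h1
  have hfinW : Finite (bar h').range :=
    finite_range_bar (H90.finite_jzero (N := M * p) hp.ne_zero) h'
  refine false_of_scalar ρ hp hp2 hirr hdet hA (bar h') hbar (bar_gal hh') hζ ?_
  intro σ hσ a hσζ v
  refine case_N hA hpM w hSS hfinW ?_ ?_ ?_ ?_ ?_ hζ hσ hσζ ⟨v, rfl⟩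
  · rintro x ⟨v, rfl⟩
    exact nsmul_bar h' v
  · rintro τ _ x ⟨v, rfl⟩
    exact ⟨ρ.ρ τ v, bar_gal hh' τ v⟩
  · rintro x ⟨v, rfl⟩
    exact ⟨ε • v, (hw' v).symm⟩
  · rintro x ⟨v, rfl⟩
    exact hα' v
  · rintro x ⟨v, rfl⟩ f hf
    exact Delta.red (hΔ' v) hf

/-- **Good reduction** -/
theorem false_old (hp2 : 2 < p) (hA : A.LiesOverPrime p) (F : InertiaFacts p A)
    (hpM : ¬ p ∣ M) (hCL : CLp p M A) (hirr : ρ.residual.IsAbsolutelyIrreducible)
    (hdet : ρ.DetIsCyclotomic p)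
    (hres : (GaloisRepAdic.ofResidualGaloisRep ρ.residual).IsOrdinaryAt p)
    (hnil : ∃ n : ℕ, IsLocalRing.maximalIdeal T ^ n ≤ Ideal.span {(p : T)})
    {h : ρ.V →+ TateMod p (JZero M)}
    (hh : IsRealHom ρ I h) (h0 : h ≠ 0) (hΔ : ∀ v, h v ∈ Delta p A M) {μ : T}
    (hμ : ∀ v, H35.tateMap (p := p) (heckeOperatorAlong Qb M p) (h v) = h (μ • v)) : False := by
  classical
  have hp : p.Prime := Fact.out
  have hp2' : p ≠ 2 := by omega
  obtain ⟨ζ, hζ⟩ : ∃ ζ : Qb, IsPrimitiveRoot ζ p := by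
    have : NeZero (p : Qb) := ⟨by exact_mod_cast hp.ne_zero⟩
    exact HasEnoughRootsOfUnity.exists_primitiveRoot Qb p
  obtain ⟨h', k, hh', hbar, hk⟩ := exists_saturation hh h0
  have hΔ' : ∀ v, h' v ∈ Delta p A M := fun v => Delta.sat_pow hA k (by rw [hk]; exact hΔ v)
  have hμ' : ∀ v, heckeOperatorAlong Qb M p (bar h' v) = bar h' (μ • v) := fun v => by
    have h1 : H35.tateMap (p := p) (heckeOperatorAlong Qb M p) (h' v) = h' (μ • v) := by
      apply inj_pow_smul (k := k)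
      rw [← map_smul, hk, hμ, hk]
    have h2 := congrArg (TateMod.proj 1) h1
    rwa [H35.proj_tateMap] at h2
  by_cases hunit : IsUnit μ
  · -- case D
    obtain ⟨u, rfl⟩ := hunit
    have hfinW : Finite (bar h').range :=
      finite_range_bar (H90.finite_jzero (N := M) hp.ne_zero) h'
    let f : (bar h').range → (bar h').range := fun x => ⟨heckeOperatorAlong Qb M p x, by
      obtain ⟨v, hv⟩ := x.2
      exact ⟨(u : T) • v, by rw [← hv, hμ' v]⟩⟩
    have hf : Function.Surjective f := by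
      rintro ⟨_, v, rfl⟩
      refine ⟨⟨bar h' (((u⁻¹ : Tˣ) : T) • v), _, rfl⟩, Subtype.ext ?_⟩
      show heckeOperatorAlong Qb M p (bar h' (((u⁻¹ : Tˣ) : T) • v)) = _
      rw [hμ', smul_smul, Units.mul_inv, one_smul]
    have hfb : Function.Bijective f := ⟨Finite.injective_iff_surjective.mpr hf, hf⟩
    refine false_of_scalar ρ hp hp2' hirr hdet hA (bar h') hbar (bar_gal hh') hζ ?_
    intro σ hσ a hσζ v
    exact case_D hp2 hA F hpM hCL (Equiv.ofBijective f hfb)
      (fun x : (bar h').range => (x : JZero M)) (fun x => rfl)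
      (fun x => by
        obtain ⟨x, v, rfl⟩ := x
        exact nsmul_bar h' v)
      (fun x => by
        obtain ⟨x, v, rfl⟩ := x
        exact fun f hf => Delta.red (hΔ' v) hf) hζ hσ hσζ ⟨bar h' v, v, rfl⟩
  · -- case C
    have hμm : μ ∈ IsLocalRing.maximalIdeal T := (IsLocalRing.mem_maximalIdeal μ).mpr hunit
    obtain ⟨n, hn⟩ := hnil
    have hzero : ∀ v, bar h' (μ ^ n • v) = 0 := by
      intro v
      have h1 : μ ^ n ∈ Ideal.span {(p : T)} := hn (Ideal.pow_mem_pow hμm n)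
      obtain ⟨c, hc⟩ := Ideal.mem_span_singleton.mp h1
      rw [hc, mul_smul, Nat.cast_smul_eq_nsmul, map_nsmul]
      exact nsmul_bar h' _
    have hex : ∃ n : ℕ, ∀ v, bar h' (μ ^ n • v) = 0 := ⟨n, hzero⟩
    have hn0 : Nat.find hex ≠ 0 := by
      intro h1
      apply hbar
      ext v
      have h2 := Nat.find_spec hex v
      rw [h1, pow_zero, one_smul] at h2
      exact h2
    obtain ⟨j, hj⟩ := Nat.exists_eq_succ_of_ne_zero hn0
    have hjne : ¬ ∀ v, bar h' (μ ^ j • v) = 0 :=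
      Nat.find_min hex (m := j) (by rw [hj]; exact Nat.lt_succ_self j)
    have hjs : ∀ v, bar h' (μ ^ (j + 1) • v) = 0 := by
      have := Nat.find_spec hex
      rwa [hj] at this
    let s : ρ.V →+ JZero M := (bar h').comp (DistribSMul.toAddMonoidHom ρ.V (μ ^ j))
    have hs : ∀ v, s v = bar h' (μ ^ j • v) := fun v => rfl
    refine false_of_kernel ρ hp hirr hdet hres ⟨n, hn⟩ hA s (fun h1 => hjne fun v => ?_)
      (fun v => nsmul_bar h' _) (fun σ v => ?_) hζ (fun v hv => ?_)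
    · rw [← hs, h1]; rfl
    · rw [hs, hs, ← map_smul, bar_gal hh']
    · refine case_C hp2 hA F hpM hCL hζ (nsmul_bar h' _) ?_ hv
      rw [hs, hμ', smul_smul, ← pow_succ']
      exact hjs v

end

end Fermat.Agent.H67.Dl

end
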