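import Fermat.Agent.H67AL

/-!
# `U_q + w_q = β^* α_*` (helper67)
-/

set_option autoImplicit false
set_option linter.unusedSectionVars false
set_option linter.style.haveILetI false

noncomputable section

open AlgebraicCurve IntermediateField HahnSeries ModularCurve

namespace Fermat.Agent.H67

section TwoComponents

variable {K A B C D : Type*} [Field K] [CharZero K] [Field A] [Field B] [Field C] [Field D]
  [Algebra K A] [Algebra K B] [Algebra K C] [Algebra K D]

/-- Norm identity for a square whose fibre product decomposes as `D × C`. -/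
theorem norm_two {φ : A →ₐ[K] B} {ψ : A →ₐ[K] C} {φ' : C →ₐ[K] D} {ψ' : B →ₐ[K] D}
    {θ : B →ₐ[K] C} (hsq : φ'.comp ψ = ψ'.comp φ) (hθ : θ.comp φ = ψ)
    (hφ : FiniteAlong K φ) (hφ' : FiniteAlong K φ')
    (hdeg : finrankAlong K φ = finrankAlong K φ' + 1) (hone : finrankAlong K φ' ≠ 1)
    (hgen : Subfield.closure (Set.range φ' ∪ Set.range ψ') = ⊤) (b : B) :
    ψ (H60.normAlong φ b) = H60.normAlong φ' (ψ' b) * θ b := by
  classical
  letI algAB := algebraAlong φ
  letI algCD := algebraAlong φ'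
  haveI := isScalarTower_along φ
  haveI := isScalarTower_along φ'
  haveI : Module.Finite A B := hφ
  haveI : Module.Finite C D := hφ'
  haveI : CharZero A := charZero_of_injective_algebraMap (algebraMap K A).injective
  haveI : CharZero C := charZero_of_injective_algebraMap (algebraMap K C).injective
  let Ω := AlgebraicClosure D
  let ι : D →+* Ω := algebraMap D Ω
  let T := D →ₐ[C] Ω
  have hT : Fintype.card T = Module.finrank C D := AlgHom.card C D Ω
  let σ : Option T → (B →+* Ω)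
    | none => ι.comp (φ'.toRingHom.comp θ.toRingHom)
    | some τ => τ.toRingHom.comp ψ'.toRingHom
  have hsq' : ∀ a, φ' (ψ a) = ψ' (φ a) := fun a => AlgHom.congr_fun hsq a
  have hθ' : ∀ a, θ (φ a) = ψ a := fun a => AlgHom.congr_fun hθ a
  have hτ : ∀ (τ : T) (c : C), τ (φ' c) = ι (φ' c) := fun τ c => τ.commutes c
  have hj : ∀ i x, σ i (algebraMap A B x) = (ι.comp (φ'.toRingHom.comp ψ.toRingHom)) x := by
    intro i x
    cases i with
    | none =>
      change ι (φ' (θ (φ x))) = ι (φ' (ψ x))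
      rw [hθ']
    | some τ =>
      change τ (ψ' (φ x)) = ι (φ' (ψ x))
      rw [← hsq', hτ]
  have hext : ∀ (τ : T) (κ : D →+* Ω), (∀ c, κ (φ' c) = ι (φ' c)) → (∀ b, κ (ψ' b) = τ (ψ' b)) →
      ∀ d, κ d = τ d := by
    intro τ κ h1 h2 d
    have hd : d ∈ Subfield.closure (Set.range φ' ∪ Set.range ψ') := hgen ▸ Subfield.mem_top d
    have hle : Subfield.closure (Set.range φ' ∪ Set.range ψ') ≤ κ.eqLocusField τ.toRingHom := by
      rw [Subfield.closure_le]
      rintro y (⟨c, rfl⟩ | ⟨b, rfl⟩)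
      · change κ (φ' c) = τ (φ' c)
        rw [h1, hτ]
      · exact h2 b
    exact hle hd
  have hσ : Function.Injective σ := by
    intro i i' hii
    cases i with
    | none =>
      cases i' with
      | none => rfl
      | some τ =>
        exfalso
        -- `τ` maps `D` in `ι φ'(C)`
        have h2 : ∀ b, τ (ψ' b) = ι (φ' (θ b)) := fun b => (DFunLike.congr_fun hii b).symm
        have h3 : ∀ d : D, ∃ c : C, τ d = ι (φ' c) := by
          intro d
          have hd : d ∈ Subfield.closure (Set.range φ' ∪ Set.range ψ') :=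
            hgen ▸ Subfield.mem_top d
          have hle : Subfield.closure (Set.range φ' ∪ Set.range ψ')
              ≤ ((ι.comp φ'.toRingHom).fieldRange).comap τ.toRingHom := by
            rw [Subfield.closure_le]
            rintro y (⟨c, rfl⟩ | ⟨b, rfl⟩)
            · exact ⟨c, (hτ τ c).symm⟩
            · exact ⟨θ b, (h2 b).symm⟩
          obtain ⟨c, hc⟩ := hle hd
          exact ⟨c, hc.symm⟩
        have h4 : Function.Bijective (algebraMap C D) := by
          refine ⟨(algebraMap C D).injective, fun d => ?_⟩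
          obtain ⟨c, hc⟩ := h3 d
          refine ⟨c, ?_⟩
          apply τ.toRingHom.injective
          change τ (φ' c) = τ d
          rw [hτ, hc]
        apply hone
        change Module.finrank C D = 1
        let e' : C ≃ₗ[C] D := LinearEquiv.ofBijective (Algebra.linearMap C D) h4
        rw [← e'.finrank_eq, Module.finrank_self]
    | some τ =>
      cases i' with
      | none =>
        exfalso
        have h2 : ∀ b, τ (ψ' b) = ι (φ' (θ b)) := fun b => (DFunLike.congr_fun hii b)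
        have h3 : ∀ d : D, ∃ c : C, τ d = ι (φ' c) := by
          intro d
          have hd : d ∈ Subfield.closure (Set.range φ' ∪ Set.range ψ') :=
            hgen ▸ Subfield.mem_top d
          have hle : Subfield.closure (Set.range φ' ∪ Set.range ψ')
              ≤ ((ι.comp φ'.toRingHom).fieldRange).comap τ.toRingHom := by
            rw [Subfield.closure_le]
            rintro y (⟨c, rfl⟩ | ⟨b, rfl⟩)
            · exact ⟨c, (hτ τ c).symm⟩
            · exact ⟨θ b, (h2 b).symm⟩
          obtain ⟨c, hc⟩ := hle hd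
          exact ⟨c, hc.symm⟩
        have h4 : Function.Bijective (algebraMap C D) := by
          refine ⟨(algebraMap C D).injective, fun d => ?_⟩
          obtain ⟨c, hc⟩ := h3 d
          refine ⟨c, ?_⟩
          apply τ.toRingHom.injective
          change τ (φ' c) = τ d
          rw [hτ, hc]
        apply hone
        change Module.finrank C D = 1
        let e' : C ≃ₗ[C] D := LinearEquiv.ofBijective (Algebra.linearMap C D) h4
        rw [← e'.finrank_eq, Module.finrank_self]
      | some τ' =>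
        congr 1
        refine AlgHom.ext fun d => ?_
        exact hext τ' τ.toRingHom (hτ τ) (fun b => DFunLike.congr_fun hii b) d
  have hcard : Module.finrank A B ≤ Fintype.card (Option T) := by
    rw [Fintype.card_option, hT]
    exact hdeg.le
  have h1 := H60.map_norm_eq_prod (ι.comp (φ'.toRingHom.comp ψ.toRingHom)) σ hj hσ hcard b
  rw [Fintype.prod_option] at h1
  have h2 : ∏ τ : T, σ (some τ) b = ι (φ' (H60.normAlong φ' (ψ' b))) := by
    have h3 := Algebra.norm_eq_prod_embeddings C Ω (ψ' b)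
    change ι (algebraMap C D (Algebra.norm C (ψ' b))) = _ at h3
    exact h3.symm
  rw [h2] at h1
  have h3 : ι (φ' (ψ (H60.normAlong φ b))) = ι (φ' (H60.normAlong φ' (ψ' b) * θ b)) := by
    rw [map_mul, map_mul, mul_comm]
    exact h1
  exact φ'.toRingHom.injective (ι.injective h3)

variable [IsAlgClosed K] [H94.FunField K A] [H94.FunField K B] [H94.FunField K C]
  [H94.FunField K D]

/-- Base change when the fibre product decomposes as `D × C`. -/
theorem pullD_pushD_two {φ : A →ₐ[K] B} {ψ : A →ₐ[K] C} {φ' : C →ₐ[K] D} {ψ' : B →ₐ[K] D}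
    {θ : B →ₐ[K] C} (hsq : φ'.comp ψ = ψ'.comp φ) (hθ : θ.comp φ = ψ)
    (hdeg : finrankAlong K φ = finrankAlong K φ' + 1) (hone : finrankAlong K φ' ≠ 1)
    (hgen : Subfield.closure (Set.range φ' ∪ Set.range ψ') = ⊤) (E : Divisor K B) :
    pullD ψ (pushD φ E) = pushD φ' (pullD ψ' E) + pullD θ E := by
  classical
  refine ext_of_divF φ ψ ((pullD ψ).comp (pushD φ)) ((pushD φ').comp (pullD ψ') + pullD θ)
    ?_ ?_ ?_ E
  · intro w u hwu
    rw [AddMonoidHom.comp_apply, pushD_single, pullD_apply, Finsupp.single_eq_of_ne hwu, mul_zero]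
  · intro w u hwu
    rw [AddMonoidHom.add_apply, AddMonoidHom.comp_apply, Finsupp.add_apply]
    have h1 : pullD θ (Finsupp.single w 1) u = 0 := by
      rw [pullD_apply, Finsupp.single_eq_of_ne, mul_zero]
      rintro rfl
      apply hwu
      rw [← res_comp, hθ]
    have h2 : pushD φ' (pullD ψ' (Finsupp.single w 1)) u = 0 := by
      rw [pushD_eq, Finsupp.mapDomain, Finsupp.sum_apply]
      refine Finset.sum_eq_zero fun x hx => ?_
      rw [Finsupp.mem_support_iff, pullD_apply] at hx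
      change (Finsupp.single (res φ' x) (pullD ψ' (Finsupp.single w 1) x) : Divisor K C) u = 0
      rw [Finsupp.single_apply, if_neg]
      rintro rfl
      apply hx
      rw [Finsupp.single_eq_of_ne, mul_zero]
      intro h3
      apply hwu
      rw [← res_comp, hsq, res_comp, h3]
    rw [h1, h2, add_zero]
  · intro b hb
    rw [AddMonoidHom.add_apply, AddMonoidHom.comp_apply, AddMonoidHom.comp_apply, pushD_divF,
      pullD_divF, pullD_divF, pushD_divF, pullD_divF, ← divF_mul]
    exact divF_congr _ (norm_two hsq hθ (finiteAlong_of_funField _) (finiteAlong_of_funField _)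
      hdeg hone hgen b)

theorem pullP_pushP_two {φ : A →ₐ[K] B} {ψ : A →ₐ[K] C} {φ' : C →ₐ[K] D} {ψ' : B →ₐ[K] D}
    {θ : B →ₐ[K] C} (hsq : φ'.comp ψ = ψ'.comp φ) (hθ : θ.comp φ = ψ)
    (hdeg : finrankAlong K φ = finrankAlong K φ' + 1) (hone : finrankAlong K φ' ≠ 1)
    (hgen : Subfield.closure (Set.range φ' ∪ Set.range ψ') = ⊤) (x : Pic0 K B) :
    pullP ψ (pushP φ x) = pushP φ' (pullP ψ' x) + pullP θ x := by
  obtain ⟨E, rfl⟩ := Pic0.mk_surjective x
  exact mk_congr (pullD_pushD_two hsq hθ hdeg hone hgen E.1)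

end TwoComponents

section Uq

variable {L : Type*} [Field L] [Algebra ℚ L] [IsAlgClosed L] [CharZero L] (f : L →+* ℂ)

/-- generation of `F_{Mqq}` by the two images of `F_{Mq}` -/
theorem gen_qq {M q : ℕ} [NeZero M] [NeZero (M * q)] [NeZero (M * q * q)] [NeZero q]
    (hq : q.Prime) (h1 : M * q * 1 ∣ M * q * q) (h2 : M * q * q ∣ M * q * q) :
    Subfield.closure (Set.range (dg L 1 h1) ∪ Set.range (dg L q h2)) = ⊤ := by
  refine closure_eq_top (M * q * q) _ ?_ ?_
  · intro x
    exact Subfield.subset_closure (Or.inl ⟨algebraMap L _ x, AlgHom.commutes _ _⟩)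
  · intro T hT d hd
    by_cases hqd : q ∣ d
    · obtain ⟨e, rfl⟩ := hqd
      have he : e ∣ M * q := by
        rw [mul_comm (M * q) q] at hd
        exact Nat.dvd_of_mul_dvd_mul_left hq.pos hd
      have h := hT (dg L q h2 ⟨H66.J L e, J_mem_FB he⟩)
        (Subfield.subset_closure (Or.inr ⟨_, rfl⟩))
      rwa [coe_dg, H66.qExpand_J] at h
    · have hcop := ((Nat.Prime.coprime_iff_not_dvd hq).mpr hqd).symm
      have hd1 : d ∣ M * q := Nat.Coprime.dvd_of_dvd_mul_right hcop hd
      have h := hT (dg L 1 h1 ⟨H66.J L d, J_mem_FB hd1⟩)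
        (Subfield.subset_closure (Or.inl ⟨_, rfl⟩))
      rwa [coe_dg, H66.qExpand_J, one_mul] at h

variable {M q : ℕ} [NeZero M] [NeZero (M * q)] [NeZero q] (hq : q.Prime)

include hq

/-- **`U_q = β^* α_*` on `J₀(Mq)` if `q ∣ M`.** -/
theorem Uq_of_dvd (hqM : q ∣ M) (h1 : M * 1 ∣ M * q) (h2 : M * q ∣ M * q)
    (x : Pic0 L (FB L (M * q))) :
    heckeOperatorAlong L (M * q) q x = pullP (dg L q h2) (pushP (dg L 1 h1) x) := by
  haveI : NeZero (M * q * q) := ⟨mul_ne_zero (NeZero.ne (M * q)) hq.ne_zero⟩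
  have h3 : M * q * 1 ∣ M * q * q := mul_dvd_mul_left _ (one_dvd q)
  have h4 : M * q ∣ M * q * q := dvd_mul_right _ _
  rw [heckeOperatorAlong_eq_dg rfl h3 dvd_rfl]
  symm
  refine pullP_pushP ?_ ?_ (gen_qq hq h3 dvd_rfl) x
  · rw [dg_comp q 1 q h2 h3 h4 (one_mul q), dg_comp 1 q q h1 dvd_rfl h4 (mul_one q)]
  · have e1 := finrank_dg_one (L := L) (M := M * q) (N := M * q * q) h3
    have e2 := finrank_dg_one (L := L) (M := M) (N := M * q) h1
    rw [dedekindPsi_mul_prime (NeZero.ne (M * q)) hq] at e1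
    rw [dedekindPsi_mul_prime (NeZero.ne M) hq] at e2
    rw [Nat.eq_of_mul_eq_mul_right (dedekindPsi_pos _) e1,
      Nat.eq_of_mul_eq_mul_right (dedekindPsi_pos _) e2, cdeg, cdeg, if_pos hqM,
      if_pos (dvd_mul_left q M)]

/-- **`U_q + w_q = β^* α_*` on `J₀(Mq)` if `q ∤ M`.** -/
theorem Uq_add_wq (hqM : ¬ q ∣ M) {W : FB L (M * q) ≃ₐ[L] FB L (M * q)} (hW : IsAL M q W)
    (h1 : M * 1 ∣ M * q) (h2 : M * q ∣ M * q) (x : Pic0 L (FB L (M * q))) :
    heckeOperatorAlong L (M * q) q x + pushP W.toAlgHom x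
      = pullP (dg L q h2) (pushP (dg L 1 h1) x) := by
  haveI : NeZero (M * q * q) := ⟨mul_ne_zero (NeZero.ne (M * q)) hq.ne_zero⟩
  have h3 : M * q * 1 ∣ M * q * q := mul_dvd_mul_left _ (one_dvd q)
  have h4 : M * q ∣ M * q * q := dvd_mul_right _ _
  have hc : M.Coprime q := ((Nat.Prime.coprime_iff_not_dvd hq).mpr hqM).symm
  rw [heckeOperatorAlong_eq_dg rfl h3 dvd_rfl, ← hW.pullP_eq rfl hc]
  symm
  have e1 := finrank_dg_one (L := L) (M := M * q) (N := M * q * q) h3
  have e2 := finrank_dg_one (L := L) (M := M) (N := M * q) h1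
  rw [dedekindPsi_mul_prime (NeZero.ne (M * q)) hq] at e1
  rw [dedekindPsi_mul_prime (NeZero.ne M) hq] at e2
  have e1' := Nat.eq_of_mul_eq_mul_right (dedekindPsi_pos _) e1
  have e2' := Nat.eq_of_mul_eq_mul_right (dedekindPsi_pos _) e2
  rw [cdeg, if_pos (dvd_mul_left q M)] at e1'
  rw [cdeg, if_neg hqM] at e2'
  refine pullP_pushP_two ?_ (hW.comp_dg_one hc h1 h2) ?_ ?_ (gen_qq hq h3 dvd_rfl) x
  · rw [dg_comp q 1 q h2 h3 h4 (one_mul q), dg_comp 1 q q h1 dvd_rfl h4 (mul_one q)]
  · rw [e1', e2']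
  · rw [e1']; exact hq.ne_one

/-- `α_* α^* = deg` -/
theorem alphaPush_alphaPull (h1 : M * 1 ∣ M * q) (x : Pic0 L (FB L M)) :
    pushP (dg L 1 h1) (pullP (dg L 1 h1) x) = (cdeg M q : ℤ) • x := by
  have e2 := finrank_dg_one (L := L) (M := M) (N := M * q) h1
  rw [dedekindPsi_mul_prime (NeZero.ne M) hq] at e2
  rw [pushP_pullP, Nat.eq_of_mul_eq_mul_right (dedekindPsi_pos _) e2]

include f in
/-- `β_* β^* = deg` -/
theorem betaPush_betaPull (h2 : M * q ∣ M * q) (x : Pic0 L (FB L M)) :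
    pushP (dg L q h2) (pullP (dg L q h2) x) = (cdeg M q : ℤ) • x := by
  rw [pushP_pullP, finrank_dg_prime f hq q h2 rfl]

omit hq in
/-- `α_* β^* = T_q` -/
theorem alphaPush_betaPull (h1 : M * 1 ∣ M * q) (h2 : M * q ∣ M * q) (x : Pic0 L (FB L M)) :
    pushP (dg L 1 h1) (pullP (dg L q h2) x) = heckeOperatorAlong L M q x :=
  (heckeOperatorAlong_eq_dg rfl h1 h2 x).symm

include f in
/-- `β_* α^* = T_q` for `q ∤ M`. -/
theorem betaPush_alphaPull (hqM : ¬ q ∣ M) (h1 : M * 1 ∣ M * q) (h2 : M * q ∣ M * q)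
    (x : Pic0 L (FB L M)) :
    pushP (dg L q h2) (pullP (dg L 1 h1) x) = heckeOperatorAlong L M q x := by
  have hc : M.Coprime q := ((Nat.Prime.coprime_iff_not_dvd hq).mpr hqM).symm
  obtain ⟨W, hW⟩ := exists_isAL (L := L) f (R := M * q) rfl hc
  rw [← hW.pushP_dg_one rfl hc h1 h2, hW.pullP_dg_one rfl hc h1 h2, alphaPush_betaPull]

include f in
/-- `U_q α^* = q β^*` for `q ∤ M`. -/
theorem Uq_alphaPull (hqM : ¬ q ∣ M) (h1 : M * 1 ∣ M * q) (h2 : M * q ∣ M * q)
    (x : Pic0 L (FB L M)) :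
    heckeOperatorAlong L (M * q) q (pullP (dg L 1 h1) x) = (q : ℤ) • pullP (dg L q h2) x := by
  have hc : M.Coprime q := ((Nat.Prime.coprime_iff_not_dvd hq).mpr hqM).symm
  obtain ⟨W, hW⟩ := exists_isAL (L := L) f (R := M * q) rfl hc
  have h := Uq_add_wq hq hqM hW h1 h2 (pullP (dg L 1 h1) x)
  rw [alphaPush_alphaPull hq, hW.pullP_dg_one rfl hc h1 h2, map_zsmul, cdeg, if_neg hqM] at h
  rw [eq_sub_of_add_eq h]
  push_cast
  rw [add_zsmul, one_zsmul, add_sub_cancel_right]

include f in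
/-- `U_q β^* = β^* T_q - α^*` for `q ∤ M`. -/
theorem Uq_betaPull (hqM : ¬ q ∣ M) (h1 : M * 1 ∣ M * q) (h2 : M * q ∣ M * q)
    (x : Pic0 L (FB L M)) :
    heckeOperatorAlong L (M * q) q (pullP (dg L q h2) x)
      = pullP (dg L q h2) (heckeOperatorAlong L M q x) - pullP (dg L 1 h1) x := by
  have hc : M.Coprime q := ((Nat.Prime.coprime_iff_not_dvd hq).mpr hqM).symm
  obtain ⟨W, hW⟩ := exists_isAL (L := L) f (R := M * q) rfl hc
  have h := Uq_add_wq hq hqM hW h1 h2 (pullP (dg L q h2) x)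
  rw [alphaPush_betaPull, hW.pullP_dg_Q rfl hc h1 h2] at h
  exact eq_sub_of_add_eq h

end Uq

end Fermat.Agent.H67
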