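import Mathlib

/-! # S47, block FE: Fourier series of functions periodic under a lattice (helper68)

For a continuous function `g` on `κ → ℝ`, periodic under `κ → ℤ`: Fourier coefficients `fc g m`, translation, differentiation in a
parameter, and the Fourier series when the coefficients are summable. -/

open MeasureTheory Set
open scoped Real

namespace Fermat.Agent.H68F

variable {κ : Type*}

/-- the measure on `ℝ / ℤ` of total volume 1 (as in `Mathlib.Analysis.Fourier.AddCircleMulti`) -/
noncomputable local instance instMSU : MeasureSpace UnitAddCircle := ⟨AddCircle.haarAddCircle⟩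

local instance instHaarU : Measure.IsAddHaarMeasure (volume : Measure UnitAddCircle) :=
  inferInstanceAs (Measure.IsAddHaarMeasure AddCircle.haarAddCircle)

local instance instProbU : IsProbabilityMeasure (volume : Measure UnitAddCircle) :=
  inferInstanceAs (IsProbabilityMeasure AddCircle.haarAddCircle)

/-- periodicity under `κ → ℤ` -/
def ZPer (g : (κ → ℝ) → ℂ) : Prop := ∀ (t : κ → ℝ) (m : κ → ℤ), g (fun i => t i + m i) = g t

/-- the function on the torus -/
noncomputable def toTorus (g : (κ → ℝ) → ℂ) (x : UnitAddTorus κ) : ℂ :=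
  g fun i => ((AddCircle.equivIco 1 0 (x i) : Ico (0 : ℝ) (0 + 1)) : ℝ)

/-- the projection to the torus -/
def prT (t : κ → ℝ) : UnitAddTorus κ := fun i => (t i : UnitAddCircle)

theorem toTorus_prT {g : (κ → ℝ) → ℂ} (hg : ZPer g) (t : κ → ℝ) : toTorus g (prT t) = g t := by
  unfold toTorus prT
  have h : (fun i => ((AddCircle.equivIco 1 0 ((t i : ℝ) : UnitAddCircle) : Ico (0 : ℝ) (0 + 1)) : ℝ)) =
      fun i => t i + ((-⌊t i⌋ : ℤ) : ℝ) := by
    funext i
    rw [AddCircle.coe_equivIco_mk_apply, div_one, mul_one, Int.fract]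
    push_cast
    ring
  rw [h]
  exact hg t fun i => -⌊t i⌋

theorem isOpenQuotientMap_prT : IsOpenQuotientMap (prT : (κ → ℝ) → UnitAddTorus κ) := by
  have := IsOpenQuotientMap.piMap (f := fun (_ : κ) (t : ℝ) => (t : UnitAddCircle))
    (fun _ => QuotientAddGroup.isOpenQuotientMap_mk)
  exact this

theorem prT_surj : Function.Surjective (prT : (κ → ℝ) → UnitAddTorus κ) := isOpenQuotientMap_prT.surjective

theorem prT_add (t v : κ → ℝ) : prT (t + v) = prT t + prT v := by
  funext i; simp [prT]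

theorem continuous_toTorus {g : (κ → ℝ) → ℂ} (hg : ZPer g) (hc : Continuous g) : Continuous (toTorus g) := by
  rw [isOpenQuotientMap_prT.isQuotientMap.continuous_iff]
  have : toTorus g ∘ prT = g := funext fun t => toTorus_prT hg t
  rw [this]; exact hc

theorem ZPer.translate {g : (κ → ℝ) → ℂ} (hg : ZPer g) (v : κ → ℝ) : ZPer fun t => g (t + v) := by
  intro t m
  have := hg (t + v) m
  simp only [Pi.add_apply] at this
  show g ((fun i => t i + (m i : ℝ)) + v) = g (t + v)
  rw [← this]
  congr 1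
  funext i
  simp only [Pi.add_apply]
  ring

theorem toTorus_translate {g : (κ → ℝ) → ℂ} (hg : ZPer g) (v : κ → ℝ) (x : UnitAddTorus κ) :
    toTorus (fun t => g (t + v)) x = toTorus g (x + prT v) := by
  obtain ⟨t, rfl⟩ := prT_surj x
  rw [toTorus_prT (hg.translate v), ← prT_add, toTorus_prT hg]

variable [Fintype κ]

/-- `e(x) = exp (2 π i x)` -/
noncomputable def ee (x : ℝ) : ℂ := Complex.exp (2 * π * Complex.I * x)

theorem ee_add (x y : ℝ) : ee (x + y) = ee x * ee y := by
  unfold ee; rw [← Complex.exp_add]; congr 1; push_cast; ring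

theorem norm_ee (x : ℝ) : ‖ee x‖ = 1 := by
  unfold ee
  rw [show (2 * π * Complex.I * x : ℂ) = ((2 * π * x : ℝ) : ℂ) * Complex.I by push_cast; ring]
  exact Complex.norm_exp_ofReal_mul_I _

theorem ee_zero : ee 0 = 1 := by simp [ee]

theorem mFourier_prT (m : κ → ℤ) (t : κ → ℝ) : UnitAddTorus.mFourier m (prT t) = ee (∑ i, m i * t i) := by
  unfold UnitAddTorus.mFourier prT ee
  simp only [ContinuousMap.coe_mk]
  have : ∀ i, fourier (m i) ((t i : ℝ) : UnitAddCircle) = Complex.exp (2 * π * Complex.I * (m i * t i)) := by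
    intro i
    rw [fourier_coe_apply]
    congr 1
    push_cast
    ring
  rw [Finset.prod_congr rfl fun i _ => this i, ← Complex.exp_sum]
  congr 1
  push_cast
  rw [Finset.mul_sum]

/-- Fourier coefficient -/
noncomputable def fc (g : (κ → ℝ) → ℂ) (m : κ → ℤ) : ℂ := UnitAddTorus.mFourierCoeff (toTorus g) m

theorem fc_def (g : (κ → ℝ) → ℂ) (m : κ → ℤ) :
    fc g m = ∫ x, UnitAddTorus.mFourier (-m) x * toTorus g x := rfl

theorem norm_fc_le {g : (κ → ℝ) → ℂ} {B : ℝ} (hB : ∀ t, ‖g t‖ ≤ B) (m : κ → ℤ) : ‖fc g m‖ ≤ B := by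
  rw [fc_def]
  have : ∀ x : UnitAddTorus κ, ‖UnitAddTorus.mFourier (-m) x * toTorus g x‖ ≤ B := by
    intro x
    obtain ⟨t, rfl⟩ := prT_surj x
    rw [norm_mul, mFourier_prT, norm_ee, one_mul]
    exact hB _
  calc _ ≤ B * (volume : Measure (UnitAddTorus κ)).real univ := norm_integral_le_of_norm_le_const (.of_forall this)
    _ = B := by simp

theorem fc_translate {g : (κ → ℝ) → ℂ} (hg : ZPer g) (v : κ → ℝ) (m : κ → ℤ) :
    fc (fun t => g (t + v)) m = ee (∑ i, m i * v i) * fc g m := by
  rw [fc_def, fc_def, ← integral_const_mul,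
    ← integral_add_right_eq_self (μ := (volume : Measure (UnitAddTorus κ)))
      (fun x => ee (∑ i, m i * v i) * (UnitAddTorus.mFourier (-m) x * toTorus g x)) (prT v)]
  refine integral_congr_ae (.of_forall fun x => ?_)
  simp only
  rw [toTorus_translate hg]
  obtain ⟨t, rfl⟩ := prT_surj x
  rw [← prT_add, mFourier_prT, mFourier_prT, ← mul_assoc, ← ee_add]
  congr 2
  rw [← Finset.sum_add_distrib]
  refine Finset.sum_congr rfl fun i _ => ?_
  simp only [Pi.neg_apply, Pi.add_apply]
  push_cast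
  ring

/-- the Fourier series, if the coefficients are summable -/
theorem hasSum_fc {g : (κ → ℝ) → ℂ} (hg : ZPer g) (hc : Continuous g) (hs : Summable (fc g)) (t : κ → ℝ) :
    HasSum (fun m : κ → ℤ => fc g m * ee (∑ i, m i * t i)) (g t) := by
  have h := UnitAddTorus.hasSum_mFourier_series_apply_of_summable
    (f := (⟨toTorus g, continuous_toTorus hg hc⟩ : C(UnitAddTorus κ, ℂ))) hs (prT t)
  simp only [ContinuousMap.coe_mk, toTorus_prT hg] at h
  refine h.congr_fun fun m => ?_
  rw [mFourier_prT, smul_eq_mul]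
  rfl

omit [Fintype κ] in
/-- the box that contains the representatives -/
theorem toTorus_mem (x : UnitAddTorus κ) :
    (fun i => ((AddCircle.equivIco 1 0 (x i) : Ico (0 : ℝ) (0 + 1)) : ℝ)) ∈ (Set.pi univ fun _ : κ => Icc (0 : ℝ) 1) := by
  intro i _
  have h := (AddCircle.equivIco 1 0 (x i)).2
  exact ⟨h.1, by have := h.2; linarith⟩

omit [Fintype κ] in
theorem ZPer.deriv {g g' : ℝ → (κ → ℝ) → ℂ} {U : Set ℝ} (hU : IsOpen U) (hg : ∀ η ∈ U, ZPer (g η))
    (hd : ∀ η ∈ U, ∀ t, HasDerivAt (fun η => g η t) (g' η t) η) {η : ℝ} (hη : η ∈ U) : ZPer (g' η) := by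
  intro t m
  refine (hd η hη _).unique ((hd η hη t).congr_of_eventuallyEq ?_)
  filter_upwards [hU.mem_nhds hη] with x hx
  exact hg x hx t m

theorem hasDerivAt_fc {g g' : ℝ → (κ → ℝ) → ℂ} {U : Set ℝ} (hU : IsOpen U) (hg : ∀ η ∈ U, ZPer (g η))
    (hc : ∀ η ∈ U, Continuous (g η)) (hd : ∀ η ∈ U, ∀ t, HasDerivAt (fun η => g η t) (g' η t) η)
    (hc' : ContinuousOn (fun p : ℝ × (κ → ℝ) => g' p.1 p.2) (U ×ˢ univ)) {η : ℝ} (hη : η ∈ U) (m : κ → ℤ) :
    HasDerivAt (fun η => fc (g η) m) (fc (g' η) m) η := by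
  obtain ⟨ε, hε, hball⟩ := Metric.isOpen_iff.mp hU η hη
  have hball' : Metric.closedBall η (ε / 2) ⊆ U := (Metric.closedBall_subset_ball (by linarith)).trans hball
  have hK : IsCompact (Metric.closedBall η (ε / 2) ×ˢ (Set.pi univ fun _ : κ => Icc (0 : ℝ) 1)) :=
    (isCompact_closedBall η (ε / 2)).prod (isCompact_univ_pi fun _ => isCompact_Icc)
  obtain ⟨C, hC⟩ := hK.exists_bound_of_continuousOn (hc'.mono (prod_mono hball' (subset_univ _)))
  have hcg' : ∀ x ∈ U, Continuous (g' x) := fun x hx => by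
    rw [← continuousOn_univ]
    exact hc'.comp (f := fun t : κ → ℝ => (x, t)) (by fun_prop) fun t _ => ⟨hx, mem_univ _⟩
  have hz' : ∀ x ∈ U, ZPer (g' x) := fun x hx => ZPer.deriv hU hg hd hx
  have key := hasDerivAt_integral_of_dominated_loc_of_deriv_le
    (μ := (volume : Measure (UnitAddTorus κ))) (F := fun y x => UnitAddTorus.mFourier (-m) x * toTorus (g y) x)
    (F' := fun y x => UnitAddTorus.mFourier (-m) x * toTorus (g' y) x) (x₀ := η) (s := Metric.ball η (ε / 2))
    (bound := fun _ => C) (Metric.ball_mem_nhds η (by linarith)) ?_ ?_ ?_ ?_ ?_ ?_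
  · exact key.2
  · filter_upwards [hU.mem_nhds hη] with x hx
    exact ((UnitAddTorus.mFourier (-m)).continuous.mul (continuous_toTorus (hg x hx) (hc x hx))).aestronglyMeasurable
  · exact ((UnitAddTorus.mFourier (-m)).continuous.mul
      (continuous_toTorus (hg η hη) (hc η hη))).integrable_of_hasCompactSupport (HasCompactSupport.of_compactSpace _)
  · exact ((UnitAddTorus.mFourier (-m)).continuous.mul
      (continuous_toTorus (hz' η hη) (hcg' η hη))).aestronglyMeasurable
  · refine .of_forall fun x y hy => ?_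
    rw [norm_mul]
    have h1 : ‖UnitAddTorus.mFourier (-m) x‖ = 1 := by
      obtain ⟨t, rfl⟩ := prT_surj x
      rw [mFourier_prT, norm_ee]
    rw [h1, one_mul]
    exact hC (y, _) ⟨Metric.ball_subset_closedBall hy, toTorus_mem x⟩
  · exact integrable_const _
  · refine .of_forall fun x y hy => ?_
    exact (hd y (hball' (Metric.ball_subset_closedBall hy)) _).const_mul _

end Fermat.Agent.H68F
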