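import Fermat.Agent.H22ZK0

/-! # S47, block FE: uniqueness of the bounded solutions of `y² a'' - y a' + a = (c y)² a` (helper68) -/

open MeasureTheory Set
open scoped Real Topology

namespace Fermat.Agent.H68F

open Fermat.Agent.H22Z

/-- `k(y) = y K₀(c y)` -/
noncomputable def kk (c y : ℝ) : ℝ := y * K0 (c * y)

noncomputable def kk1 (c y : ℝ) : ℝ := K0 (c * y) - c * y * K1 (c * y)

noncomputable def kk2 (c y : ℝ) : ℝ := -2 * c * K1 (c * y) + c ^ 2 * y * KJ 2 (c * y)

theorem kk_pos {c y : ℝ} (hc : 0 < c) (hy : 0 < y) : 0 < kk c y := mul_pos hy (K0_pos (mul_pos hc hy))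

theorem hasDerivAt_kk {c y : ℝ} (hc : 0 < c) (hy : 0 < y) : HasDerivAt (kk c) (kk1 c y) y := by
  have h1 : HasDerivAt (fun y : ℝ => c * y) c y := by simpa using (hasDerivAt_id y).const_mul c
  have h2 : HasDerivAt (fun y => K0 (c * y)) (-(K1 (c * y)) * c) y := (hasDerivAt_K0 (mul_pos hc hy)).comp y h1
  have h3 := (hasDerivAt_id y).mul h2
  refine h3.congr_deriv ?_
  unfold kk1
  simp only [id]
  ring

theorem hasDerivAt_kk1 {c y : ℝ} (hc : 0 < c) (hy : 0 < y) : HasDerivAt (kk1 c) (kk2 c y) y := by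
  have h1 : HasDerivAt (fun y : ℝ => c * y) c y := by simpa using (hasDerivAt_id y).const_mul c
  have h2 : HasDerivAt (fun y => K0 (c * y)) (-(K1 (c * y)) * c) y := (hasDerivAt_K0 (mul_pos hc hy)).comp y h1
  have h3 : HasDerivAt (fun y => K1 (c * y)) (-(KJ 2 (c * y)) * c) y := (hasDerivAt_K1 (mul_pos hc hy)).comp y h1
  have h4 := h2.sub (h1.mul h3)
  refine h4.congr_deriv ?_
  unfold kk2
  ring

theorem kk_ode {c y : ℝ} (hc : 0 < c) (hy : 0 < y) :
    y ^ 2 * kk2 c y - y * kk1 c y + kk c y = (c * y) ^ 2 * kk c y := by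
  have h := K0_ode (mul_pos hc hy)
  unfold kk kk1 kk2
  linear_combination (c * y ^ 2) * h

theorem kk_le {c : ℝ} (hc : 0 < c) : ∃ M : ℝ, 0 < M ∧ ∀ y : ℝ, 1 ≤ y → kk c y ≤ M := by
  obtain ⟨C, hC, h⟩ := KJ_le 0 hc
  refine ⟨C / c, by positivity, fun y hy => ?_⟩
  have h1 := h (c * y) (by nlinarith)
  rw [KJ_zero] at h1
  have h2 : c * y * Real.exp (-(c * y)) ≤ 1 := by
    have := Real.add_one_le_exp (c * y)
    rw [Real.exp_neg]
    have hp := Real.exp_pos (c * y)
    rw [mul_inv_le_iff₀ hp]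
    nlinarith
  unfold kk
  calc y * K0 (c * y) ≤ y * (C * Real.exp (-(c * y))) := by
        have : 0 ≤ y := by linarith
        gcongr
    _ = C / c * (c * y * Real.exp (-(c * y))) := by field_simp
    _ ≤ C / c * 1 := by gcongr
    _ = C / c := mul_one _

/-- data of a solution of the radial equation on `(0,∞)` -/
structure Sol (c : ℝ) (a a1 a2 : ℝ → ℝ) : Prop where
  d1 : ∀ y, 0 < y → HasDerivAt a (a1 y) y
  d2 : ∀ y, 0 < y → HasDerivAt a1 (a2 y) y
  ode : ∀ y, 0 < y → y ^ 2 * a2 y - y * a1 y + a y = (c * y) ^ 2 * a y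

theorem const_of_deriv_zero {f : ℝ → ℝ} (h : ∀ y, 0 < y → HasDerivAt f 0 y) : ∃ C, ∀ y, 0 < y → f y = C := by
  refine ⟨f 1, fun y hy => ?_⟩
  exact isOpen_Ioi.is_const_of_deriv_eq_zero (f := f) (s := Ioi (0 : ℝ)) isPreconnected_Ioi
    (fun x hx => (h x hx).differentiableAt.differentiableWithinAt) (fun x hx => (h x hx).deriv) hy
    (show (1 : ℝ) ∈ Ioi (0 : ℝ) by simp)

theorem Sol.neg {c : ℝ} {a a1 a2 : ℝ → ℝ} (h : Sol c a a1 a2) : Sol c (fun y => -a y) (fun y => -a1 y) (fun y => -a2 y) where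
  d1 y hy := (h.d1 y hy).neg
  d2 y hy := (h.d2 y hy).neg
  ode y hy := by have := h.ode y hy; linarith

/-- the Wronskian with `k` -/
theorem Sol.wronskian {c : ℝ} (hc : 0 < c) {a a1 a2 : ℝ → ℝ} (h : Sol c a a1 a2) :
    ∃ C, ∀ y, 0 < y → HasDerivAt (fun y => a y / kk c y) (C * y / kk c y ^ 2) y := by
  obtain ⟨C, hC⟩ := const_of_deriv_zero (f := fun y => (a1 y * kk c y - a y * kk1 c y) / y) (by
    intro y hy
    have h1 := ((h.d2 y hy).mul (hasDerivAt_kk hc hy)).sub ((h.d1 y hy).mul (hasDerivAt_kk1 hc hy))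
    have h2 := h1.div (hasDerivAt_id y) hy.ne'
    refine h2.congr_deriv ?_
    have o1 := h.ode y hy
    have o2 := kk_ode hc hy
    simp only [id, Pi.mul_apply, Pi.sub_apply]
    rw [div_eq_zero_iff]
    left
    refine mul_left_cancel₀ hy.ne' ?_
    linear_combination (kk c y) * o1 - (a y) * o2)
  refine ⟨C, fun y hy => ?_⟩
  have hk := (kk_pos hc hy).ne'
  refine ((h.d1 y hy).div (hasDerivAt_kk hc hy) hk).congr_deriv ?_
  have := hC y hy
  rw [div_eq_iff hy.ne'] at this
  rw [this]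

/-- no bounded solution has a positive Wronskian -/
theorem Sol.no_pos {c : ℝ} (hc : 0 < c) {a : ℝ → ℝ} {B C : ℝ} (hB : ∀ y, 0 < y → |a y| ≤ B) (hC : 0 < C)
    (h : ∀ y, 0 < y → HasDerivAt (fun y => a y / kk c y) (C * y / kk c y ^ 2) y) : False := by
  obtain ⟨M, hM, hkM⟩ := kk_le hc
  set u : ℝ → ℝ := fun y => a y / kk c y with hu
  have hB' : ∀ y, 0 < y → |a y| ≤ max B 1 := fun y hy => (hB y hy).trans (le_max_left _ _)
  set B' := max B 1 with hB'def
  have hB1 : 0 < B' := lt_of_lt_of_le one_pos (le_max_right _ _)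
  -- growth of `u`
  have hcont : ∀ {y0 : ℝ}, 0 < y0 → ContinuousOn u (Ici y0) := fun {y0} h0 x hx =>
    (h x (lt_of_lt_of_le h0 hx)).continuousAt.continuousWithinAt
  have hdiff : ∀ {y0 : ℝ}, 0 < y0 → DifferentiableOn ℝ u (interior (Ici y0)) := fun {y0} h0 x hx =>
    (h x (lt_of_lt_of_le h0 (interior_subset hx))).differentiableAt.differentiableWithinAt
  have hmono : ∀ x y, 1 ≤ x → x ≤ y → C / M ^ 2 * (y - x) ≤ u y - u x := by
    intro x y hx hxy
    refine (convex_Ici (1 : ℝ)).mul_sub_le_image_sub_of_le_deriv (hcont one_pos) (hdiff one_pos) ?_ x hx y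
      (hx.trans hxy) hxy
    intro t ht
    rw [interior_Ici] at ht
    have ht1 : 1 ≤ t := le_of_lt ht
    have ht0 : 0 < t := by linarith
    rw [(h t ht0).deriv]
    have hk := kk_pos hc ht0
    rw [div_le_div_iff₀ (by positivity) (by positivity)]
    have h1 : kk c t ^ 2 ≤ M ^ 2 := pow_le_pow_left₀ hk.le (hkM t ht1) 2
    have h2 : 0 ≤ M ^ 2 := by positivity
    nlinarith [mul_le_mul_of_nonneg_left h1 hC.le, mul_nonneg hC.le h2]
  obtain ⟨y1, hy1, hu1⟩ : ∃ y1 : ℝ, 1 ≤ y1 ∧ 0 < u y1 := by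
    refine ⟨1 + (|u 1| + 1) * M ^ 2 / C, ?_, ?_⟩
    · have : 0 ≤ (|u 1| + 1) * M ^ 2 / C := by positivity
      linarith
    · have h1 := hmono 1 (1 + (|u 1| + 1) * M ^ 2 / C) le_rfl (by
        have : 0 ≤ (|u 1| + 1) * M ^ 2 / C := by positivity
        linarith)
      have h2 : C / M ^ 2 * (1 + (|u 1| + 1) * M ^ 2 / C - 1) = |u 1| + 1 := by
        field_simp
        ring
      rw [h2] at h1
      have := neg_abs_le (u 1)
      linarith
  have hy10 : 0 < y1 := by linarith
  have hupos : ∀ y, y1 ≤ y → 0 < u y := by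
    intro y hy
    have h1 := hmono y1 y hy1 hy
    have : 0 ≤ C / M ^ 2 * (y - y1) := by
      have : 0 ≤ y - y1 := by linarith
      positivity
    linarith
  -- `1/u` decreases linearly
  have hinv : ∀ y, y1 ≤ y → (C / B' ^ 2) * (y - y1) ≤ (-(1 / u y)) - (-(1 / u y1)) := by
    intro y hy
    refine (convex_Ici y1).mul_sub_le_image_sub_of_le_deriv (f := fun y => -(1 / u y)) ?_ ?_ ?_ y1 (le_refl y1 : y1 ∈ Ici y1) y hy hy
    · intro x hx
      have h1 := (h x (lt_of_lt_of_le hy10 hx)).continuousAt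
      exact ((continuousAt_const.div h1 (hupos x hx).ne').neg).continuousWithinAt
    · intro x hx
      have hx' := interior_subset hx
      have h1 := (h x (lt_of_lt_of_le hy10 hx')).differentiableAt
      exact (((differentiableAt_const _).div h1 (hupos x hx').ne').neg).differentiableWithinAt
    · intro t ht
      rw [interior_Ici] at ht
      have ht1 : y1 ≤ t := le_of_lt ht
      have ht0 : 0 < t := by linarith
      have hut := hupos t ht1
      have hk := kk_pos hc ht0
      have hd : HasDerivAt (fun y => -(1 / u y)) (C * t / kk c t ^ 2 / u t ^ 2) t := by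
        have h1 := ((hasDerivAt_const t (1 : ℝ)).div (h t ht0) hut.ne').neg
        refine h1.congr_deriv ?_
        simp only [hu]
        ring
      rw [hd.deriv]
      have hau : a t = u t * kk c t := by
        simp only [hu]
        field_simp
      have h3 : u t * kk c t ≤ B' := by
        have := (le_abs_self _).trans (hB' t ht0)
        rwa [hau] at this
      rw [div_div, ← mul_pow, div_le_div_iff₀ (by positivity) (by positivity)]
      have h4 : (kk c t * u t) ^ 2 ≤ B' ^ 2 := by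
        refine pow_le_pow_left₀ (by positivity) ?_ 2
        linarith [mul_comm (u t) (kk c t)]
      have h5 : (1 : ℝ) ≤ t := hy1.trans ht1
      have h6 : 0 ≤ B' ^ 2 := by positivity
      nlinarith [mul_le_mul_of_nonneg_left h4 hC.le, mul_nonneg hC.le h6]
  have hfin := hinv (y1 + (1 / u y1 + 1) * B' ^ 2 / C) (by
    have : 0 ≤ (1 / u y1 + 1) * B' ^ 2 / C := by positivity
    linarith)
  have h7 : C / B' ^ 2 * (y1 + (1 / u y1 + 1) * B' ^ 2 / C - y1) = 1 / u y1 + 1 := by
    field_simp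
    ring
  rw [h7] at hfin
  have h8 := hupos (y1 + (1 / u y1 + 1) * B' ^ 2 / C) (by
    have : 0 ≤ (1 / u y1 + 1) * B' ^ 2 / C := by positivity
    linarith)
  have h9 : 0 < 1 / u (y1 + (1 / u y1 + 1) * B' ^ 2 / C) := by positivity
  linarith

/-- **Uniqueness**: a bounded solution is a multiple of `y K₀(c y)`. -/
theorem Sol.eq_mul_kk {c : ℝ} (hc : 0 < c) {a a1 a2 : ℝ → ℝ} (h : Sol c a a1 a2) {B : ℝ}
    (hB : ∀ y, 0 < y → |a y| ≤ B) : ∃ D, ∀ y, 0 < y → a y = D * kk c y := by
  obtain ⟨C, hC⟩ := h.wronskian hc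
  rcases lt_trichotomy C 0 with h0 | h0 | h0
  · exfalso
    refine Sol.no_pos (a := fun y => -a y) (C := -C) hc (fun y hy => by rw [abs_neg]; exact hB y hy) (by linarith) ?_
    intro y hy
    have := (hC y hy).neg
    refine (this.congr_deriv (by ring)).congr_of_eventuallyEq (.of_forall fun x => ?_)
    simp only [Pi.neg_apply]
    ring
  · obtain ⟨D, hD⟩ := const_of_deriv_zero (f := fun y => a y / kk c y) (fun y hy => by
      refine (hC y hy).congr_deriv ?_
      rw [h0]; simp)
    refine ⟨D, fun y hy => ?_⟩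
    have := hD y hy
    rwa [div_eq_iff (kk_pos hc hy).ne'] at this
  · exact (Sol.no_pos hc hB h0 hC).elim

/-- for `c = 0` a bounded solution vanishes -/
theorem Sol.eq_zero {a a1 a2 : ℝ → ℝ} (h : Sol 0 a a1 a2) {B : ℝ} (hB : ∀ y, 0 < y → |a y| ≤ B) :
    ∀ y, 0 < y → a y = 0 := by
  obtain ⟨C, hC⟩ := const_of_deriv_zero (f := fun y => (a1 y * y - a y) / y) (by
    intro y hy
    have h1 := (((h.d2 y hy).mul (hasDerivAt_id y)).sub (h.d1 y hy)).div (hasDerivAt_id y) hy.ne'
    refine h1.congr_deriv ?_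
    have o1 := h.ode y hy
    simp only [id, Pi.mul_apply, Pi.sub_apply]
    rw [div_eq_zero_iff]
    left
    linear_combination o1)
  have hu : ∀ y, 0 < y → HasDerivAt (fun y => a y / y) (C / y) y := by
    intro y hy
    refine ((h.d1 y hy).div (hasDerivAt_id y) hy.ne').congr_deriv ?_
    have := hC y hy
    simp only [id]
    rw [mul_one, pow_two, ← div_div, this]
  obtain ⟨A, hA⟩ := const_of_deriv_zero (f := fun y => a y / y - C * Real.log y) (by
    intro y hy
    refine ((hu y hy).sub ((Real.hasDerivAt_log hy.ne').const_mul C)).congr_deriv ?_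
    ring)
  have hB0 : 0 ≤ B := (abs_nonneg _).trans (hB 1 one_pos)
  have hlim : ∀ y, 1 ≤ y → |A + C * Real.log y| ≤ B / y := by
    intro y hy
    have hy0 : 0 < y := by linarith
    have h1 := hA y hy0
    have h2 : A + C * Real.log y = a y / y := by linarith
    rw [h2, abs_div, abs_of_pos hy0]
    have := hB y hy0
    gcongr
  have hC0 : C = 0 := by
    by_contra hne
    -- at `y = exp t`
    have key : ∀ t : ℝ, 0 ≤ t → |A + C * t| ≤ B := by
      intro t ht
      have h1 := hlim (Real.exp t) (Real.one_le_exp ht)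
      rw [Real.log_exp] at h1
      refine h1.trans ?_
      rw [div_le_iff₀ (Real.exp_pos t)]
      nlinarith [Real.one_le_exp ht]
    have h2 := key ((|A| + B + 1) / |C|) (by positivity)
    have h3 : |C * ((|A| + B + 1) / |C|)| = |A| + B + 1 := by
      rw [abs_mul, abs_div, abs_abs, mul_div_cancel₀ _ (abs_ne_zero.mpr hne)]
      rw [abs_of_nonneg (by positivity)]
    have h4 : |C * ((|A| + B + 1) / |C|)| ≤ |A + C * ((|A| + B + 1) / |C|)| + |A| := by
      have := abs_sub (A + C * ((|A| + B + 1) / |C|)) A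
      have h5 : A + C * ((|A| + B + 1) / |C|) - A = C * ((|A| + B + 1) / |C|) := by ring
      rw [h5] at this
      exact this
    linarith
  subst hC0
  have hA0 : A = 0 := by
    by_contra hne
    have hpos : 0 < |A| := abs_pos.mpr hne
    have h1 := hlim (max 1 ((B + 1) / |A|)) (le_max_left _ _)
    rw [zero_mul, add_zero] at h1
    have h2 : 0 < max 1 ((B + 1) / |A|) := lt_of_lt_of_le one_pos (le_max_left _ _)
    rw [le_div_iff₀ h2] at h1
    have h3 : |A| * ((B + 1) / |A|) ≤ |A| * max 1 ((B + 1) / |A|) := by gcongr; exact le_max_right _ _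
    rw [mul_div_cancel₀ _ hpos.ne'] at h3
    linarith
  intro y hy
  have h1 := hA y hy
  rw [hA0, zero_mul, sub_zero, div_eq_zero_iff] at h1
  exact h1.resolve_right hy.ne'

end Fermat.Agent.H68F
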