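import Fermat.Agent.H68F2
import Fermat.Agent.H22ZK0b

/-! # S47, block FE: complex solutions, several variables, bounds (helper68) -/

open MeasureTheory Set
open scoped Real Topology

namespace Fermat.Agent.H68F

open Fermat.Agent.H22Z

/-- complex valued solutions -/
structure SolC (c : ℝ) (a a1 a2 : ℝ → ℂ) : Prop where
  d1 : ∀ y, 0 < y → HasDerivAt a (a1 y) y
  d2 : ∀ y, 0 < y → HasDerivAt a1 (a2 y) y
  ode : ∀ y : ℝ, 0 < y → (y : ℂ) ^ 2 * a2 y - y * a1 y + a y = (c * y) ^ 2 * a y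

theorem hasDerivAt_re {f : ℝ → ℂ} {f' : ℂ} {y : ℝ} (h : HasDerivAt f f' y) : HasDerivAt (fun y => (f y).re) f'.re y :=
  Complex.reCLM.hasFDerivAt.comp_hasDerivAt y h

theorem hasDerivAt_im {f : ℝ → ℂ} {f' : ℂ} {y : ℝ} (h : HasDerivAt f f' y) : HasDerivAt (fun y => (f y).im) f'.im y :=
  Complex.imCLM.hasFDerivAt.comp_hasDerivAt y h

theorem SolC.re {c : ℝ} {a a1 a2 : ℝ → ℂ} (h : SolC c a a1 a2) :
    Sol c (fun y => (a y).re) (fun y => (a1 y).re) (fun y => (a2 y).re) where
  d1 y hy := hasDerivAt_re (h.d1 y hy)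
  d2 y hy := hasDerivAt_re (h.d2 y hy)
  ode y hy := by
    have := congrArg Complex.re (h.ode y hy)
    rw [show ((c : ℂ) * y) ^ 2 = (((c * y) ^ 2 : ℝ) : ℂ) by push_cast; ring,
      show (y : ℂ) ^ 2 = ((y ^ 2 : ℝ) : ℂ) by push_cast; ring] at this
    simpa only [Complex.add_re, Complex.sub_re, Complex.re_ofReal_mul] using this

theorem SolC.im {c : ℝ} {a a1 a2 : ℝ → ℂ} (h : SolC c a a1 a2) :
    Sol c (fun y => (a y).im) (fun y => (a1 y).im) (fun y => (a2 y).im) where
  d1 y hy := hasDerivAt_im (h.d1 y hy)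
  d2 y hy := hasDerivAt_im (h.d2 y hy)
  ode y hy := by
    have := congrArg Complex.im (h.ode y hy)
    rw [show ((c : ℂ) * y) ^ 2 = (((c * y) ^ 2 : ℝ) : ℂ) by push_cast; ring,
      show (y : ℂ) ^ 2 = ((y ^ 2 : ℝ) : ℂ) by push_cast; ring] at this
    simpa only [Complex.add_im, Complex.sub_im, Complex.im_ofReal_mul] using this

theorem SolC.eq_mul_kk {c : ℝ} (hc : 0 < c) {a a1 a2 : ℝ → ℂ} (h : SolC c a a1 a2) {B : ℝ}
    (hB : ∀ y, 0 < y → ‖a y‖ ≤ B) : ∃ D : ℂ, ∀ y, 0 < y → a y = D * (kk c y : ℂ) := by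
  obtain ⟨D1, h1⟩ := h.re.eq_mul_kk hc (B := B) (fun y hy => (Complex.abs_re_le_norm _).trans (hB y hy))
  obtain ⟨D2, h2⟩ := h.im.eq_mul_kk hc (B := B) (fun y hy => (Complex.abs_im_le_norm _).trans (hB y hy))
  refine ⟨⟨D1, D2⟩, fun y hy => ?_⟩
  apply Complex.ext
  · rw [h1 y hy]; simp
  · rw [h2 y hy]; simp

theorem SolC.eq_zero {a a1 a2 : ℝ → ℂ} (h : SolC 0 a a1 a2) {B : ℝ} (hB : ∀ y, 0 < y → ‖a y‖ ≤ B) :
    ∀ y, 0 < y → a y = 0 := by
  intro y hy
  apply Complex.ext
  · exact h.re.eq_zero (B := B) (fun y hy => (Complex.abs_re_le_norm _).trans (hB y hy)) y hy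
  · exact h.im.eq_zero (B := B) (fun y hy => (Complex.abs_im_le_norm _).trans (hB y hy)) y hy

/-! ### several variables -/

variable {ι : Type*} [Fintype ι] [DecidableEq ι]

omit [Fintype ι] in
theorem update_pos {y : ι → ℝ} (hy : ∀ j, 0 < y j) {j : ι} {η : ℝ} (hη : 0 < η) :
    ∀ i, 0 < Function.update y j η i := by
  intro i
  by_cases h : i = j
  · subst h; simpa using hη
  · simpa [Function.update_of_ne h] using hy i

/-- a function of the positive `y` that does not change when one coordinate changes is constant -/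
theorem const_of_update {q : (ι → ℝ) → ℂ}
    (h : ∀ y, (∀ j, 0 < y j) → ∀ j η, 0 < η → q (Function.update y j η) = q y) {y y' : ι → ℝ}
    (hy : ∀ j, 0 < y j) (hy' : ∀ j, 0 < y' j) : q y = q y' := by
  have key : ∀ s : Finset ι, q (s.piecewise y y') = q y' := by
    intro s
    induction s using Finset.induction_on with
    | empty => simp
    | insert j s hj ih =>
      rw [Finset.piecewise_insert, h _ ?_ j (y j) (hy j), ih]
      intro i
      by_cases hi : i ∈ s
      · simpa [Finset.piecewise_eq_of_mem _ _ _ hi] using hy i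
      · simpa [Finset.piecewise_eq_of_notMem _ _ _ hi] using hy' i
  have := key Finset.univ
  rwa [Finset.piecewise_univ] at this

theorem prod_form {c : ι → ℝ} (hc : ∀ j, 0 < c j) {a : (ι → ℝ) → ℂ}
    (h : ∀ y, (∀ j, 0 < y j) → ∀ j, ∃ D : ℂ, ∀ η, 0 < η → a (Function.update y j η) = D * (kk (c j) η : ℂ)) :
    ∃ D : ℂ, ∀ y, (∀ j, 0 < y j) → a y = D * ∏ j, (kk (c j) (y j) : ℂ) := by
  have hne : ∀ y : ι → ℝ, (∀ j, 0 < y j) → (∏ j, (kk (c j) (y j) : ℂ)) ≠ 0 := fun y hy =>
    Finset.prod_ne_zero_iff.mpr fun j _ => by exact_mod_cast (kk_pos (hc j) (hy j)).ne'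
  have hq : ∀ y, (∀ j, 0 < y j) → ∀ j η, 0 < η →
      a (Function.update y j η) / (∏ i, (kk (c i) (Function.update y j η i) : ℂ)) = a y / ∏ i, (kk (c i) (y i) : ℂ) := by
    intro y hy j η hη
    obtain ⟨D, hD⟩ := h y hy j
    have e1 : a y = D * (kk (c j) (y j) : ℂ) := by
      have := hD (y j) (hy j)
      rwa [Function.update_eq_self] at this
    have e2 : (∏ i, (kk (c i) (Function.update y j η i) : ℂ)) =
        (kk (c j) η : ℂ) * ∏ i ∈ Finset.univ.erase j, (kk (c i) (y i) : ℂ) := by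
      rw [← Finset.mul_prod_erase _ _ (Finset.mem_univ j), Function.update_self]
      congr 1
      refine Finset.prod_congr rfl fun i hi => ?_
      rw [Function.update_of_ne (Finset.ne_of_mem_erase hi)]
    have e3 : (∏ i, (kk (c i) (y i) : ℂ)) =
        (kk (c j) (y j) : ℂ) * ∏ i ∈ Finset.univ.erase j, (kk (c i) (y i) : ℂ) := by
      rw [← Finset.mul_prod_erase _ _ (Finset.mem_univ j)]
    have n1 : (kk (c j) η : ℂ) ≠ 0 := by exact_mod_cast (kk_pos (hc j) hη).ne'
    have n2 : (kk (c j) (y j) : ℂ) ≠ 0 := by exact_mod_cast (kk_pos (hc j) (hy j)).ne'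
    have n3 : (∏ i ∈ Finset.univ.erase j, (kk (c i) (y i) : ℂ)) ≠ 0 :=
      Finset.prod_ne_zero_iff.mpr fun i _ => by exact_mod_cast (kk_pos (hc i) (hy i)).ne'
    rw [hD η hη, e1, e2, e3]
    field_simp
  refine ⟨a (fun _ => 1) / ∏ j, (kk (c j) 1 : ℂ), fun y hy => ?_⟩
  have h1 : a y / (∏ i, (kk (c i) (y i) : ℂ)) = a (fun _ => 1) / ∏ j, (kk (c j) 1 : ℂ) :=
    const_of_update (q := fun y => a y / ∏ i, (kk (c i) (y i) : ℂ)) hq hy (y' := fun _ => 1) (fun _ => one_pos)
  rw [← h1, div_mul_cancel₀ _ (hne y hy)]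

/-! ### bounds -/

/-- `x K₀(4πx) ≤ C exp (-x)` on `x > 0` -/
theorem mul_K0_le : ∃ C : ℝ, 0 < C ∧ ∀ x : ℝ, 0 < x → x * K0 (4 * π * x) ≤ C * Real.exp (-x) := by
  obtain ⟨C1, hC1, h1⟩ := KJ_le 0 (a := 4 * π) (by positivity)
  have hpi := Real.pi_gt_three
  refine ⟨C1 + Real.exp 1 * (4 * π + 3), by positivity, fun x hx => ?_⟩
  rcases le_or_gt 1 x with h | h
  · have h2 := h1 (4 * π * x) (by nlinarith)
    rw [KJ_zero] at h2
    have h3 : x ≤ Real.exp x := by linarith [Real.add_one_le_exp x]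
    have h4 : x * Real.exp (-(4 * π * x)) ≤ Real.exp (-x) := by
      have h5 : Real.exp (-(4 * π * x)) ≤ Real.exp (-(2 * x)) := Real.exp_le_exp.mpr (by nlinarith)
      calc x * Real.exp (-(4 * π * x)) ≤ Real.exp x * Real.exp (-(2 * x)) := by gcongr
        _ = Real.exp (-x) := by rw [← Real.exp_add]; congr 1; ring
    calc x * K0 (4 * π * x) ≤ x * (C1 * Real.exp (-(4 * π * x))) := by gcongr
      _ = C1 * (x * Real.exp (-(4 * π * x))) := by ring
      _ ≤ C1 * Real.exp (-x) := by gcongr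
      _ ≤ (C1 + Real.exp 1 * (4 * π + 3)) * Real.exp (-x) := by
          have : 0 ≤ Real.exp 1 * (4 * π + 3) := by positivity
          gcongr
          linarith
  · have h2 := K0_le_log (x := 4 * π * x) (by positivity)
    -- `|log t| ≤ t + 1/t`
    have h3 : |Real.log (4 * π * x)| ≤ 4 * π * x + 1 / x := by
      have ht : 0 < 4 * π * x := by positivity
      rw [abs_le]
      constructor
      · have := Real.log_le_sub_one_of_pos (inv_pos.mpr ht)
        rw [Real.log_inv] at this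
        have h4 : (4 * π * x)⁻¹ ≤ 1 / x := by
          rw [one_div]
          exact inv_anti₀ hx (by nlinarith)
        linarith
      · have := Real.log_le_sub_one_of_pos ht
        have : 0 < 1 / x := by positivity
        linarith
    have h5 : x * K0 (4 * π * x) ≤ 4 * π + 3 := by
      calc x * K0 (4 * π * x) ≤ x * (4 * π * x + 1 / x + 2) := by
            have := h2.trans (add_le_add_left h3 2)
            gcongr
        _ = 4 * π * (x * x) + 1 + 2 * x := by field_simp
        _ ≤ 4 * π * 1 + 1 + 2 * 1 := by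
            have : x * x ≤ 1 := by nlinarith
            gcongr
        _ = 4 * π + 3 := by ring
    have h6 : 1 ≤ Real.exp 1 * Real.exp (-x) := by
      rw [← Real.exp_add]
      exact Real.one_le_exp (by linarith)
    calc x * K0 (4 * π * x) ≤ 4 * π + 3 := h5
      _ ≤ (4 * π + 3) * (Real.exp 1 * Real.exp (-x)) := by
          have : 0 ≤ 4 * π + 3 := by positivity
          nlinarith
      _ = (Real.exp 1 * (4 * π + 3)) * Real.exp (-x) := by ring
      _ ≤ (C1 + Real.exp 1 * (4 * π + 3)) * Real.exp (-x) := by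
          gcongr
          linarith

end Fermat.Agent.H68F
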