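import Fermat.Agent.H68F1
import Fermat.Agent.H68F3

/-! # S47, block FE: Fourier coefficients of eigenfunctions on `(H3)^ι` (helper68)

Coordinates `p : ι → ℂ × ℝ`, `p j = (z_j, y_j)`, domain `Om = {y_j > 0}`. -/

open MeasureTheory Set
open scoped Real Topology

namespace Fermat.Agent.H68F

open Fermat.Agent.H22Z

variable {κ ι : Type*}

/-- the domain -/
def Om (ι : Type*) : Set (ι → ℂ × ℝ) := {p | ∀ j, 0 < (p j).2}

/-- horizontal vector -/
def hor (z : ι → ℂ) : ι → ℂ × ℝ := fun j => (z j, 0)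

theorem hor_add (z w : ι → ℂ) : hor (z + w) = hor z + hor w := by
  funext j; simp [hor]

theorem hor_smul (s : ℝ) (z : ι → ℂ) : hor (s • z) = s • hor z := by
  funext j; simp [hor]

theorem add_hor_mem {p : ι → ℂ × ℝ} (z : ι → ℂ) : p + hor z ∈ Om ι ↔ p ∈ Om ι := by
  simp [Om, hor]

variable [Fintype ι]

theorem isOpen_Om : IsOpen (Om ι) := by
  have : Om ι = ⋂ j, {p : ι → ℂ × ℝ | 0 < (p j).2} := by ext p; simp [Om]
  rw [this]
  exact isOpen_iInter_of_finite fun j => isOpen_lt continuous_const (by fun_prop)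

/-- the pairing `Σ 2 Re (ν_j z_j)` -/
noncomputable def pr (ν z : ι → ℂ) : ℝ := ∑ j, 2 * (ν j * z j).re

theorem pr_add (ν z w : ι → ℂ) : pr ν (z + w) = pr ν z + pr ν w := by
  unfold pr
  rw [← Finset.sum_add_distrib]
  refine Finset.sum_congr rfl fun j _ => ?_
  simp [mul_add]

theorem pr_smul (ν : ι → ℂ) (s : ℝ) (z : ι → ℂ) : pr ν (s • z) = s * pr ν z := by
  unfold pr
  rw [Finset.mul_sum]
  refine Finset.sum_congr rfl fun j _ => ?_
  simp only [Pi.smul_apply, Complex.real_smul]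
  rw [show ν j * ((s : ℂ) * z j) = (s : ℂ) * (ν j * z j) by ring, Complex.re_ofReal_mul]
  ring

theorem pr_sum {α : Type*} (s : Finset α) (ν : ι → ℂ) (z : α → ι → ℂ) : pr ν (∑ i ∈ s, z i) = ∑ i ∈ s, pr ν (z i) := by
  classical
  induction s using Finset.induction_on with
  | empty => simp [pr]
  | insert i s hi ih => rw [Finset.sum_insert hi, Finset.sum_insert hi, pr_add, ih]

theorem pr_single [DecidableEq ι] (ν : ι → ℂ) (j : ι) (w : ℂ) : pr ν (Pi.single j w) = 2 * (ν j * w).re := by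
  unfold pr
  rw [Finset.sum_eq_single j]
  · simp
  · intro i _ hi; simp [Pi.single_eq_of_ne hi]
  · simp

/-- derivative in the direction `v` -/
noncomputable def D1 (v : ι → ℂ × ℝ) (f : (ι → ℂ × ℝ) → ℂ) (q : ι → ℂ × ℝ) : ℂ := fderiv ℝ f q v

variable [Fintype κ] (b : Module.Basis κ ℝ (ι → ℂ))

/-- periodic under the lattice spanned by `b` -/
def Per (f : (ι → ℂ × ℝ) → ℂ) : Prop := ∀ p ∈ Om ι, ∀ v ∈ Submodule.span ℤ (Set.range b), f (p + hor v) = f p

/-- the Fourier coefficient as a function of the base point -/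
noncomputable def AA (f : (ι → ℂ × ℝ) → ℂ) (m : κ → ℤ) (p : ι → ℂ × ℝ) : ℂ :=
  fc (fun t => f (p + hor (b.equivFun.symm t))) m

variable {b}

omit [Fintype ι] in
theorem Per.zper {f : (ι → ℂ × ℝ) → ℂ} (hf : Per b f) {p : ι → ℂ × ℝ} (hp : p ∈ Om ι) :
    ZPer fun t : κ → ℝ => f (p + hor (b.equivFun.symm t)) := by
  intro t m
  have h1 : (fun i => t i + (m i : ℝ)) = t + fun i => (m i : ℝ) := rfl
  have h2 : b.equivFun.symm (fun i => (m i : ℝ)) ∈ Submodule.span ℤ (Set.range b) := by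
    rw [Module.Basis.equivFun_symm_apply]
    refine Submodule.sum_mem _ fun i _ => ?_
    rw [show ((m i : ℝ) • b i : ι → ℂ) = (m i : ℤ) • b i from Int.cast_smul_eq_zsmul ℝ _ _]
    exact Submodule.smul_mem _ _ (Submodule.subset_span ⟨i, rfl⟩)
  show f (p + hor (b.equivFun.symm fun i => t i + (m i : ℝ))) = f (p + hor (b.equivFun.symm t))
  rw [h1, map_add, hor_add, ← add_assoc]
  exact hf _ ((add_hor_mem _).mpr hp) _ h2

omit [Fintype ι] in
theorem continuous_hor_T (p : ι → ℂ × ℝ) : Continuous fun t : κ → ℝ => p + hor (b.equivFun.symm t) := by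
  have h : Continuous fun t : κ → ℝ => b.equivFun.symm t :=
    LinearMap.continuous_of_finiteDimensional (b.equivFun.symm : (κ → ℝ) →ₗ[ℝ] (ι → ℂ))
  have h2 : Continuous (hor : (ι → ℂ) → ι → ℂ × ℝ) := by unfold hor; fun_prop
  exact continuous_const.add (h2.comp h)

omit [Fintype ι] in
theorem continuous_hor_T' : Continuous fun q : (ι → ℂ × ℝ) × (κ → ℝ) => q.1 + hor (b.equivFun.symm q.2) := by
  have h : Continuous fun t : κ → ℝ => b.equivFun.symm t :=
    LinearMap.continuous_of_finiteDimensional (b.equivFun.symm : (κ → ℝ) →ₗ[ℝ] (ι → ℂ))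
  have h2 : Continuous (hor : (ι → ℂ) → ι → ℂ × ℝ) := by unfold hor; fun_prop
  exact continuous_fst.add (h2.comp (h.comp continuous_snd))

omit [Fintype ι] in
theorem continuous_slice {f : (ι → ℂ × ℝ) → ℂ} (hc : ContinuousOn f (Om ι)) {p : ι → ℂ × ℝ} (hp : p ∈ Om ι) :
    Continuous fun t : κ → ℝ => f (p + hor (b.equivFun.symm t)) := by
  rw [← continuousOn_univ]
  exact hc.comp (continuous_hor_T p).continuousOn fun t _ => (add_hor_mem _).mpr hp

theorem contDiffOn_D1 {n : WithTop ℕ∞} {m : WithTop ℕ∞} (hmn : m + 1 ≤ n) {f : (ι → ℂ × ℝ) → ℂ} (hf : ContDiffOn ℝ n f (Om ι))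
    (v : ι → ℂ × ℝ) : ContDiffOn ℝ m (D1 v f) (Om ι) :=
  (hf.fderiv_of_isOpen isOpen_Om hmn).clm_apply contDiffOn_const

theorem hasDerivAt_line {f : (ι → ℂ × ℝ) → ℂ} (hf : ContDiffOn ℝ 1 f (Om ι)) {p v : ι → ℂ × ℝ} {s : ℝ}
    (hs : p + s • v ∈ Om ι) : HasDerivAt (fun s : ℝ => f (p + s • v)) (D1 v f (p + s • v)) s := by
  have h1 : HasFDerivAt f (fderiv ℝ f (p + s • v)) (p + s • v) :=
    ((hf.differentiableOn one_ne_zero).differentiableAt (isOpen_Om.mem_nhds hs)).hasFDerivAt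
  have h2 : HasDerivAt (fun s : ℝ => p + s • v) v s := by
    simpa using ((hasDerivAt_id s).smul_const v).const_add p
  exact h1.comp_hasDerivAt s h2

omit [Fintype κ] in
theorem Per.D1 {f : (ι → ℂ × ℝ) → ℂ} (hf : Per b f) (hd : ContDiffOn ℝ 1 f (Om ι)) (v : ι → ℂ × ℝ) :
    Per b (D1 v f) := by
  intro p hp w hw
  have h1 := hasDerivAt_line hd (p := p + hor w) (v := v) (s := 0) (by simpa using (add_hor_mem w).mpr hp)
  have h2 := hasDerivAt_line hd (p := p) (v := v) (s := 0) (by simpa using hp)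
  rw [zero_smul, add_zero] at h1 h2
  refine h1.unique (h2.congr_of_eventuallyEq ?_)
  have hev : ∀ᶠ s in 𝓝 (0 : ℝ), p + s • v ∈ Om ι := by
    have hc : Continuous fun s : ℝ => p + s • v := by fun_prop
    exact hc.continuousAt.eventually (isOpen_Om.mem_nhds (by simpa using hp))
  filter_upwards [hev] with s hs
  have := hf _ hs w hw
  rw [← this]
  congr 1
  abel

theorem hasDerivAt_AA {f : (ι → ℂ × ℝ) → ℂ} (hf : Per b f) (hd : ContDiffOn ℝ 1 f (Om ι)) {p v : ι → ℂ × ℝ} {s : ℝ}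
    (hs : p + s • v ∈ Om ι) (m : κ → ℤ) :
    HasDerivAt (fun s : ℝ => AA b f m (p + s • v)) (AA b (D1 v f) m (p + s • v)) s := by
  have hcl : Continuous fun s : ℝ => p + s • v := by fun_prop
  refine hasDerivAt_fc (g := fun s t => f (p + s • v + hor (b.equivFun.symm t)))
    (g' := fun s t => D1 v f (p + s • v + hor (b.equivFun.symm t))) (U := {s : ℝ | p + s • v ∈ Om ι})
    (isOpen_Om.preimage hcl) ?_ ?_ ?_ ?_ hs m
  · intro s hs; exact hf.zper hs
  · intro s hs; exact continuous_slice hd.continuousOn hs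
  · intro s hs t
    have h := hasDerivAt_line hd (p := p + hor (b.equivFun.symm t)) (v := v) (s := s)
      (by rw [add_right_comm]; exact (add_hor_mem _).mpr hs)
    have e : ∀ s : ℝ, p + hor (b.equivFun.symm t) + s • v = p + s • v + hor (b.equivFun.symm t) := fun s => by
      rw [add_right_comm]
    simp only [e] at h
    exact h
  · have hc1 : ContinuousOn (D1 v f) (Om ι) := (contDiffOn_D1 (m := 0) (by norm_num) hd v).continuousOn
    refine hc1.comp (f := fun q : ℝ × (κ → ℝ) => p + q.1 • v + hor (b.equivFun.symm q.2)) ?_ ?_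
    · have h3 : Continuous fun q : ℝ × (κ → ℝ) => ((p + q.1 • v, q.2) : (ι → ℂ × ℝ) × (κ → ℝ)) := by fun_prop
      exact (continuous_hor_T'.comp h3).continuousOn
    · intro q hq
      exact (add_hor_mem _).mpr hq.1

/-! ### the dual lattice -/

/-- `ν ↦ (⟨ν, b i⟩)_i` -/
noncomputable def prMap (b : Module.Basis κ ℝ (ι → ℂ)) : (ι → ℂ) →ₗ[ℝ] (κ → ℝ) where
  toFun ν i := pr ν (b i)
  map_add' ν ν' := by
    funext i
    simp only [Pi.add_apply, pr]
    rw [← Finset.sum_add_distrib]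
    refine Finset.sum_congr rfl fun j _ => ?_
    simp [add_mul]
    ring
  map_smul' s ν := by
    funext i
    simp only [Pi.smul_apply, pr, RingHom.id_apply, smul_eq_mul]
    rw [Finset.mul_sum]
    refine Finset.sum_congr rfl fun j _ => ?_
    rw [Complex.real_smul, show (s : ℂ) * ν j * b i j = (s : ℂ) * (ν j * b i j) by ring, Complex.re_ofReal_mul]
    ring

theorem prMap_injective (b : Module.Basis κ ℝ (ι → ℂ)) : Function.Injective (prMap b) := by
  rw [injective_iff_map_eq_zero]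
  intro ν h
  have h1 : ∀ z, pr ν z = 0 := by
    intro z
    rw [← b.sum_equivFun z, pr_sum]
    refine Finset.sum_eq_zero fun i _ => ?_
    rw [pr_smul]
    have : pr ν (b i) = 0 := congrFun h i
    rw [this, mul_zero]
  have h2 := h1 fun j => (starRingEnd ℂ) (ν j)
  unfold pr at h2
  have h3 : ∀ j, (ν j * (starRingEnd ℂ) (ν j)).re = ‖ν j‖ ^ 2 := fun j => by
    rw [Complex.mul_conj, Complex.ofReal_re, Complex.normSq_eq_norm_sq]
  simp only [h3] at h2
  rw [Finset.sum_eq_zero_iff_of_nonneg (fun j _ => by positivity)] at h2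
  funext j
  have := h2 j (Finset.mem_univ j)
  have h4 : ‖ν j‖ ^ 2 = 0 := by linarith
  simpa using h4

omit [Fintype ι] in
theorem finrank_eq (b : Module.Basis κ ℝ (ι → ℂ)) : Module.finrank ℝ (ι → ℂ) = Module.finrank ℝ (κ → ℝ) := by
  rw [Module.finrank_eq_card_basis b, Module.finrank_pi]

/-- the dual vector: `⟨dual b m, b i⟩ = m i` -/
noncomputable def dual (b : Module.Basis κ ℝ (ι → ℂ)) (m : κ → ℤ) : ι → ℂ :=
  (LinearEquiv.ofInjectiveOfFinrankEq (prMap b) (prMap_injective b) (finrank_eq b)).symm fun i => (m i : ℝ)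

theorem pr_dual (b : Module.Basis κ ℝ (ι → ℂ)) (m : κ → ℤ) (i : κ) : pr (dual b m) (b i) = m i := by
  have h := (LinearEquiv.ofInjectiveOfFinrankEq (prMap b) (prMap_injective b) (finrank_eq b)).apply_symm_apply
    fun i => (m i : ℝ)
  exact congrFun h i

theorem pr_dual_eq (b : Module.Basis κ ℝ (ι → ℂ)) (m : κ → ℤ) (z : ι → ℂ) :
    pr (dual b m) z = ∑ i, m i * b.equivFun z i := by
  conv_lhs => rw [← b.sum_equivFun z]
  rw [pr_sum]
  refine Finset.sum_congr rfl fun i _ => ?_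
  rw [pr_smul, pr_dual, mul_comm]

theorem dual_injective (b : Module.Basis κ ℝ (ι → ℂ)) : Function.Injective (dual b) := by
  intro m m' h
  funext i
  have h1 := pr_dual b m i
  rw [h, pr_dual] at h1
  exact_mod_cast h1.symm

theorem eq_dual {ν : ι → ℂ} {m : κ → ℤ} (h : ∀ i, pr ν (b i) = m i) : ν = dual b m :=
  prMap_injective b (funext fun i => (h i).trans (pr_dual b m i).symm)

theorem AA_hor {f : (ι → ℂ × ℝ) → ℂ} (hf : Per b f) {p : ι → ℂ × ℝ} (hp : p ∈ Om ι) (m : κ → ℤ) (z : ι → ℂ) :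
    AA b f m (p + hor z) = ee (pr (dual b m) z) * AA b f m p := by
  unfold AA
  rw [pr_dual_eq, ← fc_translate (hf.zper hp) (b.equivFun z) m]
  congr 1
  funext t
  rw [map_add, LinearEquiv.symm_apply_apply, hor_add, add_comm (hor (b.equivFun.symm t)), add_assoc]

theorem AA_D1_hor {f : (ι → ℂ × ℝ) → ℂ} (hf : Per b f) (hd : ContDiffOn ℝ 1 f (Om ι)) {p : ι → ℂ × ℝ} (hp : p ∈ Om ι)
    (m : κ → ℤ) (z : ι → ℂ) :
    AA b (D1 (hor z) f) m p = 2 * π * Complex.I * pr (dual b m) z * AA b f m p := by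
  have h1 := hasDerivAt_AA hf hd (p := p) (v := hor z) (s := 0) (by simpa using hp) m
  have h2 : (fun s : ℝ => AA b f m (p + s • hor z)) = fun s : ℝ => ee (s * pr (dual b m) z) * AA b f m p := by
    funext s
    rw [← hor_smul, AA_hor hf hp, pr_smul]
  rw [h2, zero_smul, add_zero] at h1
  have h3 : HasDerivAt (fun s : ℝ => ee (s * pr (dual b m) z)) (2 * π * Complex.I * pr (dual b m) z) 0 := by
    unfold ee
    have h4 : HasDerivAt (fun s : ℝ => (2 * π * Complex.I * ((s * pr (dual b m) z : ℝ) : ℂ) : ℂ))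
        (2 * π * Complex.I * pr (dual b m) z) 0 := by
      have h5 : HasDerivAt (fun s : ℝ => ((s * pr (dual b m) z : ℝ) : ℂ)) (pr (dual b m) z : ℂ) 0 := by
        have := ((hasDerivAt_id (0 : ℝ)).mul_const (pr (dual b m) z)).ofReal_comp
        simpa using this
      simpa using h5.const_mul (2 * π * Complex.I)
    have h6 := h4.cexp
    simpa using h6
  exact h1.unique (h3.mul_const _)

theorem AA_D2_hor {f : (ι → ℂ × ℝ) → ℂ} (hf : Per b f) (hd : ContDiffOn ℝ 2 f (Om ι)) {p : ι → ℂ × ℝ} (hp : p ∈ Om ι)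
    (m : κ → ℤ) (z : ι → ℂ) :
    AA b (D1 (hor z) (D1 (hor z) f)) m p = -(2 * π * pr (dual b m) z) ^ 2 * AA b f m p := by
  have hd1 : ContDiffOn ℝ 1 f (Om ι) := hd.of_le (by norm_num)
  rw [AA_D1_hor (hf.D1 hd1 _) (contDiffOn_D1 (by norm_num) hd _) hp, AA_D1_hor hf hd1 hp]
  have := Complex.I_sq
  linear_combination ((2 * π * pr (dual b m) z) ^ 2 * AA b f m p) * this

end Fermat.Agent.H68F
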