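import Mathlib.RingTheory.Regular.ProjectiveDimension
import Mathlib.RingTheory.FiniteLength
import Mathlib.RingTheory.LocalRing.Module

set_option autoImplicit false

universe u

namespace Fermat.Agent.H68

open CategoryTheory IsLocalRing RingTheory.Sequence

theorem hasProjectiveDimensionLT_of_linearEquiv {S : Type u} [CommRing S] {P Q : Type u}
    [AddCommGroup P] [Module S P] [AddCommGroup Q] [Module S Q] (e : P ≃ₗ[S] Q) (n : ℕ)
    (h : HasProjectiveDimensionLT (ModuleCat.of S P) n) :
    HasProjectiveDimensionLT (ModuleCat.of S Q) n := by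
  rw [← projectiveDimension_lt_iff] at h ⊢
  rwa [← projectiveDimension_eq_of_iso e.toModuleIso]

/-- Over a Noetherian local ring whose maximal ideal is generated by a regular sequence of
length `n`, every module of finite length has projective dimension at most `n`. -/
theorem hasProjectiveDimensionLE_of_isFiniteLength {S : Type u} [CommRing S] [IsLocalRing S]
    [IsNoetherianRing S] (rs : List S) (hreg : IsRegular S rs)
    (hmax : Ideal.ofList rs = maximalIdeal S) {Q : Type u} [AddCommGroup Q] [Module S Q]
    (hQ : IsFiniteLength S Q) :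
    HasProjectiveDimensionLT (ModuleCat.of S Q) (rs.length + 1) := by
  have hk : HasProjectiveDimensionLT (ModuleCat.of S (S ⧸ maximalIdeal S)) (rs.length + 1) := by
    have h := ModuleCat.projectiveDimension_quotient_eq_length.{u} rs hreg
    rw [hmax] at h
    have h1 : HasProjectiveDimensionLT (ModuleCat.of S (Shrink.{u} (S ⧸ maximalIdeal S)))
        (rs.length + 1) := by
      have h2 := h.le
      rwa [projectiveDimension_le_iff] at h2
    exact hasProjectiveDimensionLT_of_linearEquiv (Shrink.linearEquiv S _) _ h1
  induction hQ with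
  | @of_subsingleton M _ _ _ =>
    have : Limits.IsZero (ModuleCat.of S M) := ModuleCat.isZero_of_subsingleton _
    have h0 : HasProjectiveDimensionLT (ModuleCat.of S M) 0 :=
      this.hasProjectiveDimensionLT_zero
    exact hasProjectiveDimensionLT_of_ge _ 0 _ (by omega)
  | @of_simple_quotient M _ _ N hsimple hN ih =>
    have hs := LinearMap.shortExact_shortComplexKer (f := N.mkQ) N.mkQ_surjective
    refine hs.hasProjectiveDimensionLT_X₂ _ ?_ ?_
    · have e : (LinearMap.ker N.mkQ) ≃ₗ[S] N := LinearEquiv.ofEq _ _ (Submodule.ker_mkQ N)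
      exact hasProjectiveDimensionLT_of_linearEquiv e.symm _ ih
    · obtain ⟨I, hI, ⟨e⟩⟩ := isSimpleModule_iff_quot_maximal.mp hsimple
      rw [IsLocalRing.eq_maximalIdeal hI] at e
      exact hasProjectiveDimensionLT_of_linearEquiv e.symm _ hk

/-- Auslander–Buchsbaum-type freeness criterion. -/
theorem free_of_isWeaklyRegular_of_isFiniteLength {S : Type u} [CommRing S] [IsLocalRing S]
    [IsNoetherianRing S] (rs : List S) (hreg : IsRegular S rs)
    (hmax : Ideal.ofList rs = maximalIdeal S) {N : Type u} [AddCommGroup N] [Module S N]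
    [Module.Finite S N]
    (ys : List S) (hlen : ys.length = rs.length) (hys : ∀ y ∈ ys, y ∈ maximalIdeal S)
    (hreg' : IsWeaklyRegular N ys)
    (hfl : IsFiniteLength S (N ⧸ Ideal.ofList ys • (⊤ : Submodule S N))) :
    Module.Free S N := by
  rcases subsingleton_or_nontrivial N with hN | hN
  · infer_instance
  have h1 := ModuleCat.projectiveDimension_quotient_eq_add_length_of_isWeaklyRegular
    (ModuleCat.of S N) ys hreg' hys
  have h2 := hasProjectiveDimensionLE_of_isFiniteLength rs hreg hmax hfl
  have h3 : projectiveDimension (ModuleCat.of S (N ⧸ Ideal.ofList ys • (⊤ : Submodule S N))) ≤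
      (rs.length : ℕ) := by
    rw [projectiveDimension_le_iff]
    exact h2
  have h4 : projectiveDimension (ModuleCat.of S N) + (ys.length : ℕ) ≤ (0 : ℕ) + (ys.length : ℕ) := by
    calc projectiveDimension (ModuleCat.of S N) + (ys.length : ℕ) = _ := h1.symm
      _ ≤ (rs.length : ℕ) := h3
      _ = _ := by rw [hlen]; simp
  have h5 : projectiveDimension (ModuleCat.of S N) ≤ (0 : ℕ) := by
    rwa [ENat.WithBot.add_le_add_natCast_right_iff] at h4
  rw [projectiveDimension_le_iff] at h5
  have h6 : Projective (ModuleCat.of S N) := projective_iff_hasProjectiveDimensionLT_one.mpr h5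
  have h7 : Module.Projective S N := (IsProjective.iff_projective N).mpr h6
  exact Module.free_of_flat_of_isLocalRing

end Fermat.Agent.H68
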