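import Fermat.Agent.H57CSet
import Fermat.Agent.H68G1
import Fermat.Agent.H61K11

/-!
# S47, block (C), [G1]: the good places (hypothesis `hgood` of `H57C.geomC`)
-/

noncomputable section

namespace Fermat.Agent.H68G

open H59D H59XF IsDedekindDomain NumberField H79S H57C

variable {F E : Type} [Field F] [NumberField F] [Field E] [NumberField E] [Algebra F E]
  (C : CSetup F E)

/-- `[G1-SPLIT]` on helper57's `PM0at`. -/
theorem pm0at_split (n : HeightOneSpectrum (𝓞 E) →₀ ℕ) (k : ℕ) {v : HeightOneSpectrum (𝓞 F)}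
    (hv : v ∉ C.SF) (hsp : ¬ H82.NonSplit E v) : PM0at C n k v :=
  pm0_split C n k hv hsp (below_σ C) (HT_good C hv)

/-- `[G1-INERT]` on helper57's `PM0at`. -/
theorem pm0at_inert {n : HeightOneSpectrum (𝓞 E) →₀ ℕ} (hn : C.OkN n) (k : ℕ)
    {v : HeightOneSpectrum (𝓞 F)} (hv : v ∉ C.SF) (hv0 : v ≠ C.v0) (hns : H82.NonSplit E v) :
    PM0at C n k v :=
  H61K.cs_pm0_inert C hn k (3 * k) (below_σ C) hv hv0 hns (HT_good C hv)

/-- **The hypothesis `hgood` of `H57C.geomC`.** -/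
theorem pm0at_good (n : HeightOneSpectrum (𝓞 E) →₀ ℕ) (hn : C.OkN n) (k : ℕ)
    (v : HeightOneSpectrum (𝓞 F)) (hv : v ∉ C.SF) (hv0 : v ≠ C.v0) : PM0at C n k v := by
  by_cases h : H82.NonSplit E v
  · exact pm0at_inert C hn k hv hv0 h
  · exact pm0at_split C n k hv h

end Fermat.Agent.H68G
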