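import Fermat.Agent.H42GaussMod
import Fermat.Agent.H84Approx

/-!
# Gauss valuation rings attached to Laurent embeddings

`fgs K` is the ring of Laurent series whose coefficients lie in a finitely generated `ℤ`-submodule
of `K`; `QF K` its field of fractions inside `LaurentSeries K`.  For any valuation subring `A` of
`K` every nonzero element of `QF K` is a constant times a quotient of two series with coefficients
in `A` and nonzero reductions.  Hence, for every embedding `e : F → LaurentSeries K` with values in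
`QF K`, the preimage of the localised ring of `A`-integral Laurent series is a valuation ring of
`F` with a residue map to `LaurentSeries k` (`gaussComp`).
-/

set_option autoImplicit false

open Polynomial ModularCurve

namespace Fermat.Agent.H68

section FGS

variable (K : Type*) [Field K]

/-- Laurent series whose coefficients lie in a finitely generated `ℤ`-submodule. -/
def fgs : Subring (LaurentSeries K) where
  carrier := {r | ∃ T : Submodule ℤ K, T.FG ∧ ∀ n, r.coeff n ∈ T}
  zero_mem' := ⟨⊥, Submodule.fg_bot, fun n => by simp⟩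
  one_mem' := by
    refine ⟨Submodule.span ℤ {1}, Submodule.fg_span_singleton 1, fun n => ?_⟩
    by_cases hn : n = 0
    · rw [hn]
      have : ((1 : LaurentSeries K)).coeff 0 = 1 := by simp [HahnSeries.coeff_one]
      rw [this]
      exact Submodule.mem_span_singleton_self 1
    · have : ((1 : LaurentSeries K)).coeff n = 0 := by simp [HahnSeries.coeff_one, hn]
      rw [this]
      exact Submodule.zero_mem _
  add_mem' := by
    rintro a b ⟨T, hT, ha⟩ ⟨T', hT', hb⟩
    refine ⟨T ⊔ T', hT.sup hT', fun n => ?_⟩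
    rw [HahnSeries.coeff_add]
    exact Submodule.add_mem_sup (ha n) (hb n)
  neg_mem' := by
    rintro a ⟨T, hT, ha⟩
    refine ⟨T, hT, fun n => ?_⟩
    rw [HahnSeries.coeff_neg]
    exact T.neg_mem (ha n)
  mul_mem' := by
    rintro a b ⟨T, hT, ha⟩ ⟨T', hT', hb⟩
    refine ⟨T * T', hT.mul hT', fun n => ?_⟩
    rw [HahnSeries.coeff_mul]
    exact Submodule.sum_mem _ fun ij _ => Submodule.mul_mem_mul (ha _) (hb _)

variable {K}

theorem mem_fgs {r : LaurentSeries K} :
    r ∈ fgs K ↔ ∃ T : Submodule ℤ K, T.FG ∧ ∀ n, r.coeff n ∈ T := Iff.rfl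

theorem const_mem_fgs (c : K) : algebraMap K (LaurentSeries K) c ∈ fgs K := by
  refine ⟨Submodule.span ℤ {c}, Submodule.fg_span_singleton c, fun n => ?_⟩
  rw [algebraMap_laurentSeries_eq_single]
  by_cases hn : n = 0
  · rw [hn, HahnSeries.coeff_single_same]
    exact Submodule.mem_span_singleton_self c
  · rw [HahnSeries.coeff_single_of_ne hn]
    exact Submodule.zero_mem _

/-- A series with coefficients in a ring which is a finitely generated abelian group. -/
theorem coeffMap_mem_fgs {R : Type*} [CommRing R] [Module.Finite ℤ R] (f : R →+* K)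
    (x : LaurentSeries R) : coeffMap f x ∈ fgs K := by
  refine ⟨LinearMap.range f.toAddMonoidHom.toIntLinearMap, ?_, fun n => ?_⟩
  · rw [LinearMap.range_eq_map]
    exact Submodule.FG.map _ Module.Finite.fg_top
  · rw [coeffMap_coeff]
    exact ⟨x.coeff n, rfl⟩

/-- Series with integer coefficients. -/
theorem coeffMap_int_mem_fgs (x : LaurentSeries ℤ) : coeffMap (Int.castRingHom K) x ∈ fgs K :=
  coeffMap_mem_fgs _ x

/-- `fgs` is preserved by coefficientwise maps. -/
theorem map_mem_fgs {K' : Type*} [Field K'] (f : K →+* K') {x : LaurentSeries K}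
    (hx : x ∈ fgs K) : coeffMap f x ∈ fgs K' := by
  obtain ⟨T, hT, h⟩ := hx
  refine ⟨T.map f.toAddMonoidHom.toIntLinearMap, hT.map _, fun n => ?_⟩
  rw [coeffMap_coeff]
  exact ⟨x.coeff n, h n, rfl⟩

theorem single_mul_mem_fgs (n : ℤ) : HahnSeries.single n (1 : K) ∈ fgs K := by
  refine ⟨Submodule.span ℤ {1}, Submodule.fg_span_singleton 1, fun m => ?_⟩
  by_cases hn : m = n
  · rw [hn, HahnSeries.coeff_single_same]
    exact Submodule.mem_span_singleton_self _
  · rw [HahnSeries.coeff_single_of_ne hn]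
    exact Submodule.zero_mem _

theorem exists_max_coeff (A : ValuationSubring K) {r : LaurentSeries K} (hr : r ∈ fgs K)
    (h0 : r ≠ 0) : ∃ n₀, r.coeff n₀ ≠ 0 ∧ ∀ n, (r.coeff n₀)⁻¹ * r.coeff n ∈ A := by
  obtain ⟨T, hT, hmem⟩ := hr
  have hle : Submodule.span ℤ (Set.range r.coeff) ≤ T := by
    rw [Submodule.span_le]
    rintro _ ⟨n, rfl⟩
    exact hmem n
  have hfg : (Submodule.span ℤ (Set.range r.coeff)).FG := Submodule.FG.of_le hT hle
  rw [Submodule.fg_span_iff_fg_span_finset_subset] at hfg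
  obtain ⟨s, hs, hspan⟩ := hfg
  have hne : ∃ i ∈ s, i ≠ 0 := by
    by_contra hcon
    push Not at hcon
    apply h0
    ext n
    have h1 : r.coeff n ∈ Submodule.span ℤ (s : Set K) := by
      rw [← hspan]
      exact Submodule.subset_span ⟨n, rfl⟩
    have h2 : Submodule.span ℤ (s : Set K) ≤ ⊥ := by
      rw [Submodule.span_le]
      intro i hi
      exact hcon i hi
    simpa using h2 h1
  obtain ⟨c, hc, hcs, i, hi, h1⟩ := H42.exists_scale A s id hne
  have hci : c = i := by
    have h2 : c⁻¹ * i = 1 := h1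
    exact ((inv_mul_eq_one₀ hc).mp h2)
  obtain ⟨n₀, hn₀⟩ := hs hi
  refine ⟨n₀, by rw [hn₀, ← hci]; exact hc, fun n => ?_⟩
  rw [hn₀, ← hci]
  have h3 : r.coeff n ∈ Submodule.span ℤ (s : Set K) := by
    rw [← hspan]
    exact Submodule.subset_span ⟨n, rfl⟩
  generalize r.coeff n = a at h3
  induction h3 using Submodule.span_induction with
  | mem x hx => exact hcs x hx
  | zero => rw [mul_zero]; exact A.zero_mem
  | add x y _ _ hx hy => rw [mul_add]; exact A.add_mem _ _ hx hy
  | smul a x _ hx =>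
    rw [zsmul_eq_mul, mul_left_comm]
    exact A.mul_mem _ _ (intCast_mem A a) hx

/-- Laurent series with coefficients in `A` lift. -/
theorem exists_lift_of_coeff_mem (A : ValuationSubring K) (r : LaurentSeries K)
    (h : ∀ n, r.coeff n ∈ A) : ∃ y : LaurentSeries A, coeffMap A.subtype y = r := by
  refine ⟨⟨fun n => ⟨r.coeff n, h n⟩, ?_⟩, ?_⟩
  · refine r.isPWO_support.mono fun n hn => ?_
    rw [Function.mem_support] at hn
    rw [HahnSeries.mem_support]
    exact fun h0 => hn (Subtype.ext h0)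
  · ext n
    rw [coeffMap_coeff]
    rfl

/-- Every nonzero element of `fgs K` is a constant times an `A`-integral series with nonzero
reduction. -/
theorem exists_eq_const_mul (A : ValuationSubring K) {k : Type*} [Field k] (π : A →+* k)
    {r : LaurentSeries K} (hr : r ∈ fgs K) (h0 : r ≠ 0) :
    ∃ (c : K) (y : (H42.laurentRed A π).B), c ≠ 0 ∧ (H42.laurentRed A π).ρ y ≠ 0 ∧
      r = algebraMap K (LaurentSeries K) c * y := by
  obtain ⟨n₀, hn₀, h⟩ := exists_max_coeff A hr h0
  obtain ⟨y, hy⟩ := exists_lift_of_coeff_mem A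
    (algebraMap K (LaurentSeries K) (r.coeff n₀)⁻¹ * r) (fun n => by
      rw [H42.coeff_algebraMap_mul]
      exact h n)
  have hyB : coeffMap A.subtype y ∈ (H42.laurentRed A π).B := ⟨y, rfl⟩
  refine ⟨r.coeff n₀, ⟨coeffMap A.subtype y, hyB⟩, hn₀, ?_, ?_⟩
  · rw [H42.laurentRed_ρ]
    intro hzero
    have h1 := congrArg (fun z => z.coeff n₀) hzero
    simp only [coeffMap_coeff, HahnSeries.coeff_zero] at h1
    have h2 : y.coeff n₀ = 1 := by
      apply Subtype.ext
      have h3 := congrArg (fun z => z.coeff n₀) hy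
      simp only [coeffMap_coeff, H42.coeff_algebraMap_mul] at h3
      rw [inv_mul_cancel₀ hn₀] at h3
      exact h3
    rw [h2, map_one] at h1
    exact one_ne_zero h1
  · show r = algebraMap K (LaurentSeries K) (r.coeff n₀) * coeffMap A.subtype y
    rw [hy, ← mul_assoc, ← map_mul, mul_inv_cancel₀ hn₀, map_one, one_mul]

variable (K) in
/-- The field of fractions of `fgs K` inside the Laurent series. -/
def QF : IntermediateField K (LaurentSeries K) where
  carrier := {f | ∃ P Q, P ∈ fgs K ∧ Q ∈ fgs K ∧ Q ≠ 0 ∧ f * Q = P}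
  mul_mem' := by
    rintro a b ⟨P, Q, hP, hQ, h0, h⟩ ⟨P', Q', hP', hQ', h0', h'⟩
    refine ⟨P * P', Q * Q', (fgs K).mul_mem hP hP', (fgs K).mul_mem hQ hQ', mul_ne_zero h0 h0', ?_⟩
    rw [← h, ← h']
    ring
  one_mem' := ⟨1, 1, (fgs K).one_mem, (fgs K).one_mem, one_ne_zero, by ring⟩
  add_mem' := by
    rintro a b ⟨P, Q, hP, hQ, h0, h⟩ ⟨P', Q', hP', hQ', h0', h'⟩
    refine ⟨P * Q' + P' * Q, Q * Q', (fgs K).add_mem ((fgs K).mul_mem hP hQ')
      ((fgs K).mul_mem hP' hQ), (fgs K).mul_mem hQ hQ', mul_ne_zero h0 h0', ?_⟩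
    rw [← h, ← h']
    ring
  zero_mem' := ⟨0, 1, (fgs K).zero_mem, (fgs K).one_mem, one_ne_zero, by ring⟩
  algebraMap_mem' c := ⟨algebraMap K _ c, 1, const_mem_fgs c, (fgs K).one_mem, one_ne_zero, by ring⟩
  inv_mem' := by
    rintro a ⟨P, Q, hP, hQ, h0, h⟩
    by_cases ha : a = 0
    · rw [ha, inv_zero]
      exact ⟨0, 1, (fgs K).zero_mem, (fgs K).one_mem, one_ne_zero, by ring⟩
    · refine ⟨Q, P, hQ, hP, by rw [← h]; exact mul_ne_zero ha h0, ?_⟩
      rw [← h, ← mul_assoc, inv_mul_cancel₀ ha, one_mul]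

theorem mem_QF {f : LaurentSeries K} :
    f ∈ QF K ↔ ∃ P Q, P ∈ fgs K ∧ Q ∈ fgs K ∧ Q ≠ 0 ∧ f * Q = P := Iff.rfl

theorem fgs_le_QF {f : LaurentSeries K} (h : f ∈ fgs K) : f ∈ QF K :=
  ⟨f, 1, h, (fgs K).one_mem, one_ne_zero, by ring⟩

/-- `QF` is preserved by any ring homomorphism of Laurent series preserving `fgs`. -/
theorem map_mem_QF {K' : Type*} [Field K'] (φ : LaurentSeries K →+* LaurentSeries K')
    (hφ : ∀ x ∈ fgs K, φ x ∈ fgs K') {f : LaurentSeries K} (hf : f ∈ QF K) : φ f ∈ QF K' := by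
  obtain ⟨P, Q, hP, hQ, h0, h⟩ := hf
  exact ⟨φ P, φ Q, hφ P hP, hφ Q hQ, (_root_.map_ne_zero φ).mpr h0, by rw [← h, map_mul]⟩

/-- **Scaling**: every nonzero element of `QF K` is a constant times a quotient of `A`-integral
series with nonzero reductions. -/
theorem exists_scale_QF (A : ValuationSubring K) {k : Type*} [Field k] (π : A →+* k)
    {f : LaurentSeries K} (hf : f ∈ QF K) (h0 : f ≠ 0) :
    ∃ (c : K) (y z : (H42.laurentRed A π).B), c ≠ 0 ∧ (H42.laurentRed A π).ρ y ≠ 0 ∧
      (H42.laurentRed A π).ρ z ≠ 0 ∧ f * z = algebraMap K (LaurentSeries K) c * y := by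
  obtain ⟨P, Q, hP, hQ, hQ0, h⟩ := hf
  have hP0 : P ≠ 0 := by
    rw [← h]
    exact mul_ne_zero h0 hQ0
  obtain ⟨c, y, hc, hy, hcy⟩ := exists_eq_const_mul A π hP hP0
  obtain ⟨d, z, hd, hz, hdz⟩ := exists_eq_const_mul A π hQ hQ0
  refine ⟨c / d, y, z, div_ne_zero hc hd, hy, hz, ?_⟩
  have hd' : algebraMap K (LaurentSeries K) d ≠ 0 := (_root_.map_ne_zero _).mpr hd
  apply mul_left_cancel₀ hd'
  rw [← mul_assoc, ← mul_assoc, ← map_mul, mul_div_cancel₀ c hd, mul_comm _ f, mul_assoc, ← hdz, h,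
    hcy]

end FGS

section LaurentLoc

variable {K : Type*} [Field K] (A : ValuationSubring K) {k : Type*} [Field k] (π : A →+* k)

/-- The local ring of the Gauss valuation on (a part of) `K((t))`: quotients `y / z` of
`A`-integral series with `z` of nonzero reduction. -/
noncomputable abbrev lloc : Subring (LaurentSeries K) := (H42.laurentRed A π).loc

/-- The residue map. -/
noncomputable abbrev lres : lloc A π →+* LaurentSeries k := (H42.laurentRed A π).res

variable {A π} in
theorem mem_lloc_iff {f : LaurentSeries K} : f ∈ lloc A π ↔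
    ∃ y z : LaurentSeries A, coeffMap π z ≠ 0 ∧ f * coeffMap A.subtype z = coeffMap A.subtype y := by
  constructor
  · rintro ⟨⟨_, y, rfl⟩, ⟨_, z, rfl⟩, hz, h⟩
    refine ⟨y, z, ?_, h⟩
    intro h0
    apply hz
    rw [← h0]
    exact H42.laurentRed_ρ A π z ⟨z, rfl⟩
  · rintro ⟨y, z, hz, h⟩
    refine ⟨⟨_, y, rfl⟩, ⟨_, z, rfl⟩, ?_, h⟩
    intro h0
    apply hz
    rw [← h0]
    exact (H42.laurentRed_ρ A π z ⟨z, rfl⟩).symm

variable {A π} in
theorem lres_eq {f : LaurentSeries K} (hf : f ∈ lloc A π) {y z : LaurentSeries A}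
    (hz : coeffMap π z ≠ 0) (h : f * coeffMap A.subtype z = coeffMap A.subtype y) :
    lres A π ⟨f, hf⟩ = coeffMap π y / coeffMap π z := by
  have e : ∀ x : LaurentSeries A, (H42.laurentRed A π).ρ ⟨coeffMap A.subtype x, ⟨x, rfl⟩⟩ =
    coeffMap π x := fun x => H42.laurentRed_ρ A π x ⟨x, rfl⟩
  have := (H42.laurentRed A π).res_eq_div ⟨f, hf⟩ (y := ⟨coeffMap A.subtype y, ⟨y, rfl⟩⟩)
    (z := ⟨coeffMap A.subtype z, ⟨z, rfl⟩⟩) (by rw [e]; exact hz) h
  rw [e, e] at this
  exact this

variable {A π} in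
theorem coeffMap_mem_lloc (y : LaurentSeries A) : coeffMap A.subtype y ∈ lloc A π :=
  mem_lloc_iff.mpr ⟨y, 1, by rw [map_one]; exact one_ne_zero, by rw [map_one, mul_one]⟩

variable {A π} in
theorem lres_coeffMap (y : LaurentSeries A) (h : coeffMap A.subtype y ∈ lloc A π) :
    lres A π ⟨coeffMap A.subtype y, h⟩ = coeffMap π y := by
  rw [lres_eq h (y := y) (z := 1) (by rw [map_one]; exact one_ne_zero) (by rw [map_one, mul_one]),
    map_one, div_one]

variable {A π} in
theorem algebraMap_mem_lloc (a : A) : algebraMap K (LaurentSeries K) a ∈ lloc A π :=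
  (H42.laurentRed A π).le_loc ((H42.laurentRed A π).mem a)

variable {A π} in
theorem lres_algebraMap (a : A) (h : algebraMap K (LaurentSeries K) a ∈ lloc A π) :
    lres A π ⟨algebraMap K (LaurentSeries K) a, h⟩ = algebraMap k (LaurentSeries k) (π a) :=
  ((H42.laurentRed A π).res_coe ((H42.laurentRed A π).const a)).trans
    ((H42.laurentRed A π).ρ_const a)

variable {A π} in
theorem mem_or_inv_mem_lloc {f : LaurentSeries K} (hf : f ∈ QF K) :
    f ∈ lloc A π ∨ f⁻¹ ∈ lloc A π := by
  by_cases h0 : f = 0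
  · left
    rw [h0]
    exact (lloc A π).zero_mem
  obtain ⟨c, y, z, hc, hy, hz, h⟩ := exists_scale_QF A π hf h0
  have hyF := (H42.laurentRed A π).coe_ne_zero hy
  have hzF := (H42.laurentRed A π).coe_ne_zero hz
  have hcF : algebraMap K (LaurentSeries K) c ≠ 0 := (_root_.map_ne_zero _).mpr hc
  rcases A.mem_or_inv_mem c with hcA | hcA
  · exact Or.inl ⟨(H42.laurentRed A π).const ⟨c, hcA⟩ * y, z, hz, by simpa using h⟩
  · refine Or.inr ⟨(H42.laurentRed A π).const ⟨c⁻¹, hcA⟩ * z, y, hy, ?_⟩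
    have h1 : f = algebraMap K (LaurentSeries K) c * y / z := by
      rw [← h, mul_div_cancel_right₀ _ hzF]
    rw [h1]
    simp only [Subring.coe_mul, H42.RedRing.coe_const, map_inv₀]
    field_simp

end LaurentLoc

section GaussComp

variable {K : Type*} [Field K] (A : ValuationSubring K) {k : Type*} [Field k] (π : A →+* k)
variable {F : Type*} [Field F]

/-- The Gauss valuation ring attached to an embedding in the Laurent series. -/
noncomputable def gaussV (e : F →+* LaurentSeries K) (he : ∀ f, e f ∈ QF K) :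
    ValuationSubring F where
  __ := (lloc A π).comap e
  mem_or_inv_mem' f := by
    rcases mem_or_inv_mem_lloc (A := A) (π := π) (he f) with h | h
    · exact Or.inl h
    · refine Or.inr ?_
      rw [← map_inv₀] at h
      exact h

variable {A π} in
theorem mem_gaussV {e : F →+* LaurentSeries K} {he : ∀ f, e f ∈ QF K} {f : F} :
    f ∈ gaussV A π e he ↔ e f ∈ lloc A π := Iff.rfl

/-- The residue map of the Gauss valuation ring. -/
noncomputable def gaussρ (e : F →+* LaurentSeries K) (he : ∀ f, e f ∈ QF K) :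
    gaussV A π e he →+* LaurentSeries k :=
  (lres A π).comp (e.restrict (gaussV A π e he).toSubring (lloc A π) fun _ h => h)

variable {A π} in
theorem gaussρ_apply {e : F →+* LaurentSeries K} {he : ∀ f, e f ∈ QF K} (f : gaussV A π e he) :
    gaussρ A π e he f = lres A π ⟨e f, f.2⟩ := rfl

variable {A π} in
theorem gaussρ_isUnit {e : F →+* LaurentSeries K} {he : ∀ f, e f ∈ QF K} (f : gaussV A π e he)
    (h : gaussρ A π e he f ≠ 0) : IsUnit f := by
  have h1 := (H42.laurentRed A π).inv_mem_loc (f := ⟨e f, f.2⟩) h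
  have hf0 : (f : F) ≠ 0 := by
    intro h0
    have h2 : f = 0 := Subtype.ext h0
    exact h (by rw [h2, map_zero])
  refine IsUnit.of_mul_eq_one ⟨(f : F)⁻¹, ?_⟩ (Subtype.ext (mul_inv_cancel₀ hf0))
  rw [mem_gaussV, map_inv₀]
  exact h1

/-- The component attached to an embedding `e : F → LaurentSeries K`, for `F` an algebra over a
field `K₀` contained in `K`. -/
noncomputable def gaussComp' {K₀ : Type*} [Field K₀] [Algebra K₀ F] (i : K₀ →+* K)
    (A₀ : ValuationSubring K₀) (π₀ : A₀ →+* k) (hA : ∀ a : A₀, i a ∈ A)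
    (hπ : ∀ a : A₀, π ⟨i a, hA a⟩ = π₀ a)
    (e : F →+* LaurentSeries K) (hc : ∀ c, e (algebraMap K₀ F c) = algebraMap K _ (i c))
    (he : ∀ f, e f ∈ QF K) : H84.Comp A₀ π₀ F (LaurentSeries k) where
  V := gaussV A π e he
  ρ := gaussρ A π e he
  loc v hv := gaussρ_isUnit v hv
  mem a := by
    rw [mem_gaussV, hc]
    exact algebraMap_mem_lloc (A := A) (π := π) ⟨i a, hA a⟩
  ρ_mem a := by
    rw [gaussρ_apply, ← hπ]
    rw [← lres_algebraMap (A := A) (π := π) ⟨i a, hA a⟩ (algebraMap_mem_lloc _)]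
    congr 1
    exact Subtype.ext (hc _)

/-- The component attached to an embedding of `K`-algebras in the Laurent series. -/
noncomputable def gaussComp [Algebra K F] (e : F →+* LaurentSeries K)
    (hc : ∀ c, e (algebraMap K F c) = algebraMap K _ c)
    (he : ∀ f, e f ∈ QF K) : H84.Comp A π F (LaurentSeries k) :=
  gaussComp' A π (RingHom.id K) A π (fun a => a.2) (fun _ => rfl) e hc he

end GaussComp

end Fermat.Agent.H68
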