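import Fermat.Agent.H77FreeProd

/-!
# Heisenberg lifts on `SL₂(ℤ)` (helper68)

`H²(Γ, ℚ) = 0` for finite index subgroups of `SL₂(ℤ)` in the form needed for the intersection
pairing: a cup product of two additive cocycles has a primitive.
-/

set_option autoImplicit false

open Matrix ModularGroup MatrixGroups

namespace Fermat.Agent.H68

/-- The Heisenberg group over `ℚ`. -/
@[ext] structure Heis where
  a : ℚ
  b : ℚ
  z : ℚ

namespace Heis

instance : Mul Heis := ⟨fun x y => ⟨x.a + y.a, x.b + y.b, x.z + y.z + x.a * y.b⟩⟩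
instance : One Heis := ⟨⟨0, 0, 0⟩⟩
instance : Inv Heis := ⟨fun x => ⟨-x.a, -x.b, -x.z + x.a * x.b⟩⟩

@[simp] lemma mul_a (x y : Heis) : (x * y).a = x.a + y.a := rfl
@[simp] lemma mul_b (x y : Heis) : (x * y).b = x.b + y.b := rfl
@[simp] lemma mul_z (x y : Heis) : (x * y).z = x.z + y.z + x.a * y.b := rfl
@[simp] lemma one_a : (1 : Heis).a = 0 := rfl
@[simp] lemma one_b : (1 : Heis).b = 0 := rfl
@[simp] lemma one_z : (1 : Heis).z = 0 := rfl
@[simp] lemma inv_a (x : Heis) : (x⁻¹).a = -x.a := rfl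
@[simp] lemma inv_b (x : Heis) : (x⁻¹).b = -x.b := rfl
@[simp] lemma inv_z (x : Heis) : (x⁻¹).z = -x.z + x.a * x.b := rfl

instance : Group Heis :=
  Group.ofLeftAxioms
    (fun x y z => by ext <;> simp <;> ring)
    (fun x => by ext <;> simp)
    (fun x => by ext <;> simp)

end Heis

/-- A function on `SL₂(ℤ)` invariant under right translation by `S` and `U = TS` is constant. -/
lemma eq_of_right_inv {X : Type*} (F : SL(2, ℤ) → X) (hS : ∀ g, F (g * S) = F g)
    (hU : ∀ g, F (g * (T * S)) = F g) (g : SL(2, ℤ)) : F g = F 1 := by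
  have hS' : ∀ g, F (g * S⁻¹) = F g := fun g => by
    have := hS (g * S⁻¹)
    rw [inv_mul_cancel_right] at this
    exact this.symm
  have hT : ∀ g, F (g * T) = F g := fun g => by
    have h1 : g * T = g * (T * S) * S⁻¹ := by group
    rw [h1, hS', hU]
  have hT' : ∀ g, F (g * T⁻¹) = F g := fun g => by
    have := hT (g * T⁻¹)
    rw [inv_mul_cancel_right] at this
    exact this.symm
  have hg : g ∈ Subgroup.closure {S, T} := by simp [SpecialLinearGroup.SL2Z_generators]
  induction hg using Subgroup.closure_induction_right with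
  | one => rfl
  | mul_right x hx y hy ih =>
    rcases hy with rfl | rfl
    · rw [hS, ih]
    · rw [hT, ih]
  | mul_inv_cancel x hx y hy ih =>
    rcases hy with rfl | rfl
    · rw [hS', ih]
    · rw [hT', ih]

/-- **Primitive of a cup product** (Heisenberg lift). -/
theorem exists_heis (Γ : Subgroup SL(2, ℤ)) (A B : SL(2, ℤ) → ℚ) (hA1 : A 1 = 0) (hB1 : B 1 = 0)
    (hAneg : ∀ g, A (-g) = A g) (hBneg : ∀ g, B (-g) = B g)
    (hA : ∀ γ ∈ Γ, ∀ g, A (γ * g) = A γ + A g) (hB : ∀ γ ∈ Γ, ∀ g, B (γ * g) = B γ + B g) :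
    ∃ Z : SL(2, ℤ) → ℚ, (∀ g, Z (-g) = Z g) ∧
      ∀ γ ∈ Γ, ∀ g, Z (γ * g) = Z γ + Z g + A γ * B g := by
  let U : SL(2, ℤ) := T * S
  have hSS : ∀ g : SL(2, ℤ), g * S * S = -g := fun g => by
    rw [mul_assoc, H77.FP.S_mul_S, mul_neg, mul_one]
  have hUUU : ∀ g : SL(2, ℤ), g * U * U * U = -g := fun g => by
    rw [mul_assoc, mul_assoc, ← mul_assoc U U U, show U * U * U = -1 from H77.FP.U_mul_U_mul_U,
      mul_neg, mul_one]
  let α : SL(2, ℤ) → Heis := fun g =>
    ⟨A (g * S) - A g, B (g * S) - B g, (A (g * S) - A g) * (B (g * S) - B g) / 2⟩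
  let β : SL(2, ℤ) → Heis := fun g =>
    ⟨A (g * U) - A g, B (g * U) - B g, (A (g * U) - A g) * (B (g * U) - B g) / 2 -
      ((A (g * U) - A g) * (B (g * U * U) - B (g * U)) -
        (A (g * U * U) - A (g * U)) * (B (g * U) - B g)) / 6⟩
  have hα : ∀ g, α g * α (g * S) = 1 := fun g => by
    ext
    · simp only [α, Heis.mul_a, Heis.one_a, hSS, hAneg]; ring
    · simp only [α, Heis.mul_b, Heis.one_b, hSS, hBneg]; ring
    · simp only [α, Heis.mul_z, Heis.one_z, hSS, hAneg, hBneg]; ring
  have hβ : ∀ g, β g * β (g * U) * β (g * U * U) = 1 := fun g => by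
    have e1 : g * U * U * U = -g := hUUU g
    ext
    · simp only [β, Heis.mul_a, Heis.one_a, e1, hAneg]; ring
    · simp only [β, Heis.mul_b, Heis.one_b, e1, hBneg]; ring
    · simp only [β, Heis.mul_z, Heis.mul_a, Heis.one_z, e1, hAneg, hBneg]
      have e3 : -g * U = -(g * U) := by rw [neg_mul]
      simp only [e3, hAneg, hBneg]
      ring
  obtain ⟨f, hf1, hfneg, hfS, hfU⟩ := H77.FP.exists_primitive' (α := α) (β := β) hα hβ
  have hfa : ∀ g, (f g).a = A g := by
    intro g
    have h1 := eq_of_right_inv (fun g => (f g).a - A g)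
      (fun g => by
        simp only [hfS, α, Heis.mul_a]; ring)
      (fun g => by
        have := hfU g
        simp only [H77.FP.U] at this
        simp only [this, β, U, Heis.mul_a]; ring) g
    simp only [hf1, Heis.one_a, hA1, sub_zero] at h1
    exact sub_eq_zero.1 h1
  have hfb : ∀ g, (f g).b = B g := by
    intro g
    have h1 := eq_of_right_inv (fun g => (f g).b - B g)
      (fun g => by
        simp only [hfS, α, Heis.mul_b]; ring)
      (fun g => by
        have := hfU g
        simp only [H77.FP.U] at this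
        simp only [this, β, U, Heis.mul_b]; ring) g
    simp only [hf1, Heis.one_b, hB1, sub_zero] at h1
    exact sub_eq_zero.1 h1
  have hαΓ : ∀ γ ∈ Γ, ∀ g, α (γ * g) = α g := by
    intro γ hγ g
    simp only [α, mul_assoc, hA γ hγ, hB γ hγ]
    ext
    · simp only []; ring
    · simp only []; ring
    · simp only []; ring
  have hβΓ : ∀ γ ∈ Γ, ∀ g, β (γ * g) = β g := by
    intro γ hγ g
    simp only [β, mul_assoc, hA γ hγ, hB γ hγ]
    ext
    · simp only []; ring
    · simp only []; ring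
    · simp only []; ring
  have hmul : ∀ γ ∈ Γ, ∀ g, f (γ * g) = f γ * f g := by
    intro γ hγ g
    have h1 := eq_of_right_inv (fun g => f (γ * g) * (f g)⁻¹)
      (fun g => by
        rw [← mul_assoc, hfS, hfS, hαΓ γ hγ, _root_.mul_inv_rev, mul_assoc, mul_inv_cancel_left])
      (fun g => by
        have e1 := hfU g
        have e2 := hfU (γ * g)
        simp only [H77.FP.U] at e1 e2
        rw [← mul_assoc, e1, e2, hβΓ γ hγ, _root_.mul_inv_rev, mul_assoc, mul_inv_cancel_left]) g
    rw [mul_one, hf1, inv_one, mul_one] at h1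
    rw [← h1, inv_mul_cancel_right]
  refine ⟨fun g => (f g).z, fun g => by simp only [hfneg], fun γ hγ g => ?_⟩
  have := congrArg Heis.z (hmul γ hγ g)
  rw [Heis.mul_z, hfa, hfb] at this
  exact this

end Fermat.Agent.H68
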