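import Mathlib

/-!
# S47, C12 (inert good place): unramified descent of lattices

`A` valuation subring of the field `E`, `s` automorphism of `E` with `s ^ 3 = 1`, `A` stable under `s`,
`th` an element of `A` with `s th - th` a unit of `A`.

`exists_fixed`: if `x ∈ GL₂(E)` and `x⁻¹ s(x) ∈ GL₂(A)`, then `x = y k`, `s(y) = y`, `k ∈ GL₂(A)`.
-/

namespace Fermat.Agent.H68I

open Matrix

variable {E : Type*} [Field E] (A : ValuationSubring E)

/-- `GL₂(A)` inside `GL₂(E)` -/
def GLA : Subgroup (GL (Fin 2) E) where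
  carrier := {g | (∀ i j, g.1 i j ∈ A) ∧ A.valuation g.1.det = 1}
  one_mem' := by
    refine ⟨fun i j => ?_, by simp⟩
    simp only [Units.val_one, Matrix.one_apply]
    split_ifs
    · exact one_mem A
    · exact zero_mem A
  mul_mem' := by
    rintro g h ⟨hg, hg'⟩ ⟨hh, hh'⟩
    refine ⟨fun i j => ?_, ?_⟩
    · rw [Units.val_mul, Matrix.mul_apply]
      exact sum_mem fun k _ => mul_mem (hg i k) (hh k j)
    · rw [Units.val_mul, det_mul, map_mul, hg', hh', mul_one]
  inv_mem' := by
    rintro g ⟨hg, hg'⟩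
    have hdet : g.1.det ≠ 0 := by
      intro h
      rw [h, map_zero] at hg'
      exact zero_ne_one hg'
    have hinv : (g.1.det)⁻¹ ∈ A := by
      rw [← A.valuation_le_one_iff, map_inv₀, hg', inv_one]
    refine ⟨fun i j => ?_, ?_⟩
    · rw [Matrix.coe_units_inv, Matrix.inv_def, Ring.inverse_eq_inv', Matrix.smul_apply, smul_eq_mul,
        Matrix.adjugate_fin_two]
      refine mul_mem hinv ?_
      fin_cases i <;> fin_cases j <;> simp [hg]
    · rw [Matrix.coe_units_inv, Matrix.det_nonsing_inv, Ring.inverse_eq_inv', map_inv₀, hg', inv_one]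

theorem mem_GLA {g : GL (Fin 2) E} :
    g ∈ GLA A ↔ (∀ i j, g.1 i j ∈ A) ∧ A.valuation g.1.det = 1 := Iff.rfl

section descent

variable {A} {s : E ≃+* E}

/-- an element of `A` moved by `s` in the residue field is moved by `s²` too -/
theorem val_sub_two (h3 : ∀ x, s (s (s x)) = x) (hA : ∀ x, A.valuation (s x) = A.valuation x)
    {th : E} (hth : A.valuation (s th - th) = 1) : A.valuation (th - s (s th)) = 1 := by
  have h := hA (th - s (s th))
  rw [map_sub, h3] at h
  rw [← h, hth]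

/-- dual basis of `1, th, th²` for the trace over `s` -/
theorem exists_dual (h3 : ∀ x, s (s (s x)) = x) (hA : ∀ x, A.valuation (s x) = A.valuation x)
    {th : E} (h0 : th ∈ A) (hth : A.valuation (s th - th) = 1) :
    ∃ a b c : E, a ∈ A ∧ b ∈ A ∧ c ∈ A ∧ a + b * th + c * th ^ 2 = 1 ∧
      a + b * s th + c * s th ^ 2 = 0 ∧ a + b * s (s th) + c * s (s th) ^ 2 = 0 := by
  have h1 : s th ∈ A := by
    rw [← A.valuation_le_one_iff, hA, A.valuation_le_one_iff]; exact h0
  have h2 : s (s th) ∈ A := by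
    rw [← A.valuation_le_one_iff, hA, A.valuation_le_one_iff]; exact h1
  have hv2 := val_sub_two h3 hA hth
  set D : E := (th - s th) * (th - s (s th)) with hD
  have hvD : A.valuation D = 1 := by
    rw [hD, map_mul, hv2, mul_one, ← neg_sub, Valuation.map_neg, hth]
  have hD0 : D ≠ 0 := by
    intro h
    rw [h, map_zero] at hvD
    exact zero_ne_one hvD
  have hDi : D⁻¹ ∈ A := by
    rw [← A.valuation_le_one_iff, map_inv₀, hvD, inv_one]
  refine ⟨D⁻¹ * (s th * s (s th)), D⁻¹ * (-(s th + s (s th))), D⁻¹, mul_mem hDi (mul_mem h1 h2),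
    mul_mem hDi (neg_mem (add_mem h1 h2)), hDi, ?_, ?_, ?_⟩
  · have : D⁻¹ * (s th * s (s th)) + D⁻¹ * (-(s th + s (s th))) * th + D⁻¹ * th ^ 2 = D⁻¹ * D := by
      rw [hD]; ring
    rw [this, inv_mul_cancel₀ hD0]
  · ring
  · ring

/-- `s`-semilinear operator attached to a matrix -/
def op (s : E ≃+* E) (K : Matrix (Fin 2) (Fin 2) E) (c : Fin 2 → E) : Fin 2 → E :=
  K *ᵥ fun i => s (c i)

theorem op_add (K : Matrix (Fin 2) (Fin 2) E) (c d : Fin 2 → E) :
    op s K (c + d) = op s K c + op s K d := by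
  unfold op
  rw [← Matrix.mulVec_add]
  congr 1
  funext i
  exact map_add s _ _

theorem op_smul (K : Matrix (Fin 2) (Fin 2) E) (a : E) (c : Fin 2 → E) :
    op s K (a • c) = s a • op s K c := by
  unfold op
  rw [← Matrix.mulVec_smul]
  congr 1
  funext i
  exact map_mul s _ _

theorem op_mem (hA : ∀ x, A.valuation (s x) = A.valuation x) {K : Matrix (Fin 2) (Fin 2) E}
    (hK : ∀ i j, K i j ∈ A) {c : Fin 2 → E} (hc : ∀ i, c i ∈ A) (i : Fin 2) : op s K c i ∈ A := by
  unfold op
  rw [Matrix.mulVec, dotProduct]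
  refine sum_mem fun j _ => mul_mem (hK i j) ?_
  rw [← A.valuation_le_one_iff, hA, A.valuation_le_one_iff]
  exact hc j

/-- `2 × 2` determinant of two vectors -/
def dt (u v : Fin 2 → E) : E := u 0 * v 1 - u 1 * v 0

theorem dt_add_left (u u' v : Fin 2 → E) : dt (u + u') v = dt u v + dt u' v := by
  simp only [dt, Pi.add_apply]; ring

theorem dt_add_right (u v v' : Fin 2 → E) : dt u (v + v') = dt u v + dt u v' := by
  simp only [dt, Pi.add_apply]; ring

theorem dt_smul_left (a : E) (u v : Fin 2 → E) : dt (a • u) v = a * dt u v := by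
  simp only [dt, Pi.smul_apply, smul_eq_mul]; ring

theorem dt_smul_right (a : E) (u v : Fin 2 → E) : dt u (a • v) = a * dt u v := by
  simp only [dt, Pi.smul_apply, smul_eq_mul]; ring

/-- averaging of `a c` over the semilinear operator of order three -/
def av (s : E ≃+* E) (K : Matrix (Fin 2) (Fin 2) E) (c : Fin 2 → E) : Fin 2 → E :=
  c + op s K c + op s K (op s K c)

theorem av_fixed {K : Matrix (Fin 2) (Fin 2) E} (h : ∀ c, op s K (op s K (op s K c)) = c)
    (c : Fin 2 → E) : op s K (av s K c) = av s K c := by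
  unfold av
  rw [op_add, op_add, h]
  abel

theorem av_mem (hA : ∀ x, A.valuation (s x) = A.valuation x) {K : Matrix (Fin 2) (Fin 2) E}
    (hK : ∀ i j, K i j ∈ A) {c : Fin 2 → E} (hc : ∀ i, c i ∈ A) (i : Fin 2) : av s K c i ∈ A :=
  add_mem (add_mem (hc i) (op_mem hA hK hc i)) (op_mem hA hK (fun j => op_mem hA hK hc j) i)

/-- every vector of `A²` is an `A`-combination of three fixed vectors of `A²` -/
theorem exists_decomp (h3 : ∀ x, s (s (s x)) = x) (hA : ∀ x, A.valuation (s x) = A.valuation x)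
    {th : E} (h0 : th ∈ A) (hth : A.valuation (s th - th) = 1) {K : Matrix (Fin 2) (Fin 2) E}
    (hK : ∀ i j, K i j ∈ A) (h : ∀ c, op s K (op s K (op s K c)) = c) {c : Fin 2 → E}
    (hc : ∀ i, c i ∈ A) :
    ∃ (a : Fin 3 → E) (u : Fin 3 → Fin 2 → E), (∀ l, a l ∈ A) ∧ (∀ l i, u l i ∈ A) ∧
      (∀ l, op s K (u l) = u l) ∧ c = ∑ l, a l • u l := by
  obtain ⟨a, b, d, ha, hb, hd, e1, e2, e3⟩ := exists_dual h3 hA h0 hth
  refine ⟨![a, b, d], ![av s K c, av s K (th • c), av s K (th ^ 2 • c)], ?_, ?_, ?_, ?_⟩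
  · intro l; fin_cases l <;> assumption
  · intro l
    fin_cases l
    · exact av_mem hA hK hc
    · exact av_mem hA hK fun i => mul_mem h0 (hc i)
    · exact av_mem hA hK fun i => mul_mem (pow_mem h0 2) (hc i)
  · intro l; fin_cases l <;> exact av_fixed h _
  · rw [Fin.sum_univ_three]
    simp only [Matrix.cons_val_zero, Matrix.cons_val_one, Matrix.cons_val, av, op_smul, map_pow]
    have : c = (a + b * th + d * th ^ 2) • c + (a + b * s th + d * s th ^ 2) • op s K c +
        (a + b * s (s th) + d * s (s th) ^ 2) • op s K (op s K c) := by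
      rw [e1, e2, e3]; simp
    refine this.trans ?_
    funext i
    simp only [Pi.add_apply, Pi.smul_apply, smul_eq_mul]
    ring

/-- two fixed vectors of `A²` with unit determinant -/
theorem exists_pair (h3 : ∀ x, s (s (s x)) = x) (hA : ∀ x, A.valuation (s x) = A.valuation x)
    {th : E} (h0 : th ∈ A) (hth : A.valuation (s th - th) = 1) {K : Matrix (Fin 2) (Fin 2) E}
    (hK : ∀ i j, K i j ∈ A) (h : ∀ c, op s K (op s K (op s K c)) = c) :
    ∃ u v : Fin 2 → E, (∀ i, u i ∈ A) ∧ (∀ i, v i ∈ A) ∧ op s K u = u ∧ op s K v = v ∧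
      A.valuation (dt u v) = 1 := by
  by_contra hcon
  push Not at hcon
  have hle : ∀ u v : Fin 2 → E, (∀ i, u i ∈ A) → (∀ i, v i ∈ A) → dt u v ∈ A := fun u v hu hv =>
    sub_mem (mul_mem (hu 0) (hv 1)) (mul_mem (hu 1) (hv 0))
  have hlt : ∀ u v : Fin 2 → E, (∀ i, u i ∈ A) → (∀ i, v i ∈ A) → op s K u = u → op s K v = v →
      A.valuation (dt u v) < 1 := fun u v hu hv h1 h2 =>
    lt_of_le_of_ne ((A.valuation_le_one_iff _).2 (hle u v hu hv)) (hcon u v hu hv h1 h2)
  have hm1 : ∀ i, (![1, 0] : Fin 2 → E) i ∈ A := by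
    intro i; fin_cases i
    · exact one_mem A
    · exact zero_mem A
  have hm2 : ∀ i, (![0, 1] : Fin 2 → E) i ∈ A := by
    intro i; fin_cases i
    · exact zero_mem A
    · exact one_mem A
  obtain ⟨a, u, ha, hu, hu', e1⟩ := exists_decomp h3 hA h0 hth hK h hm1
  obtain ⟨b, v, hb, hv, hv', e2⟩ := exists_decomp h3 hA h0 hth hK h hm2
  have key : ∀ l m, A.valuation (a l * (b m * dt (u l) (v m))) < 1 := by
    intro l m
    rw [map_mul, map_mul]
    refine lt_of_le_of_lt (mul_le_mul' ((A.valuation_le_one_iff _).2 (ha l))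
      (mul_le_mul' ((A.valuation_le_one_iff _).2 (hb m)) le_rfl)) ?_
    rw [one_mul, one_mul]
    exact hlt _ _ (hu l) (hv m) (hu' l) (hv' m)
  have e3 : dt (![1, 0] : Fin 2 → E) ![0, 1] = ∑ l, ∑ m, a l * (b m * dt (u l) (v m)) := by
    rw [e1, e2]
    simp only [Fin.sum_univ_three, dt_add_left, dt_add_right, dt_smul_left, dt_smul_right]
    ring
  have e4 : dt (![1, 0] : Fin 2 → E) ![0, 1] = 1 := by simp [dt]
  have e5 : A.valuation (∑ l, ∑ m, a l * (b m * dt (u l) (v m))) < 1 :=
    A.valuation.map_sum_lt one_ne_zero fun l _ => A.valuation.map_sum_lt one_ne_zero fun m _ =>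
      key l m
  rw [← e3, e4, map_one] at e5
  exact lt_irrefl _ e5

theorem map_apply' (s : E ≃+* E) (g : GL (Fin 2) E) (i j : Fin 2) :
    (g.map s.toRingHom).1 i j = s (g.1 i j) := rfl

/-- **Descent.** If `x⁻¹ s(x) = k ∈ GL₂(A)` then `x` differs from a fixed matrix by an element of
`GL₂(A)`. -/
theorem exists_fixed (h3 : ∀ x, s (s (s x)) = x) (hA : ∀ x, A.valuation (s x) = A.valuation x)
    {th : E} (h0 : th ∈ A) (hth : A.valuation (s th - th) = 1) {x k : GL (Fin 2) E}
    (hk : k ∈ GLA A) (hx : x.map s.toRingHom = x * k) :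
    ∃ y : GL (Fin 2) E, y.map s.toRingHom = y ∧ ∃ k' ∈ GLA A, x = y * k' := by
  -- the operator has order three
  have hxv : ∀ c : Fin 2 → E, (fun i => s ((x.1 *ᵥ c) i)) = x.1 *ᵥ op s k.1 c := by
    intro c
    unfold op
    rw [Matrix.mulVec_mulVec, ← Units.val_mul, ← hx]
    funext i
    simp only [Matrix.mulVec, dotProduct, map_sum, map_mul]
    rfl
  have hinj : ∀ c d : Fin 2 → E, x.1 *ᵥ c = x.1 *ᵥ d → c = d := by
    intro c d h
    have h1 := congrArg (fun v => x⁻¹.1 *ᵥ v) h
    simp only [Matrix.mulVec_mulVec] at h1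
    rw [← Units.val_mul, inv_mul_cancel, Units.val_one, Matrix.one_mulVec, Matrix.one_mulVec] at h1
    exact h1
  have h : ∀ c, op s k.1 (op s k.1 (op s k.1 c)) = c := by
    intro c
    apply hinj
    rw [← hxv, ← hxv, ← hxv]
    funext i
    exact h3 _
  obtain ⟨u, v, hu, hv, hu', hv', hd⟩ := exists_pair h3 hA h0 hth hk.1 h
  set M : Matrix (Fin 2) (Fin 2) E := !![u 0, v 0; u 1, v 1] with hM
  have hMdet : M.det = dt u v := by
    rw [hM, Matrix.det_fin_two_of, dt]; ring
  have hdet0 : M.det ≠ 0 := by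
    intro h'
    rw [← hMdet, h', map_zero] at hd
    exact zero_ne_one hd
  let g : GL (Fin 2) E := Matrix.GeneralLinearGroup.mkOfDetNeZero M hdet0
  have hg1 : g.1 = M := rfl
  have hg : g ∈ GLA A := by
    refine ⟨fun i j => ?_, ?_⟩
    · rw [hg1, hM]
      fin_cases i <;> fin_cases j <;> simp [hu, hv]
    · rw [hg1, hMdet, hd]
  -- `k s(g) = g`
  have hkg : k * g.map s.toRingHom = g := by
    ext i j
    have e1 := congrFun hu' i
    have e2 := congrFun hv' i
    unfold op at e1 e2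
    simp only [Matrix.mulVec, dotProduct, Fin.sum_univ_two] at e1 e2
    rw [Units.val_mul, Matrix.mul_apply, Fin.sum_univ_two, map_apply', map_apply', hg1, hM]
    fin_cases i <;> fin_cases j <;> simp at e1 e2 ⊢ <;> assumption
  refine ⟨x * g, ?_, g⁻¹, inv_mem hg, by group⟩
  rw [map_mul, hx, mul_assoc, hkg]

end descent

end Fermat.Agent.H68I
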