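import Fermat.Agent.H41Trace
import Fermat.Agent.H68Heis

/-!
# The intersection pairing on modular symbols (helper68)

`[DINV]` of project S41: definition of the pairing `B` between modular symbols and group
cohomology classes and its invariance under the normaliser.
-/

set_option autoImplicit false

open Matrix Matrix.SpecialLinearGroup ModularGroup MatrixGroups
open Fermat.Agent.H41

namespace Fermat.Agent.H68

/-- The image of `SL₂(ℤ)` in `GL₂(ℚ)`. -/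
noncomputable abbrev gq (g : SL(2, ℤ)) : GL (Fin 2) ℚ := mapGL ℚ g

/-! ### Sums over cosets -/

section Coset

variable (Γ : Subgroup SL(2, ℤ))

/-- A left `Γ`-invariant function on `SL₂(ℤ)` seen on `SL₂(ℤ) ⧸ Γ` via `h ↦ h⁻¹`. -/
lemma out_inv_eq {E : SL(2, ℤ) → ℚ} (hE : ∀ γ ∈ Γ, ∀ g, E (γ * g) = E g) (h : SL(2, ℤ)) :
    E ((h : SL(2, ℤ) ⧸ Γ).out⁻¹) = E h⁻¹ := by
  obtain ⟨γ, hγ⟩ := QuotientGroup.mk_out_eq_mul Γ h
  rw [hγ, _root_.mul_inv_rev]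
  exact hE _ (Γ.inv_mem γ.2) _

lemma sum_coset_mul_right [Fintype (SL(2, ℤ) ⧸ Γ)] {E : SL(2, ℤ) → ℚ}
    (hE : ∀ γ ∈ Γ, ∀ g, E (γ * g) = E g) (h : SL(2, ℤ)) :
    ∑ x : SL(2, ℤ) ⧸ Γ, E (x.out⁻¹ * h) = ∑ x : SL(2, ℤ) ⧸ Γ, E (x.out⁻¹) := by
  rw [← Equiv.sum_comp (MulAction.toPerm (h⁻¹ : SL(2, ℤ))) (fun x : SL(2, ℤ) ⧸ Γ => E (x.out⁻¹))]
  refine Finset.sum_congr rfl fun x _ => ?_
  have h1 : (MulAction.toPerm (h⁻¹ : SL(2, ℤ))) x = ((h⁻¹ * x.out : SL(2, ℤ)) : SL(2, ℤ) ⧸ Γ) := by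
    conv_lhs => rw [← QuotientGroup.out_eq' x]
    rfl
  rw [h1, out_inv_eq Γ hE, _root_.mul_inv_rev, inv_inv]

end Coset

/-! ### Points of `P¹(ℚ)` -/

/-- `0 ∈ P¹(ℚ)` -/
def pz : OnePoint ℚ := ((0 : ℚ) : OnePoint ℚ)
/-- `1 ∈ P¹(ℚ)` -/
def p1 : OnePoint ℚ := ((1 : ℚ) : OnePoint ℚ)
/-- `∞ ∈ P¹(ℚ)` -/
abbrev pi : OnePoint ℚ := OnePoint.infty

lemma gq_S_pz : gq S • pz = pi := by
  rw [pz, OnePoint.smul_some_eq_ite]
  simp [gq, coe_S]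

lemma gq_S_pi : gq S • pi = pz := by
  rw [OnePoint.smul_infty_eq_ite]
  simp [gq, coe_S, pz]

lemma gq_T_pi : gq T • pi = pi := by
  rw [OnePoint.smul_infty_eq_ite]
  simp [gq, coe_T]

lemma gq_U_pz : gq (T * S) • pz = pi := by
  rw [gq, map_mul, mul_smul]
  rw [show (mapGL ℚ S : GL (Fin 2) ℚ) • pz = pi from gq_S_pz]
  exact gq_T_pi

lemma gq_T_pz : gq T • pz = p1 := by
  rw [pz, OnePoint.smul_some_eq_ite]
  simp [gq, coe_T, p1]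

lemma gq_U_pi : gq (T * S) • pi = p1 := by
  rw [gq, map_mul, mul_smul]
  rw [show (mapGL ℚ S : GL (Fin 2) ℚ) • pi = pz from gq_S_pi]
  exact gq_T_pz

lemma gq_S_p1 : gq S • p1 = ((-1 : ℚ) : OnePoint ℚ) := by
  rw [p1, OnePoint.smul_some_eq_ite]
  simp [gq, coe_S]

lemma gq_U_p1 : gq (T * S) • p1 = pz := by
  rw [gq, map_mul, mul_smul]
  rw [show (mapGL ℚ S : GL (Fin 2) ℚ) • p1 = ((-1 : ℚ) : OnePoint ℚ) from gq_S_p1]
  rw [OnePoint.smul_some_eq_ite]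
  simp [coe_T, pz]

lemma gq_neg_smul {X : Type*} [MulAction (GL (Fin 2) ℚ) X] [SclTriv X] (g : SL(2, ℤ)) (x : X) :
    gq (-g) • x = gq g • x := by
  have h1 : gq (-g) = gq g * gq (-1) := by
    rw [gq, gq, gq, ← map_mul, mul_neg, mul_one]
  rw [h1, mul_smul]
  congr 1
  apply SclTriv.smul_eq
  · simp [gq]
  · simp [gq]
  · simp [gq]

/-! ### Theorem A: the local formula -/

section TheoremA

variable (Γ : Subgroup SL(2, ℤ)) (m : OnePoint ℚ → OnePoint ℚ → ℚ) (N ξ Z : SL(2, ℤ) → ℚ)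

/-- the local defect -/
noncomputable def dlt (g h : SL(2, ℤ)) (r : OnePoint ℚ) : ℚ :=
  Z (g * h) - Z g + N (g * h) * m (gq (g * h) • r) (gq (g * h) • pi) -
    N g * m (gq (g * h) • r) (gq g • pi)

variable {Γ m N ξ Z}
variable (hm : ∀ x y z, m x y + m y z = m x z) (hmΓ : ∀ γ ∈ Γ, ∀ x y, m (gq γ • x) (gq γ • y) = m x y)
  (hN : ∀ γ ∈ Γ, ∀ g, N (γ * g) = N γ + N g) (hNneg : ∀ g, N (-g) = N g)
  (hZ : ∀ γ ∈ Γ, ∀ g, Z (γ * g) = ξ γ + Z g + N γ * m (gq g • pi) pi) (hZneg : ∀ g, Z (-g) = Z g)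

include hm hmΓ hN hZ in
lemma dlt_left (γ : SL(2, ℤ)) (hγ : γ ∈ Γ) (g h : SL(2, ℤ)) (r : OnePoint ℚ) :
    dlt m N Z (γ * g) h r = dlt m N Z g h r := by
  unfold dlt
  have e1 : ∀ x : OnePoint ℚ, gq (γ * g) • x = gq γ • gq g • x := fun x => by
    rw [gq, map_mul, mul_smul]
  have e2 : ∀ x : OnePoint ℚ, gq (γ * g * h) • x = gq γ • gq (g * h) • x := fun x => by
    rw [gq, mul_assoc, map_mul, mul_smul]
  rw [e1, e2, e2, hmΓ γ hγ, hmΓ γ hγ, mul_assoc γ g h, hZ γ hγ, hZ γ hγ, hN γ hγ, hN γ hγ]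
  have h1 := hm (gq (g * h) • r) (gq (g * h) • pi) (gq g • pi)
  have h2 := hm (gq (g * h) • pi) (gq g • pi) pi
  rw [← h1, ← h2]
  ring

lemma dlt_mul (g h h' : SL(2, ℤ)) (r : OnePoint ℚ) :
    dlt m N Z g (h * h') r = dlt m N Z (g * h) h' r + dlt m N Z g h (gq h' • r) := by
  unfold dlt
  have e1 : ∀ x : OnePoint ℚ, gq (g * (h * h')) • x = gq (g * h) • gq h' • x := fun x => by
    rw [gq, ← mul_assoc, map_mul, mul_smul]
  have e2 : ∀ x : OnePoint ℚ, gq (g * h * h') • x = gq (g * h) • gq h' • x := fun x => by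
    rw [gq, map_mul, mul_smul]
  rw [e1, e1, e2, e2, mul_assoc g h h']
  ring

include hm in
lemma dlt_sub (g h : SL(2, ℤ)) (r r' : OnePoint ℚ) :
    dlt m N Z g h r - dlt m N Z g h r' =
      (N (g * h) - N g) * m (gq (g * h) • r) (gq (g * h) • r') := by
  unfold dlt
  have h1 := hm (gq (g * h) • r) (gq (g * h) • r') (gq (g * h) • pi)
  have h2 := hm (gq (g * h) • r) (gq (g * h) • r') (gq g • pi)
  rw [← h1, ← h2]
  ring

include hNneg hZneg in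
lemma dlt_neg_one (g : SL(2, ℤ)) (r : OnePoint ℚ) : dlt m N Z g (-1) r = 0 := by
  unfold dlt
  rw [mul_neg, mul_one, gq_neg_smul, gq_neg_smul, hNneg, hZneg]
  ring

include hm in
lemma dlt_T_pi (g : SL(2, ℤ)) : dlt m N Z g T pi = Z (g * T) - Z g := by
  unfold dlt
  have e1 : gq (g * T) • pi = gq g • pi := by
    rw [gq, map_mul, mul_smul]
    congr 1
    exact gq_T_pi
  have h1 := hm (gq g • pi) (gq g • pi) (gq g • pi)
  rw [e1]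
  have h2 : m (gq g • pi) (gq g • pi) = 0 := by linarith
  rw [h2]
  ring

variable [Fintype (SL(2, ℤ) ⧸ Γ)]

include hm hmΓ hN hNneg hZ hZneg in
/-- **Theorem A.** -/
theorem sum_T_eq :
    ∑ x : SL(2, ℤ) ⧸ Γ, (Z (x.out⁻¹ * T) - Z (x.out⁻¹)) =
      ∑ x : SL(2, ℤ) ⧸ Γ, (1 / 3 * (N (x.out⁻¹ * (T * S)) - N (x.out⁻¹)) *
        (m (gq x.out⁻¹ • pi) (gq x.out⁻¹ • p1) + m (gq x.out⁻¹ • pi) (gq x.out⁻¹ • pz)) -
        1 / 2 * (N (x.out⁻¹ * S) - N (x.out⁻¹)) *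
          m (gq x.out⁻¹ • pi) (gq x.out⁻¹ • pz)) := by
  set D : SL(2, ℤ) → OnePoint ℚ → ℚ := fun h r => ∑ x : SL(2, ℤ) ⧸ Γ, dlt m N Z (x.out⁻¹) h r
    with hD
  have hDmul : ∀ h h' r, D (h * h') r = D h' r + D h (gq h' • r) := by
    intro h h' r
    simp only [hD]
    rw [← sum_coset_mul_right Γ (E := fun g => dlt m N Z g h' r)
      (fun γ hγ g => dlt_left hm hmΓ hN hZ γ hγ g h' r) h, ← Finset.sum_add_distrib]
    exact Finset.sum_congr rfl fun x _ => dlt_mul _ _ _ _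
  have hDneg : ∀ r, D (-1) r = 0 := fun r =>
    Finset.sum_eq_zero fun x _ => dlt_neg_one hNneg hZneg _ _
  have hDsub : ∀ h r r', D h r - D h r' = ∑ x : SL(2, ℤ) ⧸ Γ,
      (N (x.out⁻¹ * h) - N (x.out⁻¹)) * m (gq (x.out⁻¹ * h) • r) (gq (x.out⁻¹ * h) • r') := by
    intro h r r'
    simp only [hD]
    rw [← Finset.sum_sub_distrib]
    exact Finset.sum_congr rfl fun x _ => dlt_sub hm _ _ _ _
  have hDT : D T pi = ∑ x : SL(2, ℤ) ⧸ Γ, (Z (x.out⁻¹ * T) - Z (x.out⁻¹)) :=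
    Finset.sum_congr rfl fun x _ => dlt_T_pi hm _
  have hgh : ∀ (g h : SL(2, ℤ)) (r : OnePoint ℚ), gq (g * h) • r = gq g • gq h • r := fun g h r => by
    rw [gq, map_mul, mul_smul]
  -- `S`
  have hS1 : D S pz + D S pi = 0 := by
    have h1 := hDmul S S pz
    rw [H77.FP.S_mul_S, hDneg, gq_S_pz] at h1
    exact h1.symm
  have hS2 : D S pz - D S pi = ∑ x : SL(2, ℤ) ⧸ Γ,
      (N (x.out⁻¹ * S) - N (x.out⁻¹)) * m (gq x.out⁻¹ • pi) (gq x.out⁻¹ • pz) := by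
    rw [hDsub]
    refine Finset.sum_congr rfl fun x _ => ?_
    rw [hgh, hgh, gq_S_pz, gq_S_pi]
  -- `U`
  have hU1 : D (T * S) pz + D (T * S) pi + D (T * S) p1 = 0 := by
    have h1 := hDmul (T * S * (T * S)) (T * S) pz
    have h2 := hDmul (T * S) (T * S) pi
    have e : T * S * (T * S) * (T * S) = -1 := H77.FP.U_mul_U_mul_U
    rw [e, hDneg, gq_U_pz, h2, gq_U_pi] at h1
    linarith
  have hU2 : D (T * S) pz - D (T * S) pi = ∑ x : SL(2, ℤ) ⧸ Γ,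
      (N (x.out⁻¹ * (T * S)) - N (x.out⁻¹)) * m (gq x.out⁻¹ • pi) (gq x.out⁻¹ • p1) := by
    rw [hDsub]
    refine Finset.sum_congr rfl fun x _ => ?_
    rw [hgh _ (T * S), hgh _ (T * S), gq_U_pz, gq_U_pi]
  have hU3 : D (T * S) pz - D (T * S) p1 = ∑ x : SL(2, ℤ) ⧸ Γ,
      (N (x.out⁻¹ * (T * S)) - N (x.out⁻¹)) * m (gq x.out⁻¹ • pi) (gq x.out⁻¹ • pz) := by
    rw [hDsub]
    refine Finset.sum_congr rfl fun x _ => ?_
    rw [hgh _ (T * S), hgh _ (T * S), gq_U_pz, gq_U_p1]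
  have hTS : D (T * S) pz = D S pz + D T pi := by
    rw [hDmul, gq_S_pz]
  have h5 : D T pi = D (T * S) pz - D S pz := by rw [hTS]; ring
  have h6 : D (T * S) pz = 1 / 3 * ((D (T * S) pz - D (T * S) pi) + (D (T * S) pz - D (T * S) p1)) := by
    linarith
  have h7 : D S pz = 1 / 2 * (D S pz - D S pi) := by linarith
  rw [← hDT, h5, h6, h7, hU2, hU3, hS2, ← Finset.sum_add_distrib, Finset.mul_sum, Finset.mul_sum,
    ← Finset.sum_sub_distrib]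
  refine Finset.sum_congr rfl fun x _ => ?_
  ring

end TheoremA

/-! ### Sums over cyclic orbits -/

lemma sum_eq_sum_orbits {X Q : Type*} [Fintype X] [Fintype Q] (σ : X → X) (p : X → Q)
    (hper : ∀ x, 0 < Function.minimalPeriod σ x)
    (hfib : ∀ x y, p x = p y ↔ ∃ k : ℕ, σ^[k] x = y) (e : X → ℚ) (s : Q → X)
    (hs : ∀ q, p (s q) = q) :
    ∑ x, e x = ∑ q, ∑ k ∈ Finset.range (Function.minimalPeriod σ (s q)), e (σ^[k] (s q)) := by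
  classical
  rw [← Finset.sum_fiberwise Finset.univ p e]
  refine Finset.sum_congr rfl fun q _ => ?_
  have h1 : (Finset.univ.filter fun x => p x = q) =
      (Finset.range (Function.minimalPeriod σ (s q))).image fun k => σ^[k] (s q) := by
    ext x
    simp only [Finset.mem_filter, Finset.mem_univ, true_and, Finset.mem_image, Finset.mem_range]
    constructor
    · intro hx
      obtain ⟨k, hk⟩ := (hfib (s q) x).1 (by rw [hs, hx])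
      refine ⟨k % Function.minimalPeriod σ (s q), Nat.mod_lt _ (hper _), ?_⟩
      rw [Function.iterate_mod_minimalPeriod_eq, hk]
    · rintro ⟨k, -, hk⟩
      rw [← (hfib (s q) x).2 ⟨k, hk⟩, hs]
  rw [h1, Finset.sum_image]
  intro k hk k' hk' h
  exact Function.iterate_injOn_Iio_minimalPeriod (by simpa using hk) (by simpa using hk') h

/-! ### Generators of stabilisers -/

/-- `t` is the positive generator of the stabiliser of `s` in `Γ` (modulo `±1`). -/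
def IsGen (Γ : Subgroup SL(2, ℤ)) (s : OnePoint ℚ) (t : SL(2, ℤ)) : Prop :=
  t ∈ Γ ∧ ∃ (g : SL(2, ℤ)) (w : ℕ), 0 < w ∧ gq g • pi = s ∧ t = g * T ^ w * g⁻¹ ∧
    ∀ j : ℕ, 0 < j → g * T ^ j * g⁻¹ ∈ Γ → w ≤ j

/-- Elements of `SL₂(ℤ)` fixing `∞`. -/
lemma eq_T_zpow_of_smul_pi {g : SL(2, ℤ)} (hg : gq g • pi = pi) :
    ∃ k : ℤ, g = T ^ k ∨ g = -T ^ k := by
  have h10 : g 1 0 = 0 := by
    have h := OnePoint.smul_infty_eq_self_iff.1 hg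
    simpa [gq] using h
  have hdet := sl_det g
  rw [h10, mul_zero, sub_zero] at hdet
  rcases Int.mul_eq_one_iff_eq_one_or_neg_one.1 hdet with ⟨h1, h2⟩ | ⟨h1, h2⟩
  · refine ⟨g 0 1, Or.inl ?_⟩
    ext i j
    rw [coe_T_zpow]
    fin_cases i <;> fin_cases j <;> simp [h10, h1, h2]
  · refine ⟨-g 0 1, Or.inr ?_⟩
    ext i j
    rw [Matrix.SpecialLinearGroup.coe_neg, coe_T_zpow]
    fin_cases i <;> fin_cases j <;> simp [h10, h1, h2]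

lemma smul_pi_eq_iff {g g' : SL(2, ℤ)} (h : gq g • pi = gq g' • pi) :
    ∃ k : ℤ, g' = g * T ^ k ∨ g' = -(g * T ^ k) := by
  have h1 : gq (g⁻¹ * g') • pi = pi := by
    rw [gq, map_mul, mul_smul]
    rw [show (mapGL ℚ g' : GL (Fin 2) ℚ) • pi = (mapGL ℚ g : GL (Fin 2) ℚ) • pi from h.symm,
      ← mul_smul, ← map_mul, inv_mul_cancel, map_one, one_smul]
  obtain ⟨k, hk | hk⟩ := eq_T_zpow_of_smul_pi h1
  · exact ⟨k, Or.inl (by rw [← hk, mul_inv_cancel_left])⟩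
  · refine ⟨k, Or.inr ?_⟩
    have : g' = g * (g⁻¹ * g') := by rw [mul_inv_cancel_left]
    rw [this, hk, mul_neg]

lemma conj_eq_of_smul_pi {g g' : SL(2, ℤ)} (h : gq g • pi = gq g' • pi) (j : ℕ) :
    g' * T ^ j * g'⁻¹ = g * T ^ j * g⁻¹ := by
  obtain ⟨k, hk | hk⟩ := smul_pi_eq_iff h
  · rw [hk, _root_.mul_inv_rev, ← zpow_natCast]
    have : g * T ^ k * T ^ (j : ℤ) * ((T ^ k)⁻¹ * g⁻¹) = g * (T ^ k * T ^ (j : ℤ) * (T ^ k)⁻¹) * g⁻¹ := by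
      group
    rw [this, ← _root_.zpow_add, ← _root_.zpow_neg, ← _root_.zpow_add]
    congr 3
    ring
  · rw [hk]
    have hinv : (-(g * T ^ k))⁻¹ = -(g * T ^ k)⁻¹ := by
      rw [inv_eq_iff_mul_eq_one, neg_mul_neg, mul_inv_cancel]
    rw [hinv, neg_mul, neg_mul_neg, _root_.mul_inv_rev, ← zpow_natCast]
    have : g * T ^ k * T ^ (j : ℤ) * ((T ^ k)⁻¹ * g⁻¹) = g * (T ^ k * T ^ (j : ℤ) * (T ^ k)⁻¹) * g⁻¹ := by
      group
    rw [this, ← _root_.zpow_add, ← _root_.zpow_neg, ← _root_.zpow_add]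
    congr 3
    ring

lemma IsGen.unique {Γ : Subgroup SL(2, ℤ)} {s : OnePoint ℚ} {t t' : SL(2, ℤ)} (h : IsGen Γ s t)
    (h' : IsGen Γ s t') : t = t' := by
  obtain ⟨ht, g, w, hw, hgs, rfl, hmin⟩ := h
  obtain ⟨ht', g', w', hw', hgs', rfl, hmin'⟩ := h'
  have e := conj_eq_of_smul_pi (hgs.trans hgs'.symm)
  rw [e] at ht' ⊢
  have h1 : w ≤ w' := hmin w' hw' ht'
  have h2 : w' ≤ w := hmin' w hw (by rw [e]; exact ht)
  rw [le_antisymm h1 h2]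

lemma IsGen.conj {Γ : Subgroup SL(2, ℤ)} {s : OnePoint ℚ} {t γ : SL(2, ℤ)} (h : IsGen Γ s t)
    (hγ : γ ∈ Γ) : IsGen Γ (gq γ • s) (γ * t * γ⁻¹) := by
  obtain ⟨ht, g, w, hw, hgs, rfl, hmin⟩ := h
  refine ⟨Γ.mul_mem (Γ.mul_mem hγ ht) (Γ.inv_mem hγ), γ * g, w, hw, ?_, ?_, ?_⟩
  · rw [gq, map_mul, mul_smul]
    rw [← hgs]
  · group
  · intro j hj hj'
    refine hmin j hj ?_
    have : g * T ^ j * g⁻¹ = γ⁻¹ * (γ * g * T ^ j * (γ * g)⁻¹) * γ := by group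
    rw [this]
    exact Γ.mul_mem (Γ.mul_mem (Γ.inv_mem hγ) hj') hγ

lemma gq_T_pow_smul_pi (w : ℕ) : gq (T ^ w) • pi = pi := by
  induction w with
  | zero => simp [gq]
  | succ w ih =>
    rw [gq, pow_succ, map_mul, mul_smul]
    rw [show (mapGL ℚ T : GL (Fin 2) ℚ) • pi = pi from gq_T_pi]
    exact ih

lemma IsGen.fix {Γ : Subgroup SL(2, ℤ)} {s : OnePoint ℚ} {t : SL(2, ℤ)} (h : IsGen Γ s t) :
    gq t • s = s := by
  obtain ⟨ht, g, w, hw, hgs, rfl, hmin⟩ := h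
  rw [← hgs, gq, map_mul, map_mul, mul_smul, mul_smul, ← mul_smul (mapGL ℚ g⁻¹), ← map_mul,
    inv_mul_cancel, map_one, one_smul]
  congr 1
  exact gq_T_pow_smul_pi w

/-! ### Conjugation by elements of `GL₂(ℚ)` -/

lemma gq_T_pow (j : ℕ) : gq (T ^ j) = Um j := by
  have h := coe_T_zpow (j : ℤ)
  rw [zpow_natCast] at h
  apply gl_ext
  · rw [gq, mapGL_apply, h]; simp [Um]
  · rw [gq, mapGL_apply, h]; simp [Um]
  · rw [gq, mapGL_apply, h]; simp [Um]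
  · rw [gq, mapGL_apply, h]; simp [Um]

lemma conj_Um {A : GL (Fin 2) ℚ} (hA : A 1 0 = 0) (x : ℚ) :
    A * Um x * A⁻¹ = Um (x * A 0 0 / A 1 1) := by
  have hd := dt_ne_zero A
  have hdt : dt A = A 0 0 * A 1 1 := by rw [dt, hA]; ring
  have h11 : A 1 1 ≠ 0 := by
    intro h; rw [hdt, h, mul_zero] at hd; exact hd rfl
  rw [mul_inv_eq_iff_eq_mul]
  apply gl_ext
  · simp only [mul_00, Um, mk2_00, mk2_01, mk2_10]; rw [hA]; ring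
  · simp only [mul_01, Um, mk2_00, mk2_01, mk2_11]; field_simp; ring
  · simp only [mul_10, Um, mk2_00, mk2_10, mk2_11]; rw [hA]; ring
  · simp only [mul_11, Um, mk2_01, mk2_10, mk2_11]; rw [hA]; ring

lemma conj_Um' {A : GL (Fin 2) ℚ} (hA : A 1 0 = 0) (x : ℚ) :
    A⁻¹ * Um x * A = Um (x * A 1 1 / A 0 0) := by
  have hd := dt_ne_zero A
  have h := conj_Um (A := A⁻¹) (by rw [inv_10, hA]; simp) x
  rw [inv_inv, inv_00, inv_11] at h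
  rw [h]
  congr 1
  field_simp

lemma eq_of_gq_eq_Um {h : SL(2, ℤ)} {x : ℚ} (hx : gq h = Um x) :
    ((h 0 1 : ℤ) : ℚ) = x ∧ h = T ^ (h 0 1) := by
  have h00 : ((h 0 0 : ℤ) : ℚ) = 1 := by rw [← mapGL_apply, show mapGL ℚ h = Um x from hx]; rfl
  have h01 : ((h 0 1 : ℤ) : ℚ) = x := by rw [← mapGL_apply, show mapGL ℚ h = Um x from hx]; rfl
  have h10 : ((h 1 0 : ℤ) : ℚ) = 0 := by rw [← mapGL_apply, show mapGL ℚ h = Um x from hx]; rfl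
  have h11 : ((h 1 1 : ℤ) : ℚ) = 1 := by rw [← mapGL_apply, show mapGL ℚ h = Um x from hx]; rfl
  refine ⟨h01, ?_⟩
  have h00' : h 0 0 = 1 := by exact_mod_cast h00
  have h10' : h 1 0 = 0 := by exact_mod_cast h10
  have h11' : h 1 1 = 1 := by exact_mod_cast h11
  ext i j
  rw [coe_T_zpow]
  fin_cases i <;> fin_cases j <;> simp [h00', h10', h11']

lemma dt_gq (g : SL(2, ℤ)) : dt (gq g) = 1 := by
  have h := sl_det g
  rw [dt, gq, mapGL_apply, mapGL_apply, mapGL_apply, mapGL_apply]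
  exact_mod_cast h

lemma ratio_pos {A : GL (Fin 2) ℚ} (hA : A 1 0 = 0) (hpos : 0 < dt A) :
    0 < A 0 0 / A 1 1 ∧ A 0 0 ≠ 0 ∧ A 1 1 ≠ 0 := by
  have h1 : 0 < A 0 0 * A 1 1 := by
    have : dt A = A 0 0 * A 1 1 := by rw [dt, hA]; ring
    rwa [← this]
  have h11 : A 1 1 ≠ 0 := by
    intro h; rw [h, mul_zero] at h1; exact lt_irrefl _ h1
  have h00 : A 0 0 ≠ 0 := by
    intro h; rw [h, zero_mul] at h1; exact lt_irrefl _ h1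
  refine ⟨?_, h00, h11⟩
  have h2 : A 0 0 / A 1 1 = A 0 0 * A 1 1 / (A 1 1 * A 1 1) := by
    rw [mul_div_mul_right _ _ h11]
  rw [h2]
  exact div_pos h1 (mul_self_pos.2 h11)

lemma exists_exponent {A : GL (Fin 2) ℚ} (hA : A 1 0 = 0) (hpos : 0 < dt A) {h : SL(2, ℤ)} {w : ℕ}
    (hw : 0 < w) (hh : gq h = A * gq (T ^ w) * A⁻¹) :
    ∃ k : ℕ, 0 < k ∧ h = T ^ k ∧ (k : ℚ) = w * (A 0 0 / A 1 1) := by
  obtain ⟨hr, -, -⟩ := ratio_pos hA hpos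
  rw [gq_T_pow, conj_Um hA] at hh
  obtain ⟨h1, h2⟩ := eq_of_gq_eq_Um hh
  have hw' : (0 : ℚ) < w := by exact_mod_cast hw
  have h3 : (0 : ℚ) < (h 0 1 : ℤ) := by
    rw [h1, mul_div_assoc]
    exact mul_pos hw' hr
  have h4 : 0 < h 0 1 := by exact_mod_cast h3
  have h5 : (((h 0 1).toNat : ℕ) : ℤ) = h 0 1 := Int.toNat_of_nonneg h4.le
  refine ⟨(h 0 1).toNat, by omega, ?_, ?_⟩
  · conv_lhs => rw [h2]
    rw [← zpow_natCast, h5]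
  · have h6 : (((h 0 1).toNat : ℕ) : ℚ) = ((h 0 1 : ℤ) : ℚ) := by exact_mod_cast h5
    rw [h6, h1, mul_div_assoc]

lemma gq_mul (g h : SL(2, ℤ)) : gq (g * h) = gq g * gq h := map_mul _ _ _

lemma gq_inv (g : SL(2, ℤ)) : gq g⁻¹ = (gq g)⁻¹ := map_inv _ _

lemma IsGen.conjW {Γ : Subgroup SL(2, ℤ)} {W : GL (Fin 2) ℚ} (hW : 0 < dt W)
    (hW2 : ∀ γ ∈ Γ, ∃ δ ∈ Γ, gq δ = W⁻¹ * gq γ * W)
    {s : OnePoint ℚ} {t t' : SL(2, ℤ)} (h : IsGen Γ s t) (ht' : t' ∈ Γ)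
    (htt' : gq t' = W * gq t * W⁻¹) : IsGen Γ (W • s) t' := by
  obtain ⟨ht, g, w, hw, hgs, rfl, hmin⟩ := h
  obtain ⟨g', hg'⟩ := OnePoint.exists_mem_SL2 ℤ (W • s)
  have hg'' : gq g' • pi = W • s := hg'
  obtain ⟨A, hA⟩ : ∃ A : GL (Fin 2) ℚ, A = (gq g')⁻¹ * W * gq g := ⟨_, rfl⟩
  have hA10 : A 1 0 = 0 := by
    rw [← OnePoint.smul_infty_eq_self_iff]
    show A • pi = pi
    rw [hA, mul_smul, mul_smul, hgs, ← hg'', inv_smul_smul]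
  have hdtA : 0 < dt A := by
    rw [hA, dt_mul, dt_mul, dt_inv, dt_gq, dt_gq]; simpa using hW
  have hA'10 : A⁻¹ 1 0 = 0 := by rw [inv_10, hA10]; simp
  have hdtA' : 0 < dt A⁻¹ := by rw [dt_inv]; exact inv_pos.2 hdtA
  obtain ⟨hr, hA00, hA11⟩ := ratio_pos hA10 hdtA
  -- the exponent
  have e1 : gq (g'⁻¹ * t' * g') = A * gq (T ^ w) * A⁻¹ := by
    rw [gq_mul, gq_mul, gq_inv, htt', gq_mul, gq_mul, gq_inv, hA]
    group
  obtain ⟨k, hk0, hk1, hk2⟩ := exists_exponent hA10 hdtA hw e1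
  have ht'eq : t' = g' * T ^ k * g'⁻¹ := by
    rw [← hk1]
    group
  refine ⟨ht', g', k, hk0, hg'', ht'eq, ?_⟩
  intro j hj hj'
  obtain ⟨δ, hδ, hδ'⟩ := hW2 _ hj'
  have e2 : gq (g⁻¹ * δ * g) = A⁻¹ * gq (T ^ j) * A⁻¹⁻¹ := by
    rw [gq_mul, gq_mul, gq_inv, hδ', gq_mul, gq_mul, gq_inv, hA]
    group
  obtain ⟨i, hi0, hi1, hi2⟩ := exists_exponent hA'10 hdtA' hj e2
  have hδeq : δ = g * T ^ i * g⁻¹ := by
    rw [← hi1]
    group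
  have hwi : w ≤ i := hmin i hi0 (by rw [← hδeq]; exact hδ)
  have hdt : dt A ≠ 0 := hdtA.ne'
  have hi3 : (i : ℚ) = j * (A 1 1 / A 0 0) := by
    rw [hi2, inv_00, inv_11, div_div_div_cancel_right₀ hdt]
  have hwi' : (w : ℚ) ≤ i := by exact_mod_cast hwi
  have hkj : (k : ℚ) ≤ j := by
    rw [hk2]
    calc (w : ℚ) * (A 0 0 / A 1 1) ≤ i * (A 0 0 / A 1 1) :=
          mul_le_mul_of_nonneg_right hwi' hr.le
      _ = j := by rw [hi3]; field_simp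
  exact_mod_cast hkj

/-! ### Cusps -/

section Cusps

variable (Γ : Subgroup SL(2, ℤ))

/-- `Γ`-equivalence on `P¹(ℚ)` -/
def cuspSetoid : Setoid (OnePoint ℚ) where
  r s s' := ∃ γ ∈ Γ, gq γ • s = s'
  iseqv :=
    { refl := fun s => ⟨1, Γ.one_mem, by rw [gq, map_one, one_smul]⟩
      symm := by
        rintro s s' ⟨γ, hγ, rfl⟩
        exact ⟨γ⁻¹, Γ.inv_mem hγ, by rw [gq_inv, inv_smul_smul]⟩
      trans := by
        rintro s s' s'' ⟨γ, hγ, rfl⟩ ⟨δ, hδ, rfl⟩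
        exact ⟨δ * γ, Γ.mul_mem hδ hγ, by rw [gq_mul, mul_smul]⟩ }

/-- The set of cusps. -/
def Cusp : Type := Quotient (cuspSetoid Γ)

/-- the class of a point -/
def cuspMk (s : OnePoint ℚ) : Cusp Γ := Quotient.mk (cuspSetoid Γ) s

lemma cuspMk_eq_iff {s s' : OnePoint ℚ} : cuspMk Γ s = cuspMk Γ s' ↔ ∃ γ ∈ Γ, gq γ • s = s' :=
  Quotient.eq (r := cuspSetoid Γ)

lemma cuspMk_surjective : Function.Surjective (cuspMk Γ) := Quotient.mk_surjective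

/-- the cusp attached to a coset -/
noncomputable def cuspOf (x : SL(2, ℤ) ⧸ Γ) : Cusp Γ := cuspMk Γ (gq x.out⁻¹ • pi)

lemma cuspOf_mk (h : SL(2, ℤ)) : cuspOf Γ (h : SL(2, ℤ) ⧸ Γ) = cuspMk Γ (gq h⁻¹ • pi) := by
  obtain ⟨γ, hγ⟩ := QuotientGroup.mk_out_eq_mul Γ h
  rw [cuspOf, hγ, eq_comm, cuspMk_eq_iff]
  refine ⟨(γ : SL(2, ℤ))⁻¹, Γ.inv_mem γ.2, ?_⟩
  rw [_root_.mul_inv_rev, gq_mul, mul_smul]

lemma cuspOf_surjective : Function.Surjective (cuspOf Γ) := by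
  intro q
  obtain ⟨s, rfl⟩ := cuspMk_surjective Γ q
  obtain ⟨g, hg⟩ := OnePoint.exists_mem_SL2 ℤ s
  refine ⟨(g⁻¹ : SL(2, ℤ)), ?_⟩
  rw [cuspOf_mk, inv_inv]
  exact congrArg _ hg

instance [Finite (SL(2, ℤ) ⧸ Γ)] : Finite (Cusp Γ) := Finite.of_surjective _ (cuspOf_surjective Γ)

/-- translation on cosets -/
def sig (x : SL(2, ℤ) ⧸ Γ) : SL(2, ℤ) ⧸ Γ := (T⁻¹ : SL(2, ℤ)) • x

lemma sig_iterate (k : ℕ) (h : SL(2, ℤ)) :
    (sig Γ)^[k] (h : SL(2, ℤ) ⧸ Γ) = (((T ^ k)⁻¹ * h : SL(2, ℤ)) : SL(2, ℤ) ⧸ Γ) := by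
  induction k with
  | zero => simp
  | succ k ih =>
    rw [Function.iterate_succ_apply', ih, sig]
    show (((T⁻¹ * ((T ^ k)⁻¹ * h) : SL(2, ℤ))) : SL(2, ℤ) ⧸ Γ) = _
    congr 1
    rw [pow_succ, _root_.mul_inv_rev, mul_assoc]

lemma sig_iterate_eq_iff (k : ℕ) (h : SL(2, ℤ)) :
    (sig Γ)^[k] (h : SL(2, ℤ) ⧸ Γ) = h ↔ h⁻¹ * T ^ k * h ∈ Γ := by
  rw [sig_iterate, QuotientGroup.eq]
  have : ((T ^ k)⁻¹ * h)⁻¹ * h = h⁻¹ * T ^ k * h := by group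
  rw [this]

variable [Finite (SL(2, ℤ) ⧸ Γ)]

lemma exists_T_pow : ∃ n : ℕ, 0 < n ∧ ∀ x : SL(2, ℤ) ⧸ Γ, (T ^ n : SL(2, ℤ)) • x = x := by
  let τ : Equiv.Perm (SL(2, ℤ) ⧸ Γ) := MulAction.toPermHom _ _ T
  refine ⟨orderOf τ, orderOf_pos τ, fun x => ?_⟩
  have h1 : (MulAction.toPermHom _ (SL(2, ℤ) ⧸ Γ)) (T ^ orderOf τ) = 1 := by
    rw [map_pow]
    exact pow_orderOf_eq_one τ
  have := congrArg (fun e : Equiv.Perm (SL(2, ℤ) ⧸ Γ) => e x) h1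
  exact this

lemma minimalPeriod_sig_pos (x : SL(2, ℤ) ⧸ Γ) : 0 < Function.minimalPeriod (sig Γ) x := by
  obtain ⟨n, hn, h⟩ := exists_T_pow Γ
  refine Function.IsPeriodicPt.minimalPeriod_pos hn ?_
  induction x using QuotientGroup.induction_on with
  | H k =>
    show (sig Γ)^[n] (k : SL(2, ℤ) ⧸ Γ) = k
    rw [sig_iterate]
    have := h (((T ^ n)⁻¹ * k : SL(2, ℤ)) : SL(2, ℤ) ⧸ Γ)
    rw [← this]
    show (((T ^ n * ((T ^ n)⁻¹ * k) : SL(2, ℤ))) : SL(2, ℤ) ⧸ Γ) = _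
    rw [mul_inv_cancel_left]

lemma cuspOf_eq_iff (hneg : (-1 : SL(2, ℤ)) ∈ Γ) (x y : SL(2, ℤ) ⧸ Γ) :
    cuspOf Γ x = cuspOf Γ y ↔ ∃ k : ℕ, (sig Γ)^[k] x = y := by
  induction x using QuotientGroup.induction_on with
  | H h =>
  induction y using QuotientGroup.induction_on with
  | H h' =>
    rw [cuspOf_mk, cuspOf_mk, cuspMk_eq_iff]
    constructor
    · rintro ⟨γ, hγ, he⟩
      -- `γ h⁻¹ ∞ = h'⁻¹ ∞`
      have h1 : gq (γ * h⁻¹) • pi = gq h'⁻¹ • pi := by rw [gq_mul, mul_smul, he]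
      obtain ⟨k, hk⟩ := smul_pi_eq_iff h1
      obtain ⟨n, hn, hn'⟩ := exists_T_pow Γ
      -- `h' = ± T⁻ᵏ h γ⁻¹`
      have h2 : (h' : SL(2, ℤ) ⧸ Γ) = (((T ^ k)⁻¹ * h : SL(2, ℤ)) : SL(2, ℤ) ⧸ Γ) := by
        rw [QuotientGroup.eq]
        rcases hk with hk | hk
        · rw [hk]
          have : γ * h⁻¹ * T ^ k * ((T ^ k)⁻¹ * h) = γ := by group
          rw [this]
          exact hγ
        · rw [hk]
          have : -(γ * h⁻¹ * T ^ k) * ((T ^ k)⁻¹ * h) = -1 * γ := by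
            rw [neg_mul, neg_one_mul]
            congr 1
            group
          rw [this]
          exact Γ.mul_mem hneg hγ
      -- make the exponent nonnegative
      have h3 : ∀ j : ℕ, ∀ x : SL(2, ℤ) ⧸ Γ, ((T ^ (n * j))⁻¹ : SL(2, ℤ)) • x = x := by
        intro j x
        rw [inv_smul_eq_iff]
        induction j with
        | zero => simp
        | succ j ih => rw [mul_add, mul_one, pow_add, mul_smul, hn', ← ih]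
      refine ⟨(k + n * k.natAbs).toNat, ?_⟩
      rw [sig_iterate, h2, ← h3 k.natAbs (((T ^ k)⁻¹ * h : SL(2, ℤ)) : SL(2, ℤ) ⧸ Γ)]
      show _ = (((T ^ (n * k.natAbs))⁻¹ * ((T ^ k)⁻¹ * h) : SL(2, ℤ)) : SL(2, ℤ) ⧸ Γ)
      congr 1
      rw [← mul_assoc, ← _root_.mul_inv_rev]
      congr 2
      rw [← zpow_natCast, ← zpow_natCast, ← _root_.zpow_add]
      congr 1
      rw [Int.toNat_of_nonneg]
      · push_cast; ring
      · have : (k.natAbs : ℤ) ≤ n * k.natAbs := by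
          have h5 : (1 : ℤ) ≤ n := by exact_mod_cast hn
          nlinarith [Int.natCast_nonneg k.natAbs]
        omega
    · rintro ⟨k, hk⟩
      rw [sig_iterate, QuotientGroup.eq] at hk
      refine ⟨(((T ^ k)⁻¹ * h)⁻¹ * h')⁻¹, Γ.inv_mem hk, ?_⟩
      have e : h'⁻¹ = (((T ^ k)⁻¹ * h)⁻¹ * h')⁻¹ * h⁻¹ * T ^ k := by group
      conv_rhs => rw [e, gq_mul, mul_smul, gq_T_pow_smul_pi, gq_mul, mul_smul]

lemma isGen_of_coset (x : SL(2, ℤ) ⧸ Γ) : IsGen Γ (gq x.out⁻¹ • pi)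
    (x.out⁻¹ * T ^ (Function.minimalPeriod (sig Γ) x) * x.out⁻¹⁻¹) := by
  have hx : ((x.out : SL(2, ℤ)) : SL(2, ℤ) ⧸ Γ) = x := QuotientGroup.out_eq' x
  have h1 : ∀ j : ℕ, (sig Γ)^[j] x = x ↔ x.out⁻¹ * T ^ j * x.out⁻¹⁻¹ ∈ Γ := by
    intro j
    have := sig_iterate_eq_iff Γ j x.out
    rw [hx] at this
    rw [this, inv_inv]
  refine ⟨(h1 _).1 (Function.iterate_minimalPeriod), x.out⁻¹, _, minimalPeriod_sig_pos Γ x, rfl,
    rfl, fun j hj hj' => ?_⟩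
  exact Function.IsPeriodicPt.minimalPeriod_le hj ((h1 j).2 hj')

variable {Γ}

lemma exists_gens : ∃ (s : Cusp Γ → OnePoint ℚ) (t : Cusp Γ → SL(2, ℤ)),
    ∀ q, cuspMk Γ (s q) = q ∧ IsGen Γ (s q) (t q) := by
  have h := cuspOf_surjective Γ
  choose x hx using h
  exact ⟨fun q => gq (x q).out⁻¹ • pi, _, fun q => ⟨hx q, isGen_of_coset Γ (x q)⟩⟩

variable [Fintype (SL(2, ℤ) ⧸ Γ)] [Fintype (Cusp Γ)]
variable {m : OnePoint ℚ → OnePoint ℚ → ℚ} {N ξ Z : SL(2, ℤ) → ℚ}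
variable (hneg : (-1 : SL(2, ℤ)) ∈ Γ) (hm : ∀ x y z, m x y + m y z = m x z)
  (hmΓ : ∀ γ ∈ Γ, ∀ x y, m (gq γ • x) (gq γ • y) = m x y)
  (hN : ∀ γ ∈ Γ, ∀ g, N (γ * g) = N γ + N g)
  (hZ : ∀ γ ∈ Γ, ∀ g, Z (γ * g) = ξ γ + Z g + N γ * m (gq g • pi) pi)

omit [Finite (SL(2, ℤ) ⧸ Γ)] [Fintype (SL(2, ℤ) ⧸ Γ)] [Fintype (Cusp Γ)] in
include hm hZ in
lemma xi_mul {γ δ : SL(2, ℤ)} (hγ : γ ∈ Γ) (hδ : δ ∈ Γ) :
    ξ (γ * δ) = ξ γ + ξ δ + N γ * m (gq δ • pi) pi := by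
  have h1 := hZ (γ * δ) (Γ.mul_mem hγ hδ) 1
  have h2 := hZ γ hγ (δ * 1)
  have h3 := hZ δ hδ 1
  have h4 : m (gq 1 • pi) pi = 0 := by
    rw [gq, map_one, one_smul]
    have := hm pi pi pi
    linarith
  rw [mul_assoc, h2, h3] at h1
  rw [h4] at h1
  have h5 : gq (δ * 1) = gq δ := by rw [mul_one]
  rw [h5] at h1
  linarith

omit [Finite (SL(2, ℤ) ⧸ Γ)] [Fintype (SL(2, ℤ) ⧸ Γ)] [Fintype (Cusp Γ)] in
include hm hmΓ hN hZ in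
/-- The cocycle relation. -/
lemma coc_mul {γ δ : SL(2, ℤ)} (hγ : γ ∈ Γ) (hδ : δ ∈ Γ) (r : OnePoint ℚ) :
    ξ (γ * δ) + N (γ * δ) * m r pi =
      (ξ γ + N γ * m (gq δ • r) pi) + (ξ δ + N δ * m r pi) := by
  rw [xi_mul hm hZ hγ hδ, hN γ hγ]
  have h1 := hm (gq δ • r) (gq δ • pi) pi
  rw [hmΓ δ hδ] at h1
  rw [← h1]
  ring

omit [Finite (SL(2, ℤ) ⧸ Γ)] [Fintype (SL(2, ℤ) ⧸ Γ)] [Fintype (Cusp Γ)] in
include hm hmΓ hN hZ in
lemma coc_conj {γ t : SL(2, ℤ)} (hγ : γ ∈ Γ) (ht : t ∈ Γ) {s : OnePoint ℚ} (hs : gq t • s = s) :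
    ξ (γ * t * γ⁻¹) + N (γ * t * γ⁻¹) * m (gq γ • s) pi = ξ t + N t * m s pi := by
  have h1 := coc_mul hm hmΓ hN hZ (Γ.mul_mem hγ ht) (Γ.inv_mem hγ) (gq γ • s)
  have h2 := coc_mul hm hmΓ hN hZ hγ ht s
  have h3 := coc_mul hm hmΓ hN hZ hγ (Γ.inv_mem hγ) (gq γ • s)
  have h4 := coc_mul hm hmΓ hN hZ Γ.one_mem Γ.one_mem (gq γ • s)
  rw [mul_inv_cancel] at h3
  rw [gq_inv, inv_smul_smul] at h1 h3
  rw [hs] at h2
  rw [mul_one] at h4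
  have h5 : gq (1 : SL(2, ℤ)) • gq γ • s = gq γ • s := by rw [gq, map_one, one_smul]
  rw [h5] at h4
  linarith

include hneg hm hmΓ hN hZ in
/-- **Cusp formula.** -/
theorem sum_T_eq_sum_cusps (s : Cusp Γ → OnePoint ℚ) (t : Cusp Γ → SL(2, ℤ))
    (hst : ∀ q, cuspMk Γ (s q) = q ∧ IsGen Γ (s q) (t q)) :
    ∑ x : SL(2, ℤ) ⧸ Γ, (Z (x.out⁻¹ * T) - Z (x.out⁻¹)) =
      ∑ q, (ξ (t q) + N (t q) * m (s q) pi) := by
  have hE : ∀ γ ∈ Γ, ∀ g, (fun g => Z (g * T) - Z g) (γ * g) = (fun g => Z (g * T) - Z g) g := by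
    intro γ hγ g
    simp only [mul_assoc, hZ γ hγ]
    have : gq (g * T) • pi = gq g • pi := by rw [gq_mul, mul_smul, gq_T_pi]
    rw [this]
    ring
  obtain ⟨x, hx⟩ : ∃ x : Cusp Γ → SL(2, ℤ) ⧸ Γ, ∀ q, cuspOf Γ (x q) = q :=
    ⟨fun q => (cuspOf_surjective Γ q).choose, fun q => (cuspOf_surjective Γ q).choose_spec⟩
  rw [sum_eq_sum_orbits (sig Γ) (cuspOf Γ) (minimalPeriod_sig_pos Γ) (cuspOf_eq_iff Γ hneg)
    (fun x => Z (x.out⁻¹ * T) - Z (x.out⁻¹)) x hx]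
  refine Finset.sum_congr rfl fun q _ => ?_
  set w := Function.minimalPeriod (sig Γ) (x q) with hw
  set g := (x q).out⁻¹ with hg
  have h1 : ∀ k : ℕ, Z (((sig Γ)^[k] (x q)).out⁻¹ * T) - Z ((sig Γ)^[k] (x q)).out⁻¹ =
      Z (g * T ^ (k + 1)) - Z (g * T ^ k) := by
    intro k
    have h2 : (sig Γ)^[k] (x q) = (((T ^ k)⁻¹ * (x q).out : SL(2, ℤ)) : SL(2, ℤ) ⧸ Γ) := by
      conv_lhs => rw [← QuotientGroup.out_eq' (x q)]
      exact sig_iterate Γ k _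
    rw [h2]
    have h3 := out_inv_eq Γ (E := fun g => Z (g * T) - Z g) hE ((T ^ k)⁻¹ * (x q).out)
    rw [h3, _root_.mul_inv_rev, inv_inv, ← hg, mul_assoc, ← pow_succ]
  rw [Finset.sum_congr rfl fun k _ => h1 k,
    Finset.sum_range_sub (fun k => Z (g * T ^ k)) w, pow_zero, mul_one]
  -- the generator at `g ∞`
  have hgen := isGen_of_coset Γ (x q)
  rw [← hg, ← hw] at hgen
  set t' := g * T ^ w * g⁻¹ with ht'
  have h4 : g * T ^ w = t' * g := by rw [ht']; group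
  rw [h4, hZ t' hgen.1]
  -- comparison with `s q, t q`
  have h5 : cuspMk Γ (gq g • pi) = cuspMk Γ (s q) := by
    rw [(hst q).1]
    exact hx q
  obtain ⟨γ, hγ, hγs⟩ := (cuspMk_eq_iff Γ).1 h5
  have h6 : t q = γ * t' * γ⁻¹ := by
    refine IsGen.unique (hst q).2 ?_
    rw [← hγs]
    exact hgen.conj hγ
  have h7 := coc_conj hm hmΓ hN hZ hγ hgen.1 hgen.fix
  rw [h6, ← hγs, h7]
  ring

end Cusps

/-! ### The pairing -/

/-- base point of `PG` -/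
noncomputable def oPG : PG := ((1 : GL (Fin 2) ℚ) : PG)

/-- the local term of the pairing -/
noncomputable def b1 (m : Symb ℚ (OnePoint ℚ) ℚ) (n : Symb ℚ PG ℚ) : ℚ :=
  1 / 3 * n.1 (gq (T * S) • oPG) oPG * (m.1 pi p1 + m.1 pi pz) -
    1 / 2 * n.1 (gq S • oPG) oPG * m.1 pi pz

/-- The intersection pairing for a subgroup of `SL₂(ℤ)`. -/
noncomputable def pairB (Γ : Subgroup SL(2, ℤ)) (m : Symb ℚ (OnePoint ℚ) ℚ) (n : Symb ℚ PG ℚ) :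
    ℚ :=
  ∑ᶠ x : SL(2, ℤ) ⧸ Γ, b1 (slash (gq x.out⁻¹) m) (slash (gq x.out⁻¹) n)

section Final

variable {Γ : Subgroup SL(2, ℤ)} {m : Symb ℚ (OnePoint ℚ) ℚ} {n : Symb ℚ PG ℚ}

lemma gq_mem_map {γ : SL(2, ℤ)} (hγ : γ ∈ Γ) : gq γ ∈ Γ.map (mapGL ℚ) :=
  Subgroup.mem_map_of_mem _ hγ

/-- the primitive of `γ ↦ n(γ o, o)` -/
noncomputable def primN (n : Symb ℚ PG ℚ) (g : SL(2, ℤ)) : ℚ := n.1 (gq g • oPG) oPG

lemma primN_mul (hn : n ∈ inv ℚ PG ℚ (Γ.map (mapGL ℚ))) {γ : SL(2, ℤ)} (hγ : γ ∈ Γ)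
    (g : SL(2, ℤ)) : primN n (γ * g) = primN n γ + primN n g := by
  unfold primN
  rw [gq_mul, mul_smul, ← n.2 (gq γ • gq g • oPG) (gq γ • oPG) oPG,
    inv_apply hn (gq_mem_map hγ)]
  ring

lemma primN_neg (n : Symb ℚ PG ℚ) (g : SL(2, ℤ)) : primN n (-g) = primN n g := by
  unfold primN
  rw [gq_neg_smul]

lemma primN_one (n : Symb ℚ PG ℚ) : primN n 1 = 0 := by
  unfold primN
  rw [gq, map_one, one_smul, Symb.self]

lemma primN_mul_sub (n : Symb ℚ PG ℚ) (g h : SL(2, ℤ)) :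
    primN n (g * h) - primN n g = (slash (gq g) n).1 (gq h • oPG) oPG := by
  unfold primN
  rw [slash_apply, gq_mul, mul_smul, ← n.2 (gq g • gq h • oPG) (gq g • oPG) oPG]
  ring

lemma pairB_eq [Fintype (SL(2, ℤ) ⧸ Γ)] (m : Symb ℚ (OnePoint ℚ) ℚ) (n : Symb ℚ PG ℚ) :
    pairB Γ m n = ∑ x : SL(2, ℤ) ⧸ Γ,
      (1 / 3 * (primN n (x.out⁻¹ * (T * S)) - primN n (x.out⁻¹)) *
        (m.1 (gq x.out⁻¹ • pi) (gq x.out⁻¹ • p1) + m.1 (gq x.out⁻¹ • pi) (gq x.out⁻¹ • pz)) -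
        1 / 2 * (primN n (x.out⁻¹ * S) - primN n (x.out⁻¹)) *
          m.1 (gq x.out⁻¹ • pi) (gq x.out⁻¹ • pz)) := by
  rw [pairB, finsum_eq_sum_of_fintype]
  refine Finset.sum_congr rfl fun x _ => ?_
  rw [primN_mul_sub, primN_mul_sub]
  rfl

/-- The pairing as a sum over cusps, for any choice of primitive. -/
theorem pairB_eq_sum_cusps [Fintype (SL(2, ℤ) ⧸ Γ)] [Fintype (Cusp Γ)]
    (hneg : (-1 : SL(2, ℤ)) ∈ Γ) (hm : m ∈ inv ℚ (OnePoint ℚ) ℚ (Γ.map (mapGL ℚ)))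
    (hn : n ∈ inv ℚ PG ℚ (Γ.map (mapGL ℚ))) {ξ Z : SL(2, ℤ) → ℚ}
    (hZneg : ∀ g, Z (-g) = Z g)
    (hZ : ∀ γ ∈ Γ, ∀ g, Z (γ * g) = ξ γ + Z g + primN n γ * m.1 (gq g • pi) pi)
    (s : Cusp Γ → OnePoint ℚ) (t : Cusp Γ → SL(2, ℤ))
    (hst : ∀ q, cuspMk Γ (s q) = q ∧ IsGen Γ (s q) (t q)) :
    pairB Γ m n = ∑ q, (ξ (t q) + primN n (t q) * m.1 (s q) pi) := by
  rw [pairB_eq, ← sum_T_eq (ξ := ξ) (Z := Z) m.2
    (fun γ hγ x y => inv_apply hm (gq_mem_map hγ) x y) (fun γ hγ g => primN_mul hn hγ g)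
    (primN_neg n) hZ hZneg]
  exact sum_T_eq_sum_cusps hneg m.2 (fun γ hγ x y => inv_apply hm (gq_mem_map hγ) x y)
    (fun γ hγ g => primN_mul hn hγ g) hZ s t hst

lemma exists_primZ (hm : m ∈ inv ℚ (OnePoint ℚ) ℚ (Γ.map (mapGL ℚ)))
    (hn : n ∈ inv ℚ PG ℚ (Γ.map (mapGL ℚ))) :
    ∃ Z : SL(2, ℤ) → ℚ, (∀ g, Z (-g) = Z g) ∧
      ∀ γ ∈ Γ, ∀ g, Z (γ * g) = Z γ + Z g + primN n γ * m.1 (gq g • pi) pi := by
  refine exists_heis Γ (primN n) (fun g => m.1 (gq g • pi) pi) (primN_one n) ?_ (primN_neg n) ?_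
    (fun γ hγ g => primN_mul hn hγ g) ?_
  · simp only [gq, map_one, one_smul, Symb.self]
  · intro g
    simp only [gq_neg_smul]
  · intro γ hγ g
    simp only [gq_mul, mul_smul]
    rw [← m.2 (gq γ • gq g • pi) (gq γ • pi) pi, inv_apply hm (gq_mem_map hγ)]
    ring

/-- A homomorphism on `Γ` extends to a primitive on `SL₂(ℤ)`. -/
lemma exists_ext_hom (η : SL(2, ℤ) → ℚ) (hη : ∀ γ ∈ Γ, ∀ δ ∈ Γ, η (γ * δ) = η γ + η δ) :
    ∃ E : SL(2, ℤ) → ℚ, ∀ γ ∈ Γ, ∀ g, E (γ * g) = η γ + E g := by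
  refine ⟨fun g => η (g * ((g⁻¹ : SL(2, ℤ)) : SL(2, ℤ) ⧸ Γ).out), fun γ hγ g => ?_⟩
  have h1 : (((γ * g)⁻¹ : SL(2, ℤ)) : SL(2, ℤ) ⧸ Γ) = ((g⁻¹ : SL(2, ℤ)) : SL(2, ℤ) ⧸ Γ) := by
    rw [QuotientGroup.eq]
    have : (γ * g)⁻¹⁻¹ * g⁻¹ = γ := by group
    rw [this]
    exact hγ
  simp only [h1, mul_assoc]
  refine hη γ hγ _ ?_
  obtain ⟨δ, hδ⟩ := QuotientGroup.mk_out_eq_mul Γ g⁻¹
  rw [hδ, mul_inv_cancel_left]
  exact δ.2

/-- **[DINV]** Invariance of the pairing under the normaliser. -/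
theorem pairB_slash [Γ.FiniteIndex] (hneg : (-1 : SL(2, ℤ)) ∈ Γ)
    (hm : m ∈ inv ℚ (OnePoint ℚ) ℚ (Γ.map (mapGL ℚ)))
    (hn : n ∈ inv ℚ PG ℚ (Γ.map (mapGL ℚ))) (W : GL (Fin 2) ℚ) (hW : 0 < dt W)
    (hW1 : ∀ γ ∈ Γ.map (mapGL ℚ), W * γ * W⁻¹ ∈ Γ.map (mapGL ℚ))
    (hW2 : ∀ γ ∈ Γ.map (mapGL ℚ), W⁻¹ * γ * W ∈ Γ.map (mapGL ℚ)) :
    pairB Γ (slash W m) (slash W n) = pairB Γ m n := by
  classical
  have : Finite (SL(2, ℤ) ⧸ Γ) := Subgroup.finite_quotient_of_finiteIndex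
  have : Fintype (SL(2, ℤ) ⧸ Γ) := Fintype.ofFinite _
  have : Fintype (Cusp Γ) := Fintype.ofFinite _
  -- conjugation on `Γ`
  have hcj : ∀ γ : SL(2, ℤ), ∃ δ : SL(2, ℤ), γ ∈ Γ → δ ∈ Γ ∧ gq δ = W * gq γ * W⁻¹ := by
    intro γ
    by_cases hγ : γ ∈ Γ
    · obtain ⟨δ, hδ, h⟩ := hW1 _ (gq_mem_map hγ)
      exact ⟨δ, fun _ => ⟨hδ, h⟩⟩
    · exact ⟨1, fun h => absurd h hγ⟩
  choose cj hcj using hcj
  have hW2' : ∀ γ ∈ Γ, ∃ δ ∈ Γ, gq δ = W⁻¹ * gq γ * W := by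
    intro γ hγ
    obtain ⟨δ, hδ, h⟩ := hW2 _ (gq_mem_map hγ)
    exact ⟨δ, hδ, h⟩
  have hcjmul : ∀ γ ∈ Γ, ∀ δ ∈ Γ, cj (γ * δ) = cj γ * cj δ := by
    intro γ hγ δ hδ
    apply mapGL_injective (S := ℚ)
    show gq _ = gq _
    rw [gq_mul, (hcj _ (Γ.mul_mem hγ hδ)).2, (hcj _ hγ).2, (hcj _ hδ).2, gq_mul]
    group
  -- invariance of the slashed symbols
  have hWγ : ∀ γ ∈ Γ, W * gq γ = gq (cj γ) * W := by
    intro γ hγ
    rw [(hcj γ hγ).2, inv_mul_cancel_right]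
  have hm' : slash W m ∈ inv ℚ (OnePoint ℚ) ℚ (Γ.map (mapGL ℚ)) := by
    rintro _ ⟨γ, hγ, rfl⟩
    rw [← slash_mul, show W * mapGL ℚ γ = gq (cj γ) * W from hWγ γ hγ, slash_mul,
      hm _ (gq_mem_map (hcj γ hγ).1)]
  have hn' : slash W n ∈ inv ℚ PG ℚ (Γ.map (mapGL ℚ)) := by
    rintro _ ⟨γ, hγ, rfl⟩
    rw [← slash_mul, show W * mapGL ℚ γ = gq (cj γ) * W from hWγ γ hγ, slash_mul,
      hn _ (gq_mem_map (hcj γ hγ).1)]
  -- periods of the slashed symbols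
  have hNW : ∀ γ ∈ Γ, primN (slash W n) γ = primN n (cj γ) := by
    intro γ hγ
    unfold primN
    rw [slash_apply, ← mul_smul, hWγ γ hγ, mul_smul]
    exact per_indep hn (gq_mem_map (hcj γ hγ).1) _ _
  have hBW : ∀ γ ∈ Γ, (slash W m).1 (gq γ • pi) pi = m.1 (gq (cj γ) • pi) pi := by
    intro γ hγ
    rw [slash_apply, ← mul_smul, hWγ γ hγ, mul_smul]
    exact per_indep hm (gq_mem_map (hcj γ hγ).1) _ _
  obtain ⟨Z, hZneg, hZ⟩ := exists_primZ hm hn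
  obtain ⟨Z', hZ'neg, hZ'⟩ := exists_primZ hm' hn'
  -- the corrected `ξ`
  let ξ'' : SL(2, ℤ) → ℚ := fun γ => Z (cj γ) + primN (slash W n) γ * m.1 (W • pi) pi
  let η : SL(2, ℤ) → ℚ := fun γ => Z' γ - ξ'' γ
  have hη : ∀ γ ∈ Γ, ∀ δ ∈ Γ, η (γ * δ) = η γ + η δ := by
    intro γ hγ δ hδ
    simp only [η, ξ'']
    rw [hZ' γ hγ, hcjmul γ hγ δ hδ, hZ _ (hcj γ hγ).1, primN_mul hn' hγ, hBW δ hδ, hNW γ hγ]
    ring
  obtain ⟨E, hE⟩ := exists_ext_hom η hη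
  have hη1 : η (-1) = 0 := by
    have h1 := hη (-1) hneg (-1) hneg
    have h2 := hη 1 Γ.one_mem 1 Γ.one_mem
    rw [neg_mul_neg, one_mul] at h1
    rw [mul_one] at h2
    linarith
  have hEneg : ∀ g, E (-g) = E g := by
    intro g
    have := hE (-1) hneg g
    rw [neg_one_mul, hη1, zero_add] at this
    exact this
  obtain ⟨s, t, hst⟩ := exists_gens (Γ := Γ)
  have h1 := pairB_eq_sum_cusps hneg hm' hn' (ξ := ξ'') (Z := fun g => Z' g - E g)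
    (fun g => by simp only [hZ'neg, hEneg])
    (fun γ hγ g => by
      simp only [hZ' γ hγ, hE γ hγ, η]
      ring) s t hst
  -- the permutation of the cusps
  have hπ : ∀ s s' : OnePoint ℚ, cuspMk Γ s = cuspMk Γ s' ↔ cuspMk Γ (W • s) = cuspMk Γ (W • s') := by
    intro s s'
    rw [cuspMk_eq_iff, cuspMk_eq_iff]
    constructor
    · rintro ⟨γ, hγ, rfl⟩
      refine ⟨cj γ, (hcj γ hγ).1, ?_⟩
      rw [← mul_smul, ← hWγ γ hγ, mul_smul]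
    · rintro ⟨γ, hγ, h⟩
      obtain ⟨δ, hδ, hδ'⟩ := hW2' γ hγ
      refine ⟨δ, hδ, ?_⟩
      rw [hδ', mul_smul, mul_smul, h, inv_smul_smul]
  let π : Cusp Γ → Cusp Γ := fun q => cuspMk Γ (W • s q)
  have hπbij : Function.Bijective π := by
    refine ⟨fun q q' h => ?_, fun q => ?_⟩
    · have := (hπ (s q) (s q')).2 h
      rw [(hst q).1, (hst q').1] at this
      exact this
    · obtain ⟨r, rfl⟩ := cuspMk_surjective Γ q
      refine ⟨cuspMk Γ (W⁻¹ • r), ?_⟩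
      show cuspMk Γ (W • s _) = _
      have h2 : cuspMk Γ (s (cuspMk Γ (W⁻¹ • r))) = cuspMk Γ (W⁻¹ • r) := (hst _).1
      rw [(hπ _ _).1 h2, smul_inv_smul]
  let πe : Cusp Γ ≃ Cusp Γ := Equiv.ofBijective π hπbij
  have h2 := pairB_eq_sum_cusps hneg hm hn (ξ := Z) (Z := Z) hZneg hZ
    (fun q => W • s (πe.symm q)) (fun q => cj (t (πe.symm q))) (fun q => by
      refine ⟨?_, ?_⟩
      · show π (πe.symm q) = q
        exact πe.apply_symm_apply q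
      · have h3 := (hst (πe.symm q)).2
        exact h3.conjW hW hW2' (hcj _ h3.1).1 (hcj _ h3.1).2)
  rw [h1, h2, ← Equiv.sum_comp πe (fun q => Z (cj (t (πe.symm q))) +
    primN n (cj (t (πe.symm q))) * m.1 (W • s (πe.symm q)) pi)]
  refine Finset.sum_congr rfl fun q _ => ?_
  simp only [Equiv.symm_apply_apply, ξ'']
  rw [hNW _ (hst q).2.1, slash_apply, ← m.2 (W • s q) (W • pi) pi]
  ring

end Final

/-- **[DINV]** for `Γ₀(M)`. -/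
theorem dinv (M : ℕ) [NeZero M] {m : Symb ℚ (OnePoint ℚ) ℚ} {n : Symb ℚ PG ℚ}
    (hm : m ∈ inv ℚ (OnePoint ℚ) ℚ (G0 M)) (hn : n ∈ inv ℚ PG ℚ (G0 M)) (W : GL (Fin 2) ℚ)
    (hW : 0 < dt W) (hW1 : ∀ γ ∈ G0 M, W * γ * W⁻¹ ∈ G0 M) (hW2 : ∀ γ ∈ G0 M, W⁻¹ * γ * W ∈ G0 M) :
    pairB (CongruenceSubgroup.Gamma0 M) (slash W m) (slash W n) =
      pairB (CongruenceSubgroup.Gamma0 M) m n := by
  have hneg : (-1 : SL(2, ℤ)) ∈ CongruenceSubgroup.Gamma0 M := by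
    rw [CongruenceSubgroup.Gamma0_mem]
    simp
  exact pairB_slash hneg hm hn W hW hW1 hW2

end Fermat.Agent.H68
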