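import Fermat.Prelude.Def_Algebra_PatchingDatum
import Mathlib.RingTheory.DiscreteValuationRing.Basic
import Mathlib.LinearAlgebra.Basis.Submodule
import Mathlib.LinearAlgebra.FreeModule.Basic
import Mathlib.RingTheory.Ideal.Maps
import Mathlib.LinearAlgebra.Basis.Basic
import Mathlib.RingTheory.Ideal.Finsupp

set_option autoImplicit false

namespace Fermat.Agent.H68

open MvPowerSeries

/-- If `N` is `S`-free with basis `e`, membership in `I • ⊤` is coordinatewise. -/
theorem repr_mem_of_mem_smul_top {S N ι : Type*} [CommRing S] [AddCommGroup N] [Module S N]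
    (e : Module.Basis ι S N) (I : Ideal S) {x : N} (hx : x ∈ I • (⊤ : Submodule S N)) (i : ι) :
    e.repr x i ∈ I := by
  refine Submodule.smul_induction_on (p := fun x => e.repr x i ∈ I) hx ?_ ?_
  · intro a ha n _
    rw [map_smul, Finsupp.smul_apply, smul_eq_mul]
    exact I.mul_mem_right _ ha
  · intro x y hx hy
    rw [map_add, Finsupp.add_apply]
    exact I.add_mem hx hy

theorem patching_endgame
    {𝒪 : Type} [CommRing 𝒪]
    {r : ℕ} {R : Type} [CommRing R] [Algebra 𝒪 R]
    {M : Type} [AddCommGroup M] [Module R M] [Nontrivial M]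
    {J : Ideal (MvPowerSeries (Fin r) 𝒪)}
    (L : Algebra.PatchingLevel 𝒪 r R M J)
    (hfree : Module.Free (MvPowerSeries (Fin r) 𝒪) L.N) :
    Module.Free R M ∧ Module.annihilator R M = ⊥ ∧
      RingHom.ker L.ψ = Ideal.span (Set.range fun i : Fin r => L.φ (MvPowerSeries.X i)) := by
  classical
  set I : Ideal (MvPowerSeries (Fin r) 𝒪) :=
    Ideal.span (Set.range fun i : Fin r => L.φ (MvPowerSeries.X i)) with hI
  have hNnt : Nontrivial L.N := by
    obtain ⟨x, y, hxy⟩ := exists_pair_ne M
    obtain ⟨x', rfl⟩ := L.π_surjective x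
    obtain ⟨y', rfl⟩ := L.π_surjective y
    exact ⟨x', y', fun h => hxy (by rw [h])⟩
  let e := Module.Free.chooseBasis (MvPowerSeries (Fin r) 𝒪) L.N
  have hne : Nonempty (Module.Free.ChooseBasisIndex (MvPowerSeries (Fin r) 𝒪) L.N) :=
    e.index_nonempty
  obtain ⟨i₀⟩ := hne
  have hIψ : ∀ f ∈ I, L.ψ f = 0 := by
    intro f hf
    have : I ≤ RingHom.ker L.ψ := by
      rw [hI, Ideal.span_le]
      rintro _ ⟨i, rfl⟩
      exact L.ψ_φ_X i
    exact this hf
  -- key: if `π (f • e i₀) = 0` then `f ∈ I`
  have key : ∀ f : MvPowerSeries (Fin r) 𝒪, L.π (f • e i₀) = 0 → f ∈ I := by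
    intro f hf
    have h1 := (L.ker_π _).mp hf
    have h2 := repr_mem_of_mem_smul_top e I h1 i₀
    simpa using h2
  refine ⟨?_, ?_, ?_⟩
  · -- freeness
    let v : Module.Free.ChooseBasisIndex (MvPowerSeries (Fin r) 𝒪) L.N → M := fun i => L.π (e i)
    have hsum : ∀ c : Module.Free.ChooseBasisIndex (MvPowerSeries (Fin r) 𝒪) L.N →₀
        MvPowerSeries (Fin r) 𝒪,
        L.π (Finsupp.linearCombination _ e c) = c.sum fun i a => L.ψ a • v i := by
      intro c
      rw [Finsupp.linearCombination_apply, Finsupp.sum, Finsupp.sum, map_sum]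
      exact Finset.sum_congr rfl fun i _ => L.π_smul _ _
    have hli : LinearIndependent R v := by
      rw [linearIndependent_iff]
      intro l hl
      -- lift `l` along ψ
      let s : R → MvPowerSeries (Fin r) 𝒪 := fun a => if a = 0 then 0 else
        Function.surjInv L.ψ_surjective a
      have hs0 : s 0 = 0 := by simp [s]
      have hs : ∀ a, L.ψ (s a) = a := by
        intro a
        by_cases ha : a = 0
        · simp [s, ha]
        · simp only [s, ha, if_false]
          exact Function.surjInv_eq _ _
      let c := l.mapRange s hs0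
      have h1 : L.π (Finsupp.linearCombination _ e c) = 0 := by
        rw [hsum, Finsupp.sum_mapRange_index (by simp)]
        rw [← hl, Finsupp.linearCombination_apply]
        refine Finsupp.sum_congr fun i _ => by rw [hs]
      have h2 := (L.ker_π _).mp h1
      ext i
      have h3 := repr_mem_of_mem_smul_top e I h2 i
      rw [e.repr_linearCombination] at h3
      have h4 := hIψ _ h3
      simpa [c, hs] using h4
    have hsp : ⊤ ≤ Submodule.span R (Set.range v) := by
      intro x _
      obtain ⟨n, rfl⟩ := L.π_surjective x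
      rw [← e.linearCombination_repr n, hsum]
      exact Submodule.sum_mem _ fun i _ =>
        Submodule.smul_mem _ _ (Submodule.subset_span ⟨i, rfl⟩)
    exact Module.Free.of_basis (Module.Basis.mk hli hsp)
  · rw [eq_bot_iff]
    intro ρ hρ
    obtain ⟨f, rfl⟩ := L.ψ_surjective ρ
    rw [Module.mem_annihilator] at hρ
    have h1 : L.π (f • e i₀) = 0 := by rw [L.π_smul]; exact hρ _
    exact hIψ _ (key f h1)
  · ext f
    constructor
    · intro hf
      have hf' : L.ψ f = 0 := hf
      apply key
      rw [L.π_smul, hf', zero_smul]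
    · intro hf
      exact hIψ f hf

end Fermat.Agent.H68
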