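import Fermat.Agent.H68Gauss
import Fermat.Agent.H60Series

/-!
# The residue map of the Gauss valuation as a total function

`tres A π f` is the reduction of `f` (zero if `f` is not integral).  Compatibility with ring
homomorphisms of Laurent series which are defined over `A`.
-/

set_option autoImplicit false

open Polynomial ModularCurve

namespace Fermat.Agent.H68

section TRes

variable {K : Type*} [Field K] (A : ValuationSubring K) {k : Type*} [Field k] (π : A →+* k)

open Classical in
/-- The reduction of a Laurent series (zero if it is not integral for the Gauss valuation). -/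
noncomputable def tres (f : LaurentSeries K) : LaurentSeries k :=
  if h : f ∈ lloc A π then lres A π ⟨f, h⟩ else 0

variable {A π}

theorem tres_of_mem {f : LaurentSeries K} (h : f ∈ lloc A π) : tres A π f = lres A π ⟨f, h⟩ :=
  dif_pos h

theorem tres_of_notMem {f : LaurentSeries K} (h : f ∉ lloc A π) : tres A π f = 0 := dif_neg h

theorem tres_coeffMap (y : LaurentSeries A) : tres A π (coeffMap A.subtype y) = coeffMap π y := by
  rw [tres_of_mem (coeffMap_mem_lloc y), lres_coeffMap]

theorem tres_eq {f : LaurentSeries K} {y z : LaurentSeries A}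
    (hz : coeffMap π z ≠ 0) (h : f * coeffMap A.subtype z = coeffMap A.subtype y) :
    tres A π f = coeffMap π y / coeffMap π z := by
  have hf : f ∈ lloc A π := mem_lloc_iff.mpr ⟨y, z, hz, h⟩
  rw [tres_of_mem hf, lres_eq hf hz h]

theorem tres_algebraMap (a : A) :
    tres A π (algebraMap K (LaurentSeries K) a) = algebraMap k (LaurentSeries k) (π a) := by
  rw [tres_of_mem (algebraMap_mem_lloc a), lres_algebraMap]

@[simp] theorem tres_zero : tres A π (0 : LaurentSeries K) = 0 := by
  rw [tres_of_mem (lloc A π).zero_mem]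
  exact map_zero (lres A π)

@[simp] theorem tres_one : tres A π (1 : LaurentSeries K) = 1 := by
  rw [tres_of_mem (lloc A π).one_mem]
  exact map_one (lres A π)

theorem tres_add {f g : LaurentSeries K} (hf : f ∈ lloc A π) (hg : g ∈ lloc A π) :
    tres A π (f + g) = tres A π f + tres A π g := by
  rw [tres_of_mem hf, tres_of_mem hg, tres_of_mem ((lloc A π).add_mem hf hg), ← map_add]
  rfl

theorem tres_mul {f g : LaurentSeries K} (hf : f ∈ lloc A π) (hg : g ∈ lloc A π) :
    tres A π (f * g) = tres A π f * tres A π g := by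
  rw [tres_of_mem hf, tres_of_mem hg, tres_of_mem ((lloc A π).mul_mem hf hg), ← map_mul]
  rfl

theorem tres_neg {f : LaurentSeries K} (hf : f ∈ lloc A π) : tres A π (-f) = -tres A π f := by
  rw [tres_of_mem hf, tres_of_mem ((lloc A π).neg_mem hf), ← map_neg]
  rfl

theorem tres_sub {f g : LaurentSeries K} (hf : f ∈ lloc A π) (hg : g ∈ lloc A π) :
    tres A π (f - g) = tres A π f - tres A π g := by
  rw [sub_eq_add_neg, tres_add hf ((lloc A π).neg_mem hg), tres_neg hg, sub_eq_add_neg]

theorem tres_pow {f : LaurentSeries K} (hf : f ∈ lloc A π) (n : ℕ) :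
    tres A π (f ^ n) = tres A π f ^ n := by
  rw [tres_of_mem hf, tres_of_mem ((lloc A π).pow_mem hf n), ← map_pow]
  rfl

theorem tres_prod {ι : Type*} (s : Finset ι) (f : ι → LaurentSeries K)
    (h : ∀ i ∈ s, f i ∈ lloc A π) :
    tres A π (∏ i ∈ s, f i) = ∏ i ∈ s, tres A π (f i) := by
  classical
  induction s using Finset.induction_on with
  | empty => simp
  | insert a s ha ih =>
    rw [Finset.prod_insert ha, Finset.prod_insert ha, tres_mul (h a (Finset.mem_insert_self a s))
      ((lloc A π).prod_mem fun i hi => h i (Finset.mem_insert_of_mem hi)),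
      ih fun i hi => h i (Finset.mem_insert_of_mem hi)]

theorem mem_of_tres_ne_zero {f : LaurentSeries K} (h : tres A π f ≠ 0) : f ∈ lloc A π := by
  by_contra h0
  exact h (tres_of_notMem h0)

theorem inv_mem_of_tres_ne_zero {f : LaurentSeries K} (h : tres A π f ≠ 0) :
    f⁻¹ ∈ lloc A π := by
  have hf := mem_of_tres_ne_zero h
  rw [tres_of_mem hf] at h
  exact (H42.laurentRed A π).inv_mem_loc (f := ⟨f, hf⟩) h

theorem ne_zero_of_tres_ne_zero {f : LaurentSeries K} (h : tres A π f ≠ 0) : f ≠ 0 := by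
  rintro rfl
  exact h tres_zero

theorem tres_inv_of_ne_zero {f : LaurentSeries K} (h : tres A π f ≠ 0) :
    tres A π f⁻¹ = (tres A π f)⁻¹ := by
  have h1 := tres_mul (mem_of_tres_ne_zero h) (inv_mem_of_tres_ne_zero h)
  rw [mul_inv_cancel₀ (ne_zero_of_tres_ne_zero h), tres_one] at h1
  exact eq_inv_of_mul_eq_one_right h1.symm

theorem tres_div {f g : LaurentSeries K} (hf : f ∈ lloc A π) (hg : tres A π g ≠ 0) :
    f / g ∈ lloc A π ∧ tres A π (f / g) = tres A π f / tres A π g := by
  rw [div_eq_mul_inv, tres_mul hf (inv_mem_of_tres_ne_zero hg), tres_inv_of_ne_zero hg,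
    div_eq_mul_inv]
  exact ⟨(lloc A π).mul_mem hf (inv_mem_of_tres_ne_zero hg), rfl⟩

/-- An element of `QF K` which is not integral has an inverse with zero reduction. -/
theorem tres_inv_of_notMem {f : LaurentSeries K} (hf : f ∈ QF K) (h : f ∉ lloc A π) :
    f⁻¹ ∈ lloc A π ∧ tres A π f⁻¹ = 0 := by
  have h1 : f⁻¹ ∈ lloc A π := (mem_or_inv_mem_lloc (A := A) (π := π) hf).resolve_left h
  refine ⟨h1, ?_⟩
  by_contra h2
  apply h
  have h3 := inv_mem_of_tres_ne_zero h2
  rwa [inv_inv] at h3

theorem tres_natCast (n : ℕ) : tres A π (n : LaurentSeries K) = n := by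
  rw [tres_of_mem (natCast_mem (lloc A π) n)]
  exact map_natCast (lres A π) n

theorem tres_intCast (n : ℤ) : tres A π (n : LaurentSeries K) = n := by
  rw [tres_of_mem (intCast_mem (lloc A π) n)]
  exact map_intCast (lres A π) n

/-- Series with integer coefficients. -/
theorem coeffMap_int_eq (x : LaurentSeries ℤ) : coeffMap (Int.castRingHom K) x =
    coeffMap A.subtype (coeffMap (Int.castRingHom A) x) := by
  rw [coeffMap_coeffMap]
  exact coeffMap_congr (Subsingleton.elim _ _) x

theorem coeffMap_int_mem_lloc (x : LaurentSeries ℤ) :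
    coeffMap (Int.castRingHom K) x ∈ lloc A π := by
  rw [coeffMap_int_eq (A := A)]
  exact coeffMap_mem_lloc _

theorem tres_coeffMap_int (x : LaurentSeries ℤ) :
    tres A π (coeffMap (Int.castRingHom K) x) = coeffMap (Int.castRingHom k) x := by
  rw [coeffMap_int_eq (A := A), tres_coeffMap, coeffMap_coeffMap]
  exact coeffMap_congr (Subsingleton.elim _ _) x

section Compat

variable {K' : Type*} [Field K'] {A' : ValuationSubring K'} {π' : A' →+* k}
  {φ : LaurentSeries K →+* LaurentSeries K'} {φA : LaurentSeries A →+* LaurentSeries A'}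
  {φk : LaurentSeries k →+* LaurentSeries k}

/-- Compatibility of the Gauss ring with a homomorphism defined over `A`. -/
theorem map_mem_lloc
    (h1 : ∀ y, coeffMap A'.subtype (φA y) = φ (coeffMap A.subtype y))
    (h2 : ∀ y, coeffMap π' (φA y) = φk (coeffMap π y))
    {f : LaurentSeries K} (hf : f ∈ lloc A π) :
    φ f ∈ lloc A' π' ∧ tres A' π' (φ f) = φk (tres A π f) := by
  obtain ⟨y, z, hz, h⟩ := mem_lloc_iff.mp hf
  have hz' : coeffMap π' (φA z) ≠ 0 := by
    rw [h2]
    exact (_root_.map_ne_zero φk).mpr hz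
  have h' : φ f * coeffMap A'.subtype (φA z) = coeffMap A'.subtype (φA y) := by
    rw [h1, h1, ← map_mul, h]
  exact ⟨mem_lloc_iff.mpr ⟨_, _, hz', h'⟩, by rw [tres_eq hz' h', tres_eq hz h, h2, h2, map_div₀]⟩

theorem map_mem_lloc_iff
    (h1 : ∀ y, coeffMap A'.subtype (φA y) = φ (coeffMap A.subtype y))
    (h2 : ∀ y, coeffMap π' (φA y) = φk (coeffMap π y))
    {f : LaurentSeries K} (hf : f ∈ QF K) :
    φ f ∈ lloc A' π' ↔ f ∈ lloc A π := by
  constructor
  · intro h
    by_contra h0
    obtain ⟨h3, h4⟩ := tres_inv_of_notMem hf h0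
    obtain ⟨h5, h6⟩ := map_mem_lloc h1 h2 h3
    have hf0 : f ≠ 0 := by
      rintro rfl
      exact h0 (lloc A π).zero_mem
    have h7 : φ f * φ f⁻¹ = 1 := by rw [← map_mul, mul_inv_cancel₀ hf0, map_one]
    have h8 := tres_mul h h5
    rw [h7, tres_one, h6, h4, map_zero, mul_zero] at h8
    exact one_ne_zero h8
  · intro h
    exact (map_mem_lloc h1 h2 h).1

theorem tres_map
    (h1 : ∀ y, coeffMap A'.subtype (φA y) = φ (coeffMap A.subtype y))
    (h2 : ∀ y, coeffMap π' (φA y) = φk (coeffMap π y))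
    {f : LaurentSeries K} (hf : f ∈ QF K) :
    tres A' π' (φ f) = φk (tres A π f) := by
  by_cases h : f ∈ lloc A π
  · exact (map_mem_lloc h1 h2 h).2
  · rw [tres_of_notMem h, tres_of_notMem, map_zero]
    rw [map_mem_lloc_iff h1 h2 hf]
    exact h

end Compat

/-! ### `t ↦ t^n` -/

theorem qExpand_mem_fgs {f : LaurentSeries K} (n : ℕ) [NeZero n] (hf : f ∈ fgs K) :
    qExpand K n f ∈ fgs K := by
  obtain ⟨T, hT, h⟩ := hf
  refine ⟨T, hT, fun m => ?_⟩
  by_cases hm : (n : ℤ) ∣ m
  · obtain ⟨l, rfl⟩ := hm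
    rw [qExpand_coeff_mul]
    exact h l
  · rw [qExpand_coeff_of_not_dvd n _ hm]
    exact T.zero_mem

theorem qExpand_mem_QF {f : LaurentSeries K} (n : ℕ) [NeZero n] (hf : f ∈ QF K) :
    qExpand K n f ∈ QF K := map_mem_QF _ (fun _ hx => qExpand_mem_fgs n hx) hf

theorem qExpand_mem_lloc_iff {f : LaurentSeries K} (n : ℕ) [NeZero n] (hf : f ∈ QF K) :
    qExpand K n f ∈ lloc A π ↔ f ∈ lloc A π :=
  map_mem_lloc_iff (φ := qExpand K n) (φA := qExpand A n) (φk := qExpand k n)
    (fun _ => coeffMap_qExpand _ _ _) (fun _ => coeffMap_qExpand _ _ _) hf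

theorem tres_qExpand {f : LaurentSeries K} (n : ℕ) [NeZero n] (hf : f ∈ QF K) :
    tres A π (qExpand K n f) = qExpand k n (tres A π f) :=
  tres_map (φ := qExpand K n) (φA := qExpand A n) (φk := qExpand k n)
    (fun _ => coeffMap_qExpand _ _ _) (fun _ => coeffMap_qExpand _ _ _) hf

/-! ### twists -/

theorem twist_mem_fgs {f : LaurentSeries K} {u : Kˣ} {n : ℕ} (hn : 0 < n) (hu : u ^ n = 1)
    (hf : f ∈ fgs K) : H60.twist u f ∈ fgs K := by
  obtain ⟨T, hT, h⟩ := hf
  refine ⟨Submodule.span ℤ ((fun i : ℕ => ((u ^ i : Kˣ) : K)) '' Set.Iio n) * T,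
    (Submodule.fg_span ((Set.finite_Iio n).image _)).mul hT, fun m => ?_⟩
  rw [H60.twist_coeff]
  refine Submodule.mul_mem_mul (Submodule.subset_span ⟨(m % n).toNat, ?_, ?_⟩) (h m)
  · rw [Set.mem_Iio]
    have h1 := Int.emod_lt_of_pos m (by exact_mod_cast hn : (0 : ℤ) < n)
    have h2 := Int.emod_nonneg m (by exact_mod_cast hn.ne' : (n : ℤ) ≠ 0)
    omega
  · show ((u ^ (m % n).toNat : Kˣ) : K) = ((u ^ m : Kˣ) : K)
    congr 1
    have h2 := Int.emod_nonneg m (by exact_mod_cast hn.ne' : (n : ℤ) ≠ 0)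
    rw [← zpow_natCast, Int.toNat_of_nonneg h2]
    conv_rhs => rw [← Int.emod_add_mul_ediv m n, zpow_add, zpow_mul, zpow_natCast, hu, one_zpow,
      mul_one]

theorem twist_mem_QF {f : LaurentSeries K} {u : Kˣ} {n : ℕ} (hn : 0 < n) (hu : u ^ n = 1)
    (hf : f ∈ QF K) : H60.twist u f ∈ QF K :=
  map_mem_QF _ (fun _ hx => twist_mem_fgs hn hu hx) hf

variable (A) in
/-- a root of unity in `K`, as a unit of the valuation ring -/
noncomputable def rootUnit {u : Kˣ} {n : ℕ} (hn : 0 < n) (hu : u ^ n = 1) : Aˣ where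
  val := ⟨u, by
    rw [← A.valuation_le_one_iff]
    have h : A.valuation (u : K) ^ n = 1 := by
      rw [← map_pow, ← Units.val_pow_eq_pow_val, hu, Units.val_one, map_one]
    exact (pow_le_one_iff_of_nonneg zero_le hn.ne').mp h.le⟩
  inv := ⟨((u⁻¹ : Kˣ) : K), by
    rw [← A.valuation_le_one_iff]
    have h : A.valuation ((u⁻¹ : Kˣ) : K) ^ n = 1 := by
      rw [← map_pow, ← Units.val_pow_eq_pow_val, inv_pow, hu, inv_one, Units.val_one, map_one]
    exact (pow_le_one_iff_of_nonneg zero_le hn.ne').mp h.le⟩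
  val_inv := Subtype.ext (by simp)
  inv_val := Subtype.ext (by simp)

theorem coe_rootUnit {u : Kˣ} {n : ℕ} (hn : 0 < n) (hu : u ^ n = 1) :
    (((rootUnit A hn hu : Aˣ) : A) : K) = u := rfl

theorem twist_mem_lloc_iff {f : LaurentSeries K} {u : Kˣ} {n : ℕ} (hn : 0 < n) (hu : u ^ n = 1)
    (hf : f ∈ QF K) : H60.twist u f ∈ lloc A π ↔ f ∈ lloc A π :=
  map_mem_lloc_iff (φ := H60.twist u) (φA := H60.twist (rootUnit A hn hu))
    (φk := H60.twist (Units.map π.toMonoidHom (rootUnit A hn hu)))
    (fun y => by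
      rw [H60.coeffMap_twist]
      congr 1)
    (fun _ => H60.coeffMap_twist _ _ _) hf

theorem tres_twist {f : LaurentSeries K} {u : Kˣ} {n : ℕ} (hn : 0 < n) (hu : u ^ n = 1)
    (hf : f ∈ QF K) : tres A π (H60.twist u f) =
      H60.twist (Units.map π.toMonoidHom (rootUnit A hn hu)) (tres A π f) :=
  tres_map (φ := H60.twist u) (φA := H60.twist (rootUnit A hn hu))
    (φk := H60.twist (Units.map π.toMonoidHom (rootUnit A hn hu)))
    (fun y => by
      rw [H60.coeffMap_twist]
      congr 1)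
    (fun _ => H60.coeffMap_twist _ _ _) hf

/-- Twisting by a root of unity of `p`-power order does not change the reduction in
characteristic `p`. -/
theorem tres_twist_of_pow {f : LaurentSeries K} {u : Kˣ} {p : ℕ} [Fact p.Prime] [CharP k p]
    {r : ℕ} (hu : u ^ p ^ r = 1) (hf : f ∈ QF K) :
    tres A π (H60.twist u f) = tres A π f := by
  have hn : 0 < p ^ r := pow_pos (Fact.out : p.Prime).pos r
  rw [tres_twist hn hu hf]
  have h1 : Units.map π.toMonoidHom (rootUnit A hn hu) = 1 := by
    apply Units.ext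
    have h2 : (π (rootUnit A hn hu : A)) ^ p ^ r = 1 := by
      rw [← map_pow]
      have : ((rootUnit A hn hu : A)) ^ p ^ r = 1 := by
        apply Subtype.ext
        rw [SubmonoidClass.coe_pow, coe_rootUnit, ← Units.val_pow_eq_pow_val, hu]
        rfl
      rw [this, map_one]
    have h3 : (π (rootUnit A hn hu : A) - 1) ^ p ^ r = 0 := by
      rw [sub_pow_char_pow, h2, one_pow, sub_self]
    exact sub_eq_zero.mp (pow_eq_zero_iff (hn.ne') |>.mp h3)
  rw [h1, H60.twist_one]

end TRes

end Fermat.Agent.H68
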