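import Mathlib
import Fermat.Agent.H70Lev6

/-!
# Common eigenvectors for the Hecke algebra and the diamond operators
(helper68, `[S59-EIG]` (E-2))
-/

set_option autoImplicit false
set_option linter.style.haveILetI false
set_option linter.unusedSectionVars false

noncomputable section

open IsLocalRing TensorProduct
open Fermat.Agent.H59 Fermat.Agent.H70.Eig

namespace Fermat.Agent.H68.Te

section Defs

variable {O : Type} [CommRing O] [IsLocalRing O] {X : Type} [AddCommGroup X] [Module O X]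
  {𝕋 : Type} [CommRing 𝕋] [Algebra O 𝕋] {Δ : Type} [CommGroup Δ]

/-- A property of all common eigenvectors of `𝕋` and `Δ` over finite extensions of `O`. -/
def ForallEigen₂ (Φ : 𝕋 →ₐ[O] Module.End O X) (Ψ : Δ →* Module.End O X)
    (P : ∀ (O' : Type) [CommRing O'] [IsDomain O'] [IsDiscreteValuationRing O']
      [IsAdicComplete (maximalIdeal O') O'] [Finite (ResidueField O')] [CharZero O']
      [Algebra O O'] [Module.Finite O O'] [IsLocalHom (algebraMap O O')],
      (𝕋 →ₐ[O] O') → (Δ →* O'ˣ) → (O' ⊗[O] X) → Prop) : Prop :=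
  ∀ (O' : Type) [CommRing O'] [IsDomain O'] [IsDiscreteValuationRing O']
      [IsAdicComplete (maximalIdeal O') O'] [Finite (ResidueField O')] [CharZero O']
      [Algebra O O'] [Module.Finite O O'] [IsLocalHom (algebraMap O O')],
      Function.Injective (algebraMap O O') → ∀ (lam : 𝕋 →ₐ[O] O') (χ : Δ →* O'ˣ)
        (v : O' ⊗[O] X), v ≠ 0 → (∀ t, (Φ t).baseChange O' v = lam t • v) →
        (∀ g, (Ψ g).baseChange O' v = ((χ g : O'ˣ) : O') • v) → P O' lam χ v

end Defs

variable {O : Type} [CommRing O] [IsDomain O] [IsDiscreteValuationRing O]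
  [IsAdicComplete (maximalIdeal O) O] [Finite (ResidueField O)] [CharZero O]
  {X : Type} [AddCommGroup X] [Module O X] [Module.Finite O X] [Module.Free O X]
  {𝕋 : Type} [CommRing 𝕋] [Algebra O 𝕋] [Module.Finite O 𝕋]
  {Δ : Type} [CommGroup Δ] [Finite Δ]
  (Φ : 𝕋 →ₐ[O] Module.End O X) (Ψ : Δ →* Module.End O X)
  (hΦΨ : ∀ t g, Φ t * Ψ g = Ψ g * Φ t)

include hΦΨ in
/-- vanishing on the common eigenvectors implies vanishing on the eigenvectors of `𝕋` -/
theorem ForallEigen₂.forallEigen (t₀ : 𝕋)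
    (h : ForallEigen₂ Φ Ψ fun _ _ _ _ _ _ _ _ _ _ lam _ _ => lam t₀ = 0) :
    ForallEigen Φ fun _ _ _ _ _ _ _ _ _ _ lam _ => lam t₀ = 0 :=
  forallEigen_of_group Φ Ψ hΦΨ t₀ fun O' _ _ _ _ _ _ _ _ _ hOO' lam χ x hx hlam hχ =>
    h O' hOO' lam χ x hx hlam hχ

/-- the compatibility of the two diamond actions -/
theorem ForallEigen₂.compat {ι : Type} (c : ι → 𝕋)
    (h : ForallEigen₂ Φ Ψ fun _ _ _ _ _ _ _ _ _ _ lam χ _ =>
      ((∀ g, χ g = 1) ↔ ∀ j, lam (c j) = 1)) :
    ForallEigen Φ fun O' _ _ _ _ _ _ _ _ _ lam x =>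
      ∀ χ : Δ →* O', (∀ g, (Ψ g).baseChange O' x = χ g • x) →
        ((∀ g, χ g = 1) ↔ ∀ j, lam (c j) = 1) := by
  intro O' _ _ _ _ _ _ _ _ _ hOO' lam x hx hlam χ hχ
  have h1 : (∀ g, χ.toHomUnits g = 1) ↔ ∀ j, lam (c j) = 1 :=
    h O' hOO' lam χ.toHomUnits x hx hlam hχ
  rw [← h1]
  refine forall_congr' fun g => ?_
  rw [← Units.val_inj, Units.val_one]
  rfl

section Kernel

variable {Z : Type} [AddCommGroup Z] [Module O Z] (f : X →ₗ[O] Z)
  (hf₁ : ∀ t x, f x = 0 → f (Φ t x) = 0) (hf₂ : ∀ g x, f x = 0 → f (Ψ g x) = 0)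

/-- restriction of an endomorphism to the kernel -/
def kerRes (g : Module.End O X) (hg : ∀ x, f x = 0 → f (g x) = 0) :
    Module.End O (LinearMap.ker f) where
  toFun x := ⟨g x.1, hg x.1 x.2⟩
  map_add' x y := Subtype.ext (map_add g _ _)
  map_smul' a x := Subtype.ext (map_smul g _ _)

/-- the action on the kernel -/
def kerΦ : 𝕋 →ₐ[O] Module.End O (LinearMap.ker f) where
  toFun t := kerRes f (Φ t) (hf₁ t)
  map_one' := LinearMap.ext fun x => Subtype.ext (LinearMap.congr_fun (map_one Φ) x.1)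
  map_mul' s t := LinearMap.ext fun x => Subtype.ext (LinearMap.congr_fun (map_mul Φ s t) x.1)
  map_zero' := LinearMap.ext fun x => Subtype.ext (LinearMap.congr_fun (map_zero Φ) x.1)
  map_add' s t := LinearMap.ext fun x => Subtype.ext (LinearMap.congr_fun (map_add Φ s t) x.1)
  commutes' a := LinearMap.ext fun x => Subtype.ext (LinearMap.congr_fun (Φ.commutes a) x.1)

/-- the diamond operators on the kernel -/
def kerΨ : Δ →* Module.End O (LinearMap.ker f) where
  toFun g := kerRes f (Ψ g) (hf₂ g)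
  map_one' := LinearMap.ext fun x => Subtype.ext (LinearMap.congr_fun (map_one Ψ) x.1)
  map_mul' s t := LinearMap.ext fun x => Subtype.ext (LinearMap.congr_fun (map_mul Ψ s t) x.1)

omit [Finite (ResidueField O)] [CharZero O] [Module.Finite O X] [Module.Free O X]
  [Module.Finite O 𝕋] [Finite Δ] [IsDomain O] [IsDiscreteValuationRing O]
  [IsAdicComplete (maximalIdeal O) O] in
lemma restrict_baseChange {O' : Type} [CommRing O'] [Algebra O O'] (g : Module.End O X)
    (hg : ∀ x, f x = 0 → f (g x) = 0) (v : O' ⊗[O] LinearMap.ker f) :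
    (LinearMap.ker f).subtype.baseChange O'
        ((kerRes f g hg).baseChange O' v) =
      g.baseChange O' ((LinearMap.ker f).subtype.baseChange O' v) := by
  rw [← LinearMap.comp_apply, ← LinearMap.comp_apply, ← LinearMap.baseChange_comp,
    ← LinearMap.baseChange_comp]
  rfl

include hf₁ hf₂ hΦΨ in
/-- **The version for eigenvectors in a kernel.** -/
theorem ForallEigen₂.forallEigen_ker (t₀ : 𝕋)
    (h : ForallEigen₂ Φ Ψ fun O' _ _ _ _ _ _ _ _ _ lam _ v =>
      f.baseChange O' v = 0 → lam t₀ = 0) :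
    ForallEigen Φ fun O' _ _ _ _ _ _ _ _ _ lam v => f.baseChange O' v = 0 → lam t₀ = 0 := by
  intro O' _ _ _ _ _ _ _ _ _ hOO' lam x hx hlam hfx
  haveI : Module.Free O (LinearMap.ker f) := inferInstance
  haveI : Module.Finite O (LinearMap.ker f) := inferInstance
  have hinjS : ∀ (O' : Type) [CommRing O'] [IsDomain O'] [Algebra O O'] [Module.Finite O O'],
      Function.Injective (algebraMap O O') →
      Function.Injective ((LinearMap.ker f).subtype.baseChange O') := by
    intro O' _ _ _ _ hinj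
    haveI : IsDomain O := inferInstance
    haveI : FaithfulSMul O O' := (faithfulSMul_iff_algebraMap_injective O O').mpr hinj
    haveI : Module.Free O O' := inferInstance
    exact Module.Flat.lTensor_preserves_injective_linearMap (M := O') _
      (LinearMap.ker f).injective_subtype
  haveI : FaithfulSMul O O' := (faithfulSMul_iff_algebraMap_injective O O').mpr hOO'
  haveI : Module.Free O O' := inferInstance
  have hex : Function.Exact ((LinearMap.ker f).subtype.lTensor O') (f.lTensor O') :=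
    Module.Flat.lTensor_exact O' (LinearMap.exact_subtype_ker_map f)
  obtain ⟨y, hy⟩ := (hex x).mp hfx
  have hy' : (LinearMap.ker f).subtype.baseChange O' y = x := hy
  have hy0 : y ≠ 0 := fun h0 => hx (by rw [← hy', h0, map_zero])
  refine forallEigen_of_group (kerΦ Φ f hf₁) (kerΨ Ψ f hf₂) (fun t g => ?_) t₀ ?_ O' hOO' lam y
    hy0 (fun t => ?_)
  · refine LinearMap.ext fun z => Subtype.ext ?_
    exact LinearMap.congr_fun (hΦΨ t g) z.1
  · intro O'' _ _ _ _ _ _ _ _ _ hOO'' lam'' χ z hz hlam'' hχ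
    have hz' : (LinearMap.ker f).subtype.baseChange O'' z ≠ 0 := fun h0 =>
      hz (hinjS O'' hOO'' (h0.trans (map_zero _).symm))
    refine h O'' hOO'' lam'' χ _ hz' (fun t => ?_) (fun g => ?_) ?_
    · rw [← restrict_baseChange f (Φ t) (hf₁ t), ← map_smul, ← hlam'' t]
      rfl
    · rw [← restrict_baseChange f (Ψ g) (hf₂ g), ← map_smul, ← hχ g]
      rfl
    · rw [← LinearMap.comp_apply, ← LinearMap.baseChange_comp]
      have h0 : f ∘ₗ (LinearMap.ker f).subtype = 0 := LinearMap.ext fun z => z.2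
      rw [h0, LinearMap.baseChange_zero, LinearMap.zero_apply]
  · apply hinjS O' hOO'
    have h1 := restrict_baseChange f (O' := O') (Φ t) (hf₁ t) y
    rw [hy', hlam t, ← hy', ← map_smul] at h1
    exact h1

end Kernel

end Fermat.Agent.H68.Te
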