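import Mathlib
import Fermat.Agent.H68TeEig

/-!
# Points of the localised modules (helper68, `[S59-EIG]` (E-2))
-/

set_option autoImplicit false
set_option linter.style.haveILetI false
set_option linter.unusedSectionVars false

noncomputable section

open Matrix CongruenceSubgroup IsLocalRing
open scoped MatrixGroups TensorProduct

namespace Fermat.Agent.H68.Te

open Fermat.Agent.H70.Coh Fermat.Agent.H70.Mod Fermat.Agent.H59

section Point

variable {N M : ℕ} (hM : N ∣ M) {S : Set ℕ} (hS : Away M S) {O Δ : Type} [CommRing O]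
  [CommGroup Δ] (ψ η : (ZMod N)ˣ →* (MonoidAlgebra O Δ)ˣ) {e : MvPolynomial (Idx S) O}
  {κ : Type} [Field κ] {θ : MvPolynomial (Idx S) O →+* κ}
  {O' : Type} [CommRing O'] [Algebra O O']

set_option maxHeartbeats 1000000 in
/-- **Passage to points**, with the class. -/
theorem exists_point' [NeZero M] [Finite Δ] [IsDomain O'] [CharZero O']
    (hg : Good M (MonoidAlgebra O Δ)) (hψ : ψ (-1) = 1)
    (he : IsLocIdem (tw hM hS ψ η) (tw_comm hM hS ψ η) θ e)
    [Module.Free O (MLoc hM hS ψ η e)]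
    (v : O' ⊗[O] MLoc hM hS ψ η e) (hv : v ≠ 0) (χ : Δ →* O'ˣ)
    (hχ : ∀ g, (diam hM hS ψ η e g).baseChange O' v = ((χ g : O'ˣ) : O') • v)
    (lam : MvPolynomial (Idx S) O → O')
    (hlam : ∀ P, (mactO hM hS ψ η e P).baseChange O' v = lam P • v) :
    ∃ y : MLoc hM hS (psiMap (evC (O := O) χ).toRingHom ψ)
        (psiMap (evC (O := O) χ).toRingHom η) e, y ≠ 0 ∧
      (∀ P, mact hM hS (psiMap (evC (O := O) χ).toRingHom ψ)
        (psiMap (evC (O := O) χ).toRingHom η) e P y = lam P • y) ∧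
      (y : H1 (gam N M hM) (psiRep (psiMap (evC (O := O) χ).toRingHom ψ) O')) =
        evS hM ψ χ (((MLoc hM hS ψ η e).subtype.restrictScalars O).baseChange O' v) := by
  haveI := Fintype.ofFinite Δ
  have hPv := fun P => aux_hecke (O' := O') (MLoc hM hS ψ η e).subtype (mactO hM hS ψ η e P)
    ((act (tw hM hS ψ η) (tw_comm hM hS ψ η) P).restrictScalars O)
    (fun x => (mact_coe hM hS ψ η e P x).symm) v (lam P) (hlam P)
  generalize hv' : ((MLoc hM hS ψ η e).subtype.restrictScalars O).baseChange O' v = v' at hPv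
  have hne : evS hM ψ χ v' ≠ 0 := by
    intro h0
    have h1 := projC_eq_zero_of_evS hM ψ hg hψ χ v' h0
    rw [← hv'] at h1
    exact aux_ne (MLoc hM hS ψ η e).subtype (locProj (tw hM hS ψ η) (tw_comm hM hS ψ η) e)
      (locProj_comp_subtype he.idem) v hv χ hχ h1
  have hPy : ∀ P, act (tw hM hS (psiMap (evC (O := O) χ).toRingHom ψ)
      (psiMap (evC (O := O) χ).toRingHom η)) (tw_comm hM hS _ _) P (evS hM ψ χ v') =
      lam P • evS hM ψ χ v' := by
    intro P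
    have h1 := evS_act hM hS ψ η χ P v'
    rw [hPv P] at h1
    exact h1.symm.trans ((evS hM ψ χ).map_smul _ _)
  have hlame : lam e • v = v := by
    rw [← hlam]
    have h1 : mactO hM hS ψ η e e = LinearMap.id := by
      apply LinearMap.ext
      intro x
      exact LinearMap.congr_fun (act_locT_e he.idem) x
    rw [h1, LinearMap.baseChange_id]
    rfl
  have hmem : evS hM ψ χ v' ∈ MLoc hM hS (psiMap (evC (O := O) χ).toRingHom ψ)
      (psiMap (evC (O := O) χ).toRingHom η) e := by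
    have h6 : lam e • v' = v' := by
      have h7 := (((MLoc hM hS ψ η e).subtype.restrictScalars O).baseChange O').map_smul (lam e) v
      rw [hlame, hv'] at h7
      exact h7.symm
    have h8 : lam e • evS hM ψ χ v' = evS hM ψ χ v' :=
      ((evS hM ψ χ).map_smul (lam e) v').symm.trans (congrArg (evS hM ψ χ) h6)
    exact (mem_loc (isLocIdem_bc hM hS ψ η hg hψ (evC (O := O) χ).toRingHom
      (fun a => (evC (O := O) χ).commutes a) he).idem).mpr ((hPy e).trans h8)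
  refine ⟨⟨evS hM ψ χ v', hmem⟩, fun h => hne (congrArg Subtype.val h), fun P => ?_, rfl⟩
  apply Subtype.ext
  exact (mact_coe hM hS _ _ e P _).trans (hPy P)

end Point

section Pt

variable {N M : ℕ} [NeZero M] (hM : N ∣ M) {S : Set ℕ} (hS : Away M S)
  {O : Type} [CommRing O]
  {κ : Type} [Field κ] {θ : MvPolynomial (Idx S) O →+* κ} {e : MvPolynomial (Idx S) O}
  {p : ℕ} (hp : p.Prime) {O' : Type} [CommRing O'] [IsDomain O'] [IsLocalRing O'] [Algebra O O']
  (hpO' : (p : O') ∈ maximalIdeal O') (hgO' : Good M O')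
  (i₀ : Idx S) (hi₀ : θ (MvPolynomial.X i₀) ≠ 1 + (i₀.1 : κ))

include hp hpO' hgO' hi₀ in
lemma isPt_of_mact' {ψ η : (ZMod N)ˣ →* O'ˣ} (hψ : ψ = η ^ 2) {s : ℕ} (hη : η ^ p ^ s = 1)
    (hψ1 : ψ (-1) = 1)
    (he : IsLocIdem (tw hM hS ψ η) (tw_comm hM hS ψ η) θ e) (y : MLoc hM hS ψ η e) (hy : y ≠ 0)
    (lam : MvPolynomial (Idx S) O → O') (hlam : ∀ P, mact hM hS ψ η e P y = lam P • y)
    (C : ∀ ψ' : (ZMod N)ˣ →* O'ˣ, H1 (gam N M hM) (psiRep ψ' O') → Prop) (hC : C ψ y) :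
    ∃ z : H1 (gam N M hM) (psiRep (η ^ 2) O'),
      IsPt hM hS η (fun i => lam (MvPolynomial.X i)) z ∧ C (η ^ 2) z := by
  subst hψ
  have hη2 : (η ^ 2) ^ p ^ s = 1 := sq_pow_eq_one hη
  obtain ⟨h1, -⟩ := loc_free hM hS (η ^ 2) η hgO' hψ1 he (resTriv_of_pow hp hpO' hη2)
    (resTriv_of_pow hp hpO' hη) i₀ hi₀
  refine ⟨y, ⟨fun c hc => smul_ne_zero_of_free _ y hy c hc, fun i => ?_⟩, hC⟩
  have h2 := congrArg Subtype.val (hlam (MvPolynomial.X i))
  have h3 := mact_coe hM hS (η ^ 2) η e (MvPolynomial.X i) y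
  have h4 : act (tw hM hS (η ^ 2) η) (tw_comm hM hS (η ^ 2) η) (MvPolynomial.X i : MvPolynomial
    (Idx S) O) = tw hM hS (η ^ 2) η i := act_X _ _ i
  rw [h4] at h3
  exact h3.symm.trans h2

variable {Δ : Type} [CommGroup Δ] [Finite Δ] {η : (ZMod N)ˣ →* (MonoidAlgebra O Δ)ˣ}
  (hgΛ : Good M (MonoidAlgebra O Δ))
  (heΛ : IsLocIdem (tw hM hS (η ^ 2) η) (tw_comm hM hS (η ^ 2) η) θ e) [CharZero O']

include hp hgΛ heΛ hi₀ hpO' in
/-- **From eigenvectors in `O' ⊗_O M` to classes over `O'`**, with a property of the class. -/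
theorem exists_pt' {s : ℕ} (hη : η ^ p ^ s = 1) [Module.Free O (MLoc hM hS (η ^ 2) η e)]
    (v : O' ⊗[O] MLoc hM hS (η ^ 2) η e) (hv : v ≠ 0) (χ : Δ →* O'ˣ)
    (hχ : ∀ g, (diam hM hS (η ^ 2) η e g).baseChange O' v = ((χ g : O'ˣ) : O') • v)
    (lam : MvPolynomial (Idx S) O → O')
    (hlam : ∀ P, (mactO hM hS (η ^ 2) η e P).baseChange O' v = lam P • v)
    (C : ∀ ψ' : (ZMod N)ˣ →* O'ˣ, H1 (gam N M hM) (psiRep ψ' O') → Prop)
    (hC : C (psiMap (evC (O := O) χ).toRingHom (η ^ 2)) (evS hM (η ^ 2) χ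
      (((MLoc hM hS (η ^ 2) η e).subtype.restrictScalars O).baseChange O' v))) :
    ∃ z : H1 (gam N M hM) (psiRep ((psiMap (evC (O := O) χ).toRingHom η) ^ 2) O'),
      IsPt hM hS (psiMap (evC (O := O) χ).toRingHom η) (fun i => lam (MvPolynomial.X i)) z ∧
      C ((psiMap (evC (O := O) χ).toRingHom η) ^ 2) z := by
  obtain ⟨y, hy, hyl, hyv⟩ := exists_point' hM hS (η ^ 2) η hgΛ (sq_neg_one η) heΛ v hv χ hχ lam
    hlam
  have h1 : psiMap (evC (O := O) χ).toRingHom (η ^ 2) =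
      (psiMap (evC (O := O) χ).toRingHom η) ^ 2 := psiMap_pow _ _ _
  have h2 : (psiMap (evC (O := O) χ).toRingHom η) ^ p ^ s = 1 := by
    rw [← psiMap_pow, hη, psiMap_one]
  have h3 : psiMap (evC (O := O) χ).toRingHom (η ^ 2) (-1) = 1 := by
    rw [h1, sq_neg_one]
  exact isPt_of_mact' hM hS hp hpO' (good_map (evC (O := O) χ).toRingHom hgΛ) i₀ hi₀ h1 h2 h3
    (isLocIdem_bc hM hS (η ^ 2) η hgΛ (sq_neg_one η) (evC (O := O) χ).toRingHom
      (fun a => (evC (O := O) χ).commutes a) heΛ) y hy lam hyl C (hyv ▸ hC)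

end Pt

end Fermat.Agent.H68.Te
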