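import Mathlib
import Fermat.Agent.H68TePt

/-!
# Points of the localised modules: `ForallEigen₂` (helper68, `[S59-EIG]` (E-2))
-/

set_option autoImplicit false
set_option linter.style.haveILetI false
set_option linter.unusedSectionVars false

noncomputable section

open Matrix CongruenceSubgroup IsLocalRing
open scoped MatrixGroups TensorProduct

namespace Fermat.Agent.H68.Te

open Fermat.Agent.H70.Coh Fermat.Agent.H70.Mod Fermat.Agent.H59

section Ker

set_option synthInstance.maxHeartbeats 400000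
set_option maxHeartbeats 1000000

theorem map_eq_zero_of_baseChange {O O' X Z Y : Type} [CommRing O] [CommRing O'] [Algebra O O']
    [Module.Flat O O'] [AddCommGroup X] [Module O X] [AddCommGroup Z] [Module O Z]
    [AddCommGroup Y] (f : X →ₗ[O] Z) (F : O' ⊗[O] X →+ Y)
    (hF : ∀ (r : O') (x : X), f x = 0 → F (r ⊗ₜ[O] x) = 0) (v : O' ⊗[O] X)
    (hv : f.baseChange O' v = 0) : F v = 0 := by
  have hex : Function.Exact ((LinearMap.ker f).subtype.lTensor O') (f.lTensor O') :=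
    Module.Flat.lTensor_exact O' (LinearMap.exact_subtype_ker_map f)
  obtain ⟨y, hy⟩ := (hex v).mp hv
  rw [← hy]
  clear hy hv
  induction y using TensorProduct.induction_on with
  | zero => simp only [map_zero]
  | add a b ha hb => rw [map_add, map_add, ha, hb, add_zero]
  | tmul r x => exact hF r x.1 x.2

/-- an operator which kills the kernel of `f` kills the specialisations of the vectors killed by
`f` -/
theorem opH_evS_eq_zero {N M M' : ℕ} (hM : N ∣ M) (hM' : N ∣ M') {O Δ : Type} [CommRing O]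
    [CommGroup Δ] (ψ : (ZMod N)ˣ →* (MonoidAlgebra O Δ)ˣ) {O' : Type} [CommRing O'] [Algebra O O']
    [Module.Flat O O'] (χ : Δ →* O'ˣ) (h : HFam (gam N M hM) (gam N M' hM'))
    (X : Submodule (MonoidAlgebra O Δ) (H1 (gam N M hM) (psiRep ψ (MonoidAlgebra O Δ))))
    {Z : Type} [AddCommGroup Z] [Module O Z] (f : X →ₗ[O] Z)
    (hf : ∀ x : X, f x = 0 → h.opH (psiRep ψ (MonoidAlgebra O Δ)) x.1 = 0)
    (v : O' ⊗[O] X) (hv : f.baseChange O' v = 0) :
    h.opH (psiRep (psiMap (evC (O := O) χ).toRingHom ψ) O')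
      (evS hM ψ χ ((X.subtype.restrictScalars O).baseChange O' v)) = 0 := by
  refine map_eq_zero_of_baseChange (O := O) (X := X) f
    (((h.opH (psiRep (psiMap (evC (O := O) χ).toRingHom ψ) O')).toAddMonoidHom.comp
      (evS hM ψ χ).toAddMonoidHom).comp
      ((X.subtype.restrictScalars O).baseChange O').toAddMonoidHom) (fun r x hx => ?_) v hv
  have h1 : evS hM ψ χ ((X.subtype.restrictScalars O).baseChange O' (r ⊗ₜ[O] x)) =
      r • h1S hM ψ (evC (O := O) χ).toRingHom (x.1 : H1 (gam N M hM) (psiRep ψ _)) :=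
    evS_tmul hM ψ χ r _
  have h2 : h.opH (psiRep (psiMap (evC (O := O) χ).toRingHom ψ) O')
      (h1S hM ψ (evC (O := O) χ).toRingHom (x.1 : H1 (gam N M hM) (psiRep ψ _))) =
      h1S hM' ψ (evC (O := O) χ).toRingHom
        (h.opH (psiRep ψ (MonoidAlgebra O Δ)) (x.1 : H1 (gam N M hM) (psiRep ψ _))) :=
    opH_h1S hM ψ h (evC (O := O) χ).toRingHom _
  change h.opH (psiRep (psiMap (evC (O := O) χ).toRingHom ψ) O')
    (evS hM ψ χ ((X.subtype.restrictScalars O).baseChange O' (r ⊗ₜ[O] x))) = 0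
  rw [h1, map_smul, h2, hf x hx, map_zero, smul_zero]

end Ker

section Main

set_option synthInstance.maxHeartbeats 400000
set_option maxHeartbeats 1000000

variable {N M : ℕ} [NeZero M] (hM : N ∣ M) {S : Set ℕ} (hS : Away M S)
  {O : Type} [CommRing O] [IsDomain O] [IsDiscreteValuationRing O]
  [IsAdicComplete (maximalIdeal O) O] [Finite (ResidueField O)] [CharZero O]
  {Δ : Type} [CommGroup Δ] [Finite Δ] {η : (ZMod N)ˣ →* (MonoidAlgebra O Δ)ˣ}
  {κ : Type} [Field κ] {θ : MvPolynomial (Idx S) O →+* κ} {e : MvPolynomial (Idx S) O}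
  {p : ℕ} (hp : p.Prime) (hpO : (p : O) ∈ maximalIdeal O)
  (hgΛ : Good M (MonoidAlgebra O Δ))
  (heΛ : IsLocIdem (tw hM hS (η ^ 2) η) (tw_comm hM hS (η ^ 2) η) θ e)
  (i₀ : Idx S) (hi₀ : θ (MvPolynomial.X i₀) ≠ 1 + (i₀.1 : κ))
  {s : ℕ} (hη : η ^ p ^ s = 1)
  {𝕋 : Type} [CommRing 𝕋] [Algebra O 𝕋]
  (tl : MvPolynomial (Idx S) O → 𝕋)

include hp hpO hgΛ heΛ hi₀ hη in
/-- **The points of the localised module.** -/
theorem forallEigen₂_pt [Module.Free O (MLoc hM hS (η ^ 2) η e)]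
    (Φ : 𝕋 →ₐ[O] Module.End O (MLoc hM hS (η ^ 2) η e))
    (hΦ : ∀ P, Φ (tl P) = mactO hM hS (η ^ 2) η e P) :
    ForallEigen₂ Φ (diam hM hS (η ^ 2) η e) fun O' _ _ _ _ _ _ _ _ _ lam χ _ =>
      ∃ z : H1 (gam N M hM) (psiRep ((psiMap (evC (O := O) χ).toRingHom η) ^ 2) O'),
        IsPt hM hS (psiMap (evC (O := O) χ).toRingHom η)
          (fun i => lam (tl (MvPolynomial.X i))) z := by
  intro O' _ _ _ _ _ _ _ _ _ hOO' lam χ v hv hlam hχ
  obtain ⟨z, hz, -⟩ := exists_pt hM hS hp hgΛ heΛ i₀ hi₀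
    (natCast_mem_of_isLocalHom (O' := O') hpO) hη v hv χ hχ (fun P => lam (tl P))
    (fun P => by rw [← hΦ]; exact hlam (tl P))
  exact ⟨z, hz⟩

include hp hpO hgΛ heΛ hi₀ hη in
/-- **The points of the localised module in the kernel of the two traces.** -/
theorem forallEigen₂_pt_ker [Module.Free O (MLoc hM hS (η ^ 2) η e)]
    (Φ : 𝕋 →ₐ[O] Module.End O (MLoc hM hS (η ^ 2) η e))
    (hΦ : ∀ P, Φ (tl P) = mactO hM hS (η ^ 2) η e P)
    {M₁ M₂ : ℕ} {hM₁ : N ∣ M₁} {hM₂ : N ∣ M₂} (h₁ : HFam (gam N M hM) (gam N M₁ hM₁))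
    (h₂ : HFam (gam N M hM) (gam N M₂ hM₂))
    {Z : Type} [AddCommGroup Z] [Module O Z] (f : MLoc hM hS (η ^ 2) η e →ₗ[O] Z)
    (hf₁ : ∀ x : MLoc hM hS (η ^ 2) η e, f x = 0 →
      h₁.opH (psiRep (η ^ 2) (MonoidAlgebra O Δ)) x.1 = 0)
    (hf₂ : ∀ x : MLoc hM hS (η ^ 2) η e, f x = 0 →
      h₂.opH (psiRep (η ^ 2) (MonoidAlgebra O Δ)) x.1 = 0) :
    ForallEigen₂ Φ (diam hM hS (η ^ 2) η e) fun O' _ _ _ _ _ _ _ _ _ lam χ v =>
      f.baseChange O' v = 0 →
      ∃ z : H1 (gam N M hM) (psiRep ((psiMap (evC (O := O) χ).toRingHom η) ^ 2) O'),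
        IsPt hM hS (psiMap (evC (O := O) χ).toRingHom η)
          (fun i => lam (tl (MvPolynomial.X i))) z ∧
        h₁.opH (psiRep ((psiMap (evC (O := O) χ).toRingHom η) ^ 2) O') z = 0 ∧
        h₂.opH (psiRep ((psiMap (evC (O := O) χ).toRingHom η) ^ 2) O') z = 0 := by
  intro O' _ _ _ _ _ _ _ _ _ hOO' lam χ v hv hlam hχ hfv
  haveI : FaithfulSMul O O' := (faithfulSMul_iff_algebraMap_injective O O').mpr hOO'
  haveI : Module.Free O O' := inferInstance
  obtain ⟨z, hz, hz'⟩ := exists_pt' hM hS hp (natCast_mem_of_isLocalHom (O' := O') hpO) i₀ hi₀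
    hgΛ heΛ hη v hv χ hχ (fun P => lam (tl P))
    (fun P => by rw [← hΦ]; exact hlam (tl P))
    (fun ψ' z => h₁.opH (psiRep ψ' O') z = 0 ∧ h₂.opH (psiRep ψ' O') z = 0)
    ⟨opH_evS_eq_zero hM hM₁ (η ^ 2) χ h₁ _ f hf₁ v hfv,
      opH_evS_eq_zero hM hM₂ (η ^ 2) χ h₂ _ f hf₂ v hfv⟩
  exact ⟨z, hz, hz'⟩

end Main

end Fermat.Agent.H68.Te
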