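import Mathlib
import Fermat.Agent.H68TeMLoc
import Fermat.Agent.H21MLev
import Fermat.Agent.H70Lev7

/-!
# From points to eigenvectors of the Hecke modules (helper68, `[S59-EIG]` (E-2))

`A : EMod O p e (heckeLocal L S O θ)` with `IsModel A ι` (helper21): the properties of points
`IsPt` are properties of the eigenvectors of `A`.

* `forallEigen₂_model`, `forallEigen₂_model_ker` : general.
* `chi_of_pt`, `mod_of_pt`, `last_of_pt`, `hker_of_pt` : the inputs of `exists_fullModPart`.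
-/

set_option autoImplicit false
set_option linter.style.haveILetI false
set_option linter.unusedSectionVars false

noncomputable section

open Matrix CongruenceSubgroup IsLocalRing CuspForm
open scoped MatrixGroups TensorProduct

namespace Fermat.Agent.H68.Te

open Fermat.Agent.H70.Coh Fermat.Agent.H70.Mod Fermat.Agent.H59 Fermat.Agent.H69.EG
  Fermat.Agent.H21M Fermat.Agent.H30

set_option synthInstance.maxHeartbeats 400000
set_option maxHeartbeats 1000000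

section Equiv

variable {O : Type} [CommRing O] [IsLocalRing O] {X Y : Type} [AddCommGroup X] [Module O X]
  [AddCommGroup Y] [Module O Y]
  {𝕋 : Type} [CommRing 𝕋] [Algebra O 𝕋] {Δ : Type} [CommGroup Δ]

/-- transport along an equivariant isomorphism -/
theorem ForallEigen₂.of_equiv (ι : X ≃ₗ[O] Y) {Φ : 𝕋 →ₐ[O] Module.End O X}
    {Ψ : Δ →* Module.End O X} {Φ' : 𝕋 →ₐ[O] Module.End O Y} {Ψ' : Δ →* Module.End O Y}
    (hΦ : ∀ t x, ι (Φ t x) = Φ' t (ι x)) (hΨ : ∀ g x, ι (Ψ g x) = Ψ' g (ι x))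
    {P : ∀ (O' : Type) [CommRing O'] [IsDomain O'] [IsDiscreteValuationRing O']
      [IsAdicComplete (maximalIdeal O') O'] [Finite (ResidueField O')] [CharZero O']
      [Algebra O O'] [Module.Finite O O'] [IsLocalHom (algebraMap O O')],
      (𝕋 →ₐ[O] O') → (Δ →* O'ˣ) → (O' ⊗[O] Y) → Prop}
    (h : ForallEigen₂ Φ' Ψ' P) :
    ForallEigen₂ Φ Ψ (fun O' _ _ _ _ _ _ _ _ _ lam χ v =>
      P O' lam χ (ι.toLinearMap.baseChange O' v)) := by
  intro O' _ _ _ _ _ _ _ _ _ hOO' lam χ v hv hlam hχ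
  have hinv : ι.symm.toLinearMap.baseChange O' (ι.toLinearMap.baseChange O' v) = v := by
    rw [← LinearMap.comp_apply, ← LinearMap.baseChange_comp]
    have h0 : ι.symm.toLinearMap ∘ₗ ι.toLinearMap = LinearMap.id :=
      LinearMap.ext fun x => ι.symm_apply_apply x
    rw [h0, LinearMap.baseChange_id]
    rfl
  refine h O' hOO' lam χ _ (fun h0 => hv ?_) (fun t => ?_) (fun g => ?_)
  · rw [← hinv, h0, map_zero]
  · have h0 : Φ' t ∘ₗ ι.toLinearMap = ι.toLinearMap ∘ₗ Φ t :=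
      LinearMap.ext fun x => (hΦ t x).symm
    rw [← LinearMap.comp_apply, ← LinearMap.baseChange_comp, h0, LinearMap.baseChange_comp,
      LinearMap.comp_apply, hlam, map_smul]
  · have h0 : Ψ' g ∘ₗ ι.toLinearMap = ι.toLinearMap ∘ₗ Ψ g :=
      LinearMap.ext fun x => (hΨ g x).symm
    rw [← LinearMap.comp_apply, ← LinearMap.baseChange_comp, h0, LinearMap.baseChange_comp,
      LinearMap.comp_apply, hχ, map_smul]

/-- the action transported along an isomorphism -/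
def conjΦ (ι : X ≃ₗ[O] Y) (Φ : 𝕋 →ₐ[O] Module.End O X) : 𝕋 →ₐ[O] Module.End O Y :=
  (ι.conjAlgEquiv O).toAlgHom.comp Φ

lemma conjΦ_apply (ι : X ≃ₗ[O] Y) (Φ : 𝕋 →ₐ[O] Module.End O X) (t : 𝕋) (y : Y) :
    conjΦ ι Φ t y = ι (Φ t (ι.symm y)) := rfl

end Equiv

section Model

variable {N M L : ℕ} [NeZero M] [NeZero L] (hM : N ∣ M) {S : Set ℕ} (hS : Away M S)
  (hSL : ∀ q : ℕ, q.Prime → q ∣ L → q ∈ S)
  {O : Type} [CommRing O] [IsDomain O] [IsDiscreteValuationRing O]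
  [IsAdicComplete (maximalIdeal O) O] [Finite (ResidueField O)] [CharZero O]
  {p : ℕ} [Fact p.Prime] (hpO : (p : O) ∈ maximalIdeal O)
  {r : ℕ} {e : Fin r → ℕ} {η : (ZMod N)ˣ →* (MonoidAlgebra O (Dlt p e))ˣ}
  {θ : heckeAlgebra L 2 S →+* ResidueField O} {ee : MvPolynomial (Idx S) O}
  (hgΛ : Good M (MonoidAlgebra O (Dlt p e)))
  (heΛ : IsLocIdem (tw hM hS (η ^ 2) η) (tw_comm hM hS (η ^ 2) η) (thetaPoly L S hSL O θ) ee)
  (i₀ : Idx S) (hi₀ : θ (TIdx L S hSL i₀) ≠ 1 + (i₀.1 : ResidueField O))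
  {s : ℕ} (hη : η ^ p ^ s = 1)
  {A : EMod O p e (heckeLocal L S O θ)} {ι : A.M ≃ₗ[O] MLoc hM hS (η ^ 2) η ee}
  (hA : IsModel hM hS hSL (η ^ 2) η θ ee A ι)

include hpO hgΛ heΛ hi₀ hη hA

/-- **The points of the Hecke module.** -/
theorem forallEigen₂_model :
    ForallEigen₂ A.Φ A.Ψ fun O' _ _ _ _ _ _ _ _ _ lam χ _ =>
      ∃ z : H1 (gam N M hM) (psiRep ((psiMap (evC (O := O) χ).toRingHom η) ^ 2) O'),
        IsPt hM hS (psiMap (evC (O := O) χ).toRingHom η)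
          (fun i => lam (heckeLocal.π L S O θ (TIdx L S hSL i))) z := by
  haveI : Module.Free O (MLoc hM hS (η ^ 2) η ee) := Module.Free.of_equiv ι
  have hi₀' : thetaPoly L S hSL O θ (MvPolynomial.X i₀) ≠ 1 + (i₀.1 : ResidueField O) := by
    rw [thetaPoly_X]
    exact hi₀
  have h1 := forallEigen₂_pt hM hS (Fact.out : p.Prime) hpO hgΛ heΛ i₀ hi₀' hη
    (toLocal L S hSL O θ) (conjΦ ι A.Φ) (fun P => LinearMap.ext fun y => by
      rw [conjΦ_apply, hA.Φ, LinearEquiv.apply_symm_apply])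
  have h2 := ForallEigen₂.of_equiv ι (Φ := A.Φ) (Ψ := A.Ψ) (fun t x => by
    rw [conjΦ_apply, LinearEquiv.symm_apply_apply]) hA.Ψ h1
  intro O' _ _ _ _ _ _ _ _ _ hOO' lam χ v hv hlam hχ
  obtain ⟨z, hz⟩ := h2 O' hOO' lam χ v hv hlam hχ
  refine ⟨z, hz.smul_ne, fun i => ?_⟩
  have h3 := hz.eigen i
  rw [toLocal_X] at h3
  exact h3

/-- **The points of the Hecke module in the kernel of the two traces.** -/
theorem forallEigen₂_model_ker
    {M₁ M₂ : ℕ} {hM₁ : N ∣ M₁} {hM₂ : N ∣ M₂} (h₁ : HFam (gam N M hM) (gam N M₁ hM₁))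
    (h₂ : HFam (gam N M hM) (gam N M₂ hM₂))
    {Z : Type} [AddCommGroup Z] [Module O Z] (f : A.M →ₗ[O] Z)
    (hf₁ : ∀ x : A.M, f x = 0 →
      h₁.opH (psiRep (η ^ 2) (MonoidAlgebra O (Dlt p e))) (ι x).1 = 0)
    (hf₂ : ∀ x : A.M, f x = 0 →
      h₂.opH (psiRep (η ^ 2) (MonoidAlgebra O (Dlt p e))) (ι x).1 = 0) :
    ForallEigen₂ A.Φ A.Ψ fun O' _ _ _ _ _ _ _ _ _ lam χ v =>
      f.baseChange O' v = 0 →
      ∃ z : H1 (gam N M hM) (psiRep ((psiMap (evC (O := O) χ).toRingHom η) ^ 2) O'),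
        IsPt hM hS (psiMap (evC (O := O) χ).toRingHom η)
          (fun i => lam (heckeLocal.π L S O θ (TIdx L S hSL i))) z ∧
        h₁.opH (psiRep ((psiMap (evC (O := O) χ).toRingHom η) ^ 2) O') z = 0 ∧
        h₂.opH (psiRep ((psiMap (evC (O := O) χ).toRingHom η) ^ 2) O') z = 0 := by
  haveI : Module.Free O (MLoc hM hS (η ^ 2) η ee) := Module.Free.of_equiv ι
  have hi₀' : thetaPoly L S hSL O θ (MvPolynomial.X i₀) ≠ 1 + (i₀.1 : ResidueField O) := by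
    rw [thetaPoly_X]
    exact hi₀
  have hfι : (f ∘ₗ ι.symm.toLinearMap) ∘ₗ ι.toLinearMap = f :=
    LinearMap.ext fun x => congrArg f (ι.symm_apply_apply x)
  have h1 := forallEigen₂_pt_ker hM hS (Fact.out : p.Prime) hpO hgΛ heΛ i₀ hi₀' hη
    (toLocal L S hSL O θ) (conjΦ ι A.Φ) (fun P => LinearMap.ext fun y => by
      rw [conjΦ_apply, hA.Φ, LinearEquiv.apply_symm_apply]) h₁ h₂ (f ∘ₗ ι.symm.toLinearMap)
    (fun x hx => by
      have h := hf₁ (ι.symm x) hx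
      rwa [LinearEquiv.apply_symm_apply] at h)
    (fun x hx => by
      have h := hf₂ (ι.symm x) hx
      rwa [LinearEquiv.apply_symm_apply] at h)
  have h2 := ForallEigen₂.of_equiv ι (Φ := A.Φ) (Ψ := A.Ψ) (fun t x => by
    rw [conjΦ_apply, LinearEquiv.symm_apply_apply]) hA.Ψ h1
  intro O' _ _ _ _ _ _ _ _ _ hOO' lam χ v hv hlam hχ hfv
  obtain ⟨z, hz, hz'⟩ := h2 O' hOO' lam χ v hv hlam hχ (by
    rw [← LinearMap.comp_apply, ← LinearMap.baseChange_comp, hfι, hfv])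
  refine ⟨z, ⟨hz.smul_ne, fun i => ?_⟩, hz'⟩
  have h3 := hz.eigen i
  rw [toLocal_X] at h3
  exact h3

end Model

section Aux

variable {O : Type} [CommRing O] {X Z Z' : Type} [AddCommGroup X] [Module O X] [AddCommGroup Z]
  [Module O Z] [AddCommGroup Z'] [Module O Z']

lemma prod_baseChange_eq_zero {O' : Type} [CommRing O'] [Algebra O O'] (f : X →ₗ[O] Z)
    (g : X →ₗ[O] Z') (v : O' ⊗[O] X) (hf : f.baseChange O' v = 0) (hg : g.baseChange O' v = 0) :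
    (f.prod g).baseChange O' v = 0 := by
  have h1 : f.prod g = LinearMap.inl O Z Z' ∘ₗ f + LinearMap.inr O Z Z' ∘ₗ g :=
    LinearMap.ext fun x => by
      change (f x, g x) = (f x, 0) + (0, g x)
      rw [Prod.mk_add_mk, add_zero, zero_add]
  rw [h1, LinearMap.baseChange_add, LinearMap.add_apply, LinearMap.baseChange_comp,
    LinearMap.baseChange_comp, LinearMap.comp_apply, LinearMap.comp_apply, hf, hg, map_zero,
    map_zero, add_zero]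

lemma odd_pow_psiMap {O O' : Type} [CommRing O] [CommRing O'] [Algebra O O'] {p r s N : ℕ}
    [Fact p.Prime] (hp2 : p ≠ 2) {e : Fin r → ℕ} {η : (ZMod N)ˣ →* (MonoidAlgebra O (Dlt p e))ˣ}
    (hη : η ^ p ^ s = 1) (χ : Dlt p e →* O'ˣ) :
    ∃ m, Odd m ∧ (psiMap (evC (O := O) χ).toRingHom η) ^ m = 1 :=
  ⟨p ^ s, ((Fact.out : p.Prime).odd_of_ne_two hp2).pow, by
    rw [← psiMap_pow, hη, psiMap_one]⟩

lemma one_hom_pow {N : ℕ} {A : Type} [CommRing A] (k : ℕ) :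
    (1 : (ZMod N)ˣ →* Aˣ) ^ k = 1 := by
  ext1 a
  rw [MonoidHom.pow_apply, MonoidHom.one_apply, one_pow]

lemma trivAt_one {A : Type} [Monoid A] (N q : ℕ) : TrivAt N q (1 : (ZMod N)ˣ →* A) :=
  fun _ _ _ _ => rfl

lemma psiMap_etaL_one {O O' : Type} [CommRing O] [CommRing O'] [Algebra O O'] {p r N : ℕ}
    {e : Fin r → ℕ} {Q : Fin r → ℕ} (hQN : ∀ j, Q j ∣ N)
    (u : ∀ j, (ZMod (Q j))ˣ →* Multiplicative (ZMod (p ^ e j))) (χ : Dlt p e →* O'ˣ)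
    (hχ : ∀ g, χ g = 1) : psiMap (evC (O := O) χ).toRingHom (etaL hQN u 1) = 1 := by
  ext1 a
  rw [psiMap_etaL, hχ, one_mul, MonoidHom.one_apply, map_one, MonoidHom.one_apply]

end Aux

section Final

variable {L : ℕ} [NeZero L] {S : Set ℕ} (hSL : ∀ q : ℕ, q.Prime → q ∣ L → q ∈ S)
  {O : Type} [CommRing O] [IsDomain O] [IsDiscreteValuationRing O]
  [IsAdicComplete (maximalIdeal O) O] [Finite (ResidueField O)] [CharZero O]
  {p : ℕ} [Fact p.Prime] (hp2 : p ≠ 2) (hpO : (p : O) ∈ maximalIdeal O)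
  {r : ℕ} {e : Fin r → ℕ}
  {θ : heckeAlgebra L 2 S →+* ResidueField O} {ee : MvPolynomial (Idx S) O}
  (i₀ : Idx S) (hi₀ : θ (TIdx L S hSL i₀) ≠ 1 + (i₀.1 : ResidueField O))
  {s₀ : ℕ} (hes : ∀ j, e j ≤ s₀)
  {Q : Fin r → ℕ} (hQ : ∀ j, (Q j).Prime) (hQinj : Function.Injective Q)
  (u : ∀ j, (ZMod (Q j))ˣ →* Multiplicative (ZMod (p ^ e j)))
  (hu : ∀ j, Function.Surjective (u j))
  {R : Type} [CommRing R] [Algebra O R] (π : R →ₐ[O] heckeLocal L S O θ)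

section Chi

variable {N M : ℕ} [NeZero N] [NeZero M] (hM : N ∣ M) (hS : Away M S) (hsq : Squarefree N)
  (hQN : ∀ j, Q j ∣ N) {T : Type} {qT : T → ℕ} (hqT : ∀ t, (qT t).Prime)
  (hQT : ∀ j t, Q j ≠ qT t) {τ : (ZMod N)ˣ →* Oˣ} (hτp : τ ^ p ^ s₀ = 1)
  (hτT : ∀ t, ¬ TrivAt N (qT t) τ) (hτQ : ∀ j, TrivAt N (Q j) τ)
  (hgΛ : Good M (MonoidAlgebra O (Dlt p e)))
  (heΛ : IsLocIdem (tw hM hS ((etaL hQN u τ) ^ 2) (etaL hQN u τ))
    (tw_comm hM hS ((etaL hQN u τ) ^ 2) (etaL hQN u τ)) (thetaPoly L S hSL O θ) ee)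
  {A : EMod O p e (heckeLocal L S O θ)}
  {ι : A.M ≃ₗ[O] MLoc hM hS ((etaL hQN u τ) ^ 2) (etaL hQN u τ) ee}
  (hA : IsModel hM hS hSL ((etaL hQN u τ) ^ 2) (etaL hQN u τ) θ ee A ι)

include hp2 hpO i₀ hi₀ hes hQ hQinj hu hsq hqT hQT hτp hτT hτQ hgΛ heΛ hA

/-- **The module with characters.** -/
theorem chi_of_pt {c : Fin r → R} {Y : Type} {prodElt : T → R} {y : Y → Fin 3 → R} {U : Set R}
    (hpt : ∀ (O' : Type) [CommRing O'] [IsDomain O'] [IsDiscreteValuationRing O']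
      [IsAdicComplete (maximalIdeal O') O'] [Finite (ResidueField O')] [CharZero O']
      [Algebra O O'] [Module.Finite O O'] [IsLocalHom (algebraMap O O')],
      Function.Injective (algebraMap O O') →
      ∀ (lam : heckeLocal L S O θ →ₐ[O] O') (η : (ZMod N)ˣ →* O'ˣ)
      (x : H1 (gam N M hM) (psiRep (η ^ 2) O')),
      (∃ m, Odd m ∧ η ^ m = 1) → (∀ t, ¬ TrivAt N (qT t) η) →
      IsPt hM hS η (fun i => lam (heckeLocal.π L S O θ (TIdx L S hSL i))) x →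
      (∀ t, lam (π (prodElt t)) = 0) ∧ (∀ j, (TrivAt N (Q j) η ↔ lam (π (1 + c j)) = 1)) ∧
      (∀ i, lam (π (y i 1)) = 0 ∧ lam (π (y i 2)) = 0) ∧ ∀ a ∈ U, lam (π a) = 0) :
    A.Compat π c ∧
    (∀ t, ForallEigen A.Φ fun _ _ _ _ _ _ _ _ _ _ lam _ => lam (π (prodElt t)) = 0) ∧
    (∀ i, ForallEigen A.Φ fun _ _ _ _ _ _ _ _ _ _ lam _ =>
      lam (π (y i 1)) = 0 ∧ lam (π (y i 2)) = 0) ∧
    ∀ a ∈ U, ForallEigen A.Φ fun _ _ _ _ _ _ _ _ _ _ lam _ => lam (π a) = 0 := by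
  have hη : (etaL hQN u τ) ^ p ^ s₀ = 1 := etaL_pow hQN u hes hτp
  have key : ForallEigen₂ A.Φ A.Ψ fun O' _ _ _ _ _ _ _ _ _ lam χ _ =>
      (∀ t, lam (π (prodElt t)) = 0) ∧ ((∀ g, χ g = 1) ↔ ∀ j, lam (π (1 + c j)) = 1) ∧
      (∀ i, lam (π (y i 1)) = 0 ∧ lam (π (y i 2)) = 0) ∧ ∀ a ∈ U, lam (π a) = 0 := by
    intro O' _ _ _ _ _ _ _ _ _ hOO' lam χ v hv hlam hχ
    obtain ⟨z, hz⟩ := forallEigen₂_model hM hS hSL hpO hgΛ heΛ i₀ hi₀ hη hA O' hOO' lam χ v hv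
      hlam hχ
    obtain ⟨h1, h2, h3, h4⟩ := hpt O' hOO' lam _ z (odd_pow_psiMap hp2 hη χ)
      (fun t => not_trivAt hQ hQN hOO' (hqT t) (fun j => hQT j t) (hτT t) χ) hz
    refine ⟨h1, ?_, h3, h4⟩
    rw [← trivAt_iff hsq hQ hQinj hQN hu hτQ χ]
    exact forall_congr' h2
  refine ⟨ForallEigen₂.compat (Φ := A.Φ) (Ψ := A.Ψ) (fun j => π (1 + c j)) ?_, fun t => ?_,
    fun i => ?_, fun a ha => ?_⟩
  · intro O' _ _ _ _ _ _ _ _ _ hOO' lam χ v hv hlam hχ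
    exact (key O' hOO' lam χ v hv hlam hχ).2.1
  · refine ForallEigen₂.forallEigen A.Φ A.Ψ A.comm _ ?_
    intro O' _ _ _ _ _ _ _ _ _ hOO' lam χ v hv hlam hχ
    exact (key O' hOO' lam χ v hv hlam hχ).1 t
  · have h1 : ForallEigen A.Φ fun _ _ _ _ _ _ _ _ _ _ lam _ => lam (π (y i 1)) = 0 := by
      refine ForallEigen₂.forallEigen A.Φ A.Ψ A.comm _ ?_
      intro O' _ _ _ _ _ _ _ _ _ hOO' lam χ v hv hlam hχ
      exact ((key O' hOO' lam χ v hv hlam hχ).2.2.1 i).1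
    have h2 : ForallEigen A.Φ fun _ _ _ _ _ _ _ _ _ _ lam _ => lam (π (y i 2)) = 0 := by
      refine ForallEigen₂.forallEigen A.Φ A.Ψ A.comm _ ?_
      intro O' _ _ _ _ _ _ _ _ _ hOO' lam χ v hv hlam hχ
      exact ((key O' hOO' lam χ v hv hlam hχ).2.2.1 i).2
    intro O' _ _ _ _ _ _ _ _ _ hOO' lam x hx hlam
    exact ⟨h1 O' hOO' lam x hx hlam, h2 O' hOO' lam x hx hlam⟩
  · refine ForallEigen₂.forallEigen A.Φ A.Ψ A.comm _ ?_
    intro O' _ _ _ _ _ _ _ _ _ hOO' lam χ v hv hlam hχ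
    exact (key O' hOO' lam χ v hv hlam hχ).2.2.2 a ha

end Chi

section Uni

variable {N₁ N₂ M : ℕ} [NeZero N₂] [NeZero M] (hN : N₂ ∣ N₁) (hM : N₁ ∣ M) (hM₂ : N₂ ∣ M)
  (hS : Away M S) (hsq : Squarefree N₂) (hQN : ∀ j, Q j ∣ N₁) (hQN₂ : ∀ j, Q j ∣ N₂)
  (hgΛ : Good M (MonoidAlgebra O (Dlt p e)))
  (heΛ : IsLocIdem (tw hM hS ((etaL hQN u (1 : (ZMod N₁)ˣ →* Oˣ)) ^ 2) (etaL hQN u 1))
    (tw_comm hM hS ((etaL hQN u 1) ^ 2) (etaL hQN u 1)) (thetaPoly L S hSL O θ) ee)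
  {A : EMod O p e (heckeLocal L S O θ)}
  {ι : A.M ≃ₗ[O] MLoc hM hS ((etaL hQN u (1 : (ZMod N₁)ˣ →* Oˣ)) ^ 2) (etaL hQN u 1) ee}
  (hA : IsModel hM hS hSL ((etaL hQN u (1 : (ZMod N₁)ˣ →* Oˣ)) ^ 2) (etaL hQN u 1) θ ee A ι)

include hp2 hpO i₀ hi₀ hes hQ hQinj hu hsq hgΛ heΛ hA hN hQN₂

/-- **The modules with trivial character**, general form: the points are at the auxiliary
level `N₂`. -/
theorem uni_of_pt {c : Fin r → R}
    {P : ∀ (O' : Type) [CommRing O'] [IsDomain O'] [IsDiscreteValuationRing O']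
      [IsAdicComplete (maximalIdeal O') O'] [Finite (ResidueField O')] [CharZero O']
      [Algebra O O'] [Module.Finite O O'] [IsLocalHom (algebraMap O O')],
      (heckeLocal L S O θ →ₐ[O] O') → Prop}
    (hpt : ∀ (O' : Type) [CommRing O'] [IsDomain O'] [IsDiscreteValuationRing O']
      [IsAdicComplete (maximalIdeal O') O'] [Finite (ResidueField O')] [CharZero O']
      [Algebra O O'] [Module.Finite O O'] [IsLocalHom (algebraMap O O')],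
      Function.Injective (algebraMap O O') →
      ∀ (lam : heckeLocal L S O θ →ₐ[O] O') (η : (ZMod N₂)ˣ →* O'ˣ)
      (x : H1 (gam N₂ M hM₂) (psiRep (η ^ 2) O')),
      (∃ m, Odd m ∧ η ^ m = 1) →
      IsPt hM₂ hS η (fun i => lam (heckeLocal.π L S O θ (TIdx L S hSL i))) x →
      (∀ j, (TrivAt N₂ (Q j) η ↔ lam (π (1 + c j)) = 1)) ∧ P O' lam) :
    A.Compat π c ∧ ForallEigen₂ A.Φ A.Ψ fun O' _ _ _ _ _ _ _ _ _ lam _ _ => P O' lam := by
  have hη : (etaL hQN u (1 : (ZMod N₁)ˣ →* Oˣ)) ^ p ^ s₀ = 1 := etaL_pow hQN u hes (one_hom_pow _)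
  have hη₂ : (etaL hQN₂ u (1 : (ZMod N₂)ˣ →* Oˣ)) ^ p ^ s₀ = 1 :=
    etaL_pow hQN₂ u hes (one_hom_pow _)
  have key : ForallEigen₂ A.Φ A.Ψ fun O' _ _ _ _ _ _ _ _ _ lam χ _ =>
      ((∀ g, χ g = 1) ↔ ∀ j, lam (π (1 + c j)) = 1) ∧ P O' lam := by
    intro O' _ _ _ _ _ _ _ _ _ hOO' lam χ v hv hlam hχ
    obtain ⟨z, hz⟩ := forallEigen₂_model hM hS hSL hpO hgΛ heΛ i₀ hi₀ hη hA O' hOO' lam χ v hv
      hlam hχ
    have h0 : psiMap (evC (O := O) χ).toRingHom (etaL hQN u (1 : (ZMod N₁)ˣ →* Oˣ)) =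
        (psiMap (evC (O := O) χ).toRingHom (etaL hQN₂ u (1 : (ZMod N₂)ˣ →* Oˣ))).comp
          (ZMod.unitsMap hN) := by
      rw [etaL_lev hN hQN hQN₂ u, psiMap_comp_unitsMap]
    obtain ⟨z', hz', -⟩ := exists_pt_lev (O := O) (e := 1) hN hM hM₂ hS h0 _ z hz
      (by rw [map_one]; rfl)
    obtain ⟨h2, h3⟩ := hpt O' hOO' lam _ z' (odd_pow_psiMap hp2 hη₂ χ) hz'
    refine ⟨?_, h3⟩
    rw [← trivAt_iff (O := O) (τ := 1) hsq hQ hQinj hQN₂ hu (fun j => trivAt_one N₂ (Q j)) χ]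
    exact forall_congr' h2
  refine ⟨ForallEigen₂.compat (Φ := A.Φ) (Ψ := A.Ψ) (fun j => π (1 + c j)) ?_, ?_⟩
  · intro O' _ _ _ _ _ _ _ _ _ hOO' lam χ v hv hlam hχ
    exact (key O' hOO' lam χ v hv hlam hχ).1
  · intro O' _ _ _ _ _ _ _ _ _ hOO' lam χ v hv hlam hχ
    exact (key O' hOO' lam χ v hv hlam hχ).2

/-- **The modules with trivial character**, in the form of `exists_fullModPart_chain`. -/
theorem mod_of_pt {c : Fin r → R} {s i₁ : ℕ} {T : Type} {uniElt : T → R} {y : Fin s → Fin 3 → R}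
    {cb : Fin s → O} {U : Set R}
    (hpt : ∀ (O' : Type) [CommRing O'] [IsDomain O'] [IsDiscreteValuationRing O']
      [IsAdicComplete (maximalIdeal O') O'] [Finite (ResidueField O')] [CharZero O']
      [Algebra O O'] [Module.Finite O O'] [IsLocalHom (algebraMap O O')],
      Function.Injective (algebraMap O O') →
      ∀ (lam : heckeLocal L S O θ →ₐ[O] O') (η : (ZMod N₂)ˣ →* O'ˣ)
      (x : H1 (gam N₂ M hM₂) (psiRep (η ^ 2) O')),
      (∃ m, Odd m ∧ η ^ m = 1) →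
      IsPt hM₂ hS η (fun i => lam (heckeLocal.π L S O θ (TIdx L S hSL i))) x →
      (∀ t, lam (π (uniElt t)) = 0) ∧ (∀ j, (TrivAt N₂ (Q j) η ↔ lam (π (1 + c j)) = 1)) ∧
      (∀ j : Fin s, i₁ ≤ j → lam (π (y j 1)) = 0 ∧ lam (π (y j 2)) = 0) ∧
      (∀ j : Fin s, (j : ℕ) < i₁ → lam (π (y j 1)) * lam (π (y j 0)) = 0 ∧
        lam (π (y j 2)) * (lam (π (y j 0)) + algebraMap O O' (cb j)) = 0) ∧
      ∀ a ∈ U, lam (π a) = 0) :
    A.Compat π c ∧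
    (∀ t, ForallEigen A.Φ fun _ _ _ _ _ _ _ _ _ _ lam _ => lam (π (uniElt t)) = 0) ∧
    (∀ j : Fin s, i₁ ≤ j → ForallEigen A.Φ fun _ _ _ _ _ _ _ _ _ _ lam _ =>
      lam (π (y j 1)) = 0 ∧ lam (π (y j 2)) = 0) ∧
    (∀ j : Fin s, (j : ℕ) < i₁ → ForallEigen A.Φ fun O' _ _ _ _ _ _ _ _ _ lam _ =>
      lam (π (y j 1)) * lam (π (y j 0)) = 0 ∧
      lam (π (y j 2)) * (lam (π (y j 0)) + algebraMap O O' (cb j)) = 0) ∧
    ∀ a ∈ U, ForallEigen A.Φ fun _ _ _ _ _ _ _ _ _ _ lam _ => lam (π a) = 0 := by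
  obtain ⟨h0, key⟩ := uni_of_pt hSL hp2 hpO i₀ hi₀ hes hQ hQinj u hu π hN hM hM₂ hS hsq hQN
    hQN₂ hgΛ heΛ hA (c := c) (P := fun O' _ _ _ _ _ _ _ _ _ lam =>
      (∀ t, lam (π (uniElt t)) = 0) ∧
      (∀ j : Fin s, i₁ ≤ j → lam (π (y j 1)) = 0 ∧ lam (π (y j 2)) = 0) ∧
      (∀ j : Fin s, (j : ℕ) < i₁ → lam (π (y j 1)) * lam (π (y j 0)) = 0 ∧
        lam (π (y j 2)) * (lam (π (y j 0)) + algebraMap O O' (cb j)) = 0) ∧
      ∀ a ∈ U, lam (π a) = 0) (fun O' _ _ _ _ _ _ _ _ _ hOO' lam η x hm hx => by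
        obtain ⟨h1, h2, h3⟩ := hpt O' hOO' lam η x hm hx
        exact ⟨h2, h1, h3⟩)
  have kk : ∀ t₀ : heckeLocal L S O θ,
      (ForallEigen₂ A.Φ A.Ψ fun _ _ _ _ _ _ _ _ _ _ lam _ _ => lam t₀ = 0) →
      ForallEigen A.Φ fun _ _ _ _ _ _ _ _ _ _ lam _ => lam t₀ = 0 := fun t₀ h =>
    ForallEigen₂.forallEigen A.Φ A.Ψ A.comm t₀ h
  refine ⟨h0, fun t => kk _ ?_, fun j hj => ?_, fun j hj => ?_, fun a ha => kk _ ?_⟩
  · intro O' _ _ _ _ _ _ _ _ _ hOO' lam χ v hv hlam hχ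
    exact (key O' hOO' lam χ v hv hlam hχ).1 t
  · have h1 := kk (π (y j 1)) (by
      intro O' _ _ _ _ _ _ _ _ _ hOO' lam χ v hv hlam hχ
      exact ((key O' hOO' lam χ v hv hlam hχ).2.1 j hj).1)
    have h2 := kk (π (y j 2)) (by
      intro O' _ _ _ _ _ _ _ _ _ hOO' lam χ v hv hlam hχ
      exact ((key O' hOO' lam χ v hv hlam hχ).2.1 j hj).2)
    intro O' _ _ _ _ _ _ _ _ _ hOO' lam x hx hlam
    exact ⟨h1 O' hOO' lam x hx hlam, h2 O' hOO' lam x hx hlam⟩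
  · have h1 := kk (π (y j 1) * π (y j 0)) (by
      intro O' _ _ _ _ _ _ _ _ _ hOO' lam χ v hv hlam hχ
      rw [map_mul]
      exact ((key O' hOO' lam χ v hv hlam hχ).2.2.1 j hj).1)
    have h2 := kk (π (y j 2) * (π (y j 0) + algebraMap O _ (cb j))) (by
      intro O' _ _ _ _ _ _ _ _ _ hOO' lam χ v hv hlam hχ
      rw [map_mul, map_add, AlgHom.commutes]
      exact ((key O' hOO' lam χ v hv hlam hχ).2.2.1 j hj).2)
    intro O' _ _ _ _ _ _ _ _ _ hOO' lam x hx hlam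
    have h3 : lam (π (y j 1) * π (y j 0)) = 0 := h1 O' hOO' lam x hx hlam
    have h4 : lam (π (y j 2) * (π (y j 0) + algebraMap O _ (cb j))) = 0 :=
      h2 O' hOO' lam x hx hlam
    rw [map_mul] at h3 h4
    rw [map_add, AlgHom.commutes] at h4
    exact ⟨h3, h4⟩
  · intro O' _ _ _ _ _ _ _ _ _ hOO' lam χ v hv hlam hχ
    exact (key O' hOO' lam χ v hv hlam hχ).2.2.2 a ha

end Uni

section Last

variable {N M : ℕ} [NeZero M] (hM : N ∣ M) (hS : Away M S)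
  (hQN : ∀ j, Q j ∣ N)
  (hgΛ : Good M (MonoidAlgebra O (Dlt p e)))
  (heΛ : IsLocIdem (tw hM hS ((etaL hQN u (1 : (ZMod N)ˣ →* Oˣ)) ^ 2) (etaL hQN u 1))
    (tw_comm hM hS ((etaL hQN u 1) ^ 2) (etaL hQN u 1)) (thetaPoly L S hSL O θ) ee)
  {A : EMod O p e (heckeLocal L S O θ)}
  {ι : A.M ≃ₗ[O] MLoc hM hS ((etaL hQN u (1 : (ZMod N)ˣ →* Oˣ)) ^ 2) (etaL hQN u 1) ee}
  (hA : IsModel hM hS hSL ((etaL hQN u (1 : (ZMod N)ˣ →* Oˣ)) ^ 2) (etaL hQN u 1) θ ee A ι)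

include hpO i₀ hi₀ hes hgΛ heΛ hA

/-- **The last module** (`hEA4`). -/
theorem last_of_pt {f : R}
    (hpt : ∀ (O' : Type) [CommRing O'] [IsDomain O'] [IsDiscreteValuationRing O']
      [IsAdicComplete (maximalIdeal O') O'] [Finite (ResidueField O')] [CharZero O']
      [Algebra O O'] [Module.Finite O O'] [IsLocalHom (algebraMap O O')],
      Function.Injective (algebraMap O O') →
      ∀ (lam : heckeLocal L S O θ →ₐ[O] O') (η : (ZMod N)ˣ →* O'ˣ)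
      (x : H1 (gam N M hM) (psiRep (η ^ 2) O')), η = 1 →
      IsPt hM hS η (fun i => lam (heckeLocal.π L S O θ (TIdx L S hSL i))) x →
      lam (π f) = 0) :
    ForallEigen A.Φ fun O' _ _ _ _ _ _ _ _ _ lam x =>
      (∀ g, (A.Ψ g).baseChange O' x = x) → lam (π f) = 0 := by
  have hη : (etaL hQN u (1 : (ZMod N)ˣ →* Oˣ)) ^ p ^ s₀ = 1 := etaL_pow hQN u hes (one_hom_pow _)
  intro O' _ _ _ _ _ _ _ _ _ hOO' lam x hx hlam hinv
  obtain ⟨z, hz⟩ := forallEigen₂_model hM hS hSL hpO hgΛ heΛ i₀ hi₀ hη hA O' hOO' lam 1 x hx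
    hlam (fun g => by rw [hinv, MonoidHom.one_apply, Units.val_one, one_smul])
  exact hpt O' hOO' lam _ z (psiMap_etaL_one hQN u 1 fun _ => rfl) hz

end Last

section KerTr

variable {N M q : ℕ} [NeZero M] [NeZero q] (hM : N ∣ M) (hMq : N ∣ M * q) (hq : q.Prime)
  (hS : Away (M * q) S)
  {η : (ZMod N)ˣ →* (MonoidAlgebra O (Dlt p e))ˣ} (hη : η ^ p ^ s₀ = 1)
  (hgΛ : Good (M * q) (MonoidAlgebra O (Dlt p e)))
  (heΛ : IsLocIdem (tw hMq hS (η ^ 2) η) (tw_comm hMq hS (η ^ 2) η)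
    (thetaPoly L S hSL O θ) ee)
  {B : EMod O p e (heckeLocal L S O θ)} {ι : B.M ≃ₗ[O] MLoc hMq hS (η ^ 2) η ee}
  (hB : IsModel hMq hS hSL (η ^ 2) η θ ee B ι)

include hp2 hpO i₀ hi₀ hη hgΛ heΛ hB

/-- **Eigenvectors killed by both traces**: the hypothesis `hker` of
`Fermat.Agent.H41.FX.exists_newStep` for the element `t₀`. -/
theorem hker_of_pt {Z : Type} [AddCommGroup Z] [Module O Z] (tr nu : B.M →ₗ[O] Z)
    (htr : ∀ x, tr x = 0 → (trFam hM).opH (psiRep (η ^ 2) (MonoidAlgebra O (Dlt p e)))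
      (ι x).1 = 0)
    (hnu : ∀ x, nu x = 0 → (nuFam hM hq).opH (psiRep (η ^ 2) (MonoidAlgebra O (Dlt p e)))
      (ι x).1 = 0)
    (htrΦ : ∀ t x, tr x = 0 → tr (B.Φ t x) = 0) (hnuΦ : ∀ t x, nu x = 0 → nu (B.Φ t x) = 0)
    (htrΨ : ∀ g x, tr x = 0 → tr (B.Ψ g x) = 0) (hnuΨ : ∀ g x, nu x = 0 → nu (B.Ψ g x) = 0)
    (t₀ : heckeLocal L S O θ)
    (hpt : ∀ (O' : Type) [CommRing O'] [IsDomain O'] [IsDiscreteValuationRing O']
      [IsAdicComplete (maximalIdeal O') O'] [Finite (ResidueField O')] [CharZero O']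
      [Algebra O O'] [Module.Finite O O'] [IsLocalHom (algebraMap O O')],
      Function.Injective (algebraMap O O') →
      ∀ (lam : heckeLocal L S O θ →ₐ[O] O') (η : (ZMod N)ˣ →* O'ˣ)
      (x : H1 (gam N (M * q) hMq) (psiRep (η ^ 2) O')),
      (∃ m, Odd m ∧ η ^ m = 1) →
      IsPt hMq hS η (fun i => lam (heckeLocal.π L S O θ (TIdx L S hSL i))) x →
      (trFam hM).opH (psiRep (η ^ 2) O') x = 0 → (nuFam hM hq).opH (psiRep (η ^ 2) O') x = 0 →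
      lam t₀ = 0) :
    ForallEigen B.Φ fun O' _ _ _ _ _ _ _ _ _ lam x =>
      tr.baseChange O' x = 0 → nu.baseChange O' x = 0 → lam t₀ = 0 := by
  haveI : NeZero (M * q) := ⟨mul_ne_zero (NeZero.ne M) (NeZero.ne q)⟩
  have h1 := forallEigen₂_model_ker hMq hS hSL hpO hgΛ heΛ i₀ hi₀ hη hB (trFam hM) (nuFam hM hq)
    (tr.prod nu) (fun x hx => htr x (congrArg Prod.fst hx))
    (fun x hx => hnu x (congrArg Prod.snd hx))
  have h2 := ForallEigen₂.forallEigen_ker B.Φ B.Ψ B.comm (tr.prod nu)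
    (fun t x hx => Prod.ext (htrΦ t x (congrArg Prod.fst hx)) (hnuΦ t x (congrArg Prod.snd hx)))
    (fun g x hx => Prod.ext (htrΨ g x (congrArg Prod.fst hx)) (hnuΨ g x (congrArg Prod.snd hx)))
    t₀ (by
      intro O' _ _ _ _ _ _ _ _ _ hOO' lam χ v hv hlam hχ hfv
      obtain ⟨z, hz, hz1, hz2⟩ := h1 O' hOO' lam χ v hv hlam hχ hfv
      exact hpt O' hOO' lam _ z (odd_pow_psiMap hp2 hη χ) hz hz1 hz2)
  intro O' _ _ _ _ _ _ _ _ _ hOO' lam x hx hlam hx1 hx2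
  exact h2 O' hOO' lam x hx hlam (prod_baseChange_eq_zero tr nu x hx1 hx2)

end KerTr

end Final

end Fermat.Agent.H68.Te
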