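import Mathlib
import Fermat.Agent.H83Def
import Fermat.Agent.H83Two

/-!
# CARAYOL [C4]: the residues of the chart ring at level `q²m` lie in `C` (helper68)

Abstract form: everything follows from the residue formula for the trace along `α`.
-/

set_option autoImplicit false
set_option linter.style.haveILetI false
set_option linter.unusedSectionVars false

namespace Fermat.Agent.H68

open Fermat.Agent.H83 Fermat.Agent.H83.CompSys

section CompleteClosed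

variable {E : Type*} [Field E]

/-- A noetherian integrally closed subring `C` of a field is completely integrally closed:
if `x ^ n * d ∈ C` for all `n` (with `0 ≠ d ∈ C`) then `x ∈ C`. -/
theorem mem_of_pow_mul_mem (C : Subring E) [IsNoetherianRing C] [IsIntegrallyClosed C] {x d : E}
    (hd : d ∈ C) (hd0 : d ≠ 0) (h : ∀ n : ℕ, x ^ n * d ∈ C) : x ∈ C := by
  classical
  -- the fractional ideal `d⁻¹ C`
  let N : Submodule C E :=
    { carrier := {y | y * d ∈ C}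
      add_mem' := fun {a b} ha hb => by
        show (a + b) * d ∈ C
        rw [add_mul]; exact add_mem ha hb
      zero_mem' := by
        show (0 : E) * d ∈ C
        rw [zero_mul]; exact zero_mem C
      smul_mem' := fun c y hy => by
        show (c • y) * d ∈ C
        rw [Subring.smul_def, smul_eq_mul, mul_assoc]
        exact mul_mem c.2 hy }
  let f : N →ₗ[C] C :=
    { toFun := fun y => ⟨(y : E) * d, y.2⟩
      map_add' := fun a b => Subtype.ext (by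
        show ((a : E) + b) * d = a * d + b * d
        ring)
      map_smul' := fun c y => Subtype.ext (by
        show ((c • (y : E))) * d = (c : E) * (y * d)
        rw [Subring.smul_def, smul_eq_mul, mul_assoc]) }
  have hf : Function.Injective f := by
    intro a b hab
    have h1 : (a : E) * d = b * d := congrArg (fun z : C => (z : E)) hab
    exact Subtype.ext (mul_right_cancel₀ hd0 h1)
  haveI : IsNoetherian C N := isNoetherian_of_injective f hf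
  have hsub : Subalgebra.toSubmodule (Algebra.adjoin C {x}) ≤ N := by
    intro y hy
    rw [Subalgebra.mem_toSubmodule, Algebra.adjoin_singleton_eq_range_aeval] at hy
    obtain ⟨P, rfl⟩ := hy
    show (Polynomial.aeval x P) ∈ N
    rw [Polynomial.aeval_eq_sum_range]
    refine Submodule.sum_mem _ fun i _ => N.smul_mem _ ?_
    exact h i
  haveI : IsNoetherian C (Subalgebra.toSubmodule (Algebra.adjoin C {x})) :=
    isNoetherian_of_le hsub
  have hint : IsIntegral C x :=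
    IsIntegral.of_mem_of_fg (Algebra.adjoin C {x}) (by
      exact (Submodule.fg_top _).1 (IsNoetherian.noetherian _)) x
      (Algebra.self_mem_adjoin_singleton C x)
  -- `x` is a quotient of elements of `C`
  letI : Algebra C (FractionRing C) := inferInstance
  let g : FractionRing C →+* E := IsFractionRing.lift (A := C) (g := C.subtype)
    Subtype.val_injective
  have hg : ∀ c : C, g (algebraMap C (FractionRing C) c) = (c : E) := fun c =>
    IsFractionRing.lift_algebraMap _ c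
  have hx1 : x * d ∈ C := by simpa using h 1
  set y : FractionRing C := algebraMap C _ ⟨x * d, hx1⟩ / algebraMap C _ ⟨d, hd⟩ with hy
  have hgy : g y = x := by
    rw [hy, map_div₀, hg, hg]
    field_simp
  have hyint : IsIntegral C y := by
    obtain ⟨P, hP, hPx⟩ := hint
    refine ⟨P, hP, ?_⟩
    apply g.injective
    rw [map_zero, Polynomial.hom_eval₂, hgy]
    have : g.comp (algebraMap C (FractionRing C)) = algebraMap C E := by
      ext c; exact hg c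
    rw [this]; exact hPx
  obtain ⟨c, hc⟩ := IsIntegrallyClosed.isIntegral_iff.1 hyint
  have : (c : E) = x := by rw [← hg, hc, hgy]
  rw [← this]; exact c.2

end CompleteClosed

section Main

variable {k E : Type*} [Field k] [Field E] [Algebra k E] {q : ℕ} {R : ResData k E q}
  {F' : Type*} [Field F'] (T : TwoData R F') {F : Type*} [Field F] (S : CompSys F E q (Fin 3))

theorem X_sub_ne_zero (R : ResData k E q) [CharP E q] : R.X - R.X ^ (q * q) ≠ 0 := by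
  intro h
  have h1 := congrArg R.D h
  rw [map_zero, map_sub, Derivation.leibniz_pow, R.D_X] at h1
  have hq : ((q * q : ℕ) : E) = 0 := by rw [Nat.cast_mul, CharP.cast_eq_zero, zero_mul]
  rw [nsmul_eq_mul, hq, zero_mul, sub_zero] at h1
  exact one_ne_zero h1

variable (α β : F' →+* F)

/-- **The residues of the chart ring at level `q² m` at the components `0` and `1` lie in `C`.** -/
theorem r_mem_zero_one [CharP E q]
    (β_hor : ∀ x ∈ T.hor, β x ∈ S.hor)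
    (β_V0 : ∀ x, β x ∈ S.V 0 ↔ x ∈ T.V 0)
    (β_V1 : ∀ x, β x ∈ S.V 1 ↔ x ∈ T.V 1)
    (β_V2 : ∀ x, β x ∈ S.V 2 ↔ x ∈ T.V 1)
    (β_res0 : ∀ x, S.res 0 (β x) = R.Φ (T.res 0 x))
    (β_res1 : ∀ x, S.res 1 (β x) = T.res 1 x)
    (hΦC : ∀ x ∈ R.C, R.Φ x ∈ R.C)
    (Tr : F → F')
    (Tr_hor : ∀ x ∈ S.hor, Tr x ∈ T.hor)
    (Tr_V0 : ∀ x, x ∈ S.V 0 → x ∈ S.V 1 → Tr x ∈ T.V 0 ∧
      T.res 0 (Tr x) = S.res 0 x - S.res 1 x)
    (Tr_V1 : ∀ x, x ∈ S.V 2 → Tr x ∈ T.V 1) (b : S.B) :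
    S.r 0 b ∈ R.C ∧ S.r 1 b ∈ R.C := by
  have hTrB : ∀ x ∈ S.B, Tr x ∈ T.B := by
    intro x hx
    rw [S.mem_B] at hx
    rw [T.mem_B]
    refine ⟨Tr_hor x hx.1, fun i => ?_⟩
    fin_cases i
    · exact (Tr_V0 x (hx.2 0) (hx.2 1)).1
    · exact Tr_V1 x (hx.2 2)
  have hβB : β T.z ∈ S.B := by
    rw [S.mem_B]
    refine ⟨β_hor _ T.z_hor, fun i => ?_⟩
    fin_cases i
    · exact (β_V0 _).2 (T.z_V 0)
    · exact (β_V1 _).2 (T.z_V 1)
    · exact (β_V2 _).2 (T.z_V 1)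
  have hresr : ∀ (i : Fin 3) (c : S.B), S.res i (c : F) = S.r i c := fun i c =>
    S.res_of_mem ((S.mem_B.1 c.2).2 i)
  have hkey : ∀ n : ℕ, (S.r 0 b) ^ n * R.Φ (R.X - R.X ^ (q * q)) ∈ R.C := by
    intro n
    set c : S.B := b ^ n * ⟨β T.z, hβB⟩ with hc
    have h0 : S.r 0 c = (S.r 0 b) ^ n * R.Φ (R.X - R.X ^ (q * q)) := by
      rw [hc, map_mul, map_pow, ← hresr 0 ⟨β T.z, hβB⟩]
      show _ * S.res 0 (β T.z) = _
      rw [β_res0, T.res0_z]
    have h1 : S.r 1 c = 0 := by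
      rw [hc, map_mul, ← hresr 1 ⟨β T.z, hβB⟩]
      show _ * S.res 1 (β T.z) = _
      rw [β_res1, T.res1_z, mul_zero]
    have hcB := S.mem_B.1 c.2
    have h2 := (Tr_V0 c (hcB.2 0) (hcB.2 1)).2
    rw [hresr, hresr, h0, h1, sub_zero] at h2
    rw [← h2]
    have h3 := T.r_mem 0 ⟨Tr c, hTrB _ c.2⟩
    have h4 : T.res 0 (Tr (c : F)) = T.toCompSys.r 0 ⟨Tr c, hTrB _ c.2⟩ :=
      T.res_of_mem ((T.mem_B.1 (hTrB _ c.2)).2 0)
    rw [h4]; exact h3
  have hd : R.Φ (R.X - R.X ^ (q * q)) ∈ R.C :=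
    hΦC _ (sub_mem R.X_mem (pow_mem R.X_mem _))
  have hd0 : R.Φ (R.X - R.X ^ (q * q)) ≠ 0 := by
    rw [Ne, map_eq_zero]
    exact X_sub_ne_zero R
  have hr0 : S.r 0 b ∈ R.C := by
    have : S.r 0 b ∈ R.Cs := mem_of_pow_mul_mem R.Cs (x := S.r 0 b) hd hd0 hkey
    exact this
  refine ⟨hr0, ?_⟩
  have hbB := S.mem_B.1 b.2
  have h2 := (Tr_V0 b (hbB.2 0) (hbB.2 1)).2
  have h4 : T.res 0 (Tr (b : F)) = T.toCompSys.r 0 ⟨Tr b, hTrB _ b.2⟩ :=
    T.res_of_mem ((T.mem_B.1 (hTrB _ b.2)).2 0)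
  rw [hresr, hresr, h4] at h2
  have h5 : S.r 1 b = S.r 0 b - T.toCompSys.r 0 ⟨Tr b, hTrB _ b.2⟩ := by
    rw [h2]; ring
  rw [h5]
  exact sub_mem hr0 (T.r_mem 0 _)

/-- The residue at the component `2` lies in `C`: use the involution `W₂`. -/
theorem r_mem_two (W₂ : F → F) (W₂_hor : ∀ x ∈ S.hor, W₂ x ∈ S.hor)
    (W₂_V0 : ∀ x, x ∈ S.V 2 → W₂ x ∈ S.V 0) (W₂_V1 : ∀ x, x ∈ S.V 1 → W₂ x ∈ S.V 1)
    (W₂_V2 : ∀ x, x ∈ S.V 0 → W₂ x ∈ S.V 2)
    (W₂_res : ∀ x, S.res 2 x = S.res 0 (W₂ x)) (h : ∀ b : S.B, S.r 0 b ∈ R.C) (b : S.B) :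
    S.r 2 b ∈ R.C := by
  have hb := S.mem_B.1 b.2
  have hW : W₂ b ∈ S.B := by
    rw [S.mem_B]
    refine ⟨W₂_hor _ hb.1, fun i => ?_⟩
    fin_cases i
    · exact W₂_V0 _ (hb.2 2)
    · exact W₂_V1 _ (hb.2 1)
    · exact W₂_V2 _ (hb.2 0)
  have h1 := h ⟨W₂ b, hW⟩
  have h2 : S.res 2 (b : F) = S.r 2 b := S.res_of_mem (hb.2 2)
  have h3 : S.res 0 (W₂ (b : F)) = S.r 0 ⟨W₂ b, hW⟩ := S.res_of_mem ((S.mem_B.1 hW).2 0)
  rw [← h2, W₂_res, h3]
  exact h1

/-- **Surjectivity of the residue maps at level `q² m`.** -/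
theorem r_surj_three
    (α_hor : ∀ x ∈ T.hor, α x ∈ S.hor) (β_hor : ∀ x ∈ T.hor, β x ∈ S.hor)
    (α_V0 : ∀ x, α x ∈ S.V 0 ↔ x ∈ T.V 0)
    (α_V1 : ∀ x, α x ∈ S.V 1 ↔ x ∈ T.V 0)
    (α_V2 : ∀ x, α x ∈ S.V 2 ↔ x ∈ T.V 1)
    (α_res0 : ∀ x, S.res 0 (α x) = T.res 0 x)
    (α_res1 : ∀ x, S.res 1 (α x) = T.res 0 x)
    (β_V0 : ∀ x, β x ∈ S.V 0 ↔ x ∈ T.V 0)
    (β_V1 : ∀ x, β x ∈ S.V 1 ↔ x ∈ T.V 1)
    (β_V2 : ∀ x, β x ∈ S.V 2 ↔ x ∈ T.V 1)
    (β_res2 : ∀ x, S.res 2 (β x) = T.res 1 x) :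
    ∀ i, ∀ c ∈ R.C, ∃ b : S.B, S.r i b = c := by
  have hαB : ∀ x ∈ T.B, α x ∈ S.B := by
    intro x hx
    rw [T.mem_B] at hx
    rw [S.mem_B]
    refine ⟨α_hor _ hx.1, fun i => ?_⟩
    fin_cases i
    · exact (α_V0 _).2 (hx.2 0)
    · exact (α_V1 _).2 (hx.2 0)
    · exact (α_V2 _).2 (hx.2 1)
  have hβB : ∀ x ∈ T.B, β x ∈ S.B := by
    intro x hx
    rw [T.mem_B] at hx
    rw [S.mem_B]
    refine ⟨β_hor _ hx.1, fun i => ?_⟩
    fin_cases i
    · exact (β_V0 _).2 (hx.2 0)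
    · exact (β_V1 _).2 (hx.2 1)
    · exact (β_V2 _).2 (hx.2 1)
  have hres : ∀ (i : Fin 3) (c : S.B), S.r i c = S.res i (c : F) := fun i c =>
    (S.res_of_mem ((S.mem_B.1 c.2).2 i)).symm
  have hresT : ∀ (i : Fin 2) (c : T.B), T.toCompSys.r i c = T.res i (c : F') := fun i c =>
    (T.res_of_mem ((T.mem_B.1 c.2).2 i)).symm
  intro i c hc
  fin_cases i
  · obtain ⟨b, hb⟩ := T.r_surj 0 c hc
    refine ⟨⟨α b, hαB _ b.2⟩, ?_⟩
    show S.r 0 _ = c
    rw [hres]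
    show S.res 0 (α b) = c
    rw [α_res0, ← hresT, hb]
  · obtain ⟨b, hb⟩ := T.r_surj 0 c hc
    refine ⟨⟨α b, hαB _ b.2⟩, ?_⟩
    show S.r 1 _ = c
    rw [hres]
    show S.res 1 (α b) = c
    rw [α_res1, ← hresT, hb]
  · obtain ⟨b, hb⟩ := T.r_surj 1 c hc
    refine ⟨⟨β b, hβB _ b.2⟩, ?_⟩
    show S.r 2 _ = c
    rw [hres]
    show S.res 2 (β b) = c
    rw [β_res2, ← hresT, hb]

end Main

end Fermat.Agent.H68
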