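import Fermat.Agent.H90Descent
import Fermat.Agent.H99Emb1

/-!
# Base change of bases, norms and traces for fields of Laurent series
-/

set_option autoImplicit false
set_option linter.unusedSectionVars false

noncomputable section

open ModularCurve Polynomial IntermediateField AlgebraicCurve Module

namespace Fermat.Agent.H99

section IsBas

variable {K E : Type*} [Field K] [Field E] [Algebra K E]

/-- `b` is a basis of `B` over `A` (subfields of a common field). -/
structure IsBas (A B : IntermediateField K E) {ι : Type*} [Fintype ι] (b : ι → E) : Prop where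
  mem : ∀ i, b i ∈ B
  indep : ∀ x : ι → E, (∀ i, x i ∈ A) → ∑ i, x i * b i = 0 → x = 0
  span : ∀ f ∈ B, ∃ x : ι → E, (∀ i, x i ∈ A) ∧ f = ∑ i, x i * b i

variable {A B : IntermediateField K E} {ι : Type*} [Fintype ι] {b : ι → E}

/-- the basis attached to `IsBas`, for any algebra structure compatible with the inclusions -/
theorem IsBas.exists_basis (hb : IsBas A B b) {R S : Type*} [Field R] [Field S] [Algebra R S]
    (r : R ≃+* A) (s : S ≃+* B) (h : ∀ x : R, (s (algebraMap R S x) : E) = r x) :
    ∃ c : Basis ι R S, ∀ i, (s (c i) : E) = b i := by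
  let c₀ : ι → S := fun i => s.symm ⟨b i, hb.mem i⟩
  have hc₀ : ∀ i, (s (c₀ i) : E) = b i := fun i => by simp [c₀]
  have hsum : ∀ x : ι → R, (s (∑ i, x i • c₀ i) : E) = ∑ i, (r (x i) : E) * b i := by
    intro x
    rw [map_sum, AddSubmonoidClass.coe_finsetSum]
    refine Finset.sum_congr rfl fun i _ => ?_
    rw [Algebra.smul_def, map_mul, IntermediateField.coe_mul, h, hc₀]
  have hli : LinearIndependent R c₀ := by
    rw [Fintype.linearIndependent_iff]
    intro x hx i
    have h1 := hb.indep (fun i => (r (x i) : E)) (fun i => (r (x i)).2) (by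
      rw [← hsum, hx, map_zero]
      rfl)
    have h2 := congrFun h1 i
    have h3 : r (x i) = 0 := Subtype.ext h2
    exact (map_eq_zero_iff r r.injective).1 h3
  have hsp : ⊤ ≤ Submodule.span R (Set.range c₀) := by
    intro f _
    obtain ⟨x, hx, hf⟩ := hb.span (s f) (s f).2
    have h1 : f = ∑ i, r.symm ⟨x i, hx i⟩ • c₀ i := by
      apply s.injective
      apply Subtype.ext
      rw [hsum, hf]
      refine Finset.sum_congr rfl fun i _ => ?_
      simp
    rw [h1]
    exact Submodule.sum_mem _ fun i _ => Submodule.smul_mem _ _ (Submodule.subset_span ⟨i, rfl⟩)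
  exact ⟨Basis.mk hli hsp, fun i => by rw [Basis.mk_apply, hc₀]⟩

/-- `extendScalars h` and `B` are the same field -/
def extEquiv (h : A ≤ B) : extendScalars h ≃+* B where
  toFun x := ⟨x, x.2⟩
  invFun x := ⟨x, x.2⟩
  left_inv _ := rfl
  right_inv _ := rfl
  map_mul' _ _ := rfl
  map_add' _ _ := rfl

set_option synthInstance.maxHeartbeats 400000 in
theorem IsBas.relfinrank (hb : IsBas A B b) (h : A ≤ B) :
    IntermediateField.relfinrank A B = Fintype.card ι := by
  rw [relfinrank_eq_finrank_of_le h]
  obtain ⟨c, -⟩ := hb.exists_basis (R := A) (S := extendScalars h) (RingEquiv.refl _)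
    (extEquiv h) (fun _ => rfl)
  exact finrank_eq_card_basis c

set_option synthInstance.maxHeartbeats 400000 in
/-- every finite extension has a basis -/
theorem exists_isBas (h : A ≤ B) [FiniteDimensional A (extendScalars h)] :
    ∃ b : Fin (IntermediateField.relfinrank A B) → E, IsBas A B b := by
  rw [relfinrank_eq_finrank_of_le h]
  let c := finBasis A (extendScalars h)
  have hsum : ∀ x : Fin (finrank A (extendScalars h)) → A,
      ((∑ i, x i • c i : extendScalars h) : E) = ∑ i, (x i : E) * (c i : E) := by
    intro x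
    rw [AddSubmonoidClass.coe_finsetSum]
    rfl
  refine ⟨fun i => (c i : E), fun i => (c i).2, ?_, ?_⟩
  · intro x hx h0
    have h1 := Fintype.linearIndependent_iff.1 c.linearIndependent (fun i => ⟨x i, hx i⟩) (by
      apply Subtype.ext
      rw [hsum]
      exact h0)
    funext i
    exact congrArg Subtype.val (h1 i)
  · intro f hf
    have h1 := c.sum_repr ⟨f, hf⟩
    refine ⟨fun i => (c.repr ⟨f, hf⟩ i : E), fun i => (c.repr ⟨f, hf⟩ i).2, ?_⟩
    have h2 := congrArg Subtype.val h1
    rw [hsum] at h2
    exact h2.symm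

end IsBas

section BaseChange

variable {A B : IntermediateField ℚ (LaurentSeries ℚ)} {ι : Type*} [Fintype ι]
  {b : ι → LaurentSeries ℚ}

theorem coeffEmb_rat (x : LaurentSeries ℚ) : coeffEmb ℚ x = x := by
  ext n
  rw [coeffEmb_coeff]
  rfl

theorem laurentBaseChange_rat (A : IntermediateField ℚ (LaurentSeries ℚ)) :
    laurentBaseChange ℚ A = A := by
  rw [laurentBaseChange]
  have : (coeffEmb ℚ : LaurentSeries ℚ → LaurentSeries ℚ) = id := funext coeffEmb_rat
  rw [this, Set.image_id]
  exact IntermediateField.adjoin_self ℚ A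

theorem laurentBaseChange_mono (L : Type*) [Field L] [Algebra ℚ L] (h : A ≤ B) :
    laurentBaseChange L A ≤ laurentBaseChange L B := by
  rw [laurentBaseChange, adjoin_le_iff]
  rintro _ ⟨x, hx, rfl⟩
  exact coeffEmb_mem_laurentBaseChange L (h hx)

/-- Linear independence is preserved by extension of the constants. -/
theorem indep_baseChange (L : Type*) [Field L] [Algebra ℚ L]
    (hb : ∀ x : ι → LaurentSeries ℚ, (∀ i, x i ∈ A) → ∑ i, x i * b i = 0 → x = 0)
    (x : ι → LaurentSeries L) (hx : ∀ i, x i ∈ laurentBaseChange L A)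
    (h0 : ∑ i, x i * coeffEmb L (b i) = 0) : x = 0 := by
  classical
  have h1 : ∀ i, ∃ p ∈ Algebra.adjoin L (⇑(coeffEmb L) '' (A : Set (LaurentSeries ℚ))),
      ∃ r ∈ Algebra.adjoin L (⇑(coeffEmb L) '' (A : Set (LaurentSeries ℚ))), r ≠ 0 ∧
        x i * r = p := by
    intro i
    have h2 := hx i
    rw [laurentBaseChange, IntermediateField.mem_adjoin_iff_div] at h2
    obtain ⟨p, hp, r, hr, h⟩ := h2
    by_cases hr0 : r = 0
    · refine ⟨0, zero_mem _, 1, one_mem _, one_ne_zero, ?_⟩
      rw [h, hr0, div_zero, zero_mul]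
    · exact ⟨p, hp, r, hr, hr0, by rw [h, div_mul_cancel₀ _ hr0]⟩
  choose p hp r hr hr0 hxr using h1
  set s := ∏ i, r i with hs
  have hs0 : s ≠ 0 := Finset.prod_ne_zero_iff.2 fun i _ => hr0 i
  have hsx : ∀ i, s * x i ∈ Algebra.adjoin L (⇑(coeffEmb L) '' (A : Set (LaurentSeries ℚ))) := by
    intro i
    have h2 : s * x i = (∏ j ∈ Finset.univ.erase i, r j) * p i := by
      rw [hs, ← Finset.prod_erase_mul _ _ (Finset.mem_univ i), mul_assoc, mul_comm (r i), hxr]
    rw [h2]
    exact mul_mem (prod_mem fun j _ => hr j) (hp i)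
  have h2 : ∑ i, (s * x i) * coeffEmb L (b i) = 0 := by
    have h3 : ∑ i, (s * x i) * coeffEmb L (b i) = s * ∑ i, x i * coeffEmb L (b i) := by
      rw [Finset.mul_sum]
      exact Finset.sum_congr rfl fun i _ => mul_assoc _ _ _
    rw [h3, h0, mul_zero]
  have h3 : ∀ (lam : L →ₗ[ℚ] ℚ) (i : ι), H90.coeffFun lam (s * x i) = 0 := by
    intro lam i
    have h4 := hb (fun i => H90.coeffFun lam (s * x i)) (fun i => by
      have := H90.coeffFun_mem A (hsx i) lam
      rwa [laurentBaseChange_rat] at this) (by
        have h5 := congrArg (H90.coeffFun lam) h2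
        rw [map_sum, map_zero] at h5
        rw [← h5]
        refine Finset.sum_congr rfl fun i _ => ?_
        exact (H90.coeffFun_mul lam (s * x i) (b i)).symm)
    exact congrFun h4 i
  funext i
  have h4 : s * x i = 0 := by
    ext n
    rw [HahnSeries.coeff_zero]
    rw [← Module.forall_dual_apply_eq_zero_iff ℚ]
    intro lam
    have h5 := congrArg (fun z : LaurentSeries ℚ => z.coeff n) (h3 lam i)
    simpa using h5
  exact (mul_eq_zero.1 h4).resolve_left hs0

/-- Spanning is preserved by extension of the constants. -/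
theorem span_baseChange (L : Type*) [Field L] [Algebra ℚ L] (hb : IsBas A B b) (f : LaurentSeries L) (hf : f ∈ laurentBaseChange L B) :
    ∃ x : ι → LaurentSeries L, (∀ i, x i ∈ laurentBaseChange L A) ∧
      f = ∑ i, x i * coeffEmb L (b i) := by
  classical
  set A' := laurentBaseChange L A with hA'
  -- the span of the `b i`
  let N : Submodule A' (LaurentSeries L) :=
    Submodule.span A' (Set.range fun i => coeffEmb L (b i))
  have hN : ∀ y : LaurentSeries L, y ∈ N ↔ ∃ x : ι → LaurentSeries L, (∀ i, x i ∈ A') ∧
      y = ∑ i, x i * coeffEmb L (b i) := by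
    intro y
    constructor
    · intro hy
      rw [Submodule.mem_span_range_iff_exists_fun] at hy
      obtain ⟨c, hc⟩ := hy
      exact ⟨fun i => (c i : LaurentSeries L), fun i => (c i).2, hc.symm⟩
    · rintro ⟨x, hx, rfl⟩
      refine Submodule.sum_mem _ fun i _ => ?_
      exact Submodule.smul_mem N (⟨x i, hx i⟩ : A') (Submodule.subset_span ⟨i, rfl⟩)
  -- the subalgebra generated by `B`
  let M : Subalgebra A' (LaurentSeries L) :=
    Algebra.adjoin A' (⇑(coeffEmb L) '' (B : Set (LaurentSeries ℚ)))
  have hMN : Subalgebra.toSubmodule M ≤ N := by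
    have h1 : Subalgebra.toSubmodule M = Submodule.span A'
        (⇑(coeffEmb L) '' (B : Set (LaurentSeries ℚ))) := by
      rw [Algebra.adjoin_eq_span, H90.mem_closure_image]
    rw [h1, Submodule.span_le]
    rintro _ ⟨g, hg, rfl⟩
    obtain ⟨x, hx, hgx⟩ := hb.span g hg
    change coeffEmb L g ∈ N
    rw [hN]
    refine ⟨fun i => coeffEmb L (x i), fun i => coeffEmb_mem_laurentBaseChange L (hx i), ?_⟩
    rw [hgx, map_sum]
    exact Finset.sum_congr rfl fun i _ => map_mul _ _ _
  have hfin : Module.Finite A' N := by
    apply Module.Finite.span_of_finite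
    exact Set.finite_range _
  have hfinM : FiniteDimensional A' M := by
    have : FiniteDimensional A' (Subalgebra.toSubmodule M) :=
      Submodule.finiteDimensional_of_le hMN
    exact this
  have halg : ∀ y : LaurentSeries L, y ∈ M → IsAlgebraic A' y := by
    intro y hy
    have h1 : IsAlgebraic A' (⟨y, hy⟩ : M) := Algebra.IsAlgebraic.isAlgebraic _
    exact (isAlgebraic_algHom_iff M.val Subtype.val_injective).2 h1
  let M' : IntermediateField A' (LaurentSeries L) := M.toIntermediateField (fun y hy => by
    exact M.inv_mem_of_algebraic (x := ⟨y, hy⟩) (halg y hy))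
  have hle : laurentBaseChange L B ≤ IntermediateField.restrictScalars L M' := by
    rw [laurentBaseChange, adjoin_le_iff]
    intro y hy
    exact Algebra.subset_adjoin hy
  exact (hN f).1 (hMN (hle hf))

/-- **Base change of bases.** -/
theorem IsBas.baseChange (L : Type*) [Field L] [Algebra ℚ L] (hb : IsBas A B b) :
    IsBas (laurentBaseChange L A) (laurentBaseChange L B) (fun i => coeffEmb L (b i)) where
  mem i := coeffEmb_mem_laurentBaseChange L (hb.mem i)
  indep := indep_baseChange L hb.indep
  span := span_baseChange L hb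

/-- finiteness descends to `ℚ` -/
theorem finite_of_baseChange (L : Type*) [Field L] [Algebra ℚ L] (hAB : A ≤ B)
    (h : IntermediateField.relfinrank (laurentBaseChange L A) (laurentBaseChange L B) ≠ 0) :
    FiniteDimensional A (extendScalars hAB) := by
  classical
  by_contra hcon
  let c := Basis.ofVectorSpace A (extendScalars hAB)
  have hinf : Infinite (Basis.ofVectorSpaceIndex A (extendScalars hAB)) := by
    rw [← not_finite_iff_infinite]
    intro hfin
    exact hcon (Module.Finite.of_basis c)
  have hAB' := laurentBaseChange_mono L hAB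
  rw [relfinrank_eq_finrank_of_le hAB'] at h
  have hfin' : FiniteDimensional (laurentBaseChange L A) (extendScalars hAB') :=
    FiniteDimensional.of_finrank_pos (Nat.pos_of_ne_zero h)
  set n := finrank (laurentBaseChange L A) (extendScalars hAB') with hn
  obtain ⟨e⟩ : Nonempty (Fin (n + 1) ↪ Basis.ofVectorSpaceIndex A (extendScalars hAB)) :=
    ⟨(Fin.valEmbedding).trans (Infinite.natEmbedding _)⟩
  have hli : LinearIndependent A (fun i => c (e i)) := c.linearIndependent.comp _ e.injective
  have hind := indep_baseChange (A := A) (b := fun i => (c (e i) : LaurentSeries ℚ)) L (by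
    intro x hx h0
    have h1 := Fintype.linearIndependent_iff.1 hli (fun i => ⟨x i, hx i⟩) (by
      apply Subtype.ext
      rw [AddSubmonoidClass.coe_finsetSum]
      exact h0)
    funext i
    exact congrArg Subtype.val (h1 i))
  have hli' : LinearIndependent (laurentBaseChange L A)
      (fun i : Fin (n + 1) => (⟨coeffEmb L (c (e i) : LaurentSeries ℚ),
        coeffEmb_mem_laurentBaseChange L (c (e i)).2⟩ : extendScalars hAB')) := by
    rw [Fintype.linearIndependent_iff]
    intro x hx i
    have h1 := hind (fun i => (x i : LaurentSeries L)) (fun i => (x i).2) (by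
      have h2 := congrArg Subtype.val hx
      rw [AddSubmonoidClass.coe_finsetSum] at h2
      exact h2)
    exact Subtype.ext (congrFun h1 i)
  have h2 := hli'.fintype_card_le_finrank
  rw [Fintype.card_fin, ← hn] at h2
  omega

/-- **Degrees do not depend on the field of constants.** -/
theorem relfinrank_baseChange (L : Type*) [Field L] [Algebra ℚ L] (hAB : A ≤ B)
    [FiniteDimensional A (extendScalars hAB)] :
    IntermediateField.relfinrank (laurentBaseChange L A) (laurentBaseChange L B) =
      IntermediateField.relfinrank A B := by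
  obtain ⟨b, hb⟩ := exists_isBas hAB
  rw [(hb.baseChange L).relfinrank (laurentBaseChange_mono L hAB), Fintype.card_fin]

end BaseChange

section Modular

/-- `laurentBaseChange L ℚ(j) = L(j)` -/
theorem laurentBaseChange_adjoin_jq (L : Type*) [Field L] [Algebra ℚ L] :
    laurentBaseChange L ℚ⟮jq⟯ = L⟮jqModC L⟯ := by
  apply le_antisymm
  · rw [laurentBaseChange, adjoin_le_iff]
    rintro _ ⟨y, hy, rfl⟩
    have hle : ℚ⟮jq⟯ ≤ ((L⟮jqModC L⟯).toSubfield.comap (coeffEmb L)).toIntermediateField
        (fun a => by
          rw [Subfield.mem_comap]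
          have : coeffEmb L (algebraMap ℚ (LaurentSeries ℚ) a)
              = algebraMap L (LaurentSeries L) (algebraMap ℚ L a) := by
            rw [algebraMap_laurentSeries_eq_single, algebraMap_laurentSeries_eq_single, coeffEmb,
              coeffMap_single]
          rw [this]
          exact (L⟮jqModC L⟯).algebraMap_mem _) := by
      rw [adjoin_simple_le_iff]
      change coeffEmb L jq ∈ L⟮jqModC L⟯
      rw [H67.coeffEmb_jq]
      exact mem_adjoin_simple_self _ _
    exact hle hy
  · rw [adjoin_simple_le_iff, ← H67.coeffEmb_jq]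
    exact coeffEmb_mem_laurentBaseChange L (mem_adjoin_simple_self _ _)

theorem adjoin_jq_le (N : ℕ) [NeZero N] : ℚ⟮jq⟯ ≤ modularFunctionFieldFull N := by
  rw [adjoin_simple_le_iff]
  have := jqd_mem_full N (one_dvd N)
  rwa [qExpand_one_apply] at this

theorem finite_full_rat (N : ℕ) [NeZero N] :
    FiniteDimensional ℚ⟮jq⟯ (extendScalars (adjoin_jq_le N)) := by
  apply finite_of_baseChange (AlgebraicClosure ℚ)
  rw [laurentBaseChange_adjoin_jq, H67.laurentBaseChange_full,
    H67.degreeFact (AlgebraicClosure ℚ) N]
  exact (H67.dedekindPsi_pos N).ne'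

/-- **The degree theorem over every field containing `ℚ`.** -/
theorem degreeFact (L : Type*) [Field L] [Algebra ℚ L] : H67.DegreeFact L := by
  intro M _
  have := finite_full_rat M
  rw [← laurentBaseChange_adjoin_jq, ← H67.laurentBaseChange_full,
    relfinrank_baseChange L (adjoin_jq_le M),
    ← relfinrank_baseChange (AlgebraicClosure ℚ) (adjoin_jq_le M), laurentBaseChange_adjoin_jq,
    H67.laurentBaseChange_full, H67.degreeFact (AlgebraicClosure ℚ) M]

end Modular

end Fermat.Agent.H99

end
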