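import Fermat.Agent.H68TwoFrame
import Fermat.Agent.H1HauptMem
import Fermat.Agent.H99Base

/-!
# CARAYOL C3: the derivation `d/dX` on the function field of `X_0(N)`, `c ∣ N`
-/

set_option autoImplicit false
set_option linter.unusedSectionVars false

noncomputable section

open Polynomial ModularCurve Fermat.Agent.H99 Fermat.Agent.H66 IntermediateField
open Fermat.Agent.H61 (theta)

namespace Fermat.Agent.H68

section ThetaRed

variable {K : Type*} [Field K] {A : ValuationSubring K} {k : Type*} [Field k] {π : A →+* k}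

/-- `θ` preserves the Gauss ring and is compatible with the reduction. -/
theorem theta_mem {x : LaurentSeries K} (hx : x ∈ GR A π) :
    theta x ∈ GR A π ∧ gres A π (theta x) = theta (gres A π x) := by
  obtain ⟨y, z, hz, h⟩ := gr_mem_iff.1 hx
  have hzK : gres A π (coeffMap A.subtype z) ≠ 0 := by rwa [gres_int]
  have hz0 : coeffMap A.subtype z ≠ 0 := by
    intro h0
    rw [h0, gres_zero] at hzK
    exact hzK rfl
  have h1 : theta x * coeffMap A.subtype z = coeffMap A.subtype (theta y) -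
      x * coeffMap A.subtype (theta z) := by
    rw [H61.coeffMap_theta, H61.coeffMap_theta, ← h, H61.theta_mul]
    ring
  have h2 : coeffMap A.subtype (theta y) - x * coeffMap A.subtype (theta z) ∈ GR A π :=
    sub_mem (int_mem _) (mul_mem hx (int_mem _))
  have h3 : theta x = (coeffMap A.subtype (theta y) - x * coeffMap A.subtype (theta z)) /
      coeffMap A.subtype z := by
    rw [eq_div_iff hz0, h1]
  refine ⟨by rw [h3]; exact div_mem_gr h2 hzK, ?_⟩
  rw [h3, gres_div h2 hzK, div_eq_iff hzK, gres_sub (int_mem _) (mul_mem hx (int_mem _)),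
    gres_mul hx (int_mem _), gres_int, gres_int, gres_int, H61.coeffMap_theta,
    H61.coeffMap_theta]
  have h4 := gres_mul_eq hz h
  have h5 := congrArg theta h4
  rw [H61.theta_mul] at h5
  rw [← h5]
  ring

theorem theta_qExpand {R : Type*} [CommRing R] (n : ℕ) [NeZero n] (x : LaurentSeries R) :
    theta (qExpand R n x) = (n : LaurentSeries R) * qExpand R n (theta x) := by
  have hn : (n : LaurentSeries R) = HahnSeries.single 0 (n : R) := by
    rw [← map_natCast (HahnSeries.C : R →+* LaurentSeries R)]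
    rfl
  ext i
  rw [hn, HahnSeries.coeff_single_mul, sub_zero, H61.coeff_theta]
  by_cases hi : (n : ℤ) ∣ i
  · obtain ⟨l, rfl⟩ := hi
    rw [qExpand_coeff_mul, qExpand_coeff_mul, H61.coeff_theta]
    push_cast
    ring
  · rw [qExpand_coeff_of_not_dvd n _ hi, qExpand_coeff_of_not_dvd n _ hi, mul_zero, mul_zero]

/-- `θ X` has a pole of order one with leading coefficient `-1`. -/
theorem theta_Xc_coeff (c : ℕ) (R : Type*) [CommRing R] :
    (theta (H1.Xc c R)).coeff (-1) = -1 := by
  rw [H61.coeff_theta, (H1.hasLead_Xc c R).1]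
  simp

theorem theta_Xc_ne_zero (c : ℕ) (R : Type*) [CommRing R] [Nontrivial R] :
    theta (H1.Xc c R) ≠ 0 := by
  intro h
  have h1 := theta_Xc_coeff c R
  rw [h, HahnSeries.coeff_zero] at h1
  exact one_ne_zero (neg_eq_zero.mp h1.symm)

theorem Xc_mem_GR (c : ℕ) : H1.Xc c K ∈ GR A π := by
  rw [← H1.coeffMap_Xc c A.subtype]
  exact int_mem _

theorem gres_Xc (c : ℕ) : gres A π (H1.Xc c K) = H1.Xc c k := by
  rw [← H1.coeffMap_Xc c A.subtype, gres_int, H1.coeffMap_Xc]

theorem gres_theta_Xc (c : ℕ) : gres A π (theta (H1.Xc c K)) = theta (H1.Xc c k) := by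
  rw [(theta_mem (Xc_mem_GR c)).2, gres_Xc]

/-- `d/dX` preserves the Gauss ring and is compatible with the reduction. -/
theorem ddX_mem (c : ℕ) {x : LaurentSeries K} (hx : x ∈ GR A π) :
    theta x / theta (H1.Xc c K) ∈ GR A π ∧
      gres A π (theta x / theta (H1.Xc c K)) = theta (gres A π x) / theta (H1.Xc c k) := by
  have h := theta_mem hx
  have h0 : gres A π (theta (H1.Xc c K)) ≠ 0 := by
    rw [gres_theta_Xc]
    exact theta_Xc_ne_zero c k
  refine ⟨div_mem_gr h.1 h0, ?_⟩
  rw [gres_div h.1 h0, h.2, gres_theta_Xc]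

theorem Xc_pow (c q : ℕ) [Fact q.Prime] [NeZero q] [CharP k q] :
    H1.Xc c k ^ q = qExpand k q (H1.Xc c k) := by
  rw [H60.laurent_pow_char q, H1.coeffMap_Xc]

end ThetaRed

section Alg

theorem isAlgebraic_of_finite {K E : Type*} [Field K] [Field E] [Algebra K E] {x : E}
    (h : FiniteDimensional K⟮x⟯ E) (f : E) : IsAlgebraic K⟮x⟯ f :=
  Algebra.IsAlgebraic.isAlgebraic f

theorem isAlgebraic_of_le {K E : Type*} [Field K] [Field E] [Algebra K E]
    {F G : IntermediateField K E} (h : F ≤ G) {x : E} (hx : IsAlgebraic F x) :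
    IsAlgebraic G x := by
  obtain ⟨p, hp, h0⟩ := hx
  refine ⟨p.map (inclusion h).toRingHom, (Polynomial.map_ne_zero_iff
    (inclusion h).toRingHom.injective).mpr hp, ?_⟩
  rw [← h0, aeval_def, aeval_def, eval₂_map]
  rfl

/-- algebraicity seen in a bigger field -/
theorem isAlgebraic_coe {K E : Type*} [Field K] [Field E] [Algebra K E]
    (F : IntermediateField K E) {x f : F} (h : IsAlgebraic K⟮x⟯ f) :
    IsAlgebraic K⟮(x : E)⟯ (f : E) := by
  have hmap : (K⟮x⟯).map F.val = K⟮(x : E)⟯ := by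
    rw [adjoin_map, Set.image_singleton]
    rfl
  have hmem : ∀ a : K⟮x⟯, ((a : F) : E) ∈ K⟮(x : E)⟯ := fun a => by
    rw [← hmap]
    exact ⟨a, a.2, rfl⟩
  let φ : K⟮x⟯ →+* K⟮(x : E)⟯ :=
    { toFun := fun a => ⟨_, hmem a⟩
      map_one' := rfl
      map_mul' := fun _ _ => rfl
      map_zero' := rfl
      map_add' := fun _ _ => rfl }
  obtain ⟨p, hp, h0⟩ := h
  refine ⟨p.map φ, (Polynomial.map_ne_zero_iff φ.injective).mpr hp, ?_⟩
  have h1 := congrArg F.val h0
  rw [map_zero] at h1
  rw [← h1, aeval_def, eval₂_map, aeval_def]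
  show _ = (F.val : F →+* E) _
  rw [hom_eval₂]
  rfl

end Alg

section DerF

variable (K : Type*) [Field K] [Algebra ℚ K] [CharZero K] (c N : ℕ) [NeZero N]
  (hc : c = 4 ∨ c = 9) (hcN : c ∣ N)

/-- the coordinate `X` as a function of level `N` -/
def XF : FX K N := ⟨H1.Xc c K, H1.Xc_mem_baseChange K hc (NeZero.ne N) hcN⟩

@[simp] theorem coe_XF : (XF K c N hc hcN : LaurentSeries K) = H1.Xc c K := rfl

theorem jq_mem_adjoin (hc : c = 4 ∨ c = 9) : jqModC K ∈ K⟮H1.Xc c K⟯ := by
  rcases hc with rfl | rfl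
  · rw [H1.Xc_four]
    exact H1.full_le_X4 K (jqModC_mem_full K 4)
  · rw [H1.Xc_nine]
    exact H1.full_le_X9 K (jqModC_mem_full K 9)

theorem jF_mem_adjoin : jF K N ∈ K⟮XF K c N hc hcN⟯ := by
  have hmap : (K⟮XF K c N hc hcN⟯).map (FX K N).val = K⟮H1.Xc c K⟯ := by
    rw [adjoin_map, Set.image_singleton]
    rfl
  have h := jq_mem_adjoin K c hc
  rw [← hmap] at h
  obtain ⟨y, hy, hyj⟩ := h
  have : y = jF K N := Subtype.ext (hyj.trans (coe_jF K N).symm)
  rw [← this]
  exact hy

theorem isAlgebraic_XF (f : FX K N) : IsAlgebraic K⟮XF K c N hc hcN⟯ f := by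
  have h1 : IsAlgebraic K⟮jF K N⟯ f :=
    isAlgebraic_of_finite (finiteDimensional_jF (H99.degreeFact K) N) f
  exact isAlgebraic_of_le (adjoin_simple_le_iff.mpr (jF_mem_adjoin K c N hc hcN)) h1

/-- `θ/θX` as an additive map on Laurent series -/
def ddXs : LaurentSeries K →+ LaurentSeries K where
  toFun f := theta f / theta (H1.Xc c K)
  map_zero' := by rw [H61.theta_zero, zero_div]
  map_add' x y := by rw [H61.theta_add, add_div]

theorem ddXs_apply (f : LaurentSeries K) : ddXs K c f = theta f / theta (H1.Xc c K) := rfl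

theorem ddXs_mul (x y : LaurentSeries K) :
    ddXs K c (x * y) = ddXs K c x * y + x * ddXs K c y := by
  rw [ddXs_apply, ddXs_apply, ddXs_apply, H61.theta_mul]
  ring

theorem ddXs_algebraMap (a : K) : ddXs K c (algebraMap K (LaurentSeries K) a) = 0 := by
  rw [ddXs_apply, H18.theta_algebraMap, zero_div]

include hc hcN in
theorem ddXs_mem (f : FX K N) : ddXs K c (f : LaurentSeries K) ∈ FX K N := by
  have : CharZero (LaurentSeries K) :=
    charZero_of_injective_algebraMap (algebraMap K (LaurentSeries K)).injective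
  refine der_mem (ddXs K c) (ddXs_mul K c) (ddXs_algebraMap K c) (FX K N)
    (XF K c N hc hcN).2 ?_ (fun g hg => isAlgebraic_coe (FX K N) (x := XF K c N hc hcN)
      (f := ⟨g, hg⟩) (isAlgebraic_XF K c N hc hcN ⟨g, hg⟩)) f.2
  rw [coe_XF, ddXs_apply, div_self (theta_Xc_ne_zero c K)]
  exact (FX K N).one_mem

/-- `d/dX` on the function field of level `N`, `c ∣ N`, as an additive map -/
def ddXF : FX K N →+ FX K N where
  toFun f := ⟨ddXs K c (f : LaurentSeries K), ddXs_mem K c N hc hcN f⟩
  map_zero' := Subtype.ext (map_zero _)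
  map_add' _ _ := Subtype.ext (map_add _ _ _)

@[simp] theorem coe_ddXF (f : FX K N) : (ddXF K c N hc hcN f : LaurentSeries K) =
    theta (f : LaurentSeries K) / theta (H1.Xc c K) := rfl

theorem ddXF_mul (x y : FX K N) : ddXF K c N hc hcN (x * y) =
    ddXF K c N hc hcN x * y + x * ddXF K c N hc hcN y :=
  Subtype.ext (ddXs_mul K c _ _)

theorem ddXF_algebraMap (a : K) : ddXF K c N hc hcN (algebraMap K (FX K N) a) = 0 :=
  Subtype.ext (ddXs_algebraMap K c a)

theorem ddXF_XF : ddXF K c N hc hcN (XF K c N hc hcN) = 1 :=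
  Subtype.ext (div_self (theta_Xc_ne_zero c K))

/-- the derivation `d/dX` -/
def derXF : Derivation ℤ (FX K N) (FX K N) :=
  Derivation.mk' (ddXF K c N hc hcN).toIntLinearMap (fun x y => by
    show ddXF K c N hc hcN (x * y) = x • ddXF K c N hc hcN y + y • ddXF K c N hc hcN x
    rw [ddXF_mul, smul_eq_mul, smul_eq_mul]
    ring)

theorem derXF_apply (f : FX K N) : derXF K c N hc hcN f = ddXF K c N hc hcN f := rfl

end DerF

section WDer

variable {K : Type*} [Field K] [Algebra ℚ K] [CharZero K] {c m q : ℕ} [NeZero m] [NeZero q]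
  (hc : c = 4 ∨ c = 9) (hcm : c ∣ m) (w : AL K m q)

theorem W_XF : (w.W (XF K c (m * q) hc (hcm.mul_right q)) : LaurentSeries K) =
    qExpand K q (H1.Xc c K) := by
  have e : XF K c (m * q) hc (hcm.mul_right q) = heckeAlphaBar K m q (XF K c m hc hcm) := by
    apply Subtype.ext
    rw [coe_heckeAlphaBar, coe_XF, coe_XF]
  rw [e, w.alpha, coe_heckeBetaBar, coe_XF]

/-- **Chain rule.** -/
theorem W_der : w.W (ddXF K c (m * q) hc (hcm.mul_right q)
      (w.W (XF K c (m * q) hc (hcm.mul_right q)))) *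
    ddXF K c (m * q) hc (hcm.mul_right q) (w.W (XF K c (m * q) hc (hcm.mul_right q))) = 1 := by
  set D := ddXF K c (m * q) hc (hcm.mul_right q) with hD
  set X := XF K c (m * q) hc (hcm.mul_right q) with hX
  have hchar : CharZero (FX K (m * q)) :=
    charZero_of_injective_algebraMap (algebraMap K (FX K (m * q))).injective
  -- the conjugate derivation
  let D₁ : FX K (m * q) →+ FX K (m * q) :=
    (w.W : FX K (m * q) →+ FX K (m * q)).comp (D.comp (w.W : FX K (m * q) →+ FX K (m * q)))
  have hD₁ : ∀ x, D₁ x = w.W (D (w.W x)) := fun x => rfl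
  let u := D₁ X
  let D₂ : FX K (m * q) →+ FX K (m * q) := (AddMonoidHom.mulLeft u).comp D
  have hD₂ : ∀ x, D₂ x = u * D x := fun x => rfl
  have key := der_eq_of_eq (K := K) D₁ D₂ (fun x y => by
      rw [hD₁, hD₁, hD₁, map_mul, hD, ddXF_mul, map_add, map_mul, map_mul, w.invol, w.invol])
    (fun x y => by
      rw [hD₂, hD₂, hD₂, hD, ddXF_mul]
      ring)
    (fun a => by
      rw [hD₁, AlgEquiv.commutes, hD, ddXF_algebraMap, map_zero])
    (fun a => by
      rw [hD₂, hD, ddXF_algebraMap, mul_zero])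
    (X := X) (by
      rw [hD₂, hD, hX, ddXF_XF, mul_one])
    (isAlgebraic_XF K c (m * q) hc (hcm.mul_right q) (w.W X))
  rw [hD₁, hD₂, w.invol, hD, hX, ddXF_XF, map_one] at key
  exact key.symm

end WDer

end Fermat.Agent.H68
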