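import Mathlib

/-!
# Separation of atoms

A summable family of complex weights `a i` at points `z i` of the unit circle or of the real
interval `[-R, R]` whose moments of large order vanish has no atoms on the unit circle and on the
real points of absolute value `> 1`.  With additional real coordinates `x i k` the atoms are
separated by polynomials in the coordinates.
-/

set_option autoImplicit false
set_option linter.unusedSectionVars false

namespace Fermat.Agent.H69S

open Filter Topology Complex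

section Gen

variable {I : Type*} {a z : I → ℂ} {R : ℝ}

lemma summable_geom_prod (ha : Summable fun i => ‖a i‖) (hz : ∀ i, ‖z i‖ ≤ R) {t : ℂ}
    (ht : R * ‖t‖ < 1) (hR : 0 ≤ R) :
    Summable fun q : I × ℕ => a q.1 * z q.1 ^ q.2 * t ^ q.2 := by
  have hg : Summable fun m : ℕ => (R * ‖t‖) ^ m :=
    summable_geometric_of_lt_one (mul_nonneg hR (norm_nonneg _)) ht
  have h1 := ha.mul_of_nonneg hg (fun i => norm_nonneg _) (fun m => pow_nonneg
    (mul_nonneg hR (norm_nonneg _)) m)
  refine Summable.of_norm_bounded h1 fun q => ?_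
  rw [norm_mul, norm_mul, norm_pow, norm_pow, mul_assoc, mul_pow]
  exact mul_le_mul_of_nonneg_left (mul_le_mul_of_nonneg_right
    (pow_le_pow_left₀ (norm_nonneg _) (hz _) _) (pow_nonneg (norm_nonneg _) _)) (norm_nonneg _)

/-- the generating function near zero -/
lemma gen_eq (ha : Summable fun i => ‖a i‖) (hz : ∀ i, ‖z i‖ ≤ R) (hR : 0 ≤ R) {t : ℂ}
    (ht : R * ‖t‖ < 1) {m₀ : ℕ} (h : ∀ m, m₀ ≤ m → ∑' i, a i * z i ^ m = 0) :
    ∑' i, a i / (1 - z i * t) =
      ∑ m ∈ Finset.range m₀, (∑' i, a i * z i ^ m) * t ^ m := by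
  have hs := summable_geom_prod ha hz ht hR
  have h1 : ∀ i, a i / (1 - z i * t) = ∑' m : ℕ, a i * z i ^ m * t ^ m := by
    intro i
    have h2 : ‖z i * t‖ < 1 := by
      rw [norm_mul]
      exact (mul_le_mul_of_nonneg_right (hz i) (norm_nonneg _)).trans_lt ht
    have h3 := (hasSum_geometric_of_norm_lt_one h2).mul_left (a i)
    rw [div_eq_mul_inv, ← h3.tsum_eq]
    exact tsum_congr fun m => by rw [mul_pow, mul_assoc]
  have hs' : Summable (Function.uncurry fun (m : ℕ) (i : I) => a i * z i ^ m * t ^ m) :=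
    hs.prod_symm
  rw [tsum_congr h1, Summable.tsum_comm hs']
  have h2 : ∀ m : ℕ, ∑' i, a i * z i ^ m * t ^ m = (∑' i, a i * z i ^ m) * t ^ m := fun m =>
    tsum_mul_right
  rw [tsum_congr h2]
  refine tsum_eq_sum fun m hm => ?_
  rw [Finset.mem_range, not_lt] at hm
  rw [h m hm, zero_mul]

/-- identity theorem for generating functions -/
lemma gen_eq_of_bound (ha : Summable fun i => ‖a i‖) (hz : ∀ i, ‖z i‖ ≤ R) (hR : 0 < R) {m₀ : ℕ}
    (h : ∀ m, m₀ ≤ m → ∑' i, a i * z i ^ m = 0) {U : Set ℂ} (hU : IsOpen U)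
    (hc : IsPreconnected U) {c : ℝ} (hc0 : 0 < c) (hb : ∀ i, ∀ t ∈ U, c ≤ ‖1 - z i * t‖)
    {t₁ : ℂ} (ht₁ : t₁ ∈ U) (hs : R * ‖t₁‖ < 1) {t : ℂ} (ht : t ∈ U) :
    ∑' i, a i / (1 - z i * t) =
      ∑ m ∈ Finset.range m₀, (∑' i, a i * z i ^ m) * t ^ m := by
  have hd : DifferentiableOn ℂ (fun t => ∑' i, a i / (1 - z i * t)) U := by
    refine differentiableOn_tsum_of_summable_norm (u := fun i => ‖a i‖ * c⁻¹)
      (ha.mul_right _) (fun i => ?_) hU fun i w hw => ?_
    · refine DifferentiableOn.div (differentiableOn_const _) ?_ fun w hw h0 => ?_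
      · exact (differentiableOn_const _).sub ((differentiableOn_const _).mul differentiableOn_id)
      · have h1 := hb i w hw
        rw [h0, norm_zero] at h1
        exact absurd h1 (not_le.mpr hc0)
    · rw [norm_div, div_eq_mul_inv]
      exact mul_le_mul_of_nonneg_left (inv_anti₀ hc0 (hb i w hw)) (norm_nonneg _)
  have hp : DifferentiableOn ℂ
      (fun t => ∑ m ∈ Finset.range m₀, (∑' i, a i * z i ^ m) * t ^ m) U := by
    refine DifferentiableOn.fun_sum fun m _ => ?_
    exact (differentiableOn_const _).mul (differentiableOn_pow m)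
  refine (hd.analyticOnNhd hU).eqOn_of_preconnected_of_eventuallyEq (hp.analyticOnNhd hU) hc ht₁
    ?_ ht
  have hopen : IsOpen {t : ℂ | R * ‖t‖ < 1} :=
    isOpen_lt (continuous_const.mul continuous_norm) continuous_const
  filter_upwards [hopen.mem_nhds hs] with t ht'
  exact gen_eq ha hz hR.le ht' h

end Gen

section Real

variable {I : Type*} {a z : I → ℂ} {R : ℝ}

/-- the generating function in the upper half disc -/
lemma gen_eq_upper (ha : Summable fun i => ‖a i‖) (hR : 1 ≤ R)
    (hz : ∀ i, ‖z i‖ = 1 ∨ ((z i).im = 0 ∧ ‖z i‖ ≤ R)) {m₀ : ℕ}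
    (h : ∀ m, m₀ ≤ m → ∑' i, a i * z i ^ m = 0) {t : ℂ} (ht1 : ‖t‖ < 1) (ht : 0 < t.im) :
    ∑' i, a i / (1 - z i * t) =
      ∑ m ∈ Finset.range m₀, (∑' i, a i * z i ^ m) * t ^ m := by
  have hz' : ∀ i, ‖z i‖ ≤ R := fun i => by
    rcases hz i with h | h
    · exact h.trans_le hR
    · exact h.2
  obtain ⟨r, hr1, hr2⟩ := exists_between ht1
  have hR0 : 0 < R := zero_lt_one.trans_le hR
  set δ : ℝ := min (t.im / 2) (1 / (4 * R)) with hδ
  have hδ0 : 0 < δ := lt_min (half_pos ht) (by positivity)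
  have hδt : δ < t.im := (min_le_left _ _).trans_lt (half_lt_self ht)
  have hδR : δ ≤ 1 / (4 * R) := min_le_right _ _
  have hr0 : 0 < r := (norm_nonneg t).trans_lt hr1
  -- the test point
  set r' : ℝ := min r (1 / (2 * R)) with hr'
  let U : Set ℂ := Metric.ball 0 (max r (1 / 2)) ∩ {t | δ < t.im}
  set r'' : ℝ := max r (1 / 2) with hr''
  have hr''1 : r'' < 1 := max_lt hr2 (by norm_num)
  have hU : IsOpen U := Metric.isOpen_ball.inter
    (isOpen_lt continuous_const Complex.continuous_im)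
  have hconv : Convex ℝ U := (convex_ball _ _).inter (convex_halfSpace_im_gt δ)
  set t₁ : ℂ := ((1 / (3 * R) : ℝ) : ℂ) * Complex.I with ht₁
  have hnt₁ : ‖t₁‖ = 1 / (3 * R) := by
    rw [ht₁, norm_mul, Complex.norm_I, mul_one, Complex.norm_real, Real.norm_of_nonneg]
    positivity
  have hm : t₁ ∈ U := by
    constructor
    · rw [mem_ball_zero_iff, hnt₁]
      refine lt_max_of_lt_right ?_
      rw [div_lt_div_iff₀ (by positivity) (by norm_num)]
      nlinarith
    · have h1 : t₁.im = 1 / (3 * R) := by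
        rw [ht₁, Complex.mul_I_im, Complex.ofReal_re]
      change δ < t₁.im
      rw [h1]
      refine hδR.trans_lt ?_
      rw [div_lt_div_iff₀ (by positivity) (by positivity)]
      nlinarith
  refine gen_eq_of_bound ha hz' hR0 h hU hconv.isPreconnected
    (c := min (1 - r'') (δ / 2)) (lt_min (by linarith) (half_pos hδ0)) ?_ hm ?_ ?_
  · rintro i w ⟨hw1, hw2⟩
    rw [mem_ball_zero_iff] at hw1
    change δ < w.im at hw2
    by_cases hi : ‖z i‖ ≤ 1
    · refine (min_le_left _ _).trans ?_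
      have h1 : ‖z i * w‖ ≤ r'' := by
        rw [norm_mul]
        calc ‖z i‖ * ‖w‖ ≤ 1 * r'' := mul_le_mul hi hw1.le (norm_nonneg _) zero_le_one
          _ = r'' := one_mul _
      have h2 : ‖(1 : ℂ)‖ - ‖z i * w‖ ≤ ‖1 - z i * w‖ := norm_sub_norm_le _ _
      rw [norm_one] at h2
      linarith
    · refine (min_le_right _ _).trans ?_
      rcases hz i with h' | ⟨h', -⟩
      · exact absurd h'.le hi
      · have h1 : |(1 - z i * w).im| ≤ ‖1 - z i * w‖ := Complex.abs_im_le_norm _
        have h3 : z i = ((z i).re : ℂ) := Complex.ext rfl (by rw [h', Complex.ofReal_im])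
        have h4 : ‖z i‖ = |(z i).re| := by
          conv_lhs => rw [h3]
          rw [Complex.norm_real, Real.norm_eq_abs]
        have h5 : (1 - z i * w).im = -((z i).re * w.im) := by
          rw [Complex.sub_im, Complex.one_im, Complex.mul_im, h']
          ring
        rw [h5, abs_neg, abs_mul, ← h4] at h1
        push Not at hi
        have h6 : |w.im| = w.im := abs_of_pos (hδ0.trans hw2)
        rw [h6] at h1
        nlinarith
  · rw [hnt₁]
    have : R * (1 / (3 * R)) = 1 / 3 := by field_simp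
    rw [this]
    norm_num
  · exact ⟨by rw [mem_ball_zero_iff]; exact hr1.trans_le (le_max_left _ _), hδt⟩

/-- **No real atoms of absolute value `> 1`.** -/
theorem atom_real (ha : Summable fun i => ‖a i‖) (hR : 1 ≤ R)
    (hz : ∀ i, ‖z i‖ = 1 ∨ ((z i).im = 0 ∧ ‖z i‖ ≤ R)) {m₀ : ℕ}
    (h : ∀ m, m₀ ≤ m → ∑' i, a i * z i ^ m = 0) {x₀ : ℝ} (hx₀ : 1 < |x₀|) :
    ∑' i : I, (if z i = x₀ then a i else 0) = 0 := by
  classical
  have hx0 : x₀ ≠ 0 := fun h => by rw [h, abs_zero] at hx₀; exact absurd hx₀ (by norm_num)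
  have hx0' : (x₀ : ℂ) ≠ 0 := Complex.ofReal_ne_zero.mpr hx0
  set ε₀ : ℝ := (1 - |x₀|⁻¹) / 2 with hε₀
  have hinv : |x₀|⁻¹ < 1 := inv_lt_one_of_one_lt₀ hx₀
  have hε₀0 : 0 < ε₀ := by
    rw [hε₀]
    linarith
  let t : ℝ → ℂ := fun ε => (x₀ : ℂ)⁻¹ + ε * Complex.I
  have htn : ∀ ε, 0 < ε → ε < ε₀ → ‖t ε‖ ≤ 1 - ε₀ := by
    intro ε h1 h2
    have h3 : ‖t ε‖ ≤ ‖(x₀ : ℂ)⁻¹‖ + ‖(ε : ℂ) * Complex.I‖ := norm_add_le _ _
    rw [norm_inv, norm_mul, Complex.norm_I, mul_one, Complex.norm_real, Complex.norm_real,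
      Real.norm_eq_abs, Real.norm_eq_abs, abs_of_pos h1] at h3
    have : |x₀|⁻¹ = 1 - 2 * ε₀ := by rw [hε₀]; ring
    linarith
  have htim : ∀ ε, (t ε).im = ε := by
    intro ε
    simp only [t, Complex.add_im, Complex.mul_I_im, Complex.ofReal_re]
    rw [← Complex.ofReal_inv, Complex.ofReal_im, zero_add]
  have hnum : ∀ ε : ℝ, 1 - (x₀ : ℂ) * t ε = -(x₀ * ε * Complex.I) := by
    intro ε
    simp only [t]
    rw [mul_add, mul_inv_cancel₀ hx0']
    ring
  -- pass to the limit
  have hpos : ∀ᶠ ε : ℝ in 𝓝[>] 0, 0 < ε ∧ ε < ε₀ := by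
    filter_upwards [Ioo_mem_nhdsGT hε₀0] with ε hε
    exact hε
  set B : ℝ := max (max (2 * |x₀|) (2 * (|x₀| * ε₀))) ((|x₀| * ε₀) * ε₀⁻¹) with hB
  have key : Tendsto (fun ε : ℝ => ∑' i, a i * ((1 - (x₀ : ℂ) * t ε) / (1 - z i * t ε)))
      (𝓝[>] 0) (𝓝 (∑' i : I, (if z i = x₀ then a i else 0))) := by
    refine tendsto_tsum_of_dominated_convergence (bound := fun i => ‖a i‖ * B) (ha.mul_right _)
      (fun i => ?_) ?_
    · by_cases hi : z i = x₀
      · rw [if_pos hi, hi]
        refine tendsto_const_nhds.congr' ?_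
        filter_upwards [hpos] with ε hε
        have h1 : (1 : ℂ) - x₀ * t ε ≠ 0 := by
          rw [hnum]
          exact neg_ne_zero.mpr (mul_ne_zero (mul_ne_zero hx0'
            (Complex.ofReal_ne_zero.mpr hε.1.ne')) Complex.I_ne_zero)
        rw [div_self h1, mul_one]
      · rw [if_neg hi]
        have h1 : Tendsto (fun ε : ℝ => (1 - (x₀ : ℂ) * t ε)) (𝓝 0) (𝓝 (1 - (x₀ : ℂ) * t 0)) := by
          refine Continuous.tendsto ?_ _
          simp only [t]
          fun_prop
        have h2 : Tendsto (fun ε : ℝ => (1 - z i * t ε)) (𝓝 0) (𝓝 (1 - z i * t 0)) := by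
          refine Continuous.tendsto ?_ _
          simp only [t]
          fun_prop
        have h3 : (1 : ℂ) - z i * t 0 ≠ 0 := by
          simp only [t]
          rw [Complex.ofReal_zero, zero_mul, add_zero]
          intro h4
          apply hi
          have h5 : z i * (x₀ : ℂ)⁻¹ = 1 := (sub_eq_zero.mp h4).symm
          field_simp at h5
          exact h5
        have h4 : Tendsto (fun ε : ℝ => a i * ((1 - (x₀ : ℂ) * t ε) / (1 - z i * t ε))) (𝓝 0)
            (𝓝 (a i * ((1 - (x₀ : ℂ) * t 0) / (1 - z i * t 0)))) :=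
          (h1.div h2 h3).const_mul _
        have h5 : (1 - (x₀ : ℂ) * t 0) = 0 := by
          rw [hnum]
          simp
        rw [h5, zero_div, mul_zero] at h4
        exact h4.mono_left nhdsWithin_le_nhds
    · filter_upwards [hpos] with ε hε i
      rw [norm_mul]
      refine mul_le_mul_of_nonneg_left ?_ (norm_nonneg _)
      have hn : ‖1 - (x₀ : ℂ) * t ε‖ = |x₀| * ε := by
        rw [hnum, norm_neg, norm_mul, norm_mul, Complex.norm_I, mul_one, Complex.norm_real,
          Complex.norm_real, Real.norm_eq_abs, Real.norm_eq_abs, abs_of_pos hε.1]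
      have htε := htn ε hε.1 hε.2
      rw [norm_div, hn]
      have hx0p : 0 < |x₀| := abs_pos.mpr hx0
      have hBpos : 0 ≤ B := by
        rw [hB]
        exact le_max_of_le_left (le_max_of_le_left (by positivity))
      rcases hz i with h' | ⟨h', -⟩
      · -- on the circle
        have h1 : ε₀ ≤ ‖1 - z i * t ε‖ := by
          have h2 : ‖(1 : ℂ)‖ - ‖z i * t ε‖ ≤ ‖1 - z i * t ε‖ := norm_sub_norm_le _ _
          rw [norm_one, norm_mul, h', one_mul] at h2
          linarith
        rw [div_eq_mul_inv]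
        calc |x₀| * ε * ‖1 - z i * t ε‖⁻¹ ≤ (|x₀| * ε₀) * ε₀⁻¹ :=
              mul_le_mul (mul_le_mul_of_nonneg_left hε.2.le hx0p.le) (inv_anti₀ hε₀0 h1)
                (inv_nonneg.mpr (norm_nonneg _)) (by positivity)
          _ ≤ B := le_max_right _ _
      · have h3 : z i = ((z i).re : ℂ) := Complex.ext rfl (by rw [h', Complex.ofReal_im])
        have h4 : ‖z i‖ = |(z i).re| := by
          conv_lhs => rw [h3]
          rw [Complex.norm_real, Real.norm_eq_abs]
        by_cases hsm : ‖z i‖ ≤ 1 / 2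
        · have h1 : (1 : ℝ) / 2 ≤ ‖1 - z i * t ε‖ := by
            have h2 : ‖(1 : ℂ)‖ - ‖z i * t ε‖ ≤ ‖1 - z i * t ε‖ := norm_sub_norm_le _ _
            rw [norm_one, norm_mul] at h2
            have h5 : ‖z i‖ * ‖t ε‖ ≤ 1 / 2 * 1 :=
              mul_le_mul hsm (by linarith) (norm_nonneg _) (by norm_num)
            linarith
          rw [div_eq_mul_inv]
          calc |x₀| * ε * ‖1 - z i * t ε‖⁻¹ ≤ (|x₀| * ε₀) * (1 / 2)⁻¹ :=
                mul_le_mul (mul_le_mul_of_nonneg_left hε.2.le hx0p.le)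
                  (inv_anti₀ (by norm_num) h1)
                  (inv_nonneg.mpr (norm_nonneg _)) (by positivity)
            _ = 2 * (|x₀| * ε₀) := by ring
            _ ≤ B := le_max_of_le_left (le_max_right _ _)
        · push Not at hsm
          have h1 : |(1 - z i * t ε).im| ≤ ‖1 - z i * t ε‖ := Complex.abs_im_le_norm _
          have h5 : (1 - z i * t ε).im = -((z i).re * ε) := by
            rw [Complex.sub_im, Complex.one_im, Complex.mul_im, h', htim]
            ring
          rw [h5, abs_neg, abs_mul, ← h4, abs_of_pos hε.1] at h1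
          have h6 : 1 / 2 * ε ≤ ‖1 - z i * t ε‖ :=
            (mul_le_mul_of_nonneg_right hsm.le hε.1.le).trans h1
          rw [div_eq_mul_inv]
          calc |x₀| * ε * ‖1 - z i * t ε‖⁻¹ ≤ |x₀| * ε * (1 / 2 * ε)⁻¹ :=
                mul_le_mul_of_nonneg_left (inv_anti₀ (by have := hε.1; positivity) h6)
                  (by have := hε.1; positivity)
            _ = 2 * |x₀| := by
                have := hε.1.ne'
                field_simp
            _ ≤ B := le_max_of_le_left (le_max_left _ _)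
  have key2 : Tendsto (fun ε : ℝ => ∑' i, a i * ((1 - (x₀ : ℂ) * t ε) / (1 - z i * t ε)))
      (𝓝[>] 0) (𝓝 0) := by
    have h1 : Tendsto (fun ε : ℝ => (1 - (x₀ : ℂ) * t ε) *
        ∑ m ∈ Finset.range m₀, (∑' i, a i * z i ^ m) * t ε ^ m) (𝓝 0)
        (𝓝 ((1 - (x₀ : ℂ) * t 0) *
          ∑ m ∈ Finset.range m₀, (∑' i, a i * z i ^ m) * t 0 ^ m)) := by
      refine Continuous.tendsto ?_ _
      simp only [t]
      fun_prop
    have h2 : (1 - (x₀ : ℂ) * t 0) = 0 := by
      rw [hnum]
      simp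
    rw [h2, zero_mul] at h1
    refine (h1.mono_left nhdsWithin_le_nhds).congr' ?_
    filter_upwards [hpos] with ε hε
    rw [← gen_eq_upper ha hR hz h ((htn ε hε.1 hε.2).trans_lt (by linarith))
      (by rw [htim]; exact hε.1), ← tsum_mul_left]
    exact tsum_congr fun i => by ring
  exact tendsto_nhds_unique key key2

/-- regrouping along the fibres of `z`: if the fibre sums at the points of `P` vanish, then all
weighted sums over the points of `P` vanish -/
lemma tsum_fibre_zero (ha : Summable fun i => ‖a i‖) (P : ℂ → Prop) [DecidablePred P]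
    (hP : ∀ w, P w → ∑' i, (if z i = w then a i else 0) = 0) (f : ℂ → ℂ) {B : ℝ}
    (hf : ∀ i, P (z i) → ‖f (z i)‖ ≤ B) :
    ∑' i, (if P (z i) then a i * f (z i) else 0) = 0 := by
  classical
  set g : I → ℂ := fun i => if P (z i) then a i * f (z i) else 0 with hg
  have hgs : Summable g := by
    refine Summable.of_norm_bounded (ha.mul_right |B|) fun i => ?_
    rw [hg]
    dsimp only
    split_ifs with h
    · rw [norm_mul]
      exact mul_le_mul_of_nonneg_left ((hf i h).trans (le_abs_self _)) (norm_nonneg _)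
    · rw [norm_zero]
      positivity
  have h1 := hgs.hasSum.tsum_fiberwise z
  have h2 : (fun w : ℂ => ∑' b : z ⁻¹' {w}, g b) = fun _ => 0 := by
    funext w
    rw [tsum_subtype (z ⁻¹' {w}) g]
    by_cases hw : P w
    · have h3 : (fun i => (z ⁻¹' {w}).indicator g i) =
          fun i => (if z i = w then a i else 0) * f w := by
        funext i
        by_cases hi : z i = w
        · rw [Set.indicator_of_mem (show i ∈ z ⁻¹' {w} from hi), if_pos hi, hg]
          dsimp only
          rw [hi, if_pos hw]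
        · rw [Set.indicator_of_notMem (show i ∉ z ⁻¹' {w} from hi), if_neg hi, zero_mul]
      rw [h3, tsum_mul_right, hP w hw, zero_mul]
    · have h3 : (fun i => (z ⁻¹' {w}).indicator g i) = fun _ => 0 := by
        funext i
        by_cases hi : z i = w
        · rw [Set.indicator_of_mem (show i ∈ z ⁻¹' {w} from hi), hg]
          dsimp only
          rw [hi, if_neg hw]
        · rw [Set.indicator_of_notMem (show i ∉ z ⁻¹' {w} from hi)]
      rw [h3, tsum_zero]
  rw [h2] at h1
  exact h1.unique hasSum_zero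

lemma summable_ite_norm (ha : Summable fun i => ‖a i‖) (Q : I → Prop) [DecidablePred Q] :
    Summable fun i => ‖(if Q i then a i else 0)‖ := by
  refine Summable.of_nonneg_of_le (fun i => norm_nonneg _) (fun i => ?_) ha
  split_ifs
  · exact le_rfl
  · rw [norm_zero]
    exact norm_nonneg _

/-- the moments of the part inside the closed unit disc -/
lemma moments_inner (ha : Summable fun i => ‖a i‖) (hR : 1 ≤ R)
    (hz : ∀ i, ‖z i‖ = 1 ∨ ((z i).im = 0 ∧ ‖z i‖ ≤ R)) {m₀ : ℕ}
    (h : ∀ m, m₀ ≤ m → ∑' i, a i * z i ^ m = 0) {m : ℕ} (hm : m₀ ≤ m) :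
    ∑' i, (if ‖z i‖ ≤ 1 then a i else 0) * z i ^ m = 0 := by
  classical
  have hz' : ∀ i, ‖z i‖ ≤ R := fun i => by
    rcases hz i with h | h
    · exact h.trans_le hR
    · exact h.2
  have h1 := tsum_fibre_zero (z := z) ha (fun w => 1 < ‖w‖ ∧ w.im = 0) (fun w hw => by
    have h2 : w = ((w.re : ℝ) : ℂ) := Complex.ext rfl (by rw [hw.2, Complex.ofReal_im])
    rw [h2]
    refine atom_real ha hR hz h ?_
    have h3 := hw.1
    rw [h2, Complex.norm_real, Real.norm_eq_abs] at h3
    exact h3) (fun w => w ^ m) (B := R ^ m) (fun i _ => by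
      rw [norm_pow]
      exact pow_le_pow_left₀ (norm_nonneg _) (hz' i) _)
  have h2 := h m hm
  have hs1 : Summable fun i => (if ‖z i‖ ≤ 1 then a i else 0) * z i ^ m := by
    refine Summable.of_norm_bounded (ha.mul_right (R ^ m)) fun i => ?_
    rw [norm_mul, norm_pow]
    refine mul_le_mul ?_ (pow_le_pow_left₀ (norm_nonneg _) (hz' i) _)
      (pow_nonneg (norm_nonneg _) _) (norm_nonneg _)
    split_ifs
    · exact le_rfl
    · rw [norm_zero]
      exact norm_nonneg _
  have hs2 : Summable fun i => (if 1 < ‖z i‖ ∧ (z i).im = 0 then a i * z i ^ m else 0) := by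
    refine Summable.of_norm_bounded (ha.mul_right (R ^ m)) fun i => ?_
    split_ifs
    · rw [norm_mul, norm_pow]
      exact mul_le_mul_of_nonneg_left (pow_le_pow_left₀ (norm_nonneg _) (hz' i) _)
        (norm_nonneg _)
    · rw [norm_zero]
      have := norm_nonneg (a i)
      positivity
  have h3 : ∀ i, a i * z i ^ m = (if ‖z i‖ ≤ 1 then a i else 0) * z i ^ m +
      (if 1 < ‖z i‖ ∧ (z i).im = 0 then a i * z i ^ m else 0) := by
    intro i
    by_cases hi : ‖z i‖ ≤ 1
    · rw [if_pos hi, if_neg (fun h => absurd h.1 (not_lt.mpr hi)), add_zero]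
    · rw [if_neg hi, zero_mul, zero_add, if_pos]
      refine ⟨not_le.mp hi, ?_⟩
      rcases hz i with h' | h'
      · exact absurd h'.le hi
      · exact h'.1
  rw [tsum_congr h3, hs1.tsum_add hs2, h1, add_zero] at h2
  exact h2

/-- **No atoms on the unit circle.** -/
theorem atom_circle (ha : Summable fun i => ‖a i‖) (hR : 1 ≤ R)
    (hz : ∀ i, ‖z i‖ = 1 ∨ ((z i).im = 0 ∧ ‖z i‖ ≤ R)) {m₀ : ℕ}
    (h : ∀ m, m₀ ≤ m → ∑' i, a i * z i ^ m = 0) {z₀ : ℂ} (hz₀ : ‖z₀‖ = 1) :
    ∑' i : I, (if z i = z₀ then a i else 0) = 0 := by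
  classical
  have hz0' : z₀ ≠ 0 := fun h => by rw [h, norm_zero] at hz₀; exact absurd hz₀ (by norm_num)
  set b : I → ℂ := fun i => if ‖z i‖ ≤ 1 then a i else 0 with hb
  set y : I → ℂ := fun i => if ‖z i‖ ≤ 1 then z i else 0 with hy
  have hbs : Summable fun i => ‖b i‖ := summable_ite_norm ha _
  have hy1 : ∀ i, ‖y i‖ ≤ 1 := by
    intro i
    rw [hy]
    dsimp only
    split_ifs with h
    · exact h
    · rw [norm_zero]
      exact zero_le_one
  have hmom : ∀ m, m₀ ≤ m → ∑' i, b i * y i ^ m = 0 := by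
    intro m hm
    rw [← moments_inner ha hR hz h hm]
    refine tsum_congr fun i => ?_
    rw [hb, hy]
    dsimp only
    split_ifs
    · rfl
    · rw [zero_mul, zero_mul]
  have hgoal : ∀ i, (if z i = z₀ then a i else 0) = (if y i = z₀ then b i else 0) := by
    intro i
    by_cases hi : ‖z i‖ ≤ 1
    · have e1 : y i = z i := if_pos hi
      have e2 : b i = a i := if_pos hi
      by_cases hzi : z i = z₀
      · rw [if_pos hzi, if_pos (e1.trans hzi), e2]
      · rw [if_neg hzi, if_neg (fun h => hzi (e1.symm.trans h))]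
    · have e1 : y i = 0 := if_neg hi
      rw [if_neg (fun h : z i = z₀ => hi (h ▸ hz₀.le)),
        if_neg (fun h : y i = z₀ => hz0' (h.symm.trans e1))]
  rw [tsum_congr hgoal]
  have hconj : z₀ * starRingEnd ℂ z₀ = 1 := by
    rw [Complex.mul_conj, Complex.normSq_eq_norm_sq, hz₀]
    simp
  set t : ℝ → ℂ := fun r => (r : ℂ) * starRingEnd ℂ z₀ with ht
  have htn : ∀ r, 0 ≤ r → ‖t r‖ = r := by
    intro r hr
    rw [ht]
    dsimp only
    rw [norm_mul, Complex.norm_real, RCLike.norm_conj, hz₀, mul_one, Real.norm_of_nonneg hr]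
  have hnum : ∀ r : ℝ, 1 - z₀ * t r = ((1 - r : ℝ) : ℂ) := by
    intro r
    rw [ht]
    dsimp only
    rw [mul_left_comm, hconj, mul_one]
    push_cast
    ring
  have hpos : ∀ᶠ r : ℝ in 𝓝[<] 1, 0 < r ∧ r < 1 := by
    filter_upwards [Ioo_mem_nhdsLT (show (0 : ℝ) < 1 by norm_num)] with r hr
    exact hr
  have key : Tendsto (fun r : ℝ => ∑' i, b i * ((1 - z₀ * t r) / (1 - y i * t r)))
      (𝓝[<] 1) (𝓝 (∑' i : I, (if y i = z₀ then b i else 0))) := by
    refine tendsto_tsum_of_dominated_convergence (bound := fun i => ‖b i‖) hbs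
      (fun i => ?_) ?_
    · by_cases hi : y i = z₀
      · rw [if_pos hi, hi]
        refine tendsto_const_nhds.congr' ?_
        filter_upwards [hpos] with r hr
        have h1 : (1 : ℂ) - z₀ * t r ≠ 0 := by
          rw [hnum]
          exact Complex.ofReal_ne_zero.mpr (by linarith [hr.2])
        rw [div_self h1, mul_one]
      · rw [if_neg hi]
        have h1 : Tendsto (fun r : ℝ => (1 - z₀ * t r)) (𝓝 1) (𝓝 (1 - z₀ * t 1)) := by
          refine Continuous.tendsto ?_ _
          simp only [ht]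
          fun_prop
        have h2 : Tendsto (fun r : ℝ => (1 - y i * t r)) (𝓝 1) (𝓝 (1 - y i * t 1)) := by
          refine Continuous.tendsto ?_ _
          simp only [ht]
          fun_prop
        have h3 : (1 : ℂ) - y i * t 1 ≠ 0 := by
          intro h4
          apply hi
          have h5 : y i * t 1 = 1 := (sub_eq_zero.mp h4).symm
          have h6 : t 1 = starRingEnd ℂ z₀ := by
            rw [ht]
            dsimp only
            rw [Complex.ofReal_one, one_mul]
          rw [h6] at h5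
          calc y i = y i * (z₀ * starRingEnd ℂ z₀) := by rw [hconj, mul_one]
            _ = (y i * starRingEnd ℂ z₀) * z₀ := by ring
            _ = z₀ := by rw [h5, one_mul]
        have h4 : Tendsto (fun r : ℝ => b i * ((1 - z₀ * t r) / (1 - y i * t r))) (𝓝 1)
            (𝓝 (b i * ((1 - z₀ * t 1) / (1 - y i * t 1)))) :=
          (h1.div h2 h3).const_mul _
        have h5 : (1 - z₀ * t 1) = 0 := by
          rw [hnum]
          simp
        rw [h5, zero_div, mul_zero] at h4
        exact h4.mono_left nhdsWithin_le_nhds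
    · filter_upwards [hpos] with r hr i
      rw [norm_mul]
      have h1 : (0 : ℝ) < 1 - r := by linarith [hr.2]
      have hn : ‖1 - z₀ * t r‖ = 1 - r := by
        rw [hnum, Complex.norm_real, Real.norm_of_nonneg h1.le]
      have h2 : 1 - r ≤ ‖1 - y i * t r‖ := by
        have h3 : ‖(1 : ℂ)‖ - ‖y i * t r‖ ≤ ‖1 - y i * t r‖ := norm_sub_norm_le _ _
        rw [norm_one, norm_mul, htn r hr.1.le] at h3
        have h4 : ‖y i‖ * r ≤ 1 * r := mul_le_mul_of_nonneg_right (hy1 i) hr.1.le
        linarith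
      have h3 : ‖(1 - z₀ * t r) / (1 - y i * t r)‖ ≤ 1 := by
        rw [norm_div, hn]
        exact div_le_one_of_le₀ h2 (norm_nonneg _)
      calc ‖b i‖ * ‖(1 - z₀ * t r) / (1 - y i * t r)‖ ≤ ‖b i‖ * 1 :=
            mul_le_mul_of_nonneg_left h3 (norm_nonneg _)
        _ = ‖b i‖ := mul_one _
  have key2 : Tendsto (fun r : ℝ => ∑' i, b i * ((1 - z₀ * t r) / (1 - y i * t r)))
      (𝓝[<] 1) (𝓝 0) := by
    have h1 : Tendsto (fun r : ℝ => (1 - z₀ * t r) *
        ∑ m ∈ Finset.range m₀, (∑' i, b i * y i ^ m) * t r ^ m) (𝓝 1)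
        (𝓝 ((1 - z₀ * t 1) *
          ∑ m ∈ Finset.range m₀, (∑' i, b i * y i ^ m) * t 1 ^ m)) := by
      refine Continuous.tendsto ?_ _
      simp only [ht]
      fun_prop
    have h2 : (1 - z₀ * t 1) = 0 := by
      rw [hnum]
      simp
    rw [h2, zero_mul] at h1
    refine (h1.mono_left nhdsWithin_le_nhds).congr' ?_
    filter_upwards [hpos] with r hr
    rw [← gen_eq hbs hy1 zero_le_one (by rw [one_mul, htn r hr.1.le]; exact hr.2) hmom,
      ← tsum_mul_left]
    exact tsum_congr fun i => by ring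
  exact tendsto_nhds_unique key key2

/-- **Separation of the points** (package C10): for every nonzero point. -/
theorem atom_eq_zero (ha : Summable fun i => ‖a i‖) (hR : 1 ≤ R)
    (hz : ∀ i, ‖z i‖ = 1 ∨ ((z i).im = 0 ∧ ‖z i‖ ≤ R)) {m₀ : ℕ}
    (h : ∀ m, m₀ ≤ m → ∑' i, a i * z i ^ m = 0) {z₀ : ℂ} (hz₀ : z₀ ≠ 0) :
    ∑' i : I, (if z i = z₀ then a i else 0) = 0 := by
  classical
  by_cases h1 : ‖z₀‖ = 1
  · exact atom_circle ha hR hz h h1
  by_cases him : z₀.im = 0
  swap
  · -- there is no such point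
    have h2 : ∀ i, (if z i = z₀ then a i else 0) = 0 := by
      intro i
      refine if_neg fun hi => ?_
      rcases hz i with h' | h'
      · exact h1 (hi ▸ h')
      · exact him (hi ▸ h'.1)
    rw [tsum_congr h2, tsum_zero]
  have h2 : z₀ = ((z₀.re : ℝ) : ℂ) := Complex.ext rfl (by rw [him, Complex.ofReal_im])
  have h2' : ‖z₀‖ = |z₀.re| := by
    conv_lhs => rw [h2]
    rw [Complex.norm_real, Real.norm_eq_abs]
  by_cases h3 : 1 < ‖z₀‖
  · rw [h2]
    exact atom_real ha hR hz h (h2' ▸ h3)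
  have hlt : ‖z₀‖ < 1 := lt_of_le_of_ne (not_lt.mp h3) h1
  -- the inner part: kill the circle and rescale
  set b : I → ℂ := fun i => if ‖z i‖ < 1 then a i else 0 with hb
  have hbs : Summable fun i => ‖b i‖ := summable_ite_norm ha _
  have hz' : ∀ i, ‖z i‖ ≤ R := fun i => by
    rcases hz i with h | h
    · exact h.trans_le hR
    · exact h.2
  have hmom : ∀ m, m₀ ≤ m → ∑' i, b i * z i ^ m = 0 := by
    intro m hm
    have h4 := tsum_fibre_zero (z := z) ha (fun w => ‖w‖ = 1) (fun w hw =>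
      atom_circle ha hR hz h hw) (fun w => w ^ m) (B := 1) (fun i hi => by
        rw [norm_pow, hi, one_pow])
    have h5 := moments_inner ha hR hz h hm
    have hs1 : Summable fun i => b i * z i ^ m := by
      refine Summable.of_norm_bounded (hbs.mul_right (R ^ m)) fun i => ?_
      rw [norm_mul, norm_pow]
      exact mul_le_mul_of_nonneg_left (pow_le_pow_left₀ (norm_nonneg _) (hz' i) _)
        (norm_nonneg _)
    have hs2 : Summable fun i => (if ‖z i‖ = 1 then a i * z i ^ m else 0) := by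
      refine Summable.of_norm_bounded ha fun i => ?_
      split_ifs with hi
      · rw [norm_mul, norm_pow, hi, one_pow, mul_one]
      · rw [norm_zero]
        exact norm_nonneg _
    have h6 : ∀ i, (if ‖z i‖ ≤ 1 then a i else 0) * z i ^ m = b i * z i ^ m +
        (if ‖z i‖ = 1 then a i * z i ^ m else 0) := by
      intro i
      rw [hb]
      dsimp only
      by_cases hi : ‖z i‖ < 1
      · rw [if_pos hi.le, if_pos hi, if_neg hi.ne, add_zero]
      · by_cases hi' : ‖z i‖ = 1
        · rw [if_pos hi'.le, if_neg hi, if_pos hi', zero_mul, zero_add]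
        · rw [if_neg (fun h => hi (lt_of_le_of_ne h hi')), if_neg hi, if_neg hi', zero_mul,
            zero_add]
    rw [tsum_congr h6, hs1.tsum_add hs2, h4, add_zero] at h5
    exact h5
  set ρ : ℝ := ‖z₀‖ / 2 with hρ
  have hρ0 : 0 < ρ := half_pos (norm_pos_iff.mpr hz₀)
  have hρ0' : (ρ : ℂ) ≠ 0 := Complex.ofReal_ne_zero.mpr hρ0.ne'
  set y : I → ℂ := fun i => if ‖z i‖ < 1 then z i / ρ else 0 with hy
  have hρ1 : 1 ≤ 1 / ρ := by
    rw [le_div_iff₀ hρ0, one_mul]
    linarith
  have hy' : ∀ i, ‖y i‖ = 1 ∨ ((y i).im = 0 ∧ ‖y i‖ ≤ 1 / ρ) := by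
    intro i
    right
    rw [hy]
    dsimp only
    split_ifs with hi
    · rcases hz i with h' | h'
      · exact absurd h' hi.ne
      · constructor
        · rw [Complex.div_ofReal_im, h'.1, zero_div]
        · rw [norm_div, Complex.norm_real, Real.norm_of_nonneg hρ0.le]
          exact div_le_div_of_nonneg_right hi.le hρ0.le
    · rw [norm_zero]
      exact ⟨Complex.zero_im, by positivity⟩
  have hmom' : ∀ m, m₀ ≤ m → ∑' i, b i * y i ^ m = 0 := by
    intro m hm
    have h4 : ∀ i, b i * y i ^ m = (b i * z i ^ m) * ((ρ : ℂ) ^ m)⁻¹ := by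
      intro i
      rw [hb, hy]
      dsimp only
      split_ifs
      · rw [div_pow]
        ring
      · rw [zero_mul, zero_mul, zero_mul]
    rw [tsum_congr h4, tsum_mul_right, hmom m hm, zero_mul]
  have h4 := atom_real hbs hρ1 hy' hmom' (x₀ := z₀.re / ρ) (by
    rw [abs_div, ← h2', abs_of_pos hρ0, hρ]
    rw [div_div_cancel₀]
    · norm_num
    · exact norm_ne_zero_iff.mpr hz₀)
  refine (tsum_congr fun i => ?_).trans h4
  have hz₀' : ((z₀.re / ρ : ℝ) : ℂ) = z₀ / ρ := by rw [Complex.ofReal_div, ← h2]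
  by_cases hi : ‖z i‖ < 1
  · have e1 : y i = z i / ρ := if_pos hi
    have e2 : b i = a i := if_pos hi
    by_cases hzi : z i = z₀
    · rw [if_pos hzi, if_pos (by rw [e1, hz₀', hzi]), e2]
    · rw [if_neg hzi, if_neg]
      rw [e1, hz₀']
      exact fun h => hzi ((div_left_inj' hρ0').mp h)
  · have e2 : b i = 0 := if_neg hi
    rw [if_neg (fun h : z i = z₀ => hi (h ▸ hlt)), e2, ite_self]

end Real

end Fermat.Agent.H69S
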