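import Mathlib
import Fermat.Agent.H6MDFinal

/-!
# LT-MOD2, M6: translation of the vanishing of the Selmer group to coefficients in `k`
-/

set_option autoImplicit false

open scoped Pointwise
open Matrix

namespace Fermat.Agent.H6.MD

local notation "Qb" => AlgebraicClosure ℚ
local notation "Gq" => (AlgebraicClosure ℚ ≃ₐ[ℚ] AlgebraicClosure ℚ)

section conj

variable {rb : Gq →* GL (Fin 2) (ZMod 2)} {J : Type*} [AddCommGroup J] [Module (ZMod 2) J]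
  {b : Gq → Fin 2 → J}

theorem mem_decomp_smul {P : ValuationSubring Qb} {g x : Gq}
    (hx : x ∈ (g • P).decompositionSubgroup ℚ) : g⁻¹ * x * g ∈ P.decompositionSubgroup ℚ := by
  have h1 : x • (g • P) = g • P := hx
  show (g⁻¹ * x * g) • P = P
  rw [mul_smul, mul_smul, h1, inv_smul_smul]

theorem Coc.conj_eq (hb : Coc rb b) (g y : Gq) :
    b (g * y * g⁻¹) = b g + mv (rb g).val (b y) - mv (rb (g * y * g⁻¹)).val (b g) := by
  have h1 : b g⁻¹ = - mv (rb g⁻¹).val (b g) := by rw [hb.inv, map_inv]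
  rw [hb, hb, h1, mv_neg, ← mv_hom_mul, ← sub_eq_add_neg]

/-- the local condition is invariant under conjugation -/
theorem InL.smul {P : ValuationSubring Qb} (hb : Coc rb b) (h : InL rb P b) (g : Gq) :
    InL rb (g • P) b := by
  obtain ⟨w, hw⟩ := h
  refine ⟨mv (rb g).val w - b g, fun x hx y hy => ?_⟩
  have hx' := mem_decomp_smul hx
  have hy' := mem_decomp_smul hy
  have h1 := hw _ hx' _ hy'
  have key : b x - (mv (rb x).val (mv (rb g).val w - b g) - (mv (rb g).val w - b g)) =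
      mv (rb g).val (b (g⁻¹ * x * g) - (mv (rb (g⁻¹ * x * g)).val w - w)) := by
    have h2 := hb.conj_eq g (g⁻¹ * x * g)
    have h3 : g * (g⁻¹ * x * g) * g⁻¹ = x := by group
    rw [h3] at h2
    have h4 : mv (rb g).val (mv (rb (g⁻¹ * x * g)).val w) = mv (rb x).val (mv (rb g).val w) := by
      rw [← mv_hom_mul, ← mv_hom_mul]
      congr 3
      group
    rw [h2, mv_sub, mv_sub, mv_sub, h4]
    abel
  rw [key]
  have h5 : ∀ v : Fin 2 → J, mv (rb y).val (mv (rb g).val v) =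
      mv (rb g).val (mv (rb (g⁻¹ * y * g)).val v) := by
    intro v
    rw [← mv_hom_mul, ← mv_hom_mul]
    congr 3
    group
  rw [h5, h1]

theorem InL.of_lies {P P' : ValuationSubring Qb} {ℓ : ℕ} (hℓ : ℓ.Prime) (hP : P.LiesOverPrime ℓ)
    (hP' : P'.LiesOverPrime ℓ) (hb : Coc rb b) (h : InL rb P b) : InL rb P' b := by
  obtain ⟨g, rfl⟩ := H54.exists_smul_eq hℓ hP hP'
  exact h.smul hb g

/-- unramifiedness is invariant under conjugation -/
theorem UnrAt.of_lies {P P' : ValuationSubring Qb} {ℓ : ℕ} (hℓ : ℓ.Prime)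
    (hP : P.LiesOverPrime ℓ) (hP' : P'.LiesOverPrime ℓ) (hb : Coc rb b)
    (hr : ∀ τ ∈ P.inertiaSubgroupIn ℚ, rb τ = 1) (h : UnrAt P b) : UnrAt P' b := by
  obtain ⟨g, rfl⟩ := H54.exists_smul_eq hℓ hP hP'
  intro τ hτ
  have h1 := H91.conj_mem_inertia hτ g⁻¹
  rw [inv_smul_smul, inv_inv] at h1
  have h2 : g * (g⁻¹ * τ * g) * g⁻¹ = τ := by group
  rw [← h2, hb.conj g (hr _ h1), h _ h1, mv_zero]

end conj

section translate

variable {rb : Gq →* GL (Fin 2) (ZMod 2)} {k : Type*} [Field k] [Algebra (ZMod 2) k]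

theorem mulVec_map_eq (A : Matrix (Fin 2) (Fin 2) (ZMod 2)) (v : Fin 2 → k) :
    (A.map (algebraMap (ZMod 2) k)) *ᵥ v = mv A v := by
  funext i
  simp [Matrix.mulVec, dotProduct, mv, Algebra.smul_def]

/-- **Translation**: the vanishing of the Selmer group gives the Selmer hypothesis of Theorem B
(`Fermat.Agent.H69.Dih.exists_conj_shape`), with one chosen place for each `ℓ ∈ S`. -/
theorem SelZero.hSel {S : Finset ℕ} (hS : ∀ ℓ ∈ S, ℓ.Prime) (h : SelZero rb S)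
    (hsurj : Function.Surjective rb) (rk : Gq → Matrix (Fin 2) (Fin 2) k)
    (P : (Matrix (Fin 2) (Fin 2) k)ˣ)
    (hrk : ∀ g, rk g = P.val * (rb g).val.map (algebraMap (ZMod 2) k) * P⁻¹.val)
    (pl : ℕ → ValuationSubring Qb) (hpl : ∀ ℓ ∈ S, (pl ℓ).LiesOverPrime ℓ)
    (b : Gq → Fin 2 → k) (hcoc : ∀ g g', b (g * g') = b g + rk g *ᵥ b g') (hlev : LevC b)
    (hunr : ∀ ℓ : ℕ, ℓ.Prime → ℓ ∉ S → ∀ A : ValuationSubring Qb, A.LiesOverPrime ℓ →
      ∀ τ ∈ A.inertiaSubgroupIn ℚ, b τ = 0)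
    (hloc : ∀ ℓ ∈ S, ∀ g ∈ (pl ℓ).decompositionSubgroup ℚ,
      ∀ g' ∈ (pl ℓ).decompositionSubgroup ℚ, rk g' *ᵥ b g = b g) :
    ∃ m : Fin 2 → k, ∀ g, b g = rk g *ᵥ m - m := by
  have hmv : ∀ g (v : Fin 2 → k), mv (rb g).val (P⁻¹.val *ᵥ v) = P⁻¹.val *ᵥ (rk g *ᵥ v) := by
    intro g v
    rw [← mulVec_map_eq, hrk, Matrix.mulVec_mulVec, Matrix.mulVec_mulVec, ← mul_assoc, ← mul_assoc,
      Units.inv_mul, one_mul]
  have hs : Sel rb S (fun g => P⁻¹.val *ᵥ b g) := by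
    have hc : Coc rb (fun g => P⁻¹.val *ᵥ b g) := by
      intro g g'
      show P⁻¹.val *ᵥ b (g * g') = P⁻¹.val *ᵥ b g + mv (rb g).val (P⁻¹.val *ᵥ b g')
      rw [hcoc, Matrix.mulVec_add, hmv]
    refine ⟨hc, hlev.comp (fun v => P⁻¹.val *ᵥ v), fun ℓ hℓ hℓS A hA τ hτ => ?_,
      fun ℓ hℓ A hA => ?_⟩
    · show P⁻¹.val *ᵥ b τ = 0
      rw [hunr ℓ hℓ hℓS A hA τ hτ, Matrix.mulVec_zero]
    · refine InL.of_lies (hS ℓ hℓ) (hpl ℓ hℓ) hA hc ⟨0, fun x hx y hy => ?_⟩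
      show mv (rb y).val (P⁻¹.val *ᵥ b x - (mv (rb x).val 0 - 0)) =
        P⁻¹.val *ᵥ b x - (mv (rb x).val 0 - 0)
      rw [mv_zero, sub_zero, sub_zero, hmv, hloc ℓ hℓ x hx y hy]
  obtain ⟨w, hw⟩ := h.cob hsurj hs
  refine ⟨P.val *ᵥ w, fun g => ?_⟩
  have h1 : P⁻¹.val *ᵥ b g = mv (rb g).val w - w := hw g
  have h2 : b g = P.val *ᵥ (P⁻¹.val *ᵥ b g) := by
    rw [Matrix.mulVec_mulVec, Units.mul_inv, Matrix.one_mulVec]
  have h3 : w = P⁻¹.val *ᵥ (P.val *ᵥ w) := by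
    rw [Matrix.mulVec_mulVec, Units.inv_mul, Matrix.one_mulVec]
  rw [h2, h1]
  conv_lhs => rw [h3]
  rw [hmv, ← Matrix.mulVec_sub, Matrix.mulVec_mulVec, Units.mul_inv, Matrix.one_mulVec]

end translate

end Fermat.Agent.H6.MD
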