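import Mathlib
import Fermat.Prelude.Def_GaloisRep_LocalConditions
import Fermat.Agent.H6TWSelect

/-!
# Taylor–Wiles primes for `ResidualGaloisRep`

`tw_primes` is the form needed in S56.
-/

set_option autoImplicit false

open scoped Pointwise TensorProduct
open NumberField Matrix Polynomial

namespace Fermat.Agent.H6

local notation "Qb" => AlgebraicClosure ℚ
local notation "Gq" => (AlgebraicClosure ℚ ≃ₐ[ℚ] AlgebraicClosure ℚ)

section matRep

variable {k : Type} [Field k] (ρbar : ResidualGaloisRep k) (b : Module.Basis (Fin 2) k ρbar.V)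

/-- The matrix form of a residual representation. -/
noncomputable def matRep : Gq →* GL (Fin 2) k :=
  (Units.map ((LinearMap.toMatrixAlgEquiv b).toAlgHom : Module.End k ρbar.V →*
    Matrix (Fin 2) (Fin 2) k)).comp ρbar.ρ.toHomUnits

theorem matRep_val (σ : Gq) : (matRep ρbar b σ).val = LinearMap.toMatrix b b (ρbar.ρ σ) := rfl

theorem matRep_det (σ : Gq) : (matRep ρbar b σ).val.det = LinearMap.det (ρbar.ρ σ) := by
  rw [matRep_val, LinearMap.det_toMatrix]

theorem matRep_charpoly (σ : Gq) :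
    (matRep ρbar b σ).val.charpoly = LinearMap.charpoly (ρbar.ρ σ) := by
  rw [matRep_val, LinearMap.charpoly_toMatrix]

theorem charpoly_two_iff (A : Matrix (Fin 2) (Fin 2) k) (α β : k) :
    A.charpoly = (X - C α) * (X - C β) ↔ A.trace = α + β ∧ A.det = α * β := by
  rw [Matrix.charpoly_fin_two]
  have h1 : (X - C α) * (X - C β) = X ^ 2 - C (α + β) * X + C (α * β) := by
    simp only [map_add, map_mul]; ring
  rw [h1]
  constructor
  · intro h
    have e0 := congrArg (fun f => Polynomial.coeff f 0) h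
    have e1 := congrArg (fun f => Polynomial.coeff f 1) h
    simp [Polynomial.coeff_X, Polynomial.coeff_C] at e0 e1
    exact ⟨by linear_combination -e1, by simpa using e0⟩
  · rintro ⟨h2, h3⟩
    rw [h2, h3]

theorem matRep_split_iff (σ : Gq) (α β : k) :
    LinearMap.charpoly (ρbar.ρ σ) = (X - C α) * (X - C β) ↔
      (matRep ρbar b σ).val.trace = α + β ∧ (matRep ρbar b σ).val.det = α * β := by
  rw [← matRep_charpoly ρbar b, charpoly_two_iff]

/-- The irreducibility hypotheses of S56 in matrix form. -/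
theorem strongIrr_matRep (habs : ρbar.IsAbsolutelyIrreducible)
    (hTW : ∀ (K : Type) [Field K] [Algebra k K]
      (G : Subgroup (AlgebraicClosure ℚ ≃ₐ[ℚ] AlgebraicClosure ℚ)), G.index = 2 →
      ∀ V : Submodule K (ρbar.baseChange K).V,
        (∀ σ ∈ G, ∀ x ∈ V, (ρbar.baseChange K).ρ σ x ∈ V) → V = ⊥ ∨ V = ⊤) :
    StrongIrr (AlgebraicClosure k) (matRep ρbar b) := by
  intro G2 hG2 v hv hcon
  let K := AlgebraicClosure k
  let bK : Module.Basis (Fin 2) K (K ⊗[k] ρbar.V) := Algebra.TensorProduct.basis K b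
  let x : K ⊗[k] ρbar.V := bK.equivFun.symm v
  have hx0 : x ≠ 0 := by
    intro h
    apply hv
    have := congrArg bK.equivFun h
    rwa [LinearEquiv.apply_symm_apply, map_zero] at this
  have hact : ∀ σ ∈ G2, ∃ c : K, (ρbar.ρ σ).baseChange K x = c • x := by
    intro σ hσ
    obtain ⟨c, hc⟩ := hcon σ hσ
    refine ⟨c, ?_⟩
    apply bK.equivFun.injective
    have h1 : bK.equivFun ((ρbar.ρ σ).baseChange K x) =
        (LinearMap.toMatrix bK bK ((ρbar.ρ σ).baseChange K)).mulVec (bK.equivFun x) := by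
      ext i
      have := LinearMap.toMatrix_mulVec_repr bK bK ((ρbar.ρ σ).baseChange K) x
      exact (congrFun this i).symm
    rw [h1, LinearMap.toMatrix_baseChange, LinearEquiv.apply_symm_apply, map_smul,
      LinearEquiv.apply_symm_apply, ← matRep_val, hc]
  -- the line spanned by `x`
  have hst : ∀ σ ∈ G2, ∀ y ∈ Submodule.span K {x},
      (ρbar.baseChange K).ρ σ y ∈ Submodule.span K {x} := by
    intro σ hσ y hy
    obtain ⟨a, rfl⟩ := Submodule.mem_span_singleton.mp hy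
    obtain ⟨c, hc⟩ := hact σ hσ
    have h2 : (ρbar.baseChange K).ρ σ (a • x) = a • (ρbar.ρ σ).baseChange K x :=
      map_smul _ _ _
    rw [h2, hc]
    exact Submodule.smul_mem _ _ (Submodule.smul_mem _ _ (Submodule.mem_span_singleton_self x))
  have hcases : Submodule.span K {x} = ⊥ ∨ Submodule.span K {x} = ⊤ := by
    rcases hG2 with h | h
    · rw [Subgroup.index_eq_one] at h
      refine habs _ fun σ y hy => ?_
      exact hst σ (by rw [h]; trivial) y hy
    · exact hTW K G2 h _ hst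
  rcases hcases with h | h
  · rw [Submodule.span_singleton_eq_bot] at h
    exact hx0 h
  · have h3 := finrank_span_le_card (R := K) ({x} : Set (K ⊗[k] ρbar.V))
    rw [h, finrank_top] at h3
    have h4 : Module.finrank K (K ⊗[k] ρbar.V) = 2 := (ρbar.baseChange K).finrank_eq
    rw [h4] at h3
    simp at h3

/-- The determinant hypothesis of S56 in matrix form. -/
theorem det_matRep (p : ℕ) [Fact p.Prime] [CharP k p]
    (hdet : (GaloisRepAdic.ofResidualGaloisRep ρbar).DetIsCyclotomic p) (σ : Gq) (a : ℕ)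
    (ha : ∀ μ : Qb, μ ^ p = 1 → σ μ = μ ^ a) : (matRep ρbar b σ).val.det = (a : k) := by
  have h1 := hdet.2 1 σ a (by rwa [pow_one])
  rw [pow_one, CharP.cast_eq_zero, Ideal.span_singleton_eq_bot.mpr rfl, Ideal.mem_bot] at h1
  rw [matRep_det]
  exact sub_eq_zero.mp h1

theorem finite_level_matRep : ∃ L : IntermediateField ℚ Qb, FiniteDimensional ℚ L ∧
    ∀ σ : Gq, (∀ x ∈ L, σ x = x) → matRep ρbar b σ = 1 := by
  obtain ⟨L, hL, h⟩ := ρbar.factorsThroughFiniteLevel
  refine ⟨L, hL, fun σ hσ => ?_⟩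
  apply Units.ext
  rw [matRep_val, h σ hσ, LinearMap.toMatrix_one, Units.val_one]

end matRep

section final

variable {k : Type} [Field k] [Fintype k] (p : ℕ) [Fact p.Prime] [CharP k p]

/-- **Taylor–Wiles primes killing given classes.**  `N` is any model of `ad⁰ρbar(1)`: a
representation `rN` with an equivariant isomorphism `e` onto the trace-zero matrices with the
action `X ↦ det ρ(σ) • ρ(σ) X ρ(σ)⁻¹`. -/
theorem tw_primes (hp2 : p ≠ 2) (ρbar : ResidualGaloisRep k)
    (habs : ρbar.IsAbsolutelyIrreducible)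
    (hdet : (GaloisRepAdic.ofResidualGaloisRep ρbar).DetIsCyclotomic p)
    (hsplit : ∀ σ : AlgebraicClosure ℚ ≃ₐ[ℚ] AlgebraicClosure ℚ,
      ∃ α β : k, LinearMap.charpoly (ρbar.ρ σ) = (X - C α) * (X - C β))
    (hTW : ∀ (K : Type) [Field K] [Algebra k K]
      (G : Subgroup (AlgebraicClosure ℚ ≃ₐ[ℚ] AlgebraicClosure ℚ)), G.index = 2 →
      ∀ V : Submodule K (ρbar.baseChange K).V,
        (∀ σ ∈ G, ∀ x ∈ V, (ρbar.baseChange K).ρ σ x ∈ V) → V = ⊥ ∨ V = ⊤)
    (b : Module.Basis (Fin 2) k ρbar.V)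
    {N : Type*} [AddCommGroup N] [Module k N] (rN : Gq →* Module.End k N)
    (e : N ≃ₗ[k] slSub k)
    (he : ∀ (σ : Gq) (x : N), ((e (rN σ x) : slSub k) : Matrix (Fin 2) (Fin 2) k) =
      ad1 (matRep ρbar b σ) (e x : slSub k))
    {s : ℕ} (ψ : Fin s → Gq → N) (hψ : ∀ j, IsCocyc rN (ψ j))
    (hψL : ∀ j, ∃ F : IntermediateField ℚ Qb, FiniteDimensional ℚ F ∧
      ∀ g τ : Gq, (∀ x ∈ F, τ x = x) → ψ j (g * τ) = ψ j g)
    (hind : ∀ c : Fin s → k, IsCobound rN (fun σ => ∑ j, c j • ψ j σ) → c = 0)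
    (n d : ℕ) (hd : s ≤ d) (S : Finset ℕ) :
    ∃ qv : Fin d → ℕ, Function.Injective qv ∧
      (∀ i, (qv i).Prime ∧ qv i ∉ S ∧ p ^ (n + 1) ∣ qv i - 1) ∧
      (∀ i, ρbar.IsUnramifiedAt (qv i)) ∧
      (∀ i, ∀ P : ValuationSubring (AlgebraicClosure ℚ), P.LiesOverPrime (qv i) →
        ∀ φ : AlgebraicClosure ℚ ≃ₐ[ℚ] AlgebraicClosure ℚ, P.IsFrobeniusAt φ (qv i) →
          LinearMap.det (ρbar.ρ φ) = 1 ∧
          ∃ α β : k, α ≠ β ∧ LinearMap.charpoly (ρbar.ρ φ) = (X - C α) * (X - C β)) ∧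
      (∀ i, ∀ P : ValuationSubring Qb, P.LiesOverPrime (qv i) → ∀ τ ∈ P.inertiaSubgroupIn ℚ,
        ∀ j, ψ j τ = 0) ∧
      ∀ c : Fin s → k,
        (∀ i, ∃ (P : ValuationSubring Qb) (φ : Gq), P.LiesOverPrime (qv i) ∧
          P.IsFrobeniusAt φ (qv i) ∧ ∃ x : N, ∑ j, c j • ψ j φ = rN φ x - x) → c = 0 := by
  classical
  have h2 := two_ne_zero_of (k := k) p hp2
  set ρ := matRep ρbar b with hρ
  have hirr : StrongIrr (AlgebraicClosure k) ρ := strongIrr_matRep ρbar b habs hTW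
  have hsplit' : ∀ σ, ∃ α β : k, (ρ σ).val.trace = α + β ∧ (ρ σ).val.det = α * β := by
    intro σ
    obtain ⟨α, β, h⟩ := hsplit σ
    exact ⟨α, β, (matRep_split_iff ρbar b σ α β).mp h⟩
  let ψ' : Fin s → Gq → Matrix (Fin 2) (Fin 2) k := fun j σ => ((e (ψ j σ) : slSub k) : _)
  have hψ' : ∀ j, IsCocyc (ad1.comp ρ) (ψ' j) := by
    intro j g h
    show ((e (ψ j (g * h)) : slSub k) : Matrix (Fin 2) (Fin 2) k) = _
    rw [hψ j g h, map_add, Submodule.coe_add, he]
    rfl
  have htr : ∀ j σ, (ψ' j σ).trace = 0 := fun j σ => mem_slSub.mp (e (ψ j σ)).2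
  have hcomb : ∀ (c : Fin s → k) (σ : Gq), comb ψ' c σ =
      ((e (∑ j, c j • ψ j σ) : slSub k) : Matrix (Fin 2) (Fin 2) k) := by
    intro c σ
    rw [comb, map_sum, Submodule.coe_sum]
    refine Finset.sum_congr rfl fun j _ => ?_
    rw [map_smul, Submodule.coe_smul]
  obtain ⟨qv, h1, h3, h4, h5, h6⟩ := tw_selection p hp2 hirr (finite_level_matRep ρbar b) hsplit'
    (det_matRep ρbar b p hdet) hψ' htr
    (by
      intro j
      obtain ⟨F, hF, h⟩ := hψL j
      refine ⟨F, hF, fun g τ hτ => ?_⟩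
      show ((e (ψ j (g * τ)) : slSub k) : Matrix (Fin 2) (Fin 2) k) = _
      rw [h g τ hτ])
    (by
      intro c hc
      apply hind c
      obtain ⟨m, hm0, hm⟩ := trace_fix h2 (ρ := ρ) (K := Set.univ) (comb_trace htr c)
        (by obtain ⟨m, hm⟩ := hc; exact ⟨m, fun t _ => hm t⟩)
      refine ⟨e.symm ⟨m, mem_slSub.mpr hm0⟩, fun σ => ?_⟩
      apply e.injective
      apply Subtype.ext
      rw [← hcomb, hm σ trivial, map_sub, Submodule.coe_sub, he, LinearEquiv.apply_symm_apply]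
      rfl) n d hd S
  refine ⟨qv, h1, fun i => ⟨(h4 i).1, h3 i, (h4 i).2.1⟩, ?_, ?_, ?_, ?_⟩
  · intro i P hP τ hτ
    have h7 := (h4 i).2.2.1 P hP τ hτ
    have h8 := congrArg Units.val h7
    rw [hρ, matRep_val, Units.val_one, ← LinearMap.toMatrix_one b] at h8
    exact (LinearMap.toMatrix b b).injective h8
  · intro i P hP φ hφ
    obtain ⟨h7, α, β, h8, h9⟩ := (h4 i).2.2.2 P hP φ hφ
    refine ⟨by rw [← matRep_det ρbar b]; exact h7, α, β, h8, ?_⟩
    rw [matRep_split_iff ρbar b]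
    exact h9
  · intro i P hP τ hτ j
    have h7 := h5 i P hP τ hτ j
    have h8 : e (ψ j τ) = 0 := Subtype.ext h7
    exact (LinearEquiv.map_eq_zero_iff e).mp h8
  · intro c hc
    apply h6 c
    intro i
    obtain ⟨P, φ, hP, hφ, x, hx⟩ := hc i
    refine ⟨P, φ, hP, hφ, (e x : slSub k), (e x).2, ?_⟩
    rw [hcomb, hx, map_sub, Submodule.coe_sub, he]

end final

end Fermat.Agent.H6
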