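import Mathlib
import Fermat.Agent.H6TWResidual
import Fermat.Agent.H51Dual

/-!
# Killing finite sets of classes by Taylor–Wiles primes (adapter for S56)
-/

set_option autoImplicit false
set_option maxSynthPendingDepth 3

open scoped Pointwise TensorProduct
open NumberField Matrix Polynomial

namespace Fermat.Agent.H6

local notation "Qb" => AlgebraicClosure ℚ
local notation "Gq" => (AlgebraicClosure ℚ ≃ₐ[ℚ] AlgebraicClosure ℚ)

section kill

variable {k : Type} [Field k]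

/-- level constant functions -/
def LevC {X : Type*} (f : Gq → X) : Prop :=
  ∃ F : IntermediateField ℚ Qb, FiniteDimensional ℚ F ∧
    ∀ g τ : Gq, (∀ x ∈ F, τ x = x) → f (g * τ) = f g

/-- The `k`-space of level constant cocycles. -/
def cocSub {N : Type*} [AddCommGroup N] [Module k N] (rN : Gq →* Module.End k N) :
    Submodule k (Gq → N) where
  carrier := {ψ | IsCocyc rN ψ ∧ LevC ψ}
  add_mem' := by
    rintro ψ φ ⟨h1, F, hF, h2⟩ ⟨h3, F', hF', h4⟩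
    refine ⟨h1.add h3, F ⊔ F', inferInstance, fun g τ hτ => ?_⟩
    show ψ (g * τ) + φ (g * τ) = ψ g + φ g
    rw [h2 g τ fun x hx => hτ x ((le_sup_left : F ≤ F ⊔ F') hx),
      h4 g τ fun x hx => hτ x ((le_sup_right : F' ≤ F ⊔ F') hx)]
  zero_mem' := by
    refine ⟨fun g h => by simp, ⊥, inferInstance, fun g τ _ => rfl⟩
  smul_mem' := by
    rintro c ψ ⟨h1, F, hF, h2⟩
    exact ⟨h1.smul c, F, hF, fun g τ hτ => congrArg (c • ·) (h2 g τ hτ)⟩

/-- The `k`-space of coboundaries. -/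
def cobSub {N : Type*} [AddCommGroup N] [Module k N] (rN : Gq →* Module.End k N) :
    Submodule k (Gq → N) where
  carrier := {ψ | IsCobound rN ψ}
  add_mem' := by
    rintro ψ φ ⟨m, hm⟩ ⟨m', hm'⟩
    refine ⟨m + m', fun g => ?_⟩
    show ψ g + φ g = _
    rw [hm, hm', map_add]; abel
  zero_mem' := ⟨0, fun g => by simp⟩
  smul_mem' := by
    rintro c ψ ⟨m, hm⟩
    refine ⟨c • m, fun g => ?_⟩
    show c • ψ g = _
    rw [hm, map_smul, smul_sub]

/-- **Killing a finite set of classes.** -/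
theorem kill_set [Fintype k] (p : ℕ) [Fact p.Prime] [CharP k p] (hp2 : p ≠ 2)
    (ρbar : ResidualGaloisRep k)
    (habs : ρbar.IsAbsolutelyIrreducible)
    (hdet : (GaloisRepAdic.ofResidualGaloisRep ρbar).DetIsCyclotomic p)
    (hsplit : ∀ σ : AlgebraicClosure ℚ ≃ₐ[ℚ] AlgebraicClosure ℚ,
      ∃ α β : k, LinearMap.charpoly (ρbar.ρ σ) = (X - C α) * (X - C β))
    (hTW : ∀ (K : Type) [Field K] [Algebra k K]
      (G : Subgroup (AlgebraicClosure ℚ ≃ₐ[ℚ] AlgebraicClosure ℚ)), G.index = 2 →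
      ∀ V : Submodule K (ρbar.baseChange K).V,
        (∀ σ ∈ G, ∀ x ∈ V, (ρbar.baseChange K).ρ σ x ∈ V) → V = ⊥ ∨ V = ⊤)
    (b : Module.Basis (Fin 2) k ρbar.V)
    {N : Type*} [AddCommGroup N] [Module k N] (rN : Gq →* Module.End k N)
    (e : N ≃ₗ[k] slSub k)
    (he : ∀ (σ : Gq) (x : N), ((e (rN σ x) : slSub k) : Matrix (Fin 2) (Fin 2) k) =
      ad1 (matRep ρbar b σ) (e x : slSub k))
    (D : Set (Gq → N)) (hD : D.Finite) (hDc : ∀ ψ ∈ D, IsCocyc rN ψ ∧ LevC ψ) :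
    ∃ s : ℕ, ∀ d, s ≤ d → ∀ (n : ℕ) (S : Finset ℕ), ∃ qv : Fin d → ℕ, Function.Injective qv ∧
      (∀ i, (qv i).Prime ∧ qv i ∉ S ∧ p ^ (n + 1) ∣ qv i - 1) ∧
      (∀ i, ρbar.IsUnramifiedAt (qv i)) ∧
      (∀ i, ∀ P : ValuationSubring (AlgebraicClosure ℚ), P.LiesOverPrime (qv i) →
        ∀ φ : AlgebraicClosure ℚ ≃ₐ[ℚ] AlgebraicClosure ℚ, P.IsFrobeniusAt φ (qv i) →
          LinearMap.det (ρbar.ρ φ) = 1 ∧
          ∃ α β : k, α ≠ β ∧ LinearMap.charpoly (ρbar.ρ φ) = (X - C α) * (X - C β)) ∧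
      ∀ ψ ∈ D, (∀ i, ∃ (P : ValuationSubring Qb) (φ : Gq), P.LiesOverPrime (qv i) ∧
          P.IsFrobeniusAt φ (qv i) ∧ ∃ x : N, ψ φ = rN φ x - x) → IsCobound rN ψ := by
  classical
  let W : Submodule k (Gq → N) := Submodule.span k D
  have hWfd : FiniteDimensional k W := FiniteDimensional.span_of_finite k hD
  have hWc : W ≤ cocSub rN := Submodule.span_le.mpr hDc
  let B : Submodule k W := (cobSub rN).comap W.subtype
  obtain ⟨Cp, hCp⟩ := Submodule.exists_isCompl B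
  let bs := Module.finBasis k Cp
  refine ⟨Module.finrank k Cp, fun d hd n S => ?_⟩
  let ψ : Fin (Module.finrank k Cp) → Gq → N := fun j => ((bs j : W) : Gq → N)
  have hψ : ∀ j, ψ j ∈ cocSub rN := fun j => hWc (bs j : W).2
  have hsum : ∀ c : Fin (Module.finrank k Cp) → k,
      (fun σ => ∑ j, c j • ψ j σ) = (((∑ j, c j • bs j : Cp) : W) : Gq → N) := by
    intro c
    funext σ
    rw [Submodule.coe_sum, Submodule.coe_sum, Finset.sum_apply]
    rfl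
  obtain ⟨qv, h1, h2, h3, h4, -, h6⟩ := tw_primes p hp2 ρbar habs hdet hsplit hTW b rN e he ψ
    (fun j => (hψ j).1) (fun j => (hψ j).2) (by
      intro c hc
      have h7 : IsCobound rN (((∑ j, c j • bs j : Cp) : W) : Gq → N) := by
        rw [← hsum]; exact hc
      have h8 : ((∑ j, c j • bs j : Cp) : W) ∈ B ⊓ Cp := ⟨h7, (∑ j, c j • bs j : Cp).2⟩
      rw [hCp.inf_eq_bot, Submodule.mem_bot] at h8
      have h9 : (∑ j, c j • bs j : Cp) = 0 := Subtype.ext h8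
      have h10 := Fintype.linearIndependent_iff.mp bs.linearIndependent c h9
      exact funext h10) n d hd S
  refine ⟨qv, h1, h2, h3, h4, ?_⟩
  intro φ hφD hloc
  -- decompose `φ`
  have hφW : φ ∈ W := Submodule.subset_span hφD
  have htop : (⟨φ, hφW⟩ : W) ∈ B ⊔ Cp := by rw [hCp.sup_eq_top]; trivial
  obtain ⟨β, hβ, γ, hγ, hsumβγ⟩ := Submodule.mem_sup.mp htop
  obtain ⟨m, hm⟩ : IsCobound rN (β : Gq → N) := hβ
  have hφeq : φ = (β : Gq → N) + (γ : Gq → N) := (congrArg Subtype.val hsumβγ).symm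
  let c : Fin (Module.finrank k Cp) → k := bs.repr ⟨γ, hγ⟩
  have hγc : (fun σ => ∑ j, c j • ψ j σ) = ((γ : W) : Gq → N) := by
    rw [hsum]
    have : (∑ j, c j • bs j : Cp) = ⟨γ, hγ⟩ := bs.sum_repr ⟨γ, hγ⟩
    rw [this]
  have hc0 : c = 0 := by
    apply h6 c
    intro i
    obtain ⟨P, τ, hP, hτ, x, hx⟩ := hloc i
    refine ⟨P, τ, hP, hτ, x - m, ?_⟩
    have h11 : (∑ j, c j • ψ j τ) = (γ : Gq → N) τ := congrFun hγc τ
    have h12 : φ τ = (β : Gq → N) τ + (γ : Gq → N) τ := congrFun hφeq τ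
    rw [h11, map_sub]
    have h13 : (γ : Gq → N) τ = φ τ - (β : Gq → N) τ := by rw [h12]; abel
    rw [h13, hx, hm]; abel
  have hγ0 : ((γ : W) : Gq → N) = 0 := by
    rw [← hγc, hc0]
    funext σ
    simp
  rw [hφeq, hγ0, add_zero]
  exact ⟨m, hm⟩

end kill

section adT

open Fermat.Agent.H55 Fermat.Agent.H53 Fermat.Agent.H56 Fermat.Agent.H51Dual ExtCitation

variable (p : ℕ) [Fact p.Prime] {k : Type} [Field k] [Algebra (ZMod p) k]

/-- The representation `ad1` restricted to trace-zero matrices. -/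
noncomputable def slRep (ρ : Gq →* GL (Fin 2) k) : Gq →* Module.End k (slSub k) where
  toFun σ := (ad1 (ρ σ)).restrict (fun X hX => ad1_mem_slSub (ρ σ) hX)
  map_one' := by
    ext1 X; apply Subtype.ext
    show ad1 (ρ 1) (X : Matrix (Fin 2) (Fin 2) k) = X
    rw [map_one, map_one]; rfl
  map_mul' σ τ := by
    ext1 X; apply Subtype.ext
    show ad1 (ρ (σ * τ)) (X : Matrix (Fin 2) (Fin 2) k) = ad1 (ρ σ) (ad1 (ρ τ) X)
    rw [map_mul, map_mul]; rfl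

/-- the identification of the two models of trace zero matrices -/
def toSl (X : SL p k) : slSub k := ⟨(X : M2 k), mem_slSub.mpr X.2⟩

theorem toSl_adT {ρbar : ResidualGaloisRep k} {b : Module.Basis (Fin 2) k ρbar.V}
    {r : Gq →* M2 k} (hr : ∀ σ, r σ = LinearMap.toMatrix b b (ρbar.ρ σ)) (σ : Gq) (X : SL p k) :
    toSl p (adT p r σ X) = slRep (matRep ρbar b) σ (toSl p X) := by
  apply Subtype.ext
  show (r σ).det • (r σ * (X : M2 k) * r σ⁻¹) = ad1 (matRep ρbar b σ) (X : M2 k)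
  have h1 : ((matRep ρbar b σ)⁻¹).val = r σ⁻¹ := by
    rw [← map_inv, matRep_val, hr]
  rw [ad1_apply, h1, matRep_val, hr σ]

theorem levC_of_LC1 {X : Type*} {c : Gq → X} (hc : LC1 krullLevels c) : LevC c := by
  obtain ⟨U, hU, h⟩ := hc
  obtain ⟨F, hF, hle⟩ := (krullLevels_op_iff U).mp hU
  refine ⟨F, hF, fun g τ hτ => h g τ (hle ?_)⟩
  rw [IntermediateField.mem_fixingSubgroup_iff]
  exact hτ

/-- **Killing a finite set of classes**, for the model `adT p r`. -/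
theorem kill_adT [Finite k] (hp2 : p ≠ 2) (ρbar : ResidualGaloisRep k)
    (habs : ρbar.IsAbsolutelyIrreducible)
    (hdet : (GaloisRepAdic.ofResidualGaloisRep ρbar).DetIsCyclotomic p)
    (hsplit : ∀ σ : AlgebraicClosure ℚ ≃ₐ[ℚ] AlgebraicClosure ℚ,
      ∃ α β : k, LinearMap.charpoly (ρbar.ρ σ) = (X - C α) * (X - C β))
    (hTW : ∀ (K : Type) [Field K] [Algebra k K]
      (G : Subgroup (AlgebraicClosure ℚ ≃ₐ[ℚ] AlgebraicClosure ℚ)), G.index = 2 →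
      ∀ V : Submodule K (ρbar.baseChange K).V,
        (∀ σ ∈ G, ∀ x ∈ V, (ρbar.baseChange K).ρ σ x ∈ V) → V = ⊥ ∨ V = ⊤)
    (b : Module.Basis (Fin 2) k ρbar.V) {r : Gq →* M2 k}
    (hr : ∀ σ, r σ = LinearMap.toMatrix b b (ρbar.ρ σ))
    (D : Set (Gq → SL p k)) (hD : D.Finite) (hDc : ∀ c ∈ D, c ∈ Z1 krullLevels (adT p r)) :
    ∃ s : ℕ, ∀ d, s ≤ d → ∀ (n : ℕ) (S : Finset ℕ), ∃ qv : Fin d → ℕ, Function.Injective qv ∧
      (∀ i, (qv i).Prime ∧ qv i ∉ S ∧ p ^ (n + 1) ∣ qv i - 1) ∧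
      (∀ i, ρbar.IsUnramifiedAt (qv i)) ∧
      (∀ i, ∀ P : ValuationSubring (AlgebraicClosure ℚ), P.LiesOverPrime (qv i) →
        ∀ φ : AlgebraicClosure ℚ ≃ₐ[ℚ] AlgebraicClosure ℚ, P.IsFrobeniusAt φ (qv i) →
          LinearMap.det (ρbar.ρ φ) = 1 ∧
          ∃ α β : k, α ≠ β ∧ LinearMap.charpoly (ρbar.ρ φ) = (X - C α) * (X - C β)) ∧
      ∀ c ∈ D, (∀ i, ∃ (P : ValuationSubring Qb) (φ : Gq), P.LiesOverPrime (qv i) ∧
          P.IsFrobeniusAt φ (qv i) ∧ ∃ x : SL p k, c φ = adT p r φ x - x) →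
        c ∈ B1 (adT p r) := by
  have _ : Fintype k := Fintype.ofFinite k
  have _ : CharP k p := charP_of_injective_algebraMap (algebraMap (ZMod p) k).injective p
  obtain ⟨s, hs⟩ := kill_set p hp2 ρbar habs hdet hsplit hTW b (slRep (matRep ρbar b))
    (LinearEquiv.refl k _) (fun σ x => rfl) ((fun (c : Gq → SL p k) σ => toSl p (c σ)) '' D)
    (hD.image _) (by
      rintro _ ⟨c, hc, rfl⟩
      obtain ⟨h1, h2⟩ := hDc c hc
      refine ⟨fun g h => ?_, ?_⟩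
      · show toSl p (c (g * h)) = toSl p (c g) + slRep (matRep ρbar b) g (toSl p (c h))
        rw [← toSl_adT p hr, h2, add_comm]
        rfl
      · obtain ⟨F, hF, h3⟩ := levC_of_LC1 h1
        exact ⟨F, hF, fun g τ hτ => congrArg (toSl p) (h3 g τ hτ)⟩)
  refine ⟨s, fun d hd n S => ?_⟩
  obtain ⟨qv, h1, h2, h3, h4, h5⟩ := hs d hd n S
  refine ⟨qv, h1, h2, h3, h4, fun c hc hloc => ?_⟩
  obtain ⟨m, hm⟩ := h5 _ ⟨c, hc, rfl⟩ (by
    intro i
    obtain ⟨P, φ, hP, hφ, x, hx⟩ := hloc i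
    refine ⟨P, φ, hP, hφ, toSl p x, ?_⟩
    show toSl p (c φ) = _
    rw [hx, ← toSl_adT p hr]
    rfl)
  refine ⟨⟨(m : Matrix (Fin 2) (Fin 2) k), mem_slSub.mp m.2⟩, ?_⟩
  funext σ
  rw [d0_apply]
  have h6 : toSl p (c σ) = slRep (matRep ρbar b) σ m - m := hm σ
  have h7 : toSl p (⟨(m : Matrix (Fin 2) (Fin 2) k), mem_slSub.mp m.2⟩ : SL p k) = m := rfl
  rw [← h7, ← toSl_adT p hr] at h6
  have h8 := congrArg (fun X : slSub k => (X : Matrix (Fin 2) (Fin 2) k)) h6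
  exact (Subtype.ext h8).symm

/-- **Killing a finite set of classes** of `ad⁰(1)`, in the language of `H56Defs`: a finite set
`D` of cocycles for `dtw (cycloChar p) (ad p r)`, locally trivial at the distinguished places. -/
theorem kill_dtw [Finite k] (hp2 : p ≠ 2) (ρbar : ResidualGaloisRep k)
    (habs : ρbar.IsAbsolutelyIrreducible)
    (hdet : (GaloisRepAdic.ofResidualGaloisRep ρbar).DetIsCyclotomic p)
    (hsplit : ∀ σ : AlgebraicClosure ℚ ≃ₐ[ℚ] AlgebraicClosure ℚ,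
      ∃ α β : k, LinearMap.charpoly (ρbar.ρ σ) = (X - C α) * (X - C β))
    (hTW : ∀ (K : Type) [Field K] [Algebra k K]
      (G : Subgroup (AlgebraicClosure ℚ ≃ₐ[ℚ] AlgebraicClosure ℚ)), G.index = 2 →
      ∀ V : Submodule K (ρbar.baseChange K).V,
        (∀ σ ∈ G, ∀ x ∈ V, (ρbar.baseChange K).ρ σ x ∈ V) → V = ⊥ ∨ V = ⊤)
    (b : Module.Basis (Fin 2) k ρbar.V) {r : Gq →* M2 k}
    (hr : ∀ σ, r σ = LinearMap.toMatrix b b (ρbar.ρ σ)) (hrdet : DetCyc p r)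
    (D : Set (Gq → Module.Dual (ZMod p) (SL p k))) (hD : D.Finite)
    (hDc : ∀ c ∈ D, c ∈ Z1 krullLevels (dtw (cycloChar p) (ad p r))) :
    ∃ s : ℕ, ∀ d, s ≤ d → ∀ (n : ℕ) (S : Finset ℕ), ∃ qv : Fin d → Nat.Primes,
      Function.Injective qv ∧
      (∀ i, ((qv i : Nat.Primes) : ℕ) ∉ S ∧ p ^ (n + 1) ∣ ((qv i : Nat.Primes) : ℕ) - 1) ∧
      (∀ i, ρbar.IsUnramifiedAt (qv i)) ∧
      (∀ i, ∀ P : ValuationSubring (AlgebraicClosure ℚ), P.LiesOverPrime (qv i) →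
        ∀ φ : AlgebraicClosure ℚ ≃ₐ[ℚ] AlgebraicClosure ℚ, P.IsFrobeniusAt φ (qv i) →
          LinearMap.det (ρbar.ρ φ) = 1 ∧
          ∃ α β : k, α ≠ β ∧ LinearMap.charpoly (ρbar.ρ φ) = (X - C α) * (X - C β)) ∧
      ∀ c ∈ D, (∀ i, resD p _ (qv i) c ∈ B1 (rhoD (dtw (cycloChar p) (ad p r)) (qv i))) →
        c ∈ B1 (dtw (cycloChar p) (ad p r)) := by
  have hE := Phi_equivar (k := k) hp2 hrdet
  obtain ⟨s, hs⟩ := kill_adT p hp2 ρbar habs hdet hsplit hTW b hr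
    ((fun (c : Gq → Module.Dual (ZMod p) (SL p k)) σ => (Phi p k hp2).symm (c σ)) '' D)
    (hD.image _) (by
      rintro _ ⟨c, hc, rfl⟩
      exact (mem_Z1_iff hE).mp (hDc c hc))
  refine ⟨s, fun d hd n S => ?_⟩
  obtain ⟨qv, h1, h2, h3, h4, h5⟩ := hs d hd n S
  refine ⟨fun i => ⟨qv i, (h2 i).1⟩, fun i j hij => h1 (congrArg Subtype.val hij),
    fun i => ⟨(h2 i).2.1, (h2 i).2.2⟩, h3, h4, ?_⟩
  intro c hc hloc
  rw [mem_B1_iff hE]
  apply h5 _ ⟨c, hc, rfl⟩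
  intro i
  have hq : (qv i).Prime := (h2 i).1
  have hA : (primeLocalPlace ⟨qv i, hq⟩).LiesOverPrime (qv i) := liesOver_primeLocalPlace ⟨qv i, hq⟩
  obtain ⟨φ, hφ⟩ := H54.exists_isFrobeniusAt hq hA
  refine ⟨_, φ, hA, hφ, ?_⟩
  obtain ⟨x, hx⟩ := hloc i
  refine ⟨(Phi p k hp2).symm x, ?_⟩
  have h6 : c φ = dtw (cycloChar p) (ad p r) φ x - x := by
    have := congrFun hx ⟨φ, hφ.mem_decompositionSubgroup⟩
    exact this.symm
  show (Phi p k hp2).symm (c φ) = _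
  rw [h6, map_sub]
  congr 1
  exact Equivar.symm hE φ x

end adT

end Fermat.Agent.H6
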