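import Mathlib

/-!
# S47, C17: the Busemann function of `GL₂` over a valued field

`K` a field with a valuation `v`.  For `g ∈ GL₂(K)` put `rowN g = max (v c) (v d)` (bottom row),
`matN g = ` maximum of the valuations of the entries, `bus g = rowN g ^ 2 / v (det g)`,
`dis g = matN g ^ 2 / v (det g)`.
-/

set_option autoImplicit false

namespace Fermat.Agent.H6.Z

open Matrix

variable {K : Type*} [Field K] {Γ₀ : Type*} [LinearOrderedCommGroupWithZero Γ₀]
  (v : Valuation K Γ₀)

/-- norm of the bottom row -/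
def rowN (g : GL (Fin 2) K) : Γ₀ := max (v (g 1 0)) (v (g 1 1))

/-- norm of the matrix -/
def matN (g : GL (Fin 2) K) : Γ₀ :=
  max (max (v (g 0 0)) (v (g 0 1))) (max (v (g 1 0)) (v (g 1 1)))

/-- multiplicative Busemann function of the end `∞` -/
def bus (g : GL (Fin 2) K) : Γ₀ := rowN v g ^ 2 * (v g.val.det)⁻¹

/-- multiplicative displacement -/
def dis (g : GL (Fin 2) K) : Γ₀ := matN v g ^ 2 * (v g.val.det)⁻¹

theorem det_ne (g : GL (Fin 2) K) : v g.val.det ≠ 0 := by
  rw [Ne, map_eq_zero]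
  exact (Matrix.isUnit_iff_isUnit_det _).1 g.isUnit |>.ne_zero

theorem rowN_ne (g : GL (Fin 2) K) : rowN v g ≠ 0 := by
  intro h
  have h1 : v (g 1 0) = 0 := le_antisymm (h ▸ le_max_left _ _) zero_le
  have h2 : v (g 1 1) = 0 := le_antisymm (h ▸ le_max_right _ _) zero_le
  rw [map_eq_zero] at h1 h2
  apply det_ne v g
  rw [Matrix.det_fin_two, h1, h2]
  simp

theorem rowN_le_matN (g : GL (Fin 2) K) : rowN v g ≤ matN v g := le_max_right _ _

theorem matN_ne (g : GL (Fin 2) K) : matN v g ≠ 0 := fun h =>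
  rowN_ne v g (le_antisymm (h ▸ rowN_le_matN v g) zero_le)

theorem bus_ne (g : GL (Fin 2) K) : bus v g ≠ 0 :=
  mul_ne_zero (pow_ne_zero _ (rowN_ne v g)) (inv_ne_zero (det_ne v g))

theorem dis_ne (g : GL (Fin 2) K) : dis v g ≠ 0 :=
  mul_ne_zero (pow_ne_zero _ (matN_ne v g)) (inv_ne_zero (det_ne v g))

theorem entry_le (g : GL (Fin 2) K) (i j : Fin 2) : v (g i j) ≤ matN v g := by
  fin_cases i <;> fin_cases j
  · exact (le_max_left _ _).trans (le_max_left _ _)
  · exact (le_max_right _ _).trans (le_max_left _ _)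
  · exact (le_max_left _ _).trans (le_max_right _ _)
  · exact (le_max_right _ _).trans (le_max_right _ _)

theorem matN_le {g : GL (Fin 2) K} {c : Γ₀} (h : ∀ i j, v (g i j) ≤ c) : matN v g ≤ c :=
  max_le (max_le (h 0 0) (h 0 1)) (max_le (h 1 0) (h 1 1))

theorem row_le (g : GL (Fin 2) K) (j : Fin 2) : v (g 1 j) ≤ rowN v g := by
  fin_cases j
  · exact le_max_left _ _
  · exact le_max_right _ _

theorem rowN_le {g : GL (Fin 2) K} {c : Γ₀} (h : ∀ j, v (g 1 j) ≤ c) : rowN v g ≤ c :=
  max_le (h 0) (h 1)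

theorem rowN_mul_le (g h : GL (Fin 2) K) : rowN v (g * h) ≤ rowN v g * matN v h := by
  apply rowN_le
  intro j
  show v ((g.val * h.val) 1 j) ≤ _
  rw [Matrix.mul_apply, Fin.sum_univ_two]
  refine (v.map_add _ _).trans (max_le ?_ ?_)
  · rw [map_mul]; exact mul_le_mul' (row_le v g 0) (entry_le v h 0 j)
  · rw [map_mul]; exact mul_le_mul' (row_le v g 1) (entry_le v h 1 j)

theorem matN_mul_le (g h : GL (Fin 2) K) : matN v (g * h) ≤ matN v g * matN v h := by
  apply matN_le
  intro i j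
  show v ((g.val * h.val) i j) ≤ _
  rw [Matrix.mul_apply, Fin.sum_univ_two]
  refine (v.map_add _ _).trans (max_le ?_ ?_)
  · rw [map_mul]; exact mul_le_mul' (entry_le v g i 0) (entry_le v h 0 j)
  · rw [map_mul]; exact mul_le_mul' (entry_le v g i 1) (entry_le v h 1 j)

theorem det_mul (g h : GL (Fin 2) K) : v (g * h).val.det = v g.val.det * v h.val.det := by
  rw [Units.val_mul, Matrix.det_mul, map_mul]

theorem bus_mul_le (g h : GL (Fin 2) K) : bus v (g * h) ≤ bus v g * dis v h := by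
  unfold bus dis
  rw [det_mul, mul_inv]
  calc rowN v (g * h) ^ 2 * ((v g.val.det)⁻¹ * (v h.val.det)⁻¹)
      ≤ (rowN v g * matN v h) ^ 2 * ((v g.val.det)⁻¹ * (v h.val.det)⁻¹) :=
        mul_le_mul' (pow_le_pow_left' (rowN_mul_le v g h) 2) le_rfl
    _ = _ := by rw [mul_pow, mul_mul_mul_comm]

theorem dis_mul_le (g h : GL (Fin 2) K) : dis v (g * h) ≤ dis v g * dis v h := by
  unfold dis
  rw [det_mul, mul_inv]
  calc matN v (g * h) ^ 2 * ((v g.val.det)⁻¹ * (v h.val.det)⁻¹)
      ≤ (matN v g * matN v h) ^ 2 * ((v g.val.det)⁻¹ * (v h.val.det)⁻¹) :=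
        mul_le_mul' (pow_le_pow_left' (matN_mul_le v g h) 2) le_rfl
    _ = _ := by rw [mul_pow, mul_mul_mul_comm]

theorem matN_inv (h : GL (Fin 2) K) : matN v h⁻¹ = matN v h * (v h.val.det)⁻¹ := by
  have key : ∀ g : GL (Fin 2) K, matN v g⁻¹ ≤ matN v g * (v g.val.det)⁻¹ := by
    intro g
    apply matN_le
    intro i j
    have h1 : (g⁻¹ : GL (Fin 2) K) i j = g.val.det⁻¹ * g.val.adjugate i j := by
      rw [Matrix.coe_units_inv, Matrix.inv_def, Matrix.smul_apply, smul_eq_mul,
        Ring.inverse_eq_inv']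
    rw [h1, map_mul, map_inv₀, mul_comm]
    refine mul_le_mul' ?_ le_rfl
    rw [Matrix.adjugate_fin_two]
    fin_cases i <;> fin_cases j <;> simp only [Fin.zero_eta, Fin.mk_one, Fin.isValue, of_apply,
      cons_val', cons_val_zero, cons_val_one, cons_val_fin_one, Valuation.map_neg]
    · exact entry_le v g 1 1
    · exact entry_le v g 0 1
    · exact entry_le v g 1 0
    · exact entry_le v g 0 0
  refine le_antisymm (key h) ?_
  have h2 := key h⁻¹
  rw [inv_inv] at h2
  have h3 : v (h⁻¹).val.det = (v h.val.det)⁻¹ := by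
    have := det_mul v h h⁻¹
    rw [mul_inv_cancel, Units.val_one, Matrix.det_one, map_one] at this
    exact eq_inv_of_mul_eq_one_right this.symm
  rw [h3, inv_inv] at h2
  calc matN v h * (v h.val.det)⁻¹ ≤ matN v h⁻¹ * v h.val.det * (v h.val.det)⁻¹ :=
        mul_le_mul' h2 le_rfl
    _ = matN v h⁻¹ := by rw [mul_assoc, mul_inv_cancel₀ (det_ne v h), mul_one]

theorem det_inv (h : GL (Fin 2) K) : v (h⁻¹).val.det = (v h.val.det)⁻¹ := by
  have := det_mul v h h⁻¹
  rw [mul_inv_cancel, Units.val_one, Matrix.det_one, map_one] at this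
  exact eq_inv_of_mul_eq_one_right this.symm

theorem dis_inv (h : GL (Fin 2) K) : dis v h⁻¹ = dis v h := by
  unfold dis
  rw [matN_inv, det_inv, inv_inv, mul_pow]
  have := det_ne v h
  field_simp

theorem le_bus_mul (g h : GL (Fin 2) K) : bus v g ≤ bus v (g * h) * dis v h := by
  have := bus_mul_le v (g * h) h⁻¹
  rwa [mul_inv_cancel_right, dis_inv] at this

/-- An integral matrix with unit determinant has displacement `1`. -/
theorem dis_eq_one {k : GL (Fin 2) K} (h : ∀ i j, v (k i j) ≤ 1) (hdet : v k.val.det = 1) :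
    dis v k = 1 := by
  have h1 : matN v k ≤ 1 := matN_le v h
  have h2 : v k.val.det ≤ matN v k ^ 2 := by
    rw [Matrix.det_fin_two, pow_two]
    refine (v.map_sub _ _).trans (max_le ?_ ?_)
    · rw [map_mul]; exact mul_le_mul' (entry_le v k 0 0) (entry_le v k 1 1)
    · rw [map_mul]; exact mul_le_mul' (entry_le v k 0 1) (entry_le v k 1 0)
  unfold dis
  rw [hdet] at h2
  rw [hdet, inv_one, mul_one]
  exact le_antisymm (pow_le_one' h1 2) h2

theorem bus_mul_of_dis {g k : GL (Fin 2) K} (h : dis v k = 1) : bus v (g * k) = bus v g := by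
  apply le_antisymm
  · simpa [h] using bus_mul_le v g k
  · simpa [h] using le_bus_mul v g k

theorem one_le_dis (g : GL (Fin 2) K) : 1 ≤ dis v g := by
  have h2 : v g.val.det ≤ matN v g ^ 2 := by
    rw [Matrix.det_fin_two, pow_two]
    refine (v.map_sub _ _).trans (max_le ?_ ?_)
    · rw [map_mul]; exact mul_le_mul' (entry_le v g 0 0) (entry_le v g 1 1)
    · rw [map_mul]; exact mul_le_mul' (entry_le v g 0 1) (entry_le v g 1 0)
  unfold dis
  calc (1 : Γ₀) = v g.val.det * (v g.val.det)⁻¹ := (mul_inv_cancel₀ (det_ne v g)).symm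
    _ ≤ _ := mul_le_mul' h2 le_rfl

/-- scalar matrices -/
theorem bus_smul {c : K} (hc : c ≠ 0) {g h : GL (Fin 2) K} (e : ∀ i j, h i j = c * g i j) :
    bus v h = bus v g := by
  have hd : h.val.det = c ^ 2 * g.val.det := by
    rw [Matrix.det_fin_two, Matrix.det_fin_two]
    have e' : ∀ i j, h.val i j = c * g.val i j := e
    rw [e', e', e', e']; ring
  have hr : rowN v h = v c * rowN v g := by
    unfold rowN
    rw [e, e, map_mul, map_mul, mul_max]
  have hvc : v c ≠ 0 := (map_ne_zero v).2 hc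
  have := det_ne v g
  unfold bus
  rw [hd, hr, map_mul, map_pow, mul_inv, mul_pow]
  field_simp

theorem dis_smul {c : K} (hc : c ≠ 0) {g h : GL (Fin 2) K} (e : ∀ i j, h i j = c * g i j) :
    dis v h = dis v g := by
  have hd : h.val.det = c ^ 2 * g.val.det := by
    rw [Matrix.det_fin_two, Matrix.det_fin_two]
    have e' : ∀ i j, h.val i j = c * g.val i j := e
    rw [e', e', e', e']; ring
  have hr : matN v h = v c * matN v g := by
    unfold matN
    rw [e, e, e, e, map_mul, map_mul, map_mul, map_mul, mul_max, mul_max, mul_max]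
  have hvc : v c ≠ 0 := (map_ne_zero v).2 hc
  have := det_ne v g
  unfold dis
  rw [hd, hr, map_mul, map_pow, mul_inv, mul_pow]
  field_simp

/-- an upper triangular matrix scales the Busemann function by `v (d / a)` -/
theorem bus_upper_mul {b : GL (Fin 2) K} (hb : b 1 0 = 0) (g : GL (Fin 2) K) :
    bus v (b * g) = v (b 1 1) * (v (b 0 0))⁻¹ * bus v g := by
  have hb' : b.val 1 0 = 0 := hb
  have hd : b.val.det = b.val 0 0 * b.val 1 1 := by
    rw [Matrix.det_fin_two, hb']; ring
  have h0 : v b.val.det ≠ 0 := det_ne v b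
  rw [hd, map_mul] at h0
  have h00 : v (b 0 0) ≠ 0 := left_ne_zero_of_mul h0
  have h11 : v (b 1 1) ≠ 0 := right_ne_zero_of_mul h0
  have e : ∀ j, (b * g) 1 j = b 1 1 * g 1 j := by
    intro j
    show (b.val * g.val) 1 j = _
    rw [Matrix.mul_apply, Fin.sum_univ_two, hb', zero_mul, zero_add]
  have hr : rowN v (b * g) = v (b 1 1) * rowN v g := by
    unfold rowN
    rw [e, e, map_mul, map_mul, mul_max]
  have hd2 : v b.val.det = v (b 0 0) * v (b 1 1) := by rw [hd, map_mul]
  have h3 := det_ne v g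
  unfold bus
  rw [det_mul, hr, hd2, mul_inv, mul_inv, mul_pow]
  field_simp

/-! ## Iwahori matrices and the exact displacement of `diag (ϖ ^ m, 1)` -/

/-- `k` is in the Iwahori subgroup (upper triangular modulo the maximal ideal). -/
structure Iw (k : GL (Fin 2) K) : Prop where
  a : v (k 0 0) = 1
  b : v (k 0 1) ≤ 1
  c : v (k 1 0) < 1
  d : v (k 1 1) = 1

theorem Iw.det {k : GL (Fin 2) K} (h : Iw v k) : v k.val.det = 1 := by
  rw [Matrix.det_fin_two]
  have h1 : v (k.val 0 0 * k.val 1 1) = 1 := by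
    rw [map_mul]
    show v (k 0 0) * v (k 1 1) = 1
    rw [h.a, h.d, one_mul]
  have h2 : v (k.val 0 1 * k.val 1 0) < 1 := by
    rw [map_mul]
    show v (k 0 1) * v (k 1 0) < 1
    calc v (k 0 1) * v (k 1 0) ≤ 1 * v (k 1 0) := mul_le_mul' h.b le_rfl
      _ = v (k 1 0) := one_mul _
      _ < 1 := h.c
  rw [Valuation.map_sub_eq_of_lt_left]
  · exact h1
  · rw [h1]; exact h2

theorem Iw.dis {k : GL (Fin 2) K} (h : Iw v k) : dis v k = 1 := by
  apply dis_eq_one v _ (h.det v)
  intro i j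
  fin_cases i <;> fin_cases j
  · exact h.a.le
  · exact h.b
  · exact h.c.le
  · exact h.d.le

theorem Iw.inv {k : GL (Fin 2) K} (h : Iw v k) : Iw v k⁻¹ := by
  have hd := h.det v
  have e : ∀ i j, (k⁻¹ : GL (Fin 2) K) i j = k.val.det⁻¹ * k.val.adjugate i j := by
    intro i j
    rw [Matrix.coe_units_inv, Matrix.inv_def, Matrix.smul_apply, smul_eq_mul,
      Ring.inverse_eq_inv']
  have e' : ∀ i j, v ((k⁻¹ : GL (Fin 2) K) i j) = v (k.val.adjugate i j) := by
    intro i j
    rw [e, map_mul, map_inv₀, hd, inv_one, one_mul]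
  refine ⟨?_, ?_, ?_, ?_⟩
  · rw [e', Matrix.adjugate_fin_two]; exact h.d
  · rw [e', Matrix.adjugate_fin_two]
    show v (-(k 0 1)) ≤ 1
    rw [Valuation.map_neg]; exact h.b
  · rw [e', Matrix.adjugate_fin_two]
    show v (-(k 1 0)) < 1
    rw [Valuation.map_neg]; exact h.c
  · rw [e', Matrix.adjugate_fin_two]; exact h.a

theorem eq_one_of_sq {a : Γ₀} (h : a ^ 2 = 1) : a = 1 := by
  rcases lt_trichotomy a 1 with h1 | h1 | h1
  · exfalso
    have h2 : a * a ≤ 1 * a := mul_le_mul' h1.le le_rfl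
    rw [one_mul, ← pow_two, h] at h2
    exact absurd h1 h2.not_gt
  · exact h1
  · exfalso
    have h2 : 1 * a ≤ a * a := mul_le_mul' h1.le le_rfl
    rw [one_mul, ← pow_two, h] at h2
    exact absurd h1 h2.not_gt

theorem matN_eq_one {k : GL (Fin 2) K} (h : dis v k = 1) (hd : v k.val.det = 1) :
    matN v k = 1 := by
  unfold H6.Z.dis at h
  rw [hd, inv_one, mul_one] at h
  exact eq_one_of_sq h

theorem rowN_mul_of_dis {g k : GL (Fin 2) K} (h : dis v k = 1) (hd : v k.val.det = 1) :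
    rowN v (g * k) = rowN v g := by
  apply le_antisymm
  · simpa [matN_eq_one v h hd] using rowN_mul_le v g k
  · have h1 : dis v k⁻¹ = 1 := by rw [dis_inv, h]
    have h2 : v (k⁻¹).val.det = 1 := by rw [det_inv, hd, inv_one]
    have := rowN_mul_le v (g * k) k⁻¹
    rw [mul_inv_cancel_right, matN_eq_one v h1 h2, mul_one] at this
    exact this

theorem mul_entry (g h : GL (Fin 2) K) (i j : Fin 2) :
    (g * h) i j = g i 0 * h 0 j + g i 1 * h 1 j := by
  show (g.val * h.val) i j = _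
  rw [Matrix.mul_apply, Fin.sum_univ_two]

theorem bus_congr {g h : GL (Fin 2) K} (e : ∀ j, v (g 1 j) = v (h 1 j))
    (hdet : v g.val.det = v h.val.det) : bus v g = bus v h := by
  unfold bus rowN
  rw [e, e, hdet]

/-- **V0 lemma.**  If `b` is upper triangular, `x'` has entries of
the same valuations as `x` (in the applications `x' = s x`) and, up to a scalar,
`b x' = x k₁ diag(p ^ m, 1) k₂` with `k₁, k₂` Iwahori and `v p < 1`, then
`v (b 1 1 / b 0 0) = (v p) ^ m` or `(v p) ^ (-m)`. -/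
theorem upper_displacement {p : K} (hp0 : p ≠ 0) (hp : v p < 1)
    {b x x' k₁ k₂ a : GL (Fin 2) K} {z : K} (hz : z ≠ 0) (hb : b 1 0 = 0)
    (hx : ∀ j, v (x' 1 j) = v (x 1 j)) (hdet : v x'.val.det = v x.val.det)
    (hk₁ : Iw v k₁) (hk₂ : Iw v k₂) (m : ℕ)
    (ha00 : a 0 0 = p ^ m) (ha01 : a 0 1 = 0) (ha10 : a 1 0 = 0) (ha11 : a 1 1 = 1)
    (e : ∀ i j, (b * x') i j = z * (x * k₁ * a * k₂) i j) :
    v (b 1 1) * (v (b 0 0))⁻¹ = v p ^ m ∨ v (b 1 1) * (v (b 0 0))⁻¹ = (v p ^ m)⁻¹ := by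
  have hϖ0 : v p ≠ 0 := (map_ne_zero v).2 hp0
  have hϖm : v p ^ m ≠ 0 := pow_ne_zero _ hϖ0
  have hϖm1 : v p ^ m ≤ 1 := pow_le_one' hp.le m
  set u : GL (Fin 2) K := x * k₁ with hu
  have hbus : v (b 1 1) * (v (b 0 0))⁻¹ * bus v x = bus v (u * a) := by
    rw [← bus_congr v hx hdet, ← bus_upper_mul v hb, bus_smul v hz e,
      bus_mul_of_dis v (hk₂.dis v)]
  have hbu : bus v u = bus v x := bus_mul_of_dis v (hk₁.dis v)
  have hadet : v a.val.det = v p ^ m := by
    have : a.val.det = p ^ m := by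
      rw [Matrix.det_fin_two]
      have h1 : a.val 0 0 = p ^ m := ha00
      have h2 : a.val 0 1 = 0 := ha01
      have h4 : a.val 1 1 = 1 := ha11
      rw [h1, h2, h4]; ring
    rw [this, map_pow]
  have hua0 : (u * a) 1 0 = u 1 0 * p ^ m := by
    rw [mul_entry, ha00, ha10]; ring
  have hua1 : (u * a) 1 1 = u 1 1 := by
    rw [mul_entry, ha01, ha11]; ring
  have hrow : rowN v (u * a) = max (v (u 1 0) * v p ^ m) (v (u 1 1)) := by
    unfold rowN
    rw [hua0, hua1, map_mul, map_pow]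
  have hdu := det_ne v u
  have hbx := bus_ne v x
  rcases le_or_gt (v (u 1 0)) (v (u 1 1)) with hc | hc
  · -- first case
    right
    have h1 : rowN v (u * a) = v (u 1 1) := by
      rw [hrow, max_eq_right]
      calc v (u 1 0) * v p ^ m ≤ v (u 1 0) * 1 := mul_le_mul' le_rfl hϖm1
        _ = v (u 1 0) := mul_one _
        _ ≤ _ := hc
    have h2 : rowN v u = v (u 1 1) := max_eq_right hc
    have h3 : bus v (u * a) = (v p ^ m)⁻¹ * bus v u := by
      unfold bus
      rw [h1, h2, det_mul, hadet, mul_inv, mul_left_comm (v p ^ m)⁻¹, mul_comm (v p ^ m)⁻¹]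
    rw [h3, hbu] at hbus
    exact mul_right_cancel₀ hbx hbus
  · -- second case
    left
    set R := v (u 1 0) with hR
    have hR2 : rowN v u = R := max_eq_left hc.le
    have hR0 : R ≠ 0 := by rw [← hR2]; exact rowN_ne v u
    -- the bottom row of `x`
    have hx1 : x = u * k₁⁻¹ := by rw [hu, mul_inv_cancel_right]
    have hk := hk₁.inv v
    have hx10 : v (x 1 0) = R := by
      rw [hx1, mul_entry]
      have h1 : v (u 1 0 * (k₁⁻¹ : GL (Fin 2) K) 0 0) = R := by
        rw [map_mul, hk.a, mul_one]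
      have h2 : v (u 1 1 * (k₁⁻¹ : GL (Fin 2) K) 1 0) < R := by
        rw [map_mul]
        calc v (u 1 1) * v ((k₁⁻¹ : GL (Fin 2) K) 1 0) ≤ v (u 1 1) * 1 :=
              mul_le_mul' le_rfl hk.c.le
          _ = v (u 1 1) := mul_one _
          _ < R := hc
      rw [Valuation.map_add_eq_of_lt_left]
      · exact h1
      · rw [h1]; exact h2
    have hrx : rowN v x = R := by
      rw [hx1, rowN_mul_of_dis v (hk.dis v) (hk.det v)]
      exact hR2
    have hle : v (x' 1 1) ≤ v (x' 1 0) := by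
      rw [hx, hx, hx10, ← hrx]
      exact row_le v x 1
    have hb' : b 1 0 = 0 := hb
    have e1 : ∀ j, (b * x') 1 j = b 1 1 * x' 1 j := by
      intro j
      rw [mul_entry, hb', zero_mul, zero_add]
    have hvz : v z ≠ 0 := (map_ne_zero v).2 hz
    have hyle : v ((u * a * k₂) 1 1) ≤ v ((u * a * k₂) 1 0) := by
      have h1 : v z * v ((u * a * k₂) 1 1) ≤ v z * v ((u * a * k₂) 1 0) := by
        rw [← map_mul, ← map_mul, ← e, ← e, e1, e1, map_mul, map_mul]
        exact mul_le_mul' le_rfl hle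
      exact le_of_mul_le_mul_left h1 (zero_lt_iff.2 hvz)
    have hu11 : v (u 1 1) ≤ R * v p ^ m := by
      by_contra hcon
      push Not at hcon
      have h11 : v ((u * a * k₂) 1 1) = v (u 1 1) := by
        rw [mul_entry, hua0, hua1]
        have h1 : v (u 1 1 * k₂ 1 1) = v (u 1 1) := by rw [map_mul, hk₂.d, mul_one]
        have h2 : v (u 1 0 * p ^ m * k₂ 0 1) < v (u 1 1) := by
          rw [map_mul, map_mul, map_pow]
          calc v (u 1 0) * v p ^ m * v (k₂ 0 1) ≤ v (u 1 0) * v p ^ m * 1 :=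
                mul_le_mul' le_rfl hk₂.b
            _ = R * v p ^ m := mul_one _
            _ < _ := hcon
        rw [Valuation.map_add_eq_of_lt_right]
        · exact h1
        · rw [h1]; exact h2
      have h10 : v ((u * a * k₂) 1 0) < v (u 1 1) := by
        rw [mul_entry, hua0, hua1]
        have hu0 : 0 < v (u 1 1) := lt_of_le_of_lt zero_le hcon
        refine (v.map_add _ _).trans_lt (max_lt ?_ ?_)
        · rw [map_mul, map_mul, map_pow, hk₂.a, mul_one]
          exact hcon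
        · rw [map_mul]
          calc v (u 1 1) * v (k₂ 1 0) < v (u 1 1) * 1 := mul_lt_mul_of_pos_left hk₂.c hu0
            _ = _ := mul_one _
      rw [h11] at hyle
      exact absurd h10 hyle.not_gt
    have h1 : rowN v (u * a) = R * v p ^ m := by
      rw [hrow, max_eq_left hu11]
    have h3 : bus v (u * a) = v p ^ m * bus v u := by
      unfold bus
      rw [h1, hR2, det_mul, hadet, mul_inv, mul_pow]
      field_simp
    rw [h3, hbu] at hbus
    exact mul_right_cancel₀ hbx hbus

end Fermat.Agent.H6.Z
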