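import Fermat.Agent.H6ZNv

/-!
# S47, C17-EXCL: no contributing class fixes a line

Product formula argument for the Busemann function.
-/

set_option autoImplicit false

namespace Fermat.Agent.H6.Z

open Matrix NumberField IsDedekindDomain WithZero
open Fermat.Agent.H59XF Fermat.Agent.H59D
open scoped MatrixGroups NNReal

theorem finprod_ineq {ι : Type*} (σ : Equiv.Perm ι) {f₁ f₂ r D E : ι → ℝ≥0}
    (hf₁ : {i | f₁ i ≠ 1}.Finite) (hf₂ : {i | f₂ i ≠ 1}.Finite) (hr : {i | r i ≠ 1}.Finite)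
    (hD : {i | D i ≠ 1}.Finite) (hE : {i | E i ≠ 1}.Finite)
    (h0 : ∀ i, f₁ i ≠ 0)
    (h1 : ∀ i, f₁ i ≤ D i * r i * f₂ i) (h2 : ∀ i, f₂ (σ i) ≤ E i * f₁ i) :
    1 ≤ (∏ᶠ i, D i) * (∏ᶠ i, E i) * ∏ᶠ i, r i := by
  classical
  have hf₂' : {i | f₂ (σ i) ≠ 1}.Finite := hf₂.preimage σ.injective.injOn
  set T : Finset ι := hf₁.toFinset ∪ hf₂.toFinset ∪ hr.toFinset ∪ hD.toFinset ∪ hE.toFinset ∪
    hf₂'.toFinset with hT
  have e : ∀ {f : ι → ℝ≥0} (hf : {i | f i ≠ 1}.Finite) (_ : hf.toFinset ⊆ T),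
      ∏ᶠ i, f i = ∏ i ∈ T, f i := by
    intro f hf hs
    apply finprod_eq_prod_of_mulSupport_subset
    intro i hi
    exact hs (by simpa using hi)
  have e1 := e hf₁ (by intro x hx; simp only [hT, Finset.mem_union]; tauto)
  have e2 := e hf₂ (by intro x hx; simp only [hT, Finset.mem_union]; tauto)
  have e3 := e hr (by intro x hx; simp only [hT, Finset.mem_union]; tauto)
  have e4 := e hD (by intro x hx; simp only [hT, Finset.mem_union]; tauto)
  have e5 := e hE (by intro x hx; simp only [hT, Finset.mem_union]; tauto)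
  have e6 := e hf₂' (by intro x hx; simp only [hT, Finset.mem_union]; tauto)
  have h3 : ∏ᶠ i, f₂ (σ i) = ∏ᶠ i, f₂ i := finprod_comp_equiv σ
  rw [h3] at e6
  have h4 : ∏ i ∈ T, f₁ i ≤ (∏ i ∈ T, D i) * (∏ i ∈ T, r i) * ∏ i ∈ T, f₂ i := by
    rw [← Finset.prod_mul_distrib, ← Finset.prod_mul_distrib]
    exact Finset.prod_le_prod' fun i _ => h1 i
  have h5 : ∏ i ∈ T, f₂ (σ i) ≤ (∏ i ∈ T, E i) * ∏ i ∈ T, f₁ i := by
    rw [← Finset.prod_mul_distrib]
    exact Finset.prod_le_prod' fun i _ => h2 i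
  rw [← e6, e2] at h5
  rw [e3, e4, e5]
  have h6 : 0 < ∏ i ∈ T, f₁ i := Finset.prod_pos fun i _ => pos_iff_ne_zero.2 (h0 i)
  have h7 : 1 * ∏ i ∈ T, f₁ i ≤
      ((∏ i ∈ T, D i) * (∏ i ∈ T, E i) * ∏ i ∈ T, r i) * ∏ i ∈ T, f₁ i := by
    rw [one_mul]
    calc ∏ i ∈ T, f₁ i ≤ (∏ i ∈ T, D i) * (∏ i ∈ T, r i) * ∏ i ∈ T, f₂ i := h4
      _ ≤ (∏ i ∈ T, D i) * (∏ i ∈ T, r i) * ((∏ i ∈ T, E i) * ∏ i ∈ T, f₁ i) :=
        mul_le_mul_right h5 _
      _ = _ := by ring
  exact le_of_mul_le_mul_right h7 h6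

/-- A local kernel has bounded displacement for the Busemann function. -/
theorem locKer_bound {K : Type*} [Field K] (v : Valuation K ℝ≥0) {U : Subgroup PGL(2, K)}
    {c : PGL(2, K)} (hU : ∀ g ∈ U, pdis v (c⁻¹ * g * c) = 1) (A : LocKer U) :
    ∃ D : ℝ≥0, 1 ≤ D ∧ (A = LocKer.one → D = 1) ∧ ∀ y y', A.k y y' ≠ 0 →
      cbus v c y' ≤ D * cbus v c y ∧ cbus v c y ≤ D * cbus v c y' := by
  classical
  by_cases hA : A = LocKer.one
  · refine ⟨1, le_rfl, fun _ => rfl, fun y y' h => ?_⟩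
    rw [hA, LocKer.one_k] at h
    have e : y = y' := by
      by_contra hne
      exact h (if_neg hne)
    rw [e, one_mul]
    exact ⟨le_rfl, le_rfl⟩
  · set S : Finset (PGL(2, K) ⧸ U) := (A.fin_right ((1 : PGL(2, K)) : PGL(2, K) ⧸ U)).toFinset
      with hS
    set D : ℝ≥0 := ∏ z ∈ S, pdis v (c⁻¹ * Quotient.out z * c) with hD
    have hD1 : ∀ z ∈ S, pdis v (c⁻¹ * Quotient.out z * c) ≤ D := fun z hz =>
      Finset.single_le_prod' (f := fun z => pdis v (c⁻¹ * Quotient.out z * c))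
        (fun i _ => one_le_pdis v _) hz
    refine ⟨D, Finset.one_le_prod' fun z _ => one_le_pdis v _, fun h => absurd h hA, ?_⟩
    intro y y' h
    induction y using QuotientGroup.induction_on with
    | H g =>
      induction y' using QuotientGroup.induction_on with
      | H g' =>
        have hz : ((g⁻¹ * g' : PGL(2, K)) : PGL(2, K) ⧸ U) ∈ S := by
          rw [hS, Set.Finite.mem_toFinset, Set.mem_ofPred_eq, ← A.inv g]
          have e1 : g • ((1 : PGL(2, K)) : PGL(2, K) ⧸ U) = ((g : PGL(2, K)) : PGL(2, K) ⧸ U) := by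
            show ((g * 1 : PGL(2, K)) : PGL(2, K) ⧸ U) = _
            rw [mul_one]
          have e2 : g • ((g⁻¹ * g' : PGL(2, K)) : PGL(2, K) ⧸ U) =
              ((g' : PGL(2, K)) : PGL(2, K) ⧸ U) := by
            show ((g * (g⁻¹ * g') : PGL(2, K)) : PGL(2, K) ⧸ U) = _
            rw [mul_inv_cancel_left]
          rw [e1, e2]
          exact h
        have hb := hD1 _ hz
        set z : PGL(2, K) := Quotient.out ((g⁻¹ * g' : PGL(2, K)) : PGL(2, K) ⧸ U) with hzdef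
        have hy' : ((g' : PGL(2, K)) : PGL(2, K) ⧸ U) = ((g * z : PGL(2, K)) : PGL(2, K) ⧸ U) := by
          obtain ⟨u, hu⟩ := QuotientGroup.mk_out_eq_mul U (g⁻¹ * g')
          rw [hzdef, hu, QuotientGroup.eq]
          have : g'⁻¹ * (g * (g⁻¹ * g' * (u : PGL(2, K)))) = u := by group
          rw [this]
          exact u.2
        rw [hy', cbus_mk v hU, cbus_mk v hU]
        have e3 : g * z * c = g * c * (c⁻¹ * z * c) := by group
        rw [e3]
        constructor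
        · refine (pbus_mul_le v _ _).trans ?_
          rw [mul_comm]
          exact mul_le_mul' hb le_rfl
        · refine (le_pbus_mul v _ (c⁻¹ * z * c)).trans ?_
          rw [mul_comm]
          exact mul_le_mul' hb le_rfl

/-! ## The model -/

section Model

variable {K : Type*} [Field K] [NumberField K] {J : Type*} [Fintype J]

theorem pdis_of_mem_U0 {w : HeightOneSpectrum (𝓞 K)} {g : PGL(2, K)} (h : g ∈ U0 w) :
    pdis (nv w) g = 1 := by
  obtain ⟨k, ⟨hk, hd⟩, rfl⟩ := h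
  rw [pdis_mk]
  exact dis_eq_one _ (fun i j => nv_le_one_iff.2 (hk i j)) (nv_eq_one_iff.2 hd)

variable (m : Model K J)

open Classical in
/-- a conjugating element for the level -/
noncomputable def mc (w : HeightOneSpectrum (𝓞 K)) : PGL(2, K) :=
  if m.L.U w = U0 w then 1 else (m.L.bdd w).choose

theorem mc_spec (w : HeightOneSpectrum (𝓞 K)) (g : PGL(2, K)) (hg : g ∈ m.L.fam.U w) :
    pdis (nv w) ((mc m w)⁻¹ * g * mc m w) = 1 := by
  have hg' : g ∈ m.L.U w := hg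
  apply pdis_of_mem_U0
  unfold mc
  split_ifs with h
  · rw [inv_one, one_mul, mul_one, ← h]
    exact hg'
  · exact (m.L.bdd w).choose_spec g hg'

theorem mc_finite : {w | mc m w ≠ 1}.Finite := by
  refine m.L.fin.subset ?_
  intro w hw h
  apply hw
  unfold mc
  rw [if_pos h]

/-- the Busemann function on `PGL₂(K) ⧸ U_w` -/
noncomputable def mB (w : HeightOneSpectrum (𝓞 K)) (y : PGL(2, K) ⧸ m.L.fam.U w) : ℝ≥0 :=
  cbus (nv w) (mc m w) y

theorem mB_ne (w : HeightOneSpectrum (𝓞 K)) (y : PGL(2, K) ⧸ m.L.fam.U w) : mB m w y ≠ 0 :=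
  cbus_ne _ _

theorem mB_upper {b : GL (Fin 2) K} (hb : b 1 0 = 0) (w : HeightOneSpectrum (𝓞 K))
    (y : PGL(2, K) ⧸ m.L.fam.U w) : mB m w ((ProjGenLinGroup.mk b : PGL(2, K)) • y) =
      nv w (b 1 1 / b 0 0) * mB m w y := by
  unfold mB
  rw [cbus_upper_smul _ (mc_spec m w) hb, map_div₀, div_eq_mul_inv]

theorem mB_finite (x : XF m.L.fam) : {w | mB m w (x w) ≠ 1}.Finite := by
  refine (x.fin.union (mc_finite m)).subset ?_
  intro w hw
  by_contra hcon
  simp only [Set.mem_union, Set.mem_ofPred_eq, not_or, not_not] at hcon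
  apply hw
  have h1 : x w = ((1 : PGL(2, K)) : PGL(2, K) ⧸ m.L.fam.U w) := hcon.1
  unfold mB
  rw [h1, cbus_mk _ (mc_spec m w), hcon.2, mul_one, pbus_one]

theorem act_apply_of_eq {G ι : Type*} [Group G] {L : LevelFam G ι} (t : Twist L) {i j : ι}
    (h : t.σ i = j) (x : XF L) {g : G} (hg : x i = ((g : G) : G ⧸ L.U i)) :
    t.act x j = ((t.s g : G) : G ⧸ L.U j) := by
  subst h
  rw [Twist.act_apply_σ, hg, Twist.cmap_mk]

variable {m} (a : AutData m)

/-- the discrepancy of `s` at a place -/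
noncomputable def mE (w : HeightOneSpectrum (𝓞 K)) : ℝ≥0 :=
  pdis (nv (a.σ w)) ((ProjGenLinGroup.map (a.s : K →+* K) (mc m w))⁻¹ * mc m (a.σ w))

theorem mE_finite : {w | mE a w ≠ 1}.Finite := by
  refine ((mc_finite m).union ((mc_finite m).preimage (f := a.σ) a.σ.injective.injOn)).subset ?_
  intro w hw
  by_contra hcon
  simp only [Set.mem_union, Set.mem_preimage, Set.mem_ofPred_eq, not_or, not_not] at hcon
  apply hw
  unfold mE
  rw [hcon.1, hcon.2, map_one, inv_one, one_mul]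
  exact pdis_of_mem_U0 (one_mem _)

theorem one_le_mE (w : HeightOneSpectrum (𝓞 K)) : 1 ≤ mE a w := one_le_pdis _ _

theorem mB_act (x : XF m.L.fam) (w : HeightOneSpectrum (𝓞 K)) :
    mB m (a.σ w) (a.twist.act x (a.σ w)) ≤ mE a w * mB m w (x w) ∧
      mB m w (x w) ≤ mE a w * mB m (a.σ w) (a.twist.act x (a.σ w)) := by
  obtain ⟨g, hg⟩ := QuotientGroup.mk_surjective (x w)
  have h1 : a.twist.act x (a.σ w) =
      ((ProjGenLinGroup.map (a.s : K →+* K) g : PGL(2, K)) : PGL(2, K) ⧸ m.L.fam.U (a.σ w)) :=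
    act_apply_of_eq a.twist rfl x hg.symm
  have hval : ∀ x, nv (a.σ w) ((a.s : K →+* K) x) = nv w x := fun x =>
    nv_map_of_val (a.val w) x
  unfold mB
  rw [h1, ← hg, cbus_mk _ (mc_spec m w), cbus_mk _ (mc_spec m (a.σ w))]
  have e : ProjGenLinGroup.map (a.s : K →+* K) g * mc m (a.σ w) =
      ProjGenLinGroup.map (a.s : K →+* K) (g * mc m w) *
        ((ProjGenLinGroup.map (a.s : K →+* K) (mc m w))⁻¹ * mc m (a.σ w)) := by
    rw [map_mul]; group
  rw [← pbus_map (nv w) hval (g * mc m w), e]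
  constructor
  · rw [mul_comm (mE a w)]
    exact pbus_mul_le _ _ _
  · rw [mul_comm (mE a w)]
    exact le_pbus_mul _ _ _

theorem inv_le_aux {A B D : ℝ≥0} (hB : B ≠ 0) (hA : A ≠ 0) (h : B ≤ D * A) : A⁻¹ ≤ D * B⁻¹ := by
  rw [← mul_inv_le_iff₀ (pos_iff_ne_zero.2 (inv_ne_zero hB)), inv_inv,
    inv_mul_le_iff₀ (pos_iff_ne_zero.2 hA), mul_comm]
  exact h

theorem fin_bound {w₀ : HeightOneSpectrum (𝓞 K)} (h₀ : a.σ w₀ = w₀) (A : GlobKer m.L.fam) :
    ∃ C : ℝ≥0, 1 ≤ C ∧ ∀ (x : m.X) (b : GL (Fin 2) K), b 1 0 = 0 →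
      (∀ w ≠ w₀, (A.loc w).k (x.2 w)
        (((ProjGenLinGroup.mk b : PGL(2, K)) • a.act x).2 w) ≠ 0) →
      ∀ P : ℝ≥0, P = ∏ᶠ w, nv w (b 1 1 / b 0 0) → nv w₀ (b 1 1 / b 0 0) ≤ C * P ∧
        P ≤ C * nv w₀ (b 1 1 / b 0 0) := by
  classical
  choose D₀ hD₀ hD₁ hD₂ using fun w => locKer_bound (nv w) (mc_spec m w) (A.loc w)
  set D : HeightOneSpectrum (𝓞 K) → ℝ≥0 := fun w => if w = w₀ then 1 else D₀ w with hD
  set E : HeightOneSpectrum (𝓞 K) → ℝ≥0 := fun w => if w = w₀ then 1 else mE a w with hE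
  have hDfin : {w | D w ≠ 1}.Finite := by
    refine A.fin.subset ?_
    intro w hw h
    apply hw
    rw [hD]
    dsimp only
    split_ifs
    · rfl
    · exact hD₁ w h
  have hEfin : {w | E w ≠ 1}.Finite := by
    refine (mE_finite a).subset ?_
    intro w hw h
    apply hw
    rw [hE]
    dsimp only
    split_ifs
    · rfl
    · exact h
  have hD' : ∀ w, 1 ≤ D w := by
    intro w
    rw [hD]
    dsimp only
    split_ifs
    · exact le_rfl
    · exact hD₀ w
  have hE' : ∀ w, 1 ≤ E w := by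
    intro w
    rw [hE]
    dsimp only
    split_ifs
    · exact le_rfl
    · exact one_le_mE a w
  have hone : ∀ {f : HeightOneSpectrum (𝓞 K) → ℝ≥0} (hf : {w | f w ≠ 1}.Finite)
      (_ : ∀ w, 1 ≤ f w), 1 ≤ ∏ᶠ w, f w := by
    intro f hf h
    rw [finprod_eq_prod f hf]
    exact Finset.one_le_prod' fun w _ => h w
  refine ⟨(∏ᶠ w, D w) * (∏ᶠ w, E w), one_le_mul (hone hDfin hD') (hone hEfin hE'), ?_⟩
  intro x b hb hx P hP
  set t : K := b 1 1 / b 0 0 with ht
  have hdet : b.val.det = b 0 0 * b 1 1 := by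
    rw [Matrix.det_fin_two]
    have : b.val 1 0 = 0 := hb
    rw [this]; ring
  have hdet0 : b 0 0 * b 1 1 ≠ 0 := by
    rw [← hdet]
    exact b.det.ne_zero
  have ht0 : t ≠ 0 := div_ne_zero (right_ne_zero_of_mul hdet0) (left_ne_zero_of_mul hdet0)
  set f₁ : HeightOneSpectrum (𝓞 K) → ℝ≥0 := fun w => if w = w₀ then 1 else mB m w (x.2 w)
    with hf₁
  set f₂ : HeightOneSpectrum (𝓞 K) → ℝ≥0 :=
    fun w => if w = w₀ then 1 else mB m w (a.twist.act x.2 w) with hf₂
  set r : HeightOneSpectrum (𝓞 K) → ℝ≥0 := fun w => if w = w₀ then 1 else nv w t with hr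
  have hf₁fin : {w | f₁ w ≠ 1}.Finite := by
    refine (mB_finite m x.2).subset ?_
    intro w hw h
    apply hw
    rw [hf₁]
    dsimp only
    split_ifs
    · rfl
    · exact h
  have hf₂fin : {w | f₂ w ≠ 1}.Finite := by
    refine (mB_finite m (a.twist.act x.2)).subset ?_
    intro w hw h
    apply hw
    rw [hf₂]
    dsimp only
    split_ifs
    · rfl
    · exact h
  have hrfin : {w | r w ≠ 1}.Finite := by
    refine (nv_finite ht0).subset ?_
    intro w hw h
    apply hw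
    rw [hr]
    dsimp only
    split_ifs
    · rfl
    · exact h
  have hf₁0 : ∀ w, f₁ w ≠ 0 := by
    intro w
    rw [hf₁]
    dsimp only
    split_ifs
    · exact one_ne_zero
    · exact mB_ne m w _
  have hf₂0 : ∀ w, f₂ w ≠ 0 := by
    intro w
    rw [hf₂]
    dsimp only
    split_ifs
    · exact one_ne_zero
    · exact mB_ne m w _
  have hr0 : ∀ w, r w ≠ 0 := by
    intro w
    rw [hr]
    dsimp only
    split_ifs
    · exact one_ne_zero
    · exact (map_ne_zero _).2 ht0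
  -- the local inequalities
  have hloc : ∀ w, f₁ w ≤ D w * r w * f₂ w ∧ r w * f₂ w ≤ D w * f₁ w := by
    intro w
    rw [hf₁, hf₂, hr, hD]
    dsimp only
    split_ifs with hw
    · simp
    · have h1 := hD₂ w _ _ (hx w hw)
      have h2 : ((ProjGenLinGroup.mk b : PGL(2, K)) • a.act x).2 w =
          (ProjGenLinGroup.mk b : PGL(2, K)) • (a.twist.act x.2 w) := rfl
      have h3 : cbus (nv w) (mc m w) (((ProjGenLinGroup.mk b : PGL(2, K)) • a.act x).2 w) =
          nv w t * mB m w (a.twist.act x.2 w) := by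
        rw [h2]
        exact mB_upper m hb w _
      rw [h3] at h1
      rw [mul_assoc]
      exact ⟨h1.2, h1.1⟩
  have hact : ∀ w, f₂ (a.σ w) ≤ E w * f₁ w ∧ f₁ w ≤ E w * f₂ (a.σ w) := by
    intro w
    rw [hf₁, hf₂, hE]
    dsimp only
    by_cases hw : w = w₀
    · subst hw
      rw [if_pos h₀, if_pos rfl, if_pos rfl, one_mul]
      exact ⟨le_rfl, le_rfl⟩
    · have hw' : a.σ w ≠ w₀ := by
        intro h
        apply hw
        rw [← h₀] at h
        exact a.σ.injective h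
      rw [if_neg hw', if_neg hw, if_neg hw]
      exact mB_act a x.2 w
  have g1 : 1 ≤ (∏ᶠ w, D w) * (∏ᶠ w, E w) * ∏ᶠ w, r w :=
    finprod_ineq a.σ hf₁fin hf₂fin hrfin hDfin hEfin hf₁0 (fun w => (hloc w).1)
      (fun w => (hact w).1)
  have hinv : ∀ {f : HeightOneSpectrum (𝓞 K) → ℝ≥0} (_ : {w | f w ≠ 1}.Finite),
      {w | (f w)⁻¹ ≠ 1}.Finite := by
    intro f hf
    refine hf.subset ?_
    intro w hw h
    exact hw (by rw [h, inv_one])
  have g2 : 1 ≤ (∏ᶠ w, D w) * (∏ᶠ w, E w) * ∏ᶠ w, (r w)⁻¹ := by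
    refine finprod_ineq (f₁ := fun w => (f₁ w)⁻¹) (f₂ := fun w => (f₂ w)⁻¹)
      (r := fun w => (r w)⁻¹) a.σ (hinv hf₁fin) (hinv hf₂fin) (hinv hrfin) hDfin hEfin
      (fun w => inv_ne_zero (hf₁0 w)) (fun w => ?_) (fun w => ?_)
    · have h1 := inv_le_aux (mul_ne_zero (hr0 w) (hf₂0 w)) (hf₁0 w) (hloc w).2
      rw [mul_inv, ← mul_assoc] at h1
      exact h1
    · exact inv_le_aux (hf₁0 w) (hf₂0 _) (hact w).2
  -- comparison with the full product
  have hsplit : P = nv w₀ t * ∏ᶠ w, r w := by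
    rw [hP, finprod_eq_prod_of_mulSupport_subset (s := insert w₀ (nv_finite ht0).toFinset),
      finprod_eq_prod_of_mulSupport_subset (s := insert w₀ (nv_finite ht0).toFinset),
      ← Finset.mul_prod_erase _ _ (Finset.mem_insert_self w₀ _),
      ← Finset.mul_prod_erase _ r (Finset.mem_insert_self w₀ _)]
    · congr 1
      have hr₀ : r w₀ = 1 := by rw [hr]; simp
      rw [hr₀, one_mul]
      refine Finset.prod_congr rfl fun w hw => ?_
      rw [hr]
      dsimp only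
      rw [if_neg (Finset.ne_of_mem_erase hw)]
    · intro w hw
      have : r w ≠ 1 := hw
      have h2 : w ∈ {w | nv w t ≠ 1} := by
        intro h
        apply this
        rw [hr]
        dsimp only
        split_ifs
        · rfl
        · exact h
      simp only [Finset.coe_insert, Set.Finite.coe_toFinset]
      exact Or.inr h2
    · intro w hw
      simp only [Finset.coe_insert, Set.Finite.coe_toFinset]
      exact Or.inr hw
  have hprodinv : ∏ᶠ w, (r w)⁻¹ = (∏ᶠ w, r w)⁻¹ := by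
    rw [finprod_eq_prod r hrfin, finprod_eq_prod_of_mulSupport_subset (s := hrfin.toFinset),
      Finset.prod_inv_distrib]
    · rfl
    · intro w hw
      simp only [Set.Finite.coe_toFinset, Set.mem_ofPred_eq]
      intro h
      exact hw (by show (r w)⁻¹ = 1; rw [h, inv_one])
  have hQ0 : ∏ᶠ w, r w ≠ 0 := by
    rw [finprod_eq_prod r hrfin]
    exact Finset.prod_ne_zero_iff.2 fun w _ => hr0 w
  rw [hprodinv] at g2
  have ht' : nv w₀ t ≠ 0 := (map_ne_zero _).2 ht0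
  rw [hsplit]
  constructor
  · calc nv w₀ t = nv w₀ t * 1 := (mul_one _).symm
      _ ≤ nv w₀ t * ((∏ᶠ w, D w) * (∏ᶠ w, E w) * ∏ᶠ w, r w) := mul_le_mul' le_rfl g1
      _ = _ := by ring
  · have g3 : ∏ᶠ w, r w ≤ (∏ᶠ w, D w) * (∏ᶠ w, E w) := by
      rw [← div_eq_mul_inv, le_div_iff₀ (pos_iff_ne_zero.2 hQ0), one_mul] at g2
      exact g2
    calc nv w₀ t * ∏ᶠ w, r w ≤ nv w₀ t * ((∏ᶠ w, D w) * (∏ᶠ w, E w)) := mul_le_mul' le_rfl g3
      _ = _ := by ring

end Model

end Fermat.Agent.H6.Z
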