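import Fermat.Agent.H6ZExcl2
import Fermat.Agent.H51ZIw

/-!
# S47, C17-EXCL: the statement for the kernels `κ ⊗ B.k` with component `U^n` at `w₀`
-/

set_option autoImplicit false

namespace Fermat.Agent.H6.Z

open Matrix NumberField IsDedekindDomain WithZero
open Fermat.Agent.H59XF Fermat.Agent.H59D Fermat.Agent.H80T
open scoped MatrixGroups NNReal WithZero

section Local

variable {F : Type*} [Field F] {v : Valuation F ℤᵐ⁰}

/-- division of a matrix by its entry `1 1` -/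
theorem exists_div {g : GL (Fin 2) F} (h : g 1 1 ≠ 0) :
    ∃ B : GL (Fin 2) F, ProjGenLinGroup.mk B = (ProjGenLinGroup.mk g : PGL(2, F)) ∧
      (∀ i j, B i j = (g 1 1)⁻¹ * g i j) ∧ B.val.det = (g 1 1)⁻¹ ^ 2 * g.val.det := by
  have hd : ((g 1 1)⁻¹ • g.val).det ≠ 0 := by
    rw [Matrix.det_smul]
    exact mul_ne_zero (pow_ne_zero _ (inv_ne_zero h)) g.det.ne_zero
  set B : GL (Fin 2) F := GeneralLinearGroup.mkOfDetNeZero ((g 1 1)⁻¹ • g.val) hd with hB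
  have hBe : ∀ i j, B i j = (g 1 1)⁻¹ * g i j := fun i j => rfl
  refine ⟨B, (mk_eq_of_smul (inv_ne_zero h) hBe).symm, hBe, ?_⟩
  show ((g 1 1)⁻¹ • g.val).det = _
  rw [Matrix.det_smul, Fintype.card_fin]

theorem pcell_of_cellU {n : ℕ} (hn : 1 ≤ n) {x : PGL(2, F)}
    (hx : x ∈ H51Z.cellU v (exp (-(n : ℤ)))) : PCell v (exp (-(n : ℤ))) x := by
  obtain ⟨g, rfl, h1, h2, h3, h4⟩ := hx
  have hp : 0 < v (g 1 1) := lt_of_le_of_lt zero_le h3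
  have hne : g 1 1 ≠ 0 := (v.ne_zero_iff).1 hp.ne'
  obtain ⟨B, hB, hBe, hBd⟩ := exists_div hne
  have hc : exp (-(n : ℤ)) < (1 : ℤᵐ⁰) := by
    rw [← WithZero.exp_zero, WithZero.exp_lt_exp]; omega
  have hsc : ∀ x : F, v ((g 1 1)⁻¹ * x) = v x / v (g 1 1) := fun x => by
    rw [map_mul, map_inv₀, div_eq_mul_inv, mul_comm]
  have h5 : v (g 0 0) < v (g 1 1) := by
    have h6 : v (g 0 0 * g 1 1) < v (g 1 1) ^ 2 := by
      have e : g 0 0 * g 1 1 = g.val.det + g 0 1 * g 1 0 := by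
        rw [Matrix.det_fin_two]; ring
      rw [e]
      refine v.map_add_lt ?_ ?_
      · have h4' : v g.val.det = exp (-(n : ℤ)) * v (g 1 1) ^ 2 := h4
        rw [h4']
        calc exp (-(n : ℤ)) * v (g 1 1) ^ 2 < 1 * v (g 1 1) ^ 2 :=
              mul_lt_mul_of_pos_right hc (pow_pos hp 2)
          _ = _ := one_mul _
      · rw [map_mul, pow_two]
        exact mul_lt_mul_of_le_of_lt_of_nonneg_of_pos h2 h3 zero_le hp
    rw [map_mul, pow_two] at h6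
    exact lt_of_mul_lt_mul_of_nonneg_right h6 zero_le
  refine ⟨B, hB, ⟨?_, ?_, ?_, ?_⟩, ?_⟩
  · show v (B 0 0) < 1
    rw [hBe, hsc, div_lt_one₀ hp]; exact h5
  · show v (B 0 1) ≤ 1
    rw [hBe, hsc, div_le_one₀ hp]; exact h2
  · show v (B 1 0) < 1
    rw [hBe, hsc, div_lt_one₀ hp]; exact h3
  · show v (B 1 1) = 1
    rw [hBe, hsc, div_self hp.ne']
  · have h4' : v g.val.det = exp (-(n : ℤ)) * v (g 1 1) ^ 2 := h4
    rw [hBd, map_mul, h4', map_pow, map_inv₀]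
    have := hp.ne'
    field_simp

theorem imat_of_mem_Iw {x : PGL(2, F)} (hx : x ∈ H51Z.Iw v) :
    ∃ B : GL (Fin 2) F, ProjGenLinGroup.mk B = x ∧ IMat v B.val := by
  obtain ⟨g, rfl, h1, h2, h3, h4⟩ := hx
  have hp : 0 < v (g 1 1) := lt_of_le_of_lt zero_le h3
  have hne : g 1 1 ≠ 0 := (v.ne_zero_iff).1 hp.ne'
  obtain ⟨B, hB, hBe, hBd⟩ := exists_div hne
  have hsc : ∀ x : F, v ((g 1 1)⁻¹ * x) = v x / v (g 1 1) := fun x => by
    rw [map_mul, map_inv₀, div_eq_mul_inv, mul_comm]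
  have h5 : v (g 0 0) = v (g 1 1) := by
    refine le_antisymm h1 ?_
    by_contra hlt
    rw [not_le] at hlt
    have h5 : v g.val.det < v (g 1 1) ^ 2 := by
      rw [Matrix.det_fin_two]
      refine v.map_sub_lt ?_ ?_
      · rw [map_mul, pow_two]
        exact mul_lt_mul_of_pos_right hlt hp
      · rw [map_mul, pow_two]
        exact mul_lt_mul_of_le_of_lt_of_nonneg_of_pos h2 h3 zero_le hp
    have h4' : v g.val.det = 1 * v (g 1 1) ^ 2 := h4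
    rw [h4', one_mul] at h5
    exact lt_irrefl _ h5
  refine ⟨B, hB, ⟨?_, ?_, ?_, ?_⟩⟩
  · show v (B 0 0) = 1
    rw [hBe, hsc, h5, div_self hp.ne']
  · show v (B 0 1) ≤ 1
    rw [hBe, hsc, div_le_one₀ hp]; exact h2
  · show v (B 1 0) < 1
    rw [hBe, hsc, div_lt_one₀ hp]; exact h3
  · show v (B 1 1) = 1
    rw [hBe, hsc, div_self hp.ne']

end Local

variable {K : Type*} [Field K] [NumberField K] {J : Type*} [Fintype J] {m : Model K J}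
  (a : AutData m)

/-- **C17-EXCL for kernels.**  `U w₀` is the Iwahori subgroup, `B` has support in that of `A` outside
`w₀` and in the cell `U^n` at `w₀`, `n` large: no contributing `δ` has a `δ ∘ s`-stable line. -/
theorem excl_ker {w₀ : HeightOneSpectrum (𝓞 K)} (h₀ : a.σ w₀ = w₀)
    (hI : ∀ g ∈ m.L.U w₀, g ∈ H51Z.Iw (w₀.valuation K)) (A : GlobKer m.L.fam) (R : ℝ) :
    ∃ M₀ : ℕ, ∀ n : ℕ, M₀ ≤ n → ∀ B : GlobKer m.L.fam,
      (∀ w ≠ w₀, ∀ y y', (B.loc w).k y y' ≠ 0 → (A.loc w).k y y' ≠ 0) →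
      (∀ g g' : PGL(2, K), (B.loc w₀).k (g : PGL(2, K) ⧸ m.L.fam.U w₀)
        (g' : PGL(2, K) ⧸ m.L.fam.U w₀) ≠ 0 →
          g⁻¹ * g' ∈ H51Z.cellU (w₀.valuation K) (exp (-(n : ℤ)))) →
      ∀ κ : (J → ℝ) → ℂ, (∀ t, κ t ≠ 0 → ∀ j, t j ≤ R) → ∀ (x : m.X) (δ : PGL(2, K)),
        m.ker κ B.k x (δ • a.act x) ≠ 0 →
        ∀ (D : GL (Fin 2) K), ProjGenLinGroup.mk D = δ → ∀ (u : Fin 2 → K), u ≠ 0 → ∀ c : K,
          D.val.mulVec (fun i => a.s (u i)) ≠ c • u := by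
  obtain ⟨M₀, hM⟩ := excl a h₀ (fun g hg => imat_of_mem_Iw (hI g hg)) A R
  refine ⟨max M₀ 1, ?_⟩
  intro n hn B hB hB₀ κ hκ x δ hx
  have hx1 : κ (Model.chJ x.1 (δ • a.act x).1) ≠ 0 := left_ne_zero_of_mul hx
  have hx2 : B.k x.2 (δ • a.act x).2 ≠ 0 := right_ne_zero_of_mul hx
  rw [GlobKer.k_ne_zero_iff] at hx2
  refine hM n ((le_max_left _ _).trans hn) x δ (hκ _ hx1) (fun w hw => hB w hw _ _ (hx2 w)) ?_
  obtain ⟨g, hg⟩ := QuotientGroup.mk_surjective (x.2 w₀)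
  obtain ⟨g', hg'⟩ := QuotientGroup.mk_surjective ((δ • a.act x).2 w₀)
  refine ⟨g, g', hg, hg', pcell_of_cellU ((le_max_right _ _).trans hn) (hB₀ g g' ?_)⟩
  rw [hg, hg']
  exact hx2 w₀

/-- the same for upper triangular `δ` -/
theorem excl_upper {w₀ : HeightOneSpectrum (𝓞 K)} (h₀ : a.σ w₀ = w₀)
    (hI : ∀ g ∈ m.L.U w₀, g ∈ H51Z.Iw (w₀.valuation K)) (A : GlobKer m.L.fam) (R : ℝ) :
    ∃ M₀ : ℕ, ∀ n : ℕ, M₀ ≤ n → ∀ B : GlobKer m.L.fam,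
      (∀ w ≠ w₀, ∀ y y', (B.loc w).k y y' ≠ 0 → (A.loc w).k y y' ≠ 0) →
      (∀ g g' : PGL(2, K), (B.loc w₀).k (g : PGL(2, K) ⧸ m.L.fam.U w₀)
        (g' : PGL(2, K) ⧸ m.L.fam.U w₀) ≠ 0 →
          g⁻¹ * g' ∈ H51Z.cellU (w₀.valuation K) (exp (-(n : ℤ)))) →
      ∀ κ : (J → ℝ) → ℂ, (∀ t, κ t ≠ 0 → ∀ j, t j ≤ R) → ∀ (x : m.X) (g : GL (Fin 2) K),
        m.ker κ B.k x ((ProjGenLinGroup.mk g : PGL(2, K)) • a.act x) ≠ 0 → g 1 0 ≠ 0 := by
  obtain ⟨M₀, hM⟩ := excl_ker a h₀ hI A R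
  refine ⟨M₀, ?_⟩
  intro n hn B hB hB₀ κ hκ x g hx hg
  refine hM n hn B hB hB₀ κ hκ x _ hx g rfl (Pi.single 0 1) ?_ (g 0 0) ?_
  · intro h
    have := congrFun h 0
    simp at this
  · have e : (fun i => a.s ((Pi.single 0 1 : Fin 2 → K) i)) = (Pi.single 0 1 : Fin 2 → K) := by
      funext i
      fin_cases i <;> simp
    rw [e, Matrix.mulVec_single_one]
    funext i
    fin_cases i
    · show g 0 0 = (g 0 0 • (Pi.single 0 1 : Fin 2 → K)) 0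
      simp
    · show g 1 0 = (g 0 0 • (Pi.single 0 1 : Fin 2 → K)) 1
      rw [hg]
      simp

end Fermat.Agent.H6.Z
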