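import Fermat.Agent.H6ZPgl
import Fermat.Agent.H59Def
import Fermat.Agent.H80Tree

/-!
# S47, C17: normalized valuations, product formula, and behaviour under automorphisms
-/

set_option autoImplicit false

namespace Fermat.Agent.H6.Z

open Matrix NumberField IsDedekindDomain WithZero WithZeroMulInt
open scoped MatrixGroups NNReal

variable {K : Type*} [Field K] [NumberField K]

/-- the normalized valuation at a finite place -/
noncomputable def nv (w : HeightOneSpectrum (𝓞 K)) : Valuation K ℝ≥0 :=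
  (w.valuation K).map (toNNReal (NumberField.HeightOneSpectrum.absNorm_ne_zero w))
    (toNNReal_strictMono (NumberField.HeightOneSpectrum.one_lt_absNorm_nnreal w)).monotone

theorem nv_apply (w : HeightOneSpectrum (𝓞 K)) (x : K) :
    nv w x = toNNReal (NumberField.HeightOneSpectrum.absNorm_ne_zero w) (w.valuation K x) := rfl

theorem nv_le_iff {w : HeightOneSpectrum (𝓞 K)} {x y : K} :
    nv w x ≤ nv w y ↔ w.valuation K x ≤ w.valuation K y :=
  (toNNReal_strictMono (NumberField.HeightOneSpectrum.one_lt_absNorm_nnreal w)).le_iff_le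

theorem nv_eq_iff {w : HeightOneSpectrum (𝓞 K)} {x y : K} :
    nv w x = nv w y ↔ w.valuation K x = w.valuation K y := by
  rw [le_antisymm_iff, le_antisymm_iff, nv_le_iff, nv_le_iff]

theorem nv_le_one_iff {w : HeightOneSpectrum (𝓞 K)} {x : K} :
    nv w x ≤ 1 ↔ w.valuation K x ≤ 1 := by
  rw [← map_one (nv w), nv_le_iff, map_one]

theorem nv_lt_one_iff {w : HeightOneSpectrum (𝓞 K)} {x : K} :
    nv w x < 1 ↔ w.valuation K x < 1 := by
  rw [← map_one (nv w), lt_iff_not_ge, nv_le_iff, map_one, not_le]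

theorem nv_eq_one_iff {w : HeightOneSpectrum (𝓞 K)} {x : K} :
    nv w x = 1 ↔ w.valuation K x = 1 := by
  rw [← map_one (nv w), nv_eq_iff, map_one]

theorem nv_of_exp {w : HeightOneSpectrum (𝓞 K)} {x : K} {n : ℤ} (h : w.valuation K x = exp n) :
    nv w x = (Ideal.absNorm w.asIdeal : ℝ≥0) ^ n := by
  rw [nv_apply, h, toNNReal_neg_apply _ exp_ne_zero]
  rfl

theorem coe_nv (w : HeightOneSpectrum (𝓞 K)) (x : K) :
    (nv w x : ℝ) = FinitePlace.mk w x := by
  rw [FinitePlace.mk_apply, FinitePlace.norm_embedding']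
  rfl

theorem nv_finite {x : K} (hx : x ≠ 0) : {w : HeightOneSpectrum (𝓞 K) | nv w x ≠ 1}.Finite := by
  have h : (Function.mulSupport fun w : FinitePlace K => w x).Finite :=
    FinitePlace.hasFiniteMulSupport hx
  have h2 : {w : HeightOneSpectrum (𝓞 K) | nv w x ≠ 1} =
      FinitePlace.equivHeightOneSpectrum.symm ⁻¹'
        (Function.mulSupport fun w : FinitePlace K => w x) := by
    ext w
    simp only [Set.mem_preimage, Function.mem_mulSupport, Set.mem_ofPred_eq]
    have h3 : (FinitePlace.equivHeightOneSpectrum.symm w : FinitePlace K) x = (nv w x : ℝ) :=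
      (coe_nv w x).symm
    rw [h3, Ne, Ne, ← NNReal.coe_inj, NNReal.coe_one]
  rw [h2]
  exact h.preimage FinitePlace.equivHeightOneSpectrum.symm.injective.injOn

/-- the product formula -/
theorem prod_nv {x : K} (hx : x ≠ 0) :
    (∏ w : InfinitePlace K, w x ^ w.mult) * ((∏ᶠ w : HeightOneSpectrum (𝓞 K), nv w x : ℝ≥0) : ℝ)
      = 1 := by
  rw [← NumberField.prod_abs_eq_one hx]
  congr 1
  have h1 : ((∏ᶠ w : HeightOneSpectrum (𝓞 K), nv w x : ℝ≥0) : ℝ) =
      ∏ᶠ w : HeightOneSpectrum (𝓞 K), (nv w x : ℝ) :=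
    (NNReal.toRealHom : ℝ≥0 →* ℝ).map_finprod (nv_finite hx)
  rw [h1, ← finprod_comp_equiv FinitePlace.equivHeightOneSpectrum.symm]
  exact finprod_congr fun w => coe_nv w x

/-- an automorphism compatible with two places preserves the norms -/
theorem absNorm_eq_of_val {s : K ≃+* K} {w w' : HeightOneSpectrum (𝓞 K)}
    (h : ∀ x, w'.valuation K (s x) = w.valuation K x) :
    Ideal.absNorm w'.asIdeal = Ideal.absNorm w.asIdeal := by
  rw [Ideal.absNorm_apply, Ideal.absNorm_apply, Submodule.cardQuot_apply, Submodule.cardQuot_apply]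
  refine (Nat.card_congr (Ideal.quotientEquiv w.asIdeal w'.asIdeal
    (RingOfIntegers.mapRingEquiv s) ?_).toEquiv).symm
  apply le_antisymm
  · intro x hx
    have e0 : (RingOfIntegers.mapRingEquiv s) ((RingOfIntegers.mapRingEquiv s).symm x) = x := by
      simp
    rw [← e0]
    refine Ideal.mem_map_of_mem (RingOfIntegers.mapRingEquiv s : 𝓞 K →+* 𝓞 K) ?_
    rw [← w.valuation_lt_one_iff_mem (K := K)]
    rw [← w'.valuation_lt_one_iff_mem (K := K)] at hx
    rw [← h]
    have e : s (algebraMap (𝓞 K) K ((RingOfIntegers.mapRingEquiv s).symm x)) =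
        algebraMap (𝓞 K) K x := by
      conv_rhs => rw [← (RingOfIntegers.mapRingEquiv s).apply_symm_apply x]
      rfl
    rw [e]
    exact hx
  · rw [Ideal.map_le_iff_le_comap]
    intro x hx
    rw [Ideal.mem_comap, ← w'.valuation_lt_one_iff_mem (K := K)]
    rw [← w.valuation_lt_one_iff_mem (K := K), ← h] at hx
    exact hx

theorem nv_map_of_val {s : K ≃+* K} {w w' : HeightOneSpectrum (𝓞 K)}
    (h : ∀ x, w'.valuation K (s x) = w.valuation K x) (x : K) : nv w' (s x) = nv w x := by
  rw [nv_apply, nv_apply, h]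
  have e := absNorm_eq_of_val h
  congr 1
  congr 1
  rw [e]

end Fermat.Agent.H6.Z
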