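import Fermat.Agent.H6ZBus

/-!
# S47, C17: the Busemann function on `PGL₂` and on coset spaces
-/

set_option autoImplicit false

namespace Fermat.Agent.H6.Z

open Matrix
open scoped MatrixGroups

variable {K : Type*} [Field K] {Γ₀ : Type*} [LinearOrderedCommGroupWithZero Γ₀]
  (v : Valuation K Γ₀)

theorem exists_of_mk_eq {g h : GL (Fin 2) K}
    (e : (ProjGenLinGroup.mk g : PGL(2, K)) = ProjGenLinGroup.mk h) :
    ∃ c : K, c ≠ 0 ∧ ∀ i j, h i j = c * g i j := by
  obtain ⟨u, hu⟩ := ProjGenLinGroup.mk_eq_mk_iff.1 e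
  refine ⟨u, u.ne_zero, fun i j => ?_⟩
  rw [← hu]
  show (g.val * (GeneralLinearGroup.scalar (Fin 2) u).val) i j = _
  rw [GeneralLinearGroup.coe_scalar, Matrix.mul_apply]
  simp [Matrix.scalar_apply, Matrix.diagonal_apply, mul_comm]

theorem mk_eq_of_smul {g h : GL (Fin 2) K} {c : K} (hc : c ≠ 0)
    (e : ∀ i j, h i j = c * g i j) :
    (ProjGenLinGroup.mk g : PGL(2, K)) = ProjGenLinGroup.mk h := by
  rw [ProjGenLinGroup.mk_eq_mk_iff]
  refine ⟨Units.mk0 c hc, ?_⟩
  ext i j
  show (g.val * (GeneralLinearGroup.scalar (Fin 2) (Units.mk0 c hc)).val) i j = _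
  rw [e, GeneralLinearGroup.coe_scalar, Matrix.mul_apply]
  simp [Matrix.scalar_apply, Matrix.diagonal_apply, mul_comm]

/-- the Busemann function on `PGL₂(K)` -/
noncomputable def pbus (g : PGL(2, K)) : Γ₀ :=
  bus v (ProjGenLinGroup.mk_surjective g).choose

/-- the displacement on `PGL₂(K)` -/
noncomputable def pdis (g : PGL(2, K)) : Γ₀ :=
  dis v (ProjGenLinGroup.mk_surjective g).choose

@[simp] theorem pbus_mk (g : GL (Fin 2) K) : pbus v (ProjGenLinGroup.mk g) = bus v g := by
  obtain ⟨c, hc, e⟩ := exists_of_mk_eq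
    (ProjGenLinGroup.mk_surjective (ProjGenLinGroup.mk g : PGL(2, K))).choose_spec.symm
  exact bus_smul v hc e

@[simp] theorem pdis_mk (g : GL (Fin 2) K) : pdis v (ProjGenLinGroup.mk g) = dis v g := by
  obtain ⟨c, hc, e⟩ := exists_of_mk_eq
    (ProjGenLinGroup.mk_surjective (ProjGenLinGroup.mk g : PGL(2, K))).choose_spec.symm
  exact dis_smul v hc e

theorem pbus_ne (g : PGL(2, K)) : pbus v g ≠ 0 := bus_ne v _

theorem pdis_ne (g : PGL(2, K)) : pdis v g ≠ 0 := dis_ne v _

theorem one_le_pdis (g : PGL(2, K)) : 1 ≤ pdis v g := one_le_dis v _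

theorem pbus_mul_le (g h : PGL(2, K)) : pbus v (g * h) ≤ pbus v g * pdis v h := by
  induction g using ProjGenLinGroup.induction_on with
  | mk g =>
    induction h using ProjGenLinGroup.induction_on with
    | mk h =>
      rw [← map_mul, pbus_mk, pbus_mk, pdis_mk]
      exact bus_mul_le v g h

theorem le_pbus_mul (g h : PGL(2, K)) : pbus v g ≤ pbus v (g * h) * pdis v h := by
  induction g using ProjGenLinGroup.induction_on with
  | mk g =>
    induction h using ProjGenLinGroup.induction_on with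
    | mk h =>
      rw [← map_mul, pbus_mk, pbus_mk, pdis_mk]
      exact le_bus_mul v g h

theorem pdis_mul_le (g h : PGL(2, K)) : pdis v (g * h) ≤ pdis v g * pdis v h := by
  induction g using ProjGenLinGroup.induction_on with
  | mk g =>
    induction h using ProjGenLinGroup.induction_on with
    | mk h =>
      rw [← map_mul, pdis_mk, pdis_mk, pdis_mk]
      exact dis_mul_le v g h

theorem pdis_inv (g : PGL(2, K)) : pdis v g⁻¹ = pdis v g := by
  induction g using ProjGenLinGroup.induction_on with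
  | mk g => rw [← map_inv, pdis_mk, pdis_mk, dis_inv]

theorem pbus_mul_of_pdis {g k : PGL(2, K)} (h : pdis v k = 1) : pbus v (g * k) = pbus v g := by
  apply le_antisymm
  · simpa [h] using pbus_mul_le v g k
  · simpa [h] using le_pbus_mul v g k

theorem bus_one : bus v (1 : GL (Fin 2) K) = 1 := by
  simp [bus, rowN]

theorem pbus_one : pbus v (1 : PGL(2, K)) = 1 := by
  rw [← ProjGenLinGroup.mk_one, pbus_mk, bus_one]

theorem pbus_upper_mul {b : GL (Fin 2) K} (hb : b 1 0 = 0) (g : PGL(2, K)) :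
    pbus v (ProjGenLinGroup.mk b * g) = v (b 1 1) * (v (b 0 0))⁻¹ * pbus v g := by
  induction g using ProjGenLinGroup.induction_on with
  | mk g => rw [← map_mul, pbus_mk, pbus_mk, bus_upper_mul v hb]

section Map

variable {Γ₁ : Type*} [LinearOrderedCommGroupWithZero Γ₁] {v' : Valuation K Γ₀}

theorem bus_map {s : K →+* K} (h : ∀ x, v' (s x) = v x) (g : GL (Fin 2) K) :
    bus v' (GeneralLinearGroup.map s g) = bus v g := by
  have e : ∀ i j, (GeneralLinearGroup.map s g : GL (Fin 2) K) i j = s (g i j) := fun i j => rfl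
  have hdet : v' (GeneralLinearGroup.map s g).val.det = v g.val.det := by
    rw [Matrix.det_fin_two, Matrix.det_fin_two, ← h]
    congr 1
    rw [map_sub, map_mul, map_mul]
    rfl
  unfold bus rowN
  rw [hdet, e, e, h, h]

theorem dis_map {s : K →+* K} (h : ∀ x, v' (s x) = v x) (g : GL (Fin 2) K) :
    dis v' (GeneralLinearGroup.map s g) = dis v g := by
  have e : ∀ i j, (GeneralLinearGroup.map s g : GL (Fin 2) K) i j = s (g i j) := fun i j => rfl
  have hdet : v' (GeneralLinearGroup.map s g).val.det = v g.val.det := by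
    rw [Matrix.det_fin_two, Matrix.det_fin_two, ← h]
    congr 1
    rw [map_sub, map_mul, map_mul]
    rfl
  unfold dis matN
  rw [hdet, e, e, e, e, h, h, h, h]

theorem pbus_map {s : K →+* K} (h : ∀ x, v' (s x) = v x) (g : PGL(2, K)) :
    pbus v' (ProjGenLinGroup.map s g) = pbus v g := by
  induction g using ProjGenLinGroup.induction_on with
  | mk g => rw [ProjGenLinGroup.map_mk, pbus_mk, pbus_mk, bus_map v h]

theorem pdis_map {s : K →+* K} (h : ∀ x, v' (s x) = v x) (g : PGL(2, K)) :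
    pdis v' (ProjGenLinGroup.map s g) = pdis v g := by
  induction g using ProjGenLinGroup.induction_on with
  | mk g => rw [ProjGenLinGroup.map_mk, pdis_mk, pdis_mk, dis_map v h]

end Map

/-! ## Coset spaces -/

section Coset

variable {U : Subgroup PGL(2, K)} (c : PGL(2, K))

/-- the Busemann function on the coset space `PGL₂(K) ⧸ U`, when `c⁻¹ U c` has trivial
displacement -/
noncomputable def cbus (y : PGL(2, K) ⧸ U) : Γ₀ := pbus v (Quotient.out y * c)

variable {c}

theorem cbus_mk (hU : ∀ g ∈ U, pdis v (c⁻¹ * g * c) = 1) (g : PGL(2, K)) :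
    cbus v c ((g : PGL(2, K)) : PGL(2, K) ⧸ U) = pbus v (g * c) := by
  obtain ⟨h, hh⟩ := QuotientGroup.mk_out_eq_mul U g
  unfold cbus
  rw [hh]
  have e : g * (h : PGL(2, K)) * c = g * c * (c⁻¹ * h * c) := by group
  rw [e, pbus_mul_of_pdis v (hU _ h.2)]

theorem cbus_ne (y : PGL(2, K) ⧸ U) : cbus v c y ≠ 0 := pbus_ne v _

theorem cbus_upper_smul (hU : ∀ g ∈ U, pdis v (c⁻¹ * g * c) = 1) {b : GL (Fin 2) K}
    (hb : b 1 0 = 0) (y : PGL(2, K) ⧸ U) :
    cbus v c ((ProjGenLinGroup.mk b : PGL(2, K)) • y) =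
      v (b 1 1) * (v (b 0 0))⁻¹ * cbus v c y := by
  induction y using QuotientGroup.induction_on with
  | H g =>
    have e : (ProjGenLinGroup.mk b : PGL(2, K)) • ((g : PGL(2, K)) : PGL(2, K) ⧸ U) =
        ((ProjGenLinGroup.mk b * g : PGL(2, K)) : PGL(2, K) ⧸ U) := rfl
    rw [e, cbus_mk v hU, cbus_mk v hU, mul_assoc, pbus_upper_mul v hb]

end Coset

end Fermat.Agent.H6.Z
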