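import Fermat.Agent.H70Base

/-!
# Decomposition of `K ⊗_O H¹(Γ₀(M), O[Δ]_ψ)` along the characters of `Δ`

* `evC x : O[Δ] →ₐ[O] K`, the evaluation at a character `x : Δ →* Kˣ`.
* `evS x : K ⊗_O H¹(Γ₀(M), O[Δ]_ψ) →ₗ[K] H¹(Γ₀(M), K_{xψ})`, surjective (`evS_surjective`),
  commutes with all Hecke families (`evS_opH`), `Δ` acts through `x` (`evS_smul`).
* `eq_zero_of_evS` : jointly injective.
-/

set_option autoImplicit false
set_option linter.style.haveILetI false

open Matrix CongruenceSubgroup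
open scoped MatrixGroups TensorProduct

namespace Fermat.Agent.H70.Coh

section Alg

variable {O : Type*} [CommRing O] {K : Type*} [CommRing K] [Algebra O K] {Δ : Type*} [CommGroup Δ]

/-- the evaluation `O[Δ] → K` at a character -/
noncomputable def evC (x : Δ →* Kˣ) : MonoidAlgebra O Δ →ₐ[O] K :=
  MonoidAlgebra.lift O K Δ ((Units.coeHom K).comp x)

lemma evC_of (x : Δ →* Kˣ) (g : Δ) : evC (O := O) x (MonoidAlgebra.of O Δ g) = (x g : K) := by
  rw [evC, MonoidAlgebra.lift_of]
  rfl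

lemma sum_char_eq_zero {K : Type*} [Field K] [Finite Δ] [Fintype (Δ →* Kˣ)]
    [HasEnoughRootsOfUnity K (Monoid.exponent Δ)] {g : Δ} (hg : g ≠ 1) :
    ∑ x : Δ →* Kˣ, ((x g : Kˣ) : K) = 0 := by
  obtain ⟨x₀, hx₀⟩ := CommGroup.exists_apply_ne_one_of_hasEnoughRootsOfUnity Δ K hg
  have h1 : ∑ x : Δ →* Kˣ, ((x g : Kˣ) : K) =
      ((x₀ g : Kˣ) : K) * ∑ x : Δ →* Kˣ, ((x g : Kˣ) : K) := by
    rw [Finset.mul_sum]
    refine (Fintype.sum_equiv (Equiv.mulLeft x₀) _ _ fun x => ?_).symm
    rw [Equiv.coe_mulLeft, MonoidHom.mul_apply, Units.val_mul]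
  have h2 : (((x₀ g : Kˣ) : K) - 1) * ∑ x : Δ →* Kˣ, ((x g : Kˣ) : K) = 0 := by
    rw [sub_mul, one_mul, ← h1, sub_self]
  rcases mul_eq_zero.mp h2 with h3 | h3
  · exact absurd (Units.ext (sub_eq_zero.mp h3)) hx₀
  · exact h3

variable {H : Type*} [AddCommGroup H] [Module (MonoidAlgebra O Δ) H] [Module O H]
  [IsScalarTower O (MonoidAlgebra O Δ) H]

variable [Fintype Δ]

/-- the (unnormalised) projector to the `x`-part -/
noncomputable def projC (x : Δ →* Kˣ) : K ⊗[O] H →ₗ[K] K ⊗[O] H :=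
  ∑ g : Δ, ((x g⁻¹ : Kˣ) : K) •
    (((LinearMap.lsmul (MonoidAlgebra O Δ) H (MonoidAlgebra.of O Δ g)).restrictScalars O).baseChange K)

lemma projC_tmul (x : Δ →* Kˣ) (k : K) (h : H) :
    projC x (k ⊗ₜ[O] h) =
      ∑ g : Δ, (((x g⁻¹ : Kˣ) : K) * k) ⊗ₜ[O] (MonoidAlgebra.of O Δ g • h) := by
  rw [projC, LinearMap.sum_apply]
  refine Finset.sum_congr rfl fun g _ => ?_
  rw [LinearMap.smul_apply, LinearMap.baseChange_tmul, TensorProduct.smul_tmul', smul_eq_mul]
  rfl

/-- the sum of the projectors is the multiplication by the order of the character group -/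
lemma sum_projC {K : Type*} [Field K] [Algebra O K] [Fintype (Δ →* Kˣ)]
    [HasEnoughRootsOfUnity K (Monoid.exponent Δ)] (v : K ⊗[O] H) :
    ∑ x : Δ →* Kˣ, projC x v = (Fintype.card (Δ →* Kˣ) : K) • v := by
  induction v using TensorProduct.induction_on with
  | zero => simp
  | add a b ha hb => simp only [map_add, Finset.sum_add_distrib, smul_add, ha, hb]
  | tmul k h =>
    simp only [projC_tmul]
    rw [Finset.sum_comm]
    simp only [← TensorProduct.sum_tmul, ← Finset.sum_mul]
    rw [Finset.sum_eq_single (1 : Δ)]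
    · simp only [inv_one, map_one, Units.val_one, one_smul]
      rw [Finset.sum_const, Finset.card_univ, TensorProduct.smul_tmul', nsmul_eq_mul, mul_one,
        smul_eq_mul]
    · intro g _ hg
      rw [sum_char_eq_zero (inv_ne_one.mpr hg), zero_mul, TensorProduct.zero_tmul]
    · intro h; exact absurd (Finset.mem_univ _) h

/-- on an eigenvector for `x`, the projector is the multiplication by `#Δ` -/
lemma projC_of_eigen (x : Δ →* Kˣ) (v : K ⊗[O] H)
    (hv : ∀ g : Δ, ((LinearMap.lsmul (MonoidAlgebra O Δ) H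
      (MonoidAlgebra.of O Δ g)).restrictScalars O).baseChange K v = ((x g : Kˣ) : K) • v) :
    projC x v = (Fintype.card Δ : K) • v := by
  rw [projC, LinearMap.sum_apply]
  have h : ∀ g : Δ, (((x g⁻¹ : Kˣ) : K) •
      (((LinearMap.lsmul (MonoidAlgebra O Δ) H
        (MonoidAlgebra.of O Δ g)).restrictScalars O).baseChange K)) v = v := by
    intro g
    rw [LinearMap.smul_apply, hv, smul_smul, ← Units.val_mul, ← map_mul, inv_mul_cancel, map_one,
      Units.val_one, one_smul]
  rw [Finset.sum_congr rfl fun g _ => h g, Finset.sum_const, Finset.card_univ, Nat.cast_smul_eq_nsmul]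

section Inst

variable [Algebra (MonoidAlgebra O Δ) K] [IsScalarTower O (MonoidAlgebra O Δ) K]
  (x : Δ →* Kˣ) (hx : ∀ g : Δ, algebraMap (MonoidAlgebra O Δ) K (MonoidAlgebra.of O Δ g) = (x g : K))

/-- the natural map `K ⊗_O H → K ⊗_Λ H` -/
noncomputable def piC : K ⊗[O] H →+ K ⊗[MonoidAlgebra O Δ] H :=
  TensorProduct.liftAddHom
    (AddMonoidHom.mk' (fun k : K => AddMonoidHom.mk' (fun h : H => k ⊗ₜ[MonoidAlgebra O Δ] h)
      (fun a b => TensorProduct.tmul_add k a b))
      (fun a b => by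
        ext h
        exact TensorProduct.add_tmul a b h))
    (by
      intro r m n
      change (r • m) ⊗ₜ[MonoidAlgebra O Δ] n = m ⊗ₜ[MonoidAlgebra O Δ] (r • n)
      rw [← algebraMap_smul (MonoidAlgebra O Δ) r n, ← TensorProduct.smul_tmul,
        algebraMap_smul])

omit [Fintype Δ] in
lemma piC_tmul (k : K) (h : H) :
    piC (k ⊗ₜ[O] h) = k ⊗ₜ[MonoidAlgebra O Δ] h := rfl

include hx in
lemma projC_eq_zero_of_piC {v : K ⊗[O] H} (hv : piC (Δ := Δ) v = 0) : projC x v = 0 := by
  let F : K →+ H →+ K ⊗[O] H :=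
    AddMonoidHom.mk' (fun k : K => AddMonoidHom.mk' (fun h : H => projC x (k ⊗ₜ[O] h))
      (fun a b => by rw [TensorProduct.tmul_add, map_add]))
      (fun a b => by
        ext h
        change projC x ((a + b) ⊗ₜ[O] h) = projC x (a ⊗ₜ[O] h) + projC x (b ⊗ₜ[O] h)
        rw [TensorProduct.add_tmul, map_add])
  have hF : ∀ k h, F k h = projC x (k ⊗ₜ[O] h) := fun _ _ => rfl
  have hbal : ∀ (r : MonoidAlgebra O Δ) (k : K) (h : H), F (r • k) h = F k (r • h) := by
    intro r k h
    induction r using MonoidAlgebra.induction_on with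
    | of g₀ =>
      rw [hF, hF, projC_tmul, projC_tmul]
      have h1 : MonoidAlgebra.of O Δ g₀ • k = ((x g₀ : Kˣ) : K) * k := by
        rw [Algebra.smul_def, hx]
      rw [h1]
      refine Fintype.sum_equiv (Equiv.mulRight g₀⁻¹) _ _ fun g => ?_
      rw [Equiv.coe_mulRight, smul_smul, ← map_mul, inv_mul_cancel_right]
      congr 1
      rw [_root_.mul_inv_rev, inv_inv, map_mul, Units.val_mul]
      ring
    | add a b ha hb =>
      rw [add_smul, map_add, AddMonoidHom.add_apply, ha, hb, add_smul, map_add]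
    | smul a b hb =>
      have hO : ∀ (a : O) (w : K ⊗[O] H), projC x (a • w) = a • projC x w := fun a w => by
        rw [← algebraMap_smul K a w, map_smul, algebraMap_smul]
      rw [smul_assoc, smul_assoc, hF, hF, TensorProduct.tmul_smul, ← TensorProduct.smul_tmul',
        hO, hO, ← hF, ← hF, hb]
  have h2 : ∀ w : K ⊗[O] H, TensorProduct.liftAddHom F hbal (piC (Δ := Δ) w) = projC x w := by
    intro w
    induction w using TensorProduct.induction_on with
    | zero => simp
    | add a b ha hb => rw [map_add, map_add, map_add, ha, hb]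
    | tmul k h => rfl
  rw [← h2, hv, map_zero]

end Inst

end Alg

section Main

variable {N M : ℕ} (hM : N ∣ M) {O : Type*} [CommRing O] {K : Type*} [CommRing K] [Algebra O K]
  {Δ : Type*} [CommGroup Δ] (ψ : (ZMod N)ˣ →* (MonoidAlgebra O Δ)ˣ)

/-- the specialised character `(ZMod N)ˣ → Kˣ` -/
noncomputable abbrev xpsi (x : Δ →* Kˣ) : (ZMod N)ˣ →* Kˣ :=
  psiMap (evC (O := O) x).toRingHom ψ

/-- specialisation at `x`, `O`-linear form -/
noncomputable def evL (x : Δ →* Kˣ) : H1 (gam N M hM) (psiRep ψ (MonoidAlgebra O Δ)) →ₗ[O]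
    H1 (gam N M hM) (psiRep (xpsi ψ x) K) where
  toFun y := h1S hM ψ (evC (O := O) x).toRingHom y
  map_add' a b := map_add _ a b
  map_smul' r a := by
    rw [RingHom.id_apply, ← algebraMap_smul (MonoidAlgebra O Δ) r a, map_smulₛₗ,
      ← algebraMap_smul K r (h1S hM ψ (evC (O := O) x).toRingHom a)]
    congr 1
    exact (evC (O := O) x).commutes r

lemma evL_apply (x : Δ →* Kˣ) (y : H1 (gam N M hM) (psiRep ψ (MonoidAlgebra O Δ))) :
    evL hM ψ x y = h1S hM ψ (evC (O := O) x).toRingHom y := rfl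

/-- specialisation at `x` -/
noncomputable def evS (x : Δ →* Kˣ) :
    K ⊗[O] H1 (gam N M hM) (psiRep ψ (MonoidAlgebra O Δ)) →ₗ[K]
      H1 (gam N M hM) (psiRep (xpsi ψ x) K) :=
  LinearMap.liftBaseChange K (evL hM ψ x)

lemma evS_tmul (x : Δ →* Kˣ) (k : K) (y : H1 (gam N M hM) (psiRep ψ (MonoidAlgebra O Δ))) :
    evS hM ψ x (k ⊗ₜ[O] y) = k • h1S hM ψ (evC (O := O) x).toRingHom y :=
  LinearMap.liftBaseChange_tmul ..

/-- `Δ` acts through the character `x` -/
lemma evS_smul (x : Δ →* Kˣ) (g : Δ)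
    (v : K ⊗[O] H1 (gam N M hM) (psiRep ψ (MonoidAlgebra O Δ))) :
    evS hM ψ x (((LinearMap.lsmul (MonoidAlgebra O Δ)
      (H1 (gam N M hM) (psiRep ψ (MonoidAlgebra O Δ)))
      (MonoidAlgebra.of O Δ g)).restrictScalars O).baseChange K v) =
      ((x g : Kˣ) : K) • evS hM ψ x v := by
  induction v using TensorProduct.induction_on with
  | zero => simp
  | add a b ha hb => simp only [map_add, smul_add, ha, hb]
  | tmul k h =>
    rw [LinearMap.baseChange_tmul, evS_tmul, evS_tmul]
    change k • h1S hM ψ (evC (O := O) x).toRingHom (MonoidAlgebra.of O Δ g • h) = _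
    rw [map_smulₛₗ, smul_comm]
    congr 1
    exact evC_of x g

/-- specialisation commutes with all Hecke families -/
lemma evS_opH {M' : ℕ} {hM' : N ∣ M'} [HFam.IsFreeOn (gam N M hM)]
    (h : HFam (gam N M hM) (gam N M' hM')) (x : Δ →* Kˣ)
    (v : K ⊗[O] H1 (gam N M hM) (psiRep ψ (MonoidAlgebra O Δ))) :
    evS hM' ψ x (((h.opH (psiRep ψ (MonoidAlgebra O Δ))).restrictScalars O).baseChange K v) =
      h.opH (psiRep (xpsi ψ x) K) (evS hM ψ x v) := by
  induction v using TensorProduct.induction_on with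
  | zero => simp
  | add a b ha hb => simp only [map_add, ha, hb]
  | tmul k y =>
    rw [LinearMap.baseChange_tmul, evS_tmul, evS_tmul, map_smul, opH_h1S]
    rfl

variable (hg : Good M (MonoidAlgebra O Δ)) (hψ : ψ (-1) = 1)

include hg hψ in
theorem evS_surjective [NeZero M] (x : Δ →* Kˣ) : Function.Surjective (evS hM ψ x) := by
  letI : Algebra (MonoidAlgebra O Δ) K := (evC (O := O) x).toRingHom.toAlgebra
  haveI : IsScalarTower O (MonoidAlgebra O Δ) K :=
    IsScalarTower.of_algebraMap_eq fun r => ((evC (O := O) x).commutes r).symm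
  intro y
  obtain ⟨w, hw⟩ := (h1BC_bijective (R' := K) hM ψ hg hψ).2 y
  rw [← hw]
  clear hw
  induction w using TensorProduct.induction_on with
  | zero => exact ⟨0, by rw [map_zero, map_zero]⟩
  | add a b ha hb =>
    obtain ⟨a', ha'⟩ := ha
    obtain ⟨b', hb'⟩ := hb
    exact ⟨a' + b', by rw [map_add, ha', hb', map_add]⟩
  | tmul k h => exact ⟨k ⊗ₜ[O] h, by rw [evS_tmul, h1BC_tmul]; rfl⟩

include hg hψ in
/-- a vector killed by the specialisation at `x` is killed by the projector -/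
theorem projC_eq_zero_of_evS [NeZero M] [Fintype Δ] (x : Δ →* Kˣ)
    (v : K ⊗[O] H1 (gam N M hM) (psiRep ψ (MonoidAlgebra O Δ))) (hv : evS hM ψ x v = 0) :
    projC x v = 0 := by
  letI : Algebra (MonoidAlgebra O Δ) K := (evC (O := O) x).toRingHom.toAlgebra
  haveI : IsScalarTower O (MonoidAlgebra O Δ) K :=
    IsScalarTower.of_algebraMap_eq fun r => ((evC (O := O) x).commutes r).symm
  apply projC_eq_zero_of_piC x (fun g => evC_of x g)
  apply (h1BC_bijective (R' := K) hM ψ hg hψ).1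
  rw [map_zero]
  rw [← hv]
  clear hv
  induction v using TensorProduct.induction_on with
  | zero => simp only [map_zero]
  | add a b ha hb => rw [map_add, map_add, ha, hb, map_add]
  | tmul k h => rw [piC_tmul, h1BC_tmul, evS_tmul]; rfl

include hg hψ in
/-- **Joint injectivity of the specialisations.** -/
theorem eq_zero_of_evS {K : Type*} [Field K] [Algebra O K] [NeZero M] [Finite Δ] [CharZero K]
    [HasEnoughRootsOfUnity K (Monoid.exponent Δ)]
    (v : K ⊗[O] H1 (gam N M hM) (psiRep ψ (MonoidAlgebra O Δ)))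
    (hv : ∀ x : Δ →* Kˣ, evS hM ψ x v = 0) : v = 0 := by
  haveI := Fintype.ofFinite Δ
  haveI := Fintype.ofFinite (Δ →* Kˣ)
  have h1 := sum_projC (O := O) (K := K) (Δ := Δ) v
  rw [Finset.sum_eq_zero fun x _ => projC_eq_zero_of_evS hM ψ hg hψ x v (hv x)] at h1
  refine (smul_eq_zero.mp h1.symm).resolve_left ?_
  exact_mod_cast Fintype.card_ne_zero

end Main

end Fermat.Agent.H70.Coh
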