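import Fermat.Agent.H59Eigen

/-!
# Adding a commuting finite group to an eigenvector
-/

set_option autoImplicit false
set_option linter.style.haveILetI false

open IsLocalRing
open scoped TensorProduct

namespace Fermat.Agent.H70.Eig

open Fermat.Agent.H59

variable {O : Type} [CommRing O] [IsDomain O] [IsDiscreteValuationRing O]
  [IsAdicComplete (maximalIdeal O) O] [Finite (ResidueField O)] [CharZero O]
  {M : Type} [AddCommGroup M] [Module O M] [Module.Finite O M] [Module.Free O M]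
  {𝕋 : Type} [CommRing 𝕋] [Algebra O 𝕋] [Module.Finite O 𝕋]
  {Δ : Type} [CommGroup Δ] [Finite Δ]

section Aux

variable {Kb O' : Type} [Field Kb] [Algebra O Kb] [CommRing O'] [Algebra O O'] (j : O' →ₐ[O] Kb)

omit [IsDomain O] [IsDiscreteValuationRing O] [IsAdicComplete (maximalIdeal O) O]
  [Finite (ResidueField O)] [CharZero O] [Module.Finite O M] [Module.Free O M] in
lemma baseChange_rTensor (f : Module.End O M) (y : O' ⊗[O] M) :
    f.baseChange Kb (LinearMap.rTensor M j.toLinearMap y) =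
      LinearMap.rTensor M j.toLinearMap (f.baseChange O' y) := by
  induction y using TensorProduct.induction_on with
  | zero => simp only [map_zero]
  | add a b ha hb => rw [map_add, map_add, ha, hb, map_add, map_add]
  | tmul a m => rfl

omit [IsDomain O] [IsDiscreteValuationRing O] [IsAdicComplete (maximalIdeal O) O]
  [Finite (ResidueField O)] [CharZero O] [Module.Finite O M] [Module.Free O M] in
lemma rTensor_smul (a : O') (y : O' ⊗[O] M) : LinearMap.rTensor M j.toLinearMap (a • y) =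
    j a • LinearMap.rTensor M j.toLinearMap y := by
  induction y using TensorProduct.induction_on with
  | zero => simp only [map_zero, smul_zero]
  | add a b ha hb => rw [smul_add, map_add, ha, hb, map_add, smul_add]
  | tmul b m =>
    rw [TensorProduct.smul_tmul', LinearMap.rTensor_tmul, LinearMap.rTensor_tmul,
      TensorProduct.smul_tmul']
    congr 1
    exact map_mul j a b

omit [IsDomain O] [IsDiscreteValuationRing O] [IsAdicComplete (maximalIdeal O) O]
  [Finite (ResidueField O)] [CharZero O] [Module.Finite O M] [Module.Free O M] in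
lemma baseChange_mul' (C : Type) [CommRing C] [Algebra O C] (f g : Module.End O M) :
    (f * g).baseChange C = f.baseChange C * g.baseChange C :=
  LinearMap.baseChange_comp g f

omit [IsDomain O] [IsDiscreteValuationRing O] [IsAdicComplete (maximalIdeal O) O]
  [Finite (ResidueField O)] [CharZero O] [Module.Free O M] [Module.Finite O 𝕋] [Finite Δ] in
/-- a common eigenvector for `𝕋` and `Δ` with given `𝕋`-eigenvalues -/
lemma exists_common (Φ : 𝕋 →ₐ[O] Module.End O M) (Ψ : Δ →* Module.End O M)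
    (hΦΨ : ∀ t g, Φ t * Ψ g = Ψ g * Φ t) [IsAlgClosed Kb] (μ : 𝕋 → Kb)
    (v₀ : Kb ⊗[O] M) (hv₀ : v₀ ≠ 0) (h₀ : ∀ t, (Φ t).baseChange Kb v₀ = μ t • v₀) :
    ∃ v : Kb ⊗[O] M, v ≠ 0 ∧ (∀ t, (Φ t).baseChange Kb v = μ t • v) ∧
      ∀ g, ∃ ν : Kb, (Ψ g).baseChange Kb v = ν • v := by
  let W : Submodule Kb (Kb ⊗[O] M) :=
    { carrier := {v | ∀ t, (Φ t).baseChange Kb v = μ t • v}
      add_mem' := by
        intro a b ha hb t
        rw [map_add, ha, hb, smul_add]
      zero_mem' := by intro t; rw [map_zero, smul_zero]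
      smul_mem' := by
        intro c a ha t
        rw [map_smul, ha, smul_comm] }
  have hW0 : W ≠ ⊥ := fun h0 => hv₀ ((Submodule.eq_bot_iff W).mp h0 v₀ h₀)
  obtain ⟨v, hvW, hv0, hvS⟩ := exists_common_eigen
    (Set.range fun g : Δ => (Ψ g).baseChange Kb) (by
    rintro _ ⟨g, rfl⟩ _ ⟨g', rfl⟩
    change (Ψ g).baseChange Kb * (Ψ g').baseChange Kb = (Ψ g').baseChange Kb * (Ψ g).baseChange Kb
    rw [← baseChange_mul', ← baseChange_mul', ← map_mul, ← map_mul, mul_comm]) _ W rfl hW0 (by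
    rintro _ ⟨g, rfl⟩ w hw t
    change ((Φ t).baseChange Kb * (Ψ g).baseChange Kb) w = _
    rw [← baseChange_mul', hΦΨ, baseChange_mul', Module.End.mul_apply, hw t, map_smul])
  exact ⟨v, hv0, hvW, fun g => hvS _ ⟨g, rfl⟩⟩

/-- the group algebra acting -/
noncomputable def grpHom (Φ : 𝕋 →ₐ[O] Module.End O M) (Ψ : Δ →* Module.End O M)
    (hΦΨ : ∀ t g, Φ t * Ψ g = Ψ g * Φ t) : MonoidAlgebra 𝕋 Δ →ₐ[O] Module.End O M :=
  MonoidAlgebra.liftNCAlgHom Φ Ψ (fun t g => hΦΨ t g)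

omit [IsDomain O] [IsDiscreteValuationRing O] [IsAdicComplete (maximalIdeal O) O]
  [Finite (ResidueField O)] [CharZero O] [Module.Finite O M] [Module.Free O M]
  [Module.Finite O 𝕋] [Finite Δ] in
lemma grpHom_algebraMap (Φ : 𝕋 →ₐ[O] Module.End O M) (Ψ : Δ →* Module.End O M)
    (hΦΨ : ∀ t g, Φ t * Ψ g = Ψ g * Φ t) (t : 𝕋) :
    grpHom Φ Ψ hΦΨ (algebraMap 𝕋 (MonoidAlgebra 𝕋 Δ) t) = Φ t := by
  change MonoidAlgebra.liftNC (Φ : 𝕋 →+ Module.End O M) Ψ (MonoidAlgebra.single 1 t) = Φ t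
  rw [MonoidAlgebra.liftNC_single, map_one, mul_one]
  rfl

omit [IsDomain O] [IsDiscreteValuationRing O] [IsAdicComplete (maximalIdeal O) O]
  [Finite (ResidueField O)] [CharZero O] [Module.Finite O M] [Module.Free O M]
  [Module.Finite O 𝕋] [Finite Δ] in
lemma grpHom_of (Φ : 𝕋 →ₐ[O] Module.End O M) (Ψ : Δ →* Module.End O M)
    (hΦΨ : ∀ t g, Φ t * Ψ g = Ψ g * Φ t) (g : Δ) :
    grpHom Φ Ψ hΦΨ (MonoidAlgebra.of 𝕋 Δ g) = Ψ g := by
  change MonoidAlgebra.liftNC (Φ : 𝕋 →+ Module.End O M) Ψ (MonoidAlgebra.single g 1) = Ψ g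
  rw [MonoidAlgebra.liftNC_single]
  change Φ 1 * Ψ g = Ψ g
  rw [map_one, one_mul]

omit [IsDomain O] [IsDiscreteValuationRing O] [IsAdicComplete (maximalIdeal O) O]
  [Finite (ResidueField O)] [CharZero O] [Module.Finite O M] [Module.Free O M]
  [Module.Finite O 𝕋] [Finite Δ] in
lemma exists_grp_eigen (Φ : 𝕋 →ₐ[O] Module.End O M) (Ψ : Δ →* Module.End O M)
    (hΦΨ : ∀ t g, Φ t * Ψ g = Ψ g * Φ t) (v : Kb ⊗[O] M) (μ : 𝕋 → Kb)
    (h₀ : ∀ t, (Φ t).baseChange Kb v = μ t • v)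
    (h₁ : ∀ g, ∃ ν : Kb, (Ψ g).baseChange Kb v = ν • v) (s : MonoidAlgebra 𝕋 Δ) :
    ∃ ν : Kb, (grpHom Φ Ψ hΦΨ s).baseChange Kb v = ν • v := by
  induction s using MonoidAlgebra.induction_on with
  | of g =>
    obtain ⟨ν, hν⟩ := h₁ g
    exact ⟨ν, by rw [grpHom_of]; exact hν⟩
  | add a b ha hb =>
    obtain ⟨ν, hν⟩ := ha
    obtain ⟨ν', hν'⟩ := hb
    exact ⟨ν + ν', by rw [map_add, LinearMap.baseChange_add, LinearMap.add_apply, hν, hν',
      add_smul]⟩
  | smul t a ha =>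
    obtain ⟨ν, hν⟩ := ha
    refine ⟨μ t * ν, ?_⟩
    rw [Algebra.smul_def, map_mul, grpHom_algebraMap, baseChange_mul', Module.End.mul_apply, hν,
      map_smul, h₀ t, smul_smul, mul_comm]

end Aux

section Kb

variable {Kb : Type} (K : Type) [Field K] [Algebra O K] [IsFractionRing O K] [Field Kb]
  [Algebra K Kb] [Algebra O Kb] [IsScalarTower O K Kb] [IsAlgClosed Kb]

include K in
omit [IsDomain O] [IsDiscreteValuationRing O] [IsAdicComplete (maximalIdeal O) O]
  [Finite (ResidueField O)] [CharZero O] in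
lemma exists_embedding [IsDomain O] (O' : Type) [CommRing O'] [IsDomain O'] [Algebra O O']
    [Module.Finite O O'] (hOO' : Function.Injective (algebraMap O O')) :
    ∃ j : O' →ₐ[O] Kb, Function.Injective j := by
  have hOK : Function.Injective (algebraMap O K) := IsFractionRing.injective O K
  have hOKb : Function.Injective (algebraMap O Kb) := by
    rw [IsScalarTower.algebraMap_eq O K Kb]
    exact (algebraMap K Kb).injective.comp hOK
  haveI : FaithfulSMul O Kb := (faithfulSMul_iff_algebraMap_injective O Kb).mpr hOKb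
  haveI : FaithfulSMul O O' := (faithfulSMul_iff_algebraMap_injective O O').mpr hOO'
  haveI : Algebra.IsAlgebraic O O' := Algebra.IsIntegral.isAlgebraic
  let j : O' →ₐ[O] Kb := IsAlgClosed.lift
  refine ⟨j, ?_⟩
  have hker : RingHom.ker (j : O' →+* Kb) = ⊥ := by
    haveI : (RingHom.ker (j : O' →+* Kb)).IsPrime := RingHom.ker_isPrime _
    refine Ideal.eq_bot_of_comap_eq_bot (R := O) ?_
    rw [eq_bot_iff]
    intro a ha
    rw [Ideal.mem_comap, RingHom.mem_ker] at ha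
    have h1 : algebraMap O Kb a = 0 := by
      rw [← j.commutes a]
      exact ha
    exact (injective_iff_map_eq_zero _).mp hOKb a h1
  exact (RingHom.injective_iff_ker_eq_bot (j : O' →+* Kb)).mpr hker

include K in
lemma vanish_aux (Φ : 𝕋 →ₐ[O] Module.End O M) (Ψ : Δ →* Module.End O M)
    (hΦΨ : ∀ t g, Φ t * Ψ g = Ψ g * Φ t) (t₀ : 𝕋)
    (h : ∀ (O' : Type) [CommRing O'] [IsDomain O'] [IsDiscreteValuationRing O']
      [IsAdicComplete (maximalIdeal O') O'] [Finite (ResidueField O')] [CharZero O']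
      [Algebra O O'] [Module.Finite O O'] [IsLocalHom (algebraMap O O')],
      Function.Injective (algebraMap O O') → ∀ (lam : 𝕋 →ₐ[O] O') (χ : Δ →* O'ˣ)
        (x : O' ⊗[O] M), x ≠ 0 → (∀ t, (Φ t).baseChange O' x = lam t • x) →
        (∀ g, (Ψ g).baseChange O' x = ((χ g : O'ˣ) : O') • x) → lam t₀ = 0)
    (μ : 𝕋 → Kb) (v₀ : Kb ⊗[O] M) (hv₀ : v₀ ≠ 0)
    (h₀ : ∀ t, (Φ t).baseChange Kb v₀ = μ t • v₀) : μ t₀ = 0 := by
  obtain ⟨v, hv0, hv1, hv2⟩ := exists_common Φ Ψ hΦΨ μ v₀ hv₀ h₀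
  choose ν hν using exists_grp_eigen Φ Ψ hΦΨ v μ hv1 hv2
  haveI : Module.Finite O (MonoidAlgebra 𝕋 Δ) := Module.Finite.trans 𝕋 _
  obtain ⟨O'', i1, i2, i3, i4, i5, i6, i7, i8, i9, j', lam', y, hOO'', hj', hy, hjl, hly⟩ :=
    exists_lattice_eigen (Kb := Kb) K (grpHom Φ Ψ hΦΨ) v hv0 ν hν
  have h1 := h O'' hOO'' (lam'.comp (IsScalarTower.toAlgHom O 𝕋 (MonoidAlgebra 𝕋 Δ)))
    ((lam' : MonoidAlgebra 𝕋 Δ →* O'').comp (MonoidAlgebra.of 𝕋 Δ)).toHomUnits y hy
    (fun t => by rw [← grpHom_algebraMap Φ Ψ hΦΨ]; exact hly _)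
    (fun g => by rw [← grpHom_of Φ Ψ hΦΨ]; exact hly _)
  have h3 : lam' (algebraMap 𝕋 (MonoidAlgebra 𝕋 Δ) t₀) = 0 := h1
  have h4 := hν (algebraMap 𝕋 (MonoidAlgebra 𝕋 Δ) t₀)
  rw [← hjl, h3, map_zero, zero_smul, grpHom_algebraMap, hv1] at h4
  exact (smul_eq_zero.mp h4).resolve_right hv0

end Kb

/-- From common eigenvectors for `𝕋` and `Δ` to eigenvectors for `𝕋`. -/
theorem forallEigen_of_group (Φ : 𝕋 →ₐ[O] Module.End O M) (Ψ : Δ →* Module.End O M)
    (hΦΨ : ∀ t g, Φ t * Ψ g = Ψ g * Φ t) (t₀ : 𝕋)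
    (h : ∀ (O' : Type) [CommRing O'] [IsDomain O'] [IsDiscreteValuationRing O']
      [IsAdicComplete (maximalIdeal O') O'] [Finite (ResidueField O')] [CharZero O']
      [Algebra O O'] [Module.Finite O O'] [IsLocalHom (algebraMap O O')],
      Function.Injective (algebraMap O O') → ∀ (lam : 𝕋 →ₐ[O] O') (χ : Δ →* O'ˣ)
        (x : O' ⊗[O] M), x ≠ 0 → (∀ t, (Φ t).baseChange O' x = lam t • x) →
        (∀ g, (Ψ g).baseChange O' x = ((χ g : O'ˣ) : O') • x) → lam t₀ = 0) :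
    ForallEigen Φ fun _ _ _ _ _ _ _ _ _ _ lam _ => lam t₀ = 0 := by
  intro O' _ _ _ _ _ _ _ _ _ hOO' lam x hx hlam
  obtain ⟨j, hj⟩ := exists_embedding (Kb := AlgebraicClosure (FractionRing O)) (FractionRing O) O'
    hOO'
  have h1 := vanish_aux (Kb := AlgebraicClosure (FractionRing O)) (FractionRing O) Φ Ψ hΦΨ t₀ h
    (fun t => j (lam t)) (LinearMap.rTensor M j.toLinearMap x)
    (fun h0 => hx (Module.Flat.rTensor_preserves_injective_linearMap (M := M) j.toLinearMap hj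
      (h0.trans (map_zero _).symm)))
    (fun t => by rw [baseChange_rTensor, hlam, rTensor_smul])
  exact (injective_iff_map_eq_zero j).mp hj _ h1

end Fermat.Agent.H70.Eig
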