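import Mathlib

/-!
# Hecke operators on `H¹` (abstract layer)

`S` is a monoid ("Hecke semigroup"), `Γ`, `Γ'`, … groups mapping to `S`, `V` an `R`-module with a
**right** action `ρ : S →* (Module.End R V)ᵐᵒᵖ`.  We write `slash ρ s v` for `v | s`.

* `Z1 ι ρ` : cocycles `c : Γ → V`, `c (γ δ) = (c γ) | δ + c δ`.
* `B1 ι ρ`, `H1 ι ρ = Z1 / B1`.
* `HFam ι ι'` : finite families `α : J → S` with `α_i γ' = δ_i α_{σ i}` for all `γ' ∈ Γ'`, with
  `δ_i ∈ Γ`.
* `HFam.op : Z1 ι ρ →ₗ[R] Z1 ι' ρ` and `HFam.opH : H1 ι ρ →ₗ[R] H1 ι' ρ`.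
* `opH_congr` : equivalent families have the same operator on `H¹`;
  `op_comp` : composition of operators = operator of the product family.
-/

set_option autoImplicit false

namespace Fermat.Agent.H70.Coh

variable {S : Type*} [Monoid S] {R : Type*} [CommRing R]
  {V : Type*} [AddCommGroup V] [Module R V]

/-- right action of the monoid -/
def slash (ρ : S →* (Module.End R V)ᵐᵒᵖ) (s : S) : V →ₗ[R] V := (ρ s).unop

lemma slash_mul (ρ : S →* (Module.End R V)ᵐᵒᵖ) (s t : S) (v : V) :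
    slash ρ (s * t) v = slash ρ t (slash ρ s v) := by
  unfold slash
  rw [map_mul, MulOpposite.unop_mul]
  rfl

lemma slash_one (ρ : S →* (Module.End R V)ᵐᵒᵖ) (v : V) : slash ρ 1 v = v := by
  unfold slash
  rw [map_one, MulOpposite.unop_one]
  rfl

section Z1

variable {Γ : Type*} [Group Γ] (ι : Γ →* S) (ρ : S →* (Module.End R V)ᵐᵒᵖ)

/-- right cocycles -/
def Z1 : Submodule R (Γ → V) where
  carrier := {c | ∀ γ δ : Γ, c (γ * δ) = slash ρ (ι δ) (c γ) + c δ}
  add_mem' := by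
    intro a b ha hb γ δ
    simp only [Pi.add_apply]
    rw [ha, hb, map_add]
    abel
  zero_mem' := by intro γ δ; simp
  smul_mem' := by
    intro r a ha γ δ
    simp only [Pi.smul_apply]
    rw [ha, map_smul, smul_add]

lemma mem_Z1 {c : Γ → V} : c ∈ Z1 ι ρ ↔ ∀ γ δ : Γ, c (γ * δ) = slash ρ (ι δ) (c γ) + c δ := Iff.rfl

lemma Z1_one {c : Γ → V} (hc : c ∈ Z1 ι ρ) : c 1 = 0 := by
  have := hc 1 1
  rw [mul_one, map_one, slash_one] at this
  simpa using this

/-- the coboundary of `v` -/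
def cob : V →ₗ[R] Z1 ι ρ where
  toFun v := ⟨fun γ => slash ρ (ι γ) v - v, by
    intro γ δ
    change slash ρ (ι (γ * δ)) v - v = slash ρ (ι δ) (slash ρ (ι γ) v - v) + (slash ρ (ι δ) v - v)
    rw [map_mul, slash_mul, map_sub]
    abel⟩
  map_add' v w := by
    apply Subtype.ext
    funext γ
    change slash ρ (ι γ) (v + w) - (v + w) = (slash ρ (ι γ) v - v) + (slash ρ (ι γ) w - w)
    rw [map_add]
    abel
  map_smul' r v := by
    apply Subtype.ext
    funext γ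
    change slash ρ (ι γ) (r • v) - (r • v) = r • (slash ρ (ι γ) v - v)
    rw [map_smul, smul_sub]

lemma cob_apply (v : V) (γ : Γ) : (cob ι ρ v).1 γ = slash ρ (ι γ) v - v := rfl

/-- coboundaries, as a submodule of the cocycles -/
def B1 : Submodule R (Z1 ι ρ) := LinearMap.range (cob ι ρ)

/-- First cohomology -/
abbrev H1 := (Z1 ι ρ) ⧸ (B1 ι ρ)

/-- the class of a cocycle -/
abbrev H1.mk : Z1 ι ρ →ₗ[R] H1 ι ρ := (B1 ι ρ).mkQ

end Z1

section Prim

variable {X : Type*} [MulAction S X] (ρ : S →* (Module.End R V)ᵐᵒᵖ)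

/-- action on functions -/
def fslash (s : S) : (X → V) →ₗ[R] (X → V) where
  toFun F := fun x => slash ρ s (F (s • x))
  map_add' F G := by funext x; simp
  map_smul' r F := by funext x; simp

lemma fslash_apply (s : S) (F : X → V) (x : X) : fslash ρ s F x = slash ρ s (F (s • x)) := rfl

lemma fslash_mul (s t : S) (F : X → V) : fslash ρ (s * t) F = fslash ρ t (fslash ρ s F) := by
  funext x
  rw [fslash_apply, fslash_apply, fslash_apply, slash_mul, mul_smul]

variable {Γ : Type*} [Group Γ] (ι : Γ →* S)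

/-- `F` is a primitive of `c` -/
def IsPrim (F : X → V) (c : Γ → V) : Prop := ∀ (γ : Γ) (x : X), fslash ρ (ι γ) F x = F x + c γ

variable {ρ ι}

lemma IsPrim.mem_Z1 [Nonempty X] {F : X → V} {c : Γ → V} (h : IsPrim ρ ι F c) : c ∈ Z1 ι ρ := by
  intro γ δ
  obtain ⟨x⟩ := (inferInstance : Nonempty X)
  have h1 := h (γ * δ) x
  rw [map_mul, fslash_mul, fslash_apply, h γ, map_add, ← fslash_apply, h δ, add_assoc,
    add_comm (c δ)] at h1
  exact (add_left_cancel h1).symm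

lemma IsPrim.unique [Nonempty X] {F : X → V} {c c' : Γ → V} (h : IsPrim ρ ι F c)
    (h' : IsPrim ρ ι F c') : c = c' := by
  funext γ
  obtain ⟨x⟩ := (inferInstance : Nonempty X)
  exact add_left_cancel ((h γ x).symm.trans (h' γ x))

lemma IsPrim.add {F F' : X → V} {c c' : Γ → V} (h : IsPrim ρ ι F c)
    (h' : IsPrim ρ ι F' c') : IsPrim ρ ι (F + F') (c + c') := by
  intro γ x
  rw [map_add]
  simp only [Pi.add_apply]
  rw [h, h']
  abel

lemma IsPrim.smul {F : X → V} {c : Γ → V} (h : IsPrim ρ ι F c) (r : R) :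
    IsPrim ρ ι (r • F) (r • c) := by
  intro γ x
  rw [map_smul]
  simp only [Pi.smul_apply]
  rw [h, smul_add]

lemma isPrim_const (v : V) : IsPrim ρ ι (fun _ : X => v) (cob ι ρ v).1 := by
  intro γ x
  rw [fslash_apply, cob_apply]
  abel

/-- existence of primitives when `Γ` acts freely -/
theorem exists_isPrim (hfree : ∀ (γ : Γ) (x : X), ι γ • x = x → γ = 1) {c : Γ → V}
    (hc : c ∈ Z1 ι ρ) : ∃ F : X → V, IsPrim ρ ι F c := by
  classical
  let _inst : MulAction Γ X := MulAction.compHom X ι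
  have hsm : ∀ (γ : Γ) (x : X), γ • x = ι γ • x := fun _ _ => rfl
  let r : X → X := fun x => (Quotient.mk (MulAction.orbitRel Γ X) x).out
  have hr : ∀ x, ∃ γ : Γ, γ • r x = x := by
    intro x
    have h := Quotient.mk_out (s := MulAction.orbitRel Γ X) x
    have h' : (r x) ∈ MulAction.orbit Γ x := h
    obtain ⟨γ, hγ⟩ := h'
    exact ⟨γ⁻¹, by rw [← hγ]; simp⟩
  choose t ht using hr
  have hr2 : ∀ (γ : Γ) x, r (γ • x) = r x := by
    intro γ x
    have : (Quotient.mk (MulAction.orbitRel Γ X) (γ • x)) = Quotient.mk _ x := by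
      apply Quotient.sound
      change γ • x ∈ MulAction.orbit Γ x
      exact ⟨γ, rfl⟩
    exact congrArg Quotient.out this
  have ht2 : ∀ (γ : Γ) x, t (γ • x) = γ * t x := by
    intro γ x
    have h1 : t (γ • x) • r x = (γ * t x) • r x := by
      rw [mul_smul, ht x, ← hr2 γ x, ht]
    have h2 : ((γ * t x)⁻¹ * t (γ • x)) • r x = r x := by
      rw [mul_smul, h1, inv_smul_smul]
    have h3 := hfree _ _ h2
    exact (inv_mul_eq_one.mp h3).symm
  have hinv : ∀ (γ : Γ) (v : V), slash ρ (ι γ) (slash ρ (ι γ⁻¹) v) = v := by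
    intro γ v
    rw [← slash_mul, ← map_mul, inv_mul_cancel, map_one, slash_one]
  -- F (γ r) | γ = c γ
  refine ⟨fun x => slash ρ (ι (t x)⁻¹) (c (t x)), fun γ x => ?_⟩
  rw [fslash_apply]
  change slash ρ (ι γ) (slash ρ (ι (t (γ • x))⁻¹) (c (t (γ • x)))) =
    slash ρ (ι (t x)⁻¹) (c (t x)) + c γ
  rw [ht2, hc, mul_inv_rev, ← slash_mul, ← map_mul, inv_mul_cancel_right, map_add, ← slash_mul,
    ← map_mul, mul_inv_cancel, map_one, slash_one, add_comm]

end Prim

/-- A Hecke family between `Γ` and `Γ'` -/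
structure HFam {Γ Γ' : Type*} [Group Γ] [Group Γ'] (ι : Γ →* S) (ι' : Γ' →* S) where
  /-- index set -/
  J : Type
  /-- finite -/
  fin : Fintype J
  /-- representatives -/
  α : J → S
  /-- invariance under right multiplication by `Γ'` -/
  inv : ∀ γ' : Γ', ∃ (σ : Equiv.Perm J) (δ : J → Γ), ∀ i, α i * ι' γ' = ι (δ i) * α (σ i)

namespace HFam

variable {Γ Γ' Γ'' : Type*} [Group Γ] [Group Γ'] [Group Γ''] {ι : Γ →* S} {ι' : Γ' →* S}
  {ι'' : Γ'' →* S} (h : HFam ι ι')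

instance : Fintype h.J := h.fin

/-- permutation -/
noncomputable def σ (γ' : Γ') : Equiv.Perm h.J := (h.inv γ').choose

/-- cofactor -/
noncomputable def δ (γ' : Γ') : h.J → Γ := (h.inv γ').choose_spec.choose

lemma spec (γ' : Γ') (i : h.J) : h.α i * ι' γ' = ι (h.δ γ' i) * h.α (h.σ γ' i) :=
  (h.inv γ').choose_spec.choose_spec i

variable (ρ : S →* (Module.End R V)ᵐᵒᵖ)

/-- the formula on cochains -/
noncomputable def opFun (c : Γ → V) (γ' : Γ') : V :=
  ∑ i, slash ρ (h.α (h.σ γ' i)) (c (h.δ γ' i))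

/-- action on functions -/
noncomputable def fop {X : Type*} [MulAction S X] : (X → V) →ₗ[R] (X → V) :=
  ∑ i, fslash ρ (h.α i)

variable {ρ}

lemma fop_apply {X : Type*} [MulAction S X] (F : X → V) (x : X) :
    h.fop ρ F x = ∑ i, slash ρ (h.α i) (F (h.α i • x)) := by
  unfold fop
  rw [LinearMap.sum_apply, Finset.sum_apply]
  rfl

lemma isPrim_fop {X : Type*} [MulAction S X] {F : X → V} {c : Γ → V} (hF : IsPrim ρ ι F c) :
    IsPrim ρ ι' (h.fop ρ F) (h.opFun ρ c) := by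
  intro γ' x
  rw [fslash_apply, fop_apply, fop_apply, opFun, map_sum,
    ← Equiv.sum_comp (h.σ γ') (fun i => slash ρ (h.α i) (F (h.α i • x))),
    ← Finset.sum_add_distrib]
  refine Finset.sum_congr rfl fun i _ => ?_
  rw [← slash_mul, ← mul_smul, h.spec, slash_mul, mul_smul, ← map_add]
  congr 1
  exact hF (h.δ γ' i) (h.α (h.σ γ' i) • x)

lemma opFun_add (c d : Γ → V) : h.opFun ρ (c + d) = h.opFun ρ c + h.opFun ρ d := by
  funext γ'
  simp only [opFun, Pi.add_apply, map_add]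
  rw [Finset.sum_add_distrib]

lemma opFun_smul (r : R) (c : Γ → V) : h.opFun ρ (r • c) = r • h.opFun ρ c := by
  funext γ'
  simp only [opFun, Pi.smul_apply, map_smul]
  rw [Finset.smul_sum]

/-- A set with free action of all elements (for the construction of primitives):
we use `S` itself when it is left cancellative for `ι Γ`. -/
class IsFreeOn (ι : Γ →* S) : Prop where
  free : ∀ (γ : Γ) (x : S), ι γ * x = x → γ = 1

variable [IsFreeOn ι]

lemma opFun_mem {c : Γ → V} (hc : c ∈ Z1 ι ρ) : h.opFun ρ c ∈ Z1 ι' ρ := by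
  obtain ⟨F, hF⟩ := exists_isPrim (X := S) (ρ := ρ) (ι := ι) (fun γ x hx => IsFreeOn.free γ x hx) hc
  exact (h.isPrim_fop hF).mem_Z1

variable (ρ)

/-- **The Hecke operator on cocycles.** -/
noncomputable def op : Z1 ι ρ →ₗ[R] Z1 ι' ρ where
  toFun c := ⟨h.opFun ρ c.1, h.opFun_mem c.2⟩
  map_add' c d := Subtype.ext (h.opFun_add c.1 d.1)
  map_smul' r c := Subtype.ext (h.opFun_smul r c.1)

variable {ρ}

lemma op_val (c : Z1 ι ρ) : (h.op ρ c).1 = h.opFun ρ c.1 := rfl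

lemma op_apply (c : Z1 ι ρ) (γ' : Γ') :
    (h.op ρ c).1 γ' = ∑ i, slash ρ (h.α (h.σ γ' i)) (c.1 (h.δ γ' i)) := rfl

/-- The value does not depend on the choices. -/
lemma op_apply_of_eq (c : Z1 ι ρ) (γ' : Γ') (σ : Equiv.Perm h.J) (δ : h.J → Γ)
    (hs : ∀ i, h.α i * ι' γ' = ι (δ i) * h.α (σ i)) :
    (h.op ρ c).1 γ' = ∑ i, slash ρ (h.α (σ i)) (c.1 (δ i)) := by
  obtain ⟨F, hF⟩ := exists_isPrim (X := S) (ρ := ρ) (ι := ι)
    (fun γ x hx => IsFreeOn.free γ x hx) c.2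
  have h1 := h.isPrim_fop hF γ' 1
  have h2 : fslash ρ (ι' γ') (h.fop ρ F) 1 =
      h.fop ρ F 1 + ∑ i, slash ρ (h.α (σ i)) (c.1 (δ i)) := by
    rw [fslash_apply, fop_apply, fop_apply, map_sum,
      ← Equiv.sum_comp σ (fun i => slash ρ (h.α i) (F (h.α i • 1))),
      ← Finset.sum_add_distrib]
    refine Finset.sum_congr rfl fun i _ => ?_
    rw [← slash_mul, ← mul_smul, hs, slash_mul, mul_smul, ← map_add]
    congr 1
    exact hF (δ i) (h.α (σ i) • 1)
  exact add_left_cancel (h1.symm.trans h2)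

/-- `op` on coboundaries. -/
lemma op_cob (v : V) : h.op ρ (cob ι ρ v) = cob ι' ρ (∑ i, slash ρ (h.α i) v) := by
  apply Subtype.ext
  have h1 : IsPrim ρ ι' (h.fop ρ (fun _ : S => v)) (h.opFun ρ (cob ι ρ v).1) :=
    h.isPrim_fop (isPrim_const v)
  have h2 : h.fop ρ (fun _ : S => v) = fun _ : S => ∑ i, slash ρ (h.α i) v := by
    funext x
    rw [fop_apply]
  rw [h2] at h1
  exact h1.unique (isPrim_const _)

variable (ρ)

/-- **The Hecke operator on `H¹`.** -/
noncomputable def opH : H1 ι ρ →ₗ[R] H1 ι' ρ :=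
  Submodule.mapQ _ _ (h.op ρ) (by
    rintro _ ⟨v, rfl⟩
    rw [Submodule.mem_comap, op_cob]
    exact ⟨_, rfl⟩)

variable {ρ}

lemma opH_mk (c : Z1 ι ρ) : h.opH ρ (H1.mk ι ρ c) = H1.mk ι' ρ (h.op ρ c) := rfl

omit [IsFreeOn ι] in
/-- Change of representatives. -/
lemma fslash_mul_of_isPrim {X : Type*} [MulAction S X] {F : X → V} {c : Γ → V}
    (hF : IsPrim ρ ι F c) (γ : Γ) (s : S) :
    fslash ρ (ι γ * s) F = fslash ρ s F + fun _ => slash ρ s (c γ) := by
  funext x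
  rw [fslash_mul, fslash_apply, hF, map_add]
  rfl

/-- Equivalent families induce the same operator on `H¹`. -/
theorem opH_congr (h₁ h₂ : HFam ι ι') (e : h₁.J ≃ h₂.J)
    (he : ∀ i, ∃ γ : Γ, h₁.α i = ι γ * h₂.α (e i)) : h₁.opH ρ = h₂.opH ρ := by
  apply LinearMap.ext
  intro x
  obtain ⟨c, rfl⟩ := Submodule.mkQ_surjective _ x
  change H1.mk ι' ρ (h₁.op ρ c) = H1.mk ι' ρ (h₂.op ρ c)
  choose g hg using he
  obtain ⟨F, hF⟩ := exists_isPrim (X := S) (ρ := ρ) (ι := ι)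
    (fun γ x hx => IsFreeOn.free γ x hx) c.2
  have h1 := h₁.isPrim_fop hF
  have h2 := h₂.isPrim_fop hF
  have h3 : h₁.fop ρ F = h₂.fop ρ F + fun _ => ∑ i, slash ρ (h₂.α (e i)) (c.1 (g i)) := by
    funext x
    rw [Pi.add_apply, fop_apply, fop_apply,
      ← Equiv.sum_comp e (fun i => slash ρ (h₂.α i) (F (h₂.α i • x))), ← Finset.sum_add_distrib]
    refine Finset.sum_congr rfl fun i _ => ?_
    have h4 := congrFun (fslash_mul_of_isPrim hF (g i) (h₂.α (e i))) x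
    rw [← hg i] at h4
    exact h4
  have h5 : IsPrim ρ ι' (h₁.fop ρ F) (h₂.opFun ρ c.1 +
      (cob ι' ρ (∑ i, slash ρ (h₂.α (e i)) (c.1 (g i)))).1) := by
    rw [h3]
    exact h2.add (isPrim_const _)
  have h6 := h1.unique h5
  have h7 : h₁.op ρ c = h₂.op ρ c + cob ι' ρ (∑ i, slash ρ (h₂.α (e i)) (c.1 (g i))) :=
    Subtype.ext h6
  rw [h7, map_add]
  have h8 : H1.mk ι' ρ (cob ι' ρ (∑ i, slash ρ (h₂.α (e i)) (c.1 (g i)))) = 0 := by
    rw [Submodule.mkQ_apply, Submodule.Quotient.mk_eq_zero]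
    exact ⟨_, rfl⟩
  rw [h8, add_zero]

/-- Criterion for equality of Hecke operators on `H¹`: same number of elements, the first family
is contained in the second modulo `Γ`, and has distinct classes. -/
theorem opH_congr_of_card (h₁ h₂ : HFam ι ι') (hcard : Fintype.card h₁.J = Fintype.card h₂.J)
    (hex : ∀ i, ∃ (j : h₂.J) (γ : Γ), h₁.α i = ι γ * h₂.α j)
    (hinj : ∀ (i i' : h₁.J) (γ : Γ), h₁.α i = ι γ * h₁.α i' → i = i') :
    h₁.opH ρ = h₂.opH ρ := by
  choose e g he using hex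
  have hinj' : Function.Injective e := by
    intro i i' hii'
    refine hinj i i' (g i * (g i')⁻¹) ?_
    rw [he i, hii', he i', map_mul, ← mul_assoc, mul_assoc (ι (g i)), ← map_mul ι (g i')⁻¹,
      inv_mul_cancel, map_one, mul_one]
  have hbij : Function.Bijective e :=
    (Fintype.bijective_iff_injective_and_card e).mpr ⟨hinj', hcard⟩
  exact opH_congr h₁ h₂ (Equiv.ofBijective e hbij) fun i => ⟨g i, he i⟩

/-- Composition of families. -/
noncomputable def comp (h₁ : HFam ι ι') (h₂ : HFam ι' ι'') : HFam ι ι'' where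
  J := h₁.J × h₂.J
  fin := inferInstance
  α := fun p => h₁.α p.1 * h₂.α p.2
  inv := by
    intro γ''
    refine ⟨⟨fun p => (h₁.σ (h₂.δ γ'' p.2) p.1, h₂.σ γ'' p.2),
      fun p => ((h₁.σ (h₂.δ γ'' ((h₂.σ γ'').symm p.2))).symm p.1, (h₂.σ γ'').symm p.2), ?_, ?_⟩,
      fun p => h₁.δ (h₂.δ γ'' p.2) p.1, ?_⟩
    · rintro ⟨i, j⟩; simp
    · rintro ⟨i, j⟩; simp
    · rintro ⟨i, j⟩
      change h₁.α i * h₂.α j * ι'' γ'' = ι (h₁.δ (h₂.δ γ'' j) i) *
        (h₁.α (h₁.σ (h₂.δ γ'' j) i) * h₂.α (h₂.σ γ'' j))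
      rw [mul_assoc, h₂.spec, ← mul_assoc, h₁.spec, mul_assoc]

omit [IsFreeOn ι] in
lemma fop_comp {X : Type*} [MulAction S X] (h₁ : HFam ι ι') (h₂ : HFam ι' ι'') (F : X → V) :
    (h₁.comp h₂).fop ρ F = h₂.fop ρ (h₁.fop ρ F) := by
  funext x
  rw [fop_apply, fop_apply]
  change ∑ p : h₁.J × h₂.J, slash ρ (h₁.α p.1 * h₂.α p.2) (F ((h₁.α p.1 * h₂.α p.2) • x)) = _
  rw [Fintype.sum_prod_type_right]
  refine Finset.sum_congr rfl fun j _ => ?_
  rw [fop_apply, map_sum]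
  refine Finset.sum_congr rfl fun i _ => ?_
  rw [slash_mul, mul_smul]

variable [IsFreeOn ι']

theorem op_comp (h₁ : HFam ι ι') (h₂ : HFam ι' ι'') (c : Z1 ι ρ) :
    (h₁.comp h₂).op ρ c = h₂.op ρ (h₁.op ρ c) := by
  apply Subtype.ext
  obtain ⟨F, hF⟩ := exists_isPrim (X := S) (ρ := ρ) (ι := ι)
    (fun γ x hx => IsFreeOn.free γ x hx) c.2
  have h1 := (h₁.comp h₂).isPrim_fop hF
  have h2 := h₂.isPrim_fop (h₁.isPrim_fop hF)
  rw [fop_comp] at h1
  exact h1.unique h2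

theorem opH_comp (h₁ : HFam ι ι') (h₂ : HFam ι' ι'') (x : H1 ι ρ) :
    (h₁.comp h₂).opH ρ x = h₂.opH ρ (h₁.opH ρ x) := by
  obtain ⟨c, rfl⟩ := Submodule.mkQ_surjective _ x
  change H1.mk ι'' ρ ((h₁.comp h₂).op ρ c) = H1.mk ι'' ρ (h₂.op ρ (h₁.op ρ c))
  rw [op_comp]

end HFam

end Fermat.Agent.H70.Coh
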