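import Fermat.Agent.H70HeckeAbs
import Fermat.Prelude.Def_ModularForm_HeckeOperator
import Fermat.Prelude.Thm_ModularForm_heckeT_slash_eq_self_of_mem_Gamma0

/-!
# Hecke operators on `H¹(Γ₀(M), V)` (concrete layer)

`DN N` : integer matrices with positive determinant, `N ∣ c`, `a` prime to `N`.
`gam N M h : Gamma0 M →* DN N` for `N ∣ M`.
`tFam`, `uFam`, `vFam`, `resFam` : Hecke families.
-/

set_option autoImplicit false

open CongruenceSubgroup Matrix.SpecialLinearGroup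
open scoped MatrixGroups

namespace Fermat.Agent.H70.Coh

/-- Integer matrices with positive determinant, `N ∣ c`, `a` prime to `N`. -/
def DN (N : ℕ) : Submonoid (Matrix (Fin 2) (Fin 2) ℤ) where
  carrier := {α | 0 < α.det ∧ (N : ℤ) ∣ α 1 0 ∧ IsCoprime (α 0 0) (N : ℤ)}
  one_mem' := by
    refine ⟨by simp, by simp, by simp [isCoprime_one_left]⟩
  mul_mem' := by
    rintro a b ⟨ha1, ha2, ha3⟩ ⟨hb1, hb2, hb3⟩
    refine ⟨?_, ?_, ?_⟩
    · rw [Matrix.det_mul]; positivity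
    · rw [Matrix.mul_apply, Fin.sum_univ_two]
      exact dvd_add (ha2.mul_right _) (hb2.mul_left _)
    · rw [Matrix.mul_apply, Fin.sum_univ_two]
      obtain ⟨k, hk⟩ := hb2
      rw [hk, show a 0 0 * b 0 0 + a 0 1 * ((N : ℤ) * k) = a 0 0 * b 0 0 + (N : ℤ) * (a 0 1 * k) by
        ring]
      exact (ha3.mul_left hb3).add_mul_left_left _

lemma mem_DN {N : ℕ} {α : Matrix (Fin 2) (Fin 2) ℤ} :
    α ∈ DN N ↔ 0 < α.det ∧ (N : ℤ) ∣ α 1 0 ∧ IsCoprime (α 0 0) (N : ℤ) := Iff.rfl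

lemma DN_mono {N M : ℕ} (h : N ∣ M) : DN M ≤ DN N := by
  rintro α ⟨h1, h2, h3⟩
  exact ⟨h1, (Int.natCast_dvd_natCast.mpr h).trans h2,
    h3.of_isCoprime_of_dvd_right (Int.natCast_dvd_natCast.mpr h)⟩

/-- The inclusion of `Γ₀(M)` in the Hecke semigroup. -/
def gam (N M : ℕ) (h : N ∣ M) : Gamma0 M →* DN N where
  toFun γ := ⟨((γ : SL(2, ℤ)) : Matrix (Fin 2) (Fin 2) ℤ), by
    have hc : (M : ℤ) ∣ (γ : SL(2, ℤ)) 1 0 :=
      (ZMod.intCast_zmod_eq_zero_iff_dvd _ _).mp (Gamma0_mem.mp γ.2)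
    refine DN_mono h ⟨?_, hc, ?_⟩
    · rw [(γ : SL(2, ℤ)).det_coe]; exact one_pos
    · obtain ⟨k, hk⟩ := hc
      have hdet : ((γ : SL(2, ℤ)) : Matrix (Fin 2) (Fin 2) ℤ).det = 1 := (γ : SL(2, ℤ)).det_coe
      rw [Matrix.det_fin_two] at hdet
      change ((γ : SL(2, ℤ)) 0 0 * (γ : SL(2, ℤ)) 1 1 - (γ : SL(2, ℤ)) 0 1 * (γ : SL(2, ℤ)) 1 0) = 1 at hdet
      refine ⟨(γ : SL(2, ℤ)) 1 1, -((γ : SL(2, ℤ)) 0 1 * k), ?_⟩
      rw [hk] at hdet
      linear_combination hdet⟩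
  map_one' := by apply Subtype.ext; simp
  map_mul' a b := by apply Subtype.ext; simp

lemma gam_val {N M : ℕ} (h : N ∣ M) (γ : Gamma0 M) :
    (gam N M h γ).1 = ((γ : SL(2, ℤ)) : Matrix (Fin 2) (Fin 2) ℤ) := rfl

instance {N M : ℕ} (h : N ∣ M) : HFam.IsFreeOn (gam N M h) where
  free γ x hx := by
    have h1 := congrArg Subtype.val hx
    change ((γ : SL(2, ℤ)) : Matrix (Fin 2) (Fin 2) ℤ) * x.1 = x.1 at h1
    have hdet : x.1.det ≠ 0 := x.2.1.ne'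
    have h2 : ((γ : SL(2, ℤ)) : Matrix (Fin 2) (Fin 2) ℤ) = 1 := by
      have h3 : (((γ : SL(2, ℤ)) : Matrix (Fin 2) (Fin 2) ℤ) - 1) * x.1 = 0 := by
        rw [sub_mul, h1, one_mul, sub_self]
      have h4 := congrArg (fun m => m * x.1.adjugate) h3
      simp only [zero_mul, mul_assoc, Matrix.mul_adjugate] at h4
      rw [mul_smul_comm, mul_one, smul_eq_zero] at h4
      rcases h4 with h4 | h4
      · exact absurd h4 hdet
      · exact sub_eq_zero.mp h4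
    apply Subtype.ext
    apply Subtype.ext
    rw [h2]
    rfl

/-- the upper triangular matrix `(a, b; 0, d)` -/
def ut (N : ℕ) (a : ℕ) (b : ℤ) (d : ℕ) (ha : 0 < a) (hd : 0 < d) (hN : a.Coprime N) : DN N :=
  ⟨!![(a : ℤ), b; 0, (d : ℤ)], by
    refine ⟨?_, ?_, ?_⟩
    · rw [Matrix.det_fin_two_of]
      have : (0 : ℤ) < a * d := by exact_mod_cast Nat.mul_pos ha hd
      linarith
    · simp
    · change IsCoprime (a : ℤ) (N : ℤ)
      exact Nat.isCoprime_iff_coprime.mpr hN⟩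

lemma ut_val (N : ℕ) (a : ℕ) (b : ℤ) (d : ℕ) (ha : 0 < a) (hd : 0 < d) (hN : a.Coprime N) :
    (ut N a b d ha hd hN).1 = !![(a : ℤ), b; 0, (d : ℤ)] := rfl

/-- the unipotent matrix `T ^ k` as an element of `Γ₀(M)` -/
def tpow (M : ℕ) (k : ℤ) : Gamma0 M :=
  ⟨ModularGroup.T ^ k, by rw [Gamma0_mem]; simp [ModularGroup.coe_T_zpow]⟩

lemma gam_tpow {N M : ℕ} (h : N ∣ M) (k : ℤ) : (gam N M h (tpow M k)).1 = !![1, k; 0, 1] := by
  rw [gam_val]
  exact ModularGroup.coe_T_zpow k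

/-- the real matrix of an integer matrix identity -/
lemma int_of_real {a b c d : Matrix (Fin 2) (Fin 2) ℤ}
    (h : (a.map (Int.cast : ℤ → ℝ)) * (b.map (Int.cast : ℤ → ℝ)) =
      (c.map (Int.cast : ℤ → ℝ)) * (d.map (Int.cast : ℤ → ℝ))) : a * b = c * d := by
  have h1 : (a * b).map (Int.castRingHom ℝ) = (c * d).map (Int.castRingHom ℝ) := by
    rw [Matrix.map_mul, Matrix.map_mul]
    exact h
  exact Matrix.map_injective (RingHom.injective_int (Int.castRingHom ℝ)) h1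

section TFam

variable {N M ℓ : ℕ} (hNM : N ∣ M)

lemma coprime_of_not_dvd (hℓ : ℓ.Prime) (hℓM : ¬ ℓ ∣ M) (hNM : N ∣ M) : ℓ.Coprime N :=
  (Nat.Prime.coprime_iff_not_dvd hℓ).mpr fun h => hℓM (h.trans hNM)

/-- the representatives of `T_ℓ` -/
def tRep (hNM : N ∣ M) (hℓ : ℓ.Prime) (hℓM : ¬ ℓ ∣ M) : OnePoint (ZMod ℓ) → DN N
  | none => ut N ℓ 0 1 hℓ.pos one_pos (coprime_of_not_dvd hℓ hℓM hNM)
  | some j => ut N 1 (j.val : ℤ) ℓ one_pos hℓ.pos (Nat.coprime_one_left N)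

open P2MW.S_ModularForm_heckeT_slash_eq_self_of_mem_Gamma0.ModularForm in
lemma tRep_map (hNM : N ∣ M) (hℓ : ℓ.Prime) (hℓM : ¬ ℓ ∣ M) (x : OnePoint (ZMod ℓ)) :
    ((tRep hNM hℓ hℓM x).1.map (Int.cast : ℤ → ℝ)) =
      (HeckeSlashInvariance.heckeRep ℓ x : Matrix (Fin 2) (Fin 2) ℝ) := by
  have h0 : ℓ ≠ 0 := hℓ.ne_zero
  induction x using OnePoint.rec with
  | infty =>
    rw [HeckeSlashInvariance.heckeRep_infty, ModularForm.val_heckeDiagMatrix h0]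
    change (!![(ℓ : ℤ), 0; 0, ((1 : ℕ) : ℤ)]).map (Int.cast : ℤ → ℝ) = _
    ext i j
    fin_cases i <;> fin_cases j <;> simp
  | coe j =>
    rw [HeckeSlashInvariance.heckeRep_coe, ModularForm.val_heckeMatrix h0]
    change (!![((1 : ℕ) : ℤ), (j.val : ℤ); 0, (ℓ : ℤ)]).map (Int.cast : ℤ → ℝ) = _
    ext i j
    fin_cases i <;> fin_cases j <;> simp

open P2MW.S_ModularForm_heckeT_slash_eq_self_of_mem_Gamma0.ModularForm in
/-- the Hecke family of `T_ℓ` -/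
def tFam (hNM : N ∣ M) (hℓ : ℓ.Prime) (hℓM : ¬ ℓ ∣ M) : HFam (gam N M hNM) (gam N M hNM) where
  J := OnePoint (ZMod ℓ)
  fin := by
    haveI : NeZero ℓ := ⟨hℓ.ne_zero⟩
    exact (inferInstance : Fintype (Option (ZMod ℓ)))
  α := tRep hNM hℓ hℓM
  inv := by
    intro γ
    have : Fact ℓ.Prime := ⟨hℓ⟩
    have hc : (M : ℤ) ∣ (γ : SL(2, ℤ)) 1 0 :=
      (ZMod.intCast_zmod_eq_zero_iff_dvd _ _).mp (Gamma0_mem.mp γ.2)
    choose g hg1 hg2 using fun x => HeckeSlashInvariance.heckeRep_mul hℓM (γ : SL(2, ℤ)) hc x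
    refine ⟨MulAction.toPerm (HeckeSlashInvariance.redMatrix ℓ (γ : SL(2, ℤ))),
      fun x => ⟨g x, Gamma0_mem.mpr ((ZMod.intCast_zmod_eq_zero_iff_dvd _ _).mpr (hg1 x))⟩,
      fun x => ?_⟩
    apply Subtype.ext
    apply int_of_real
    rw [tRep_map, tRep_map]
    have h1 := congrArg Units.val (hg2 x)
    exact h1

end TFam

section UFam

variable {N M q : ℕ}

/-- the representatives of `U_q` -/
def uRep (N : ℕ) (hq : 0 < q) (j : ZMod q) : DN N :=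
  ut N 1 (j.val : ℤ) q one_pos hq (Nat.coprime_one_left N)

open P2MW.S_ModularForm_heckeT_slash_eq_self_of_mem_Gamma0.ModularForm in
/-- the Hecke family of `U_q` for `q ∣ M` -/
def uFam (hNM : N ∣ M) (hq : 0 < q) (hqM : q ∣ M) : HFam (gam N M hNM) (gam N M hNM) where
  J := ZMod q
  fin := by
    haveI : NeZero q := ⟨hq.ne'⟩
    exact (inferInstance : Fintype (ZMod q))
  α := uRep N hq
  inv := by
    intro γ
    have : NeZero q := ⟨hq.ne'⟩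
    have hc : (M : ℤ) ∣ (γ : SL(2, ℤ)) 1 0 :=
      (ZMod.intCast_zmod_eq_zero_iff_dvd _ _).mp (Gamma0_mem.mp γ.2)
    have hcq : (q : ℤ) ∣ (γ : SL(2, ℤ)) 1 0 := (Int.natCast_dvd_natCast.mpr hqM).trans hc
    choose g hg1 hg2 using fun x => HeckeSlashInvariance.heckeMatrix_mul_of_dvd
      (γ : SL(2, ℤ)) hcq x
    refine ⟨HeckeSlashInvariance.affinePerm (γ : SL(2, ℤ))
        ((ZMod.intCast_zmod_eq_zero_iff_dvd _ _).mpr hcq),
      fun x => ⟨g x, Gamma0_mem.mpr ((ZMod.intCast_zmod_eq_zero_iff_dvd _ _).mpr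
        ((hg1 x) ▸ dvd_mul_of_dvd_right hc _))⟩,
      fun x => ?_⟩
    apply Subtype.ext
    apply int_of_real
    have h1 := congrArg Units.val (hg2 x)
    rw [Units.val_mul, Units.val_mul, ModularForm.val_heckeMatrix hq.ne',
      ModularForm.val_heckeMatrix hq.ne'] at h1
    have e : ∀ y : ZMod q, (uRep N hq y).1.map (Int.cast : ℤ → ℝ) =
        !![(1 : ℝ), ((y.val : ℕ) : ℝ); 0, (q : ℝ)] := by
      intro y
      change (!![((1 : ℕ) : ℤ), (y.val : ℤ); 0, (q : ℤ)]).map (Int.cast : ℤ → ℝ) = _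
      ext i j
      fin_cases i <;> fin_cases j <;> simp
    rw [e, e]
    exact h1

/-- the Hecke family of `V_d : Γ₀(M) → Γ₀(M')` for `M d ∣ M'`, `d` prime to `N`. -/
def vFam {M' d : ℕ} (hNM : N ∣ M) (hd : 0 < d) (hdN : d.Coprime N) (h : M * d ∣ M') :
    HFam (gam N M hNM) (gam N M' (hNM.trans ((Dvd.intro d rfl).trans h))) where
  J := Unit
  fin := inferInstance
  α := fun _ => ut N d 0 1 hd one_pos hdN
  inv := by
    intro γ
    have hc : (M' : ℤ) ∣ (γ : SL(2, ℤ)) 1 0 :=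
      (ZMod.intCast_zmod_eq_zero_iff_dvd _ _).mp (Gamma0_mem.mp γ.2)
    obtain ⟨k, hk⟩ := (Int.natCast_dvd_natCast.mpr h).trans hc
    have hdet : ((γ : SL(2, ℤ)) : Matrix (Fin 2) (Fin 2) ℤ).det = 1 := (γ : SL(2, ℤ)).det_coe
    rw [Matrix.det_fin_two] at hdet
    change ((γ : SL(2, ℤ)) 0 0 * (γ : SL(2, ℤ)) 1 1 - (γ : SL(2, ℤ)) 0 1 * (γ : SL(2, ℤ)) 1 0) = 1
      at hdet
    refine ⟨1, fun _ => ⟨⟨!![(γ : SL(2, ℤ)) 0 0, d * (γ : SL(2, ℤ)) 0 1; M * k,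
      (γ : SL(2, ℤ)) 1 1], ?_⟩, ?_⟩, fun _ => ?_⟩
    · rw [Matrix.det_fin_two_of]
      rw [hk] at hdet
      push_cast at hdet
      linear_combination hdet
    · refine Gamma0_mem.mpr ?_
      change ((((M : ℤ) * k : ℤ)) : ZMod M) = 0
      simp
    · apply Subtype.ext
      change (!![(d : ℤ), 0; 0, ((1 : ℕ) : ℤ)]) * ((γ : SL(2, ℤ)) : Matrix (Fin 2) (Fin 2) ℤ) =
        (!![(γ : SL(2, ℤ)) 0 0, d * (γ : SL(2, ℤ)) 0 1; M * k, (γ : SL(2, ℤ)) 1 1]) *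
          (!![(d : ℤ), 0; 0, ((1 : ℕ) : ℤ)])
      ext i j
      have hk' : ((γ : SL(2, ℤ)) : Matrix (Fin 2) (Fin 2) ℤ) 1 0 = M * d * k := by
        have := hk
        push_cast at this
        exact this
      fin_cases i <;> fin_cases j <;>
        simp [Matrix.mul_apply, Fin.sum_univ_two, hk'] <;> ring

end UFam

end Fermat.Agent.H70.Coh
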