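import Fermat.Agent.H70HeckeConc

/-!
# Relations between the Hecke operators on `H¹(Γ₀(M), V)`
-/

set_option autoImplicit false

open CongruenceSubgroup Matrix.SpecialLinearGroup
open scoped MatrixGroups

namespace Fermat.Agent.H70.Coh

section

variable {N : ℕ}

/-- An upper triangular description of a Hecke family. -/
structure IsUT {Γ Γ' : Type*} [Group Γ] [Group Γ']
    {ι : Γ →* DN N} {ι' : Γ' →* DN N} (h : HFam ι ι') (a b d : h.J → ℤ) : Prop where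
  eq : ∀ i, (h.α i).1 = !![a i, b i; 0, d i]
  pos : ∀ i, 0 < a i

lemma IsUT.comp {Γ Γ' Γ'' : Type*} [Group Γ] [Group Γ'] [Group Γ'']
    {ι : Γ →* DN N} {ι' : Γ' →* DN N} {ι'' : Γ'' →* DN N} {h : HFam ι ι'} {h' : HFam ι' ι''}
    {a b d : h.J → ℤ} {a' b' d' : h'.J → ℤ} (H : IsUT h a b d) (H' : IsUT h' a' b' d') :
    IsUT (h.comp h') (fun p => a p.1 * a' p.2) (fun p => a p.1 * b' p.2 + b p.1 * d' p.2)
      (fun p => d p.1 * d' p.2) where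
  eq := by
    rintro ⟨i, j⟩
    change (h.α i).1 * (h'.α j).1 = _
    rw [H.eq, H'.eq]
    ext x y
    fin_cases x <;> fin_cases y <;> simp [Matrix.mul_apply, Fin.sum_univ_two]
  pos := by
    rintro ⟨i, j⟩
    exact mul_pos (H.pos i) (H'.pos j)

variable {M M' : ℕ} {hM : N ∣ M} {hM' : N ∣ M'}
  {R : Type*} [CommRing R] {V : Type*} [AddCommGroup V] [Module R V]
  {ρ : DN N →* (Module.End R V)ᵐᵒᵖ}

/-- Cosets of upper triangular matrices. -/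
lemma IsUT.of_coset {Γ' : Type*} [Group Γ'] {ι' : Γ' →* DN N}
    {h₁ : HFam (gam N M hM) ι'} {a₁ b₁ d₁ : h₁.J → ℤ} (H₁ : IsUT h₁ a₁ b₁ d₁)
    (i i' : h₁.J) (γ : Gamma0 M) (hγ : h₁.α i = gam N M hM γ * h₁.α i') :
    a₁ i = a₁ i' ∧ d₁ i = d₁ i' ∧ d₁ i' ∣ b₁ i - b₁ i' := by
  have h1 := congrArg Subtype.val hγ
  change (h₁.α i).1 = (gam N M hM γ).1 * (h₁.α i').1 at h1
  rw [H₁.eq, H₁.eq, gam_val] at h1
  set g : Matrix (Fin 2) (Fin 2) ℤ := ((γ : SL(2, ℤ)) : Matrix (Fin 2) (Fin 2) ℤ) with hg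
  have hdet : g.det = 1 := (γ : SL(2, ℤ)).det_coe
  rw [Matrix.det_fin_two] at hdet
  have e00 := congrFun (congrFun h1 0) 0
  have e01 := congrFun (congrFun h1 0) 1
  have e10 := congrFun (congrFun h1 1) 0
  have e11 := congrFun (congrFun h1 1) 1
  simp [Matrix.mul_apply, Fin.sum_univ_two] at e00 e01 e10 e11
  have hpi := H₁.pos i
  have hpi' := H₁.pos i'
  have hg10 : g 1 0 = 0 := by
    rcases e10 with h | h
    · exact h
    · omega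
  rw [hg10] at hdet e11
  have hg00 : 0 < g 0 0 := by
    by_contra hneg
    push Not at hneg
    nlinarith
  have hgg : g 0 0 = 1 ∧ g 1 1 = 1 := by
    have h2 : g 0 0 * g 1 1 = 1 := by linarith
    have h3 : 0 < g 1 1 := by
      by_contra hneg
      push Not at hneg
      nlinarith
    constructor <;> nlinarith
  rw [hgg.1, one_mul] at e00 e01
  rw [hgg.2, one_mul, zero_mul, zero_add] at e11
  exact ⟨e00, e11, g 0 1, by rw [e01]; ring⟩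

/-- Criterion for equality of Hecke operators given by upper triangular families. -/
theorem opH_eq_of_isUT {Γ' : Type*} [Group Γ'] {ι' : Γ' →* DN N}
    {h₁ h₂ : HFam (gam N M hM) ι'} {a₁ b₁ d₁ : h₁.J → ℤ}
    {a₂ b₂ d₂ : h₂.J → ℤ} (H₁ : IsUT h₁ a₁ b₁ d₁) (H₂ : IsUT h₂ a₂ b₂ d₂)
    (hcard : Fintype.card h₁.J = Fintype.card h₂.J)
    (hex : ∀ i, ∃ j, a₁ i = a₂ j ∧ d₁ i = d₂ j ∧ d₂ j ∣ b₁ i - b₂ j)
    (hinj : ∀ i i', a₁ i = a₁ i' → d₁ i = d₁ i' → d₁ i' ∣ b₁ i - b₁ i' → i = i') :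
    h₁.opH ρ = h₂.opH ρ := by
  refine HFam.opH_congr_of_card h₁ h₂ hcard ?_ ?_
  · intro i
    obtain ⟨j, h1, h2, k, hk⟩ := hex i
    refine ⟨j, tpow M k, ?_⟩
    apply Subtype.ext
    change (h₁.α i).1 = (gam N M hM (tpow M k)).1 * (h₂.α j).1
    rw [H₁.eq, H₂.eq, gam_tpow, h1, h2]
    ext x y
    fin_cases x <;> fin_cases y <;> simp [Matrix.mul_apply, Fin.sum_univ_two]
    linear_combination hk
  · intro i i' γ hγ
    obtain ⟨e1, e2, e3⟩ := H₁.of_coset i i' γ hγ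
    exact hinj i i' e1 e2 e3

/-- entries for `T_ℓ` -/
def tA (ℓ : ℕ) : OnePoint (ZMod ℓ) → ℤ
  | none => ℓ
  | some _ => 1

/-- entries for `T_ℓ` -/
def tB (ℓ : ℕ) : OnePoint (ZMod ℓ) → ℤ
  | none => 0
  | some j => j.val

/-- entries for `T_ℓ` -/
def tD (ℓ : ℕ) : OnePoint (ZMod ℓ) → ℤ
  | none => 1
  | some _ => ℓ

lemma isUT_tFam {ℓ : ℕ} (hℓ : ℓ.Prime) (hℓM : ¬ ℓ ∣ M) :
    IsUT (tFam hM hℓ hℓM) (tA ℓ) (tB ℓ) (tD ℓ) where
  eq := by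
    rintro (_ | j)
    · rfl
    · rfl
  pos := by
    rintro (_ | j)
    · change (0 : ℤ) < (ℓ : ℤ)
      exact_mod_cast hℓ.pos
    · exact one_pos

lemma isUT_uFam {q : ℕ} (hq : 0 < q) (hqM : q ∣ M) :
    IsUT (uFam hM hq hqM) (fun _ => 1) (fun j => (ZMod.val j : ℤ)) (fun _ => q) where
  eq := fun _ => rfl
  pos := fun _ => one_pos

lemma isUT_vFam {d : ℕ} (hd : 0 < d) (hdN : d.Coprime N) (h : M * d ∣ M') :
    IsUT (vFam hM hd hdN h) (fun _ => (d : ℤ)) (fun _ => 0) (fun _ => 1) where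
  eq := fun _ => rfl
  pos := fun _ => by exact_mod_cast hd

lemma val_eq_of_dvd {n : ℕ} [NeZero n] {a b : ZMod n} (h : (n : ℤ) ∣ (a.val : ℤ) - (b.val : ℤ)) :
    a = b := by
  rw [← ZMod.intCast_zmod_eq_zero_iff_dvd] at h
  push_cast at h
  rw [ZMod.natCast_zmod_val, ZMod.natCast_zmod_val] at h
  exact sub_eq_zero.mp h

lemma dvd_sub_of_coprime {n m : ℕ} [NeZero n] (h : n.Coprime m) {a b : ZMod n}
    (hd : (n : ℤ) ∣ (m : ℤ) * (a.val : ℤ) - (m : ℤ) * (b.val : ℤ)) : a = b := by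
  rw [← mul_sub] at hd
  exact val_eq_of_dvd ((Nat.isCoprime_iff_coprime.mpr h).dvd_of_dvd_mul_left hd)

/-- two-digit expansions -/
lemma digits {m n : ℕ} (hm : 0 < m) (hn : 0 < n) (x : ZMod m) (y : ZMod n) :
    ∃ (x' : ZMod m) (y' : ZMod n), ((y.val : ℤ)) + (x.val : ℤ) * n = x'.val + (y'.val : ℤ) * m := by
  have : NeZero m := ⟨hm.ne'⟩
  have : NeZero n := ⟨hn.ne'⟩
  set t : ℕ := y.val + x.val * n with ht
  have h1 : t < m * n := by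
    have h2 := y.val_lt
    have h3 := x.val_lt
    calc t < n + x.val * n := by omega
      _ = (x.val + 1) * n := by ring
      _ ≤ m * n := Nat.mul_le_mul_right _ h3
  refine ⟨((t % m : ℕ) : ZMod m), ((t / m : ℕ) : ZMod n), ?_⟩
  rw [ZMod.val_cast_of_lt (Nat.mod_lt _ hm), ZMod.val_cast_of_lt (Nat.div_lt_of_lt_mul h1)]
  have h4 := Nat.mod_add_div t m
  have h5 : ((t % m : ℕ) : ℤ) + (m : ℤ) * ((t / m : ℕ) : ℤ) = (t : ℤ) := by exact_mod_cast h4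
  rw [ht] at h5
  push_cast at h5 ⊢
  linarith

lemma digits_unique {m n : ℕ} [NeZero m] [NeZero n] {x x' : ZMod m} {y y' : ZMod n}
    (h : ((m : ℤ) * n) ∣ ((y.val : ℤ) + (x.val : ℤ) * n) - ((y'.val : ℤ) + (x'.val : ℤ) * n)) :
    x = x' ∧ y = y' := by
  have h1 : y = y' := by
    apply val_eq_of_dvd
    have h2 : (n : ℤ) ∣ ((y.val : ℤ) + (x.val : ℤ) * n) - ((y'.val : ℤ) + (x'.val : ℤ) * n) :=
      (Dvd.intro_left _ rfl).trans h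
    have h3 : (y.val : ℤ) - (y'.val : ℤ) =
        (((y.val : ℤ) + (x.val : ℤ) * n) - ((y'.val : ℤ) + (x'.val : ℤ) * n)) -
          n * ((x.val : ℤ) - x'.val) := by ring
    rw [h3]
    exact dvd_sub h2 (Dvd.intro _ rfl)
  refine ⟨?_, h1⟩
  subst h1
  apply val_eq_of_dvd
  have h4 : ((y.val : ℤ) + (x.val : ℤ) * n) - ((y.val : ℤ) + (x'.val : ℤ) * n) =
      ((x.val : ℤ) - x'.val) * n := by ring
  rw [h4] at h
  have hn : (n : ℤ) ≠ 0 := by exact_mod_cast NeZero.ne n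
  exact Int.dvd_of_mul_dvd_mul_right hn h

/-- **`T_ℓ` and `T_ℓ'` commute on `H¹`.** -/
theorem tFam_comm {ℓ ℓ' : ℕ} (hℓ : ℓ.Prime) (hℓM : ¬ ℓ ∣ M) (hℓ' : ℓ'.Prime) (hℓM' : ¬ ℓ' ∣ M) :
    ((tFam hM hℓ hℓM).comp (tFam hM hℓ' hℓM')).opH ρ =
      ((tFam hM hℓ' hℓM').comp (tFam hM hℓ hℓM)).opH ρ := by
  rcases eq_or_ne ℓ ℓ' with rfl | hne
  · rfl
  have hcop : ℓ.Coprime ℓ' := (Nat.coprime_primes hℓ hℓ').mpr hne
  have i1 : NeZero ℓ := ⟨hℓ.ne_zero⟩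
  have i2 : NeZero ℓ' := ⟨hℓ'.ne_zero⟩
  have i3 : Fact ℓ.Prime := ⟨hℓ⟩
  have i4 : Fact ℓ'.Prime := ⟨hℓ'⟩
  have h1 : (1 : ℤ) < ℓ := by exact_mod_cast hℓ.one_lt
  have h1' : (1 : ℤ) < ℓ' := by exact_mod_cast hℓ'.one_lt
  have hne' : (ℓ : ℤ) ≠ ℓ' := by exact_mod_cast hne
  refine opH_eq_of_isUT ((isUT_tFam hℓ hℓM).comp (isUT_tFam hℓ' hℓM'))
    ((isUT_tFam hℓ' hℓM').comp (isUT_tFam hℓ hℓM)) ?_ ?_ ?_
  · change Fintype.card ((tFam hM hℓ hℓM).J × (tFam hM hℓ' hℓM').J) =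
      Fintype.card ((tFam hM hℓ' hℓM').J × (tFam hM hℓ hℓM).J)
    rw [Fintype.card_prod, Fintype.card_prod, mul_comm]
  · rintro ⟨_ | j, _ | j'⟩
    · exact ⟨(none, none), mul_comm _ _, rfl, by simp [tA, tB, tD]⟩
    · refine ⟨(some ((ℓ : ZMod ℓ') * j'), none), mul_comm _ _, mul_comm _ _, ?_⟩
      change (ℓ' : ℤ) * 1 ∣ ((ℓ : ℤ) * (j'.val : ℤ) + 0 * ℓ') -
        (1 * 0 + (((ℓ : ZMod ℓ') * j').val : ℤ) * 1)
      rw [mul_one, ← ZMod.intCast_zmod_eq_zero_iff_dvd]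
      push_cast
      rw [ZMod.natCast_zmod_val, ZMod.natCast_zmod_val]
      ring
    · refine ⟨(none, some ((ℓ' : ZMod ℓ)⁻¹ * j)), mul_comm _ _, mul_comm _ _, ?_⟩
      change (1 : ℤ) * ℓ ∣ (1 * 0 + (j.val : ℤ) * 1) -
        ((ℓ' : ℤ) * ((((ℓ' : ZMod ℓ)⁻¹ * j)).val : ℤ) + 0 * ℓ)
      rw [one_mul, ← ZMod.intCast_zmod_eq_zero_iff_dvd]
      push_cast
      rw [ZMod.natCast_zmod_val, ZMod.natCast_zmod_val]
      have hu : (ℓ' : ZMod ℓ) * (ℓ' : ZMod ℓ)⁻¹ = 1 :=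
        ZMod.coe_mul_inv_eq_one _ hcop.symm
      linear_combination (-j) * hu
    · obtain ⟨x', y', hxy⟩ := digits hℓ.pos hℓ'.pos j j'
      refine ⟨(some y', some x'), rfl, mul_comm _ _, ?_⟩
      change (ℓ' : ℤ) * ℓ ∣ (1 * (j'.val : ℤ) + (j.val : ℤ) * ℓ') -
        (1 * (x'.val : ℤ) + (y'.val : ℤ) * ℓ)
      rw [one_mul, one_mul, hxy, sub_self]
      exact dvd_zero _
  · rintro ⟨_ | j, _ | j'⟩ ⟨_ | i, _ | i'⟩ ha hd hb
    · rfl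
    · exfalso
      change (ℓ : ℤ) * ℓ' = ℓ * 1 at ha
      nlinarith
    · exfalso
      change (ℓ : ℤ) * ℓ' = 1 * ℓ' at ha
      nlinarith
    · exfalso
      change (ℓ : ℤ) * ℓ' = 1 * 1 at ha
      nlinarith
    · exfalso
      change (ℓ : ℤ) * 1 = ℓ * ℓ' at ha
      nlinarith
    · change (1 : ℤ) * ℓ' ∣ ((ℓ : ℤ) * (j'.val : ℤ) + 0 * ℓ') - ((ℓ : ℤ) * (i'.val : ℤ) + 0 * ℓ') at hb
      rw [one_mul, zero_mul, add_zero, add_zero] at hb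
      rw [dvd_sub_of_coprime hcop.symm hb]
    · exfalso
      change (ℓ : ℤ) * 1 = 1 * ℓ' at ha
      exact hne' (by linarith)
    · exfalso
      change (ℓ : ℤ) * 1 = 1 * 1 at ha
      linarith
    · exfalso
      change (1 : ℤ) * ℓ' = ℓ * ℓ' at ha
      nlinarith
    · exfalso
      change (1 : ℤ) * ℓ' = ℓ * 1 at ha
      exact hne' (by linarith)
    · change (ℓ : ℤ) * 1 ∣ (1 * 0 + (j.val : ℤ) * 1) - (1 * 0 + (i.val : ℤ) * 1) at hb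
      simp only [mul_one, mul_zero, zero_add] at hb
      rw [val_eq_of_dvd hb]
    · exfalso
      change (1 : ℤ) * ℓ' = 1 * 1 at ha
      linarith
    · exfalso
      change (1 : ℤ) * 1 = ℓ * ℓ' at ha
      nlinarith
    · exfalso
      change (1 : ℤ) * 1 = ℓ * 1 at ha
      linarith
    · exfalso
      change (1 : ℤ) * 1 = 1 * ℓ' at ha
      linarith
    · change (ℓ : ℤ) * ℓ' ∣ (1 * (j'.val : ℤ) + (j.val : ℤ) * ℓ') -
        (1 * (i'.val : ℤ) + (i.val : ℤ) * ℓ') at hb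
      rw [one_mul, one_mul] at hb
      obtain ⟨h5, h6⟩ := digits_unique hb
      rw [h5, h6]

/-- **`T_ℓ` and `U_q` commute on `H¹`.** -/
theorem tFam_uFam_comm {ℓ q : ℕ} (hℓ : ℓ.Prime) (hℓM : ¬ ℓ ∣ M) (hq : 0 < q) (hqM : q ∣ M) :
    ((tFam hM hℓ hℓM).comp (uFam hM hq hqM)).opH ρ =
      ((uFam hM hq hqM).comp (tFam hM hℓ hℓM)).opH ρ := by
  have hcop : ℓ.Coprime q :=
    (Nat.Prime.coprime_iff_not_dvd hℓ).mpr fun h => hℓM (h.trans hqM)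
  have i1 : NeZero ℓ := ⟨hℓ.ne_zero⟩
  have i2 : NeZero q := ⟨hq.ne'⟩
  have h1 : (1 : ℤ) < ℓ := by exact_mod_cast hℓ.one_lt
  refine opH_eq_of_isUT ((isUT_tFam hℓ hℓM).comp (isUT_uFam hq hqM))
    ((isUT_uFam hq hqM).comp (isUT_tFam hℓ hℓM)) ?_ ?_ ?_
  · change Fintype.card ((tFam hM hℓ hℓM).J × (uFam hM hq hqM).J) =
      Fintype.card ((uFam hM hq hqM).J × (tFam hM hℓ hℓM).J)
    rw [Fintype.card_prod, Fintype.card_prod, mul_comm]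
  · rintro ⟨_ | j, (j' : ZMod q)⟩
    · refine ⟨((ℓ : ZMod q) * j', none), mul_comm _ _, mul_comm _ _, ?_⟩
      change (q : ℤ) * 1 ∣ ((ℓ : ℤ) * (ZMod.val j' : ℤ) + 0 * q) -
        (1 * 0 + ((ZMod.val ((ℓ : ZMod q) * j')) : ℤ) * 1)
      rw [mul_one, ← ZMod.intCast_zmod_eq_zero_iff_dvd]
      push_cast
      rw [ZMod.natCast_zmod_val, ZMod.natCast_zmod_val]
      ring
    · obtain ⟨x', y', hxy⟩ := digits hℓ.pos hq j j'
      refine ⟨(y', some x'), rfl, mul_comm _ _, ?_⟩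
      change (q : ℤ) * ℓ ∣ (1 * (ZMod.val j' : ℤ) + (j.val : ℤ) * q) -
        (1 * (x'.val : ℤ) + (y'.val : ℤ) * ℓ)
      rw [one_mul, one_mul, hxy, sub_self]
      exact dvd_zero _
  · rintro ⟨_ | j, j'⟩ ⟨_ | i, i'⟩ ha hd hb
    · change (1 : ℤ) * q ∣ ((ℓ : ℤ) * (ZMod.val j' : ℤ) + 0 * q) -
        ((ℓ : ℤ) * (ZMod.val i' : ℤ) + 0 * q) at hb
      rw [one_mul, zero_mul, add_zero, add_zero] at hb
      rw [dvd_sub_of_coprime hcop.symm hb]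
    · exfalso
      change (ℓ : ℤ) * 1 = 1 * 1 at ha
      linarith
    · exfalso
      change (1 : ℤ) * 1 = ℓ * 1 at ha
      linarith
    · change (ℓ : ℤ) * q ∣ (1 * (ZMod.val j' : ℤ) + (j.val : ℤ) * q) -
        (1 * (ZMod.val i' : ℤ) + (i.val : ℤ) * q) at hb
      rw [one_mul, one_mul] at hb
      obtain ⟨h5, h6⟩ := digits_unique hb
      rw [h5, h6]

/-- **`U_q` and `U_q'` commute on `H¹`.** -/
theorem uFam_comm {q q' : ℕ} (hq : 0 < q) (hqM : q ∣ M) (hq' : 0 < q') (hqM' : q' ∣ M) :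
    ((uFam hM hq hqM).comp (uFam hM hq' hqM')).opH ρ =
      ((uFam hM hq' hqM').comp (uFam hM hq hqM)).opH ρ := by
  have i1 : NeZero q := ⟨hq.ne'⟩
  have i2 : NeZero q' := ⟨hq'.ne'⟩
  refine opH_eq_of_isUT ((isUT_uFam hq hqM).comp (isUT_uFam hq' hqM'))
    ((isUT_uFam hq' hqM').comp (isUT_uFam hq hqM)) ?_ ?_ ?_
  · change Fintype.card ((uFam hM hq hqM).J × (uFam hM hq' hqM').J) =
      Fintype.card ((uFam hM hq' hqM').J × (uFam hM hq hqM).J)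
    rw [Fintype.card_prod, Fintype.card_prod, mul_comm]
  · rintro ⟨j, j'⟩
    obtain ⟨x', y', hxy⟩ := digits hq hq' j j'
    refine ⟨(y', x'), rfl, mul_comm _ _, ?_⟩
    change (q' : ℤ) * q ∣ (1 * (ZMod.val j' : ℤ) + (ZMod.val j : ℤ) * q') -
      (1 * (x'.val : ℤ) + (y'.val : ℤ) * q)
    rw [one_mul, one_mul, hxy, sub_self]
    exact dvd_zero _
  · rintro ⟨j, j'⟩ ⟨i, i'⟩ ha hd hb
    change (q : ℤ) * q' ∣ (1 * (ZMod.val j' : ℤ) + (ZMod.val j : ℤ) * q') -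
      (1 * (ZMod.val i' : ℤ) + (ZMod.val i : ℤ) * q') at hb
    rw [one_mul, one_mul] at hb
    obtain ⟨h5, h6⟩ := digits_unique hb
    rw [h5, h6]

/-- **`T_ℓ` commutes with `V_d`.** -/
theorem tFam_vFam_comm {ℓ d : ℕ} (hℓ : ℓ.Prime) (hℓM' : ¬ ℓ ∣ M') (hd : 0 < d)
    (hdN : d.Coprime N) (h : M * d ∣ M') :
    ((tFam hM hℓ (fun h' => hℓM' (h'.trans ((Dvd.intro d rfl).trans h)))).comp
      (vFam hM hd hdN h)).opH ρ =
      ((vFam hM hd hdN h).comp (tFam (hM.trans ((Dvd.intro d rfl).trans h)) hℓ hℓM')).opH ρ := by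
  have hcop : d.Coprime ℓ := by
    rw [Nat.coprime_comm]
    exact (Nat.Prime.coprime_iff_not_dvd hℓ).mpr
      fun h' => hℓM' (h'.trans ((Dvd.intro_left M rfl).trans h))
  have i1 : NeZero ℓ := ⟨hℓ.ne_zero⟩
  have h1 : (1 : ℤ) < ℓ := by exact_mod_cast hℓ.one_lt
  have hd' : (0 : ℤ) < d := by exact_mod_cast hd
  refine opH_eq_of_isUT ((isUT_tFam hℓ _).comp (isUT_vFam hd hdN h))
    ((isUT_vFam hd hdN h).comp (isUT_tFam hℓ hℓM')) ?_ ?_ ?_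
  · change Fintype.card ((tFam hM hℓ _).J × (vFam hM hd hdN h).J) =
      Fintype.card ((vFam hM hd hdN h).J × (tFam _ hℓ hℓM').J)
    rw [Fintype.card_prod, Fintype.card_prod, mul_comm]
    rfl
  · rintro ⟨_ | j, ⟨⟩⟩
    · exact ⟨((), none), mul_comm _ _, rfl, by simp [tA, tB, tD]⟩
    · refine ⟨((), some ((d : ZMod ℓ)⁻¹ * j)), mul_comm _ _, mul_comm _ _, ?_⟩
      change (1 : ℤ) * ℓ ∣ (1 * 0 + (j.val : ℤ) * 1) -
        ((d : ℤ) * ((((d : ZMod ℓ)⁻¹ * j)).val : ℤ) + 0 * ℓ)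
      rw [one_mul, ← ZMod.intCast_zmod_eq_zero_iff_dvd]
      push_cast
      rw [ZMod.natCast_zmod_val, ZMod.natCast_zmod_val]
      have hu : (d : ZMod ℓ) * (d : ZMod ℓ)⁻¹ = 1 :=
        ZMod.coe_mul_inv_eq_one _ hcop
      linear_combination (-j) * hu
  · rintro ⟨_ | j, ⟨⟩⟩ ⟨_ | i, ⟨⟩⟩ ha hdd hb
    · rfl
    · exfalso
      change (ℓ : ℤ) * d = 1 * d at ha
      nlinarith
    · exfalso
      change (1 : ℤ) * d = ℓ * d at ha
      nlinarith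
    · change (ℓ : ℤ) * 1 ∣ (1 * 0 + (j.val : ℤ) * 1) - (1 * 0 + (i.val : ℤ) * 1) at hb
      simp only [mul_one, mul_zero, zero_add] at hb
      rw [val_eq_of_dvd hb]

/-- **`U_q` commutes with `V_d`** for `d` prime to `q`. -/
theorem uFam_vFam_comm {q d : ℕ} (hq : 0 < q) (hqM : q ∣ M) (hd : 0 < d)
    (hdN : d.Coprime N) (h : M * d ∣ M') (hcop : d.Coprime q) :
    ((uFam hM hq hqM).comp (vFam hM hd hdN h)).opH ρ =
      ((vFam hM hd hdN h).comp (uFam (hM.trans ((Dvd.intro d rfl).trans h)) hq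
        (hqM.trans ((Dvd.intro d rfl).trans h)))).opH ρ := by
  have i1 : NeZero q := ⟨hq.ne'⟩
  refine opH_eq_of_isUT ((isUT_uFam hq _).comp (isUT_vFam hd hdN h))
    ((isUT_vFam hd hdN h).comp (isUT_uFam hq _)) ?_ ?_ ?_
  · change Fintype.card ((uFam hM hq _).J × (vFam hM hd hdN h).J) =
      Fintype.card ((vFam hM hd hdN h).J × (uFam _ hq _).J)
    rw [Fintype.card_prod, Fintype.card_prod, mul_comm]
    rfl
  · rintro ⟨(j : ZMod q), ⟨⟩⟩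
    refine ⟨((), (d : ZMod q)⁻¹ * j), mul_comm _ _, mul_comm _ _, ?_⟩
    change (1 : ℤ) * q ∣ (1 * 0 + (ZMod.val j : ℤ) * 1) -
      ((d : ℤ) * ((ZMod.val ((d : ZMod q)⁻¹ * j)) : ℤ) + 0 * q)
    rw [one_mul, ← ZMod.intCast_zmod_eq_zero_iff_dvd]
    push_cast
    rw [ZMod.natCast_zmod_val, ZMod.natCast_zmod_val]
    have hu : (d : ZMod q) * (d : ZMod q)⁻¹ = 1 :=
      ZMod.coe_mul_inv_eq_one _ hcop
    linear_combination (-j) * hu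
  · rintro ⟨j, ⟨⟩⟩ ⟨i, ⟨⟩⟩ ha hdd hb
    change (q : ℤ) * 1 ∣ (1 * 0 + (ZMod.val j : ℤ) * 1) - (1 * 0 + (ZMod.val i : ℤ) * 1) at hb
    simp only [mul_one, mul_zero, zero_add] at hb
    rw [val_eq_of_dvd hb]

end

end Fermat.Agent.H70.Coh
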