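import Fermat.Agent.H70Char
import Fermat.Agent.H70Eig
import Fermat.Agent.H59ES
import Fermat.Agent.H30Act

/-!
# Levels: one idempotent for all modules
-/

set_option autoImplicit false
set_option linter.style.haveILetI false

open Matrix CongruenceSubgroup IsLocalRing
open scoped MatrixGroups TensorProduct

namespace Fermat.Agent.H70.Mod

open Fermat.Agent.H70.Coh Fermat.Agent.H59 Fermat.Agent.H37.Rank

section FiniteEnd

variable {O R X : Type} [CommRing O] [IsNoetherianRing O] [CommRing R] [Algebra O R]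
  [AddCommGroup X] [Module R X] [Module O X] [IsScalarTower O R X]

theorem finite_end [Module.Finite O X] : Module.Finite O (Module.End R X) := by
  obtain ⟨n, s, hs⟩ := Module.Finite.exists_fin (R := O) (M := X)
  let F : Module.End R X →ₗ[O] (Fin n → X) :=
    { toFun := fun f i => f (s i)
      map_add' := fun f g => rfl
      map_smul' := fun a f => rfl }
  refine Module.Finite.of_injective F ?_
  intro f g hfg
  have h1 : ∀ x ∈ Submodule.span O (Set.range s), f x = g x := by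
    intro x hx
    induction hx using Submodule.span_induction with
    | mem x hx =>
      obtain ⟨i, rfl⟩ := hx
      exact congrFun hfg i
    | zero => rw [map_zero, map_zero]
    | add x y _ _ hx hy => rw [map_add, map_add, hx, hy]
    | smul a x _ hx => rw [← algebraMap_smul R a x, map_smul, map_smul, hx]
  apply LinearMap.ext
  intro x
  exact h1 x (by rw [hs]; trivial)

end FiniteEnd

section Idem

/-- one polynomial is a local idempotent for two finite sets of families -/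
theorem exists_isLocIdem_pi₂ {O ι κ : Type} [CommRing O] [Field κ] [IsLocalRing O]
    [IsNoetherianRing O] [IsAdicComplete (maximalIdeal O) O] {J₁ J₂ : Type} [Finite J₁] [Finite J₂]
    (F₁ : J₁ → Type) (F₂ : J₂ → Type) [∀ j, Ring (F₁ j)] [∀ j, Algebra O (F₁ j)]
    [∀ j, Module.Finite O (F₁ j)] [∀ j, Ring (F₂ j)] [∀ j, Algebra O (F₂ j)]
    [∀ j, Module.Finite O (F₂ j)] (T₁ : ∀ j, ι → F₁ j) (T₂ : ∀ j, ι → F₂ j)
    (h₁ : ∀ j i i', T₁ j i * T₁ j i' = T₁ j i' * T₁ j i)
    (h₂ : ∀ j i i', T₂ j i * T₂ j i' = T₂ j i' * T₂ j i)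
    (θ : MvPolynomial ι O →+* κ) (hθs : ∀ x : κ, ∃ a : O, θ (MvPolynomial.C a) = x) :
    ∃ e, (∀ j, IsLocIdem (T₁ j) (h₁ j) θ e) ∧ ∀ j, IsLocIdem (T₂ j) (h₂ j) θ e := by
  let T : ι → (∀ j, F₁ j) × (∀ j, F₂ j) := fun i => (fun j => T₁ j i, fun j => T₂ j i)
  have hT : ∀ i i', T i * T i' = T i' * T i := fun i i' =>
    Prod.ext (funext fun b => h₁ b i i') (funext fun b => h₂ b i i')
  obtain ⟨e, he⟩ := exists_isLocIdem (O := O) T hT θ hθs
  exact ⟨e, fun j => he.of_map ((Pi.evalAlgHom O _ j).comp (AlgHom.fst O _ _)) (h₁ j)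
    fun i => rfl, fun j => he.of_map ((Pi.evalAlgHom O _ j).comp (AlgHom.snd O _ _)) (h₂ j)
    fun i => rfl⟩

variable {N M : ℕ} (hM : N ∣ M) {S : Set ℕ} (hS : Away M S) {O : Type} [CommRing O]
  [IsLocalRing O] [IsNoetherianRing O] [IsAdicComplete (maximalIdeal O) O]
  {Λ : Type} [CommRing Λ] [Algebra O Λ] [Module.Finite O Λ]
  (hg : Good M Λ) {κ : Type} [Field κ] (θ : MvPolynomial (Idx S) O →+* κ)
  (hθs : ∀ x : κ, ∃ a : O, θ (MvPolynomial.C a) = x)

include hg hθs in
/-- **One idempotent for the modules with coefficients in `Λ` and all levels `L' ∣ L` over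
`O`.** -/
theorem exists_common_idem [NeZero M] {L : ℕ} [NeZero L] (hL : Away L S)
    (ψ η : Bool → ((ZMod N)ˣ →* Λˣ)) (hψ : ∀ b, ψ b (-1) = 1) :
    ∃ e : MvPolynomial (Idx S) O,
      (∀ b, IsLocIdem (tw hM hS (ψ b) (η b)) (tw_comm hM hS (ψ b) (η b)) θ e) ∧
      ∀ (L' : ℕ) (hL' : Adm S L'), L' ∣ L → IsLocIdem (TT O hL') (TT_comm hL') θ e := by
  classical
  have hA : ∀ L' : {L' // L' ∈ Nat.divisors L}, Adm S L'.1 := fun L' ℓ hℓ h1 =>
    hL ℓ hℓ (h1.trans (Nat.dvd_of_mem_divisors L'.2))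
  haveI i1 : ∀ b, Module.Finite O (Module.End Λ (H1 (gam N M hM) (psiRep (ψ b) Λ))) := fun b => by
    haveI := h1_finite hM (ψ b) hg (hψ b)
    haveI : Module.Finite O (H1 (gam N M hM) (psiRep (ψ b) Λ)) := Module.Finite.trans Λ _
    exact finite_end (R := Λ)
  haveI i2 : ∀ L' : {L' // L' ∈ Nat.divisors L}, Module.Finite O (Module.End O (HH O L'.1)) :=
    fun L' => by
      haveI : NeZero L'.1 := ⟨(Nat.pos_of_mem_divisors L'.2).ne'⟩
      exact finite_end (R := O)
  letI r1 : ∀ b : Bool, Ring (Module.End Λ (H1 (gam N M hM) (psiRep (ψ b) Λ))) :=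
    fun b => inferInstance
  letI r2 : ∀ L' : {L' // L' ∈ Nat.divisors L}, Ring (Module.End O (HH O L'.1)) :=
    fun L' => inferInstance
  obtain ⟨e, h1, h2⟩ := exists_isLocIdem_pi₂ (O := O)
    (fun b => Module.End Λ (H1 (gam N M hM) (psiRep (ψ b) Λ)))
    (fun L' : {L' // L' ∈ Nat.divisors L} => Module.End O (HH O L'.1))
    (fun b => tw hM hS (ψ b) (η b)) (fun L' => TT O (hA L'))
    (fun b => tw_comm hM hS (ψ b) (η b)) (fun L' => TT_comm (hA L')) θ hθs
  exact ⟨e, h1, fun L' hL' hd => h2 ⟨L', Nat.mem_divisors.mpr ⟨hd, NeZero.ne L⟩⟩⟩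

end Idem

end Fermat.Agent.H70.Mod
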