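import Fermat.Agent.H70Lev9
import Fermat.Agent.H70Reduced

/-!
# The module part of a Taylor–Wiles level
-/

set_option autoImplicit false
set_option linter.style.haveILetI false
set_option linter.unusedSectionVars false

open Matrix CongruenceSubgroup IsLocalRing CuspForm
open scoped MatrixGroups TensorProduct

namespace Fermat.Agent.H70.Mod

open Fermat.Agent.H70.Coh Fermat.Agent.H59 Fermat.Agent.H37.Rank Fermat.Agent.H30
  Fermat.Agent.H69.EG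

set_option synthInstance.maxHeartbeats 400000
set_option maxHeartbeats 4000000

lemma thetaPoly_surj {L : ℕ} [NeZero L] {S : Set ℕ} (hSL : ∀ q : ℕ, q.Prime → q ∣ L → q ∈ S)
    {O : Type} [CommRing O] [IsDomain O] [IsDiscreteValuationRing O]
    [IsAdicComplete (maximalIdeal O) O] (θ : heckeAlgebra L 2 S →+* ResidueField O)
    (x : ResidueField O) : ∃ a : O, thetaPoly L S hSL O θ (MvPolynomial.C a) = x := by
  obtain ⟨a, rfl⟩ := residue_surjective x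
  exact ⟨a, thetaPoly_C L S hSL O θ a⟩

lemma exists_exponent {r : ℕ} (e : Fin r → ℕ) : ∃ s, 1 ≤ s ∧ ∀ j, e j ≤ s :=
  ⟨(Finset.univ.sup e) + 1, by omega, fun j => (Finset.le_sup (Finset.mem_univ j)).trans (by omega)⟩

lemma pow_exponent {G : Type*} [CommMonoid G] {x : G} {p s : ℕ} (hs : 1 ≤ s) (hx : x ^ p = 1) :
    x ^ p ^ s = 1 := by
  obtain ⟨k, rfl⟩ : ∃ k, s = k + 1 := ⟨s - 1, by omega⟩
  rw [pow_succ', pow_mul, hx, one_pow]

lemma hom_pow_exponent {A B : Type*} [MulOneClass A] [CommMonoid B] {τ : A →* B} {p s : ℕ}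
    (hs : 1 ≤ s) (h : τ ^ p = 1) : τ ^ p ^ s = 1 := by
  ext1 a
  rw [MonoidHom.pow_apply, MonoidHom.one_apply]
  refine pow_exponent hs ?_
  have h1 := DFunLike.congr_fun h a
  rwa [MonoidHom.pow_apply, MonoidHom.one_apply] at h1

lemma hom_one_pow {A B : Type*} [MulOneClass A] [CommMonoid B] (n : ℕ) :
    (1 : A →* B) ^ n = 1 := by
  ext1 a
  rw [MonoidHom.pow_apply, MonoidHom.one_apply, one_pow]

/-- the local Hecke algebra is reduced -/
theorem isReduced_heckeLocal' {L : ℕ} [NeZero L] {S : Set ℕ}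
    (hSL : ∀ q : ℕ, q.Prime → q ∣ L → q ∈ S)
    {O : Type} [CommRing O] [IsDomain O] [IsDiscreteValuationRing O]
    [IsAdicComplete (maximalIdeal O) O] [CharZero O]
    (θ : heckeAlgebra L 2 S →+* ResidueField O) : IsReduced (heckeLocal L S O θ) :=
  H70.isReduced_of_adjoin_heckeAlgebra hSL (heckeLocal.π L S O θ) (adjoin_range_π L S O θ)

lemma psiMap_pow_eq_one {N : ℕ} {R R' : Type} [CommRing R] [CommRing R'] (f : R →+* R')
    {η : (ZMod N)ˣ →* Rˣ} {m : ℕ} (h : η ^ m = 1) : (psiMap f η) ^ m = 1 := by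
  rw [← psiMap_pow, h, psiMap_one]

section Main

variable {O : Type} [CommRing O] [IsDomain O] [IsDiscreteValuationRing O]
    [IsAdicComplete (maximalIdeal O) O] [Finite (ResidueField O)] [CharZero O]
    {p : ℕ} [Fact p.Prime] [CharP (ResidueField O) p]
    {L : ℕ} [NeZero L] {S : Set ℕ} {hSL : ∀ q : ℕ, q.Prime → q ∣ L → q ∈ S}
    {θ : heckeAlgebra L 2 S →+* ResidueField O}
    {r : ℕ} {e : Fin r → ℕ}
    {Q : Fin r → ℕ} (hQ : ∀ j, (Q j).Prime) (hQinj : Function.Injective Q)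
    {T : Type} {qT : T → ℕ} (hqT : ∀ t, (qT t).Prime)
    (hQT : ∀ j t, Q j ≠ qT t)
    {M₀ q₀ N1 N2 : ℕ} [NeZero M₀] [NeZero q₀] [NeZero N1] (hq₀ : q₀.Prime) (hqM₀ : ¬ q₀ ∣ M₀)
    (hN2 : N2 ∣ M₀) (hQN2 : ∀ j, Q j ∣ N2) (hN1 : N1 ∣ M₀ * q₀) (hN21 : N2 ∣ N1)
    (hQN1 : ∀ j, Q j ∣ N1)
    (hsq : Squarefree N1) (hSM : Away (M₀ * q₀) S)
    {u : ∀ j, (ZMod (Q j))ˣ →* Multiplicative (ZMod (p ^ e j))}
    (hu : ∀ j, Function.Surjective (u j)) {τ : (ZMod N1)ˣ →* Oˣ}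
    (hτT : ∀ t, ¬ TrivAt N1 (qT t) τ) (hτQ : ∀ j, TrivAt N1 (Q j) τ)

include hQ hQinj hqT hQT hsq hu hτT hτQ in
/-- the properties of the eigenclasses, abstractly -/
lemma ea_chi {s : ℕ} (hp2 : p ≠ 2) (hηs : (etaL hQN1 u τ) ^ p ^ s = 1)
    (prodV : T → heckeLocal L S O θ) (cV : Fin r → heckeLocal L S O θ)
    (hA : ∀ (O' : Type) [CommRing O'] [IsDomain O'] [IsDiscreteValuationRing O']
      [IsAdicComplete (maximalIdeal O') O'] [Finite (ResidueField O')] [CharZero O']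
      [Algebra O O'] [Module.Finite O O'] [IsLocalHom (algebraMap O O')],
      Function.Injective (algebraMap O O') → ∀ (lam : heckeLocal L S O θ →ₐ[O] O')
      (η : (ZMod N1)ˣ →* O'ˣ) (x : H1 (gam N1 (M₀ * q₀) hN1) (psiRep (η ^ 2) O')),
      (∃ m, Odd m ∧ η ^ m = 1) → (∀ t, ¬ TrivAt N1 (qT t) η) → (∀ c : O', c ≠ 0 → c • x ≠ 0) →
      (∀ i, tw hN1 hSM (η ^ 2) η i x = lam (heckeLocal.π L S O θ (TIdx L S hSL i)) • x) →
      (∀ t, lam (prodV t) = 0) ∧ ∀ j, (TrivAt N1 (Q j) η ↔ lam (cV j) = 1))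
    (O' : Type) [CommRing O'] [IsDomain O'] [IsDiscreteValuationRing O']
      [IsAdicComplete (maximalIdeal O') O'] [Finite (ResidueField O')] [CharZero O']
      [Algebra O O'] [Module.Finite O O'] [IsLocalHom (algebraMap O O')]
      (hOO' : Function.Injective (algebraMap O O')) (lam : heckeLocal L S O θ →ₐ[O] O')
      (χ : Dlt p e →* O'ˣ)
      (z : H1 (gam N1 (M₀ * q₀) hN1)
        (psiRep ((psiMap (evC (O := O) χ).toRingHom (etaL hQN1 u τ)) ^ 2) O'))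
      (hz : IsPt hN1 hSM (psiMap (evC (O := O) χ).toRingHom (etaL hQN1 u τ))
        (fun i => lam (heckeLocal.π L S O θ (TIdx L S hSL i))) z) :
      (∀ t, lam (prodV t) = 0) ∧ ((∀ g, χ g = 1) ↔ ∀ j, lam (cV j) = 1) := by
  have hp : p.Prime := Fact.out
  obtain ⟨h1, h2⟩ := hA O' hOO' lam (psiMap (evC (O := O) χ).toRingHom (etaL hQN1 u τ)) z
    ⟨p ^ s, (hp.odd_of_ne_two hp2).pow, psiMap_pow_eq_one _ hηs⟩
    (fun t => not_trivAt hQ hQN1 hOO' (hqT t) (fun j => hQT j t) (hτT t) χ) hz.smul_ne hz.eigen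
  refine ⟨h1, ?_⟩
  rw [← trivAt_iff hsq hQ hQinj hQN1 hu hτQ χ]
  exact forall_congr' h2


omit [CharP (ResidueField O) p] [Finite (ResidueField O)] [CharZero O] [Fact p.Prime] in
include hq₀ hqM₀ hN2 hQN2 hN21 in
/-- the properties of the eigenclasses with trivial character at `T` -/
lemma ea_one [Fact p.Prime] {s : ℕ} (hp2 : p ≠ 2)
    (hη₂s : (etaL hQN2 u (1 : (ZMod N2)ˣ →* Oˣ)) ^ p ^ s = 1)
    {ē : MvPolynomial (Idx S) O} (i₀ : Idx S)
    (hi₀ : θ (TIdx L S hSL i₀) ≠ 1 + (i₀.1 : ResidueField O))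
    (hgΛ₀ : Good M₀ (MonoidAlgebra O (Dlt p e))) (hgO : Good M₀ O)
    (hē3 : IsLocIdem (tw hN2 hSM.left ((etaL hQN2 u (1 : (ZMod N2)ˣ →* Oˣ)) ^ 2)
      (etaL hQN2 u (1 : (ZMod N2)ˣ →* Oˣ))) (tw_comm hN2 hSM.left _ _) (thetaPoly L S hSL O θ) ē)
    (h₀ : Adm S M₀) (heO : IsLocIdem (TT O h₀) (TT_comm h₀) (thetaPoly L S hSL O θ) ē)
    (hrk : Module.finrank O (Loc (TT O h₀) (TT_comm h₀) ē) = 0)
    (hV : heckeLocal L S O θ)
    (hA3 : ∀ (O' : Type) [CommRing O'] [IsDomain O'] [IsDiscreteValuationRing O']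
      [IsAdicComplete (maximalIdeal O') O'] [Finite (ResidueField O')] [CharZero O']
      [Algebra O O'] [Module.Finite O O'] [IsLocalHom (algebraMap O O')],
      Function.Injective (algebraMap O O') → ∀ (lam : heckeLocal L S O θ →ₐ[O] O')
      (η : (ZMod N2)ˣ →* O'ˣ)
      (x : H1 (gam N2 (M₀ * q₀) (hN2.mul_right q₀)) (psiRep (η ^ 2) O')),
      (∃ m, Odd m ∧ η ^ m = 1) → (∀ c : O', c ≠ 0 → c • x ≠ 0) →
      (∀ i, tw (hN2.mul_right q₀) hSM (η ^ 2) η i x =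
        lam (heckeLocal.π L S O θ (TIdx L S hSL i)) • x) →
      (trFam hN2).opH (psiRep (η ^ 2) O') x = 0 → (nuFam hN2 hq₀).opH (psiRep (η ^ 2) O') x = 0 →
      lam hV = 0)
    (O' : Type) [CommRing O'] [IsDomain O'] [IsDiscreteValuationRing O']
      [IsAdicComplete (maximalIdeal O') O'] [Finite (ResidueField O')] [CharZero O']
      [Algebra O O'] [Module.Finite O O'] [IsLocalHom (algebraMap O O')]
      (hpO' : (p : O') ∈ maximalIdeal O')
      (hOO' : Function.Injective (algebraMap O O')) (lam : heckeLocal L S O θ →ₐ[O] O')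
      (χ : Dlt p e →* O'ˣ)
      (z : H1 (gam N1 (M₀ * q₀) hN1)
        (psiRep ((psiMap (evC (O := O) χ).toRingHom (etaL hQN1 u (1 : (ZMod N1)ˣ →* Oˣ))) ^ 2) O'))
      (hz : IsPt hN1 hSM (psiMap (evC (O := O) χ).toRingHom (etaL hQN1 u (1 : (ZMod N1)ˣ →* Oˣ)))
        (fun i => lam (heckeLocal.π L S O θ (TIdx L S hSL i))) z)
      (hez : act (tw hN1 hSM
        ((psiMap (evC (O := O) χ).toRingHom (etaL hQN1 u (1 : (ZMod N1)ˣ →* Oˣ))) ^ 2)
        (psiMap (evC (O := O) χ).toRingHom (etaL hQN1 u (1 : (ZMod N1)ˣ →* Oˣ))))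
        (tw_comm hN1 hSM _ _) ē z = z) :
      lam hV = 0 := by
  have hp : p.Prime := Fact.out
  have hlev : psiMap (evC (O := O) χ).toRingHom (etaL hQN1 u (1 : (ZMod N1)ˣ →* Oˣ)) =
      (psiMap (evC (O := O) χ).toRingHom (etaL hQN2 u (1 : (ZMod N2)ˣ →* Oˣ))).comp
        (ZMod.unitsMap hN21) := by
    rw [etaL_lev hN21 hQN1 hQN2 u, psiMap_comp_unitsMap]
  obtain ⟨y, hy, hey⟩ := exists_pt_lev hN21 hN1 (hN2.mul_right q₀) hSM hlev _ z hz hez
  have hbot := mloc_bot_of_rank hN2 hSM i₀ (by rw [thetaPoly_X]; exact hi₀) hgΛ₀ hgO hē3 h₀ heO hrk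
    hp hpO' (evC (O := O) χ).toRingHom (fun a => (evC (O := O) χ).commutes a) hη₂s
  obtain ⟨h1, h2⟩ := traces_eq_zero hN2 hSM hq₀ hqM₀ _ _ hbot y hey
  exact hA3 O' hOO' lam (psiMap (evC (O := O) χ).toRingHom (etaL hQN2 u (1 : (ZMod N2)ˣ →* Oˣ)))
    y ⟨p ^ s, (hp.odd_of_ne_two hp2).pow, psiMap_pow_eq_one _ hη₂s⟩ hy.smul_ne hy.eigen h1 h2

end Main

end Fermat.Agent.H70.Mod
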