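import Fermat.Agent.H70Lev1
import Fermat.Agent.H21JIter

/-!
# Relations between Hecke operators on cusp forms kill the localised modules
-/

set_option autoImplicit false
set_option linter.style.haveILetI false

open Matrix CongruenceSubgroup IsLocalRing
open scoped MatrixGroups TensorProduct

namespace Fermat.Agent.H70.Mod

open Fermat.Agent.H70.Coh Fermat.Agent.H59 Fermat.Agent.H37.Rank

section Field

variable {N M L : ℕ} (hM : N ∣ M) {S : Set ℕ} (hS : Away M S) (hSL : Adm S L)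
  {K : Type} [Field K] [CharZero K] {O : Type} [CommRing O] [Algebra O K]
  (ψ η : (ZMod N)ˣ →* Kˣ) {κ : Type} [Field κ] {θ : MvPolynomial (Idx S) O →+* κ}
  {e : MvPolynomial (Idx S) O}

omit [CharZero K] in
/-- the twist embedding is equivariant for the normalised operators -/
lemma twEmb_tw {E : H1 (gam N M hM) (psiRep ψ K) →ₗ[K]
        H1 (gam 1 L (one_dvd L)) (psiRep (1 : (ZMod 1)ˣ →* Kˣ) K)}
    (hE : H21J.TwEmb hM (one_dvd L) (psiRep ψ K) (psiRep 1 K) η E) (i : Idx S)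
    (x : H1 (gam N M hM) (psiRep ψ K)) :
    E (tw hM hS ψ η i x) = TT K hSL i (E x) := by
  rw [tw_apply, map_smul]
  have h1 : E (tH hM ψ i.2.1 (hS.not_dvd i) K x) =
      ((atIdx hM hS η i : Kˣ) : K) • TT K hSL i (E x) :=
    hE.T i.2.1 (hS.not_dvd i) (fun h => i.2.2 (hSL _ i.2.1 h))
      (coprime_of_not_dvd i.2.1 (hS.not_dvd i) hM) x
  rw [h1, smul_smul, Units.inv_mul, one_smul]

theorem exists_emb' (hsq : Squarefree N) (hM0 : 0 < M)
    (hex : ∀ q : ℕ, q.Prime → q ∣ N → ¬ q * q ∣ M) (hL : L = M * N)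
    (hψ : ψ = η ^ 2) {m : ℕ} (hm : Odd m) (hη : η ^ m = 1) :
    ∃ E : H1 (gam N M hM) (psiRep ψ K) →ₗ[K]
        H1 (gam 1 L (one_dvd L)) (psiRep (1 : (ZMod 1)ˣ →* Kˣ) K),
      Function.Injective E ∧ ∀ i x, E (tw hM hS ψ η i x) = TT K hSL i (E x) := by
  subst hψ
  obtain ⟨E, hE⟩ := H21J.exists_twist_embedding (W := K) hsq hM0 hex hM hL η hm hη
  exact ⟨E, hE.inj, twEmb_tw hM hS hSL (η ^ 2) η hE⟩

/-- relations kill the localised module over a field -/
theorem act_rel_field [NeZero L] (hsq : Squarefree N) (hM0 : 0 < M)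
    (hex : ∀ q : ℕ, q.Prime → q ∣ N → ¬ q * q ∣ M) (hL : L = M * N)
    (hψ : ψ = η ^ 2) {m : ℕ} (hm : Odd m) (hη : η ^ m = 1)
    (he : IsLocIdem (TT K hSL) (TT_comm hSL) θ e)
    (i₀ : Idx S) (hi₀1 : (L : ℤ) ∣ (i₀.1 : ℤ) - 1) (hi₀ : θ (MvPolynomial.X i₀) ≠ 1 + (i₀.1 : κ))
    {P : MvPolynomial (Pr S) ℤ} (hP : evHA hSL P = 0) {x : H1 (gam N M hM) (psiRep ψ K)}
    (hx : x ∈ MLoc hM hS ψ η e) :
    act (tw hM hS ψ η) (tw_comm hM hS ψ η) (P.map (Int.castRingHom O)) x = 0 := by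
  obtain ⟨E, hinj, hE⟩ := exists_emb' hM hS hSL ψ η hsq hM0 hex hL hψ hm hη
  have hO : ∀ (a : O) x, E (a • x) = a • E x := fun a x => by
    rw [← algebraMap_smul K a x, map_smul, algebraMap_smul]
  apply hinj
  have h1 := map_act_apply (Λ := K) (Λ' := K) (hT := tw_comm hM hS ψ η) (hT' := TT_comm hSL)
    E.toAddMonoidHom hO hE (P.map (Int.castRingHom O)) x
  have h2 : E x ∈ Loc (TT K hSL) (TT_comm hSL) e :=
    map_mem_loc (Λ := K) (Λ' := K) (hT := tw_comm hM hS ψ η) (hT' := TT_comm hSL)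
      E.toAddMonoidHom hO hE hx
  rw [map_zero]
  exact h1.trans (act_loc_eq_zero hSL he i₀ hi₀1 hi₀ hP h2)

end Field

section BCHH

variable {L : ℕ} [NeZero L] {S : Set ℕ} (hSL : Adm S L) {O : Type} [CommRing O]
  (hg : Good L O) (K : Type) [CommRing K] [Algebra O K] {κ : Type} [Field κ]
  {θ : MvPolynomial (Idx S) O →+* κ} {e : MvPolynomial (Idx S) O}

include hg in
/-- base change of local idempotents for `HH` -/
theorem isLocIdem_TT_bc (he : IsLocIdem (TT O hSL) (TT_comm hSL) θ e) :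
    IsLocIdem (TT K hSL) (TT_comm hSL) θ e := by
  have h1 := (isLocIdem_HH (M := L) (one_dvd L) hSL (O := O)).mpr he
  have h2 := isLocIdem_bc (one_dvd L) hSL 1 1 hg rfl (algebraMap O K) (fun a => rfl) h1
  rw [psiMap_one] at h2
  exact isLocIdem_equiv (O := O) (R := K) (hhLev (O := K) (one_dvd L))
    (hhLev_tw (O := K) (one_dvd L) hSL) h2

end BCHH

section Grp

variable {N M L : ℕ} (hM : N ∣ M) {S : Set ℕ} (hS : Away M S) (hSL : Adm S L)
  {O : Type} [CommRing O] [IsDomain O] [CharZero O]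
  {Δ : Type} [CommGroup Δ] (ψ η : (ZMod N)ˣ →* (MonoidAlgebra O Δ)ˣ)
  {κ : Type} [Field κ] {θ : MvPolynomial (Idx S) O →+* κ} {e : MvPolynomial (Idx S) O}

omit [IsDomain O] [CharZero O] in
/-- elements of the summand which vanish over `K` vanish -/
lemma eq_zero_of_one_tmul {K : Type} [Field K] [Algebra O K] [FaithfulSMul O K]
    {Λ H : Type} [CommRing Λ] [Algebra O Λ] [AddCommGroup H] [Module Λ H] [Module O H]
    [IsScalarTower O Λ H] (X : Submodule Λ H) (p : H →ₗ[Λ] X) (hp : ∀ x : X, p x = x)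
    [Module.Free O X] {z : H} (hz : z ∈ X) (h : (1 : K) ⊗ₜ[O] z = 0) : z = 0 := by
  have h1 : (1 : K) ⊗ₜ[O] (p z) = 0 := by
    have h2 := congrArg ((p.restrictScalars O).baseChange K) h
    rw [map_zero, LinearMap.baseChange_tmul] at h2
    exact h2
  have h3 : p z = 0 := by
    have h4 : Function.Injective (fun x : X => (1 : K) ⊗ₜ[O] x) := by
      have h5 := Module.Flat.rTensor_preserves_injective_linearMap (M := X)
        (Algebra.linearMap O K) (FaithfulSMul.algebraMap_injective O K)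
      intro x y hxy
      have h6 : LinearMap.rTensor X (Algebra.linearMap O K) ((1 : O) ⊗ₜ x) =
          LinearMap.rTensor X (Algebra.linearMap O K) ((1 : O) ⊗ₜ y) := by
        rw [LinearMap.rTensor_tmul, LinearMap.rTensor_tmul, Algebra.linearMap_apply, map_one]
        exact hxy
      have h7 := h5 h6
      have h8 := congrArg (TensorProduct.lid O X) h7
      rwa [TensorProduct.lid_tmul, TensorProduct.lid_tmul, one_smul, one_smul] at h8
    apply h4
    change (1 : K) ⊗ₜ[O] (p z) = (1 : K) ⊗ₜ[O] (0 : X)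
    rw [h1, TensorProduct.tmul_zero]
  have h9 := hp ⟨z, hz⟩
  have h10 : p z = ⟨z, hz⟩ := h9
  rw [h3] at h10
  exact (congrArg Subtype.val h10).symm

variable {ψ η}

omit [IsDomain O] [CharZero O] in
lemma pow_evC {K : Type} [Field K] [Algebra O K] (χ : Δ →* Kˣ) {m : ℕ} (hη : η ^ m = 1) :
    (psiMap (evC (O := O) χ).toRingHom η) ^ m = 1 := by
  rw [← psiMap_pow, hη, psiMap_one]

/-- **Relations between Hecke operators kill the localised modules.** -/
theorem act_rel_eq_zero [Finite Δ] [NeZero M] [NeZero L] (hsq : Squarefree N)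
    (hex : ∀ q : ℕ, q.Prime → q ∣ N → ¬ q * q ∣ M) (hL : L = M * N)
    (hψ : ψ = η ^ 2) {m : ℕ} (hm : Odd m) (hη : η ^ m = 1)
    (hgΛ : Good M (MonoidAlgebra O Δ)) (hψ1 : ψ (-1) = 1)
    (hgL : Good L O) (heΛ : IsLocIdem (tw hM hS ψ η) (tw_comm hM hS ψ η) θ e)
    (he : IsLocIdem (TT O hSL) (TT_comm hSL) θ e)
    [Module.Free O (MLoc hM hS ψ η e)]
    (i₀ : Idx S) (hi₀1 : (L : ℤ) ∣ (i₀.1 : ℤ) - 1) (hi₀ : θ (MvPolynomial.X i₀) ≠ 1 + (i₀.1 : κ))
    {P : MvPolynomial (Pr S) ℤ} (hP : evHA hSL P = 0)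
    {x : H1 (gam N M hM) (psiRep ψ (MonoidAlgebra O Δ))} (hx : x ∈ MLoc hM hS ψ η e) :
    act (tw hM hS ψ η) (tw_comm hM hS ψ η) (P.map (Int.castRingHom O)) x = 0 := by
  let F := FractionRing O
  let K := AlgebraicClosure F
  haveI : CharZero F := charZero_of_injective_algebraMap (IsFractionRing.injective O F)
  haveI : CharZero K := charZero_of_injective_algebraMap (algebraMap F K).injective
  haveI : FaithfulSMul O K := by
    rw [faithfulSMul_iff_algebraMap_injective, IsScalarTower.algebraMap_eq O F K]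
    exact (algebraMap F K).injective.comp (IsFractionRing.injective O F)
  haveI : NeZero ((Monoid.exponent Δ : ℕ) : F) :=
    ⟨Nat.cast_ne_zero.mpr Monoid.exponent_ne_zero_of_finite⟩
  haveI : HasEnoughRootsOfUnity K (Monoid.exponent Δ) := inferInstance
  refine eq_zero_of_one_tmul (O := O) (K := K) (MLoc hM hS ψ η e)
    (locProj (tw hM hS ψ η) (tw_comm hM hS ψ η) e) (locProj_of_mem heΛ.idem)
    (act_mem_loc (P.map (Int.castRingHom O)) hx) ?_
  apply eq_zero_of_evS hM ψ hgΛ hψ1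
  intro χ
  have h1 : evS hM ψ χ ((1 : K) ⊗ₜ[O] (act (tw hM hS ψ η) (tw_comm hM hS ψ η)
      (P.map (Int.castRingHom O)) x)) = (1 : K) • h1S hM ψ (evC (O := O) χ).toRingHom
        (act (tw hM hS ψ η) (tw_comm hM hS ψ η) (P.map (Int.castRingHom O)) x) :=
    evS_tmul hM ψ χ (1 : K) _
  have h2 := h1S_act hM hS ψ η (evC (O := O) χ).toRingHom (fun a => (evC (O := O) χ).commutes a)
    (P.map (Int.castRingHom O)) x
  have h3 : h1S hM ψ (evC (O := O) χ).toRingHom x ∈ MLoc hM hS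
      (psiMap (evC (O := O) χ).toRingHom ψ) (psiMap (evC (O := O) χ).toRingHom η) e :=
    (mS hM hS ψ η e (evC (O := O) χ).toRingHom (fun a => (evC (O := O) χ).commutes a)
      ⟨x, hx⟩).2
  have h4 := act_rel_field hM hS hSL (psiMap (evC (O := O) χ).toRingHom ψ)
    (psiMap (evC (O := O) χ).toRingHom η) hsq (NeZero.pos M) hex hL
    (by rw [hψ, psiMap_pow]) hm (pow_evC χ hη) (isLocIdem_TT_bc hSL hgL K he) i₀ hi₀1 hi₀ hP h3
  rw [h1, one_smul]
  exact h2.trans h4

end Grp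

end Fermat.Agent.H70.Mod
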