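import Fermat.Agent.H70Lev2

/-!
# The action of the local Hecke algebra on the localised modules
-/

set_option autoImplicit false
set_option linter.style.haveILetI false

open Matrix CongruenceSubgroup IsLocalRing CuspForm
open scoped MatrixGroups TensorProduct

namespace Fermat.Agent.H70.Mod

open Fermat.Agent.H70.Coh Fermat.Agent.H59 Fermat.Agent.H37.Rank Fermat.Agent.H30

section Ev

variable {L : ℕ} [NeZero L] {S : Set ℕ} (hSL : Adm S L)

lemma evHA_eq_evZ (P : MvPolynomial (Idx S) ℤ) : evHA hSL P = evZ L S hSL P := by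
  induction P using MvPolynomial.induction_on with
  | C a =>
    rw [evHA_C]
    exact ((evZ L S hSL).commutes a).symm
  | add P Q hP hQ => rw [map_add, map_add, hP, hQ]
  | mul_X P i hP =>
    rw [map_mul, map_mul, hP]
    exact congrArg (evZ L S hSL P * ·) ((evHA_X hSL i).trans (evZ_X L S hSL i).symm)

end Ev

section Act

set_option synthInstance.maxHeartbeats 400000
set_option maxHeartbeats 1000000

variable {N M L : ℕ} [NeZero M] [NeZero L] (hM : N ∣ M) {S : Set ℕ} (hS : Away M S)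
  (hSL : ∀ q : ℕ, q.Prime → q ∣ L → q ∈ S)
  {O : Type} [CommRing O] [IsDomain O] [IsDiscreteValuationRing O]
  [IsAdicComplete (maximalIdeal O) O] [CharZero O]
  {Δ : Type} [CommGroup Δ] [Finite Δ] {ψ η : (ZMod N)ˣ →* (MonoidAlgebra O Δ)ˣ}
  (θ : heckeAlgebra L 2 S →+* ResidueField O) {e : MvPolynomial (Idx S) O}

/-- **The local Hecke algebra acts on the localised module.** -/
theorem exists_hecke_act (hsq : Squarefree N)
    (hex : ∀ q : ℕ, q.Prime → q ∣ N → ¬ q * q ∣ M) (hL : L = M * N)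
    (hψ : ψ = η ^ 2) {m : ℕ} (hm : Odd m) (hη : η ^ m = 1)
    (hgΛ : Good M (MonoidAlgebra O Δ)) (hψ1 : ψ (-1) = 1)
    (hgL : Good L O)
    (heΛ : IsLocIdem (tw hM hS ψ η) (tw_comm hM hS ψ η) (thetaPoly L S hSL O θ) e)
    (he : IsLocIdem (TT (S := S) (M := L) O hSL) (TT_comm hSL) (thetaPoly L S hSL O θ) e)
    [Module.Free O (MLoc hM hS ψ η e)]
    (i₀ : Idx S) (hi₀1 : (L : ℤ) ∣ (i₀.1 : ℤ) - 1)
    (hi₀ : θ (TIdx L S hSL i₀) ≠ 1 + (i₀.1 : ResidueField O)) :
    ∃ Φ : heckeLocal L S O θ →ₐ[O] Module.End O (MLoc hM hS ψ η e),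
      ∀ P, Φ (toLocal L S hSL O θ P) = mactO hM hS ψ η e P := by
  obtain ⟨Φ, hΦ⟩ := exists_loc_heckeLocal L S hSL O θ heΛ (by
    intro P₀ hP₀ x hx
    exact act_rel_eq_zero hM hS hSL hsq hex hL hψ hm hη hgΛ hψ1 hgL heΛ he i₀ hi₀1
      (by rw [thetaPoly_X]; exact hi₀) ((evHA_eq_evZ hSL P₀).trans hP₀) hx)
  refine ⟨(endRes O (MonoidAlgebra O Δ) (MLoc hM hS ψ η e)).comp Φ, fun P => ?_⟩
  rw [AlgHom.comp_apply, hΦ P]
  rfl

end Act

end Fermat.Agent.H70.Mod
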