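import Fermat.Agent.H70Lev7

/-!
# The module part of a Taylor–Wiles level: points and congruences
-/

set_option autoImplicit false
set_option linter.style.haveILetI false

open Matrix CongruenceSubgroup IsLocalRing CuspForm
open scoped MatrixGroups TensorProduct

namespace Fermat.Agent.H70.Mod

open Fermat.Agent.H70.Coh Fermat.Agent.H59 Fermat.Agent.H37.Rank Fermat.Agent.H30
  Fermat.Agent.H69.EG

/-- quotients by submodules over `Λ` and over `O` -/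
lemma exists_quot_add {O Λ X Y : Type} [CommRing O] [CommRing Λ] [Algebra O Λ] [AddCommGroup X]
    [Module Λ X] [AddCommGroup Y] [Module Λ Y] [Module O Y] [IsScalarTower O Λ Y]
    (P₀ : Submodule Λ Y) (F : X →ₗ[Λ] Y ⧸ P₀) (hF : Function.Surjective F) :
    ∃ f : X →+ (Y ⧸ P₀.restrictScalars O),
      (∀ y x, f y = Submodule.Quotient.mk x ↔ F y = Submodule.Quotient.mk x) ∧
      Function.Surjective f := by
  let E := Submodule.Quotient.restrictScalarsEquiv O P₀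
  have hE : ∀ x, E (Submodule.Quotient.mk x) = Submodule.Quotient.mk x := fun x => rfl
  let f : X →+ (Y ⧸ P₀.restrictScalars O) :=
    E.symm.toLinearMap.toAddMonoidHom.comp F.toAddMonoidHom
  have hf : ∀ y x, f y = Submodule.Quotient.mk x ↔ F y = Submodule.Quotient.mk x := by
    intro y x
    change E.symm (F y) = _ ↔ _
    rw [LinearEquiv.symm_apply_eq, hE]
  refine ⟨f, hf, fun z => ?_⟩
  obtain ⟨x, rfl⟩ := Submodule.Quotient.mk_surjective _ z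
  obtain ⟨y, hy⟩ := hF (Submodule.Quotient.mk x)
  exact ⟨y, (hf y x).mpr hy⟩

/-- abstract form of the congruence -/
lemma congr_abs {O Λ X₁ X 𝕋 ι : Type} [CommRing O] [CommRing Λ] [Algebra O Λ] [AddCommGroup X₁]
    [Module Λ X₁] [Module O X₁] [IsScalarTower O Λ X₁] [AddCommGroup X] [Module Λ X] [Module O X]
    [IsScalarTower O Λ X] [CommRing 𝕋] [Algebra O 𝕋] (t : MvPolynomial ι O → 𝕋)
    (ht : Function.Surjective t) (Φ₁ : 𝕋 →ₐ[O] Module.End O X₁) (Φ : 𝕋 →ₐ[O] Module.End O X)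
    (a₁ : MvPolynomial ι O → Module.End Λ X₁) (a : MvPolynomial ι O → Module.End Λ X)
    (hΦ₁ : ∀ P x, Φ₁ (t P) x = a₁ P x) (hΦ : ∀ P x, Φ (t P) x = a P x) (ϖ : O)
    (F : X₁ →ₗ[Λ] X ⧸ (piSub ϖ : Submodule Λ X)) (hF1 : Function.Surjective F)
    (hF3 : ∀ P x y, F x = Submodule.Quotient.mk y → F (a₁ P x) = Submodule.Quotient.mk (a P y)) :
    ∃ (N' : Submodule O X) (f : X₁ →+ (X ⧸ N')),
      (∀ x ∈ N', ∃ y, x = ϖ • y) ∧ Function.Surjective f ∧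
      ∀ t y x, f y = Submodule.Quotient.mk x → f (Φ₁ t y) = Submodule.Quotient.mk (Φ t x) := by
  obtain ⟨f, hf1, hf2⟩ := exists_quot_add (O := O) (piSub ϖ : Submodule Λ X) F hF1
  refine ⟨(piSub ϖ : Submodule Λ X).restrictScalars O, f, fun x hx => hx, hf2, ?_⟩
  intro t' y x h
  obtain ⟨P, rfl⟩ := ht t'
  rw [hΦ₁, hΦ]
  exact (hf1 _ _).mpr (hF3 P y x ((hf1 y x).mp h))

set_option synthInstance.maxHeartbeats 400000
set_option maxHeartbeats 1000000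

section Blk

variable {O : Type} [CommRing O] [IsDomain O] [IsDiscreteValuationRing O]
  [IsAdicComplete (maximalIdeal O) O] [CharZero O]
  {p : ℕ} (hp : p.Prime)
  {L : ℕ} [NeZero L] {S : Set ℕ} {hSL : ∀ q : ℕ, q.Prime → q ∣ L → q ∈ S}
  {θ : heckeAlgebra L 2 S →+* ResidueField O}
  {N M : ℕ} [NeZero M] (hM : N ∣ M) (hS : Away M S) {Δ : Type} [CommGroup Δ] [Finite Δ]
  {η : (ZMod N)ˣ →* (MonoidAlgebra O Δ)ˣ} {ē : MvPolynomial (Idx S) O}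
  (hgΛ : Good M (MonoidAlgebra O Δ))
  (heΛ : IsLocIdem (tw hM hS (η ^ 2) η) (tw_comm hM hS (η ^ 2) η) (thetaPoly L S hSL O θ) ē)
  (i₀ : Idx S) (hi₀ : θ (TIdx L S hSL i₀) ≠ 1 + (i₀.1 : ResidueField O))
  {Φ : heckeLocal L S O θ →ₐ[O] Module.End O (MLoc hM hS (η ^ 2) η ē)}
  (hΦ : ∀ P, Φ (toLocal L S hSL O θ P) = mactO hM hS (η ^ 2) η ē P)

omit [CharZero O] [NeZero M] [Finite Δ] in
include hΦ in
/-- the two actions commute -/
lemma phi_diam (t : heckeLocal L S O θ) (g : Δ) :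
    Φ t * diam hM hS (η ^ 2) η ē g = diam hM hS (η ^ 2) η ē g * Φ t := by
  obtain ⟨P, rfl⟩ := toLocal_surjective L S hSL O θ t
  rw [hΦ, mactO_diam]

variable {O' : Type} [CommRing O'] [IsDomain O'] [IsLocalRing O'] [CharZero O'] [Algebra O O']
  (hpO' : (p : O') ∈ maximalIdeal O')

omit [CharZero O] in
include hp hgΛ heΛ hi₀ hΦ hpO' in
/-- points, in terms of the action of the local Hecke algebra -/
theorem exists_pt_hecke {s : ℕ} (hη : η ^ p ^ s = 1) [Module.Free O (MLoc hM hS (η ^ 2) η ē)]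
    (lam : heckeLocal L S O θ →ₐ[O] O')
    (v : O' ⊗[O] MLoc hM hS (η ^ 2) η ē) (hv : v ≠ 0)
    (hlam : ∀ t, (Φ t).baseChange O' v = lam t • v) (χ : Δ →* O'ˣ)
    (hχ : ∀ g, (diam hM hS (η ^ 2) η ē g).baseChange O' v = ((χ g : O'ˣ) : O') • v) :
    ∃ z : H1 (gam N M hM) (psiRep ((psiMap (evC (O := O) χ).toRingHom η) ^ 2) O'),
      IsPt hM hS (psiMap (evC (O := O) χ).toRingHom η)
        (fun i => lam (heckeLocal.π L S O θ (TIdx L S hSL i))) z ∧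
      act (tw hM hS ((psiMap (evC (O := O) χ).toRingHom η) ^ 2)
        (psiMap (evC (O := O) χ).toRingHom η)) (tw_comm hM hS _ _) ē z = z := by
  obtain ⟨z, hz, hez⟩ := exists_pt hM hS hp hgΛ heΛ i₀ (by rw [thetaPoly_X]; exact hi₀) hpO' hη v hv
    χ hχ (fun P => lam (toLocal L S hSL O θ P)) (fun P => by rw [← hΦ]; exact hlam _)
  refine ⟨z, ⟨hz.smul_ne, fun i => ?_⟩, hez⟩
  rw [hz.eigen, toLocal_X]

end Blk

section Congr

variable {O : Type} [CommRing O] [IsDomain O] [IsDiscreteValuationRing O]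
  [IsAdicComplete (maximalIdeal O) O]
  {L : ℕ} [NeZero L] {S : Set ℕ} {hSL : ∀ q : ℕ, q.Prime → q ∣ L → q ∈ S}
  {θ : heckeAlgebra L 2 S →+* ResidueField O}
  {N M : ℕ} [NeZero M] (hM : N ∣ M) (hS : Away M S) {Δ : Type} [CommGroup Δ]
  {η₁ η : (ZMod N)ˣ →* (MonoidAlgebra O Δ)ˣ} {ē : MvPolynomial (Idx S) O}
  (hgΛ : Good M (MonoidAlgebra O Δ))
  (he₁ : IsLocIdem (tw hM hS (η₁ ^ 2) η₁) (tw_comm hM hS (η₁ ^ 2) η₁) (thetaPoly L S hSL O θ) ē)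
  (he : IsLocIdem (tw hM hS (η ^ 2) η) (tw_comm hM hS (η ^ 2) η) (thetaPoly L S hSL O θ) ē)
  {Φ₁ : heckeLocal L S O θ →ₐ[O] Module.End O (MLoc hM hS (η₁ ^ 2) η₁ ē)}
  (hΦ₁ : ∀ P, Φ₁ (toLocal L S hSL O θ P) = mactO hM hS (η₁ ^ 2) η₁ ē P)
  {Φ : heckeLocal L S O θ →ₐ[O] Module.End O (MLoc hM hS (η ^ 2) η ē)}
  (hΦ : ∀ P, Φ (toLocal L S hSL O θ P) = mactO hM hS (η ^ 2) η ē P)
  (ϖ : O)

include hgΛ he₁ he hΦ₁ hΦ in
/-- the congruence between the two modules -/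
theorem exists_congr_hecke
    (hηη : ∀ a, ∃ r : MonoidAlgebra O Δ, ((η₁ a : (MonoidAlgebra O Δ)ˣ) : MonoidAlgebra O Δ) -
      ((η a : (MonoidAlgebra O Δ)ˣ) : MonoidAlgebra O Δ) = ϖ • r)
    (hψψ : ∀ a, ∃ r : MonoidAlgebra O Δ, (((η₁ ^ 2) a : (MonoidAlgebra O Δ)ˣ) : MonoidAlgebra O Δ) -
      (((η ^ 2) a : (MonoidAlgebra O Δ)ˣ) : MonoidAlgebra O Δ) = ϖ • r) :
    ∃ (N' : Submodule O (MLoc hM hS (η ^ 2) η ē))
      (f : MLoc hM hS (η₁ ^ 2) η₁ ē →+ (MLoc hM hS (η ^ 2) η ē ⧸ N')),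
      (∀ x ∈ N', ∃ y, x = ϖ • y) ∧ Function.Surjective f ∧
      ∀ t y x, f y = Submodule.Quotient.mk x → f (Φ₁ t y) = Submodule.Quotient.mk (Φ t x) := by
  obtain ⟨F, hF1, -, hF3⟩ := exists_congr hM hS (η₁ ^ 2) η₁ (η ^ 2) η hgΛ (sq_neg_one η₁)
    (sq_neg_one η) he₁ he ϖ hψψ hηη
  exact congr_abs (toLocal L S hSL O θ) (toLocal_surjective L S hSL O θ) Φ₁ Φ
    (fun P => mact hM hS (η₁ ^ 2) η₁ ē P) (fun P => mact hM hS (η ^ 2) η ē P)
    (fun P x => DFunLike.congr_fun (hΦ₁ P) x) (fun P x => DFunLike.congr_fun (hΦ P) x) ϖ F hF1 hF3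

end Congr

end Fermat.Agent.H70.Mod
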