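import Fermat.Agent.H70Lev8

/-!
# The module part of a Taylor–Wiles level: eigensystems
-/

set_option autoImplicit false
set_option linter.style.haveILetI false

open Matrix CongruenceSubgroup IsLocalRing CuspForm
open scoped MatrixGroups TensorProduct

namespace Fermat.Agent.H70.Mod

open Fermat.Agent.H70.Coh Fermat.Agent.H59 Fermat.Agent.H37.Rank Fermat.Agent.H30
  Fermat.Agent.H69.EG

set_option synthInstance.maxHeartbeats 400000
set_option maxHeartbeats 1000000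

section Blk

variable {O : Type} [CommRing O] [IsDomain O] [IsDiscreteValuationRing O]
  [IsAdicComplete (maximalIdeal O) O] [Finite (ResidueField O)] [CharZero O]
  {p : ℕ} [Fact p.Prime] (hpO : (p : O) ∈ maximalIdeal O)
  {L : ℕ} [NeZero L] {S : Set ℕ} {hSL : ∀ q : ℕ, q.Prime → q ∣ L → q ∈ S}
  {θ : heckeAlgebra L 2 S →+* ResidueField O}
  {N M : ℕ} [NeZero M] (hM : N ∣ M) (hS : Away M S) {r : ℕ} {e : Fin r → ℕ}
  {η : (ZMod N)ˣ →* (MonoidAlgebra O (Dlt p e))ˣ} {ē : MvPolynomial (Idx S) O}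
  (hgΛ : Good M (MonoidAlgebra O (Dlt p e)))
  (heΛ : IsLocIdem (tw hM hS (η ^ 2) η) (tw_comm hM hS (η ^ 2) η) (thetaPoly L S hSL O θ) ē)
  (i₀ : Idx S) (hi₀ : θ (TIdx L S hSL i₀) ≠ 1 + (i₀.1 : ResidueField O))
  {Φ : heckeLocal L S O θ →ₐ[O] Module.End O (MLoc hM hS (η ^ 2) η ē)}
  (hΦ : ∀ P, Φ (toLocal L S hSL O θ P) = mactO hM hS (η ^ 2) η ē P)
  {s : ℕ} (hη : η ^ p ^ s = 1)

include hpO hgΛ heΛ hi₀ hΦ hη in
/-- **Properties of eigensystems from properties of classes over `O'`** -/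
theorem forallEigen_of_pt [Module.Free O (MLoc hM hS (η ^ 2) η ē)]
    [Module.Finite O (MLoc hM hS (η ^ 2) η ē)] (a : heckeLocal L S O θ)
    (h : ∀ (O' : Type) [CommRing O'] [IsDomain O'] [IsDiscreteValuationRing O']
      [IsAdicComplete (maximalIdeal O') O'] [Finite (ResidueField O')] [CharZero O']
      [Algebra O O'] [Module.Finite O O'] [IsLocalHom (algebraMap O O')],
      Function.Injective (algebraMap O O') → ∀ (lam : heckeLocal L S O θ →ₐ[O] O')
      (χ : Dlt p e →* O'ˣ)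
      (z : H1 (gam N M hM) (psiRep ((psiMap (evC (O := O) χ).toRingHom η) ^ 2) O')),
      IsPt hM hS (psiMap (evC (O := O) χ).toRingHom η)
        (fun i => lam (heckeLocal.π L S O θ (TIdx L S hSL i))) z →
      act (tw hM hS ((psiMap (evC (O := O) χ).toRingHom η) ^ 2)
        (psiMap (evC (O := O) χ).toRingHom η)) (tw_comm hM hS _ _) ē z = z → lam a = 0) :
    ForallEigen Φ fun _ _ _ _ _ _ _ _ _ _ lam _ => lam a = 0 := by
  refine H70.Eig.forallEigen_of_group Φ (diam hM hS (η ^ 2) η ē) (phi_diam hM hS hΦ) a ?_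
  intro O' _ _ _ _ _ _ _ _ _ hOO' lam χ x hx hlam hχ
  obtain ⟨z, hz, hez⟩ := exists_pt_hecke Fact.out hM hS hgΛ heΛ i₀ hi₀ hΦ
    (natCast_mem_of_isLocalHom hpO) hη lam x hx hlam χ hχ
  exact h O' hOO' lam χ z hz hez

include hpO hgΛ heΛ hi₀ hΦ hη in
/-- **The diamond characters of eigensystems** -/
theorem forallEigen_diam [Module.Free O (MLoc hM hS (η ^ 2) η ē)]
    (c : Fin r → heckeLocal L S O θ)
    (h : ∀ (O' : Type) [CommRing O'] [IsDomain O'] [IsDiscreteValuationRing O']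
      [IsAdicComplete (maximalIdeal O') O'] [Finite (ResidueField O')] [CharZero O']
      [Algebra O O'] [Module.Finite O O'] [IsLocalHom (algebraMap O O')],
      Function.Injective (algebraMap O O') → ∀ (lam : heckeLocal L S O θ →ₐ[O] O')
      (χ : Dlt p e →* O'ˣ)
      (z : H1 (gam N M hM) (psiRep ((psiMap (evC (O := O) χ).toRingHom η) ^ 2) O')),
      IsPt hM hS (psiMap (evC (O := O) χ).toRingHom η)
        (fun i => lam (heckeLocal.π L S O θ (TIdx L S hSL i))) z →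
      act (tw hM hS ((psiMap (evC (O := O) χ).toRingHom η) ^ 2)
        (psiMap (evC (O := O) χ).toRingHom η)) (tw_comm hM hS _ _) ē z = z →
      ((∀ g, χ g = 1) ↔ ∀ j, lam (c j) = 1)) :
    ForallEigen Φ fun O' _ _ _ _ _ _ _ _ _ lam x =>
      ∀ χ : Dlt p e →* O', (∀ g, (diam hM hS (η ^ 2) η ē g).baseChange O' x = χ g • x) →
        ((∀ g, χ g = 1) ↔ ∀ j, lam (c j) = 1) := by
  intro O' _ _ _ _ _ _ _ _ _ hOO' lam x hx hlam χ hχ
  obtain ⟨z, hz, hez⟩ := exists_pt_hecke Fact.out hM hS hgΛ heΛ i₀ hi₀ hΦ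
    (natCast_mem_of_isLocalHom hpO) hη lam x hx hlam χ.toHomUnits
    (fun g => by rw [MonoidHom.coe_toHomUnits]; exact hχ g)
  rw [← h O' hOO' lam χ.toHomUnits z hz hez]
  refine forall_congr' fun g => ?_
  rw [Units.ext_iff, MonoidHom.coe_toHomUnits, Units.val_one]

end Blk

section Vanish

variable {N M q : ℕ} (hM : N ∣ M) [NeZero M] [NeZero q] {S : Set ℕ} (hS : Away (M * q) S)
  {O Λ : Type} [CommRing O] [IsLocalRing O] [CommRing Λ] [Algebra O Λ]
  {ē : MvPolynomial (Idx S) O} {κ : Type} [Field κ] {θ : MvPolynomial (Idx S) O →+* κ}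
  (i₀ : Idx S) (hi₀ : θ (MvPolynomial.X i₀) ≠ 1 + (i₀.1 : κ))
  {η : (ZMod N)ˣ →* Λˣ} (hgΛ : Good M Λ) (hgO : Good M O)
  (heΛ : IsLocIdem (tw hM hS.left (η ^ 2) η) (tw_comm hM hS.left (η ^ 2) η) θ ē)
  (h0 : Adm S M) (heO : IsLocIdem (TT O h0) (TT_comm h0) θ ē)
  (hrk : Module.finrank O (Loc (TT O h0) (TT_comm h0) ē) = 0)
  {p : ℕ} (hp : p.Prime) {R : Type} [CommRing R] [IsLocalRing R] [Algebra O R]
  (hpR : (p : R) ∈ maximalIdeal R) (f : Λ →+* R)
  (hf : ∀ a : O, f (algebraMap O Λ a) = algebraMap O R a)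

include hi₀ hgΛ hgO heΛ heO hrk hp hpR hf in
/-- vanishing of the localised module of lower level -/
theorem mloc_bot_of_rank {s : ℕ} (hη : η ^ p ^ s = 1) :
    MLoc hM hS.left ((psiMap f η) ^ 2) (psiMap f η) ē = ⊥ := by
  have h1 := isLocIdem_bc hM hS.left (η ^ 2) η hgΛ (sq_neg_one η) f hf heΛ
  rw [psiMap_pow] at h1
  have h2 : (psiMap f η) ^ p ^ s = 1 := by rw [← psiMap_pow, hη, psiMap_one]
  refine mloc_eq_bot hM hS.left i₀ hi₀ ((psiMap f η) ^ 2) (psiMap f η) hgO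
    (good_map f hgΛ) (sq_neg_one _) ((isLocIdem_HH hM hS.left).mpr heO) h1
    (resTriv_of_pow hp hpR (sq_pow_eq_one h2)) (resTriv_of_pow hp hpR h2) ?_
  rw [finrank_mlocHH hM hS.left ē]
  exact hrk

end Vanish

end Fermat.Agent.H70.Mod
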