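import Mathlib

/-!
# Presentation of `PSL(2, ℤ)` (ping-pong)

`Fermat.Agent.H70.exists_hom_of_relations` : for any group `K` and `s u : K` with `s ^ 2 = 1`,
`u ^ 3 = 1`, there is a group homomorphism `SL(2, ℤ) →* K` with `S ↦ s`, `S * T ↦ u`.
-/

set_option autoImplicit false

open UpperHalfPlane Matrix.SpecialLinearGroup ModularGroup
open scoped MatrixGroups Pointwise

namespace Fermat.Agent.H70

/-- the homomorphism `ZMod n → G` given by an element with `g ^ n = 1`. -/
noncomputable def zmodHom {G : Type*} [Group G] (n : ℕ) (g : G) (h : g ^ n = 1) :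
    Multiplicative (ZMod n) →* G :=
  AddMonoidHom.toMultiplicativeLeft
    (ZMod.lift n ⟨zmultiplesHom (Additive G) (Additive.ofMul g), by
      rw [zmultiplesHom_apply, natCast_zsmul, ← ofMul_pow, h, ofMul_one]⟩)

lemma zmodHom_ofAdd_intCast {G : Type*} [Group G] (n : ℕ) (g : G) (h : g ^ n = 1) (k : ℤ) :
    zmodHom n g h (Multiplicative.ofAdd (k : ZMod n)) = g ^ k := by
  change Additive.toMul (ZMod.lift n _ ((k : ℤ) : ZMod n)) = _
  rw [ZMod.lift_coe]
  simp

lemma zmodHom_ofAdd_natCast {G : Type*} [Group G] (n : ℕ) (g : G) (h : g ^ n = 1) (k : ℕ) :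
    zmodHom n g h (Multiplicative.ofAdd (k : ZMod n)) = g ^ k := by
  have := zmodHom_ofAdd_intCast n g h k
  simpa using this

/-- The two factors of the free product. -/
abbrev FF (b : Bool) : Type := Multiplicative (ZMod (cond b 3 2))

/-- the free product `C₂ * C₃` -/
abbrev FP : Type := Monoid.CoprodI FF

/-- the universal property -/
noncomputable def liftFP {K : Type*} [Group K] (s u : K) (hs : s ^ 2 = 1) (hu : u ^ 3 = 1) :
    FP →* K :=
  Monoid.CoprodI.lift fun b => match b with
    | true => zmodHom 3 u hu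
    | false => zmodHom 2 s hs

lemma liftFP_s {K : Type*} [Group K] (s u : K) (hs : s ^ 2 = 1) (hu : u ^ 3 = 1) :
    liftFP s u hs hu (Monoid.CoprodI.of (i := false) (Multiplicative.ofAdd (1 : ZMod 2))) = s := by
  unfold liftFP
  rw [Monoid.CoprodI.lift_of]
  have := zmodHom_ofAdd_natCast 2 s hs 1
  simpa using this

lemma liftFP_u {K : Type*} [Group K] (s u : K) (hs : s ^ 2 = 1) (hu : u ^ 3 = 1) :
    liftFP s u hs hu (Monoid.CoprodI.of (i := true) (Multiplicative.ofAdd (1 : ZMod 3))) = u := by
  unfold liftFP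
  rw [Monoid.CoprodI.lift_of]
  have := zmodHom_ofAdd_natCast 3 u hu 1
  simpa using this

/-- the permutation of `ℍ` given by an element of `SL(2, ℤ)` -/
noncomputable def perm : SL(2, ℤ) →* Equiv.Perm ℍ := MulAction.toPermHom SL(2, ℤ) ℍ

lemma perm_apply (g : SL(2, ℤ)) (z : ℍ) : perm g z = g • z := rfl

lemma re_S_smul (z : ℍ) : (S • z : ℍ).re = -z.re / Complex.normSq (z : ℂ) := by
  rw [modular_S_smul]
  change ((-(z : ℂ))⁻¹).re = _
  rw [Complex.inv_re, Complex.neg_re, Complex.normSq_neg]
  rfl

lemma re_T_smul' (z : ℍ) : (T • z : ℍ).re = z.re + 1 := by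
  have := ModularGroup.re_T_smul z
  linarith [this]

lemma normSq_pos' (z : ℍ) : 0 < Complex.normSq (z : ℂ) := z.normSq_pos

lemma perm_neg_one : perm (-1) = 1 := by
  ext z : 1
  rw [perm_apply]
  have := ModularGroup.SL_neg_smul (1 : SL(2, ℤ)) z
  rw [this, one_smul]
  rfl

lemma S_sq : (S : SL(2, ℤ)) ^ 2 = -1 := by decide

lemma ST_cube : (S * T : SL(2, ℤ)) ^ 3 = -1 := by decide

lemma perm_S_sq : (perm S) ^ 2 = 1 := by rw [← map_pow, S_sq, perm_neg_one]

lemma perm_ST_cube : (perm (S * T)) ^ 3 = 1 := by rw [← map_pow, ST_cube, perm_neg_one]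

theorem liftFP_injective : Function.Injective (liftFP (perm S) (perm (S * T)) perm_S_sq perm_ST_cube) := by
  unfold liftFP
  refine Monoid.CoprodI.lift_injective_of_ping_pong (α := ℍ) _ (Or.inr ⟨true, ?_⟩)
    (fun b => match b with
      | true => {z : ℍ | z.re < 0}
      | false => {z : ℍ | 0 < z.re}) ?_ ?_ ?_
  · change (3 : Cardinal) ≤ Cardinal.mk (ZMod 3)
    rw [Cardinal.mk_fintype, ZMod.card]
    norm_num
  · rintro (_ | _)
    · exact ⟨⟨1 + Complex.I, by simp⟩, by change (0 : ℝ) < (1 + Complex.I).re; simp⟩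
    · exact ⟨⟨-1 + Complex.I, by simp⟩, by change (-1 + Complex.I).re < (0 : ℝ); simp⟩
  · intro i j hij
    rw [Function.onFun, Set.disjoint_left]
    match i, j, hij with
    | true, false, _ => intro z (h1 : z.re < 0) (h2 : 0 < z.re); linarith
    | false, true, _ => intro z (h1 : 0 < z.re) (h2 : z.re < 0); linarith
    | true, true, h => exact absurd rfl h
    | false, false, h => exact absurd rfl h
  · intro i j hij
    match i, j, hij with
    | true, true, h => exact absurd rfl h
    | false, false, h => exact absurd rfl h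
    | true, false, _ =>
      intro h hh
      rw [Set.smul_set_subset_iff]
      intro z (hz : 0 < z.re)
      have hcases : h = Multiplicative.ofAdd ((1 : ℕ) : ZMod 3) ∨
          h = Multiplicative.ofAdd ((2 : ℕ) : ZMod 3) := by
        have : ∀ x : ZMod 3, x ≠ 0 → x = ((1 : ℕ) : ZMod 3) ∨ x = ((2 : ℕ) : ZMod 3) := by decide
        rcases this (Multiplicative.toAdd h) (fun h0 => hh (by
          rw [← ofAdd_toAdd h, h0]; rfl)) with h1 | h1
        · left; rw [← ofAdd_toAdd h, h1]
        · right; rw [← ofAdd_toAdd h, h1]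
      change (zmodHom 3 (perm (S * T)) perm_ST_cube h • z).re < 0
      have hT : 0 < (T • z).re := by rw [re_T_smul']; linarith
      have h1 : ((S * T) • z : ℍ).re < 0 := by
        rw [mul_smul, re_S_smul]
        exact div_neg_of_neg_of_pos (by linarith) (normSq_pos' _)
      rcases hcases with rfl | rfl
      · rw [zmodHom_ofAdd_natCast, pow_one]
        exact h1
      · rw [zmodHom_ofAdd_natCast, pow_two]
        change ((S * T) • ((S * T) • z) : ℍ).re < 0
        -- `U² = T⁻¹ S⁻¹`, up to sign
        have h2 : (T : SL(2, ℤ)) • ((S * T) • ((S * T) • z)) = (S • z : ℍ) := by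
          have h3 : T * (S * T) * (S * T) = S := by decide
          have h4 : T • ((S * T) • ((S * T) • z)) = (T * (S * T) * (S * T)) • z := by
            simp only [mul_smul]
          rw [h4, h3]
        have h5 := congrArg UpperHalfPlane.re h2
        rw [re_T_smul', re_S_smul] at h5
        have h6 : -z.re / Complex.normSq (z : ℂ) < 0 :=
          div_neg_of_neg_of_pos (by linarith) (normSq_pos' _)
        linarith
    | false, true, _ =>
      intro h hh
      rw [Set.smul_set_subset_iff]
      intro z (hz : z.re < 0)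
      have hcases : h = Multiplicative.ofAdd ((1 : ℕ) : ZMod 2) := by
        have : ∀ x : ZMod 2, x ≠ 0 → x = ((1 : ℕ) : ZMod 2) := by decide
        rw [← ofAdd_toAdd h, this (Multiplicative.toAdd h) (fun h0 => hh (by
          rw [← ofAdd_toAdd h, h0]; rfl))]
      change 0 < (zmodHom 2 (perm S) perm_S_sq h • z).re
      rw [hcases, zmodHom_ofAdd_natCast, pow_one]
      change 0 < (S • z).re
      rw [re_S_smul]
      exact div_pos (by linarith) (normSq_pos' _)

/-- every element of `SL(2, ℤ)` acts on `ℍ` through the free product. -/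
lemma perm_mem_range (g : SL(2, ℤ)) :
    perm g ∈ (liftFP (perm S) (perm (S * T)) perm_S_sq perm_ST_cube).range := by
  have hg : g ∈ Subgroup.closure ({S, T} : Set SL(2, ℤ)) := by
    simp [SpecialLinearGroup.SL2Z_generators]
  have hle : Subgroup.closure ({S, T} : Set SL(2, ℤ)) ≤
      (liftFP (perm S) (perm (S * T)) perm_S_sq perm_ST_cube).range.comap perm := by
    rw [Subgroup.closure_le]
    have hS : perm S ∈ (liftFP (perm S) (perm (S * T)) perm_S_sq perm_ST_cube).range :=
      ⟨_, liftFP_s _ _ _ _⟩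
    have hU : perm (S * T) ∈ (liftFP (perm S) (perm (S * T)) perm_S_sq perm_ST_cube).range :=
      ⟨_, liftFP_u _ _ _ _⟩
    rintro x (rfl | rfl)
    · exact hS
    · change perm T ∈ (liftFP (perm S) (perm (S * T)) perm_S_sq perm_ST_cube).range
      have : perm T = (perm S)⁻¹ * perm (S * T) := by rw [map_mul]; group
      rw [this]
      exact Subgroup.mul_mem _ (Subgroup.inv_mem _ hS) hU
  exact hle hg

/-- **Presentation of `PSL(2, ℤ)`**: for any group `K` and `s u : K` with `s ^ 2 = 1`,
`u ^ 3 = 1`, there is a group homomorphism `SL(2, ℤ) →* K` with `S ↦ s`, `S * T ↦ u`. -/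
theorem exists_hom_of_relations {K : Type*} [Group K] (s u : K) (hs : s ^ 2 = 1)
    (hu : u ^ 3 = 1) : ∃ φ : SL(2, ℤ) →* K, φ S = s ∧ φ (S * T) = u := by
  let L := liftFP (perm S) (perm (S * T)) perm_S_sq perm_ST_cube
  let e : FP ≃* L.range := MonoidHom.ofInjective liftFP_injective
  let p : SL(2, ℤ) →* L.range := perm.codRestrict _ perm_mem_range
  refine ⟨((liftFP s u hs hu).comp e.symm.toMonoidHom).comp p, ?_, ?_⟩
  · have h : p S = e (Monoid.CoprodI.of (i := false) (Multiplicative.ofAdd (1 : ZMod 2))) := by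
      apply Subtype.ext
      exact (liftFP_s (perm S) (perm (S * T)) perm_S_sq perm_ST_cube).symm
    change liftFP s u hs hu (e.symm (p S)) = s
    rw [h, MulEquiv.symm_apply_apply, liftFP_s]
  · have h : p (S * T) = e (Monoid.CoprodI.of (i := true) (Multiplicative.ofAdd (1 : ZMod 3))) := by
      apply Subtype.ext
      exact (liftFP_u (perm S) (perm (S * T)) perm_S_sq perm_ST_cube).symm
    change liftFP s u hs hu (e.symm (p (S * T))) = u
    rw [h, MulEquiv.symm_apply_apply, liftFP_u]

/-- **Existence of cocycles on `SL(2, ℤ)`** with prescribed values on `S` and `S * T`. -/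
theorem exists_cocycle_of_relations {W : Type*} [AddCommGroup W] [DistribMulAction SL(2, ℤ) W]
    (hneg : ∀ w : W, (-1 : SL(2, ℤ)) • w = w) (x y : W) (hx : x + (S : SL(2, ℤ)) • x = 0)
    (hy : y + (S * T : SL(2, ℤ)) • y + (S * T * (S * T) : SL(2, ℤ)) • y = 0) :
    ∃ c : SL(2, ℤ) → W, (∀ g h, c (g * h) = c g + g • c h) ∧ c S = x ∧ c (S * T) = y := by
  -- affine maps
  let s : Equiv.Perm W :=
    (MulAction.toPerm (S : SL(2, ℤ))).trans (Equiv.addRight x)
  let u : Equiv.Perm W :=
    (MulAction.toPerm (S * T : SL(2, ℤ))).trans (Equiv.addRight y)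
  have hs_apply : ∀ w, s w = (S : SL(2, ℤ)) • w + x := fun w => rfl
  have hu_apply : ∀ w, u w = (S * T : SL(2, ℤ)) • w + y := fun w => rfl
  have hs : s ^ 2 = 1 := by
    ext w
    rw [pow_two, Equiv.Perm.mul_apply, hs_apply, hs_apply, smul_add, smul_smul, ← pow_two, S_sq,
      hneg, Equiv.Perm.one_apply, add_assoc, add_comm _ x, hx, add_zero]
  have hu : u ^ 3 = 1 := by
    ext w
    have h3 : S * T * (S * T * (S * T)) = (-1 : SL(2, ℤ)) := by decide
    rw [pow_succ, pow_two, Equiv.Perm.mul_apply, Equiv.Perm.mul_apply, hu_apply, hu_apply,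
      hu_apply, smul_add, smul_add, smul_smul, smul_add, smul_smul, smul_smul, h3, hneg,
      Equiv.Perm.one_apply]
    calc w + (S * T * (S * T)) • y + (S * T) • y + y
        = w + (y + (S * T : SL(2, ℤ)) • y + (S * T * (S * T) : SL(2, ℤ)) • y) := by abel
      _ = w := by rw [hy, add_zero]
  obtain ⟨φ, hφS, hφU⟩ := exists_hom_of_relations s u hs hu
  have key : ∀ g : SL(2, ℤ), ∀ w, φ g w = g • w + φ g 0 := by
    intro g
    have hg : g ∈ Subgroup.closure ({S, S * T} : Set SL(2, ℤ)) := by
      have h1 : (⊤ : Subgroup SL(2, ℤ)) ≤ Subgroup.closure ({S, S * T} : Set SL(2, ℤ)) := by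
        rw [← SpecialLinearGroup.SL2Z_generators, Subgroup.closure_le]
        have hS : (S : SL(2, ℤ)) ∈ Subgroup.closure ({S, S * T} : Set SL(2, ℤ)) :=
          Subgroup.subset_closure (by simp)
        have hST : (S * T : SL(2, ℤ)) ∈ Subgroup.closure ({S, S * T} : Set SL(2, ℤ)) :=
          Subgroup.subset_closure (by simp)
        rintro z (rfl | rfl)
        · exact hS
        · have h2 := Subgroup.mul_mem _ (Subgroup.inv_mem _ hS) hST
          rwa [inv_mul_cancel_left] at h2
      exact h1 trivial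
    induction hg using Subgroup.closure_induction with
    | mem z hz =>
      rcases hz with rfl | rfl
      · intro w; rw [hφS, hs_apply, hs_apply, smul_zero, zero_add]
      · intro w; rw [hφU, hu_apply, hu_apply, smul_zero, zero_add]
    | one => intro w; simp
    | mul a b _ _ ha hb =>
      intro w
      rw [map_mul, Equiv.Perm.mul_apply, Equiv.Perm.mul_apply, hb w, ha, ha (φ b 0), smul_add,
        mul_smul]
      abel
    | inv a _ ha =>
      intro w
      have h1 : ∀ v, φ a⁻¹ v = a⁻¹ • v - a⁻¹ • φ a 0 := by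
        intro v
        rw [map_inv, Equiv.Perm.inv_eq_iff_eq, ha, smul_sub, smul_inv_smul, smul_inv_smul]
        abel
      rw [h1, h1, smul_zero]
      abel
  refine ⟨fun g => φ g 0, ?_, ?_, ?_⟩
  · intro g h
    change φ (g * h) 0 = φ g 0 + g • φ h 0
    rw [map_mul, Equiv.Perm.mul_apply, key g]
    abel
  · change φ S 0 = x
    rw [hφS, hs_apply, smul_zero, zero_add]
  · change φ (S * T) 0 = y
    rw [hφU, hu_apply, smul_zero, zero_add]

end Fermat.Agent.H70
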