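import Fermat.Agent.H70Mod2
import Fermat.Agent.H37RankTW

/-!
# Passage from eigenvectors in `O' ⊗_O M` to classes over `O'`; traces; comparison with `HH`
-/

set_option autoImplicit false
set_option linter.style.haveILetI false

open Matrix CongruenceSubgroup IsLocalRing
open scoped MatrixGroups TensorProduct

namespace Fermat.Agent.H70.Mod

open Fermat.Agent.H70.Coh Fermat.Agent.H59

section EndRes

variable (O R X : Type) [CommRing O] [CommRing R] [Algebra O R] [AddCommGroup X] [Module R X]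
  [Module O X] [IsScalarTower O R X]

/-- restriction of scalars for endomorphisms -/
def endRes : Module.End R X →ₐ[O] Module.End O X where
  toFun f := f.restrictScalars O
  map_one' := rfl
  map_mul' _ _ := rfl
  map_zero' := rfl
  map_add' _ _ := rfl
  commutes' _ := rfl

variable {O R X}

lemma endRes_apply (f : Module.End R X) (x : X) : endRes O R X f x = f x := rfl

/-- the action of a group ring on a module -/
noncomputable def diamEnd (O Δ X : Type) [CommRing O] [CommGroup Δ] [AddCommGroup X]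
    [Module (MonoidAlgebra O Δ) X] [Module O X] [IsScalarTower O (MonoidAlgebra O Δ) X] :
    Δ →* Module.End O X where
  toFun g := (LinearMap.lsmul (MonoidAlgebra O Δ) X (MonoidAlgebra.of O Δ g)).restrictScalars O
  map_one' := by
    apply LinearMap.ext
    intro x
    change MonoidAlgebra.of O Δ 1 • x = x
    rw [map_one, one_smul]
  map_mul' g h := by
    apply LinearMap.ext
    intro x
    change MonoidAlgebra.of O Δ (g * h) • x = MonoidAlgebra.of O Δ g • MonoidAlgebra.of O Δ h • x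
    rw [map_mul, mul_smul]

lemma diamEnd_apply {O Δ X : Type} [CommRing O] [CommGroup Δ] [AddCommGroup X]
    [Module (MonoidAlgebra O Δ) X] [Module O X] [IsScalarTower O (MonoidAlgebra O Δ) X]
    (g : Δ) (x : X) : diamEnd O Δ X g x = MonoidAlgebra.of O Δ g • x := rfl

end EndRes

section Point

variable {N M : ℕ} (hM : N ∣ M) {S : Set ℕ} (hS : Away M S) {O Δ : Type} [CommRing O]
  [CommGroup Δ] (ψ η : (ZMod N)ˣ →* (MonoidAlgebra O Δ)ˣ) {e : MvPolynomial (Idx S) O}
  {κ : Type} [Field κ] {θ : MvPolynomial (Idx S) O →+* κ}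

variable (e) in
/-- diamond operators on the localised module -/
noncomputable abbrev diam : Δ →* Module.End O (MLoc hM hS ψ η e) := diamEnd O Δ _

variable (e) in
/-- Hecke operators on the localised module, `O`-linear form -/
noncomputable def mactO : MvPolynomial (Idx S) O →ₐ[O] Module.End O (MLoc hM hS ψ η e) :=
  (endRes O (MonoidAlgebra O Δ) (MLoc hM hS ψ η e)).comp (mact hM hS ψ η e)

lemma mactO_apply (P : MvPolynomial (Idx S) O) (x : MLoc hM hS ψ η e) :
    mactO hM hS ψ η e P x = mact hM hS ψ η e P x := rfl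

lemma mactO_diam (P : MvPolynomial (Idx S) O) (g : Δ) :
    mactO hM hS ψ η e P * diam hM hS ψ η e g = diam hM hS ψ η e g * mactO hM hS ψ η e P := by
  apply LinearMap.ext
  intro x
  change mact hM hS ψ η e P (MonoidAlgebra.of O Δ g • x) =
    MonoidAlgebra.of O Δ g • mact hM hS ψ η e P x
  rw [map_smul]

variable {O' : Type} [CommRing O'] [Algebra O O']

lemma evS_act (χ : Δ →* O'ˣ) (P : MvPolynomial (Idx S) O)
    (w : O' ⊗[O] H1 (gam N M hM) (psiRep ψ (MonoidAlgebra O Δ))) :
    evS hM ψ χ (((act (tw hM hS ψ η) (tw_comm hM hS ψ η) P).restrictScalars O).baseChange O' w) =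
      act (tw hM hS (psiMap (evC (O := O) χ).toRingHom ψ) (psiMap (evC (O := O) χ).toRingHom η))
        (tw_comm hM hS _ _) P (evS hM ψ χ w) := by
  induction w using TensorProduct.induction_on with
  | zero => simp only [map_zero]
  | add a b ha hb => rw [map_add, map_add, ha, hb, map_add, map_add]
  | tmul r x =>
    have h1 := h1S_act hM hS ψ η (evC (O := O) χ).toRingHom
      (fun a => (evC (O := O) χ).commutes a) P x
    have h2 : evS hM ψ χ (((act (tw hM hS ψ η) (tw_comm hM hS ψ η) P).restrictScalars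
        O).baseChange O' (r ⊗ₜ[O] x)) =
        r • h1S hM ψ (evC (O := O) χ).toRingHom
          (act (tw hM hS ψ η) (tw_comm hM hS ψ η) P x) :=
      evS_tmul hM ψ χ r _
    have h3 := (act (tw hM hS (psiMap (evC (O := O) χ).toRingHom ψ)
      (psiMap (evC (O := O) χ).toRingHom η)) (tw_comm hM hS _ _) P).map_smul r
      (h1S hM ψ (evC (O := O) χ).toRingHom x)
    have h4 := congrArg (act (tw hM hS (psiMap (evC (O := O) χ).toRingHom ψ)
      (psiMap (evC (O := O) χ).toRingHom η)) (tw_comm hM hS _ _) P) (evS_tmul hM ψ χ r x)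
    have h5 := congrArg (fun z => r • z) h1
    exact h2.trans (h5.trans (h3.symm.trans h4.symm))

section PointAux

variable {X H : Type} [AddCommGroup X] [Module (MonoidAlgebra O Δ) X] [Module O X]
  [IsScalarTower O (MonoidAlgebra O Δ) X] [AddCommGroup H] [Module (MonoidAlgebra O Δ) H]
  [Module O H] [IsScalarTower O (MonoidAlgebra O Δ) H]
  (i : X →ₗ[MonoidAlgebra O Δ] H) (p : H →ₗ[MonoidAlgebra O Δ] X)

lemma aux_hecke (f : Module.End O X) (g : Module.End O H) (h : ∀ x, g (i x) = i (f x))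
    (v : O' ⊗[O] X) (c : O') (hv : f.baseChange O' v = c • v) :
    g.baseChange O' ((i.restrictScalars O).baseChange O' v) =
      c • (i.restrictScalars O).baseChange O' v := by
  have h1 : g ∘ₗ (i.restrictScalars O) = (i.restrictScalars O) ∘ₗ f := LinearMap.ext h
  rw [← baseChange_comp_apply O', h1, baseChange_comp_apply O', hv, map_smul]

lemma aux_ne [Fintype Δ] [IsDomain O'] [CharZero O'] [Module.Free O X] (hpi : p ∘ₗ i = LinearMap.id)
    (v : O' ⊗[O] X) (hv : v ≠ 0) (χ : Δ →* O'ˣ)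
    (hχ : ∀ g, (diamEnd O Δ X g).baseChange O' v = ((χ g : O'ˣ) : O') • v)
    (h0 : projC χ ((i.restrictScalars O).baseChange O' v) = 0) : False := by
  rw [projC_of_eigen χ _ (fun g => aux_hecke i (diamEnd O Δ X g) _ (fun x =>
    (map_smul i (MonoidAlgebra.of O Δ g) x).symm) v _ (hχ g))] at h0
  have hpi' : (p.restrictScalars O) ∘ₗ (i.restrictScalars O) = LinearMap.id :=
    LinearMap.ext fun x => LinearMap.congr_fun hpi x
  have h2 := congrArg ((p.restrictScalars O).baseChange O') h0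
  rw [map_smul, baseChange_retract O' _ _ hpi', map_zero] at h2
  rcases smul_eq_zero.mp h2 with h3 | h3
  · exact (Nat.cast_ne_zero.mpr (Fintype.card_ne_zero (α := Δ))) h3
  · exact hv h3

end PointAux

set_option maxHeartbeats 1000000 in
/-- **Passage to points.** -/
theorem exists_point [NeZero M] [Finite Δ] [IsDomain O'] [CharZero O']
    (hg : Good M (MonoidAlgebra O Δ)) (hψ : ψ (-1) = 1)
    (he : IsLocIdem (tw hM hS ψ η) (tw_comm hM hS ψ η) θ e)
    [Module.Free O (MLoc hM hS ψ η e)]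
    (v : O' ⊗[O] MLoc hM hS ψ η e) (hv : v ≠ 0) (χ : Δ →* O'ˣ)
    (hχ : ∀ g, (diam hM hS ψ η e g).baseChange O' v = ((χ g : O'ˣ) : O') • v)
    (lam : MvPolynomial (Idx S) O → O')
    (hlam : ∀ P, (mactO hM hS ψ η e P).baseChange O' v = lam P • v) :
    ∃ y : MLoc hM hS (psiMap (evC (O := O) χ).toRingHom ψ)
        (psiMap (evC (O := O) χ).toRingHom η) e, y ≠ 0 ∧
      ∀ P, mact hM hS (psiMap (evC (O := O) χ).toRingHom ψ)
        (psiMap (evC (O := O) χ).toRingHom η) e P y = lam P • y := by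
  haveI := Fintype.ofFinite Δ
  have hPv := fun P => aux_hecke (O' := O') (MLoc hM hS ψ η e).subtype (mactO hM hS ψ η e P)
    ((act (tw hM hS ψ η) (tw_comm hM hS ψ η) P).restrictScalars O)
    (fun x => (mact_coe hM hS ψ η e P x).symm) v (lam P) (hlam P)
  generalize hv' : ((MLoc hM hS ψ η e).subtype.restrictScalars O).baseChange O' v = v' at hPv
  have hne : evS hM ψ χ v' ≠ 0 := by
    intro h0
    have h1 := projC_eq_zero_of_evS hM ψ hg hψ χ v' h0
    rw [← hv'] at h1
    exact aux_ne (MLoc hM hS ψ η e).subtype (locProj (tw hM hS ψ η) (tw_comm hM hS ψ η) e)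
      (locProj_comp_subtype he.idem) v hv χ hχ h1
  have hPy : ∀ P, act (tw hM hS (psiMap (evC (O := O) χ).toRingHom ψ)
      (psiMap (evC (O := O) χ).toRingHom η)) (tw_comm hM hS _ _) P (evS hM ψ χ v') =
      lam P • evS hM ψ χ v' := by
    intro P
    have h1 := evS_act hM hS ψ η χ P v'
    rw [hPv P] at h1
    exact h1.symm.trans ((evS hM ψ χ).map_smul _ _)
  have hlame : lam e • v = v := by
    rw [← hlam]
    have h1 : mactO hM hS ψ η e e = LinearMap.id := by
      apply LinearMap.ext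
      intro x
      exact LinearMap.congr_fun (act_locT_e he.idem) x
    rw [h1, LinearMap.baseChange_id]
    rfl
  have hmem : evS hM ψ χ v' ∈ MLoc hM hS (psiMap (evC (O := O) χ).toRingHom ψ)
      (psiMap (evC (O := O) χ).toRingHom η) e := by
    have h6 : lam e • v' = v' := by
      have h7 := (((MLoc hM hS ψ η e).subtype.restrictScalars O).baseChange O').map_smul (lam e) v
      rw [hlame, hv'] at h7
      exact h7.symm
    have h8 : lam e • evS hM ψ χ v' = evS hM ψ χ v' :=
      ((evS hM ψ χ).map_smul (lam e) v').symm.trans (congrArg (evS hM ψ χ) h6)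
    exact (mem_loc (isLocIdem_bc hM hS ψ η hg hψ (evC (O := O) χ).toRingHom
      (fun a => (evC (O := O) χ).commutes a) he).idem).mpr ((hPy e).trans h8)
  refine ⟨⟨evS hM ψ χ v', hmem⟩, fun h => hne (congrArg Subtype.val h), fun P => ?_⟩
  apply Subtype.ext
  exact (mact_coe hM hS _ _ e P _).trans (hPy P)

end Point

section Trace

variable {N M q : ℕ} (hM : N ∣ M) [NeZero M] [NeZero q] {S : Set ℕ} (hS : Away (M * q) S)
  {R : Type} [CommRing R] (ψ η : (ZMod N)ˣ →* Rˣ) {O : Type} [CommRing O] [Algebra O R]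
  (e : MvPolynomial (Idx S) O)

omit [NeZero M] [NeZero q] in
lemma Away.left {S : Set ℕ} (h : Away (M * q) S) : Away M S :=
  fun r hr hd => h r hr (hd.mul_right q)

lemma tr_tw (hq : q.Prime) (hqM : ¬ q ∣ M) (i : Idx S)
    (x : H1 (gam N (M * q) (hM.mul_right q)) (psiRep ψ R)) :
    (trFam hM).opH (psiRep ψ R) (tw (hM.mul_right q) hS ψ η i x) =
      tw hM hS.left ψ η i ((trFam hM).opH (psiRep ψ R) x) := by
  rw [tw_apply, tw_apply, map_smul]
  congr 1
  exact H37.Tr.tFam_trFam' hM hq hqM i.2.1 (hS.not_dvd i) x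

omit [NeZero M] in
lemma nu_tw (hq : q.Prime) (hqM : ¬ q ∣ M) (i : Idx S)
    (x : H1 (gam N (M * q) (hM.mul_right q)) (psiRep ψ R)) :
    (nuFam hM hq).opH (psiRep ψ R) (tw (hM.mul_right q) hS ψ η i x) =
      tw hM hS.left ψ η i ((nuFam hM hq).opH (psiRep ψ R) x) := by
  rw [tw_apply, tw_apply, map_smul]
  congr 1
  exact H37.Tr.tFam_nuFam hM hq hqM i.2.1 (hS.not_dvd i) x

lemma opH_smulO {N M M' : ℕ} {hM : N ∣ M} {hM' : N ∣ M'} {R : Type} [CommRing R]
    {ψ : (ZMod N)ˣ →* Rˣ} {O : Type} [CommRing O] [Algebra O R]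
    (h : HFam (gam N M hM) (gam N M' hM')) (a : O) (x : H1 (gam N M hM) (psiRep ψ R)) :
    h.opH (psiRep ψ R) (a • x) = a • h.opH (psiRep ψ R) x := by
  rw [← algebraMap_smul R a x, map_smul, algebraMap_smul]

/-- **The traces map the localised module to the localised module.** -/
theorem tr_mem (hq : q.Prime) (hqM : ¬ q ∣ M) {x : H1 (gam N (M * q) (hM.mul_right q)) (psiRep ψ R)}
    (hx : x ∈ MLoc (hM.mul_right q) hS ψ η e) :
    (trFam hM).opH (psiRep ψ R) x ∈ MLoc hM hS.left ψ η e :=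
  map_mem_loc (Λ := R) (Λ' := R) ((trFam hM).opH (psiRep ψ R)).toAddMonoidHom
    (opH_smulO (trFam hM)) (fun i x => tr_tw hM hS ψ η hq hqM i x) hx

omit [NeZero M] in
theorem nu_mem (hq : q.Prime) (hqM : ¬ q ∣ M) {x : H1 (gam N (M * q) (hM.mul_right q)) (psiRep ψ R)}
    (hx : x ∈ MLoc (hM.mul_right q) hS ψ η e) :
    (nuFam hM hq).opH (psiRep ψ R) x ∈ MLoc hM hS.left ψ η e :=
  map_mem_loc (Λ := R) (Λ' := R) ((nuFam hM hq).opH (psiRep ψ R)).toAddMonoidHom
    (opH_smulO (nuFam hM hq)) (fun i x => nu_tw hM hS ψ η hq hqM i x) hx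

end Trace

section Vanish

variable {N M : ℕ} (hM : N ∣ M) {S : Set ℕ} (hS : Away M S)
  {O : Type} [CommRing O] [IsLocalRing O]
  {κ : Type} [Field κ] {θ : MvPolynomial (Idx S) O →+* κ} {e : MvPolynomial (Idx S) O}
  (i₀ : Idx S) (hi₀ : θ (MvPolynomial.X i₀) ≠ 1 + (i₀.1 : κ))
  {R : Type} [CommRing R] [IsLocalRing R] [Algebra O R]
  (ψ η : (ZMod N)ˣ →* Rˣ)

include hi₀ in
theorem mloc_eq_bot [NeZero M] (hgO : Good M O) (hgR : Good M R) (hψ : ψ (-1) = 1)
    (heO : IsLocIdem (tw (R := O) hM hS 1 1) (tw_comm hM hS 1 1) θ e)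
    (heR : IsLocIdem (tw hM hS ψ η) (tw_comm hM hS ψ η) θ e)
    (hψ1 : ResTriv ψ) (hη1 : ResTriv η)
    (h0 : Module.finrank O (MLoc (R := O) hM hS 1 1 e) = 0) : MLoc hM hS ψ η e = ⊥ := by
  obtain ⟨h1, h2⟩ := loc_free hM hS ψ η hgR hψ heR hψ1 hη1 i₀ hi₀
  have h3 := finrank_mloc_eq hM hS i₀ hi₀ ψ η hgO hgR hψ heO heR hψ1 hη1
  rw [h0, Module.finrank_eq_zero_iff_of_free] at h3
  rw [Submodule.eq_bot_iff]
  intro x hx
  exact congrArg Subtype.val (h3.elim ⟨x, hx⟩ 0)

end Vanish

end Fermat.Agent.H70.Mod
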