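import Mathlib

/-!
# The sign of the quadratic Gauss sum
-/

set_option autoImplicit false
set_option linter.style.haveILetI false

namespace Fermat.Agent.H70Q

open Complex Real Filter Topology Finset

lemma tendsto_theta₂ {ι : Type*} {l : Filter ι} (x : ℝ) {τ : ι → ℂ}
    (h : Tendsto (fun i => (τ i).im) l atTop) :
    Tendsto (fun i => jacobiTheta₂ x (τ i)) l (𝓝 1) := by
  have hs : Summable fun n : ℤ => rexp (-π * n ^ 2 * 1) := by
    have := ((hasSum_jacobiTheta₂_term (0 : ℂ) (τ := I) (by simp)).summable).norm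
    refine this.congr fun n => ?_
    rw [norm_jacobiTheta₂_term]
    simp
  have h1 : (1 : ℂ) = ∑' n : ℤ, if n = 0 then (1 : ℂ) else 0 := by
    rw [tsum_ite_eq]
  rw [h1]
  refine tendsto_tsum_of_dominated_convergence hs (fun n => ?_) ?_
  · split_ifs with hn
    · subst hn
      refine tendsto_const_nhds.congr fun i => ?_
      simp [jacobiTheta₂_term]
    · rw [tendsto_zero_iff_norm_tendsto_zero]
      have h2 : ∀ i, ‖jacobiTheta₂_term n x (τ i)‖ = rexp (-(π * n ^ 2) * (τ i).im) := fun i => by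
        rw [norm_jacobiTheta₂_term]
        congr 1
        simp
      simp_rw [h2]
      refine Real.tendsto_exp_atBot.comp ?_
      refine Tendsto.const_mul_atTop_of_neg ?_ h
      have : (0 : ℝ) < (n : ℝ) ^ 2 := by positivity
      nlinarith [pi_pos, mul_pos pi_pos this]
  · filter_upwards [h.eventually_ge_atTop 1] with i hi n
    rw [norm_jacobiTheta₂_term]
    refine Real.exp_le_exp.mpr ?_
    have h3 : 0 ≤ π * (n : ℝ) ^ 2 := by positivity
    simp only [ofReal_im, mul_zero, sub_zero]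
    nlinarith

/-- the term over one residue class -/
lemma tsum_class {M k : ℕ} (hM : 0 < M) {ε : ℝ} (hε : 0 < ε) :
    ∑' m : ℤ, cexp (-π * ε * ((k : ℂ) + m * M) ^ 2) =
      1 / (√ε * M) * jacobiTheta₂ ((k / M : ℝ) : ℂ) (I / (ε * M ^ 2)) := by
  have hM' : (M : ℂ) ≠ 0 := by exact_mod_cast hM.ne'
  have hε' : (ε : ℂ) ≠ 0 := by exact_mod_cast hε.ne'
  have h1 : ∑' m : ℤ, cexp (-π * ε * ((k : ℂ) + m * M) ^ 2) =
      cexp (-π * ε * k ^ 2) * jacobiTheta₂ (I * ε * M * k) (I * ε * M ^ 2) := by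
    rw [jacobiTheta₂, ← tsum_mul_left]
    refine tsum_congr fun m => ?_
    rw [jacobiTheta₂_term, ← Complex.exp_add]
    congr 1
    linear_combination (-(2 * π * m * ε * M * k + π * m ^ 2 * ε * M ^ 2)) * (I_sq : I ^ 2 = -1)
  rw [h1, jacobiTheta₂_functional_equation]
  have h2 : (-I * (I * ε * M ^ 2) : ℂ) = ((ε * M ^ 2 : ℝ) : ℂ) := by
    push_cast
    linear_combination (-(ε : ℂ) * M ^ 2) * (I_sq : I ^ 2 = -1)
  have h3 : ((-I * (I * ε * M ^ 2) : ℂ)) ^ (1 / 2 : ℂ) = √ε * M := by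
    rw [h2]
    have : ((1 / 2 : ℂ)) = ((1 / 2 : ℝ) : ℂ) := by push_cast; ring
    rw [this, ← Complex.ofReal_cpow (by positivity), ← Real.sqrt_eq_rpow,
      Real.sqrt_mul hε.le, Real.sqrt_sq (by positivity)]
    push_cast
    ring
  have h4 : (I * ε * M * k : ℂ) / (I * ε * M ^ 2) = ((k / M : ℝ) : ℂ) := by
    push_cast
    field_simp
  have h5 : (-1 : ℂ) / (I * ε * M ^ 2) = I / (ε * M ^ 2) := by
    rw [div_eq_div_iff (by simp [hM', hε']) (by simp [hM', hε'])]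
    linear_combination (-(ε : ℂ) * M ^ 2) * (I_sq : I ^ 2 = -1)
  have h6 : (-π * I * (I * ε * M * k) ^ 2 / (I * ε * M ^ 2) : ℂ) = π * ε * k ^ 2 := by
    rw [div_eq_iff (by simp [hM', hε'])]
    linear_combination (-(π : ℂ) * I * ε ^ 2 * M ^ 2 * k ^ 2 ) * (I_sq : I ^ 2 = -1)
  rw [h3, h4, h5, h6]
  have h7 : cexp (-π * ε * k ^ 2) * cexp (π * ε * k ^ 2) = 1 := by
    rw [← Complex.exp_add]
    ring_nf
    exact Complex.exp_zero
  linear_combination (1 / (√ε * M) * jacobiTheta₂ ((k / M : ℝ) : ℂ) (I / (ε * M ^ 2))) * h7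

/-- the Gauss sum -/
noncomputable def gs (a M : ℕ) : ℂ := ∑ k ∈ range M, cexp (2 * π * I * (a * k ^ 2 / M))

lemma theta_eq {a M : ℕ} (hM : 0 < M) {ε : ℝ} (hε : 0 < ε) :
    √ε * jacobiTheta (2 * a / M + I * ε) = ∑ k ∈ range M, cexp (2 * π * I * (a * k ^ 2 / M)) *
      (1 / M * jacobiTheta₂ ((k / M : ℝ) : ℂ) (I / (ε * M ^ 2))) := by
  haveI : NeZero M := ⟨hM.ne'⟩
  have hM' : (M : ℂ) ≠ 0 := by exact_mod_cast hM.ne'
  have him : 0 < (2 * a / M + I * ε : ℂ).im := by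
    have h : (2 * a / M + I * ε : ℂ) = ((2 * a / M : ℝ) : ℂ) + (ε : ℂ) * I := by push_cast; ring
    rw [h]
    simp [hε]
  have hs : Summable fun n : ℤ => cexp (π * I * (n : ℂ) ^ 2 * (2 * a / M + I * ε)) := by
    have := (hasSum_jacobiTheta₂_term 0 him).summable
    refine this.congr fun n => ?_
    simp [jacobiTheta₂_term]
  have h1 : jacobiTheta (2 * a / M + I * ε) = ∑ k ∈ range M, cexp (2 * π * I * (a * k ^ 2 / M)) *
      ∑' m : ℤ, cexp (-π * ε * ((k : ℂ) + m * M) ^ 2) := by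
    rw [jacobiTheta, ← (Int.divModEquiv M).symm.tsum_eq]
    have hs' := ((Int.divModEquiv M).symm.summable_iff).mpr hs
    rw [← (Equiv.prodComm (Fin M) ℤ).tsum_eq]
    have hs'' := ((Equiv.prodComm (Fin M) ℤ).summable_iff).mpr hs'
    simp only [Function.comp_def] at hs''
    rw [hs''.tsum_prod, tsum_fintype, ← Fin.sum_univ_eq_sum_range (fun k =>
      cexp (2 * π * I * (a * k ^ 2 / M)) * ∑' m : ℤ, cexp (-π * ε * ((k : ℂ) + m * M) ^ 2)) M]
    refine Finset.sum_congr rfl fun k _ => ?_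
    rw [← tsum_mul_left]
    refine tsum_congr fun m => ?_
    have h2 : (((Int.divModEquiv M).symm ((Equiv.prodComm (Fin M) ℤ) (k, m)) : ℤ) : ℂ) =
        (k : ℂ) + m * M := by
      simp [Int.divModEquiv]
      ring
    rw [h2, ← Complex.exp_add]
    have h3 : (π * I * ((k : ℂ) + m * M) ^ 2 * (2 * a / M + I * ε)) =
        (2 * π * I * (a * k ^ 2 / M) + -π * ε * ((k : ℂ) + m * M) ^ 2) +
        ((2 * a * k * m + a * m ^ 2 * M : ℤ) : ℂ) * (2 * π * I) := by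
      push_cast
      field_simp
      linear_combination (ε * M * ((k : ℂ) + m * M) ^ 2) * (I_sq : I ^ 2 = -1)
    rw [h3, Complex.exp_add, Complex.exp_int_mul_two_pi_mul_I, mul_one]
  rw [h1, Finset.mul_sum]
  refine Finset.sum_congr rfl fun k _ => ?_
  rw [tsum_class hM hε]
  have h4 : (√ε : ℂ) ≠ 0 := by
    have := Real.sqrt_pos.mpr hε
    exact_mod_cast this.ne'
  field_simp

lemma tendsto_left {a M : ℕ} (hM : 0 < M) :
    Tendsto (fun ε : ℝ => (√ε : ℂ) * jacobiTheta (2 * a / M + I * ε)) (𝓝[>] 0)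
      (𝓝 (gs a M / M)) := by
  have h1 : Tendsto (fun ε : ℝ => ∑ k ∈ range M, cexp (2 * π * I * (a * k ^ 2 / M)) *
      (1 / M * jacobiTheta₂ ((k / M : ℝ) : ℂ) (I / (ε * M ^ 2)))) (𝓝[>] 0)
      (𝓝 (∑ k ∈ range M, cexp (2 * π * I * (a * k ^ 2 / M)) * (1 / M * 1))) := by
    refine tendsto_finsetSum _ fun k _ => ?_
    refine Tendsto.const_mul _ (Tendsto.const_mul _ (tendsto_theta₂ _ ?_))
    have h2 : ∀ ε : ℝ, (I / (ε * M ^ 2) : ℂ).im = (M ^ 2 : ℝ)⁻¹ * ε⁻¹ := fun ε => by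
      have : (I / (ε * M ^ 2) : ℂ) = (((M ^ 2 : ℝ)⁻¹ * ε⁻¹ : ℝ) : ℂ) * I := by
        push_cast
        rw [div_eq_mul_inv, mul_inv]
        ring
      rw [this, mul_I_im, ofReal_re]
    simp_rw [h2]
    exact Tendsto.const_mul_atTop (by positivity) tendsto_inv_nhdsGT_zero
  have h3 : (∑ k ∈ range M, cexp (2 * π * I * (a * k ^ 2 / M)) * (1 / M * 1)) = gs a M / M := by
    rw [gs, Finset.sum_div]
    exact Finset.sum_congr rfl fun k _ => by ring
  rw [h3] at h1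
  refine h1.congr' ?_
  filter_upwards [self_mem_nhdsWithin] with ε hε
  exact (theta_eq hM hε).symm

lemma theta_inv (τ : ℂ) :
    jacobiTheta τ = 1 / (-I * τ) ^ (1 / 2 : ℂ) * jacobiTheta (-1 / τ) := by
  rw [jacobiTheta_eq_jacobiTheta₂, jacobiTheta₂_functional_equation, jacobiTheta_eq_jacobiTheta₂]
  simp

lemma theta_add_even (τ : ℂ) (h : ℤ) : jacobiTheta (2 * h + τ) = jacobiTheta τ := by
  unfold jacobiTheta
  refine tsum_congr fun n => ?_
  have h1 : (π * I * (n : ℂ) ^ 2 * (2 * h + τ)) = π * I * (n : ℂ) ^ 2 * τ +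
      ((n ^ 2 * h : ℤ) : ℂ) * (2 * π * I) := by
    push_cast
    ring
  rw [h1, Complex.exp_add, Complex.exp_int_mul_two_pi_mul_I, mul_one]

lemma mul_cpow_half {ε : ℝ} (hε : 0 < ε) {z : ℂ} (hz : z ≠ 0) :
    ((ε : ℂ) * z) ^ (1 / 2 : ℂ) = √ε * z ^ (1 / 2 : ℂ) := by
  have h0 : (ε : ℂ) ≠ 0 := by exact_mod_cast hε.ne'
  rw [cpow_def_of_ne_zero (mul_ne_zero h0 hz), cpow_def_of_ne_zero hz,
    Complex.log_ofReal_mul hε hz, add_mul, Complex.exp_add]
  congr 1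
  rw [Real.sqrt_eq_rpow, Real.rpow_def_of_pos hε]
  push_cast
  rfl

lemma theta_twice {r : ℝ} (hr : 0 < r) {h : ℕ} (hh : (1 : ℝ) / r = 2 * h) {ε : ℝ} (hε : 0 < ε) :
    √ε * jacobiTheta (r + I * ε) = 1 / (-I * (r + I * ε)) ^ (1 / 2 : ℂ) *
      (1 / (1 / (r * (r + I * ε))) ^ (1 / 2 : ℂ)) * jacobiTheta (-r + I * (r ^ 2 / ε)) := by
  have hr0 : (r : ℂ) ≠ 0 := by exact_mod_cast hr.ne'
  have hε0 : (ε : ℂ) ≠ 0 := by exact_mod_cast hε.ne'
  have hτ0 : (r + I * ε : ℂ) ≠ 0 := by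
    intro h0
    have := congrArg Complex.re h0
    simp at this
    exact hr.ne' this
  have hh' : (1 : ℂ) / r = 2 * h := by exact_mod_cast hh
  have h1 : (-1 : ℂ) / (r + I * ε) = 2 * ((-h : ℤ) : ℂ) + I * ε / (r * (r + I * ε)) := by
    have : (2 : ℂ) * ((-h : ℤ) : ℂ) = - (1 / r) := by
      rw [hh']
      push_cast
      ring
    rw [this]
    field_simp
    ring
  have h2 : (-I * (I * ε / (r * (r + I * ε))) : ℂ) = ε * (1 / (r * (r + I * ε))) := by
    field_simp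
    linear_combination (-1 : ℂ) * (I_sq : I ^ 2 = -1)
  have h3 : (-1 : ℂ) / (I * ε / (r * (r + I * ε))) = -r + I * (r ^ 2 / ε) := by
    field_simp
    linear_combination (-(r : ℂ)) * (I_sq : I ^ 2 = -1)
  have h4 : (1 / (r * (r + I * ε)) : ℂ) ≠ 0 := one_div_ne_zero (mul_ne_zero hr0 hτ0)
  rw [theta_inv, h1, theta_add_even, theta_inv (I * ε / (r * (r + I * ε))), h2, h3,
    mul_cpow_half hε h4]
  have h5 : (√ε : ℂ) ≠ 0 := by
    have := Real.sqrt_pos.mpr hε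
    exact_mod_cast this.ne'
  field_simp

lemma tendsto_right {r : ℝ} (hr : 0 < r) {h : ℕ} (hh : (1 : ℝ) / r = 2 * h) :
    Tendsto (fun ε : ℝ => (√ε : ℂ) * jacobiTheta (r + I * ε)) (𝓝[>] 0)
      (𝓝 (√r * cexp (π * I / 4))) := by
  have hr0 : (r : ℂ) ≠ 0 := by exact_mod_cast hr.ne'
  have hlim : Tendsto (fun ε : ℝ => (r + I * ε : ℂ)) (𝓝[>] 0) (𝓝 r) := by
    have h1 : Tendsto (fun ε : ℝ => (r + I * ε : ℂ)) (𝓝 0) (𝓝 (r + I * (0 : ℝ))) := by
      refine Tendsto.const_add _ (Tendsto.const_mul _ ?_)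
      exact (Complex.continuous_ofReal.tendsto 0)
    rw [Complex.ofReal_zero, mul_zero, add_zero] at h1
    exact h1.mono_left nhdsWithin_le_nhds
  have hA : Tendsto (fun ε : ℝ => (1 : ℂ) / (-I * (r + I * ε)) ^ (1 / 2 : ℂ)) (𝓝[>] 0)
      (𝓝 (1 / (-I * r) ^ (1 / 2 : ℂ))) := by
    refine Tendsto.div tendsto_const_nhds ?_ ?_
    · refine Tendsto.cpow (hlim.const_mul _) tendsto_const_nhds ?_
      right
      simp [hr.ne']
    · rw [Ne, cpow_eq_zero_iff, not_and_or]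
      exact Or.inl (mul_ne_zero (neg_ne_zero.mpr I_ne_zero) hr0)
  have hB : Tendsto (fun ε : ℝ => (1 : ℂ) / (1 / (r * (r + I * ε))) ^ (1 / 2 : ℂ)) (𝓝[>] 0)
      (𝓝 (1 / (1 / (r * r)) ^ (1 / 2 : ℂ))) := by
    refine Tendsto.div tendsto_const_nhds ?_ ?_
    · refine Tendsto.cpow (Tendsto.div tendsto_const_nhds (hlim.const_mul _)
        (mul_ne_zero hr0 hr0)) tendsto_const_nhds ?_
      left
      have : (1 / (r * r) : ℂ) = ((1 / (r * r) : ℝ) : ℂ) := by push_cast; ring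
      rw [this, ofReal_re]
      positivity
    · rw [Ne, cpow_eq_zero_iff, not_and_or]
      exact Or.inl (one_div_ne_zero (mul_ne_zero hr0 hr0))
  have hC : Tendsto (fun ε : ℝ => jacobiTheta (-r + I * (r ^ 2 / ε))) (𝓝[>] 0) (𝓝 1) := by
    simp_rw [jacobiTheta_eq_jacobiTheta₂]
    refine tendsto_theta₂ (0 : ℝ) ?_
    have h2 : ∀ ε : ℝ, (-r + I * (r ^ 2 / ε) : ℂ).im = r ^ 2 * ε⁻¹ := fun ε => by
      have : (-r + I * (r ^ 2 / ε) : ℂ) = ((-r : ℝ) : ℂ) + ((r ^ 2 * ε⁻¹ : ℝ) : ℂ) * I := by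
        push_cast
        rw [div_eq_mul_inv]
        ring
      rw [this, add_im, mul_I_im, ofReal_re, ofReal_im, zero_add]
    simp_rw [h2]
    exact Tendsto.const_mul_atTop (by positivity) tendsto_inv_nhdsGT_zero
  have hD := (hA.mul hB).mul hC
  have h5 : (1 / (-I * r) ^ (1 / 2 : ℂ) * (1 / (1 / (r * r)) ^ (1 / 2 : ℂ)) * 1 : ℂ) =
      √r * cexp (π * I / 4) := by
    have e1 : (-I * r : ℂ) = r * -I := by ring
    have e2 : (-I : ℂ) ^ (1 / 2 : ℂ) = cexp (-(π * I / 4)) := by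
      rw [cpow_def_of_ne_zero (neg_ne_zero.mpr I_ne_zero), Complex.log_neg_I]
      congr 1
      ring
    have e3 : (1 / (r * r) : ℂ) ^ (1 / 2 : ℂ) = (r : ℂ)⁻¹ := by
      have e4 : (1 / (r * r) : ℂ) = ((1 / (r * r) : ℝ) : ℂ) * 1 := by push_cast; ring
      rw [e4, mul_cpow_half (by positivity) one_ne_zero, one_cpow, mul_one]
      have e5 : √(1 / (r * r)) = r⁻¹ := by
        rw [Real.sqrt_div zero_le_one, Real.sqrt_mul_self hr.le, Real.sqrt_one, one_div]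
      rw [e5]
      push_cast
      rfl
    rw [e1, mul_cpow_half hr (neg_ne_zero.mpr I_ne_zero), e2, e3, Complex.exp_neg]
    have e6 : (√r : ℂ) * √r = r := by
      rw [← Complex.ofReal_mul, Real.mul_self_sqrt hr.le]
    have e7 : (√r : ℂ) ≠ 0 := by
      have := Real.sqrt_pos.mpr hr
      exact_mod_cast this.ne'
    field_simp
    linear_combination -e6
  rw [h5] at hD
  refine hD.congr' ?_
  filter_upwards [self_mem_nhdsWithin] with ε hε
  exact (theta_twice hr hh hε).symm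

/-- **Gauss sum with sign** -/
theorem gs_eq {a M : ℕ} (ha : 0 < a) (hM : 0 < M) (h : 4 * a ∣ M) :
    gs a M = √(2 * a * M) * cexp (π * I / 4) := by
  obtain ⟨k, rfl⟩ := h
  have hk : 0 < k := Nat.pos_of_mul_pos_left hM
  have hr : (0 : ℝ) < 2 * a / ((4 * a * k : ℕ) : ℝ) := by positivity
  have h1 := tendsto_left (a := a) (M := 4 * a * k) hM
  have h2 := tendsto_right hr (h := k) (by
    push_cast
    field_simp
    norm_num)
  have h3 : ∀ ε : ℝ, (2 * a / ((4 * a * k : ℕ) : ℂ) + I * ε : ℂ) =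
      ((2 * a / ((4 * a * k : ℕ) : ℝ) : ℝ) : ℂ) + I * ε := fun ε => by
    push_cast
    rfl
  simp_rw [h3] at h1
  have h4 := tendsto_nhds_unique h1 h2
  have hM' : (((4 * a * k : ℕ)) : ℂ) ≠ 0 := by exact_mod_cast hM.ne'
  rw [div_eq_iff hM'] at h4
  rw [h4]
  have h5 : √(2 * a * ((4 * a * k : ℕ) : ℝ)) = √(2 * a / ((4 * a * k : ℕ) : ℝ)) *
      ((4 * a * k : ℕ) : ℝ) := by
    rw [Real.sqrt_eq_iff_mul_self_eq (by positivity) (by positivity)]
    have := Real.mul_self_sqrt hr.le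
    have hM'' : (((4 * a * k : ℕ)) : ℝ) ≠ 0 := by exact_mod_cast hM.ne'
    symm
    calc √(2 * a / ((4 * a * k : ℕ) : ℝ)) * ((4 * a * k : ℕ) : ℝ) *
        (√(2 * a / ((4 * a * k : ℕ) : ℝ)) * ((4 * a * k : ℕ) : ℝ)) =
        (√(2 * a / ((4 * a * k : ℕ) : ℝ)) * √(2 * a / ((4 * a * k : ℕ) : ℝ))) *
          ((4 * a * k : ℕ) : ℝ) ^ 2 := by ring
      _ = 2 * a * ((4 * a * k : ℕ) : ℝ) := by
        rw [this]
        field_simp
  rw [h5]
  push_cast
  ring

end Fermat.Agent.H70Q
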