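import Fermat.Agent.H70Q1

/-!
# Gauss sums of lattices in a ring with a trace form: reduction to the diagonal case
-/

set_option autoImplicit false
set_option linter.style.haveILetI false
set_option linter.unusedSectionVars false

namespace Fermat.Agent.H70Q

open Complex Real Filter Topology Finset

section Fin

variable {G G' : Type*} [AddCommGroup G] [Fintype G] [AddCommGroup G'] [Fintype G']

/-- the sum is supported on a subgroup -/
lemma sum_support (f : G → ℂ) (φ : G' →+ G) (K : AddSubgroup G) [DecidablePred (· ∈ K)]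
    (hφ : ∀ z, φ z ∈ K) (χ : G → AddChar G' ℂ) (hf : ∀ x z, f (x + φ z) = f x * χ x z)
    (hχ : ∀ x, x ∉ K → χ x ≠ 1) : ∑ x, f x = ∑ x with x ∈ K, f x := by
  classical
  rw [← Finset.sum_filter_add_sum_filter_not univ (· ∈ K) f, add_eq_left]
  have h1 : ∀ z : G', ∑ x with x ∉ K, f x = ∑ x, if x ∈ K then 0 else f x * χ x z := by
    intro z
    rw [Finset.sum_filter, ← Equiv.sum_comp (Equiv.addRight (φ z))]
    refine Finset.sum_congr rfl fun x _ => ?_
    rw [Equiv.coe_addRight]
    by_cases hx : x ∈ K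
    · rw [if_pos hx, if_neg (not_not.mpr (K.add_mem hx (hφ z)))]
    · rw [if_neg hx, if_pos, hf]
      intro h
      exact hx ((K.add_mem_cancel_right (hφ z)).mp h)
  have h2 : (Fintype.card G' : ℂ) * ∑ x with x ∉ K, f x = 0 := by
    calc (Fintype.card G' : ℂ) * ∑ x with x ∉ K, f x = ∑ _z : G', ∑ x with x ∉ K, f x := by
          rw [Finset.sum_const, Finset.card_univ, nsmul_eq_mul]
      _ = ∑ z : G', ∑ x, if x ∈ K then 0 else f x * χ x z :=
          Finset.sum_congr rfl fun z _ => h1 z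
      _ = ∑ x, ∑ z : G', if x ∈ K then 0 else f x * χ x z := Finset.sum_comm
      _ = 0 := by
        refine Finset.sum_eq_zero fun x _ => ?_
        by_cases hx : x ∈ K
        · simp [hx]
        · simp only [hx, if_false]
          rw [← Finset.mul_sum, AddChar.sum_eq_zero_of_ne_one (hχ x hx), mul_zero]
  rcases mul_eq_zero.mp h2 with h | h
  · exact absurd h (by exact_mod_cast Fintype.card_ne_zero)
  · exact h

/-- the sum over a homomorphism -/
lemma sum_hom (f : G → ℂ) (φ : G' →+ G) [DecidablePred (· ∈ φ.range)] :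
    ∑ x, f (φ x) = (Nat.card φ.ker : ℂ) * ∑ x with x ∈ φ.range, f x := by
  classical
  have h1 : ∑ x, f (φ x) = ∑ y : G, ∑ x with φ x = y, f y := by
    rw [← Finset.sum_fiberwise univ φ (fun x => f (φ x))]
    refine Finset.sum_congr rfl fun y _ => Finset.sum_congr rfl fun x hx => ?_
    rw [(Finset.mem_filter.mp hx).2]
  rw [h1, Finset.mul_sum, Finset.sum_filter]
  refine Finset.sum_congr rfl fun y _ => ?_
  rw [Finset.sum_const, nsmul_eq_mul]
  split_ifs with hy
  · obtain ⟨x0, rfl⟩ := hy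
    congr 1
    rw [Nat.card_eq_fintype_card]
    norm_cast
    rw [Fintype.card_subtype]
    refine Finset.card_bij (fun x _ => x - x0) ?_ ?_ ?_
    · intro x hx
      simp only [Finset.mem_filter, Finset.mem_univ, true_and] at hx ⊢
      rw [AddMonoidHom.mem_ker, map_sub, hx, sub_self]
    · intro x _ y _ h
      exact sub_left_injective h
    · intro x hx
      simp only [Finset.mem_filter, Finset.mem_univ, true_and, AddMonoidHom.mem_ker] at hx
      refine ⟨x + x0, ?_, add_sub_cancel_right _ _⟩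
      simp [hx]
  · have : (Finset.univ.filter fun x => φ x = y) = ∅ := by
      refine Finset.filter_eq_empty_iff.mpr fun x _ h => hy ⟨x, h⟩
    rw [this]
    simp

end Fin

section Char

variable {R : Type*} [CommRing R] (T : R →+ ℤ) (M : ℕ) [NeZero M]

lemma T_mul_nat (r : R) : T ((M : R) * r) = M * T r := by
  rw [← nsmul_eq_mul, map_nsmul, nsmul_eq_mul]

/-- the additive character `e(T r / M)` on `R / M` -/
noncomputable def psi : AddChar (R ⧸ Ideal.span {(M : R)}) ℂ where
  toFun y := ZMod.stdAddChar (N := M) ((T y.out : ℤ) : ZMod M)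
  map_zero_eq_one' := by
    have h1 : ((0 : R ⧸ Ideal.span {(M : R)}).out) ∈ Ideal.span {(M : R)} := by
      rw [← Ideal.Quotient.eq_zero_iff_mem, Ideal.Quotient.mk_out]
    obtain ⟨s, hs⟩ := Ideal.mem_span_singleton'.mp h1
    rw [← hs, mul_comm, T_mul_nat]
    simp
  map_add_eq_mul' a b := by
    rw [← AddChar.map_add_eq_mul]
    congr 1
    have h1 : (a + b).out - (a.out + b.out) ∈ Ideal.span {(M : R)} := by
      rw [← Ideal.Quotient.eq_zero_iff_mem]
      simp [Ideal.Quotient.mk_out]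
    obtain ⟨s, hs⟩ := Ideal.mem_span_singleton'.mp h1
    have h2 : T ((a + b).out) = T a.out + T b.out + M * T s := by
      rw [← T_mul_nat, ← map_add, ← map_add, mul_comm, hs]
      congr 1
      ring
    rw [h2]
    push_cast
    simp

lemma psi_mk (r : R) : psi T M (Ideal.Quotient.mk _ r) = ZMod.stdAddChar (N := M) ((T r : ℤ) : ZMod M) := by
  change ZMod.stdAddChar (N := M) ((T (Ideal.Quotient.mk (Ideal.span {(M : R)}) r).out : ℤ) : ZMod M) = _
  congr 1
  have h1 : (Ideal.Quotient.mk (Ideal.span {(M : R)}) r).out - r ∈ Ideal.span {(M : R)} := by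
    rw [← Ideal.Quotient.eq_zero_iff_mem]
    simp [Ideal.Quotient.mk_out]
  obtain ⟨s, hs⟩ := Ideal.mem_span_singleton'.mp h1
  have h2 : T ((Ideal.Quotient.mk (Ideal.span {(M : R)}) r).out) = T r + M * T s := by
    rw [← T_mul_nat, ← map_add, mul_comm, hs]
    congr 1
    ring
  rw [h2]
  push_cast
  simp

/-- the Gauss sum -/
noncomputable def S (c : R) : ℂ := ∑ᶠ x : R ⧸ Ideal.span {(M : R)},
  psi T M (Ideal.Quotient.mk _ c * x ^ 2)

lemma S_eq [Fintype (R ⧸ Ideal.span {(M : R)})] (c : R) : S T M c =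
    ∑ x : R ⧸ Ideal.span {(M : R)}, psi T M (Ideal.Quotient.mk _ c * x ^ 2) :=
  finsum_eq_sum_of_fintype _

end Char

lemma addChar_sum {A : Type*} [AddCommGroup A] {κ : Type*} (ψ : AddChar A ℂ) (s : Finset κ)
    (f : κ → A) : ψ (∑ i ∈ s, f i) = ∏ i ∈ s, ψ (f i) := by
  classical
  induction s using Finset.induction_on with
  | empty => simp
  | insert a s ha ih => rw [Finset.sum_insert ha, Finset.prod_insert ha, AddChar.map_add_eq_mul, ih]

section Diag

variable {ι : Type*} [Fintype ι] [DecidableEq ι] (M : ℕ) [NeZero M]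

/-- the one-dimensional sum -/
noncomputable def S1 (a : ℤ) : ℂ := ∑ x : ZMod M, ZMod.stdAddChar (N := M) ((a : ZMod M) * x ^ 2)

lemma S1_natCast (a : ℕ) : S1 M (a : ℤ) = gs a M := by
  unfold S1 gs
  refine Finset.sum_bij (fun x _ => x.val) (fun x _ => mem_range.mpr (ZMod.val_lt x))
    (fun x _ y _ h => ZMod.val_injective M h)
    (fun k hk => ⟨(k : ZMod M), mem_univ _, ZMod.val_cast_of_lt (mem_range.mp hk)⟩) (fun x _ => ?_)
  have h1 : (((a : ℤ) : ZMod M) * x ^ 2) = (((a * x.val ^ 2 : ℕ) : ℤ) : ZMod M) := by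
    push_cast
    rw [ZMod.natCast_zmod_val]
  rw [h1, ZMod.stdAddChar_coe]
  congr 1
  push_cast
  ring

lemma S1_neg (a : ℤ) : S1 M (-a) = starRingEnd ℂ (S1 M a) := by
  unfold S1
  rw [map_sum]
  refine Finset.sum_congr rfl fun x _ => ?_
  rw [← AddChar.map_neg_eq_conj]
  congr 1
  push_cast
  ring

lemma S1_pos {a : ℤ} (ha : 0 < a) (h : 4 * a ∣ M) :
    ∃ r : ℝ, 0 < r ∧ S1 M a = r * cexp (π * I / 4) := by
  lift a to ℕ using ha.le
  have ha' : 0 < a := by exact_mod_cast ha
  have h' : 4 * a ∣ M := by exact_mod_cast h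
  refine ⟨√(2 * a * M), ?_, ?_⟩
  · have := NeZero.pos M
    positivity
  · rw [S1_natCast, gs_eq ha' (NeZero.pos M) h']

lemma S1_neg' {a : ℤ} (ha : a < 0) (h : 4 * a ∣ M) :
    ∃ r : ℝ, 0 < r ∧ S1 M a = r * cexp (-(π * I / 4)) := by
  obtain ⟨r, hr, h1⟩ := S1_pos M (a := -a) (by omega) (by simpa using h)
  refine ⟨r, hr, ?_⟩
  have h2 : (starRingEnd ℂ) (π * I / 4) = -(π * I / 4) := by
    have h3 : (π * I / 4 : ℂ) = ((π / 4 : ℝ) : ℂ) * I := by
      push_cast
      ring
    rw [h3, map_mul, Complex.conj_ofReal, Complex.conj_I, mul_neg]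
  rw [← neg_neg a, S1_neg, h1, map_mul, Complex.conj_ofReal, ← Complex.exp_conj, h2]

/-- product of one-dimensional sums with signature zero -/
lemma prod_S1_pos (a : ι → ℤ) (ha : ∀ i, a i ≠ 0) (h : ∀ i, 4 * a i ∣ M)
    (hsig : (univ.filter fun i => 0 < a i).card = (univ.filter fun i => a i < 0).card) :
    ∃ r : ℝ, 0 < r ∧ ∏ i, S1 M (a i) = r := by
  have h1 : ∀ i, ∃ r : ℝ, 0 < r ∧ S1 M (a i) = r *
      (if 0 < a i then cexp (π * I / 4) else cexp (-(π * I / 4))) := by
    intro i
    split_ifs with hi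
    · exact S1_pos M hi (h i)
    · exact S1_neg' M (lt_of_le_of_ne (not_lt.mp hi) (ha i)) (h i)
  choose r hr hr' using h1
  refine ⟨∏ i, r i, Finset.prod_pos fun i _ => hr i, ?_⟩
  rw [Finset.prod_congr rfl fun i _ => hr' i, Finset.prod_mul_distrib, Finset.prod_ite,
    Finset.prod_const, Finset.prod_const]
  have h2 : (univ.filter fun i => ¬ 0 < a i) = univ.filter fun i => a i < 0 := by
    refine Finset.filter_congr fun i _ => ?_
    have := ha i
    omega
  rw [h2, hsig, ← mul_pow, ← Complex.exp_add, add_neg_cancel, Complex.exp_zero, one_pow, mul_one]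
  push_cast
  rfl

lemma prod_S1 (a : ι → ℤ) : ∏ i, S1 M (a i) =
    ∑ x : ι → ZMod M, ZMod.stdAddChar (N := M) (∑ i, (a i : ZMod M) * x i ^ 2) := by
  unfold S1
  rw [Finset.prod_univ_sum]
  simp only [Fintype.piFinset_univ]
  refine Finset.sum_congr rfl fun x _ => ?_
  exact (addChar_sum _ _ _).symm

end Diag

section Main

variable {R : Type*} [CommRing R] (T : R →+ ℤ) {ι : Type*} [Fintype ι] [DecidableEq ι]

/-- the map `x ↦ ∑ xᵢ vᵢ` modulo `M` -/
noncomputable def P (M : ℕ) (v : ι → R) : (ι → ZMod M) →+ R ⧸ Ideal.span {(M : R)} :=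
  ∑ i, (ZMod.lift M ⟨zmultiplesHom _ (Ideal.Quotient.mk (Ideal.span {(M : R)}) (v i)), by
    simp only [zmultiplesHom_apply, natCast_zsmul, nsmul_eq_mul]
    rw [← map_natCast (Ideal.Quotient.mk (Ideal.span {(M : R)})), ← map_mul,
      Ideal.Quotient.eq_zero_iff_mem]
    exact Ideal.mul_mem_right _ _ (Ideal.subset_span rfl)⟩).comp (Pi.evalAddMonoidHom _ i)

lemma P_apply (M : ℕ) (v : ι → R) (k : ι → ℤ) :
    P M v (fun i => (k i : ZMod M)) = Ideal.Quotient.mk _ (∑ i, (k i : R) * v i) := by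
  simp only [P, AddMonoidHom.finsetSum_apply, AddMonoidHom.comp_apply, Pi.evalAddMonoidHom_apply,
    ZMod.lift_coe, zmultiplesHom_apply, map_sum, map_mul, map_intCast, zsmul_eq_mul]

/-- **Positivity of the Gauss sum of a trace form of signature zero** -/
theorem S_pos (v : ι → R) (c : R) (a : ι → ℤ) (hv : ∀ i j, i ≠ j → T (c * (v i * v j)) = 0)
    (hva : ∀ i, T (c * (v i * v i)) = a i) (ha : ∀ i, a i ≠ 0)
    (hsig : (univ.filter fun i => 0 < a i).card = (univ.filter fun i => a i < 0).card)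
    (D D' : ℕ) (hD : ∀ r : R, ∃ k : ι → ℤ, (D : R) * r = ∑ i, (k i : R) * v i)
    (hD' : ∀ (N : ℕ) (x : R), (∀ z, (N : ℤ) ∣ T (2 * c * x * z)) → ∃ y, (D' : R) * x = N * y)
    {N : ℕ} (hN : 0 < N) (hDN : D * D' ∣ N) (haN : ∀ i, 2 * a i ∣ N)
    (htf : ∀ (n : ℕ) (x y : R), n ≠ 0 → (n : R) * x = n * y → x = y)
    [Fintype (R ⧸ Ideal.span {((N ^ 2 : ℕ) : R)})] :
    haveI : NeZero (N ^ 2) := ⟨(pow_pos hN 2).ne'⟩
    ∃ r : ℝ, 0 < r ∧ S T (N ^ 2) c = r := by
  classical
  haveI : NeZero (N ^ 2) := ⟨(pow_pos hN 2).ne'⟩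
  haveI : NeZero N := ⟨hN.ne'⟩
  show ∃ r : ℝ, 0 < r ∧ S T (N ^ 2) c = r
  set M := N ^ 2 with hM
  let mk := Ideal.Quotient.mk (Ideal.span {((M : ℕ) : R)})
  have hM0 : mk (M : R) = 0 := Ideal.Quotient.eq_zero_iff_mem.mpr (Ideal.subset_span rfl)
  have hNN : (N : R) * N = (M : R) := by
    rw [hM]
    push_cast
    ring
  -- step 1: the sum over the lattice of the `v i`
  have h1 : ∑ x : ι → ZMod M, psi T M (mk c * (P M v x) ^ 2) = ∏ i, S1 M (a i) := by
    rw [prod_S1]
    refine Finset.sum_congr rfl fun x _ => ?_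
    obtain ⟨k, rfl⟩ : ∃ k : ι → ℤ, x = fun i => (k i : ZMod M) :=
      ⟨fun i => (x i).val, by ext i; simp⟩
    rw [P_apply, ← map_pow, ← map_mul, psi_mk]
    congr 1
    have h2 : T (c * (∑ i, (k i : R) * v i) ^ 2) = ∑ i, a i * k i ^ 2 := by
      rw [sq, Finset.sum_mul_sum, Finset.mul_sum, map_sum]
      refine Finset.sum_congr rfl fun i _ => ?_
      rw [Finset.mul_sum, map_sum, Finset.sum_eq_single i]
      · have : c * ((k i : R) * v i * ((k i : R) * v i)) = (k i * k i : ℤ) • (c * (v i * v i)) := by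
          rw [zsmul_eq_mul]
          push_cast
          ring
        rw [this, map_zsmul, hva, smul_eq_mul]
        ring
      · intro j _ hj
        have : c * ((k i : R) * v i * ((k j : R) * v j)) = (k i * k j : ℤ) • (c * (v i * v j)) := by
          rw [zsmul_eq_mul]
          push_cast
          ring
        rw [this, map_zsmul, hv i j (Ne.symm hj), smul_zero]
      · intro h
        exact absurd (Finset.mem_univ i) h
    rw [h2]
    push_cast
    rfl
  -- step 2: positivity
  have h4a : ∀ i, 4 * a i ∣ (M : ℤ) := by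
    intro i
    obtain ⟨t, ht⟩ := haN i
    refine ⟨a i * t ^ 2, ?_⟩
    rw [hM]
    push_cast
    rw [ht]
    ring
  obtain ⟨r, hr, hr'⟩ := prod_S1_pos M a ha h4a hsig
  rw [hr', sum_hom (fun y => psi T M (mk c * y ^ 2)) (P M v)] at h1
  -- step 3: support
  have h3 : ∑ x, psi T M (mk c * x ^ 2) = ∑ x with x ∈ (P M v).range, psi T M (mk c * x ^ 2) := by
    have hDr : ∀ r : R, mk ((D : R) * r) ∈ (P M v).range := by
      intro r
      obtain ⟨k, hk⟩ := hD r
      exact ⟨fun i => (k i : ZMod M), by rw [P_apply, hk]⟩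
    obtain ⟨t, ht⟩ := hDN
    refine sum_support (G' := R ⧸ Ideal.span {((M : ℕ) : R)}) (fun x => psi T M (mk c * x ^ 2))
      (AddMonoidHom.mulLeft (mk (N : R))) _ ?_
      (fun x => (psi T M).mulShift (2 * mk c * mk (N : R) * x)) ?_ ?_
    · intro z
      obtain ⟨z, rfl⟩ := Ideal.Quotient.mk_surjective z
      have : AddMonoidHom.mulLeft (mk (N : R)) (Ideal.Quotient.mk _ z) = mk ((D : R) * (D' * t * z)) := by
        rw [AddMonoidHom.coe_mulLeft]
        change mk _ * mk _ = _
        rw [← map_mul]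
        congr 1
        rw [ht]
        push_cast
        ring
      rw [this]
      exact hDr _
    · intro x z
      rw [AddChar.mulShift_apply, ← AddChar.map_add_eq_mul, AddMonoidHom.coe_mulLeft]
      congr 1
      have h5 : mk (N : R) * mk (N : R) = 0 := by
        rw [← map_mul, hNN]
        exact hM0
      linear_combination (mk c * z ^ 2) * h5
    · intro x hx h6
      obtain ⟨x, rfl⟩ := Ideal.Quotient.mk_surjective x
      apply hx
      have h7 : ∀ z, (N : ℤ) ∣ T (2 * c * x * z) := by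
        intro z
        have h8 := DFunLike.congr_fun h6 (mk z)
        rw [AddChar.mulShift_apply, AddChar.one_apply] at h8
        have h9 : 2 * mk c * mk (N : R) * mk x * mk z = mk ((N : R) * (2 * c * x * z)) := by
          simp only [map_mul, map_ofNat]
          ring
        change psi T M (2 * mk c * mk (N : R) * mk x * mk z) = 1 at h8
        rw [h9, psi_mk, T_mul_nat] at h8
        have h10 := (ZMod.isPrimitive_stdAddChar M).zmod_char_eq_one_iff M _ |>.mp h8
        rw [ZMod.intCast_zmod_eq_zero_iff_dvd, hM] at h10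
        have hN' : (N : ℤ) ≠ 0 := by exact_mod_cast hN.ne'
        push_cast at h10
        rw [sq] at h10
        exact Int.dvd_of_mul_dvd_mul_left hN' h10
      obtain ⟨y, hy⟩ := hD' N x h7
      have hD'0 : D' ≠ 0 := by
        rintro rfl
        simp at ht
        exact hN.ne' ht
      have h11 : x = (D : R) * (t * y) := by
        refine htf D' _ _ hD'0 ?_
        rw [hy, ht]
        push_cast
        ring
      change mk x ∈ _
      rw [h11]
      exact hDr _
  rw [S_eq]
  change ∃ r : ℝ, 0 < r ∧ ∑ x, psi T M (mk c * x ^ 2) = r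
  rw [h3]
  have hk : 0 < Nat.card (P M v).ker := Nat.card_pos
  refine ⟨r / Nat.card (P M v).ker, by positivity, ?_⟩
  have hk' : (Nat.card (P M v).ker : ℂ) ≠ 0 := by exact_mod_cast hk.ne'
  push_cast
  rw [eq_div_iff hk', mul_comm]
  exact h1

end Main

end Fermat.Agent.H70Q
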