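import Fermat.Agent.H70Q2

/-!
# Gauss sums of a trace form: change of the modulus
-/

set_option autoImplicit false
set_option linter.style.haveILetI false
set_option linter.unusedSectionVars false

namespace Fermat.Agent.H70Q

open Complex Real Filter Topology Finset

section Map

variable {R : Type*} [CommRing R]

/-- multiplication by `r` from `R / I` to `R / J` -/
noncomputable def mulMap (I J : Ideal R) (r : R) (h : ∀ x ∈ I, r * x ∈ J) : R ⧸ I →+ R ⧸ J where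
  toFun x := Ideal.Quotient.mk J (r * x.out)
  map_zero' := by
    rw [Ideal.Quotient.eq_zero_iff_mem]
    refine h _ ?_
    rw [← Ideal.Quotient.eq_zero_iff_mem, Ideal.Quotient.mk_out]
  map_add' x y := by
    rw [← map_add, Ideal.Quotient.eq, ← mul_add, ← mul_sub]
    refine h _ ?_
    rw [← Ideal.Quotient.eq_zero_iff_mem]
    simp [Ideal.Quotient.mk_out]

lemma mulMap_mk (I J : Ideal R) (r : R) (h : ∀ x ∈ I, r * x ∈ J) (x : R) :
    mulMap I J r h (Ideal.Quotient.mk I x) = Ideal.Quotient.mk J (r * x) := by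
  change Ideal.Quotient.mk J _ = _
  rw [Ideal.Quotient.eq, ← mul_sub]
  refine h _ ?_
  rw [← Ideal.Quotient.eq_zero_iff_mem]
  simp [Ideal.Quotient.mk_out]

lemma sum_surj {G G' : Type*} [AddCommGroup G] [Fintype G] [AddCommGroup G'] [Fintype G']
    (f : G → ℂ) (φ : G' →+ G) (hφ : Function.Surjective φ) :
    ∃ k : ℕ, 0 < k ∧ ∑ x, f (φ x) = k * ∑ y, f y := by
  classical
  refine ⟨Nat.card φ.ker, Nat.card_pos, ?_⟩
  rw [sum_hom]
  congr 1
  refine Finset.sum_congr ?_ fun _ _ => rfl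
  ext x
  simp only [Finset.mem_filter, Finset.mem_univ, true_and, iff_true]
  exact hφ x

variable (T : R →+ ℤ)

/-- the Gauss sum in terms of representatives -/
lemma S_congr (M : ℕ) [NeZero M] {c c' : R} (h : ∃ y, c' = c + M * y) : S T M c' = S T M c := by
  obtain ⟨y, rfl⟩ := h
  unfold S
  congr 1
  ext x
  congr 2
  have h0 : Ideal.Quotient.mk (Ideal.span {(M : R)}) (M : R) = 0 :=
    Ideal.Quotient.eq_zero_iff_mem.mpr (Ideal.subset_span rfl)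
  rw [map_add, map_mul, h0, zero_mul, add_zero]

lemma psi_mul_nat (M t : ℕ) [NeZero M] [NeZero t] [NeZero (M * t)] (r : R) :
    psi T (M * t) (Ideal.Quotient.mk _ ((t : R) * r)) = psi T M (Ideal.Quotient.mk _ r) := by
  rw [psi_mk, psi_mk, T_mul_nat, ZMod.stdAddChar_coe, ZMod.stdAddChar_coe]
  congr 1
  have h1 : (t : ℂ) ≠ 0 := by exact_mod_cast NeZero.ne t
  have h2 : (M : ℂ) ≠ 0 := by exact_mod_cast NeZero.ne M
  push_cast
  field_simp

/-- going down from `(N t)²` to `N²` -/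
theorem S_down (N t : ℕ) [NeZero N] [NeZero t] [NeZero (N ^ 2)] [NeZero ((N * t) ^ 2)] (c : R)
    [Fintype (R ⧸ Ideal.span {((N ^ 2 : ℕ) : R)})]
    [Fintype (R ⧸ Ideal.span {(((N * t) ^ 2 : ℕ) : R)})]
    (hc : ∀ x : R, (∀ z, ((N * t : ℕ) : ℤ) ∣ T (2 * c * x * z)) → ∃ y, x = t * y) :
    ∃ k l : ℕ, 0 < k ∧ 0 < l ∧ k * S T ((N * t) ^ 2) c = l * S T (N ^ 2) c := by
  classical
  set M := (N * t) ^ 2 with hM
  let mk := Ideal.Quotient.mk (Ideal.span {((M : ℕ) : R)})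
  have hM0 : mk (M : R) = 0 := Ideal.Quotient.eq_zero_iff_mem.mpr (Ideal.subset_span rfl)
  have hNN : ((N * t : ℕ) : R) * ((N * t : ℕ) : R) = (M : R) := by
    rw [hM]
    push_cast
    ring
  have h3 : ∑ x, psi T M (mk c * x ^ 2) = ∑ x with x ∈ (AddMonoidHom.mulLeft (mk (t : R))).range,
      psi T M (mk c * x ^ 2) := by
    refine sum_support (G' := R ⧸ Ideal.span {((M : ℕ) : R)}) (fun x => psi T M (mk c * x ^ 2))
      (AddMonoidHom.mulLeft (mk ((N * t : ℕ) : R))) _ ?_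
      (fun x => (psi T M).mulShift (2 * mk c * mk ((N * t : ℕ) : R) * x)) ?_ ?_
    · intro z
      refine ⟨mk (N : R) * z, ?_⟩
      rw [AddMonoidHom.coe_mulLeft, AddMonoidHom.coe_mulLeft]
      push_cast
      rw [map_mul]
      ring
    · intro x z
      rw [AddChar.mulShift_apply, ← AddChar.map_add_eq_mul, AddMonoidHom.coe_mulLeft]
      congr 1
      have h5 : mk ((N * t : ℕ) : R) * mk ((N * t : ℕ) : R) = 0 := by
        rw [← map_mul, hNN]
        exact hM0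
      linear_combination (mk c * z ^ 2) * h5
    · intro x hx h6
      obtain ⟨x, rfl⟩ := Ideal.Quotient.mk_surjective x
      apply hx
      have h7 : ∀ z, ((N * t : ℕ) : ℤ) ∣ T (2 * c * x * z) := by
        intro z
        have h8 := DFunLike.congr_fun h6 (mk z)
        rw [AddChar.mulShift_apply, AddChar.one_apply] at h8
        have h9 : 2 * mk c * mk ((N * t : ℕ) : R) * mk x * mk z =
            mk (((N * t : ℕ) : R) * (2 * c * x * z)) := by
          simp only [map_mul, map_ofNat]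
          ring
        change psi T M (2 * mk c * mk ((N * t : ℕ) : R) * mk x * mk z) = 1 at h8
        haveI : NeZero (N * t) := ⟨mul_ne_zero (NeZero.ne _) (NeZero.ne _)⟩
        rw [h9, psi_mk, T_mul_nat] at h8
        have h10 := (ZMod.isPrimitive_stdAddChar M).zmod_char_eq_one_iff M _ |>.mp h8
        rw [ZMod.intCast_zmod_eq_zero_iff_dvd, hM] at h10
        have hN' : ((N * t : ℕ) : ℤ) ≠ 0 := by exact_mod_cast NeZero.ne (N * t)
        rw [Nat.cast_pow, sq] at h10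
        exact Int.dvd_of_mul_dvd_mul_left hN' h10
      obtain ⟨y, hy⟩ := hc x h7
      refine ⟨mk y, ?_⟩
      rw [AddMonoidHom.coe_mulLeft]
      change mk _ * mk _ = mk x
      rw [← map_mul, ← hy]
  have h4 := sum_hom (fun x => psi T M (mk c * x ^ 2)) (AddMonoidHom.mulLeft (mk (t : R)))
  rw [← h3] at h4
  have hI : ∀ x ∈ Ideal.span {((M : ℕ) : R)}, 1 * x ∈ Ideal.span {((N ^ 2 : ℕ) : R)} := by
    intro x hx
    rw [one_mul]
    refine Ideal.span_singleton_le_span_singleton.mpr ?_ hx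
    rw [hM]
    exact Nat.cast_dvd_cast (pow_dvd_pow_of_dvd (Dvd.intro _ rfl) 2)
  obtain ⟨l, hl, h5⟩ := sum_surj (fun y : R ⧸ Ideal.span {((N ^ 2 : ℕ) : R)} =>
    psi T (N ^ 2) (Ideal.Quotient.mk _ c * y ^ 2)) (mulMap _ _ 1 hI) (by
      intro y
      obtain ⟨y, rfl⟩ := Ideal.Quotient.mk_surjective y
      exact ⟨Ideal.Quotient.mk _ y, by rw [mulMap_mk, one_mul]⟩)
  refine ⟨Nat.card (AddMonoidHom.mulLeft (mk (t : R))).ker, l, Nat.card_pos, hl, ?_⟩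
  rw [S_eq, S_eq, ← h5]
  change _ * ∑ x, psi T M (mk c * x ^ 2) = _
  rw [← h4]
  refine Finset.sum_congr rfl fun x _ => ?_
  obtain ⟨x, rfl⟩ := Ideal.Quotient.mk_surjective x
  rw [mulMap_mk, AddMonoidHom.coe_mulLeft, one_mul, ← map_pow, ← map_mul]
  change psi T M (mk c * (mk t * mk x) ^ 2) = _
  rw [← map_mul, ← map_pow, ← map_mul]
  have h6 : (c * ((t : R) * x) ^ 2) = ((t ^ 2 : ℕ) : R) * (c * x ^ 2) := by
    push_cast
    ring
  haveI : NeZero (t ^ 2) := ⟨pow_ne_zero 2 (NeZero.ne t)⟩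
  haveI : NeZero (N ^ 2 * t ^ 2) := ⟨mul_ne_zero (NeZero.ne _) (NeZero.ne _)⟩
  have h7 : M = N ^ 2 * t ^ 2 := by rw [hM, mul_pow]
  rw [h6, ← map_mul (Ideal.Quotient.mk (Ideal.span {((N ^ 2 : ℕ) : R)})) c,
    ← psi_mul_nat T (N ^ 2) (t ^ 2), psi_mk, psi_mk, ZMod.stdAddChar_coe, ZMod.stdAddChar_coe, h7]

/-- positivity is inherited -/
theorem S_down_pos (N t : ℕ) [NeZero N] [NeZero t] [NeZero (N ^ 2)] [NeZero ((N * t) ^ 2)] (c : R)
    [Fintype (R ⧸ Ideal.span {((N ^ 2 : ℕ) : R)})]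
    [Fintype (R ⧸ Ideal.span {(((N * t) ^ 2 : ℕ) : R)})]
    (hc : ∀ x : R, (∀ z, ((N * t : ℕ) : ℤ) ∣ T (2 * c * x * z)) → ∃ y, x = t * y)
    (h : ∃ r : ℝ, 0 < r ∧ S T ((N * t) ^ 2) c = r) : ∃ r : ℝ, 0 < r ∧ S T (N ^ 2) c = r := by
  obtain ⟨r, hr, h⟩ := h
  obtain ⟨k, l, hk, hl, h1⟩ := S_down T N t c hc
  refine ⟨k * r / l, by positivity, ?_⟩
  have hl' : (l : ℂ) ≠ 0 := by exact_mod_cast hl.ne'
  rw [h] at h1
  push_cast
  rw [eq_div_iff hl', mul_comm]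
  exact h1.symm

/-- **Chinese remainder theorem for the Gauss sums** -/
theorem S_crt (a N : ℕ) [NeZero a] [NeZero N] [NeZero (a ^ 2)] [NeZero (N ^ 2)]
    [NeZero ((a * N) ^ 2)] (hco : a.Coprime N) (c : R)
    [Fintype (R ⧸ Ideal.span {((a ^ 2 : ℕ) : R)})] [Fintype (R ⧸ Ideal.span {((N ^ 2 : ℕ) : R)})]
    [Fintype (R ⧸ Ideal.span {(((a * N) ^ 2 : ℕ) : R)})] :
    ∃ r : ℝ, 0 < r ∧ S T ((a * N) ^ 2) c = r * (S T (a ^ 2) c * S T (N ^ 2) c) := by
  classical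
  set M := (a * N) ^ 2 with hM
  let mk := Ideal.Quotient.mk (Ideal.span {((M : ℕ) : R)})
  have h1 : ∀ x ∈ Ideal.span {((a ^ 2 : ℕ) : R)}, ((N ^ 2 : ℕ) : R) * x ∈ Ideal.span {((M : ℕ) : R)} := by
    intro x hx
    obtain ⟨y, rfl⟩ := Ideal.mem_span_singleton'.mp hx
    refine Ideal.mem_span_singleton'.mpr ⟨y, ?_⟩
    rw [hM]
    push_cast
    ring
  have h2 : ∀ x ∈ Ideal.span {((N ^ 2 : ℕ) : R)}, ((a ^ 2 : ℕ) : R) * x ∈ Ideal.span {((M : ℕ) : R)} := by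
    intro x hx
    obtain ⟨y, rfl⟩ := Ideal.mem_span_singleton'.mp hx
    refine Ideal.mem_span_singleton'.mpr ⟨y, ?_⟩
    rw [hM]
    push_cast
    ring
  let Φ : (R ⧸ Ideal.span {((a ^ 2 : ℕ) : R)}) × (R ⧸ Ideal.span {((N ^ 2 : ℕ) : R)}) →+
      R ⧸ Ideal.span {((M : ℕ) : R)} :=
    (mulMap _ _ _ h1).comp (AddMonoidHom.fst _ _) + (mulMap _ _ _ h2).comp (AddMonoidHom.snd _ _)
  have hΦ : ∀ u v : R, Φ (Ideal.Quotient.mk _ u, Ideal.Quotient.mk _ v) =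
      mk (((N ^ 2 : ℕ) : R) * u + ((a ^ 2 : ℕ) : R) * v) := by
    intro u v
    change mulMap _ _ _ h1 (Ideal.Quotient.mk _ u) + mulMap _ _ _ h2 (Ideal.Quotient.mk _ v) = _
    rw [mulMap_mk, mulMap_mk, ← map_add]
  have hco' : IsCoprime ((N ^ 2 : ℕ) : ℤ) ((a ^ 2 : ℕ) : ℤ) :=
    Nat.isCoprime_iff_coprime.mpr (hco.symm.pow 2 2)
  obtain ⟨s, t, hst⟩ := hco'
  have hst' : (s : R) * ((N ^ 2 : ℕ) : R) + (t : R) * ((a ^ 2 : ℕ) : R) = 1 := by
    exact_mod_cast congrArg (Int.cast : ℤ → R) hst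
  have hsurj : Function.Surjective Φ := by
    intro y
    obtain ⟨y, rfl⟩ := Ideal.Quotient.mk_surjective y
    refine ⟨(Ideal.Quotient.mk _ (s * y), Ideal.Quotient.mk _ (t * y)), ?_⟩
    rw [hΦ]
    change mk _ = mk _
    congr 1
    linear_combination y * hst'
  obtain ⟨k, hk, h3⟩ := sum_surj (fun x => psi T M (mk c * x ^ 2)) Φ hsurj
  haveI : NeZero (N ^ 2 * a ^ 2) := ⟨mul_ne_zero (NeZero.ne _) (NeZero.ne _)⟩
  haveI : NeZero (a ^ 2 * N ^ 2) := ⟨mul_ne_zero (NeZero.ne _) (NeZero.ne _)⟩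
  have hM1 : M = a ^ 2 * N ^ 2 := by rw [hM, mul_pow]
  have hM2 : M = N ^ 2 * a ^ 2 := by rw [hM, mul_pow, mul_comm]
  have h4 : ∀ r : R, psi T M (mk (((N ^ 2 : ℕ) : R) * r)) =
      psi T (a ^ 2) (Ideal.Quotient.mk _ r) := by
    intro r
    rw [← psi_mul_nat T (a ^ 2) (N ^ 2), psi_mk, psi_mk, ZMod.stdAddChar_coe,
      ZMod.stdAddChar_coe, hM1]
  have h5 : ∀ r : R, psi T M (mk (((a ^ 2 : ℕ) : R) * r)) =
      psi T (N ^ 2) (Ideal.Quotient.mk _ r) := by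
    intro r
    rw [← psi_mul_nat T (N ^ 2) (a ^ 2), psi_mk, psi_mk, ZMod.stdAddChar_coe,
      ZMod.stdAddChar_coe, hM2]
  have h6 : ∑ x, psi T M (mk c * (Φ x) ^ 2) =
      (∑ u : R ⧸ Ideal.span {((a ^ 2 : ℕ) : R)},
        psi T (a ^ 2) (Ideal.Quotient.mk _ c * (Ideal.Quotient.mk _ (N : R) * u) ^ 2)) *
      (∑ v : R ⧸ Ideal.span {((N ^ 2 : ℕ) : R)},
        psi T (N ^ 2) (Ideal.Quotient.mk _ c * (Ideal.Quotient.mk _ (a : R) * v) ^ 2)) := by
    rw [Fintype.sum_prod_type, Finset.sum_mul_sum]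
    refine Finset.sum_congr rfl fun u _ => Finset.sum_congr rfl fun v _ => ?_
    obtain ⟨u, rfl⟩ := Ideal.Quotient.mk_surjective u
    obtain ⟨v, rfl⟩ := Ideal.Quotient.mk_surjective v
    rw [hΦ, ← map_pow, ← map_mul]
    simp only [← map_mul, ← map_pow]
    rw [← h4, ← h5, ← AddChar.map_add_eq_mul, ← map_add]
    congr 1
    rw [Ideal.Quotient.eq, Ideal.mem_span_singleton']
    refine ⟨2 * c * u * v, ?_⟩
    rw [hM]
    push_cast
    ring
  have h7 : ∀ (m n : ℕ) [NeZero (m ^ 2)] [Fintype (R ⧸ Ideal.span {((m ^ 2 : ℕ) : R)})],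
      m.Coprime n → ∃ k : ℕ, 0 < k ∧ ∑ u : R ⧸ Ideal.span {((m ^ 2 : ℕ) : R)},
        psi T (m ^ 2) (Ideal.Quotient.mk _ c * (Ideal.Quotient.mk _ (n : R) * u) ^ 2) =
        k * S T (m ^ 2) c := by
    intro m n _ _ hmn
    rw [S_eq]
    refine sum_surj (fun x => psi T (m ^ 2) (Ideal.Quotient.mk _ c * x ^ 2))
      (AddMonoidHom.mulLeft (Ideal.Quotient.mk _ (n : R))) ?_
    have hc1 : IsCoprime (n : ℤ) ((m ^ 2 : ℕ) : ℤ) :=
      Nat.isCoprime_iff_coprime.mpr (hmn.symm.pow_right 2)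
    obtain ⟨s, t, hst⟩ := hc1
    have hst' : (s : R) * (n : R) + (t : R) * ((m ^ 2 : ℕ) : R) = 1 := by
      exact_mod_cast congrArg (Int.cast : ℤ → R) hst
    intro y
    obtain ⟨y, rfl⟩ := Ideal.Quotient.mk_surjective y
    refine ⟨Ideal.Quotient.mk _ (s * y), ?_⟩
    rw [AddMonoidHom.coe_mulLeft, ← map_mul, Ideal.Quotient.eq, Ideal.mem_span_singleton']
    refine ⟨-(t * y), ?_⟩
    linear_combination (-y) * hst'
  obtain ⟨k1, hk1, h8⟩ := h7 a N hco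
  obtain ⟨k2, hk2, h9⟩ := h7 N a hco.symm
  rw [h6, h8, h9, ← S_eq] at h3
  refine ⟨k1 * k2 / k, by positivity, ?_⟩
  have hk' : (k : ℂ) ≠ 0 := by exact_mod_cast hk.ne'
  push_cast
  field_simp
  linear_combination -h3

end Map

end Fermat.Agent.H70Q
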