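import Fermat.Agent.H70Q3

/-!
# Gauss sums over quotients of a Dedekind domain and the quadratic symbol
-/

set_option autoImplicit false
set_option linter.style.haveILetI false
set_option linter.unusedSectionVars false

namespace Fermat.Agent.H70Q

open Complex Real Filter Topology Finset UniqueFactorizationMonoid

section Field

variable {F : Type*} [Field F] [Fintype F]

lemma sum_sq_field [DecidableEq F] (hF : ringChar F ≠ 2) (f : F → ℂ) :
    ∑ x, f (x ^ 2) = ∑ a, (quadraticChar F a + 1 : ℂ) * f a := by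
  classical
  rw [← Finset.sum_fiberwise univ (fun x : F => x ^ 2) (fun x => f (x ^ 2))]
  refine Finset.sum_congr rfl fun a _ => ?_
  have h1 := quadraticChar_card_sqrts hF a
  rw [Finset.sum_congr rfl fun x hx => by rw [(Finset.mem_filter.mp hx).2], Finset.sum_const,
    nsmul_eq_mul]
  congr 1
  have h2 : (Finset.univ.filter fun x : F => x ^ 2 = a) = {x : F | x ^ 2 = a}.toFinset := by
    ext x
    simp
  rw [h2]
  exact_mod_cast congrArg (Int.cast : ℤ → ℂ) h1

/-- the quadratic symbol of a field element -/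
lemma sum_field [DecidableEq F] (hF : ringChar F ≠ 2) {ψ : AddChar F ℂ} (hψ : ψ ≠ 1) {d : F}
    (hd : d ≠ 0) : ∑ x, ψ (d * x ^ 2) = ((if IsSquare d then 1 else -1 : ℤ) : ℂ) * ∑ x, ψ (x ^ 2) := by
  classical
  have h0 : ∑ a, ψ a = 0 := AddChar.sum_eq_zero_of_ne_one hψ
  have h0' : ∑ a, ψ (d * a) = 0 := by
    rw [← h0]
    exact Equiv.sum_comp (Equiv.mulLeft₀ d hd) ψ
  have h1 : ∑ x, ψ (d * x ^ 2) = ∑ a, (quadraticChar F a : ℂ) * ψ (d * a) := by
    rw [sum_sq_field hF (fun a => ψ (d * a))]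
    simp only [add_mul, one_mul, Finset.sum_add_distrib, h0', add_zero]
  have h2 : ∑ x, ψ (x ^ 2) = ∑ a, (quadraticChar F a : ℂ) * ψ a := by
    rw [sum_sq_field hF ψ]
    simp only [add_mul, one_mul, Finset.sum_add_distrib, h0, add_zero]
  have h3 : (if IsSquare d then 1 else -1 : ℤ) = quadraticChar F d := by
    simp [quadraticChar_apply, quadraticCharFun, hd]
  have h4 : ((quadraticChar F d : ℤ) : ℂ) * (quadraticChar F d : ℤ) = 1 := by
    have := quadraticChar_sq_one hd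
    rw [sq] at this
    exact_mod_cast congrArg (Int.cast : ℤ → ℂ) this
  rw [h1, h2, h3, ← Equiv.sum_comp (Equiv.mulLeft₀ d hd) (fun a => (quadraticChar F a : ℂ) * ψ a),
    Finset.mul_sum]
  refine Finset.sum_congr rfl fun a _ => ?_
  change _ = _ * ((quadraticChar F (d * a) : ℂ) * ψ (d * a))
  rw [map_mul (quadraticChar F)]
  push_cast
  linear_combination (-(quadraticChar F a : ℂ) * ψ (d * a)) * h4

end Field

section Ded

variable {R : Type*} [CommRing R]

/-- the quadratic symbol of a residue field -/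
noncomputable def qs (d : R) (P : Ideal R) : ℤ :=
  open scoped Classical in if IsSquare (Ideal.Quotient.mk P d) then 1 else -1

/-- the Gauss sum of an additive character -/
noncomputable def G {I : Ideal R} (ψ : AddChar (R ⧸ I) ℂ) (d : R) : ℂ :=
  ∑ᶠ x : R ⧸ I, ψ (Ideal.Quotient.mk I d * x ^ 2)

/-- pull back of an additive character -/
noncomputable def pull (I J : Ideal R) (ψ : AddChar (R ⧸ J) ℂ) (r : R) (h : ∀ x ∈ I, r * x ∈ J) :
    AddChar (R ⧸ I) ℂ where
  toFun x := ψ (mulMap I J r h x)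
  map_zero_eq_one' := by rw [map_zero, AddChar.map_zero_eq_one]
  map_add_eq_mul' x y := by rw [map_add, AddChar.map_add_eq_mul]

lemma pull_mk (I J : Ideal R) (ψ : AddChar (R ⧸ J) ℂ) (r : R) (h : ∀ x ∈ I, r * x ∈ J) (x : R) :
    pull I J ψ r h (Ideal.Quotient.mk I x) = ψ (Ideal.Quotient.mk J (r * x)) := by
  change ψ (mulMap I J r h _) = _
  rw [mulMap_mk]

lemma pull_primitive (I J : Ideal R) (ψ : AddChar (R ⧸ J) ℂ) (hψ : ψ.IsPrimitive) (r : R)
    (h : ∀ x ∈ I, r * x ∈ J) (h' : ∀ x, r * x ∈ J → x ∈ I) : (pull I J ψ r h).IsPrimitive := by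
  intro a ha h1
  obtain ⟨a, rfl⟩ := Ideal.Quotient.mk_surjective a
  apply ha
  rw [Ideal.Quotient.eq_zero_iff_mem]
  apply h'
  by_contra h2
  rw [← Ideal.Quotient.eq_zero_iff_mem] at h2
  apply hψ h2
  ext y
  obtain ⟨y, rfl⟩ := Ideal.Quotient.mk_surjective y
  have h3 := DFunLike.congr_fun h1 (Ideal.Quotient.mk I y)
  rw [AddChar.mulShift_apply, ← map_mul, pull_mk] at h3
  rw [AddChar.mulShift_apply, ← map_mul, mul_assoc]
  exact h3

variable [IsDedekindDomain R]

/-- reduction modulo the square of a prime ideal -/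
lemma step_sq {P K I : Ideal R} (hP0 : P ≠ ⊥) (hK0 : K ≠ ⊥) (hI : I = P * (P * K))
    (hfin : ∀ I : Ideal R, I ≠ ⊥ → Finite (R ⧸ I))
    (ψ : AddChar (R ⧸ I) ℂ) (hψ : ψ.IsPrimitive)
    (h2 : IsUnit (2 : R ⧸ I)) :
    ∃ ψ' : AddChar (R ⧸ K) ℂ, ψ'.IsPrimitive ∧ ∃ r : ℝ, 0 < r ∧
      ∀ d : R, IsUnit (Ideal.Quotient.mk I d) → G ψ d = r * G ψ' d := by
  classical
  have hI0 : I ≠ ⊥ := by
    rw [hI]
    exact mul_ne_zero hP0 (mul_ne_zero hP0 hK0)
  haveI := hfin I hI0
  haveI := hfin K hK0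
  letI : Fintype (R ⧸ I) := Fintype.ofFinite _
  letI : Fintype (R ⧸ K) := Fintype.ofFinite _
  have hIP : I ≤ P := by
    rw [hI]
    exact Ideal.mul_le_left
  have hIJ : I ≤ P * K := by
    rw [hI]
    exact Ideal.mul_le_right
  obtain ⟨ϖ, hϖ⟩ := IsDedekindDomain.exists_sup_span_eq hIP hI0
  obtain ⟨j, hj⟩ := IsDedekindDomain.exists_sup_span_eq hIJ hI0
  have hϖP : ϖ ∈ P := by
    rw [← hϖ]
    exact Ideal.mem_sup_right (Ideal.mem_span_singleton_self ϖ)
  have hjJ : j ∈ P * K := by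
    rw [← hj]
    exact Ideal.mem_sup_right (Ideal.mem_span_singleton_self j)
  -- `x ∈ P` iff `j x ∈ I`
  have hjx : ∀ x, j * x ∈ I → x ∈ P := by
    intro x hx
    have h1 : (P * K) * Ideal.span {x} ≤ (P * K) * P := by
      rw [mul_comm (P * K) P, ← hI]
      conv_lhs => rw [← hj]
      rw [Ideal.sup_mul, sup_le_iff]
      refine ⟨Ideal.mul_le_left, ?_⟩
      rw [Ideal.span_singleton_mul_span_singleton, Ideal.span_singleton_le_iff_mem]
      exact hx
    have h3 : P * K ≠ 0 := mul_ne_zero hP0 hK0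
    have h4 : Ideal.span {x} ≤ P := by
      rw [← Ideal.dvd_iff_le] at h1 ⊢
      exact (mul_dvd_mul_iff_left h3).mp h1
    exact h4 (Ideal.mem_span_singleton_self x)
  have hrange : ∀ x ∈ P, Ideal.Quotient.mk I x ∈ (AddMonoidHom.mulLeft (Ideal.Quotient.mk I ϖ)).range := by
    intro x hx
    rw [← hϖ] at hx
    obtain ⟨y, hy, z, hz, rfl⟩ := Submodule.mem_sup.mp hx
    obtain ⟨w, rfl⟩ := Ideal.mem_span_singleton'.mp hz
    refine ⟨Ideal.Quotient.mk I w, ?_⟩
    rw [AddMonoidHom.coe_mulLeft, ← map_mul, map_add, Ideal.Quotient.eq_zero_iff_mem.mpr hy,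
      zero_add, mul_comm]
  -- the new character
  have hK1 : ∀ x ∈ K, ϖ ^ 2 * x ∈ I := by
    intro x hx
    rw [sq, mul_assoc, hI]
    exact Ideal.mul_mem_mul hϖP (Ideal.mul_mem_mul hϖP hx)
  have hK2 : ∀ x, ϖ ^ 2 * x ∈ I → x ∈ K := by
    intro x hx
    have h1 : (P * P) * Ideal.span {x} ≤ (P * P) * K := by
      have h5 : P * P ≤ I ⊔ Ideal.span {ϖ ^ 2} := by
        conv_lhs => rw [← hϖ]
        rw [Ideal.sup_mul, sup_le_iff]
        refine ⟨Ideal.mul_le_left.trans le_sup_left, ?_⟩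
        rw [Ideal.mul_sup, sup_le_iff]
        refine ⟨Ideal.mul_le_right.trans le_sup_left, ?_⟩
        rw [Ideal.span_singleton_mul_span_singleton, ← sq]
        exact le_sup_right
      refine (Ideal.mul_mono_left h5).trans ?_
      rw [mul_assoc P P K, ← hI, Ideal.sup_mul, sup_le_iff]
      refine ⟨Ideal.mul_le_left, ?_⟩
      rw [Ideal.span_singleton_mul_span_singleton, Ideal.span_singleton_le_iff_mem]
      exact hx
    have h3 : P * P ≠ 0 := mul_ne_zero hP0 hP0
    have h4 : Ideal.span {x} ≤ K := by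
      rw [← Ideal.dvd_iff_le] at h1 ⊢
      exact (mul_dvd_mul_iff_left h3).mp h1
    exact h4 (Ideal.mem_span_singleton_self x)
  refine ⟨pull K I ψ (ϖ ^ 2) hK1, pull_primitive _ _ ψ hψ _ _ hK2, ?_⟩
  have hIK : ∀ x ∈ I, 1 * x ∈ K := by
    intro x hx
    rw [one_mul]
    rw [hI] at hx
    exact (Ideal.mul_le_right.trans Ideal.mul_le_right) hx
  have hsurj : Function.Surjective (mulMap I K 1 hIK) := by
    intro y
    obtain ⟨y, rfl⟩ := Ideal.Quotient.mk_surjective y
    exact ⟨Ideal.Quotient.mk _ y, by rw [mulMap_mk, one_mul]⟩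
  set k := Nat.card (mulMap I K 1 hIK).ker with hk
  have hk0 : 0 < k := Nat.card_pos
  set l := Nat.card (AddMonoidHom.mulLeft (Ideal.Quotient.mk I ϖ)).ker with hl
  have hl0 : 0 < l := Nat.card_pos
  refine ⟨k / l, by positivity, fun d hd => ?_⟩
  have hl' : (l : ℂ) ≠ 0 := by exact_mod_cast hl0.ne'
  rw [G, G, finsum_eq_sum_of_fintype, finsum_eq_sum_of_fintype]
  have e1 := sum_hom (fun x => ψ (Ideal.Quotient.mk I d * x ^ 2))
    (AddMonoidHom.mulLeft (Ideal.Quotient.mk I ϖ))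
  have e2 := sum_hom (fun x => pull K I ψ (ϖ ^ 2) hK1 (Ideal.Quotient.mk K d * x ^ 2))
    (mulMap I K 1 hIK)
  have e3 : (Finset.univ.filter fun x => x ∈ (mulMap I K 1 hIK).range) = Finset.univ := by
    ext x
    simp only [Finset.mem_filter, Finset.mem_univ, true_and, iff_true]
    exact hsurj x
  rw [e3] at e2
  have e4 : ∀ x : R ⧸ I, ψ (Ideal.Quotient.mk I d *
      (AddMonoidHom.mulLeft (Ideal.Quotient.mk I ϖ) x) ^ 2) =
      pull K I ψ (ϖ ^ 2) hK1 (Ideal.Quotient.mk K d * (mulMap I K 1 hIK x) ^ 2) := by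
    intro x
    obtain ⟨x, rfl⟩ := Ideal.Quotient.mk_surjective x
    rw [mulMap_mk, one_mul, AddMonoidHom.coe_mulLeft]
    simp only [← map_mul, ← map_pow]
    rw [pull_mk]
    congr 2
    ring
  rw [Finset.sum_congr rfl fun x _ => e4 x, e2] at e1
  have e5 := sum_support (G' := R ⧸ I) (fun x => ψ (Ideal.Quotient.mk I d * x ^ 2))
      (AddMonoidHom.mulLeft (Ideal.Quotient.mk I j))
      (AddMonoidHom.mulLeft (Ideal.Quotient.mk I ϖ)).range
      (fun z => by
        obtain ⟨z, rfl⟩ := Ideal.Quotient.mk_surjective z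
        rw [AddMonoidHom.coe_mulLeft, ← map_mul]
        exact hrange _ (Ideal.mul_mem_right _ _ (Ideal.mul_le_left hjJ)))
      (fun x => ψ.mulShift (2 * Ideal.Quotient.mk I d * Ideal.Quotient.mk I j * x))
      (fun x z => by
        rw [AddChar.mulShift_apply, ← AddChar.map_add_eq_mul, AddMonoidHom.coe_mulLeft]
        congr 1
        have h5 : Ideal.Quotient.mk I j * Ideal.Quotient.mk I j = 0 := by
          rw [← map_mul, Ideal.Quotient.eq_zero_iff_mem]
          have : (P * K) * (P * K) ≤ I := by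
            rw [hI, mul_assoc]
            exact Ideal.mul_mono_right Ideal.mul_le_right
          exact this (Ideal.mul_mem_mul hjJ hjJ)
        linear_combination (Ideal.Quotient.mk I d * z ^ 2) * h5)
      (fun x hx => by
        obtain ⟨x, rfl⟩ := Ideal.Quotient.mk_surjective x
        apply hψ
        intro h6
        apply hx
        apply hrange
        apply hjx
        rw [← Ideal.Quotient.eq_zero_iff_mem, map_mul]
        rw [mul_assoc (2 * Ideal.Quotient.mk I d)] at h6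
        refine (IsUnit.mul_right_eq_zero ?_).mp h6
        exact IsUnit.mul h2 hd)
  rw [e5]
  push_cast
  rw [div_mul_eq_mul_div, eq_div_iff hl', mul_comm]
  exact e1.symm

/-- removing a prime ideal which occurs once -/
lemma step_one {P K I : Ideal R} [hPm : P.IsMaximal] (hP0 : P ≠ ⊥) (hK0 : K ≠ ⊥) (hI : I = P * K)
    (hPK : ¬ K ≤ P) (hfin : ∀ I : Ideal R, I ≠ ⊥ → Finite (R ⧸ I))
    (ψ : AddChar (R ⧸ I) ℂ) (hψ : ψ.IsPrimitive) (h2 : (2 : R) ∉ P) :
    ∃ ψ' : AddChar (R ⧸ K) ℂ, ψ'.IsPrimitive ∧ ∃ g : ℂ, ∀ d : R, d ∉ P →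
      G ψ d = qs d P * g * G ψ' d := by
  classical
  have hI0 : I ≠ ⊥ := by
    rw [hI]
    exact mul_ne_zero hP0 hK0
  haveI := hfin I hI0
  haveI := hfin K hK0
  haveI := hfin P hP0
  letI : Fintype (R ⧸ I) := Fintype.ofFinite _
  letI : Fintype (R ⧸ K) := Fintype.ofFinite _
  letI : Fintype (R ⧸ P) := Fintype.ofFinite _
  have hsup : P ⊔ K = ⊤ := by
    by_contra h
    have h1 : P = P ⊔ K := hPm.eq_of_le h le_sup_left
    exact hPK (h1 ▸ le_sup_right)
  obtain ⟨f, hf, e, he, hfe⟩ := Submodule.mem_sup.mp (hsup ▸ Submodule.mem_top : (1 : R) ∈ P ⊔ K)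
  have hIP : I ≤ P := by
    rw [hI]
    exact Ideal.mul_le_left
  have hIK : I ≤ K := by
    rw [hI]
    exact Ideal.mul_le_right
  have h1P : ∀ x ∈ P, e * x ∈ I := by
    intro x hx
    rw [hI, mul_comm e x]
    exact Ideal.mul_mem_mul hx he
  have h1K : ∀ x ∈ K, f * x ∈ I := by
    intro x hx
    rw [hI]
    exact Ideal.mul_mem_mul hf hx
  have h2P : ∀ x ∈ P, e ^ 2 * x ∈ I := by
    intro x hx
    rw [sq, mul_assoc]
    exact Ideal.mul_mem_left _ _ (h1P x hx)
  have h2K : ∀ x ∈ K, f ^ 2 * x ∈ I := by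
    intro x hx
    rw [sq, mul_assoc]
    exact Ideal.mul_mem_left _ _ (h1K x hx)
  have h3P : ∀ x, e ^ 2 * x ∈ I → x ∈ P := by
    intro x hx
    have h1 : x = e ^ 2 * x + f * ((1 + e) * x) := by linear_combination (-(1 + e) * x) * hfe
    rw [h1]
    exact Ideal.add_mem _ (hIP hx) (Ideal.mul_mem_right _ _ hf)
  have h3K : ∀ x, f ^ 2 * x ∈ I → x ∈ K := by
    intro x hx
    have h1 : x = f ^ 2 * x + e * ((1 + f) * x) := by linear_combination (-(1 + f) * x) * hfe
    rw [h1]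
    exact Ideal.add_mem _ (hIK hx) (Ideal.mul_mem_right _ _ he)
  let Φ : (R ⧸ P) × (R ⧸ K) →+ R ⧸ I :=
    (mulMap _ _ e h1P).comp (AddMonoidHom.fst _ _) + (mulMap _ _ f h1K).comp (AddMonoidHom.snd _ _)
  have hΦ : ∀ u v : R, Φ (Ideal.Quotient.mk _ u, Ideal.Quotient.mk _ v) =
      Ideal.Quotient.mk I (e * u + f * v) := by
    intro u v
    change mulMap _ _ e h1P (Ideal.Quotient.mk _ u) + mulMap _ _ f h1K (Ideal.Quotient.mk _ v) = _
    rw [mulMap_mk, mulMap_mk, ← map_add]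
  have hsurj : Function.Surjective Φ := by
    intro y
    obtain ⟨y, rfl⟩ := Ideal.Quotient.mk_surjective y
    refine ⟨(Ideal.Quotient.mk _ y, Ideal.Quotient.mk _ y), ?_⟩
    rw [hΦ]
    congr 1
    linear_combination y * hfe
  have hψ1 := pull_primitive P I ψ hψ (e ^ 2) h2P h3P
  have hψ2 := pull_primitive K I ψ hψ (f ^ 2) h2K h3K
  set ψ1 := pull P I ψ (e ^ 2) h2P with hψ1def
  set ψ2 := pull K I ψ (f ^ 2) h2K with hψ2def
  set k := Nat.card Φ.ker with hk
  have hk0 : 0 < k := Nat.card_pos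
  have hk' : (k : ℂ) ≠ 0 := by exact_mod_cast hk0.ne'
  refine ⟨ψ2, hψ2, (1 / k) * G ψ1 1, fun d hd => ?_⟩
  have e1 : G ψ d = (1 / k) * (G ψ1 d * G ψ2 d) := by
    have e2 := sum_hom (fun x => ψ (Ideal.Quotient.mk I d * x ^ 2)) Φ
    have e3 : (Finset.univ.filter fun x => x ∈ Φ.range) = Finset.univ := by
      ext x
      simp only [Finset.mem_filter, Finset.mem_univ, true_and, iff_true]
      exact hsurj x
    rw [e3] at e2
    rw [G, G, G, finsum_eq_sum_of_fintype, finsum_eq_sum_of_fintype, finsum_eq_sum_of_fintype,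
      Finset.sum_mul_sum, one_div, eq_inv_mul_iff_mul_eq₀ hk', ← e2, Fintype.sum_prod_type]
    refine Finset.sum_congr rfl fun u _ => Finset.sum_congr rfl fun v _ => ?_
    obtain ⟨u, rfl⟩ := Ideal.Quotient.mk_surjective u
    obtain ⟨v, rfl⟩ := Ideal.Quotient.mk_surjective v
    rw [hΦ]
    simp only [← map_mul, ← map_pow]
    rw [hψ1def, hψ2def, pull_mk, pull_mk, ← AddChar.map_add_eq_mul, ← map_add]
    congr 1
    rw [Ideal.Quotient.eq, hI]
    have h5 : f * e ∈ P * K := Ideal.mul_mem_mul hf he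
    have h6 : d * (e * u + f * v) ^ 2 - (e ^ 2 * (d * u ^ 2) + f ^ 2 * (d * v ^ 2)) =
        (2 * d * u * v) * (f * e) := by ring
    rw [h6]
    exact Ideal.mul_mem_left _ _ h5
  have e4 : G ψ1 d = qs d P * G ψ1 1 := by
    letI : Field (R ⧸ P) := Ideal.Quotient.field P
    have hF : ringChar (R ⧸ P) ≠ 2 := by
      intro h
      have h7 : ((2 : ℕ) : R ⧸ P) = 0 := by
        rw [← h]
        exact ringChar.Nat.cast_ringChar
      apply h2
      rw [← Ideal.Quotient.eq_zero_iff_mem, map_ofNat]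
      exact_mod_cast h7
    have hne : ψ1 ≠ 1 := by
      have := hψ1 (one_ne_zero (α := R ⧸ P))
      rwa [AddChar.mulShift_one] at this
    have hd' : Ideal.Quotient.mk P d ≠ 0 := by
      rwa [Ne, Ideal.Quotient.eq_zero_iff_mem]
    have h8 := sum_field hF hne hd'
    rw [G, G, finsum_eq_sum_of_fintype, finsum_eq_sum_of_fintype]
    simp only [map_one, one_mul]
    rw [qs]
    convert h8
  rw [e1, e4]
  ring

/-- the completely multiplicative quadratic symbol -/
noncomputable def jac (d : R) (I : Ideal R) : ℤ := ((normalizedFactors I).map (qs d)).prod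

lemma jac_one (d : R) : jac d 1 = 1 := by
  rw [jac, normalizedFactors_one, Multiset.map_zero, Multiset.prod_zero]

lemma jac_mul (d : R) {I J : Ideal R} (hI : I ≠ ⊥) (hJ : J ≠ ⊥) :
    jac d (I * J) = jac d I * jac d J := by
  rw [jac, jac, jac, normalizedFactors_mul hI hJ, Multiset.map_add, Multiset.prod_add]

lemma jac_prime (d : R) {P : Ideal R} [hP : P.IsPrime] (hP0 : P ≠ ⊥) : jac d P = qs d P := by
  rw [jac, normalizedFactors_irreducible (Ideal.prime_of_isPrime hP0 hP).irreducible]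
  simp

lemma qs_mul_self (d : R) (P : Ideal R) : qs d P * qs d P = 1 := by
  unfold qs
  split_ifs <;> norm_num

lemma jac_mul_self (d : R) (I : Ideal R) : jac d I * jac d I = 1 := by
  rw [jac, ← Multiset.prod_map_mul]
  refine Multiset.prod_eq_one fun x hx => ?_
  obtain ⟨P, _, rfl⟩ := Multiset.mem_map.mp hx
  exact qs_mul_self d P

lemma isUnit_mk {I : Ideal R} {x : R} (h : ∀ P : Ideal R, P.IsPrime → I ≤ P → x ∉ P) :
    IsUnit (Ideal.Quotient.mk I x) := by
  by_contra h1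
  obtain ⟨M, hM, hM'⟩ := exists_max_ideal_of_mem_nonunits h1
  haveI := hM.isPrime
  refine h (M.comap (Ideal.Quotient.mk I)) inferInstance ?_ hM'
  intro y hy
  rw [Ideal.mem_comap, Ideal.Quotient.eq_zero_iff_mem.mpr hy]
  exact M.zero_mem

/-- **The ratio of Gauss sums is the quadratic symbol** -/
theorem G_ratio (hfin : ∀ I : Ideal R, I ≠ ⊥ → Finite (R ⧸ I)) (d : R) (I : Ideal R) :
    I ≠ ⊥ → (∀ P : Ideal R, P.IsPrime → I ≤ P → (2 : R) ∉ P ∧ d ∉ P) →
    ∀ ψ : AddChar (R ⧸ I) ℂ, ψ.IsPrimitive → G ψ d = jac d I * G ψ 1 := by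
  induction I using WellFoundedGT.induction with
  | ind I ih =>
  intro hI0 hI ψ hψ
  by_cases htop : I = ⊤
  · subst htop
    haveI : Subsingleton (R ⧸ (⊤ : Ideal R)) := Ideal.Quotient.subsingleton_iff.mpr rfl
    have h1 : jac d (⊤ : Ideal R) = 1 := by
      rw [← Ideal.one_eq_top, jac_one]
    rw [h1, Int.cast_one, one_mul, G, G]
    congr 1
    ext x
    congr 1
    exact Subsingleton.elim _ _
  · obtain ⟨P, hPm, hIP⟩ := Ideal.exists_le_maximal I htop
    haveI := hPm.isPrime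
    have hP0 : P ≠ ⊥ := fun h => hI0 (le_bot_iff.mp (h ▸ hIP))
    obtain ⟨J, hJ⟩ := Ideal.dvd_iff_le.mpr hIP
    have hJ0 : J ≠ ⊥ := by
      rintro rfl
      exact hI0 (by rw [hJ, Ideal.mul_bot])
    have hne : ∀ {A B : Ideal R}, A ≠ ⊥ → A ≤ P → B ≠ ⊥ → I = A * B → I < B := by
      intro A B hA hAP hB hAB
      refine lt_of_le_of_ne (by rw [hAB]; exact Ideal.mul_le_right) ?_
      intro h
      have h1 : A * B = 1 * B := by rw [← hAB, one_mul, h]
      have h2 := mul_right_cancel₀ hB h1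
      rw [h2, Ideal.one_eq_top] at hAP
      exact hPm.ne_top (top_le_iff.mp hAP)
    by_cases hJP : J ≤ P
    · obtain ⟨K, hK⟩ := Ideal.dvd_iff_le.mpr hJP
      have hK0 : K ≠ ⊥ := by
        rintro rfl
        exact hJ0 (by rw [hK, Ideal.mul_bot])
      have hIK : I = P * (P * K) := by rw [hJ, hK]
      have h2 : IsUnit (2 : R ⧸ I) := by
        have := isUnit_mk (I := I) (x := 2) fun P hP hIP => (hI P hP hIP).1
        rwa [map_ofNat] at this
      obtain ⟨ψ', hψ', r, hr, h3⟩ := step_sq hP0 hK0 hIK hfin ψ hψ h2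
      have hIK' : I = (P * P) * K := by rw [hIK, mul_assoc]
      have hlt := hne (mul_ne_zero hP0 hP0) Ideal.mul_le_left hK0 hIK'
      have h4 := ih K hlt hK0 (fun Q hQ hKQ => hI Q hQ (hlt.le.trans hKQ)) ψ' hψ'
      rw [h3 d (isUnit_mk fun P hP hIP => (hI P hP hIP).2), h3 1 (by simp), h4, hIK,
        jac_mul d hP0 (mul_ne_zero hP0 hK0), jac_mul d hP0 hK0]
      have h7 : ((jac d P : ℤ) : ℂ) * (jac d P : ℤ) = 1 := by
        exact_mod_cast congrArg (Int.cast : ℤ → ℂ) (jac_mul_self d P)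
      push_cast
      linear_combination (-((jac d K : ℤ) : ℂ) * r * G ψ' 1) * h7
    · have h2 := (hI P inferInstance hIP)
      obtain ⟨ψ', hψ', g, h3⟩ := step_one hP0 hJ0 hJ hJP hfin ψ hψ h2.1
      have hlt := hne hP0 le_rfl hJ0 hJ
      have h4 := ih J hlt hJ0 (fun Q hQ hKQ => hI Q hQ (hlt.le.trans hKQ)) ψ' hψ'
      have h5 : (1 : R) ∉ P := fun h => hPm.ne_top ((Ideal.eq_top_iff_one P).mpr h)
      have h6 : qs (1 : R) P = 1 := by
        unfold qs
        rw [if_pos]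
        rw [map_one]
        exact IsSquare.one
      rw [h3 d h2.2, h3 1 h5, h4, hJ, jac_mul d hP0 hJ0, jac_prime d hP0, h6]
      push_cast
      ring

end Ded

end Fermat.Agent.H70Q
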