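import Fermat.Agent.H70Q4

/-!
# Gauss sums of the trace forms of a totally complex number field are positive
-/

set_option autoImplicit false
set_option linter.style.haveILetI false
set_option linter.unusedSectionVars false

namespace Fermat.Agent.H70Q

open NumberField Module Finset

section Dual

variable (L : Type*) [Field L] [NumberField L]

/-- the trace as an additive map -/
noncomputable def tr : 𝓞 L →+ ℤ := (Algebra.trace ℤ (𝓞 L)).toAddMonoidHom

lemma tr_coe (x : 𝓞 L) : ((tr L x : ℤ) : ℚ) = Algebra.trace ℚ L (algebraMap (𝓞 L) L x) :=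
  Algebra.coe_trace_int x

/-- absolute value of the discriminant -/
noncomputable def D1 : ℕ := (discr L).natAbs

lemma D1_pos : 0 < D1 L := Int.natAbs_pos.mpr (discr_ne_zero L)

lemma dual (N : ℕ) (w : 𝓞 L) (h : ∀ z, (N : ℤ) ∣ tr L (w * z)) :
    ∃ y, (D1 L : 𝓞 L) * w = N * y := by
  classical
  set b := RingOfIntegers.basis L with hb
  set M := Algebra.traceMatrix ℤ b with hM
  have hdet : M.det = discr L := rfl
  have h1 : ∀ i, (M.mulVec (fun j => b.repr w j)) i = tr L (w * b i) := by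
    intro i
    have h2 : (∑ j, b.repr w j • b j) = w := b.sum_repr w
    rw [Matrix.mulVec, dotProduct]
    conv_rhs => rw [← h2]
    rw [Finset.sum_mul, map_sum]
    refine Finset.sum_congr rfl fun j _ => ?_
    rw [smul_mul_assoc, map_zsmul, smul_eq_mul, mul_comm, hM, Algebra.traceMatrix_apply,
      Algebra.traceForm_apply, mul_comm (b i)]
    rfl
  have h2 : ∀ j, (N : ℤ) ∣ discr L * b.repr w j := by
    intro j
    have h3 : (M.adjugate.mulVec (M.mulVec (fun j => b.repr w j))) j = discr L * b.repr w j := by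
      rw [Matrix.mulVec_mulVec, Matrix.adjugate_mul, hdet, Matrix.smul_mulVec, Matrix.one_mulVec]
      rfl
    rw [← h3, Matrix.mulVec, dotProduct]
    refine Finset.dvd_sum fun i _ => ?_
    rw [h1]
    exact Dvd.dvd.mul_left (h _) _
  choose y hy using h2
  have h4 : (discr L : 𝓞 L) * w = N * ∑ j, (y j : 𝓞 L) * b j := by
    have h5 : (∑ j, b.repr w j • b j) = w := b.sum_repr w
    conv_lhs => rw [← h5]
    rw [Finset.mul_sum, Finset.mul_sum]
    refine Finset.sum_congr rfl fun j _ => ?_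
    have h6 := congrArg (Int.cast : ℤ → 𝓞 L) (hy j)
    push_cast at h6
    rw [zsmul_eq_mul]
    linear_combination b j * h6
  rcases Int.natAbs_eq (discr L) with h5 | h5
  · refine ⟨∑ j, (y j : 𝓞 L) * b j, ?_⟩
    have h6 : (D1 L : 𝓞 L) = ((discr L : ℤ) : 𝓞 L) := by
      have h7 : (D1 L : ℤ) = discr L := h5.symm
      exact_mod_cast congrArg (Int.cast : ℤ → 𝓞 L) h7
    rw [← h4, h6]
  · refine ⟨-∑ j, (y j : 𝓞 L) * b j, ?_⟩
    have h6 : (D1 L : 𝓞 L) = -((discr L : ℤ) : 𝓞 L) := by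
      have h7 : (D1 L : ℤ) = -discr L := by
        rw [D1]
        omega
      exact_mod_cast congrArg (Int.cast : ℤ → 𝓞 L) h7
    rw [mul_neg, ← h4, h6, neg_mul]

lemma exists_orth (c : 𝓞 L) (hc : c ≠ 0) : ∃ (v : Fin (finrank ℚ L) → 𝓞 L)
    (a : Fin (finrank ℚ L) → ℤ), (∀ i j, i ≠ j → tr L (c * (v i * v j)) = 0) ∧
    (∀ i, tr L (c * (v i * v i)) = a i) ∧ (∀ i, a i ≠ 0) ∧
    ∀ r : 𝓞 L, ∃ k : Fin (finrank ℚ L) → ℤ,
      (((∏ i, (a i).natAbs : ℕ)) : 𝓞 L) * r = ∑ i, (k i : 𝓞 L) * v i := by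
  classical
  let B : LinearMap.BilinForm ℚ L := (Algebra.traceForm ℚ L) ∘ₗ (LinearMap.mulLeft ℚ (algebraMap (𝓞 L) L c))
  have hB : ∀ x y, B x y = Algebra.trace ℚ L (c * x * y) := fun x y => rfl
  have hsymm : LinearMap.IsSymm B := ⟨fun x y => by
    rw [RingHom.id_apply, hB, hB]
    congr 1
    ring⟩
  obtain ⟨v, hv⟩ := LinearMap.BilinForm.exists_orthogonal_basis hsymm
  rw [LinearMap.isOrthoᵢ_def] at hv
  have hexp : ∀ (x : L) i, B x (v i) = v.repr x i * B (v i) (v i) := by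
    intro x i
    conv_lhs => rw [← v.sum_repr x]
    rw [map_sum, LinearMap.sum_apply, Finset.sum_eq_single i]
    · rw [map_smul, LinearMap.smul_apply, smul_eq_mul]
    · intro j _ hj
      rw [map_smul, LinearMap.smul_apply, hv j i hj, smul_zero]
    · intro h
      exact absurd (Finset.mem_univ i) h
  have hc' : (algebraMap (𝓞 L) L c) ≠ 0 := by
    intro h
    exact hc ((map_eq_zero_iff _ RingOfIntegers.coe_injective).mp h)
  have hne : ∀ i, B (v i) (v i) ≠ 0 := by
    intro i h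
    have h1 := hexp ((algebraMap (𝓞 L) L c) * v i)⁻¹ i
    rw [h, mul_zero, hB] at h1
    have h2 : (algebraMap (𝓞 L) L c) * ((algebraMap (𝓞 L) L c) * v i)⁻¹ * v i = 1 := by
      have := v.ne_zero i
      field_simp
    rw [h2] at h1
    have h3 : Algebra.trace ℚ L (1 : L) = finrank ℚ L := by
      have := Algebra.trace_algebraMap (S := L) (1 : ℚ)
      rw [map_one] at this
      rw [this]
      simp
    rw [h3] at h1
    have h4 : 0 < finrank ℚ L := finrank_pos
    exact h4.ne' (by exact_mod_cast h1)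
  obtain ⟨y, hy0, hy⟩ := exists_integral_multiples ℤ ℚ (Finset.univ.image v)
  have hint : ∀ i, IsIntegral ℤ (y • v i) := fun i => hy _ (Finset.mem_image_of_mem _ (mem_univ i))
  let v' : Fin (finrank ℚ L) → 𝓞 L := fun i => ⟨y • v i, hint i⟩
  have hv' : ∀ i, algebraMap (𝓞 L) L (v' i) = (y : L) * v i := by
    intro i
    change y • v i = _
    rw [zsmul_eq_mul]
  have hT : ∀ (x : 𝓞 L) i, ((tr L (c * (x * v' i)) : ℤ) : ℚ) = y * B (algebraMap (𝓞 L) L x) (v i) := by
    intro x i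
    rw [tr_coe, hB]
    have : algebraMap (𝓞 L) L (c * (x * v' i)) = (y : ℚ) • ((algebraMap (𝓞 L) L c) * x * v i) := by
      rw [Rat.smul_def, map_mul, map_mul, hv']
      push_cast
      ring
    rw [this, map_smul, smul_eq_mul]
  have hBy : ∀ (x : L) i, B ((y : L) * x) (v i) = y * B x (v i) := by
    intro x i
    have : ((y : L) * x) = (y : ℚ) • x := by
      rw [Rat.smul_def]
      push_cast
      rfl
    rw [this, map_smul, LinearMap.smul_apply, smul_eq_mul]
  have hT2 : ∀ i j, ((tr L (c * (v' i * v' j)) : ℤ) : ℚ) = y * (y * B (v i) (v j)) := by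
    intro i j
    rw [hT, hv', hBy]
  have hy0' : (y : ℚ) ≠ 0 := by exact_mod_cast hy0
  refine ⟨v', fun i => tr L (c * (v' i * v' i)), ?_, fun i => rfl, ?_, ?_⟩
  · intro i j hij
    have := hT2 i j
    rw [hv i j hij, mul_zero, mul_zero] at this
    exact_mod_cast this
  · intro i h
    have := hT2 i i
    change tr L (c * (v' i * v' i)) = 0 at h
    rw [h] at this
    have h2 := mul_ne_zero hy0' (mul_ne_zero hy0' (hne i))
    exact h2 (by rw [← this]; simp)
  · intro r
    have hq : ∀ i, ∃ q : ℤ, ((∏ i, (tr L (c * (v' i * v' i))).natAbs : ℕ) : ℤ) =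
        tr L (c * (v' i * v' i)) * q := by
      intro i
      have h1 : (tr L (c * (v' i * v' i))).natAbs ∣ ∏ i, (tr L (c * (v' i * v' i))).natAbs :=
        Finset.dvd_prod_of_mem (fun i => (tr L (c * (v' i * v' i))).natAbs) (Finset.mem_univ i)
      have h2 := Int.natCast_dvd_natCast.mpr h1
      rw [Int.natAbs_dvd] at h2
      exact h2
    choose q hq using hq
    refine ⟨fun i => q i * tr L (c * (r * v' i)), ?_⟩
    apply RingOfIntegers.coe_injective
    rw [map_mul, map_sum]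
    have h1 : algebraMap (𝓞 L) L r = ∑ i, v.repr (algebraMap (𝓞 L) L r) i • v i := (v.sum_repr _).symm
    conv_lhs => rw [h1]
    rw [Finset.mul_sum]
    refine Finset.sum_congr rfl fun i _ => ?_
    rw [map_mul, hv', map_intCast, map_natCast]
    have h3 := congrArg (Int.cast : ℤ → ℚ) (hq i)
    rw [Int.cast_mul, hT2] at h3
    have h4 := hT r i
    rw [hexp] at h4
    have h5 : (((∏ i, (tr L (c * (v' i * v' i))).natAbs : ℕ) : ℤ) : ℚ) * v.repr (algebraMap (𝓞 L) L r) i =
        ((q i * tr L (c * (r * v' i)) : ℤ) : ℚ) * y := by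
      rw [h3]
      push_cast
      rw [h4]
      ring
    have h6 := congrArg (algebraMap ℚ L) h5
    rw [map_mul, map_mul, map_intCast, map_intCast, map_intCast, Int.cast_natCast] at h6
    rw [Algebra.smul_def, ← mul_assoc, h6]
    push_cast
    ring

end Dual

section Sig

variable {L : Type*} [Field L] [NumberField L] {ι : Type*} [Fintype ι]

lemma tr_embeddings (x : 𝓞 L) : ((tr L x : ℤ) : ℂ) = ∑ σ : L →ₐ[ℚ] ℂ, σ (algebraMap (𝓞 L) L x) := by
  rw [← trace_eq_sum_embeddings ℂ (K := ℚ) (L := L), ← tr_coe]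
  simp

lemma sig_le (c : 𝓞 L) (v : ι → 𝓞 L) (a : ι → ℤ)
    (hv : ∀ i j, i ≠ j → tr L (c * (v i * v j)) = 0) (hva : ∀ i, tr L (c * (v i * v i)) = a i) :
    (univ.filter fun i => 0 < a i).card ≤ Fintype.card (InfinitePlace L) := by
  classical
  by_contra hcon
  rw [not_le] at hcon
  have hγ : ∀ w : InfinitePlace L, ∃ z : ℂ, z ^ 2 = w.embedding (algebraMap (𝓞 L) L c) := fun w =>
    IsAlgClosed.exists_pow_nat_eq _ (by norm_num)
  choose γ hγ using hγ
  let F : ({i // 0 < a i} → ℝ) →ₗ[ℝ] (InfinitePlace L → ℝ) :=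
    LinearMap.pi fun w => ∑ i, (γ w * w.embedding (algebraMap (𝓞 L) L (v i.1))).re • LinearMap.proj i
  have hF : ∀ x w, F x w = ∑ i, (γ w * w.embedding (algebraMap (𝓞 L) L (v i.1))).re * x i := by
    intro x w
    simp [F]
  have hker : LinearMap.ker F ≠ ⊥ := by
    refine LinearMap.ker_ne_bot_of_finrank_lt ?_
    rw [finrank_fintype_fun_eq_card, finrank_fintype_fun_eq_card, Fintype.card_subtype]
    exact hcon
  obtain ⟨x, hx, hx0⟩ := (Submodule.ne_bot_iff _).mp hker
  rw [LinearMap.mem_ker] at hx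
  -- the quadratic form
  have hQ : (∑ i, (x i ^ 2 * a i.1 : ℝ) : ℝ) = (∑ σ : L →ₐ[ℚ] ℂ,
      σ (algebraMap (𝓞 L) L c) * (∑ i, (x i : ℂ) * σ (algebraMap (𝓞 L) L (v i.1))) ^ 2 : ℂ) := by
    have h1 : ∀ σ : L →ₐ[ℚ] ℂ, σ (algebraMap (𝓞 L) L c) * (∑ i, (x i : ℂ) * σ (algebraMap (𝓞 L) L (v i.1))) ^ 2 =
        ∑ i, ∑ j, (x i : ℂ) * x j * σ (algebraMap (𝓞 L) L (c * (v i.1 * v j.1))) := by
      intro σ
      rw [sq, Finset.sum_mul_sum, Finset.mul_sum]
      refine Finset.sum_congr rfl fun i _ => ?_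
      rw [Finset.mul_sum]
      refine Finset.sum_congr rfl fun j _ => ?_
      rw [map_mul, map_mul, map_mul, map_mul]
      ring
    rw [Finset.sum_congr rfl fun σ _ => h1 σ, Finset.sum_comm, Complex.ofReal_sum]
    refine Finset.sum_congr rfl fun i _ => ?_
    rw [Finset.sum_comm, Finset.sum_eq_single i]
    · rw [← Finset.mul_sum, ← tr_embeddings, hva]
      push_cast
      ring
    · intro j _ hj
      rw [← Finset.mul_sum, ← tr_embeddings, hv i.1 j.1 (fun h => hj (Subtype.ext h.symm))]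
      simp
    · intro h
      exact absurd (Finset.mem_univ i) h
  have hneg : ∀ σ : L →ₐ[ℚ] ℂ, (σ (algebraMap (𝓞 L) L c) * (∑ i, (x i : ℂ) * σ (algebraMap (𝓞 L) L (v i.1))) ^ 2).re ≤ 0 := by
    intro σ
    set w := InfinitePlace.mk (σ : L →+* ℂ) with hw
    have h1 : (σ (algebraMap (𝓞 L) L c) * (∑ i, (x i : ℂ) * σ (algebraMap (𝓞 L) L (v i.1))) ^ 2).re =
        (w.embedding (algebraMap (𝓞 L) L c) * (∑ i, (x i : ℂ) * w.embedding (algebraMap (𝓞 L) L (v i.1))) ^ 2).re := by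
      rcases InfinitePlace.embedding_mk_eq (σ : L →+* ℂ) with h | h
      · rw [hw, h]
        rfl
      · rw [hw, h]
        have h2 : ∀ y : L, ComplexEmbedding.conjugate (σ : L →+* ℂ) y = starRingEnd ℂ (σ y) :=
          fun y => rfl
        simp only [h2]
        have h3 : starRingEnd ℂ (σ (algebraMap (𝓞 L) L c)) *
            (∑ i, (x i : ℂ) * starRingEnd ℂ (σ (algebraMap (𝓞 L) L (v i.1)))) ^ 2 =
            starRingEnd ℂ (σ (algebraMap (𝓞 L) L c) * (∑ i, (x i : ℂ) * σ (algebraMap (𝓞 L) L (v i.1))) ^ 2) := by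
          rw [map_mul, map_pow, map_sum]
          congr 2
          refine Finset.sum_congr rfl fun i _ => ?_
          rw [map_mul, Complex.conj_ofReal]
        rw [h3, Complex.conj_re]
    rw [h1, ← hγ w, ← mul_pow]
    have h2 : (γ w * ∑ i, (x i : ℂ) * w.embedding (algebraMap (𝓞 L) L (v i.1))).re = 0 := by
      have h3 := congrFun hx w
      rw [hF, Pi.zero_apply] at h3
      rw [Finset.mul_sum, Complex.re_sum, ← h3]
      refine Finset.sum_congr rfl fun i _ => ?_
      rw [mul_left_comm, Complex.re_ofReal_mul, mul_comm]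
    rw [sq, Complex.mul_re, h2, zero_mul, zero_sub]
    nlinarith [mul_self_nonneg ((γ w * ∑ i, (x i : ℂ) * w.embedding (algebraMap (𝓞 L) L (v i.1))).im)]
  have h5 : (∑ i, (x i ^ 2 * a i.1 : ℝ) : ℝ) ≤ 0 := by
    have h6 := congrArg Complex.re hQ
    rw [Complex.ofReal_re, Complex.re_sum] at h6
    rw [h6]
    exact Finset.sum_nonpos fun σ _ => hneg σ
  have h7 : ∃ i, x i ≠ 0 := by
    by_contra h
    push Not at h
    exact hx0 (funext h)
  obtain ⟨i, hi⟩ := h7
  have h8 : 0 < ∑ i, (x i ^ 2 * a i.1 : ℝ) := by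
    refine Finset.sum_pos' (fun j _ => ?_) ⟨i, Finset.mem_univ i, ?_⟩
    · have : (0 : ℝ) < a j.1 := by exact_mod_cast j.2
      positivity
    · have : (0 : ℝ) < a i.1 := by exact_mod_cast i.2
      positivity
  linarith

lemma sig_zero [IsTotallyComplex L] (c : 𝓞 L) (v : Fin (finrank ℚ L) → 𝓞 L)
    (a : Fin (finrank ℚ L) → ℤ)
    (hv : ∀ i j, i ≠ j → tr L (c * (v i * v j)) = 0) (hva : ∀ i, tr L (c * (v i * v i)) = a i)
    (ha : ∀ i, a i ≠ 0) :
    (univ.filter fun i => 0 < a i).card = (univ.filter fun i => a i < 0).card := by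
  classical
  have h1 := sig_le c v a hv hva
  have h2 := sig_le (-c) v (fun i => - a i) (fun i j hij => by rw [neg_mul, map_neg, hv i j hij, neg_zero])
    (fun i => by rw [neg_mul, map_neg, hva])
  have h3 : (univ.filter fun i => 0 < - a i) = univ.filter fun i => a i < 0 := by
    refine Finset.filter_congr fun i _ => ?_
    omega
  rw [h3] at h2
  have h4 : (univ.filter fun i => 0 < a i).card + (univ.filter fun i => a i < 0).card =
      finrank ℚ L := by
    have h5 := Finset.card_filter_add_card_filter_not (s := univ) (fun i => 0 < a i)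
    rw [Finset.card_univ, Fintype.card_fin] at h5
    have h7 : (univ.filter fun i => ¬ 0 < a i) = univ.filter fun i => a i < 0 := by
      refine Finset.filter_congr fun i _ => ?_
      have := ha i
      omega
    rw [h7] at h5
    exact h5
  have h6 : finrank ℚ L = 2 * Fintype.card (InfinitePlace L) := by
    rw [← InfinitePlace.sum_mult_eq]
    simp [mul_comm]
  omega

end Sig

section Pos

variable {L : Type*} [Field L] [NumberField L]

lemma finite_quot (I : Ideal (𝓞 L)) (hI : I ≠ ⊥) : Finite (𝓞 L ⧸ I) :=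
  Ideal.finiteQuotientOfFreeOfNeBot I hI

lemma span_nat_ne {n : ℕ} (hn : n ≠ 0) : Ideal.span {(n : 𝓞 L)} ≠ ⊥ := by
  rw [Ne, Ideal.span_singleton_eq_bot]
  exact_mod_cast hn

lemma exists_nat_mul (c : 𝓞 L) (hc : c ≠ 0) : ∃ (n : ℕ) (c' : 𝓞 L), n ≠ 0 ∧ c * c' = n := by
  have h1 := Ideal.absNorm_mem (Ideal.span {c})
  obtain ⟨c', hc'⟩ := Ideal.mem_span_singleton'.mp h1
  refine ⟨Ideal.absNorm (Ideal.span {c}), c', ?_, by rw [mul_comm, hc']⟩
  rw [Ne, Ideal.absNorm_eq_zero_iff, Ideal.span_singleton_eq_bot]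
  exact hc

/-- **Positivity of the Gauss sums** of the trace forms of a totally complex number field -/
theorem S_pos_nf [IsTotallyComplex L] (c : 𝓞 L) (hc : c ≠ 0) (N : ℕ) [NeZero N] [NeZero (N ^ 2)]
    (h : 2 * (D1 L : 𝓞 L) * c ∣ (N : 𝓞 L)) : ∃ r : ℝ, 0 < r ∧ S (tr L) (N ^ 2) c = r := by
  classical
  obtain ⟨v, a, hv, hva, ha, hk⟩ := exists_orth L c hc
  have hsig := sig_zero c v a hv hva ha
  obtain ⟨n, c', hn, hcc⟩ := exists_nat_mul c hc
  set D := ∏ i, (a i).natAbs with hD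
  have hD0 : D ≠ 0 := Finset.prod_ne_zero_iff.mpr fun i _ => Int.natAbs_ne_zero.mpr (ha i)
  set D' := D1 L * 2 * n with hD'
  have hD'0 : D' ≠ 0 := mul_ne_zero (mul_ne_zero (D1_pos L).ne' two_ne_zero) hn
  set E := ∏ i, (2 * a i).natAbs with hE
  have hE0 : E ≠ 0 := Finset.prod_ne_zero_iff.mpr fun i _ =>
    Int.natAbs_ne_zero.mpr (mul_ne_zero two_ne_zero (ha i))
  set t := D * D' * E with ht
  have ht0 : t ≠ 0 := mul_ne_zero (mul_ne_zero hD0 hD'0) hE0
  haveI : NeZero t := ⟨ht0⟩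
  haveI : NeZero (N * t) := ⟨mul_ne_zero (NeZero.ne _) ht0⟩
  haveI : NeZero ((N * t) ^ 2) := ⟨pow_ne_zero 2 (NeZero.ne _)⟩
  haveI := finite_quot (Ideal.span {((N ^ 2 : ℕ) : 𝓞 L)}) (span_nat_ne (NeZero.ne _))
  haveI := finite_quot (Ideal.span {(((N * t) ^ 2 : ℕ) : 𝓞 L)}) (span_nat_ne (NeZero.ne _))
  letI : Fintype (𝓞 L ⧸ Ideal.span {((N ^ 2 : ℕ) : 𝓞 L)}) := Fintype.ofFinite _
  letI : Fintype (𝓞 L ⧸ Ideal.span {(((N * t) ^ 2 : ℕ) : 𝓞 L)}) := Fintype.ofFinite _
  refine S_down_pos (tr L) N t c ?_ ?_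
  · intro x hx
    obtain ⟨y, hy⟩ := dual L (N * t) (2 * c * x) hx
    obtain ⟨u, hu⟩ := h
    refine ⟨u * y, ?_⟩
    have h1 : 2 * (D1 L : 𝓞 L) * c ≠ 0 := by
      refine mul_ne_zero (mul_ne_zero two_ne_zero ?_) hc
      exact_mod_cast (D1_pos L).ne'
    apply mul_left_cancel₀ h1
    push_cast at hy
    linear_combination hy + t * y * hu
  · refine S_pos (tr L) v c a hv hva ha hsig D D' hk ?_ (Nat.pos_of_ne_zero (NeZero.ne (N * t)))
      ?_ ?_ ?_
    · intro M x hx
      obtain ⟨y, hy⟩ := dual L M (2 * c * x) hx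
      refine ⟨c' * y, ?_⟩
      rw [hD']
      push_cast
      linear_combination c' * hy - (D1 L : 𝓞 L) * 2 * x * hcc
    · rw [ht]
      exact ⟨N * E, by ring⟩
    · intro i
      have h1 : (2 * a i).natAbs ∣ E := Finset.dvd_prod_of_mem (fun i => (2 * a i).natAbs) (Finset.mem_univ i)
      have h2 : (2 * a i).natAbs ∣ N * t := by
        rw [ht]
        exact Dvd.dvd.mul_left (Dvd.dvd.mul_left h1 _) _
      exact Int.natAbs_dvd.mp (Int.natCast_dvd_natCast.mpr h2)
    · intro n x y hn hxy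
      exact mul_left_cancel₀ (by exact_mod_cast hn) hxy

end Pos

end Fermat.Agent.H70Q
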