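import Fermat.Agent.H70Q5

/-!
# Quadratic reciprocity over totally complex number fields
-/

set_option autoImplicit false
set_option linter.style.haveILetI false
set_option linter.unusedSectionVars false

namespace Fermat.Agent.H70Q

open NumberField Module Finset

variable {L : Type*} [Field L] [NumberField L]

/-- the additive character is primitive for a modulus prime to the discriminant -/
lemma psi_primitive (M : ℕ) [NeZero M] (h : M.Coprime (D1 L)) : (psi (tr L) M).IsPrimitive := by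
  intro x hx h1
  obtain ⟨x, rfl⟩ := Ideal.Quotient.mk_surjective x
  apply hx
  have h2 : ∀ z, (M : ℤ) ∣ tr L (x * z) := by
    intro z
    have h3 := DFunLike.congr_fun h1 (Ideal.Quotient.mk _ z)
    rw [AddChar.mulShift_apply, ← map_mul, psi_mk, AddChar.one_apply] at h3
    have h4 := (ZMod.isPrimitive_stdAddChar M).zmod_char_eq_one_iff M _ |>.mp h3
    rwa [ZMod.intCast_zmod_eq_zero_iff_dvd] at h4
  obtain ⟨y, hy⟩ := dual L M x h2
  rw [Ideal.Quotient.eq_zero_iff_mem, Ideal.mem_span_singleton']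
  obtain ⟨s, t, hst⟩ := Nat.isCoprime_iff_coprime.mpr h
  have hst' : (s : 𝓞 L) * (M : 𝓞 L) + (t : 𝓞 L) * ((D1 L : ℕ) : 𝓞 L) = 1 := by
    exact_mod_cast congrArg (Int.cast : ℤ → 𝓞 L) hst
  refine ⟨s * x + t * y, ?_⟩
  linear_combination x * hst' - t * hy

/-- a rational integer in an ideal prime to `N`, prime to `N` -/
lemma exists_coprime_mem (I : Ideal (𝓞 L)) (hI : I ≠ ⊥) (N : ℕ)
    (h : IsUnit (Ideal.Quotient.mk I (N : 𝓞 L))) : ∃ a : ℕ, a ≠ 0 ∧ (a : 𝓞 L) ∈ I ∧ a.Coprime N := by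
  classical
  haveI := finite_quot I hI
  letI : Fintype (𝓞 L ⧸ I) := Fintype.ofFinite _
  refine ⟨Ideal.absNorm I, ?_, Ideal.absNorm_mem I, ?_⟩
  · rwa [Ne, Ideal.absNorm_eq_zero_iff]
  · by_contra h1
    obtain ⟨p, hp, hpa, hpN⟩ := Nat.Prime.not_coprime_iff_dvd.mp h1
    haveI : Fact p.Prime := ⟨hp⟩
    have h2 : p ∣ Fintype.card (𝓞 L ⧸ I) := by
      rw [Ideal.absNorm_apply, Submodule.cardQuot_apply, Nat.card_eq_fintype_card] at hpa
      exact hpa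
    obtain ⟨x, hx⟩ := exists_prime_addOrderOf_dvd_card p h2
    have h3 : p • x = 0 := by
      rw [← hx]
      exact addOrderOf_nsmul_eq_zero x
    obtain ⟨k, hk⟩ := hpN
    have h4 : (N : 𝓞 L ⧸ I) * x = 0 := by
      rw [← nsmul_eq_mul, hk, mul_comm, mul_smul, h3, smul_zero]
    rw [map_natCast] at h
    have h5 := (IsUnit.mul_right_eq_zero h).mp h4
    rw [h5, addOrderOf_zero] at hx
    exact hp.one_lt.ne hx

/-- **reciprocity**: the quadratic symbol of a principal ideal with a generator close to `1` -/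
theorem jac_eq_one [IsTotallyComplex L] (δ : 𝓞 L) (hδ : δ ≠ 0) (N : ℕ) (hN : N ≠ 0)
    (h1 : 2 * (D1 L : 𝓞 L) * δ ∣ (N : 𝓞 L)) (α : 𝓞 L) (hα0 : α ≠ 0)
    (hα : ((N ^ 2 : ℕ) : 𝓞 L) ∣ α - 1) : jac δ (Ideal.span {α}) = 1 := by
  classical
  obtain ⟨w, hw⟩ := hα
  have hspan : Ideal.span {α} ≠ ⊥ := by rwa [Ne, Ideal.span_singleton_eq_bot]
  have hunit : IsUnit (Ideal.Quotient.mk (Ideal.span {α}) (N : 𝓞 L)) := by
    refine IsUnit.of_mul_eq_one (Ideal.Quotient.mk _ (-(N * w))) ?_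
    rw [← map_mul, ← map_one (Ideal.Quotient.mk _), Ideal.Quotient.eq, Ideal.mem_span_singleton']
    refine ⟨-1, ?_⟩
    push_cast at hw
    linear_combination -hw
  obtain ⟨a, ha0, hamem, hacop⟩ := exists_coprime_mem (Ideal.span {α}) hspan N hunit
  obtain ⟨α', hα'⟩ := Ideal.mem_span_singleton'.mp hamem
  haveI : NeZero a := ⟨ha0⟩
  haveI : NeZero N := ⟨hN⟩
  haveI : NeZero (a ^ 2) := ⟨pow_ne_zero 2 ha0⟩
  haveI : NeZero (N ^ 2) := ⟨pow_ne_zero 2 hN⟩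
  haveI : NeZero (a * N) := ⟨mul_ne_zero ha0 hN⟩
  haveI : NeZero ((a * N) ^ 2) := ⟨pow_ne_zero 2 (NeZero.ne _)⟩
  haveI := finite_quot (Ideal.span {((a ^ 2 : ℕ) : 𝓞 L)}) (span_nat_ne (NeZero.ne _))
  haveI := finite_quot (Ideal.span {((N ^ 2 : ℕ) : 𝓞 L)}) (span_nat_ne (NeZero.ne _))
  haveI := finite_quot (Ideal.span {(((a * N) ^ 2 : ℕ) : 𝓞 L)}) (span_nat_ne (NeZero.ne _))
  letI : Fintype (𝓞 L ⧸ Ideal.span {((a ^ 2 : ℕ) : 𝓞 L)}) := Fintype.ofFinite _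
  letI : Fintype (𝓞 L ⧸ Ideal.span {((N ^ 2 : ℕ) : 𝓞 L)}) := Fintype.ofFinite _
  letI : Fintype (𝓞 L ⧸ Ideal.span {(((a * N) ^ 2 : ℕ) : 𝓞 L)}) := Fintype.ofFinite _
  have hacast : (a : 𝓞 L) ≠ 0 := by exact_mod_cast ha0
  -- positivity of the Gauss sum modulo `a²`
  have key : ∀ d : 𝓞 L, d ≠ 0 → 2 * (D1 L : 𝓞 L) * d ∣ (N : 𝓞 L) →
      ∃ r : ℝ, 0 < r ∧ S (tr L) (a ^ 2) (d * α) = r := by
    intro d hd hdN
    obtain ⟨r1, hr1, e1⟩ := S_pos_nf (d * α) (mul_ne_zero hd hα0) (a * N) (by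
      rw [← mul_assoc]
      push_cast
      rw [mul_comm (a : 𝓞 L)]
      exact mul_dvd_mul hdN ⟨α', by rw [← hα', mul_comm]⟩)
    obtain ⟨r2, hr2, e2⟩ := S_pos_nf d hd N hdN
    have e3 : S (tr L) (N ^ 2) (d * α) = S (tr L) (N ^ 2) d := by
      refine S_congr (tr L) (N ^ 2) ⟨d * w, ?_⟩
      linear_combination d * hw
    obtain ⟨r3, hr3, e4⟩ := S_crt (tr L) a N hacop (d * α)
    rw [e1, e3, e2] at e4
    refine ⟨r1 / (r3 * r2), by positivity, ?_⟩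
    have h5 : (r2 : ℂ) ≠ 0 := by exact_mod_cast hr2.ne'
    have h6 : (r3 : ℂ) ≠ 0 := by exact_mod_cast hr3.ne'
    push_cast
    rw [eq_div_iff (mul_ne_zero h6 h5), e4]
    ring
  -- reduction to `𝓞 L / β`
  set β : 𝓞 L := a * α' with hβ
  have hβα : α * β = ((a ^ 2 : ℕ) : 𝓞 L) := by
    push_cast
    rw [hβ]
    linear_combination (a : 𝓞 L) * hα'
  have hβ0 : β ≠ 0 := by
    intro h
    rw [h, mul_zero] at hβα
    exact pow_ne_zero 2 hacast (by exact_mod_cast hβα.symm)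
  have hIβ : Ideal.span {β} ≠ ⊥ := by rwa [Ne, Ideal.span_singleton_eq_bot]
  haveI := finite_quot (Ideal.span {β}) hIβ
  letI : Fintype (𝓞 L ⧸ Ideal.span {β}) := Fintype.ofFinite _
  have hp1 : ∀ x ∈ Ideal.span {β}, α * x ∈ Ideal.span {((a ^ 2 : ℕ) : 𝓞 L)} := by
    intro x hx
    obtain ⟨y, rfl⟩ := Ideal.mem_span_singleton'.mp hx
    rw [Ideal.mem_span_singleton']
    exact ⟨y, by rw [← hβα]; ring⟩
  have hp2 : ∀ x, α * x ∈ Ideal.span {((a ^ 2 : ℕ) : 𝓞 L)} → x ∈ Ideal.span {β} := by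
    intro x hx
    obtain ⟨y, hy⟩ := Ideal.mem_span_singleton'.mp hx
    rw [Ideal.mem_span_singleton']
    refine ⟨y, mul_left_cancel₀ hα0 ?_⟩
    rw [← hy, ← hβα]
    ring
  have hcop1 : (a ^ 2).Coprime (D1 L) := by
    refine Nat.Coprime.pow_left 2 ?_
    have h2 : IsCoprime ((a : ℕ) : ℤ) (N : ℤ) := Nat.isCoprime_iff_coprime.mpr hacop
    by_contra h3
    obtain ⟨p, hp, hpa, hpD⟩ := Nat.Prime.not_coprime_iff_dvd.mp h3
    haveI : Fact p.Prime := ⟨hp⟩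
    -- `p ∣ a` and `p ∣ D1 ∣ N` in `𝓞 L`
    obtain ⟨s, t, hst⟩ := h2
    have hst' : (s : 𝓞 L) * (a : 𝓞 L) + (t : 𝓞 L) * (N : 𝓞 L) = 1 := by
      exact_mod_cast congrArg (Int.cast : ℤ → 𝓞 L) hst
    have h4 : (p : 𝓞 L) ∣ 1 := by
      rw [← hst']
      refine dvd_add (Dvd.dvd.mul_left (Nat.cast_dvd_cast hpa) _) (Dvd.dvd.mul_left ?_ _)
      refine dvd_trans (Nat.cast_dvd_cast hpD) (dvd_trans ?_ h1)
      exact ⟨2 * δ, by ring⟩
    have h5 : Ideal.absNorm (Ideal.span {(p : 𝓞 L)}) = 1 := by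
      rw [Ideal.absNorm_eq_one_iff, Ideal.span_singleton_eq_top]
      exact isUnit_of_dvd_one h4
    rw [Ideal.absNorm_span_natCast] at h5
    have h6 : p = 1 := by
      by_contra h7
      have h8 : 1 < p ^ finrank ℤ (𝓞 L) := Nat.one_lt_pow (finrank_pos).ne' hp.one_lt
      omega
    exact hp.one_lt.ne' h6
  set ψ := pull (Ideal.span {β}) (Ideal.span {((a ^ 2 : ℕ) : 𝓞 L)}) (psi (tr L) (a ^ 2)) α hp1
    with hψdef
  have hψ : ψ.IsPrimitive := pull_primitive _ _ _ (psi_primitive (a ^ 2) hcop1) _ _ hp2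
  have hIK : ∀ x ∈ Ideal.span {((a ^ 2 : ℕ) : 𝓞 L)}, 1 * x ∈ Ideal.span {β} := by
    intro x hx
    obtain ⟨y, rfl⟩ := Ideal.mem_span_singleton'.mp hx
    rw [one_mul, Ideal.mem_span_singleton']
    exact ⟨y * α, by rw [← hβα]; ring⟩
  have hsurj : Function.Surjective (mulMap (Ideal.span {((a ^ 2 : ℕ) : 𝓞 L)}) (Ideal.span {β}) 1 hIK) := by
    intro y
    obtain ⟨y, rfl⟩ := Ideal.Quotient.mk_surjective y
    exact ⟨Ideal.Quotient.mk _ y, by rw [mulMap_mk, one_mul]⟩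
  have key2 : ∀ d : 𝓞 L, d ≠ 0 → 2 * (D1 L : 𝓞 L) * d ∣ (N : 𝓞 L) →
      ∃ r : ℝ, 0 < r ∧ G ψ d = r := by
    intro d hd hdN
    obtain ⟨r, hr, e1⟩ := key d hd hdN
    obtain ⟨k, hk, e2⟩ := sum_surj (fun y => ψ (Ideal.Quotient.mk _ d * y ^ 2)) _ hsurj
    refine ⟨r / k, by positivity, ?_⟩
    have hk' : (k : ℂ) ≠ 0 := by exact_mod_cast hk.ne'
    push_cast
    rw [eq_div_iff hk', G, finsum_eq_sum_of_fintype, mul_comm, ← e2, ← e1, S_eq]
    refine Finset.sum_congr rfl fun x _ => ?_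
    obtain ⟨x, rfl⟩ := Ideal.Quotient.mk_surjective x
    rw [mulMap_mk, one_mul]
    simp only [← map_mul, ← map_pow]
    rw [hψdef, pull_mk]
    congr 2
    ring
  obtain ⟨r1, hr1, e1⟩ := key2 δ hδ h1
  obtain ⟨r2, hr2, e2⟩ := key2 1 one_ne_zero (by
    rw [mul_one]
    exact dvd_trans ⟨δ, rfl⟩ h1)
  have e3 := G_ratio finite_quot δ (Ideal.span {β}) hIβ (by
    intro P hP hβP
    have h3 : β ∈ P := hβP (Ideal.mem_span_singleton_self β)
    have h4 : ((a ^ 2 : ℕ) : 𝓞 L) ∈ P := by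
      rw [← hβα]
      exact P.mul_mem_left _ h3
    have h5 : (a : 𝓞 L) ∈ P := by
      push_cast at h4
      exact hP.mem_of_pow_mem 2 h4
    have h6 : (N : 𝓞 L) ∉ P := by
      intro h7
      obtain ⟨s, t, hst⟩ := Nat.isCoprime_iff_coprime.mpr hacop
      have hst' : (s : 𝓞 L) * (a : 𝓞 L) + (t : 𝓞 L) * (N : 𝓞 L) = 1 := by
        exact_mod_cast congrArg (Int.cast : ℤ → 𝓞 L) hst
      apply hP.ne_top
      rw [Ideal.eq_top_iff_one, ← hst']
      exact P.add_mem (P.mul_mem_left _ h5) (P.mul_mem_left _ h7)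
    obtain ⟨u, hu⟩ := h1
    constructor
    · intro h7
      apply h6
      rw [hu, mul_assoc, mul_assoc]
      exact P.mul_mem_right _ h7
    · intro h7
      apply h6
      rw [hu]
      exact P.mul_mem_right _ (P.mul_mem_left _ h7)) ψ hψ
  have e4 : jac δ (Ideal.span {β}) = 1 := by
    rw [e1, e2] at e3
    have h5 := jac_mul_self δ (Ideal.span {β})
    rcases mul_self_eq_one_iff.mp h5 with h6 | h6
    · exact h6
    · exfalso
      rw [h6] at e3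
      have h7 : r1 = -r2 := by
        have h8 : (r1 : ℂ) = ((-r2 : ℝ) : ℂ) := by
          rw [e3]
          push_cast
          ring
        exact_mod_cast h8
      linarith
  have e5 : jac δ (Ideal.span {α}) * jac δ (Ideal.span {β}) = 1 := by
    rw [← jac_mul δ hspan hIβ, Ideal.span_singleton_mul_span_singleton, hβα]
    have h7 : Ideal.span {(a : 𝓞 L)} ≠ ⊥ := by rwa [Ne, Ideal.span_singleton_eq_bot]
    have h8 : Ideal.span {((a ^ 2 : ℕ) : 𝓞 L)} = Ideal.span {(a : 𝓞 L)} * Ideal.span {(a : 𝓞 L)} := by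
      rw [Ideal.span_singleton_mul_span_singleton]
      push_cast
      rw [sq]
    rw [h8, jac_mul δ h7 h7, jac_mul_self]
  rwa [e4, mul_one] at e5

end Fermat.Agent.H70Q
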