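import Fermat.Agent.H70Q6

/-!
# Quadratic reciprocity over totally complex number fields: ideal form
-/

set_option autoImplicit false
set_option linter.style.haveILetI false
set_option linter.unusedSectionVars false

namespace Fermat.Agent.H70Q

open NumberField Module Finset

variable {L : Type*} [Field L] [NumberField L]

/-- the quadratic character with values in `ℤ` -/
noncomputable def epsI (δ : 𝓞 L) (m : Ideal (𝓞 L)) : Ideal (𝓞 L) →*₀ ℤ where
  toFun I := open scoped Classical in if I ≠ ⊥ ∧ I ⊔ m = ⊤ then jac δ I else 0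
  map_zero' := by
    rw [if_neg]
    rintro ⟨h, _⟩
    exact h rfl
  map_one' := by
    rw [if_pos, jac_one]
    exact ⟨one_ne_zero, by rw [Ideal.one_eq_top, top_sup_eq]⟩
  map_mul' I J := by
    by_cases hI : I = ⊥
    · subst hI
      simp
    by_cases hJ : J = ⊥
    · subst hJ
      simp
    have hIJ : I * J ≠ ⊥ := mul_ne_zero hI hJ
    by_cases h1 : I ⊔ m = ⊤
    · by_cases h2 : J ⊔ m = ⊤
      · have h3 : I * J ⊔ m = ⊤ := by
          rw [← Ideal.isCoprime_iff_sup_eq] at h1 h2 ⊢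
          exact h1.mul_left h2
        rw [if_pos ⟨hIJ, h3⟩, if_pos ⟨hI, h1⟩, if_pos ⟨hJ, h2⟩, jac_mul δ hI hJ]
      · have h3 : ¬ (I * J ⊔ m = ⊤) := fun h => h2 (top_le_iff.mp
          (h ▸ sup_le_sup_right Ideal.mul_le_right m))
        rw [if_neg (fun h => h3 h.2), if_neg (fun h : J ≠ ⊥ ∧ J ⊔ m = ⊤ => h2 h.2), mul_zero]
    · have h3 : ¬ (I * J ⊔ m = ⊤) := fun h => h1 (top_le_iff.mp
          (h ▸ sup_le_sup_right Ideal.mul_le_left m))
      rw [if_neg (fun h => h3 h.2), if_neg (fun h : I ≠ ⊥ ∧ I ⊔ m = ⊤ => h1 h.2), zero_mul]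

lemma epsI_of_coprime (δ : 𝓞 L) (m : Ideal (𝓞 L)) {I : Ideal (𝓞 L)} (hI : I ≠ ⊥)
    (h : I ⊔ m = ⊤) : epsI δ m I = jac δ I := if_pos ⟨hI, h⟩

lemma epsI_of_not (δ : 𝓞 L) (m : Ideal (𝓞 L)) {I : Ideal (𝓞 L)}
    (h : ¬ (I ⊔ m = ⊤)) : epsI δ m I = 0 := if_neg fun h' => h h'.2

lemma jac_ne_zero (δ : 𝓞 L) (I : Ideal (𝓞 L)) : jac δ I ≠ 0 := by
  intro h
  have := jac_mul_self δ I
  rw [h] at this
  norm_num at this

/-- a natural number `n > 1` does not divide `1` -/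
lemma not_dvd_one {n : ℕ} (hn : 1 < n) : ¬ (n : 𝓞 L) ∣ 1 := by
  intro h
  have h5 : Ideal.absNorm (Ideal.span {(n : 𝓞 L)}) = 1 := by
    rw [Ideal.absNorm_eq_one_iff, Ideal.span_singleton_eq_top]
    exact isUnit_of_dvd_one h
  rw [Ideal.absNorm_span_natCast] at h5
  have h8 : 1 < n ^ finrank ℤ (𝓞 L) := Nat.one_lt_pow (finrank_pos).ne' hn
  omega

/-- **Quadratic reciprocity, ideal form** -/
theorem exists_quadChar [IsTotallyComplex L] (δ : 𝓞 L) (hδ : δ ≠ 0) :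
    ∃ m₀ : ℕ, 0 < m₀ ∧ ∀ m : Ideal (𝓞 L), m ≠ ⊥ → m ≤ Ideal.span {(m₀ : 𝓞 L)} →
      ∃ eps : Ideal (𝓞 L) →*₀ ℤ,
        (∀ P : Ideal (𝓞 L), P.IsPrime → P ≠ ⊥ → (eps P = 0 ↔ m ≤ P)) ∧
        (∀ P : Ideal (𝓞 L), P.IsPrime → P ≠ ⊥ → ¬ m ≤ P → (2 : 𝓞 L) ∉ P ∧ δ ∉ P ∧
          eps P = open scoped Classical in if IsSquare (Ideal.Quotient.mk P δ) then 1 else -1) ∧
        (∀ a : 𝓞 L, a - 1 ∈ m → eps (Ideal.span {a}) = 1) := by
  classical
  obtain ⟨n, δ', hn, hδδ'⟩ := exists_nat_mul δ hδ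
  set N := 2 * D1 L * n with hNdef
  have hN : N ≠ 0 := mul_ne_zero (mul_ne_zero two_ne_zero (D1_pos L).ne') hn
  have h1 : 2 * (D1 L : 𝓞 L) * δ ∣ (N : 𝓞 L) := by
    refine ⟨δ', ?_⟩
    rw [hNdef]
    push_cast
    linear_combination (-2 * (D1 L : 𝓞 L)) * hδδ'
  refine ⟨N ^ 2, by positivity, fun m hm0 hm => ⟨epsI δ m, ?_, ?_, ?_⟩⟩
  · intro P hP hP0
    haveI := hP.isMaximal hP0
    constructor
    · intro h
      by_contra h2
      have h3 : P ⊔ m = ⊤ := by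
        by_contra h4
        have h5 : P = P ⊔ m := Ideal.IsMaximal.eq_of_le ‹_› h4 le_sup_left
        exact h2 (h5 ▸ le_sup_right)
      rw [epsI_of_coprime δ m hP0 h3] at h
      exact jac_ne_zero δ P h
    · intro h
      apply epsI_of_not
      rw [sup_eq_left.mpr h]
      exact hP.ne_top
  · intro P hP hP0 hmP
    haveI := hP.isMaximal hP0
    have hNP : (N : 𝓞 L) ∉ P := by
      intro h
      apply hmP
      refine hm.trans ?_
      rw [Ideal.span_singleton_le_iff_mem]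
      push_cast
      rw [sq]
      exact P.mul_mem_left _ h
    obtain ⟨u, hu⟩ := h1
    refine ⟨fun h7 => hNP ?_, fun h7 => hNP ?_, ?_⟩
    · rw [hu, mul_assoc, mul_assoc]
      exact P.mul_mem_right _ h7
    · rw [hu]
      exact P.mul_mem_right _ (P.mul_mem_left _ h7)
    · have h3 : P ⊔ m = ⊤ := by
        by_contra h4
        have h5 : P = P ⊔ m := Ideal.IsMaximal.eq_of_le ‹_› h4 le_sup_left
        exact hmP (h5 ▸ le_sup_right)
      rw [epsI_of_coprime δ m hP0 h3, jac_prime δ hP0]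
      rfl
  · intro a ha
    have ha' : ((N ^ 2 : ℕ) : 𝓞 L) ∣ a - 1 := by
      obtain ⟨y, hy⟩ := Ideal.mem_span_singleton'.mp (hm ha)
      exact ⟨y, by rw [← hy, mul_comm]⟩
    have ha0 : a ≠ 0 := by
      rintro rfl
      have h2 : ((N ^ 2 : ℕ) : 𝓞 L) ∣ 1 := by
        have := (dvd_neg.mpr ha')
        rwa [neg_sub, sub_zero] at this
      have h3 : 1 < N := by
        have h4 := D1_pos L
        have h5 : 0 < n := Nat.pos_of_ne_zero hn
        have h6 : 0 < D1 L * n := Nat.mul_pos h4 h5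
        rw [hNdef, mul_assoc]
        omega
      exact not_dvd_one (Nat.one_lt_pow two_ne_zero h3) h2
    have h3 : Ideal.span {a} ⊔ m = ⊤ := by
      rw [Ideal.eq_top_iff_one]
      have : (1 : 𝓞 L) = a + -(a - 1) := by ring
      rw [this]
      exact Submodule.add_mem_sup (Ideal.mem_span_singleton_self a) (m.neg_mem ha)
    rw [epsI_of_coprime δ m (by rwa [Ne, Ideal.span_singleton_eq_bot]) h3]
    exact jac_eq_one δ hδ N hN h1 a ha0 ha'

end Fermat.Agent.H70Q
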