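import Fermat.Agent.H71Nat
import Fermat.Agent.H61Comm

/-!
# Adjointness of restriction / trace / Hecke operators for the duality pairing (helper71)
-/

set_option autoImplicit false

namespace Fermat.Agent.H71

open ModularGroup Matrix.SpecialLinearGroup CongruenceSubgroup
open scoped MatrixGroups
open Fermat.Agent.H41 (Symb inv slash dt PG G0 tr rho alW hT hd)

/-- the base point of `PG` -/
abbrev o : PG := ((1 : GL (Fin 2) ℚ) : PG)

instance finite_gamma0 (N : ℕ) [NeZero N] : Finite (SL(2, ℤ) ⧸ Gamma0 N) := by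
  have h : (Gamma0 N).index ≠ 0 := Subgroup.FiniteIndex.index_ne_zero
  rw [Subgroup.index] at h
  exact (Nat.card_ne_zero.mp h).2

lemma neg_one_mem_gamma0 (N : ℕ) : (-1 : SL(2, ℤ)) ∈ Gamma0 N := by
  rw [CongruenceSubgroup.Gamma0_mem]
  simp

section Per

variable {R' : Type*} [CommRing R'] {X : Type*} [MulAction (GL (Fin 2) ℚ) X]
  {A : Type*} [AddCommGroup A] [Module R' A] {Γ : Subgroup SL(2, ℤ)}

/-- the homomorphism of periods of an invariant symbol -/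
def perHom (Γ : Subgroup SL(2, ℤ)) (x : X) {f : Symb R' X A}
    (hf : f ∈ inv R' X A (Γ.map (mapGL ℚ))) : Additive Γ →+ A :=
  AddMonoidHom.mk' (fun γ => f.1 (mapGL ℚ (γ.toMul : SL(2, ℤ)) • x) x) (fun a b => by
    show f.1 (mapGL ℚ ((a.toMul * b.toMul : Γ) : SL(2, ℤ)) • x) x = _
    rw [Subgroup.coe_mul, map_mul]
    exact Fermat.Agent.H41.per_mul hf (Subgroup.mem_map_of_mem (mapGL ℚ) a.toMul.2) x)

lemma perHom_apply (x : X) {f : Symb R' X A} (hf : f ∈ inv R' X A (Γ.map (mapGL ℚ))) (γ : Γ) :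
    perHom Γ x hf (Additive.ofMul γ) = f.1 (mapGL ℚ (γ : SL(2, ℤ)) • x) x := rfl

end Per

section ExistsPG

variable {R' : Type*} [CommRing R'] {A : Type*} [AddCommGroup A] [Module R' A]
  {Γ : Subgroup SL(2, ℤ)}

lemma central_cases {δ : SL(2, ℤ)}
    (h : (mapGL ℚ δ : GL (Fin 2) ℚ) ∈ Subgroup.center (GL (Fin 2) ℚ)) : δ = 1 ∨ δ = -1 := by
  rw [Subgroup.mem_center_iff] at h
  have hT : T * δ = δ * T := mapGL_injective (by rw [map_mul, map_mul]; exact h (mapGL ℚ T))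
  have hS : S * δ = δ * S := mapGL_injective (by rw [map_mul, map_mul]; exact h (mapGL ℚ S))
  have e := fun i j => congrFun (congrFun (congrArg
    (fun M : SL(2, ℤ) => (M : Matrix (Fin 2) (Fin 2) ℤ)) hT) i) j
  have e' := fun i j => congrFun (congrFun (congrArg
    (fun M : SL(2, ℤ) => (M : Matrix (Fin 2) (Fin 2) ℤ)) hS) i) j
  have e00 := e 0 0
  have e01 := e 0 1
  have s00 := e' 0 0
  simp [ModularGroup.T, Matrix.mul_apply, Fin.sum_univ_two] at e00 e01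
  simp [ModularGroup.S, Matrix.mul_apply, Fin.sum_univ_two] at s00
  have hdet := Fermat.Agent.H41.sl_det δ
  have hb : δ 0 1 = 0 := by omega
  have hd : δ 1 1 = δ 0 0 := by omega
  rw [e00, hd, mul_zero, sub_zero] at hdet
  rcases mul_self_eq_one_iff.mp hdet with h1 | h1
  · left
    ext i j
    fin_cases i <;> fin_cases j <;> simp [hb, e00, h1, hd]
  · right
    ext i j
    fin_cases i <;> fin_cases j <;> simp [hb, e00, h1, hd]

lemma central_of_smul_PG {g : GL (Fin 2) ℚ} {x : PG} (h : g • x = x) :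
    g ∈ Subgroup.center (GL (Fin 2) ℚ) := by
  induction x using QuotientGroup.induction_on with
  | H r =>
    change ((g * r : GL (Fin 2) ℚ) : PG) = (r : PG) at h
    rw [QuotientGroup.eq] at h
    have h2 : (g * r)⁻¹ * r = r⁻¹ * g⁻¹ * r := by group
    rw [h2] at h
    have h3 : r * (r⁻¹ * g⁻¹ * r) * r⁻¹ ∈ Subgroup.center (GL (Fin 2) ℚ) :=
      Subgroup.Normal.conj_mem inferInstance _ h r
    have h4 : r * (r⁻¹ * g⁻¹ * r) * r⁻¹ = g⁻¹ := by group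
    rw [h4] at h3
    exact (Subgroup.inv_mem_iff _).mp h3

/-- Every homomorphism killing `±1` is the period homomorphism of a symbol on `PG`. -/
theorem exists_symb_PG (φ : Additive Γ →+ A)
    (h1 : ∀ γ : Γ, (γ : SL(2, ℤ)) = 1 ∨ (γ : SL(2, ℤ)) = -1 → φ (Additive.ofMul γ) = 0) :
    ∃ f ∈ inv R' PG A (Γ.map (mapGL ℚ)), ∀ γ : Γ,
      f.1 (mapGL ℚ (γ : SL(2, ℤ)) • o) o = φ (Additive.ofMul γ) := by
  set H := Γ.map (mapGL ℚ) with hH
  let rep : PG → PG := fun x => (Quotient.mk (MulAction.orbitRel H PG) x).out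
  have hrep : ∀ x, ∃ γ : Γ, x = mapGL ℚ (γ : SL(2, ℤ)) • rep x := by
    intro x
    have h := Quotient.mk_out (s := MulAction.orbitRel H PG) x
    have h2 : x ∈ MulAction.orbit H (rep x) := (MulAction.orbitRel H PG).symm h
    rw [MulAction.mem_orbit_iff] at h2
    obtain ⟨⟨_, ⟨γ, hγ, rfl⟩⟩, e⟩ := h2
    exact ⟨⟨γ, hγ⟩, e.symm⟩
  have hrep' : ∀ (γ : Γ) x, rep (mapGL ℚ (γ : SL(2, ℤ)) • x) = rep x := by
    intro γ x
    show (Quotient.mk (MulAction.orbitRel H PG) _).out = (Quotient.mk (MulAction.orbitRel H PG) x).out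
    congr 1
    apply Quotient.sound
    exact ⟨⟨_, Subgroup.mem_map_of_mem _ γ.2⟩, rfl⟩
  choose γ hγ using hrep
  have key : ∀ (s : Γ) x, φ (Additive.ofMul (γ (mapGL ℚ (s : SL(2, ℤ)) • x))) =
      φ (Additive.ofMul s) + φ (Additive.ofMul (γ x)) := by
    intro s x
    rw [← map_add, ← ofMul_mul]
    set y := mapGL ℚ (s : SL(2, ℤ)) • x with hy
    have e1 : mapGL ℚ ((γ y : Γ) : SL(2, ℤ)) • rep x = mapGL ℚ ((s * γ x : Γ) : SL(2, ℤ)) • rep x := by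
      have h2 := hγ y
      have e0 : rep y = rep x := hrep' s x
      rw [e0] at h2
      rw [← h2, Subgroup.coe_mul, map_mul, mul_smul, ← hγ x]
    have e2 : mapGL ℚ (((s * γ x)⁻¹ * γ y : Γ) : SL(2, ℤ)) • rep x = rep x := by
      rw [Subgroup.coe_mul, map_mul, mul_smul, e1, ← mul_smul, ← map_mul, ← Subgroup.coe_mul,
        inv_mul_cancel, Subgroup.coe_one, map_one, one_smul]
    have e3 := h1 _ (central_cases (central_of_smul_PG e2))
    rw [ofMul_mul, map_add, ofMul_inv, map_neg, neg_add_eq_zero] at e3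
    exact e3.symm
  refine ⟨⟨fun x y => φ (Additive.ofMul (γ x)) - φ (Additive.ofMul (γ y)),
    fun x y z => sub_add_sub_cancel _ _ _⟩, ?_, ?_⟩
  · rintro _ ⟨s, hs, rfl⟩
    apply Fermat.Agent.H41.Symb.ext
    intro x y
    show φ (Additive.ofMul (γ (mapGL ℚ s • x))) - φ (Additive.ofMul (γ (mapGL ℚ s • y))) =
      φ (Additive.ofMul (γ x)) - φ (Additive.ofMul (γ y))
    rw [key ⟨s, hs⟩ x, key ⟨s, hs⟩ y]; abel
  · intro s
    show φ (Additive.ofMul (γ (mapGL ℚ (s : SL(2, ℤ)) • o))) - φ (Additive.ofMul (γ o)) = _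
    rw [key s o]; abel

end ExistsPG

section Reps

/-- A system of representatives of `Γ' \ Γ`. -/
structure IsReps (Γ Γ' : Subgroup SL(2, ℤ)) {ι : Type*} (ρ : ι → SL(2, ℤ)) : Prop where
  le : Γ' ≤ Γ
  mem : ∀ i, ρ i ∈ Γ
  ex : ∀ γ ∈ Γ, ∃ i, γ * (ρ i)⁻¹ ∈ Γ'
  uniq : ∀ i j, ρ i * (ρ j)⁻¹ ∈ Γ' → i = j

variable {Γ Γ' : Subgroup SL(2, ℤ)} {ι : Type*} [Fintype ι] {ρ : ι → SL(2, ℤ)}

lemma IsReps.sum_LInv {A : Type*} [AddCommGroup A] (H : IsReps Γ Γ' ρ) {u : SL(2, ℤ) → A}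
    (hu : LInv Γ' u) : LInv Γ (fun g => ∑ i, u (ρ i * g)) := by
  intro γ hγ g
  have hex : ∀ i, ∃ j, ρ i * γ * (ρ j)⁻¹ ∈ Γ' := fun i => H.ex _ (Γ.mul_mem (H.mem i) hγ)
  choose σ hσ using hex
  have hinj : Function.Injective σ := by
    intro i j hij
    apply H.uniq
    have h1 := Γ'.mul_mem (hσ i) (Γ'.inv_mem (hσ j))
    rw [hij] at h1
    have e : ρ i * γ * (ρ (σ j))⁻¹ * (ρ j * γ * (ρ (σ j))⁻¹)⁻¹ = ρ i * (ρ j)⁻¹ := by group
    rwa [e] at h1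
  have hbij : Function.Bijective σ := Finite.injective_iff_bijective.mp hinj
  show ∑ i, u (ρ i * (γ * g)) = ∑ i, u (ρ i * g)
  rw [← (Equiv.ofBijective σ hbij).sum_comp (fun j => u (ρ j * g))]
  refine Finset.sum_congr rfl fun i _ => ?_
  rw [Equiv.ofBijective_apply]
  have e : ρ i * (γ * g) = (ρ i * γ * (ρ (σ i))⁻¹) * (ρ (σ i) * g) := by group
  rw [e, hu _ (hσ i)]

variable {R' : Type*} [CommRing R'] [IsAddTorsionFree R']
  [Finite (SL(2, ℤ) ⧸ Γ)] [Finite (SL(2, ℤ) ⧸ Γ')]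

/-- restriction of a homomorphism -/
def resHom {A : Type*} [AddCommGroup A] (hle : Γ' ≤ Γ) (φ : Additive Γ →+ A) :
    Additive Γ' →+ A :=
  AddMonoidHom.mk' (fun γ => φ (Additive.ofMul (Subgroup.inclusion hle γ.toMul))) (fun a b => by
    show φ (Additive.ofMul (Subgroup.inclusion hle (a.toMul * b.toMul))) = _
    rw [map_mul, ofMul_mul, map_add])

/-- **Trace is adjoint to restriction** (trace on symbols). -/
theorem dpair_tr_left (H : IsReps Γ Γ' ρ) {m : Symb R' (OnePoint ℚ) R'}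
    (hm : m ∈ inv R' (OnePoint ℚ) R' (Γ'.map (mapGL ℚ)))
    (hm' : (∑ i, slash (mapGL ℚ (ρ i) : GL (Fin 2) ℚ) m) ∈
      inv R' (OnePoint ℚ) R' (Γ.map (mapGL ℚ))) (φ : Additive Γ →+ R') :
    dpair R' Γ ⟨_, hm'⟩ φ = dpair R' Γ' ⟨m, hm⟩ (resHom H.le φ) := by
  obtain ⟨h, hh⟩ := exists_isPot φ
  have hh' : IsPot Γ' (resHom H.le φ) h := ⟨hh.mul_R, fun γ g => hh.left (Subgroup.inclusion H.le γ) g⟩
  rw [dpair_apply _ hh, dpair_apply _ hh']
  have hL : LInv Γ' (fun g => (h (g * S) - h g) * man m g) := by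
    intro γ hγ g
    show (h (γ * g * S) - h (γ * g)) * man m (γ * g) = (h (g * S) - h g) * man m g
    rw [mul_assoc, hh'.left ⟨γ, hγ⟩ (g * S), hh'.left ⟨γ, hγ⟩ g, man_LInv hm γ hγ]; ring
  rw [← cosum_trace H.le ρ H.mem H.ex H.uniq hL]
  refine cosum_congr fun g => ?_
  have e1 : man (∑ i, slash (mapGL ℚ (ρ i) : GL (Fin 2) ℚ) m) g = ∑ i, man m (ρ i * g) := by
    rw [man]
    have : (∑ i, slash (mapGL ℚ (ρ i) : GL (Fin 2) ℚ) m).1 (ac g c0) (ac g ci) =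
        ∑ i, (slash (mapGL ℚ (ρ i) : GL (Fin 2) ℚ) m).1 (ac g c0) (ac g ci) := by
      rw [Submodule.coe_sum, Finset.sum_apply, Finset.sum_apply]
    rw [this]
    refine Finset.sum_congr rfl fun i _ => ?_
    rw [man, ac_mul, ac_mul]; rfl
  show (h (g * S) - h g) * man (∑ i, slash (mapGL ℚ (ρ i) : GL (Fin 2) ℚ) m) g = _
  rw [e1, Finset.mul_sum]
  refine Finset.sum_congr rfl fun i _ => ?_
  rw [mul_assoc, hh.left ⟨ρ i, H.mem i⟩ (g * S), hh.left ⟨ρ i, H.mem i⟩ g]; ring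

/-- **Trace is adjoint to restriction** (trace on homomorphisms). -/
theorem dpair_tr_right (H : IsReps Γ Γ' ρ) {m : Symb R' (OnePoint ℚ) R'}
    (hm : m ∈ inv R' (OnePoint ℚ) R' (Γ.map (mapGL ℚ)))
    (hm' : m ∈ inv R' (OnePoint ℚ) R' (Γ'.map (mapGL ℚ)))
    {f : Symb R' PG R'} (hf : f ∈ inv R' PG R' (Γ'.map (mapGL ℚ)))
    (hf' : (∑ i, slash (mapGL ℚ (ρ i) : GL (Fin 2) ℚ) f) ∈ inv R' PG R' (Γ.map (mapGL ℚ))) :
    dpair R' Γ ⟨m, hm⟩ (perHom Γ o hf') = dpair R' Γ' ⟨m, hm'⟩ (perHom Γ' o hf) := by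
  obtain ⟨h, hh⟩ := exists_isPot (perHom Γ' o hf)
  -- the potential of the trace
  set F : SL(2, ℤ) → R' := fun g => f.1 (mapGL ℚ g • o) o with hF
  set Ft : SL(2, ℤ) → R' := fun g =>
    (∑ i, slash (mapGL ℚ (ρ i) : GL (Fin 2) ℚ) f).1 (mapGL ℚ g • o) o with hFt
  have hFl : ∀ (γ : Γ') g, F (γ * g) = perHom Γ' o hf (Additive.ofMul γ) + F g := by
    intro γ g
    show f.1 (mapGL ℚ ((γ : SL(2, ℤ)) * g) • o) o = f.1 (mapGL ℚ (γ : SL(2, ℤ)) • o) o + f.1 (mapGL ℚ g • o) o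
    rw [map_mul]
    exact Fermat.Agent.H41.per_mul hf (Subgroup.mem_map_of_mem (mapGL ℚ) γ.2) o
  have hFtl : ∀ (γ : Γ) g, Ft (γ * g) = perHom Γ o hf' (Additive.ofMul γ) + Ft g := by
    intro γ g
    show (∑ i, slash (mapGL ℚ (ρ i) : GL (Fin 2) ℚ) f).1 (mapGL ℚ ((γ : SL(2, ℤ)) * g) • o) o = _
    rw [map_mul]
    exact Fermat.Agent.H41.per_mul hf' (Subgroup.mem_map_of_mem (mapGL ℚ) γ.2) o
  have hu : LInv Γ' (fun g => h g - F g) := by
    intro γ hγ g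
    show h (γ * g) - F (γ * g) = h g - F g
    rw [hh.left ⟨γ, hγ⟩, hFl ⟨γ, hγ⟩]; ring
  set κ : R' := ∑ i, f.1 (mapGL ℚ (ρ i) • o) o with hκ
  have hsumF : ∀ g, ∑ i, F (ρ i * g) = Ft g + κ := by
    intro g
    have e1 : Ft g = ∑ i, (slash (mapGL ℚ (ρ i) : GL (Fin 2) ℚ) f).1 (mapGL ℚ g • o) o := by
      show (∑ i, slash (mapGL ℚ (ρ i) : GL (Fin 2) ℚ) f).1 (mapGL ℚ g • o) o = _
      rw [Submodule.coe_sum, Finset.sum_apply, Finset.sum_apply]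
    rw [e1, hκ, ← Finset.sum_add_distrib]
    refine Finset.sum_congr rfl fun i _ => ?_
    show f.1 (mapGL ℚ (ρ i * g) • o) o =
      f.1 (mapGL ℚ (ρ i) • mapGL ℚ g • o) (mapGL ℚ (ρ i) • o) + f.1 (mapGL ℚ (ρ i) • o) o
    rw [f.2, map_mul, mul_smul]
  have hh' : IsPot Γ (perHom Γ o hf') (fun g => ∑ i, h (ρ i * g)) := by
    refine ⟨fun g => Finset.sum_congr rfl fun i _ => by rw [← mul_assoc, hh.mul_R], fun γ g => ?_⟩
    have h1 := H.sum_LInv hu γ γ.2 g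
    simp only [Finset.sum_sub_distrib] at h1
    rw [hsumF, hsumF, hFtl] at h1
    linear_combination h1
  rw [dpair_apply _ hh, dpair_apply _ hh']
  have hL : LInv Γ' (fun g => (h (g * S) - h g) * man m g) := by
    intro γ hγ g
    show (h (γ * g * S) - h (γ * g)) * man m (γ * g) = (h (g * S) - h g) * man m g
    rw [mul_assoc, hh.left ⟨γ, hγ⟩ (g * S), hh.left ⟨γ, hγ⟩ g, man_LInv hm' γ hγ]; ring
  rw [← cosum_trace H.le ρ H.mem H.ex H.uniq hL]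
  refine cosum_congr fun g => ?_
  rw [← Finset.sum_sub_distrib, Finset.sum_mul]
  refine Finset.sum_congr rfl fun i _ => ?_
  rw [man_LInv hm (ρ i) (H.mem i), mul_assoc (ρ i) g S]

end Reps

section Gamma0

variable {N q : ℕ}

lemma mem_gamma0_iff {N : ℕ} {g : SL(2, ℤ)} : g ∈ Gamma0 N ↔ (N : ℤ) ∣ g 1 0 := by
  rw [CongruenceSubgroup.Gamma0_mem, ZMod.intCast_zmod_eq_zero_iff_dvd]

lemma red_smul_of_dvd [Fact q.Prime] {g g' : SL(2, ℤ)} (h : ((N * q : ℕ) : ℤ) ∣ (g * g'⁻¹) 1 0) :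
    Fermat.Agent.H41.red q g • (OnePoint.infty : OnePoint (ZMod q)) =
      Fermat.Agent.H41.red q g' • OnePoint.infty := by
  have e : g = (g * g'⁻¹) * g' := by group
  have hq : (q : ℤ) ∣ (g * g'⁻¹) 1 0 := by
    refine dvd_trans ?_ h
    push_cast
    exact Dvd.intro_left _ rfl
  have h1 : Fermat.Agent.H41.red q (g * g'⁻¹) • (OnePoint.infty : OnePoint (ZMod q)) =
      OnePoint.infty := by
    rw [Fermat.Agent.H41.red_smul_infty, if_pos]
    exact (ZMod.intCast_zmod_eq_zero_iff_dvd _ _).mpr hq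
  rw [e, Fermat.Agent.H41.red_mul, mul_smul, h1]

/-- helper41's representatives -/
theorem isReps_rho (hq : q.Prime) (hqN : ¬ q ∣ N) :
    IsReps (Gamma0 N) (Gamma0 (N * q)) (rho N q) := by
  haveI : Fact q.Prime := ⟨hq⟩
  refine ⟨fun g hg => ?_, fun i => ?_, fun γ hγ => ?_, fun i j hij => ?_⟩
  · rw [mem_gamma0_iff] at hg ⊢
    refine dvd_trans ?_ hg
    push_cast
    exact Dvd.intro _ rfl
  · rw [mem_gamma0_iff]; exact Fermat.Agent.H41.rho_dvd N q i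
  · refine ⟨Fermat.Agent.H41.red q γ • (OnePoint.infty : OnePoint (ZMod q)), ?_⟩
    rw [mem_gamma0_iff] at hγ ⊢
    refine Fermat.Agent.H41.dvd_of_red_eq hqN hγ (Fermat.Agent.H41.rho_dvd N q _) ?_
    rw [Fermat.Agent.H41.red_rho_smul hqN]
  · rw [mem_gamma0_iff] at hij
    have := red_smul_of_dvd hij
    rwa [Fermat.Agent.H41.red_rho_smul hqN, Fermat.Agent.H41.red_rho_smul hqN] at this

variable {R' : Type*} [CommRing R'] [IsAddTorsionFree R']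

/-- shorthand for the pairing at level `Γ₀(N)` between a symbol on cusps and a symbol on `PG` -/
noncomputable def gp (N : ℕ) [NeZero N] {m : Symb R' (OnePoint ℚ) R'} {f : Symb R' PG R'}
    (hm : m ∈ inv R' (OnePoint ℚ) R' (G0 N)) (hf : f ∈ inv R' PG R' (G0 N)) : R' :=
  dpair R' (Gamma0 N) ⟨m, hm⟩ (perHom (Gamma0 N) o hf)

lemma gp_congr {N : ℕ} [NeZero N] {m m' : Symb R' (OnePoint ℚ) R'} {f f' : Symb R' PG R'}
    (hm : m ∈ inv R' (OnePoint ℚ) R' (G0 N)) (hf : f ∈ inv R' PG R' (G0 N))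
    (hm' : m' ∈ inv R' (OnePoint ℚ) R' (G0 N)) (hf' : f' ∈ inv R' PG R' (G0 N))
    (e : m = m') (e' : f = f') : gp N hm hf = gp N hm' hf' := by
  subst e; subst e'; rfl

variable [NeZero N] [NeZero q]

lemma tr_eq_sum {X : Type*} [MulAction (GL (Fin 2) ℚ) X] {A : Type*} [AddCommGroup A]
    [Module R' A] (m : Symb R' X A) :
    tr N q m = ∑ i, slash (mapGL ℚ (rho N q i) : GL (Fin 2) ℚ) m :=
  Fermat.Agent.H41.tr_apply N q m

theorem gp_tr_left (hq : q.Prime) (hqN : ¬ q ∣ N) {m : Symb R' (OnePoint ℚ) R'}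
    {f : Symb R' PG R'} (hm : m ∈ inv R' (OnePoint ℚ) R' (G0 (N * q)))
    (hm' : tr N q m ∈ inv R' (OnePoint ℚ) R' (G0 N)) (hf : f ∈ inv R' PG R' (G0 N))
    (hf' : f ∈ inv R' PG R' (G0 (N * q))) :
    gp N hm' hf = gp (N * q) hm hf' := by
  have H := isReps_rho (N := N) hq hqN
  have hm2 : (∑ i, slash (mapGL ℚ (rho N q i) : GL (Fin 2) ℚ) m) ∈
      inv R' (OnePoint ℚ) R' ((Gamma0 N).map (mapGL ℚ)) := by
    rw [← tr_eq_sum]; exact hm'
  have h1 := dpair_tr_left H hm hm2 (perHom (Gamma0 N) o hf)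
  have e1 : gp N hm' hf = dpair R' (Gamma0 N) ⟨_, hm2⟩ (perHom (Gamma0 N) o hf) := by
    unfold gp
    congr 2
    apply Subtype.ext
    exact tr_eq_sum m
  rw [e1, h1]
  rfl

theorem gp_tr_right (hq : q.Prime) (hqN : ¬ q ∣ N) {m : Symb R' (OnePoint ℚ) R'}
    {f : Symb R' PG R'} (hm : m ∈ inv R' (OnePoint ℚ) R' (G0 N))
    (hm' : m ∈ inv R' (OnePoint ℚ) R' (G0 (N * q))) (hf : f ∈ inv R' PG R' (G0 (N * q)))
    (hf' : tr N q f ∈ inv R' PG R' (G0 N)) :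
    gp N hm hf' = gp (N * q) hm' hf := by
  have H := isReps_rho (N := N) hq hqN
  have hf2 : (∑ i, slash (mapGL ℚ (rho N q i) : GL (Fin 2) ℚ) f) ∈
      inv R' PG R' ((Gamma0 N).map (mapGL ℚ)) := by
    rw [← tr_eq_sum]; exact hf'
  have h1 := dpair_tr_right H hm hm' hf hf2
  have e1 : gp N hm hf' = dpair R' (Gamma0 N) ⟨m, hm⟩ (perHom (Gamma0 N) o hf2) := by
    unfold gp
    congr 1
    refine DFunLike.ext _ _ fun γ => ?_
    show (tr N q f).1 _ _ = _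
    rw [tr_eq_sum]; rfl
  rw [e1, h1]
  rfl

omit [NeZero q] [IsAddTorsionFree R'] [CommRing R'] [NeZero N] in
lemma dt_alW_pos (h : Nat.Coprime q N) (hq : q ≠ 0) : 0 < dt (alW h) := by
  rw [alW, Fermat.Agent.H41.dt_mul, dt_mapGL, Fermat.Agent.H41.hd_eq hq]
  simp only [dt, Fermat.Agent.H41.mk2_00, Fermat.Agent.H41.mk2_01, Fermat.Agent.H41.mk2_10,
    Fermat.Agent.H41.mk2_11]
  have : (0 : ℚ) < q := by exact_mod_cast Nat.pos_of_ne_zero hq
  linarith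

omit [NeZero q] [IsAddTorsionFree R'] [CommRing R'] [NeZero N] in
lemma alW_conj_iff (h : Nat.Coprime q N) (hq : q ≠ 0) (g : GL (Fin 2) ℚ) :
    g ∈ G0 (N * q) ↔ alW h * g * (alW h)⁻¹ ∈ G0 (N * q) := by
  constructor
  · intro hg
    obtain ⟨γ, hγ, rfl⟩ := Fermat.Agent.H41.mem_G0.mp hg
    obtain ⟨g', hg', e⟩ := Fermat.Agent.H41.alW_conj h hq hγ
    rw [e, mul_inv_cancel_right]
    exact Fermat.Agent.H41.mapGL_mem_G0 hg'
  · exact Fermat.Agent.H61.Comm.mem_G0_of_alW_conj h hq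

/-- **Atkin–Lehner invariance.** -/
theorem gp_alW (h : Nat.Coprime q N) (hq : q ≠ 0) {m : Symb R' (OnePoint ℚ) R'}
    {f : Symb R' PG R'} (hm : m ∈ inv R' (OnePoint ℚ) R' (G0 (N * q)))
    (hf : f ∈ inv R' PG R' (G0 (N * q)))
    (hm' : slash (alW h) m ∈ inv R' (OnePoint ℚ) R' (G0 (N * q)))
    (hf' : slash (alW h) f ∈ inv R' PG R' (G0 (N * q))) :
    gp (N * q) hm' hf' = gp (N * q) hm hf := by
  refine dpair_slash (neg_one_mem_gamma0 _) (neg_one_mem_gamma0 _) (dt_alW_pos h hq)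
    (alW_conj_iff h hq) hm hm' ?_
  intro s t e
  show f.1 (alW h • mapGL ℚ (s : SL(2, ℤ)) • o) (alW h • o) = f.1 (mapGL ℚ (t : SL(2, ℤ)) • o) o
  rw [Fermat.Agent.H41.per_indep hf (Subgroup.mem_map_of_mem (mapGL ℚ) t.2) o (alW h • o), e,
    mul_smul, mul_smul, inv_smul_smul]

/-- **Adjoint of the second degeneracy map.** -/
theorem gp_tr_alW_left (hq : q.Prime) (h : Nat.Coprime q N) {m : Symb R' (OnePoint ℚ) R'}
    {f : Symb R' PG R'} (hm : m ∈ inv R' (OnePoint ℚ) R' (G0 (N * q)))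
    (hm' : tr N q (slash (alW h) m) ∈ inv R' (OnePoint ℚ) R' (G0 N))
    (hf : f ∈ inv R' PG R' (G0 N)) (hf' : slash (hd q) f ∈ inv R' PG R' (G0 (N * q))) :
    gp N hm' hf = gp (N * q) hm hf' := by
  have hqN : ¬ q ∣ N := (Nat.Prime.coprime_iff_not_dvd hq).mp h
  have hfN : f ∈ inv R' PG R' (G0 (N * q)) :=
    Fermat.Agent.H41.inv_mono (Fermat.Agent.H41.G0_mono (Dvd.intro _ rfl)) hf
  have hmW := Fermat.Agent.H41.slash_alW_mem h hq.ne_zero hm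
  have hfW := Fermat.Agent.H41.slash_alW_mem h hq.ne_zero hfN
  have hmWW := Fermat.Agent.H41.slash_alW_mem h hq.ne_zero hmW
  rw [gp_tr_left hq hqN hmW hm' hf hfN, ← gp_alW h hq.ne_zero hmW hfN hmWW hfW]
  exact gp_congr _ _ _ _ (Fermat.Agent.H41.slash_alW_alW h hq.ne_zero hm)
    (Fermat.Agent.H41.slash_alW_of_mem h hf)

/-- **Hecke operators away from the level are self-adjoint.** -/
theorem gp_hT {ℓ : ℕ} (hℓ : ℓ.Prime) (hℓN : ¬ ℓ ∣ N) {m : Symb R' (OnePoint ℚ) R'}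
    {f : Symb R' PG R'} (hm : m ∈ inv R' (OnePoint ℚ) R' (G0 N))
    (hm' : hT ℓ m ∈ inv R' (OnePoint ℚ) R' (G0 N))
    (hf : f ∈ inv R' PG R' (G0 N)) (hf' : hT ℓ f ∈ inv R' PG R' (G0 N)) :
    gp N hm' hf = gp N hm hf' := by
  haveI : NeZero ℓ := ⟨hℓ.ne_zero⟩
  have hc : Nat.Coprime ℓ N := (Nat.Prime.coprime_iff_not_dvd hℓ).mpr hℓN
  have hmN : m ∈ inv R' (OnePoint ℚ) R' (G0 (N * ℓ)) :=
    Fermat.Agent.H41.inv_mono (Fermat.Agent.H41.G0_mono (Dvd.intro _ rfl)) hm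
  have hfN : f ∈ inv R' PG R' (G0 (N * ℓ)) :=
    Fermat.Agent.H41.inv_mono (Fermat.Agent.H41.G0_mono (Dvd.intro _ rfl)) hf
  have hfW := Fermat.Agent.H41.slash_alW_mem hc hℓ.ne_zero hfN
  have e1 : slash (alW hc) f = slash (hd ℓ) f := Fermat.Agent.H41.slash_alW_of_mem hc hf
  have hfd : slash (hd ℓ) f ∈ inv R' PG R' (G0 (N * ℓ)) := by rw [← e1]; exact hfW
  have e2 : tr N ℓ (slash (alW hc) m) = hT ℓ m := by
    rw [Fermat.Agent.H41.slash_alW_of_mem hc hm, Fermat.Agent.H41.tr_slash_hd hℓ hℓN hm]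
  have e3 : tr N ℓ (slash (hd ℓ) f) = hT ℓ f := Fermat.Agent.H41.tr_slash_hd hℓ hℓN hf
  have hm2 : tr N ℓ (slash (alW hc) m) ∈ inv R' (OnePoint ℚ) R' (G0 N) := by rw [e2]; exact hm'
  have hf2 : tr N ℓ (slash (hd ℓ) f) ∈ inv R' PG R' (G0 N) := by rw [e3]; exact hf'
  rw [gp_congr hm' hf hm2 hf e2.symm rfl, gp_tr_alW_left hℓ hc hmN hm2 hf hfd,
    ← gp_tr_right hℓ hℓN hm hmN hfd hf2]
  exact gp_congr _ _ _ _ rfl e3

end Gamma0

end Fermat.Agent.H71
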