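import Fermat.Agent.H71Ext

/-!
# Sums over right cosets of a finite index subgroup of `SL(2, ℤ)` (helper71)
-/

set_option autoImplicit false

namespace Fermat.Agent.H71

open Matrix ModularGroup Matrix.SpecialLinearGroup
open scoped MatrixGroups

section Cosum

variable {A : Type*} [AddCommGroup A] (Γ : Subgroup SL(2, ℤ))

/-- left `Γ`-invariant functions -/
def LInv (f : SL(2, ℤ) → A) : Prop := ∀ γ ∈ Γ, ∀ g, f (γ * g) = f g

/-- the sum over `Γ \ SL(2, ℤ)` -/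
noncomputable def cosum [Finite (SL(2, ℤ) ⧸ Γ)] (f : SL(2, ℤ) → A) : A :=
  letI := Fintype.ofFinite (SL(2, ℤ) ⧸ Γ)
  ∑ x : SL(2, ℤ) ⧸ Γ, f (x.out)⁻¹

variable {Γ}

lemma LInv.eq_of_mk {f : SL(2, ℤ) → A} (hf : LInv Γ f) {a b : SL(2, ℤ)}
    (h : ((a⁻¹ : SL(2, ℤ)) : SL(2, ℤ) ⧸ Γ) = ((b⁻¹ : SL(2, ℤ)) : SL(2, ℤ) ⧸ Γ)) : f a = f b := by
  rw [QuotientGroup.eq, inv_inv] at h
  have := hf _ h b
  rwa [inv_mul_cancel_right] at this

lemma LInv.add {f g : SL(2, ℤ) → A} (hf : LInv Γ f) (hg : LInv Γ g) :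
    LInv Γ (fun x => f x + g x) := fun γ hγ x => by
  show f _ + g _ = _
  rw [hf γ hγ, hg γ hγ]

lemma LInv.sub {f g : SL(2, ℤ) → A} (hf : LInv Γ f) (hg : LInv Γ g) :
    LInv Γ (fun x => f x - g x) := fun γ hγ x => by
  show f _ - g _ = _
  rw [hf γ hγ, hg γ hγ]

lemma LInv.mul_right {f : SL(2, ℤ) → A} (hf : LInv Γ f) (h : SL(2, ℤ)) :
    LInv Γ (fun x => f (x * h)) := fun γ hγ x => by
  show f _ = _
  rw [mul_assoc, hf γ hγ]

variable [Finite (SL(2, ℤ) ⧸ Γ)]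

/-- compute the coset sum with any parametrisation of the cosets -/
theorem cosum_eq_sum {ι : Type*} [Fintype ι] (s : ι → SL(2, ℤ))
    (hs : Function.Bijective (fun i => (((s i)⁻¹ : SL(2, ℤ)) : SL(2, ℤ) ⧸ Γ)))
    {f : SL(2, ℤ) → A} (hf : LInv Γ f) : cosum Γ f = ∑ i, f (s i) := by
  letI := Fintype.ofFinite (SL(2, ℤ) ⧸ Γ)
  unfold cosum
  rw [← (Equiv.ofBijective _ hs).sum_comp]
  refine Finset.sum_congr rfl fun i _ => ?_
  refine hf.eq_of_mk ?_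
  rw [inv_inv, Equiv.ofBijective_apply]
  exact QuotientGroup.out_eq' _

lemma cosum_mul_right {f : SL(2, ℤ) → A} (hf : LInv Γ f) (h : SL(2, ℤ)) :
    cosum Γ (fun g => f (g * h)) = cosum Γ f := by
  letI := Fintype.ofFinite (SL(2, ℤ) ⧸ Γ)
  rw [cosum_eq_sum (Γ := Γ) (f := f) (fun x : SL(2, ℤ) ⧸ Γ => (x.out)⁻¹ * h) ?_ hf]
  · rfl
  · have : (fun x : SL(2, ℤ) ⧸ Γ => ((((x.out)⁻¹ * h)⁻¹ : SL(2, ℤ)) : SL(2, ℤ) ⧸ Γ)) =
        fun x => h⁻¹ • x := by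
      funext x
      rw [_root_.mul_inv_rev, inv_inv]
      conv_rhs => rw [← QuotientGroup.out_eq' x]
      rfl
    rw [this]
    exact MulAction.bijective h⁻¹

omit [Finite (SL(2, ℤ) ⧸ Γ)] in
lemma cosum_add [Finite (SL(2, ℤ) ⧸ Γ)] (f g : SL(2, ℤ) → A) :
    cosum Γ (fun x => f x + g x) = cosum Γ f + cosum Γ g := by
  unfold cosum; rw [← Finset.sum_add_distrib]

lemma cosum_sub (f g : SL(2, ℤ) → A) :
    cosum Γ (fun x => f x - g x) = cosum Γ f - cosum Γ g := by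
  unfold cosum; rw [← Finset.sum_sub_distrib]

lemma cosum_neg (f : SL(2, ℤ) → A) :
    cosum Γ (fun x => - f x) = - cosum Γ f := by
  unfold cosum; rw [← Finset.sum_neg_distrib]

lemma cosum_zero : cosum Γ (fun _ => (0 : A)) = 0 := by
  unfold cosum; exact Finset.sum_const_zero

lemma cosum_smul {R : Type*} [Semiring R] [Module R A] (c : R) (f : SL(2, ℤ) → A) :
    cosum Γ (fun x => c • f x) = c • cosum Γ f := by
  unfold cosum; rw [← Finset.smul_sum]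

lemma cosum_mul {R : Type*} [Ring R] (c : R) (f : SL(2, ℤ) → R) :
    cosum Γ (fun x => c * f x) = c * cosum Γ f := by
  unfold cosum; rw [← Finset.mul_sum]

lemma cosum_congr {f g : SL(2, ℤ) → A} (h : ∀ x, f x = g x) : cosum Γ f = cosum Γ g := by
  rw [funext h]

/-- restriction/trace adjunction: fibring `Γ' \ G → Γ \ G`. -/
theorem cosum_trace {Γ' : Subgroup SL(2, ℤ)} [Finite (SL(2, ℤ) ⧸ Γ')] (hle : Γ' ≤ Γ)
    {ι : Type*} [Fintype ι] (ρ : ι → SL(2, ℤ)) (hρ : ∀ i, ρ i ∈ Γ)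
    (hex : ∀ γ ∈ Γ, ∃ i, γ * (ρ i)⁻¹ ∈ Γ') (huniq : ∀ i j, ρ i * (ρ j)⁻¹ ∈ Γ' → i = j)
    {f : SL(2, ℤ) → A} (hf : LInv Γ' f) :
    cosum Γ (fun g => ∑ i, f (ρ i * g)) = cosum Γ' f := by
  letI := Fintype.ofFinite (SL(2, ℤ) ⧸ Γ)
  rw [cosum_eq_sum (Γ := Γ') (f := f)
    (fun x : (SL(2, ℤ) ⧸ Γ) × ι => ρ x.2 * (x.1.out)⁻¹) ?_ hf]
  · unfold cosum
    rw [Fintype.sum_prod_type]
  · constructor
    · rintro ⟨x, i⟩ ⟨y, j⟩ h
      simp only [_root_.mul_inv_rev, inv_inv] at h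
      rw [QuotientGroup.eq] at h
      have hxy : x = y := by
        rw [← QuotientGroup.out_eq' x, ← QuotientGroup.out_eq' y, QuotientGroup.eq]
        have h2 := Γ.mul_mem (Γ.mul_mem (Γ.inv_mem (hρ i)) (hle h)) (hρ j)
        have e : (ρ i)⁻¹ * ((x.out * (ρ i)⁻¹)⁻¹ * (y.out * (ρ j)⁻¹)) * ρ j
          = x.out⁻¹ * y.out := by group
        rwa [e] at h2
      subst hxy
      have e : (x.out * (ρ i)⁻¹)⁻¹ * (x.out * (ρ j)⁻¹) = ρ i * (ρ j)⁻¹ := by group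
      rw [e] at h
      rw [huniq i j h]
    · intro y
      induction y using QuotientGroup.induction_on with
      | H g =>
        set x : SL(2, ℤ) ⧸ Γ := (g : SL(2, ℤ) ⧸ Γ) with hx
        have hγ : g⁻¹ * x.out ∈ Γ := by
          rw [← QuotientGroup.eq, QuotientGroup.out_eq']
        obtain ⟨i, hi⟩ := hex _ hγ
        refine ⟨⟨x, i⟩, ?_⟩
        simp only [_root_.mul_inv_rev, inv_inv]
        rw [QuotientGroup.eq]
        have e : (x.out * (ρ i)⁻¹)⁻¹ * g = (g⁻¹ * x.out * (ρ i)⁻¹)⁻¹ := by group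
        rw [e]
        exact Γ'.inv_mem hi

end Cosum

end Fermat.Agent.H71
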