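import Fermat.Agent.H71Perf

/-!
# Positive unipotent generators of cusp stabilisers, sums over cusps (helper71)
-/

set_option autoImplicit false

namespace Fermat.Agent.H71

open ModularGroup Matrix.SpecialLinearGroup
open scoped MatrixGroups
open Fermat.Agent.H41 (Symb inv slash dt mul_00 mul_01 mul_10 mul_11 inv_00 inv_01 inv_10 inv_11
  dt_mul dt_inv dt_ne_zero gl_ext dt_one)

/-- positive unipotent matrices -/
structure IsPos (u : GL (Fin 2) ℚ) : Prop where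
  tr : u 0 0 + u 1 1 = 2
  det : dt u = 1
  pos01 : 0 ≤ u 0 1
  neg10 : u 1 0 ≤ 0
  ne : u ≠ 1

/-- a positive semidefinite degenerate form -/
lemma form_nonneg {b s δ : ℚ} (hb : 0 ≤ b) (hs : 0 ≤ s) (hδ : δ ^ 2 = 4 * b * s) (p q : ℚ) :
    0 ≤ p ^ 2 * b - p * q * δ + q ^ 2 * s := by
  have h1 : 0 ≤ 4 * b * (p ^ 2 * b - p * q * δ + q ^ 2 * s) := by
    have : 4 * b * (p ^ 2 * b - p * q * δ + q ^ 2 * s) = (2 * p * b - q * δ) ^ 2 := by
      linear_combination (-q ^ 2) * hδ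
    rw [this]; positivity
  have h2 : 0 ≤ 4 * s * (p ^ 2 * b - p * q * δ + q ^ 2 * s) := by
    have : 4 * s * (p ^ 2 * b - p * q * δ + q ^ 2 * s) = (2 * q * s - p * δ) ^ 2 := by
      linear_combination (-p ^ 2) * hδ
    rw [this]; positivity
  rcases hb.lt_or_eq with hb' | hb'
  · exact nonneg_of_mul_nonneg_right (by linarith) (show (0 : ℚ) < 4 * b by linarith)
  · rcases hs.lt_or_eq with hs' | hs'
    · exact nonneg_of_mul_nonneg_right (by linarith) (show (0 : ℚ) < 4 * s by linarith)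
    · have : δ = 0 := by
        have : δ ^ 2 = 0 := by rw [hδ, ← hb']; ring
        exact pow_eq_zero_iff (by norm_num) |>.mp this
      rw [← hb', ← hs', this]; simp

lemma IsPos.conj {u : GL (Fin 2) ℚ} (hu : IsPos u) {w : GL (Fin 2) ℚ} (hw : 0 < dt w) :
    IsPos (w * u * w⁻¹) := by
  have hw0 := hw.ne'
  have hdet : u 0 0 * u 1 1 - u 0 1 * u 1 0 = 1 := hu.det
  have hdw : dt w = w 0 0 * w 1 1 - w 0 1 * w 1 0 := rfl
  have hδ : (u 0 0 - u 1 1) ^ 2 = 4 * u 0 1 * (- u 1 0) := by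
    have := hu.tr
    have e : u 0 0 = 2 - u 1 1 := by linarith
    rw [e] at hdet ⊢
    linear_combination (-4) * hdet
  refine ⟨?_, ?_, ?_, ?_, ?_⟩
  · rw [mul_00, mul_11, mul_00, mul_01, mul_10, mul_11, inv_00, inv_01, inv_10, inv_11]
    field_simp
    rw [hdw]
    have := hu.tr
    linear_combination (w 0 0 * w 1 1 - w 0 1 * w 1 0) * this
  · rw [dt_mul, dt_mul, dt_inv, hu.det, mul_one, mul_inv_cancel₀ hw0]
  · rw [mul_01, mul_00, mul_01, inv_01, inv_11]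
    have e : (w 0 0 * u 0 0 + w 0 1 * u 1 0) * (-w 0 1 / dt w) +
        (w 0 0 * u 0 1 + w 0 1 * u 1 1) * (w 0 0 / dt w) =
        ((w 0 0) ^ 2 * u 0 1 - w 0 0 * w 0 1 * (u 0 0 - u 1 1) + (w 0 1) ^ 2 * (- u 1 0)) / dt w := by
      field_simp; ring
    rw [e]
    exact div_nonneg (form_nonneg hu.pos01 (by linarith [hu.neg10]) hδ _ _) hw.le
  · rw [mul_10, mul_10, mul_11, inv_00, inv_10]
    have e : (w 1 0 * u 0 0 + w 1 1 * u 1 0) * (w 1 1 / dt w) +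
        (w 1 0 * u 0 1 + w 1 1 * u 1 1) * (-w 1 0 / dt w) =
        -(((w 1 0) ^ 2 * u 0 1 - w 1 0 * w 1 1 * (u 0 0 - u 1 1) + (w 1 1) ^ 2 * (- u 1 0)) / dt w) := by
      field_simp; ring
    rw [e, neg_nonpos]
    exact div_nonneg (form_nonneg hu.pos01 (by linarith [hu.neg10]) hδ _ _) hw.le
  · intro h
    apply hu.ne
    have : u = w⁻¹ * (w * u * w⁻¹) * w := by group
    rw [this, h]; group

/-- powers of a unipotent matrix -/
lemma IsPos.pow_apply {u : GL (Fin 2) ℚ} (hu : IsPos u) (k : ℕ) :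
    (u ^ k) 0 0 = 1 + k * (u 0 0 - 1) ∧ (u ^ k) 0 1 = k * u 0 1 ∧
    (u ^ k) 1 0 = k * u 1 0 ∧ (u ^ k) 1 1 = 1 + k * (u 1 1 - 1) := by
  have hdet : u 0 0 * u 1 1 - u 0 1 * u 1 0 = 1 := hu.det
  have htr := hu.tr
  induction k with
  | zero => simp
  | succ k ih =>
    obtain ⟨h00, h01, h10, h11⟩ := ih
    rw [pow_succ]
    have e : u 1 1 = 2 - u 0 0 := by linarith
    rw [e] at hdet
    have e2 : u 0 1 * u 1 0 = u 0 0 * (2 - u 0 0) - 1 := by linarith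
    refine ⟨?_, ?_, ?_, ?_⟩
    · rw [mul_00, h00, h01]; push_cast; linear_combination (k : ℚ) * e2
    · rw [mul_01, h00, h01, e]; push_cast; ring
    · rw [mul_10, h10, h11, e]; push_cast; ring
    · rw [mul_11, h10, h11, e]; push_cast; linear_combination (k : ℚ) * e2

lemma IsPos.pow_injective {u : GL (Fin 2) ℚ} (hu : IsPos u) {k l : ℕ} (h : u ^ k = u ^ l) :
    k = l := by
  obtain ⟨a00, a01, a10, a11⟩ := hu.pow_apply k
  obtain ⟨b00, b01, b10, b11⟩ := hu.pow_apply l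
  rw [h] at a00 a01 a10 a11
  by_contra hkl
  have hkl' : (k : ℚ) - l ≠ 0 := sub_ne_zero.mpr (by exact_mod_cast hkl)
  have e00 : u 0 0 = 1 := by
    have : ((k : ℚ) - l) * (u 0 0 - 1) = 0 := by rw [b00] at a00; linarith
    rcases mul_eq_zero.mp this with h | h
    · exact absurd h hkl'
    · linarith
  have e01 : u 0 1 = 0 := by
    have : ((k : ℚ) - l) * (u 0 1) = 0 := by rw [b01] at a01; linarith
    rcases mul_eq_zero.mp this with h | h
    · exact absurd h hkl'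
    · exact h
  have e10 : u 1 0 = 0 := by
    have : ((k : ℚ) - l) * (u 1 0) = 0 := by rw [b10] at a10; linarith
    rcases mul_eq_zero.mp this with h | h
    · exact absurd h hkl'
    · exact h
  have e11 : u 1 1 = 1 := by have := hu.tr; linarith
  exact hu.ne (gl_ext (by rw [e00]; simp) (by rw [e01]; simp) (by rw [e10]; simp)
    (by rw [e11]; simp))

/-- `t` is the positive generator of the stabiliser of `c` in `H` (modulo `±1`). -/
structure IsGen (H : Subgroup (GL (Fin 2) ℚ)) (c : OnePoint ℚ) (t : GL (Fin 2) ℚ) : Prop where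
  mem : t ∈ H
  fix : t • c = c
  pos : IsPos t
  gen : ∀ u ∈ H, u • c = c → IsPos u → ∃ k : ℕ, u = t ^ k

lemma IsGen.unique {H : Subgroup (GL (Fin 2) ℚ)} {c : OnePoint ℚ} {t t' : GL (Fin 2) ℚ}
    (h : IsGen H c t) (h' : IsGen H c t') : t = t' := by
  obtain ⟨k, hk⟩ := h.gen t' h'.mem h'.fix h'.pos
  obtain ⟨l, hl⟩ := h'.gen t h.mem h.fix h.pos
  have : t ^ 1 = t ^ (k * l) := by rw [pow_one, pow_mul, ← hk, ← hl]
  have hkl := h.pos.pow_injective this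
  have : k = 1 := Nat.eq_one_of_mul_eq_one_right hkl.symm
  rw [hk, this, pow_one]

lemma IsGen.conj {H₁ H₂ : Subgroup (GL (Fin 2) ℚ)} {c : OnePoint ℚ} {t w : GL (Fin 2) ℚ}
    (hw : 0 < dt w) (hH : ∀ g, g ∈ H₁ ↔ w * g * w⁻¹ ∈ H₂) (h : IsGen H₁ c t) :
    IsGen H₂ (w • c) (w * t * w⁻¹) := by
  refine ⟨(hH t).mp h.mem, ?_, h.pos.conj hw, fun u hu hfix hpos => ?_⟩
  · rw [mul_smul, mul_smul, inv_smul_smul, h.fix]
  · have hw' : 0 < dt w⁻¹ := by rw [dt_inv]; exact inv_pos.mpr hw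
    have hpos' := hpos.conj hw'
    rw [inv_inv] at hpos'
    obtain ⟨k, hk⟩ := h.gen (w⁻¹ * u * w) ((hH _).mpr (by
      have : w * (w⁻¹ * u * w) * w⁻¹ = u := by group
      rw [this]; exact hu)) (by
      rw [mul_smul, mul_smul, hfix, inv_smul_smul]) hpos'
    refine ⟨k, ?_⟩
    rw [conj_pow, ← hk]; group

lemma dt_mapGL (g : SL(2, ℤ)) : dt (mapGL ℚ g) = 1 := by
  have h := Fermat.Agent.H41.sl_det g
  show (mapGL ℚ g) 0 0 * (mapGL ℚ g) 1 1 - (mapGL ℚ g) 0 1 * (mapGL ℚ g) 1 0 = 1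
  simp only [Fermat.Agent.H41.mapGL_apply]
  exact_mod_cast h

lemma mapGL_injective : Function.Injective (mapGL ℚ : SL(2, ℤ) →* GL (Fin 2) ℚ) :=
  Matrix.SpecialLinearGroup.mapGL_injective

lemma T_zpow_apply (k : ℤ) : (mapGL ℚ (T ^ k)) 0 0 = 1 ∧ (mapGL ℚ (T ^ k)) 0 1 = k ∧
    (mapGL ℚ (T ^ k)) 1 0 = 0 ∧ (mapGL ℚ (T ^ k)) 1 1 = 1 := by
  simp only [Fermat.Agent.H41.mapGL_apply, ModularGroup.coe_T_zpow]
  simp

lemma isPos_T_pow {n : ℕ} (hn : 0 < n) : IsPos (mapGL ℚ (T ^ n)) := by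
  obtain ⟨h00, h01, h10, h11⟩ := T_zpow_apply (n : ℤ)
  rw [zpow_natCast] at h00 h01 h10 h11
  refine ⟨by rw [h00, h11]; norm_num, dt_mapGL _, by rw [h01]; positivity, by rw [h10], fun h => ?_⟩
  rw [h] at h01
  have : (n : ℤ) = 0 := by simpa using h01.symm
  omega

/-- least period of `Γ g` under right multiplication by `T` -/
structure IsPer (Γ : Subgroup SL(2, ℤ)) (g : SL(2, ℤ)) (n : ℕ) : Prop where
  pos : 0 < n
  mem : g * T ^ n * g⁻¹ ∈ Γ
  min : ∀ k : ℕ, 0 < k → g * T ^ k * g⁻¹ ∈ Γ → n ∣ k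

lemma exists_isPer (Γ : Subgroup SL(2, ℤ)) [Finite (SL(2, ℤ) ⧸ Γ)] (g : SL(2, ℤ)) :
    ∃ n, IsPer Γ g n := by
  classical
  have hex : ∃ n : ℕ, 0 < n ∧ g * T ^ n * g⁻¹ ∈ Γ := by
    have hΓ : Γ.index ≠ 0 := by
      rw [Subgroup.index]; exact Nat.card_ne_zero.mpr ⟨inferInstance, inferInstance⟩
    obtain ⟨n, hn0, -, hn⟩ := Γ.exists_pow_mem_of_index_ne_zero hΓ (g * T * g⁻¹)
    exact ⟨n, hn0, by rwa [conj_pow] at hn⟩
  refine ⟨Nat.find hex, (Nat.find_spec hex).1, (Nat.find_spec hex).2, fun k hk hkm => ?_⟩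
  set n := Nat.find hex with hn
  have hn0 : 0 < n := (Nat.find_spec hex).1
  have hnm : g * T ^ n * g⁻¹ ∈ Γ := (Nat.find_spec hex).2
  have hmod : g * T ^ (k % n) * g⁻¹ ∈ Γ := by
    have e : g * T ^ (k % n) * g⁻¹ = ((g * T ^ n * g⁻¹) ^ (k / n))⁻¹ * (g * T ^ k * g⁻¹) := by
      rw [← conj_pow, ← conj_pow, ← conj_pow, ← pow_mul]
      rw [eq_inv_mul_iff_mul_eq, ← pow_add, Nat.div_add_mod]
    rw [e]
    exact Γ.mul_mem (Γ.inv_mem (Γ.pow_mem hnm _)) hkm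
  rcases Nat.eq_zero_or_pos (k % n) with h0 | h0
  · exact Nat.dvd_of_mod_eq_zero h0
  · exact absurd ⟨h0, hmod⟩ (Nat.find_min hex (Nat.mod_lt _ hn0))

/-- The generator at the cusp `g ∞`. -/
theorem isGen_of_isPer {Γ : Subgroup SL(2, ℤ)} {g : SL(2, ℤ)} {n : ℕ} (h : IsPer Γ g n) :
    IsGen (Γ.map (mapGL ℚ)) (ac g ci) (mapGL ℚ (g * T ^ n * g⁻¹)) := by
  have hTfix : ∀ k : ℕ, mapGL ℚ (T ^ k) • ci = ci := by
    intro k
    have h10 := (T_zpow_apply (k : ℤ)).2.2.1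
    rw [zpow_natCast] at h10
    exact OnePoint.smul_infty_eq_self_iff.mpr h10
  refine ⟨Subgroup.mem_map_of_mem _ h.mem, ?_, ?_, ?_⟩
  · rw [← mul_smul, ← map_mul, inv_mul_cancel_right, map_mul, mul_smul, hTfix]
  · rw [map_mul, map_mul, map_inv]
    exact (isPos_T_pow h.pos).conj (by rw [dt_mapGL]; norm_num)
  · rintro _ ⟨γ, hγ, rfl⟩ hfix hpos
    have h1 : ac (g⁻¹ * γ * g) ci = ci := by
      have hfix' : ac γ (ac g ci) = ac g ci := hfix
      rw [ac_mul, ac_mul, hfix', ← ac_mul, inv_mul_cancel, ac_one]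
    have hpos' : IsPos (mapGL ℚ (g⁻¹ * γ * g)) := by
      have := hpos.conj (w := mapGL ℚ g⁻¹) (by rw [dt_mapGL]; norm_num)
      rw [← map_mul, ← map_inv, ← map_mul, inv_inv] at this
      exact this
    obtain ⟨k, hk | hk⟩ := eq_T_zpow_of_ac h1
    · rw [hk] at hpos'
      obtain ⟨h00, h01, h10, h11⟩ := T_zpow_apply k
      have hk0 : 0 ≤ k := by
        have := hpos'.pos01
        rw [h01] at this; exact_mod_cast this
      obtain ⟨j, rfl⟩ := Int.eq_ofNat_of_zero_le hk0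
      rw [zpow_natCast] at hk hpos'
      have hj : 0 < j := by
        rcases Nat.eq_zero_or_pos j with h0 | h0
        · subst h0; exact absurd (by simp) hpos'.ne
        · exact h0
      have hγe : γ = g * T ^ j * g⁻¹ := by rw [← hk]; group
      obtain ⟨l, rfl⟩ := h.min j hj (hγe ▸ hγ)
      refine ⟨l, ?_⟩
      rw [← map_pow, hγe, conj_pow, ← pow_mul]
    · exfalso
      rw [hk] at hpos'
      have htr := hpos'.tr
      obtain ⟨h00, h01, h10, h11⟩ := T_zpow_apply k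
      have e : ∀ i, (mapGL ℚ (-T ^ k)) i i = -(mapGL ℚ (T ^ k)) i i := by
        intro i
        simp only [Fermat.Agent.H41.mapGL_apply, Matrix.SpecialLinearGroup.coe_neg,
          Matrix.neg_apply]
        push_cast; ring
      rw [e, e, h00, h11] at htr
      norm_num at htr

section CuspSum

variable {A : Type*} [AddCommGroup A]

/-- the set of cusps for `H` -/
abbrev CuspQ (H : Subgroup (GL (Fin 2) ℚ)) : Type := MulAction.orbitRel.Quotient H (OnePoint ℚ)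

/-- class of a cusp -/
def cmk (H : Subgroup (GL (Fin 2) ℚ)) (c : OnePoint ℚ) : CuspQ H := Quotient.mk _ c

lemma cmk_eq {H : Subgroup (GL (Fin 2) ℚ)} {c d : OnePoint ℚ} :
    cmk H c = cmk H d ↔ ∃ h ∈ H, h • d = c := by
  unfold cmk
  rw [Quotient.eq, MulAction.orbitRel_apply, MulAction.mem_orbit_iff]
  constructor
  · rintro ⟨⟨h, hh⟩, e⟩; exact ⟨h, hh, e⟩
  · rintro ⟨h, hh, e⟩; exact ⟨⟨h, hh⟩, e⟩

lemma cmk_out {H : Subgroup (GL (Fin 2) ℚ)} (o : CuspQ H) : cmk H o.out = o := Quotient.out_eq _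

/-- the map from cosets to cusps -/
lemma finite_cuspQ (Γ : Subgroup SL(2, ℤ)) [Finite (SL(2, ℤ) ⧸ Γ)] :
    Finite (CuspQ (Γ.map (mapGL ℚ))) := by
  refine Finite.of_surjective
    (fun x : SL(2, ℤ) ⧸ Γ => cmk (Γ.map (mapGL ℚ)) (ac (x.out)⁻¹ ci)) ?_
  intro o
  obtain ⟨g, hg⟩ := exists_ac o.out
  refine ⟨((g⁻¹ : SL(2, ℤ)) : SL(2, ℤ) ⧸ Γ), ?_⟩
  rw [← cmk_out o, ← hg]
  simp only
  rw [cmk_eq]
  have h1 : ((((g⁻¹ : SL(2, ℤ)) : SL(2, ℤ) ⧸ Γ).out : SL(2, ℤ)) : SL(2, ℤ) ⧸ Γ) =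
      ((g⁻¹ : SL(2, ℤ)) : SL(2, ℤ) ⧸ Γ) := QuotientGroup.out_eq' _
  rw [QuotientGroup.eq] at h1
  refine ⟨_, Subgroup.mem_map_of_mem (mapGL ℚ) h1, ?_⟩
  show mapGL ℚ _ • mapGL ℚ g • ci = mapGL ℚ _ • ci
  rw [← mul_smul, ← map_mul, inv_mul_cancel_right]

/-- sum over cusps -/
noncomputable def csum (H : Subgroup (GL (Fin 2) ℚ)) (q : OnePoint ℚ → A) : A :=
  ∑ᶠ o : CuspQ H, q o.out

lemma csum_conj {H₁ H₂ : Subgroup (GL (Fin 2) ℚ)} {w : GL (Fin 2) ℚ}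
    (hH : ∀ g, g ∈ H₁ ↔ w * g * w⁻¹ ∈ H₂) {q₁ q₂ : OnePoint ℚ → A}
    (hq : ∀ c, q₁ c = q₂ (w • c)) (hinv : ∀ h ∈ H₂, ∀ c, q₂ (h • c) = q₂ c) :
    csum H₁ q₁ = csum H₂ q₂ := by
  have hwd : ∀ c d, cmk H₁ c = cmk H₁ d ↔ cmk H₂ (w • c) = cmk H₂ (w • d) := by
    intro c d
    rw [cmk_eq, cmk_eq]
    constructor
    · rintro ⟨h, hh, rfl⟩
      refine ⟨w * h * w⁻¹, (hH h).mp hh, ?_⟩
      rw [mul_smul, mul_smul, inv_smul_smul]
    · rintro ⟨h, hh, e⟩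
      refine ⟨w⁻¹ * h * w, (hH _).mpr ?_, ?_⟩
      · have : w * (w⁻¹ * h * w) * w⁻¹ = h := by group
        rw [this]; exact hh
      · rw [mul_smul, mul_smul, e, inv_smul_smul]
  let F : CuspQ H₁ → CuspQ H₂ := fun o => cmk H₂ (w • o.out)
  have hF : Function.Bijective F := by
    constructor
    · intro o o' h
      rw [← cmk_out o, ← cmk_out o']
      exact (hwd _ _).mpr h
    · intro o
      refine ⟨cmk H₁ (w⁻¹ • o.out), ?_⟩
      show cmk H₂ (w • (cmk H₁ (w⁻¹ • o.out)).out) = o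
      conv_rhs => rw [← cmk_out o, ← smul_inv_smul w o.out]
      rw [← hwd, cmk_out]
  unfold csum
  refine finsum_eq_of_bijective F hF fun o => ?_
  rw [hq]
  have : cmk H₂ (F o).out = cmk H₂ (w • o.out) := cmk_out _
  obtain ⟨h, hh, e⟩ := cmk_eq.mp this
  rw [← e, hinv h hh]

/-- **The sum over cosets as a sum over cusps.** -/
theorem cosum_eq_csum (Γ : Subgroup SL(2, ℤ)) [Finite (SL(2, ℤ) ⧸ Γ)] (hneg : -1 ∈ Γ)
    (ζ : SL(2, ℤ) → A) (hζ : LInv Γ (fun g => ζ (g * T) - ζ g)) (q : OnePoint ℚ → A)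
    (hq : ∀ g n, IsPer Γ g n → q (ac g ci) = ζ (g * T ^ n) - ζ g) :
    cosum Γ (fun g => ζ (g * T) - ζ g) = csum (Γ.map (mapGL ℚ)) q := by
  classical
  set H := Γ.map (mapGL ℚ) with hH
  haveI : Finite (CuspQ H) := finite_cuspQ Γ
  letI := Fintype.ofFinite (CuspQ H)
  letI := Fintype.ofFinite (SL(2, ℤ) ⧸ Γ)
  set lam : SL(2, ℤ) → A := fun g => ζ (g * T) - ζ g with hlam
  let π : SL(2, ℤ) ⧸ Γ → CuspQ H := fun x => cmk H (ac (x.out)⁻¹ ci)
  have hπ : ∀ g : SL(2, ℤ), π ((g⁻¹ : SL(2, ℤ)) : SL(2, ℤ) ⧸ Γ) = cmk H (ac g ci) := by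
    intro g
    show cmk H (ac _ ci) = _
    rw [cmk_eq]
    have h1 : ((((g⁻¹ : SL(2, ℤ)) : SL(2, ℤ) ⧸ Γ).out : SL(2, ℤ)) : SL(2, ℤ) ⧸ Γ) =
        ((g⁻¹ : SL(2, ℤ)) : SL(2, ℤ) ⧸ Γ) := QuotientGroup.out_eq' _
    rw [QuotientGroup.eq] at h1
    refine ⟨_, Subgroup.mem_map_of_mem (mapGL ℚ) h1, ?_⟩
    show mapGL ℚ _ • mapGL ℚ g • ci = mapGL ℚ _ • ci
    rw [← mul_smul, ← map_mul, inv_mul_cancel_right]
  unfold csum cosum
  rw [finsum_eq_sum_of_fintype, ← Finset.sum_fiberwise (Finset.univ : Finset (SL(2, ℤ) ⧸ Γ)) π]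
  refine Finset.sum_congr rfl fun o _ => ?_
  obtain ⟨g, hg⟩ := exists_ac o.out
  obtain ⟨n, hn⟩ := exists_isPer Γ g
  rw [← hg, hq g n hn]
  have htel : ζ (g * T ^ n) - ζ g = ∑ j ∈ Finset.range n, lam (g * T ^ j) := by
    have := Finset.sum_range_sub (fun j => ζ (g * T ^ j)) n
    rw [pow_zero, mul_one] at this
    rw [← this]
    refine Finset.sum_congr rfl fun j _ => ?_
    show _ = ζ (g * T ^ j * T) - ζ (g * T ^ j)
    rw [mul_assoc, ← pow_succ]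
  rw [htel]
  symm
  refine Finset.sum_bij (fun j _ => (((g * T ^ j)⁻¹ : SL(2, ℤ)) : SL(2, ℤ) ⧸ Γ)) ?_ ?_ ?_ ?_
  · intro j _
    rw [Finset.mem_filter]
    refine ⟨Finset.mem_univ _, ?_⟩
    rw [hπ, ac_mul]
    have : ac (T ^ j) ci = ci := by
      have h10 := (T_zpow_apply (j : ℤ)).2.2.1
      rw [zpow_natCast] at h10
      exact OnePoint.smul_infty_eq_self_iff.mpr h10
    rw [this, hg, cmk_out]
  · intro i hi j hj hij
    rw [Finset.mem_range] at hi hj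
    rw [QuotientGroup.eq, inv_inv] at hij
    by_contra hne
    wlog hlt : i < j generalizing i j
    · refine this j hj i hi ?_ (Ne.symm hne) (by omega)
      have e := Γ.inv_mem hij
      have e2 : (g * T ^ i * (g * T ^ j)⁻¹)⁻¹ = g * T ^ j * (g * T ^ i)⁻¹ := by group
      rwa [e2] at e
    · have e := Γ.inv_mem hij
      have e2 : (g * T ^ i * (g * T ^ j)⁻¹)⁻¹ = g * T ^ (j - i) * g⁻¹ := by
        have : T ^ j = T ^ (j - i) * T ^ i := by rw [← pow_add]; congr 1; omega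
        rw [this]; group
      rw [e2] at e
      have := Nat.le_of_dvd (by omega) (hn.min (j - i) (by omega) e)
      omega
  · intro x hx
    rw [Finset.mem_filter] at hx
    have hx2 : cmk H (ac (x.out)⁻¹ ci) = cmk H (ac g ci) := by
      rw [hg, cmk_out]; exact hx.2
    obtain ⟨_, ⟨γ, hγ, rfl⟩, e⟩ := cmk_eq.mp hx2
    have e' : ac (γ * g) ci = ac (x.out)⁻¹ ci := by rw [ac_mul]; exact e
    have h1 : ac ((γ * g)⁻¹ * (x.out)⁻¹) ci = ci := by
      rw [ac_mul, ← e', ← ac_mul, inv_mul_cancel, ac_one]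
    -- x.out⁻¹ = ± γ g T^k
    have h2 : ∃ k : ℤ, ((x.out : SL(2, ℤ)) : SL(2, ℤ) ⧸ Γ) =
        (((g * T ^ k)⁻¹ : SL(2, ℤ)) : SL(2, ℤ) ⧸ Γ) := by
      obtain ⟨k, hk | hk⟩ := eq_T_zpow_of_ac h1
      · refine ⟨k, ?_⟩
        rw [QuotientGroup.eq]
        have : (x.out)⁻¹ = γ * g * T ^ k := by rw [← hk]; group
        rw [this]
        have e3 : γ * g * T ^ k * (g * T ^ k)⁻¹ = γ := by group
        rw [e3]; exact hγ
      · refine ⟨k, ?_⟩
        rw [QuotientGroup.eq]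
        have : (x.out)⁻¹ = -(γ * g * T ^ k) := by rw [← mul_neg, ← hk]; group
        rw [this]
        have e3 : -(γ * g * T ^ k) * (g * T ^ k)⁻¹ = (-1) * γ := by
          rw [neg_mul, neg_one_mul]; congr 1; group
        rw [e3]; exact Γ.mul_mem hneg hγ
    obtain ⟨k, hk⟩ := h2
    -- reduce modulo `n`
    have hn0 : (n : ℤ) ≠ 0 := by have := hn.pos; omega
    refine ⟨(k % n).toNat, ?_, ?_⟩
    · rw [Finset.mem_range]
      have h3 := Int.emod_lt_of_pos k (show (0 : ℤ) < n by have := hn.pos; omega)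
      have h4 := Int.emod_nonneg k hn0
      omega
    · have hx3 : x = ((x.out : SL(2, ℤ)) : SL(2, ℤ) ⧸ Γ) := (QuotientGroup.out_eq' x).symm
      rw [hx3, hk, QuotientGroup.eq, inv_inv]
      have h4 := Int.emod_nonneg k hn0
      have e4 : T ^ (k % n).toNat = T ^ (k % n) := by
        rw [← zpow_natCast, Int.toNat_of_nonneg h4]
      rw [e4]
      have e5 : g * T ^ (k % n) * (g * T ^ k)⁻¹ = ((g * T ^ n * g⁻¹) ^ (k / n))⁻¹ := by
        have : T ^ k = T ^ (k % n) * (T ^ n) ^ (k / n) := by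
          rw [← zpow_natCast, ← zpow_mul, ← zpow_add]
          congr 1
          have := Int.emod_add_mul_ediv k n
          linarith
        rw [this, conj_zpow]; group
      rw [e5]
      exact Γ.inv_mem (Γ.zpow_mem hn.mem _)
  · intro j _
    refine hζ.eq_of_mk ?_
    rw [inv_inv]
    exact (QuotientGroup.out_eq' _).symm

end CuspSum

end Fermat.Agent.H71
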