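import Fermat.Agent.H71Adj

/-!
# Duality mod `p` (helper71): dual of the degeneracy maps
-/

set_option autoImplicit false

namespace Fermat.Agent.H71

open ModularGroup Matrix.SpecialLinearGroup CongruenceSubgroup
open scoped MatrixGroups
open Fermat.Agent.H41 (Symb inv slash dt PG G0 tr rho alW hT hd)

section Finite

variable {R' : Type*} [CommRing R'] {Γ : Subgroup SL(2, ℤ)}

instance fg_SL2Z : Group.FG SL(2, ℤ) :=
  ⟨⟨{S, T}, by
    rw [Finset.coe_insert, Finset.coe_singleton]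
    exact SpecialLinearGroup.SL2Z_generators⟩⟩

/-- `Hom(Γ, R)` is finitely generated. -/
theorem finite_hom [IsNoetherianRing R'] [Finite (SL(2, ℤ) ⧸ Γ)] :
    Module.Finite R' (Additive Γ →+ R') := by
  haveI : Γ.FiniteIndex := ⟨by
    rw [Subgroup.index]; exact Nat.card_ne_zero.mpr ⟨inferInstance, inferInstance⟩⟩
  have hfg : Group.FG Γ := inferInstance
  obtain ⟨s, hs⟩ := hfg.out
  let L : (Additive Γ →+ R') →ₗ[R'] (s → R') :=
    { toFun := fun φ x => φ (Additive.ofMul (x : Γ))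
      map_add' := fun _ _ => rfl
      map_smul' := fun _ _ => rfl }
  refine Module.Finite.of_injective L fun φ ψ h => ?_
  refine DFunLike.ext _ _ fun γ => ?_
  have hmem : γ.toMul ∈ Subgroup.closure (s : Set Γ) := by rw [hs]; trivial
  have key : ∀ x ∈ Subgroup.closure (s : Set Γ), φ (Additive.ofMul x) = ψ (Additive.ofMul x) := by
    intro x hx
    induction hx using Subgroup.closure_induction with
    | mem x hx => exact congrFun h ⟨x, hx⟩
    | one => rw [ofMul_one, map_zero, map_zero]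
    | mul x y _ _ hx hy => rw [ofMul_mul, map_add, map_add, hx, hy]
    | inv x _ hx => rw [ofMul_inv, map_neg, map_neg, hx]
  exact key _ hmem

/-- evaluation functional -/
def evHom (γ : Γ) : (Additive Γ →+ R') →ₗ[R'] R' where
  toFun φ := φ (Additive.ofMul γ)
  map_add' _ _ := rfl
  map_smul' _ _ := rfl

theorem free_hom [IsDomain R'] [IsPrincipalIdealRing R'] [Finite (SL(2, ℤ) ⧸ Γ)] :
    Module.Free R' (Additive Γ →+ R') := by
  haveI := finite_hom (R' := R') (Γ := Γ)
  haveI : Module.IsTorsionFree R' (Additive Γ →+ R') := by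
    refine Module.IsTorsionFree.mk fun r hr φ ψ h => ?_
    refine DFunLike.ext _ _ fun γ => ?_
    have h2 : r * φ γ = r * ψ γ := congrArg (fun f : Additive Γ →+ R' => f γ) h
    exact hr.left h2
  exact Module.free_of_finite_type_torsion_free'

/-- invariant symbols embed into functions on the cosets -/
theorem finite_symb [IsNoetherianRing R'] [Finite (SL(2, ℤ) ⧸ Γ)] :
    Module.Finite R' (inv R' (OnePoint ℚ) R' (Γ.map (mapGL ℚ))) := by
  letI := Fintype.ofFinite (SL(2, ℤ) ⧸ Γ)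
  let L : inv R' (OnePoint ℚ) R' (Γ.map (mapGL ℚ)) →ₗ[R'] ((SL(2, ℤ) ⧸ Γ) → R') :=
    { toFun := fun m x => man m.1 (x.out)⁻¹
      map_add' := fun _ _ => rfl
      map_smul' := fun _ _ => rfl }
  refine Module.Finite.of_injective L fun m n h => ?_
  apply Subtype.ext
  apply symb_ext_of_man
  intro g
  have h1 := congrFun h ((g⁻¹ : SL(2, ℤ)) : SL(2, ℤ) ⧸ Γ)
  have h2 : ∀ k : inv R' (OnePoint ℚ) R' (Γ.map (mapGL ℚ)),
      man k.1 (((g⁻¹ : SL(2, ℤ)) : SL(2, ℤ) ⧸ Γ).out)⁻¹ = man k.1 g := by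
    intro k
    refine (man_LInv k.2).eq_of_mk ?_
    rw [inv_inv]
    exact QuotientGroup.out_eq' _
  rw [← h2 m, ← h2 n]
  exact h1

theorem free_symb [IsDomain R'] [IsPrincipalIdealRing R'] [Finite (SL(2, ℤ) ⧸ Γ)] :
    Module.Free R' (inv R' (OnePoint ℚ) R' (Γ.map (mapGL ℚ))) := by
  haveI := finite_symb (R' := R') (Γ := Γ)
  haveI : Module.IsTorsionFree R' (inv R' (OnePoint ℚ) R' (Γ.map (mapGL ℚ))) := by
    refine Module.IsTorsionFree.mk fun r hr m n h => ?_
    apply Subtype.ext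
    apply Fermat.Agent.H41.Symb.ext
    intro x y
    have h2 : r * m.1.1 x y = r * n.1.1 x y :=
      congrArg (fun k : inv R' (OnePoint ℚ) R' (Γ.map (mapGL ℚ)) => k.1.1 x y) h
    exact hr.left h2
  exact Module.free_of_finite_type_torsion_free' (R := R')
    (M := inv R' (OnePoint ℚ) R' (Γ.map (mapGL ℚ)))

end Finite

section Repr

variable {R' : Type*} [CommRing R'] [IsAddTorsionFree R'] {Γ : Subgroup SL(2, ℤ)}
  [Finite (SL(2, ℤ) ⧸ Γ)]

lemma dpair_add_left (m n : inv R' (OnePoint ℚ) R' (Γ.map (mapGL ℚ))) (φ : Additive Γ →+ R') :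
    dpair R' Γ (m + n) φ = dpair R' Γ m φ + dpair R' Γ n φ :=
  LinearMap.map_add₂ (dpair R' Γ) m n φ

lemma dpair_sub_left (m n : inv R' (OnePoint ℚ) R' (Γ.map (mapGL ℚ))) (φ : Additive Γ →+ R') :
    dpair R' Γ (m - n) φ = dpair R' Γ m φ - dpair R' Γ n φ :=
  LinearMap.map_sub₂ (dpair R' Γ) m n φ

lemma dpair_smul_left (c : R') (m : inv R' (OnePoint ℚ) R' (Γ.map (mapGL ℚ)))
    (φ : Additive Γ →+ R') : dpair R' Γ (c • m) φ = c * dpair R' Γ m φ :=
  LinearMap.map_smul₂ (dpair R' Γ) c m φ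

lemma dpair_add_right (m : inv R' (OnePoint ℚ) R' (Γ.map (mapGL ℚ))) (φ ψ : Additive Γ →+ R') :
    dpair R' Γ m (φ + ψ) = dpair R' Γ m φ + dpair R' Γ m ψ :=
  (dpair R' Γ m).map_add φ ψ

lemma dpair_sub_right (m : inv R' (OnePoint ℚ) R' (Γ.map (mapGL ℚ))) (φ ψ : Additive Γ →+ R') :
    dpair R' Γ m (φ - ψ) = dpair R' Γ m φ - dpair R' Γ m ψ :=
  (dpair R' Γ m).map_sub φ ψ

lemma dpair_smul_right (c : R') (m : inv R' (OnePoint ℚ) R' (Γ.map (mapGL ℚ)))
    (φ : Additive Γ →+ R') : dpair R' Γ m (c • φ) = c * dpair R' Γ m φ :=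
  (dpair R' Γ m).map_smul c φ

/-- **Every functional on symbols is represented** (up to the factor `2`). -/
theorem exists_hom_repr [IsDomain R'] [IsPrincipalIdealRing R'] (hneg : -1 ∈ Γ)
    (μ : inv R' (OnePoint ℚ) R' (Γ.map (mapGL ℚ)) →ₗ[R'] R') :
    ∃ φ : Additive Γ →+ R', ∀ m, dpair R' Γ m φ = 2 * μ m := by
  haveI := finite_hom (R' := R') (Γ := Γ)
  haveI := free_hom (R' := R') (Γ := Γ)
  choose M hM using fun lam => exists_dpair_eq (R' := R') hneg lam
  have huniq : ∀ m n : inv R' (OnePoint ℚ) R' (Γ.map (mapGL ℚ)),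
      (∀ φ, dpair R' Γ m φ = dpair R' Γ n φ) → m = n := by
    intro m n h
    have : m - n = 0 := dpair_left_injective hneg fun φ => by
      rw [dpair_sub_left, h, sub_self]
    exact sub_eq_zero.mp this
  let Λ : Module.Dual R' (Module.Dual R' (Additive Γ →+ R')) :=
    { toFun := fun lam => μ (M lam)
      map_add' := fun a b => by
        rw [← map_add]
        congr 1
        apply huniq
        intro φ
        rw [hM, dpair_add_left, hM, hM, LinearMap.add_apply]; ring
      map_smul' := fun c a => by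
        rw [RingHom.id_apply, ← map_smul]
        congr 1
        apply huniq
        intro φ
        rw [hM, dpair_smul_left, hM, LinearMap.smul_apply, smul_eq_mul]
        ring }
  obtain ⟨φ, hφ⟩ := (Module.evalEquiv R' (Additive Γ →+ R')).surjective Λ
  refine ⟨φ, fun m => ?_⟩
  have h1 : Λ (dpair R' Γ m) = dpair R' Γ m φ := by rw [← hφ]; rfl
  have h2 : M (dpair R' Γ m) = (2 : R') • m := by
    apply huniq
    intro ψ
    rw [hM, dpair_smul_left]
  rw [← h1]
  show μ (M (dpair R' Γ m)) = _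
  rw [h2, map_smul, smul_eq_mul]

/-- Right non-degeneracy in strong form: values of `φ` are controlled by the pairing. -/
theorem exists_symb_ev (hneg : -1 ∈ Γ) (γ : Γ) :
    ∃ m : inv R' (OnePoint ℚ) R' (Γ.map (mapGL ℚ)), ∀ φ : Additive Γ →+ R',
      dpair R' Γ m φ = 2 * φ (Additive.ofMul γ) :=
  exists_dpair_eq hneg (evHom γ)

end Repr

section Parity

/-- the pairing over `ℤ` is even -/
theorem even_dpair {Γ : Subgroup SL(2, ℤ)} [Finite (SL(2, ℤ) ⧸ Γ)] (hneg : -1 ∈ Γ)
    (m : inv ℤ (OnePoint ℚ) ℤ (Γ.map (mapGL ℚ))) (φ : Additive Γ →+ ℤ) :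
    ∃ k : ℤ, dpair ℤ Γ m φ = 2 * k := by
  classical
  letI := Fintype.ofFinite (SL(2, ℤ) ⧸ Γ)
  obtain ⟨h, hh⟩ := exists_isPot φ
  rw [dpair_apply _ hh]
  have hmL := man_LInv m.2
  have hwL : LInv Γ (fun g => h (g * S) - h g) := hh.diff_LInv S
  set F : SL(2, ℤ) → ℤ := fun g => (h (g * S) - h g) * man m.1 g with hF
  have hFL : LInv Γ F := by
    intro γ hγ g
    have h1 := hwL γ hγ g
    have h2 := hmL γ hγ g
    simp only at h1
    show (h (γ * g * S) - h (γ * g)) * man m.1 (γ * g) = _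
    rw [h1, h2]
  have hFS : ∀ g, F (g * S) = F g := by
    intro g
    show (h (g * S * S) - h (g * S)) * man m.1 (g * S) = (h (g * S) - h g) * man m.1 g
    rw [mul_S_S, hh.neg, man_S]; ring
  have hodd : ∀ g, g * S * g⁻¹ ∈ Γ → F g = 0 := by
    intro g hg
    have h1 : man m.1 g = 0 := by
      have h2 := hmL _ hg g
      rw [inv_mul_cancel_right, man_S] at h2
      omega
    show _ * man m.1 g = 0
    rw [h1, mul_zero]
  -- the sum is zero modulo two
  have hz : ((cosum Γ F : ℤ) : ZMod 2) = 0 := by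
    unfold cosum
    rw [Int.cast_sum]
    refine Finset.sum_involution (fun x _ => S⁻¹ • x) ?_ ?_ ?_ ?_
    · intro x _
      have e : F ((S⁻¹ • x).out)⁻¹ = F (x.out)⁻¹ := by
        rw [← hFS (x.out)⁻¹]
        refine hFL.eq_of_mk ?_
        rw [inv_inv, QuotientGroup.out_eq']
        have e2 : ((x.out)⁻¹ * S)⁻¹ = S⁻¹ * x.out := by group
        rw [e2]
        conv_lhs => rw [← QuotientGroup.out_eq' x]
        rfl
      rw [e, ← two_mul]
      have : (2 : ZMod 2) = 0 := by decide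
      rw [this, zero_mul]
    · intro x _ hne hfix
      apply hne
      have : F (x.out)⁻¹ = 0 := by
        apply hodd
        have h1 : ((S⁻¹ * x.out : SL(2, ℤ)) : SL(2, ℤ) ⧸ Γ) = ((x.out : SL(2, ℤ)) : SL(2, ℤ) ⧸ Γ) := by
          rw [QuotientGroup.out_eq']
          conv_rhs => rw [← hfix]
          conv_rhs => rw [← QuotientGroup.out_eq' x]
          rfl
        rw [QuotientGroup.eq] at h1
        have e : (S⁻¹ * x.out)⁻¹ * x.out = (x.out)⁻¹ * S * (x.out)⁻¹⁻¹ := by group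
        rwa [e] at h1
      rw [this, Int.cast_zero]
    · intro x _; exact Finset.mem_univ _
    · intro x _
      rw [← mul_smul]
      have e : S⁻¹ * S⁻¹ = -1 := by
        have := S_sq
        rw [pow_two] at this
        have h2 : S⁻¹ * S⁻¹ = (S * S)⁻¹ := by group
        rw [h2, this]
        rw [inv_eq_iff_mul_eq_one]; simp
      rw [e]
      conv_lhs => rw [← QuotientGroup.out_eq' x]
      show (((-1 : SL(2, ℤ)) * x.out : SL(2, ℤ)) : SL(2, ℤ) ⧸ Γ) = x
      conv_rhs => rw [← QuotientGroup.out_eq' x]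
      rw [QuotientGroup.eq]
      have e3 : (-1 * x.out)⁻¹ * x.out = -1 := by
        have e4 : (-1 * x.out : SL(2, ℤ))⁻¹ = x.out⁻¹ * (-1) := by
          rw [_root_.mul_inv_rev]
          congr 1
          rw [inv_eq_iff_mul_eq_one]; simp
        rw [e4, mul_assoc, neg_one_mul, mul_neg, inv_mul_cancel]
      rw [e3]; exact hneg
  rw [ZMod.intCast_zmod_eq_zero_iff_dvd] at hz
  obtain ⟨k, hk⟩ := hz
  exact ⟨k, by rw [hk]; norm_num⟩

end Parity

section Reduction

/-- reduction of coefficients of a symbol -/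
def redSymb {X : Type*} (n : ℕ) (f : Symb ℤ X ℤ) : Symb ℤ X (ZMod n) :=
  ⟨fun x y => ((f.1 x y : ℤ) : ZMod n), fun x y z => by
    show ((f.1 x y : ℤ) : ZMod n) + ((f.1 y z : ℤ) : ZMod n) = ((f.1 x z : ℤ) : ZMod n)
    rw [← f.2 x y z, Int.cast_add]⟩

variable {X : Type*} [MulAction (GL (Fin 2) ℚ) X] {n : ℕ}

lemma redSymb_slash (g : GL (Fin 2) ℚ) (f : Symb ℤ X ℤ) :
    redSymb n (slash g f) = slash g (redSymb n f) := rfl

lemma redSymb_add (f g : Symb ℤ X ℤ) : redSymb n (f + g) = redSymb n f + redSymb n g := by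
  apply Fermat.Agent.H41.Symb.ext
  intro x y
  show (((f.1 x y + g.1 x y : ℤ)) : ZMod n) = ((f.1 x y : ℤ) : ZMod n) + ((g.1 x y : ℤ) : ZMod n)
  push_cast; rfl

lemma redSymb_sum {ι : Type*} (s : Finset ι) (f : ι → Symb ℤ X ℤ) :
    redSymb n (∑ i ∈ s, f i) = ∑ i ∈ s, redSymb n (f i) := by
  classical
  induction s using Finset.induction_on with
  | empty =>
    rw [Finset.sum_empty, Finset.sum_empty]
    apply Fermat.Agent.H41.Symb.ext
    intro x y
    show (((0 : ℤ)) : ZMod n) = 0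
    simp
  | insert a s ha ih => rw [Finset.sum_insert ha, Finset.sum_insert ha, redSymb_add, ih]

lemma redSymb_hT (ℓ : ℕ) (f : Symb ℤ X ℤ) : redSymb n (hT ℓ f) = hT ℓ (redSymb n f) := by
  rw [Fermat.Agent.H41.hT_apply, Fermat.Agent.H41.hT_apply, redSymb_add, redSymb_sum]
  rfl

end Reduction

end Fermat.Agent.H71
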