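import Fermat.Agent.H71PSL2

/-!
# Extension of cocycle data from generators (helper71)

Induction on `SL(2, ℤ)` through right multiplication by `S` and `R = S T`, and existence of
functions `Φ : SL(2, ℤ) → A` with prescribed increments `Φ (g S) - Φ g`, `Φ (g R) - Φ g`.
-/

set_option autoImplicit false

namespace Fermat.Agent.H71

open Matrix ModularGroup Matrix.SpecialLinearGroup Monoid
open scoped MatrixGroups Pointwise

lemma T_eq : T = -(S * R) := by
  ext i j
  fin_cases i <;> fin_cases j <;> simp [R_eq, ModularGroup.S, ModularGroup.T, Matrix.mul_apply,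
    Fin.sum_univ_two]

lemma mul_S_S (g : SL(2, ℤ)) : g * S * S = -g := by
  rw [mul_assoc, ← pow_two, S_sq, mul_neg, mul_one]

lemma mul_R_R_R (g : SL(2, ℤ)) : g * R * R * R = -g := by
  rw [mul_assoc, mul_assoc, show R * (R * R) = R ^ 3 by rw [pow_succ, pow_two, mul_assoc],
    R_cube, mul_neg, mul_one]

lemma mul_T (g : SL(2, ℤ)) : g * T = -(g * S * R) := by
  rw [T_eq, mul_neg, mul_assoc]

/-- Induction principle: `SL(2, ℤ)` is generated as a monoid by `S` and `R`. -/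
theorem ind_SR {P : SL(2, ℤ) → Prop} (h1 : P 1) (hS : ∀ g, P g → P (g * S))
    (hR : ∀ g, P g → P (g * R)) (g : SL(2, ℤ)) : P g := by
  have hneg : ∀ g, P g → P (-g) := fun g hg => by
    rw [← mul_S_S]; exact hS _ (hS _ hg)
  have hT : ∀ g, P g → P (g * T) := fun g hg => by
    rw [mul_T]; exact hneg _ (hR _ (hS _ hg))
  have hS' : ∀ g, P g → P (g * S⁻¹) := fun g hg => by
    have : g * S⁻¹ = -(g * S) := by
      rw [mul_inv_eq_iff_eq_mul, neg_mul, mul_S_S, neg_neg]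
    rw [this]; exact hneg _ (hS _ hg)
  have hR' : ∀ g, P g → P (g * R⁻¹) := fun g hg => by
    have : g * R⁻¹ = -(g * R * R) := by
      rw [mul_inv_eq_iff_eq_mul, neg_mul, mul_R_R_R, neg_neg]
    rw [this]; exact hneg _ (hR _ (hR _ hg))
  have hT' : ∀ g, P g → P (g * T⁻¹) := fun g hg => by
    have : g * T⁻¹ = -(g * R⁻¹ * S⁻¹) := by
      rw [T_eq]
      have : (-(S * R))⁻¹ = -(R⁻¹ * S⁻¹) := by
        rw [inv_eq_iff_mul_eq_one]
        rw [neg_mul_neg]; group
      rw [this, mul_neg, mul_assoc]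
    rw [this]; exact hneg _ (hS' _ (hR' _ hg))
  have hg : g ∈ Subgroup.closure {S, T} := by
    rw [SpecialLinearGroup.SL2Z_generators]; trivial
  induction hg using Subgroup.closure_induction_right with
  | one => exact h1
  | mul_right x hx y hy ih =>
    rcases hy with rfl | hy
    · exact hS _ ih
    · rw [Set.mem_singleton_iff] at hy; subst hy; exact hT _ ih
  | mul_inv_cancel x hx y hy ih =>
    rcases hy with rfl | hy
    · exact hS' _ ih
    · rw [Set.mem_singleton_iff] at hy; subst hy; exact hT' _ ih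

/-- The kernel of the action on `P¹(ℚ)` is `±1`. -/
lemma eq_or_eq_neg_of_cuspPerm_eq_one {g : SL(2, ℤ)} (h : cuspPerm g = 1) : g = 1 ∨ g = -1 := by
  have hinf : mapGL ℚ g • (OnePoint.infty : OnePoint ℚ) = OnePoint.infty := by
    rw [← cuspPerm_apply, h]; rfl
  have h0 : mapGL ℚ g • ((0 : ℚ) : OnePoint ℚ) = ((0 : ℚ) : OnePoint ℚ) := by
    rw [← cuspPerm_apply, h]; rfl
  have h1 : mapGL ℚ g • ((1 : ℚ) : OnePoint ℚ) = ((1 : ℚ) : OnePoint ℚ) := by
    rw [← cuspPerm_apply, h]; rfl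
  rw [OnePoint.smul_infty_eq_self_iff] at hinf
  have hc : g 1 0 = 0 := by simpa [mapGL] using hinf
  have hdet : g 0 0 * g 1 1 - g 0 1 * g 1 0 = 1 := by
    have := g.det_coe
    rwa [Matrix.det_fin_two] at this
  rw [hc, mul_zero, sub_zero] at hdet
  have hd : g 1 1 ≠ 0 := fun hd => by rw [hd, mul_zero] at hdet; exact zero_ne_one hdet
  have hdQ : ((g 1 1 : ℤ) : ℚ) ≠ 0 := by exact_mod_cast hd
  have hb : g 0 1 = 0 := by
    rw [OnePoint.smul_some_eq_ite] at h0
    have e : (mapGL ℚ g) 1 0 * (0 : ℚ) + (mapGL ℚ g) 1 1 = ((g 1 1 : ℤ) : ℚ) := by simp [mapGL]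
    rw [if_neg (by rw [e]; exact hdQ), OnePoint.coe_eq_coe, e, div_eq_iff hdQ] at h0
    simp [mapGL] at h0
    exact h0
  have ha : g 0 0 = g 1 1 := by
    rw [OnePoint.smul_some_eq_ite] at h1
    have e : (mapGL ℚ g) 1 0 * (1 : ℚ) + (mapGL ℚ g) 1 1 = ((g 1 1 : ℤ) : ℚ) := by
      simp [mapGL, hc]
    rw [if_neg (by rw [e]; exact hdQ), OnePoint.coe_eq_coe, e, div_eq_iff hdQ] at h1
    have : ((g 0 0 : ℤ) : ℚ) = ((g 1 1 : ℤ) : ℚ) := by
      simpa [mapGL, hb] using h1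
    exact_mod_cast this
  rw [← ha] at hdet
  rcases mul_self_eq_one_iff.mp hdet with h | h
  · left
    ext i j
    fin_cases i <;> fin_cases j <;> simp [hb, hc, h, ← ha]
  · right
    ext i j
    fin_cases i <;> fin_cases j <;> simp [hb, hc, h, ← ha]

lemma eq_or_eq_neg_of_cuspPerm_eq {g h : SL(2, ℤ)} (e : cuspPerm g = cuspPerm h) :
    g = h ∨ g = -h := by
  have : cuspPerm (h⁻¹ * g) = 1 := by rw [map_mul, map_inv, e, inv_mul_cancel]
  rcases eq_or_eq_neg_of_cuspPerm_eq_one this with h1 | h1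
  · left; exact (inv_mul_eq_one.mp h1).symm
  · right
    have : g = h * (h⁻¹ * g) := by group
    rw [this, h1, mul_neg, mul_one]

section Ext

variable {A : Type*} [AddCommGroup A]

/-- descend a `±`-invariant function to the image in `Perm P¹(ℚ)` -/
noncomputable def desc (σ : SL(2, ℤ) → A) (p : Equiv.Perm (OnePoint ℚ)) : A := by
  classical
  exact if h : ∃ g, cuspPerm g = p then σ h.choose else 0

lemma desc_apply {σ : SL(2, ℤ) → A} (hσ : ∀ g, σ (-g) = σ g) (g : SL(2, ℤ)) :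
    desc σ (cuspPerm g) = σ g := by
  classical
  have h : ∃ g', cuspPerm g' = cuspPerm g := ⟨g, rfl⟩
  rw [desc, dif_pos h]
  rcases eq_or_eq_neg_of_cuspPerm_eq h.choose_spec with e | e
  · rw [e]
  · rw [e, hσ]

lemma desc_of_not {σ : SL(2, ℤ) → A} {p : Equiv.Perm (OnePoint ℚ)}
    (h : ¬ ∃ g, cuspPerm g = p) : desc σ p = 0 := by
  classical
  rw [desc, dif_neg h]

/-- the permutation `(p, u) ↦ (p * π, u + σ̄ p)` -/
def stepEquiv (π : Equiv.Perm (OnePoint ℚ)) (c : Equiv.Perm (OnePoint ℚ) → A) :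
    Equiv.Perm (Equiv.Perm (OnePoint ℚ) × A) where
  toFun x := (x.1 * π, x.2 + c x.1)
  invFun x := (x.1 * π⁻¹, x.2 - c (x.1 * π⁻¹))
  left_inv x := by simp
  right_inv x := by simp

@[simp] lemma stepEquiv_apply (π : Equiv.Perm (OnePoint ℚ)) (c : Equiv.Perm (OnePoint ℚ) → A)
    (x : Equiv.Perm (OnePoint ℚ) × A) : stepEquiv π c x = (x.1 * π, x.2 + c x.1) := rfl

/-- **Extension theorem.**  Existence of a function on `SL(2, ℤ)` with prescribed increments. -/
theorem exists_ext (σ τ : SL(2, ℤ) → A) (hσn : ∀ g, σ (-g) = σ g) (hτn : ∀ g, τ (-g) = τ g)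
    (hσ : ∀ g, σ g + σ (g * S) = 0) (hτ : ∀ g, τ g + τ (g * R) + τ (g * R * R) = 0) :
    ∃ Φ : SL(2, ℤ) → A, Φ 1 = 0 ∧ (∀ g, Φ (g * S) = Φ g + σ g) ∧
      (∀ g, Φ (g * R) = Φ g + τ g) := by
  have hcS : ∀ p, desc σ p + desc σ (p * cuspPerm S) = 0 := by
    intro p
    by_cases h : ∃ g, cuspPerm g = p
    · obtain ⟨g, rfl⟩ := h
      rw [← map_mul, desc_apply hσn, desc_apply hσn, hσ]
    · have h' : ¬ ∃ g, cuspPerm g = p * cuspPerm S := by
        rintro ⟨g, hg⟩
        exact h ⟨g * S⁻¹, by rw [map_mul, hg, map_inv, mul_inv_cancel_right]⟩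
      rw [desc_of_not h, desc_of_not h', add_zero]
  have hcR : ∀ p, desc τ p + desc τ (p * cuspPerm R) + desc τ (p * cuspPerm R * cuspPerm R)
      = 0 := by
    intro p
    by_cases h : ∃ g, cuspPerm g = p
    · obtain ⟨g, rfl⟩ := h
      rw [← map_mul, ← map_mul, desc_apply hτn, desc_apply hτn, desc_apply hτn, hτ]
    · have h' : ∀ p, (¬ ∃ g, cuspPerm g = p) → ¬ ∃ g, cuspPerm g = p * cuspPerm R := by
        rintro p h ⟨g, hg⟩
        exact h ⟨g * R⁻¹, by rw [map_mul, hg, map_inv, mul_inv_cancel_right]⟩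
      rw [desc_of_not h, desc_of_not (h' _ h), desc_of_not (h' _ (h' _ h)), add_zero, add_zero]
  set s := stepEquiv (cuspPerm S) (desc σ) with hs
  set t := stepEquiv (cuspPerm R) (desc τ) with ht
  have hs2 : s ^ 2 = 1 := by
    ext x
    · have : x.1 * cuspPerm S * cuspPerm S = x.1 := by
        rw [mul_assoc, ← pow_two, cuspPerm_S_sq, mul_one]
      simp [pow_two, hs, this]
    · have := hcS x.1
      simp [pow_two, hs, add_assoc, this]
  have ht3 : t ^ 3 = 1 := by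
    ext x
    · have : x.1 * cuspPerm R * cuspPerm R * cuspPerm R = x.1 := by
        rw [mul_assoc, mul_assoc, show cuspPerm R * (cuspPerm R * cuspPerm R) = cuspPerm R ^ 3 by
          rw [pow_succ, pow_two, mul_assoc], cuspPerm_R_cube, mul_one]
      simp [pow_succ, ht, this]
    · have := hcR x.1
      rw [add_assoc] at this
      simp [pow_succ, ht, add_assoc, this]
  obtain ⟨Ψ, hΨS, hΨR⟩ := exists_hom (K := (Equiv.Perm (Equiv.Perm (OnePoint ℚ) × A))ᵐᵒᵖ)
    (MulOpposite.op s) (MulOpposite.op t) (by rw [← MulOpposite.op_pow, hs2]; rfl)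
    (by rw [← MulOpposite.op_pow, ht3]; rfl)
  have hmS : ∀ g, (Ψ (g * S)).unop (1, 0) = s ((Ψ g).unop (1, 0)) := by
    intro g; rw [map_mul, hΨS]; rfl
  have hmR : ∀ g, (Ψ (g * R)).unop (1, 0) = t ((Ψ g).unop (1, 0)) := by
    intro g; rw [map_mul, hΨR]; rfl
  have hfst : ∀ g, ((Ψ g).unop (1, 0)).1 = cuspPerm g := by
    intro g
    induction g using ind_SR with
    | h1 => rw [map_one, map_one]; rfl
    | hS g ih => rw [hmS, hs, stepEquiv_apply, ih, map_mul]
    | hR g ih => rw [hmR, ht, stepEquiv_apply, ih, map_mul]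
  refine ⟨fun g => ((Ψ g).unop (1, 0)).2, ?_, ?_, ?_⟩
  · show ((Ψ 1).unop (1, 0)).2 = 0
    rw [map_one]; rfl
  · intro g
    show ((Ψ (g * S)).unop (1, 0)).2 = _
    rw [hmS, hs, stepEquiv_apply, hfst, desc_apply hσn]
  · intro g
    show ((Ψ (g * R)).unop (1, 0)).2 = _
    rw [hmR, ht, stepEquiv_apply, hfst, desc_apply hτn]

/-- uniqueness: two functions with the same increments differ by a constant -/
theorem ext_unique {Φ Φ' : SL(2, ℤ) → A} (hS : ∀ g, Φ (g * S) - Φ g = Φ' (g * S) - Φ' g)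
    (hR : ∀ g, Φ (g * R) - Φ g = Φ' (g * R) - Φ' g) (g : SL(2, ℤ)) :
    Φ g - Φ 1 = Φ' g - Φ' 1 := by
  induction g using ind_SR with
  | h1 => simp
  | hS g ih =>
    have := congrArg₂ (· + ·) ih (hS g)
    rw [show Φ (g * S) - Φ 1 = Φ g - Φ 1 + (Φ (g * S) - Φ g) by abel, this]
    abel
  | hR g ih =>
    have := congrArg₂ (· + ·) ih (hR g)
    rw [show Φ (g * R) - Φ 1 = Φ g - Φ 1 + (Φ (g * R) - Φ g) by abel, this]
    abel

end Ext

end Fermat.Agent.H71
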