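import Fermat.Agent.H71Cusp
import Fermat.Agent.H41Trace

/-!
# Invariance of the duality pairing under `GL₂⁺(ℚ)` (helper71)
-/

set_option autoImplicit false

namespace Fermat.Agent.H71

open ModularGroup Matrix.SpecialLinearGroup
open scoped MatrixGroups
open Fermat.Agent.H41 (Symb inv slash dt mul_00 mul_01 mul_10 mul_11 inv_00 inv_01 inv_10 inv_11
  dt_mul dt_inv dt_ne_zero gl_ext dt_one PG)

section Zeta

variable {R' : Type*} [CommRing R'] {Γ : Subgroup SL(2, ℤ)}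

/-- The primitive `F(g) = m(g∞, b)`. -/
noncomputable def prF (m : Symb R' (OnePoint ℚ) R') (b : OnePoint ℚ) (g : SL(2, ℤ)) : R' :=
  m.1 (ac g ci) b

lemma prF_S (m : Symb R' (OnePoint ℚ) R') (b : OnePoint ℚ) (g : SL(2, ℤ)) :
    prF m b (g * S) = prF m b g + man m g := by
  rw [prF, prF, man, ac_mul, ac_S_ci, ← m.2 (ac g c0) (ac g ci) b, add_comm]

lemma prF_R (m : Symb R' (OnePoint ℚ) R') (b : OnePoint ℚ) (g : SL(2, ℤ)) :
    prF m b (g * R) = prF m b g + man m g := by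
  rw [prF, prF, man, ac_mul, ac_R_ci, ← m.2 (ac g c0) (ac g ci) b, add_comm]

lemma ac_T_pow_ci (n : ℕ) : ac (T ^ n) ci = ci := by
  have h10 := (T_zpow_apply (n : ℤ)).2.2.1
  rw [zpow_natCast] at h10
  exact OnePoint.smul_infty_eq_self_iff.mpr h10

lemma prF_T_pow (m : Symb R' (OnePoint ℚ) R') (b : OnePoint ℚ) (g : SL(2, ℤ)) (n : ℕ) :
    prF m b (g * T ^ n) = prF m b g := by
  rw [prF, prF, ac_mul, ac_T_pow_ci]

lemma prF_T (m : Symb R' (OnePoint ℚ) R') (b : OnePoint ℚ) (g : SL(2, ℤ)) :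
    prF m b (g * T) = prF m b g := by
  have := prF_T_pow m b g 1
  rwa [pow_one] at this

/-- the quadratic primitive -/
theorem exists_zeta0 {m : Symb R' (OnePoint ℚ) R'}
    (hm : m ∈ inv R' (OnePoint ℚ) R' (Γ.map (mapGL ℚ))) {φ : Additive Γ →+ R'}
    {h : SL(2, ℤ) → R'} (H : IsPot Γ φ h) :
    ∃ ζ : SL(2, ℤ) → R', (∀ g, ζ (g * T) - ζ g = - ((h (g * S) - h g) * man m g)) ∧
      (∀ (γ : Γ) g, ζ (γ * g) = ζ γ + ζ g + 2 * φ (Additive.ofMul γ) * prF m ci g) := by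
  set σ : SL(2, ℤ) → R' := fun g => (h g + h (g * S)) * man m g with hσ
  set τ : SL(2, ℤ) → R' := fun g => 2 * h g * man m g with hτ
  have hn : ∀ g, h (-g) = h g := H.neg
  obtain ⟨ζ, ζ1, ζS, ζR⟩ := exists_ext σ τ
    (fun g => by
      show (h (-g) + h (-g * S)) * man m (-g) = (h g + h (g * S)) * man m g
      rw [hn, neg_mul, hn, man_neg])
    (fun g => by
      show 2 * h (-g) * man m (-g) = 2 * h g * man m g
      rw [hn, man_neg])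
    (fun g => by
      show (h g + h (g * S)) * man m g + (h (g * S) + h (g * S * S)) * man m (g * S) = 0
      rw [mul_S_S, hn, man_S]; ring)
    (fun g => by
      show 2 * h g * man m g + 2 * h (g * R) * man m (g * R) +
        2 * h (g * R * R) * man m (g * R * R) = 0
      have h1 := H.mul_R g
      have h2 := H.mul_R (g * R)
      have h3 := man_R m g
      rw [h2, h1]
      linear_combination 2 * h g * h3)
  have ζn : ∀ g, ζ (-g) = ζ g := fun g => by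
    rw [← mul_S_S, ζS, ζS]
    show ζ g + (h g + h (g * S)) * man m g + (h (g * S) + h (g * S * S)) * man m (g * S) = ζ g
    rw [mul_S_S, hn, man_S]; ring
  refine ⟨ζ, fun g => ?_, fun γ g => ?_⟩
  · rw [mul_T, ζn, ζR, ζS]
    show ζ g + (h g + h (g * S)) * man m g + 2 * h (g * S) * man m (g * S) - ζ g = _
    rw [man_S]; ring
  · have hL := man_LInv hm
    have key := ext_unique (Φ := fun x => ζ (γ * x))
      (Φ' := fun x => ζ x + 2 * φ (Additive.ofMul γ) * prF m ci x)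
      (fun x => by
        show ζ (γ * (x * S)) - ζ (γ * x) = ζ (x * S) + 2 * φ (Additive.ofMul γ) * prF m ci (x * S) -
          (ζ x + 2 * φ (Additive.ofMul γ) * prF m ci x)
        rw [← mul_assoc, ζS, ζS, prF_S]
        show ζ (γ * x) + (h (γ * x) + h (γ * x * S)) * man m (γ * x) - ζ (γ * x) =
          ζ x + (h x + h (x * S)) * man m x + _ - _
        rw [mul_assoc (γ : SL(2, ℤ)) x S, H.left, H.left, hL γ γ.2]; ring)
      (fun x => by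
        show ζ (γ * (x * R)) - ζ (γ * x) = ζ (x * R) + 2 * φ (Additive.ofMul γ) * prF m ci (x * R) -
          (ζ x + 2 * φ (Additive.ofMul γ) * prF m ci x)
        rw [← mul_assoc, ζR, ζR, prF_R]
        show ζ (γ * x) + 2 * h (γ * x) * man m (γ * x) - ζ (γ * x) =
          ζ x + 2 * h x * man m x + _ - _
        rw [H.left, hL γ γ.2]; ring) g
    have hF1 : prF m ci 1 = 0 := by
      rw [prF, ac_one]; exact Fermat.Agent.H41.Symb.self m _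
    simp only [mul_one, ζ1, hF1, mul_zero, add_zero, sub_zero] at key
    linear_combination key

variable [Finite (SL(2, ℤ) ⧸ Γ)] [IsAddTorsionFree R']

lemma cosum_pot_T {φ : Additive Γ →+ R'} {h : SL(2, ℤ) → R'} (H : IsPot Γ φ h) :
    cosum Γ (fun g => h (g * T) - h g) = 0 := by
  have e1 : cosum Γ (fun g => h (g * T) - h g) = cosum Γ (fun g => h (g * S) - h g) := by
    refine cosum_congr fun g => ?_
    rw [mul_T, H.neg, H.mul_R]
  rw [e1]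
  have hl : LInv Γ (fun g => h (g * S) - h g) := H.diff_LInv S
  have e2 := cosum_mul_right hl S
  have e3 : cosum Γ (fun g => h (g * S * S) - h (g * S)) = - cosum Γ (fun g => h (g * S) - h g) := by
    rw [← cosum_neg]
    refine cosum_congr fun g => ?_
    rw [mul_S_S, H.neg]; ring
  rw [e3] at e2
  have : (2 : ℕ) • cosum Γ (fun g => h (g * S) - h g) = 0 := by
    rw [two_nsmul]
    nth_rewrite 1 [← e2]
    rw [neg_add_cancel]
  exact (smul_eq_zero_iff_right (by norm_num)).mp this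

/-- `Ξ` is a quadratic cocycle for `(φ, m)`. -/
def IsXi (Γ : Subgroup SL(2, ℤ)) (m : Symb R' (OnePoint ℚ) R') (φ : Additive Γ →+ R')
    (Ξ : Γ → R') : Prop :=
  ∀ s t : Γ, Ξ (s * t) = Ξ s + Ξ t + 2 * φ (Additive.ofMul s) * prF m ci t

omit [Finite (SL(2, ℤ) ⧸ Γ)] in
lemma exists_isXi {m : Symb R' (OnePoint ℚ) R'}
    (hm : m ∈ inv R' (OnePoint ℚ) R' (Γ.map (mapGL ℚ))) (φ : Additive Γ →+ R') :
    ∃ Ξ, IsXi Γ m φ Ξ := by
  obtain ⟨h, H⟩ := exists_isPot φ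
  obtain ⟨ζ, -, hζ⟩ := exists_zeta0 hm H
  exact ⟨fun γ => ζ γ, fun s t => hζ s t⟩

/-- Primitive adapted to an arbitrary cocycle and an arbitrary base point. -/
theorem exists_zeta {m : Symb R' (OnePoint ℚ) R'}
    (hm : m ∈ inv R' (OnePoint ℚ) R' (Γ.map (mapGL ℚ))) {φ : Additive Γ →+ R'} {Ξ : Γ → R'}
    (hΞ : IsXi Γ m φ Ξ) (b : OnePoint ℚ) :
    ∃ ζ : SL(2, ℤ) → R',
      (∀ (γ : Γ) g, ζ (γ * g) = Ξ γ + ζ g + 2 * φ (Additive.ofMul γ) * prF m b g) ∧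
      cosum Γ (fun g => ζ (g * T) - ζ g) = - dpair R' Γ ⟨m, hm⟩ φ := by
  obtain ⟨h, H⟩ := exists_isPot φ
  obtain ⟨ζ0, hζT, hζ⟩ := exists_zeta0 hm H
  -- the difference of the two cocycles
  let ψ : Additive Γ →+ R' := AddMonoidHom.mk' (fun γ => Ξ γ.toMul - ζ0 γ.toMul) (by
    intro a c
    show Ξ (a.toMul * c.toMul) - ζ0 ((a.toMul * c.toMul : Γ) : SL(2, ℤ)) = _
    have h1 := hΞ a.toMul c.toMul
    have h2 := hζ a.toMul c.toMul
    rw [h1, Subgroup.coe_mul, h2]; ring)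
  have hψ : ∀ γ : Γ, ψ (Additive.ofMul γ) = Ξ γ - ζ0 γ := fun γ => rfl
  obtain ⟨k, K⟩ := exists_isPot ψ
  set κ : R' := m.1 ci b with hκ
  have hF : ∀ g, prF m b g = prF m ci g + κ := fun g => by
    rw [prF, prF, hκ, m.2]
  refine ⟨fun g => ζ0 g + k g + 2 * κ * h g, fun γ g => ?_, ?_⟩
  · show ζ0 (γ * g) + k (γ * g) + 2 * κ * h (γ * g) = _
    rw [hζ, K.left, H.left, hψ, hF]; ring
  · have e : ∀ g, (fun g => ζ0 g + k g + 2 * κ * h g) (g * T) -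
        (fun g => ζ0 g + k g + 2 * κ * h g) g =
        (- ((h (g * S) - h g) * man m g) + (k (g * T) - k g)) + 2 * κ * (h (g * T) - h g) := by
      intro g
      rw [← hζT]; ring
    rw [cosum_congr e, cosum_add, cosum_add, cosum_mul, cosum_pot_T K, cosum_pot_T H, cosum_neg,
      dpair_apply _ H]
    ring

/-- **Cusp formula for the pairing.** -/
theorem dpair_eq_csum (hneg : -1 ∈ Γ) {m : Symb R' (OnePoint ℚ) R'}
    (hm : m ∈ inv R' (OnePoint ℚ) R' (Γ.map (mapGL ℚ))) {φ : Additive Γ →+ R'} {Ξ : Γ → R'}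
    (hΞ : IsXi Γ m φ Ξ) (b : OnePoint ℚ) (q : OnePoint ℚ → R')
    (hq : ∀ (c : OnePoint ℚ) (t : Γ), IsGen (Γ.map (mapGL ℚ)) c (mapGL ℚ (t : SL(2, ℤ))) →
      q c = Ξ t + 2 * φ (Additive.ofMul t) * m.1 c b) :
    dpair R' Γ ⟨m, hm⟩ φ = - csum (Γ.map (mapGL ℚ)) q ∧
      (∀ h ∈ Γ.map (mapGL ℚ), ∀ c, q (h • c) = q c) := by
  obtain ⟨ζ, hζ, hsum⟩ := exists_zeta hm hΞ b
  have hL : LInv Γ (fun g => ζ (g * T) - ζ g) := by
    intro γ hγ g
    show ζ (γ * g * T) - ζ (γ * g) = ζ (g * T) - ζ g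
    rw [mul_assoc, hζ ⟨γ, hγ⟩ g, hζ ⟨γ, hγ⟩ (g * T), prF_T]; ring
  have hq' : ∀ g n, IsPer Γ g n → q (ac g ci) = ζ (g * T ^ n) - ζ g := by
    intro g n hn
    have hgen := isGen_of_isPer hn
    rw [hq (ac g ci) ⟨_, hn.mem⟩ hgen]
    have e : ζ (g * T ^ n) = Ξ ⟨_, hn.mem⟩ + ζ g +
        2 * φ (Additive.ofMul ⟨_, hn.mem⟩) * prF m b g := by
      rw [← hζ ⟨_, hn.mem⟩ g]
      congr 1
      show _ = g * T ^ n * g⁻¹ * g
      group
    rw [e]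
    show _ = _ + _ + 2 * _ * m.1 (ac g ci) b - _
    ring
  constructor
  · rw [← cosum_eq_csum Γ hneg ζ hL q hq', hsum, neg_neg]
  · rintro _ ⟨γ, hγ, rfl⟩ c
    obtain ⟨g, rfl⟩ := exists_ac c
    obtain ⟨n, hn⟩ := exists_isPer Γ g
    have e1 : mapGL ℚ γ • ac g ci = ac (γ * g) ci := (ac_mul γ g ci).symm
    have hn' : IsPer Γ (γ * g) n := by
      have hiff : ∀ k : ℕ, γ * g * T ^ k * (γ * g)⁻¹ ∈ Γ ↔ g * T ^ k * g⁻¹ ∈ Γ := by
        intro k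
        have e : γ * g * T ^ k * (γ * g)⁻¹ = γ * (g * T ^ k * g⁻¹) * γ⁻¹ := by group
        rw [e, Γ.mul_mem_cancel_right (Γ.inv_mem hγ), Γ.mul_mem_cancel_left hγ]
      exact ⟨hn.pos, (hiff n).mpr hn.mem, fun k hk hk' => hn.min k hk ((hiff k).mp hk')⟩
    rw [e1, hq' _ _ hn', hq' _ _ hn, mul_assoc, hζ ⟨γ, hγ⟩ g, hζ ⟨γ, hγ⟩ (g * T ^ n), prF_T_pow]
    ring

end Zeta

section Nat

variable {R' : Type*} [CommRing R'] [IsAddTorsionFree R'] {Γ₁ Γ₂ : Subgroup SL(2, ℤ)}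
  [Finite (SL(2, ℤ) ⧸ Γ₁)] [Finite (SL(2, ℤ) ⧸ Γ₂)]

/-- **Invariance of the pairing under conjugation by `w ∈ GL₂⁺(ℚ)`.** -/
theorem dpair_slash (hneg₁ : -1 ∈ Γ₁) (hneg₂ : -1 ∈ Γ₂) {w : GL (Fin 2) ℚ} (hw : 0 < dt w)
    (hH : ∀ g, g ∈ Γ₁.map (mapGL ℚ) ↔ w * g * w⁻¹ ∈ Γ₂.map (mapGL ℚ))
    {m : Symb R' (OnePoint ℚ) R'} (hm : m ∈ inv R' (OnePoint ℚ) R' (Γ₂.map (mapGL ℚ)))
    (hm' : slash w m ∈ inv R' (OnePoint ℚ) R' (Γ₁.map (mapGL ℚ)))
    {φ₁ : Additive Γ₁ →+ R'} {φ₂ : Additive Γ₂ →+ R'}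
    (hφ : ∀ (s : Γ₁) (t : Γ₂), mapGL ℚ (t : SL(2, ℤ)) = w * mapGL ℚ (s : SL(2, ℤ)) * w⁻¹ →
      φ₁ (Additive.ofMul s) = φ₂ (Additive.ofMul t)) :
    dpair R' Γ₁ ⟨slash w m, hm'⟩ φ₁ = dpair R' Γ₂ ⟨m, hm⟩ φ₂ := by
  classical
  -- the conjugation map
  have hc : ∀ s : Γ₁, ∃ t : Γ₂, mapGL ℚ (t : SL(2, ℤ)) = w * mapGL ℚ (s : SL(2, ℤ)) * w⁻¹ := by
    intro s
    obtain ⟨t, ht, e⟩ := (hH _).mp (Subgroup.mem_map_of_mem (mapGL ℚ) s.2)
    exact ⟨⟨t, ht⟩, e⟩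
  choose C hC using hc
  have hCmul : ∀ s t, C (s * t) = C s * C t := by
    intro s t
    apply Subtype.ext
    apply mapGL_injective
    rw [hC, Subgroup.coe_mul, Subgroup.coe_mul, map_mul, map_mul, hC, hC]
    group
  obtain ⟨Ξ₂, hΞ₂⟩ := exists_isXi hm φ₂
  have hΞ₁ : IsXi Γ₁ (slash w m) φ₁ (fun s => Ξ₂ (C s)) := by
    intro s t
    show Ξ₂ (C (s * t)) = _
    rw [hCmul, hΞ₂, hφ s (C s) (hC s)]
    congr 2
    -- periods
    show m.1 (mapGL ℚ (C t : SL(2, ℤ)) • ci) ci = m.1 (w • mapGL ℚ (t : SL(2, ℤ)) • ci) (w • ci)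
    rw [Fermat.Agent.H41.per_indep hm (Subgroup.mem_map_of_mem (mapGL ℚ) (C t).2) ci (w • ci), hC,
      mul_smul, mul_smul, inv_smul_smul]
  set b : OnePoint ℚ := ci with hb
  -- the cusp function for `Γ₂`
  let q₂ : OnePoint ℚ → R' := fun c =>
    if h : ∃ t : Γ₂, IsGen (Γ₂.map (mapGL ℚ)) c (mapGL ℚ (t : SL(2, ℤ))) then
      Ξ₂ h.choose + 2 * φ₂ (Additive.ofMul h.choose) * m.1 c b else 0
  have hq₂ : ∀ (c : OnePoint ℚ) (t : Γ₂), IsGen (Γ₂.map (mapGL ℚ)) c (mapGL ℚ (t : SL(2, ℤ))) →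
      q₂ c = Ξ₂ t + 2 * φ₂ (Additive.ofMul t) * m.1 c b := by
    intro c t ht
    have h : ∃ t : Γ₂, IsGen (Γ₂.map (mapGL ℚ)) c (mapGL ℚ (t : SL(2, ℤ))) := ⟨t, ht⟩
    have e : h.choose = t := by
      apply Subtype.ext
      apply mapGL_injective
      exact h.choose_spec.unique ht
    show (if h : ∃ t : Γ₂, IsGen (Γ₂.map (mapGL ℚ)) c (mapGL ℚ (t : SL(2, ℤ))) then
      Ξ₂ h.choose + 2 * φ₂ (Additive.ofMul h.choose) * m.1 c b else 0) = _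
    rw [dif_pos h, e]
  obtain ⟨r₂, hinv⟩ := dpair_eq_csum hneg₂ hm hΞ₂ b q₂ hq₂
  obtain ⟨r₁, -⟩ := dpair_eq_csum hneg₁ hm' hΞ₁ (w⁻¹ • b) (fun c => q₂ (w • c)) (by
    intro c t ht
    have ht' := ht.conj hw hH
    rw [← hC] at ht'
    show q₂ (w • c) = _
    rw [hq₂ _ _ ht', hφ t (C t) (hC t)]
    show _ = _ + 2 * _ * m.1 (w • c) (w • w⁻¹ • b)
    rw [smul_inv_smul])
  rw [r₁, r₂, csum_conj hH (fun c => rfl) hinv]

end Nat

end Fermat.Agent.H71
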