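import Mathlib

/-!
# The modular group as a free product (helper71)

Universal property of `PSL₂(ℤ) = ℤ/2 * ℤ/3`, obtained from the ping-pong lemma:
for a group `K` and `s t : K` with `s ^ 2 = 1`, `t ^ 3 = 1`, there is a homomorphism
`SL(2, ℤ) →* K` with `S ↦ s`, `S * T ↦ t`.
-/

set_option autoImplicit false

namespace Fermat.Agent.H71

open Matrix ModularGroup Matrix.SpecialLinearGroup Monoid
open scoped MatrixGroups Pointwise

section CyclicHom

variable {K : Type*} [Group K]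

/-- The homomorphism `ℤ/m → K` given by an element of order dividing `m`. -/
noncomputable def zm (m : ℕ) (k : K) (hk : k ^ m = 1) : Multiplicative (ZMod m) →* K :=
  AddMonoidHom.toMultiplicativeLeft (ZMod.lift m ⟨zmultiplesHom (Additive K) (Additive.ofMul k), by
    rw [zmultiplesHom_apply, natCast_zsmul, ← ofMul_pow, hk, ofMul_one]⟩)

lemma zm_ofAdd (m : ℕ) (k : K) (hk : k ^ m = 1) (i : ℤ) :
    zm m k hk (Multiplicative.ofAdd (i : ZMod m)) = k ^ i := by
  simp [zm, ZMod.lift_coe]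

lemma zm_one (m : ℕ) (k : K) (hk : k ^ m = 1) :
    zm m k hk (Multiplicative.ofAdd (1 : ZMod m)) = k := by
  have := zm_ofAdd m k hk 1
  simpa using this

end CyclicHom

/-- `R = S T`, of order three in `PSL₂(ℤ)`. -/
def R : SL(2, ℤ) := S * T

lemma R_eq : R = ⟨!![0, -1; 1, 1], by norm_num [Matrix.det_fin_two_of]⟩ := by
  ext i j
  fin_cases i <;> fin_cases j <;>
    simp [R, ModularGroup.S, ModularGroup.T, Matrix.mul_apply, Fin.sum_univ_two]

lemma coe_R : (R : Matrix (Fin 2) (Fin 2) ℤ) = !![0, -1; 1, 1] := by rw [R_eq]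

lemma S_sq : S ^ 2 = -1 := by
  ext i j
  fin_cases i <;> fin_cases j <;> simp [pow_two, ModularGroup.S, Matrix.mul_apply,
    Fin.sum_univ_two]

lemma R_cube : R ^ 3 = -1 := by
  ext i j
  fin_cases i <;> fin_cases j <;> simp [R_eq, pow_succ, Matrix.mul_apply,
    Fin.sum_univ_two]

/-- The action of `SL(2, ℤ)` on `P¹(ℚ)` as a homomorphism. -/
noncomputable def cuspPerm : SL(2, ℤ) →* Equiv.Perm (OnePoint ℚ) :=
  (MulAction.toPermHom (GL (Fin 2) ℚ) (OnePoint ℚ)).comp (mapGL ℚ)

lemma cuspPerm_apply (g : SL(2, ℤ)) (x : OnePoint ℚ) : cuspPerm g x = mapGL ℚ g • x := rfl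

lemma cuspPerm_neg (g : SL(2, ℤ)) : cuspPerm (-g) = cuspPerm g := by
  ext x
  rw [cuspPerm_apply, cuspPerm_apply]
  induction x using OnePoint.rec with
  | infty =>
    rw [OnePoint.smul_infty_eq_ite, OnePoint.smul_infty_eq_ite]
    simp [mapGL, neg_div_neg_eq]
  | coe x =>
    rw [OnePoint.smul_some_eq_ite, OnePoint.smul_some_eq_ite]
    have h1 : (mapGL ℚ (-g)) 1 0 * x + (mapGL ℚ (-g)) 1 1 =
      -((mapGL ℚ g) 1 0 * x + (mapGL ℚ g) 1 1) := by simp [mapGL]; ring
    have h2 : (mapGL ℚ (-g)) 0 0 * x + (mapGL ℚ (-g)) 0 1 =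
      -((mapGL ℚ g) 0 0 * x + (mapGL ℚ g) 0 1) := by simp [mapGL]; ring
    simp only [h1, h2, neg_eq_zero, neg_div_neg_eq]

lemma cuspPerm_S_sq : cuspPerm S ^ 2 = 1 := by
  rw [← map_pow, S_sq, cuspPerm_neg, map_one]

lemma cuspPerm_R_cube : cuspPerm R ^ 3 = 1 := by
  rw [← map_pow, R_cube, cuspPerm_neg, map_one]

lemma cuspPerm_S_some (x : ℚ) (hx : x ≠ 0) :
    cuspPerm S (x : OnePoint ℚ) = ((-1 / x : ℚ) : OnePoint ℚ) := by
  rw [cuspPerm_apply, OnePoint.smul_some_eq_ite]
  simp [ModularGroup.S, mapGL, hx]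

lemma cuspPerm_R_some (x : ℚ) (hx : x + 1 ≠ 0) :
    cuspPerm R (x : OnePoint ℚ) = ((-1 / (x + 1) : ℚ) : OnePoint ℚ) := by
  rw [cuspPerm_apply, OnePoint.smul_some_eq_ite]
  simp [R_eq, mapGL, hx]

/-- orders -/
def ord2 : Bool → ℕ
  | false => 2
  | true => 3

/-- the two cyclic groups -/
abbrev HH (b : Bool) : Type := Multiplicative (ZMod (ord2 b))

/-- ping-pong sets -/
def PP : Bool → Set (OnePoint ℚ)
  | false => {x | ∃ y : ℚ, 0 < y ∧ x = y}
  | true => {x | ∃ y : ℚ, y < 0 ∧ x = y}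

/-- The universal map out of the free product given by elements `s, t`. -/
noncomputable def famHom {K : Type*} [Group K] (s t : K) (hs : s ^ 2 = 1) (ht : t ^ 3 = 1) :
    ∀ b : Bool, HH b →* K
  | false => zm 2 s hs
  | true => zm 3 t ht

lemma zmod2_cases (x : Multiplicative (ZMod 2)) (hx : x ≠ 1) :
    x = Multiplicative.ofAdd (((1 : ℤ) : ZMod 2)) := by
  revert x; decide

lemma zmod3_cases (x : Multiplicative (ZMod 3)) (hx : x ≠ 1) :
    x = Multiplicative.ofAdd (((1 : ℤ) : ZMod 3)) ∨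
      x = Multiplicative.ofAdd (((2 : ℤ) : ZMod 3)) := by
  revert x; decide

theorem freeProd_injective : Function.Injective
    (CoprodI.lift (famHom (cuspPerm S) (cuspPerm R) cuspPerm_S_sq cuspPerm_R_cube)) := by
  refine CoprodI.lift_injective_of_ping_pong
    (famHom (cuspPerm S) (cuspPerm R) cuspPerm_S_sq cuspPerm_R_cube)
    (Or.inr ⟨true, ?_⟩) PP ?_ ?_ ?_
  · show 3 ≤ Cardinal.mk (Multiplicative (ZMod 3))
    rw [Cardinal.mk_fintype]
    simp
  · rintro (_ | _)
    · exact ⟨((1 : ℚ) : OnePoint ℚ), 1, by norm_num, rfl⟩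
    · exact ⟨((-1 : ℚ) : OnePoint ℚ), -1, by norm_num, rfl⟩
  · rintro (_ | _) (_ | _) hij
    · exact absurd rfl hij
    · rw [Function.onFun, Set.disjoint_left]
      rintro _ ⟨y, hy, rfl⟩ ⟨z, hz, h⟩
      rw [OnePoint.coe_eq_coe] at h
      exact absurd hz (by rw [← h]; exact not_lt.mpr hy.le)
    · rw [Function.onFun, Set.disjoint_left]
      rintro _ ⟨y, hy, rfl⟩ ⟨z, hz, h⟩
      rw [OnePoint.coe_eq_coe] at h
      exact absurd hz (by rw [← h]; exact not_lt.mpr hy.le)
    · exact absurd rfl hij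
  · rintro (_ | _) (_ | _) hij
    · exact absurd rfl hij
    · rintro h hh
      rw [zmod2_cases h hh]
      rintro _ ⟨_, ⟨y, hy, rfl⟩, rfl⟩
      refine ⟨-1 / y, div_pos_of_neg_of_neg (by norm_num) hy, ?_⟩
      show (zm 2 (cuspPerm S) cuspPerm_S_sq (Multiplicative.ofAdd (((1 : ℤ) : ZMod 2))))
        (y : OnePoint ℚ) = _
      rw [zm_ofAdd, zpow_one]
      exact cuspPerm_S_some y hy.ne
    · rintro h hh
      have hR1 : ∀ y : ℚ, 0 < y → cuspPerm R (y : OnePoint ℚ) = ((-1 / (y + 1) : ℚ) : OnePoint ℚ) :=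
        fun y hy => cuspPerm_R_some y (by positivity)
      rcases zmod3_cases h hh with rfl | rfl
      · rintro _ ⟨_, ⟨y, hy, rfl⟩, rfl⟩
        refine ⟨-1 / (y + 1), div_neg_of_neg_of_pos (by norm_num) (by positivity), ?_⟩
        show (zm 3 (cuspPerm R) cuspPerm_R_cube (Multiplicative.ofAdd (((1 : ℤ) : ZMod 3))))
          (y : OnePoint ℚ) = _
        rw [zm_ofAdd, zpow_one]
        exact hR1 y hy
      · rintro _ ⟨_, ⟨y, hy, rfl⟩, rfl⟩
        have hy1 : y + 1 ≠ 0 := by positivity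
        have hy2 : -1 / (y + 1) + 1 ≠ 0 := by
          have : -1 / (y + 1) + 1 = y / (y + 1) := by field_simp; ring
          rw [this]; positivity
        refine ⟨-1 / (-1 / (y + 1) + 1), ?_, ?_⟩
        · have : -1 / (-1 / (y + 1) + 1) = -((y + 1) / y) := by
            have : -1 / (y + 1) + 1 = y / (y + 1) := by field_simp; ring
            rw [this]; field_simp
          rw [this]
          have : 0 < (y + 1) / y := by positivity
          linarith
        · show (zm 3 (cuspPerm R) cuspPerm_R_cube (Multiplicative.ofAdd (((2 : ℤ) : ZMod 3))))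
            (y : OnePoint ℚ) = _
          rw [zm_ofAdd, show (2 : ℤ) = ((2 : ℕ) : ℤ) from rfl, zpow_natCast, pow_two,
            Equiv.Perm.mul_apply, hR1 y hy, cuspPerm_R_some _ hy2]
    · exact absurd rfl hij

lemma cuspPerm_mem_range (g : SL(2, ℤ)) : cuspPerm g ∈ (CoprodI.lift
    (famHom (cuspPerm S) (cuspPerm R) cuspPerm_S_sq cuspPerm_R_cube)).range := by
  set F := CoprodI.lift (famHom (cuspPerm S) (cuspPerm R) cuspPerm_S_sq cuspPerm_R_cube) with hF
  have hS : cuspPerm S ∈ F.range := by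
    refine ⟨CoprodI.of (M := HH) (i := false) (Multiplicative.ofAdd (1 : ZMod 2)), ?_⟩
    rw [hF, CoprodI.lift_of]
    exact zm_one 2 _ cuspPerm_S_sq
  have hR : cuspPerm R ∈ F.range := by
    refine ⟨CoprodI.of (M := HH) (i := true) (Multiplicative.ofAdd (1 : ZMod 3)), ?_⟩
    rw [hF, CoprodI.lift_of]
    exact zm_one 3 _ cuspPerm_R_cube
  have hT : cuspPerm T ∈ F.range := by
    have : T = S⁻¹ * R := by rw [R]; group
    rw [this, map_mul, map_inv]
    exact F.range.mul_mem (F.range.inv_mem hS) hR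
  have hg : g ∈ Subgroup.closure {S, T} := by
    rw [SpecialLinearGroup.SL2Z_generators]; trivial
  have hle : Subgroup.closure {S, T} ≤ F.range.comap cuspPerm := by
    rw [Subgroup.closure_le]
    rintro x (rfl | hx)
    · exact hS
    · rw [Set.mem_singleton_iff] at hx; subst hx; exact hT
  exact hle hg

/-- **Universal property of the modular group.** -/
theorem exists_hom {K : Type*} [Group K] (s t : K) (hs : s ^ 2 = 1) (ht : t ^ 3 = 1) :
    ∃ Ψ : SL(2, ℤ) →* K, Ψ S = s ∧ Ψ R = t := by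
  set F := CoprodI.lift (famHom (cuspPerm S) (cuspPerm R) cuspPerm_S_sq cuspPerm_R_cube) with hF
  set e := MonoidHom.ofInjective freeProd_injective with he
  set j : SL(2, ℤ) →* F.range := cuspPerm.codRestrict F.range cuspPerm_mem_range with hj
  refine ⟨(CoprodI.lift (famHom s t hs ht)).comp (e.symm.toMonoidHom.comp j), ?_, ?_⟩
  · show CoprodI.lift (famHom s t hs ht) (e.symm (j S)) = s
    have : e.symm (j S) = CoprodI.of (M := HH) (i := false) (Multiplicative.ofAdd (1 : ZMod 2)) := by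
      rw [MulEquiv.symm_apply_eq]
      apply Subtype.ext
      show cuspPerm S = F _
      rw [hF, CoprodI.lift_of]
      exact (zm_one 2 _ cuspPerm_S_sq).symm
    rw [this, CoprodI.lift_of]
    exact zm_one 2 _ hs
  · show CoprodI.lift (famHom s t hs ht) (e.symm (j R)) = t
    have : e.symm (j R) = CoprodI.of (M := HH) (i := true) (Multiplicative.ofAdd (1 : ZMod 3)) := by
      rw [MulEquiv.symm_apply_eq]
      apply Subtype.ext
      show cuspPerm R = F _
      rw [hF, CoprodI.lift_of]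
      exact (zm_one 3 _ cuspPerm_R_cube).symm
    rw [this, CoprodI.lift_of]
    exact zm_one 3 _ ht

end Fermat.Agent.H71
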