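import Fermat.Agent.H71Pot

/-!
# Perfectness of the duality pairing (helper71)
-/

set_option autoImplicit false

namespace Fermat.Agent.H71

open ModularGroup Matrix.SpecialLinearGroup
open scoped MatrixGroups
open Fermat.Agent.H41 (Symb inv slash)

/-- the stabiliser of `∞` -/
lemma eq_T_zpow_of_ac {g : SL(2, ℤ)} (h : ac g ci = ci) : ∃ k : ℤ, g = T ^ k ∨ g = -T ^ k := by
  rw [ac, OnePoint.smul_infty_eq_self_iff] at h
  have hc : g 1 0 = 0 := by simpa [mapGL] using h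
  have hdet : g 0 0 * g 1 1 - g 0 1 * g 1 0 = 1 := by
    have := g.det_coe
    rwa [Matrix.det_fin_two] at this
  rw [hc, mul_zero, sub_zero] at hdet
  rcases Int.mul_eq_one_iff_eq_one_or_neg_one.mp hdet with ⟨h0, h1⟩ | ⟨h0, h1⟩
  · refine ⟨g 0 1, Or.inl ?_⟩
    ext i j
    rw [ModularGroup.coe_T_zpow]
    fin_cases i <;> fin_cases j <;> simp [h0, h1, hc]
  · refine ⟨-g 0 1, Or.inr ?_⟩
    ext i j
    rw [Matrix.SpecialLinearGroup.coe_neg, ModularGroup.coe_T_zpow]
    fin_cases i <;> fin_cases j <;> simp [h0, h1, hc]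

section SymbolOfManin

variable {R' : Type*} [CommRing R'] {A : Type*} [AddCommGroup A] [Module R' A]

/-- primitive of a symbol on the group -/
lemma symb_ext_of_man {m n : Symb R' (OnePoint ℚ) A} (h : ∀ g, man m g = man n g) : m = n := by
  have key : ∀ g : SL(2, ℤ), m.1 (ac g ci) ci = n.1 (ac g ci) ci := by
    intro g
    induction g using ind_SR with
    | h1 => rw [ac_one, Fermat.Agent.H41.Symb.self, Fermat.Agent.H41.Symb.self]
    | hS g ih =>
      rw [ac_mul, ac_S_ci, ← m.2 (ac g c0) (ac g ci) ci, ← n.2 (ac g c0) (ac g ci) ci, ih]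
      congr 1
      exact h g
    | hR g ih =>
      rw [ac_mul, ac_R_ci, ← m.2 (ac g c0) (ac g ci) ci, ← n.2 (ac g c0) (ac g ci) ci, ih]
      congr 1
      exact h g
  have key2 : ∀ x, m.1 x ci = n.1 x ci := by
    intro x
    obtain ⟨g, rfl⟩ := exists_ac x
    exact key g
  apply Fermat.Agent.H41.Symb.ext
  intro x y
  rw [← m.2 x ci y, ← n.2 x ci y, Fermat.Agent.H41.Symb.symm m ci y,
    Fermat.Agent.H41.Symb.symm n ci y, key2, key2]

lemma man_injective : Function.Injective (fun (m : Symb R' (OnePoint ℚ) A) => man m) :=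
  fun _ _ h => symb_ext_of_man fun g => congrFun h g

/-- Every function satisfying Manin's relations comes from a modular symbol. -/
theorem exists_symb (e : SL(2, ℤ) → A) (heS : ∀ g, e (g * S) = - e g)
    (heR : ∀ g, e g + e (g * R) + e (g * R * R) = 0) :
    ∃ m : Symb R' (OnePoint ℚ) A, ∀ g, man m g = e g := by
  have hen : ∀ g, e (-g) = e g := fun g => by rw [← mul_S_S, heS, heS, neg_neg]
  obtain ⟨Φ, hΦ1, hΦS, hΦR⟩ := exists_ext e e hen hen (fun g => by rw [heS]; abel) heR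
  have hneg : ∀ g, Φ (-g) = Φ g := fun g => by rw [← mul_S_S, hΦS, hΦS, heS]; abel
  have hT : ∀ g, Φ (g * T) = Φ g := fun g => by
    rw [mul_T, hneg, hΦR, hΦS, heS]; abel
  have hTk : ∀ (k : ℕ) g, Φ (g * T ^ k) = Φ g := by
    intro k
    induction k with
    | zero => intro g; simp
    | succ k ih => intro g; rw [pow_succ, ← mul_assoc, hT, ih]
  have hTz : ∀ (k : ℤ) g, Φ (g * T ^ k) = Φ g := by
    intro k g
    rcases Int.eq_nat_or_neg k with ⟨n, rfl | rfl⟩
    · rw [zpow_natCast, hTk]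
    · have := hTk n (g * T ^ (-(n : ℤ)))
      rw [mul_assoc, ← zpow_natCast, ← zpow_add, neg_add_cancel, zpow_zero, mul_one] at this
      exact this.symm
  have hwd : ∀ g g' : SL(2, ℤ), ac g ci = ac g' ci → Φ g = Φ g' := by
    intro g g' h
    have h1 : ac (g'⁻¹ * g) ci = ci := by
      rw [ac_mul, h, ← ac_mul, inv_mul_cancel, ac_one]
    obtain ⟨k, hk | hk⟩ := eq_T_zpow_of_ac h1
    · have : g = g' * T ^ k := by rw [← hk]; group
      rw [this, hTz]
    · have : g = -(g' * T ^ k) := by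
        rw [← mul_neg, ← hk]; group
      rw [this, hneg, hTz]
  let F : OnePoint ℚ → A := fun x => Φ (exists_ac x).choose
  have hF : ∀ g, F (ac g ci) = Φ g := fun g => hwd _ _ (exists_ac (ac g ci)).choose_spec
  refine ⟨⟨fun x y => F x - F y, fun x y z => sub_add_sub_cancel _ _ _⟩, fun g => ?_⟩
  show F (ac g c0) - F (ac g ci) = e g
  rw [hF, ← ac_S_ci, ← ac_mul, hF, hΦS]; abel

theorem exists_symb_inv (Γ : Subgroup SL(2, ℤ)) (e : SL(2, ℤ) → A) (he : LInv Γ e)
    (heS : ∀ g, e (g * S) = - e g) (heR : ∀ g, e g + e (g * R) + e (g * R * R) = 0) :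
    ∃ m ∈ inv R' (OnePoint ℚ) A (Γ.map (mapGL ℚ)), ∀ g, man m g = e g := by
  obtain ⟨m, hm⟩ := exists_symb (R' := R') e heS heR
  refine ⟨m, ?_, hm⟩
  rintro _ ⟨γ, hγ, rfl⟩
  apply symb_ext_of_man
  intro g
  rw [hm, ← he γ hγ g, ← hm]
  show m.1 (mapGL ℚ γ • _) (mapGL ℚ γ • _) = m.1 _ _
  rw [ac_mul, ac_mul]

end SymbolOfManin

section HomOf

variable {A : Type*} [AddCommGroup A] {Γ : Subgroup SL(2, ℤ)}

/-- A left invariant odd function defines a homomorphism. -/
theorem exists_hom_of_odd (w : SL(2, ℤ) → A) (hw : LInv Γ w) (hwS : ∀ g, w (g * S) = - w g) :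
    ∃ (φ : Additive Γ →+ A) (h : SL(2, ℤ) → A), IsPot Γ φ h ∧ ∀ g, h (g * S) - h g = w g := by
  have hwn : ∀ g, w (-g) = w g := fun g => by rw [← mul_S_S, hwS, hwS, neg_neg]
  obtain ⟨h, h1, hS, hR⟩ := exists_ext w (fun _ => 0) hwn (fun _ => rfl)
    (fun g => by rw [hwS]; abel) (fun g => by abel)
  have hleft : ∀ γ ∈ Γ, ∀ g, h (γ * g) = h γ + h g := by
    intro γ hγ g
    have := ext_unique (Φ := fun x => h (γ * x)) (Φ' := h)
      (fun g => by
        show h _ - h _ = _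
        rw [← mul_assoc, hS, hS, hw γ hγ]; abel)
      (fun g => by
        show h _ - h _ = _
        rw [← mul_assoc, hR, hR]; abel) g
    simp only [mul_one, h1, sub_zero] at this
    rw [← this]; abel
  refine ⟨⟨⟨fun γ => h γ.toMul, by simpa using h1⟩, fun γ δ => ?_⟩, h, ⟨fun g => ?_, fun γ g => ?_⟩,
    fun g => ?_⟩
  · exact hleft _ γ.toMul.2 _
  · rw [hR, add_zero]
  · exact hleft _ γ.2 g
  · rw [hS]; abel

/-- A homomorphism is determined by the increments of a potential. -/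
lemma hom_eq_of_pot {φ ψ : Additive Γ →+ A} {h k : SL(2, ℤ) → A} (H : IsPot Γ φ h)
    (K : IsPot Γ ψ k) (e : ∀ g, h (g * S) - h g = k (g * S) - k g) : φ = ψ := by
  have key := ext_unique (Φ := h) (Φ' := k) e
    (fun g => by rw [H.mul_R, K.mul_R, sub_self, sub_self])
  refine DFunLike.ext _ _ fun γ => ?_
  have h1 := H.left γ.toMul 1
  have k1 := K.left γ.toMul 1
  have h2 := key (γ.toMul * 1)
  rw [h1, k1] at h2
  have h3 : φ (Additive.ofMul (γ.toMul)) = ψ (Additive.ofMul (γ.toMul)) := by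
    simpa using h2
  exact h3

lemma hom_eq_zero_of_pot {φ : Additive Γ →+ A} {h : SL(2, ℤ) → A} (H : IsPot Γ φ h)
    (hl : LInv Γ h) : φ = 0 := by
  refine DFunLike.ext _ _ fun γ => ?_
  have h1 := H.left γ.toMul 1
  rw [hl _ γ.toMul.2] at h1
  have : φ (Additive.ofMul (γ.toMul)) = 0 := by
    rw [eq_comm, add_eq_right] at h1; exact h1
  exact this

end HomOf

section Delta

variable (R' : Type*) [CommRing R'] {Γ : Subgroup SL(2, ℤ)}

open Classical in
/-- the characteristic function of the coset `Γ x` -/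
noncomputable def dl (Γ : Subgroup SL(2, ℤ)) (x g : SL(2, ℤ)) : R' := if g * x⁻¹ ∈ Γ then 1 else 0

lemma dl_LInv (x : SL(2, ℤ)) : LInv Γ (dl R' Γ x) := by
  intro γ hγ g
  unfold dl
  congr 1
  rw [mul_assoc, Γ.mul_mem_cancel_left hγ]

lemma dl_mul_right (x y g : SL(2, ℤ)) : dl R' Γ (x * y) (g * y) = dl R' Γ x g := by
  unfold dl
  congr 1
  rw [show g * y * (x * y)⁻¹ = g * x⁻¹ by group]

lemma dl_left {γ : SL(2, ℤ)} (hγ : γ ∈ Γ) (x g : SL(2, ℤ)) :
    dl R' Γ (γ * x) g = dl R' Γ x g := by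
  unfold dl
  congr 1
  rw [show g * (γ * x)⁻¹ = g * x⁻¹ * γ⁻¹ by group, Γ.mul_mem_cancel_right (Γ.inv_mem hγ)]

lemma dl_neg_left (hneg : -1 ∈ Γ) (x g : SL(2, ℤ)) : dl R' Γ (-x) g = dl R' Γ x g := by
  rw [← dl_left R' hneg x g, neg_one_mul]

lemma dl_neg_right (hneg : -1 ∈ Γ) (x g : SL(2, ℤ)) : dl R' Γ x (-g) = dl R' Γ x g := by
  rw [← dl_LInv R' x (-1) hneg g, neg_one_mul]

variable [Finite (SL(2, ℤ) ⧸ Γ)]

lemma cosum_dl (x : SL(2, ℤ)) {f : SL(2, ℤ) → R'} (hf : LInv Γ f) :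
    cosum Γ (fun g => dl R' Γ x g * f g) = f x := by
  classical
  letI := Fintype.ofFinite (SL(2, ℤ) ⧸ Γ)
  unfold cosum
  rw [Finset.sum_eq_single ((x⁻¹ : SL(2, ℤ)) : SL(2, ℤ) ⧸ Γ)]
  · have : dl R' Γ x ((x⁻¹ : SL(2, ℤ)) : SL(2, ℤ) ⧸ Γ).out⁻¹ = 1 := by
      unfold dl
      rw [if_pos]
      have h1 : (((((x⁻¹ : SL(2, ℤ)) : SL(2, ℤ) ⧸ Γ).out : SL(2, ℤ))) : SL(2, ℤ) ⧸ Γ) =
        ((x⁻¹ : SL(2, ℤ)) : SL(2, ℤ) ⧸ Γ) := QuotientGroup.out_eq' _
      rw [QuotientGroup.eq] at h1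
      exact h1
    show dl R' Γ x _ * f _ = f x
    rw [this, one_mul]
    refine hf.eq_of_mk ?_
    rw [inv_inv]
    exact QuotientGroup.out_eq' _
  · intro y _ hy
    have : dl R' Γ x (y.out)⁻¹ = 0 := by
      unfold dl
      rw [if_neg]
      intro h
      apply hy
      rw [← QuotientGroup.out_eq' y, QuotientGroup.eq]
      exact h
    show dl R' Γ x _ * f _ = 0
    rw [this, zero_mul]
  · intro h; exact absurd (Finset.mem_univ _) h

lemma cosum_dl' (x : SL(2, ℤ)) {f : SL(2, ℤ) → R'} (hf : LInv Γ f) :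
    cosum Γ (fun g => f g * dl R' Γ g x) = f x := by
  rw [← cosum_dl R' x hf]
  refine cosum_congr fun g => ?_
  rw [mul_comm]
  congr 1
  unfold dl
  congr 1
  rw [← Γ.inv_mem_iff]
  congr 1
  group

/-- the odd function attached to a coset -/
noncomputable def od (Γ : Subgroup SL(2, ℤ)) (x g : SL(2, ℤ)) : R' :=
  dl R' Γ x g - dl R' Γ (x * S) g

omit [Finite (SL(2, ℤ) ⧸ Γ)] in
lemma od_LInv (x : SL(2, ℤ)) : LInv Γ (od R' Γ x) := (dl_LInv R' x).sub (dl_LInv R' (x * S))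

omit [Finite (SL(2, ℤ) ⧸ Γ)] in
lemma od_S (hneg : -1 ∈ Γ) (x g : SL(2, ℤ)) : od R' Γ x (g * S) = - od R' Γ x g := by
  unfold od
  rw [dl_mul_right]
  have : dl R' Γ x (g * S) = dl R' Γ (x * S) g := by
    rw [← dl_mul_right R' x S (g * S), mul_S_S, dl_neg_right R' hneg]
  rw [this]; ring

end Delta

section Perfect

variable {R' : Type*} [CommRing R'] {Γ : Subgroup SL(2, ℤ)}
  [Finite (SL(2, ℤ) ⧸ Γ)] [IsAddTorsionFree R']

/-- **Non-degeneracy** on the side of symbols. -/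
theorem dpair_left_injective (hneg : -1 ∈ Γ) {m : inv R' (OnePoint ℚ) R' (Γ.map (mapGL ℚ))}
    (h : ∀ φ, dpair R' Γ m φ = 0) : m = 0 := by
  apply Subtype.ext
  apply symb_ext_of_man
  intro x
  obtain ⟨φ, k, hk, hw⟩ := exists_hom_of_odd (od R' Γ x) (od_LInv R' x) (od_S R' hneg x)
  have h1 := h φ
  rw [dpair_apply m hk] at h1
  have h2 : cosum Γ (fun g => (k (g * S) - k g) * man m.1 g) = man m.1 x - man m.1 (x * S) := by
    rw [← cosum_dl R' x (man_LInv m.2), ← cosum_dl R' (x * S) (man_LInv m.2), ← cosum_sub]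
    refine cosum_congr fun g => ?_
    rw [hw, od]; ring
  rw [h2, man_S, sub_neg_eq_add, ← two_nsmul] at h1
  have h3 : man m.1 x = 0 := (smul_eq_zero_iff_right (by norm_num)).mp h1
  rw [h3]; rfl

/-- A choice of homomorphism attached to a coset. -/
lemma exists_delta_hom (hneg : -1 ∈ Γ) (x : SL(2, ℤ)) :
    ∃ (φ : Additive Γ →+ R') (h : SL(2, ℤ) → R'), IsPot Γ φ h ∧
      ∀ g, h (g * S) - h g = od R' Γ x g :=
  exists_hom_of_odd (od R' Γ x) (od_LInv R' x) (od_S R' hneg x)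

/-- sum of potentials -/
lemma IsPot.sum {ι : Type*} (s : Finset ι) {φ : ι → Additive Γ →+ R'} {h : ι → SL(2, ℤ) → R'}
    (H : ∀ i ∈ s, IsPot Γ (φ i) (h i)) : IsPot Γ (∑ i ∈ s, φ i) (fun g => ∑ i ∈ s, h i g) := by
  refine ⟨fun g => Finset.sum_congr rfl fun i hi => (H i hi).mul_R g, fun γ g => ?_⟩
  rw [AddMonoidHom.finset_sum_apply, ← Finset.sum_add_distrib]
  exact Finset.sum_congr rfl fun i hi => (H i hi).left γ g

/-- **Every functional is represented** by twice... i.e. `2 λ` is represented by a symbol. -/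
theorem exists_dpair_eq (hneg : -1 ∈ Γ) (lam : (Additive Γ →+ R') →ₗ[R'] R') :
    ∃ m : inv R' (OnePoint ℚ) R' (Γ.map (mapGL ℚ)), ∀ φ, dpair R' Γ m φ = 2 * lam φ := by
  choose D H hD hH using fun x => exists_delta_hom (R' := R') hneg x
  set e : SL(2, ℤ) → R' := fun x => lam (D x) with he
  have heS : ∀ x, e (x * S) = - e x := by
    intro x
    have : D (x * S) = - D x := by
      refine hom_eq_of_pot (hD (x * S)) (k := fun g => - H x g) ?_ ?_
      · refine ⟨fun g => by rw [(hD x).mul_R], fun γ g => ?_⟩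
        rw [(hD x).left, AddMonoidHom.neg_apply]; abel
      · intro g
        rw [hH]
        have := hH x g
        rw [show - H x (g * S) - - H x g = - (H x (g * S) - H x g) by ring, this, od, od,
          mul_S_S, dl_neg_left R' hneg]
        ring
    show lam (D (x * S)) = - lam (D x)
    rw [this, map_neg]
  have heL : LInv Γ e := by
    intro γ hγ x
    have : D (γ * x) = D x := by
      refine hom_eq_of_pot (hD (γ * x)) (hD x) ?_
      intro g
      rw [hH, hH, od, od, mul_assoc, dl_left R' hγ, dl_left R' hγ]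
    show lam (D (γ * x)) = lam (D x)
    rw [this]
  have heR : ∀ x, e x + e (x * R) + e (x * R * R) = 0 := by
    intro x
    set u : SL(2, ℤ) → R' := fun g => dl R' Γ x g + dl R' Γ (x * R) g + dl R' Γ (x * R * R) g
      with hu
    have huL : LInv Γ u := ((dl_LInv R' x).add (dl_LInv R' (x * R))).add (dl_LInv R' (x * R * R))
    have hdR : ∀ y g, dl R' Γ (y * R) g = dl R' Γ y (g * R⁻¹) := fun y g => by
      rw [← dl_mul_right R' y R (g * R⁻¹), inv_mul_cancel_right]
    have huR : ∀ g, u (g * R) = u g := by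
      intro g
      show dl R' Γ x (g * R) + dl R' Γ (x * R) (g * R) + dl R' Γ (x * R * R) (g * R) = _
      rw [dl_mul_right, dl_mul_right]
      have : dl R' Γ x (g * R) = dl R' Γ (x * R * R) g := by
        rw [← dl_mul_right R' (x * R * R) R g, mul_R_R_R, dl_neg_left R' hneg]
      rw [this]
      show _ = dl R' Γ x g + dl R' Γ (x * R) g + dl R' Γ (x * R * R) g
      ring
    have hsum : D x + D (x * R) + D (x * R * R) = 0 := by
      have h1 : IsPot Γ (D x + D (x * R) + D (x * R * R))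
        (fun g => H x g + H (x * R) g + H (x * R * R) g) := ((hD x).add (hD (x * R))).add
          (hD (x * R * R))
      have h2 : IsPot Γ (0 : Additive Γ →+ R') (fun g => - u g) := by
        refine ⟨fun g => by rw [huR], fun γ g => ?_⟩
        rw [huL _ γ.2, AddMonoidHom.zero_apply, zero_add]
      refine hom_eq_of_pot h1 h2 fun g => ?_
      have a1 := hH x g
      have a2 := hH (x * R) g
      have a3 := hH (x * R * R) g
      rw [show H x (g * S) + H (x * R) (g * S) + H (x * R * R) (g * S) -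
        (H x g + H (x * R) g + H (x * R * R) g) = (H x (g * S) - H x g) +
        (H (x * R) (g * S) - H (x * R) g) + (H (x * R * R) (g * S) - H (x * R * R) g) by ring,
        a1, a2, a3]
      have hS : ∀ y, dl R' Γ (y * S) g = dl R' Γ y (g * S) := fun y => by
        rw [← dl_mul_right R' y S (g * S), mul_S_S, dl_neg_right R' hneg]
      rw [od, od, od, hS, hS, hS]
      show _ = -(dl R' Γ x (g * S) + dl R' Γ (x * R) (g * S) + dl R' Γ (x * R * R) (g * S)) -
        -(dl R' Γ x g + dl R' Γ (x * R) g + dl R' Γ (x * R * R) g)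
      ring
    show lam (D x) + lam (D (x * R)) + lam (D (x * R * R)) = 0
    rw [← map_add, ← map_add, hsum, map_zero]
  obtain ⟨m, hm, hme⟩ := exists_symb_inv (R' := R') Γ e heL heS heR
  refine ⟨⟨m, hm⟩, fun φ => ?_⟩
  obtain ⟨h, hh⟩ := exists_isPot φ
  rw [dpair_apply _ hh]
  -- `2 φ = ∑_x w(x) D x`
  letI := Fintype.ofFinite (SL(2, ℤ) ⧸ Γ)
  set w : SL(2, ℤ) → R' := fun g => h (g * S) - h g with hw
  have hwL : LInv Γ w := hh.diff_LInv S
  have hwS : ∀ g, w (g * S) = - w g := fun g => by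
    show h (g * S * S) - h (g * S) = - (h (g * S) - h g)
    rw [mul_S_S, hh.neg]; ring
  have h2 : (2 : R') • φ = ∑ x : SL(2, ℤ) ⧸ Γ, w (x.out)⁻¹ • D (x.out)⁻¹ := by
    have P1 : IsPot Γ ((2 : R') • φ) (fun g => (2 : R') • h g) := hh.smul 2
    have P2 : IsPot Γ (∑ x : SL(2, ℤ) ⧸ Γ, w (x.out)⁻¹ • D (x.out)⁻¹)
        (fun g => ∑ x : SL(2, ℤ) ⧸ Γ, w (x.out)⁻¹ • H (x.out)⁻¹ g) :=
      IsPot.sum _ fun x _ => (hD _).smul _
    refine hom_eq_of_pot P1 P2 fun g => ?_
    rw [← Finset.sum_sub_distrib]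
    have e1 : ∀ x : SL(2, ℤ) ⧸ Γ, w (x.out)⁻¹ • H (x.out)⁻¹ (g * S) -
        w (x.out)⁻¹ • H (x.out)⁻¹ g = w (x.out)⁻¹ * dl R' Γ (x.out)⁻¹ g -
          w (x.out)⁻¹ * dl R' Γ (x.out)⁻¹ (g * S) := by
      intro x
      rw [← smul_sub, hH, od, smul_eq_mul, mul_sub]
      congr 2
      rw [← dl_mul_right R' (x.out)⁻¹ S (g * S), mul_S_S, dl_neg_right R' hneg]
    rw [Finset.sum_congr rfl fun x _ => e1 x, Finset.sum_sub_distrib]
    have e2 := cosum_dl' R' g hwL
    have e3 := cosum_dl' R' (g * S) hwL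
    unfold cosum at e2 e3
    rw [e2, e3, hwS]
    show (2 : R') • h (g * S) - (2 : R') • h g = (h (g * S) - h g) - - (h (g * S) - h g)
    rw [smul_eq_mul, smul_eq_mul]; ring
  have h3 : 2 * lam φ = ∑ x : SL(2, ℤ) ⧸ Γ, w (x.out)⁻¹ * e (x.out)⁻¹ := by
    rw [← smul_eq_mul, ← map_smul, h2, map_sum]
    refine Finset.sum_congr rfl fun x _ => ?_
    rw [map_smul, smul_eq_mul]
  rw [h3]
  unfold cosum
  refine Finset.sum_congr rfl fun x _ => ?_
  show _ * man m _ = _
  rw [hme]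

end Perfect

end Fermat.Agent.H71
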