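import Fermat.Agent.H71Cosum
import Fermat.Agent.H41Defs

/-!
# Potentials of homomorphisms and the pairing between modular symbols and homomorphisms (helper71)
-/

set_option autoImplicit false

namespace Fermat.Agent.H71

open ModularGroup Matrix.SpecialLinearGroup
open scoped MatrixGroups
open Fermat.Agent.H41 (Symb inv slash)

/-- the cusp `∞` -/
abbrev ci : OnePoint ℚ := OnePoint.infty
/-- the cusp `0` -/
abbrev c0 : OnePoint ℚ := ((0 : ℚ) : OnePoint ℚ)

/-- action of `SL(2, ℤ)` on cusps -/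
noncomputable abbrev ac (g : SL(2, ℤ)) (x : OnePoint ℚ) : OnePoint ℚ := mapGL ℚ g • x

lemma ac_mul (g h : SL(2, ℤ)) (x : OnePoint ℚ) : ac (g * h) x = ac g (ac h x) := by
  rw [ac, map_mul, mul_smul]

lemma ac_one (x : OnePoint ℚ) : ac 1 x = x := by
  rw [ac, map_one, one_smul]

lemma ac_neg (g : SL(2, ℤ)) (x : OnePoint ℚ) : ac (-g) x = ac g x := by
  have := congrArg (fun p : Equiv.Perm (OnePoint ℚ) => p x) (cuspPerm_neg g)
  exact this

lemma ac_S_ci : ac S ci = c0 := by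
  rw [ac, OnePoint.smul_infty_eq_ite]
  simp [ModularGroup.S, mapGL]

lemma ac_S_c0 : ac S c0 = ci := by
  rw [ac, OnePoint.smul_some_eq_ite]
  simp [ModularGroup.S, mapGL]

lemma ac_R_ci : ac R ci = c0 := by
  rw [ac, OnePoint.smul_infty_eq_ite]
  simp [R_eq, mapGL]

lemma ac_RR_c0 : ac R (ac R c0) = ci := by
  have h1 : ac R c0 = ((-1 : ℚ) : OnePoint ℚ) := by
    rw [ac, OnePoint.smul_some_eq_ite]
    simp [R_eq, mapGL]
  rw [h1, ac, OnePoint.smul_some_eq_ite]
  simp [R_eq, mapGL]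

lemma ac_T_ci : ac T ci = ci := by
  rw [ac, OnePoint.smul_infty_eq_self_iff]
  simp [ModularGroup.T, mapGL]

/-- `SL(2, ℤ)` acts transitively on cusps -/
lemma exists_ac (x : OnePoint ℚ) : ∃ g : SL(2, ℤ), ac g ci = x := by
  obtain ⟨g, hg⟩ := OnePoint.exists_mem_SL2 ℤ x
  exact ⟨g, hg⟩

section Sym

variable {R' : Type*} [CommRing R'] {A : Type*} [AddCommGroup A] [Module R' A]

/-- the Manin function `e(g) = m(g0, g∞)` of a modular symbol -/
noncomputable def man (m : Symb R' (OnePoint ℚ) A) (g : SL(2, ℤ)) : A := m.1 (ac g c0) (ac g ci)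

lemma man_neg (m : Symb R' (OnePoint ℚ) A) (g : SL(2, ℤ)) : man m (-g) = man m g := by
  rw [man, man, ac_neg, ac_neg]

lemma man_S (m : Symb R' (OnePoint ℚ) A) (g : SL(2, ℤ)) : man m (g * S) = - man m g := by
  rw [man, man, ac_mul, ac_mul, ac_S_ci, ac_S_c0]
  exact Fermat.Agent.H41.Symb.symm m _ _

lemma man_R (m : Symb R' (OnePoint ℚ) A) (g : SL(2, ℤ)) :
    man m g + man m (g * R) + man m (g * R * R) = 0 := by
  rw [man, man, man]
  simp only [ac_mul]
  rw [ac_R_ci, ac_RR_c0]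
  have h1 := m.2 (ac g ci) (ac g (ac R c0)) (ac g c0)
  have h2 := m.2 (ac g ci) (ac g c0) (ac g ci)
  rw [Fermat.Agent.H41.Symb.self] at h2
  rw [← h1] at h2
  rw [← h2]; abel

lemma man_LInv {Γ : Subgroup SL(2, ℤ)} {m : Symb R' (OnePoint ℚ) A}
    (hm : m ∈ inv R' (OnePoint ℚ) A (Γ.map (mapGL ℚ))) : LInv Γ (man m) := by
  intro γ hγ g
  rw [man, man, ac_mul, ac_mul]
  exact Fermat.Agent.H41.inv_apply hm (Subgroup.mem_map_of_mem _ hγ) _ _

lemma man_add (m n : Symb R' (OnePoint ℚ) A) (g : SL(2, ℤ)) :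
    man (m + n) g = man m g + man n g := rfl

lemma man_smul (c : R') (m : Symb R' (OnePoint ℚ) A) (g : SL(2, ℤ)) :
    man (c • m) g = c • man m g := rfl

end Sym

section Pot

variable {A : Type*} [AddCommGroup A] (Γ : Subgroup SL(2, ℤ))

/-- `h` is an `R`-invariant potential of the homomorphism `φ`. -/
structure IsPot (φ : Additive Γ →+ A) (h : SL(2, ℤ) → A) : Prop where
  mul_R : ∀ g, h (g * R) = h g
  left : ∀ (γ : Γ) (g : SL(2, ℤ)), h (γ * g) = φ (Additive.ofMul γ) + h g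

variable {Γ}

lemma IsPot.neg {φ : Additive Γ →+ A} {h : SL(2, ℤ) → A} (H : IsPot Γ φ h) (g : SL(2, ℤ)) :
    h (-g) = h g := by
  rw [← mul_R_R_R, H.mul_R, H.mul_R, H.mul_R]

lemma IsPot.add {φ ψ : Additive Γ →+ A} {h k : SL(2, ℤ) → A} (H : IsPot Γ φ h)
    (K : IsPot Γ ψ k) : IsPot Γ (φ + ψ) (fun g => h g + k g) := by
  refine ⟨fun g => by rw [H.mul_R, K.mul_R], fun γ g => ?_⟩
  rw [H.left, K.left, AddMonoidHom.add_apply]; abel

lemma IsPot.sub {φ ψ : Additive Γ →+ A} {h k : SL(2, ℤ) → A} (H : IsPot Γ φ h)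
    (K : IsPot Γ ψ k) : IsPot Γ (φ - ψ) (fun g => h g - k g) := by
  refine ⟨fun g => by rw [H.mul_R, K.mul_R], fun γ g => ?_⟩
  rw [H.left, K.left, AddMonoidHom.sub_apply]; abel

lemma IsPot.smul {R' : Type*} [CommRing R'] [Module R' A] (c : R') {φ : Additive Γ →+ A}
    {h : SL(2, ℤ) → A} (H : IsPot Γ φ h) : IsPot Γ (c • φ) (fun g => c • h g) := by
  refine ⟨fun g => by rw [H.mul_R], fun γ g => ?_⟩
  rw [H.left, smul_add]; rfl

/-- Elements of finite order are killed by homomorphisms to a torsion free group. -/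
lemma hom_eq_zero_of_pow [IsAddTorsionFree A] (φ : Additive Γ →+ A) {γ : Γ} {n : ℕ} (hn : n ≠ 0)
    (h : γ ^ n = 1) : φ (Additive.ofMul γ) = 0 := by
  have : n • φ (Additive.ofMul γ) = 0 := by
    rw [← map_nsmul, ← ofMul_pow, h, ofMul_one, map_zero]
  exact (smul_eq_zero_iff_right hn).mp this

lemma R_pow_six : R ^ 6 = 1 := by
  rw [show (6 : ℕ) = 3 + 3 from rfl, pow_add, R_cube, neg_mul_neg, one_mul]

/-- key well-definedness -/
lemma hom_eq_of_eq [IsAddTorsionFree A] (φ : Additive Γ →+ A) {γ₁ γ₂ : Γ} {a : SL(2, ℤ)}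
    {k₁ k₂ : ℤ} (h : (γ₁ : SL(2, ℤ)) * a * R ^ k₁ = γ₂ * a * R ^ k₂) :
    φ (Additive.ofMul γ₁) = φ (Additive.ofMul γ₂) := by
  have e : ((γ₂⁻¹ * γ₁ : Γ) : SL(2, ℤ)) = a * R ^ (k₂ - k₁) * a⁻¹ := by
    push_cast
    have : (γ₁ : SL(2, ℤ)) = γ₂ * a * R ^ k₂ * (R ^ k₁)⁻¹ * a⁻¹ := by
      rw [← h]; group
    rw [this, zpow_sub]; group
  have h6 : (γ₂⁻¹ * γ₁) ^ 6 = 1 := by
    apply Subtype.ext
    rw [Subgroup.coe_pow, e, conj_pow, ← zpow_natCast, ← zpow_mul, mul_comm, zpow_mul,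
      zpow_natCast, R_pow_six, one_zpow, mul_one, mul_inv_cancel]
    rfl
  have := hom_eq_zero_of_pow φ (by norm_num) h6
  rw [ofMul_mul, map_add, ofMul_inv, map_neg, neg_add_eq_zero] at this
  exact this.symm

/-- double coset relation `Γ \ SL(2, ℤ) / ⟨R⟩` -/
def dcRel (Γ : Subgroup SL(2, ℤ)) : Setoid SL(2, ℤ) where
  r a b := ∃ γ : Γ, ∃ k : ℤ, b = γ * a * R ^ k
  iseqv := {
    refl := fun a => ⟨1, 0, by simp⟩
    symm := by
      rintro a b ⟨γ, k, rfl⟩
      exact ⟨γ⁻¹, -k, by push_cast; group⟩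
    trans := by
      rintro a b c ⟨γ, k, rfl⟩ ⟨γ', k', rfl⟩
      exact ⟨γ' * γ, k + k', by push_cast; rw [zpow_add]; group⟩ }

/-- Existence of `R`-invariant potentials. -/
theorem exists_isPot [IsAddTorsionFree A] (φ : Additive Γ →+ A) : ∃ h, IsPot Γ φ h := by
  letI := dcRel Γ
  let rep : SL(2, ℤ) → SL(2, ℤ) := fun g => (Quotient.mk (dcRel Γ) g).out
  have hrep : ∀ g, ∃ γ : Γ, ∃ k : ℤ, g = γ * rep g * R ^ k := fun g => Quotient.mk_out g
  have hrep' : ∀ a b, (dcRel Γ).r a b → rep a = rep b := fun a b h => by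
    show (Quotient.mk (dcRel Γ) a).out = (Quotient.mk (dcRel Γ) b).out
    rw [Quotient.sound h]
  choose γ k hγ using hrep
  refine ⟨fun g => φ (Additive.ofMul (γ g)), ⟨fun g => ?_, fun δ g => ?_⟩⟩
  · have h1 : rep g = rep (g * R) := hrep' _ _ ⟨1, 1, by simp⟩
    refine hom_eq_of_eq φ (a := rep g) (k₁ := k (g * R)) (k₂ := k g + 1) ?_
    rw [zpow_add, zpow_one, ← mul_assoc (((γ g : Γ) : SL(2, ℤ)) * rep g), ← hγ g]
    conv_rhs => rw [hγ (g * R)]
    rw [h1]
  · have h1 : rep g = rep (δ * g) := hrep' _ _ ⟨δ, 0, by simp⟩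
    show φ (Additive.ofMul (γ (δ * g))) = _
    rw [← map_add, ← ofMul_mul]
    refine hom_eq_of_eq φ (a := rep g) (k₁ := k (δ * g)) (k₂ := k g) ?_
    have e2 : ((δ * γ g : Γ) : SL(2, ℤ)) * rep g * R ^ k g = δ * g := by
      push_cast
      rw [mul_assoc, mul_assoc, ← mul_assoc ((γ g : Γ) : SL(2, ℤ)), ← hγ g]
    rw [e2]
    conv_rhs => rw [hγ (δ * g)]
    rw [h1]

/-- Two potentials of the same homomorphism. -/
lemma IsPot.sub_LInv {φ : Additive Γ →+ A} {h k : SL(2, ℤ) → A} (H : IsPot Γ φ h)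
    (K : IsPot Γ φ k) : LInv Γ (fun g => h g - k g) := by
  intro γ hγ g
  show h _ - k _ = _
  rw [H.left ⟨γ, hγ⟩, K.left ⟨γ, hγ⟩]; abel

lemma IsPot.diff_LInv {φ : Additive Γ →+ A} {h : SL(2, ℤ) → A} (H : IsPot Γ φ h)
    (x : SL(2, ℤ)) : LInv Γ (fun g => h (g * x) - h g) := by
  intro γ hγ g
  show h _ - h _ = _
  rw [mul_assoc, H.left ⟨γ, hγ⟩, H.left ⟨γ, hγ⟩]; abel

end Pot

section Pairing

variable {R' : Type*} [CommRing R'] (Γ : Subgroup SL(2, ℤ)) [Finite (SL(2, ℤ) ⧸ Γ)]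

/-- the pairing on the level of potentials -/
noncomputable def bpair (e h : SL(2, ℤ) → R') : R' := cosum Γ (fun g => (h (g * S) - h g) * e g)

variable {Γ}

/-- Invariant, `R`-invariant functions pair to zero. -/
lemma bpair_eq_zero [IsAddTorsionFree R'] {e u : SL(2, ℤ) → R'} (he : LInv Γ e)
    (heS : ∀ g, e (g * S) = - e g) (heR : ∀ g, e g + e (g * R) + e (g * R * R) = 0)
    (hu : LInv Γ u) (huR : ∀ g, u (g * R) = u g) : bpair Γ e u = 0 := by
  have hue : LInv Γ (fun g => u g * e g) := fun γ hγ g => by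
    show u _ * e _ = _
    rw [hu γ hγ, he γ hγ]
  have huneg : ∀ g, u (-g) = u g := fun g => by rw [← mul_R_R_R, huR, huR, huR]
  -- the sum over `R`-orbits vanishes
  have h3 : cosum Γ (fun g => u g * e g) = 0 := by
    have e1 : cosum Γ (fun g => u g * e g + u g * e (g * R) + u g * e (g * R * R)) = 0 := by
      rw [← cosum_zero (Γ := Γ) (A := R')]
      refine cosum_congr fun g => ?_
      rw [← mul_add, ← mul_add, heR, mul_zero]
    have e2 : cosum Γ (fun g => u g * e (g * R)) = cosum Γ (fun g => u g * e g) := by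
      rw [← cosum_mul_right hue R]
      refine cosum_congr fun g => ?_
      rw [huR]
    have e3 : cosum Γ (fun g => u g * e (g * R * R)) = cosum Γ (fun g => u g * e g) := by
      rw [← cosum_mul_right hue (R * R)]
      refine cosum_congr fun g => ?_
      rw [← mul_assoc, huR, huR]
    rw [cosum_add, cosum_add, e2, e3] at e1
    have h3 : (3 : ℕ) • cosum Γ (fun g => u g * e g) = 0 := by
      rw [← e1]; simp only [succ_nsmul, zero_nsmul, zero_add]
    exact (smul_eq_zero_iff_right (by norm_num)).mp h3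
  have hS : cosum Γ (fun g => u (g * S) * e g) = 0 := by
    have : cosum Γ (fun g => u (g * S) * e g) = - cosum Γ (fun g => u g * e g) := by
      rw [← cosum_mul_right hue S, ← cosum_neg]
      refine cosum_congr fun g => ?_
      rw [heS]; ring
    rw [this, h3, neg_zero]
  have : bpair Γ e u = cosum Γ (fun g => u (g * S) * e g) - cosum Γ (fun g => u g * e g) := by
    rw [bpair, ← cosum_sub]
    refine cosum_congr fun g => ?_
    rw [sub_mul]
  rw [this, hS, h3, sub_zero]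

lemma bpair_congr [IsAddTorsionFree R'] {e : SL(2, ℤ) → R'} (he : LInv Γ e)
    (heS : ∀ g, e (g * S) = - e g) (heR : ∀ g, e g + e (g * R) + e (g * R * R) = 0)
    {φ : Additive Γ →+ R'} {h k : SL(2, ℤ) → R'} (H : IsPot Γ φ h) (K : IsPot Γ φ k) :
    bpair Γ e h = bpair Γ e k := by
  have h0 := bpair_eq_zero he heS heR (H.sub_LInv K)
    (fun g => by show h _ - k _ = _; rw [H.mul_R, K.mul_R])
  have : bpair Γ e (fun g => h g - k g) = bpair Γ e h - bpair Γ e k := by
    rw [bpair, bpair, bpair, ← cosum_sub]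
    refine cosum_congr fun g => ?_
    ring
  rw [this] at h0
  exact sub_eq_zero.mp h0

lemma bpair_add_left (e e' h : SL(2, ℤ) → R') :
    bpair Γ (fun g => e g + e' g) h = bpair Γ e h + bpair Γ e' h := by
  rw [bpair, bpair, bpair, ← cosum_add]
  exact cosum_congr fun g => by ring

lemma bpair_add_right (e h h' : SL(2, ℤ) → R') :
    bpair Γ e (fun g => h g + h' g) = bpair Γ e h + bpair Γ e h' := by
  rw [bpair, bpair, bpair, ← cosum_add]
  exact cosum_congr fun g => by ring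

lemma bpair_smul_left (c : R') (e h : SL(2, ℤ) → R') :
    bpair Γ (fun g => c * e g) h = c * bpair Γ e h := by
  rw [bpair, bpair, ← cosum_mul]
  exact cosum_congr fun g => by ring

lemma bpair_smul_right (c : R') (e h : SL(2, ℤ) → R') :
    bpair Γ e (fun g => c * h g) = c * bpair Γ e h := by
  rw [bpair, bpair, ← cosum_mul]
  exact cosum_congr fun g => by ring

/-- a chosen potential -/
noncomputable def pot {A : Type*} [AddCommGroup A] [IsAddTorsionFree A] (φ : Additive Γ →+ A) :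
    SL(2, ℤ) → A := (exists_isPot φ).choose

lemma pot_spec {A : Type*} [AddCommGroup A] [IsAddTorsionFree A] (φ : Additive Γ →+ A) :
    IsPot Γ φ (pot φ) := (exists_isPot φ).choose_spec

variable (Γ R') in
/-- **The duality pairing** between `Γ`-invariant modular symbols and homomorphisms `Γ → R`. -/
noncomputable def dpair [IsAddTorsionFree R'] :
    inv R' (OnePoint ℚ) R' (Γ.map (mapGL ℚ)) →ₗ[R'] (Additive Γ →+ R') →ₗ[R'] R' :=
  LinearMap.mk₂ R' (fun m φ => bpair Γ (man m.1) (pot φ))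
    (fun m n φ => bpair_add_left _ _ _)
    (fun c m φ => bpair_smul_left _ _ _)
    (fun m φ ψ => by
      rw [← bpair_add_right]
      exact bpair_congr (man_LInv m.2) (man_S _) (man_R _) (pot_spec _)
        ((pot_spec φ).add (pot_spec ψ)))
    (fun c m φ => by
      rw [smul_eq_mul, ← bpair_smul_right]
      exact bpair_congr (man_LInv m.2) (man_S _) (man_R _) (pot_spec _)
        ((pot_spec φ).smul c))

lemma dpair_apply [IsAddTorsionFree R'] (m : inv R' (OnePoint ℚ) R' (Γ.map (mapGL ℚ)))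
    {φ : Additive Γ →+ R'} {h : SL(2, ℤ) → R'} (H : IsPot Γ φ h) :
    dpair R' Γ m φ = cosum Γ (fun g => (h (g * S) - h g) * man m.1 g) :=
  bpair_congr (man_LInv m.2) (man_S _) (man_R _) (pot_spec _) H

end Pairing

end Fermat.Agent.H71
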