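import Fermat.Agent.H37TrEq
import Fermat.Agent.H70Comp
import Fermat.Agent.H71Key

/-!
# Bridge between symbols and the Hecke families on `H¹(Γ₀(M), A)` (helper71)

* `gl : DN N →* GL (Fin 2) ℚ`.
* `famS h m = ∑ i, m | α_i` for a Hecke family `h`.
* `cl hM x₀ hm` : the class in `H¹(Γ₀(M), A)` of an invariant symbol.
* `opH_cl` : Hecke families act on classes through `famS`.
* `opH_tFam_cl`, `opH_res_cl`, `opH_deg_cl`, `opH_tr_cl`, `opH_nu_cl`.
-/

set_option autoImplicit false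

open CongruenceSubgroup Matrix.SpecialLinearGroup
open scoped MatrixGroups

noncomputable section

namespace Fermat.Agent.H71.R

open Fermat.Agent.H70.Coh (DN gam HFam H1 Z1 psiRep homH1 homZ1 tFam ut slash_psiRep_one)
open Fermat.Agent.H41 (Symb inv PG G0 tr rho alW hT hd)
open Fermat.Agent.H71 (perHom)

local notation "sl" => Fermat.Agent.H41.slash

section ToGL

variable {N : ℕ}

/-- the rational matrix of an element of the Hecke semigroup -/
def gl : DN N →* GL (Fin 2) ℚ where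
  toFun α := Matrix.GeneralLinearGroup.mkOfDetNeZero (α.1.map (Int.cast : ℤ → ℚ)) (by
    have h : (α.1.map (Int.cast : ℤ → ℚ)).det = ((α.1.det : ℤ) : ℚ) := by
      rw [Matrix.det_fin_two, Matrix.det_fin_two]
      simp
    rw [h]
    exact_mod_cast α.2.1.ne')
  map_one' := by
    apply Units.ext
    change ((1 : DN N).1.map (Int.cast : ℤ → ℚ)) = 1
    ext i j
    fin_cases i <;> fin_cases j <;> simp
  map_mul' α β := by
    apply Units.ext
    change (((α * β : DN N).1).map (Int.cast : ℤ → ℚ)) =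
      (α.1.map (Int.cast : ℤ → ℚ)) * (β.1.map (Int.cast : ℤ → ℚ))
    change ((α.1 * β.1).map (Int.castRingHom ℚ)) = _
    rw [Matrix.map_mul]
    rfl

lemma gl_apply (α : DN N) (i j : Fin 2) : gl α i j = ((α.1 i j : ℤ) : ℚ) := rfl

lemma gl_gam {M : ℕ} (hM : N ∣ M) (γ : Gamma0 M) :
    gl (gam N M hM γ) = mapGL ℚ (γ : SL(2, ℤ)) := by
  apply Units.ext
  ext i j
  change ((((gam N M hM γ).1 i j : ℤ)) : ℚ) = _
  exact (Fermat.Agent.H41.mapGL_apply (γ : SL(2, ℤ)) i j).symm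

lemma gl_gam_mem {M : ℕ} (hM : N ∣ M) (γ : Gamma0 M) : gl (gam N M hM γ) ∈ G0 M := by
  rw [gl_gam]
  exact Subgroup.mem_map_of_mem (mapGL ℚ) γ.2

end ToGL

section Fam

variable {N M M' : ℕ} {hM : N ∣ M} {hM' : N ∣ M'} {R : Type*} [CommRing R] {A : Type*}
  [AddCommGroup A] [Module R A] {X : Type*} [MulAction (GL (Fin 2) ℚ) X]

/-- the action of a Hecke family on symbols -/
def famS (h : HFam (gam N M hM) (gam N M' hM')) : Symb R X A →ₗ[R] Symb R X A :=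
  ∑ i, sl (gl (h.α i))

lemma famS_apply (h : HFam (gam N M hM) (gam N M' hM')) (m : Symb R X A) :
    famS h m = ∑ i, sl (gl (h.α i)) m := by
  rw [famS, LinearMap.sum_apply]

lemma famS_val (h : HFam (gam N M hM) (gam N M' hM')) (m : Symb R X A) (x y : X) :
    (famS h m).1 x y = ∑ i, m.1 (gl (h.α i) • x) (gl (h.α i) • y) := by
  rw [famS_apply, Submodule.coe_sum, Finset.sum_apply, Finset.sum_apply]
  rfl

lemma famS_mem (h : HFam (gam N M hM) (gam N M' hM')) {m : Symb R X A}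
    (hm : m ∈ inv R X A (G0 M)) : famS h m ∈ inv R X A (G0 M') := by
  intro g hg
  obtain ⟨γ, hγ, rfl⟩ := hg
  rw [famS_apply, map_sum, ← Equiv.sum_comp (h.σ ⟨γ, hγ⟩) (fun i => sl (gl (h.α i)) m)]
  refine Finset.sum_congr rfl fun i _ => ?_
  have h1 := congrArg gl (h.spec ⟨γ, hγ⟩ i)
  rw [map_mul, map_mul, gl_gam] at h1
  change gl (h.α i) * mapGL ℚ γ = _ at h1
  rw [← Fermat.Agent.H41.slash_mul, h1, Fermat.Agent.H41.slash_mul, hm _ (gl_gam_mem _ _)]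

variable (hM R)

/-- the class of an invariant symbol -/
def cl (x₀ : X) {m : Symb R X A} (hm : m ∈ inv R X A (G0 M)) :
    H1 (gam N M hM) (psiRep (1 : (ZMod N)ˣ →* Rˣ) A) :=
  homH1 hM R A (perHom (Gamma0 M) x₀ hm)

variable {hM R}

theorem op_per (h : HFam (gam N M hM) (gam N M' hM')) (x₀ : X) {m : Symb R X A}
    (hm : m ∈ inv R X A (G0 M)) :
    h.op (psiRep (1 : (ZMod N)ˣ →* Rˣ) A) (homZ1 hM R A (perHom (Gamma0 M) x₀ hm)) =
      homZ1 hM' R A (perHom (Gamma0 M') x₀ (famS_mem h hm)) := by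
  apply Subtype.ext
  funext γ'
  rw [HFam.op_apply]
  change _ = (famS h m).1 (mapGL ℚ (γ' : SL(2, ℤ)) • x₀) x₀
  rw [famS_val]
  have h1 : ∀ i, Fermat.Agent.H70.Coh.slash (psiRep (1 : (ZMod N)ˣ →* Rˣ) A)
      (h.α (h.σ γ' i)) ((homZ1 hM R A (perHom (Gamma0 M) x₀ hm)).1 (h.δ γ' i)) =
      m.1 (gl (gam N M hM (h.δ γ' i)) • x₀) x₀ := by
    intro i
    rw [slash_psiRep_one, gl_gam]
    rfl
  rw [Finset.sum_congr rfl fun i _ => h1 i]
  have h2 : ∀ i, m.1 (gl (h.α i) • mapGL ℚ (γ' : SL(2, ℤ)) • x₀) (gl (h.α i) • x₀) =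
      m.1 (gl (gam N M hM (h.δ γ' i)) • x₀) x₀ +
        (m.1 (gl (h.α (h.σ γ' i)) • x₀) x₀ - m.1 (gl (h.α i) • x₀) x₀) := by
    intro i
    have h3 := congrArg gl (h.spec γ' i)
    rw [map_mul, map_mul, gl_gam hM'] at h3
    rw [← mul_smul, h3, mul_smul]
    have h4 := Fermat.Agent.H41.inv_apply hm (gl_gam_mem hM (h.δ γ' i))
      (gl (h.α (h.σ γ' i)) • x₀) x₀
    have h5 := m.2 (gl (gam N M hM (h.δ γ' i)) • gl (h.α (h.σ γ' i)) • x₀)
      (gl (gam N M hM (h.δ γ' i)) • x₀) (gl (h.α i) • x₀)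
    have h6 := m.2 (gl (gam N M hM (h.δ γ' i)) • x₀) x₀ (gl (h.α i) • x₀)
    have h7 := Fermat.Agent.H41.Symb.symm m x₀ (gl (h.α i) • x₀)
    rw [← h5, h4, ← h6, h7]
    abel
  rw [Finset.sum_congr rfl fun i _ => h2 i, Finset.sum_add_distrib, Finset.sum_sub_distrib,
    Equiv.sum_comp (h.σ γ') (fun i => m.1 (gl (h.α i) • x₀) x₀), sub_self, add_zero]

/-- **Hecke families act on classes of symbols through `famS`.** -/
theorem opH_cl (h : HFam (gam N M hM) (gam N M' hM')) (x₀ : X) {m : Symb R X A}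
    (hm : m ∈ inv R X A (G0 M)) :
    h.opH (psiRep (1 : (ZMod N)ˣ →* Rˣ) A) (cl hM R x₀ hm) =
      cl hM' R x₀ (famS_mem h hm) := by
  unfold cl
  rw [Fermat.Agent.H70.Coh.homH1_apply, Fermat.Agent.H70.Coh.homH1_apply, HFam.opH_mk, op_per]

lemma cl_congr {x₀ : X} {m m' : Symb R X A} (hm : m ∈ inv R X A (G0 M))
    (hm' : m' ∈ inv R X A (G0 M)) (e : m = m') : cl hM R x₀ hm = cl hM R x₀ hm' := by
  subst e
  rfl

lemma cl_eq_zero_iff {x₀ : X} {m : Symb R X A} (hm : m ∈ inv R X A (G0 M)) :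
    cl hM R x₀ hm = 0 ↔ ∀ γ ∈ G0 M, m.1 (γ • x₀) x₀ = 0 := by
  unfold cl
  rw [LinearEquiv.map_eq_zero_iff]
  constructor
  · rintro h _ ⟨γ, hγ, rfl⟩
    exact DFunLike.congr_fun h (Additive.ofMul ⟨γ, hγ⟩)
  · intro h
    refine DFunLike.ext _ _ fun γ => ?_
    exact h _ (Subgroup.mem_map_of_mem (mapGL ℚ) γ.toMul.2)

lemma cl_add {x₀ : X} {m m' : Symb R X A} (hm : m ∈ inv R X A (G0 M))
    (hm' : m' ∈ inv R X A (G0 M)) :
    cl hM R x₀ (Submodule.add_mem _ hm hm') = cl hM R x₀ hm + cl hM R x₀ hm' := by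
  unfold cl
  rw [← map_add]
  rfl

lemma cl_smul {x₀ : X} {m : Symb R X A} (c : R) (hm : m ∈ inv R X A (G0 M)) :
    cl hM R x₀ (Submodule.smul_mem _ c hm) = c • cl hM R x₀ hm := by
  unfold cl
  rw [← map_smul]
  rfl

lemma cl_sub {x₀ : X} {m m' : Symb R X A} (hm : m ∈ inv R X A (G0 M))
    (hm' : m' ∈ inv R X A (G0 M)) :
    cl hM R x₀ (Submodule.sub_mem _ hm hm') = cl hM R x₀ hm - cl hM R x₀ hm' := by
  unfold cl
  rw [← map_sub]
  rfl

end Fam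

section Conc

variable {N M : ℕ} (hM : N ∣ M) {R : Type*} [CommRing R] {A : Type*}
  [AddCommGroup A] [Module R A] {X : Type*} [MulAction (GL (Fin 2) ℚ) X]

lemma gl_tRep {ℓ : ℕ} (hℓ : ℓ.Prime) (hℓM : ¬ ℓ ∣ M) (x : OnePoint (ZMod ℓ)) :
    gl (Fermat.Agent.H70.Coh.tRep hM hℓ hℓM x) = Fermat.Agent.H41.hrep ℓ x := by
  apply Units.ext
  ext i j
  rw [gl_apply]
  induction x using OnePoint.rec with
  | infty =>
    rw [Fermat.Agent.H41.hrep_infty, Fermat.Agent.H41.hd_eq hℓ.ne_zero]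
    change (((!![(ℓ : ℤ), 0; 0, ((1 : ℕ) : ℤ)] : Matrix (Fin 2) (Fin 2) ℤ) i j : ℤ) : ℚ) = _
    fin_cases i <;> fin_cases j <;>
      simp [Fermat.Agent.H41.mk2_00, Fermat.Agent.H41.mk2_01, Fermat.Agent.H41.mk2_10,
        Fermat.Agent.H41.mk2_11]
  | coe k =>
    rw [Fermat.Agent.H41.hrep_coe, Fermat.Agent.H41.hm_eq hℓ.ne_zero]
    change (((!![((1 : ℕ) : ℤ), (k.val : ℤ); 0, (ℓ : ℤ)] : Matrix (Fin 2) (Fin 2) ℤ) i j : ℤ)
      : ℚ) = _
    fin_cases i <;> fin_cases j <;>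
      simp [Fermat.Agent.H41.mk2_00, Fermat.Agent.H41.mk2_01, Fermat.Agent.H41.mk2_10,
        Fermat.Agent.H41.mk2_11]

lemma famS_tFam {ℓ : ℕ} (hℓ : ℓ.Prime) (hℓM : ¬ ℓ ∣ M) (m : Symb R X A) :
    famS (tFam hM hℓ hℓM) m = hT ℓ m := by
  have : NeZero ℓ := ⟨hℓ.ne_zero⟩
  rw [famS_apply, Fermat.Agent.H41.hT_eq_sum]
  change (∑ i : OnePoint (ZMod ℓ), sl (gl (Fermat.Agent.H70.Coh.tRep hM hℓ hℓM i)) m) = _
  refine Fintype.sum_equiv (Equiv.refl _) _ _ fun x => ?_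
  rw [gl_tRep]
  rfl

/-- `T_ℓ` on classes -/
theorem opH_tFam_cl {ℓ : ℕ} (hℓ : ℓ.Prime) (hℓM : ¬ ℓ ∣ M) (x₀ : X) {m : Symb R X A}
    (hm : m ∈ inv R X A (G0 M)) :
    (tFam hM hℓ hℓM).opH (psiRep (1 : (ZMod N)ˣ →* Rˣ) A) (cl hM R x₀ hm) =
      cl hM R x₀ (Fermat.Agent.H41.hT_mem_inv hℓ hℓM hm) := by
  rw [opH_cl]
  exact cl_congr _ _ (famS_tFam hM hℓ hℓM m)

variable {q : ℕ}

lemma famS_res {M' : ℕ} (hMM' : M ∣ M') (m : Symb R X A) :
    famS (Fermat.Agent.H70.Coh.vFam (M' := M') hM one_pos (Nat.coprime_one_left N)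
      (by rw [mul_one]; exact hMM')) m = m := by
  rw [famS_apply]
  change (∑ _i : Unit, sl (gl (ut N 1 0 1 one_pos one_pos (Nat.coprime_one_left N))) m) = _
  have h1 : ut N 1 0 1 one_pos one_pos (Nat.coprime_one_left N) = 1 := by
    apply Subtype.ext
    change (!![((1 : ℕ) : ℤ), 0; 0, ((1 : ℕ) : ℤ)]) = 1
    ext i j
    fin_cases i <;> fin_cases j <;> simp
  rw [h1, map_one]
  simp

/-- restriction on classes -/
theorem opH_res_cl (x₀ : X) {m : Symb R X A} (hm : m ∈ inv R X A (G0 M)) :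
    (Fermat.Agent.H70.Coh.resFam (q := q) hM).opH (psiRep (1 : (ZMod N)ˣ →* Rˣ) A)
      (cl hM R x₀ hm) =
      cl (Fermat.Agent.H70.Coh.dvd_mul_q hM) R x₀
        (Fermat.Agent.H41.inv_mono (Fermat.Agent.H41.G0_mono (Dvd.intro q rfl)) hm) := by
  rw [opH_cl]
  exact cl_congr _ _ (famS_res hM (Dvd.intro q rfl) m)

lemma gl_ut_hd (hq : 0 < q) (hqN : q.Coprime N) : gl (ut N q 0 1 hq one_pos hqN) = hd q := by
  apply Units.ext
  ext i j
  rw [gl_apply, Fermat.Agent.H41.hd_eq hq.ne']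
  change (((!![(q : ℤ), 0; 0, ((1 : ℕ) : ℤ)] : Matrix (Fin 2) (Fin 2) ℤ) i j : ℤ) : ℚ) = _
  fin_cases i <;> fin_cases j <;>
    simp [Fermat.Agent.H41.mk2_00, Fermat.Agent.H41.mk2_01, Fermat.Agent.H41.mk2_10,
      Fermat.Agent.H41.mk2_11]

lemma famS_deg (hq : q.Prime) (hqN : q.Coprime N) (m : Symb R X A) :
    famS (Fermat.Agent.H70.Coh.degFam hM hq hqN) m = sl (hd q) m := by
  rw [famS_apply]
  change (∑ _i : Unit, sl (gl (ut N q 0 1 hq.pos one_pos hqN)) m) = _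
  rw [gl_ut_hd]
  simp

include hM in
lemma slash_hd_mem (hq : q.Prime) (hqN : q.Coprime N) {m : Symb R X A}
    (hm : m ∈ inv R X A (G0 M)) : sl (hd q) m ∈ inv R X A (G0 (M * q)) := by
  rw [← famS_deg hM hq hqN]
  exact famS_mem _ hm

/-- the degeneracy map on classes -/
theorem opH_deg_cl (hq : q.Prime) (hqN : q.Coprime N) (x₀ : X) {m : Symb R X A}
    (hm : m ∈ inv R X A (G0 M)) :
    (Fermat.Agent.H70.Coh.degFam hM hq hqN).opH (psiRep (1 : (ZMod N)ˣ →* Rˣ) A)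
      (cl hM R x₀ hm) =
      cl (Fermat.Agent.H70.Coh.dvd_mul_q hM) R x₀ (slash_hd_mem hM hq hqN hm) := by
  rw [opH_cl]
  exact cl_congr _ _ (famS_deg hM hq hqN m)

end Conc

section Reps

variable {Γ Γ' : Subgroup SL(2, ℤ)} {ι ι' : Type*} [Fintype ι] [Fintype ι']
  {ρ : ι → SL(2, ℤ)} {ρ' : ι' → SL(2, ℤ)}
  {R : Type*} [CommRing R] {A : Type*} [AddCommGroup A] [Module R A] {X : Type*}
  [MulAction (GL (Fin 2) ℚ) X]

/-- two systems of representatives give the same trace -/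
lemma sum_reps_eq (H : Fermat.Agent.H71.IsReps Γ Γ' ρ) (H' : Fermat.Agent.H71.IsReps Γ Γ' ρ')
    {m : Symb R X A} (hm : m ∈ inv R X A (Γ'.map (mapGL ℚ))) :
    ∑ i, sl (mapGL ℚ (ρ i) : GL (Fin 2) ℚ) m = ∑ j, sl (mapGL ℚ (ρ' j) : GL (Fin 2) ℚ) m := by
  have h1 : ∀ i, ∃ j, ρ i * (ρ' j)⁻¹ ∈ Γ' := fun i => H'.ex _ (H.mem i)
  choose e he using h1
  have hinj : Function.Injective e := by
    intro i j hij
    apply H.uniq
    have h2 := Γ'.mul_mem (he i) (Γ'.inv_mem (he j))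
    rw [hij] at h2
    have e1 : ρ i * (ρ' (e j))⁻¹ * (ρ j * (ρ' (e j))⁻¹)⁻¹ = ρ i * (ρ j)⁻¹ := by group
    rwa [e1] at h2
  have hsurj : Function.Surjective e := by
    intro j
    obtain ⟨i, hi⟩ := H.ex _ (H'.mem j)
    refine ⟨i, H'.uniq _ _ ?_⟩
    have h2 := Γ'.inv_mem (Γ'.mul_mem hi (he i))
    have e1 : (ρ' j * (ρ i)⁻¹ * (ρ i * (ρ' (e i))⁻¹))⁻¹ = ρ' (e i) * (ρ' j)⁻¹ := by group
    rwa [e1] at h2
  have hb : Function.Bijective e := ⟨hinj, hsurj⟩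
  rw [← (Equiv.ofBijective e hb).sum_comp
    (fun j => sl (mapGL ℚ (ρ' j) : GL (Fin 2) ℚ) m)]
  refine Finset.sum_congr rfl fun i _ => ?_
  rw [Equiv.ofBijective_apply]
  have e1 : ρ i = (ρ i * (ρ' (e i))⁻¹) * ρ' (e i) := by group
  rw [e1, map_mul, Fermat.Agent.H41.slash_mul, hm _ (Subgroup.mem_map_of_mem (mapGL ℚ) (he i))]

end Reps

section Tr

variable {N M q : ℕ} (hM : N ∣ M) {R : Type*} [CommRing R] {A : Type*}
  [AddCommGroup A] [Module R A] {X : Type*} [MulAction (GL (Fin 2) ℚ) X]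

open Fermat.Agent.H70.Coh (subQ)

lemma isReps_out :
    Fermat.Agent.H71.IsReps (Gamma0 M) (Gamma0 (M * q))
      (fun i : Quotient (QuotientGroup.rightRel (subQ M q)) => ((i.out : Gamma0 M) : SL(2, ℤ))) := by
  refine ⟨?_, fun i => i.out.2, fun γ hγ => ?_, fun i j hij => ?_⟩
  · intro g hg
    rw [Fermat.Agent.H71.mem_gamma0_iff] at hg ⊢
    refine dvd_trans ?_ hg
    push_cast
    exact Dvd.intro _ rfl
  · refine ⟨Quotient.mk _ ⟨γ, hγ⟩, ?_⟩
    have h1 := HFam.out_mul_inv_mem (subQ M q) ⟨γ, hγ⟩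
    exact h1
  · rw [← Quotient.out_eq i, ← Quotient.out_eq j]
    exact ((HFam.mk_eq_mk (subQ M q)).mpr hij).symm

/-- the trace family of helper70 on symbols -/
lemma famS_tr [NeZero M] [NeZero q] (hq : q.Prime) (hqM : ¬ q ∣ M) {m : Symb R X A}
    (hm : m ∈ inv R X A (G0 (M * q))) :
    famS (Fermat.Agent.H70.Coh.trFam (q := q) hM) m = tr M q m := by
  let i1 : Fintype (Quotient (QuotientGroup.rightRel (subQ M q))) :=
    (Fermat.Agent.H70.Coh.trFam (q := q) hM).fin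
  rw [famS_apply, Fermat.Agent.H41.tr_apply,
    ← sum_reps_eq (isReps_out (M := M) (q := q)) (Fermat.Agent.H71.isReps_rho hq hqM) hm]
  change (∑ i : Quotient (QuotientGroup.rightRel (subQ M q)),
    sl (gl ((1 : DN N) * gam N M hM i.out)) m) = _
  refine Finset.sum_congr rfl fun i _ => ?_
  rw [one_mul, gl_gam]

/-- the trace on classes -/
theorem opH_tr_cl [NeZero M] [NeZero q] (hq : q.Prime) (hqM : ¬ q ∣ M) (x₀ : X)
    {m : Symb R X A} (hm : m ∈ inv R X A (G0 (M * q))) :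
    (Fermat.Agent.H70.Coh.trFam (q := q) hM).opH (psiRep (1 : (ZMod N)ˣ →* Rˣ) A)
      (cl (Fermat.Agent.H70.Coh.dvd_mul_q hM) R x₀ hm) =
      cl hM R x₀ (Fermat.Agent.H41.tr_mem_inv hq hqM hm) := by
  rw [opH_cl]
  exact cl_congr _ _ (famS_tr hM hq hqM hm)

open Fermat.Agent.H37.Tr (AL)

/-- the Atkin--Lehner data of helper41 -/
def alData (h : Nat.Coprime q M) : AL M q :=
  ⟨1, 1, Fermat.Agent.H41.bz M q, Fermat.Agent.H41.bw M q, by
    linear_combination Fermat.Agent.H41.bezout h⟩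

lemma gl_alData (hq : 0 < q) (h : Nat.Coprime q M) :
    gl ((alData h).mat hM hq) = alW h := by
  apply Units.ext
  ext i j
  rw [gl_apply, Fermat.Agent.H37.Tr.AL.mat_val]
  fin_cases i <;> fin_cases j
  · change _ = (alW h) 0 0
    rw [Fermat.Agent.H41.alW_00 h hq.ne']
    simp [alData]
  · change _ = (alW h) 0 1
    rw [Fermat.Agent.H41.alW_01 h hq.ne']
    simp [alData]
  · change _ = (alW h) 1 0
    rw [Fermat.Agent.H41.alW_10 h hq.ne']
    simp [alData]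
  · change _ = (alW h) 1 1
    rw [Fermat.Agent.H41.alW_11 h hq.ne']
    simp [alData]

/-- `ν` on classes -/
theorem opH_nu_cl [NeZero M] [NeZero q] (hq : q.Prime) (h : Nat.Coprime q M) (x₀ : X)
    {m : Symb R X A} (hm : m ∈ inv R X A (G0 (M * q)))
    (hm' : tr M q (sl (alW h) m) ∈ inv R X A (G0 M)) :
    (Fermat.Agent.H70.Coh.nuFam (q := q) hM hq).opH (psiRep (1 : (ZMod N)ˣ →* Rˣ) A)
      (cl (Fermat.Agent.H70.Coh.dvd_mul_q hM) R x₀ hm) = cl hM R x₀ hm' := by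
  have hqM : ¬ q ∣ M := (Nat.Prime.coprime_iff_not_dvd hq).mp h
  rw [← Fermat.Agent.H37.Tr.trFam_wFam (alData h) hM hq hqM,
    Fermat.Agent.H37.Tr.trFam_eq (alData h) hM hq hqM, opH_cl]
  have e : famS (Fermat.Agent.H37.Tr.wFam hM hq.pos (alData h)) m = sl (alW h) m := by
    rw [famS_apply]
    change (∑ _i : Unit, sl (gl ((alData h).mat hM hq.pos)) m) = _
    rw [gl_alData]
    simp
  rw [cl_congr _ (Fermat.Agent.H41.slash_alW_mem h hq.ne_zero hm) e]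
  exact (opH_tr_cl hM hq hqM x₀ (Fermat.Agent.H41.slash_alW_mem h hq.ne_zero hm)).trans
    (cl_congr _ _ rfl)

end Tr

section Exists

variable {N M : ℕ} (hM : N ∣ M) {R : Type*} [CommRing R] {A : Type*}
  [AddCommGroup A] [Module R A]

/-- every homomorphism is the period homomorphism of a symbol on `PG` if `2` is injective -/
theorem exists_perHom_PG (h2 : ∀ a : A, (2 : ℕ) • a = 0 → a = 0)
    (φ : Additive (Gamma0 M) →+ A) :
    ∃ (f : Symb R PG A) (hf : f ∈ inv R PG A (G0 M)),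
      φ = perHom (Gamma0 M) Fermat.Agent.H71.o hf := by
  have h3 : ∀ γ : Gamma0 M, ((γ : SL(2, ℤ)) = 1 ∨ (γ : SL(2, ℤ)) = -1) →
      φ (Additive.ofMul γ) = 0 := by
    rintro γ (h | h)
    · have : γ = 1 := Subtype.ext h
      rw [this, ofMul_one, map_zero]
    · apply h2
      rw [← map_nsmul, ← ofMul_pow]
      have : γ ^ 2 = 1 := by
        apply Subtype.ext
        rw [Subgroup.coe_pow, h]
        simp
      rw [this, ofMul_one, map_zero]
  obtain ⟨f, hf, hfφ⟩ := Fermat.Agent.H71.exists_symb_PG (R' := R) φ h3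
  exact ⟨f, hf, DFunLike.ext _ _ fun γ => (hfφ γ.toMul).symm⟩

/-- every class comes from a symbol on `PG` if `2` is injective on the coefficients -/
theorem exists_cl_PG (h2 : ∀ a : A, (2 : ℕ) • a = 0 → a = 0)
    (y : H1 (gam N M hM) (psiRep (1 : (ZMod N)ˣ →* Rˣ) A)) :
    ∃ (f : Symb R PG A) (hf : f ∈ inv R PG A (G0 M)),
      y = cl hM R (Fermat.Agent.H71.o : PG) hf := by
  obtain ⟨φ, rfl⟩ := (homH1 hM R A).surjective y
  obtain ⟨f, hf, rfl⟩ := exists_perHom_PG (R := R) h2 φ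
  exact ⟨f, hf, rfl⟩

end Exists

end Fermat.Agent.H71.R
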