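import Fermat.Agent.H71RInj

/-!
# Duality with residual coefficients (helper71)

`O` is a principal ideal domain of characteristic zero, `k` a field which is a quotient of `O`.
* `exists_delta_pair`, `dpair_residue_zero`.
* `exists_symb_of_fun` : functionals on `Hom(Γ, O)` with values in `k` are represented by symbols.
* `exists_hom_lift` : homomorphisms `Γ₀(M) → k` lift to `O` (for `Good` levels).
-/

set_option autoImplicit false

open CongruenceSubgroup Matrix.SpecialLinearGroup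
open scoped MatrixGroups

namespace Fermat.Agent.H71.R

open Fermat.Agent.H41 (Symb inv PG G0 hT hd tr alW smap)
open Fermat.Agent.H71 (man dpair gp perHom LInv cosum ac c0 ci)

section Delta

variable {O : Type*} [CommRing O] [IsAddTorsionFree O] {Γ : Subgroup SL(2, ℤ)}
  [Finite (SL(2, ℤ) ⧸ Γ)]

/-- the values of a symbol are obtained from the pairing with explicit homomorphisms -/
theorem exists_delta_pair (hneg : -1 ∈ Γ) (x : SL(2, ℤ)) :
    ∃ φ : Additive Γ →+ O, ∀ m : inv O (OnePoint ℚ) O (Γ.map (mapGL ℚ)),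
      dpair O Γ m φ = 2 * man m.1 x := by
  obtain ⟨φ, k, hk, hw⟩ := Fermat.Agent.H71.exists_delta_hom (R' := O) hneg x
  refine ⟨φ, fun m => ?_⟩
  rw [Fermat.Agent.H71.dpair_apply m hk]
  have h2 : cosum Γ (fun g => (k (g * ModularGroup.S) - k g) * man m.1 g) =
      man m.1 x - man m.1 (x * ModularGroup.S) := by
    rw [← Fermat.Agent.H71.cosum_dl O x (Fermat.Agent.H71.man_LInv m.2),
      ← Fermat.Agent.H71.cosum_dl O (x * ModularGroup.S) (Fermat.Agent.H71.man_LInv m.2),
      ← Fermat.Agent.H71.cosum_sub]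
    refine Fermat.Agent.H71.cosum_congr fun g => ?_
    rw [hw, Fermat.Agent.H71.od]; ring
  rw [h2, Fermat.Agent.H71.man_S, sub_neg_eq_add, two_mul]

/-- if all the values of a symbol vanish in the quotient, so do its pairings -/
theorem dpair_residue_zero {k : Type*} [CommRing k] (π : O →+* k)
    (m : inv O (OnePoint ℚ) O (Γ.map (mapGL ℚ))) (h : ∀ x, π (man m.1 x) = 0)
    (φ : Additive Γ →+ O) : π (dpair O Γ m φ) = 0 := by
  obtain ⟨p, hp⟩ := Fermat.Agent.H71.exists_isPot φ
  rw [Fermat.Agent.H71.dpair_apply m hp]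
  unfold cosum
  rw [map_sum]
  refine Finset.sum_eq_zero fun x _ => ?_
  rw [map_mul, h, mul_zero]

end Delta

section Fun

variable {O k : Type*} [CommRing O] [IsAddTorsionFree O] [IsDomain O] [IsPrincipalIdealRing O]
  [Field k] [Algebra O k] {Γ : Subgroup SL(2, ℤ)} [Finite (SL(2, ℤ) ⧸ Γ)]

/-- functionals with values in the quotient field are represented -/
theorem exists_symb_of_fun (hneg : -1 ∈ Γ) (hOk : Function.Surjective (algebraMap O k))
    (lam : (Additive Γ →+ O) →ₗ[O] k) :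
    ∃ m : inv O (OnePoint ℚ) O (Γ.map (mapGL ℚ)), ∀ φ,
      algebraMap O k (dpair O Γ m φ) = 2 * lam φ := by
  have := Fermat.Agent.H71.finite_hom (R' := O) (Γ := Γ)
  have := Fermat.Agent.H71.free_hom (R' := O) (Γ := Γ)
  obtain ⟨μ, hμ⟩ := Module.projective_lifting_property (Algebra.linearMap O k) lam hOk
  obtain ⟨m, hm⟩ := Fermat.Agent.H71.exists_dpair_eq (R' := O) hneg μ
  refine ⟨m, fun φ => ?_⟩
  rw [hm, map_mul, map_ofNat, ← LinearMap.congr_fun hμ φ]
  rfl

end Fun

section Lift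

open Fermat.Agent.H70.Coh

variable {O k : Type} [CommRing O] [CommRing k] {M : ℕ}

/-- `Hom(Γ₀(M), O) → Hom(Γ₀(M), k)` is surjective -/
theorem exists_hom_lift [NeZero M] (hg : Good M O) (π : O →+* k) (hπ : Function.Surjective π)
    (φ : Additive (Gamma0 M) →+ k) :
    ∃ φ' : Additive (Gamma0 M) →+ O, π.toAddMonoidHom.comp φ' = φ := by
  have hM : 1 ∣ M := one_dvd M
  -- the class over `k`
  let c : Z1 (gam 1 M hM) (psiRep (psiMap π (1 : (ZMod 1)ˣ →* Oˣ)) k) :=
    ⟨fun γ => φ (Additive.ofMul γ), fun γ δ => by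
      have h1 : slash (psiRep (psiMap π (1 : (ZMod 1)ˣ →* Oˣ)) k) (gam 1 M hM δ)
          (φ (Additive.ofMul γ)) = φ (Additive.ofMul γ) := by
        rw [slash_psiRep, psiMap_apply, MonoidHom.one_apply, Units.val_one, map_one, one_smul]
      rw [h1]
      exact φ.map_add (Additive.ofMul γ) (Additive.ofMul δ)⟩
  obtain ⟨x, hx⟩ := h1S_surjective hM (1 : (ZMod 1)ˣ →* Oˣ) hg rfl π hπ
    (H1.mk (gam 1 M hM) (psiRep (psiMap π (1 : (ZMod 1)ˣ →* Oˣ)) k) c)
  obtain ⟨φ', rfl⟩ := (homH1 hM O O).surjective x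
  refine ⟨φ', ?_⟩
  rw [homH1_apply, h1S_mk, ← sub_eq_zero, ← map_sub] at hx
  obtain ⟨a, ha⟩ := (Submodule.Quotient.mk_eq_zero _).mp hx
  refine DFunLike.ext _ _ fun γ => ?_
  have h1 := congrArg (fun z : Z1 (gam 1 M hM) (psiRep (psiMap π (1 : (ZMod 1)ˣ →* Oˣ)) k) =>
    z.1 γ.toMul) ha
  change slash (psiRep (psiMap π (1 : (ZMod 1)ˣ →* Oˣ)) k) _ a - a =
    π (φ' γ) - φ γ at h1
  rw [slash_psiRep, psiMap_apply, MonoidHom.one_apply, Units.val_one, map_one, one_smul,
    sub_self] at h1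
  exact (sub_eq_zero.mp h1.symm)

end Lift

end Fermat.Agent.H71.R
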