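import Fermat.Agent.H59Loc

/-!
# Joint eigenvectors with a prescribed residual eigensystem (helper71)

* `exists_eigen` : a nonzero finite dimensional stable subspace on which every `s` with `θ s ≠ 0`
  acts injectively contains an eigenvector for `θ`.
* `act_prod_apply`, `act_dual_apply` : the action on products and duals.
-/

set_option autoImplicit false

namespace Fermat.Agent.H71.R

open Fermat.Agent.H59

section Eig

variable {O k ι H : Type*} [CommRing O] [Field k] [Algebra O k] [AddCommGroup H] [Module k H]
  [Module O H] [IsScalarTower O k H]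

/-- the cyclic submodule generated by a vector -/
noncomputable def cyc (T : ι → Module.End k H) (hT : ∀ i j, T i * T j = T j * T i)
    (hOk : Function.Surjective (algebraMap O k)) (v : H) : Submodule k H where
  carrier := {w | ∃ P : MvPolynomial ι O, act T hT P v = w}
  add_mem' := by
    rintro _ _ ⟨P, rfl⟩ ⟨Q, rfl⟩
    exact ⟨P + Q, by rw [map_add, LinearMap.add_apply]⟩
  zero_mem' := ⟨0, by rw [map_zero, LinearMap.zero_apply]⟩
  smul_mem' := by
    rintro c _ ⟨P, rfl⟩
    obtain ⟨a, rfl⟩ := hOk c
    refine ⟨MvPolynomial.C a * P, ?_⟩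
    rw [map_mul, act_C, Module.End.mul_apply, algebraMap_smul]
    rfl

theorem exists_eigen (T : ι → Module.End k H) (hT : ∀ i j, T i * T j = T j * T i)
    (hOk : Function.Surjective (algebraMap O k)) (θ : MvPolynomial ι O →+* k)
    (hθ : ∀ a, θ (MvPolynomial.C a) = algebraMap O k a)
    (V : Submodule k H) [Module.Finite k V] (hV : V ≠ ⊥) (hst : ∀ i, ∀ v ∈ V, T i v ∈ V)
    (hinj : ∀ s, θ s ≠ 0 → ∀ v ∈ V, act T hT s v = 0 → v = 0) :
    ∃ v ∈ V, v ≠ 0 ∧ ∀ P, act T hT P v = θ P • v := by
  have hstP : ∀ (P : MvPolynomial ι O), ∀ v ∈ V, act T hT P v ∈ V := by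
    intro P
    induction P using MvPolynomial.induction_on with
    | C a =>
      intro v hv
      rw [act_C]
      have : (algebraMap O (Module.End k H) a) v = algebraMap O k a • v := by
        rw [algebraMap_smul]; rfl
      rw [this]
      exact V.smul_mem _ hv
    | add P Q hP hQ =>
      intro v hv
      rw [map_add]
      exact V.add_mem (hP v hv) (hQ v hv)
    | mul_X P i hP =>
      intro v hv
      rw [map_mul, act_X]
      exact hP _ (hst i v hv)
  have hle : ∀ v ∈ V, cyc T hT hOk v ≤ V := by
    rintro v hv _ ⟨P, rfl⟩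
    exact hstP P v hv
  have key : ∀ n : ℕ, ∀ v ∈ V, v ≠ 0 → Module.finrank k (cyc T hT hOk v) = n →
      ∃ v ∈ V, v ≠ 0 ∧ ∀ P, act T hT P v = θ P • v := by
    intro n
    induction n using Nat.strong_induction_on with
    | _ n ih =>
      intro v hv hv0 hn
      by_cases hall : ∀ P, θ P = 0 → act T hT P v = 0
      · refine ⟨v, hv, hv0, fun P => ?_⟩
        obtain ⟨a, ha⟩ := hOk (θ P)
        have h1 := hall (P - MvPolynomial.C a) (by rw [map_sub, hθ, ha, sub_self])
        rw [map_sub, act_C, LinearMap.sub_apply, sub_eq_zero] at h1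
        rw [h1, ← ha, algebraMap_smul]
        rfl
      · push Not at hall
        obtain ⟨P, hP, hPv⟩ := hall
        have hw : act T hT P v ∈ V := hstP P v hv
        have hsub : cyc T hT hOk (act T hT P v) ≤ cyc T hT hOk v := by
          rintro _ ⟨Q, rfl⟩
          exact ⟨Q * P, by rw [map_mul, Module.End.mul_apply]⟩
        have : Module.Finite k (cyc T hT hOk v) :=
          Submodule.finiteDimensional_of_le (hle v hv)
        refine ih _ ?_ _ hw hPv rfl
        rw [← hn]
        apply Submodule.finrank_lt_finrank_of_lt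
        refine lt_of_le_of_ne hsub fun heq => ?_
        have h2 : v ∈ cyc T hT hOk (act T hT P v) := by
          rw [heq]
          exact ⟨1, by rw [map_one, Module.End.one_apply]⟩
        obtain ⟨Q, hQ⟩ := h2
        apply hv0
        apply hinj (1 - Q * P) ?_ v hv
        · rw [map_sub, map_mul, map_one, LinearMap.sub_apply, Module.End.mul_apply, hQ,
            Module.End.one_apply, sub_self]
        · rw [map_sub, map_mul, hP, mul_zero, sub_zero, map_one]
          exact one_ne_zero
  obtain ⟨v, hv, hv0⟩ := Submodule.exists_mem_ne_zero_of_ne_bot hV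
  exact key _ v hv hv0 rfl

end Eig

end Fermat.Agent.H71.R
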