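import Fermat.Agent.H71RBr
import Fermat.Agent.H71REig
import Fermat.Agent.H70Mod2
import Fermat.Agent.H41IharaHom

/-!
# The degeneracy maps on the localised modules; injectivity over a field (helper71)
-/

set_option autoImplicit false

open CongruenceSubgroup Matrix.SpecialLinearGroup
open scoped MatrixGroups

namespace Fermat.Agent.H71.R

open Fermat.Agent.H70.Coh Fermat.Agent.H70.Mod Fermat.Agent.H59
open Fermat.Agent.H41 (Symb inv PG G0 hT hd)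

section Maps

variable {N M q : ℕ} (hM : N ∣ M) {S : Set ℕ} {R : Type} [CommRing R] (ψ η : (ZMod N)ˣ →* Rˣ)

lemma away_of_mul (h : Away (M * q) S) : Away M S := fun p hp hd => h p hp (hd.mul_right q)

/-- restriction on `H¹` -/
noncomputable abbrev resL (q : ℕ) : H1 (gam N M hM) (psiRep ψ R) →ₗ[R]
    H1 (gam N (M * q) (dvd_mul_q hM)) (psiRep ψ R) :=
  (resFam (q := q) hM).opH (psiRep ψ R)

/-- the degeneracy map `V_q` on `H¹` -/
noncomputable abbrev degL (hq : q.Prime) (hqN : q.Coprime N) :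
    H1 (gam N M hM) (psiRep ψ R) →ₗ[R] H1 (gam N (M * q) (dvd_mul_q hM)) (psiRep ψ R) :=
  (degFam hM hq hqN).opH (psiRep ψ R)

/-- the trace on `H¹` -/
noncomputable abbrev trL (q : ℕ) [NeZero M] [NeZero q] :
    H1 (gam N (M * q) (dvd_mul_q hM)) (psiRep ψ R) →ₗ[R] H1 (gam N M hM) (psiRep ψ R) :=
  (trFam (q := q) hM).opH (psiRep ψ R)

/-- `ν` on `H¹` -/
noncomputable abbrev nuL [NeZero q] (hq : q.Prime) :
    H1 (gam N (M * q) (dvd_mul_q hM)) (psiRep ψ R) →ₗ[R] H1 (gam N M hM) (psiRep ψ R) :=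
  (nuFam (q := q) hM hq).opH (psiRep ψ R)

variable (hS : Away M S) (hS' : Away (M * q) S)

lemma degL_tw (hq : q.Prime) (hqN : q.Coprime N) (i : Idx S) (x : H1 (gam N M hM) (psiRep ψ R)) :
    degL hM ψ hq hqN (tw hM hS ψ η i x) =
      tw (dvd_mul_q hM) hS' ψ η i (degL hM ψ hq hqN x) := by
  rw [tw_apply, tw_apply, map_smul]
  congr 1
  have h := LinearMap.congr_fun (tFam_vFam_comm (hM := hM) (ρ := psiRep ψ R) i.2.1
    (hS'.not_dvd i) hq.pos hqN dvd_rfl) x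
  rw [HFam.opH_comp, HFam.opH_comp] at h
  exact h

lemma resL_tw (i : Idx S) (x : H1 (gam N M hM) (psiRep ψ R)) :
    resL hM ψ q (tw hM hS ψ η i x) = tw (dvd_mul_q hM) hS' ψ η i (resL hM ψ q x) := by
  rw [tw_apply, tw_apply, map_smul]
  congr 1
  have h := LinearMap.congr_fun (tFam_vFam_comm (hM := hM) (ρ := psiRep ψ R) (M' := M * q) i.2.1
    (hS'.not_dvd i) one_pos (Nat.coprime_one_left N) (by rw [mul_one]; exact Dvd.intro q rfl)) x
  rw [HFam.opH_comp, HFam.opH_comp] at h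
  exact h

lemma trL_tw [NeZero M] [NeZero q] (hq : q.Prime) (hqM : ¬ q ∣ M) (i : Idx S)
    (x : H1 (gam N (M * q) (dvd_mul_q hM)) (psiRep ψ R)) :
    trL hM ψ q (tw (dvd_mul_q hM) hS' ψ η i x) = tw hM hS ψ η i (trL hM ψ q x) := by
  rw [tw_apply, tw_apply, map_smul]
  congr 1
  exact Fermat.Agent.H37.Tr.tFam_trFam' hM hq hqM i.2.1 (hS'.not_dvd i) x

lemma nuL_tw [NeZero q] (hq : q.Prime) (hqM : ¬ q ∣ M) (i : Idx S)
    (x : H1 (gam N (M * q) (dvd_mul_q hM)) (psiRep ψ R)) :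
    nuL hM ψ hq (tw (dvd_mul_q hM) hS' ψ η i x) = tw hM hS ψ η i (nuL hM ψ hq x) := by
  rw [tw_apply, tw_apply, map_smul]
  congr 1
  exact Fermat.Agent.H37.Tr.tFam_nuFam hM hq hqM i.2.1 (hS'.not_dvd i) x

lemma tw_one_apply (i : Idx S) (x : H1 (gam N M hM) (psiRep (1 : (ZMod N)ˣ →* Rˣ) R)) :
    tw (R := R) hM hS 1 1 i x = tH hM 1 i.2.1 (hS.not_dvd i) R x := by
  rw [tw_apply]
  have : (((atIdx hM hS (1 : (ZMod N)ˣ →* Rˣ) i)⁻¹ : Rˣ) : R) = 1 := by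
    have h1 : atIdx hM hS (1 : (ZMod N)ˣ →* Rˣ) i = 1 := rfl
    rw [h1, inv_one, Units.val_one]
  rw [this, one_smul]

end Maps

section Field

variable {N M q : ℕ} (hM : N ∣ M) {S : Set ℕ} {k : Type} [Field k] {O : Type} [CommRing O]

/-- the eigenvalues, as a function on `ℕ` -/
noncomputable def aval (θ : MvPolynomial (Idx S) O →+* k) (ℓ : ℕ) : k := by
  classical
  exact if h : ℓ.Prime ∧ ℓ ∉ S then θ (MvPolynomial.X ⟨ℓ, h⟩) else 0

lemma aval_idx (θ : MvPolynomial (Idx S) O →+* k) (i : Idx S) :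
    aval θ i.1 = θ (MvPolynomial.X i) := by
  classical
  rw [aval, dif_pos i.2]

lemma two_injective_of_ne {k : Type*} [Field k] (h2 : (2 : k) ≠ 0) (a : k)
    (ha : (2 : ℕ) • a = 0) : a = 0 := by
  rw [two_nsmul, ← two_mul] at ha
  exact (mul_eq_zero.mp ha).resolve_left h2

variable [Algebra O k]

/-- a class which is an eigenvector gives periods of symbols which are eigenvectors -/
lemma hT_per_of_cl {ℓ : ℕ} (hℓ : ℓ.Prime) (hℓM : ¬ ℓ ∣ M) {n : Symb k PG k}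
    (hn : n ∈ inv k PG k (G0 M)) (a : k)
    (h : (tFam hM hℓ hℓM).opH (psiRep (1 : (ZMod N)ˣ →* kˣ) k)
      (cl hM k (Fermat.Agent.H71.o : PG) hn) = a • cl hM k (Fermat.Agent.H71.o : PG) hn) :
    ∀ γ ∈ G0 M, (hT ℓ n).1 (γ • Fermat.Agent.H71.o) Fermat.Agent.H71.o =
      a * n.1 (γ • Fermat.Agent.H71.o) Fermat.Agent.H71.o := by
  intro γ hγ
  rw [opH_tFam_cl hM hℓ hℓM, ← cl_smul, ← sub_eq_zero, ← cl_sub, cl_eq_zero_iff] at h
  have h1 := h γ hγ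
  exact sub_eq_zero.mp h1

theorem old_injective_field [NeZero M] (hq : q.Prime) (hqM : ¬ q ∣ M) (hqN : q.Coprime N)
    (hS : Away M S) (hS' : Away (M * q) S) (h2 : (2 : k) ≠ 0)
    (hOk : Function.Surjective (algebraMap O k)) (θ : MvPolynomial (Idx S) O →+* k)
    (hθ : ∀ a, θ (MvPolynomial.C a) = algebraMap O k a) {e : MvPolynomial (Idx S) O}
    (he : IsLocIdem (tw (R := k) hM hS 1 1) (tw_comm hM hS 1 1) θ e)
    (hfin : Module.Finite k (H1 (gam N M hM) (psiRep (1 : (ZMod N)ˣ →* kˣ) k)))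
    (hNE1 : ∃ i : Idx S, (θ (MvPolynomial.X i)) ^ 2 ≠ ((i.1 : k) + 1) ^ 2)
    (hNE2 : ∀ D : ℕ, D ≠ 0 → ∃ i : Idx S, (D : ℤ) ∣ (i.1 : ℤ) - 1 ∧
      θ (MvPolynomial.X i) ≠ (i.1 : k) + 1)
    {x y : H1 (gam N M hM) (psiRep (1 : (ZMod N)ˣ →* kˣ) k)}
    (hx : x ∈ MLoc (R := k) hM hS 1 1 e) (hy : y ∈ MLoc (R := k) hM hS 1 1 e)
    (hxy : resL (R := k) hM 1 q x + degL (R := k) hM 1 hq hqN y = 0) : x = 0 ∧ y = 0 := by
  set T := tw (R := k) hM hS (1 : (ZMod N)ˣ →* kˣ) 1 with hTdef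
  have hTc := tw_comm (R := k) hM hS (1 : (ZMod N)ˣ →* kˣ) 1
  let T2 : Idx S → Module.End k (H1 (gam N M hM) (psiRep (1 : (ZMod N)ˣ →* kˣ) k) ×
      H1 (gam N M hM) (psiRep (1 : (ZMod N)ˣ →* kˣ) k)) := fun i => (T i).prodMap (T i)
  have hT2c : ∀ i j, T2 i * T2 j = T2 j * T2 i := by
    intro i j
    apply LinearMap.ext
    intro z
    have h1 := fun w => LinearMap.congr_fun (hTc i j) w
    exact Prod.ext (h1 z.1) (h1 z.2)
  have hact1 : ∀ (P : MvPolynomial (Idx S) O) z, (act T2 hT2c P z).1 = act T hTc P z.1 := by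
    intro P z
    exact map_act_apply (Λ := k) (Λ' := k) (T := T2) (hT := hT2c) (T' := T) (hT' := hTc)
      (LinearMap.fst k _ _).toAddMonoidHom (fun _ _ => rfl) (fun _ _ => rfl) P z
  have hact2 : ∀ (P : MvPolynomial (Idx S) O) z, (act T2 hT2c P z).2 = act T hTc P z.2 := by
    intro P z
    exact map_act_apply (Λ := k) (Λ' := k) (T := T2) (hT := hT2c) (T' := T) (hT' := hTc)
      (LinearMap.snd k _ _).toAddMonoidHom (fun _ _ => rfl) (fun _ _ => rfl) P z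
  let V : Submodule k (H1 (gam N M hM) (psiRep (1 : (ZMod N)ˣ →* kˣ) k) ×
      H1 (gam N M hM) (psiRep (1 : (ZMod N)ˣ →* kˣ) k)) :=
    ((MLoc (R := k) hM hS 1 1 e).prod (MLoc (R := k) hM hS 1 1 e)) ⊓
      LinearMap.ker ((resL hM 1 q).coprod (degL hM 1 hq hqN))
  have hVmem : ∀ z, z ∈ V ↔ (z.1 ∈ MLoc (R := k) hM hS 1 1 e ∧ z.2 ∈ MLoc (R := k) hM hS 1 1 e) ∧
      resL (R := k) hM 1 q z.1 + degL (R := k) hM 1 hq hqN z.2 = 0 := fun z => Iff.rfl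
  by_contra hcon
  have hV : V ≠ ⊥ := by
    intro hb
    have : (x, y) ∈ V := (hVmem _).mpr ⟨⟨hx, hy⟩, hxy⟩
    rw [hb, Submodule.mem_bot] at this
    exact hcon ⟨congrArg Prod.fst this, congrArg Prod.snd this⟩
  have hst : ∀ i, ∀ z ∈ V, T2 i z ∈ V := by
    intro i z hz
    rw [hVmem] at hz ⊢
    refine ⟨⟨?_, ?_⟩, ?_⟩
    · have := act_mem_loc (T := T) (hT := hTc) (MvPolynomial.X i) hz.1.1
      rwa [act_X] at this
    · have := act_mem_loc (T := T) (hT := hTc) (MvPolynomial.X i) hz.1.2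
      rwa [act_X] at this
    · change resL (R := k) hM 1 q (tw (R := k) hM hS 1 1 i z.1) +
        degL (R := k) hM 1 hq hqN (tw (R := k) hM hS 1 1 i z.2) = 0
      rw [resL_tw hM 1 1 hS hS', degL_tw hM 1 1 hS hS', ← map_add, hz.2, map_zero]
  have hinj : ∀ s, θ s ≠ 0 → ∀ z ∈ V, act T2 hT2c s z = 0 → z = 0 := by
    intro s hs z hz h
    obtain ⟨s', hs'⟩ := he.inv s hs
    have key : ∀ w ∈ MLoc (R := k) hM hS 1 1 e, act T hTc s w = 0 → w = 0 := by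
      intro w hw h0
      rw [← (mem_loc he.idem).mp hw, ← hs', mul_comm s s', mul_assoc, mul_comm s e, ← mul_assoc,
        map_mul, Module.End.mul_apply, h0, map_zero]
    refine Prod.ext (key _ hz.1.1 ?_) (key _ hz.1.2 ?_)
    · rw [← hact1, h]; rfl
    · rw [← hact2, h]; rfl
  obtain ⟨z, hz, hz0, hzP⟩ := exists_eigen T2 hT2c hOk θ hθ V hV hst hinj
  obtain ⟨n₁, hn₁, hz1⟩ := exists_cl_PG hM (R := k) (A := k) (two_injective_of_ne h2) z.1
  obtain ⟨n₂, hn₂, hz2⟩ := exists_cl_PG hM (R := k) (A := k) (two_injective_of_ne h2) z.2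
  have hE1 : ∀ i : Idx S, tH hM 1 i.2.1 (hS.not_dvd i) k z.1 = θ (MvPolynomial.X i) • z.1 := by
    intro i
    have h1 := hzP (MvPolynomial.X i)
    have h3 := hact1 (MvPolynomial.X i) z
    rw [h1, act_X, hTdef, tw_one_apply] at h3
    exact h3.symm
  have hE2 : ∀ i : Idx S, tH hM 1 i.2.1 (hS.not_dvd i) k z.2 = θ (MvPolynomial.X i) • z.2 := by
    intro i
    have h1 := hzP (MvPolynomial.X i)
    have h3 := hact2 (MvPolynomial.X i) z
    rw [h1, act_X, hTdef, tw_one_apply] at h3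
    exact h3.symm
  have hker := ((hVmem z).mp hz).2
  rw [hz1, hz2] at hker
  have hc : Nat.Coprime q M := (Nat.Prime.coprime_iff_not_dvd hq).mpr hqM
  have hmemd : Fermat.Agent.H41.slash (hd q) n₂ ∈ inv k PG k (G0 (M * q)) :=
    slash_hd_mem hM hq hqN hn₂
  have hmemr : n₁ ∈ inv k PG k (G0 (M * q)) :=
    Fermat.Agent.H41.inv_mono (Fermat.Agent.H41.G0_mono (Dvd.intro q rfl)) hn₁
  have hper : ∀ γ ∈ G0 (M * q), n₁.1 (γ • Fermat.Agent.H71.o) Fermat.Agent.H71.o +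
      (Fermat.Agent.H41.slash (hd q) n₂).1 (γ • Fermat.Agent.H71.o) Fermat.Agent.H71.o = 0 := by
    have h1 : cl (dvd_mul_q hM) k (Fermat.Agent.H71.o : PG) (Submodule.add_mem _ hmemr hmemd) =
        0 := by
      rw [cl_add]
      rw [resL, degL, opH_res_cl, opH_deg_cl] at hker
      exact hker
    rw [cl_eq_zero_iff] at h1
    exact h1
  have hfinal := Fermat.Agent.H41.ihara_hom_field hq (NeZero.ne M) hc hn₁ hn₂
    Fermat.Agent.H71.o hper {ℓ | ℓ.Prime ∧ ℓ ∉ S}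
    (fun ℓ hℓ => ⟨hℓ.1, hS'.not_dvd ⟨ℓ, hℓ⟩⟩) (aval θ)
    (fun ℓ hℓ => hT_per_of_cl hM hℓ.1 (hS.not_dvd ⟨ℓ, hℓ⟩) hn₁ _ (by
      have h1 := hE1 ⟨ℓ, hℓ⟩
      rw [hz1] at h1
      rw [h1, ← aval_idx θ ⟨ℓ, hℓ⟩]))
    (fun ℓ hℓ => hT_per_of_cl hM hℓ.1 (hS.not_dvd ⟨ℓ, hℓ⟩) hn₂ _ (by
      have h1 := hE2 ⟨ℓ, hℓ⟩
      rw [hz2] at h1
      rw [h1, ← aval_idx θ ⟨ℓ, hℓ⟩]))
    (by
      obtain ⟨i, hi⟩ := hNE1
      exact ⟨i.1, i.2, by rw [aval_idx]; exact hi⟩)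
    (by
      intro D hD
      obtain ⟨i, hi, hi'⟩ := hNE2 D hD
      exact ⟨i.1, i.2, hi, by rw [aval_idx]; exact hi'⟩)
  apply hz0
  refine Prod.ext ?_ ?_
  · rw [hz1]
    exact (cl_eq_zero_iff hn₁).mpr fun γ hγ => (hfinal γ hγ).1
  · rw [hz2]
    exact (cl_eq_zero_iff hn₂).mpr fun γ hγ => (hfinal γ hγ).2

end Field

end Fermat.Agent.H71.R
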