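import Fermat.Agent.H71RDual

/-!
# Surjectivity of `(tr, ν)` over a field, functional form (helper71)
-/

set_option autoImplicit false

open CongruenceSubgroup Matrix.SpecialLinearGroup
open scoped MatrixGroups

namespace Fermat.Agent.H71.R

open Fermat.Agent.H70.Coh Fermat.Agent.H70.Mod Fermat.Agent.H59
open Fermat.Agent.H41 (Symb inv PG G0 hT hd tr alW smap)
open Fermat.Agent.H71 (man dpair gp perHom)

section Rd

variable {O k : Type} [CommRing O] [Field k] [Algebra O k] {Γ : Subgroup SL(2, ℤ)}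

/-- reduction of a homomorphism -/
noncomputable def rd (φ : Additive Γ →+ O) : Additive Γ →+ k :=
  (algebraMap O k).toAddMonoidHom.comp φ

lemma rd_smul (c : O) (φ : Additive Γ →+ O) :
    rd (k := k) (c • φ) = algebraMap O k c • rd φ := by
  refine DFunLike.ext _ _ fun γ => ?_
  change algebraMap O k (c * φ γ) = algebraMap O k c * algebraMap O k (φ γ)
  rw [map_mul]

lemma rd_add (φ ψ : Additive Γ →+ O) : rd (k := k) (φ + ψ) = rd φ + rd ψ := by
  refine DFunLike.ext _ _ fun γ => ?_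
  change algebraMap O k (φ γ + ψ γ) = algebraMap O k (φ γ) + algebraMap O k (ψ γ)
  rw [map_add]

/-- reduction of symbols -/
noncomputable abbrev rs {X : Type} : Symb O X O →+ Symb k X k :=
  smap O k (algebraMap O k).toAddMonoidHom

end Rd

section Functional

variable {N M q : ℕ} (hM : N ∣ M) {S : Set ℕ} {O : Type} [CommRing O] {k : Type} [Field k]
  [Algebra O k]

/-- the functional on `Hom(Γ₀(M), O)` -/
noncomputable def lamOf (L : H1 (gam N M hM) (psiRep (1 : (ZMod N)ˣ →* kˣ) k) →ₗ[k] k) :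
    (Additive (Gamma0 M) →+ O) →ₗ[O] k where
  toFun φ := L (homH1 hM k k (rd φ))
  map_add' φ ψ := by rw [rd_add, map_add, map_add]
  map_smul' c φ := by
    rw [rd_smul, map_smul, map_smul, RingHom.id_apply, smul_eq_mul, Algebra.smul_def]

variable [IsAddTorsionFree O]

/-- a symbol representing a functional -/
def RepK [NeZero M] (m : inv O (OnePoint ℚ) O (G0 M))
    (L : H1 (gam N M hM) (psiRep (1 : (ZMod N)ˣ →* kˣ) k) →ₗ[k] k) : Prop :=
  ∀ f (hf : f ∈ inv O PG O (G0 M)), algebraMap O k (gp M m.2 hf) =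
    2 * L (cl hM k (Fermat.Agent.H71.o : PG)
      (Fermat.Agent.H41.smap_mem_inv (R' := k) (algebraMap O k).toAddMonoidHom hf))

lemma rd_perHom {M : ℕ} {f : Symb O PG O} (hf : f ∈ inv O PG O (G0 M)) :
    rd (k := k) (perHom (Gamma0 M) Fermat.Agent.H71.o hf) =
      perHom (Gamma0 M) Fermat.Agent.H71.o
        (Fermat.Agent.H41.smap_mem_inv (R' := k) (algebraMap O k).toAddMonoidHom hf) :=
  DFunLike.ext _ _ fun _ => rfl

theorem exists_repK [NeZero M] [IsDomain O] [IsPrincipalIdealRing O]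
    (hOk : Function.Surjective (algebraMap O k))
    (L : H1 (gam N M hM) (psiRep (1 : (ZMod N)ˣ →* kˣ) k) →ₗ[k] k) :
    ∃ m : inv O (OnePoint ℚ) O (G0 M), RepK hM m L := by
  obtain ⟨m, hm⟩ := exists_symb_of_fun (Γ := Gamma0 M)
    (Fermat.Agent.H71.neg_one_mem_gamma0 M) hOk (lamOf hM L)
  refine ⟨m, fun f hf => ?_⟩
  have h1 := hm (perHom (Gamma0 M) Fermat.Agent.H71.o hf)
  have h2 : lamOf hM L (perHom (Gamma0 M) Fermat.Agent.H71.o hf) =
      L (cl hM k (Fermat.Agent.H71.o : PG)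
        (Fermat.Agent.H41.smap_mem_inv (R' := k) (algebraMap O k).toAddMonoidHom hf)) := by
    change L (homH1 hM k k (rd (perHom (Gamma0 M) Fermat.Agent.H71.o hf))) = _
    rw [rd_perHom]
    rfl
  rw [← h2]
  exact h1

/-- testing the vanishing of a reduced symbol -/
lemma rs_eq_zero_of_pair [NeZero M] (h2 : (2 : k) ≠ 0) (m : inv O (OnePoint ℚ) O (G0 M))
    (h : ∀ f (hf : f ∈ inv O PG O (G0 M)), algebraMap O k (gp M m.2 hf) = 0) :
    rs (k := k) m.1 = 0 := by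
  apply Fermat.Agent.H71.symb_ext_of_man
  intro x
  obtain ⟨φ, hφ⟩ := exists_delta_pair (O := O) (Γ := Gamma0 M)
    (Fermat.Agent.H71.neg_one_mem_gamma0 M) x
  obtain ⟨f, hf, rfl⟩ := exists_perHom_PG (R := O) (A := O) (M := M)
    (fun a ha => (smul_eq_zero_iff_right (by norm_num)).mp ha) φ
  have h1 := h f hf
  have h3 : gp M m.2 hf = 2 * man m.1 x := hφ m
  rw [h3, map_mul, map_ofNat] at h1
  have h4 := (mul_eq_zero.mp h1).resolve_left h2
  exact h4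

lemma RepK.zero_of_rs [NeZero M] (hg : Good M O) (h2 : (2 : k) ≠ 0)
    (hOk : Function.Surjective (algebraMap O k)) {m : inv O (OnePoint ℚ) O (G0 M)}
    {L : H1 (gam N M hM) (psiRep (1 : (ZMod N)ˣ →* kˣ) k) →ₗ[k] k} (H : RepK hM m L)
    (h : rs (k := k) m.1 = 0) : L = 0 := by
  apply LinearMap.ext
  intro x
  obtain ⟨φ, rfl⟩ := (homH1 hM k k).surjective x
  obtain ⟨φ', rfl⟩ := exists_hom_lift hg (algebraMap O k) hOk φ
  obtain ⟨f, hf, rfl⟩ := exists_perHom_PG (R := O) (A := O) (M := M)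
    (fun a ha => (smul_eq_zero_iff_right (by norm_num)).mp ha) φ'
  have h1 := H f hf
  have h3 : algebraMap O k (gp M m.2 hf) = 0 := by
    refine dpair_residue_zero (algebraMap O k) m (fun x => ?_) _
    have := congrArg (fun s : Symb k (OnePoint ℚ) k => s.1 (Fermat.Agent.H71.ac x
      Fermat.Agent.H71.c0) (Fermat.Agent.H71.ac x Fermat.Agent.H71.ci)) h
    exact this
  rw [h3] at h1
  have h4 := (mul_eq_zero.mp h1.symm).resolve_left h2
  rw [LinearMap.zero_apply, ← h4]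
  congr 1

/-- Hecke eigenfunctionals are represented by symbols whose reductions are eigensymbols -/
lemma RepK.hecke [NeZero M] (h2 : (2 : k) ≠ 0) {m : inv O (OnePoint ℚ) O (G0 M)}
    {L : H1 (gam N M hM) (psiRep (1 : (ZMod N)ˣ →* kˣ) k) →ₗ[k] k} (H : RepK hM m L)
    (hOk : Function.Surjective (algebraMap O k))
    {ℓ : ℕ} (hℓ : ℓ.Prime) (hℓM : ¬ ℓ ∣ M) (a : k)
    (hL : ∀ x, L ((tFam hM hℓ hℓM).opH (psiRep (1 : (ZMod N)ˣ →* kˣ) k) x) = a * L x) :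
    hT ℓ (rs (k := k) m.1) = a • rs (k := k) m.1 := by
  obtain ⟨a', rfl⟩ := hOk a
  have hTm : hT ℓ m.1 ∈ inv O (OnePoint ℚ) O (G0 M) :=
    Fermat.Agent.H41.hT_mem_inv hℓ hℓM m.2
  have hg : hT ℓ m.1 - a' • m.1 ∈ inv O (OnePoint ℚ) O (G0 M) :=
    Submodule.sub_mem _ hTm (Submodule.smul_mem _ _ m.2)
  have h0 := rs_eq_zero_of_pair (k := k) h2 (⟨_, hg⟩ : inv O (OnePoint ℚ) O (G0 M)) (by
    intro f hf
    have hTf : hT ℓ f ∈ inv O PG O (G0 M) := Fermat.Agent.H41.hT_mem_inv hℓ hℓM hf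
    have e1 : gp M hg hf = gp M hTm hf - a' * gp M m.2 hf := by
      unfold gp
      exact (Fermat.Agent.H71.dpair_sub_left (R' := O) (Γ := Gamma0 M) ⟨_, hTm⟩
        ⟨_, Submodule.smul_mem _ a' m.2⟩ _).trans
        (congrArg _ (Fermat.Agent.H71.dpair_smul_left (R' := O) (Γ := Gamma0 M) a' m _))
    change algebraMap O k (gp M hg hf) = 0
    rw [e1, Fermat.Agent.H71.gp_hT hℓ hℓM m.2 hTm hf hTf, map_sub, map_mul, H _ hTf, H _ hf]
    have e2 : cl hM k (Fermat.Agent.H71.o : PG)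
        (Fermat.Agent.H41.smap_mem_inv (R' := k) (algebraMap O k).toAddMonoidHom hTf) =
        (tFam hM hℓ hℓM).opH (psiRep (1 : (ZMod N)ˣ →* kˣ) k) (cl hM k (Fermat.Agent.H71.o : PG)
        (Fermat.Agent.H41.smap_mem_inv (R' := k) (algebraMap O k).toAddMonoidHom hf)) := by
      rw [opH_tFam_cl]
      exact cl_congr _ _ (Fermat.Agent.H41.smap_hT _ _ _)
    rw [e2, hL]
    ring)
  have h3 : rs (k := k) (hT ℓ m.1 - a' • m.1) = hT ℓ (rs (k := k) m.1) -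
      algebraMap O k a' • rs (k := k) m.1 := by
    rw [map_sub, Fermat.Agent.H41.smap_hT]
    congr 1
    apply Fermat.Agent.H41.Symb.ext
    intro x y
    change algebraMap O k (a' * m.1.1 x y) = algebraMap O k a' * algebraMap O k (m.1.1 x y)
    rw [map_mul]
  rw [h3, sub_eq_zero] at h0
  exact h0

variable [IsDomain O] [IsPrincipalIdealRing O]

/-- **Eigenfunctionals killing the image of `(tr, ν)` vanish.** -/
theorem functional_eq_zero [NeZero M] (hq : q.Prime) (hqM : ¬ q ∣ M)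
    (hS : Away M S) (h2 : (2 : k) ≠ 0) (hOk : Function.Surjective (algebraMap O k))
    (hg : Good M O) (θ : MvPolynomial (Idx S) O →+* k)
    (hNE1 : ∃ i : Idx S, (θ (MvPolynomial.X i)) ^ 2 ≠ ((i.1 : k) + 1) ^ 2)
    (hNE2 : ∀ D : ℕ, D ≠ 0 → ∃ i : Idx S, (D : ℤ) ∣ (i.1 : ℤ) - 1 ∧
      θ (MvPolynomial.X i) ≠ (i.1 : k) + 1) [NeZero q]
    (L₁ L₂ : H1 (gam N M hM) (psiRep (1 : (ZMod N)ˣ →* kˣ) k) →ₗ[k] k)
    (hL₁ : ∀ (i : Idx S) x, L₁ (tH hM 1 i.2.1 (hS.not_dvd i) k x) =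
      θ (MvPolynomial.X i) * L₁ x)
    (hL₂ : ∀ (i : Idx S) x, L₂ (tH hM 1 i.2.1 (hS.not_dvd i) k x) =
      θ (MvPolynomial.X i) * L₂ x)
    (hrel : ∀ z, L₁ (trL (R := k) hM 1 q z) + L₂ (nuL (R := k) hM 1 hq z) = 0) :
    L₁ = 0 ∧ L₂ = 0 := by
  have hc : Nat.Coprime q M := (Nat.Prime.coprime_iff_not_dvd hq).mpr hqM
  obtain ⟨m₁, H₁⟩ := exists_repK hM hOk L₁
  obtain ⟨m₂, H₂⟩ := exists_repK hM hOk L₂
  have hle := Fermat.Agent.H41.G0_mono (Dvd.intro q rfl : M ∣ M * q)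
  have hm₁N : m₁.1 ∈ inv O (OnePoint ℚ) O (G0 (M * q)) := Fermat.Agent.H41.inv_mono hle m₁.2
  have hm₂N : m₂.1 ∈ inv O (OnePoint ℚ) O (G0 (M * q)) := Fermat.Agent.H41.inv_mono hle m₂.2
  have hm₂W := Fermat.Agent.H41.slash_alW_mem hc hq.ne_zero hm₂N
  have e1 : Fermat.Agent.H41.slash (alW hc) m₂.1 = Fermat.Agent.H41.slash (hd q) m₂.1 :=
    Fermat.Agent.H41.slash_alW_of_mem hc m₂.2
  have hm₂d : Fermat.Agent.H41.slash (hd q) m₂.1 ∈ inv O (OnePoint ℚ) O (G0 (M * q)) := by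
    rw [← e1]
    exact hm₂W
  have hsum : m₁.1 + Fermat.Agent.H41.slash (hd q) m₂.1 ∈ inv O (OnePoint ℚ) O (G0 (M * q)) :=
    Submodule.add_mem _ hm₁N hm₂d
  -- the relation between the reductions
  have hrel0 := rs_eq_zero_of_pair (k := k) h2
    (⟨_, hsum⟩ : inv O (OnePoint ℚ) O (G0 (M * q))) (by
    intro f hf
    have hfW := Fermat.Agent.H41.slash_alW_mem hc hq.ne_zero hf
    have hfWW := Fermat.Agent.H41.slash_alW_mem hc hq.ne_zero hfW
    have htf : tr M q f ∈ inv O PG O (G0 M) := Fermat.Agent.H41.tr_mem_inv hq hqM hf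
    have htW : tr M q (Fermat.Agent.H41.slash (alW hc) f) ∈ inv O PG O (G0 M) :=
      Fermat.Agent.H41.tr_mem_inv hq hqM hfW
    have a1 : gp (M * q) hsum hf = gp (M * q) hm₁N hf + gp (M * q) hm₂d hf :=
      Fermat.Agent.H71.dpair_add_left (R' := O) (Γ := Gamma0 (M * q)) ⟨_, hm₁N⟩ ⟨_, hm₂d⟩ _
    have a2 : gp (M * q) hm₁N hf = gp M m₁.2 htf :=
      (Fermat.Agent.H71.gp_tr_right hq hqM m₁.2 hm₁N hf htf).symm
    have a3 : gp (M * q) hm₂d hf = gp M m₂.2 htW := by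
      rw [Fermat.Agent.H71.gp_tr_right hq hqM m₂.2 hm₂N hfW htW,
        ← Fermat.Agent.H71.gp_alW hc hq.ne_zero hm₂N hfW hm₂W hfWW]
      exact Fermat.Agent.H71.gp_congr _ _ _ _ e1.symm
        (Fermat.Agent.H41.slash_alW_alW hc hq.ne_zero hf).symm
    change algebraMap O k (gp (M * q) hsum hf) = 0
    rw [a1, a2, a3, map_add, H₁ _ htf, H₂ _ htW]
    have hfk := Fermat.Agent.H41.smap_mem_inv (R' := k) (algebraMap O k).toAddMonoidHom hf
    have b1 : cl hM k (Fermat.Agent.H71.o : PG)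
        (Fermat.Agent.H41.smap_mem_inv (R' := k) (algebraMap O k).toAddMonoidHom htf) =
        trL (R := k) hM 1 q (cl (dvd_mul_q hM) k (Fermat.Agent.H71.o : PG) hfk) := by
      rw [trL, opH_tr_cl hM hq hqM]
      exact cl_congr _ _ (Fermat.Agent.H41.smap_tr _ _ _ _)
    have hWk : tr M q (Fermat.Agent.H41.slash (alW hc)
        (smap O k (algebraMap O k).toAddMonoidHom f)) ∈ inv k PG k (G0 M) :=
      Fermat.Agent.H41.tr_mem_inv hq hqM (Fermat.Agent.H41.slash_alW_mem hc hq.ne_zero hfk)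
    have b2 : cl hM k (Fermat.Agent.H71.o : PG)
        (Fermat.Agent.H41.smap_mem_inv (R' := k) (algebraMap O k).toAddMonoidHom htW) =
        nuL (R := k) hM 1 hq (cl (dvd_mul_q hM) k (Fermat.Agent.H71.o : PG) hfk) := by
      rw [nuL, opH_nu_cl hM hq hc _ _ hWk]
      exact cl_congr _ _ (Fermat.Agent.H41.smap_tr _ _ _ _)
    rw [b1, b2, ← mul_add, hrel, mul_zero])
  have hrel1 : rs (k := k) m₁.1 + Fermat.Agent.H41.slash (hd q) (rs (k := k) m₂.1) = 0 := by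
    rw [← hrel0, map_add]
    rfl
  have hT₁ : ∀ ℓ ∈ {ℓ | ℓ.Prime ∧ ℓ ∉ S}, hT ℓ (rs (k := k) m₁.1) =
      aval θ ℓ • rs (k := k) m₁.1 := by
    intro ℓ hℓ
    refine H₁.hecke hM h2 hOk hℓ.1 (hS.not_dvd ⟨ℓ, hℓ⟩) _ fun x => ?_
    rw [aval_idx θ ⟨ℓ, hℓ⟩]
    exact hL₁ ⟨ℓ, hℓ⟩ x
  obtain ⟨z₁, z₂⟩ := Fermat.Agent.H41.ihara_eigen hq (NeZero.ne M) hc
    (Fermat.Agent.H41.smap_mem_inv (R' := k) (algebraMap O k).toAddMonoidHom m₁.2)
    (Fermat.Agent.H41.smap_mem_inv (R' := k) (algebraMap O k).toAddMonoidHom m₂.2) hrel1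
    {ℓ | ℓ.Prime ∧ ℓ ∉ S} (fun ℓ hℓ => hℓ.1) (aval θ) hT₁
    (by
      obtain ⟨i, hi⟩ := hNE1
      exact ⟨i.1, i.2, by rw [aval_idx]; exact hi⟩)
    (by
      intro D hD
      obtain ⟨i, hi, hi'⟩ := hNE2 D hD
      exact ⟨i.1, i.2, hi, by rw [aval_idx]; exact hi'⟩)
  exact ⟨H₁.zero_of_rs hM hg h2 hOk z₁, H₂.zero_of_rs hM hg h2 hOk z₂⟩

end Functional

end Fermat.Agent.H71.R
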