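import Fermat.Agent.H53Z2
import Fermat.Agent.H87UFold
import Fermat.Agent.H73U1
import Fermat.Agent.H77ZAdj

/-!
# S47, block (D), DE5: unfolding of the cut-off theta integral (part 1)

`E` a number field, `B/E` quadratic with automorphism `τ`, `b j : B →+* ℂ` one embedding above each
complex place of `E`.  For a weight `F : Bˣ → ℂ` invariant under the relative units `U1 τ m`
the cut-off integral of the theta kernel is the sum over the classes `Bˣ / U1 τ m` of the
Whittaker terms.
-/

set_option autoImplicit false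
set_option linter.unusedSectionVars false

open MeasureTheory Set Filter Topology NumberField
open scoped ENNReal

noncomputable section

namespace Fermat.Agent.H71U

open Fermat.Agent Fermat.Agent.H53Z Fermat.Agent.H87U Fermat.Agent.H73U

variable {E B : Type*} [Field E] [NumberField E] [Field B] [NumberField B] [Algebra E B]

/-- The relative units as elements of `Bˣ`. -/
def incl (τ : B ≃ₐ[E] B) (m : Ideal (𝓞 B)) : U1 τ m →* Bˣ :=
  (Units.map ((algebraMap (𝓞 B) B : 𝓞 B →+* B) : 𝓞 B →* B)).comp (Subgroup.subtype _)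

theorem coe_incl (τ : B ≃ₐ[E] B) (m : Ideal (𝓞 B)) (u : U1 τ m) :
    ((incl τ m u : Bˣ) : B) = (((u : (𝓞 B)ˣ) : 𝓞 B) : B) := rfl

theorem incl_injective (τ : B ≃ₐ[E] B) (m : Ideal (𝓞 B)) : Function.Injective (incl τ m) := by
  intro u v h
  apply Subtype.ext
  apply Units.ext
  apply RingOfIntegers.coe_injective
  exact congrArg (fun x : Bˣ => (x : B)) h

/-- The classes of `Bˣ` modulo the relative units. -/
abbrev Cls (τ : B ≃ₐ[E] B) (m : Ideal (𝓞 B)) := Bˣ ⧸ (incl τ m).range

instance : Countable B := (Module.finBasis ℚ B).equivFun.injective.countable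

instance : Countable Bˣ := Units.val_injective.countable

instance (τ : B ≃ₐ[E] B) (m : Ideal (𝓞 B)) : Countable (U1 τ m) := (incl_injective τ m).countable

instance (τ : B ≃ₐ[E] B) (m : Ideal (𝓞 B)) : Countable (Cls τ m) :=
  (QuotientGroup.mk_surjective (s := (incl τ m).range)).countable

/-- the representatives -/
theorem bijective_out (τ : B ≃ₐ[E] B) (m : Ideal (𝓞 B)) :
    Function.Bijective fun p : U1 τ m × Cls τ m => incl τ m p.1 * (p.2.out : Bˣ) := by
  constructor
  · rintro ⟨u, x⟩ ⟨v, y⟩ h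
    have hxy : x = y := by
      have h1 : ((incl τ m u * x.out : Bˣ) : Cls τ m) = x := by
        conv_rhs => rw [← Quotient.out_eq' x]
        refine QuotientGroup.eq.2 ?_
        rw [mul_inv_rev, mul_assoc, mul_comm (incl τ m u)⁻¹, ← mul_assoc, inv_mul_cancel, one_mul]
        exact inv_mem ⟨u, rfl⟩
      have h2 : ((incl τ m v * y.out : Bˣ) : Cls τ m) = y := by
        conv_rhs => rw [← Quotient.out_eq' y]
        refine QuotientGroup.eq.2 ?_
        rw [mul_inv_rev, mul_assoc, mul_comm (incl τ m v)⁻¹, ← mul_assoc, inv_mul_cancel, one_mul]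
        exact inv_mem ⟨v, rfl⟩
      rw [← h1, ← h2]
      exact congrArg _ h
    subst hxy
    have h3 : incl τ m u = incl τ m v := mul_right_cancel h
    rw [incl_injective τ m h3]
  · intro x
    obtain ⟨u, hu⟩ : (x⁻¹ * (Quotient.out (x : Cls τ m))) ∈ (incl τ m).range := by
      refine QuotientGroup.eq.1 ?_
      exact (Quotient.out_eq' (x : Cls τ m)).symm
    refine ⟨(u⁻¹, (x : Cls τ m)), ?_⟩
    show incl τ m u⁻¹ * Quotient.out (x : Cls τ m) = x
    rw [map_inv, hu, mul_inv_rev, inv_inv, mul_comm _ x, mul_assoc, inv_mul_cancel, mul_one]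

variable {J : Type*} [Fintype J] (b : J → (B →+* ℂ)) (τ : B ≃ₐ[E] B) (m : Ideal (𝓞 B))

/-- first coordinates -/
def px (x : Bˣ) : J → ℂ := fun j => b j x

/-- second coordinates -/
def qx (x : Bˣ) : J → ℂ := fun j => b j (τ x)

omit [NumberField E] [NumberField B] [Fintype J] in
theorem px_ne_zero (x : Bˣ) (j : J) : px b x j ≠ 0 := by
  simp [px]

omit [NumberField E] [NumberField B] [Fintype J] in
theorem qx_ne_zero (x : Bˣ) (j : J) : qx b τ x j ≠ 0 := by
  simp [qx]

theorem norm_b_unit (u : U1 τ m) (j : J) :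
    ‖b j (((u : (𝓞 B)ˣ) : 𝓞 B) : B)‖ = Real.exp (lg b (u : (𝓞 B)ˣ) j) := by
  rw [lg, Real.exp_log]
  simp

theorem norm_b_tau_unit (u : U1 τ m) (j : J) :
    ‖b j (τ (((u : (𝓞 B)ˣ) : 𝓞 B) : B))‖ = Real.exp (-(lg b (u : (𝓞 B)ˣ) j)) := by
  have h := u.2.1
  have h1 : ‖b j (((u : (𝓞 B)ˣ) : 𝓞 B) : B)‖ * ‖b j (τ (((u : (𝓞 B)ˣ) : 𝓞 B) : B))‖ = 1 := by
    rw [← norm_mul, ← map_mul, h, map_one, norm_one]
  rw [norm_b_unit] at h1
  rw [Real.exp_neg]
  exact eq_inv_of_mul_eq_one_right h1

/-- the Gaussian term under the relative units -/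
theorem gterm_incl_mul (w : J → H3) (s : J → ℝ) (u : U1 τ m) (x : Bˣ) :
    gterm w s (px b (incl τ m u * x)) (qx b τ (incl τ m u * x)) =
      gterm w (s + lg b (u : (𝓞 B)ˣ)) (px b x) (qx b τ x) := by
  unfold gterm
  refine Finset.prod_congr rfl fun j _ => ?_
  have hp : px b (incl τ m u * x) j = b j (((u : (𝓞 B)ˣ) : 𝓞 B) : B) * px b x j := by
    simp only [px, Units.val_mul, map_mul, coe_incl]
  have hq : qx b τ (incl τ m u * x) j = b j (τ (((u : (𝓞 B)ˣ) : 𝓞 B) : B)) * qx b τ x j := by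
    simp only [qx, Units.val_mul, map_mul, coe_incl]
  have hprod : px b (incl τ m u * x) j * qx b τ (incl τ m u * x) j = px b x j * qx b τ x j := by
    rw [hp, hq]
    have h : b j (((u : (𝓞 B)ˣ) : 𝓞 B) : B) * b j (τ (((u : (𝓞 B)ˣ) : 𝓞 B) : B)) = 1 := by
      rw [← map_mul, u.2.1, map_one]
    calc _ = (b j (((u : (𝓞 B)ˣ) : 𝓞 B) : B) * b j (τ (((u : (𝓞 B)ˣ) : 𝓞 B) : B))) *
          (px b x j * qx b τ x j) := by ring
      _ = _ := by rw [h, one_mul]
  unfold gt1
  rw [hprod]
  congr 2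
  rw [hp, hq, norm_mul, norm_mul, norm_b_unit, norm_b_tau_unit, Pi.add_apply]
  congr 2
  set l := lg b (u : (𝓞 B)ˣ) j
  have h1 : Real.exp (2 * (s j + l)) = Real.exp l ^ 2 * Real.exp (2 * s j) := by
    rw [← Real.exp_nat_mul, ← Real.exp_add]
    congr 1; push_cast; ring
  have h2 : Real.exp (-2 * (s j + l)) = Real.exp (-l) ^ 2 * Real.exp (-2 * s j) := by
    rw [← Real.exp_nat_mul, ← Real.exp_add]
    congr 1; push_cast; ring
  rw [h1, h2]
  ring

/-- **Unfolding**: the cut-off integral of the theta kernel with weight `F`. -/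
theorem unfold_one {c : (J → ℝ) → ℝ} {S : ℝ} (hc : IsCut c S)
    (hsum : ∀ s, HasSum (fun u : U1 τ m => c (s + lg b (u : (𝓞 B)ˣ))) 1)
    {F : Bˣ → ℂ} (hF : ∀ (u : U1 τ m) (x : Bˣ), F (incl τ m u * x) = F x)
    (hG : GSum F (px b) (qx b τ)) (w : J → H3) :
    Summable (fun x : Cls τ m => F x.out *
      kterm (fun j => px b x.out j * qx b τ x.out j) w) ∧
    thetaInt c F (px b) (qx b τ) w = ∑' x : Cls τ m, F x.out *
      kterm (fun j => px b x.out j * qx b τ x.out j) w := by
  let _ : MulAction (U1 τ m) Bˣ := MulAction.compHom Bˣ (incl τ m)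
  have hr : Function.Bijective fun p : U1 τ m × Cls τ m => p.1 • (p.2.out : Bˣ) :=
    bijective_out τ m
  set f : Bˣ → (J → ℝ) → ℂ := fun x s => F x * gterm w s (px b x) (qx b τ x) with hf
  have hfc : ∀ x, Continuous (f x) := fun x =>
    continuous_const.mul ((continuous_gterm (px b x) (qx b τ x)).comp
      (continuous_const.prodMk continuous_id))
  have hinv : ∀ (u : U1 τ m) (x : Bˣ) s, f (u • x) s = f x (s + lg b (u : (𝓞 B)ˣ)) := by
    intro u x s
    show F (incl τ m u * x) * gterm w s (px b (incl τ m u * x)) (qx b τ (incl τ m u * x)) = _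
    rw [hF, gterm_incl_mul]
  obtain ⟨c₀, -, hc₀, hw, -⟩ := exists_bounds w (0 : J → ℝ)
  have hfin : ∑' i : Cls τ m, ∫⁻ s, ‖f i.out s‖ₑ ≠ ∞ := by
    have h1 := lintegral_unfold_log (Γ := U1 τ m) (I := Cls τ m) (r := fun i => i.out)
      (Λ := fun u : U1 τ m => lg b (u : (𝓞 B)ˣ)) (fun u v => lg_mul_sub b τ m u v) hr
      (c := fun s => ENNReal.ofReal (c s)) (ENNReal.measurable_ofReal.comp hc.cont.measurable)
      (fun s => by
        rw [← ENNReal.ofReal_tsum_of_nonneg (fun g => hc.nonneg _) (hsum s).summable,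
          (hsum s).tsum_eq, ENNReal.ofReal_one])
      (f := fun x s => ‖f x s‖ₑ) (fun x => (hfc x).enorm.aemeasurable)
      (fun u x s => by simp only [hinv])
    rw [← h1]
    have hbd : ∀ s, ENNReal.ofReal (c s) * ∑' x, ‖f x s‖ₑ ≤ ENNReal.ofReal (c s *
        ((∏ j, (w j).y) * gmaj F (px b) (qx b τ) (2 * Real.pi * c₀ * Real.exp (-2 * S)))) := by
      intro s
      by_cases hs : ∀ j, |s j| ≤ S
      · rw [ENNReal.ofReal_mul (hc.nonneg s)]
        refine mul_le_mul_right ?_ _
        have h2 : ∀ x, ‖f x s‖ₑ = ENNReal.ofReal ‖f x s‖ := fun x => (ofReal_norm _).symm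
        simp only [h2]
        have hsm : Summable fun x => ‖f x s‖ := by
          refine Summable.of_nonneg_of_le (fun x => norm_nonneg _)
            (fun x => norm_term_le F (px b) (qx b τ) hw hs x) ?_
          exact (hG _ (eps_pos hc₀)).mul_left _
        rw [← ENNReal.ofReal_tsum_of_nonneg (fun x => norm_nonneg _) hsm]
        refine ENNReal.ofReal_le_ofReal ?_
        rw [gmaj, ← tsum_mul_left]
        exact Summable.tsum_le_tsum (fun x => norm_term_le F (px b) (qx b τ) hw hs x) hsm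
          ((hG _ (eps_pos hc₀)).mul_left _)
      · push Not at hs
        rw [hc.supp s hs]
        simp
    refine ne_of_lt (lt_of_le_of_lt (lintegral_mono hbd) ?_)
    exact ((hc.integrable.mul_const _).lintegral_lt_top)
  have h := integral_unfold_log (Γ := U1 τ m) (I := Cls τ m) (r := fun i => i.out)
    (Λ := fun u : U1 τ m => lg b (u : (𝓞 B)ˣ)) (fun u v => lg_mul_sub b τ m u v) hr
    hc.cont.measurable hc.nonneg hsum (f := f) (fun x => (hfc x).aestronglyMeasurable) hinv hfin
  have hint : ∀ x : Cls τ m, ∫ s, f x.out s = F x.out *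
      kterm (fun j => px b x.out j * qx b τ x.out j) w := by
    intro x
    rw [hf]
    simp only
    rw [integral_const_mul, integral_gterm w (px_ne_zero b _) (qx_ne_zero b τ _)]
  refine ⟨?_, ?_⟩
  · have h2 := h.2.1
    simp only [hint] at h2
    exact h2
  · have h3 := h.2.2
    simp only [hint] at h3
    rw [← h3, thetaInt]
    refine integral_congr_ae (Eventually.of_forall fun s => ?_)
    simp only [theta, hf, Complex.real_smul]

/-! ### Summation over the norms -/

section norms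

variable (e : J → (E →+* ℂ))

/-- the norm on units -/
abbrev nmU (E B : Type*) [Field E] [Field B] [Algebra E B] : Bˣ →* Eˣ :=
  Units.map (Algebra.norm E : B →* E)

theorem nmU_incl (hτ : τ ≠ 1) (h2 : Module.finrank E B = 2) (u : U1 τ m) :
    nmU E B (incl τ m u) = 1 := by
  have := isGalois τ hτ h2
  have hfd : FiniteDimensional E B := Module.finite_of_finrank_pos (by omega)
  apply Units.ext
  apply (algebraMap E B).injective
  show algebraMap E B (Algebra.norm E ((incl τ m u : Bˣ) : B)) = algebraMap E B ((1 : Eˣ) : E)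
  rw [H77.Z.algebraMap_norm h2 hτ, Units.val_one, map_one, coe_incl]
  exact u.2.1

theorem px_mul_qx (hb : ∀ j, (b j).comp (algebraMap E B) = e j) (hτ : τ ≠ 1)
    (h2 : Module.finrank E B = 2) (x : Bˣ) :
    (fun j => px b x j * qx b τ x j) = fun j => e j (nmU E B x : E) := by
  have := isGalois τ hτ h2
  have hfd : FiniteDimensional E B := Module.finite_of_finrank_pos (by omega)
  funext j
  have h := H77.Z.algebraMap_norm h2 hτ (x : B)
  rw [← hb j, RingHom.comp_apply]
  show b j x * b j (τ x) = b j (algebraMap E B (Algebra.norm E (x : B)))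
  rw [h, map_mul]

open Classical in
/-- the weight of the `i`-th lattice -/
def wt {ι : Type*} (g : ι → ℂ) (L : ι → Set Bˣ) (ψ : Eˣ → ℂ) (i : ι) (x : Bˣ) : ℂ :=
  if x ∈ L i then g i * ψ (nmU E B x) else 0

/-- **Unfolding and summation over the norms.** -/
theorem hasSum_unfold_norm (hb : ∀ j, (b j).comp (algebraMap E B) = e j) (hτ : τ ≠ 1)
    (h2 : Module.finrank E B = 2)
    {c : (J → ℝ) → ℝ} {S : ℝ} (hc : IsCut c S)
    (hsum : ∀ s, HasSum (fun u : U1 τ m => c (s + lg b (u : (𝓞 B)ˣ))) 1)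
    {ι : Type*} [Fintype ι] {g : ι → ℂ} {L : ι → Set Bˣ} {ψ : Eˣ → ℂ}
    (hL : ∀ i (u : U1 τ m) (x : Bˣ), incl τ m u * x ∈ L i ↔ x ∈ L i)
    (hG : ∀ i, GSum (wt g L ψ i) (px b) (qx b τ)) {a : Eˣ → ℂ}
    (hcoef : ∀ α : Eˣ, HasSum (fun p : {p : ι × Cls τ m // p.2.out ∈ L p.1 ∧
      nmU E B p.2.out = α} => g p.1.1) (a α)) (w : J → H3) :
    HasSum (fun α : Eˣ => a α * ψ α * kterm (fun j => e j α) w)
      (∑ i, thetaInt c (wt g L ψ i) (px b) (qx b τ) w) := by
  classical
  have hinv : ∀ i (u : U1 τ m) (x : Bˣ), wt g L ψ i (incl τ m u * x) = wt g L ψ i x := by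
    intro i u x
    unfold wt
    have h1 : nmU E B (incl τ m u * x) = nmU E B x := by
      rw [map_mul, nmU_incl τ m hτ h2, one_mul]
    simp only [h1, hL i u x]
  have hone := fun i => unfold_one b τ m hc hsum (hinv i) (hG i) w
  set F : ι × Cls τ m → ℂ := fun p => wt g L ψ p.1 p.2.out *
    kterm (fun j => e j (nmU E B p.2.out : E)) w with hF
  have hFi : ∀ i, HasSum (fun x : Cls τ m => F (i, x))
      (thetaInt c (wt g L ψ i) (px b) (qx b τ) w) := by
    intro i
    obtain ⟨h3, h4⟩ := hone i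
    have h5 : (fun x : Cls τ m => F (i, x)) = fun x : Cls τ m => wt g L ψ i x.out *
        kterm (fun j => px b x.out j * qx b τ x.out j) w := by
      funext x
      simp only [hF]
      rw [px_mul_qx b τ e hb hτ h2]
    rw [h5, h4]
    exact h3.hasSum
  have hFs : HasSum F (∑ i, thetaInt c (wt g L ψ i) (px b) (qx b τ) w) := by
    have hsF : Summable F := by
      rw [← summable_norm_iff]
      rw [summable_prod_of_nonneg (fun p => norm_nonneg _)]
      refine ⟨fun i => (hFi i).summable.norm, ?_⟩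
      exact (hasSum_fintype _).summable
    have h6 := hsF.hasSum.prod_fiberwise hFi
    rw [← h6.unique (hasSum_fintype _)]
    exact hsF.hasSum
  -- regroup by the norm
  let N : ι × Cls τ m → Eˣ := fun p => nmU E B p.2.out
  have h7 : HasSum (F ∘ (Equiv.sigmaFiberEquiv N))
      (∑ i, thetaInt c (wt g L ψ i) (px b) (qx b τ) w) :=
    (Equiv.hasSum_iff (Equiv.sigmaFiberEquiv N)).2 hFs
  refine h7.sigma fun α => ?_
  -- the fiber over `α`
  have h8 : HasSum (fun p : {p : ι × Cls τ m // p.2.out ∈ L p.1 ∧ nmU E B p.2.out = α} =>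
      g p.1.1 * (ψ α * kterm (fun j => e j α) w)) (a α * ψ α * kterm (fun j => e j α) w) := by
    rw [mul_assoc]
    exact (hcoef α).mul_right _
  let j : {p : ι × Cls τ m // p.2.out ∈ L p.1 ∧ nmU E B p.2.out = α} → {p // N p = α} :=
    fun p => ⟨p.1, p.2.2⟩
  have hj : Function.Injective j := fun p q h => by
    have h' := congrArg Subtype.val h
    exact Subtype.ext h'
  have h9 : ∀ p ∉ Set.range j, (F ∘ (Equiv.sigmaFiberEquiv N)) ⟨α, p⟩ = 0 := by
    intro p hp
    have hpL : p.1.2.out ∉ L p.1.1 := fun h => hp ⟨⟨p.1, h, p.2⟩, rfl⟩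
    show wt g L ψ p.1.1 p.1.2.out * _ = 0
    rw [wt, if_neg hpL, zero_mul]
  rw [← hj.hasSum_iff h9]
  convert h8 using 1
  funext p
  show wt g L ψ p.1.1 p.1.2.out * kterm (fun j => e j (nmU E B p.1.2.out : E)) w = _
  rw [wt, if_pos p.2.1, p.2.2]
  ring

end norms

end Fermat.Agent.H71U
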