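import Fermat.Agent.H71UDefs
import Fermat.Agent.H73U2
import Fermat.Agent.H65FirstB

/-!
# S47, block (D), DE5: unfolding of the theta kernel, part 2

`unfold`: from the coefficient identity `HCoef` the explicit series is a finite sum of cut-off
integrals of theta kernels.
-/

set_option autoImplicit false
set_option linter.unusedSectionVars false

open IsDedekindDomain NumberField WithZero FractionalIdeal MeasureTheory
open scoped nonZeroDivisors Pointwise

noncomputable section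

namespace Fermat.Agent.H71D

open Fermat.Agent Fermat.Agent.H53Z Fermat.Agent.H71U
open Fermat.Agent.H47 (smulPlace below)
open Fermat.Agent.H82 (above aboveSet NonSplit congr)
open Fermat.Agent.H73U (U1 lg)

/-! ### Integral multiples -/

section int

variable {B : Type*} [Field B] [NumberField B]

/-- every place has a rational prime (a nonzero integer of valuation `< 1`) -/
theorem exists_int_val_lt (P : HeightOneSpectrum (𝓞 B)) :
    ∃ p : ℤ, p ≠ 0 ∧ P.valuation B (p : B) ≤ exp (-1) := by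
  have h1 : P.asIdeal.under ℤ ≠ ⊥ := Ideal.under_ne_bot _ P.ne_bot
  obtain ⟨p, hp, hp0⟩ := Submodule.exists_mem_ne_zero_of_ne_bot h1
  refine ⟨p, hp0, ?_⟩
  have h2 : (algebraMap ℤ (𝓞 B) p) ∈ P.asIdeal := hp
  have h3 : P.valuation B (algebraMap (𝓞 B) B (algebraMap ℤ (𝓞 B) p)) ≤ exp (-(1 : ℕ) : ℤ) := by
    rw [HeightOneSpectrum.valuation_of_algebraMap, HeightOneSpectrum.intValuation_le_pow_iff_mem,
      pow_one]
    exact h2
  have h4 : algebraMap (𝓞 B) B (algebraMap ℤ (𝓞 B) p) = (p : B) := by simp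
  rw [h4] at h3
  simpa using h3

/-- common denominators -/
theorem exists_int_mul (δ : HeightOneSpectrum (𝓞 B) → ℤ) (hδ : {P | δ P < 0}.Finite) :
    ∃ m : ℤ, m ≠ 0 ∧ ∀ x : B, (∀ P : HeightOneSpectrum (𝓞 B), P.valuation B x ≤ exp (-δ P)) →
      IsIntegral ℤ ((m : B) * x) := by
  classical
  choose p hp0 hp using fun P : HeightOneSpectrum (𝓞 B) => exists_int_val_lt P
  refine ⟨∏ P ∈ hδ.toFinset, p P ^ (δ P).natAbs, ?_, ?_⟩
  · exact Finset.prod_ne_zero_iff.2 fun P _ => pow_ne_zero _ (hp0 P)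
  · intro x hx
    have hle1 : ∀ (Q : HeightOneSpectrum (𝓞 B)) (k : ℤ), Q.valuation B (k : B) ≤ 1 := by
      intro Q k
      have h := Q.valuation_le_one (K := B) (k : 𝓞 B)
      simpa using h
    have hint : ∀ Q : HeightOneSpectrum (𝓞 B), Q.valuation B
        (((∏ P ∈ hδ.toFinset, p P ^ (δ P).natAbs : ℤ) : B) * x) ≤ 1 := by
      intro Q
      rw [map_mul]
      by_cases hQ : δ Q < 0
      · have hQm : Q ∈ hδ.toFinset := by simpa using hQ
        rw [← Finset.mul_prod_erase _ _ hQm, Int.cast_mul, map_mul, Int.cast_pow, map_pow]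
        have h1 : Q.valuation B (p Q : B) ^ (δ Q).natAbs ≤ exp (δ Q) := by
          refine (pow_le_pow_left₀ zero_le (hp Q) _).trans ?_
          rw [← exp_nsmul, exp_le_exp, nsmul_eq_mul]
          have : ((δ Q).natAbs : ℤ) = -δ Q := by omega
          rw [this]
          omega
        calc _ ≤ (exp (δ Q) * 1) * exp (-δ Q) :=
              mul_le_mul' (mul_le_mul' h1 (hle1 Q _)) (hx Q)
          _ = 1 := by rw [mul_one, ← exp_add, add_neg_cancel, exp_zero]
      · refine mul_le_one' (hle1 Q _) ((hx Q).trans ?_)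
        rw [← exp_zero, exp_le_exp]
        omega
    obtain ⟨r, hr⟩ := HeightOneSpectrum.mem_integers_of_valuation_le_one B _ hint
    rw [← hr]
    exact r.isIntegral_coe

end int

variable {E B : Type} [Field E] [NumberField E] [Field B] [NumberField B] [Algebra E B]
  {J : Type*} [Fintype J] (d : DD E B J)

theorem finite_cE {K : Type*} [Field K] [NumberField K] (A : FI K) :
    {w : HeightOneSpectrum (𝓞 K) | cE A w ≠ 0}.Finite := by
  have h := FractionalIdeal.finite_factors (K := K) (A : FractionalIdeal (𝓞 K)⁰ K)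
  exact h

theorem finite_aboveS : (aboveSet B (d.S : Set (HeightOneSpectrum (𝓞 E)))).Finite :=
  Fermat.Agent.H65.finite_aboveSet d.S.finite_toSet

/-- the level ideal of the relative units -/
def DD.idm : Ideal (𝓞 B) :=
  ⨅ P ∈ aboveSet B (d.S : Set (HeightOneSpectrum (𝓞 E))), P.asIdeal ^ d.n2

theorem mem_idm {x : 𝓞 B} : x ∈ d.idm ↔ ∀ P ∈ aboveSet B (d.S : Set (HeightOneSpectrum (𝓞 E))),
    P.valuation B (x : B) ≤ exp (-(d.n2 : ℤ)) := by
  rw [DD.idm]
  simp only [Submodule.mem_iInf]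
  refine forall₂_congr fun P _ => ?_
  rw [HeightOneSpectrum.valuation_of_algebraMap, HeightOneSpectrum.intValuation_le_pow_iff_mem]

theorem idm_ne_bot : d.idm ≠ ⊥ := by
  classical
  have h1 : (∏ P ∈ (finite_aboveS d).toFinset, P.asIdeal ^ d.n2) ≠ ⊥ := by
    rw [← Ideal.zero_eq_bot, Finset.prod_ne_zero_iff]
    intro P _
    exact pow_ne_zero _ P.ne_bot
  intro h
  apply h1
  rw [eq_bot_iff, ← h, DD.idm]
  refine le_iInf₂ fun P hP => ?_
  exact Ideal.le_of_dvd (Finset.dvd_prod_of_mem _ (by simpa using hP))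

/-- The coefficient identity (target of the (C3) bijection). -/
def HCoef (n : HeightOneSpectrum (𝓞 E) → ℤ) : Prop :=
  ∃ (ι : Type) (_ : Fintype ι) (h : ι → FI B) (g : ι → ℂ),
    (∀ i, IsNm d.S d.tau (h i) n) ∧
    ∀ A D : FI E, (∀ w ∈ d.S, cE A w = 0 ∧ cE D w = 0) → (∀ w ∉ d.S, cE (A * D) w = n w) →
      ∀ α ∈ d.US, HasSum (fun p : {p : ι × Cls d.tau d.idm //
          ((p.2.out : Bˣ) : B) ∈ d.VS ∧ ((p.2.out : Bˣ) : B) ∈ RB B d.S (d.dlt D (h p.1)) ∧
            nmU E B p.2.out = α} => g p.1.1 * om B d.S D)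
        (H33D.cf d.chi (spanSingleton (𝓞 E)⁰ (α : E) *
          ((A * D⁻¹ : FI E) : FractionalIdeal (𝓞 E)⁰ E)))

/-! ### Stability under the relative units -/

variable {d}

theorem val_unit (u : (𝓞 B)ˣ) (P : HeightOneSpectrum (𝓞 B)) :
    P.valuation B (((u : 𝓞 B) : B)) = 1 := by
  have h1 := P.valuation_le_one (K := B) (u : 𝓞 B)
  have h2 := P.valuation_le_one (K := B) ((u⁻¹ : (𝓞 B)ˣ) : 𝓞 B)
  have h3 : P.valuation B (((u : 𝓞 B) : B)) * P.valuation B (((u⁻¹ : (𝓞 B)ˣ) : 𝓞 B) : B) = 1 := by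
    rw [← map_mul, ← map_mul, ← Units.val_mul, mul_inv_cancel]
    simp
  refine le_antisymm h1 ?_
  rw [← h3]
  exact (mul_le_mul_right h2 _).trans (mul_one _).le

theorem norm_unit_mul (hd : d.Good) (u : U1 d.tau d.idm) (x : B) :
    Algebra.norm E ((((u : (𝓞 B)ˣ) : 𝓞 B) : B) * x) = Algebra.norm E x := by
  have h := nmU_incl d.tau d.idm hd.tau_ne hd.deg u
  have h1 : Algebra.norm E (((u : (𝓞 B)ˣ) : 𝓞 B) : B) = 1 := congrArg Units.val h
  rw [map_mul, h1, one_mul]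

theorem unit_mul_mem_VS (hd : d.Good) (u : U1 d.tau d.idm) {x : B} (hx : x ∈ d.VS) :
    (((u : (𝓞 B)ˣ) : 𝓞 B) : B) * x ∈ d.VS := by
  obtain ⟨h1, h2⟩ := hx
  refine ⟨fun P hP => ?_, ?_⟩
  · have h3 : (((u : (𝓞 B)ˣ) : 𝓞 B) : B) * x - 1 =
        (((u : (𝓞 B)ˣ) : 𝓞 B) : B) * (x - 1) + ((((u : (𝓞 B)ˣ) : 𝓞 B) : B) - 1) := by ring
    rw [h3]
    refine (Valuation.map_add _ _ _).trans (max_le ?_ ?_)
    · rw [map_mul, val_unit, one_mul]
      exact h1 P hP
    · have h4 := (mem_idm d).1 u.2.2 P hP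
      simpa using h4
  · rw [norm_unit_mul hd]
    exact h2

theorem unit_mul_mem_VS_iff (hd : d.Good) (u : U1 d.tau d.idm) {x : B} :
    (((u : (𝓞 B)ˣ) : 𝓞 B) : B) * x ∈ d.VS ↔ x ∈ d.VS := by
  refine ⟨fun h => ?_, unit_mul_mem_VS hd u⟩
  have h1 := unit_mul_mem_VS hd u⁻¹ h
  have h2 : ((((u⁻¹ : U1 d.tau d.idm) : (𝓞 B)ˣ) : 𝓞 B) : B) *
      ((((u : (𝓞 B)ˣ) : 𝓞 B) : B) * x) = x := by
    rw [← mul_assoc]
    have h3 : ((((u⁻¹ : U1 d.tau d.idm) : (𝓞 B)ˣ) : 𝓞 B) : B) * (((u : (𝓞 B)ˣ) : 𝓞 B) : B) = 1 := by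
      rw [← map_mul, ← Units.val_mul, InvMemClass.coe_inv, inv_mul_cancel]
      simp
    rw [h3, one_mul]
  rwa [h2] at h1

theorem unit_mul_mem_RB_iff (u : U1 d.tau d.idm) (δ : HeightOneSpectrum (𝓞 B) → ℤ) {x : B} :
    (((u : (𝓞 B)ˣ) : 𝓞 B) : B) * x ∈ RB B d.S δ ↔ x ∈ RB B d.S δ := by
  rw [mem_RB, mem_RB]
  refine forall₂_congr fun P _ => ?_
  rw [map_mul, val_unit, one_mul]

/-! ### Summability -/

theorem zero_notMem_VS : (0 : B) ∉ d.VS := by
  have hf : Module.Finite E B := Module.Finite.of_restrictScalars_finite ℚ E B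
  rintro ⟨-, α, -, h⟩
  rw [Algebra.norm_zero] at h
  exact α.ne_zero h

theorem finite_dlt_neg (D : FI E) (h : FI B) :
    {P : HeightOneSpectrum (𝓞 B) | d.dlt D h P < 0}.Finite := by
  have h1 : (aboveSet B {w | cE D w ≠ 0}).Finite := Fermat.Agent.H65.finite_aboveSet (finite_cE D)
  have h2 : {P : HeightOneSpectrum (𝓞 B) | cE h (smulPlace d.tau P) ≠ 0}.Finite := by
    refine (finite_cE h).preimage (Set.injOn_of_injective ?_)
    intro P Q hPQ
    have h3 := congrArg (smulPlace d.tau⁻¹) hPQ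
    have h4 : ∀ P : HeightOneSpectrum (𝓞 B), smulPlace d.tau⁻¹ (smulPlace d.tau P) = P := by
      intro P
      apply HeightOneSpectrum.ext
      rw [Fermat.Agent.H47.smulPlace_asIdeal, Fermat.Agent.H47.smulPlace_asIdeal, inv_smul_smul]
    rwa [h4, h4] at h3
  refine (h1.union h2).subset fun P hP => ?_
  by_contra hcon
  simp only [Set.mem_union, not_or] at hcon
  obtain ⟨h5, h6⟩ := hcon
  have h7 : cE D (below E P) = 0 := by
    by_contra h0
    exact h5 ⟨below E P, h0, Fermat.Agent.H47.mem_above_below P⟩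
  have h8 : cE h (smulPlace d.tau P) = 0 := by
    by_contra h0
    exact h6 h0
  have h9 : d.dlt D h P = 0 := by rw [DD.dlt, h7, h8, sub_zero]
  exact absurd h9 (ne_of_lt hP)

theorem exists_denominator (D : FI E) (h : FI B) :
    ∃ m : ℤ, m ≠ 0 ∧ ∀ x : B, x ∈ d.VS → x ∈ RB B d.S (d.dlt D h) →
      IsIntegral ℤ ((m : B) * x) := by
  classical
  let δ : HeightOneSpectrum (𝓞 B) → ℤ := fun P =>
    if P ∈ aboveSet B (d.S : Set (HeightOneSpectrum (𝓞 E))) then 0 else d.dlt D h P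
  obtain ⟨m, hm, h1⟩ := exists_int_mul δ ((finite_dlt_neg (d := d) D h).subset fun P hP => by
    by_cases hPS : P ∈ aboveSet B (d.S : Set (HeightOneSpectrum (𝓞 E)))
    · simp [δ, hPS] at hP
    · simpa [δ, hPS] using hP)
  refine ⟨m, hm, fun x hx hx' => h1 x fun P => ?_⟩
  by_cases hPS : P ∈ aboveSet B (d.S : Set (HeightOneSpectrum (𝓞 E)))
  · simp only [δ, if_pos hPS, neg_zero, exp_zero]
    have h2 := hx.1 P hPS
    have h3 : x = (x - 1) + 1 := by ring
    rw [h3]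
    refine (Valuation.map_add _ _ _).trans (max_le (h2.trans ?_) (by rw [map_one]))
    rw [← exp_zero, exp_le_exp]
    omega
  · simp only [δ, if_neg hPS]
    exact hx' P hPS

theorem gsum_of_support (hd : d.Good) {φ : B → ℂ} {D : FI E} {h : FI B} {M : ℝ}
    (hφ : ∀ x, φ x ≠ 0 → x ∈ d.VS ∧ x ∈ RB B d.S (d.dlt D h)) (hM : ∀ x, ‖φ x‖ ≤ M) :
    GSum φ (fun x j => d.b j x) (fun x j => d.b j (d.tau x)) := by
  obtain ⟨m, hm, h1⟩ := exists_denominator (d := d) D h
  intro ε hε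
  exact Fermat.Agent.H73U.summable_gauss d.e d.b d.tau hd.hb hd.he hd.tau_ne hd.deg φ M m hm
    (fun x hx => h1 x (hφ x hx).1 (hφ x hx).2) hM ε hε

/-! ### The unfolding -/

theorem val_ne_zero_of_mem_VS {x : B} (hx : x ∈ d.VS) : x ≠ 0 := by
  rintro rfl
  exact zero_notMem_VS hx

theorem norm_om_le (D : FI E) : ‖om B d.S D‖ ≤ 1 := by
  classical
  rw [om]
  have h : ∀ w : HeightOneSpectrum (𝓞 E),
      ‖(if w ∉ d.S ∧ NonSplit B w then (-1 : ℂ) else 1) ^ (cE D w)‖ ≤ 1 := by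
    intro w
    rw [norm_zpow]
    split_ifs
    · rw [norm_neg, norm_one, one_zpow]
    · rw [norm_one, one_zpow]
  refine finprod_induction (p := fun z : ℂ => ‖z‖ ≤ 1) (by simp) ?_ h
  intro x y hx hy
  rw [norm_mul]
  exact mul_le_one₀ hx (norm_nonneg _) hy

theorem phi_ne_zero {A D : FI E} {u : E} {h : FI B} {x : B} (hx : d.phi A D u h x ≠ 0) :
    x ∈ d.VS ∧ x ∈ RB B d.S (d.dlt D h) := by
  classical
  by_contra hcon
  exact hx (by rw [DD.phi, if_neg hcon])

theorem norm_phi_le (A D : FI E) (u : E) (h : FI B) (x : B) :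
    ‖d.phi A D u h x‖ ≤ |(aN (A * D⁻¹)) ^ (-(1 / 2) : ℝ)| := by
  classical
  rw [DD.phi]
  split_ifs
  · rw [norm_mul, norm_mul, norm_psS, mul_one, Complex.norm_real, Real.norm_eq_abs]
    exact (mul_le_mul_of_nonneg_right (norm_om_le D) (abs_nonneg _)).trans (one_mul _).le
  · rw [norm_zero]
    exact abs_nonneg _

theorem gsum_phi (hd : d.Good) (A D : FI E) (u : E) (h : FI B) :
    GSum (d.phi A D u h) (fun x j => d.b j x) (fun x j => d.b j (d.tau x)) :=
  gsum_of_support hd (fun _ hx => phi_ne_zero hx) (norm_phi_le A D u h)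

/-- The cut-off weight for the relative units. -/
theorem exists_cut (hd : d.Good) : ∃ (c : (J → ℝ) → ℝ) (R : ℝ), IsCut c R ∧
    ∀ s, HasSum (fun u : U1 d.tau d.idm => c (s + lg d.b (u : (𝓞 B)ˣ))) 1 := by
  have := hd.tcE
  have := hd.tcB
  obtain ⟨C, -, hC⟩ := Fermat.Agent.H73U.cocompact_sub d.e d.b d.tau hd.hb hd.he hd.tau_ne hd.deg
    d.idm (idm_ne_bot d)
  obtain ⟨c, R, h1, h2, -, h3, -, h4⟩ := Fermat.Agent.H87U.exists_cutoff
    (Λ := fun u : U1 d.tau d.idm => lg d.b (u : (𝓞 B)ˣ))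
    (fun u v => Fermat.Agent.H73U.lg_mul_sub d.b d.tau d.idm u v)
    ⟨C, hC⟩ (fun C => Fermat.Agent.H73U.finite_sub d.e d.b d.tau hd.hb hd.he hd.tau_ne hd.deg d.idm C)
  exact ⟨c, R, ⟨h1, h2, h3⟩, h4⟩

/-- **(UNFOLD)**: the explicit series is a finite sum of cut-off integrals of theta kernels. -/
theorem unfold (hd : d.Good) {n : HeightOneSpectrum (𝓞 E) → ℤ} (H : HCoef d n) :
    ∃ (ι : Type) (_ : Fintype ι) (h : ι → FI B) (g : ι → ℂ) (c : (J → ℝ) → ℝ) (R : ℝ),
      IsCut c R ∧ (∀ i, IsNm d.S d.tau (h i) n) ∧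
      ∀ A D : FI E, (∀ w ∈ d.S, cE A w = 0 ∧ cE D w = 0) → (∀ w ∉ d.S, cE (A * D) w = n w) →
        ∀ (u : E) (w : J → H3), d.ser (A * D⁻¹) u w =
          ∑ i, g i * ∫ s : J → ℝ, (c s : ℂ) * d.theta A D u (h i) w s := by
  classical
  obtain ⟨ι, hι, h, g, hh, H⟩ := H
  obtain ⟨c, R, hc, hsum⟩ := exists_cut hd
  refine ⟨ι, hι, h, g, c, R, hc, hh, fun A D hAD hn u w => ?_⟩
  set L : ι → Set Bˣ := fun i => {x | (x : B) ∈ d.VS ∧ (x : B) ∈ RB B d.S (d.dlt D (h i))} with hL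
  set g' : ι → ℂ := fun i => g i * om B d.S D with hg'
  set ψ : Eˣ → ℂ := fun α => psS d.S (u * α) with hψ
  set N : ℂ := (((aN (A * D⁻¹)) ^ (-(1 / 2) : ℝ) : ℝ) : ℂ) with hN
  have hphi : ∀ i (x : Bˣ), g i * d.phi A D u (h i) x = N * wt g' L ψ i x := by
    intro i x
    rw [DD.phi, wt]
    by_cases hx : (x : B) ∈ d.VS ∧ (x : B) ∈ RB B d.S (d.dlt D (h i))
    · have hx' : x ∈ L i := hx
      rw [if_pos hx, if_pos hx']
      simp only [hg', hψ, hN]
      have : ((nmU E B x : Eˣ) : E) = Algebra.norm E (x : B) := rfl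
      rw [this]
      ring
    · have hx' : x ∉ L i := hx
      rw [if_neg hx, if_neg hx', mul_zero, mul_zero]
  have hLs : ∀ i (v : U1 d.tau d.idm) (x : Bˣ), incl d.tau d.idm v * x ∈ L i ↔ x ∈ L i := by
    intro i v x
    show (((incl d.tau d.idm v * x : Bˣ) : B) ∈ d.VS ∧ _) ↔ _
    rw [Units.val_mul, coe_incl, unit_mul_mem_VS_iff hd, unit_mul_mem_RB_iff]
    rfl
  have hwt0 : ∀ i (x : Bˣ), wt g' L ψ i x ≠ 0 → x ∈ L i := by
    intro i x hx
    by_contra hcon
    exact hx (by rw [wt, if_neg hcon])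
  have hwtM : ∀ i (x : Bˣ), ‖wt g' L ψ i x‖ ≤ ‖g i‖ := by
    intro i x
    rw [wt]
    split_ifs
    · simp only [hg', hψ]
      rw [norm_mul, norm_mul, norm_psS, mul_one]
      exact (mul_le_mul_of_nonneg_left (norm_om_le D) (norm_nonneg _)).trans (mul_one _).le
    · rw [norm_zero]; exact norm_nonneg _
  have hG : ∀ i, GSum (wt g' L ψ i) (px d.b) (qx d.b d.tau) := by
    intro i
    let φ : B → ℂ := fun x => if hx : x = 0 then 0 else wt g' L ψ i (Units.mk0 x hx)
    have h1 : GSum φ (fun x j => d.b j x) (fun x j => d.b j (d.tau x)) := by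
      refine gsum_of_support (D := D) (h := h i) (M := ‖g i‖) hd (fun x hx => ?_) fun x => ?_
      · by_cases hx0 : x = 0
        · exact absurd (by simp only [φ, dif_pos hx0]) hx
        · simp only [φ, dif_neg hx0] at hx
          exact hwt0 i _ hx
      · by_cases hx0 : x = 0
        · simp only [φ, dif_pos hx0, norm_zero]; exact norm_nonneg _
        · simp only [φ, dif_neg hx0]; exact hwtM i _
    have h2 := gsum_units h1
    have h3 : (fun x : Bˣ => φ x) = wt g' L ψ i := by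
      funext x
      simp only [φ, dif_neg x.ne_zero]
      congr 1
      exact Units.ext rfl
    rw [h3] at h2
    exact h2
  set a : Eˣ → ℂ := fun α => if α ∈ d.US then
    H33D.cf d.chi (spanSingleton (𝓞 E)⁰ (α : E) *
      ((A * D⁻¹ : FI E) : FractionalIdeal (𝓞 E)⁰ E)) else 0 with ha
  have hcoef : ∀ α : Eˣ, HasSum (fun p : {p : ι × Cls d.tau d.idm // p.2.out ∈ L p.1 ∧
      nmU E B p.2.out = α} => g' p.1.1) (a α) := by
    intro α
    by_cases hα : α ∈ d.US
    · have h1 := H A D hAD hn α hα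
      simp only [ha, if_pos hα]
      let ε : {p : ι × Cls d.tau d.idm // p.2.out ∈ L p.1 ∧ nmU E B p.2.out = α} ≃
          {p : ι × Cls d.tau d.idm // ((p.2.out : Bˣ) : B) ∈ d.VS ∧
            ((p.2.out : Bˣ) : B) ∈ RB B d.S (d.dlt D (h p.1)) ∧ nmU E B p.2.out = α} :=
        Equiv.subtypeEquivRight fun p => by
          show ((_ ∧ _) ∧ _) ↔ _
          rw [and_assoc]
      exact (Equiv.hasSum_iff ε).2 h1
    · simp only [ha, if_neg hα]
      have hemp : IsEmpty {p : ι × Cls d.tau d.idm // p.2.out ∈ L p.1 ∧ nmU E B p.2.out = α} := by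
        refine ⟨fun p => hα ?_⟩
        obtain ⟨β, hβ, h1⟩ := p.2.1.1.2
        have h2 : β = α := by
          rw [← p.2.2]
          exact Units.ext h1
        rwa [h2] at hβ
      exact hasSum_empty
  have hmain := hasSum_unfold_norm d.b d.tau d.idm d.e hd.hb hd.tau_ne hd.deg hc hsum hLs hG
    hcoef w
  have hser : d.ser (A * D⁻¹) u w = N * ∑ i, thetaInt c (wt g' L ψ i) (px d.b) (qx d.b d.tau) w := by
    rw [DD.ser, ← hmain.tsum_eq]
    congr 2
    funext α
    rw [DD.sco]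
    by_cases hα : α ∈ d.US
    · simp only [ha, hψ, if_pos hα]
    · simp only [ha, if_neg hα, zero_mul]
  rw [hser, Finset.mul_sum]
  refine Finset.sum_congr rfl fun i _ => ?_
  rw [thetaInt, ← integral_const_mul, ← integral_const_mul]
  refine integral_congr_ae (Filter.Eventually.of_forall fun s => ?_)
  have h0 : d.phi A D u (h i) 0 = 0 := by
    by_contra h0
    exact zero_notMem_VS (phi_ne_zero h0).1
  show N * ((c s : ℂ) * H53Z.theta (wt g' L ψ i) (px d.b) (qx d.b d.tau) w s) =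
    g i * ((c s : ℂ) * d.theta A D u (h i) w s)
  rw [DD.theta, theta_units h0, H53Z.theta, H53Z.theta]
  have e1 : N * ∑' x : Bˣ, wt g' L ψ i x * gterm w s (px d.b x) (qx d.b d.tau x) =
      g i * ∑' x : Bˣ, d.phi A D u (h i) x *
        gterm w s (fun j => d.b j x) (fun j => d.b j (d.tau x)) := by
    rw [← tsum_mul_left, ← tsum_mul_left]
    congr 1
    funext x
    rw [← mul_assoc, ← mul_assoc, hphi]
    rfl
  rw [mul_left_comm N, e1, mul_left_comm]

end Fermat.Agent.H71D
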