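import Mathlib
import Fermat.Agent.H05_CompHom
import Fermat.Agent.H74VarChange
import Fermat.Agent.H59RedGal

set_option autoImplicit false

/-! # Explicit Tate normal form of a curve with multiplicative reduction

`W` over a field `K` with `2 ≠ 0`, `c₄, c₆ ≠ 0`.  With `u² = -c₆/c₄`, `r = (18b₆ - b₂b₄)/c₄`,
`s = (u - a₁)/2`, `t = -(a₃ + r a₁)/2` the curve `C • W` is
`y² + xy = x³ - (36Δ/c₆²) x - Δ/c₆²`. -/

namespace Fermat.Agent.H72

open WeierstrassCurve WeierstrassCurve.Affine Fermat.Agent.H05 Fermat.Agent.H74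

variable {K : Type*} [Field K]

/-- the `x`-coordinate of the node -/
def rr (W : WeierstrassCurve K) : K := (18 * W.b₆ - W.b₂ * W.b₄) / W.c₄

/-- coefficients of the Tate form -/
def A4 (W : WeierstrassCurve K) : K := -36 * W.Δ / W.c₆ ^ 2

/-- coefficients of the Tate form -/
def A6 (W : WeierstrassCurve K) : K := - W.Δ / W.c₆ ^ 2

/-- the `s`-parameter -/
def ss (W : WeierstrassCurve K) (u : K) : K := (u - W.a₁) / 2

/-- the `t`-parameter -/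
def tt (W : WeierstrassCurve K) : K := -(W.a₃ + rr W * W.a₁) / 2

/-- the change of variables -/
def vc (W : WeierstrassCurve K) (u : Kˣ) : VariableChange K := ⟨u, rr W, ss W u, tt W⟩

theorem vc_smul (W : WeierstrassCurve K) (h2 : (2 : K) ≠ 0) (h4 : W.c₄ ≠ 0) (h6 : W.c₆ ≠ 0)
    (u : Kˣ) (hu : (u : K) ^ 2 = - W.c₆ / W.c₄) : vc W u • W = tateW (A4 W) (A6 W) := by
  have hu0 : (u : K) ≠ 0 := u.ne_zero
  have hr : rr W * W.c₄ = 18 * W.b₆ - W.b₂ * W.b₄ := div_mul_cancel₀ _ h4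
  have hu' : (u : K) ^ 2 * W.c₄ = - W.c₆ := by rw [hu, div_mul_cancel₀ _ h4]
  have h12 : W.b₂ + 12 * rr W = (u : K) ^ 2 := by
    apply mul_right_cancel₀ h4
    rw [hu']
    unfold WeierstrassCurve.c₄ WeierstrassCurve.c₆ at *
    linear_combination 12 * hr
  have hs : 2 * ss W u = u - W.a₁ := mul_div_cancel₀ _ h2
  have ht : 2 * tt W = -(W.a₃ + rr W * W.a₁) := mul_div_cancel₀ _ h2
  have key4 : (W.b₄ + rr W * W.b₂ + 6 * rr W ^ 2) * W.c₄ ^ 2 = -72 * W.Δ := by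
    have e : (W.b₄ + rr W * W.b₂ + 6 * rr W ^ 2) * W.c₄ ^ 2 =
      W.b₄ * W.c₄ ^ 2 + (rr W * W.c₄) * W.b₂ * W.c₄ + 6 * (rr W * W.c₄) ^ 2 := by ring
    rw [e, hr]
    have h8 := W.b_relation
    unfold WeierstrassCurve.c₄ WeierstrassCurve.Δ
    linear_combination (-18 * W.b₂ ^ 2) * h8
  have key6 : (W.b₆ + 2 * rr W * W.b₄ + rr W ^ 2 * W.b₂ + 4 * rr W ^ 3) * W.c₄ ^ 3 =
      4 * W.Δ * W.c₆ := by
    have e : (W.b₆ + 2 * rr W * W.b₄ + rr W ^ 2 * W.b₂ + 4 * rr W ^ 3) * W.c₄ ^ 3 =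
      W.b₆ * W.c₄ ^ 3 + 2 * (rr W * W.c₄) * W.b₄ * W.c₄ ^ 2 +
        (rr W * W.c₄) ^ 2 * W.b₂ * W.c₄ + 4 * (rr W * W.c₄) ^ 3 := by ring
    rw [e, hr]
    have h8 := W.b_relation
    unfold WeierstrassCurve.c₄ WeierstrassCurve.c₆ WeierstrassCurve.Δ
    linear_combination (W.b₂ ^ 2 * (-W.b₂ ^ 3 + 36 * W.b₂ * W.b₄ - 216 * W.b₆)) * h8
  have h4' : (4 : K) ≠ 0 := by
    have : (4 : K) = 2 * 2 := by norm_num
    rw [this]; exact mul_ne_zero h2 h2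
  have e2 : W.a₂ - ss W u * W.a₁ + 3 * rr W - ss W u ^ 2 = 0 := by
    apply mul_left_cancel₀ h4'
    have : W.b₂ = W.a₁ ^ 2 + 4 * W.a₂ := rfl
    rw [this] at h12
    linear_combination h12 - (2 * ss W u + W.a₁ + u) * hs
  have e3 : W.a₃ + rr W * W.a₁ + 2 * tt W = 0 := by linear_combination ht
  have e4 : (W.a₄ - ss W u * W.a₃ + 2 * rr W * W.a₂ - (tt W + rr W * ss W u) * W.a₁ +
      3 * rr W ^ 2 - 2 * ss W u * tt W) * W.c₄ ^ 2 = -36 * W.Δ := by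
    apply mul_left_cancel₀ h2
    have hb2 : W.b₂ = W.a₁ ^ 2 + 4 * W.a₂ := rfl
    have hb4 : W.b₄ = 2 * W.a₄ + W.a₁ * W.a₃ := rfl
    rw [hb2, hb4] at key4
    linear_combination key4 - W.c₄ ^ 2 * (W.a₁ + 2 * ss W u) * e3
  have e6 : (W.a₆ + rr W * W.a₄ + rr W ^ 2 * W.a₂ + rr W ^ 3 - tt W * W.a₃ - tt W ^ 2 -
      rr W * tt W * W.a₁) * W.c₄ ^ 3 = W.Δ * W.c₆ := by
    apply mul_left_cancel₀ h4'
    have hb2 : W.b₂ = W.a₁ ^ 2 + 4 * W.a₂ := rfl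
    have hb4 : W.b₄ = 2 * W.a₄ + W.a₁ * W.a₃ := rfl
    have hb6 : W.b₆ = W.a₃ ^ 2 + 4 * W.a₆ := rfl
    rw [hb2, hb4, hb6] at key6
    linear_combination key6 - W.c₄ ^ 3 * (W.a₃ + rr W * W.a₁ + 2 * tt W) * e3
  ext
  · rw [variableChange_a₁]
    simp only [vc, tateW, Units.val_inv_eq_inv_val]
    rw [show W.a₁ + 2 * ss W u = u by linear_combination hs, inv_mul_cancel₀ hu0]
  · rw [variableChange_a₂]
    simp only [vc, tateW, Units.val_inv_eq_inv_val]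
    rw [e2, mul_zero]
  · rw [variableChange_a₃]
    simp only [vc, tateW, Units.val_inv_eq_inv_val]
    rw [e3, mul_zero]
  · rw [variableChange_a₄]
    simp only [vc, tateW, Units.val_inv_eq_inv_val]
    unfold A4
    rw [eq_div_iff (pow_ne_zero 2 h6), inv_pow, inv_mul_eq_div, div_mul_eq_mul_div,
      div_eq_iff (pow_ne_zero 4 hu0)]
    apply mul_right_cancel₀ (pow_ne_zero 2 h4)
    linear_combination W.c₆ ^ 2 * e4 + 36 * W.Δ * (u ^ 2 * W.c₄ - W.c₆) * hu'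
  · rw [variableChange_a₆]
    simp only [vc, tateW, Units.val_inv_eq_inv_val]
    unfold A6
    rw [eq_div_iff (pow_ne_zero 2 h6), inv_pow, inv_mul_eq_div, div_mul_eq_mul_div,
      div_eq_iff (pow_ne_zero 6 hu0)]
    apply mul_right_cancel₀ (pow_ne_zero 3 h4)
    linear_combination W.c₆ ^ 2 * e6 + W.Δ * ((u ^ 2 * W.c₄) ^ 2 - u ^ 2 * W.c₄ * W.c₆ + W.c₆ ^ 2) * hu'

end Fermat.Agent.H72
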