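import Mathlib
import Fermat.Agent.H72TateForm
import Fermat.Agent.H72Red

set_option autoImplicit false

/-! # The component homomorphism of a curve with multiplicative reduction (any residue
characteristic), via the explicit Tate form and `H05.compHom`. -/

namespace Fermat.Agent.H72

open WeierstrassCurve WeierstrassCurve.Affine Fermat.Agent.H05 Fermat.Agent.H74
open scoped WeierstrassCurve.Affine

lemma eq_one_of_sq {Γ₀ : Type*} [LinearOrderedCommGroupWithZero Γ₀] {x : Γ₀} {n : ℕ}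
    (hn : n ≠ 0) (h : x ^ n = 1) : x = 1 := by
  rcases lt_trichotomy x 1 with h1 | h1 | h1
  · exact absurd h (pow_lt_one' h1 hn).ne
  · exact h1
  · exact absurd h (one_lt_pow' h1 hn).ne'

/-- `W` has integral coefficients at `A` and multiplicative reduction. -/
structure MultRed {K : Type*} [Field K] (A : ValuationSubring K) (W : WeierstrassCurve K) :
    Prop where
  a₁ : A.valuation W.a₁ ≤ 1
  a₂ : A.valuation W.a₂ ≤ 1
  a₃ : A.valuation W.a₃ ≤ 1
  a₄ : A.valuation W.a₄ ≤ 1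
  a₆ : A.valuation W.a₆ ≤ 1
  c₄ : A.valuation W.c₄ = 1
  Δ : A.valuation W.Δ < 1
  Δ_ne : W.Δ ≠ 0

namespace MultRed

variable {K : Type*} [Field K] {A : ValuationSubring K} {W : WeierstrassCurve K}
  (h : MultRed A W)
include h

lemma b₂ : A.valuation W.b₂ ≤ 1 :=
  in_add _ (in_pow _ h.a₁ 2) (in_mul _ (in_ofNat _ 4) h.a₂)
lemma b₄ : A.valuation W.b₄ ≤ 1 :=
  in_add _ (in_mul _ (in_ofNat _ 2) h.a₄) (in_mul _ h.a₁ h.a₃)
lemma b₆ : A.valuation W.b₆ ≤ 1 :=
  in_add _ (in_pow _ h.a₃ 2) (in_mul _ (in_ofNat _ 4) h.a₆)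

lemma c₄_ne : W.c₄ ≠ 0 := by
  intro h0
  have := h.c₄
  rw [h0, map_zero] at this
  exact zero_ne_one this

lemma c₆ : A.valuation W.c₆ = 1 := by
  have h1 : W.c₆ ^ 2 = W.c₄ ^ 3 - 1728 * W.Δ := by linear_combination W.c_relation
  have h2 : A.valuation (W.c₄ ^ 3) = 1 := by rw [map_pow, h.c₄, one_pow]
  have h3 : A.valuation (1728 * W.Δ) < 1 := sm_mul _ (in_ofNat _ 1728) h.Δ
  have h4 : A.valuation (W.c₆ ^ 2) = 1 := by
    rw [h1, Valuation.map_sub_eq_of_lt_left _ (by rw [h2]; exact h3), h2]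
  rw [map_pow] at h4
  exact eq_one_of_sq two_ne_zero h4

lemma c₆_ne : W.c₆ ≠ 0 := by
  intro h0
  have := h.c₆
  rw [h0, map_zero] at this
  exact zero_ne_one this

lemma rr_le : A.valuation (rr W) ≤ 1 := by
  unfold rr
  rw [map_div₀, h.c₄, div_one]
  exact in_sub _ (in_mul _ (in_ofNat _ 18) h.b₆) (in_mul _ h.b₂ h.b₄)

lemma val_A6 : A.valuation (A6 W) = A.valuation W.Δ := by
  unfold A6
  rw [map_div₀, map_pow, h.c₆, one_pow, div_one, Valuation.map_neg]

lemma A6_ne : A6 W ≠ 0 := by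
  intro h0
  have := h.val_A6
  rw [h0, map_zero] at this
  exact h.Δ_ne ((Valuation.zero_iff _).mp this.symm)

omit h in
lemma A4_eq : A4 W = 36 * A6 W := by
  unfold A4 A6; ring

lemma tateCoeffs : TateCoeffs A (A4 W) (A6 W) where
  ne := h.A6_ne
  lt := by
    rw [lg_neg_iff h.A6_ne, ValuationSubring.mem_nonunits_iff, h.val_A6]
    exact h.Δ
  bd := by
    rw [A4_eq]
    have h36 : Bd A (36 : K) 0 := by
      rw [bd_zero_iff, ← A.valuation_le_one_iff]
      exact in_ofNat _ 36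
    have := h36.mul (bd_self (A := A) (A6 W))
    rwa [zero_add] at this

lemma val_u {u : K} (hu : u ^ 2 = - W.c₆ / W.c₄) : A.valuation u = 1 := by
  have h1 : A.valuation (u ^ 2) = 1 := by
    rw [hu, map_div₀, Valuation.map_neg, h.c₆, h.c₄, div_one]
  rw [map_pow] at h1
  exact eq_one_of_sq two_ne_zero h1

lemma u_ne {u : K} (hu : u ^ 2 = - W.c₆ / W.c₄) : u ≠ 0 := by
  intro h0
  have := h.val_u hu
  rw [h0, map_zero] at this
  exact zero_ne_one this

/-- `s` is integral. -/
lemma ss_le (h2 : (2 : K) ≠ 0) {u : K} (hu : u ^ 2 = - W.c₆ / W.c₄) :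
    A.valuation (ss W u) ≤ 1 := by
  have h4 := h.c₄_ne
  have hs : 2 * ss W u = u - W.a₁ := mul_div_cancel₀ _ h2
  have h4' : (4 : K) ≠ 0 := by
    have : (4 : K) = 2 * 2 := by norm_num
    rw [this]; exact mul_ne_zero h2 h2
  have hr : rr W * W.c₄ = 18 * W.b₆ - W.b₂ * W.b₄ := div_mul_cancel₀ _ h4
  have hu' : u ^ 2 * W.c₄ = - W.c₆ := by rw [hu, div_mul_cancel₀ _ h4]
  have h12 : W.b₂ + 12 * rr W = u ^ 2 := by
    apply mul_right_cancel₀ h4
    rw [hu']
    unfold WeierstrassCurve.c₄ WeierstrassCurve.c₆ at *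
    linear_combination 12 * hr
  have e2 : ss W u * (ss W u + W.a₁) = W.a₂ + 3 * rr W := by
    apply mul_left_cancel₀ h4'
    have : W.b₂ = W.a₁ ^ 2 + 4 * W.a₂ := rfl
    rw [this] at h12
    linear_combination (2 * ss W u + W.a₁ + u) * hs - h12
  by_contra hlt
  rw [not_le] at hlt
  have e3 : A.valuation (ss W u + W.a₁) = A.valuation (ss W u) :=
    Valuation.map_add_eq_of_lt_left _ (lt_of_le_of_lt h.a₁ hlt)
  have e4 : A.valuation (ss W u * (ss W u + W.a₁)) ≤ 1 := by
    rw [e2]; exact in_add _ h.a₂ (in_mul _ (in_ofNat _ 3) h.rr_le)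
  rw [map_mul, e3] at e4
  exact absurd e4 (not_le.mpr (one_lt_mul'' hlt hlt))

end MultRed

section castPt

variable {K : Type*} [Field K] [DecidableEq K]

/-- transport of points along an equality of curves -/
def castPt {W W' : WeierstrassCurve.Affine K} (e : W = W') : W.Point ≃+ W'.Point :=
  e ▸ AddEquiv.refl _

lemma castPt_some {W W' : WeierstrassCurve.Affine K} (e : W = W') {x y : K}
    (h : W.Nonsingular x y) : castPt e (.some x y h) = .some x y (e ▸ h) := by
  subst e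
  rfl

end castPt

section comp

variable {K : Type*} [Field K] [DecidableEq K] {A : ValuationSubring K}
  {W : WeierstrassCurve K}

/-- The isomorphism with the Tate form. -/
noncomputable def toTate (h2 : (2 : K) ≠ 0) (h : MultRed A W) {u : K}
    (hu : u ^ 2 = - W.c₆ / W.c₄) : W.toAffine.Point ≃+ (tateW (A4 W) (A6 W)).Point :=
  ((H74.pointEquiv W (vc W (Units.mk0 u (h.u_ne hu)))).symm).trans
    (castPt (vc_smul W h2 h.c₄_ne h.c₆_ne (Units.mk0 u (h.u_ne hu)) hu))

/-- `x`-coordinate in Tate form -/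
noncomputable def tX (W : WeierstrassCurve K) (u x : K) : K := (u⁻¹) ^ 2 * (x - rr W)

/-- `y`-coordinate in Tate form -/
noncomputable def tY (W : WeierstrassCurve K) (u x y : K) : K :=
  (u⁻¹) ^ 3 * (y - ss W u * (x - rr W) - tt W)

lemma toTate_some (h2 : (2 : K) ≠ 0) (h : MultRed A W) {u : K}
    (hu : u ^ 2 = - W.c₆ / W.c₄) {x y : K} (hP : W.toAffine.Nonsingular x y) :
    ∃ h', toTate h2 h hu (.some x y hP) = .some (tX W u x) (tY W u x y) h' := by
  unfold toTate
  rw [AddEquiv.trans_apply, H74.pointEquiv_symm_some, castPt_some]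
  exact ⟨_, rfl⟩

/-- **The component homomorphism.** -/
noncomputable def comp (h2 : (2 : K) ≠ 0) (h : MultRed A W) {u : K}
    (hu : u ^ 2 = - W.c₆ / W.c₄) : W.toAffine.Point →+ CG A (A6 W) :=
  (compHom h.tateCoeffs).comp (toTate h2 h hu).toAddMonoidHom

lemma comp_apply (h2 : (2 : K) ≠ 0) (h : MultRed A W) {u : K}
    (hu : u ^ 2 = - W.c₆ / W.c₄) (P : W.toAffine.Point) :
    comp h2 h hu P = compHom h.tateCoeffs (toTate h2 h hu P) := rfl

lemma comp_some_eq_zero_iff (h2 : (2 : K) ≠ 0) (h : MultRed A W) {u : K}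
    (hu : u ^ 2 = - W.c₆ / W.c₄) {x y : K} (hP : W.toAffine.Nonsingular x y) :
    comp h2 h hu (.some x y hP) = 0 ↔ 1 ≤ A.valuation (x - rr W) := by
  obtain ⟨h', e⟩ := toTate_some h2 h hu hP
  rw [comp_apply, e, compHom_eq_zero_iff, ValuationSubring.mem_nonunits_iff, not_lt]
  unfold tX
  rw [map_mul, map_pow, map_inv₀, h.val_u hu, inv_one, one_pow, one_mul]

end comp

section reduces

variable {K : Type*} [Field K] [DecidableEq K] {A : ValuationSubring K}
  {W : WeierstrassCurve K} {E : WeierstrassCurve A}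

omit [DecidableEq K] in
/-- Points of the zero component have nonsingular reduction. -/
lemma exists_reduces_of_val (h : MultRed A W) (hL : E.map A.subtype = W) {x y : K}
    (hP : W.toAffine.Nonsingular x y) (hx : 1 ≤ A.valuation (x - rr W)) :
    ∃ P' : (E.map (IsLocalRing.residue A)).toAffine.Point,
      H59.Reduces A (IsLocalRing.residue A) (Point.some x y hP) P' := by
  by_cases hxA : x ∈ A
  swap
  · exact ⟨0, hxA⟩
  have hyA : y ∈ A := H59.y_mem hL hP.1 hxA
  subst hL
  have heq := hP.1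
  rw [equation_iff] at heq
  simp only [map_a₁, map_a₂, map_a₃, map_a₄, map_a₆, ValuationSubring.subtype_apply] at heq
  have heq' : (⟨y, hyA⟩ : A) ^ 2 + E.a₁ * ⟨x, hxA⟩ * ⟨y, hyA⟩ + E.a₃ * ⟨y, hyA⟩ =
      ⟨x, hxA⟩ ^ 3 + E.a₂ * ⟨x, hxA⟩ ^ 2 + E.a₄ * ⟨x, hxA⟩ + E.a₆ := by
    apply Subtype.ext
    push_cast
    exact heq
  set a : A := ⟨x, hxA⟩
  set b : A := ⟨y, hyA⟩
  have hns : (E.map (IsLocalRing.residue A)).toAffine.Nonsingular (IsLocalRing.residue A a)
      (IsLocalRing.residue A b) := by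
    rw [nonsingular_iff']
    constructor
    · rw [equation_iff]
      have := congrArg (IsLocalRing.residue A) heq'
      simpa only [map_add, map_mul, map_pow, map_a₁, map_a₂, map_a₃, map_a₄, map_a₆] using this
    · by_contra hcon
      push Not at hcon
      obtain ⟨h1, h2⟩ := hcon
      simp only [map_a₁, map_a₂, map_a₃, map_a₄] at h1 h2
      have k1 : IsLocalRing.residue A (E.a₁ * b - (3 * a ^ 2 + 2 * E.a₂ * a + E.a₄)) = 0 := by
        simpa only [map_add, map_sub, map_mul, map_pow, map_ofNat] using h1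
      have k2 : IsLocalRing.residue A (2 * b + E.a₁ * a + E.a₃) = 0 := by
        simpa only [map_add, map_mul, map_ofNat] using h2
      have key : E.c₄ * a - (18 * E.b₆ - E.b₂ * E.b₄) =
          (E.b₂ + 12 * a) * (-2 * (E.a₁ * b - (3 * a ^ 2 + 2 * E.a₂ * a + E.a₄)) +
            E.a₁ * (2 * b + E.a₁ * a + E.a₃)) - 18 * (2 * b + E.a₁ * a + E.a₃) ^ 2 := by
        simp only [WeierstrassCurve.c₄, WeierstrassCurve.b₆, WeierstrassCurve.b₄,
          WeierstrassCurve.b₂]
        linear_combination (72 : A) * heq'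
      have k3 : IsLocalRing.residue A (E.c₄ * a - (18 * E.b₆ - E.b₂ * E.b₄)) = 0 := by
        rw [key]
        simp only [map_add, map_sub, map_mul, map_pow, map_neg] at k1 k2 ⊢
        rw [k1, k2]
        ring
      rw [IsLocalRing.residue_eq_zero_iff, ← ValuationSubring.coe_mem_nonunits_iff,
        ValuationSubring.mem_nonunits_iff] at k3
      have e : ((E.c₄ * a - (18 * E.b₆ - E.b₂ * E.b₄) : A) : K) =
          (E.map A.subtype).c₄ * (x - rr (E.map A.subtype)) := by
        have hr : (E.map A.subtype).c₄ * rr (E.map A.subtype) =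
          18 * (E.map A.subtype).b₆ - (E.map A.subtype).b₂ * (E.map A.subtype).b₄ :=
            mul_div_cancel₀ _ h.c₄_ne
        rw [mul_sub, hr, map_c₄, map_b₆, map_b₂, map_b₄]
        push_cast
        rfl
      rw [e, map_mul, h.c₄, one_mul] at k3
      exact absurd k3 (not_lt.mpr hx)
  exact ⟨Point.some _ _ hns, a, b, rfl, rfl, rfl, rfl⟩

theorem exists_reduces_of_comp (h2 : (2 : K) ≠ 0) (h : MultRed A W) {u : K}
    (hu : u ^ 2 = - W.c₆ / W.c₄) (hL : E.map A.subtype = W)
    {Ek : WeierstrassCurve (IsLocalRing.ResidueField A)} (hk : E.map (IsLocalRing.residue A) = Ek)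
    {P : W.toAffine.Point} (hP : comp h2 h hu P = 0) :
    ∃ P' : Ek.toAffine.Point, H59.Reduces A (IsLocalRing.residue A) P P' := by
  subst hk
  rcases P with _ | ⟨x, y, hxy⟩
  · exact ⟨0, trivial⟩
  · exact exists_reduces_of_val h hL hxy ((comp_some_eq_zero_iff h2 h hu hxy).mp hP)

end reduces

end Fermat.Agent.H72
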