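import Fermat.Agent.H72Red
import Fermat.Agent.H72Inertia
import Fermat.Prelude.Def_FLTPrelim_GaloisRep

/-! Good reduction implies unramified, for integral Weierstrass curves over `ℚ`
(or any field `k`) and a valuation subring of an extension `L`. -/

set_option autoImplicit false

namespace Fermat.Agent.H72

open WeierstrassCurve WeierstrassCurve.Affine WeierstrassCurve.Affine.Point

variable {k L : Type*} [Field k] [Field L] [DecidableEq L] [Algebra k L]

/-- integrality of the Weierstrass coefficients with respect to a valuation subring -/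
structure IntegralAt (V : WeierstrassCurve k) (A : ValuationSubring L) : Prop where
  a₁ : A.valuation (algebraMap k L V.a₁) ≤ 1
  a₂ : A.valuation (algebraMap k L V.a₂) ≤ 1
  a₃ : A.valuation (algebraMap k L V.a₃) ≤ 1
  a₄ : A.valuation (algebraMap k L V.a₄) ≤ 1
  a₆ : A.valuation (algebraMap k L V.a₆) ≤ 1

namespace IntegralAt

variable {V : WeierstrassCurve k} {A : ValuationSubring L} (h : IntegralAt V A)

include h

omit [DecidableEq L]

lemma a₁' : A.valuation ((V⁄L).a₁) ≤ 1 := h.a₁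
lemma a₂' : A.valuation ((V⁄L).a₂) ≤ 1 := h.a₂
lemma a₃' : A.valuation ((V⁄L).a₃) ≤ 1 := h.a₃
lemma a₄' : A.valuation ((V⁄L).a₄) ≤ 1 := h.a₄
lemma a₆' : A.valuation ((V⁄L).a₆) ≤ 1 := h.a₆

lemma b₂' : A.valuation ((V⁄L).b₂) ≤ 1 :=
  in_add _ (in_pow _ h.a₁' 2) (in_mul _ (in_ofNat _ 4) h.a₂')
lemma b₄' : A.valuation ((V⁄L).b₄) ≤ 1 :=
  in_add _ (in_mul _ (in_ofNat _ 2) h.a₄') (in_mul _ h.a₁' h.a₃')
lemma b₆' : A.valuation ((V⁄L).b₆) ≤ 1 :=
  in_add _ (in_pow _ h.a₃' 2) (in_mul _ (in_ofNat _ 4) h.a₆')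
lemma b₈' : A.valuation ((V⁄L).b₈) ≤ 1 :=
  in_sub _ (in_add _ (in_sub _ (in_add _ (in_mul _ (in_pow _ h.a₁' 2) h.a₆')
    (in_mul _ (in_mul _ (in_ofNat _ 4) h.a₂') h.a₆')) (in_mul _ (in_mul _ h.a₁' h.a₃') h.a₄'))
    (in_mul _ h.a₂' (in_pow _ h.a₃' 2))) (in_pow _ h.a₄' 2)

end IntegralAt

lemma smul_some (V : WeierstrassCurve k) (σ : L ≃ₐ[k] L) {x y : L}
    (h : (V⁄L).Nonsingular x y) :
    ∃ h' : (V⁄L).Nonsingular (σ x) (σ y), σ • (Point.some x y h : (V⁄L).Point) = Point.some (σ x) (σ y) h' :=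
  ⟨_, rfl⟩

/-- **Good reduction implies unramified**, pointwise version. -/
theorem smul_eq_of_good {V : WeierstrassCurve k} {A : ValuationSubring L} (hV : IntegralAt V A)
    (hΔ : A.valuation (algebraMap k L V.Δ) = 1) {n : ℕ} (hn : A.valuation (n : L) = 1)
    {σ : L ≃ₐ[k] L} (hσ : σ ∈ A.inertiaSubgroupIn k) {P : (V⁄L).Point} (hP : n • P = 0) :
    σ • P = P := by
  rcases P with _ | ⟨x, y, h⟩
  · rfl
  · obtain ⟨h', hs⟩ := smul_some V σ h
    have hQ : n • (Point.some (σ x) (σ y) h' : (V⁄L).Point) = 0 := by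
      rw [← hs]
      have := map_nsmul (DistribSMul.toAddMonoidHom (V⁄L).Point σ) n (Point.some x y h)
      rw [hP, _root_.map_zero] at this
      exact this.symm
    have hΔ' : A.valuation ((V⁄L).Δ) = 1 := by
      show A.valuation ((V.map (algebraMap k L)).Δ) = 1
      rw [WeierstrassCurve.map_Δ]; exact hΔ
    have hx := x_le_one_of_nsmul hV.b₂' hV.b₄' hV.b₆' hV.b₈' hn hP
    have hy := y_le_one hV.a₁' hV.a₂' hV.a₃' hV.a₄' hV.a₆' h.1 hx
    rw [hs]
    exact eq_of_good hV.b₂' hV.b₄' hV.b₆' hV.b₈' hΔ' hn hQ hP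
      (val_inertia_sub_lt hσ hx) (val_inertia_sub_lt hσ hy)

end Fermat.Agent.H72
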