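import Mathlib
import Fermat.Agent.H72CompMap
import Fermat.Agent.H72Good

set_option autoImplicit false

/-! # Galois equivariance of the component homomorphism -/

namespace Fermat.Agent.H72

open WeierstrassCurve WeierstrassCurve.Affine Fermat.Agent.H05 Fermat.Agent.H74
open scoped WeierstrassCurve.Affine

section val

variable {k K : Type*} [Field k] [Field K] [Algebra k K] [Algebra.IsAlgebraic k K]
  {A : ValuationSubring K} {σ : K ≃ₐ[k] K}

lemma exists_pow_apply_eq (σ : K ≃ₐ[k] K) (x : K) : ∃ n : ℕ, n ≠ 0 ∧ (σ ^ n) x = x := by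
  have hx : IsIntegral k x := Algebra.IsIntegral.isIntegral x
  have hfin : ((minpoly k x).rootSet K).Finite := Polynomial.rootSet_finite _ _
  have hmaps : ∀ n : ℕ, (σ ^ n) x ∈ (minpoly k x).rootSet K := by
    intro n
    rw [Polynomial.mem_rootSet]
    refine ⟨minpoly.ne_zero hx, ?_⟩
    have h1 : (Polynomial.aeval x) (minpoly k x) = 0 := minpoly.aeval k x
    have := congrArg (σ ^ n) h1
    rw [map_zero, ← Polynomial.aeval_algHom_apply] at this
    exact this
  obtain ⟨i, -, j, -, hij, he⟩ := Set.infinite_univ.exists_ne_map_eq_of_mapsTo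
    (f := fun n : ℕ => (σ ^ n) x) (t := (minpoly k x).rootSet K) (fun n _ => hmaps n) hfin
  wlog hlt : i < j generalizing i j
  · exact this j i hij.symm he.symm (by omega)
  refine ⟨j - i, by omega, ?_⟩
  have he' : (σ ^ i) x = (σ ^ j) x := he
  have h2 : (σ ^ j) x = (σ ^ i) ((σ ^ (j - i)) x) := by
    rw [← AlgEquiv.mul_apply, ← pow_add]
    congr 2
    omega
  rw [h2] at he'
  exact ((σ ^ i).injective he').symm

/-- elements of the decomposition group preserve the valuation -/
lemma val_apply_eq (hσ : ∀ x, σ x ∈ A ↔ x ∈ A) (x : K) : A.valuation (σ x) = A.valuation x := by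
  by_cases hx0 : x = 0
  · rw [hx0, map_zero]
  have hnu : ∀ z, σ z ∈ A.nonunits ↔ z ∈ A.nonunits := by
    intro z
    rw [ValuationSubring.mem_nonunits_iff_or, ValuationSubring.mem_nonunits_iff_or,
      ← map_inv₀, hσ, map_eq_zero_iff σ σ.injective]
  obtain ⟨n, hn, he⟩ := exists_pow_apply_eq σ x
  set a := σ x / x with ha
  have ha0 : a ≠ 0 := div_ne_zero ((map_ne_zero_iff σ σ.injective).mpr hx0) hx0
  have hprod : ∀ m : ℕ, (∏ i ∈ Finset.range m, (σ ^ i) a) * x = (σ ^ m) x := by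
    intro m
    induction m with
    | zero => simp
    | succ m ih =>
      rw [Finset.prod_range_succ, mul_right_comm, ih, ha, map_div₀, pow_succ, AlgEquiv.mul_apply,
        mul_div_cancel₀]
      exact (map_ne_zero_iff (σ ^ m) (σ ^ m).injective).mpr hx0
  have h1 : (∏ i ∈ Finset.range n, (σ ^ i) a) = 1 := by
    have := hprod n
    rw [he] at this
    exact mul_right_cancel₀ hx0 (by rw [this, one_mul])
  have hval : A.valuation a = 1 := by
    rcases lt_trichotomy (A.valuation a) 1 with hlt | heq | hgt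
    · exfalso
      have h2 : ∀ i : ℕ, A.valuation ((σ ^ i) a) < 1 := by
        intro i
        induction i with
        | zero => simpa using hlt
        | succ i ih =>
          rw [pow_succ', AlgEquiv.mul_apply, ← ValuationSubring.mem_nonunits_iff, hnu,
            ValuationSubring.mem_nonunits_iff]
          exact ih
      have h3 : ∀ m : ℕ, m ≠ 0 → A.valuation (∏ i ∈ Finset.range m, (σ ^ i) a) < 1 := by
        intro m hm
        induction m with
        | zero => exact absurd rfl hm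
        | succ m ih =>
          rw [Finset.prod_range_succ]
          rcases eq_or_ne m 0 with rfl | hm0
          · simpa using hlt
          · exact sm_mul _ (ih hm0).le (h2 m)
      have := h3 n hn
      rw [h1, map_one] at this
      exact lt_irrefl _ this
    · exact heq
    · exfalso
      have h2 : ∀ i : ℕ, 1 < A.valuation ((σ ^ i) a) := by
        intro i
        induction i with
        | zero => simpa using hgt
        | succ i ih =>
          rw [pow_succ', AlgEquiv.mul_apply, ← not_le, A.valuation_le_one_iff, hσ,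
            ← A.valuation_le_one_iff, not_le]
          exact ih
      have h3 : ∀ m : ℕ, m ≠ 0 → 1 < A.valuation (∏ i ∈ Finset.range m, (σ ^ i) a) := by
        intro m hm
        induction m with
        | zero => exact absurd rfl hm
        | succ m ih =>
          rw [Finset.prod_range_succ, map_mul]
          rcases eq_or_ne m 0 with rfl | hm0
          · simpa using hgt
          · exact one_lt_mul'' (ih hm0) (h2 m)
      have := h3 n hn
      rw [h1, map_one] at this
      exact lt_irrefl _ this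
  rw [ha, map_div₀, div_eq_one_iff_eq] at hval
  · exact hval
  · exact (Valuation.ne_zero_iff _).mpr hx0

lemma lg_apply_eq (hσ : ∀ x, σ x ∈ A ↔ x ∈ A) (x : K) : lg A (σ x) = lg A x := by
  by_cases hx0 : x = 0
  · rw [hx0, map_zero]
  · rw [lg_eq_iff ((map_ne_zero_iff σ σ.injective).mpr hx0) hx0]
    exact val_apply_eq hσ x

lemma isComp_apply (hσ : ∀ x, σ x ∈ A ↔ x ∈ A) {x y : K} {c : VG A} (h : IsComp A x y c) :
    IsComp A (σ x) (σ y) c := by
  have hnu : ∀ z, σ z ∈ A.nonunits ↔ z ∈ A.nonunits := by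
    intro z
    rw [ValuationSubring.mem_nonunits_iff, ValuationSubring.mem_nonunits_iff, val_apply_eq hσ]
  have hlg := lg_apply_eq hσ
  have h0 : ∀ z, σ z ≠ 0 ↔ z ≠ 0 := fun z => map_ne_zero_iff σ σ.injective
  have hsm : ∀ z g, Sm A z g → Sm A (σ z) g := by
    rintro z g (rfl | hz)
    · left; rw [map_zero]
    · right; rw [hlg]; exact hz
  rcases h with hx | ⟨hx, h1, h2⟩ | ⟨hx, h1, h2⟩ | ⟨hx, h1, h2, h3⟩
  · exact .zero (by rwa [hnu])
  · have := IsComp.pos (A := A) (x := σ x) (y := σ y) ((hnu x).mpr hx)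
      (by rw [← map_add]; exact (h0 _).mpr h1)
      (by rw [← map_add, hlg]; exact hsm _ _ h2)
    rwa [← map_add, hlg] at this
  · have := IsComp.neg (A := A) (x := σ x) (y := σ y) ((hnu x).mpr hx)
      ((h0 _).mpr h1)
      (by rw [← map_add, hlg]; exact hsm _ _ h2)
    rwa [hlg] at this
  · have := IsComp.mid (A := A) (x := σ x) (y := σ y) ((hnu x).mpr hx)
      ((h0 _).mpr h1)
      (by rw [← map_add]; exact (h0 _).mpr h2)
      (by rw [← map_add, hlg, hlg]; exact h3)
    rwa [hlg] at this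

end val

section rat

variable {k K : Type*} [Field k] [Field K] [Algebra k K] (V : WeierstrassCurve k)

lemma rr_map : rr (V.map (algebraMap k K)) = algebraMap k K (rr V) := by
  unfold rr
  simp only [map_b₂, map_b₄, map_b₆, map_c₄, map_div₀, map_sub, map_mul, map_ofNat]

lemma A4_map : A4 (V.map (algebraMap k K)) = algebraMap k K (A4 V) := by
  unfold A4
  simp only [map_Δ, map_c₆, map_div₀, map_mul, map_neg, map_pow, map_ofNat]

lemma A6_map : A6 (V.map (algebraMap k K)) = algebraMap k K (A6 V) := by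
  unfold A6
  simp only [map_Δ, map_c₆, map_div₀, map_neg, map_pow]

lemma tt_map : tt (V.map (algebraMap k K)) = algebraMap k K (tt V) := by
  unfold tt
  rw [rr_map]
  simp only [map_a₁, map_a₃, map_div₀, map_neg, map_add, map_mul, map_ofNat]

end rat

section gal

variable {k K : Type*} [Field k] [Field K] [Algebra k K] [Algebra.IsAlgebraic k K] [DecidableEq K]
  {A : ValuationSubring K} {σ : K ≃ₐ[k] K} {V : WeierstrassCurve k}

omit [Algebra.IsAlgebraic k K] [DecidableEq K] in
lemma apply_u_eq_or {u : K} (hu : u ^ 2 = - (V⁄K).c₆ / (V⁄K).c₄) (σ : K ≃ₐ[k] K) :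
    σ u = u ∨ σ u = -u := by
  rw [← sq_eq_sq_iff_eq_or_eq_neg, ← map_pow, hu]
  rw [map_div₀, map_neg]
  congr 1
  · rw [show (V⁄K).c₆ = algebraMap k K V.c₆ from V.map_c₆ _, AlgEquiv.commutes]
  · rw [show (V⁄K).c₄ = algebraMap k K V.c₄ from V.map_c₄ _, AlgEquiv.commutes]

omit [Algebra.IsAlgebraic k K] [DecidableEq K] in
lemma apply_rr (σ : K ≃ₐ[k] K) : σ (rr (V⁄K)) = rr (V⁄K) := by
  rw [show rr (V⁄K) = algebraMap k K (rr V) from rr_map V, AlgEquiv.commutes]

omit [Algebra.IsAlgebraic k K] [DecidableEq K] in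
lemma apply_tt (σ : K ≃ₐ[k] K) : σ (tt (V⁄K)) = tt (V⁄K) := by
  rw [show tt (V⁄K) = algebraMap k K (tt V) from tt_map V, AlgEquiv.commutes]

omit [Algebra.IsAlgebraic k K] [DecidableEq K] in
lemma apply_a₁ (σ : K ≃ₐ[k] K) : σ (V⁄K).a₁ = (V⁄K).a₁ :=
  AlgEquiv.commutes σ V.a₁

omit [Algebra.IsAlgebraic k K] [DecidableEq K] in
lemma apply_ss_pos {u : K} (hs : σ u = u) : σ (ss (V⁄K) u) = ss (V⁄K) u := by
  unfold ss
  rw [map_div₀, map_sub, hs, apply_a₁, map_ofNat]

omit [Algebra.IsAlgebraic k K] [DecidableEq K] in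
lemma apply_tX_pos {u : K} (hs : σ u = u) (x : K) : tX (V⁄K) u (σ x) = σ (tX (V⁄K) u x) := by
  unfold tX
  rw [map_mul, map_sub, map_pow, map_inv₀, hs, apply_rr]

omit [Algebra.IsAlgebraic k K] [DecidableEq K] in
lemma apply_tY_pos {u : K} (hs : σ u = u) (x y : K) :
    tY (V⁄K) u (σ x) (σ y) = σ (tY (V⁄K) u x y) := by
  unfold tY
  rw [map_mul, map_sub, map_sub, map_mul, map_sub, map_pow, map_inv₀, hs, apply_rr, apply_tt,
    apply_ss_pos hs]

omit [Algebra.IsAlgebraic k K] [DecidableEq K] in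
lemma apply_ss_neg (h2 : (2 : K) ≠ 0) {u : K} (hs : σ u = -u) :
    σ (ss (V⁄K) u) = ss (V⁄K) u - u := by
  unfold ss
  rw [map_div₀, map_sub, hs, apply_a₁, map_ofNat]
  field_simp
  ring

omit [Algebra.IsAlgebraic k K] [DecidableEq K] in
lemma apply_tX_neg {u : K} (hs : σ u = -u) (x : K) : tX (V⁄K) u (σ x) = σ (tX (V⁄K) u x) := by
  unfold tX
  rw [map_mul, map_sub, map_pow, map_inv₀, hs, apply_rr, inv_neg, neg_sq]

omit [Algebra.IsAlgebraic k K] [DecidableEq K] in
lemma apply_tY_neg (h2 : (2 : K) ≠ 0) {u : K} (hu0 : u ≠ 0) (hs : σ u = -u) (x y : K) :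
    σ (tY (V⁄K) u x y) = -(tY (V⁄K) u (σ x) (σ y) + tX (V⁄K) u (σ x)) := by
  unfold tY tX
  rw [map_mul, map_sub, map_sub, map_mul, map_sub, map_pow, map_inv₀, hs, apply_rr, apply_tt,
    apply_ss_neg h2 hs]
  field_simp
  ring

/-- equivariance of the component homomorphism, `σ u = u` -/
theorem comp_smul_of_pos (hσ : ∀ x, σ x ∈ A ↔ x ∈ A) (h2 : (2 : K) ≠ 0) (h : MultRed A (V⁄K))
    {u : K} (hu : u ^ 2 = - (V⁄K).c₆ / (V⁄K).c₄) (hs : σ u = u) (P : (V⁄K).Point) :
    comp h2 h hu (σ • P) = comp h2 h hu P := by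
  rcases P with _ | ⟨x, y, hP⟩
  · rfl
  · obtain ⟨hP', e⟩ := smul_some V σ hP
    rw [e]
    obtain ⟨h', e1⟩ := toTate_some h2 h hu hP
    obtain ⟨h'', e2⟩ := toTate_some h2 h hu hP'
    obtain ⟨c, hc⟩ := exists_isComp h.tateCoeffs (tateW_equation h'.1)
    have hc' := isComp_apply hσ hc
    rw [← apply_tX_pos hs, ← apply_tY_pos hs] at hc'
    rw [comp_apply, comp_apply, e1, e2, compHom_some _ _ hc, compHom_some _ _ hc']

/-- equivariance of the component homomorphism, `σ u = -u` -/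
theorem comp_smul_of_neg (hσ : ∀ x, σ x ∈ A ↔ x ∈ A) (h2 : (2 : K) ≠ 0) (h : MultRed A (V⁄K))
    {u : K} (hu : u ^ 2 = - (V⁄K).c₆ / (V⁄K).c₄) (hs : σ u = -u) (P : (V⁄K).Point) :
    comp h2 h hu (σ • P) = - comp h2 h hu P := by
  rcases P with _ | ⟨x, y, hP⟩
  · show comp h2 h hu 0 = - comp h2 h hu 0
    rw [map_zero, neg_zero]
  · obtain ⟨hP', e⟩ := smul_some V σ hP
    rw [e]
    obtain ⟨h', e1⟩ := toTate_some h2 h hu hP
    obtain ⟨h'', e2⟩ := toTate_some h2 h hu hP'
    obtain ⟨c, hc⟩ := exists_isComp h.tateCoeffs (tateW_equation h'.1)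
    have hc' := isComp_apply hσ hc
    rw [← apply_tX_neg hs, apply_tY_neg h2 (h.u_ne hu) hs] at hc'
    have en : (tateW (A4 (V⁄K)) (A6 (V⁄K))).negY (tX (V⁄K) u (σ x)) (tY (V⁄K) u (σ x) (σ y)) =
        -(tY (V⁄K) u (σ x) (σ y) + tX (V⁄K) u (σ x)) := by
      simp [negY]; ring
    rw [← en] at hc'
    rw [comp_apply, comp_apply, e1, e2, compHom_some _ _ hc, eq_neg_iff_add_eq_zero,
      ← compHom_some h.tateCoeffs ((nonsingular_neg _ _).mpr h'') hc', ← map_add, ← Point.neg_some h'', add_neg_cancel, map_zero]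

omit [Algebra.IsAlgebraic k K] [DecidableEq K] in
/-- The sign of an element of the inertia group is `+1`. -/
theorem apply_u_of_inertia (h2 : (2 : K) ≠ 0) (h : MultRed A (V⁄K))
    {u : K} (hu : u ^ 2 = - (V⁄K).c₆ / (V⁄K).c₄) (hσ : σ ∈ A.inertiaSubgroupIn k) : σ u = u := by
  rcases apply_u_eq_or hu σ with hs | hs
  · exact hs
  · exfalso
    have h1 := val_inertia_sub_lt hσ (h.ss_le h2 hu)
    rw [apply_ss_neg h2 hs] at h1
    rw [show ss (V⁄K) u - u - ss (V⁄K) u = -u by ring, Valuation.map_neg, h.val_u hu] at h1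
    exact lt_irrefl _ h1

theorem comp_smul_of_inertia (h2 : (2 : K) ≠ 0) (h : MultRed A (V⁄K))
    {u : K} (hu : u ^ 2 = - (V⁄K).c₆ / (V⁄K).c₄) (hσ : σ ∈ A.inertiaSubgroupIn k)
    (P : (V⁄K).Point) : comp h2 h hu (σ • P) = comp h2 h hu P :=
  comp_smul_of_pos (H59.residue_of_mem_inertia hσ).1 h2 h hu (apply_u_of_inertia h2 h hu hσ) P

end gal

end Fermat.Agent.H72
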