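import Mathlib
import Fermat.Agent.H72CompGal

set_option autoImplicit false

/-! # EC6: inertia is unipotent at multiplicative primes (all residue characteristics) -/

namespace Fermat.Agent.H72

open WeierstrassCurve WeierstrassCurve.Affine Fermat.Agent.H05 Fermat.Agent.H74
open scoped WeierstrassCurve.Affine

local notation "Qb" => AlgebraicClosure ℚ

theorem isAlg_rat : Algebra.IsAlgebraic ℚ Qb := AlgebraicClosure.isAlgebraic ℚ

attribute [local instance] isAlg_rat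

variable {W : WeierstrassCurve ℤ} {q : ℕ} {A : ValuationSubring Qb}

theorem multRed_of_int (hq : q.Prime) (hbad : (q : ℤ) ∣ W.Δ) (hΔ : W.Δ ≠ 0)
    (hc : ¬ (q : ℤ) ∣ W.c₄) (hA : A.LiesOverPrime q) :
    MultRed A ((W.map (Int.castRingHom ℚ))⁄Qb) := by
  have e : ((W.map (Int.castRingHom ℚ))⁄Qb) = W.map (Int.castRingHom Qb) := by
    change (W.map (Int.castRingHom ℚ)).map (algebraMap ℚ Qb) = _
    rw [WeierstrassCurve.map_map]
    congr 1
  rw [e]
  have hcast : ∀ n : ℤ, Int.castRingHom Qb n = (n : Qb) := fun n => rfl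
  constructor
  · rw [map_a₁, hcast]; exact val_intCast_le _
  · rw [map_a₂, hcast]; exact val_intCast_le _
  · rw [map_a₃, hcast]; exact val_intCast_le _
  · rw [map_a₄, hcast]; exact val_intCast_le _
  · rw [map_a₆, hcast]; exact val_intCast_le _
  · rw [map_c₄, hcast]; exact val_intCast_eq_one hq hA hc
  · rw [map_Δ, hcast]
    obtain ⟨m, hm⟩ := hbad
    rw [hm]
    push_cast
    exact sm_mul' _ (val_natCast_lt hA) (val_intCast_le _)
  · rw [map_Δ, hcast]
    exact_mod_cast hΔ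

lemma exists_u (W : WeierstrassCurve Qb) : ∃ u : Qb, u ^ 2 = - W.c₆ / W.c₄ := by
  obtain ⟨u, hu⟩ := IsAlgClosed.exists_pow_nat_eq (- W.c₆ / W.c₄) (n := 2) two_pos
  exact ⟨u, hu⟩

lemma two_ne : (2 : Qb) ≠ 0 := two_ne_zero

/-- `σ P - P` is in the zero component for `σ` in inertia; torsion points in the zero component are
fixed. -/
theorem smul_eq_of_comp_eq_zero (hq : q.Prime)
    (hA : A.LiesOverPrime q) (h : MultRed A ((W.map (Int.castRingHom ℚ))⁄Qb)) {u : Qb}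
    (hu : u ^ 2 = - ((W.map (Int.castRingHom ℚ))⁄Qb).c₆ / ((W.map (Int.castRingHom ℚ))⁄Qb).c₄)
    {P : ((W.map (Int.castRingHom ℚ))⁄Qb).Point} (hP : comp two_ne h hu P = 0)
    {n : ℕ} (hn : ¬ q ∣ n) (hnP : n • P = 0)
    {σ : Qb ≃ₐ[ℚ] Qb} (hσ : σ ∈ A.inertiaSubgroupIn ℚ) : σ • P = P := by
  obtain ⟨P', hP'⟩ := exists_reduces_of_comp (E := W.map (Int.castRingHom A)) two_ne h hu
    (H59.model_map rfl) (H59.model_residue _) hP
  exact H59.smul_eq_of_inertia rfl hσ hP' (H59.natCast_residue_ne_zero hq hA hn) hnP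

/-- **EC6**: unipotent inertia at multiplicative primes. -/
theorem unipotent_of_multiplicative {q n : ℕ} (hq : q.Prime) (hbad : (q : ℤ) ∣ W.Δ)
    (hΔ : W.Δ ≠ 0) (hc : ¬ (q : ℤ) ∣ W.c₄) (hqn : ¬ q ∣ n) (A : ValuationSubring Qb)
    (hA : A.LiesOverPrime q) (σ : Qb ≃ₐ[ℚ] Qb) (hσ : σ ∈ A.inertiaSubgroupIn ℚ) :
    ∀ x : Submodule.torsionBy ℤ ((W.map (Int.castRingHom ℚ))⁄Qb).Point (n : ℤ),
      σ • (σ • x - x) = σ • x - x := by
  intro x
  have h := multRed_of_int hq hbad hΔ hc hA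
  obtain ⟨u, hu⟩ := exists_u ((W.map (Int.castRingHom ℚ))⁄Qb)
  apply Subtype.ext
  refine smul_eq_of_comp_eq_zero (P := ((σ • x - x :
    Submodule.torsionBy ℤ ((W.map (Int.castRingHom ℚ))⁄Qb).Point (n : ℤ)) :
      ((W.map (Int.castRingHom ℚ))⁄Qb).Point)) hq hA h hu ?_ hqn ?_ hσ
  · change comp two_ne h hu (σ • (x : ((W.map (Int.castRingHom ℚ))⁄Qb).Point) - x) = 0
    rw [map_sub, comp_smul_of_inertia two_ne h hu hσ, sub_self]
  · have := (Submodule.mem_torsionBy_iff _ _).mp (σ • x - x).2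
    rw [← natCast_zsmul]
    exact this

end Fermat.Agent.H72
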