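import Fermat.Agent.H72Abs
import Fermat.Agent.H72Good

/-! Multiplicative reduction (residue characteristic ≠ 2, rational 2-torsion):
if the discriminant is a `p`-th power up to units then the `p`-torsion is unramified. -/

set_option autoImplicit false

namespace Fermat.Agent.H72

open WeierstrassCurve WeierstrassCurve.Affine WeierstrassCurve.Affine.Point

section

variable {F : Type*} [Field F] [DecidableEq F] (W : Affine F)

/-- The Kummer structure attached to a Weierstrass curve with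
`4x³+b₂x²+2b₄x+b₆ = 4 (x-e)(x-e-α)(x-e+β)`. -/
noncomputable def kumOf (e α β : F)
    (hb₂ : W.b₂ = 4 * (β - α - 3 * e))
    (hb₄ : W.b₄ = 2 * (3 * e ^ 2 - 2 * e * (β - α) - α * β))
    (hb₆ : W.b₆ = 4 * (-e ^ 3 + (β - α) * e ^ 2 + α * β * e))
    (hb₈ : W.b₈ = 4 * (β - α - 3 * e) * (-e ^ 3 + (β - α) * e ^ 2 + α * β * e)
      - (3 * e ^ 2 - 2 * e * (β - α) - α * β) ^ 2) : Kum W.Point F α β where
  N P := xN P - e * xD P
  D P := xD P
  D_eq_zero P := xD_eq_zero
  N_zero := by simp
  N_neg P := by simp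
  D_neg P := by simp
  rel P Q := by
    obtain ⟨c, hc, h0, h1, h2⟩ := kummerRel P Q
    refine ⟨c, hc, ?_, ?_, ?_⟩
    · have : c * ((xN (P + Q) - e * xD (P + Q)) * (xN (P - Q) - e * xD (P - Q))) =
        c * (xN (P + Q) * xN (P - Q)) - e * (c * (xN (P + Q) * xD (P - Q) + xD (P + Q) * xN (P - Q)))
          + e ^ 2 * (c * (xD (P + Q) * xD (P - Q))) := by ring
      rw [this, h0, h1, h2, hb₂, hb₄, hb₆, hb₈]
      ring
    · have : c * ((xN (P + Q) - e * xD (P + Q)) * xD (P - Q) + xD (P + Q) * (xN (P - Q) - e * xD (P - Q))) =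
        (c * (xN (P + Q) * xD (P - Q) + xD (P + Q) * xN (P - Q)))
          - 2 * e * (c * (xD (P + Q) * xD (P - Q))) := by ring
      rw [this, h1, h2, hb₂, hb₄, hb₆]
      ring
    · rw [h2]; ring

lemma kumOf_x_some {e α β : F} {hb₂ hb₄ hb₆ hb₈} {x y : F} (h : W.Nonsingular x y) :
    (kumOf W e α β hb₂ hb₄ hb₆ hb₈).x (Point.some x y h) = x - e := by
  simp [Kum.x, kumOf]

end

variable {k L : Type*} [Field k] [Field L] [DecidableEq L] [Algebra k L]

/-- **Multiplicative reduction** (residue characteristic `≠ 2`, all `2`-torsion rational): if the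
difference `α` of the colliding roots is a `p`-th power up to a unit, then inertia acts trivially
on the `p`-torsion. -/
theorem smul_eq_of_mult {V : WeierstrassCurve k} {A : ValuationSubring L} (hV : IntegralAt V A)
    (e α β : k)
    (hb₂ : V.b₂ = 4 * (β - α - 3 * e))
    (hb₄ : V.b₄ = 2 * (3 * e ^ 2 - 2 * e * (β - α) - α * β))
    (hb₆ : V.b₆ = 4 * (-e ^ 3 + (β - α) * e ^ 2 + α * β * e))
    (hb₈ : V.b₈ = 4 * (β - α - 3 * e) * (-e ^ 3 + (β - α) * e ^ 2 + α * β * e)
      - (3 * e ^ 2 - 2 * e * (β - α) - α * β) ^ 2)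
    (he : A.valuation (algebraMap k L e) ≤ 1) (hα0 : α ≠ 0)
    (hα : A.valuation (algebraMap k L α) < 1) (hβ : A.valuation (algebraMap k L β) = 1)
    (h4 : A.valuation (4 : L) = 1) {p : ℕ} (hp : p.Prime) (hp2 : p ≠ 2)
    (hpA : A.valuation (p : L) = 1) (ϖ : k)
    (hαϖ : A.valuation (algebraMap k L α) = A.valuation (algebraMap k L ϖ) ^ p)
    {σ : L ≃ₐ[k] L} (hσ : σ ∈ A.inertiaSubgroupIn k) {P : (V⁄L).Point} (hP : p • P = 0) :
    σ • P = P := by
  rcases P with _ | ⟨x, y, h⟩
  · rfl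
  obtain ⟨h', hs⟩ := smul_some V σ h
  have hQ : p • (Point.some (σ x) (σ y) h' : (V⁄L).Point) = 0 := by
    rw [← hs]
    have := map_nsmul (DistribSMul.toAddMonoidHom (V⁄L).Point σ) p (Point.some x y h)
    rw [hP, _root_.map_zero] at this
    exact this.symm
  rw [hs]
  -- names in `L`
  obtain ⟨e', he'⟩ : ∃ e', e' = algebraMap k L e := ⟨_, rfl⟩
  obtain ⟨α', hα'⟩ : ∃ α', α' = algebraMap k L α := ⟨_, rfl⟩
  obtain ⟨β', hβ'⟩ : ∃ β', β' = algebraMap k L β := ⟨_, rfl⟩
  have Hb₂ : (V⁄L).b₂ = 4 * (β' - α' - 3 * e') := by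
    show (V.map (algebraMap k L)).b₂ = _
    rw [WeierstrassCurve.map_b₂, hb₂, he', hα', hβ']; simp only [map_mul, map_sub, map_add, map_neg, map_pow, map_ofNat]
  have Hb₄ : (V⁄L).b₄ = 2 * (3 * e' ^ 2 - 2 * e' * (β' - α') - α' * β') := by
    show (V.map (algebraMap k L)).b₄ = _
    rw [WeierstrassCurve.map_b₄, hb₄, he', hα', hβ']; simp only [map_mul, map_sub, map_add, map_neg, map_pow, map_ofNat]
  have Hb₆ : (V⁄L).b₆ = 4 * (-e' ^ 3 + (β' - α') * e' ^ 2 + α' * β' * e') := by
    show (V.map (algebraMap k L)).b₆ = _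
    rw [WeierstrassCurve.map_b₆, hb₆, he', hα', hβ']; simp only [map_mul, map_sub, map_add, map_neg, map_pow, map_ofNat]
  have Hb₈ : (V⁄L).b₈ = 4 * (β' - α' - 3 * e') * (-e' ^ 3 + (β' - α') * e' ^ 2 + α' * β' * e')
      - (3 * e' ^ 2 - 2 * e' * (β' - α') - α' * β') ^ 2 := by
    show (V.map (algebraMap k L)).b₈ = _
    rw [WeierstrassCurve.map_b₈, hb₈, he', hα', hβ']; simp only [map_mul, map_sub, map_add, map_neg, map_pow, map_ofNat]
  rw [← hα'] at hα hαϖ
  rw [← hβ'] at hβ
  rw [← he'] at he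
  have hα0' : α' ≠ 0 := by rw [hα']; simpa using hα0
  obtain ⟨κ, hκ⟩ : ∃ κ, κ = kumOf (V⁄L) e' α' β' Hb₂ Hb₄ Hb₆ Hb₈ := ⟨_, rfl⟩
  have κx : ∀ {x y : L} (h : (V⁄L).Nonsingular x y), κ.x (Point.some x y h) = x - e' := by
    intro x y h; rw [hκ]; exact kumOf_x_some _ h
  have κint : ∀ R : (V⁄L).Point, p • R = 0 → R ≠ 0 → A.valuation (κ.x R) ≤ 1 := by
    intro R hR hR0
    rcases R with _ | ⟨u, w, hu⟩
    · exact absurd rfl hR0
    · rw [κx]
      exact in_sub _ (x_le_one_of_nsmul hV.b₂' hV.b₄' hV.b₆' hV.b₈' hpA hR) he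
  have ix := x_le_one_of_nsmul hV.b₂' hV.b₄' hV.b₆' hV.b₈' hpA hP
  have iy := y_le_one hV.a₁' hV.a₂' hV.a₃' hV.a₄' hV.a₆' h.1 ix
  obtain ⟨ξ, hξ⟩ : ∃ ξ, ξ = x - e' := ⟨_, rfl⟩
  have iξ : A.valuation ξ ≤ 1 := by rw [hξ]; exact in_sub _ ix he
  have σe : σ e' = e' := by rw [he']; exact σ.commutes e
  have hσξ : σ ξ = σ x - e' := by rw [hξ, map_sub, σe]
  have h2 : A.valuation (2 : L) = 1 := by
    have : (4 : L) = 2 ^ 2 := by norm_num
    rw [this, map_pow] at h4
    exact (pow_left_inj₀ zero_le zero_le two_ne_zero).mp (h4.trans (one_pow 2).symm)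
  have sξ : A.valuation (σ ξ - ξ) < 1 := val_inertia_sub_lt hσ iξ
  have hPx : κ.x (Point.some x y h) = ξ := by rw [κx, hξ]
  have hQx : κ.x (Point.some (σ x) (σ y) h') = σ ξ := by rw [κx, hσξ]
  have hP0 : (Point.some x y h : (V⁄L).Point) ≠ 0 := some_ne_zero h
  have hQ0 : (Point.some (σ x) (σ y) h' : (V⁄L).Point) ≠ 0 := some_ne_zero h'
  -- the case when `P` is not in `E₀`
  have hcase : A.valuation ξ < 1 → A.valuation α' < A.valuation ξ ∧
      ∃ c : k, A.valuation ξ = A.valuation (algebraMap k L c) := by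
    intro hlt
    have hN : A.valuation (κ.N (Point.some x y h)) < A.valuation (κ.D (Point.some x y h)) := by
      have e1 : κ.N (Point.some x y h) = ξ := by rw [hκ, hξ]; simp [kumOf]
      have e2 : κ.D (Point.some x y h) = 1 := by rw [hκ]; simp [kumOf]
      rw [e1, e2, map_one]; exact hlt
    obtain ⟨m1, m2, m3, j, hj⟩ := κ.main hα0' hα hβ h4 hp hp2 hP hN
    rw [hPx] at m1 m2 m3 hj
    refine ⟨m2, ϖ ^ (2 * j), ?_⟩
    rw [hαϖ, ← pow_mul, mul_comm p, pow_mul] at hj
    rw [map_pow, map_pow]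
    exact (pow_left_inj₀ zero_le zero_le hp.ne_zero).mp hj
  -- consequence: elements with the valuation of an element of `k`
  have hmove : ∀ (c : k) (z : L), A.valuation z = A.valuation (algebraMap k L c) → z ≠ 0 →
      A.valuation (σ z - z) < A.valuation z := by
    intro c z hz hz0
    have hc0 : algebraMap k L c ≠ 0 := by
      intro h0
      rw [h0, _root_.map_zero, map_eq_zero] at hz
      exact hz0 hz
    have h1 : A.valuation (z / algebraMap k L c) = 1 := by
      rw [map_div₀, hz, div_self ((Valuation.ne_zero_iff _).mpr hc0)]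
    have h2 := val_inertia_sub_lt hσ h1.le
    have h3 : σ (z / algebraMap k L c) - z / algebraMap k L c = (σ z - z) / algebraMap k L c := by
      rw [map_div₀, σ.commutes, sub_div]
    rw [h3, map_div₀, div_lt_one₀ (zero_lt_iff.mpr ((Valuation.ne_zero_iff _).mpr hc0)), ← hz] at h2
    exact h2
  by_cases hS : (Point.some x y h : (V⁄L).Point) + Point.some (σ x) (σ y) h' = 0
  · -- `Q = -P`
    have hQP : (Point.some (σ x) (σ y) h' : (V⁄L).Point) = - Point.some x y h :=
      (neg_eq_of_add_eq_zero_right hS).symm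
    by_cases h2P : (Point.some x y h : (V⁄L).Point) + Point.some x y h = 0
    · rw [hQP]; exact neg_eq_of_add_eq_zero_right h2P
    exfalso
    rw [neg_some] at hQP
    simp only [Point.some.injEq] at hQP
    obtain ⟨η, hη⟩ : ∃ η, η = 2 * y + (V⁄L).a₁ * x + (V⁄L).a₃ := ⟨_, rfl⟩
    have ση : σ y - y = -η := by
      rw [hQP.2, negY, hη]; ring
    have sη : A.valuation η < 1 := by
      rw [← Valuation.map_neg, ← ση]; exact val_inertia_sub_lt hσ iy
    have heq := (equation_iff ..).mp h.1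
    have hη2 : η ^ 2 = 4 * ξ * (ξ - α') * (ξ + β') := by
      have e1 : η ^ 2 = 4 * x ^ 3 + (V⁄L).b₂ * x ^ 2 + 2 * (V⁄L).b₄ * x + (V⁄L).b₆ := by
        rw [hη]; simp only [WeierstrassCurve.b₂, WeierstrassCurve.b₄, WeierstrassCurve.b₆]
        linear_combination 4 * heq
      rw [e1, Hb₂, Hb₄, Hb₆, hξ]; ring
    obtain ⟨d1, d2⟩ := κ.x_dup hP0 h2P
    rw [hPx] at d1 d2
    rw [← hη2] at d1 d2
    have i2 := κint _ (by rw [nsmul_add, hP, add_zero]) h2P
    rcases eq_or_lt_of_le iξ with h1 | h1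
    · have h5 : A.valuation (ξ ^ 2 + α' * β') = 1 := by
        rw [Valuation.map_add_eq_of_lt_left, map_pow, h1, one_pow]
        rw [map_mul, map_pow, h1, hβ, mul_one, one_pow]
        exact hα
      have h6 := congrArg A.valuation d1
      rw [map_pow A.valuation (ξ ^ 2 + α' * β'), h5, one_pow] at h6
      exact absurd h6 (sm_mul _ i2 (sm_pow _ sη two_ne_zero)).ne
    · obtain ⟨h3, c, hc⟩ := hcase h1
      have hξ0 : ξ ≠ 0 := by
        rw [← Valuation.ne_zero_iff A.valuation]
        exact zero_lt_iff.mp (lt_of_le_of_lt zero_le h3)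
      have h7 : A.valuation (ξ - α') = A.valuation ξ := Valuation.map_sub_eq_of_lt_left _ h3
      have h8 : A.valuation (ξ + β') = 1 := by
        rw [Valuation.map_add_eq_of_lt_right _ (by rw [hβ]; exact h1), hβ]
      have h9 : A.valuation η = A.valuation ξ := by
        have := congrArg A.valuation hη2
        rw [map_pow, map_mul, map_mul, map_mul, h4, h7, h8, one_mul, mul_one, ← pow_two] at this
        exact (pow_left_inj₀ zero_le zero_le two_ne_zero).mp this
      have hη0 : η ≠ 0 := by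
        intro h0; rw [h0] at d2; exact d2 (by ring)
      have h10 := hmove c η (h9.trans hc) hη0
      have h11 : σ η - η = -(2 * η) := by
        have e2 : σ y = y - η := by linear_combination ση
        have e3 : σ x = x := hQP.1
        have e4 : σ ((V⁄L).a₁) = (V⁄L).a₁ := σ.commutes V.a₁
        have e5 : σ ((V⁄L).a₃) = (V⁄L).a₃ := σ.commutes V.a₃
        have e6 : σ η = 2 * (y - η) + (V⁄L).a₁ * x + (V⁄L).a₃ := by
          conv_lhs => rw [hη]
          rw [map_add, map_add, map_mul, map_mul, e2, e3, e4, e5, map_ofNat]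
        rw [e6]
        linear_combination -hη
      rw [h11, Valuation.map_neg, map_mul, h2, one_mul] at h10
      exact lt_irrefl _ h10
  · by_cases hD : (Point.some x y h : (V⁄L).Point) - Point.some (σ x) (σ y) h' = 0
    · exact (sub_eq_zero.mp hD).symm
    · exfalso
      obtain ⟨-, r0, r1⟩ := κ.x_rel hP0 hQ0 hS hD
      have iS := κint _ (by rw [nsmul_add, hP, hQ, add_zero]) hS
      have iD := κint _ (by rw [nsmul_sub, hP, hQ, sub_zero]) hD
      rw [hPx, hQx] at r0 r1
      obtain ⟨u, hu⟩ : ∃ u, u = κ.x (Point.some x y h + Point.some (σ x) (σ y) h') := ⟨_, rfl⟩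
      obtain ⟨w, hw⟩ : ∃ w, w = κ.x (Point.some x y h - Point.some (σ x) (σ y) h') := ⟨_, rfl⟩
      rw [← hu, ← hw] at r0 r1
      rw [← hu] at iS
      rw [← hw] at iD
      have k0 : A.valuation (ξ * σ ξ + α' * β') ^ 2 ≤ A.valuation (ξ - σ ξ) ^ 2 := by
        rw [← map_pow, ← map_pow, ← r0, map_mul]
        exact mul_le_of_le_one_left' (in_mul _ iS iD)
      have k1 : A.valuation (2 * (ξ + σ ξ) * (ξ * σ ξ - α' * β') + 4 * (β' - α') * (ξ * σ ξ)) ≤
          A.valuation (ξ - σ ξ) ^ 2 := by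
        rw [← r1, map_mul, map_pow]
        exact mul_le_of_le_one_left' (in_add _ iS iD)
      have sξ' : A.valuation (ξ - σ ξ) < 1 := by rw [Valuation.map_sub_swap]; exact sξ
      rcases eq_or_lt_of_le iξ with h1 | h1
      · have h3 : A.valuation (σ ξ) = 1 := by
          have : σ ξ = ξ + (σ ξ - ξ) := by ring
          rw [this, Valuation.map_add_eq_of_lt_left _ (by rw [h1]; exact sξ), h1]
        have h5 : A.valuation (ξ * σ ξ + α' * β') = 1 := by
          rw [Valuation.map_add_eq_of_lt_left, map_mul, h1, h3, one_mul]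
          rw [map_mul, map_mul, h1, h3, hβ, mul_one, one_mul]
          exact hα
        rw [h5, one_pow] at k0
        exact absurd k0 (not_le.mpr (pow_lt_one' sξ' two_ne_zero))
      · obtain ⟨h3, c, hc⟩ := hcase h1
        have hξ0 : ξ ≠ 0 := by
          rw [← Valuation.ne_zero_iff A.valuation]
          exact zero_lt_iff.mp (lt_of_le_of_lt zero_le h3)
        have h5 := hmove c ξ hc hξ0
        have h6 : A.valuation (σ ξ) = A.valuation ξ := by
          have : σ ξ = ξ + (σ ξ - ξ) := by ring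
          rw [this, Valuation.map_add_eq_of_lt_left _ h5]
        have vξ0 : 0 < A.valuation ξ := zero_lt_iff.mpr ((Valuation.ne_zero_iff _).mpr hξ0)
        have h7 : A.valuation (β' - α') = 1 := by
          rw [Valuation.map_sub_eq_of_lt_left _ (by rw [hβ]; exact hα), hβ]
        have h8 : A.valuation (4 * (β' - α') * (ξ * σ ξ)) = A.valuation ξ ^ 2 := by
          rw [map_mul, map_mul, map_mul, h4, h7, h6, one_mul, one_mul, pow_two]
        have h9 : A.valuation (ξ * σ ξ - α' * β') < A.valuation ξ := by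
          refine (Valuation.map_sub _ _ _).trans_lt (max_lt ?_ ?_)
          · rw [map_mul, h6]
            calc A.valuation ξ * A.valuation ξ < 1 * A.valuation ξ :=
                  mul_lt_mul_of_pos_right h1 vξ0
              _ = _ := one_mul _
          · rw [map_mul, hβ, mul_one]; exact h3
        have h10 : A.valuation (2 * (ξ + σ ξ) * (ξ * σ ξ - α' * β')) < A.valuation ξ ^ 2 := by
          have h11 : A.valuation (2 * (ξ + σ ξ)) ≤ A.valuation ξ := by
            rw [map_mul, h2, one_mul]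
            exact (Valuation.map_add _ _ _).trans (max_le le_rfl h6.le)
          rw [map_mul, pow_two]
          calc _ ≤ A.valuation ξ * A.valuation (ξ * σ ξ - α' * β') := mul_le_mul' h11 le_rfl
            _ < A.valuation ξ * A.valuation ξ := mul_lt_mul_of_pos_left h9 vξ0
        rw [Valuation.map_add_eq_of_lt_right _ (by rw [h8]; exact h10), h8,
          Valuation.map_sub_swap] at k1
        exact absurd k1 (not_le.mpr (pow_lt_pow_left₀ h5 zero_le two_ne_zero))

end Fermat.Agent.H72
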