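import Fermat.Agent.H72Red

/-!
# Abstract Kummer structure at a node (arbitrary residue characteristic)

`Nod G K β γ δ` : an abelian group `G` with homogeneous `x`-coordinates `(N P : D P)`, where the
curve has `b₂ = β`, `b₄ = 0`, `b₆ = γ`, `b₈ = δ`.
-/

set_option autoImplicit false

namespace Fermat.Agent.H72

/-- Abstract Kummer structure. -/
structure Nod (G K : Type*) [AddCommGroup G] [Field K] (β γ δ : K) where
  N : G → K
  D : G → K
  D_eq_zero : ∀ P, D P = 0 ↔ P = 0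
  N_zero : N 0 ≠ 0
  N_neg : ∀ P, N (-P) = N P
  D_neg : ∀ P, D (-P) = D P
  rel : ∀ P Q, ∃ c : K, c ≠ 0 ∧
    c * (N (P + Q) * N (P - Q)) = (N P * N Q) ^ 2
      - γ * (N P * D Q + D P * N Q) * (D P * D Q) - δ * (D P * D Q) ^ 2 ∧
    c * (N (P + Q) * D (P - Q) + D (P + Q) * N (P - Q)) =
      2 * (N P * D Q + D P * N Q) * (N P * N Q) + β * (N P * N Q) * (D P * D Q)
        + γ * (D P * D Q) ^ 2 ∧
    c * (D (P + Q) * D (P - Q)) = (N P * D Q - D P * N Q) ^ 2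

section newton

variable {K : Type*} [Field K] {Γ₀ : Type*} [LinearOrderedCommGroupWithZero Γ₀]
  (v : Valuation K Γ₀)

/-- Newton polygon lemma, broken case. -/
lemma newton_lt {n₁ d₁ n₂ d₂ c : K}
    (h : v (c * (n₁ * n₂)) * v (c * (d₁ * d₂)) < v (c * (n₁ * d₂ + d₁ * n₂)) ^ 2) :
    (v n₁ * v (c * (d₁ * d₂)) = v d₁ * v (c * (n₁ * d₂ + d₁ * n₂)) ∧
      v n₂ * v (c * (n₁ * d₂ + d₁ * n₂)) = v d₂ * v (c * (n₁ * n₂))) ∨
    (v n₂ * v (c * (d₁ * d₂)) = v d₂ * v (c * (n₁ * d₂ + d₁ * n₂)) ∧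
      v n₁ * v (c * (n₁ * d₂ + d₁ * n₂)) = v d₁ * v (c * (n₁ * n₂))) := by
  rcases lt_trichotomy (v (n₁ * d₂)) (v (d₁ * n₂)) with h1 | h1 | h1
  · right
    have h2 : v (n₁ * d₂ + d₁ * n₂) = v (d₁ * n₂) := Valuation.map_add_eq_of_lt_right v h1
    simp only [map_mul v c, h2]
    simp only [map_mul]
    constructor
    · simp only [mul_comm, mul_left_comm]
    · simp only [mul_comm, mul_left_comm]
  · exfalso
    have h2 : v (n₁ * d₂ + d₁ * n₂) ≤ v (d₁ * n₂) := (v.map_add _ _).trans (max_le h1.le le_rfl)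
    refine absurd h (not_lt.mpr ?_)
    have h3 : v (c * (n₁ * d₂ + d₁ * n₂)) ≤ v (c * (d₁ * n₂)) := by
      rw [map_mul v c, map_mul v c]; exact mul_le_mul' le_rfl h2
    calc v (c * (n₁ * d₂ + d₁ * n₂)) ^ 2 ≤ v (c * (d₁ * n₂)) ^ 2 :=
          pow_le_pow_left' h3 2
      _ = v (c * (n₁ * n₂)) * v (c * (d₁ * d₂)) := by
          rw [pow_two]
          nth_rewrite 1 [map_mul v c]
          rw [← h1]
          simp only [map_mul, mul_comm, mul_left_comm]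
  · left
    have h2 : v (n₁ * d₂ + d₁ * n₂) = v (n₁ * d₂) := Valuation.map_add_eq_of_lt_left v h1
    simp only [map_mul v c, h2]
    simp only [map_mul]
    constructor
    · simp only [mul_comm, mul_left_comm]
    · simp only [mul_comm, mul_left_comm]

/-- Newton polygon lemma, straight case. -/
lemma newton_le {n₁ d₁ n₂ d₂ c : K}
    (h : v (c * (n₁ * d₂ + d₁ * n₂)) ^ 2 ≤ v (c * (n₁ * n₂)) * v (c * (d₁ * d₂))) :
    v n₁ ^ 2 * v (c * (d₁ * d₂)) = v d₁ ^ 2 * v (c * (n₁ * n₂)) ∧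
    v n₂ ^ 2 * v (c * (d₁ * d₂)) = v d₂ ^ 2 * v (c * (n₁ * n₂)) := by
  by_cases hc : c = 0
  · simp [hc]
  have vc : v c ≠ 0 := (Valuation.ne_zero_iff v).mpr hc
  have h1 : v (n₁ * d₂) = v (d₁ * n₂) := by
    have key : v (n₁ * d₂ + d₁ * n₂) ^ 2 ≤ v (n₁ * d₂) * v (d₁ * n₂) := by
      have e1 : v (c * (n₁ * d₂ + d₁ * n₂)) ^ 2 = v c ^ 2 * v (n₁ * d₂ + d₁ * n₂) ^ 2 := by
        rw [map_mul, mul_pow]
      have e2 : v (c * (n₁ * n₂)) * v (c * (d₁ * d₂)) = v c ^ 2 * (v (n₁ * d₂) * v (d₁ * n₂)) := by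
        simp only [map_mul, pow_two, mul_comm, mul_left_comm]
      rw [e1, e2] at h
      exact le_of_mul_le_mul_left h (zero_lt_iff.mpr (pow_ne_zero 2 vc))
    rcases lt_trichotomy (v (n₁ * d₂)) (v (d₁ * n₂)) with h2 | h2 | h2
    · exfalso
      rw [Valuation.map_add_eq_of_lt_right v h2, pow_two] at key
      have h3 : 0 < v (d₁ * n₂) := lt_of_le_of_lt zero_le h2
      exact absurd (le_of_mul_le_mul_right key h3) (not_le.mpr h2)
    · exact h2
    · exfalso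
      rw [Valuation.map_add_eq_of_lt_left v h2, pow_two] at key
      have h3 : 0 < v (n₁ * d₂) := lt_of_le_of_lt zero_le h2
      exact absurd (le_of_mul_le_mul_left key h3) (not_le.mpr h2)
  rw [map_mul, map_mul] at h1
  constructor
  · calc v n₁ ^ 2 * v (c * (d₁ * d₂)) = v n₁ * v d₁ * v c * (v n₁ * v d₂) := by
          simp only [map_mul, pow_two, mul_comm, mul_left_comm]
      _ = v n₁ * v d₁ * v c * (v d₁ * v n₂) := by rw [h1]
      _ = _ := by simp only [map_mul, pow_two, mul_comm, mul_left_comm]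
  · calc v n₂ ^ 2 * v (c * (d₁ * d₂)) = v n₂ * v d₂ * v c * (v d₁ * v n₂) := by
          simp only [map_mul, pow_two, mul_comm, mul_left_comm]
      _ = v n₂ * v d₂ * v c * (v n₁ * v d₂) := by rw [h1]
      _ = _ := by simp only [map_mul, pow_two, mul_comm, mul_left_comm]

end newton

/-- Hypotheses on the valuation at a node. -/
structure NodVal {K Γ₀ : Type*} [Field K] [LinearOrderedCommGroupWithZero Γ₀]
    (v : Valuation K Γ₀) (β γ δ : K) (s : Γ₀) : Prop where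
  hβ : v β = 1
  hγ : v γ ≤ s ^ 2
  hδ : v δ = s ^ 2
  hs0 : s ≠ 0
  hs1 : s < 1

namespace Nod

variable {G K : Type*} [AddCommGroup G] [Field K] {β γ δ : K} (κ : Nod G K β γ δ)
  {Γ₀ : Type*} [LinearOrderedCommGroupWithZero Γ₀] {v : Valuation K Γ₀} {s : Γ₀}

@[simp] lemma D_zero : κ.D 0 = 0 := (κ.D_eq_zero 0).mpr rfl

lemma D_ne {P : G} (hP : P ≠ 0) : κ.D P ≠ 0 := fun h => hP ((κ.D_eq_zero P).mp h)

lemma not_both (P : G) (h1 : κ.N P = 0) (h2 : κ.D P = 0) : False := by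
  rw [κ.D_eq_zero] at h2
  rw [h2] at h1
  exact κ.N_zero h1

open Classical in
/-- The clamped valuation of the `x`-coordinate: `1` on `E₀`, otherwise `max (v x) s`. -/
noncomputable def H (v : Valuation K Γ₀) (s : Γ₀) (P : G) : Γ₀ :=
  if v (κ.D P) ≤ v (κ.N P) then 1 else max (v (κ.N P) / v (κ.D P)) s

lemma H_eq_one {P : G} (h : v (κ.D P) ≤ v (κ.N P)) : κ.H v s P = 1 := by
  rw [H, if_pos h]

lemma vD_pos {P : G} {a : Γ₀} (h : v (κ.N P) ≤ a * v (κ.D P)) : 0 < v (κ.D P) := by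
  rw [zero_lt_iff, Valuation.ne_zero_iff]
  intro h0
  rw [h0, map_zero, mul_zero, le_zero_iff, Valuation.zero_iff] at h
  exact κ.not_both P h h0

lemma H_eq_of {P : G} {a : Γ₀} (h : v (κ.N P) = a * v (κ.D P)) (ha : a < 1) (hs : s ≤ a) :
    κ.H v s P = a := by
  have hD := κ.vD_pos h.le
  rw [H, if_neg, h, mul_div_cancel_right₀ _ hD.ne', max_eq_left hs]
  rw [h, not_le]
  calc a * v (κ.D P) < 1 * v (κ.D P) := mul_lt_mul_of_pos_right ha hD
    _ = _ := one_mul _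

lemma H_eq_s {P : G} (h : v (κ.N P) ≤ s * v (κ.D P)) (hs : s < 1) :
    κ.H v s P = s := by
  have hD := κ.vD_pos h
  rw [H, if_neg, max_eq_right]
  · exact (div_le_iff₀ hD).mpr h
  · rw [not_le]
    calc _ ≤ s * v (κ.D P) := h
      _ < 1 * v (κ.D P) := mul_lt_mul_of_pos_right hs hD
      _ = _ := one_mul _

/-- trichotomy for points. -/
lemma H_cases (hs : s < 1) (P : G) :
    (v (κ.D P) ≤ v (κ.N P) ∧ κ.H v s P = 1) ∨
    (0 < v (κ.D P) ∧ v (κ.N P) = κ.H v s P * v (κ.D P) ∧ s < κ.H v s P ∧ κ.H v s P < 1) ∨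
    (0 < v (κ.D P) ∧ v (κ.N P) ≤ s * v (κ.D P) ∧ κ.H v s P = s) := by
  by_cases h : v (κ.D P) ≤ v (κ.N P)
  · left; exact ⟨h, κ.H_eq_one h⟩
  · right
    push Not at h
    have hD : 0 < v (κ.D P) := lt_of_le_of_lt zero_le h
    by_cases h1 : v (κ.N P) ≤ s * v (κ.D P)
    · right; exact ⟨hD, h1, κ.H_eq_s h1 hs⟩
    · left
      push Not at h1
      have e : v (κ.N P) = (v (κ.N P) / v (κ.D P)) * v (κ.D P) := by
        rw [div_mul_cancel₀ _ hD.ne']
      have h2 : v (κ.N P) / v (κ.D P) < 1 := (div_lt_one₀ hD).mpr h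
      have h3 : s < v (κ.N P) / v (κ.D P) := (lt_div_iff₀ hD).mpr h1
      have := κ.H_eq_of e h2 h3.le
      rw [this]
      exact ⟨hD, e, h3, h2⟩

lemma H_le_one (hs : s < 1) (P : G) : κ.H v s P ≤ 1 := by
  rcases κ.H_cases (v := v) hs P with ⟨-, h⟩ | ⟨-, -, -, h⟩ | ⟨-, -, h⟩
  · rw [h]
  · exact h.le
  · rw [h]; exact hs.le

lemma s_le_H (hs : s < 1) (P : G) : s ≤ κ.H v s P := by
  rcases κ.H_cases (v := v) hs P with ⟨-, h⟩ | ⟨-, -, h, -⟩ | ⟨-, -, h⟩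
  · rw [h]; exact hs.le
  · exact h.le
  · rw [h]

lemma e0_iff (hs : s < 1) (P : G) : v (κ.D P) ≤ v (κ.N P) ↔ κ.H v s P = 1 := by
  refine ⟨κ.H_eq_one, fun h => ?_⟩
  rcases κ.H_cases (v := v) hs P with ⟨h1, -⟩ | ⟨-, -, -, h1⟩ | ⟨-, -, h1⟩
  · exact h1
  · exact absurd h h1.ne
  · rw [h1] at h; exact absurd h hs.ne

/-- the reflection `x ↦ max x (s²/x)` -/
noncomputable def T (s x : Γ₀) : Γ₀ := if s ≤ x then x else s ^ 2 / x

lemma T_of_le {s x : Γ₀} (h : s ≤ x) : T s x = x := if_pos h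

lemma T_of_lt {s x : Γ₀} (h : x < s) : T s x = s ^ 2 / x := if_neg (not_le.mpr h)

lemma T_s (s : Γ₀) : T s s = s := T_of_le le_rfl

lemma T_mul_s {s a : Γ₀} (hs0 : s ≠ 0) (ha : a ≤ 1) (ha0 : a ≠ 0) : T s (s * a) = s / a := by
  rcases eq_or_lt_of_le ha with rfl | ha
  · rw [mul_one, T_s, div_one]
  · rw [T_of_lt, pow_two, mul_div_mul_left _ _ hs0]
    calc s * a < s * 1 := mul_lt_mul_of_pos_left ha (zero_lt_iff.mpr hs0)
      _ = s := mul_one s

/-- both points in `E₀`. -/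
lemma case_ee (h : NodVal v β γ δ s) {P Q : G} (hP : v (κ.D P) ≤ v (κ.N P))
    (hQ : v (κ.D Q) ≤ v (κ.N Q)) :
    v (κ.D (P + Q)) ≤ v (κ.N (P + Q)) ∧ v (κ.D (P - Q)) ≤ v (κ.N (P - Q)) := by
  have nP : κ.N P ≠ 0 := by
    intro h0; rw [h0, map_zero, le_zero_iff, Valuation.zero_iff] at hP; exact κ.not_both P h0 hP
  have nQ : κ.N Q ≠ 0 := by
    intro h0; rw [h0, map_zero, le_zero_iff, Valuation.zero_iff] at hQ; exact κ.not_both Q h0 hQ
  obtain ⟨c, hc, h0, h1, h2⟩ := κ.rel P Q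
  obtain ⟨w₁, hw₁⟩ : ∃ w, w = κ.D P / κ.N P := ⟨_, rfl⟩
  obtain ⟨w₂, hw₂⟩ : ∃ w, w = κ.D Q / κ.N Q := ⟨_, rfl⟩
  have e1 : κ.D P = w₁ * κ.N P := by rw [hw₁, div_mul_cancel₀ _ nP]
  have e2 : κ.D Q = w₂ * κ.N Q := by rw [hw₂, div_mul_cancel₀ _ nQ]
  have i1 : v w₁ ≤ 1 := by
    rw [hw₁, map_div₀]
    exact (div_le_one₀ (zero_lt_iff.mpr ((Valuation.ne_zero_iff v).mpr nP))).mpr hP
  have i2 : v w₂ ≤ 1 := by
    rw [hw₂, map_div₀]
    exact (div_le_one₀ (zero_lt_iff.mpr ((Valuation.ne_zero_iff v).mpr nQ))).mpr hQ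
  rw [e1, e2] at h0 h1 h2
  obtain ⟨c', hc'⟩ : ∃ c', c' = c / (κ.N P * κ.N Q) ^ 2 := ⟨_, rfl⟩
  have nPQ : (κ.N P * κ.N Q) ^ 2 ≠ 0 := pow_ne_zero 2 (mul_ne_zero nP nQ)
  have f0 : c' * (κ.N (P + Q) * κ.N (P - Q)) = 1 - (γ * (w₂ + w₁) * (w₁ * w₂) + δ * (w₁ * w₂) ^ 2) := by
    rw [hc', div_mul_eq_mul_div, div_eq_iff nPQ, h0]; ring
  have f1 : c' * (κ.N (P + Q) * κ.D (P - Q) + κ.D (P + Q) * κ.N (P - Q)) =
      2 * (w₂ + w₁) + β * (w₁ * w₂) + γ * (w₁ * w₂) ^ 2 := by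
    rw [hc', div_mul_eq_mul_div, div_eq_iff nPQ, h1]; ring
  have f2 : c' * (κ.D (P + Q) * κ.D (P - Q)) = (w₂ - w₁) ^ 2 := by
    rw [hc', div_mul_eq_mul_div, div_eq_iff nPQ, h2]; ring
  have sγ : v γ < 1 := h.hγ.trans_lt (pow_lt_one' h.hs1 two_ne_zero)
  have sδ : v δ < 1 := h.hδ.le.trans_lt (pow_lt_one' h.hs1 two_ne_zero)
  have v0 : v (c' * (κ.N (P + Q) * κ.N (P - Q))) = 1 := by
    rw [f0, Valuation.map_sub_eq_of_lt_left v, map_one]
    rw [map_one]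
    exact sm_add v (sm_mul' v (sm_mul' v sγ (in_add v i2 i1)) (in_mul v i1 i2))
      (sm_mul' v sδ (in_pow v (in_mul v i1 i2) 2))
  have v1 : v (c' * (κ.N (P + Q) * κ.D (P - Q) + κ.D (P + Q) * κ.N (P - Q))) ≤ 1 := by
    rw [f1]
    exact in_add v (in_add v (in_mul v (in_ofNat v 2) (in_add v i2 i1))
      (in_mul v h.hβ.le (in_mul v i1 i2))) (in_mul v sγ.le (in_pow v (in_mul v i1 i2) 2))
  have v2 : v (c' * (κ.D (P + Q) * κ.D (P - Q))) ≤ 1 := by
    rw [f2]; exact in_pow v (in_sub v i2 i1) 2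
  rcases lt_or_ge (v (c' * (κ.N (P + Q) * κ.N (P - Q))) * v (c' * (κ.D (P + Q) * κ.D (P - Q))))
      (v (c' * (κ.N (P + Q) * κ.D (P - Q) + κ.D (P + Q) * κ.N (P - Q))) ^ 2) with hlt | hge
  · have key : ∀ {n₁ d₁ n₂ d₂ A B : Γ₀}, n₁ * B = d₁ * A → n₂ * A = d₂ * 1 → B < A ^ 2 → A ≤ 1 →
        d₁ ≤ n₁ ∧ d₂ ≤ n₂ := by
      intro n₁ d₁ n₂ d₂ A B k1 k2 k3 k4
      have hA : 0 < A := by
        rw [zero_lt_iff]; rintro rfl
        rw [zero_pow two_ne_zero] at k3; exact not_lt_zero k3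
      constructor
      · have hBA : B ≤ A := k3.le.trans (by rw [pow_two]; exact mul_le_of_le_one_left' k4)
        refine le_of_mul_le_mul_right ?_ hA
        rw [← k1]; exact mul_le_mul' le_rfl hBA
      · rw [mul_one] at k2; rw [← k2]; exact mul_le_of_le_one_right' k4
    have := newton_lt v hlt
    rw [v0, one_mul] at hlt
    rcases this with ⟨k1, k2⟩ | ⟨k1, k2⟩
    · rw [v0] at k2
      exact key k1 k2 hlt v1
    · rw [v0] at k2
      exact (key k1 k2 hlt v1).symm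
  · obtain ⟨k1, k2⟩ := newton_le v hge
    rw [v0, mul_one] at k1 k2
    have key : ∀ {n d B : Γ₀}, n ^ 2 * B = d ^ 2 → B ≤ 1 → d ≤ n := by
      intro n d B k3 k4
      refine (pow_le_pow_iff_left₀ zero_le zero_le two_ne_zero).mp ?_
      rw [← k3]; exact mul_le_of_le_one_right' k4
    exact ⟨key k1 v2, key k2 v2⟩

/-- `Q ∈ E₀`, `P ∉ E₀`. -/
lemma case_ae (h : NodVal v β γ δ s) {P Q : G} (hP : v (κ.N P) < v (κ.D P))
    (hQ : v (κ.D Q) ≤ v (κ.N Q)) :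
    κ.H v s (P + Q) = κ.H v s P ∧ κ.H v s (P - Q) = κ.H v s P := by
  have nQ : κ.N Q ≠ 0 := by
    intro h0; rw [h0, map_zero, le_zero_iff, Valuation.zero_iff] at hQ; exact κ.not_both Q h0 hQ
  have dP : κ.D P ≠ 0 := by
    rw [← Valuation.ne_zero_iff v]; exact (lt_of_le_of_lt zero_le hP).ne'
  obtain ⟨c, hc, h0, h1, h2⟩ := κ.rel P Q
  obtain ⟨x, hx⟩ : ∃ x, x = κ.N P / κ.D P := ⟨_, rfl⟩
  obtain ⟨w, hw⟩ : ∃ w, w = κ.D Q / κ.N Q := ⟨_, rfl⟩
  have e1 : κ.N P = x * κ.D P := by rw [hx, div_mul_cancel₀ _ dP]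
  have e2 : κ.D Q = w * κ.N Q := by rw [hw, div_mul_cancel₀ _ nQ]
  have i1 : v x < 1 := by
    rw [hx, map_div₀]
    exact (div_lt_one₀ (lt_of_le_of_lt zero_le hP)).mpr hP
  have i2 : v w ≤ 1 := by
    rw [hw, map_div₀]
    exact (div_le_one₀ (zero_lt_iff.mpr ((Valuation.ne_zero_iff v).mpr nQ))).mpr hQ
  rw [e1, e2] at h0 h1 h2
  obtain ⟨c', hc'⟩ : ∃ c', c' = c / (κ.D P * κ.N Q) ^ 2 := ⟨_, rfl⟩
  have nPQ : (κ.D P * κ.N Q) ^ 2 ≠ 0 := pow_ne_zero 2 (mul_ne_zero dP nQ)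
  have f0 : c' * (κ.N (P + Q) * κ.N (P - Q)) = x ^ 2 - (γ * ((x * w + 1) * w) + δ * w ^ 2) := by
    rw [hc', div_mul_eq_mul_div, div_eq_iff nPQ, h0]; ring
  have f1 : c' * (κ.N (P + Q) * κ.D (P - Q) + κ.D (P + Q) * κ.N (P - Q)) =
      (2 * (x * w + 1) + β * w) * x + γ * w ^ 2 := by
    rw [hc', div_mul_eq_mul_div, div_eq_iff nPQ, h1]; ring
  have f2 : c' * (κ.D (P + Q) * κ.D (P - Q)) = (x * w - 1) ^ 2 := by
    rw [hc', div_mul_eq_mul_div, div_eq_iff nPQ, h2]; ring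
  have v2 : v (c' * (κ.D (P + Q) * κ.D (P - Q))) = 1 := by
    rw [f2, map_pow, Valuation.map_sub_eq_of_lt_right v, map_one, one_pow]
    rw [map_one]; exact sm_mul' v i1 i2
  have hs2 : s ^ 2 < s := by
    rw [pow_two]
    calc s * s < 1 * s := mul_lt_mul_of_pos_right h.hs1 (zero_lt_iff.mpr h.hs0)
      _ = s := one_mul s
  have hu : v (γ * ((x * w + 1) * w) + δ * w ^ 2) ≤ s ^ 2 := by
    refine (v.map_add _ _).trans (max_le ?_ ?_)
    · rw [map_mul]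
      exact (mul_le_of_le_one_right' (in_mul v (in_add v (in_mul v i1.le i2) (by rw [map_one])) i2)).trans h.hγ
    · rw [map_mul, h.hδ]
      exact mul_le_of_le_one_right' (in_pow v i2 2)
  have hw2 : v (γ * w ^ 2) ≤ s ^ 2 := by
    rw [map_mul]; exact (mul_le_of_le_one_right' (in_pow v i2 2)).trans h.hγ
  have hlin : v ((2 * (x * w + 1) + β * w) * x) ≤ v x := by
    rw [map_mul]
    exact mul_le_of_le_one_left' (in_add v (in_mul v (in_ofNat v 2)
      (in_add v (in_mul v i1.le i2) (by rw [map_one]))) (in_mul v h.hβ.le i2))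
  rcases κ.H_cases (v := v) h.hs1 P with ⟨k, -⟩ | ⟨k1, k2, k3, k4⟩ | ⟨k1, k2, k3⟩
  · exact absurd hP (not_lt.mpr k)
  · -- mid
    have hxH : v x = κ.H v s P := by
      rw [hx, map_div₀, k2, mul_div_cancel_right₀ _ k1.ne']
    rw [← hxH] at k3 k4 ⊢
    have hlt2 : s ^ 2 < v x ^ 2 := pow_lt_pow_left₀ k3 zero_le two_ne_zero
    have v0 : v (c' * (κ.N (P + Q) * κ.N (P - Q))) = v x ^ 2 := by
      rw [f0, Valuation.map_sub_eq_of_lt_left v, map_pow]
      rw [map_pow]; exact hu.trans_lt hlt2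
    have v1 : v (c' * (κ.N (P + Q) * κ.D (P - Q) + κ.D (P + Q) * κ.N (P - Q))) ≤ v x := by
      rw [f1]
      exact (v.map_add _ _).trans (max_le hlin (hw2.trans (hs2.le.trans k3.le)))
    have hge : v (c' * (κ.N (P + Q) * κ.D (P - Q) + κ.D (P + Q) * κ.N (P - Q))) ^ 2 ≤
        v (c' * (κ.N (P + Q) * κ.N (P - Q))) * v (c' * (κ.D (P + Q) * κ.D (P - Q))) := by
      rw [v0, v2, mul_one]; exact pow_le_pow_left' v1 2
    obtain ⟨m1, m2⟩ := newton_le v hge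
    rw [v0, v2, mul_one, ← mul_pow] at m1 m2
    have m1' := (pow_left_inj₀ zero_le zero_le two_ne_zero).mp m1
    have m2' := (pow_left_inj₀ zero_le zero_le two_ne_zero).mp m2
    rw [mul_comm] at m1' m2'
    exact ⟨κ.H_eq_of m1' k4 k3.le, κ.H_eq_of m2' k4 k3.le⟩
  · -- low
    have hxs : v x ≤ s := by
      rw [hx, map_div₀]; exact (div_le_iff₀ k1).mpr k2
    rw [k3]
    have v0 : v (c' * (κ.N (P + Q) * κ.N (P - Q))) ≤ s ^ 2 := by
      rw [f0]
      refine (v.map_sub _ _).trans (max_le ?_ hu)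
      rw [map_pow]; exact pow_le_pow_left' hxs 2
    have v1 : v (c' * (κ.N (P + Q) * κ.D (P - Q) + κ.D (P + Q) * κ.N (P - Q))) ≤ s := by
      rw [f1]
      exact (v.map_add _ _).trans (max_le (hlin.trans hxs) (hw2.trans hs2.le))
    rcases lt_or_ge (v (c' * (κ.N (P + Q) * κ.N (P - Q))) * v (c' * (κ.D (P + Q) * κ.D (P - Q))))
      (v (c' * (κ.N (P + Q) * κ.D (P - Q) + κ.D (P + Q) * κ.N (P - Q))) ^ 2) with hlt | hge
    · have key : ∀ {n₁ d₁ n₂ d₂ A C : Γ₀}, n₁ * 1 = d₁ * A → n₂ * A = d₂ * C → C < A ^ 2 → A ≤ s →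
          n₁ ≤ s * d₁ ∧ n₂ ≤ s * d₂ := by
        intro n₁ d₁ n₂ d₂ A C l1 l2 l3 l4
        have hA : 0 < A := by
          rw [zero_lt_iff]; rintro rfl
          rw [zero_pow two_ne_zero] at l3; exact not_lt_zero l3
        constructor
        · rw [mul_one] at l1; rw [l1, mul_comm]; exact mul_le_mul' l4 le_rfl
        · refine le_of_mul_le_mul_right ?_ hA
          rw [l2, mul_comm s d₂, mul_assoc]
          refine mul_le_mul' le_rfl (l3.le.trans ?_)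
          rw [pow_two]; exact mul_le_mul' l4 le_rfl
      have hN := newton_lt v hlt
      rw [v2, mul_one] at hlt
      rcases hN with ⟨l1, l2⟩ | ⟨l1, l2⟩
      · rw [v2] at l1
        obtain ⟨r1, r2⟩ := key l1 l2 hlt v1
        exact ⟨κ.H_eq_s r1 h.hs1, κ.H_eq_s r2 h.hs1⟩
      · rw [v2] at l1
        obtain ⟨r1, r2⟩ := key l1 l2 hlt v1
        exact ⟨κ.H_eq_s r2 h.hs1, κ.H_eq_s r1 h.hs1⟩
    · obtain ⟨m1, m2⟩ := newton_le v hge
      rw [v2, mul_one] at m1 m2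
      have key : ∀ {n d C : Γ₀}, n ^ 2 = d ^ 2 * C → C ≤ s ^ 2 → n ≤ s * d := by
        intro n d C l1 l2
        refine (pow_le_pow_iff_left₀ zero_le zero_le two_ne_zero).mp ?_
        rw [l1, mul_pow, mul_comm]; exact mul_le_mul' l2 le_rfl
      exact ⟨κ.H_eq_s (key m1 v0) h.hs1, κ.H_eq_s (key m2 v0) h.hs1⟩

/-- both points outside `E₀`. -/
lemma case_aa (h : NodVal v β γ δ s) {P Q : G} (hP : v (κ.N P) < v (κ.D P))
    (hQ : v (κ.N Q) < v (κ.D Q)) (hPQ : κ.H v s P ≤ κ.H v s Q) :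
    (κ.H v s (P + Q) = κ.H v s P / κ.H v s Q ∧
      κ.H v s (P - Q) = T s (κ.H v s P * κ.H v s Q)) ∨
    (κ.H v s (P - Q) = κ.H v s P / κ.H v s Q ∧
      κ.H v s (P + Q) = T s (κ.H v s P * κ.H v s Q)) := by
  have dP : κ.D P ≠ 0 := by
    rw [← Valuation.ne_zero_iff v]; exact (lt_of_le_of_lt zero_le hP).ne'
  have dQ : κ.D Q ≠ 0 := by
    rw [← Valuation.ne_zero_iff v]; exact (lt_of_le_of_lt zero_le hQ).ne'
  obtain ⟨c, hc, h0, h1, h2⟩ := κ.rel P Q
  obtain ⟨x, hx⟩ : ∃ x, x = κ.N P / κ.D P := ⟨_, rfl⟩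
  obtain ⟨y, hy⟩ : ∃ y, y = κ.N Q / κ.D Q := ⟨_, rfl⟩
  have e1 : κ.N P = x * κ.D P := by rw [hx, div_mul_cancel₀ _ dP]
  have e2 : κ.N Q = y * κ.D Q := by rw [hy, div_mul_cancel₀ _ dQ]
  have i1 : v x < 1 := by
    rw [hx, map_div₀]
    exact (div_lt_one₀ (lt_of_le_of_lt zero_le hP)).mpr hP
  have i2 : v y < 1 := by
    rw [hy, map_div₀]
    exact (div_lt_one₀ (lt_of_le_of_lt zero_le hQ)).mpr hQ
  rw [e1, e2] at h0 h1 h2
  obtain ⟨c', hc'⟩ : ∃ c', c' = c / (κ.D P * κ.D Q) ^ 2 := ⟨_, rfl⟩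
  have nPQ : (κ.D P * κ.D Q) ^ 2 ≠ 0 := pow_ne_zero 2 (mul_ne_zero dP dQ)
  have f0 : c' * (κ.N (P + Q) * κ.N (P - Q)) = (x * y) ^ 2 - (γ * (x + y) + δ) := by
    rw [hc', div_mul_eq_mul_div, div_eq_iff nPQ, h0]; ring
  have f1 : c' * (κ.N (P + Q) * κ.D (P - Q) + κ.D (P + Q) * κ.N (P - Q)) =
      (2 * (x + y) + β) * (x * y) + γ := by
    rw [hc', div_mul_eq_mul_div, div_eq_iff nPQ, h1]; ring
  have f2 : c' * (κ.D (P + Q) * κ.D (P - Q)) = (x - y) ^ 2 := by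
    rw [hc', div_mul_eq_mul_div, div_eq_iff nPQ, h2]; ring
  have hs0 : 0 < s := zero_lt_iff.mpr h.hs0
  have hs1 := h.hs1
  have hss : 0 < s ^ 2 := zero_lt_iff.mpr (pow_ne_zero 2 h.hs0)
  have hxy1 : v (x + y) < 1 := sm_add v i1 i2
  have hb : v (2 * (x + y) + β) = 1 := by
    rw [Valuation.map_add_eq_of_lt_right v, h.hβ]
    rw [h.hβ]; exact sm_mul v (in_ofNat v 2) hxy1
  have hγδ : v (γ * (x + y) + δ) = s ^ 2 := by
    rw [Valuation.map_add_eq_of_lt_right v, h.hδ]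
    rw [h.hδ, map_mul]
    calc v γ * v (x + y) ≤ s ^ 2 * v (x + y) := mul_le_mul' h.hγ le_rfl
      _ < s ^ 2 * 1 := mul_lt_mul_of_pos_left hxy1 hss
      _ = s ^ 2 := mul_one _
  rcases κ.H_cases (v := v) hs1 P with ⟨k, -⟩ | ⟨k1, k2, k3, k4⟩ | ⟨k1, k2, k3⟩
  · exact absurd hP (not_lt.mpr k)
  · -- `P` mid, hence `Q` mid
    rcases κ.H_cases (v := v) hs1 Q with ⟨l, -⟩ | ⟨l1, l2, l3, l4⟩ | ⟨l1, l2, l3⟩
    · exact absurd hQ (not_lt.mpr l)
    · have hxH : v x = κ.H v s P := by rw [hx, map_div₀, k2, mul_div_cancel_right₀ _ k1.ne']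
      have hyH : v y = κ.H v s Q := by rw [hy, map_div₀, l2, mul_div_cancel_right₀ _ l1.ne']
      rw [← hxH] at k3 k4 hPQ ⊢
      rw [← hyH] at l3 l4 hPQ ⊢
      have vx0 : 0 < v x := hs0.trans k3
      have vy0 : 0 < v y := hs0.trans l3
      have vxy0 : 0 < v x * v y := mul_pos vx0 vy0
      have hsxy : s ^ 2 < v x * v y := by rw [pow_two]; exact mul_lt_mul'' k3 l3 zero_le zero_le
      have v1 : v (c' * (κ.N (P + Q) * κ.D (P - Q) + κ.D (P + Q) * κ.N (P - Q))) = v x * v y := by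
        rw [f1, Valuation.map_add_eq_of_lt_left v, map_mul, hb, one_mul, map_mul]
        rw [map_mul v (2 * (x + y) + β), hb, one_mul, map_mul]
        exact h.hγ.trans_lt hsxy
      have v2 : v (c' * (κ.D (P + Q) * κ.D (P - Q))) ≤ v y ^ 2 := by
        rw [f2, map_pow]
        exact pow_le_pow_left' ((v.map_sub _ _).trans (max_le hPQ le_rfl)) 2
      have v2' : v x < v y → v (c' * (κ.D (P + Q) * κ.D (P - Q))) = v y ^ 2 := by
        intro hlt
        rw [f2, map_pow, Valuation.map_sub_eq_of_lt_right v hlt]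
      have v0 : v (c' * (κ.N (P + Q) * κ.N (P - Q))) ≤ max ((v x * v y) ^ 2) (s ^ 2) := by
        rw [f0]
        refine (v.map_sub _ _).trans (max_le_max ?_ hγδ.le)
        rw [map_pow, map_mul]
      have v0a : s < v x * v y → v (c' * (κ.N (P + Q) * κ.N (P - Q))) = (v x * v y) ^ 2 := by
        intro hlt
        rw [f0, Valuation.map_sub_eq_of_lt_left v, map_pow, map_mul]
        rw [hγδ, map_pow, map_mul]
        exact pow_lt_pow_left₀ hlt zero_le two_ne_zero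
      have v0b : v x * v y < s → v (c' * (κ.N (P + Q) * κ.N (P - Q))) = s ^ 2 := by
        intro hlt
        rw [f0, Valuation.map_sub_eq_of_lt_right v, hγδ]
        rw [hγδ, map_pow, map_mul]
        exact pow_lt_pow_left₀ hlt zero_le two_ne_zero
      have hNlt : v (c' * (κ.N (P + Q) * κ.N (P - Q))) * v (c' * (κ.D (P + Q) * κ.D (P - Q))) <
          v (c' * (κ.N (P + Q) * κ.D (P - Q) + κ.D (P + Q) * κ.N (P - Q))) ^ 2 := by
        rw [v1]
        refine (mul_le_mul' v0 v2).trans_lt ?_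
        rw [mul_pow (v x) (v y)]
        refine mul_lt_mul_of_pos_right (max_lt ?_ ?_) (pow_pos vy0 2)
        · calc v x ^ 2 * v y ^ 2 < v x ^ 2 * 1 :=
                mul_lt_mul_of_pos_left (pow_lt_one' i2 two_ne_zero) (pow_pos vx0 2)
            _ = v x ^ 2 := mul_one _
        · exact pow_lt_pow_left₀ k3 zero_le two_ne_zero
      -- the two points
      have first : ∀ {R : G}, v (κ.N R) * v (c' * (κ.D (P + Q) * κ.D (P - Q))) =
          v (κ.D R) * (v x * v y) → κ.H v s R = v x / v y := by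
        intro R hR
        rcases eq_or_lt_of_le hPQ with heq | hlt
        · rw [heq, div_self vy0.ne']
          apply κ.H_eq_one
          refine le_of_mul_le_mul_right ?_ vxy0
          rw [← hR]
          refine mul_le_mul' le_rfl (v2.trans ?_)
          rw [heq, pow_two]
        · rw [v2' hlt] at hR
          have hR' : v (κ.N R) = v x / v y * v (κ.D R) := by
            rw [div_mul_eq_mul_div, eq_div_iff vy0.ne']
            apply mul_right_cancel₀ vy0.ne'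
            rw [mul_assoc, ← pow_two, hR, mul_comm (v x) (v (κ.D R)), mul_assoc]
          refine κ.H_eq_of hR' ((div_lt_one₀ vy0).mpr hlt) ?_
          rw [le_div_iff₀ vy0]
          calc s * v y ≤ s * 1 := mul_le_mul' le_rfl i2.le
            _ = s := mul_one s
            _ ≤ v x := k3.le
      have second : ∀ {R : G}, v (κ.N R) * (v x * v y) =
          v (κ.D R) * v (c' * (κ.N (P + Q) * κ.N (P - Q))) → κ.H v s R = T s (v x * v y) := by
        intro R hR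
        rcases lt_trichotomy (v x * v y) s with hlt | heq | hlt
        · rw [v0b hlt] at hR
          rw [T_of_lt hlt]
          have hR' : v (κ.N R) = s ^ 2 / (v x * v y) * v (κ.D R) := by
            rw [div_mul_eq_mul_div, eq_div_iff vxy0.ne', hR, mul_comm]
          refine κ.H_eq_of hR' ((div_lt_one₀ vxy0).mpr hsxy) ?_
          rw [le_div_iff₀ vxy0, pow_two]
          exact mul_le_mul' le_rfl hlt.le
        · rw [heq, T_s]
          refine κ.H_eq_s ?_ hs1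
          rw [heq] at hR
          refine le_of_mul_le_mul_right ?_ hs0
          rw [hR, mul_comm s (v (κ.D R)), mul_assoc, ← pow_two]
          refine mul_le_mul' le_rfl ?_
          refine v0.trans (max_le ?_ le_rfl)
          rw [heq]
        · rw [v0a hlt] at hR
          rw [T_of_le hlt.le]
          have hR' : v (κ.N R) = v x * v y * v (κ.D R) := by
            apply mul_right_cancel₀ vxy0.ne'
            rw [hR, pow_two, mul_comm (v x * v y) (v (κ.D R)), mul_assoc (v (κ.D R))]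
          refine κ.H_eq_of hR' ?_ hlt.le
          calc v x * v y < v x * 1 := mul_lt_mul_of_pos_left i2 vx0
            _ = v x := mul_one _
            _ < 1 := i1
      rcases newton_lt v hNlt with ⟨m1, m2⟩ | ⟨m1, m2⟩
      · rw [v1] at m1 m2
        left; exact ⟨first m1, second m2⟩
      · rw [v1] at m1 m2
        right; exact ⟨first m1, second m2⟩
    · rw [l3] at hPQ
      exact absurd hPQ (not_le.mpr k3)
  · -- `P` low
    have hxs : v x ≤ s := by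
      rw [hx, map_div₀]; exact (div_le_iff₀ k1).mpr k2
    rcases κ.H_cases (v := v) hs1 Q with ⟨l, -⟩ | ⟨l1, l2, l3, l4⟩ | ⟨l1, l2, l3⟩
    · exact absurd hQ (not_lt.mpr l)
    · have hyH : v y = κ.H v s Q := by rw [hy, map_div₀, l2, mul_div_cancel_right₀ _ l1.ne']
      rw [k3] at hPQ ⊢
      rw [← hyH] at l3 l4 hPQ ⊢
      have vy0 : 0 < v y := hs0.trans l3
      have v2 : v (c' * (κ.D (P + Q) * κ.D (P - Q))) = v y ^ 2 := by
        rw [f2, map_pow, Valuation.map_sub_eq_of_lt_right v (hxs.trans_lt l3)]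
      have v0 : v (c' * (κ.N (P + Q) * κ.N (P - Q))) = s ^ 2 := by
        rw [f0, Valuation.map_sub_eq_of_lt_right v, hγδ]
        rw [hγδ, map_pow, map_mul]
        refine pow_lt_pow_left₀ ?_ zero_le two_ne_zero
        calc v x * v y ≤ s * v y := mul_le_mul' hxs le_rfl
          _ < s * 1 := mul_lt_mul_of_pos_left i2 hs0
          _ = s := mul_one s
      have v1 : v (c' * (κ.N (P + Q) * κ.D (P - Q) + κ.D (P + Q) * κ.N (P - Q))) ≤ s * v y := by
        rw [f1]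
        refine (v.map_add _ _).trans (max_le ?_ (h.hγ.trans ?_))
        · rw [map_mul, hb, one_mul, map_mul]; exact mul_le_mul' hxs le_rfl
        · rw [pow_two]; exact mul_le_mul' le_rfl l3.le
      have hge : v (c' * (κ.N (P + Q) * κ.D (P - Q) + κ.D (P + Q) * κ.N (P - Q))) ^ 2 ≤
        v (c' * (κ.N (P + Q) * κ.N (P - Q))) * v (c' * (κ.D (P + Q) * κ.D (P - Q))) := by
        rw [v0, v2, ← mul_pow]; exact pow_le_pow_left' v1 2
      obtain ⟨m1, m2⟩ := newton_le v hge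
      rw [v0, v2, ← mul_pow, ← mul_pow] at m1 m2
      have m1' := (pow_left_inj₀ zero_le zero_le two_ne_zero).mp m1
      have m2' := (pow_left_inj₀ zero_le zero_le two_ne_zero).mp m2
      have key : ∀ {R : G}, v (κ.N R) * v y = v (κ.D R) * s → κ.H v s R = s / v y := by
        intro R hR
        have hR' : v (κ.N R) = s / v y * v (κ.D R) := by
          rw [div_mul_eq_mul_div, eq_div_iff vy0.ne', hR, mul_comm]
        refine κ.H_eq_of hR' ((div_lt_one₀ vy0).mpr l3) ?_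
        rw [le_div_iff₀ vy0]
        calc s * v y ≤ s * 1 := mul_le_mul' le_rfl i2.le
          _ = s := mul_one s
      left
      rw [T_mul_s h.hs0 i2.le vy0.ne']
      exact ⟨key m1', key m2'⟩
    · have hys : v y ≤ s := by
        rw [hy, map_div₀]; exact (div_le_iff₀ l1).mpr l2
      rw [k3, l3]
      have hxys : v (x * y) ≤ s * s := by rw [map_mul]; exact mul_le_mul' hxs hys
      have hs2 : s * s < s := by
        calc s * s < 1 * s := mul_lt_mul_of_pos_right hs1 hs0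
          _ = s := one_mul s
      have v0 : v (c' * (κ.N (P + Q) * κ.N (P - Q))) = s ^ 2 := by
        rw [f0, Valuation.map_sub_eq_of_lt_right v, hγδ]
        rw [hγδ, map_pow]
        exact pow_lt_pow_left₀ (hxys.trans_lt hs2) zero_le two_ne_zero
      have v1 : v (c' * (κ.N (P + Q) * κ.D (P - Q) + κ.D (P + Q) * κ.N (P - Q))) ≤ s ^ 2 := by
        rw [f1]
        refine (v.map_add _ _).trans (max_le ?_ h.hγ)
        rw [map_mul, hb, one_mul, pow_two]; exact hxys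
      have v2 : v (c' * (κ.D (P + Q) * κ.D (P - Q))) ≤ s ^ 2 := by
        rw [f2, map_pow]; exact pow_le_pow_left' ((v.map_sub _ _).trans (max_le hxs hys)) 2
      have hcon : v (κ.D (P + Q)) ≤ v (κ.N (P + Q)) ∧ v (κ.D (P - Q)) ≤ v (κ.N (P - Q)) := by
        rcases lt_or_ge (v (c' * (κ.N (P + Q) * κ.N (P - Q))) * v (c' * (κ.D (P + Q) * κ.D (P - Q))))
          (v (c' * (κ.N (P + Q) * κ.D (P - Q) + κ.D (P + Q) * κ.N (P - Q))) ^ 2) with hlt | hge
        · have key : ∀ {n₁ d₁ n₂ d₂ A B : Γ₀}, n₁ * B = d₁ * A → n₂ * A = d₂ * s ^ 2 →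
              s ^ 2 * B < A ^ 2 → A ≤ s ^ 2 → d₁ ≤ n₁ ∧ d₂ ≤ n₂ := by
            intro n₁ d₁ n₂ d₂ A B q1 q2 q3 q4
            have hA : 0 < A := by
              rw [zero_lt_iff]; rintro rfl
              rw [zero_pow two_ne_zero] at q3; exact not_lt_zero q3
            constructor
            · have hBA : B ≤ A := by
                refine le_of_mul_le_mul_left ?_ hss
                refine q3.le.trans ?_
                rw [pow_two]; exact mul_le_mul' q4 le_rfl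
              refine le_of_mul_le_mul_right ?_ hA
              rw [← q1]; exact mul_le_mul' le_rfl hBA
            · refine le_of_mul_le_mul_right ?_ hss
              rw [← q2]; exact mul_le_mul' le_rfl q4
          have := newton_lt v hlt
          rw [v0] at hlt
          rcases this with ⟨q1, q2⟩ | ⟨q1, q2⟩
          · rw [v0] at q2
            exact key q1 q2 hlt v1
          · rw [v0] at q2
            exact (key q1 q2 hlt v1).symm
        · obtain ⟨q1, q2⟩ := newton_le v hge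
          rw [v0] at q1 q2
          have key : ∀ {n d B : Γ₀}, n ^ 2 * B = d ^ 2 * s ^ 2 → B ≤ s ^ 2 → d ≤ n := by
            intro n d B q3 q4
            refine (pow_le_pow_iff_left₀ zero_le zero_le two_ne_zero).mp ?_
            refine le_of_mul_le_mul_right ?_ hss
            rw [← q3]; exact mul_le_mul' le_rfl q4
          exact ⟨key q1 v2, key q2 v2⟩
      left
      rw [div_self h.hs0, T_mul_s h.hs0 hs1.le h.hs0, div_self h.hs0]
      exact ⟨κ.H_eq_one hcon.1, κ.H_eq_one hcon.2⟩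

/-- **Main theorem**: `H` of sum and difference. -/
theorem H_add_sub (h : NodVal v β γ δ s) {P Q : G} (hPQ : κ.H v s P ≤ κ.H v s Q) :
    (κ.H v s (P + Q) = κ.H v s P / κ.H v s Q ∧
      κ.H v s (P - Q) = T s (κ.H v s P * κ.H v s Q)) ∨
    (κ.H v s (P - Q) = κ.H v s P / κ.H v s Q ∧
      κ.H v s (P + Q) = T s (κ.H v s P * κ.H v s Q)) := by
  by_cases hQ : v (κ.D Q) ≤ v (κ.N Q)
  · rw [κ.H_eq_one hQ, div_one, mul_one, T_of_le (κ.s_le_H h.hs1 P)]
    by_cases hP : v (κ.D P) ≤ v (κ.N P)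
    · obtain ⟨h1, h2⟩ := κ.case_ee h hP hQ
      rw [κ.H_eq_one hP, κ.H_eq_one h1, κ.H_eq_one h2]
      simp
    · push Not at hP
      obtain ⟨h1, h2⟩ := κ.case_ae h hP hQ
      left; exact ⟨h1, h2⟩
  · have hQ1 : κ.H v s Q < 1 := lt_of_le_of_ne (κ.H_le_one h.hs1 Q)
      (fun h' => hQ ((κ.e0_iff h.hs1 Q).mpr h'))
    have hP : ¬ v (κ.D P) ≤ v (κ.N P) := by
      intro h'
      rw [κ.H_eq_one h'] at hPQ
      exact absurd hPQ (not_le.mpr hQ1)
    push Not at hP hQ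
    exact κ.case_aa h hP hQ hPQ

lemma H_pos (h : NodVal v β γ δ s) (P : G) : 0 < κ.H v s P :=
  (zero_lt_iff.mpr h.hs0).trans_le (κ.s_le_H h.hs1 P)

lemma H_neg (P : G) : κ.H v s (-P) = κ.H v s P := by
  rw [H, H, κ.N_neg, κ.D_neg]

/-- the subgroup `E₀` (points with nonsingular reduction). -/
def E0 (h : NodVal v β γ δ s) : AddSubgroup G where
  carrier := {P | v (κ.D P) ≤ v (κ.N P)}
  zero_mem' := by
    show v (κ.D 0) ≤ v (κ.N 0)
    rw [κ.D_zero, map_zero]; exact zero_le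
  add_mem' := fun hP hQ => (κ.case_ee h hP hQ).1
  neg_mem' := fun {P} hP => by
    show v (κ.D (-P)) ≤ v (κ.N (-P))
    rw [κ.N_neg, κ.D_neg]; exact hP

lemma mem_E0 (h : NodVal v β γ δ s) {P : G} : P ∈ κ.E0 h ↔ v (κ.D P) ≤ v (κ.N P) := Iff.rfl

lemma mem_E0_iff (h : NodVal v β γ δ s) {P : G} : P ∈ κ.E0 h ↔ κ.H v s P = 1 :=
  κ.e0_iff h.hs1 P

/-- two points with the same `H` agree up to sign modulo `E₀`. -/
theorem add_or_sub_mem_E0 (h : NodVal v β γ δ s) {P Q : G} (hPQ : κ.H v s P = κ.H v s Q) :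
    P + Q ∈ κ.E0 h ∨ P - Q ∈ κ.E0 h := by
  have hQ := (κ.H_pos h Q).ne'
  rw [mem_E0_iff, mem_E0_iff]
  rcases κ.H_add_sub h hPQ.le with ⟨h1, -⟩ | ⟨h1, -⟩
  · left; rw [h1, hPQ, div_self hQ]
  · right; rw [h1, hPQ, div_self hQ]

/-- equality up to inversion and powers of `s²`. -/
def Rel (s x y : Γ₀) : Prop := ∃ k : ℤ, x = y * (s ^ 2) ^ k ∨ x * y = (s ^ 2) ^ k

lemma Rel.refl (s x : Γ₀) : Rel s x x := ⟨0, Or.inl (by simp)⟩

lemma Rel.symm {s x y : Γ₀} (hs : s ≠ 0) (h : Rel s x y) : Rel s y x := by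
  obtain ⟨k, hk | hk⟩ := h
  · refine ⟨-k, Or.inl ?_⟩
    rw [hk, mul_assoc, ← zpow_add₀ (pow_ne_zero 2 hs)]; simp
  · exact ⟨k, Or.inr (by rw [mul_comm]; exact hk)⟩

lemma Rel.trans {s x y z : Γ₀} (hs : s ≠ 0) (hy : y ≠ 0) (h1 : Rel s x y) (h2 : Rel s y z) :
    Rel s x z := by
  have hs2 := pow_ne_zero 2 hs
  obtain ⟨k, hk⟩ := h1
  obtain ⟨l, hl⟩ := h2
  rcases hk with hk | hk <;> rcases hl with hl | hl
  · exact ⟨l + k, Or.inl (by rw [hk, hl, mul_assoc, zpow_add₀ hs2])⟩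
  · refine ⟨l + k, Or.inr ?_⟩
    rw [hk, mul_right_comm, hl, zpow_add₀ hs2]
  · refine ⟨k - l, Or.inr ?_⟩
    rw [hl, ← mul_assoc] at hk
    rw [zpow_sub₀ hs2, ← hk, mul_div_assoc, div_self (zpow_ne_zero l hs2), mul_one]
  · refine ⟨k - l, Or.inl ?_⟩
    have : x * y = z * (s ^ 2) ^ (k - l) * y := by
      rw [hk, zpow_sub₀ hs2, mul_right_comm, mul_comm z y, hl, mul_div_cancel₀ _ (zpow_ne_zero l hs2)]
    exact mul_right_cancel₀ hy this

lemma Rel.inv_right {s x y : Γ₀} (hs : s ≠ 0) (hy : y ≠ 0) (h : Rel s x y) : Rel s x y⁻¹ := by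
  obtain ⟨k, hk | hk⟩ := h
  · exact ⟨k, Or.inr (by rw [hk, mul_right_comm, mul_inv_cancel₀ hy, one_mul])⟩
  · refine ⟨k, Or.inl ?_⟩
    rw [← hk, mul_comm x y, ← mul_assoc, inv_mul_cancel₀ hy, one_mul]

lemma Rel.T {s x : Γ₀} (hx : x ≠ 0) : Rel s (T s x) x := by
  by_cases h : s ≤ x
  · rw [T_of_le h]; exact Rel.refl s x
  · push Not at h
    rw [T_of_lt h]
    exact ⟨1, Or.inr (by rw [div_mul_cancel₀ _ hx, zpow_one])⟩

/-- multivalued homomorphism property -/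
theorem rel_add_sub (h : NodVal v β γ δ s) (P Q : G) :
    (Rel s (κ.H v s (P + Q)) (κ.H v s P * κ.H v s Q) ∧
      Rel s (κ.H v s (P - Q)) (κ.H v s P * (κ.H v s Q)⁻¹)) ∨
    (Rel s (κ.H v s (P - Q)) (κ.H v s P * κ.H v s Q) ∧
      Rel s (κ.H v s (P + Q)) (κ.H v s P * (κ.H v s Q)⁻¹)) := by
  have hP := (κ.H_pos h P).ne'
  have hQ := (κ.H_pos h Q).ne'
  rcases le_total (κ.H v s P) (κ.H v s Q) with hle | hle
  · rcases κ.H_add_sub h hle with ⟨h1, h2⟩ | ⟨h1, h2⟩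
    · right
      rw [h1, h2, div_eq_mul_inv]
      exact ⟨Rel.T (mul_ne_zero hP hQ), Rel.refl _ _⟩
    · left
      rw [h1, h2, div_eq_mul_inv]
      exact ⟨Rel.T (mul_ne_zero hP hQ), Rel.refl _ _⟩
  · have hinv : Rel s (κ.H v s Q / κ.H v s P) (κ.H v s P * (κ.H v s Q)⁻¹) := by
      refine ⟨0, Or.inr ?_⟩
      rw [zpow_zero, div_eq_mul_inv]
      calc κ.H v s Q * (κ.H v s P)⁻¹ * (κ.H v s P * (κ.H v s Q)⁻¹)
          = κ.H v s Q * ((κ.H v s P)⁻¹ * κ.H v s P) * (κ.H v s Q)⁻¹ := by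
            simp only [mul_assoc]
        _ = 1 := by rw [inv_mul_cancel₀ hP, mul_one, mul_inv_cancel₀ hQ]
    have e1 : κ.H v s (P + Q) = κ.H v s (Q + P) := by rw [add_comm]
    have e2 : κ.H v s (P - Q) = κ.H v s (Q - P) := by rw [← κ.H_neg, neg_sub]
    rw [e1, e2]
    rcases κ.H_add_sub h hle with ⟨h1, h2⟩ | ⟨h1, h2⟩
    · right
      rw [h1, h2, mul_comm (κ.H v s Q)]
      exact ⟨Rel.T (mul_ne_zero hP hQ), hinv⟩
    · left
      rw [h1, h2, mul_comm (κ.H v s Q)]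
      exact ⟨Rel.T (mul_ne_zero hP hQ), hinv⟩

/-- `H (n P)` is `H P ^ n` up to inversion and powers of `s²`. -/
theorem rel_nsmul (h : NodVal v β γ δ s) (P : G) (n : ℕ) :
    Rel s (κ.H v s (n • P)) (κ.H v s P ^ n) := by
  have hP := (κ.H_pos h P).ne'
  suffices H : ∀ n : ℕ, Rel s (κ.H v s (n • P)) (κ.H v s P ^ n) ∧
      Rel s (κ.H v s ((n + 1) • P)) (κ.H v s P ^ (n + 1)) from (H n).1
  intro n
  induction n with
  | zero =>
    refine ⟨?_, ?_⟩
    · rw [zero_nsmul, pow_zero, (κ.mem_E0_iff h).mp (κ.E0 h).zero_mem]; exact Rel.refl _ _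
    · rw [zero_add, one_nsmul, pow_one]; exact Rel.refl _ _
  | succ n ih =>
    obtain ⟨ih1, ih2⟩ := ih
    refine ⟨ih2, ?_⟩
    have e1 : (n + 1 + 1) • P = (n + 1) • P + P := succ_nsmul P (n + 1)
    have e2 : n • P = (n + 1) • P - P := by rw [succ_nsmul]; abel
    obtain ⟨a, ha⟩ : ∃ a, a = κ.H v s P := ⟨_, rfl⟩
    obtain ⟨b, hb⟩ : ∃ b, b = κ.H v s ((n + 1) • P) := ⟨_, rfl⟩
    have hb0 : b ≠ 0 := by rw [hb]; exact (κ.H_pos h _).ne'
    rw [← ha] at hP ih1 ih2 ⊢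
    rw [← hb] at ih2
    have han : a ^ (n + 1) ≠ 0 := pow_ne_zero _ hP
    -- `b * a` and `b * a⁻¹` versus `a^(n+2)`, `a^n`
    have key : (Rel s (b * a) (a ^ (n + 1 + 1)) ∧ Rel s (b * a⁻¹) (a ^ n)) ∨
        (Rel s (b * a⁻¹) (a ^ (n + 1 + 1)) ∧ Rel s (b * a) (a ^ n)) := by
      obtain ⟨k, hk | hk⟩ := ih2
      · left
        refine ⟨⟨k, Or.inl ?_⟩, ⟨k, Or.inl ?_⟩⟩
        · rw [hk, pow_succ a (n + 1), mul_right_comm]
        · rw [hk, mul_right_comm, pow_succ, mul_assoc (a ^ n), mul_inv_cancel₀ hP, mul_one]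
      · right
        refine ⟨⟨k, Or.inr ?_⟩, ⟨k, Or.inr ?_⟩⟩
        · rw [← hk, pow_succ a (n + 1), mul_comm (a ^ (n + 1)) a, mul_assoc b,
            ← mul_assoc a⁻¹, inv_mul_cancel₀ hP, one_mul]
        · rw [← hk, mul_assoc, ← pow_succ']
    have hS := κ.rel_add_sub h ((n + 1) • P) P
    rw [← e1, ← e2, ← ha, ← hb] at hS
    have hba : b * a ≠ 0 := mul_ne_zero hb0 hP
    have hba' : b * a⁻¹ ≠ 0 := mul_ne_zero hb0 (inv_ne_zero hP)
    have hn0 : κ.H v s (n • P) ≠ 0 := (κ.H_pos h _).ne'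
    have hann : a ^ n ≠ 0 := pow_ne_zero _ hP
    rcases hS with ⟨s1, s2⟩ | ⟨s1, s2⟩ <;> rcases key with ⟨k1, k2⟩ | ⟨k1, k2⟩
    · exact s1.trans h.hs0 hba k1
    · -- `H((n+2)P) ~ ba ~ a^n ~ H(nP) ~ b a⁻¹ ~ a^(n+2)`
      exact ((((s1.trans h.hs0 hba k2).trans h.hs0 hann (ih1.symm h.hs0)).trans h.hs0 hn0 s2).trans
        h.hs0 hba' k1)
    · -- `H((n+2)P) ~ b a⁻¹ ~ a^n ~ H(nP) ~ ba ~ a^(n+2)`
      exact ((((s2.trans h.hs0 hba' k2).trans h.hs0 hann (ih1.symm h.hs0)).trans h.hs0 hn0 s1).trans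
        h.hs0 hba k1)
    · exact s2.trans h.hs0 hba' k1

/-- For a point with `n • P ∈ E₀`: `H P ^ n` is a power of `s²`. -/
theorem H_pow_eq (h : NodVal v β γ δ s) {P : G} {n : ℕ} (hn : n • P ∈ κ.E0 h) :
    ∃ k : ℕ, κ.H v s P ^ n = (s ^ 2) ^ k := by
  have hr := κ.rel_nsmul h P n
  rw [(κ.mem_E0_iff h).mp hn] at hr
  have hs2 := pow_ne_zero 2 h.hs0
  have hkey : ∃ k : ℤ, κ.H v s P ^ n = (s ^ 2) ^ k := by
    obtain ⟨k, hk | hk⟩ := hr
    · refine ⟨-k, ?_⟩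
      rw [zpow_neg]
      exact eq_inv_of_mul_eq_one_left hk.symm
    · exact ⟨k, by rw [← hk, one_mul]⟩
  obtain ⟨k, hk⟩ := hkey
  rcases le_or_gt 0 k with hk0 | hk0
  · obtain ⟨m, rfl⟩ := Int.eq_ofNat_of_zero_le hk0
    exact ⟨m, by rw [hk]; simp⟩
  · exfalso
    have h1 : κ.H v s P ^ n ≤ 1 := pow_le_one' (κ.H_le_one h.hs1 P) n
    have h2 : (1 : Γ₀) < (s ^ 2) ^ k := by
      refine one_lt_zpow_of_neg₀ (zero_lt_iff.mpr hs2) (pow_lt_one' h.hs1 two_ne_zero) hk0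
    rw [hk] at h1
    exact absurd h1 (not_le.mpr h2)

end Nod

/-- A group is not the union of two proper subgroups. -/
lemma forall_or_of_cover {G : Type*} [AddCommGroup G] (A B : AddSubgroup G)
    (h : ∀ g, g ∈ A ∨ g ∈ B) : (∀ g, g ∈ A) ∨ (∀ g, g ∈ B) := by
  by_contra hcon
  push Not at hcon
  obtain ⟨⟨a, ha⟩, ⟨b, hb⟩⟩ := hcon
  have ha' : a ∈ B := (h a).resolve_left ha
  have hb' : b ∈ A := (h b).resolve_right hb
  rcases h (a + b) with h1 | h1
  · exact ha (by simpa using A.sub_mem h1 hb')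
  · exact hb (by simpa using B.sub_mem h1 ha')

namespace Nod

variable {G K : Type*} [AddCommGroup G] [Field K] {β γ δ : K} (κ : Nod G K β γ δ)
  {Γ₀ : Type*} [LinearOrderedCommGroupWithZero Γ₀] {v : Valuation K Γ₀} {s : Γ₀}

/-- An endomorphism preserving `H` acts by a global sign modulo `E₀`. -/
theorem global_sign (h : NodVal v β γ δ s) (φ : G →+ G)
    (hφ : ∀ P, κ.H v s (φ P) = κ.H v s P) :
    (∀ P, φ P - P ∈ κ.E0 h) ∨ (∀ P, φ P + P ∈ κ.E0 h) := by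
  have := forall_or_of_cover ((κ.E0 h).comap (φ - AddMonoidHom.id G))
    ((κ.E0 h).comap (φ + AddMonoidHom.id G)) (fun P => by
      rcases κ.add_or_sub_mem_E0 h (hφ P) with h1 | h1
      · right; exact h1
      · left; exact h1)
  exact this

end Nod

end Fermat.Agent.H72
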