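import Mathlib

/-! Additive version of a valuation on nonzero elements, with values in an ordered group
(so that `grind` can be used). -/

set_option autoImplicit false

namespace Fermat.Agent.H72

variable {K : Type*} [Field K] {Γ₀ : Type*} [LinearOrderedCommGroupWithZero Γ₀]
  (v : Valuation K Γ₀)

open Classical in
/-- additive valuation of a nonzero element (junk value `0` at `0`). -/
noncomputable def ord (x : K) : Additive Γ₀ˣ :=
  if h : x = 0 then 0 else Additive.ofMul (Units.mk0 (v x) ((Valuation.ne_zero_iff v).mpr h))⁻¹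

variable {v}

lemma ord_of_ne {x : K} (hx : x ≠ 0) :
    ord v x = Additive.ofMul (Units.mk0 (v x) ((Valuation.ne_zero_iff v).mpr hx))⁻¹ := by
  rw [ord, dif_neg hx]

lemma ord_le_iff {x y : K} (hx : x ≠ 0) (hy : y ≠ 0) : ord v x ≤ ord v y ↔ v y ≤ v x := by
  rw [ord_of_ne hx, ord_of_ne hy, Additive.ofMul_le, inv_le_inv_iff, ← Units.val_le_val]
  rfl

lemma ord_lt_iff {x y : K} (hx : x ≠ 0) (hy : y ≠ 0) : ord v x < ord v y ↔ v y < v x := by
  rw [← not_le, ord_le_iff hy hx, not_le]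

lemma ord_eq_iff {x y : K} (hx : x ≠ 0) (hy : y ≠ 0) : ord v x = ord v y ↔ v x = v y := by
  rw [le_antisymm_iff, le_antisymm_iff, ord_le_iff hx hy, ord_le_iff hy hx, and_comm]

lemma ord_mul {x y : K} (hx : x ≠ 0) (hy : y ≠ 0) : ord v (x * y) = ord v x + ord v y := by
  rw [ord_of_ne hx, ord_of_ne hy, ord_of_ne (mul_ne_zero hx hy), ← ofMul_mul, ← mul_inv]
  congr 2
  ext
  simp

@[simp] lemma ord_one : ord v (1 : K) = 0 := by
  have := ord_mul (v := v) (one_ne_zero (α := K)) one_ne_zero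
  rw [one_mul] at this
  simpa using this

lemma ord_pow {x : K} (hx : x ≠ 0) (n : ℕ) : ord v (x ^ n) = n • ord v x := by
  induction n with
  | zero => simp
  | succ n ih => rw [pow_succ, ord_mul (pow_ne_zero n hx) hx, ih, succ_nsmul]

lemma ord_pos_iff {x : K} (hx : x ≠ 0) : 0 < ord v x ↔ v x < 1 := by
  rw [← ord_one (v := v), ord_lt_iff one_ne_zero hx, map_one]

lemma ord_eq_zero_iff {x : K} (hx : x ≠ 0) : ord v x = 0 ↔ v x = 1 := by
  rw [← ord_one (v := v), ord_eq_iff hx one_ne_zero, map_one]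

lemma ord_nonneg_iff {x : K} (hx : x ≠ 0) : 0 ≤ ord v x ↔ v x ≤ 1 := by
  rw [← ord_one (v := v), ord_le_iff one_ne_zero hx, map_one]

lemma min_ord_le_ord_add {x y : K} (hx : x ≠ 0) (hy : y ≠ 0) (hxy : x + y ≠ 0) :
    min (ord v x) (ord v y) ≤ ord v (x + y) := by
  rw [min_le_iff, ord_le_iff hx hxy, ord_le_iff hy hxy]
  have := v.map_add x y
  rwa [le_max_iff] at this

lemma add_ne_zero_of_ord_ne {x y : K} (hx : x ≠ 0) (hy : y ≠ 0) (h : ord v x ≠ ord v y) :
    x + y ≠ 0 := by
  intro h0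
  have : y = -x := by linear_combination h0
  apply h
  rw [ord_eq_iff hx hy, this, Valuation.map_neg]

lemma ord_add_eq_min {x y : K} (hx : x ≠ 0) (hy : y ≠ 0) (h : ord v x ≠ ord v y) :
    ord v (x + y) = min (ord v x) (ord v y) := by
  have hxy := add_ne_zero_of_ord_ne hx hy h
  rcases lt_or_gt_of_ne h with h1 | h1
  · rw [min_eq_left h1.le, ord_eq_iff hxy hx]
    rw [ord_lt_iff hx hy] at h1
    exact Valuation.map_add_eq_of_lt_left v h1
  · rw [min_eq_right h1.le, ord_eq_iff hxy hy]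
    rw [ord_lt_iff hy hx] at h1
    exact Valuation.map_add_eq_of_lt_right v h1

lemma ord_neg (x : K) : ord v (-x) = ord v x := by
  by_cases hx : x = 0
  · rw [hx, neg_zero]
  · rw [ord_eq_iff (neg_ne_zero.mpr hx) hx, Valuation.map_neg]

end Fermat.Agent.H72
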