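import Fermat.Agent.H96TDef

/-!
# The ring of integers of `ℚ(√-3)` and `ℤ[ω] ⊂ ℂ` (helper72, S47, C21-RING)

`M` a number field of degree two containing a primitive cube root of unity, `e : M →+* ℂ`.
* `EF e` : the hypotheses; `EF.eO : 𝓞 M ≃+* Eis` with `coe_eO : (eO x : ℂ) = e x`;
* `EF.trace_eq`, `EF.norm_eq`;
* `EF.pid`.
-/

set_option autoImplicit false
set_option linter.unusedSectionVars false
set_option linter.style.haveILetI false

noncomputable section

open NumberField Fermat.Agent.S47T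
open scoped ComplexConjugate

namespace Fermat.Agent.H72R

variable {M : Type*} [Field M] [NumberField M]

/-- `M = ℚ(√-3)`. -/
structure EF (e : M →+* ℂ) : Prop where
  deg : Module.finrank ℚ M = 2
  zeta : ∃ ζ : M, ζ ^ 2 + ζ + 1 = 0

variable {e : M →+* ℂ}

theorem om_ne_conj : conj om ≠ om := by
  intro h
  have := Complex.conj_eq_iff_im.mp h
  exact om_im_ne this

theorem EF.exists_zeta (h : EF e) : ∃ ζ : M, e ζ = om := by
  obtain ⟨ζ, hζ⟩ := h.zeta
  have h1 : (e ζ) ^ 2 + e ζ + 1 = 0 := by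
    have := congrArg e hζ
    simpa using this
  have h2 : (e ζ - om) * (e ζ + 1 + om) = 0 := by
    linear_combination h1 - om_rel
  rcases mul_eq_zero.mp h2 with h3 | h3
  · exact ⟨ζ, sub_eq_zero.mp h3⟩
  · refine ⟨-1 - ζ, ?_⟩
    rw [map_sub, map_neg, map_one]
    linear_combination -h3

/-- the element `ω` of `M` -/
def EF.ze (h : EF e) : M := h.exists_zeta.choose

theorem EF.e_ze (h : EF e) : e h.ze = om := h.exists_zeta.choose_spec

theorem EF.ze_rel (h : EF e) : h.ze ^ 2 + h.ze + 1 = 0 := by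
  apply e.injective
  rw [map_add, map_add, map_pow, map_one, map_zero, h.e_ze]
  exact om_rel

theorem EF.isIntegral_ze (h : EF e) : IsIntegral ℤ h.ze := by
  refine ⟨Polynomial.X ^ 2 + Polynomial.X + 1, ?_, ?_⟩
  · monicity!
  · simp only [Polynomial.eval₂_add, Polynomial.eval₂_pow, Polynomial.eval₂_X,
      Polynomial.eval₂_one]
    exact h.ze_rel

theorem e_rat (q : ℚ) : e (q : M) = (q : ℂ) := by simp

theorem real_comb {p q : ℝ} (h : (p : ℂ) + q * om = 0) : p = 0 ∧ q = 0 := by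
  have h1 := congrArg Complex.im h
  simp only [Complex.add_im, Complex.mul_im, Complex.ofReal_im, Complex.ofReal_re, zero_add,
    Complex.zero_im, zero_mul, add_zero] at h1
  have hb : q = 0 := (mul_eq_zero.mp h1).resolve_right om_im_ne
  refine ⟨?_, hb⟩
  rw [hb, Complex.ofReal_zero, zero_mul, add_zero] at h
  exact_mod_cast h

theorem EF.exists_rat (h : EF e) (x : M) : ∃ a b : ℚ, x = a + b * h.ze := by
  have hli : LinearIndependent ℚ ![(1 : M), h.ze] := by
    rw [LinearIndependent.pair_iff]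
    intro s t hst
    have h1 := congrArg e hst
    rw [map_add, Algebra.smul_def, Algebra.smul_def, map_mul, map_mul, map_one, mul_one, h.e_ze,
      map_zero] at h1
    have h2 : ((s : ℝ) : ℂ) + (t : ℝ) * om = 0 := by
      rw [← h1]
      simp
    have h3 := real_comb h2
    exact ⟨by exact_mod_cast h3.1, by exact_mod_cast h3.2⟩
  have hspan := hli.span_eq_top_of_card_eq_finrank (by simp [h.deg])
  have hx : x ∈ Submodule.span ℚ (Set.range ![(1 : M), h.ze]) := by rw [hspan]; trivial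
  rw [Matrix.range_cons, Matrix.range_cons, Matrix.range_empty, Set.union_empty,
    Set.singleton_union, Submodule.mem_span_pair] at hx
  obtain ⟨a, b, hab⟩ := hx
  refine ⟨a, b, ?_⟩
  rw [← hab, Algebra.smul_def, Algebra.smul_def, mul_one]
  simp

/-- the complex conjugate embedding -/
def ce (e : M →+* ℂ) : M →+* ℂ := (starRingEnd ℂ).comp e

@[simp] theorem ce_apply (x : M) : ce e x = conj (e x) := rfl

theorem EF.ce_ne (h : EF e) : ce e ≠ e := by
  intro hc
  have h1 := RingHom.congr_fun hc h.ze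
  rw [ce_apply, h.e_ze] at h1
  exact om_ne_conj h1

open Classical in
theorem EF.univ_eq (h : EF e) : (Finset.univ : Finset (M →ₐ[ℚ] ℂ)) =
    {e.toRatAlgHom, (ce e).toRatAlgHom} := by
  symm
  apply Finset.eq_univ_of_card
  rw [Finset.card_pair, AlgHom.card, h.deg]
  intro hc
  apply h.ce_ne
  ext x
  exact (AlgHom.congr_fun hc x).symm

theorem EF.ne' (h : EF e) : e.toRatAlgHom ≠ (ce e).toRatAlgHom := by
  intro hc
  apply h.ce_ne
  ext x
  exact (AlgHom.congr_fun hc x).symm

theorem EF.trace_eq (h : EF e) (x : M) : ((Algebra.trace ℚ M x : ℚ) : ℝ) = 2 * (e x).re := by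
  classical
  have h1 := trace_eq_sum_embeddings ℂ (K := ℚ) (L := M) (x := x)
  rw [h.univ_eq, Finset.sum_pair h.ne'] at h1
  have h2 : (((Algebra.trace ℚ M x : ℚ) : ℝ) : ℂ) = e x + conj (e x) := by
    rw [← ce_apply]
    simpa using h1
  rw [Complex.add_conj] at h2
  exact_mod_cast h2

theorem EF.norm_eq (h : EF e) (x : M) : ((Algebra.norm ℚ x : ℚ) : ℝ) = Complex.normSq (e x) := by
  classical
  have h1 := Algebra.norm_eq_prod_embeddings ℚ ℂ x
  rw [h.univ_eq, Finset.prod_pair h.ne'] at h1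
  have h2 : (((Algebra.norm ℚ x : ℚ) : ℝ) : ℂ) = e x * conj (e x) := by
    rw [← ce_apply]
    simpa using h1
  rw [Complex.mul_conj] at h2
  exact_mod_cast h2

theorem rat_int_of_integral {q : ℚ} (hq : IsIntegral ℤ q) : ∃ n : ℤ, (n : ℚ) = q := by
  obtain ⟨n, hn⟩ := IsIntegrallyClosed.isIntegral_iff.mp hq
  exact ⟨n, by simpa using hn⟩

theorem rat_int_of_three {b : ℚ} {m : ℤ} (h : 3 * b ^ 2 = m) : ∃ n : ℤ, (n : ℚ) = b := by
  have h1 : IsIntegral ℤ (3 * b) := by
    refine ⟨Polynomial.X ^ 2 - Polynomial.C (3 * m), ?_, ?_⟩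
    · monicity!
    · simp only [Polynomial.eval₂_sub, Polynomial.eval₂_pow, Polynomial.eval₂_X,
        Polynomial.eval₂_C]
      have : ((algebraMap ℤ ℚ) (3 * m)) = 3 * (m : ℚ) := by simp
      rw [this, ← h]
      ring
  obtain ⟨k, hk⟩ := rat_int_of_integral h1
  have h2 : (k : ℚ) ^ 2 = 3 * m := by rw [hk, ← h]; ring
  have h3 : k ^ 2 = 3 * m := by exact_mod_cast h2
  have h4 : (3 : ℤ) ∣ k := Int.prime_three.dvd_of_dvd_pow ⟨m, h3⟩
  obtain ⟨n, rfl⟩ := h4
  refine ⟨n, ?_⟩
  push_cast at hk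
  linarith

theorem EF.mem_Eis_of_isIntegral (h : EF e) {x : M} (hx : IsIntegral ℤ x) : e x ∈ Eis := by
  obtain ⟨a, b, hab⟩ := h.exists_rat x
  have hex : e x = a + b * om := by
    rw [hab, map_add, map_mul, e_rat, e_rat, h.e_ze]
  obtain ⟨t, ht⟩ := rat_int_of_integral (Algebra.isIntegral_trace (R := ℤ) (L := ℚ) (F := M) hx)
  obtain ⟨n, hn⟩ := rat_int_of_integral (Algebra.isIntegral_norm (R := ℤ) ℚ hx)
  have hre : om.re = -1 / 2 := by
    rw [om, sq3]; simp
  have him : om.im = Real.sqrt 3 / 2 := by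
    rw [om, sq3]; simp
  have h1 := h.trace_eq x
  have h2 := h.norm_eq x
  rw [hex] at h1 h2
  have h3 : (2 * a - b : ℚ) = t := by
    rw [ht]
    have h4 : ((2 * a - b : ℚ) : ℝ) = ((Algebra.trace ℚ M x : ℚ) : ℝ) := by
      rw [h1]
      push_cast
      simp [hre]
      ring
    exact_mod_cast h4
  have h4 : (a ^ 2 - a * b + b ^ 2 : ℚ) = n := by
    rw [hn]
    have h5 : ((a ^ 2 - a * b + b ^ 2 : ℚ) : ℝ) = ((Algebra.norm ℚ x : ℚ) : ℝ) := by
      rw [h2, Complex.normSq_apply]
      push_cast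
      simp [hre, him]
      have hs : Real.sqrt 3 * Real.sqrt 3 = 3 := Real.mul_self_sqrt (by norm_num)
      linear_combination (-(b : ℝ) ^ 2 / 4) * hs
    exact_mod_cast h5
  obtain ⟨b', hb'⟩ := rat_int_of_three (b := b) (m := 4 * n - t ^ 2) (by
    push_cast
    rw [← h4, ← h3]
    ring)
  -- `a` is an integer
  have ha : IsIntegral ℤ (a : M) := by
    have : (a : M) = x - (b' : M) * h.ze := by
      rw [hab]
      have : (b' : M) = (b : M) := by rw [← hb']; simp
      rw [this]; ring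
    rw [this]
    exact hx.sub ((isIntegral_algebraMap (R := ℤ) (x := b')).mul h.isIntegral_ze |> fun hh => by
      simpa using hh)
  have ha' : IsIntegral ℤ a := by
    have := (isIntegral_algebraMap_iff (R := ℤ) (A := ℚ) (B := M)
      (FaithfulSMul.algebraMap_injective ℚ M) (x := a)).mp (by simpa using ha)
    exact this
  obtain ⟨a', ha''⟩ := rat_int_of_integral ha'
  refine ⟨a', b', ?_⟩
  rw [hex, ← ha'', ← hb']
  push_cast
  rfl

theorem EF.exists_of_mem_Eis (h : EF e) {y : ℂ} (hy : y ∈ Eis) :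
    ∃ x : M, IsIntegral ℤ x ∧ e x = y := by
  obtain ⟨a, b, rfl⟩ := hy
  refine ⟨a + b * h.ze, ?_, ?_⟩
  · exact (by simpa using isIntegral_algebraMap (R := ℤ) (A := M) (x := a) : IsIntegral ℤ (a : M)).add
      ((by simpa using isIntegral_algebraMap (R := ℤ) (A := M) (x := b) :
        IsIntegral ℤ (b : M)).mul h.isIntegral_ze)
  · rw [map_add, map_mul, h.e_ze]
    simp

/-- The isomorphism `𝓞 M ≃ ℤ[ω]`. -/
def EF.eO (h : EF e) : 𝓞 M ≃+* Eis :=
  RingEquiv.ofBijective
    ((e.comp (algebraMap (𝓞 M) M)).codRestrict Eis (fun x => h.mem_Eis_of_isIntegral x.2)) (by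
    constructor
    · intro x y hxy
      have h1 : e (x : M) = e (y : M) := congrArg Subtype.val hxy
      exact RingOfIntegers.coe_injective (e.injective h1)
    · rintro ⟨y, hy⟩
      obtain ⟨x, hx, rfl⟩ := h.exists_of_mem_Eis hy
      exact ⟨⟨x, hx⟩, rfl⟩)

@[simp] theorem EF.coe_eO (h : EF e) (x : 𝓞 M) : ((h.eO x : Eis) : ℂ) = e (x : M) := rfl

@[simp] theorem EF.e_symm (h : EF e) (y : Eis) : e ((h.eO.symm y : 𝓞 M) : M) = (y : ℂ) := by
  rw [← h.coe_eO, RingEquiv.apply_symm_apply]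

theorem EF.isCyclotomic (h : EF e) : IsCyclotomicExtension {3} ℚ M := by
  rw [IsCyclotomicExtension.iff_singleton]
  have hze3 : h.ze ^ 3 = 1 := by linear_combination (h.ze - 1) * h.ze_rel
  have hne : h.ze ≠ 1 := by
    intro h1
    have := h.ze_rel
    rw [h1] at this
    norm_num at this
  have hprim : IsPrimitiveRoot h.ze 3 := by
    rw [IsPrimitiveRoot.iff_orderOf]
    exact orderOf_eq_prime hze3 hne
  refine ⟨⟨h.ze, hprim⟩, fun x => ?_⟩
  obtain ⟨a, b, rfl⟩ := h.exists_rat x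
  have h1 : h.ze ∈ Algebra.adjoin ℚ {b : M | b ^ 3 = 1} := Algebra.subset_adjoin hze3
  refine Subalgebra.add_mem _ ?_ (Subalgebra.mul_mem _ ?_ h1)
  · simpa using Subalgebra.algebraMap_mem (Algebra.adjoin ℚ {b : M | b ^ 3 = 1}) a
  · simpa using Subalgebra.algebraMap_mem (Algebra.adjoin ℚ {b : M | b ^ 3 = 1}) b

theorem EF.pid (h : EF e) : IsPrincipalIdealRing (𝓞 M) := by
  haveI := h.isCyclotomic
  exact IsCyclotomicExtension.Rat.three_pid M

theorem EF.pid_Eis (h : EF e) : IsPrincipalIdealRing Eis := by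
  haveI := h.pid
  exact IsPrincipalIdealRing.of_surjective h.eO.toRingHom h.eO.surjective

end Fermat.Agent.H72R
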