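import Mathlib

set_option autoImplicit false

/-! # The invariant differential is additive

For a field `F` with a derivation `D` killing the coefficients of a Weierstrass curve `W`, the
logarithmic derivative `θ(P) = D x / (2y + a₁x + a₃)` (`= D y / (3x² + 2a₂x + a₄ - a₁y)`) is a
homomorphism `E(F) → F`. -/

namespace Fermat.Agent.H72

open WeierstrassCurve WeierstrassCurve.Affine

variable {F : Type*} [Field F]

/-- The coefficients of `W` are killed by the derivation `D`. -/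
structure ConstCoeffs (D : Derivation ℤ F F) (W : WeierstrassCurve.Affine F) : Prop where
  a₁ : D W.a₁ = 0
  a₂ : D W.a₂ = 0
  a₃ : D W.a₃ = 0
  a₄ : D W.a₄ = 0
  a₆ : D W.a₆ = 0

variable {D : Derivation ℤ F F} {W : WeierstrassCurve.Affine F}

/-- `2y + a₁x + a₃` -/
def psi (W : WeierstrassCurve.Affine F) (x y : F) : F := 2 * y + W.a₁ * x + W.a₃

/-- `3x² + 2a₂x + a₄ - a₁y` -/
def chi (W : WeierstrassCurve.Affine F) (x y : F) : F :=
  3 * x ^ 2 + 2 * W.a₂ * x + W.a₄ - W.a₁ * y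

/-- The point `P` has logarithmic derivative `t`. -/
def IsTheta (D : Derivation ℤ F F) (t : F) : W.Point → Prop
  | .zero => t = 0
  | .some x y _ => D x = t * psi W x y ∧ D y = t * chi W x y

lemma isTheta_zero {t : F} : IsTheta D t (0 : W.Point) ↔ t = 0 := Iff.rfl

lemma isTheta_some {t x y : F} {h : W.Nonsingular x y} :
    IsTheta D t (Point.some x y h) ↔ D x = t * psi W x y ∧ D y = t * chi W x y := Iff.rfl

/-- The derivative of the Weierstrass equation. -/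
lemma psi_mul_deriv (hc : ConstCoeffs D W) {x y : F} (h : W.Equation x y) :
    psi W x y * D y = chi W x y * D x := by
  rw [equation_iff] at h
  have := congrArg D h
  simp only [map_add, Derivation.leibniz, Derivation.leibniz_pow, smul_eq_mul, nsmul_eq_mul,
    hc.a₁, hc.a₂, hc.a₃, hc.a₄, hc.a₆] at this
  unfold psi chi
  push_cast at this
  linear_combination this

lemma psi_or_chi {x y : F} (h : W.Nonsingular x y) : psi W x y ≠ 0 ∨ chi W x y ≠ 0 := by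
  rw [nonsingular_iff'] at h
  rcases h.2 with h' | h'
  · right
    unfold chi
    intro h0
    apply h'
    linear_combination -h0
  · left
    exact h'

theorem exists_isTheta (hc : ConstCoeffs D W) (P : W.Point) : ∃ t, IsTheta D t P := by
  rcases P with _ | ⟨x, y, h⟩
  · exact ⟨0, rfl⟩
  · have key := psi_mul_deriv hc h.1
    rcases psi_or_chi h with h0 | h0
    · refine ⟨D x / psi W x y, ?_, ?_⟩
      · rw [div_mul_cancel₀ _ h0]
      · rw [div_mul_eq_mul_div, eq_div_iff h0]; linear_combination key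
    · refine ⟨D y / chi W x y, ?_, ?_⟩
      · rw [div_mul_eq_mul_div, eq_div_iff h0]; linear_combination -key
      · rw [div_mul_cancel₀ _ h0]

lemma IsTheta.unique {P : W.Point} {t t' : F} (h : IsTheta D t P) (h' : IsTheta D t' P) :
    t = t' := by
  rcases P with _ | ⟨x, y, hP⟩
  · rw [show t = 0 from h, show t' = 0 from h']
  · obtain ⟨h1, h2⟩ := h
    obtain ⟨h3, h4⟩ := h'
    rcases psi_or_chi hP with h0 | h0
    · exact mul_right_cancel₀ h0 (h1.symm.trans h3)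
    · exact mul_right_cancel₀ h0 (h2.symm.trans h4)

lemma IsTheta.neg (hc : ConstCoeffs D W) {P : W.Point} {t : F} (h : IsTheta D t P) :
    IsTheta D (-t) (-P) := by
  rcases P with _ | ⟨x, y, hP⟩
  · show -t = 0
    rw [show t = 0 from h, neg_zero]
  · obtain ⟨h1, h2⟩ := h
    rw [Point.neg_some]
    refine ⟨?_, ?_⟩
    · rw [h1]; unfold psi; rw [negY]; ring
    · rw [negY]
      simp only [map_sub, map_neg, Derivation.leibniz, smul_eq_mul, hc.a₁, hc.a₃]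
      rw [h1, h2]; unfold psi chi; ring

/-- key relation for the slope: `χ₁ - λψ₁ = (x₁ - x₂)(x₁ - x₃)` -/
lemma slope_key [DecidableEq F] {x₁ x₂ y₁ y₂ : F} (h₁ : W.Equation x₁ y₁) (h₂ : W.Equation x₂ y₂)
    (hxy : ¬(x₁ = x₂ ∧ y₁ = W.negY x₂ y₂)) :
    chi W x₁ y₁ - W.slope x₁ x₂ y₁ y₂ * psi W x₁ y₁ =
      (x₁ - x₂) * (x₁ - W.addX x₁ x₂ (W.slope x₁ x₂ y₁ y₂)) := by
  by_cases hx : x₁ = x₂
  · have hy : y₁ ≠ W.negY x₂ y₂ := fun h' => hxy ⟨hx, h'⟩
    obtain rfl : y₁ = y₂ := Y_eq_of_Y_ne h₁ h₂ hx hy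
    subst hx
    rw [slope_of_Y_ne rfl hy]
    have hd : y₁ - W.negY x₁ y₁ ≠ 0 := sub_ne_zero.mpr hy
    have hp : psi W x₁ y₁ = y₁ - W.negY x₁ y₁ := by unfold psi negY; ring
    rw [hp, div_mul_cancel₀ _ hd, sub_self, zero_mul]
    unfold chi; ring
  · rw [slope_of_X_ne hx]
    have hd : x₁ - x₂ ≠ 0 := sub_ne_zero.mpr hx
    set l := (y₁ - y₂) / (x₁ - x₂) with hl
    have hy : y₂ = y₁ - l * (x₁ - x₂) := by rw [hl, div_mul_cancel₀ _ hd]; ring
    rw [equation_iff] at h₁ h₂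
    clear_value l
    subst hy
    apply mul_left_cancel₀ hd
    unfold chi psi addX
    linear_combination h₂ - h₁

lemma slope_swap [DecidableEq F] {x₁ x₂ y₁ y₂ : F} (h₁ : W.Equation x₁ y₁)
    (h₂ : W.Equation x₂ y₂)
    (hxy : ¬(x₁ = x₂ ∧ y₁ = W.negY x₂ y₂)) :
    W.slope x₁ x₂ y₁ y₂ = W.slope x₂ x₁ y₂ y₁ := by
  by_cases hx : x₁ = x₂
  · have hy : y₁ ≠ W.negY x₂ y₂ := fun h' => hxy ⟨hx, h'⟩
    obtain rfl : y₁ = y₂ := Y_eq_of_Y_ne h₁ h₂ hx hy
    subst hx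
    rfl
  · rw [slope_of_X_ne hx, slope_of_X_ne (Ne.symm hx), ← neg_sub y₂ y₁, ← neg_sub x₂ x₁,
      neg_div_neg_eq]

lemma slope_line [DecidableEq F] {x₁ x₂ y₁ y₂ : F} (h₁ : W.Equation x₁ y₁)
    (h₂ : W.Equation x₂ y₂)
    (hxy : ¬(x₁ = x₂ ∧ y₁ = W.negY x₂ y₂)) :
    y₁ - y₂ = W.slope x₁ x₂ y₁ y₂ * (x₁ - x₂) := by
  by_cases hx : x₁ = x₂
  · have hy : y₁ ≠ W.negY x₂ y₂ := fun h' => hxy ⟨hx, h'⟩
    obtain rfl : y₁ = y₂ := Y_eq_of_Y_ne h₁ h₂ hx hy
    rw [hx]; ring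
  · rw [slope_of_X_ne hx, div_mul_cancel₀ _ (sub_ne_zero.mpr hx)]

/-- the derivative of the slope: `Dλ = t₁(x₁ - x₃) + t₂(x₂ - x₃)` -/
lemma deriv_slope [DecidableEq F] (hc : ConstCoeffs D W) {x₁ x₂ y₁ y₂ t₁ t₂ : F}
    {h₁ : W.Nonsingular x₁ y₁} {h₂ : W.Nonsingular x₂ y₂}
    (hxy : ¬(x₁ = x₂ ∧ y₁ = W.negY x₂ y₂))
    (k₁ : IsTheta D t₁ (Point.some x₁ y₁ h₁)) (k₂ : IsTheta D t₂ (Point.some x₂ y₂ h₂)) :
    D (W.slope x₁ x₂ y₁ y₂) =
      t₁ * (x₁ - W.addX x₁ x₂ (W.slope x₁ x₂ y₁ y₂)) +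
      t₂ * (x₂ - W.addX x₁ x₂ (W.slope x₁ x₂ y₁ y₂)) := by
  have key₁ := slope_key h₁.1 h₂.1 hxy
  have hxy' : ¬(x₂ = x₁ ∧ y₂ = W.negY x₁ y₁) := by
    rintro ⟨rfl, h⟩
    exact hxy ⟨rfl, by rw [h, negY_negY]⟩
  have key₂ := slope_key h₂.1 h₁.1 hxy'
  have hs := slope_swap h₁.1 h₂.1 hxy
  rw [← hs] at key₂
  have hadd : W.addX x₂ x₁ (W.slope x₁ x₂ y₁ y₂) = W.addX x₁ x₂ (W.slope x₁ x₂ y₁ y₂) := by
    unfold addX; ring
  rw [hadd] at key₂
  have hline := slope_line h₁.1 h₂.1 hxy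
  by_cases hx : x₁ = x₂
  · have hy : y₁ ≠ W.negY x₂ y₂ := fun h' => hxy ⟨hx, h'⟩
    obtain rfl : y₁ = y₂ := Y_eq_of_Y_ne h₁.1 h₂.1 hx hy
    subst hx
    have ht : t₁ = t₂ := k₁.unique k₂
    subst ht
    have hd : psi W x₁ y₁ ≠ 0 := by
      have : psi W x₁ y₁ = y₁ - W.negY x₁ y₁ := by unfold psi negY; ring
      rw [this]; exact sub_ne_zero.mpr hy
    set l := W.slope x₁ x₁ y₁ y₁ with hl
    have e1 : chi W x₁ y₁ = l * psi W x₁ y₁ := by
      have := key₁; rw [sub_self, zero_mul] at this; linear_combination this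
    have e2 := congrArg D e1
    obtain ⟨d1, d2⟩ := k₁
    have e3 : D (chi W x₁ y₁) = (6 * x₁ + 2 * W.a₂) * D x₁ - W.a₁ * D y₁ := by
      unfold chi
      simp only [map_add, map_sub, Derivation.leibniz, Derivation.leibniz_pow, smul_eq_mul,
        nsmul_eq_mul, hc.a₁, hc.a₂, hc.a₄]
      have h2 : D (2 : F) = 0 := by simpa using D.map_natCast 2
      have h3 : D (3 : F) = 0 := by simpa using D.map_natCast 3
      rw [h2, h3]; push_cast; ring
    have e4 : D (psi W x₁ y₁) = 2 * D y₁ + W.a₁ * D x₁ := by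
      unfold psi
      simp only [map_add, Derivation.leibniz, smul_eq_mul, hc.a₁, hc.a₃]
      have h2 : D (2 : F) = 0 := by simpa using D.map_natCast 2
      rw [h2]; ring
    rw [Derivation.leibniz, smul_eq_mul, smul_eq_mul, e3, e4] at e2
    apply mul_left_cancel₀ hd
    have e5 : psi W x₁ y₁ * D l = (6 * x₁ + 2 * W.a₂) * D x₁ - W.a₁ * D y₁ -
      l * (2 * D y₁ + W.a₁ * D x₁) := by linear_combination -e2
    rw [e5, d1, d2, e1]
    unfold addX
    ring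
  · have hd : x₁ - x₂ ≠ 0 := sub_ne_zero.mpr hx
    set l := W.slope x₁ x₂ y₁ y₂ with hl
    have e2 := congrArg D hline
    obtain ⟨d1, d2⟩ := k₁
    obtain ⟨d3, d4⟩ := k₂
    simp only [map_sub, Derivation.leibniz, smul_eq_mul] at e2
    apply mul_left_cancel₀ hd
    have e5 : (x₁ - x₂) * D l = (D y₁ - D y₂) - l * (D x₁ - D x₂) := by linear_combination -e2
    rw [e5, d1, d2, d3, d4]
    linear_combination t₁ * key₁ - t₂ * key₂

/-- **The logarithmic derivative is additive.** -/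
theorem IsTheta.add [DecidableEq F] (hc : ConstCoeffs D W) {P Q : W.Point} {t₁ t₂ : F}
    (k₁ : IsTheta D t₁ P) (k₂ : IsTheta D t₂ Q) : IsTheta D (t₁ + t₂) (P + Q) := by
  rcases P with _ | ⟨x₁, y₁, h₁⟩
  · rw [show t₁ = 0 from k₁, zero_add]
    show IsTheta D t₂ (0 + Q)
    rwa [zero_add]
  rcases Q with _ | ⟨x₂, y₂, h₂⟩
  · rw [show t₂ = 0 from k₂, add_zero]
    show IsTheta D t₁ (Point.some x₁ y₁ h₁ + 0)
    rwa [add_zero]
  by_cases hxy : x₁ = x₂ ∧ y₁ = W.negY x₂ y₂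
  · have e : Point.some x₁ y₁ h₁ = - Point.some x₂ y₂ h₂ := by
      rw [Point.neg_some]
      obtain ⟨rfl, rfl⟩ := hxy
      rfl
    have k₁' : IsTheta D t₁ (- Point.some x₂ y₂ h₂) := by rw [← e]; exact k₁
    have ht := k₁'.unique (k₂.neg hc)
    rw [e, neg_add_cancel, isTheta_zero, ht, neg_add_cancel]
  · have key₁ := slope_key h₁.1 h₂.1 hxy
    have hxy' : ¬(x₂ = x₁ ∧ y₂ = W.negY x₁ y₁) := by
      rintro ⟨rfl, h⟩
      exact hxy ⟨rfl, by rw [h, negY_negY]⟩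
    have key₂ := slope_key h₂.1 h₁.1 hxy'
    have hs := slope_swap h₁.1 h₂.1 hxy
    rw [← hs] at key₂
    have hadd : W.addX x₂ x₁ (W.slope x₁ x₂ y₁ y₂) = W.addX x₁ x₂ (W.slope x₁ x₂ y₁ y₂) := by
      unfold addX; ring
    rw [hadd] at key₂
    have hline := slope_line h₁.1 h₂.1 hxy
    have hder := deriv_slope hc hxy k₁ k₂
    rw [Point.add_some hxy]
    obtain ⟨d1, d2⟩ := k₁
    obtain ⟨d3, d4⟩ := k₂
    have eX : D (W.addX x₁ x₂ (W.slope x₁ x₂ y₁ y₂)) =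
        (2 * W.slope x₁ x₂ y₁ y₂ + W.a₁) * D (W.slope x₁ x₂ y₁ y₂) - D x₁ - D x₂ := by
      unfold addX
      simp only [map_add, map_sub, Derivation.leibniz, Derivation.leibniz_pow, smul_eq_mul,
        nsmul_eq_mul, hc.a₁, hc.a₂]
      push_cast; ring
    have eX' : D (W.addX x₁ x₂ (W.slope x₁ x₂ y₁ y₂)) = (t₁ + t₂) *
        psi W (W.addX x₁ x₂ (W.slope x₁ x₂ y₁ y₂)) (W.addY x₁ x₂ y₁ (W.slope x₁ x₂ y₁ y₂)) := by
      rw [eX, hder, d1, d3]
      unfold psi addY negAddY negY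
      linear_combination 2 * t₂ * hline
    refine ⟨eX', ?_⟩
    have eY : D (W.addY x₁ x₂ y₁ (W.slope x₁ x₂ y₁ y₂)) =
        -(D (W.slope x₁ x₂ y₁ y₂) * (W.addX x₁ x₂ (W.slope x₁ x₂ y₁ y₂) - x₁) +
          W.slope x₁ x₂ y₁ y₂ * (D (W.addX x₁ x₂ (W.slope x₁ x₂ y₁ y₂)) - D x₁) + D y₁) -
          W.a₁ * D (W.addX x₁ x₂ (W.slope x₁ x₂ y₁ y₂)) := by
      unfold addY negAddY negY
      simp only [map_add, map_sub, map_neg, Derivation.leibniz, smul_eq_mul, hc.a₁, hc.a₃]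
      ring
    rw [eY, eX', hder, d1, d2]
    unfold psi chi addX addY negAddY negY addX at *
    linear_combination (-2 * t₁ - t₂) * key₁

end Fermat.Agent.H72
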