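import Fermat.Agent.H87Ord

/-!
# A basis of the Tate module adapted to a `p`-divisible subgroup of the points

(helper73, module M8(a) of LT-MOD2.)
-/

set_option autoImplicit false

noncomputable section

open WeierstrassCurve WeierstrassCurve.Affine WeierstrassCurve.Affine.Point PadicInt
open Fermat.Agent.H53 (GQ M2)

namespace Fermat.Agent.H73LT

open Fermat.Agent.H87 Fermat.Agent.H87.Tate Fermat.Agent.H87.Ord

variable (W : WeierstrassCurve ℚ) (hΔ : W.Δ ≠ 0) (p : ℕ) [hp : Fact p.Prime]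

/-- **Adapted basis of the Tate module.**  `D` a `p`-divisible subgroup of the group of points with
`D[p]` a line. There is a change of basis `U` such that every `σ` stabilising `D` becomes upper
triangular, and if `σ x - ε x ∈ D` for all `p`-power torsion points `x` then the lower right entry
is `ε`. -/
theorem exists_adapted (D : AddSubgroup (Pt W)) (hdiv : ∀ x ∈ D, ∃ y ∈ D, p • y = x)
    (h1 : ∃ x ∈ D, x ≠ 0 ∧ p • x = 0) (h2 : ∃ y : Pt W, p • y = 0 ∧ y ∉ D) :
    ∃ U : (M2 ℤ_[p])ˣ, ∀ σ : GQ, (∀ x ∈ D, σ • x ∈ D) →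
      ((U : M2 ℤ_[p]) * tateMat W hΔ p σ * ((U⁻¹ : (M2 ℤ_[p])ˣ) : M2 ℤ_[p])) 1 0 = 0 ∧
      ∀ ε : ℤ, (∀ (n : ℕ) (x : Pt W), p ^ n • x = 0 → σ • x - ε • x ∈ D) →
        ((U : M2 ℤ_[p]) * tateMat W hΔ p σ * ((U⁻¹ : (M2 ℤ_[p])ˣ) : M2 ℤ_[p])) 1 1 = ε := by
  classical
  have hp0 : p ≠ 0 := hp.out.ne_zero
  obtain ⟨x₁, hx₁D, hx₁0, hx₁p⟩ := h1
  obtain ⟨y₁, hy₁p, hy₁D⟩ := h2
  -- basis of the `p`-torsion
  let X : Tor W p := ⟨x₁, (Submodule.mem_torsionBy_iff _ _).mpr (by rw [natCast_zsmul]; exact hx₁p)⟩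
  let Y : Tor W p := ⟨y₁, (Submodule.mem_torsionBy_iff _ _).mpr (by rw [natCast_zsmul]; exact hy₁p)⟩
  have hli : LinearIndependent (ZMod p) ![X, Y] := by
    rw [LinearIndependent.pair_iff]
    intro s t hst
    obtain ⟨s, rfl⟩ := ZMod.intCast_surjective s
    obtain ⟨t, rfl⟩ := ZMod.intCast_surjective t
    rw [Int.cast_smul_eq_zsmul, Int.cast_smul_eq_zsmul] at hst
    have h1 : s • x₁ + t • y₁ = 0 := congrArg (fun z : Tor W p => (z : Pt W)) hst
    have ht : (t : ZMod p) = 0 := by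
      by_contra ht
      rw [ZMod.intCast_zmod_eq_zero_iff_dvd] at ht
      refine hy₁D (mem_of_zsmul_mem D hp.out hy₁p ht ?_)
      rw [← neg_eq_of_add_eq_zero_right h1]
      exact D.neg_mem (D.zsmul_mem hx₁D _)
    refine ⟨?_, ht⟩
    have h2 : t • Y = 0 := by rw [← Int.cast_smul_eq_zsmul (ZMod p), ht, zero_smul]
    rw [h2, add_zero, ← Int.cast_smul_eq_zsmul (ZMod p)] at hst
    refine (smul_eq_zero.mp hst).resolve_right fun h0 => hx₁0 ?_
    exact congrArg (fun z : Tor W p => (z : Pt W)) h0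
  have hfr : Module.finrank (ZMod p) (Tor W p) = 2 :=
    EC.finrank_torsionBy_rat W hΔ hp0 hp.out.one_lt.ne'
  have hcard : Fintype.card (Fin 2) = Module.finrank (ZMod p) (Tor W p) := by
    rw [hfr, Fintype.card_fin]
  let b₁ := basisOfLinearIndependentOfCardEqFinrank hli hcard
  have hb₁ : ⇑b₁ = ![X, Y] := coe_basisOfLinearIndependentOfCardEqFinrank hli hcard
  -- adapted compatible basis
  obtain ⟨b, hbc, hb1, hbD⟩ := exists_compat_basis_adapted (p := p) (A := Pt W)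
    (![(D : Set (Pt W)), Set.univ]) (by
      intro i x hx
      fin_cases i
      · exact hdiv x hx
      · obtain ⟨y, hy⟩ := EC.exists_nsmul_eq W (EC.algebraMap_Δ_ne_zero hΔ) hp0 x
        exact ⟨y, trivial, hy⟩) b₁ (by
      intro i
      rw [hb₁]
      fin_cases i
      · exact hx₁D
      · trivial)
  obtain ⟨r, hr, hrmap, hequiv⟩ := exists_ofMatrix_of_compat W hΔ p b hbc
  rw [H53.isEquiv_iff_conj _ _ (tateStd W hΔ p) (H53.stdBasis r hr)] at hequiv
  -- elements of `D` in `Pt W[p^n]`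
  have hb0D : ∀ n, (b n 0 : Pt W) ∈ D := by
    intro n
    cases n with
    | zero =>
      have h1 := hbc 0 0
      rw [← h1]
      exact D.nsmul_mem (hbD 0 0) _
    | succ n => exact hbD n 0
  have htor : ∀ n i, p ^ n • (b n i : Pt W) = 0 := by
    intro n i
    have := (Submodule.mem_torsionBy_iff _ _).mp (b n i).2
    rwa [natCast_zsmul] at this
  have hkey : ∀ n (c : ℤ), c • (b n 1 : Pt W) ∈ D → (c : ZMod (p ^ n)) = 0 := by
    intro n c hc
    rw [ZMod.intCast_zmod_eq_zero_iff_dvd, Nat.cast_pow]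
    refine dvd_of_zsmul_mem D hp.out (fun n => (b n 1 : Pt W)) (fun n => hbc n 1) ?_ ?_ n c hc
    · change p • (b 1 1 : Pt W) = 0
      rw [hb1, hb₁]
      exact hy₁p
    · rw [hb1, hb₁]
      exact hy₁D
  -- coordinates
  have hcoord : ∀ n (x : Tor W (p ^ n)), (x : Pt W) ∈ D → (b n).repr x 1 = 0 := by
    intro n x hx
    have h1 := (b n).sum_repr x
    rw [Fin.sum_univ_two] at h1
    obtain ⟨c0, hc0⟩ := ZMod.intCast_surjective ((b n).repr x 0)
    obtain ⟨c1, hc1⟩ := ZMod.intCast_surjective ((b n).repr x 1)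
    rw [← hc1]
    apply hkey n
    rw [← hc0, ← hc1, Int.cast_smul_eq_zsmul, Int.cast_smul_eq_zsmul] at h1
    have h2 : c0 • (b n 0 : Pt W) + c1 • (b n 1 : Pt W) = x := congrArg (fun z : Tor W (p ^ n) => (z : Pt W)) h1
    have h3 : c1 • (b n 1 : Pt W) = x - c0 • (b n 0 : Pt W) := by rw [← h2]; abel
    rw [h3]
    exact D.sub_mem hx (D.zsmul_mem (hb0D n) _)
  obtain ⟨U, hU, hconj⟩ := hequiv
  refine ⟨hU.unit, fun σ hσ => ?_⟩
  have hrσ : (hU.unit : M2 ℤ_[p]) * tateMat W hΔ p σ * ((hU.unit⁻¹ : (M2 ℤ_[p])ˣ) : M2 ℤ_[p]) =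
      r σ := by
    have h3 := hconj σ
    rw [H53.toMat_stdBasis, toMat_tateStd] at h3
    rw [IsUnit.unit_spec, h3, mul_assoc, IsUnit.mul_val_inv, mul_one]
  rw [hrσ]
  refine ⟨?_, fun ε hε => ?_⟩
  · refine padic_ext fun n => ?_
    have h1 := congrFun (congrFun (hrmap n σ) 1) 0
    rw [Matrix.map_apply, LinearMap.toMatrix_apply] at h1
    rw [h1, _root_.map_zero (toZModPow n)]
    exact hcoord n (rep W (p ^ n) σ (b n 0)) (hσ _ (hb0D n))
  · refine padic_ext fun n => ?_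
    have h1 := congrFun (congrFun (hrmap n σ) 1) 1
    rw [Matrix.map_apply, LinearMap.toMatrix_apply] at h1
    rw [h1, map_intCast]
    have h3 := hcoord n (rep W (p ^ n) σ (b n 1) - ε • b n 1) (hε n _ (htor n 1))
    rw [← Int.cast_smul_eq_zsmul (ZMod (p ^ n)), map_sub, map_smul, Module.Basis.repr_self,
      Finsupp.sub_apply, Finsupp.smul_apply, Finsupp.single_eq_same, smul_eq_mul, mul_one,
      sub_eq_zero] at h3
    exact h3

end Fermat.Agent.H73LT
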