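import Fermat.Agent.H73LTBasis
import Fermat.Agent.H13EC7
import Fermat.Agent.H13EC8

/-!
# The local type of the Tate module at a prime of multiplicative reduction

(helper73, module M8(a), (E1), of LT-MOD2.)
-/

set_option autoImplicit false

open WeierstrassCurve WeierstrassCurve.Affine IsLocalRing
open scoped WeierstrassCurve.Affine Pointwise
open Fermat.Agent.H53 (GQ M2)
open Fermat.Agent.H13

namespace Fermat.Agent.H73LT

section field

variable {k : Type*} [Field k] {W : WeierstrassCurve k} {x₀ y₀ α β x₁ y₁ α' β' : k}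

/-- uniqueness of the node over a field -/
theorem node_unique (h : NodeData W x₀ y₀ α β 0) (h' : NodeData W x₁ y₁ α' β' 0) (hαβ : α ≠ β) :
    x₁ = x₀ ∧ y₁ = y₀ := by
  have hb : W.b₂ + 12 * x₀ ≠ 0 := by
    rw [← h.delta_sq]; exact pow_ne_zero 2 (sub_ne_zero.mpr hαβ)
  have e1 : 2 * (y₁ - y₀) + W.a₁ * (x₁ - x₀) = 0 := by linear_combination h'.dy - h.dy
  have e2 : 3 * (x₁ - x₀) ^ 2 + 2 * (W.a₂ + 3 * x₀) * (x₁ - x₀) - W.a₁ * (y₁ - y₀) = 0 := by
    linear_combination h'.dx - h.dx
  have e3 : (x₁ - x₀) * (6 * (x₁ - x₀) + (W.b₂ + 12 * x₀)) = 0 := by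
    rw [WeierstrassCurve.b₂]
    linear_combination 2 * e2 + W.a₁ * e1
  have hx : x₁ = x₀ := by
    rcases mul_eq_zero.mp e3 with h0 | h0
    · exact sub_eq_zero.mp h0
    · exfalso
      have c1 := h.c₆_eq
      have c2 := h'.c₆_eq
      have hB : W.b₂ + 12 * x₁ = -(W.b₂ + 12 * x₀) := by linear_combination 2 * h0
      rw [hB, c1] at c2
      have h2 : 2 * (W.b₂ + 12 * x₀) ^ 3 = 0 := by linear_combination -c2
      rcases mul_eq_zero.mp h2 with h3 | h3
      · apply hb
        linear_combination h0 - 3 * (x₁ - x₀) * h3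
      · exact hb (pow_eq_zero_iff (n := 3) (by norm_num) |>.mp h3)
  refine ⟨hx, ?_⟩
  subst hx
  have e4 : (W.b₂ + 12 * x₁) * (y₁ - y₀) = 0 := by
    rw [WeierstrassCurve.b₂]
    linear_combination (2 * W.a₂ + 6 * x₁) * e1 - W.a₁ * e2
  rcases mul_eq_zero.mp e4 with h0 | h0
  · exact absurd h0 hb
  · exact sub_eq_zero.mp h0

theorem slope_mem (h : NodeData W x₀ y₀ α β 0) (h' : NodeData W x₀ y₀ α' β' 0) :
    α' = α ∨ α' = β := by
  have h1 : (α' - α) * (α' - β) = 0 := by
    linear_combination (-1 : k) * h'.prod + h.prod + α' * (h'.sum - h.sum)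
  rcases mul_eq_zero.mp h1 with h2 | h2
  · exact Or.inl (sub_eq_zero.mp h2)
  · exact Or.inr (sub_eq_zero.mp h2)

end field

/-- The sign of the node of `W` modulo `q`: `1` if the tangents are rational over `𝔽_q` (split), `-1`
otherwise. -/
noncomputable def nodeSign (W : WeierstrassCurve ℤ) (q : ℕ) : ℤ := by
  classical exact
  if ∃ x y α β : ZMod q, NodeData (W.map (Int.castRingHom (ZMod q))) x y α β 0 then 1 else -1

theorem nodeSign_eq (W : WeierstrassCurve ℤ) (q : ℕ) : nodeSign W q = 1 ∨ nodeSign W q = -1 := by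
  unfold nodeSign
  split_ifs
  · exact Or.inl rfl
  · exact Or.inr rfl

section local_

variable {K : Type*} [Field K] {A : ValuationSubring K} {W : WeierstrassCurve A}
  {x₀ y₀ α β g : A} {EL : Affine K} [DecidableEq K]

/-- The subgroup of the points away from the node. -/
def awayFromNode (hN : GoodNode W x₀ y₀ α β g) (hL : W.map A.subtype = EL) :
    AddSubgroup EL.Point where
  carrier := {P | ¬ Near A x₀ P}
  zero_mem' := id
  add_mem' := by
    intro P Q hP hQ
    have h1 := sub_not_near hN hL (comp_of_not_near (y₀ := y₀) (α := α) (β := β) hP)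
      ((comp_of_not_near (y₀ := y₀) (α := α) (β := β) hQ).neg hN hL) ⟨0, by simp⟩
    rwa [sub_neg_eq_add] at h1
  neg_mem' := by
    intro P hP
    have h1 := sub_not_near hN hL (P := 0) (comp_of_not_near (y₀ := y₀) (α := α) (β := β) id)
      (comp_of_not_near (y₀ := y₀) (α := α) (β := β) hP) ⟨0, by simp⟩
    rwa [zero_sub] at h1

lemma mem_awayFromNode (hN : GoodNode W x₀ y₀ α β g) (hL : W.map A.subtype = EL) {P : EL.Point} :
    P ∈ awayFromNode hN hL ↔ ¬ Near A x₀ P := Iff.rfl

/-- The subgroup of points away from the node is `p`-divisible as soon as there is a `p`-torsion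
point near the node. -/
theorem exists_nsmul_eq_of_not_near (hN : GoodNode W x₀ y₀ α β g) (hL : W.map A.subtype = EL)
    {p : ℕ} (hp : p.Prime) (hnear : ∃ T : EL.Point, p • T = 0 ∧ Near A x₀ T)
    (hdiv : ∀ Q : EL.Point, ∃ P : EL.Point, p • P = Q) {Q : EL.Point}
    (hQ : ¬ Near A x₀ Q) : ∃ P : EL.Point, ¬ Near A x₀ P ∧ p • P = Q := by
  classical
  obtain ⟨P, rfl⟩ := hdiv Q
  obtain ⟨j, hj⟩ := exists_isIdx (y₀ := y₀) (α := α) (β := β) (g := g) hN hL hQ
  obtain ⟨T, hT, hTn⟩ := hnear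
  obtain ⟨i, hi⟩ := exists_isIdx (y₀ := y₀) (α := α) (β := β) (g := g) hN hL
    (n := p) (P := T) (by rw [hT]; exact id)
  have hpi : ¬ (p : ℤ) ∣ i := fun h => not_near_of_isIdx hN hL hp.ne_zero hi h hTn
  obtain ⟨a, b, hab⟩ := (Prime.coprime_iff_not_dvd (Nat.prime_iff_prime_int.mp hp)).mpr hpi
  set m : ℕ := (b * j % p).toNat with hm
  have hm' : (m : ℤ) = b * j % p := Int.toNat_of_nonneg (Int.emod_nonneg _ (by
    exact_mod_cast hp.ne_zero))
  obtain ⟨l, hl⟩ := hi.nsmul hN hL m
  obtain ⟨l', hl'⟩ := hj.sub hN hL hl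
  have hdvd : (p : ℤ) ∣ j - (m * i + p * l) + p * l' := by
    have h1 : (p : ℤ) ∣ (m : ℤ) - b * j := by
      rw [hm']
      exact ⟨-(b * j / p), by
        have := Int.emod_add_mul_ediv (b * j) p
        linear_combination this⟩
    obtain ⟨u, hu⟩ := h1
    refine ⟨a * j - u * i - l + l', ?_⟩
    linear_combination (-j) * hab - i * hu
  have hnn : ¬ Near A x₀ (P - m • T) := not_near_of_isIdx hN hL hp.ne_zero hl' hdvd
  have hsum : p • (P - m • T) = p • P := by
    rw [nsmul_sub, smul_comm p m T, hT, smul_zero, sub_zero]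
  exact ⟨P - m • T, hnn, hsum⟩

end local_

section points

variable {R K : Type*} [CommRing R] [Field K] [Algebra R K]
  {W : WeierstrassCurve ℤ} {E : Affine R}
  {A : ValuationSubring K} {x₀ y₀ α β g : A} [DecidableEq K]

/-- There is a nonzero `p`-torsion point away from the node. -/
theorem exists_ne_zero_not_near (hN : GoodNode (W.map (Int.castRingHom A)) x₀ y₀ α β g)
    (hE : W.map (Int.castRingHom R) = E) {p : ℕ} (hp : p.Prime)
    (hcard : Nat.card (Submodule.torsionBy ℤ (E⁄K).Point (p : ℤ)) = p ^ 2) :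
    ∃ P : (E⁄K).Point, ¬ Near A x₀ P ∧ P ≠ 0 ∧ p • P = 0 := by
  classical
  have hL := H59.model_map (A := A) (K := K) hE
  have hT : ∀ P : Submodule.torsionBy ℤ (E⁄K).Point (p : ℤ), p • (P : (E⁄K).Point) = 0 := by
    intro P
    have h := (Submodule.mem_torsionBy_iff _ _).mp P.2
    rw [← natCast_zsmul]
    exact h
  have hidx : ∀ P : Submodule.torsionBy ℤ (E⁄K).Point (p : ℤ),
      ∃ j, IsIdx x₀ y₀ α β g p (P : (E⁄K).Point) j := fun P =>
    exists_isIdx hN hL (by rw [hT P]; exact id)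
  choose j hj using hidx
  have hninj : ¬ Function.Injective (fun P : Submodule.torsionBy ℤ (E⁄K).Point (p : ℤ) =>
      ((j P : ℤ) : ZMod p)) := by
    intro hinj
    have hfin : Finite (ZMod p) := by
      have := NeZero.mk hp.ne_zero
      infer_instance
    have h1 := Nat.card_le_card_of_injective _ hinj
    rw [hcard, Nat.card_zmod] at h1
    have := hp.two_le
    nlinarith
  rw [Function.Injective] at hninj
  push Not at hninj
  obtain ⟨P, Q, hPQ, hne⟩ := hninj
  obtain ⟨l, hl⟩ := (hj P).sub hN hL (hj Q)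
  have hdvd : (p : ℤ) ∣ j P - j Q + p * l := by
    have h1 : (p : ℤ) ∣ j P - j Q := by
      rw [← ZMod.intCast_zmod_eq_zero_iff_dvd]
      push_cast
      exact sub_eq_zero.mpr hPQ
    exact dvd_add h1 (dvd_mul_right _ _)
  have hnn := not_near_of_isIdx hN hL hp.ne_zero hl hdvd
  have h0 : p • ((P : (E⁄K).Point) - Q) = 0 := by rw [nsmul_sub, hT, hT, sub_zero]
  refine ⟨(P : (E⁄K).Point) - Q, hnn, ?_, h0⟩
  rw [sub_ne_zero]
  exact fun h => hne (Subtype.ext h)

end points

end Fermat.Agent.H73LT
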