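import Fermat.Agent.H31Eq3

/-!
# Two sheets with a group action: lifting of functions on the special fibre
-/

set_option autoImplicit false
set_option linter.unusedSectionVars false

open AlgebraicCurve WithZero IntermediateField Fermat.Agent.H97 Fermat.Agent.H97.Sheets
  Fermat.Agent.H31 Fermat.Agent.H31.Eq

namespace Fermat.Agent.H73.Lf

variable {K F₀ F k κ Γ : Type*} [Field K] [Field F₀] [Field F] [Algebra K F₀] [Algebra K F]
    [Field k] [Field κ] [Algebra k κ] [LinearOrderedCommGroupWithZero Γ] {q : ℕ}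
    {S : Sheets K F₀ F k κ Γ q}

variable [IsAlgClosed K] [CharZero K] [H3RR.IsFF K F₀] [H3RR.IsFF K F]
  [IsAlgClosed k] [H3RR.IsFF k κ] [H94.FunField K F₀] [H94.FunField K F]
  [hqF : Fact q.Prime] [CharP k q]

/-- A place over a node lies on both components. -/
theorem on_both {P : Place K F} (hx : S.Node (S.red P)) (i : Bool) : S.On i P := by
  obtain ⟨j, hj⟩ : ∃ j, S.On j P := by
    rcases S.on_false_or_true P with h | h
    · exact ⟨_, h⟩
    · exact ⟨_, h⟩
  intro f hf c hc
  obtain ⟨e, he⟩ := hx f hf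
  have h1 : S.res c = e := valκ_unique (hj f hf c hc) (he j)
  rw [h1]
  exact he i

variable {G : Type*} [Group G] [MulSemiringAction G K] [MulSemiringAction G F₀]
    [MulSemiringAction G F] {W : F ≃ₐ[K] F} {P₀ : Place K F₀} (E : Equi S G W P₀)

include E

/-- Lifts of functions on one component. -/
theorem exists_lift_comp (x : Place k κ) (i : Bool) {a : κ} (ha : (S.pt i x).adicValuation a ≤ 1) :
    ∃ b : F, MP.Fix (⊤ : Subgroup G) b ∧ (∀ j, S.v j b ≤ 1) ∧ S.ρ i b = a ∧
      ∀ P, S.red P = x → S.On i P → P.adicValuation b ≤ 1 := by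
  obtain ⟨b, hbG, hbv, hbreg, hbρ⟩ := E.exists_lift (S.pt i x) ha
  have hφG : MP.Fix (⊤ : Subgroup G) (S.φ b) := fun σ hσ => by rw [E.φ_smul, hbG σ hσ]
  cases i with
  | false =>
    exact ⟨S.φ b, hφG, fun j => by rw [S.v_φ]; exact hbv, (S.ρ_false b hbv).trans hbρ,
      fun P hP _ => (S.InR_φ hbv hbreg).2 P hP⟩
  | true =>
    refine ⟨W (S.φ b), fun σ hσ => by rw [E.W_smul, hφG σ hσ], fun j => ?_,
      (E.ρ_true_W hbv).trans hbρ, fun P hP hon => ?_⟩
    · cases j with
      | false => rw [← E.v_W, S.v_φ]; exact hbv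
      | true => rw [E.v_W, E.WW, S.v_φ]; exact hbv
    · obtain ⟨P', hP'⟩ := exists_comap_place W P
      have h1 := E.red_W hP' hon
      rw [hP] at h1
      rw [← Equi.adic_W hP', ← H3RR.mem_iff_adicValuation_le_one, ← H67.mem_res,
        H3RR.mem_iff_adicValuation_le_one]
      exact hbreg _ h1

/-- Lifting at a node. -/
theorem exists_lift_node {x : Place k κ} (hx : S.Node x) {z z' u : F}
    (hz : MP.Fix (⊤ : Subgroup G) z) (hz' : MP.Fix (⊤ : Subgroup G) z') (hpar : NodePar S x z z' u)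
    (a : Bool → κ) (c : k)
    (ha : ∀ i, (S.pt i x).adicValuation (a i - algebraMap k κ c) < 1) :
    ∃ b : F, MP.Fix (⊤ : Subgroup G) b ∧ (∀ i, S.v i b ≤ 1) ∧
      (∀ P, S.red P = x → P.adicValuation b ≤ 1) ∧ ∀ i, S.ρ i b = a i := by
  have hq : q ≠ 0 := hqF.out.ne_zero
  -- the constant
  obtain ⟨C, hCG, hCv, hC⟩ := E.teich c
  -- the parameters
  set Z : Bool → F := fun i => if i then z' else z with hZ
  have hZG : ∀ i, MP.Fix (⊤ : Subgroup G) (Z i) := by
    intro i; cases i; exacts [hz, hz']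
  have hZR : ∀ i, S.InR x (Z i) := by
    intro i; cases i; exacts [hpar.hz, hpar.hz']
  have hZv : ∀ i, S.v i (Z i) = 1 := by
    intro i; cases i; exacts [hpar.v_z, hpar.v_z']
  have hqv : ∀ i, S.v i (q : F) < 1 := by
    intro i
    have hn : ∀ n : ℕ, S.v i (n : F) ≤ 1 ∧ S.ρ i (n : F) = n := by
      intro n
      induction n with
      | zero => exact ⟨by simp, by rw [Nat.cast_zero, (S.comp i).ρ_zero, Nat.cast_zero]⟩
      | succ n ih =>
        have h1 : S.v i (1 : F) ≤ 1 := by rw [map_one]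
        refine ⟨?_, ?_⟩
        · rw [Nat.cast_succ]; exact Valuation.map_add_le _ ih.1 h1
        · rw [Nat.cast_succ, (S.comp i).ρ_add _ _ ih.1 h1, ih.2, (S.comp i).ρ_one, Nat.cast_succ]
    have hκ : CharP κ q := charP_of_injective_algebraMap (algebraMap k κ).injective q
    rw [← (S.comp i).ρ_eq_zero _ (hn q).1, (hn q).2, CharP.cast_eq_zero]
  have hZv' : ∀ i, S.v (!i) (Z i) < 1 := by
    intro i
    have h1 : S.v (!i) (z * z') < 1 := by
      rw [hpar.mul, map_mul, hpar.v_u hq, mul_one]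
      exact hqv _
    cases i with
    | false =>
      rw [map_mul] at h1
      change S.v true z * S.v true z' < 1 at h1
      rw [hpar.v_z', mul_one] at h1
      exact h1
    | true =>
      rw [map_mul] at h1
      change S.v false z * S.v false z' < 1 at h1
      rw [hpar.v_z, one_mul] at h1
      exact h1
  have hZord : ∀ i, (S.pt i x).ord (S.ρ i (Z i)) = 1 := by
    intro i; cases i; exacts [hpar.ord_z, hpar.ord_z']
  have hZρ : ∀ i, S.ρ i (Z i) ≠ 0 := fun i h => by
    have := hZord i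
    rw [h, Place.ord_zero] at this
    omega
  have key : ∀ i, ∃ b : F, MP.Fix (⊤ : Subgroup G) b ∧ (∀ j, S.v j b ≤ 1) ∧
      S.ρ i (Z i * b) = a i - algebraMap k κ c ∧ ∀ P, S.red P = x → P.adicValuation b ≤ 1 := by
    intro i
    have h1 : (S.pt i x).adicValuation ((a i - algebraMap k κ c) / S.ρ i (Z i)) ≤ 1 := by
      by_cases h0 : a i - algebraMap k κ c = 0
      · rw [h0, zero_div, map_zero]
        exact zero_le_one
      have h2 := ha i
      rw [(S.pt i x).adicValuation_eq_exp_neg_ord h0, ← exp_zero, exp_lt_exp] at h2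
      rw [(S.pt i x).adicValuation_eq_exp_neg_ord (div_ne_zero h0 (hZρ i)),
        MP.ord_div _ h0 (hZρ i), hZord i, ← exp_zero, exp_le_exp]
      omega
    obtain ⟨b, hbG, hbv, hbρ, hbreg⟩ := exists_lift_comp E x i h1
    refine ⟨b, hbG, hbv, ?_, fun P hP => hbreg P hP (on_both (by rw [hP]; exact hx) i)⟩
    rw [(S.comp i).ρ_mul _ _ (hZv i).le (hbv i), hbρ, mul_div_cancel₀ _ (hZρ i)]
  choose b hbG hbv hbρ hbreg using key
  have hv1 : ∀ i j, S.v j (Z i * b i) ≤ 1 := fun i j => by
    rw [map_mul]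
    exact mul_le_one' ((hZR i).1 j) (hbv i j)
  have hv2 : ∀ i, S.v (!i) (Z i * b i) < 1 := fun i => by
    rw [map_mul]
    exact mul_lt_one_of_lt_of_le (hZv' i) (hbv i _)
  have hρ2 : ∀ i, S.ρ (!i) (Z i * b i) = 0 := fun i =>
    ((S.comp (!i)).ρ_eq_zero _ (hv1 i _)).mpr (hv2 i)
  have hsum : ∀ i, S.v i (Z false * b false + Z true * b true) ≤ 1 := fun i =>
    (Valuation.map_add_le _ (hv1 false i) (hv1 true i))
  have hCi : ∀ i, S.v i (algebraMap K F C) ≤ 1 := fun i => by
    rw [(S.comp i).v_alg]; exact hCv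
  refine ⟨algebraMap K F C + (Z false * b false + Z true * b true), ?_, fun i => ?_, ?_, fun i => ?_⟩
  · have h1 : MP.Fix (⊤ : Subgroup G) (algebraMap K F C) := fun σ hσ => by
      rw [E.smul_alg, hCG σ hσ]
    exact h1.add (((hZG false).mul (hbG false)).add ((hZG true).mul (hbG true)))
  · exact Valuation.map_add_le _ (hCi i) (hsum i)
  · intro P hP
    refine Valuation.map_add_le _ (P.adicValuation_algebraMap_le_one C)
      (Valuation.map_add_le _ ?_ ?_)
    · rw [map_mul]
      exact mul_le_one' ((hZR false).2 P hP) (hbreg false P hP)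
    · rw [map_mul]
      exact mul_le_one' ((hZR true).2 P hP) (hbreg true P hP)
  · rw [(S.comp i).ρ_add _ _ (hCi i) (hsum i), (S.comp i).ρ_alg _ hCv, hC,
      (S.comp i).ρ_add _ _ (hv1 false i) (hv1 true i)]
    cases i with
    | false =>
      rw [hbρ false, show S.ρ false (Z true * b true) = 0 from hρ2 true]
      ring
    | true =>
      rw [hbρ true, show S.ρ true (Z false * b false) = 0 from hρ2 false]
      ring

/-- **The lifting property of the data.** -/
theorem lifts (D : MP.Data K F k κ Γ {x : Place k κ // S.Node x} G q) (hM : D.M = S.model)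
    (hpt : ∀ i n, D.pt i n = S.pt i n.1)
    (hpar : ∀ n : {x : Place k κ // S.Node x}, ∃ z z' u : F, MP.Fix (⊤ : Subgroup G) z ∧
      MP.Fix (⊤ : Subgroup G) z' ∧ NodePar S n.1 z z' u) : D.Lifts where
  lift_smooth := by
    rintro ⟨i, y⟩ hx a ha
    rw [hM] at hx ⊢
    obtain ⟨x, rfl⟩ : ∃ x, y = S.pt i x := by
      cases i with
      | false => exact ⟨y, rfl⟩
      | true => exact ⟨S.tw.symm y, (S.tw.apply_symm_apply y).symm⟩
    have hN : ¬ S.Node x := by
      intro hN
      apply hx ⟨x, hN⟩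
      rw [← hM, D.mem_br, hpt, hpt]
      cases i with
      | false => exact Or.inl rfl
      | true => exact Or.inr rfl
    obtain ⟨b, hbG, hbv, hbρ, hbreg⟩ := exists_lift_comp E x i ha
    refine ⟨b, hbG, hbv i, fun P hP => ?_, hbρ⟩
    have h1 := (S.sp_eq_inl hN).mp hP
    exact hbreg P h1.1 h1.2
  lift_node := by
    intro n a c ha
    rw [hM]
    obtain ⟨z, z', u, hz, hz', hp⟩ := hpar n
    obtain ⟨b, h1, h2, h3, h4⟩ := exists_lift_node E n.2 hz hz' hp a c
      (fun i => by rw [← hpt]; exact ha i)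
    exact ⟨b, h1, h2, fun P hP => h3 P (S.sp_eq_inr.mp hP), h4⟩

end Fermat.Agent.H73.Lf
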