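import Fermat.Agent.H44AtkinLehner
import Fermat.Agent.H49HeckeBasic
import Fermat.Agent.S08

/-!
# Cusp forms of prime level whose coefficients prime to the level vanish (job 181 (A))

`f(z) = g(Nz)` where `g = U_N f` is invariant under `Γ₀(N)` and `(1 0; 1 1)`, hence of level one.
-/

set_option autoImplicit false
set_option linter.style.haveILetI false

noncomputable section

open Matrix.SpecialLinearGroup UpperHalfPlane ModularForm CongruenceSubgroup ModularFormClass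
open scoped MatrixGroups ModularForm

namespace Fermat.Agent.H73

open Fermat.Agent.H44

/-- `(1 0; c 1)` -/
def lowSL (c : ℤ) : SL(2, ℤ) := ⟨!![1, 0; c, 1], by rw [Matrix.det_fin_two_of]; ring⟩

theorem heckeMatrix_mul_lowSL {N : ℕ} (hN : N ≠ 0) :
    heckeMatrix N 0 * (mapGL ℝ (lowSL 1) : GL (Fin 2) ℝ) =
      (mapGL ℝ (lowSL N) : GL (Fin 2) ℝ) * heckeMatrix N 0 := by
  have hv : ∀ c : ℤ, ((mapGL ℝ (lowSL c) : GL (Fin 2) ℝ) : Matrix (Fin 2) (Fin 2) ℝ) =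
      !![1, 0; (c : ℝ), 1] := by
    intro c
    ext i j
    rw [mapGL_apply]
    fin_cases i <;> fin_cases j <;> simp [lowSL]
  apply Units.ext
  rw [Units.val_mul, Units.val_mul, val_heckeMatrix hN, hv, hv, Matrix.mul_fin_two,
    Matrix.mul_fin_two]
  push_cast
  ext i j
  fin_cases i <;> fin_cases j <;> simp

theorem slash_heckeMatrix_eq {N : ℕ} [NeZero N] (f : CuspForm (Gamma0 N) 2)
    (h : ∀ n : ℕ, ¬ N ∣ n → qCoeff f n = 0) (x : ℕ) :
    ⇑f ∣[(2 : ℤ)] heckeMatrix N x = ⇑f ∣[(2 : ℤ)] heckeMatrix N 0 := by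
  have hN : N ≠ 0 := NeZero.ne N
  have hNC : (N : ℂ) ≠ 0 := by exact_mod_cast hN
  funext τ
  rw [slash_heckeMatrix_apply 2 hN, slash_heckeMatrix_apply 2 hN]
  congr 1
  have h1 := P2MW.S_UpperHalfPlane_qCoeff_heckeT.M4cP1W2.hasSum_qCoeff f
    (CongruenceSubgroup.one_mem_strictPeriods_Gamma0 N) (heckeMatrix N x • τ)
  have h2 := P2MW.S_UpperHalfPlane_qCoeff_heckeT.M4cP1W2.hasSum_qCoeff f
    (CongruenceSubgroup.one_mem_strictPeriods_Gamma0 N) (heckeMatrix N 0 • τ)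
  refine h1.unique ?_
  convert h2 using 2 with n
  by_cases hn : N ∣ n
  · obtain ⟨m, rfl⟩ := hn
    congr 1
    rw [coe_heckeMatrix_smul hN, coe_heckeMatrix_smul hN, Function.Periodic.qParam,
      Function.Periodic.qParam, ← Complex.exp_nat_mul, ← Complex.exp_nat_mul,
      Complex.exp_eq_exp_iff_exists_int]
    refine ⟨x * m, ?_⟩
    push_cast
    field_simp
    ring
  · rw [h n hn, zero_smul, zero_smul]

theorem eq_zero_of_qCoeff_coprime {N : ℕ} [NeZero N] (hN : N.Prime)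
    (f : CuspForm (CongruenceSubgroup.Gamma0 N) 2)
    (h : ∀ n : ℕ, n.Coprime N → ModularFormClass.qCoeff f n = 0) : f = 0 := by
  have hN0 : N ≠ 0 := hN.ne_zero
  have h' : ∀ n : ℕ, ¬ N ∣ n → qCoeff f n = 0 := fun n hn =>
    h n ((Nat.Prime.coprime_iff_not_dvd hN).mpr hn).symm
  let G : CuspForm (Gamma0 N) 2 := CuspForm.heckeULin 2 (dvd_refl N) f
  have hG : (⇑G : ℍ → ℂ) = (N : ℂ) • (⇑f ∣[(2 : ℤ)] heckeMatrix N 0) := by
    show heckeU 2 N ⇑f = _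
    rw [heckeU_def, Finset.sum_congr rfl fun x _ => slash_heckeMatrix_eq f h' x,
      Finset.sum_const, Finset.card_range, ← Nat.cast_smul_eq_nsmul ℂ]
  let Inv : Subgroup SL(2, ℤ) :=
    { carrier := {g | (⇑G : ℍ → ℂ) ∣[(2 : ℤ)] (mapGL ℝ g : GL (Fin 2) ℝ) = ⇑G}
      one_mem' := by
        show (⇑G : ℍ → ℂ) ∣[(2 : ℤ)] (mapGL ℝ (1 : SL(2, ℤ)) : GL (Fin 2) ℝ) = ⇑G
        rw [map_one, SlashAction.slash_one]
      mul_mem' := fun {a b} ha hb => by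
        show (⇑G : ℍ → ℂ) ∣[(2 : ℤ)] (mapGL ℝ (a * b) : GL (Fin 2) ℝ) = ⇑G
        rw [map_mul, SlashAction.slash_mul]
        have ha' : (⇑G : ℍ → ℂ) ∣[(2 : ℤ)] (mapGL ℝ a : GL (Fin 2) ℝ) = ⇑G := ha
        have hb' : (⇑G : ℍ → ℂ) ∣[(2 : ℤ)] (mapGL ℝ b : GL (Fin 2) ℝ) = ⇑G := hb
        rw [ha', hb']
      inv_mem' := fun {a} ha => by
        show (⇑G : ℍ → ℂ) ∣[(2 : ℤ)] (mapGL ℝ a⁻¹ : GL (Fin 2) ℝ) = ⇑G
        have ha' : (⇑G : ℍ → ℂ) ∣[(2 : ℤ)] (mapGL ℝ a : GL (Fin 2) ℝ) = ⇑G := ha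
        conv_lhs => rw [← ha']
        rw [← SlashAction.slash_mul, ← map_mul, mul_inv_cancel, map_one, SlashAction.slash_one] }
  have hΓ : ∀ g ∈ Gamma0 N, g ∈ Inv := fun g hg =>
    SlashInvariantFormClass.slash_action_eq G _ (Subgroup.mem_map_of_mem (mapGL ℝ) hg)
  have hT : ModularGroup.T ∈ Inv := hΓ _ (by
    rw [Gamma0_mem]; simp [ModularGroup.T])
  have hL : lowSL 1 ∈ Inv := by
    show (⇑G : ℍ → ℂ) ∣[(2 : ℤ)] (mapGL ℝ (lowSL 1) : GL (Fin 2) ℝ) = ⇑G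
    rw [hG]
    have hsm : ((N : ℂ) • (⇑f ∣[(2 : ℤ)] heckeMatrix N 0)) ∣[(2 : ℤ)]
        (mapGL ℝ (lowSL 1) : GL (Fin 2) ℝ) =
        (N : ℂ) • ((⇑f ∣[(2 : ℤ)] heckeMatrix N 0) ∣[(2 : ℤ)]
          (mapGL ℝ (lowSL 1) : GL (Fin 2) ℝ)) := by
      rw [ModularForm.smul_slash]
      congr 1
      have hdet : 0 < ((mapGL ℝ (lowSL 1) : GL (Fin 2) ℝ).det : ℝ) := by simp
      rw [UpperHalfPlane.σ, if_pos hdet]
      rfl
    rw [hsm, ← SlashAction.slash_mul, heckeMatrix_mul_lowSL hN0, SlashAction.slash_mul]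
    congr 2
    refine SlashInvariantFormClass.slash_action_eq f _ (Subgroup.mem_map_of_mem (mapGL ℝ) ?_)
    rw [Gamma0_mem]
    simp [lowSL]
  have hS : ModularGroup.S ∈ Inv := by
    have h1 : ModularGroup.S = ModularGroup.T⁻¹ * lowSL 1 * ModularGroup.T⁻¹ := by
      rw [eq_mul_inv_iff_mul_eq, eq_inv_mul_iff_mul_eq]
      apply Subtype.ext
      rw [Matrix.SpecialLinearGroup.coe_mul, Matrix.SpecialLinearGroup.coe_mul]
      show !![1, 1; 0, 1] * (!![0, -1; 1, 0] * !![1, 1; 0, 1]) = (!![1, 0; 1, 1] :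
        Matrix (Fin 2) (Fin 2) ℤ)
      decide
    rw [h1]
    exact Inv.mul_mem (Inv.mul_mem (Inv.inv_mem hT) hL) (Inv.inv_mem hT)
  have htop : Inv = ⊤ := by
    rw [eq_top_iff, ← SpecialLinearGroup.SL2Z_generators, Subgroup.closure_le]
    rintro g (rfl | rfl)
    · exact hS
    · exact hT
  have hinv : ∀ g ∈ Gamma0 1, (⇑G : ℍ → ℂ) ∣[(2 : ℤ)] (mapGL ℝ g : GL (Fin 2) ℝ) = ⇑G := by
    intro g _
    have : g ∈ Inv := by rw [htop]; trivial
    exact this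
  have h0 := Fermat.Agent.S08.result (lowerCusp 2 G hinv)
  have hG0 : G = 0 := by
    apply DFunLike.coe_injective
    exact congrArg (fun g : CuspForm (Gamma0 1) 2 => (⇑g : ℍ → ℂ)) h0
  apply Fermat.Agent.H49.eq_zero_of_forall_qCoeff
  intro n
  by_cases hn : N ∣ n
  · obtain ⟨m, rfl⟩ := hn
    have h1 := Fermat.Agent.H49.qCoeff_heckeULin hN0 (dvd_refl N) f m
    have h2 : qCoeff (CuspForm.heckeULin 2 (dvd_refl N) f) m = 0 := by
      show qCoeff G m = 0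
      rw [hG0]
      exact map_zero (Fermat.Agent.H49.qCoeffLin N 2 m)
    rw [mul_comm, ← h1]; exact h2
  · exact h' n hn

end Fermat.Agent.H73
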