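import Fermat.Agent.H35Kill
import Fermat.Agent.H90Kappa
import Fermat.Agent.H70Reduced

/-!
# A separable monic integral polynomial killing `T_ℓ` on the torsion of `J_0(N)` (job 181 (D))
-/

set_option autoImplicit false
set_option linter.style.haveILetI false

noncomputable section

namespace Fermat.Agent.H73

open CuspForm ModularCurve Fermat.Agent.H31 CongruenceSubgroup Polynomial

attribute [local instance] heckeModuleBar

theorem exists_poly {N : ℕ} [NeZero N] (ℓ : Nat.Primes) (h : ¬ (ℓ : ℕ) ∣ N) :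
    ∃ P : Polynomial ℤ, P.Monic ∧ (P.map (Int.castRingHom ℚ)).Separable ∧
      ∀ x : JZero N, (∃ m : ℕ, m ≠ 0 ∧ m • x = 0) →
        (Polynomial.aeval (heckeGen ℓ : HeckeAlg) P) • x = 0 := by
  let S : Set ℕ := {q | q.Prime ∧ q ∣ N}
  have hℓS : (ℓ : ℕ) ∉ S := fun h' => h h'.2
  haveI : Module.Finite ℤ (heckeAlgebra N 2 S) := Fermat.Agent.S22.result N 2 S
  haveI : IsReduced (heckeAlgebra N 2 S) := H70.isReduced_heckeAlgebra (fun q hq hqN => ⟨hq, hqN⟩)
  let ℓ' : GoodPrimes N S := ⟨ℓ, h, hℓS⟩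
  let t : heckeAlgebra N 2 S := heckeAlgebra.T ℓ.2 h hℓS
  have hint : IsIntegral ℤ t := Algebra.IsIntegral.isIntegral (R := ℤ) t
  obtain ⟨G, hG, hsep, hGt⟩ := H70.exists_monic_squarefree_aeval_eq_zero hint
  refine ⟨G, hG, hsep, fun x hx => ?_⟩
  obtain ⟨m, hm, hmx⟩ := hx
  let P : MvPolynomial (GoodPrimes N S) ℤ := Polynomial.aeval (MvPolynomial.X ℓ') G
  have hP : H35.evEnd N dvd_rfl S P = 0 := by
    have h1 : H35.evEnd N dvd_rfl S P =
        Polynomial.aeval (H35.evEnd N dvd_rfl S (MvPolynomial.X ℓ')) G :=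
      (Polynomial.aeval_algHom_apply (H35.evEnd N dvd_rfl S).toIntAlgHom
        (MvPolynomial.X ℓ') G).symm
    have h2 : H35.evEnd N dvd_rfl S (MvPolynomial.X ℓ') = (heckeAlgebra N 2 S).val t := by
      rw [H35.evEnd_X]
      rfl
    rw [h1, h2, Polynomial.aeval_algHom_apply, hGt, map_zero]
  have hI : inclHecke N S P = Polynomial.aeval (heckeGen ℓ : HeckeAlg) G := by
    have h1 : inclHecke N S P = Polynomial.aeval (inclHecke N S (MvPolynomial.X ℓ')) G :=
      (Polynomial.aeval_algHom_apply (inclHecke N S) (MvPolynomial.X ℓ') G).symm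
    rw [h1, inclHecke_X]
  rw [← hI]
  letI := H90.algQbarC
  exact H35.smul_eq_zero_of_evEnd dvd_rfl S (fun n c χ hn h => h.isPE hn) P hP m hm x hmx

end Fermat.Agent.H73
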