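import Fermat.Agent.H87AbsIrr
import Mathlib.LinearAlgebra.Trace
import Mathlib.GroupTheory.Sylow
import Mathlib.LinearAlgebra.Matrix.GeneralLinearGroup.Card
import Mathlib.RingTheory.Flat.Basic
import Mathlib.LinearAlgebra.Eigenspace.Zero

/-!
# EC10: linear algebra and group theory
-/

set_option autoImplicit false

open scoped TensorProduct

namespace Fermat.Agent.H73.TW

section Dihedral

variable {k K V Γ : Type*} [Field k] [Field K] [Algebra k K] [AddCommGroup V] [Module k V]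
  [Group Γ] (ρ : Γ →* Module.End k V) {G : Subgroup Γ}

/-- a basis in which `G` is diagonal and its complement is antidiagonal -/
def IsDih (G : Subgroup Γ) (b : Module.Basis (Fin 2) K (K ⊗[k] V)) : Prop :=
  (∀ g ∈ G, ∃ x y : K, (ρ g).baseChange K (b 0) = x • b 0 ∧
    (ρ g).baseChange K (b 1) = y • b 1) ∧
  (∀ g ∉ G, ∃ x y : K, (ρ g).baseChange K (b 0) = x • b 1 ∧
    (ρ g).baseChange K (b 1) = y • b 0)

lemma baseChange_mul_apply (a b : Γ) (x : K ⊗[k] V) :
    (ρ (a * b)).baseChange K x = (ρ a).baseChange K ((ρ b).baseChange K x) := by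
  rw [map_mul, LinearMap.baseChange_mul]; rfl

theorem exists_dih (hV : Module.finrank k V = 2) (hG : G.index = 2)
    (hirr : ∀ W : Submodule K (K ⊗[k] V), (∀ σ, ∀ x ∈ W, (ρ σ).baseChange K x ∈ W) →
      W = ⊥ ∨ W = ⊤)
    (L : Submodule K (K ⊗[k] V)) (hL : ∀ σ ∈ G, ∀ x ∈ L, (ρ σ).baseChange K x ∈ L)
    (hbot : L ≠ ⊥) (htop : L ≠ ⊤) : ∃ b : Module.Basis (Fin 2) K (K ⊗[k] V), IsDih ρ G b := by
  have hN : G.Normal := Subgroup.normal_of_index_eq_two hG
  have hVK : Module.finrank K (K ⊗[k] V) = 2 := by rw [Module.finrank_baseChange, hV]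
  have hfin : Module.Finite K (K ⊗[k] V) := Module.finite_of_finrank_eq_succ hVK
  have hne : G ≠ ⊤ := by
    rintro rfl; simp at hG
  obtain ⟨σ₀, hσ₀⟩ : ∃ σ₀, σ₀ ∉ G := by
    by_contra h; push Not at h; exact hne (eq_top_iff.mpr fun σ _ => h σ)
  have hmul : ∀ a b : Γ, a ∉ G → b ∉ G → a * b ∈ G := fun a b ha hb =>
    (Subgroup.mul_mem_iff_of_index_two hG).mpr (by simp [ha, hb])
  have hinv : ∀ a : Γ, a ∉ G → a⁻¹ ∉ G := fun a ha h => ha (by simpa using G.inv_mem h)
  have hL1 : Module.finrank K L = 1 := by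
    have h1 : Module.finrank K L < 2 := hVK ▸ Submodule.finrank_lt htop
    have h2 : Module.finrank K L ≠ 0 := fun h => hbot (Submodule.finrank_eq_zero.mp h)
    omega
  obtain ⟨v₀, hv₀L, hv0'⟩ := Submodule.exists_mem_ne_zero_of_ne_bot hbot
  let v : L := ⟨v₀, hv₀L⟩
  have hspan : Submodule.span K {v₀} = L := by
    refine Submodule.eq_of_le_of_finrank_eq ?_ ?_
    · rw [Submodule.span_le, Set.singleton_subset_iff]; exact hv₀L
    · rw [finrank_span_singleton hv0', hL1]
  have hv' : ∀ w ∈ L, ∃ c : K, w = c • (v : K ⊗[k] V) := fun w hw => by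
    rw [← hspan] at hw
    obtain ⟨c, hc⟩ := Submodule.mem_span_singleton.mp hw
    exact ⟨c, hc.symm⟩
  set w : K ⊗[k] V := (ρ σ₀).baseChange K v with hw
  have hwL : w ∉ L := by
    intro hwL
    have hst : ∀ σ, ∀ x ∈ L, (ρ σ).baseChange K x ∈ L := by
      intro σ x hx
      by_cases hσ : σ ∈ G
      · exact hL σ hσ x hx
      · have h1 : σ = (σ * σ₀⁻¹) * σ₀ := by group
        obtain ⟨c, rfl⟩ := hv' x hx
        rw [h1, baseChange_mul_apply, map_smul, map_smul]
        exact L.smul_mem _ (hL _ (hmul _ _ hσ (hinv _ hσ₀)) _ hwL)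
    rcases hirr L hst with h | h
    · exact hbot h
    · exact htop h
  have hli : LinearIndependent K ![(v : K ⊗[k] V), w] := by
    rw [LinearIndependent.pair_iff]
    intro s t hst
    have ht : t = 0 := by
      by_contra ht
      apply hwL
      have h2 : t • w = -(s • (v : K ⊗[k] V)) := by
        rw [eq_neg_iff_add_eq_zero, add_comm]; exact hst
      have h3 : t • w ∈ L := by
        rw [h2]; exact L.neg_mem (L.smul_mem _ v.2)
      exact (L.smul_mem_iff ht).mp h3
    rw [ht, zero_smul, add_zero] at hst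
    exact ⟨(smul_eq_zero.mp hst).resolve_right hv0', ht⟩
  let b := basisOfLinearIndependentOfCardEqFinrank hli (by rw [hVK, Fintype.card_fin])
  have hb : ∀ i, b i = ![(v : K ⊗[k] V), w] i := fun i => by
    rw [coe_basisOfLinearIndependentOfCardEqFinrank]
  have hb0 : b 0 = v := hb 0
  have hb1 : b 1 = w := hb 1
  have hGv : ∀ g ∈ G, ∃ x : K, (ρ g).baseChange K (v : K ⊗[k] V) = x • (v : K ⊗[k] V) :=
    fun g hg => hv' _ (hL g hg _ v.2)
  have hGw : ∀ g ∈ G, ∃ y : K, (ρ g).baseChange K w = y • w := by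
    intro g hg
    obtain ⟨y, hy⟩ := hGv (σ₀⁻¹ * g * σ₀) (by
      have := hN.conj_mem g hg σ₀⁻¹
      rwa [inv_inv] at this)
    refine ⟨y, ?_⟩
    rw [hw, ← map_smul, ← hy, ← baseChange_mul_apply, ← baseChange_mul_apply]
    congr 3
    group
  refine ⟨b, fun g hg => ?_, fun g hg => ?_⟩
  · rw [hb0, hb1]
    obtain ⟨x, hx⟩ := hGv g hg
    obtain ⟨y, hy⟩ := hGw g hg
    exact ⟨x, y, hx, hy⟩
  · rw [hb0, hb1]
    obtain ⟨y, hy⟩ := hGw (g * σ₀⁻¹) (hmul _ _ hg (hinv _ hσ₀))
    obtain ⟨x, hx⟩ := hGv (g * σ₀) (hmul _ _ hg hσ₀)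
    refine ⟨y, x, ?_, ?_⟩
    · rw [← hy, hw, ← baseChange_mul_apply]
      congr 3
      group
    · rw [← hx, hw, ← baseChange_mul_apply]

variable {ρ} {b : Module.Basis (Fin 2) K (K ⊗[k] V)}

theorem IsDih.trace_eq_zero (hb : IsDih ρ G b) [Module.Finite k V] {g : Γ} (hg : g ∉ G) :
    LinearMap.trace k V (ρ g) = 0 := by
  obtain ⟨x, y, h0, h1⟩ := hb.2 g hg
  have h2 : LinearMap.trace K _ ((ρ g).baseChange K) = 0 := by
    rw [LinearMap.trace_eq_matrix_trace K b, Matrix.trace_fin_two, LinearMap.toMatrix_apply,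
      LinearMap.toMatrix_apply, h0, h1]
    simp
  rw [LinearMap.trace_baseChange] at h2
  exact (map_eq_zero (algebraMap k K)).mp h2

theorem baseChange_inj {f g : Module.End k V} (h : f.baseChange K = g.baseChange K) : f = g :=
  LinearMap.baseChangeHom_injective k V K h

/-- unipotent elements are trivial -/
theorem IsDih.eq_one_of_isNilpotent (hb : IsDih ρ G b) (hV : Module.finrank k V = 2)
    (h2 : (2 : k) ≠ 0) {g : Γ} (hg : IsNilpotent (ρ g - 1)) : g ∈ G ∧ ρ g = 1 := by
  have hfin : Module.Finite k V := Module.finite_of_finrank_eq_succ hV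
  have hgG : g ∈ G := by
    by_contra hgG
    have h3 := hb.trace_eq_zero hgG
    have h4 := (LinearMap.isNilpotent_trace_of_isNilpotent hg).eq_zero
    rw [map_sub, h3, zero_sub, neg_eq_zero, LinearMap.trace_one, hV] at h4
    exact h2 (by exact_mod_cast h4)
  refine ⟨hgG, ?_⟩
  obtain ⟨x, y, h0, h1⟩ := hb.1 g hgG
  obtain ⟨n, hn⟩ := hg
  have hpow : ∀ (i : Fin 2) (z : K), (ρ g).baseChange K (b i) = z • b i → z = 1 := by
    intro i z hz
    have h3 : ∀ m : ℕ, ((ρ g - 1) ^ m).baseChange K (b i) = (z - 1) ^ m • b i := by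
      intro m
      induction m with
      | zero => simp
      | succ m ih =>
        rw [pow_succ', LinearMap.baseChange_mul, Module.End.mul_apply, ih, map_smul,
          LinearMap.baseChange_sub, LinearMap.sub_apply, hz, LinearMap.baseChange_one,
          Module.End.one_apply, pow_succ, mul_smul, sub_smul, one_smul]
    have h4 := h3 n
    rw [hn, LinearMap.baseChange_zero, LinearMap.zero_apply] at h4
    have h5 := (smul_eq_zero.mp h4.symm).resolve_right (b.ne_zero i)
    exact sub_eq_zero.mp (eq_zero_of_pow_eq_zero h5)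
  apply baseChange_inj (K := K)
  rw [LinearMap.baseChange_one]
  refine b.ext fun i => ?_
  fin_cases i
  · have := hpow 0 x h0
    simp only [Fin.zero_eta, Fin.isValue, Module.End.one_apply]
    rw [h0, this, one_smul]
  · have := hpow 1 y h1
    simp only [Fin.mk_one, Fin.isValue, Module.End.one_apply]
    rw [h1, this, one_smul]

/-- the elements of `G` commute -/
theorem IsDih.commute (hb : IsDih ρ G b) {g h : Γ} (hg : g ∈ G) (hh : h ∈ G) :
    ρ g * ρ h = ρ h * ρ g := by
  obtain ⟨x, y, h0, h1⟩ := hb.1 g hg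
  obtain ⟨x', y', h0', h1'⟩ := hb.1 h hh
  apply baseChange_inj (K := K)
  rw [LinearMap.baseChange_mul, LinearMap.baseChange_mul]
  refine b.ext fun i => ?_
  fin_cases i
  · simp only [Fin.zero_eta, Fin.isValue, Module.End.mul_apply]
    rw [h0, h0', map_smul, map_smul, h0, h0', smul_comm]
  · simp only [Fin.mk_one, Fin.isValue, Module.End.mul_apply]
    rw [h1, h1', map_smul, map_smul, h1, h1', smul_comm]

end Dihedral

section Group

variable {Γ M : Type*} [Group Γ] [Group M]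

/-- a finite 2-group with a unique subgroup of index 2 is cyclic -/
theorem exists_zpow_eq (f : Γ →* M) [Finite f.range] {m : ℕ} (hcard : Nat.card f.range = 2 ^ m)
    (G : Subgroup Γ) (huniq : ∀ G' : Subgroup Γ, f.ker ≤ G' → G'.index = 2 → G' = G) {h : Γ}
    (hh : h ∉ G) (σ : Γ) : ∃ n : ℤ, f σ = f h ^ n := by
  let Z : Subgroup f.range := Subgroup.zpowers (f.rangeRestrict h)
  have hZ : Z = ⊤ := by
    by_contra hne
    have hdvd : Nat.card Z ∣ 2 ^ m := hcard ▸ Subgroup.card_subgroup_dvd_card Z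
    obtain ⟨n, hnm, hn⟩ := (Nat.dvd_prime_pow Nat.prime_two).mp hdvd
    have hlt : n < m := by
      rcases lt_or_eq_of_le hnm with h1 | h1
      · exact h1
      · exfalso
        apply hne
        exact Subgroup.eq_top_of_card_eq Z (by rw [hn, hcard, h1])
    obtain ⟨K, hK, hZK⟩ := Sylow.exists_subgroup_card_pow_prime_le 2 (n := n) (m := m - 1)
      (by rw [hcard]; exact pow_dvd_pow 2 (Nat.sub_le m 1)) Z hn (by omega)
    have hidx : K.index = 2 := by
      have h1 := Subgroup.card_mul_index K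
      rw [hK, hcard] at h1
      have h2 : 2 ^ m = 2 ^ (m - 1) * 2 := by rw [← pow_succ]; congr 1; omega
      rw [h2] at h1
      exact Nat.eq_of_mul_eq_mul_left (by positivity) h1
    have h3 : (K.comap f.rangeRestrict).index = 2 := by
      rw [Subgroup.index_comap_of_surjective K f.rangeRestrict_surjective, hidx]
    have h4 := huniq (K.comap f.rangeRestrict) (fun x hx => by
      rw [Subgroup.mem_comap]
      have : f.rangeRestrict x = 1 := Subtype.ext hx
      rw [this]; exact K.one_mem) h3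
    apply hh
    rw [← h4, Subgroup.mem_comap]
    exact hZK (Subgroup.mem_zpowers _)
  have h5 : f.rangeRestrict σ ∈ Z := by rw [hZ]; trivial
  obtain ⟨n, hn⟩ := Subgroup.mem_zpowers_iff.mp h5
  refine ⟨n, ?_⟩
  have := congrArg Subtype.val hn
  rw [← f.coe_rangeRestrict σ, ← this]
  simp

end Group

section Core

variable {p : ℕ} [hp : Fact p.Prime] {V Γ : Type*} [AddCommGroup V] [Module (ZMod p) V] [Group Γ]

theorem exists_eig {k V : Type*} [Field k] [AddCommGroup V] [Module k V] (h2 : (2 : k) ≠ 0)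
    {b : Module.Basis (Fin 2) k V} {C T : Module.End k V} (h0 : C (b 0) = b 0)
    (h1 : C (b 1) = - b 1) (hCT : C * T = T * C) :
    ∃ x y : k, T (b 0) = x • b 0 ∧ T (b 1) = y • b 1 := by
  have hC : ∀ v, C (T v) = T (C v) := fun v => by
    have := LinearMap.congr_fun hCT v
    exact this
  have key : ∀ v : V, C v = b.repr v 0 • b 0 - b.repr v 1 • b 1 := by
    intro v
    conv_lhs => rw [← b.sum_repr v]
    rw [Fin.sum_univ_two, map_add, map_smul, map_smul, h0, h1, smul_neg, sub_eq_add_neg]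
  have hsum : ∀ v : V, v = b.repr v 0 • b 0 + b.repr v 1 • b 1 := fun v => by
    conv_lhs => rw [← b.sum_repr v]
    rw [Fin.sum_univ_two]
  refine ⟨b.repr (T (b 0)) 0, b.repr (T (b 1)) 1, ?_, ?_⟩
  · have h3 := hC (b 0)
    rw [h0, key] at h3
    have h4 := congrArg (fun v => b.repr v 1) h3
    simp only [map_sub, map_smul, Module.Basis.repr_self, Finsupp.sub_apply, Finsupp.smul_apply,
      Finsupp.single_eq_same, smul_eq_mul, mul_one] at h4
    rw [Finsupp.single_eq_of_ne (by decide), mul_zero, zero_sub] at h4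
    have h5 : b.repr (T (b 0)) 1 = 0 := by
      have : (2 : k) * b.repr (T (b 0)) 1 = 0 := by linear_combination -h4
      exact (mul_eq_zero.mp this).resolve_left h2
    conv_lhs => rw [hsum (T (b 0)), h5, zero_smul, add_zero]
  · have h3 := hC (b 1)
    rw [h1, key, map_neg] at h3
    have h4 := congrArg (fun v => b.repr v 0) h3
    simp only [map_sub, map_smul, map_neg, Module.Basis.repr_self, Finsupp.sub_apply,
      Finsupp.smul_apply, Finsupp.neg_apply,
      Finsupp.single_eq_same, smul_eq_mul, mul_one] at h4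
    rw [Finsupp.single_eq_of_ne (by decide), mul_zero, sub_zero] at h4
    have h5 : b.repr (T (b 1)) 0 = 0 := by
      have : (2 : k) * b.repr (T (b 1)) 0 = 0 := by linear_combination h4
      exact (mul_eq_zero.mp this).resolve_left h2
    conv_lhs => rw [hsum (T (b 1)), h5, zero_smul, zero_add]

theorem pow_eq_one_of_eig {b : Module.Basis (Fin 2) (ZMod p) V} {T T' : Module.End (ZMod p) V}
    (hT : T' * T = 1) (h : ∃ x y : ZMod p, T (b 0) = x • b 0 ∧ T (b 1) = y • b 1) :
    T ^ (p - 1) = 1 := by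
  obtain ⟨x, y, hx, hy⟩ := h
  have hpow : ∀ (i : Fin 2) (z : ZMod p), T (b i) = z • b i → (T ^ (p - 1)) (b i) = b i := by
    intro i z hz
    have hz0 : z ≠ 0 := by
      rintro rfl
      have h1 := LinearMap.congr_fun hT (b i)
      rw [Module.End.mul_apply, hz, zero_smul, map_zero, Module.End.one_apply] at h1
      exact b.ne_zero i h1.symm
    have h3 : ∀ m : ℕ, (T ^ m) (b i) = z ^ m • b i := by
      intro m
      induction m with
      | zero => simp
      | succ m ih =>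
        rw [pow_succ', Module.End.mul_apply, ih, map_smul, hz, smul_smul, ← pow_succ]
    rw [h3, ZMod.pow_card_sub_one_eq_one hz0, one_smul]
  refine b.ext fun i => ?_
  fin_cases i
  · exact hpow 0 x hx
  · exact hpow 1 y hy

theorem pow_48 {V : Type*} [AddCommGroup V] [Module (ZMod 3) V]
    (hV : Module.finrank (ZMod 3) V = 2) (u : (Module.End (ZMod 3) V)ˣ) : u ^ 48 = 1 := by
  have hfin : Module.Finite (ZMod 3) V := Module.finite_of_finrank_eq_succ hV
  let b := Module.finBasisOfFinrankEq (ZMod 3) V hV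
  let e : (Module.End (ZMod 3) V)ˣ ≃* (Matrix (Fin 2) (Fin 2) (ZMod 3))ˣ :=
    Units.mapEquiv (LinearMap.toMatrixAlgEquiv b).toMulEquiv
  have h1 : Nat.card (Matrix (Fin 2) (Fin 2) (ZMod 3))ˣ = 48 := by
    have : Fact (Nat.Prime 3) := ⟨Nat.prime_three⟩
    have h2 := Matrix.card_GL_field (𝔽 := ZMod 3) 2
    rw [Fin.prod_univ_two] at h2
    simp only [ZMod.card] at h2
    exact h2
  have h2 : Nat.card (Module.End (ZMod 3) V)ˣ = 48 := by rw [Nat.card_congr e.toEquiv, h1]
  rw [← h2]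
  exact pow_card_eq_one'

/-- all elements of the image commute => contradiction with irreducibility -/
theorem false_of_commute {k V Γ : Type*} [Field k] [AddCommGroup V] [Module k V] [Group Γ]
    (h2 : (2 : k) ≠ 0) (hV : Module.finrank k V = 2) (ρ : Γ →* Module.End k V)
    (hirr : ∀ W : Submodule k V, (∀ σ, ∀ x ∈ W, ρ σ x ∈ W) → W = ⊥ ∨ W = ⊤)
    (c : Γ) (hc : ρ c * ρ c = 1) (hdet : LinearMap.det (ρ c) = -1)
    (hcomm : ∀ σ, ρ c * ρ σ = ρ σ * ρ c) : False := by
  obtain ⟨b, h0, h1⟩ := H87.AbsIrr.exists_eigenbasis h2 hV (ρ c) hc hdet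
  have hst : ∀ σ, ∀ x ∈ Submodule.span k {b 0}, ρ σ x ∈ Submodule.span k {b 0} := by
    intro σ x hx
    obtain ⟨a, rfl⟩ := Submodule.mem_span_singleton.mp hx
    obtain ⟨y, -, hy, -⟩ := exists_eig h2 h0 h1 (hcomm σ)
    rw [map_smul, hy]
    exact Submodule.smul_mem _ _ (Submodule.smul_mem _ _ (Submodule.mem_span_singleton_self _))
  rcases hirr _ hst with h | h
  · rw [Submodule.span_singleton_eq_bot] at h
    exact b.ne_zero 0 h
  · have hj : b 1 ∈ Submodule.span k {b 0} := by rw [h]; exact Submodule.mem_top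
    obtain ⟨a, ha⟩ := Submodule.mem_span_singleton.mp hj
    have h3 := congrArg (fun v => b.repr v 1) ha
    simp only [map_smul, Module.Basis.repr_self, Finsupp.smul_apply, Finsupp.single_eq_same,
      Finsupp.single_eq_of_ne (show (1 : Fin 2) ≠ 0 by decide), smul_zero] at h3
    exact one_ne_zero h3.symm

/-- The quadratic character of the determinant. -/
noncomputable def qdet (ρ : Γ →* Module.End (ZMod p) V) : Γ →* ℤˣ :=
  ((quadraticChar (ZMod p)).toMonoidHom.comp
    ((LinearMap.det : Module.End (ZMod p) V →* ZMod p).comp ρ)).toHomUnits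

theorem qdet_apply (ρ : Γ →* Module.End (ZMod p) V) (σ : Γ) :
    ((qdet ρ σ : ℤˣ) : ℤ) = quadraticChar (ZMod p) (LinearMap.det (ρ σ)) := rfl

theorem index_ker_qdet (ρ : Γ →* Module.End (ZMod p) V) {τ : Γ} (hτ : qdet ρ τ ≠ 1) :
    (qdet ρ).ker.index = 2 := by
  rw [Subgroup.index_ker]
  have h1 : Nat.card (qdet ρ).range ∣ 2 := by
    have := Subgroup.card_subgroup_dvd_card (qdet ρ).range
    have h2 : Nat.card ℤˣ = 2 := by rw [Nat.card_eq_fintype_card]; rfl
    rwa [h2] at this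
  rcases (Nat.dvd_prime Nat.prime_two).mp h1 with h | h
  · exfalso
    apply hτ
    have h3 := (Subgroup.card_eq_one.mp h)
    have h4 : qdet ρ τ ∈ (qdet ρ).range := ⟨τ, rfl⟩
    rw [h3] at h4
    exact Subgroup.mem_bot.mp h4
  · exact h

/-- **EC10, abstract form.** -/
theorem core {K : Type*} [Field K] [Algebra (ZMod p) K] (h35 : p = 3 ∨ p = 5)
    (hV : Module.finrank (ZMod p) V = 2) (ρ : Γ →* Module.End (ZMod p) V)
    (hirr : ∀ W : Submodule (ZMod p) V, (∀ σ, ∀ x ∈ W, ρ σ x ∈ W) → W = ⊥ ∨ W = ⊤)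
    (c : Γ) (hc : ρ c * ρ c = 1) (hdet : LinearMap.det (ρ c) = -1)
    (hτ : ∃ τ, qdet ρ τ ≠ 1)
    (S : Set Γ) (hS : ∀ σ ∈ S, IsNilpotent (ρ σ - 1))
    (huniq : ∀ G₁ G₂ : Subgroup Γ, G₁.index = 2 → G₂.index = 2 →
      (∀ σ, ρ σ = 1 → σ ∈ G₁) → (∀ σ, ρ σ = 1 → σ ∈ G₂) → S ⊆ G₁ → S ⊆ G₂ → G₁ = G₂)
    (G : Subgroup Γ) (hG : G.index = 2) (L : Submodule K (K ⊗[ZMod p] V))
    (hL : ∀ σ ∈ G, ∀ x ∈ L, (ρ σ).baseChange K x ∈ L) : L = ⊥ ∨ L = ⊤ := by
  have h2 : (2 : ZMod p) ≠ 0 := by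
    have h : ¬ ((2 : ℕ) : ZMod p) = 0 := by
      rw [ZMod.natCast_eq_zero_iff]
      rcases h35 with rfl | rfl <;> norm_num
    exact_mod_cast h
  by_contra hcon
  push Not at hcon
  obtain ⟨B, hB⟩ := exists_dih ρ (K := K) hV hG (fun W hW =>
    H87.AbsIrr.stable_baseChange h2 hV ρ hirr c hc hdet W hW) L hL hcon.1 hcon.2
  have hfin : Module.Finite (ZMod p) V := Module.finite_of_finrank_eq_succ hV
  have hkerG : ∀ σ, ρ σ = 1 → σ ∈ G := fun σ hσ =>
    (hB.eq_one_of_isNilpotent hV h2 (by rw [hσ, sub_self]; exact IsNilpotent.zero)).1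
  have hS1 : ∀ σ ∈ S, ρ σ = 1 := fun σ hσ => (hB.eq_one_of_isNilpotent hV h2 (hS σ hσ)).2
  have huniq' : ∀ G' : Subgroup Γ, (∀ σ, ρ σ = 1 → σ ∈ G') → G'.index = 2 → G' = G :=
    fun G' hk h => huniq G' G h hG hk hkerG (fun σ hσ => hk σ (hS1 σ hσ))
      (fun σ hσ => hkerG σ (hS1 σ hσ))
  -- the group `ρ(Γ)` is a 2-group
  have hinv : ∀ σ, ρ σ⁻¹ * ρ σ = 1 := fun σ => by rw [← map_mul, inv_mul_cancel, map_one]
  have h2grp : ∀ σ, ∃ m : ℕ, ρ σ ^ 2 ^ m = 1 := by
    intro σ
    rcases h35 with rfl | rfl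
    · -- p = 3
      have h48 : ρ σ ^ 48 = 1 := by
        have := congrArg Units.val (pow_48 hV (ρ.toHomUnits σ))
        simpa using this
      have h3 : ρ (σ ^ 16) ^ 3 = 1 := by rw [← map_pow, ← pow_mul, map_pow]; exact h48
      have h4 : (ρ (σ ^ 16) - 1) ^ 3 = 0 := by
        have h5 : (ρ (σ ^ 16) - 1) ^ 3 = ρ (σ ^ 16) ^ 3 - 1 -
            (3 : ZMod 3) • (ρ (σ ^ 16) ^ 2 - ρ (σ ^ 16)) := by
          have : (3 : ZMod 3) • (ρ (σ ^ 16) ^ 2 - ρ (σ ^ 16)) =
              (3 : ℕ) • (ρ (σ ^ 16) ^ 2 - ρ (σ ^ 16)) := by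
            rw [← Nat.cast_smul_eq_nsmul (ZMod 3)]; rfl
          rw [this]
          noncomm_ring
        rw [h5, h3, sub_self, zero_sub, show (3 : ZMod 3) = 0 from rfl, zero_smul, neg_zero]
      have h6 := (hB.eq_one_of_isNilpotent hV h2 ⟨3, h4⟩).2
      refine ⟨4, ?_⟩
      rw [map_pow] at h6
      exact h6
    · -- p = 5
      obtain ⟨τ, hτ⟩ := hτ
      have hG' : (qdet ρ).ker = G := by
        refine huniq' _ (fun σ hσ => ?_) (index_ker_qdet ρ hτ)
        rw [MonoidHom.mem_ker]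
        refine Units.ext ?_
        rw [qdet_apply, hσ, map_one, map_one]; rfl
      have hcG : c ∈ G := by
        rw [← hG', MonoidHom.mem_ker]
        refine Units.ext ?_
        rw [qdet_apply, hdet]
        have h3 : (-1 : ZMod 5) = 2 ^ 2 := by
          have h5 : ((5 : ℕ) : ZMod 5) = 0 := ZMod.natCast_self 5
          push_cast at h5
          linear_combination -h5
        rw [h3]
        exact quadraticChar_sq_one' h2
      obtain ⟨b, h0, h1⟩ := H87.AbsIrr.exists_eigenbasis h2 hV (ρ c) hc hdet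
      have h4 : ∀ g ∈ G, ρ g ^ 4 = 1 := fun g hg =>
        pow_eq_one_of_eig (p := 5) (hinv g) (exists_eig h2 h0 h1 (hB.commute hcG hg))
      refine ⟨3, ?_⟩
      have h5 : σ * σ ∈ G := (Subgroup.mul_mem_iff_of_index_two hG).mpr Iff.rfl
      have h6 := h4 _ h5
      rw [map_mul, ← sq, ← pow_mul] at h6
      exact h6
  let f : Γ →* (Module.End (ZMod p) V)ˣ := ρ.toHomUnits
  have hf : ∀ σ, (f σ : Module.End (ZMod p) V) = ρ σ := fun σ => rfl
  have hfinV : Finite V := Module.finite_of_finite (ZMod p)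
  have hfinE : Finite (Module.End (ZMod p) V) := Finite.of_injective _ DFunLike.coe_injective
  have hfinU : Finite (Module.End (ZMod p) V)ˣ := inferInstance
  have hpg : IsPGroup 2 f.range := by
    rintro ⟨_, σ, rfl⟩
    obtain ⟨m, hm⟩ := h2grp σ
    refine ⟨m, Subtype.ext (Units.ext ?_)⟩
    exact hm
  obtain ⟨m, hm⟩ := IsPGroup.iff_card.mp hpg
  have hne : G ≠ ⊤ := by
    intro h; rw [h, Subgroup.index_top] at hG; exact absurd hG (by norm_num)
  obtain ⟨h, hh⟩ : ∃ h, h ∉ G := by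
    by_contra h; push Not at h; exact hne (eq_top_iff.mpr fun σ _ => h σ)
  have hz := exists_zpow_eq f hm G (fun G' hk hi => huniq' G' (fun σ hσ => hk (by
    rw [MonoidHom.mem_ker]
    exact Units.ext hσ)) hi) hh
  refine false_of_commute h2 hV ρ hirr c hc hdet fun σ => ?_
  obtain ⟨n, hn⟩ := hz σ
  obtain ⟨n', hn'⟩ := hz c
  have h7 : f c * f σ = f σ * f c := by
    rw [hn, hn', ← zpow_add, ← zpow_add, add_comm]
  exact congrArg Units.val h7

end Core

end Fermat.Agent.H73.TW
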