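import Fermat.Agent.H74C3c
import Fermat.Agent.H22ZK0b
import Fermat.Agent.H96TDef

/-!
# One variable: radial eigenfunctions on `H3` (helper74, package C3)

* `hat1 κ = ∫ κ (ch base x) * x.y`, `integral_ch_mul_y`, `hat1_eq` : `hat1 κ` is the value at
  spectral parameter zero `2 ∫_0^∞ A(u) du`, `A(u) = 2π ∫_{cosh u}^∞ κ`;
* `backward_one` : the backward theorem on `H3`;
* `backward_kap0` : the same with the hypothesis `eig` of `S47T.ICT`.
-/

set_option autoImplicit false
set_option linter.unusedSectionVars false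
set_option linter.style.haveILetI false

noncomputable section

open Filter Topology Set MeasureTheory Function
open scoped ContDiff

namespace Fermat.Agent.H74.C3

open Fermat.Agent Fermat.Agent.H3
open Fermat.Agent.H5Z (chv Rk)

/-- The eigenvalue of the radial kernel `κ` on the function `y`. -/
def hat1 (κ : ℝ → ℂ) : ℂ := ∫ x : H3, κ (ch base x) * (x.y : ℂ)

theorem integral_unit (g : (Unit → H3) → ℂ) : ∫ x, g x = ∫ x : H3, g fun _ => x := by
  have h := (volume_preserving_funUnique Unit H3).symm.integral_comp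
    (MeasurableEquiv.funUnique Unit H3).symm.measurableEmbedding g
  rw [← h]
  rfl

theorem hatv_unit (κ : ℝ → ℂ) : hatv (fun u : Unit → ℝ => κ (u ())) = hat1 κ := by
  rw [hatv_def, integral_unit, hat1]
  simp

theorem Rk_unit (κ : ℝ → ℂ) (F : H3 → ℂ) (w : Unit → H3) :
    Rk (fun u : Unit → ℝ => κ (u ())) (fun x => F (x ())) w =
      ∫ x : H3, κ (ch (w ()) x) * F x := by
  rw [Rk, integral_unit]
  rfl

/-- `R(κ) y = hat1 κ * y`. -/
theorem integral_ch_mul_y (κ : ℝ → ℂ) (w : H3) :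
    ∫ x : H3, κ (ch w x) * (x.y : ℂ) = hat1 κ * w.y := by
  have h := Rk_prod_y (fun u : Unit → ℝ => κ (u ())) (fun _ => w)
  rw [hatv_unit] at h
  have h1 : (prodY : (Unit → H3) → ℂ) = fun x => ((x ()).y : ℂ) := by
    funext x
    simp [prodY]
  rw [h1, Rk_unit κ (fun v => (v.y : ℂ)) (fun _ => w)] at h
  exact h

/-- Locally integrable functions on `H3` (in coordinates). -/
def LocInt1 (F : H3 → ℂ) : Prop := LocallyIntegrable (fun q : ℂ × ℝ => F (coord.symm q))

theorem locInt1_of_continuous {F : H3 → ℂ} (hF : Continuous F) : LocInt1 F :=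
  (hF.comp coord.symm.continuous).locallyIntegrable

theorem locInt1_of_bounded {F : H3 → ℂ} (hm : AEStronglyMeasurable F volume) {M : ℝ}
    (hM : ∀ w, ‖F w‖ ≤ M) : LocInt1 F := by
  have h1 : AEStronglyMeasurable (fun q : ℂ × ℝ => F (coord.symm q)) volume :=
    hm.comp_measurePreserving measurePreserving_coord_symm
  intro q
  refine ⟨Metric.ball q 1, Metric.ball_mem_nhds _ one_pos, ?_⟩
  refine ⟨h1.restrict, HasFiniteIntegral.restrict_of_bounded (C := M) measure_ball_lt_top ?_⟩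
  exact ae_of_all _ fun q => hM _

theorem LocInt1.unit {F : H3 → ℂ} (hF : LocInt1 F) : LocInt (fun x : Unit → H3 => F (x ())) := by
  have hmp := volume_preserving_funUnique Unit (ℂ × ℝ)
  intro q
  obtain ⟨U, hU, hUi⟩ := hF (q ())
  refine ⟨(fun q : Unit → ℂ × ℝ => q ()) ⁻¹' U,
    (continuous_apply ()).continuousAt hU, ?_⟩
  have h2 := (hmp.integrableOn_comp_preimage
    (MeasurableEquiv.funUnique Unit (ℂ × ℝ)).measurableEmbedding
    (f := fun q : ℂ × ℝ => F (coord.symm q)) (s := U)).mpr hUi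
  exact h2

/-- **Backward theorem on `H3`, real kernels.** -/
theorem backward_one {F : H3 → ℂ} (hF : LocInt1 F)
    (hE : ∀ κ : ℝ → ℝ, ContDiff ℝ ∞ κ → (∃ R : ℝ, ∀ u, R < u → κ u = 0) →
      ∀ w, ∫ x : H3, (κ (ch w x) : ℂ) * F x = hat1 (fun u => (κ u : ℂ)) * F w) :
    ContDiffOn ℝ ∞ (cf F) Up ∧ ∀ w, Lap F w = -F w := by
  have h := backward_real hF.unit (fun κs h1 h2 w => by
    have e : (fun u : Unit → ℝ => ((∏ j, κs j (u j) : ℝ) : ℂ)) =
        fun u : Unit → ℝ => (fun t : ℝ => ((κs () t : ℝ) : ℂ)) (u ()) := by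
      funext u
      simp
    rw [e, Rk_unit (fun t : ℝ => ((κs () t : ℝ) : ℂ)) F w,
      hatv_unit (fun t : ℝ => ((κs () t : ℝ) : ℂ))]
    exact hE (κs ()) (h1 ()) (h2 ()) (w ()))
  refine ⟨?_, fun w => ?_⟩
  · have h3 : ContDiff ℝ ∞ (fun p : ℂ × ℝ => (fun _ : Unit => p)) :=
      contDiff_pi.mpr fun _ => contDiff_id
    exact h.1.comp (f := fun p : ℂ × ℝ => (fun _ : Unit => p)) h3.contDiffOn
      fun p hp _ => hp
  · have h4 := h.2 () (fun _ => w)
    simpa using h4

/-! ### The eigenvalue in terms of the Abel transform -/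

theorem integrable_hat1 {κ : ℝ → ℂ} (hκ : Continuous κ) {R : ℝ} (hR : ∀ u, R < u → κ u = 0)
    (w : H3) {F : H3 → ℂ} (hF : LocInt1 F) :
    Integrable (fun x : H3 => κ (ch w x) * F x) := by
  rw [← measurePreserving_coord_symm.integrable_comp_emb
    coord.symm.measurableEmbedding]
  obtain ⟨s, hs, k, hk, hsk⟩ := compact_nbhd R (mem_Up w)
  have h0 : ∀ q, q ∉ k → κ (ch w (coord.symm q)) = 0 := by
    intro q hq
    have := hsk _ (mem_of_mem_nhds hs) q hq
    rw [pt_self] at this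
    exact hR _ this
  have hc : Continuous fun q : ℂ × ℝ => κ (ch w (coord.symm q)) :=
    hκ.comp (continuous_ch.comp (continuous_const.prodMk coord.symm.continuous))
  exact integrable_mul_of_compact hc hk h0 hF

/-- The eigenvalue in terms of the Abel transform. -/
theorem hat1_ofReal {κ : ℝ → ℝ} (hκ : Continuous κ) {R : ℝ} (hR : ∀ u, R < u → κ u = 0) :
    hat1 (fun u => (κ u : ℂ)) = (S47T.kap0 κ : ℂ) := by
  have hint := integrable_hat1 (κ := fun u => (κ u : ℂ)) (Complex.continuous_ofReal.comp hκ)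
    (R := R) (fun u hu => by simp [hR u hu]) base
    (locInt1_of_continuous (Complex.continuous_ofReal.comp continuous_y))
  have h1 := integral_eq (fun (z : ℂ) (y : ℝ) =>
    ((κ ((Complex.normSq (base.z - z) + base.y ^ 2 + y ^ 2) / (2 * base.y * y)) : ℝ) : ℂ) *
      (y : ℂ)) hint
  set A : ℝ → ℝ := fun u => 2 * Real.pi * ∫ t in Ioi (Real.cosh u), κ t with hA
  have h2 : hat1 (fun u => (κ u : ℂ)) =
      ∫ y in Ioi (0 : ℝ), ((y⁻¹ • A (Real.log y) : ℝ) : ℂ) := by
    refine (h1 : hat1 (fun u => (κ u : ℂ)) = _).trans ?_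
    refine setIntegral_congr_fun measurableSet_Ioi fun y hy => ?_
    have hy0 : (0 : ℝ) < y := hy
    have h3 := integral_horo κ base hy0
    simp only [ch] at h3
    have h4 : (base.y ^ 2 + y ^ 2) / (2 * base.y * y) = Real.cosh (Real.log y) := by
      rw [cosh_log_div base.pos hy0, base_y, one_div, Real.log_inv, Real.cosh_neg]
    rw [h4] at h3
    rw [integral_mul_const, integral_complex_ofReal, h3]
    simp only [hA, base_y, smul_eq_mul, Complex.real_smul]
    push_cast
    have hy' : (y : ℂ) ≠ 0 := by exact_mod_cast hy0.ne'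
    field_simp
  have h5 : ∫ y in Ioi (0 : ℝ), y⁻¹ • A (Real.log y) = ∫ t : ℝ, A t := by
    rw [H22Z.integral_Ioi_inv_smul (fun y => A (Real.log y))]
    simp only [Real.log_exp]
  have h6 := integral_comp_abs (f := A)
  have h7 : ∀ u : ℝ, A |u| = A u := fun u => by simp only [hA, Real.cosh_abs]
  simp only [h7] at h6
  rw [h2, integral_complex_ofReal, h5, h6]
  rfl

/-- The eigenvalue only depends on the values of `κ` on `[1, ∞)`. -/
theorem kap0_congr {κ κ' : ℝ → ℝ} (h : ∀ u, 1 ≤ u → κ u = κ' u) :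
    S47T.kap0 κ = S47T.kap0 κ' := by
  unfold S47T.kap0
  congr 1
  refine setIntegral_congr_fun measurableSet_Ioi fun u _ => ?_
  refine congrArg (fun x => 2 * Real.pi * x) ?_
  refine setIntegral_congr_fun measurableSet_Ioi fun t ht => ?_
  exact h t ((Real.one_le_cosh u).trans (le_of_lt ht))

/-- The cut-off below `1`. -/
def cutLow (κ : ℝ → ℝ) (u : ℝ) : ℝ := κ u * Real.smoothTransition (u + 1)

theorem cutLow_eq (κ : ℝ → ℝ) {u : ℝ} (hu : 0 ≤ u) : cutLow κ u = κ u := by
  rw [cutLow, Real.smoothTransition.one_of_one_le (by linarith), mul_one]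

theorem contDiff_cutLow {κ : ℝ → ℝ} (hκ : ContDiff ℝ ∞ κ) : ContDiff ℝ ∞ (cutLow κ) :=
  hκ.mul (Real.smoothTransition.contDiff.comp (contDiff_id.add contDiff_const))

theorem hasCompactSupport_cutLow {κ : ℝ → ℝ} {R : ℝ} (hR : ∀ u, R < u → κ u = 0) :
    HasCompactSupport (cutLow κ) := by
  refine HasCompactSupport.intro (isCompact_Icc (a := -1) (b := R)) fun u hu => ?_
  simp only [mem_Icc, not_and_or, not_le] at hu
  rcases hu with hu | hu
  · rw [cutLow, Real.smoothTransition.zero_of_nonpos (by linarith), mul_zero]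
  · rw [cutLow, hR u hu, zero_mul]

/-- An eigenfunction for all smooth compactly supported kernels is one for all smooth kernels which
vanish for large `u`. -/
theorem eig_of_compact {F : H3 → ℂ}
    (hE : ∀ κ : ℝ → ℝ, ContDiff ℝ ∞ κ → HasCompactSupport κ →
      ∀ w, ∫ w', (κ (ch w w') : ℂ) * F w' = S47T.kap0 κ * F w)
    {κ : ℝ → ℝ} (hκ : ContDiff ℝ ∞ κ) {R : ℝ} (hR : ∀ u, R < u → κ u = 0) (w : H3) :
    ∫ w', (κ (ch w w') : ℂ) * F w' = S47T.kap0 κ * F w := by
  have h1 := hE (cutLow κ) (contDiff_cutLow hκ) (hasCompactSupport_cutLow hR) w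
  have h2 : ∀ w' : H3, cutLow κ (ch w w') = κ (ch w w') := fun w' =>
    cutLow_eq κ (zero_le_one.trans (one_le_ch w w'))
  simp only [h2] at h1
  rw [h1, kap0_congr fun u hu => cutLow_eq κ (zero_le_one.trans hu)]

/-- **Backward theorem in the shape of `S47T.ICT.eig`.** -/
theorem backward_kap0 {F : H3 → ℂ} (hF : LocInt1 F)
    (hE : ∀ κ : ℝ → ℝ, ContDiff ℝ ∞ κ → HasCompactSupport κ →
      ∀ w, ∫ w', (κ (ch w w') : ℂ) * F w' = S47T.kap0 κ * F w) :
    ContDiffOn ℝ ∞ (cf F) Up ∧ ∀ w, Lap F w = -F w := by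
  refine backward_one hF fun κ hκ hR w => ?_
  obtain ⟨R, hR⟩ := hR
  rw [hat1_ofReal hκ.continuous hR]
  exact eig_of_compact hE hκ hR w

/-- The function `F` of (I-CT) is smooth and `Lap F = - F`. -/
theorem _root_.Fermat.Agent.S47T.ICT.smooth {N : ℕ} {c : S47T.Eis → ℝ} {F : H3 → ℂ}
    (h : S47T.ICT N c F) : ContDiffOn ℝ ∞ (cf F) Up ∧ ∀ w, Lap F w = -F w :=
  backward_kap0 (locInt1_of_continuous h.cont) h.eig

end Fermat.Agent.H74.C3
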