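import Fermat.Agent.H74C3a

/-!
# Integrals with a parameter (helper74, package C3)

`G(p) = ∫ K p x * f x` with `f` locally integrable, `K` jointly of class `C^n` and, locally in `p`,
supported in a compact set of `x`: `G` is of class `C^n`, and derivatives along lines, hence the
Laplace operator of `H3`, may be taken under the integral sign.
-/

set_option autoImplicit false
set_option linter.unusedSectionVars false

noncomputable section

open Filter Topology Set MeasureTheory Function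
open scoped ContDiff

namespace Fermat.Agent.H74.C3

open Fermat.Agent Fermat.Agent.H3

/-- Locally in the parameter `p ∈ Ω`, the kernel `K p` is supported in a fixed compact set. -/
def LocSupp {P G : Type*} [TopologicalSpace P] [TopologicalSpace G] (Ω : Set P)
    (K : P → G → ℂ) : Prop :=
  ∀ p₀ ∈ Ω, ∃ s ∈ 𝓝 p₀, ∃ k : Set G, IsCompact k ∧ ∀ p ∈ s, ∀ x, x ∉ k → K p x = 0

theorem LocSupp.comp {P P' G : Type*} [TopologicalSpace P] [TopologicalSpace P']
    [TopologicalSpace G] {Ω : Set P} {Ω' : Set P'} {K : P → G → ℂ} (h : LocSupp Ω K)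
    {φ : P' → P} (hφ : Continuous φ) (hm : MapsTo φ Ω' Ω) :
    LocSupp Ω' (fun p x => K (φ p) x) := by
  intro p₀ hp₀
  obtain ⟨s, hs, k, hk, h0⟩ := h (φ p₀) (hm hp₀)
  exact ⟨φ ⁻¹' s, hφ.continuousAt hs, k, hk, fun p hp x hx => h0 _ hp x hx⟩

section general

variable {P G : Type*} [NormedAddCommGroup P] [NormedSpace ℝ P] [NormedAddCommGroup G]
  [NormedSpace ℝ G] [MeasurableSpace G] [BorelSpace G] {μ : Measure G}

/-- Smoothness of an integral with a parameter, compact support independent of the parameter. -/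
theorem contDiffOn_integral_param {n : ℕ∞} {s : Set P} (hs : IsOpen s) {k : Set G}
    (hk : IsCompact k) {K : P → G → ℂ} (hK : ContDiffOn ℝ n (uncurry K) (s ×ˢ univ))
    (hsupp : ∀ p ∈ s, ∀ x, x ∉ k → K p x = 0) {f : G → ℂ} (hf : LocallyIntegrable f μ) :
    ContDiffOn ℝ n (fun p => ∫ x, K p x * f x ∂μ) s := by
  have h := contDiffOn_convolution_right_with_param_comp (μ := μ) (n := n)
    (L := ContinuousLinearMap.mul ℝ ℂ) (s := s) (v := fun _ => (0 : G)) contDiffOn_const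
    (f := f) (g := fun p x => K p (-x)) (k := -k) hs hk.neg
    (fun p x hp hx => hsupp p hp (-x) (by simpa using hx)) hf ?_
  · refine h.congr fun p hp => ?_
    simp only [convolution, ContinuousLinearMap.mul_apply', zero_sub, neg_neg]
    exact integral_congr_ae (ae_of_all _ fun x => mul_comm _ _)
  · have : (↿fun (p : P) (x : G) => K p (-x)) = (uncurry K) ∘ fun q : P × G => (q.1, -q.2) := rfl
    rw [this]
    refine hK.comp (contDiff_fst.prodMk contDiff_snd.neg).contDiffOn ?_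
    rintro ⟨p, x⟩ ⟨hp, -⟩
    exact ⟨hp, mem_univ _⟩

theorem contDiffOn_integral_loc {n : ℕ∞} {Ω : Set P} (hΩ : IsOpen Ω) {K : P → G → ℂ}
    (hK : ContDiffOn ℝ n (uncurry K) (Ω ×ˢ univ)) (hsupp : LocSupp Ω K) {f : G → ℂ}
    (hf : LocallyIntegrable f μ) :
    ContDiffOn ℝ n (fun p => ∫ x, K p x * f x ∂μ) Ω := by
  intro p₀ hp₀
  obtain ⟨s, hs, k, hk, h0⟩ := hsupp p₀ hp₀
  obtain ⟨U, hUs, hU, hpU⟩ := mem_nhds_iff.mp (inter_mem hs (hΩ.mem_nhds hp₀))
  have h := contDiffOn_integral_param (μ := μ) (n := n) hU hk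
    (hK.mono (prod_mono (fun x hx => (hUs hx).2) (subset_univ _)))
    (fun p hp x hx => h0 p (hUs hp).1 x hx) hf
  exact ((h p₀ hpU).contDiffAt (hU.mem_nhds hpU)).contDiffWithinAt

/-- The derivative of the kernel in the direction `v` of the parameter. -/
def DK (v : P) (K : P → G → ℂ) (p : P) (x : G) : ℂ := fderiv ℝ (uncurry K) (p, x) (v, 0)

theorem hasDerivAt_DK {Ω : Set P} (hΩ : IsOpen Ω) {K : P → G → ℂ}
    (hK : ContDiffOn ℝ 1 (uncurry K) (Ω ×ˢ univ)) (v p : P) (x : G) {t : ℝ}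
    (ht : p + t • v ∈ Ω) :
    HasDerivAt (fun t : ℝ => K (p + t • v) x) (DK v K (p + t • v) x) t := by
  have hd : DifferentiableAt ℝ (uncurry K) (p + t • v, x) :=
    (hK.differentiableOn (by norm_num)).differentiableAt
      ((hΩ.prod isOpen_univ).mem_nhds ⟨ht, mem_univ _⟩)
  have h1 : HasDerivAt (fun t : ℝ => (p + t • v, x)) (v, (0 : G)) t := by
    refine HasDerivAt.prodMk ?_ (hasDerivAt_const _ _)
    simpa using ((hasDerivAt_id t).smul_const v).const_add p
  exact hd.hasFDerivAt.comp_hasDerivAt t h1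

theorem contDiffOn_DK {m n : ℕ∞} (hmn : m + 1 ≤ n) {Ω : Set P} (hΩ : IsOpen Ω) {K : P → G → ℂ}
    (hK : ContDiffOn ℝ n (uncurry K) (Ω ×ˢ univ)) (v : P) :
    ContDiffOn ℝ m (uncurry (DK v K)) (Ω ×ˢ univ) := by
  have h := hK.fderiv_of_isOpen (hΩ.prod isOpen_univ) (m := m) (by exact_mod_cast hmn)
  exact h.clm_apply contDiffOn_const

theorem locSupp_DK {Ω : Set P} (hΩ : IsOpen Ω) {K : P → G → ℂ}
    (hK : ContDiffOn ℝ 1 (uncurry K) (Ω ×ˢ univ)) (hsupp : LocSupp Ω K) (v : P) :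
    LocSupp Ω (DK v K) := by
  intro p₀ hp₀
  obtain ⟨s, hs, k, hk, h0⟩ := hsupp p₀ hp₀
  obtain ⟨U, hUs, hU, hpU⟩ := mem_nhds_iff.mp (inter_mem hs (hΩ.mem_nhds hp₀))
  refine ⟨U, hU.mem_nhds hpU, k, hk, fun p hp x hx => ?_⟩
  have h1 := hasDerivAt_DK hΩ hK v p x (t := 0) (by simpa using (hUs hp).2)
  rw [zero_smul, add_zero] at h1
  have h2 : (fun t : ℝ => K (p + t • v) x) =ᶠ[𝓝 0] fun _ => 0 := by
    have hc : ContinuousAt (fun t : ℝ => p + t • v) 0 := by fun_prop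
    have := hc.preimage_mem_nhds (by simpa using hU.mem_nhds hp)
    filter_upwards [this] with t ht
    exact h0 _ (hUs ht).1 x hx
  exact h1.unique ((hasDerivAt_const (0 : ℝ) (0 : ℂ)).congr_of_eventuallyEq h2)

end general

section line

variable {G : Type*} [TopologicalSpace G] [T2Space G] [SecondCountableTopology G]
  [MeasurableSpace G] [BorelSpace G] {μ : Measure G}

theorem integrable_mul_of_compact {u f : G → ℂ} (hu : Continuous u) {k : Set G}
    (hk : IsCompact k) (h0 : ∀ x, x ∉ k → u x = 0) (hf : LocallyIntegrable f μ) :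
    Integrable (fun x => u x * f x) μ := by
  have h1 : IntegrableOn (fun x => u x * f x) k μ := by
    have h2 := (hf.integrableOn_isCompact hk)
    have h3 : IntegrableOn (fun x => f x * u x) k μ :=
      IntegrableOn.mul_continuousOn h2 hu.continuousOn hk
    simpa only [mul_comm] using h3
  refine (integrableOn_iff_integrable_of_support_subset ?_).mp h1
  intro x hx
  by_contra hxk
  exact hx (by simp [h0 x hxk])

/-- Differentiation of an integral with a real parameter, locally uniformly compact support. -/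
theorem hasDerivAt_integral_param {K K' : ℝ → G → ℂ} {t₀ : ℝ} {s : Set ℝ} (hs : s ∈ 𝓝 t₀)
    (hKc : ∀ t ∈ s, Continuous (K t))
    (hd : ∀ t ∈ s, ∀ x, HasDerivAt (fun t => K t x) (K' t x) t)
    (hK'c : ContinuousOn (uncurry K') (s ×ˢ univ)) {k : Set G} (hk : IsCompact k)
    (hsupp : ∀ t ∈ s, ∀ x, x ∉ k → K t x = 0) {f : G → ℂ} (hf : LocallyIntegrable f μ) :
    HasDerivAt (fun t => ∫ x, K t x * f x ∂μ) (∫ x, K' t₀ x * f x ∂μ) t₀ := by
  obtain ⟨r, hr, hrs⟩ := Metric.nhds_basis_closedBall.mem_iff.mp hs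
  obtain ⟨C, hC⟩ := ((isCompact_closedBall t₀ r).prod hk).exists_bound_of_continuousOn
    (hK'c.mono (prod_mono hrs (subset_univ _)))
  have hbs : Metric.ball t₀ r ⊆ s := fun t ht => hrs (Metric.ball_subset_closedBall ht)
  have hball : Metric.ball t₀ r ∈ 𝓝 t₀ := Metric.ball_mem_nhds _ hr
  have hzero : ∀ t ∈ Metric.ball t₀ r, ∀ x, x ∉ k → K' t x = 0 := by
    intro t ht x hx
    have h2 : (fun t : ℝ => K t x) =ᶠ[𝓝 t] fun _ => 0 := by
      filter_upwards [Metric.isOpen_ball.mem_nhds ht] with t' ht'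
      exact hsupp t' (hbs ht') x hx
    exact (hd t (hbs ht) x).unique ((hasDerivAt_const t (0 : ℂ)).congr_of_eventuallyEq h2)
  have ht₀ : t₀ ∈ s := mem_of_mem_nhds hs
  refine (hasDerivAt_integral_of_dominated_loc_of_deriv_le (μ := μ) (s := Metric.ball t₀ r)
    (F := fun t x => K t x * f x) (F' := fun t x => K' t x * f x)
    (bound := k.indicator fun x => C * ‖f x‖) hball ?_ ?_ ?_ ?_ ?_ ?_).2
  · filter_upwards [hball] with t ht
    exact (hKc t (hbs ht)).aestronglyMeasurable.mul hf.aestronglyMeasurable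
  · exact integrable_mul_of_compact (hKc t₀ ht₀) hk (hsupp t₀ ht₀) hf
  · have hc : Continuous (K' t₀) := by
      have h1 : ContinuousOn (fun x : G => uncurry K' (t₀, x)) univ :=
        hK'c.comp (by fun_prop) fun x _ => ⟨ht₀, mem_univ _⟩
      exact continuousOn_univ.mp h1
    exact hc.aestronglyMeasurable.mul hf.aestronglyMeasurable
  · refine ae_of_all _ fun x t ht => ?_
    by_cases hx : x ∈ k
    · rw [indicator_of_mem hx, norm_mul]
      exact mul_le_mul_of_nonneg_right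
        (hC (t, x) ⟨Metric.ball_subset_closedBall ht, hx⟩) (norm_nonneg _)
    · rw [indicator_of_notMem hx, hzero t ht x hx, zero_mul, norm_zero]
  · exact (integrable_indicator_iff hk.measurableSet).mpr
      ((hf.integrableOn_isCompact hk).norm.const_mul C)
  · refine ae_of_all _ fun x t ht => ?_
    exact (hd t (hbs ht) x).mul_const (f x)

end line

section lineDeriv

variable {P G : Type*} [NormedAddCommGroup P] [NormedSpace ℝ P] [NormedAddCommGroup G]
  [NormedSpace ℝ G] [SecondCountableTopology G] [MeasurableSpace G] [BorelSpace G]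
  {μ : Measure G}

theorem continuous_of_contDiffOn {n : WithTop ℕ∞} {Ω : Set P} {K : P → G → ℂ}
    (hK : ContDiffOn ℝ n (uncurry K) (Ω ×ˢ univ)) {p : P} (hp : p ∈ Ω) : Continuous (K p) := by
  have h1 : ContinuousOn (fun x : G => uncurry K (p, x)) univ :=
    hK.continuousOn.comp (by fun_prop) fun x _ => ⟨hp, mem_univ _⟩
  exact continuousOn_univ.mp h1

theorem integrable_kernel {n : WithTop ℕ∞} {Ω : Set P} {K : P → G → ℂ}
    (hK : ContDiffOn ℝ n (uncurry K) (Ω ×ˢ univ)) (hsupp : LocSupp Ω K) {f : G → ℂ}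
    (hf : LocallyIntegrable f μ) {p : P} (hp : p ∈ Ω) :
    Integrable (fun x => K p x * f x) μ := by
  obtain ⟨s, hs, k, hk, h0⟩ := hsupp p hp
  exact integrable_mul_of_compact (continuous_of_contDiffOn hK hp) hk
    (h0 p (mem_of_mem_nhds hs)) hf

/-- Line derivatives may be taken under the integral sign. -/
theorem hasLineDerivAt_integral {Ω : Set P} (hΩ : IsOpen Ω) {K : P → G → ℂ}
    (hK : ContDiffOn ℝ 1 (uncurry K) (Ω ×ˢ univ)) (hsupp : LocSupp Ω K) {f : G → ℂ}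
    (hf : LocallyIntegrable f μ) {p : P} (hp : p ∈ Ω) (v : P) :
    HasLineDerivAt ℝ (fun p => ∫ x, K p x * f x ∂μ) (∫ x, DK v K p x * f x ∂μ) p v := by
  obtain ⟨s, hs, k, hk, h0⟩ := hsupp p hp
  have hc : ContinuousAt (fun t : ℝ => p + t • v) 0 := by fun_prop
  have hmem : (fun t : ℝ => p + t • v) ⁻¹' (s ∩ Ω) ∈ 𝓝 (0 : ℝ) :=
    hc.preimage_mem_nhds (by simpa using inter_mem hs (hΩ.mem_nhds hp))
  have h := hasDerivAt_integral_param (μ := μ) (t₀ := 0) (K := fun t x => K (p + t • v) x)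
    (K' := fun t x => DK v K (p + t • v) x) hmem
    (fun t ht => continuous_of_contDiffOn hK ht.2)
    (fun t ht x => hasDerivAt_DK hΩ hK v p x ht.2) ?_ hk
    (fun t ht x hx => h0 _ ht.1 x hx) hf
  · simpa [HasLineDerivAt] using h
  · have h1 : ContinuousOn (uncurry (DK v K)) (Ω ×ˢ univ) :=
      (contDiffOn_DK (m := 0) (n := 1) (by norm_num) hΩ hK v).continuousOn
    refine h1.comp (f := fun q : ℝ × G => (p + q.1 • v, q.2)) (by fun_prop) ?_
    rintro ⟨t, x⟩ ⟨ht, -⟩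
    exact ⟨ht.2, mem_univ _⟩

theorem hasLineDerivAt_kernel {Ω : Set P} (hΩ : IsOpen Ω) {K : P → G → ℂ}
    (hK : ContDiffOn ℝ 1 (uncurry K) (Ω ×ˢ univ)) {p : P} (hp : p ∈ Ω) (v : P) (x : G) :
    HasLineDerivAt ℝ (fun p => K p x) (DK v K p x) p v := by
  have h1 := hasDerivAt_DK hΩ hK v p x (t := 0) (by simpa using hp)
  rwa [zero_smul, add_zero] at h1

/-- The second derivative in the direction `v`. -/
def DD (v : P) (F : P → ℂ) (p : P) : ℂ := lineDeriv ℝ (fun q => lineDeriv ℝ F q v) p v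

theorem DD_integral {Ω : Set P} (hΩ : IsOpen Ω) {K : P → G → ℂ}
    (hK : ContDiffOn ℝ 2 (uncurry K) (Ω ×ˢ univ)) (hsupp : LocSupp Ω K) {f : G → ℂ}
    (hf : LocallyIntegrable f μ) {p : P} (hp : p ∈ Ω) (v : P) :
    DD v (fun p => ∫ x, K p x * f x ∂μ) p = ∫ x, DK v (DK v K) p x * f x ∂μ := by
  have hK1 : ContDiffOn ℝ 1 (uncurry K) (Ω ×ˢ univ) := hK.of_le (by norm_num)
  have hK' : ContDiffOn ℝ 1 (uncurry (DK v K)) (Ω ×ˢ univ) :=
    contDiffOn_DK (m := 1) (n := 2) (by norm_num) hΩ hK v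
  have e : (fun q => lineDeriv ℝ (fun p => ∫ x, K p x * f x ∂μ) q v) =ᶠ[𝓝 p]
      fun q => ∫ x, DK v K q x * f x ∂μ := by
    filter_upwards [hΩ.mem_nhds hp] with q hq
    exact (hasLineDerivAt_integral hΩ hK1 hsupp hf hq v).lineDeriv
  rw [DD, e.lineDeriv_eq]
  exact (hasLineDerivAt_integral hΩ hK' (locSupp_DK hΩ hK1 hsupp v) hf hp v).lineDeriv

theorem DD_kernel {Ω : Set P} (hΩ : IsOpen Ω) {K : P → G → ℂ}
    (hK : ContDiffOn ℝ 2 (uncurry K) (Ω ×ˢ univ)) {p : P} (hp : p ∈ Ω) (v : P) (x : G) :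
    DD v (fun p => K p x) p = DK v (DK v K) p x := by
  have hK1 : ContDiffOn ℝ 1 (uncurry K) (Ω ×ˢ univ) := hK.of_le (by norm_num)
  have hK' : ContDiffOn ℝ 1 (uncurry (DK v K)) (Ω ×ˢ univ) :=
    contDiffOn_DK (m := 1) (n := 2) (by norm_num) hΩ hK v
  have e : (fun q => lineDeriv ℝ (fun p => K p x) q v) =ᶠ[𝓝 p] fun q => DK v K q x := by
    filter_upwards [hΩ.mem_nhds hp] with q hq
    exact (hasLineDerivAt_kernel hΩ hK1 hq v x).lineDeriv
  rw [DD, e.lineDeriv_eq]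
  exact (hasLineDerivAt_kernel hΩ hK' hp v x).lineDeriv

end lineDeriv

/-! ### The Laplace operator in terms of line derivatives -/

section Lap

variable {P : Type*} [NormedAddCommGroup P] [NormedSpace ℝ P]

theorem deriv_line (F : P → ℂ) (p v : P) :
    (deriv fun t : ℝ => F (p + t • v)) = fun t => lineDeriv ℝ F (p + t • v) v := by
  funext t
  have h := deriv_comp_const_add (f := fun s : ℝ => F (p + s • v)) t 0
  rw [add_zero] at h
  rw [lineDeriv, ← h]
  refine congrArg (fun g => deriv g (0 : ℝ)) ?_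
  funext s
  rw [add_smul, add_assoc]

theorem deriv_deriv_line (F : P → ℂ) (p v : P) (t : ℝ) :
    deriv (deriv fun t : ℝ => F (p + t • v)) t = DD v F (p + t • v) := by
  rw [deriv_line, deriv_line (fun q => lineDeriv ℝ F q v)]
  rfl

/-- A function on `H3` in coordinates. -/
def cf (F : H3 → ℂ) (p : ℂ × ℝ) : ℂ := F (pt p.1 p.2)

/-- The open half space. -/
def Up : Set (ℂ × ℝ) := {p | 0 < p.2}

theorem isOpen_Up : IsOpen Up := isOpen_lt continuous_const continuous_snd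

theorem mem_Up (w : H3) : (w.z, w.y) ∈ Up := w.pos

theorem dz1_eq (F : H3 → ℂ) (w : H3) : dz1 F w = DD ((1 : ℂ), (0 : ℝ)) (cf F) (w.z, w.y) := by
  have h := deriv_deriv_line (cf F) (w.z, w.y) ((1 : ℂ), (0 : ℝ)) 0
  rw [zero_smul, add_zero] at h
  rw [← h, dz1]
  simp [cf]

theorem dz2_eq (F : H3 → ℂ) (w : H3) :
    dz2 F w = DD (Complex.I, (0 : ℝ)) (cf F) (w.z, w.y) := by
  have h := deriv_deriv_line (cf F) (w.z, w.y) (Complex.I, (0 : ℝ)) 0
  rw [zero_smul, add_zero] at h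
  rw [← h, dz2]
  simp [cf]

theorem dyy_eq (F : H3 → ℂ) (w : H3) : dyy F w = DD ((0 : ℂ), (1 : ℝ)) (cf F) (w.z, w.y) := by
  have h := deriv_deriv_line (cf F) (w.z, 0) ((0 : ℂ), (1 : ℝ)) w.y
  have e : ((w.z, (0 : ℝ)) : ℂ × ℝ) + w.y • ((0 : ℂ), (1 : ℝ)) = (w.z, w.y) := by simp
  rw [e] at h
  rw [← h, dyy]
  simp [cf]

theorem dy_eq (F : H3 → ℂ) (w : H3) :
    dy F w = lineDeriv ℝ (cf F) (w.z, w.y) ((0 : ℂ), (1 : ℝ)) := by
  have h := congrFun (deriv_line (cf F) (w.z, 0) ((0 : ℂ), (1 : ℝ))) w.y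
  have e : ((w.z, (0 : ℝ)) : ℂ × ℝ) + w.y • ((0 : ℂ), (1 : ℝ)) = (w.z, w.y) := by simp
  simp only [e] at h
  rw [← h, dy]
  simp [cf]

theorem Lap_eq (F : H3 → ℂ) (w : H3) : Lap F w = (w.y : ℂ) ^ 2 *
    (DD ((1 : ℂ), (0 : ℝ)) (cf F) (w.z, w.y) + DD (Complex.I, (0 : ℝ)) (cf F) (w.z, w.y) +
      DD ((0 : ℂ), (1 : ℝ)) (cf F) (w.z, w.y)) -
    w.y * lineDeriv ℝ (cf F) (w.z, w.y) ((0 : ℂ), (1 : ℝ)) := by
  rw [Lap, dz1_eq, dz2_eq, dyy_eq, dy_eq]

variable {G : Type*} [NormedAddCommGroup G]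
  [NormedSpace ℝ G] [SecondCountableTopology G] [MeasurableSpace G] [BorelSpace G]
  {μ : Measure G}

/-- **The Laplace operator may be taken under the integral sign.** -/
theorem Lap_integral {k : H3 → G → ℂ}
    (hk : ContDiffOn ℝ 2 (uncurry fun (p : ℂ × ℝ) x => k (pt p.1 p.2) x) (Up ×ˢ univ))
    (hsupp : LocSupp Up fun (p : ℂ × ℝ) x => k (pt p.1 p.2) x) {f : G → ℂ}
    (hf : LocallyIntegrable f μ) (w : H3) :
    Lap (fun w => ∫ x, k w x * f x ∂μ) w = ∫ x, Lap (fun w => k w x) w * f x ∂μ := by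
  set K : ℂ × ℝ → G → ℂ := fun p x => k (pt p.1 p.2) x with hKdef
  have hK1 : ContDiffOn ℝ 1 (uncurry K) (Up ×ˢ univ) := hk.of_le (by norm_num)
  have e1 : cf (fun w => ∫ x, k w x * f x ∂μ) = fun p => ∫ x, K p x * f x ∂μ := rfl
  have e2 : ∀ x, cf (fun w => k w x) = fun p => K p x := fun x => rfl
  have hw := mem_Up w
  have hK' : ∀ v, ContDiffOn ℝ 1 (uncurry (DK v K)) (Up ×ˢ univ) := fun v =>
    contDiffOn_DK (m := 1) (n := 2) (by norm_num) isOpen_Up hk v
  have hK'' : ∀ v, ContDiffOn ℝ 0 (uncurry (DK v (DK v K))) (Up ×ˢ univ) := fun v =>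
    contDiffOn_DK (m := 0) (n := 1) (by norm_num) isOpen_Up (hK' v) v
  have hs' : ∀ v, LocSupp Up (DK v K) := fun v => locSupp_DK isOpen_Up hK1 hsupp v
  have hs'' : ∀ v, LocSupp Up (DK v (DK v K)) := fun v =>
    locSupp_DK isOpen_Up (hK' v) (hs' v) v
  have i1 : ∀ v, Integrable (fun x => DK v K (w.z, w.y) x * f x) μ := fun v =>
    integrable_kernel (hK' v) (hs' v) hf hw
  have i2 : ∀ v, Integrable (fun x => DK v (DK v K) (w.z, w.y) x * f x) μ := fun v =>
    integrable_kernel (hK'' v) (hs'' v) hf hw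
  rw [Lap_eq, e1, DD_integral isOpen_Up hk hsupp hf hw, DD_integral isOpen_Up hk hsupp hf hw,
    DD_integral isOpen_Up hk hsupp hf hw,
    (hasLineDerivAt_integral isOpen_Up hK1 hsupp hf hw _).lineDeriv]
  have e3 : ∀ x, Lap (fun w => k w x) w * f x = (w.y : ℂ) ^ 2 *
      (DK ((1 : ℂ), (0 : ℝ)) (DK ((1 : ℂ), (0 : ℝ)) K) (w.z, w.y) x * f x +
        DK (Complex.I, (0 : ℝ)) (DK (Complex.I, (0 : ℝ)) K) (w.z, w.y) x * f x +
        DK ((0 : ℂ), (1 : ℝ)) (DK ((0 : ℂ), (1 : ℝ)) K) (w.z, w.y) x * f x) -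
      w.y * (DK ((0 : ℂ), (1 : ℝ)) K (w.z, w.y) x * f x) := by
    intro x
    rw [Lap_eq, e2, DD_kernel isOpen_Up hk hw, DD_kernel isOpen_Up hk hw,
      DD_kernel isOpen_Up hk hw, (hasLineDerivAt_kernel isOpen_Up hK1 hw _ x).lineDeriv]
    ring
  simp_rw [e3]
  rw [integral_sub, integral_const_mul, integral_const_mul, integral_add, integral_add]
  · exact i2 _
  · exact i2 _
  · exact (i2 _).add (i2 _)
  · exact i2 _
  · exact (((i2 _).add (i2 _)).add (i2 _)).const_mul _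
  · exact (i1 _).const_mul _

end Lap

end Fermat.Agent.H74.C3
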