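import Mathlib

/-!
# Lifting projective / invertible modules along surjections with nilpotent kernel (S25-D6)
-/

set_option autoImplicit false
universe u v w

open TensorProduct

namespace Fermat.Agent.H74.Lift

/-! ## Nilpotent Nakayama -/

section Nak

variable {R : Type*} [CommRing R] {M : Type*} [AddCommGroup M] [Module R M]

theorem eq_top_of_sup {J : Ideal R} (hJ : IsNilpotent J) {N : Submodule R M}
    (h : (⊤ : Submodule R M) ≤ N ⊔ J • ⊤) : N = ⊤ := by
  obtain ⟨n, hn⟩ := hJ
  have key : ∀ k : ℕ, (⊤ : Submodule R M) ≤ N ⊔ J ^ k • ⊤ := by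
    intro k
    induction k with
    | zero => simp
    | succ k ih =>
      calc (⊤ : Submodule R M) ≤ N ⊔ J ^ k • ⊤ := ih
        _ ≤ N ⊔ J ^ k • (N ⊔ J • ⊤) := sup_le_sup_left (smul_mono_right _ h) _
        _ = N ⊔ (J ^ k • N ⊔ J ^ k • (J • (⊤ : Submodule R M))) := by rw [Submodule.smul_sup]
        _ ≤ N ⊔ J ^ (k + 1) • ⊤ := by
          rw [← Submodule.mul_smul, ← pow_succ]
          refine sup_le le_sup_left (sup_le (Submodule.smul_le_right.trans le_sup_left)
            le_sup_right)
  have := key n
  rw [hn] at this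
  simpa using this

theorem eq_bot_of_le_smul {J : Ideal R} (hJ : IsNilpotent J) {N : Submodule R M}
    (h : N ≤ J • N) : N = ⊥ := by
  obtain ⟨n, hn⟩ := hJ
  have key : ∀ k : ℕ, N ≤ J ^ k • N := by
    intro k
    induction k with
    | zero => simp
    | succ k ih =>
      calc N ≤ J ^ k • N := ih
        _ ≤ J ^ k • (J • N) := smul_mono_right _ h
        _ = J ^ (k + 1) • N := by rw [← Submodule.mul_smul, ← pow_succ]
  have := key n
  rw [hn] at this
  simpa using this

end Nak

/-! ## Reduction maps -/

section Red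

variable {R : Type*} (R' : Type*) [CommRing R] [CommRing R'] [Algebra R R']

/-- `f : F → P` is "reduction modulo the kernel of `R → R'`". -/
structure IsRed {F P : Type*} [AddCommGroup F] [Module R F] [AddCommGroup P] [Module R P]
    (f : F →ₗ[R] P) : Prop where
  surj : Function.Surjective f
  ker_le : ∀ x, f x = 0 → x ∈ (RingHom.ker (algebraMap R R')) • (⊤ : Submodule R F)

variable {R'}
variable {F P : Type*} [AddCommGroup F] [Module R F] [AddCommGroup P] [Module R P]
  [Module R' P] [IsScalarTower R R' P]

theorem smul_top_le_ker (f : F →ₗ[R] P) :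
    (RingHom.ker (algebraMap R R')) • (⊤ : Submodule R F) ≤ LinearMap.ker f := by
  rw [Submodule.smul_le]
  intro r hr n _
  rw [LinearMap.mem_ker, map_smul, ← algebraMap_smul R' r, RingHom.mem_ker.mp hr, zero_smul]

theorem IsRed.ker_eq {f : F →ₗ[R] P} (h : IsRed R' f) :
    LinearMap.ker f = (RingHom.ker (algebraMap R R')) • (⊤ : Submodule R F) :=
  le_antisymm (fun x hx => h.ker_le x hx) (smul_top_le_ker f)

theorem isBaseChange_of_isRed (hs : Function.Surjective (algebraMap R R')) {f : F →ₗ[R] P}
    (h : IsRed R' f) : IsBaseChange R' f := by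
  have one : ∀ z : R' ⊗[R] F, ∃ x : F, z = 1 ⊗ₜ x := by
    intro z
    induction z using TensorProduct.induction_on with
    | zero => exact ⟨0, by simp⟩
    | tmul r x =>
      obtain ⟨r, rfl⟩ := hs r
      refine ⟨r • x, ?_⟩
      rw [← TensorProduct.smul_tmul, Algebra.algebraMap_eq_smul_one]
    | add a b ha hb =>
      obtain ⟨x, rfl⟩ := ha
      obtain ⟨y, rfl⟩ := hb
      exact ⟨x + y, by rw [TensorProduct.tmul_add]⟩
  have hbij : Function.Bijective (f.liftBaseChange R') := by
    constructor
    · rw [injective_iff_map_eq_zero]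
      intro z hz
      obtain ⟨x, rfl⟩ := one z
      have hx : f x = 0 := by simpa using hz
      have hx' := h.ker_le x hx
      refine Submodule.smul_induction_on hx' ?_ ?_
      · intro r hr n _
        rw [← TensorProduct.smul_tmul, ← Algebra.algebraMap_eq_smul_one, RingHom.mem_ker.mp hr,
          TensorProduct.zero_tmul]
      · intro x y hx hy
        rw [TensorProduct.tmul_add, hx, hy, add_zero]
    · intro p
      obtain ⟨x, rfl⟩ := h.surj p
      exact ⟨1 ⊗ₜ x, by simp⟩
  exact IsBaseChange.of_equiv (LinearEquiv.ofBijective (f.liftBaseChange R') hbij) (by intro x; simp)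

theorem isRed_of_isBaseChange (hs : Function.Surjective (algebraMap R R')) {f : F →ₗ[R] P}
    (h : IsBaseChange R' f) : IsRed R' f := by
  constructor
  · intro p
    obtain ⟨z, rfl⟩ := h.equiv.surjective p
    induction z using TensorProduct.induction_on with
    | zero => exact ⟨0, by simp⟩
    | tmul r x =>
      obtain ⟨r, rfl⟩ := hs r
      refine ⟨r • x, ?_⟩
      rw [h.equiv_tmul, map_smul, algebraMap_smul]
    | add a b ha hb =>
      obtain ⟨x, hx⟩ := ha
      obtain ⟨y, hy⟩ := hb
      exact ⟨x + y, by rw [map_add, hx, hy, map_add]⟩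
  · intro x hx
    set J := RingHom.ker (algebraMap R R') with hJ
    have h0 : (1 : R') ⊗ₜ[R] x = 0 := by
      rw [← h.equiv_symm_apply, hx, map_zero]
    have hex : Function.Exact (J.subtype) (Algebra.linearMap R R') := by
      intro y
      constructor
      · intro hy
        exact ⟨⟨y, hy⟩, rfl⟩
      · rintro ⟨y, rfl⟩
        exact y.2
    have hsl : Function.Surjective (Algebra.linearMap R R') := hs
    have hEx := rTensor_exact F hex hsl
    have h1 : (Algebra.linearMap R R').rTensor F ((1 : R) ⊗ₜ[R] x) = 0 := by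
      simpa using h0
    obtain ⟨z, hz⟩ := (hEx _).mp h1
    have h2 : x = TensorProduct.lid R F ((J.subtype.rTensor F) z) := by
      rw [hz]; simp
    rw [h2]
    clear hz h2 h1 h0 hx
    induction z using TensorProduct.induction_on with
    | zero => simp
    | tmul r y =>
      simp only [LinearMap.rTensor_tmul, Submodule.subtype_apply, TensorProduct.lid_tmul]
      exact Submodule.smul_mem_smul r.2 trivial
    | add a b ha hb =>
      rw [map_add, map_add]
      exact Submodule.add_mem _ ha hb

theorem isBaseChange_iff_isRed (hs : Function.Surjective (algebraMap R R')) {f : F →ₗ[R] P} :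
    IsBaseChange R' f ↔ IsRed R' f :=
  ⟨isRed_of_isBaseChange hs, isBaseChange_of_isRed hs⟩

omit [Module R' P] [IsScalarTower R R' P] in
/-- A map between lifts which is bijective modulo a nilpotent ideal is bijective, when the
target is projective. -/
theorem bijective_of_isRed (hnil : IsNilpotent (RingHom.ker (algebraMap R R')))
    {F' P' : Type*} [AddCommGroup F'] [Module R F'] [AddCommGroup P'] [Module R P']
    [Module R' P'] [IsScalarTower R R' P'] [Module.Projective R F']
    {f : F →ₗ[R] P} {f' : F' →ₗ[R] P'} (h : IsRed R' f) (h' : IsRed R' f')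
    (φ : F →ₗ[R] F') (ψ : P → P') (hψ : Function.Bijective ψ) (hc : ∀ x, ψ (f x) = f' (φ x)) :
    Function.Bijective φ := by
  have hs : Function.Surjective φ := by
    rw [← LinearMap.range_eq_top]
    refine eq_top_of_sup hnil ?_
    intro y _
    obtain ⟨p, hp⟩ := hψ.2 (f' y)
    obtain ⟨x, rfl⟩ := h.surj p
    rw [hc] at hp
    have h3 : f' (y - φ x) = 0 := by rw [map_sub, hp, sub_self]
    have := h'.ker_le _ h3
    rw [show y = φ x + (y - φ x) by abel]
    exact Submodule.add_mem_sup ⟨x, rfl⟩ this
  refine ⟨?_, hs⟩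
  obtain ⟨g, hg⟩ := Module.projective_lifting_property φ LinearMap.id hs
  have hg' : ∀ y, φ (g y) = y := fun y => by
    simpa using congrArg (fun l => l y) hg
  have hψ0 : ψ 0 = 0 := by simpa using hc 0
  rw [← LinearMap.ker_eq_bot]
  refine eq_bot_of_le_smul hnil ?_
  intro x hx
  rw [LinearMap.mem_ker] at hx
  have h1 : f x = 0 := by
    apply hψ.1
    rw [hc, hx, map_zero, hψ0]
  have h2 := h.ker_le x h1
  have h3 : x = (LinearMap.id - g ∘ₗ φ : F →ₗ[R] F) x := by simp [hx]
  rw [h3]
  have h4 : Submodule.map (LinearMap.id - g ∘ₗ φ : F →ₗ[R] F)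
      (RingHom.ker (algebraMap R R') • ⊤) ≤
      RingHom.ker (algebraMap R R') • LinearMap.ker φ := by
    rw [Submodule.map_smul'']
    refine smul_mono_right _ ?_
    rintro _ ⟨y, -, rfl⟩
    rw [LinearMap.mem_ker]
    simp [hg']
  exact h4 (Submodule.mem_map_of_mem h2)

/-- lifting homomorphisms -/
theorem exists_lift_hom {F' P' : Type*} [AddCommGroup F'] [Module R F'] [AddCommGroup P']
    [Module R P'] [Module R' P'] [IsScalarTower R R' P'] [Module.Projective R F]
    {f : F →ₗ[R] P} {f' : F' →ₗ[R] P'} (h' : Function.Surjective f')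
    (ψ : P →ₗ[R'] P') : ∃ φ : F →ₗ[R] F', ∀ x, f' (φ x) = ψ (f x) := by
  obtain ⟨φ, hφ⟩ := Module.projective_lifting_property f' ((ψ.restrictScalars R) ∘ₗ f) h'
  exact ⟨φ, fun x => by simpa using congrArg (fun l => l x) hφ⟩

end Red

/-! ## Lifting projective modules -/

section Proj

variable {R : Type u} {R' : Type v} [CommRing R] [CommRing R'] [Algebra R R']

theorem mapMatrix_ker_nilpotent (hnil : IsNilpotent (RingHom.ker (algebraMap R R'))) {n : ℕ}
    (A : Matrix (Fin n) (Fin n) R)
    (hA : A ∈ RingHom.ker ((algebraMap R R').mapMatrix (m := Fin n))) : IsNilpotent A := by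
  obtain ⟨k, hk⟩ := hnil
  set J := RingHom.ker (algebraMap R R') with hJ
  have h0 : ∀ i j, A i j ∈ J := by
    intro i j
    rw [RingHom.mem_ker] at hA
    have := congrFun (congrFun hA i) j
    simpa [hJ, RingHom.mem_ker] using this
  have key : ∀ m : ℕ, ∀ i j, (A ^ m) i j ∈ J ^ m := by
    intro m
    induction m with
    | zero => intro i j; simp
    | succ m ih =>
      intro i j
      have h1 : (A ^ (m + 1)) i j = ∑ l, (A ^ m) i l * A l j := by
        rw [pow_succ, Matrix.mul_apply]
      rw [h1, pow_succ J]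
      exact Ideal.sum_mem _ fun l _ => Ideal.mul_mem_mul (ih i l) (h0 l j)
  refine ⟨k, ?_⟩
  ext i j
  have := key k i j
  rw [hk] at this
  simpa using this

/-- Finite projective modules lift along surjections with nilpotent kernel. -/
theorem exists_lift_projective (hs : Function.Surjective (algebraMap R R'))
    (hnil : IsNilpotent (RingHom.ker (algebraMap R R')))
    (P : Type w) [AddCommGroup P] [Module R P] [Module R' P] [IsScalarTower R R' P]
    [Module.Finite R' P] [Module.Projective R' P] :
    ∃ (F : Type u) (_ : AddCommGroup F) (_ : Module R F) (_ : Module.Finite R F)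
      (_ : Module.Projective R F) (f : F →ₗ[R] P), IsRed R' f := by
  obtain ⟨n, g, hg⟩ := Module.Finite.exists_fin' R' P
  obtain ⟨s, hsg⟩ := Module.projective_lifting_property g LinearMap.id hg
  have hgs : ∀ x, g (s x) = x := fun x => by simpa using congrArg (fun l => l x) hsg
  -- the idempotent
  let e' : Matrix (Fin n) (Fin n) R' := LinearMap.toMatrix' (s ∘ₗ g)
  have he' : IsIdempotentElem e' := by
    show e' * e' = e'
    rw [← LinearMap.toMatrix'_comp]
    congr 1
    ext x
    simp [hgs]
  have hmem : e' ∈ ((algebraMap R R').mapMatrix (m := Fin n)).range := by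
    choose a ha using hs
    refine ⟨Matrix.of fun i j => a (e' i j), ?_⟩
    ext i j
    rw [RingHom.mapMatrix_apply, Matrix.map_apply, Matrix.of_apply, ha]
  obtain ⟨e, he, hee'⟩ := exists_isIdempotentElem_eq_of_ker_isNilpotent
    ((algebraMap R R').mapMatrix (m := Fin n)) (fun x hx => mapMatrix_ker_nilpotent hnil x hx)
    e' hmem he'
  -- reduction of vectors
  let red : (Fin n → R) →ₗ[R] (Fin n → R') :=
    { toFun := fun x i => algebraMap R R' (x i)
      map_add' := by intro x y; ext i; simp
      map_smul' := by intro r x; ext i; simp [Algebra.smul_def] }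
  have hred : ∀ x, red (Matrix.mulVec e x) = s (g (red x)) := by
    intro x
    have : s (g (red x)) = Matrix.mulVec e' (red x) := by
      rw [← Matrix.toLin'_apply]
      simp [e']
    rw [this, ← hee']
    ext i
    simp [red, Matrix.mulVec, dotProduct, map_sum]
  have hredsurj : Function.Surjective red := by
    intro y
    choose a ha using hs
    exact ⟨fun i => a (y i), by ext i; simp [red, ha]⟩
  let E : (Fin n → R) →ₗ[R] (Fin n → R) := Matrix.toLin' e
  have hEE : ∀ x, E (E x) = E x := by
    intro x
    have : e * e = e := he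
    simp only [E, Matrix.toLin'_apply, Matrix.mulVec_mulVec, this]
  let F := LinearMap.range E
  have hproj : Module.Projective R F := by
    refine Module.Projective.of_split F.subtype (E.rangeRestrict) ?_
    ext x
    obtain ⟨_, y, rfl⟩ := x
    simp [hEE]
  let f : F →ₗ[R] P := (g.restrictScalars R) ∘ₗ red ∘ₗ F.subtype
  refine ⟨F, inferInstance, inferInstance, Module.Finite.range E, hproj, f, ?_, ?_⟩
  · intro p
    obtain ⟨x, hx⟩ := hredsurj (s p)
    refine ⟨⟨E x, ⟨x, rfl⟩⟩, ?_⟩
    show g (red (Matrix.toLin' e x)) = p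
    rw [Matrix.toLin'_apply, hred, hx, hgs, hgs]
  · rintro ⟨x, y, rfl⟩ hx
    have hx' : g (red (E y)) = 0 := hx
    have h1 : red (E y) = 0 := by
      have h2 := hred (E y)
      have h3 : Matrix.mulVec e (E y) = E y := by
        rw [← Matrix.toLin'_apply]; exact hEE y
      rw [h3, hx', map_zero] at h2
      exact h2
    -- every vector with zero reduction is in J • ⊤
    have h4 : E y ∈ (RingHom.ker (algebraMap R R')) • (⊤ : Submodule R (Fin n → R)) := by
      have h5 : E y = ∑ i, (E y) i • (Pi.single i (1 : R) : Fin n → R) := by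
        ext j
        simp [Pi.single_apply]
      rw [h5]
      refine Submodule.sum_mem _ fun i _ => Submodule.smul_mem_smul ?_ trivial
      rw [RingHom.mem_ker]
      exact congrFun h1 i
    have h6 : (⟨E y, ⟨y, rfl⟩⟩ : F) = E.rangeRestrict (E y) := by
      ext1
      simp [hEE]
    rw [h6]
    have h7 : Submodule.map E.rangeRestrict
        ((RingHom.ker (algebraMap R R')) • (⊤ : Submodule R (Fin n → R))) ≤
        (RingHom.ker (algebraMap R R')) • ⊤ := by
      rw [Submodule.map_smul'']
      exact smul_mono_right _ le_top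
    exact h7 (Submodule.mem_map_of_mem h4)

/-- Two finite projective lifts of mutually inverse modules are mutually inverse. -/
theorem exists_equiv_of_pairing (hs : Function.Surjective (algebraMap R R'))
    (hnil : IsNilpotent (RingHom.ker (algebraMap R R')))
    {P P₂ : Type*} [AddCommGroup P] [Module R P] [Module R' P] [IsScalarTower R R' P]
    [AddCommGroup P₂] [Module R P₂] [Module R' P₂] [IsScalarTower R R' P₂]
    (e : P ⊗[R'] P₂ ≃ₗ[R'] R')
    {F F₂ : Type*} [AddCommGroup F] [Module R F] [AddCommGroup F₂] [Module R F₂]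
    [Module.Projective R F] [Module.Projective R F₂]
    {f : F →ₗ[R] P} {f₂ : F₂ →ₗ[R] P₂} (hf : IsRed R' f) (hf₂ : IsRed R' f₂) :
    ∃ φ : F ⊗[R] F₂ ≃ₗ[R] R, ∀ x y, algebraMap R R' (φ (x ⊗ₜ y)) = e (f x ⊗ₜ f₂ y) := by
  have bf := isBaseChange_of_isRed hs hf
  have bf₂ := isBaseChange_of_isRed hs hf₂
  let ψ : R' ⊗[R] (F ⊗[R] F₂) ≃ₗ[R'] R' :=
    (TensorProduct.AlgebraTensorModule.distribBaseChange R R' F F₂) ≪≫ₗ
      (TensorProduct.congr bf.equiv bf₂.equiv) ≪≫ₗ e
  have hψ : ∀ x y, ψ (1 ⊗ₜ (x ⊗ₜ y)) = e (f x ⊗ₜ f₂ y) := by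
    intro x y
    simp [ψ, IsBaseChange.equiv_tmul]
  let mk : F ⊗[R] F₂ →ₗ[R] R' ⊗[R] (F ⊗[R] F₂) := TensorProduct.mk R R' (F ⊗[R] F₂) 1
  have hmk : IsBaseChange R' mk := TensorProduct.isBaseChange R (F ⊗[R] F₂) R'
  obtain ⟨φ, hφ⟩ := exists_lift_hom (R' := R') (f := mk) (f' := Algebra.linearMap R R') hs
    ψ.toLinearMap
  have hbij : Function.Bijective φ :=
    bijective_of_isRed hnil (f := mk) (f' := Algebra.linearMap R R')
      (isRed_of_isBaseChange hs hmk)
      (isRed_of_isBaseChange hs (IsBaseChange.linearMap R R')) φ ψ ψ.bijective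
      (fun x => (hφ x).symm)
  refine ⟨LinearEquiv.ofBijective φ hbij, fun x y => ?_⟩
  have := hφ (x ⊗ₜ y)
  rw [← hψ]
  exact this

/-- Invertible modules lift along surjections with nilpotent kernel. -/
theorem exists_lift_invertible (hs : Function.Surjective (algebraMap R R'))
    (hnil : IsNilpotent (RingHom.ker (algebraMap R R')))
    (P : Type w) [AddCommGroup P] [Module R P] [Module R' P] [IsScalarTower R R' P]
    [Module.Invertible R' P] :
    ∃ (F : Type u) (_ : AddCommGroup F) (_ : Module R F) (_ : Module.Invertible R F)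
      (f : F →ₗ[R] P), IsRed R' f := by
  obtain ⟨F, _, _, _, _, f, hf⟩ := exists_lift_projective hs hnil P
  obtain ⟨F₂, _, _, _, _, f₂, hf₂⟩ := exists_lift_projective hs hnil (Module.Dual R' P)
  obtain ⟨φ, -⟩ := exists_equiv_of_pairing hs hnil
    ((TensorProduct.comm R' P (Module.Dual R' P)) ≪≫ₗ Module.Invertible.linearEquiv R' P) hf hf₂
  exact ⟨F, inferInstance, inferInstance, Module.Invertible.left φ, f, hf⟩

/-- A finite projective lift of an invertible module is invertible. -/
theorem invertible_of_isRed (hs : Function.Surjective (algebraMap R R'))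
    (hnil : IsNilpotent (RingHom.ker (algebraMap R R')))
    {P : Type*} [AddCommGroup P] [Module R P] [Module R' P] [IsScalarTower R R' P]
    [Module.Invertible R' P] {F : Type*} [AddCommGroup F] [Module R F] [Module.Projective R F]
    {f : F →ₗ[R] P} (hf : IsRed R' f) : Module.Invertible R F := by
  obtain ⟨F₂, _, _, _, _, f₂, hf₂⟩ := exists_lift_projective hs hnil (Module.Dual R' P)
  obtain ⟨φ, -⟩ := exists_equiv_of_pairing hs hnil
    ((TensorProduct.comm R' P (Module.Dual R' P)) ≪≫ₗ Module.Invertible.linearEquiv R' P) hf hf₂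
  exact Module.Invertible.left φ

end Proj

end Fermat.Agent.H74.Lift
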