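import Mathlib

/-!
# Sieve for binary quartic forms, part 1: roots modulo `p ^ 2`
-/

set_option linter.style.haveILetI false

namespace Fermat.Agent.H74.Sv

open Polynomial

/-- a binary quartic form -/
def qf (a0 a1 a2 a3 a4 l m : ℤ) : ℤ :=
  a0 * l ^ 4 + a1 * l ^ 3 * m + a2 * l ^ 2 * m ^ 2 + a3 * l * m ^ 3 + a4 * m ^ 4

/-- the dehomogenised polynomial -/
noncomputable def qp (a0 a1 a2 a3 a4 : ℤ) : Polynomial ℤ :=
  C a0 * X ^ 4 + C a1 * X ^ 3 + C a2 * X ^ 2 + C a3 * X + C a4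

lemma natDegree_qp_le (a0 a1 a2 a3 a4 : ℤ) : (qp a0 a1 a2 a3 a4).natDegree ≤ 4 := by
  unfold qp; compute_degree

lemma coeff_qp (a0 a1 a2 a3 a4 : ℤ) : (qp a0 a1 a2 a3 a4).coeff 4 = a0 := by
  unfold qp
  simp only [coeff_add, coeff_C_mul, coeff_X_pow, coeff_X, coeff_C]
  norm_num

lemma eval_map_qp {R : Type*} [CommRing R] (a0 a1 a2 a3 a4 : ℤ) (x : R) :
    ((qp a0 a1 a2 a3 a4).map (Int.castRingHom R)).eval x =
      a0 * x ^ 4 + a1 * x ^ 3 + a2 * x ^ 2 + a3 * x + a4 := by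
  simp [qp]

lemma cast_qf {R : Type*} [CommRing R] (a0 a1 a2 a3 a4 l m : ℤ) (x : R) (h : (l : R) = x * m) :
    ((qf a0 a1 a2 a3 a4 l m : ℤ) : R) =
      ((qp a0 a1 a2 a3 a4).map (Int.castRingHom R)).eval x * (m : R) ^ 4 := by
  rw [eval_map_qp, qf]
  push_cast
  rw [h]
  ring

/-- Bezout identity with integral coefficients. -/
lemma exists_bezout {f : Polynomial ℤ} (hf : (f.map (Int.castRingHom ℚ)).Separable) :
    ∃ (U V : Polynomial ℤ) (c : ℤ), c ≠ 0 ∧ U * f + V * derivative f = C c := by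
  obtain ⟨u, v, huv⟩ := hf
  obtain ⟨b, hb, hb'⟩ := IsLocalization.integerNormalization_spec (nonZeroDivisors ℤ) u
  obtain ⟨d, hd, hd'⟩ := IsLocalization.integerNormalization_spec (nonZeroDivisors ℤ) v
  set U := IsLocalization.integerNormalization (nonZeroDivisors ℤ) u with hU
  set V := IsLocalization.integerNormalization (nonZeroDivisors ℤ) v with hV
  have hU' : U.map (Int.castRingHom ℚ) = C (b : ℚ) * u := by
    rw [show Int.castRingHom ℚ = algebraMap ℤ ℚ from rfl, hb', ← smul_eq_C_mul,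
      Int.cast_smul_eq_zsmul]
  have hV' : V.map (Int.castRingHom ℚ) = C (d : ℚ) * v := by
    rw [show Int.castRingHom ℚ = algebraMap ℤ ℚ from rfl, hd', ← smul_eq_C_mul,
      Int.cast_smul_eq_zsmul]
  refine ⟨C d * U, C b * V, b * d, mul_ne_zero (nonZeroDivisors.ne_zero hb)
    (nonZeroDivisors.ne_zero hd), ?_⟩
  apply Polynomial.map_injective (Int.castRingHom ℚ) (RingHom.injective_int _)
  rw [Polynomial.map_add, Polynomial.map_mul, Polynomial.map_mul, Polynomial.map_mul,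
    Polynomial.map_mul, hU', hV', ← derivative_map, Polynomial.map_C, Polynomial.map_C,
    Polynomial.map_C, map_mul]
  change C (d : ℚ) * (C (b : ℚ) * u) * map (Int.castRingHom ℚ) f +
    C (b : ℚ) * (C (d : ℚ) * v) * derivative (map (Int.castRingHom ℚ) f) =
      C ((b : ℚ) * (d : ℚ))
  rw [show C (d : ℚ) * (C (b : ℚ) * u) * map (Int.castRingHom ℚ) f +
    C (b : ℚ) * (C (d : ℚ) * v) * derivative (map (Int.castRingHom ℚ) f) =
    C (b : ℚ) * C (d : ℚ) * (u * map (Int.castRingHom ℚ) f +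
      v * derivative (map (Int.castRingHom ℚ) f)) by ring, huv, mul_one, ← C_mul]

/-- At most four roots modulo `p ^ 2`. -/
lemma card_roots_sq_le {a0 a1 a2 a3 a4 : ℤ} {U V : Polynomial ℤ} {c : ℤ}
    (hUV : U * qp a0 a1 a2 a3 a4 + V * derivative (qp a0 a1 a2 a3 a4) = C c)
    {p : ℕ} (hp : p.Prime) (h0 : ¬ (p : ℤ) ∣ a0) (hc : ¬ (p : ℤ) ∣ c) :
    ∃ S : Finset (ZMod (p ^ 2)), S.card ≤ 4 ∧
      ∀ x : ZMod (p ^ 2),
        ((qp a0 a1 a2 a3 a4).map (Int.castRingHom (ZMod (p ^ 2)))).eval x = 0 → x ∈ S := by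
  classical
  haveI := Fact.mk hp
  haveI : NeZero (p ^ 2) := ⟨pow_ne_zero _ hp.ne_zero⟩
  set f := qp a0 a1 a2 a3 a4 with hf
  set S : Finset (ZMod (p ^ 2)) :=
    Finset.univ.filter fun x => (f.map (Int.castRingHom (ZMod (p ^ 2)))).eval x = 0 with hS
  refine ⟨S, ?_, fun x hx => by simpa [hS] using hx⟩
  set g := f.map (Int.castRingHom (ZMod p)) with hg
  have hg0 : g ≠ 0 := by
    intro h
    have := congrArg (fun q => q.coeff 4) h
    simp only [hg, coeff_map, hf, coeff_qp, eq_intCast, coeff_zero] at this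
    exact h0 ((ZMod.intCast_zmod_eq_zero_iff_dvd a0 p).1 this)
  have hgd : g.natDegree ≤ 4 := (natDegree_map_le).trans (natDegree_qp_le _ _ _ _ _)
  let φ : ZMod (p ^ 2) →+* ZMod p := ZMod.castHom (dvd_pow_self p two_ne_zero) (ZMod p)
  have hmap : ∀ x, φ ((f.map (Int.castRingHom (ZMod (p ^ 2)))).eval x) = g.eval (φ x) := by
    intro x
    rw [← eval_map_apply, Polynomial.map_map]
    congr 2
    exact RingHom.ext_int _ _
  have hcard : (S.image φ).card ≤ 4 := by
    have hsub : S.image φ ⊆ g.roots.toFinset := by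
      intro y hy
      obtain ⟨x, hx, rfl⟩ := Finset.mem_image.1 hy
      rw [Multiset.mem_toFinset, mem_roots hg0, IsRoot.def, ← hmap, (Finset.mem_filter.1 hx).2,
        map_zero]
    exact (Finset.card_le_card hsub).trans ((Multiset.toFinset_card_le _).trans
      ((card_roots' g).trans hgd))
  refine le_trans (le_of_eq ?_) hcard
  refine (Finset.card_image_of_injOn ?_).symm
  intro x hx y hy hxy
  have hx0 := (Finset.mem_filter.1 (Finset.mem_coe.1 hx)).2
  have hy0 := (Finset.mem_filter.1 (Finset.mem_coe.1 hy)).2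
  -- `x - y` is a multiple of `p`
  set F := f.map (Int.castRingHom (ZMod (p ^ 2))) with hF
  have hxy' : φ (x - y) = 0 := by rw [map_sub]; exact sub_eq_zero.2 hxy
  have hker : ∀ z : ZMod (p ^ 2), φ z = 0 → ∃ w, z = p * w := by
    intro z hz
    have hz' : φ ((z.val : ℕ) : ZMod (p ^ 2)) = 0 := by rwa [ZMod.natCast_zmod_val]
    rw [map_natCast, ZMod.natCast_eq_zero_iff] at hz'
    obtain ⟨k, hk⟩ := hz'
    refine ⟨k, ?_⟩
    rw [← ZMod.natCast_zmod_val z, hk]
    push_cast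
    ring
  have hpp : ((p : ZMod (p ^ 2))) * p = 0 := by
    rw [← Nat.cast_mul, ← pow_two, ZMod.natCast_self]
  obtain ⟨w, hw⟩ := hker _ hxy'
  have hsq : (x - y) ^ 2 = 0 := by
    have e : (x - y) ^ 2 = ((p : ZMod (p ^ 2)) * p) * (w * w) := by rw [hw]; ring
    rw [e, hpp, zero_mul]
  obtain ⟨k, hk⟩ := F.binomExpansion y (x - y)
  rw [hsq, mul_zero, add_zero, add_sub_cancel, hx0, hy0, zero_add] at hk
  -- Bezout: `F'(y)` is a unit
  have hunit : IsUnit (F.derivative.eval y) := by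
    have h1 : (V.map (Int.castRingHom (ZMod (p ^ 2)))).eval y * F.derivative.eval y =
        ((c : ℤ) : ZMod (p ^ 2)) := by
      have := congrArg (fun q => (q.map (Int.castRingHom (ZMod (p ^ 2)))).eval y) hUV
      simp only [Polynomial.map_add, Polynomial.map_mul, eval_add, eval_mul, ← derivative_map,
        Polynomial.map_C, eval_C] at this
      rw [← hF, hy0, mul_zero, zero_add] at this
      rw [hF, this, eq_intCast]
    have hcu : IsUnit ((c : ℤ) : ZMod (p ^ 2)) := by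
      rw [ZMod.coe_int_isUnit_iff_isCoprime]
      have : IsCoprime (p : ℤ) c := by
        rw [Prime.coprime_iff_not_dvd (Nat.prime_iff_prime_int.1 hp)]
        exact hc
      push_cast
      exact this.pow_left
    rw [← h1] at hcu
    exact isUnit_of_mul_isUnit_right hcu
  exact sub_eq_zero.1 ((hunit.mul_right_eq_zero).1 hk.symm)

end Fermat.Agent.H74.Sv
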