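import Mathlib

/-!
# Sieve for binary quartic forms, part 2: counting lemmas
-/

set_option linter.style.haveILetI false

namespace Fermat.Agent.H74.Sv

open Filter

/-- the prime counting function is `o(x)`. -/
lemma primeCounting_small {ε : ℝ} (hε : 0 < ε) : ∃ x₀ : ℕ, ∀ x : ℕ, x₀ ≤ x →
    (Nat.primeCounting x : ℝ) ≤ ε * x := by
  have h1 := Chebyshev.eventually_primeCounting_le (ε := 1) one_pos
  have h2 : ∀ᶠ x : ℝ in atTop, (Real.log 4 + 1) / ε ≤ Real.log x :=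
    Real.tendsto_log_atTop.eventually_ge_atTop _
  obtain ⟨x₁, hx₁⟩ := (h1.and h2).exists_forall_of_atTop
  refine ⟨max (⌈x₁⌉₊) 2, fun x hx => ?_⟩
  have hx1 : x₁ ≤ (x : ℝ) := (Nat.le_ceil x₁).trans (by exact_mod_cast (le_max_left _ _).trans hx)
  have hx2 : 2 ≤ x := (le_max_right _ _).trans hx
  have hx2' : (2 : ℝ) ≤ x := by exact_mod_cast hx2
  obtain ⟨h3, h4⟩ := hx₁ _ hx1
  rw [Nat.floor_natCast] at h3
  have hlog : 0 < Real.log x := Real.log_pos (by linarith)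
  refine h3.trans ?_
  rw [div_le_iff₀ hε] at h4
  rw [div_le_iff₀ hlog]
  nlinarith [h4, hx2']

/-- number of elements of an interval in a residue class. -/
lemma card_res_le (a : ℤ) (Y n : ℕ) (hn : 0 < n) (t : ℤ) :
    ((Finset.Ico a (a + Y)).filter (fun u => u ≡ t [ZMOD n])).card ≤ Y / n + 1 := by
  have h := Int.Ico_filter_modEq_card a (a + Y) (r := (n : ℤ)) (by exact_mod_cast hn) t
  have hn' : (0 : ℚ) < n := by exact_mod_cast hn
  obtain ⟨k, hk⟩ : ∃ k, k = Y / n := ⟨_, rfl⟩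
  have h3 : (Y : ℚ) / n < k + 1 := by
    rw [div_lt_iff₀ hn']
    have := Nat.lt_div_mul_add (a := Y) hn
    rw [← hk] at this
    have h5 : (Y : ℚ) < k * n + n := by exact_mod_cast this
    linarith
  rw [← hk]
  have h1 : ⌈((a + Y : ℤ) - t) / ((n : ℤ) : ℚ)⌉ - ⌈((a : ℤ) - t) / ((n : ℤ) : ℚ)⌉ ≤
      ((k + 1 : ℕ) : ℤ) := by
    have h4 : (⌈((a + Y : ℤ) - t) / ((n : ℤ) : ℚ)⌉ : ℤ) ≤
        ⌈((a : ℤ) - t) / ((n : ℤ) : ℚ)⌉ + (k + 1) := by
      rw [Int.ceil_le]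
      have := Int.le_ceil (((a : ℤ) - t) / ((n : ℤ) : ℚ))
      push_cast at this ⊢
      rw [show ((a : ℚ) + Y - t) / n = (a - t) / n + Y / n by ring]
      linarith
    push_cast at h4 ⊢
    linarith
  have h5 : (((Finset.Ico a (a + Y)).filter (fun u => u ≡ t [ZMOD n])).card : ℤ) ≤
      ((k + 1 : ℕ) : ℤ) := by
    rw [h]
    exact max_le h1 (by positivity)
  exact_mod_cast h5

/-- sum of inverse squares -/
lemma sum_inv_sq_le (z Y : ℕ) (hz : 2 ≤ z) (S : Finset ℕ) (hS : ∀ p ∈ S, z ≤ p ∧ p ≤ Y) :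
    ∑ p ∈ S, 1 / (p : ℝ) ^ 2 ≤ 1 / (z - 1 : ℝ) := by
  have hz1 : (0 : ℝ) < (z : ℝ) - 1 := by
    have : (2 : ℝ) ≤ z := by exact_mod_cast hz
    linarith
  rcases S.eq_empty_or_nonempty with rfl | ⟨p₀, hp₀⟩
  · simp only [Finset.sum_empty]; positivity
  have hzY : z - 1 ≤ Y := by have := hS _ hp₀; omega
  have h1 : ∑ p ∈ S, 1 / (p : ℝ) ^ 2 ≤ ∑ p ∈ Finset.Ioc (z - 1) Y, ((p : ℝ) ^ 2)⁻¹ := by
    have : ∑ p ∈ S, 1 / (p : ℝ) ^ 2 = ∑ p ∈ S, ((p : ℝ) ^ 2)⁻¹ := by simp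
    rw [this]
    refine Finset.sum_le_sum_of_subset_of_nonneg ?_ (fun i _ _ => by positivity)
    intro p hp
    have := hS p hp
    rw [Finset.mem_Ioc]
    omega
  have h2 := sum_Ioc_inv_sq_le_sub (α := ℝ) (k := z - 1) (n := Y) (by omega) hzY
  refine h1.trans (h2.trans ?_)
  rw [Nat.cast_sub (by omega), Nat.cast_one, one_div]
  have : (0 : ℝ) ≤ (Y : ℝ)⁻¹ := by positivity
  linarith

/-- solutions of a linear congruence with unit coefficient in an interval -/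
lemma card_lin_le (a : ℤ) (Y n : ℕ) (hn : 0 < n) (M b : ℤ) (hM : IsCoprime (M : ℤ) n) :
    ((Finset.Ico a (a + Y)).filter (fun u => (n : ℤ) ∣ b + M * u)).card ≤ Y / n + 1 := by
  obtain ⟨x, y, hxy⟩ := hM
  refine le_trans (Finset.card_le_card ?_) (card_res_le a Y n hn (-(x * b)))
  intro u hu
  rw [Finset.mem_filter] at hu ⊢
  refine ⟨hu.1, ?_⟩
  rw [Int.modEq_iff_dvd]
  obtain ⟨k, hk⟩ := hu.2
  refine ⟨- (x * k) - y * u, ?_⟩
  linear_combination (-x) * hk + u * hxy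

end Fermat.Agent.H74.Sv
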