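import Fermat.Agent.H74Sv1
import Fermat.Agent.H74Sv2

/-!
# Sieve for binary quartic forms, part 3: the counting estimates
-/

set_option linter.style.haveILetI false

namespace Fermat.Agent.H74.Sv

open Polynomial

section

variable {a0 a1 a2 a3 a4 : ℤ} {U V : Polynomial ℤ} {c : ℤ}

/-- for each `v`, few `u` have `p ^ 2 ∣ D`. -/
lemma card_bad_row_le
    (hUV : U * qp a0 a1 a2 a3 a4 + V * derivative (qp a0 a1 a2 a3 a4) = C c)
    {p : ℕ} (hp : p.Prime) (h0 : ¬ (p : ℤ) ∣ a0) (hc : ¬ (p : ℤ) ∣ c)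
    (M l0 : ℤ) (hM : ¬ (p : ℤ) ∣ M) (m : ℤ) (hm : ¬ (p : ℤ) ∣ m) (a : ℤ) (Y : ℕ) :
    ((Finset.Ico a (a + Y)).filter
      (fun u => ((p : ℤ) ^ 2) ∣ qf a0 a1 a2 a3 a4 (l0 + M * u) m)).card ≤
      4 * (Y / p ^ 2 + 1) := by
  classical
  haveI : NeZero (p ^ 2) := ⟨pow_ne_zero _ hp.ne_zero⟩
  obtain ⟨S, hS4, hS⟩ := card_roots_sq_le hUV hp h0 hc
  have hmu : IsUnit ((m : ℤ) : ZMod (p ^ 2)) := by
    rw [ZMod.coe_int_isUnit_iff_isCoprime]
    push_cast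
    exact ((Prime.coprime_iff_not_dvd (Nat.prime_iff_prime_int.1 hp)).2 hm).pow_left
  obtain ⟨m', hm'⟩ := hmu
  have hsub : (Finset.Ico a (a + Y)).filter
      (fun u => ((p : ℤ) ^ 2) ∣ qf a0 a1 a2 a3 a4 (l0 + M * u) m) ⊆
      S.biUnion fun r => (Finset.Ico a (a + Y)).filter
        (fun u => ((p ^ 2 : ℕ) : ℤ) ∣ (l0 - (r * (m : ZMod (p ^ 2))).val) + M * u) := by
    intro u hu
    rw [Finset.mem_filter] at hu
    rw [Finset.mem_biUnion]
    set r : ZMod (p ^ 2) := ((l0 + M * u : ℤ) : ZMod (p ^ 2)) * ((m'⁻¹ : (ZMod (p ^ 2))ˣ) :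
      ZMod (p ^ 2)) with hr
    have hrm : r * (m : ZMod (p ^ 2)) = ((l0 + M * u : ℤ) : ZMod (p ^ 2)) := by
      rw [hr, ← hm', mul_assoc, Units.inv_mul, mul_one]
    refine ⟨r, hS r ?_, ?_⟩
    · have h1 := cast_qf a0 a1 a2 a3 a4 (l0 + M * u) m r hrm.symm
      have h2 : ((qf a0 a1 a2 a3 a4 (l0 + M * u) m : ℤ) : ZMod (p ^ 2)) = 0 := by
        rw [ZMod.intCast_zmod_eq_zero_iff_dvd]
        push_cast
        exact hu.2
      rw [h2, ← hm', ← Units.val_pow_eq_pow_val] at h1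
      exact (Units.mul_left_eq_zero _).1 h1.symm
    · rw [Finset.mem_filter]
      refine ⟨hu.1, ?_⟩
      rw [← ZMod.intCast_zmod_eq_zero_iff_dvd]
      push_cast
      rw [ZMod.natCast_zmod_val, hrm]
      push_cast
      ring
  refine (Finset.card_le_card hsub).trans (Finset.card_biUnion_le.trans ?_)
  refine (Finset.sum_le_card_nsmul _ _ (Y / p ^ 2 + 1) ?_).trans ?_
  · intro r _
    refine card_lin_le a Y (p ^ 2) (pow_pos hp.pos _) M _ ?_
    push_cast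
    exact ((Prime.coprime_iff_not_dvd (Nat.prime_iff_prime_int.1 hp)).2 hM).symm.pow_right
  · rw [smul_eq_mul]
    exact Nat.mul_le_mul_right _ hS4

/-- large primes: at most four primitive points in a box. -/
lemma card_large_le
    (hUV : U * qp a0 a1 a2 a3 a4 + V * derivative (qp a0 a1 a2 a3 a4) = C c)
    {p : ℕ} (hp : p.Prime) (h0 : ¬ (p : ℤ) ∣ a0) (hc : ¬ (p : ℤ) ∣ c)
    (M l0 m0 : ℤ) (hM0 : M ≠ 0) (T : Finset (ℤ × ℤ)) (L : ℤ) (hL : 2 * L ^ 2 < (p : ℤ) ^ 2)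
    (hT : ∀ w ∈ T, ((p : ℤ) ^ 2) ∣ qf a0 a1 a2 a3 a4 (l0 + M * w.1) (m0 + M * w.2) ∧
      IsCoprime (l0 + M * w.1) (m0 + M * w.2) ∧ |l0 + M * w.1| ≤ L ∧ 0 < m0 + M * w.2 ∧
      m0 + M * w.2 ≤ L) :
    T.card ≤ 4 := by
  classical
  haveI : NeZero (p ^ 2) := ⟨pow_ne_zero _ hp.ne_zero⟩
  obtain ⟨S, hS4, hS⟩ := card_roots_sq_le hUV hp h0 hc
  have hpp : Prime (p : ℤ) := Nat.prime_iff_prime_int.1 hp
  have hunit : ∀ w ∈ T, IsUnit ((m0 + M * w.2 : ℤ) : ZMod (p ^ 2)) := by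
    intro w hw
    obtain ⟨h1, h2, -, -, -⟩ := hT w hw
    rw [ZMod.coe_int_isUnit_iff_isCoprime]
    push_cast
    refine ((Prime.coprime_iff_not_dvd hpp).2 ?_).pow_left
    intro hpm
    have h3 : (p : ℤ) ∣ qf a0 a1 a2 a3 a4 (l0 + M * w.1) (m0 + M * w.2) :=
      (dvd_pow_self _ two_ne_zero).trans h1
    have h4 : (p : ℤ) ∣ a0 * (l0 + M * w.1) ^ 4 := by
      have h5 : a0 * (l0 + M * w.1) ^ 4 = qf a0 a1 a2 a3 a4 (l0 + M * w.1) (m0 + M * w.2) -
        (m0 + M * w.2) * (a1 * (l0 + M * w.1) ^ 3 + a2 * (l0 + M * w.1) ^ 2 * (m0 + M * w.2) +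
          a3 * (l0 + M * w.1) * (m0 + M * w.2) ^ 2 + a4 * (m0 + M * w.2) ^ 3) := by
        rw [qf]; ring
      rw [h5]
      exact dvd_sub h3 (hpm.mul_right _)
    rcases hpp.dvd_or_dvd h4 with h6 | h6
    · exact h0 h6
    · have h7 := hpp.dvd_of_dvd_pow h6
      exact hpp.not_unit (h2.isUnit_of_dvd' h7 hpm)
  let F : ℤ × ℤ → ZMod (p ^ 2) := fun w =>
    ((l0 + M * w.1 : ℤ) : ZMod (p ^ 2)) * Ring.inverse ((m0 + M * w.2 : ℤ) : ZMod (p ^ 2))
  have hF : ∀ w ∈ T, F w * ((m0 + M * w.2 : ℤ) : ZMod (p ^ 2)) =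
      ((l0 + M * w.1 : ℤ) : ZMod (p ^ 2)) := by
    intro w hw
    simp only [F]
    rw [mul_assoc, Ring.inverse_mul_cancel _ (hunit w hw), mul_one]
  refine le_trans (Finset.card_le_card_of_injOn F ?_ ?_) hS4
  · intro w hw
    have h1 := cast_qf a0 a1 a2 a3 a4 (l0 + M * w.1) (m0 + M * w.2) (F w) (hF w hw).symm
    have h2 : ((qf a0 a1 a2 a3 a4 (l0 + M * w.1) (m0 + M * w.2) : ℤ) : ZMod (p ^ 2)) = 0 := by
      rw [ZMod.intCast_zmod_eq_zero_iff_dvd]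
      push_cast
      exact (hT w hw).1
    rw [h2] at h1
    exact hS _ ((((hunit w hw).pow 4).mul_left_eq_zero).1 h1.symm)
  · intro w hw w' hw' hww
    obtain ⟨-, h2, h3, h4, h5⟩ := hT w hw
    obtain ⟨-, h2', h3', h4', h5'⟩ := hT w' hw'
    set l := l0 + M * w.1 with hl
    set m := m0 + M * w.2 with hm
    set l' := l0 + M * w'.1 with hl'
    set m' := m0 + M * w'.2 with hm'
    have h6 : ((l * m' - l' * m : ℤ) : ZMod (p ^ 2)) = 0 := by
      push_cast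
      rw [← hF w hw, ← hF w' hw', hww]
      ring
    rw [ZMod.intCast_zmod_eq_zero_iff_dvd] at h6
    push_cast at h6
    have h7 : l * m' - l' * m = 0 := by
      apply Int.eq_zero_of_abs_lt_dvd h6
      have e1 : |l * m' - l' * m| ≤ |l| * m' + |l'| * m := by
        refine (abs_sub _ _).trans (le_of_eq ?_)
        rw [abs_mul, abs_mul, abs_of_pos h4, abs_of_pos h4']
      have e2 : |l| * m' ≤ L * L := mul_le_mul h3 h5' h4'.le ((abs_nonneg _).trans h3)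
      have e3 : |l'| * m ≤ L * L := mul_le_mul h3' h5 h4.le ((abs_nonneg _).trans h3')
      nlinarith
    have h8 : m ∣ m' := h2.symm.dvd_of_dvd_mul_left ⟨l', by linarith⟩
    have h9 : m' ∣ m := h2'.symm.dvd_of_dvd_mul_left ⟨l, by linarith⟩
    have h10 : m = m' := Int.dvd_antisymm h4.le h4'.le h8 h9
    have h11 : l = l' := by
      rw [h10] at h7
      have : (l - l') * m' = 0 := by linarith
      rcases mul_eq_zero.1 this with h | h
      · linarith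
      · omega
    have h12 : w.1 = w'.1 := by
      have : M * w.1 = M * w'.1 := by rw [hl, hl'] at h11; linarith
      exact mul_left_cancel₀ hM0 this
    have h13 : w.2 = w'.2 := by
      have : M * w.2 = M * w'.2 := by rw [hm, hm'] at h10; linarith
      exact mul_left_cancel₀ hM0 this
    exact Prod.ext h12 h13

end

end Fermat.Agent.H74.Sv
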