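import Fermat.Agent.H74Sv3

/-!
# Sieve for binary quartic forms, part 4: existence in a large box
-/

set_option linter.style.haveILetI false

namespace Fermat.Agent.H74.Sv

open Polynomial

lemma dvd_left_of_dvd_right {a0 a1 a2 a3 a4 l m : ℤ} {p : ℕ} (hp : p.Prime)
    (h0 : ¬ (p : ℤ) ∣ a0) (h : (p : ℤ) ∣ qf a0 a1 a2 a3 a4 l m) (hm : (p : ℤ) ∣ m) :
    (p : ℤ) ∣ l := by
  have hpp : Prime (p : ℤ) := Nat.prime_iff_prime_int.1 hp
  have h4 : (p : ℤ) ∣ a0 * l ^ 4 := by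
    have h5 : a0 * l ^ 4 = qf a0 a1 a2 a3 a4 l m -
      m * (a1 * l ^ 3 + a2 * l ^ 2 * m + a3 * l * m ^ 2 + a4 * m ^ 3) := by
      rw [qf]; ring
    rw [h5]
    exact dvd_sub h (hm.mul_right _)
  rcases hpp.dvd_or_dvd h4 with h6 | h6
  · exact absurd h6 h0
  · exact hpp.dvd_of_dvd_pow h6

lemma abs_qf_le (a0 a1 a2 a3 a4 l m L : ℤ) (hl : |l| ≤ L) (hm : |m| ≤ L) :
    |qf a0 a1 a2 a3 a4 l m| ≤ (|a0| + |a1| + |a2| + |a3| + |a4|) * L ^ 4 := by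
  have hL : 0 ≤ L := (abs_nonneg l).trans hl
  have key : ∀ (a : ℤ) (i j : ℕ), i + j = 4 → |a * l ^ i * m ^ j| ≤ |a| * L ^ 4 := by
    intro a i j hij
    rw [abs_mul, abs_mul, abs_pow, abs_pow, mul_assoc, ← hij, pow_add]
    gcongr
  have e : qf a0 a1 a2 a3 a4 l m = a0 * l ^ 4 * m ^ 0 + a1 * l ^ 3 * m ^ 1 +
      a2 * l ^ 2 * m ^ 2 + a3 * l ^ 1 * m ^ 3 + a4 * l ^ 0 * m ^ 4 := by
    rw [qf]; ring
  rw [e]
  have h0 := key a0 4 0 rfl
  have h1 := key a1 3 1 rfl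
  have h2 := key a2 2 2 rfl
  have h3 := key a3 1 3 rfl
  have h4 := key a4 0 4 rfl
  have t1 := abs_add_le (a0 * l ^ 4 * m ^ 0 + a1 * l ^ 3 * m ^ 1 +
      a2 * l ^ 2 * m ^ 2 + a3 * l ^ 1 * m ^ 3) (a4 * l ^ 0 * m ^ 4)
  have t2 := abs_add_le (a0 * l ^ 4 * m ^ 0 + a1 * l ^ 3 * m ^ 1 +
      a2 * l ^ 2 * m ^ 2) (a3 * l ^ 1 * m ^ 3)
  have t3 := abs_add_le (a0 * l ^ 4 * m ^ 0 + a1 * l ^ 3 * m ^ 1) (a2 * l ^ 2 * m ^ 2)
  have t4 := abs_add_le (a0 * l ^ 4 * m ^ 0) (a1 * l ^ 3 * m ^ 1)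
  linarith

/-- the numerical estimate for the first family -/
lemma sq_div_add_one_le (Y p : ℕ) (hp : 0 < p) :
    (((Y / p + 1) ^ 2 : ℕ) : ℝ) ≤ 4 * (Y : ℝ) ^ 2 * (1 / (p : ℝ) ^ 2) + 1 := by
  have hp' : (0 : ℝ) < p := by exact_mod_cast hp
  rcases lt_or_ge Y p with h | h
  · rw [Nat.div_eq_of_lt h]
    have : (0 : ℝ) ≤ 4 * (Y : ℝ) ^ 2 * (1 / (p : ℝ) ^ 2) := by positivity
    push_cast
    linarith
  · have h1 : ((Y / p : ℕ) : ℝ) ≤ (Y : ℝ) / p := Nat.cast_div_le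
    have h2 : (1 : ℝ) ≤ (Y : ℝ) / p := by
      rw [le_div_iff₀ hp', one_mul]; exact_mod_cast h
    push_cast
    have h3 : ((Y / p : ℕ) : ℝ) + 1 ≤ 2 * ((Y : ℝ) / p) := by linarith
    have h4 : (((Y / p : ℕ) : ℝ) + 1) ^ 2 ≤ (2 * ((Y : ℝ) / p)) ^ 2 := by gcongr
    have h5 : (2 * ((Y : ℝ) / p)) ^ 2 = 4 * (Y : ℝ) ^ 2 * (1 / (p : ℝ) ^ 2) := by ring
    linarith

/-- primes not dividing `M` up to a bound -/
noncomputable def pr (M B : ℕ) : Finset ℕ :=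
  (Finset.range (B + 1)).filter fun p => p.Prime ∧ ¬ p ∣ M

lemma mem_pr {M B p : ℕ} : p ∈ pr M B ↔ p ≤ B ∧ p.Prime ∧ ¬ p ∣ M := by
  rw [pr, Finset.mem_filter, Finset.mem_range, Nat.lt_succ_iff]

lemma card_pr_le (M B : ℕ) : (pr M B).card ≤ Nat.primeCounting B := by
  rw [Nat.primeCounting, Nat.primeCounting', Nat.count_eq_card_filter_range]
  apply Finset.card_le_card
  intro p hp
  rw [pr, Finset.mem_filter] at hp
  rw [Finset.mem_filter]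
  exact ⟨hp.1, hp.2.1⟩

lemma card_pr_le' (M B : ℕ) : (pr M B).card ≤ B := by
  have : pr M B ⊆ Finset.Icc 1 B := by
    intro p hp
    rw [mem_pr] at hp
    rw [Finset.mem_Icc]
    exact ⟨hp.2.1.one_le, hp.1⟩
  simpa using Finset.card_le_card this

lemma sum_pr_le (M B : ℕ) (h50 : ∀ p : ℕ, p.Prime → p < 50 → p ∣ M) :
    ∑ p ∈ pr M B, 1 / (p : ℝ) ^ 2 ≤ 1 / 49 := by
  have := sum_inv_sq_le 50 B (by norm_num) (pr M B) (by
    intro p hp
    rw [mem_pr] at hp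
    refine ⟨?_, hp.1⟩
    by_contra hlt
    exact hp.2.2 (h50 p hp.2.1 (by omega)))
  norm_num at this ⊢
  exact this

/-- bounds for the first coordinate -/
lemma box_l (M : ℕ) (l0 m0 A : ℤ) (E Y : ℕ) (hY0 : 0 < Y) (u : ℤ) (h1 : A * Y ≤ u)
    (h2 : u < A * Y + Y) :
    |l0 + M * u| ≤ ((l0.natAbs + m0.natAbs + M * (A.natAbs + E + 2)) * Y : ℕ) := by
  have hY1 : (1 : ℤ) ≤ Y := by exact_mod_cast hY0
  have e1 : |u| ≤ (|A| + 1) * Y := by
    have k1 := neg_abs_le A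
    have k2 := le_abs_self A
    have k3 : A * Y ≤ |A| * Y := mul_le_mul_of_nonneg_right k2 (by positivity)
    have k4 : -|A| * Y ≤ A * Y := mul_le_mul_of_nonneg_right k1 (by positivity)
    rw [abs_le]
    constructor
    · linarith
    · linarith
  have e2 : |l0 + M * u| ≤ |l0| + M * |u| := by
    refine (abs_add_le _ _).trans ?_
    rw [abs_mul, abs_of_nonneg (show (0 : ℤ) ≤ M by positivity)]
  have e3 : (M : ℤ) * |u| ≤ M * ((|A| + 1) * Y) := by gcongr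
  have hl : (|l0| : ℤ) ≤ |l0| * Y := le_mul_of_one_le_right (abs_nonneg _) hY1
  have hm : 0 ≤ |m0| * (Y : ℤ) := by positivity
  have hE' : 0 ≤ (M : ℤ) * (E + 1) * Y := by positivity
  push_cast
  calc |l0 + M * u| ≤ |l0| * Y + M * ((|A| + 1) * Y) := by linarith
    _ ≤ |l0| * Y + M * ((|A| + 1) * Y) + |m0| * (Y : ℤ) + (M : ℤ) * (E + 1) * Y := by linarith
    _ = _ := by ring

/-- bounds for the second coordinate -/
lemma box_m (M : ℕ) (hM : 0 < M) (l0 m0 A : ℤ) (E Y : ℕ) (hE : 0 < E) (hY0 : m0.natAbs < Y)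
    (v : ℤ) (h1 : (E : ℤ) * Y ≤ v) (h2 : v < (E : ℤ) * Y + Y) :
    0 < m0 + M * v ∧
      m0 + M * v ≤ ((l0.natAbs + m0.natAbs + M * (A.natAbs + E + 2)) * Y : ℕ) := by
  have hY1 : (1 : ℤ) ≤ Y := by
    have : 1 ≤ Y := by omega
    exact_mod_cast this
  have hM1 : (1 : ℤ) ≤ M := by exact_mod_cast hM
  have hE1 : (1 : ℤ) ≤ E := by exact_mod_cast hE
  have hm0 : |m0| < Y := by
    rw [Int.abs_eq_natAbs]
    exact_mod_cast hY0
  have hv1 : (Y : ℤ) ≤ v := le_trans (le_mul_of_one_le_left (by positivity) hE1) h1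
  constructor
  · have k1 := neg_abs_le m0
    have k2 : (v : ℤ) ≤ M * v := le_mul_of_one_le_left (by linarith) hM1
    linarith
  · have k2 := le_abs_self m0
    have hm : |m0| ≤ |m0| * (Y : ℤ) := le_mul_of_one_le_right (abs_nonneg _) hY1
    have hl : 0 ≤ |l0| * (Y : ℤ) := by positivity
    have e3 : (M : ℤ) * v ≤ M * ((E + 1) * Y) := by
      apply mul_le_mul_of_nonneg_left _ (by positivity)
      linarith
    have hE' : 0 ≤ (M : ℤ) * (|A| + 1) * Y := by positivity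
    push_cast
    calc m0 + M * v ≤ |m0| * Y + M * ((E + 1) * Y) := by linarith
      _ ≤ |m0| * Y + M * ((E + 1) * Y) + |l0| * Y + (M : ℤ) * (|A| + 1) * Y := by linarith
      _ = _ := by ring

variable {a0 a1 a2 a3 a4 : ℤ} {U V : Polynomial ℤ} {c : ℤ}

set_option maxHeartbeats 1000000 in
/-- The box lemma. -/
theorem exists_good_in_box
    (hUV : U * qp a0 a1 a2 a3 a4 + V * derivative (qp a0 a1 a2 a3 a4) = C c)
    (M : ℕ) (hM : 0 < M) (h50 : ∀ p : ℕ, p.Prime → p < 50 → p ∣ M)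
    (ha0 : ∀ p : ℕ, p.Prime → (p : ℤ) ∣ a0 → p ∣ M)
    (hc : ∀ p : ℕ, p.Prime → (p : ℤ) ∣ c → p ∣ M)
    (l0 m0 : ℤ) (hcop : ∀ p : ℕ, p.Prime → p ∣ M → ¬ ((p : ℤ) ∣ l0 ∧ (p : ℤ) ∣ m0))
    (A : ℤ) (E : ℕ) (hE : 0 < E) :
    ∃ Y₀ : ℕ, ∀ Y : ℕ, Y₀ ≤ Y → ∃ u v : ℤ, A * Y ≤ u ∧ u < A * Y + Y ∧ (E : ℤ) * Y ≤ v ∧
      v < (E : ℤ) * Y + Y ∧ IsCoprime (l0 + M * u) (m0 + M * v) ∧
      ∀ p : ℕ, p.Prime → ¬ p ∣ M →
        ¬ ((p : ℤ) ^ 2 ∣ qf a0 a1 a2 a3 a4 (l0 + M * u) (m0 + M * v)) := by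
  classical
  -- constants
  obtain ⟨Λ, hΛ⟩ : ∃ Λ : ℕ, Λ = l0.natAbs + m0.natAbs + M * (A.natAbs + E + 2) := ⟨_, rfl⟩
  obtain ⟨H, hH⟩ : ∃ H : ℕ, (H : ℤ) = |a0| + |a1| + |a2| + |a3| + |a4| + 1 :=
    ⟨(|a0| + |a1| + |a2| + |a3| + |a4| + 1).toNat, by
      rw [Int.toNat_of_nonneg (by positivity)]⟩
  have hΛ0 : 0 < Λ := by rw [hΛ]; positivity
  have hH0 : 0 < H := by
    have : (0 : ℤ) < H := by rw [hH]; positivity
    exact_mod_cast this
  obtain ⟨K, hK⟩ : ∃ K, K = 2 * Λ := ⟨_, rfl⟩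
  obtain ⟨C', hC'⟩ : ∃ C', C' = H * Λ ^ 2 := ⟨_, rfl⟩
  have hK0 : 0 < K := by omega
  have hC'0 : 0 < C' := by rw [hC']; positivity
  have hKr : (0 : ℝ) < K := by exact_mod_cast hK0
  have hCr : (0 : ℝ) < C' := by exact_mod_cast hC'0
  obtain ⟨x₁, hx₁⟩ := primeCounting_small (ε := 1 / (40 * K)) (by positivity)
  obtain ⟨x₂, hx₂⟩ := primeCounting_small (ε := 1 / (40 * C')) (by positivity)
  obtain ⟨p₀, hp₀M, hp₀⟩ := Nat.exists_infinite_primes (M + 1)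
  have hp₀M' : ¬ p₀ ∣ M := fun h => by have := Nat.le_of_dvd hM h; omega
  refine ⟨x₁ + x₂ + p₀ + 10 * Λ + m0.natAbs + 1, fun Y hY => ?_⟩
  have hY0 : 0 < Y := by omega
  -- bounds in the box
  have hbl : ∀ u : ℤ, A * Y ≤ u → u < A * Y + Y → |l0 + M * u| ≤ (Λ * Y : ℕ) := by
    intro u h1 h2
    rw [hΛ]
    exact box_l M l0 m0 A E Y hY0 u h1 h2
  have hbm : ∀ v : ℤ, (E : ℤ) * Y ≤ v → v < (E : ℤ) * Y + Y →
      0 < m0 + M * v ∧ m0 + M * v ≤ (Λ * Y : ℕ) := by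
    intro v h1 h2
    rw [hΛ]
    exact box_m M hM l0 m0 A E Y hE (by omega) v h1 h2
  set I : Finset ℤ := Finset.Ico (A * Y) (A * Y + Y) with hI
  set J : Finset ℤ := Finset.Ico ((E : ℤ) * Y) ((E : ℤ) * Y + Y) with hJ
  have hIc : I.card = Y := by rw [hI, Int.card_Ico]; simp
  have hJc : J.card = Y := by rw [hJ, Int.card_Ico]; simp
  set Box := I ×ˢ J with hBox
  have hBoxc : Box.card = Y ^ 2 := by rw [hBox, Finset.card_product, hIc, hJc, pow_two]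
  -- bad sets
  let B1 : ℕ → Finset (ℤ × ℤ) := fun p => Box.filter fun w =>
    (p : ℤ) ∣ l0 + M * w.1 ∧ (p : ℤ) ∣ m0 + M * w.2
  let B3 : ℕ → Finset (ℤ × ℤ) := fun p => Box.filter fun w =>
    ¬ (p : ℤ) ∣ m0 + M * w.2 ∧ (p : ℤ) ^ 2 ∣ qf a0 a1 a2 a3 a4 (l0 + M * w.1) (m0 + M * w.2)
  let B4 : ℕ → Finset (ℤ × ℤ) := fun p => Box.filter fun w =>
    IsCoprime (l0 + M * w.1) (m0 + M * w.2) ∧
      (p : ℤ) ^ 2 ∣ qf a0 a1 a2 a3 a4 (l0 + M * w.1) (m0 + M * w.2)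
  set P4 := (pr M (C' * Y ^ 2)).filter fun p => K * Y < p with hP4
  have hMp : ∀ p : ℕ, p.Prime → ¬ p ∣ M → IsCoprime (M : ℤ) p := by
    intro p hp hpM
    refine ((Prime.coprime_iff_not_dvd (Nat.prime_iff_prime_int.1 hp)).2 ?_).symm
    exact_mod_cast hpM
  have hB1 : ∀ p ∈ pr M (Λ * Y), (B1 p).card ≤ (Y / p + 1) ^ 2 := by
    intro p hp
    rw [mem_pr] at hp
    have e1 : B1 p = (I.filter fun u => (p : ℤ) ∣ l0 + M * u) ×ˢ
        (J.filter fun v => (p : ℤ) ∣ m0 + M * v) := by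
      ext w
      simp only [B1, hBox, Finset.mem_filter, Finset.mem_product]
      tauto
    rw [e1, Finset.card_product, pow_two]
    exact Nat.mul_le_mul (card_lin_le _ Y p hp.2.1.pos M l0 (hMp p hp.2.1 hp.2.2))
      (card_lin_le _ Y p hp.2.1.pos M m0 (hMp p hp.2.1 hp.2.2))
  have hB3 : ∀ p ∈ pr M (K * Y), (B3 p).card ≤ Y * (4 * (Y / p ^ 2 + 1)) := by
    intro p hp
    rw [mem_pr] at hp
    have hMp' : ¬ (p : ℤ) ∣ (M : ℤ) := by exact_mod_cast hp.2.2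
    have e1 : B3 p ⊆ J.biUnion fun v => (I.filter fun u => ¬ (p : ℤ) ∣ m0 + M * v ∧
        (p : ℤ) ^ 2 ∣ qf a0 a1 a2 a3 a4 (l0 + M * u) (m0 + M * v)) ×ˢ {v} := by
      intro w hw
      simp only [B3, hBox, Finset.mem_filter, Finset.mem_product] at hw
      rw [Finset.mem_biUnion]
      refine ⟨w.2, hw.1.2, ?_⟩
      rw [Finset.mem_product, Finset.mem_filter, Finset.mem_singleton]
      exact ⟨⟨hw.1.1, hw.2⟩, rfl⟩
    refine (Finset.card_le_card e1).trans (Finset.card_biUnion_le.trans ?_)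
    rw [← smul_eq_mul, ← hJc]
    refine Finset.sum_le_card_nsmul _ _ _ fun v _ => ?_
    rw [Finset.card_product, Finset.card_singleton, mul_one, hJc]
    by_cases hm : (p : ℤ) ∣ m0 + M * v
    · rw [Finset.filter_false_of_mem]
      · simp
      · intro u _ h
        exact h.1 hm
    · refine le_trans (Finset.card_le_card ?_)
        (card_bad_row_le hUV hp.2.1 (fun h => hp.2.2 (ha0 p hp.2.1 h))
          (fun h => hp.2.2 (hc p hp.2.1 h)) M l0 hMp' (m0 + M * v) hm (A * Y) Y)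
      intro u hu
      rw [Finset.mem_filter] at hu ⊢
      exact ⟨hu.1, hu.2.2⟩
  have hB4 : ∀ p ∈ P4, (B4 p).card ≤ 4 := by
    intro p hp
    rw [hP4, Finset.mem_filter, mem_pr] at hp
    refine card_large_le hUV hp.1.2.1 (fun h => hp.1.2.2 (ha0 p hp.1.2.1 h))
      (fun h => hp.1.2.2 (hc p hp.1.2.1 h)) M l0 m0 (by exact_mod_cast hM.ne') (B4 p)
      ((Λ * Y : ℕ) : ℤ) ?_ ?_
    · have h1 : 2 * (Λ * Y) < p := by rw [← mul_assoc, ← hK]; exact hp.2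
      have h2 : 2 * ((Λ * Y : ℕ) : ℤ) < p := by exact_mod_cast h1
      have h3 : (0 : ℤ) ≤ ((Λ * Y : ℕ) : ℤ) := by positivity
      nlinarith
    · intro w hw
      simp only [B4, hBox, hI, hJ, Finset.mem_filter, Finset.mem_product, Finset.mem_Ico] at hw
      obtain ⟨⟨⟨h1, h2⟩, h3, h4⟩, h5, h6⟩ := hw
      exact ⟨h6, h5, hbl _ h1 h2, (hbm _ h3 h4).1, (hbm _ h3 h4).2⟩
  -- the total count
  have hcount : ((pr M (Λ * Y)).biUnion B1 ∪ (pr M (K * Y)).biUnion B3 ∪ P4.biUnion B4).card <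
      Y ^ 2 := by
    have hYr : (0 : ℝ) < Y := by exact_mod_cast hY0
    have c1 : (((pr M (Λ * Y)).biUnion B1).card : ℝ) ≤ 4 * (Y : ℝ) ^ 2 * (1 / 49) + Λ * Y := by
      have : (((pr M (Λ * Y)).biUnion B1).card : ℝ) ≤
          ∑ p ∈ pr M (Λ * Y), (((Y / p + 1) ^ 2 : ℕ) : ℝ) := by
        exact_mod_cast Finset.card_biUnion_le.trans (Finset.sum_le_sum hB1)
      refine this.trans ?_
      have : ∑ p ∈ pr M (Λ * Y), (((Y / p + 1) ^ 2 : ℕ) : ℝ) ≤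
          ∑ p ∈ pr M (Λ * Y), (4 * (Y : ℝ) ^ 2 * (1 / (p : ℝ) ^ 2) + 1) :=
        Finset.sum_le_sum fun p hp => sq_div_add_one_le Y p (mem_pr.1 hp).2.1.pos
      refine this.trans ?_
      rw [Finset.sum_add_distrib, ← Finset.mul_sum]
      have e1 := sum_pr_le M (Λ * Y) h50
      have e2 : ∑ p ∈ pr M (Λ * Y), (1 : ℝ) ≤ Λ * Y := by
        rw [Finset.sum_const, nsmul_eq_mul, mul_one]
        exact_mod_cast card_pr_le' M (Λ * Y)
      gcongr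
    have c3 : (((pr M (K * Y)).biUnion B3).card : ℝ) ≤
        4 * (Y : ℝ) ^ 2 * (1 / 49) + 4 * Y * (1 / (40 * K) * (K * Y : ℕ)) := by
      have : (((pr M (K * Y)).biUnion B3).card : ℝ) ≤
          ∑ p ∈ pr M (K * Y), ((Y * (4 * (Y / p ^ 2 + 1)) : ℕ) : ℝ) := by
        exact_mod_cast Finset.card_biUnion_le.trans (Finset.sum_le_sum hB3)
      refine this.trans ?_
      have : ∑ p ∈ pr M (K * Y), ((Y * (4 * (Y / p ^ 2 + 1)) : ℕ) : ℝ) ≤
          ∑ p ∈ pr M (K * Y), (4 * (Y : ℝ) ^ 2 * (1 / (p : ℝ) ^ 2) + 4 * Y) := by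
        refine Finset.sum_le_sum fun p hp => ?_
        have h1 : ((Y / p ^ 2 : ℕ) : ℝ) ≤ (Y : ℝ) / ((p ^ 2 : ℕ) : ℝ) := Nat.cast_div_le
        push_cast at h1 ⊢
        have h2 : (Y : ℝ) * (4 * ((Y / p ^ 2 : ℕ) + 1)) ≤ Y * (4 * ((Y : ℝ) / (p : ℝ) ^ 2 + 1)) := by
          gcongr
        refine h2.trans (le_of_eq ?_)
        ring
      refine this.trans ?_
      rw [Finset.sum_add_distrib, ← Finset.mul_sum]
      have e1 := sum_pr_le M (K * Y) h50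
      have e2 : ∑ p ∈ pr M (K * Y), (4 * (Y : ℝ)) ≤ 4 * Y * (1 / (40 * K) * (K * Y : ℕ)) := by
        rw [Finset.sum_const, nsmul_eq_mul, mul_comm]
        have e3 : ((pr M (K * Y)).card : ℝ) ≤ 1 / (40 * K) * (K * Y : ℕ) := by
          refine le_trans ?_ (hx₁ (K * Y) ?_)
          · exact_mod_cast card_pr_le M (K * Y)
          · have : Y ≤ K * Y := Nat.le_mul_of_pos_left _ hK0
            omega
        gcongr
      gcongr
    have c4 : ((P4.biUnion B4).card : ℝ) ≤ 4 * (1 / (40 * C') * (C' * Y ^ 2 : ℕ)) := by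
      have : ((P4.biUnion B4).card : ℝ) ≤ ∑ p ∈ P4, (4 : ℝ) := by
        exact_mod_cast Finset.card_biUnion_le.trans (Finset.sum_le_sum hB4)
      refine this.trans ?_
      rw [Finset.sum_const, nsmul_eq_mul, mul_comm]
      have e3 : (P4.card : ℝ) ≤ 1 / (40 * C') * (C' * Y ^ 2 : ℕ) := by
        refine le_trans ?_ (hx₂ (C' * Y ^ 2) ?_)
        · exact_mod_cast (Finset.card_filter_le _ _).trans (card_pr_le M (C' * Y ^ 2))
        · have h1 : Y ^ 2 ≤ C' * Y ^ 2 := Nat.le_mul_of_pos_left _ hC'0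
          have h2 : Y ≤ Y ^ 2 := by nlinarith
          omega
      gcongr
    have c5 : (((pr M (Λ * Y)).biUnion B1 ∪ (pr M (K * Y)).biUnion B3 ∪
        P4.biUnion B4).card : ℝ) < (Y : ℝ) ^ 2 := by
      have h1 : (((pr M (Λ * Y)).biUnion B1 ∪ (pr M (K * Y)).biUnion B3 ∪
          P4.biUnion B4).card : ℝ) ≤ ((pr M (Λ * Y)).biUnion B1).card +
            ((pr M (K * Y)).biUnion B3).card + (P4.biUnion B4).card := by
        have := (Finset.card_union_le ((pr M (Λ * Y)).biUnion B1 ∪ (pr M (K * Y)).biUnion B3)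
          (P4.biUnion B4)).trans (Nat.add_le_add_right (Finset.card_union_le _ _) _)
        exact_mod_cast this
      have h2 : (Λ : ℝ) * Y ≤ (Y : ℝ) ^ 2 / 10 := by
        have : 10 * Λ ≤ Y := by omega
        have h3 : 10 * (Λ : ℝ) ≤ Y := by exact_mod_cast this
        nlinarith
      have h4 : 4 * (Y : ℝ) * (1 / (40 * K) * (K * Y : ℕ)) = (Y : ℝ) ^ 2 / 10 := by
        push_cast
        field_simp
        ring
      have h5 : 4 * (1 / (40 * (C' : ℝ)) * (C' * Y ^ 2 : ℕ)) = (Y : ℝ) ^ 2 / 10 := by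
        push_cast
        field_simp
        ring
      rw [h4] at c3
      rw [h5] at c4
      nlinarith [pow_pos hYr 2]
    exact_mod_cast c5
  obtain ⟨w, hw, hwn⟩ : ∃ w ∈ Box, w ∉ ((pr M (Λ * Y)).biUnion B1 ∪ (pr M (K * Y)).biUnion B3 ∪
      P4.biUnion B4) := by
    by_contra hcon
    push Not at hcon
    have := Finset.card_le_card (show Box ⊆ _ from hcon)
    rw [hBoxc] at this
    omega
  rw [Finset.mem_union, Finset.mem_union, Finset.mem_biUnion, Finset.mem_biUnion,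
    Finset.mem_biUnion] at hwn
  push Not at hwn
  obtain ⟨⟨n1, n3⟩, n4⟩ := hwn
  have hw' := hw
  simp only [hBox, hI, hJ, Finset.mem_product, Finset.mem_Ico] at hw'
  obtain ⟨⟨h1, h2⟩, h3, h4⟩ := hw'
  obtain ⟨hm0, hmL⟩ := hbm _ h3 h4
  have hlL := hbl _ h1 h2
  set l := l0 + M * w.1 with hl
  set m := m0 + M * w.2 with hm
  have hcopr : IsCoprime l m := by
    rw [Int.isCoprime_iff_gcd_eq_one]
    by_contra hg
    obtain ⟨p, hp, hpg⟩ := Nat.exists_prime_and_dvd hg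
    have hpl : (p : ℤ) ∣ l := (Int.natCast_dvd_natCast.2 hpg).trans (Int.gcd_dvd_left _ _)
    have hpm : (p : ℤ) ∣ m := (Int.natCast_dvd_natCast.2 hpg).trans (Int.gcd_dvd_right _ _)
    by_cases hpM : p ∣ M
    · refine hcop p hp hpM ⟨?_, ?_⟩
      · have : (p : ℤ) ∣ l - M * w.1 :=
          dvd_sub hpl ((Int.natCast_dvd_natCast.2 hpM).mul_right _)
        rwa [hl, add_sub_cancel_right] at this
      · have : (p : ℤ) ∣ m - M * w.2 :=
          dvd_sub hpm ((Int.natCast_dvd_natCast.2 hpM).mul_right _)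
        rwa [hm, add_sub_cancel_right] at this
    · refine n1 p ?_ ?_
      · rw [mem_pr]
        refine ⟨?_, hp, hpM⟩
        have := (Int.le_of_dvd hm0 hpm).trans hmL
        exact_mod_cast this
      · simp only [B1, Finset.mem_filter]
        exact ⟨hw, hpl, hpm⟩
  have hsmall : ∀ p : ℕ, p.Prime → ¬ p ∣ M → p ≤ K * Y → ¬ ((p : ℤ) ^ 2 ∣
      qf a0 a1 a2 a3 a4 l m) := by
    intro p hp hpM hpK hdvd
    by_cases hpm : (p : ℤ) ∣ m
    · have hpl := dvd_left_of_dvd_right hp (fun h => hpM (ha0 p hp h))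
        ((dvd_pow_self _ two_ne_zero).trans hdvd) hpm
      exact (Nat.prime_iff_prime_int.1 hp).not_isUnit (hcopr.isUnit_of_dvd' hpl hpm)
    · refine n3 p (mem_pr.2 ⟨hpK, hp, hpM⟩) ?_
      simp only [B3, Finset.mem_filter]
      exact ⟨hw, hpm, hdvd⟩
  have hne : qf a0 a1 a2 a3 a4 l m ≠ 0 := by
    intro h0
    refine hsmall p₀ hp₀ hp₀M' ?_ (by rw [h0]; exact dvd_zero _)
    have : Y ≤ K * Y := Nat.le_mul_of_pos_left _ hK0
    omega
  refine ⟨w.1, w.2, h1, h2, h3, h4, hcopr, fun p hp hpM hdvd => ?_⟩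
  rcases le_or_gt p (K * Y) with hpK | hpK
  · exact hsmall p hp hpM hpK hdvd
  · refine n4 p ?_ ?_
    · rw [hP4, Finset.mem_filter, mem_pr]
      refine ⟨⟨?_, hp, hpM⟩, hpK⟩
      have e1 : (p : ℤ) ^ 2 ≤ |qf a0 a1 a2 a3 a4 l m| :=
        Int.le_of_dvd (abs_pos.2 hne) ((dvd_abs _ _).2 hdvd)
      have e2 := abs_qf_le a0 a1 a2 a3 a4 l m ((Λ * Y : ℕ) : ℤ) hlL
        (by rw [abs_of_pos hm0]; exact hmL)
      have e3 : (p : ℤ) ^ 2 ≤ ((C' * Y ^ 2 : ℕ) : ℤ) ^ 2 := by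
        refine (e1.trans e2).trans ?_
        have e4 : |a0| + |a1| + |a2| + |a3| + |a4| ≤ (H : ℤ) := by rw [hH]; linarith
        have e5 : (H : ℤ) ≤ (H : ℤ) ^ 2 := by
          have : (1 : ℤ) ≤ H := by exact_mod_cast hH0
          nlinarith
        calc (|a0| + |a1| + |a2| + |a3| + |a4|) * ((Λ * Y : ℕ) : ℤ) ^ 4
            ≤ (H : ℤ) ^ 2 * ((Λ * Y : ℕ) : ℤ) ^ 4 := by gcongr; exact e4.trans e5
          _ = ((C' * Y ^ 2 : ℕ) : ℤ) ^ 2 := by rw [hC']; push_cast; ring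
      have e6 : (p : ℤ) ≤ ((C' * Y ^ 2 : ℕ) : ℤ) :=
        (pow_le_pow_iff_left₀ (by positivity) (by positivity) two_ne_zero).1 e3
      exact_mod_cast e6
    · simp only [B4, Finset.mem_filter]
      exact ⟨hw, hcopr, hdvd⟩

end Fermat.Agent.H74.Sv
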