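import Fermat.Agent.H74Sv

/-!
# Squarefree values of the discriminant quartic of the Hesse pencil
-/

namespace Fermat.Agent.H74.Sv

open Polynomial

lemma separable_hesse (c4 c6 : ℤ) (h : c4 ^ 3 ≠ c6 ^ 2) :
    ((qp 1 0 (-6 * c4) (-8 * c6) (-3 * c4 ^ 2)).map (Int.castRingHom ℚ)).Separable := by
  have hκ : (-48 * ((c4 : ℚ) ^ 3 - (c6 : ℚ) ^ 2)) ≠ 0 := by
    have : (c4 : ℚ) ^ 3 - (c6 : ℚ) ^ 2 ≠ 0 := by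
      rw [sub_ne_zero]
      exact_mod_cast h
    simpa using this
  refine ⟨C (-48 * ((c4 : ℚ) ^ 3 - (c6 : ℚ) ^ 2))⁻¹ * (-4 * X ^ 2 + 16 * C (c4 : ℚ)),
    C (-48 * ((c4 : ℚ) ^ 3 - (c6 : ℚ) ^ 2))⁻¹ * (X ^ 3 - 7 * C (c4 : ℚ) * X - 6 * C (c6 : ℚ)),
    ?_⟩
  have h1 : (qp 1 0 (-6 * c4) (-8 * c6) (-3 * c4 ^ 2)).map (Int.castRingHom ℚ) =
      X ^ 4 - 6 * C (c4 : ℚ) * X ^ 2 - 8 * C (c6 : ℚ) * X - 3 * C (c4 : ℚ) ^ 2 := by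
    rw [qp]
    simp only [Polynomial.map_add, Polynomial.map_mul, Polynomial.map_pow, Polynomial.map_C,
      Polynomial.map_X, Int.coe_castRingHom]
    push_cast
    simp only [C_mul, C_neg, C_pow, C_ofNat, C_1, C_0]
    ring
  have h2 : derivative (X ^ 4 - 6 * C (c4 : ℚ) * X ^ 2 - 8 * C (c6 : ℚ) * X -
      3 * C (c4 : ℚ) ^ 2) = 4 * X ^ 3 - 12 * C (c4 : ℚ) * X - 8 * C (c6 : ℚ) := by
    have e : X ^ 4 - 6 * C (c4 : ℚ) * X ^ 2 - 8 * C (c6 : ℚ) * X - 3 * C (c4 : ℚ) ^ 2 =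
        X ^ 4 - C (6 * (c4 : ℚ)) * X ^ 2 - C (8 * (c6 : ℚ)) * X - C (3 * (c4 : ℚ) ^ 2) := by
      simp only [C_mul, C_pow, C_ofNat]
    rw [e]
    simp only [derivative_sub, derivative_X_pow, derivative_C_mul, derivative_C, derivative_X,
      sub_zero, mul_one]
    simp only [C_mul, C_ofNat]
    push_cast
    simp only [map_ofNat]
    ring
  rw [h1, h2]
  have h3 : C (-48 * ((c4 : ℚ) ^ 3 - (c6 : ℚ) ^ 2))⁻¹ * C (-48 * ((c4 : ℚ) ^ 3 - (c6 : ℚ) ^ 2)) =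
      (1 : ℚ[X]) := by
    rw [← C_mul, inv_mul_cancel₀ hκ, C_1]
  have h4 : C (-48 * ((c4 : ℚ) ^ 3 - (c6 : ℚ) ^ 2)) =
      (-48 * (C (c4 : ℚ) ^ 3 - C (c6 : ℚ) ^ 2) : ℚ[X]) := by
    simp only [C_mul, C_sub, C_neg, C_pow, C_ofNat]
  rw [h4] at h3
  rw [← h3]
  ring

/-- **Squarefree sieve for the discriminant quartic of the Hesse pencil.** -/
theorem exists_sqfree_hesse (c4 c6 : ℤ) (h : c4 ^ 3 ≠ c6 ^ 2)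
    (M : ℕ) (hM : 0 < M) (l0 m0 : ℤ)
    (hcop : ∀ p : ℕ, p.Prime → p ∣ M → ¬ ((p : ℤ) ∣ l0 ∧ (p : ℤ) ∣ m0))
    (x0 x1 : ℝ) (hx : x0 < x1) (B : ℕ) :
    ∃ l m : ℤ, (B : ℤ) < m ∧ x0 * m < l ∧ (l : ℝ) < x1 * m ∧ l ≡ l0 [ZMOD M] ∧
      m ≡ m0 [ZMOD M] ∧ IsCoprime l m ∧
      ∀ p : ℕ, p.Prime → ¬ p ∣ M → ¬ ((p : ℤ) ^ 2 ∣
        l ^ 4 - 6 * c4 * l ^ 2 * m ^ 2 - 8 * c6 * l * m ^ 3 - 3 * c4 ^ 2 * m ^ 4) := by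
  obtain ⟨l, m, h1, h2, h3, h4, h5, h6, h7⟩ := exists_sqfree_quartic 1 0 (-6 * c4) (-8 * c6)
    (-3 * c4 ^ 2) one_ne_zero (separable_hesse c4 c6 h) M hM l0 m0 hcop
    (fun p hp _ => ⟨1, 0, by
      rintro ⟨h1, -⟩
      exact (Nat.prime_iff_prime_int.1 hp).not_isUnit (isUnit_of_dvd_one h1), by
      intro h1
      have h2 : qf 1 0 (-6 * c4) (-8 * c6) (-3 * c4 ^ 2) 1 0 = 1 := by rw [qf]; ring
      rw [h2] at h1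
      exact (Nat.prime_iff_prime_int.1 hp).not_isUnit
        (isUnit_of_dvd_one ((dvd_pow_self _ two_ne_zero).trans h1))⟩)
    x0 x1 hx B
  refine ⟨l, m, h1, h2, h3, h4, h5, h6, fun p hp hpM hdvd => h7 p hp hpM ?_⟩
  have e : qf 1 0 (-6 * c4) (-8 * c6) (-3 * c4 ^ 2) l m =
      l ^ 4 - 6 * c4 * l ^ 2 * m ^ 2 - 8 * c6 * l * m ^ 3 - 3 * c4 ^ 2 * m ^ 4 := by
    rw [qf]; ring
  rw [e]
  exact hdvd

end Fermat.Agent.H74.Sv
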