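import Fermat.Agent.H74SvH

/-!
# Squarefree values of the quartic `P` attached to a Weierstrass curve
-/

namespace Fermat.Agent.H74.Sv

open Polynomial

lemma separable_P (W : WeierstrassCurve ℤ) (hΔ : W.Δ ≠ 0) :
    ((qp 1 W.b₂ (9 * W.b₄) (27 * W.b₆) (27 * W.b₈)).map (Int.castRingHom ℚ)).Separable := by
  set κ : ℚ := -48 * (1728 * (W.Δ : ℚ)) with hκd
  have hκ : κ ≠ 0 := by
    have : (W.Δ : ℚ) ≠ 0 := by exact_mod_cast hΔ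
    simp [hκd, this]
  set b2 : ℚ := (W.b₂ : ℚ) with hb2
  set b4 : ℚ := (W.b₄ : ℚ) with hb4
  set b6 : ℚ := (W.b₆ : ℚ) with hb6
  set b8 : ℚ := (W.b₈ : ℚ) with hb8
  have hrel : 4 * b8 = b2 * b6 - b4 ^ 2 := by
    have := W.b_relation
    simp only [hb2, hb4, hb6, hb8]
    exact_mod_cast this
  set c4 : ℚ := b2 ^ 2 - 24 * b4 with hc4
  set c6 : ℚ := -b2 ^ 3 + 36 * b2 * b4 - 216 * b6 with hc6
  have hκ' : κ = -48 * (c4 ^ 3 - c6 ^ 2) := by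
    have h := W.c_relation
    have h' : (1728 : ℚ) * W.Δ = (W.c₄ : ℚ) ^ 3 - (W.c₆ : ℚ) ^ 2 := by exact_mod_cast h
    rw [hκd, h']
    congr 2
    · rw [WeierstrassCurve.c₄]; push_cast; rfl
    · rw [WeierstrassCurve.c₆]; push_cast; rfl
  refine ⟨C κ⁻¹ * ((-4 * (4 * X + C b2) ^ 2 + 16 * C c4) * 256),
    C κ⁻¹ * (((4 * X + C b2) ^ 3 - 7 * C c4 * (4 * X + C b2) - 6 * C c6) * 64), ?_⟩
  have h1 : (qp 1 W.b₂ (9 * W.b₄) (27 * W.b₆) (27 * W.b₈)).map (Int.castRingHom ℚ) =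
      X ^ 4 + C b2 * X ^ 3 + 9 * C b4 * X ^ 2 + 27 * C b6 * X + 27 * C b8 := by
    rw [qp]
    simp only [Polynomial.map_add, Polynomial.map_mul, Polynomial.map_pow, Polynomial.map_C,
      Polynomial.map_X, Int.coe_castRingHom]
    push_cast
    simp only [C_mul, C_ofNat, C_1, ← hb2, ← hb4, ← hb6, ← hb8]
    ring
  have h2 : derivative (X ^ 4 + C b2 * X ^ 3 + 9 * C b4 * X ^ 2 + 27 * C b6 * X + 27 * C b8) =
      4 * X ^ 3 + 3 * C b2 * X ^ 2 + 18 * C b4 * X + 27 * C b6 := by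
    have e : X ^ 4 + C b2 * X ^ 3 + 9 * C b4 * X ^ 2 + 27 * C b6 * X + 27 * C b8 =
        X ^ 4 + C b2 * X ^ 3 + C (9 * b4) * X ^ 2 + C (27 * b6) * X + C (27 * b8) := by
      simp only [C_mul, C_ofNat]
    rw [e]
    simp only [derivative_add, derivative_X_pow, derivative_C_mul, derivative_C, derivative_X,
      add_zero, mul_one]
    simp only [C_mul, C_ofNat]
    push_cast
    simp only [map_ofNat]
    ring
  rw [h1, h2]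
  have h3 : C κ⁻¹ * C κ = (1 : ℚ[X]) := by rw [← C_mul, inv_mul_cancel₀ hκ, C_1]
  have h4 : C κ = (-48 * (C c4 ^ 3 - C c6 ^ 2) : ℚ[X]) := by
    rw [hκ']
    simp only [C_mul, C_sub, C_neg, C_pow, C_ofNat]
  rw [h4] at h3
  have h5 : (C c4 : ℚ[X]) = C b2 ^ 2 - 24 * C b4 := by
    rw [hc4]; simp only [C_mul, C_sub, C_pow, C_ofNat]
  have h6 : (C c6 : ℚ[X]) = - C b2 ^ 3 + 36 * C b2 * C b4 - 216 * C b6 := by
    rw [hc6]; simp only [C_mul, C_sub, C_add, C_neg, C_pow, C_ofNat]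
  have h7 : 4 * (C b8 : ℚ[X]) = C b2 * C b6 - C b4 ^ 2 := by
    rw [← C_mul, ← C_pow, ← C_sub, ← hrel]; simp only [C_mul, C_ofNat]
  have key : (-4 * (4 * X + C b2) ^ 2 + 16 * C c4) * 256 *
      (X ^ 4 + C b2 * X ^ 3 + 9 * C b4 * X ^ 2 + 27 * C b6 * X + 27 * C b8) +
      ((4 * X + C b2) ^ 3 - 7 * C c4 * (4 * X + C b2) - 6 * C c6) * 64 *
      (4 * X ^ 3 + 3 * C b2 * X ^ 2 + 18 * C b4 * X + 27 * C b6) =
      (-48 * (C c4 ^ 3 - C c6 ^ 2) : ℚ[X]) := by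
    rw [h5, h6]
    linear_combination ((-4 * (4 * X + C b2) ^ 2 + 16 * (C b2 ^ 2 - 24 * C b4)) * 64 * 27) * h7
  rw [← h3, ← key]
  ring

/-- **Squarefree sieve for the quartic of a Weierstrass curve.** -/
theorem exists_sqfree_P (W : WeierstrassCurve ℤ) (hΔ : W.Δ ≠ 0)
    (M : ℕ) (hM : 0 < M) (l0 m0 : ℤ)
    (hcop : ∀ p : ℕ, p.Prime → p ∣ M → ¬ ((p : ℤ) ∣ l0 ∧ (p : ℤ) ∣ m0))
    (x0 x1 : ℝ) (hx : x0 < x1) (B : ℕ) :
    ∃ l m : ℤ, (B : ℤ) < m ∧ x0 * m < l ∧ (l : ℝ) < x1 * m ∧ l ≡ l0 [ZMOD M] ∧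
      m ≡ m0 [ZMOD M] ∧ IsCoprime l m ∧
      ∀ p : ℕ, p.Prime → ¬ p ∣ M → ¬ ((p : ℤ) ^ 2 ∣
        l ^ 4 + W.b₂ * l ^ 3 * m + 9 * W.b₄ * l ^ 2 * m ^ 2 + 27 * W.b₆ * l * m ^ 3 +
          27 * W.b₈ * m ^ 4) := by
  obtain ⟨l, m, h1, h2, h3, h4, h5, h6, h7⟩ := exists_sqfree_quartic 1 W.b₂ (9 * W.b₄)
    (27 * W.b₆) (27 * W.b₈) one_ne_zero (separable_P W hΔ) M hM l0 m0 hcop
    (fun p hp _ => ⟨1, 0, by
      rintro ⟨h1, -⟩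
      exact (Nat.prime_iff_prime_int.1 hp).not_isUnit (isUnit_of_dvd_one h1), by
      intro h1
      have h2 : qf 1 W.b₂ (9 * W.b₄) (27 * W.b₆) (27 * W.b₈) 1 0 = 1 := by rw [qf]; ring
      rw [h2] at h1
      exact (Nat.prime_iff_prime_int.1 hp).not_isUnit
        (isUnit_of_dvd_one ((dvd_pow_self _ two_ne_zero).trans h1))⟩)
    x0 x1 hx B
  refine ⟨l, m, h1, h2, h3, h4, h5, h6, fun p hp hpM hdvd => h7 p hp hpM ?_⟩
  have e : qf 1 W.b₂ (9 * W.b₄) (27 * W.b₆) (27 * W.b₈) l m =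
      l ^ 4 + W.b₂ * l ^ 3 * m + 9 * W.b₄ * l ^ 2 * m ^ 2 + 27 * W.b₆ * l * m ^ 3 +
          27 * W.b₈ * m ^ 4 := by
    rw [qf]; ring
  rw [e]
  exact hdvd

end Fermat.Agent.H74.Sv
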