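import Fermat.Agent.H62NE

/-!
# Frobenius elements without eigenvalue, transfer of congruences (project LT-X2)
-/

set_option autoImplicit false
set_option linter.style.haveILetI false

namespace Fermat.Agent.H74.X

open Module

section lin

variable {k V : Type*} [Field k] [AddCommGroup V] [Module k V]

/-- Cayley-Hamilton in rank two -/
lemma ch2 (h2 : finrank k V = 2) (f : Module.End k V) :
    f * f = LinearMap.trace k V f • f - LinearMap.det f • (1 : Module.End k V) := by
  have := H62.finite_of_two h2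
  have h1 := LinearMap.aeval_self_charpoly f
  rw [H86.charpoly_eq_of_finrank_two h2] at h1
  simp only [map_add, map_sub, map_mul, map_pow, Polynomial.aeval_X, Polynomial.aeval_C,
    Algebra.algebraMap_eq_smul_one, smul_mul_assoc, one_mul] at h1
  rw [pow_two] at h1
  rw [← sub_eq_zero, ← h1]
  abel

/-- `f` has the eigenvalue `μ` iff `μ` is a root of the characteristic polynomial -/
lemma det_sub_smul (h2 : finrank k V = 2) (f : Module.End k V) (μ : k) :
    LinearMap.det (f - μ • (1 : Module.End k V)) =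
      μ ^ 2 - LinearMap.trace k V f * μ + LinearMap.det f := by
  have := H62.finite_of_two h2
  have h1 := congrArg (Polynomial.eval μ) (H86.charpoly_eq_of_finrank_two h2 f)
  rw [LinearMap.eval_charpoly] at h1
  simp only [Polynomial.eval_add, Polynomial.eval_sub, Polynomial.eval_pow, Polynomial.eval_X,
    Polynomial.eval_mul, Polynomial.eval_C] at h1
  have h3 : f - μ • (1 : Module.End k V) =
      (-1 : k) • (algebraMap k (Module.End k V) μ - f) := by
    rw [neg_one_smul, Algebra.algebraMap_eq_smul_one]; abel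
  rw [h3, LinearMap.det_smul, h2, h1]
  ring

/-- `f` has an eigenvalue in `k` -/
def HasEig (f : Module.End k V) : Prop := ∃ μ : k, LinearMap.det (f - μ • (1 : Module.End k V)) = 0

lemma hasEig_pow {f : Module.End k V} (h : HasEig f) (j : ℕ) : HasEig (f ^ j) := by
  obtain ⟨μ, hμ⟩ := h
  refine ⟨μ ^ j, ?_⟩
  have hc : Commute f (μ • (1 : Module.End k V)) := by
    rw [Commute, SemiconjBy, mul_smul_comm, smul_mul_assoc, mul_one, one_mul]
  have h1 : f ^ j - μ ^ j • (1 : Module.End k V) = f ^ j - (μ • (1 : Module.End k V)) ^ j := by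
    rw [smul_pow, one_pow]
  rw [h1, ← hc.geom_sum₂_mul, map_mul, hμ, mul_zero]

lemma hasEig_iff (h2 : finrank k V = 2) (f : Module.End k V) :
    HasEig f ↔ ∃ μ : k, μ ^ 2 - LinearMap.trace k V f * μ + LinearMap.det f = 0 := by
  unfold HasEig
  simp only [det_sub_smul h2]

end lin

section group

variable {V : Type*} [AddCommGroup V] [Module (ZMod 3) V] {G : Type*} [Group G]
  {ρ : G →* Module.End (ZMod 3) V}

lemma key3 (x y z w : ZMod 3) : y ≠ 0 → z ≠ 0 → x * w - y * z ≠ 0 →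
    (∀ μ : ZMod 3, μ ^ 2 - (x + w) * μ + (x * w - y * z) ≠ 0) ∨
    (∀ μ : ZMod 3, μ ^ 2 - (x + -w) * μ + (x * (-w) - y * (-z)) ≠ 0) := by
  revert w
  revert z
  revert y
  revert x
  have h : ∀ x : Fin 3, ∀ y : Fin 3, ∀ z : Fin 3, ∀ w : Fin 3, y ≠ 0 → z ≠ 0 → x * w - y * z ≠ 0 →
    (∀ μ : Fin 3, μ * μ - (x + w) * μ + (x * w - y * z) ≠ 0) ∨
    (∀ μ : Fin 3, μ * μ - (x + -w) * μ + (x * (-w) - y * (-z)) ≠ 0) := by decide
  intro x y z w h1 h2 h3
  rcases h x y z w h1 h2 h3 with h4 | h4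
  · left; intro μ; rw [pow_two]; exact h4 μ
  · right; intro μ; rw [pow_two]; exact h4 μ

/-- an odd irreducible mod 3 representation contains an element without eigenvalue -/
theorem exists_not_hasEig (h2 : finrank (ZMod 3) V = 2) (hirr : H62.Irr ρ) {c : G}
    (hc : ρ c * ρ c = 1) (hdet : LinearMap.det (ρ c) = -1) : ∃ g, ¬ HasEig (ρ g) := by
  classical
  have hfin := H62.finite_of_two h2
  have htr : LinearMap.trace (ZMod 3) V (ρ c) = 0 := by
    have h1 := ch2 h2 (ρ c)
    rw [hc, hdet] at h1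
    have h3 : LinearMap.trace (ZMod 3) V (ρ c) • ρ c = 0 := by
      rw [neg_one_smul, sub_neg_eq_add] at h1
      have := sub_eq_zero.2 h1.symm
      simpa using this
    rcases smul_eq_zero.1 h3 with h | h
    · exact h
    · rw [h, zero_mul] at hc
      have h0 : Subsingleton V := by
        refine ⟨fun x y => ?_⟩
        have hx := LinearMap.congr_fun hc x
        have hy := LinearMap.congr_fun hc y
        simp only [LinearMap.zero_apply, Module.End.one_apply] at hx hy
        rw [← hx, ← hy]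
      rw [Module.finrank_zero_of_subsingleton] at h2
      omega
  have hp : LinearMap.det (ρ c - 1) = 0 := by
    rw [H62.det_sub_one h2, htr, hdet]; ring
  have hm : LinearMap.det (ρ c + 1) = 0 := by
    rw [H62.det_add_one h2, htr, hdet]; ring
  obtain ⟨v, hv0, hv⟩ : ∃ v : V, v ≠ 0 ∧ ρ c v = v := by
    obtain ⟨v, hv, hv0⟩ := (Submodule.ne_bot_iff _).1 (LinearMap.bot_lt_ker_of_det_eq_zero hp).ne'
    refine ⟨v, hv0, ?_⟩
    rw [LinearMap.mem_ker, LinearMap.sub_apply, Module.End.one_apply, sub_eq_zero] at hv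
    exact hv
  obtain ⟨u, hu0, hu⟩ : ∃ u : V, u ≠ 0 ∧ ρ c u = -u := by
    obtain ⟨v, hv, hv0⟩ := (Submodule.ne_bot_iff _).1 (LinearMap.bot_lt_ker_of_det_eq_zero hm).ne'
    refine ⟨v, hv0, ?_⟩
    rw [LinearMap.mem_ker, LinearMap.add_apply, Module.End.one_apply, add_eq_zero_iff_eq_neg] at hv
    exact hv
  have hli : LinearIndependent (ZMod 3) ![v, u] := by
    rw [LinearIndependent.pair_iff]
    intro s t hst
    have h1 := congrArg (ρ c) hst
    rw [map_add, map_smul, map_smul, hv, hu, map_zero, smul_neg] at h1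
    have h3 : (2 * s) • v = 0 := by
      have : (2 * s) • v = (s • v + t • u) + (s • v + -(t • u)) := by
        rw [two_mul, add_smul]; abel
      rw [this, hst, h1, add_zero]
    have h4 : (2 * t) • u = 0 := by
      have : (2 * t) • u = (s • v + t • u) - (s • v + -(t • u)) := by
        rw [two_mul, add_smul]; abel
      rw [this, hst, h1, sub_zero]
    have h20 : (2 : ZMod 3) ≠ 0 := by decide
    exact ⟨(mul_eq_zero.1 ((smul_eq_zero.1 h3).resolve_right hv0)).resolve_left h20,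
      (mul_eq_zero.1 ((smul_eq_zero.1 h4).resolve_right hu0)).resolve_left h20⟩
  let b : Basis (Fin 2) (ZMod 3) V := basisOfLinearIndependentOfCardEqFinrank hli (by
    rw [h2, Fintype.card_fin])
  have hb0 : b 0 = v := by simp [b]
  have hb1 : b 1 = u := by simp [b]
  let M : G → Matrix (Fin 2) (Fin 2) (ZMod 3) := fun g => LinearMap.toMatrix b b (ρ g)
  have hMmul : ∀ g h, M (g * h) = M g * M h := by
    intro g h
    simp only [M]
    rw [map_mul, LinearMap.toMatrix_mul]
  have hM : ∀ g i j, M g i j = b.repr (ρ g (b j)) i := fun g i j => LinearMap.toMatrix_apply _ _ _ _ _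
  have hdetM : ∀ g, (M g).det ≠ 0 := by
    intro g h
    have h1 : M g * M g⁻¹ = 1 := by
      rw [← hMmul, mul_inv_cancel]
      simp only [M, map_one, LinearMap.toMatrix_one]
    have := congrArg Matrix.det h1
    rw [Matrix.det_mul, h, zero_mul, Matrix.det_one] at this
    exact absurd this (by decide)
  have hMc : M c = !![1, 0; 0, -1] := by
    ext i j
    rw [hM]
    fin_cases j
    · have : ρ c (b 0) = b 0 := by rw [hb0, hv]
      simp only [Fin.zero_eta, this, Basis.repr_self]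
      fin_cases i <;> simp
    · have : ρ c (b 1) = - b 1 := by rw [hb1, hu]
      simp only [Fin.mk_one, this, map_neg, Basis.repr_self]
      fin_cases i <;> simp
  -- the eigenvalue condition in terms of the matrix
  have hE : ∀ g, HasEig (ρ g) ↔ ∃ μ : ZMod 3,
      μ ^ 2 - (M g 0 0 + M g 1 1) * μ + (M g 0 0 * M g 1 1 - M g 0 1 * M g 1 0) = 0 := by
    intro g
    rw [hasEig_iff h2]
    have e1 : LinearMap.trace (ZMod 3) V (ρ g) = M g 0 0 + M g 1 1 := by
      rw [LinearMap.trace_eq_matrix_trace (ZMod 3) b, Matrix.trace_fin_two]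
    have e2 : LinearMap.det (ρ g) = M g 0 0 * M g 1 1 - M g 0 1 * M g 1 0 := by
      rw [← LinearMap.det_toMatrix b, Matrix.det_fin_two]
    rw [e1, e2]
  -- an element with both off-diagonal entries non zero
  obtain ⟨g, hg1, hg2⟩ : ∃ g, M g 0 1 ≠ 0 ∧ M g 1 0 ≠ 0 := by
    have hz : ∃ g, M g 1 0 ≠ 0 := by
      by_contra hcon
      push Not at hcon
      rcases hirr (Submodule.span (ZMod 3) {v}) (by
        intro g x hx
        obtain ⟨r, rfl⟩ := Submodule.mem_span_singleton.1 hx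
        rw [map_smul]
        refine Submodule.smul_mem _ _ ?_
        have h3 := b.sum_repr (ρ g v)
        rw [Fin.sum_univ_two, hb0, hb1] at h3
        have h4 := hcon g
        rw [hM, hb0] at h4
        rw [h4, zero_smul, add_zero] at h3
        rw [← h3]
        exact Submodule.smul_mem _ _ (Submodule.mem_span_singleton_self v)) with h | h
      · rw [Submodule.span_singleton_eq_bot] at h
        exact hv0 h
      · have hmem : u ∈ Submodule.span (ZMod 3) {v} := by rw [h]; trivial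
        obtain ⟨r, hr⟩ := Submodule.mem_span_singleton.1 hmem
        have h5 := (LinearIndependent.pair_iff.1 hli) r (-1) (by rw [hr, neg_one_smul]; abel)
        exact absurd h5.2 (by decide)
    have hy : ∃ g, M g 0 1 ≠ 0 := by
      by_contra hcon
      push Not at hcon
      rcases hirr (Submodule.span (ZMod 3) {u}) (by
        intro g x hx
        obtain ⟨r, rfl⟩ := Submodule.mem_span_singleton.1 hx
        rw [map_smul]
        refine Submodule.smul_mem _ _ ?_
        have h3 := b.sum_repr (ρ g u)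
        rw [Fin.sum_univ_two, hb0, hb1] at h3
        have h4 := hcon g
        rw [hM, hb1] at h4
        rw [h4, zero_smul, zero_add] at h3
        rw [← h3]
        exact Submodule.smul_mem _ _ (Submodule.mem_span_singleton_self u)) with h | h
      · rw [Submodule.span_singleton_eq_bot] at h
        exact hu0 h
      · have hmem : v ∈ Submodule.span (ZMod 3) {u} := by rw [h]; trivial
        obtain ⟨r, hr⟩ := Submodule.mem_span_singleton.1 hmem
        have h5 := (LinearIndependent.pair_iff.1 hli) (-1) r (by rw [hr, neg_one_smul]; abel)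
        exact absurd h5.1 (by decide)
    obtain ⟨g, hg⟩ := hz
    obtain ⟨h, hh⟩ := hy
    by_cases h3 : M g 0 1 = 0
    · by_cases h4 : M h 1 0 = 0
      · refine ⟨g * h, ?_, ?_⟩
        · rw [hMmul, Matrix.mul_apply, Fin.sum_univ_two, h3, zero_mul, add_zero]
          refine mul_ne_zero ?_ hh
          intro h5
          apply hdetM g
          rw [Matrix.det_fin_two, h3, h5]; ring
        · rw [hMmul, Matrix.mul_apply, Fin.sum_univ_two, h4, mul_zero, add_zero]
          refine mul_ne_zero hg ?_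
          intro h5
          apply hdetM h
          rw [Matrix.det_fin_two, h4, h5]; ring
      · exact ⟨h, hh, h4⟩
    · exact ⟨g, h3, hg⟩
  rcases key3 (M g 0 0) (M g 0 1) (M g 1 0) (M g 1 1) hg1 hg2 (by
    have := hdetM g
    rwa [Matrix.det_fin_two] at this) with h | h
  · exact ⟨g, fun hcon => by
      obtain ⟨μ, hμ⟩ := (hE g).1 hcon
      exact h μ hμ⟩
  · refine ⟨c * g, fun hcon => ?_⟩
    obtain ⟨μ, hμ⟩ := (hE _).1 hcon
    apply h μ
    rw [← hμ, hMmul, hMc]
    simp [Matrix.mul_apply, Fin.sum_univ_two]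

end group

section curve

open WeierstrassCurve WeierstrassCurve.Affine WeierstrassCurve.Affine.Point

local notation "Qb" => AlgebraicClosure ℚ
local notation "Gq" => (AlgebraicClosure ℚ ≃ₐ[ℚ] AlgebraicClosure ℚ)

variable {W W' : WeierstrassCurve ℤ}

/-- a prime at which Frobenius has no eigenvalue on `W[3]` -/
theorem exists_prime_noeig (hΔ : W.Δ ≠ 0) (hirr : W.ModRepIsIrreducible 3) {B : ℕ} (hB : 0 < B) :
    ∃ ℓ, ℓ.Prime ∧ W.IsGoodPrimeFor ℓ ∧ ¬ ℓ ∣ B ∧ ℓ ≠ 3 ∧
      ∀ μ : ZMod 3, μ ^ 2 - (W.apOfModel ℓ : ZMod 3) * μ + (ℓ : ZMod 3) ≠ 0 := by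
  classical
  have : Fact (Nat.Prime 3) := ⟨Nat.prime_three⟩
  have hΔ' := H62.map_Δ_ne_zero hΔ
  have h2 := H87.EC.finrank_torsionBy_rat (W.map (Int.castRingHom ℚ)) hΔ' (n := 3) (by norm_num)
    (by norm_num)
  obtain ⟨g, hg⟩ := exists_not_hasEig h2 (H62.irr_of_modRepIsIrreducible hirr)
    (H62.sq_complexConjugation _ 3) (H62.det_complexConjugation _ hΔ')
  obtain ⟨ℓ, hℓ, hℓS, A, hA, φ, hφ, j, k, h3, h4⟩ := H86.density_hom H86.frobDensityFinite
    (H87.EC.galoisFactorsThroughFiniteLevel (W.map (Int.castRingHom ℚ)) hΔ' (n := 3)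
      (by norm_num)) g (3 * B * W.Δ.natAbs).primeFactors
  have hne : 3 * B * W.Δ.natAbs ≠ 0 :=
    mul_ne_zero (mul_ne_zero (by norm_num) hB.ne') (Int.natAbs_ne_zero.mpr hΔ)
  have hndvd : ¬ ℓ ∣ 3 * B * W.Δ.natAbs := fun h =>
    hℓS (Nat.mem_primeFactors.mpr ⟨hℓ, h, hne⟩)
  have hℓp : ¬ ℓ ∣ 3 := fun h => hndvd ((h.mul_right B).mul_right _)
  have hℓB : ¬ ℓ ∣ B := fun h => hndvd ((h.mul_left 3).mul_right _)
  have hgood : W.IsGoodPrimeFor ℓ := fun h =>
    hndvd ((Int.natCast_dvd.mp h).mul_left _)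
  refine ⟨ℓ, hℓ, hgood, hℓB, fun h => hℓp (h ▸ dvd_rfl), fun μ hμ => hg ?_⟩
  rw [h3]
  apply hasEig_pow
  rw [hasEig_iff h2]
  refine ⟨μ, ?_⟩
  rw [H62.trace_frob_rat W hℓ hgood hℓp hA hφ, H62.det_frob_rat W hℓ hgood hℓp hA hφ]
  exact hμ

/-- irreducibility from one Frobenius element without eigenvalue -/
theorem irr_of_noeig {p : ℕ} [hp : Fact p.Prime] (hΔ : W.Δ ≠ 0) {ℓ : ℕ} (hℓ : ℓ.Prime)
    (hgood : W.IsGoodPrimeFor ℓ) (hℓp : ℓ ≠ p)
    (h : ∀ μ : ZMod p, μ ^ 2 - (W.apOfModel ℓ : ZMod p) * μ + (ℓ : ZMod p) ≠ 0) :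
    W.ModRepIsIrreducible p := by
  classical
  have hΔ' := H62.map_Δ_ne_zero hΔ
  have h2 := H87.EC.finrank_torsionBy_rat (W.map (Int.castRingHom ℚ)) hΔ' hp.out.ne_zero
    hp.out.ne_one
  have hfin := H62.finite_of_two h2
  have hndvd : ¬ ℓ ∣ p := fun h => hℓp ((Nat.prime_dvd_prime_iff_eq hℓ hp.out).1 h)
  obtain ⟨A, hA⟩ := H54.exists_liesOverPrime hℓ
  obtain ⟨φ, hφ⟩ := H54.exists_isFrobeniusAt hℓ hA
  refine ⟨Module.nontrivial_of_finrank_pos (R := ZMod p) (by omega), fun N hN => ?_⟩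
  by_contra hcon
  push Not at hcon
  have h1 : finrank (ZMod p) N = 1 := by
    have h3 : 0 < finrank (ZMod p) N := by
      rw [Module.finrank_pos_iff, Submodule.nontrivial_iff_ne_bot]
      exact hcon.1
    have h4 : finrank (ZMod p) N < 2 := by
      rw [← h2]
      exact Submodule.finrank_lt hcon.2
    omega
  obtain ⟨⟨v, hvN⟩, hv0, hv⟩ := finrank_eq_one_iff'.1 h1
  have hv0' : v ≠ 0 := fun h => hv0 (Subtype.ext h)
  obtain ⟨μ, hμ⟩ := hv ⟨φ • v, hN φ v hvN⟩
  have hμ' : φ • v = μ • v := (congrArg Subtype.val hμ).symm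
  have hdet : LinearMap.det (galoisRepModuleEnd (K := Qb) ℚ (W.map (Int.castRingHom ℚ)) p φ -
      μ • (1 : Module.End (ZMod p) _)) = 0 := by
    by_contra hd
    have hu : IsUnit (galoisRepModuleEnd (K := Qb) ℚ (W.map (Int.castRingHom ℚ)) p φ -
      μ • (1 : Module.End (ZMod p) _)) := by
      rw [LinearMap.isUnit_iff_isUnit_det]
      exact isUnit_iff_ne_zero.2 hd
    apply hv0'
    have hinj := ((Module.End.isUnit_iff _).1 hu).1
    apply hinj
    rw [_root_.map_zero, LinearMap.sub_apply, LinearMap.smul_apply, Module.End.one_apply,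
      galoisRepModuleEnd_apply, hμ', sub_self]
  rw [det_sub_smul h2, H62.trace_frob_rat W hℓ hgood hndvd hA hφ,
    H62.det_frob_rat W hℓ hgood hndvd hA hφ] at hdet
  exact h μ hdet

/-- congruences outside a finite set extend to all good primes -/
theorem congr_of_almost {p : ℕ} [hp : Fact p.Prime] (hΔ : W.Δ ≠ 0) (hΔ' : W'.Δ ≠ 0)
    (S : Finset ℕ)
    (h : ∀ ℓ : ℕ, ℓ.Prime → ℓ ∉ S → W.IsGoodPrimeFor ℓ → W'.IsGoodPrimeFor ℓ → ℓ ≠ p →
      (p : ℤ) ∣ (W'.apOfModel ℓ - W.apOfModel ℓ))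
    (ℓ : ℕ) (hℓ : ℓ.Prime) (hg : W.IsGoodPrimeFor ℓ) (hg' : W'.IsGoodPrimeFor ℓ) (hℓp : ℓ ≠ p) :
    (p : ℤ) ∣ (W'.apOfModel ℓ - W.apOfModel ℓ) := by
  classical
  have hE := H62.map_Δ_ne_zero hΔ
  have hE' := H62.map_Δ_ne_zero hΔ'
  have h2 := H87.EC.finrank_torsionBy_rat (W.map (Int.castRingHom ℚ)) hE hp.out.ne_zero
    hp.out.ne_one
  have h2' := H87.EC.finrank_torsionBy_rat (W'.map (Int.castRingHom ℚ)) hE' hp.out.ne_zero
    hp.out.ne_one
  have hfin := H62.finite_of_two h2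
  have hfin' := H62.finite_of_two h2'
  have hndvd : ¬ ℓ ∣ p := fun h => hℓp ((Nat.prime_dvd_prime_iff_eq hℓ hp.out).1 h)
  obtain ⟨A, hA⟩ := H54.exists_liesOverPrime hℓ
  obtain ⟨σ, hσ⟩ := H54.exists_isFrobeniusAt hℓ hA
  obtain ⟨L, hL1, hL⟩ := H87.EC.galoisFactorsThroughFiniteLevel (W.map (Int.castRingHom ℚ)) hE
    hp.out.ne_zero
  obtain ⟨L', hL1', hL'⟩ := H87.EC.galoisFactorsThroughFiniteLevel (W'.map (Int.castRingHom ℚ)) hE'
    hp.out.ne_zero
  have hfd : FiniteDimensional ℚ (L ⊔ L' : IntermediateField ℚ Qb) :=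
    IntermediateField.finiteDimensional_sup _ _
  obtain ⟨q, h3, h4, B, h5, φ, h6, j, k, h7, h8⟩ := H86.frobenius_density H86.frobDensityFinite
    (L ⊔ L') σ (S ∪ (p * W.Δ.natAbs * W'.Δ.natAbs).primeFactors)
  have hne : p * W.Δ.natAbs * W'.Δ.natAbs ≠ 0 :=
    mul_ne_zero (mul_ne_zero hp.out.ne_zero (Int.natAbs_ne_zero.mpr hΔ))
      (Int.natAbs_ne_zero.mpr hΔ')
  have hnd : ¬ q ∣ p * W.Δ.natAbs * W'.Δ.natAbs := fun h =>
    h4 (Finset.mem_union_right _ (Nat.mem_primeFactors.mpr ⟨h3, h, hne⟩))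
  have hqp : ¬ q ∣ p := fun h => hnd ((h.mul_right _).mul_right _)
  have hq : W.IsGoodPrimeFor q := fun h => hnd (((Int.natCast_dvd.mp h).mul_left _).mul_right _)
  have hq' : W'.IsGoodPrimeFor q := fun h => hnd ((Int.natCast_dvd.mp h).mul_left _)
  have hcong := h q h3 (fun hS => h4 (Finset.mem_union_left _ hS)) hq hq'
    (fun h => hqp (h ▸ dvd_rfl))
  have e1 : galoisRepModuleEnd (K := Qb) ℚ (W.map (Int.castRingHom ℚ)) p σ =
      galoisRepModuleEnd (K := Qb) ℚ (W.map (Int.castRingHom ℚ)) p φ ^ j := by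
    rw [← _root_.map_pow]
    exact H86.map_eq_of_forall_mem hL fun x hx => h7 x ((le_sup_left : L ≤ _) hx)
  have e2 : galoisRepModuleEnd (K := Qb) ℚ (W'.map (Int.castRingHom ℚ)) p σ =
      galoisRepModuleEnd (K := Qb) ℚ (W'.map (Int.castRingHom ℚ)) p φ ^ j := by
    rw [← _root_.map_pow]
    exact H86.map_eq_of_forall_mem hL' fun x hx => h7 x ((le_sup_right : L' ≤ _) hx)
  have t1 := H62.trace_frob_rat W hℓ hg hndvd hA hσ
  have t2 := H62.trace_frob_rat W' hℓ hg' hndvd hA hσ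
  rw [e1, H86.trace_pow_eq_dickson h2, H62.trace_frob_rat W h3 hq hqp h5 h6,
    H62.det_frob_rat W h3 hq hqp h5 h6] at t1
  rw [e2, H86.trace_pow_eq_dickson h2', H62.trace_frob_rat W' h3 hq' hqp h5 h6,
    H62.det_frob_rat W' h3 hq' hqp h5 h6] at t2
  have e3 : (W'.apOfModel q : ZMod p) = (W.apOfModel q : ZMod p) := by
    have := (ZMod.intCast_zmod_eq_zero_iff_dvd _ p).2 hcong
    push_cast at this
    exact sub_eq_zero.1 this
  rw [e3, t1] at t2
  rw [← ZMod.intCast_zmod_eq_zero_iff_dvd]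
  push_cast
  rw [t2, sub_self]

end curve

end Fermat.Agent.H74.X
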