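import Fermat.Agent.H35InB1
import Fermat.Agent.H86InPH
import Fermat.Agent.H10NE
import Fermat.Agent.H30S59b
import Fermat.Agent.S29

/-!
# S38, levels divisible by `p`: the marks at `p` vanish at all points of the levels `M₁ p ∏ Q`

`M₁` prime to `p`, `W[p]` not residually modular of level `M₁`, `Q` Taylor-Wiles primes.
-/

set_option autoImplicit false
set_option linter.style.haveILetI false
set_option linter.unusedSectionVars false

noncomputable section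

open IsLocalRing Polynomial GaloisRep CuspForm
open Fermat.Agent.H87.Glue (resZ)
open Fermat.Agent.H59 (Tset thetaW thetaW_X)
open Fermat.Agent.H37.Rank Fermat.Agent.H37.NN Fermat.Agent.H30 Fermat.Agent.H86.In
open Fermat.Agent.H53 (GQ M2 MCont toMat mapMat PlaceData PData GalLevelB)
open Fermat.Agent.H75P (OrdMark MarkElts OrdI cj DetC UU)

namespace Fermat.Agent.H75.D

variable {W : WeierstrassCurve ℤ} {hΔ : W.Δ ≠ 0} {p : ℕ} [hp : Fact p.Prime]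
  {O : Type} [CommRing O] [IsDomain O] [IsDiscreteValuationRing O]
  [IsAdicComplete (maximalIdeal O) O] [CharZero O] [Finite (ResidueField O)]
  [Algebra (ZMod p) (ResidueField O)]
  {b : Module.Basis (Fin 2) (ResidueField O) ((resZ W hΔ p).baseChange (ResidueField O)).V}
  {A T B : Finset ℕ}
  (hpO : (p : O) ∈ maximalIdeal O) [CharP (ResidueField O) p]

include hpO in
/-- **The marks `t`, `z` at `p` vanish** at all points of the level `M₁ p ∏ Q`. -/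
theorem vanishAt_marks (hp2 : p ≠ 2)
    (hdet : (GaloisRepAdic.ofResidualGaloisRep
      ((resZ W hΔ p).baseChange (ResidueField O))).DetIsCyclotomic p)
    (hord : (GaloisRepAdic.ofResidualGaloisRep
      ((resZ W hΔ p).baseChange (ResidueField O))).IsOrdinaryAt p)
    {φ σ₀ : GQ} (hm : MarkElts p φ σ₀)
    (hr0 : toMat ((resZ W hΔ p).baseChange (ResidueField O)).ρ b σ₀ = 1) (w : ℤ) (hw : w ^ 2 = 1)
    {g₀ : (M2 (ResidueField O))ˣ}
    (hg₀ : OrdI p (cj g₀ (toMat ((resZ W hΔ p).baseChange (ResidueField O)).ρ b)))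
    (hu : cj g₀ (toMat ((resZ W hΔ p).baseChange (ResidueField O)).ρ b) φ 1 1 =
      (w : ResidueField O))
    (hirr : W.ModRepIsIrreducible p)
    (hirrk : ((resZ W hΔ p).baseChange (ResidueField O)).IsIrreducible)
    {M₁ : ℕ} (hsq : Squarefree M₁) (hpM₁ : ¬ p ∣ M₁)
    (hg : ∀ M' : ℕ, M₁ ∣ M' → H70.Coh.Good M' O)
    (hno : ¬ W.IsResiduallyModularOfLevel p M₁)
    {pl : ∀ t : Tset T, PlaceData p t.1} {u : Tset T → O} {plB : ∀ i : Tset B, PlaceData p i.1}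
    {k n : ℕ} {S₀ : Finset ℕ}
    (G : GLev hΔ (PData.ord hp2 ((resZ W hΔ p).baseChange (ResidueField O)) b hdet hord hm hr0 w hw
      hg₀ hu) A pl u plB k n S₀)
    (hQ : ∀ j, ¬ G.qv j ∣ M₁)
    {L : ℕ} [NeZero L] {S : Finset ℕ}
    {θ : heckeAlgebra L 2 (↑S : Set ℕ) →+* ResidueField O}
    (π : G.D.R →ₐ[O] heckeLocal L (↑S : Set ℕ) O θ) (hs : HSide p G.D G.b₁ π)
    (hSW : ∀ ℓ : ℕ, ℓ.Prime → ℓ ∉ S → W.IsGoodPrimeFor ℓ)
    (hθ : ∀ i : Pr (↑S : Set ℕ), θ (TIdx L (↑S : Set ℕ) hs.hLS i) =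
      ((W.apOfModel i.1 : ℤ) : ResidueField O)) :
    VanishAt p hs.hLS π (M₁ * p * ∏ j, G.qv j) (G.mB (Sum.inr ()) 0) ∧
      VanishAt p hs.hLS π (M₁ * p * ∏ j, G.qv j) (G.mB (Sum.inr ()) 2) := by
  classical
  obtain ⟨H, b₂, hH, hb₂⟩ := hs.datum
  have hπ := hs.surj
  have hpS := hs.hpS
  have hlv : M₁ * p * ∏ j, G.qv j = M₁ * (∏ j, G.qv j) * p := by ring
  have hPsq : Squarefree (∏ j, G.qv j) := by
    refine Finset.squarefree_prod_of_pairwise_isCoprime ?_ fun i _ => (G.prime i).prime.squarefree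
    intro i _ j _ hij
    exact Nat.coprime_iff_isRelPrime.mp ((Nat.coprime_primes (G.prime i) (G.prime j)).mpr
      fun h => hij (G.inj h))
  have hcop : Nat.Coprime M₁ (∏ j, G.qv j) :=
    Nat.Coprime.symm (Nat.Coprime.prod_left fun i _ =>
      (Nat.Prime.coprime_iff_not_dvd (G.prime i)).mpr (hQ i))
  have hsq1 : Squarefree (M₁ * ∏ j, G.qv j) := (Nat.squarefree_mul hcop).mpr ⟨hsq, hPsq⟩
  have hcop2 : Nat.Coprime (M₁ * ∏ j, G.qv j) p := by
    refine Nat.Coprime.symm (Nat.Coprime.mul_right ?_ ?_)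
    · exact (Nat.Prime.coprime_iff_not_dvd hp.out).mpr hpM₁
    · exact Nat.Coprime.prod_right fun i _ =>
        (Nat.coprime_primes hp.out (G.prime i)).mpr (fun h => G.ne_p i h.symm)
  have hsq2 : Squarefree (M₁ * (∏ j, G.qv j) * p) :=
    (Nat.squarefree_mul hcop2).mpr ⟨hsq1, hp.out.prime.squarefree⟩
  haveI : NeZero (M₁ * ∏ j, G.qv j) := ⟨hsq1.ne_zero⟩
  haveI : NeZero M₁ := ⟨hsq.ne_zero⟩
  obtain ⟨i₀, h1, h2⟩ := H10.NE.exists_i0_T (κ := ResidueField O) hΔ hp2 hirr hθ M₁ hsq.ne_zero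
  have hSW' : ∀ ℓ : ℕ, ℓ.Prime → ℓ ∉ (↑S : Set ℕ) → W.IsGoodPrimeFor ℓ ∧ ℓ ≠ p :=
    fun ℓ hℓ hℓS => ⟨hSW ℓ hℓ (by exact_mod_cast hℓS),
      fun h => hℓS (by rw [h]; exact_mod_cast hpS)⟩
  have hfr : IsAtt S (thetaPoly L (↑S : Set ℕ) hs.hLS O θ)
      ((resZ W hΔ p).baseChange (ResidueField O)) := by
    intro ℓ hℓ hℓS P' hP' ψ hψ
    rw [thetaPoly_X, hθ, ← thetaW_X W (↑S : Set ℕ) (O := O) ⟨ℓ, hℓ, hℓS⟩]
    exact H30.S59.isAtt_thetaW hΔ hpO (H30.S59.tO_residual_baseChange hΔ hpO) S hSW' ℓ hℓ hℓS P'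
      hP' ψ hψ
  rw [hlv]
  refine ⟨?_, H35.InB.vanishAt_z hp2 hdet hord hm hr0 w hw hg₀ hu G hs.hLS π _⟩
  refine H35.InB.vanishAt_t hp2 hdet hord hm hr0 w hw hg₀ hu G hpS hs.hLS π hπ hH b₂ hb₂ hsq2 ?_
    (hg _ (Dvd.intro _ rfl)) (hg _ ⟨(∏ j, G.qv j) * p, by ring⟩) i₀ h2
  intro hS e he
  exact H35.InB.finrank_eq_zero_of_not hΔ Fermat.Agent.S29.result hp2 hpO hpS
    (fun a => thetaPoly_C _ _ _ _ _ a) (fun i => by rw [thetaPoly_X, hθ]) _ hirrk hfr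
    (hg _ dvd_rfl) hno i₀ h1 (by rw [thetaPoly_X]; exact h2) G.qv G.prime hQ G.inj
    (H35.Rk.dvd_sub_one G) (H35.Rk.frobDist G) rfl hS he

end Fermat.Agent.H75.D
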