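import Fermat.Agent.H33CNew
import Fermat.Agent.H61C1
import Fermat.Agent.H61GenFrob
import Fermat.Agent.H67Delta
import Fermat.Agent.H75D2

/-!
# `W[p]` new at `p` is strictly ordinary at `p`

`W` any curve, `p` odd, `p ∤ M`: if `W[p]` is residually modular of level `M p` and not of level `M`
then the residual representation is strictly ordinary at `p`. No hypothesis on the reduction of `W`
at `p`, no hypothesis on `M`.
-/

set_option autoImplicit false
set_option linter.style.haveILetI false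
set_option linter.unusedSectionVars false

noncomputable section

open ModularCurve AlgebraicCurve
open Fermat.Agent.H87.Glue (resZ)
open Fermat.Agent.H39 (Tor GQb)
open Fermat.Agent.H61.L5 (NewEmb)
open Fermat.Agent.H67.Dl (InDl)

namespace Fermat.Agent.H75.D

local notation "Qb" => AlgebraicClosure ℚ
local notation "Gq" => AlgebraicClosure ℚ ≃ₐ[ℚ] AlgebraicClosure ℚ

section Emb

variable {W : WeierstrassCurve ℤ} {p : Nat.Primes} [Fact (p : ℕ).Prime] [NeZero (p : ℕ)]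
  {M : ℕ} [NeZero M] [NeZero (M * p)] {S : Set ℕ} {A : ValuationSubring Qb}

/-- the points of `E[p]` whose Kummer functions have `p`-th powers as reductions -/
def dl (E : NewEmb W p M S) (A : ValuationSubring Qb) : AddSubgroup (Tor W p) where
  carrier := {x | InDl (p : ℕ) A 1 (E.ι x)}
  zero_mem' := by
    show InDl (p : ℕ) A 1 (E.ι 0)
    rw [map_zero]
    exact InDl.zero
  add_mem' := fun {x y} hx hy => by
    show InDl (p : ℕ) A 1 (E.ι (x + y))
    rw [map_add]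
    exact InDl.add hx hy
  neg_mem' := fun {x} hx => by
    show InDl (p : ℕ) A 1 (E.ι (-x))
    rw [map_neg]
    exact InDl.neg hx

theorem mem_dl {E : NewEmb W p M S} {x : Tor W p} :
    x ∈ dl E A ↔ InDl (p : ℕ) A 1 (E.ι x) := Iff.rfl

theorem dl_inertia (E : NewEmb W p M S) {σ : Gq} (hσ : σ ∈ A.inertiaSubgroupIn ℚ)
    (x : Tor W p) : σ • x - x ∈ dl E A := by
  rw [mem_dl, map_sub, E.galois]
  exact InDl.inertia (by rw [pow_one]; exact E.nsmul_ι x) hσ

theorem dl_dec (E : NewEmb W p M S) {σ : Gq} (hσ : σ ∈ A.decompositionSubgroup ℚ)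
    {x : Tor W p} (hx : x ∈ dl E A) : σ • x ∈ dl E A := by
  rw [mem_dl, E.galois]
  exact InDl.smul_dec hσ hx

/-- Frobenius acts on the quotient through the sign `- ε` -/
theorem dl_frob (E : NewEmb W p M S) (hA : A.LiesOverPrime p) {φ : Gq}
    (hφ : A.IsFrobeniusAt φ p) (x : Tor W p) : φ • x - (-E.ε) • x ∈ dl E A := by
  have hpM : ¬ (p : ℕ) ∣ M := (Nat.Prime.coprime_iff_not_dvd p.2).mp E.hc.symm
  obtain ⟨w⟩ := H99.nonempty_AL (L := Qb) H67.embQbar E.hc
  have h1 := InDl.new (n := 1) hA hpM w (x := E.ι x) (by rw [pow_one]; exact E.nsmul_ι x)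
    (by rw [H44K.pushP_alpha_eq (mul_dvd_mul_left _ (one_dvd _)), E.push_one]) hφ
  rw [H44K.pushP_W_eq E.hc w, E.w, ← map_zsmul, ← E.galois, ← map_add] at h1
  have h2 : x + φ • (E.ε • x) ∈ dl E A := h1
  have h3 := (dl E A).zsmul_mem h2 E.ε
  have h4 : E.ε • (x + φ • (E.ε • x)) = φ • x - (-E.ε) • x := by
    have h5 : φ • (E.ε • x) = E.ε • (φ • x) := map_zsmul (DistribSMul.toAddMonoidHom _ φ) _ x
    have h6 : E.ε * E.ε = 1 := by rcases E.hε with h | h <;> rw [h] <;> norm_num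
    rw [h5, smul_add, smul_smul, h6, one_smul, neg_smul, sub_neg_eq_add, add_comm]
  rwa [h4] at h3

/-- The subgroup is not everything. -/
theorem dl_ne_top (E : NewEmb W p M S) (hp2 : (p : ℕ) ≠ 2) (hΔ : W.Δ ≠ 0)
    (hA : A.LiesOverPrime p) : dl E A ≠ ⊤ := by
  intro htop
  have hpM : ¬ (p : ℕ) ∣ M := (Nat.Prime.coprime_iff_not_dvd p.2).mp E.hc.symm
  obtain ⟨w⟩ := H99.nonempty_AL (L := Qb) H67.embQbar E.hc
  haveI : NeZero (((p : ℕ) : Qb)) := ⟨Nat.cast_ne_zero.mpr p.2.ne_zero⟩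
  obtain ⟨ζ, hζ⟩ := HasEnoughRootsOfUnity.exists_primitiveRoot Qb (p : ℕ)
  refine H33C.false_of_scalar_tor p.2 hp2 hΔ hA hζ fun σ hσ a hσζ x => ?_
  apply E.inj
  rw [E.galois, map_nsmul]
  refine H33.case_N hA hpM w (H84.ss2p p.2 hpM hA w) (W := E.ι.range) ?_ ?_ ?_ ?_ ?_ ?_ hζ hσ hσζ
    ⟨x, rfl⟩
  · have h1 : (E.ι.range : Set (JZero (M * p))).Finite := by
      refine (H90.finite_jzero (N := M * p) p.2.ne_zero).subset ?_
      rintro _ ⟨y, rfl⟩
      exact E.nsmul_ι y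
    exact h1.to_subtype
  · rintro _ ⟨y, rfl⟩
    exact E.nsmul_ι y
  · rintro τ - _ ⟨y, rfl⟩
    exact ⟨τ • y, E.galois τ y⟩
  · rintro _ ⟨y, rfl⟩
    rw [H44K.pushP_W_eq E.hc w, E.w]
    exact E.ι.range.zsmul_mem ⟨y, rfl⟩ _
  · rintro _ ⟨y, rfl⟩
    rw [H44K.pushP_alpha_eq (mul_dvd_mul_left _ (one_dvd _)), E.push_one]
  · rintro _ ⟨y, rfl⟩ f hf
    have hy : y ∈ dl E A := by rw [htop]; exact AddSubgroup.mem_top y
    have h1 := InDl.forall_kum (mem_dl.mp hy) (f := f) (by rw [pow_one]; exact hf)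
    rwa [pow_one] at h1

/-- the line and the sign -/
theorem exists_line (E : NewEmb W p M S) (hp2 : (p : ℕ) ≠ 2) (hΔ : W.Δ ≠ 0)
    (hA : A.LiesOverPrime p) : ∃ (L : AddSubgroup (Tor W p)) (s : ℤ),
      L ≠ ⊤ ∧ (∀ σ ∈ A.inertiaSubgroupIn ℚ, ∀ x : Tor W p, σ • x - x ∈ L) ∧
      (∀ σ ∈ A.decompositionSubgroup ℚ, ∀ x ∈ L, σ • x ∈ L) ∧ (s = 1 ∨ s = -1) ∧
      ∀ φ : Gq, A.IsFrobeniusAt φ p → ∀ x : Tor W p, φ • x - s • x ∈ L := by
  refine ⟨dl E A, -E.ε, dl_ne_top E hp2 hΔ hA, fun σ hσ x => dl_inertia E hσ x,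
    fun σ hσ x hx => dl_dec E hσ hx, ?_, fun φ hφ x => dl_frob E hA hφ x⟩
  rcases E.hε with h | h
  · exact Or.inr (by rw [h])
  · exact Or.inl (by rw [h, neg_neg])

end Emb

section Line

open scoped TensorProduct

variable {W : WeierstrassCurve ℤ} (hΔ : W.Δ ≠ 0) {p : ℕ} [hp : Fact p.Prime]

/-- the matrix form of the action of the decomposition group -/
theorem exists_basis_of_line (hp2 : p ≠ 2) {A : ValuationSubring Qb} (hA : A.LiesOverPrime p)
    (L : AddSubgroup (Tor W p)) (hL : L ≠ ⊤)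
    (hI : ∀ σ ∈ A.inertiaSubgroupIn ℚ, ∀ x : Tor W p, σ • x - x ∈ L)
    (hD : ∀ σ ∈ A.decompositionSubgroup ℚ, ∀ x ∈ L, σ • x ∈ L) {s : ℤ} (hs : s = 1 ∨ s = -1)
    (hF : ∀ φ : Gq, A.IsFrobeniusAt φ p → ∀ x : Tor W p, φ • x - s • x ∈ L) :
    ∃ b : Module.Basis (Fin 2) (ZMod p) (resZ W hΔ p).V, ∀ σ ∈ A.decompositionSubgroup ℚ,
      ∃ x y z : ZMod p, (resZ W hΔ p).ρ σ (b 0) = x • b 0 ∧
        (resZ W hΔ p).ρ σ (b 1) = y • b 0 + z • b 1 ∧
        (σ ∈ A.inertiaSubgroupIn ℚ → z = 1) ∧ z * z = 1 ∧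
        LinearMap.det ((resZ W hΔ p).ρ σ) = x * z := by
  classical
  set V := (resZ W hΔ p).V with hV
  let L' : Submodule (ZMod p) V := AddSubgroup.toZModSubmodule p L
  have hmem : ∀ x : V, x ∈ L' ↔ (x : Tor W p) ∈ L := fun x => Iff.rfl
  have hIL : ∀ σ ∈ A.inertiaSubgroupIn ℚ, ∀ v : V, (resZ W hΔ p).ρ σ v - v ∈ L' :=
    fun σ hσ v => hI σ hσ v
  have hDL : ∀ σ ∈ A.decompositionSubgroup ℚ, ∀ v ∈ L', (resZ W hΔ p).ρ σ v ∈ L' :=
    fun σ hσ v hv => hD σ hσ v hv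
  have hFL : ∀ φ : Gq, A.IsFrobeniusAt φ p → ∀ v : V,
      (resZ W hΔ p).ρ φ v - (s : ZMod p) • v ∈ L' := by
    intro φ hφ v
    have h1 := hF φ hφ v
    have h2 : (s : ZMod p) • v = s • v := Int.cast_smul_eq_zsmul (ZMod p) s v
    rw [h2]
    exact h1
  -- a vector outside
  obtain ⟨e₁, he₁⟩ : ∃ v : V, v ∉ L' := by
    by_contra hcon
    push Not at hcon
    exact hL (eq_top_iff.mpr fun x _ => hcon x)
  -- a nonzero vector inside
  obtain ⟨e₀, he₀, hne⟩ : ∃ v ∈ L', v ≠ 0 := by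
    by_contra hcon
    push Not at hcon
    obtain ⟨σ, hσ, hσμ⟩ := H33.exists_inertia_cyclo hA 2 (fun h2 => hp2
      ((Nat.prime_dvd_prime_iff_eq hp.out Nat.prime_two).mp h2))
    have h1 : (resZ W hΔ p).ρ σ = 1 := LinearMap.ext fun v =>
      sub_eq_zero.mp (hcon _ (hIL σ hσ v))
    have h2 := H45.det_resZ W hΔ p σ 2 hσμ
    rw [h1, map_one] at h2
    have h3 : ((2 : ℕ) : ZMod p) = ((1 : ℕ) : ZMod p) := by rw [← h2, Nat.cast_one]
    rw [ZMod.natCast_eq_natCast_iff] at h3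
    have h4 := (Nat.modEq_iff_dvd' (by norm_num)).mp h3.symm
    have h5 := hp.out.two_le
    have h6 := Nat.le_of_dvd (by norm_num) h4
    omega
  have hc : ∀ c : ZMod p, c • e₁ ∈ L' → c = 0 := by
    intro c hc
    by_contra h0
    exact he₁ (by
      have := L'.smul_mem c⁻¹ hc
      rwa [smul_smul, inv_mul_cancel₀ h0, one_smul] at this)
  have hli : LinearIndependent (ZMod p) ![e₀, e₁] := by
    rw [LinearIndependent.pair_iff]
    intro c d hcd
    have hd : d = 0 := hc d (by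
      have : d • e₁ = -(c • e₀) := eq_neg_of_add_eq_zero_right hcd
      rw [this]
      exact L'.neg_mem (L'.smul_mem c he₀))
    refine ⟨?_, hd⟩
    rw [hd, zero_smul, add_zero] at hcd
    exact (smul_eq_zero.mp hcd).resolve_right hne
  let b : Module.Basis (Fin 2) (ZMod p) V := basisOfLinearIndependentOfCardEqFinrank hli
    (by rw [Fintype.card_fin]; exact (resZ W hΔ p).finrank_eq.symm)
  have hb : ⇑b = ![e₀, e₁] := coe_basisOfLinearIndependentOfCardEqFinrank hli _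
  have hb0 : b 0 = e₀ := by rw [hb]; rfl
  have hb1 : b 1 = e₁ := by rw [hb]; rfl
  have hexp : ∀ v : V, v = b.repr v 0 • e₀ + b.repr v 1 • e₁ := fun v => by
    have h := b.sum_repr v
    rw [Fin.sum_univ_two, hb0, hb1] at h
    exact h.symm
  have hL1 : ∀ v ∈ L', ∃ c : ZMod p, v = c • e₀ := by
    intro v hv
    have h1 := hexp v
    have h2 : b.repr v 1 = 0 := hc _ (by
      have : b.repr v 1 • e₁ = v - b.repr v 0 • e₀ := by
        nth_rewrite 2 [h1]
        abel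
      rw [this]
      exact L'.sub_mem hv (L'.smul_mem _ he₀))
    refine ⟨b.repr v 0, ?_⟩
    rw [h2, zero_smul, add_zero] at h1
    exact h1
  obtain ⟨φ, hφ⟩ := H54.exists_isFrobeniusAt hp.out hA
  have hs2 : (s : ZMod p) * (s : ZMod p) = 1 := by
    rcases hs with h | h <;> rw [h] <;> push_cast <;> ring
  have hpow : ∀ n : ℕ, ∀ v : V, (resZ W hΔ p).ρ (φ ^ n) v - (s : ZMod p) ^ n • v ∈ L' := by
    intro n
    induction n with
    | zero =>
      intro v
      rw [pow_zero, pow_zero, map_one, one_smul, Module.End.one_apply, sub_self]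
      exact L'.zero_mem
    | succ n ih =>
      intro v
      have h1 : (resZ W hΔ p).ρ (φ ^ (n + 1)) v - (s : ZMod p) ^ (n + 1) • v =
          (resZ W hΔ p).ρ φ ((resZ W hΔ p).ρ (φ ^ n) v - (s : ZMod p) ^ n • v) +
            (s : ZMod p) ^ n • ((resZ W hΔ p).ρ φ v - (s : ZMod p) • v) := by
        rw [pow_succ', map_mul, Module.End.mul_apply, map_sub, map_smul, smul_sub, smul_smul,
          ← pow_succ]
        abel
      rw [h1]
      exact L'.add_mem (hDL φ hφ.mem_decompositionSubgroup _ (ih v))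
        (L'.smul_mem _ (hFL φ hφ v))
  have hpowD : ∀ n : ℕ, φ ^ n ∈ A.decompositionSubgroup ℚ := fun n =>
    Subgroup.pow_mem _ hφ.mem_decompositionSubgroup n
  refine ⟨b, fun σ hσ => ?_⟩
  -- `σ` acts on the quotient through a power of `s`
  obtain ⟨n, hn⟩ : ∃ n : ℕ, ∀ v : V, (resZ W hΔ p).ρ σ v - (s : ZMod p) ^ n • v ∈ L' := by
    obtain ⟨F, hF, h1⟩ := (resZ W hΔ p).factorsThroughFiniteLevel
    have hU : H55.krullLevels.op F.fixingSubgroup :=
      (H55.krullLevels_op_iff _).mpr ⟨F, hF, le_rfl⟩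
    obtain ⟨n, i, hi, u, hu, rfl⟩ := H61.GenFrob.exists_eq_pow_mul hp.out hA hφ hU hσ
    refine ⟨n, fun v => ?_⟩
    have hu1 : (resZ W hΔ p).ρ u = 1 := h1 u fun x hx => by
      exact (IntermediateField.mem_fixingSubgroup_iff F u).mp hu x hx
    have h2 : (resZ W hΔ p).ρ (φ ^ n * i * u) v - (s : ZMod p) ^ n • v =
        (resZ W hΔ p).ρ (φ ^ n) ((resZ W hΔ p).ρ i v - v) +
          ((resZ W hΔ p).ρ (φ ^ n) v - (s : ZMod p) ^ n • v) := by
      rw [map_mul, map_mul, hu1, mul_one, Module.End.mul_apply, map_sub]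
      abel
    rw [h2]
    exact L'.add_mem (hDL _ (hpowD n) _ (hIL i hi v)) (hpow n v)
  obtain ⟨x, hx⟩ := hL1 _ (hDL σ hσ e₀ he₀)
  obtain ⟨y, hy⟩ := hL1 _ (hn e₁)
  have hy' : (resZ W hΔ p).ρ σ e₁ = y • e₀ + (s : ZMod p) ^ n • e₁ := by
    rw [← hy]; abel
  refine ⟨x, y, (s : ZMod p) ^ n, by rw [hb0]; exact hx, by rw [hb0, hb1]; exact hy', ?_, ?_, ?_⟩
  · intro hσI
    have h1 := L'.sub_mem (hIL σ hσI e₁) (hn e₁)
    have h2 : (resZ W hΔ p).ρ σ e₁ - e₁ - ((resZ W hΔ p).ρ σ e₁ - (s : ZMod p) ^ n • e₁) =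
        ((s : ZMod p) ^ n - 1) • e₁ := by
      rw [sub_smul, one_smul]; abel
    rw [h2] at h1
    exact sub_eq_zero.mp (hc _ h1)
  · rw [← mul_pow, hs2, one_pow]
  · rw [← LinearMap.det_toMatrix b, Matrix.det_fin_two, LinearMap.toMatrix_apply,
      LinearMap.toMatrix_apply, LinearMap.toMatrix_apply, LinearMap.toMatrix_apply, hb0, hb1, hx,
      hy', ← hb0, ← hb1]
    simp only [map_smul, map_add, Module.Basis.repr_self, Finsupp.smul_apply, Finsupp.add_apply,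
      smul_eq_mul, Finsupp.single_eq_same]
    simp

variable {k : Type} [Field k] [Algebra (ZMod p) k]

/-- **Strict ordinarity** from the lines. -/
theorem isStrictOrdinaryAt_of_lines (hp2 : p ≠ 2)
    (h : ∀ A : ValuationSubring Qb, A.LiesOverPrime p → ∃ (L : AddSubgroup (Tor W p)) (s : ℤ),
      L ≠ ⊤ ∧ (∀ σ ∈ A.inertiaSubgroupIn ℚ, ∀ x : Tor W p, σ • x - x ∈ L) ∧
      (∀ σ ∈ A.decompositionSubgroup ℚ, ∀ x ∈ L, σ • x ∈ L) ∧ (s = 1 ∨ s = -1) ∧
      ∀ φ : Gq, A.IsFrobeniusAt φ p → ∀ x : Tor W p, φ • x - s • x ∈ L) :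
    (GaloisRepAdic.ofResidualGaloisRep ((resZ W hΔ p).baseChange k)).IsStrictOrdinaryAt p := by
  have hpk : ((p : ℕ) : k) = 0 := by
    have := map_natCast (algebraMap (ZMod p) k) p
    rw [ZMod.natCast_self, map_zero] at this
    exact this.symm
  refine H87.Ord.isStrictOrdinaryAt_of_basis _ (by rw [hpk]; exact Ideal.zero_mem _)
    fun P hP => ?_
  obtain ⟨L, s, h1, h2, h3, h4, h5⟩ := h P hP
  obtain ⟨b, hb⟩ := exists_basis_of_line hΔ hp2 hP L h1 h2 h3 h4 h5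
  let R := GaloisRepAdic.ofResidualGaloisRep ((resZ W hΔ p).baseChange k)
  let bk : Module.Basis (Fin 2) k R.V :=
    (Algebra.TensorProduct.basis k b : Module.Basis (Fin 2) k (k ⊗[ZMod p] (resZ W hΔ p).V))
  let t : (resZ W hΔ p).V → R.V := fun v => (1 : k) ⊗ₜ[ZMod p] v
  have hbk : ∀ i, bk i = t (b i) := fun i => Algebra.TensorProduct.basis_apply b i
  have hsm : ∀ (a : ZMod p) (v : (resZ W hΔ p).V), t (a • v) = algebraMap (ZMod p) k a • t v := by
    intro a v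
    change (1 : k) ⊗ₜ[ZMod p] (a • v) = algebraMap (ZMod p) k a • ((1 : k) ⊗ₜ[ZMod p] v)
    rw [TensorProduct.tmul_smul]
    exact (algebraMap_smul k a _).symm
  have hadd : ∀ v w : (resZ W hΔ p).V, t (v + w) = t v + t w := fun v w =>
    TensorProduct.tmul_add _ _ _
  refine ⟨bk, fun σ hσ => ?_⟩
  obtain ⟨x, y, z, hx, hy, hz, hz2, hdet⟩ := hb σ hσ
  have hρ : ∀ v : (resZ W hΔ p).V, R.ρ σ (t v) = t ((resZ W hΔ p).ρ σ v) :=
    fun v => LinearMap.baseChange_tmul _ _ _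
  refine ⟨algebraMap _ k x, algebraMap _ k y, algebraMap _ k z, ?_, ?_, ?_, ?_⟩
  · show R.ρ σ (bk 0) = _
    rw [hbk, hρ, hx, hsm]
  · show R.ρ σ (bk 1) = _
    rw [hbk, hbk, hρ, hy, hadd, hsm, hsm]
  · intro hσI
    rw [hz hσI, map_one]
  · intro n a ha
    rcases Nat.eq_zero_or_pos n with rfl | hn
    · rw [pow_zero, Nat.cast_one, Ideal.span_singleton_one]
      exact Submodule.mem_top
    · have h6 : LinearMap.det ((resZ W hΔ p).ρ σ) = (a : ZMod p) := by
        refine H45.det_resZ W hΔ p σ a fun μ hμ => ha μ ?_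
        obtain ⟨m, rfl⟩ : ∃ m, n = m + 1 := ⟨n - 1, by omega⟩
        rw [pow_succ', pow_mul, hμ, one_pow]
      have h7 : x = (a : ZMod p) * z := by
        rw [← h6, hdet, mul_assoc, hz2, mul_one]
      have h8 : algebraMap (ZMod p) k x - (a : k) * algebraMap (ZMod p) k z = 0 := by
        rw [h7, map_mul, map_natCast, sub_self]
      rw [h8]
      exact Ideal.zero_mem _

/-- **`W[p]` new at `p` is strictly ordinary at `p`.** -/
theorem isStrictOrdinaryAt_of_newEmb (hp2 : p ≠ 2) {P : Nat.Primes} (hP : (P : ℕ) = p) {M : ℕ}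
    [NeZero M] [NeZero (M * P)] {S : Set ℕ} (E : NewEmb W P M S) :
    (GaloisRepAdic.ofResidualGaloisRep ((resZ W hΔ p).baseChange k)).IsStrictOrdinaryAt p := by
  subst hP
  haveI : NeZero (P : ℕ) := ⟨hp.out.ne_zero⟩
  exact isStrictOrdinaryAt_of_lines hΔ hp2 fun A hA => exists_line E hp2 hΔ hA

/-- **Residual modularity of level `M p` and not of level `M` implies strict ordinarity at `p`.** -/
theorem isStrictOrdinaryAt_of_level (hp2 : p ≠ 2) (hirr : W.ModRepIsIrreducible p) {M : ℕ}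
    (hM : M ≠ 0) (hpM : ¬ p ∣ M) (hmod : W.IsResiduallyModularOfLevel p (M * p))
    (hno : ¬ W.IsResiduallyModularOfLevel p M) :
    (GaloisRepAdic.ofResidualGaloisRep ((resZ W hΔ p).baseChange k)).IsStrictOrdinaryAt p := by
  haveI : NeZero M := ⟨hM⟩
  haveI : NeZero (M * p) := ⟨mul_ne_zero hM hp.out.ne_zero⟩
  haveI : NeZero (M * ((⟨p, hp.out⟩ : Nat.Primes) : ℕ)) := ⟨mul_ne_zero hM hp.out.ne_zero⟩
  rcases H61C.residual_dichotomy (p := ⟨p, hp.out⟩) hΔ hp2 hirr hpM hmod with h | ⟨⟨E⟩⟩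
  · exact absurd h hno
  · exact isStrictOrdinaryAt_of_newEmb hΔ hp2 rfl E

/-- The same with `M / p`. -/
theorem isStrictOrdinaryAt_of_level_div (hp2 : p ≠ 2) (hirr : W.ModRepIsIrreducible p) {M : ℕ}
    (hM : Squarefree M) (hpM : p ∣ M) (hmod : W.IsResiduallyModularOfLevel p M)
    (hno : ¬ W.IsResiduallyModularOfLevel p (M / p)) :
    (GaloisRepAdic.ofResidualGaloisRep ((resZ W hΔ p).baseChange k)).IsStrictOrdinaryAt p := by
  obtain ⟨M₁, rfl⟩ := hpM
  rw [Nat.mul_div_cancel_left _ hp.out.pos] at hno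
  refine isStrictOrdinaryAt_of_level hΔ hp2 hirr (fun h => ?_) (fun h => ?_)
    (by rw [mul_comm]; exact hmod) hno
  · rw [h, mul_zero] at hM
    exact not_squarefree_zero hM
  · exact hp.out.prime.not_isUnit (hM p (mul_dvd_mul_left p h))

end Line

section Data

open IsLocalRing
open Fermat.Agent.H53 (GQ PData)
open Fermat.Agent.H75P (MarkElts)

variable {W : WeierstrassCurve ℤ} (hΔ : W.Δ ≠ 0) {p : ℕ} [hp : Fact p.Prime]
  {O : Type} [CommRing O] [IsDomain O] [IsDiscreteValuationRing O]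
  [IsAdicComplete (maximalIdeal O) O] [CharZero O] [Finite (ResidueField O)]
  [Algebra (ZMod p) (ResidueField O)]
  (b : Module.Basis (Fin 2) (ResidueField O) ((resZ W hΔ p).baseChange (ResidueField O)).V)

/-- **The data at `p`** for `p ∣ M`, `W[p]` of level `M`, not of level `M / p` and trivial at `σ₀`.
No hypothesis on the reduction of the curve. -/
theorem exists_pd_of_level [CharP (ResidueField O) p] (hpO : (p : O) ∈ maximalIdeal O)
    (hp2 : p ≠ 2) (hirr : W.ModRepIsIrreducible p) {M : ℕ} (hM : Squarefree M) (hpM : p ∣ M)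
    (hmod : W.IsResiduallyModularOfLevel p M) (hno : ¬ W.IsResiduallyModularOfLevel p (M / p))
    {φ σ₀ : GQ} (hm : MarkElts p φ σ₀) (h1 : (resZ W hΔ p).ρ σ₀ = 1) :
    ∃ (pd : PData p ((resZ W hΔ p).baseChange (ResidueField O)) b) (j₀ : pd.ε),
      (∀ j, j = j₀) ∧ HeckeType hΔ pd ∧ KillsAt hΔ pd j₀ :=
  exists_pd_of_strict hΔ b hpO hp2 hirr
    (isStrictOrdinaryAt_of_level_div hΔ hp2 hirr hM hpM hmod hno) hm h1

end Data

end Fermat.Agent.H75.D
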