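import Mathlib.NumberTheory.PythagoreanTriples
import Mathlib.Tactic

set_option autoImplicit false

namespace Fermat.Agent.H75

/-- From `α² + δ² = κ β²`-type relations. -/
theorem key_kappa {α δ β γ : ℕ} (hαδ : Nat.Coprime α δ) (hβγ : Nat.Coprime β γ)
    (hβ : 0 < β)
    (h : β ^ 2 * (α ^ 2 + 16 * δ ^ 2) = γ ^ 2 * (α ^ 2 + δ ^ 2))
    (hodd : α % 2 = 1 ∧ γ % 2 = 1) :
    α ^ 2 + δ ^ 2 = β ^ 2 ∧ α ^ 2 + 16 * δ ^ 2 = γ ^ 2 := by
  have hdvd : β ^ 2 ∣ α ^ 2 + δ ^ 2 := by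
    have : β ^ 2 ∣ γ ^ 2 * (α ^ 2 + δ ^ 2) := ⟨_, h.symm⟩
    exact (Nat.Coprime.pow 2 2 hβγ).dvd_of_dvd_mul_left this
  obtain ⟨κ, hκ⟩ := hdvd
  have hκ2 : α ^ 2 + 16 * δ ^ 2 = γ ^ 2 * κ := by
    rw [hκ] at h
    have hβ2 : 0 < β ^ 2 := by positivity
    apply Nat.eq_of_mul_eq_mul_left hβ2
    rw [h]; ring
  have h15a : κ ∣ 15 * α ^ 2 := by
    have h1 : 15 * α ^ 2 + (α ^ 2 + 16 * δ ^ 2) = 16 * (α ^ 2 + δ ^ 2) := by ring
    have h2 : κ ∣ α ^ 2 + 16 * δ ^ 2 := by rw [hκ2]; exact Dvd.intro_left _ rfl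
    have h3 : κ ∣ 16 * (α ^ 2 + δ ^ 2) := by
      rw [hκ]; exact Dvd.intro_left (16 * β ^ 2) (by ring)
    rw [← h1] at h3
    exact (Nat.dvd_add_left h2).mp h3
  have h15b : κ ∣ 15 * δ ^ 2 := by
    have h1 : 15 * δ ^ 2 + (α ^ 2 + δ ^ 2) = (α ^ 2 + 16 * δ ^ 2) := by ring
    have h2 : κ ∣ α ^ 2 + δ ^ 2 := by rw [hκ]; exact Dvd.intro_left _ rfl
    have h3 : κ ∣ (α ^ 2 + 16 * δ ^ 2) := by
      rw [hκ2]; exact Dvd.intro_left _ rfl
    rw [← h1] at h3
    exact (Nat.dvd_add_left h2).mp h3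
  have h15 : κ ∣ 15 := by
    have h1 : κ ∣ Nat.gcd (15 * α ^ 2) (15 * δ ^ 2) := Nat.dvd_gcd h15a h15b
    rw [Nat.gcd_mul_left, (Nat.Coprime.pow 2 2 hαδ).gcd_eq_one, mul_one] at h1
    exact h1
  have h3 : ¬ 3 ∣ κ := by
    intro h3
    have h4 : 3 ∣ α ^ 2 + δ ^ 2 := by rw [hκ]; exact Dvd.dvd.mul_left h3 _
    have hα3 : α % 3 = 0 ∧ δ % 3 = 0 := by
      have h5 : (α ^ 2 + δ ^ 2) % 3 = 0 := Nat.mod_eq_zero_of_dvd h4
      have ha : α % 3 = 0 ∨ α % 3 = 1 ∨ α % 3 = 2 := by omega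
      have hd : δ % 3 = 0 ∨ δ % 3 = 1 ∨ δ % 3 = 2 := by omega
      rcases ha with ha | ha | ha <;> rcases hd with hd | hd | hd <;>
        simp [pow_two, Nat.add_mod, Nat.mul_mod, ha, hd] at h5 ⊢
    have : 3 ∣ Nat.gcd α δ := Nat.dvd_gcd (Nat.dvd_of_mod_eq_zero hα3.1) (Nat.dvd_of_mod_eq_zero hα3.2)
    rw [hαδ.gcd_eq_one] at this
    omega
  have hle : κ ≤ 15 := Nat.le_of_dvd (by norm_num) h15
  have h5 : κ ≠ 5 := by
    rintro rfl
    have e1 : (α ^ 2 + 16 * δ ^ 2) % 8 = (γ ^ 2 * 5) % 8 := by rw [hκ2]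
    have hα8 : α % 8 = 1 ∨ α % 8 = 3 ∨ α % 8 = 5 ∨ α % 8 = 7 := by omega
    have hγ8 : γ % 8 = 1 ∨ γ % 8 = 3 ∨ γ % 8 = 5 ∨ γ % 8 = 7 := by omega
    have e2 : (α ^ 2) % 8 = 1 := by
      rcases hα8 with h | h | h | h <;> simp [pow_two, Nat.mul_mod, h]
    have e3 : (γ ^ 2) % 8 = 1 := by
      rcases hγ8 with h | h | h | h <;> simp [pow_two, Nat.mul_mod, h]
    omega
  have hκ1 : κ = 1 := by
    interval_cases κ <;> first | rfl | omega
  subst hκ1
  constructor
  · simpa using hκ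
  · simpa using hκ2

set_option maxHeartbeats 4000000 in
theorem descent_aux : ∀ n : ℕ, ∀ a s b c : ℕ, a * s = n → 0 < a → 0 < s → Nat.Coprime a s →
    a ^ 2 + s ^ 2 = b ^ 2 → a ^ 2 + 16 * s ^ 2 = c ^ 2 → False := by
  intro n
  induction n using Nat.strong_induction_on with
  | _ n ih =>
  intro a s b c hn ha hs hcop hb hc
  have sq_mod : ∀ x : ℕ, x ^ 2 % 8 = 0 ∨ x ^ 2 % 8 = 1 ∨ x ^ 2 % 8 = 4 := by
    intro x
    have : x % 8 = 0 ∨ x % 8 = 1 ∨ x % 8 = 2 ∨ x % 8 = 3 ∨ x % 8 = 4 ∨ x % 8 = 5 ∨ x % 8 = 6 ∨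
      x % 8 = 7 := by omega
    rcases this with h | h | h | h | h | h | h | h <;> simp [pow_two, Nat.mul_mod, h]
  have sq_odd : ∀ x : ℕ, x % 2 = 1 → x ^ 2 % 8 = 1 := by
    intro x hx
    have : x % 8 = 1 ∨ x % 8 = 3 ∨ x % 8 = 5 ∨ x % 8 = 7 := by omega
    rcases this with h | h | h | h <;> simp [pow_two, Nat.mul_mod, h]
  have sq_even : ∀ x : ℕ, x ^ 2 % 2 = 0 → x % 2 = 0 := by
    intro x hx
    rcases Nat.mod_two_eq_zero_or_one x with h | h
    · exact h
    · have := sq_odd x h; omega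
  rcases Nat.mod_two_eq_zero_or_one a with ha2 | ha2
  · -- a even
    have hs2 : s % 2 = 1 := by
      rcases Nat.mod_two_eq_zero_or_one s with h | h
      · exfalso
        have : 2 ∣ Nat.gcd a s := Nat.dvd_gcd (Nat.dvd_of_mod_eq_zero ha2) (Nat.dvd_of_mod_eq_zero h)
        rw [hcop.gcd_eq_one] at this; omega
      · exact h
    obtain ⟨a₁, rfl⟩ : ∃ a₁, a = 2 * a₁ := ⟨a / 2, by omega⟩
    have hc2 : c % 2 = 0 := sq_even c (by rw [← hc, mul_pow]; omega)
    obtain ⟨c₁, rfl⟩ : ∃ c₁, c = 2 * c₁ := ⟨c / 2, by omega⟩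
    have hc' : a₁ ^ 2 + 4 * s ^ 2 = c₁ ^ 2 := by linarith
    have h8s := sq_odd s hs2
    have ha₁ : a₁ % 2 = 0 := by
      rcases Nat.mod_two_eq_zero_or_one a₁ with h | h
      · exact h
      · have h1 := sq_odd a₁ h
        have h2 := sq_mod c₁
        omega
    obtain ⟨a₂, rfl⟩ : ∃ a₂, a₁ = 2 * a₂ := ⟨a₁ / 2, by omega⟩
    have hc₁ : c₁ % 2 = 0 := sq_even c₁ (by rw [← hc', mul_pow]; omega)
    obtain ⟨c₂, rfl⟩ : ∃ c₂, c₁ = 2 * c₂ := ⟨c₁ / 2, by omega⟩
    have hc'' : s ^ 2 + a₂ ^ 2 = c₂ ^ 2 := by linarith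
    have ha₂ : 0 < a₂ := by omega
    refine ih (s * a₂) ?_ s a₂ c₂ b rfl hs ha₂ ?_ hc'' (by rw [← hb]; ring)
    · rw [← hn]
      have : 0 < a₂ * s := by positivity
      nlinarith
    · have : Nat.Coprime (a₂ * 4) s := by
        have h4 : a₂ * 4 = 2 * (2 * a₂) := by ring
        rw [h4]; exact hcop
      exact (Nat.Coprime.coprime_mul_right this).symm
  · -- a odd
    have hs2 : s % 2 = 0 := by
      rcases Nat.mod_two_eq_zero_or_one s with h | h
      · exact h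
      · have h1 := sq_odd a ha2
        have h2 := sq_odd s h
        have h3 := sq_mod b
        omega
    have hbpos : 0 < b := by
      rcases Nat.eq_zero_or_pos b with h | h
      · subst h; have : 0 < a ^ 2 := by positivity
        omega
      · exact h
    have hcpos : 0 < c := by
      rcases Nat.eq_zero_or_pos c with h | h
      · subst h; have : 0 < a ^ 2 := by positivity
        omega
      · exact h
    have hP1 : PythagoreanTriple (a : ℤ) (s : ℤ) (b : ℤ) := by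
      unfold PythagoreanTriple
      have : ((a ^ 2 + s ^ 2 : ℕ) : ℤ) = ((b ^ 2 : ℕ) : ℤ) := by rw [hb]
      push_cast at this; linarith
    have hP2 : PythagoreanTriple (a : ℤ) ((4 * s : ℕ) : ℤ) (c : ℤ) := by
      unfold PythagoreanTriple
      have : ((a ^ 2 + 16 * s ^ 2 : ℕ) : ℤ) = ((c ^ 2 : ℕ) : ℤ) := by rw [hc]
      push_cast at this ⊢; linarith
    have hg1 : Int.gcd (a : ℤ) (s : ℤ) = 1 := by rw [Int.gcd_natCast_natCast]; exact hcop
    have hcop4 : Nat.Coprime a (4 * s) := by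
      apply Nat.Coprime.mul_right _ hcop
      have : Nat.Coprime a 2 := (Nat.coprime_two_right.mpr (Nat.odd_iff.mpr ha2))
      have h4 : (4 : ℕ) = 2 ^ 2 := by norm_num
      rw [h4]; exact Nat.Coprime.pow_right 2 this
    have hg2 : Int.gcd (a : ℤ) ((4 * s : ℕ) : ℤ) = 1 := by
      rw [Int.gcd_natCast_natCast]; exact hcop4
    obtain ⟨m, n', hm1, hm2, -, hmn, hmnp, hm0⟩ :=
      hP1.coprime_classification' hg1 (by omega) (by exact_mod_cast hbpos)
    obtain ⟨p, q, hp1, hp2, -, hpq, hpqp, hp0⟩ :=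
      hP2.coprime_classification' hg2 (by omega) (by exact_mod_cast hcpos)
    -- move to ℕ
    have hn0 : 0 < n' ∧ 0 < m := by
      have hs' : (0 : ℤ) < 2 * m * n' := by rw [← hm2]; exact_mod_cast hs
      have hmpos : 0 < m := by
        rcases hm0.lt_or_eq with h | h
        · exact h
        · rw [← h] at hs'; simp at hs'
      exact ⟨by nlinarith, hmpos⟩
    have hq0 : 0 < q ∧ 0 < p := by
      have hs' : (0 : ℤ) < 2 * p * q := by rw [← hp2]; exact_mod_cast (by omega : 0 < 4 * s)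
      have hmpos : 0 < p := by
        rcases hp0.lt_or_eq with h | h
        · exact h
        · rw [← h] at hs'; simp at hs'
      exact ⟨by nlinarith, hmpos⟩
    lift m to ℕ using hm0
    lift n' to ℕ using hn0.1.le
    lift p to ℕ using hp0
    lift q to ℕ using hq0.1.le
    rw [Int.gcd_natCast_natCast] at hmn hpq
    obtain ⟨hn0, hm0⟩ := hn0
    obtain ⟨hq0, hp0⟩ := hq0
    have hm0' : 0 < m := by exact_mod_cast hm0
    have hn0' : 0 < n' := by exact_mod_cast hn0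
    have hp0' : 0 < p := by exact_mod_cast hp0
    have hq0' : 0 < q := by exact_mod_cast hq0
    have hs_eq : s = 2 * m * n' := by exact_mod_cast hm2
    have h4mn : p * q = 4 * (m * n') := by
      have h1 : (4 * s : ℕ) = 2 * p * q := by exact_mod_cast hp2
      rw [hs_eq] at h1
      linarith
    have hsq : (m : ℤ) ^ 2 - (n' : ℤ) ^ 2 = (p : ℤ) ^ 2 - (q : ℤ) ^ 2 := by rw [← hm1, ← hp1]
    have hsqN : m ^ 2 + q ^ 2 = p ^ 2 + n' ^ 2 := by
      have : (m : ℤ) ^ 2 + (q : ℤ) ^ 2 = (p : ℤ) ^ 2 + (n' : ℤ) ^ 2 := by linarith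
      exact_mod_cast this
    have hcmn : Nat.Coprime m n' := hmn
    have hcpq : Nat.Coprime p q := hpq
    set α := Nat.gcd m p with hα
    set β := Nat.gcd m q with hβ
    set γ := Nat.gcd n' p with hγ
    set δ := Nat.gcd n' q with hδ
    have em : m = α * β := by
      have h1 : Nat.gcd m (p * q) = Nat.gcd m p * Nat.gcd m q := Nat.Coprime.gcd_mul m hcpq
      have h2 : Nat.gcd m (p * q) = m := Nat.gcd_eq_left (by rw [h4mn]; exact ⟨4 * n', by ring⟩)
      rw [h2] at h1; exact h1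
    have en : n' = γ * δ := by
      have h1 : Nat.gcd n' (p * q) = Nat.gcd n' p * Nat.gcd n' q := Nat.Coprime.gcd_mul n' hcpq
      have h2 : Nat.gcd n' (p * q) = n' := Nat.gcd_eq_left (by rw [h4mn]; exact ⟨4 * m, by ring⟩)
      rw [h2] at h1; exact h1
    have hαpos : 0 < α := Nat.gcd_pos_of_pos_left _ hm0'
    have hβpos : 0 < β := Nat.gcd_pos_of_pos_left _ hm0'
    have hγpos : 0 < γ := Nat.gcd_pos_of_pos_left _ hn0'
    have hδpos : 0 < δ := Nat.gcd_pos_of_pos_left _ hn0'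
    have cαδ : Nat.Coprime α δ :=
      Nat.Coprime.coprime_dvd_left (Nat.gcd_dvd_left m p)
        (Nat.Coprime.coprime_dvd_right (Nat.gcd_dvd_left n' q) hcmn)
    have cβγ : Nat.Coprime β γ :=
      Nat.Coprime.coprime_dvd_left (Nat.gcd_dvd_left m q)
        (Nat.Coprime.coprime_dvd_right (Nat.gcd_dvd_left n' p) hcmn)
    have hlt : α * δ < a * s := by
      rw [hs_eq, em, en]
      have h1 : 1 ≤ a := ha
      have h2 : 1 ≤ β * γ := Nat.mul_pos hβpos hγpos
      have h3 : 0 < α * δ := Nat.mul_pos hαpos hδpos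
      calc α * δ < 2 * (α * δ) := by omega
        _ = 1 * (2 * (α * δ) * 1) := by ring
        _ ≤ a * (2 * (α * δ) * (β * γ)) := Nat.mul_le_mul h1 (Nat.mul_le_mul_left _ h2)
        _ = a * (2 * (α * β) * (γ * δ)) := by ring
    rcases Nat.mod_two_eq_zero_or_one p with hp2' | hp2'
    · -- p even, q odd
      have hq2' : q % 2 = 1 := by
        rcases Nat.mod_two_eq_zero_or_one q with h | h
        · exfalso
          have : 2 ∣ Nat.gcd p q := Nat.dvd_gcd (Nat.dvd_of_mod_eq_zero hp2') (Nat.dvd_of_mod_eq_zero h)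
          rw [hcpq.gcd_eq_one] at this; omega
        · exact h
      have eq1 : q = β * δ := by
        have hq4 : Nat.Coprime q 4 := by
          have : Nat.Coprime q 2 := (Nat.coprime_two_right.mpr (Nat.odd_iff.mpr hq2'))
          have h4 : (4 : ℕ) = 2 ^ 2 := by norm_num
          rw [h4]; exact Nat.Coprime.pow_right 2 this
        have h0 : q ∣ m * n' := by
          have : q ∣ 4 * (m * n') := by rw [← h4mn]; exact Dvd.intro_left _ rfl
          exact hq4.dvd_of_dvd_mul_left this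
        have h1 : Nat.gcd q (m * n') = Nat.gcd q m * Nat.gcd q n' := Nat.Coprime.gcd_mul q hcmn
        rw [Nat.gcd_eq_left h0, Nat.gcd_comm q m, Nat.gcd_comm q n'] at h1
        exact h1
      have ep1 : p = 4 * (α * γ) := by
        have h1 : p * (β * δ) = 4 * (α * γ) * (β * δ) := by
          rw [← eq1, h4mn, eq1]; nth_rewrite 1 [em]; nth_rewrite 1 [en]; ring
        exact Nat.eq_of_mul_eq_mul_right (Nat.mul_pos hβpos hδpos) h1
      have hβδ : β % 2 = 1 ∧ δ % 2 = 1 := by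
        have : (β * δ) % 2 = 1 := by rw [← eq1]; exact hq2'
        rcases Nat.mod_two_eq_zero_or_one β with h | h <;>
        rcases Nat.mod_two_eq_zero_or_one δ with h' | h' <;> simp [Nat.mul_mod, h, h'] at this ⊢
      have hmain : γ ^ 2 * (δ ^ 2 + 16 * α ^ 2) = β ^ 2 * (δ ^ 2 + α ^ 2) := by
        have h1 := hsqN
        rw [eq1, ep1] at h1
        nth_rewrite 1 [em] at h1
        nth_rewrite 1 [en] at h1
        linarith
      have := key_kappa (α := δ) (δ := α) (β := γ) (γ := β) cαδ.symm cβγ.symm hγpos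
        hmain ⟨hβδ.2, hβδ.1⟩
      exact ih (δ * α) (by rw [← hn, mul_comm]; exact hlt) δ α γ β rfl hδpos hαpos cαδ.symm
        this.1 this.2
    · -- p odd
      have ep1 : p = α * γ := by
        have hp4 : Nat.Coprime p 4 := by
          have : Nat.Coprime p 2 := (Nat.coprime_two_right.mpr (Nat.odd_iff.mpr hp2'))
          have h4 : (4 : ℕ) = 2 ^ 2 := by norm_num
          rw [h4]; exact Nat.Coprime.pow_right 2 this
        have h0 : p ∣ m * n' := by
          have : p ∣ 4 * (m * n') := by rw [← h4mn]; exact Dvd.intro _ rfl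
          exact hp4.dvd_of_dvd_mul_left this
        have h1 : Nat.gcd p (m * n') = Nat.gcd p m * Nat.gcd p n' := Nat.Coprime.gcd_mul p hcmn
        rw [Nat.gcd_eq_left h0, Nat.gcd_comm p m, Nat.gcd_comm p n'] at h1
        exact h1
      have eq1 : q = 4 * (β * δ) := by
        have h1 : (α * γ) * q = (α * γ) * (4 * (β * δ)) := by
          rw [← ep1, h4mn, ep1]; nth_rewrite 1 [em]; nth_rewrite 1 [en]; ring
        exact Nat.eq_of_mul_eq_mul_left (Nat.mul_pos hαpos hγpos) h1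
      have hαγ : α % 2 = 1 ∧ γ % 2 = 1 := by
        have : (α * γ) % 2 = 1 := by rw [← ep1]; exact hp2'
        rcases Nat.mod_two_eq_zero_or_one α with h | h <;>
        rcases Nat.mod_two_eq_zero_or_one γ with h' | h' <;> simp [Nat.mul_mod, h, h'] at this ⊢
      have hmain : β ^ 2 * (α ^ 2 + 16 * δ ^ 2) = γ ^ 2 * (α ^ 2 + δ ^ 2) := by
        have h1 := hsqN
        rw [eq1, ep1] at h1
        nth_rewrite 1 [em] at h1
        nth_rewrite 1 [en] at h1
        linarith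
      have := key_kappa (α := α) (δ := δ) (β := β) (γ := γ) cαδ cβγ hβpos
        hmain hαγ
      exact ih (α * δ) (by rw [← hn]; exact hlt) α δ β γ rfl hαpos hδpos cαδ
        this.1 this.2

end Fermat.Agent.H75
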