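import Fermat.Agent.H81Ord3

/-!
# The local bound at `p` for marked ordinary lifts

The lifts to the dual numbers which are ordinary at `p`, with constant unramified quotient, and
trivial at an element `σ₀` of inertia moving a `p`-th root of `p`.
-/

set_option autoImplicit false
set_option maxSynthPendingDepth 3

namespace Fermat.Agent.H75P

open Fermat.Agent.H55 Fermat.Agent.H56 Fermat.Agent.H91 Fermat.Agent.H81 ExtCitation
open IsLocalRing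
open Fermat.Agent.H53 (M2 MCont ofMatrix)

noncomputable section

local notation "Qb" => AlgebraicClosure ℚ

variable (p : ℕ) [hp : Fact p.Prime]

/-- the cocycles vanishing at `σ₀` -/
def Zv (σ₀ : Dq (pPrime p)) : Submodule (ZMod p) (Dq (pPrime p) → ZMod p) :=
  Z1 (Dlev (pPrime p)) (chiD p) ⊓ LinearMap.ker (LinearMap.proj (R := ZMod p)
    (φ := fun _ : Dq (pPrime p) => ZMod p) σ₀)

theorem mem_Zv {σ₀ : Dq (pPrime p)} {c : Dq (pPrime p) → ZMod p} :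
    c ∈ Zv p σ₀ ↔ c ∈ Z1 (Dlev (pPrime p)) (chiD p) ∧ c σ₀ = 0 := by
  simp [Zv]

/-- the Kummer cocycle of a `p`-th root of `p` -/
theorem exists_kummer_p {σ₀ : Dq (pPrime p)} {π₁ : Qb} (hπ : π₁ ^ p = p)
    (hσ : (σ₀ : H91.GQ) π₁ ≠ π₁) :
    ∃ c ∈ Z1 (Dlev (pPrime p)) (chiD p), c σ₀ ≠ 0 := by
  have hpp : p.Prime := hp.out
  have : NeZero p := ⟨hpp.ne_zero⟩
  obtain ⟨ζ, hζ⟩ := HasEnoughRootsOfUnity.exists_primitiveRoot Qb p
  have hp0 : (p : Qb) ≠ 0 := by exact_mod_cast hpp.ne_zero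
  have hπ0 : π₁ ≠ 0 := by
    rintro rfl
    rw [zero_pow hpp.ne_zero] at hπ
    exact hp0 hπ.symm
  have hex : ∀ σ : H91.GQ, ∃ a : ZMod p, σ π₁ = ze ζ a * π₁ := by
    intro σ
    have h1 : (σ π₁ / π₁) ^ p = 1 := by
      rw [div_pow, ← map_pow, hπ, map_natCast, div_self hp0]
    obtain ⟨a, ha⟩ := exists_ze hζ h1
    exact ⟨a, by rw [← ha, div_mul_cancel₀ _ hπ0]⟩
  choose c hc using hex
  have hinj : ∀ {a b : ZMod p}, ze ζ a * π₁ = ze ζ b * π₁ → a = b := fun h =>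
    ze_injective hζ (mul_right_cancel₀ hπ0 h)
  refine ⟨fun σ => c σ, ⟨?_, fun σ τ => ?_⟩, fun h0 => hσ ?_⟩
  · refine ⟨(IntermediateField.adjoin ℚ {π₁}).fixingSubgroup.comap (Dq (pPrime p)).subtype,
      ⟨_, (krullLevels_op_iff _).mpr ⟨_, ?_, le_rfl⟩, le_rfl⟩, fun g s hs => ?_⟩
    · exact IntermediateField.adjoin.finiteDimensional (Algebra.IsIntegral.isIntegral π₁)
    · have h1 : (s : H91.GQ) π₁ = π₁ := (IntermediateField.mem_fixingSubgroup_iff _ _).mp hs _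
        (IntermediateField.mem_adjoin_simple_self ℚ π₁)
      apply hinj
      show ze ζ (c ((g : H91.GQ) * (s : H91.GQ))) * π₁ = ze ζ (c (g : H91.GQ)) * π₁
      rw [← hc, ← hc, AlgEquiv.mul_apply, h1]
  · rw [chiD_apply]
    apply hinj
    show ze ζ (c ((σ : H91.GQ) * (τ : H91.GQ))) * π₁ = _
    rw [← hc, AlgEquiv.mul_apply, hc τ, map_mul, hc σ, map_ze p _ hζ.pow_eq_one,
      ze_add hζ.pow_eq_one]
    ring
  · have h1 : c (σ₀ : H91.GQ) = 0 := h0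
    rw [hc, h1, ze_zero, one_mul]

theorem card_Zv (hp2 : p ≠ 2) {σ₀ : Dq (pPrime p)} {π₁ : Qb} (hπ : π₁ ^ p = p)
    (hσ : (σ₀ : H91.GQ) π₁ ≠ π₁) : Finite (Zv p σ₀) ∧ Nat.card (Zv p σ₀) ≤ p ^ 2 := by
  have hpp : p.Prime := hp.out
  have : NeZero p := ⟨hpp.ne_zero⟩
  obtain ⟨hfin, hcard⟩ := card_Z1_chiD p hp2
  have hle : Zv p σ₀ ≤ Z1 (Dlev (pPrime p)) (chiD p) := inf_le_left
  have hf2 : Finite (Zv p σ₀) := Finite.of_injective _ (Submodule.inclusion_injective hle)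
  refine ⟨hf2, ?_⟩
  obtain ⟨c₀, hc₀, hne⟩ := exists_kummer_p p hπ hσ
  let E : Zv p σ₀ × ZMod p → Z1 (Dlev (pPrime p)) (chiD p) := fun x =>
    ⟨(x.1 : Dq (pPrime p) → ZMod p) + x.2 • c₀,
      Submodule.add_mem _ (hle x.1.2) (Submodule.smul_mem _ _ hc₀)⟩
  have hE : Function.Injective E := by
    rintro ⟨⟨f, hf⟩, a⟩ ⟨⟨f', hf'⟩, a'⟩ h
    have h1 : f + a • c₀ = f' + a' • c₀ := congrArg Subtype.val h
    have h2 := congrFun h1 σ₀
    rw [Pi.add_apply, Pi.add_apply, ((mem_Zv p).mp hf).2, ((mem_Zv p).mp hf').2, zero_add,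
      zero_add, Pi.smul_apply, Pi.smul_apply, smul_eq_mul, smul_eq_mul] at h2
    have h3 : a = a' := mul_right_cancel₀ hne h2
    subst h3
    have h4 : f = f' := add_right_cancel h1
    subst h4
    rfl
  have h1 := Nat.card_le_card_of_injective _ hE
  rw [Nat.card_prod, Nat.card_zmod] at h1
  have h2 : Nat.card (Zv p σ₀) * p ≤ p ^ 2 * p := by
    calc _ ≤ _ := h1
      _ ≤ p ^ 3 := hcard
      _ = p ^ 2 * p := by ring
  exact Nat.le_of_mul_le_mul_right h2 hpp.pos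

variable {k : Type} [Field k] [Algebra (ZMod p) k]

/-- cocycles with values in the strictly upper triangular matrices, vanishing at `σ₀` -/
def MMv (r : H91.GQ →* M2 k) (u : (M2 k)ˣ) (σ₀ : Dq (pPrime p)) :
    Submodule (ZMod p) (Dq (pPrime p) → SL p k) :=
  MM p r u ⊓ LinearMap.ker (LinearMap.proj (R := ZMod p)
    (φ := fun _ : Dq (pPrime p) => SL p k) σ₀)

theorem mem_MMv {r : H91.GQ →* M2 k} {u : (M2 k)ˣ} {σ₀ : Dq (pPrime p)}
    {f : Dq (pPrime p) → SL p k} : f ∈ MMv p r u σ₀ ↔ f ∈ MM p r u ∧ f σ₀ = 0 := by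
  simp [MMv]

theorem card_MMv [Finite k] (hp2 : p ≠ 2) {r : H91.GQ →* M2 k} {u : (M2 k)ˣ}
    (h : Tri0 p r (u : M2 k)) {σ₀ : Dq (pPrime p)} {π₁ : Qb} (hπ : π₁ ^ p = p)
    (hσ : (σ₀ : H91.GQ) π₁ ≠ π₁) :
    Finite (MMv p r u σ₀) ∧ Nat.card (MMv p r u σ₀) ≤ Nat.card k ^ 2 := by
  obtain ⟨hfin, hcard⟩ := card_Zv p hp2 hπ hσ
  have hMf : Module.Finite (ZMod p) k := Module.Finite.of_finite
  let b := Module.finBasis (ZMod p) k
  have hmem : ∀ f : MMv p r u σ₀, (f : Dq (pPrime p) → SL p k) ∈ MM p r u := fun f =>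
    ((mem_MMv p).mp f.2).1
  choose s hs using fun (f : MMv p r u σ₀) => ((mem_MM p).mp (hmem f)).2
  have hs0 : ∀ f : MMv p r u σ₀, s f σ₀ = 0 := by
    intro f
    apply phi_injective p u
    rw [hs f σ₀, map_zero, ((mem_MMv p).mp f.2).2]
  let E : MMv p r u σ₀ → (Fin (Module.finrank (ZMod p) k) → Zv p σ₀) :=
    fun f i => ⟨fun σ => b.coord i (s f σ), (mem_Zv p).mpr
      ⟨comp_mem_Z1 p h ((mem_MM p).mp (hmem f)).1 (hs f) _, by rw [hs0, map_zero]⟩⟩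
  have hE : Function.Injective E := by
    intro f f' hff
    apply Subtype.ext
    funext σ
    rw [← hs f σ, ← hs f' σ]
    congr 1
    apply b.ext_elem
    intro i
    exact congrArg (fun x : Zv p σ₀ => (x : Dq (pPrime p) → ZMod p) σ) (congrFun hff i)
  refine ⟨Finite.of_injective _ hE, ?_⟩
  have hk : Nat.card k = p ^ Module.finrank (ZMod p) k := by
    rw [Module.natCard_eq_pow_finrank (K := ZMod p), Nat.card_zmod]
  calc Nat.card (MMv p r u σ₀) ≤ _ := Nat.card_le_card_of_injective _ hE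
    _ = Nat.card (Zv p σ₀) ^ (Module.finrank (ZMod p) k) := by
        rw [Nat.card_fun, Nat.card_fin]
    _ ≤ (p ^ 2) ^ (Module.finrank (ZMod p) k) := Nat.pow_le_pow_left hcard _
    _ = _ := by rw [hk, ← pow_mul, ← pow_mul, mul_comm]

theorem d0_apply_eq_zero {r : H91.GQ →* M2 k} {σ₀ : Dq (pPrime p)}
    (hr0 : r (σ₀ : H91.GQ) = 1) (X : SL p k) : d0 (rhoD (ad p r) (pPrime p)) X σ₀ = 0 := by
  rw [d0_apply, sub_eq_zero]
  apply Subtype.ext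
  show r (σ₀ : H91.GQ) * (X : M2 k) * r (σ₀ : H91.GQ)⁻¹ = X
  have h1 : r (σ₀ : H91.GQ)⁻¹ = 1 := by
    have := rmul_inv r (σ₀ : H91.GQ)
    rwa [hr0, one_mul] at this
  rw [hr0, h1, one_mul, mul_one]

/-- the local condition -/
def LLv (r : H91.GQ →* M2 k) (u : (M2 k)ˣ) (σ₀ : Dq (pPrime p)) :
    Submodule (ZMod p) (Dq (pPrime p) → SL p k) :=
  MMv p r u σ₀ ⊔ B1 (rhoD (ad p r) (pPrime p))

theorem card_LLv [Finite k] (hp2 : p ≠ 2) {r : H91.GQ →* M2 k} (hr : FinLev r) {u : (M2 k)ˣ}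
    (h : Tri0 p r (u : M2 k)) {σ₀ : Dq (pPrime p)} {π₁ : Qb} (hπ : π₁ ^ p = p)
    (hσ : (σ₀ : H91.GQ) π₁ ≠ π₁) (hr0 : r (σ₀ : H91.GQ) = 1) :
    Finite (LLv p r u σ₀) ∧ Nat.card (LLv p r u σ₀) ≤ Nat.card k ^ 3 := by
  obtain ⟨hfin, hcard⟩ := card_MMv p hp2 h hπ hσ
  have hphim : ∀ s, d0 (rhoD (ad p r) (pPrime p)) (phim p u s) ∈ LLv p r u σ₀ := fun s =>
    Submodule.mem_sup_right ⟨_, rfl⟩
  let E : MMv p r u σ₀ × k → LLv p r u σ₀ := fun x =>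
    ⟨x.1 + d0 (rhoD (ad p r) (pPrime p)) (phim p u x.2),
      (LLv p r u σ₀).add_mem (Submodule.mem_sup_left x.1.2) (hphim x.2)⟩
  have hE : Function.Surjective E := by
    rintro ⟨f, hf⟩
    have hf' : f ∈ LL p r u := by
      refine (sup_le_sup_right ?_ _ : MMv p r u σ₀ ⊔ _ ≤ MM p r u ⊔ _) hf
      exact inf_le_left
    obtain ⟨m, hm, s, rfl⟩ := exists_of_mem_LL p hr h hf'
    have hv : ∀ g ∈ LLv p r u σ₀, g σ₀ = 0 := by
      intro g hg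
      obtain ⟨m', hm', _, ⟨X, rfl⟩, rfl⟩ := Submodule.mem_sup.mp hg
      rw [Pi.add_apply, ((mem_MMv p).mp hm').2, d0_apply_eq_zero p hr0, add_zero]
    have h1 := hv _ hf
    rw [Pi.add_apply, d0_apply_eq_zero p hr0, add_zero] at h1
    exact ⟨(⟨m, (mem_MMv p).mpr ⟨hm, h1⟩⟩, s), rfl⟩
  refine ⟨Finite.of_surjective _ hE, ?_⟩
  calc Nat.card (LLv p r u σ₀) ≤ Nat.card (MMv p r u σ₀ × k) :=
        Nat.card_le_card_of_surjective _ hE
    _ = Nat.card (MMv p r u σ₀) * Nat.card k := Nat.card_prod _ _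
    _ ≤ Nat.card k ^ 2 * Nat.card k := Nat.mul_le_mul_right _ hcard
    _ = _ := by ring

/-- the cocycle of a marked lift -/
theorem coc_mem_LLv (hp2 : p ≠ 2) {r : H91.GQ →* M2 k} (hr : FinLev r)
    {R : H91.GQ →* M2 (DualNumber k)} (hR : GoodLift r R) {u : (M2 k)ˣ} {g : M2 (DualNumber k)}
    (hg : Tri p R g) (hgu : redM k g = u) {σ₀ : Dq (pPrime p)} (hr0 : r (σ₀ : H91.GQ) = 1)
    (hR0 : R (σ₀ : H91.GQ) = 1) {c : Dq (pPrime p) → SL p k}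
    (hc : ∀ σ, (c σ : M2 k) = coc R (σ : H91.GQ)) : c ∈ LLv p r u σ₀ := by
  have h1 := coc_mem_LL p hp2 hr hR hg hgu hc
  obtain ⟨m, hm, _, ⟨X, rfl⟩, hsum⟩ := Submodule.mem_sup.mp h1
  have hc0 : c σ₀ = 0 := by
    apply Subtype.ext
    rw [hc]
    show sndM (R (σ₀ : H91.GQ)) * redM k (R (σ₀ : H91.GQ)⁻¹) = 0
    rw [hR0]
    have h2 : sndM (1 : M2 (DualNumber k)) = 0 := by
      ext i j
      fin_cases i <;> fin_cases j <;> simp [sndM]
    rw [h2, zero_mul]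
  have h3 : m σ₀ = 0 := by
    have h4 := congrFun hsum σ₀
    rw [Pi.add_apply, d0_apply_eq_zero p hr0, add_zero, hc0] at h4
    exact h4
  rw [← hsum]
  exact Submodule.add_mem _ (Submodule.mem_sup_left ((mem_MMv p).mpr ⟨hm, h3⟩))
    (Submodule.mem_sup_right ⟨X, rfl⟩)

/-- the marked ordinary condition at `p` -/
def MarkCond (σ₀ : H91.GQ) (R : H91.GQ →* M2 (DualNumber k)) : Prop :=
  (∃ g, Tri p R g) ∧ R σ₀ = 1

/-- **The local bound at `p` for marked ordinary lifts.** -/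
theorem localBound_mark [Finite k] (hp2 : p ≠ 2) {r : H91.GQ →* M2 k} (hr : FinLev r)
    {σ₀ : H91.GQ} (hσD : σ₀ ∈ Dq (pPrime p)) {π₁ : Qb} (hπ : π₁ ^ p = p) (hσ : σ₀ π₁ ≠ π₁)
    (hr0 : r σ₀ = 1) : LocalBound p r (pPrime p) 3 (MarkCond p σ₀) := by
  by_cases hex : ∃ R : H91.GQ →* M2 (DualNumber k), GoodLift r R ∧ MarkCond p σ₀ R
  · obtain ⟨R₀, hR₀, ⟨g₀, hg₀⟩, -⟩ := hex
    have ht₀ := hg₀.red p hR₀.red
    obtain ⟨u, hu⟩ := ht₀.1
    have htu : Tri0 p r (u : M2 k) := by rw [hu]; exact ht₀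
    obtain ⟨hfin, hcard⟩ := card_LLv p hp2 hr htu (σ₀ := ⟨σ₀, hσD⟩) hπ hσ hr0
    refine ⟨LLv p r u ⟨σ₀, hσD⟩, le_sup_right, sup_le (inf_le_left.trans inf_le_left) ?_, hfin,
      hcard, ?_⟩
    · rintro _ ⟨X, rfl⟩
      exact (smooth_adD p hr _).d0_mem_Z1 _
    · rintro R hR ⟨⟨g, hg⟩, hRσ⟩ c hc
      obtain ⟨a, b, d, ha, hd, hgg⟩ := htu.unique p hp2 (hg.red p hR.red)
      obtain ⟨g', hg', hgu'⟩ := hg.adjust p ha hd hgg
      exact coc_mem_LLv p hp2 hr hR hg' hgu' hr0 hRσ hc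
  · refine ⟨B1 (rhoD (ad p r) (pPrime p)), le_rfl, ?_, ?_, ?_, ?_⟩
    · rintro _ ⟨X, rfl⟩
      exact (smooth_adD p hr _).d0_mem_Z1 _
    · have hs : Function.Surjective (fun X : SL p k =>
          (⟨d0 (rhoD (ad p r) (pPrime p)) X, X, rfl⟩ : B1 (rhoD (ad p r) (pPrime p)))) := by
        rintro ⟨_, X, rfl⟩
        exact ⟨X, rfl⟩
      exact Finite.of_surjective _ hs
    · have hs : Function.Surjective (fun X : SL p k =>
          (⟨d0 (rhoD (ad p r) (pPrime p)) X, X, rfl⟩ : B1 (rhoD (ad p r) (pPrime p)))) := by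
        rintro ⟨_, X, rfl⟩
        exact ⟨X, rfl⟩
      have h3 : Nat.card (SL p k) = Nat.card k ^ 3 := natCard_traceZero k
      calc Nat.card (B1 (rhoD (ad p r) (pPrime p))) ≤ Nat.card (SL p k) :=
            Nat.card_le_card_of_surjective _ hs
        _ = Nat.card k ^ 3 := h3
    · rintro R hR hord
      exact absurd ⟨R, hR, hord⟩ hex

end

end Fermat.Agent.H75P
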