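import Fermat.Agent.H75PSigma
import Fermat.Agent.H91Units
import Fermat.Agent.H55Fam

/-!
# Kummer theory for inertia at `p` and the element `σ₀`
-/

set_option autoImplicit false
set_option maxSynthPendingDepth 3

open scoped Pointwise
open Polynomial Fermat.Agent.H64 Fermat.Agent.H91 Fermat.Agent.H55 groupCohomology

noncomputable section

namespace Fermat.Agent.H75P

variable {p : ℕ} [hp : Fact p.Prime]

/-- Hilbert 90 for inertia at `p` -/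
theorem exists_kummer_Ip {c : FGQ → FQb} (hc0 : ∀ σ ∈ Ip p, c σ ≠ 0)
    (hc : ∀ σ ∈ Ip p, ∀ τ ∈ Ip p, c (σ * τ) = σ (c τ) * c σ)
    (hlc : ∃ F : IntermediateField ℚ FQb, FiniteDimensional ℚ F ∧
      ∀ σ ∈ Ip p, ∀ τ ∈ Ip p, (∀ x ∈ F, τ x = x) → c (σ * τ) = c σ) :
    ∃ α : FQb, α ≠ 0 ∧ ∀ σ ∈ Ip p, σ α = c σ * α := by
  have h90 : (krullFam.restrict (Ip p)).H90 (Additive FQbˣ) :=
    (faithfulOn_krullFam.restrict (Ip p)).h90
  let f : Ip p → Additive FQbˣ := fun σ => umk (c σ) (hc0 σ σ.2)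
  have hf : IsCocycle₁ f := by
    intro σ τ
    refine uval_injective ?_
    show c ((σ : FGQ) * (τ : FGQ)) = (σ : FGQ) (c τ) * c σ
    exact hc σ σ.2 τ τ.2
  have hfc : (krullFam.restrict (Ip p)).IsConst₁ f := by
    have h1 : LC1 (ofFam (krullFam.comap (Ip p).subtype)) f := by
      rw [ofFam_comap]
      obtain ⟨F, hF, h⟩ := hlc
      refine ⟨F.fixingSubgroup.comap (Ip p).subtype, ⟨F.fixingSubgroup,
        (krullLevels_op_iff _).mpr ⟨F, hF, le_rfl⟩, le_rfl⟩, fun σ τ hτ => ?_⟩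
      refine uval_injective ?_
      show c ((σ : FGQ) * (τ : FGQ)) = c σ
      exact h σ σ.2 τ τ.2 fun x hx => (IntermediateField.mem_fixingSubgroup_iff F _).mp hτ x hx
    rwa [lc1_ofFam_iff] at h1
  obtain ⟨a, ha⟩ := h90 f hf hfc
  refine ⟨uval a, uval_ne_zero a, fun σ hσ => ?_⟩
  have h1 := congrArg uval (ha ⟨σ, hσ⟩)
  rw [uval_sub] at h1
  have h2 : c σ = σ (uval a) / uval a := h1
  rw [h2, div_mul_cancel₀ _ (uval_ne_zero a)]

/-- **Action of the decomposition group on Kummer classes at `σ₀`.** -/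
theorem kummer_conj {σ₀ : FGQ} (h1 : σ₀ ∈ Ip p) (h2 : ∀ α ∈ UU p, σ₀ α = α) {φ : FGQ}
    (hφ : φ ∈ Dp p) {c : FGQ → FQb} {N : ℕ} (hcN : ∀ σ ∈ Ip p, c σ ^ p ^ N = 1)
    (hc : ∀ σ ∈ Ip p, ∀ τ ∈ Ip p, c (σ * τ) = σ (c τ) * c σ)
    (hlc : ∃ F : IntermediateField ℚ FQb, FiniteDimensional ℚ F ∧
      ∀ σ ∈ Ip p, ∀ τ ∈ Ip p, (∀ x ∈ F, τ x = x) → c (σ * τ) = c σ) :
    c (φ * σ₀ * φ⁻¹) = φ (c σ₀) := by
  have hpp : p.Prime := hp.out
  have hpN : 0 < p ^ N := pow_pos hpp.pos _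
  have hc0 : ∀ σ ∈ Ip p, c σ ≠ 0 := by
    intro σ hσ h0
    have := hcN σ hσ
    rw [h0, zero_pow hpN.ne'] at this
    exact zero_ne_one this
  obtain ⟨α, hα0, hα⟩ := exists_kummer_Ip hc0 hc hlc
  have hαN : FixI p (α ^ p ^ N) := by
    intro σ hσ
    rw [map_pow, hα σ hσ, mul_pow, hcN σ hσ, one_mul]
  obtain ⟨a, ha⟩ := hαN.exists_zpow (pow_ne_zero _ hα0)
  obtain ⟨π, hπ⟩ := IsAlgClosed.exists_pow_nat_eq (p : FQb) hpN
  have hp0 : (p : FQb) ≠ 0 := by exact_mod_cast hpp.ne_zero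
  have hπ0 : π ≠ 0 := by
    rintro rfl
    rw [zero_pow hpN.ne'] at hπ
    exact hp0 hπ.symm
  set w : FQb := α / π ^ a with hw
  have hπa : π ^ a ≠ 0 := zpow_ne_zero _ hπ0
  have hwα : α = π ^ a * w := by rw [hw, mul_div_cancel₀ _ hπa]
  have hwU : w ∈ UU p := by
    refine ⟨?_, N, ?_⟩
    · have h3 : nm p w ^ p ^ N = 1 := by
        rw [← nm_pow, hw, div_pow, nm_div, ha]
        have h4 : (π ^ a) ^ p ^ N = (p : FQb) ^ a := by
          rw [← zpow_natCast (π ^ a), ← zpow_mul, mul_comm, zpow_mul, zpow_natCast, hπ]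
        rw [h4, nm_zpow]
        exact div_self (zpow_ne_zero _ (nm_p_pos p).ne')
      exact (pow_eq_one_iff_of_nonneg (nm_nonneg _) hpN.ne').mp h3
    · rw [hw, div_pow]
      refine fixI_div hαN ?_
      have h4 : (π ^ a) ^ p ^ N = (p : FQb) ^ a := by
        rw [← zpow_natCast (π ^ a), ← zpow_mul, mul_comm, zpow_mul, zpow_natCast, hπ]
      rw [h4]
      exact fixI_zpow (fixI_natCast p) a
  have hw0 := ne_zero_of_mem_UU hwU
  -- the action of `σ₀` on `π`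
  set θ : FQb := σ₀ π / π with hθ
  have hθπ : σ₀ π = θ * π := by rw [hθ, div_mul_cancel₀ _ hπ0]
  have hcσ₀ : c σ₀ = θ ^ a := by
    have h3 := hα σ₀ h1
    rw [hwα, map_mul, map_zpow₀, hθπ, h2 w hwU, mul_zpow] at h3
    have h4 : θ ^ a * (π ^ a * w) = c σ₀ * (π ^ a * w) := by rw [← h3]; ring
    exact (mul_right_cancel₀ (mul_ne_zero hπa hw0) h4).symm
  -- the conjugate
  have hφ' : φ⁻¹ ∈ Dp p := (Dp p).inv_mem hφ
  set η : FQb := φ⁻¹ π / π with hη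
  have hηπ : φ⁻¹ π = η * π := by rw [hη, div_mul_cancel₀ _ hπ0]
  have hηN : η ^ p ^ N = 1 := by
    rw [hη, div_pow, ← map_pow, hπ, map_natCast, div_self hp0]
  have h3 : σ₀ (φ⁻¹ α) = θ ^ a * φ⁻¹ α := by
    rw [hwα, map_mul, map_zpow₀, hηπ, map_mul, map_zpow₀, map_mul, hθπ,
      h2 η (rootOfUnity_mem_UU hηN), h2 _ (dec_mem_UU hwU hφ'), mul_zpow, mul_zpow, mul_zpow]
    ring
  have h4 := congrArg φ h3
  rw [map_mul, map_zpow₀] at h4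
  have h5 : φ (φ⁻¹ α) = α := by rw [← AlgEquiv.mul_apply, mul_inv_cancel]; rfl
  rw [h5] at h4
  have h6 := hα _ (conj_mem_Ip hφ h1)
  have h7 : (φ * σ₀ * φ⁻¹) α = φ (σ₀ (φ⁻¹ α)) := rfl
  rw [h7, h4] at h6
  rw [hcσ₀, map_zpow₀]
  exact (mul_right_cancel₀ hα0 h6).symm

/-- characters separate points -/
theorem exists_addChar {B : Type*} [AddCommGroup B] [Finite B] {x : B} (hx : x ≠ 0) :
    ∃ ψ : AddChar B FQb, ψ x ≠ 1 := by
  have h1 : NeZero (Monoid.exponent (Multiplicative B)) :=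
    ⟨Monoid.exponent_ne_zero_of_finite⟩
  obtain ⟨φ, hφ⟩ := CommGroup.exists_apply_ne_one_of_hasEnoughRootsOfUnity (Multiplicative B) FQb
    (a := Multiplicative.ofAdd x) (fun h => hx (ofAdd_eq_one.mp h))
  refine ⟨AddChar.toMonoidHomEquiv.symm ((Units.coeHom FQb).comp φ), fun h => hφ ?_⟩
  exact Units.ext h

theorem addChar_pow_eq_one {B : Type*} [AddCommGroup B] {m : ℕ} (hm : ∀ x : B, m • x = 0)
    (ψ : AddChar B FQb) (x : B) : ψ x ^ m = 1 := by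
  rw [← AddChar.map_nsmul_eq_pow, hm, AddChar.map_zero_eq_one]

/-- **Kummer theory with coefficients in a finite ring.** -/
theorem cocycle_conj {B : Type*} [CommRing B] [Finite B] {N : ℕ} (hN : (p : B) ^ N = 0)
    {σ₀ : FGQ} (h1 : σ₀ ∈ Ip p) (h2 : ∀ α ∈ UU p, σ₀ α = α) {φ : FGQ} (hφ : φ ∈ Dp p)
    {ε β : FGQ → B}
    (hε : ∀ σ ∈ Dp p, ∀ a : ℕ, (∀ μ : FQb, μ ^ p ^ N = 1 → σ μ = μ ^ a) → ε σ = a)
    (hβ : ∀ σ ∈ Ip p, ∀ τ ∈ Ip p, β (σ * τ) = ε σ * β τ + β σ)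
    (hlc : ∃ F : IntermediateField ℚ FQb, FiniteDimensional ℚ F ∧
      ∀ σ ∈ Ip p, ∀ τ ∈ Ip p, (∀ x ∈ F, τ x = x) → β (σ * τ) = β σ) :
    β (φ * σ₀ * φ⁻¹) = ε φ * β σ₀ := by
  have hB : ∀ x : B, p ^ N • x = 0 := fun x => by
    rw [nsmul_eq_mul]
    push_cast
    rw [hN, zero_mul]
  have key : ∀ σ ∈ Dp p, ∀ (ψ : AddChar B FQb) (x : B), ψ (ε σ * x) = σ (ψ x) := by
    intro σ hσ ψ x
    obtain ⟨a, ha⟩ := exists_exponent (p := p) σ N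
    rw [hε σ hσ a ha, ha _ (addChar_pow_eq_one hB ψ x), ← AddChar.map_nsmul_eq_pow, nsmul_eq_mul]
  by_contra hne
  obtain ⟨ψ, hψ⟩ := exists_addChar (sub_ne_zero.mpr hne)
  apply hψ
  have h3 := kummer_conj h1 h2 hφ (c := fun σ => ψ (β σ)) (N := N)
    (fun σ _ => addChar_pow_eq_one hB ψ _)
    (fun σ hσ τ hτ => by
      show ψ (β (σ * τ)) = σ (ψ (β τ)) * ψ (β σ)
      rw [hβ σ hσ τ hτ, AddChar.map_add_eq_mul, key σ (Ip_le_Dp hσ)])
    (by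
      obtain ⟨F, hF, h⟩ := hlc
      exact ⟨F, hF, fun σ hσ τ hτ hx => by
        show ψ (β (σ * τ)) = ψ (β σ)
        rw [h σ hσ τ hτ hx]⟩)
  have h4 : ψ (β (φ * σ₀ * φ⁻¹)) = ψ (ε φ * β σ₀) := by rw [key φ hφ]; exact h3
  rw [sub_eq_add_neg, AddChar.map_add_eq_mul, h4, ← AddChar.map_add_eq_mul, add_neg_cancel,
    AddChar.map_zero_eq_one]

end Fermat.Agent.H75P
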