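import Fermat.Agent.H75PKum
import Fermat.Agent.H53Cond7
import Fermat.Agent.H81Ord2

/-!
# Marks at `p` of ordinary representations
-/

set_option autoImplicit false
set_option maxSynthPendingDepth 3
set_option linter.unusedSectionVars false

open scoped Pointwise
open IsLocalRing Fermat.Agent.H64
open Fermat.Agent.H53 (M2 MCont ofMatrix toMat mapMat)

noncomputable section

namespace Fermat.Agent.H75P

variable (p : ℕ) [hp : Fact p.Prime]

section Defs

variable {A : Type} [CommRing A]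

/-- the determinant is the cyclotomic character -/
def DetC (r : FGQ →* M2 A) : Prop :=
  ∀ (n : ℕ) (σ : FGQ) (a : ℕ), (∀ μ : FQb, μ ^ p ^ n = 1 → σ μ = μ ^ a) →
    (r σ).det - (a : A) ∈ Ideal.span {((p ^ n : ℕ) : A)}

/-- ordinary matrix form at the distinguished place above `p` -/
def OrdI (r : FGQ →* M2 A) : Prop :=
  (∀ σ ∈ Dp p, r σ 1 0 = 0) ∧ ∀ σ ∈ Ip p, r σ 1 1 = 1

variable {p}

theorem DetC.map {B : Type} [CommRing B] (f : A →+* B) {r : FGQ →* M2 A} (h : DetC p r) :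
    DetC p (mapMat f r) := by
  intro n σ a ha
  have h1 := h n σ a ha
  rw [Ideal.mem_span_singleton] at h1 ⊢
  obtain ⟨c, hc⟩ := h1
  refine ⟨f c, ?_⟩
  have h2 : (mapMat f r σ).det = f (r σ).det := by
    rw [Matrix.det_fin_two, Matrix.det_fin_two, map_sub, map_mul, map_mul]
    rfl
  rw [h2]
  have h3 := congrArg f hc
  rw [map_sub, map_natCast, map_mul, map_natCast] at h3
  exact h3

theorem OrdI.map {B : Type} [CommRing B] (f : A →+* B) {r : FGQ →* M2 A} (h : OrdI p r) :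
    OrdI p (mapMat f r) := by
  refine ⟨fun σ hσ => ?_, fun σ hσ => ?_⟩
  · show f (r σ 1 0) = 0
    rw [h.1 σ hσ, map_zero]
  · show f (r σ 1 1) = 1
    rw [h.2 σ hσ, map_one]

/-- conjugate representation -/
def cj (g : (M2 A)ˣ) (r : FGQ →* M2 A) : FGQ →* M2 A where
  toFun σ := (↑g⁻¹ : M2 A) * r σ * g
  map_one' := by rw [map_one, mul_one, Units.inv_mul]
  map_mul' σ τ := by
    rw [map_mul]
    calc (↑g⁻¹ : M2 A) * (r σ * r τ) * g = (↑g⁻¹ : M2 A) * r σ * 1 * r τ * g := by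
          noncomm_ring
      _ = (↑g⁻¹ : M2 A) * r σ * ((g : M2 A) * (↑g⁻¹ : M2 A)) * r τ * g := by rw [Units.mul_inv]
      _ = _ := by noncomm_ring

theorem cj_apply (g : (M2 A)ˣ) (r : FGQ →* M2 A) (σ : FGQ) :
    cj g r σ = (↑g⁻¹ : M2 A) * r σ * g := rfl

theorem mul_cj (g : (M2 A)ˣ) (r : FGQ →* M2 A) (σ : FGQ) : (g : M2 A) * cj g r σ = r σ * g := by
  rw [cj_apply, ← mul_assoc, ← mul_assoc, Units.mul_inv, one_mul]

theorem det_cj (g : (M2 A)ˣ) (r : FGQ →* M2 A) (σ : FGQ) : (cj g r σ).det = (r σ).det := by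
  rw [cj_apply, Matrix.det_mul, Matrix.det_mul, mul_comm (↑g⁻¹ : M2 A).det, mul_assoc,
    ← Matrix.det_mul, Units.inv_mul, Matrix.det_one, mul_one]

theorem DetC.cj {r : FGQ →* M2 A} (h : DetC p r) (g : (M2 A)ˣ) : DetC p (H75P.cj g r) := by
  intro n σ a ha
  rw [det_cj]
  exact h n σ a ha

theorem cj_map {B : Type} [CommRing B] (f : A →+* B) (g : (M2 A)ˣ) (r : FGQ →* M2 A) :
    mapMat f (cj g r) = cj (Units.map (f.mapMatrix : M2 A →+* M2 B).toMonoidHom g)
      (mapMat f r) := by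
  ext σ : 1
  show f.mapMatrix ((↑g⁻¹ : M2 A) * r σ * (g : M2 A)) = _
  rw [map_mul, map_mul]
  rfl

theorem MCont.cj {A : Type} [CommRing A] [IsLocalRing A] {r : FGQ →* M2 A} (h : MCont A r)
    (g : (M2 A)ˣ) : MCont A (H75P.cj g r) := by
  intro n
  obtain ⟨L, hL, h⟩ := h n
  refine ⟨L, hL, fun σ hσ i j => ?_⟩
  have h1 : H75P.cj g r σ i j - (1 : M2 A) i j =
      ((↑g⁻¹ : M2 A) * (r σ - 1) * (g : M2 A)) i j := by
    rw [mul_sub, sub_mul, mul_one, Units.inv_mul]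
    rfl
  rw [h1, Matrix.mul_apply]
  refine Ideal.sum_mem _ fun k _ => Ideal.mul_mem_right _ _ ?_
  rw [Matrix.mul_apply]
  exact Ideal.sum_mem _ fun l _ => Ideal.mul_mem_left _ _ (h σ hσ l k)

end Defs

section Rel

variable {p}
variable {A : Type} [CommRing A] [IsLocalRing A]

/-- **The relation between the extension class at `σ₀` and the unramified quotient**. -/
theorem OrdI.rel (hfin : ∀ n, Finite (A ⧸ maximalIdeal A ^ n))
    (hsep : IsHausdorff (maximalIdeal A) A) (hpA : (p : A) ∈ maximalIdeal A)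
    {r : FGQ →* M2 A} (hcont : MCont A r) (hdet : DetC p r) (hr : OrdI p r)
    {σ₀ : FGQ} (h1 : σ₀ ∈ Ip p) (h2 : ∀ α ∈ UU p, σ₀ α = α) {φ : FGQ} (hφ : φ ∈ Dp p) :
    (r φ 1 1 ^ 2 - 1) * r σ₀ 0 1 = 0 := by
  have hI2 : ∀ σ ∈ Ip p, r σ = !![(r σ).det, r σ 0 1; 0, 1] := by
    intro σ hσ
    have h10 := hr.1 σ (Ip_le_Dp hσ)
    have h11 := hr.2 σ hσ
    ext i j
    fin_cases i <;> fin_cases j
    · show r σ 0 0 = (r σ).det
      rw [Matrix.det_fin_two, h10, h11]; ring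
    · rfl
    · exact h10
    · exact h11
  apply hsep.haus
  intro n
  rw [SModEq.zero, smul_eq_mul, Ideal.mul_top]
  -- work in the finite quotient
  have hfn := hfin n
  set q := Ideal.Quotient.mk (maximalIdeal A ^ n) with hq
  have hpn : ((p : A ⧸ maximalIdeal A ^ n)) ^ n = 0 := by
    rw [← map_natCast q, ← map_pow, hq, Ideal.Quotient.eq_zero_iff_mem]
    exact Ideal.pow_mem_pow hpA n
  have hdetq : ∀ σ : FGQ, ∀ a : ℕ, (∀ μ : FQb, μ ^ p ^ n = 1 → σ μ = μ ^ a) →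
      q (r σ).det = a := by
    intro σ a ha
    have h3 := hdet n σ a ha
    rw [← sub_eq_zero, ← map_natCast q, ← map_sub, hq, Ideal.Quotient.eq_zero_iff_mem]
    refine (Ideal.span_singleton_le_iff_mem _).mpr ?_ h3
    rw [Nat.cast_pow]
    exact Ideal.pow_mem_pow hpA n
  have hσ₀det : q (r σ₀).det = 1 := by
    have := hdetq σ₀ 1 (fun μ hμ => by rw [h2 μ (rootOfUnity_mem_UU hμ), pow_one])
    rw [this, Nat.cast_one]
  have hconj := cocycle_conj (p := p) (B := A ⧸ maximalIdeal A ^ n) (N := n) hpn h1 h2 hφ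
    (ε := fun σ => q (r σ).det) (β := fun σ => q (r σ 0 1))
    (fun σ _ a ha => hdetq σ a ha)
    (fun σ hσ τ hτ => by
      show q (r (σ * τ) 0 1) = q (r σ).det * q (r τ 0 1) + q (r σ 0 1)
      rw [← map_mul, ← map_add]
      congr 1
      rw [map_mul, Matrix.mul_apply, Fin.sum_univ_two]
      have e1 : r σ 0 0 = (r σ).det := by
        conv_lhs => rw [hI2 σ hσ]
        rfl
      rw [e1, hr.2 τ hτ, mul_one])
    (by
      obtain ⟨L, hL, h⟩ := hcont n
      refine ⟨L, hL, fun σ hσ τ hτ hx => ?_⟩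
      show q (r (σ * τ) 0 1) = q (r σ 0 1)
      rw [← sub_eq_zero, ← map_sub, hq, Ideal.Quotient.eq_zero_iff_mem, map_mul,
        Matrix.mul_apply, Fin.sum_univ_two]
      have e0 := h τ hx 0 1
      have e1 := h τ hx 1 1
      rw [Matrix.one_apply_eq] at e1
      rw [Matrix.one_apply_ne (by decide), sub_zero] at e0
      have e2 : r σ 0 0 * r τ 0 1 + r σ 0 1 * r τ 1 1 - r σ 0 1 =
          r σ 0 0 * r τ 0 1 + r σ 0 1 * (r τ 1 1 - 1) := by ring
      rw [e2]
      exact Ideal.add_mem _ (Ideal.mul_mem_left _ _ e0) (Ideal.mul_mem_left _ _ e1))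
  have hconj' : q (r (φ * σ₀ * φ⁻¹) 0 1) = q (r φ).det * q (r σ₀ 0 1) := hconj
  -- the matrix identity
  have hmat : r (φ * σ₀ * φ⁻¹) * r φ = r φ * r σ₀ := by
    rw [← map_mul, ← map_mul, inv_mul_cancel_right]
  have hc := conj_mem_Ip hφ h1
  have h01 := congrFun (congrFun hmat 0) 1
  rw [Matrix.mul_apply, Matrix.mul_apply, Fin.sum_univ_two, Fin.sum_univ_two, hr.2 σ₀ h1] at h01
  have e00 : r (φ * σ₀ * φ⁻¹) 0 0 = (r σ₀).det := by
    have : r (φ * σ₀ * φ⁻¹) 0 0 = (r (φ * σ₀ * φ⁻¹)).det := by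
      conv_lhs => rw [hI2 _ hc]
      rfl
    rw [this]
    have hd := congrArg Matrix.det hmat
    rw [Matrix.det_mul, Matrix.det_mul, mul_comm (r φ).det] at hd
    have hu : IsUnit (r φ).det := by
      rw [← Matrix.isUnit_iff_isUnit_det]
      exact (Group.isUnit φ).map r
    exact hu.mul_right_cancel hd
  rw [e00] at h01
  have hφd : (r φ).det = r φ 0 0 * r φ 1 1 := by
    rw [Matrix.det_fin_two, hr.1 φ hφ, mul_zero, sub_zero]
  obtain ⟨β, hβ⟩ : ∃ β, β = r (φ * σ₀ * φ⁻¹) 0 1 := ⟨_, rfl⟩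
  rw [← hβ] at h01 hconj'
  have h3 := congrArg q h01
  rw [map_add, map_add, map_mul, map_mul, map_mul, map_mul, hσ₀det, one_mul, hconj', map_one,
    mul_one, hφd, map_mul] at h3
  have hu : IsUnit (q (r φ 0 0)) := by
    have h4 : IsUnit (r φ).det := by
      rw [← Matrix.isUnit_iff_isUnit_det]
      exact (Group.isUnit φ).map r
    rw [hφd] at h4
    exact (isUnit_of_mul_isUnit_left h4).map q
  have h5 : q (r φ 0 0) * ((q (r φ 1 1)) ^ 2 * q (r σ₀ 0 1)) = q (r φ 0 0) * q (r σ₀ 0 1) := by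
    linear_combination h3
  have h6 := hu.mul_left_cancel h5
  rw [← Ideal.Quotient.eq_zero_iff_mem, ← hq, map_mul, map_sub, map_pow, map_one, sub_mul, h6,
    one_mul, sub_self]

end Rel

end Fermat.Agent.H75P
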