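import Fermat.Agent.H75PMark
import Fermat.Agent.H75PBound
import Fermat.Agent.H28FrobGen

/-!
# Marks at `p` of ordinary representations, part 2
-/

set_option autoImplicit false
set_option maxSynthPendingDepth 3
set_option linter.unusedSectionVars false

open scoped Pointwise
open IsLocalRing Fermat.Agent.H64
open Fermat.Agent.H53 (M2 MCont ofMatrix toMat mapMat OrdB)

noncomputable section

namespace Fermat.Agent.H75P

variable {p : ℕ} [hp : Fact p.Prime]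

section Psi

variable {A : Type} [CommRing A]

/-- a conjugation invariant formula for the unramified quotient character -/
theorem OrdI.trace_eq {r : FGQ →* M2 A} (hr : OrdI p r) {τ σ : FGQ} (hτ : τ ∈ Ip p)
    (hσ : σ ∈ Dp p) :
    (r σ * ((r τ).det • (1 : M2 A) - r τ)).trace = r σ 1 1 * ((r τ).det - 1) := by
  have h1 := hr.1 τ (Ip_le_Dp hτ)
  have h2 := hr.2 τ hτ
  have h3 := hr.1 σ hσ
  have h4 : (r τ).det = r τ 0 0 := by
    rw [Matrix.det_fin_two, h1, h2]; ring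
  rw [Matrix.trace_fin_two, Matrix.mul_apply, Matrix.mul_apply, Fin.sum_univ_two,
    Fin.sum_univ_two]
  simp only [Matrix.sub_apply, Matrix.smul_apply, Matrix.one_apply_eq, smul_eq_mul, mul_one,
    Matrix.one_apply_ne (show (0 : Fin 2) ≠ 1 by decide),
    Matrix.one_apply_ne (show (1 : Fin 2) ≠ 0 by decide), mul_zero, h1, h2, h3, h4]
  ring

theorem trace_cj (g : (M2 A)ˣ) (r : FGQ →* M2 A) (σ τ : FGQ) :
    (cj g r σ * ((cj g r τ).det • (1 : M2 A) - cj g r τ)).trace =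
      (r σ * ((r τ).det • (1 : M2 A) - r τ)).trace := by
  rw [det_cj]
  have h1 : (r τ).det • (1 : M2 A) - cj g r τ =
      (↑g⁻¹ : M2 A) * ((r τ).det • (1 : M2 A) - r τ) * g := by
    rw [mul_sub, sub_mul, cj_apply, mul_smul_comm, mul_one, smul_mul_assoc, Units.inv_mul]
  rw [h1, cj_apply]
  have h2 : (↑g⁻¹ : M2 A) * r σ * g * ((↑g⁻¹ : M2 A) * ((r τ).det • (1 : M2 A) - r τ) * g) =
      (↑g⁻¹ : M2 A) * (r σ * ((r τ).det • (1 : M2 A) - r τ)) * g := by
    calc _ = (↑g⁻¹ : M2 A) * r σ * ((g : M2 A) * (↑g⁻¹ : M2 A)) *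
          ((r τ).det • (1 : M2 A) - r τ) * g := by noncomm_ring
      _ = _ := by rw [Units.mul_inv]; noncomm_ring
  rw [h2, Matrix.trace_mul_comm, ← mul_assoc, Units.mul_inv, one_mul]

/-- the unramified quotient character does not depend on the basis -/
theorem OrdI.psi_unique {r : FGQ →* M2 A} {g g' : (M2 A)ˣ} (h : OrdI p (cj g r))
    (h' : OrdI p (cj g' r)) {τ : FGQ} (hτ : τ ∈ Ip p) (hu : IsUnit ((r τ).det - 1)) {σ : FGQ}
    (hσ : σ ∈ Dp p) : cj g r σ 1 1 = cj g' r σ 1 1 := by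
  have h1 := h.trace_eq hτ hσ
  have h2 := h'.trace_eq hτ hσ
  rw [trace_cj, det_cj] at h1 h2
  rw [h1] at h2
  exact hu.mul_right_cancel h2

end Psi

section Tau

variable {A : Type} [CommRing A] [IsLocalRing A]

theorem isUnit_natCast_of_not_dvd {m : ℕ} (hm : ¬ p ∣ m) (hpA : (p : A) ∈ maximalIdeal A) :
    IsUnit (m : A) := by
  have := H53.isUnit_natCast_of_not_dvd (A := A) hp.out hpA (a := (m : ℤ))
    (by exact_mod_cast hm)
  simpa using this

theorem isUnit_of_sub_mem {a b : A} (ha : IsUnit a) (h : b - a ∈ maximalIdeal A) : IsUnit b := by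
  by_contra hcon
  have h1 : b ∈ maximalIdeal A := (mem_maximalIdeal _).mpr hcon
  have h2 : a ∈ maximalIdeal A := by
    have := (maximalIdeal A).sub_mem h1 h
    rwa [sub_sub_cancel] at this
  exact (mem_maximalIdeal _).mp h2 ha

variable (p) in
/-- an element of inertia whose determinant is not congruent to one -/
theorem exists_tau_unit (hp2 : p ≠ 2) :
    ∃ τ ∈ Ip p, ∀ (A : Type) [CommRing A] [IsLocalRing A], (p : A) ∈ maximalIdeal A →
      ∀ r : FGQ →* M2 A, DetC p r → IsUnit ((r τ).det - 1) := by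
  have hpp : p.Prime := hp.out
  have h2 : ¬ p ∣ 2 := fun h => hp2 ((Nat.prime_dvd_prime_iff_eq hpp Nat.prime_two).mp h)
  obtain ⟨τ, hτ, hτζ⟩ := H33.exists_inertia_cyclo (p := p) (H54.liesOverPrime_padicPlace p) 2 h2
  refine ⟨τ, hτ, fun A _ _ hpA r hdet => ?_⟩
  have h3 := hdet 1 τ 2 (fun μ hμ => hτζ μ (by rwa [pow_one] at hμ))
  have h4 : (r τ).det - 1 - 1 ∈ maximalIdeal A := by
    have h5 : (r τ).det - 1 - 1 = (r τ).det - ((2 : ℕ) : A) := by push_cast; ring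
    rw [h5]
    refine (Ideal.span_singleton_le_iff_mem _).mpr ?_ h3
    rw [pow_one]
    exact hpA
  exact isUnit_of_sub_mem isUnit_one h4

/-- from the square to the value -/
theorem eq_of_sq_mul (hp2 : p ≠ 2) (hpA : (p : A) ∈ maximalIdeal A) {z u y : A}
    (hu : u ^ 2 = 1) (hz : z - u ∈ maximalIdeal A) (h : (z ^ 2 - 1) * y = 0) :
    (z - u) * y = 0 := by
  have hpp : p.Prime := hp.out
  have h2 : IsUnit (2 : A) := by
    have := isUnit_natCast_of_not_dvd (p := p) (A := A) (m := 2)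
      (fun h => hp2 ((Nat.prime_dvd_prime_iff_eq hpp Nat.prime_two).mp h)) hpA
    exact_mod_cast this
  have hu' : IsUnit u := IsUnit.of_mul_eq_one u (by rw [← pow_two, hu])
  have h3 : IsUnit (z + u) := by
    refine isUnit_of_sub_mem (h2.mul hu') ?_
    have : z + u - 2 * u = z - u := by ring
    rwa [this]
  apply h3.mul_left_cancel
  rw [mul_zero]
  linear_combination h + (-y) * hu

end Tau

section Mark

variable {A : Type} [CommRing A]

variable (p) in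
/-- **Marks at `p`**: `t = ψ(φ) - u` for the unramified quotient character `ψ`, and `y` the value
at `σ₀` of the extension class, in some adapted basis. -/
def OrdMark (r : FGQ →* M2 A) (u : A) (φ σ₀ : FGQ) (t y : A) : Prop :=
  ∃ g : (M2 A)ˣ, OrdI p (cj g r) ∧ t = cj g r φ 1 1 - u ∧ y = cj g r σ₀ 0 1

theorem OrdMark.map {B : Type} [CommRing B] (f : A →+* B) {r : FGQ →* M2 A} {u : A}
    {φ σ₀ : FGQ} {t y : A} (h : OrdMark p r u φ σ₀ t y) :
    OrdMark p (mapMat f r) (f u) φ σ₀ (f t) (f y) := by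
  obtain ⟨g, hg, ht, hy⟩ := h
  refine ⟨Units.map (f.mapMatrix : M2 A →+* M2 B).toMonoidHom g, ?_, ?_, ?_⟩
  · rw [← cj_map]
    exact hg.map f
  · rw [← cj_map, ht, map_sub]
    rfl
  · rw [← cj_map, hy]
    rfl

variable [IsLocalRing A]

/-- **(S1)** `t * y = 0`. -/
theorem OrdMark.mul_eq_zero (hp2 : p ≠ 2) (hfin : ∀ n, Finite (A ⧸ maximalIdeal A ^ n))
    (hsep : IsHausdorff (maximalIdeal A) A) (hpA : (p : A) ∈ maximalIdeal A)
    {r : FGQ →* M2 A} (hcont : MCont A r) (hdet : DetC p r)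
    {σ₀ : FGQ} (h1 : σ₀ ∈ Ip p) (h2 : ∀ α ∈ UU p, σ₀ α = α) {φ : FGQ} (hφ : φ ∈ Dp p)
    {u t y : A} (hu : u ^ 2 = 1) (ht : t ∈ maximalIdeal A) (h : OrdMark p r u φ σ₀ t y) :
    t * y = 0 := by
  obtain ⟨g, hg, rfl, rfl⟩ := h
  exact eq_of_sq_mul hp2 hpA hu ht
    (hg.rel hfin hsep hpA (MCont.cj hcont g) (hdet.cj g) h1 h2 hφ)

/-- a unit extension class forces `ψ(φ) = u` -/
theorem OrdMark.t_eq_zero_of_isUnit (hp2 : p ≠ 2) (hfin : ∀ n, Finite (A ⧸ maximalIdeal A ^ n))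
    (hsep : IsHausdorff (maximalIdeal A) A) (hpA : (p : A) ∈ maximalIdeal A)
    {r : FGQ →* M2 A} (hcont : MCont A r) (hdet : DetC p r)
    {σ₀ : FGQ} (h1 : σ₀ ∈ Ip p) (h2 : ∀ α ∈ UU p, σ₀ α = α) {φ : FGQ} (hφ : φ ∈ Dp p)
    {u t y : A} (hu : u ^ 2 = 1) (ht : t ∈ maximalIdeal A) (hy : IsUnit y)
    (h : OrdMark p r u φ σ₀ t y) : t = 0 := by
  have h3 := h.mul_eq_zero hp2 hfin hsep hpA hcont hdet h1 h2 hφ hu ht
  exact hy.mul_left_eq_zero.mp h3

/-- uniqueness of `t` -/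
theorem OrdMark.t_unique {r : FGQ →* M2 A} {u t y t' y' : A} {φ σ₀ : FGQ} (hp2 : p ≠ 2)
    (hpA : (p : A) ∈ maximalIdeal A) (hdet : DetC p r) (hφ : φ ∈ Dp p)
    (h : OrdMark p r u φ σ₀ t y) (h' : OrdMark p r u φ σ₀ t' y') : t = t' := by
  obtain ⟨τ, hτ, hτu⟩ := exists_tau_unit p hp2
  obtain ⟨g, hg, rfl, -⟩ := h
  obtain ⟨g', hg', rfl, -⟩ := h'
  rw [hg.psi_unique hg' hτ (hτu A hpA r hdet) hφ]

/-- strictly ordinary matrix form: the square of the unramified quotient is trivial -/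
theorem psi_sq_of_ordB (hsep : IsHausdorff (maximalIdeal A) A)
    (hpA : (p : A) ∈ maximalIdeal A) {r : FGQ →* M2 A} (hdet : DetC p r)
    (h : OrdB p (padicPlace p) r) {φ : FGQ} (hφ : φ ∈ Dp p) : r φ 1 1 ^ 2 = 1 := by
  rw [← sub_eq_zero]
  apply hsep.haus
  intro n
  rw [SModEq.zero, smul_eq_mul, Ideal.mul_top]
  obtain ⟨a, ha⟩ := exists_exponent (p := p) φ n
  have h1 := hdet n φ a ha
  have h2 := h.2.2 φ hφ n a ha
  have h3 : (r φ).det = r φ 0 0 * r φ 1 1 := by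
    rw [Matrix.det_fin_two, h.1 φ hφ, mul_zero, sub_zero]
  have hle : (Ideal.span {((p ^ n : ℕ) : A)} : Ideal A) ≤ maximalIdeal A ^ n := by
    rw [Ideal.span_singleton_le_iff_mem, Nat.cast_pow]
    exact Ideal.pow_mem_pow hpA n
  rcases Nat.eq_zero_or_pos n with rfl | hn
  · rw [pow_zero, Ideal.one_eq_top]
    trivial
  -- `a` is a unit
  have ha' : ¬ p ∣ a := by
    intro hd
    have : NeZero p := ⟨hp.out.ne_zero⟩
    obtain ⟨ζ, hζ⟩ := HasEnoughRootsOfUnity.exists_primitiveRoot FQb p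
    have h4 : ζ ^ p ^ n = 1 := by
      obtain ⟨m, rfl⟩ : ∃ m, n = m + 1 := ⟨n - 1, by omega⟩
      rw [pow_succ', pow_mul, hζ.pow_eq_one, one_pow]
    have h5 := ha ζ h4
    obtain ⟨c, rfl⟩ := hd
    rw [pow_mul, hζ.pow_eq_one, one_pow] at h5
    have h6 : ζ = 1 := by
      apply φ.injective
      rw [h5, map_one]
    exact hζ.ne_one hp.out.one_lt h6
  have hau : IsUnit (a : A) := isUnit_natCast_of_not_dvd ha' hpA
  have h7 : (a : A) * (r φ 1 1 ^ 2 - 1) ∈ maximalIdeal A ^ n := by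
    have h8 : (a : A) * (r φ 1 1 ^ 2 - 1) =
        ((r φ).det - (a : A)) - (r φ 0 0 - (a : A) * r φ 1 1) * r φ 1 1 := by
      rw [h3]; ring
    rw [h8]
    exact Ideal.sub_mem _ (hle h1) (Ideal.mul_mem_right _ _ (hle h2))
  obtain ⟨a', ha'⟩ := hau
  rw [← ha'] at h7
  have := Ideal.mul_mem_left _ (↑a'⁻¹ : A) h7
  rwa [← mul_assoc, Units.inv_mul, one_mul] at this

theorem ordI_of_ordB {r : FGQ →* M2 A} (h : OrdB p (padicPlace p) r) : OrdI p r :=
  ⟨fun σ hσ => h.1 σ hσ, fun σ hσ => (h.2.1 σ hσ).2⟩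

/-- **(S4)** strictly ordinary points: `t = 0`. -/
theorem OrdMark.t_eq_zero_of_ordB (hp2 : p ≠ 2) (hsep : IsHausdorff (maximalIdeal A) A)
    (hpA : (p : A) ∈ maximalIdeal A) {r : FGQ →* M2 A} (hdet : DetC p r) {g' : (M2 A)ˣ}
    (hB : OrdB p (padicPlace p) (cj g' r)) {φ σ₀ : FGQ} (hφ : φ ∈ Dp p)
    {u t y : A} (hu : u ^ 2 = 1) (ht : t ∈ maximalIdeal A) (h : OrdMark p r u φ σ₀ t y) :
    t = 0 := by
  obtain ⟨τ, hτ, hτu⟩ := exists_tau_unit p hp2
  obtain ⟨g, hg, rfl, -⟩ := h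
  have h1 := psi_sq_of_ordB hsep hpA (hdet.cj g') hB hφ
  rw [(ordI_of_ordB hB).psi_unique hg hτ (hτu A hpA r hdet) hφ] at h1
  have h2 := eq_of_sq_mul (p := p) (y := 1) hp2 hpA hu ht (by rw [h1]; ring)
  rwa [mul_one] at h2

/-- values of the unramified quotient at the decomposition group -/
theorem OrdI.exists_pow {r : FGQ →* M2 A} (hcont : MCont A r) (hr : OrdI p r) {φ : FGQ}
    (hφ : (padicPlace p).IsFrobeniusAt φ p) {σ : FGQ} (hσ : σ ∈ Dp p) (n : ℕ) :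
    ∃ m : ℕ, r σ 1 1 - r φ 1 1 ^ m ∈ maximalIdeal A ^ n := by
  obtain ⟨L, hL, h⟩ := hcont n
  have hφD : φ ∈ Dp p := hφ.mem_decompositionSubgroup
  obtain ⟨m, ι, hι, s, hs, hσe⟩ := H28.exists_frobenius_mul hp.out
    (H54.liesOverPrime_padicPlace p) hφ (σ := σ) hσ (U := L.fixingSubgroup)
    ((H55.krullLevels_op_iff _).mpr ⟨L, hL, le_rfl⟩)
  have hι' : ι ∈ Ip p := hι
  have hιD : ι ∈ Dp p := Ip_le_Dp hι'
  have hmul : ∀ {σ τ : FGQ}, σ ∈ Dp p → r (σ * τ) 1 1 = r σ 1 1 * r τ 1 1 := by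
    intro σ τ hσ
    rw [map_mul, Matrix.mul_apply, Fin.sum_univ_two, hr.1 σ hσ, zero_mul, zero_add]
  have hpow : ∀ m : ℕ, r (φ ^ m) 1 1 = r φ 1 1 ^ m := by
    intro m
    induction m with
    | zero => rw [pow_zero, map_one, pow_zero, Matrix.one_apply_eq]
    | succ m ih => rw [pow_succ, hmul (pow_mem hφD m), ih, pow_succ]
  refine ⟨m, ?_⟩
  have h1 : φ ^ m * ι ∈ Dp p := mul_mem (pow_mem hφD m) hιD
  rw [hσe, hmul h1, hmul (pow_mem hφD m), hr.2 ι hι', mul_one, hpow]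
  have h2 := h s (fun x hx => (IntermediateField.mem_fixingSubgroup_iff L s).mp hs x hx) 1 1
  rw [Matrix.one_apply_eq] at h2
  have h3 : r φ 1 1 ^ m * r s 1 1 - r φ 1 1 ^ m = r φ 1 1 ^ m * (r s 1 1 - 1) := by ring
  rw [h3]
  exact Ideal.mul_mem_left _ _ h2

end Mark

section Dual

open Fermat.Agent.H56 Fermat.Agent.H81 ExtCitation

variable {k : Type} [Field k] [Algebra (ZMod p) k]

theorem dual_sq_eq_bot : maximalIdeal (DualNumber k) ^ 2 = ⊥ := by
  rw [eq_bot_iff, pow_two, Ideal.mul_le]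
  intro x hx y hy
  rw [mem_maximalIdeal, mem_nonunits_iff, TrivSqZeroExt.isUnit_iff_isUnit_fst,
    isUnit_iff_ne_zero, not_not] at hx hy
  rw [Ideal.mem_bot]
  ext
  · simp [hx]
  · simp [hx, hy]

/-- **Marked lifts to the dual numbers.** -/
theorem OrdMark.markCond {r₀ : H91.GQ →* M2 k} (hdet : DetCyc p r₀)
    {R : H91.GQ →* M2 (DualNumber k)} (hR : GoodLift r₀ R) {u : k} (hu : u ^ 2 = 1)
    {φ σ₀ : H91.GQ} (hφ : (padicPlace p).IsFrobeniusAt φ p) (h1 : σ₀ ∈ Ip p)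
    (hζ : ∀ ζ : FQb, ζ ^ p = 1 → σ₀ ζ = ζ)
    (h : OrdMark p R (TrivSqZeroExt.inl u) φ σ₀ 0 0) : MarkCond p σ₀ R := by
  obtain ⟨g, hg, ht, hy⟩ := h
  have hφD : φ ∈ Dp p := hφ.mem_decompositionSubgroup
  rw [eq_comm, sub_eq_zero] at ht
  have hdetR : ∀ σ, (cj g R σ).det = TrivSqZeroExt.inl (chik p k σ) := by
    intro σ
    rw [det_cj, hR.det, hdet]
    rfl
  refine ⟨⟨g, g.isUnit, fun σ => ?_⟩, ?_⟩
  · have hσD : (σ : H91.GQ) ∈ Dp p := σ.2
    obtain ⟨m, hm⟩ := hg.exists_pow (MCont.cj hR.cont g) hφ hσD 2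
    rw [dual_sq_eq_bot, Ideal.mem_bot, sub_eq_zero, ht, TrivSqZeroExt.inl_pow] at hm
    have hz2 : (u ^ m) ^ 2 = 1 := by rw [← pow_mul, mul_comm, pow_mul, hu, one_pow]
    refine ⟨u ^ m, cj g R σ 0 1, hz2, ?_, fun hσI => ?_⟩
    · rw [← mul_cj]
      congr 1
      have h10 := hg.1 σ hσD
      have hd := hdetR σ
      rw [Matrix.det_fin_two, h10, mul_zero, sub_zero, hm] at hd
      ext1 i j
      fin_cases i <;> fin_cases j
      · show cj g R σ 0 0 = TrivSqZeroExt.inl (chik p k σ * u ^ m)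
        have h3 : cj g R σ 0 0 * TrivSqZeroExt.inl (u ^ m) * TrivSqZeroExt.inl (u ^ m) =
            TrivSqZeroExt.inl (chik p k σ) * TrivSqZeroExt.inl (u ^ m) := by rw [hd]
        rw [mul_assoc, ← TrivSqZeroExt.inl_mul, ← pow_two, hz2, TrivSqZeroExt.inl_one,
          mul_one] at h3
        rw [h3, ← TrivSqZeroExt.inl_mul]
      · rfl
      · exact h10
      · exact hm
    · have hσI' : (σ : H91.GQ) ∈ Ip p := hσI
      have h3 := hg.2 σ hσI'
      rw [hm] at h3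
      have h4 := congrArg TrivSqZeroExt.fst h3
      rwa [TrivSqZeroExt.fst_inl, TrivSqZeroExt.fst_one] at h4
  · -- `R σ₀ = 1`
    have hσD : σ₀ ∈ Dp p := Ip_le_Dp h1
    have h10 := hg.1 σ₀ hσD
    have h11 := hg.2 σ₀ h1
    have hχ : chik p k σ₀ = 1 := by
      have : NeZero p := ⟨hp.out.ne_zero⟩
      obtain ⟨ζ, hζp⟩ := HasEnoughRootsOfUnity.exists_primitiveRoot FQb p
      have h2 := H54.cycloChar_spec p σ₀ hζp.pow_eq_one
      rw [hζ ζ hζp.pow_eq_one] at h2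
      have h3 : ((cycloChar p σ₀ : ZMod p)) = ((1 : ℕ) : ZMod p) := by
        apply ze_injective hζp
        rw [ze_natCast hζp.pow_eq_one, pow_one]
        exact h2.symm
      rw [chik, h3, Nat.cast_one, map_one]
    have hd := hdetR σ₀
    rw [Matrix.det_fin_two, h10, h11, mul_zero, sub_zero, mul_one, hχ,
      TrivSqZeroExt.inl_one] at hd
    have h3 : cj g R σ₀ = 1 := by
      ext1 i j
      fin_cases i <;> fin_cases j
      · exact hd
      · exact hy.symm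
      · exact h10
      · exact h11
    have h4 := mul_cj g R σ₀
    rw [h3, mul_one] at h4
    have h5 : R σ₀ = R σ₀ * ((g : M2 (DualNumber k)) * (↑g⁻¹ : M2 (DualNumber k))) := by
      rw [Units.mul_inv, mul_one]
    rw [h5, ← mul_assoc, ← h4, Units.mul_inv]

end Dual

end Fermat.Agent.H75P
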