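import Fermat.Agent.H64FTame
import Fermat.Agent.H33Cyclo
import Fermat.Agent.H53Tame3

/-!
# The element `σ₀` of inertia at `p`

An element of `I_p` fixing all `p`-power roots of unity and all `p`-power roots of units of the
maximal unramified extension, and moving a `p`-th root of `p`.
-/

set_option autoImplicit false
set_option maxSynthPendingDepth 3

open scoped Pointwise
open Polynomial Fermat.Agent.H64

noncomputable section

namespace Fermat.Agent.H75P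

variable (p : ℕ) [hp : Fact p.Prime]

local instance isAlgebraicQbar_ps : Algebra.IsAlgebraic ℚ (AlgebraicClosure ℚ) :=
  AlgebraicClosure.isAlgebraic ℚ
local instance isAlgClosureQbar_ps : IsAlgClosure ℚ (AlgebraicClosure ℚ) :=
  ⟨inferInstance, inferInstance⟩
local instance normalQbar_ps : Normal ℚ (AlgebraicClosure ℚ) :=
  IsAlgClosure.normal ℚ (AlgebraicClosure ℚ)
local instance galQbar_ps : IsGalois ℚ (AlgebraicClosure ℚ) := ⟨⟩

/-! ### the group of `p`-power roots of units -/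

section Basic

variable {p}

theorem fixI_mul {x y : FQb} (hx : FixI p x) (hy : FixI p y) : FixI p (x * y) := fun σ hσ => by
  rw [map_mul, hx σ hσ, hy σ hσ]

theorem fixI_pow {x : FQb} (hx : FixI p x) (n : ℕ) : FixI p (x ^ n) := fun σ hσ => by
  rw [map_pow, hx σ hσ]

theorem fixI_zpow {x : FQb} (hx : FixI p x) (n : ℤ) : FixI p (x ^ n) := fun σ hσ => by
  rw [map_zpow₀, hx σ hσ]

theorem fixI_inv {x : FQb} (hx : FixI p x) : FixI p x⁻¹ := fun σ hσ => by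
  rw [map_inv₀, hx σ hσ]

theorem fixI_div {x y : FQb} (hx : FixI p x) (hy : FixI p y) : FixI p (x / y) := fun σ hσ => by
  rw [map_div₀, hx σ hσ, hy σ hσ]

theorem fixI_one : FixI p (1 : FQb) := fun σ _ => map_one σ

theorem fixI_natCast (n : ℕ) : FixI p (n : FQb) := fun σ _ => map_natCast σ n

/-- inertia is normalised by the decomposition group -/
theorem conj_mem_Ip {φ σ : FGQ} (hφ : φ ∈ Dp p) (hσ : σ ∈ Ip p) : φ * σ * φ⁻¹ ∈ Ip p := by
  rw [mem_Ip_iff]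
  refine ⟨(Dp p).mul_mem ((Dp p).mul_mem hφ (Ip_le_Dp hσ)) ((Dp p).inv_mem hφ), fun x hx => ?_⟩
  have h1 : (φ * σ * φ⁻¹) x - x = φ (σ (φ⁻¹ x) - φ⁻¹ x) := by
    rw [map_sub]
    have h2 : φ (φ⁻¹ x) = x := by
      rw [← AlgEquiv.mul_apply, mul_inv_cancel]; rfl
    rw [h2]
    rfl
  rw [h1, nm_dec hφ]
  exact nm_inertia hσ (by rwa [nm_dec ((Dp p).inv_mem hφ)])

theorem fixI_dec {x : FQb} (hx : FixI p x) {φ : FGQ} (hφ : φ ∈ Dp p) : FixI p (φ x) := by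
  intro σ hσ
  have h1 := conj_mem_Ip ((Dp p).inv_mem hφ) hσ
  rw [inv_inv] at h1
  have h2 : (φ⁻¹ * σ * φ) x = x := hx _ h1
  have h3 := congrArg φ h2
  rw [← AlgEquiv.mul_apply, ← mul_assoc, mul_inv_cancel_left] at h3
  exact h3

end Basic

/-- `p`-power roots of units of the maximal unramified extension -/
def UU : Submonoid FQb where
  carrier := {α | nm p α = 1 ∧ ∃ n : ℕ, FixI p (α ^ p ^ n)}
  mul_mem' := by
    rintro a b ⟨ha, n, hn⟩ ⟨hb, m, hm⟩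
    refine ⟨by rw [nm_mul, ha, hb, one_mul], n + m, ?_⟩
    rw [mul_pow, pow_add, pow_mul a, mul_comm (p ^ n), pow_mul b]
    exact fixI_mul (fixI_pow hn _) (fixI_pow hm _)
  one_mem' := ⟨nm_one, 0, by rw [one_pow]; exact fixI_one⟩

variable {p}

theorem mem_UU {α : FQb} : α ∈ UU p ↔ nm p α = 1 ∧ ∃ n : ℕ, FixI p (α ^ p ^ n) := Iff.rfl

theorem ne_zero_of_mem_UU {α : FQb} (h : α ∈ UU p) : α ≠ 0 := by
  rintro rfl
  have := h.1
  rw [nm_zero] at this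
  exact zero_ne_one this

theorem dec_mem_UU {α : FQb} (h : α ∈ UU p) {φ : FGQ} (hφ : φ ∈ Dp p) : φ α ∈ UU p := by
  obtain ⟨h1, n, hn⟩ := h
  refine ⟨by rw [nm_dec hφ, h1], n, ?_⟩
  rw [← map_pow]
  exact fixI_dec hn hφ

theorem rootOfUnity_mem_UU {n : ℕ} {ζ : FQb} (h : ζ ^ p ^ n = 1) : ζ ∈ UU p := by
  refine ⟨?_, n, by rw [h]; exact fixI_one⟩
  have h2 := congrArg (nm p) h
  rw [nm_pow, nm_one] at h2
  exact (pow_eq_one_iff_of_nonneg (nm_nonneg _) (pow_ne_zero _ hp.out.ne_zero)).mp h2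

/-- elements of `I_p` fixing the `p`-power roots of unity -/
def Ipp (p : ℕ) [Fact p.Prime] : Subgroup FGQ where
  carrier := {σ | σ ∈ Ip p ∧ ∀ (n : ℕ) (ζ : FQb), ζ ^ p ^ n = 1 → σ ζ = ζ}
  mul_mem' := by
    rintro a b ⟨ha, ha'⟩ ⟨hb, hb'⟩
    refine ⟨(Ip p).mul_mem ha hb, fun n ζ hζ => ?_⟩
    rw [AlgEquiv.mul_apply, hb' n ζ hζ, ha' n ζ hζ]
  one_mem' := ⟨(Ip p).one_mem, fun _ _ _ => rfl⟩
  inv_mem' := by
    rintro a ⟨ha, ha'⟩
    refine ⟨(Ip p).inv_mem ha, fun n ζ hζ => ?_⟩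
    conv_lhs => rw [← ha' n ζ hζ]
    rw [← AlgEquiv.mul_apply, inv_mul_cancel]; rfl

/-- the Kummer character of an element some `p`-power of which is fixed by inertia -/
def kumHom {α : FQb} (h0 : α ≠ 0) {n : ℕ} (hα : FixI p (α ^ p ^ n)) : Ipp p →* FQb where
  toFun σ := (σ : FGQ) α / α
  map_one' := by
    show (1 : FGQ) α / α = 1
    exact div_self h0
  map_mul' σ τ := by
    show ((σ : FGQ) * (τ : FGQ)) α / α = (σ : FGQ) α / α * ((τ : FGQ) α / α)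
    have h1 : ((τ : FGQ) α / α) ^ p ^ n = 1 := by
      rw [div_pow, ← map_pow, hα _ τ.2.1, div_self (pow_ne_zero _ h0)]
    have h2 : (σ : FGQ) ((τ : FGQ) α / α) = (τ : FGQ) α / α := σ.2.2 n _ h1
    have h3 : (τ : FGQ) α = ((τ : FGQ) α / α) * α := by rw [div_mul_cancel₀ _ h0]
    rw [AlgEquiv.mul_apply]
    conv_lhs => rw [h3, map_mul, h2]
    rw [mul_div_assoc, mul_comm]

@[simp] theorem kumHom_apply {α : FQb} (h0 : α ≠ 0) {n : ℕ} (hα : FixI p (α ^ p ^ n))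
    (σ : Ipp p) : kumHom h0 hα σ = (σ : FGQ) α / α := rfl

/-- the fixed field of inertia -/
def FI (p : ℕ) [Fact p.Prime] : IntermediateField ℚ FQb := IntermediateField.fixedField (Ip p)

theorem mem_FI {x : FQb} : x ∈ FI p ↔ FixI p x := by
  rw [FI, IntermediateField.mem_fixedField_iff]
  rfl

theorem mem_Ip_of_fix {σ : FGQ} (h : ∀ x, FixI p x → σ x = x) : σ ∈ Ip p := by
  have h1 := InfiniteGalois.fixingSubgroup_fixedField (k := ℚ) (K := FQb)
    ⟨Ip p, H53.isClosed_inertia (padicPlace p)⟩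
  have h2 : σ ∈ (IntermediateField.fixedField (Ip p)).fixingSubgroup := by
    rw [IntermediateField.mem_fixingSubgroup_iff]
    intro x hx
    exact h x (mem_FI.mp hx)
  rw [h1] at h2
  exact h2

/-- the field generated by `UU` over the fixed field of inertia is spanned by `UU` -/
theorem mem_span_UU {x : FQb}
    (h : ∀ σ ∈ Ip p, (∀ α ∈ UU p, σ α = α) → σ x = x) :
    x ∈ Submodule.span (FI p) (UU p : Set FQb) := by
  set E : IntermediateField ℚ FQb :=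
    IntermediateField.adjoin ℚ ({x | FixI p x} ∪ (UU p : Set FQb)) with hE
  have h1 : x ∈ E := by
    rw [← InfiniteGalois.fixedField_fixingSubgroup E, IntermediateField.mem_fixedField_iff]
    intro σ hσ
    rw [IntermediateField.mem_fixingSubgroup_iff] at hσ
    refine h σ (mem_Ip_of_fix fun y hy => hσ y ?_) fun α hα => hσ α ?_
    · exact IntermediateField.subset_adjoin _ _ (Or.inl hy)
    · exact IntermediateField.subset_adjoin _ _ (Or.inr hα)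
  have h3 : x ∈ E.toSubalgebra := h1
  rw [hE, IntermediateField.adjoin_toSubalgebra] at h3
  clear h1 hE h
  have h4 : x ∈ Subalgebra.toSubmodule (Algebra.adjoin (FI p) (UU p : Set FQb)) := by
    rw [Subalgebra.mem_toSubmodule]
    induction h3 using Algebra.adjoin_induction with
    | mem y hy =>
      rcases hy with hy | hy
      · exact Subalgebra.algebraMap_mem _ (⟨y, mem_FI.mpr hy⟩ : FI p)
      · exact Algebra.subset_adjoin hy
    | algebraMap r =>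
      exact Subalgebra.algebraMap_mem _ (algebraMap ℚ (FI p) r)
    | add y z _ _ hy hz => exact Subalgebra.add_mem _ hy hz
    | mul y z _ _ hy hz => exact Subalgebra.mul_mem _ hy hz
  rw [Algebra.adjoin_eq_span, Submonoid.closure_eq] at h4
  exact h4

/-- The Kummer character of `x` on `Ipp` is the Kummer character of an element of `UU`. -/
theorem exists_UU_of_fix {x : FQb} (hx0 : x ≠ 0) {m : ℕ} (hxm : FixI p (x ^ p ^ m))
    (h : ∀ σ ∈ Ip p, (∀ α ∈ UU p, σ α = α) → σ x = x) :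
    ∃ w ∈ UU p, ∀ σ ∈ Ipp p, σ (x / w) = x / w := by
  classical
  have h1 := mem_span_UU h
  obtain ⟨n, f, g, hfg⟩ := Submodule.mem_span_set'.mp h1
  have hn : ∀ i, ∃ k : ℕ, FixI p ((g i : FQb) ^ p ^ k) := fun i => (g i).2.2
  choose k hk using hn
  have hg0 : ∀ i, (g i : FQb) ≠ 0 := fun i => ne_zero_of_mem_UU (g i).2
  -- the characters
  let χ : Fin n → (Ipp p →* FQb) := fun i => kumHom (hg0 i) (hk i)
  let χ0 : Ipp p →* FQb := kumHom hx0 hxm
  have hsum : (χ0 : Ipp p → FQb) ∈ Submodule.span FQb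
      ((fun f : Ipp p →* FQb => (f : Ipp p → FQb)) '' Set.range χ) := by
    have h2 : (χ0 : Ipp p → FQb) =
        ∑ i, (x⁻¹ * ((f i : FQb) * (g i : FQb))) • (χ i : Ipp p → FQb) := by
      funext σ
      have h3 : (σ : FGQ) x = ∑ i, (f i : FQb) * (σ : FGQ) (g i : FQb) := by
        conv_lhs => rw [← hfg]
        rw [map_sum]
        refine Finset.sum_congr rfl fun i _ => ?_
        have h4 : (f i) • (g i : FQb) = (f i : FQb) * (g i : FQb) := rfl
        rw [h4, map_mul, mem_FI.mp (f i).2 _ σ.2.1]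
      rw [Finset.sum_apply]
      show (σ : FGQ) x / x = _
      rw [h3, Finset.sum_div]
      refine Finset.sum_congr rfl fun i _ => ?_
      show _ = (x⁻¹ * ((f i : FQb) * (g i : FQb))) * ((σ : FGQ) (g i : FQb) / (g i : FQb))
      field_simp [hg0 i]
    rw [h2]
    refine Submodule.sum_mem _ fun i _ => Submodule.smul_mem _ _ (Submodule.subset_span ?_)
    exact ⟨χ i, ⟨i, rfl⟩, rfl⟩
  have hmem : χ0 ∈ Set.range χ := by
    by_contra hcon
    exact (linearIndependent_monoidHom (Ipp p) FQb).notMem_span_image hcon hsum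
  obtain ⟨i, hi⟩ := hmem
  refine ⟨g i, (g i).2, fun σ hσ => ?_⟩
  have h5 := congrArg (fun φ : Ipp p →* FQb => φ ⟨σ, hσ⟩) hi
  have h6 : σ (g i : FQb) / (g i : FQb) = σ x / x := h5
  have h7 : σ (g i : FQb) ≠ 0 := (map_ne_zero σ).mpr (hg0 i)
  rw [map_div₀, div_eq_div_iff h7 (hg0 i)]
  rw [div_eq_div_iff (hg0 i) hx0] at h6
  rw [mul_comm x, h6]

/-- the exponent of the action on `p ^ N`-th roots of unity -/
theorem exists_exponent (σ : FGQ) (N : ℕ) :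
    ∃ a : ℕ, ∀ ζ : FQb, ζ ^ p ^ N = 1 → σ ζ = ζ ^ a := by
  have : NeZero (p ^ N) := ⟨pow_ne_zero _ hp.out.ne_zero⟩
  obtain ⟨ζ, hζ⟩ := HasEnoughRootsOfUnity.exists_primitiveRoot FQb (p ^ N)
  have h1 : (σ ζ) ^ p ^ N = 1 := by rw [← map_pow, hζ.pow_eq_one, map_one]
  obtain ⟨a, -, ha⟩ := hζ.eq_pow_of_pow_eq_one h1
  refine ⟨a, fun ξ hξ => ?_⟩
  obtain ⟨b, -, rfl⟩ := hζ.eq_pow_of_pow_eq_one hξ
  rw [map_pow, ← ha, ← pow_mul, ← pow_mul, mul_comm]

/-- **Existence of `σ₀`.** -/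
theorem exists_sigma (hp2 : p ≠ 2) {π₁ : FQb} (hπ : π₁ ^ p = p) :
    ∃ σ ∈ Ip p, (∀ α ∈ UU p, σ α = α) ∧ σ π₁ ≠ π₁ := by
  have hpp : p.Prime := hp.out
  by_contra hcon
  push Not at hcon
  have hπ0 : π₁ ≠ 0 := by
    rintro rfl
    rw [zero_pow hpp.ne_zero] at hπ
    exact hpp.ne_zero (by exact_mod_cast hπ.symm)
  obtain ⟨w, hw, hwσ⟩ := exists_UU_of_fix (p := p) hπ0 (m := 1)
    (by rw [pow_one, hπ]; exact fixI_natCast p) hcon
  have hw0 := ne_zero_of_mem_UU hw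
  obtain ⟨hw1, n, hwn⟩ := hw
  set β : FQb := π₁ / w with hβ
  have hβ0 : β ≠ 0 := div_ne_zero hπ0 hw0
  set N := n + 1 with hN
  have hβN : FixI p (β ^ p ^ N) := by
    rw [hβ, div_pow]
    refine fixI_div ?_ ?_
    · rw [hN, pow_succ', pow_mul, hπ]
      exact fixI_pow (fixI_natCast p) _
    · rw [hN, pow_succ, pow_mul]
      exact fixI_pow hwn _
  -- an element acting by squaring on `μ_p`
  have h2 : ¬ p ∣ 2 := fun h => hp2 ((Nat.prime_dvd_prime_iff_eq hpp Nat.prime_two).mp h)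
  obtain ⟨τ₀, hτ₀, hτζ⟩ := H33.exists_inertia_cyclo (p := p) (H54.liesOverPrime_padicPlace p) 2 h2
  have hτ₀' : τ₀ ∈ Ip p := hτ₀
  obtain ⟨a, ha⟩ := exists_exponent (p := p) τ₀ N
  have : NeZero p := ⟨hpp.ne_zero⟩
  -- `a - 1` is prime to `p`
  have hac : ∃ b : ℕ, ∀ ζ : FQb, ζ ^ p ^ N = 1 → (ζ ^ a * ζ⁻¹) ^ b = ζ := by
    obtain ⟨ζ, hζ⟩ := HasEnoughRootsOfUnity.exists_primitiveRoot FQb p
    have hζN : ζ ^ p ^ N = 1 := by rw [hN, pow_succ', pow_mul, hζ.pow_eq_one, one_pow]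
    have h3 : ζ ^ a = ζ ^ 2 := by rw [← ha ζ hζN, hτζ ζ hζ.pow_eq_one]
    have hζ0 : ζ ≠ 0 := hζ.ne_zero hpp.ne_zero
    -- integer `a - 1`
    have h5 : IsCoprime ((a : ℤ) - 1) ((p : ℤ) ^ N) := by
      apply IsCoprime.pow_right
      have h6 : (p : ℤ) ∣ (a : ℤ) - 2 := by
        rw [← hζ.zpow_eq_one_iff_dvd, zpow_sub₀ hζ0, zpow_natCast, h3]
        have h7 : ζ ^ (2 : ℤ) = ζ ^ 2 := by norm_cast
        rw [h7, div_self (pow_ne_zero _ hζ0)]
      obtain ⟨c, hc⟩ := h6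
      refine ⟨1, -c, ?_⟩
      linear_combination hc
    obtain ⟨u, v, huv⟩ := h5
    have hpN : (0 : ℤ) < (p : ℤ) ^ N := pow_pos (by exact_mod_cast hpp.pos) _
    refine ⟨(u % (p : ℤ) ^ N).toNat, fun ξ hξ => ?_⟩
    have hξ0 : ξ ≠ 0 := by
      rintro rfl
      rw [zero_pow (pow_ne_zero _ hpp.ne_zero)] at hξ
      exact zero_ne_one hξ
    have hξz : ξ ^ ((p : ℤ) ^ N) = 1 := by
      rw [← Nat.cast_pow, zpow_natCast, hξ]
    have e1 : ξ ^ a * ξ⁻¹ = ξ ^ ((a : ℤ) - 1) := by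
      rw [zpow_sub₀ hξ0, zpow_natCast, zpow_one, div_eq_mul_inv]
    have e2 : ((ξ ^ ((a : ℤ) - 1)) ^ (u % (p : ℤ) ^ N).toNat) =
        (ξ ^ ((a : ℤ) - 1)) ^ (u % (p : ℤ) ^ N) := by
      rw [← zpow_natCast, Int.toNat_of_nonneg (Int.emod_nonneg _ hpN.ne')]
    rw [e1, e2, ← zpow_mul]
    have e3 : ((a : ℤ) - 1) * (u % (p : ℤ) ^ N) =
        1 + (p : ℤ) ^ N * (-v - ((a : ℤ) - 1) * (u / (p : ℤ) ^ N)) := by
      have := Int.emod_add_mul_ediv u ((p : ℤ) ^ N)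
      linear_combination huv + ((a : ℤ) - 1) * this
    rw [e3, zpow_add₀ hξ0, zpow_one, zpow_mul, hξz, one_zpow, mul_one]
  obtain ⟨b, hb⟩ := hac
  -- correct `β`
  have hη : ∀ τ ∈ Ip p, (τ β / β) ^ p ^ N = 1 := by
    intro τ hτ
    rw [div_pow, ← map_pow, hβN τ hτ, div_self (pow_ne_zero _ hβ0)]
  set η := τ₀ β / β with hηdef
  have hη1 : η ^ p ^ N = 1 := hη τ₀ hτ₀'
  have hη0 : η ≠ 0 := by
    intro h0
    rw [h0, zero_pow (pow_ne_zero _ hpp.ne_zero)] at hη1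
    exact zero_ne_one hη1
  -- `ξ` with `ξ ^ a / ξ = η⁻¹`
  obtain ⟨ξ, hξN, hξ⟩ : ∃ ξ : FQb, ξ ^ p ^ N = 1 ∧ ξ ^ a * ξ⁻¹ = η⁻¹ := by
    refine ⟨(η⁻¹) ^ b, ?_, ?_⟩
    · rw [← pow_mul, mul_comm, pow_mul, inv_pow, hη1, inv_one, one_pow]
    · have h1 := hb η⁻¹ (by rw [inv_pow, hη1, inv_one])
      have h3 : ((η⁻¹ ^ b) ^ a * (η⁻¹ ^ b)⁻¹) = (η⁻¹ ^ a * (η⁻¹)⁻¹) ^ b := by
        rw [mul_pow, inv_pow (η⁻¹) b, ← pow_mul, ← pow_mul, mul_comm a b]
      rw [h3, h1]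
  have hξ0 : ξ ≠ 0 := by
    rintro rfl
    rw [zero_pow (pow_ne_zero _ hpp.ne_zero)] at hξN
    exact zero_ne_one hξN
  set β' := β * ξ with hβ'
  have hβ'0 : β' ≠ 0 := mul_ne_zero hβ0 hξ0
  have hτβ' : τ₀ β' = β' := by
    have h3 : τ₀ β = η * β := by rw [hηdef, div_mul_cancel₀ _ hβ0]
    have h4 : ξ ^ a = η⁻¹ * ξ := by rw [← hξ, inv_mul_cancel_right₀ hξ0]
    rw [hβ', map_mul, ha ξ hξN, h3, h4]
    field_simp
  -- `β'` is fixed by `Ipp`
  have hfixpp : ∀ σ ∈ Ipp p, σ β' = β' := by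
    intro σ hσ
    rw [hβ', map_mul, hwσ σ hσ, hσ.2 N ξ hξN]
  -- `β'` is fixed by inertia
  have hfix : FixI p β' := by
    intro τ hτ
    -- commutator
    have hcomm : (τ₀ * τ)⁻¹ * (τ * τ₀) ∈ Ipp p := by
      refine ⟨(Ip p).mul_mem ((Ip p).inv_mem ((Ip p).mul_mem hτ₀' hτ))
        ((Ip p).mul_mem hτ hτ₀'), fun m ζ hζ => ?_⟩
      obtain ⟨c, hc⟩ := exists_exponent (p := p) τ m
      obtain ⟨d, hd⟩ := exists_exponent (p := p) τ₀ m
      have e1 : (τ * τ₀) ζ = (τ₀ * τ) ζ := by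
        rw [AlgEquiv.mul_apply, AlgEquiv.mul_apply, hd ζ hζ, hc ζ hζ, map_pow, map_pow, hc ζ hζ,
          hd ζ hζ, ← pow_mul, ← pow_mul, mul_comm]
      rw [AlgEquiv.mul_apply, e1, ← AlgEquiv.mul_apply, inv_mul_cancel]; rfl
    have h3 : τ₀ (τ β') = τ β' := by
      have h4 := hfixpp _ hcomm
      have h5 := congrArg (τ₀ * τ) h4
      rw [← AlgEquiv.mul_apply, mul_inv_cancel_left] at h5
      rw [AlgEquiv.mul_apply, AlgEquiv.mul_apply, hτβ'] at h5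
      exact h5.symm
    -- the quotient is a root of unity fixed by `τ₀`
    have hθ : (τ β' / β') ^ p ^ N = 1 := by
      obtain ⟨c, hc⟩ := exists_exponent (p := p) τ N
      rw [hβ', map_mul, mul_div_mul_comm, mul_pow, hη τ hτ, one_mul, div_pow, ← map_pow, hξN,
        map_one, div_one]
    set θ := τ β' / β' with hθdef
    have hθ2 : θ ^ a = θ := by
      rw [← ha θ hθ, hθdef, map_div₀, h3, hτβ']
    have hθ0 : θ ≠ 0 := div_ne_zero ((map_ne_zero τ).mpr hβ'0) hβ'0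
    have hθ3 : θ = 1 := by
      have h6 := hb θ hθ
      rw [hθ2, mul_inv_cancel₀ hθ0, one_pow] at h6
      exact h6.symm
    rw [hθdef, div_eq_one_iff_eq hβ'0] at hθ3
    exact hθ3
  -- contradiction with the value group
  obtain ⟨k, hk⟩ := hfix.exists_zpow hβ'0
  have hnβ : nm p β' ^ p = nm p (p : FQb) := by
    have h3 : nm p ξ = 1 := (rootOfUnity_mem_UU hξN).1
    rw [hβ', nm_mul, h3, mul_one, hβ, nm_div, hw1, div_one, ← nm_pow, hπ]
  rw [hk, ← zpow_natCast, ← zpow_mul] at hnβ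
  have h4 := nm_p_zpow_inj (p := p) (a := k * p) (b := 1) (by rw [hnβ, zpow_one])
  have h5 : (p : ℤ) ∣ 1 := ⟨k, by rw [mul_comm]; exact h4.symm⟩
  have h6 := Int.natCast_dvd_natCast.mp (by exact_mod_cast h5 : ((p : ℕ) : ℤ) ∣ ((1 : ℕ) : ℤ))
  exact hpp.one_lt.ne' (Nat.dvd_one.mp h6)

end Fermat.Agent.H75P
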