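import Fermat.Agent.H53GalPt

set_option autoImplicit false
set_option maxSynthPendingDepth 3
set_option linter.style.haveILetI false
set_option linter.unusedSectionVars false

/-!
# The unit root at `p` (S59-EIG-p, ring part)

`tauR p z = z + p * z⁻¹`; the element `tauP L` of `L.D.R` for `L` a level with the ordinary
condition with marks at `p`; `(p + 1) ^ 2 - tauP ^ 2 = unit * t`.
-/

noncomputable section

open IsLocalRing Module ExtCitation Polynomial GaloisRep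
open Fermat.Agent.H55 Fermat.Agent.H56 Fermat.Agent.H64 Fermat.Agent.H53 Fermat.Agent.H68.Tw
open Fermat.Agent.H75P (OrdMark MarkElts OrdI cj DetC UU)

namespace Fermat.Agent.H75R

/-- `z + p z⁻¹` -/
def tauR (p : ℕ) {R : Type*} [CommRing R] (z : R) : R := z + (p : R) * Ring.inverse z

theorem tauR_eq (p : ℕ) {R : Type*} [CommRing R] {z z' : R} (h : z * z' = 1) :
    tauR p z = z + (p : R) * z' := by
  have hz : IsUnit z := IsUnit.of_mul_eq_one z' h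
  have h1 : Ring.inverse z = z' := by
    have h2 := Ring.inverse_mul_cancel z hz
    calc Ring.inverse z = Ring.inverse z * (z * z') := by rw [h, mul_one]
      _ = z' := by rw [← mul_assoc, h2, one_mul]
  rw [tauR, h1]

theorem map_tauR (p : ℕ) {R B : Type*} [CommRing R] [CommRing B] (f : R →+* B) {z : R}
    (hz : IsUnit z) : f (tauR p z) = tauR p (f z) := by
  obtain ⟨z', h⟩ := hz.exists_right_inv
  rw [tauR_eq p h, tauR_eq p (z := f z) (z' := f z') (by rw [← map_mul, h, map_one]), map_add,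
    map_mul, map_natCast]

/-- the unit root relation determines the trace -/
theorem tauR_of_quadratic (p : ℕ) {R : Type*} [CommRing R] {z μ : R} (hz : IsUnit z)
    (h : z ^ 2 - μ * z + (p : R) = 0) : tauR p z = μ := by
  obtain ⟨z', h1⟩ := hz.exists_right_inv
  rw [tauR_eq p h1]
  linear_combination z' * h + (μ - z) * h1

section Local

variable {p : ℕ} [Fact p.Prime] {R : Type} [CommRing R] [IsLocalRing R]

theorem isUnit_of_sub_mem {a b : R} (hb : IsUnit b) (h : a - b ∈ maximalIdeal R) : IsUnit a := by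
  by_contra hcon
  have h1 : a ∈ maximalIdeal R := (mem_maximalIdeal _).mpr hcon
  have h2 : b ∈ maximalIdeal R := by
    have h3 := Ideal.sub_mem _ h1 h
    rwa [sub_sub_cancel] at h3
  exact (mem_nonunits_iff.mp ((mem_maximalIdeal _).mp h2)) hb

theorem isUnit_two' (hp2 : p ≠ 2) (hpm : (p : R) ∈ maximalIdeal R) : IsUnit (2 : R) := by
  have hodd : ¬ 2 ∣ p := fun h => hp2 (((Nat.prime_dvd_prime_iff_eq Nat.prime_two
    (Fact.out : p.Prime)).mp h).symm)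
  obtain ⟨m, hm⟩ : ∃ m, p = 2 * m + 1 := ⟨p / 2, by omega⟩
  have h1 : IsUnit ((2 : R) * (m : R)) := by
    have h2 : (2 : R) * m - (-1) ∈ maximalIdeal R := by
      have h3 : (2 : R) * m - (-1) = (p : R) := by rw [hm]; push_cast; ring
      rw [h3]; exact hpm
    exact isUnit_of_sub_mem isUnit_one.neg h2
  exact isUnit_of_mul_isUnit_left h1

/-- `(p + 1) ^ 2 - tauR z ^ 2 = unit * t`, `z = w + t`. -/
theorem tau_sq (hp2 : p ≠ 2) (hpm : (p : R) ∈ maximalIdeal R) {w : R} (hw : w ^ 2 = 1) {t : R}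
    (ht : t ∈ maximalIdeal R) :
    IsUnit (w + t) ∧ ∃ v v' : R, v * v' = 1 ∧
      ((p : R) + 1) ^ 2 - tauR p (w + t) ^ 2 = v * t := by
  have hwu : IsUnit w := IsUnit.of_mul_eq_one w (by rw [← sq, hw])
  have hz : IsUnit (w + t) := isUnit_of_sub_mem hwu (by rwa [add_sub_cancel_left])
  refine ⟨hz, ?_⟩
  obtain ⟨z', h⟩ := hz.exists_right_inv
  have h2u : IsUnit (2 : R) := isUnit_two' hp2 hpm
  have h1 : IsUnit (t + 2 * w) := isUnit_of_sub_mem (h2u.mul hwu) (by rwa [add_sub_cancel_right])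
  have h3 : IsUnit ((p : R) ^ 2 - (w + t) ^ 2) := by
    refine isUnit_of_sub_mem (hz.pow 2).neg ?_
    have h4 : (p : R) ^ 2 - (w + t) ^ 2 - -(w + t) ^ 2 = (p : R) * p := by ring
    rw [h4]
    exact Ideal.mul_mem_left _ _ hpm
  have hz' : IsUnit z' := IsUnit.of_mul_eq_one (w + t) (by rw [mul_comm, h])
  have h5 : IsUnit ((t + 2 * w) * ((p : R) ^ 2 - (w + t) ^ 2) * z' ^ 2) :=
    (h1.mul h3).mul (hz'.pow 2)
  obtain ⟨v', hv'⟩ := h5.exists_right_inv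
  refine ⟨_, v', hv', ?_⟩
  rw [tauR_eq p h]
  linear_combination (-(((p : R) ^ 2 + 1 - (w + t) ^ 2) * (1 + (w + t) * z') + 2 * (p : R))) * h +
    (((p : R) ^ 2 - (w + t) ^ 2) * z' ^ 2) * hw

/-- the same with a further unit factor `t + c` -/
theorem tau_sq_mul (hp2 : p ≠ 2) (hpm : (p : R) ∈ maximalIdeal R) {w : R} (hw : w ^ 2 = 1) {t : R}
    (ht : t ∈ maximalIdeal R) {c : R} (hc : IsUnit c) :
    ∃ v v' : R, v * v' = 1 ∧
      ((p : R) + 1) ^ 2 - tauR p (w + t) ^ 2 = v * (t * (t + c)) := by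
  obtain ⟨-, v, v', h1, h2⟩ := tau_sq hp2 hpm hw ht
  obtain ⟨d, hd⟩ := (isUnit_of_sub_mem hc (by rwa [add_sub_cancel_right]) :
    IsUnit (t + c)).exists_right_inv
  refine ⟨v * d, v' * (t + c), ?_, ?_⟩
  · linear_combination h1 + v * v' * hd
  · rw [h2]
    linear_combination (-(v * t)) * hd

end Local

section Level

variable {𝒪 : Type} [CommRing 𝒪] [IsDomain 𝒪] [IsDiscreteValuationRing 𝒪]
    [IsAdicComplete (maximalIdeal 𝒪) 𝒪] [Finite (ResidueField 𝒪)]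
  {p : ℕ} [Fact p.Prime] (hp2 : p ≠ 2) {ρbar : ResidualGaloisRep (ResidueField 𝒪)}
  {b : Module.Basis (Fin 2) (ResidueField 𝒪) ρbar.V}
  (hdet : (GaloisRepAdic.ofResidualGaloisRep ρbar).DetIsCyclotomic p)
  (hord : (GaloisRepAdic.ofResidualGaloisRep ρbar).IsOrdinaryAt p)
  {φ σ₀ : GQ} (hm : MarkElts p φ σ₀) (hr0 : toMat ρbar.ρ b σ₀ = 1) (w : ℤ) (hw : w ^ 2 = 1)
  {g₀ : (M2 (ResidueField 𝒪))ˣ} (hg₀ : OrdI p (cj g₀ (toMat ρbar.ρ b)))
  (hu : cj g₀ (toMat ρbar.ρ b) φ 1 1 = (w : ResidueField 𝒪))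
  {A : Finset ℕ}
  {τ ι : Type} [Fintype τ] [Fintype ι] {qT : τ → ℕ} {pl : ∀ t, PlaceData p (qT t)} {u : τ → 𝒪}
  {qB : ι → ℕ} {plB : ∀ i, PlaceData p (qB i)} {uB : ι → 𝒪} {k n : ℕ} {S : Finset ℕ}
  (L : GalLevelB p ρbar b (PData.ord hp2 ρbar b hdet hord hm hr0 w hw hg₀ hu) A qT pl u qB plB uB
    k n S)

/-- the element `z + p z⁻¹`, `z = w + t` the unit root of Frobenius at `p` -/
def tauP : L.D.R := tauR p ((w : L.D.R) + L.mB (Sum.inr ()) 0)

/-- **(R1)** `(p + 1) ^ 2 - tauP ^ 2 = unit * t` -/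
theorem tauP_sq : ∃ v v' : L.D.R, v * v' = 1 ∧
    ((p : L.D.R) + 1) ^ 2 - tauP hp2 hdet hord hm hr0 w hw hg₀ hu L ^ 2 =
      v * L.mB (Sum.inr ()) 0 :=
  (tau_sq hp2 L.p_mem (by rw [← Int.cast_pow, hw, Int.cast_one]) (L.mB_mem _ _)).2

/-- **(R1)** with a unit `c`: `(p + 1) ^ 2 - tauP ^ 2 = unit * (t * (t + c))` -/
theorem tauP_sq_mul {c : 𝒪} (hc : IsUnit c) : ∃ v v' : L.D.R, v * v' = 1 ∧
    ((p : L.D.R) + 1) ^ 2 - tauP hp2 hdet hord hm hr0 w hw hg₀ hu L ^ 2 =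
      v * (L.mB (Sum.inr ()) 0 * (L.mB (Sum.inr ()) 0 + algebraMap 𝒪 L.D.R c)) :=
  tau_sq_mul hp2 L.p_mem (by rw [← Int.cast_pow, hw, Int.cast_one]) (L.mB_mem _ _)
    (hc.map (algebraMap 𝒪 L.D.R))

/-- the unit `w + t` -/
theorem isUnit_zP : IsUnit ((w : L.D.R) + L.mB (Sum.inr ()) 0) :=
  (tau_sq hp2 L.p_mem (by rw [← Int.cast_pow, hw, Int.cast_one]) (L.mB_mem _ _)).1

/-- **the functional at a point** -/
theorem exists_functional {O' : Type} [CommRing O'] [IsLocalRing O'] [Algebra 𝒪 O']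
    (f : L.D.R →ₐ[𝒪] O') (hf : IsLocalHom (f : L.D.R →+* O')) :
    ∃ l : Module.Dual O' (ptRep L.D f hf).V, l ≠ 0 ∧
      (∀ σ ∈ Ip p, ∀ v, l ((ptRep L.D f hf).ρ σ v) = l v) ∧
      ∀ v, l ((ptRep L.D f hf).ρ φ v) = f ((w : L.D.R) + L.mB (Sum.inr ()) 0) * l v := by
  have hmark : OrdMark p (mapMat (f : L.D.R →+* O') (toMat L.D.ρ.ρ L.b₁))
      ((f : L.D.R →+* O') (w : L.D.R)) φ σ₀ ((f : L.D.R →+* O') (L.mB (Sum.inr ()) 0))
      ((f : L.D.R →+* O') (L.mB (Sum.inr ()) 1)) := (L.isPMark.1).map (f : L.D.R →+* O')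
  obtain ⟨g, hg, ht, -⟩ := hmark
  have hbc := toMat_bcBasis (f : L.D.R →+* O') hf L.D.ρ L.b₁
  rw [← hbc] at hg ht
  obtain ⟨l, hl0, hl⟩ := exists_functional_of_ordI (ptRep L.D f hf)
    (bcBasis (f : L.D.R →+* O') hf L.D.ρ L.b₁) hg
  refine ⟨l, hl0, fun σ hσ v => by rw [hl σ (Ip_le_Dp hσ) v, hg.2 σ hσ, one_mul], fun v => ?_⟩
  rw [hl φ hm.dec v]
  congr 1
  have h1 : f ((w : L.D.R) + L.mB (Sum.inr ()) 0) =
      (f : L.D.R →+* O') (w : L.D.R) + (f : L.D.R →+* O') (L.mB (Sum.inr ()) 0) := map_add f _ _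
  rw [h1, ht, add_sub_cancel]

end Level

end Fermat.Agent.H75R
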