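import Fermat.Agent.H75R1
import Fermat.Agent.H4OrdP
import Fermat.Agent.H21MGood
import Fermat.Agent.H7P1b
import Fermat.Agent.H70Lev5
import Fermat.Agent.H68TwGlue

set_option autoImplicit false
set_option maxSynthPendingDepth 3
set_option linter.style.haveILetI false
set_option linter.unusedSectionVars false

/-!
# The eigenvalue of `T_p` at a point (S59-EIG-p, (R3))
-/

noncomputable section

open IsLocalRing Module ExtCitation Polynomial GaloisRep TensorProduct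
open Fermat.Agent.H30 Fermat.Agent.H35 Fermat.Agent.H62 Fermat.Agent.H94.BR
  Fermat.Agent.H70.Coh Fermat.Agent.H70.Mod Fermat.Agent.H4 Fermat.Agent.H21M

namespace Fermat.Agent.H75R

section Rep

variable {p : ℕ} [Fact p.Prime] {S : Finset ℕ}
    {𝒪' : Type} [CommRing 𝒪'] [IsDomain 𝒪'] [IsDiscreteValuationRing 𝒪']
    [IsAdicComplete (IsLocalRing.maximalIdeal 𝒪') 𝒪'] [Finite (IsLocalRing.ResidueField 𝒪')]
    [CharZero 𝒪']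

/-- `T_p` at a point of level prime to `p`, integral form: the unit root relation. -/
theorem unitRoot_int (hp2 : p ≠ 2) (hpS : p ∈ S)
    (hp𝒪' : (p : 𝒪') ∈ IsLocalRing.maximalIdeal 𝒪')
    {N' M : ℕ} (hsq : Squarefree N') (hM0 : 0 < M)
    (hex : ∀ r : ℕ, r.Prime → r ∣ N' → ¬ r * r ∣ M) (hM : N' ∣ M) (hS : Away M (↑S : Set ℕ))
    (η : (ZMod N')ˣ →* 𝒪'ˣ) {m : ℕ} (hm : Odd m) (hη : η ^ m = 1)
    {lam : ℕ → 𝒪'} (ρ : GaloisRepAdic 𝒪') (hρ : IsAttached S lam ρ)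
    (hirr : ρ.residual.IsIrreducible) (hdet : ρ.DetIsCyclotomic p)
    {x : H1 (gam N' M hM) (psiRep (η ^ 2) 𝒪')} (hx : ∀ c : 𝒪', c ≠ 0 → c • x ≠ 0)
    (hT : ∀ i : Idx (↑S : Set ℕ), Fermat.Agent.H70.Mod.tw hM hS (η ^ 2) η i x = lam i.1 • x)
    (hp : p.Prime) (hpM : ¬ p ∣ M) (hc : p.Coprime N') {μ : 𝒪'}
    (hμ : (tFam hM hp hpM).opH (psiRep (η ^ 2) 𝒪') x =
      (((η (ZMod.unitOfCoprime p hc) : 𝒪'ˣ) : 𝒪') * μ) • x)
    {A : ValuationSubring (AlgebraicClosure ℚ)} (hA : A.LiesOverPrime p)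
    {φ : H53.GQ} (hφ : A.IsFrobeniusAt φ p)
    (l : Module.Dual 𝒪' ρ.V) (hl : l ≠ 0)
    (hlI : ∀ σ ∈ A.inertiaSubgroupIn ℚ, ∀ v, l (ρ.ρ σ v) = l v)
    {z : 𝒪'} (hz : ∀ v, l (ρ.ρ φ v) = z * l v) :
    IsUnit μ ∧ z ^ 2 - μ * z + p = 0 := by
  letI : Algebra ℤ_[p] 𝒪' := (padicToAdic 𝒪' hp𝒪').toAlgebra
  have hinj : Function.Injective (algebraMap ℤ_[p] 𝒪') := padicToAdic_injective 𝒪' hp𝒪'
  obtain ⟨L, hL0, hpL, -, Φ, hΦ, hgal, hTp⟩ := ordP_good (K₁ := FractionRing 𝒪') hp2 hpS hp𝒪' hinj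
    hsq hM0 hex hM (fun r hr hrM => by simpa using hS r hr hrM)
    (psiMap (algebraMap 𝒪' (FractionRing 𝒪')) η)
    (psiMap (algebraMap 𝒪' (FractionRing 𝒪')) (η ^ 2)) (Fermat.Agent.H4.psiMap_pow _ η 2) hm
    (by rw [← Fermat.Agent.H4.psiMap_pow, hη, Fermat.Agent.H4.psiMap_one]) ρ hρ hirr
    (h1S_ne_zero (K := FractionRing 𝒪') hM (η ^ 2) hx) (isEigTw_h1S hM hS η hT) hp hpM hc (μ := μ)
    (by rw [opH_h1S, hμ, map_smulₛₗ, map_mul]; rfl)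
  exact Fermat.Agent.H7.P.unitRoot_functional hp2 hpL hA
    (Fermat.Agent.H32.span_range_eq_top ρ
      (absIrr_of_attached hp2 hp𝒪' S lam ρ hρ hirr)) hdet Φ hΦ hgal hTp hφ l hl hlI hz

end Rep

section Level

open Fermat.Agent.H55 Fermat.Agent.H56 Fermat.Agent.H64 Fermat.Agent.H53 Fermat.Agent.H68.Tw
open Fermat.Agent.H75P (OrdMark MarkElts OrdI cj DetC UU)
open CuspForm

variable {𝒪 : Type} [CommRing 𝒪] [IsDomain 𝒪] [IsDiscreteValuationRing 𝒪]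
    [IsAdicComplete (maximalIdeal 𝒪) 𝒪] [Finite (ResidueField 𝒪)] [CharZero 𝒪]
  {p : ℕ} [Fact p.Prime] (hp2 : p ≠ 2) {ρbar : ResidualGaloisRep (ResidueField 𝒪)}
  {b : Module.Basis (Fin 2) (ResidueField 𝒪) ρbar.V}
  (hdet : (GaloisRepAdic.ofResidualGaloisRep ρbar).DetIsCyclotomic p)
  (hord : (GaloisRepAdic.ofResidualGaloisRep ρbar).IsOrdinaryAt p)
  {φ σ₀ : GQ} (hm : MarkElts p φ σ₀) (hr0 : toMat ρbar.ρ b σ₀ = 1) (w : ℤ) (hw : w ^ 2 = 1)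
  {g₀ : (M2 (ResidueField 𝒪))ˣ} (hg₀ : OrdI p (cj g₀ (toMat ρbar.ρ b)))
  (hu : cj g₀ (toMat ρbar.ρ b) φ 1 1 = (w : ResidueField 𝒪))
  {A : Finset ℕ}
  {τ ι : Type} [Fintype τ] [Fintype ι] {qT : τ → ℕ} {pl : ∀ t, PlaceData p (qT t)} {u : τ → 𝒪}
  {qB : ι → ℕ} {plB : ∀ i, PlaceData p (qB i)} {uB : ι → 𝒪} {k n : ℕ} {S₀ : Finset ℕ}
  (E : GalLevelB p ρbar b (PData.ord hp2 ρbar b hdet hord hm hr0 w hw hg₀ hu) A qT pl u qB plB uB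
    k n S₀)
  {L : ℕ} [NeZero L] {S : Finset ℕ} (hpS : p ∈ S) (hLS : ∀ q : ℕ, q.Prime → q ∣ L → q ∈ S)
  {θ : heckeAlgebra L 2 (↑S : Set ℕ) →+* ResidueField 𝒪}
  (π : E.D.R →ₐ[𝒪] heckeLocal L (↑S : Set ℕ) 𝒪 θ) (hπ : Function.Surjective π)
  {H : HeckeGaloisRepDatum L (↑S : Set ℕ) 𝒪 θ (heckeLocal L (↑S : Set ℕ) 𝒪 θ)}
  (hH : H.π = heckeLocal.π L (↑S : Set ℕ) 𝒪 θ)
  (b₂ : Module.Basis (Fin 2) (heckeLocal L (↑S : Set ℕ) 𝒪 θ) H.ρ.V)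
  (hb₂ : toMat H.ρ.ρ b₂ =
    mapMat (π : E.D.R →+* heckeLocal L (↑S : Set ℕ) 𝒪 θ) (toMat E.D.ρ.ρ E.b₁))
  {O' : Type} [CommRing O'] [IsDomain O'] [IsDiscreteValuationRing O']
  [IsAdicComplete (maximalIdeal O') O'] [Finite (ResidueField O')] [CharZero O']
  [Algebra 𝒪 O'] [Module.Finite 𝒪 O'] [IsLocalHom (algebraMap 𝒪 O')]

include hπ in
/-- points of the deformation ring coming from points of the Hecke algebra are local -/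
theorem isLocalHom_compB (lam : heckeLocal L (↑S : Set ℕ) 𝒪 θ →ₐ[𝒪] O') :
    IsLocalHom ((lam.comp π : E.D.R →ₐ[𝒪] O') : E.D.R →+* O') := by
  haveI h1 : IsLocalHom (lam : heckeLocal L (↑S : Set ℕ) 𝒪 θ →+* O') := isLocalHom_of_finite lam
  haveI h2 : IsLocalHom (π : E.D.R →+* heckeLocal L (↑S : Set ℕ) 𝒪 θ) :=
    IsLocalHom.of_surjective _ hπ
  exact RingHom.isLocalHom_comp (lam : heckeLocal L (↑S : Set ℕ) 𝒪 θ →+* O')
    (π : E.D.R →+* heckeLocal L (↑S : Set ℕ) 𝒪 θ)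

include hLS hπ hH hb₂ hpS in
/-- **(R3)** at a point of level prime to `p`, the eigenvalue of `T_p` is `lam (π tauP)`. -/
theorem lam_tauP_eq {q : ℕ} (hqp : q = p)
    {N M : ℕ} (hsq : Squarefree N) (hM0 : 0 < M)
    (hex : ∀ r : ℕ, r.Prime → r ∣ N → ¬ r * r ∣ M) (hM : N ∣ M) (hS : Away M (↑S : Set ℕ))
    (hq : q.Prime) (hqM : ¬ q ∣ M) (hqN : q.Coprime N)
    (lam : heckeLocal L (↑S : Set ℕ) 𝒪 θ →ₐ[𝒪] O') (η : (ZMod N)ˣ →* O'ˣ)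
    (x : H1 (gam N M hM) (psiRep (η ^ 2) O')) (hη : ∃ m, Odd m ∧ η ^ m = 1)
    (hx : IsPt hM hS η (fun i => lam (heckeLocal.π L (↑S : Set ℕ) 𝒪 θ
      (TIdx L (↑S : Set ℕ) hLS i))) x)
    (μ : O') (hμ : (tFam hM hq hqM).opH (psiRep (η ^ 2) O') x =
      (((η (ZMod.unitOfCoprime q hqN) : O'ˣ) : O') * μ) • x) :
    lam (π (tauP hp2 hdet hord hm hr0 w hw hg₀ hu E)) = μ := by
  subst hqp
  obtain ⟨m', hm', hηm⟩ := hη
  have hf := isLocalHom_compB hp2 hdet hord hm hr0 w hw hg₀ hu E π hπ lam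
  have hatt := ptRep_isAttached E.D hLS hH E.b₁ b₂ π hb₂ lam hf
  have hirr := ptRep_residual_irreducible E.D (lam.comp π) hf
  have hp𝒪' : (q : O') ∈ maximalIdeal O' := by
    have := E.pt_mem (lam.comp π) hf E.p_mem
    rwa [map_natCast] at this
  have hT' : ∀ i : Idx (↑S : Set ℕ), tw hM hS (η ^ 2) η i x = aOf lam i.1 • x := fun i => by
    rw [aOf_idx hLS lam i]
    exact hx.eigen i
  obtain ⟨l, hl0, hlI, hlφ⟩ := exists_functional hp2 hdet hord hm hr0 w hw hg₀ hu E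
    (lam.comp π) hf
  obtain ⟨-, h1⟩ := unitRoot_int hp2 hpS hp𝒪' hsq hM0 hex hM hS η hm' hηm
    (ptRep E.D (lam.comp π) hf) hatt hirr (detIsCyclotomic_bc _ hf E.detCyc) hx.smul_ne hT' hq hqM
    hqN hμ (H54.liesOverPrime_padicPlace q) hm.frob l hl0 hlI hlφ
  have hzu := isUnit_zP hp2 hdet hord hm hr0 w hw hg₀ hu E
  have h2 : (lam.comp π : E.D.R →+* O') (tauP hp2 hdet hord hm hr0 w hw hg₀ hu E) =
      tauR q ((lam.comp π : E.D.R →+* O') ((w : E.D.R) + E.mB (Sum.inr ()) 0)) :=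
    map_tauR q _ hzu
  exact h2.trans (tauR_of_quadratic q (hzu.map _) h1)

end Level

end Fermat.Agent.H75R
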