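import Fermat.Agent.H75R4
import Fermat.Agent.H80FlatPt

set_option autoImplicit false
set_option maxSynthPendingDepth 3
set_option linter.style.haveILetI false
set_option linter.unusedSectionVars false

/-!
# The marks at `p` at the points (S59-EIG-p, (R2)), and the forms used in the chain of levels
-/

noncomputable section

open IsLocalRing Module ExtCitation Polynomial GaloisRep TensorProduct
open Fermat.Agent.H30 Fermat.Agent.H35 Fermat.Agent.H62 Fermat.Agent.H94.BR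
  Fermat.Agent.H70.Coh Fermat.Agent.H70.Mod Fermat.Agent.H4 Fermat.Agent.H21M
open Fermat.Agent.H55 Fermat.Agent.H56 Fermat.Agent.H64 Fermat.Agent.H53 Fermat.Agent.H68.Tw
open Fermat.Agent.H75P (OrdMark MarkElts OrdI cj DetC UU)
open CuspForm

namespace Fermat.Agent.H75R

/-- `p`-power order implies odd order, `p` odd -/
theorem exists_odd_of_pow {p : ℕ} [Fact p.Prime] (hp2 : p ≠ 2) {G : Type*} [Monoid G] {x : G}
    (h : ∃ k, x ^ p ^ k = 1) : ∃ m, Odd m ∧ x ^ m = 1 := by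
  obtain ⟨k, hk⟩ := h
  exact ⟨p ^ k, ((Fact.out : p.Prime).odd_of_ne_two hp2).pow, hk⟩

section Level

variable {𝒪 : Type} [CommRing 𝒪] [IsDomain 𝒪] [IsDiscreteValuationRing 𝒪]
    [IsAdicComplete (maximalIdeal 𝒪) 𝒪] [Finite (ResidueField 𝒪)] [CharZero 𝒪]
  {p : ℕ} [Fact p.Prime] (hp2 : p ≠ 2) {ρbar : ResidualGaloisRep (ResidueField 𝒪)}
  {b : Module.Basis (Fin 2) (ResidueField 𝒪) ρbar.V}
  (hdet : (GaloisRepAdic.ofResidualGaloisRep ρbar).DetIsCyclotomic p)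
  (hord : (GaloisRepAdic.ofResidualGaloisRep ρbar).IsOrdinaryAt p)
  {φ σ₀ : GQ} (hm : MarkElts p φ σ₀) (hr0 : toMat ρbar.ρ b σ₀ = 1) (w : ℤ) (hw : w ^ 2 = 1)
  {g₀ : (M2 (ResidueField 𝒪))ˣ} (hg₀ : OrdI p (cj g₀ (toMat ρbar.ρ b)))
  (hu : cj g₀ (toMat ρbar.ρ b) φ 1 1 = (w : ResidueField 𝒪))
  {A : Finset ℕ}
  {τ ι : Type} [Fintype τ] [Fintype ι] {qT : τ → ℕ} {pl : ∀ t, PlaceData p (qT t)} {u : τ → 𝒪}
  {qB : ι → ℕ} {plB : ∀ i, PlaceData p (qB i)} {uB : ι → 𝒪} {k n : ℕ} {S₀ : Finset ℕ}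
  (E : GalLevelB p ρbar b (PData.ord hp2 ρbar b hdet hord hm hr0 w hw hg₀ hu) A qT pl u qB plB uB
    k n S₀)
  {L : ℕ} [NeZero L] {S : Finset ℕ} (hpS : p ∈ S) (hLS : ∀ q : ℕ, q.Prime → q ∣ L → q ∈ S)
  {θ : heckeAlgebra L 2 (↑S : Set ℕ) →+* ResidueField 𝒪}
  (π : E.D.R →ₐ[𝒪] heckeLocal L (↑S : Set ℕ) 𝒪 θ) (hπ : Function.Surjective π)
  {H : HeckeGaloisRepDatum L (↑S : Set ℕ) 𝒪 θ (heckeLocal L (↑S : Set ℕ) 𝒪 θ)}
  (hH : H.π = heckeLocal.π L (↑S : Set ℕ) 𝒪 θ)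
  (b₂ : Module.Basis (Fin 2) (heckeLocal L (↑S : Set ℕ) 𝒪 θ) H.ρ.V)
  (hb₂ : toMat H.ρ.ρ b₂ =
    mapMat (π : E.D.R →+* heckeLocal L (↑S : Set ℕ) 𝒪 θ) (toMat E.D.ρ.ρ E.b₁))

/-- **(R1)** in the form `htb` of the chain of levels -/
theorem htb_p {c : 𝒪} (hc : IsUnit c) {q : ℕ} (hqp : q = p) : ∃ v : E.D.R, IsUnit v ∧
    tauP hp2 hdet hord hm hr0 w hw hg₀ hu E ^ 2 - ((q : E.D.R) + 1) ^ 2 =
      v * (E.mB (Sum.inr ()) 0 * (E.mB (Sum.inr ()) 0 + algebraMap 𝒪 E.D.R c)) := by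
  subst hqp
  obtain ⟨v, v', h1, h2⟩ := tauP_sq_mul hp2 hdet hord hm hr0 w hw hg₀ hu E hc
  refine ⟨-v, (IsUnit.of_mul_eq_one v' h1).neg, ?_⟩
  rw [neg_mul, ← h2]
  ring

variable
  {O' : Type} [CommRing O'] [IsDomain O'] [IsDiscreteValuationRing O']
  [IsAdicComplete (maximalIdeal O') O'] [Finite (ResidueField O')] [CharZero O']
  [Algebra 𝒪 O'] [Module.Finite 𝒪 O'] [IsLocalHom (algebraMap 𝒪 O')]

include hLS hπ hH hb₂ hpS in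
/-- **(R2)** at a point of level prime to `p`: `y = z = 0`. -/
theorem lam_y_eq_zero {N M : ℕ} (hsq : Squarefree N) (hM0 : 0 < M)
    (hex : ∀ r : ℕ, r.Prime → r ∣ N → ¬ r * r ∣ M) (hM : N ∣ M) (hS : Away M (↑S : Set ℕ))
    (hpM : ¬ p ∣ M)
    (lam : heckeLocal L (↑S : Set ℕ) 𝒪 θ →ₐ[𝒪] O') (η : (ZMod N)ˣ →* O'ˣ)
    (x : H1 (gam N M hM) (psiRep (η ^ 2) O')) (hη : ∃ m, Odd m ∧ η ^ m = 1)
    (hx : IsPt hM hS η (fun i => lam (heckeLocal.π L (↑S : Set ℕ) 𝒪 θ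
      (TIdx L (↑S : Set ℕ) hLS i))) x) :
    lam (π (E.mB (Sum.inr ()) 1)) = 0 ∧ lam (π (E.mB (Sum.inr ()) 2)) = 0 := by
  obtain ⟨m', hm', hηm⟩ := hη
  have hf := isLocalHom_compB hp2 hdet hord hm hr0 w hw hg₀ hu E π hπ lam
  have hatt := ptRep_isAttached E.D hLS hH E.b₁ b₂ π hb₂ lam hf
  have hirr := ptRep_residual_irreducible E.D (lam.comp π) hf
  have hp𝒪' : (p : O') ∈ maximalIdeal O' := by
    have := E.pt_mem (lam.comp π) hf E.p_mem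
    rwa [map_natCast] at this
  have hT' : ∀ i : Idx (↑S : Set ℕ), tw hM hS (η ^ 2) η i x = aOf lam i.1 • x := fun i => by
    rw [aOf_idx hLS lam i]
    exact hx.eigen i
  exact GalLevelB.pt_ord_nr hp2 hdet hord hm hr0 w hw hg₀ hu E (lam.comp π) hf
    (Fermat.Agent.H80.FlatPt.EA_flat hp2 hpS hp𝒪' hsq hM0 hex hM hS η hm' hηm
      (ptRep E.D (lam.comp π) hf) hatt hirr hx.smul_ne hT' hpM)

/-- at all points `y t = 0` and `z (t + c) = 0` -/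
theorem lam_un (lam : heckeLocal L (↑S : Set ℕ) 𝒪 θ →ₐ[𝒪] O') (c : O') :
    lam (π (E.mB (Sum.inr ()) 1)) * lam (π (E.mB (Sum.inr ()) 0)) = 0 ∧
    lam (π (E.mB (Sum.inr ()) 2)) * (lam (π (E.mB (Sum.inr ()) 0)) + c) = 0 :=
  GalLevelB.pt_ord_uni hp2 hdet hord hm hr0 w hw hg₀ hu E (lam.comp π) c

/-- the third mark at `p` vanishes at all points -/
theorem lam_z_eq_zero (lam : heckeLocal L (↑S : Set ℕ) 𝒪 θ →ₐ[𝒪] O') :
    lam (π (E.mB (Sum.inr ()) 2)) = 0 := by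
  have h1 : E.mB (Sum.inr ()) 2 = 0 := E.isPMark.2
  rw [h1, map_zero, map_zero]

end Level

end Fermat.Agent.H75R
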