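import Fermat.Agent.H75Descent
import Mathlib

set_option autoImplicit false

namespace Fermat.Agent.H75

theorem nat_sq_of_mul {a b c : ℕ} (h : Nat.Coprime a b) (heq : a * b = c ^ 2) :
    ∃ d : ℕ, a = d ^ 2 :=
  exists_eq_pow_of_mul_eq_pow (Nat.isUnit_iff.mpr h) heq

/-- In lowest terms. -/
theorem descent_rat (w u v : ℚ) (h1 : w ^ 2 + 4 = u ^ 2) (h2 : w ^ 2 + 64 = v ^ 2) : w = 0 := by
  by_contra hw
  set W : ℚ := w / 2 with hW
  have hW0 : W ≠ 0 := by simp [hW, hw]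
  have hw2 : w = 2 * W := by rw [hW]; ring
  have hden : (W.den : ℚ) ≠ 0 := by exact_mod_cast W.den_nz
  have hWnd : W * W.den = W.num := Rat.mul_den_eq_num W
  have hnum2 : ((W.num.natAbs : ℕ) : ℚ) ^ 2 = (W.num : ℚ) ^ 2 := by
    rw [Nat.cast_natAbs, Int.cast_abs, sq_abs]
  have e1 : ((W.num.natAbs ^ 2 + W.den ^ 2 : ℕ) : ℚ) = (u / 2 * W.den) * (u / 2 * W.den) := by
    push_cast
    rw [hnum2, ← hWnd]
    have : W ^ 2 + 1 = (u / 2) ^ 2 := by rw [hw2] at h1; linarith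
    linear_combination (W.den : ℚ) ^ 2 * this
  have e2 : ((W.num.natAbs ^ 2 + 16 * W.den ^ 2 : ℕ) : ℚ) = (v / 2 * W.den) * (v / 2 * W.den) := by
    push_cast
    rw [hnum2, ← hWnd]
    have : W ^ 2 + 16 = (v / 2) ^ 2 := by rw [hw2] at h2; linarith
    linear_combination (W.den : ℚ) ^ 2 * this
  obtain ⟨b, hb⟩ : IsSquare (W.num.natAbs ^ 2 + W.den ^ 2) := Rat.isSquare_natCast_iff.mp ⟨_, e1⟩
  obtain ⟨c, hc⟩ : IsSquare (W.num.natAbs ^ 2 + 16 * W.den ^ 2) :=
    Rat.isSquare_natCast_iff.mp ⟨_, e2⟩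
  exact descent_aux _ W.num.natAbs W.den b c rfl
    (Int.natAbs_pos.mpr (Rat.num_ne_zero.mpr hW0)) W.den_pos W.reduced
    (by rw [hb, pow_two]) (by rw [hc, pow_two])

/-- `(w²+4)(w²+64)` a square implies `w²+4` is a square or five times a square. -/
theorem class_rat (w t : ℚ) (h : (w ^ 2 + 4) * (w ^ 2 + 64) = t ^ 2) :
    (∃ u v : ℚ, w ^ 2 + 4 = u ^ 2 ∧ w ^ 2 + 64 = v ^ 2) ∨
    (∃ u v : ℚ, w ^ 2 + 4 = 5 * u ^ 2 ∧ w ^ 2 + 64 = 5 * v ^ 2) := by
  set W : ℚ := w / 2 with hW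
  have hw2 : w = 2 * W := by rw [hW]; ring
  have hden : (W.den : ℚ) ≠ 0 := by exact_mod_cast W.den_nz
  have hWnd : W * W.den = W.num := Rat.mul_den_eq_num W
  have hnum2 : ((W.num.natAbs : ℕ) : ℚ) ^ 2 = (W.num : ℚ) ^ 2 := by
    rw [Nat.cast_natAbs, Int.cast_abs, sq_abs]
  set a := W.num.natAbs with ha
  set s := W.den with hs
  have hcop : Nat.Coprime a s := W.reduced
  have hspos : 0 < s := W.den_pos
  have hWa : W ^ 2 * (s : ℚ) ^ 2 = (a : ℚ) ^ 2 := by rw [hnum2, ← hWnd]; ring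
  have e1 : (((a ^ 2 + s ^ 2) * (a ^ 2 + 16 * s ^ 2) : ℕ) : ℚ)
      = (t / 4 * s ^ 2) * (t / 4 * s ^ 2) := by
    push_cast
    rw [← hWa]
    have : (W ^ 2 + 1) * (W ^ 2 + 16) = (t / 4) ^ 2 := by rw [hw2] at h; linarith
    linear_combination (s : ℚ) ^ 4 * this
  obtain ⟨r, hr⟩ : IsSquare ((a ^ 2 + s ^ 2) * (a ^ 2 + 16 * s ^ 2)) :=
    Rat.isSquare_natCast_iff.mp ⟨_, e1⟩
  set g := Nat.gcd (a ^ 2 + s ^ 2) (a ^ 2 + 16 * s ^ 2) with hg
  have hgpos : 0 < g := Nat.gcd_pos_of_pos_left _ (by positivity)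
  obtain ⟨u', hu'⟩ : g ∣ (a ^ 2 + s ^ 2) := Nat.gcd_dvd_left _ _
  obtain ⟨v', hv'⟩ : g ∣ (a ^ 2 + 16 * s ^ 2) := Nat.gcd_dvd_right _ _
  have hcuv : Nat.Coprime u' v' := by
    have h1 : Nat.gcd (g * u') (g * v') = g * Nat.gcd u' v' := Nat.gcd_mul_left _ _ _
    rw [← hu', ← hv', ← hg] at h1
    exact (Nat.eq_of_mul_eq_mul_left hgpos (by rw [mul_one]; exact h1)).symm
  have hgr : g ∣ r := by
    have : g ^ 2 ∣ r ^ 2 := ⟨u' * v', by rw [pow_two r, ← hr, hu', hv']; ring⟩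
    exact (Nat.pow_dvd_pow_iff (by norm_num)).mp this
  obtain ⟨r', hr'⟩ := hgr
  have huv' : u' * v' = r' ^ 2 := by
    have h1 : g ^ 2 * (u' * v') = g ^ 2 * r' ^ 2 := by
      calc g ^ 2 * (u' * v') = (g * u') * (g * v') := by ring
        _ = r * r := by rw [← hu', ← hv', hr]
        _ = g ^ 2 * r' ^ 2 := by rw [hr']; ring
    exact Nat.eq_of_mul_eq_mul_left (by positivity) h1
  obtain ⟨b, hb⟩ := nat_sq_of_mul hcuv huv'
  obtain ⟨c, hc⟩ := nat_sq_of_mul hcuv.symm (by rw [mul_comm]; exact huv')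
  have h15 : g ∣ 15 := by
    have d1 : g ∣ 15 * a ^ 2 := by
      have h1 : 15 * a ^ 2 + (a ^ 2 + 16 * s ^ 2) = 16 * (a ^ 2 + s ^ 2) := by ring
      have h3 : g ∣ 16 * (a ^ 2 + s ^ 2) := Dvd.dvd.mul_left (Nat.gcd_dvd_left _ _) _
      rw [← h1] at h3
      exact (Nat.dvd_add_left (Nat.gcd_dvd_right _ _)).mp h3
    have d2 : g ∣ 15 * s ^ 2 := by
      have h1 : 15 * s ^ 2 + (a ^ 2 + s ^ 2) = (a ^ 2 + 16 * s ^ 2) := by ring
      have h3 : g ∣ (a ^ 2 + 16 * s ^ 2) := (Nat.gcd_dvd_right _ _)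
      rw [← h1] at h3
      exact (Nat.dvd_add_left (Nat.gcd_dvd_left _ _)).mp h3
    have h1 : g ∣ Nat.gcd (15 * a ^ 2) (15 * s ^ 2) := Nat.dvd_gcd d1 d2
    rw [Nat.gcd_mul_left, (Nat.Coprime.pow 2 2 hcop).gcd_eq_one, mul_one] at h1
    exact h1
  have h3 : ¬ 3 ∣ g := by
    intro h3
    have h4 : 3 ∣ a ^ 2 + s ^ 2 := h3.trans (Nat.gcd_dvd_left _ _)
    have hα3 : a % 3 = 0 ∧ s % 3 = 0 := by
      have h5 : (a ^ 2 + s ^ 2) % 3 = 0 := Nat.mod_eq_zero_of_dvd h4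
      have ha : a % 3 = 0 ∨ a % 3 = 1 ∨ a % 3 = 2 := by omega
      have hd : s % 3 = 0 ∨ s % 3 = 1 ∨ s % 3 = 2 := by omega
      rcases ha with ha | ha | ha <;> rcases hd with hd | hd | hd <;>
        simp [pow_two, Nat.add_mod, Nat.mul_mod, ha, hd] at h5 ⊢
    have : 3 ∣ Nat.gcd a s := Nat.dvd_gcd (Nat.dvd_of_mod_eq_zero hα3.1) (Nat.dvd_of_mod_eq_zero hα3.2)
    rw [hcop.gcd_eq_one] at this
    omega
  have hle : g ≤ 15 := Nat.le_of_dvd (by norm_num) h15
  have hg15 : g = 1 ∨ g = 5 := by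
    clear_value g
    interval_cases g <;> first | (left; rfl) | (right; rfl) | omega
  have hsQ : (s : ℚ) ≠ 0 := by exact_mod_cast hspos.ne'
  have f1 : (a : ℚ) ^ 2 + (s : ℚ) ^ 2 = g * (b : ℚ) ^ 2 := by
    have : ((a ^ 2 + s ^ 2 : ℕ) : ℚ) = ((g * u' : ℕ) : ℚ) := by rw [← hu']
    rw [hb] at this
    push_cast at this
    exact this
  have f2 : (a : ℚ) ^ 2 + 16 * (s : ℚ) ^ 2 = g * (c : ℚ) ^ 2 := by
    have : ((a ^ 2 + 16 * s ^ 2 : ℕ) : ℚ) = ((g * v' : ℕ) : ℚ) := by rw [← hv']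
    rw [hc] at this
    push_cast at this
    exact this
  rw [← hWa] at f1 f2
  have k1 : w ^ 2 + 4 = g * (2 * b / s) ^ 2 := by
    rw [hw2]; field_simp; linear_combination 4 * f1
  have k2 : w ^ 2 + 64 = g * (2 * c / s) ^ 2 := by
    rw [hw2]; field_simp; linear_combination 4 * f2
  rcases hg15 with hg1 | hg5
  · left
    refine ⟨2 * b / s, 2 * c / s, ?_, ?_⟩
    · rw [k1, hg1]; push_cast; ring
    · rw [k2, hg1]; push_cast; ring
  · right
    refine ⟨2 * b / s, 2 * c / s, ?_, ?_⟩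
    · rw [k1, hg5]; push_cast; ring
    · rw [k2, hg5]; push_cast; ring

/-- square class -/
theorem X15_sq (X Y v : ℚ) (h : Y ^ 2 = X * (X - 9) * (X - 25)) (hX : X = v ^ 2) :
    X = 0 ∨ X = 9 ∨ X = 25 := by
  by_cases hv : v = 0
  · left; rw [hX, hv]; ring
  · have hX0 : X ≠ 0 := by rw [hX]; positivity
    have h1 : (Y / X) ^ 2 + 4 = ((X - 15) / v) ^ 2 := by
      rw [div_pow, div_pow, ← hX]; field_simp; linear_combination h
    have h2 : (Y / X) ^ 2 + 64 = ((X + 15) / v) ^ 2 := by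
      rw [div_pow, div_pow, ← hX]; field_simp; linear_combination h
    have h3 := descent_rat _ _ _ h1 h2
    have hY : Y = 0 := by
      rcases div_eq_zero_iff.mp h3 with h | h
      · exact h
      · exact absurd h hX0
    rw [hY] at h
    have h4 : X * ((X - 9) * (X - 25)) = 0 := by linear_combination -h
    rcases mul_eq_zero.mp h4 with h | h
    · left; exact h
    · rcases mul_eq_zero.mp h with h | h
      · right; left; linarith
      · right; right; linarith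

theorem X15_points (X Y : ℚ) (h : Y ^ 2 = X * (X - 9) * (X - 25)) :
    X = 0 ∨ X = 9 ∨ X = 25 ∨ X = 5 ∨ X = 45 := by
  by_cases hX0 : X = 0
  · left; exact hX0
  have hk : ((Y / X) ^ 2 + 4) * ((Y / X) ^ 2 + 64) = ((X - 15) * (X + 15) / X) ^ 2 := by
    have e1 : (Y / X) ^ 2 + 4 = (X - 15) ^ 2 / X := by
      rw [div_pow]; field_simp; linear_combination h
    have e2 : (Y / X) ^ 2 + 64 = (X + 15) ^ 2 / X := by
      rw [div_pow]; field_simp; linear_combination h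
    rw [e1, e2]; field_simp
  have e1 : (Y / X) ^ 2 + 4 = (X - 15) ^ 2 / X := by
    rw [div_pow]; field_simp; linear_combination h
  have hX15 : X ≠ 15 := by
    rintro rfl
    have : Y ^ 2 = -900 := by rw [h]; norm_num
    nlinarith [sq_nonneg Y]
  rcases class_rat _ _ hk with ⟨u, v, hu, -⟩ | ⟨u, v, hu, -⟩
  · -- X is a square
    rw [e1] at hu
    have hu0 : u ≠ 0 := by
      rintro rfl
      have : (X - 15) ^ 2 / X = 0 := by rw [hu]; ring
      rcases div_eq_zero_iff.mp this with h | h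
      · exact hX15 (by have := pow_eq_zero_iff (two_ne_zero) |>.mp h; linarith)
      · exact hX0 h
    have hXs : X = ((X - 15) / u) ^ 2 := by
      have h15 : (X - 15) ^ 2 ≠ 0 := pow_ne_zero 2 (sub_ne_zero.mpr hX15)
      rw [div_pow, ← hu]; field_simp
    rcases X15_sq X Y _ h hXs with h | h | h <;> simp [h]
  · rw [e1] at hu
    by_cases hX5 : X = 5
    · simp [hX5]
    have hu0 : u ≠ 0 := by
      rintro rfl
      have : (X - 15) ^ 2 / X = 0 := by rw [hu]; ring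
      rcases div_eq_zero_iff.mp this with h | h
      · exact hX15 (by have := pow_eq_zero_iff (two_ne_zero) |>.mp h; linarith)
      · exact hX0 h
    have hXs : 5 * X = ((X - 15) / u) ^ 2 := by
      have h15 : (X - 15) ^ 2 ≠ 0 := pow_ne_zero 2 (sub_ne_zero.mpr hX15)
      have hu2 : u ^ 2 = (X - 15) ^ 2 / (5 * X) := by
        field_simp; rw [div_eq_iff hX0] at hu; linear_combination -hu
      rw [div_pow, hu2]; field_simp
    have hX5' : X - 5 ≠ 0 := sub_ne_zero.mpr hX5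
    set l : ℚ := (Y - 20) / (X - 5) with hl
    have hl' : l * (X - 5) = Y - 20 := by rw [hl]; field_simp
    set n : ℚ := 20 - 5 * l with hn
    set X' : ℚ := l ^ 2 + 34 - X - 5 with hX'
    have hYl : Y = l * X + n := by rw [hn]; linear_combination -hl'
    have q1 : X ^ 2 - 29 * X + 80 = l ^ 2 * X + 2 * l * n + 5 * l ^ 2 := by
      have : (X - 5) * (X ^ 2 - 29 * X + 80) = (X - 5) * (l ^ 2 * X + 2 * l * n + 5 * l ^ 2) := by
        have h20 : Y ^ 2 - 400 = (X - 5) * (X ^ 2 - 29 * X + 80) := by rw [h]; ring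
        rw [← h20, hYl, hn]; ring
      exact mul_left_cancel₀ hX5' this
    have hXX' : X' * (5 * X) = n ^ 2 := by
      rw [hX', hn] at *
      linear_combination (-5) * q1
    have hY' : (l * X' + n) ^ 2 = X' * (X' - 9) * (X' - 25) := by
      linear_combination (-X' ^ 2 + (5 + X) * X') * hX' - X' * q1 - hXX'
    have hk0 : (X - 15) / u ≠ 0 := div_ne_zero (sub_ne_zero.mpr hX15) hu0
    have hX'sq : X' = (n / ((X - 15) / u)) ^ 2 := by
      rw [div_pow, ← hXs, ← hXX']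
      field_simp
    rcases X15_sq X' _ _ hY' hX'sq with h0 | h9 | h25
    · have hn0 : n = 0 := by
        rw [h0, zero_mul] at hXX'
        exact pow_eq_zero_iff (two_ne_zero) |>.mp hXX'.symm
      have hl4 : l = 4 := by linarith
      have : X * (X - 45) = 0 := by rw [hn0, hl4] at q1; linear_combination q1
      rcases mul_eq_zero.mp this with h | h
      · exact absurd h hX0
      · right; right; right; right; linarith
    · have h1 : X = l ^ 2 + 20 := by linarith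
      have h2 : (l + 5) ^ 2 = 0 := by
        rw [h9, h1, hn] at hXX'; linear_combination (1 / 20 : ℚ) * hXX'
      have h3 : l = -5 := by
        have := pow_eq_zero_iff (two_ne_zero) |>.mp h2; linarith
      right; right; right; right; rw [h1, h3]; norm_num
    · have h1 : X = l ^ 2 + 4 := by linarith
      have h2 : (l + 1) ^ 2 = 0 := by
        rw [h25, h1, hn] at hXX'; linear_combination (1 / 100 : ℚ) * hXX'
      have h3 : l = -1 := by
        have := pow_eq_zero_iff (two_ne_zero) |>.mp h2; linarith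
      right; right; right; left; rw [h1, h3]; norm_num

end Fermat.Agent.H75
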