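import Fermat.Agent.H39ZInd
import Fermat.Agent.H51ZKD3
import Fermat.Agent.H79SMono

/-!
# Finite data of the aleph operator (helper75 for helper39, S47 C5)

`finData_mono` : `H39Z.FinData` for the monomial kernels of `H79S.KerData`.
-/

set_option autoImplicit false
set_option linter.unusedSectionVars false

noncomputable section

open scoped Classical MatrixGroups WithZero
open IsDedekindDomain HeightOneSpectrum NumberField WithZero

namespace Fermat.Agent.H75X

open Fermat.Agent.H59XF Fermat.Agent.H59D Fermat.Agent.H79S Fermat.Agent.H76U Matrix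
open Fermat.Agent.H51Z
open Fermat.Agent.H7.Z (borP mk_bm_eq mk_dm_eq mk_bm_inj bm_ne_dm upd_inst)

variable {K : Type*} [Field K] [NumberField K] {J J' : Type*} [Fintype J] [Fintype J']
  {m : Model K J'} {S : Finset (HeightOneSpectrum (𝓞 K))} {w0 : HeightOneSpectrum (𝓞 K)}
  {Ty : HeightOneSpectrum (𝓞 K) → TD K}

/-- the Hecke operator in coordinates, vector valued functions -/
theorem lop_T_eq (D : KerData m S w0 Ty) {w : HeightOneSpectrum (𝓞 K)} (hw : w ∉ S) (h0 : w ≠ w0)
    {a : Kˣ} (ha : w.valuation K (a : K) = exp (-(1 : ℤ))) {R : Finset K}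
    (hR : IsReps (w.valuation K) 1 R) {E : Type*} [AddCommGroup E] [Module ℂ E]
    (F : XF m.L.fam → E) (y : XF m.L.fam) (g : PGL(2, K))
    (hg : y w = (g : PGL(2, K) ⧸ m.L.fam.U w)) :
    lop w (D.D.T w) F y = ∑ b ∈ R, F (XF.upd y w
        ((g * (borP K).n b * (borP K).d a : PGL(2, K)) : PGL(2, K) ⧸ m.L.fam.U w)) +
      F (XF.upd y w ((g * ((borP K).d a)⁻¹ : PGL(2, K)) : PGL(2, K) ⧸ m.L.fam.U w)) := by
  rw [KD.T_eq D hw h0,
    lop_lind w (KD.dcT D hw h0) ((isCosetReps_repsT ha hR).of_eq (KD.U_good D hw h0)) F y g hg,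
    repsT, Finset.sum_insert, Finset.sum_image, add_comm]
  · congr 1
    · refine Finset.sum_congr rfl fun b _ => ?_
      rw [mk_bm_eq, mul_assoc]
    · rw [mk_dm_eq]
  · intro b hb b' hb' hbb
    exact mk_bm_inj hbb
  · intro hmem
    obtain ⟨b, hb, hbb⟩ := Finset.mem_image.1 hmem
    exact bm_ne_dm ha hbb

theorem mono_add_single (D : KerData m S w0 Ty) {w : HeightOneSpectrum (𝓞 K)} (hw : w ∉ S)
    (h0 : w ≠ w0) (N : HeightOneSpectrum (𝓞 K) →₀ ℕ) :
    D.D.mono (N + Finsupp.single w 1) 0 = gmul (D.D.mono N 0) (single w (D.D.T w)) := by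
  have hwS : w ∉ D.D.S := by rwa [D.D_S]
  have hw0 : w ≠ D.D.w0 := by rwa [D.D_w0]
  apply gext
  intro v
  rw [gmul_loc, HData.mono_loc, HData.mono_loc]
  by_cases hv : v = w
  · subst hv
    rw [single_same, D.D.loc_good hwS hw0, D.D.loc_good hwS hw0, Finsupp.add_apply,
      Finsupp.single_eq_same, lpow_add, lpow_one]
  · rw [single_ne hv, lmul_one]
    unfold HData.loc
    rw [Finsupp.add_apply, Finsupp.single_eq_of_ne hv, add_zero]

/-- **The finite data.** -/
theorem finData_mono (D : KerData m S w0 Ty) {ι : Type} [Fintype ι] [DecidableEq ι]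
    (w : ι → HeightOneSpectrum (𝓞 K)) (hw : ∀ i, w i ∉ S ∧ w i ≠ w0) (a : Kˣ)
    (ha : ∀ i, (w i).valuation K (a : K) = exp (-(1 : ℤ))) :
    H39Z.FinData (J := J) w a (fun i => Ideal.absNorm (w i).asIdeal) (fun i => D.D.T (w i))
      (fun n => D.D.mono (∑ i, Finsupp.single (w i) (n i)) 0) where
  max i := D.lev_good (w i) (hw i).1 (hw i).2
  qpos i := Nat.pos_of_ne_zero fun h => (w i).ne_bot (Ideal.absNorm_eq_zero_iff.mp h)
  hT i := by
    refine ⟨(disc_nf (w i)).reps 1, ?_, fun F y g hg => ?_⟩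
    · rw [card_reps_nf', pow_one]
    · exact lop_T_eq D (hw i).1 (hw i).2 (ha i) ((disc_nf (w i)).isReps 1) F y g hg
  hf n i := by
    have e : (∑ j, Finsupp.single (w j) ((n + Pi.single i 1 : ι → ℕ) j) :
        HeightOneSpectrum (𝓞 K) →₀ ℕ) =
        (∑ j, Finsupp.single (w j) (n j)) + Finsupp.single (w i) 1 := by
      simp only [Pi.add_apply, Finsupp.single_add, Finset.sum_add_distrib]
      congr 1
      rw [Finset.sum_eq_single i]
      · rw [Pi.single_eq_same]
      · intro j _ hj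
        rw [Pi.single_eq_of_ne hj, Finsupp.single_zero]
      · intro h
        exact absurd (Finset.mem_univ i) h
    rw [e]
    exact mono_add_single D (hw i).1 (hw i).2 _

end Fermat.Agent.H75X
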