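import Mathlib

/-!
# The radial equation on hyperbolic 3-space at the spectral parameter `0` (S47, C3, helper75)

For a `C¹` function `κ` on `ℝ` with `κ = 0` on `[R, ∞)` and `∫_{[1,R]} κ(t) arcosh(t) dt = 0` (in the
form `hat κ R = 0`) there is a `C²` function `η` on `(-1, ∞)`, zero on `[R, ∞)`, with
`(t² - 1) η'' + 3 t η' + η = κ`.
-/

set_option autoImplicit false

noncomputable section

open Set MeasureTheory Real Filter Topology intervalIntegral
open scoped Interval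

namespace Fermat.Agent.H75Y

section Param

theorem mem_Icc_of {x s : ℝ} (hs0 : 0 ≤ s) (hs1 : s ≤ 1) :
    1 + (x - 1) * s ^ 2 ∈ Icc (min 1 x) (max 1 x) := by
  have h1 : s ^ 2 ≤ 1 := by nlinarith
  have h0 : 0 ≤ s ^ 2 := sq_nonneg s
  rcases le_total 1 x with h | h
  · rw [min_eq_left h, max_eq_right h]
    constructor <;> nlinarith
  · rw [min_eq_right h, max_eq_left h]
    constructor <;> nlinarith

/-- differentiation of `∫₀¹ G(1 + (t-1)s²) s^m ds` -/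
theorem hasDerivAt_J {G G' : ℝ → ℝ} (hG : ∀ τ, -1 < τ → HasDerivAt G (G' τ) τ)
    (hG' : ContinuousOn G' (Ioi (-1))) (m : ℕ) {t : ℝ} (ht : -1 < t) :
    HasDerivAt (fun t : ℝ => ∫ s in (0 : ℝ)..1, G (1 + (t - 1) * s ^ 2) * s ^ m)
      (∫ s in (0 : ℝ)..1, G' (1 + (t - 1) * s ^ 2) * s ^ (m + 2)) t := by
  have hGc : ContinuousOn G (Ioi (-1)) := fun τ hτ => (hG τ hτ).continuousAt.continuousWithinAt
  have hcont : ∀ (H : ℝ → ℝ), ContinuousOn H (Ioi (-1)) → ∀ x : ℝ, -1 < x → ∀ n : ℕ,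
      ContinuousOn (fun s : ℝ => H (1 + (x - 1) * s ^ 2) * s ^ n) (Icc 0 1) := by
    intro H hH x hx n
    refine ContinuousOn.mul (hH.comp (by fun_prop) fun s hs => ?_) (by fun_prop)
    have h1 := mem_Icc_of (x := x) hs.1 hs.2
    exact lt_of_lt_of_le (lt_min (by norm_num) hx) h1.1
  set a : ℝ := (t - 1) / 2 with ha
  have ha1 : -1 < a := by rw [ha]; linarith
  have hat : a < t := by rw [ha]; linarith
  set b : ℝ := t + 1 with hb
  have hcomp : IsCompact (Icc (min 1 a) (max 1 b)) := isCompact_Icc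
  obtain ⟨C, hC⟩ := hcomp.exists_bound_of_continuousOn (f := G') (hG'.mono fun τ hτ =>
    lt_of_lt_of_le (lt_min (by norm_num) ha1) hτ.1)
  have hsub : ∀ x ∈ Ioo a b, ∀ s ∈ Icc (0 : ℝ) 1,
      1 + (x - 1) * s ^ 2 ∈ Icc (min 1 a) (max 1 b) := by
    intro x hx s hs
    have h1 := mem_Icc_of (x := x) hs.1 hs.2
    exact ⟨(min_le_min le_rfl hx.1.le).trans h1.1, h1.2.trans (max_le_max le_rfl hx.2.le)⟩
  have huI : Ι (0 : ℝ) 1 ⊆ Icc 0 1 := by
    rw [uIoc_of_le zero_le_one]; exact Ioc_subset_Icc_self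
  refine (intervalIntegral.hasDerivAt_integral_of_dominated_loc_of_deriv_le (s := Ioo a b)
    (bound := fun _ => C) (F := fun x s => G (1 + (x - 1) * s ^ 2) * s ^ m)
    (F' := fun x s => G' (1 + (x - 1) * s ^ 2) * s ^ (m + 2)) ?_ ?_ ?_ ?_ ?_ ?_ ?_).2
  · exact Ioo_mem_nhds hat (by rw [hb]; linarith)
  · filter_upwards [Ioi_mem_nhds ht] with x hx
    exact ((hcont G hGc x hx m).mono huI).aestronglyMeasurable measurableSet_uIoc
  · refine ContinuousOn.intervalIntegrable ?_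
    rw [uIcc_of_le zero_le_one]
    exact hcont G hGc t ht m
  · exact ((hcont G' hG' t ht (m + 2)).mono huI).aestronglyMeasurable measurableSet_uIoc
  · refine ae_of_all _ fun s hs x hx => ?_
    have hs' := huI hs
    rw [norm_mul, norm_pow]
    have h1 := hC _ (hsub x hx s hs')
    have h2 : ‖s‖ ^ (m + 2) ≤ 1 := by
      rw [Real.norm_of_nonneg hs'.1]
      exact pow_le_one₀ hs'.1 hs'.2
    calc ‖G' (1 + (x - 1) * s ^ 2)‖ * ‖s‖ ^ (m + 2) ≤ C * 1 :=
          mul_le_mul h1 h2 (by positivity) ((norm_nonneg _).trans h1)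
      _ = C := mul_one C
  · exact intervalIntegrable_const
  · refine ae_of_all _ fun s hs x hx => ?_
    have hs' := huI hs
    have h1 := hsub x hx s hs'
    have h2 : HasDerivAt (fun x : ℝ => 1 + (x - 1) * s ^ 2) (s ^ 2) x := by
      have := (((hasDerivAt_id x).sub_const 1).mul_const (s ^ 2)).const_add 1
      simpa using this
    have h3 := ((hG _ (lt_of_lt_of_le (lt_min (by norm_num) ha1) h1.1)).comp x h2).mul_const (s ^ m)
    refine h3.congr_deriv ?_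
    ring

theorem continuousOn_J {G : ℝ → ℝ} (hG : ContinuousOn G (Ioi (-1))) (m : ℕ) :
    ContinuousOn (fun t : ℝ => ∫ s in (0 : ℝ)..1, G (1 + (t - 1) * s ^ 2) * s ^ m)
      (Ioi (-1)) := by
  intro t ht
  have ht' : -1 < t := ht
  refine ContinuousAt.continuousWithinAt ?_
  set a : ℝ := (t - 1) / 2 with ha
  have ha1 : -1 < a := by rw [ha]; linarith
  have hat : a < t := by rw [ha]; linarith
  set b : ℝ := t + 1 with hb
  have hcomp : IsCompact (Icc (min 1 a) (max 1 b)) := isCompact_Icc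
  obtain ⟨C, hC⟩ := hcomp.exists_bound_of_continuousOn (f := G) (hG.mono fun τ hτ =>
    lt_of_lt_of_le (lt_min (by norm_num) ha1) hτ.1)
  have hsub : ∀ x ∈ Ioo a b, ∀ s ∈ Icc (0 : ℝ) 1,
      1 + (x - 1) * s ^ 2 ∈ Icc (min 1 a) (max 1 b) := by
    intro x hx s hs
    have h1 := mem_Icc_of (x := x) hs.1 hs.2
    exact ⟨(min_le_min le_rfl hx.1.le).trans h1.1, h1.2.trans (max_le_max le_rfl hx.2.le)⟩
  have huI : Ι (0 : ℝ) 1 ⊆ Icc 0 1 := by
    rw [uIoc_of_le zero_le_one]; exact Ioc_subset_Icc_self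
  have hgt : ∀ x ∈ Ioo a b, ∀ s ∈ Icc (0 : ℝ) 1, -1 < 1 + (x - 1) * s ^ 2 := fun x hx s hs =>
    lt_of_lt_of_le (lt_min (by norm_num) ha1) (hsub x hx s hs).1
  refine intervalIntegral.continuousAt_of_dominated_interval (bound := fun _ => C) ?_ ?_ ?_ ?_
  · filter_upwards [Ioo_mem_nhds hat (show t < b by rw [hb]; linarith)] with x hx
    refine ContinuousOn.aestronglyMeasurable ?_ measurableSet_uIoc
    refine ContinuousOn.mul (hG.comp (by fun_prop) fun s hs => hgt x hx s (huI hs)) (by fun_prop)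
  · filter_upwards [Ioo_mem_nhds hat (show t < b by rw [hb]; linarith)] with x hx
    refine ae_of_all _ fun s hs => ?_
    have hs' := huI hs
    rw [norm_mul, norm_pow]
    have h1 := hC _ (hsub x hx s hs')
    have h2 : ‖s‖ ^ m ≤ 1 := by
      rw [Real.norm_of_nonneg hs'.1]
      exact pow_le_one₀ hs'.1 hs'.2
    calc ‖G (1 + (x - 1) * s ^ 2)‖ * ‖s‖ ^ m ≤ C * 1 :=
          mul_le_mul h1 h2 (by positivity) ((norm_nonneg _).trans h1)
      _ = C := mul_one C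
  · exact intervalIntegrable_const
  · refine ae_of_all _ fun s hs => ?_
    have hs' := huI hs
    refine ContinuousAt.mul ?_ continuousAt_const
    have h1 : ContinuousAt G (1 + (t - 1) * s ^ 2) :=
      hG.continuousAt (Ioi_mem_nhds (hgt t ⟨hat, by rw [hb]; linarith⟩ s hs'))
    exact ContinuousAt.comp (f := fun x : ℝ => 1 + (x - 1) * s ^ 2) h1 (by fun_prop)

end Param

section Ode

variable {κ : ℝ → ℝ} {R : ℝ}

/-- `∫_t^R κ` -/
def K1 (κ : ℝ → ℝ) (R t : ℝ) : ℝ := ∫ s in t..R, κ s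

theorem hasDerivAt_K1 (hκ : Continuous κ) (t : ℝ) : HasDerivAt (K1 κ R) (-κ t) t :=
  intervalIntegral.integral_hasDerivAt_left (hκ.intervalIntegrable _ _)
    (hκ.stronglyMeasurableAtFilter _ _) hκ.continuousAt

theorem K1_eq_zero (hR : ∀ t, R ≤ t → κ t = 0) {t : ℝ} (ht : R ≤ t) : K1 κ R t = 0 := by
  rw [K1]
  refine intervalIntegral.integral_zero_ae (ae_of_all _ fun s hs => hR s ?_)
  rw [uIoc_of_ge ht] at hs
  exact hs.1.le

theorem contDiff_K1 (hκ : ContDiff ℝ 1 κ) : ContDiff ℝ 2 (K1 κ R) := by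
  have h2 : (2 : WithTop ℕ∞) = 1 + 1 := by norm_num
  rw [h2, contDiff_succ_iff_deriv]
  refine ⟨fun t => (hasDerivAt_K1 hκ.continuous t).differentiableAt, ?_, ?_⟩
  · intro h
    simp at h
  · have : deriv (K1 κ R) = fun t => -κ t := funext fun t => (hasDerivAt_K1 hκ.continuous t).deriv
    rw [this]
    exact hκ.neg

/-- `F` -/
def FF (κ : ℝ → ℝ) (R τ : ℝ) : ℝ := K1 κ R τ / √(1 + τ)

theorem contDiffOn_FF (hκ : ContDiff ℝ 1 κ) : ContDiffOn ℝ 2 (FF κ R) (Ioi (-1)) := by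
  have h1 : ∀ τ : ℝ, τ ∈ Ioi (-1 : ℝ) → (0 : ℝ) < 1 + τ := fun τ hτ => by
    have : -1 < τ := hτ
    linarith
  refine ContDiffOn.div (contDiff_K1 hκ).contDiffOn ?_ fun τ hτ =>
    (Real.sqrt_pos.mpr (h1 τ hτ)).ne'
  exact ContDiffOn.sqrt (by fun_prop) fun τ hτ => (h1 τ hτ).ne'

/-- `J` -/
def JJ (κ : ℝ → ℝ) (R t : ℝ) : ℝ := ∫ s in (0 : ℝ)..1, FF κ R (1 + (t - 1) * s ^ 2) * s ^ 0

/-- `J'` -/
def JJ1 (κ : ℝ → ℝ) (R t : ℝ) : ℝ :=
  ∫ s in (0 : ℝ)..1, deriv (FF κ R) (1 + (t - 1) * s ^ 2) * s ^ (0 + 2)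

/-- `J''` -/
def JJ2 (κ : ℝ → ℝ) (R t : ℝ) : ℝ :=
  ∫ s in (0 : ℝ)..1, deriv (deriv (FF κ R)) (1 + (t - 1) * s ^ 2) * s ^ (0 + 2 + 2)

theorem FF_facts (hκ : ContDiff ℝ 1 κ) :
    (∀ τ, -1 < τ → HasDerivAt (FF κ R) (deriv (FF κ R) τ) τ) ∧
    (∀ τ, -1 < τ → HasDerivAt (deriv (FF κ R)) (deriv (deriv (FF κ R)) τ) τ) ∧
    ContinuousOn (deriv (FF κ R)) (Ioi (-1)) ∧
    ContinuousOn (deriv (deriv (FF κ R))) (Ioi (-1)) := by
  have h := contDiffOn_FF (R := R) hκ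
  have h2 : (2 : WithTop ℕ∞) = 1 + 1 := by norm_num
  rw [h2, contDiffOn_succ_iff_deriv_of_isOpen isOpen_Ioi] at h
  obtain ⟨ha, -, hb⟩ := h
  have h1 : (1 : WithTop ℕ∞) = 0 + 1 := by norm_num
  have hb' := hb
  rw [h1, contDiffOn_succ_iff_deriv_of_isOpen isOpen_Ioi] at hb'
  obtain ⟨hc, -, hd⟩ := hb'
  exact ⟨fun τ hτ => (ha.differentiableAt (Ioi_mem_nhds hτ)).hasDerivAt,
    fun τ hτ => (hc.differentiableAt (Ioi_mem_nhds hτ)).hasDerivAt, hb.continuousOn,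
    hd.continuousOn⟩

theorem hasDerivAt_JJ (hκ : ContDiff ℝ 1 κ) {t : ℝ} (ht : -1 < t) :
    HasDerivAt (JJ κ R) (JJ1 κ R t) t :=
  hasDerivAt_J (FF_facts hκ).1 (FF_facts hκ).2.2.1 0 ht

theorem hasDerivAt_JJ1 (hκ : ContDiff ℝ 1 κ) {t : ℝ} (ht : -1 < t) :
    HasDerivAt (JJ1 κ R) (JJ2 κ R t) t :=
  hasDerivAt_J (FF_facts hκ).2.1 (FF_facts hκ).2.2.2 (0 + 2) ht

theorem continuousOn_JJ2 (hκ : ContDiff ℝ 1 κ) : ContinuousOn (JJ2 κ R) (Ioi (-1)) :=
  continuousOn_J (FF_facts hκ).2.2.2 _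

/-- the key identity -/
theorem JJ_identity (hκ : ContDiff ℝ 1 κ) {t : ℝ} (ht : -1 < t) :
    2 * (t - 1) * JJ1 κ R t + JJ κ R t = FF κ R t := by
  have hgt : ∀ s ∈ Icc (0 : ℝ) 1, -1 < 1 + (t - 1) * s ^ 2 := fun s hs =>
    lt_of_lt_of_le (lt_min (by norm_num) ht) (mem_Icc_of (x := t) hs.1 hs.2).1
  obtain ⟨f1, -, f3, -⟩ := FF_facts (R := R) hκ
  have hcF : ContinuousOn (FF κ R) (Ioi (-1)) := (contDiffOn_FF hκ).continuousOn
  have hder : ∀ s ∈ uIcc (0 : ℝ) 1, HasDerivAt (fun s : ℝ => s * FF κ R (1 + (t - 1) * s ^ 2))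
      (FF κ R (1 + (t - 1) * s ^ 2) * s ^ 0 +
        2 * (t - 1) * (deriv (FF κ R) (1 + (t - 1) * s ^ 2) * s ^ (0 + 2))) s := by
    intro s hs
    rw [uIcc_of_le zero_le_one] at hs
    have h2 : HasDerivAt (fun s : ℝ => 1 + (t - 1) * s ^ 2) ((t - 1) * (2 * s)) s := by
      have := ((hasDerivAt_pow 2 s).const_mul (t - 1)).const_add 1
      simpa using this
    have h3 := (hasDerivAt_id s).mul ((f1 _ (hgt s hs)).comp s h2)
    refine h3.congr_deriv ?_
    simp only [id, Function.comp]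
    ring
  have hi1 : IntervalIntegrable (fun s : ℝ => FF κ R (1 + (t - 1) * s ^ 2) * s ^ 0) volume 0 1 := by
    refine ContinuousOn.intervalIntegrable ?_
    rw [uIcc_of_le zero_le_one]
    exact ContinuousOn.mul (hcF.comp (by fun_prop) fun s hs => hgt s hs) (by fun_prop)
  have hi2 : IntervalIntegrable
      (fun s : ℝ => deriv (FF κ R) (1 + (t - 1) * s ^ 2) * s ^ (0 + 2)) volume 0 1 := by
    refine ContinuousOn.intervalIntegrable ?_
    rw [uIcc_of_le zero_le_one]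
    exact ContinuousOn.mul (f3.comp (by fun_prop) fun s hs => hgt s hs) (by fun_prop)
  have h4 := intervalIntegral.integral_eq_sub_of_hasDerivAt hder
    (hi1.add (hi2.const_mul _))
  rw [intervalIntegral.integral_add hi1 (hi2.const_mul _),
    intervalIntegral.integral_const_mul] at h4
  have h5 : (1 : ℝ) * FF κ R (1 + (t - 1) * 1 ^ 2) - 0 * FF κ R (1 + (t - 1) * 0 ^ 2) =
      FF κ R t := by
    rw [zero_mul, sub_zero, one_mul]
    congr 1
    ring
  rw [h5] at h4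
  rw [← h4, JJ, JJ1]
  ring

/-- the value `∫ A / (8π)`, `A` the Abel transform -/
def hatJ (κ : ℝ → ℝ) (R : ℝ) : ℝ := ∫ v in (0 : ℝ)..√(R - 1), K1 κ R (1 + v ^ 2) / √(2 + v ^ 2)

theorem JJ_eq (hR1 : 1 < R) (hR : ∀ t, R ≤ t → κ t = 0) (hκ : Continuous κ) {t : ℝ}
    (ht : R ≤ t) : √(t - 1) * JJ κ R t = hatJ κ R := by
  have ht1 : 0 < t - 1 := by linarith
  have hc : 0 < √(t - 1) := Real.sqrt_pos.mpr ht1
  have h1 : JJ κ R t = ∫ s in (0 : ℝ)..1,
      (fun v : ℝ => K1 κ R (1 + v ^ 2) / √(2 + v ^ 2)) (√(t - 1) * s) := by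
    rw [JJ]
    refine intervalIntegral.integral_congr fun s _ => ?_
    simp only [FF, pow_zero, mul_one]
    rw [mul_pow, Real.sq_sqrt ht1.le]
    congr 2
    ring
  have hK : Continuous (K1 κ R) := continuous_iff_continuousAt.mpr fun x =>
    (hasDerivAt_K1 hκ x).continuousAt
  have hcont : Continuous fun v : ℝ => K1 κ R (1 + v ^ 2) / √(2 + v ^ 2) := by
    refine Continuous.div (by fun_prop) (by fun_prop) fun v => ?_
    exact (Real.sqrt_pos.mpr (by positivity)).ne'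
  have h0 := intervalIntegral.integral_comp_mul_left (a := 0) (b := 1)
    (fun v : ℝ => K1 κ R (1 + v ^ 2) / √(2 + v ^ 2)) hc.ne'
  rw [h1, h0, mul_zero, mul_one, smul_eq_mul, ← mul_assoc, mul_inv_cancel₀ hc.ne', one_mul, hatJ]
  have h2 : √(R - 1) ≤ √(t - 1) := Real.sqrt_le_sqrt (by linarith)
  rw [← intervalIntegral.integral_add_adjacent_intervals
    (hcont.intervalIntegrable 0 (√(R - 1))) (hcont.intervalIntegrable _ _)]
  have h3 : ∫ v in √(R - 1)..√(t - 1), K1 κ R (1 + v ^ 2) / √(2 + v ^ 2) = 0 := by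
    refine intervalIntegral.integral_zero_ae (ae_of_all _ fun v hv => ?_)
    rw [uIoc_of_le h2] at hv
    have h4 : R ≤ 1 + v ^ 2 := by
      have h5 : √(R - 1) ^ 2 = R - 1 := Real.sq_sqrt (by linarith)
      have h6 : √(R - 1) ^ 2 ≤ v ^ 2 := pow_le_pow_left₀ (Real.sqrt_nonneg _) hv.1.le 2
      linarith
    rw [K1_eq_zero hR h4, zero_div]
  rw [h3, add_zero]

/-- **The solution of the radial equation.** -/
theorem exists_eta (hκ : ContDiff ℝ 1 κ) (hR1 : 1 < R) (hR : ∀ t, R ≤ t → κ t = 0)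
    (h0 : hatJ κ R = 0) : ∃ η η1 η2 : ℝ → ℝ, (∀ t, -1 < t → HasDerivAt η (η1 t) t) ∧
      (∀ t, -1 < t → HasDerivAt η1 (η2 t) t) ∧ ContinuousOn η2 (Ioi (-1)) ∧
      (∀ t, -1 < t → (t ^ 2 - 1) * η2 t + 3 * t * η1 t + η t = κ t) ∧ ∀ t, R ≤ t → η t = 0 := by
  set q : ℝ → ℝ := fun t => √(t + 1) with hq
  have hqpos : ∀ t : ℝ, -1 < t → 0 < q t := fun t ht => Real.sqrt_pos.mpr (by linarith)
  have hq2 : ∀ t : ℝ, -1 < t → q t ^ 2 = t + 1 := fun t ht => Real.sq_sqrt (by linarith)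
  have hqd : ∀ t : ℝ, -1 < t → HasDerivAt q (1 / (2 * q t)) t := by
    intro t ht
    have := ((hasDerivAt_id t).add_const 1).sqrt (by simp; linarith)
    simpa [hq] using this
  set p : ℝ → ℝ := fun t => (q t)⁻¹ with hp
  have hp2 : ∀ t : ℝ, -1 < t → (t + 1) * p t ^ 2 = 1 := fun t ht => by
    have h1 := (hqpos t ht).ne'
    simp only [hp]
    rw [← hq2 t ht]
    field_simp
  have hpd : ∀ t : ℝ, -1 < t → HasDerivAt p (-p t ^ 3 / 2) t := by
    intro t ht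
    have h1 := (hqpos t ht).ne'
    refine ((hqd t ht).inv h1).congr_deriv ?_
    simp only [hp]
    field_simp
  have hpc : ContinuousOn p (Ioi (-1)) := fun t ht =>
    (hpd t ht).continuousAt.continuousWithinAt
  have hFp : ∀ t : ℝ, FF κ R t = K1 κ R t * p t := fun t => by
    rw [FF, div_eq_mul_inv, add_comm]
  let η : ℝ → ℝ := fun t => -2 * (JJ κ R t * p t)
  let η1 : ℝ → ℝ := fun t => -2 * (JJ1 κ R t * p t - JJ κ R t * p t ^ 3 / 2)
  let η2 : ℝ → ℝ := fun t =>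
    -2 * (JJ2 κ R t * p t - JJ1 κ R t * p t ^ 3 + 3 / 4 * JJ κ R t * p t ^ 5)
  have hη : ∀ t, -1 < t → HasDerivAt η (η1 t) t := by
    intro t ht
    refine (((hasDerivAt_JJ hκ ht).mul (hpd t ht)).const_mul (-2)).congr_deriv ?_
    simp only [η1]
    ring
  have hη1 : ∀ t, -1 < t → HasDerivAt η1 (η2 t) t := by
    intro t ht
    have h3 : HasDerivAt (fun t => p t ^ 3) (3 * p t ^ 2 * (-p t ^ 3 / 2)) t := by
      refine ((hpd t ht).pow 3).congr_deriv ?_
      push_cast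
      ring
    refine ((((hasDerivAt_JJ1 hκ ht).mul (hpd t ht)).sub
      (((hasDerivAt_JJ hκ ht).mul h3).div_const 2)).const_mul (-2)).congr_deriv ?_
    simp only [η2]
    ring
  have hode : ∀ t, -1 < t → (t ^ 2 - 1) * η1 t + t * η t = -K1 κ R t := by
    intro t ht
    have h1 := JJ_identity (R := R) hκ ht
    have h2 := hp2 t ht
    rw [hFp] at h1
    simp only [η, η1]
    linear_combination (-(t + 1) * p t) * h1 + ((t - 1) * p t * JJ κ R t - K1 κ R t) * h2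
  refine ⟨η, η1, η2, hη, hη1, ?_, ?_, ?_⟩
  · have hJc : ContinuousOn (JJ κ R) (Ioi (-1)) := fun t ht =>
      (hasDerivAt_JJ hκ ht).continuousAt.continuousWithinAt
    have hJ1c : ContinuousOn (JJ1 κ R) (Ioi (-1)) := fun t ht =>
      (hasDerivAt_JJ1 hκ ht).continuousAt.continuousWithinAt
    have hJ2c := continuousOn_JJ2 (R := R) hκ
    exact continuousOn_const.mul (((hJ2c.mul hpc).sub (hJ1c.mul (hpc.pow 3))).add
      ((continuousOn_const.mul hJc).mul (hpc.pow 5)))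
  · intro t ht
    have h1 : HasDerivAt (fun t => (t ^ 2 - 1) * η1 t + t * η t)
        ((2 * t) * η1 t + (t ^ 2 - 1) * η2 t + (1 * η t + t * η1 t)) t := by
      have h2 : HasDerivAt (fun t : ℝ => t ^ 2 - 1) (2 * t) t := by
        have := (hasDerivAt_pow 2 t).sub_const 1
        simpa using this
      exact (h2.mul (hη1 t ht)).add ((hasDerivAt_id t).mul (hη t ht))
    have h3 : HasDerivAt (fun t => (t ^ 2 - 1) * η1 t + t * η t) (κ t) t := by
      have h4 : HasDerivAt (fun t => -K1 κ R t) (κ t) t := by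
        exact ((hasDerivAt_K1 (R := R) hκ.continuous t).neg).congr_deriv (neg_neg _)
      refine h4.congr_of_eventuallyEq ?_
      filter_upwards [Ioi_mem_nhds ht] with x hx using hode x hx
    have h5 := h1.unique h3
    linear_combination h5
  · intro t ht
    have h1 := JJ_eq hR1 hR hκ.continuous ht
    rw [h0] at h1
    have h2 : √(t - 1) ≠ 0 := (Real.sqrt_pos.mpr (by linarith)).ne'
    have h3 := (mul_eq_zero.mp h1).resolve_left h2
    simp only [η]
    rw [h3]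
    ring

end Ode

end Fermat.Agent.H75Y
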