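import Fermat.Agent.H75Y4

/-!
# Formulas for `hatK` (helper75, package C3)

* `hatK_eq` : `hatK κ = ∫ u, 2π ∫_{t > cosh u} κ t`
* `hatK_eq_arcosh` : `hatK κ = 4π ∫_{t > 1} κ t * arcosh t`
* `hatK_ofReal`, `hatR_pos`.
-/

set_option autoImplicit false

noncomputable section

open MeasureTheory Filter Topology Set
open scoped ContDiff Real

namespace Fermat.Agent.H75Y

open Fermat.Agent Fermat.Agent.H3 Fermat.Agent.H74.C3

/-- The horospherical form of `hatK`, in the variable `y`. -/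
theorem hatK_eq_y {κ : ℝ → ℂ} {R : ℝ} (hκ : Continuous κ) (hR : ∀ t, R ≤ t → κ t = 0) :
    hatK κ = ∫ y in Ioi (0 : ℝ), (2 * π / y) • ∫ t in Ioi ((1 + y ^ 2) / (2 * y)), κ t := by
  have hi : Integrable (fun w' : H3 =>
      (fun (z : ℂ) (y : ℝ) => κ (ch base (pt z y)) * (y : ℂ)) w'.z w'.y) := by
    have h := integrable_ker hκ hR (continuous_of_CC (n := 0) CC_Y) base
    simpa [Y] using h
  have h1 := integral_eq (fun (z : ℂ) (y : ℝ) => κ (ch base (pt z y)) * (y : ℂ)) hi
  have h2 : hatK κ = ∫ w' : H3,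
      (fun (z : ℂ) (y : ℝ) => κ (ch base (pt z y)) * (y : ℂ)) w'.z w'.y := by
    rw [hatK]
    simp
  rw [h2, h1]
  refine setIntegral_congr_fun measurableSet_Ioi fun y hy => ?_
  have hy0 : (0 : ℝ) < y := hy
  have h3 := integral_horo κ base hy0
  simp only [pt_eq hy0]
  rw [integral_mul_const, h3, base_y, one_pow]
  simp only [Complex.real_smul]
  rw [show (2 * 1 * y : ℝ) = 2 * y by ring]
  have : (y : ℂ) ≠ 0 := by exact_mod_cast hy0.ne'
  push_cast
  field_simp

/-- **`hatK` as the integral of the Abel transform.** -/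
theorem hatK_eq {κ : ℝ → ℂ} {R : ℝ} (hκ : Continuous κ) (hR : ∀ t, R ≤ t → κ t = 0) :
    hatK κ = ∫ u : ℝ, (2 * π : ℂ) * ∫ t in Ioi (Real.cosh u), κ t := by
  rw [hatK_eq_y hκ hR]
  have h3 := integral_image_eq_integral_abs_deriv_smul (s := Set.univ) MeasurableSet.univ
    (fun x _ => (Real.hasDerivAt_exp x).hasDerivWithinAt) Real.exp_injective.injOn
    (fun y => (2 * π / y) • ∫ t in Ioi ((1 + y ^ 2) / (2 * y)), κ t)
  rw [Set.image_univ, Real.range_exp, Measure.restrict_univ] at h3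
  rw [h3]
  refine integral_congr_ae (Filter.Eventually.of_forall fun u => ?_)
  have h4 : (1 + Real.exp u ^ 2) / (2 * Real.exp u) = Real.cosh u := by
    have := Real.exp_pos u
    rw [Real.cosh_eq, Real.exp_neg]
    field_simp
    ring
  have h5 : (Real.exp u : ℂ) ≠ 0 := by exact_mod_cast (Real.exp_pos u).ne'
  simp only [abs_of_pos (Real.exp_pos u), h4, Complex.real_smul]
  push_cast at h5 ⊢
  field_simp

theorem integrable_cosh {κ : ℝ → ℂ} {R : ℝ} (hκ : Continuous κ) (hR : ∀ t, R ≤ t → κ t = 0) :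
    Integrable (fun p : ℝ × ℝ => {p : ℝ × ℝ | Real.cosh p.1 < p.2}.indicator (fun p => κ p.2) p) := by
  set R' := max R 1
  have hS : MeasurableSet {p : ℝ × ℝ | Real.cosh p.1 < p.2} :=
    (isOpen_lt (Real.continuous_cosh.comp continuous_fst) continuous_snd).measurableSet
  rw [integrable_indicator_iff hS]
  have hsub : ∀ p : ℝ × ℝ, Real.cosh p.1 < p.2 → p ∉ Icc (-(2 * R')) (2 * R') ×ˢ Icc 1 R' →
      κ p.2 = 0 := by
    intro p hp hn
    by_contra hne
    apply hn
    have h1 : p.2 < R' := by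
      by_contra h
      exact hne (hR _ ((le_max_left _ _).trans (not_lt.mp h)))
    have h2 : |p.1| < 2 * R' := by
      have h3 : Real.exp |p.1| / 2 < Real.cosh p.1 := by
        rw [← Real.cosh_abs, Real.cosh_eq]
        have := Real.exp_pos (-|p.1|)
        linarith
      have h4 := Real.add_one_le_exp |p.1|
      linarith
    rw [abs_lt] at h2
    exact ⟨⟨h2.1.le, h2.2.le⟩, (Real.one_le_cosh _).trans hp.le, h1.le⟩
  have hc : IntegrableOn (fun p : ℝ × ℝ => κ p.2) (Icc (-(2 * R')) (2 * R') ×ˢ Icc 1 R') :=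
    (hκ.comp continuous_snd).continuousOn.integrableOn_compact (isCompact_Icc.prod isCompact_Icc)
  have h6 : Integrable ((Icc (-(2 * R')) (2 * R') ×ˢ Icc 1 R').indicator
      (fun p : ℝ × ℝ => κ p.2)) :=
    (integrable_indicator_iff (measurableSet_Icc.prod measurableSet_Icc)).mpr hc
  refine (h6.integrableOn (s := {p : ℝ × ℝ | Real.cosh p.1 < p.2})).congr_fun ?_ hS
  intro p hp
  by_cases h : p ∈ Icc (-(2 * R')) (2 * R') ×ˢ Icc 1 R'
  · exact indicator_of_mem h _
  · rw [indicator_of_notMem h]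
    exact (hsub p hp h).symm

/-- **`hatK κ = 4π ∫ κ t arcosh t dt`.** -/
theorem hatK_eq_arcosh {κ : ℝ → ℂ} {R : ℝ} (hκ : Continuous κ) (hR : ∀ t, R ≤ t → κ t = 0) :
    hatK κ = (4 * π : ℂ) * ∫ t in Ioi (1 : ℝ), κ t * (Real.arcosh t : ℂ) := by
  rw [hatK_eq hκ hR, integral_const_mul]
  have h1 : (∫ u : ℝ, ∫ t in Ioi (Real.cosh u), κ t) = ∫ u : ℝ, ∫ t : ℝ,
      {p : ℝ × ℝ | Real.cosh p.1 < p.2}.indicator (fun p => κ p.2) (u, t) := by
    refine integral_congr_ae (Filter.Eventually.of_forall fun u => ?_)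
    simp only
    rw [← integral_indicator measurableSet_Ioi]
    rfl
  have h2 := integral_integral_swap (f := fun u t =>
    {p : ℝ × ℝ | Real.cosh p.1 < p.2}.indicator (fun p => κ p.2) (u, t)) (integrable_cosh hκ hR)
  rw [h1, h2]
  have h3 : ∀ t : ℝ, (∫ u : ℝ, {p : ℝ × ℝ | Real.cosh p.1 < p.2}.indicator
      (fun p => κ p.2) (u, t)) = (Ioi (1 : ℝ)).indicator (fun t => 2 * (κ t * Real.arcosh t)) t := by
    intro t
    by_cases ht : 1 < t
    · have ht' : t ∈ Ioi (1 : ℝ) := ht
      rw [indicator_of_mem ht']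
      have hS : ∀ u : ℝ, {p : ℝ × ℝ | Real.cosh p.1 < p.2}.indicator (fun p => κ p.2) (u, t) =
          (Ioo (-Real.arcosh t) (Real.arcosh t)).indicator (fun _ => κ t) u := by
        intro u
        have hiff : (Real.cosh u < t) ↔ u ∈ Ioo (-Real.arcosh t) (Real.arcosh t) := by
          rw [mem_Ioo, ← abs_lt]
          conv_lhs => rw [← Real.cosh_arcosh ht.le]
          rw [Real.cosh_lt_cosh, abs_of_nonneg (Real.arcosh_nonneg ht.le)]
        by_cases hu : Real.cosh u < t
        · rw [indicator_of_mem (show (u, t) ∈ {p : ℝ × ℝ | Real.cosh p.1 < p.2} from hu),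
            indicator_of_mem (hiff.mp hu)]
        · rw [indicator_of_notMem (show (u, t) ∉ {p : ℝ × ℝ | Real.cosh p.1 < p.2} from hu),
            indicator_of_notMem fun h => hu (hiff.mpr h)]
      simp only [hS]
      rw [integral_indicator measurableSet_Ioo, setIntegral_const, Measure.real, Real.volume_Ioo,
        ENNReal.toReal_ofReal (by linarith [Real.arcosh_nonneg ht.le]), Complex.real_smul]
      push_cast
      ring
    · have ht' : t ∉ Ioi (1 : ℝ) := ht
      rw [indicator_of_notMem ht']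
      have hS : ∀ u : ℝ, {p : ℝ × ℝ | Real.cosh p.1 < p.2}.indicator (fun p => κ p.2) (u, t) =
          0 := by
        intro u
        apply indicator_of_notMem
        intro h
        exact ht ((Real.one_le_cosh u).trans_lt h)
      simp only [hS, integral_zero]
  simp only [h3]
  rw [integral_indicator measurableSet_Ioi, integral_const_mul]
  ring

/-! ### Real kernels -/

/-- `hatK` of a real kernel. -/
def hatR (κ : ℝ → ℝ) : ℝ := ∫ w' : H3, κ (ch base w') * w'.y

theorem hatK_ofReal (κ : ℝ → ℝ) : hatK (fun t => (κ t : ℂ)) = (hatR κ : ℂ) := by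
  rw [hatK, hatR, ← integral_complex_ofReal]
  refine integral_congr_ae (Filter.Eventually.of_forall fun w' => ?_)
  simp

theorem hatR_nonneg {κ : ℝ → ℝ} (h0 : ∀ t, 1 ≤ t → 0 ≤ κ t) : 0 ≤ hatR κ :=
  integral_nonneg fun w' => mul_nonneg (h0 _ (one_le_ch _ _)) w'.pos.le

theorem volume_ne_zero_of_isOpen {V : Set H3} (hV : IsOpen V) (hne : V.Nonempty) :
    (volume : Measure H3) V ≠ 0 := by
  rw [volume_def, Measure.map_apply coord.symm.continuous.measurable hV.measurableSet]
  have h1 : IsOpen (coord.symm ⁻¹' V) := hV.preimage coord.symm.continuous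
  have h2 : (coord.symm ⁻¹' V).Nonempty := by
    obtain ⟨v, hv⟩ := hne
    exact ⟨coord v, by rwa [mem_preimage, Homeomorph.symm_apply_apply]⟩
  have : (volume : Measure (ℂ × ℝ)).IsOpenPosMeasure := by
    rw [Measure.volume_eq_prod]
    infer_instance
  exact (h1.measure_pos volume h2).ne'

theorem hatR_pos {κ : ℝ → ℝ} {R : ℝ} (hκ : Continuous κ) (hR : ∀ t, R ≤ t → κ t = 0)
    (h0 : ∀ t, 1 ≤ t → 0 ≤ κ t) {t₀ : ℝ} (ht₀ : 1 ≤ t₀) (h1 : 0 < κ t₀) : 0 < hatR κ := by
  have hc : Continuous fun w' : H3 => κ (ch base w') * w'.y :=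
    (hκ.comp (continuous_ch_right base)).mul continuous_y
  have hi : Integrable fun w' : H3 => κ (ch base w') * w'.y :=
    integrable_of_ch hc base (R := R) fun w' h => by rw [hR _ h, zero_mul]
  rw [hatR, integral_pos_iff_support_of_nonneg
    (fun w' => mul_nonneg (h0 _ (one_le_ch _ _)) w'.pos.le) hi]
  refine pos_iff_ne_zero.mpr (volume_ne_zero_of_isOpen ?_ ?_)
  · exact isOpen_ne_fun hc continuous_const
  · have hy : 0 < Real.exp (Real.arcosh t₀) := Real.exp_pos _
    refine ⟨⟨0, Real.exp (Real.arcosh t₀), hy⟩, ?_⟩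
    have h2 : ch base ⟨0, Real.exp (Real.arcosh t₀), hy⟩ = t₀ := by
      have h3 := Real.cosh_arcosh ht₀
      rw [Real.cosh_eq, Real.exp_neg] at h3
      conv_rhs => rw [← h3]
      simp only [ch, base_z, base_y, sub_self, map_zero]
      field_simp
      ring
    rw [Function.mem_support, h2]
    exact (mul_pos h1 hy).ne'

end Fermat.Agent.H75Y
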