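import Fermat.Agent.H75Y4
import Fermat.Agent.H9ZRad

/-!
# Forward theorem: glue with `H9Z`, several variables, convergent sums (helper75, package C3)

* `eig1_of_Lap` : `F` of class `C²`, `Lap F = -F` ⟹ `H9Z.Eig1 F`
* `Rk_eq_of_Lap` : the same on `ι → H3`, all kernels `H9Z.Ker`
* `continuous_tsum_loc`, `hasSum_Rk`, `Rk_tsum_eq` : locally uniformly absolutely convergent sums.
-/

set_option autoImplicit false
set_option linter.unusedSectionVars false

noncomputable section

open MeasureTheory Filter Topology Set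

namespace Fermat.Agent.H75Y

open Fermat.Agent Fermat.Agent.H3 Fermat.Agent.H74.C3
open Fermat.Agent.H9Z (Eig1 Ker1 R1 hat1 Ker hat pball isCompact_pball one_le_chv)
open Fermat.Agent.H5Z (chv Rk)

theorem hat1_eq_hatK (k : ℝ → ℂ) : hat1 k = hatK k := rfl

/-- **One variable.** -/
theorem eig1_of_Lap {F : H3 → ℂ} (hF : CC 2 F) (hL : ∀ w, Lap F w = -F w) : Eig1 F := by
  intro k hk x
  obtain ⟨T, hT⟩ := hk.supp
  refine forward' (R := max T 1 + 1) hk.cont (fun t ht => hT t ?_ ?_) hF hL x
  · linarith [le_max_right T 1]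
  · linarith [le_max_left T 1]

section several

variable {ι : Type*} [Fintype ι]

/-- **Several variables, all kernels.** -/
theorem Rk_eq_of_Lap [DecidableEq ι] {Φ : (ι → H3) → ℂ} (hΦ : Continuous Φ)
    (h2 : ∀ (j : ι) (w : ι → H3), CC 2 (fun u => Φ (Function.update w j u)))
    (hL : ∀ (j : ι) (w : ι → H3), Lap (fun u => Φ (Function.update w j u)) (w j) = -Φ w)
    {κ : (ι → ℝ) → ℂ} (hκ : Ker κ) (w : ι → H3) : Rk κ Φ w = hat κ * Φ w := by
  refine H9Z.R_eq_hat_mul hΦ (fun j w => ?_) hκ w
  exact eig1_of_Lap (h2 j w) (fun u => by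
    have h := hL j (Function.update w j u)
    simp only [Function.update_idem, Function.update_self] at h
    exact h)

variable {I : Type*} {Φ : I → (ι → H3) → ℂ}

/-- Locally uniform absolute convergence. -/
def LocSum (Φ : I → (ι → H3) → ℂ) : Prop :=
  ∀ K : Set (ι → H3), IsCompact K → ∃ u : I → ℝ, Summable u ∧ ∀ i, ∀ w ∈ K, ‖Φ i w‖ ≤ u i

theorem LocSum.summable (hs : LocSum Φ) (w : ι → H3) : Summable fun i => Φ i w := by
  obtain ⟨u, hu, h⟩ := hs {w} isCompact_singleton
  exact Summable.of_norm_bounded hu fun i => h i w rfl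

theorem continuous_tsum_loc (hc : ∀ i, Continuous (Φ i)) (hs : LocSum Φ) :
    Continuous (fun w => ∑' i, Φ i w) := by
  rw [continuous_iff_continuousAt]
  intro w
  obtain ⟨K, hK, hwK⟩ := exists_compact_mem_nhds w
  obtain ⟨u, hu, h⟩ := hs K hK
  exact (continuousOn_tsum (fun i => (hc i).continuousOn) hu fun i w hw => h i w hw).continuousAt
    hwK

theorem hasSum_Rk [Countable I] (hc : ∀ i, Continuous (Φ i)) (hs : LocSum Φ)
    {κ : (ι → ℝ) → ℂ} (hκ : Ker κ) (w : ι → H3) :
    HasSum (fun i => Rk κ (Φ i) w) (Rk κ (fun w => ∑' i, Φ i w) w) := by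
  obtain ⟨T, hT⟩ := hκ.supp
  obtain ⟨u, hu, h⟩ := hs (pball w T) (isCompact_pball w T)
  have hi : ∀ i, Integrable (fun w' => κ (chv w w') * Φ i w') := fun i =>
    hκ.integrable w (hc i).locallyIntegrable
  have hκi : Integrable (fun w' => κ (chv w w')) :=
    (hκ.continuous_right w).integrable_of_hasCompactSupport (hκ.hasCompactSupport w)
  have key := hasSum_integral_of_summable_integral_norm hi (by
    refine Summable.of_nonneg_of_le (fun i => integral_nonneg fun w' => norm_nonneg _)
      (fun i => ?_) (hu.mul_right (∫ w', ‖κ (chv w w')‖))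
    rw [← integral_const_mul]
    refine integral_mono (hi i).norm (hκi.norm.const_mul _) fun w' => ?_
    simp only [norm_mul]
    by_cases hw' : w' ∈ pball w T
    · rw [mul_comm (u i)]
      exact mul_le_mul_of_nonneg_left (h i w' hw') (norm_nonneg _)
    · have : κ (chv w w') = 0 := by
        refine hT _ (one_le_chv _ _) ?_
        simpa [pball] using hw'
      simp [this])
  simp only [tsum_mul_left] at key
  exact key

/-- Sums of eigenfunctions are eigenfunctions. -/
theorem Rk_tsum_eq [Countable I] (hc : ∀ i, Continuous (Φ i)) (hs : LocSum Φ)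
    {κ : (ι → ℝ) → ℂ} (hκ : Ker κ) (w : ι → H3) {c : ℂ} (he : ∀ i, Rk κ (Φ i) w = c * Φ i w) :
    Rk κ (fun w => ∑' i, Φ i w) w = c * ∑' i, Φ i w := by
  have h1 := (hasSum_Rk hc hs hκ w).tsum_eq
  simp only [he, tsum_mul_left] at h1
  exact h1.symm

end several

end Fermat.Agent.H75Y
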