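import Fermat.Agent.H76Regroup
import Mathlib.NumberTheory.LSeries.RiemannZeta
import Mathlib.Analysis.SumIntegralComparisons
set_option autoImplicit false
set_option maxSynthPendingDepth 3

/-! # Boundedness of the class group L-function near `s = 1` (helper76, for S14) -/

namespace Fermat.Agent.H76

open NumberField NumberField.mixedEmbedding NumberField.Units
  NumberField.Units.dirichletUnitTheorem Module NumberField.InfinitePlace Ideal nonZeroDivisors
  Filter Topology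

/-! ## the pole of the full sum -/

lemma summable_one_div_rpow {x : ℝ} (hx : 1 < x) : Summable fun k : ℕ => 1 / (k : ℝ) ^ x :=
  Real.summable_one_div_nat_rpow.mpr hx

lemma tsum_one_div_rpow_anti {x y : ℝ} (hx : 1 < x) (hxy : x ≤ y) :
    ∑' k : ℕ, 1 / (k : ℝ) ^ y ≤ ∑' k : ℕ, 1 / (k : ℝ) ^ x := by
  refine (summable_one_div_rpow (hx.trans_le hxy)).tsum_le_tsum (fun k => ?_) (summable_one_div_rpow hx)
  rcases Nat.eq_zero_or_pos k with rfl | hk
  · rw [Nat.cast_zero, Real.zero_rpow (by linarith), Real.zero_rpow (by linarith)]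
  · have hk1 : (1 : ℝ) ≤ k := by exact_mod_cast hk
    have hkp : (0 : ℝ) < k := by linarith
    exact one_div_le_one_div_of_le (Real.rpow_pos_of_pos hkp _)
      (Real.rpow_le_rpow_of_exponent_le hk1 hxy)

lemma exists_tsum_one_div_rpow_le (R : ℝ) : ∃ C : ℝ, 0 ≤ C ∧ ∀ x : ℝ, 1 < x → x ≤ R →
    (x - 1) * ∑' k : ℕ, 1 / (k : ℝ) ^ x ≤ C := by
  have h1 : ∀ᶠ x in 𝓝[>] (1 : ℝ), (x - 1) * ∑' (n : ℕ), 1 / (n : ℝ) ^ x ≤ 2 :=
    tendsto_sub_mul_tsum_nat_rpow.eventually_le_const (by norm_num)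
  obtain ⟨δ, hδ, hδ2⟩ := (mem_nhdsGT_iff_exists_Ioc_subset).mp h1
  have hδ1 : 1 < δ := hδ
  set B := ∑' k : ℕ, 1 / (k : ℝ) ^ δ with hB
  have hB0 : 0 ≤ B := tsum_nonneg fun k => by positivity
  refine ⟨2 + |R| * B, by positivity, fun x hx1 hx2 => ?_⟩
  by_cases hx : x ≤ δ
  · have : (x - 1) * ∑' (n : ℕ), 1 / (n : ℝ) ^ x ≤ 2 := hδ2 ⟨hx1, hx⟩
    have h2 : 0 ≤ |R| * B := by positivity
    linarith
  · have h3 := tsum_one_div_rpow_anti hδ1 (not_le.mp hx).le
    have h4 : x - 1 ≤ |R| := by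
      have := le_abs_self R
      linarith
    calc (x - 1) * ∑' k : ℕ, 1 / (k : ℝ) ^ x ≤ |R| * B := by
          gcongr
      _ ≤ _ := by linarith

open scoped Classical

variable {K : Type*} [Field K] [NumberField K]

variable (K) in
lemma exists_sum_wt_le : ∃ C : ℝ, 0 ≤ C ∧ ∀ s : ℝ, 1 < s ∧ s ≤ 2 →
    (s - 1) * ∑' β : 𝓞 K, wt s (emb β) ≤ C := by
  have hn : (0 : ℝ) < finrank ℚ K := Nat.cast_pos.mpr finrank_pos
  set n : ℝ := ((finrank ℚ K : ℕ) : ℝ) with hndef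
  obtain ⟨C, hC0, hC⟩ := exists_tsum_one_div_rpow_le (1 + n)
  set A := ZLattice.tsumNormRPowBound (mixedEmbedding.integerLattice K) with hA
  have hA0 : 0 < A := ZLattice.tsumNormRPowBound_pos _
  have hρ := rho_pos K
  -- continuity bounds
  have hbd : ∃ B : ℝ, 0 ≤ B ∧ ∀ s : ℝ, 1 < s ∧ s ≤ 2 →
      rho K ^ (-(n * s)) * A ^ (-(n * s)) ≤ B := by
    have hc : Continuous fun s : ℝ => rho K ^ (-(n * s)) * A ^ (-(n * s)) := by
      refine Continuous.mul ?_ ?_
      · exact Continuous.rpow continuous_const (by fun_prop) (fun s => Or.inl hρ.ne')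
      · exact Continuous.rpow continuous_const (by fun_prop) (fun s => Or.inl hA0.ne')
    obtain ⟨B, hB⟩ := (isCompact_Icc (a := (1 : ℝ)) (b := 2)).exists_bound_of_continuousOn
      hc.continuousOn
    refine ⟨|B|, abs_nonneg _, fun s hs => ?_⟩
    have := hB s ⟨hs.1.le, hs.2⟩
    exact (le_abs_self _).trans (this.trans (le_abs_self _))
  obtain ⟨B, hB0, hB⟩ := hbd
  refine ⟨B * (C / n), by positivity, fun s hs => ?_⟩
  have hs1 : 0 < s - 1 := by linarith [hs.1]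
  have h1 : ∑' β : 𝓞 K, wt s (emb β) ≤ rho K ^ (-(n * s)) * ∑' β : 𝓞 K, ‖emb β‖ ^ (-(n * s)) := by
    rw [← tsum_mul_left]
    exact (summable_wt_emb hs.1).tsum_le_tsum (fun β => wt_emb_le hs.1.le β)
      ((summable_norm_emb_rpow hs.1).mul_left _)
  have h2 : ∑' β : 𝓞 K, ‖emb β‖ ^ (-(n * s)) =
      ∑' z : mixedEmbedding.integerLattice K, ‖z‖ ^ (-(n * s)) :=
    (latEquiv K).tsum_eq (fun z : mixedEmbedding.integerLattice K => ‖z‖ ^ (-(n * s)))
  have h3 := ZLattice.tsum_norm_rpow_le (mixedEmbedding.integerLattice K) (-(n * s))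
    (by rw [finrank_integerLattice]; nlinarith)
  have h4 : ∑' k : ℕ, (k : ℝ) ^ ((finrank ℤ (mixedEmbedding.integerLattice K) : ℝ) - 1 + -(n * s)) =
      ∑' k : ℕ, 1 / (k : ℝ) ^ (1 + n * (s - 1)) := by
    congr 1
    funext k
    rw [finrank_integerLattice, ← hndef]
    have : n - 1 + -(n * s) = -(1 + n * (s - 1)) := by ring
    rw [this, Real.rpow_neg (Nat.cast_nonneg k), one_div]
  rw [h4] at h3
  have h5 := hC (1 + n * (s - 1)) (by nlinarith) (by nlinarith [hs.2])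
  have h6 : (s - 1) * ∑' k : ℕ, 1 / (k : ℝ) ^ (1 + n * (s - 1)) ≤ C / n := by
    rw [le_div_iff₀ hn]
    calc _ = (1 + n * (s - 1) - 1) * ∑' k : ℕ, 1 / (k : ℝ) ^ (1 + n * (s - 1)) := by ring
      _ ≤ C := h5
  calc (s - 1) * ∑' β : 𝓞 K, wt s (emb β)
      ≤ (s - 1) * (rho K ^ (-(n * s)) * (A ^ (-(n * s)) * ∑' k : ℕ, 1 / (k : ℝ) ^ (1 + n * (s - 1)))) := by
        gcongr
        refine h1.trans ?_
        gcongr
        rw [h2]
        exact h3
    _ = (rho K ^ (-(n * s)) * A ^ (-(n * s))) *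
        ((s - 1) * ∑' k : ℕ, 1 / (k : ℝ) ^ (1 + n * (s - 1))) := by ring
    _ ≤ B * (C / n) := by
        have h7 : 0 ≤ (s - 1) * ∑' k : ℕ, 1 / (k : ℝ) ^ (1 + n * (s - 1)) :=
          mul_nonneg hs1.le (tsum_nonneg fun k => by positivity)
        exact mul_le_mul (hB s hs) h6 h7 hB0

/-! ## comparing classes -/

/-- the partial zeta function of the inverse class of `J` -/
noncomputable def pz (J : (Ideal (𝓞 K))⁰) (s : ℝ) : ℝ :=
  (absNorm (J : Ideal (𝓞 K)) : ℝ) ^ s * (torsionOrder K : ℝ)⁻¹ *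
        ∑' β : (J : Ideal (𝓞 K)), wt s (emb (β : 𝓞 K))

lemma hasSum_indicator (J : (Ideal (𝓞 K))⁰) {s : ℝ} (hs : 1 < s) :
    HasSum ({I : (Ideal (𝓞 K))⁰ | ClassGroup.mk0 I * ClassGroup.mk0 J = 1}.indicator
      (fun I : (Ideal (𝓞 K))⁰ => (absNorm (I : Ideal (𝓞 K)) : ℝ) ^ (-s))) (pz J s) := by
  rw [← hasSum_subtype_iff_indicator]
  exact hasSum_invClass (J := J) hs

lemma exists_pz_bound (J : (Ideal (𝓞 K))⁰) : ∃ C : ℝ, 0 ≤ C ∧ ∀ s : ℝ, 1 < s ∧ s ≤ 2 →
    |pz J s - (torsionOrder K : ℝ)⁻¹ * ∑' β : 𝓞 K, wt s (emb β)| ≤ C := by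
  obtain ⟨C, hC0, hC⟩ := exists_coset_bound J
  obtain ⟨D, hD0, hD⟩ := exists_sum_wt_le K
  have hw := torsionOrder_pos K
  have hN := absNorm_pos J
  have hN1 : (1 : ℝ) ≤ absNorm (J : Ideal (𝓞 K)) := by
    have : absNorm (J : Ideal (𝓞 K)) ≠ 0 := by
      intro h; rw [h] at hN; simp at hN
    exact_mod_cast Nat.one_le_iff_ne_zero.mpr this
  set N : ℝ := ((absNorm (J : Ideal (𝓞 K)) : ℕ) : ℝ) with hNdef
  have hlogN : 0 ≤ Real.log N := Real.log_nonneg hN1
  refine ⟨(torsionOrder K : ℝ)⁻¹ * (N * Real.log N * (D + C) + C), by positivity, fun s hs => ?_⟩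
  have hs1 : 0 < s - 1 := by linarith [hs.1]
  have h1 := hC s hs
  have h2 := hD s hs
  set S := ∑' β : 𝓞 K, wt s (emb β) with hS
  set T := ∑' β : (J : Ideal (𝓞 K)), wt s (emb (β : 𝓞 K)) with hT
  have hT0 : 0 ≤ T := tsum_nonneg fun β => wt_nonneg _ _
  have h3 : pz J s - (torsionOrder K : ℝ)⁻¹ * S =
      (torsionOrder K : ℝ)⁻¹ * ((N ^ s - N) * T - (S - N * T)) := by
    rw [pz]; ring
  -- N^s - N ≤ N * N * log N * (s-1)
  have h4 : N ^ s - N ≤ N * (N * (Real.log N * (s - 1))) := by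
    have h5 : N ^ s = N * N ^ (s - 1) := by
      rw [← Real.rpow_one_add' hN.le (by linarith)]
      ring_nf
    have h6 : N ^ (s - 1) ≤ N := by
      calc N ^ (s - 1) ≤ N ^ (1 : ℝ) := Real.rpow_le_rpow_of_exponent_le hN1 (by linarith [hs.2])
        _ = N := Real.rpow_one N
    have h7 : N ^ (s - 1) * (1 - Real.log N * (s - 1)) ≤ 1 := by
      have h8 : 1 - Real.log N * (s - 1) ≤ Real.exp (-(Real.log N * (s - 1))) := by
        have := Real.add_one_le_exp (-(Real.log N * (s - 1)))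
        linarith
      calc N ^ (s - 1) * (1 - Real.log N * (s - 1)) ≤
            N ^ (s - 1) * Real.exp (-(Real.log N * (s - 1))) := by gcongr
        _ = 1 := by rw [Real.rpow_def_of_pos hN, ← Real.exp_add]; simp
    have h9 : N ^ (s - 1) - 1 ≤ N * (Real.log N * (s - 1)) := by
      have h10 : N ^ (s - 1) * (Real.log N * (s - 1)) ≤ N * (Real.log N * (s - 1)) := by
        gcongr
      nlinarith
    calc N ^ s - N = N * (N ^ (s - 1) - 1) := by rw [h5]; ring
      _ ≤ _ := by gcongr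
  have h5 : 0 ≤ N ^ s - N := by
    have : N ^ (1 : ℝ) ≤ N ^ s := Real.rpow_le_rpow_of_exponent_le hN1 hs.1.le
    rw [Real.rpow_one] at this
    linarith
  have h6 : N * T ≤ S + C := by
    have := (abs_le.mp h1).1
    linarith
  have h7 : (N ^ s - N) * T ≤ N * Real.log N * (D + C) := by
    calc (N ^ s - N) * T ≤ (N * (N * (Real.log N * (s - 1)))) * T := by gcongr
      _ = N * Real.log N * ((s - 1) * (N * T)) := by ring
      _ ≤ N * Real.log N * (D + C) := by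
          gcongr
          calc (s - 1) * (N * T) ≤ (s - 1) * (S + C) := by gcongr
            _ = (s - 1) * S + (s - 1) * C := by ring
            _ ≤ D + 1 * C := by
                gcongr
                linarith [hs.2]
            _ = D + C := by ring
  rw [h3, abs_mul, abs_of_pos (inv_pos.mpr hw)]
  gcongr
  refine (abs_sub _ _).trans ?_
  rw [abs_of_nonneg (mul_nonneg h5 hT0)]
  gcongr

end Fermat.Agent.H76
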