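import Mathlib.RingTheory.Filtration
import Mathlib.RingTheory.UniqueFactorizationDomain.GCDMonoid
import Mathlib.RingTheory.LocalRing.MaximalIdeal.Basic
import Mathlib.Tactic
set_option autoImplicit false

/-! # Descent of principal colon ideals along completions (helper76, for S26-J1) -/

namespace Fermat.Agent.H76

open IsLocalRing

section krull

variable {R : Type*} [CommRing R] [IsLocalRing R] [IsNoetherianRing R]

/-- Krull intersection for an ideal -/
lemma mem_of_forall_mem_sup_pow {J : Ideal R} {x : R}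
    (h : ∀ k : ℕ, x ∈ J ⊔ maximalIdeal R ^ k) : x ∈ J := by
  have h1 := Ideal.iInf_pow_smul_eq_bot_of_isLocalRing (M := R ⧸ J) (maximalIdeal R)
    (Ideal.IsPrime.ne_top inferInstance)
  rw [← Ideal.Quotient.eq_zero_iff_mem, ← Submodule.mem_bot R, ← h1, Submodule.mem_iInf]
  intro k
  obtain ⟨y, hy, z, hz, hyz⟩ := Submodule.mem_sup.mp (h k)
  have hmk : ∀ s t : R, s • Ideal.Quotient.mk J t = Ideal.Quotient.mk J (s * t) := fun s t => rfl
  have h2 : Ideal.Quotient.mk J x = z • (Ideal.Quotient.mk J 1) := by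
    rw [hmk, mul_one, ← hyz, map_add, Ideal.Quotient.eq_zero_iff_mem.mpr hy, zero_add]
  rw [h2]
  exact Submodule.smul_mem_smul hz trivial

lemma eq_zero_of_forall_mem_pow {x : R} (h : ∀ k : ℕ, x ∈ maximalIdeal R ^ k) : x = 0 := by
  have : x ∈ (⊥ : Ideal R) := mem_of_forall_mem_sup_pow (fun k => by
    rw [bot_sup_eq]; exact h k)
  simpa using this

/-- Artin–Rees for colon ideals -/
lemma exists_artinRees (a b : R) : ∃ k : ℕ, ∀ N : ℕ, ∀ r : R,
    (∃ u : R, r * a - b * u ∈ maximalIdeal R ^ (N + k)) →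
    ∃ r' ∈ maximalIdeal R ^ N, b ∣ (r - r') * a := by
  set J : Ideal R := Ideal.span {b} with hJ
  set P : Submodule R (R ⧸ J) := Submodule.span R {Ideal.Quotient.mk J a} with hP
  obtain ⟨k, hk⟩ := Ideal.exists_pow_inf_eq_pow_smul (I := maximalIdeal R) (M := R ⧸ J) P
  refine ⟨k, fun N r hr => ?_⟩
  obtain ⟨u, hu⟩ := hr
  have h1 : r • Ideal.Quotient.mk J a ∈ P := Submodule.smul_mem _ _ (Submodule.mem_span_singleton_self _)
  have hmk : ∀ s t : R, s • Ideal.Quotient.mk J t = Ideal.Quotient.mk J (s * t) := fun s t => rfl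
  have h2 : r • Ideal.Quotient.mk J a ∈ (maximalIdeal R ^ (N + k) • ⊤ : Submodule R (R ⧸ J)) := by
    have h3 : r • Ideal.Quotient.mk J a = (r * a - b * u) • Ideal.Quotient.mk J 1 := by
      rw [hmk, hmk, mul_one, map_sub]
      have : Ideal.Quotient.mk J (b * u) = 0 := by
        rw [Ideal.Quotient.eq_zero_iff_mem]
        exact Ideal.mul_mem_right _ _ (Ideal.mem_span_singleton_self b)
      rw [this, sub_zero]
    rw [h3]
    exact Submodule.smul_mem_smul hu trivial
  have h3 := hk (N + k) (by omega)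
  have h4 : r • Ideal.Quotient.mk J a ∈ (maximalIdeal R ^ (N + k) • ⊤ ⊓ P : Submodule R (R ⧸ J)) :=
    ⟨h2, h1⟩
  rw [h3, Nat.add_sub_cancel] at h4
  have h5 : r • Ideal.Quotient.mk J a ∈ (maximalIdeal R ^ N • P : Submodule R (R ⧸ J)) :=
    Submodule.smul_mono le_rfl inf_le_right h4
  rw [hP, Submodule.mem_smul_span_singleton] at h5
  obtain ⟨r', hr', heq⟩ := h5
  refine ⟨r', hr', ?_⟩
  rw [hmk, hmk] at heq
  have h6 : (r - r') * a ∈ J := by
    rw [← Ideal.Quotient.eq_zero_iff_mem, sub_mul, map_sub, heq, sub_self]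
  exact Ideal.mem_span_singleton.mp h6

end krull

/-- the colon ideal -/
def colonIdeal {R : Type*} [CommRing R] (a b : R) : Ideal R where
  carrier := {c | b ∣ c * a}
  add_mem' {x y} hx hy := by
    change b ∣ (x + y) * a
    rw [add_mul]; exact dvd_add hx hy
  zero_mem' := by change b ∣ 0 * a; rw [zero_mul]; exact dvd_zero b
  smul_mem' c x hx := by
    change b ∣ c * x * a
    rw [mul_assoc]; exact Dvd.dvd.mul_left hx c

lemma mem_colonIdeal {R : Type*} [CommRing R] {a b c : R} : c ∈ colonIdeal a b ↔ b ∣ c * a := Iff.rfl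

section descent

variable {R S : Type*} [CommRing R] [IsLocalRing R] [IsNoetherianRing R]
  [CommRing S] [IsDomain S] [IsLocalRing S] [IsNoetherianRing S] (φ : R →+* S)
  (h1 : ∀ (k : ℕ) (x : R), x ∈ maximalIdeal R ^ k → φ x ∈ maximalIdeal S ^ k)
  (h2 : ∀ (k : ℕ) (x : R), φ x ∈ maximalIdeal S ^ k → x ∈ maximalIdeal R ^ k)
  (h3 : ∀ (k : ℕ) (s : S), ∃ r : R, s - φ r ∈ maximalIdeal S ^ k)

include h1 h2 h3 in
lemma mem_map_colonIdeal (a b : R) (D : S) (hD : φ b ∣ D * φ a) :
    D ∈ (colonIdeal a b).map φ := by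
  obtain ⟨k, hk⟩ := exists_artinRees a b
  obtain ⟨t, ht⟩ := hD
  apply mem_of_forall_mem_sup_pow
  intro N
  obtain ⟨r, hr⟩ := h3 (N + k) D
  obtain ⟨u, hu⟩ := h3 (N + k) t
  have h4 : φ (r * a - b * u) ∈ maximalIdeal S ^ (N + k) := by
    have : φ (r * a - b * u) = φ b * (t - φ u) - (D - φ r) * φ a := by
      rw [map_sub, map_mul, map_mul]
      linear_combination ht
    rw [this]
    exact Ideal.sub_mem _ (Ideal.mul_mem_left _ _ hu) (Ideal.mul_mem_right _ _ hr)
  obtain ⟨r', hr', hdvd⟩ := hk N r ⟨u, h2 _ _ h4⟩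
  have h5 : D = φ (r - r') + (φ r' + (D - φ r)) := by
    rw [map_sub]; ring
  rw [h5]
  refine Ideal.add_mem _ (Ideal.mem_sup_left (Ideal.mem_map_of_mem φ hdvd))
    (Ideal.mem_sup_right (Ideal.add_mem _ (h1 _ _ hr') ?_))
  exact Ideal.pow_le_pow_right (by omega) hr

include h1 h2 h3 in
theorem colon_principal_of_completion
    (hS : ∀ a b : S, ∃ d, ∀ c, b ∣ c * a ↔ d ∣ c) (a b : R) : ∃ d, ∀ c, b ∣ c * a ↔ d ∣ c := by
  have hinj : ∀ x : R, φ x = 0 → x = 0 := fun x hx =>
    eq_zero_of_forall_mem_pow fun k => h2 k x (by rw [hx]; exact Ideal.zero_mem _)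
  obtain ⟨D, hD⟩ := hS (φ a) (φ b)
  have hcol : ∀ c : R, b ∣ c * a → D ∣ φ c := fun c hc => by
    rw [← hD, ← map_mul]
    exact map_dvd φ hc
  by_cases hD0 : D = 0
  · refine ⟨0, fun c => ⟨fun hc => ?_, fun hc => ?_⟩⟩
    · have := hcol c hc
      rw [hD0, zero_dvd_iff] at this
      rw [hinj c this]
    · rw [zero_dvd_iff] at hc
      rw [hc, zero_mul]; exact dvd_zero b
  have hDmem := mem_map_colonIdeal φ h1 h2 h3 a b D ((hD D).mpr dvd_rfl)
  -- some element of the colon ideal has image a unit multiple of `D`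
  have hex : ∃ i : R, b ∣ i * a ∧ ∃ s : Sˣ, φ i = D * s := by
    by_contra hcon
    push Not at hcon
    have h4 : (colonIdeal a b).map φ ≤ Ideal.span {D} * maximalIdeal S := by
      rw [Ideal.map_le_iff_le_comap]
      intro i hi
      rw [Ideal.mem_comap]
      obtain ⟨s, hs⟩ := hcol i hi
      have h5 : s ∈ maximalIdeal S := by
        rw [mem_maximalIdeal, mem_nonunits_iff]
        rintro ⟨s', rfl⟩
        exact hcon i hi s' hs
      rw [hs]
      exact Ideal.mul_mem_mul (Ideal.mem_span_singleton_self D) h5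
    have h5 := h4 hDmem
    rw [Ideal.mem_span_singleton_mul] at h5
    obtain ⟨z, hz, hz2⟩ := h5
    have h6 : z = 1 := by
      have : D * (z - 1) = 0 := by rw [mul_sub, hz2, mul_one, sub_self]
      rcases mul_eq_zero.mp this with h | h
      · exact absurd h hD0
      · exact sub_eq_zero.mp h
    rw [h6] at hz
    exact (Ideal.IsPrime.ne_top inferInstance) ((Ideal.eq_top_iff_one _).mpr hz)
  obtain ⟨i, hi, s, hs⟩ := hex
  refine ⟨i, fun c => ⟨fun hc => ?_, fun hc => ?_⟩⟩
  · rw [← Ideal.mem_span_singleton]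
    apply mem_of_forall_mem_sup_pow
    intro N
    obtain ⟨t, ht⟩ := hcol c hc
    obtain ⟨r, hr⟩ := h3 N ((s⁻¹ : Sˣ) * t)
    have h4 : φ (c - i * r) ∈ maximalIdeal S ^ N := by
      have : φ (c - i * r) = φ i * ((s⁻¹ : Sˣ) * t - φ r) := by
        rw [map_sub, map_mul, ht, hs]
        have h5 : (s : S) * ((s⁻¹ : Sˣ) : S) = 1 := s.mul_inv
        linear_combination (- D * t) * h5
      rw [this]
      exact Ideal.mul_mem_left _ _ hr
    have h5 : c = i * r + (c - i * r) := by ring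
    rw [h5]
    exact Ideal.add_mem _ (Ideal.mem_sup_left (Ideal.mul_mem_right _ _
      (Ideal.mem_span_singleton_self i))) (Ideal.mem_sup_right (h2 _ _ h4))
  · obtain ⟨e, rfl⟩ := hc
    have : i * e * a = e * (i * a) := by ring
    rw [this]
    exact Dvd.dvd.mul_left hi e

end descent

/-- colon ideals in a UFD are principal -/
lemma colon_principal_of_ufd {S : Type*} [CommRing S] [IsDomain S] [UniqueFactorizationMonoid S]
    (a b : S) : ∃ d, ∀ c, b ∣ c * a ↔ d ∣ c := by
  classical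
  let _ : GCDMonoid S := UniqueFactorizationMonoid.toGCDMonoid S
  by_cases hb : b = 0
  · by_cases ha : a = 0
    · exact ⟨1, fun c => by simp [ha, hb]⟩
    · refine ⟨0, fun c => ?_⟩
      rw [hb, zero_dvd_iff, zero_dvd_iff, mul_eq_zero]
      simp [ha]
  · obtain ⟨a', b', ha, hb', hu⟩ := extract_gcd a b
    refine ⟨b', fun c => ?_⟩
    have hg : gcd a b ≠ 0 := by
      intro h
      rw [gcd_eq_zero_iff] at h
      exact hb h.2
    have h1 : b ∣ c * a ↔ b' ∣ c * a' := by
      generalize gcd a b = g at ha hb' hg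
      rw [ha, hb', show c * (g * a') = g * (c * a') by ring]
      exact mul_dvd_mul_iff_left hg
    rw [h1]
    constructor
    · intro h
      exact (IsRelPrime.dvd_of_dvd_mul_right (gcd_isUnit_iff_isRelPrime.mp
        ((gcd_comm' b' a').isUnit_iff.mpr hu)) h)
    · intro h
      exact Dvd.dvd.mul_right h a'

end Fermat.Agent.H76
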