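import Mathlib.RingTheory.MvPowerSeries.Equiv
import Mathlib.RingTheory.MvPowerSeries.Substitution
import Mathlib.RingTheory.AdicCompletion.Completeness
set_option autoImplicit false

/-! # The maximal-adic filtration on power series rings (helper76, for S26-J1) -/

namespace Fermat.Agent.H76

open MvPowerSeries

section filt

variable {n : ℕ} {R : Type*} [CommRing R]

/-- the ideal generated by the variables -/
noncomputable abbrev varIdeal (n : ℕ) (R : Type*) [CommRing R] : Ideal (MvPowerSeries (Fin n) R) :=
  Ideal.span (Set.range (MvPowerSeries.X : Fin n → MvPowerSeries (Fin n) R))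

/-- series of order at least `k` -/
noncomputable def orderIdeal (n : ℕ) (R : Type*) [CommRing R] (k : ℕ) : Ideal (MvPowerSeries (Fin n) R) where
  carrier := {f | (k : ℕ∞) ≤ f.order}
  add_mem' {f g} hf hg := (le_min hf hg).trans min_order_le_add
  zero_mem' := by simp
  smul_mem' c f hf := by
    change (k : ℕ∞) ≤ (c * f).order
    exact (le_add_of_nonneg_of_le (zero_le) hf).trans le_order_mul

lemma mem_orderIdeal {k : ℕ} {f : MvPowerSeries (Fin n) R} :
    f ∈ orderIdeal n R k ↔ (k : ℕ∞) ≤ f.order := Iff.rfl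

lemma mem_orderIdeal_iff_coeff {k : ℕ} {f : MvPowerSeries (Fin n) R} :
    f ∈ orderIdeal n R k ↔ ∀ d : Fin n →₀ ℕ, d.degree < k → coeff d f = 0 := by
  rw [mem_orderIdeal]
  constructor
  · intro h d hd
    exact coeff_of_lt_order (lt_of_lt_of_le (by exact_mod_cast hd) h)
  · exact nat_le_order

lemma varIdeal_pow_le (k : ℕ) : varIdeal n R ^ k ≤ orderIdeal n R k := by
  induction k with
  | zero => intro f _; rw [mem_orderIdeal]; simp
  | succ k ih =>
    rw [pow_succ, Ideal.mul_le]
    intro f hf g hg
    have h1 : (1 : ℕ∞) ≤ g.order := by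
      have : varIdeal n R ≤ orderIdeal n R 1 := by
        rw [Ideal.span_le]
        rintro _ ⟨i, rfl⟩
        rw [SetLike.mem_coe, mem_orderIdeal, Nat.cast_one, one_le_order_iff_constCoeff_eq_zero]
        simp
      exact_mod_cast this hg
    rw [mem_orderIdeal]
    refine le_trans ?_ le_order_mul
    push_cast
    exact add_le_add (ih hf) h1

/-- the part of `f` divisible by `X i` and not by the previous variables, divided by `X i` -/
noncomputable def divX (i : Fin n) (f : MvPowerSeries (Fin n) R) : MvPowerSeries (Fin n) R :=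
  fun m => if (∀ j < i, m j = 0) then coeff (m + Finsupp.single i 1) f else 0

lemma coeff_divX (i : Fin n) (f : MvPowerSeries (Fin n) R) (m : Fin n →₀ ℕ) :
    coeff m (divX i f) = if (∀ j < i, m j = 0) then coeff (m + Finsupp.single i 1) f else 0 := rfl

lemma coeff_X_mul_divX (i : Fin n) (f : MvPowerSeries (Fin n) R) (m : Fin n →₀ ℕ) :
    coeff m (X i * divX i f) =
      if (m i ≠ 0 ∧ ∀ j < i, m j = 0) then coeff m f else 0 := by
  classical
  rw [X, coeff_monomial_mul, one_mul, coeff_divX]
  by_cases h : m i = 0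
  · have h1 : ¬ (Finsupp.single i 1 ≤ m) := by
      intro h2
      have := h2 i
      rw [Finsupp.single_eq_same, h] at this
      omega
    rw [if_neg h1, if_neg (fun h2 => h2.1 h)]
  · have h1 : Finsupp.single i 1 ≤ m := by
      rw [Finsupp.single_le_iff]
      omega
    rw [if_pos h1]
    have h2 : (∀ j < i, (m - Finsupp.single i 1 : Fin n →₀ ℕ) j = 0) ↔ (m i ≠ 0 ∧ ∀ j < i, m j = 0) := by
      constructor
      · intro h3
        refine ⟨h, fun j hj => ?_⟩
        have := h3 j hj
        rwa [Finsupp.tsub_apply, Finsupp.single_eq_of_ne (by exact hj.ne), tsub_zero] at this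
      · rintro ⟨-, h3⟩ j hj
        rw [Finsupp.tsub_apply, h3 j hj, zero_tsub]
    rw [if_congr h2 rfl rfl, tsub_add_cancel_of_le h1]

lemma sum_X_mul_divX {f : MvPowerSeries (Fin n) R} (hf : constantCoeff f = 0) :
    f = ∑ i, X i * divX i f := by
  classical
  ext m
  rw [map_sum]
  simp_rw [coeff_X_mul_divX]
  by_cases hm : m = 0
  · subst hm
    rw [coeff_zero_eq_constantCoeff_apply, hf]
    symm
    apply Finset.sum_eq_zero
    intro i _
    rw [if_neg]
    rintro ⟨h, -⟩
    exact h rfl
  · have hne : (Finset.univ.filter (fun i => m i ≠ 0)).Nonempty := by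
      by_contra h
      rw [Finset.not_nonempty_iff_eq_empty, Finset.filter_eq_empty_iff] at h
      apply hm
      ext i
      simpa using h (Finset.mem_univ i)
    set i₀ := (Finset.univ.filter (fun i => m i ≠ 0)).min' hne with hi₀
    have h1 : m i₀ ≠ 0 := by
      have := Finset.min'_mem _ hne
      rw [Finset.mem_filter] at this
      exact this.2
    have h2 : ∀ j < i₀, m j = 0 := by
      intro j hj
      by_contra h
      have := Finset.min'_le (Finset.univ.filter (fun i => m i ≠ 0)) j
        (Finset.mem_filter.mpr ⟨Finset.mem_univ _, h⟩)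
      exact absurd hj (not_lt.mpr this)
    rw [Finset.sum_eq_single i₀]
    · rw [if_pos ⟨h1, h2⟩]
    · intro i _ hi
      rw [if_neg]
      rintro ⟨h3, h4⟩
      rcases lt_trichotomy i i₀ with h | h | h
      · exact h3 (h2 i h)
      · exact hi h
      · exact h1 (h4 i₀ h)
    · intro h
      exact absurd (Finset.mem_univ _) h

lemma orderIdeal_le (k : ℕ) : orderIdeal n R k ≤ varIdeal n R ^ k := by
  induction k with
  | zero => intro f _; simp
  | succ k ih =>
    intro f hf
    have h0 : constantCoeff f = 0 := by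
      rw [← one_le_order_iff_constCoeff_eq_zero]
      refine le_trans ?_ (mem_orderIdeal.mp hf)
      push_cast
      exact le_add_self
    rw [sum_X_mul_divX h0, pow_succ']
    refine Ideal.sum_mem _ fun i _ => Ideal.mul_mem_mul (Ideal.subset_span ⟨i, rfl⟩) (ih ?_)
    rw [mem_orderIdeal_iff_coeff] at hf ⊢
    intro d hd
    rw [coeff_divX]
    split_ifs
    · apply hf
      rw [map_add, Finsupp.degree_single]
      omega
    · rfl

lemma varIdeal_pow_eq (k : ℕ) : varIdeal n R ^ k = orderIdeal n R k :=
  le_antisymm (varIdeal_pow_le k) (orderIdeal_le k)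

lemma mem_varIdeal_pow_iff {k : ℕ} {f : MvPowerSeries (Fin n) R} :
    f ∈ varIdeal n R ^ k ↔ ∀ d : Fin n →₀ ℕ, d.degree < k → coeff d f = 0 := by
  rw [varIdeal_pow_eq, mem_orderIdeal_iff_coeff]

lemma mem_varIdeal_iff {f : MvPowerSeries (Fin n) R} :
    f ∈ varIdeal n R ↔ constantCoeff f = 0 := by
  rw [← pow_one (varIdeal n R), varIdeal_pow_eq, mem_orderIdeal, Nat.cast_one,
    one_le_order_iff_constCoeff_eq_zero]

lemma sub_truncTotal_mem (k : ℕ) (f : MvPowerSeries (Fin n) R) :
    f - (truncTotal k f : MvPolynomial (Fin n) R) ∈ varIdeal n R ^ k := by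
  rw [mem_varIdeal_pow_iff]
  intro d hd
  rw [map_sub, MvPolynomial.coeff_coe, coeff_truncTotal _ hd, sub_self]

end filt

section field

variable {n : ℕ} {K : Type*} [Field K]

lemma maximalIdeal_eq_varIdeal :
    IsLocalRing.maximalIdeal (MvPowerSeries (Fin n) K) = varIdeal n K := by
  ext f
  rw [mem_varIdeal_iff, IsLocalRing.mem_maximalIdeal, mem_nonunits_iff,
    MvPowerSeries.isUnit_iff_constantCoeff, isUnit_iff_ne_zero, not_not]

instance isAdicComplete_maximalIdeal :
    IsAdicComplete (IsLocalRing.maximalIdeal (MvPowerSeries (Fin n) K))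
      (MvPowerSeries (Fin n) K) := by
  rw [maximalIdeal_eq_varIdeal]
  infer_instance

end field

end Fermat.Agent.H76
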