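import Mathlib.RingTheory.PowerSeries.WeierstrassPreparation
import Mathlib.RingTheory.Polynomial.UniqueFactorization
import Mathlib.RingTheory.UniqueFactorizationDomain.Basic
import Mathlib.RingTheory.MvPowerSeries.NoZeroDivisors
import Mathlib.RingTheory.MvPolynomial.Homogeneous
import Mathlib.RingTheory.Noetherian.UniqueFactorizationDomain
import Mathlib.Algebra.MvPolynomial.Funext
import Mathlib.Data.Finsupp.Weight
import Fermat.Agent.H76PSFilt
set_option autoImplicit false

/-! # Power series rings over an infinite field are factorial (helper76, for S26-J1) -/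

namespace Fermat.Agent.H76

section weierstrass

open PowerSeries Polynomial

variable {A : Type*} [CommRing A] [IsDomain A] [IsLocalRing A]

/-- a factor of a distinguished polynomial which is a unit as a power series is one -/
lemma eq_one_of_isUnit_of_dvd {P G H : A[X]} (hP : P.IsDistinguishedAt (IsLocalRing.maximalIdeal A))
    (hG : G.Monic) (hGH : G * H = P) (hu : IsUnit (G : A⟦X⟧)) : G = 1 := by
  have h1 : G.map (IsLocalRing.residue A) * H.map (IsLocalRing.residue A) = (Polynomial.X : (IsLocalRing.ResidueField A)[X]) ^ P.natDegree := by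
    rw [← Polynomial.map_mul, hGH]
    exact hP.map_eq_X_pow
  have h2 : G.map (IsLocalRing.residue A) ∣ (Polynomial.X : (IsLocalRing.ResidueField A)[X]) ^ P.natDegree := ⟨_, h1.symm⟩
  rw [dvd_prime_pow Polynomial.prime_X] at h2
  obtain ⟨i, hi, h3⟩ := h2
  have h4 : G.map (IsLocalRing.residue A) = Polynomial.X ^ i :=
    Polynomial.eq_of_monic_of_associated (hG.map _) (monic_X_pow i) h3
  have h5 : i = 0 := by
    by_contra h
    have h6 : (G.map (IsLocalRing.residue A)).coeff 0 = 0 := by
      rw [h4, Polynomial.coeff_X_pow, if_neg (Ne.symm h)]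
    rw [Polynomial.coeff_map] at h6
    have h7 : IsUnit (G.coeff 0) := by
      have := PowerSeries.isUnit_iff_constantCoeff.mp hu
      rwa [← PowerSeries.coeff_zero_eq_constantCoeff_apply, Polynomial.coeff_coe] at this
    exact (h7.map (IsLocalRing.residue A)).ne_zero h6
  rw [h5, pow_zero] at h4
  have h8 : G.natDegree = 0 := by
    rw [← hG.natDegree_map (IsLocalRing.residue A), h4, natDegree_one]
  exact hG.natDegree_eq_zero.mp h8

lemma prime_of_irreducible_of_map_ne_zero [IsAdicComplete (IsLocalRing.maximalIdeal A) A]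
    [UniqueFactorizationMonoid A] {f : A⟦X⟧} (hf : Irreducible f)
    (h : f.map (IsLocalRing.residue A) ≠ 0) : Prime f := by
  obtain ⟨P, u, H⟩ := exists_isWeierstrassFactorization h
  have hassoc : Associated (P : A⟦X⟧) f := ⟨H.isUnit.unit, H.eq_mul.symm⟩
  have hPirr : Irreducible (P : A⟦X⟧) := hassoc.symm.irreducible hf
  have hmonic : P.Monic := H.isDistinguishedAt.monic
  have hP1 : P ≠ 1 := by
    rintro rfl
    rw [Polynomial.coe_one] at hPirr
    exact hPirr.not_isUnit isUnit_one
  have hirr : Irreducible P := by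
    rw [irreducible_of_monic hmonic hP1]
    intro G F hG hF hGF
    have h1 : (G : A⟦X⟧) * (F : A⟦X⟧) = P := by rw [← Polynomial.coe_mul, hGF]
    rcases hPirr.isUnit_or_isUnit h1.symm with h2 | h2
    · exact Or.inl (eq_one_of_isUnit_of_dvd H.isDistinguishedAt hG hGF h2)
    · exact Or.inr (eq_one_of_isUnit_of_dvd H.isDistinguishedAt hF ((mul_comm F G).trans hGF) h2)
  have hprime : Prime P := hirr.prime
  have hdom : IsDomain (A[X] ⧸ Ideal.span {P}) := by
    rw [Ideal.Quotient.isDomain_iff_prime, Ideal.span_singleton_prime hprime.ne_zero]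
    exact hprime
  have hdom2 : IsDomain (A⟦X⟧ ⧸ Ideal.span {f}) :=
    H.algEquivQuotient.symm.toRingEquiv.toMulEquiv.isDomain _
  rw [Ideal.Quotient.isDomain_iff_prime, Ideal.span_singleton_prime hf.ne_zero] at hdom2
  exact hdom2

end weierstrass

section auto

open MvPowerSeries

variable {n : ℕ} {K : Type*} [Field K]

/-- the linear change of variables -/
noncomputable def linA (c : Fin (n + 1) → K) : Fin (n + 1) → MvPowerSeries (Fin (n + 1)) K :=
  Fin.cons (c 0 • X 0) (fun j => X j.succ + c j.succ • X 0)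

/-- the inverse linear change of variables -/
noncomputable def linB (c : Fin (n + 1) → K) : Fin (n + 1) → MvPowerSeries (Fin (n + 1)) K :=
  Fin.cons ((c 0)⁻¹ • X 0) (fun j => X j.succ - (c j.succ * (c 0)⁻¹) • X 0)

lemma constantCoeff_smul_X (a : K) (i : Fin (n + 1)) :
    constantCoeff (a • (X i : MvPowerSeries (Fin (n + 1)) K)) = 0 := by
  rw [MvPowerSeries.smul_eq_C_mul, map_mul, constantCoeff_X, mul_zero]

lemma hasSubst_linA (c : Fin (n + 1) → K) : HasSubst (linA c) := by
  apply hasSubst_of_constantCoeff_zero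
  intro i
  refine Fin.cases ?_ (fun j => ?_) i
  · simp only [linA, Fin.cons_zero]
    exact constantCoeff_smul_X _ _
  · simp only [linA, Fin.cons_succ]
    rw [map_add, constantCoeff_smul_X, constantCoeff_X, add_zero]

lemma hasSubst_linB (c : Fin (n + 1) → K) : HasSubst (linB c) := by
  apply hasSubst_of_constantCoeff_zero
  intro i
  refine Fin.cases ?_ (fun j => ?_) i
  · simp only [linB, Fin.cons_zero]
    exact constantCoeff_smul_X _ _
  · simp only [linB, Fin.cons_succ]
    rw [map_sub, constantCoeff_smul_X, constantCoeff_X, sub_zero]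

lemma subst_linB_linA {c : Fin (n + 1) → K} (hc : c 0 ≠ 0) (i : Fin (n + 1)) :
    subst (linB c) (linA c i) = (X i : MvPowerSeries (Fin (n + 1)) K) := by
  have hb := hasSubst_linB c
  refine Fin.cases ?_ (fun j => ?_) i
  · simp only [linA, Fin.cons_zero]
    rw [subst_smul hb, subst_X hb]
    simp only [linB, Fin.cons_zero]
    rw [smul_smul, mul_inv_cancel₀ hc, one_smul]
  · simp only [linA, Fin.cons_succ]
    rw [subst_add hb, subst_smul hb, subst_X hb, subst_X hb]
    simp only [linB, Fin.cons_zero, Fin.cons_succ]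
    rw [smul_smul, sub_add_cancel]

lemma subst_linA_linB {c : Fin (n + 1) → K} (hc : c 0 ≠ 0) (i : Fin (n + 1)) :
    subst (linA c) (linB c i) = (X i : MvPowerSeries (Fin (n + 1)) K) := by
  have ha := hasSubst_linA c
  refine Fin.cases ?_ (fun j => ?_) i
  · simp only [linB, Fin.cons_zero]
    rw [subst_smul ha, subst_X ha]
    simp only [linA, Fin.cons_zero]
    rw [smul_smul, inv_mul_cancel₀ hc, one_smul]
  · simp only [linB, Fin.cons_succ]
    rw [subst_sub ha, subst_smul ha, subst_X ha, subst_X ha]
    simp only [linA, Fin.cons_zero, Fin.cons_succ]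
    rw [smul_smul, mul_assoc, inv_mul_cancel₀ hc, mul_one, add_sub_cancel_right]

/-- the automorphism -/
noncomputable def linAut {c : Fin (n + 1) → K} (hc : c 0 ≠ 0) :
    MvPowerSeries (Fin (n + 1)) K ≃+* MvPowerSeries (Fin (n + 1)) K where
  toFun := substAlgHom (R := K) (hasSubst_linA c)
  invFun := substAlgHom (R := K) (hasSubst_linB c)
  left_inv f := by
    rw [substAlgHom_apply, substAlgHom_apply,
      subst_comp_subst_apply (hasSubst_linA c) (hasSubst_linB c)]
    have : (fun s => subst (linB c) (linA c s)) =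
        (X : Fin (n + 1) → MvPowerSeries (Fin (n + 1)) K) := funext (subst_linB_linA hc)
    rw [this, subst_self]; rfl
  right_inv f := by
    rw [substAlgHom_apply, substAlgHom_apply,
      subst_comp_subst_apply (hasSubst_linB c) (hasSubst_linA c)]
    have : (fun s => subst (linA c) (linB c s)) =
        (X : Fin (n + 1) → MvPowerSeries (Fin (n + 1)) K) := funext (subst_linA_linB hc)
    rw [this, subst_self]; rfl
  map_mul' f g := map_mul _ f g
  map_add' f g := map_add _ f g

lemma linAut_X {c : Fin (n + 1) → K} (hc : c 0 ≠ 0) (i : Fin (n + 1)) :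
    linAut hc (X i) = linA c i :=
  substAlgHom_X (R := K) (hasSubst_linA c) i

lemma linAut_C {c : Fin (n + 1) → K} (hc : c 0 ≠ 0) (r : K) :
    linAut hc (C r) = C r := by
  change substAlgHom (R := K) (hasSubst_linA c) (C r) = C r
  exact (substAlgHom (R := K) (hasSubst_linA c)).commutes r

/-- setting all variables but the first to zero -/
noncomputable def red (n : ℕ) (K : Type*) [Field K] :
    MvPowerSeries (Fin (n + 1)) K →+* PowerSeries K :=
  (PowerSeries.map (constantCoeff : MvPowerSeries (Fin n) K →+* K)).comp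
    (finSuccEquiv K n).toRingEquiv.toRingHom

lemma red_apply (f : MvPowerSeries (Fin (n + 1)) K) :
    red n K f = PowerSeries.map (constantCoeff : MvPowerSeries (Fin n) K →+* K)
      (finSuccEquiv K n f) := rfl

lemma red_X_zero : red n K (X 0) = PowerSeries.X := by
  rw [red_apply, finSuccEquiv_X_zero, PowerSeries.map_X]

lemma red_X_succ (j : Fin n) : red n K (X j.succ) = 0 := by
  rw [red_apply, finSuccEquiv_X_succ, PowerSeries.map_C, constantCoeff_X, map_zero]

lemma red_C (r : K) : red n K (C r) = PowerSeries.C r := by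
  rw [red_apply, finSuccEquiv_C, PowerSeries.map_C, constantCoeff_C]

/-- the composition -/
noncomputable def theta {c : Fin (n + 1) → K} (hc : c 0 ≠ 0) :
    MvPowerSeries (Fin (n + 1)) K →+* PowerSeries K :=
  (red n K).comp (linAut hc).toRingHom

lemma theta_apply {c : Fin (n + 1) → K} (hc : c 0 ≠ 0) (f : MvPowerSeries (Fin (n + 1)) K) :
    theta hc f = red n K (linAut hc f) := rfl

lemma theta_C {c : Fin (n + 1) → K} (hc : c 0 ≠ 0) (r : K) : theta hc (C r) = PowerSeries.C r := by
  rw [theta_apply, linAut_C, red_C]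

lemma theta_X {c : Fin (n + 1) → K} (hc : c 0 ≠ 0) (i : Fin (n + 1)) :
    theta hc (X i) = PowerSeries.C (c i) * PowerSeries.X := by
  rw [theta_apply, linAut_X]
  refine Fin.cases ?_ (fun j => ?_) i
  · simp only [linA, Fin.cons_zero]
    rw [smul_eq_C_mul, map_mul, red_C, red_X_zero]
  · simp only [linA, Fin.cons_succ]
    rw [smul_eq_C_mul, map_add, map_mul, red_C, red_X_zero, red_X_succ, zero_add]

lemma theta_mem {c : Fin (n + 1) → K} (hc : c 0 ≠ 0) {k : ℕ} {f : MvPowerSeries (Fin (n + 1)) K}
    (hf : f ∈ varIdeal (n + 1) K ^ k) : PowerSeries.X ^ k ∣ theta hc f := by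
  have h1 : (varIdeal (n + 1) K).map (theta hc) ≤ Ideal.span {PowerSeries.X} := by
    rw [Ideal.map_span, Ideal.span_le]
    rintro _ ⟨_, ⟨i, rfl⟩, rfl⟩
    rw [SetLike.mem_coe, Ideal.mem_span_singleton, theta_X]
    exact dvd_mul_left _ _
  have h2 := Ideal.mem_map_of_mem (theta hc) hf
  rw [Ideal.map_pow] at h2
  have h3 := Ideal.pow_right_mono h1 k h2
  rwa [Ideal.span_singleton_pow, Ideal.mem_span_singleton] at h3

lemma weight_one_apply (m : Fin (n + 1) →₀ ℕ) :
    Finsupp.weight (1 : Fin (n + 1) → ℕ) m = m.degree :=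
  (DFunLike.congr_fun (Finsupp.degree_eq_weight_one (σ := Fin (n + 1)) (R := ℕ)) m).symm

lemma theta_homogeneous {c : Fin (n + 1) → K} (hc : c 0 ≠ 0) {d : ℕ}
    {F : MvPolynomial (Fin (n + 1)) K} (hF : F.IsHomogeneous d) :
    theta hc (F : MvPowerSeries (Fin (n + 1)) K) =
      PowerSeries.C (MvPolynomial.eval c F) * PowerSeries.X ^ d := by
  have h1 : ∀ G : MvPolynomial (Fin (n + 1)) K, theta hc (G : MvPowerSeries (Fin (n + 1)) K) =
      MvPolynomial.eval₂ PowerSeries.C (fun i => PowerSeries.C (c i) * PowerSeries.X) G := by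
    intro G
    have : (theta hc).comp (MvPolynomial.coeToMvPowerSeries.ringHom) =
        MvPolynomial.eval₂Hom PowerSeries.C (fun i => PowerSeries.C (c i) * PowerSeries.X) := by
      apply MvPolynomial.ringHom_ext
      · intro r
        rw [RingHom.comp_apply, MvPolynomial.coeToMvPowerSeries.ringHom_apply,
          MvPolynomial.coe_C, theta_C, MvPolynomial.eval₂Hom_C]
      · intro i
        rw [RingHom.comp_apply, MvPolynomial.coeToMvPowerSeries.ringHom_apply,
          MvPolynomial.coe_X, theta_X, MvPolynomial.eval₂Hom_X']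
    exact DFunLike.congr_fun this G
  rw [h1, MvPolynomial.eval₂_eq', MvPolynomial.eval_eq', map_sum, Finset.sum_mul]
  refine Finset.sum_congr rfl fun m hm => ?_
  have hdeg : m.degree = d := by
    have := hF (MvPolynomial.mem_support_iff.mp hm)
    rwa [weight_one_apply] at this
  simp_rw [mul_pow]
  rw [Finset.prod_mul_distrib, Finset.prod_pow_eq_pow_sum, map_mul, map_prod]
  simp_rw [map_pow]
  rw [← hdeg, Finsupp.degree_eq_sum]
  ring

lemma exists_theta_ne_zero [Infinite K] {f : MvPowerSeries (Fin (n + 1)) K} (hf : f ≠ 0) :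
    ∃ (c : Fin (n + 1) → K) (hc : c 0 ≠ 0), theta hc f ≠ 0 := by
  classical
  set d := f.order.toNat with hd
  have hfin : (d : ℕ∞) = f.order := ne_zero_iff_order_finite.mp hf
  set F := truncTotal (d + 1) f with hF
  have hlow : ∀ m : Fin (n + 1) →₀ ℕ, m.degree < d → coeff m f = 0 := fun m hm =>
    coeff_of_lt_order (by rw [← hfin]; exact_mod_cast hm)
  have hhom : F.IsHomogeneous d := by
    intro m hm
    rw [weight_one_apply]
    by_contra h
    apply hm
    rw [hF, coeff_truncTotal_eq_ite]
    split_ifs with h2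
    · exact hlow m (by omega)
    · rfl
  have hF0 : F ≠ 0 := by
    obtain ⟨m, hm, hmd⟩ := exists_coeff_ne_zero_and_order (f := f) (by rw [← hd]; exact hfin)
    intro h
    apply hm
    rw [← coeff_truncTotal (n := d + 1) _ (by
      have : ((m.degree : ℕ) : ℕ∞) = d := by rw [hmd, ← hfin]
      have : m.degree = d := by exact_mod_cast this
      omega), ← hF, h, MvPolynomial.coeff_zero]
  have hXF : MvPolynomial.X 0 * F ≠ 0 := mul_ne_zero (MvPolynomial.X_ne_zero 0) hF0
  have hex : ∃ c : Fin (n + 1) → K, MvPolynomial.eval c (MvPolynomial.X 0 * F) ≠ 0 := by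
    by_contra h
    push Not at h
    apply hXF
    apply MvPolynomial.funext
    intro c
    rw [h c, map_zero]
  obtain ⟨c, hc⟩ := hex
  rw [map_mul, MvPolynomial.eval_X] at hc
  have hc0 : c 0 ≠ 0 := left_ne_zero_of_mul hc
  have hFc : MvPolynomial.eval c F ≠ 0 := right_ne_zero_of_mul hc
  refine ⟨c, hc0, fun hzero => ?_⟩
  have h1 := theta_mem hc0 (sub_truncTotal_mem (d + 1) f)
  rw [← hF, map_sub, hzero, zero_sub, dvd_neg, theta_homogeneous hc0 hhom, pow_succ,
    mul_comm (PowerSeries.C _)] at h1
  have h2 : PowerSeries.X ∣ (PowerSeries.C (MvPolynomial.eval c F) : PowerSeries K) :=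
    (mul_dvd_mul_iff_left (pow_ne_zero d PowerSeries.X_ne_zero)).mp h1
  rw [PowerSeries.X_dvd_iff, PowerSeries.constantCoeff_C] at h2
  exact hFc h2

end auto

/-- power series rings over an infinite field are unique factorization domains -/
theorem mvPowerSeries_ufd (K : Type*) [Field K] [Infinite K] (n : ℕ) :
    UniqueFactorizationMonoid (MvPowerSeries (Fin n) K) := by
  induction n with
  | zero =>
    exact (MvPowerSeries.isEmptyEquiv (σ := Fin 0) (R := K)).toMulEquiv.symm.uniqueFactorizationMonoid
      inferInstance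
  | succ n ih =>
    have hdom : IsDomain (MvPowerSeries (Fin n) K) := NoZeroDivisors.to_isDomain _
    have hdom' : IsDomain (MvPowerSeries (Fin (n + 1)) K) := NoZeroDivisors.to_isDomain _
    refine { (inferInstance : WfDvdMonoid (MvPowerSeries (Fin (n + 1)) K)) with
      irreducible_iff_prime := fun {f} => ⟨fun hf => ?_, fun hf => hf.irreducible⟩ }
    obtain ⟨c, hc, h⟩ := exists_theta_ne_zero hf.ne_zero
    set e : MvPowerSeries (Fin (n + 1)) K ≃+* PowerSeries (MvPowerSeries (Fin n) K) :=
      (linAut hc).trans (MvPowerSeries.finSuccEquiv K n).toRingEquiv with he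
    have h1 : Irreducible (e f) := (MulEquiv.irreducible_iff e.toMulEquiv).mpr hf
    have h2 : (e f).map (IsLocalRing.residue (MvPowerSeries (Fin n) K)) ≠ 0 := by
      intro h3
      apply h
      rw [theta_apply, red_apply]
      ext k
      have h4 := congrArg (PowerSeries.coeff k) h3
      rw [PowerSeries.coeff_map, map_zero, IsLocalRing.residue_eq_zero_iff,
        maximalIdeal_eq_varIdeal, mem_varIdeal_iff] at h4
      rw [PowerSeries.coeff_map, map_zero]
      exact h4
    exact (MulEquiv.prime_iff e.toMulEquiv).mp (prime_of_irreducible_of_map_ne_zero h1 h2)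

end Fermat.Agent.H76
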