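import Mathlib.RingTheory.Ideal.Operations
import Mathlib.RingTheory.AdicCompletion.Basic
import Mathlib.Tactic
set_option autoImplicit false

/-! # Filtered ring homomorphisms (helper76, for S26-J1) -/

namespace Fermat.Agent.H76

section filtered

variable {A S : Type*} [CommRing A] [CommRing S]

/-- two ring homs congruent to first order are congruent to higher order -/
lemma sub_mem_pow_succ (f g : A →+* S) {a : Ideal A} {n : Ideal S}
    (hg : ∀ x ∈ a, g x ∈ n) (h0 : ∀ x, f x - g x ∈ n) (h1 : ∀ x ∈ a, f x - g x ∈ n ^ 2)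
    (m : ℕ) : ∀ x ∈ a ^ m, f x - g x ∈ n ^ (m + 1) := by
  have hf : ∀ x ∈ a, f x ∈ n := fun x hx => by
    have h2 := h1 x hx
    have h3 : f x = (f x - g x) + g x := by ring
    rw [h3]
    exact Ideal.add_mem _ (Ideal.pow_le_self two_ne_zero h2) (hg x hx)
  induction m with
  | zero => intro x _; simpa using h0 x
  | succ m ih =>
    intro x hx
    rw [pow_succ'] at hx
    refine Submodule.mul_induction_on hx ?_ ?_
    · intro u hu w hw
      have h2 : f (u * w) - g (u * w) = (f u - g u) * g w + f u * (f w - g w) := by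
        rw [map_mul, map_mul]; ring
      rw [h2]
      have hgw : g w ∈ n ^ m := by
        have : (a ^ m).map g ≤ n ^ m := by
          rw [Ideal.map_pow]
          exact Ideal.pow_right_mono (Ideal.map_le_iff_le_comap.mpr hg) m
        exact this (Ideal.mem_map_of_mem g hw)
      refine Ideal.add_mem _ ?_ ?_
      · have h3 : m + 1 + 1 = 2 + m := by ring
        rw [h3, pow_add]
        exact Ideal.mul_mem_mul (h1 u hu) hgw
      · rw [pow_succ' n (m + 1)]
        exact Ideal.mul_mem_mul (hf u hu) (ih w hw)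
    · intro x y hx hy
      have h2 : f (x + y) - g (x + y) = (f x - g x) + (f y - g y) := by
        rw [map_add, map_add]; ring
      rw [h2]
      exact Ideal.add_mem _ hx hy

/-- surjectivity on the graded pieces -/
lemma exists_sub_mem_pow_succ (f : A →+* S) {a : Ideal A} {n : Ideal S}
    (hf : ∀ x ∈ a, f x ∈ n) (h0 : ∀ s : S, ∃ x : A, s - f x ∈ n)
    (h1 : ∀ s ∈ n, ∃ x ∈ a, s - f x ∈ n ^ 2) (m : ℕ) :
    ∀ s ∈ n ^ m, ∃ x ∈ a ^ m, s - f x ∈ n ^ (m + 1) := by
  induction m with
  | zero =>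
    intro s _
    obtain ⟨x, hx⟩ := h0 s
    exact ⟨x, by simp, by simpa using hx⟩
  | succ m ih =>
    intro s hs
    rw [pow_succ'] at hs
    refine Submodule.mul_induction_on hs ?_ ?_
    · intro u hu w hw
      obtain ⟨u', hu', hu''⟩ := h1 u hu
      obtain ⟨w', hw', hw''⟩ := ih w hw
      refine ⟨u' * w', by rw [pow_succ']; exact Ideal.mul_mem_mul hu' hw', ?_⟩
      have h2 : u * w - f (u' * w') = (u - f u') * w + f u' * (w - f w') := by
        rw [map_mul]; ring
      rw [h2]
      refine Ideal.add_mem _ ?_ ?_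
      · have h3 : m + 1 + 1 = 2 + m := by ring
        rw [h3, pow_add]
        exact Ideal.mul_mem_mul hu'' hw
      · rw [pow_succ' n (m + 1)]
        exact Ideal.mul_mem_mul (hf u' hu') hw''
    · rintro x y ⟨x', hx', hx''⟩ ⟨y', hy', hy''⟩
      refine ⟨x' + y', Ideal.add_mem _ hx' hy', ?_⟩
      have h2 : x + y - f (x' + y') = (x - f x') + (y - f y') := by
        rw [map_add]; ring
      rw [h2]
      exact Ideal.add_mem _ hx'' hy''

/-- density -/
lemma exists_sub_mem_pow (f : A →+* S) {a : Ideal A} {n : Ideal S}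
    (hf : ∀ x ∈ a, f x ∈ n) (h0 : ∀ s : S, ∃ x : A, s - f x ∈ n)
    (h1 : ∀ s ∈ n, ∃ x ∈ a, s - f x ∈ n ^ 2) (m : ℕ) (s : S) : ∃ x : A, s - f x ∈ n ^ m := by
  induction m with
  | zero => exact ⟨0, by simp⟩
  | succ m ih =>
    obtain ⟨x, hx⟩ := ih
    obtain ⟨y, -, hy⟩ := exists_sub_mem_pow_succ f hf h0 h1 m _ hx
    refine ⟨x + y, ?_⟩
    have : s - f (x + y) = s - f x - f y := by rw [map_add]; ring
    rw [this]
    exact hy

end filtered

/-- adic completeness with respect to the square of an ideal -/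
lemma isAdicComplete_sq {R : Type*} [CommRing R] (I : Ideal R) [h : IsAdicComplete I R] :
    IsAdicComplete (I ^ 2) R := by
  have hle : ∀ k : ℕ, ((I ^ 2) ^ k • ⊤ : Submodule R R) ≤ (I ^ k • ⊤ : Submodule R R) := by
    intro k
    apply Submodule.smul_mono _ le_rfl
    rw [← pow_mul]
    exact Ideal.pow_le_pow_right (by omega)
  have h1 : IsHausdorff (I ^ 2) R := ⟨fun x hx => by
    apply h.toIsHausdorff.haus x
    intro k
    exact SModEq.mono (hle k) (hx k)⟩
  have h2 : IsPrecomplete (I ^ 2) R := ⟨fun f hf => by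
    obtain ⟨L, hL⟩ := h.toIsPrecomplete.prec (f := f) (fun {m n} hmn => SModEq.mono (hle m) (hf hmn))
    refine ⟨L, fun m => ?_⟩
    have h3 : f m ≡ f (2 * m) [SMOD ((I ^ 2) ^ m • ⊤ : Submodule R R)] := hf (by omega)
    refine h3.trans ?_
    have h4 := hL (2 * m)
    rwa [pow_mul] at h4⟩
  exact { h1, h2 with }

end Fermat.Agent.H76
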