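import Mathlib.RingTheory.Smooth.AdicCompletion
import Mathlib.RingTheory.MvPolynomial.Ideal
import Mathlib.RingTheory.Ideal.Cotangent
import Fermat.Agent.H76PSFilt
import Fermat.Agent.H76Filt
set_option autoImplicit false

/-! # Smooth algebras map to power series rings (helper76, for S26-J1) -/

namespace Fermat.Agent.H76

open MvPowerSeries Module

lemma map_mem_pow {A S : Type*} [CommRing A] [CommRing S] (f : A →+* S) {a : Ideal A}
    {n : Ideal S} (h : ∀ x ∈ a, f x ∈ n) (k : ℕ) : ∀ x ∈ a ^ k, f x ∈ n ^ k := by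
  intro x hx
  have h1 : (a ^ k).map f ≤ n ^ k := by
    rw [Ideal.map_pow]
    exact Ideal.pow_right_mono (Ideal.map_le_iff_le_comap.mpr h) k
  exact h1 (Ideal.mem_map_of_mem f hx)

section smooth

universe u

variable {K : Type u} [Field K] {B : Type u} [CommRing B] [Algebra K B] (χ : B →ₐ[K] K)

/-- the kernel of the point -/
abbrev ptIdeal : Ideal B := RingHom.ker χ.toRingHom

lemma mem_ptIdeal {b : B} : b ∈ ptIdeal χ ↔ χ b = 0 := RingHom.mem_ker

lemma sub_mem_ptIdeal (b : B) : b - algebraMap K B (χ b) ∈ ptIdeal χ := by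
  rw [mem_ptIdeal, map_sub, AlgHom.commutes, Algebra.algebraMap_self_apply, sub_self]

/-- the universal derivation at the point -/
noncomputable def derAt : B →ₗ[K] (ptIdeal χ).Cotangent where
  toFun b := (ptIdeal χ).toCotangent ⟨b - algebraMap K B (χ b), sub_mem_ptIdeal χ b⟩
  map_add' b b' := by
    rw [← map_add]
    congr 1
    apply Subtype.ext
    change b + b' - algebraMap K B (χ (b + b')) =
      (b - algebraMap K B (χ b)) + (b' - algebraMap K B (χ b'))
    rw [map_add, map_add]; ring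
  map_smul' c b := by
    rw [RingHom.id_apply, ← algebraMap_smul B c ((ptIdeal χ).toCotangent _), ← map_smul]
    congr 1
    apply Subtype.ext
    change c • b - algebraMap K B (χ (c • b)) = algebraMap K B c * (b - algebraMap K B (χ b))
    rw [map_smul, smul_eq_mul, map_mul, Algebra.smul_def]; ring

lemma derAt_apply (b : B) : derAt χ b =
    (ptIdeal χ).toCotangent ⟨b - algebraMap K B (χ b), sub_mem_ptIdeal χ b⟩ := rfl

lemma derAt_of_mem {b : B} (hb : b ∈ ptIdeal χ) :
    derAt χ b = (ptIdeal χ).toCotangent ⟨b, hb⟩ := by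
  rw [derAt_apply]
  congr 1
  apply Subtype.ext
  change b - algebraMap K B (χ b) = b
  rw [(mem_ptIdeal χ).mp hb, map_zero, sub_zero]

lemma derAt_mul (b b' : B) : derAt χ (b * b') = χ b • derAt χ b' + χ b' • derAt χ b := by
  rw [derAt_apply, derAt_apply, derAt_apply, algebra_compatible_smul B (χ b),
    algebra_compatible_smul B (χ b'), ← map_smul, ← map_smul, ← map_add, Ideal.toCotangent_eq]
  change b * b' - algebraMap K B (χ (b * b')) - (algebraMap K B (χ b) * (b' - algebraMap K B (χ b')) +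
    algebraMap K B (χ b') * (b - algebraMap K B (χ b))) ∈ _
  have : b * b' - algebraMap K B (χ (b * b')) - (algebraMap K B (χ b) * (b' - algebraMap K B (χ b')) +
    algebraMap K B (χ b') * (b - algebraMap K B (χ b))) =
    (b - algebraMap K B (χ b)) * (b' - algebraMap K B (χ b')) := by
    rw [map_mul, map_mul]; ring
  rw [this, pow_two]
  exact Ideal.mul_mem_mul (sub_mem_ptIdeal χ b) (sub_mem_ptIdeal χ b')

lemma derAt_one : derAt χ 1 = 0 := by
  rw [derAt_apply, Ideal.toCotangent_eq_zero]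
  change (1 : B) - algebraMap K B (χ 1) ∈ _
  rw [map_one, map_one, sub_self]
  exact Ideal.zero_mem _

instance finite_cotangent [IsNoetherianRing B] : Module.Finite K (ptIdeal χ).Cotangent := by
  have h1 : Module.Finite K (B ⧸ ptIdeal χ) := by
    refine Module.Finite.of_surjective (Algebra.linearMap K (B ⧸ ptIdeal χ)) ?_
    intro x
    obtain ⟨b, rfl⟩ := Ideal.Quotient.mk_surjective x
    refine ⟨χ b, ?_⟩
    rw [Algebra.linearMap_apply, IsScalarTower.algebraMap_apply K B (B ⧸ ptIdeal χ)]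
    exact (Ideal.Quotient.eq.mpr (by
      have := sub_mem_ptIdeal χ b
      rw [← neg_mem_iff, neg_sub]
      exact this))
  have h2 : Module.Finite B (ptIdeal χ).Cotangent :=
    Module.Finite.of_surjective _ (ptIdeal χ).toCotangent_surjective
  have h3 : Module.Finite (B ⧸ ptIdeal χ) (ptIdeal χ).Cotangent :=
    Module.Finite.of_restrictScalars_finite B _ _
  have h4 : IsScalarTower K (B ⧸ ptIdeal χ) (ptIdeal χ).Cotangent :=
    IsScalarTower.of_algebraMap_smul fun r x => by
      rw [IsScalarTower.algebraMap_apply K B (B ⧸ ptIdeal χ), algebraMap_smul, algebraMap_smul]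
  exact Module.Finite.trans (B ⧸ ptIdeal χ) _

variable [IsNoetherianRing B]

/-- the embedding dimension -/
noncomputable abbrev edim : ℕ := finrank K (ptIdeal χ).Cotangent

/-- the target power series ring -/
abbrev PS : Type u := MvPowerSeries (Fin (edim χ)) K

/-- the basis of the cotangent space -/
noncomputable def cotBasis : Basis (Fin (edim χ)) K (ptIdeal χ).Cotangent :=
  finBasis K (ptIdeal χ).Cotangent

/-- linear forms -/
noncomputable def linForm : (ptIdeal χ).Cotangent →ₗ[K] PS χ :=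
  ∑ i, ((cotBasis χ).coord i).smulRight (X i : PS χ)

lemma linForm_apply (v : (ptIdeal χ).Cotangent) :
    linForm χ v = ∑ i, (cotBasis χ).repr v i • (X i : PS χ) := by
  rw [linForm, LinearMap.sum_apply]
  rfl

lemma linForm_mem (v : (ptIdeal χ).Cotangent) : linForm χ v ∈ varIdeal (edim χ) K := by
  rw [linForm_apply]
  refine Ideal.sum_mem _ fun i _ => ?_
  rw [smul_eq_C_mul]
  exact Ideal.mul_mem_left _ _ (Ideal.subset_span ⟨i, rfl⟩)

lemma linForm_basis (i : Fin (edim χ)) : linForm χ (cotBasis χ i) = X i := by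
  rw [linForm_apply, Finset.sum_eq_single i]
  · rw [Basis.repr_self, Finsupp.single_eq_same, one_smul]
  · intro j _ hj
    rw [Basis.repr_self, Finsupp.single_eq_of_ne hj, zero_smul]
  · intro h
    exact absurd (Finset.mem_univ _) h

/-- the first order map -/
noncomputable def firstOrder : B →ₐ[K] PS χ ⧸ (varIdeal (edim χ) K) ^ 2 :=
  AlgHom.ofLinearMap ((Ideal.Quotient.mkₐ K ((varIdeal (edim χ) K) ^ 2)).toLinearMap ∘ₗ
    ((Algebra.linearMap K (PS χ)) ∘ₗ χ.toLinearMap + linForm χ ∘ₗ derAt χ))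
    (by
      change Ideal.Quotient.mk _ (algebraMap K (PS χ) (χ 1) + linForm χ (derAt χ 1)) = 1
      rw [map_one, derAt_one, map_zero, map_one, add_zero, map_one])
    (by
      intro b b'
      change Ideal.Quotient.mk _ (algebraMap K (PS χ) (χ (b * b')) + linForm χ (derAt χ (b * b'))) =
        Ideal.Quotient.mk _ (algebraMap K (PS χ) (χ b) + linForm χ (derAt χ b)) *
        Ideal.Quotient.mk _ (algebraMap K (PS χ) (χ b') + linForm χ (derAt χ b'))
      rw [← map_mul, Ideal.Quotient.eq, derAt_mul, map_mul, map_add, map_smul, map_smul, map_mul,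
        Algebra.smul_def, Algebra.smul_def]
      have : algebraMap K (PS χ) (χ b) * algebraMap K (PS χ) (χ b') +
          (algebraMap K (PS χ) (χ b) * linForm χ (derAt χ b') +
            algebraMap K (PS χ) (χ b') * linForm χ (derAt χ b)) -
          (algebraMap K (PS χ) (χ b) + linForm χ (derAt χ b)) *
            (algebraMap K (PS χ) (χ b') + linForm χ (derAt χ b')) =
          - (linForm χ (derAt χ b) * linForm χ (derAt χ b')) := by ring
      rw [this, pow_two]
      exact neg_mem (Ideal.mul_mem_mul (linForm_mem χ _) (linForm_mem χ _)))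

lemma firstOrder_apply (b : B) : firstOrder χ b =
    Ideal.Quotient.mk _ (algebraMap K (PS χ) (χ b) + linForm χ (derAt χ b)) := rfl

variable [Algebra.FormallySmooth K B]

instance isAdicComplete_varIdeal_sq (n : ℕ) :
    IsAdicComplete ((varIdeal n K) ^ 2) (MvPowerSeries (Fin n) K) := isAdicComplete_sq _

lemma exists_toPS : ∃ l : B →ₐ[K] PS χ, (Ideal.Quotient.mkₐ K ((varIdeal (edim χ) K) ^ 2)).comp l =
    firstOrder χ :=
  Algebra.FormallySmooth.exists_mkₐ_comp_eq_of_isAdicComplete (firstOrder χ)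

/-- the map to the power series ring -/
noncomputable def toPS : B →ₐ[K] PS χ := (exists_toPS χ).choose

lemma toPS_sub_mem (b : B) : toPS χ b - (algebraMap K (PS χ) (χ b) + linForm χ (derAt χ b)) ∈
    (varIdeal (edim χ) K) ^ 2 := by
  rw [← Ideal.Quotient.eq]
  exact DFunLike.congr_fun (exists_toPS χ).choose_spec b

lemma toPS_sub_C_mem (b : B) : toPS χ b - algebraMap K (PS χ) (χ b) ∈ varIdeal (edim χ) K := by
  have h1 := Ideal.pow_le_self two_ne_zero (toPS_sub_mem χ b)
  have h2 := Ideal.add_mem _ h1 (linForm_mem χ (derAt χ b))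
  have h3 : toPS χ b - (algebraMap K (PS χ) (χ b) + linForm χ (derAt χ b)) + linForm χ (derAt χ b) =
      toPS χ b - algebraMap K (PS χ) (χ b) := by ring
  rwa [h3] at h2

lemma toPS_mem {b : B} (hb : b ∈ ptIdeal χ) : toPS χ b ∈ varIdeal (edim χ) K := by
  have := toPS_sub_C_mem χ b
  rwa [(mem_ptIdeal χ).mp hb, map_zero, sub_zero] at this

lemma toPS_sub_linForm_mem {b : B} (hb : b ∈ ptIdeal χ) :
    toPS χ b - linForm χ ((ptIdeal χ).toCotangent ⟨b, hb⟩) ∈ (varIdeal (edim χ) K) ^ 2 := by
  have := toPS_sub_mem χ b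
  rwa [(mem_ptIdeal χ).mp hb, map_zero, zero_add, derAt_of_mem χ hb] at this

lemma constantCoeff_toPS (b : B) : constantCoeff (toPS χ b) = χ b := by
  have := toPS_sub_C_mem χ b
  rw [mem_varIdeal_iff, map_sub, sub_eq_zero] at this
  rw [this]
  exact constantCoeff_C _

lemma exists_toPS_first {s : PS χ} (hs : s ∈ varIdeal (edim χ) K) :
    ∃ b ∈ ptIdeal χ, s - toPS χ b ∈ (varIdeal (edim χ) K) ^ 2 := by
  have h0 : s = ∑ i, X i * divX i s := sum_X_mul_divX (mem_varIdeal_iff.mp hs)
  set v : (ptIdeal χ).Cotangent := ∑ i, constantCoeff (divX i s) • cotBasis χ i with hv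
  obtain ⟨⟨b, hb⟩, hbv⟩ := (ptIdeal χ).toCotangent_surjective v
  refine ⟨b, hb, ?_⟩
  have h1 := toPS_sub_linForm_mem χ hb
  rw [hbv] at h1
  have h2 : s - linForm χ v ∈ (varIdeal (edim χ) K) ^ 2 := by
    have h3 : linForm χ v = ∑ i, X i * C (constantCoeff (divX i s)) := by
      rw [hv, map_sum]
      refine Finset.sum_congr rfl fun i _ => ?_
      rw [map_smul, linForm_basis, smul_eq_C_mul, mul_comm]
    have h5 : s - linForm χ v = ∑ i, (X i * divX i s - X i * C (constantCoeff (divX i s))) := by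
      rw [Finset.sum_sub_distrib, ← h0, h3]
    rw [h5]
    refine Ideal.sum_mem _ fun i _ => ?_
    rw [← mul_sub, pow_two]
    refine Ideal.mul_mem_mul (Ideal.subset_span ⟨i, rfl⟩) ?_
    rw [mem_varIdeal_iff, map_sub, constantCoeff_C, sub_self]
  have h3 : s - toPS χ b = (s - linForm χ v) - (toPS χ b - linForm χ v) := by ring
  rw [h3]
  exact Ideal.sub_mem _ h2 h1

/-- density of the image -/
lemma exists_toPS_sub_mem (k : ℕ) (s : PS χ) : ∃ b : B, s - toPS χ b ∈ (varIdeal (edim χ) K) ^ k := by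
  refine exists_sub_mem_pow (toPS χ).toRingHom (a := ptIdeal χ) (fun x hx => toPS_mem χ hx) ?_
    (fun s hs => exists_toPS_first χ hs) k s
  intro s
  refine ⟨algebraMap K B (constantCoeff s), ?_⟩
  change s - toPS χ (algebraMap K B (constantCoeff s)) ∈ _
  rw [AlgHom.commutes, mem_varIdeal_iff, map_sub]
  have : constantCoeff (algebraMap K (PS χ) (constantCoeff s)) = constantCoeff s :=
    constantCoeff_C _
  rw [this, sub_self]

/-! ### injectivity on the graded pieces -/

/-- lifts of the basis of the cotangent space -/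
noncomputable def par0 (i : Fin (edim χ)) : ptIdeal χ :=
  ((ptIdeal χ).toCotangent_surjective (cotBasis χ i)).choose

lemma toCotangent_par0 (i : Fin (edim χ)) : (ptIdeal χ).toCotangent (par0 χ i) = cotBasis χ i :=
  ((ptIdeal χ).toCotangent_surjective (cotBasis χ i)).choose_spec

/-- the map from the polynomial ring -/
noncomputable def fromPoly : MvPolynomial (Fin (edim χ)) K →ₐ[K] B :=
  MvPolynomial.aeval (fun i => (par0 χ i : B))

lemma fromPoly_X (i : Fin (edim χ)) : fromPoly χ (MvPolynomial.X i) = par0 χ i :=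
  MvPolynomial.aeval_X _ _

lemma map_idealOfVars_le {S : Type*} [CommRing S] {n : ℕ} (f : MvPolynomial (Fin n) K →+* S)
    {I : Ideal S} (h : ∀ i, f (MvPolynomial.X i) ∈ I) (F : MvPolynomial (Fin n) K)
    (hF : F ∈ MvPolynomial.idealOfVars (Fin n) K) : f F ∈ I := by
  have : (MvPolynomial.idealOfVars (Fin n) K).map f ≤ I := by
    rw [MvPolynomial.idealOfVars, Ideal.map_span, Ideal.span_le]
    rintro _ ⟨_, ⟨i, rfl⟩, rfl⟩
    exact h i
  exact this (Ideal.mem_map_of_mem f hF)

lemma fromPoly_mem {F : MvPolynomial (Fin (edim χ)) K}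
    (hF : F ∈ MvPolynomial.idealOfVars (Fin (edim χ)) K) : fromPoly χ F ∈ ptIdeal χ :=
  map_idealOfVars_le (fromPoly χ).toRingHom
    (fun i => by change fromPoly χ _ ∈ _; rw [fromPoly_X]; exact (par0 χ i).2) F hF

lemma exists_fromPoly (k : ℕ) (b : B) : ∃ F, b - fromPoly χ F ∈ ptIdeal χ ^ k := by
  refine exists_sub_mem_pow (fromPoly χ).toRingHom
    (a := MvPolynomial.idealOfVars (Fin (edim χ)) K) (fun x hx => fromPoly_mem χ hx) ?_ ?_ k b
  · intro b
    refine ⟨MvPolynomial.C (χ b), ?_⟩
    change b - fromPoly χ (MvPolynomial.C (χ b)) ∈ _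
    rw [fromPoly, MvPolynomial.aeval_C]
    exact sub_mem_ptIdeal χ b
  · intro b hb
    set v := (ptIdeal χ).toCotangent ⟨b, hb⟩ with hv
    refine ⟨∑ i, MvPolynomial.C ((cotBasis χ).repr v i) * MvPolynomial.X i, ?_, ?_⟩
    · exact Ideal.sum_mem _ fun i _ => Ideal.mul_mem_left _ _ (Ideal.subset_span ⟨i, rfl⟩)
    · change b - fromPoly χ _ ∈ _
      have h1 : fromPoly χ (∑ i, MvPolynomial.C ((cotBasis χ).repr v i) * MvPolynomial.X i) =
          ((∑ i, algebraMap K B ((cotBasis χ).repr v i) • par0 χ i : ptIdeal χ) : B) := by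
        rw [map_sum, AddSubmonoidClass.coe_finsetSum]
        refine Finset.sum_congr rfl fun i _ => ?_
        rw [map_mul, fromPoly_X, fromPoly, MvPolynomial.aeval_C]
        rfl
      rw [h1]
      refine ((ptIdeal χ).toCotangent_eq (x := ⟨b, hb⟩)).mp ?_
      rw [map_sum]
      simp_rw [map_smul, toCotangent_par0, ← algebra_compatible_smul B]
      rw [Basis.sum_repr]

/-- composite with the map to power series -/
noncomputable def compPS : MvPolynomial (Fin (edim χ)) K →+* PS χ :=
  (toPS χ).toRingHom.comp (fromPoly χ).toRingHom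

lemma compPS_apply (F : MvPolynomial (Fin (edim χ)) K) : compPS χ F = toPS χ (fromPoly χ F) := rfl

lemma compPS_X_sub_mem (i : Fin (edim χ)) :
    compPS χ (MvPolynomial.X i) - X i ∈ varIdeal (edim χ) K ^ 2 := by
  rw [compPS_apply, fromPoly_X]
  have := toPS_sub_linForm_mem χ (par0 χ i).2
  rwa [show (⟨(par0 χ i : B), (par0 χ i).2⟩ : ptIdeal χ) = par0 χ i from rfl, toCotangent_par0,
    linForm_basis] at this

lemma compPS_sub_mem (F : MvPolynomial (Fin (edim χ)) K) :
    compPS χ F - (F : PS χ) ∈ varIdeal (edim χ) K := by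
  rw [mem_varIdeal_iff, map_sub, sub_eq_zero]
  have : (constantCoeff : PS χ →+* K).comp (compPS χ) =
      (constantCoeff : PS χ →+* K).comp MvPolynomial.coeToMvPowerSeries.ringHom := by
    apply MvPolynomial.ringHom_ext
    · intro r
      rw [RingHom.comp_apply, RingHom.comp_apply, compPS_apply, constantCoeff_toPS, fromPoly,
        MvPolynomial.aeval_C, AlgHom.commutes, MvPolynomial.coeToMvPowerSeries.ringHom_apply,
        MvPolynomial.coe_C, constantCoeff_C]
      rfl
    · intro i
      rw [RingHom.comp_apply, RingHom.comp_apply, compPS_apply, constantCoeff_toPS, fromPoly_X,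
        MvPolynomial.coeToMvPowerSeries.ringHom_apply, MvPolynomial.coe_X, constantCoeff_X]
      exact (mem_ptIdeal χ).mp (par0 χ i).2
  exact DFunLike.congr_fun this F

lemma coe_mem {F : MvPolynomial (Fin (edim χ)) K}
    (hF : F ∈ MvPolynomial.idealOfVars (Fin (edim χ)) K) : (F : PS χ) ∈ varIdeal (edim χ) K :=
  map_idealOfVars_le (MvPolynomial.coeToMvPowerSeries.ringHom : _ →+* PS χ) (I := varIdeal (edim χ) K)
    (fun i => by
      rw [MvPolynomial.coeToMvPowerSeries.ringHom_apply, MvPolynomial.coe_X]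
      exact Ideal.subset_span ⟨i, rfl⟩) F hF

lemma compPS_mem {F : MvPolynomial (Fin (edim χ)) K}
    (hF : F ∈ MvPolynomial.idealOfVars (Fin (edim χ)) K) : compPS χ F ∈ varIdeal (edim χ) K :=
  toPS_mem χ (fromPoly_mem χ hF)

lemma compPS_sub_mem_sq (F : MvPolynomial (Fin (edim χ)) K)
    (hF : F ∈ MvPolynomial.idealOfVars (Fin (edim χ)) K) :
    compPS χ F - (F : PS χ) ∈ varIdeal (edim χ) K ^ 2 := by
  rw [MvPolynomial.idealOfVars] at hF
  refine Submodule.span_induction ?_ ?_ ?_ ?_ hF
  · rintro _ ⟨i, rfl⟩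
    rw [MvPolynomial.coe_X]
    exact compPS_X_sub_mem χ i
  · rw [map_zero, MvPolynomial.coe_zero, sub_zero]; exact Ideal.zero_mem _
  · intro x y _ _ hx hy
    have : compPS χ (x + y) - ((x + y : MvPolynomial (Fin (edim χ)) K) : PS χ) =
        (compPS χ x - (x : PS χ)) + (compPS χ y - (y : PS χ)) := by
      rw [map_add, MvPolynomial.coe_add]; ring
    rw [this]
    exact Ideal.add_mem _ hx hy
  · intro a x hx hx2
    have hx' : x ∈ MvPolynomial.idealOfVars (Fin (edim χ)) K := hx
    have : compPS χ (a • x) - ((a • x : MvPolynomial (Fin (edim χ)) K) : PS χ) =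
        (compPS χ a - (a : PS χ)) * compPS χ x + (a : PS χ) * (compPS χ x - (x : PS χ)) := by
      rw [smul_eq_mul, map_mul, MvPolynomial.coe_mul]; ring
    rw [this]
    refine Ideal.add_mem _ ?_ (Ideal.mul_mem_left _ _ hx2)
    rw [pow_two]
    exact Ideal.mul_mem_mul (compPS_sub_mem χ a) (compPS_mem χ hx')

lemma compPS_sub_mem_pow (k : ℕ) (F : MvPolynomial (Fin (edim χ)) K)
    (hF : F ∈ MvPolynomial.idealOfVars (Fin (edim χ)) K ^ k) :
    compPS χ F - (F : PS χ) ∈ varIdeal (edim χ) K ^ (k + 1) :=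
  sub_mem_pow_succ (compPS χ) (MvPolynomial.coeToMvPowerSeries.ringHom : _ →+* PS χ)
    (fun _ hx => coe_mem χ hx) (compPS_sub_mem χ) (compPS_sub_mem_sq χ) k F hF

lemma mem_pow_of_compPS_mem (k : ℕ) (F : MvPolynomial (Fin (edim χ)) K)
    (hF : compPS χ F ∈ varIdeal (edim χ) K ^ k) : F ∈ MvPolynomial.idealOfVars (Fin (edim χ)) K ^ k := by
  induction k with
  | zero => simp
  | succ k ih =>
    have h1 := ih (Ideal.pow_le_pow_right (Nat.le_succ k) hF)
    have h2 := compPS_sub_mem_pow χ k F h1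
    have h3 : (F : PS χ) ∈ varIdeal (edim χ) K ^ (k + 1) := by
      have : (F : PS χ) = compPS χ F - (compPS χ F - (F : PS χ)) := by ring
      rw [this]
      exact Ideal.sub_mem _ hF h2
    rw [mem_varIdeal_pow_iff] at h3
    rw [MvPolynomial.mem_pow_idealOfVars_iff']
    intro x hx
    rw [← MvPolynomial.coeff_coe]
    exact h3 x hx

/-- the map to power series is injective on all graded pieces -/
lemma mem_pow_of_toPS_mem (k : ℕ) (b : B) (hb : toPS χ b ∈ varIdeal (edim χ) K ^ k) :
    b ∈ ptIdeal χ ^ k := by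
  obtain ⟨F, hF⟩ := exists_fromPoly χ k b
  have hmap : ∀ x ∈ ptIdeal χ ^ k, toPS χ x ∈ varIdeal (edim χ) K ^ k :=
    map_mem_pow (toPS χ).toRingHom (fun x hx => toPS_mem χ hx) k
  have h2 : compPS χ F ∈ varIdeal (edim χ) K ^ k := by
    have : compPS χ F = toPS χ b - toPS χ (b - fromPoly χ F) := by
      rw [compPS_apply, map_sub]; ring
    rw [this]
    exact Ideal.sub_mem _ hb (hmap _ hF)
  have h3 := mem_pow_of_compPS_mem χ k F h2
  have h4 : fromPoly χ F ∈ ptIdeal χ ^ k :=
    map_mem_pow (fromPoly χ).toRingHom (fun x hx => fromPoly_mem χ hx) k F h3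
  have : b = (b - fromPoly χ F) + fromPoly χ F := by ring
  rw [this]
  exact Ideal.add_mem _ hF h4

lemma toPS_mem_pow (k : ℕ) (x : B) (hx : x ∈ ptIdeal χ ^ k) : toPS χ x ∈ varIdeal (edim χ) K ^ k :=
  map_mem_pow (toPS χ).toRingHom (fun x hx => toPS_mem χ hx) k x hx

end smooth

end Fermat.Agent.H76
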