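import Mathlib.RingTheory.Smooth.StandardSmoothCotangent
import Mathlib.RingTheory.Jacobson.Ring
import Mathlib.FieldTheory.IsAlgClosed.Basic
import Mathlib.RingTheory.Localization.AtPrime.Basic
import Fermat.Agent.H76PSUfd
import Fermat.Agent.H76Descent
import Fermat.Agent.H76SmoothPS
set_option autoImplicit false

/-! # Colon ideals in local rings of smooth varieties are principal (helper76, S26-J1) -/

namespace Fermat.Agent.H76

universe u

open MvPowerSeries

section point

variable {K : Type u} [Field K] [Infinite K] {B : Type u} [CommRing B] [Algebra K B]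
  [IsNoetherianRing B] [Algebra.FormallySmooth K B] (χ : B →ₐ[K] K)

instance isPrime_ptIdeal : (ptIdeal χ).IsPrime := RingHom.ker_isPrime _

lemma isUnit_toPS {b : B} (hb : b ∉ ptIdeal χ) : IsUnit (toPS χ b) := by
  rw [MvPowerSeries.isUnit_iff_constantCoeff, constantCoeff_toPS, isUnit_iff_ne_zero]
  exact fun h => hb ((mem_ptIdeal χ).mpr h)

/-- the map from the local ring at the point -/
noncomputable def locPS : Localization.AtPrime (ptIdeal χ) →+* PS χ :=
  IsLocalization.lift (M := (ptIdeal χ).primeCompl) (g := (toPS χ).toRingHom)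
    (fun y => isUnit_toPS χ y.2)

lemma locPS_algebraMap (b : B) : locPS χ (algebraMap B _ b) = toPS χ b :=
  IsLocalization.lift_eq _ _

lemma locPS_mem_pow (k : ℕ) (x : Localization.AtPrime (ptIdeal χ))
    (hx : x ∈ IsLocalRing.maximalIdeal (Localization.AtPrime (ptIdeal χ)) ^ k) :
    locPS χ x ∈ IsLocalRing.maximalIdeal (PS χ) ^ k := by
  refine map_mem_pow (locPS χ) (a := IsLocalRing.maximalIdeal _) ?_ k x hx
  rw [maximalIdeal_eq_varIdeal]
  intro y hy
  rw [← Localization.AtPrime.map_eq_maximalIdeal] at hy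
  have h1 : (ptIdeal χ).map (algebraMap B (Localization.AtPrime (ptIdeal χ))) ≤
      (varIdeal (edim χ) K).comap (locPS χ) := by
    rw [Ideal.map_le_iff_le_comap]
    intro b hb
    rw [Ideal.mem_comap, Ideal.mem_comap, locPS_algebraMap]
    exact toPS_mem χ hb
  exact h1 hy

lemma mem_pow_of_locPS_mem (k : ℕ) (x : Localization.AtPrime (ptIdeal χ))
    (hx : locPS χ x ∈ IsLocalRing.maximalIdeal (PS χ) ^ k) :
    x ∈ IsLocalRing.maximalIdeal (Localization.AtPrime (ptIdeal χ)) ^ k := by
  rw [maximalIdeal_eq_varIdeal] at hx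
  obtain ⟨b, s, rfl⟩ := IsLocalization.exists_mk'_eq (ptIdeal χ).primeCompl x
  have h1 : locPS χ (algebraMap B _ b) ∈ varIdeal (edim χ) K ^ k := by
    rw [← IsLocalization.mk'_spec' (Localization.AtPrime (ptIdeal χ)) b s, map_mul]
    exact Ideal.mul_mem_left _ _ hx
  rw [locPS_algebraMap] at h1
  have h2 := mem_pow_of_toPS_mem χ k b h1
  rw [← Localization.AtPrime.map_eq_maximalIdeal, ← Ideal.map_pow,
    IsLocalization.mk'_eq_mul_mk'_one]
  exact Ideal.mul_mem_right _ _ (Ideal.mem_map_of_mem _ h2)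

lemma exists_locPS_sub_mem (k : ℕ) (s : PS χ) : ∃ r : Localization.AtPrime (ptIdeal χ),
    s - locPS χ r ∈ IsLocalRing.maximalIdeal (PS χ) ^ k := by
  obtain ⟨b, hb⟩ := exists_toPS_sub_mem χ k s
  refine ⟨algebraMap B _ b, ?_⟩
  rw [maximalIdeal_eq_varIdeal, locPS_algebraMap]
  exact hb

instance isDomain_PS : IsDomain (PS χ) := NoZeroDivisors.to_isDomain _

theorem colon_principal_point (a b : Localization.AtPrime (ptIdeal χ)) :
    ∃ d, ∀ c, b ∣ c * a ↔ d ∣ c := by
  have : UniqueFactorizationMonoid (PS χ) := mvPowerSeries_ufd K (edim χ)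
  have : IsNoetherianRing (Localization.AtPrime (ptIdeal χ)) :=
    IsLocalization.isNoetherianRing (ptIdeal χ).primeCompl _ inferInstance
  exact colon_principal_of_completion (locPS χ) (locPS_mem_pow χ) (mem_pow_of_locPS_mem χ)
    (exists_locPS_sub_mem χ) colon_principal_of_ufd a b

end point

/-- a closed point specialising a prime -/
lemma exists_point {K : Type u} [Field K] [IsAlgClosed K] {B : Type u} [CommRing B]
    [Algebra K B] [Algebra.FiniteType K B] (p : Ideal B) [hp : p.IsPrime] :
    ∃ χ : B →ₐ[K] K, p ≤ ptIdeal χ := by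
  obtain ⟨M, hM, hpM⟩ := Ideal.exists_le_maximal p hp.ne_top
  let _ : Field (B ⧸ M) := Ideal.Quotient.field M
  have h1 : Module.Finite K (B ⧸ M) := finite_of_finite_type_of_isJacobsonRing K (B ⧸ M)
  have h2 : Function.Bijective (algebraMap K (B ⧸ M)) :=
    IsAlgClosed.algebraMap_bijective_of_isIntegral
  let e : K ≃ₐ[K] (B ⧸ M) := AlgEquiv.ofBijective (Algebra.ofId K (B ⧸ M)) h2
  refine ⟨e.symm.toAlgHom.comp (Ideal.Quotient.mkₐ K M), fun x hx => ?_⟩
  rw [mem_ptIdeal]
  change e.symm (Ideal.Quotient.mk M x) = 0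
  rw [Ideal.Quotient.eq_zero_iff_mem.mpr (hpM hx), map_zero]

/-- from a closed point to a more general prime -/
lemma colon_principal_of_le {B : Type u} [CommRing B] [IsDomain B] (p q : Ideal B) [p.IsPrime]
    [q.IsPrime] (hpq : p ≤ q)
    (hq : ∀ a b : Localization.AtPrime q, ∃ d, ∀ c, b ∣ c * a ↔ d ∣ c)
    (a b : Localization.AtPrime p) : ∃ d, ∀ c, b ∣ c * a ↔ d ∣ c := by
  -- reduce divisibility in a localisation to divisibility in `B`
  have key : ∀ (r : Ideal B) [r.IsPrime] (x y : B) (s t : r.primeCompl),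
      IsLocalization.mk' (Localization.AtPrime r) x s ∣ IsLocalization.mk' (Localization.AtPrime r) y t ↔
      ∃ w : B, w ∉ r ∧ x ∣ w * y := by
    intro r _ x y s t
    constructor
    · rintro ⟨z, hz⟩
      obtain ⟨z', v, rfl⟩ := IsLocalization.exists_mk'_eq r.primeCompl z
      rw [← IsLocalization.mk'_mul, IsLocalization.mk'_eq_iff_eq] at hz
      have h1 := IsLocalization.injective (Localization.AtPrime r) r.primeCompl_le_nonZeroDivisors hz
      refine ⟨((s * v : r.primeCompl) : B), (s * v).2, ?_⟩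
      rw [h1]
      exact ⟨(t : B) * z', by ring⟩
    · rintro ⟨w, hw, z, hz⟩
      refine ⟨IsLocalization.mk' _ (z * s) (⟨w, hw⟩ * t : r.primeCompl), ?_⟩
      rw [← IsLocalization.mk'_mul, IsLocalization.mk'_eq_iff_eq]
      congr 1
      change ((s : B) * (w * t)) * y = t * (x * (z * s))
      linear_combination (s : B) * t * hz
  obtain ⟨a', s, rfl⟩ := IsLocalization.exists_mk'_eq p.primeCompl a
  obtain ⟨b', t, rfl⟩ := IsLocalization.exists_mk'_eq p.primeCompl b
  obtain ⟨d, hd⟩ := hq (IsLocalization.mk' _ a' (1 : q.primeCompl))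
    (IsLocalization.mk' _ b' (1 : q.primeCompl))
  obtain ⟨d', v, rfl⟩ := IsLocalization.exists_mk'_eq q.primeCompl d
  -- the statement in terms of `B`
  have hd' : ∀ c : B, (∃ w : B, w ∉ q ∧ b' ∣ w * (c * a')) ↔ ∃ w : B, w ∉ q ∧ d' ∣ w * c := by
    intro c
    have h1 := hd (IsLocalization.mk' _ c (1 : q.primeCompl))
    rw [← IsLocalization.mk'_mul, key q, key q] at h1
    exact h1
  refine ⟨IsLocalization.mk' _ d' (1 : p.primeCompl), fun c => ?_⟩
  obtain ⟨c', u, rfl⟩ := IsLocalization.exists_mk'_eq p.primeCompl c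
  rw [← IsLocalization.mk'_mul, key p, key p]
  constructor
  · rintro ⟨w, hw, h1⟩
    obtain ⟨w', hw', h2⟩ := (hd' (w * c')).mp ⟨1, by
      rw [← Ideal.ne_top_iff_one]; exact Ideal.IsPrime.ne_top inferInstance, by
      rw [one_mul, mul_assoc]; exact h1⟩
    refine ⟨w' * w, ?_, by rw [mul_assoc]; exact h2⟩
    intro h3
    rcases Ideal.IsPrime.mem_or_mem inferInstance h3 with h4 | h4
    · exact hw' (hpq h4)
    · exact hw h4
  · rintro ⟨w, hw, h1⟩
    obtain ⟨w', hw', h2⟩ := (hd' (w * c')).mpr ⟨1, by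
      rw [← Ideal.ne_top_iff_one]; exact Ideal.IsPrime.ne_top inferInstance, by
      rw [one_mul]; exact h1⟩
    refine ⟨w' * w, ?_, ?_⟩
    · intro h3
      rcases Ideal.IsPrime.mem_or_mem inferInstance h3 with h4 | h4
      · exact hw' (hpq h4)
      · exact hw h4
    · have : w' * w * (c' * a') = w' * (w * c' * a') := by ring
      rw [this]
      exact h2

/-- [S26-J1] colon ideals in local rings of smooth varieties are principal -/
theorem colon_principal {K : Type u} [Field K] [IsAlgClosed K] {B : Type u} [CommRing B]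
    [IsDomain B] [Algebra K B] (g : ℕ) [Algebra.IsStandardSmoothOfRelativeDimension g K B]
    (p : Ideal B) [p.IsPrime] (a b : Localization.AtPrime p) :
    ∃ d, ∀ c, b ∣ c * a ↔ d ∣ c := by
  have h1 : Algebra.IsStandardSmooth K B :=
    Algebra.IsStandardSmoothOfRelativeDimension.isStandardSmooth g
  have h2 : Algebra.Smooth K B := inferInstance
  have h3 : Algebra.FormallySmooth K B := h2.formallySmooth
  have h4 : Algebra.FiniteType K B := inferInstance
  have h5 : IsNoetherianRing B := Algebra.FiniteType.isNoetherianRing K B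
  have h6 : Infinite K := IsAlgClosed.instInfinite
  obtain ⟨χ, hχ⟩ := exists_point (K := K) p
  exact colon_principal_of_le p (ptIdeal χ) hχ (fun a b => colon_principal_point χ a b) a b

end Fermat.Agent.H76
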