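import Mathlib
import Fermat.Agent.H35Dens
import Fermat.Agent.H63Minkowski
import Fermat.Agent.H54Frobenius

/-!
# MAZUR G1, part a: characters and 2-dimensional representations over complete local domains
(helper76)
-/

set_option autoImplicit false

noncomputable section

open IsLocalRing

namespace Fermat.Agent.H76G

abbrev Qb : Type := AlgebraicClosure ℚ
abbrev GQ : Type := Qb ≃ₐ[ℚ] Qb
abbrev M2 (A : Type) := Matrix (Fin 2) (Fin 2) A

local instance isAlgebraicQbar_g : Algebra.IsAlgebraic ℚ (AlgebraicClosure ℚ) :=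
  AlgebraicClosure.isAlgebraic ℚ
local instance isAlgClosureQbar_g : IsAlgClosure ℚ (AlgebraicClosure ℚ) :=
  ⟨inferInstance, inferInstance⟩
local instance normalQbar_g : Normal ℚ (AlgebraicClosure ℚ) :=
  IsAlgClosure.normal ℚ (AlgebraicClosure ℚ)
local instance galQbar_g : IsGalois ℚ (AlgebraicClosure ℚ) := ⟨⟩

/-! ### Minkowski for representations -/

/-- a monoid homomorphism from the Galois group which is trivial on an open subgroup and on one
inertia group over every prime is trivial -/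
theorem eq_one_of_unramified {M : Type*} [Monoid M] (f : GQ →* M)
    (L : IntermediateField ℚ Qb) [FiniteDimensional ℚ L] (hL : ∀ σ : GQ, (∀ x ∈ L, σ x = x) → f σ = 1)
    (h : ∀ q : ℕ, q.Prime → ∃ A : ValuationSubring Qb, A.LiesOverPrime q ∧
      ∀ σ ∈ A.inertiaSubgroupIn ℚ, f σ = 1) (σ : GQ) : f σ = 1 := by
  let f' : GQ →* Mˣ := f.toHomUnits
  have hf' : ∀ σ, f' σ = 1 ↔ f σ = 1 := by
    intro σ
    rw [← Units.val_inj]
    rfl
  have hopen : IsOpen (f'.ker : Set GQ) := by
    refine Subgroup.isOpen_mono (H₁ := L.fixingSubgroup) ?_ (L.fixingSubgroup_isOpen)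
    intro τ hτ
    rw [MonoidHom.mem_ker, hf']
    exact hL τ fun x hx => (IntermediateField.mem_fixingSubgroup_iff L τ).mp hτ x hx
  have h1 := H63.eq_one_of_isOpen_ker f' hopen (fun q hq => by
    obtain ⟨A, hA, h2⟩ := h q hq
    exact ⟨A, hA, fun σ hσ => (hf' σ).mpr (h2 σ hσ)⟩)
  rw [← hf', h1]
  rfl

section adic

variable {O : Type} [CommRing O] [IsLocalRing O] [IsAdicComplete (maximalIdeal O) O]

theorem eq_zero_of_forall_mem_pow {x : O} (hx : ∀ n : ℕ, x ∈ maximalIdeal O ^ n) : x = 0 := by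
  refine IsHausdorff.haus (I := maximalIdeal O) inferInstance _ fun n => ?_
  rw [SModEq.zero, smul_eq_mul, Ideal.mul_top]
  exact hx n

/-- a continuous character unramified everywhere is trivial -/
theorem char_eq_one (c : GQ →* O) (hc : H35.CharCont O c)
    (h : ∀ q : ℕ, q.Prime → ∃ A : ValuationSubring Qb, A.LiesOverPrime q ∧
      ∀ σ ∈ A.inertiaSubgroupIn ℚ, c σ = 1) (σ : GQ) : c σ = 1 := by
  rw [← sub_eq_zero]
  refine eq_zero_of_forall_mem_pow fun n => ?_
  obtain ⟨L, hL, hL'⟩ := hc n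
  let q : O →* O ⧸ maximalIdeal O ^ n := (Ideal.Quotient.mk (maximalIdeal O ^ n) : O →+* _)
  have h1 := eq_one_of_unramified (q.comp c) L (fun σ hσ => by
    have h2 := hL' σ hσ
    rw [← Ideal.Quotient.eq_zero_iff_mem, map_sub, sub_eq_zero, map_one] at h2
    exact h2) (fun p hp => by
    obtain ⟨A, hA, h2⟩ := h p hp
    refine ⟨A, hA, fun σ hσ => ?_⟩
    rw [MonoidHom.comp_apply, h2 σ hσ, map_one]) σ
  rw [← Ideal.Quotient.eq_zero_iff_mem, map_sub, sub_eq_zero, map_one]
  exact h1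

end adic

/-! ### the cyclotomic character is ramified -/

section cyc

variable (O : Type) [CommRing O] [IsLocalRing O] [IsAdicComplete (maximalIdeal O) O]
  {r : ℕ} [Fact r.Prime] (hr : (r : O) ∈ maximalIdeal O)

/-- the cyclotomic character is non trivial on inertia at `r` (characteristic zero) -/
theorem exists_cyc_ne_one [CharZero O] {A : ValuationSubring Qb} (hA : A.LiesOverPrime r) :
    ∃ σ ∈ A.inertiaSubgroupIn ℚ, H35.cyc O hr σ ≠ 1 := by
  by_contra hcon
  push Not at hcon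
  have h1 : ∀ σ, H35.cyc O hr σ = 1 := char_eq_one (H35.cyc O hr) (H35.cyc_charCont O hr)
    (fun q hq => by
      by_cases hqr : q = r
      · subst hqr
        exact ⟨A, hA, hcon⟩
      · obtain ⟨B, hB⟩ := H54.exists_liesOverPrime hq
        exact ⟨B, hB, fun σ hσ => H35.cyc_inertia O hr hq hqr hB hσ⟩)
  obtain ⟨ℓ, hℓ, hℓr, B, hB, φ, hφ, -⟩ :=
    H86.frobenius_density H86.frobDensityFinite (⊥ : IntermediateField ℚ Qb) 1 {r}
  have h2 := H35.cyc_frobenius O hr hℓ (by simpa using hℓr) hB hφ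
  rw [h1] at h2
  have h3 : ((1 : ℕ) : O) = (ℓ : O) := by rw [Nat.cast_one]; exact h2
  have h4 := Nat.cast_injective h3
  exact hℓ.one_lt.ne h4

/-- the cyclotomic character modulo the maximal ideal is non trivial on inertia at `r`, `r` odd -/
theorem exists_cyc_sub_one_notMem (hr3 : 3 ≤ r) {A : ValuationSubring Qb}
    (hA : A.LiesOverPrime r) :
    ∃ σ ∈ A.inertiaSubgroupIn ℚ, H35.cyc O hr σ - 1 ∉ maximalIdeal O := by
  by_contra hcon
  push Not at hcon
  let q : O →* O ⧸ maximalIdeal O := (Ideal.Quotient.mk (maximalIdeal O) : O →+* _)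
  obtain ⟨L, hL, hL'⟩ := H35.cyc_charCont O hr 1
  have hq : ∀ x : O, q x = 1 ↔ x - 1 ∈ maximalIdeal O := by
    intro x
    rw [← Ideal.Quotient.eq_zero_iff_mem, map_sub, sub_eq_zero, map_one]
    rfl
  have h1 := eq_one_of_unramified (q.comp (H35.cyc O hr)) L (fun σ hσ => by
    have h2 := hL' σ hσ
    rw [pow_one] at h2
    exact (hq _).mpr h2) (fun p hp => by
      by_cases hpr : p = r
      · subst hpr
        exact ⟨A, hA, fun σ hσ => (hq _).mpr (hcon σ hσ)⟩
      · obtain ⟨B, hB⟩ := H54.exists_liesOverPrime hp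
        refine ⟨B, hB, fun σ hσ => ?_⟩
        rw [MonoidHom.comp_apply, H35.cyc_inertia O hr hp hpr hB hσ, map_one])
  -- a prime `ℓ ≡ 2 mod r`
  have h2r : Nat.Coprime 2 r := (Nat.coprime_primes Nat.prime_two Fact.out).mpr (by omega)
  obtain ⟨ℓ, hℓgt, hℓ, hℓ2⟩ := Nat.forall_exists_prime_gt_and_modEq (q := r) (a := 2) r
    (Fact.out : r.Prime).ne_zero h2r
  obtain ⟨B, hB⟩ := H54.exists_liesOverPrime hℓ
  obtain ⟨φ, hφ⟩ := H54.exists_isFrobeniusAt hℓ hB
  have h2 := H35.cyc_frobenius O hr hℓ (by omega) hB hφ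
  have h3 := (hq _).mp (h1 φ)
  rw [h2] at h3
  obtain ⟨m, hm⟩ := (Nat.modEq_iff_dvd.mp hℓ2.symm)
  have h4 : (ℓ : O) - 1 = (r : O) * ((m : ℤ) : O) + 1 := by
    have h5 : ((ℓ : ℤ) : O) = (((r : ℤ) * m + 2 : ℤ) : O) := by
      congr 1
      push_cast at hm
      linarith
    rw [Int.cast_natCast] at h5
    rw [h5]
    push_cast
    ring
  rw [h4] at h3
  have h6 : (1 : O) ∈ maximalIdeal O := by
    have := Ideal.sub_mem _ h3 (Ideal.mul_mem_right ((m : ℤ) : O) _ hr)
    rwa [add_sub_cancel_left] at this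
  exact (Ideal.ne_top_iff_one _).mp (maximalIdeal.isMaximal O).ne_top h6

end cyc

end Fermat.Agent.H76G
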