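import Fermat.Agent.H76G1a
import Fermat.Agent.S14
import Fermat.Agent.H14Kummer

/-!
# MAZUR G1, part b: locally trivial extensions of `μ_r` by `ℤ/r` are trivial, cocycle form
(helper76)
-/

set_option autoImplicit false

noncomputable section

open IsLocalRing ExtCitation
open scoped Pointwise

namespace Fermat.Agent.H76G

local instance isAlgebraicQbar_gb : Algebra.IsAlgebraic ℚ (AlgebraicClosure ℚ) :=
  AlgebraicClosure.isAlgebraic ℚ
local instance isAlgClosureQbar_gb : IsAlgClosure ℚ (AlgebraicClosure ℚ) :=
  ⟨inferInstance, inferInstance⟩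
local instance normalQbar_gb : Normal ℚ (AlgebraicClosure ℚ) :=
  IsAlgClosure.normal ℚ (AlgebraicClosure ℚ)
local instance galQbar_gb : IsGalois ℚ (AlgebraicClosure ℚ) := ⟨⟩

variable {r : ℕ} [Fact r.Prime]

/-- the mod `r` cyclotomic character -/
def chi (r : ℕ) [Fact r.Prime] : GQ →* ZMod r where
  toFun σ := (cycloExp r σ : ZMod r)
  map_one' := by
    haveI : NeZero r := ⟨(Fact.out : r.Prime).ne_zero⟩
    simp only [cycloExp, ZMod.natCast_zmod_val]
    have : ((1 : GQ) : AlgebraicClosure ℚ ≃+* AlgebraicClosure ℚ) = 1 := rfl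
    rw [this, map_one]
    rfl
  map_mul' σ τ := by
    haveI : NeZero r := ⟨(Fact.out : r.Prime).ne_zero⟩
    simp only [cycloExp, ZMod.natCast_zmod_val]
    have : ((σ * τ : GQ) : AlgebraicClosure ℚ ≃+* AlgebraicClosure ℚ) =
      (σ : AlgebraicClosure ℚ ≃+* AlgebraicClosure ℚ) * (τ : AlgebraicClosure ℚ ≃+* AlgebraicClosure ℚ) := rfl
    rw [this, map_mul]
    rfl

theorem chi_apply (σ : GQ) : chi r σ = (cycloExp r σ : ZMod r) := rfl

/-- the representation attached to a cocycle -/
def extRep (g : GQ → ZMod r) (hg : ∀ σ τ, g (σ * τ) = g σ * chi r τ + g τ) :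
    GQ →* Module.End (ZMod r) (Fin 2 → ZMod r) where
  toFun σ := Matrix.toLin' !![chi r σ, 0; g σ, 1]
  map_one' := by
    have h1 : g 1 = 0 := by
      have := hg 1 1
      rw [mul_one, map_one, mul_one] at this
      simpa using this
    rw [h1, map_one]
    have : (!![1, 0; 0, 1] : Matrix (Fin 2) (Fin 2) (ZMod r)) = 1 := by
      ext i j; fin_cases i <;> fin_cases j <;> rfl
    rw [this, Matrix.toLin'_one]
    rfl
  map_mul' σ τ := by
    rw [hg, map_mul]
    change _ = (Matrix.toLin' _).comp (Matrix.toLin' _)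
    rw [← Matrix.toLin'_mul]
    congr 1
    ext i j
    fin_cases i <;> fin_cases j <;> simp [Matrix.mul_apply, Fin.sum_univ_two]

theorem extRep_apply (g : GQ → ZMod r) (hg) (σ : GQ) (v : Fin 2 → ZMod r) :
    extRep g hg σ v = ![chi r σ * v 0, g σ * v 0 + v 1] := by
  change Matrix.toLin' !![chi r σ, 0; g σ, 1] v = _
  rw [Matrix.toLin'_apply]
  ext i
  fin_cases i <;> simp [Matrix.mulVec, dotProduct, Fin.sum_univ_two]

/-- cocycle form of S14 -/
theorem cocycle_eq_zero (hr3 : 3 ≤ r) (g : GQ → ZMod r)
    (hg : ∀ σ τ, g (σ * τ) = g σ * chi r τ + g τ)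
    (L : IntermediateField ℚ Qb) [FiniteDimensional ℚ L]
    (hL : ∀ σ : GQ, (∀ x ∈ L, σ x = x) → g σ = 0)
    (hunr : ∀ q : ℕ, q.Prime → q ≠ r → ∀ A : ValuationSubring Qb, A.LiesOverPrime q →
      ∀ σ ∈ A.inertiaSubgroupIn ℚ, g σ = 0)
    {A : ValuationSubring Qb} (hA : A.LiesOverPrime r)
    (hD : ∀ σ ∈ A.decompositionSubgroup ℚ, g σ = 0)
    (σ₀ : GQ) (hσ₀ : g σ₀ = 0) (hχ₀ : chi r σ₀ ≠ 1) : ∀ σ, g σ = 0 := by
  haveI : NeZero r := ⟨(Fact.out : r.Prime).ne_zero⟩
  letI act : DistribMulAction GQ (Fin 2 → ZMod r) :=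
    DistribMulAction.compHom (Fin 2 → ZMod r) (extRep g hg)
  have hact : ∀ (σ : GQ) (v : Fin 2 → ZMod r), σ • v = ![chi r σ * v 0, g σ * v 0 + v 1] :=
    fun σ v => extRep_apply g hg σ v
  letI comm : SMulCommClass GQ (ZMod r) (Fin 2 → ZMod r) := ⟨fun σ c v => by
    rw [hact, hact]
    ext i
    fin_cases i <;> simp <;> ring⟩
  let C : Submodule (ZMod r) (Fin 2 → ZMod r) :=
    { carrier := {v | v 0 = 0}
      zero_mem' := rfl
      add_mem' := fun {a b} ha hb => by
        change a 0 + b 0 = 0
        rw [show a 0 = 0 from ha, show b 0 = 0 from hb, add_zero]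
      smul_mem' := fun c a ha => by
        change c * a 0 = 0
        rw [show a 0 = 0 from ha, mul_zero] }
  have hC : ∀ v : Fin 2 → ZMod r, v ∈ C ↔ v 0 = 0 := fun v => Iff.rfl
  have hχur : ∀ q : ℕ, q.Prime → q ≠ r → ∀ B : ValuationSubring Qb, B.LiesOverPrime q →
      ∀ σ ∈ B.inertiaSubgroupIn ℚ, chi r σ = 1 := by
    intro q hq hqr B hB σ hσ
    obtain ⟨ζ, hζ⟩ := HasEnoughRootsOfUnity.exists_primitiveRoot (AlgebraicClosure ℚ) r
    have h1 := H31.inertia_apply_rootOfUnity B hB
      ((Nat.coprime_primes hq Fact.out).mpr hqr) (Fact.out : r.Prime).pos hσ hζ.1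
    have h2 := H14.apply_root (p := r) σ hζ.1
    rw [h1] at h2
    have h3 : ζ ^ 1 = ζ ^ cycloExp r σ := by rw [pow_one]; exact h2
    rw [(hζ.isOfFinOrder (NeZero.ne r)).pow_eq_pow_iff_modEq, ← hζ.eq_orderOf] at h3
    have h4 := (ZMod.natCast_eq_natCast_iff _ _ _).mpr h3
    rw [chi_apply, ← h4, Nat.cast_one]
  have hadm : IsAdmissibleExtensionCts r (Fin 2 → ZMod r) C :=
    { stable := fun σ x hx => by
        rw [hact]; change chi r σ * x 0 = 0; rw [(hC x).mp hx, mul_zero]
      fixed_sub := fun σ x hx => by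
        rw [hact, (hC x).mp hx]
        ext i; fin_cases i
        · change chi r σ * 0 = x 0
          rw [(hC x).mp hx, mul_zero]
        · change g σ * 0 + x 1 = x 1
          rw [mul_zero, zero_add]
      cyclo_quot := fun σ x => by
        rw [hact]
        change chi r σ * x 0 - (cycloExp r σ : ZMod r) * x 0 = 0
        rw [chi_apply, sub_self]
      card_sub := by
        have e : C ≃ ZMod r :=
          { toFun := fun v => v.1 1
            invFun := fun c => ⟨![0, c], rfl⟩
            left_inv := fun v => by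
              apply Subtype.ext
              funext i
              fin_cases i
              · exact ((hC v.1).mp v.2).symm
              · rfl
            right_inv := fun c => rfl }
        rw [Nat.card_congr e, Nat.card_zmod]
      card_total := by
        rw [Nat.card_eq_fintype_card, Fintype.card_fun, Fintype.card_fin, ZMod.card]
      unramified_outside := fun q hq hqr B hB σ hσ x => by
        rw [hact, hunr q hq hqr B hB σ hσ, hχur q hq hqr B hB σ hσ]
        ext i; fin_cases i
        · change 1 * x 0 = x 0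
          rw [one_mul]
        · change 0 * x 0 + x 1 = x 1
          rw [zero_mul, zero_add]
      locally_split := fun B hB => by
        obtain ⟨τ, rfl⟩ := H54.exists_smul_eq (Fact.out : r.Prime) hA hB
        -- the complement `τ • ⟨e₁⟩`
        let v : Fin 2 → ZMod r := τ • ![1, 0]
        have hv0 : v 0 = chi r τ := by
          change (τ • (![1, 0] : Fin 2 → ZMod r)) 0 = _
          rw [hact]; simp
        have hχτ : chi r τ ≠ 0 := by
          intro h0
          have h1 : chi r τ * chi r τ⁻¹ = 1 := by rw [← map_mul, mul_inv_cancel, map_one]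
          rw [h0, zero_mul] at h1
          exact zero_ne_one h1
        refine ⟨Submodule.span (ZMod r) {v}, ?_, ?_⟩
        · intro σ hσ x hx
          obtain ⟨c, rfl⟩ := Submodule.mem_span_singleton.mp hx
          have hconj : τ⁻¹ * σ * τ ∈ A.decompositionSubgroup ℚ := by
            have h1 : σ • (τ • A) = τ • A := hσ
            change (τ⁻¹ * σ * τ) • A = A
            rw [mul_smul, mul_smul, h1, inv_smul_smul]
          have h2 : σ • v = chi r (τ⁻¹ * σ * τ) • v := by
            have h3 : σ • v = τ • ((τ⁻¹ * σ * τ) • (![1, 0] : Fin 2 → ZMod r)) := by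
              change σ • τ • _ = _
              rw [smul_smul, smul_smul]
              congr 1
              group
            have h4 : (τ⁻¹ * σ * τ) • (![1, 0] : Fin 2 → ZMod r) =
                chi r (τ⁻¹ * σ * τ) • (![1, 0] : Fin 2 → ZMod r) := by
              rw [hact, hD _ hconj]
              ext i; fin_cases i <;> simp
            rw [h3, h4, smul_comm]
          rw [smul_comm, h2]
          exact Submodule.smul_mem _ _ (Submodule.smul_mem _ _
            (Submodule.mem_span_singleton_self _))
        · rw [isCompl_iff]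
          constructor
          · rw [Submodule.disjoint_def]
            intro x hx hx'
            obtain ⟨c, rfl⟩ := Submodule.mem_span_singleton.mp hx'
            have h1 : c * v 0 = 0 := hx
            rw [hv0] at h1
            rw [(mul_eq_zero.mp h1).resolve_right hχτ, zero_smul]
          · rw [codisjoint_iff, eq_top_iff]
            intro x _
            rw [Submodule.mem_sup]
            refine ⟨x - (x 0 / chi r τ) • v, ?_, (x 0 / chi r τ) • v,
              Submodule.smul_mem _ _ (Submodule.mem_span_singleton_self _), by abel⟩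
            change x 0 - (x 0 / chi r τ) * v 0 = 0
            rw [hv0, div_mul_cancel₀ _ hχτ, sub_self]
      open_kernel := by
        obtain ⟨ζ, hζ⟩ := HasEnoughRootsOfUnity.exists_primitiveRoot (AlgebraicClosure ℚ) r
        have hint : IsIntegral ℚ ζ := (hζ.isIntegral (Fact.out : r.Prime).pos).tower_top
        haveI : FiniteDimensional ℚ (IntermediateField.adjoin ℚ {ζ}) :=
          IntermediateField.adjoin.finiteDimensional hint
        haveI : FiniteDimensional ℚ (L ⊔ IntermediateField.adjoin ℚ {ζ} : IntermediateField ℚ Qb) :=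
          IntermediateField.finiteDimensional_sup _ _
        let U : Subgroup GQ := (L ⊔ IntermediateField.adjoin ℚ {ζ} :
          IntermediateField ℚ Qb).fixingSubgroup
        have hU : IsOpen (U : Set GQ) := IntermediateField.fixingSubgroup_isOpen _
        let H : Subgroup GQ :=
          { carrier := {σ | ∀ v : Fin 2 → ZMod r, σ • v = v}
            one_mem' := fun v => one_smul _ v
            mul_mem' := fun {a b} ha hb v => by rw [mul_smul, hb, ha]
            inv_mem' := fun {a} ha v => by rw [inv_smul_eq_iff, ha] }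
        have hle : U ≤ H := by
          intro σ hσ v
          have hfix : ∀ x ∈ (L ⊔ IntermediateField.adjoin ℚ {ζ} : IntermediateField ℚ Qb),
              σ x = x := fun x hx => (IntermediateField.mem_fixingSubgroup_iff _ σ).mp hσ x hx
          have h1 : g σ = 0 := hL σ fun x hx => hfix x (le_sup_left (α := IntermediateField ℚ Qb) hx)
          have h2 : chi r σ = 1 := by
            have h3 := hfix ζ (le_sup_right (α := IntermediateField ℚ Qb)
              (IntermediateField.mem_adjoin_simple_self ℚ ζ))
            have h4 := H14.apply_root (p := r) σ hζ.1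
            rw [h3] at h4
            have h5 : ζ ^ 1 = ζ ^ cycloExp r σ := by rw [pow_one]; exact h4
            rw [(hζ.isOfFinOrder (NeZero.ne r)).pow_eq_pow_iff_modEq, ← hζ.eq_orderOf] at h5
            have h6 := (ZMod.natCast_eq_natCast_iff _ _ _).mpr h5
            rw [chi_apply, ← h6, Nat.cast_one]
          rw [hact, h1, h2]
          ext i; fin_cases i
          · change 1 * v 0 = v 0
            rw [one_mul]
          · change 0 * v 0 + v 1 = v 1
            rw [zero_mul, zero_add]
        exact Subgroup.isOpen_mono hle hU }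
  obtain ⟨C', hC', hcompl⟩ := Fermat.Agent.S14.result hr3 (Fin 2 → ZMod r) C hadm
  -- the vector `(1, c)`
  obtain ⟨c, hc⟩ : ∃ c : ZMod r, (![1, c] : Fin 2 → ZMod r) ∈ C' := by
    have h1 : (![1, 0] : Fin 2 → ZMod r) ∈ C ⊔ C' := by rw [hcompl.sup_eq_top]; trivial
    obtain ⟨x, hx, y, hy, hxy⟩ := Submodule.mem_sup.mp h1
    refine ⟨y 1, ?_⟩
    convert hy using 1
    ext i; fin_cases i
    · have h2 := congrFun hxy 0
      have h3 : x 0 + y 0 = 1 := h2
      rw [(hC x).mp hx, zero_add] at h3
      exact h3.symm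
    · rfl
  have hkey : ∀ σ, g σ + c = chi r σ * c := by
    intro σ
    have h1 := hC' σ _ hc
    rw [hact] at h1
    have h2 := Submodule.sub_mem _ h1 (Submodule.smul_mem _ (chi r σ) hc)
    have h3 : (![chi r σ * (![1, c] : Fin 2 → ZMod r) 0, g σ * (![1, c] : Fin 2 → ZMod r) 0 +
        (![1, c] : Fin 2 → ZMod r) 1] - chi r σ • (![1, c] : Fin 2 → ZMod r)) ∈ C := by
      rw [hC]
      simp
    have h4 := (Submodule.disjoint_def.mp hcompl.disjoint) _ h3 h2
    have h5 := congrFun h4 1
    simp at h5
    linear_combination h5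
  have hc0 : c = 0 := by
    have h1 := hkey σ₀
    rw [hσ₀, zero_add] at h1
    have h2 : (1 - chi r σ₀) * c = 0 := by linear_combination h1
    exact (mul_eq_zero.mp h2).resolve_left (sub_ne_zero.mpr (Ne.symm hχ₀))
  intro σ
  have h1 := hkey σ
  rw [hc0, add_zero, mul_zero] at h1
  exact h1

end Fermat.Agent.H76G
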