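import Fermat.Agent.H76G1b

/-!
# MAZUR G1, part c: the key lemma over the residue field (helper76)
-/

set_option autoImplicit false

noncomputable section

open IsLocalRing ExtCitation
open scoped Pointwise

namespace Fermat.Agent.H76G

theorem mem_decomp_of_inertia {A : ValuationSubring Qb} {σ : GQ}
    (hσ : σ ∈ A.inertiaSubgroupIn ℚ) : σ ∈ A.decompositionSubgroup ℚ := by
  obtain ⟨τ, -, rfl⟩ := hσ
  exact τ.2

section key

variable {O : Type} [CommRing O] [IsLocalRing O] [IsAdicComplete (maximalIdeal O) O]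
  {r : ℕ} [Fact r.Prime] (hr : (r : O) ∈ maximalIdeal O)

/-- residue of the cyclotomic character -/
theorem residue_cyc (σ : GQ) :
    residue O (H35.cyc O hr σ) = ((cycloExp r σ : ℕ) : ResidueField O) := by
  have h1 := H35.cyc_sub_mem O hr σ 1 (cycloExp r σ) (fun ζ hζ => by
    rw [pow_one] at hζ
    exact H14.apply_root (p := r) σ hζ)
  rw [pow_one, ← residue_eq_zero_iff, map_sub, map_natCast, sub_eq_zero] at h1
  exact h1

include hr in
omit [IsAdicComplete (maximalIdeal O) O] in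
theorem charP_residue : CharP (ResidueField O) r := by
  have h0 : ((r : ℕ) : ResidueField O) = 0 := by
    have := (residue_eq_zero_iff (r : O)).mpr hr
    rwa [map_natCast] at this
  exact (CharP.charP_iff_prime_eq_zero (Fact.out : r.Prime)).mpr h0

/-- the key lemma -/
theorem key_lemma (ρ : GQ →* M2 O) (L : IntermediateField ℚ Qb) [FiniteDimensional ℚ L]
    (hL : ∀ σ : GQ, (∀ x ∈ L, σ x = x) → ∀ i j, ρ σ i j - (1 : M2 O) i j ∈ maximalIdeal O)
    (hdet : ∀ σ, (ρ σ).det = H35.cyc O hr σ)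
    (htr : ∀ σ, (ρ σ).trace - (1 + H35.cyc O hr σ) ∈ maximalIdeal O)
    (hunr : ∀ q : ℕ, q.Prime → q ≠ r → ∀ B : ValuationSubring Qb, B.LiesOverPrime q →
      ∀ σ ∈ B.inertiaSubgroupIn ℚ, ρ σ = 1)
    {A : ValuationSubring Qb} (hA : A.LiesOverPrime r)
    (hD : ∀ σ ∈ A.decompositionSubgroup ℚ, ρ σ 1 0 = 0)
    (hI : ∀ σ ∈ A.inertiaSubgroupIn ℚ, ρ σ 1 1 = 1) :
    ∀ σ, ρ σ 1 0 ∈ maximalIdeal O := by
  have hchar : CharP (ResidueField O) r := charP_residue hr
  set res : O →+* ResidueField O := residue O with hres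
  let X : GQ →* M2 (ResidueField O) := (res.mapMatrix : M2 O →+* M2 (ResidueField O)).toMonoidHom.comp ρ
  have hX : ∀ σ i j, X σ i j = res (ρ σ i j) := fun σ i j => rfl
  set x : GQ → ResidueField O := fun σ => res (H35.cyc O hr σ) with hx
  have hx' : ∀ σ, x σ = ((cycloExp r σ : ℕ) : ResidueField O) := fun σ => residue_cyc hr σ
  have hxmul : ∀ σ τ, x (σ * τ) = x σ * x τ := fun σ τ => by
    simp only [hx, map_mul]
  have hX1 : ∀ σ : GQ, (∀ x ∈ L, σ x = x) → X σ = 1 := by
    intro σ hσ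
    ext i j
    have h1 := hL σ hσ i j
    rw [← residue_eq_zero_iff, map_sub, sub_eq_zero] at h1
    rw [hX, hres, h1, Matrix.one_apply, Matrix.one_apply]
    split_ifs <;> simp
  have hXdet : ∀ σ, X σ 0 0 * X σ 1 1 - X σ 0 1 * X σ 1 0 = x σ := by
    intro σ
    rw [hX, hX, hX, hX, ← map_mul, ← map_mul, ← map_sub, ← Matrix.det_fin_two, hdet]
  have hXtr : ∀ σ, X σ 0 0 + X σ 1 1 = 1 + x σ := by
    intro σ
    have h1 := htr σ
    rw [← residue_eq_zero_iff, map_sub, sub_eq_zero, Matrix.trace_fin_two, map_add, map_add,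
      map_one] at h1
    exact h1
  have hXmul : ∀ σ τ i j, X (σ * τ) i j = X σ i 0 * X τ 0 j + X σ i 1 * X τ 1 j := by
    intro σ τ i j
    rw [map_mul, Matrix.mul_apply, Fin.sum_univ_two]
  have hXunr : ∀ q : ℕ, q.Prime → q ≠ r → ∀ B : ValuationSubring Qb, B.LiesOverPrime q →
      ∀ σ ∈ B.inertiaSubgroupIn ℚ, X σ = 1 := by
    intro q hq hqr B hB σ hσ
    change res.mapMatrix (ρ σ) = 1
    rw [hunr q hq hqr B hB σ hσ, map_one]
  have hXD : ∀ σ ∈ A.decompositionSubgroup ℚ, X σ 1 0 = 0 := by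
    intro σ hσ
    rw [hX, hD σ hσ, map_zero]
  have hXI : ∀ σ ∈ A.inertiaSubgroupIn ℚ, X σ 1 1 = 1 := by
    intro σ hσ
    rw [hX, hI σ hσ, map_one]
  suffices h : ∀ σ, X σ 1 0 = 0 by
    intro σ
    rw [← residue_eq_zero_iff]
    exact h σ
  by_cases hr2 : r = 2
  · -- the case `r = 2`
    have hx1 : ∀ σ, x σ = 1 := by
      intro σ
      have h1 := H35.cyc_sub_mem O hr σ 1 1 (fun ζ hζ => by
        rw [hr2, pow_one] at hζ
        rw [pow_one]
        rcases sq_eq_one_iff.mp hζ with h | h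
        · rw [h, map_one]
        · rw [h, map_neg, map_one])
      rw [pow_one, ← residue_eq_zero_iff, map_sub, map_natCast, sub_eq_zero, Nat.cast_one] at h1
      exact h1
    have h2 : (1 : ResidueField O) + 1 = 0 := by
      have : ((2 : ℕ) : ResidueField O) = 0 := by rw [← hr2]; exact CharP.cast_eq_zero _ _
      rw [one_add_one_eq_two]
      exact_mod_cast this
    by_cases h : ∃ σ₁ ∈ A.inertiaSubgroupIn ℚ, X σ₁ 0 1 ≠ 0
    · obtain ⟨σ₁, hσ₁, hb⟩ := h
      have hc1 := hXD σ₁ (mem_decomp_of_inertia hσ₁)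
      have hd1 := hXI σ₁ hσ₁
      have ha1 := hXdet σ₁
      rw [hc1, hd1, hx1] at ha1
      intro τ
      have h3 := hXtr (σ₁ * τ)
      have h4 := hXtr τ
      rw [hXmul, hXmul, hc1, hd1, hx1, h2] at h3
      rw [hx1, h2] at h4
      have h5 : X σ₁ 0 1 * X τ 1 0 = 0 := by
        have h6 : X σ₁ 0 0 = 1 := by linear_combination ha1
        rw [h6] at h3
        linear_combination h3 - h4
      exact (mul_eq_zero.mp h5).resolve_left hb
    · push Not at h
      have h3 : ∀ σ ∈ A.inertiaSubgroupIn ℚ, X σ = 1 := by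
        intro σ hσ
        have ha1 := hXdet σ
        rw [hXD σ (mem_decomp_of_inertia hσ), hXI σ hσ, hx1] at ha1
        ext i j
        fin_cases i <;> fin_cases j
        · change X σ 0 0 = 1
          linear_combination ha1
        · exact h σ hσ
        · exact hXD σ (mem_decomp_of_inertia hσ)
        · exact hXI σ hσ
      intro σ
      have h4 := eq_one_of_unramified X L hX1 (fun q hq => by
        by_cases hqr : q = r
        · subst hqr
          exact ⟨A, hA, h3⟩
        · obtain ⟨B, hB⟩ := H54.exists_liesOverPrime hq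
          exact ⟨B, hB, fun σ hσ => hXunr q hq hqr B hB σ hσ⟩) σ
      rw [h4]
      rfl
  · -- the case `r ≥ 3`
    have hr3 : 3 ≤ r := by
      have := (Fact.out : r.Prime).two_le
      omega
    obtain ⟨σ₀, hσ₀, hcσ₀⟩ := exists_cyc_sub_one_notMem O hr hr3 hA
    have hx0 : x σ₀ ≠ 1 := by
      intro h
      apply hcσ₀
      rw [← residue_eq_zero_iff, map_sub, map_one, sub_eq_zero]
      exact h
    have hx0' : x σ₀ - 1 ≠ 0 := sub_ne_zero.mpr hx0
    have hc0 := hXD σ₀ (mem_decomp_of_inertia hσ₀)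
    have hd0 := hXI σ₀ hσ₀
    have ha0 : X σ₀ 0 0 = x σ₀ := by
      have h1 := hXdet σ₀
      rw [hc0, hd0] at h1
      linear_combination h1
    set s : ResidueField O := -(X σ₀ 0 1) / (x σ₀ - 1) with hs
    have hsb : s * (x σ₀ - 1) = -(X σ₀ 0 1) := div_mul_cancel₀ _ hx0'
    -- (i)
    have hα : ∀ σ, X σ 0 0 - s * X σ 1 0 = x σ := by
      intro σ
      have h1 := hXtr (σ₀ * σ)
      have h2 := hXtr σ
      rw [hXmul, hXmul, hc0, hd0, ha0, hxmul] at h1
      have h3 : (x σ₀ - 1) * (X σ 0 0 - s * X σ 1 0 - x σ) = 0 := by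
        linear_combination h1 - h2 - X σ 1 0 * hsb
      have h4 := (mul_eq_zero.mp h3).resolve_left hx0'
      linear_combination h4
    have hδ : ∀ σ, X σ 1 1 + s * X σ 1 0 = 1 := by
      intro σ
      linear_combination hXtr σ - hα σ
    have hβγ : ∀ σ τ, (s * X σ 0 0 - s ^ 2 * X σ 1 0 + X σ 0 1 - s * X σ 1 1) * X τ 1 0 = 0 := by
      intro σ τ
      have h1 := hα (σ * τ)
      rw [hXmul, hXmul, hxmul, ← hα σ, ← hα τ] at h1
      linear_combination h1
    by_contra hne
    push Not at hne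
    obtain ⟨τ₁, hτ₁⟩ := hne
    have hβ : ∀ σ, s * X σ 0 0 - s ^ 2 * X σ 1 0 + X σ 0 1 - s * X σ 1 1 = 0 := fun σ =>
      (mul_eq_zero.mp (hβγ σ τ₁)).resolve_right hτ₁
    have hcoc : ∀ σ τ, X (σ * τ) 1 0 = X σ 1 0 * x τ + X τ 1 0 := by
      intro σ τ
      rw [hXmul]
      linear_combination X σ 1 0 * hα τ + X τ 1 0 * hδ σ
    let _ : Algebra (ZMod r) (ResidueField O) := ZMod.algebra _ r
    apply hτ₁
    rw [← Module.forall_dual_apply_eq_zero_iff (ZMod r)]
    intro lam
    have hchi : ∀ (c : ResidueField O) (σ : GQ), lam (c * x σ) = lam c * chi r σ := by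
      intro c σ
      have h1 : c * x σ = chi r σ • c := by
        rw [hx', Algebra.smul_def, chi_apply, map_natCast, mul_comm]
      rw [h1, map_smul, smul_eq_mul, mul_comm]
    have h0 : ∀ σ, lam (X σ 1 0) = 0 := cocycle_eq_zero hr3 (fun σ => lam (X σ 1 0)) (fun σ τ => by
        rw [hcoc, map_add, hchi]) L (fun σ hσ => by
        rw [hX1 σ hσ]
        change lam 0 = 0
        rw [map_zero]) (fun q hq hqr B hB σ hσ => by
        rw [hXunr q hq hqr B hB σ hσ]
        change lam 0 = 0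
        rw [map_zero]) hA (fun σ hσ => by
        rw [hXD σ hσ, map_zero]) σ₀ (by
        rw [hc0, map_zero]) (by
        intro h
        apply hx0
        rw [hx']
        rw [chi_apply] at h
        have h1 := congrArg (algebraMap (ZMod r) (ResidueField O)) h
        rwa [map_natCast, map_one] at h1)
    exact h0 τ₁

end key

end Fermat.Agent.H76G
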