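import Fermat.Agent.H76G1c

/-!
# MAZUR G1, part d: two-dimensional Eisenstein representations, matrix version (helper76)
-/

set_option autoImplicit false

noncomputable section

open IsLocalRing ExtCitation
open scoped Pointwise

namespace Fermat.Agent.H76G

/-- A two-dimensional `O`-linear representation, unramified outside `N r`, with Eichler–Shimura
relations for an Eisenstein (modulo `m_O`) but not Eisenstein system `a`, unipotent at `N`. -/
structure EisMat (N r : ℕ) (O : Type) [CommRing O] [IsLocalRing O] (a : ℕ → O)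
    (ρ : GQ →* M2 O) : Prop where
  cont : H35.MatCont O ρ
  a_mem : ∀ q : ℕ, q.Prime → q ≠ N → q ≠ r → a q - (1 + (q : O)) ∈ maximalIdeal O
  frob : ∀ q : ℕ, q.Prime → q ≠ N → q ≠ r → ∀ B : ValuationSubring Qb, B.LiesOverPrime q →
    ∀ φ : GQ, B.IsFrobeniusAt φ q → ρ φ * ρ φ - a q • ρ φ + (q : O) • (1 : M2 O) = 0
  unr : ∀ q : ℕ, q.Prime → q ≠ N → q ≠ r → ∀ B : ValuationSubring Qb, B.LiesOverPrime q →
    ∀ σ ∈ B.inertiaSubgroupIn ℚ, ρ σ = 1
  ss : ∀ B : ValuationSubring Qb, B.LiesOverPrime N → ∀ σ ∈ B.inertiaSubgroupIn ℚ,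
    (ρ σ - 1) * (ρ σ - 1) = 0
  nonEis : ∃ q : ℕ, q.Prime ∧ q ≠ N ∧ q ≠ r ∧ a q ≠ 1 + (q : O)

/-- scalar matrices -/
def IsScal {R : Type*} [CommRing R] (X : Matrix (Fin 2) (Fin 2) R) : Prop :=
  X 0 1 = 0 ∧ X 1 0 = 0 ∧ X 0 0 = X 1 1

theorem cayley {R : Type*} [CommRing R] (X : Matrix (Fin 2) (Fin 2) R) :
    X * X - X.trace • X + X.det • (1 : Matrix (Fin 2) (Fin 2) R) = 0 := by
  ext i j
  rw [Matrix.trace_fin_two, Matrix.det_fin_two]
  fin_cases i <;> fin_cases j <;>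
    simp [Matrix.mul_apply, Fin.sum_univ_two, Matrix.one_apply] <;> ring

/-- a quadratic relation of a nonscalar matrix is the characteristic equation -/
theorem of_quad {R : Type*} [CommRing R] [IsDomain R] {X : Matrix (Fin 2) (Fin 2) R} {t d : R}
    (h : X * X - t • X + d • (1 : Matrix (Fin 2) (Fin 2) R) = 0) (hX : ¬ IsScal X) :
    X.trace = t ∧ X.det = d := by
  have h1 := cayley X
  have h2 : (X.trace - t) • X = (X.det - d) • (1 : Matrix (Fin 2) (Fin 2) R) := by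
    linear_combination (norm := module) h - h1
  have h00 := congrFun (congrFun h2 0) 0
  have h01 := congrFun (congrFun h2 0) 1
  have h10 := congrFun (congrFun h2 1) 0
  have h11 := congrFun (congrFun h2 1) 1
  simp only [Matrix.smul_apply, smul_eq_mul, Matrix.one_apply_eq, mul_one] at h00 h11
  simp only [Matrix.smul_apply, smul_eq_mul] at h01 h10
  rw [Matrix.one_apply_ne (by decide), mul_zero] at h01 h10
  have ht : X.trace - t = 0 := by
    by_contra hne
    apply hX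
    refine ⟨(mul_eq_zero.mp h01).resolve_left hne, (mul_eq_zero.mp h10).resolve_left hne, ?_⟩
    have h3 : (X.trace - t) * (X 0 0 - X 1 1) = 0 := by rw [mul_sub, h00, h11, sub_self]
    exact sub_eq_zero.mp ((mul_eq_zero.mp h3).resolve_left hne)
  rw [ht, zero_mul] at h00
  exact ⟨sub_eq_zero.mp ht, (sub_eq_zero.mp h00.symm)⟩

section

variable {N r : ℕ} [Fact r.Prime] {O : Type} [CommRing O] [IsDomain O] [IsLocalRing O]
  [IsAdicComplete (maximalIdeal O) O] (hr : (r : O) ∈ maximalIdeal O) {a : ℕ → O}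
  {ρ : GQ →* M2 O} (H : EisMat N r O a ρ)

include H in
theorem EisMat.quad (σ : GQ) :
    ∃ t : O, ρ σ * ρ σ - t • ρ σ + H35.cyc O hr σ • (1 : M2 O) = 0 := by
  refine H35.quadratic_of_frobenius hr two_pos ρ H.cont {N, r} (by simp) a ?_ σ
  intro ℓ hℓ hℓS B hB φ hφ
  have h1 : ℓ ≠ N ∧ ℓ ≠ r := by simpa [not_or] using hℓS
  exact H.frob ℓ hℓ h1.1 h1.2 B hB φ hφ

omit [IsDomain O] [IsLocalRing O] [IsAdicComplete (maximalIdeal O) O] in
theorem rho_mul_inv (ρ : GQ →* M2 O) (σ : GQ) : ρ σ * ρ σ⁻¹ = 1 := by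
  rw [← map_mul, mul_inv_cancel, map_one]

omit [IsLocalRing O] [IsAdicComplete (maximalIdeal O) O] in
theorem det_ne_zero (ρ : GQ →* M2 O) (σ : GQ) : (ρ σ).det ≠ 0 := by
  intro h
  have h1 := congrArg Matrix.det (rho_mul_inv ρ σ)
  rw [Matrix.det_mul, h, zero_mul, Matrix.det_one] at h1
  exact zero_ne_one h1

include H in
/-- if some `ρ τ` is not scalar, the determinant is the cyclotomic character -/
theorem EisMat.det_eq (hτ : ∃ τ, ¬ IsScal (ρ τ)) (σ : GQ) : (ρ σ).det = H35.cyc O hr σ := by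
  obtain ⟨τ, hτ⟩ := hτ
  have key : ∀ σ, ¬ IsScal (ρ σ) → (ρ σ).det = H35.cyc O hr σ := by
    intro σ hσ
    obtain ⟨t, ht⟩ := H.quad hr σ
    exact (of_quad ht hσ).2
  by_cases hσ : IsScal (ρ σ)
  · have h1 : ¬ IsScal (ρ (σ * τ)) := by
      intro h2
      apply hτ
      have h3 : ρ σ = (ρ σ 0 0) • (1 : M2 O) := by
        ext i j
        fin_cases i <;> fin_cases j
        · simp
        · simpa using hσ.1
        · simpa using hσ.2.1
        · simpa using hσ.2.2.symm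
      have h4 : ρ σ 0 0 ≠ 0 := by
        intro h0
        have := det_ne_zero ρ σ
        rw [h3, h0, zero_smul, Matrix.det_zero] at this
        exact this rfl
      rw [map_mul, h3, smul_mul_assoc, one_mul] at h2
      obtain ⟨h5, h6, h7⟩ := h2
      simp only [Matrix.smul_apply, smul_eq_mul] at h5 h6 h7
      exact ⟨(mul_eq_zero.mp h5).resolve_left h4, (mul_eq_zero.mp h6).resolve_left h4,
        mul_left_cancel₀ h4 h7⟩
    have h2 := key _ h1
    rw [map_mul, Matrix.det_mul, map_mul, key τ hτ] at h2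
    refine mul_right_cancel₀ ?_ h2
    rw [← key τ hτ]
    exact det_ne_zero ρ τ
  · exact key σ hσ

include H in
/-- existence of nonscalar elements -/
theorem EisMat.exists_not_isScal {A : ValuationSubring Qb} (hA : A.LiesOverPrime r)
    (hN : N.Prime)
    (hI : ∀ σ ∈ A.inertiaSubgroupIn ℚ, IsScal (ρ σ) → ρ σ 0 0 = 1) : ∃ τ, ¬ IsScal (ρ τ) := by
  by_contra hcon
  push Not at hcon
  have hmul : ∀ σ τ, ρ (σ * τ) 0 0 = ρ σ 0 0 * ρ τ 0 0 := by
    intro σ τ
    rw [map_mul, Matrix.mul_apply, Fin.sum_univ_two, (hcon σ).1, zero_mul, add_zero]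
  let c : GQ →* O :=
    { toFun := fun σ => ρ σ 0 0
      map_one' := by rw [map_one]; rfl
      map_mul' := hmul }
  have hc : H35.CharCont O c := by
    intro n
    obtain ⟨L, hL, hL'⟩ := H.cont n
    exact ⟨L, hL, fun σ hσ => hL' σ hσ 0 0⟩
  have h1 : ∀ σ, c σ = 1 := char_eq_one c hc (fun q hq => by
    obtain ⟨B, hB⟩ := H54.exists_liesOverPrime hq
    by_cases hqr : q = r
    · subst hqr
      exact ⟨A, hA, fun σ hσ => hI σ hσ (hcon σ)⟩
    by_cases hqN : q = N
    · subst hqN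
      refine ⟨B, hB, fun σ hσ => ?_⟩
      have h2 := congrFun (congrFun (H.ss B hB σ hσ) 0) 0
      rw [Matrix.mul_apply, Fin.sum_univ_two, Matrix.sub_apply, Matrix.sub_apply,
        Matrix.sub_apply, (hcon σ).1, (hcon σ).2.1] at h2
      simp only [Matrix.one_apply_eq, Matrix.zero_apply] at h2
      rw [Matrix.one_apply_ne (by decide), sub_zero, zero_mul, add_zero, mul_self_eq_zero] at h2
      exact sub_eq_zero.mp h2
    · refine ⟨B, hB, fun σ hσ => ?_⟩
      change ρ σ 0 0 = 1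
      rw [H.unr q hq hqN hqr B hB σ hσ]
      rfl)
  obtain ⟨q, hq, hqN, hqr, haq⟩ := H.nonEis
  obtain ⟨B, hB⟩ := H54.exists_liesOverPrime hq
  obtain ⟨φ, hφ⟩ := H54.exists_isFrobeniusAt hq hB
  have h2 := congrFun (congrFun (H.frob q hq hqN hqr B hB φ hφ) 0) 0
  have h3 : ρ φ 0 0 = 1 := h1 φ
  simp only [Matrix.add_apply, Matrix.sub_apply, Matrix.mul_apply, Fin.sum_univ_two,
    Matrix.smul_apply, smul_eq_mul, Matrix.one_apply_eq, Matrix.zero_apply, h3, (hcon φ).1] at h2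
  apply haq
  linear_combination -h2

include H in
/-- the trace of Frobenius -/
theorem EisMat.trace_frob (hdet : ∀ σ, (ρ σ).det = H35.cyc O hr σ) {q : ℕ} (hq : q.Prime)
    (hqN : q ≠ N) (hqr : q ≠ r) {B : ValuationSubring Qb} (hB : B.LiesOverPrime q) {φ : GQ}
    (hφ : B.IsFrobeniusAt φ q) : (ρ φ).trace = a q := by
  have h1 := H.frob q hq hqN hqr B hB φ hφ
  have h2 := cayley (ρ φ)
  rw [hdet, H35.cyc_frobenius O hr hq hqr hB hφ] at h2
  have h3 : ((ρ φ).trace - a q) • ρ φ = 0 := by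
    linear_combination (norm := module) h1 - h2
  have h4 : ((ρ φ).trace - a q) • (1 : M2 O) = 0 := by
    rw [← rho_mul_inv ρ φ, ← smul_mul_assoc, h3, zero_mul]
  have h5 := congrFun (congrFun h4 0) 0
  rw [Matrix.smul_apply, Matrix.one_apply_eq, smul_eq_mul, mul_one] at h5
  exact sub_eq_zero.mp h5

include H in
/-- the residual trace is `1 + χ` -/
theorem EisMat.trace_mem (hdet : ∀ σ, (ρ σ).det = H35.cyc O hr σ) (σ : GQ) :
    (ρ σ).trace - (1 + H35.cyc O hr σ) ∈ maximalIdeal O := by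
  obtain ⟨L₁, hL₁, hL₁'⟩ := H.cont 1
  obtain ⟨L₂, hL₂, hL₂'⟩ := H35.cyc_charCont O hr 1
  have : FiniteDimensional ℚ (L₁ ⊔ L₂ : IntermediateField ℚ (AlgebraicClosure ℚ)) :=
    IntermediateField.finiteDimensional_sup L₁ L₂
  obtain ⟨ℓ, hℓ, hℓS, B, hB, φ, hφ, j, -, hgj, -⟩ :=
    H86.frobenius_density H86.frobDensityFinite (L₁ ⊔ L₂) σ {N, r}
  have hℓ' : ℓ ≠ N ∧ ℓ ≠ r := by simpa [not_or] using hℓS
  set τ : GQ := (φ ^ j)⁻¹ * σ with hτ
  have hτfix : ∀ x ∈ L₁ ⊔ L₂, τ x = x := by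
    intro x hx
    rw [hτ, AlgEquiv.mul_apply, hgj x hx]
    exact (φ ^ j).symm_apply_apply x
  have hσ : σ = φ ^ j * τ := by rw [hτ]; group
  set q := Ideal.Quotient.mk (maximalIdeal O) with hq
  have hone : q.mapMatrix (ρ τ) = 1 := by
    ext i k
    have h1 := hL₁' τ (fun x hx => hτfix x ((le_sup_left : L₁ ≤ L₁ ⊔ L₂) hx)) i k
    rw [pow_one, ← Ideal.Quotient.eq_zero_iff_mem, map_sub, sub_eq_zero] at h1
    rw [RingHom.mapMatrix_apply, Matrix.map_apply, hq, h1, Matrix.one_apply, Matrix.one_apply]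
    split_ifs <;> simp
  have hcone : q (H35.cyc O hr τ) = 1 := by
    have h1 := hL₂' τ (fun x hx => hτfix x ((le_sup_right : L₂ ≤ L₁ ⊔ L₂) hx))
    rw [pow_one, ← Ideal.Quotient.eq_zero_iff_mem, map_sub, sub_eq_zero, map_one] at h1
    exact h1
  rw [← Ideal.Quotient.eq_zero_iff_mem, map_sub, map_add, map_one]
  have htr : ∀ X : M2 O, q X.trace = (q.mapMatrix X).trace := by
    intro X
    rw [Matrix.trace_fin_two, Matrix.trace_fin_two, map_add]
    rfl
  change q _ - (1 + q _) = 0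
  rw [htr, hσ, map_mul, map_mul, hone, mul_one, map_mul, map_mul, hcone, mul_one, map_pow,
    map_pow, map_pow, map_pow]
  -- powers of Frobenius
  set Y := q.mapMatrix (ρ φ) with hY
  set y := q (H35.cyc O hr φ) with hy
  have hYtr : Y.trace = 1 + y := by
    have h1 := H.a_mem ℓ hℓ hℓ'.1 hℓ'.2
    rw [← H.trace_frob hr hdet hℓ hℓ'.1 hℓ'.2 hB hφ, ← Ideal.Quotient.eq_zero_iff_mem, map_sub,
      map_add, map_one, sub_eq_zero] at h1
    rw [hY, ← htr, hy, H35.cyc_frobenius O hr hℓ hℓ'.2 hB hφ]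
    exact h1
  have hYdet : Y.det = y := by
    rw [hY, hy, ← hdet, ← RingHom.map_det]
  have hYrel : Y * Y = (1 + y) • Y - y • (1 : Matrix (Fin 2) (Fin 2) (O ⧸ maximalIdeal O)) := by
    have h1 := cayley Y
    rw [hYtr, hYdet] at h1
    linear_combination (norm := module) h1
  have hpow : ∀ j : ℕ, (Y ^ j).trace = 1 + y ^ j ∧ (Y ^ (j + 1)).trace = 1 + y ^ (j + 1) := by
    intro j
    induction j with
    | zero =>
      refine ⟨?_, by rw [zero_add, pow_one, pow_one]; exact hYtr⟩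
      rw [pow_zero, pow_zero, Matrix.trace_one, Fintype.card_fin]
      norm_num
    | succ j ih =>
      refine ⟨ih.2, ?_⟩
      have h1 : Y ^ (j + 1 + 1) = (1 + y) • Y ^ (j + 1) - y • Y ^ j := by
        rw [pow_succ, pow_succ, mul_assoc, hYrel, mul_sub, mul_smul_comm, mul_smul_comm, mul_one]
      rw [h1, Matrix.trace_sub, Matrix.trace_smul, Matrix.trace_smul, ih.1, ih.2, smul_eq_mul,
        smul_eq_mul]
      ring
  rw [(hpow j).1, sub_self]

end

end Fermat.Agent.H76G
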