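import Fermat.Agent.H76G1d

/-!
# MAZUR G1, part e: (E3) in an adapted basis (helper76)
-/

set_option autoImplicit false

noncomputable section

open IsLocalRing ExtCitation
open scoped Pointwise

namespace Fermat.Agent.H76G

section

variable {O : Type} [CommRing O] [IsDomain O]

/-- the coefficient `γ / ϖ ^ n` -/
def divPow {ϖ : O} {n : ℕ} {x : O} (h : ∃ g, x = ϖ ^ n * g) : O := h.choose

omit [IsDomain O] in
theorem divPow_spec {ϖ : O} {n : ℕ} {x : O} (h : ∃ g, x = ϖ ^ n * g) :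
    x = ϖ ^ n * divPow h := h.choose_spec

theorem divPow_eq_zero {ϖ : O} (hϖ : ϖ ≠ 0) {n : ℕ} {x : O} (h : ∃ g, x = ϖ ^ n * g)
    (hx : x = 0) : divPow h = 0 := by
  have h2 := divPow_spec h
  exact (mul_eq_zero.mp (h2.symm.trans hx)).resolve_left (pow_ne_zero _ hϖ)

/-- conjugation of `ρ` by `diag(1, ϖ ^ n)` -/
def conjPow (ρ : GQ →* M2 O) {ϖ : O} (hϖ : ϖ ≠ 0) (n : ℕ)
    (h : ∀ σ, ∃ g, ρ σ 1 0 = ϖ ^ n * g) : GQ →* M2 O where
  toFun σ := !![ρ σ 0 0, ϖ ^ n * ρ σ 0 1; divPow (h σ), ρ σ 1 1]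
  map_one' := by
    have h1 : divPow (h 1) = 0 := divPow_eq_zero hϖ _ (by
      rw [map_one, Matrix.one_apply_ne (by decide)])
    rw [h1, map_one]
    ext i j
    fin_cases i <;> fin_cases j <;> simp
  map_mul' σ τ := by
    have e00 : ρ (σ * τ) 0 0 = ρ σ 0 0 * ρ τ 0 0 + ρ σ 0 1 * ρ τ 1 0 := by
      rw [map_mul, Matrix.mul_apply, Fin.sum_univ_two]
    have e01 : ρ (σ * τ) 0 1 = ρ σ 0 0 * ρ τ 0 1 + ρ σ 0 1 * ρ τ 1 1 := by
      rw [map_mul, Matrix.mul_apply, Fin.sum_univ_two]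
    have e10 : ρ (σ * τ) 1 0 = ρ σ 1 0 * ρ τ 0 0 + ρ σ 1 1 * ρ τ 1 0 := by
      rw [map_mul, Matrix.mul_apply, Fin.sum_univ_two]
    have e11 : ρ (σ * τ) 1 1 = ρ σ 1 0 * ρ τ 0 1 + ρ σ 1 1 * ρ τ 1 1 := by
      rw [map_mul, Matrix.mul_apply, Fin.sum_univ_two]
    have h1 := divPow_spec (h σ)
    have h2 := divPow_spec (h τ)
    have h3 := divPow_spec (h (σ * τ))
    have h4 : divPow (h (σ * τ)) = divPow (h σ) * ρ τ 0 0 + ρ σ 1 1 * divPow (h τ) := by
      apply mul_left_cancel₀ (pow_ne_zero n hϖ)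
      rw [← h3, e10]
      linear_combination ρ τ 0 0 * h1 + ρ σ 1 1 * h2
    ext i j
    rw [Matrix.mul_apply, Fin.sum_univ_two]
    fin_cases i <;> fin_cases j
    · change ρ (σ * τ) 0 0 = ρ σ 0 0 * ρ τ 0 0 + ϖ ^ n * ρ σ 0 1 * divPow (h τ)
      rw [e00]
      linear_combination ρ σ 0 1 * h2
    · change ϖ ^ n * ρ (σ * τ) 0 1 = ρ σ 0 0 * (ϖ ^ n * ρ τ 0 1) + ϖ ^ n * ρ σ 0 1 * ρ τ 1 1
      rw [e01]
      ring
    · change divPow (h (σ * τ)) = divPow (h σ) * ρ τ 0 0 + ρ σ 1 1 * divPow (h τ)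
      exact h4
    · change ρ (σ * τ) 1 1 = divPow (h σ) * (ϖ ^ n * ρ τ 0 1) + ρ σ 1 1 * ρ τ 1 1
      rw [e11]
      linear_combination ρ τ 0 1 * h1

theorem conjPow_apply (ρ : GQ →* M2 O) {ϖ : O} (hϖ : ϖ ≠ 0) (n : ℕ)
    (h : ∀ σ, ∃ g, ρ σ 1 0 = ϖ ^ n * g) (σ : GQ) :
    conjPow ρ hϖ n h σ = !![ρ σ 0 0, ϖ ^ n * ρ σ 0 1; divPow (h σ), ρ σ 1 1] := rfl

end

section

variable {N r : ℕ} [Fact r.Prime] {O : Type} [CommRing O] [IsDomain O] [IsLocalRing O]
  [IsAdicComplete (maximalIdeal O) O] (hr : (r : O) ∈ maximalIdeal O) {a : ℕ → O}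
  {ρ : GQ →* M2 O} (H : EisMat N r O a ρ)

include H in
/-- (E3), matrix form -/
theorem EisMat.false_of_unramified {ϖ : O} (hϖ0 : ϖ ≠ 0) (hϖ : maximalIdeal O = Ideal.span {ϖ})
    (hdet : ∀ σ, (ρ σ).det = H35.cyc O hr σ)
    (hunr : ∀ B : ValuationSubring Qb, B.LiesOverPrime N → N ≠ r →
      ∀ σ ∈ B.inertiaSubgroupIn ℚ, ρ σ = 1)
    {A : ValuationSubring Qb} (hA : A.LiesOverPrime r)
    (hD : ∀ σ ∈ A.decompositionSubgroup ℚ, ρ σ 1 0 = 0)
    (hI : ∀ σ ∈ A.inertiaSubgroupIn ℚ, ρ σ 1 1 = 1) : False := by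
  have hunr' : ∀ q : ℕ, q.Prime → q ≠ r → ∀ B : ValuationSubring Qb, B.LiesOverPrime q →
      ∀ σ ∈ B.inertiaSubgroupIn ℚ, ρ σ = 1 := by
    intro q hq hqr B hB σ hσ
    by_cases hqN : q = N
    · subst hqN; exact hunr B hB hqr σ hσ
    · exact H.unr q hq hqN hqr B hB σ hσ
  have hmpow : ∀ (n : ℕ) (x : O), x ∈ maximalIdeal O ^ n ↔ ∃ g, x = ϖ ^ n * g := by
    intro n x
    rw [hϖ, Ideal.span_singleton_pow, Ideal.mem_span_singleton]
    rfl
  have key : ∀ n : ℕ, ∀ σ, ∃ g, ρ σ 1 0 = ϖ ^ n * g := by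
    intro n
    induction n with
    | zero => exact fun σ => ⟨ρ σ 1 0, by rw [pow_zero, one_mul]⟩
    | succ n ih =>
      obtain ⟨L, hL, hL'⟩ := H.cont (n + 1)
      have hpow0 : ϖ ^ n ≠ 0 := pow_ne_zero _ hϖ0
      have h1 := key_lemma hr (conjPow ρ hϖ0 n ih) L (fun σ hσ i j => by
        have h2 := hL' σ hσ
        have hle : maximalIdeal O ^ (n + 1) ≤ maximalIdeal O := Ideal.pow_le_self (by omega)
        rw [conjPow_apply]
        fin_cases i <;> fin_cases j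
        · exact hle (h2 0 0)
        · change ϖ ^ n * ρ σ 0 1 - 0 ∈ _
          rw [sub_zero]
          have h3 := h2 0 1
          rw [Matrix.one_apply_ne (by decide), sub_zero] at h3
          exact Ideal.mul_mem_left _ _ (hle h3)
        · change divPow (ih σ) - 0 ∈ _
          rw [sub_zero]
          have h3 := h2 1 0
          rw [Matrix.one_apply_ne (by decide), sub_zero, hmpow] at h3
          obtain ⟨g, hg⟩ := h3
          have h4 := divPow_spec (ih σ)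
          have h5 : divPow (ih σ) = ϖ * g := by
            apply mul_left_cancel₀ hpow0
            rw [← h4, hg, pow_succ, mul_assoc]
          rw [h5, hϖ]
          exact Ideal.mul_mem_right _ _ (Ideal.mem_span_singleton_self _)
        · exact hle (h2 1 1)) (fun σ => by
        rw [← hdet, conjPow_apply, Matrix.det_fin_two, Matrix.det_fin_two]
        change ρ σ 0 0 * ρ σ 1 1 - ϖ ^ n * ρ σ 0 1 * divPow (ih σ) = _
        linear_combination ρ σ 0 1 * divPow_spec (ih σ)) (fun σ => by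
        have h2 := H.trace_mem hr hdet σ
        rw [Matrix.trace_fin_two] at h2 ⊢
        exact h2) (fun q hq hqr B hB σ hσ => by
        have h0 := hunr' q hq hqr B hB σ hσ
        have h2 : divPow (ih σ) = 0 := divPow_eq_zero hϖ0 _ (by
          rw [h0, Matrix.one_apply_ne (by decide)])
        rw [conjPow_apply, h2, h0]
        ext i j
        fin_cases i <;> fin_cases j <;> simp) hA (fun σ hσ =>
        divPow_eq_zero hϖ0 _ (hD σ hσ)) (fun σ hσ => hI σ hσ)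
      intro σ
      have h2 : divPow (ih σ) ∈ maximalIdeal O := h1 σ
      rw [hϖ] at h2
      obtain ⟨g, hg⟩ := Ideal.mem_span_singleton'.mp h2
      refine ⟨g, ?_⟩
      rw [divPow_spec (ih σ), ← hg, pow_succ]
      ring
  have hγ : ∀ σ, ρ σ 1 0 = 0 := fun σ =>
    eq_zero_of_forall_mem_pow fun n => (hmpow n _).mpr (key n σ)
  have hmul : ∀ σ τ, ρ (σ * τ) 1 1 = ρ σ 1 1 * ρ τ 1 1 := by
    intro σ τ
    rw [map_mul, Matrix.mul_apply, Fin.sum_univ_two, hγ σ, zero_mul, zero_add]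
  let c : GQ →* O :=
    { toFun := fun σ => ρ σ 1 1
      map_one' := by rw [map_one]; rfl
      map_mul' := hmul }
  have hc : H35.CharCont O c := by
    intro n
    obtain ⟨L, hL, hL'⟩ := H.cont n
    exact ⟨L, hL, fun σ hσ => hL' σ hσ 1 1⟩
  have h1 : ∀ σ, c σ = 1 := char_eq_one c hc (fun q hq => by
    by_cases hqr : q = r
    · subst hqr
      exact ⟨A, hA, hI⟩
    · obtain ⟨B, hB⟩ := H54.exists_liesOverPrime hq
      refine ⟨B, hB, fun σ hσ => ?_⟩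
      change ρ σ 1 1 = 1
      rw [hunr' q hq hqr B hB σ hσ]
      rfl)
  obtain ⟨q, hq, hqN, hqr, haq⟩ := H.nonEis
  obtain ⟨B, hB⟩ := H54.exists_liesOverPrime hq
  obtain ⟨φ, hφ⟩ := H54.exists_isFrobeniusAt hq hB
  have h2 := congrFun (congrFun (H.frob q hq hqN hqr B hB φ hφ) 1) 1
  have h3 : ρ φ 1 1 = 1 := h1 φ
  simp only [Matrix.add_apply, Matrix.sub_apply, Matrix.mul_apply, Fin.sum_univ_two,
    Matrix.smul_apply, smul_eq_mul, Matrix.one_apply_eq, Matrix.zero_apply, h3, hγ φ] at h2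
  apply haq
  linear_combination -h2

end

end Fermat.Agent.H76G
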