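import Fermat.Agent.H76Weight
set_option autoImplicit false
set_option maxSynthPendingDepth 3

/-! # Translation estimates for the weighted norm (helper76, for S14) -/

namespace Fermat.Agent.H76

open NumberField NumberField.mixedEmbedding NumberField.Units
  NumberField.Units.dirichletUnitTheorem Module NumberField.InfinitePlace

open scoped Classical

variable {K : Type*} [Field K] [NumberField K]

lemma abs_normAtPlace_add_sub_le (y z : mixedSpace K) (w : InfinitePlace K) :
    |normAtPlace w (y + z) - normAtPlace w y| ≤ ‖z‖ := by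
  have h1 := normAtPlace_add_le w y z
  have h2 := normAtPlace_add_le w (y + z) (-z)
  rw [normAtPlace_neg, add_neg_cancel_right] at h2
  have h3 := normAtPlace_le_norm z w
  rw [abs_le]
  constructor <;> linarith

/-- comparison function -/
noncomputable def G (β : 𝓞 K) : ℝ :=
  (if β = 0 then 1 else 0) + (‖emb β‖⁻¹) ^ (finrank ℚ K + 1)

lemma G_nonneg (β : 𝓞 K) : 0 ≤ G β := by
  unfold G
  have : (0 : ℝ) ≤ (‖emb β‖⁻¹) ^ (finrank ℚ K + 1) := by positivity
  split_ifs <;> linarith

/-- large points: difference estimate -/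
lemma abs_wt_sub_le_of_large {y z : mixedSpace K} {s : ℝ} (hs1 : 1 ≤ s) (hs2 : s ≤ 2)
    (hy0 : mixedEmbedding.norm y ≠ 0) (hyz0 : mixedEmbedding.norm (y + z) ≠ 0)
    (hR : 4 * (1 + ‖z‖) ≤ rho K * ‖y‖) :
    |wt s (y + z) - wt s y| ≤
      diffConst K * ‖z‖ * ((rho K * ‖y‖ / 4)⁻¹) ^ (finrank ℚ K + 1) := by
  have hρ := rho_pos K
  have hρ1 := rho_le_one K
  have hz := norm_nonneg z
  have hyn := norm_nonneg y
  have hy1 : 4 * (1 + ‖z‖) ≤ ‖y‖ := hR.trans (mul_le_of_le_one_left hyn hρ1)
  have htri : ‖y‖ - ‖z‖ ≤ ‖y + z‖ := by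
    have := norm_sub_norm_le y (-z)
    rwa [norm_neg, sub_neg_eq_add] at this
  have hd := abs_normAtPlace_add_sub_le y z
  by_cases h : (∀ w, rho K * ‖y‖ / 4 ≤ normAtPlace w y) ∧
      (∀ w, rho K * ‖y‖ / 4 ≤ normAtPlace w (y + z))
  · exact abs_wt_sub_le (by linarith) h.2 h.1 hd hs1 hs2
  · -- both are outside of the support
    have h1 : pou K y = 0 := by
      by_contra hp
      apply h
      have h2 := rho_mul_norm_le hy0 hp
      constructor
      · intro w; have := h2 w; nlinarith
      · intro w; have := h2 w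
        have h3 := (abs_le.mp (hd w)).1
        nlinarith
    have h2 : pou K (y + z) = 0 := by
      by_contra hp
      apply h
      have h2 := rho_mul_norm_le hyz0 hp
      have h4 : rho K * (3 / 4 * ‖y‖) ≤ rho K * ‖y + z‖ := by
        gcongr
        linarith
      constructor
      · intro w; have := h2 w
        have h3 := (abs_le.mp (hd w)).2
        nlinarith
      · intro w; have := h2 w; nlinarith
    rw [wt, wt, h1, h2, mul_zero, mul_zero, sub_zero, abs_zero]
    have := diffConst_nonneg K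
    positivity

lemma exists_diff_bound (c : 𝓞 K) : ∃ C : ℝ, 0 ≤ C ∧ ∀ β : 𝓞 K, ∀ s : ℝ, 1 ≤ s → s ≤ 2 →
    |wt s (emb (β + c)) - wt s (emb β)| ≤ C * G β := by
  have hρ := rho_pos K
  have hD := diffConst_nonneg K
  have hc := norm_nonneg (emb c)
  set R : ℝ := 4 * (1 + ‖emb c‖) / rho K with hR
  have hR0 : 0 < R := by positivity
  set n := finrank ℚ K + 1 with hn
  set A : ℝ := diffConst K * ‖emb c‖ * (4 / rho K) ^ n with hA
  have hA0 : 0 ≤ A := by positivity
  refine ⟨1 + R ^ n + A, by positivity, fun β s hs1 hs2 => ?_⟩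
  by_cases hβ : β = 0
  · refine (abs_wt_emb_sub_le_one hs1 _ _).trans ?_
    have h1 : (1 : ℝ) ≤ G β := by
      unfold G
      rw [if_pos hβ]
      have : (0 : ℝ) ≤ (‖emb β‖⁻¹) ^ (finrank ℚ K + 1) := by positivity
      linarith
    have h2 : (1 : ℝ) ≤ 1 + R ^ n + A := by
      have : 0 < R ^ n := by positivity
      linarith
    nlinarith
  · have hG : G β = (‖emb β‖⁻¹) ^ n := by rw [G, if_neg hβ, zero_add]
    have hβ0 : 0 < ‖emb β‖ := norm_pos_iff.mpr (emb_ne_zero hβ)
    rw [hG]
    have hpos : 0 < (‖emb β‖⁻¹) ^ n := by positivity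
    by_cases hlarge : R ≤ ‖emb β‖
    · have h4 : 4 * (1 + ‖emb c‖) ≤ rho K * ‖emb β‖ := by
        rw [hR, div_le_iff₀ hρ] at hlarge
        linarith
      have hne : β + c ≠ 0 := by
        intro h0
        have : emb c = - emb β := by
          rw [eq_neg_iff_add_eq_zero, add_comm, ← emb_add, h0, emb_zero]
        rw [this, norm_neg] at h4
        have := rho_le_one K
        nlinarith
      have h5 := abs_wt_sub_le_of_large (z := emb c) hs1 hs2
        (by have := one_le_norm_emb hβ; linarith)
        (by rw [← emb_add]; have := one_le_norm_emb hne; linarith) h4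
      rw [emb_add]
      refine h5.trans ?_
      have h6 : (rho K * ‖emb β‖ / 4)⁻¹ ^ (finrank ℚ K + 1) = (4 / rho K) ^ n * (‖emb β‖⁻¹) ^ n := by
        rw [← mul_pow]
        congr 1
        field_simp
      rw [h6]
      calc diffConst K * ‖emb c‖ * ((4 / rho K) ^ n * (‖emb β‖⁻¹) ^ n) = A * (‖emb β‖⁻¹) ^ n := by
            rw [hA]; ring
        _ ≤ _ := by
            gcongr
            have : 0 < R ^ n := by positivity
            linarith
    · refine (abs_wt_emb_sub_le_one hs1 _ _).trans ?_
      have h7 : 1 ≤ R ^ n * (‖emb β‖⁻¹) ^ n := by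
        rw [← mul_pow]
        apply one_le_pow₀
        rw [← div_eq_mul_inv, one_le_div hβ0]
        exact (not_le.mp hlarge).le
      nlinarith

/-! ## summability -/

variable (K) in
/-- the integer lattice as a copy of `𝓞 K` -/
noncomputable def latEquiv : 𝓞 K ≃ mixedEmbedding.integerLattice K :=
  Equiv.ofBijective (fun β => ⟨emb β, ⟨β, rfl⟩⟩) (by
    constructor
    · intro a b h
      exact emb_injective (congrArg Subtype.val h)
    · rintro ⟨x, ⟨β, hβ⟩⟩
      exact ⟨β, Subtype.ext hβ⟩)

variable (K) in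
lemma finrank_integerLattice : finrank ℤ (mixedEmbedding.integerLattice K) = finrank ℚ K := by
  rw [ZLattice.rank ℝ, mixedEmbedding.finrank]

lemma summable_norm_emb : Summable fun β : 𝓞 K => (‖emb β‖⁻¹) ^ (finrank ℚ K + 1) := by
  have h := ZLattice.summable_norm_pow_inv (mixedEmbedding.integerLattice K) (finrank ℚ K + 1)
    (by rw [finrank_integerLattice]; omega)
  exact (latEquiv K).summable_iff.mpr h

lemma summable_G : Summable (G (K := K)) := by
  unfold G
  exact (hasSum_ite_eq (0 : 𝓞 K) (1 : ℝ)).summable.add summable_norm_emb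

lemma summable_norm_emb_rpow {s : ℝ} (hs : 1 < s) :
    Summable fun β : 𝓞 K => ‖emb β‖ ^ (-(finrank ℚ K * s)) := by
  have hn : (0 : ℝ) < finrank ℚ K := Nat.cast_pos.mpr finrank_pos
  have h := ZLattice.summable_norm_rpow (mixedEmbedding.integerLattice K) (-(finrank ℚ K * s))
    (by rw [finrank_integerLattice]; nlinarith)
  exact (latEquiv K).summable_iff.mpr h

lemma wt_emb_le {s : ℝ} (hs : 1 ≤ s) (β : 𝓞 K) :
    wt s (emb β) ≤ rho K ^ (-(finrank ℚ K * s)) * ‖emb β‖ ^ (-(finrank ℚ K * s)) := by
  have hρ := rho_pos K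
  by_cases hβ : β = 0
  · rw [hβ, wt_emb_zero hs]
    positivity
  · have hβ0 : 0 < ‖emb β‖ := norm_pos_iff.mpr (emb_ne_zero hβ)
    by_cases hp : pou K (emb β) = 0
    · rw [wt, hp, mul_zero]; positivity
    · have hne : mixedEmbedding.norm (emb β) ≠ 0 := by
        have := one_le_norm_emb hβ; linarith
      have h1 := pow_le_norm (by positivity) (rho_mul_norm_le hne hp)
      have h2 : wt s (emb β) ≤ (mixedEmbedding.norm (emb β)) ^ (-s) :=
        mul_le_of_le_one_right (Real.rpow_nonneg (mixedEmbedding.norm_nonneg _) _) (pou_le_one _)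
      refine h2.trans ?_
      calc (mixedEmbedding.norm (emb β)) ^ (-s) ≤ ((rho K * ‖emb β‖) ^ finrank ℚ K) ^ (-s) :=
            Real.rpow_le_rpow_of_nonpos (by positivity) h1 (by linarith)
        _ = _ := by
            rw [← Real.mul_rpow hρ.le hβ0.le, ← Real.rpow_natCast, ← Real.rpow_mul (by positivity)]
            congr 1
            ring

lemma summable_wt_emb {s : ℝ} (hs : 1 < s) : Summable fun β : 𝓞 K => wt s (emb β) :=
  Summable.of_nonneg_of_le (fun β => wt_nonneg s _) (fun β => wt_emb_le hs.le β)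
    ((summable_norm_emb_rpow hs).mul_left _)

end Fermat.Agent.H76
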