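import Fermat.Agent.H76Periodic
import Mathlib.Analysis.Normed.Group.Tannery
set_option autoImplicit false
set_option maxSynthPendingDepth 3

/-! # Limits at `s = 1` of sums with periodic weights (helper76) -/

namespace Fermat.Agent.H76

open NumberField NumberField.mixedEmbedding NumberField.Units
  NumberField.Units.dirichletUnitTheorem Module NumberField.InfinitePlace Ideal nonZeroDivisors
  Filter Topology

open scoped Classical

variable {K : Type*} [Field K] [NumberField K]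

lemma tendsto_wt (β : 𝓞 K) :
    Tendsto (fun s : ℝ => wt s (emb β)) (𝓝[>] 1) (𝓝 (wt 1 (emb β))) := by
  by_cases hβ : β = 0
  · rw [hβ, wt_emb_zero le_rfl]
    refine tendsto_const_nhds.congr' ?_
    filter_upwards [self_mem_nhdsWithin] with s hs
    rw [wt_emb_zero (le_of_lt hs)]
  · have h1 := one_le_norm_emb hβ
    have h2 : Continuous fun s : ℝ => wt s (emb β) := by
      unfold wt
      exact (Continuous.rpow continuous_const (by fun_prop) (fun s => Or.inl (by linarith))).mul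
        continuous_const
    exact (h2.tendsto 1).mono_left nhdsWithin_le_nhds

lemma eventually_Ioc : ∀ᶠ s : ℝ in 𝓝[>] 1, 1 < s ∧ s ≤ 2 := by
  filter_upwards [Ioc_mem_nhdsGT (show (1 : ℝ) < 2 by norm_num)] with s hs
  exact hs

lemma tendsto_coset_one (J : (Ideal (𝓞 K))⁰) (c : 𝓞 K) :
    Tendsto (fun s : ℝ => (∑' t : (J : Ideal (𝓞 K)), wt s (emb ((t : 𝓞 K) + c))) -
      ∑' t : (J : Ideal (𝓞 K)), wt s (emb (t : 𝓞 K))) (𝓝[>] 1)
      (𝓝 (∑' t : (J : Ideal (𝓞 K)), (wt 1 (emb ((t : 𝓞 K) + c)) - wt 1 (emb (t : 𝓞 K))))) := by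
  obtain ⟨C, hC0, hC⟩ := exists_diff_bound c
  have h1 : Tendsto (fun s : ℝ => ∑' t : (J : Ideal (𝓞 K)),
      (wt s (emb ((t : 𝓞 K) + c)) - wt s (emb (t : 𝓞 K)))) (𝓝[>] 1)
      (𝓝 (∑' t : (J : Ideal (𝓞 K)), (wt 1 (emb ((t : 𝓞 K) + c)) - wt 1 (emb (t : 𝓞 K))))) := by
    refine tendsto_tsum_of_dominated_convergence (bound := fun t : (J : Ideal (𝓞 K)) =>
      C * G (t : 𝓞 K)) ((summable_G_ideal J).mul_left _) ?_ ?_
    · intro t
      exact (tendsto_wt _).sub (tendsto_wt _)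
    · filter_upwards [eventually_Ioc] with s hs t
      rw [Real.norm_eq_abs]
      exact hC _ s hs.1.le hs.2
  refine h1.congr' ?_
  filter_upwards [eventually_Ioc] with s hs
  exact (summable_wt_coset J c hs.1).tsum_sub (summable_wt_ideal hs.1)

/-- the limit version of `exists_periodic_bound` -/
theorem tendsto_periodic (M : (Ideal (𝓞 K))⁰) (g : 𝓞 K → ℂ)
    (hper : ∀ x : 𝓞 K, ∀ t ∈ (M : Ideal (𝓞 K)), g (t + x) = g x) :
    ∃ L : ℂ, Tendsto (fun s : ℝ =>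
      (∑' β : 𝓞 K, g β * (wt s (emb β) : ℂ)) - (∑ q : 𝓞 K ⧸ (M : Ideal (𝓞 K)), g q.out) *
        ((∑' t : (M : Ideal (𝓞 K)), wt s (emb (t : 𝓞 K)) : ℝ) : ℂ)) (𝓝[>] 1) (𝓝 L) := by
  have h1 : ∀ q : 𝓞 K ⧸ (M : Ideal (𝓞 K)), Tendsto (fun s : ℝ => g q.out *
      (((∑' t : (M : Ideal (𝓞 K)), wt s (emb ((t : 𝓞 K) + q.out))) -
      ∑' t : (M : Ideal (𝓞 K)), wt s (emb (t : 𝓞 K)) : ℝ) : ℂ)) (𝓝[>] 1)
      (𝓝 (g q.out * ((∑' t : (M : Ideal (𝓞 K)),
        (wt 1 (emb ((t : 𝓞 K) + q.out)) - wt 1 (emb (t : 𝓞 K))) : ℝ) : ℂ))) := by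
    intro q
    refine Tendsto.const_mul _ ?_
    exact (Complex.continuous_ofReal.tendsto _).comp (tendsto_coset_one M q.out)
  have h2 := tendsto_finsetSum (Finset.univ : Finset (𝓞 K ⧸ (M : Ideal (𝓞 K))))
    (fun q _ => h1 q)
  refine ⟨_, h2.congr' ?_⟩
  filter_upwards [eventually_Ioc] with s hs
  rw [tsum_weight_coset M g hper hs.1, Finset.sum_mul, ← Finset.sum_sub_distrib]
  refine Finset.sum_congr rfl fun q _ => ?_
  rw [Complex.ofReal_sub]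
  ring

section

variable (M : (Ideal (𝓞 K))⁰) (J : (Ideal (𝓞 K))⁰)

lemma tsum_ideal_eq (g : 𝓞 K → ℂ) (s : ℝ) :
    ∑' β : (J : Ideal (𝓞 K)), g (β : 𝓞 K) * (wt s (emb (β : 𝓞 K)) : ℂ) =
      ∑' β : 𝓞 K, (if β ∈ (J : Ideal (𝓞 K)) then g β else 0) * (wt s (emb β) : ℂ) := by
  have h4 := tsum_subtype ((J : Ideal (𝓞 K)) : Set (𝓞 K))
    (fun β : 𝓞 K => g β * (wt s (emb β) : ℂ))
  refine h4.trans (tsum_congr fun β => ?_)
  rw [Set.indicator_apply]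
  simp only [SetLike.mem_coe]
  split_ifs
  · rfl
  · rw [zero_mul]

/-- limits for periodic unit-invariant weights of mean value zero on `J` -/
theorem tendsto_invClass_weight
    (hMJ : (M : Ideal (𝓞 K)) ≤ (J : Ideal (𝓞 K))) (g : 𝓞 K → ℂ)
    (hu : ∀ (u : (𝓞 K)ˣ) (x : 𝓞 K), g ((u : 𝓞 K) * x) = g x)
    (hper : ∀ x : 𝓞 K, ∀ t ∈ (M : Ideal (𝓞 K)), g (t + x) = g x)
    (hsum : ∑ q : 𝓞 K ⧸ (M : Ideal (𝓞 K)),
      (if q.out ∈ (J : Ideal (𝓞 K)) then g q.out else 0) = 0) :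
    ∃ L : ℂ, Tendsto (fun s : ℝ =>
      ∑' I : InvClass J, g (gen I) * (((absNorm (I.1 : Ideal (𝓞 K)) : ℝ) ^ (-s) : ℝ) : ℂ))
      (𝓝[>] 1) (𝓝 L) := by
  obtain ⟨B, hB⟩ := exists_bound_of_periodic M g hper
  have hper' : ∀ x : 𝓞 K, ∀ t ∈ (M : Ideal (𝓞 K)),
      (fun x : 𝓞 K => if x ∈ (J : Ideal (𝓞 K)) then g x else 0) (t + x) =
      (fun x : 𝓞 K => if x ∈ (J : Ideal (𝓞 K)) then g x else 0) x := by
    intro x t ht
    have : t + x ∈ (J : Ideal (𝓞 K)) ↔ x ∈ (J : Ideal (𝓞 K)) :=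
      (Ideal.add_mem_iff_right _ (hMJ ht))
    simp only [hper x t ht]
    rw [if_congr this rfl rfl]
  obtain ⟨L, hL⟩ := tendsto_periodic M
    (fun x : 𝓞 K => if x ∈ (J : Ideal (𝓞 K)) then g x else 0) hper'
  have hN := absNorm_pos J
  have h1 : Tendsto (fun s : ℝ => (((absNorm (J : Ideal (𝓞 K)) : ℝ) ^ s *
      (torsionOrder K : ℝ)⁻¹ : ℝ) : ℂ)) (𝓝[>] 1)
      (𝓝 (((absNorm (J : Ideal (𝓞 K)) : ℝ) ^ (1 : ℝ) * (torsionOrder K : ℝ)⁻¹ : ℝ) : ℂ)) := by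
    have hc : Continuous fun s : ℝ => (((absNorm (J : Ideal (𝓞 K)) : ℝ) ^ s *
      (torsionOrder K : ℝ)⁻¹ : ℝ) : ℂ) :=
      Complex.continuous_ofReal.comp ((Continuous.rpow continuous_const continuous_id
        (fun s => Or.inl hN.ne')).mul continuous_const)
    exact (hc.tendsto 1).mono_left nhdsWithin_le_nhds
  refine ⟨_, (h1.mul hL).congr' ?_⟩
  filter_upwards [eventually_Ioc] with s hs
  rw [(hasSum_invClass_weight (J := J) g hu hB hs.1).tsum_eq, tsum_ideal_eq]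
  have h2 : ∑ q : 𝓞 K ⧸ (M : Ideal (𝓞 K)),
    (fun x : 𝓞 K => if x ∈ (J : Ideal (𝓞 K)) then g x else 0) q.out = 0 := hsum
  rw [h2, zero_mul, sub_zero]

end

end Fermat.Agent.H76
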