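import Fermat.Agent.H76NormChar
import Fermat.Agent.H76ClassL
import Fermat.Agent.H85Twist
set_option autoImplicit false
set_option maxSynthPendingDepth 3

/-! # Boundedness of `∑ ψ(N I) N(I)^{-s}` near `s = 1`, general case (helper76) -/

namespace Fermat.Agent.H76

open NumberField NumberField.mixedEmbedding NumberField.Units
  NumberField.Units.dirichletUnitTheorem Module NumberField.InfinitePlace Ideal nonZeroDivisors
  Filter Topology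

open scoped Classical

variable {K : Type*} [Field K] [NumberField K]

section mean2

variable {m : ℕ} (χ : DirichletCharacter ℂ m)

/-- the mean value of `χ ∘ N` over the residues in `J` modulo `mJ` does not depend on `J`
(coprime to `m`) -/
lemma mean_eq (hm : m ≠ 0) (J : (Ideal (𝓞 K))⁰)
    (hJ : (J : Ideal (𝓞 K)) ⊔ Ideal.span {(m : 𝓞 K)} = ⊤) :
    ∑ q : 𝓞 K ⧸ (perLat hm J : Ideal (𝓞 K)),
      (if q.out ∈ (J : Ideal (𝓞 K)) then normChar χ q.out else 0) =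
    ∑ x : 𝓞 K ⧸ (perLat hm (1 : (Ideal (𝓞 K))⁰) : Ideal (𝓞 K)), normChar χ x.out := by
  rw [← Finset.sum_filter]
  symm
  set M : Ideal (𝓞 K) := (perLat hm J : Ideal (𝓞 K)) with hM
  set M1 : Ideal (𝓞 K) := (perLat hm (1 : (Ideal (𝓞 K))⁰) : Ideal (𝓞 K)) with hM1
  have hM1' : M1 = Ideal.span {(m : 𝓞 K)} := by
    rw [hM1]
    change Ideal.span {(m : 𝓞 K)} * ((1 : (Ideal (𝓞 K))⁰) : Ideal (𝓞 K)) = _
    rw [OneMemClass.coe_one, mul_one]
  have hMJ : M = Ideal.span {(m : 𝓞 K)} * (J : Ideal (𝓞 K)) := rfl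
  have h1 : (1 : 𝓞 K) ∈ (J : Ideal (𝓞 K)) ⊔ Ideal.span {(m : 𝓞 K)} := by rw [hJ]; trivial
  obtain ⟨e, he, f, hf, hef⟩ := Submodule.mem_sup.mp h1
  have hout : ∀ x : 𝓞 K, ∃ t ∈ M, (Ideal.Quotient.mk M x).out = t + x := by
    intro x
    refine ⟨(Ideal.Quotient.mk M x).out - x, ?_, by ring⟩
    rw [← Ideal.Quotient.eq_zero_iff_mem, map_sub, Ideal.Quotient.mk_out, sub_self]
  have hout1 : ∀ x : 𝓞 K, ∃ t ∈ M1, (Ideal.Quotient.mk M1 x).out = t + x := by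
    intro x
    refine ⟨(Ideal.Quotient.mk M1 x).out - x, ?_, by ring⟩
    rw [← Ideal.Quotient.eq_zero_iff_mem, map_sub, Ideal.Quotient.mk_out, sub_self]
  refine Finset.sum_bij (fun (x : 𝓞 K ⧸ M1) _ => Ideal.Quotient.mk M (e * x.out)) ?_ ?_ ?_ ?_
  · intro x _
    rw [Finset.mem_filter]
    refine ⟨Finset.mem_univ _, ?_⟩
    obtain ⟨t, ht, h⟩ := hout (e * x.out)
    rw [h]
    exact Ideal.add_mem _ (perLat_le hm J ht) (Ideal.mul_mem_right _ _ he)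
  · intro x _ y _ h
    have h2 : e * x.out - e * y.out ∈ M := by
      rw [← Ideal.Quotient.eq_zero_iff_mem, map_sub, h, sub_self]
    have h3 : x.out - y.out ∈ M1 := by
      have h4 : x.out - y.out = (e * x.out - e * y.out) + f * (x.out - y.out) := by
        linear_combination (-(x.out - y.out)) * hef
      rw [h4, hM1']
      exact Ideal.add_mem _ (perLat_le' hm J h2) (Ideal.mul_mem_right _ _ hf)
    rw [← Ideal.Quotient.mk_out x, ← Ideal.Quotient.mk_out y]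
    exact Ideal.Quotient.eq.mpr h3
  · intro q hq
    rw [Finset.mem_filter] at hq
    refine ⟨Ideal.Quotient.mk M1 q.out, Finset.mem_univ _, ?_⟩
    obtain ⟨t, ht, h⟩ := hout1 q.out
    rw [h]
    conv_rhs => rw [← Ideal.Quotient.mk_out q]
    rw [Ideal.Quotient.eq, hMJ]
    have h4 : e * (t + q.out) - q.out = t * e - f * q.out := by
      linear_combination q.out * hef
    rw [h4]
    rw [hM1'] at ht
    exact Ideal.sub_mem _ (Ideal.mul_mem_mul ht he) (Ideal.mul_mem_mul hf hq.2)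
  · intro x _
    obtain ⟨t, ht, h⟩ := hout (e * x.out)
    rw [h, normChar_periodic χ (perLat_le' hm J ht)]
    have h5 : e * x.out = (-(f * x.out)) + x.out := by
      linear_combination x.out * hef
    rw [h5, normChar_periodic χ (Ideal.neg_mem_iff _ |>.mpr (Ideal.mul_mem_right _ _ hf))]

/-- the common main term -/
noncomputable def mainTerm (K : Type*) [Field K] [NumberField K] {m : ℕ}
    (χ : DirichletCharacter ℂ m) (hm : m ≠ 0) (s : ℝ) : ℂ :=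
  (∑ x : 𝓞 K ⧸ (perLat hm (1 : (Ideal (𝓞 K))⁰) : Ideal (𝓞 K)), normChar χ x.out) *
    (((absNorm (Ideal.span {(m : 𝓞 K)}) : ℝ) ^ (-s) *
      ((torsionOrder K : ℝ)⁻¹ * ∑' β : 𝓞 K, wt s (emb β)) : ℝ) : ℂ)

lemma exists_bound_mainTerm (hm : m ≠ 0) (heven : χ (-1) = 1) (J : (Ideal (𝓞 K))⁰)
    (hJ : (J : Ideal (𝓞 K)) ⊔ Ideal.span {(m : 𝓞 K)} = ⊤) :
    ∃ C : ℝ, ∀ s : ℝ, 1 < s ∧ s ≤ 2 →
      ‖(∑' I : InvClass J, normChar χ (gen I) *
        (((absNorm (I.1 : Ideal (𝓞 K)) : ℝ) ^ (-s) : ℝ) : ℂ)) - mainTerm K χ hm s‖ ≤ C := by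
  obtain ⟨B, hB⟩ := normChar_bound (K := K) χ hm
  set g' : 𝓞 K → ℂ := fun x => if x ∈ (J : Ideal (𝓞 K)) then normChar χ x else 0 with hg'
  have hper' : ∀ x : 𝓞 K, ∀ t ∈ (perLat hm J : Ideal (𝓞 K)), g' (t + x) = g' x := by
    intro x t ht
    simp only [hg', normChar_periodic χ (perLat_le' hm J ht)]
    have : t + x ∈ (J : Ideal (𝓞 K)) ↔ x ∈ (J : Ideal (𝓞 K)) :=
      (Ideal.add_mem_iff_right _ (perLat_le hm J ht))
    rw [if_congr this rfl rfl]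
  obtain ⟨C, hC⟩ := exists_periodic_bound (perLat hm J) g' hper'
  obtain ⟨D, hD0, hD⟩ := exists_pz_bound (perLat hm J)
  have hmean := mean_eq χ hm J hJ
  set μ : ℂ := ∑ x : 𝓞 K ⧸ (perLat hm (1 : (Ideal (𝓞 K))⁰) : Ideal (𝓞 K)), normChar χ x.out
    with hμ
  have hw := torsionOrder_pos K
  have hN := absNorm_pos J
  have hN1 : (1 : ℝ) ≤ absNorm (J : Ideal (𝓞 K)) := by
    have : absNorm (J : Ideal (𝓞 K)) ≠ 0 := by
      intro h; rw [h] at hN; simp at hN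
    exact_mod_cast Nat.one_le_iff_ne_zero.mpr this
  have hm0 : (1 : ℝ) ≤ (absNorm (Ideal.span {(m : 𝓞 K)}) : ℝ) := by
    have : absNorm (Ideal.span {(m : 𝓞 K)}) ≠ 0 := by
      rw [Ne, Ideal.absNorm_eq_zero_iff, Ideal.span_singleton_eq_bot]
      exact_mod_cast hm
    exact_mod_cast Nat.one_le_iff_ne_zero.mpr this
  have hmul : (absNorm (perLat hm J : Ideal (𝓞 K)) : ℝ) =
      (absNorm (Ideal.span {(m : 𝓞 K)}) : ℝ) * (absNorm (J : Ideal (𝓞 K)) : ℝ) := by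
    have : (perLat hm J : Ideal (𝓞 K)) = Ideal.span {(m : 𝓞 K)} * (J : Ideal (𝓞 K)) := rfl
    rw [this, map_mul, Nat.cast_mul]
  refine ⟨(absNorm (J : Ideal (𝓞 K)) : ℝ) ^ (2 : ℝ) * (torsionOrder K : ℝ)⁻¹ * |C| + ‖μ‖ * D,
    fun s hs => ?_⟩
  have h3 : ∑' β : (J : Ideal (𝓞 K)), normChar χ (β : 𝓞 K) * (wt s (emb (β : 𝓞 K)) : ℂ) =
      ∑' β : 𝓞 K, g' β * (wt s (emb β) : ℂ) := by
    have h4 := tsum_subtype ((J : Ideal (𝓞 K)) : Set (𝓞 K))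
      (fun β : 𝓞 K => normChar χ β * (wt s (emb β) : ℂ))
    refine h4.trans (tsum_congr fun β => ?_)
    rw [Set.indicator_apply]
    simp only [hg', SetLike.mem_coe]
    split_ifs
    · rfl
    · rw [zero_mul]
  have h1 := hC s hs
  have h2 : (∑ q : 𝓞 K ⧸ (perLat hm J : Ideal (𝓞 K)), g' q.out) = μ := hmean
  rw [h2] at h1
  rw [(hasSum_invClass_weight (J := J) (normChar χ) (normChar_unit χ heven) hB hs.1).tsum_eq, h3]
  have hpz := hD s hs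
  set S := ∑' β : 𝓞 K, g' β * (wt s (emb β) : ℂ) with hS
  set T := ∑' t : (perLat hm J : Ideal (𝓞 K)), wt s (emb (t : 𝓞 K)) with hT
  have hpzT : pz (perLat hm J) s = (absNorm (Ideal.span {(m : 𝓞 K)}) : ℝ) ^ s *
      ((absNorm (J : Ideal (𝓞 K)) : ℝ) ^ s * (torsionOrder K : ℝ)⁻¹ * T) := by
    rw [pz, hmul, Real.mul_rpow (by linarith) (by linarith)]
    ring
  set A : ℝ := (absNorm (J : Ideal (𝓞 K)) : ℝ) ^ s * (torsionOrder K : ℝ)⁻¹ with hA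
  set Nm : ℝ := (absNorm (Ideal.span {(m : 𝓞 K)}) : ℝ) with hNm
  have hNms : Nm ^ (-s) * Nm ^ s = 1 := by
    rw [← Real.rpow_add (by linarith), neg_add_cancel, Real.rpow_zero]
  have hA0 : 0 ≤ A := by positivity
  have hA2 : A ≤ (absNorm (J : Ideal (𝓞 K)) : ℝ) ^ (2 : ℝ) * (torsionOrder K : ℝ)⁻¹ := by
    rw [hA]
    gcongr
    · exact hs.2
  have hNm1 : Nm ^ (-s) ≤ 1 := Real.rpow_le_one_of_one_le_of_nonpos hm0 (by linarith [hs.1])
  have hNm0 : 0 ≤ Nm ^ (-s) := by positivity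
  have hdecomp : (A : ℂ) * S - mainTerm K χ hm s =
      (A : ℂ) * (S - μ * (T : ℂ)) + μ * ((Nm ^ (-s) : ℝ) : ℂ) *
        ((pz (perLat hm J) s - (torsionOrder K : ℝ)⁻¹ * ∑' β : 𝓞 K, wt s (emb β) : ℝ) : ℂ) := by
    have h5 : ((Nm ^ (-s) : ℝ) : ℂ) * ((Nm ^ s : ℝ) : ℂ) = 1 := by
      rw [← Complex.ofReal_mul, hNms, Complex.ofReal_one]
    rw [mainTerm, hpzT, ← hμ]
    push_cast
    push_cast at h5
    linear_combination (-(μ * A * T)) * h5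
  rw [hdecomp]
  refine (norm_add_le _ _).trans (add_le_add ?_ ?_)
  · rw [norm_mul, Complex.norm_real, Real.norm_eq_abs, abs_of_nonneg hA0]
    exact mul_le_mul hA2 (h1.trans (le_abs_self _)) (norm_nonneg _) (by positivity)
  · rw [norm_mul, norm_mul, Complex.norm_real, Complex.norm_real, Real.norm_eq_abs,
      Real.norm_eq_abs, abs_of_nonneg hNm0]
    calc ‖μ‖ * Nm ^ (-s) * _ ≤ ‖μ‖ * 1 * D := by
          gcongr
      _ = ‖μ‖ * D := by ring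

end mean2

/-! ## the class group character -/

section kappa

variable {m : ℕ} (χ : DirichletCharacter ℂ m)

lemma eval_eq_copRep_inv (hm : m ≠ 0) (heven : χ (-1) = 1)
    (h01 : ∀ a : 𝓞 K, normChar χ a = 0 ∨ normChar χ a = 1) {I : (Ideal (𝓞 K))⁰}
    (hI : χ ((absNorm (I : Ideal (𝓞 K)) : ℕ) : ZMod m) ≠ 0) :
    χ ((absNorm (I : Ideal (𝓞 K)) : ℕ) : ZMod m) =
      (χ ((absNorm (copRep hm (ClassGroup.mk0 I) : Ideal (𝓞 K)) : ℕ) : ZMod m))⁻¹ := by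
  have h1 : ClassGroup.mk0 (I * copRep hm (ClassGroup.mk0 I)) = 1 := by
    rw [map_mul, mk0_copRep, mul_inv_cancel]
  obtain ⟨a, ha⟩ := (ClassGroup.mk0_eq_one_iff _).mp h1
  have ha' : (I : Ideal (𝓞 K)) * (copRep hm (ClassGroup.mk0 I) : Ideal (𝓞 K)) =
      Ideal.span {a} := ha
  have h2 : normChar χ a = χ ((absNorm (I : Ideal (𝓞 K)) : ℕ) : ZMod m) *
      χ ((absNorm (copRep hm (ClassGroup.mk0 I) : Ideal (𝓞 K)) : ℕ) : ZMod m) := by
    rw [normChar_eq_absNorm χ heven, ← ha', map_mul, Nat.cast_mul, map_mul]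
  have hne : χ ((absNorm (copRep hm (ClassGroup.mk0 I) : Ideal (𝓞 K)) : ℕ) : ZMod m) ≠ 0 :=
    ((isUnit_copRep hm (ClassGroup.mk0 I)).map χ).ne_zero
  have h3 : normChar χ a ≠ 0 := by
    rw [h2]; exact mul_ne_zero hI hne
  have h4 := (h01 a).resolve_left h3
  rw [h2] at h4
  exact eq_inv_of_mul_eq_one_left h4

lemma sum_copRep_inv_eq_zero (hm : m ≠ 0) (heven : χ (-1) = 1)
    (h01 : ∀ a : 𝓞 K, normChar χ a = 0 ∨ normChar χ a = 1) {I₀ : (Ideal (𝓞 K))⁰}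
    (hI0 : χ ((absNorm (I₀ : Ideal (𝓞 K)) : ℕ) : ZMod m) ≠ 0)
    (hI1 : χ ((absNorm (I₀ : Ideal (𝓞 K)) : ℕ) : ZMod m) ≠ 1) :
    ∑ C : ClassGroup (𝓞 K), (χ ((absNorm (copRep hm C : Ideal (𝓞 K)) : ℕ) : ZMod m))⁻¹ = 0 := by
  set κ : ClassGroup (𝓞 K) → ℂ := fun C =>
    (χ ((absNorm (copRep hm C : Ideal (𝓞 K)) : ℕ) : ZMod m))⁻¹ with hκ
  have hκI : ∀ I : (Ideal (𝓞 K))⁰, χ ((absNorm (I : Ideal (𝓞 K)) : ℕ) : ZMod m) ≠ 0 →
      χ ((absNorm (I : Ideal (𝓞 K)) : ℕ) : ZMod m) = κ (ClassGroup.mk0 I) :=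
    fun I hI => eval_eq_copRep_inv χ hm heven h01 hI
  have hmul : ∀ C : ClassGroup (𝓞 K), κ (ClassGroup.mk0 I₀ * C) =
      χ ((absNorm (I₀ : Ideal (𝓞 K)) : ℕ) : ZMod m) * κ C := by
    intro C
    have h1 : ClassGroup.mk0 (copRep hm C⁻¹) = C := by rw [mk0_copRep, inv_inv]
    have hne : χ ((absNorm (copRep hm C⁻¹ : Ideal (𝓞 K)) : ℕ) : ZMod m) ≠ 0 :=
      ((isUnit_copRep hm C⁻¹).map χ).ne_zero
    have h2 := hκI (copRep hm C⁻¹) hne
    rw [h1] at h2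
    have h3 : χ ((absNorm ((I₀ * copRep hm C⁻¹ : (Ideal (𝓞 K))⁰) : Ideal (𝓞 K)) : ℕ) : ZMod m) =
        χ ((absNorm (I₀ : Ideal (𝓞 K)) : ℕ) : ZMod m) *
        χ ((absNorm (copRep hm C⁻¹ : Ideal (𝓞 K)) : ℕ) : ZMod m) := by
      rw [Submonoid.coe_mul, map_mul, Nat.cast_mul, map_mul]
    have h4 := hκI (I₀ * copRep hm C⁻¹) (by rw [h3]; exact mul_ne_zero hI0 hne)
    rw [map_mul, h1] at h4
    rw [← h4, h3, h2]
  have h1 : χ ((absNorm (I₀ : Ideal (𝓞 K)) : ℕ) : ZMod m) * ∑ C, κ C = ∑ C, κ C := by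
    rw [Finset.mul_sum]
    refine Fintype.sum_equiv (Equiv.mulLeft (ClassGroup.mk0 I₀)) _ _ fun C => ?_
    rw [Equiv.coe_mulLeft, hmul]
  have h2 : (χ ((absNorm (I₀ : Ideal (𝓞 K)) : ℕ) : ZMod m) - 1) * ∑ C, κ C = 0 := by
    rw [sub_mul, one_mul, h1, sub_self]
  rcases mul_eq_zero.mp h2 with h | h
  · exact absurd (sub_eq_zero.mp h) hI1
  · exact h

lemma exists_bound_sum_pL (hm : m ≠ 0) (heven : χ (-1) = 1)
    (h01 : ∀ a : 𝓞 K, normChar χ a = 0 ∨ normChar χ a = 1) {I₀ : (Ideal (𝓞 K))⁰}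
    (hI0 : χ ((absNorm (I₀ : Ideal (𝓞 K)) : ℕ) : ZMod m) ≠ 0)
    (hI1 : χ ((absNorm (I₀ : Ideal (𝓞 K)) : ℕ) : ZMod m) ≠ 1) :
    ∃ B : ℝ, ∀ s : ℝ, 1 < s ∧ s ≤ 2 → ‖∑ C : ClassGroup (𝓞 K), pL χ hm C s‖ ≤ B := by
  choose B hB using fun C : ClassGroup (𝓞 K) =>
    exists_bound_mainTerm χ hm heven (copRep hm C) (copRep_coprime hm C)
  refine ⟨∑ C : ClassGroup (𝓞 K),
    ‖(χ ((absNorm (copRep hm C : Ideal (𝓞 K)) : ℕ) : ZMod m))⁻¹‖ * B C, fun s hs => ?_⟩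
  have h1 : ∑ C : ClassGroup (𝓞 K), pL χ hm C s = ∑ C : ClassGroup (𝓞 K),
      (χ ((absNorm (copRep hm C : Ideal (𝓞 K)) : ℕ) : ZMod m))⁻¹ *
      ((∑' I : InvClass (copRep hm C : (Ideal (𝓞 K))⁰), normChar χ (gen I) *
        (((absNorm (I.1 : Ideal (𝓞 K)) : ℝ) ^ (-s) : ℝ) : ℂ)) - mainTerm K χ hm s) := by
    simp_rw [mul_sub]
    rw [Finset.sum_sub_distrib, ← Finset.sum_mul,
      sum_copRep_inv_eq_zero χ hm heven h01 hI0 hI1, zero_mul, sub_zero]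
    rfl
  rw [h1]
  refine norm_sum_le_of_le _ fun C _ => ?_
  rw [norm_mul]
  exact mul_le_mul_of_nonneg_left (hB C s hs) (norm_nonneg _)

end kappa

theorem normCharBound : H85.NormCharBound := by
  intro K _ _ m _ ψ heven hI
  have hm : m ≠ 0 := NeZero.ne m
  by_cases h01 : ∀ a : 𝓞 K, normChar ψ a = 0 ∨ normChar ψ a = 1
  · obtain ⟨I, hI1, hI0⟩ := hI
    by_cases hIb : I = ⊥
    · -- then `ψ 0 ≠ 0`, hence `m = 1` and `ψ = 1`
      exfalso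
      subst hIb
      rw [Ideal.absNorm_bot, Nat.cast_zero] at hI0 hI1
      have h1 : IsUnit (0 : ZMod m) := by
        by_contra h
        exact hI0 (ψ.map_nonunit h)
      have h2 : (0 : ZMod m) = 1 := by
        rw [isUnit_zero_iff] at h1
        exact h1
      rw [h2, map_one] at hI1
      exact hI1 rfl
    · obtain ⟨B, hB⟩ := exists_bound_sum_pL ψ hm heven h01
        (I₀ := ⟨I, mem_nonZeroDivisors_of_ne_zero hIb⟩) hI0 hI1
      refine ⟨B, fun s hs1 hs2 => ?_⟩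
      have h := (hasSum_sum_pL (K := K) ψ hm heven (fun _ => 1) hs1).tsum_eq
      simp only [one_mul] at h
      rw [h]
      exact hB s ⟨hs1, hs2⟩
  · push Not at h01
    obtain ⟨a, ha0, ha1⟩ := h01
    obtain ⟨C, hC⟩ := normCharLSeries_bounded K hm ψ heven a ha0 ha1 (fun _ => 1)
    refine ⟨C, fun s hs1 hs2 => ?_⟩
    have h := hC s hs1 hs2
    simp only [one_mul] at h
    exact h

end Fermat.Agent.H76
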