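import Fermat.Agent.H76ClassBound
set_option autoImplicit false
set_option maxSynthPendingDepth 3

/-! # Periodic unit-invariant weights (helper76, generalisation of D2 for Chebotarev) -/

namespace Fermat.Agent.H76

open NumberField NumberField.mixedEmbedding NumberField.Units
  NumberField.Units.dirichletUnitTheorem Module NumberField.InfinitePlace Ideal nonZeroDivisors
  Filter Topology

open scoped Classical

variable {K : Type*} [Field K] [NumberField K]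

/-! ## summability with a bounded weight -/

lemma summable_weight (g : 𝓞 K → ℂ) {B : ℝ} (hB : ∀ x, ‖g x‖ ≤ B) {s : ℝ} (hs : 1 < s) :
    Summable fun β : 𝓞 K => g β * (wt s (emb β) : ℂ) := by
  refine Summable.of_norm_bounded (g := fun β : 𝓞 K => B * wt s (emb β))
    ((summable_wt_emb hs).mul_left B) fun β => ?_
  rw [norm_mul, Complex.norm_real, Real.norm_eq_abs, abs_of_nonneg (wt_nonneg _ _)]
  exact mul_le_mul_of_nonneg_right (hB β) (wt_nonneg _ _)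

lemma summable_weight_ideal (J : (Ideal (𝓞 K))⁰) (g : 𝓞 K → ℂ) {B : ℝ} (hB : ∀ x, ‖g x‖ ≤ B)
    {s : ℝ} (hs : 1 < s) :
    Summable fun β : (J : Ideal (𝓞 K)) => g (β : 𝓞 K) * (wt s (emb (β : 𝓞 K)) : ℂ) :=
  (summable_weight g hB hs).comp_injective (i := fun β : (J : Ideal (𝓞 K)) => (β : 𝓞 K))
    Subtype.val_injective

section regroup

variable {J : (Ideal (𝓞 K))⁰}

lemma tsum_weight_par (g : 𝓞 K → ℂ) {s : ℝ} (hs : 1 < s) :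
    ∑' a : InvClass J × (𝓞 K)ˣ, g ((par a : (J : Ideal (𝓞 K))) : 𝓞 K) *
        (wt s (emb ((par a : (J : Ideal (𝓞 K))) : 𝓞 K)) : ℂ) =
      ∑' β : (J : Ideal (𝓞 K)), g (β : 𝓞 K) * (wt s (emb (β : 𝓞 K)) : ℂ) := by
  refine par_injective.tsum_eq
    (f := fun β : (J : Ideal (𝓞 K)) => g (β : 𝓞 K) * (wt s (emb (β : 𝓞 K)) : ℂ)) ?_
  intro β hβ
  have h : (β : 𝓞 K) ≠ 0 := by
    intro h0
    apply hβ
    change g (β : 𝓞 K) * (wt s (emb (β : 𝓞 K)) : ℂ) = 0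
    rw [h0, wt_emb_zero hs.le, Complex.ofReal_zero, mul_zero]
  exact exists_par_eq h

lemma summable_weight_par (g : 𝓞 K → ℂ) {B : ℝ} (hB : ∀ x, ‖g x‖ ≤ B) {s : ℝ} (hs : 1 < s) :
    Summable fun a : InvClass J × (𝓞 K)ˣ => g ((par a : (J : Ideal (𝓞 K))) : 𝓞 K) *
        (wt s (emb ((par a : (J : Ideal (𝓞 K))) : 𝓞 K)) : ℂ) :=
  (summable_weight_ideal J g hB hs).comp_injective (i := par) par_injective

lemma hasSum_weight_fiber (g : 𝓞 K → ℂ) (hu : ∀ (u : (𝓞 K)ˣ) (x : 𝓞 K), g ((u : 𝓞 K) * x) = g x)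
    (s : ℝ) (I : InvClass J) :
    HasSum (fun u : (𝓞 K)ˣ => g ((par (I, u) : (J : Ideal (𝓞 K))) : 𝓞 K) *
        (wt s (emb ((par (I, u) : (J : Ideal (𝓞 K))) : 𝓞 K)) : ℂ))
      (g (gen I) * ((((absNorm (I.1 : Ideal (𝓞 K)) : ℝ) * (absNorm (J : Ideal (𝓞 K)) : ℝ)) ^ (-s) *
        torsionOrder K : ℝ) : ℂ)) := by
  have h1 := (Complex.hasSum_ofReal.mpr (hasSum_wt_par_fiber s I)).mul_left (g (gen I))
  have h2 : (fun u : (𝓞 K)ˣ => g ((par (I, u) : (J : Ideal (𝓞 K))) : 𝓞 K) *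
        (wt s (emb ((par (I, u) : (J : Ideal (𝓞 K))) : 𝓞 K)) : ℂ)) =
      fun u : (𝓞 K)ˣ => g (gen I) * (wt s (emb ((par (I, u) : (J : Ideal (𝓞 K))) : 𝓞 K)) : ℂ) := by
    funext u
    rw [coe_par, hu]
  rw [h2]
  exact h1

lemma hasSum_of_fiberwiseC {α β : Type*} (f : α × β → ℂ) (g : α → ℂ) {a : ℂ} (h : HasSum f a)
    (hf : ∀ x, HasSum (fun y => f (x, y)) (g x)) : HasSum g a := h.prod_fiberwise hf

lemma hasSum_weight_ideal (g : 𝓞 K → ℂ) (hu : ∀ (u : (𝓞 K)ˣ) (x : 𝓞 K), g ((u : 𝓞 K) * x) = g x)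
    {B : ℝ} (hB : ∀ x, ‖g x‖ ≤ B) {s : ℝ} (hs : 1 < s) :
    HasSum (fun I : InvClass J => g (gen I) *
      ((((absNorm (I.1 : Ideal (𝓞 K)) : ℝ) * (absNorm (J : Ideal (𝓞 K)) : ℝ)) ^ (-s) *
        torsionOrder K : ℝ) : ℂ))
      (∑' β : (J : Ideal (𝓞 K)), g (β : 𝓞 K) * (wt s (emb (β : 𝓞 K)) : ℂ)) := by
  rw [← tsum_weight_par g hs]
  exact hasSum_of_fiberwiseC
    (fun a : InvClass J × (𝓞 K)ˣ => g ((par a : (J : Ideal (𝓞 K))) : 𝓞 K) *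
        (wt s (emb ((par a : (J : Ideal (𝓞 K))) : 𝓞 K)) : ℂ))
    (fun I : InvClass J => g (gen I) *
      ((((absNorm (I.1 : Ideal (𝓞 K)) : ℝ) * (absNorm (J : Ideal (𝓞 K)) : ℝ)) ^ (-s) *
        torsionOrder K : ℝ) : ℂ)) (summable_weight_par g hB hs).hasSum
    (fun I => hasSum_weight_fiber g hu s I)

/-- regrouping by ideals with a unit invariant weight -/
lemma hasSum_invClass_weight (g : 𝓞 K → ℂ)
    (hu : ∀ (u : (𝓞 K)ˣ) (x : 𝓞 K), g ((u : 𝓞 K) * x) = g x)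
    {B : ℝ} (hB : ∀ x, ‖g x‖ ≤ B) {s : ℝ} (hs : 1 < s) :
    HasSum (fun I : InvClass J => g (gen I) *
      (((absNorm (I.1 : Ideal (𝓞 K)) : ℝ) ^ (-s) : ℝ) : ℂ))
      ((((absNorm (J : Ideal (𝓞 K)) : ℝ) ^ s * (torsionOrder K : ℝ)⁻¹ : ℝ) : ℂ) *
        ∑' β : (J : Ideal (𝓞 K)), g (β : 𝓞 K) * (wt s (emb (β : 𝓞 K)) : ℂ)) := by
  have h := (hasSum_weight_ideal (J := J) g hu hB hs).mul_left
    ((((absNorm (J : Ideal (𝓞 K)) : ℝ) ^ s * (torsionOrder K : ℝ)⁻¹ : ℝ) : ℂ))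
  have hJ := absNorm_pos J
  have hw := torsionOrder_pos K
  have h2 : (fun I : InvClass J => g (gen I) *
      (((absNorm (I.1 : Ideal (𝓞 K)) : ℝ) ^ (-s) : ℝ) : ℂ)) = fun I : InvClass J =>
      ((((absNorm (J : Ideal (𝓞 K)) : ℝ) ^ s * (torsionOrder K : ℝ)⁻¹ : ℝ) : ℂ)) *
      (g (gen I) *
      ((((absNorm (I.1 : Ideal (𝓞 K)) : ℝ) * (absNorm (J : Ideal (𝓞 K)) : ℝ)) ^ (-s) *
        torsionOrder K : ℝ) : ℂ)) := by
    funext I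
    have hI := absNorm_pos I.1
    have h3 : (absNorm (I.1 : Ideal (𝓞 K)) : ℝ) ^ (-s) =
        ((absNorm (J : Ideal (𝓞 K)) : ℝ) ^ s * (torsionOrder K : ℝ)⁻¹) *
        (((absNorm (I.1 : Ideal (𝓞 K)) : ℝ) * (absNorm (J : Ideal (𝓞 K)) : ℝ)) ^ (-s) *
        torsionOrder K) := by
      rw [Real.mul_rpow hI.le hJ.le, Real.rpow_neg hJ.le]
      have : (absNorm (J : Ideal (𝓞 K)) : ℝ) ^ s ≠ 0 := (Real.rpow_pos_of_pos hJ _).ne'
      field_simp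
    rw [h3, Complex.ofReal_mul]
    ring
  rw [h2]
  exact h

end regroup

/-! ## periodic weights -/

section periodic

variable (M : (Ideal (𝓞 K))⁰)

lemma exists_bound_of_periodic (g : 𝓞 K → ℂ)
    (hper : ∀ x : 𝓞 K, ∀ t ∈ (M : Ideal (𝓞 K)), g (t + x) = g x) : ∃ B : ℝ, ∀ x, ‖g x‖ ≤ B := by
  refine ⟨∑ q : 𝓞 K ⧸ (M : Ideal (𝓞 K)), ‖g q.out‖, fun x => ?_⟩
  obtain ⟨⟨q, t⟩, rfl⟩ := (cosetEquiv M).surjective x
  rw [cosetEquiv_apply, hper _ _ t.2]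
  exact Finset.single_le_sum (f := fun q : 𝓞 K ⧸ (M : Ideal (𝓞 K)) => ‖g q.out‖)
    (fun _ _ => norm_nonneg _) (Finset.mem_univ q)

lemma tsum_weight_cosetEquiv (g : 𝓞 K → ℂ) (s : ℝ) :
    (∑' a : (𝓞 K ⧸ (M : Ideal (𝓞 K))) × (M : Ideal (𝓞 K)),
      g (cosetEquiv M a) * (wt s (emb (cosetEquiv M a)) : ℂ)) =
      ∑' β : 𝓞 K, g β * (wt s (emb β) : ℂ) :=
  (cosetEquiv M).tsum_eq (fun β => g β * (wt s (emb β) : ℂ))

lemma summable_weight_cosetEquiv (g : 𝓞 K → ℂ) {B : ℝ} (hB : ∀ x, ‖g x‖ ≤ B) {s : ℝ} (hs : 1 < s) :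
    Summable fun a : (𝓞 K ⧸ (M : Ideal (𝓞 K))) × (M : Ideal (𝓞 K)) =>
      g (cosetEquiv M a) * (wt s (emb (cosetEquiv M a)) : ℂ) :=
  (cosetEquiv M).summable_iff (f := fun β => g β * (wt s (emb β) : ℂ)) |>.mpr
    (summable_weight g hB hs)

lemma tsum_weight_coset (g : 𝓞 K → ℂ)
    (hper : ∀ x : 𝓞 K, ∀ t ∈ (M : Ideal (𝓞 K)), g (t + x) = g x) {s : ℝ} (hs : 1 < s) :
    (∑' β : 𝓞 K, g β * (wt s (emb β) : ℂ)) =
    ∑ q : 𝓞 K ⧸ (M : Ideal (𝓞 K)), g q.out * ((∑' t : (M : Ideal (𝓞 K)),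
      wt s (emb ((t : 𝓞 K) + q.out)) : ℝ) : ℂ) := by
  obtain ⟨B, hB⟩ := exists_bound_of_periodic M g hper
  rw [← tsum_weight_cosetEquiv M g s, (summable_weight_cosetEquiv M g hB hs).tsum_prod,
    tsum_fintype]
  refine Finset.sum_congr rfl fun q _ => ?_
  rw [Complex.ofReal_tsum, ← tsum_mul_left]
  congr 1
  funext t
  rw [cosetEquiv_apply, hper _ _ t.2]

lemma exists_sum_bound_weight {α : Type*} [Fintype α] (χ : α → ℂ) (f g : α → ℝ → ℝ)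
    (P : ℝ → Prop) (h : ∀ a, ∃ C : ℝ, 0 ≤ C ∧ ∀ s, P s → |f a s - g a s| ≤ C) :
    ∃ C : ℝ, ∀ s, P s → ‖∑ a, χ a * (f a s : ℂ) - ∑ a, χ a * (g a s : ℂ)‖ ≤ C := by
  choose C hC0 hC using h
  refine ⟨∑ a, ‖χ a‖ * C a, fun s hs => ?_⟩
  rw [← Finset.sum_sub_distrib]
  refine norm_sum_le_of_le _ fun a _ => ?_
  rw [← mul_sub, ← Complex.ofReal_sub, norm_mul, Complex.norm_real, Real.norm_eq_abs]
  exact mul_le_mul_of_nonneg_left (hC a s hs) (norm_nonneg _)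

/-- a periodic weight: the weighted sum is the mean value times the sum over the period lattice,
up to a bounded error -/
lemma exists_periodic_bound (g : 𝓞 K → ℂ)
    (hper : ∀ x : 𝓞 K, ∀ t ∈ (M : Ideal (𝓞 K)), g (t + x) = g x) :
    ∃ C : ℝ, ∀ s : ℝ, 1 < s ∧ s ≤ 2 →
      ‖(∑' β : 𝓞 K, g β * (wt s (emb β) : ℂ)) - (∑ q : 𝓞 K ⧸ (M : Ideal (𝓞 K)), g q.out) *
        ((∑' t : (M : Ideal (𝓞 K)), wt s (emb (t : 𝓞 K)) : ℝ) : ℂ)‖ ≤ C := by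
  obtain ⟨C, hC⟩ := exists_sum_bound_weight (α := 𝓞 K ⧸ (M : Ideal (𝓞 K)))
    (fun q => g q.out)
    (fun q s => ∑' t : (M : Ideal (𝓞 K)), wt s (emb ((t : 𝓞 K) + q.out)))
    (fun _ s => ∑' t : (M : Ideal (𝓞 K)), wt s (emb (t : 𝓞 K))) (fun s => 1 < s ∧ s ≤ 2)
    (fun q => by
      obtain ⟨C, hC0, hC⟩ := exists_coset_bound_one M q.out
      exact ⟨C, hC0, fun s hs => hC s hs.1 hs.2⟩)
  refine ⟨C, fun s hs => ?_⟩
  rw [tsum_weight_coset M g hper hs.1, Finset.sum_mul]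
  exact hC s hs

/-- bounded sums for periodic unit-invariant weights of mean value zero on `J` -/
theorem exists_bound_invClass_weight (J : (Ideal (𝓞 K))⁰)
    (hMJ : (M : Ideal (𝓞 K)) ≤ (J : Ideal (𝓞 K))) (g : 𝓞 K → ℂ)
    (hu : ∀ (u : (𝓞 K)ˣ) (x : 𝓞 K), g ((u : 𝓞 K) * x) = g x)
    (hper : ∀ x : 𝓞 K, ∀ t ∈ (M : Ideal (𝓞 K)), g (t + x) = g x)
    (hsum : ∑ q : 𝓞 K ⧸ (M : Ideal (𝓞 K)),
      (if q.out ∈ (J : Ideal (𝓞 K)) then g q.out else 0) = 0) :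
    ∃ C : ℝ, ∀ s : ℝ, 1 < s ∧ s ≤ 2 →
      ‖∑' I : InvClass J, g (gen I) * (((absNorm (I.1 : Ideal (𝓞 K)) : ℝ) ^ (-s) : ℝ) : ℂ)‖ ≤ C := by
  obtain ⟨B, hB⟩ := exists_bound_of_periodic M g hper
  set g' : 𝓞 K → ℂ := fun x => if x ∈ (J : Ideal (𝓞 K)) then g x else 0 with hg'
  have hper' : ∀ x : 𝓞 K, ∀ t ∈ (M : Ideal (𝓞 K)), g' (t + x) = g' x := by
    intro x t ht
    simp only [hg', hper x t ht]
    have : t + x ∈ (J : Ideal (𝓞 K)) ↔ x ∈ (J : Ideal (𝓞 K)) :=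
      (Ideal.add_mem_iff_right _ (hMJ ht))
    rw [if_congr this rfl rfl]
  obtain ⟨C, hC⟩ := exists_periodic_bound M g' hper'
  have hw := torsionOrder_pos K
  have hN := absNorm_pos J
  have hN1 : (1 : ℝ) ≤ absNorm (J : Ideal (𝓞 K)) := by
    have : absNorm (J : Ideal (𝓞 K)) ≠ 0 := by
      intro h; rw [h] at hN; simp at hN
    exact_mod_cast Nat.one_le_iff_ne_zero.mpr this
  refine ⟨(absNorm (J : Ideal (𝓞 K)) : ℝ) ^ (2 : ℝ) * (torsionOrder K : ℝ)⁻¹ * |C|, fun s hs => ?_⟩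
  rw [(hasSum_invClass_weight (J := J) g hu hB hs.1).tsum_eq, norm_mul, Complex.norm_real,
    Real.norm_eq_abs, abs_of_nonneg (by positivity)]
  have h1 := hC s hs
  have h2 : (∑ q : 𝓞 K ⧸ (M : Ideal (𝓞 K)), g' q.out) = 0 := hsum
  rw [h2, zero_mul, sub_zero] at h1
  have h3 : ∑' β : (J : Ideal (𝓞 K)), g (β : 𝓞 K) * (wt s (emb (β : 𝓞 K)) : ℂ) =
      ∑' β : 𝓞 K, g' β * (wt s (emb β) : ℂ) := by
    have h4 := tsum_subtype ((J : Ideal (𝓞 K)) : Set (𝓞 K))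
      (fun β : 𝓞 K => g β * (wt s (emb β) : ℂ))
    refine h4.trans (tsum_congr fun β => ?_)
    rw [Set.indicator_apply]
    simp only [hg', SetLike.mem_coe]
    split_ifs
    · rfl
    · rw [zero_mul]
  rw [h3]
  gcongr
  · exact hs.2
  · exact h1.trans (le_abs_self _)

end periodic

end Fermat.Agent.H76
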