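import Mathlib.NumberTheory.NumberField.CanonicalEmbedding.FundamentalCone
import Mathlib.Topology.Algebra.InfiniteSum.Real
import Mathlib.Tactic
set_option autoImplicit false

/-! # Tent functions: an explicit partition of unity on `ℝ^r` modulo `ℤ^r` (helper76, for S14) -/

namespace Fermat.Agent.H76

/-- the tent function -/
noncomputable def tent (x : ℝ) : ℝ := max 0 (1 - |x|)

lemma tent_nonneg (x : ℝ) : 0 ≤ tent x := le_max_left _ _

lemma tent_le_one (x : ℝ) : tent x ≤ 1 :=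
  max_le zero_le_one (by linarith [abs_nonneg x])

lemma abs_lt_one_of_tent_ne_zero {x : ℝ} (h : tent x ≠ 0) : |x| < 1 := by
  by_contra hx
  exact h (max_eq_left (by linarith [not_lt.mp hx]))

lemma abs_tent_sub_tent_le (x y : ℝ) : |tent x - tent y| ≤ |x - y| := by
  have h1 : |tent x - tent y| ≤ |(1 - |x|) - (1 - |y|)| := by
    have := abs_max_sub_max_le_max 0 (1 - |x|) 0 (1 - |y|)
    simpa [tent] using this
  refine h1.trans ?_
  have : (1 - |x|) - (1 - |y|) = |y| - |x| := by ring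
  rw [this, abs_sub_comm x y]
  exact abs_abs_sub_abs_le_abs_sub _ _

lemma sum_tent_pair (x : ℝ) :
    ∑ k ∈ ({-⌊x⌋, -⌊x⌋ - 1} : Finset ℤ), tent (x + k) = 1 := by
  have hne : (-⌊x⌋ : ℤ) ≠ -⌊x⌋ - 1 := by omega
  rw [Finset.sum_pair hne]
  have h0 := Int.floor_le x
  have h1 := Int.lt_floor_add_one x
  have e1 : tent (x + ((-⌊x⌋ : ℤ) : ℝ)) = 1 - (x - ⌊x⌋) := by
    have : x + ((-⌊x⌋ : ℤ) : ℝ) = x - ⌊x⌋ := by push_cast; ring
    rw [this, tent, abs_of_nonneg (by linarith), max_eq_right (by linarith)]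
  have e2 : tent (x + ((-⌊x⌋ - 1 : ℤ) : ℝ)) = x - ⌊x⌋ := by
    have : x + ((-⌊x⌋ - 1 : ℤ) : ℝ) = x - ⌊x⌋ - 1 := by push_cast; ring
    rw [this, tent, abs_of_nonpos (by linarith), max_eq_right (by linarith)]
    ring
  rw [e1, e2]; ring

lemma tent_eq_zero_of_notMem {x : ℝ} {k : ℤ} (hk : k ∉ ({-⌊x⌋, -⌊x⌋ - 1} : Finset ℤ)) :
    tent (x + k) = 0 := by
  by_contra h
  have h2 := abs_lt_one_of_tent_ne_zero h
  rw [abs_lt] at h2
  apply hk
  have h0 := Int.floor_le x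
  have h1 := Int.lt_floor_add_one x
  have a1 : ((⌊x⌋ + k : ℤ) : ℝ) < 1 := by push_cast; linarith
  have a2 : (-2 : ℝ) < ((⌊x⌋ + k : ℤ) : ℝ) := by push_cast; linarith
  have b1 : ⌊x⌋ + k < 1 := by exact_mod_cast a1
  have b2 : (-2 : ℤ) < ⌊x⌋ + k := by exact_mod_cast a2
  simp only [Finset.mem_insert, Finset.mem_singleton]
  omega

/-- product of tents -/
noncomputable def tents {ι : Type*} [Fintype ι] (x : ι → ℝ) : ℝ := ∏ i, tent (x i)

variable {ι : Type*} [Fintype ι]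

lemma tents_nonneg (x : ι → ℝ) : 0 ≤ tents x :=
  Finset.prod_nonneg fun _ _ => tent_nonneg _

lemma tents_le_one (x : ι → ℝ) : tents x ≤ 1 :=
  Finset.prod_le_one (fun _ _ => tent_nonneg _) fun _ _ => tent_le_one _

lemma abs_lt_one_of_tents_ne_zero {x : ι → ℝ} (h : tents x ≠ 0) (i : ι) : |x i| < 1 :=
  abs_lt_one_of_tent_ne_zero fun h0 => h (Finset.prod_eq_zero (Finset.mem_univ i) h0)

lemma abs_prod_sub_prod_le (s : Finset ι) (f g : ι → ℝ) (hf : ∀ i, 0 ≤ f i ∧ f i ≤ 1)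
    (hg : ∀ i, 0 ≤ g i ∧ g i ≤ 1) :
    |∏ i ∈ s, f i - ∏ i ∈ s, g i| ≤ ∑ i ∈ s, |f i - g i| := by
  classical
  induction s using Finset.induction_on with
  | empty => simp
  | insert a s ha ih =>
    rw [Finset.prod_insert ha, Finset.prod_insert ha, Finset.sum_insert ha]
    have : f a * ∏ i ∈ s, f i - g a * ∏ i ∈ s, g i =
        (f a - g a) * ∏ i ∈ s, f i + g a * (∏ i ∈ s, f i - ∏ i ∈ s, g i) := by ring
    rw [this]
    refine (abs_add_le _ _).trans (add_le_add ?_ ?_)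
    · rw [abs_mul]
      refine mul_le_of_le_one_right (abs_nonneg _) ?_
      rw [abs_of_nonneg (Finset.prod_nonneg fun i _ => (hf i).1)]
      exact Finset.prod_le_one (fun i _ => (hf i).1) fun i _ => (hf i).2
    · rw [abs_mul]
      refine (mul_le_of_le_one_left (abs_nonneg _) ?_).trans ih
      rw [abs_of_nonneg (hg a).1]
      exact (hg a).2

lemma abs_tents_sub_tents_le (x y : ι → ℝ) : |tents x - tents y| ≤ ∑ i, |x i - y i| :=
  (abs_prod_sub_prod_le _ _ _ (fun i => ⟨tent_nonneg _, tent_le_one _⟩)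
    (fun i => ⟨tent_nonneg _, tent_le_one _⟩)).trans
    (Finset.sum_le_sum fun i _ => abs_tent_sub_tent_le _ _)

lemma hasSum_tents (x : ι → ℝ) : HasSum (fun k : ι → ℤ => tents (fun i => x i + k i)) 1 := by
  classical
  let S : ι → Finset ℤ := fun i => {-⌊x i⌋, -⌊x i⌋ - 1}
  have h1 : ∑ k ∈ Fintype.piFinset S, tents (fun i => x i + k i) = 1 := by
    unfold tents
    rw [← Finset.prod_univ_sum S (fun i k => tent (x i + (k : ℝ)))]
    exact Finset.prod_eq_one fun i _ => sum_tent_pair (x i)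
  rw [← h1]
  refine hasSum_sum_of_ne_finset_zero fun k hk => ?_
  rw [Fintype.mem_piFinset] at hk
  push Not at hk
  obtain ⟨i, hi⟩ := hk
  exact Finset.prod_eq_zero (Finset.mem_univ i) (tent_eq_zero_of_notMem hi)

end Fermat.Agent.H76
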