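import Mathlib.Analysis.Normed.Ring.InfiniteSum
import Fermat.Agent.H76Tent
set_option autoImplicit false
set_option maxSynthPendingDepth 3

/-! # Partition of unity for the action of units (helper76, for S14) -/

namespace Fermat.Agent.H76

open NumberField NumberField.mixedEmbedding NumberField.Units
  NumberField.Units.dirichletUnitTheorem Module

variable (K : Type*) [Field K] [NumberField K]

open scoped Classical in
/-- the real basis of the log space coming from the fundamental units -/
noncomputable def logBasis : Basis (Fin (Units.rank K)) ℝ (logSpace K) :=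
  (basisUnitLattice K).ofZLatticeBasis ℝ (unitLattice K)

/-- exponents of a unit with respect to the fundamental system -/
noncomputable def unitExp (u : (𝓞 K)ˣ) (i : Fin (Units.rank K)) : ℤ :=
  (basisModTorsion K).repr (Additive.ofMul (QuotientGroup.mk u)) i

open scoped Classical in
lemma logBasis_repr_logEmbedding (u : (𝓞 K)ˣ) (i : Fin (Units.rank K)) :
    (logBasis K).repr (logEmbedding K (Additive.ofMul u)) i = (unitExp K u i : ℝ) := by
  have hmem : logEmbedding K (Additive.ofMul u) ∈ unitLattice K := ⟨Additive.ofMul u, trivial, rfl⟩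
  have h1 := (basisUnitLattice K).ofZLatticeBasis_repr_apply ℝ (unitLattice K)
    ⟨logEmbedding K (Additive.ofMul u), hmem⟩ i
  have h2 : (⟨logEmbedding K (Additive.ofMul u), hmem⟩ : unitLattice K) =
      logEmbeddingEquiv K (Additive.ofMul (QuotientGroup.mk u)) := by
    apply Subtype.ext
    rw [logEmbeddingEquiv_apply]
  rw [logBasis]
  rw [h1, h2, basisUnitLattice, Basis.map_repr]
  simp [unitExp]

/-- coordinates of the logarithm map -/
noncomputable def coord (x : mixedSpace K) : Fin (Units.rank K) → ℝ :=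
  fun i => (logBasis K).repr (logMap x) i

/-- partition of unity -/
noncomputable def pou (x : mixedSpace K) : ℝ := tents (coord K x)

variable {K}

lemma coord_unit_smul (u : (𝓞 K)ˣ) {x : mixedSpace K} (hx : mixedEmbedding.norm x ≠ 0)
    (i : Fin (Units.rank K)) :
    coord K (u • x) i = coord K x i + (unitExp K u i : ℝ) := by
  unfold coord
  rw [logMap_unit_smul u hx, map_add, Finsupp.add_apply, logBasis_repr_logEmbedding, add_comm]

variable (K) in
/-- units as torsion times `ℤ^r` -/
noncomputable def unitsEquiv : (torsion K) × (Fin (Units.rank K) → ℤ) ≃ (𝓞 K)ˣ :=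
  Equiv.ofBijective (fun ζe => ζe.1 * ∏ i, (fundSystem K i) ^ (ζe.2 i)) (by
    constructor
    · intro a b h
      exact (exist_unique_eq_mul_prod K (b.1 * ∏ i, (fundSystem K i) ^ (b.2 i))).unique h.symm rfl
    · intro x
      obtain ⟨ζe, h, -⟩ := exist_unique_eq_mul_prod K x
      exact ⟨ζe, h.symm⟩)

lemma unitsEquiv_repr (ζ : torsion K) (e : Fin (Units.rank K) → ℤ) (i : Fin (Units.rank K)) :
    unitExp K (unitsEquiv K (ζ, e)) i = e i := by
  have := fun_eq_repr K (x := unitsEquiv K (ζ, e)) (ζ := ζ) (f := e) ζ.2 rfl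
  rw [unitExp, ← this]

lemma hasSum_pou_comp {x : mixedSpace K} (hx : mixedEmbedding.norm x ≠ 0)
    (a : (torsion K) × (Fin (Units.rank K) → ℤ)) :
    pou K (unitsEquiv K a • x) = (1 : ℝ) * tents (fun i => coord K x i + (a.2 i : ℝ)) := by
  obtain ⟨ζ, e⟩ := a
  rw [one_mul, pou]
  congr 1
  ext i
  rw [coord_unit_smul _ hx, unitsEquiv_repr]

lemma hasSum_one_torsion : HasSum (fun _ : torsion K => (1 : ℝ)) (torsionOrder K) := by
  have : Fintype (torsion K) := Fintype.ofFinite _
  have := hasSum_fintype (fun _ : torsion K => (1 : ℝ))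
  rw [Finset.sum_const, Finset.card_univ, nsmul_eq_mul, mul_one, ← Nat.card_eq_fintype_card] at this
  exact this

lemma hasSum_prod_tents {α ι : Type*} [Fintype ι] {t : ℝ} (h1 : HasSum (fun _ : α => (1 : ℝ)) t)
    (x : ι → ℝ) :
    HasSum (fun a : α × (ι → ℤ) => (1 : ℝ) * tents (fun i => x i + (a.2 i : ℝ))) t := by
  have h2 := hasSum_tents x
  have h3 := Summable.mul_of_nonneg (f := fun _ : α => (1:ℝ))
    (g := fun k : ι → ℤ => tents (fun i => x i + (k i : ℝ))) h1.summable h2.summable
    (by intro _; exact zero_le_one) (by intro _; exact tents_nonneg _)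
  have h4 := h1.mul h2 h3
  rw [mul_one] at h4
  exact h4

lemma hasSum_pou {x : mixedSpace K} (hx : mixedEmbedding.norm x ≠ 0) :
    HasSum (fun u : (𝓞 K)ˣ => pou K (u • x)) (torsionOrder K : ℝ) := by
  have h4 := hasSum_prod_tents (hasSum_one_torsion (K := K)) (coord K x)
  have h5 : (fun u : (𝓞 K)ˣ => pou K (u • x)) ∘ unitsEquiv K =
      fun a => (1 : ℝ) * tents (fun i => coord K x i + (a.2 i : ℝ)) :=
    funext (hasSum_pou_comp hx)
  rw [← (unitsEquiv K).hasSum_iff, h5]
  exact h4

lemma pou_nonneg (x : mixedSpace K) : 0 ≤ pou K x := tents_nonneg _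
lemma pou_le_one (x : mixedSpace K) : pou K x ≤ 1 := tents_le_one _

end Fermat.Agent.H76
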