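import Mathlib.Algebra.Module.ZLattice.Summable
import Fermat.Agent.H76UnitSum
set_option autoImplicit false
set_option maxSynthPendingDepth 3

/-! # Estimates for the weighted norm function (helper76, for S14) -/

namespace Fermat.Agent.H76

open NumberField NumberField.mixedEmbedding NumberField.Units
  NumberField.Units.dirichletUnitTheorem Module NumberField.InfinitePlace

open scoped Classical

variable {K : Type*} [Field K] [NumberField K]

lemma log_norm_eq_sum {y : mixedSpace K} (hy : mixedEmbedding.norm y ≠ 0) :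
    Real.log (mixedEmbedding.norm y) = ∑ w : InfinitePlace K, (mult w : ℝ) * Real.log (normAtPlace w y) := by
  rw [mixedEmbedding.norm_apply, Real.log_prod]
  · simp [Real.log_pow]
  · intro w _
    exact pow_ne_zero _ (mixedEmbedding.norm_ne_zero_iff.mp hy w)

lemma sum_mult_mul_log_sub {y : mixedSpace K} (hy : mixedEmbedding.norm y ≠ 0) :
    ∑ w : InfinitePlace K, (mult w : ℝ) * (Real.log (normAtPlace w y) -
      Real.log (mixedEmbedding.norm y) * (finrank ℚ K : ℝ)⁻¹) = 0 := by
  have h1 : (∑ w : InfinitePlace K, (mult w : ℝ)) = finrank ℚ K := by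
    exact_mod_cast sum_mult_eq (K := K)
  have hn : (finrank ℚ K : ℝ) ≠ 0 := Nat.cast_ne_zero.mpr finrank_pos.ne'
  simp_rw [mul_sub]
  rw [Finset.sum_sub_distrib, ← log_norm_eq_sum hy, ← Finset.sum_mul, h1]
  field_simp
  ring

/-- if all coordinates are less than one in absolute value then `logMap` is bounded. -/
lemma abs_logMap_le {y : mixedSpace K} (h : ∀ i, |coord K y i| ≤ 1)
    (w : {w : InfinitePlace K // w ≠ w₀}) :
    |logMap y w| ≤ ∑ i, |logBasis K i w| := by
  have h1 : logMap y = ∑ i, (logBasis K).repr (logMap y) i • logBasis K i :=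
    ((logBasis K).sum_repr (logMap y)).symm
  rw [h1, Finset.sum_apply]
  refine (Finset.abs_sum_le_sum_abs _ _).trans (Finset.sum_le_sum fun i _ => ?_)
  rw [Pi.smul_apply, smul_eq_mul, abs_mul]
  have := h i
  unfold coord at this
  exact mul_le_of_le_one_left (abs_nonneg _) this


variable (K) in
/-- bound for the logarithmic map on the support -/
noncomputable def logBound : ℝ :=
  ∑ w : {w : InfinitePlace K // w ≠ w₀}, ∑ i, |logBasis K i w|

variable (K) in
lemma logBound_nonneg : 0 ≤ logBound K :=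
  Finset.sum_nonneg fun _ _ => Finset.sum_nonneg fun _ _ => abs_nonneg _

lemma sum_abs_logMap_le {y : mixedSpace K} (h : ∀ i, |coord K y i| ≤ 1) :
    ∑ w : {w : InfinitePlace K // w ≠ w₀}, |logMap y w| ≤ logBound K :=
  Finset.sum_le_sum fun w _ => abs_logMap_le h w

lemma abs_mult_mul_log_sub_le {y : mixedSpace K} (hy : mixedEmbedding.norm y ≠ 0)
    (h : ∀ i, |coord K y i| ≤ 1) (w : InfinitePlace K) :
    |(mult w : ℝ) * (Real.log (normAtPlace w y) -
      Real.log (mixedEmbedding.norm y) * (finrank ℚ K : ℝ)⁻¹)| ≤ logBound K := by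
  have hb := sum_abs_logMap_le h
  by_cases hw : w = w₀
  · have h1 := sum_mult_mul_log_sub hy
    rw [← Finset.add_sum_erase _ _ (Finset.mem_univ w)] at h1
    rw [eq_neg_of_add_eq_zero_left h1, abs_neg]
    refine le_trans (Finset.abs_sum_le_sum_abs _ _) ?_
    refine le_trans (le_of_eq ?_) hb
    subst hw
    refine Finset.sum_bij' (fun a ha => ⟨a, (Finset.mem_erase.mp ha).1⟩) (fun b _ => b.1) ?_ ?_ ?_ ?_ ?_
    · intro a ha; exact Finset.mem_univ _
    · intro b _; exact Finset.mem_erase.mpr ⟨b.2, Finset.mem_univ _⟩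
    · intro a ha; rfl
    · intro b _; rfl
    · intro a ha; rfl
  · have h2 : |logMap y ⟨w, hw⟩| ≤ ∑ w : {w : InfinitePlace K // w ≠ w₀}, |logMap y w| :=
      Finset.single_le_sum (f := fun w : {w : InfinitePlace K // w ≠ w₀} => |logMap y w|)
        (fun _ _ => abs_nonneg _) (Finset.mem_univ (⟨w, hw⟩ : {w : InfinitePlace K // w ≠ w₀}))
    exact h2.trans hb

lemma abs_log_sub_le {y : mixedSpace K} (hy : mixedEmbedding.norm y ≠ 0)
    (h : ∀ i, |coord K y i| ≤ 1) (w : InfinitePlace K) :
    |Real.log (normAtPlace w y) -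
      Real.log (mixedEmbedding.norm y) * (finrank ℚ K : ℝ)⁻¹| ≤ logBound K := by
  refine le_trans ?_ (abs_mult_mul_log_sub_le hy h w)
  rw [abs_mul, Nat.abs_cast]
  exact le_mul_of_one_le_left (abs_nonneg _) (by exact_mod_cast mult_pos (w := w))

variable (K) in
/-- the constant `ρ` -/
noncomputable def rho : ℝ := Real.exp (-(2 * logBound K))

variable (K) in
lemma rho_pos : 0 < rho K := Real.exp_pos _

variable (K) in
lemma rho_le_one : rho K ≤ 1 := by
  rw [rho, Real.exp_le_one_iff]
  have := logBound_nonneg K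
  linarith

lemma normAtPlace_pos_of_norm_ne_zero {y : mixedSpace K} (hy : mixedEmbedding.norm y ≠ 0)
    (w : InfinitePlace K) : 0 < normAtPlace w y :=
  lt_of_le_of_ne (normAtPlace_nonneg _ _) (mixedEmbedding.norm_ne_zero_iff.mp hy w).symm

lemma normAtPlace_le_norm (y : mixedSpace K) (w : InfinitePlace K) : normAtPlace w y ≤ ‖y‖ := by
  rw [norm_eq_sup'_normAtPlace]
  exact Finset.le_sup' (fun w => normAtPlace w y) (Finset.mem_univ w)

lemma rho_mul_norm_le {y : mixedSpace K} (hy : mixedEmbedding.norm y ≠ 0)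
    (h : pou K y ≠ 0) (w : InfinitePlace K) : rho K * ‖y‖ ≤ normAtPlace w y := by
  have h' : ∀ i, |coord K y i| ≤ 1 := fun i => (abs_lt_one_of_tents_ne_zero h i).le
  obtain ⟨w', -, hw'⟩ := Finset.exists_mem_eq_sup' (Finset.univ_nonempty (α := InfinitePlace K))
    (fun w => normAtPlace w y)
  rw [norm_eq_sup'_normAtPlace, hw']
  have h1 := abs_le.mp (abs_log_sub_le hy h' w)
  have h2 := abs_le.mp (abs_log_sub_le hy h' w')
  have p1 := normAtPlace_pos_of_norm_ne_zero hy w
  have p2 := normAtPlace_pos_of_norm_ne_zero hy w'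
  rw [← Real.exp_log p1, ← Real.exp_log p2, rho, ← Real.exp_add, Real.exp_le_exp]
  linarith [h1.1, h2.2]

variable (K) in
/-- norm of the linear map `repr` -/
noncomputable def reprConst : ℝ :=
  ∑ i, ∑ w : {w : InfinitePlace K // w ≠ w₀}, |(logBasis K).repr (Pi.single w 1) i|

variable (K) in
lemma reprConst_nonneg : 0 ≤ reprConst K :=
  Finset.sum_nonneg fun _ _ => Finset.sum_nonneg fun _ _ => abs_nonneg _

lemma repr_eq_sum (l : logSpace K) (i : Fin (Units.rank K)) :
    (logBasis K).repr l i =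
      ∑ w : {w : InfinitePlace K // w ≠ w₀}, l w * (logBasis K).repr (Pi.single w 1) i := by
  conv_lhs => rw [← Finset.univ_sum_single l]
  rw [map_sum, Finsupp.finsetSum_apply]
  refine Finset.sum_congr rfl fun w _ => ?_
  have : (Pi.single w (l w) : logSpace K) = l w • Pi.single w 1 := by
    rw [← Pi.single_smul, smul_eq_mul, mul_one]
  rw [this, map_smul, Finsupp.smul_apply, smul_eq_mul]

lemma sum_abs_coord_sub_le {y z : mixedSpace K} {δ : ℝ}
    (h : ∀ w, |logMap y w - logMap z w| ≤ δ) :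
    ∑ i, |coord K y i - coord K z i| ≤ reprConst K * δ := by
  rw [reprConst, Finset.sum_mul]
  refine Finset.sum_le_sum fun i _ => ?_
  have h1 : coord K y i - coord K z i = (logBasis K).repr (logMap y - logMap z) i := by
    rw [map_sub]; rfl
  rw [h1, repr_eq_sum, Finset.sum_mul]
  refine (Finset.abs_sum_le_sum_abs _ _).trans (Finset.sum_le_sum fun w _ => ?_)
  rw [abs_mul, mul_comm]
  exact mul_le_mul_of_nonneg_left (h w) (abs_nonneg _)

lemma abs_log_sub_log_le {a b m c : ℝ} (hm : 0 < m) (ha : m ≤ a) (hb : m ≤ b) (hab : |a - b| ≤ c) :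
    |Real.log a - Real.log b| ≤ c / m := by
  have key : ∀ {a b : ℝ}, m ≤ a → m ≤ b → |a - b| ≤ c → Real.log a - Real.log b ≤ c / m := by
    intro a b ha hb hab
    have ha' : 0 < a := hm.trans_le ha
    have hb' : 0 < b := hm.trans_le hb
    rw [← Real.log_div ha'.ne' hb'.ne']
    refine (Real.log_le_sub_one_of_pos (div_pos ha' hb')).trans ?_
    have : a / b - 1 = (a - b) / b := by field_simp
    rw [this]
    refine (div_le_div_of_nonneg_right ((le_abs_self _).trans hab) hb'.le).trans ?_
    exact div_le_div_of_nonneg_left ((abs_nonneg _).trans hab) hm hb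
  rw [abs_le]
  constructor
  · have := key hb ha (by rwa [abs_sub_comm])
    linarith
  · exact key ha hb hab

section diff

variable {y z : mixedSpace K} {m c : ℝ} (hm : 0 < m)
  (hy : ∀ w, m ≤ normAtPlace w y) (hz : ∀ w, m ≤ normAtPlace w z)
  (hyz : ∀ w, |normAtPlace w y - normAtPlace w z| ≤ c)

include hm hy in
lemma norm_ne_zero_of_le : mixedEmbedding.norm y ≠ 0 :=
  mixedEmbedding.norm_ne_zero_iff.mpr fun w => (hm.trans_le (hy w)).ne'

include hm hy in
lemma pow_le_norm : m ^ finrank ℚ K ≤ mixedEmbedding.norm y := by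
  rw [mixedEmbedding.norm_apply, ← sum_mult_eq (K := K), ← Finset.prod_pow_eq_pow_sum]
  exact Finset.prod_le_prod (fun w _ => by positivity) fun w _ => by
    gcongr; exact hy w

include hm hy hz hyz in
lemma abs_log_norm_sub_le :
    |Real.log (mixedEmbedding.norm y) - Real.log (mixedEmbedding.norm z)| ≤
      finrank ℚ K * (c / m) := by
  rw [log_norm_eq_sum (norm_ne_zero_of_le hm hy), log_norm_eq_sum (norm_ne_zero_of_le hm hz),
    ← Finset.sum_sub_distrib]
  have h1 : (∑ w : InfinitePlace K, (mult w : ℝ)) = finrank ℚ K := by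
    exact_mod_cast sum_mult_eq (K := K)
  rw [← h1, Finset.sum_mul]
  refine (Finset.abs_sum_le_sum_abs _ _).trans (Finset.sum_le_sum fun w _ => ?_)
  rw [← mul_sub, abs_mul, Nat.abs_cast]
  exact mul_le_mul_of_nonneg_left (abs_log_sub_log_le hm (hy w) (hz w) (hyz w)) (Nat.cast_nonneg _)

include hm hy hz hyz in
lemma abs_logMap_sub_le (w : {w : InfinitePlace K // w ≠ w₀}) :
    |logMap y w - logMap z w| ≤ 4 * (c / m) := by
  rw [logMap_apply, logMap_apply, ← mul_sub, abs_mul, Nat.abs_cast]
  have h1 := abs_log_sub_log_le hm (hy w) (hz w) (hyz w)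
  have h2 := abs_log_norm_sub_le hm hy hz hyz
  have hn : (0 : ℝ) < finrank ℚ K := Nat.cast_pos.mpr finrank_pos
  have h3 : |(Real.log (mixedEmbedding.norm y) - Real.log (mixedEmbedding.norm z)) *
      (finrank ℚ K : ℝ)⁻¹| ≤ c / m := by
    rw [abs_mul, abs_of_pos (inv_pos.mpr hn), mul_inv_le_iff₀ hn, mul_comm (c / m)]
    exact h2
  have h4 : (mult w.1 : ℝ) ≤ 2 := by
    have : mult w.1 ≤ 2 := by unfold mult; split_ifs <;> norm_num
    exact_mod_cast this
  have h5 : |Real.log (normAtPlace w.1 y) - Real.log (mixedEmbedding.norm y) * (finrank ℚ K : ℝ)⁻¹ -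
      (Real.log (normAtPlace w.1 z) - Real.log (mixedEmbedding.norm z) * (finrank ℚ K : ℝ)⁻¹)| ≤
      2 * (c / m) := by
    have : Real.log (normAtPlace w.1 y) - Real.log (mixedEmbedding.norm y) * (finrank ℚ K : ℝ)⁻¹ -
      (Real.log (normAtPlace w.1 z) - Real.log (mixedEmbedding.norm z) * (finrank ℚ K : ℝ)⁻¹) =
      (Real.log (normAtPlace w.1 y) - Real.log (normAtPlace w.1 z)) -
      (Real.log (mixedEmbedding.norm y) - Real.log (mixedEmbedding.norm z)) * (finrank ℚ K : ℝ)⁻¹ := by
      ring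
    rw [this]
    refine (abs_sub _ _).trans ?_
    linarith
  calc (mult w.1 : ℝ) * _ ≤ 2 * (2 * (c / m)) := by gcongr
    _ = 4 * (c / m) := by ring

include hm hy hz hyz in
lemma abs_pou_sub_le : |pou K y - pou K z| ≤ reprConst K * (4 * (c / m)) :=
  (abs_tents_sub_tents_le _ _).trans (sum_abs_coord_sub_le (abs_logMap_sub_le hm hy hz hyz))

end diff

lemma abs_rpow_neg_sub_le {a b M s : ℝ} (hM : 1 ≤ M) (ha : M ≤ a) (hb : M ≤ b)
    (hs1 : 1 ≤ s) (hs2 : s ≤ 2) :
    |a ^ (-s) - b ^ (-s)| ≤ 2 * |Real.log a - Real.log b| * M⁻¹ := by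
  have hM0 : 0 < M := by linarith
  have ha0 : 0 < a := by linarith
  have hb0 : 0 < b := by linarith
  have key : ∀ {a b : ℝ}, M ≤ a → M ≤ b → 0 < a → 0 < b →
      a ^ (-s) - b ^ (-s) ≤ 2 * |Real.log a - Real.log b| * M⁻¹ := by
    intro a b ha hb ha0 hb0
    have h1 : a ^ (-s) - b ^ (-s) ≤ a ^ (-s) * (s * |Real.log a - Real.log b|) := by
      have h2 : b ^ (-s) = a ^ (-s) * Real.exp (s * (Real.log a - Real.log b)) := by
        rw [Real.rpow_def_of_pos ha0, Real.rpow_def_of_pos hb0, ← Real.exp_add]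
        ring_nf
      rw [h2]
      have h3 : 1 + s * (Real.log a - Real.log b) ≤ Real.exp (s * (Real.log a - Real.log b)) := by
        have := Real.add_one_le_exp (s * (Real.log a - Real.log b))
        linarith
      have h4 : -(s * |Real.log a - Real.log b|) ≤ s * (Real.log a - Real.log b) := by
        have := neg_abs_le (Real.log a - Real.log b)
        nlinarith
      have h5 : 0 < a ^ (-s) := Real.rpow_pos_of_pos ha0 _
      nlinarith
    refine h1.trans ?_
    have h6 : a ^ (-s) ≤ M⁻¹ := by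
      rw [← Real.rpow_neg_one]
      calc a ^ (-s) ≤ M ^ (-s) := Real.rpow_le_rpow_of_nonpos hM0 ha (by linarith)
        _ ≤ M ^ (-1 : ℝ) := Real.rpow_le_rpow_of_exponent_le hM (by linarith)
    have h7 : 0 ≤ |Real.log a - Real.log b| := abs_nonneg _
    calc a ^ (-s) * (s * |Real.log a - Real.log b|) ≤ M⁻¹ * (2 * |Real.log a - Real.log b|) := by
          gcongr
      _ = _ := by ring
  rw [abs_le]
  constructor
  · have := key hb ha hb0 ha0
    rw [abs_sub_comm] at this
    linarith
  · exact key ha hb ha0 hb0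

end Fermat.Agent.H76
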