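import Fermat.Agent.H76Lattice
import Mathlib.RingTheory.Ideal.Quotient.HasFiniteQuotients
set_option autoImplicit false
set_option maxSynthPendingDepth 3

/-! # Regrouping the lattice sum by ideals (helper76, for S14) -/

namespace Fermat.Agent.H76

open NumberField NumberField.mixedEmbedding NumberField.Units
  NumberField.Units.dirichletUnitTheorem Module NumberField.InfinitePlace Ideal nonZeroDivisors

open scoped Classical

variable {K : Type*} [Field K] [NumberField K]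

lemma smul_emb (u : (𝓞 K)ˣ) (β : 𝓞 K) : u • emb β = emb ((u : 𝓞 K) * β) := by
  rw [unitSMul_smul, emb, emb, ← map_mul]
  rfl

lemma hasSum_wt_units {s : ℝ} {β : 𝓞 K} (hβ : β ≠ 0) :
    HasSum (fun u : (𝓞 K)ˣ => wt s (emb ((u : 𝓞 K) * β)))
      ((mixedEmbedding.norm (emb β)) ^ (-s) * torsionOrder K) := by
  have hne : mixedEmbedding.norm (emb β) ≠ 0 := by
    have := one_le_norm_emb hβ; linarith
  have h := (hasSum_pou hne).mul_left ((mixedEmbedding.norm (emb β)) ^ (-s))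
  have h2 : (fun u : (𝓞 K)ˣ => wt s (emb ((u : 𝓞 K) * β))) =
      fun u : (𝓞 K)ˣ => (mixedEmbedding.norm (emb β)) ^ (-s) * pou K (u • emb β) := by
    funext u
    rw [← smul_emb, wt, norm_unit_smul]
  rw [h2]
  exact h

variable (J : (Ideal (𝓞 K))⁰)

/-- ideals in the inverse class -/
abbrev InvClass : Type _ := {I : (Ideal (𝓞 K))⁰ // ClassGroup.mk0 I * ClassGroup.mk0 J = 1}

variable {J}

lemma exists_gen (I : InvClass J) :
    ∃ g : 𝓞 K, Ideal.span {g} = (I.1 : Ideal (𝓞 K)) * (J : Ideal (𝓞 K)) := by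
  have h := I.2
  rw [← map_mul, ClassGroup.mk0_eq_one_iff] at h
  obtain ⟨g, hg⟩ := h
  exact ⟨g, hg.symm⟩

/-- a generator -/
noncomputable def gen (I : InvClass J) : 𝓞 K := (exists_gen I).choose

lemma span_gen (I : InvClass J) :
    Ideal.span {gen I} = (I.1 : Ideal (𝓞 K)) * (J : Ideal (𝓞 K)) := (exists_gen I).choose_spec

lemma gen_ne_zero (I : InvClass J) : gen I ≠ 0 := by
  intro h
  have h1 := span_gen I
  rw [h, Ideal.span_singleton_eq_bot.mpr rfl] at h1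
  exact mul_ne_zero (nonZeroDivisors.coe_ne_zero I.1) (nonZeroDivisors.coe_ne_zero J) h1.symm

lemma gen_mem (I : InvClass J) : gen I ∈ (J : Ideal (𝓞 K)) := by
  have h1 : gen I ∈ Ideal.span {gen I} := Ideal.mem_span_singleton_self _
  rw [span_gen] at h1
  exact Ideal.mul_le_right h1

/-- the parametrization -/
noncomputable def par (a : InvClass J × (𝓞 K)ˣ) : (J : Ideal (𝓞 K)) :=
  ⟨(a.2 : 𝓞 K) * gen a.1, Ideal.mul_mem_left _ _ (gen_mem _)⟩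

lemma span_par (a : InvClass J × (𝓞 K)ˣ) :
    Ideal.span {((par a : (J : Ideal (𝓞 K))) : 𝓞 K)} = (a.1.1 : Ideal (𝓞 K)) * (J : Ideal (𝓞 K)) := by
  rw [← span_gen, par]
  exact Ideal.span_singleton_mul_left_unit a.2.isUnit _

lemma par_injective : Function.Injective (par (K := K) (J := J)) := by
  rintro ⟨I, u⟩ ⟨I', u'⟩ h
  have h1 : (I.1 : Ideal (𝓞 K)) * (J : Ideal (𝓞 K)) = (I'.1 : Ideal (𝓞 K)) * (J : Ideal (𝓞 K)) := by
    rw [← span_par (I, u), ← span_par (I', u'), h]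
  have h2 : I = I' := by
    apply Subtype.ext
    apply Subtype.ext
    exact mul_right_cancel₀ (nonZeroDivisors.coe_ne_zero J) h1
  subst h2
  have h3 : (u : 𝓞 K) * gen I = (u' : 𝓞 K) * gen I := congrArg Subtype.val h
  have h4 := mul_right_cancel₀ (gen_ne_zero I) h3
  rw [Units.ext h4]

lemma exists_par_eq {β : (J : Ideal (𝓞 K))} (hβ : (β : 𝓞 K) ≠ 0) : ∃ a, par a = β := by
  have h1 : (J : Ideal (𝓞 K)) ∣ Ideal.span {(β : 𝓞 K)} :=
    Ideal.dvd_iff_le.mpr ((Ideal.span_singleton_le_iff_mem _).mpr β.2)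
  obtain ⟨I', hI'⟩ := h1
  have hI'0 : I' ≠ 0 := by
    rintro rfl
    rw [mul_zero, Ideal.zero_eq_bot, Ideal.span_singleton_eq_bot] at hI'
    exact hβ hI'
  let I : (Ideal (𝓞 K))⁰ := ⟨I', mem_nonZeroDivisors_of_ne_zero hI'0⟩
  have hI : ClassGroup.mk0 I * ClassGroup.mk0 J = 1 := by
    rw [← map_mul, ClassGroup.mk0_eq_one_iff]
    refine ⟨β, ?_⟩
    change (I' * J : Ideal (𝓞 K)) = Ideal.span {(β : 𝓞 K)}
    rw [hI', mul_comm]
  have h2 : Ideal.span {gen ⟨I, hI⟩} = Ideal.span {(β : 𝓞 K)} := by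
    rw [span_gen, hI', mul_comm]
  rw [Ideal.span_singleton_eq_span_singleton] at h2
  obtain ⟨u, hu⟩ := h2
  refine ⟨(⟨I, hI⟩, u), Subtype.ext ?_⟩
  rw [← hu, mul_comm]
  rfl

lemma norm_emb_gen (I : InvClass J) : mixedEmbedding.norm (emb (gen I)) =
    (absNorm (I.1 : Ideal (𝓞 K)) : ℝ) * (absNorm (J : Ideal (𝓞 K)) : ℝ) := by
  rw [norm_emb, span_gen, map_mul, Nat.cast_mul]

/-! ## sums -/

lemma summable_wt_ideal {s : ℝ} (hs : 1 < s) :
    Summable fun β : (J : Ideal (𝓞 K)) => wt s (emb (β : 𝓞 K)) :=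
  (summable_wt_emb hs).comp_injective Subtype.val_injective

lemma tsum_wt_par {s : ℝ} (hs : 1 < s) :
    ∑' a : InvClass J × (𝓞 K)ˣ, wt s (emb ((par a : (J : Ideal (𝓞 K))) : 𝓞 K)) =
      ∑' β : (J : Ideal (𝓞 K)), wt s (emb (β : 𝓞 K)) := by
  refine par_injective.tsum_eq (f := fun β : (J : Ideal (𝓞 K)) => wt s (emb (β : 𝓞 K))) ?_
  intro β hβ
  have h : (β : 𝓞 K) ≠ 0 := by
    intro h0
    apply hβ
    change wt s (emb (β : 𝓞 K)) = 0
    rw [h0, wt_emb_zero hs.le]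
  exact exists_par_eq h

lemma summable_wt_par {s : ℝ} (hs : 1 < s) :
    Summable fun a : InvClass J × (𝓞 K)ˣ => wt s (emb ((par a : (J : Ideal (𝓞 K))) : 𝓞 K)) :=
  (summable_wt_ideal (J := J) hs).comp_injective par_injective

lemma coe_par (I : InvClass J) (u : (𝓞 K)ˣ) :
    ((par (I, u) : (J : Ideal (𝓞 K))) : 𝓞 K) = (u : 𝓞 K) * gen I := rfl

lemma hasSum_wt_par_fiber (s : ℝ) (I : InvClass J) :
    HasSum (fun u : (𝓞 K)ˣ => wt s (emb ((par (I, u) : (J : Ideal (𝓞 K))) : 𝓞 K)))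
      (((absNorm (I.1 : Ideal (𝓞 K)) : ℝ) * (absNorm (J : Ideal (𝓞 K)) : ℝ)) ^ (-s) *
        torsionOrder K) := by
  simp_rw [coe_par]
  rw [← norm_emb_gen]
  exact hasSum_wt_units (β := gen I) (gen_ne_zero I)

omit [NumberField K] in
lemma hasSum_of_fiberwise {α β : Type*} (f : α × β → ℝ) (g : α → ℝ) {a : ℝ} (h : HasSum f a)
    (hf : ∀ x, HasSum (fun y => f (x, y)) (g x)) : HasSum g a := h.prod_fiberwise hf

lemma hasSum_wt_ideal {s : ℝ} (hs : 1 < s) :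
    HasSum (fun I : InvClass J =>
      ((absNorm (I.1 : Ideal (𝓞 K)) : ℝ) * (absNorm (J : Ideal (𝓞 K)) : ℝ)) ^ (-s) *
        torsionOrder K)
      (∑' β : (J : Ideal (𝓞 K)), wt s (emb (β : 𝓞 K))) := by
  rw [← tsum_wt_par hs]
  exact hasSum_of_fiberwise
    (fun a : InvClass J × (𝓞 K)ˣ => wt s (emb ((par a : (J : Ideal (𝓞 K))) : 𝓞 K)))
    (fun I : InvClass J =>
      ((absNorm (I.1 : Ideal (𝓞 K)) : ℝ) * (absNorm (J : Ideal (𝓞 K)) : ℝ)) ^ (-s) *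
        torsionOrder K) (summable_wt_par hs).hasSum (fun I => hasSum_wt_par_fiber s I)

variable (K) in
lemma torsionOrder_pos : (0 : ℝ) < torsionOrder K := by
  have := (torsionOrder K).pos_of_ne_zero (torsionOrder_ne_zero K)
  exact_mod_cast this

lemma absNorm_pos (I : (Ideal (𝓞 K))⁰) : (0 : ℝ) < absNorm (I : Ideal (𝓞 K)) := by
  have := Ideal.absNorm_pos_of_nonZeroDivisors I
  exact_mod_cast this

lemma hasSum_invClass {s : ℝ} (hs : 1 < s) :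
    HasSum (fun I : InvClass J => (absNorm (I.1 : Ideal (𝓞 K)) : ℝ) ^ (-s))
      ((absNorm (J : Ideal (𝓞 K)) : ℝ) ^ s * (torsionOrder K : ℝ)⁻¹ *
        ∑' β : (J : Ideal (𝓞 K)), wt s (emb (β : 𝓞 K))) := by
  have h := (hasSum_wt_ideal (J := J) hs).mul_left
    ((absNorm (J : Ideal (𝓞 K)) : ℝ) ^ s * (torsionOrder K : ℝ)⁻¹)
  have hJ := absNorm_pos J
  have hw := torsionOrder_pos K
  have h2 : (fun I : InvClass J => (absNorm (I.1 : Ideal (𝓞 K)) : ℝ) ^ (-s)) = fun I : InvClass J =>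
      ((absNorm (J : Ideal (𝓞 K)) : ℝ) ^ s * (torsionOrder K : ℝ)⁻¹) *
      (((absNorm (I.1 : Ideal (𝓞 K)) : ℝ) * (absNorm (J : Ideal (𝓞 K)) : ℝ)) ^ (-s) *
        torsionOrder K) := by
    funext I
    have hI := absNorm_pos I.1
    rw [Real.mul_rpow hI.le hJ.le, Real.rpow_neg hJ.le]
    have : (absNorm (J : Ideal (𝓞 K)) : ℝ) ^ s ≠ 0 := (Real.rpow_pos_of_pos hJ _).ne'
    field_simp
  rw [h2]
  exact h

/-! ## cosets -/

variable (J) in
/-- coset decomposition -/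
noncomputable def cosetEquiv : (𝓞 K ⧸ (J : Ideal (𝓞 K))) × (J : Ideal (𝓞 K)) ≃ 𝓞 K :=
  Equiv.ofBijective (fun a => (a.2 : 𝓞 K) + a.1.out) (by
    constructor
    · rintro ⟨q, t⟩ ⟨q', t'⟩ h
      have h' : (t : 𝓞 K) + q.out = t' + q'.out := h
      have h1 : q = q' := by
        have := congrArg (Ideal.Quotient.mk (J : Ideal (𝓞 K))) h'
        rw [map_add, map_add, Ideal.Quotient.eq_zero_iff_mem.mpr t.2,
          Ideal.Quotient.eq_zero_iff_mem.mpr t'.2, zero_add, zero_add] at this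
        rw [Ideal.Quotient.mk_out, Ideal.Quotient.mk_out] at this
        exact this
      subst h1
      have h2 : t = t' := Subtype.ext (add_right_cancel h')
      rw [h2]
    · intro β
      refine ⟨(Ideal.Quotient.mk _ β, ⟨β - (Ideal.Quotient.mk (J : Ideal (𝓞 K)) β).out, ?_⟩), ?_⟩
      · rw [← Ideal.Quotient.eq_zero_iff_mem, map_sub, Ideal.Quotient.mk_out, sub_self]
      · exact sub_add_cancel _ _)

lemma abs_tsum_sub_tsum_le {α : Type*} (f g h : α → ℝ) (hf : Summable f) (hg : Summable g)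
    (hh : Summable h) (hb : ∀ a, |f a - g a| ≤ h a) : |∑' a, f a - ∑' a, g a| ≤ ∑' a, h a := by
  rw [← hf.tsum_sub hg, ← Real.norm_eq_abs]
  exact tsum_of_norm_bounded hh.hasSum hb

lemma summable_G_ideal (J : (Ideal (𝓞 K))⁰) :
    Summable fun t : (J : Ideal (𝓞 K)) => G (t : 𝓞 K) :=
  summable_G.comp_injective Subtype.val_injective

/-- the bound on a coset -/
noncomputable def Gsum (J : (Ideal (𝓞 K))⁰) : ℝ := ∑' t : (J : Ideal (𝓞 K)), G (t : 𝓞 K)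

lemma Gsum_nonneg (J : (Ideal (𝓞 K))⁰) : 0 ≤ Gsum J := tsum_nonneg fun t => G_nonneg _

lemma summable_wt_coset (J : (Ideal (𝓞 K))⁰) (c : 𝓞 K) {s : ℝ} (hs : 1 < s) :
    Summable fun t : (J : Ideal (𝓞 K)) => wt s (emb ((t : 𝓞 K) + c)) :=
  (summable_wt_emb hs).comp_injective (i := fun t : (J : Ideal (𝓞 K)) => (t : 𝓞 K) + c)
      (fun a b h => Subtype.ext (add_right_cancel h))

lemma exists_coset_bound_one (J : (Ideal (𝓞 K))⁰) (c : 𝓞 K) : ∃ C : ℝ, 0 ≤ C ∧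
    ∀ s : ℝ, 1 < s → s ≤ 2 →
    |(∑' t : (J : Ideal (𝓞 K)), wt s (emb ((t : 𝓞 K) + c))) -
      ∑' t : (J : Ideal (𝓞 K)), wt s (emb (t : 𝓞 K))| ≤ C := by
  obtain ⟨C, hC0, hC⟩ := exists_diff_bound c
  refine ⟨C * Gsum J, mul_nonneg hC0 (Gsum_nonneg J), fun s hs1 hs2 => ?_⟩
  rw [Gsum, ← tsum_mul_left]
  exact abs_tsum_sub_tsum_le (fun t : (J : Ideal (𝓞 K)) => wt s (emb ((t : 𝓞 K) + c)))
    (fun t : (J : Ideal (𝓞 K)) => wt s (emb (t : 𝓞 K)))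
    (fun t : (J : Ideal (𝓞 K)) => C * G (t : 𝓞 K)) (summable_wt_coset J c hs1)
    (summable_wt_ideal hs1) ((summable_G_ideal J).mul_left _) (fun t => hC _ s hs1.le hs2)

instance finite_quot (J : (Ideal (𝓞 K))⁰) : Finite (𝓞 K ⧸ (J : Ideal (𝓞 K))) :=
  Ring.HasFiniteQuotients.finiteQuotient (nonZeroDivisors.coe_ne_zero J)

noncomputable instance fintype_quot (J : (Ideal (𝓞 K))⁰) : Fintype (𝓞 K ⧸ (J : Ideal (𝓞 K))) :=
  Fintype.ofFinite _

lemma cosetEquiv_apply (J : (Ideal (𝓞 K))⁰)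
    (a : (𝓞 K ⧸ (J : Ideal (𝓞 K))) × (J : Ideal (𝓞 K))) :
    cosetEquiv J a = (a.2 : 𝓞 K) + a.1.out := rfl

lemma summable_wt_cosetEquiv (J : (Ideal (𝓞 K))⁰) {s : ℝ} (hs : 1 < s) :
    Summable fun a : (𝓞 K ⧸ (J : Ideal (𝓞 K))) × (J : Ideal (𝓞 K)) =>
      wt s (emb (cosetEquiv J a)) :=
  (cosetEquiv J).summable_iff (f := fun β => wt s (emb β)) |>.mpr (summable_wt_emb hs)

lemma tsum_wt_cosetEquiv (J : (Ideal (𝓞 K))⁰) (s : ℝ) :
    (∑' a : (𝓞 K ⧸ (J : Ideal (𝓞 K))) × (J : Ideal (𝓞 K)),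
      wt s (emb (cosetEquiv J a))) = ∑' β : 𝓞 K, wt s (emb β) :=
  (cosetEquiv J).tsum_eq (fun β => wt s (emb β))

lemma tsum_coset (J : (Ideal (𝓞 K))⁰) {s : ℝ} (hs : 1 < s) : (∑' β : 𝓞 K, wt s (emb β)) =
    ∑ q : 𝓞 K ⧸ (J : Ideal (𝓞 K)), ∑' t : (J : Ideal (𝓞 K)),
      wt s (emb ((t : 𝓞 K) + q.out)) := by
  rw [← tsum_wt_cosetEquiv J s, (summable_wt_cosetEquiv J hs).tsum_prod, tsum_fintype]
  simp_rw [cosetEquiv_apply]

lemma absNorm_eq_sum (J : (Ideal (𝓞 K))⁰) : (absNorm (J : Ideal (𝓞 K)) : ℝ) =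
    ∑ _q : 𝓞 K ⧸ (J : Ideal (𝓞 K)), (1 : ℝ) := by
  rw [Finset.sum_const, Finset.card_univ, nsmul_eq_mul, mul_one, Ideal.absNorm_apply,
      Submodule.cardQuot_apply, Nat.card_eq_fintype_card]

lemma exists_bound_of_finset {α β : Type*} [Fintype α] (f g : α → β → ℝ) (P : β → Prop)
    (h : ∀ a, ∃ C : ℝ, 0 ≤ C ∧ ∀ b, P b → |f a b - g a b| ≤ C) :
    ∃ C : ℝ, 0 ≤ C ∧ ∀ b, P b → |∑ a, f a b - ∑ a, g a b| ≤ C := by
  choose C hC0 hC using h
  have h0 : 0 ≤ ∑ a, C a := Finset.sum_nonneg fun a _ => hC0 a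
  refine ⟨∑ a, C a, h0, fun b hb => ?_⟩
  rw [← Finset.sum_sub_distrib]
  refine (Finset.abs_sum_le_sum_abs _ _).trans ?_
  exact Finset.sum_le_sum (fun a _ => hC a b hb)

lemma exists_coset_bound (J : (Ideal (𝓞 K))⁰) : ∃ C : ℝ, 0 ≤ C ∧ ∀ s : ℝ, 1 < s ∧ s ≤ 2 →
    |(∑' β : 𝓞 K, wt s (emb β)) - (absNorm (J : Ideal (𝓞 K)) : ℝ) *
      ∑' β : (J : Ideal (𝓞 K)), wt s (emb (β : 𝓞 K))| ≤ C := by
  have h := exists_bound_of_finset (α := 𝓞 K ⧸ (J : Ideal (𝓞 K))) (β := ℝ)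
    (fun q s => ∑' t : (J : Ideal (𝓞 K)), wt s (emb ((t : 𝓞 K) + q.out)))
    (fun _ s => ∑' t : (J : Ideal (𝓞 K)), wt s (emb (t : 𝓞 K))) (fun s => 1 < s ∧ s ≤ 2)
    (fun q => by
      obtain ⟨C, hC0, hC⟩ := exists_coset_bound_one J q.out
      exact ⟨C, hC0, fun s hs => hC s hs.1 hs.2⟩)
  obtain ⟨C, hC0, hC⟩ := h
  refine ⟨C, hC0, fun s hs => ?_⟩
  rw [tsum_coset J hs.1, absNorm_eq_sum, Finset.sum_mul]
  simp_rw [one_mul]
  exact hC s hs

end Fermat.Agent.H76
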