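import Fermat.Agent.H76U3

/-!
# S47: instances of lattice types (helper76)

* `TD.std` : balls `v x ≤ a`, `v x ≤ b`, `v x ≤ c` (the standard Rodier type);
* `TD.sd` : the self-dual type attached to `s` of order three and `e` with `Tr e = 1`,
  `Tr (e * s e) = 0`;
* openness and boundedness of `TD.U`.
-/

set_option autoImplicit false
set_option linter.unusedSectionVars false

noncomputable section

open IsDedekindDomain HeightOneSpectrum WithZero NumberField Matrix
open scoped MatrixGroups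

namespace Fermat.Agent.H76U

open Fermat.Agent.H59XF Fermat.Agent.H59D

section Std

variable {K : Type*} [Field K] {Γ₀ : Type*} [LinearOrderedCommGroupWithZero Γ₀]
  (v : Valuation K Γ₀)

/-- The ball `v x ≤ r`. -/
def ball (r : Γ₀) : AddSubgroup K where
  carrier := {x | v x ≤ r}
  add_mem' := fun {x y} hx hy => Valuation.map_add_le v hx hy
  zero_mem' := by simp
  neg_mem' := fun {x} hx => by
    show v (-x) ≤ r
    rw [Valuation.map_neg]; exact hx

@[simp] theorem mem_ball {r : Γ₀} {x : K} : x ∈ ball v r ↔ v x ≤ r := Iff.rfl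

theorem val_one_add {x : K} (h : v x < 1) : v (1 + x) = 1 := Valuation.map_one_add_of_lt v h

/-- The standard type. -/
def TD.std (a b c : Γ₀) (ha : a < 1) (hbc : b * c ≤ a) (psi : AddChar K ℂ)
    (hpsi : ∀ x, v x ≤ a * b → psi x = 1) : TD K where
  A := ball v a
  B := ball v b
  C := ball v c
  psi := psi
  AA x hx y hy := by
    rw [mem_ball] at *
    rw [map_mul]
    exact (mul_le_mul' hx hy).trans ((mul_le_mul' le_rfl ha.le).trans (mul_one a).le)
  AB x hx y hy := by
    rw [mem_ball] at *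
    rw [map_mul]
    exact (mul_le_mul' hx hy).trans ((mul_le_mul' ha.le le_rfl).trans (one_mul b).le)
  AC x hx y hy := by
    rw [mem_ball] at *
    rw [map_mul]
    exact (mul_le_mul' hx hy).trans ((mul_le_mul' ha.le le_rfl).trans (one_mul c).le)
  BC x hx y hy := by
    rw [mem_ball] at *
    rw [map_mul]
    exact (mul_le_mul' hx hy).trans hbc
  ne x hx := by
    intro h0
    have h := val_one_add v (lt_of_le_of_lt hx ha)
    rw [h0, map_zero] at h
    exact zero_ne_one h
  inv x hx := by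
    rw [mem_ball] at *
    have h := val_one_add v (lt_of_le_of_lt hx ha)
    have hne : 1 + x ≠ 0 := by
      intro h0
      rw [h0, map_zero] at h
      exact zero_ne_one h
    have e : (1 + x)⁻¹ - 1 = -x * (1 + x)⁻¹ := by field_simp; ring
    rw [e, map_mul, map_inv₀, h, inv_one, mul_one, Valuation.map_neg]
    exact hx
  psi_AB x hx y hy := by
    rw [mem_ball] at *
    apply hpsi
    rw [map_mul]
    exact mul_le_mul' hx hy

end Std

section SelfDual

variable {K : Type*} [Field K] {Γ₀ : Type*} [LinearOrderedCommGroupWithZero Γ₀]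

/-- A self-dual normal basis generator for an automorphism of order three. -/
structure SD (K : Type*) [Field K] where
  s : K ≃+* K
  s3 : ∀ x, s (s (s x)) = x
  e : K
  e_one : e + s e + s (s e) = 1
  e_zero : e * s e + s e * s (s e) + s (s e) * e = 0

namespace SD

variable (D : SD K)

/-- The trace. -/
def T (x : K) : K := x + D.s x + D.s (D.s x)

theorem T_add (x y : K) : D.T (x + y) = D.T x + D.T y := by
  simp only [T, map_add]; ring

theorem T_neg (x : K) : D.T (-x) = -D.T x := by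
  simp only [T, map_neg]; ring

theorem T_zero : D.T 0 = 0 := by simp [T]

theorem s_T (x : K) : D.s (D.T x) = D.T x := by
  simp only [T, map_add, D.s3]; ring

theorem T_s (x : K) : D.T (D.s x) = D.T x := by
  simp only [T, D.s3]; ring

theorem T_mul_fixed {x y : K} (hy : D.s y = y) : D.T (x * y) = D.T x * y := by
  simp only [T, map_mul, hy]; ring

/-- The basis. -/
def b : Fin 3 → K := ![D.e, D.s D.e, D.s (D.s D.e)]

@[simp] theorem b_zero : D.b 0 = D.e := rfl
@[simp] theorem b_one : D.b 1 = D.s D.e := rfl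
@[simp] theorem b_two : D.b 2 = D.s (D.s D.e) := rfl

theorem sum_sq : D.e * D.e + D.s D.e * D.s D.e + D.s (D.s D.e) * D.s (D.s D.e) = 1 := by
  have h1 := D.e_one
  have h2 := D.e_zero
  linear_combination (D.e + D.s D.e + D.s (D.s D.e) + 1) * h1 - 2 * h2

theorem expand (x : K) :
    x = D.T (x * D.b 0) * D.b 0 + D.T (x * D.b 1) * D.b 1 + D.T (x * D.b 2) * D.b 2 := by
  simp only [T, b_zero, b_one, b_two, map_mul, D.s3]
  have h1 := D.sum_sq
  have h2 := D.e_zero
  linear_combination (-x) * h1 - (D.s x + D.s (D.s x)) * h2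

/-- The trace form in coordinates. -/
theorem T_mul (x y : K) : D.T (x * y) = D.T (x * D.b 0) * D.T (y * D.b 0) +
    D.T (x * D.b 1) * D.T (y * D.b 1) + D.T (x * D.b 2) * D.T (y * D.b 2) := by
  have h := D.expand x
  have e : x * y = (y * D.b 0) * D.T (x * D.b 0) + (y * D.b 1) * D.T (x * D.b 1) +
      (y * D.b 2) * D.T (x * D.b 2) := by
    linear_combination y * h
  rw [e, T_add, T_add, D.T_mul_fixed (D.s_T _), D.T_mul_fixed (D.s_T _), D.T_mul_fixed (D.s_T _)]
  ring

variable (v : Valuation K Γ₀)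

/-- The lattice `Lat r`. -/
def Lat (r : Γ₀) : AddSubgroup K where
  carrier := {x | ∀ i, v (D.T (x * D.b i)) ≤ r}
  add_mem' := fun {x y} hx hy i => by
    rw [add_mul, T_add]
    exact Valuation.map_add_le v (hx i) (hy i)
  zero_mem' := fun i => by rw [zero_mul, T_zero, map_zero]; exact zero_le
  neg_mem' := fun {x} hx i => by
    rw [neg_mul, T_neg, Valuation.map_neg]; exact hx i

theorem mem_Lat {r : Γ₀} {x : K} : x ∈ D.Lat v r ↔ ∀ i, v (D.T (x * D.b i)) ≤ r := Iff.rfl

theorem T_b (i : Fin 3) : D.T (D.b i) = 1 := by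
  have h := D.e_one
  fin_cases i
  · exact h
  · show D.T (D.s D.e) = 1
    rw [T_s]; exact h
  · show D.T (D.s (D.s D.e)) = 1
    rw [T_s, T_s]; exact h

/-- Fixed elements of the lattice. -/
theorem mem_Lat_fixed {r : Γ₀} {x : K} (hx : D.s x = x) : x ∈ D.Lat v r ↔ v x ≤ r := by
  have h : ∀ i, D.T (x * D.b i) = x := fun i => by
    rw [mul_comm, D.T_mul_fixed hx, T_b, one_mul]
  rw [mem_Lat]
  simp only [h]
  exact ⟨fun h => h 0, fun h _ => h⟩

theorem s_mem_Lat {r : Γ₀} {x : K} (hx : x ∈ D.Lat v r) : D.s x ∈ D.Lat v r := by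
  intro i
  have h0 : D.T (D.s x * D.b 0) = D.T (x * D.b 2) := by
    rw [← D.T_s (x * D.b 2), map_mul]
    simp [D.s3]
  have h1 : D.T (D.s x * D.b 1) = D.T (x * D.b 0) := by
    rw [← D.T_s (x * D.b 0), map_mul]
    simp
  have h2 : D.T (D.s x * D.b 2) = D.T (x * D.b 1) := by
    rw [← D.T_s (x * D.b 1), map_mul]
    simp
  fin_cases i
  · exact h0 ▸ hx 2
  · exact h1 ▸ hx 0
  · exact h2 ▸ hx 1

theorem T_mem {r r' : Γ₀} {x y : K} (hx : x ∈ D.Lat v r) (hy : y ∈ D.Lat v r') :
    v (D.T (x * y)) ≤ r * r' := by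
  rw [T_mul]
  refine Valuation.map_add_le v (Valuation.map_add_le v ?_ ?_) ?_
  all_goals rw [map_mul]; exact mul_le_mul' (hx _) (hy _)

/-- Products, with structure constants bounded by `cc`. -/
theorem mul_mem {cc : Γ₀} (hcc : ∀ i j, D.b i * D.b j ∈ D.Lat v cc) {r r' : Γ₀} {x y : K}
    (hx : x ∈ D.Lat v r) (hy : y ∈ D.Lat v r') : x * y ∈ D.Lat v (r * r' * cc) := by
  -- `x * b k ∈ Lat (r * cc)`
  have key : ∀ {r : Γ₀} {x : K} (_ : x ∈ D.Lat v r) (k : Fin 3), x * D.b k ∈ D.Lat v (r * cc) := by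
    intro r x hx k i
    have h1 : x * D.b k * D.b i = x * (D.b k * D.b i) := by ring
    rw [h1]
    exact D.T_mem v hx (hcc k i)
  intro i
  have h1 : x * y * D.b i = x * (y * D.b i) := by ring
  rw [h1]
  refine (D.T_mem v hx (key hy i)).trans (le_of_eq ?_)
  rw [mul_assoc]

theorem val_le_of_mem {r β : Γ₀} (hβ : ∀ i, v (D.b i) ≤ β) {x : K} (hx : x ∈ D.Lat v r) :
    v x ≤ r * β := by
  rw [D.expand x]
  refine Valuation.map_add_le v (Valuation.map_add_le v ?_ ?_) ?_
  all_goals rw [map_mul]; exact mul_le_mul' (hx _) (hβ _)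

theorem mem_of_val_le (hs : ∀ x, v (D.s x) = v x) {r β : Γ₀} (hβ : ∀ i, v (D.b i) ≤ β) {x : K}
    (hx : v x * β ≤ r) : x ∈ D.Lat v r := by
  intro i
  have h : v (x * D.b i) ≤ r := by
    rw [map_mul]
    exact (mul_le_mul' le_rfl (hβ i)).trans hx
  refine Valuation.map_add_le v (Valuation.map_add_le v h ?_) ?_
  · rw [hs]; exact h
  · rw [hs, hs]; exact h

/-- The self-dual type. -/
def td {cc a b c : Γ₀} (hcc : ∀ i j, D.b i * D.b j ∈ D.Lat v cc) (ha : a < 1)
    (hac : a * cc ≤ 1) (hbc : b * c * cc ≤ a) (psi : AddChar K ℂ)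
    (hpsi : ∀ x, v (D.T x) ≤ a * b → psi x = 1) : TD K :=
  have hmono : ∀ {r r' : Γ₀}, r ≤ r' → ∀ {x}, x ∈ D.Lat v r → x ∈ D.Lat v r' :=
    fun h _ hx i => (hx i).trans h
  have hAr : ∀ {r : Γ₀} {x y : K}, x ∈ D.Lat v a → y ∈ D.Lat v r → x * y ∈ D.Lat v r := by
    intro r x y hx hy
    refine hmono ?_ (D.mul_mem v hcc hx hy)
    calc a * r * cc = r * (a * cc) := by rw [mul_comm a r, mul_assoc]
      _ ≤ r * 1 := mul_le_mul' le_rfl hac
      _ = r := mul_one r
  have hone : ∀ {x y : K}, x - 1 ∈ D.Lat v a → y - 1 ∈ D.Lat v a → x * y - 1 ∈ D.Lat v a := by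
    intro x y hx hy
    have h : x * y - 1 = (x - 1) * (y - 1) + (x - 1) + (y - 1) := by ring
    rw [h]
    exact (D.Lat v a).add_mem ((D.Lat v a).add_mem (hAr hx hy) hx) hy
  -- the norm
  have hN : ∀ x ∈ D.Lat v a, ∃ y : K, D.s y = y ∧ v y ≤ a ∧
      (1 + x) * ((1 + D.s x) * (1 + D.s (D.s x))) = 1 + y := by
    intro x hx
    refine ⟨(1 + x) * ((1 + D.s x) * (1 + D.s (D.s x))) - 1, ?_, ?_, by ring⟩
    · simp only [map_sub, map_mul, map_add, map_one, D.s3]; ring
    · have h1 : D.s ((1 + x) * ((1 + D.s x) * (1 + D.s (D.s x))) - 1) =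
          (1 + x) * ((1 + D.s x) * (1 + D.s (D.s x))) - 1 := by
        simp only [map_sub, map_mul, map_add, map_one, D.s3]; ring
      rw [← D.mem_Lat_fixed v h1]
      have hx1 : (1 + x) - 1 ∈ D.Lat v a := by rw [add_sub_cancel_left]; exact hx
      have hx2 : (1 + D.s x) - 1 ∈ D.Lat v a := by
        rw [add_sub_cancel_left]; exact D.s_mem_Lat v hx
      have hx3 : (1 + D.s (D.s x)) - 1 ∈ D.Lat v a := by
        rw [add_sub_cancel_left]; exact D.s_mem_Lat v (D.s_mem_Lat v hx)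
      exact hone hx1 (hone hx2 hx3)
  have hne : ∀ x ∈ D.Lat v a, 1 + x ≠ 0 := by
    intro x hx h0
    obtain ⟨y, _, hy, h⟩ := hN x hx
    rw [h0, zero_mul] at h
    have h1 := val_one_add v (lt_of_le_of_lt hy ha)
    rw [← h, map_zero] at h1
    exact zero_ne_one h1
  { A := D.Lat v a
    B := D.Lat v b
    C := D.Lat v c
    psi := psi
    AA := fun x hx y hy => hAr hx hy
    AB := fun x hx y hy => hAr hx hy
    AC := fun x hx y hy => hAr hx hy
    BC := fun x hx y hy => hmono hbc (D.mul_mem v hcc hx hy)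
    ne := hne
    inv := by
      intro x hx
      obtain ⟨y, hsy, hy, h⟩ := hN x hx
      have h1 := val_one_add v (lt_of_le_of_lt hy ha)
      have hy0 : 1 + y ≠ 0 := by
        intro h0
        rw [h0, map_zero] at h1
        exact zero_ne_one h1
      have hx0 := hne x hx
      have e : (1 + x)⁻¹ = ((1 + D.s x) * (1 + D.s (D.s x))) * (1 + y)⁻¹ := by
        rw [← h]
        have h2 : (1 + D.s x) * (1 + D.s (D.s x)) ≠ 0 := by
          intro h3
          rw [h3, mul_zero] at h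
          exact hy0 h.symm
        rw [mul_inv, mul_comm ((1 + x)⁻¹), ← mul_assoc, mul_inv_cancel₀ h2, one_mul]
      rw [e]
      have hx2 : (1 + D.s x) - 1 ∈ D.Lat v a := by
        rw [add_sub_cancel_left]; exact D.s_mem_Lat v hx
      have hx3 : (1 + D.s (D.s x)) - 1 ∈ D.Lat v a := by
        rw [add_sub_cancel_left]; exact D.s_mem_Lat v (D.s_mem_Lat v hx)
      refine hone (hone hx2 hx3) ?_
      have h4 : D.s ((1 + y)⁻¹ - 1) = (1 + y)⁻¹ - 1 := by
        rw [map_sub, map_inv₀, map_add, map_one, hsy]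
      rw [D.mem_Lat_fixed v h4]
      have h5 : (1 + y)⁻¹ - 1 = -y * (1 + y)⁻¹ := by field_simp; ring
      rw [h5, map_mul, map_inv₀, h1, inv_one, mul_one, Valuation.map_neg]
      exact hy
    psi_AB := fun x hx y hy => hpsi _ (D.T_mem v hx hy) }

end SD

/-- The self-dual normal basis of a cubic Kummer extension. -/
def SD.kummer (s : K ≃+* K) (om th : K) (h3 : (3 : K) ≠ 0) (hom : om ^ 2 + om + 1 = 0)
    (hsom : s om = om) (hth : th ≠ 0) (hsth : s th = om * th)
    (s3 : ∀ x, s (s (s x)) = x) : SD K :=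
  have h : s (3 : K)⁻¹ = (3 : K)⁻¹ := by rw [map_inv₀, map_ofNat]
  have hom3 : om ^ 3 = 1 := by linear_combination (om - 1) * hom
  have hom0 : om ≠ 0 := by
    intro h0; rw [h0] at hom; simp at hom
  have homi : om⁻¹ = om ^ 2 := by
    field_simp
    linear_combination -hom3
  have hi : s th⁻¹ = om ^ 2 * th⁻¹ := by
    rw [map_inv₀, hsth, mul_inv, homi]
  have hc : (3 : K) * (3 : K)⁻¹ = 1 := mul_inv_cancel₀ h3
  have hab : th * th⁻¹ = 1 := mul_inv_cancel₀ hth
  { s := s
    s3 := s3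
    e := (1 + th + th⁻¹) * (3 : K)⁻¹
    e_one := by
      simp only [map_mul, map_add, map_one, hsth, hi, hsom, h, map_pow]
      linear_combination ((3 : K)⁻¹ * (th + th⁻¹)
        + (3 : K)⁻¹ * th⁻¹ * (om * (om - 1))) * hom + hc
    e_zero := by
      simp only [map_mul, map_add, map_one, hsth, hi, hsom, h, map_pow]
      have h4 : om ^ 4 = om := by linear_combination om * hom3
      have e1 : om * (om * th) = om ^ 2 * th := by ring
      have e2 : om ^ 2 * (om ^ 2 * th⁻¹) = om * th⁻¹ := by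
        linear_combination th⁻¹ * h4
      rw [e1, e2]
      linear_combination ((3 : K)⁻¹ ^ 2 * (2 * (th + th⁻¹) + om * (th ^ 2 + th⁻¹ ^ 2)
        + th * th⁻¹ * (3 + om * (om - 1)))) * hom - 3 * (3 : K)⁻¹ ^ 2 * hab }

end SelfDual

section LevelFacts

variable {R : Type*} [CommRing R] [IsDedekindDomain R] {K : Type*} [Field K] [Algebra R K]
  [IsFractionRing R K] (T : TD K) (w : HeightOneSpectrum R)

/-- The level of a type is open. -/
theorem TD.gam_le {n : ℕ} (h : ∀ x, w.valuation K x ≤ exp (-(n : ℤ)) →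
    x ∈ T.A ∧ x ∈ T.B ∧ x ∈ T.C ∧ T.psi x = 1) : Gam w n ≤ T.U := by
  rintro _ ⟨x, hx, rfl⟩
  have h00 := h _ (hx.2 0 0)
  have h01 := h _ (hx.2 0 1)
  have h10 := h _ (hx.2 1 0)
  have h11 := h _ (hx.2 1 1)
  simp only [Matrix.one_apply, if_true, Fin.zero_eq_one_iff, OfNat.ofNat_ne_one, if_false,
    Fin.one_eq_zero_iff, sub_zero] at h00 h01 h10 h11
  have hmem : x ∈ T.GH := ⟨h00.1, h01.2.1, h10.2.2.1, h11.1⟩
  refine ⟨⟨x, hmem, rfl⟩, ?_⟩
  show T.chi (ProjGenLinGroup.mk x) = 1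
  rw [T.chi_of_mem hmem]
  exact h01.2.2.2

/-- The group of a type is bounded. -/
theorem TD.bdd_H {t : Kˣ} (hA : ∀ x ∈ T.A, w.valuation K x < 1)
    (hB : ∀ x ∈ T.B, w.valuation K x ≤ w.valuation K (t : K))
    (hC : ∀ x ∈ T.C, w.valuation K x * w.valuation K (t : K) ≤ 1) :
    ∀ g ∈ T.H, (ProjGenLinGroup.mk (dM t))⁻¹ * g * ProjGenLinGroup.mk (dM t) ∈ U0 w := by
  rintro _ ⟨x, hx, rfl⟩
  have ht : w.valuation K (t : K) ≠ 0 := (Valuation.ne_zero_iff _).2 t.ne_zero
  refine ⟨(dM t)⁻¹ * x * dM t, ⟨?_, ?_⟩, by rw [map_mul, map_mul, map_inv]⟩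
  · have e : (((dM t)⁻¹ * x * dM t : GL (Fin 2) K) : Matrix (Fin 2) (Fin 2) K)
        = !![x 0 0, (t : K)⁻¹ * x 0 1; x 1 0 * t, x 1 1] := by
      have hd : ((dM t)⁻¹ : GL (Fin 2) K) = dM t⁻¹ := by
        rw [inv_eq_iff_mul_eq_one, dM_mul_dM, mul_inv_cancel]
        ext i j
        fin_cases i <;> fin_cases j <;> simp
      rw [Units.val_mul, Units.val_mul, hd, coe_dM, coe_dM,
        Matrix.eta_fin_two (x : Matrix (Fin 2) (Fin 2) K), Matrix.mul_fin_two, Matrix.mul_fin_two]
      have ht0 : (t : K) ≠ 0 := t.ne_zero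
      ext i j
      fin_cases i <;> fin_cases j
      · simp
        field_simp
      · simp
      · simp
      · simp
    have hone : ∀ y, y - 1 ∈ T.A → w.valuation K y ≤ 1 := by
      intro y hy
      have h1 := val_one_add (w.valuation K) (hA _ hy)
      rw [add_sub_cancel] at h1
      exact h1.le
    intro i j
    rw [e]
    fin_cases i <;> fin_cases j
    · exact hone _ hx.1
    · show w.valuation K ((t : K)⁻¹ * x 0 1) ≤ 1
      rw [map_mul, map_inv₀]
      refine (mul_le_mul' le_rfl (hB _ hx.2.1)).trans ?_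
      rw [inv_mul_cancel₀ ht]
    · show w.valuation K (x 1 0 * t) ≤ 1
      rw [map_mul]
      exact hC _ hx.2.2.1
    · exact hone _ hx.2.2.2
  · have h1 : (((dM t)⁻¹ * x * dM t : GL (Fin 2) K) : Matrix (Fin 2) (Fin 2) K).det
        = (x : Matrix (Fin 2) (Fin 2) K).det := by
      rw [Units.val_mul, Units.val_mul, Matrix.det_mul, Matrix.det_mul, mul_comm (Matrix.det _),
        mul_assoc, ← Matrix.det_mul, ← Units.val_mul, inv_mul_cancel, Units.val_one,
        Matrix.det_one, mul_one]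
    rw [h1]
    have h2 := T.det_mem hx.1 hx.2.1 hx.2.2.1 hx.2.2.2
    have h3 := val_one_add (w.valuation K) (hA _ h2)
    rw [add_sub_cancel] at h3
    rw [Matrix.det_fin_two]
    exact h3

end LevelFacts

end Fermat.Agent.H76U
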