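import Fermat.Agent.H76U4
import Fermat.Agent.H55DC

/-!
# S47, block (D): from the outer function to I-DC (helper76)

`L' : LevelFam` over ALL places, with `L'.U w = ⊤` for `w ∈ S` and `L'.U w = L.U w` outside
(helper18's format).  `F' : (J → ℍ³) → XF L' → ℂ` with the three explicit invariances gives a
`PGL(2, E)`-invariant typed function on `m.X`, and all fields of `IsDForm` except `growth`.
-/

set_option autoImplicit false
set_option linter.unusedSectionVars false

noncomputable section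

open IsDedekindDomain HeightOneSpectrum WithZero NumberField Matrix MeasureTheory
open scoped MatrixGroups

namespace Fermat.Agent.H76U

open Fermat.Agent.H59XF Fermat.Agent.H59D

section Abstract

variable {G : Type*} [Group G] {ι : Type*} {L L' : LevelFam G ι} {S : Finset ι}

/-- `L'` is trivial (`⊤`) at the places of `S` and equal to `L` outside. -/
structure TopLev (L L' : LevelFam G ι) (S : Finset ι) : Prop where
  out : ∀ i ∉ S, L'.U i = L.U i
  top : ∀ i ∈ S, L'.U i = ⊤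

theorem TopLev.le (h : TopLev L L' S) (i : ι) : L.U i ≤ L'.U i := by
  by_cases hi : i ∈ S
  · rw [h.top i hi]; exact le_top
  · rw [h.out i hi]

/-- The projection `XF L → XF L'`. -/
def tproj (h : TopLev L L' S) (x : XF L) : XF L' :=
  ⟨fun i => Subgroup.quotientMapOfLE (h.le i) (x i), by
    refine x.fin.subset ?_
    intro i hi h0
    apply hi
    show Subgroup.quotientMapOfLE (h.le i) (x.val i) = _
    rw [h0]; rfl⟩

theorem tproj_apply (h : TopLev L L' S) (x : XF L) (i : ι) :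
    tproj h x i = Subgroup.quotientMapOfLE (h.le i) (x i) := rfl

theorem tproj_apply_mk (h : TopLev L L' S) (x : XF L) {i : ι} {g : G}
    (hg : x i = ((g : G) : G ⧸ L.U i)) : tproj h x i = ((g : G) : G ⧸ L'.U i) := by
  rw [tproj_apply, hg]; rfl

theorem quotientMapOfLE_smul {s t : Subgroup G} (h : s ≤ t) (g : G) (x : G ⧸ s) :
    Subgroup.quotientMapOfLE h (g • x) = g • Subgroup.quotientMapOfLE h x := by
  induction x using QuotientGroup.induction_on with
  | H x => rfl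

theorem tproj_smul (h : TopLev L L' S) (g : G) (x : XF L) : tproj h (g • x) = g • tproj h x := by
  apply XF.ext; intro i
  exact quotientMapOfLE_smul (h.le i) g (x i)

theorem tproj_base (h : TopLev L L' S) : tproj h (XF.base L) = XF.base L' := rfl

theorem tproj_upd [DecidableEq ι] (h : TopLev L L' S) (x : XF L) (i : ι) (g : G) :
    tproj h (XF.upd x i ((g : G) : G ⧸ L.U i)) = XF.upd (tproj h x) i ((g : G) : G ⧸ L'.U i) := by
  apply XF.ext; intro j
  by_cases hj : j = i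
  · subst hj
    rw [XF.upd_same, tproj_apply, XF.upd_same]; rfl
  · rw [XF.upd_ne _ hj, tproj_apply, tproj_apply, XF.upd_ne _ hj]

/-- The coordinate of `L'` at a place of `S` carries no information. -/
theorem eq_of_top (h : TopLev L L' S) {i : ι} (hi : i ∈ S) (x y : G ⧸ L'.U i) : x = y := by
  induction x using QuotientGroup.induction_on with
  | H x =>
    induction y using QuotientGroup.induction_on with
    | H y =>
      rw [QuotientGroup.eq, h.top i hi]
      exact Subgroup.mem_top _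

open Classical in
/-- The outer space embeds into `XF L'` (bijectively). -/
def theta (h : TopLev L L' S) (y : XF (restr L S)) : XF L' :=
  ⟨fun i => if hi : i ∈ S then ((1 : G) : G ⧸ L'.U i)
    else Subgroup.quotientMapOfLE (h.le i) (y ⟨i, hi⟩), by
    refine (y.fin.image Subtype.val).subset ?_
    intro i hi
    by_cases h1 : i ∈ S
    · exact absurd (dif_pos h1) hi
    · refine ⟨⟨i, h1⟩, ?_, rfl⟩
      intro h0
      apply hi
      rw [dif_neg h1]
      have h2 : y.val ⟨i, h1⟩ = ((1 : G) : G ⧸ L.U i) := h0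
      show Subgroup.quotientMapOfLE (h.le i) (y.val ⟨i, h1⟩) = _
      rw [h2]; rfl⟩

theorem theta_apply_notMem (h : TopLev L L' S) (y : XF (restr L S)) {i : ι} (hi : i ∉ S) :
    theta h y i = Subgroup.quotientMapOfLE (h.le i) (y ⟨i, hi⟩) := dif_neg hi

theorem theta_smul (h : TopLev L L' S) (g : G) (y : XF (restr L S)) :
    theta h (g • y) = g • theta h y := by
  apply XF.ext; intro i
  by_cases hi : i ∈ S
  · exact eq_of_top h hi _ _
  · rw [theta_apply_notMem h _ hi]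
    show _ = g • theta h y i
    rw [theta_apply_notMem h _ hi]
    exact quotientMapOfLE_smul (h.le i) g (y ⟨i, hi⟩)

theorem theta_proj (h : TopLev L L' S) (x : XF L) : theta h (proj L S x) = tproj h x := by
  apply XF.ext; intro i
  by_cases hi : i ∈ S
  · exact eq_of_top h hi _ _
  · rw [theta_apply_notMem h _ hi]; rfl

variable {Z : Type*} [MulAction G Z]

/-- The lift of a function on `Z × XF L'`. -/
def tlift (hWA : WA L S) (h : TopLev L L' S) (F : Z → XF L' → ℂ) : Z → XF L → ℂ :=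
  lift hWA fun z y => F z (theta h y)

/-- The transformation law in `L'`-form. -/
def TopTyped (L' : LevelFam G ι) (T : ∀ i : ι, Typ (L.U i)) (S : Finset ι)
    (F : Z → XF L' → ℂ) : Prop :=
  ∀ g : G, (∀ i ∈ S, g ∈ (T i).H) → ∀ (z : Z) (y : XF L'),
    (∏ i ∈ S, (T i).chi g) * F (g • z) (g • y) = F z y

theorem TopTyped.out {T : ∀ i : ι, Typ (L.U i)} {F : Z → XF L' → ℂ} (hF : TopTyped L' T S F)
    (h : TopLev L L' S) : OutTyped T S (fun z y => F z (theta h y)) := by
  intro g hg z y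
  show (∏ i ∈ S, (T i).chi g) * F (g • z) (theta h (g • y)) = F z (theta h y)
  rw [theta_smul]
  exact hF g hg z _

theorem tlift_eq (hWA : WA L S) (h : TopLev L L' S) {T : ∀ i : ι, Typ (L.U i)}
    {F : Z → XF L' → ℂ} (hF : TopTyped L' T S F) (z : Z) (x : XF L) {γ : G}
    (hγ : ∀ i ∈ S, x i = ((γ : G) : G ⧸ L.U i)) :
    tlift hWA h F z x = F (γ⁻¹ • z) (γ⁻¹ • tproj h x) := by
  rw [tlift, lift_eq hWA (hF.out h) z x hγ]
  show F _ (theta h (γ⁻¹ • proj L S x)) = _
  rw [theta_smul, theta_proj]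

end Abstract

section Model

variable {E : Type*} [Field E] [NumberField E] {J : Type*} [Fintype J] {m : Model E J}
  {S : Finset (HeightOneSpectrum (𝓞 E))} {L' : LevelFam PGL(2, E) (HeightOneSpectrum (𝓞 E))}

/-- The `PGL₂(E)`-invariant function on `m.X` attached to a function on `(J → ℍ³) × XF L'`. -/
def tform (m : Model E J) (S : Finset (HeightOneSpectrum (𝓞 E)))
    (h : TopLev m.L.fam L' S) (F : (J → H3) → XF L' → ℂ) : m.X → ℂ :=
  fun x => tlift (Z := Zm m) (wa m S) h F x.1 x.2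

variable {h : TopLev m.L.fam L' S} {Ty : ∀ w, Typ (m.L.fam.U w)} {F : (J → H3) → XF L' → ℂ}

theorem tform_eq (hF : TopTyped (Z := Zm m) L' Ty S F) (τ : J → H3) (y : XF m.L.fam)
    {γ : PGL(2, E)} (hγ : ∀ w ∈ S, y w = ((γ : PGL(2, E)) : PGL(2, E) ⧸ m.L.fam.U w)) :
    tform m S h F (τ, y) = F (m.actInf γ⁻¹ τ) (γ⁻¹ • tproj h y) :=
  tlift_eq (Z := Zm m) (wa m S) h hF τ y hγ

theorem tform_inv (hF : TopTyped (Z := Zm m) L' Ty S F) (g : PGL(2, E)) (x : m.X) :
    tform m S h F (g • x) = tform m S h F x :=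
  lift_smul (Z := Zm m) (wa m S) (hF.out h) g x.1 x.2

theorem tform_base (hF : TopTyped (Z := Zm m) L' Ty S F) (τ : J → H3) :
    tform m S h F (τ, XF.base m.L.fam) = F τ (XF.base L') := by
  have h1 := tform_eq (m := m) (h := h) hF τ (XF.base m.L.fam) (γ := 1) (fun w _ => rfl)
  rw [h1, inv_one, one_smul, tproj_base]
  congr 1
  exact one_smul (α := Zm m) PGL(2, E) τ

open Classical in
theorem tform_typ (hF : TopTyped (Z := Zm m) L' Ty S F) {w : HeightOneSpectrum (𝓞 E)}
    (hw : w ∈ S) (g : (Ty w).H) (τ : J → H3) (y : XF m.L.fam) :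
    tform m S h F (τ, XF.upd y w ((Ty w).rt g (y w))) = (Ty w).chi g * tform m S h F (τ, y) :=
  lift_typed (Z := Zm m) (wa m S) (hF.out h) w hw g τ y

theorem tform_cont (hc : ∀ y, Continuous fun τ => F τ y) (y : XF m.L.fam) :
    Continuous fun τ : J → H3 => tform m S h F (τ, y) := by
  have h1 : ∀ y, Continuous (fun z : Zm m => F z (theta h y)) := fun y => hc (theta h y)
  have h2 := continuous_lift (Z := Zm m) (wa m S) h1 y
  exact h2

theorem actInf_measurePreserving (g : PGL(2, E)) :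
    MeasurePreserving (m.actInf g) (volume : Measure (J → H3)) volume :=
  volume_preserving_pi fun j => measurePreserving_smul (ProjGenLinGroup.map (m.e j) g)

theorem actInf_inv_apply (g : PGL(2, E)) (x : J → H3) : m.actInf g⁻¹ (m.actInf g x) = x := by
  have h1 := inv_smul_smul (α := Zm m) g x
  exact h1

theorem actInf_apply_inv (g : PGL(2, E)) (x : J → H3) : m.actInf g (m.actInf g⁻¹ x) = x := by
  have h1 := smul_inv_smul (α := Zm m) g x
  exact h1

theorem actInf_continuous (g : PGL(2, E)) : Continuous (m.actInf g) :=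
  continuous_pi fun j => (continuous_const_smul (ProjGenLinGroup.map (m.e j) g)).comp
    (continuous_apply j)

/-- Radial operators commute with the action. -/
theorem Rk_actInf (κ : (J → ℝ) → ℂ) (f : (J → H3) → ℂ) (g : PGL(2, E)) (x : J → H3) :
    H5Z.Rk κ (fun w => f (m.actInf g w)) x = H5Z.Rk κ f (m.actInf g x) := by
  unfold H5Z.Rk
  have he : MeasurableEmbedding (m.actInf g : (J → H3) → (J → H3)) :=
    (Homeomorph.mk (Equiv.mk (m.actInf g) (m.actInf g⁻¹) (actInf_inv_apply g)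
      (actInf_apply_inv g)) (actInf_continuous g) (actInf_continuous g⁻¹)).measurableEmbedding
  rw [← (actInf_measurePreserving (m := m) g).integral_comp he
    (fun w => κ (H5Z.chv (m.actInf g x) w) * f w)]
  congr 1
  funext w
  have h1 : H5Z.chv (m.actInf g x) (m.actInf g w) = H5Z.chv x w :=
    funext fun j => ch_smul _ _ _
  rw [h1]

theorem tform_rad (hF : TopTyped (Z := Zm m) L' Ty S F) {κ : (J → ℝ) → ℂ} {c : ℂ}
    (hr : ∀ (y : XF L') (τ : J → H3), H5Z.Rk κ (fun v => F v y) τ = c * F τ y)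
    (y : XF m.L.fam) (τ : J → H3) :
    H5Z.Rk κ (fun v => tform m S h F (v, y)) τ = c * tform m S h F (τ, y) :=
  arch_lift_eig (Z := Zm m) (wa m S) (hF.out h) (H5Z.Rk κ)
    (fun g f z => Rk_actInf κ f g z) (fun y z => hr (theta h y) z) τ y

open Classical in
/-- Hecke operators at the places outside `S`. -/
theorem tform_hecke (hF : TopTyped (Z := Zm m) L' Ty S F) {w : HeightOneSpectrum (𝓞 E)}
    (hw : w ∉ S) {ϖ : Eˣ} {R : Finset E} {lam : ℂ}
    (hH : ∀ τ : J → H3, H7.Z.HeckeEq (H7.Z.borP E) L' (fun y => F τ y) w ϖ R lam) (τ : J → H3) :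
    H7.Z.HeckeEq (H7.Z.borP E) m.L.fam (fun y => tform m S h F (τ, y)) w ϖ R lam := by
  intro y g hg
  obtain ⟨γ, hγ⟩ := (wa m S).exists_rep y
  have hupd : ∀ a : PGL(2, E), ∀ v ∈ S,
      XF.upd y w ((a : PGL(2, E)) : PGL(2, E) ⧸ m.L.fam.U w) v
        = ((γ : PGL(2, E)) : PGL(2, E) ⧸ m.L.fam.U v) := by
    intro a v hv
    have hne : v ≠ w := fun h0 => hw (h0 ▸ hv)
    rw [XF.upd_ne _ hne, hγ v hv]
  have h1 := hH (m.actInf γ⁻¹ τ) (γ⁻¹ • tproj h y) (γ⁻¹ * g) (by
    show γ⁻¹ • tproj h y w = _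
    rw [tproj_apply_mk h y hg]; rfl)
  have h2 : ∀ a : PGL(2, E), tform m S h F (τ, XF.upd y w ((a : PGL(2, E)) : PGL(2, E) ⧸ m.L.fam.U w))
      = F (m.actInf γ⁻¹ τ) (XF.upd (γ⁻¹ • tproj h y) w
          ((γ⁻¹ * a : PGL(2, E)) : PGL(2, E) ⧸ L'.U w)) := by
    intro a
    rw [tform_eq hF τ _ (hupd a), tproj_upd, XF.smul_upd]
    rfl
  show lam * tform m S h F (τ, y) = _
  rw [tform_eq hF τ y hγ, h1]
  congr 1
  · apply Finset.sum_congr rfl
    intro b _
    refine Eq.trans ?_ (h2 _).symm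
    have e : γ⁻¹ * g * (H7.Z.borP E).n b * (H7.Z.borP E).d ϖ
        = γ⁻¹ * (g * (H7.Z.borP E).n b * (H7.Z.borP E).d ϖ) := by group
    rw [e]
  · refine Eq.trans ?_ (h2 _).symm
    have e : γ⁻¹ * g * ((H7.Z.borP E).d ϖ)⁻¹ = γ⁻¹ * (g * ((H7.Z.borP E).d ϖ)⁻¹) := by group
    rw [e]

open Classical in
/-- **Constructor for I-DC.** -/
theorem isDForm_of (hS : S.Nonempty) (T : HeightOneSpectrum (𝓞 E) → TD E)
    (hH : ∀ w ∈ S, (Ty w).H = (T w).H) (hchi : ∀ w ∈ S, ∀ g ∈ (T w).H, (Ty w).chi g = (T w).chi g)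
    (a : HeightOneSpectrum (𝓞 E) → ℝ)
    (hn : ∀ b : E, (∀ w ∈ S, b ∈ (T w).B) → ∀ (τ : J → H3) (y : XF L'),
      (∏ w ∈ S, (T w).psi b) * F (m.actInf ((H7.Z.borP E).n b) τ) ((H7.Z.borP E).n b • y) = F τ y)
    (hd : ∀ t : Eˣ, (∀ w ∈ S, (t : E) - 1 ∈ (T w).A) → ∀ (τ : J → H3) (y : XF L'),
      F (m.actInf ((H7.Z.borP E).d t) τ) ((H7.Z.borP E).d t • y) = F τ y)
    (hl : ∀ c : E, (∀ w ∈ S, c ∈ (T w).C) → ∀ (τ : J → H3) (y : XF L'),
      F (m.actInf (ProjGenLinGroup.mk (lM c)) τ) ((ProjGenLinGroup.mk (lM c) : PGL(2, E)) • y)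
        = F τ y)
    (hc : ∀ y, Continuous fun τ => F τ y)
    (hrad : ∀ κ : (J → ℝ) → ℂ, H9Z.Ker κ → ∀ (y : XF L') (τ : J → H3),
      H5Z.Rk κ (fun v => F v y) τ = H9Z.hat κ * F τ y)
    (hhecke : ∀ w ∉ S, ∀ (ϖ : Eˣ), w.valuation E (ϖ : E) = exp (-(1 : ℤ)) →
      ∀ R : Finset E, H51Z.IsReps (w.valuation E) 1 R → ∀ τ : J → H3,
        H7.Z.HeckeEq (H7.Z.borP E) L' (fun y => F τ y) w ϖ R
          ((Real.sqrt (Ideal.absNorm w.asIdeal) * a w : ℝ) : ℂ))
    (hne : ∃ τ, F τ (XF.base L') ≠ 0)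
    (hgrowth : TopTyped (Z := Zm m) L' Ty S F →
      ∀ y : XF m.L.fam, ∃ A : ℝ, ∀ c : ℝ, 0 < c → ∃ M : ℝ, ∀ τ : J → H3, (∀ j, c ≤ (τ j).y) →
        ‖tform m S h F (τ, y)‖ ≤ M * (∏ j, (τ j).y) ^ A) :
    H55D.IsDForm m S Ty a (tform m S h F) := by
  have en : ∀ b : E, ProjGenLinGroup.mk (nM b) = (H7.Z.borP E).n b := by
    intro b
    rw [H7.Z.borP_n]
    congr 1
  have ed : ∀ t : Eˣ, ProjGenLinGroup.mk (dM t) = (H7.Z.borP E).d t := by
    intro t
    rw [H7.Z.borP_d]
    rfl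
  have hF : TopTyped (Z := Zm m) L' Ty S F := by
    intro g hg z y
    obtain ⟨b, t, c, hb, ht, hc', rfl⟩ := exists_ndl hS T (g := g)
      (fun i hi => hH i hi ▸ hg i hi)
    have e : ∀ i ∈ S, (Ty i).chi (ProjGenLinGroup.mk (nM b) * ProjGenLinGroup.mk (dM t)
        * ProjGenLinGroup.mk (lM c)) = (T i).psi b := by
      intro i hi
      have h1 : ProjGenLinGroup.mk (nM b) ∈ (T i).H := ⟨_, (T i).nM_mem (hb i hi), rfl⟩
      have h2 : ProjGenLinGroup.mk (dM t) ∈ (T i).H := ⟨_, (T i).dM_mem (ht i hi), rfl⟩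
      have h3 : ProjGenLinGroup.mk (lM c) ∈ (T i).H := ⟨_, (T i).lM_mem (hc' i hi), rfl⟩
      rw [hchi i hi _ (Subgroup.mul_mem _ (Subgroup.mul_mem _ h1 h2) h3),
        (T i).chi_mul (Subgroup.mul_mem _ h1 h2) h3, (T i).chi_mul h1 h2,
        (T i).chi_nM, (T i).chi_dM, (T i).chi_lM, mul_one, mul_one]
    rw [Finset.prod_congr rfl e, mul_smul, mul_smul, mul_smul, mul_smul, en, ed]
    have h1 := hn b hb (m.actInf ((H7.Z.borP E).d t) (m.actInf (ProjGenLinGroup.mk (lM c)) z))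
      ((H7.Z.borP E).d t • (ProjGenLinGroup.mk (lM c) : PGL(2, E)) • y)
    have h2 := hd t ht (m.actInf (ProjGenLinGroup.mk (lM c)) z)
      ((ProjGenLinGroup.mk (lM c) : PGL(2, E)) • y)
    have h3 := hl c hc' z y
    exact h1.trans (h2.trans h3)
  exact
    { inv := fun g x => tform_inv hF g x
      cont := fun y => tform_cont hc y
      growth := hgrowth hF
      rad := fun κ hκ y τ => tform_rad hF (hrad κ hκ) y τ
      hecke := fun w hw ϖ hϖ R hR τ => tform_hecke hF hw (hhecke w hw ϖ hϖ R hR) τ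
      typ := fun w hw g τ y => tform_typ hF hw g τ y
      ne := by
        obtain ⟨τ, hτ⟩ := hne
        exact ⟨(τ, XF.base m.L.fam), by rw [tform_base hF]; exact hτ⟩ }

end Model

end Fermat.Agent.H76U
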